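import Mathlib
import Mathlib.NumberTheory.ModularForms.LevelOne.GradedRing
import Mathlib.NumberTheory.ModularForms.Derivative
import Mathlib.Analysis.Complex.LocallyUniformLimit
import Mathlib.Analysis.Complex.TaylorSeries
import Mathlib.Analysis.Calculus.Deriv.Polynomial
import Mathlib.RingTheory.PowerSeries.PiTopology
import Fermat.Prelude.Def_ModularCurve_X0
import Fermat.Prelude.Def_GaloisRep_Residual
import Fermat.Prelude.Def_AlgebraicCurve_Correspondence
import Fermat.Prelude.Def_ModularCurve_LaurentCoeff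
import Fermat.Prelude.Def_ModularCurve_JqCoeff
import Mathlib.RingTheory.Idempotents
import Mathlib.RingTheory.Ideal.Quotient.Operations
import Mathlib.RingTheory.Ideal.Span
import Mathlib.RingTheory.Noetherian.Basic
import Mathlib.Algebra.Algebra.Subalgebra.Basic
import Mathlib.RingTheory.Henselian
import Mathlib.Algebra.Polynomial.Reverse
import Mathlib.Algebra.Polynomial.Taylor
import Mathlib.FieldTheory.IsAlgClosed.Basic
import Mathlib.Tactic.LinearCombination
import Mathlib.Tactic.Ring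
import Mathlib.RingTheory.Valuation.ValuationSubring
import Mathlib.RingTheory.Polynomial.Cyclotomic.Basic
import Mathlib.RingTheory.RootsOfUnity.PrimitiveRoots
import Mathlib.Algebra.Ring.GeomSum
import Mathlib.RingTheory.IntegralClosure.IntegrallyClosed
import Mathlib.Data.Nat.Choose.Sum
import Fermat.Prelude.Def_ModularCurve_ReductionModL
import Mathlib.Data.ZMod.QuotientGroup
import Mathlib.GroupTheory.GroupAction.FixedPoints
import Mathlib.GroupTheory.GroupAction.Quotient
import Mathlib.Dynamics.PeriodicPts.Defs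
import Mathlib.SetTheory.Cardinal.Finite
import Mathlib.Data.Nat.Prime.Basic
import Mathlib.RingTheory.IntegralClosure.IsIntegralClosure.Basic
import Mathlib.RingTheory.Polynomial.ScaleRoots
import Mathlib.Algebra.Polynomial.Lifts
import Mathlib.RingTheory.Adjoin.Basic
import Mathlib.Algebra.Ring.Hom.Defs
import Mathlib.Algebra.Algebra.Defs
import Mathlib.Data.Nat.Cast.Basic
import Mathlib.Algebra.Order.Ring.Nat
import Mathlib.Data.Int.Cast.Lemmas
import Mathlib.RingTheory.PowerSeries.Basic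
import Mathlib.RingTheory.PowerSeries.Expand
import Mathlib.Algebra.Group.Hom.Defs
import Mathlib.Algebra.Order.AbsoluteValue.Basic
import Mathlib.Analysis.SpecialFunctions.Log.Basic
import Mathlib.Data.Real.Basic
import Mathlib.Data.Set.Finite.Basic
import Fermat.Prelude.Def_ModularCurve_ArithmeticGalois
import Fermat.Prelude.Def_ModularForm_HeckeOperatorForms
import Fermat.Prelude.Thm_ModularForm_heckeT_slash_eq_self_of_mem_Gamma0
import Fermat.Prelude.Def_ModularCurve_PeriodMap

-- ===== PACK-BEGIN S15/H208/CountAbs.lean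
section
/-
S15 / DESC, LOC-p without T7 (helper208): the pure-algebra counting lemma CNT-abs.

`X`, `M` additive commutative groups, `ι : M →+ X` with finite kernel, `N : X →+ M` with
`N ∘ ι ∘ N = 0`, `X[r]` finite and `r : X[r^(k+1)] → X[r^k]` surjective for all `k`.  Then
`|N (X[r])| ^ 2 ≤ |X[r]|`.

Application (doc `coord/S15-LOCp-helper208.md`): `X = e · (J/A)[r^∞]`, `M = J[r^∞]_E`,
`N = τ₀ - 1` for an inertia element `τ₀` at `p`; `dim X[r] = D + s₀`, so the subgroup
`U₀ = (τ₀ - 1) Y_E` of `W_E` generated by the ramification at `p` of the Kummer classes of rational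
points has dimension `≤ (D + s₀) / 2`.
-/


set_option autoImplicit false
set_option linter.style.haveILetI false

namespace Fermat.Agent.S15.H208

section Gen

variable {G H : Type*} [AddCommGroup G] [AddCommGroup H]

/-- a group with a surjection onto a finite group with finite kernel -/
theorem finite_and_card_of_surjective (f : G →+ H) (hf : Function.Surjective f)
    (hH : Finite H) (hK : Finite f.ker) :
    Finite G ∧ Nat.card G = Nat.card H * Nat.card f.ker := by
  have e₁ : G ≃ (G ⧸ f.ker) × f.ker := AddSubgroup.addGroupEquivQuotientProdAddSubgroup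
  have e₂ : (G ⧸ f.ker) ≃ H := (QuotientAddGroup.quotientKerEquivOfSurjective f hf).toEquiv
  have e : G ≃ H × f.ker := e₁.trans (Equiv.prodCongr e₂ (Equiv.refl _))
  refine ⟨Finite.of_equiv _ e.symm, ?_⟩
  rw [Nat.card_congr e, Nat.card_prod]

/-- a group with a hom to a finite group with finite kernel (cardinality inequality) -/
theorem finite_and_card_le_of_ker (f : G →+ H) (hH : Finite H) (hK : Finite f.ker) :
    Finite G ∧ Nat.card G ≤ Nat.card H * Nat.card f.ker := by
  haveI := hH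
  have hr : Finite f.range := inferInstance
  obtain ⟨h1, h2⟩ := finite_and_card_of_surjective f.rangeRestrict f.rangeRestrict_surjective hr
    (by rw [AddMonoidHom.ker_rangeRestrict]; exact hK)
  refine ⟨h1, ?_⟩
  rw [h2, AddMonoidHom.ker_rangeRestrict]
  exact Nat.mul_le_mul_right _ (Nat.card_le_card_of_injective Subtype.val Subtype.val_injective)

end Gen

section Tors

variable (X : Type*) [AddCommGroup X]

/-- the `n`-torsion subgroup -/
def torsN (n : ℕ) : AddSubgroup X := (nsmulAddMonoidHom (α := X) n).ker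

variable {X}

theorem mem_torsN {n : ℕ} {x : X} : x ∈ torsN X n ↔ n • x = 0 := by
  rw [torsN, AddMonoidHom.mem_ker]
  rfl

theorem torsN_mono {m n : ℕ} (h : m ∣ n) : torsN X m ≤ torsN X n := by
  intro x hx
  rw [mem_torsN] at hx ⊢
  obtain ⟨c, rfl⟩ := h
  rw [mul_comm, mul_smul, hx, smul_zero]

end Tors

section Count

variable {X M : Type*} [AddCommGroup X] [AddCommGroup M]

/-- multiplication by `r` from `X[r^(k+1)]` to `X[r^k]` -/
def mulR (r k : ℕ) : torsN X (r ^ (k + 1)) →+ torsN X (r ^ k) where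
  toFun x := ⟨r • (x : X), by
    rw [mem_torsN, ← mul_smul, ← pow_succ]
    exact mem_torsN.1 x.2⟩
  map_zero' := by
    apply Subtype.ext
    simp
  map_add' x y := by
    apply Subtype.ext
    simp [smul_add]

theorem mulR_ker_card (r k : ℕ) :
    Nat.card (mulR (X := X) r k).ker = Nat.card (torsN X r) := by
  refine Nat.card_congr ⟨fun x => ⟨((x : torsN X (r ^ (k + 1))) : X), ?_⟩,
    fun x => ⟨⟨(x : X), torsN_mono (dvd_pow_self r (Nat.succ_ne_zero k)) x.2⟩, ?_⟩, ?_, ?_⟩
  · have h := x.2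
    rw [AddMonoidHom.mem_ker] at h
    have h2 := congrArg Subtype.val h
    exact mem_torsN.2 h2
  · rw [AddMonoidHom.mem_ker]
    apply Subtype.ext
    exact mem_torsN.1 x.2
  · intro x
    rfl
  · intro x
    rfl

/-- `|X[r^k]| = |X[r]|^k` for a group whose `r`-power torsion is `r`-divisible and `X[r]` finite -/
theorem card_torsN_pow (r : ℕ)
    (hfin : Finite (torsN X r))
    (hdiv : ∀ k : ℕ, ∀ x : X, r ^ k • x = 0 → ∃ x' : X, r ^ (k + 1) • x' = 0 ∧ r • x' = x)
    (k : ℕ) : Finite (torsN X (r ^ k)) ∧ Nat.card (torsN X (r ^ k)) = Nat.card (torsN X r) ^ k := by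
  induction k with
  | zero =>
    have h0 : ∀ y : X, y ∈ torsN X (r ^ 0) → y = 0 := by
      intro y hy
      have h := mem_torsN.1 hy
      rw [pow_zero, one_smul] at h
      exact h
    have h1 : ∀ x : torsN X (r ^ 0), x = 0 := by
      intro x
      apply Subtype.ext
      exact h0 x.1 x.2
    haveI : Subsingleton (torsN X (r ^ 0)) := ⟨fun a b => by rw [h1 a, h1 b]⟩
    refine ⟨inferInstance, ?_⟩
    have h2 : Nat.card (torsN X (r ^ 0)) = 1 := Nat.card_unique
    rw [h2, pow_zero]
  | succ k ih =>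
    obtain ⟨hf, hc⟩ := ih
    have hsurj : Function.Surjective (mulR (X := X) r k) := by
      rintro ⟨x, hx⟩
      obtain ⟨x', hx', hxx⟩ := hdiv k x (mem_torsN.1 hx)
      exact ⟨⟨x', mem_torsN.2 hx'⟩, Subtype.ext hxx⟩
    have hkfin : Finite (mulR (X := X) r k).ker := by
      have h := mulR_ker_card (X := X) r k
      have hpos : 0 < Nat.card (torsN X r) := Nat.card_pos
      rw [← h] at hpos
      exact (Nat.card_pos_iff.1 hpos).2
    obtain ⟨h1, h2⟩ := finite_and_card_of_surjective (mulR (X := X) r k) hsurj hf hkfin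
    refine ⟨h1, ?_⟩
    rw [h2, hc, mulR_ker_card, pow_succ]

/-- the image `N (X[n])` -/
def imgN (N : X →+ M) (n : ℕ) : AddSubgroup M := (torsN X n).map N

/-- `|N (X[r^k])| ≥ |N (X[r])|^k`. -/
theorem card_imgN_pow_le (r : ℕ) (N : X →+ M)
    (hfin : Finite (torsN X r))
    (hdiv : ∀ k : ℕ, ∀ x : X, r ^ k • x = 0 → ∃ x' : X, r ^ (k + 1) • x' = 0 ∧ r • x' = x)
    (k : ℕ) : Nat.card (imgN N r) ^ k ≤ Nat.card (imgN N (r ^ k)) := by
  induction k with
  | zero =>
    rw [pow_zero]
    have : Finite (torsN X (r ^ 0)) := (card_torsN_pow r hfin hdiv 0).1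
    have : Finite (imgN N (r ^ 0)) := by
      unfold imgN
      exact Finite.Set.finite_image _ _
    exact Nat.card_pos
  | succ k ih =>
    have hfk1 : Finite (torsN X (r ^ (k + 1))) := (card_torsN_pow r hfin hdiv (k + 1)).1
    have hfk : Finite (torsN X (r ^ k)) := (card_torsN_pow r hfin hdiv k).1
    haveI hUk1 : Finite (imgN N (r ^ (k + 1))) := by
      unfold imgN
      exact Finite.Set.finite_image _ _
    haveI hUk : Finite (imgN N (r ^ k)) := by
      unfold imgN
      exact Finite.Set.finite_image _ _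
    -- multiplication by `r` : U_{k+1} → U_k
    let f : imgN N (r ^ (k + 1)) →+ imgN N (r ^ k) :=
      { toFun := fun u => ⟨r • (u : M), by
          obtain ⟨x, hx, hxu⟩ := u.2
          refine ⟨r • x, ?_, ?_⟩
          · have hx' : r ^ (k + 1) • x = 0 := mem_torsN.1 hx
            show r • x ∈ torsN X (r ^ k)
            rw [mem_torsN, ← mul_smul, ← pow_succ]
            exact hx'
          · rw [map_nsmul, hxu]⟩
        map_zero' := by
          apply Subtype.ext
          simp
        map_add' := fun a b => by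
          apply Subtype.ext
          simp [smul_add] }
    have hfsurj : Function.Surjective f := by
      rintro ⟨u, x, hx, rfl⟩
      obtain ⟨x', hx', hxx⟩ := hdiv k x (mem_torsN.1 hx)
      refine ⟨⟨N x', x', mem_torsN.2 hx', rfl⟩, ?_⟩
      apply Subtype.ext
      show r • N x' = N x
      rw [← map_nsmul, hxx]
    obtain ⟨-, hcard⟩ := finite_and_card_of_surjective f hfsurj hUk inferInstance
    -- `U_1` injects into the kernel
    have hinj : Nat.card (imgN N r) ≤ Nat.card f.ker := by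
      refine Nat.card_le_card_of_injective
        (fun u : imgN N r => (⟨⟨(u : M), ?_⟩, ?_⟩ : f.ker)) ?_
      · obtain ⟨x, hx, hxu⟩ := u.2
        refine ⟨x, ?_, hxu⟩
        exact torsN_mono (dvd_pow_self r (Nat.succ_ne_zero k)) hx
      · rw [AddMonoidHom.mem_ker]
        apply Subtype.ext
        show r • (u : M) = 0
        obtain ⟨x, hx, hxu⟩ := u.2
        rw [← hxu, ← map_nsmul, mem_torsN.1 hx, map_zero]
      · intro a b hab
        apply Subtype.ext
        have := congrArg (fun z : f.ker => ((z : imgN N (r ^ (k + 1))) : M)) hab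
        exact this
    rw [hcard, pow_succ]
    exact Nat.mul_le_mul ih hinj

/-- `|N (X[r^k])|^2 ≤ |ker ι| · |X[r^k]|` when `N ∘ ι ∘ N = 0`. -/
theorem card_imgN_sq_le (n : ℕ) (ι : M →+ X) (N : X →+ M) (hN : ∀ x, N (ι (N x)) = 0)
    (hker : Finite ι.ker) (hfin : Finite (torsN X n)) :
    Nat.card (imgN N n) ^ 2 ≤ Nat.card ι.ker * Nat.card (torsN X n) := by
  haveI := hfin
  haveI := hker
  -- `N` restricted to `X[n]`
  let Nn : torsN X n →+ M := N.comp (torsN X n).subtype
  have hrange : Nn.range = imgN N n := by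
    ext u
    constructor
    · rintro ⟨x, rfl⟩
      exact ⟨x, x.2, rfl⟩
    · rintro ⟨x, hx, rfl⟩
      exact ⟨⟨x, hx⟩, rfl⟩
  haveI hUfin : Finite (imgN N n) := by
    unfold imgN
    exact Finite.Set.finite_image _ _
  -- `|X[n]| = |im| · |ker|`
  have h1 : Nat.card (torsN X n) = Nat.card (imgN N n) * Nat.card Nn.ker := by
    obtain ⟨-, h⟩ := finite_and_card_of_surjective Nn.rangeRestrict Nn.rangeRestrict_surjective
      (Finite.of_surjective Nn.rangeRestrict Nn.rangeRestrict_surjective)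
      (by rw [AddMonoidHom.ker_rangeRestrict]; infer_instance)
    rw [h, AddMonoidHom.ker_rangeRestrict, hrange]
  -- `ι` maps the image into `ker Nn`, with kernel inside `ker ι`
  let g : imgN N n →+ Nn.ker :=
    { toFun := fun u => ⟨⟨ι (u : M), by
          obtain ⟨x, hx, hxu⟩ := u.2
          rw [mem_torsN, ← map_nsmul, ← hxu, ← map_nsmul, mem_torsN.1 hx, map_zero, map_zero]⟩, by
          rw [AddMonoidHom.mem_ker]
          obtain ⟨x, hx, hxu⟩ := u.2
          show N (ι (u : M)) = 0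
          rw [← hxu]
          exact hN x⟩
      map_zero' := by
        apply Subtype.ext
        apply Subtype.ext
        simp
      map_add' := fun a b => by
        apply Subtype.ext
        apply Subtype.ext
        simp }
  have hgker : Nat.card g.ker ≤ Nat.card ι.ker := by
    refine Nat.card_le_card_of_injective
      (fun u : g.ker => (⟨((u : imgN N n) : M), ?_⟩ : ι.ker)) ?_
    · have h := u.2
      rw [AddMonoidHom.mem_ker] at h
      have h2 := congrArg (fun z : Nn.ker => ((z : torsN X n) : X)) h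
      rw [AddMonoidHom.mem_ker]
      exact h2
    · intro a b hab
      apply Subtype.ext
      apply Subtype.ext
      exact congrArg (fun z : ι.ker => (z : M)) hab
  obtain ⟨-, h2⟩ := finite_and_card_le_of_ker g inferInstance inferInstance
  calc Nat.card (imgN N n) ^ 2 = Nat.card (imgN N n) * Nat.card (imgN N n) := sq _
    _ ≤ Nat.card (imgN N n) * (Nat.card Nn.ker * Nat.card g.ker) :=
        Nat.mul_le_mul_left _ h2
    _ ≤ Nat.card (imgN N n) * (Nat.card Nn.ker * Nat.card ι.ker) :=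
        Nat.mul_le_mul_left _ (Nat.mul_le_mul_left _ hgker)
    _ = Nat.card ι.ker * Nat.card (torsN X n) := by rw [h1]; ring

/-- arithmetic: `a^(2k) ≤ c · b^k` for all `k` implies `a^2 ≤ b`. -/
theorem sq_le_of_forall_pow_le (a b c : ℕ) (h : ∀ k : ℕ, (a ^ 2) ^ k ≤ c * b ^ k) :
    a ^ 2 ≤ b := by
  by_contra hlt
  have hlt' : b + 1 ≤ a ^ 2 := Nat.lt_of_not_le hlt
  -- `(b+1)^k ≥ b^k + k b^(k-1)`; take `k = c * b + 1`
  have key : ∀ k : ℕ, b ^ (k + 1) + (k + 1) * b ^ k ≤ (b + 1) ^ (k + 1) := by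
    intro k
    induction k with
    | zero => simp
    | succ k ih =>
      calc b ^ (k + 2) + (k + 2) * b ^ (k + 1)
          = (b ^ (k + 1) + (k + 1) * b ^ k) * b + b ^ (k + 1) := by ring
        _ ≤ (b + 1) ^ (k + 1) * b + (b + 1) ^ (k + 1) := by
            refine Nat.add_le_add (Nat.mul_le_mul_right _ ih) ?_
            exact Nat.pow_le_pow_left (Nat.le_succ b) _
        _ = (b + 1) ^ (k + 2) := by ring
  have h1 := h (c * b + 1)
  have h2 : (b + 1) ^ (c * b + 1) ≤ c * b ^ (c * b + 1) :=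
    le_trans (Nat.pow_le_pow_left hlt' _) h1
  have h3 := key (c * b)
  have h4 : b ^ (c * b + 1) + (c * b + 1) * b ^ (c * b) ≤ c * b ^ (c * b + 1) :=
    le_trans h3 h2
  have h5 : c * b ^ (c * b + 1) = (c * b) * b ^ (c * b) := by ring
  rw [h5] at h4
  have h6 : (c * b + 1) * b ^ (c * b) = c * b * b ^ (c * b) + b ^ (c * b) := by ring
  rw [h6] at h4
  -- so `b^(cb+1) + b^(cb) ≤ 0`
  have h7 : b ^ (c * b + 1) + b ^ (c * b) = 0 := by omega
  have h8 : b ^ (c * b) = 0 := by omega
  have hb : b = 0 := by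
    by_contra hb
    exact absurd h8 (pow_ne_zero _ hb)
  subst hb
  -- `b = 0`: `h 0` gives `1 ≤ c`, and `h 1` gives `a^2 ≤ 0`
  have h9 := h 1
  rw [pow_one, pow_one, Nat.mul_zero] at h9
  omega

/-- **CNT-abs.**  `|N (X[r])|² ≤ |X[r]|`. -/
theorem card_imgN_sq_le_card_tors (r : ℕ) (ι : M →+ X) (N : X →+ M)
    (hN : ∀ x, N (ι (N x)) = 0) (hker : Finite ι.ker)
    (hfin : Finite (torsN X r))
    (hdiv : ∀ k : ℕ, ∀ x : X, r ^ k • x = 0 → ∃ x' : X, r ^ (k + 1) • x' = 0 ∧ r • x' = x) :
    Nat.card (imgN N r) ^ 2 ≤ Nat.card (torsN X r) := by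
  refine sq_le_of_forall_pow_le _ _ (Nat.card ι.ker) (fun k => ?_)
  obtain ⟨hfk, hck⟩ := card_torsN_pow r hfin hdiv k
  have h1 := card_imgN_sq_le (r ^ k) ι N hN hker hfk
  have h2 := card_imgN_pow_le r N hfin hdiv k
  calc (Nat.card (imgN N r) ^ 2) ^ k = (Nat.card (imgN N r) ^ k) ^ 2 := by ring
    _ ≤ Nat.card (imgN N (r ^ k)) ^ 2 := Nat.pow_le_pow_left h2 2
    _ ≤ Nat.card ι.ker * Nat.card (torsN X (r ^ k)) := h1
    _ = Nat.card ι.ker * Nat.card (torsN X r) ^ k := by rw [hck]

end Count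

end Fermat.Agent.S15.H208

end
-- ===== PACK-END S15/H208/CountAbs.lean

-- ===== PACK-BEGIN S15/H242/NodalSing.lean
section


/-!
# S15, piece P-LOC (helper242), part 1: the singular point of a nodal Weierstrass cubic

For a Weierstrass cubic `W` over a field (any characteristic) with `Δ = 0` and `c₄ ≠ 0`, the
point `(x₀, y₀)` with

* `x₀ = (18 b₆ - b₂ b₄) / c₄`,
* `y₀ = (b₂ (a₁ a₄ - 2 a₂ a₃) + 3 (a₁ (a₃² - 12 a₆) + 8 a₃ a₄)) / c₄`

lies on `W` and both partial derivatives vanish there.  Moreover for *any* singular point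
`(x₀, y₀)` one has `c₄ = (b₂ + 12 x₀)²`.
-/

set_option autoImplicit false

namespace Fermat.Agent.S15.H242

open WeierstrassCurve WeierstrassCurve.Affine

variable {k : Type*} [Field k] (W : Affine k)

/-- `x`-coordinate of the singular point. -/
noncomputable def singX : k := (18 * W.b₆ - W.b₂ * W.b₄) / W.c₄

/-- `y`-coordinate of the singular point. -/
noncomputable def singY : k :=
  (W.b₂ * (W.a₁ * W.a₄ - 2 * W.a₂ * W.a₃) +
    3 * (W.a₁ * (W.a₃ ^ 2 - 12 * W.a₆) + 8 * W.a₃ * W.a₄)) / W.c₄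

theorem sing_Fy (hc : W.c₄ ≠ 0) : 2 * singY W + W.a₁ * singX W + W.a₃ = 0 := by
  unfold singX singY
  field_simp
  simp only [WeierstrassCurve.c₄, WeierstrassCurve.b₂, WeierstrassCurve.b₄, WeierstrassCurve.b₆]
  ring

theorem sing_Fx (hc : W.c₄ ≠ 0) (hΔ : W.Δ = 0) :
    W.a₁ * singY W - (3 * singX W ^ 2 + 2 * W.a₂ * singX W + W.a₄) = 0 := by
  unfold singX singY
  field_simp
  simp only [WeierstrassCurve.Δ, WeierstrassCurve.b₈] at hΔ
  simp only [WeierstrassCurve.c₄, WeierstrassCurve.b₂, WeierstrassCurve.b₄, WeierstrassCurve.b₆]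
    at hΔ ⊢
  linear_combination 36 * hΔ

theorem sing_F (hc : W.c₄ ≠ 0) (hΔ : W.Δ = 0) : W.Equation (singX W) (singY W) := by
  rw [Affine.equation_iff]
  unfold singX singY
  field_simp
  simp only [WeierstrassCurve.Δ, WeierstrassCurve.b₈] at hΔ
  simp only [WeierstrassCurve.c₄, WeierstrassCurve.b₂, WeierstrassCurve.b₄, WeierstrassCurve.b₆]
    at hΔ ⊢
  linear_combination
    (864 * W.a₆ + 216 * W.a₃ ^ 2 - 288 * W.a₂ * W.a₄ + 64 * W.a₂ ^ 3
      - 144 * W.a₁ * W.a₂ * W.a₃ - 72 * W.a₁ ^ 2 * W.a₄ + 48 * W.a₁ ^ 2 * W.a₂ ^ 2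
      - 36 * W.a₁ ^ 3 * W.a₃ + 12 * W.a₁ ^ 4 * W.a₂ + W.a₁ ^ 6) * hΔ

/-- For any singular point, `c₄ = (b₂ + 12 x₀)²`. -/
theorem c₄_eq_of_singular {x₀ y₀ : k}
    (hFx : W.a₁ * y₀ - (3 * x₀ ^ 2 + 2 * W.a₂ * x₀ + W.a₄) = 0)
    (hFy : 2 * y₀ + W.a₁ * x₀ + W.a₃ = 0) :
    W.c₄ = (W.b₂ + 12 * x₀) ^ 2 := by
  simp only [WeierstrassCurve.c₄, WeierstrassCurve.b₂, WeierstrassCurve.b₄]
  linear_combination 48 * hFx - 24 * W.a₁ * hFy

end Fermat.Agent.S15.H242

end
-- ===== PACK-END S15/H242/NodalSing.lean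

-- ===== PACK-BEGIN S24/H117/OrbitCount.lean
section


/-!
# S24 / H117 — an abstract orbit-counting squeeze

Let `perm` be a permutation of a finite set `X`, `φ : X → β` a `perm`-invariant map and
`e : β → ℕ` such that `e (φ x)` divides every period of `x`.  If `#X ≤ ∑_{v ∈ range φ} e v`, then
`φ` induces a bijection between the cycles of `perm` and `range φ`, and the cycle through `x`
has exactly `e (φ x)` elements.
-/

set_option autoImplicit false

noncomputable section

open MulAction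

namespace Fermat.Agent.S24.H117

variable {X β : Type*}

theorem map_eq_of_mem_orbit_zpowers (perm : Equiv.Perm X) (φ : X → β)
    (hperm : ∀ x, φ (perm x) = φ x) {x y : X}
    (h : y ∈ orbit (Subgroup.zpowers perm) x) : φ y = φ x := by
  obtain ⟨⟨g, hg⟩, rfl⟩ := h
  obtain ⟨k, rfl⟩ := Subgroup.mem_zpowers_iff.mp hg
  show φ ((perm ^ k) x) = φ x
  have hinv : ∀ z, φ (perm⁻¹ z) = φ z := fun z => by
    have := hperm (perm⁻¹ z)
    simpa using this.symm
  induction k using Int.induction_on generalizing x with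
  | zero => simp
  | succ n ih =>
    rw [zpow_add_one, Equiv.Perm.mul_apply, ih (x := perm x), hperm]
    exact Subgroup.zpow_mem _ (Subgroup.mem_zpowers perm) _
  | pred n ih =>
    rw [zpow_sub_one, Equiv.Perm.mul_apply, ih (x := perm⁻¹ x), hinv]
    exact Subgroup.zpow_mem _ (Subgroup.mem_zpowers perm) _

theorem orbit_count_squeeze [Fintype X] [DecidableEq β] (perm : Equiv.Perm X) (φ : X → β)
    (e : β → ℕ)
    (hperm : ∀ x, φ (perm x) = φ x)
    (hdiv : ∀ x (i : ℕ), (perm ^ i) x = x → e (φ x) ∣ i)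
    (hsum : Fintype.card X ≤ ∑ v ∈ Finset.univ.image φ, e v) :
    Nat.card (orbitRel.Quotient (Subgroup.zpowers perm) X) = (Finset.univ.image φ).card ∧
      (∀ x, Nat.card (orbit (Subgroup.zpowers perm) x) = e (φ x)) ∧
      (∑ v ∈ Finset.univ.image φ, e v = Fintype.card X) := by
  classical
  -- orbit sizes
  have hper : ∀ x, e (φ x) ≤ Fintype.card (orbit (Subgroup.zpowers perm) x) := by
    intro x
    have h1 : Function.minimalPeriod (perm • ·) x
        = Fintype.card (orbit (Subgroup.zpowers perm) x) := minimalPeriod_eq_card perm x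
    have h2 : (perm ^ Function.minimalPeriod (perm • ·) x) x = x := by
      have := Function.iterate_minimalPeriod (f := (perm • ·)) (x := x)
      rw [smul_iterate] at this
      exact this
    have h3 := hdiv x _ h2
    rw [h1] at h3
    have : Nonempty (orbit (Subgroup.zpowers perm) x) := (nonempty_orbit x).to_subtype
    exact Nat.le_of_dvd Fintype.card_pos h3
  -- the orbit is inside the fibre
  have hsub : ∀ x, (Finset.univ.filter (fun y : X => y ∈ orbit (Subgroup.zpowers perm) x))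
      ⊆ Finset.univ.filter (fun y : X => φ y = φ x) := by
    intro x y hy
    simp only [Finset.mem_filter, Finset.mem_univ, true_and] at hy ⊢
    exact map_eq_of_mem_orbit_zpowers perm φ hperm hy
  have hcardO : ∀ x, (Finset.univ.filter (fun y : X => y ∈ orbit (Subgroup.zpowers perm) x)).card
      = Fintype.card (orbit (Subgroup.zpowers perm) x) := by
    intro x
    rw [Fintype.card_subtype]
  have hle : ∀ v ∈ Finset.univ.image φ, e v ≤ (Finset.univ.filter (fun y : X => φ y = v)).card := by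
    intro v hv
    obtain ⟨x, -, rfl⟩ := Finset.mem_image.mp hv
    calc e (φ x) ≤ Fintype.card (orbit (Subgroup.zpowers perm) x) := hper x
      _ = _ := (hcardO x).symm
      _ ≤ _ := Finset.card_le_card (hsub x)
  have htot : Fintype.card X = ∑ v ∈ Finset.univ.image φ, (Finset.univ.filter (fun y : X => φ y = v)).card := by
    rw [← Finset.card_univ]
    exact Finset.card_eq_sum_card_fiberwise (fun x _ => Finset.mem_image_of_mem φ (Finset.mem_univ x))
  have hsumeq : ∑ v ∈ Finset.univ.image φ, e v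
      = ∑ v ∈ Finset.univ.image φ, (Finset.univ.filter (fun y : X => φ y = v)).card := by
    apply le_antisymm (Finset.sum_le_sum hle)
    rw [← htot]
    exact hsum
  have hfib : ∀ v ∈ Finset.univ.image φ, e v = (Finset.univ.filter (fun y : X => φ y = v)).card :=
    (Finset.sum_eq_sum_iff_of_le hle).mp hsumeq
  have hOeq : ∀ x, (Finset.univ.filter (fun y : X => y ∈ orbit (Subgroup.zpowers perm) x))
      = Finset.univ.filter (fun y : X => φ y = φ x) := by
    intro x
    apply Finset.eq_of_subset_of_card_le (hsub x)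
    rw [← hfib _ (Finset.mem_image_of_mem φ (Finset.mem_univ x)), hcardO]
    exact hper x
  refine ⟨?_, ?_, ?_⟩
  · -- bijection between orbits and the image
    let Φ : orbitRel.Quotient (Subgroup.zpowers perm) X → (Finset.univ.image φ : Finset β) :=
      fun ω => Quotient.liftOn' ω
        (fun x => (⟨φ x, Finset.mem_image_of_mem φ (Finset.mem_univ x)⟩ :
          (Finset.univ.image φ : Finset β)))
        (fun a b hab => Subtype.ext (map_eq_of_mem_orbit_zpowers perm φ hperm hab))
    have hΦbij : Function.Bijective Φ := by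
      constructor
      · intro ω₁ ω₂ h
        induction ω₁ using Quotient.inductionOn' with | _ x
        induction ω₂ using Quotient.inductionOn' with | _ y
        have hxy : φ x = φ y := congrArg Subtype.val h
        apply Quotient.sound'
        show x ∈ orbit (Subgroup.zpowers perm) y
        have : x ∈ Finset.univ.filter (fun z : X => φ z = φ y) := by simp [hxy]
        rw [← hOeq y] at this
        simpa using this
      · rintro ⟨v, hv⟩
        obtain ⟨x, -, rfl⟩ := Finset.mem_image.mp hv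
        exact ⟨Quotient.mk'' x, rfl⟩
    rw [Nat.card_congr (Equiv.ofBijective Φ hΦbij), Nat.card_eq_fintype_card, Fintype.card_coe]
  · intro x
    rw [Nat.card_eq_fintype_card, ← hcardO, hOeq, hfib _ (Finset.mem_image_of_mem φ (Finset.mem_univ x))]
  · rw [hsumeq, ← htot]

end Fermat.Agent.S24.H117

end
end
-- ===== PACK-END S24/H117/OrbitCount.lean

-- ===== PACK-BEGIN S24/H624/HoloRing.lean
section


/-!
# The ring of holomorphic functions on the upper half-plane and Taylor expansions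

Architecture-independent analytic foundation for the S24 / S28 long shots.
-/

set_option autoImplicit false

namespace Fermat.Agent.S24.H624

open UpperHalfPlane Complex
open scoped Manifold Topology

/-- The `ℂ`-algebra of holomorphic functions on the upper half-plane. -/
def holoRing : Subalgebra ℂ (ℍ → ℂ) where
  carrier := {f | MDiff f}
  mul_mem' := fun hf hg => hf.mul hg
  add_mem' := fun hf hg => hf.add hg
  algebraMap_mem' := fun _ => mdifferentiable_const

theorem mem_holoRing {f : ℍ → ℂ} : f ∈ holoRing ↔ MDiff f := Iff.rfl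

/-- A holomorphic function on `ℍ`, extended by junk to `ℂ`, is analytic at every point of `ℍ`. -/
theorem analyticAt_of_mdiff {f : ℍ → ℂ} (hf : MDiff f) (τ : ℍ) :
    AnalyticAt ℂ (f ∘ ofComplex) (τ : ℂ) :=
  ((UpperHalfPlane.mdifferentiable_iff.mp hf).analyticOnNhd isOpen_upperHalfPlaneSet) _ τ.im_pos

theorem analyticAt_of_mdiff' {f : ℍ → ℂ} (hf : MDiff f) {z : ℂ} (hz : 0 < z.im) :
    AnalyticAt ℂ (f ∘ ofComplex) z :=
  ((UpperHalfPlane.mdifferentiable_iff.mp hf).analyticOnNhd isOpen_upperHalfPlaneSet) _ hz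

/-- Order of vanishing at `τ` of a function on the upper half-plane. -/
noncomputable def ordAt (τ : ℍ) (f : ℍ → ℂ) : ℕ∞ := analyticOrderAt (f ∘ ofComplex) (τ : ℂ)

theorem ordAt_def (τ : ℍ) (f : ℍ → ℂ) : ordAt τ f = analyticOrderAt (f ∘ ofComplex) (τ : ℂ) := rfl

theorem eq_zero_of_eventually_zero {f : ℍ → ℂ} (hf : MDiff f) {τ : ℍ}
    (h : ∀ᶠ z in 𝓝 (τ : ℂ), (f ∘ ofComplex) z = 0) : f = 0 := by
  have han := (UpperHalfPlane.mdifferentiable_iff.mp hf).analyticOnNhd isOpen_upperHalfPlaneSet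
  have hpre : IsPreconnected {z : ℂ | 0 < z.im} :=
    (Complex.isConnected_of_upperHalfPlane subset_rfl
      (fun z (hz : 0 < z.im) => le_of_lt hz)).isPreconnected
  have := han.eqOn_zero_of_preconnected_of_eventuallyEq_zero hpre τ.im_pos h
  funext w
  have hw := this w.im_pos
  simpa [Function.comp_apply, ofComplex_apply] using hw

theorem ordAt_eq_top_iff {f : ℍ → ℂ} (hf : MDiff f) (τ : ℍ) : ordAt τ f = ⊤ ↔ f = 0 := by
  constructor
  · intro h
    exact eq_zero_of_eventually_zero hf (analyticOrderAt_eq_top.mp h)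
  · rintro rfl
    rw [ordAt_def, analyticOrderAt_eq_top]
    exact Filter.Eventually.of_forall fun z => rfl

theorem ordAt_ne_top {f : ℍ → ℂ} (hf : MDiff f) (hf0 : f ≠ 0) (τ : ℍ) : ordAt τ f ≠ ⊤ :=
  fun h => hf0 ((ordAt_eq_top_iff hf τ).mp h)

theorem ordAt_mul {f g : ℍ → ℂ} (hf : MDiff f) (hg : MDiff g) (τ : ℍ) :
    ordAt τ (f * g) = ordAt τ f + ordAt τ g :=
  analyticOrderAt_mul (analyticAt_of_mdiff hf τ) (analyticAt_of_mdiff hg τ)

theorem ordAt_eq_zero_iff {f : ℍ → ℂ} (hf : MDiff f) (τ : ℍ) : ordAt τ f = 0 ↔ f τ ≠ 0 := by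
  rw [ordAt_def, (analyticAt_of_mdiff hf τ).analyticOrderAt_eq_zero]
  simp [Function.comp_apply, ofComplex_apply]

theorem le_ordAt_add {f g : ℍ → ℂ} (τ : ℍ) :
    min (ordAt τ f) (ordAt τ g) ≤ ordAt τ (f + g) :=
  le_analyticOrderAt_add

theorem ordAt_zero (τ : ℍ) : ordAt τ (0 : ℍ → ℂ) = ⊤ := by
  rw [ordAt_def, analyticOrderAt_eq_top]
  exact Filter.Eventually.of_forall fun z => rfl

theorem mul_eq_zero_of_mdiff {f g : ℍ → ℂ} (hf : MDiff f) (hg : MDiff g) (h : f * g = 0) :
    f = 0 ∨ g = 0 := by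
  by_contra hcon
  rw [not_or] at hcon
  have h1 := ordAt_mul hf hg UpperHalfPlane.I
  rw [h, ordAt_zero] at h1
  have h3 := ordAt_ne_top hf hcon.1 UpperHalfPlane.I
  have h4 := ordAt_ne_top hg hcon.2 UpperHalfPlane.I
  exact (WithTop.add_ne_top.mpr ⟨h3, h4⟩) h1.symm

instance instNontrivialHoloRing : Nontrivial holoRing :=
  ⟨⟨0, 1, fun h => by
    have := congrArg (fun f : holoRing => (f : ℍ → ℂ) UpperHalfPlane.I) h
    simp at this⟩⟩

instance instNoZeroDivisorsHoloRing : NoZeroDivisors holoRing :=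
  ⟨by
    intro a b hab
    have h2 : ((a : ℍ → ℂ) * (b : ℍ → ℂ)) = 0 := by
      have := congrArg (Subtype.val) hab
      simpa using this
    rcases mul_eq_zero_of_mdiff a.2 b.2 h2 with h | h
    · exact Or.inl (Subtype.ext h)
    · exact Or.inr (Subtype.ext h)⟩

instance instIsDomainHoloRing : IsDomain holoRing := NoZeroDivisors.to_isDomain _

end Fermat.Agent.S24.H624

end
-- ===== PACK-END S24/H624/HoloRing.lean

-- ===== PACK-BEGIN S24/JFun/Basic.lean
section



/-!
# The analytic `j`-function on the upper half plane (shared analytic core for S24 / S28)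

`jFun τ = E₄ τ ^ 3 / Δ τ`.  Basic properties: holomorphy, `SL(2,ℤ)`-invariance, periodicity.
-/

set_option autoImplicit false

namespace Fermat.Agent.S24.JFun

open UpperHalfPlane ModularForm EisensteinSeries MatrixGroups Complex
open scoped Manifold

/-- The analytic `j`-function `E₄³ / Δ` on the upper half plane. -/
noncomputable def jFun (τ : ℍ) : ℂ := E₄ τ ^ 3 / ModularForm.discriminant τ

theorem jFun_def (τ : ℍ) : jFun τ = E₄ τ ^ 3 / ModularForm.discriminant τ := rfl

theorem jFun_mul_discriminant (τ : ℍ) : jFun τ * ModularForm.discriminant τ = E₄ τ ^ 3 := by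
  rw [jFun, div_mul_cancel₀ _ (discriminant_ne_zero τ)]

theorem E₄_smul (γ : SL(2, ℤ)) (τ : ℍ) : E₄ (γ • τ) = denom γ τ ^ (4 : ℤ) * E₄ τ := by
  have h := SlashInvariantForm.slash_action_eqn'' E₄
    (show ((γ : SL(2, ℤ)) : GL (Fin 2) ℝ) ∈ 𝒮ℒ from ⟨γ, rfl⟩) τ
  simpa using h

theorem E₆_smul (γ : SL(2, ℤ)) (τ : ℍ) : E₆ (γ • τ) = denom γ τ ^ (6 : ℤ) * E₆ τ := by
  have h := SlashInvariantForm.slash_action_eqn'' E₆
    (show ((γ : SL(2, ℤ)) : GL (Fin 2) ℝ) ∈ 𝒮ℒ from ⟨γ, rfl⟩) τ
  simpa using h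

theorem discriminant_smul (γ : SL(2, ℤ)) (τ : ℍ) :
    ModularForm.discriminant (γ • τ) = denom γ τ ^ (12 : ℤ) * ModularForm.discriminant τ := by
  have h := SlashInvariantForm.slash_action_eqn'' CuspForm.discriminant
    (show ((γ : SL(2, ℤ)) : GL (Fin 2) ℝ) ∈ 𝒮ℒ from ⟨γ, rfl⟩) τ
  simpa using h

/-- `j` is invariant under `SL(2,ℤ)`. -/
theorem jFun_smul (γ : SL(2, ℤ)) (τ : ℍ) : jFun (γ • τ) = jFun τ := by
  have hd : denom γ τ ≠ 0 := denom_ne_zero _ _
  rw [jFun, jFun, E₄_smul, discriminant_smul, mul_pow, ← zpow_natCast, ← zpow_mul]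
  have h12 : ((4 : ℤ) * ((3 : ℕ) : ℤ)) = 12 := by norm_num
  rw [h12, mul_div_mul_left _ _ (zpow_ne_zero _ hd)]

/-- `j` is holomorphic on the upper half plane. -/
theorem jFun_mdifferentiable : MDiff jFun := by
  have h4 : MDiff (fun τ : ℍ => E₄ τ ^ 3) := by
    have := (E₄.holo'.pow 3)
    exact this
  exact h4.div CuspForm.discriminant.holo' discriminant_ne_zero

theorem jFun_eq_zero_iff (τ : ℍ) : jFun τ = 0 ↔ E₄ τ = 0 := by
  rw [jFun, div_eq_zero_iff]
  simp [discriminant_ne_zero τ]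

theorem jFun_sub_1728 (τ : ℍ) :
    jFun τ - 1728 = E₆ τ ^ 2 / ModularForm.discriminant τ := by
  have hΔ := discriminant_ne_zero τ
  have h := discriminant_eq_E₄_cube_sub_E₆_sq τ
  rw [jFun]
  field_simp
  rw [h]
  ring

theorem jFun_eq_1728_iff (τ : ℍ) : jFun τ = 1728 ↔ E₆ τ = 0 := by
  rw [← sub_eq_zero, jFun_sub_1728, div_eq_zero_iff]
  simp [discriminant_ne_zero τ]

end Fermat.Agent.S24.JFun

end
-- ===== PACK-END S24/JFun/Basic.lean

-- ===== PACK-BEGIN S24/JFun/EtaProd.lean
section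







/-!
# Formal versus analytic Euler product

The Taylor coefficients at `0` of the analytic function `q ↦ ∏' n, (1 - q ^ (n + 1))` on the unit
disc are the coefficients of the formal product `ModularCurve.etaProd`.
-/

set_option autoImplicit false

namespace Fermat.Agent.S24.JFun

open Filter Topology Complex Metric
open scoped PowerSeries.WithPiTopology

/-- Iterated derivatives of a locally uniform limit of holomorphic functions. -/
theorem tendstoLocallyUniformlyOn_iteratedDeriv {ι : Type*} {φ : Filter ι} {F : ι → ℂ → ℂ}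
    {f : ℂ → ℂ} {U : Set ℂ} (hU : IsOpen U) (hf : TendstoLocallyUniformlyOn F f φ U)
    (hF : ∀ᶠ n in φ, DifferentiableOn ℂ (F n) U) (m : ℕ) :
    TendstoLocallyUniformlyOn (fun n => iteratedDeriv m (F n)) (iteratedDeriv m f) φ U ∧
      ∀ᶠ n in φ, DifferentiableOn ℂ (iteratedDeriv m (F n)) U := by
  induction m with
  | zero => simpa [iteratedDeriv_zero] using And.intro hf hF
  | succ m ih =>
    obtain ⟨h1, h2⟩ := ih
    refine ⟨?_, ?_⟩
    · have := h1.deriv h2 hU
      simpa [iteratedDeriv_succ, Function.comp_def] using this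
    · filter_upwards [h2] with n hn
      rw [iteratedDeriv_succ]
      exact hn.deriv hU

theorem iteratedDeriv_polynomial_eval (P : Polynomial ℂ) (m : ℕ) :
    iteratedDeriv m (fun x : ℂ => P.eval x) = fun x => (Polynomial.derivative^[m] P).eval x := by
  induction m generalizing P with
  | zero => simp [iteratedDeriv_zero]
  | succ m ih =>
    rw [iteratedDeriv_succ', Function.iterate_succ_apply]
    have : deriv (fun x : ℂ => P.eval x) = fun x => (Polynomial.derivative P).eval x := by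
      funext x
      exact Polynomial.deriv P
    rw [this, ih]

theorem iteratedDeriv_polynomial_eval_zero (P : Polynomial ℂ) (m : ℕ) :
    iteratedDeriv m (fun x : ℂ => P.eval x) 0 = (m.factorial : ℂ) * P.coeff m := by
  rw [iteratedDeriv_polynomial_eval]
  simp only
  rw [← Polynomial.coeff_zero_eq_eval_zero, Polynomial.coeff_iterate_derivative]
  simp [Nat.descFactorial_self, nsmul_eq_mul]

/-- The partial Euler products as integer polynomials. -/
noncomputable def eulerPartial (s : Finset ℕ) : Polynomial ℤ :=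
  ∏ n ∈ s, (1 - Polynomial.X ^ (n + 1))

theorem eval_map_eulerPartial (s : Finset ℕ) (q : ℂ) :
    ((eulerPartial s).map (Int.castRingHom ℂ)).eval q = ∏ n ∈ s, (1 - q ^ (n + 1)) := by
  simp [eulerPartial, Polynomial.map_prod, Polynomial.eval_prod]

theorem coe_eulerPartial (s : Finset ℕ) :
    ((eulerPartial s : Polynomial ℤ) : PowerSeries ℤ) = ∏ n ∈ s, (1 - PowerSeries.X ^ (n + 1)) := by
  have h := _root_.map_prod (Polynomial.coeToPowerSeries.ringHom (R := ℤ))
    (fun n : ℕ => (1 - Polynomial.X ^ (n + 1) : Polynomial ℤ)) s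
  rw [eulerPartial]
  refine h.trans (Finset.prod_congr rfl fun n _ => ?_)
  simp

theorem tendsto_coeff_eulerPartial (m : ℕ) :
    Tendsto (fun s : Finset ℕ => (((eulerPartial s).coeff m : ℤ) : ℂ)) atTop
      (𝓝 ((ModularCurve.etaProd.coeff m : ℤ) : ℂ)) := by
  have h1 : HasProd (fun n : ℕ => (1 - PowerSeries.X ^ (n + 1) : PowerSeries ℤ))
      ModularCurve.etaProd :=
    (PowerSeries.WithPiTopology.multipliable_one_sub_X_pow ℤ).hasProd
  have h2 : Tendsto (fun s : Finset ℕ => ∏ n ∈ s, (1 - PowerSeries.X ^ (n + 1) : PowerSeries ℤ))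
      atTop (𝓝 ModularCurve.etaProd) := h1
  have h3 := (PowerSeries.WithPiTopology.tendsto_iff_coeff_tendsto ℤ _ _ _).1 h2 m
  have h4 : Continuous (fun z : ℤ => (z : ℂ)) := continuous_of_discreteTopology
  have h5 := (h4.tendsto _).comp h3
  refine h5.congr (fun s => ?_)
  simp only [Function.comp_apply]
  rw [← coe_eulerPartial, Polynomial.coeff_coe]

/-- The Taylor coefficients at `0` of the analytic Euler product are the coefficients of the
formal Euler product `ModularCurve.etaProd`. -/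
theorem iteratedDeriv_tprod_one_sub_pow (m : ℕ) :
    iteratedDeriv m (fun q : ℂ => ∏' n : ℕ, (1 - q ^ (n + 1))) 0
      = (m.factorial : ℂ) * ((ModularCurve.etaProd.coeff m : ℤ) : ℂ) := by
  have hU : IsOpen (ball (0 : ℂ) 1) := isOpen_ball
  have h0 : (0 : ℂ) ∈ ball (0 : ℂ) 1 := mem_ball_self one_pos
  have hloc : TendstoLocallyUniformlyOn
      (fun (s : Finset ℕ) (q : ℂ) => ∏ n ∈ s, (1 - q ^ (n + 1)))
      (fun q : ℂ => ∏' n : ℕ, (1 - q ^ (n + 1))) atTop (ball (0 : ℂ) 1) := by
    have := ModularForm.multipliableLocallyUniformlyOn_one_sub_pow.hasProdLocallyUniformlyOn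
    exact this
  have hF : ∀ᶠ s : Finset ℕ in atTop,
      DifferentiableOn ℂ (fun q : ℂ => ∏ n ∈ s, (1 - q ^ (n + 1))) (ball (0 : ℂ) 1) :=
    Eventually.of_forall fun s => by fun_prop
  have key := (tendstoLocallyUniformlyOn_iteratedDeriv hU hloc hF m).1.tendsto_at h0
  have hval : ∀ s : Finset ℕ,
      iteratedDeriv m (fun q : ℂ => ∏ n ∈ s, (1 - q ^ (n + 1))) 0
        = (m.factorial : ℂ) * (((eulerPartial s).coeff m : ℤ) : ℂ) := by
    intro s
    have : (fun q : ℂ => ∏ n ∈ s, (1 - q ^ (n + 1)))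
        = fun q => ((eulerPartial s).map (Int.castRingHom ℂ)).eval q := by
      funext q
      rw [eval_map_eulerPartial]
    rw [this, iteratedDeriv_polynomial_eval_zero, Polynomial.coeff_map]
    simp
  have key2 : Tendsto (fun s : Finset ℕ =>
      (m.factorial : ℂ) * (((eulerPartial s).coeff m : ℤ) : ℂ)) atTop
      (𝓝 (iteratedDeriv m (fun q : ℂ => ∏' n : ℕ, (1 - q ^ (n + 1))) 0)) :=
    key.congr hval
  exact tendsto_nhds_unique key2 ((tendsto_coeff_eulerPartial m).const_mul _)

/-- The analytic Euler product is the sum of the formal Euler product on the open unit disc. -/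
theorem hasSum_etaProd {q : ℂ} (hq : ‖q‖ < 1) :
    HasSum (fun m : ℕ => ((ModularCurve.etaProd.coeff m : ℤ) : ℂ) * q ^ m)
      (∏' n : ℕ, (1 - q ^ (n + 1))) := by
  have h := Complex.hasSum_taylorSeries_on_ball
    (f := fun q : ℂ => ∏' n : ℕ, (1 - q ^ (n + 1))) (c := 0) (r := 1)
    ModularForm.differentiableOn_tprod_one_sub_pow (z := q) (by simpa using hq)
  have heq : (fun n : ℕ => ((n.factorial : ℂ))⁻¹ • (q - 0) ^ n •
      iteratedDeriv n (fun q : ℂ => ∏' n : ℕ, (1 - q ^ (n + 1))) 0)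
      = fun m : ℕ => ((ModularCurve.etaProd.coeff m : ℤ) : ℂ) * q ^ m := by
    funext m
    rw [iteratedDeriv_tprod_one_sub_pow]
    have hm : (m.factorial : ℂ) ≠ 0 := by exact_mod_cast Nat.factorial_ne_zero m
    simp only [sub_zero, smul_eq_mul]
    field_simp
  rw [heq] at h
  exact h

end Fermat.Agent.S24.JFun

end
-- ===== PACK-END S24/JFun/EtaProd.lean

-- ===== PACK-BEGIN S15/H302/Nakayama.lean
section


/-!
# Row S15, piece DESC-ALG (helper302): the commutative algebra of the Eisenstein descent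

* `exists_ne_zero_smul_eq_zero_of_smul_ne` : a finite module `N` over a commutative ring with
  `P • N ≠ N` contains a non-zero element killed by the ideal `P`.
* `exists_sub_one_mem_smul_eq_zero_of_socle` (ALG1): `M` a finitely generated abelian group with
  an action of a commutative ring `R`, `P` an ideal containing `r > 0`; if `(M / r M)[P] = 0`
  then some `t ∈ 1 + P` kills `M`.

Mathlib only; no `sorry`.
-/

set_option autoImplicit false

namespace Fermat.Agent.S15.H302

open Submodule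

/-- A finite module `N` with `P • N ≠ N` has a non-zero element killed by `P`
(strong induction on the cardinality; no maximality or noetherian hypothesis). -/
theorem exists_ne_zero_smul_eq_zero_of_smul_ne {R X : Type*} [CommRing R] [AddCommGroup X]
    [Module R X] [Finite X] (P : Ideal R) :
    ∀ (n : ℕ) (N : Submodule R X), (N : Set X).ncard = n → P • N ≠ N →
      ∃ x ∈ N, x ≠ 0 ∧ ∀ s ∈ P, s • x = 0 := by
  intro n
  induction n using Nat.strong_induction_on with
  | _ n ih =>
    intro N hN hne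
    by_cases hall : ∀ s ∈ P, ∀ x ∈ N, s • x = 0
    · -- `P` kills `N`; `N ≠ ⊥` since `P • ⊥ = ⊥`
      have hbot : N ≠ ⊥ := by
        rintro rfl
        exact hne (by simp)
      obtain ⟨x, hx, hx0⟩ := (Submodule.ne_bot_iff N).1 hbot
      exact ⟨x, hx, hx0, fun s hs => hall s hs x hx⟩
    · push Not at hall
      obtain ⟨s, hs, x₀, hx₀, hsx₀⟩ := hall
      set f : X →ₗ[R] X := LinearMap.lsmul R X s with hf
      have hfx : ∀ x, f x = s • x := fun x => rfl
      -- the kernel part
      set K : Submodule R X := N ⊓ LinearMap.ker f with hK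
      have hKN : K ≤ N := inf_le_left
      have hKlt : (K : Set X) ⊂ (N : Set X) := by
        refine ⟨hKN, fun h => ?_⟩
        have : x₀ ∈ K := h hx₀
        exact hsx₀ (by simpa [hfx] using this.2)
      have hKcard : (K : Set X).ncard < n := by
        rw [← hN]
        exact Set.ncard_lt_ncard hKlt (Set.toFinite _)
      by_cases hPK : P • K = K
      swap
      · obtain ⟨x, hx, hx0, hxP⟩ := ih _ hKcard K rfl hPK
        exact ⟨x, hKN hx, hx0, hxP⟩
      -- the image part
      set I : Submodule R X := N.map f with hI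
      have hIPN : I ≤ P • N := by
        rintro _ ⟨x, hx, rfl⟩
        exact Submodule.smul_mem_smul hs hx
      have hPN : P • N ≤ N := Submodule.smul_le.2 fun a _ x hx => N.smul_mem a hx
      have hIN : I ≤ N := hIPN.trans hPN
      have hIlt : (I : Set X) ⊂ (N : Set X) := by
        refine ⟨hIN, fun h => ?_⟩
        exact hne (le_antisymm hPN (fun x hx => hIPN (h hx)))
      have hIcard : (I : Set X).ncard < n := by
        rw [← hN]
        exact Set.ncard_lt_ncard hIlt (Set.toFinite _)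
      by_cases hPI : P • I = I
      swap
      · obtain ⟨x, hx, hx0, hxP⟩ := ih _ hIcard I rfl hPI
        exact ⟨x, hIN hx, hx0, hxP⟩
      -- both `K` and `I` are `P`-divisible: then so is `N`, contradiction
      exfalso
      refine hne (le_antisymm hPN fun x hx => ?_)
      have h1 : f x ∈ (P • N).map f := by
        rw [Submodule.map_smul'', hPI]
        exact ⟨x, hx, rfl⟩
      obtain ⟨y, hy, hyx⟩ := h1
      have h2 : x - y ∈ K := by
        refine ⟨N.sub_mem hx (hPN hy), ?_⟩
        show x - y ∈ LinearMap.ker f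
        rw [LinearMap.mem_ker, map_sub, hyx, sub_self]
      have h3 : x - y ∈ P • N := by
        rw [← hPK] at h2
        exact (Submodule.smul_le.2 fun a ha k hk =>
          Submodule.smul_mem_smul ha (hKN hk)) h2
      have := (P • N).add_mem h3 hy
      simpa using this

/-- **ALG1.**  `M` a finitely generated abelian group with an action of a commutative ring `R`,
`P` an ideal of `R` containing the integer `r > 0`.  If every `z ∈ M` with `P z ⊆ r M` lies in
`r M` (i.e. `(M / r M)[P] = 0`), then there is `t ∈ 1 + P` with `t M = 0`. -/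
theorem exists_sub_one_mem_smul_eq_zero_of_socle {R M : Type*} [CommRing R] [AddCommGroup M]
    [Module R M] [Module.Finite ℤ M] (P : Ideal R) (r : ℕ) (hr : 0 < r) (hrP : (r : R) ∈ P)
    (h : ∀ z : M, (∀ s ∈ P, ∃ w : M, s • z = r • w) → ∃ w : M, z = r • w) :
    ∃ t : R, t - 1 ∈ P ∧ ∀ z : M, t • z = 0 := by
  classical
  -- the submodule `r M`
  set Nr : Submodule R M := LinearMap.range (LinearMap.lsmul R M (r : R)) with hNr
  have hmemNr : ∀ z : M, z ∈ Nr ↔ ∃ w : M, z = r • w := by
    intro z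
    constructor
    · rintro ⟨w, rfl⟩
      exact ⟨w, by simp [Nat.cast_smul_eq_nsmul]⟩
    · rintro ⟨w, rfl⟩
      exact ⟨w, by simp [Nat.cast_smul_eq_nsmul]⟩
  -- `X = M / r M` is finite
  have : Module.Finite ℤ (M ⧸ Nr) :=
    Module.Finite.of_surjective ((Nr.mkQ).restrictScalars ℤ) (Submodule.mkQ_surjective Nr)
  have htors : Module.IsTorsion ℤ (M ⧸ Nr) := by
    intro x
    obtain ⟨z, rfl⟩ := Submodule.mkQ_surjective Nr x
    refine ⟨⟨(r : ℤ), ?_⟩, ?_⟩
    · rw [mem_nonZeroDivisors_iff_ne_zero]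
      exact_mod_cast hr.ne'
    · show (r : ℤ) • Nr.mkQ z = 0
      rw [← map_zsmul, Submodule.mkQ_apply, Submodule.Quotient.mk_eq_zero, hmemNr]
      exact ⟨z, by simp⟩
  have : Finite (M ⧸ Nr) := Module.finite_of_fg_torsion _ htors
  -- `P • X = X`
  have hPX : P • (⊤ : Submodule R (M ⧸ Nr)) = ⊤ := by
    by_contra hne
    obtain ⟨x, -, hx0, hxP⟩ :=
      exists_ne_zero_smul_eq_zero_of_smul_ne P _ (⊤ : Submodule R (M ⧸ Nr)) rfl hne
    obtain ⟨z, rfl⟩ := Submodule.mkQ_surjective Nr x
    apply hx0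
    rw [Submodule.mkQ_apply, Submodule.Quotient.mk_eq_zero, hmemNr]
    refine h z fun s hs => ?_
    have := hxP s hs
    rw [← map_smul, Submodule.mkQ_apply, Submodule.Quotient.mk_eq_zero, hmemNr] at this
    exact this
  -- `M = P M`
  have hle : (⊤ : Submodule R M) ≤ P • (⊤ : Submodule R M) := by
    intro z _
    have h1 : Nr.mkQ z ∈ (P • (⊤ : Submodule R M)).map Nr.mkQ := by
      rw [Submodule.map_smul'', Submodule.map_top, Submodule.range_mkQ, hPX]
      exact Submodule.mem_top
    obtain ⟨y, hy, hyz⟩ := h1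
    have h2 : z - y ∈ Nr := by
      rw [← Submodule.Quotient.mk_eq_zero, Submodule.Quotient.mk_sub]
      simp only [Submodule.mkQ_apply] at hyz
      rw [hyz, sub_self]
    obtain ⟨w, hw⟩ := h2
    have h3 : z - y ∈ P • (⊤ : Submodule R M) := by
      rw [← hw]
      exact Submodule.smul_mem_smul hrP Submodule.mem_top
    have := (P • (⊤ : Submodule R M)).add_mem h3 hy
    simpa using this
  have : Module.Finite R M := Module.Finite.of_restrictScalars_finite ℤ R M
  obtain ⟨t, ht, htM⟩ := Submodule.exists_sub_one_mem_and_smul_eq_zero_of_fg_of_le_smul P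
    (⊤ : Submodule R M) Module.Finite.fg_top hle
  exact ⟨t, ht, fun z => htM z Submodule.mem_top⟩

end Fermat.Agent.S15.H302

end
-- ===== PACK-END S15/H302/Nakayama.lean

-- ===== PACK-BEGIN S29/Defs.lean
section
/-
S29 row — FROZEN interface definitions (row-lead helper269).
Namespace `Fermat.Agent.S29`.  Do not edit; propose changes via a note kind='question' stmt='S29'.
-/



set_option autoImplicit false

namespace Fermat.Agent.S29

open Polynomial

/-- The absolute Galois group of `ℚ`, as used by every frozen statement. -/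
abbrev GQ : Type := AlgebraicClosure ℚ ≃ₐ[ℚ] AlgebraicClosure ℚ

/-- Valuation subrings of `ℚ̄` (the "places" of the frozen statements). -/
abbrev VQ : Type := ValuationSubring (AlgebraicClosure ℚ)

section Module

variable {F : Type} [Field F] {M : Type} [AddCommGroup M] [Module F M]

/-- Every vector is fixed by an open subgroup `Gal(ℚ̄/L)`, `L/ℚ` finite. -/
def IsSmoothRep (ρ : GQ →* Module.End F M) : Prop :=
  ∀ x : M, ∃ L : IntermediateField ℚ (AlgebraicClosure ℚ), FiniteDimensional ℚ L ∧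
    ∀ σ : GQ, (∀ y ∈ L, σ y = y) → ρ σ x = x

/-- Inertia at every prime `ℓ ∤ S` (all places above `ℓ`) acts trivially. -/
def IsUnramOutside (ρ : GQ →* Module.End F M) (S : ℕ) : Prop :=
  ∀ ℓ : ℕ, ℓ.Prime → ¬ ℓ ∣ S → ∀ A : VQ, A.LiesOverPrime ℓ →
    ∀ σ ∈ A.inertiaSubgroupIn ℚ, ρ σ = 1

/-- Every Frobenius element at every place above every prime `ℓ ∤ S` satisfies
`σ² - a ℓ • σ + ℓ = 0` on the module. -/
def IsFrobQuadratic (ρ : GQ →* Module.End F M) (S : ℕ) (a : ℕ → F) : Prop :=
  ∀ ℓ : ℕ, ℓ.Prime → ¬ ℓ ∣ S → ∀ A : VQ, A.LiesOverPrime ℓ →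
    ∀ σ : GQ, A.IsFrobeniusAt σ ℓ →
      ρ σ * ρ σ - a ℓ • ρ σ + (ℓ : F) • (1 : Module.End F M) = 0

end Module

/-- (UNUSED since skeleton v2: the assembly consumes CHEB Tier 1
`Fermat.Agent.Lib.Cheb.Spec.FrobeniusDivisionStatement` instead.)  Qualitative Chebotarev:
every element of `Gal(L/ℚ)` (`L/ℚ` finite) is the restriction of a Frobenius element at a place over
some prime `ℓ ∤ S`. -/
def ChebStatement : Prop :=
  ∀ (L : IntermediateField ℚ (AlgebraicClosure ℚ)), FiniteDimensional ℚ L →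
    ∀ (σ : GQ) (S : ℕ), S ≠ 0 →
      ∃ (ℓ : ℕ) (A : VQ) (τ : GQ), ℓ.Prime ∧ ¬ ℓ ∣ S ∧ A.LiesOverPrime ℓ ∧
        A.IsFrobeniusAt τ ℓ ∧ ∀ x ∈ L, τ x = σ x

/-- The conclusion of the assembly layer for a coefficient field `F` and a system `a`. -/
def HasAttachedRep (F : Type) [Field F] (S : ℕ) (a : ℕ → F) : Prop :=
  ∃ r : ResidualGaloisRep F,
    (∀ ℓ : ℕ, ℓ.Prime → ¬ ℓ ∣ S → ∀ A : VQ, A.LiesOverPrime ℓ →
      ∀ σ : GQ, A.IsFrobeniusAt σ ℓ →
        LinearMap.charpoly (r.ρ σ) = X ^ 2 - C (a ℓ) * X + C ((ℓ : F))) ∧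
    (∀ ℓ : ℕ, ℓ.Prime → ¬ ℓ ∣ S → r.IsUnramifiedAt ℓ)

/-- The output of the module layer ("torsion module"): a nonzero smooth `F[G_ℚ]`-module,
unramified outside `S`, on which all Frobenii at `ℓ ∤ S` satisfy the Eichler–Shimura relation. -/
def HasFrobModule (F : Type) [Field F] (S : ℕ) (a : ℕ → F) : Prop :=
  ∃ (M : Type) (_ : AddCommGroup M) (_ : Module F M) (ρ : GQ →* Module.End F M),
    Nontrivial M ∧ IsSmoothRep ρ ∧ IsUnramOutside ρ S ∧ IsFrobQuadratic ρ S a

end Fermat.Agent.S29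

end
-- ===== PACK-END S29/Defs.lean

-- ===== PACK-BEGIN S37/H818/PullFunct.lean
section
/-
S37 / LEVEL TRANSFER (helper818), part 1: functoriality of the Prelude's `restrictAlong`,
`ramificationIndexAlong` and `pullbackAlong` under composition of field embeddings.
-/



set_option autoImplicit false
set_option linter.style.haveILetI false

noncomputable section

namespace Fermat.Agent.S37.H818

open AlgebraicCurve

variable {K F G G₁ : Type*} [Field K] [Field F] [Field G] [Field G₁]
  [Algebra K F] [Algebra K G] [Algebra K G₁]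

/-- Restriction of a place along a composite is the composite of the restrictions. -/
theorem restrictAlong_comp (φ : F →ₐ[K] G) (ψ : G →ₐ[K] G₁)
    (hφ : φ.toRingHom.IsIntegral) (hψ : ψ.toRingHom.IsIntegral)
    (hψφ : (ψ.comp φ).toRingHom.IsIntegral) (W : Place K G₁) :
    W.restrictAlong (ψ.comp φ) hψφ = (W.restrictAlong ψ hψ).restrictAlong φ hφ := by
  apply Place.ext
  rfl

/-- Existence of a uniformizer in the field for a place. -/
theorem exists_ord_eq_one (v : Place K F) : ∃ f : F, f ≠ 0 ∧ v.ord f = 1 := by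
  obtain ⟨π, hπ⟩ := IsDiscreteValuationRing.exists_irreducible v.toValuationSubring
  refine ⟨(π : F), ?_, v.ord_coe_irreducible hπ⟩
  simpa [ne_eq, ZeroMemClass.coe_eq_zero] using hπ.ne_zero

/-- Ramification indices are multiplicative in towers. -/
theorem ramificationIndexAlong_comp (φ : F →ₐ[K] G) (ψ : G →ₐ[K] G₁)
    (hφ : φ.toRingHom.IsIntegral) (hψ : ψ.toRingHom.IsIntegral)
    (hψφ : (ψ.comp φ).toRingHom.IsIntegral) (W : Place K G₁) :
    Place.ramificationIndexAlong (ψ.comp φ) W =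
      Place.ramificationIndexAlong ψ W *
        Place.ramificationIndexAlong φ (W.restrictAlong ψ hψ) := by
  obtain ⟨f, hf0, hf⟩ := exists_ord_eq_one ((W.restrictAlong ψ hψ).restrictAlong φ hφ)
  have h1 := Place.ord_restrictAlong (ψ.comp φ) hψφ W f
  have h2 := Place.ord_restrictAlong ψ hψ W (φ f)
  have h3 := Place.ord_restrictAlong φ hφ (W.restrictAlong ψ hψ) f
  rw [restrictAlong_comp φ ψ hφ hψ hψφ W, hf, mul_one] at h1
  rw [hf, mul_one] at h3
  rw [h3] at h2
  have h4 : (ψ.comp φ) f = ψ (φ f) := rfl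
  rw [h4, h2] at h1
  exact_mod_cast h1.symm

variable [HasPrincipalDivisors K G] [HasPrincipalDivisors K G₁]

/-- Pullback of divisors is functorial. -/
theorem pullbackAlong_comp (φ : F →ₐ[K] G) (ψ : G →ₐ[K] G₁)
    (hφ : φ.toRingHom.IsIntegral) (hψ : ψ.toRingHom.IsIntegral)
    (hψφ : (ψ.comp φ).toRingHom.IsIntegral) (D : Divisor K F) :
    Divisor.pullbackAlong (ψ.comp φ) hψφ D =
      Divisor.pullbackAlong ψ hψ (Divisor.pullbackAlong φ hφ D) := by
  ext W
  rw [Divisor.pullbackAlong_apply, Divisor.pullbackAlong_apply, Divisor.pullbackAlong_apply,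
    ramificationIndexAlong_comp φ ψ hφ hψ hψφ W, restrictAlong_comp φ ψ hφ hψ hψφ W]
  push_cast
  ring

end Fermat.Agent.S37.H818

end

end
-- ===== PACK-END S37/H818/PullFunct.lean

-- ===== PACK-BEGIN S29/H571/Equivariant.lean
section


/-!
# Equivariance of pull-back / push-forward / correspondences of divisors
under semilinear automorphisms (helper571, piece GEQ of the S29 route)

If `φ : F →ₐ[K] F'` and semilinear automorphisms `g` of `F`, `g'` of `F'` satisfy
`g' (φ x) = φ (g x)` (`SemilinearAut.IntertwinesAlong`), then restriction of places,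
ramification indices, inertia degrees, pull-back and push-forward of divisors along `φ`
commute with the actions of `g`, `g'`.  Consequently a correspondence
`Pic0.correspondence φ ψ` commutes with `(g, g')` as soon as both legs intertwine.
-/

set_option autoImplicit false
set_option linter.style.haveILetI false

noncomputable section

namespace Fermat.Agent.S29.H571

open AlgebraicCurve
open scoped Pointwise

variable {K F F' : Type*} [Field K] [Field F] [Field F'] [Algebra K F] [Algebra K F']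

section PlaceLemmas

variable (φ : F →ₐ[K] F') (hφ : φ.toRingHom.IsIntegral)
  {g : SemilinearAut K F} {g' : SemilinearAut K F'}

theorem mem_restrictAlong_iff (w : Place K F') (x : F) :
    x ∈ (w.restrictAlong φ hφ).toValuationSubring ↔ φ x ∈ w.toValuationSubring :=
  Iff.rfl

theorem restrictAlong_smul (h : SemilinearAut.IntertwinesAlong (φ : F →+* F') g g')
    (w : Place K F') :
    (g' • w).restrictAlong φ hφ = g • (w.restrictAlong φ hφ) := by
  apply Place.ext
  ext x
  rw [mem_restrictAlong_iff, SemilinearAut.smul_toValuationSubring,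
    SemilinearAut.smul_toValuationSubring,
    ValuationSubring.mem_pointwise_smul_iff_inv_smul_mem,
    ValuationSubring.mem_pointwise_smul_iff_inv_smul_mem, mem_restrictAlong_iff]
  have := h.inv x
  rw [show (φ : F →+* F') x = φ x from rfl] at this
  rw [this]
  rfl

theorem ord_smul_apply (h : SemilinearAut.IntertwinesAlong (φ : F →+* F') g g')
    (w : Place K F') (f : F) :
    (g' • w).ord (φ (g • f)) = w.ord (φ f) := by
  have h1 : φ (g • f) = g' • (φ f) := (h f).symm
  rw [h1, SemilinearAut.ord_smul]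

theorem ramificationIndexAlong_smul
    (h : SemilinearAut.IntertwinesAlong (φ : F →+* F') g g') (w : Place K F') :
    (g' • w).ramificationIndexAlong φ = w.ramificationIndexAlong φ := by
  unfold Place.ramificationIndexAlong Place.ramificationIndex
  congr 1
  ext n
  simp only [Set.mem_ofPred_eq]
  constructor
  · rintro ⟨hn, f, hf, hfn⟩
    refine ⟨hn, g⁻¹ • f, by simpa using hf, ?_⟩
    rw [← hfn]
    have := ord_smul_apply φ h w (g⁻¹ • f)
    rw [smul_inv_smul] at this
    exact this.symm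
  · rintro ⟨hn, f, hf, hfn⟩
    refine ⟨hn, g • f, by simpa using hf, ?_⟩
    rw [← hfn]
    exact ord_smul_apply φ h w f

/-- The ring isomorphism between the valuation rings of `w.restrictAlong φ` and
`(g' • w).restrictAlong φ` induced by `g`. -/
def restrictSMulEquiv (h : SemilinearAut.IntertwinesAlong (φ : F →+* F') g g')
    (w : Place K F') :
    (w.restrictAlong φ hφ).toValuationSubring ≃+*
      ((g' • w).restrictAlong φ hφ).toValuationSubring where
  toFun x := ⟨g • (x : F), by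
    rw [mem_restrictAlong_iff, SemilinearAut.smul_toValuationSubring,
      show φ (g • (x : F)) = g' • φ (x : F) from (h (x : F)).symm]
    exact ValuationSubring.smul_mem_pointwise_smul g' _ _ ((mem_restrictAlong_iff φ hφ w _).mp x.2)⟩
  invFun y := ⟨g⁻¹ • (y : F), by
    rw [mem_restrictAlong_iff,
      show φ (g⁻¹ • (y : F)) = g'⁻¹ • φ (y : F) from (h.inv (y : F)).symm]
    have hy := (mem_restrictAlong_iff φ hφ (g' • w) _).mp y.2
    rw [SemilinearAut.smul_toValuationSubring,
      ValuationSubring.mem_pointwise_smul_iff_inv_smul_mem] at hy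
    exact hy⟩
  left_inv x := Subtype.ext (inv_smul_smul g (x : F))
  right_inv y := Subtype.ext (smul_inv_smul g (y : F))
  map_mul' x y := Subtype.ext (smul_mul' g (x : F) (y : F))
  map_add' x y := Subtype.ext (smul_add g (x : F) (y : F))

@[simp]
theorem coe_restrictSMulEquiv_apply (h : SemilinearAut.IntertwinesAlong (φ : F →+* F') g g')
    (w : Place K F') (x : (w.restrictAlong φ hφ).toValuationSubring) :
    ((restrictSMulEquiv φ hφ h w x :
      ((g' • w).restrictAlong φ hφ).toValuationSubring) : F) = g • (x : F) := rfl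

theorem inertiaDegAlong_smul (h : SemilinearAut.IntertwinesAlong (φ : F →+* F') g g')
    (w : Place K F') :
    (g' • w).inertiaDegAlong φ hφ = w.inertiaDegAlong φ hφ := by
  letI := algebraAlong φ
  haveI := isScalarTower_along φ
  haveI := isIntegral_along φ hφ
  show Module.finrank ((g' • w).restrict F).ResidueField (g' • w).ResidueField
    = Module.finrank (w.restrict F).ResidueField w.ResidueField
  symm
  let e : (Place.restrict F w).toValuationSubring ≃+*
      (Place.restrict F (g' • w)).toValuationSubring := restrictSMulEquiv φ hφ h w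
  refine Algebra.finrank_eq_of_equiv_equiv
    (IsLocalRing.ResidueField.mapEquiv e)
    (SemilinearAut.smulResidueRingEquiv g' w) ?_
  refine Ideal.Quotient.ringHom_ext (RingHom.ext fun x => ?_)
  show algebraMap ((g' • w).restrict F).ResidueField (g' • w).ResidueField
      (IsLocalRing.ResidueField.mapEquiv e
        (IsLocalRing.residue (Place.restrict F w).toValuationSubring x))
    = SemilinearAut.smulResidueRingEquiv g' w
        (algebraMap (w.restrict F).ResidueField w.ResidueField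
          (IsLocalRing.residue (Place.restrict F w).toValuationSubring x))
  rw [IsLocalRing.ResidueField.mapEquiv_apply, IsLocalRing.ResidueField.map_residue,
    Place.algebraMap_residueField_eq, Place.algebraMap_residueField_eq,
    Place.restrictResidueMap_residue, Place.restrictResidueMap_residue]
  show IsLocalRing.residue _ _ = IsLocalRing.ResidueField.mapEquiv _ (IsLocalRing.residue _ _)
  rw [IsLocalRing.ResidueField.mapEquiv_apply, IsLocalRing.ResidueField.map_residue]
  refine congrArg _ (Subtype.ext ?_)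
  exact (h (x : F)).symm

end PlaceLemmas

section DivisorLemmas

variable (φ : F →ₐ[K] F') (hφ : φ.toRingHom.IsIntegral)
  {g : SemilinearAut K F} {g' : SemilinearAut K F'}

theorem pushforwardAlong_smul (h : SemilinearAut.IntertwinesAlong (φ : F →+* F') g g')
    (D : Divisor K F') :
    Divisor.pushforwardAlong φ hφ (g' • D) = g • Divisor.pushforwardAlong φ hφ D := by
  induction D using Finsupp.induction with
  | zero => simp
  | single_add w n D _ _ ih =>
    rw [smul_add, map_add, map_add, smul_add, ih, SemilinearAut.smul_single,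
      Divisor.pushforwardAlong_single, Divisor.pushforwardAlong_single,
      SemilinearAut.smul_single, restrictAlong_smul φ hφ h, inertiaDegAlong_smul φ hφ h]

theorem pullbackAlong_smul [HasPrincipalDivisors K F']
    (h : SemilinearAut.IntertwinesAlong (φ : F →+* F') g g') (D : Divisor K F) :
    Divisor.pullbackAlong φ hφ (g • D) = g' • Divisor.pullbackAlong φ hφ D := by
  ext w
  rw [Divisor.pullbackAlong_apply, SemilinearAut.divisor_smul_apply,
    SemilinearAut.divisor_smul_apply, Divisor.pullbackAlong_apply,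
    restrictAlong_smul φ hφ h.inv, ramificationIndexAlong_smul φ h.inv]

end DivisorLemmas

section CorrespondenceLemmas

variable [HasPrincipalDivisors K F']
variable (φ ψ : F →ₐ[K] F') (hφ : φ.toRingHom.IsIntegral) (hψ : ψ.toRingHom.IsIntegral)
  {g : SemilinearAut K F} {g' : SemilinearAut K F'}

theorem divisor_correspondence_smul
    (h₁ : SemilinearAut.IntertwinesAlong (φ : F →+* F') g g')
    (h₂ : SemilinearAut.IntertwinesAlong (ψ : F →+* F') g g') (D : Divisor K F) :
    Divisor.correspondence φ ψ hφ hψ (g • D) = g • Divisor.correspondence φ ψ hφ hψ D := by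
  rw [Divisor.correspondence_apply, Divisor.correspondence_apply,
    pullbackAlong_smul φ hφ h₁, pushforwardAlong_smul ψ hψ h₂]

theorem pic0_correspondence_smul
    (hFI : FundamentalIdentityAlong K φ hφ)
    (hfin : FiniteAlong K ψ) (hN : NormFormulaAlong K ψ hfin)
    (h₁ : SemilinearAut.IntertwinesAlong (φ : F →+* F') g g')
    (h₂ : SemilinearAut.IntertwinesAlong (ψ : F →+* F') g g') (x : Pic0 K F) :
    Pic0.correspondence φ ψ hφ hψ hFI hfin hN (g • x)
      = g • Pic0.correspondence φ ψ hφ hψ hFI hfin hN x := by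
  obtain ⟨D, rfl⟩ := Pic0.mk_surjective x
  rw [SemilinearAut.pic0_smul_mk, Pic0.correspondence_mk, Pic0.correspondence_mk,
    SemilinearAut.pic0_smul_mk]
  refine congrArg Pic0.mk (Subtype.ext ?_)
  rw [Pic0.coe_degZeroCorrespondence, SemilinearAut.coe_degZeroSMulHom,
    SemilinearAut.coe_degZeroSMulHom, Pic0.coe_degZeroCorrespondence]
  exact divisor_correspondence_smul φ ψ hφ hψ h₁ h₂ (D : Divisor K F)

end CorrespondenceLemmas

end Fermat.Agent.S29.H571

end
end
-- ===== PACK-END S29/H571/Equivariant.lean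

-- ===== PACK-BEGIN S29/H102/RootDesc.lean
section
/-
S29 / M4b / K4 (helper102) — ROOT DESCENT for Laurent series.

If `K` is an algebraically closed field, `ι : K →+* L` a ring hom into a field of characteristic
zero and `s ∈ L((q))` satisfies `s ^ p = coeffMap ι w` for some `w ∈ K((q))`, `p ≠ 0`, then all
coefficients of `s` lie in the image of `ι`, i.e. `s = coeffMap ι v` for some `v ∈ K((q))`.

Proof: the power series part `P` of `s` satisfies the linear differential equation
`G' * P = p • (G * P')` with `G = P ^ p` (coefficients in `ι K`), which determines the coefficients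
of `P` recursively from the constant one; the constant coefficient is a root of `X ^ p - ι c`.

Mathlib + Prelude `coeffMap` only.  Namespace `Fermat.Agent.S29.H102`.
-/



set_option autoImplicit false

noncomputable section

namespace Fermat.Agent.S29.H102

open ModularCurve PowerSeries

variable {K L : Type*} [Field K] [Field L]

/-- An element of `L` which is a root of `X ^ p - ι c` lies in the image of the algebraically
closed field `K`. -/
theorem RootDesc_const [IsAlgClosed K] (ι : K →+* L) {p : ℕ} (hp : p ≠ 0) {a : L} {c : K}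
    (h : a ^ p = ι c) : a ∈ ι.fieldRange := by
  classical
  let _ : Algebra K L := ι.toAlgebra
  have halg : IsAlgebraic K a := by
    refine ⟨Polynomial.X ^ p - Polynomial.C c, ?_, ?_⟩
    · exact Polynomial.X_pow_sub_C_ne_zero (Nat.pos_of_ne_zero hp) c
    · simp only [map_sub, map_pow, Polynomial.aeval_X, Polynomial.aeval_C]
      rw [h]
      exact sub_self _
  have hint : IsIntegral K a := halg.isIntegral
  have hq : (minpoly K a).leadingCoeff = 1 := minpoly.monic hint
  have hdeg : (minpoly K a).degree = 1 :=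
    IsAlgClosed.degree_eq_one_of_irreducible K (minpoly.irreducible hint)
  have h0 : Polynomial.aeval a (minpoly K a) = 0 := minpoly.aeval K a
  rw [Polynomial.eq_X_add_C_of_degree_eq_one hdeg, hq, Polynomial.C_1, one_mul,
    Polynomial.aeval_add, Polynomial.aeval_X, Polynomial.aeval_C,
    add_eq_zero_iff_eq_neg] at h0
  rw [RingHom.mem_fieldRange]
  refine ⟨-(minpoly K a).coeff 0, ?_⟩
  have h1 : ι (-(minpoly K a).coeff 0) = -(algebraMap K L) ((minpoly K a).coeff 0) :=
    map_neg ι _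
  rw [h1]
  exact h0.symm

/-- The differential equation satisfied by a `p`-th root. -/
theorem RootDesc_ode (P : PowerSeries L) (p : ℕ) (hp : p ≠ 0) :
    (d⁄dX L) (P ^ p) * P = (p : PowerSeries L) * (P ^ p * (d⁄dX L) P) := by
  rw [Derivation.leibniz_pow, nsmul_eq_mul, smul_eq_mul]
  have h1 : P ^ p = P ^ (p - 1) * P := by
    rw [← pow_succ, Nat.sub_add_cancel (Nat.one_le_iff_ne_zero.mpr hp)]
  rw [h1]
  ring

/-- Power series version of root descent. -/
theorem RootDesc_powerSeries [IsAlgClosed K] [CharZero L] (ι : K →+* L) {p : ℕ} (hp : p ≠ 0)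
    (P : PowerSeries L) (Q : PowerSeries K) (hP0 : constantCoeff P ≠ 0)
    (h : P ^ p = Q.map ι) : ∀ k, coeff k P ∈ ι.fieldRange := by
  classical
  have hG : ∀ i, coeff i (P ^ p) ∈ ι.fieldRange := by
    intro i
    rw [h, coeff_map]
    exact RingHom.mem_fieldRange.mpr ⟨_, rfl⟩
  have hG0 : coeff 0 (P ^ p) ≠ 0 := by
    rw [coeff_zero_eq_constantCoeff, map_pow]
    exact pow_ne_zero p hP0
  have hnat : ∀ n : ℕ, (n : L) ∈ ι.fieldRange := fun n => natCast_mem _ n
  intro k
  induction k using Nat.strong_induction_on with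
  | _ k ih =>
    rcases Nat.eq_zero_or_pos k with rfl | hk
    · have h0 : (coeff 0 P) ^ p = ι (coeff 0 Q) := by
        have := congrArg (coeff 0) h
        rw [coeff_map] at this
        rw [← this, coeff_zero_eq_constantCoeff, map_pow]
      exact RootDesc_const ι hp h0
    · obtain ⟨m, rfl⟩ : ∃ m, k = m + 1 := ⟨k - 1, (Nat.sub_add_cancel hk).symm⟩
      have hode := congrArg (coeff m) (RootDesc_ode P p hp)
      have hcast : (p : PowerSeries L) = C (p : L) := by simp
      rw [hcast, coeff_C_mul] at hode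
      have hmem : ((0, m) : ℕ × ℕ) ∈ Finset.HasAntidiagonal.antidiagonal m := by
        simp
      set A := ∑ x ∈ Finset.HasAntidiagonal.antidiagonal m,
        coeff (x.1 + 1) (P ^ p) * ((x.1 : L) + 1) * coeff x.2 P with hA
      set B := ∑ x ∈ (Finset.HasAntidiagonal.antidiagonal m).erase (0, m),
          coeff x.1 (P ^ p) * (coeff (x.2 + 1) P * ((x.2 : L) + 1)) with hB
      have hLHS : coeff m ((d⁄dX L) (P ^ p) * P) = A := by
        rw [coeff_mul]
        simp only [coeff_derivative, hA]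
      have hRHS : coeff m (P ^ p * (d⁄dX L) P)
          = coeff 0 (P ^ p) * (coeff (m + 1) P * ((m : L) + 1)) + B := by
        rw [coeff_mul, ← Finset.add_sum_erase _ _ hmem]
        simp only [coeff_derivative, hB]
      rw [hLHS, hRHS] at hode
      -- left side is in the subfield
      have hL : A ∈ ι.fieldRange := by
        refine Subfield.sum_mem _ fun x hx => ?_
        have h2 := Finset.HasAntidiagonal.mem_antidiagonal.mp hx
        have hx2 : x.2 < m + 1 := by omega
        exact mul_mem (mul_mem (hG _) (add_mem (hnat _) (one_mem _))) (ih _ hx2)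
      -- the remaining sum on the right is in the subfield
      have hR : B ∈ ι.fieldRange := by
        refine Subfield.sum_mem _ fun x hx => ?_
        have hx' := Finset.mem_erase.mp hx
        have h2 := Finset.HasAntidiagonal.mem_antidiagonal.mp hx'.2
        have hx1 : x.1 ≠ 0 := by
          intro h0
          apply hx'.1
          ext
          · exact h0
          · simp only
            omega
        have hx2 : x.2 + 1 < m + 1 := by omega
        exact mul_mem (hG _) (mul_mem (ih _ hx2) (add_mem (hnat _) (one_mem _)))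
      -- solve for the coefficient
      have hp0 : (p : L) ≠ 0 := Nat.cast_ne_zero.mpr hp
      have hm0 : ((m : L) + 1) ≠ 0 := by
        have : ((m + 1 : ℕ) : L) ≠ 0 := Nat.cast_ne_zero.mpr (Nat.succ_ne_zero m)
        simpa using this
      have hsolve : coeff (m + 1) P
          = (A - (p : L) * B) / ((p : L) * coeff 0 (P ^ p) * ((m : L) + 1)) := by
        rw [eq_div_iff (mul_ne_zero (mul_ne_zero hp0 hG0) hm0), hode]
        ring
      rw [hsolve]
      exact div_mem (sub_mem hL (mul_mem (hnat p) hR))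
        (mul_mem (mul_mem (hnat p) (hG 0)) (add_mem (hnat m) (one_mem _)))

/-- A Laurent series all of whose coefficients lie in the image of `ι` is a base change. -/
theorem RootDesc_exists_of_coeff_mem (ι : K →+* L) (s : LaurentSeries L)
    (h : ∀ n, s.coeff n ∈ ι.fieldRange) : ∃ v : LaurentSeries K, coeffMap ι v = s := by
  classical
  have hinv : Function.invFun ι 0 = 0 := by
    have := Function.leftInverse_invFun ι.injective (0 : K)
    rwa [map_zero] at this
  refine ⟨s.map (⟨Function.invFun ι, hinv⟩ : ZeroHom L K), ?_⟩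
  ext n
  obtain ⟨c, hc⟩ := RingHom.mem_fieldRange.mp (h n)
  simp only [coeffMap_coeff, HahnSeries.map_coeff, ZeroHom.coe_mk]
  rw [← hc, Function.leftInverse_invFun ι.injective c]

/-- **Root descent.**  A `p`-th root in `L((q))` of a Laurent series with coefficients in the
algebraically closed field `K` has coefficients in `K`. -/
theorem RootDesc_laurent [IsAlgClosed K] [CharZero L] (ι : K →+* L) {p : ℕ} (hp : p ≠ 0)
    (s : LaurentSeries L) (w : LaurentSeries K) (h : s ^ p = coeffMap ι w) :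
    ∃ v : LaurentSeries K, coeffMap ι v = s := by
  classical
  apply RootDesc_exists_of_coeff_mem
  by_cases hs : s = 0
  · intro n
    rw [hs]
    exact zero_mem _
  set n₀ := s.order with hn₀
  set P := s.powerSeriesPart with hP
  -- the shifted series
  set w' : LaurentSeries K := HahnSeries.single (-((p : ℤ) * n₀)) (1 : K) * w with hw'
  set Q : PowerSeries K := PowerSeries.mk fun k => w'.coeff k with hQ
  have hPs : HahnSeries.ofPowerSeries ℤ L P = HahnSeries.single (-n₀) (1 : L) * s :=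
    LaurentSeries.ofPowerSeries_powerSeriesPart s
  have hpow : HahnSeries.ofPowerSeries ℤ L (P ^ p) = coeffMap ι w' := by
    rw [map_pow, hPs, mul_pow, h, hw', map_mul, coeffMap_single, HahnSeries.single_pow,
      one_pow, ι.map_one]
    congr 2
    simp
  have hPQ : P ^ p = Q.map ι := by
    ext k
    rw [coeff_map, hQ, coeff_mk, ← HahnSeries.ofPowerSeries_apply_coeff (Γ := ℤ), hpow,
      coeffMap_coeff]
  have hP0 : constantCoeff P ≠ 0 := by
    rw [← coeff_zero_eq_constantCoeff_apply, hP, LaurentSeries.powerSeriesPart_coeff]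
    simpa using HahnSeries.coeff_order_eq_zero.not.mpr hs
  have hcoeff := RootDesc_powerSeries ι hp P Q hP0 hPQ
  intro n
  by_cases hn : n < n₀
  · rw [HahnSeries.coeff_eq_zero_of_lt_order hn]
    exact zero_mem _
  · obtain ⟨k, hk⟩ : ∃ k : ℕ, n = n₀ + k := by
      refine ⟨(n - n₀).toNat, ?_⟩
      have : 0 ≤ n - n₀ := by omega
      rw [Int.toNat_of_nonneg this]
      ring
    rw [hk, ← LaurentSeries.powerSeriesPart_coeff]
    exact hcoeff k

end Fermat.Agent.S29.H102

end
end
-- ===== PACK-END S29/H102/RootDesc.lean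

-- ===== PACK-BEGIN S28/H807/IntLemma.lean
section
/-
S28 / helper807 — formal integrality: a complex polynomial in `j` whose `q`-expansion has
integer coefficients is an integer polynomial in `j`.
-/




set_option autoImplicit false
set_option maxHeartbeats 400000

noncomputable section

open ModularCurve

namespace Fermat.Agent.S28.H807

variable (A : Type*) [CommRing A]

theorem jqModC_pow_eq (k : ℕ) :
    jqModC A ^ k = HahnSeries.single (-(k : ℤ)) (1 : A) *
      HahnSeries.ofPowerSeries ℤ A ((jNum.map (Int.castRingHom A)) ^ k) := by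
  have h : k • (-1 : ℤ) = -(k : ℤ) := by simp
  rw [jqModC, mul_pow, HahnSeries.single_pow, one_pow, h, ← map_pow]

theorem jqModC_pow_coeff_of_lt (k : ℕ) {m : ℤ} (h : m < -(k : ℤ)) :
    (jqModC A ^ k).coeff m = 0 := by
  rw [jqModC_pow_eq, HahnSeries.coeff_single_mul, one_mul]
  exact ofPowerSeries_coeff_of_neg _ (by linarith)

theorem jqModC_pow_coeff_self (k : ℕ) : (jqModC A ^ k).coeff (-(k : ℤ)) = 1 := by
  rw [jqModC_pow_eq, HahnSeries.coeff_single_mul, one_mul, sub_self]
  have h0 : ((0 : ℕ) : ℤ) = 0 := rfl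
  rw [← h0, HahnSeries.ofPowerSeries_apply_coeff, PowerSeries.coeff_zero_eq_constantCoeff,
    map_pow]
  have : PowerSeries.constantCoeff (jNum.map (Int.castRingHom A)) = 1 := by
    rw [← PowerSeries.coeff_zero_eq_constantCoeff, PowerSeries.coeff_map,
      PowerSeries.coeff_zero_eq_constantCoeff, constantCoeff_jNum]
    simp
  rw [this, one_pow]

/-- Evaluation of a polynomial at `j`, as `eval₂` along the constant embedding. -/
def evalJ (P : Polynomial A) : LaurentSeries A := P.eval₂ HahnSeries.C (jqModC A)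

theorem evalJ_coeff_neg_natDegree (P : Polynomial A) (n : ℕ) (hn : P.natDegree ≤ n) :
    (evalJ A P).coeff (-(n : ℤ)) = P.coeff n := by
  unfold evalJ
  rw [Polynomial.eval₂_eq_sum_range' (HahnSeries.C : A →+* LaurentSeries A)
    (Nat.lt_succ_of_le hn) (jqModC A), HahnSeries.coeff_sum]
  rw [Finset.sum_eq_single n]
  · rw [show (HahnSeries.C : A →+* LaurentSeries A) (P.coeff n)
        = HahnSeries.single (0 : ℤ) (P.coeff n) from rfl,
      HahnSeries.coeff_single_mul, sub_zero, jqModC_pow_coeff_self, mul_one]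
  · intro i hi hne
    have hi' : i < n := by
      have := Finset.mem_range.mp hi
      omega
    have h0 : (jqModC A ^ i).coeff (-(n : ℤ)) = 0 :=
      jqModC_pow_coeff_of_lt A i (by omega)
    rw [show (HahnSeries.C : A →+* LaurentSeries A) (P.coeff i)
        = HahnSeries.single (0 : ℤ) (P.coeff i) from rfl,
      HahnSeries.coeff_single_mul, sub_zero, h0, mul_zero]
  · intro h
    exact absurd (Finset.mem_range.mpr (Nat.lt_succ_self n)) h

theorem coeffMap_jqModC_int : coeffMap (Int.castRingHom A) (jqModC ℤ) = jqModC A :=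
  (jqModC_eq_map_intCast A).symm

theorem coeffMap_intCast_injective [CharZero A] :
    Function.Injective (coeffMap (Int.castRingHom A)) := by
  intro x y h
  ext n
  have := congrArg (fun z => z.coeff n) h
  simp only [coeffMap_coeff, eq_intCast] at this
  exact Int.cast_injective this

/-- Integer-polynomial evaluation at `j ∈ ℤ((q))`. -/
def evalJZ (Q : Polynomial ℤ) : LaurentSeries ℤ := Q.eval₂ (Int.castRingHom _) (jqModC ℤ)

/-- **Integrality lemma.** -/
theorem exists_int_poly_of_evalJ_eq :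
    ∀ (P : Polynomial ℂ) (c : LaurentSeries ℤ),
      evalJ ℂ P = coeffMap (Int.castRingHom ℂ) c → ∃ Q : Polynomial ℤ, evalJZ Q = c := by
  intro P
  induction' hcard : P.support.card using Nat.strong_induction_on with d ih generalizing P
  intro c h
  by_cases hP : P = 0
  · subst hP
    refine ⟨0, ?_⟩
    have h0 : coeffMap (Int.castRingHom ℂ) c = 0 := by
      rw [← h]; simp [evalJ]
    have : c = 0 := coeffMap_intCast_injective ℂ (by rw [h0, map_zero])
    rw [this]; simp [evalJZ]
  · set n := P.natDegree with hn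
    have hlead : (c.coeff (-(n : ℤ)) : ℂ) = P.coeff n := by
      have := evalJ_coeff_neg_natDegree ℂ P n le_rfl
      rw [h, coeffMap_coeff] at this
      simpa using this
    set z : ℤ := c.coeff (-(n : ℤ)) with hz
    set c' : LaurentSeries ℤ := c - (z : LaurentSeries ℤ) * jqModC ℤ ^ n with hc'
    have hP' : evalJ ℂ P.eraseLead = coeffMap (Int.castRingHom ℂ) c' := by
      have h1 : P = P.eraseLead + Polynomial.monomial n (P.coeff n) := by
        rw [hn]
        exact (Polynomial.eraseLead_add_monomial_natDegree_leadingCoeff P).symm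
      have h2 : evalJ ℂ P = evalJ ℂ P.eraseLead + HahnSeries.C (P.coeff n) * jqModC ℂ ^ n := by
        conv_lhs => rw [h1]
        simp [evalJ, Polynomial.eval₂_add, Polynomial.eval₂_monomial]
      rw [hc', map_sub, map_mul, map_pow, coeffMap_jqModC_int, ← h, h2, map_intCast]
      have h3 : HahnSeries.C (P.coeff n) = ((z : ℤ) : LaurentSeries ℂ) := by
        rw [← hlead]
        simp
      rw [h3]; ring
    have hlt : P.eraseLead.support.card < d := by
      rw [← hcard]
      exact Polynomial.eraseLead_support_card_lt hP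
    obtain ⟨Q', hQ'⟩ := ih _ hlt P.eraseLead rfl c' hP'
    refine ⟨Q' + Polynomial.C z * Polynomial.X ^ n, ?_⟩
    unfold evalJZ at *
    rw [Polynomial.eval₂_add, Polynomial.eval₂_mul, Polynomial.eval₂_C, Polynomial.eval₂_pow,
      Polynomial.eval₂_X, hQ', hc']
    simp

end Fermat.Agent.S28.H807

end

end
-- ===== PACK-END S28/H807/IntLemma.lean

-- ===== PACK-BEGIN S28/H628/Hermite.lean
section
/-
S28 long-shot, helper628: Hermite normal form for `diag(d,1) * γ`, `γ ∈ SL(2,ℤ)`.

Pure integer-matrix statement + the corollary for the action on the upper half plane.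
Mathlib only.
-/


set_option autoImplicit false

noncomputable section

namespace Fermat.Agent.S28.H628

open Matrix MatrixGroups UpperHalfPlane

/-- **Hermite normal form** (integer matrices).  For `γ ∈ SL(2,ℤ)` and `d ≥ 1` there are
`γ' ∈ SL(2,ℤ)` and natural numbers `a, b, d'` with `a * d' = d`, `b < d'`,
`a = gcd(d, γ₁₀)`, `gcd(a, b, d') = 1` and
`diag(d,1) * γ = γ' * [[a, b], [0, d']]`. -/
theorem hermite_int (γ : SL(2, ℤ)) (d : ℕ) (hd : 0 < d) :
    ∃ (γ' : SL(2, ℤ)) (a b d' : ℕ), a * d' = d ∧ b < d' ∧ a = Nat.gcd d (γ 1 0).natAbs ∧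
      Nat.gcd a (Nat.gcd b d') = 1 ∧
      (d' : ℤ) ∣ (γ 1 0 / (a : ℤ)) * b - γ 1 1 ∧
      (!![(d : ℤ), 0; 0, 1] : Matrix (Fin 2) (Fin 2) ℤ) * (γ : Matrix (Fin 2) (Fin 2) ℤ)
        = (γ' : Matrix (Fin 2) (Fin 2) ℤ) * !![(a : ℤ), (b : ℤ); 0, (d' : ℤ)] := by
  -- entries of γ
  set A : ℤ := γ 0 0 with hA
  set B : ℤ := γ 0 1 with hB
  set C : ℤ := γ 1 0 with hC
  set D : ℤ := γ 1 1 with hD
  have hdet : A * D - B * C = 1 := by
    have := γ.det_coe
    rw [Matrix.det_fin_two] at this
    simpa [hA, hB, hC, hD] using this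
  -- the gcd
  set g : ℕ := Nat.gcd d C.natAbs with hg
  have hgpos : 0 < g := Nat.gcd_pos_of_pos_left _ hd
  obtain ⟨d', hd'⟩ : g ∣ d := Nat.gcd_dvd_left _ _
  have hgC : (g : ℤ) ∣ C := by
    have : g ∣ C.natAbs := Nat.gcd_dvd_right _ _
    exact Int.natCast_dvd.mpr this
  obtain ⟨C', hC'⟩ := hgC
  have hd'pos : 0 < d' := by
    rcases Nat.eq_zero_or_pos d' with h | h
    · rw [h, mul_zero] at hd'; omega
    · exact h
  -- coprimality of d' and C'
  have hcop1 : IsCoprime (d' : ℤ) C' := by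
    have h1 : Nat.gcd d C.natAbs = g := rfl
    have h2 : Nat.Coprime (d / g) (C.natAbs / g) := Nat.coprime_div_gcd_div_gcd hgpos
    have h3 : d / g = d' := by rw [hd']; exact Nat.mul_div_cancel_left _ hgpos
    have h4 : C.natAbs / g = C'.natAbs := by
      rw [hC', Int.natAbs_mul, Int.natAbs_natCast]; exact Nat.mul_div_cancel_left _ hgpos
    rw [h3, h4] at h2
    rw [Int.isCoprime_iff_gcd_eq_one]
    show Nat.gcd (d' : ℤ).natAbs C'.natAbs = 1
    rw [Int.natAbs_natCast]
    exact h2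
  have hcop2 : IsCoprime A C' := by
    refine ⟨D, -(B * g), ?_⟩
    rw [hC'] at hdet
    linear_combination hdet
  have hcop : IsCoprime ((d' : ℤ) * A) C' := IsCoprime.mul_left hcop1 hcop2
  obtain ⟨u, v, huv⟩ := hcop
  -- the (0,1) entry before reduction
  set B' : ℤ := u * (d * B) + v * D with hB'
  set k : ℤ := B' / (d' : ℤ) with hk
  set b : ℤ := B' % (d' : ℤ) with hb
  have hd'z : (0 : ℤ) < d' := by exact_mod_cast hd'pos
  have hb0 : 0 ≤ b := Int.emod_nonneg _ hd'z.ne'
  have hb1 : b < d' := Int.emod_lt_of_pos _ hd'z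
  have hBb : B' = b + k * d' := by
    rw [hb, hk]; have := Int.emod_add_mul_ediv B' (d' : ℤ); linarith
  have hdz : (d : ℤ) = g * d' := by exact_mod_cast hd'
  -- key relation
  have hkey : C' * (d : ℤ) * B - (d' : ℤ) * A * D + d' = 0 := by
    have : C' * (d : ℤ) * B - (d' : ℤ) * A * D + d' = (d' : ℤ) * (1 - (A * D - B * C)) := by
      rw [hC', hdz]; ring
    rw [this, hdet]; ring
  -- build γ'
  have hdet' : (!![(d' : ℤ) * A, (d' : ℤ) * A * k - v; C', C' * k + u]).det = 1 := by
    rw [Matrix.det_fin_two]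
    simp only [Matrix.of_apply, Matrix.cons_val', Matrix.cons_val_zero, Matrix.cons_val_one,
      Matrix.empty_val', Matrix.cons_val_fin_one]
    linear_combination huv
  refine ⟨⟨!![(d' : ℤ) * A, (d' : ℤ) * A * k - v; C', C' * k + u], hdet'⟩, g, b.toNat, d',
    hd'.symm, ?_, rfl, ?_, ?_, ?_⟩
  · -- b < d'
    have : (b.toNat : ℤ) = b := Int.toNat_of_nonneg hb0
    exact_mod_cast this ▸ hb1
  · -- gcd (g, b, d') = 1
    have hbn : (b.toNat : ℤ) = b := Int.toNat_of_nonneg hb0
    set e : ℕ := Nat.gcd g (Nat.gcd b.toNat d') with he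
    have he1 : (e : ℤ) ∣ g := Int.natCast_dvd_natCast.mpr (Nat.gcd_dvd_left _ _)
    have he2 : (e : ℤ) ∣ b := by
      rw [← hbn]
      exact Int.natCast_dvd_natCast.mpr ((Nat.gcd_dvd_right _ _).trans (Nat.gcd_dvd_left _ _))
    have he3 : (e : ℤ) ∣ d' :=
      Int.natCast_dvd_natCast.mpr ((Nat.gcd_dvd_right _ _).trans (Nat.gcd_dvd_right _ _))
    have heC : (e : ℤ) ∣ C := by rw [hC']; exact Dvd.dvd.mul_right he1 _
    have heD : (e : ℤ) ∣ D := by
      have hDeq : D = C' * b + (C' * k + u) * d' := by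
        have h1 : C' * B' + u * d' = D := by
          rw [hB']
          linear_combination u * hkey + D * huv
        rw [← h1, hBb]; ring
      rw [hDeq]
      exact dvd_add (Dvd.dvd.mul_left he2 _) (Dvd.dvd.mul_left he3 _)
    have he1' : (e : ℤ) ∣ 1 := by
      rw [← hdet]
      exact dvd_sub (Dvd.dvd.mul_left heD _) (Dvd.dvd.mul_left heC _)
    have : e ∣ 1 := by exact_mod_cast he1'
    exact Nat.dvd_one.mp this
  · -- the congruence determining `b`
    have hbn : (b.toNat : ℤ) = b := Int.toNat_of_nonneg hb0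
    rw [hbn]
    have hCg : C / (g : ℤ) = C' := by
      rw [hC']; exact Int.mul_ediv_cancel_left _ (by exact_mod_cast hgpos.ne')
    rw [hCg]
    have hDeq : D = C' * b + (C' * k + u) * d' := by
      have h1 : C' * B' + u * d' = D := by
        rw [hB']
        linear_combination u * hkey + D * huv
      rw [← h1, hBb]; ring
    refine ⟨-(C' * k + u), ?_⟩
    linear_combination (-1 : ℤ) * hDeq
  · -- the matrix identity
    have hbn : (b.toNat : ℤ) = b := Int.toNat_of_nonneg hb0
    rw [hbn]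
    have e00 : (d : ℤ) * A = (d' : ℤ) * A * g := by rw [hdz]; ring
    have e10 : C = C' * g := by rw [hC']; ring
    have e01 : (d : ℤ) * B = (d' : ℤ) * A * b + ((d' : ℤ) * A * k - v) * d' := by
      have h1 : (d' : ℤ) * A * B' - v * d' = d * B := by
        rw [hB']
        linear_combination (-v) * hkey + (d : ℤ) * B * huv
      rw [← h1, hBb]; ring
    have e11 : D = C' * b + (C' * k + u) * d' := by
      have h1 : C' * B' + u * d' = D := by
        rw [hB']
        linear_combination u * hkey + D * huv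
      rw [← h1, hBb]; ring
    ext i j
    fin_cases i <;> fin_cases j
    · simpa [Matrix.mul_apply, Fin.sum_univ_two] using e00
    · simpa [Matrix.mul_apply, Fin.sum_univ_two] using e01
    · simpa [Matrix.mul_apply, Fin.sum_univ_two] using e10
    · simpa [Matrix.mul_apply, Fin.sum_univ_two] using e11

/-! ### Canonical Hermite data `(hermA, hermB, hermD)` attached to `(d, γ)` -/

/-- `a = gcd(d, γ₁₀)`. -/
def hermA (d : ℕ) (γ : SL(2, ℤ)) : ℕ := Nat.gcd d (γ 1 0).natAbs

/-- `d' = d / a`. -/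
def hermD (d : ℕ) (γ : SL(2, ℤ)) : ℕ := d / hermA d γ

/-- The property characterising `b`: `b < d'` and `(γ₁₀ / a) * b ≡ γ₁₁ (mod d')`. -/
def HermBProp (d : ℕ) (γ : SL(2, ℤ)) (b : ℕ) : Prop :=
  b < hermD d γ ∧ (hermD d γ : ℤ) ∣ (γ 1 0 / (hermA d γ : ℤ)) * b - γ 1 1

open Classical in
/-- Auxiliary: some natural number satisfying `P` (or `0` if there is none). -/
def chooseNatOr0 (P : ℕ → Prop) : ℕ :=
  if h : ∃ b, P b then Classical.choose h else 0

theorem chooseNatOr0_spec {P : ℕ → Prop} (h : ∃ b, P b) : P (chooseNatOr0 P) := by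
  unfold chooseNatOr0
  rw [dif_pos h]
  exact Classical.choose_spec h

/-- `b` = the unique residue `< d'` with `(γ₁₀ / a) * b ≡ γ₁₁ (mod d')` (and `0` if `d = 0`). -/
def hermB (d : ℕ) (γ : SL(2, ℤ)) : ℕ := chooseNatOr0 (HermBProp d γ)

theorem hermA_dvd (d : ℕ) (γ : SL(2, ℤ)) : hermA d γ ∣ d := Nat.gcd_dvd_left _ _

theorem hermA_pos {d : ℕ} (hd : 0 < d) (γ : SL(2, ℤ)) : 0 < hermA d γ :=
  Nat.gcd_pos_of_pos_left _ hd

theorem hermA_mul_hermD (d : ℕ) (γ : SL(2, ℤ)) : hermA d γ * hermD d γ = d :=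
  Nat.mul_div_cancel' (hermA_dvd d γ)

theorem hermD_pos {d : ℕ} (hd : 0 < d) (γ : SL(2, ℤ)) : 0 < hermD d γ := by
  rcases Nat.eq_zero_or_pos (hermD d γ) with h | h
  · have := hermA_mul_hermD d γ
    rw [h, mul_zero] at this; omega
  · exact h

theorem hermD_dvd (d : ℕ) (γ : SL(2, ℤ)) : hermD d γ ∣ d :=
  ⟨hermA d γ, by rw [mul_comm]; exact (hermA_mul_hermD d γ).symm⟩

theorem hermA_cast_dvd (d : ℕ) (γ : SL(2, ℤ)) : (hermA d γ : ℤ) ∣ γ 1 0 :=
  Int.natCast_dvd.mpr (Nat.gcd_dvd_right _ _)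

theorem herm_isCoprime {d : ℕ} (hd : 0 < d) (γ : SL(2, ℤ)) :
    IsCoprime (hermD d γ : ℤ) (γ 1 0 / (hermA d γ : ℤ)) := by
  have hgpos := hermA_pos hd γ
  obtain ⟨C', hC'⟩ := hermA_cast_dvd d γ
  have hCg : γ 1 0 / (hermA d γ : ℤ) = C' := by
    rw [hC']; exact Int.mul_ediv_cancel_left _ (by exact_mod_cast hgpos.ne')
  rw [hCg]
  have h2 : Nat.Coprime (d / hermA d γ) ((γ 1 0).natAbs / hermA d γ) :=
    Nat.coprime_div_gcd_div_gcd hgpos
  have h4 : (γ 1 0).natAbs / hermA d γ = C'.natAbs := by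
    rw [hC', Int.natAbs_mul, Int.natAbs_natCast]; exact Nat.mul_div_cancel_left _ hgpos
  rw [h4] at h2
  rw [Int.isCoprime_iff_gcd_eq_one]
  show Nat.gcd (hermD d γ : ℤ).natAbs C'.natAbs = 1
  rw [Int.natAbs_natCast]
  exact h2

theorem hermBProp_unique {d : ℕ} (hd : 0 < d) (γ : SL(2, ℤ)) {b₁ b₂ : ℕ}
    (h₁ : HermBProp d γ b₁) (h₂ : HermBProp d γ b₂) : b₁ = b₂ := by
  obtain ⟨h₁l, h₁d⟩ := h₁
  obtain ⟨h₂l, h₂d⟩ := h₂
  have hcop := herm_isCoprime hd γ
  have hdvd : (hermD d γ : ℤ) ∣ (γ 1 0 / (hermA d γ : ℤ)) * ((b₁ : ℤ) - b₂) := by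
    have := dvd_sub h₁d h₂d
    have e : (γ 1 0 / (hermA d γ : ℤ)) * ((b₁ : ℤ) - b₂)
        = (γ 1 0 / (hermA d γ : ℤ)) * b₁ - γ 1 1 - ((γ 1 0 / (hermA d γ : ℤ)) * b₂ - γ 1 1) := by
      ring
    rw [e]; exact this
  have hdvd' : (hermD d γ : ℤ) ∣ (b₁ : ℤ) - b₂ := hcop.dvd_of_dvd_mul_left hdvd
  have := Int.eq_of_sub_eq_zero (Int.eq_zero_of_abs_lt_dvd hdvd' (by
    rw [abs_lt]; constructor <;> omega))
  exact_mod_cast this

theorem hermite_exists_hermBProp {d : ℕ} (hd : 0 < d) (γ : SL(2, ℤ)) :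
    ∃ b, HermBProp d γ b ∧ Nat.gcd (hermA d γ) (Nat.gcd b (hermD d γ)) = 1 ∧
      ∃ γ' : SL(2, ℤ),
        (!![(d : ℤ), 0; 0, 1] : Matrix (Fin 2) (Fin 2) ℤ) * (γ : Matrix (Fin 2) (Fin 2) ℤ)
          = (γ' : Matrix (Fin 2) (Fin 2) ℤ) *
            !![(hermA d γ : ℤ), (b : ℤ); 0, (hermD d γ : ℤ)] := by
  obtain ⟨γ', a, b, d', had, hb, ha, hgcd, hdvd, hmat⟩ := hermite_int γ d hd
  have haA : a = hermA d γ := ha
  have hdD : d' = hermD d γ := by
    have h1 := hermA_mul_hermD d γ
    rw [← haA] at h1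
    have hapos : 0 < a := haA ▸ hermA_pos hd γ
    exact Nat.eq_of_mul_eq_mul_left hapos (had.trans h1.symm)
  subst haA
  subst hdD
  exact ⟨b, ⟨hb, hdvd⟩, hgcd, γ', hmat⟩

theorem hermBProp_hermB {d : ℕ} (hd : 0 < d) (γ : SL(2, ℤ)) : HermBProp d γ (hermB d γ) := by
  have h : ∃ b, HermBProp d γ b := by
    obtain ⟨b, hb, -⟩ := hermite_exists_hermBProp hd γ
    exact ⟨b, hb⟩
  exact chooseNatOr0_spec h

theorem hermB_lt {d : ℕ} (hd : 0 < d) (γ : SL(2, ℤ)) : hermB d γ < hermD d γ :=
  (hermBProp_hermB hd γ).1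

theorem hermB_dvd {d : ℕ} (hd : 0 < d) (γ : SL(2, ℤ)) :
    (hermD d γ : ℤ) ∣ (γ 1 0 / (hermA d γ : ℤ)) * hermB d γ - γ 1 1 :=
  (hermBProp_hermB hd γ).2

theorem hermB_eq_of_prop {d : ℕ} (hd : 0 < d) (γ : SL(2, ℤ)) {b : ℕ} (hb : HermBProp d γ b) :
    hermB d γ = b :=
  hermBProp_unique hd γ (hermBProp_hermB hd γ) hb

/-- **Hermite normal form, canonical data.**  `diag(d,1) * γ = γ' * [[a,b],[0,d']]` with
`(a,b,d') = (hermA d γ, hermB d γ, hermD d γ)`. -/
theorem hermite_spec {d : ℕ} (hd : 0 < d) (γ : SL(2, ℤ)) :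
    ∃ γ' : SL(2, ℤ),
      (!![(d : ℤ), 0; 0, 1] : Matrix (Fin 2) (Fin 2) ℤ) * (γ : Matrix (Fin 2) (Fin 2) ℤ)
        = (γ' : Matrix (Fin 2) (Fin 2) ℤ) *
          !![(hermA d γ : ℤ), (hermB d γ : ℤ); 0, (hermD d γ : ℤ)] := by
  obtain ⟨b, hb, -, γ', hmat⟩ := hermite_exists_hermBProp hd γ
  rw [hermB_eq_of_prop hd γ hb]
  exact ⟨γ', hmat⟩

theorem herm_gcd {d : ℕ} (hd : 0 < d) (γ : SL(2, ℤ)) :
    Nat.gcd (hermA d γ) (Nat.gcd (hermB d γ) (hermD d γ)) = 1 := by
  obtain ⟨b, hb, hg, -⟩ := hermite_exists_hermBProp hd γ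
  rw [hermB_eq_of_prop hd γ hb]
  exact hg

/-- The Hermite data depend only on the bottom row of `γ`. -/
theorem herm_congr_bottom (d : ℕ) {γ₁ γ₂ : SL(2, ℤ)} (h0 : γ₁ 1 0 = γ₂ 1 0)
    (h1 : γ₁ 1 1 = γ₂ 1 1) :
    hermA d γ₁ = hermA d γ₂ ∧ hermB d γ₁ = hermB d γ₂ ∧ hermD d γ₁ = hermD d γ₂ := by
  have hA : hermA d γ₁ = hermA d γ₂ := by unfold hermA; rw [h0]
  have hD : hermD d γ₁ = hermD d γ₂ := by unfold hermD; rw [hA]
  have hP : ∀ b, HermBProp d γ₁ b ↔ HermBProp d γ₂ b := by
    intro b; unfold HermBProp; rw [hA, hD, h0, h1]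
  refine ⟨hA, ?_, hD⟩
  unfold hermB
  have hP' : HermBProp d γ₁ = HermBProp d γ₂ := funext fun b => propext (hP b)
  rw [hP']

/-- Identity element: `(a, b, d') = (d, 0, 1)`. -/
theorem herm_one {d : ℕ} (hd : 0 < d) :
    hermA d (1 : SL(2, ℤ)) = d ∧ hermB d (1 : SL(2, ℤ)) = 0 ∧ hermD d (1 : SL(2, ℤ)) = 1 := by
  have hA : hermA d (1 : SL(2, ℤ)) = d := by simp [hermA]
  have hD : hermD d (1 : SL(2, ℤ)) = 1 := by
    unfold hermD; rw [hA]; exact Nat.div_self hd
  refine ⟨hA, ?_, hD⟩
  have := hermB_lt hd (1 : SL(2, ℤ))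
  rw [hD] at this
  omega

/-! ### Independence of the coset `Γ₀(N) γ` -/

theorem herm_Gamma0_mul {N d : ℕ} (hd : 0 < d) (hdN : d ∣ N) {γ₀ : SL(2, ℤ)}
    (hγ₀ : γ₀ ∈ CongruenceSubgroup.Gamma0 N) (γ : SL(2, ℤ)) :
    hermA d (γ₀ * γ) = hermA d γ ∧ hermB d (γ₀ * γ) = hermB d γ ∧
      hermD d (γ₀ * γ) = hermD d γ := by
  -- entries
  have hN : (N : ℤ) ∣ γ₀ 1 0 := by
    rw [CongruenceSubgroup.Gamma0_mem] at hγ₀
    exact (ZMod.intCast_zmod_eq_zero_iff_dvd _ _).mp hγ₀
  have hdc0 : (d : ℤ) ∣ γ₀ 1 0 := (Int.natCast_dvd_natCast.mpr hdN).trans hN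
  have hdet0 : γ₀ 0 0 * γ₀ 1 1 - γ₀ 0 1 * γ₀ 1 0 = 1 := by
    have := γ₀.det_coe
    rw [Matrix.det_fin_two] at this
    exact this
  have hcop0 : IsCoprime (γ₀ 1 1) (d : ℤ) := by
    obtain ⟨m, hm⟩ := hdc0
    refine ⟨γ₀ 0 0, -(γ₀ 0 1 * m), ?_⟩
    rw [hm] at hdet0
    linear_combination hdet0
  have e10 : (γ₀ * γ) 1 0 = γ₀ 1 0 * γ 0 0 + γ₀ 1 1 * γ 1 0 := by
    simp [Matrix.SpecialLinearGroup.coe_mul, Matrix.mul_apply, Fin.sum_univ_two]
  have e11 : (γ₀ * γ) 1 1 = γ₀ 1 0 * γ 0 1 + γ₀ 1 1 * γ 1 1 := by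
    simp [Matrix.SpecialLinearGroup.coe_mul, Matrix.mul_apply, Fin.sum_univ_two]
  -- hermA
  have hA : hermA d (γ₀ * γ) = hermA d γ := by
    unfold hermA
    apply Nat.dvd_antisymm
    · apply Nat.dvd_gcd (Nat.gcd_dvd_left _ _)
      have h1 : ((Nat.gcd d ((γ₀ * γ) 1 0).natAbs : ℕ) : ℤ) ∣ (γ₀ * γ) 1 0 :=
        Int.natCast_dvd.mpr (Nat.gcd_dvd_right _ _)
      have h2 : ((Nat.gcd d ((γ₀ * γ) 1 0).natAbs : ℕ) : ℤ) ∣ (d : ℤ) :=
        Int.natCast_dvd_natCast.mpr (Nat.gcd_dvd_left _ _)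
      have h3 : ((Nat.gcd d ((γ₀ * γ) 1 0).natAbs : ℕ) : ℤ) ∣ γ₀ 1 1 * γ 1 0 := by
        have : γ₀ 1 1 * γ 1 0 = (γ₀ * γ) 1 0 - γ₀ 1 0 * γ 0 0 := by rw [e10]; ring
        rw [this]
        exact dvd_sub h1 (Dvd.dvd.mul_right (h2.trans hdc0) _)
      have h4 : IsCoprime ((Nat.gcd d ((γ₀ * γ) 1 0).natAbs : ℕ) : ℤ) (γ₀ 1 1) :=
        (hcop0.of_isCoprime_of_dvd_right h2).symm
      have h5 := h4.dvd_of_dvd_mul_left h3
      exact Int.natCast_dvd.mp h5
    · apply Nat.dvd_gcd (Nat.gcd_dvd_left _ _)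
      have h1 : ((Nat.gcd d (γ 1 0).natAbs : ℕ) : ℤ) ∣ γ 1 0 :=
        Int.natCast_dvd.mpr (Nat.gcd_dvd_right _ _)
      have h2 : ((Nat.gcd d (γ 1 0).natAbs : ℕ) : ℤ) ∣ (d : ℤ) :=
        Int.natCast_dvd_natCast.mpr (Nat.gcd_dvd_left _ _)
      have h3 : ((Nat.gcd d (γ 1 0).natAbs : ℕ) : ℤ) ∣ (γ₀ * γ) 1 0 := by
        rw [e10]
        exact dvd_add (Dvd.dvd.mul_right (h2.trans hdc0) _) (Dvd.dvd.mul_left h1 _)
      exact Int.natCast_dvd.mp h3
  have hD : hermD d (γ₀ * γ) = hermD d γ := by unfold hermD; rw [hA]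
  refine ⟨hA, ?_, hD⟩
  -- hermB
  apply hermB_eq_of_prop hd
  have hP := hermBProp_hermB hd γ
  refine ⟨by rw [hD]; exact hP.1, ?_⟩
  rw [hD, hA]
  have hapos : (0 : ℤ) < hermA d γ := by exact_mod_cast hermA_pos hd γ
  obtain ⟨C', hC'⟩ := hermA_cast_dvd d γ
  have hCg : γ 1 0 / (hermA d γ : ℤ) = C' := by
    rw [hC']; exact Int.mul_ediv_cancel_left _ hapos.ne'
  have hP2 := hP.2
  rw [hCg] at hP2
  -- `γ₀ 1 0 = a * d' * m`
  obtain ⟨m, hm⟩ := hdc0
  have hdz : (d : ℤ) = hermA d γ * hermD d γ := by exact_mod_cast (hermA_mul_hermD d γ).symm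
  have hquot : (γ₀ * γ) 1 0 / (hermA d γ : ℤ) = (hermD d γ : ℤ) * m * γ 0 0 + γ₀ 1 1 * C' := by
    have : (γ₀ * γ) 1 0 = (hermA d γ : ℤ) * ((hermD d γ : ℤ) * m * γ 0 0 + γ₀ 1 1 * C') := by
      linear_combination e10 + γ 0 0 * hm + m * γ 0 0 * hdz + γ₀ 1 1 * hC'
    rw [this]; exact Int.mul_ediv_cancel_left _ hapos.ne'
  rw [hquot, e11]
  obtain ⟨w, hw⟩ := hP2
  refine ⟨m * γ 0 0 * hermB d γ - hermA d γ * m * γ 0 1 + γ₀ 1 1 * w, ?_⟩
  linear_combination (γ₀ 1 1) * hw - γ 0 1 * hm - γ 0 1 * m * hdz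

/-! ### The corollary on the upper half plane -/

theorem int_lin_ne_zero (c e : ℤ) (h : c ≠ 0 ∨ e ≠ 0) (τ : ℍ) : (c : ℂ) * (τ : ℂ) + e ≠ 0 := by
  intro h0
  have him : ((c : ℂ) * (τ : ℂ) + e).im = 0 := by rw [h0]; simp
  have hre : ((c : ℂ) * (τ : ℂ) + e).re = 0 := by rw [h0]; simp
  simp only [Complex.add_im, Complex.mul_im, Complex.intCast_re, Complex.intCast_im, zero_mul,
    add_zero, UpperHalfPlane.coe_im] at him
  have hc : (c : ℝ) = 0 := by
    rcases mul_eq_zero.mp him with h | h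
    · exact h
    · exact absurd h τ.im_ne_zero
  simp only [Complex.add_re, Complex.mul_re, Complex.intCast_re, Complex.intCast_im, zero_mul,
    sub_zero, hc] at hre
  have hc' : c = 0 := by exact_mod_cast hc
  have he' : e = 0 := by
    have : (e : ℝ) = 0 := by linarith
    exact_mod_cast this
  rcases h with h | h
  · exact h hc'
  · exact h he'

theorem SL2_bottom_ne_zero (γ : SL(2, ℤ)) : γ 1 0 ≠ 0 ∨ γ 1 1 ≠ 0 := by
  by_contra h
  rw [not_or, not_not, not_not] at h
  have := γ.det_coe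
  rw [Matrix.det_fin_two, h.1, h.2] at this
  simp at this

theorem SL2_coe_smul (γ : SL(2, ℤ)) (τ : ℍ) :
    ((γ • τ : ℍ) : ℂ) = ((γ 0 0 : ℂ) * τ + (γ 0 1 : ℂ)) / ((γ 1 0 : ℂ) * τ + (γ 1 1 : ℂ)) := by
  rw [UpperHalfPlane.coe_specialLinearGroup_apply]
  simp

/-- **Hermite normal form on `ℍ`, full version.**  There is `γ' ∈ SL(2,ℤ)` (depending only on
`d`, `γ`) such that for all `τ` and `σ = (aτ + b)/d'` (with `(a,b,d')` the Hermite data):
`γ' • σ = d • (γ • τ)` and the automorphy factors are related by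
`γ'₁₀ σ + γ'₁₁ = (γ₁₀ τ + γ₁₁) / d'`. -/
theorem hermite_smul_full {d : ℕ} (hd : 0 < d) (γ : SL(2, ℤ)) :
    ∃ γ' : SL(2, ℤ), ∀ τ σ : ℍ,
      (σ : ℂ) = ((hermA d γ : ℂ) * τ + (hermB d γ : ℂ)) / (hermD d γ : ℂ) →
      ((γ' • σ : ℍ) : ℂ) = (d : ℂ) * ((γ • τ : ℍ) : ℂ) ∧
      (γ' 1 0 : ℂ) * σ + (γ' 1 1 : ℂ) = ((γ 1 0 : ℂ) * τ + (γ 1 1 : ℂ)) / (hermD d γ : ℂ) := by
  obtain ⟨γ', hmat⟩ := hermite_spec hd γ
  refine ⟨γ', fun τ σ hσ => ?_⟩
  -- entry equations
  have h00 := congrFun (congrFun hmat 0) 0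
  have h01 := congrFun (congrFun hmat 0) 1
  have h10 := congrFun (congrFun hmat 1) 0
  have h11 := congrFun (congrFun hmat 1) 1
  simp only [Matrix.mul_apply, Fin.sum_univ_two, Matrix.of_apply, Matrix.cons_val',
    Matrix.cons_val_zero, Matrix.cons_val_one, Matrix.empty_val', Matrix.cons_val_fin_one,
    zero_mul, add_zero, one_mul, zero_add, mul_zero] at h00 h01 h10 h11
  have c00 : (d : ℂ) * (γ 0 0 : ℂ) = (γ' 0 0 : ℂ) * (hermA d γ : ℂ) := by exact_mod_cast h00
  have c01 : (d : ℂ) * (γ 0 1 : ℂ) = (γ' 0 0 : ℂ) * (hermB d γ : ℂ) + (γ' 0 1 : ℂ) * (hermD d γ : ℂ) := by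
    exact_mod_cast h01
  have c10 : (γ 1 0 : ℂ) = (γ' 1 0 : ℂ) * (hermA d γ : ℂ) := by exact_mod_cast h10
  have c11 : (γ 1 1 : ℂ) = (γ' 1 0 : ℂ) * (hermB d γ : ℂ) + (γ' 1 1 : ℂ) * (hermD d γ : ℂ) := by
    exact_mod_cast h11
  have hD0 : (hermD d γ : ℂ) ≠ 0 := by exact_mod_cast (hermD_pos hd γ).ne'
  have hden1 := int_lin_ne_zero _ _ (SL2_bottom_ne_zero γ) τ
  have hden2 := int_lin_ne_zero _ _ (SL2_bottom_ne_zero γ') σ
  have hnum : (γ' 0 0 : ℂ) * σ + (γ' 0 1 : ℂ)
      = (d : ℂ) * ((γ 0 0 : ℂ) * τ + (γ 0 1 : ℂ)) / (hermD d γ : ℂ) := by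
    rw [hσ]; field_simp; linear_combination (-(τ : ℂ)) * c00 - c01
  have hdenom : (γ' 1 0 : ℂ) * σ + (γ' 1 1 : ℂ)
      = ((γ 1 0 : ℂ) * τ + (γ 1 1 : ℂ)) / (hermD d γ : ℂ) := by
    rw [hσ]; field_simp; linear_combination (-(τ : ℂ)) * c10 - c11
  refine ⟨?_, hdenom⟩
  rw [SL2_coe_smul, SL2_coe_smul]
  rw [hnum, hdenom]
  field_simp

/-- **Hermite normal form on `ℍ`.**  There is `γ' ∈ SL(2,ℤ)` (depending only on `d`, `γ`) with
`γ' • ((aτ + b)/d') = d • (γ • τ)` for all `τ`, where `(a,b,d')` is the Hermite data. The points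
`(aτ+b)/d'` are passed as arbitrary `σ : ℍ` with the right coercion to `ℂ`. -/
theorem hermite_smul {d : ℕ} (hd : 0 < d) (γ : SL(2, ℤ)) :
    ∃ γ' : SL(2, ℤ), ∀ τ σ : ℍ,
      (σ : ℂ) = ((hermA d γ : ℂ) * τ + (hermB d γ : ℂ)) / (hermD d γ : ℂ) →
      ((γ' • σ : ℍ) : ℂ) = (d : ℂ) * ((γ • τ : ℍ) : ℂ) := by
  obtain ⟨γ', h⟩ := hermite_smul_full hd γ
  exact ⟨γ', fun τ σ hσ => (h τ σ hσ).1⟩

end Fermat.Agent.S28.H628

end

end
-- ===== PACK-END S28/H628/Hermite.lean

-- ===== PACK-BEGIN S24/Scott.lean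
section
/-
Ree / Feit–Lyndon–Scott inequality and parity for three permutations with product one
generating a transitive group.  Pure Mathlib.  (S24 long shot, module H.)

Main results (namespace `Fermat.Agent.S24.Scott`):

* `orbits σ`            : number of orbits of `Subgroup.zpowers σ` on `X`
* `finrank_ker_D`       : `finrank ker (1 - L σ) = orbits σ`
* `ree_le`              : `orbits a + orbits b + orbits c ≤ card X + 2`
* `sign_eq`             : `sign σ = (-1) ^ (card X + orbits σ)`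
* `parity`              : `Even (card X + orbits a + orbits b + orbits c)`
* `exists_genus_perm`   : `∃ g, 2 * g + orbits a + orbits b + orbits c = card X + 2`
* `exists_genus`        : the same for a group action
-/


set_option autoImplicit false

namespace Fermat.Agent.S24.Scott

open Module

section Perm

variable {X : Type*}

/-- Number of orbits of the cyclic group generated by `σ`. -/
noncomputable def orbits (σ : Equiv.Perm X) : ℕ :=
  Nat.card (MulAction.orbitRel.Quotient (Subgroup.zpowers σ) X)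

/-- The linear map `f ↦ f ∘ σ` on `X → ℚ`. -/
noncomputable def L (σ : Equiv.Perm X) : (X → ℚ) →ₗ[ℚ] (X → ℚ) :=
  LinearMap.funLeft ℚ ℚ σ

@[simp] lemma L_apply (σ : Equiv.Perm X) (f : X → ℚ) (p : X) : L σ f p = f (σ p) := rfl

lemma L_comp (σ τ : Equiv.Perm X) : L σ ∘ₗ L τ = L (τ * σ) := by
  ext f p
  simp

lemma L_one : L (1 : Equiv.Perm X) = LinearMap.id := by
  ext f p
  simp

/-- `D σ = 1 - L σ`. -/
noncomputable def D (σ : Equiv.Perm X) : (X → ℚ) →ₗ[ℚ] (X → ℚ) :=
  LinearMap.id - L σ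

@[simp] lemma D_apply (σ : Equiv.Perm X) (f : X → ℚ) (p : X) : D σ f p = f p - f (σ p) := rfl

lemma mem_ker_D {σ : Equiv.Perm X} {f : X → ℚ} :
    f ∈ LinearMap.ker (D σ) ↔ ∀ p, f (σ p) = f p := by
  rw [LinearMap.mem_ker]
  constructor
  · intro h p
    have := congrFun h p
    simp only [D_apply, Pi.zero_apply] at this
    linarith
  · intro h
    ext p
    simp [h p]

lemma apply_zpow_of_mem_ker_D {σ : Equiv.Perm X} {f : X → ℚ}
    (hf : f ∈ LinearMap.ker (D σ)) (k : ℤ) (p : X) : f ((σ ^ k) p) = f p := by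
  rw [mem_ker_D] at hf
  induction k using Int.induction_on generalizing p with
  | zero => simp
  | succ n ih =>
    rw [zpow_add, zpow_one, Equiv.Perm.mul_apply, ih, hf]
  | pred n ih =>
    rw [zpow_sub, zpow_one, Equiv.Perm.mul_apply, ih]
    have := hf (σ⁻¹ p)
    simpa using this.symm

lemma apply_eq_of_orbitRel {σ : Equiv.Perm X} {f : X → ℚ}
    (hf : f ∈ LinearMap.ker (D σ)) {p q : X}
    (h : (MulAction.orbitRel (Subgroup.zpowers σ) X) p q) : f p = f q := by
  rw [MulAction.orbitRel_apply] at h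
  obtain ⟨⟨g, hg⟩, rfl⟩ := h
  obtain ⟨k, rfl⟩ := Subgroup.mem_zpowers_iff.mp hg
  exact apply_zpow_of_mem_ker_D hf k q

/-- Pullback along the quotient map to the orbit space. -/
noncomputable def pull (σ : Equiv.Perm X) :
    (MulAction.orbitRel.Quotient (Subgroup.zpowers σ) X → ℚ) →ₗ[ℚ] (X → ℚ) :=
  LinearMap.funLeft ℚ ℚ (Quotient.mk (MulAction.orbitRel (Subgroup.zpowers σ) X))

lemma pull_injective (σ : Equiv.Perm X) : Function.Injective (pull σ) := by
  intro g₁ g₂ h
  funext q
  induction q using Quotient.inductionOn with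
  | _ p => exact congrFun h p

lemma range_pull (σ : Equiv.Perm X) : LinearMap.range (pull σ) = LinearMap.ker (D σ) := by
  apply le_antisymm
  · rintro _ ⟨g, rfl⟩
    rw [mem_ker_D]
    intro p
    show g _ = g _
    congr 1
    apply Quotient.sound
    exact MulAction.orbitRel_apply.mpr ⟨⟨σ, Subgroup.mem_zpowers σ⟩, rfl⟩
  · intro f hf
    refine ⟨Quotient.lift f (fun p q h => apply_eq_of_orbitRel hf h), ?_⟩
    funext p
    rfl

variable [Fintype X]

lemma finrank_ker_D (σ : Equiv.Perm X) : finrank ℚ (LinearMap.ker (D σ)) = orbits σ := by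
  classical
  rw [← range_pull, LinearMap.finrank_range_of_inj (pull_injective σ)]
  let _ : Fintype (MulAction.orbitRel.Quotient (Subgroup.zpowers σ) X) := Fintype.ofFinite _
  rw [Module.finrank_fintype_fun_eq_card, orbits, Nat.card_eq_fintype_card]

lemma finrank_range_D_add (σ : Equiv.Perm X) :
    finrank ℚ (LinearMap.range (D σ)) + orbits σ = Fintype.card X := by
  rw [← finrank_ker_D, LinearMap.finrank_range_add_finrank_ker, Module.finrank_fintype_fun_eq_card]

end Perm

section Ree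

lemma finrank_span_singleton_le_one {V : Type*} [AddCommGroup V] [Module ℚ V] (v : V) :
    finrank ℚ (Submodule.span ℚ {v}) ≤ 1 := by
  by_cases hv : v = 0
  · subst hv
    rw [Submodule.span_zero_singleton, finrank_bot]
    exact Nat.zero_le 1
  · rw [finrank_span_singleton hv]

variable {X : Type*} [Fintype X] [DecidableEq X]

/-- Standard basis vector of `X → ℚ`. -/
noncomputable def e (p : X) : X → ℚ := Pi.single p 1

lemma e_apply (p x : X) : e p x = if x = p then 1 else 0 := by
  simp [e, Pi.single_apply]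

lemma L_e (σ : Equiv.Perm X) (p : X) : L σ (e p) = e (σ⁻¹ p) := by
  funext x
  simp only [L_apply, e_apply]
  have : σ x = p ↔ x = σ⁻¹ p := by
    constructor
    · rintro rfl; simp
    · rintro rfl; simp
  simp [this]

lemma e_sub_mem_range_D (σ : Equiv.Perm X) (p : X) :
    e (σ p) - e p ∈ LinearMap.range (D σ) := by
  refine ⟨e (σ p), ?_⟩
  simp [D, L_e]

variable (a b c : Equiv.Perm X)

/-- The map `δ`. -/
noncomputable def del :
    (X → ℚ) →ₗ[ℚ]
      (LinearMap.range (D c) × LinearMap.range (D b) × LinearMap.range (D a)) :=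
  (D c).rangeRestrict.prod ((D b).rangeRestrict.prod (D a).rangeRestrict)

/-- The map `β`. -/
noncomputable def bet :
    (LinearMap.range (D c) × LinearMap.range (D b) × LinearMap.range (D a)) →ₗ[ℚ] (X → ℚ) :=
  (LinearMap.range (D c)).subtype.coprod
    ((L c ∘ₗ (LinearMap.range (D b)).subtype).coprod
      (L c ∘ₗ L b ∘ₗ (LinearMap.range (D a)).subtype))

lemma bet_apply (u : LinearMap.range (D c)) (v : LinearMap.range (D b))
    (w : LinearMap.range (D a)) :
    bet a b c (u, v, w) = (u : X → ℚ) + (L c (v : X → ℚ) + L c (L b (w : X → ℚ))) := by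
  simp [bet]

lemma del_apply (f : X → ℚ) :
    del a b c f = (⟨D c f, ⟨f, rfl⟩⟩, ⟨D b f, ⟨f, rfl⟩⟩, ⟨D a f, ⟨f, rfl⟩⟩) := rfl

lemma bet_comp_del (habc : a * b * c = 1) : bet a b c ∘ₗ del a b c = 0 := by
  apply LinearMap.ext
  intro f
  funext p
  have h : ∀ x, a (b (c x)) = x := fun x => by
    have := congrArg (fun σ : Equiv.Perm X => σ x) habc
    simpa [Equiv.Perm.mul_apply] using this
  rw [LinearMap.comp_apply, del_apply, bet_apply]
  simp [h]

lemma range_D_c_le : LinearMap.range (D c) ≤ LinearMap.range (bet a b c) := by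
  rintro _ ⟨f, rfl⟩
  refine ⟨(⟨D c f, ⟨f, rfl⟩⟩, 0, 0), ?_⟩
  simp [bet_apply]

lemma range_D_b_le : LinearMap.range (D b) ≤ LinearMap.range (bet a b c) := by
  rintro _ ⟨f, rfl⟩
  -- D b f = L c (D b f) + D c (D b f)
  have h1 : L c (D b f) ∈ LinearMap.range (bet a b c) :=
    ⟨(0, ⟨D b f, ⟨f, rfl⟩⟩, 0), by simp [bet_apply]⟩
  have h2 : D c (D b f) ∈ LinearMap.range (bet a b c) :=
    range_D_c_le a b c ⟨_, rfl⟩
  have : D b f = L c (D b f) + D c (D b f) := by
    simp [D]
  rw [this]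
  exact Submodule.add_mem _ h1 h2

lemma range_D_a_le : LinearMap.range (D a) ≤ LinearMap.range (bet a b c) := by
  rintro _ ⟨f, rfl⟩
  set w := D a f with hw
  have h1 : L c (L b w) ∈ LinearMap.range (bet a b c) :=
    ⟨(0, 0, ⟨w, ⟨f, rfl⟩⟩), by simp [bet_apply]⟩
  have h2 : D c (L b w) ∈ LinearMap.range (bet a b c) :=
    range_D_c_le a b c ⟨_, rfl⟩
  have h3 : D b w ∈ LinearMap.range (bet a b c) :=
    range_D_b_le a b c ⟨_, rfl⟩
  have : w = L c (L b w) + D c (L b w) + D b w := by
    simp [D]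
  rw [this]
  exact Submodule.add_mem _ (Submodule.add_mem _ h1 h2) h3

variable {a b c}

lemma e_sub_mem_range_bet
    {g : Equiv.Perm X} (hg : g ∈ Subgroup.closure ({a, b} : Set (Equiv.Perm X))) :
    ∀ p : X, e (g p) - e p ∈ LinearMap.range (bet a b c) := by
  induction hg using Subgroup.closure_induction with
  | mem x hx =>
    intro p
    rcases hx with rfl | rfl
    · exact range_D_a_le x b c (e_sub_mem_range_D x p)
    · exact range_D_b_le a x c (e_sub_mem_range_D x p)
  | one => intro p; simp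
  | mul x y _ _ hx hy =>
    intro p
    have : e ((x * y) p) - e p = (e (x (y p)) - e (y p)) + (e (y p) - e p) := by
      simp [Equiv.Perm.mul_apply]
    rw [this]
    exact Submodule.add_mem _ (hx (y p)) (hy p)
  | inv x _ hx =>
    intro p
    have : e (x⁻¹ p) - e p = -(e (x (x⁻¹ p)) - e (x⁻¹ p)) := by
      simp
    rw [this]
    exact Submodule.neg_mem _ (hx (x⁻¹ p))

lemma apply_eq_of_mem_closure {f : X → ℚ}
    (ha : f ∈ LinearMap.ker (D a)) (hb : f ∈ LinearMap.ker (D b))
    {g : Equiv.Perm X} (hg : g ∈ Subgroup.closure ({a, b} : Set (Equiv.Perm X))) :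
    ∀ p : X, f (g p) = f p := by
  induction hg using Subgroup.closure_induction with
  | mem x hx =>
    rcases hx with rfl | rfl
    · exact mem_ker_D.mp ha
    · exact mem_ker_D.mp hb
  | one => intro p; simp
  | mul x y _ _ hx hy =>
    intro p
    rw [Equiv.Perm.mul_apply, hx, hy]
  | inv x _ hx =>
    intro p
    have := hx (x⁻¹ p)
    simpa using this.symm

/-- **Ree's inequality** (Feit–Lyndon–Scott), in rank form. -/
theorem two_mul_card_le (habc : a * b * c = 1)
    (htrans : ∀ p q : X, ∃ g ∈ Subgroup.closure ({a, b} : Set (Equiv.Perm X)), g p = q)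
    (p₀ : X) :
    2 * Fintype.card X ≤
      finrank ℚ (LinearMap.range (D a)) + finrank ℚ (LinearMap.range (D b)) +
        finrank ℚ (LinearMap.range (D c)) + 2 := by
  -- kernel of δ is at most one-dimensional
  have hker : LinearMap.ker (del a b c) ≤ Submodule.span ℚ {(fun _ => 1 : X → ℚ)} := by
    intro f hf
    rw [LinearMap.mem_ker] at hf
    have hfb : D b f = 0 := by
      have := congrArg (fun t => ((t.2.1 : LinearMap.range (D b)) : X → ℚ)) hf
      simpa [del] using this
    have hfa : D a f = 0 := by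
      have := congrArg (fun t => ((t.2.2 : LinearMap.range (D a)) : X → ℚ)) hf
      simpa [del] using this
    rw [Submodule.mem_span_singleton]
    refine ⟨f p₀, ?_⟩
    funext q
    obtain ⟨g, hg, rfl⟩ := htrans p₀ q
    simp [apply_eq_of_mem_closure (LinearMap.mem_ker.mpr hfa) (LinearMap.mem_ker.mpr hfb) hg p₀]
  have hker' : finrank ℚ (LinearMap.ker (del a b c)) ≤ 1 := by
    calc finrank ℚ (LinearMap.ker (del a b c))
        ≤ finrank ℚ (Submodule.span ℚ {(fun _ => 1 : X → ℚ)}) := Submodule.finrank_mono hker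
      _ ≤ 1 := finrank_span_singleton_le_one _
  -- range of β has codimension at most one
  have htop : (⊤ : Submodule ℚ (X → ℚ)) ≤
      LinearMap.range (bet a b c) ⊔ Submodule.span ℚ {e p₀} := by
    intro f _
    have hf : f = ∑ p, f p • (e p - e p₀) + (∑ p, f p) • e p₀ := by
      funext x
      simp only [Pi.add_apply, Finset.sum_apply, Pi.smul_apply, Pi.sub_apply, smul_eq_mul,
        e_apply, mul_sub, Finset.sum_sub_distrib, Finset.sum_mul]
      simp
    rw [hf]
    refine Submodule.add_mem _ (Submodule.mem_sup_left ?_) (Submodule.mem_sup_right ?_)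
    · refine Submodule.sum_mem _ (fun p _ => Submodule.smul_mem _ _ ?_)
      obtain ⟨g, hg, rfl⟩ := htrans p₀ p
      exact e_sub_mem_range_bet hg p₀
    · exact Submodule.smul_mem _ _ (Submodule.mem_span_singleton_self _)
  have hrange : Fintype.card X ≤ finrank ℚ (LinearMap.range (bet a b c)) + 1 := by
    have h1 : finrank ℚ (X → ℚ) ≤
        finrank ℚ ↥(LinearMap.range (bet a b c) ⊔ Submodule.span ℚ {e p₀}) := by
      rw [← finrank_top ℚ (X → ℚ)]
      exact Submodule.finrank_mono htop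
    have h2 := Submodule.finrank_add_le_finrank_add_finrank (LinearMap.range (bet a b c))
      (Submodule.span ℚ {e p₀})
    have h3 : finrank ℚ (Submodule.span ℚ {e p₀}) ≤ 1 := finrank_span_singleton_le_one _
    rw [Module.finrank_fintype_fun_eq_card] at h1
    omega
  -- rank-nullity
  have hδ := LinearMap.finrank_range_add_finrank_ker (del a b c)
  have hβ := LinearMap.finrank_range_add_finrank_ker (bet a b c)
  rw [Module.finrank_fintype_fun_eq_card] at hδ
  rw [Module.finrank_prod, Module.finrank_prod] at hβ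
  have hle : finrank ℚ (LinearMap.range (del a b c)) ≤ finrank ℚ (LinearMap.ker (bet a b c)) :=
    Submodule.finrank_mono (LinearMap.range_le_ker_iff.mpr (bet_comp_del a b c habc))
  omega

/-- **Ree's inequality**: three permutations with product one generating a transitive group
have at most `|X| + 2` cycles altogether. -/
theorem ree_le (habc : a * b * c = 1)
    (htrans : ∀ p q : X, ∃ g ∈ Subgroup.closure ({a, b} : Set (Equiv.Perm X)), g p = q)
    (p₀ : X) :
    orbits a + orbits b + orbits c ≤ Fintype.card X + 2 := by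
  have h := two_mul_card_le habc htrans p₀
  have ha := finrank_range_D_add a
  have hb := finrank_range_D_add b
  have hc := finrank_range_D_add c
  omega

end Ree

section Parity

variable {X : Type*}

lemma orbitRel_zpowers_iff (σ : Equiv.Perm X) {x y : X} :
    MulAction.orbitRel (Subgroup.zpowers σ) X x y ↔ σ.SameCycle y x := by
  rw [MulAction.orbitRel_apply, MulAction.mem_orbit_iff]
  constructor
  · rintro ⟨⟨g, hg⟩, rfl⟩
    obtain ⟨k, rfl⟩ := Subgroup.mem_zpowers_iff.mp hg
    exact ⟨k, rfl⟩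
  · rintro ⟨k, rfl⟩
    exact ⟨⟨σ ^ k, Subgroup.mem_zpowers_iff.mpr ⟨k, rfl⟩⟩, rfl⟩

lemma orbits_inv (σ : Equiv.Perm X) : orbits σ⁻¹ = orbits σ := by
  unfold orbits
  rw [Subgroup.zpowers_inv]

variable [Fintype X] [DecidableEq X] (σ : Equiv.Perm X)

/-- A complete invariant of the `σ`-orbit of a point. -/
noncomputable def code (x : X) : X ⊕ Equiv.Perm X :=
  if σ x = x then Sum.inl x else Sum.inr (σ.cycleOf x)

lemma code_eq_iff {x y : X} : code σ x = code σ y ↔ σ.SameCycle y x := by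
  unfold code
  by_cases hx : σ x = x <;> by_cases hy : σ y = y
  · simp only [hx, hy, if_true, Sum.inl.injEq]
    constructor
    · rintro rfl; exact Equiv.Perm.SameCycle.refl _ _
    · intro h; exact (h.eq_of_left hy).symm
  · simp only [hx, hy, if_true, if_false, reduceCtorEq, false_iff]
    intro h
    exact hy (h.apply_eq_self_iff.mpr hx)
  · simp only [hx, hy, if_true, if_false, reduceCtorEq, false_iff]
    intro h
    exact hx (h.apply_eq_self_iff.mp hy)
  · simp only [hx, hy, if_false, Sum.inr.injEq]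
    constructor
    · intro h
      have hx' : x ∈ (σ.cycleOf x).support := by
        rw [Equiv.Perm.mem_support_cycleOf_iff]
        exact ⟨Equiv.Perm.SameCycle.refl _ _, Equiv.Perm.mem_support.mpr hx⟩
      rw [h, Equiv.Perm.mem_support_cycleOf_iff] at hx'
      exact hx'.1
    · intro h
      exact (h.cycleOf_eq).symm

lemma orbitRel_eq_ker_code :
    MulAction.orbitRel (Subgroup.zpowers σ) X = Setoid.ker (code σ) := by
  ext x y
  rw [orbitRel_zpowers_iff, Setoid.ker_def, code_eq_iff]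

lemma image_code :
    Finset.univ.image (code σ) =
      (Finset.univ.filter (fun x => σ x = x)).disjSum σ.cycleFactorsFinset := by
  ext z
  rcases z with x | c
  · rw [Finset.inl_mem_disjSum]
    simp only [Finset.mem_image, Finset.mem_univ, true_and, Finset.mem_filter]
    constructor
    · rintro ⟨y, hy⟩
      unfold code at hy
      by_cases h : σ y = y
      · simp only [h, if_true, Sum.inl.injEq] at hy
        rw [← hy]; exact h
      · simp [h] at hy
    · intro h
      exact ⟨x, by simp [code, h]⟩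
  · rw [Finset.inr_mem_disjSum]
    simp only [Finset.mem_image, Finset.mem_univ, true_and]
    constructor
    · rintro ⟨y, hy⟩
      unfold code at hy
      by_cases h : σ y = y
      · simp [h] at hy
      · simp only [h, if_false, Sum.inr.injEq] at hy
        rw [← hy, Equiv.Perm.cycleOf_mem_cycleFactorsFinset_iff]
        exact Equiv.Perm.mem_support.mpr h
    · intro hc
      have hcyc := (Equiv.Perm.mem_cycleFactorsFinset_iff.mp hc).1
      obtain ⟨y, hy, -⟩ := hcyc
      have hy' : y ∈ c.support := Equiv.Perm.mem_support.mpr hy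
      have hyσ : y ∈ σ.support := Equiv.Perm.mem_cycleFactorsFinset_support_le hc hy'
      refine ⟨y, ?_⟩
      have := Equiv.Perm.cycle_is_cycleOf hy' hc
      simp [code, Equiv.Perm.mem_support.mp hyσ, this]

lemma orbits_eq_card_image : orbits σ = (Finset.univ.image (code σ)).card := by
  unfold orbits MulAction.orbitRel.Quotient
  rw [orbitRel_eq_ker_code]
  rw [Nat.card_congr (Setoid.quotientKerEquivRange (code σ))]
  rw [Nat.card_coe_set_eq, ← Set.image_univ, ← Finset.coe_univ, ← Finset.coe_image,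
    Set.ncard_coe_finset]

/-- Number of orbits = number of fixed points + number of nontrivial cycles. -/
lemma orbits_add_card_support :
    orbits σ + σ.support.card = Fintype.card X + σ.cycleFactorsFinset.card := by
  rw [orbits_eq_card_image, image_code, Finset.card_disjSum]
  have h : (Finset.univ.filter (fun x => σ x = x)).card + σ.support.card = Fintype.card X := by
    have : σ.support = Finset.univ.filter (fun x => ¬ σ x = x) := by
      ext x; simp
    rw [this, ← Finset.card_univ (α := X)]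
    exact Finset.card_filter_add_card_filter_not (s := Finset.univ) (fun x => σ x = x)
  omega

lemma orbits_le_card : orbits σ ≤ Fintype.card X := by
  rw [orbits_eq_card_image, ← Finset.card_univ (α := X)]
  exact Finset.card_image_le

/-- The sign of a permutation in terms of its number of orbits. -/
theorem sign_eq : Equiv.Perm.sign σ = (-1) ^ (Fintype.card X + orbits σ) := by
  rw [Equiv.Perm.sign_of_cycleType, Equiv.Perm.sum_cycleType]
  have h1 : Multiset.card σ.cycleType = σ.cycleFactorsFinset.card := by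
    rw [Equiv.Perm.cycleType_def, Multiset.card_map]; rfl
  rw [h1]
  have h2 := orbits_add_card_support σ
  have h3 : Fintype.card X + orbits σ + 2 * σ.support.card
      = 2 * Fintype.card X + (σ.support.card + σ.cycleFactorsFinset.card) := by omega
  have h4 : ((-1 : ℤˣ) ^ (Fintype.card X + orbits σ)) * ((-1) ^ (2 * σ.support.card))
      = ((-1) ^ (2 * Fintype.card X)) * (-1) ^ (σ.support.card + σ.cycleFactorsFinset.card) := by
    rw [← pow_add, ← pow_add, h3]
  simpa [pow_mul] using h4.symm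

variable {a b c : Equiv.Perm X}

/-- Parity: for `a b c = 1`, the total number of cycles is congruent to `|X|` mod 2. -/
theorem parity (habc : a * b * c = 1) :
    Even (Fintype.card X + orbits a + orbits b + orbits c) := by
  have h := congrArg Equiv.Perm.sign habc
  rw [map_mul, map_mul, map_one, sign_eq a, sign_eq b, sign_eq c, ← pow_add, ← pow_add] at h
  have h' := (neg_one_pow_eq_one_iff_even (R := ℤˣ) (by decide)).mp h
  obtain ⟨k, hk⟩ := h'
  exact ⟨k - Fintype.card X, by omega⟩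

/-- **Riemann–Hurwitz genus is a natural number** (permutation form): if `a b c = 1` and
`⟨a, b⟩` is transitive on the finite set `X`, then
`|X| + 2 - (#cycles a + #cycles b + #cycles c)` is a non-negative even integer. -/
theorem exists_genus_perm (habc : a * b * c = 1)
    (htrans : ∀ p q : X, ∃ g ∈ Subgroup.closure ({a, b} : Set (Equiv.Perm X)), g p = q) :
    ∃ g : ℕ, 2 * g + orbits a + orbits b + orbits c = Fintype.card X + 2 := by
  obtain ⟨k, hk⟩ := parity habc
  rcases isEmpty_or_nonempty X with hX | ⟨⟨p₀⟩⟩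
  · have h0 : Fintype.card X = 0 := Fintype.card_eq_zero
    have ha := orbits_le_card a
    have hb := orbits_le_card b
    have hc := orbits_le_card c
    exact ⟨1, by omega⟩
  · have hle := ree_le habc htrans p₀
    exact ⟨Fintype.card X + 1 - k, by omega⟩

end Parity

section Action

variable {G : Type*} [Group G] {X : Type*} [MulAction G X]

/-- Group-action form: if `x, y` generate `G`, and `G` acts transitively on the finite set `X`,
then `|X| + 2 - (o(x) + o(y) + o(x y))` is a non-negative even integer, where `o(g)` is the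
number of orbits of `g` on `X`. -/
theorem exists_genus [Finite X] [MulAction.IsPretransitive G X] (x y : G)
    (hgen : Subgroup.closure ({x, y} : Set G) = ⊤) :
    ∃ g : ℕ, 2 * g + orbits (MulAction.toPerm x : Equiv.Perm X)
        + orbits (MulAction.toPerm y : Equiv.Perm X)
        + orbits (MulAction.toPerm (x * y) : Equiv.Perm X) = Nat.card X + 2 := by
  classical
  have : Fintype X := Fintype.ofFinite X
  set φ : G →* Equiv.Perm X := MulAction.toPermHom G X with hφ
  have habc : φ x * φ y * (φ (x * y))⁻¹ = 1 := by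
    rw [map_mul]; exact mul_inv_cancel _
  have htrans : ∀ p q : X, ∃ g ∈ Subgroup.closure ({φ x, φ y} : Set (Equiv.Perm X)), g p = q := by
    intro p q
    obtain ⟨γ, hγ⟩ := MulAction.exists_smul_eq G p q
    refine ⟨φ γ, ?_, hγ⟩
    have h1 : φ γ ∈ Subgroup.map φ (Subgroup.closure ({x, y} : Set G)) :=
      Subgroup.mem_map_of_mem φ (by rw [hgen]; exact Subgroup.mem_top γ)
    rw [MonoidHom.map_closure, Set.image_pair] at h1
    exact h1
  obtain ⟨g, hg⟩ := exists_genus_perm habc htrans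
  rw [orbits_inv] at hg
  refine ⟨g, ?_⟩
  rw [Nat.card_eq_fintype_card]
  exact hg

end Action

section SL2Z

open scoped MatrixGroups

/-- Specialisation to `SL₂(ℤ)` acting on the cosets of a finite-index subgroup `Γ`:
`|X| + 2 - o(S) - o(ST) - o(T)` is a non-negative even integer `2g`. -/
theorem exists_genus_SL2Z (Γ : Subgroup SL(2, ℤ)) [Γ.FiniteIndex] :
    ∃ g : ℕ, (Nat.card (SL(2, ℤ) ⧸ Γ) : ℤ) + 2
        - orbits (MulAction.toPerm ModularGroup.S : Equiv.Perm (SL(2, ℤ) ⧸ Γ))
        - orbits (MulAction.toPerm (ModularGroup.S * ModularGroup.T) :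
            Equiv.Perm (SL(2, ℤ) ⧸ Γ))
        - orbits (MulAction.toPerm ModularGroup.T : Equiv.Perm (SL(2, ℤ) ⧸ Γ))
      = 2 * (g : ℤ) := by
  have : Finite (SL(2, ℤ) ⧸ Γ) := inferInstance
  obtain ⟨g, hg⟩ := exists_genus (G := SL(2, ℤ)) (X := SL(2, ℤ) ⧸ Γ)
    ModularGroup.S ModularGroup.T SpecialLinearGroup.SL2Z_generators
  refine ⟨g, ?_⟩
  have := congrArg (Nat.cast : ℕ → ℤ) hg
  push_cast at this
  linarith

/-- The same for `Γ₀(N)`. -/
theorem exists_genus_Gamma0 (N : ℕ) [NeZero N] :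
    ∃ g : ℕ, (Nat.card (SL(2, ℤ) ⧸ CongruenceSubgroup.Gamma0 N) : ℤ) + 2
        - orbits (MulAction.toPerm ModularGroup.S :
            Equiv.Perm (SL(2, ℤ) ⧸ CongruenceSubgroup.Gamma0 N))
        - orbits (MulAction.toPerm (ModularGroup.S * ModularGroup.T) :
            Equiv.Perm (SL(2, ℤ) ⧸ CongruenceSubgroup.Gamma0 N))
        - orbits (MulAction.toPerm ModularGroup.T :
            Equiv.Perm (SL(2, ℤ) ⧸ CongruenceSubgroup.Gamma0 N))
      = 2 * (g : ℤ) :=
  exists_genus_SL2Z _

end SL2Z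

end Fermat.Agent.S24.Scott

end
-- ===== PACK-END S24/Scott.lean

-- ===== PACK-BEGIN S18/H845/EtaleVal.lean
section


/-!
# S18 / d1(c): constant-field extensions are unramified — the valuation-theoretic core

`R` a discrete valuation ring with uniformiser `π`, `L ⊇ R` a field, `B ⊆ L` a valuation subring
containing `R` in which `π` is not a unit.  Let `α ∈ L` be a root of a monic `p ∈ R[X]` whose
reduction modulo `π` is separable.  Then the value group of `B` on `Frac(R)[α]` is generated by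
the value of `π`: for every `g ∈ R[X]` with `g(α) ≠ 0`, `v (g α) = v π ^ j` for some `j : ℕ`.
-/

set_option autoImplicit false
set_option linter.unusedSectionVars false

namespace Fermat.Agent.S18.H845

open Polynomial IsLocalRing

section FL

variable {R L : Type*} [CommRing R] [IsDomain R] [IsDiscreteValuationRing R] [Field L]
  [Algebra R L]

/-- A polynomial over a DVR whose reduction vanishes is divisible by the uniformiser. -/
lemma exists_C_mul_of_map_residue_eq_zero {π : R} (hπ : Irreducible π) {q : R[X]}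
    (hq : q.map (residue R) = 0) : ∃ G : R[X], q = C π * G := by
  have h : C π ∣ q := by
    rw [Polynomial.C_dvd_iff_dvd_coeff]
    intro i
    have hi : residue R (q.coeff i) = 0 := by
      have := congrArg (fun f => f.coeff i) hq
      simpa using this
    rw [residue_eq_zero_iff, hπ.maximalIdeal_eq, Ideal.mem_span_singleton] at hi
    exact hi
  exact h

variable (B : ValuationSubring L)

omit [IsDomain R] [IsDiscreteValuationRing R] in
/-- Evaluation at an element of `B` of a polynomial with coefficients in `R ⊆ B` lies in `B`. -/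
lemma aeval_mem_of_mem (hRB : ∀ r : R, algebraMap R L r ∈ B) {f : L} (hf : f ∈ B) (q : R[X]) :
    aeval f q ∈ B := by
  induction q using Polynomial.induction_on' with
  | add p q hp hq => rw [map_add]; exact B.add_mem _ _ hp hq
  | monomial n a =>
    rw [aeval_monomial]
    exact B.mul_mem _ _ (hRB a) (pow_mem hf n)

omit [IsDomain R] [IsDiscreteValuationRing R] in
/-- A root of a monic polynomial over `R ⊆ B` lies in `B`. -/
lemma mem_of_monic_root (hRB : ∀ r : R, algebraMap R L r ∈ B) {α : L} {p : R[X]}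
    (hp : p.Monic) (hpα : aeval α p = 0) : α ∈ B := by
  let fRB : R →+* B := (algebraMap R L).codRestrict B hRB
  have hint : IsIntegral B α := by
    refine ⟨p.map fRB, hp.map _, ?_⟩
    rw [Polynomial.eval₂_map]
    have : (algebraMap B L).comp fRB = algebraMap R L := RingHom.ext fun _ => rfl
    rw [this]
    exact hpα
  obtain ⟨y, hy⟩ := (IsIntegrallyClosed.isIntegral_iff (R := B) (K := L)).mp hint
  rw [← hy]
  exact y.2

variable (hRB : ∀ r : R, algebraMap R L r ∈ B)
  {π : R} (hπ : Irreducible π) (hπB : B.valuation (algebraMap R L π) < 1)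
  {α : L} {p : R[X]} (hp : p.Monic) (hpα : aeval α p = 0)
  (hsep : (p.map (residue R)).Separable)

omit [IsDomain R] [IsDiscreteValuationRing R] in
include hRB in
lemma val_aeval_le_one {f : L} (hf : f ∈ B) (q : R[X]) : B.valuation (aeval f q) ≤ 1 :=
  (B.valuation_le_one_iff _).mpr (aeval_mem_of_mem B hRB hf q)

include hRB hπ hπB in
/-- `R → B` is a local homomorphism. -/
lemma isLocalHom_codRestrict : IsLocalHom ((algebraMap R L).codRestrict B hRB) := by
  refine ⟨fun a ha => ?_⟩
  by_contra hna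
  have hmem : a ∈ maximalIdeal R := (mem_maximalIdeal a).mpr hna
  rw [hπ.maximalIdeal_eq, Ideal.mem_span_singleton] at hmem
  obtain ⟨b, rfl⟩ := hmem
  have h1 : B.valuation (algebraMap R L (π * b)) = 1 := by
    have := (B.valuation_eq_one_iff ((algebraMap R L).codRestrict B hRB (π * b))).mp ha
    exact this
  rw [map_mul, map_mul] at h1
  have h2 : B.valuation (algebraMap R L b) ≤ 1 := (B.valuation_le_one_iff _).mpr (hRB b)
  have h3 : B.valuation (algebraMap R L π) * B.valuation (algebraMap R L b) < 1 :=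
    mul_lt_one_of_lt_of_le hπB h2
  exact absurd h1 h3.ne

include hRB hπ hπB hp hpα hsep in
/-- Key step: an element `g(α)` of positive valuation is `π` times another such element, up to
a unit of `B`. -/
lemma key_step (g : R[X]) (hg : B.valuation (aeval α g) < 1) :
    ∃ g₁ : R[X], B.valuation (aeval α g) =
      B.valuation (algebraMap R L π) * B.valuation (aeval α g₁) := by
  classical
  have hαB : α ∈ B := mem_of_monic_root B hRB hp hpα
  let fRB : R →+* B := (algebraMap R L).codRestrict B hRB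
  have : IsLocalHom fRB := isLocalHom_codRestrict B hRB hπ hπB
  let αB : B := ⟨α, hαB⟩
  let κ := ResidueField R
  let κB := ResidueField B
  let fκ : κ →+* κB := ResidueField.map fRB
  let ψ' : κ[X] →+* κB := Polynomial.eval₂RingHom fκ (residue B αB)
  -- compatibility
  have hcompat : ∀ q : R[X], ψ' (q.map (residue R)) =
      residue B ⟨aeval α q, aeval_mem_of_mem B hRB hαB q⟩ := by
    intro q
    have e1 : ψ' (q.map (residue R)) = Polynomial.eval₂ (fκ.comp (residue R)) (residue B αB) q := by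
      show Polynomial.eval₂ fκ (residue B αB) (q.map (residue R)) = _
      rw [Polynomial.eval₂_map]
    have e2 : fκ.comp (residue R) = (residue B).comp fRB := by
      ext r
      exact ResidueField.map_residue fRB r
    have e3 : Polynomial.eval₂ ((residue B).comp fRB) (residue B αB) q =
        residue B (Polynomial.eval₂ fRB αB q) := by
      rw [Polynomial.hom_eval₂]
    have e4 : Polynomial.eval₂ fRB αB q = ⟨aeval α q, aeval_mem_of_mem B hRB hαB q⟩ := by
      apply Subtype.ext
      have : (B.subtype : B →+* L) (Polynomial.eval₂ fRB αB q) =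
          Polynomial.eval₂ (B.subtype.comp fRB) (B.subtype αB) q := by
        rw [Polynomial.hom_eval₂]
      rw [show ((Polynomial.eval₂ fRB αB q : B) : L) = B.subtype (Polynomial.eval₂ fRB αB q)
        from rfl, this]
      rfl
    rw [e1, e2, e3, e4]
  -- vanishing
  have hres_zero : ∀ q : R[X], ψ' (q.map (residue R)) = 0 ↔ B.valuation (aeval α q) < 1 := by
    intro q
    rw [hcompat, residue_eq_zero_iff, B.valuation_lt_one_iff]
  set gb := g.map (residue R) with hgb
  set pb := p.map (residue R) with hpb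
  have hψg : ψ' gb = 0 := (hres_zero g).mpr hg
  have hψp : ψ' pb = 0 := (hres_zero p).mpr (by rw [hpα, map_zero]; exact zero_lt_one)
  -- gcd
  set d := EuclideanDomain.gcd gb pb with hd
  have hψd : ψ' d = 0 := by
    rw [hd, EuclideanDomain.gcd_eq_gcd_ab, map_add, map_mul, map_mul, hψg, hψp]
    simp
  obtain ⟨e, he⟩ : d ∣ pb := EuclideanDomain.gcd_dvd_right gb pb
  obtain ⟨h, hh⟩ : d ∣ gb := EuclideanDomain.gcd_dvd_left gb pb
  have hcop : IsCoprime d e := by
    have : (d * e).Separable := by rw [← he]; exact hsep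
    exact this.isCoprime
  have hψe : ψ' e ≠ 0 := by
    obtain ⟨a, b, hab⟩ := hcop
    intro h0
    have := congrArg ψ' hab
    rw [map_add, map_mul, map_mul, hψd, h0, map_one] at this
    simp at this
  -- lifts
  obtain ⟨D, hD⟩ := Polynomial.map_surjective (residue R) (residue_surjective) d
  obtain ⟨E, hE⟩ := Polynomial.map_surjective (residue R) (residue_surjective) e
  obtain ⟨H, hH⟩ := Polynomial.map_surjective (residue R) (residue_surjective) h
  obtain ⟨G, hG⟩ := exists_C_mul_of_map_residue_eq_zero hπ (q := g - D * H) (by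
    rw [Polynomial.map_sub, Polynomial.map_mul, hD, hH, ← hh, sub_self])
  obtain ⟨T, hT⟩ := exists_C_mul_of_map_residue_eq_zero hπ (q := D * E - p) (by
    rw [Polynomial.map_sub, Polynomial.map_mul, hD, hE, ← he, sub_self])
  refine ⟨H * T + G * E, ?_⟩
  have hpoly : g * E = H * p + C π * (H * T + G * E) := by
    have h1 : g = D * H + C π * G := by rw [← hG]; ring
    have h2 : D * E = p + C π * T := by rw [← hT]; ring
    calc g * E = (D * H + C π * G) * E := by rw [← h1]
      _ = H * (D * E) + C π * (G * E) := by ring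
      _ = H * (p + C π * T) + C π * (G * E) := by rw [h2]
      _ = H * p + C π * (H * T + G * E) := by ring
  have hev := congrArg (aeval α) hpoly
  rw [map_mul, map_add, map_mul, map_mul, hpα, mul_zero, zero_add, aeval_C] at hev
  have hEunit : B.valuation (aeval α E) = 1 := by
    have h1 : B.valuation (aeval α E) ≤ 1 := val_aeval_le_one B hRB hαB E
    have h2 : ¬ B.valuation (aeval α E) < 1 := by
      rw [← hres_zero, hE]
      exact hψe
    exact le_antisymm h1 (not_lt.mp h2)
  have := congrArg B.valuation hev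
  rw [map_mul, map_mul, hEunit, mul_one] at this
  exact this


include hRB in
/-- Units of `R` have valuation one. -/
lemma val_unit_eq_one (u : Rˣ) : B.valuation (algebraMap R L (u : R)) = 1 := by
  have h1 : B.valuation (algebraMap R L (u : R)) ≤ 1 := (B.valuation_le_one_iff _).mpr (hRB _)
  have h2 : B.valuation (algebraMap R L ((u⁻¹ : Rˣ) : R)) ≤ 1 :=
    (B.valuation_le_one_iff _).mpr (hRB _)
  have h3 : B.valuation (algebraMap R L (u : R)) * B.valuation (algebraMap R L ((u⁻¹ : Rˣ) : R))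
      = 1 := by
    rw [← map_mul, ← map_mul, Units.mul_inv, map_one, map_one]
  by_contra hne
  have hlt : B.valuation (algebraMap R L (u : R)) < 1 := lt_of_le_of_ne h1 hne
  have : B.valuation (algebraMap R L (u : R)) * B.valuation (algebraMap R L ((u⁻¹ : Rˣ) : R))
      < 1 := mul_lt_one_of_lt_of_le hlt h2
  exact absurd h3 this.ne

include hRB hπ in
/-- Nonzero elements of `R` have valuation a power of `v π`. -/
lemma val_algebraMap_eq_pow {c : R} (hc : c ≠ 0) :
    ∃ k : ℕ, B.valuation (algebraMap R L c) = B.valuation (algebraMap R L π) ^ k := by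
  obtain ⟨n, u, hu⟩ := IsDiscreteValuationRing.eq_unit_mul_pow_irreducible hc hπ
  refine ⟨n, ?_⟩
  rw [hu, map_mul, map_mul, val_unit_eq_one B hRB, one_mul, map_pow, map_pow]

include hRB hπ in
/-- Archimedean property: a nonzero element integral over `R` has valuation at least a power
of `v π`. -/
lemma exists_pow_le_val {f : L} (hf0 : f ≠ 0) (hfint : IsIntegral R f) :
    ∃ k : ℕ, B.valuation (algebraMap R L π) ^ k ≤ B.valuation f := by
  obtain ⟨a, ha, haf⟩ := hfint
  have haf' : aeval f a = 0 := haf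
  have hfB : f ∈ B := mem_of_monic_root B hRB ha haf'
  obtain ⟨a', ha', hnd⟩ :=
    Polynomial.exists_eq_pow_rootMultiplicity_mul_and_not_dvd a ha.ne_zero (0 : R)
  rw [map_zero, sub_zero] at ha' hnd
  have ha'f : aeval f a' = 0 := by
    have := haf'
    rw [ha', map_mul, map_pow, aeval_X] at this
    rcases mul_eq_zero.mp this with h | h
    · exact absurd (pow_eq_zero_iff'.mp h).1 hf0
    · exact h
  have hc0 : a'.coeff 0 ≠ 0 := fun h0 => hnd (Polynomial.X_dvd_iff.mpr h0)
  obtain ⟨k, hk⟩ := val_algebraMap_eq_pow B hRB hπ hc0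
  refine ⟨k, ?_⟩
  have hdec : a'.divX * X + C (a'.coeff 0) = a' := Polynomial.divX_mul_X_add a'
  have hev : aeval f a'.divX * f + algebraMap R L (a'.coeff 0) = 0 := by
    have := congrArg (aeval f) hdec
    rw [map_add, map_mul, aeval_X, aeval_C, ha'f] at this
    exact this
  have hc : algebraMap R L (a'.coeff 0) = -(aeval f a'.divX * f) := by
    rw [eq_neg_iff_add_eq_zero, add_comm]; exact hev
  rw [← hk, hc, Valuation.map_neg, map_mul]
  exact mul_le_of_le_one_left' (val_aeval_le_one B hRB hfB _)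

include hRB hp hpα in
lemma isIntegral_aeval (g : R[X]) : IsIntegral R (aeval α g) := by
  have hα : IsIntegral R α := ⟨p, hp, hpα⟩
  have h1 : aeval α g ∈ Algebra.adjoin R {α} := Polynomial.aeval_mem_adjoin_singleton R α
  have h2 : Algebra.adjoin R {α} ≤ integralClosure R L :=
    Algebra.adjoin_le (by rintro x ⟨rfl⟩; exact hα)
  exact h2 h1

include hRB hπ hπB hp hpα hsep in
lemma val_eq_pow_of_le (hinj : Function.Injective (algebraMap R L)) (k : ℕ) :
    ∀ g : R[X], aeval α g ≠ 0 →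
      B.valuation (algebraMap R L π) ^ k ≤ B.valuation (aeval α g) →
      ∃ j : ℕ, B.valuation (aeval α g) = B.valuation (algebraMap R L π) ^ j := by
  have hαB : α ∈ B := mem_of_monic_root B hRB hp hpα
  have hπ0 : B.valuation (algebraMap R L π) ≠ 0 := by
    rw [Valuation.ne_zero_iff]
    intro h
    exact hπ.ne_zero (hinj (by rw [h, map_zero]))
  induction k with
  | zero =>
    intro g _ hle
    refine ⟨0, ?_⟩
    rw [pow_zero] at hle ⊢
    exact le_antisymm (val_aeval_le_one B hRB hαB g) hle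
  | succ k ih =>
    intro g hg0 hle
    by_cases h1 : B.valuation (aeval α g) < 1
    · obtain ⟨g₁, hg₁⟩ := key_step B hRB hπ hπB hp hpα hsep g h1
      have hg₁0 : aeval α g₁ ≠ 0 := by
        intro h0
        rw [h0, map_zero, mul_zero] at hg₁
        exact hg0 ((Valuation.zero_iff _).mp hg₁)
      have hle' : B.valuation (algebraMap R L π) ^ k ≤ B.valuation (aeval α g₁) := by
        rw [hg₁, pow_succ'] at hle
        exact le_of_mul_le_mul_left hle (zero_lt_iff.mpr hπ0)
      obtain ⟨j, hj⟩ := ih g₁ hg₁0 hle'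
      exact ⟨j + 1, by rw [hg₁, hj, pow_succ']⟩
    · refine ⟨0, ?_⟩
      rw [pow_zero]
      exact le_antisymm (val_aeval_le_one B hRB hαB g) (not_lt.mp h1)

include hRB hπ hπB hp hpα hsep in
/-- **Unramifiedness, integral form.** -/
theorem val_aeval_eq_pow (hinj : Function.Injective (algebraMap R L)) (g : R[X])
    (hg : aeval α g ≠ 0) :
    ∃ j : ℕ, B.valuation (aeval α g) = B.valuation (algebraMap R L π) ^ j := by
  obtain ⟨k, hk⟩ := exists_pow_le_val B hRB hπ hg (isIntegral_aeval B hRB hp hpα g)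
  exact val_eq_pow_of_le B hRB hπ hπB hp hpα hsep hinj k g hg hk

end FL

end Fermat.Agent.S18.H845

end
-- ===== PACK-END S18/H845/EtaleVal.lean

-- ===== PACK-BEGIN S55/Bridge/H594/Profinite.lean
section


/-!
# S55 bridge (helper594): relative transitivity and residue surjectivity for a closed subgroup

Let a profinite group `G` act continuously on a (discrete) commutative ring `B`, and let `H ≤ G`
be a closed subgroup.  Applying Mathlib's profinite invariant theory to `H` acting on `B` with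
base ring the fixed subring `B^H`, we get:

* `exists_smul_eq_of_forall_fixed_mem_iff`: two primes of `B` with the same intersection with
  `B^H` are conjugate under `H`;
* `exists_stabilizer_congr_of_forall_fixed`: if `σ ∈ G` stabilises the prime `P` and acts
  trivially on `B^H` modulo `P`, then some `h ∈ H` stabilising `P` acts as `σ` on `B ⧸ P`.
-/

set_option autoImplicit false
set_option linter.unusedSectionVars false
set_option linter.style.haveILetI false

namespace Fermat.Agent.S55.Bridge.H594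

open scoped Pointwise

section abstract

variable {B : Type*} [CommRing B]
variable {G : Type*} [Group G] [MulSemiringAction G B]
variable [TopologicalSpace G] [CompactSpace G] [TotallyDisconnectedSpace G]
variable [IsTopologicalGroup G] [TopologicalSpace B] [DiscreteTopology B] [ContinuousSMul G B]

/-- `B` is invariant over its fixed subalgebra. -/
theorem isInvariant_fixedPoints (H : Subgroup G) :
    Algebra.IsInvariant (FixedPoints.subalgebra ℤ B H) B H :=
  ⟨fun b hb => ⟨⟨b, hb⟩, rfl⟩⟩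

theorem continuousSMul_subgroup (H : Subgroup G) : ContinuousSMul H B := by
  refine ⟨?_⟩
  have h1 : Continuous fun p : H × B => ((p.1 : G), p.2) :=
    (continuous_subtype_val.comp continuous_fst).prodMk continuous_snd
  exact (continuous_smul (M := G) (X := B)).comp h1

/-- Two primes of `B` with the same `H`-fixed elements are `H`-conjugate (`H` closed). -/
theorem exists_smul_eq_of_forall_fixed_mem_iff (H : Subgroup G) (hH : IsClosed (H : Set G))
    (P Q : Ideal B) [P.IsPrime] [Q.IsPrime]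
    (hPQ : ∀ b : B, (∀ h : H, h • b = b) → (b ∈ P ↔ b ∈ Q)) :
    ∃ h : H, Q = (h : G) • P := by
  haveI : CompactSpace H := isCompact_iff_compactSpace.mp hH.isCompact
  haveI := continuousSMul_subgroup (B := B) H
  haveI := isInvariant_fixedPoints (B := B) H
  have hunder : P.under (FixedPoints.subalgebra ℤ B H) = Q.under (FixedPoints.subalgebra ℤ B H) := by
    ext ⟨b, hb⟩
    simp only [Ideal.under, Ideal.mem_comap]
    exact hPQ b hb
  obtain ⟨h, hh⟩ := Algebra.IsInvariant.exists_smul_of_under_eq_of_profinite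
    (A := FixedPoints.subalgebra ℤ B H) (B := B) (G := H) P Q hunder
  exact ⟨h, hh⟩

/-- If `σ ∈ G` stabilises the prime `P` and acts trivially modulo `P` on the `H`-fixed elements,
then there is `h ∈ H` stabilising `P` and acting as `σ` on `B ⧸ P` (`H` closed). -/
theorem exists_stabilizer_congr_of_forall_fixed (H : Subgroup G) (hH : IsClosed (H : Set G))
    (P : Ideal B) [P.IsPrime] (σ : G) (hσP : σ • P = P)
    (hσ : ∀ b : B, (∀ h : H, h • b = b) → σ • b - b ∈ P) :
    ∃ h : H, (h : G) • P = P ∧ ∀ b : B, (h : G) • b - σ • b ∈ P := by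
  haveI : CompactSpace H := isCompact_iff_compactSpace.mp hH.isCompact
  haveI := continuousSMul_subgroup (B := B) H
  haveI := isInvariant_fixedPoints (B := B) H
  let A' := FixedPoints.subalgebra ℤ B H
  let p : Ideal A' := P.under A'
  haveI : P.LiesOver p := ⟨rfl⟩
  have hmap : P = P.map (MulSemiringAction.toRingEquiv G B σ) := by
    conv_lhs => rw [← hσP]
    rfl
  let φ₀ : (B ⧸ P) ≃+* (B ⧸ P) :=
    Ideal.quotientEquiv P P (MulSemiringAction.toRingEquiv G B σ) hmap
  have hφ₀ : ∀ b : B, φ₀ (Ideal.Quotient.mk P b) = Ideal.Quotient.mk P (σ • b) := fun b => rfl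
  let φ : (B ⧸ P) ≃ₐ[A' ⧸ p] (B ⧸ P) :=
    { φ₀ with
      commutes' := by
        rintro ⟨a⟩
        show φ₀ (Ideal.Quotient.mk P (a : B)) = Ideal.Quotient.mk P (a : B)
        rw [hφ₀, Ideal.Quotient.eq]
        exact hσ a a.2 }
  obtain ⟨h, hh⟩ := Ideal.Quotient.stabilizerHom_surjective_of_profinite (G := H) p P φ
  refine ⟨h.1, ?_, fun b => ?_⟩
  · exact h.2
  · have h1 : (Ideal.Quotient.stabilizerHom P p H h) (Ideal.Quotient.mk P b) =
        φ (Ideal.Quotient.mk P b) := by rw [hh]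
    rw [Ideal.Quotient.stabilizerHom_apply] at h1
    have h2 : φ (Ideal.Quotient.mk P b) = Ideal.Quotient.mk P (σ • b) := hφ₀ b
    rw [h2, Ideal.Quotient.eq] at h1
    exact h1

end abstract

end Fermat.Agent.S55.Bridge.H594

end
-- ===== PACK-END S55/Bridge/H594/Profinite.lean

-- ===== PACK-BEGIN S18/H558/Cech.lean
section






/-!
# S18 / piece b5: connectedness via a two-chart Cech argument (pure algebra, Mathlib only)

Setting: `A` a commutative ring, `w : A`, `B` a commutative `A`-algebra ("`B_mid`"),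
`Bfin Binf : Subalgebra A B` the two charts.

* `lift_idem_mod_pow` : an idempotent modulo `w` lifts to an idempotent modulo `w ^ n`.
* `idem_congr_mod_pow` : two idempotents modulo `w ^ n` that agree modulo `w` agree modulo `w ^ n`.
* `cech_idempotent_trivial` : if the `w`-power torsion of `B / (Bfin + Binf)` is killed by `w ^ c`,
  `Bfin ∩ Binf = A`, `A / w → Bfin / w` is injective and `(w)` is prime in `A`, then every
  compatible pair of idempotents of `Bfin / w`, `Binf / w` is `(0,0)` or `(1,1)`.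
* `exists_torsion_bound` : over a noetherian ring, a f.g. module has bounded `w`-power torsion.
-/

namespace Fermat.Agent.S18.H558

section Idem

variable {R : Type*} [CommRing R]

/-- An idempotent modulo `w` lifts to an idempotent modulo `w ^ n`. -/
theorem lift_idem_mod_pow (w e : R) (he : e ^ 2 - e ∈ Ideal.span {w}) (n : ℕ) :
    ∃ f : R, f - e ∈ Ideal.span {w} ∧ f ^ 2 - f ∈ Ideal.span {w ^ n} := by
  rcases Nat.eq_zero_or_pos n with rfl | hn
  · exact ⟨e, by simp, by simp⟩
  have hle : Ideal.span {w ^ n} ≤ Ideal.span {w} := by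
    rw [Ideal.span_singleton_le_span_singleton]
    exact dvd_pow_self w hn.ne'
  let φ : R ⧸ Ideal.span {w ^ n} →+* R ⧸ Ideal.span {w} := Ideal.Quotient.factor hle
  have hφ : ∀ x : R, φ (Ideal.Quotient.mk _ x) = Ideal.Quotient.mk _ x := fun x => rfl
  have hker : ∀ x ∈ RingHom.ker φ, IsNilpotent x := by
    intro x hx
    obtain ⟨r, rfl⟩ := Ideal.Quotient.mk_surjective x
    rw [RingHom.mem_ker, hφ, Ideal.Quotient.eq_zero_iff_mem, Ideal.mem_span_singleton] at hx
    obtain ⟨s, rfl⟩ := hx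
    refine ⟨n, ?_⟩
    rw [← map_pow, Ideal.Quotient.eq_zero_iff_mem, Ideal.mem_span_singleton, mul_pow]
    exact Dvd.intro _ rfl
  have hid : IsIdempotentElem (Ideal.Quotient.mk (Ideal.span {w}) e) := by
    have : Ideal.Quotient.mk (Ideal.span {w}) (e ^ 2 - e) = 0 :=
      Ideal.Quotient.eq_zero_iff_mem.2 he
    rw [map_sub, sub_eq_zero, map_pow, pow_two] at this
    exact this
  obtain ⟨e', he', hφe'⟩ := exists_isIdempotentElem_eq_of_ker_isNilpotent φ hker
    (Ideal.Quotient.mk _ e) ⟨Ideal.Quotient.mk _ e, hφ e⟩ hid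
  obtain ⟨f, rfl⟩ := Ideal.Quotient.mk_surjective e'
  refine ⟨f, ?_, ?_⟩
  · rw [hφ] at hφe'
    rw [← Ideal.Quotient.eq_zero_iff_mem, map_sub, hφe', sub_self]
  · rw [← Ideal.Quotient.eq_zero_iff_mem, map_sub, map_pow, pow_two, he'.eq, sub_self]

/-- Two idempotents modulo `w ^ n` which agree modulo `w` agree modulo `w ^ n`. -/
theorem idem_congr_mod_pow (w f g : R) (n : ℕ)
    (hf : f ^ 2 - f ∈ Ideal.span {w ^ n}) (hg : g ^ 2 - g ∈ Ideal.span {w ^ n})
    (hfg : f - g ∈ Ideal.span {w}) : f - g ∈ Ideal.span {w ^ n} := by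
  have hf' : IsIdempotentElem (Ideal.Quotient.mk (Ideal.span {w ^ n}) f) := by
    have := Ideal.Quotient.eq_zero_iff_mem.2 hf
    rw [map_sub, sub_eq_zero, map_pow, pow_two] at this
    exact this
  have hg' : IsIdempotentElem (Ideal.Quotient.mk (Ideal.span {w ^ n}) g) := by
    have := Ideal.Quotient.eq_zero_iff_mem.2 hg
    rw [map_sub, sub_eq_zero, map_pow, pow_two] at this
    exact this
  have hnil : IsNilpotent (Ideal.Quotient.mk (Ideal.span {w ^ n}) f -
      Ideal.Quotient.mk (Ideal.span {w ^ n}) g) := by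
    rw [Ideal.mem_span_singleton] at hfg
    obtain ⟨s, hs⟩ := hfg
    refine ⟨n, ?_⟩
    rw [← map_sub, ← map_pow, Ideal.Quotient.eq_zero_iff_mem, Ideal.mem_span_singleton, hs, mul_pow]
    exact Dvd.intro _ rfl
  have := eq_of_isNilpotent_sub_of_isIdempotentElem hf' hg' hnil
  rw [← Ideal.Quotient.eq_zero_iff_mem, map_sub, this, sub_self]

end Idem

section Cech

variable {A B : Type*} [CommRing A] [CommRing B] [Algebra A B]

/-- **Two-chart Cech connectedness lemma.**
`B` plays the role of `B_mid`, `Bfin`, `Binf` are the two charts.  If the `w`-power torsion of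
`B / (Bfin + Binf)` is killed by `w ^ c`, `Bfin ∩ Binf` is (the image of) `A`,
`A / w → Bfin / w` is injective and `(w)` is a prime ideal of `A`, then a pair of elements
`e₁ ∈ Bfin`, `e₂ ∈ Binf`, idempotent modulo `w` in their charts and congruent modulo `w` in `B`,
is congruent to `(0, 0)` or to `(1, 1)` modulo `w`. -/
theorem cech_idempotent_trivial (w : A) (Bfin Binf : Subalgebra A B) (c : ℕ)
    (hH1 : ∀ h : B, algebraMap A B w ^ (c + 1) * h ∈ Bfin.toSubmodule ⊔ Binf.toSubmodule →
      algebraMap A B w ^ c * h ∈ Bfin.toSubmodule ⊔ Binf.toSubmodule)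
    (hH0 : ∀ b : B, b ∈ Bfin → b ∈ Binf → ∃ a : A, algebraMap A B a = b)
    (hinj : ∀ a : A, (∃ t ∈ Bfin, algebraMap A B a = algebraMap A B w * t) → w ∣ a)
    (hprime : ∀ a b : A, w ∣ a * b → w ∣ a ∨ w ∣ b)
    (e₁ e₂ : B) (he₁ : e₁ ∈ Bfin) (he₂ : e₂ ∈ Binf)
    (hi₁ : ∃ t ∈ Bfin, e₁ ^ 2 - e₁ = algebraMap A B w * t)
    (hi₂ : ∃ t ∈ Binf, e₂ ^ 2 - e₂ = algebraMap A B w * t)
    (h₁₂ : ∃ t : B, e₁ - e₂ = algebraMap A B w * t) :
    ((∃ t ∈ Bfin, e₁ = algebraMap A B w * t) ∧ (∃ t ∈ Binf, e₂ = algebraMap A B w * t)) ∨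
    ((∃ t ∈ Bfin, 1 - e₁ = algebraMap A B w * t) ∧ (∃ t ∈ Binf, 1 - e₂ = algebraMap A B w * t)) := by
  set W : B := algebraMap A B w with hW
  -- Step 1: lift in the two charts.
  have key : ∀ (C : Subalgebra A B) (e : B) (he : e ∈ C)
      (hi : ∃ t ∈ C, e ^ 2 - e = W * t),
      ∃ f ∈ C, (∃ t ∈ C, f - e = W * t) ∧ ∃ t ∈ C, f ^ 2 - f = W ^ (c + 1) * t := by
    intro C e he hi
    obtain ⟨t, ht, hte⟩ := hi
    have hw' : (⟨e, he⟩ : C) ^ 2 - ⟨e, he⟩ ∈ Ideal.span {algebraMap A C w} := by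
      rw [Ideal.mem_span_singleton]
      refine ⟨⟨t, ht⟩, Subtype.ext ?_⟩
      simpa using hte
    obtain ⟨f, hf1, hf2⟩ := lift_idem_mod_pow (algebraMap A C w) ⟨e, he⟩ hw' (c + 1)
    rw [Ideal.mem_span_singleton] at hf1 hf2
    obtain ⟨s1, hs1⟩ := hf1
    obtain ⟨s2, hs2⟩ := hf2
    refine ⟨f, f.2, ⟨s1, s1.2, ?_⟩, ⟨s2, s2.2, ?_⟩⟩
    · simpa using congrArg Subtype.val hs1
    · simpa using congrArg Subtype.val hs2
  obtain ⟨f, hfC, ⟨s₁, hs₁C, hs₁⟩, ⟨u₁, hu₁C, hu₁⟩⟩ := key Bfin e₁ he₁ hi₁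
  obtain ⟨g, hgC, ⟨s₂, hs₂C, hs₂⟩, ⟨u₂, hu₂C, hu₂⟩⟩ := key Binf e₂ he₂ hi₂
  -- Step 2: compare in `B`.
  obtain ⟨t₁₂, ht₁₂⟩ := h₁₂
  have hfg : f - g ∈ Ideal.span {W ^ (c + 1)} := by
    refine idem_congr_mod_pow W f g (c + 1) ?_ ?_ ?_
    · rw [Ideal.mem_span_singleton]; exact ⟨u₁, hu₁⟩
    · rw [Ideal.mem_span_singleton]; exact ⟨u₂, hu₂⟩
    · rw [Ideal.mem_span_singleton]
      refine ⟨s₁ + t₁₂ - s₂, ?_⟩
      have : f - g = (f - e₁) + (e₁ - e₂) - (g - e₂) := by ring
      rw [this, hs₁, ht₁₂, hs₂]; ring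
  rw [Ideal.mem_span_singleton] at hfg
  obtain ⟨h, hh⟩ := hfg
  -- Step 3: kill the obstruction.
  have hmem : W ^ (c + 1) * h ∈ Bfin.toSubmodule ⊔ Binf.toSubmodule := by
    rw [← hh]
    exact Submodule.sub_mem _ (Submodule.mem_sup_left hfC) (Submodule.mem_sup_right hgC)
  obtain ⟨f', hf'C, g', hg'C, hfg'⟩ := Submodule.mem_sup.1 (hH1 h hmem)
  have hf'C' : f' ∈ Bfin := hf'C
  have hg'C' : g' ∈ Binf := hg'C
  have hWfin : W ∈ Bfin := Bfin.algebraMap_mem w
  have hWinf : W ∈ Binf := Binf.algebraMap_mem w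
  have haeq : f - W * f' = g + W * g' := by
    have h1 : f - g = W * (f' + g') := by
      rw [hh, hfg', pow_succ]; ring
    have : f - W * f' - (g + W * g') = (f - g) - W * (f' + g') := by ring
    rw [← sub_eq_zero, this, h1, sub_self]
  obtain ⟨a, ha⟩ := hH0 (f - W * f') (Bfin.sub_mem hfC (Bfin.mul_mem hWfin hf'C'))
    (by rw [haeq]; exact Binf.add_mem hgC (Binf.mul_mem hWinf hg'C'))
  -- Step 4: `a` is idempotent modulo `w` in `A`.
  have ha1 : ∃ t ∈ Bfin, algebraMap A B a - e₁ = W * t :=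
    ⟨s₁ - f', Bfin.sub_mem hs₁C hf'C', by
      rw [ha]
      have : f - W * f' - e₁ = (f - e₁) - W * f' := by ring
      rw [this, hs₁]; ring⟩
  have ha2 : ∃ t ∈ Binf, algebraMap A B a - e₂ = W * t :=
    ⟨s₂ + g', Binf.add_mem hs₂C hg'C', by
      rw [ha, haeq]
      have : g + W * g' - e₂ = (g - e₂) + W * g' := by ring
      rw [this, hs₂]; ring⟩
  obtain ⟨t₁, ht₁C, ht₁⟩ := ha1
  obtain ⟨t₂, ht₂C, ht₂⟩ := ha2
  obtain ⟨v₁, hv₁C, hv₁⟩ := hi₁
  have hdvd : w ∣ a * (a - 1) := by
    apply hinj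
    refine ⟨v₁ + t₁ * (algebraMap A B a + e₁ - 1), ?_, ?_⟩
    · exact Bfin.add_mem hv₁C (Bfin.mul_mem ht₁C
        (Bfin.sub_mem (Bfin.add_mem (Bfin.algebraMap_mem a) he₁) Bfin.one_mem))
    · have : algebraMap A B (a * (a - 1)) =
          (e₁ ^ 2 - e₁) + (algebraMap A B a - e₁) * (algebraMap A B a + e₁ - 1) := by
        rw [map_mul, map_sub, map_one]; ring
      rw [this, hv₁, ht₁]; ring
  rcases hprime _ _ hdvd with h0 | h1
  · left
    obtain ⟨b, rfl⟩ := h0
    refine ⟨⟨algebraMap A B b - t₁, Bfin.sub_mem (Bfin.algebraMap_mem b) ht₁C, ?_⟩,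
      ⟨algebraMap A B b - t₂, Binf.sub_mem (Binf.algebraMap_mem b) ht₂C, ?_⟩⟩
    · have : e₁ = algebraMap A B (w * b) - (algebraMap A B (w * b) - e₁) := by ring
      rw [this, ht₁, map_mul]; ring
    · have : e₂ = algebraMap A B (w * b) - (algebraMap A B (w * b) - e₂) := by ring
      rw [this, ht₂, map_mul]; ring
  · right
    obtain ⟨b, hb⟩ := h1
    have hab : algebraMap A B a = 1 + W * algebraMap A B b := by
      have : a = 1 + w * b := by rw [← hb]; ring
      rw [this, map_add, map_one, map_mul]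
    refine ⟨⟨t₁ - algebraMap A B b, Bfin.sub_mem ht₁C (Bfin.algebraMap_mem b), ?_⟩,
      ⟨t₂ - algebraMap A B b, Binf.sub_mem ht₂C (Binf.algebraMap_mem b), ?_⟩⟩
    · have : 1 - e₁ = (algebraMap A B a - e₁) - (algebraMap A B a - 1) := by ring
      rw [this, ht₁, hab]; ring
    · have : 1 - e₂ = (algebraMap A B a - e₂) - (algebraMap A B a - 1) := by ring
      rw [this, ht₂, hab]; ring

end Cech

section Torsion

variable {A M : Type*} [CommRing A] [AddCommGroup M] [Module A M]

/-- Over a noetherian ring, the `w`-power torsion of a finitely generated module is killed by a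
single power `w ^ c`. -/
theorem exists_torsion_bound [IsNoetherianRing A] [Module.Finite A M] (w : A) :
    ∃ c : ℕ, ∀ (n : ℕ) (x : M), w ^ n • x = 0 → w ^ c • x = 0 := by
  have hN : IsNoetherian A M := isNoetherian_of_isNoetherianRing_of_finite A M
  let K : ℕ →o Submodule A M :=
    ⟨fun n => LinearMap.ker (LinearMap.lsmul A M (w ^ n)), by
      intro a b hab x hx
      simp only [LinearMap.mem_ker, LinearMap.lsmul_apply] at hx ⊢
      obtain ⟨d, rfl⟩ := Nat.exists_eq_add_of_le hab
      rw [pow_add, mul_comm, mul_smul, hx, smul_zero]⟩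
  have hK : ∀ (n : ℕ) (x : M), x ∈ K n ↔ w ^ n • x = 0 := fun n x => by
    change x ∈ LinearMap.ker (LinearMap.lsmul A M (w ^ n)) ↔ _
    rw [LinearMap.mem_ker, LinearMap.lsmul_apply]
  obtain ⟨c, hc⟩ := monotone_stabilizes_iff_noetherian.2 hN K
  refine ⟨c, fun n x hx => ?_⟩
  rcases le_total n c with hnc | hcn
  · obtain ⟨d, rfl⟩ := Nat.exists_eq_add_of_le hnc
    rw [pow_add, mul_comm, mul_smul, hx, smul_zero]
  · have h1 : x ∈ K n := (hK n x).2 hx
    have h2 : x ∈ K c := by rw [hc n hcn]; exact h1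
    exact (hK c x).1 h2

end Torsion

end Fermat.Agent.S18.H558

end
-- ===== PACK-END S18/H558/Cech.lean

-- ===== PACK-BEGIN A2/Alg/H34/Val.lean
section


/-!
# WALL A2 / ALG — the `w`-adic valuation at a component (helper34), Mathlib-only

`B` a noetherian domain, `p` a prime with `p B_p = w B_p` (elementwise: every `a ∈ p` satisfies
`a * s = w * a'` with `s ∉ p`).  Then every `b ≠ 0` is `w ^ k * a / t` with `a, t ∉ p`
(`exists_pow_mul_eq`): `B_p` is a discrete valuation ring with uniformiser `w`.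
-/

set_option autoImplicit false
set_option linter.unusedSectionVars false

namespace Fermat.Agent.A2.Alg.H34

open IsLocalRing

variable {B : Type*} [CommRing B] [IsDomain B] [IsNoetherianRing B]

theorem maximalIdeal_atPrime_eq_span (p : Ideal B) [hp : p.IsPrime] (w : B) (hw : w ∈ p)
    (hloc : ∀ a ∈ p, ∃ s, s ∉ p ∧ ∃ a', a * s = w * a') :
    maximalIdeal (Localization.AtPrime p) =
      Ideal.span {algebraMap B (Localization.AtPrime p) w} := by
  rw [← Localization.AtPrime.map_eq_maximalIdeal]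
  set L := Localization.AtPrime p with hL
  apply le_antisymm
  · rw [Ideal.map_le_iff_le_comap]
    intro a ha
    obtain ⟨s, hs, a', h⟩ := hloc a ha
    rw [Ideal.mem_comap, Ideal.mem_span_singleton']
    have hsu : IsUnit (algebraMap B L s) :=
      (IsLocalization.AtPrime.isUnit_to_map_iff _ p s).2 hs
    obtain ⟨v, hv⟩ := hsu
    refine ⟨algebraMap B L a' * (↑v⁻¹ : L), ?_⟩
    have h2 := congrArg (algebraMap B L) h
    rw [map_mul, map_mul, ← hv] at h2
    calc algebraMap B L a' * (↑v⁻¹ : L) * algebraMap B L w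
        = (algebraMap B L w * algebraMap B L a') * (↑v⁻¹ : L) := by ring
      _ = (algebraMap B L a * (↑v : L)) * (↑v⁻¹ : L) := by rw [h2]
      _ = algebraMap B L a := by rw [mul_assoc, Units.mul_inv, mul_one]
  · rw [Ideal.span_le, Set.singleton_subset_iff]
    exact Ideal.mem_map_of_mem _ hw

/-- `B_p` is a discrete valuation ring with uniformiser `w`, elementwise. -/
theorem exists_pow_mul_eq (p : Ideal B) [hp : p.IsPrime] (w : B) (hw : w ∈ p)
    (hloc : ∀ a ∈ p, ∃ s, s ∉ p ∧ ∃ a', a * s = w * a')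
    (b : B) (hb : b ≠ 0) : ∃ (k : ℕ) (a t : B), a ∉ p ∧ t ∉ p ∧ t * b = w ^ k * a := by
  set L := Localization.AtPrime p with hL
  have hinj : Function.Injective (algebraMap B L) :=
    IsLocalization.injective L p.primeCompl_le_nonZeroDivisors
  have : IsNoetherianRing L := IsLocalization.isNoetherianRing p.primeCompl L inferInstance
  have hm := maximalIdeal_atPrime_eq_span p w hw hloc
  have hkrull : ⨅ i, maximalIdeal L ^ i = ⊥ :=
    Ideal.iInf_pow_eq_bot_of_isLocalRing _ (maximalIdeal.isMaximal L).ne_top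
  have hφb : algebraMap B L b ≠ 0 := fun h => hb (hinj (by rw [h, map_zero]))
  have hex : ∃ k, algebraMap B L b ∉ maximalIdeal L ^ k := by
    by_contra hcon
    push Not at hcon
    apply hφb
    have : algebraMap B L b ∈ ⨅ i, maximalIdeal L ^ i := by
      rw [Ideal.mem_iInf]
      exact hcon
    rw [hkrull] at this
    exact this
  classical
  set k₀ := Nat.find hex with hk₀
  have hk₀spec : algebraMap B L b ∉ maximalIdeal L ^ k₀ := Nat.find_spec hex
  have hk₀pos : k₀ ≠ 0 := by
    intro h0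
    rw [h0, pow_zero, Ideal.one_eq_top] at hk₀spec
    exact hk₀spec Submodule.mem_top
  obtain ⟨k, hk⟩ := Nat.exists_eq_succ_of_ne_zero hk₀pos
  have hmem : algebraMap B L b ∈ maximalIdeal L ^ k := by
    by_contra hcon
    have := Nat.find_min' hex hcon
    omega
  rw [hm, Ideal.span_singleton_pow, Ideal.mem_span_singleton'] at hmem
  obtain ⟨y, hy⟩ := hmem
  obtain ⟨⟨a, t⟩, hat⟩ := IsLocalization.mk'_surjective p.primeCompl y
  simp only at hat
  have htu : IsUnit (algebraMap B L t) :=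
    (IsLocalization.AtPrime.isUnit_to_map_iff _ p t).2 t.2
  have hspec : y * algebraMap B L t = algebraMap B L a := by
    rw [← hat]
    exact IsLocalization.mk'_spec L a t
  refine ⟨k, a, t, ?_, t.2, ?_⟩
  · intro ha
    apply hk₀spec
    rw [hk, pow_succ]
    have hya : y ∈ maximalIdeal L := by
      have h1 : algebraMap B L a ∈ maximalIdeal L :=
        (IsLocalization.AtPrime.to_map_mem_maximal_iff L p a).2 ha
      rw [← hspec] at h1
      rcases (maximalIdeal.isMaximal L).isPrime.mem_or_mem h1 with h | h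
      · exact h
      · exact absurd htu ((IsLocalRing.mem_maximalIdeal _).1 h)
    have h1 : algebraMap B L w ^ k ∈ maximalIdeal L ^ k := by
      rw [hm, Ideal.span_singleton_pow]
      exact Ideal.mem_span_singleton_self _
    have h2 : algebraMap B L w ^ k * y ∈ maximalIdeal L ^ k * maximalIdeal L :=
      Ideal.mul_mem_mul h1 hya
    rw [← hy, mul_comm y]
    exact h2
  · apply hinj
    rw [map_mul, map_mul, map_pow, ← hspec, ← hy]
    ring

end Fermat.Agent.A2.Alg.H34

end
-- ===== PACK-END A2/Alg/H34/Val.lean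

-- ===== PACK-BEGIN A2/H552/Hensel.lean
section







/-!
# A2 / ALG (c1), part 1 (helper552): Hensel's lemma for non-monic polynomials

Mathlib's `HenselianLocalRing` only provides lifting of simple roots of **monic** polynomials.
Here we derive, for an arbitrary Henselian local ring `R`:

* `exists_root_of_coeff` : a polynomial `1 + c₁ X + (terms with coefficients in 𝔪)`, `c₁` a unit,
  has a root in `R` (reverse the polynomial, apply Hensel to the monic reverse).
* `exists_root_of_simple_root` : Hensel's lemma for arbitrary (not necessarily monic)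
  polynomials: a simple root modulo `𝔪` lifts.
* `exists_root_of_approx` : the strong form ("Newton"): if `p(s) = w^(2c+1) u` and
  `p'(s) = w^c ε` with `ε` a unit and `w ∈ 𝔪`, then `p` has a root `a` with `w^(c+1) ∣ a - s`.
* `exists_pow_eq_of_isUnit`, `exists_pow_eq_of_isUnit_of_not_dvd` : if the residue field is
  algebraically closed and `m` is invertible in it, every unit of `R` is an `m`-th power.
-/

set_option autoImplicit false

namespace Fermat.Agent.A2.H552

open Polynomial IsLocalRing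

section Hensel

variable {R : Type*} [CommRing R] [HenselianLocalRing R]

/-- Hensel's lemma in residue-field form (item 2 of Mathlib's `HenselianLocalRing.TFAE`),
stated with `Polynomial.map`. -/
theorem exists_root_of_residue_simple_root (f : R[X]) (hf : f.Monic) (a₀ : ResidueField R)
    (h₀ : (f.map (residue R)).eval a₀ = 0)
    (h₁ : (derivative (f.map (residue R))).eval a₀ ≠ 0) :
    ∃ a : R, f.IsRoot a ∧ residue R a = a₀ := by
  have H := ((HenselianLocalRing.TFAE R).out 0 1).mp ‹HenselianLocalRing R›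
  refine H f hf a₀ ?_ ?_
  · rw [aeval_def, eval₂_eq_eval_map, ResidueField.algebraMap_eq]
    exact h₀
  · rw [aeval_def, eval₂_eq_eval_map, ResidueField.algebraMap_eq, ← derivative_map]
    exact h₁

/-- A polynomial `1 + c₁ X + ∑_{i ≥ 2} cᵢ Xⁱ` with `c₁` a unit and `cᵢ ∈ 𝔪` for `i ≥ 2` has a
root in a Henselian local ring. -/
theorem exists_root_of_coeff (g : R[X]) (h0 : g.coeff 0 = 1) (h1 : IsUnit (g.coeff 1))
    (h2 : ∀ i, 2 ≤ i → g.coeff i ∈ maximalIdeal R) : ∃ b : R, g.IsRoot b := by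
  set d := g.natDegree with hd
  have hd1 : 1 ≤ d := le_natDegree_of_ne_zero h1.ne_zero
  set G := reflect d g with hG
  have hGdeg : G.natDegree ≤ d := natDegree_reflect_le.trans (by simp [hd])
  have hGm : G.Monic := by
    refine monic_of_natDegree_le_of_coeff_eq_one d hGdeg ?_
    rw [hG, coeff_reflect, revAt_le le_rfl, Nat.sub_self, h0]
  set c := residue R (g.coeff 1) with hc
  have hc0 : c ≠ 0 := by
    intro h
    rw [hc, residue_eq_zero_iff] at h
    exact (IsLocalRing.notMem_maximalIdeal.mpr h1) h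
  have hgbar : g.map (residue R) = C 1 + C c * X := by
    ext i
    rcases i with _ | _ | i
    · simp [h0]
    · simp [hc, coeff_one]
    · have : residue R (g.coeff (i + 2)) = 0 :=
        (residue_eq_zero_iff _).mpr (h2 _ (by omega))
      simp [this, coeff_one]
  have hGbar : G.map (residue R) = X ^ d + C c * X ^ (d - 1) := by
    rw [hG, ← reflect_map, hgbar, reflect_add, reflect_C, _root_.map_one, one_mul]
    have : (C c * X : (ResidueField R)[X]) = C c * X ^ 1 := by rw [pow_one]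
    rw [this, reflect_C_mul_X_pow, revAt_le hd1]
  obtain ⟨e, he⟩ : ∃ e, d = e + 1 := ⟨d - 1, by omega⟩
  obtain ⟨z, hz, hzres⟩ := exists_root_of_residue_simple_root G hGm (-c)
    (by
      rw [hGbar, he]
      simp only [eval_add, eval_pow, eval_X, eval_mul, eval_C, Nat.add_sub_cancel]
      ring)
    (by
      rw [hGbar, he]
      simp only [derivative_add, derivative_X_pow, derivative_mul, derivative_C, zero_mul,
        zero_add, eval_add, eval_mul, eval_C, eval_pow, eval_X, Nat.add_sub_cancel]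
      rcases e with _ | e
      · simp
      · simp only [Nat.add_sub_cancel, Nat.cast_add, Nat.cast_one]
        have : ((e : ResidueField R) + 1 + 1) * (-c) ^ (e + 1) + c * (((e : ResidueField R) + 1)
            * (-c) ^ e) = (-c) ^ (e + 1) := by ring
        rw [this]
        exact pow_ne_zero _ (neg_ne_zero.mpr hc0))
  have hzu : IsUnit z := by
    rw [← IsLocalRing.notMem_maximalIdeal, ← residue_eq_zero_iff, hzres]
    exact neg_ne_zero.mpr hc0
  obtain ⟨u, rfl⟩ := hzu
  refine ⟨(↑u⁻¹ : R), ?_⟩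
  let _ : Invertible (u : R) := Units.invertible u
  have key := eval₂_reflect_mul_pow (RingHom.id R) (u : R) d G hGdeg
  rw [hG, reflect_reflect, ← hG, eval₂_id, eval₂_id, invOf_units] at key
  have hz' : G.eval (u : R) = 0 := hz
  rw [hz'] at key
  have hu : IsUnit ((u : R) ^ d) := (u.isUnit).pow d
  exact (hu.mul_left_eq_zero).mp key

/-- Rescaling a polynomial: if `t₀ = A a₀`, `t₁ W = A a₁` and `W² = A B`, then
`t(W X) = A (a₀ + a₁ X + B X² q(X))` with `q = (t / X²)(W X)`. -/
theorem comp_C_mul_X_eq {S : Type*} [CommRing S] (t : S[X]) (W A B a₀ a₁ : S)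
    (h0 : t.coeff 0 = A * a₀) (h1 : t.coeff 1 * W = A * a₁) (h2 : W ^ 2 = A * B) :
    t.comp (C W * X) =
      C A * (C a₀ + C a₁ * X + C B * X ^ 2 * (t.divX.divX.comp (C W * X))) := by
  have e0 : (C (t.coeff 0) : S[X]) = C A * C a₀ := by rw [h0, C_mul]
  have e1 : (C (t.coeff 1) : S[X]) * C W = C A * C a₁ := by rw [← C_mul, h1, C_mul]
  have e2 : (C W : S[X]) * C W = C A * C B := by rw [← C_mul, ← C_mul, ← pow_two, h2]
  have ht : t = (t.divX.divX * X + C (t.coeff 1)) * X + C (t.coeff 0) := by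
    have h := divX_mul_X_add t.divX
    rw [coeff_divX, zero_add] at h
    rw [h, divX_mul_X_add]
  conv_lhs => rw [ht]
  simp only [add_comp, mul_comp, X_comp, C_comp]
  linear_combination (t.divX.divX.comp (C W * X) * X ^ 2) * e2 + X * e1 + e0

/-- Coefficients of `a + b X + B X² q`. -/
theorem coeff_quadratic_form {S : Type*} [CommRing S] (a b B : S) (q : S[X]) :
    (C a + C b * X + C B * X ^ 2 * q).coeff 0 = a ∧
    (C a + C b * X + C B * X ^ 2 * q).coeff 1 = b ∧
    ∀ j, (C a + C b * X + C B * X ^ 2 * q).coeff (j + 2) = B * q.coeff j := by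
  have h : ∀ n, (C B * X ^ 2 * q).coeff n = if 2 ≤ n then B * q.coeff (n - 2) else 0 := by
    intro n
    rw [mul_assoc, coeff_C_mul, coeff_X_pow_mul']
    split_ifs <;> simp
  refine ⟨?_, ?_, fun j => ?_⟩
  · rw [coeff_add, coeff_add, h]; simp
  · rw [coeff_add, coeff_add, h]; simp
  · rw [coeff_add, coeff_add, h, coeff_C_mul, coeff_X, coeff_C]
    simp

/-- **Hensel's lemma for arbitrary polynomials**: in a Henselian local ring a simple root
modulo the maximal ideal of a (not necessarily monic) polynomial lifts to a root. -/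
theorem exists_root_of_simple_root (h : R[X]) (a₀ : R) (h₀ : h.eval a₀ ∈ maximalIdeal R)
    (h₁ : IsUnit ((derivative h).eval a₀)) :
    ∃ a : R, h.IsRoot a ∧ a - a₀ ∈ maximalIdeal R := by
  set t := taylor a₀ h with ht
  set c₀ := h.eval a₀ with hc₀
  set c₁ := (derivative h).eval a₀ with hc₁
  have key := comp_C_mul_X_eq t c₀ c₀ c₀ 1 c₁
    (by rw [ht, taylor_coeff_zero, mul_one]) (by rw [ht, taylor_coeff_one, mul_comm])
    (by rw [pow_two])
  set g : R[X] := C 1 + C c₁ * X + C c₀ * X ^ 2 * (t.divX.divX.comp (C c₀ * X)) with hg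
  obtain ⟨hg0, hg1, hg2⟩ := coeff_quadratic_form 1 c₁ c₀ (t.divX.divX.comp (C c₀ * X))
  rw [← hg] at hg0 hg1 hg2
  obtain ⟨b, hb⟩ := exists_root_of_coeff g hg0 (by rw [hg1]; exact h₁)
    (by
      intro i hi
      obtain ⟨j, rfl⟩ : ∃ j, i = j + 2 := ⟨i - 2, by omega⟩
      rw [hg2]
      exact Ideal.mul_mem_right _ _ h₀)
  have hb' : eval b g = 0 := hb
  refine ⟨c₀ * b + a₀, ?_, ?_⟩
  · have h3 := congrArg (eval b) key
    simp only [eval_comp, eval_mul, eval_C, eval_X] at h3
    rw [hb', mul_zero, ht, taylor_eval] at h3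
    exact h3
  · rw [add_sub_cancel_right]
    exact Ideal.mul_mem_right _ _ h₀

/-- **Strong form of Hensel's lemma** (Newton): if `p(s) = w^(2c+1) u` and `p'(s) = w^c ε`
with `ε` a unit and `w` in the maximal ideal, then `p` has a root `a` with
`w^(c+1) ∣ a - s`. -/
theorem exists_root_of_approx (p : R[X]) (s w u ε : R) (c : ℕ) (hw : w ∈ maximalIdeal R)
    (hε : IsUnit ε) (h₀ : p.eval s = w ^ (2 * c + 1) * u)
    (h₁ : (derivative p).eval s = w ^ c * ε) :
    ∃ a : R, p.IsRoot a ∧ w ^ (c + 1) ∣ a - s := by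
  set t := taylor s p with ht
  have key := comp_C_mul_X_eq t (w ^ (c + 1)) (w ^ (2 * c + 1)) w u ε
    (by rw [ht, taylor_coeff_zero, h₀]) (by rw [ht, taylor_coeff_one, h₁]; ring) (by ring)
  set q := t.divX.divX.comp (C (w ^ (c + 1)) * X) with hq
  set g : R[X] := C u + C ε * X + C w * X ^ 2 * q with hg
  obtain ⟨ε', hε'⟩ := hε.exists_right_inv
  obtain ⟨b, hb, -⟩ := exists_root_of_simple_root g (-u * ε')
    (by
      have : g.eval (-u * ε') = w * ((-u * ε') ^ 2 * q.eval (-u * ε')) := by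
        simp only [hg, eval_add, eval_mul, eval_C, eval_X, eval_pow]
        linear_combination (-u) * hε'
      rw [this]
      exact Ideal.mul_mem_right _ _ hw)
    (by
      have : (derivative g).eval (-u * ε') =
          ε + w * (derivative (X ^ 2 * q)).eval (-u * ε') := by
        rw [hg, mul_assoc]
        simp only [derivative_add, derivative_C, derivative_C_mul, derivative_X, zero_add,
          eval_add, eval_mul, eval_C, mul_one]
      rw [this, ← IsLocalRing.notMem_maximalIdeal]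
      intro hmem
      have h4 : w * (derivative (X ^ 2 * q)).eval (-u * ε') ∈ maximalIdeal R :=
        Ideal.mul_mem_right _ _ hw
      exact (IsLocalRing.notMem_maximalIdeal.mpr hε)
        ((Ideal.add_mem_iff_left _ h4).mp hmem))
  have hb' : eval b g = 0 := hb
  refine ⟨w ^ (c + 1) * b + s, ?_, ?_⟩
  · have h3 := congrArg (eval b) key
    simp only [eval_comp, eval_mul, eval_C, eval_X] at h3
    rw [hb', mul_zero, ht, taylor_eval] at h3
    exact h3
  · rw [add_sub_cancel_right]
    exact Dvd.intro _ rfl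

/-- In a Henselian local ring with algebraically closed residue field, every unit is an `m`-th
power, for `m` invertible in the residue field. -/
theorem exists_pow_eq_of_isUnit [IsAlgClosed (ResidueField R)] (m : ℕ)
    (hm : (m : ResidueField R) ≠ 0) (u : R) (hu : IsUnit u) : ∃ v : R, v ^ m = u := by
  have hm0 : m ≠ 0 := by
    rintro rfl
    exact hm (by simp)
  have hu0 : residue R u ≠ 0 := by
    intro h
    rw [residue_eq_zero_iff] at h
    exact (IsLocalRing.notMem_maximalIdeal.mpr hu) h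
  obtain ⟨a, ha⟩ := IsAlgClosed.exists_pow_nat_eq (residue R u) (Nat.pos_of_ne_zero hm0)
  have ha0 : a ≠ 0 := by
    rintro rfl
    rw [zero_pow hm0] at ha
    exact hu0 ha.symm
  obtain ⟨v, hv, -⟩ := exists_root_of_residue_simple_root (X ^ m - C u)
    (monic_X_pow_sub_C u hm0) a
    (by simp [ha])
    (by
      simp only [Polynomial.map_sub, Polynomial.map_pow, map_X, map_C, derivative_sub,
        derivative_X_pow, derivative_C, sub_zero, eval_mul, eval_C, eval_pow, eval_X]
      exact mul_ne_zero hm (pow_ne_zero _ ha0))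
  refine ⟨v, ?_⟩
  have : (X ^ m - C u : R[X]).eval v = 0 := hv
  simpa [sub_eq_zero] using this

/-- The same, with the hypotheses of `Fermat.Agent.A2.algSS`: the residue characteristic is the
prime `q` and `q ∤ m`. -/
theorem exists_pow_eq_of_isUnit_of_not_dvd [IsAlgClosed (ResidueField R)] (q m : ℕ)
    (hq : q.Prime) (hqR : (q : R) ∈ maximalIdeal R) (hqm : ¬ q ∣ m) (u : R) (hu : IsUnit u) :
    ∃ v : R, v ^ m = u := by
  refine exists_pow_eq_of_isUnit m (fun hm0 => hqm ?_) u hu
  have h1 : ((q : ℕ) : ResidueField R) = 0 := by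
    rw [← _root_.map_natCast (residue R)]
    exact (residue_eq_zero_iff _).mpr hqR
  have hdq : ringChar (ResidueField R) ∣ q := ringChar.dvd h1
  have hdm : ringChar (ResidueField R) ∣ m := ringChar.dvd hm0
  rcases (Nat.dvd_prime hq).mp hdq with h | h
  · exact absurd h CharP.ringChar_ne_one
  · rwa [h] at hdm

end Hensel

end Fermat.Agent.A2.H552

end
-- ===== PACK-END A2/H552/Hensel.lean

-- ===== PACK-BEGIN A2/H552/KummerUnram.lean
section







/-!
# A2 / ALG, COVER-SPLIT in the cyclic case `u ≡ 1 mod w` (helper552)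

`K ⊆ Ω` fields, `V` a valuation subring of `K` with uniformiser `w` (`w` generates the non-units
of `V` and `K = V[1/w]`), `m` invertible in `V`, `ζ ∈ K` a primitive `m`-th root of unity,
`Ω = K[z]` with `z ^ m = 1 + w t`, `t ∈ V`.  Let `W` be ANY valuation subring of `Ω` containing `V`
in which `w` is not a unit.  Then

* `z = η (1 + w s)` with `η` an `m`-th root of unity and `s ∈ W`;
* `W = V[s]` (the subring generated by `V` and `s`), `V[s] = V + w V[s]`;
* hence `𝔪_W = w W` (`e = 1`) and `W = V + w W` (`f = 1`): `kummer_unramified`.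

No Galois theory, no étale/Dedekind API, no completeness.
-/

set_option autoImplicit false

namespace Fermat.Agent.A2.H552

open Polynomial

section CycUnram

variable {K Ω : Type*} [Field K] [Field Ω] [Algebra K Ω]

/-- In a valuation subring of a field: a nonzero element with `x⁻¹ ∉ W` has valuation `< 1`. -/
theorem valuation_lt_one_of_inv_notMem (W : ValuationSubring Ω) {x : Ω} (hx : x⁻¹ ∉ W) :
    W.valuation x < 1 := by
  by_contra h
  rw [not_lt] at h
  apply hx
  rw [← W.valuation_le_one_iff, map_inv₀]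
  exact inv_le_one_of_one_le₀ h

/-- An element of valuation `< 1` has `x⁻¹ ∉ W` unless it is zero. -/
theorem inv_notMem_of_valuation_lt_one (W : ValuationSubring Ω) {x : Ω} (hx0 : x ≠ 0)
    (hx : W.valuation x < 1) : x⁻¹ ∉ W := by
  intro h
  rw [← W.valuation_le_one_iff, map_inv₀] at h
  have hpos : 0 < W.valuation x := by
    rw [pos_iff_ne_zero]
    exact (Valuation.ne_zero_iff _).mpr hx0
  have := (inv_le_one₀ hpos).mp h
  exact absurd hx (not_lt.mpr this)

/-- In a linearly ordered group with zero, `a ^ n = 1` with `n ≠ 0` forces `a = 1`. -/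
theorem eq_one_of_pow_eq_one₀ {Γ : Type*} [LinearOrderedCommGroupWithZero Γ] {a : Γ} {n : ℕ}
    (hn : n ≠ 0) (h : a ^ n = 1) : a = 1 := by
  rcases lt_trichotomy a 1 with h1 | h1 | h1
  · exact absurd h (pow_lt_one₀ zero_le h1 hn).ne
  · exact h1
  · exact absurd h (one_lt_pow₀ h1 hn).ne'

/-- `x ^ m = 1` with `0 < m` gives `x⁻¹ = x ^ (m - 1)`. -/
theorem inv_eq_pow_of_pow_eq_one {F : Type*} [Field F] {x : F} {m : ℕ} (hm : 0 < m)
    (h : x ^ m = 1) : x⁻¹ = x ^ (m - 1) := by
  apply inv_eq_of_mul_eq_one_right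
  rw [← pow_succ', Nat.sub_add_cancel hm, h]

/-- **Cyclic Kummer extensions with `u ≡ 1 mod w` are unramified with trivial residue
extension** at every valuation subring `W` over `V`. -/
theorem kummer_unramified (V : ValuationSubring K) (W : ValuationSubring Ω)
    (hVW : ∀ a ∈ V, algebraMap K Ω a ∈ W)
    (w : K) (hwV : w ∈ V) (hw0 : w ≠ 0) (hwW : (algebraMap K Ω w)⁻¹ ∉ W)
    (hVgen : ∀ a ∈ V, a⁻¹ ∉ V → a * w⁻¹ ∈ V)
    (hdisc : ∀ c : K, ∃ k : ℕ, w ^ k * c ∈ V)
    (m : ℕ) (hm : 0 < m) (hm0 : (m : K) ≠ 0) (hmV : ((m : K))⁻¹ ∈ V)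
    (ζ : K) (hζ : IsPrimitiveRoot ζ m)
    (t : K) (ht : t ∈ V) (z : Ω) (hz : z ^ m = algebraMap K Ω (1 + w * t))
    (hgen : ∀ b : Ω, b ∈ Algebra.adjoin K ({z} : Set Ω)) :
    (∀ b ∈ W, b⁻¹ ∉ W → b * (algebraMap K Ω w)⁻¹ ∈ W) ∧
    (∀ b ∈ W, ∃ a ∈ V, (b - algebraMap K Ω a) * (algebraMap K Ω w)⁻¹ ∈ W) := by
  classical
  have : NeZero m := ⟨hm.ne'⟩
  set φ := algebraMap K Ω with hφ
  set v := W.valuation with hv
  have hφinj : Function.Injective φ := (algebraMap K Ω).injective
  have hφw0 : φ w ≠ 0 := fun h => hw0 (hφinj (by rw [h, _root_.map_zero]))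
  have hvV : ∀ a ∈ V, v (φ a) ≤ 1 := fun a ha => (W.valuation_le_one_iff _).mpr (hVW a ha)
  have hvw : v (φ w) < 1 := valuation_lt_one_of_inv_notMem W hwW
  have hvw0 : v (φ w) ≠ 0 := (Valuation.ne_zero_iff _).mpr hφw0
  have hunitV : ∀ a ∈ V, a⁻¹ ∈ V → a ≠ 0 → v (φ a) = 1 := by
    intro a ha hai ha0
    have h1 := hvV a ha
    have h2 := hvV _ hai
    rw [map_inv₀, map_inv₀] at h2
    have hpos : 0 < v (φ a) := by
      rw [pos_iff_ne_zero]
      exact (Valuation.ne_zero_iff _).mpr (fun h => ha0 (hφinj (by rw [h, _root_.map_zero])))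
    exact le_antisymm h1 ((inv_le_one₀ hpos).mp h2)
  -- the root of unity `ζ` is a unit of `V`
  have hζm : ζ ^ m = 1 := hζ.pow_eq_one
  have hζ0 : ζ ≠ 0 := hζ.ne_zero hm.ne'
  have hpowV : ∀ i : ℕ, ζ ^ i ∈ V := by
    have hζV : ζ ∈ V := by
      rcases V.mem_or_inv_mem ζ with h | h
      · exact h
      · have h1 : (ζ⁻¹) ^ m = 1 := by rw [inv_pow, hζm, inv_one]
        have h2 := inv_eq_pow_of_pow_eq_one hm h1
        rw [inv_inv] at h2
        rw [h2]
        exact pow_mem h _
    exact fun i => pow_mem hζV i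
  -- `m` is a unit of `V`
  have hmVmem : (m : K) ∈ V := by
    have : (m : K) = ((m : ℕ) : V) := by simp
    rw [this]
    exact Subtype.mem _
  have hvm : v (φ (m : K)) = 1 := hunitV _ hmVmem hmV hm0
  have hφm : φ (m : K) = (m : Ω) := _root_.map_natCast φ m
  -- `z` is a unit of `W`
  have hv1wt : v (φ (1 + w * t)) = 1 := by
    rw [_root_.map_add, _root_.map_one, _root_.map_mul]
    have hlt : v (φ w * φ t) < v 1 := by
      rw [_root_.map_one, _root_.map_mul]
      calc v (φ w) * v (φ t) ≤ v (φ w) * 1 := by gcongr; exact hvV t ht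
        _ = v (φ w) := mul_one _
        _ < 1 := hvw
    rw [Valuation.map_add_eq_of_lt_left _ hlt, _root_.map_one]
  have hvz : v z = 1 := by
    have h1 : v z ^ m = 1 := by rw [← _root_.map_pow, hz, hv1wt]
    exact eq_one_of_pow_eq_one₀ hm.ne' h1
  -- some `m`-th root of unity `η` is congruent to `z`
  have hζ' : IsPrimitiveRoot (φ ζ) m := hζ.map_of_injective hφinj
  have hprod : z ^ m - 1 = ∏ η ∈ nthRootsFinset m (1 : Ω), (z - η) := by
    have h := congrArg (eval z) (X_pow_sub_one_eq_prod hm hζ')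
    simpa [eval_prod] using h
  have hvη : ∀ η ∈ nthRootsFinset m (1 : Ω), v η = 1 := by
    intro η hη
    rw [mem_nthRootsFinset hm] at hη
    have h1 : v η ^ m = 1 := by rw [← _root_.map_pow, hη, _root_.map_one]
    exact eq_one_of_pow_eq_one₀ hm.ne' h1
  obtain ⟨η, hη, hzη⟩ : ∃ η ∈ nthRootsFinset m (1 : Ω), v (z - η) < 1 := by
    by_contra hcon
    have hall : ∀ η ∈ nthRootsFinset m (1 : Ω), v (z - η) = 1 := by
      intro η hη
      refine le_antisymm ?_ (not_lt.mp fun h => hcon ⟨η, hη, h⟩)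
      exact (Valuation.map_sub _ _ _).trans (max_le hvz.le (hvη η hη).le)
    have h1 : v (z ^ m - 1) = 1 := by
      rw [hprod, _root_.map_prod]
      exact Finset.prod_eq_one hall
    have h2 : v (z ^ m - 1) < 1 := by
      rw [hz, _root_.map_add, _root_.map_one, add_sub_cancel_left, _root_.map_mul]
      calc v (φ w) * v (φ t) ≤ v (φ w) * 1 := by gcongr; exact hvV t ht
        _ = v (φ w) := mul_one _
        _ < 1 := hvw
    exact absurd h1 h2.ne
  have hηm : η ^ m = 1 := (mem_nthRootsFinset hm 1).mp hη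
  have hη0 : η ≠ 0 := by
    intro h
    rw [h, zero_pow hm.ne'] at hηm
    exact zero_ne_one hηm
  obtain ⟨i, -, hi⟩ := hζ'.eq_pow_of_pow_eq_one hηm
  -- normalise: `z₁ = z / η ≡ 1`
  set z₁ := z * η⁻¹ with hz₁
  have hz₁m : z₁ ^ m = φ (1 + w * t) := by
    rw [hz₁, mul_pow, inv_pow, hηm, inv_one, mul_one, hz]
  have hvz₁ : v (z₁ - 1) < 1 := by
    have : z₁ - 1 = (z - η) * η⁻¹ := by
      rw [hz₁, sub_mul, mul_inv_cancel₀ hη0]
    rw [this, _root_.map_mul, map_inv₀, hvη η hη, inv_one, mul_one]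
    exact hzη
  have hvz₁' : v z₁ ≤ 1 := by
    rw [hz₁, _root_.map_mul, map_inv₀, hvη η hη, inv_one, mul_one]
    exact hvz.le
  set G := ∑ j ∈ Finset.range m, z₁ ^ j with hG
  have hGmul : G * (z₁ - 1) = φ w * φ t := by
    rw [hG, geom_sum_mul, hz₁m, _root_.map_add, _root_.map_one, _root_.map_mul, add_sub_cancel_left]
  set s := (z₁ - 1) * (φ w)⁻¹ with hs
  have hz₁s : z₁ = 1 + φ w * s := by
    rw [hs, mul_comm (z₁ - 1), ← mul_assoc, mul_inv_cancel₀ hφw0, one_mul]
    ring
  -- `G = m + w s c₀`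
  set c₀ := ∑ j ∈ Finset.range m, ∑ l ∈ Finset.range j, z₁ ^ l with hc₀
  have hGm : G = (m : Ω) + φ w * s * c₀ := by
    have h1 : G - (m : Ω) = ∑ j ∈ Finset.range m, (z₁ ^ j - 1) := by
      rw [hG, Finset.sum_sub_distrib]
      simp
    have h2 : ∀ j ∈ Finset.range m, z₁ ^ j - 1 = (z₁ - 1) * ∑ l ∈ Finset.range j, z₁ ^ l :=
      fun j _ => (mul_geom_sum z₁ j).symm
    rw [Finset.sum_congr rfl h2, ← Finset.mul_sum, ← hc₀] at h1
    have h3 : z₁ - 1 = φ w * s := by rw [hz₁s]; ring
    rw [h3] at h1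
    rw [← h1]; ring
  have hGs : G * s = φ t := by
    have h3 : z₁ - 1 = φ w * s := by rw [hz₁s]; ring
    rw [h3] at hGmul
    have : φ w * (G * s) = φ w * φ t := by rw [← hGmul]; ring
    exact mul_left_cancel₀ hφw0 this
  -- the subring `A = V[s]`
  set A : Subring Ω := Subring.closure (φ '' (V : Set K) ∪ {s}) with hA
  have hVA : ∀ a ∈ V, φ a ∈ A := fun a ha =>
    Subring.subset_closure (Or.inl ⟨a, ha, rfl⟩)
  have hsA : s ∈ A := Subring.subset_closure (Or.inr rfl)
  have hwA : φ w ∈ A := hVA w hwV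
  have hz₁A : z₁ ∈ A := by
    rw [hz₁s]
    exact A.add_mem A.one_mem (A.mul_mem hwA hsA)
  have hc₀A : c₀ ∈ A := by
    rw [hc₀]
    exact A.sum_mem fun j _ => A.sum_mem fun l _ => A.pow_mem hz₁A l
  -- `s ∈ W`
  have hvG : v G = 1 := by
    have h1 : v (φ w * s * c₀) < v (m : Ω) := by
      rw [← hφm, hvm]
      have hsc : φ w * s * c₀ = (z₁ - 1) * c₀ := by
        rw [hz₁s]; ring
      rw [hsc, _root_.map_mul]
      have hc₀le : v c₀ ≤ 1 := by
        rw [hc₀]
        refine Valuation.map_sum_le _ fun j _ => ?_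
        refine Valuation.map_sum_le _ fun l _ => ?_
        rw [_root_.map_pow]
        exact pow_le_one₀ zero_le hvz₁'
      calc v (z₁ - 1) * v c₀ ≤ v (z₁ - 1) * 1 := by gcongr
        _ = v (z₁ - 1) := mul_one _
        _ < 1 := hvz₁
    rw [hGm, Valuation.map_add_eq_of_lt_left _ h1, ← hφm, hvm]
  have hG0 : G ≠ 0 := by
    intro h
    rw [h, _root_.map_zero] at hvG
    exact zero_ne_one hvG
  have hsW : v s ≤ 1 := by
    have : s = φ t * G⁻¹ := by
      rw [← hGs, mul_comm G s, mul_assoc, mul_inv_cancel₀ hG0, mul_one]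
    rw [this, _root_.map_mul, map_inv₀, hvG, inv_one, mul_one]
    exact hvV t ht
  have hAW : ∀ a ∈ A, v a ≤ 1 := by
    intro a ha
    have hle : A ≤ W.toSubring := by
      rw [hA, Subring.closure_le]
      rintro x (⟨a, ha, rfl⟩ | hx)
      · exact hVW a ha
      · rw [Set.mem_singleton_iff] at hx
        rw [hx]
        exact (W.valuation_le_one_iff _).mp hsW
    exact (W.valuation_le_one_iff _).mpr (hle ha)
  -- `A = V + w A`
  have hdec : ∀ a ∈ A, ∃ a₀ ∈ V, ∃ a' ∈ A, a = φ a₀ + φ w * a' := by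
    intro a ha
    induction ha using Subring.closure_induction with
    | mem x hx =>
      rcases hx with ⟨a₀, ha₀, rfl⟩ | hx
      · exact ⟨a₀, ha₀, 0, A.zero_mem, by simp⟩
      · rw [Set.mem_singleton_iff] at hx
        subst hx
        refine ⟨t * (m : K)⁻¹, mul_mem ht hmV, -(φ ((m : K)⁻¹) * s * s * c₀),
          A.neg_mem (A.mul_mem (A.mul_mem (A.mul_mem (hVA _ hmV) hsA) hsA) hc₀A), ?_⟩
        have hmm : (m : Ω) * φ ((m : K)⁻¹) = 1 := by
          rw [← hφm, ← _root_.map_mul, mul_inv_cancel₀ hm0, _root_.map_one]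
        have h5 : ((m : Ω) + φ w * s * c₀) * s = φ t := by rw [← hGm]; exact hGs
        rw [_root_.map_mul]
        linear_combination (φ ((m : K)⁻¹)) * h5 - s * hmm
    | zero => exact ⟨0, zero_mem V, 0, A.zero_mem, by simp⟩
    | one => exact ⟨1, one_mem V, 0, A.zero_mem, by simp⟩
    | add x y hx hy ihx ihy =>
      obtain ⟨x₀, hx₀, x', hx', rfl⟩ := ihx
      obtain ⟨y₀, hy₀, y', hy', rfl⟩ := ihy
      exact ⟨x₀ + y₀, add_mem hx₀ hy₀, x' + y', A.add_mem hx' hy', by rw [_root_.map_add]; ring⟩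
    | neg x hx ihx =>
      obtain ⟨x₀, hx₀, x', hx', rfl⟩ := ihx
      exact ⟨-x₀, neg_mem hx₀, -x', A.neg_mem hx', by rw [_root_.map_neg]; ring⟩
    | mul x y hx hy ihx ihy =>
      obtain ⟨x₀, hx₀, x', hx', rfl⟩ := ihx
      obtain ⟨y₀, hy₀, y', hy', rfl⟩ := ihy
      refine ⟨x₀ * y₀, mul_mem hx₀ hy₀, φ x₀ * y' + x' * φ y₀ + φ w * x' * y', ?_, ?_⟩
      · exact A.add_mem (A.add_mem (A.mul_mem (hVA _ hx₀) hy') (A.mul_mem hx' (hVA _ hy₀)))
          (A.mul_mem (A.mul_mem hwA hx') hy')
      · rw [_root_.map_mul]; ring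
  -- non-units of `A` are divisible by `w`
  have hdiv : ∀ a ∈ A, v a < 1 → ∃ a' ∈ A, a = φ w * a' := by
    intro a ha hva
    obtain ⟨a₀, ha₀, a', ha', rfl⟩ := hdec a ha
    have h1 : v (φ w * a') < 1 := by
      rw [_root_.map_mul]
      calc v (φ w) * v a' ≤ v (φ w) * 1 := by gcongr; exact hAW a' ha'
        _ = v (φ w) := mul_one _
        _ < 1 := hvw
    have h2 : v (φ a₀) < 1 := by
      have : φ a₀ = (φ a₀ + φ w * a') - φ w * a' := by ring
      rw [this]
      exact Valuation.map_sub_lt _ hva h1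
    have h3 : a₀ * w⁻¹ ∈ V := by
      by_cases h0 : a₀ = 0
      · rw [h0, zero_mul]; exact zero_mem V
      refine hVgen a₀ ha₀ fun hinv => ?_
      have := hunitV a₀ ha₀ hinv h0
      rw [this] at h2
      exact lt_irrefl _ h2
    refine ⟨φ (a₀ * w⁻¹) + a', A.add_mem (hVA _ h3) ha', ?_⟩
    rw [mul_add, ← _root_.map_mul, mul_comm a₀, ← mul_assoc, mul_inv_cancel₀ hw0, one_mul]
  -- `Ω = A[1/w]`
  have hloc : ∀ b : Ω, ∃ k : ℕ, φ w ^ k * b ∈ A := by
    intro b
    induction hgen b using Algebra.adjoin_induction with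
    | mem x hx =>
      rw [Set.mem_singleton_iff] at hx
      rw [hx]
      refine ⟨0, ?_⟩
      rw [pow_zero, one_mul]
      have hzz : z = η * z₁ := by
        rw [hz₁, mul_comm z, ← mul_assoc, mul_inv_cancel₀ hη0, one_mul]
      rw [hzz]
      refine A.mul_mem ?_ hz₁A
      rw [← hi, ← _root_.map_pow]
      exact hVA _ (hpowV i)
    | algebraMap c =>
      obtain ⟨k, hk⟩ := hdisc c
      refine ⟨k, ?_⟩
      rw [← hφ, ← _root_.map_pow, ← _root_.map_mul]
      exact hVA _ hk
    | add x y _ _ ihx ihy =>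
      obtain ⟨k₁, h₁⟩ := ihx
      obtain ⟨k₂, h₂⟩ := ihy
      refine ⟨k₁ + k₂, ?_⟩
      have : φ w ^ (k₁ + k₂) * (x + y) = φ w ^ k₂ * (φ w ^ k₁ * x) + φ w ^ k₁ * (φ w ^ k₂ * y) := by
        rw [pow_add]; ring
      rw [this]
      exact A.add_mem (A.mul_mem (A.pow_mem hwA _) h₁) (A.mul_mem (A.pow_mem hwA _) h₂)
    | mul x y _ _ ihx ihy =>
      obtain ⟨k₁, h₁⟩ := ihx
      obtain ⟨k₂, h₂⟩ := ihy
      refine ⟨k₁ + k₂, ?_⟩
      have : φ w ^ (k₁ + k₂) * (x * y) = (φ w ^ k₁ * x) * (φ w ^ k₂ * y) := by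
        rw [pow_add]; ring
      rw [this]
      exact A.mul_mem h₁ h₂
  -- `W ⊆ A`
  have hWA : ∀ b : Ω, v b ≤ 1 → b ∈ A := by
    intro b hb
    have hex := hloc b
    have hk : Nat.find hex = 0 := by
      by_contra hne
      obtain ⟨k, hk⟩ : ∃ k, Nat.find hex = k + 1 := ⟨Nat.find hex - 1, by omega⟩
      have hmem := Nat.find_spec hex
      rw [hk] at hmem
      have hlt : v (φ w ^ (k + 1) * b) < 1 := by
        rw [_root_.map_mul, _root_.map_pow, pow_succ]
        calc v (φ w) ^ k * v (φ w) * v b ≤ 1 * v (φ w) * 1 := by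
              gcongr
              exact pow_le_one₀ zero_le hvw.le
          _ = v (φ w) := by rw [one_mul, mul_one]
          _ < 1 := hvw
      obtain ⟨a', ha', h'⟩ := hdiv _ hmem hlt
      have : φ w ^ k * b = a' := by
        have h6 : φ w * (φ w ^ k * b) = φ w * a' := by rw [← h', pow_succ]; ring
        exact mul_left_cancel₀ hφw0 h6
      have hmin := Nat.find_min hex (m := k) (by omega)
      exact hmin (this ▸ ha')
    have := Nat.find_spec hex
    rwa [hk, pow_zero, one_mul] at this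
  refine ⟨fun b hbW hbinv => ?_, fun b hbW => ?_⟩
  · have hb1 : v b < 1 := valuation_lt_one_of_inv_notMem W hbinv
    obtain ⟨a', ha', h'⟩ := hdiv b (hWA b hb1.le) hb1
    rw [h', mul_comm (φ w), mul_assoc, mul_inv_cancel₀ hφw0, mul_one]
    exact (W.valuation_le_one_iff _).mp (hAW a' ha')
  · obtain ⟨a₀, ha₀, a', ha', h'⟩ := hdec b (hWA b ((W.valuation_le_one_iff _).mpr hbW))
    refine ⟨a₀, ha₀, ?_⟩
    rw [h', add_sub_cancel_left, mul_comm (φ w), mul_assoc, mul_inv_cancel₀ hφw0, mul_one]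
    exact (W.valuation_le_one_iff _).mp (hAW a' ha')

end CycUnram

end Fermat.Agent.A2.H552

end
-- ===== PACK-END A2/H552/KummerUnram.lean

-- ===== PACK-BEGIN A2/H609/RootIdeal.lean
section





/-!
# Node purity, part 1: the root ideals `I_j = {f : u ^ j ∣ f ^ m}`

`R` is an integrally closed domain, `u : R`, `m ≥ 1`.  The set `{f | u ^ j ∣ f ^ m}` is an ideal
(integral closedness), `I_0 = ⊤`, `I_m = (u)`, `I_{j+1} ≤ I_j`, `I_j * I_k ≤ I_{j+k}`.
Mathlib only.
-/

set_option autoImplicit false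

namespace Fermat.Agent.A2.H609

variable {R : Type*} [CommRing R] [IsDomain R] [IsIntegrallyClosed R]

/-- In an integrally closed domain, `a ^ m ∣ b ^ m → a ∣ b`. -/
theorem dvd_of_pow_dvd_pow {m : ℕ} (hm : m ≠ 0) {a b : R} (h : a ^ m ∣ b ^ m) : a ∣ b :=
  (IsIntegrallyClosed.pow_dvd_pow_iff hm).1 h

/-- Key closure property: if `c ∣ f ^ m` and `c ∣ g ^ m` then `c ∣ f ^ i * g ^ (m - i)`. -/
theorem dvd_pow_mul_pow {m : ℕ} (hm : m ≠ 0) {c f g : R} (hf : c ∣ f ^ m) (hg : c ∣ g ^ m)
    {i : ℕ} (hi : i ≤ m) : c ∣ f ^ i * g ^ (m - i) := by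
  apply dvd_of_pow_dvd_pow hm
  have h1 : (f ^ i * g ^ (m - i)) ^ m = (f ^ m) ^ i * (g ^ m) ^ (m - i) := by ring
  have h2 : c ^ m = c ^ i * c ^ (m - i) := by
    rw [← pow_add, Nat.add_sub_cancel' hi]
  rw [h1, h2]
  exact mul_dvd_mul (pow_dvd_pow_of_dvd hf i) (pow_dvd_pow_of_dvd hg (m - i))

/-- The root ideal `I_j = {f | u ^ j ∣ f ^ m}`. -/
def rootIdeal (u : R) (m : ℕ) (hm : m ≠ 0) (j : ℕ) : Ideal R where
  carrier := {f | u ^ j ∣ f ^ m}
  add_mem' := by
    intro f g hf hg
    change u ^ j ∣ f ^ m at hf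
    change u ^ j ∣ g ^ m at hg
    change u ^ j ∣ (f + g) ^ m
    rw [add_pow]
    refine Finset.dvd_sum fun i hi => ?_
    have hi' : i ≤ m := Nat.lt_succ_iff.mp (Finset.mem_range.mp hi)
    exact Dvd.dvd.mul_right (dvd_pow_mul_pow hm hf hg hi') _
  zero_mem' := by
    change u ^ j ∣ (0 : R) ^ m
    rw [zero_pow hm]
    exact dvd_zero _
  smul_mem' := by
    intro c f hf
    change u ^ j ∣ f ^ m at hf
    change u ^ j ∣ (c * f) ^ m
    rw [mul_pow]
    exact Dvd.dvd.mul_left hf _

theorem mem_rootIdeal {u : R} {m : ℕ} {hm : m ≠ 0} {j : ℕ} {f : R} :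
    f ∈ rootIdeal u m hm j ↔ u ^ j ∣ f ^ m := Iff.rfl

theorem rootIdeal_zero (u : R) (m : ℕ) (hm : m ≠ 0) : rootIdeal u m hm 0 = ⊤ := by
  rw [Ideal.eq_top_iff_one, mem_rootIdeal, pow_zero]
  exact one_dvd _

theorem rootIdeal_self (u : R) (m : ℕ) (hm : m ≠ 0) :
    rootIdeal u m hm m = Ideal.span {u} := by
  ext f
  rw [mem_rootIdeal, Ideal.mem_span_singleton]
  exact IsIntegrallyClosed.pow_dvd_pow_iff hm

theorem rootIdeal_antitone (u : R) (m : ℕ) (hm : m ≠ 0) {j k : ℕ} (h : j ≤ k) :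
    rootIdeal u m hm k ≤ rootIdeal u m hm j := by
  intro f hf
  rw [mem_rootIdeal] at hf ⊢
  exact (pow_dvd_pow u h).trans hf

theorem mul_mem_rootIdeal {u : R} {m : ℕ} {hm : m ≠ 0} {j k : ℕ} {f g : R}
    (hf : f ∈ rootIdeal u m hm j) (hg : g ∈ rootIdeal u m hm k) :
    f * g ∈ rootIdeal u m hm (j + k) := by
  rw [mem_rootIdeal] at hf hg ⊢
  rw [mul_pow, pow_add]
  exact mul_dvd_mul hf hg

theorem pow_mem_rootIdeal {u : R} {m : ℕ} {hm : m ≠ 0} {f : R}
    (hf : f ∈ rootIdeal u m hm 1) (j : ℕ) : f ^ j ∈ rootIdeal u m hm j := by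
  rw [mem_rootIdeal] at hf ⊢
  rw [pow_one] at hf
  rw [← pow_mul, mul_comm, pow_mul]
  exact pow_dvd_pow_of_dvd hf j

theorem self_mem_rootIdeal_one (u : R) (m : ℕ) (hm : m ≠ 0) : u ∈ rootIdeal u m hm 1 := by
  rw [mem_rootIdeal, pow_one]
  exact dvd_pow_self u hm

theorem self_mul_mem_rootIdeal_succ {u : R} {m : ℕ} {hm : m ≠ 0} {j : ℕ} {f : R}
    (hf : f ∈ rootIdeal u m hm j) : u * f ∈ rootIdeal u m hm (j + 1) := by
  have := mul_mem_rootIdeal (self_mem_rootIdeal_one u m hm) hf
  rwa [add_comm] at this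

/-- `π`-saturation: if `u` is regular modulo `π` (i.e. `π ∣ u * r → π ∣ r`), then
`π * f ∈ I_j → f ∈ I_j`. -/
theorem mem_rootIdeal_of_mul_mem {u π : R} {m : ℕ} {hm : m ≠ 0} {j : ℕ}
    (hπ0 : π ≠ 0) (hreg : ∀ r : R, π ∣ u * r → π ∣ r) {f : R}
    (hf : π * f ∈ rootIdeal u m hm j) : f ∈ rootIdeal u m hm j := by
  rw [mem_rootIdeal] at hf ⊢
  -- `π ^ k ∣ u ^ j * r → π ^ k ∣ r`
  have hreg_pow : ∀ i : ℕ, ∀ r : R, π ∣ u ^ i * r → π ∣ r := by
    intro i
    induction i with
    | zero => intro r h; simpa using h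
    | succ i ih =>
      intro r h
      apply ih
      apply hreg
      rwa [← mul_assoc, ← pow_succ']
  have hkey : ∀ k : ℕ, ∀ r x : R, π ^ k * x = u ^ j * r → ∃ r', x = u ^ j * r' := by
    intro k
    induction k with
    | zero => intro r x h; exact ⟨r, by simpa using h⟩
    | succ k ih =>
      intro r x h
      have h1 : π ∣ u ^ j * r := ⟨π ^ k * x, by rw [← h]; ring⟩
      obtain ⟨r1, hr1⟩ := hreg_pow j r h1
      apply ih r1 x
      have h2 : π * (π ^ k * x) = π * (u ^ j * r1) := by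
        rw [← mul_assoc, ← pow_succ', h, hr1]; ring
      exact mul_left_cancel₀ hπ0 h2
  obtain ⟨r, hr⟩ := hf
  rw [mul_pow] at hr
  obtain ⟨r', hr'⟩ := hkey m r (f ^ m) hr
  exact ⟨r', hr'⟩

end Fermat.Agent.A2.H609

end
-- ===== PACK-END A2/H609/RootIdeal.lean

-- ===== PACK-BEGIN A2/Mod/H398/LaurentConst.lean
section


/-!
# A2 / MOD leaf L8 (helper398) — constants of a Laurent series field

For ANY field `k`: `k` is algebraically closed in `k((t))`, and a Laurent series of negative order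
is transcendental over `k`.  (Mathlib only.)
-/

set_option autoImplicit false

noncomputable section

namespace Fermat.Agent.A2.Mod.H398

open Polynomial

variable {k : Type*} [Field k]

/-- An element of `k((t))` integral over `k` is a power series. -/
theorem algebraMap_comp_powerSeries :
    (algebraMap (PowerSeries k) (LaurentSeries k)).comp (algebraMap k (PowerSeries k)) =
      algebraMap k (LaurentSeries k) := by
  refine RingHom.ext fun c => ?_
  rw [RingHom.comp_apply, LaurentSeries.coe_algebraMap]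
  exact (HahnSeries.algebraMap_apply' (Γ := ℤ) (R := k) (S := k) c).symm

theorem exists_powerSeries_of_isIntegral {f : LaurentSeries k} (hf : IsIntegral k f) :
    ∃ g : PowerSeries k, (g : LaurentSeries k) = f := by
  obtain ⟨p, hp, hpf⟩ := hf
  have h1 : IsIntegral (PowerSeries k) f :=
    ⟨p.map (algebraMap k (PowerSeries k)), hp.map _, by
      rw [Polynomial.eval₂_map, algebraMap_comp_powerSeries]; exact hpf⟩
  exact IsIntegrallyClosed.isIntegral_iff.mp h1

/-- **`k` is algebraically closed in `k((t))`.** -/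
theorem laurent_mem_range_of_isAlgebraic {f : LaurentSeries k} (hf : IsAlgebraic k f) :
    f ∈ (algebraMap k (LaurentSeries k)).range := by
  obtain ⟨g, hg⟩ := exists_powerSeries_of_isIntegral hf.isIntegral
  set c : k := PowerSeries.constantCoeff g with hc
  have hcf : algebraMap k (LaurentSeries k) c =
      ((PowerSeries.C c : PowerSeries k) : LaurentSeries k) := by
    rw [← algebraMap_comp_powerSeries, RingHom.comp_apply, LaurentSeries.coe_algebraMap]
    rfl
  by_cases h0 : f - algebraMap k (LaurentSeries k) c = 0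
  · exact ⟨c, (sub_eq_zero.mp h0).symm⟩
  · exfalso
    have halg : IsAlgebraic k (f - algebraMap k (LaurentSeries k) c) :=
      hf.sub (isAlgebraic_algebraMap c)
    have halg' : IsAlgebraic k (f - algebraMap k (LaurentSeries k) c)⁻¹ := halg.inv
    obtain ⟨u, hu⟩ := exists_powerSeries_of_isIntegral halg'.isIntegral
    have hmul : ((g - PowerSeries.C c) * u : PowerSeries k) = 1 := by
      have hinj : Function.Injective
          (HahnSeries.ofPowerSeries ℤ k : PowerSeries k → LaurentSeries k) :=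
        HahnSeries.ofPowerSeries_injective
      apply hinj
      rw [map_mul, map_one, map_sub]
      show ((g : LaurentSeries k) - ((PowerSeries.C c : PowerSeries k) : LaurentSeries k)) *
        (u : LaurentSeries k) = 1
      rw [hg, hu, ← hcf]
      exact mul_inv_cancel₀ h0
    have h1 := congrArg PowerSeries.constantCoeff hmul
    rw [map_mul, map_sub, PowerSeries.constantCoeff_C, map_one, ← hc, sub_self, zero_mul] at h1
    exact zero_ne_one h1

/-- A Laurent series of nonzero order is transcendental over the constants. -/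
theorem laurent_transcendental_of_order_ne_zero {f : LaurentSeries k} (hf : f.order ≠ 0) :
    Transcendental k f := by
  intro halg
  obtain ⟨c, hc⟩ := laurent_mem_range_of_isAlgebraic halg
  apply hf
  rw [← hc]
  show (algebraMap k (LaurentSeries k) c).order = 0
  have h1 : algebraMap k (LaurentSeries k) c = HahnSeries.single 0 c := by
    have h2 : algebraMap k (PowerSeries k) c = PowerSeries.C c := by simp
    rw [HahnSeries.algebraMap_apply', h2, HahnSeries.ofPowerSeries_C]
    rfl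
  rw [h1]
  by_cases h : c = 0
  · subst h
    simp
  · exact HahnSeries.order_single h

end Fermat.Agent.A2.Mod.H398

end

end
-- ===== PACK-END A2/Mod/H398/LaurentConst.lean

-- ===== PACK-BEGIN A2/Mod/H398/Conv.lean
section


/-!
# A2 / MOD leaf L8 (helper398) — generic conversions (Mathlib only)

* `finrank_adjoin_simple_eq_relfinrank`: `[F : k(x)]` computed inside `F` equals the relative
  degree `[F : k(x)]` computed inside the ambient field `L`;
* linear independence of the first `n` powers of `a` versus the degree of `a`.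
-/

set_option autoImplicit false

noncomputable section

namespace Fermat.Agent.A2.Mod.H398

open IntermediateField Polynomial

section Conv

variable {k L : Type*} [Field k] [Field L] [Algebra k L]

theorem map_val_adjoin_simple (F : IntermediateField k L) (x : F) :
    (k⟮x⟯).map F.val = k⟮(x : L)⟯ := by
  rw [IntermediateField.adjoin_map, Set.image_singleton]
  rfl

/-- `[F : k(x)]`, computed in `F`, is the relative degree computed in `L`. -/
theorem finrank_adjoin_simple_eq_relfinrank (F : IntermediateField k L) (x : F) :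
    Module.finrank k⟮x⟯ F = (k⟮(x : L)⟯).relfinrank F := by
  rw [← relfinrank_top_right, ← relfinrank_map_map (k⟮x⟯) ⊤ F.val, map_val_adjoin_simple,
    ← AlgHom.fieldRange_eq_map, fieldRange_val]

theorem finiteDimensional_adjoin_simple_of_relfinrank_ne_zero (F : IntermediateField k L) (x : F)
    (h : (k⟮(x : L)⟯).relfinrank F ≠ 0) : FiniteDimensional k⟮x⟯ F := by
  rw [← finrank_adjoin_simple_eq_relfinrank] at h
  exact Module.finite_of_finrank_pos (Nat.pos_of_ne_zero h)

end Conv

section Pow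

variable {F L : Type*} [Field F] [Field L] [Algebra F L]

theorem linearIndependent_pow_of_le {a : L} {n : ℕ}
    (hn : n ≤ (minpoly F a).natDegree) :
    LinearIndependent F (fun i : Fin n => a ^ (i : ℕ)) := by
  have h := linearIndependent_pow (K := F) a
  exact h.comp (Fin.castLE hn) (Fin.castLE_injective hn)

theorem le_natDegree_of_linearIndependent_pow {a : L} (ha : IsIntegral F a) {n : ℕ}
    (h : LinearIndependent F (fun i : Fin n => a ^ (i : ℕ))) :
    n ≤ (minpoly F a).natDegree := by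
  by_contra hlt
  rw [not_le] at hlt
  rw [Fintype.linearIndependent_iff] at h
  have h1 : ∑ i : Fin n, (minpoly F a).coeff i • a ^ (i : ℕ) = 0 := by
    rw [Fin.sum_univ_eq_sum_range (fun i => (minpoly F a).coeff i • a ^ i) n,
      ← aeval_eq_sum_range' hlt, minpoly.aeval]
  have h2 := h (fun i => (minpoly F a).coeff i) h1 ⟨(minpoly F a).natDegree, hlt⟩
  have h3 : (minpoly F a).leadingCoeff = 0 := h2
  rw [(minpoly.monic ha).leadingCoeff] at h3
  exact one_ne_zero h3

theorem isIntegral_of_not_linearIndependent_pow {a : L} {n : ℕ}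
    (h : ¬ LinearIndependent F (fun i : Fin n => a ^ (i : ℕ))) : IsIntegral F a := by
  by_contra hint
  apply h
  have htr : Transcendental F a := fun halg => hint halg.isIntegral
  rw [Fintype.linearIndependent_iff]
  intro g hg i
  have h1 : aeval a (∑ i : Fin n, C (g i) * X ^ (i : ℕ)) = 0 := by
    rw [map_sum, ← hg]
    refine Finset.sum_congr rfl fun i _ => ?_
    rw [map_mul, aeval_C, map_pow, aeval_X, Algebra.smul_def]
  have h2 := (transcendental_iff.mp htr) _ h1
  have h3 := congrArg (fun p : F[X] => p.coeff i) h2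
  simp only [finsetSum_coeff, coeff_C_mul, coeff_X_pow, coeff_zero] at h3
  rw [Finset.sum_eq_single i] at h3
  · simpa using h3
  · intro j _ hji
    rw [if_neg, mul_zero]
    intro h4
    exact hji (Fin.ext h4.symm)
  · intro hi
    exact absurd (Finset.mem_univ i) hi

end Pow

end Fermat.Agent.A2.Mod.H398

end

end
-- ===== PACK-END A2/Mod/H398/Conv.lean

-- ===== PACK-BEGIN S18/Spec.lean
section



/-!
# S18 — frozen interfaces of the row (row-lead helper18)

`F  := modularFunctionFieldBar N ⊆ Q̄((q))`, `F_k := modularFunctionFieldFullC k N ⊆ k((q))`,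
`A ⊆ Q̄` a valuation subring over `ℓ`, `k := A/𝔪`.

* `CoreStatement N A m` : the Kummer-type core (no places of `F_k`, no reduction map `r`).
* `StepAStatement`     : S18 for `(N, A, m)` follows from `CoreStatement N A m` (Prelude unfolding).
-/

set_option autoImplicit false

noncomputable section

namespace Fermat.Agent.S18

open ModularCurve AlgebraicCurve HahnSeries

/-- The field `Q̄`. -/
abbrev Qb : Type := AlgebraicClosure ℚ

/-- `IsInt A N U`: the series `U ∈ A((q))` lies in `F_N` (after `A ⊆ Q̄`) and its coefficientwise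
reduction lies in `F_{N,k}` and is nonzero.  (`O_int ∖ 𝔪` of the plan.) -/
def IsInt (A : ValuationSubring Qb) (N : ℕ) (U : LaurentSeries A) : Prop :=
  coeffMap A.subtype U ∈ modularFunctionFieldBar N ∧
    coeffMap (IsLocalRing.residue A) U ∈
      modularFunctionFieldFullC (IsLocalRing.ResidueField A) N ∧
    coeffMap (IsLocalRing.residue A) U ≠ 0

/-- The element of `F_N` given by an integral series. -/
def toF {A : ValuationSubring Qb} {N : ℕ} {U : LaurentSeries A} (hU : IsInt A N U) :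
    modularFunctionFieldBar N :=
  ⟨coeffMap A.subtype U, hU.1⟩

/-- CORE(N, A, m): two integral series with the same nonzero reduction whose quotient has a
divisor divisible by `m` differ by a constant times an `m`-th power in `F_N`. -/
def CoreStatement (N : ℕ) (A : ValuationSubring Qb) (m : ℕ) : Prop :=
  ∀ (U₁ U₂ : LaurentSeries A) (h₁ : IsInt A N U₁) (h₂ : IsInt A N U₂),
    coeffMap (IsLocalRing.residue A) U₁ = coeffMap (IsLocalRing.residue A) U₂ →
    (∀ v : Place Qb (modularFunctionFieldBar N),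
      (m : ℤ) ∣ v.ord (toF h₁) - v.ord (toF h₂)) →
    ∃ (c : Qb) (y : modularFunctionFieldBar N), c ≠ 0 ∧ y ≠ 0 ∧
      toF h₁ = algebraMap Qb (modularFunctionFieldBar N) c * y ^ m * toF h₂

/-- Step A (Prelude unfolding): S18 at `(N, A, m)` from CORE at `(N, A, m)`.
Uses the hypothesis `h` (place reduction `r` with (i),(ii) and PGI (iii)). -/
def StepAStatement (N : ℕ) [NeZero N] (A : ValuationSubring Qb) (m : ℕ) : Prop :=
  CoreStatement N A m →
    ∀ (_h : ModularCurve.ReductionInputsModL A N) (z : ModularCurve.JZero N),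
      m • z = 0 → ModularCurve.reductionModL A N z = 0 → z = 0

end Fermat.Agent.S18

end
end
-- ===== PACK-END S18/Spec.lean

-- ===== PACK-BEGIN S18/H274/Dedekind.lean
section


/-!
# S18 / b2 (helper274) — a Bezout-type splitting in Dedekind domains

Mathlib-only.  For `p q : C` in a Dedekind domain with `q ≠ 0` (think of the fraction `u = p/q`),
the fractional ideal `C + C u` is invertible; unwinding `1 ∈ (C + C u) (C + C u)⁻¹` gives
elements `β₀ β₀' z z₁ : C` with

  `β₀ + z = 1`,  `z * q = β₀' * p`  (`z = β₀' u`),  `z₁ * q = β₀ * p`  (`z₁ = β₀ u`).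

This is the only place where the TAME discriminant bound uses that `C` is integrally closed.
-/

namespace Fermat.Agent.S18.H274

open scoped nonZeroDivisors

theorem exists_split_of_isDedekindDomain {C : Type*} [CommRing C] [IsDedekindDomain C]
    (p q : C) (hq : q ≠ 0) :
    ∃ β₀ β₀' z z₁ : C, β₀ + z = 1 ∧ z * q = β₀' * p ∧ z₁ * q = β₀ * p := by
  classical
  let K := FractionRing C
  have hinj : Function.Injective (algebraMap C K) := IsFractionRing.injective C K
  have hqK : algebraMap C K q ≠ 0 := fun h => hq (hinj (by rw [h, map_zero]))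
  let u : K := algebraMap C K p / algebraMap C K q
  let 𝔟 : FractionalIdeal C⁰ K := 1 + FractionalIdeal.spanSingleton C⁰ u
  have h1𝔟 : (1 : K) ∈ 𝔟 := by
    rw [FractionalIdeal.mem_add]
    exact ⟨1, FractionalIdeal.one_mem_one _, 0, Submodule.zero_mem _, add_zero 1⟩
  have hu𝔟 : u ∈ 𝔟 := by
    rw [FractionalIdeal.mem_add]
    exact ⟨0, Submodule.zero_mem _, u, FractionalIdeal.mem_spanSingleton_self _ u, zero_add u⟩
  have h𝔟 : 𝔟 ≠ 0 := by
    intro h
    rw [h] at h1𝔟
    exact one_ne_zero ((FractionalIdeal.mem_zero_iff _).mp h1𝔟)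
  have hinv : 𝔟 * 𝔟⁻¹ = 1 := mul_inv_cancel₀ h𝔟
  have h1 : (1 : K) ∈ 𝔟 * 𝔟⁻¹ := by
    rw [hinv]
    exact FractionalIdeal.one_mem_one _
  have hsplit : 𝔟 * 𝔟⁻¹ = 𝔟⁻¹ + FractionalIdeal.spanSingleton C⁰ u * 𝔟⁻¹ := by
    simp only [𝔟, add_mul, one_mul]
  rw [hsplit, FractionalIdeal.mem_add] at h1
  obtain ⟨p₁, hp₁, q₁, hq₁, hsum⟩ := h1
  rw [FractionalIdeal.mem_singleton_mul] at hq₁
  obtain ⟨β', hβ', rfl⟩ := hq₁
  rw [FractionalIdeal.mem_inv_iff h𝔟] at hp₁ hβ'
  obtain ⟨β₀, hβ₀⟩ := (FractionalIdeal.mem_one_iff _).mp (hp₁ 1 h1𝔟)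
  obtain ⟨z₁, hz₁⟩ := (FractionalIdeal.mem_one_iff _).mp (hp₁ u hu𝔟)
  obtain ⟨β₀', hβ₀'⟩ := (FractionalIdeal.mem_one_iff _).mp (hβ' 1 h1𝔟)
  obtain ⟨z, hz⟩ := (FractionalIdeal.mem_one_iff _).mp (hβ' u hu𝔟)
  rw [mul_one] at hβ₀ hβ₀'
  refine ⟨β₀, β₀', z, z₁, ?_, ?_, ?_⟩
  · apply hinj
    rw [map_add, map_one, hβ₀, hz, ← hsum, mul_comm]
  · apply hinj
    rw [map_mul, map_mul, hz, hβ₀']
    simp only [u]
    rw [mul_assoc, div_mul_cancel₀ _ hqK]
  · apply hinj
    rw [map_mul, map_mul, hz₁, hβ₀]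
    simp only [u]
    rw [mul_assoc, div_mul_cancel₀ _ hqK]

end Fermat.Agent.S18.H274

end
-- ===== PACK-END S18/H274/Dedekind.lean

-- ===== PACK-BEGIN S18/H438/Front/Chart.lean
section


/-!
# S18 / ALG-FRONT (helper438), part 1: the chart algebra `B = integral closure of R[z] in F`

Setting: `F` a field of characteristic `0`, `R : Subring F` a discrete valuation ring,
`z : F` transcendental over `R`, `F` finite over `Frac (R[z])`.

* `baseRing R z   := Algebra.adjoin R {z}`           (`R[z] ⊆ F`, isomorphic to `R[X]`)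
* `chartRing R z  := integralClosure (R[z]) F`      (the chart `B`)

All instances needed by the Kummer pieces (`H754/KummerSpec.lean`) are provided:
`IsNoetherianRing B`, `IsIntegrallyClosed B`, `IsFractionRing B F`, `Module.Finite R[z] B`.
-/

set_option autoImplicit false
set_option linter.style.haveILetI false
set_option linter.unusedSectionVars false

noncomputable section

namespace Fermat.Agent.S18.H438

open Polynomial

variable {F : Type*} [Field F]

/-- The base ring `R[z] ⊆ F`. -/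
abbrev baseRing (R : Subring F) (z : F) : Subalgebra R F := Algebra.adjoin R {z}

/-- The chart: the integral closure of `R[z]` in `F`. -/
abbrev chartRing (R : Subring F) (z : F) : Subalgebra (baseRing R z) F :=
  integralClosure (baseRing R z) F

variable (R : Subring F) (z : F)

theorem self_mem_baseRing : z ∈ baseRing R z := Algebra.self_mem_adjoin_singleton R z

theorem coe_mem_baseRing (r : R) : (r : F) ∈ baseRing R z := (baseRing R z).algebraMap_mem r

/-- `R[X] ≃ R[z]` for transcendental `z`. -/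
def baseEquiv (hz : Transcendental R z) : Polynomial R ≃ₐ[R] baseRing R z :=
  Polynomial.algEquivOfTranscendental R z hz

theorem baseEquiv_apply_coe (hz : Transcendental R z) (f : Polynomial R) :
    ((baseEquiv R z hz f : baseRing R z) : F) = Polynomial.aeval z f := by
  unfold baseEquiv
  rw [Polynomial.algEquivOfTranscendental_apply]
  have : (Polynomial.aeval (⟨z, Algebra.self_mem_adjoin_singleton R z⟩ : baseRing R z) f : F) =
      (baseRing R z).val (Polynomial.aeval (⟨z, Algebra.self_mem_adjoin_singleton R z⟩ :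
        baseRing R z) f) := rfl
  rw [this, ← Polynomial.aeval_algHom_apply]
  rfl

theorem baseRing_isNoetherianRing (hz : Transcendental R z) [IsNoetherianRing R] :
    IsNoetherianRing (baseRing R z) :=
  isNoetherianRing_of_ringEquiv (Polynomial R) (baseEquiv R z hz).toRingEquiv

theorem baseRing_isIntegrallyClosed (hz : Transcendental R z) [IsIntegrallyClosed (Polynomial R)] :
    IsIntegrallyClosed (baseRing R z) :=
  IsIntegrallyClosed.of_equiv (baseEquiv R z hz).toRingEquiv

/-- Every element of `R[z]` is a polynomial in `z`. -/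
theorem exists_aeval_eq_of_mem_baseRing {f : F} (hf : f ∈ baseRing R z) :
    ∃ P : Polynomial R, Polynomial.aeval z P = f :=
  (Algebra.adjoin_mem_exists_aeval R z hf)

section Instances

attribute [local instance] FractionRing.liftAlgebra

variable [CharZero F]

/-- The fraction field of `R[z]` is of characteristic zero. -/
theorem charZero_fractionRing_baseRing : CharZero (FractionRing (baseRing R z)) := by
  have : CharZero (baseRing R z) := RingHom.charZero (algebraMap (baseRing R z) F)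
  exact charZero_of_injective_algebraMap
    (IsFractionRing.injective (baseRing R z) (FractionRing (baseRing R z)))

variable [hfin : FiniteDimensional (FractionRing (baseRing R z)) F]

theorem chartRing_isFractionRing : IsFractionRing (chartRing R z) F :=
  integralClosure.isFractionRing_of_finite_extension (FractionRing (baseRing R z)) F

theorem chartRing_isIntegrallyClosed : IsIntegrallyClosed (chartRing R z) :=
  integralClosure.isIntegrallyClosedOfFiniteExtension (FractionRing (baseRing R z))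

theorem isSeparable_fractionRing_baseRing :
    Algebra.IsSeparable (FractionRing (baseRing R z)) F := by
  haveI := charZero_fractionRing_baseRing R z
  exact Algebra.IsAlgebraic.isSeparable_of_perfectField

variable [IsDiscreteValuationRing R]

theorem chartRing_isNoetherianRing (hz : Transcendental R z) :
    IsNoetherianRing (chartRing R z) := by
  haveI := baseRing_isNoetherianRing R z hz
  haveI := baseRing_isIntegrallyClosed R z hz
  haveI := isSeparable_fractionRing_baseRing R z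
  exact integralClosure.isNoetherianRing (K := FractionRing (baseRing R z)) F

theorem chartRing_finite (hz : Transcendental R z) :
    Module.Finite (baseRing R z) (chartRing R z) := by
  haveI := baseRing_isNoetherianRing R z hz
  haveI := baseRing_isIntegrallyClosed R z hz
  haveI := isSeparable_fractionRing_baseRing R z
  exact IsIntegralClosure.finite (baseRing R z) (FractionRing (baseRing R z)) F (chartRing R z)

end Instances

end Fermat.Agent.S18.H438

end
end
-- ===== PACK-END S18/H438/Front/Chart.lean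

-- ===== PACK-BEGIN S18/H754/HncRadical.lean
section


/-!
# S18 / ALG-FRONT / hNC adapter, part N1: a radical criterion for principal ideals

`B` a Noetherian integrally closed domain, `π ≠ 0`.  If `π` generates `𝔓 B_𝔓` for every height-one
prime `𝔓 ∋ π` (elementwise: `∀ b ∈ 𝔓, ∃ s ∉ 𝔓, π ∣ s * b`), then `(π)` is a radical ideal.

Proof: an associated prime `P = (π : c)` of `B/π` is of height one (`y = c/π` satisfies
`y P ⊆ B`, `y P ⊄ P` by integral closedness, so `P` is locally principal; Krull).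
-/

set_option autoImplicit false

noncomputable section

namespace Fermat.Agent.S18.H754

section Radical

variable {B : Type*} [CommRing B] [IsDomain B] [IsNoetherianRing B] [IsIntegrallyClosed B]

/-- An associated prime of `B/π` (`B` Noetherian normal domain, `π ≠ 0`) has height one. -/
theorem height_eq_one_of_eq_colon (π c : B) (hπ : π ≠ 0) (hc : ¬ π ∣ c)
    (P : Ideal B) (hP : P.IsPrime) (hPc : ∀ s : B, s ∈ P ↔ π ∣ s * c) : P.height = 1 := by
  classical
  have hπP : π ∈ P := (hPc π).2 (Dvd.intro _ rfl)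
  -- the map `φ : P → B`, `t ↦ t c / π`
  have hφ : ∀ t ∈ P, ∃ d : B, t * c = π * d := fun t ht => (hPc t).1 ht
  -- there is `a ∈ P` with `a c / π ∉ P`
  have hex : ∃ a ∈ P, ∃ s : B, s ∉ P ∧ a * c = π * s := by
    by_contra hcon
    -- then `y = c / π` stabilises `P`, hence is integral, hence lies in `B`
    let F := FractionRing B
    have hinj : Function.Injective (algebraMap B F) := IsFractionRing.injective B F
    have hπF : algebraMap B F π ≠ 0 := fun h => hπ (hinj (by rw [h, map_zero]))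
    set y : F := algebraMap B F c / algebraMap B F π with hy
    let N : Submodule B F := Submodule.map (Algebra.linearMap B F) P
    have hN0 : N ≠ ⊥ := by
      intro h
      have : algebraMap B F π ∈ N := ⟨π, hπP, rfl⟩
      rw [h, Submodule.mem_bot] at this
      exact hπF this
    have hNfg : N.FG := Submodule.FG.map _ (IsNoetherian.noetherian P)
    have hstab : ∀ n ∈ N, y • n ∈ N := by
      rintro n ⟨t, ht, rfl⟩
      obtain ⟨d, hd⟩ := hφ t ht
      have hdP : d ∈ P := by
        by_contra hdP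
        exact hcon ⟨t, ht, d, hdP, hd⟩
      refine ⟨d, hdP, ?_⟩
      simp only [Algebra.linearMap_apply, smul_eq_mul, hy]
      have := congrArg (algebraMap B F) hd
      simp only [map_mul] at this
      rw [div_mul_eq_mul_div, eq_div_iff hπF, mul_comm (algebraMap B F d), ← this]
      ring
    have hint : IsIntegral B y := isIntegral_of_smul_mem_submodule N hN0 hNfg y hstab
    obtain ⟨y', hy'⟩ := IsIntegrallyClosed.isIntegral_iff.1 hint
    apply hc
    refine ⟨y', ?_⟩
    apply hinj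
    rw [map_mul, hy', hy, mul_div_assoc', mul_div_cancel_left₀ _ hπF]
  obtain ⟨a, haP, s, hsP, has⟩ := hex
  -- `s P ⊆ a B`
  have hsP' : ∀ t ∈ P, a ∣ s * t := by
    intro t ht
    obtain ⟨d, hd⟩ := hφ t ht
    refine ⟨d, ?_⟩
    have h1 : π * (s * t) = π * (a * d) := by
      calc π * (s * t) = (π * s) * t := by ring
        _ = (a * c) * t := by rw [has]
        _ = a * (t * c) := by ring
        _ = a * (π * d) := by rw [hd]
        _ = π * (a * d) := by ring
    exact mul_left_cancel₀ hπ h1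
  -- `P` is minimal over `(a)`
  have hmin : P ∈ (Ideal.span {a}).minimalPrimes := by
    refine ⟨⟨hP, (Ideal.span_singleton_le_iff_mem _).2 haP⟩, ?_⟩
    rintro Q ⟨hQ, haQ⟩ hQP t ht
    have h1 : s * t ∈ Q := by
      obtain ⟨d, hd⟩ := hsP' t ht
      rw [hd]
      exact Ideal.mul_mem_right _ _ ((Ideal.span_singleton_le_iff_mem _).1 haQ)
    rcases hQ.mem_or_mem h1 with h2 | h2
    · exact absurd (hQP h2) hsP
    · exact h2
  apply le_antisymm
  · exact Ideal.height_le_one_of_isPrincipal_of_mem_minimalPrimes (Ideal.span {a}) P hmin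
  · rw [Order.one_le_iff_pos, pos_iff_ne_zero]
    intro h0
    haveI := hP
    rw [Ideal.height_eq_zero_iff, IsDomain.minimalPrimes_eq_singleton_bot] at h0
    rw [Set.mem_singleton_iff] at h0
    rw [h0, Ideal.mem_bot] at hπP
    exact hπ hπP

/-- **Radical criterion.**  If `π` generates `𝔓 B_𝔓` at every height-one prime `𝔓 ∋ π`, then
`(π)` is radical. -/
theorem isRadical_span_singleton_of_local_gen (π : B) (hπ : π ≠ 0)
    (h : ∀ 𝔓 : Ideal B, 𝔓.IsPrime → 𝔓.height = 1 → π ∈ 𝔓 →
      ∀ b ∈ 𝔓, ∃ s : B, s ∉ 𝔓 ∧ π ∣ s * b) :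
    (Ideal.span {π}).IsRadical := by
  classical
  intro b hb
  obtain ⟨n, hn⟩ := hb
  by_contra hbπ
  have hx : (Ideal.Quotient.mk (Ideal.span {π}) b) ≠ 0 := by
    rwa [Ne, Ideal.Quotient.eq_zero_iff_mem]
  obtain ⟨P, hPass, hle⟩ :=
    exists_le_isAssociatedPrime_of_isNoetherianRing B (M := B ⧸ Ideal.span {π}) _ hx
  rw [isAssociatedPrime_iff] at hPass
  obtain ⟨hP, x, hPx⟩ := hPass
  obtain ⟨c, rfl⟩ := Ideal.Quotient.mk_surjective x
  have hPc : ∀ s : B, s ∈ P ↔ π ∣ s * c := by
    intro s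
    rw [hPx, Submodule.mem_colon_singleton, Submodule.mem_bot]
    rw [← Ideal.mem_span_singleton, ← Ideal.Quotient.eq_zero_iff_mem, map_mul]
    rfl
  have hc : ¬ π ∣ c := by
    intro hd
    apply hP.ne_top
    rw [Ideal.eq_top_iff_one, hPc, one_mul]
    exact hd
  have hht : P.height = 1 := height_eq_one_of_eq_colon π c hπ hc P hP hPc
  have hπP : π ∈ P := (hPc π).2 (Dvd.intro _ rfl)
  have hbP : b ∈ P := by
    have h1 : b ^ n ∈ P := by
      rw [Ideal.mem_span_singleton] at hn
      obtain ⟨d, hd⟩ := hn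
      rw [hd]
      exact Ideal.mul_mem_right _ _ hπP
    exact hP.mem_of_pow_mem n h1
  obtain ⟨s, hsP, hs⟩ := h P hP hht hπP b hbP
  apply hsP
  apply hle
  rw [Submodule.mem_colon_singleton, Submodule.mem_bot]
  change Ideal.Quotient.mk (Ideal.span {π}) (s * b) = 0
  rw [Ideal.Quotient.eq_zero_iff_mem, Ideal.mem_span_singleton]
  exact hs

end Radical

end Fermat.Agent.S18.H754

end

end
-- ===== PACK-END S18/H754/HncRadical.lean

-- ===== PACK-BEGIN S18/H264/SepLaurent.lean
section


/-!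
# S18 / G-SEP core (helper264): subfields of `κ((q))` are separable over `κ(x)`

Mathlib-only.  Let `κ` be a perfect field of characteristic `p`, and `x ∈ κ((q))` a Laurent
series whose `q`-order is prime to `p` (e.g. `x = j̄, t̄₂, t̄₃`, of order `-1`).  Then every
`y ∈ κ((q))` that is algebraic over `κ(x)` is separable over `κ(x)`.

Main statements (namespace `Fermat.Agent.S18.H264`):

* `isSeparable_of_isAlgebraic_of_addVal` : abstract form, for a field `L ⊇ κ` with an additive
  valuation `v : AddValuation L (WithTop ℤ)` and `p ∤ v x`.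
* `isSeparable_laurent` : the Laurent series form, hypothesis `¬ (p : ℤ) ∣ x.order`.
* `isSeparable_laurent_of_order_eq_neg_one` : the same for `x.order = -1`.
* `exists_poly_simple_root_laurent` : liftable polynomial form, `∃ P ∈ κ[X][Y]` with
  `P(x, y) = 0` and `(∂P/∂Y)(x, y) ≠ 0`.

Proof: `1, x, …, x^(p-1)` is a `p`-basis: every element of `κ(x)` is `∑_{r<p} x^r b_r^p`
(`κ` perfect), and `∑_{r<p} x^r z_r^p = 0` in `L` forces all `z_r = 0` (the valuations of the
nonzero terms are pairwise distinct mod `p`).  If the minimal polynomial `g` of `y` were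
inseparable, `g = h(Y^p)`, `h = ∑_r x^r h_r^{(p)}`, so `0 = h(y^p) = ∑_r x^r (h_r(y))^p`, whence
`h_r(y) = 0` with `deg h_r < deg g`, so `h_r = 0`, `h = 0`: contradiction.
-/

set_option autoImplicit false

namespace Fermat.Agent.S18.H264

open Polynomial

section Valuation

variable {L : Type*} [Field L] (v : AddValuation L (WithTop ℤ))

/-- Finitely many nonzero terms with pairwise distinct valuations cannot sum to zero. -/
theorem sum_ne_zero_of_val_injOn {ι : Type*} (s : Finset ι) (f : ι → L) (hs : s.Nonempty)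
    (hne : ∀ i ∈ s, f i ≠ 0) (hinj : ∀ i ∈ s, ∀ j ∈ s, v (f i) = v (f j) → i = j) :
    ∑ i ∈ s, f i ≠ 0 := by
  classical
  obtain ⟨i₀, hi₀, hmin⟩ := Finset.exists_min_image s (fun i => v (f i)) hs
  have hlt : ∀ i ∈ s.erase i₀, v (f i₀) < v (f i) := by
    intro i hi
    rw [Finset.mem_erase] at hi
    exact lt_of_le_of_ne (hmin i hi.2) (fun h => hi.1 (hinj _ hi₀ _ hi.2 h).symm)
  have htop : v (f i₀) ≠ ⊤ := by
    rw [Ne, AddValuation.top_iff]
    exact hne i₀ hi₀
  have hrest : v (f i₀) < v (∑ i ∈ s.erase i₀, f i) := AddValuation.map_lt_sum v htop hlt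
  rw [← Finset.add_sum_erase s f hi₀]
  intro h0
  have h1 := AddValuation.map_add_eq_of_lt_left v hrest
  rw [h0, AddValuation.map_zero] at h1
  exact htop h1.symm

/-- `1, x, …, x^(p-1)` are linearly independent over `L^p` when `p ∤ v x`. -/
theorem eq_zero_of_sum_pow_mul_pow_eq_zero (p : ℕ) (hp : p.Prime) (x : L) (n : ℤ)
    (hx : v x = (n : WithTop ℤ)) (hn : ¬ (p : ℤ) ∣ n) (z : ℕ → L)
    (h : ∑ r ∈ Finset.range p, x ^ r * z r ^ p = 0) : ∀ r < p, z r = 0 := by
  classical
  by_contra hcon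
  push Not at hcon
  obtain ⟨r₁, hr₁, hz₁⟩ := hcon
  have hx0 : x ≠ 0 := by
    intro h0
    rw [h0, AddValuation.map_zero] at hx
    exact WithTop.top_ne_coe hx
  set s := (Finset.range p).filter (fun r => z r ≠ 0) with hs
  have hsum : ∑ r ∈ s, x ^ r * z r ^ p = 0 := by
    have h1 : ∑ r ∈ s, x ^ r * z r ^ p = ∑ r ∈ Finset.range p, x ^ r * z r ^ p := by
      rw [hs, Finset.sum_filter]
      refine Finset.sum_congr rfl fun r _ => ?_
      by_cases hz : z r = 0
      · simp [hz, hp.ne_zero]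
      · simp [hz]
    rw [h1, h]
  have hval : ∀ r ∈ s, ∃ a : ℤ, v (x ^ r * z r ^ p) = ((r * n + p * a : ℤ) : WithTop ℤ) := by
    intro r hr
    have hz : z r ≠ 0 := (Finset.mem_filter.mp hr).2
    have hzt : v (z r) ≠ ⊤ := by rw [Ne, AddValuation.top_iff]; exact hz
    obtain ⟨a, ha⟩ := WithTop.ne_top_iff_exists.mp hzt
    refine ⟨a, ?_⟩
    rw [AddValuation.map_mul, AddValuation.map_pow, AddValuation.map_pow, hx, ← ha]
    rw [← WithTop.coe_nsmul, ← WithTop.coe_nsmul, ← WithTop.coe_add, nsmul_eq_mul, nsmul_eq_mul]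
  refine sum_ne_zero_of_val_injOn v s _ ⟨r₁, Finset.mem_filter.mpr ⟨Finset.mem_range.mpr hr₁, hz₁⟩⟩
    ?_ ?_ hsum
  · intro r hr
    have hz : z r ≠ 0 := (Finset.mem_filter.mp hr).2
    exact mul_ne_zero (pow_ne_zero _ hx0) (pow_ne_zero _ hz)
  · intro r hr r' hr' hrr'
    obtain ⟨a, ha⟩ := hval r hr
    obtain ⟨a', ha'⟩ := hval r' hr'
    rw [ha, ha', WithTop.coe_eq_coe] at hrr'
    have hrp : r < p := Finset.mem_range.mp (Finset.mem_filter.mp hr).1
    have hrp' : r' < p := Finset.mem_range.mp (Finset.mem_filter.mp hr').1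
    have hdvd : (p : ℤ) ∣ ((r : ℤ) - r') * n := ⟨a' - a, by linarith⟩
    have hdvd' : (p : ℤ) ∣ (r : ℤ) - r' :=
      ((Nat.prime_iff_prime_int.mp hp).dvd_or_dvd hdvd).resolve_right hn
    have h0 : (r : ℤ) - r' = 0 := by
      apply Int.eq_zero_of_abs_lt_dvd hdvd'
      rw [abs_lt]
      constructor <;> omega
    omega

end Valuation

section Decomp

variable {κ : Type*} [Field κ] [PerfectField κ] (p : ℕ) [hp : Fact p.Prime] [CharP κ p]

/-- Every polynomial over a perfect field of characteristic `p` is `∑_{r<p} X^r c_r^p`. -/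
theorem exists_pBasis_decomp_poly (w : κ[X]) :
    ∃ c : ℕ → κ[X], w = ∑ r ∈ Finset.range p, X ^ r * c r ^ p := by
  induction w using Polynomial.induction_on' with
  | add w₁ w₂ h₁ h₂ =>
    obtain ⟨c₁, hc₁⟩ := h₁
    obtain ⟨c₂, hc₂⟩ := h₂
    refine ⟨fun r => c₁ r + c₂ r, ?_⟩
    have h : ∀ r, X ^ r * (c₁ r + c₂ r) ^ p = X ^ r * c₁ r ^ p + X ^ r * c₂ r ^ p := by
      intro r
      rw [add_pow_char, mul_add]
    simp only [h, Finset.sum_add_distrib]
    rw [← hc₁, ← hc₂]
  | monomial n a =>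
    refine ⟨fun r => if r = n % p then monomial (n / p) ((frobeniusEquiv κ p).symm a) else 0, ?_⟩
    rw [Finset.sum_eq_single (n % p)]
    · simp only [if_true]
      rw [monomial_pow, X_pow_mul_monomial, frobeniusEquiv_symm_pow_p, Nat.div_add_mod' n p]
    · intro r _ hr
      simp only [if_neg hr]
      rw [zero_pow hp.out.ne_zero, mul_zero]
    · intro h
      exact absurd (Finset.mem_range.mpr (Nat.mod_lt _ hp.out.pos)) h

/-- Every element of `κ(x)` is `∑_{r<p} x^r b_r^p` with `b_r ∈ κ(x)` (`κ` perfect). -/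
theorem exists_pBasis_decomp {L : Type*} [Field L] [Algebra κ L] (x : L) (a : L)
    (ha : a ∈ IntermediateField.adjoin κ {x}) :
    ∃ b : ℕ → L, (∀ r, b r ∈ IntermediateField.adjoin κ {x}) ∧
      a = ∑ r ∈ Finset.range p, x ^ r * b r ^ p := by
  obtain ⟨u, w, rfl⟩ := (IntermediateField.mem_adjoin_simple_iff κ a).mp ha
  by_cases hw : aeval x w = 0
  · refine ⟨fun _ => 0, fun _ => zero_mem _, ?_⟩
    simp [hw, hp.out.ne_zero]
  · obtain ⟨c, hc⟩ := exists_pBasis_decomp_poly p (u * w ^ (p - 1))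
    refine ⟨fun r => aeval x (c r) / aeval x w, fun r => ?_, ?_⟩
    · exact (IntermediateField.mem_adjoin_simple_iff κ _).mpr ⟨c r, w, rfl⟩
    · have hpp : p - 1 + 1 = p := Nat.sub_add_cancel hp.out.one_le
      have h1 : aeval x u / aeval x w = aeval x (u * w ^ (p - 1)) / (aeval x w) ^ p := by
        rw [map_mul, map_pow, eq_div_iff (pow_ne_zero _ hw), div_mul_eq_mul_div,
          div_eq_iff hw, mul_assoc, ← pow_succ, hpp]
      rw [h1, hc, map_sum, Finset.sum_div]
      refine Finset.sum_congr rfl fun r _ => ?_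
      rw [map_mul, map_pow, map_pow, aeval_X, div_pow, mul_div_assoc]

end Decomp

section Main

variable {κ L : Type*} [Field κ] [PerfectField κ] [Field L] [Algebra κ L]
  (p : ℕ) [hp : Fact p.Prime] [CharP κ p]

/-- **Separability from a valuation** (abstract form).  `κ` perfect of characteristic `p`,
`L ⊇ κ` a field with a `ℤ`-valued additive valuation `v`, `x ∈ L` with `p ∤ v x`.  Then every
`y ∈ L` algebraic over `κ(x)` is separable over `κ(x)`. -/
theorem isSeparable_of_isAlgebraic_of_addVal (v : AddValuation L (WithTop ℤ)) (x : L) (n : ℤ)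
    (hx : v x = (n : WithTop ℤ)) (hn : ¬ (p : ℤ) ∣ n) (y : L)
    (hy : IsAlgebraic (IntermediateField.adjoin κ {x}) y) :
    IsSeparable (IntermediateField.adjoin κ {x}) y := by
  classical
  have : CharP (IntermediateField.adjoin κ {x}) p :=
    charP_of_injective_algebraMap (algebraMap κ (IntermediateField.adjoin κ {x})).injective p
  have : CharP L p := charP_of_injective_algebraMap (algebraMap κ L).injective p
  have hint : IsIntegral (IntermediateField.adjoin κ {x}) y := hy.isIntegral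
  have hirr := minpoly.irreducible hint
  rcases Polynomial.separable_or p hirr with hsep | ⟨_, h, hh, hexp⟩
  · exact hsep
  exfalso
  have h0 : aeval (y ^ p) h = 0 := by
    rw [← expand_aeval, hexp, minpoly.aeval]
  have hdec : ∀ i : ℕ, ∃ b : ℕ → L, (∀ r, b r ∈ IntermediateField.adjoin κ {x}) ∧
      ((h.coeff i : IntermediateField.adjoin κ {x}) : L) =
        ∑ r ∈ Finset.range p, x ^ r * b r ^ p :=
    fun i => exists_pBasis_decomp p x _ (h.coeff i).2
  choose b hbE hb using hdec
  set H : ℕ → (IntermediateField.adjoin κ {x})[X] := fun r =>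
    ∑ i ∈ Finset.range (h.natDegree + 1),
      monomial i (⟨b i r, hbE i r⟩ : IntermediateField.adjoin κ {x}) with hH
  have haev : ∀ r, aeval y (H r) = ∑ i ∈ Finset.range (h.natDegree + 1), b i r * y ^ i := by
    intro r
    rw [hH]
    simp only [map_sum, aeval_monomial]
    rfl
  have hsum : ∑ r ∈ Finset.range p, x ^ r * (aeval y (H r)) ^ p = 0 := by
    calc ∑ r ∈ Finset.range p, x ^ r * (aeval y (H r)) ^ p
        = ∑ r ∈ Finset.range p, ∑ i ∈ Finset.range (h.natDegree + 1),
            x ^ r * b i r ^ p * (y ^ p) ^ i := by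
          refine Finset.sum_congr rfl fun r _ => ?_
          rw [haev, sum_pow_char, Finset.mul_sum]
          refine Finset.sum_congr rfl fun i _ => ?_
          rw [mul_pow, ← pow_mul, ← pow_mul, mul_comm i p, mul_assoc]
      _ = ∑ i ∈ Finset.range (h.natDegree + 1),
            (∑ r ∈ Finset.range p, x ^ r * b i r ^ p) * (y ^ p) ^ i := by
          rw [Finset.sum_comm]
          refine Finset.sum_congr rfl fun i _ => ?_
          rw [Finset.sum_mul]
      _ = aeval (y ^ p) h := by
          rw [aeval_eq_sum_range]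
          refine Finset.sum_congr rfl fun i _ => ?_
          rw [← hb i, Algebra.smul_def]
          rfl
      _ = 0 := h0
  have hz := eq_zero_of_sum_pow_mul_pow_eq_zero v p hp.out x n hx hn
    (fun r => aeval y (H r)) hsum
  have hdegH : ∀ r, (H r).natDegree ≤ h.natDegree := by
    intro r
    rw [hH]
    refine natDegree_sum_le_of_forall_le _ _ fun i hi => ?_
    exact (natDegree_monomial_le _).trans (Nat.lt_succ_iff.mp (Finset.mem_range.mp hi))
  have hdegh : 0 < h.natDegree := hh.natDegree_pos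
  have hdegm : (minpoly (IntermediateField.adjoin κ {x}) y).natDegree = h.natDegree * p := by
    rw [← hexp, natDegree_expand]
  have hzero : ∀ r < p, H r = 0 := by
    intro r hrp
    by_contra hne
    have h1 := natDegree_le_natDegree
      (minpoly.degree_le_of_ne_zero (IntermediateField.adjoin κ {x}) y hne (hz r hrp))
    have h2 := hdegH r
    have h3 : h.natDegree * 2 ≤ h.natDegree * p := Nat.mul_le_mul_left _ hp.out.two_le
    omega
  have hbzero : ∀ i ≤ h.natDegree, ∀ r < p, b i r = 0 := by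
    intro i hi r hrp
    have h1 : (H r).coeff i = 0 := by rw [hzero r hrp, coeff_zero]
    rw [hH] at h1
    simp only [finsetSum_coeff, coeff_monomial] at h1
    rw [Finset.sum_eq_single i] at h1
    · rw [if_pos rfl] at h1
      exact congrArg Subtype.val h1
    · intro j _ hj
      rw [if_neg hj]
    · intro hi'
      exact absurd (Finset.mem_range.mpr (Nat.lt_succ_iff.mpr hi)) hi'
  apply hh.ne_zero
  refine Polynomial.ext fun i => ?_
  rw [coeff_zero]
  by_cases hi : i ≤ h.natDegree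
  · apply Subtype.ext
    rw [hb i, ZeroMemClass.coe_zero]
    refine Finset.sum_eq_zero fun r hr => ?_
    rw [hbzero i hi r (Finset.mem_range.mp hr), zero_pow hp.out.ne_zero, mul_zero]
  · exact coeff_eq_zero_of_natDegree_lt (not_le.mp hi)

end Main

section Laurent

variable {κ : Type*} [Field κ] [PerfectField κ] (p : ℕ) [hp : Fact p.Prime] [CharP κ p]

/-- **G-SEP core.**  `κ` perfect of characteristic `p`, `x ∈ κ((q))` of `q`-order prime to `p`.
Every `y ∈ κ((q))` algebraic over `κ(x)` is separable over `κ(x)`. -/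
theorem isSeparable_laurent (x y : LaurentSeries κ) (hx : ¬ (p : ℤ) ∣ x.order)
    (hy : IsAlgebraic (IntermediateField.adjoin κ {x}) y) :
    IsSeparable (IntermediateField.adjoin κ {x}) y := by
  have hx0 : x ≠ 0 := by
    rintro rfl
    exact hx (by rw [HahnSeries.order_zero]; exact dvd_zero _)
  exact isSeparable_of_isAlgebraic_of_addVal p (HahnSeries.addVal ℤ κ) x x.order
    (HahnSeries.addVal_apply_of_ne hx0) hx y hy

theorem not_prime_dvd_neg_one (q : ℕ) (hq : q.Prime) : ¬ (q : ℤ) ∣ -1 := by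
  rw [dvd_neg]
  intro h
  have h1 : (q : ℤ) ≤ 1 := Int.le_of_dvd one_pos h
  have h2 := hq.two_le
  omega

include hp in
/-- The case `ord_q x = -1` (`x = j̄, t̄₂, t̄₃`). -/
theorem isSeparable_laurent_of_order_eq_neg_one (x y : LaurentSeries κ) (hx : x.order = -1)
    (hy : IsAlgebraic (IntermediateField.adjoin κ {x}) y) :
    IsSeparable (IntermediateField.adjoin κ {x}) y :=
  isSeparable_laurent p x y (by rw [hx]; exact not_prime_dvd_neg_one p hp.out) hy

/-- Every intermediate field of `κ((q)) / κ(x)` that is algebraic over `κ(x)` is separable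
over `κ(x)`. -/
theorem isSeparable_intermediateField_laurent (x : LaurentSeries κ) (hx : ¬ (p : ℤ) ∣ x.order)
    (F : IntermediateField (IntermediateField.adjoin κ {x}) (LaurentSeries κ))
    [Algebra.IsAlgebraic (IntermediateField.adjoin κ {x}) F] :
    Algebra.IsSeparable (IntermediateField.adjoin κ {x}) F := by
  refine ⟨fun z => ?_⟩
  have hz : IsAlgebraic (IntermediateField.adjoin κ {x}) (z : LaurentSeries κ) :=
    (Algebra.IsAlgebraic.isAlgebraic z).algebraMap
  have h := isSeparable_laurent p x (z : LaurentSeries κ) hx hz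
  rwa [IsSeparable, ← IntermediateField.minpoly_eq] at h

end Laurent

section PolyForm

variable {κ L : Type*} [Field κ] [Field L] [Algebra κ L]

/-- Clearing denominators: a polynomial over `κ(x)` is, up to a nonzero factor `V(x)`, the image
of a polynomial in `κ[X][Y]`. -/
theorem exists_clear_denominators (x : L) (g : (IntermediateField.adjoin κ {x})[X]) :
    ∃ (P : Polynomial (Polynomial κ)) (V : Polynomial κ), aeval x V ≠ 0 ∧
      P.map (aeval x : Polynomial κ →ₐ[κ] L).toRingHom =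
        C (aeval x V) * g.map (algebraMap (IntermediateField.adjoin κ {x}) L) := by
  induction g using Polynomial.induction_on' with
  | add g₁ g₂ h₁ h₂ =>
    obtain ⟨P₁, V₁, hV₁, hP₁⟩ := h₁
    obtain ⟨P₂, V₂, hV₂, hP₂⟩ := h₂
    refine ⟨C V₂ * P₁ + C V₁ * P₂, V₁ * V₂, ?_, ?_⟩
    · rw [map_mul]
      exact mul_ne_zero hV₁ hV₂
    · rw [Polynomial.map_add, Polynomial.map_mul, Polynomial.map_mul, hP₁, hP₂, Polynomial.map_C,
        Polynomial.map_C, Polynomial.map_add, map_mul, C_mul]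
      simp only [AlgHom.toRingHom_eq_coe, RingHom.coe_coe]
      ring
  | monomial i a =>
    obtain ⟨u, w, hu⟩ := (IntermediateField.mem_adjoin_simple_iff κ (a : L)).mp a.2
    by_cases hw : aeval x w = 0
    · refine ⟨0, 1, ?_, ?_⟩
      · rw [map_one]
        exact one_ne_zero
      · have ha : a = 0 := by
          apply Subtype.ext
          rw [hu, hw, div_zero]
          rfl
        rw [ha]
        simp
    · refine ⟨monomial i u, w, hw, ?_⟩
      rw [Polynomial.map_monomial, Polynomial.map_monomial, C_mul_monomial]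
      congr 1
      show aeval x u = aeval x w * (a : L)
      rw [hu, mul_div_cancel₀ _ hw]

/-- **Liftable polynomial form of separability.**  If `y` is integral and separable over `κ(x)`
then there is `P ∈ κ[X][Y]` with `P(x, y) = 0` and `(∂P/∂Y)(x, y) ≠ 0`. -/
theorem exists_bivariate_simple_root (x y : L)
    (hsep : IsSeparable (IntermediateField.adjoin κ {x}) y) :
    ∃ P : Polynomial (Polynomial κ),
      P.eval₂ (aeval x : Polynomial κ →ₐ[κ] L).toRingHom y = 0 ∧
      (derivative P).eval₂ (aeval x : Polynomial κ →ₐ[κ] L).toRingHom y ≠ 0 := by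
  obtain ⟨P, V, hV, hP⟩ := exists_clear_denominators x (minpoly (IntermediateField.adjoin κ {x}) y)
  refine ⟨P, ?_, ?_⟩
  · rw [eval₂_eq_eval_map, hP, eval_mul, eval_C, eval_map_algebraMap, minpoly.aeval, mul_zero]
  · rw [eval₂_eq_eval_map, ← derivative_map, hP, derivative_C_mul, eval_mul, eval_C, derivative_map,
      eval_map_algebraMap]
    exact mul_ne_zero hV (hsep.aeval_derivative_ne_zero (minpoly.aeval _ _))

end PolyForm

section LaurentPolyForm

variable {κ : Type*} [Field κ] [PerfectField κ] (p : ℕ) [hp : Fact p.Prime] [CharP κ p]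

/-- **G-SEP, liftable form.**  `κ` perfect of characteristic `p`, `x ∈ κ((q))` of order prime to
`p`, `y ∈ κ((q))` algebraic over `κ(x)`: there is `P ∈ κ[X][Y]` with `P(x, y) = 0` and
`(∂P/∂Y)(x, y) ≠ 0`. -/
theorem exists_bivariate_simple_root_laurent (x y : LaurentSeries κ) (hx : ¬ (p : ℤ) ∣ x.order)
    (hy : IsAlgebraic (IntermediateField.adjoin κ {x}) y) :
    ∃ P : Polynomial (Polynomial κ),
      P.eval₂ (aeval x : Polynomial κ →ₐ[κ] LaurentSeries κ).toRingHom y = 0 ∧
      (derivative P).eval₂ (aeval x : Polynomial κ →ₐ[κ] LaurentSeries κ).toRingHom y ≠ 0 :=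
  exists_bivariate_simple_root x y (isSeparable_laurent p x y hx hy)

end LaurentPolyForm

end Fermat.Agent.S18.H264

end
-- ===== PACK-END S18/H264/SepLaurent.lean

-- ===== PACK-BEGIN S20/Comb/Orbits.lean
section








/-!
# Counting orbits of a cyclic group whose generator has prime order on a finite set

If `g ^ n` acts trivially on the finite set `X` and `n` is prime then
`n * #(X / ⟨g⟩) = #X + (n - 1) * #Fix(g)`.
-/

set_option autoImplicit false

namespace Fermat.Agent.S20.Comb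

open MulAction Subgroup Function

variable {G X : Type*} [Group G] [MulAction G X]

lemma card_eq_sum_minimalPeriod [Fintype X] (g : G)
    [Fintype (orbitRel.Quotient (zpowers g) X)] :
    Fintype.card X
      = ∑ q : orbitRel.Quotient (zpowers g) X, minimalPeriod (g • ·) q.out := by
  have (q : orbitRel.Quotient (zpowers g) X) :
      Fintype (MulAction.orbit (zpowers g) q.out) := Fintype.ofFinite _
  simp only [MulAction.minimalPeriod_eq_card]
  rw [← Fintype.card_sigma]
  exact Fintype.card_congr (MulAction.selfEquivSigmaOrbits (zpowers g) X)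

lemma minimalPeriod_eq_of_prime (g : G) (n : ℕ) (hn : n.Prime) (hg : ∀ x : X, g ^ n • x = x)
    (x : X) [Decidable (g • x = x)] :
    minimalPeriod (g • ·) x = if g • x = x then 1 else n := by
  have hper : IsPeriodicPt (g • ·) n x := by
    rw [IsPeriodicPt, IsFixedPt, smul_iterate]
    exact hg x
  have hdvd := hper.minimalPeriod_dvd
  rcases (Nat.dvd_prime hn).mp hdvd with h1 | h2
  · have hfix : g • x = x := minimalPeriod_eq_one_iff_isFixedPt.mp h1
    rw [h1, if_pos hfix]
  · have hfix : ¬ g • x = x := fun h => by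
      have h1 : minimalPeriod (g • ·) x = 1 := minimalPeriod_eq_one_iff_isFixedPt.mpr h
      rw [h2] at h1
      exact hn.one_lt.ne' h1
    rw [h2, if_neg hfix]

lemma smul_eq_of_mem_orbit_zpowers_of_fixed (g : G) (x y : X) (hx : g • x = x)
    (hy : y ∈ MulAction.orbit (zpowers g) x) : y = x := by
  obtain ⟨⟨h, hh⟩, rfl⟩ := hy
  obtain ⟨k, rfl⟩ := Subgroup.mem_zpowers_iff.mp hh
  exact fixedBy_subset_fixedBy_zpow X g k hx

/-- If `g ^ n` acts trivially on the finite set `X` (`n` prime), then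
`n * #orbits = #X + (n - 1) * #Fix(g)`. -/
theorem prime_mul_card_orbits [Finite X] (g : G) (n : ℕ) (hn : n.Prime)
    (hg : ∀ x : X, g ^ n • x = x) :
    n * Nat.card (orbitRel.Quotient (zpowers g) X)
      = Nat.card X + (n - 1) * Nat.card (fixedBy X g) := by
  classical
  haveI := Fintype.ofFinite X
  haveI : Fintype (orbitRel.Quotient (zpowers g) X) := Fintype.ofFinite _
  have h1 := card_eq_sum_minimalPeriod (X := X) g
  simp only [minimalPeriod_eq_of_prime g n hn hg] at h1
  rw [Finset.sum_ite, Finset.sum_const, Finset.sum_const, smul_eq_mul, mul_one,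
    smul_eq_mul] at h1
  have h2 : (Finset.univ.filter
      (fun q : orbitRel.Quotient (zpowers g) X => g • q.out = q.out)).card
        = Nat.card (fixedBy X g) := by
    rw [← Fintype.card_subtype, ← Nat.card_eq_fintype_card]
    refine Nat.card_eq_of_bijective
      (fun q : {q : orbitRel.Quotient (zpowers g) X // g • q.out = q.out} =>
        (⟨q.1.out, q.2⟩ : fixedBy X g)) ⟨?_, ?_⟩
    · intro q q' h
      have h' : q.1.out = q'.1.out := congrArg Subtype.val h
      exact Subtype.ext (Quotient.out_injective h')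
    · rintro ⟨x, hx⟩
      have hx' : g • x = x := hx
      have hout : (Quotient.mk'' x : orbitRel.Quotient (zpowers g) X).out = x := by
        apply smul_eq_of_mem_orbit_zpowers_of_fixed g x _ hx'
        have := Quotient.exact (Quotient.out_eq (Quotient.mk'' x : orbitRel.Quotient (zpowers g) X))
        exact (MulAction.orbitRel_apply).mp this
      refine ⟨⟨Quotient.mk'' x, ?_⟩, ?_⟩
      · rw [hout]; exact hx'
      · exact Subtype.ext hout
  have h3 := Finset.card_filter_add_card_filter_not (s := (Finset.univ :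
      Finset (orbitRel.Quotient (zpowers g) X)))
      (fun q : orbitRel.Quotient (zpowers g) X => g • q.out = q.out)
  rw [Finset.card_univ] at h3
  rw [Nat.card_eq_fintype_card, Nat.card_eq_fintype_card, ← h3, h1, ← h2]
  obtain ⟨m, rfl⟩ : ∃ m, n = m + 1 := ⟨n - 1, (Nat.succ_pred_eq_of_pos hn.pos).symm⟩
  simp only [Nat.add_sub_cancel]
  ring

end Fermat.Agent.S20.Comb

end
-- ===== PACK-END S20/Comb/Orbits.lean

-- ===== PACK-BEGIN A2/Mod/H189/ChartChange.lean
section






/-!
# Cell A2 / MOD, GOODRED part G3 (helper189): CHART CHANGE, abstract form (Mathlib only)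

`R` a commutative ring, `F` a field, `V` a subring of `F` (in the application the Gauss valuation
ring), `w : F` (the uniformiser).  For an `R`-subalgebra `A ⊆ F` (`A = R[y]`) we consider the
*chart* `IC(A)` = elements of `F` integral over `A`, and the two elementwise properties that make up
`Mod.GoodRedAt` (`A2/Mod/Spec.lean`):

* `QepOn V w A`    : `b ∈ IC(A)`, `b ∈ w V` ⟹ `b / w ∈ IC(A)`;
* `NormalOn V w A` : `f ∈ V` whose residue is integral over `IC(A) / w` is congruent modulo `w V`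
  to an element of `IC(A)`   (the special fibre of the chart is integrally closed in `κ(V)`).

Results:

* `isIntegral_of_forall_isIntegral` : `IC` only depends on `A` up to integral equivalence;
* `QepOn.loc`, `NormalOn.loc`       : both properties pass from `A` to `A[1/s]` (`s ∈ A` a unit of
  `V`);
* `QepOn.glue`, `NormalOn.glue`     : both properties glue along a covering `α s₁ + β s₂ = 1`.

These are the tools for changing the coordinate of a model with good reduction (e.g. from the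
Hauptmodul `t₂` or `t₃` used by row S18 for the residue characteristics `3` and `2` to `j`).
-/

set_option autoImplicit false

namespace Fermat.Agent.A2.Mod.H189

open Polynomial

variable {R : Type*} [CommRing R] {F : Type*} [Field F] [Algebra R F]

/-- `f ∈ w V`. -/
def InWV (V : Subring F) (w f : F) : Prop := f * w⁻¹ ∈ V

theorem InWV.mul_left {V : Subring F} {w f : F} (h : InWV V w f) {c : F} (hc : c ∈ V) :
    InWV V w (c * f) := by
  unfold InWV at h ⊢
  rw [mul_assoc]
  exact V.mul_mem hc h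

theorem InWV.add {V : Subring F} {w f g : F} (hf : InWV V w f) (hg : InWV V w g) :
    InWV V w (f + g) := by
  unfold InWV at hf hg ⊢
  rw [add_mul]
  exact V.add_mem hf hg

theorem InWV.sub {V : Subring F} {w f g : F} (hf : InWV V w f) (hg : InWV V w g) :
    InWV V w (f - g) := by
  unfold InWV at hf hg ⊢
  rw [sub_mul]
  exact V.sub_mem hf hg

/-- The `q`-expansion principle for the chart of `A`, elementwise. -/
def QepOn (V : Subring F) (w : F) (A : Subalgebra R F) : Prop :=
  ∀ b : F, IsIntegral A b → InWV V w b → IsIntegral A (b * w⁻¹)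

/-- Normality of the special fibre of the chart of `A`, elementwise: an element of `V` which is
integral over the chart modulo `w V` is congruent to an element of the chart. -/
def NormalOn (V : Subring F) (w : F) (A : Subalgebra R F) : Prop :=
  ∀ f ∈ V, (∃ (n : ℕ) (c : Fin n → F), (∀ i, IsIntegral A (c i)) ∧
      InWV V w (f ^ n + ∑ i : Fin n, c i * f ^ (i : ℕ))) →
    ∃ b : F, IsIntegral A b ∧ InWV V w (f - b)

/-! ### Integral equivalence -/

/-- Integrality over a subalgebra only depends on its integral closure. -/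
theorem isIntegral_of_forall_isIntegral {A A' : Subalgebra R F}
    (h : ∀ a ∈ A, IsIntegral A' a) {f : F} (hf : IsIntegral A f) : IsIntegral A' f := by
  -- `f` is integral over the integral closure `C'` of `A'`
  let C' : Subalgebra A' F := integralClosure A' F
  let ι : A →+* C' :=
    { toFun := fun a => ⟨(a : F), h a a.2⟩
      map_one' := rfl
      map_mul' := fun _ _ => rfl
      map_zero' := rfl
      map_add' := fun _ _ => rfl }
  have h1 : IsIntegral C' f := by
    have := IsIntegral.map_of_comp_eq (R := A) (S := F) (T := C') (U := F) ι (RingHom.id F)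
      (by ext a; rfl) hf
    simpa using this
  exact isIntegral_trans (R := A') (A := C') f h1

theorem isIntegral_iff_of_forall_isIntegral {A A' : Subalgebra R F}
    (h : ∀ a ∈ A, IsIntegral A' a) (h' : ∀ a ∈ A', IsIntegral A a) {f : F} :
    IsIntegral A f ↔ IsIntegral A' f :=
  ⟨isIntegral_of_forall_isIntegral h, isIntegral_of_forall_isIntegral h'⟩

theorem isIntegral_of_le {A A' : Subalgebra R F} (h : A ≤ A') {f : F} (hf : IsIntegral A f) :
    IsIntegral A' f :=
  isIntegral_of_forall_isIntegral (fun a ha => isIntegral_algebraMap (R := A') (x := ⟨a, h ha⟩)) hf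

theorem QepOn.congr {V : Subring F} {w : F} {A A' : Subalgebra R F}
    (h : ∀ a ∈ A, IsIntegral A' a) (h' : ∀ a ∈ A', IsIntegral A a) (hq : QepOn V w A) :
    QepOn V w A' := fun b hb hbw =>
  isIntegral_of_forall_isIntegral h (hq b (isIntegral_of_forall_isIntegral h' hb) hbw)

theorem NormalOn.congr {V : Subring F} {w : F} {A A' : Subalgebra R F}
    (h : ∀ a ∈ A, IsIntegral A' a) (h' : ∀ a ∈ A', IsIntegral A a) (hn : NormalOn V w A) :
    NormalOn V w A' := by
  rintro f hf ⟨n, c, hc, hcw⟩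
  obtain ⟨b, hb, hbw⟩ := hn f hf
    ⟨n, c, fun i => isIntegral_of_forall_isIntegral h' (hc i), hcw⟩
  exact ⟨b, isIntegral_of_forall_isIntegral h hb, hbw⟩

/-! ### Localisation of a subalgebra at one element -/

/-- `A[1/s]` as a subalgebra of the field `F`. -/
def locSub (A : Subalgebra R F) (s : F) : Subalgebra R F :=
  Algebra.adjoin R ((A : Set F) ∪ {s⁻¹})

theorem le_locSub (A : Subalgebra R F) (s : F) : A ≤ locSub A s := fun _ ha =>
  Algebra.subset_adjoin (Or.inl ha)

theorem inv_mem_locSub (A : Subalgebra R F) (s : F) : s⁻¹ ∈ locSub A s :=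
  Algebra.subset_adjoin (Or.inr rfl)

theorem locSub_le {A B : Subalgebra R F} {s : F} (hAB : A ≤ B) (hs : s⁻¹ ∈ B) : locSub A s ≤ B :=
  Algebra.adjoin_le (by
    rintro x (hx | hx)
    · exact hAB hx
    · rw [Set.mem_singleton_iff] at hx
      rw [hx]
      exact hs)

/-- Every element of `A[1/s]` is of the form `a / s ^ k`. -/
theorem exists_pow_mul_mem_of_mem_loc {A : Subalgebra R F} {s : F} (hs : s ∈ A) {b : F}
    (hb : b ∈ locSub A s) : ∃ k : ℕ, ∀ k', k ≤ k' → s ^ k' * b ∈ A := by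
  unfold locSub at hb
  induction hb using Algebra.adjoin_induction with
  | mem x hx =>
    rcases hx with hx | hx
    · exact ⟨0, fun k' _ => A.mul_mem (A.pow_mem hs k') hx⟩
    · rw [Set.mem_singleton_iff] at hx
      subst hx
      refine ⟨1, fun k' hk' => ?_⟩
      by_cases h0 : s = 0
      · subst h0
        simp
      · obtain ⟨k'', rfl⟩ := Nat.exists_eq_add_of_le hk'
        rw [pow_add, pow_one, mul_comm s, mul_assoc, mul_inv_cancel₀ h0, mul_one]
        exact A.pow_mem hs k''
  | algebraMap r => exact ⟨0, fun k' _ => A.mul_mem (A.pow_mem hs k') (A.algebraMap_mem r)⟩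
  | add x y _ _ hx hy =>
    obtain ⟨k₁, h₁⟩ := hx
    obtain ⟨k₂, h₂⟩ := hy
    refine ⟨max k₁ k₂, fun k' hk' => ?_⟩
    rw [mul_add]
    exact A.add_mem (h₁ k' (le_trans (le_max_left _ _) hk'))
      (h₂ k' (le_trans (le_max_right _ _) hk'))
  | mul x y _ _ hx hy =>
    obtain ⟨k₁, h₁⟩ := hx
    obtain ⟨k₂, h₂⟩ := hy
    refine ⟨k₁ + k₂, fun k' hk' => ?_⟩
    obtain ⟨k'', rfl⟩ := Nat.exists_eq_add_of_le hk'
    have : s ^ (k₁ + k₂ + k'') * (x * y) = s ^ k'' * ((s ^ k₁ * x) * (s ^ k₂ * y)) := by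
      rw [pow_add, pow_add]; ring
    rw [this]
    exact A.mul_mem (A.pow_mem hs k'') (A.mul_mem (h₁ k₁ le_rfl) (h₂ k₂ le_rfl))

/-- An element of `A` is integral over `A`. -/
theorem isIntegral_of_mem {A : Subalgebra R F} {a : F} (ha : a ∈ A) : IsIntegral A a :=
  isIntegral_algebraMap (R := A) (x := ⟨a, ha⟩)

/-- Integral closure commutes with localisation, elementwise: if `f` is integral over `A[1/s]`
then `s ^ k f` is integral over `A` for all large `k`. -/
theorem exists_pow_mul_isIntegral {A : Subalgebra R F} {s : F} (hs : s ∈ A) {f : F}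
    (hf : IsIntegral (locSub A s) f) : ∃ k : ℕ, ∀ k', k ≤ k' → IsIntegral A (s ^ k' * f) := by
  classical
  suffices h : ∃ k : ℕ, IsIntegral A (s ^ k * f) by
    obtain ⟨k, hk⟩ := h
    refine ⟨k, fun k' hk' => ?_⟩
    obtain ⟨k'', rfl⟩ := Nat.exists_eq_add_of_le hk'
    have : s ^ (k + k'') * f = s ^ k'' * (s ^ k * f) := by rw [pow_add]; ring
    rw [this]
    exact (isIntegral_of_mem (A.pow_mem hs k'')).mul hk
  obtain ⟨p, hp, hpf⟩ := hf
  -- a common exponent for all coefficients
  have hcoef : ∀ i : ℕ, ∃ k : ℕ, ∀ k', k ≤ k' → s ^ k' * ((p.coeff i : locSub A s) : F) ∈ A :=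
    fun i => exists_pow_mul_mem_of_mem_loc hs (p.coeff i).2
  choose kc hkc using hcoef
  set K : ℕ := (Finset.range (p.natDegree + 1)).sup kc with hK
  have hKle : ∀ i, i ≤ p.natDegree → kc i ≤ K := fun i hi =>
    Finset.le_sup (f := kc) (Finset.mem_range.2 (Nat.lt_succ_of_le hi))
  -- the element `s ^ K` of `A[1/s]`
  let sK : locSub A s := ⟨s ^ K, (locSub A s).pow_mem (le_locSub A s hs) K⟩
  let ι : A →+* locSub A s := (Subalgebra.inclusion (le_locSub A s)).toRingHom
  have hιval : ∀ a : A, ((ι a : locSub A s) : F) = (a : F) := fun a => rfl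
  have hlifts : scaleRoots p sK ∈ lifts ι := by
    rw [lifts_iff_coeff_lifts]
    intro i
    rw [coeff_scaleRoots]
    by_cases hi : i < p.natDegree
    · have h1 : s ^ (K * (p.natDegree - i)) * ((p.coeff i : locSub A s) : F) ∈ A := by
        apply hkc i
        calc kc i ≤ K := hKle i hi.le
          _ = K * 1 := (mul_one K).symm
          _ ≤ K * (p.natDegree - i) := Nat.mul_le_mul_left K (by omega)
      refine ⟨⟨_, h1⟩, Subtype.ext ?_⟩
      show s ^ (K * (p.natDegree - i)) * ((p.coeff i : locSub A s) : F)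
        = ((p.coeff i : locSub A s) : F) * (s ^ K) ^ (p.natDegree - i)
      rw [← pow_mul, mul_comm]
    · by_cases hi' : i = p.natDegree
      · subst hi'
        refine ⟨1, ?_⟩
        rw [_root_.map_one, Nat.sub_self, pow_zero, mul_one]
        exact hp.coeff_natDegree.symm
      · have : p.coeff i = 0 := coeff_eq_zero_of_natDegree_lt (by omega)
        refine ⟨0, ?_⟩
        rw [_root_.map_zero, this, zero_mul]
  have hmonic : (scaleRoots p sK).Monic := (monic_scaleRoots_iff sK).2 hp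
  obtain ⟨q, hq, -, hqm⟩ := lifts_and_degree_eq_and_monic hlifts hmonic
  refine ⟨K, q, hqm, ?_⟩
  have hcomp : (algebraMap (locSub A s) F).comp ι = algebraMap A F := by
    ext a
    rfl
  have h0 : eval₂ (algebraMap (locSub A s) F) (algebraMap (locSub A s) F sK * f) (scaleRoots p sK) = 0 :=
    scaleRoots_eval₂_eq_zero (algebraMap (locSub A s) F) hpf
  rw [← hq, eval₂_map, hcomp] at h0
  exact h0

/-- Conversely `a / s ^ k` is integral over `A[1/s]` as soon as `a` is integral over `A`. -/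
theorem isIntegral_loc_of_pow_mul {A : Subalgebra R F} {s : F} (hs0 : s ≠ 0) {b : F} {k : ℕ}
    (hb : IsIntegral A (s ^ k * b)) : IsIntegral (locSub A s) b := by
  have h1 : IsIntegral (locSub A s) (s ^ k * b) := isIntegral_of_le (le_locSub A s) hb
  have h2 : IsIntegral (locSub A s) (s⁻¹ ^ k) :=
    isIntegral_of_mem ((locSub A s).pow_mem (inv_mem_locSub A s) k)
  have : b = s⁻¹ ^ k * (s ^ k * b) := by
    rw [← mul_assoc, ← mul_pow, inv_mul_cancel₀ hs0, one_pow, one_mul]
  rw [this]
  exact h2.mul h1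

/-- **QEP passes to localisations.** -/
theorem QepOn.loc {V : Subring F} {w : F} {A : Subalgebra R F} (hq : QepOn V w A) {s : F}
    (hsA : s ∈ A) (hs0 : s ≠ 0) (hsV : s ∈ V) : QepOn V w (locSub A s) := by
  intro b hb hbw
  obtain ⟨k, hk⟩ := exists_pow_mul_isIntegral hsA hb
  have h1 := hq (s ^ k * b) (hk k le_rfl) (hbw.mul_left (V.pow_mem hsV k))
  apply isIntegral_loc_of_pow_mul hs0 (k := k)
  rwa [← mul_assoc]

/-- **Normality of the special fibre passes to localisations.** -/
theorem NormalOn.loc {V : Subring F} {w : F} {A : Subalgebra R F} (hn : NormalOn V w A) {s : F}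
    (hsA : s ∈ A) (hs0 : s ≠ 0) (hsV : s ∈ V) (hsV' : s⁻¹ ∈ V) : NormalOn V w (locSub A s) := by
  classical
  rintro f hf ⟨n, c, hc, hcw⟩
  have hex : ∀ i : Fin n, ∃ k : ℕ, ∀ k', k ≤ k' → IsIntegral A (s ^ k' * c i) :=
    fun i => exists_pow_mul_isIntegral hsA (hc i)
  choose kc hkc using hex
  set K : ℕ := Finset.univ.sup kc with hK
  have hKle : ∀ i, kc i ≤ K := fun i => Finset.le_sup (f := kc) (Finset.mem_univ i)
  -- the scaled element and the scaled equation
  have hg : s ^ K * f ∈ V := V.mul_mem (V.pow_mem hsV K) hf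
  have key : (s ^ K * f) ^ n + ∑ i : Fin n, (s ^ (K * (n - (i : ℕ))) * c i) * (s ^ K * f) ^ (i : ℕ)
      = s ^ (K * n) * (f ^ n + ∑ i : Fin n, c i * f ^ (i : ℕ)) := by
    rw [mul_add, Finset.mul_sum, mul_pow, ← pow_mul]
    congr 1
    refine Finset.sum_congr rfl fun i _ => ?_
    have hi : K * n = K * (n - (i : ℕ)) + K * (i : ℕ) := by
      rw [← Nat.mul_add, Nat.sub_add_cancel i.2.le]
    rw [mul_pow, ← pow_mul, hi, pow_add]
    ring
  obtain ⟨b, hb, hbw⟩ := hn (s ^ K * f) hg ⟨n, fun i => s ^ (K * (n - (i : ℕ))) * c i,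
    fun i => hkc i _ (by
      calc kc i ≤ K := hKle i
        _ = K * 1 := (mul_one K).symm
        _ ≤ K * (n - (i : ℕ)) := Nat.mul_le_mul_left K (by have := i.2; omega)),
    by rw [key]; exact hcw.mul_left (V.pow_mem hsV _)⟩
  refine ⟨s⁻¹ ^ K * b, ?_, ?_⟩
  · apply isIntegral_loc_of_pow_mul hs0 (k := K)
    rw [← mul_assoc, ← mul_pow, mul_inv_cancel₀ hs0, one_pow, one_mul]
    exact hb
  · have : f - s⁻¹ ^ K * b = s⁻¹ ^ K * (s ^ K * f - b) := by
      rw [mul_sub, ← mul_assoc, ← mul_pow, inv_mul_cancel₀ hs0, one_pow, one_mul]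
    rw [this]
    exact hbw.mul_left (V.pow_mem hsV' K)

/-! ### Gluing along a covering by two principal opens -/

/-- A partition of unity by high powers. -/
theorem exists_partition_pow {A : Subalgebra R F} {s₁ s₂ α β : F} (hs₁ : s₁ ∈ A) (hs₂ : s₂ ∈ A)
    (hα : α ∈ A) (hβ : β ∈ A) (h1 : α * s₁ + β * s₂ = 1) (k : ℕ) :
    ∃ a₁ ∈ A, ∃ a₂ ∈ A, a₁ * s₁ ^ k + a₂ * s₂ ^ k = 1 := by
  have hc : IsCoprime (⟨s₁, hs₁⟩ : A) ⟨s₂, hs₂⟩ :=
    ⟨⟨α, hα⟩, ⟨β, hβ⟩, Subtype.ext h1⟩
  obtain ⟨a, b, hab⟩ := hc.pow (m := k) (n := k)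
  exact ⟨a, a.2, b, b.2, congrArg Subtype.val hab⟩

/-- **QEP glues.** -/
theorem QepOn.glue {V : Subring F} {w : F} {A : Subalgebra R F} {s₁ s₂ α β : F}
    (hs₁ : s₁ ∈ A) (hs₂ : s₂ ∈ A) (hα : α ∈ A) (hβ : β ∈ A) (h1 : α * s₁ + β * s₂ = 1)
    (hq₁ : QepOn V w (locSub A s₁)) (hq₂ : QepOn V w (locSub A s₂)) : QepOn V w A := by
  intro b hb hbw
  obtain ⟨k₁, hk₁⟩ := exists_pow_mul_isIntegral hs₁
    (hq₁ b (isIntegral_of_le (le_locSub A s₁) hb) hbw)
  obtain ⟨k₂, hk₂⟩ := exists_pow_mul_isIntegral hs₂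
    (hq₂ b (isIntegral_of_le (le_locSub A s₂) hb) hbw)
  obtain ⟨a₁, ha₁, a₂, ha₂, ha⟩ := exists_partition_pow hs₁ hs₂ hα hβ h1 (max k₁ k₂)
  have e : b * w⁻¹ = a₁ * (s₁ ^ max k₁ k₂ * (b * w⁻¹)) + a₂ * (s₂ ^ max k₁ k₂ * (b * w⁻¹)) := by
    linear_combination (-(b * w⁻¹)) * ha
  rw [e]
  exact ((isIntegral_of_mem ha₁).mul (hk₁ _ (le_max_left _ _))).add
    ((isIntegral_of_mem ha₂).mul (hk₂ _ (le_max_right _ _)))

/-- **Normality of the special fibre glues.** -/
theorem NormalOn.glue {V : Subring F} {w : F} {A : Subalgebra R F} {s₁ s₂ α β : F}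
    (hAV : ∀ a ∈ A, a ∈ V)
    (hs₁ : s₁ ∈ A) (hs₂ : s₂ ∈ A) (hα : α ∈ A) (hβ : β ∈ A) (h1 : α * s₁ + β * s₂ = 1)
    (hn₁ : NormalOn V w (locSub A s₁)) (hn₂ : NormalOn V w (locSub A s₂)) : NormalOn V w A := by
  rintro f hf ⟨n, c, hc, hcw⟩
  obtain ⟨b₁, hb₁, hbw₁⟩ := hn₁ f hf ⟨n, c, fun i => isIntegral_of_le (le_locSub A s₁) (hc i), hcw⟩
  obtain ⟨b₂, hb₂, hbw₂⟩ := hn₂ f hf ⟨n, c, fun i => isIntegral_of_le (le_locSub A s₂) (hc i), hcw⟩
  obtain ⟨k₁, hk₁⟩ := exists_pow_mul_isIntegral hs₁ hb₁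
  obtain ⟨k₂, hk₂⟩ := exists_pow_mul_isIntegral hs₂ hb₂
  obtain ⟨a₁, ha₁, a₂, ha₂, ha⟩ := exists_partition_pow hs₁ hs₂ hα hβ h1 (max k₁ k₂)
  refine ⟨a₁ * (s₁ ^ max k₁ k₂ * b₁) + a₂ * (s₂ ^ max k₁ k₂ * b₂),
    ((isIntegral_of_mem ha₁).mul (hk₁ _ (le_max_left _ _))).add
      ((isIntegral_of_mem ha₂).mul (hk₂ _ (le_max_right _ _))), ?_⟩
  have : f - (a₁ * (s₁ ^ max k₁ k₂ * b₁) + a₂ * (s₂ ^ max k₁ k₂ * b₂))
      = (a₁ * s₁ ^ max k₁ k₂) * (f - b₁) + (a₂ * s₂ ^ max k₁ k₂) * (f - b₂) := by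
    linear_combination (-f) * ha
  rw [this]
  exact (hbw₁.mul_left (hAV _ (A.mul_mem ha₁ (A.pow_mem hs₁ _)))).add
    (hbw₂.mul_left (hAV _ (A.mul_mem ha₂ (A.pow_mem hs₂ _))))

end Fermat.Agent.A2.Mod.H189

end
-- ===== PACK-END A2/Mod/H189/ChartChange.lean

-- ===== PACK-BEGIN S18/H333/HauptElim.lean
section








/-!
# S18 / c3 (helper333): elimination of `t` between the two Hauptmodul relations

For `p = 2` :  `j t² = (t+256)³`,  `J t = (t+16)³`            (`J = j(q²)`)
for `p = 3` :  `j t³ = (t+27)(t+243)³`,  `J t = (t+27)(t+3)³`  (`J = j(q³)`)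
we give explicit `D, N ∈ ℤ[j, J]` with `D t + N = 0`  (subresultant of degree 1), hence
`t = -N / D ∈ K(j, J)` as soon as `D ≠ 0`.   Pure commutative algebra (generated by
`coord/S18-c3-elim-helper333.py.txt`).
-/

set_option autoImplicit false
set_option linter.unusedSimpArgs false

namespace Fermat.Agent.S18.H333

section Elim

variable {A : Type*} [CommRing A]

/-- the coefficient `D` of `t` (level 2) -/
def elimD2 (j J : A) : A :=
    -j ^ 2 * J + 768 * j ^ 2 + 1488 * j * J + 25067520 * j + J ^ 2 - 161280 * J + 19906560000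

/-- the constant term `N` (level 2) -/
def elimN2 (j J : A) : A :=
    4096 * j ^ 2 + 799211520 * j + 16773120 * J + 2707292160000

/-- cofactor of the first relation (level 2) -/
def elimU2 (t j J : A) : A :=
    t * j - 720 * t + 48 * j + J + 161280

/-- cofactor of the second relation (level 2) -/
def elimV2 (t j J : A) : A :=
    -t * j + 720 * t + j ^ 2 - 1488 * j - J + 357120

/-- `D` homogenised: `elimD2 (e/d) (e'/d') * d^2 * d'^2` -/
def elimDh2 (e d e' d' : A) : A :=
    -e ^ 2 * e' * d' + 768 * e ^ 2 * d' ^ 2 + 1488 * e * d * e' * d'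
      + 25067520 * e * d * d' ^ 2 + d ^ 2 * e' ^ 2 - 161280 * d ^ 2 * e' * d'
      + 19906560000 * d ^ 2 * d' ^ 2

theorem elim2_identity (t j J : A) :
    elimU2 t j J * ((t + 256) ^ 3 - j * t ^ 2) + elimV2 t j J * ((t + 16) ^ 3 - J * t)
      = elimD2 j J * t + elimN2 j J := by
  simp only [elimU2, elimV2, elimD2, elimN2]
  ring

theorem elim2 (t j J : A) (ha : j * t ^ 2 = (t + 256) ^ 3) (hb : J * t = (t + 16) ^ 3) :
    elimD2 j J * t + elimN2 j J = 0 := by
  rw [← elim2_identity, ha, hb]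
  ring

theorem elimD2_hom (j J d d' : A) :
    elimD2 j J * d ^ 2 * d' ^ 2 = elimDh2 (j * d) d (J * d') d' := by
  simp only [elimD2, elimDh2]
  ring

theorem map_elimD2 {B : Type*} [CommRing B] (φ : A →+* B) (j J : A) :
    φ (elimD2 j J) = elimD2 (φ j) (φ J) := by
  simp only [elimD2, map_add, map_sub, map_mul, map_pow, map_neg, map_ofNat]

theorem map_elimN2 {B : Type*} [CommRing B] (φ : A →+* B) (j J : A) :
    φ (elimN2 j J) = elimN2 (φ j) (φ J) := by
  simp only [elimN2, map_add, map_sub, map_mul, map_pow, map_neg, map_ofNat]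

theorem map_elimDh2 {B : Type*} [CommRing B] (φ : A →+* B) (e d e' d' : A) :
    φ (elimDh2 e d e' d') = elimDh2 (φ e) (φ d) (φ e') (φ d') := by
  simp only [elimDh2, map_add, map_sub, map_mul, map_pow, map_neg, map_ofNat]

/-- the coefficient `D` of `t` (level 3) -/
def elimD3 (j J : A) : A :=
    -j ^ 5 * J ^ 2 + 1512 * j ^ 5 * J - 374706 * j ^ 5 + 3672 * j ^ 4 * J ^ 2
      + 2199927357 * j ^ 4 * J + 3513587135760 * j ^ 4 - 4802436 * j ^ 3 * J ^ 2
      + 6287091255360 * j ^ 3 * J - 578039691371443200 * j ^ 3 + j ^ 2 * J ^ 3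
      + 2734670160 * j ^ 2 * J ^ 2 - 12148776475948800 * j ^ 2 * J
      + 3468720924518404608000 * j ^ 2 - 1440 * j * J ^ 3 - 607750387200 * j * J ^ 2
      + 4430048196934656000 * j * J - 4101236057280872448000000 * j + 518400 * J ^ 3
      + 19110670848000 * J ^ 2 + 170148916887552000000 * J + 1369513028852121600000000000

/-- the constant term `N` (level 3) -/
def elimN3 (j J : A) : A :=
    729 * j ^ 5 * J - 551124 * j ^ 5 + 13944460716 * j ^ 4 * J + 16877673339120 * j ^ 4
      + 35694226104480 * j ^ 3 * J - 10379169493558848000 * j ^ 3 + 387419760 * j ^ 2 * J ^ 2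
      - 108392996345702400 * j ^ 2 * J + 86248560322019464704000 * j ^ 2
      - 557884454400 * j * J ^ 2 + 79754306454770688000 * j * J
      - 108081439958057877504000000 * j + 200838403584000 * J ^ 2 - 18302525195157504000000 * J
      + 36976851779007283200000000000

/-- cofactor of the first relation (level 3) -/
def elimU3 (t j J : A) : A :=
    270 * t ^ 2 * j ^ 4 + t ^ 2 * j ^ 3 * J + 25429680 * t ^ 2 * j ^ 3
      - 2160 * t ^ 2 * j ^ 2 * J - 17132083200 * t ^ 2 * j ^ 2 + 1555200 * t ^ 2 * j * J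
      - 15281146368000 * t ^ 2 * j - 373248000 * t ^ 2 * J + 10319560704000000 * t ^ 2
      + t * j ^ 4 * J + 8964 * t * j ^ 4 - 2880 * t * j ^ 3 * J - 158494320 * t * j ^ 3
      + 2913840 * t * j ^ 2 * J - 2055056832000 * t * j ^ 2 - 1209945600 * t * j * J
      + 3192389024256000 * t * j + 166841856000 * t * J - 1176429920256000000 * t
      + 36 * j ^ 4 * J + 45684 * j ^ 4 + 92124 * j ^ 3 * J - 26779844160 * j ^ 3
      + j ^ 2 * J ^ 2 - 279776160 * j ^ 2 * J + 222607701273600 * j ^ 2 - 1440 * j * J ^ 2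
      + 205858713600 * j * J - 278975282042880000 * j + 518400 * J ^ 2 - 47241999360000 * J
      + 95445616951296000000

/-- cofactor of the second relation (level 3) -/
def elimV3 (t j J : A) : A :=
    -270 * t ^ 2 * j ^ 4 - t ^ 2 * j ^ 3 * J - 25429680 * t ^ 2 * j ^ 3
      + 2160 * t ^ 2 * j ^ 2 * J + 17132083200 * t ^ 2 * j ^ 2 - 1555200 * t ^ 2 * j * J
      + 15281146368000 * t ^ 2 * j + 373248000 * t ^ 2 * J - 10319560704000000 * t ^ 2
      + 270 * t * j ^ 5 + 25226316 * t * j ^ 4 - 35282958480 * t * j ^ 3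
      + 196560 * t * j ^ 2 * J - 890989632000 * t * j ^ 2 - 283046400 * t * j * J
      + 18129597064704000 * t * j + 101896704000 * t * J - 6253653786624000000 * t + j ^ 5 * J
      - 756 * j ^ 5 - 3672 * j ^ 4 * J - 1126535364 * j ^ 4 + 4802436 * j ^ 3 * J
      - 5636726677440 * j ^ 3 - j ^ 2 * J ^ 2 - 2715539040 * j ^ 2 * J
      + 7922962188518400 * j ^ 2 + 1440 * j * J ^ 2 + 580201574400 * j * J
      - 959904104785920000 * j - 518400 * J ^ 2 - 9193098240000 * J - 1009345912897536000000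

/-- `D` homogenised: `elimD3 (e/d) (e'/d') * d^5 * d'^3` -/
def elimDh3 (e d e' d' : A) : A :=
    -e ^ 5 * e' ^ 2 * d' + 1512 * e ^ 5 * e' * d' ^ 2 - 374706 * e ^ 5 * d' ^ 3
      + 3672 * e ^ 4 * d * e' ^ 2 * d' + 2199927357 * e ^ 4 * d * e' * d' ^ 2
      + 3513587135760 * e ^ 4 * d * d' ^ 3 - 4802436 * e ^ 3 * d ^ 2 * e' ^ 2 * d'
      + 6287091255360 * e ^ 3 * d ^ 2 * e' * d' ^ 2
      - 578039691371443200 * e ^ 3 * d ^ 2 * d' ^ 3 + e ^ 2 * d ^ 3 * e' ^ 3
      + 2734670160 * e ^ 2 * d ^ 3 * e' ^ 2 * d'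
      - 12148776475948800 * e ^ 2 * d ^ 3 * e' * d' ^ 2
      + 3468720924518404608000 * e ^ 2 * d ^ 3 * d' ^ 3 - 1440 * e * d ^ 4 * e' ^ 3
      - 607750387200 * e * d ^ 4 * e' ^ 2 * d' + 4430048196934656000 * e * d ^ 4 * e' * d' ^ 2
      - 4101236057280872448000000 * e * d ^ 4 * d' ^ 3 + 518400 * d ^ 5 * e' ^ 3
      + 19110670848000 * d ^ 5 * e' ^ 2 * d' + 170148916887552000000 * d ^ 5 * e' * d' ^ 2
      + 1369513028852121600000000000 * d ^ 5 * d' ^ 3

theorem elim3_identity (t j J : A) :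
    elimU3 t j J * ((t + 27) * (t + 243) ^ 3 - j * t ^ 3) + elimV3 t j J * ((t + 27) * (t + 3) ^ 3 - J * t)
      = elimD3 j J * t + elimN3 j J := by
  simp only [elimU3, elimV3, elimD3, elimN3]
  ring

theorem elim3 (t j J : A) (ha : j * t ^ 3 = (t + 27) * (t + 243) ^ 3) (hb : J * t = (t + 27) * (t + 3) ^ 3) :
    elimD3 j J * t + elimN3 j J = 0 := by
  rw [← elim3_identity, ha, hb]
  ring

theorem elimD3_hom (j J d d' : A) :
    elimD3 j J * d ^ 5 * d' ^ 3 = elimDh3 (j * d) d (J * d') d' := by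
  simp only [elimD3, elimDh3]
  ring

theorem map_elimD3 {B : Type*} [CommRing B] (φ : A →+* B) (j J : A) :
    φ (elimD3 j J) = elimD3 (φ j) (φ J) := by
  simp only [elimD3, map_add, map_sub, map_mul, map_pow, map_neg, map_ofNat]

theorem map_elimN3 {B : Type*} [CommRing B] (φ : A →+* B) (j J : A) :
    φ (elimN3 j J) = elimN3 (φ j) (φ J) := by
  simp only [elimN3, map_add, map_sub, map_mul, map_pow, map_neg, map_ofNat]

theorem map_elimDh3 {B : Type*} [CommRing B] (φ : A →+* B) (e d e' d' : A) :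
    φ (elimDh3 e d e' d') = elimDh3 (φ e) (φ d) (φ e') (φ d') := by
  simp only [elimDh3, map_add, map_sub, map_mul, map_pow, map_neg, map_ofNat]

end Elim

end Fermat.Agent.S18.H333

end
-- ===== PACK-END S18/H333/HauptElim.lean

-- ===== PACK-BEGIN S17/H200/EchelonSpan.lean
section



/-!
# Echelon descent for finite-dimensional spaces of Laurent series

Let `W ⊆ C((q))` be a finite-dimensional `C`-subspace.

* `exists_order_le` : the orders of the nonzero elements of `W` are bounded above.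
* `le_span_fixed` : if `W` is stable under a set `H` of coefficientwise ring endomorphisms, then
  `W` is spanned by its `H`-fixed vectors.

Mathlib + Prelude `coeffMap` only.
-/

set_option autoImplicit false

noncomputable section

namespace Fermat.Agent.S17.H200

open ModularCurve

variable {C : Type*} [Field C]

/-- The subspace of `W` of the vectors whose `s`-th coefficient vanishes. -/
def cutAt (W : Submodule C (LaurentSeries C)) (s : ℤ) : Submodule C (LaurentSeries C) :=
  W ⊓ LinearMap.ker (HahnSeries.coeff.linearMap (R := C) s)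

theorem mem_cutAt {W : Submodule C (LaurentSeries C)} {s : ℤ} {v : LaurentSeries C} :
    v ∈ cutAt W s ↔ v ∈ W ∧ v.coeff s = 0 := by
  simp [cutAt, HahnSeries.coeff.linearMap]

theorem cutAt_le (W : Submodule C (LaurentSeries C)) (s : ℤ) : cutAt W s ≤ W := inf_le_left

theorem cutAt_lt {W : Submodule C (LaurentSeries C)} {s : ℤ} {v : LaurentSeries C}
    (hv : v ∈ W) (hs : v.coeff s ≠ 0) : cutAt W s < W := by
  refine lt_of_le_of_ne (cutAt_le W s) fun h => ?_
  have : v ∈ cutAt W s := by rw [h]; exact hv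
  exact hs (mem_cutAt.mp this).2

theorem finrank_cutAt_lt {W : Submodule C (LaurentSeries C)} [FiniteDimensional C W] {s : ℤ}
    {v : LaurentSeries C} (hv : v ∈ W) (hs : v.coeff s ≠ 0) :
    Module.finrank C (cutAt W s) < Module.finrank C W :=
  Submodule.finrank_lt_finrank_of_lt (cutAt_lt hv hs)

instance finiteDimensional_cutAt (W : Submodule C (LaurentSeries C)) [FiniteDimensional C W]
    (s : ℤ) : FiniteDimensional C (cutAt W s) :=
  Submodule.finiteDimensional_of_le (cutAt_le W s)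

/-- Decomposition of a vector of `W` along a vector `v` with `v.coeff s ≠ 0`. -/
theorem sub_smul_mem_cutAt {W : Submodule C (LaurentSeries C)} {s : ℤ} {v w : LaurentSeries C}
    (hv : v ∈ W) (hs : v.coeff s ≠ 0) (hw : w ∈ W) :
    w - (w.coeff s / v.coeff s) • v ∈ cutAt W s := by
  refine mem_cutAt.mpr ⟨W.sub_mem hw (W.smul_mem _ hv), ?_⟩
  rw [HahnSeries.coeff_sub, HahnSeries.coeff_smul, smul_eq_mul, div_mul_cancel₀ _ hs, sub_self]

/-- The orders of the nonzero elements of a finite-dimensional space of Laurent series are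
bounded above. -/
theorem exists_order_le (W : Submodule C (LaurentSeries C)) [FiniteDimensional C W] :
    ∃ B : ℤ, ∀ v ∈ W, v ≠ 0 → v.order ≤ B := by
  induction' hd : Module.finrank C W using Nat.strong_induction_on with d ih generalizing W
  by_cases hW : ∃ v ∈ W, v ≠ 0
  · obtain ⟨v, hvW, hv0⟩ := hW
    have hs : v.coeff v.order ≠ 0 := fun h => hv0 (HahnSeries.coeff_order_eq_zero.mp h)
    obtain ⟨B, hB⟩ := ih _ (hd ▸ finrank_cutAt_lt hvW hs) (cutAt W v.order) rfl
    refine ⟨max B v.order, fun w hw hw0 => ?_⟩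
    by_cases hc : w.coeff v.order = 0
    · exact (hB w (mem_cutAt.mpr ⟨hw, hc⟩) hw0).trans (le_max_left _ _)
    · exact (HahnSeries.order_le_of_coeff_ne_zero hc).trans (le_max_right _ _)
  · exact ⟨0, fun v hv hv0 => (hW ⟨v, hv, hv0⟩).elim⟩

/-- A nonzero space with bounded orders, stable under `H`, contains a nonzero `H`-fixed vector
(the vector of maximal order with leading coefficient `1`). -/
theorem exists_fixed_of_order_le (W : Submodule C (LaurentSeries C))
    (hW : ∃ v ∈ W, v ≠ 0) (B : ℤ) (hB : ∀ v ∈ W, v ≠ 0 → v.order ≤ B)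
    (H : Set (C →+* C)) (hH : ∀ σ ∈ H, ∀ v ∈ W, coeffMap σ v ∈ W) :
    ∃ v ∈ W, v ≠ 0 ∧ ∀ σ ∈ H, coeffMap σ v = v := by
  classical
  obtain ⟨s, ⟨v₁, hv₁W, hv₁0, hv₁s⟩, hmax⟩ :=
    Int.exists_greatest_of_bdd (P := fun n : ℤ => ∃ v ∈ W, v ≠ 0 ∧ v.order = n)
      ⟨B, fun z ⟨v, hvW, hv0, hvz⟩ => hvz ▸ hB v hvW hv0⟩
      (by obtain ⟨v, hvW, hv0⟩ := hW; exact ⟨v.order, v, hvW, hv0, rfl⟩)
  have hc : v₁.coeff s ≠ 0 := by
    rw [← hv₁s]
    exact fun h => hv₁0 (HahnSeries.coeff_order_eq_zero.mp h)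
  set v : LaurentSeries C := (v₁.coeff s)⁻¹ • v₁ with hv
  have hvW : v ∈ W := W.smul_mem _ hv₁W
  have hvs : v.coeff s = 1 := by
    rw [hv, HahnSeries.coeff_smul, smul_eq_mul, inv_mul_cancel₀ hc]
  have hvlt : ∀ k < s, v.coeff k = 0 := by
    intro k hk
    have h0 : v₁.coeff k = 0 := HahnSeries.coeff_eq_zero_of_lt_order (by rw [hv₁s]; exact hk)
    rw [hv, HahnSeries.coeff_smul, h0, smul_zero]
  have hv0 : v ≠ 0 := by
    intro h
    rw [h] at hvs
    simp at hvs
  refine ⟨v, hvW, hv0, fun σ hσ => ?_⟩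
  by_contra hne
  have hd0 : coeffMap σ v - v ≠ 0 := sub_ne_zero.mpr hne
  have hdW : coeffMap σ v - v ∈ W := W.sub_mem (hH σ hσ v hvW) hvW
  have hle : (coeffMap σ v - v).order ≤ s := hmax _ ⟨_, hdW, hd0, rfl⟩
  have hcoeff : ∀ k ≤ s, (coeffMap σ v - v).coeff k = 0 := by
    intro k hk
    rw [HahnSeries.coeff_sub, coeffMap_coeff]
    rcases hk.lt_or_eq with h | h
    · rw [hvlt k h, map_zero, sub_zero]
    · rw [h, hvs, map_one, sub_self]
  exact hd0 (HahnSeries.coeff_order_eq_zero.mp (hcoeff _ hle))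

/-- **Echelon descent.**  A finite-dimensional space of Laurent series which is stable under a
set `H` of coefficientwise ring endomorphisms is spanned by its `H`-fixed vectors. -/
theorem le_span_fixed (W : Submodule C (LaurentSeries C)) [FiniteDimensional C W]
    (H : Set (C →+* C)) (hH : ∀ σ ∈ H, ∀ v ∈ W, coeffMap σ v ∈ W) :
    W ≤ Submodule.span C {v | v ∈ W ∧ ∀ σ ∈ H, coeffMap σ v = v} := by
  induction' hd : Module.finrank C W using Nat.strong_induction_on with d ih generalizing W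
  by_cases hW : ∃ v ∈ W, v ≠ 0
  · obtain ⟨B, hB⟩ := exists_order_le W
    obtain ⟨v, hvW, hv0, hvfix⟩ := exists_fixed_of_order_le W hW B hB H hH
    have hs : v.coeff v.order ≠ 0 := fun h => hv0 (HahnSeries.coeff_order_eq_zero.mp h)
    have hcut : ∀ σ ∈ H, ∀ w ∈ cutAt W v.order, coeffMap σ w ∈ cutAt W v.order := by
      intro σ hσ w hw
      obtain ⟨hwW, hw0⟩ := mem_cutAt.mp hw
      exact mem_cutAt.mpr ⟨hH σ hσ w hwW, by rw [coeffMap_coeff, hw0, map_zero]⟩
    have ih' := ih _ (hd ▸ finrank_cutAt_lt hvW hs) (cutAt W v.order) hcut rfl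
    intro w hw
    have h1 : w - (w.coeff v.order / v.coeff v.order) • v ∈
        Submodule.span C {v | v ∈ W ∧ ∀ σ ∈ H, coeffMap σ v = v} := by
      refine Submodule.span_mono ?_ (ih' (sub_smul_mem_cutAt hvW hs hw))
      rintro u ⟨hu, hufix⟩
      exact ⟨cutAt_le W _ hu, hufix⟩
    have h2 : (w.coeff v.order / v.coeff v.order) • v ∈
        Submodule.span C {v | v ∈ W ∧ ∀ σ ∈ H, coeffMap σ v = v} :=
      Submodule.smul_mem _ _ (Submodule.subset_span ⟨hvW, hvfix⟩)
    have := Submodule.add_mem _ h1 h2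
    rwa [sub_add_cancel] at this
  · intro w hw
    have : w = 0 := by
      by_contra h
      exact hW ⟨w, hw, h⟩
    rw [this]
    exact Submodule.zero_mem _

end Fermat.Agent.S17.H200

end
end
-- ===== PACK-END S17/H200/EchelonSpan.lean

-- ===== PACK-BEGIN S17/H830/NSClosure.lean
section


/-!
# S17 / G-DIV, piece NS (helper830), part 3: relative algebraic closures as subfields

Mathlib only.  For a subfield `K` of a field `L` and a set `T ⊆ L`:

* `aclo K T : Subfield L` : the elements of `L` algebraic over `K(T)` (= over the subalgebra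
  `K[T]`);
* `le_aclo`, `subset_aclo`, `aclo_algClosed` (it is algebraically closed in `L`),
  `countable_aclo`;
* `not_mem_aclo_of_algebraicIndependent` : if `x` is algebraically independent over `K` and
  `i ∉ s`, then `x i ∉ aclo K (x '' s)`.
-/

set_option autoImplicit false

noncomputable section

namespace Fermat.Agent.S17.H830

open Cardinal

universe u

variable {L : Type u} [Field L]

/-- The elements of `L` which are algebraic over `K(T)`. -/
def aclo (K : Subfield L) (T : Set L) : Subfield L where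
  carrier := {x | IsAlgebraic (Algebra.adjoin K T) x}
  mul_mem' ha hb := IsAlgebraic.mul ha hb
  one_mem' := isAlgebraic_one
  add_mem' ha hb := IsAlgebraic.add ha hb
  zero_mem' := isAlgebraic_zero
  neg_mem' ha := IsAlgebraic.neg ha
  inv_mem' _ hx := IsAlgebraic.inv hx

theorem mem_aclo {K : Subfield L} {T : Set L} {x : L} :
    x ∈ aclo K T ↔ IsAlgebraic (Algebra.adjoin K T) x := Iff.rfl

theorem adjoin_le_aclo (K : Subfield L) (T : Set L) (a : Algebra.adjoin K T) :
    (a : L) ∈ aclo K T :=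
  isAlgebraic_algebraMap a

theorem le_aclo (K : Subfield L) (T : Set L) : K ≤ aclo K T := fun x hx =>
  adjoin_le_aclo K T ⟨x, Subalgebra.algebraMap_mem _ (⟨x, hx⟩ : K)⟩

theorem subset_aclo (K : Subfield L) (T : Set L) : T ⊆ aclo K T := fun x hx =>
  adjoin_le_aclo K T ⟨x, Algebra.subset_adjoin hx⟩

/-- `aclo K T` is algebraically closed in `L`. -/
theorem aclo_algClosed (K : Subfield L) (T : Set L) (x : L)
    (hx : IsAlgebraic (aclo K T) x) : x ∈ aclo K T := by
  let A := Algebra.adjoin K T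
  let B : Subalgebra A L := Subalgebra.algebraicClosure A L
  let f : aclo K T →+* B :=
    { toFun := fun y => ⟨y.1, y.2⟩
      map_one' := rfl
      map_mul' := fun _ _ => rfl
      map_zero' := rfl
      map_add' := fun _ _ => rfl }
  have hf : Function.Injective f := fun a b h => Subtype.ext (congrArg (fun z : B => (z : L)) h)
  have h1 : IsAlgebraic B ((RingHom.id L) x) :=
    hx.ringHom_of_comp_eq f (RingHom.id L) hf (by ext; rfl)
  exact IsAlgebraic.restrictScalars A h1

theorem countable_aclo {K : Subfield L} {T : Set L} (hK : (K : Set L).Countable)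
    (hT : T.Countable) : (aclo K T : Set L).Countable := by
  let A := Algebra.adjoin K T
  let B : Subalgebra A L := Subalgebra.algebraicClosure A L
  have hA : #A ≤ ℵ₀ := by
    refine (Algebra.cardinalMk_adjoin_le (R := K) T).trans ?_
    have h1 : #K ≤ ℵ₀ := Cardinal.le_aleph0_iff_set_countable.mpr hK
    have h2 : #T ≤ ℵ₀ := Cardinal.le_aleph0_iff_set_countable.mpr hT
    exact max_le (max_le h1 h2) le_rfl
  have hB : #B ≤ ℵ₀ :=
    (Algebra.IsAlgebraic.cardinalMk_le_max A B).trans (max_le hA le_rfl)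
  have hB' : ((B : Set L)).Countable := Cardinal.le_aleph0_iff_set_countable.mp hB
  exact hB'

/-- An element of an algebraically independent family is not algebraic over the others. -/
theorem not_mem_aclo_of_algebraicIndependent {K : Subfield L} {ι : Type*} {x : ι → L}
    (hx : AlgebraicIndependent K x) {s : Set ι} {i : ι} (hi : i ∉ s) :
    x i ∉ aclo K (x '' s) :=
  hx.transcendental_adjoin hi

end Fermat.Agent.S17.H830

end
end
-- ===== PACK-END S17/H830/NSClosure.lean

-- ===== PACK-BEGIN S18/H665/StepA.lean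
section
/-
S18 / Step a (helper665): Prelude unfolding.

`S18  ⇐  Core N A m  +  ConstLemma (residue field) N`, using ALL THREE parts of the hypothesis
`ReductionInputsModL A N` (degree preservation, (ii) compatibility of `r_*` with divisors of
integral functions, (iii) PGI).  No `HasPrincipalDivisors`, no QEP, no scaling argument is needed.

* `Good A N U`     : `U ∈ A((q))`, its image in `ℚ̄((q))` lies in `F = modularFunctionFieldBar N`,
                     its reduction lies in `F_k = modularFunctionFieldFullC k N` and is nonzero.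
* `Core N A m`     : for good `U₁, U₂` with equal reductions such that `m ∣ ord_P (U₁ / U₂)` at every
                     place `P` of `F`, the quotient `U₁ / U₂` is an `m`-th power in `F`.
* `ConstLemma k N` : a nonzero element of `F_k` all of whose orders vanish is a constant.
-/


set_option autoImplicit false
set_option synthInstance.maxHeartbeats 400000

noncomputable section

namespace Fermat.Agent.S18.H665

open HahnSeries IntermediateField AlgebraicCurve ModularCurve

/-- `ℚ̄`. -/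
abbrev Kb : Type := AlgebraicClosure ℚ

variable (A : ValuationSubring Kb) (N : ℕ)

/-- The residue field of `A`. -/
abbrev kA : Type := IsLocalRing.ResidueField A

/-- The function field of `X₀(N)` over `ℚ̄`, as a type. -/
abbrev FN : Type := ↥(modularFunctionFieldBar N)

/-- The mod-`ℓ` function field, as a type. -/
abbrev FkN : Type := ↥(modularFunctionFieldFullC (kA A) N)

/-- Integral Laurent series with image in `F` and nonzero reduction in `F_k`. -/
structure Good (U : LaurentSeries A) : Prop where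
  memF : coeffMap A.subtype U ∈ modularFunctionFieldBar N
  memFk : coeffMap (IsLocalRing.residue A) U ∈ modularFunctionFieldFullC (kA A) N
  ne : coeffMap (IsLocalRing.residue A) U ≠ 0

variable {A N}

/-- The element of `F` defined by a good series. -/
def Good.toF {U : LaurentSeries A} (h : Good A N U) : FN N := ⟨coeffMap A.subtype U, h.memF⟩

/-- The element of `F_k` defined by a good series. -/
def Good.toFk {U : LaurentSeries A} (h : Good A N U) : FkN A N :=
  ⟨coeffMap (IsLocalRing.residue A) U, h.memFk⟩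

theorem coeffMap_subtype_injective :
    Function.Injective (coeffMap (A.subtype) : LaurentSeries A → LaurentSeries Kb) := by
  intro x y hxy
  ext n
  have := congrArg (fun z => z.coeff n) hxy
  simpa using this

theorem Good.ne_zero {U : LaurentSeries A} (h : Good A N U) : U ≠ 0 := by
  rintro rfl
  exact h.ne (map_zero _)

theorem Good.toF_ne_zero {U : LaurentSeries A} (h : Good A N U) : h.toF ≠ 0 := by
  intro h0
  have h1 : coeffMap A.subtype U = 0 := congrArg Subtype.val h0
  exact h.ne_zero (coeffMap_subtype_injective (h1.trans (map_zero _).symm))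

theorem Good.toFk_ne_zero {U : LaurentSeries A} (h : Good A N U) : h.toFk ≠ 0 := by
  intro h0
  exact h.ne (congrArg Subtype.val h0)

theorem Good.one : Good A N (1 : LaurentSeries A) where
  memF := by rw [map_one]; exact one_mem _
  memFk := by rw [map_one]; exact one_mem _
  ne := by rw [map_one]; exact one_ne_zero

theorem Good.mul {U V : LaurentSeries A} (hU : Good A N U) (hV : Good A N V) :
    Good A N (U * V) where
  memF := by rw [map_mul]; exact mul_mem hU.memF hV.memF
  memFk := by rw [map_mul]; exact mul_mem hU.memFk hV.memFk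
  ne := by rw [map_mul]; exact mul_ne_zero hU.ne hV.ne

theorem Good.pow {U : LaurentSeries A} (hU : Good A N U) (n : ℕ) : Good A N (U ^ n) := by
  induction n with
  | zero => rw [pow_zero]; exact Good.one
  | succ n ih => rw [pow_succ]; exact ih.mul hU

@[simp] theorem Good.toF_one : (Good.one : Good A N 1).toF = 1 :=
  Subtype.ext (map_one _)

@[simp] theorem Good.toFk_one : (Good.one : Good A N 1).toFk = 1 :=
  Subtype.ext (map_one _)

theorem Good.toF_mul {U V : LaurentSeries A} (hU : Good A N U) (hV : Good A N V) :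
    (hU.mul hV).toF = hU.toF * hV.toF :=
  Subtype.ext (map_mul _ _ _)

theorem Good.toFk_mul {U V : LaurentSeries A} (hU : Good A N U) (hV : Good A N V) :
    (hU.mul hV).toFk = hU.toFk * hV.toFk :=
  Subtype.ext (map_mul _ _ _)

theorem Good.toF_pow {U : LaurentSeries A} (hU : Good A N U) (n : ℕ) :
    (hU.pow n).toF = hU.toF ^ n :=
  Subtype.ext (map_pow _ _ _)

theorem Good.toFk_pow {U : LaurentSeries A} (hU : Good A N U) (n : ℕ) :
    (hU.pow n).toFk = hU.toFk ^ n :=
  Subtype.ext (map_pow _ _ _)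

/-- The two target statements. -/
def Core (N : ℕ) (A : ValuationSubring Kb) (m : ℕ) : Prop :=
  ∀ (U₁ U₂ : LaurentSeries A) (h₁ : Good A N U₁) (h₂ : Good A N U₂),
    coeffMap (IsLocalRing.residue A) U₁ = coeffMap (IsLocalRing.residue A) U₂ →
    (∀ P : Place Kb (FN N), (m : ℤ) ∣ P.ord (h₁.toF / h₂.toF)) →
    ∃ y : FN N, y ^ m = h₁.toF / h₂.toF

/-- A nonzero element of `F_k` without zeros and poles is constant. -/
def ConstLemma (N : ℕ) (A : ValuationSubring Kb) : Prop :=
  ∀ f : FkN A N, f ≠ 0 → (∀ Q : Place (kA A) (FkN A N), Q.ord f = 0) →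
    ∃ c : kA A, f = algebraMap (kA A) (FkN A N) c

/-! ### Orders -/

section ord

variable {K F : Type*} [Field K] [Field F] [Algebra K F] (P : Place K F)

theorem ord_algebraMap_eq_zero (c : K) : P.ord (algebraMap K F c) = 0 := by
  rcases eq_or_ne c 0 with rfl | hc
  · rw [map_zero, Place.ord_zero]
  · have h1 : algebraMap K F c ∈ P.toValuationSubring := P.algebraMap_mem' c
    have h2 : algebraMap K F c⁻¹ ∈ P.toValuationSubring := P.algebraMap_mem' c⁻¹
    let u : P.toValuationSubringˣ :=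
      { val := ⟨algebraMap K F c, h1⟩
        inv := ⟨algebraMap K F c⁻¹, h2⟩
        val_inv := by
          apply Subtype.ext
          show algebraMap K F c * algebraMap K F c⁻¹ = 1
          rw [← map_mul, mul_inv_cancel₀ hc, map_one]
        inv_val := by
          apply Subtype.ext
          show algebraMap K F c⁻¹ * algebraMap K F c = 1
          rw [← map_mul, inv_mul_cancel₀ hc, map_one] }
    exact P.ord_coe_unit u

theorem ord_div' {f g : F} (hf : f ≠ 0) (hg : g ≠ 0) : P.ord (f / g) = P.ord f - P.ord g := by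
  rw [div_eq_mul_inv, P.ord_mul hf (inv_ne_zero hg), P.ord_inv, sub_eq_add_neg]

theorem ord_pow' (f : F) (n : ℕ) : P.ord (f ^ n) = n * P.ord f := by
  have := P.ord_zpow f (n : ℤ)
  rwa [zpow_natCast] at this

end ord

/-! ### PGI closure -/

theorem exists_good_of_mem_closure
    {r : Place Kb (FN N) → Place (kA A) (FkN A N)}
    (hr : IsPlaceReductionModL A N r)
    {E : Divisor Kb (FN N)}
    (hE : E ∈ AddSubgroup.closure (integralPrincipalDivisors A (IsLocalRing.residue A) N)) :
    ∃ (U₁ U₂ : LaurentSeries A) (h₁ : Good A N U₁) (h₂ : Good A N U₂),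
      (∀ P : Place Kb (FN N), E P = P.ord h₁.toF - P.ord h₂.toF) ∧
      (∀ Q : Place (kA A) (FkN A N),
        Finsupp.mapDomain r E Q = Q.ord h₁.toFk - Q.ord h₂.toFk) := by
  induction hE using AddSubgroup.closure_induction with
  | mem E hE =>
    obtain ⟨y, hy, hyk, hne, hEy⟩ := hE
    refine ⟨y, 1, ⟨hy, hyk, hne⟩, Good.one, fun P => ?_, fun Q => ?_⟩
    · rw [Good.toF_one, Place.ord_one, sub_zero]; exact hEy P
    · rw [Good.toFk_one, Place.ord_one, sub_zero]
      exact hr.2 y hy hyk hne E hEy Q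
  | zero =>
    refine ⟨1, 1, Good.one, Good.one, fun P => ?_, fun Q => ?_⟩
    · rw [sub_self]; rfl
    · rw [sub_self, Finsupp.mapDomain_zero]; rfl
  | add E E' _ _ hE hE' =>
    obtain ⟨U₁, U₂, h₁, h₂, hP, hQ⟩ := hE
    obtain ⟨U₁', U₂', h₁', h₂', hP', hQ'⟩ := hE'
    refine ⟨U₁ * U₁', U₂ * U₂', h₁.mul h₁', h₂.mul h₂', fun P => ?_, fun Q => ?_⟩
    · rw [Finsupp.add_apply, hP P, hP' P, Good.toF_mul h₁ h₁', Good.toF_mul h₂ h₂',
        P.ord_mul h₁.toF_ne_zero h₁'.toF_ne_zero, P.ord_mul h₂.toF_ne_zero h₂'.toF_ne_zero]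
      ring
    · rw [Finsupp.mapDomain_add, Finsupp.add_apply, hQ Q, hQ' Q, Good.toFk_mul h₁ h₁',
        Good.toFk_mul h₂ h₂',
        Q.ord_mul h₁.toFk_ne_zero h₁'.toFk_ne_zero, Q.ord_mul h₂.toFk_ne_zero h₂'.toFk_ne_zero]
      ring
  | neg E _ hE =>
    obtain ⟨U₁, U₂, h₁, h₂, hP, hQ⟩ := hE
    refine ⟨U₂, U₁, h₂, h₁, fun P => ?_, fun Q => ?_⟩
    · rw [Finsupp.neg_apply, hP P]; ring
    · have : Finsupp.mapDomain r (-E) = -Finsupp.mapDomain r E := by
        rw [← Finsupp.mapDomain.addMonoidHom_apply, map_neg, Finsupp.mapDomain.addMonoidHom_apply]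
      rw [this, Finsupp.neg_apply, hQ Q]; ring

/-! ### Lifting elements of `F_k` -/

theorem qExpand_jqModC_mem_bar {d : ℕ} [NeZero d] (hd : d ∣ N) :
    qExpand Kb d (jqModC Kb) ∈ modularFunctionFieldBar N := by
  have h : qExpand Kb d (jqModC Kb) = coeffEmb Kb (qExpand ℚ d jq) := by
    rw [coeffEmb, coeffMap_qExpand, ← jqModC_rat, coeffMap_jqModC]
  rw [h]
  exact coeffEmb_mem_laurentBaseChange Kb (jqd_mem_full N hd)

theorem const_mem_bar (c : Kb) :
    (HahnSeries.single (0 : ℤ) c : LaurentSeries Kb) ∈ modularFunctionFieldBar N := by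
  rw [← algebraMap_laurentSeries_eq_single]
  exact (modularFunctionFieldBar N).algebraMap_mem c

theorem const_mem_Fk (c : kA A) :
    (HahnSeries.single (0 : ℤ) c : LaurentSeries (kA A)) ∈
      modularFunctionFieldFullC (kA A) N := by
  rw [← algebraMap_laurentSeries_eq_single]
  exact (modularFunctionFieldFullC (kA A) N).algebraMap_mem c

theorem exists_lift_of_mem_algebra_adjoin {x : LaurentSeries (kA A)}
    (hx : x ∈ Algebra.adjoin (kA A) (divisorExpansionsC (kA A) N)) :
    ∃ a : LaurentSeries A, coeffMap A.subtype a ∈ modularFunctionFieldBar N ∧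
      coeffMap (IsLocalRing.residue A) a = x := by
  induction hx using Algebra.adjoin_induction with
  | mem x hx =>
    obtain ⟨d, hd0, hdN, rfl⟩ := hx
    have := hd0
    refine ⟨qExpand A d (jqModC A), ?_, ?_⟩
    · rw [coeffMap_qExpand, coeffMap_jqModC]
      exact qExpand_jqModC_mem_bar hdN
    · rw [coeffMap_qExpand, coeffMap_jqModC]
  | algebraMap c =>
    obtain ⟨c', rfl⟩ := IsLocalRing.residue_surjective c
    refine ⟨HahnSeries.single (0 : ℤ) c', ?_, ?_⟩
    · rw [coeffMap_single]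
      exact const_mem_bar _
    · rw [coeffMap_single, algebraMap_laurentSeries_eq_single]
  | add x y _ _ hx hy =>
    obtain ⟨a, ha, rfl⟩ := hx
    obtain ⟨b, hb, rfl⟩ := hy
    exact ⟨a + b, by rw [map_add]; exact add_mem ha hb, map_add _ _ _⟩
  | mul x y _ _ hx hy =>
    obtain ⟨a, ha, rfl⟩ := hx
    obtain ⟨b, hb, rfl⟩ := hy
    exact ⟨a * b, by rw [map_mul]; exact mul_mem ha hb, map_mul _ _ _⟩

/-- Every nonzero element of `F_k` is a quotient of reductions of good series. -/
theorem exists_good_div (g : FkN A N) (hg : g ≠ 0) :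
    ∃ (a b : LaurentSeries A) (ha : Good A N a) (hb : Good A N b), g = ha.toFk / hb.toFk := by
  obtain ⟨r, hr, s, hs, hgrs⟩ := IntermediateField.mem_adjoin_iff_div.mp g.2
  have hle : ∀ {x : LaurentSeries (kA A)},
      x ∈ Algebra.adjoin (kA A) (divisorExpansionsC (kA A) N) →
      x ∈ modularFunctionFieldFullC (kA A) N := fun {x} hx =>
    IntermediateField.algebra_adjoin_le_adjoin _ _ hx
  have hg' : (g : LaurentSeries (kA A)) ≠ 0 := fun h => hg (Subtype.ext h)
  have hs0 : s ≠ 0 := by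
    rintro rfl
    rw [div_zero] at hgrs
    exact hg' hgrs
  have hr0 : r ≠ 0 := by
    rintro rfl
    rw [zero_div] at hgrs
    exact hg' hgrs
  obtain ⟨a, haF, rfl⟩ := exists_lift_of_mem_algebra_adjoin hr
  obtain ⟨b, hbF, rfl⟩ := exists_lift_of_mem_algebra_adjoin hs
  refine ⟨a, b, ⟨haF, hle hr, hr0⟩, ⟨hbF, hle hs, hs0⟩, ?_⟩
  apply Subtype.ext
  rw [hgrs]
  rfl

/-! ### Assembly -/

theorem good_const {c : A} (hc : IsLocalRing.residue A c ≠ 0) :
    Good A N (HahnSeries.single (0 : ℤ) c : LaurentSeries A) where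
  memF := by rw [coeffMap_single]; exact const_mem_bar _
  memFk := by rw [coeffMap_single]; exact const_mem_Fk _
  ne := by
    rw [coeffMap_single]
    intro h0
    have := congrArg (fun z => z.coeff 0) h0
    simp only [HahnSeries.coeff_single_same, HahnSeries.coeff_zero] at this
    exact hc this

theorem good_const_toF {c : A} (hc : IsLocalRing.residue A c ≠ 0) :
    (good_const (N := N) hc).toF = algebraMap Kb (FN N) (c : Kb) := by
  apply Subtype.ext
  show coeffMap A.subtype (HahnSeries.single (0 : ℤ) c) = algebraMap Kb (LaurentSeries Kb) (c : Kb)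
  rw [coeffMap_single, algebraMap_laurentSeries_eq_single]
  rfl

theorem good_const_toFk {c : A} (hc : IsLocalRing.residue A c ≠ 0) :
    (good_const (N := N) hc).toFk = algebraMap (kA A) (FkN A N) (IsLocalRing.residue A c) := by
  apply Subtype.ext
  show coeffMap (IsLocalRing.residue A) (HahnSeries.single (0 : ℤ) c) =
    algebraMap (kA A) (LaurentSeries (kA A)) (IsLocalRing.residue A c)
  rw [coeffMap_single, algebraMap_laurentSeries_eq_single]

set_option maxHeartbeats 3200000 in
/-- **Step a**: `S18` follows from `Core` and `ConstLemma`. -/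
theorem S18_of_core (h : ReductionInputsModL A N) {m : ℕ} (hm0 : m ≠ 0)
    (hconst : ConstLemma N A) (hcore : Core N A m)
    (z : JZero N) (hmz : m • z = 0) (hz : reductionModL A N z = 0) : z = 0 := by
  obtain ⟨D, rfl⟩ := Pic0.mk_surjective z
  have hr : IsPlaceReductionModL A N (placeReductionModL h) :=
    isPlaceReductionModL_placeReductionModL h
  have hgen : PrincipalGeneratedByIntegral A (IsLocalRing.residue A) N := h.choose_spec.2
  set r := placeReductionModL h with hr_def
  -- `m • D` is principal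
  have h1 : (m • (D : Divisor Kb (FN N))) ∈ Divisor.principal (K := Kb) (F := FN N) := by
    have h0 : Pic0.mk (m • D) = 0 := by
      rw [← hmz]; rfl
    have := (QuotientAddGroup.eq_zero_iff _).mp h0
    simpa [AddSubgroup.mem_addSubgroupOf] using this
  -- `r_* D` is principal
  have h2 : Finsupp.mapDomain r (D : Divisor Kb (FN N)) ∈
      Divisor.principal (K := kA A) (F := FkN A N) := by
    rw [reductionModL_mk h D] at hz
    have := (QuotientAddGroup.eq_zero_iff _).mp hz
    simpa [AddSubgroup.mem_addSubgroupOf] using this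
  obtain ⟨U₁, U₂, hU₁, hU₂, hP, hQ⟩ := exists_good_of_mem_closure hr (hgen h1)
  obtain ⟨g, hg0, hg⟩ := h2
  obtain ⟨a, b, ha, hb, hgab⟩ := exists_good_div g hg0
  -- orders on `F_k`
  have hQm : ∀ Q : Place (kA A) (FkN A N),
      (m : ℤ) * Q.ord g = Q.ord hU₁.toFk - Q.ord hU₂.toFk := by
    intro Q
    rw [← hQ Q, ← hg Q]
    have : Finsupp.mapDomain r (m • (D : Divisor Kb (FN N))) =
        m • Finsupp.mapDomain r (D : Divisor Kb (FN N)) := by
      rw [← Finsupp.mapDomain.addMonoidHom_apply, map_nsmul,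
        Finsupp.mapDomain.addMonoidHom_apply]
    rw [this, Finsupp.smul_apply, nsmul_eq_mul]
  -- the constant
  have hV₁ : Good A N (U₁ * b ^ m) := hU₁.mul (hb.pow m)
  have hW : Good A N (U₂ * a ^ m) := hU₂.mul (ha.pow m)
  have hV₁k : hV₁.toFk = hU₁.toFk * hb.toFk ^ m := by
    rw [← Good.toFk_pow hb m]; exact Good.toFk_mul hU₁ (hb.pow m)
  have hWk : hW.toFk = hU₂.toFk * ha.toFk ^ m := by
    rw [← Good.toFk_pow ha m]; exact Good.toFk_mul hU₂ (ha.pow m)
  have hV₁F : hV₁.toF = hU₁.toF * hb.toF ^ m := by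
    rw [← Good.toF_pow hb m]; exact Good.toF_mul hU₁ (hb.pow m)
  have hWF : hW.toF = hU₂.toF * ha.toF ^ m := by
    rw [← Good.toF_pow ha m]; exact Good.toF_mul hU₂ (ha.pow m)
  have hf0 : hV₁.toFk / hW.toFk ≠ 0 := div_ne_zero hV₁.toFk_ne_zero hW.toFk_ne_zero
  have hford : ∀ Q : Place (kA A) (FkN A N), Q.ord (hV₁.toFk / hW.toFk) = 0 := by
    intro Q
    rw [ord_div' Q hV₁.toFk_ne_zero hW.toFk_ne_zero, hV₁k, hWk,
      Q.ord_mul hU₁.toFk_ne_zero (pow_ne_zero _ hb.toFk_ne_zero),
      Q.ord_mul hU₂.toFk_ne_zero (pow_ne_zero _ ha.toFk_ne_zero), ord_pow', ord_pow']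
    have h3 := hQm Q
    rw [hgab, ord_div' Q ha.toFk_ne_zero hb.toFk_ne_zero] at h3
    linarith
  obtain ⟨cbar, hc⟩ := hconst _ hf0 hford
  have hcbar0 : cbar ≠ 0 := by
    rintro rfl
    rw [map_zero] at hc
    exact hf0 hc
  obtain ⟨c, rfl⟩ := IsLocalRing.residue_surjective cbar
  have hCc : Good A N (HahnSeries.single (0 : ℤ) c : LaurentSeries A) := good_const hcbar0
  have hV₂ : Good A N (HahnSeries.single (0 : ℤ) c * (U₂ * a ^ m)) := hCc.mul hW
  have hV₂k : hV₂.toFk = algebraMap (kA A) (FkN A N) (IsLocalRing.residue A c) * hW.toFk := by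
    rw [← good_const_toFk (N := N) hcbar0]; exact Good.toFk_mul hCc hW
  have hV₂F : hV₂.toF = algebraMap Kb (FN N) (c : Kb) * hW.toF := by
    rw [← good_const_toF (N := N) hcbar0]; exact Good.toF_mul hCc hW
  have hred : coeffMap (IsLocalRing.residue A) (U₁ * b ^ m) =
      coeffMap (IsLocalRing.residue A) (HahnSeries.single (0 : ℤ) c * (U₂ * a ^ m)) := by
    have : hV₁.toFk = hV₂.toFk := by
      rw [hV₂k, ← hc, div_mul_cancel₀ _ hW.toFk_ne_zero]
    exact congrArg Subtype.val this
  have hc0 : algebraMap Kb (FN N) (c : Kb) ≠ 0 := by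
    intro h0
    apply hV₂.toF_ne_zero
    rw [hV₂F, h0, zero_mul]
  have hPm : ∀ P : Place Kb (FN N),
      P.ord (hV₁.toF / hV₂.toF) =
        (m : ℤ) * ((D : Divisor Kb (FN N)) P + P.ord hb.toF - P.ord ha.toF) := by
    intro P
    rw [ord_div' P hV₁.toF_ne_zero hV₂.toF_ne_zero, hV₂F, P.ord_mul hc0 hW.toF_ne_zero,
      ord_algebraMap_eq_zero, hV₁F, hWF,
      P.ord_mul hU₁.toF_ne_zero (pow_ne_zero _ hb.toF_ne_zero),
      P.ord_mul hU₂.toF_ne_zero (pow_ne_zero _ ha.toF_ne_zero), ord_pow', ord_pow']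
    have h3 := hP P
    rw [Finsupp.smul_apply, nsmul_eq_mul] at h3
    linarith
  obtain ⟨y, hy⟩ := hcore _ _ hV₁ hV₂ hred (fun P => ⟨_, hPm P⟩)
  have hy0 : y ≠ 0 := by
    rintro rfl
    rw [zero_pow hm0] at hy
    exact div_ne_zero hV₁.toF_ne_zero hV₂.toF_ne_zero hy.symm
  -- `D = div (y * a / b)`
  have hDprin : (D : Divisor Kb (FN N)) ∈ Divisor.principal (K := Kb) (F := FN N) := by
    refine ⟨y * ha.toF / hb.toF,
      div_ne_zero (mul_ne_zero hy0 ha.toF_ne_zero) hb.toF_ne_zero, fun P => ?_⟩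
    rw [ord_div' P (mul_ne_zero hy0 ha.toF_ne_zero) hb.toF_ne_zero,
      P.ord_mul hy0 ha.toF_ne_zero]
    have h4 : (m : ℤ) * P.ord y =
        (m : ℤ) * ((D : Divisor Kb (FN N)) P + P.ord hb.toF - P.ord ha.toF) := by
      rw [← hPm P, ← hy, ord_pow']
    have hm0' : (m : ℤ) ≠ 0 := by exact_mod_cast hm0
    have h5 := mul_left_cancel₀ hm0' h4
    linarith
  exact (QuotientAddGroup.eq_zero_iff _).mpr (by
    simpa [AddSubgroup.mem_addSubgroupOf] using hDprin)

/-- `S18` in the shape of the frozen statement, from `Core` and `ConstLemma`. -/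
theorem S18_of_core_frozen_shape {ℓ : ℕ} [Fact ℓ.Prime]
    (h : ReductionInputsModL A N) (m : ℕ) (hm : ¬ ℓ ∣ m)
    (hconst : ConstLemma N A) (hcore : Core N A m)
    (z : JZero N) (hmz : m • z = 0) (hz : reductionModL A N z = 0) : z = 0 :=
  S18_of_core h (fun h0 => hm (by rw [h0]; exact dvd_zero ℓ)) hconst hcore z hmz hz

end Fermat.Agent.S18.H665

end
end
-- ===== PACK-END S18/H665/StepA.lean

-- ===== PACK-BEGIN Lib/Haupt/Trunc.lean
section




/-!
# Truncated integer power series as lists (helper637)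

A tiny verified computation model: the first `M` coefficients of a power series over `ℤ` as a
`List ℤ`, with computable list operations mirroring `+`, `-`, `*`, scalar multiples and
`PowerSeries.expand`.  Everything reduces in the kernel, so equalities of truncations of explicit
series can be closed by `decide`.
-/

set_option autoImplicit false

namespace Fermat.Agent.Lib.Haupt

open PowerSeries

/-- The first `M` coefficients of a power series. -/
noncomputable def tr (M : ℕ) (f : PowerSeries ℤ) : List ℤ :=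
  (List.range M).map fun i => coeff i f

/-- List of length `M` from a coefficient function. -/
def ofFn (M : ℕ) (c : ℕ → ℤ) : List ℤ := (List.range M).map c

/-- Truncated product. -/
def lmul (M : ℕ) (a b : List ℤ) : List ℤ :=
  ofFn M fun n => ((List.range (n + 1)).map fun i => a.getD i 0 * b.getD (n - i) 0).sum

/-- Truncated sum. -/
def ladd (M : ℕ) (a b : List ℤ) : List ℤ := ofFn M fun n => a.getD n 0 + b.getD n 0

/-- Truncated difference. -/
def lsub (M : ℕ) (a b : List ℤ) : List ℤ := ofFn M fun n => a.getD n 0 - b.getD n 0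

/-- Truncated scalar multiple. -/
def lsmul (M : ℕ) (c : ℤ) (a : List ℤ) : List ℤ := ofFn M fun n => c * a.getD n 0

/-- Truncated `X ^ k * ·`. -/
def lshift (M k : ℕ) (a : List ℤ) : List ℤ :=
  ofFn M fun n => if k ≤ n then a.getD (n - k) 0 else 0

/-- Truncated `expand d`. -/
def lexpand (M d : ℕ) (a : List ℤ) : List ℤ :=
  ofFn M fun n => if d ∣ n then a.getD (n / d) 0 else 0

/-- The truncation of `1`. -/
def lone (M : ℕ) : List ℤ := ofFn M fun n => if n = 0 then 1 else 0

/-- Truncated power, by iterated multiplication. -/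
def lpow (M : ℕ) (a : List ℤ) : ℕ → List ℤ
  | 0 => lone M
  | k + 1 => lmul M (lpow M a k) a

theorem tr_eq_ofFn (M : ℕ) (f : PowerSeries ℤ) : tr M f = ofFn M fun i => coeff i f := rfl

theorem length_tr (M : ℕ) (f : PowerSeries ℤ) : (tr M f).length = M := by
  simp [tr]

theorem getD_tr {M : ℕ} (f : PowerSeries ℤ) {i : ℕ} (hi : i < M) :
    (tr M f).getD i 0 = coeff i f := by
  simp [tr, List.getD, hi]

theorem ofFn_congr {M : ℕ} {c c' : ℕ → ℤ} (h : ∀ n < M, c n = c' n) : ofFn M c = ofFn M c' := by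
  unfold ofFn
  apply List.map_congr_left
  intro n hn
  exact h n (List.mem_range.mp hn)

theorem coeff_eq_getD_tr {M : ℕ} (f : PowerSeries ℤ) {i : ℕ} (hi : i < M) :
    coeff i f = (tr M f).getD i 0 := (getD_tr f hi).symm

theorem sum_map_range (n : ℕ) (c : ℕ → ℤ) :
    ((List.range n).map c).sum = ∑ i ∈ Finset.range n, c i := rfl

theorem tr_mul (M : ℕ) (f g : PowerSeries ℤ) : tr M (f * g) = lmul M (tr M f) (tr M g) := by
  rw [tr_eq_ofFn]
  unfold lmul
  apply ofFn_congr
  intro n hn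
  rw [coeff_mul, Finset.Nat.sum_antidiagonal_eq_sum_range_succ (fun i j => coeff i f * coeff j g),
    sum_map_range]
  apply Finset.sum_congr rfl
  intro i hi
  have hi' : i < n + 1 := Finset.mem_range.mp hi
  rw [getD_tr f (by omega), getD_tr g (by omega)]

theorem tr_add (M : ℕ) (f g : PowerSeries ℤ) : tr M (f + g) = ladd M (tr M f) (tr M g) := by
  rw [tr_eq_ofFn]
  unfold ladd
  apply ofFn_congr
  intro n hn
  rw [map_add, getD_tr f hn, getD_tr g hn]

theorem tr_sub (M : ℕ) (f g : PowerSeries ℤ) : tr M (f - g) = lsub M (tr M f) (tr M g) := by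
  rw [tr_eq_ofFn]
  unfold lsub
  apply ofFn_congr
  intro n hn
  rw [map_sub, getD_tr f hn, getD_tr g hn]

theorem tr_C_mul (M : ℕ) (c : ℤ) (f : PowerSeries ℤ) :
    tr M (C c * f) = lsmul M c (tr M f) := by
  rw [tr_eq_ofFn]
  unfold lsmul
  apply ofFn_congr
  intro n hn
  rw [coeff_C_mul, getD_tr f hn]

theorem tr_X_pow_mul (M k : ℕ) (f : PowerSeries ℤ) :
    tr M (X ^ k * f) = lshift M k (tr M f) := by
  rw [tr_eq_ofFn]
  unfold lshift
  apply ofFn_congr
  intro n hn
  rw [coeff_X_pow_mul']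
  split_ifs with h
  · rw [getD_tr f (by omega)]
  · rfl

theorem tr_expand (M d : ℕ) (hd : d ≠ 0) (f : PowerSeries ℤ) :
    tr M (expand d hd f) = lexpand M d (tr M f) := by
  rw [tr_eq_ofFn]
  unfold lexpand
  apply ofFn_congr
  intro n hn
  rw [coeff_expand]
  split_ifs with h
  · rw [getD_tr f (lt_of_le_of_lt (Nat.div_le_self n d) hn)]
  · rfl

theorem tr_one (M : ℕ) : tr M (1 : PowerSeries ℤ) = lone M := by
  rw [tr_eq_ofFn]
  unfold lone
  apply ofFn_congr
  intro n _
  rw [coeff_one]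

/-- The truncation of a constant. -/
def lC (M : ℕ) (c : ℤ) : List ℤ := ofFn M fun n => if n = 0 then c else 0

theorem tr_C (M : ℕ) (c : ℤ) : tr M (C c : PowerSeries ℤ) = lC M c := by
  rw [tr_eq_ofFn]
  unfold lC
  apply ofFn_congr
  intro n _
  rw [coeff_C]

theorem tr_pow (M : ℕ) (f : PowerSeries ℤ) (k : ℕ) : tr M (f ^ k) = lpow M (tr M f) k := by
  induction k with
  | zero => rw [pow_zero, tr_one]; rfl
  | succ k ih => rw [pow_succ, tr_mul, ih]; rfl

/-- Two power series with the same truncation agree in degrees `< M`. -/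
theorem coeff_eq_of_tr_eq {M : ℕ} {f g : PowerSeries ℤ} (h : tr M f = tr M g) {n : ℕ}
    (hn : n < M) : coeff n f = coeff n g := by
  rw [coeff_eq_getD_tr f hn, coeff_eq_getD_tr g hn, h]

/-- A power series whose truncation is zero has vanishing coefficients in degrees `< M`. -/
theorem coeff_eq_zero_of_tr_eq {M : ℕ} {f : PowerSeries ℤ}
    (h : tr M f = List.replicate M 0) {n : ℕ} (hn : n < M) : coeff n f = 0 := by
  rw [coeff_eq_getD_tr f hn, h]
  simp [List.getD, hn]

end Fermat.Agent.Lib.Haupt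

end
-- ===== PACK-END Lib/Haupt/Trunc.lean

-- ===== PACK-BEGIN S18/H214/LocalUFD.lean
section


/-!
# S18, route K, pieces b3/b4 — local structure at a closed point of the special fibre

Mathlib-only.  `A` is a noetherian local domain, `w ∈ A` a non-unit such that `A ⧸ (w)` is a
principal ideal domain (in the application: `A = B_𝔓`, `𝔓 ∋ w` a maximal ideal of the chart `B`,
and `A ⧸ (w)` is the local ring of the *normal* special fibre, piece b2).

* `isPrincipal_of_notMem_of_map_isPrincipal` : a prime `𝔮 ∌ w` whose image in `A ⧸ (w)` is principal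
  is principal (Nakayama).
* `ufd_of_quotient_isPrincipalIdealRing` : `A` is a UFD (Kaplansky's criterion).
* `exists_unit_mul_pow_of_dvd_count` : in a UFD, an element all of whose prime multiplicities are
  divisible by `p` is a unit times a `p`-th power.
* `local_kummer_structure` : (LS) if `u = a / s` with `a ≡ s ≢ 0 mod w` and `u ∈ (A_(π))ˣ · (Fˣ)^p`
  for every prime element `π` of `A` not associated to `w`, then `u = c · (t₁ / t₂)^p` with
  `c ∈ Aˣ`, `c ≡ 1`, `t₁ ≡ t₂ ≢ 0 mod w`.
-/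

set_option autoImplicit false

namespace Fermat.Agent.S18.H214

section Principal

variable {A : Type*} [CommRing A]

/-- Nakayama: if `w` lies in the Jacobson radical, `𝔮` is a finitely generated prime ideal not
containing `w`, and the image of `𝔮` in `A ⧸ (w)` is principal, then `𝔮` is principal. -/
theorem isPrincipal_of_notMem_of_map_isPrincipal (w : A) (hw : w ∈ (⊥ : Ideal A).jacobson)
    (𝔮 : Ideal A) [h𝔮 : 𝔮.IsPrime] (hfg : 𝔮.FG) (hq : w ∉ 𝔮)
    (hprin : (𝔮.map (Ideal.Quotient.mk (Ideal.span {w}))).IsPrincipal) :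
    ∃ f : A, 𝔮 = Ideal.span {f} := by
  obtain ⟨fbar, hfbar⟩ := hprin
  have hfmem : fbar ∈ 𝔮.map (Ideal.Quotient.mk (Ideal.span {w})) := by
    rw [hfbar]; exact Submodule.mem_span_singleton_self _
  obtain ⟨f, hf, rfl⟩ :=
    (Ideal.mem_map_iff_of_surjective _ Ideal.Quotient.mk_surjective).1 hfmem
  refine ⟨f, le_antisymm ?_ ((Ideal.span_singleton_le_iff_mem _).2 hf)⟩
  have key : 𝔮 ≤ Ideal.span {f} ⊔ (Ideal.span {w}) • 𝔮 := by
    intro g hg
    have hgm : Ideal.Quotient.mk (Ideal.span {w}) g ∈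
        𝔮.map (Ideal.Quotient.mk (Ideal.span {w})) := Ideal.mem_map_of_mem _ hg
    rw [hfbar] at hgm
    obtain ⟨cbar, hc⟩ := Submodule.mem_span_singleton.1 hgm
    obtain ⟨c, rfl⟩ := Ideal.Quotient.mk_surjective cbar
    have h1 : g - c * f ∈ Ideal.span {w} := by
      rw [← Ideal.Quotient.eq, ← hc]; simp [smul_eq_mul]
    obtain ⟨h, hh⟩ := Ideal.mem_span_singleton'.1 h1
    have h2 : h * w ∈ 𝔮 := by
      rw [hh]; exact 𝔮.sub_mem hg (𝔮.mul_mem_left _ hf)
    have h3 : h ∈ 𝔮 := (h𝔮.mem_or_mem h2).resolve_right hq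
    have h4 : g = c * f + w * h := by linear_combination hh.symm
    rw [h4]
    refine Submodule.add_mem_sup (Ideal.mul_mem_left _ _ (Ideal.mem_span_singleton_self f)) ?_
    exact Submodule.smul_mem_smul (Ideal.mem_span_singleton_self w) h3
  exact Submodule.le_of_le_smul_of_le_jacobson_bot hfg
    ((Ideal.span_singleton_le_iff_mem _).2 hw) key

/-- A noetherian local domain `A` with a nonzero non-unit `w` such that `(w)` is prime and
`A ⧸ (w)` is a principal ideal ring is a UFD. -/
theorem ufd_of_quotient_isPrincipalIdealRing [IsDomain A] [IsNoetherianRing A] [IsLocalRing A]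
    (w : A) (hw0 : w ≠ 0) (hw : ¬ IsUnit w) (hwp : (Ideal.span {w}).IsPrime)
    [IsPrincipalIdealRing (A ⧸ Ideal.span {w})] : UniqueFactorizationMonoid A := by
  refine UniqueFactorizationMonoid.iff_exists_prime_mem_of_isPrime.2 fun I hI hIp => ?_
  by_cases hwI : w ∈ I
  · exact ⟨w, hwI, (Ideal.span_singleton_prime hw0).1 hwp⟩
  · have hjac : w ∈ (⊥ : Ideal A).jacobson := by
      rw [IsLocalRing.jacobson_eq_maximalIdeal ⊥ bot_ne_top]
      exact (IsLocalRing.mem_maximalIdeal w).2 hw
    obtain ⟨f, hf⟩ := isPrincipal_of_notMem_of_map_isPrincipal w hjac I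
      (IsNoetherian.noetherian I) hwI (IsPrincipalIdealRing.principal _)
    have hf0 : f ≠ 0 := by
      rintro rfl
      apply hI
      rw [hf]; simp
    refine ⟨f, hf ▸ Ideal.mem_span_singleton_self f, (Ideal.span_singleton_prime hf0).1 ?_⟩
    rw [← hf]; exact hIp

end Principal

section UFD

variable {A : Type*} [CommRing A] [IsDomain A] [UniqueFactorizationMonoid A]

/-- In a UFD, a nonzero element `n` which at every prime `π` dividing it is a `π`-adic unit times a
`p`-th power (written without denominators: `n * s' * z₂ ^ p = a' * z₁ ^ p` with `π ∤ a' s'`) is a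
unit times a `p`-th power. -/
theorem exists_unit_mul_pow_of_forall_prime (p : ℕ) (n : A) (hn : n ≠ 0)
    (h : ∀ π : A, Prime π → π ∣ n → ∃ a' s' z₁ z₂ : A, ¬ π ∣ a' ∧ ¬ π ∣ s' ∧ z₁ ≠ 0 ∧ z₂ ≠ 0 ∧
      n * s' * z₂ ^ p = a' * z₁ ^ p) :
    ∃ (c : Aˣ) (z : A), n = c * z ^ p := by
  classical
  have hn' : Associates.mk n ≠ 0 := Associates.mk_ne_zero.2 hn
  have hcount : ∀ q : Associates A, Irreducible q →
      p ∣ Associates.count q (Associates.mk n).factors := by
    intro q hq
    obtain ⟨π, rfl⟩ := Associates.mk_surjective q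
    have hπirr : Irreducible π := Associates.irreducible_mk.1 hq
    have hπ : Prime π := UniqueFactorizationMonoid.irreducible_iff_prime.1 hπirr
    by_cases hdvd : π ∣ n
    · obtain ⟨a', s', z₁, z₂, ha', hs', hz₁, hz₂, heq⟩ := h π hπ hdvd
      have ha'0 : a' ≠ 0 := fun h0 => ha' (h0 ▸ dvd_zero π)
      have hs'0 : s' ≠ 0 := fun h0 => hs' (h0 ▸ dvd_zero π)
      have hca : Associates.count (Associates.mk π) (Associates.mk a').factors = 0 := by
        by_contra hne
        exact ha' ((Associates.count_ne_zero_iff_dvd ha'0 hπirr).1 hne)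
      have hcs : Associates.count (Associates.mk π) (Associates.mk s').factors = 0 := by
        by_contra hne
        exact hs' ((Associates.count_ne_zero_iff_dvd hs'0 hπirr).1 hne)
      have e1 : Associates.mk (n * s' * z₂ ^ p) = Associates.mk (a' * z₁ ^ p) := by rw [heq]
      have e2 := congrArg (fun x => Associates.count (Associates.mk π) x.factors) e1
      simp only [Associates.mk_mul_mk.symm, Associates.mk_pow] at e2
      rw [Associates.count_mul (mul_ne_zero hn' (Associates.mk_ne_zero.2 hs'0))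
          (pow_ne_zero _ (Associates.mk_ne_zero.2 hz₂)) hq,
        Associates.count_mul hn' (Associates.mk_ne_zero.2 hs'0) hq,
        Associates.count_mul (Associates.mk_ne_zero.2 ha'0)
          (pow_ne_zero _ (Associates.mk_ne_zero.2 hz₁)) hq,
        Associates.count_pow (Associates.mk_ne_zero.2 hz₂) hq,
        Associates.count_pow (Associates.mk_ne_zero.2 hz₁) hq, hca, hcs] at e2
      rw [add_zero, zero_add] at e2
      have e3 : Associates.count (Associates.mk π) (Associates.mk n).factors =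
          p * Associates.count (Associates.mk π) (Associates.mk z₁).factors -
            p * Associates.count (Associates.mk π) (Associates.mk z₂).factors := by
        omega
      rw [e3, ← Nat.mul_sub]
      exact dvd_mul_right _ _
    · have : Associates.count (Associates.mk π) (Associates.mk n).factors = 0 := by
        by_contra hne
        exact hdvd ((Associates.count_ne_zero_iff_dvd hn hπirr).1 hne)
      rw [this]; exact dvd_zero p
  obtain ⟨b, hb⟩ := Associates.is_pow_of_dvd_count hn' hcount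
  obtain ⟨z, rfl⟩ := Associates.mk_surjective b
  rw [← Associates.mk_pow, Associates.mk_eq_mk_iff_associated] at hb
  obtain ⟨c, hc⟩ := hb.symm
  exact ⟨c, z, by rw [← hc, mul_comm]⟩

/-- (LS) **Local structure of a Kummer datum.**  `A` a local UFD, `w` a prime element with
`A ⧸ (w)` integrally closed.  Let `u = a / s` with `a ≡ s ≢ 0 mod w`, and suppose that at every
prime element `π` not associated to `w` the element `u` is a `π`-adic unit times a `p`-th power.
Then `u = c · (t₁ / t₂) ^ p` with `c ∈ Aˣ`, `c ≡ 1 mod w` and `t₁ ≡ t₂ ≢ 0 mod w`. -/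
theorem local_kummer_structure [IsLocalRing A] (w : A) (hw : Prime w)
    [IsDomain (A ⧸ Ideal.span {w})] [IsIntegrallyClosed (A ⧸ Ideal.span {w})]
    (p : ℕ) (hp : p ≠ 0) (a s : A) (ha : ¬ w ∣ a) (hs : ¬ w ∣ s) (has : w ∣ a - s)
    (h : ∀ π : A, Prime π → ¬ Associated π w → ∃ a' s' z₁ z₂ : A, ¬ π ∣ a' ∧ ¬ π ∣ s' ∧
      z₁ ≠ 0 ∧ z₂ ≠ 0 ∧ a * s' * z₂ ^ p = a' * s * z₁ ^ p) :
    ∃ (c : Aˣ) (t₁ t₂ : A), ¬ w ∣ t₁ ∧ ¬ w ∣ t₂ ∧ w ∣ t₁ - t₂ ∧ w ∣ (c : A) - 1 ∧
      a * t₂ ^ p = c * s * t₁ ^ p := by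
  have ha0 : a ≠ 0 := fun h0 => ha (h0 ▸ dvd_zero w)
  have hs0 : s ≠ 0 := fun h0 => hs (h0 ▸ dvd_zero w)
  obtain ⟨k, rfl⟩ : ∃ k, p = k + 1 := ⟨p - 1, by omega⟩
  -- step 1: `a * s ^ k` is a unit times a `p`-th power
  have hn0 : a * s ^ k ≠ 0 := mul_ne_zero ha0 (pow_ne_zero _ hs0)
  have hwn : ¬ w ∣ a * s ^ k := by
    intro hd
    rcases hw.dvd_or_dvd hd with h1 | h1
    · exact ha h1
    · exact hs (hw.dvd_of_dvd_pow h1)
  obtain ⟨c₀, z, hz⟩ := exists_unit_mul_pow_of_forall_prime (k + 1) (a * s ^ k) hn0 (by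
    intro π hπ hπn
    have hπw : ¬ Associated π w := fun hass => hwn (hass.symm.dvd.trans hπn)
    obtain ⟨a', s', z₁, z₂, ha', hs', hz₁, hz₂, heq⟩ := h π hπ hπw
    refine ⟨a', s', s * z₁, z₂, ha', hs', mul_ne_zero hs0 hz₁, hz₂, ?_⟩
    linear_combination s ^ k * heq)
  have hwz : ¬ w ∣ z := fun hd =>
    hwn (hz ▸ Dvd.dvd.mul_left (dvd_pow hd (Nat.succ_ne_zero k)) _)
  have hz0 : z ≠ 0 := fun h0 => hwz (h0 ▸ dvd_zero w)
  -- step 2: work in the quotient
  set q := Ideal.Quotient.mk (Ideal.span {w}) with hq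
  have hqz : ∀ x : A, q x = 0 ↔ w ∣ x := fun x => by
    rw [hq, Ideal.Quotient.eq_zero_iff_mem, Ideal.mem_span_singleton]
  have hqa : q a = q s := by
    rw [← sub_eq_zero, ← map_sub, hqz]; exact has
  have hqs0 : q s ≠ 0 := fun h0 => hs ((hqz s).1 h0)
  have hqz0 : q z ≠ 0 := fun h0 => hwz ((hqz z).1 h0)
  have e1 : q s ^ (k + 1) = q c₀ * q z ^ (k + 1) := by
    have := congrArg q hz
    simp only [map_mul, map_pow] at this
    rw [hqa] at this
    rw [pow_succ, mul_comm, this]
  have hdvd : q z ∣ q s := by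
    rw [← IsIntegrallyClosed.pow_dvd_pow_iff (Nat.succ_ne_zero k), e1]
    exact dvd_mul_left _ _
  obtain ⟨dbar, hdbar⟩ := hdvd
  have e2 : dbar ^ (k + 1) = q c₀ := by
    have : q z ^ (k + 1) * dbar ^ (k + 1) = q z ^ (k + 1) * q c₀ := by
      rw [← mul_pow, ← hdbar, e1, mul_comm]
    exact mul_left_cancel₀ (pow_ne_zero _ hqz0) this
  obtain ⟨d, rfl⟩ := Ideal.Quotient.mk_surjective dbar
  -- `d` is a unit of `A`
  have hwnu : ¬ IsUnit w := hw.not_isUnit
  have hdu : IsUnit d := by
    by_contra hnd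
    have hdm : d ∈ IsLocalRing.maximalIdeal A := (IsLocalRing.mem_maximalIdeal d).2 hnd
    have hc0 : IsUnit (q (c₀ : A)) := (c₀.isUnit).map q
    rw [← e2, ← map_pow] at hc0
    obtain ⟨e, he⟩ := hc0.exists_right_inv
    obtain ⟨e', rfl⟩ := Ideal.Quotient.mk_surjective e
    rw [← map_mul, ← sub_eq_zero, ← map_one q, ← map_sub, hqz] at he
    obtain ⟨r, hr⟩ := he
    have h1 : (1 : A) = d ^ (k + 1) * e' - w * r := by linear_combination -hr
    have h2 : (1 : A) ∈ IsLocalRing.maximalIdeal A := by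
      rw [h1]
      refine Ideal.sub_mem _ (Ideal.mul_mem_right _ _ (Ideal.pow_mem_of_mem _ hdm _
        (Nat.succ_pos k))) (Ideal.mul_mem_right _ _ ((IsLocalRing.mem_maximalIdeal w).2 hwnu))
    exact (Ideal.ne_top_iff_one _).1 (IsLocalRing.maximalIdeal.isMaximal A).ne_top h2
  obtain ⟨du, rfl⟩ := hdu
  refine ⟨c₀ * du⁻¹ ^ (k + 1), du * z, s, ?_, hs, ?_, ?_, ?_⟩
  · intro hd
    exact hwz ((hw.dvd_or_dvd hd).resolve_left
      (fun h1 => hwnu (isUnit_of_dvd_unit h1 du.isUnit)))
  · rw [← hqz, map_sub, map_mul, sub_eq_zero, mul_comm]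
    exact hdbar.symm
  · rw [← hqz, map_sub, sub_eq_zero, map_one]
    have h3 : q ((c₀ * du⁻¹ ^ (k + 1) : Aˣ) : A) * q ((du : A)) ^ (k + 1) = q c₀ := by
      rw [← map_pow, ← map_mul]
      congr 1
      rw [Units.val_mul, Units.val_pow_eq_pow_val, mul_assoc, ← mul_pow, Units.inv_mul, one_pow,
        mul_one]
    rw [e2] at h3
    have hc0ne : q (c₀ : A) ≠ 0 := ((c₀.isUnit).map q).ne_zero
    exact mul_right_cancel₀ hc0ne (by rw [h3, one_mul])
  · have h4 : ((c₀ * du⁻¹ ^ (k + 1) : Aˣ) : A) * (du : A) ^ (k + 1) = c₀ := by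
      rw [Units.val_mul, Units.val_pow_eq_pow_val, mul_assoc, ← mul_pow, Units.inv_mul, one_pow,
        mul_one]
    calc a * s ^ (k + 1) = s * (a * s ^ k) := by ring
      _ = s * (c₀ * z ^ (k + 1)) := by rw [hz]
      _ = s * ((((c₀ * du⁻¹ ^ (k + 1) : Aˣ) : A) * (du : A) ^ (k + 1)) * z ^ (k + 1)) := by
          rw [h4]
      _ = ((c₀ * du⁻¹ ^ (k + 1) : Aˣ) : A) * s * ((du : A) * z) ^ (k + 1) := by ring

end UFD

end Fermat.Agent.S18.H214

end
-- ===== PACK-END S18/H214/LocalUFD.lean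

-- ===== PACK-BEGIN S17/H497/DiscBound.lean
section


/-!
# S17 / W-HM (helper497), part A: a crude discriminant bound for Galois number fields

Let `L/ℚ` be a finite Galois extension of degree `n`, `𝔇` its different.

* `dvd_finrank_of_different_le_span` : if `𝔇 ⊆ m 𝓞_L` then `m ∣ n` (trace of `1/m`).
* `smul_mem_differentIdeal` : `𝔇` is stable under `Gal(L/ℚ)`.
* `different_le_span_pow_of_le_pow` : if `P ^ (e k) ∣ 𝔇` for ONE prime `P ∣ p` then `p ^ k ∣ 𝔇`.
* `natAbs_discr_dvd_of_unramified_outside` : if every prime `q ∉ S` has ramification index `1`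
  then `|disc L| ∣ (∏_{p ∈ S prime} p ^ n) ^ n`.
-/

set_option autoImplicit false
set_option linter.style.haveILetI false

open NumberField
open scoped Pointwise

namespace Fermat.Agent.S17.H497

section Different

variable (L : Type*) [Field L] [NumberField L]

/-- Elementwise description of the different: `x ∈ 𝔇` iff `x y ∈ 𝓞_L` for every `y` in the
trace dual of `𝓞_L`. -/
theorem mem_differentIdeal_iff (x : 𝓞 L) :
    x ∈ differentIdeal ℤ (𝓞 L) ↔
      ∀ y : L, (∀ z : 𝓞 L, Algebra.trace ℚ L (y * z) ∈ (algebraMap ℤ ℚ).range) →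
        (x : L) * y ∈ (algebraMap (𝓞 L) L).range := by
  have h1 : x ∈ differentIdeal ℤ (𝓞 L) ↔ (algebraMap (𝓞 L) L x) ∈
      ((differentIdeal ℤ (𝓞 L) : Ideal (𝓞 L)) : FractionalIdeal (nonZeroDivisors (𝓞 L)) L) := by
    rw [FractionalIdeal.mem_coeIdeal]
    constructor
    · intro h
      exact ⟨x, h, rfl⟩
    · rintro ⟨x', hx', h⟩
      rwa [← FaithfulSMul.algebraMap_injective (𝓞 L) L h]
  have hone : (1 : FractionalIdeal (nonZeroDivisors (𝓞 L)) L) ≠ 0 := one_ne_zero
  rw [h1, coeIdeal_differentIdeal ℤ ℚ L (𝓞 L),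
    FractionalIdeal.mem_inv_iff (FractionalIdeal.dual_ne_zero ℤ ℚ hone)]
  constructor
  · intro h y hy
    have hy' : y ∈ FractionalIdeal.dual ℤ ℚ (1 : FractionalIdeal (nonZeroDivisors (𝓞 L)) L) := by
      rw [FractionalIdeal.mem_dual hone]
      intro a ha
      obtain ⟨z, rfl⟩ := (FractionalIdeal.mem_one_iff _).1 ha
      exact hy z
    obtain ⟨w, hw⟩ := (FractionalIdeal.mem_one_iff _).1 (h y hy')
    exact ⟨w, hw⟩
  · intro h y hy
    rw [FractionalIdeal.mem_dual hone] at hy
    obtain ⟨w, hw⟩ := h y (fun z => hy _ ((FractionalIdeal.mem_one_iff _).2 ⟨z, rfl⟩))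
    exact (FractionalIdeal.mem_one_iff _).2 ⟨w, hw⟩

/-- If the different is contained in `m 𝓞_L` then `m` divides the degree. -/
theorem dvd_finrank_of_different_le_span (m : ℕ) (hm : m ≠ 0)
    (h : differentIdeal ℤ (𝓞 L) ≤ Ideal.span {(m : 𝓞 L)}) : m ∣ Module.finrank ℚ L := by
  have hm' : (m : 𝓞 L) ≠ 0 := Nat.cast_ne_zero.2 hm
  have hmL : (m : L) ≠ 0 := Nat.cast_ne_zero.2 hm
  have hI : Ideal.span {(m : 𝓞 L)} ≠ ⊥ := by
    rw [Ne, Ideal.span_singleton_eq_bot]
    exact hm'
  have hI' : ((Ideal.span {(m : 𝓞 L)} : Ideal (𝓞 L)) :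
      FractionalIdeal (nonZeroDivisors (𝓞 L)) L) ≠ 0 := by
    rwa [Ne, FractionalIdeal.coeIdeal_eq_zero]
  rw [differentialIdeal_le_iff (K := ℚ) (L := L) hI] at h
  have hmem : ((m : L)⁻¹) ∈ ((Ideal.span {(m : 𝓞 L)} : Ideal (𝓞 L)) :
      FractionalIdeal (nonZeroDivisors (𝓞 L)) L)⁻¹ := by
    rw [FractionalIdeal.mem_inv_iff hI']
    intro y hy
    obtain ⟨y', hy', rfl⟩ := (FractionalIdeal.mem_coeIdeal _).1 hy
    obtain ⟨c, rfl⟩ := Ideal.mem_span_singleton'.1 hy'
    refine (FractionalIdeal.mem_one_iff _).2 ⟨c, ?_⟩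
    rw [map_mul, map_natCast]
    field_simp
  have htr : Algebra.trace ℚ L ((m : L)⁻¹) ∈ (1 : Submodule ℤ ℚ) := by
    apply h
    exact ⟨_, hmem, rfl⟩
  obtain ⟨c, hc⟩ := Submodule.mem_one.1 htr
  have h2 : Algebra.trace ℚ L ((m : L)⁻¹) = (Module.finrank ℚ L : ℚ) * (m : ℚ)⁻¹ := by
    have : ((m : L)⁻¹) = algebraMap ℚ L ((m : ℚ)⁻¹) := by
      rw [map_inv₀, map_natCast]
    rw [this, Algebra.trace_algebraMap, nsmul_eq_mul]
  rw [h2] at hc
  have hmQ : (m : ℚ) ≠ 0 := Nat.cast_ne_zero.2 hm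
  have h3 : ((Module.finrank ℚ L : ℤ) : ℚ) = ((m : ℤ) * c : ℤ) := by
    push_cast
    have : (algebraMap ℤ ℚ) c = (c : ℚ) := rfl
    rw [this] at hc
    field_simp at hc
    linarith
  have h4 : (Module.finrank ℚ L : ℤ) = (m : ℤ) * c := by exact_mod_cast h3
  exact Int.natCast_dvd_natCast.1 ⟨c, h4⟩

/-- The different is stable under the Galois group. -/
theorem smul_mem_differentIdeal (σ : L ≃ₐ[ℚ] L) {x : 𝓞 L}
    (hx : x ∈ differentIdeal ℤ (𝓞 L)) : σ • x ∈ differentIdeal ℤ (𝓞 L) := by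
  rw [mem_differentIdeal_iff] at hx ⊢
  intro y hy
  have hy' : ∀ z : 𝓞 L, Algebra.trace ℚ L (σ.symm y * z) ∈ (algebraMap ℤ ℚ).range := by
    intro z
    have h1 : σ.symm y * (z : L) = σ.symm (y * ((σ • z : 𝓞 L) : L)) := by
      rw [map_mul]
      congr 1
      exact (σ.symm_apply_apply (z : L)).symm
    rw [h1, Algebra.trace_eq_of_algEquiv]
    exact hy (σ • z)
  obtain ⟨w, hw⟩ := hx (σ.symm y) hy'
  refine ⟨σ • w, ?_⟩
  have h2 : ((σ • w : 𝓞 L) : L) = σ ((w : 𝓞 L) : L) := rfl
  have h3 : ((σ • x : 𝓞 L) : L) = σ ((x : 𝓞 L) : L) := rfl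
  show ((σ • w : 𝓞 L) : L) = ((σ • x : 𝓞 L) : L) * y
  rw [h2, h3]
  have hw' : ((w : 𝓞 L) : L) = (x : L) * σ.symm y := hw
  rw [hw', map_mul, σ.apply_symm_apply]

/-- If the different is contained in an ideal `I`, it is contained in all its conjugates. -/
theorem differentIdeal_le_smul (σ : L ≃ₐ[ℚ] L) {I : Ideal (𝓞 L)}
    (h : differentIdeal ℤ (𝓞 L) ≤ I) : differentIdeal ℤ (𝓞 L) ≤ σ • I := by
  intro x hx
  have h1 : σ⁻¹ • x ∈ I := h (smul_mem_differentIdeal L σ⁻¹ hx)
  have h2 : σ • (σ⁻¹ • x) ∈ σ • I := Ideal.smul_mem_pointwise_smul_iff.2 h1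
  rwa [smul_inv_smul] at h2

section Galois

variable [IsGalois ℚ L]

omit [IsGalois ℚ L] in
theorem smul_ideal_pow (σ : L ≃ₐ[ℚ] L) (I : Ideal (𝓞 L)) (n : ℕ) :
    σ • (I ^ n) = (σ • I) ^ n := by
  rw [Ideal.pointwise_smul_def, Ideal.pointwise_smul_def, Ideal.map_pow]

/-- Key lemma: if `P ^ (e k)` divides the different for ONE prime `P` over `p` (`e` the
ramification index of `p`), then `p ^ k` divides the different. -/
theorem different_le_span_pow_of_le_pow {p : ℕ} (hp : p.Prime) (P : Ideal (𝓞 L)) [P.IsPrime]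
    [P.LiesOver (Ideal.span {(p : ℤ)})] (k : ℕ)
    (h : differentIdeal ℤ (𝓞 L) ≤
      P ^ ((Ideal.span {(p : ℤ)}).ramificationIdxIn (𝓞 L) * k)) :
    differentIdeal ℤ (𝓞 L) ≤ Ideal.span {((p ^ k : ℕ) : 𝓞 L)} := by
  classical
  have hgal : IsGaloisGroup (L ≃ₐ[ℚ] L) ℤ (𝓞 L) :=
    IsGaloisGroup.of_isFractionRing (L ≃ₐ[ℚ] L) ℤ (𝓞 L) ℚ L
  have hmax : (Ideal.span {(p : ℤ)}).IsMaximal :=
    PrincipalIdealRing.isMaximal_of_irreducible (Nat.prime_iff_prime_int.mp hp).irreducible
  have hp0 : Ideal.span {(p : ℤ)} ≠ 0 := by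
    rw [Ne, Ideal.zero_eq_bot, Ideal.span_singleton_eq_bot]
    exact_mod_cast hp.ne_zero
  set e := (Ideal.span {(p : ℤ)}).ramificationIdxIn (𝓞 L) with he
  have hfac := Ideal.map_algebraMap_eq_finsetProd_pow (R := 𝓞 L) (S := ℤ) hp0
  have hmap : Ideal.map (algebraMap ℤ (𝓞 L)) (Ideal.span {(p : ℤ)}) =
      Ideal.span {(p : 𝓞 L)} := by
    rw [Ideal.map_span, Set.image_singleton]
    simp
  have hQ : ∀ Q ∈ ((Ideal.span {(p : ℤ)}).primesOver (𝓞 L)).toFinset,
      Q.IsPrime ∧ Q.LiesOver (Ideal.span {(p : ℤ)}) := by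
    intro Q hQ
    rw [Set.mem_toFinset] at hQ
    exact hQ
  have hpow : Ideal.span {((p ^ k : ℕ) : 𝓞 L)} =
      ∏ Q ∈ ((Ideal.span {(p : ℤ)}).primesOver (𝓞 L)).toFinset, Q ^ (e * k) := by
    have h1 : Ideal.span {((p ^ k : ℕ) : 𝓞 L)} = Ideal.span {(p : 𝓞 L)} ^ k := by
      rw [Ideal.span_singleton_pow]
      push_cast
      rfl
    rw [h1, ← hmap, hfac, ← Finset.prod_pow]
    refine Finset.prod_congr rfl fun Q hQ' => ?_
    obtain ⟨hQ1, hQ2⟩ := hQ Q hQ'
    rw [← pow_mul, he, Ideal.ramificationIdxIn_eq_ramificationIdx (Ideal.span {(p : ℤ)}) Q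
      (L ≃ₐ[ℚ] L)]
  rw [hpow, ← IsDedekindDomain.inf_pow_eq_prod_of_prime _ (fun Q => Q) (fun _ => e * k)]
  · refine Finset.le_inf fun Q hQ' => ?_
    obtain ⟨hQ1, hQ2⟩ := hQ Q hQ'
    obtain ⟨σ, hσ⟩ := Ideal.exists_smul_eq_of_isGaloisGroup (Ideal.span {(p : ℤ)}) P Q
      (L ≃ₐ[ℚ] L)
    have := differentIdeal_le_smul L σ h
    rwa [smul_ideal_pow, hσ] at this
  · intro Q hQ'
    obtain ⟨hQ1, hQ2⟩ := hQ Q hQ'
    exact Ideal.prime_of_isPrime
      (Ideal.ne_bot_of_liesOver_of_ne_bot (p := Ideal.span {(p : ℤ)}) hp0 Q) hQ1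
  · intro Q _ Q' _ hne
    exact hne

/-- A prime number `p` and the degree `n ≥ 1`: `p ^ n` does not divide `n`. -/
theorem not_prime_pow_dvd_self {p n : ℕ} (hp : p.Prime) (hn : 0 < n) : ¬ p ^ n ∣ n := by
  intro h
  have h1 : p ^ n ≤ n := Nat.le_of_dvd hn h
  have h2 : n < p ^ n := Nat.lt_pow_self hp.one_lt
  omega

/-- **Divisibility bound for the different.**  If every prime `q ∉ S` has ramification index `1`
in the Galois number field `L` of degree `n`, then `𝔇 ∣ (∏_{p ∈ S prime} p ^ n)`. -/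
theorem differentIdeal_dvd_span_of_unramified_outside (S : Finset ℕ)
    (hur : ∀ q : ℕ, q.Prime → q ∉ S →
      (Ideal.span {(q : ℤ)}).ramificationIdxIn (𝓞 L) = 1) :
    differentIdeal ℤ (𝓞 L) ∣
      Ideal.span {((∏ p ∈ S.filter Nat.Prime, p ^ Module.finrank ℚ L : ℕ) : 𝓞 L)} := by
  classical
  have hgal : IsGaloisGroup (L ≃ₐ[ℚ] L) ℤ (𝓞 L) :=
    IsGaloisGroup.of_isFractionRing (L ≃ₐ[ℚ] L) ℤ (𝓞 L) ℚ L
  set n := Module.finrank ℚ L with hn
  have hn0 : 0 < n := Module.finrank_pos
  have hD0 : differentIdeal ℤ (𝓞 L) ≠ 0 := differentIdeal_ne_bot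
  rw [UniqueFactorizationMonoid.dvd_iff_emultiplicity_le hD0]
  intro P hP
  rw [emultiplicity_le_emultiplicity_iff]
  intro m hm
  rcases Nat.eq_zero_or_pos m with rfl | hmpos
  · rw [pow_zero]; exact one_dvd _
  have hPprime : P.IsPrime := Ideal.isPrime_of_prime hP
  have hPne : P ≠ ⊥ := hP.ne_zero
  haveI : NeZero P := ⟨hPne⟩
  have hPD : P ∣ differentIdeal ℤ (𝓞 L) := (dvd_pow_self P hmpos.ne').trans hm
  -- the prime number below `P`
  set p := Ideal.absNorm (Ideal.under ℤ P) with hpdef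
  have hp : p.Prime := Nat.absNorm_under_prime P
  haveI hlies : P.LiesOver (Ideal.span {(p : ℤ)}) := Int.liesOver_span_absNorm P
  have hmax : (Ideal.span {(p : ℤ)}).IsMaximal :=
    PrincipalIdealRing.isMaximal_of_irreducible (Nat.prime_iff_prime_int.mp hp).irreducible
  have he : (Ideal.span {(p : ℤ)}).ramificationIdxIn (𝓞 L) = P.ramificationIdx ℤ :=
    Ideal.ramificationIdxIn_eq_ramificationIdx (Ideal.span {(p : ℤ)}) P (L ≃ₐ[ℚ] L)
  -- `p ∈ S`
  have hpS : p ∈ S := by
    by_contra hpS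
    have h1 := hur p hp hpS
    rw [he] at h1
    have h2 : Algebra.IsUnramifiedAt ℤ P := Ideal.ramificationIdx_eq_one_iff.1 h1
    exact (dvd_differentIdeal_iff.1 hPD) h2
  -- `m < e n`
  have hlt : m < (Ideal.span {(p : ℤ)}).ramificationIdxIn (𝓞 L) * n := by
    by_contra hge
    rw [not_lt] at hge
    have h1 : differentIdeal ℤ (𝓞 L) ≤
        P ^ ((Ideal.span {(p : ℤ)}).ramificationIdxIn (𝓞 L) * n) :=
      Ideal.dvd_iff_le.1 ((pow_dvd_pow P hge).trans hm)
    have h2 := different_le_span_pow_of_le_pow L hp P n h1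
    have h3 := dvd_finrank_of_different_le_span L (p ^ n) (pow_ne_zero _ hp.ne_zero) h2
    exact not_prime_pow_dvd_self hp hn0 h3
  -- `P ^ m ∣ P ^ (e n) ∣ (p ^ n) ∣ (N)`
  have h4 : P ^ (P.ramificationIdx ℤ * n) ∣ Ideal.span {((p ^ n : ℕ) : 𝓞 L)} := by
    have hmap : Ideal.map (algebraMap ℤ (𝓞 L)) (Ideal.span {(p : ℤ)}) =
        Ideal.span {(p : 𝓞 L)} := by
      rw [Ideal.map_span, Set.image_singleton]
      simp
    have h5 : Ideal.span {((p ^ n : ℕ) : 𝓞 L)} = Ideal.span {(p : 𝓞 L)} ^ n := by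
      rw [Ideal.span_singleton_pow]
      push_cast
      rfl
    rw [h5, pow_mul]
    refine pow_dvd_pow_of_dvd ?_ n
    rw [← hmap, Ideal.dvd_iff_le]
    have hp0 : Ideal.span {(p : ℤ)} ≠ ⊥ := by
      rw [Ne, Ideal.span_singleton_eq_bot]
      exact_mod_cast hp.ne_zero
    have h7 := Ideal.le_pow_ramificationIdx' (p := Ideal.span {(p : ℤ)}) (P := P)
    rwa [Ideal.ramificationIdx'_eq_ramificationIdx (Ideal.span {(p : ℤ)}) P hp0] at h7
  have h6 : Ideal.span {((p ^ n : ℕ) : 𝓞 L)} ∣
      Ideal.span {((∏ p ∈ S.filter Nat.Prime, p ^ n : ℕ) : 𝓞 L)} := by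
    rw [Ideal.dvd_iff_le, Ideal.span_singleton_le_span_singleton]
    have hmem : p ∈ S.filter Nat.Prime := Finset.mem_filter.2 ⟨hpS, hp⟩
    obtain ⟨c, hc⟩ := Finset.dvd_prod_of_mem (fun p => p ^ n) hmem
    exact ⟨(c : 𝓞 L), by rw [hc]; push_cast; rfl⟩
  rw [he] at hlt
  exact ((pow_dvd_pow P hlt.le).trans h4).trans h6

/-- **Crude discriminant bound for Galois number fields.**  If every prime `q ∉ S` has
ramification index `1` in the Galois number field `L` of degree `n`, then
`|disc L| ∣ (∏_{p ∈ S prime} p ^ n) ^ n`. -/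
theorem natAbs_discr_dvd_of_unramified_outside (S : Finset ℕ)
    (hur : ∀ q : ℕ, q.Prime → q ∉ S →
      (Ideal.span {(q : ℤ)}).ramificationIdxIn (𝓞 L) = 1) :
    (discr L).natAbs ∣
      (∏ p ∈ S.filter Nat.Prime, p ^ Module.finrank ℚ L) ^ Module.finrank ℚ L := by
  have h1 := differentIdeal_dvd_span_of_unramified_outside L S hur
  have h2 := Ideal.absNorm_dvd_absNorm_of_le (Ideal.dvd_iff_le.1 h1)
  rwa [absNorm_differentIdeal L (𝓞 L), Ideal.absNorm_span_natCast,
    RingOfIntegers.rank] at h2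

end Galois

end Different

end Fermat.Agent.S17.H497

end
-- ===== PACK-END S17/H497/DiscBound.lean

-- ===== PACK-BEGIN S17/H500/Package.lean
section






/-!
# S17 / tower H (architect helper500): the GLOBAL PAIRING PACKAGE  (definitions only)

Route H-D (`origin/helper500:coord/S17-H-helper500.md`, checked by helper680/110/380/980/920).
This file fixes the interface between

* the FORMAL layer  (`PairingPackage A` ⟹ inputs of `H737.descent_data_of_pairing_height`), and
* the GEOMETRIC/LOCAL layer (construction of a `PairingPackage (MW N)` for `J₀(N)`).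

Dictionary (for `A = MW N`, `F = ℚ̄(X₀(N))`, `∞` = the rational cusp, `x₀ = 1, …, x_r` a basis of
Galois-fixed functions of `L(m ∞)`):

* `Dv`   : effective Galois-invariant divisors (`∞` allowed);  `deg`, `cls D = [D - deg D • ∞]`;
* `Disj` : disjoint supports;  `Good D` : `D` reduced, avoiding `∞` and the ramification `Rt` of `t`;
* `N D`  : naive height `∑_P D(P) h(x P)`;  `pr D E = ∑ D(P) E(Q) hD(P,Q)` (diagonal height);
* `Lin`  : nonzero rational linear forms `a ∈ L(m ∞)` ; `ht a` its height; `Z a = div a + m ∞`;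
* `δ D = ∑_{P<Q} hD(P,Q)`, `K D = ∑_P (h(W P) - 2 h(x P))` (`W` = tangent Plücker vector w.r.t. `t`),
  `Pl D = h(x P₁ ∧ … ∧ x P_d)` (Plücker height of the annihilator of `L(m ∞ - D)`).

All constants are existential.  Everything here is complete (definitions only) and Mathlib-only.
-/

set_option autoImplicit false

namespace Fermat.Agent.S17.H500

/-- The global pairing package of route H-D on an abelian group `A`. -/
structure PairingPackage (A : Type) [AddCommGroup A] where
  /-- effective rational divisors -/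
  Dv : Type
  [instDv : AddCommMonoid Dv]
  /-- degree -/
  deg : Dv →+ ℕ
  /-- class of `D - deg D • ∞` -/
  cls : Dv →+ A
  /-- disjoint supports -/
  Disj : Dv → Dv → Prop
  /-- generic: reduced, avoiding `∞` and `Rt` -/
  Good : Dv → Prop
  /-- naive height -/
  N : Dv → ℝ
  /-- diagonal pairing -/
  pr : Dv → Dv → ℝ
  /-- off-diagonal self pairing -/
  δ : Dv → ℝ
  /-- tangent term -/
  K : Dv → ℝ
  /-- Plücker height -/
  Pl : Dv → ℝ
  /-- nonzero rational linear forms -/
  Lin : Type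
  /-- height of a linear form -/
  ht : Lin → ℝ
  /-- hyperplane section -/
  Z : Lin → Dv
  /-- degree of the embedding -/
  m : ℕ
  /-- degree of the representatives -/
  d : ℕ
  /-- genus -/
  g : ℕ
  /-- the point at infinity -/
  inf : Dv
  /-- the constant function `1` -/
  one : Lin
  /-- finite ramification divisor of the coordinate `t` -/
  Rt : Dv
  -- numerical conditions
  one_le_g : 1 ≤ g
  two_g_le_d : 2 * g ≤ d
  four_d_le_m : 4 * d + 2 * g ≤ m
  -- structure
  disj_symm : ∀ D E, Disj D E → Disj E D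
  disj_zero : ∀ E, Disj 0 E
  disj_add_left : ∀ D₁ D₂ E, Disj (D₁ + D₂) E ↔ Disj D₁ E ∧ Disj D₂ E
  deg_inf : deg inf = 1
  cls_inf : cls inf = 0
  deg_Z : ∀ a, deg (Z a) = m
  cls_Z : ∀ a, cls (Z a) = 0
  Z_one : Z one = m • inf
  ht_one : ht one = 0
  good_disj_inf : ∀ D, Good D → Disj D inf
  good_disj_Rt : ∀ D, Good D → Disj D Rt
  N_add : ∀ D E, N (D + E) = N D + N E
  N_nonneg : ∀ D, 0 ≤ N D
  pr_symm : ∀ D E, pr D E = pr E D
  pr_add : ∀ D₁ D₂ E, Disj (D₁ + D₂) E → pr (D₁ + D₂) E = pr D₁ E + pr D₂ E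
  /-- Northcott for the naive height on effective rational divisors of bounded degree -/
  northcott : ∀ (e : ℕ) (B : ℝ), {D : Dv | deg D ≤ e ∧ N D ≤ B}.Finite
  /-- (Mov1) generic representatives of degree `d` -/
  mov1 : ∀ (x : A) (T : Dv), ∃ D, deg D = d ∧ cls D = x ∧ Disj D T ∧ Good D
  /-- (Mov2) linear equivalence is realised by hyperplane sections with a common generic
  residual divisor -/
  mov2 : ∀ D₁ D₂, deg D₁ = deg D₂ → deg D₁ + 2 * g ≤ m → cls D₁ = cls D₂ → ∀ T,
    ∃ (R : Dv) (a₁ a₂ : Lin), Z a₁ = D₁ + R ∧ Z a₂ = D₂ + R ∧ Disj R T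
  /-- (E3) pairing with a hyperplane section, uniformly in the hyperplane -/
  e3 : ∃ C : ℝ, ∀ a E, Disj (Z a) E → |pr (Z a) E - (deg E * ht a + N E)| ≤ C * deg E
  /-- (BEZ) height of a hyperplane section -/
  bez : ∃ C : ℝ, ∀ a, |N (Z a) - m * ht a| ≤ C
  /-- (ADJ) (E3) at simple zeros, with the regularised self pairing -/
  adj : ∃ C : ℝ, ∀ a D D', Good D → Z a = D + D' → Disj D D' →
    |2 * δ D - K D + pr D' D - (deg D * ht a + N D)| ≤ C * deg D
  /-- (GAUSS) the tangent term is the pairing with a canonical divisor -/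
  gauss : ∃ C : ℝ, ∀ D, Good D →
    |K D - (pr Rt D - (((deg Rt : ℝ) - (2 * g - 2)) / m) * N D)| ≤ C * deg D
  /-- (VDM) Vandermonde bound for the Plücker height -/
  vdm : ∃ C : ℝ, ∀ D, Good D → deg D = d → Pl D ≤ N D - δ D + C
  /-- (MINK) a small rational section through `D` -/
  mink : ∃ C : ℝ, ∀ D, Good D → deg D = d →
    ∃ (a : Lin) (D' : Dv), Z a = D + D' ∧ ((m : ℝ) - d + 1 - g) * ht a ≤ Pl D + C

attribute [instance] PairingPackage.instDv

namespace PairingPackage

variable {A : Type} [AddCommGroup A] (P : PairingPackage A)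

/-- The normalised pairing `B(D,E) = (D - deg D ∞ . E - deg E ∞)` without the `(∞.∞)` term:
`pr D E - (deg D / m) N E - (deg E / m) N D`. -/
noncomputable def B (D E : P.Dv) : ℝ :=
  P.pr D E - ((P.deg D : ℝ) / P.m) * P.N E - ((P.deg E : ℝ) / P.m) * P.N D

/-- The class function attached to the tangent term: `L D = pr Rt D - (deg Rt / m) N D`. -/
noncomputable def L (D : P.Dv) : ℝ :=
  P.pr P.Rt D - ((P.deg P.Rt : ℝ) / P.m) * P.N D

/-- `k = dim L(m ∞ - D) = m - d + 1 - g`. -/
noncomputable def k : ℝ := (P.m : ℝ) - P.d + 1 - P.g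

/-! ## Statements of the formal leaves (Spec pattern: prove `theorem foo : FooStatement P`
from the hypotheses listed in `coord/S17-HSkel.md`) -/

/-- F-B: `B (Z a) E` is bounded; hence `B inf E` is bounded. -/
def BZStatement : Prop :=
  ∃ C : ℝ, ∀ a E, P.Disj (P.Z a) E → |P.B (P.Z a) E| ≤ C * (P.deg E + 1)

/-- F-INV: `B` is a class function in each variable (equal degrees `≤ m - 2g`). -/
def InvStatement : Prop :=
  ∃ C : ℝ, ∀ D₁ D₂ E, P.deg D₁ = P.deg D₂ → P.deg D₁ + 2 * P.g ≤ P.m → P.cls D₁ = P.cls D₂ →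
    P.Disj D₁ E → P.Disj D₂ E → |P.B D₁ E - P.B D₂ E| ≤ C * (P.deg E + 1)

/-- F-WD: a function `q` on `A` computing `-B/2` on all disjoint good representatives of
degree `d`. -/
def WDStatement (q : A → ℝ) : Prop :=
  ∃ C : ℝ, ∀ (x : A) (D D' : P.Dv), P.deg D = P.d → P.deg D' = P.d → P.cls D = x → P.cls D' = x →
    P.Good D → P.Good D' → P.Disj D D' → |q x + P.B D D' / 2| ≤ C

/-- F-ELL: a quasi-additive function `l` on `A` computing `K - ((2g-2)/m) N` on good
representatives of degree `d`. -/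
def EllStatement (l : A → ℝ) : Prop :=
  (∃ C : ℝ, ∀ (x : A) (D : P.Dv), P.deg D = P.d → P.cls D = x → P.Good D →
    |l x - (P.K D - ((2 * (P.g : ℝ) - 2) / P.m) * P.N D)| ≤ C) ∧
  ∃ C : ℝ, ∀ x y : A, |l (x + y) - l x - l y| ≤ C

/-- F-KEY: the self-pairing formula `N D - δ D = -B(D,D₁)/2 - K D / 2 + (1 - d/m) N D + O(1)`. -/
def KeyStatement : Prop :=
  ∃ C : ℝ, ∀ (D D₁ : P.Dv), P.deg D = P.d → P.deg D₁ = P.d → P.cls D = P.cls D₁ →
    P.Good D → P.Good D₁ → P.Disj D D₁ →
    |P.N D - P.δ D - (-(P.B D D₁) / 2 - P.K D / 2 + (1 - (P.d : ℝ) / P.m) * P.N D)| ≤ C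

/-- F-POS: the positivity inequality. -/
def PosStatement (q l : A → ℝ) : Prop :=
  ∃ C : ℝ, ∀ x : A, ∃ D' : P.Dv, P.deg D' = P.m - P.d ∧ P.cls D' = -x ∧
    P.N D' ≤ (P.m / P.k) * (q x - l x / 2) + C

end PairingPackage

/-- F-QP: quasi-parallelogram law. -/
def QPStatement {A : Type} [AddCommGroup A] (q : A → ℝ) : Prop :=
  ∃ C : ℝ, ∀ x y : A, |q (x + y) + q (x - y) - 2 * q x - 2 * q y| ≤ C

/-- The output of the formal layer = the hypotheses of
`Fermat.Agent.S17.H737.descent_data_of_pairing_height`. -/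
def EndStatement (A : Type) [AddCommGroup A] : Prop :=
  ∃ (q l ν : A → ℝ) (C c₁ c₂ : ℝ), 0 < c₁ ∧
    (∀ x y, |q (x + y) + q (x - y) - 2 * q x - 2 * q y| ≤ C) ∧
    (∀ x y, |l (x + y) - l x - l y| ≤ C) ∧
    (∀ x, 0 ≤ ν x) ∧
    (∀ B : ℝ, {x : A | ν x ≤ B}.Finite) ∧
    (∀ x, ν (-x) ≤ c₁ * (q x - l x / 2) + c₂)

end Fermat.Agent.S17.H500

end
-- ===== PACK-END S17/H500/Package.lean

-- ===== PACK-BEGIN S17/H50/CycleBase.lean
section


/-!
# S17 / tower H (helper50): Galois-stable cycles of points over `ℚ̄` — abstract Northcott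

A *cycle* is a multiset `S` of affine points `y : ι → ℚ̄`.  If `S` is Galois stable then all
coordinate polynomials `∏_{y ∈ S} (X - y i)` have rational coefficients.  Hence:

* `northcott_of_coeff_bound` : if a "height" `hq` on `ℚ̄` has the Northcott property on `ℚ`
  and the coefficients of the coordinate polynomials of the cycles under consideration have
  bounded `hq`, then there are only finitely many such cycles of bounded degree.

This is instantiated for the absolute height (`AbsNorthcott.lean`) and for the sum of local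
heights w.r.t. fixed absolute values of `ℚ̄` (`LocCycle.lean`).
-/

set_option autoImplicit false
set_option linter.unusedSectionVars false

open Polynomial

noncomputable section

namespace Fermat.Agent.S17.H50

/-- `ℚ̄` -/
abbrev Qb : Type := AlgebraicClosure ℚ

/-- the absolute Galois group of `ℚ` -/
abbrev GQ : Type := Qb ≃ₐ[ℚ] Qb

instance qbIsAlgebraic : Algebra.IsAlgebraic ℚ Qb := AlgebraicClosure.isAlgebraic _

theorem isGalois_Qb : IsGalois ℚ Qb := by
  have hcl : IsAlgClosure ℚ Qb := ⟨inferInstance, inferInstance⟩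
  exact IsAlgClosure.isGalois ℚ Qb

/-- Galois-fixed algebraic numbers are rational -/
theorem exists_rat_of_fixed (α : Qb) (h : ∀ σ : GQ, σ α = α) :
    ∃ q : ℚ, algebraMap ℚ Qb q = α := by
  have := isGalois_Qb
  have := (InfiniteGalois.mem_bot_iff_fixed (k := ℚ) (K := Qb) α).2 h
  exact IntermediateField.mem_bot.1 this

/-! ### the monic polynomial with prescribed roots -/

/-- the monic polynomial with the given multiset of roots -/
def rootPoly {K : Type*} [Field K] (s : Multiset K) : K[X] := (s.map fun a => X - C a).prod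

section rootPoly

variable {K : Type*} [Field K]

theorem rootPoly_zero : rootPoly (0 : Multiset K) = 1 := by simp [rootPoly]

theorem rootPoly_cons (a : K) (s : Multiset K) :
    rootPoly (a ::ₘ s) = (X - C a) * rootPoly s := by
  simp [rootPoly]

theorem rootPoly_monic (s : Multiset K) : (rootPoly s).Monic :=
  monic_multiset_prod_of_monic _ _ fun a _ => monic_X_sub_C a

theorem rootPoly_natDegree (s : Multiset K) : (rootPoly s).natDegree = s.card := by
  simp [rootPoly]

theorem rootPoly_ne_zero (s : Multiset K) : rootPoly s ≠ 0 := (rootPoly_monic s).ne_zero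

theorem rootPoly_isRoot (s : Multiset K) (a : K) (ha : a ∈ s) : (rootPoly s).IsRoot a := by
  obtain ⟨t, rfl⟩ := Multiset.exists_cons_of_mem ha
  simp [rootPoly_cons]

theorem coeff_rootPoly_cons (a : K) (s : Multiset K) (k : ℕ) :
    (rootPoly (a ::ₘ s)).coeff k
      = (if k = 0 then 0 else (rootPoly s).coeff (k - 1)) - a * (rootPoly s).coeff k := by
  rw [rootPoly_cons]
  rcases k with _ | k
  · simp [sub_mul]
  · rw [sub_mul, coeff_sub, coeff_X_mul, coeff_C_mul]
    simp

theorem coeff_rootPoly_zero (k : ℕ) :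
    (rootPoly (0 : Multiset K)).coeff k = if k = 0 then 1 else 0 := by
  rw [rootPoly_zero, coeff_one]

theorem rootPoly_map {L : Type*} [Field L] (σ : K →+* L) (s : Multiset K) :
    (rootPoly s).map σ = rootPoly (s.map σ) := by
  simp [rootPoly, Polynomial.map_multiset_prod, Multiset.map_map]

end rootPoly

/-- the coefficients of `rootPoly s` are rational if `s` is Galois stable -/
theorem exists_rat_coeff_rootPoly (s : Multiset Qb) (hs : ∀ σ : GQ, s.map σ = s) (k : ℕ) :
    ∃ q : ℚ, algebraMap ℚ Qb q = (rootPoly s).coeff k := by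
  apply exists_rat_of_fixed
  intro σ
  have h := congrArg (fun P => P.coeff k) (rootPoly_map (σ : Qb →+* Qb) s)
  simp only [coeff_map] at h
  have hs' : s.map (σ : Qb →+* Qb) = s := hs σ
  rw [hs'] at h
  exact h

/-! ### cycles -/

/-- multisets of bounded cardinality in a finite set -/
theorem finite_multiset_card_le {α : Type*} (Y : Set α) (hY : Y.Finite) (d : ℕ) :
    {S : Multiset α | S.card ≤ d ∧ ∀ y ∈ S, y ∈ Y}.Finite := by
  classical
  have hfin : ((Multiset.powerset (d • hY.toFinset.val)).toFinset : Set (Multiset α)).Finite :=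
    Finset.finite_toSet _
  refine hfin.subset ?_
  rintro S ⟨hcard, hmem⟩
  simp only [Finset.mem_coe, Multiset.mem_toFinset, Multiset.mem_powerset]
  rw [Multiset.le_iff_count]
  intro a
  rw [Multiset.count_nsmul]
  by_cases ha : a ∈ S
  · have haY : a ∈ hY.toFinset := hY.mem_toFinset.2 (hmem a ha)
    have h1 : Multiset.count a hY.toFinset.val = 1 :=
      Multiset.count_eq_one_of_mem hY.toFinset.nodup haY
    rw [h1, mul_one]
    exact (Multiset.count_le_card a S).trans hcard
  · rw [Multiset.count_eq_zero_of_notMem ha]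
    exact Nat.zero_le _

/-- the polynomial with given rational coefficients -/
def polyOf (d : ℕ) (f : Fin (d + 1) → ℚ) : Qb[X] :=
  ∑ k : Fin (d + 1), C (algebraMap ℚ Qb (f k)) * X ^ (k : ℕ)

variable {ι : Type*} [Finite ι]

/-- a cycle is Galois stable -/
def IsGStable (S : Multiset (ι → Qb)) : Prop :=
  ∀ σ : GQ, S.map (fun y i => σ (y i)) = S

theorem IsGStable.coord {S : Multiset (ι → Qb)} (hS : IsGStable S) (i : ι) (σ : GQ) :
    (S.map fun y => y i).map σ = S.map fun y => y i := by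
  conv_rhs => rw [← hS σ]
  simp [Multiset.map_map]

theorem IsGStable.add {S T : Multiset (ι → Qb)} (hS : IsGStable S) (hT : IsGStable T) :
    IsGStable (S + T) := fun σ => by
  rw [Multiset.map_add, hS σ, hT σ]

theorem isGStable_zero : IsGStable (0 : Multiset (ι → Qb)) := fun _ => rfl

/-- the roots of the nonzero polynomials of degree `≤ d` with coefficients in a finite set of
rational numbers form a finite set -/
theorem finite_roots_of_coeff_mem (T : Set ℚ) (hT : T.Finite) (d : ℕ) :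
    {a : Qb | ∃ P : Qb[X], P ≠ 0 ∧ P.natDegree ≤ d ∧
      (∀ k, ∃ q ∈ T, algebraMap ℚ Qb q = P.coeff k) ∧ P.IsRoot a}.Finite := by
  classical
  have hF : {f : Fin (d + 1) → ℚ | ∀ k, f k ∈ T}.Finite := by
    have := Set.Finite.pi (t := fun _ : Fin (d + 1) => T) (fun _ => hT)
    refine this.subset ?_
    intro f hf
    rw [Set.mem_pi]
    intro k _
    exact hf k
  have hR : (⋃ f ∈ {f : Fin (d + 1) → ℚ | ∀ k, f k ∈ T},
      {a | polyOf d f ≠ 0 ∧ (polyOf d f).IsRoot a}).Finite := by
    refine hF.biUnion fun f _ => ?_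
    by_cases h0 : polyOf d f = 0
    · simp [h0]
    · refine (Polynomial.finite_setOfPred_isRoot h0).subset ?_
      rintro a ⟨-, ha⟩
      exact ha
  refine hR.subset ?_
  rintro a ⟨P, hP0, hdeg, hcoef, hroot⟩
  choose q hqT hq using hcoef
  have hpoly : polyOf d (fun k => q k) = P := by
    have hdeg' : P.natDegree < d + 1 := by omega
    conv_rhs => rw [Polynomial.as_sum_range' P (d + 1) hdeg']
    unfold polyOf
    rw [Fin.sum_univ_eq_sum_range (fun k => C (algebraMap ℚ Qb (q k)) * X ^ k) (d + 1)]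
    refine Finset.sum_congr rfl fun k _ => ?_
    rw [hq k, ← Polynomial.C_mul_X_pow_eq_monomial]
  simp only [Set.mem_iUnion, Set.mem_ofPred_eq, exists_prop]
  refine ⟨fun k => q k, fun k => hqT k, ?_, ?_⟩
  · rw [hpoly]
    exact hP0
  · rw [hpoly]
    exact hroot

/-- **Abstract Northcott for Galois-stable cycles.**  Let `P` be a property of cycles, `hq` a
function on `ℚ̄` with the Northcott property on `ℚ`, and assume that the coefficients of all
coordinate polynomials of the cycles with property `P` have `hq ≤ M`.  Then there are only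
finitely many Galois-stable cycles of degree `≤ d` with property `P`. -/
theorem northcott_of_coeff_bound (hq : Qb → ℝ)
    (hfin : ∀ B : ℝ, {q : ℚ | hq (algebraMap ℚ Qb q) ≤ B}.Finite)
    (P : Multiset (ι → Qb) → Prop) (d : ℕ) (M : ℝ)
    (hbound : ∀ S : Multiset (ι → Qb), S.card ≤ d → IsGStable S → P S →
      ∀ (i : ι) (k : ℕ), hq ((rootPoly (S.map fun y => y i)).coeff k) ≤ M) :
    {S : Multiset (ι → Qb) | S.card ≤ d ∧ IsGStable S ∧ P S}.Finite := by
  classical
  set T : Set ℚ := {q | hq (algebraMap ℚ Qb q) ≤ M} with hTdef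
  have hT : T.Finite := hfin M
  have hR := finite_roots_of_coeff_mem T hT d
  set R : Set Qb := {a : Qb | ∃ P : Qb[X], P ≠ 0 ∧ P.natDegree ≤ d ∧
      (∀ k, ∃ q ∈ T, algebraMap ℚ Qb q = P.coeff k) ∧ P.IsRoot a} with hRdef
  set Y : Set (ι → Qb) := {y | ∀ i, y i ∈ R} with hYdef
  have hY : Y.Finite := by
    have := Set.Finite.pi (t := fun _ : ι => R) (fun _ => hR)
    refine this.subset ?_
    intro y hy
    rw [Set.mem_pi]
    intro i _
    exact hy i
  refine (finite_multiset_card_le Y hY d).subset ?_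
  rintro S ⟨hcard, hG, hP⟩
  refine ⟨hcard, fun y hy i => ?_⟩
  -- the coordinate polynomial
  set s : Multiset Qb := S.map fun y => y i with hs
  have hscard : s.card = S.card := Multiset.card_map _ _
  refine ⟨rootPoly s, rootPoly_ne_zero s, ?_, ?_, ?_⟩
  · rw [rootPoly_natDegree, hscard]
    exact hcard
  · intro k
    obtain ⟨q, hq'⟩ := exists_rat_coeff_rootPoly s (hG.coord i) k
    refine ⟨q, ?_, hq'⟩
    simp only [hTdef, Set.mem_ofPred_eq]
    rw [hq']
    exact hbound S hcard hG hP i k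
  · exact rootPoly_isRoot s (y i) (Multiset.mem_map.2 ⟨y, hy, rfl⟩)

end Fermat.Agent.S17.H50

end
end
-- ===== PACK-END S17/H50/CycleBase.lean

-- ===== PACK-BEGIN S29/H571/FiniteLevel.lean
section



/-!
# Torsion divisor classes of `JZero N` have finite level
(helper571, piece FINLEVEL of the S29 route)

Every element `f` of the function field `laurentBaseChange ℚ̄ F₀ ⊆ ℚ̄((q))` has its coefficients
"in a finite extension": it is fixed by `Gal(ℚ̄/L)` for some finite `L/ℚ`
(`seriesFiniteLevel_of_mem`).  If `n • x = 0` in `Pic0`, `n ≠ 0`, write `x = [D]`,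
`n D = div f`; every `σ` fixing `f` fixes `n D`, hence `D` (divisors are torsion-free).
So the stabiliser of a torsion class contains `Gal(ℚ̄/L)` for a finite (even finite normal) `L`.
-/

set_option autoImplicit false
set_option linter.style.haveILetI false

noncomputable section

namespace Fermat.Agent.S29.H571

open AlgebraicCurve ModularCurve IntermediateField

/-- `f` is fixed coefficientwise by `Gal(ℚ̄/L)` for some finite `L/ℚ`. -/
def SeriesFiniteLevel (f : LaurentSeries (AlgebraicClosure ℚ)) : Prop :=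
  ∃ L : IntermediateField ℚ (AlgebraicClosure ℚ), FiniteDimensional ℚ L ∧
    ∀ σ : AlgebraicClosure ℚ ≃ₐ[ℚ] AlgebraicClosure ℚ, (∀ a ∈ L, σ a = a) →
      coeffMap (σ : AlgebraicClosure ℚ →+* AlgebraicClosure ℚ) f = f

theorem SeriesFiniteLevel.binary {f g h : LaurentSeries (AlgebraicClosure ℚ)}
    (hf : SeriesFiniteLevel f) (hg : SeriesFiniteLevel g)
    (H : ∀ σ : AlgebraicClosure ℚ ≃ₐ[ℚ] AlgebraicClosure ℚ,
      coeffMap (σ : AlgebraicClosure ℚ →+* AlgebraicClosure ℚ) f = f →
      coeffMap (σ : AlgebraicClosure ℚ →+* AlgebraicClosure ℚ) g = g →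
      coeffMap (σ : AlgebraicClosure ℚ →+* AlgebraicClosure ℚ) h = h) :
    SeriesFiniteLevel h := by
  obtain ⟨L₁, hL₁, h₁⟩ := hf
  obtain ⟨L₂, hL₂, h₂⟩ := hg
  refine ⟨L₁ ⊔ L₂, inferInstance, fun σ hσ => H σ (h₁ σ fun a ha => hσ a ?_)
    (h₂ σ fun a ha => hσ a ?_)⟩
  · exact (le_sup_left : L₁ ≤ L₁ ⊔ L₂) ha
  · exact (le_sup_right : L₂ ≤ L₁ ⊔ L₂) ha

theorem SeriesFiniteLevel.unary {f h : LaurentSeries (AlgebraicClosure ℚ)}
    (hf : SeriesFiniteLevel f)
    (H : ∀ σ : AlgebraicClosure ℚ ≃ₐ[ℚ] AlgebraicClosure ℚ,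
      coeffMap (σ : AlgebraicClosure ℚ →+* AlgebraicClosure ℚ) f = f →
      coeffMap (σ : AlgebraicClosure ℚ →+* AlgebraicClosure ℚ) h = h) :
    SeriesFiniteLevel h :=
  hf.binary hf fun σ h₁ _ => H σ h₁

theorem seriesFiniteLevel_of_mem {F₀ : IntermediateField ℚ (LaurentSeries ℚ)}
    {f : LaurentSeries (AlgebraicClosure ℚ)}
    (hf : f ∈ laurentBaseChange (AlgebraicClosure ℚ) F₀) : SeriesFiniteLevel f := by
  rw [mem_laurentBaseChange_iff] at hf
  induction hf using Subfield.closure_induction with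
  | mem y hy =>
      rcases hy with ⟨a, rfl⟩ | ⟨z, _, rfl⟩
      · haveI : Algebra.IsAlgebraic ℚ (AlgebraicClosure ℚ) := AlgebraicClosure.isAlgebraic ℚ
        have ha : IsIntegral ℚ a := (Algebra.IsAlgebraic.isAlgebraic a).isIntegral
        refine ⟨ℚ⟮a⟯, IntermediateField.adjoin.finiteDimensional ha, fun σ hσ => ?_⟩
        rw [coeffMap_algebraMap]
        congr 1
        exact hσ a (IntermediateField.mem_adjoin_simple_self ℚ a)
      · exact ⟨⊥, inferInstance, fun σ _ => coeffMap_coeffEmb σ z⟩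
  | one => exact ⟨⊥, inferInstance, fun σ _ => map_one _⟩
  | add x y _ _ hx hy =>
      exact hx.binary hy fun σ h₁ h₂ => by rw [map_add, h₁, h₂]
  | neg x _ hx => exact hx.unary fun σ h₁ => by rw [map_neg, h₁]
  | inv x _ hx => exact hx.unary fun σ h₁ => by rw [map_inv₀, h₁]
  | mul x y _ _ hx hy =>
      exact hx.binary hy fun σ h₁ h₂ => by rw [map_mul, h₁, h₂]

section Pic

variable (F₀ : IntermediateField ℚ (LaurentSeries ℚ))

/-- A Galois element fixing the function `f` with `n D = div f`, `n ≠ 0`, fixes the class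
of `D`. -/
theorem smul_mk_eq_of_fixes (σ : AlgebraicClosure ℚ ≃ₐ[ℚ] AlgebraicClosure ℚ)
    (D : Divisor.degZero (K := AlgebraicClosure ℚ)
      (F := laurentBaseChange (AlgebraicClosure ℚ) F₀))
    {n : ℤ} (hn : n ≠ 0) (f : laurentBaseChange (AlgebraicClosure ℚ) F₀)
    (hD : ∀ v : Place (AlgebraicClosure ℚ) (laurentBaseChange (AlgebraicClosure ℚ) F₀),
      n * (D : Divisor _ _) v = v.ord f)
    (hσ : coeffMap (σ : AlgebraicClosure ℚ →+* AlgebraicClosure ℚ)
      (f : LaurentSeries (AlgebraicClosure ℚ)) = f) :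
    σ • (Pic0.mk D) = Pic0.mk D := by
  set g := arithmeticGalois F₀ σ with hg
  have hgf : g • f = f := Subtype.ext (by rw [coe_arithmeticGalois_smul, hσ])
  have hgf' : g⁻¹ • f = f := by
    conv_lhs => rw [← hgf]
    exact inv_smul_smul g f
  rw [galois_smul_pic0_def, SemilinearAut.pic0_smul_mk]
  refine congrArg Pic0.mk (Subtype.ext ?_)
  rw [SemilinearAut.coe_degZeroSMulHom]
  ext w
  rw [SemilinearAut.divisor_smul_apply]
  have h1 := hD (g⁻¹ • w)
  have h2 := hD w
  have h3 : (g⁻¹ • w).ord f = w.ord f := by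
    have := SemilinearAut.ord_smul g⁻¹ w f
    rwa [hgf'] at this
  rw [h3, ← h2] at h1
  exact mul_left_cancel₀ hn h1

/-- **FINLEVEL.** A torsion class of `Pic0` of a function field `laurentBaseChange ℚ̄ F₀` is fixed
by `Gal(ℚ̄/L)` for some finite extension `L/ℚ`. -/
theorem exists_finiteLevel_of_zsmul_eq_zero
    (x : Pic0 (AlgebraicClosure ℚ) (laurentBaseChange (AlgebraicClosure ℚ) F₀))
    {n : ℤ} (hn : n ≠ 0) (hx : n • x = 0) :
    ∃ L : IntermediateField ℚ (AlgebraicClosure ℚ), FiniteDimensional ℚ L ∧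
      ∀ σ : AlgebraicClosure ℚ ≃ₐ[ℚ] AlgebraicClosure ℚ, (∀ a ∈ L, σ a = a) → σ • x = x := by
  obtain ⟨D, rfl⟩ := Pic0.mk_surjective x
  have h0 : Pic0.mk (n • D) = 0 := by
    rw [← hx]
    exact map_zsmul (QuotientAddGroup.mk' _) n D
  have h1 : ((n • D : Divisor.degZero (K := AlgebraicClosure ℚ)
      (F := laurentBaseChange (AlgebraicClosure ℚ) F₀)) : Divisor _ _)
      ∈ Divisor.principal (K := AlgebraicClosure ℚ)
        (F := laurentBaseChange (AlgebraicClosure ℚ) F₀) := by
    have := (QuotientAddGroup.eq_zero_iff _).mp h0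
    exact AddSubgroup.mem_addSubgroupOf.mp this
  obtain ⟨f, -, hf⟩ := h1
  obtain ⟨L, hL, hLσ⟩ := seriesFiniteLevel_of_mem (F₀ := F₀) f.2
  refine ⟨L, hL, fun σ hσ => smul_mk_eq_of_fixes F₀ σ D hn f (fun v => ?_) (hLσ σ hσ)⟩
  rw [← hf v]
  simp

/-- Normal version of FINLEVEL: the finite extension can be taken normal over `ℚ`. -/
theorem exists_normal_finiteLevel_of_zsmul_eq_zero
    (x : Pic0 (AlgebraicClosure ℚ) (laurentBaseChange (AlgebraicClosure ℚ) F₀))
    {n : ℤ} (hn : n ≠ 0) (hx : n • x = 0) :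
    ∃ L : IntermediateField ℚ (AlgebraicClosure ℚ), FiniteDimensional ℚ L ∧ Normal ℚ L ∧
      ∀ σ : AlgebraicClosure ℚ ≃ₐ[ℚ] AlgebraicClosure ℚ, (∀ a ∈ L, σ a = a) → σ • x = x := by
  obtain ⟨L, hL, h⟩ := exists_finiteLevel_of_zsmul_eq_zero F₀ x hn hx
  haveI : Algebra.IsAlgebraic ℚ (AlgebraicClosure ℚ) := AlgebraicClosure.isAlgebraic ℚ
  haveI : IsAlgClosure ℚ (AlgebraicClosure ℚ) := ⟨inferInstance, inferInstance⟩
  haveI : Normal ℚ (AlgebraicClosure ℚ) := IsAlgClosure.normal ℚ (AlgebraicClosure ℚ)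
  refine ⟨IntermediateField.normalClosure ℚ L (AlgebraicClosure ℚ),
    normalClosure.is_finiteDimensional ℚ L (AlgebraicClosure ℚ),
    normalClosure.normal ℚ L (AlgebraicClosure ℚ), fun σ hσ => h σ fun a ha => hσ a ?_⟩
  exact IntermediateField.le_normalClosure L ha

/-- Elements of a normal intermediate field stay in it under every automorphism. -/
theorem map_mem_of_normal (L : IntermediateField ℚ (AlgebraicClosure ℚ)) [Normal ℚ L]
    (τ : AlgebraicClosure ℚ ≃ₐ[ℚ] AlgebraicClosure ℚ) {a : AlgebraicClosure ℚ} (ha : a ∈ L) :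
    τ a ∈ L := by
  haveI : Algebra.IsAlgebraic ℚ (AlgebraicClosure ℚ) := AlgebraicClosure.isAlgebraic ℚ
  haveI : IsAlgClosure ℚ (AlgebraicClosure ℚ) := ⟨inferInstance, inferInstance⟩
  haveI : Normal ℚ (AlgebraicClosure ℚ) := IsAlgClosure.normal ℚ (AlgebraicClosure ℚ)
  exact (IntermediateField.normal_iff_forall_map_le'.mp (inferInstance : Normal ℚ L)) τ
    ⟨a, ha, rfl⟩

/-- If `σ` fixes a normal `L` pointwise, so does every conjugate `τ⁻¹ σ τ`. -/
theorem conj_fixes_of_normal (L : IntermediateField ℚ (AlgebraicClosure ℚ)) [Normal ℚ L]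
    (σ τ : AlgebraicClosure ℚ ≃ₐ[ℚ] AlgebraicClosure ℚ) (hσ : ∀ a ∈ L, σ a = a) :
    ∀ a ∈ L, (τ⁻¹ * σ * τ) a = a := by
  intro a ha
  show τ⁻¹ (σ (τ a)) = a
  rw [hσ (τ a) (map_mem_of_normal L τ ha)]
  exact τ.symm_apply_apply a

end Pic

end Fermat.Agent.S29.H571

end
end
-- ===== PACK-END S29/H571/FiniteLevel.lean

-- ===== PACK-BEGIN S37/H160/ValPoly.lean
section


/-!
# S37 / RED-V (helper160): polynomials over a valuation ring

`A` a valuation subring of a field `K`.  Mathlib-only.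

* `exists_dvd_all`        : among finitely many elements of `K`, one divides all others in `A`;
* `exists_primitive_scale`: a finite family of polynomials over `K`, not all zero, is a common
  scalar multiple of polynomials over `A`, one of which has a coefficient equal to `1`;
* `mem_lifts_of_mul_mem_lifts` (Gauss' lemma): `p * s ∈ A[X]`, `s ∈ A[X]` with nonzero
  reduction  ⟹  `p ∈ A[X]`;
* `roots_map_residue` (Gauss' lemma for roots): the roots of the reduction of `g ∈ A[X]` are the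
  reductions of the roots of `g` lying in `A` (with multiplicities), `K` algebraically closed.
-/

set_option autoImplicit false

namespace Fermat.Agent.S37.H160

open Polynomial

variable {K : Type*} [Field K] (A : ValuationSubring K)

/-- Among finitely many elements of `K`, not all zero, one divides all the others in `A`. -/
theorem exists_dvd_all {ι : Type*} (s : Finset ι) (a : ι → K) (h : ∃ i ∈ s, a i ≠ 0) :
    ∃ i₀ ∈ s, a i₀ ≠ 0 ∧ ∀ i ∈ s, a i / a i₀ ∈ A := by
  obtain ⟨i₁, hi₁, hne⟩ := h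
  obtain ⟨i₀, hi₀, hmax⟩ := s.exists_max_image (fun i => A.valuation (a i)) ⟨i₁, hi₁⟩
  have h0 : a i₀ ≠ 0 := by
    intro h
    have h1 := hmax i₁ hi₁
    simp only [h, map_zero] at h1
    exact hne ((map_eq_zero _).mp (le_antisymm h1 zero_le))
  refine ⟨i₀, hi₀, h0, fun i hi => ?_⟩
  rw [← A.valuation_le_one_iff, map_div₀]
  have hpos : 0 < A.valuation (a i₀) := by
    rw [zero_lt_iff]
    exact (_root_.map_ne_zero _).mpr h0
  exact (div_le_one₀ hpos).mpr (hmax i hi)

/-- A finite family of polynomials over `K`, not all zero, is a common scalar multiple of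
polynomials over `A`, one of which has a coefficient equal to `1`. -/
theorem exists_primitive_scale {ι : Type*} (s : Finset ι) (p : ι → K[X])
    (h : ∃ i ∈ s, p i ≠ 0) :
    ∃ (c : K) (p₀ : ι → A[X]), c ≠ 0 ∧ (∀ i ∈ s, p i = C c * (p₀ i).map A.subtype) ∧
      ∃ i ∈ s, ∃ n, (p₀ i).coeff n = 1 := by
  classical
  obtain ⟨i₁, hi₁, hne⟩ := h
  obtain ⟨n₁, hn₁⟩ : ∃ n, (p i₁).coeff n ≠ 0 := by
    by_contra hall
    push Not at hall
    exact hne (Polynomial.ext fun n => by simpa using hall n)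
  let T : Finset (Σ _ : ι, ℕ) := s.sigma fun i => (p i).support
  have hT : ∃ x ∈ T, (p x.1).coeff x.2 ≠ 0 :=
    ⟨⟨i₁, n₁⟩, Finset.mem_sigma.mpr ⟨hi₁, mem_support_iff.mpr hn₁⟩, hn₁⟩
  obtain ⟨x₀, hx₀, hc, hall⟩ := exists_dvd_all A T (fun x => (p x.1).coeff x.2) hT
  set c := (p x₀.1).coeff x₀.2 with hcdef
  have hmem : ∀ i ∈ s, ∀ n, (p i).coeff n / c ∈ A := by
    intro i hi n
    by_cases hn : (p i).coeff n = 0
    · rw [hn, zero_div]; exact A.zero_mem
    · exact hall ⟨i, n⟩ (Finset.mem_sigma.mpr ⟨hi, mem_support_iff.mpr hn⟩)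
  have hlift : ∀ i ∈ s, ∃ q : A[X], q.map A.subtype = C c⁻¹ * p i := by
    intro i hi
    have : C c⁻¹ * p i ∈ lifts A.subtype := by
      rw [lifts_iff_coeff_lifts]
      intro n
      rw [coeff_C_mul]
      exact ⟨⟨(p i).coeff n / c, hmem i hi n⟩, by simp [div_eq_inv_mul]⟩
    exact (mem_lifts _).mp this
  choose! q hq using hlift
  refine ⟨c, q, hc, fun i hi => ?_, x₀.1, (Finset.mem_sigma.mp hx₀).1, x₀.2, ?_⟩
  · rw [hq i hi, ← mul_assoc, ← C_mul, mul_inv_cancel₀ hc, C_1, one_mul]
  · have h1 := congrArg (fun r => coeff r x₀.2) (hq x₀.1 (Finset.mem_sigma.mp hx₀).1)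
    simp only [coeff_map, coeff_C_mul] at h1
    apply Subtype.ext
    have h2 : A.subtype ((q x₀.1).coeff x₀.2) = 1 := by
      rw [h1, ← hcdef, inv_mul_cancel₀ hc]
    simpa using h2

/-- Single polynomial version of `exists_primitive_scale`. -/
theorem exists_primitive_scale_one (p : K[X]) (hp : p ≠ 0) :
    ∃ (c : K) (p₀ : A[X]), c ≠ 0 ∧ p = C c * p₀.map A.subtype ∧ ∃ n, p₀.coeff n = 1 := by
  obtain ⟨c, p₀, hc, h1, i, -, n, hn⟩ :=
    exists_primitive_scale A (Finset.univ : Finset Unit) (fun _ => p) ⟨(), Finset.mem_univ _, hp⟩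
  cases i
  exact ⟨c, p₀ (), hc, h1 () (Finset.mem_univ _), n, hn⟩

variable {A}

theorem map_subtype_injective : Function.Injective (Polynomial.map (A.subtype) : A[X] → K[X]) :=
  Polynomial.map_injective _ Subtype.val_injective

variable {k : Type*} [Field k] (π : A →+* k)

theorem map_ne_zero_of_coeff_eq_one {p : A[X]} {n : ℕ} (h : p.coeff n = 1) : p.map π ≠ 0 := by
  intro h0
  have := congrArg (fun r => coeff r n) h0
  simp [h] at this

variable (hπ : ∀ a : A, π a = 0 ↔ a ∈ IsLocalRing.maximalIdeal A)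

include hπ in
/-- An element of `K` outside `A` has an inverse in the kernel of `π`. -/
theorem inv_mem_ker_of_not_mem {c : K} (hc : c ∉ A) :
    ∃ h : c⁻¹ ∈ A, π ⟨c⁻¹, h⟩ = 0 := by
  have hinv : c⁻¹ ∈ A := (A.mem_or_inv_mem c).resolve_left hc
  refine ⟨hinv, (hπ _).mpr ?_⟩
  rw [IsLocalRing.mem_maximalIdeal, mem_nonunits_iff]
  intro hu
  obtain ⟨u, hu⟩ := hu
  apply hc
  have h1 : ((u⁻¹ : Aˣ) : A) * ⟨c⁻¹, hinv⟩ = 1 := by rw [← hu]; simp
  have h2 : (((u⁻¹ : Aˣ) : A) : K) * c⁻¹ = 1 := by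
    have := congrArg Subtype.val h1
    simpa using this
  have hc0 : c ≠ 0 := by
    rintro rfl
    exact hc A.zero_mem
  have h3 : (((u⁻¹ : Aˣ) : A) : K) = c := by
    field_simp at h2
    exact h2
  rw [← h3]
  exact ((u⁻¹ : Aˣ) : A).2

include hπ in
/-- **Gauss' lemma.**  If `p * s` has coefficients in `A`, where `s ∈ A[X]` has nonzero
reduction, then `p` has coefficients in `A`. -/
theorem mem_lifts_of_mul_mem_lifts (p : K[X]) (s q : A[X]) (hs : s.map π ≠ 0)
    (h : p * s.map A.subtype = q.map A.subtype) : ∃ p' : A[X], p'.map A.subtype = p := by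
  rcases eq_or_ne p 0 with rfl | hp
  · exact ⟨0, by simp⟩
  obtain ⟨c, p₀, hc, hpc, n, hn⟩ := exists_primitive_scale_one A p hp
  by_cases hcA : c ∈ A
  · refine ⟨C ⟨c, hcA⟩ * p₀, ?_⟩
    rw [Polynomial.map_mul, map_C, hpc]
    rfl
  · exfalso
    obtain ⟨hinv, hker⟩ := inv_mem_ker_of_not_mem π hπ hcA
    have h1 : p₀ * s = C ⟨c⁻¹, hinv⟩ * q := by
      apply map_subtype_injective
      rw [Polynomial.map_mul, Polynomial.map_mul, map_C, ← h, hpc]
      simp only [ValuationSubring.subtype_apply]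
      rw [← mul_assoc, ← mul_assoc, ← C_mul, inv_mul_cancel₀ hc, C_1, one_mul]
    have h2 := congrArg (Polynomial.map π) h1
    rw [Polynomial.map_mul, Polynomial.map_mul, map_C, hker, C_0, zero_mul] at h2
    rcases mul_eq_zero.mp h2 with h3 | h3
    · exact map_ne_zero_of_coeff_eq_one π hn h3
    · exact hs h3

/-- Reduction `K → k`, extended by `0` outside `A`. -/
noncomputable def redK (c : K) : k := by
  classical
  exact if h : c ∈ A then π ⟨c, h⟩ else 0

theorem redK_of_mem {c : K} (h : c ∈ A) : redK π c = π ⟨c, h⟩ := by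
  simp [redK, h]

theorem redK_coe (a : A) : redK π (a : K) = π a := by
  rw [redK_of_mem π a.2]

open Classical in
include hπ in
/-- **Gauss' lemma for roots.**  For `g ∈ A[X]` with nonzero reduction, `K` algebraically closed,
the roots of the reduction of `g` are the reductions of the roots of `g` that lie in `A`. -/
theorem roots_map_residue [IsAlgClosed K] (g : A[X]) (hg : g.map π ≠ 0) :
    (g.map π).roots = ((g.map A.subtype).roots.filter (· ∈ A)).map (redK π) := by
  suffices H : ∀ (n : ℕ) (g : A[X]), (g.map A.subtype).natDegree = n → g.map π ≠ 0 →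
      (g.map π).roots = ((g.map A.subtype).roots.filter (· ∈ A)).map (redK π) from
    H _ g rfl hg
  intro n
  induction n with
  | zero =>
    intro g hn _
    have h1 : g.map A.subtype = C ((g.map A.subtype).coeff 0) := eq_C_of_natDegree_eq_zero hn
    have h2 : g = C (g.coeff 0) := by
      apply map_subtype_injective
      rw [h1, map_C, coeff_map]
    rw [h1, roots_C, h2, map_C, roots_C]
    simp
  | succ n ih =>
    intro g hn hg
    have hG : g.map A.subtype ≠ 0 := by
      intro h0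
      rw [h0, natDegree_zero] at hn
      omega
    have hdeg : (g.map A.subtype).degree ≠ 0 := by
      rw [degree_eq_natDegree hG, hn]
      exact_mod_cast Nat.succ_ne_zero n
    obtain ⟨γ, hγ⟩ := IsAlgClosed.exists_root (g.map A.subtype) hdeg
    obtain ⟨G₁, hG₁⟩ := dvd_iff_isRoot.mpr hγ
    have hG₁0 : G₁ ≠ 0 := by
      rintro rfl
      rw [mul_zero] at hG₁
      exact hG hG₁
    have hdeg₁ : G₁.natDegree = n := by
      have := congrArg natDegree hG₁
      rw [natDegree_mul (X_sub_C_ne_zero γ) hG₁0, natDegree_X_sub_C, hn] at this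
      omega
    by_cases hγA : γ ∈ A
    · -- integral root
      have hroot : IsRoot g ⟨γ, hγA⟩ := by
        have h1 : eval γ (g.map A.subtype) = A.subtype (eval ⟨γ, hγA⟩ g) := by
          rw [eval_map, ← eval₂_hom]
          rfl
        rw [IsRoot.def] at hγ ⊢
        rw [h1] at hγ
        exact Subtype.ext hγ
      obtain ⟨g₁, hg₁⟩ := dvd_iff_isRoot.mpr hroot
      have hg₁map : g₁.map A.subtype = G₁ := by
        have h1 : (X - C γ) * g₁.map A.subtype = (X - C γ) * G₁ := by
          rw [← hG₁, hg₁, Polynomial.map_mul, Polynomial.map_sub, map_X, map_C]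
          rfl
        exact mul_left_cancel₀ (X_sub_C_ne_zero γ) h1
      have hg₁π : g₁.map π ≠ 0 := by
        intro h0
        apply hg
        rw [hg₁, Polynomial.map_mul, h0, mul_zero]
      have hih := ih g₁ (by rw [hg₁map, hdeg₁]) hg₁π
      have e1 : g.map π = (X - C (π ⟨γ, hγA⟩)) * g₁.map π := by
        rw [hg₁, Polynomial.map_mul, Polynomial.map_sub, map_X, map_C]
      have e1ne : (X - C (π ⟨γ, hγA⟩)) * g₁.map π ≠ 0 := e1 ▸ hg
      have e2ne : (X - C γ) * G₁ ≠ 0 := hG₁ ▸ hG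
      rw [e1, roots_mul e1ne, roots_X_sub_C, hih, hG₁, roots_mul e2ne, roots_X_sub_C,
        Multiset.filter_add, Multiset.map_add, hg₁map]
      congr 1
      rw [Multiset.filter_singleton, if_pos hγA, Multiset.map_singleton, redK_of_mem π hγA]
    · -- root outside `A`
      obtain ⟨hinv, hker⟩ := inv_mem_ker_of_not_mem π hπ hγA
      have hγ0 : γ ≠ 0 := by
        rintro rfl
        exact hγA A.zero_mem
      set s : A[X] := 1 - C ⟨γ⁻¹, hinv⟩ * X with hs
      have hsmap : s.map A.subtype = C (-γ⁻¹) * (X - C γ) := by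
        rw [hs, Polynomial.map_sub, Polynomial.map_one, Polynomial.map_mul, map_C, map_X]
        simp only [ValuationSubring.subtype_apply]
        rw [mul_sub, ← C_mul, neg_mul, inv_mul_cancel₀ hγ0, C_neg, C_neg, C_1]
        ring
      have hsπ : s.map π = 1 := by
        rw [hs, Polynomial.map_sub, Polynomial.map_one, Polynomial.map_mul, map_C, hker, C_0,
          zero_mul, sub_zero]
      have hG₂ : (C (-γ) * G₁) * s.map A.subtype = g.map A.subtype := by
        rw [hsmap, hG₁]
        have : C (-γ) * C (-γ⁻¹) = (1 : K[X]) := by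
          rw [← C_mul, neg_mul_neg, mul_inv_cancel₀ hγ0, C_1]
        calc C (-γ) * G₁ * (C (-γ⁻¹) * (X - C γ))
            = (C (-γ) * C (-γ⁻¹)) * ((X - C γ) * G₁) := by ring
          _ = (X - C γ) * G₁ := by rw [this, one_mul]
      obtain ⟨g₂, hg₂⟩ := mem_lifts_of_mul_mem_lifts π hπ (C (-γ) * G₁) s g
        (by rw [hsπ]; exact one_ne_zero) hG₂
      have hgs : g = g₂ * s := by
        apply map_subtype_injective
        rw [Polynomial.map_mul, hg₂, hG₂]
      have hg₂π : g₂.map π = g.map π := by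
        rw [hgs, Polynomial.map_mul, hsπ, mul_one]
      have hCγ : C (-γ) ≠ (0 : K[X]) := by
        rw [Ne, C_eq_zero, neg_eq_zero]
        exact hγ0
      have hdeg₂ : (g₂.map A.subtype).natDegree = n := by
        rw [hg₂, natDegree_C_mul (by rwa [neg_ne_zero]), hdeg₁]
      have hih := ih g₂ hdeg₂ (hg₂π ▸ hg)
      have e2ne : (X - C γ) * G₁ ≠ 0 := hG₁ ▸ hG
      rw [← hg₂π, hih, hG₁, roots_mul e2ne, roots_X_sub_C, Multiset.filter_add,
        Multiset.filter_singleton, if_neg hγA, hg₂, roots_C_mul _ (by rwa [neg_ne_zero])]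
      simp

open Classical in
include hπ in
/-- Counting form of `roots_map_residue`. -/
theorem rootMultiplicity_map_residue [IsAlgClosed K] (g : A[X]) (hg : g.map π ≠ 0) (cb : k) :
    (g.map π).rootMultiplicity cb =
      Multiset.card ((g.map A.subtype).roots.filter (fun c => c ∈ A ∧ redK π c = cb)) := by
  rw [← count_roots, roots_map_residue π hπ g hg, Multiset.count_map, Multiset.filter_filter]
  congr 1
  refine Multiset.filter_congr fun c _ => ?_
  constructor
  · rintro ⟨h1, h2⟩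
    exact ⟨h2, h1.symm⟩
  · rintro ⟨h1, h2⟩
    exact ⟨h2.symm, h1⟩

end Fermat.Agent.S37.H160

end
-- ===== PACK-END S37/H160/ValPoly.lean

-- ===== PACK-BEGIN S37/H340/KronBasic.lean
section




/-!
# S37 / R3-K : the formal Kronecker polynomial (helper340)

For a commutative ring `R`, `ℓ ≥ 1` and a Laurent series `f = ∑ aₙ qⁿ`, the ring `R((q))` is
free of rank `ℓ` over its subring `V (R((q))) = R((q^ℓ))` (`V = qExpand R ℓ`), with basis
`1, q, …, q^(ℓ-1)`.  `kronMat ℓ f` is the matrix of multiplication by `f` in this basis and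
`kron ℓ f` its characteristic polynomial ("`∏_b (Y - f(ζ^b q^{1/ℓ}))`").

Main statements of this file
* `decomp` : `g = ∑ i, q^i * V (sect ℓ i g)`;
* `single_mul_eq_sum` : `q^j * f = ∑ i, q^i * V (kronMat ℓ f i j)`;
* `kron_monic`, `kron_natDegree`;
* `kron_map` : compatibility with `coeffMap`;
* `kron_eval₂_self` : `(kron ℓ f).eval₂ V f = 0` (Cayley–Hamilton form).
-/

set_option autoImplicit false

noncomputable section

namespace Fermat.Agent.S37.H340

open ModularCurve HahnSeries Polynomial Matrix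

variable {R : Type*} [CommRing R] (ℓ : ℕ) [NeZero ℓ]

omit [NeZero ℓ] in
lemma exists_coeff_eq_zero_of_lt (f : LaurentSeries R) : ∃ b : ℤ, ∀ m < b, f.coeff m = 0 := by
  by_cases hf : f = 0
  · exact ⟨0, fun m _ => by simp [hf]⟩
  · exact ⟨f.order, fun m hm => HahnSeries.coeff_eq_zero_of_lt_order hm⟩

lemma sect_bdd (i : ℤ) (f : LaurentSeries R) :
    BddBelow (Function.support fun n : ℤ => f.coeff ((ℓ : ℤ) * n + i)) := by
  have hℓ : (1 : ℤ) ≤ ℓ := by exact_mod_cast Nat.pos_of_ne_zero (NeZero.ne ℓ)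
  obtain ⟨b, hb⟩ := exists_coeff_eq_zero_of_lt f
  refine ⟨min 0 (b - i), fun m hm => ?_⟩
  by_contra hlt
  rw [not_le] at hlt
  refine hm (hb _ ?_)
  have h0 : m < 0 := lt_of_lt_of_le hlt (min_le_left _ _)
  have h1 : m < b - i := lt_of_lt_of_le hlt (min_le_right _ _)
  nlinarith

/-- The `i`-th section: `sect ℓ i f = ∑ₙ f.coeff (ℓ n + i) qⁿ`. -/
def sect (i : ℤ) (f : LaurentSeries R) : LaurentSeries R :=
  HahnSeries.ofSuppBddBelow (fun n : ℤ => f.coeff ((ℓ : ℤ) * n + i)) (sect_bdd ℓ i f)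

@[simp]
lemma sect_coeff (i : ℤ) (f : LaurentSeries R) (n : ℤ) :
    (sect ℓ i f).coeff n = f.coeff ((ℓ : ℤ) * n + i) := by
  simp [sect]

/-- the variable `q` -/
def qq : LaurentSeries R := HahnSeries.single (1 : ℤ) (1 : R)

omit [NeZero ℓ] in
lemma qq_pow (n : ℕ) : (qq : LaurentSeries R) ^ n = HahnSeries.single (n : ℤ) (1 : R) := by
  rw [qq, HahnSeries.single_pow, one_pow]
  simp

omit [NeZero ℓ] in
lemma coeff_qq_pow_mul (n : ℕ) (g : LaurentSeries R) (k : ℤ) :
    ((qq : LaurentSeries R) ^ n * g).coeff k = g.coeff (k - n) := by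
  rw [qq_pow, HahnSeries.coeff_single_mul, one_mul]

lemma qExpand_coeff (g : LaurentSeries R) (k : ℤ) :
    (qExpand R ℓ g).coeff k = if (ℓ : ℤ) ∣ k then g.coeff (k / ℓ) else 0 := by
  have hℓ : (ℓ : ℤ) ≠ 0 := by exact_mod_cast NeZero.ne ℓ
  split_ifs with h
  · obtain ⟨m, rfl⟩ := h
    rw [qExpand_coeff_mul, Int.mul_ediv_cancel_left _ hℓ]
  · exact qExpand_coeff_of_not_dvd ℓ g h

/-- **Decomposition** of a Laurent series along the basis `1, q, …, q^(ℓ-1)` of `R((q))` over
`R((q^ℓ))`. -/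
theorem decomp (g : LaurentSeries R) :
    g = ∑ i : Fin ℓ, (qq : LaurentSeries R) ^ (i : ℕ) * qExpand R ℓ (sect ℓ (i : ℕ) g) := by
  have hℓ : (0 : ℤ) < ℓ := by exact_mod_cast Nat.pos_of_ne_zero (NeZero.ne ℓ)
  ext k
  rw [HahnSeries.coeff_sum]
  simp only [coeff_qq_pow_mul, qExpand_coeff, sect_coeff]
  -- the unique index `i ≡ k mod ℓ`
  have hr0 : 0 ≤ k % (ℓ : ℤ) := Int.emod_nonneg _ hℓ.ne'
  have hr1 : k % (ℓ : ℤ) < ℓ := Int.emod_lt_of_pos _ hℓ
  set r : ℕ := (k % (ℓ : ℤ)).toNat with hr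
  have hrk : (r : ℤ) = k % (ℓ : ℤ) := Int.toNat_of_nonneg hr0
  have hrlt : r < ℓ := by
    have : (r : ℤ) < ℓ := hrk ▸ hr1
    exact_mod_cast this
  rw [Finset.sum_eq_single (⟨r, hrlt⟩ : Fin ℓ)]
  · have hdvd : (ℓ : ℤ) ∣ k - (r : ℤ) := by
      rw [hrk]; exact Int.dvd_self_sub_emod
    simp only [hdvd, if_true]
    congr 1
    rw [Int.mul_ediv_cancel' hdvd]; ring
  · intro i _ hi
    rw [if_neg]
    intro hdvd
    apply hi
    ext
    simp only
    have h1 : (ℓ : ℤ) ∣ (i : ℕ) - (r : ℤ) := by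
      have h2 : (ℓ : ℤ) ∣ k - (r : ℤ) := by rw [hrk]; exact Int.dvd_self_sub_emod
      have := dvd_sub h2 hdvd
      simpa using this
    have hi1 : ((i : ℕ) : ℤ) < ℓ := by exact_mod_cast i.2
    have hi0 : (0 : ℤ) ≤ ((i : ℕ) : ℤ) := Int.natCast_nonneg _
    have hr0' : (0 : ℤ) ≤ (r : ℤ) := Int.natCast_nonneg _
    have hr1' : (r : ℤ) < ℓ := by exact_mod_cast hrlt
    obtain ⟨c, hc⟩ := h1
    have hc0 : c = 0 := by
      by_contra hne
      rcases lt_or_gt_of_ne hne with h | h
      · have : (ℓ : ℤ) * c ≤ -ℓ := by nlinarith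
        omega
      · have : (ℓ : ℤ) ≤ (ℓ : ℤ) * c := by nlinarith
        omega
    rw [hc0, mul_zero] at hc
    omega
  · intro h; exact absurd (Finset.mem_univ _) h

/-- The matrix of multiplication by `f` in the basis `1, q, …, q^(ℓ-1)`. -/
def kronMat (f : LaurentSeries R) : Matrix (Fin ℓ) (Fin ℓ) (LaurentSeries R) :=
  Matrix.of fun i j => sect ℓ ((i : ℕ) - (j : ℕ) : ℤ) f

@[simp]
lemma kronMat_apply (f : LaurentSeries R) (i j : Fin ℓ) :
    kronMat ℓ f i j = sect ℓ ((i : ℕ) - (j : ℕ) : ℤ) f := rfl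

/-- `q^j * f = ∑ i, q^i * V (M i j)`. -/
theorem qq_pow_mul_eq_sum (f : LaurentSeries R) (j : Fin ℓ) :
    (qq : LaurentSeries R) ^ (j : ℕ) * f =
      ∑ i : Fin ℓ, (qq : LaurentSeries R) ^ (i : ℕ) * qExpand R ℓ (kronMat ℓ f i j) := by
  conv_lhs => rw [decomp ℓ ((qq : LaurentSeries R) ^ (j : ℕ) * f)]
  refine Finset.sum_congr rfl fun i _ => ?_
  congr 2
  ext n
  simp only [sect_coeff, coeff_qq_pow_mul, kronMat_apply]
  congr 1
  ring

/-- The **Kronecker polynomial** of `f`: the characteristic polynomial of multiplication by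
`f(q)` on `R((q))` over `R((q^ℓ))`, with coefficients transported to `R((q))`. -/
def kron (f : LaurentSeries R) : (LaurentSeries R)[X] := (kronMat ℓ f).charpoly

theorem kron_monic (f : LaurentSeries R) : (kron ℓ f).Monic := Matrix.charpoly_monic _

theorem kron_natDegree [Nontrivial R] (f : LaurentSeries R) : (kron ℓ f).natDegree = ℓ := by
  rw [kron, Matrix.charpoly_natDegree_eq_dim, Fintype.card_fin]

/-- Compatibility with change of coefficients. -/
theorem kronMat_map {S : Type*} [CommRing S] (g : R →+* S) (f : LaurentSeries R) :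
    kronMat ℓ (coeffMap g f) = (kronMat ℓ f).map (coeffMap g) := by
  ext i j n
  simp

theorem kron_map {S : Type*} [CommRing S] (g : R →+* S) (f : LaurentSeries R) :
    kron ℓ (coeffMap g f) = (kron ℓ f).map (coeffMap g) := by
  rw [kron, kron, kronMat_map, Matrix.charpoly_map]

/-- **Cayley–Hamilton form**: `f` is a root of its Kronecker polynomial (coefficients pushed
to `R((q^ℓ))` by `V = qExpand R ℓ`). -/
theorem kron_eval₂_self (f : LaurentSeries R) :
    (kron ℓ f).eval₂ (qExpand R ℓ) f = 0 := by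
  classical
  set M' : Matrix (Fin ℓ) (Fin ℓ) (LaurentSeries R) := (kronMat ℓ f).map (qExpand R ℓ) with hM'
  set v : Fin ℓ → LaurentSeries R := fun i => (qq : LaurentSeries R) ^ (i : ℕ) with hv
  have hvM : Matrix.vecMul v M' = f • v := by
    funext j
    simp only [Matrix.vecMul, dotProduct, hM', Matrix.map_apply, hv, Pi.smul_apply, smul_eq_mul]
    rw [mul_comm f, qq_pow_mul_eq_sum ℓ f j]
  have h1 : Matrix.vecMul v (Matrix.scalar (Fin ℓ) f - M') = 0 := by
    rw [Matrix.vecMul_sub, hvM]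
    funext j
    simp [Matrix.scalar_apply]
  have h2 : (Matrix.scalar (Fin ℓ) f - M').det • v = 0 := by
    have := congrArg (fun w => Matrix.vecMul w (Matrix.adjugate (Matrix.scalar (Fin ℓ) f - M'))) h1
    simp only [Matrix.vecMul_vecMul, Matrix.mul_adjugate, Matrix.zero_vecMul] at this
    rw [Matrix.vecMul_smul, Matrix.vecMul_one] at this
    exact this
  have h3 : (Matrix.scalar (Fin ℓ) f - M').det = 0 := by
    have h0 : (0 : ℕ) < ℓ := Nat.pos_of_ne_zero (NeZero.ne ℓ)
    have := congrFun h2 ⟨0, h0⟩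
    simpa [hv] using this
  rw [kron, Polynomial.eval₂_eq_eval_map, ← Matrix.charpoly_map, ← hM', Matrix.eval_charpoly]
  exact h3

end Fermat.Agent.S37.H340

end
end
-- ===== PACK-END S37/H340/KronBasic.lean

-- ===== PACK-BEGIN S37/H818/FieldBridge.lean
section
/-
S37 / LEVEL TRANSFER (helper818), part 9: bridges between `IntermediateField` language
(`relfinrank`, `⊔`) and the Prelude's "along" language (`finrankAlong`, `Algebra.adjoin`).
-/



set_option autoImplicit false
set_option linter.style.haveILetI false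

noncomputable section

namespace Fermat.Agent.S37.H818

open AlgebraicCurve IntermediateField

variable {K E : Type*} [Field K] [Field E] [Algebra K E]

/-- `finrankAlong` of an inclusion of intermediate fields is the relative finrank. -/
theorem finrankAlong_inclusion {A B : IntermediateField K E} (h : A ≤ B) :
    finrankAlong K (IntermediateField.inclusion h) = A.relfinrank B := by
  rw [IntermediateField.relfinrank_eq_finrank_of_le h]
  unfold finrankAlong
  letI := algebraAlong (IntermediateField.inclusion h)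
  let e : ↥B ≃ₗ[A] ↥(IntermediateField.extendScalars h) :=
    { toFun := fun x => ⟨x.1, x.2⟩
      invFun := fun x => ⟨x.1, x.2⟩
      map_add' := fun _ _ => rfl
      map_smul' := fun _ _ => rfl
      left_inv := fun _ => rfl
      right_inv := fun _ => rfl }
  exact e.finrank_eq

/-- `FiniteAlong` for an inclusion, from positivity of the relative finrank. -/
theorem finiteAlong_inclusion {A B : IntermediateField K E} (h : A ≤ B)
    (hpos : 0 < A.relfinrank B) : FiniteAlong K (IntermediateField.inclusion h) := by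
  unfold FiniteAlong
  letI := algebraAlong (IntermediateField.inclusion h)
  have h1 : 0 < Module.finrank A B := by
    have := finrankAlong_inclusion h
    unfold finrankAlong at this
    rw [this]
    exact hpos
  exact Module.finite_of_finrank_pos h1

/-- If `C ≤ A ⊔ B` (with `A, B ≤ C`, `C` finite over `A`), then `C` is generated as an
`A`-algebra by the image of `B`. -/
theorem adjoin_range_inclusion_eq_top {A B C : IntermediateField K E} (hAC : A ≤ C)
    (hBC : B ≤ C) (hC : C ≤ A ⊔ B) (hfin : FiniteAlong K (IntermediateField.inclusion hAC)) :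
    (letI := algebraAlong (IntermediateField.inclusion hAC)
     Algebra.adjoin A (Set.range (IntermediateField.inclusion hBC))) = ⊤ := by
  letI := algebraAlong (IntermediateField.inclusion hAC)
  haveI : Module.Finite A C := hfin
  haveI : Algebra.IsAlgebraic A C := Algebra.IsAlgebraic.of_finite A C
  set T : Subalgebra A C := Algebra.adjoin A (Set.range (IntermediateField.inclusion hBC)) with hT
  have key : ∀ y (hy : y ∈ A ⊔ B), ∃ hyC : y ∈ C, (⟨y, hyC⟩ : C) ∈ T := by
    intro y hy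
    rw [IntermediateField.sup_def] at hy
    induction hy using IntermediateField.adjoin_induction with
    | mem x hx =>
      rcases hx with hx | hx
      · refine ⟨hAC hx, ?_⟩
        have : (⟨x, hAC hx⟩ : C) = algebraMap A C ⟨x, hx⟩ := rfl
        rw [this]
        exact T.algebraMap_mem _
      · refine ⟨hBC hx, ?_⟩
        exact Algebra.subset_adjoin ⟨⟨x, hx⟩, rfl⟩
    | algebraMap x =>
      refine ⟨C.algebraMap_mem x, ?_⟩
      have : (⟨algebraMap K E x, C.algebraMap_mem x⟩ : C) =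
          algebraMap A C ⟨algebraMap K E x, A.algebraMap_mem x⟩ := rfl
      rw [this]
      exact T.algebraMap_mem _
    | add x y _ _ hx hy =>
      obtain ⟨hxC, hxT⟩ := hx
      obtain ⟨hyC, hyT⟩ := hy
      exact ⟨C.add_mem hxC hyC, T.add_mem hxT hyT⟩
    | inv x _ hx =>
      obtain ⟨hxC, hxT⟩ := hx
      refine ⟨C.inv_mem hxC, ?_⟩
      have h1 := T.inv_mem_of_algebraic (x := ⟨⟨x, hxC⟩, hxT⟩)
        (Algebra.IsAlgebraic.isAlgebraic (R := A) (⟨x, hxC⟩ : C))
      exact h1
    | mul x y _ _ hx hy =>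
      obtain ⟨hxC, hxT⟩ := hx
      obtain ⟨hyC, hyT⟩ := hy
      exact ⟨C.mul_mem hxC hyC, T.mul_mem hxT hyT⟩
  rw [eq_top_iff]
  rintro ⟨y, hyC⟩ -
  obtain ⟨_, h⟩ := key y (hC hyC)
  exact h

end Fermat.Agent.S37.H818

end

end
-- ===== PACK-END S37/H818/FieldBridge.lean

-- ===== PACK-BEGIN S37/H339/RatTower.lean
section


/-!
# S37 BOARD v3, leaf D4 (helper339): the generic tower lemma

`K(j) ⊆ K(t) ⊆ F` with `j · Q(t) = P(t)`, `P`, `Q` coprime, `t` transcendental:
`[K(t) : K(j)] = max (deg P) (deg Q)` (Mathlib's `RatFunc.finrank_eq_max_natDegree`, transported),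
hence `max (deg P) (deg Q) · [F : K(t)] = [F : K(j)]`; finiteness and separability of `F / K(j)`
pass to `F / K(t)`.
-/

set_option autoImplicit false

noncomputable section

namespace Fermat.Agent.S37.H339

open IntermediateField Polynomial

section RatTower

variable {K F : Type*} [Field K] [Field F] [Algebra K F]

/-- numerator and denominator of `P / Q` for coprime `P`, `Q` have the degrees of `P`, `Q` -/
theorem natDegree_num_denom_of_isCoprime (P Q : K[X]) (hcop : IsCoprime P Q) (hQ : Q ≠ 0) :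
    (algebraMap K[X] (RatFunc K) P / algebraMap K[X] (RatFunc K) Q).num.natDegree = P.natDegree ∧
      (algebraMap K[X] (RatFunc K) P / algebraMap K[X] (RatFunc K) Q).denom.natDegree =
        Q.natDegree := by
  set f : RatFunc K := algebraMap K[X] (RatFunc K) P / algebraMap K[X] (RatFunc K) Q with hf
  have h1 : f.num * Q = P * f.denom := (RatFunc.num_mul_eq_mul_denom_iff hQ).mpr hf
  have hc := RatFunc.isCoprime_num_denom f
  have hnP : f.num ∣ P := hc.dvd_of_dvd_mul_right ⟨Q, h1.symm⟩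
  have hPn : P ∣ f.num := hcop.dvd_of_dvd_mul_right ⟨f.denom, h1⟩
  have hdQ : f.denom ∣ Q := hc.symm.dvd_of_dvd_mul_left ⟨P, by linear_combination h1⟩
  have hQd : Q ∣ f.denom := hcop.symm.dvd_of_dvd_mul_left ⟨f.num, by linear_combination -h1⟩
  constructor
  · exact natDegree_eq_of_degree_eq (degree_eq_degree_of_associated (associated_of_dvd_dvd hnP hPn))
  · exact natDegree_eq_of_degree_eq (degree_eq_degree_of_associated (associated_of_dvd_dvd hdQ hQd))

/-- `[K(t) : K(j)] = max (deg P) (deg Q)` when `j · Q(t) = P(t)` with `P`, `Q` coprime and `t`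
transcendental -/
theorem relfinrank_adjoin_of_eq (t j : F) (ht : Transcendental K t) (P Q : K[X])
    (hcop : IsCoprime P Q) (hQ : Q ≠ 0) (h : j * aeval t Q = aeval t P) :
    relfinrank K⟮j⟯ K⟮t⟯ = max P.natDegree Q.natDegree := by
  classical
  set e := RatFunc.algEquivOfTranscendental t ht with he
  set φ : RatFunc K →ₐ[K] F := (K⟮t⟯.val).comp e.toAlgHom with hφ
  have hφX : φ RatFunc.X = t := by
    show ((e RatFunc.X : K⟮t⟯) : F) = t
    rw [RatFunc.algEquivOfTranscendental_X]
  have hφpoly : ∀ g : K[X], φ (algebraMap K[X] (RatFunc K) g) = aeval t g := by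
    intro g
    show ((e (algebraMap K[X] (RatFunc K) g) : K⟮t⟯) : F) = aeval t g
    rw [RatFunc.algEquivOfTranscendental_algebraMap]
    have : ((aeval (AdjoinSimple.gen K t) g : K⟮t⟯) : F) = aeval ((AdjoinSimple.gen K t : K⟮t⟯) : F) g := by
      rw [← IntermediateField.coe_val, ← aeval_algHom_apply]
    rw [this]
    rfl
  have hQt : aeval t Q ≠ 0 := fun h0 => ht ⟨Q, hQ, h0⟩
  set f : RatFunc K := algebraMap K[X] (RatFunc K) P / algebraMap K[X] (RatFunc K) Q with hf
  have hφf : φ f = j := by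
    rw [hf, map_div₀, hφpoly, hφpoly, ← h, mul_div_assoc, div_self hQt, mul_one]
  have hA : (K⟮f⟯).map φ = K⟮j⟯ := by
    rw [IntermediateField.adjoin_map, Set.image_singleton, hφf]
  have hB : (⊤ : IntermediateField K (RatFunc K)).map φ = K⟮t⟯ := by
    rw [← RatFunc.adjoin_X, IntermediateField.adjoin_map, Set.image_singleton, hφX]
  rw [← hA, ← hB, relfinrank_map_map, relfinrank_top_right, RatFunc.finrank_eq_max_natDegree]
  obtain ⟨h1, h2⟩ := natDegree_num_denom_of_isCoprime P Q hcop hQ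
  rw [h1, h2]

/-- `K(j) ⊆ K(t)` when `j · Q(t) = P(t)`, `Q(t) ≠ 0` -/
theorem adjoin_le_adjoin_of_eq (t j : F) (P Q : K[X]) (hQt : aeval t Q ≠ 0)
    (h : j * aeval t Q = aeval t P) : K⟮j⟯ ≤ K⟮t⟯ := by
  rw [adjoin_simple_le_iff]
  have hj : j = aeval t P / aeval t Q := by
    rw [← h, mul_div_assoc, div_self hQt, mul_one]
  rw [hj]
  have ht : t ∈ K⟮t⟯ := mem_adjoin_simple_self K t
  have hmem : ∀ g : K[X], aeval t g ∈ K⟮t⟯ := by
    intro g
    rw [aeval_eq_sum_range]
    exact sum_mem fun i _ => by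
      rw [Algebra.smul_def]
      exact mul_mem (IntermediateField.algebraMap_mem _ _) (pow_mem ht i)
  exact div_mem (hmem P) (hmem Q)

/-- the tower law for `K(j) ⊆ K(t) ⊆ F` -/
theorem max_natDegree_mul_finrank (t j : F) (ht : Transcendental K t) (P Q : K[X])
    (hcop : IsCoprime P Q) (hQ : Q ≠ 0) (h : j * aeval t Q = aeval t P) :
    max P.natDegree Q.natDegree * Module.finrank K⟮t⟯ F = Module.finrank K⟮j⟯ F := by
  have hQt : aeval t Q ≠ 0 := fun h0 => ht ⟨Q, hQ, h0⟩
  rw [← relfinrank_adjoin_of_eq t j ht P Q hcop hQ h]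
  exact relfinrank_mul_finrank_top (adjoin_le_adjoin_of_eq t j P Q hQt h)

/-- finiteness passes up the tower -/
theorem finiteDimensional_of_le {A B : IntermediateField K F} (hAB : A ≤ B)
    [FiniteDimensional A F] : FiniteDimensional B F := by
  letI : Algebra A B := (IntermediateField.inclusion hAB).toRingHom.toAlgebra
  haveI : IsScalarTower A B F := IsScalarTower.of_algebraMap_eq fun _ => rfl
  exact Module.Finite.of_restrictScalars_finite A B F

/-- separability passes up the tower -/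
theorem isSeparable_of_le {A B : IntermediateField K F} (hAB : A ≤ B)
    [Algebra.IsSeparable A F] : Algebra.IsSeparable B F := by
  letI : Algebra A B := (IntermediateField.inclusion hAB).toRingHom.toAlgebra
  haveI : IsScalarTower A B F := IsScalarTower.of_algebraMap_eq fun _ => rfl
  exact Algebra.isSeparable_tower_top_of_isSeparable A B F

/-- **Tower lemma.** All the (H1)-type information passes from `j` to `t`. -/
theorem h1_of_tower (t j : F) (ht : Transcendental K t) (P Q : K[X])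
    (hcop : IsCoprime P Q) (hQ : Q ≠ 0) (h : j * aeval t Q = aeval t P)
    (hfin : FiniteDimensional K⟮j⟯ F) :
    FiniteDimensional K⟮t⟯ F ∧
      max P.natDegree Q.natDegree * Module.finrank K⟮t⟯ F = Module.finrank K⟮j⟯ F ∧
      (Algebra.IsSeparable K⟮j⟯ F → Algebra.IsSeparable K⟮t⟯ F) := by
  have hQt : aeval t Q ≠ 0 := fun h0 => ht ⟨Q, hQ, h0⟩
  have hle := adjoin_le_adjoin_of_eq t j P Q hQt h
  exact ⟨finiteDimensional_of_le hle, max_natDegree_mul_finrank t j ht P Q hcop hQ h,
    fun hs => isSeparable_of_le hle⟩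

end RatTower

end Fermat.Agent.S37.H339

end
end
-- ===== PACK-END S37/H339/RatTower.lean

-- ===== PACK-BEGIN S29/H509/WeightedEis.lean
section


/-!
# Weighted Eisenstein sums (helper509, S29 piece TES, file 1)

For a bounded weight `w : (Fin 2 → ℤ) → ℂ` (`‖w v‖ ≤ 1`) and `3 ≤ k` we study
`wEis w k z = ∑' v, w v * eisSummand k v z`:
absolute summability, the slash action of `SL(2, ℤ)`, holomorphy, boundedness at `i∞`
(of every `SL(2, ℤ)`-translate) and the limit along a vertical strip.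
-/

set_option autoImplicit false

namespace Fermat.Agent.S29.H509

open ModularForm UpperHalfPlane Matrix CongruenceSubgroup EisensteinSeries Filter Topology
open scoped MatrixGroups Manifold

noncomputable section

/-- The weighted Eisenstein sum `∑' v, w v * (v 0 * z + v 1) ^ (-k)`. -/
def wEis (w : (Fin 2 → ℤ) → ℂ) (k : ℤ) (z : ℍ) : ℂ :=
  ∑' v : Fin 2 → ℤ, w v * eisSummand k v z

lemma norm_wEis_summand_le {w : (Fin 2 → ℤ) → ℂ} (hw : ∀ v, ‖w v‖ ≤ 1) (k : ℤ)
    (v : Fin 2 → ℤ) (z : ℍ) : ‖w v * eisSummand k v z‖ ≤ ‖eisSummand k v z‖ := by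
  rw [norm_mul]
  exact mul_le_of_le_one_left (norm_nonneg _) (hw v)

lemma summable_norm_wEis_summand {w : (Fin 2 → ℤ) → ℂ} (hw : ∀ v, ‖w v‖ ≤ 1) {k : ℤ}
    (hk : 3 ≤ k) (z : ℍ) : Summable fun v : Fin 2 → ℤ => ‖w v * eisSummand k v z‖ :=
  (summable_norm_eisSummand hk z).of_nonneg_of_le (fun _ => norm_nonneg _)
    (fun v => norm_wEis_summand_le hw k v z)

lemma summable_wEis_summand {w : (Fin 2 → ℤ) → ℂ} (hw : ∀ v, ‖w v‖ ≤ 1) {k : ℤ}
    (hk : 3 ≤ k) (z : ℍ) : Summable fun v : Fin 2 → ℤ => w v * eisSummand k v z :=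
  (summable_norm_wEis_summand hw hk z).of_norm

/-- Right multiplication by `γ ∈ SL(2, ℤ)` as a permutation of `Fin 2 → ℤ`. -/
def vecMulEquiv (γ : SL(2, ℤ)) : (Fin 2 → ℤ) ≃ (Fin 2 → ℤ) where
  toFun v := v ᵥ* γ
  invFun v := v ᵥ* ↑(γ⁻¹)
  left_inv v := by
    simp_rw [vecMul_vecMul, ← Matrix.SpecialLinearGroup.coe_mul, mul_inv_cancel,
      Matrix.SpecialLinearGroup.coe_one, vecMul_one]
  right_inv v := by
    simp_rw [vecMul_vecMul, ← Matrix.SpecialLinearGroup.coe_mul, inv_mul_cancel,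
      Matrix.SpecialLinearGroup.coe_one, vecMul_one]

@[simp] lemma vecMulEquiv_apply (γ : SL(2, ℤ)) (v : Fin 2 → ℤ) :
    vecMulEquiv γ v = v ᵥ* γ := rfl

@[simp] lemma vecMulEquiv_symm_apply (γ : SL(2, ℤ)) (v : Fin 2 → ℤ) :
    (vecMulEquiv γ).symm v = v ᵥ* ↑(γ⁻¹) := rfl

/-- The slash action permutes the weights. -/
theorem wEis_slash (w : (Fin 2 → ℤ) → ℂ) (k : ℤ) (γ : SL(2, ℤ)) :
    wEis w k ∣[k] γ = wEis (fun v => w (v ᵥ* ↑(γ⁻¹))) k := by
  ext1 z
  simp_rw [SL_slash_apply, _root_.zpow_neg,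
    mul_inv_eq_iff_eq_mul₀ (zpow_ne_zero _ <| denom_ne_zero _ z), wEis, eisSummand_SL2_apply,
    ← tsum_mul_right]
  conv_rhs => rw [← (vecMulEquiv γ).tsum_eq]
  refine tsum_congr fun v => ?_
  simp only [vecMulEquiv_apply, vecMul_vecMul, ← Matrix.SpecialLinearGroup.coe_mul, mul_inv_cancel,
    Matrix.SpecialLinearGroup.coe_one, vecMul_one]
  ring


/-! ### Locally uniform convergence and holomorphy -/

theorem wEis_tendstoLocallyUniformly {w : (Fin 2 → ℤ) → ℂ} (hw : ∀ v, ‖w v‖ ≤ 1) {k : ℤ}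
    (hk : 3 ≤ k) :
    TendstoLocallyUniformly
      (fun (s : Finset (Fin 2 → ℤ)) ↦ (∑ x ∈ s, w x * eisSummand k x ·))
      (wEis w k ·) Filter.atTop := by
  have hk' : (2 : ℝ) < k := by norm_cast
  have p_sum : Summable fun x : Fin 2 → ℤ ↦ ‖x‖ ^ (-k) :=
    mod_cast (summable_one_div_norm_rpow hk')
  simp only [tendstoLocallyUniformly_iff_forall_isCompact, wEis]
  intro K hK
  obtain ⟨A, B, hB, HABK⟩ := subset_verticalStrip_of_isCompact hK
  refine (tendstoUniformlyOn_tsum (hu := p_sum.mul_left <| r ⟨⟨A, B⟩, hB⟩ ^ (-k : ℝ))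
    (fun p z hz ↦ ?_)).mono HABK
  refine (norm_wEis_summand_le hw k p z).trans ?_
  simpa only [eisSummand, one_div, ← _root_.zpow_neg, norm_zpow, ← Real.rpow_intCast,
    Int.cast_neg] using summand_bound_of_mem_verticalStrip (by positivity) p hB hz

lemma wEis_tendstoLocallyUniformlyOn {w : (Fin 2 → ℤ) → ℂ} (hw : ∀ v, ‖w v‖ ≤ 1) {k : ℤ}
    (hk : 3 ≤ k) :
    TendstoLocallyUniformlyOn (fun (s : Finset (Fin 2 → ℤ)) ↦
      ↑ₕ(fun (z : ℍ) ↦ ∑ x ∈ s, w x * eisSummand k x z)) (↑ₕ(wEis w k))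
          Filter.atTop {z : ℂ | 0 < z.im} := by
  rw [← upperHalfPlaneSet, ← range_coe, ← Set.image_univ]
  apply TendstoLocallyUniformlyOn.comp (s := ⊤) _ _ _ (OpenPartialHomeomorph.continuousOn_symm _)
  · simp only [Set.top_eq_univ, tendstoLocallyUniformlyOn_univ]
    apply wEis_tendstoLocallyUniformly hw hk
  · simp only [IsOpenEmbedding.toOpenPartialHomeomorph_target, Set.top_eq_univ,
      Set.mapsTo_range_iff, Set.mem_univ, forall_const]

/-- Weighted Eisenstein sums are holomorphic on `ℍ`. -/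
theorem wEis_mdifferentiable {w : (Fin 2 → ℤ) → ℂ} (hw : ∀ v, ‖w v‖ ≤ 1) {k : ℤ}
    (hk : 3 ≤ k) : MDiff (wEis w k) := by
  intro τ
  suffices DifferentiableAt ℂ (↑ₕ(wEis w k)) τ.1 by
    convert!
      MDifferentiableAt.comp τ (DifferentiableAt.mdifferentiableAt this) τ.mdifferentiable_coe
    exact funext fun z ↦ (comp_ofComplex (wEis w k) z).symm
  refine DifferentiableOn.differentiableAt ?_ (isOpen_upperHalfPlaneSet.mem_nhds τ.2)
  refine (wEis_tendstoLocallyUniformlyOn hw hk).differentiableOn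
    (Eventually.of_forall fun s ↦ ?_) isOpen_upperHalfPlaneSet
  have h1 : DifferentiableOn ℂ (fun z : ℂ => ∑ x ∈ s, w x * (↑ₕ(eisSummand k x)) z)
      {z : ℂ | 0 < z.im} :=
    DifferentiableOn.fun_sum fun x _ ↦
      (eisSummand_extension_differentiableOn k x).const_mul (w x)
  refine h1.congr fun z _ => ?_
  simp only [Function.comp_apply]

/-! ### The majorant and boundedness at `i∞` -/

/-- The majorant `∑' v, ‖eisSummand k v z‖`. -/
def eisMaj (k : ℤ) (z : ℍ) : ℝ := ∑' v : Fin 2 → ℤ, ‖eisSummand k v z‖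

lemma norm_wEis_le_eisMaj {w : (Fin 2 → ℤ) → ℂ} (hw : ∀ v, ‖w v‖ ≤ 1) {k : ℤ}
    (hk : 3 ≤ k) (z : ℍ) : ‖wEis w k z‖ ≤ eisMaj k z := by
  refine (norm_tsum_le_tsum_norm (summable_norm_wEis_summand hw hk z)).trans ?_
  exact (summable_norm_wEis_summand hw hk z).tsum_le_tsum
    (fun v => norm_wEis_summand_le hw k v z) (summable_norm_eisSummand hk z)

lemma eisMaj_smul (k : ℤ) (γ : SL(2, ℤ)) (z : ℍ) :
    eisMaj k (γ • z) = ‖denom γ z‖ ^ k * eisMaj k z := by
  unfold eisMaj
  simp_rw [eisSummand_SL2_apply, norm_mul, norm_zpow, tsum_mul_left]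
  congr 1
  exact (vecMulEquiv γ).tsum_eq (fun v => ‖eisSummand k v z‖)

lemma denom_T_zpow (n : ℤ) (z : ℍ) : denom (ModularGroup.T ^ n : SL(2, ℤ)) z = 1 := by
  simp [denom, ModularGroup.coe_T_zpow, -map_zpow]

lemma eisMaj_T_zpow_smul (k : ℤ) (n : ℤ) (z : ℍ) :
    eisMaj k (ModularGroup.T ^ n • z) = eisMaj k z := by
  rw [eisMaj_smul, denom_T_zpow]
  simp

lemma eisMaj_le_of_mem_verticalStrip {k : ℤ} (hk : 3 ≤ k) {A B : ℝ} (hB : 0 < B) {z : ℍ}
    (hz : z ∈ verticalStrip A B) :
    eisMaj k z ≤ ∑' x : Fin 2 → ℤ, r ⟨⟨A, B⟩, hB⟩ ^ (-k) * ‖x‖ ^ (-k) := by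
  have hk' : (2 : ℝ) < k := by norm_cast
  apply (summable_norm_eisSummand hk _).tsum_le_tsum _
  · exact_mod_cast (summable_one_div_norm_rpow hk').mul_left <| r ⟨⟨A, B⟩, hB⟩ ^ (-k)
  · intro x
    simp_rw [eisSummand, norm_zpow]
    exact_mod_cast summand_bound_of_mem_verticalStrip (lt_trans two_pos hk').le x hB hz

/-- Weighted Eisenstein sums are bounded at `i∞`. -/
theorem isBoundedAtImInfty_wEis {w : (Fin 2 → ℤ) → ℂ} (hw : ∀ v, ‖w v‖ ≤ 1) {k : ℤ}
    (hk : 3 ≤ k) : IsBoundedAtImInfty (wEis w k) := by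
  rw [UpperHalfPlane.isBoundedAtImInfty_iff]
  refine ⟨∑' x : Fin 2 → ℤ, r ⟨⟨1, 2⟩, Nat.ofNat_pos⟩ ^ (-k) * ‖x‖ ^ (-k), 2, fun z hz => ?_⟩
  obtain ⟨n, hn⟩ := ModularGroup_T_zpow_mem_verticalStrip z (N := 1) one_pos
  refine (norm_wEis_le_eisMaj hw hk z).trans ?_
  rw [← eisMaj_T_zpow_smul k ((1 : ℕ) * n) z]
  refine eisMaj_le_of_mem_verticalStrip hk two_pos ?_
  exact verticalStrip_anti_right _ hz (by simpa using hn)

/-- Every `SL(2, ℤ)`-translate of a weighted Eisenstein sum is bounded at `i∞`. -/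
theorem isBoundedAtImInfty_wEis_slash {w : (Fin 2 → ℤ) → ℂ} (hw : ∀ v, ‖w v‖ ≤ 1) {k : ℤ}
    (hk : 3 ≤ k) (γ : SL(2, ℤ)) : IsBoundedAtImInfty (wEis w k ∣[k] γ) := by
  rw [wEis_slash]
  exact isBoundedAtImInfty_wEis (fun v => hw _) hk


/-! ### The limit at `i∞` -/

lemma norm_eisSummand_le_inv_im {k : ℤ} (hk : 1 ≤ k) {v : Fin 2 → ℤ} (hv : v 0 ≠ 0) (z : ℍ)
    (hz : 1 ≤ z.im) : ‖eisSummand k v z‖ ≤ (z.im)⁻¹ := by
  have him : z.im ≤ ‖(v 0 : ℂ) * (z : ℂ) + v 1‖ := by
    have h1 : |((v 0 : ℂ) * (z : ℂ) + v 1).im| ≤ ‖(v 0 : ℂ) * (z : ℂ) + v 1‖ :=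
      Complex.abs_im_le_norm _
    have h2 : ((v 0 : ℂ) * (z : ℂ) + v 1).im = (v 0 : ℝ) * z.im := by
      simp [Complex.add_im, Complex.mul_im]
    have h3 : (1 : ℝ) ≤ |(v 0 : ℝ)| := by
      have : (1 : ℤ) ≤ |v 0| := Int.one_le_abs hv
      exact_mod_cast this
    rw [h2, abs_mul, abs_of_pos z.im_pos] at h1
    nlinarith [z.im_pos]
  have hpos : 0 < z.im := z.im_pos
  obtain ⟨n, rfl⟩ : ∃ n : ℕ, k = (n : ℤ) := ⟨k.toNat, by omega⟩
  have hn : 1 ≤ n := by exact_mod_cast hk
  simp only [eisSummand, _root_.zpow_neg, zpow_natCast, norm_inv, norm_pow]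
  rw [inv_le_inv₀ (pow_pos (hpos.trans_le him) _) hpos]
  calc z.im ≤ ‖(v 0 : ℂ) * (z : ℂ) + v 1‖ := him
    _ = ‖(v 0 : ℂ) * (z : ℂ) + v 1‖ ^ 1 := (pow_one _).symm
    _ ≤ ‖(v 0 : ℂ) * (z : ℂ) + v 1‖ ^ n := pow_le_pow_right₀ (hz.trans him) hn

lemma tendsto_eisSummand_atImInfty {k : ℤ} (hk : 1 ≤ k) {v : Fin 2 → ℤ} (hv : v 0 ≠ 0) :
    Tendsto (eisSummand k v) atImInfty (𝓝 0) := by
  rw [tendsto_zero_iff_norm_tendsto_zero]
  refine squeeze_zero' (Eventually.of_forall fun _ => norm_nonneg _) ?_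
    (tendsto_inv_atTop_zero.comp tendsto_comap)
  rw [Filter.Eventually, atImInfty_mem]
  exact ⟨1, fun z hz => norm_eisSummand_le_inv_im hk hv z hz⟩

/-- The constant term of a weighted Eisenstein sum: the sum over the vectors `(0, d)`. -/
def wEisConst (w : (Fin 2 → ℤ) → ℂ) (k : ℤ) : ℂ :=
  ∑' v : Fin 2 → ℤ, if v 0 = 0 then w v * (v 1 : ℂ) ^ (-k) else 0

/-- Along any filter finer than `atImInfty` and eventually contained in a vertical strip, the
weighted Eisenstein sum tends to its constant term. -/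
theorem tendsto_wEis_of_le {w : (Fin 2 → ℤ) → ℂ} (hw : ∀ v, ‖w v‖ ≤ 1) {k : ℤ}
    (hk : 3 ≤ k) {l : Filter ℍ} (hl : l ≤ atImInfty) {A B : ℝ} (hB : 0 < B)
    (hstrip : ∀ᶠ z in l, z ∈ verticalStrip A B) :
    Tendsto (wEis w k) l (𝓝 (wEisConst w k)) := by
  have hk' : (2 : ℝ) < k := by norm_cast
  refine tendsto_tsum_of_dominated_convergence
    (bound := fun x : Fin 2 → ℤ => r ⟨⟨A, B⟩, hB⟩ ^ (-k) * ‖x‖ ^ (-k)) ?_ ?_ ?_
  · exact_mod_cast (summable_one_div_norm_rpow hk').mul_left (r ⟨⟨A, B⟩, hB⟩ ^ (-k))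
  · intro v
    by_cases hv : v 0 = 0
    · simp only [hv, if_true, eisSummand, Int.cast_zero, zero_mul, zero_add]
      exact tendsto_const_nhds
    · simp only [hv, if_false]
      have := ((tendsto_eisSummand_atImInfty (k := k) (by omega) hv).mono_left hl).const_mul (w v)
      simpa using this
  · filter_upwards [hstrip] with z hz v
    refine (norm_wEis_summand_le hw k v z).trans ?_
    simp_rw [eisSummand, norm_zpow]
    exact_mod_cast summand_bound_of_mem_verticalStrip (lt_trans two_pos hk').le v hB hz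

/-- The path `y ↦ i * max y 1` in the upper half plane. -/
def imAxis (y : ℝ) : ℍ := ⟨⟨0, max y 1⟩, lt_of_lt_of_le one_pos (le_max_right y 1)⟩

lemma imAxis_im (y : ℝ) : (imAxis y).im = max y 1 := rfl

lemma imAxis_re (y : ℝ) : (imAxis y).re = 0 := rfl

lemma tendsto_imAxis : Tendsto imAxis atTop atImInfty := by
  rw [atImInfty, tendsto_comap_iff]
  refine tendsto_atTop_mono (fun y => ?_) tendsto_id
  simp [Function.comp, imAxis_im]

/-- Along the imaginary axis the weighted Eisenstein sum tends to its constant term. -/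
theorem tendsto_wEis_imAxis {w : (Fin 2 → ℤ) → ℂ} (hw : ∀ v, ‖w v‖ ≤ 1) {k : ℤ}
    (hk : 3 ≤ k) : Tendsto (fun y : ℝ => wEis w k (imAxis y)) atTop (𝓝 (wEisConst w k)) := by
  have h := tendsto_wEis_of_le hw hk (l := Filter.map imAxis atTop) tendsto_imAxis
    (A := 0) (B := 1) one_pos
    (by
      rw [Filter.eventually_map]
      exact Eventually.of_forall fun y => ⟨by simp [imAxis_re], by simp [imAxis_im]⟩)
  exact h.comp tendsto_map

/-- A weighted Eisenstein sum with nonzero constant term is not identically zero. -/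
theorem wEis_ne_zero_of_const_ne_zero {w : (Fin 2 → ℤ) → ℂ} (hw : ∀ v, ‖w v‖ ≤ 1) {k : ℤ}
    (hk : 3 ≤ k) (hc : wEisConst w k ≠ 0) : wEis w k ≠ 0 := by
  intro h0
  have h := tendsto_wEis_imAxis hw hk
  simp only [h0, Pi.zero_apply] at h
  exact hc (tendsto_nhds_unique h tendsto_const_nhds)

/-- Periodicity: if the weight is invariant under `v ↦ v ᵥ* T ^ n`, the sum is invariant
under `z ↦ T ^ n • z`. -/
lemma wEis_T_zpow_smul {w : (Fin 2 → ℤ) → ℂ} {k : ℤ}
    (hT : ∀ (n : ℤ) (v : Fin 2 → ℤ), w (v ᵥ* (ModularGroup.T ^ n : SL(2, ℤ))) = w v)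
    (n : ℤ) (z : ℍ) : wEis w k (ModularGroup.T ^ n • z) = wEis w k z := by
  have h := congrFun (wEis_slash w k (ModularGroup.T ^ n)) z
  rw [SL_slash_apply, denom_T_zpow] at h
  simp only [_root_.one_zpow, mul_one] at h
  rw [h]
  congr 1
  funext v
  rw [← _root_.zpow_neg]
  exact hT (-n) v

/-- For `T`-invariant weights, the weighted Eisenstein sum tends to its constant term at `i∞`. -/
theorem tendsto_wEis_atImInfty {w : (Fin 2 → ℤ) → ℂ} (hw : ∀ v, ‖w v‖ ≤ 1) {k : ℤ}
    (hk : 3 ≤ k)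
    (hT : ∀ (n : ℤ) (v : Fin 2 → ℤ), w (v ᵥ* (ModularGroup.T ^ n : SL(2, ℤ))) = w v) :
    Tendsto (wEis w k) atImInfty (𝓝 (wEisConst w k)) := by
  have h := tendsto_wEis_of_le hw hk (l := atImInfty ⊓ 𝓟 (verticalStrip 1 1)) inf_le_left
    (A := 1) (B := 1) one_pos (eventually_inf_principal.mpr (Eventually.of_forall fun _ h => h))
  rw [Metric.tendsto_nhds] at h ⊢
  intro ε hε
  have h1 := h ε hε
  rw [eventually_inf_principal, Filter.Eventually, atImInfty_mem] at h1
  obtain ⟨A, hA⟩ := h1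
  rw [Filter.Eventually, atImInfty_mem]
  refine ⟨max A 1, fun z hz => ?_⟩
  obtain ⟨n, hn⟩ := ModularGroup_T_zpow_mem_verticalStrip z (N := 1) one_pos
  have hn' : ModularGroup.T ^ ((1 : ℕ) * n : ℤ) • z ∈ verticalStrip 1 1 :=
    verticalStrip_anti_right _ ((le_max_right _ _).trans hz) (by simpa using hn)
  have him : A ≤ (ModularGroup.T ^ ((1 : ℕ) * n : ℤ) • z).im := by
    rw [ModularGroup.im_T_zpow_smul]
    exact (le_max_left _ _).trans hz
  have := hA _ him hn'
  simp only [Set.mem_setOf_eq] at this ⊢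
  rwa [wEis_T_zpow_smul hT] at this

/-- If the weight vanishes at `(0, d)` for `d ≠ ±1`, the constant term has two summands. -/
lemma wEisConst_eq {w : (Fin 2 → ℤ) → ℂ} {k : ℤ}
    (hsupp : ∀ v : Fin 2 → ℤ, v 0 = 0 → v 1 ≠ 1 → v 1 ≠ -1 → w v = 0) :
    wEisConst w k = w ![0, 1] + w ![0, -1] * (-1 : ℂ) ^ (-k) := by
  unfold wEisConst
  have hne : (![0, 1] : Fin 2 → ℤ) ≠ ![0, -1] := by
    intro h
    have := congrFun h 1
    simp at this
  rw [tsum_eq_sum (s := {![0, 1], ![0, -1]})]
  · rw [Finset.sum_pair hne]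
    simp
  · intro v hv
    simp only [Finset.mem_insert, Finset.mem_singleton, not_or] at hv
    by_cases h0 : v 0 = 0
    · simp only [h0, if_true]
      have h1 : v 1 ≠ 1 := by
        intro h1
        apply hv.1
        ext i
        fin_cases i <;> simp [h0, h1]
      have h2 : v 1 ≠ -1 := by
        intro h2
        apply hv.2
        ext i
        fin_cases i <;> simp [h0, h2]
      rw [hsupp v h0 h1 h2, zero_mul]
    · simp [h0]

end

end Fermat.Agent.S29.H509

end
-- ===== PACK-END S29/H509/WeightedEis.lean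

-- ===== PACK-BEGIN S29/H332/WeightedEis.lean
section


/-!
# Weighted Eisenstein series

For a bounded weight function `c : (Fin 2 → ℤ) → ℂ` and `k ≥ 3` we study
`wEis c k z = ∑' v, c v * (v 0 * z + v 1) ^ (-k)`.
-/

open UpperHalfPlane EisensteinSeries ModularForm Filter Topology
open scoped Matrix
open scoped MatrixGroups Manifold

noncomputable section

namespace Fermat.Agent.S29.H332

/-- The weighted Eisenstein series. -/
def wEis (c : (Fin 2 → ℤ) → ℂ) (k : ℤ) (z : ℍ) : ℂ :=
  ∑' v : Fin 2 → ℤ, c v * eisSummand k v z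

theorem norm_wsummand_le {c : (Fin 2 → ℤ) → ℂ} (hc : ∀ v, ‖c v‖ ≤ 1) (k : ℤ) (v : Fin 2 → ℤ)
    (z : ℍ) : ‖c v * eisSummand k v z‖ ≤ ‖eisSummand k v z‖ := by
  rw [norm_mul]
  exact mul_le_of_le_one_left (norm_nonneg _) (hc v)

theorem summable_norm_wEis {c : (Fin 2 → ℤ) → ℂ} (hc : ∀ v, ‖c v‖ ≤ 1) {k : ℤ} (hk : 3 ≤ k)
    (z : ℍ) : Summable fun v : Fin 2 → ℤ => ‖c v * eisSummand k v z‖ :=
  (summable_norm_eisSummand hk z).of_nonneg_of_le (fun _ => norm_nonneg _)
    (fun v => norm_wsummand_le hc k v z)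

theorem summable_wEis {c : (Fin 2 → ℤ) → ℂ} (hc : ∀ v, ‖c v‖ ≤ 1) {k : ℤ} (hk : 3 ≤ k)
    (z : ℍ) : Summable fun v : Fin 2 → ℤ => c v * eisSummand k v z :=
  (summable_norm_wEis hc hk z).of_norm

/-- right multiplication by `γ` as a permutation of `ℤ²`. -/
def vecMulEquiv (γ : SL(2, ℤ)) : (Fin 2 → ℤ) ≃ (Fin 2 → ℤ) where
  toFun v := v ᵥ* γ.1
  invFun v := v ᵥ* (γ⁻¹).1
  left_inv v := by
    simp only [Matrix.vecMul_vecMul]
    rw [← Matrix.SpecialLinearGroup.coe_mul, mul_inv_cancel, Matrix.SpecialLinearGroup.coe_one,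
      Matrix.vecMul_one]
  right_inv v := by
    simp only [Matrix.vecMul_vecMul]
    rw [← Matrix.SpecialLinearGroup.coe_mul, inv_mul_cancel, Matrix.SpecialLinearGroup.coe_one,
      Matrix.vecMul_one]

/-- Slashing a weighted Eisenstein series transforms the weight. -/
theorem wEis_slash (c : (Fin 2 → ℤ) → ℂ) (k : ℤ) (γ : SL(2, ℤ)) :
    wEis c k ∣[k] γ = wEis (fun v => c (v ᵥ* (γ⁻¹).1)) k := by
  ext1 z
  simp_rw [SL_slash_apply, _root_.zpow_neg,
    mul_inv_eq_iff_eq_mul₀ (zpow_ne_zero _ <| denom_ne_zero _ z), wEis]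
  rw [← tsum_mul_right]
  conv_rhs => rw [← (vecMulEquiv γ).tsum_eq]
  congr 1
  funext v
  simp only [vecMulEquiv, Equiv.coe_fn_mk]
  rw [Matrix.vecMul_vecMul, ← Matrix.SpecialLinearGroup.coe_mul, mul_inv_cancel,
    Matrix.SpecialLinearGroup.coe_one, Matrix.vecMul_one, eisSummand_SL2_apply]
  simp only [denom]
  ring_nf


theorem wEis_tendstoLocallyUniformly {c : (Fin 2 → ℤ) → ℂ} (hc : ∀ v, ‖c v‖ ≤ 1) {k : ℤ}
    (hk : 3 ≤ k) :
    TendstoLocallyUniformly (fun (s : Finset (Fin 2 → ℤ)) ↦ (∑ x ∈ s, c x * eisSummand k x ·))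
      (wEis c k ·) Filter.atTop := by
  have hk' : (2 : ℝ) < k := by norm_cast
  have p_sum : Summable fun x : Fin 2 → ℤ ↦ ‖x‖ ^ (-k) :=
    mod_cast (summable_one_div_norm_rpow hk')
  simp only [tendstoLocallyUniformly_iff_forall_isCompact, wEis]
  intro K hK
  obtain ⟨A, B, hB, HABK⟩ := subset_verticalStrip_of_isCompact hK
  refine (tendstoUniformlyOn_tsum (hu := p_sum.mul_left <| r ⟨⟨A, B⟩, hB⟩ ^ (-k : ℝ))
    (fun p z hz ↦ ?_)).mono HABK
  refine (norm_wsummand_le hc k p z).trans ?_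
  simpa only [eisSummand, one_div, ← zpow_neg, norm_zpow, ← Real.rpow_intCast,
    Int.cast_neg] using summand_bound_of_mem_verticalStrip (by positivity) p hB hz

theorem wEis_tendstoLocallyUniformlyOn {c : (Fin 2 → ℤ) → ℂ} (hc : ∀ v, ‖c v‖ ≤ 1) {k : ℤ}
    (hk : 3 ≤ k) :
    TendstoLocallyUniformlyOn (fun (s : Finset (Fin 2 → ℤ)) ↦
      ((fun (z : ℍ) ↦ ∑ x ∈ s, c x * eisSummand k x z) ∘ ofComplex)) ((wEis c k) ∘ ofComplex)
          Filter.atTop {z : ℂ | 0 < z.im} := by
  rw [← upperHalfPlaneSet, ← range_coe, ← Set.image_univ]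
  apply TendstoLocallyUniformlyOn.comp (s := ⊤) _ _ _ (OpenPartialHomeomorph.continuousOn_symm _)
  · simp only [Set.top_eq_univ, tendstoLocallyUniformlyOn_univ]
    apply wEis_tendstoLocallyUniformly hc hk
  · simp only [IsOpenEmbedding.toOpenPartialHomeomorph_target, Set.top_eq_univ,
      Set.mapsTo_range_iff, Set.mem_univ, forall_const]

theorem wsummand_extension_differentiableOn (c : (Fin 2 → ℤ) → ℂ) (k : ℤ) (a : Fin 2 → ℤ) :
    DifferentiableOn ℂ ((fun z : ℍ => c a * eisSummand k a z) ∘ ofComplex) {z : ℂ | 0 < z.im} := by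
  have h := (eisSummand_extension_differentiableOn k a).const_smul (c a)
  refine h.congr ?_
  intro z _
  simp [Function.comp, smul_eq_mul]

/-- Weighted Eisenstein series are holomorphic. -/
theorem wEis_mdifferentiable {c : (Fin 2 → ℤ) → ℂ} (hc : ∀ v, ‖c v‖ ≤ 1) {k : ℤ} (hk : 3 ≤ k) :
    MDiff (wEis c k) := by
  intro τ
  suffices DifferentiableAt ℂ ((wEis c k) ∘ ofComplex) τ.1 by
    convert!
      MDifferentiableAt.comp τ (DifferentiableAt.mdifferentiableAt this) τ.mdifferentiable_coe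
    exact funext fun z ↦ (comp_ofComplex (wEis c k) z).symm
  refine DifferentiableOn.differentiableAt ?_ (isOpen_upperHalfPlaneSet.mem_nhds τ.2)
  exact (wEis_tendstoLocallyUniformlyOn hc hk).differentiableOn
    (Eventually.of_forall fun s ↦ by
      have : ((fun (z : ℍ) ↦ ∑ x ∈ s, c x * eisSummand k x z) ∘ ofComplex)
          = fun w => ∑ x ∈ s, ((fun z : ℍ => c x * eisSummand k x z) ∘ ofComplex) w := by
        funext w
        simp [Function.comp]
      rw [this]
      exact DifferentiableOn.fun_sum fun _ _ ↦ wsummand_extension_differentiableOn _ _ _)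
    isOpen_upperHalfPlaneSet


/-! ### Behaviour at `i∞` -/

theorem denom_T_zpow (n : ℤ) (z : ℍ) : denom (ModularGroup.T ^ n : SL(2, ℤ)) z = 1 := by
  have h10 : ((ModularGroup.T ^ n : SL(2, ℤ)) : Matrix (Fin 2) (Fin 2) ℤ) 1 0 = 0 := by
    rw [ModularGroup.coe_T_zpow]; rfl
  have h11 : ((ModularGroup.T ^ n : SL(2, ℤ)) : Matrix (Fin 2) (Fin 2) ℤ) 1 1 = 1 := by
    rw [ModularGroup.coe_T_zpow]; rfl
  simp only [denom]
  simp [-map_zpow, h10, h11]

theorem vecMul_T_zpow_zero (n : ℤ) (v : Fin 2 → ℤ) :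
    (v ᵥ* (ModularGroup.T ^ n : SL(2, ℤ)).1) 0 = v 0 := by
  rw [ModularGroup.coe_T_zpow]
  simp [Matrix.vecMul, Matrix.vec2_dotProduct, Matrix.vecHead]

theorem norm_eisSummand_T_zpow (k : ℤ) (n : ℤ) (v : Fin 2 → ℤ) (z : ℍ) :
    ‖eisSummand k v ((ModularGroup.T ^ n : SL(2, ℤ)) • z)‖
      = ‖eisSummand k (v ᵥ* (ModularGroup.T ^ n : SL(2, ℤ)).1) z‖ := by
  rw [eisSummand_SL2_apply, denom_T_zpow, one_zpow, one_mul]

/-- The sum of the norms of all Eisenstein summands. -/
def eisMajorant (k : ℤ) (z : ℍ) : ℝ := ∑' v : Fin 2 → ℤ, ‖eisSummand k v z‖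

/-- The sum of the norms of the Eisenstein summands with `v 0 ≠ 0`. -/
def eisTail (k : ℤ) (z : ℍ) : ℝ :=
  ∑' v : Fin 2 → ℤ, if v 0 = 0 then 0 else ‖eisSummand k v z‖

theorem eisMajorant_T_zpow (k : ℤ) (n : ℤ) (z : ℍ) :
    eisMajorant k ((ModularGroup.T ^ n : SL(2, ℤ)) • z) = eisMajorant k z := by
  unfold eisMajorant
  conv_rhs => rw [← (vecMulEquiv (ModularGroup.T ^ n)).tsum_eq]
  congr 1
  funext v
  rw [norm_eisSummand_T_zpow]
  rfl

theorem eisTail_T_zpow (k : ℤ) (n : ℤ) (z : ℍ) :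
    eisTail k ((ModularGroup.T ^ n : SL(2, ℤ)) • z) = eisTail k z := by
  unfold eisTail
  conv_rhs => rw [← (vecMulEquiv (ModularGroup.T ^ n)).tsum_eq]
  congr 1
  funext v
  simp only [vecMulEquiv, Equiv.coe_fn_mk]
  rw [norm_eisSummand_T_zpow, vecMul_T_zpow_zero]

theorem norm_wEis_le_eisMajorant {c : (Fin 2 → ℤ) → ℂ} (hc : ∀ v, ‖c v‖ ≤ 1) {k : ℤ}
    (hk : 3 ≤ k) (z : ℍ) : ‖wEis c k z‖ ≤ eisMajorant k z := by
  unfold wEis eisMajorant
  refine (norm_tsum_le_tsum_norm (summable_norm_wEis hc hk z)).trans ?_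
  exact (summable_norm_wEis hc hk z).tsum_le_tsum (fun v => norm_wsummand_le hc k v z)
    (summable_norm_eisSummand hk z)

theorem eisMajorant_le_of_mem_verticalStrip {k : ℤ} (hk : 3 ≤ k) {z : ℍ}
    (hz : z ∈ verticalStrip 1 2) :
    eisMajorant k z ≤ ∑' (x : Fin 2 → ℤ), r ⟨⟨1, 2⟩, Nat.ofNat_pos⟩ ^ (-k) * ‖x‖ ^ (-k) := by
  have hk' : (2 : ℝ) < k := by norm_cast
  unfold eisMajorant
  apply (summable_norm_eisSummand hk _).tsum_le_tsum _
  · exact_mod_cast (summable_one_div_norm_rpow hk').mul_left <| r ⟨⟨1, 2⟩, Nat.ofNat_pos⟩ ^ (-k)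
  · intro x
    simp_rw [eisSummand, norm_zpow]
    exact_mod_cast
      summand_bound_of_mem_verticalStrip (lt_trans two_pos hk').le x two_pos hz

/-- Weighted Eisenstein series are bounded at `i∞`. -/
theorem wEis_isBoundedAtImInfty {c : (Fin 2 → ℤ) → ℂ} (hc : ∀ v, ‖c v‖ ≤ 1) {k : ℤ}
    (hk : 3 ≤ k) : IsBoundedAtImInfty (wEis c k) := by
  rw [UpperHalfPlane.isBoundedAtImInfty_iff]
  refine ⟨∑' (x : Fin 2 → ℤ), r ⟨⟨1, 2⟩, Nat.ofNat_pos⟩ ^ (-k) * ‖x‖ ^ (-k), 2, ?_⟩
  intro z hz
  obtain ⟨n, hn⟩ := (ModularGroup_T_zpow_mem_verticalStrip z (N := 1) one_pos)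
  refine (norm_wEis_le_eisMajorant hc hk z).trans ?_
  have hn' : (ModularGroup.T ^ n : SL(2, ℤ)) • z ∈ verticalStrip 1 2 := by
    have h1 : (ModularGroup.T ^ (((1 : ℕ) : ℤ) * n) : SL(2, ℤ)) = ModularGroup.T ^ n := by
      simp
    rw [h1] at hn
    have := verticalStrip_anti_right ((1 : ℕ) : ℝ) hz hn
    simpa using this
  rw [← eisMajorant_T_zpow k n z]
  exact eisMajorant_le_of_mem_verticalStrip hk hn'

/-- All slashes of weighted Eisenstein series are bounded at `i∞`. -/
theorem wEis_slash_isBoundedAtImInfty {c : (Fin 2 → ℤ) → ℂ} (hc : ∀ v, ‖c v‖ ≤ 1) {k : ℤ}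
    (hk : 3 ≤ k) (γ : SL(2, ℤ)) : IsBoundedAtImInfty (wEis c k ∣[k] γ) := by
  rw [wEis_slash]
  exact wEis_isBoundedAtImInfty (fun v => hc _) hk


/-! ### The limit at `i∞` -/

theorem summable_eisTail {k : ℤ} (hk : 3 ≤ k) (z : ℍ) :
    Summable fun v : Fin 2 → ℤ => if v 0 = 0 then 0 else ‖eisSummand k v z‖ := by
  refine (summable_norm_eisSummand hk z).of_nonneg_of_le (fun v => ?_) (fun v => ?_)
  · split_ifs
    · exact le_rfl
    · exact norm_nonneg _
  · split_ifs
    · exact norm_nonneg _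
    · exact le_rfl

/-- The constant in the tail bound. -/
def tailConst (k : ℤ) : ℝ :=
  ∑' x : Fin 2 → ℤ, r ⟨⟨1, 1⟩, one_pos⟩ ^ (-((k : ℝ) - 1 / 2)) * ‖x‖ ^ (-((k : ℝ) - 1 / 2))

theorem norm_linear_ge_im {v : Fin 2 → ℤ} (hv : v 0 ≠ 0) (z : ℍ) :
    z.im ≤ ‖(v 0 : ℂ) * (z : ℂ) + v 1‖ := by
  have h1 : |((v 0 : ℂ) * (z : ℂ) + v 1).im| ≤ ‖(v 0 : ℂ) * (z : ℂ) + v 1‖ :=
    Complex.abs_im_le_norm _
  have h2 : ((v 0 : ℂ) * (z : ℂ) + v 1).im = (v 0 : ℝ) * z.im := by
    simp
  rw [h2, abs_mul, abs_of_pos z.im_pos] at h1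
  have h3 : (1 : ℝ) ≤ |(v 0 : ℝ)| := by
    have : (1 : ℤ) ≤ |v 0| := Int.one_le_abs hv
    exact_mod_cast this
  calc z.im = 1 * z.im := (one_mul _).symm
    _ ≤ |(v 0 : ℝ)| * z.im := by gcongr
    _ ≤ _ := h1

theorem eisTail_le_of_mem_verticalStrip {k : ℤ} (hk : 3 ≤ k) {z : ℍ}
    (hz : z ∈ verticalStrip 1 1) :
    eisTail k z ≤ tailConst k * z.im ^ (-(1 / 2 : ℝ)) := by
  have hk' : (2 : ℝ) < (k : ℝ) - 1 / 2 := by
    have : (3 : ℝ) ≤ k := by exact_mod_cast hk
    linarith
  have hsum : Summable fun x : Fin 2 → ℤ =>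
      r ⟨⟨1, 1⟩, one_pos⟩ ^ (-((k : ℝ) - 1 / 2)) * ‖x‖ ^ (-((k : ℝ) - 1 / 2)) :=
    (summable_one_div_norm_rpow hk').mul_left _
  unfold eisTail tailConst
  rw [← tsum_mul_right]
  refine (summable_eisTail hk z).tsum_le_tsum (fun v => ?_) (hsum.mul_right _)
  have hy : 0 < z.im := z.im_pos
  have hrn : ∀ x : Fin 2 → ℤ, 0 ≤ r ⟨⟨1, 1⟩, one_pos⟩ ^ (-((k : ℝ) - 1 / 2))
      * ‖x‖ ^ (-((k : ℝ) - 1 / 2)) := fun x =>
    mul_nonneg (Real.rpow_nonneg (r_pos _).le _) (Real.rpow_nonneg (norm_nonneg _) _)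
  split_ifs with hv
  · exact mul_nonneg (hrn v) (Real.rpow_nonneg hy.le _)
  · have hpos : 0 < ‖(v 0 : ℂ) * (z : ℂ) + v 1‖ := lt_of_lt_of_le hy (norm_linear_ge_im hv z)
    have e1 : ‖eisSummand k v z‖ = ‖(v 0 : ℂ) * (z : ℂ) + v 1‖ ^ (-((k : ℝ) - 1 / 2))
        * ‖(v 0 : ℂ) * (z : ℂ) + v 1‖ ^ (-(1 / 2 : ℝ)) := by
      rw [← Real.rpow_add hpos, eisSummand, norm_zpow]
      have : -((k : ℝ) - 1 / 2) + -(1 / 2) = ((-k : ℤ) : ℝ) := by push_cast; ring
      rw [this, Real.rpow_intCast]
    rw [e1]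
    have b1 := summand_bound_of_mem_verticalStrip (k := (k : ℝ) - 1 / 2) (by linarith) v
      one_pos hz
    have b2 : ‖(v 0 : ℂ) * (z : ℂ) + v 1‖ ^ (-(1 / 2 : ℝ)) ≤ z.im ^ (-(1 / 2 : ℝ)) :=
      Real.rpow_le_rpow_of_nonpos hy (norm_linear_ge_im hv z) (by norm_num)
    exact mul_le_mul b1 b2 (Real.rpow_nonneg (norm_nonneg _) _) (hrn v)

theorem eisTail_le {k : ℤ} (hk : 3 ≤ k) (z : ℍ) (hz : 1 ≤ z.im) :
    eisTail k z ≤ tailConst k * z.im ^ (-(1 / 2 : ℝ)) := by
  obtain ⟨n, hn⟩ := (ModularGroup_T_zpow_mem_verticalStrip z (N := 1) one_pos)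
  have h1 : (ModularGroup.T ^ (((1 : ℕ) : ℤ) * n) : SL(2, ℤ)) = ModularGroup.T ^ n := by
    simp
  rw [h1] at hn
  have hn' : (ModularGroup.T ^ n : SL(2, ℤ)) • z ∈ verticalStrip 1 1 := by
    have := verticalStrip_anti_right ((1 : ℕ) : ℝ) hz hn
    simpa using this
  have := eisTail_le_of_mem_verticalStrip hk hn'
  rwa [eisTail_T_zpow, ModularGroup.im_T_zpow_smul] at this

/-- The value at `i∞` of a weighted Eisenstein series. -/
def wEisLimit (c : (Fin 2 → ℤ) → ℂ) (k : ℤ) : ℂ :=
  ∑' v : Fin 2 → ℤ, if v 0 = 0 then c v * ((v 1 : ℂ)) ^ (-k) else 0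

theorem eisSummand_of_zero {k : ℤ} {v : Fin 2 → ℤ} (hv : v 0 = 0) (z : ℍ) :
    eisSummand k v z = ((v 1 : ℂ)) ^ (-k) := by
  simp [eisSummand, hv]

theorem norm_wEis_sub_limit_le {c : (Fin 2 → ℤ) → ℂ} (hc : ∀ v, ‖c v‖ ≤ 1) {k : ℤ}
    (hk : 3 ≤ k) (z : ℍ) : ‖wEis c k z - wEisLimit c k‖ ≤ eisTail k z := by
  have hL : Summable fun v : Fin 2 → ℤ => if v 0 = 0 then c v * ((v 1 : ℂ)) ^ (-k) else 0 := by
    refine Summable.of_norm ?_
    refine (summable_norm_wEis hc hk z).of_nonneg_of_le (fun _ => norm_nonneg _) (fun v => ?_)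
    split_ifs with hv
    · rw [eisSummand_of_zero hv]
    · rw [norm_zero]; exact norm_nonneg _
  unfold wEis wEisLimit
  rw [← (summable_wEis hc hk z).tsum_sub hL]
  have hterm : ∀ v : Fin 2 → ℤ,
      ‖c v * eisSummand k v z - (if v 0 = 0 then c v * ((v 1 : ℂ)) ^ (-k) else 0)‖
        ≤ if v 0 = 0 then 0 else ‖eisSummand k v z‖ := by
    intro v
    split_ifs with hv
    · rw [eisSummand_of_zero hv, sub_self, norm_zero]
    · rw [sub_zero]
      exact norm_wsummand_le hc k v z
  have hs : Summable fun v : Fin 2 → ℤ =>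
      ‖c v * eisSummand k v z - (if v 0 = 0 then c v * ((v 1 : ℂ)) ^ (-k) else 0)‖ :=
    (summable_eisTail hk z).of_nonneg_of_le (fun _ => norm_nonneg _) hterm
  refine (norm_tsum_le_tsum_norm hs).trans ?_
  exact hs.tsum_le_tsum hterm (summable_eisTail hk z)

/-- Weighted Eisenstein series tend to `wEisLimit` at `i∞`. -/
theorem tendsto_wEis_atImInfty {c : (Fin 2 → ℤ) → ℂ} (hc : ∀ v, ‖c v‖ ≤ 1) {k : ℤ}
    (hk : 3 ≤ k) : Tendsto (wEis c k) atImInfty (𝓝 (wEisLimit c k)) := by
  rw [Metric.tendsto_nhds]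
  intro ε hε
  rw [Filter.Eventually, UpperHalfPlane.atImInfty_mem]
  -- choose `A` with `tailConst k * A ^ (-1/2) < ε`
  have hC : 0 ≤ tailConst k := by
    unfold tailConst
    exact tsum_nonneg fun x =>
      mul_nonneg (Real.rpow_nonneg (r_pos _).le _) (Real.rpow_nonneg (norm_nonneg _) _)
  obtain ⟨A, hA1, hA⟩ : ∃ A : ℝ, 1 ≤ A ∧ tailConst k * A ^ (-(1 / 2 : ℝ)) < ε := by
    have hlim : Tendsto (fun A : ℝ => tailConst k * A ^ (-(1 / 2 : ℝ))) atTop (𝓝 0) := by
      have := (tendsto_rpow_neg_atTop (show (0 : ℝ) < 1 / 2 by norm_num)).const_mul (tailConst k)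
      simpa using this
    have hev := (hlim.eventually (gt_mem_nhds hε)).and (eventually_ge_atTop (1 : ℝ))
    obtain ⟨A, h1, h2⟩ := hev.exists
    exact ⟨A, h2, h1⟩
  refine ⟨A, fun z hz => ?_⟩
  simp only [Set.mem_ofPred_eq, dist_eq_norm]
  have hz1 : 1 ≤ z.im := hA1.trans hz
  calc ‖wEis c k z - wEisLimit c k‖ ≤ eisTail k z := norm_wEis_sub_limit_le hc hk z
    _ ≤ tailConst k * z.im ^ (-(1 / 2 : ℝ)) := eisTail_le hk z hz1
    _ ≤ tailConst k * A ^ (-(1 / 2 : ℝ)) :=
        mul_le_mul_of_nonneg_left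
          (Real.rpow_le_rpow_of_nonpos (by linarith) hz (by norm_num)) hC
    _ < ε := hA


/-! ### Weights supported on primitive vectors -/

theorem wEisLimit_eq {c : (Fin 2 → ℤ) → ℂ} {k : ℤ}
    (hsupp : ∀ v : Fin 2 → ℤ, v 0 = 0 → c v ≠ 0 → v 1 = 1 ∨ v 1 = -1) :
    wEisLimit c k = c ![0, 1] + (-1) ^ k * c ![0, -1] := by
  unfold wEisLimit
  have hne : (![0, 1] : Fin 2 → ℤ) ≠ ![0, -1] := by
    intro h
    have := congrFun h 1
    simp at this
  rw [tsum_eq_sum (s := {![0, 1], ![0, -1]})]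
  · rw [Finset.sum_pair hne]
    simp only [Matrix.cons_val_zero, Matrix.cons_val_one, if_true]
    have h1 : ((1 : ℤ) : ℂ) ^ (-k) = 1 := by simp
    have h2 : (((-1 : ℤ)) : ℂ) ^ (-k) = (-1) ^ k := by
      push_cast
      rw [zpow_neg, ← inv_zpow]
      norm_num
    rw [h1, h2, mul_one, mul_comm]
  · intro v hv
    simp only [Finset.mem_insert, Finset.mem_singleton, not_or] at hv
    split_ifs with h0
    · by_cases hcv : c v = 0
      · rw [hcv, zero_mul]
      · exfalso
        rcases hsupp v h0 hcv with h1 | h1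
        · apply hv.1
          ext i
          fin_cases i
          · simpa using h0
          · simpa using h1
        · apply hv.2
          ext i
          fin_cases i
          · simpa using h0
          · simpa using h1
    · rfl

/-! ### Twisted Eisenstein series -/

section Twisted

variable (Γ : Subgroup SL(2, ℤ)) (χ : Γ →* ℂˣ)

/-- The bottom row of a matrix in `SL(2, ℤ)`. -/
def botRow (γ : SL(2, ℤ)) : Fin 2 → ℤ := γ.1 1

theorem botRow_mul (α β : SL(2, ℤ)) : botRow (α * β) = botRow α ᵥ* β.1 := by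
  ext j
  simp [botRow, Matrix.mul_apply, Matrix.vecMul, dotProduct]

theorem botRow_one : botRow 1 = ![0, 1] := by
  ext j
  fin_cases j <;> simp [botRow]

/-- The weight function of the twisted Eisenstein series: `χ(γ)⁻¹` on the bottom row of
`γ ∈ Γ`, zero on vectors which are not bottom rows of elements of `Γ`. -/
def twistWeight (v : Fin 2 → ℤ) : ℂ :=
  open Classical in
  if h : ∃ γ : Γ, botRow (γ : SL(2, ℤ)) = v then ((χ h.choose)⁻¹ : ℂˣ) else 0

variable {Γ χ}

/-- `χ` is trivial on the upper unipotent elements of `Γ`. -/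
def TrivialOnUnipotent (χ : Γ →* ℂˣ) : Prop :=
  ∀ γ : Γ, botRow (γ : SL(2, ℤ)) = ![0, 1] → χ γ = 1

theorem twistWeight_botRow (hχ : TrivialOnUnipotent χ) (γ : Γ) :
    twistWeight Γ χ (botRow (γ : SL(2, ℤ))) = ((χ γ)⁻¹ : ℂˣ) := by
  classical
  have h : ∃ γ' : Γ, botRow (γ' : SL(2, ℤ)) = botRow (γ : SL(2, ℤ)) := ⟨γ, rfl⟩
  unfold twistWeight
  rw [dif_pos h]
  have hrow := h.choose_spec
  have h1 : botRow ((h.choose * γ⁻¹ : Γ) : SL(2, ℤ)) = ![0, 1] := by
    rw [Subgroup.coe_mul, botRow_mul, hrow, ← botRow_mul, Subgroup.coe_inv, mul_inv_cancel,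
      botRow_one]
  have h2 := hχ _ h1
  rw [map_mul, map_inv, mul_inv_eq_one] at h2
  rw [h2]

theorem twistWeight_of_not (v : Fin 2 → ℤ) (h : ¬ ∃ γ : Γ, botRow (γ : SL(2, ℤ)) = v) :
    twistWeight Γ χ v = 0 := by
  classical
  unfold twistWeight
  rw [dif_neg h]

theorem twistWeight_vecMul_inv (hχ : TrivialOnUnipotent χ) (δ : Γ) (v : Fin 2 → ℤ) :
    twistWeight Γ χ (v ᵥ* ((δ : SL(2, ℤ))⁻¹).1) = (χ δ : ℂ) * twistWeight Γ χ v := by
  by_cases h : ∃ γ : Γ, botRow (γ : SL(2, ℤ)) = v
  · obtain ⟨γ, rfl⟩ := h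
    have : botRow (γ : SL(2, ℤ)) ᵥ* ((δ : SL(2, ℤ))⁻¹).1 = botRow ((γ * δ⁻¹ : Γ) : SL(2, ℤ)) := by
      rw [Subgroup.coe_mul, botRow_mul, Subgroup.coe_inv]
    rw [this, twistWeight_botRow hχ, twistWeight_botRow hχ, map_mul, map_inv, mul_inv, inv_inv,
      Units.val_mul, mul_comm]
  · have h' : ¬ ∃ γ : Γ, botRow (γ : SL(2, ℤ)) = v ᵥ* ((δ : SL(2, ℤ))⁻¹).1 := by
      rintro ⟨γ, hγ⟩
      apply h
      refine ⟨γ * δ, ?_⟩
      rw [Subgroup.coe_mul, botRow_mul, hγ, Matrix.vecMul_vecMul,
        ← Matrix.SpecialLinearGroup.coe_mul, inv_mul_cancel, Matrix.SpecialLinearGroup.coe_one,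
        Matrix.vecMul_one]
    rw [twistWeight_of_not _ h, twistWeight_of_not _ h', mul_zero]

theorem norm_twistWeight_le (hχ : TrivialOnUnipotent χ) (hnorm : ∀ γ : Γ, ‖(χ γ : ℂ)‖ = 1)
    (v : Fin 2 → ℤ) : ‖twistWeight Γ χ v‖ ≤ 1 := by
  by_cases h : ∃ γ : Γ, botRow (γ : SL(2, ℤ)) = v
  · obtain ⟨γ, rfl⟩ := h
    rw [twistWeight_botRow hχ, Units.val_inv_eq_inv_val, norm_inv, hnorm, inv_one]
  · rw [twistWeight_of_not _ h, norm_zero]
    exact zero_le_one

variable (Γ χ) in
/-- The twisted Eisenstein series `E_k^χ(z) = ∑_{v bottom row of γ ∈ Γ} χ(γ)⁻¹ (v₀ z + v₁)^{-k}`. -/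
def twistedEis (k : ℤ) : ℍ → ℂ := wEis (twistWeight Γ χ) k

theorem twistedEis_slash (hχ : TrivialOnUnipotent χ) (k : ℤ) (δ : Γ) :
    twistedEis Γ χ k ∣[k] (δ : SL(2, ℤ)) = (χ δ : ℂ) • twistedEis Γ χ k := by
  unfold twistedEis
  rw [wEis_slash]
  ext z
  simp only [wEis, Pi.smul_apply, smul_eq_mul]
  rw [← tsum_mul_left]
  congr 1
  funext v
  rw [twistWeight_vecMul_inv hχ, mul_assoc]

theorem twistedEis_mdifferentiable (hχ : TrivialOnUnipotent χ)
    (hnorm : ∀ γ : Γ, ‖(χ γ : ℂ)‖ = 1) {k : ℤ} (hk : 3 ≤ k) : MDiff (twistedEis Γ χ k) :=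
  wEis_mdifferentiable (norm_twistWeight_le hχ hnorm) hk

theorem twistedEis_slash_isBoundedAtImInfty (hχ : TrivialOnUnipotent χ)
    (hnorm : ∀ γ : Γ, ‖(χ γ : ℂ)‖ = 1) {k : ℤ} (hk : 3 ≤ k) (g : SL(2, ℤ)) :
    IsBoundedAtImInfty (twistedEis Γ χ k ∣[k] g) :=
  wEis_slash_isBoundedAtImInfty (norm_twistWeight_le hχ hnorm) hk g

theorem twistWeight_supp (v : Fin 2 → ℤ) (h0 : v 0 = 0) (hv : twistWeight Γ χ v ≠ 0) :
    v 1 = 1 ∨ v 1 = -1 := by
  by_cases h : ∃ γ : Γ, botRow (γ : SL(2, ℤ)) = v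
  · obtain ⟨γ, rfl⟩ := h
    have hdet := (γ : SL(2, ℤ)).det_coe
    rw [Matrix.det_fin_two] at hdet
    have h10 : (γ : SL(2, ℤ)).1 1 0 = 0 := h0
    rw [h10, mul_zero, sub_zero] at hdet
    exact Int.eq_one_or_neg_one_of_mul_eq_one' hdet |>.imp (fun h => h.2) (fun h => h.2)
  · exact absurd (twistWeight_of_not _ h) hv

/-- The limit of the twisted Eisenstein series at `i∞`. -/
theorem tendsto_twistedEis (hχ : TrivialOnUnipotent χ)
    (hnorm : ∀ γ : Γ, ‖(χ γ : ℂ)‖ = 1) {k : ℤ} (hk : 3 ≤ k) :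
    Tendsto (twistedEis Γ χ k) atImInfty
      (𝓝 (1 + (-1) ^ k * twistWeight Γ χ ![0, -1])) := by
  have h := tendsto_wEis_atImInfty (norm_twistWeight_le hχ hnorm) hk
  rw [wEisLimit_eq (fun v h0 hv => twistWeight_supp v h0 hv)] at h
  have h1 : twistWeight Γ χ ![0, 1] = 1 := by
    have := twistWeight_botRow hχ (1 : Γ)
    rw [Subgroup.coe_one, botRow_one, map_one, inv_one, Units.val_one] at this
    exact this
  rwa [h1] at h

/-- If `-1 ∈ Γ`, `χ(-1) = 1` and `k` is even, the twisted Eisenstein series tends to `2` at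
`i∞`. -/
theorem tendsto_twistedEis_two (hχ : TrivialOnUnipotent χ)
    (hnorm : ∀ γ : Γ, ‖(χ γ : ℂ)‖ = 1) {k : ℤ} (hk : 3 ≤ k) (hk2 : Even k)
    (hneg : (-1 : SL(2, ℤ)) ∈ Γ) (hχneg : χ ⟨-1, hneg⟩ = 1) :
    Tendsto (twistedEis Γ χ k) atImInfty (𝓝 2) := by
  have h := tendsto_twistedEis hχ hnorm hk
  have h1 : twistWeight Γ χ ![0, -1] = 1 := by
    have := twistWeight_botRow hχ (⟨-1, hneg⟩ : Γ)
    have hb : botRow ((⟨-1, hneg⟩ : Γ) : SL(2, ℤ)) = ![0, -1] := by
      ext j
      fin_cases j <;> simp [botRow]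
    rw [hb, hχneg, inv_one, Units.val_one] at this
    exact this
  rw [h1, hk2.neg_one_zpow, mul_one] at h
  norm_num at h
  exact h

end Twisted

end Fermat.Agent.S29.H332

end
end
-- ===== PACK-END S29/H332/WeightedEis.lean

-- ===== PACK-BEGIN S29/H152/DescBound.lean
section
/-
S29 / DESC (helper152) — part 3: the order bound.  Mathlib-only.

`j : C((q))` of order `-1`, `t = j⁻¹`.  If `v ≠ 0` is integral over `C[j]`, `v * t ^ m` is integral
over `C[t]` and `v` has degree `≤ D` over `C(j)`, then `ord_q v ≤ m * (D - 1)`.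
(Global sections of a line bundle on a curve finite over the `j`-line have bounded order at a cusp.)
-/


set_option autoImplicit false

namespace Fermat.Agent.S29.H152

open Polynomial

variable {C : Type*} [Field C]

/-! ### Power series inside Laurent series -/

theorem descBound_algebraMap_eq (c : C) :
    algebraMap C (LaurentSeries C) c
      = HahnSeries.ofPowerSeries ℤ C (algebraMap C (PowerSeries C) c) := rfl

theorem descBound_order_coe_nonneg (F : PowerSeries C) :
    0 ≤ (HahnSeries.ofPowerSeries ℤ C F).order := by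
  by_cases h : HahnSeries.ofPowerSeries ℤ C F = 0
  · rw [h, HahnSeries.order_zero]
  · rw [HahnSeries.le_order_iff_forall h]
    intro j hj
    have := PowerSeries.coeff_coe (f := F) j
    rw [if_pos hj] at this
    exact this

theorem descBound_exists_coe_of_order_nonneg {x : LaurentSeries C} (hx : 0 ≤ x.order) :
    ∃ F : PowerSeries C, HahnSeries.ofPowerSeries ℤ C F = x := by
  refine ⟨PowerSeries.mk fun n => x.coeff n, ?_⟩
  ext i
  have := PowerSeries.coeff_coe (f := PowerSeries.mk fun n => x.coeff n) i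
  rw [this]
  split_ifs with hi
  · exact (HahnSeries.coeff_eq_zero_of_lt_order (lt_of_lt_of_le hi hx)).symm
  · rw [PowerSeries.coeff_mk]
    congr 1
    omega

/-- The subalgebra of power series. -/
noncomputable def descBoundPS : Subalgebra C (LaurentSeries C) :=
  { (HahnSeries.ofPowerSeries ℤ C).range with
    algebraMap_mem' := fun c => ⟨algebraMap C (PowerSeries C) c, rfl⟩ }

theorem descBound_mem_PS {x : LaurentSeries C} :
    x ∈ descBoundPS (C := C) ↔ ∃ F : PowerSeries C, HahnSeries.ofPowerSeries ℤ C F = x :=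
  Iff.rfl

theorem descBound_mem_PS_of_order_nonneg {x : LaurentSeries C} (hx : 0 ≤ x.order) :
    x ∈ descBoundPS (C := C) :=
  descBound_mem_PS.mpr (descBound_exists_coe_of_order_nonneg hx)

theorem descBound_order_nonneg_of_mem_PS {x : LaurentSeries C} (hx : x ∈ descBoundPS (C := C)) :
    0 ≤ x.order := by
  obtain ⟨F, rfl⟩ := descBound_mem_PS.mp hx
  exact descBound_order_coe_nonneg F

/-- Power series are integrally closed in Laurent series. -/
theorem descBound_mem_PS_of_isIntegral {x : LaurentSeries C}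
    (hx : IsIntegral (descBoundPS (C := C)) x) : x ∈ descBoundPS (C := C) := by
  have h1 : IsIntegral (PowerSeries C) x := by
    obtain ⟨p, hp, hpx⟩ := hx
    -- transport the polynomial along `PS → PowerSeries`
    have hl : p.map (algebraMap (descBoundPS (C := C)) (LaurentSeries C))
        ∈ Polynomial.lifts (algebraMap (PowerSeries C) (LaurentSeries C)) := by
      rw [Polynomial.lifts_iff_coeff_lifts]
      intro n
      rw [Polynomial.coeff_map]
      obtain ⟨F, hF⟩ := descBound_mem_PS.mp (p.coeff n).2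
      exact ⟨F, hF⟩
    obtain ⟨q, hq, -, hqm⟩ := Polynomial.lifts_and_natDegree_eq_and_monic hl (hp.map _)
    refine ⟨q, hqm, ?_⟩
    rw [← Polynomial.eval_map, hq, Polynomial.eval_map]
    exact hpx
  obtain ⟨F, hF⟩ := IsIntegrallyClosed.isIntegral_iff.mp h1
  exact descBound_mem_PS.mpr ⟨F, hF⟩

/-- Monotonicity of integrality in the base subalgebra. -/
theorem descBound_isIntegral_mono {A : Type*} [CommRing A] [Algebra C A] {R S : Subalgebra C A}
    (h : R ≤ S) {x : A} (hx : IsIntegral R x) : IsIntegral S x := by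
  refine IsIntegral.map_of_comp_eq (Subalgebra.inclusion h).toRingHom (RingHom.id A) ?_ hx
  ext r
  rfl

/-! ### Polynomials in an element of positive order -/

theorem descBound_aeval_pos_order {t : LaurentSeries C} (ht : 0 < t.order) (r : C[X]) :
    aeval t r ∈ descBoundPS (C := C) ∧ (aeval t r).coeff 0 = r.coeff 0 := by
  obtain ⟨T, hT⟩ := descBound_exists_coe_of_order_nonneg ht.le
  have hT0 : PowerSeries.constantCoeff T = 0 := by
    have h1 : t.coeff 0 = 0 := HahnSeries.coeff_eq_zero_of_lt_order ht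
    rw [← hT] at h1
    have h2 := LaurentSeries.coeff_coe_powerSeries T 0
    rw [Nat.cast_zero] at h2
    rw [h2] at h1
    rwa [PowerSeries.coeff_zero_eq_constantCoeff] at h1
  have key : aeval t r = HahnSeries.ofPowerSeries ℤ C (aeval T r) := by
    rw [aeval_def, aeval_def, Polynomial.hom_eval₂, hT]
    rfl
  refine ⟨descBound_mem_PS.mpr ⟨_, key.symm⟩, ?_⟩
  rw [key]
  have h2 := LaurentSeries.coeff_coe_powerSeries (aeval T r) 0
  rw [Nat.cast_zero] at h2
  rw [h2, PowerSeries.coeff_zero_eq_constantCoeff_apply, aeval_def, Polynomial.hom_eval₂, hT0,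
    Polynomial.eval₂_at_zero]
  simp

/-! ### `j` of order `-1` -/

section J

variable {j : LaurentSeries C}

theorem descBound_j_ne_zero (hj : j.order = -1) : j ≠ 0 := by
  rintro rfl
  simp at hj

theorem descBound_order_inv (hj : j.order = -1) : (j⁻¹).order = 1 := by
  have h0 := descBound_j_ne_zero hj
  have h1 : (j * j⁻¹).order = j.order + (j⁻¹).order := HahnSeries.order_mul h0 (inv_ne_zero h0)
  rw [mul_inv_cancel₀ h0, HahnSeries.order_one, hj] at h1
  omega

theorem descBound_aeval_eq (hj : j.order = -1) (b : C[X]) :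
    aeval j b = aeval j⁻¹ b.reverse * j ^ b.natDegree := by
  have h0 := descBound_j_ne_zero hj
  let _ := invertibleOfNonzero h0
  have := Polynomial.eval₂_reverse_mul_pow (algebraMap C (LaurentSeries C)) j b
  rw [invOf_eq_inv] at this
  rw [aeval_def, aeval_def, this]

theorem descBound_aeval_j (hj : j.order = -1) (b : C[X]) (hb : b ≠ 0) :
    aeval j b ≠ 0 ∧ (aeval j b).order = -(b.natDegree : ℤ) := by
  have h0 := descBound_j_ne_zero hj
  have ht : 0 < (j⁻¹).order := by rw [descBound_order_inv hj]; exact one_pos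
  obtain ⟨hz, hz0⟩ := descBound_aeval_pos_order ht b.reverse
  rw [Polynomial.coeff_zero_reverse] at hz0
  have hlc : b.leadingCoeff ≠ 0 := Polynomial.leadingCoeff_ne_zero.mpr hb
  have hzc : (aeval j⁻¹ b.reverse).coeff 0 ≠ 0 := by rw [hz0]; exact hlc
  have hzne : aeval j⁻¹ b.reverse ≠ 0 := HahnSeries.ne_zero_of_coeff_ne_zero hzc
  have hzo : (aeval j⁻¹ b.reverse).order = 0 :=
    le_antisymm (HahnSeries.order_le_of_coeff_ne_zero hzc) (descBound_order_nonneg_of_mem_PS hz)
  rw [descBound_aeval_eq hj b]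
  refine ⟨mul_ne_zero hzne (pow_ne_zero _ h0), ?_⟩
  rw [HahnSeries.order_mul hzne (pow_ne_zero _ h0), hzo, HahnSeries.order_pow, hj]
  simp

theorem descBound_transcendental_j (hj : j.order = -1) : Transcendental C j := by
  rw [transcendental_iff]
  intro b hb
  by_contra hb0
  exact (descBound_aeval_j hj b hb0).1 hb

theorem descBound_transcendental_inv (hj : j.order = -1) : Transcendental C j⁻¹ := by
  intro h
  have := h.inv
  rw [inv_inv] at this
  exact descBound_transcendental_j hj this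

theorem descBound_order_nonpos_of_mem_adjoin (hj : j.order = -1) {c : LaurentSeries C}
    (hc : c ∈ Algebra.adjoin C {j}) (hc0 : c ≠ 0) : c.order ≤ 0 := by
  rw [Algebra.adjoin_singleton_eq_range_aeval] at hc
  obtain ⟨b, rfl⟩ := hc
  have hb : b ≠ 0 := by
    rintro rfl
    simp at hc0
  have := (descBound_aeval_j hj b hb).2
  change (aeval j b).order = _ at this
  show (aeval j b).order ≤ 0
  rw [this]
  omega

theorem descBound_adjoin_inv_le_PS (hj : j.order = -1) :
    Algebra.adjoin C {j⁻¹} ≤ descBoundPS (C := C) := by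
  rw [Algebra.adjoin_le_iff]
  rintro x hx
  rw [Set.mem_singleton_iff] at hx
  subst hx
  exact descBound_mem_PS_of_order_nonneg (by rw [descBound_order_inv hj]; exact zero_le_one)

/-- An element of `C[j]` times a high power of `t = j⁻¹` lies in `C[t]`. -/
theorem descBound_mul_inv_pow_mem (hj : j.order = -1) {c : LaurentSeries C}
    (hc : c ∈ Algebra.adjoin C {j}) :
    ∃ D₀ : ℕ, ∀ k, D₀ ≤ k → c * j⁻¹ ^ k ∈ Algebra.adjoin C {j⁻¹} := by
  have h0 := descBound_j_ne_zero hj
  rw [Algebra.adjoin_singleton_eq_range_aeval] at hc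
  obtain ⟨b, rfl⟩ := hc
  refine ⟨b.natDegree, fun k hk => ?_⟩
  show aeval j b * j⁻¹ ^ k ∈ _
  rw [descBound_aeval_eq hj b]
  have hk' : j⁻¹ ^ k = j⁻¹ ^ b.natDegree * j⁻¹ ^ (k - b.natDegree) := by
    rw [← pow_add, Nat.add_sub_cancel' hk]
  rw [hk', mul_assoc, ← mul_assoc (j ^ b.natDegree), ← mul_pow, mul_inv_cancel₀ h0, one_pow,
    one_mul]
  refine Subalgebra.mul_mem _ ?_ (Subalgebra.pow_mem _ (Algebra.self_mem_adjoin_singleton C _) _)
  rw [Algebra.adjoin_singleton_eq_range_aeval]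
  exact ⟨b.reverse, rfl⟩

end J

/-! ### Coefficients of minimal polynomials -/

open scoped IntermediateField.algebraAdjoinAdjoin

/-- For `s` transcendental over `C` and `x` integral over `C[s]`, the coefficients of the minimal
polynomial of `x` over `C(s)` lie in `C[s]`. -/
theorem descBound_coeff_minpoly_mem {s : LaurentSeries C} (hs : Transcendental C s)
    {x : LaurentSeries C} (hx : IsIntegral (Algebra.adjoin C {s}) x) (i : ℕ) :
    (((minpoly (IntermediateField.adjoin C {s}) x).coeff i :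
      IntermediateField.adjoin C {s}) : LaurentSeries C) ∈ Algebra.adjoin C {s} := by
  have : IsIntegrallyClosed (Algebra.adjoin C {s}) :=
    IsIntegrallyClosed.of_equiv (Polynomial.algEquivOfTranscendental C s hs).toRingEquiv
  rw [minpoly.isIntegrallyClosed_eq_field_fractions' (IntermediateField.adjoin C {s}) hx,
    coeff_map]
  exact ((minpoly (Algebra.adjoin C {s}) x).coeff i).2

theorem descBound_adjoin_inv_eq {j : LaurentSeries C} :
    IntermediateField.adjoin C {j⁻¹} = IntermediateField.adjoin C {j} := by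
  apply le_antisymm
  · rw [IntermediateField.adjoin_simple_le_iff]
    exact inv_mem (IntermediateField.mem_adjoin_simple_self C j)
  · rw [IntermediateField.adjoin_simple_le_iff]
    have := inv_mem (IntermediateField.mem_adjoin_simple_self C j⁻¹)
    rwa [inv_inv] at this

theorem descBound_minpoly_map_congr {E E' : IntermediateField C (LaurentSeries C)} (h : E = E')
    (x : LaurentSeries C) :
    (minpoly E x).map (algebraMap E (LaurentSeries C))
      = (minpoly E' x).map (algebraMap E' (LaurentSeries C)) := by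
  subst h
  rfl

/-- Evaluating a polynomial with coefficients in a subalgebra at an element of the subalgebra. -/
theorem descBound_eval_mem {A : Type*} [CommRing A] [Algebra C A] (S : Subalgebra C A)
    (p : A[X]) (hp : ∀ i, p.coeff i ∈ S) {u : A} (hu : u ∈ S) : p.eval u ∈ S := by
  rw [Polynomial.eval_eq_sum_range]
  exact Subalgebra.sum_mem _ fun i _ => Subalgebra.mul_mem _ (hp i) (Subalgebra.pow_mem _ hu i)

/-- **The order bound.** -/
theorem descBound_order_add_le {j : LaurentSeries C} (hj : j.order = -1) (m : ℕ)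
    {v : LaurentSeries C} (hv0 : v ≠ 0)
    (h1 : IsIntegral (Algebra.adjoin C {j}) v)
    (h2 : IsIntegral (Algebra.adjoin C {j⁻¹}) (v * j⁻¹ ^ m)) :
    v.order + m ≤ m * ((minpoly (IntermediateField.adjoin C {j}) v).natDegree : ℤ) := by
  have hj0 := descBound_j_ne_zero hj
  set E := IntermediateField.adjoin C {j} with hE
  have hvE : IsIntegral E v := h1.tower_top
  set P := minpoly E v with hP
  set d := P.natDegree with hd
  -- the scalar `τ = t ^ m`
  let τ : E := ⟨j⁻¹, inv_mem (IntermediateField.mem_adjoin_simple_self C j)⟩ ^ m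
  have hτL : (τ : LaurentSeries C) = j⁻¹ ^ m := by simp [τ]
  have hτ0 : τ ≠ 0 := by
    intro h
    have : (τ : LaurentSeries C) = 0 := by rw [h]; rfl
    rw [hτL] at this
    exact pow_ne_zero _ (inv_ne_zero hj0) this
  have hu : τ • v = v * j⁻¹ ^ m := by
    rw [Algebra.smul_def, mul_comm]
    congr 1
  have hsmul : minpoly E (τ • v) = P.scaleRoots τ := IsIntegrallyClosed.minpoly_smul hτ0 hvE
  -- constant coefficients
  have hc0 : P.coeff 0 ≠ 0 := minpoly.coeff_zero_ne_zero hvE hv0
  have hc0L : ((P.coeff 0 : E) : LaurentSeries C) ≠ 0 := fun h => hc0 (Subtype.ext h)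
  have hc0mem : ((P.coeff 0 : E) : LaurentSeries C) ∈ Algebra.adjoin C {j} :=
    descBound_coeff_minpoly_mem (descBound_transcendental_j hj) h1 0
  have hc0ord : ((P.coeff 0 : E) : LaurentSeries C).order ≤ 0 :=
    descBound_order_nonpos_of_mem_adjoin hj hc0mem hc0L
  -- the polynomial of `u = v t^m` over `L`
  set u := v * j⁻¹ ^ m with hu'
  have hu0 : u ≠ 0 := mul_ne_zero hv0 (pow_ne_zero _ (inv_ne_zero hj0))
  set Q : (LaurentSeries C)[X] := (minpoly E u).map (algebraMap E (LaurentSeries C)) with hQ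
  have hQcoeff : ∀ i, Q.coeff i ∈ descBoundPS (C := C) := by
    intro i
    have h3 := descBound_coeff_minpoly_mem (descBound_transcendental_inv hj) h2 i
    have h4 := descBound_minpoly_map_congr (descBound_adjoin_inv_eq (j := j)) u
    have h5 : Q.coeff i = ((minpoly (IntermediateField.adjoin C {j⁻¹}) u).map
        (algebraMap (IntermediateField.adjoin C {j⁻¹}) (LaurentSeries C))).coeff i := by
      rw [hQ, ← h4]
    rw [h5, coeff_map]
    exact descBound_adjoin_inv_le_PS hj h3
  have huPS : u ∈ descBoundPS (C := C) :=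
    descBound_mem_PS_of_isIntegral (descBound_isIntegral_mono (descBound_adjoin_inv_le_PS hj) h2)
  have hQu : Q.eval u = 0 := by
    rw [hQ, Polynomial.eval_map, ← Polynomial.aeval_def]
    exact minpoly.aeval E u
  have hQ0 : Q.coeff 0 = ((P.coeff 0 : E) : LaurentSeries C) * j⁻¹ ^ (m * d) := by
    rw [hQ, coeff_map, ← hu, hsmul, coeff_scaleRoots, Nat.sub_zero]
    show ((P.coeff 0 * τ ^ P.natDegree : E) : LaurentSeries C) = _
    push_cast
    rw [hτL, ← pow_mul]
  have hQ0ne : Q.coeff 0 ≠ 0 := by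
    rw [hQ0]
    exact mul_ne_zero hc0L (pow_ne_zero _ (inv_ne_zero hj0))
  -- `Q = divX Q * X + C (Q.coeff 0)`
  have hz : Q.divX.eval u ∈ descBoundPS (C := C) :=
    descBound_eval_mem _ _ (fun i => by rw [coeff_divX]; exact hQcoeff _) huPS
  have hrel : Q.divX.eval u * u + Q.coeff 0 = 0 := by
    have := congrArg (Polynomial.eval u) (Polynomial.divX_mul_X_add Q)
    rw [Polynomial.eval_add, Polynomial.eval_mul, Polynomial.eval_X, Polynomial.eval_C, hQu]
      at this
    exact this
  have hzne : Q.divX.eval u ≠ 0 := by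
    intro h
    rw [h, zero_mul, zero_add] at hrel
    exact hQ0ne hrel
  have hord : (Q.coeff 0).order = (Q.divX.eval u).order + u.order := by
    have : Q.coeff 0 = -(Q.divX.eval u * u) := eq_neg_of_add_eq_zero_right hrel
    rw [this, HahnSeries.order_neg, HahnSeries.order_mul hzne hu0]
  have hzord : 0 ≤ (Q.divX.eval u).order := descBound_order_nonneg_of_mem_PS hz
  have huord : u.order = v.order + m := by
    rw [hu', HahnSeries.order_mul hv0 (pow_ne_zero _ (inv_ne_zero hj0)), HahnSeries.order_pow,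
      descBound_order_inv hj]
    simp
  have hQ0ord : (Q.coeff 0).order = ((P.coeff 0 : E) : LaurentSeries C).order + (m * d : ℕ) := by
    rw [hQ0, HahnSeries.order_mul hc0L (pow_ne_zero _ (inv_ne_zero hj0)), HahnSeries.order_pow,
      descBound_order_inv hj]
    simp
  have : v.order + m ≤ (m * d : ℕ) := by
    have h6 : u.order ≤ (Q.coeff 0).order := by rw [hord]; omega
    rw [huord, hQ0ord] at h6
    omega
  exact_mod_cast this

/-- The order bound with an explicit degree bound `D`. -/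
theorem descBound_order_le {j : LaurentSeries C} (hj : j.order = -1) (m D : ℕ)
    {v : LaurentSeries C} (hv0 : v ≠ 0)
    (h1 : IsIntegral (Algebra.adjoin C {j}) v)
    (h2 : IsIntegral (Algebra.adjoin C {j⁻¹}) (v * j⁻¹ ^ m))
    (hD : (minpoly (IntermediateField.adjoin C {j}) v).natDegree ≤ D) :
    v.order ≤ m * D := by
  have h := descBound_order_add_le hj m hv0 h1 h2
  have h' : (m : ℤ) * ((minpoly (IntermediateField.adjoin C {j}) v).natDegree : ℤ) ≤ m * D := by
    exact_mod_cast Nat.mul_le_mul_left m hD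
  have hm : (0 : ℤ) ≤ m := Int.natCast_nonneg m
  omega

end Fermat.Agent.S29.H152

end
-- ===== PACK-END S29/H152/DescBound.lean

-- ===== PACK-BEGIN S29/H201/Transfer.lean
section





/-!
# S29 / P5-E2 (helper201) — the Hecke operator `T_p` on `Hom(Γ₀(N), A)` (transfer formula)

For a prime `p ∤ N`, the Prelude's coset representatives `heckeRep p x`
(`x : OnePoint (ZMod p)`, i.e. `(1 j; 0 p)` and `(p 0; 0 1)`) satisfy
`heckeRep p x * γ = t * heckeRep p (redMatrix p γ • x)` with a unique `t ∈ Γ₀(N)`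
(`heckeRep_mul` of the Prelude).  We call it `trf hpN γ x` and define
`(heckeHom p hpN A φ) γ = ∑ x, φ (trf hpN γ x)`.
-/

set_option autoImplicit false

open CongruenceSubgroup Matrix.SpecialLinearGroup
open scoped MatrixGroups
open P2MW.S_ModularForm_heckeT_slash_eq_self_of_mem_Gamma0.ModularForm.HeckeSlashInvariance

namespace Fermat.Agent.S29.H201

variable {N : ℕ} {p : ℕ} [Fact p.Prime]

theorem dvd_of_mem_Gamma0 (γ : Gamma0 N) : (N : ℤ) ∣ (γ : SL(2, ℤ)) 1 0 :=
  (ZMod.intCast_zmod_eq_zero_iff_dvd _ _).mp (Gamma0_mem.mp γ.2)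

theorem exists_trf (hpN : ¬ p ∣ N) (γ : Gamma0 N) (x : OnePoint (ZMod p)) :
    ∃ t : Gamma0 N, _root_.P2MW.S_ModularForm_heckeT_slash_eq_self_of_mem_Gamma0.ModularForm.HeckeSlashInvariance.heckeRep p x * mapGL ℝ (γ : SL(2, ℤ))
      = mapGL ℝ (t : SL(2, ℤ)) * _root_.P2MW.S_ModularForm_heckeT_slash_eq_self_of_mem_Gamma0.ModularForm.HeckeSlashInvariance.heckeRep p (redMatrix p (γ : SL(2, ℤ)) • x) := by
  obtain ⟨g', hg', h⟩ := heckeRep_mul hpN (γ : SL(2, ℤ)) (dvd_of_mem_Gamma0 γ) x
  exact ⟨⟨g', Gamma0_mem.mpr ((ZMod.intCast_zmod_eq_zero_iff_dvd _ _).mpr hg')⟩, h⟩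

/-- The transfer element: `heckeRep p x * γ = trf γ x * heckeRep p (redMatrix p γ • x)`. -/
noncomputable def trf (hpN : ¬ p ∣ N) (γ : Gamma0 N) (x : OnePoint (ZMod p)) : Gamma0 N :=
  (exists_trf hpN γ x).choose

theorem trf_spec (hpN : ¬ p ∣ N) (γ : Gamma0 N) (x : OnePoint (ZMod p)) :
    _root_.P2MW.S_ModularForm_heckeT_slash_eq_self_of_mem_Gamma0.ModularForm.HeckeSlashInvariance.heckeRep p x * mapGL ℝ (γ : SL(2, ℤ))
      = mapGL ℝ ((trf hpN γ x : Gamma0 N) : SL(2, ℤ))
        * _root_.P2MW.S_ModularForm_heckeT_slash_eq_self_of_mem_Gamma0.ModularForm.HeckeSlashInvariance.heckeRep p (redMatrix p (γ : SL(2, ℤ)) • x) :=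
  (exists_trf hpN γ x).choose_spec

theorem trf_unique (hpN : ¬ p ∣ N) (γ t : Gamma0 N) (x : OnePoint (ZMod p))
    (h : _root_.P2MW.S_ModularForm_heckeT_slash_eq_self_of_mem_Gamma0.ModularForm.HeckeSlashInvariance.heckeRep p x * mapGL ℝ (γ : SL(2, ℤ))
      = mapGL ℝ (t : SL(2, ℤ)) * _root_.P2MW.S_ModularForm_heckeT_slash_eq_self_of_mem_Gamma0.ModularForm.HeckeSlashInvariance.heckeRep p (redMatrix p (γ : SL(2, ℤ)) • x)) :
    t = trf hpN γ x := by
  have h2 := trf_spec hpN γ x
  rw [h] at h2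
  have h3 := mul_right_cancel h2
  exact Subtype.ext (mapGL_injective h3)

theorem redMatrix_mul (g g' : SL(2, ℤ)) :
    redMatrix p (g * g') = redMatrix p g' * redMatrix p g := by
  apply Matrix.GeneralLinearGroup.ext
  intro i j
  rw [Matrix.GeneralLinearGroup.coe_mul]
  fin_cases i <;> fin_cases j <;>
    simp [redMatrix, Matrix.mul_apply, Fin.sum_univ_two] <;> ring

theorem redMatrix_one : redMatrix p (1 : SL(2, ℤ)) = 1 := by
  apply Matrix.GeneralLinearGroup.ext
  intro i j
  fin_cases i <;> fin_cases j <;> simp [redMatrix]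

theorem trf_one (hpN : ¬ p ∣ N) (x : OnePoint (ZMod p)) : trf hpN (1 : Gamma0 N) x = 1 := by
  symm
  apply trf_unique
  simp [redMatrix_one]

theorem trf_mul (hpN : ¬ p ∣ N) (γ γ' : Gamma0 N) (x : OnePoint (ZMod p)) :
    trf hpN (γ * γ') x
      = trf hpN γ x * trf hpN γ' (redMatrix p (γ : SL(2, ℤ)) • x) := by
  symm
  apply trf_unique
  have h1 := trf_spec hpN γ x
  have h2 := trf_spec hpN γ' (redMatrix p (γ : SL(2, ℤ)) • x)
  calc _root_.P2MW.S_ModularForm_heckeT_slash_eq_self_of_mem_Gamma0.ModularForm.HeckeSlashInvariance.heckeRep p x * mapGL ℝ ((γ * γ' : Gamma0 N) : SL(2, ℤ))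
      = (_root_.P2MW.S_ModularForm_heckeT_slash_eq_self_of_mem_Gamma0.ModularForm.HeckeSlashInvariance.heckeRep p x * mapGL ℝ (γ : SL(2, ℤ))) * mapGL ℝ (γ' : SL(2, ℤ)) := by
        rw [Subgroup.coe_mul, map_mul, mul_assoc]
    _ = mapGL ℝ ((trf hpN γ x : Gamma0 N) : SL(2, ℤ)) *
          (_root_.P2MW.S_ModularForm_heckeT_slash_eq_self_of_mem_Gamma0.ModularForm.HeckeSlashInvariance.heckeRep p (redMatrix p (γ : SL(2, ℤ)) • x) * mapGL ℝ (γ' : SL(2, ℤ))) := by
        rw [h1, mul_assoc]
    _ = mapGL ℝ ((trf hpN γ x : Gamma0 N) : SL(2, ℤ)) *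
          (mapGL ℝ ((trf hpN γ' (redMatrix p (γ : SL(2, ℤ)) • x) : Gamma0 N) : SL(2, ℤ)) *
            _root_.P2MW.S_ModularForm_heckeT_slash_eq_self_of_mem_Gamma0.ModularForm.HeckeSlashInvariance.heckeRep p (redMatrix p (γ' : SL(2, ℤ)) • redMatrix p (γ : SL(2, ℤ)) • x)) := by
        rw [h2]
    _ = _ := by
        rw [Subgroup.coe_mul, map_mul, Subgroup.coe_mul, redMatrix_mul, mul_smul, mul_assoc]

instance instNeZeroOfFactPrime : NeZero p := ⟨(Fact.out : p.Prime).ne_zero⟩

/-- The permutation of `ℙ¹(𝔽_p)` induced by `γ` (a right action). -/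
noncomputable def permOf (γ : Gamma0 N) : Equiv.Perm (OnePoint (ZMod p)) :=
  MulAction.toPerm (redMatrix p (γ : SL(2, ℤ)))

theorem permOf_apply (γ : Gamma0 N) (x : OnePoint (ZMod p)) :
    permOf γ x = redMatrix p (γ : SL(2, ℤ)) • x := rfl

/-- The Hecke operator `T_p` on `Hom(Γ₀(N), A)` defined by the transfer formula. -/
noncomputable def heckeHom (p : ℕ) [Fact p.Prime] (hpN : ¬ p ∣ N) (A : Type*) [AddCommGroup A] :
    (Additive (Gamma0 N) →+ A) →+ (Additive (Gamma0 N) →+ A) where
  toFun φ :=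
    { toFun := fun γ => ∑ x : OnePoint (ZMod p), φ (Additive.ofMul (trf hpN (Additive.toMul γ) x))
      map_zero' := by
        show ∑ x : OnePoint (ZMod p), φ (Additive.ofMul (trf hpN (1 : Gamma0 N) x)) = 0
        simp [trf_one]
      map_add' := fun γ γ' => by
        show ∑ x : OnePoint (ZMod p),
            φ (Additive.ofMul (trf hpN (Additive.toMul γ * Additive.toMul γ') x)) = _
        simp only [trf_mul, ofMul_mul, map_add, Finset.sum_add_distrib]
        congr 1
        exact Equiv.sum_comp (permOf (Additive.toMul γ))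
          (fun y => φ (Additive.ofMul (trf hpN (Additive.toMul γ') y))) }
  map_zero' := by
    ext γ
    simp
  map_add' φ ψ := by
    ext γ
    simp [Finset.sum_add_distrib]

theorem heckeHom_apply (hpN : ¬ p ∣ N) {A : Type*} [AddCommGroup A]
    (φ : Additive (Gamma0 N) →+ A) (γ : Gamma0 N) :
    heckeHom p hpN A φ (Additive.ofMul γ)
      = ∑ x : OnePoint (ZMod p), φ (Additive.ofMul (trf hpN γ x)) := rfl

/-- Functoriality of `heckeHom` in the coefficient group. -/
theorem heckeHom_comp (hpN : ¬ p ∣ N) {A B : Type*} [AddCommGroup A] [AddCommGroup B]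
    (u : A →+ B) (φ : Additive (Gamma0 N) →+ A) :
    heckeHom p hpN B (u.comp φ) = u.comp (heckeHom p hpN A φ) := by
  ext γ
  show ∑ x : OnePoint (ZMod p), u (φ _) = u (∑ x : OnePoint (ZMod p), φ _)
  rw [map_sum]

end Fermat.Agent.S29.H201

end
-- ===== PACK-END S29/H201/Transfer.lean

-- ===== PACK-BEGIN S29/H642/HeckeTransfer.lean
section




/-!
# S29 / E2 (helper642): the Hecke transfer on characters of `Γ₀(N)`

For a prime `p ∤ N`, `γ ∈ Γ₀(N)` and `x ∈ ℙ¹(𝔽_p)` there is a unique `γ_x ∈ Γ₀(N)` with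
`heckeRep p x * γ = γ_x * heckeRep p (π_γ x)` (Prelude: `heckeRep_mul`).  The *Hecke transfer* of an
additive character `χ : Γ₀(N) → A` is `(T_p χ)(γ) = ∑_x χ(γ_x)`.
-/

set_option autoImplicit false

namespace Fermat.Agent.S29.H642

open CongruenceSubgroup Matrix.SpecialLinearGroup
open P2MW.S_ModularForm_heckeT_slash_eq_self_of_mem_Gamma0.ModularForm.HeckeSlashInvariance
open scoped MatrixGroups

variable {p : ℕ} [Fact p.Prime] {N : ℕ}

/-- `mapGL ℝ : SL(2, ℤ) → GL(2, ℝ)` is injective. -/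
theorem mapGL_real_injective :
    Function.Injective (mapGL ℝ : SL(2, ℤ) →* GL (Fin 2) ℝ) := by
  intro g h hgh
  ext i j
  have h1 := congrArg (fun M : GL (Fin 2) ℝ => (M : Matrix (Fin 2) (Fin 2) ℝ) i j) hgh
  simp only [mapGL_coe_matrix, algebraMap_int_eq, map_apply_coe, RingHom.mapMatrix_apply,
    Int.coe_castRingHom, Matrix.map_apply] at h1
  exact_mod_cast h1

theorem dvd_of_mem_Gamma0 {g : SL(2, ℤ)} (hg : g ∈ Gamma0 N) : (N : ℤ) ∣ g 1 0 :=
  (ZMod.intCast_zmod_eq_zero_iff_dvd _ _).mp (Gamma0_mem.mp hg)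

theorem mem_Gamma0_of_dvd {g : SL(2, ℤ)} (hg : (N : ℤ) ∣ g 1 0) : g ∈ Gamma0 N :=
  Gamma0_mem.mpr ((ZMod.intCast_zmod_eq_zero_iff_dvd _ _).mpr hg)

/-- The permutation of `ℙ¹(𝔽_p)` attached to `g`. -/
noncomputable def hPerm (p : ℕ) [Fact p.Prime] (g : SL(2, ℤ)) :
    Equiv.Perm (OnePoint (ZMod p)) :=
  MulAction.toPerm (redMatrix p g)

@[simp] theorem hPerm_apply (g : SL(2, ℤ)) (x : OnePoint (ZMod p)) :
    hPerm p g x = redMatrix p g • x := rfl

/-- The element `γ_x` of `Γ₀(N)` with `heckeRep p x * γ = γ_x * heckeRep p (π_γ x)`. -/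
noncomputable def hElt (hpN : ¬ p ∣ N) (γ : Gamma0 N) (x : OnePoint (ZMod p)) : Gamma0 N :=
  ⟨(heckeRep_mul hpN (γ : SL(2, ℤ)) (dvd_of_mem_Gamma0 γ.2) x).choose,
    mem_Gamma0_of_dvd (heckeRep_mul hpN (γ : SL(2, ℤ)) (dvd_of_mem_Gamma0 γ.2) x).choose_spec.1⟩

theorem hElt_spec (hpN : ¬ p ∣ N) (γ : Gamma0 N) (x : OnePoint (ZMod p)) :
    _root_.P2MW.S_ModularForm_heckeT_slash_eq_self_of_mem_Gamma0.ModularForm.HeckeSlashInvariance.heckeRep p x * mapGL ℝ (γ : SL(2, ℤ)) =
      mapGL ℝ ((hElt hpN γ x : Gamma0 N) : SL(2, ℤ)) * _root_.P2MW.S_ModularForm_heckeT_slash_eq_self_of_mem_Gamma0.ModularForm.HeckeSlashInvariance.heckeRep p (hPerm p (γ : SL(2, ℤ)) x) :=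
  (heckeRep_mul hpN (γ : SL(2, ℤ)) (dvd_of_mem_Gamma0 γ.2) x).choose_spec.2

/-- Uniqueness of `γ_x`. -/
theorem hElt_unique (hpN : ¬ p ∣ N) (γ : Gamma0 N) (x : OnePoint (ZMod p)) (δ : Gamma0 N)
    (h : _root_.P2MW.S_ModularForm_heckeT_slash_eq_self_of_mem_Gamma0.ModularForm.HeckeSlashInvariance.heckeRep p x * mapGL ℝ (γ : SL(2, ℤ)) =
      mapGL ℝ (δ : SL(2, ℤ)) * _root_.P2MW.S_ModularForm_heckeT_slash_eq_self_of_mem_Gamma0.ModularForm.HeckeSlashInvariance.heckeRep p (hPerm p (γ : SL(2, ℤ)) x)) :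
    δ = hElt hpN γ x := by
  have h2 := hElt_spec hpN γ x
  rw [h] at h2
  have h3 := mul_right_cancel h2
  exact Subtype.ext (mapGL_real_injective h3)

theorem redMatrix_mul (g h : SL(2, ℤ)) : redMatrix p (g * h) = redMatrix p h * redMatrix p g := by
  ext i j
  fin_cases i <;> fin_cases j <;>
    simp [redMatrix, Matrix.mul_apply, Fin.sum_univ_two] <;> ring

theorem redMatrix_one : redMatrix p (1 : SL(2, ℤ)) = 1 := by
  ext i j
  fin_cases i <;> fin_cases j <;> simp [redMatrix]

theorem hPerm_mul (g h : SL(2, ℤ)) (x : OnePoint (ZMod p)) :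
    hPerm p (g * h) x = hPerm p h (hPerm p g x) := by
  simp only [hPerm_apply, redMatrix_mul, mul_smul]

theorem hElt_mul (hpN : ¬ p ∣ N) (γ δ : Gamma0 N) (x : OnePoint (ZMod p)) :
    hElt hpN (γ * δ) x = hElt hpN γ x * hElt hpN δ (hPerm p (γ : SL(2, ℤ)) x) := by
  symm
  apply hElt_unique
  have h1 := hElt_spec hpN γ x
  have h2 := hElt_spec hpN δ (hPerm p (γ : SL(2, ℤ)) x)
  calc _root_.P2MW.S_ModularForm_heckeT_slash_eq_self_of_mem_Gamma0.ModularForm.HeckeSlashInvariance.heckeRep p x * mapGL ℝ ((γ * δ : Gamma0 N) : SL(2, ℤ))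
      = (_root_.P2MW.S_ModularForm_heckeT_slash_eq_self_of_mem_Gamma0.ModularForm.HeckeSlashInvariance.heckeRep p x * mapGL ℝ (γ : SL(2, ℤ))) * mapGL ℝ (δ : SL(2, ℤ)) := by
        rw [Subgroup.coe_mul, map_mul, mul_assoc]
    _ = mapGL ℝ ((hElt hpN γ x : Gamma0 N) : SL(2, ℤ)) *
          (_root_.P2MW.S_ModularForm_heckeT_slash_eq_self_of_mem_Gamma0.ModularForm.HeckeSlashInvariance.heckeRep p (hPerm p (γ : SL(2, ℤ)) x) * mapGL ℝ (δ : SL(2, ℤ))) := by
        rw [h1, mul_assoc]
    _ = mapGL ℝ ((hElt hpN γ x : Gamma0 N) : SL(2, ℤ)) *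
          (mapGL ℝ ((hElt hpN δ (hPerm p (γ : SL(2, ℤ)) x) : Gamma0 N) : SL(2, ℤ)) *
            _root_.P2MW.S_ModularForm_heckeT_slash_eq_self_of_mem_Gamma0.ModularForm.HeckeSlashInvariance.heckeRep p (hPerm p (δ : SL(2, ℤ)) (hPerm p (γ : SL(2, ℤ)) x))) := by
        rw [h2]
    _ = _ := by
        rw [Subgroup.coe_mul, Subgroup.coe_mul, map_mul, hPerm_mul, mul_assoc]

section Transfer

variable {A : Type*} [AddCommGroup A]

/-- The **Hecke transfer** `T_p` on additive characters of `Γ₀(N)` (`p ∤ N` prime). -/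
noncomputable def heckeTransfer (hpN : ¬ p ∣ N) (χ : Additive (Gamma0 N) →+ A) :
    Additive (Gamma0 N) →+ A where
  toFun γ := ∑ x : OnePoint (ZMod p), χ (Additive.ofMul (hElt hpN (Additive.toMul γ) x))
  map_zero' := by
    have h : ∀ x : OnePoint (ZMod p), hElt hpN (1 : Gamma0 N) x = 1 := by
      intro x
      symm
      apply hElt_unique
      simp [hPerm_apply, redMatrix_one]
    simp only [toMul_zero, h, ofMul_one, map_zero, Finset.sum_const_zero]
  map_add' γ δ := by
    simp only [toMul_add, hElt_mul, ofMul_mul, map_add, Finset.sum_add_distrib]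
    congr 1
    exact Equiv.sum_comp (hPerm p ((Additive.toMul γ : Gamma0 N) : SL(2, ℤ)))
      (fun y => χ (Additive.ofMul (hElt hpN (Additive.toMul δ) y)))

theorem heckeTransfer_apply (hpN : ¬ p ∣ N) (χ : Additive (Gamma0 N) →+ A) (γ : Gamma0 N) :
    heckeTransfer hpN χ (Additive.ofMul γ) =
      ∑ x : OnePoint (ZMod p), χ (Additive.ofMul (hElt hpN γ x)) := rfl

/-- The transfer commutes with post-composition by an additive map. -/
theorem heckeTransfer_comp {B : Type*} [AddCommGroup B] (hpN : ¬ p ∣ N) (π : A →+ B)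
    (χ : Additive (Gamma0 N) →+ A) :
    heckeTransfer hpN (π.comp χ) = π.comp (heckeTransfer hpN χ) := by
  refine AddMonoidHom.ext fun γ => ?_
  simp only [heckeTransfer, AddMonoidHom.coe_mk, ZeroHom.coe_mk, AddMonoidHom.coe_comp,
    Function.comp_apply, map_sum]

theorem heckeTransfer_add (hpN : ¬ p ∣ N) (χ χ' : Additive (Gamma0 N) →+ A) :
    heckeTransfer hpN (χ + χ') = heckeTransfer hpN χ + heckeTransfer hpN χ' := by
  refine AddMonoidHom.ext fun γ => ?_
  simp only [heckeTransfer, AddMonoidHom.coe_mk, ZeroHom.coe_mk, AddMonoidHom.add_apply,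
    Finset.sum_add_distrib]

end Transfer

end Fermat.Agent.S29.H642

end
-- ===== PACK-END S29/H642/HeckeTransfer.lean

-- ===== PACK-BEGIN S21/H585/Presentation.lean
section


/-!
# A universal property of `SL(2, ℤ)` (presentation of `PSL(2, ℤ) ≅ C₂ * C₃`)

For every group `H` and `s u : H` with `s ^ 2 = 1`, `u ^ 3 = 1` there is a group homomorphism
`Φ : SL(2, ℤ) →* H` with `Φ S = s` and `Φ (S * T) = u`.

Proof: ping-pong (Mathlib `Monoid.CoprodI.lift_injective_of_ping_pong`) for the action of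
`SL(2, ℤ)` on integral `2 × 2` matrices by `Q ↦ g Q gᵀ`.
-/

set_option autoImplicit false

namespace Fermat.Agent.S21.H585

open Matrix ModularGroup
open scoped MatrixGroups Pointwise

lemma qf_conj_conj (A B Q : Matrix (Fin 2) (Fin 2) ℤ) :
    A * (B * Q * Bᵀ) * Aᵀ = (A * B) * Q * (A * B)ᵀ := by
  rw [transpose_mul]; simp only [Matrix.mul_assoc]

/-- The action of `SL(2,ℤ)` on integral `2×2` matrices `Q ↦ g Q gᵀ`, as a hom to permutations. -/
def qfRho : SL(2, ℤ) →* Equiv.Perm (Matrix (Fin 2) (Fin 2) ℤ) where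
  toFun g :=
    { toFun := fun Q => (g : Matrix (Fin 2) (Fin 2) ℤ) * Q * (g : Matrix (Fin 2) (Fin 2) ℤ)ᵀ
      invFun := fun Q => ((g⁻¹ : SL(2, ℤ)) : Matrix (Fin 2) (Fin 2) ℤ) * Q *
        ((g⁻¹ : SL(2, ℤ)) : Matrix (Fin 2) (Fin 2) ℤ)ᵀ
      left_inv := fun Q => by
        have h : ((g⁻¹ : SL(2, ℤ)) : Matrix (Fin 2) (Fin 2) ℤ) * (g : Matrix _ _ ℤ) = 1 := by
          rw [← Matrix.SpecialLinearGroup.coe_mul, inv_mul_cancel, Matrix.SpecialLinearGroup.coe_one]
        simp only [qf_conj_conj, h, Matrix.one_mul, Matrix.transpose_one, Matrix.mul_one]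
      right_inv := fun Q => by
        have h : (g : Matrix _ _ ℤ) * ((g⁻¹ : SL(2, ℤ)) : Matrix (Fin 2) (Fin 2) ℤ) = 1 := by
          rw [← Matrix.SpecialLinearGroup.coe_mul, mul_inv_cancel, Matrix.SpecialLinearGroup.coe_one]
        simp only [qf_conj_conj, h, Matrix.one_mul, Matrix.transpose_one, Matrix.mul_one] }
  map_one' := by
    ext Q : 2
    simp
  map_mul' g h := by
    ext Q : 2
    simp only [Equiv.coe_fn_mk, Equiv.Perm.coe_mul, Function.comp_apply,
      Matrix.SpecialLinearGroup.coe_mul, qf_conj_conj]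

lemma qfRho_apply (g : SL(2, ℤ)) (Q : Matrix (Fin 2) (Fin 2) ℤ) :
    qfRho g Q = (g : Matrix (Fin 2) (Fin 2) ℤ) * Q * (g : Matrix (Fin 2) (Fin 2) ℤ)ᵀ := rfl


lemma qfRho_S_apply (Q : Matrix (Fin 2) (Fin 2) ℤ) :
    qfRho S Q = !![Q 1 1, -Q 1 0; -Q 0 1, Q 0 0] := by
  rw [qfRho_apply, coe_S]
  ext i j
  fin_cases i <;> fin_cases j <;>
    simp [Matrix.mul_apply, Fin.sum_univ_two, Matrix.transpose_apply, Matrix.vecMul, dotProduct]

lemma coe_S_mul_T : ((S * T : SL(2, ℤ)) : Matrix (Fin 2) (Fin 2) ℤ) = !![0, -1; 1, 1] := by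
  rw [Matrix.SpecialLinearGroup.coe_mul, coe_S, coe_T]
  ext i j
  fin_cases i <;> fin_cases j <;> simp [Matrix.mul_apply, Fin.sum_univ_two]

lemma qfRho_ST_apply (Q : Matrix (Fin 2) (Fin 2) ℤ) :
    qfRho (S * T) Q =
      !![Q 1 1, -Q 1 0 - Q 1 1; -Q 0 1 - Q 1 1, Q 0 0 + Q 0 1 + Q 1 0 + Q 1 1] := by
  rw [qfRho_apply, coe_S_mul_T]
  ext i j
  fin_cases i <;> fin_cases j <;>
    simp [Matrix.mul_apply, Fin.sum_univ_two, Matrix.transpose_apply, Matrix.vecMul, dotProduct]
      <;> ring

lemma qfRho_S_sq : qfRho S ^ 2 = 1 := by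
  ext Q i j
  rw [pow_two, Equiv.Perm.mul_apply, qfRho_S_apply, qfRho_S_apply]
  fin_cases i <;> fin_cases j <;> simp

lemma qfRho_ST_cube : qfRho (S * T) ^ 3 = 1 := by
  ext Q i j
  rw [pow_succ, pow_two, Equiv.Perm.mul_apply, Equiv.Perm.mul_apply, qfRho_ST_apply,
    qfRho_ST_apply, qfRho_ST_apply]
  fin_cases i <;> fin_cases j <;> simp <;> ring


/-- The two generators `ρ(S)`, `ρ(ST)`. -/
def qfGen : Fin 2 → Equiv.Perm (Matrix (Fin 2) (Fin 2) ℤ) := ![qfRho S, qfRho (S * T)]

/-- The two cyclic groups `⟨ρ(S)⟩ ≅ C₂`, `⟨ρ(ST)⟩ ≅ C₃`. -/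
abbrev QfH (i : Fin 2) : Type := Subgroup.zpowers (qfGen i)

/-- The inclusions. -/
def qfF (i : Fin 2) : QfH i →* Equiv.Perm (Matrix (Fin 2) (Fin 2) ℤ) :=
  (Subgroup.zpowers (qfGen i)).subtype

/-- The ping-pong sets. -/
def qfX : Fin 2 → Set (Matrix (Fin 2) (Fin 2) ℤ) :=
  ![{Q | 0 < Q 0 0 ∧ 0 < Q 1 1 ∧ 0 < Q 0 1 ∧ Q 1 0 = Q 0 1},
    {Q | 0 < Q 0 0 ∧ 0 < Q 1 1 ∧ Q 0 1 < 0 ∧ Q 1 0 = Q 0 1}]

lemma qfX_nonempty (i : Fin 2) : (qfX i).Nonempty := by
  fin_cases i
  · exact ⟨!![1, 1; 1, 1], by simp [qfX]⟩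
  · exact ⟨!![1, -1; -1, 1], by simp [qfX]⟩

lemma qfX_disjoint : Pairwise (Function.onFun Disjoint qfX) := by
  intro i j hij
  rw [Function.onFun, Set.disjoint_left]
  fin_cases i <;> fin_cases j
  · exact absurd rfl hij
  · rintro Q ⟨-, -, h1, -⟩ ⟨-, -, h2, -⟩; exact absurd h1 (not_lt.mpr h2.le)
  · rintro Q ⟨-, -, h1, -⟩ ⟨-, -, h2, -⟩; exact absurd h1 (not_lt.mpr h2.le)
  · exact absurd rfl hij

lemma qf_eq_pow_of_mem_zpowers {G : Type*} [Group G] {g : G} {n : ℕ} (hn : 0 < n)
    (hg : g ^ n = 1) {h : G} (hh : h ∈ Subgroup.zpowers g) : ∃ k : ℕ, k < n ∧ h = g ^ k := by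
  obtain ⟨m, rfl⟩ := Subgroup.mem_zpowers_iff.mp hh
  refine ⟨(m % n).toNat, ?_, ?_⟩
  · have h1 : m % (n : ℤ) < n := Int.emod_lt_of_pos m (by exact_mod_cast hn)
    have h0 : 0 ≤ m % (n : ℤ) := Int.emod_nonneg m (by exact_mod_cast hn.ne')
    omega
  · have h0 : 0 ≤ m % (n : ℤ) := Int.emod_nonneg m (by exact_mod_cast hn.ne')
    rw [← zpow_natCast, Int.toNat_of_nonneg h0]
    conv_lhs => rw [← Int.emod_add_mul_ediv m n]
    rw [_root_.zpow_add, _root_.zpow_mul, zpow_natCast, hg, _root_.one_zpow, mul_one]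

lemma qf_pingpong_zero (h : QfH 0) (hh : h ≠ 1) : qfF 0 h • qfX 1 ⊆ qfX 0 := by
  obtain ⟨k, hk, hk'⟩ := qf_eq_pow_of_mem_zpowers (n := 2) (by norm_num) qfRho_S_sq h.2
  have hk1 : k = 1 := by
    interval_cases k
    · exact absurd (Subtype.ext (by simpa using hk')) hh
    · rfl
  subst hk1
  rintro _ ⟨Q, ⟨h0, h1, h2, h3⟩, rfl⟩
  have : qfF 0 h = qfRho S := by
    show h.1 = _
    rw [hk', pow_one]
  show qfF 0 h • Q ∈ qfX 0
  rw [this, Equiv.Perm.smul_def, qfRho_S_apply]
  simp only [qfX, Matrix.cons_val_zero, Set.mem_ofPred_eq, Matrix.of_apply, Matrix.cons_val',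
    Matrix.cons_val_fin_one, Matrix.cons_val_one]
  refine ⟨h1, h0, ?_, ?_⟩ <;> omega

lemma qf_pingpong_one (h : QfH 1) (hh : h ≠ 1) : qfF 1 h • qfX 0 ⊆ qfX 1 := by
  obtain ⟨k, hk, hk'⟩ := qf_eq_pow_of_mem_zpowers (n := 3) (by norm_num) qfRho_ST_cube h.2
  rintro _ ⟨Q, ⟨h0, h1, h2, h3⟩, rfl⟩
  show qfF 1 h • Q ∈ qfX 1
  have hf : qfF 1 h = h.1 := rfl
  interval_cases k
  · exact absurd (Subtype.ext (by simpa using hk')) hh
  · have : h.1 = qfRho (S * T) := by rw [hk', pow_one]
    rw [hf, this, Equiv.Perm.smul_def, qfRho_ST_apply]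
    simp only [qfX, Matrix.cons_val_one, Matrix.cons_val_zero, Set.mem_ofPred_eq,
      Matrix.of_apply, Matrix.cons_val', Matrix.cons_val_fin_one]
    refine ⟨h1, ?_, ?_, ?_⟩ <;> omega
  · have : h.1 = qfRho (S * T) * qfRho (S * T) := by rw [hk', pow_two]
    rw [hf, this, Equiv.Perm.smul_def, Equiv.Perm.mul_apply, qfRho_ST_apply, qfRho_ST_apply]
    simp only [qfX, Matrix.cons_val_one, Matrix.cons_val_zero, Set.mem_ofPred_eq,
      Matrix.of_apply, Matrix.cons_val', Matrix.cons_val_fin_one]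
    refine ⟨?_, ?_, ?_, ?_⟩ <;> omega

lemma qf_pingpong : Pairwise fun i j => ∀ h : QfH i, h ≠ 1 → qfF i h • qfX j ⊆ qfX i := by
  intro i j hij
  fin_cases i <;> fin_cases j
  · exact absurd rfl hij
  · exact qf_pingpong_zero
  · exact qf_pingpong_one
  · exact absurd rfl hij


lemma qfRho_S_ne_one : qfRho S ≠ 1 := by
  intro h
  have h1 := DFunLike.congr_fun h !![1, 1; 1, 1]
  rw [qfRho_S_apply] at h1
  have := congrFun (congrFun h1 0) 1
  simp at this

lemma qfRho_ST_ne_one : qfRho (S * T) ≠ 1 := by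
  intro h
  have h1 := DFunLike.congr_fun h !![1, 0; 0, 0]
  rw [qfRho_ST_apply] at h1
  have := congrFun (congrFun h1 0) 0
  simp at this

lemma orderOf_qfRho_S : orderOf (qfRho S) = 2 :=
  haveI : Fact (Nat.Prime 2) := ⟨Nat.prime_two⟩
  orderOf_eq_prime qfRho_S_sq qfRho_S_ne_one

lemma orderOf_qfRho_ST : orderOf (qfRho (S * T)) = 3 :=
  haveI : Fact (Nat.Prime 3) := ⟨Nat.prime_three⟩
  orderOf_eq_prime qfRho_ST_cube qfRho_ST_ne_one

lemma orderOf_qfGen (i : Fin 2) : orderOf (qfGen i) = (i : ℕ) + 2 := by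
  fin_cases i
  · exact orderOf_qfRho_S
  · exact orderOf_qfRho_ST

open Cardinal in
lemma three_le_card_QfH_one : (3 : Cardinal) ≤ #(QfH 1) := by
  have h3 : orderOf (qfGen 1) = 3 := orderOf_qfGen 1
  have : Finite (QfH 1) := by
    apply Nat.finite_of_card_ne_zero
    rw [Nat.card_zpowers, h3]; norm_num
  rw [← Nat.cast_card, Nat.card_zpowers, h3]
  norm_num

open Monoid in
theorem qf_lift_injective : Function.Injective (CoprodI.lift qfF) :=
  CoprodI.lift_injective_of_ping_pong qfF (Or.inr ⟨1, three_le_card_QfH_one⟩) qfX qfX_nonempty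
    qfX_disjoint qf_pingpong

/-- the generator of `QfH i` -/
def qfGenH (i : Fin 2) : QfH i := ⟨qfGen i, Subgroup.mem_zpowers _⟩

lemma qfGenH_generates (i : Fin 2) (x : QfH i) : x ∈ Subgroup.zpowers (qfGenH i) := by
  obtain ⟨k, hk⟩ := Subgroup.mem_zpowers_iff.mp x.2
  exact Subgroup.mem_zpowers_iff.mpr ⟨k, Subtype.ext (by simpa [qfGenH] using hk)⟩

lemma orderOf_qfGenH (i : Fin 2) : orderOf (qfGenH i) = (i : ℕ) + 2 := by
  rw [← orderOf_qfGen i, ← Subgroup.orderOf_coe]; rfl

open Monoid in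
lemma qfRho_mem_range (g : SL(2, ℤ)) : qfRho g ∈ (CoprodI.lift qfF).range := by
  have hS : qfRho S ∈ (CoprodI.lift qfF).range :=
    ⟨CoprodI.of (qfGenH 0), by rw [CoprodI.lift_of]; rfl⟩
  have hST : qfRho (S * T) ∈ (CoprodI.lift qfF).range :=
    ⟨CoprodI.of (qfGenH 1), by rw [CoprodI.lift_of]; rfl⟩
  have hT : qfRho T ∈ (CoprodI.lift qfF).range := by
    have : qfRho T = (qfRho S)⁻¹ * qfRho (S * T) := by
      rw [map_mul, inv_mul_cancel_left]
    rw [this]
    exact mul_mem (inv_mem hS) hST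
  have hg : g ∈ Subgroup.closure ({S, T} : Set SL(2, ℤ)) := by
    rw [_root_.SpecialLinearGroup.SL2Z_generators]; trivial
  have hle : Subgroup.closure ({S, T} : Set SL(2, ℤ)) ≤ (CoprodI.lift qfF).range.comap qfRho := by
    rw [Subgroup.closure_le]
    rintro x (rfl | rfl)
    · exact hS
    · exact hT
  exact hle hg

open Monoid in
/-- The homomorphism `SL(2,ℤ) → C₂ * C₃`. -/
noncomputable def qfKappa : SL(2, ℤ) →* CoprodI QfH :=
  (MonoidHom.ofInjective qf_lift_injective).symm.toMonoidHom.comp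
    (qfRho.codRestrict (CoprodI.lift qfF).range qfRho_mem_range)

open Monoid in
lemma lift_qfKappa (g : SL(2, ℤ)) : CoprodI.lift qfF (qfKappa g) = qfRho g := by
  simp only [qfKappa, MonoidHom.coe_comp, MulEquiv.coe_toMonoidHom, Function.comp_apply]
  rw [MonoidHom.apply_ofInjective_symm]
  rfl

open Monoid in
lemma qfKappa_S : qfKappa S = CoprodI.of (qfGenH 0) := by
  apply qf_lift_injective
  rw [lift_qfKappa, CoprodI.lift_of]; rfl

open Monoid in
lemma qfKappa_ST : qfKappa (S * T) = CoprodI.of (qfGenH 1) := by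
  apply qf_lift_injective
  rw [lift_qfKappa, CoprodI.lift_of]; rfl

open Monoid in
/-- **Universal property of `SL(2, ℤ)`** (equivalently: `PSL(2, ℤ) ≅ C₂ * C₃`):
any `s`, `u` in a group with `s ^ 2 = 1`, `u ^ 3 = 1` are the images of `S`, `S * T`
under a group homomorphism. -/
theorem exists_hom_of_sq_cube {H : Type*} [Group H] (s u : H) (hs : s ^ 2 = 1) (hu : u ^ 3 = 1) :
    ∃ Φ : SL(2, ℤ) →* H, Φ S = s ∧ Φ (S * T) = u := by
  let t : Fin 2 → H := ![s, u]
  have ht : ∀ i : Fin 2, orderOf (t i) ∣ orderOf (qfGenH i) := by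
    intro i
    rw [orderOf_qfGenH]
    fin_cases i
    · exact orderOf_dvd_of_pow_eq_one hs
    · exact orderOf_dvd_of_pow_eq_one hu
  let hI : ∀ i : Fin 2, QfH i →* H := fun i =>
    monoidHomOfForallMemZpowers (qfGenH_generates i) (ht i)
  refine ⟨(CoprodI.lift hI).comp qfKappa, ?_, ?_⟩
  · rw [MonoidHom.comp_apply, qfKappa_S, CoprodI.lift_of]
    exact monoidHomOfForallMemZpowers_apply_gen (qfGenH_generates 0) (ht 0)
  · rw [MonoidHom.comp_apply, qfKappa_ST, CoprodI.lift_of]
    exact monoidHomOfForallMemZpowers_apply_gen (qfGenH_generates 1) (ht 1)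

end Fermat.Agent.S21.H585

end
-- ===== PACK-END S21/H585/Presentation.lean

-- ===== PACK-BEGIN S41/H105/TransferGeneral.lean
section


/-!
# Transfer of a restricted homomorphism (helper105, row S41, block HK, leaf TR)

`transfer (φ|_H) = φ ^ [G : H]` for `φ : G →* A`, `A` commutative, `H ≤ G` of finite index.
-/

set_option autoImplicit false

namespace Fermat.Agent.S41.H105

open Subgroup Subgroup.leftTransversals MulAction

open scoped Pointwise

/-- The transfer of the restriction to `H` of a homomorphism `φ : G →* A` is `φ ^ [G : H]`. -/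
theorem transfer_comp_subtype {G : Type*} [Group G] {A : Type*} [CommGroup A] (H : Subgroup G)
    [H.FiniteIndex] (φ : G →* A) (g : G) :
    MonoidHom.transfer (φ.comp H.subtype) g = φ g ^ H.index := by
  classical
  letI := H.fintypeQuotientOfFiniteIndex
  rw [MonoidHom.transfer_def (φ.comp H.subtype) default g]
  unfold Subgroup.leftTransversals.diff
  simp only [MonoidHom.comp_apply, Subgroup.subtype_apply, map_mul, map_inv,
    Subgroup.smul_apply_eq_smul_apply_inv_smul, smul_eq_mul]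
  rw [Finset.prod_mul_distrib, Finset.prod_inv_distrib, Finset.prod_mul_distrib,
    Finset.prod_const]
  have hperm : ∏ q : G ⧸ H, φ ((default : H.LeftTransversal).2.leftQuotientEquiv (g⁻¹ • q) : G)
      = ∏ q : G ⧸ H, φ ((default : H.LeftTransversal).2.leftQuotientEquiv q : G) :=
    Fintype.prod_equiv (MulAction.toPerm g⁻¹) _ _ fun _ => rfl
  rw [hperm, Finset.card_univ, ← Nat.card_eq_fintype_card, ← Subgroup.index_eq_card]
  rw [mul_comm (φ g ^ H.index), ← mul_assoc, inv_mul_cancel, one_mul]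

end Fermat.Agent.S41.H105

end
-- ===== PACK-END S41/H105/TransferGeneral.lean

-- ===== PACK-BEGIN S15/H962/NewtonVal.lean
section


/-!
# Row S15, node GEO (helper962): Newton polygon of a polynomial of "modular shape"

Mathlib-only.  Let `Φ ∈ ℤ[X][Y]` have the shape of the classical modular polynomial of prime level
`N`:  `Φ = Y^{N+1} + c_N(X) Y^N + … + c_1(X) Y + c_0(X)` with
`c_0 = ± X^{N+1} + (lower)`, `c_N = ± X^N + (lower)`, `deg c_k ≤ N` for `0 < k < N`.

`val_root_of_isModularShape`: for a valuation `v` on a field `K` and `a, b ∈ K` with `Φ(a, b) = 0`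
and `1 < v a` (i.e. `a` is not `v`-integral):  `v b = (v a)^N`  or  `(v b)^N = v a`.

`val_propagate_zero`, `val_propagate_infty`: the resulting propagation of the two residue discs of
the cusps along a Hecke correspondence `T_ℓ` (values `(a, a_p)` at a place `P'` of `X₀(pℓ)`,
values `(a_ℓ, a_{pℓ})` at its image): if `(v a_p)^p = v a` then `(v a_{pℓ})^p = v a_ℓ`, and if
`v a_p = (v a)^p` then `v a_{pℓ} = (v a_ℓ)^p`.
-/

set_option autoImplicit false

open Polynomial

namespace Fermat.Agent.S15.H962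

section Valuation

variable {K : Type*} [Field K] {Γ₀ : Type*} [LinearOrderedCommGroupWithZero Γ₀]
  (v : Valuation K Γ₀)

theorem val_natCast_le_one (n : ℕ) : v (n : K) ≤ 1 := by
  induction n with
  | zero => simp
  | succ n ih =>
    rw [Nat.cast_succ]
    exact (v.map_add _ _).trans (max_le ih (by rw [map_one]))

theorem val_intCast_le_one (n : ℤ) : v (n : K) ≤ 1 := by
  obtain ⟨m, rfl | rfl⟩ := n.eq_nat_or_neg
  · simpa using val_natCast_le_one v m
  · rw [Int.cast_neg, Valuation.map_neg]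
    simpa using val_natCast_le_one v m

theorem val_intCast_unit {n : ℤ} (hn : IsUnit n) : v (n : K) = 1 := by
  rcases Int.isUnit_iff.mp hn with rfl | rfl
  · simp
  · simp

/-- `v (P(a)) ≤ (v a)^d` for `P ∈ ℤ[X]` of degree `≤ d` and `1 ≤ v a`. -/
theorem val_eval_le {a : K} (ha : 1 ≤ v a) (P : ℤ[X]) {d : ℕ} (hd : P.natDegree ≤ d) :
    v (P.eval₂ (Int.castRingHom K) a) ≤ v a ^ d := by
  rw [Polynomial.eval₂_eq_sum_range]
  refine Valuation.map_sum_le v fun i hi => ?_
  have hi' : i ≤ d := (Nat.lt_succ_iff.mp (Finset.mem_range.mp hi)).trans hd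
  rw [map_mul, map_pow, eq_intCast]
  calc v ((P.coeff i : ℤ) : K) * v a ^ i ≤ 1 * v a ^ i := by
        gcongr
        exact val_intCast_le_one v _
    _ = v a ^ i := one_mul _
    _ ≤ v a ^ d := pow_le_pow_right₀ ha hi'

/-- `v (P(a)) = (v a)^d` for `P ∈ ℤ[X]` of degree `d` with leading coefficient `± 1`, `1 < v a`. -/
theorem val_eval_eq {a : K} (ha : 1 < v a) (P : ℤ[X]) {d : ℕ} (hd : P.natDegree = d)
    (hu : IsUnit P.leadingCoeff) :
    v (P.eval₂ (Int.castRingHom K) a) = v a ^ d := by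
  have hP : P = P.eraseLead + C P.leadingCoeff * X ^ d := by
    rw [← hd]; exact (Polynomial.eraseLead_add_C_mul_X_pow P).symm
  have hlead : v ((C P.leadingCoeff * X ^ d : ℤ[X]).eval₂ (Int.castRingHom K) a) = v a ^ d := by
    rw [Polynomial.eval₂_mul, Polynomial.eval₂_C, Polynomial.eval₂_pow, Polynomial.eval₂_X,
      map_mul, map_pow, eq_intCast, val_intCast_unit v hu, one_mul]
  have hlow : v (P.eraseLead.eval₂ (Int.castRingHom K) a) < v a ^ d := by
    rcases Nat.eq_zero_or_pos d with h0 | hpos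
    · subst h0
      have : P.eraseLead = 0 := by
        have h1 : P.natDegree = 0 := hd
        rw [Polynomial.eq_C_of_natDegree_eq_zero h1]
        exact Polynomial.eraseLead_C _
      rw [this, Polynomial.eval₂_zero, map_zero, pow_zero]
      exact zero_lt_one
    · have h1 : P.eraseLead.natDegree ≤ d - 1 := by
        rw [← hd]; exact Polynomial.eraseLead_natDegree_le P
      calc v (P.eraseLead.eval₂ (Int.castRingHom K) a) ≤ v a ^ (d - 1) :=
            val_eval_le v ha.le _ h1
        _ < v a ^ d := pow_lt_pow_right₀ ha (by omega)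
  rw [hP, Polynomial.eval₂_add, Valuation.map_add_eq_of_lt_right v (by rw [hlead]; exact hlow),
    hlead]

/-- A finite sum with a strictly dominant term is nonzero. -/
theorem sum_ne_zero_of_dominant {ι : Type*} [DecidableEq ι] (s : Finset ι) (f : ι → K) (m : ι)
    (hm : m ∈ s) (hfm : f m ≠ 0) (hdom : ∀ i ∈ s, i ≠ m → v (f i) < v (f m)) :
    ∑ i ∈ s, f i ≠ 0 := by
  have hsplit : ∑ i ∈ s, f i = ∑ i ∈ s.erase m, f i + f m := by
    rw [Finset.sum_erase_add _ _ hm]
  have hlt : v (∑ i ∈ s.erase m, f i) < v (f m) :=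
    Valuation.map_sum_lt v ((Valuation.ne_zero_iff v).mpr hfm) fun i hi =>
      hdom i (Finset.mem_of_mem_erase hi) (Finset.ne_of_mem_erase hi)
  intro h0
  have h1 := Valuation.map_add_eq_of_lt_right v hlt
  rw [← hsplit, h0, map_zero] at h1
  exact (Valuation.ne_zero_iff v).mpr hfm h1.symm

end Valuation

/-- The shape of the classical modular polynomial of prime level `N`, as a polynomial in the
outer variable `Y` with coefficients in `ℤ[X]`. -/
structure IsModularShape (N : ℕ) (Φ : ℤ[X][X]) : Prop where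
  natDegree_eq : Φ.natDegree = N + 1
  monic : Φ.Monic
  coeff_zero_natDegree : (Φ.coeff 0).natDegree = N + 1
  coeff_zero_unit : IsUnit (Φ.coeff 0).leadingCoeff
  coeff_top_natDegree : (Φ.coeff N).natDegree = N
  coeff_top_unit : IsUnit (Φ.coeff N).leadingCoeff
  coeff_mid : ∀ k, 0 < k → k < N → (Φ.coeff k).natDegree ≤ N

section Newton

variable {K : Type*} [Field K] {Γ₀ : Type*} [LinearOrderedCommGroupWithZero Γ₀]
  (v : Valuation K Γ₀)

/-- Evaluation of a two-variable integer polynomial at `(a, b)`. -/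
noncomputable def eval2 (Φ : ℤ[X][X]) (a b : K) : K :=
  Φ.eval₂ (Polynomial.eval₂RingHom (Int.castRingHom K) a) b

theorem eval2_eq_sum (Φ : ℤ[X][X]) (a b : K) :
    eval2 Φ a b = ∑ k ∈ Finset.range (Φ.natDegree + 1),
      (Φ.coeff k).eval₂ (Int.castRingHom K) a * b ^ k := by
  unfold eval2
  rw [Polynomial.eval₂_eq_sum_range]
  rfl

/-- **Newton polygon of a polynomial of modular shape.** -/
theorem val_root_of_isModularShape {N : ℕ} (hN : 0 < N) {Φ : ℤ[X][X]} (hΦ : IsModularShape N Φ)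
    {a b : K} (ha : 1 < v a) (h : eval2 Φ a b = 0) :
    v b = v a ^ N ∨ v b ^ N = v a := by
  classical
  set A := v a with hA
  set B := v b with hB
  have hA0 : 0 < A := lt_trans zero_lt_one ha
  have hAN : 1 < A ^ N := one_lt_pow₀ ha hN.ne'
  -- the terms
  set f : ℕ → K := fun k => (Φ.coeff k).eval₂ (Int.castRingHom K) a * b ^ k with hf
  have hsum : ∑ k ∈ Finset.range (N + 2), f k = 0 := by
    rw [← h, eval2_eq_sum, hΦ.natDegree_eq]
  have hvf : ∀ k, v (f k) = v ((Φ.coeff k).eval₂ (Int.castRingHom K) a) * B ^ k := by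
    intro k; simp only [hf, map_mul, map_pow]; rfl
  have hf0 : v (f 0) = A ^ (N + 1) := by
    rw [hvf, pow_zero, mul_one]
    exact val_eval_eq v ha _ hΦ.coeff_zero_natDegree hΦ.coeff_zero_unit
  have hfN : v (f N) = A ^ N * B ^ N := by
    rw [hvf, val_eval_eq v ha _ hΦ.coeff_top_natDegree hΦ.coeff_top_unit]
  have hftop : v (f (N + 1)) = B ^ (N + 1) := by
    rw [hvf]
    have : Φ.coeff (N + 1) = 1 := by
      have := hΦ.monic
      rwa [Polynomial.Monic, Polynomial.leadingCoeff, hΦ.natDegree_eq] at this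
    rw [this, Polynomial.eval₂_one, map_one, one_mul]
  have hfmid : ∀ k, 0 < k → k < N → v (f k) ≤ A ^ N * B ^ k := by
    intro k hk0 hkN
    rw [hvf]
    gcongr
    exact val_eval_le v ha.le _ (hΦ.coeff_mid k hk0 hkN)
  -- `b ≠ 0`
  have hb0 : b ≠ 0 := by
    rintro rfl
    have h1 : ∑ k ∈ Finset.range (N + 2), f k = f 0 := by
      refine Finset.sum_eq_single 0 (fun k _ hk => ?_) (fun h => absurd (Finset.mem_range.mpr
        (by omega)) h)
      simp only [hf, zero_pow hk, mul_zero]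
    rw [h1] at hsum
    have : v (f 0) = 0 := by rw [hsum, map_zero]
    rw [hf0] at this
    exact (pow_ne_zero _ hA0.ne') this
  have hB0 : 0 < B := zero_lt_iff.mpr ((Valuation.ne_zero_iff v).mpr hb0)
  have hAN0 : 0 < A ^ N := pow_pos hA0 N
  have hBk0 : ∀ k, 0 < B ^ k := fun k => pow_pos hB0 k
  by_contra hcon
  push Not at hcon
  obtain ⟨h1, h2⟩ := hcon
  -- three cases
  rcases lt_or_gt_of_ne h1 with hlt | hgt
  · rcases lt_or_gt_of_ne h2 with hlt2 | hgt2
    · -- `B ^ N < A`: the term `k = 0` dominates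
      have hBk : ∀ k, k ≤ N → B ^ k < A := by
        intro k hk
        rcases le_or_gt B 1 with hB1 | hB1
        · exact lt_of_le_of_lt (pow_le_one₀ hB0.le hB1) ha
        · exact lt_of_le_of_lt (pow_le_pow_right₀ hB1.le hk) hlt2
      refine sum_ne_zero_of_dominant v (Finset.range (N + 2)) f 0 (Finset.mem_range.mpr (by omega))
        ?_ ?_ hsum
      · intro h0
        have : v (f 0) = 0 := by rw [h0, map_zero]
        rw [hf0] at this
        exact (pow_ne_zero _ hA0.ne') this
      · intro k hk hk0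
        rw [hf0]
        have hk' : k < N + 2 := Finset.mem_range.mp hk
        rcases Nat.lt_or_ge k N with hkN | hkN
        · calc v (f k) ≤ A ^ N * B ^ k := hfmid k (Nat.pos_of_ne_zero hk0) hkN
            _ < A ^ N * A := mul_lt_mul_of_pos_left (hBk k hkN.le) hAN0
            _ = A ^ (N + 1) := (pow_succ A N).symm
        · rcases Nat.eq_or_lt_of_le hkN with rfl | hkN'
          · rw [hfN]
            calc A ^ N * B ^ N < A ^ N * A := mul_lt_mul_of_pos_left hlt2 hAN0
              _ = A ^ (N + 1) := (pow_succ A N).symm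
          · have hkk : k = N + 1 := by omega
            subst hkk
            rw [hftop]
            calc B ^ (N + 1) = B ^ N * B := pow_succ B N
              _ < A * A := by
                have hB1 : B < A := by simpa using hBk 1 hN
                exact mul_lt_mul'' hlt2 hB1 (pow_nonneg hB0.le _) hB0.le
              _ = A ^ 2 := (sq A).symm
              _ ≤ A ^ (N + 1) := pow_le_pow_right₀ ha.le (by omega)
    · -- `A < B ^ N` and `B < A ^ N`: the term `k = N` dominates
      have hB1 : 1 < B := by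
        by_contra hle
        push Not at hle
        exact absurd (lt_of_lt_of_le hgt2 (pow_le_one₀ hB0.le hle)) (not_lt.mpr ha.le)
      refine sum_ne_zero_of_dominant v (Finset.range (N + 2)) f N (Finset.mem_range.mpr (by omega))
        ?_ ?_ hsum
      · intro h0
        have : v (f N) = 0 := by rw [h0, map_zero]
        rw [hfN] at this
        exact (mul_ne_zero (pow_ne_zero _ hA0.ne') (pow_ne_zero _ hB0.ne')) this
      · intro k hk hkN
        rw [hfN]
        have hk' : k < N + 2 := Finset.mem_range.mp hk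
        rcases Nat.lt_or_ge k N with hkN' | hkN'
        · rcases Nat.eq_zero_or_pos k with rfl | hk0
          · rw [hf0]
            calc A ^ (N + 1) = A ^ N * A := pow_succ A N
              _ < A ^ N * B ^ N := mul_lt_mul_of_pos_left hgt2 hAN0
          · calc v (f k) ≤ A ^ N * B ^ k := hfmid k hk0 hkN'
              _ < A ^ N * B ^ N := mul_lt_mul_of_pos_left (pow_lt_pow_right₀ hB1 hkN') hAN0
        · have hkk : k = N + 1 := by omega
          subst hkk
          rw [hftop]
          calc B ^ (N + 1) = B * B ^ N := pow_succ' B N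
            _ < A ^ N * B ^ N := mul_lt_mul_of_pos_right hlt (hBk0 N)
  · -- `A ^ N < B`: the term `k = N + 1` dominates
    have hB1 : 1 < B := lt_trans hAN hgt
    have hAB : A < B := lt_of_le_of_lt (le_self_pow₀ ha.le hN.ne') hgt
    refine sum_ne_zero_of_dominant v (Finset.range (N + 2)) f (N + 1)
      (Finset.mem_range.mpr (by omega)) ?_ ?_ hsum
    · intro h0
      have : v (f (N + 1)) = 0 := by rw [h0, map_zero]
      rw [hftop] at this
      exact (pow_ne_zero _ hB0.ne') this
    · intro k hk hkN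
      rw [hftop]
      have hk' : k < N + 2 := Finset.mem_range.mp hk
      have hkN1 : k ≤ N := by omega
      rcases Nat.eq_zero_or_pos k with rfl | hk0
      · rw [hf0]
        exact pow_lt_pow_left₀ hAB hA0.le (by omega)
      · rcases Nat.eq_or_lt_of_le hkN1 with rfl | hkN'
        · rw [hfN]
          calc A ^ k * B ^ k < B * B ^ k := mul_lt_mul_of_pos_right hgt (hBk0 k)
            _ = B ^ (k + 1) := (pow_succ' B k).symm
        · calc v (f k) ≤ A ^ N * B ^ k := hfmid k hk0 hkN'
            _ < B * B ^ k := mul_lt_mul_of_pos_right hgt (hBk0 k)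
            _ = B ^ (k + 1) := (pow_succ' B k).symm
            _ ≤ B ^ (N + 1) := pow_le_pow_right₀ hB1.le (by omega)

end Newton

section Propagate

variable {Γ₀ : Type*} [LinearOrderedCommGroupWithZero Γ₀]

theorem pow_eq_pow_iff_of_one_lt {A : Γ₀} (hA : 1 < A) {m n : ℕ} : A ^ m = A ^ n ↔ m = n :=
  (pow_right_strictMono₀ hA).injective.eq_iff

theorem one_lt_of_pow_eq {A X : Γ₀} (hA : 1 < A) {k : ℕ} (h : X ^ k = A) : 1 < X := by
  by_contra hle
  push Not at hle
  have : X ^ k ≤ 1 := pow_le_one₀ zero_le hle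
  rw [h] at this
  exact absurd hA (not_lt.mpr this)

/-- `a * b ≠ a` for `a > 0`, `b ≥ 2`. -/
theorem mul_ne_self_of_two_le {a b : ℕ} (ha : 0 < a) (hb : 2 ≤ b) : a * b ≠ a := by
  intro h
  have : a * 2 ≤ a * b := Nat.mul_le_mul_left a hb
  omega

/-- `a * b ≠ 1` for `b ≥ 2`. -/
theorem mul_ne_one_of_two_le {a b : ℕ} (hb : 2 ≤ b) : a * b ≠ 1 := by
  intro h
  have := Nat.eq_one_of_mul_eq_one_left h
  omega

/-- **Propagation of the residue disc of the cusp `0`** along a Hecke correspondence.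
`A = v(j)`, `Ap = v(j_p)` at a place of `X₀(pℓ)`; `B = v(j_ℓ)`, `C = v(j_{pℓ})`. -/
theorem val_propagate_zero {p ℓ : ℕ} (hp : 2 ≤ p) (hℓ : 2 ≤ ℓ) (hpℓ : p ≠ ℓ) {A Ap B C : Γ₀}
    (hA : 1 < A) (hAp : Ap ^ p = A)
    (hB : B = A ^ ℓ ∨ B ^ ℓ = A)
    (hC₁ : C = Ap ^ ℓ ∨ C ^ ℓ = Ap)
    (hC₂ : C = B ^ p ∨ C ^ p = B) : C ^ p = B := by
  have hAp1 : 1 < Ap := one_lt_of_pow_eq hA hAp
  have hp0 : 0 < p := by omega
  have hℓ0 : 0 < ℓ := by omega
  rcases hC₂ with hC | hC
  swap
  · exact hC
  exfalso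
  rcases hB with hB | hB
  · -- `C = Ap ^ (ℓ * (p * p))`
    have hCp : C = Ap ^ (ℓ * (p * p)) := by
      rw [hC, hB, ← hAp, ← pow_mul, ← pow_mul]
      congr 1
      ring
    rcases hC₁ with h1 | h1
    · rw [hCp] at h1
      have := (pow_eq_pow_iff_of_one_lt hAp1).mp h1
      exact mul_ne_self_of_two_le hℓ0 (le_trans hp (Nat.le_mul_of_pos_left p hp0)) this
    · rw [hCp, ← pow_mul] at h1
      have := (pow_eq_pow_iff_of_one_lt hAp1).mp (h1.trans (pow_one Ap).symm)
      exact mul_ne_one_of_two_le hℓ this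
  · rcases hC₁ with h1 | h1
    · -- `C ^ (p * ℓ)` computed in two ways
      have e1 : C ^ (p * ℓ) = Ap ^ (p * (p * p)) := by
        rw [hC, ← pow_mul, show p * (p * ℓ) = ℓ * (p * p) by ring, pow_mul, hB, ← hAp, ← pow_mul]
      have e2 : C ^ (p * ℓ) = Ap ^ (p * (ℓ * ℓ)) := by
        rw [h1, ← pow_mul]
        congr 1
        ring
      have := (pow_eq_pow_iff_of_one_lt hAp1).mp (e1.symm.trans e2)
      have h3 : p * p = ℓ * ℓ := Nat.eq_of_mul_eq_mul_left hp0 this
      exact hpℓ (Nat.mul_self_inj.mp h3)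
    · have e1 : C ^ ℓ = Ap ^ (p * p) := by
        rw [hC, ← pow_mul, mul_comm, pow_mul, hB, ← hAp, ← pow_mul]
      have := (pow_eq_pow_iff_of_one_lt hAp1).mp (e1.symm.trans (h1.trans (pow_one Ap).symm))
      exact mul_ne_one_of_two_le hp this

/-- **Propagation of the residue disc of the cusp `∞`** along a Hecke correspondence. -/
theorem val_propagate_infty {p ℓ : ℕ} (hp : 2 ≤ p) (hℓ : 2 ≤ ℓ) (hpℓ : p ≠ ℓ) {A Ap B C : Γ₀}
    (hA : 1 < A) (hAp : Ap = A ^ p)
    (hB : B = A ^ ℓ ∨ B ^ ℓ = A)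
    (hC₁ : C = Ap ^ ℓ ∨ C ^ ℓ = Ap)
    (hC₂ : C = B ^ p ∨ C ^ p = B) : C = B ^ p := by
  have hp0 : 0 < p := by omega
  have hℓ0 : 0 < ℓ := by omega
  rcases hC₂ with hC | hC
  · exact hC
  exfalso
  rcases hB with hB | hB
  · rcases hC₁ with h1 | h1
    · -- `C ^ p = A ^ ℓ` and `C = A ^ (p ℓ)`
      have e1 : C ^ p = A ^ (ℓ * (p * p)) := by
        rw [h1, hAp, ← pow_mul, ← pow_mul]
        congr 1
        ring
      have := (pow_eq_pow_iff_of_one_lt hA).mp (e1.symm.trans (hC.trans hB))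
      exact mul_ne_self_of_two_le hℓ0 (le_trans hp (Nat.le_mul_of_pos_left p hp0)) this
    · have e1 : C ^ (p * ℓ) = A ^ (ℓ * ℓ) := by rw [pow_mul, hC, hB, ← pow_mul]
      have e2 : C ^ (p * ℓ) = A ^ (p * p) := by rw [mul_comm, pow_mul, h1, hAp, ← pow_mul]
      have := (pow_eq_pow_iff_of_one_lt hA).mp (e1.symm.trans e2)
      exact hpℓ (Nat.mul_self_inj.mp this.symm)
  · have e0 : C ^ (p * ℓ) = A := by rw [pow_mul, hC, hB]
    rcases hC₁ with h1 | h1
    · have e1 : C ^ (p * ℓ) = A ^ (p * ℓ * (p * ℓ)) := by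
        rw [h1, hAp, ← pow_mul, ← pow_mul]
        congr 1
        ring
      have := (pow_eq_pow_iff_of_one_lt hA).mp (e1.symm.trans (e0.trans (pow_one A).symm))
      exact mul_ne_one_of_two_le (le_trans hℓ (Nat.le_mul_of_pos_left ℓ hp0)) this
    · have e1 : C ^ (p * ℓ) = A ^ (p * p) := by rw [mul_comm, pow_mul, h1, hAp, ← pow_mul]
      have := (pow_eq_pow_iff_of_one_lt hA).mp (e1.symm.trans (e0.trans (pow_one A).symm))
      exact mul_ne_one_of_two_le hp this

end Propagate

end Fermat.Agent.S15.H962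

end
-- ===== PACK-END S15/H962/NewtonVal.lean

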