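import Mathlib
import Fermat.Prelude.Def_GaloisRep_Flat
import Fermat.Prelude.Def_ModularCurve_ArithmeticGalois
import Mathlib.RingTheory.Valuation.ValuationSubring
import Mathlib.Tactic
import Fermat.Prelude.Def_AlgebraicCurve_DivisorClassGroup
import Fermat.Prelude.Def_AlgebraicCurve_Repartitions
import Fermat.Prelude.Def_ModularCurve_X0
import Fermat.Prelude.Def_ModularCurve_LaurentCoeff
import Mathlib.NumberTheory.ModularForms.CongruenceSubgroups
import Mathlib.GroupTheory.GroupAction.Quotient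
import Mathlib.GroupTheory.Index
import Fermat.Prelude.Def_ModularCurve_GenusNumerics
import Fermat.Prelude.Def_ModularCurve_IgusaScheme
import Fermat.Prelude.Def_ModularCurve_X0ModL
import Fermat.Prelude.Def_FLTPrelim_Ramification
import Mathlib.LinearAlgebra.FiniteDimensional.Defs
import Mathlib.LinearAlgebra.FiniteDimensional.Lemmas
import Mathlib.LinearAlgebra.Dimension.RankNullity
import Mathlib.LinearAlgebra.Isomorphisms
import Mathlib.RingTheory.Finiteness.Quotient
import Fermat.Prelude.Def_ModularCurve_JqCoeff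
import Fermat.Prelude.Thm_ModularCurve_coeffMap_qExpand
import Mathlib.NumberTheory.ModularForms.LevelOne.DimensionFormula
import Mathlib.NumberTheory.ModularForms.LevelOne.GradedRing
import Mathlib.NumberTheory.ModularForms.EisensteinSeries.QExpansion
import Mathlib.Analysis.Complex.LocallyUniformLimit
import Mathlib.RingTheory.IntegralClosure.IntegrallyClosed
import Mathlib.RingTheory.IntegralClosure.IsIntegralClosure.Basic
import Mathlib.RingTheory.Localization.FractionRing
import Mathlib.RingTheory.LocalRing.ResidueField.Basic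
import Mathlib.RingTheory.Polynomial.Basic
import Mathlib.RingTheory.Valuation.LocalSubring
import Mathlib.RingTheory.Adjoin.Polynomial.Basic
import Mathlib.LinearAlgebra.Matrix.SpecialLinearGroup
import Mathlib.Data.ZMod.Basic
import Fermat.Prelude.Def_ModularCurve_ReductionModL
import Mathlib.RingTheory.MvPolynomial.WeightedHomogeneous
import Mathlib.RingTheory.MvPolynomial.Homogeneous
import Mathlib.Algebra.MvPolynomial.Rename
import Fermat.Prelude.Def_HeckeGalois_EichlerShimura
import Fermat.Statements.S21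

-- ===== PACK-BEGIN S19/Defs.lean
section




/-!
# Cell A3 (S19) — FROZEN top-level interface (row-lead helper15)

Route Z (origin/helper15:coord/A3.md, origin/helper19:coord/A3-route-helper19.md):

    frozen S19  <==  FIN (torsion finite)  +  ORDER (an `OrderDatum` for the torsion)
    ORD block   :  `OrdStatement`   : OrderDatum  ==>  HopfModel          (pure algebra)
    glue        :  `S19_of_hopfModel` (file `Glue.lean`)                  (unfolding)

Everything here is definitions only.  Interfaces are frozen; ask helper15 (note kind 'interface')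
before proposing a change.
-/

set_option autoImplicit false

noncomputable section

namespace Fermat.Agent.S19

/-- `Q̄`. -/
abbrev Qb : Type := AlgebraicClosure ℚ

/-- `Gal(Q̄/Q)`. -/
abbrev GalQ : Type := Qb ≃ₐ[ℚ] Qb

/-- `Z_(ℓ)` as a subring of `ℚ` (the Prelude ring). -/
abbrev Rl (ℓ : ℕ) : Subring ℚ := GaloisRep.ratLocalizedAt ℓ

/-- The integral closure of `Z_(ℓ)` in `Q̄`. -/
abbrev Zb (ℓ : ℕ) : Subalgebra (Rl ℓ) Qb := integralClosure (Rl ℓ) Qb

/-- The S19-shaped conclusion for an abstract module `M` with a map `act : Gal → M → M`: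
a finite flat commutative cocommutative Hopf algebra over `Z_(ℓ)` whose `Q̄`-points are `M`,
additively and Galois-equivariantly. -/
def HopfModel (ℓ : ℕ) (M : Type) [AddCommGroup M] (act : GalQ → M → M) : Prop :=
  ∃ (H : Type) (_ : CommRing H) (_ : HopfAlgebra (Rl ℓ) H),
    Module.Finite (Rl ℓ) H ∧ Module.Flat (Rl ℓ) H ∧ Coalgebra.IsCocomm (Rl ℓ) H ∧
    ∃ e : WithConv (H →ₐ[Rl ℓ] Qb) ≃ M,
      (∀ f g, e (f * g) = e f + e g) ∧
      ∀ (σ : GalQ) (f g : WithConv (H →ₐ[Rl ℓ] Qb)),
        (∀ h : H, g h = σ (f h)) → e g = act σ (e f)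

/-- The two families of "coordinate functions" on `M × M` coming from a set of functions on `M`. -/
def coordFunctions {M : Type} (S : Set (M → Qb)) : Set (M × M → Qb) :=
  {g | ∃ h ∈ S, g = fun p => h p.1} ∪ {g | ∃ h ∈ S, g = fun p => h p.2}

/-- **ORDER datum** (route Z, §0): a set `gens` of functions `M → Q̄` which are
Galois-equivariant, have values integral over `Z_(ℓ)`, separate the points of `M`, and whose
translates `(s,t) ↦ f (s+t)` are `Z̄_(ℓ)`-polynomial in the coordinate functions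
`(s,t) ↦ h s`, `(s,t) ↦ h t`  (`h ∈ gens`).

* The only axiom on `act` is additivity `act_add` (v2, 18:30Z: without it `OrdStatement` is
  false — counterexamples by helper979, helper259, helper79); no finiteness of `gens`, no
  closure of `gens` under anything.
* `add_mem` is over `Zb ℓ` (integral closure in `Q̄`), which is WEAKER than over `Z_(ℓ)`;
  the ORD block proves that it implies the statement over `Z_(ℓ)`. -/
structure OrderDatum (ℓ : ℕ) (M : Type) [AddCommGroup M] (act : GalQ → M → M) where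
  act_add : ∀ (σ : GalQ) (a b : M), act σ (a + b) = act σ a + act σ b
  gens : Set (M → Qb)
  equivariant : ∀ f ∈ gens, ∀ (σ : GalQ) (m : M), f (act σ m) = σ (f m)
  integral : ∀ f ∈ gens, ∀ m : M, IsIntegral (Rl ℓ) (f m)
  separates : ∀ m m' : M, (∀ f ∈ gens, f m = f m') → m = m'
  add_mem : ∀ f ∈ gens, (fun p : M × M => f (p.1 + p.2)) ∈
    Algebra.adjoin (Zb ℓ) (coordFunctions gens)

/-- **ORD block** (pure algebra): an order datum on a finite module gives a Hopf model. -/
def OrdStatement : Prop :=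
  ∀ (ℓ : ℕ) [Fact ℓ.Prime] (M : Type) [AddCommGroup M] [Finite M] (act : GalQ → M → M),
    Nonempty (OrderDatum ℓ M act) → HopfModel ℓ M act

/-- The torsion module of S19 with its Galois action. -/
abbrev Tors (N ℓ k : ℕ) : Type := ↥(Submodule.torsionBy ℤ (ModularCurve.JZero N) ((ℓ : ℤ) ^ k))

/-- Galois action on the torsion. -/
def torsAct (N ℓ k : ℕ) (σ : GalQ) (m : Tors N ℓ k) : Tors N ℓ k :=
  ⟨σ • (m : ModularCurve.JZero N), by
    have h := m.2
    rw [Submodule.mem_torsionBy_iff] at h ⊢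
    have h2 := (DistribSMul.toAddMonoidHom (ModularCurve.JZero N) σ).map_zsmul
      ((ℓ : ℤ) ^ k) (m : ModularCurve.JZero N)
    rw [h, map_zero] at h2
    exact h2.symm⟩

@[simp] theorem coe_torsAct (N ℓ k : ℕ) (σ : GalQ) (m : Tors N ℓ k) :
    ((torsAct N ℓ k σ m : Tors N ℓ k) : ModularCurve.JZero N) = σ • (m : ModularCurve.JZero N) :=
  rfl

/-- **FIN block**: the torsion is finite. -/
def FinStatement : Prop :=
  ∀ (N : ℕ) [NeZero N] (ℓ : ℕ) [Fact ℓ.Prime] (k : ℕ), Finite (Tors N ℓ k)

theorem torsAct_add (N ℓ k : ℕ) (σ : GalQ) (a b : Tors N ℓ k) :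
    torsAct N ℓ k σ (a + b) = torsAct N ℓ k σ a + torsAct N ℓ k σ b :=
  Subtype.ext (smul_add σ (a : ModularCurve.JZero N) (b : ModularCurve.JZero N))

/-- **ORDER block** (the geometric wall): the torsion carries an order datum. -/
def OrderStatement : Prop :=
  ∀ (N : ℕ) [NeZero N] (ℓ : ℕ) [Fact ℓ.Prime], ¬ ℓ ∣ N → ∀ k : ℕ,
    Nonempty (OrderDatum ℓ (Tors N ℓ k) (torsAct N ℓ k))

end Fermat.Agent.S19

end

end
-- ===== PACK-END S19/Defs.lean

-- ===== PACK-BEGIN Lib/Red/H290/RedElt.lean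
section



/-!
# Reduction of elements of a valuation ring (S52 piece A1b, part 1)

`A : ValuationSubring K`, `φ : A →+* κ` a ring homomorphism to a field whose kernel is the
maximal ideal of `A` (stated as `hφ : ∀ a : A, φ a = 0 ↔ A.valuation a < 1`).

`rd A φ : K → κ` is the total function extending `φ` by `0` outside `A`.  It is additive and
multiplicative on `A`, kills exactly the non-units among the elements of `A`, and commutes with
division by units.
-/

set_option autoImplicit false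

namespace Fermat.Agent.Lib.Red.H290

variable {K : Type*} [Field K] {κ : Type*} [Field κ]

/-- The reduction `K → κ` extending `φ : A →+* κ` by zero outside `A`. -/
noncomputable def rd (A : ValuationSubring K) (φ : A →+* κ) (x : K) : κ :=
  open Classical in if h : x ∈ A then φ ⟨x, h⟩ else 0

section

variable {A : ValuationSubring K} {φ : A →+* κ}

lemma rd_of_mem {x : K} (h : x ∈ A) : rd A φ x = φ ⟨x, h⟩ := by
  simp only [rd, h, dite_true]

lemma rd_coe (a : A) : rd A φ (a : K) = φ a := by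
  rw [rd_of_mem a.2]

lemma rd_of_not_mem {x : K} (h : x ∉ A) : rd A φ x = 0 := by
  simp only [rd, h, dite_false]

@[simp] lemma rd_zero : rd A φ 0 = 0 := by
  rw [rd_of_mem A.zero_mem]; exact map_zero φ

@[simp] lemma rd_one : rd A φ 1 = 1 := by
  rw [rd_of_mem A.one_mem]; exact map_one φ

lemma rd_add {x y : K} (hx : x ∈ A) (hy : y ∈ A) : rd A φ (x + y) = rd A φ x + rd A φ y := by
  rw [rd_of_mem hx, rd_of_mem hy, rd_of_mem (A.add_mem _ _ hx hy), ← map_add]; rfl

lemma rd_mul {x y : K} (hx : x ∈ A) (hy : y ∈ A) : rd A φ (x * y) = rd A φ x * rd A φ y := by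
  rw [rd_of_mem hx, rd_of_mem hy, rd_of_mem (A.mul_mem _ _ hx hy), ← map_mul]; rfl

lemma rd_neg {x : K} (hx : x ∈ A) : rd A φ (-x) = - rd A φ x := by
  rw [rd_of_mem hx, rd_of_mem (A.neg_mem _ hx), ← map_neg]; rfl

lemma rd_sub {x y : K} (hx : x ∈ A) (hy : y ∈ A) : rd A φ (x - y) = rd A φ x - rd A φ y := by
  rw [rd_of_mem hx, rd_of_mem hy, rd_of_mem (A.sub_mem hx hy), ← map_sub]; rfl

lemma rd_pow {x : K} (hx : x ∈ A) (n : ℕ) : rd A φ (x ^ n) = rd A φ x ^ n := by
  rw [rd_of_mem hx, rd_of_mem (pow_mem hx n), ← map_pow]; rfl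

lemma rd_natCast (n : ℕ) : rd A φ (n : K) = (n : κ) := by
  rw [rd_of_mem (natCast_mem A n)]
  have : (⟨(n : K), natCast_mem A n⟩ : A) = (n : A) := rfl
  rw [this, map_natCast]

lemma rd_ofNat (n : ℕ) [n.AtLeastTwo] : rd A φ (OfNat.ofNat n : K) = (OfNat.ofNat n : κ) := by
  have := rd_natCast (A := A) (φ := φ) (OfNat.ofNat n)
  rwa [Nat.cast_ofNat, Nat.cast_ofNat] at this

lemma mem_of_val_le {x : K} (h : A.valuation x ≤ 1) : x ∈ A := (A.valuation_le_one_iff x).mp h

lemma val_le_of_mem {x : K} (h : x ∈ A) : A.valuation x ≤ 1 := (A.valuation_le_one_iff x).mpr h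

omit [Field κ] in
lemma inv_mem_of_val_eq_one {x : K} (hx : A.valuation x = 1) : x⁻¹ ∈ A := by
  apply (A.valuation_le_one_iff _).mp
  rw [map_inv₀, hx, inv_one]

omit [Field κ] in
lemma div_mem_of_val_eq_one {x y : K} (hx : x ∈ A) (hy : A.valuation y = 1) : x / y ∈ A := by
  rw [div_eq_mul_inv]; exact A.mul_mem _ _ hx (inv_mem_of_val_eq_one hy)

end

/-- The kernel of `φ` is the maximal ideal. -/
def KerMax (A : ValuationSubring K) (φ : A →+* κ) : Prop :=
  ∀ a : A, φ a = 0 ↔ A.valuation (a : K) < 1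

lemma kerMax_of_isLocalHom (A : ValuationSubring K) (φ : A →+* κ) [IsLocalHom φ] :
    KerMax A φ := by
  intro a
  rw [← A.valuation_lt_one_iff, IsLocalRing.mem_maximalIdeal, mem_nonunits_iff]
  constructor
  · intro h hu
    have := hu.map φ
    rw [h] at this
    exact not_isUnit_zero this
  · intro h
    by_contra h0
    exact h (IsLocalHom.map_nonunit a (isUnit_iff_ne_zero.mpr h0))

/-- The residue map of `A` has kernel the maximal ideal. -/
lemma kerMax_residue (A : ValuationSubring K) :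
    KerMax A (IsLocalRing.residue A) := by
  intro a
  rw [← A.valuation_lt_one_iff]
  exact IsLocalRing.residue_eq_zero_iff a

section

variable {A : ValuationSubring K} {φ : A →+* κ} (hφ : KerMax A φ)
include hφ

lemma rd_eq_zero_iff {x : K} (hx : x ∈ A) : rd A φ x = 0 ↔ A.valuation x < 1 := by
  rw [rd_of_mem hx]; exact hφ ⟨x, hx⟩

lemma rd_eq_zero_of_lt {x : K} (hx : A.valuation x < 1) : rd A φ x = 0 :=
  (rd_eq_zero_iff hφ (mem_of_val_le hx.le)).mpr hx

lemma rd_ne_zero_iff {x : K} (hx : x ∈ A) : rd A φ x ≠ 0 ↔ A.valuation x = 1 := by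
  rw [Ne, rd_eq_zero_iff hφ hx, not_lt]
  exact ⟨fun h => le_antisymm (val_le_of_mem hx) h, fun h => h.ge⟩

lemma rd_eq_iff {x y : K} (hx : x ∈ A) (hy : y ∈ A) :
    rd A φ x = rd A φ y ↔ A.valuation (x - y) < 1 := by
  rw [← rd_eq_zero_iff hφ (A.sub_mem hx hy), rd_sub hx hy, sub_eq_zero]

omit hφ in
lemma rd_inv {x : K} (hx : A.valuation x = 1) : rd A φ x⁻¹ = (rd A φ x)⁻¹ := by
  have hxA : x ∈ A := mem_of_val_le hx.le
  have hiA : x⁻¹ ∈ A := inv_mem_of_val_eq_one hx
  have hx0 : x ≠ 0 := by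
    rintro rfl; rw [map_zero] at hx; exact zero_ne_one hx
  have h1 : rd A φ x * rd A φ x⁻¹ = 1 := by
    rw [← rd_mul hxA hiA, mul_inv_cancel₀ hx0, rd_one]
  exact eq_inv_of_mul_eq_one_right h1

omit hφ in
lemma rd_div {x y : K} (hx : x ∈ A) (hy : A.valuation y = 1) :
    rd A φ (x / y) = rd A φ x / rd A φ y := by
  rw [div_eq_mul_inv, rd_mul hx (inv_mem_of_val_eq_one hy), rd_inv hy, div_eq_mul_inv]

end

end Fermat.Agent.Lib.Red.H290

end
-- ===== PACK-END Lib/Red/H290/RedElt.lean

-- ===== PACK-BEGIN S54/FrobLift.lean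
section


set_option autoImplicit false
set_option linter.style.haveILetI false

open scoped Pointwise

namespace Fermat.Agent.S54

/-- The absolute Galois group acts continuously on the (discrete) ring of all algebraic
integers. -/
theorem continuousSMul_integralClosure :
    letI : TopologicalSpace (integralClosure ℤ (AlgebraicClosure ℚ)) := ⊥
    ContinuousSMul (AlgebraicClosure ℚ ≃ₐ[ℚ] AlgebraicClosure ℚ)
      (integralClosure ℤ (AlgebraicClosure ℚ)) := by
  letI : TopologicalSpace (integralClosure ℤ (AlgebraicClosure ℚ)) := ⊥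
  haveI : DiscreteTopology (integralClosure ℤ (AlgebraicClosure ℚ)) := ⟨rfl⟩
  haveI : Algebra.IsAlgebraic ℚ (AlgebraicClosure ℚ) := AlgebraicClosure.isAlgebraic ℚ
  refine ⟨?_⟩
  rw [continuous_prod_of_discrete_right]
  intro b
  rw [continuous_discrete_rng]
  intro c
  rw [isOpen_iff_mem_nhds]
  intro g hg
  let E : IntermediateField ℚ (AlgebraicClosure ℚ) :=
    IntermediateField.adjoin ℚ {(b : AlgebraicClosure ℚ)}
  haveI : FiniteDimensional ℚ E :=
    IntermediateField.adjoin.finiteDimensional (Algebra.IsIntegral.isIntegral _)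
  have hopen : IsOpen ((g • (E.fixingSubgroup : Set (AlgebraicClosure ℚ ≃ₐ[ℚ] AlgebraicClosure ℚ)))) :=
    (E.fixingSubgroup_isOpen).smul g
  refine Filter.mem_of_superset (hopen.mem_nhds ⟨1, one_mem _, by simp⟩) ?_
  rintro _ ⟨h, hh, rfl⟩
  simp only [Set.mem_preimage, Set.mem_singleton_iff] at hg ⊢
  rw [← hg]
  apply Subtype.ext
  have hb : h (b : AlgebraicClosure ℚ) = b := by
    have := (IntermediateField.mem_fixingSubgroup_iff E h).mp hh b
      (IntermediateField.subset_adjoin ℚ _ (Set.mem_singleton _))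
    exact this
  show (g * h) (b : AlgebraicClosure ℚ) = g (b : AlgebraicClosure ℚ)
  rw [AlgEquiv.mul_apply, hb]

/-- `ℚ̄/ℚ` is Galois. -/
theorem isGalois_algebraicClosure_rat : IsGalois ℚ (AlgebraicClosure ℚ) := by
  haveI : Algebra.IsAlgebraic ℚ (AlgebraicClosure ℚ) := AlgebraicClosure.isAlgebraic ℚ
  haveI : IsAlgClosure ℚ (AlgebraicClosure ℚ) := ⟨inferInstance, inferInstance⟩
  haveI : Normal ℚ (AlgebraicClosure ℚ) := IsAlgClosure.normal ℚ (AlgebraicClosure ℚ)
  exact isGalois_iff.mpr ⟨inferInstance, inferInstance⟩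

/-- The algebraic integers fixed by the whole absolute Galois group are the rational
integers. -/
theorem isInvariant_integralClosure :
    Algebra.IsInvariant ℤ (integralClosure ℤ (AlgebraicClosure ℚ))
      (AlgebraicClosure ℚ ≃ₐ[ℚ] AlgebraicClosure ℚ) := by
  haveI := isGalois_algebraicClosure_rat
  refine ⟨fun b hb => ?_⟩
  have hfix : (b : AlgebraicClosure ℚ) ∈
      IntermediateField.fixedField (⊤ : Subgroup (AlgebraicClosure ℚ ≃ₐ[ℚ] AlgebraicClosure ℚ)) := by
    rintro ⟨g, -⟩
    exact congrArg Subtype.val (hb g)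
  rw [InfiniteGalois.fixedField_bot, IntermediateField.mem_bot] at hfix
  obtain ⟨q, hq⟩ := hfix
  have hint : IsIntegral ℤ (b : AlgebraicClosure ℚ) := b.2
  rw [← hq, isIntegral_algebraMap_iff (FaithfulSMul.algebraMap_injective ℚ (AlgebraicClosure ℚ))]
    at hint
  obtain ⟨n, hn⟩ := IsIntegrallyClosed.algebraMap_eq_of_integral hint
  refine ⟨n, Subtype.ext ?_⟩
  rw [← hq, ← hn]
  simp

/-- Existence of Frobenius lifts on the ring of all algebraic integers: for every prime ideal
`Q` of `ℤ̄` containing the prime number `ℓ` there is `σ ∈ Gal(ℚ̄/ℚ)` stabilising `Q` and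
inducing `x ↦ x ^ ℓ` on `ℤ̄ / Q`. -/
theorem exists_frob_integralClosure (ℓ : ℕ) (hℓ : ℓ.Prime)
    (Q : Ideal (integralClosure ℤ (AlgebraicClosure ℚ))) [Q.IsPrime]
    (hQ : (ℓ : integralClosure ℤ (AlgebraicClosure ℚ)) ∈ Q) :
    ∃ σ : AlgebraicClosure ℚ ≃ₐ[ℚ] AlgebraicClosure ℚ,
      σ • Q = Q ∧
      ∀ x : integralClosure ℤ (AlgebraicClosure ℚ), σ • x - x ^ ℓ ∈ Q := by
  haveI := isGalois_algebraicClosure_rat
  haveI : Algebra.IsAlgebraic ℚ (AlgebraicClosure ℚ) := AlgebraicClosure.isAlgebraic ℚ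
  letI : TopologicalSpace (integralClosure ℤ (AlgebraicClosure ℚ)) := ⊥
  haveI : DiscreteTopology (integralClosure ℤ (AlgebraicClosure ℚ)) := ⟨rfl⟩
  haveI := continuousSMul_integralClosure
  haveI := isInvariant_integralClosure
  haveI hℓfact : Fact ℓ.Prime := ⟨hℓ⟩
  -- the prime `P = (ℓ)` of `ℤ`
  let P : Ideal ℤ := Ideal.span {(ℓ : ℤ)}
  haveI hPmax : P.IsMaximal :=
    PrincipalIdealRing.isMaximal_of_irreducible
      (Nat.prime_iff_prime_int.mp hℓ).irreducible
  haveI hlies : Q.LiesOver P := by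
    refine ⟨?_⟩
    have hle : P ≤ Q.under ℤ := by
      rw [Ideal.span_le, Set.singleton_subset_iff]
      show algebraMap ℤ (integralClosure ℤ (AlgebraicClosure ℚ)) (ℓ : ℤ) ∈ Q
      simpa using hQ
    have hne : Q.under ℤ ≠ ⊤ := (Ideal.IsPrime.under ℤ Q).ne_top
    exact (hPmax.eq_of_le hne hle)
  -- characteristic of the quotient
  haveI : IsDomain (integralClosure ℤ (AlgebraicClosure ℚ) ⧸ Q) := Ideal.Quotient.isDomain Q
  have hzero : ((ℓ : ℕ) : integralClosure ℤ (AlgebraicClosure ℚ) ⧸ Q) = 0 := by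
    have : (Ideal.Quotient.mk Q) (ℓ : integralClosure ℤ (AlgebraicClosure ℚ)) = 0 :=
      Ideal.Quotient.eq_zero_iff_mem.mpr hQ
    simpa using this
  haveI hchar : CharP (integralClosure ℤ (AlgebraicClosure ℚ) ⧸ Q) ℓ :=
    (CharP.charP_iff_prime_eq_zero hℓ).mpr hzero
  -- the Frobenius as an algebra automorphism
  let f : (integralClosure ℤ (AlgebraicClosure ℚ) ⧸ Q) →ₐ[ℤ ⧸ P]
      (integralClosure ℤ (AlgebraicClosure ℚ) ⧸ Q) :=
    { toRingHom := frobenius (integralClosure ℤ (AlgebraicClosure ℚ) ⧸ Q) ℓ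
      commutes' := by
        intro y
        obtain ⟨n, rfl⟩ := Ideal.Quotient.mk_surjective y
        show frobenius _ ℓ (algebraMap (ℤ ⧸ P) _ (Ideal.Quotient.mk P n)) =
          algebraMap (ℤ ⧸ P) _ (Ideal.Quotient.mk P n)
        have h1 : algebraMap (ℤ ⧸ P) (integralClosure ℤ (AlgebraicClosure ℚ) ⧸ Q)
            (Ideal.Quotient.mk P n) = ((n : ℤ) : integralClosure ℤ (AlgebraicClosure ℚ) ⧸ Q) := by
          rw [← Ideal.Quotient.algebraMap_eq, ← IsScalarTower.algebraMap_apply]
          simp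
        rw [h1, map_intCast] }
  have hinj : Function.Injective f := frobenius_inj _ ℓ
  have hsurj : Function.Surjective f := by
    intro y
    obtain ⟨b, rfl⟩ := Ideal.Quotient.mk_surjective y
    obtain ⟨c, hc⟩ := IsAlgClosed.exists_pow_nat_eq (b : AlgebraicClosure ℚ) hℓ.pos
    have hcint : IsIntegral ℤ c := by
      have hb : IsIntegral ℤ (c ^ ℓ) := hc ▸ b.2
      exact IsIntegral.of_pow hℓ.pos hb
    refine ⟨Ideal.Quotient.mk Q ⟨c, hcint⟩, ?_⟩
    show frobenius _ ℓ (Ideal.Quotient.mk Q ⟨c, hcint⟩) = _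
    rw [frobenius_def, ← map_pow]
    congr 1
    exact Subtype.ext hc
  let e : (integralClosure ℤ (AlgebraicClosure ℚ) ⧸ Q) ≃ₐ[ℤ ⧸ P]
      (integralClosure ℤ (AlgebraicClosure ℚ) ⧸ Q) :=
    AlgEquiv.ofBijective f ⟨hinj, hsurj⟩
  obtain ⟨σ, hσ⟩ := Ideal.Quotient.stabilizerHom_surjective_of_profinite
    (G := AlgebraicClosure ℚ ≃ₐ[ℚ] AlgebraicClosure ℚ) P Q e
  refine ⟨σ.1, σ.2, fun x => ?_⟩
  have h2 := congrArg (fun t => t (Ideal.Quotient.mk Q x)) hσ
  simp only [Ideal.Quotient.stabilizerHom_apply] at h2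
  have h3 : e (Ideal.Quotient.mk Q x) = Ideal.Quotient.mk Q (x ^ ℓ) := by
    show frobenius _ ℓ (Ideal.Quotient.mk Q x) = _
    rw [frobenius_def, map_pow]
  rw [h3] at h2
  rw [← Ideal.Quotient.eq]
  exact h2

end Fermat.Agent.S54

end
-- ===== PACK-END S54/FrobLift.lean

-- ===== PACK-BEGIN Lib/RR/Defs.lean
section




/-!
# Shared library RR: Riemann's theorem and the Riemann–Roch theorem for function fields

Language: the Prelude's `AlgebraicCurve.Place`, `Divisor`, `riemannRochSpace`, `repartitions`,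
`repartitionsOf`, `principalRepartitions`, `H1`, `genusFF`.

Standing hypotheses (`FF1 K F`): every nonzero function has a divisor of degree `0`
(`HasPrincipalDivisors`), every place has degree one (e.g. `K` algebraically closed and finite
residue fields), there is at least one place, and `F` is finite over `K(x)` for some
transcendental `x`.
-/

set_option autoImplicit false

noncomputable section

open AlgebraicCurve

namespace Fermat.Agent.Lib.RR

variable (K F : Type*) [Field K] [Field F] [Algebra K F]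

/-- Standing hypotheses of the RR library: a function field of one variable over `K`, all of whose
places have degree one. -/
class FF1 : Prop where
  /-- every nonzero function has a divisor, of degree zero -/
  hpd : HasPrincipalDivisors K F
  /-- every place has degree one -/
  deg_eq_one : ∀ v : Place K F, v.deg = 1
  /-- there is a place -/
  nonempty_place : Nonempty (Place K F)
  /-- `F` is a finite extension of a rational function field -/
  exists_finite : ∃ x : F, Transcendental K x ∧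
    FiniteDimensional (IntermediateField.adjoin K {x}) F

variable {K F}

/-- `ℓ(D) = dim_K L(D)`. -/
def ell (D : Divisor K F) : ℕ := Module.finrank K (riemannRochSpace D)

/-- The prime divisor of a place. -/
def prim (v : Place K F) : Divisor K F := Finsupp.single v 1

end Fermat.Agent.Lib.RR

end
end
-- ===== PACK-END Lib/RR/Defs.lean

-- ===== PACK-BEGIN S24/FFBasic.lean
section



/-!
# S24 / FF layer: basic facts on `AlgebraicCurve.Place`

Embedding-free algebraic core (helper804).
-/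

set_option autoImplicit false

namespace Fermat.Agent.S24.FF

open AlgebraicCurve

variable {K F : Type*} [Field K] [Field F] [Algebra K F]

section Basic

variable (v : Place K F)

theorem exists_irreducible_coe :
    ∃ π : v.toValuationSubring, Irreducible π ∧ v.ord (π : F) = 1 := by
  obtain ⟨π, hπ⟩ := IsDiscreteValuationRing.exists_irreducible v.toValuationSubring
  exact ⟨π, hπ, v.ord_coe_irreducible hπ⟩

theorem mem_of_ord_nonneg {f : F} (h : 0 ≤ v.ord f) : f ∈ v.toValuationSubring := by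
  rcases eq_or_ne f 0 with rfl | hf
  · exact zero_mem _
  obtain ⟨π, hπ⟩ := IsDiscreteValuationRing.exists_irreducible v.toValuationSubring
  obtain ⟨u, hu⟩ := v.exists_unit_mul_zpow hf hπ
  rw [hu]
  refine mul_mem (u : v.toValuationSubring).2 ?_
  obtain ⟨n, hn⟩ := Int.eq_ofNat_of_zero_le h
  rw [hn, zpow_natCast]
  exact pow_mem π.2 n

theorem ord_nonneg_of_mem {f : F} (h : f ∈ v.toValuationSubring) : 0 ≤ v.ord f := by
  rcases eq_or_ne f 0 with rfl | hf
  · simp
  by_contra hneg
  rw [not_le] at hneg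
  obtain ⟨π, hπ⟩ := IsDiscreteValuationRing.exists_irreducible v.toValuationSubring
  obtain ⟨u, hu⟩ := v.exists_unit_mul_zpow hf hπ
  have hπF : (π : F) ≠ 0 := by
    simpa [ne_eq, ZeroMemClass.coe_eq_zero] using hπ.ne_zero
  -- `f * π ^ (-ord f) = u`
  obtain ⟨n, hn⟩ := Int.eq_ofNat_of_zero_le (show 0 ≤ -v.ord f - 1 by omega)
  have hord : v.ord f = -((n : ℤ) + 1) := by omega
  have key : f * (π : F) ^ (n + 1) = ((u : v.toValuationSubring) : F) := by
    conv_lhs => rw [hu, hord]
    rw [zpow_neg, mul_assoc, ← zpow_natCast (π : F) (n + 1)]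
    push_cast
    rw [inv_mul_cancel₀ (zpow_ne_zero _ hπF), mul_one]
  have hmem : (⟨f, h⟩ : v.toValuationSubring) * π ^ (n + 1) = (u : v.toValuationSubring) :=
    Subtype.ext (by simpa using key)
  have hunit : IsUnit ((⟨f, h⟩ : v.toValuationSubring) * π ^ (n + 1)) := hmem ▸ u.isUnit
  have := (IsUnit.mul_iff.mp hunit).2
  rw [pow_succ] at this
  exact hπ.not_isUnit (IsUnit.mul_iff.mp this).2

theorem mem_iff_ord_nonneg {f : F} : f ∈ v.toValuationSubring ↔ 0 ≤ v.ord f :=
  ⟨ord_nonneg_of_mem v, mem_of_ord_nonneg v⟩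

theorem ord_algebraMap (a : K) : v.ord (algebraMap K F a) = 0 := by
  rcases eq_or_ne a 0 with rfl | ha
  · simp
  have h1 := ord_nonneg_of_mem v (v.algebraMap_mem' a)
  have h2 := ord_nonneg_of_mem v (v.algebraMap_mem' a⁻¹)
  rw [map_inv₀, v.ord_inv] at h2
  omega

theorem ord_pos_iff_mem_nonunits {f : F} (hf : f ≠ 0) :
    0 < v.ord f ↔ f ∈ v.toValuationSubring.nonunits := by
  rw [ValuationSubring.mem_nonunits_iff_exists_mem_maximalIdeal]
  constructor
  · intro h
    refine ⟨mem_of_ord_nonneg v h.le, ?_⟩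
    rw [IsLocalRing.mem_maximalIdeal, mem_nonunits_iff]
    intro hu
    have := v.ord_coe_unit hu.unit
    simp only [IsUnit.unit_spec] at this
    omega
  · rintro ⟨hmem, hmax⟩
    have h0 := ord_nonneg_of_mem v hmem
    rcases h0.lt_or_eq with h | h
    · exact h
    exfalso
    have hinv : f⁻¹ ∈ v.toValuationSubring := mem_of_ord_nonneg v (by rw [v.ord_inv]; omega)
    rw [IsLocalRing.mem_maximalIdeal, mem_nonunits_iff] at hmax
    apply hmax
    refine IsUnit.of_mul_eq_one (⟨f⁻¹, hinv⟩ : v.toValuationSubring) (Subtype.ext ?_)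
    simp [hf]

theorem ord_add_ge {f g : F} (hfg : f + g ≠ 0) :
    min (v.ord f) (v.ord g) ≤ v.ord (f + g) := by
  rcases eq_or_ne f 0 with rfl | hf
  · simp
  rcases eq_or_ne g 0 with rfl | hg
  · simp
  obtain ⟨π, hπ⟩ := IsDiscreteValuationRing.exists_irreducible v.toValuationSubring
  have hπF : (π : F) ≠ 0 := by
    simpa [ne_eq, ZeroMemClass.coe_eq_zero] using hπ.ne_zero
  set m := min (v.ord f) (v.ord g) with hm
  have hf' : (π : F) ^ (-m) * f ∈ v.toValuationSubring := by
    apply mem_of_ord_nonneg v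
    rw [v.ord_mul (zpow_ne_zero _ hπF) hf, v.ord_zpow, v.ord_coe_irreducible hπ]
    have := min_le_left (v.ord f) (v.ord g)
    omega
  have hg' : (π : F) ^ (-m) * g ∈ v.toValuationSubring := by
    apply mem_of_ord_nonneg v
    rw [v.ord_mul (zpow_ne_zero _ hπF) hg, v.ord_zpow, v.ord_coe_irreducible hπ]
    have := min_le_right (v.ord f) (v.ord g)
    omega
  have hsum := ord_nonneg_of_mem v (add_mem hf' hg')
  rw [← mul_add, v.ord_mul (zpow_ne_zero _ hπF) hfg, v.ord_zpow, v.ord_coe_irreducible hπ] at hsum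
  omega

end Basic

end Fermat.Agent.S24.FF

end
-- ===== PACK-END S24/FFBasic.lean

-- ===== PACK-BEGIN S24/Inf/Twist.lean
section



/-!
# S24 / MOD-INF — formal operations on Laurent series

* `infTwist u` : the ring endomorphism `∑ aₙ zⁿ ↦ ∑ aₙ uⁿ zⁿ` of `LaurentSeries R` (`u` a unit);
* order / leading coefficient of `infTwist u φ` and of `ModularCurve.qExpand R e φ`.
-/

set_option autoImplicit false

noncomputable section

open HahnSeries ModularCurve

namespace Fermat.Agent.S24

section General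

variable {R : Type*} [CommRing R]

/-- A Hahn series over `ℤ` whose coefficients below `n` vanish and whose `n`-th coefficient is
nonzero has order `n`. -/
theorem inf_order_eq_of_coeff {x : LaurentSeries R} {n : ℤ} (hn : x.coeff n ≠ 0)
    (hlt : ∀ m < n, x.coeff m = 0) : x.order = n := by
  apply le_antisymm (order_le_of_coeff_ne_zero hn)
  by_contra h
  rw [not_le] at h
  have hx : x ≠ 0 := ne_zero_of_coeff_ne_zero hn
  exact (coeff_order_eq_zero.not.mpr hx) (hlt _ h)

theorem inf_leadingCoeff_eq_of_coeff {x : LaurentSeries R} {n : ℤ} (hn : x.coeff n ≠ 0)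
    (hlt : ∀ m < n, x.coeff m = 0) : x.leadingCoeff = x.coeff n := by
  rw [leadingCoeff_eq, inf_order_eq_of_coeff hn hlt]

/-- The underlying function of the twist. -/
def infTwistFun (u : Rˣ) (x : LaurentSeries R) : LaurentSeries R where
  coeff n := x.coeff n * ((u ^ n : Rˣ) : R)
  isPWO_support' := x.isPWO_support.mono (fun n hn => by
    simp only [Function.mem_support, ne_eq] at hn
    rw [mem_support]
    intro h
    exact hn (by rw [h, zero_mul]))

@[simp]
theorem infTwistFun_coeff (u : Rˣ) (x : LaurentSeries R) (n : ℤ) :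
    (infTwistFun u x).coeff n = x.coeff n * ((u ^ n : Rˣ) : R) := rfl

theorem infTwistFun_support (u : Rˣ) (x : LaurentSeries R) :
    (infTwistFun u x).support = x.support := by
  ext n
  simp only [mem_support, infTwistFun_coeff, ne_eq]
  constructor
  · intro h h0
    exact h (by rw [h0, zero_mul])
  · intro h h0
    exact h ((Units.mul_left_eq_zero _).mp h0)

/-- The twist `∑ aₙ zⁿ ↦ ∑ aₙ uⁿ zⁿ` as a ring homomorphism. -/
def infTwist (u : Rˣ) : LaurentSeries R →+* LaurentSeries R where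
  toFun := infTwistFun u
  map_zero' := by
    ext n
    simp
  map_one' := by
    ext n
    simp only [infTwistFun_coeff, coeff_one]
    split_ifs with h
    · subst h
      simp
    · simp
  map_add' x y := by
    ext n
    simp [add_mul]
  map_mul' x y := by
    ext n
    simp only [infTwistFun_coeff, coeff_mul]
    rw [Finset.sum_mul]
    refine Finset.sum_congr ?_ ?_
    · ext ij
      simp only [Finset.mem_antidiagonal, infTwistFun_support]
    · intro ij hij
      have h : ij.1 + ij.2 = n := (Finset.mem_antidiagonal.mp hij).2.2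
      rw [← h, zpow_add, Units.val_mul]
      ring

@[simp]
theorem infTwist_coeff (u : Rˣ) (x : LaurentSeries R) (n : ℤ) :
    (infTwist u x).coeff n = x.coeff n * ((u ^ n : Rˣ) : R) := rfl

theorem infTwist_support (u : Rˣ) (x : LaurentSeries R) :
    (infTwist u x).support = x.support := infTwistFun_support u x

theorem infTwist_eq_zero_iff (u : Rˣ) (x : LaurentSeries R) : infTwist u x = 0 ↔ x = 0 := by
  rw [← support_eq_empty_iff, infTwist_support, support_eq_empty_iff]

theorem infTwist_injective (u : Rˣ) : Function.Injective (infTwist (R := R) u) :=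
  (injective_iff_map_eq_zero _).mpr fun x hx => (infTwist_eq_zero_iff u x).mp hx

@[simp]
theorem infTwist_one (x : LaurentSeries R) : infTwist (1 : Rˣ) x = x := by
  ext n
  simp

theorem infTwist_mul (u v : Rˣ) (x : LaurentSeries R) :
    infTwist (u * v) x = infTwist u (infTwist v x) := by
  ext n
  simp only [infTwist_coeff, mul_zpow, Units.val_mul]
  ring

@[simp]
theorem infTwist_single (u : Rˣ) (k : ℤ) (r : R) :
    infTwist u (single k r) = single k (r * ((u ^ k : Rˣ) : R)) := by
  ext n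
  rcases eq_or_ne n k with rfl | hn
  · simp
  · simp [coeff_single_of_ne hn]

@[simp]
theorem infTwist_C (u : Rˣ) (r : R) : infTwist u (HahnSeries.C r) = HahnSeries.C r := by
  rw [C_apply, infTwist_single]
  simp

theorem infTwist_order (u : Rˣ) (x : LaurentSeries R) : (infTwist u x).order = x.order := by
  rcases eq_or_ne x 0 with rfl | hx
  · simp
  · refine inf_order_eq_of_coeff ?_ ?_
    · rw [infTwist_coeff]
      intro h
      exact (coeff_order_eq_zero.not.mpr hx) ((Units.mul_left_eq_zero _).mp h)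
    · intro m hm
      rw [infTwist_coeff, coeff_eq_zero_of_lt_order hm, zero_mul]

theorem infTwist_leadingCoeff (u : Rˣ) (x : LaurentSeries R) :
    (infTwist u x).leadingCoeff = x.leadingCoeff * ((u ^ x.order : Rˣ) : R) := by
  rw [leadingCoeff_eq, leadingCoeff_eq, infTwist_order, infTwist_coeff]

end General

section QExpand

variable {R : Type*} [CommRing R] (e : ℕ) [NeZero e]

theorem inf_qExpand_eq_zero_iff (x : LaurentSeries R) : qExpand R e x = 0 ↔ x = 0 :=
  ⟨fun h => qExpand_injective e (by rw [h, _root_.map_zero]), fun h => by rw [h, _root_.map_zero]⟩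

theorem inf_qExpand_order (x : LaurentSeries R) :
    (qExpand R e x).order = (e : ℤ) * x.order := by
  rcases eq_or_ne x 0 with rfl | hx
  · simp
  · have he : (0 : ℤ) < e := by exact_mod_cast Nat.pos_of_ne_zero (NeZero.ne e)
    refine inf_order_eq_of_coeff ?_ ?_
    · rw [qExpand_coeff_mul]
      exact coeff_order_eq_zero.not.mpr hx
    · intro m hm
      by_cases hdvd : (e : ℤ) ∣ m
      · obtain ⟨k, rfl⟩ := hdvd
        rw [qExpand_coeff_mul]
        exact coeff_eq_zero_of_lt_order (lt_of_mul_lt_mul_left hm he.le)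
      · exact qExpand_coeff_of_not_dvd e x hdvd

theorem inf_qExpand_leadingCoeff (x : LaurentSeries R) :
    (qExpand R e x).leadingCoeff = x.leadingCoeff := by
  rw [leadingCoeff_eq, leadingCoeff_eq, inf_qExpand_order, qExpand_coeff_mul]

end QExpand

section CoeffMap

variable {R S : Type*} [CommRing R] [CommRing S]

theorem inf_coeffMap_injective {f : R →+* S} (hf : Function.Injective f) :
    Function.Injective (coeffMap f) := by
  intro x y h
  ext n
  apply hf
  have := congrArg (fun z => z.coeff n) h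
  simpa using this

theorem inf_coeffMap_order {f : R →+* S} (hf : Function.Injective f) (x : LaurentSeries R) :
    (coeffMap f x).order = x.order := by
  rcases eq_or_ne x 0 with rfl | hx
  · simp
  · refine inf_order_eq_of_coeff ?_ ?_
    · rw [coeffMap_coeff]
      intro h
      exact (coeff_order_eq_zero.not.mpr hx) (hf (by rw [h, _root_.map_zero]))
    · intro m hm
      rw [coeffMap_coeff, coeff_eq_zero_of_lt_order hm, _root_.map_zero]

theorem inf_coeffMap_leadingCoeff {f : R →+* S} (hf : Function.Injective f)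
    (x : LaurentSeries R) : (coeffMap f x).leadingCoeff = f x.leadingCoeff := by
  rw [leadingCoeff_eq, leadingCoeff_eq, inf_coeffMap_order hf, coeffMap_coeff]

end CoeffMap

end Fermat.Agent.S24

end
end
-- ===== PACK-END S24/Inf/Twist.lean

-- ===== PACK-BEGIN S24/H504/PlaceOrd.lean
section



/-!
# Extra API for `AlgebraicCurve.Place.ord`
-/

set_option autoImplicit false

open IsDedekindDomain WithZero

namespace Fermat.Agent.S24.H504

open AlgebraicCurve

variable {K F : Type*} [Field K] [Field F] [Algebra K F] (v : Place K F)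

theorem adicValuation_eq_exp_neg_ord {f : F} (hf : f ≠ 0) :
    v.adicValuation f = exp (-(v.ord f)) := by
  have h := v.adicValuation_ne_zero hf
  rw [Place.ord, neg_neg, WithZero.exp_log h]

theorem ord_le_ord_iff {f g : F} (hf : f ≠ 0) (hg : g ≠ 0) :
    v.ord f ≤ v.ord g ↔ v.adicValuation g ≤ v.adicValuation f := by
  rw [adicValuation_eq_exp_neg_ord v hf, adicValuation_eq_exp_neg_ord v hg, WithZero.exp_le_exp]
  omega

theorem ord_add_ge {f g : F} (hf : f ≠ 0) (hg : g ≠ 0) (hfg : f + g ≠ 0) :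
    min (v.ord f) (v.ord g) ≤ v.ord (f + g) := by
  have h := v.adicValuation.map_add f g
  rcases le_max_iff.mp h with h1 | h1
  · exact (min_le_left _ _).trans ((ord_le_ord_iff v hf hfg).mpr h1)
  · exact (min_le_right _ _).trans ((ord_le_ord_iff v hg hfg).mpr h1)

theorem mem_iff_adicValuation_le_one (f : F) :
    f ∈ v.toValuationSubring ↔ v.adicValuation f ≤ 1 := by
  constructor
  · intro hf
    have := v.heightOneSpectrum.valuation_le_one (K := F) (⟨f, hf⟩ : v.toValuationSubring)
    simpa [Place.adicValuation] using this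
  · intro hf
    obtain ⟨a, ha⟩ := IsDiscreteValuationRing.exists_lift_of_le_one (A := v.toValuationSubring)
      (K := F) (x := f) hf
    rw [← ha]
    exact a.2

theorem mem_iff_ord_nonneg {f : F} (hf : f ≠ 0) :
    f ∈ v.toValuationSubring ↔ 0 ≤ v.ord f := by
  rw [mem_iff_adicValuation_le_one, adicValuation_eq_exp_neg_ord v hf,
    ← WithZero.exp_zero, WithZero.exp_le_exp]
  omega

/-- Membership in the valuation ring, with no side condition (`ord 0 = 0`). -/
theorem mem_iff_ord_nonneg' (f : F) :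
    f ∈ v.toValuationSubring ↔ 0 ≤ v.ord f := by
  rcases eq_or_ne f 0 with rfl | hf
  · simp [v.toValuationSubring.zero_mem]
  · exact mem_iff_ord_nonneg v hf

theorem ord_neg (f : F) : v.ord (-f) = v.ord f := by
  simp [Place.ord, Valuation.map_neg]

theorem ord_algebraMap (c : K) : v.ord (algebraMap K F c) = 0 := by
  rcases eq_or_ne c 0 with rfl | hc
  · simp
  have h1 : (0 : ℤ) ≤ v.ord (algebraMap K F c) :=
    (mem_iff_ord_nonneg' v _).mp (v.algebraMap_mem' c)
  have h2 : (0 : ℤ) ≤ v.ord (algebraMap K F c⁻¹) :=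
    (mem_iff_ord_nonneg' v _).mp (v.algebraMap_mem' c⁻¹)
  rw [map_inv₀, Place.ord_inv] at h2
  omega

theorem ord_pow (f : F) (n : ℕ) : v.ord (f ^ n) = n * v.ord f := by
  have := v.ord_zpow f n
  simpa using this

theorem ord_div {f g : F} (hf : f ≠ 0) (hg : g ≠ 0) : v.ord (f / g) = v.ord f - v.ord g := by
  rw [div_eq_mul_inv, v.ord_mul hf (inv_ne_zero hg), Place.ord_inv]
  ring

theorem ord_sub_ge {f g : F} (hf : f ≠ 0) (hg : g ≠ 0) (hfg : f - g ≠ 0) :
    min (v.ord f) (v.ord g) ≤ v.ord (f - g) := by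
  have := ord_add_ge v hf (neg_ne_zero.mpr hg) (by rwa [← sub_eq_add_neg])
  rwa [_root_.Fermat.Agent.S24.H504.ord_neg, ← sub_eq_add_neg] at this

theorem ord_add_eq_of_lt {f g : F} (hf : f ≠ 0) (hg : g ≠ 0) (h : v.ord f < v.ord g) :
    v.ord (f + g) = v.ord f := by
  have hfg : f + g ≠ 0 := by
    intro h0
    have : g = -f := by linear_combination h0
    rw [this, _root_.Fermat.Agent.S24.H504.ord_neg] at h
    exact lt_irrefl _ h
  have h1 := ord_add_ge v hf hg hfg
  rw [min_eq_left h.le] at h1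
  by_contra hne
  have h2 : v.ord f < v.ord (f + g) := lt_of_le_of_ne h1 (Ne.symm hne)
  have h3 := ord_sub_ge v hfg hg (by simpa using hf)
  rw [add_sub_cancel_right] at h3
  have := lt_min h2 h
  omega

theorem exists_ord_eq_one : ∃ ϖ : F, v.ord ϖ = 1 := by
  obtain ⟨π, hπ⟩ := IsDiscreteValuationRing.exists_irreducible v.toValuationSubring
  exact ⟨π, v.ord_coe_irreducible hπ⟩

theorem ne_zero_of_ord_ne_zero {f : F} (h : v.ord f ≠ 0) : f ≠ 0 := by
  rintro rfl
  simp at h

/-- The sum of two elements of positive order has positive order or is zero. -/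
theorem ord_add_pos {f g : F} (hf : f = 0 ∨ 0 < v.ord f) (hg : g = 0 ∨ 0 < v.ord g) :
    f + g = 0 ∨ 0 < v.ord (f + g) := by
  rcases hf with rfl | hf
  · simpa using hg
  rcases hg with rfl | hg
  · right; simpa using hf
  by_cases h0 : f + g = 0
  · exact Or.inl h0
  right
  have := ord_add_ge v (ne_zero_of_ord_ne_zero v hf.ne') (ne_zero_of_ord_ne_zero v hg.ne') h0
  exact lt_of_lt_of_le (lt_min hf hg) this

/-- A finite sum of elements of nonnegative order has nonnegative order. -/
theorem ord_add_nonneg {f g : F} (hf : 0 ≤ v.ord f) (hg : 0 ≤ v.ord g) :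
    0 ≤ v.ord (f + g) := by
  rw [← mem_iff_ord_nonneg'] at *
  exact v.toValuationSubring.add_mem _ _ hf hg

theorem ord_mul_nonneg {f g : F} (hf : 0 ≤ v.ord f) (hg : 0 ≤ v.ord g) :
    0 ≤ v.ord (f * g) := by
  rw [← mem_iff_ord_nonneg'] at *
  exact v.toValuationSubring.mul_mem _ _ hf hg

theorem ord_sum_nonneg {ι : Type*} (s : Finset ι) (f : ι → F) (h : ∀ i ∈ s, 0 ≤ v.ord (f i)) :
    0 ≤ v.ord (∑ i ∈ s, f i) := by
  rw [← mem_iff_ord_nonneg']
  exact Subring.sum_mem v.toValuationSubring.toSubring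
    fun i hi => (mem_iff_ord_nonneg' v _).mpr (h i hi)

end Fermat.Agent.S24.H504

end
-- ===== PACK-END S24/H504/PlaceOrd.lean

-- ===== PACK-BEGIN S29/H812/Tower.lean
section


/-!
# S29 / H812 — degree of `F'` over `K(x)` for `x ∈ F ⊆ F'`
-/

set_option autoImplicit false

noncomputable section

open IntermediateField

namespace Fermat.Agent.S29.H812

variable {K F F' : Type*} [Field K] [Field F] [Field F']
  [Algebra K F] [Algebra K F'] [Algebra F F'] [IsScalarTower K F F']

/-- `[F' : K(x')] = [F : K(x)] · [F' : F]` for `x' = algebraMap F F' x`. -/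
theorem finrank_adjoin_algebraMap (x : F) :
    Module.finrank K⟮algebraMap F F' x⟯ F' = Module.finrank K⟮x⟯ F * Module.finrank F F' := by
  haveI : IsScalarTower K⟮x⟯ F F' := inferInstance
  rw [Module.finrank_mul_finrank K⟮x⟯ F F']
  set f : F →ₐ[K] F' := IsScalarTower.toAlgHom K F F' with hf
  have hmap : (K⟮x⟯).map f = K⟮algebraMap F F' x⟯ := by
    rw [IntermediateField.adjoin_map, Set.image_singleton]
    rfl
  have h1 : Module.finrank K⟮algebraMap F F' x⟯ F' = Module.finrank ((K⟮x⟯).map f) F' :=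
    congrArg (fun E : IntermediateField K F' => Module.finrank E F') hmap.symm
  rw [h1]
  symm
  refine Algebra.finrank_eq_of_equiv_equiv
    ((IntermediateField.equivMap K⟮x⟯ f).toRingEquiv) (RingEquiv.refl F') ?_
  ext c
  rfl

theorem finiteDimensional_adjoin_algebraMap (x : F) [FiniteDimensional K⟮x⟯ F]
    [FiniteDimensional F F'] : FiniteDimensional K⟮algebraMap F F' x⟯ F' := by
  apply Module.finite_of_finrank_pos
  rw [finrank_adjoin_algebraMap]
  exact Nat.mul_pos Module.finrank_pos Module.finrank_pos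

theorem transcendental_algebraMap_of {x : F} (hx : Transcendental K x) :
    Transcendental K (algebraMap F F' x) :=
  (transcendental_algebraMap_iff (algebraMap F F').injective).mpr hx

/-- If `F'` is finite over `K(φ x)` with `φ x` in the image of `F`, then `F'` is finite over `F`. -/
theorem finite_of_finite_adjoin_algebraMap (x : F)
    [h : FiniteDimensional K⟮algebraMap F F' x⟯ F'] : Module.Finite F F' := by
  obtain ⟨s, hs⟩ := (Module.finite_def.mp h)
  refine Module.finite_def.mpr ⟨s, ?_⟩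
  rw [eq_top_iff]
  rintro y -
  have hy : y ∈ Submodule.span K⟮algebraMap F F' x⟯ (s : Set F') := by rw [hs]; trivial
  have hle : K⟮algebraMap F F' x⟯ ≤ (IsScalarTower.toAlgHom K F F').fieldRange := by
    rw [IntermediateField.adjoin_le_iff]
    rintro _ rfl
    exact ⟨x, rfl⟩
  induction hy using Submodule.span_induction with
  | mem z hz => exact Submodule.subset_span hz
  | zero => exact zero_mem _
  | add a b _ _ ha hb => exact add_mem ha hb
  | smul c z _ hz =>
    obtain ⟨c₀, hc₀⟩ := hle c.2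
    have : c • z = c₀ • z := by
      rw [Algebra.smul_def, Algebra.smul_def]
      congr 1
      exact hc₀.symm
    rw [this]
    exact Submodule.smul_mem _ _ hz

end Fermat.Agent.S29.H812

end
end
-- ===== PACK-END S29/H812/Tower.lean

-- ===== PACK-BEGIN S28/H807/Section.lean
section
/-
S28 / helper807 — formal `p`-sections of Laurent series and the section matrix.

For `f ∈ R((T))` and `p ≥ 1`, the *section matrix* `secMat p f ∈ Mat_p(R((q)))` is the matrix of
multiplication by `f` on `R((T))`, seen as a free module over `R((T^p)) = V_p(R((q)))` with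
basis `1, T, …, T^{p-1}`.  Main result (`secMat_charpoly_eval`): the characteristic polynomial
of `secMat p f`, with coefficients pushed along `V_p = qExpand p`, kills `f`.
-/




set_option autoImplicit false

noncomputable section

open ModularCurve HahnSeries Polynomial Matrix

namespace Fermat.Agent.S28.H807

variable {R : Type*} [CommRing R]

/-- The `r`-th `p`-section `∑ₘ f_{pm+r} qᵐ` of a Laurent series `f`. -/
def secL (p : ℕ) [NeZero p] (r : ℤ) (f : LaurentSeries R) : LaurentSeries R :=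
  HahnSeries.ofSuppBddBelow (fun m : ℤ => f.coeff ((p : ℤ) * m + r))
    (HahnSeries.forallLTEqZero_supp_BddBelow _ ((f.order - r) / (p : ℤ)) (by
      intro m hm
      apply HahnSeries.coeff_eq_zero_of_lt_order
      have hp : (0 : ℤ) < (p : ℤ) := by exact_mod_cast Nat.pos_of_ne_zero (NeZero.ne p)
      have h1 : m + 1 ≤ (f.order - r) / (p : ℤ) := hm
      have h2 : (m + 1) * (p : ℤ) ≤ f.order - r := (Int.le_ediv_iff_mul_le hp).mp h1
      nlinarith))

@[simp]
theorem secL_coeff (p : ℕ) [NeZero p] (r : ℤ) (f : LaurentSeries R) (m : ℤ) :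
    (secL p r f).coeff m = f.coeff ((p : ℤ) * m + r) := by
  simp [secL]

theorem secL_coeffMap {S : Type*} [CommRing S] (φ : R →+* S) (p : ℕ) [NeZero p] (r : ℤ)
    (f : LaurentSeries R) : secL p r (coeffMap φ f) = coeffMap φ (secL p r f) := by
  ext m
  simp

/-- The section matrix of `f`: entry `(i', i)` is the `(i' - i)`-th section. -/
def secMat (p : ℕ) [NeZero p] (f : LaurentSeries R) :
    Matrix (Fin p) (Fin p) (LaurentSeries R) :=
  fun i' i => secL p ((i' : ℤ) - (i : ℤ)) f

theorem secMat_apply (p : ℕ) [NeZero p] (f : LaurentSeries R) (i' i : Fin p) :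
    secMat p f i' i = secL p ((i' : ℤ) - (i : ℤ)) f := rfl

theorem secMat_coeffMap {S : Type*} [CommRing S] (φ : R →+* S) (p : ℕ) [NeZero p]
    (f : LaurentSeries R) :
    secMat p (coeffMap φ f) = (secMat p f).map (coeffMap φ) := by
  ext i' i : 2
  simp [secMat_apply, Matrix.map_apply, secL_coeffMap]

/-- Key identity: `f · Tⁱ = ∑_{i'} V_p(M_{i',i}) · T^{i'}`. -/
theorem mul_single_eq_sum_secMat (p : ℕ) [NeZero p] (f : LaurentSeries R) (i : Fin p) :
    f * HahnSeries.single ((i : ℕ) : ℤ) (1 : R) =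
      ∑ i' : Fin p, qExpand R p (secMat p f i' i) * HahnSeries.single ((i' : ℕ) : ℤ) (1 : R) := by
  have hp : (0 : ℤ) < (p : ℤ) := by exact_mod_cast Nat.pos_of_ne_zero (NeZero.ne p)
  ext n
  rw [HahnSeries.coeff_mul_single, mul_one, HahnSeries.coeff_sum]
  -- the unique index i' with p ∣ n - i'
  have hlt : (n % (p : ℤ)).toNat < p := by
    have h1 : n % (p : ℤ) < p := Int.emod_lt_of_pos n hp
    have h0 : 0 ≤ n % (p : ℤ) := Int.emod_nonneg n hp.ne'
    omega
  set i0 : Fin p := ⟨(n % (p : ℤ)).toNat, hlt⟩ with hi0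
  have hi0v : ((i0 : ℕ) : ℤ) = n % (p : ℤ) := by
    simp only [hi0]
    exact Int.toNat_of_nonneg (Int.emod_nonneg n hp.ne')
  rw [Finset.sum_eq_single i0]
  · rw [HahnSeries.coeff_mul_single, mul_one]
    have hdvd : n - ((i0 : ℕ) : ℤ) = (p : ℤ) * (n / (p : ℤ)) := by
      rw [hi0v]; have := Int.emod_add_mul_ediv n (p : ℤ); linarith
    rw [hdvd, qExpand_coeff_mul, secMat_apply, secL_coeff]
    congr 1
    rw [← hdvd]; ring
  · intro i' _ hne
    rw [HahnSeries.coeff_mul_single, mul_one]
    apply qExpand_coeff_of_not_dvd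
    intro hdvd
    apply hne
    apply Fin.ext
    have h1 : n % (p : ℤ) = ((i' : ℕ) : ℤ) % (p : ℤ) := by
      have := (Int.emod_emod_of_dvd n (dvd_refl (p : ℤ)))
      exact (Int.emod_eq_emod_iff_emod_sub_eq_zero).mpr (Int.emod_eq_zero_of_dvd hdvd)
    have h2 : ((i' : ℕ) : ℤ) % (p : ℤ) = ((i' : ℕ) : ℤ) :=
      Int.emod_eq_of_lt (by positivity) (by exact_mod_cast i'.2)
    have h3 : ((i0 : ℕ) : ℤ) = ((i' : ℕ) : ℤ) := by rw [hi0v, h1, h2]
    exact_mod_cast h3.symm
  · intro h; exact absurd (Finset.mem_univ _) h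

/-- **Lemma F1** (Cayley–Hamilton for the section matrix): the characteristic polynomial of
`secMat p f`, with coefficients pushed along `V_p`, kills `f`. -/
theorem secMat_charpoly_eval (p : ℕ) [NeZero p] (f : LaurentSeries R) :
    (((secMat p f).charpoly).map (qExpand R p)).eval f = 0 := by
  set A : Matrix (Fin p) (Fin p) (LaurentSeries R) := (secMat p f).map (qExpand R p) with hA
  set v : Fin p → LaurentSeries R := fun i => HahnSeries.single ((i : ℕ) : ℤ) (1 : R) with hv
  set B : Matrix (Fin p) (Fin p) (LaurentSeries R) := Matrix.scalar (Fin p) f - Aᵀ with hB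
  have hBv : B *ᵥ v = 0 := by
    funext i
    simp only [hB, Matrix.sub_mulVec, Pi.sub_apply, Pi.zero_apply]
    rw [sub_eq_zero]
    have h1 : (Matrix.scalar (Fin p) f *ᵥ v) i = f * v i := by
      simp [Matrix.scalar_apply, Matrix.mulVec, dotProduct, Matrix.diagonal_apply]
    rw [h1]
    simp only [Matrix.mulVec, dotProduct, Matrix.transpose_apply, hA, Matrix.map_apply, hv]
    exact mul_single_eq_sum_secMat p f i
  have hdet : B.det • v = 0 := by
    have h : (Matrix.adjugate B * B) *ᵥ v = (B.det • (1 : Matrix (Fin p) (Fin p) _)) *ᵥ v := by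
      rw [Matrix.adjugate_mul]
    rw [← Matrix.mulVec_mulVec, hBv, Matrix.mulVec_zero] at h
    rw [Matrix.smul_mulVec, Matrix.one_mulVec] at h
    exact h.symm
  have h0 : B.det * v ⟨0, Nat.pos_of_ne_zero (NeZero.ne p)⟩ = 0 := by
    have := congrFun hdet ⟨0, Nat.pos_of_ne_zero (NeZero.ne p)⟩
    simpa using this
  have hv0 : v ⟨0, Nat.pos_of_ne_zero (NeZero.ne p)⟩ = 1 := by
    simp only [hv]
    rfl
  rw [hv0, mul_one] at h0
  rw [← Matrix.charpoly_map, ← hA, ← Matrix.charpoly_transpose, Matrix.eval_charpoly]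
  exact h0

end Fermat.Agent.S28.H807

end

end
-- ===== PACK-END S28/H807/Section.lean

-- ===== PACK-BEGIN S28/H685/QDict.lean
section


/-!
# S28 helper (helper685): dictionary between convergent `q`-series and functions on `ℍ`

`HasQExp h f A` : the function `f : ℍ → ℂ` is, at every point `τ`, the sum of the power
series `A` evaluated at `q = exp (2 π i τ / h)`.

Closure under ring operations, uniqueness of the coefficients, holomorphy, boundedness at `i∞`,
and closure under inverses.
-/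

set_option autoImplicit false

namespace Fermat.Agent.S28.H685

open UpperHalfPlane Function Complex Filter
open scoped Topology Manifold

noncomputable section

local notation "𝕢" => Periodic.qParam

/-- `f` is the sum of the power series `A` in the parameter `q = exp (2 π i τ / h)`. -/
def HasQExp (h : ℝ) (f : ℍ → ℂ) (A : PowerSeries ℂ) : Prop :=
  ∀ τ : ℍ, HasSum (fun n : ℕ => PowerSeries.coeff n A * 𝕢 h τ ^ n) (f τ)

namespace HasQExp

variable {h : ℝ} {f g : ℍ → ℂ} {A B : PowerSeries ℂ}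

theorem congr_fun (hf : HasQExp h f A) (hfg : ∀ τ, f τ = g τ) : HasQExp h g A :=
  fun τ => hfg τ ▸ hf τ

theorem zero : HasQExp h (fun _ => 0) 0 := fun τ => by
  simp [hasSum_zero]

theorem add (hf : HasQExp h f A) (hg : HasQExp h g B) :
    HasQExp h (fun τ => f τ + g τ) (A + B) := fun τ => by
  simpa [add_mul] using (hf τ).add (hg τ)

theorem neg (hf : HasQExp h f A) : HasQExp h (fun τ => -f τ) (-A) := fun τ => by
  simpa using (hf τ).neg

theorem sub (hf : HasQExp h f A) (hg : HasQExp h g B) :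
    HasQExp h (fun τ => f τ - g τ) (A - B) := fun τ => by
  simpa [sub_mul] using (hf τ).sub (hg τ)

theorem const_mul (c : ℂ) (hf : HasQExp h f A) :
    HasQExp h (fun τ => c * f τ) (PowerSeries.C c * A) := fun τ => by
  simpa [mul_assoc] using (hf τ).mul_left c

theorem const (c : ℂ) : HasQExp h (fun _ => c) (PowerSeries.C c) := fun τ => by
  have h0 : ∀ n : ℕ, n ≠ 0 → PowerSeries.coeff n (PowerSeries.C c) * 𝕢 h τ ^ n = 0 := by
    intro n hn
    simp [PowerSeries.coeff_C, hn]
  have := hasSum_single (f := fun n : ℕ => PowerSeries.coeff n (PowerSeries.C c) * 𝕢 h τ ^ n) 0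
    (fun n hn => h0 n hn)
  simpa using this

theorem one : HasQExp h (fun _ => 1) 1 := by
  simpa using const (h := h) 1

theorem X : HasQExp h (fun τ => 𝕢 h τ) PowerSeries.X := fun τ => by
  have h0 : ∀ n : ℕ, n ≠ 1 → PowerSeries.coeff n (PowerSeries.X : PowerSeries ℂ) * 𝕢 h τ ^ n = 0 := by
    intro n hn
    simp [PowerSeries.coeff_X, hn]
  have := hasSum_single (f := fun n : ℕ => PowerSeries.coeff n (PowerSeries.X : PowerSeries ℂ)
    * 𝕢 h τ ^ n) 1 (fun n hn => h0 n hn)
  simpa using this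

theorem summable_norm (hf : HasQExp h f A) (τ : ℍ) :
    Summable (fun n : ℕ => ‖PowerSeries.coeff n A * 𝕢 h τ ^ n‖) :=
  (hf τ).summable.norm

theorem mul (hf : HasQExp h f A) (hg : HasQExp h g B) :
    HasQExp h (fun τ => f τ * g τ) (A * B) := fun τ => by
  have h1 := hf.summable_norm τ
  have h2 := hg.summable_norm τ
  have hs := summable_norm_sum_mul_antidiagonal_of_summable_norm h1 h2
  have ht := tsum_mul_tsum_eq_tsum_sum_antidiagonal_of_summable_norm h1 h2
  rw [(hf τ).tsum_eq, (hg τ).tsum_eq] at ht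
  have hterm : ∀ n : ℕ, PowerSeries.coeff n (A * B) * 𝕢 h τ ^ n =
      ∑ kl ∈ Finset.HasAntidiagonal.antidiagonal n, (PowerSeries.coeff kl.1 A * 𝕢 h τ ^ kl.1) *
        (PowerSeries.coeff kl.2 B * 𝕢 h τ ^ kl.2) := by
    intro n
    rw [PowerSeries.coeff_mul, Finset.sum_mul]
    refine Finset.sum_congr rfl fun kl hkl => ?_
    have : kl.1 + kl.2 = n := Finset.HasAntidiagonal.mem_antidiagonal.mp hkl
    rw [← this, pow_add]
    ring
  simp_rw [hterm]
  rw [ht]
  exact hs.of_norm.hasSum

theorem pow (hf : HasQExp h f A) (n : ℕ) : HasQExp h (fun τ => f τ ^ n) (A ^ n) := by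
  induction n with
  | zero => simpa using one (h := h)
  | succ n ih => simpa [pow_succ] using ih.mul hf

theorem finset_sum {ι : Type*} (s : Finset ι) (F : ι → ℍ → ℂ) (P : ι → PowerSeries ℂ)
    (hF : ∀ i ∈ s, HasQExp h (F i) (P i)) :
    HasQExp h (fun τ => ∑ i ∈ s, F i τ) (∑ i ∈ s, P i) := by
  classical
  induction s using Finset.induction_on with
  | empty => simpa using zero (h := h)
  | insert a s ha ih =>
    simp only [Finset.sum_insert ha]
    exact (hF a (Finset.mem_insert_self a s)).add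
      (ih fun i hi => hF i (Finset.mem_insert_of_mem hi))

theorem finset_prod {ι : Type*} (s : Finset ι) (F : ι → ℍ → ℂ) (P : ι → PowerSeries ℂ)
    (hF : ∀ i ∈ s, HasQExp h (F i) (P i)) :
    HasQExp h (fun τ => ∏ i ∈ s, F i τ) (∏ i ∈ s, P i) := by
  classical
  induction s using Finset.induction_on with
  | empty => simpa using one (h := h)
  | insert a s ha ih =>
    simp only [Finset.prod_insert ha]
    exact (hF a (Finset.mem_insert_self a s)).mul
      (ih fun i hi => hF i (Finset.mem_insert_of_mem hi))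

end HasQExp

/-! ### Analytic consequences -/

/-- The formal multilinear series attached to a power series. -/
def pser (A : PowerSeries ℂ) : FormalMultilinearSeries ℂ ℂ ℂ :=
  .ofScalars ℂ fun n => PowerSeries.coeff n A

/-- The sum of the power series `A`, as a function on `ℂ`. -/
def psum (A : PowerSeries ℂ) : ℂ → ℂ := (pser A).sum

theorem pser_apply (A : PowerSeries ℂ) (n : ℕ) (q : ℂ) :
    (pser A n fun _ => q) = PowerSeries.coeff n A * q ^ n := by
  simp [pser, mul_comm]

theorem pser_norm (A : PowerSeries ℂ) (n : ℕ) : ‖pser A n‖ = ‖PowerSeries.coeff n A‖ := by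
  simp [pser]

theorem pser_coeff (A : PowerSeries ℂ) (n : ℕ) : (pser A).coeff n = PowerSeries.coeff n A := by
  simp [pser, FormalMultilinearSeries.coeff_ofScalars]

theorem pser_injective : Function.Injective pser := by
  intro A B hAB
  ext n
  rw [← pser_coeff A, ← pser_coeff B, hAB]

/-- Every point of the punctured unit disc is `𝕢 h τ` for some `τ`. -/
theorem exists_qParam_eq {h : ℝ} (hh : 0 < h) {q : ℂ} (hq : ‖q‖ < 1) (hq0 : q ≠ 0) :
    ∃ τ : ℍ, 𝕢 h τ = q :=
  ⟨⟨Periodic.invQParam h q, Periodic.im_invQParam_pos_of_norm_lt_one hh hq hq0⟩,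
    Periodic.qParam_right_inv hh.ne' hq0⟩

/-- Summability of `A` at every point of the open unit disc implies radius at least one. -/
theorem one_le_radius_of_summable (A : PowerSeries ℂ)
    (hA : ∀ q : ℂ, ‖q‖ < 1 → Summable fun n : ℕ => PowerSeries.coeff n A * q ^ n) :
    1 ≤ (pser A).radius := by
  refine le_of_forall_lt_imp_le_of_dense fun r hr => ?_
  lift r to NNReal using hr.ne_top
  apply FormalMultilinearSeries.le_radius_of_summable
  have h1 : ‖((r : ℝ) : ℂ)‖ < 1 := by
    simpa using hr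
  have h2 := (hA (r : ℝ) h1).norm
  refine h2.congr fun n => ?_
  rw [pser_norm, norm_mul, norm_pow, Complex.norm_real, Real.norm_of_nonneg r.coe_nonneg]

theorem eball_zero_one : Metric.eball (0 : ℂ) 1 = Metric.ball 0 1 := by
  rw [← ENNReal.coe_one, Metric.eball_coe, NNReal.coe_one]

theorem hasFPowerSeriesOnBall_psum (A : PowerSeries ℂ) (hA : 1 ≤ (pser A).radius) :
    HasFPowerSeriesOnBall (psum A) (pser A) 0 1 :=
  ((pser A).hasFPowerSeriesOnBall (lt_of_lt_of_le one_pos hA)).mono one_pos hA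

theorem hasSum_psum (A : PowerSeries ℂ) (hA : 1 ≤ (pser A).radius) {q : ℂ} (hq : ‖q‖ < 1) :
    HasSum (fun n : ℕ => PowerSeries.coeff n A * q ^ n) (psum A q) := by
  have := (hasFPowerSeriesOnBall_psum A hA).hasSum (y := q)
    (by rw [eball_zero_one]; simpa using hq)
  simpa only [pser_apply, zero_add] using this

theorem psum_zero_eq (A : PowerSeries ℂ) (hA : 1 ≤ (pser A).radius) :
    psum A 0 = PowerSeries.coeff 0 A := by
  have h1 := hasSum_psum A hA (q := 0) (by simp)
  have h2 : HasSum (fun n : ℕ => PowerSeries.coeff n A * (0 : ℂ) ^ n) (PowerSeries.coeff 0 A) := by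
    have := hasSum_single (f := fun n : ℕ => PowerSeries.coeff n A * (0 : ℂ) ^ n) 0
      (fun n hn => by simp [hn])
    simpa using this
  exact h1.unique h2

theorem differentiableOn_psum (A : PowerSeries ℂ) (hA : 1 ≤ (pser A).radius) :
    DifferentiableOn ℂ (psum A) (Metric.ball 0 1) := by
  have := (hasFPowerSeriesOnBall_psum A hA).differentiableOn
  rwa [eball_zero_one] at this

/-- If two power series of radius at least one have sums that agree on the punctured disc,
they are equal. -/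
theorem eq_of_psum_eq (A B : PowerSeries ℂ) (hA : 1 ≤ (pser A).radius)
    (hB : 1 ≤ (pser B).radius)
    (hAB : ∀ q : ℂ, ‖q‖ < 1 → q ≠ 0 → psum A q = psum B q) : A = B := by
  have hAa := (hasFPowerSeriesOnBall_psum A hA).hasFPowerSeriesAt
  have hBa := (hasFPowerSeriesOnBall_psum B hB).hasFPowerSeriesAt
  have hne : psum A =ᶠ[𝓝[≠] (0 : ℂ)] psum B := by
    have hball : Metric.ball (0 : ℂ) 1 ∈ 𝓝[≠] (0 : ℂ) :=
      mem_nhdsWithin_of_mem_nhds (Metric.ball_mem_nhds 0 one_pos)
    filter_upwards [hball, self_mem_nhdsWithin] with q hq hq0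
    exact hAB q (by simpa using hq) hq0
  have hnhds : psum A =ᶠ[𝓝 (0 : ℂ)] psum B :=
    (hAa.continuousAt.eventuallyEq_nhds_iff_eventuallyEq_nhdsNE hBa.continuousAt).mp hne
  have hBa' : HasFPowerSeriesAt (psum A) (pser B) 0 := hBa.congr hnhds.symm
  exact pser_injective (hAa.eq_formalMultilinearSeries hBa')

namespace HasQExp

variable {h : ℝ} {f g : ℍ → ℂ} {A B : PowerSeries ℂ}

theorem summable_of_norm_lt (hh : 0 < h) (hf : HasQExp h f A) {q : ℂ} (hq : ‖q‖ < 1) :
    Summable fun n : ℕ => PowerSeries.coeff n A * q ^ n := by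
  rcases eq_or_ne q 0 with rfl | hq0
  · exact (hasSum_single (f := fun n : ℕ => PowerSeries.coeff n A * (0 : ℂ) ^ n) 0
      (fun n hn => by simp [hn])).summable
  · obtain ⟨τ, rfl⟩ := exists_qParam_eq hh hq hq0
    exact (hf τ).summable

theorem one_le_radius (hh : 0 < h) (hf : HasQExp h f A) : 1 ≤ (pser A).radius :=
  one_le_radius_of_summable A fun _ hq => hf.summable_of_norm_lt hh hq

theorem psum_qParam (hh : 0 < h) (hf : HasQExp h f A) (τ : ℍ) : psum A (𝕢 h τ) = f τ :=
  (hasSum_psum A (hf.one_le_radius hh) (Periodic.norm_qParam_lt_one hh τ.im_pos)).unique (hf τ)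

/-- Uniqueness of the coefficients. -/
theorem unique (hh : 0 < h) (hf : HasQExp h f A) (hg : HasQExp h f B) : A = B := by
  refine eq_of_psum_eq A B (hf.one_le_radius hh) (hg.one_le_radius hh) fun q hq hq0 => ?_
  obtain ⟨τ, rfl⟩ := exists_qParam_eq hh hq hq0
  rw [hf.psum_qParam hh, hg.psum_qParam hh]

theorem eq_zero (hh : 0 < h) (hf : HasQExp h (fun _ => 0) A) : A = 0 :=
  hf.unique hh zero

/-- A function given by a convergent `q`-series is holomorphic. -/
theorem mdifferentiable (hh : 0 < h) (hf : HasQExp h f A) : MDiff f := by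
  rw [UpperHalfPlane.mdifferentiable_iff]
  have hd : DifferentiableOn ℂ (fun z : ℂ => psum A (𝕢 h z)) {z | 0 < z.im} := by
    intro z hz
    have h1 : DifferentiableAt ℂ (psum A) (𝕢 h z) :=
      (differentiableOn_psum A (hf.one_le_radius hh)).differentiableAt
        (Metric.isOpen_ball.mem_nhds (by simpa using Periodic.norm_qParam_lt_one hh hz))
    have h2 : DifferentiableAt ℂ (𝕢 h) z := (Periodic.differentiable_qParam).differentiableAt
    exact (h1.comp z h2).differentiableWithinAt
  refine hd.congr fun z hz => ?_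
  simp only [Function.comp_apply]
  rw [ofComplex_apply_of_im_pos hz, ← hf.psum_qParam hh]

/-- A function given by a convergent `q`-series is bounded at `i∞`. -/
theorem isBoundedAtImInfty (hh : 0 < h) (hf : HasQExp h f A) : IsBoundedAtImInfty f :=
  isBoundedAtImInfty_of_hasSum_qExpansion (c := fun n => PowerSeries.coeff n A) hh
    (fun τ => by simpa [smul_eq_mul] using hf τ)

/-- The value at a translate by the period. -/
theorem vadd_period (hh : 0 < h) (hf : HasQExp h f A) (τ : ℍ) (τ' : ℍ) (hτ : (τ' : ℂ) = τ + h) :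
    f τ' = f τ := by
  have hq : 𝕢 h τ' = 𝕢 h τ := by
    rw [hτ]
    simp only [Periodic.qParam]
    rw [show 2 * (Real.pi : ℂ) * Complex.I * ((τ : ℂ) + h) / h =
      2 * Real.pi * Complex.I * τ / h + 2 * Real.pi * Complex.I by
        have : (h : ℂ) ≠ 0 := by exact_mod_cast hh.ne'
        field_simp]
    exact Complex.exp_periodic _
  have := hf τ'
  rw [hq] at this
  exact this.unique (hf τ)

/-- Closure under inverses. -/
theorem inv (hh : 0 < h) (hf : HasQExp h f A) (hf0 : ∀ τ, f τ ≠ 0)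
    (hA0 : PowerSeries.coeff 0 A ≠ 0) : HasQExp h (fun τ => (f τ)⁻¹) A⁻¹ := by
  have hA := hf.one_le_radius hh
  have hne : ∀ q ∈ Metric.ball (0 : ℂ) 1, psum A q ≠ 0 := by
    intro q hq
    have hq' : ‖q‖ < 1 := by simpa using hq
    rcases eq_or_ne q 0 with rfl | hq0
    · rwa [psum_zero_eq A hA]
    · obtain ⟨τ, rfl⟩ := exists_qParam_eq hh hq' hq0
      rw [hf.psum_qParam hh]
      exact hf0 τ
  have hdiff : DifferentiableOn ℂ (fun q => (psum A q)⁻¹) (Metric.ball 0 1) :=
    (differentiableOn_psum A hA).inv hne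
  -- Taylor series of the inverse
  let B : PowerSeries ℂ := PowerSeries.mk fun n =>
    (n.factorial : ℂ)⁻¹ * iteratedDeriv n (fun q => (psum A q)⁻¹) 0
  have hB : HasQExp h (fun τ => (f τ)⁻¹) B := by
    intro τ
    have hq : 𝕢 h τ ∈ Metric.ball (0 : ℂ) 1 := by
      simpa using Periodic.norm_qParam_lt_one hh τ.im_pos
    have := Complex.hasSum_taylorSeries_on_ball hdiff hq
    simp only [sub_zero, smul_eq_mul] at this
    rw [hf.psum_qParam hh] at this
    have hfun : (fun n : ℕ => PowerSeries.coeff n B * 𝕢 h τ ^ n) =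
        fun n : ℕ => ((n.factorial : ℂ))⁻¹ *
          (𝕢 h τ ^ n * iteratedDeriv n (fun q => (psum A q)⁻¹) 0) := by
      funext n
      simp only [B, PowerSeries.coeff_mk]
      ring
    rw [hfun]
    exact this
  have h1 : HasQExp h (fun _ => 1) (A * B) :=
    (hf.mul hB).congr_fun fun τ => mul_inv_cancel₀ (hf0 τ)
  have h2 : A * B = 1 := h1.unique hh one
  have hA0' : PowerSeries.constantCoeff A ≠ 0 := by
    rwa [← PowerSeries.coeff_zero_eq_constantCoeff]
  have h3 : B = A⁻¹ := by
    rw [PowerSeries.eq_inv_iff_mul_eq_one hA0', mul_comm]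
    exact h2
  rw [← h3]
  exact hB

end HasQExp

end

end Fermat.Agent.S28.H685

end
-- ===== PACK-END S28/H685/QDict.lean

-- ===== PACK-BEGIN S20/H872/Coset.lean
section





/-!
# Combinatorics of `SL(2, ℤ) ⧸ Γ₀(N)` — coset criterion and fixed points of `S`, `S * T`

Left cosets, Mathlib left-multiplication action.  Everything is expressed through the
first column `(g 0 0, g 1 0)` of a matrix.
-/

set_option autoImplicit false

open CongruenceSubgroup Matrix.SpecialLinearGroup
open scoped MatrixGroups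

namespace Fermat.Agent.S20.H872

variable {N : ℕ}

/-- Determinant relation of an element of `SL(2, ℤ)`. -/
theorem det_rel (g : SL(2, ℤ)) : g 0 0 * g 1 1 - g 0 1 * g 1 0 = 1 := by
  have h := g.det_coe
  rw [Matrix.det_fin_two] at h
  exact h

/-- The `(1,0)` entry of `g⁻¹ * h`. -/
theorem inv_mul_apply_one_zero (g h : SL(2, ℤ)) :
    (g⁻¹ * h) 1 0 = g 0 0 * h 1 0 - g 1 0 * h 0 0 := by
  have hg : (g⁻¹ : SL(2, ℤ)).1 = !![g 1 1, -g 0 1; -g 1 0, g 0 0] := by
    rw [Matrix.SpecialLinearGroup.coe_inv, Matrix.adjugate_fin_two]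
  have : ((g⁻¹ * h : SL(2, ℤ)) : Matrix (Fin 2) (Fin 2) ℤ) 1 0
      = (-g 1 0) * h 0 0 + g 0 0 * h 1 0 := by
    rw [Matrix.SpecialLinearGroup.coe_mul, hg, Matrix.mul_apply, Fin.sum_univ_two]
    simp
  rw [this]; ring

/-- **Coset criterion** in `ZMod N`. -/
theorem mk_eq_mk_iff (g h : SL(2, ℤ)) :
    (QuotientGroup.mk g : SL(2, ℤ) ⧸ Gamma0 N) = QuotientGroup.mk h ↔
      ((g 0 0 : ℤ) : ZMod N) * ((h 1 0 : ℤ) : ZMod N)
        = ((g 1 0 : ℤ) : ZMod N) * ((h 0 0 : ℤ) : ZMod N) := by
  rw [QuotientGroup.eq, Gamma0_mem, inv_mul_apply_one_zero]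
  push_cast
  exact sub_eq_zero

/-- **Coset criterion**, divisibility form. -/
theorem mk_eq_mk_iff_dvd (g h : SL(2, ℤ)) :
    (QuotientGroup.mk g : SL(2, ℤ) ⧸ Gamma0 N) = QuotientGroup.mk h ↔
      (N : ℤ) ∣ g 0 0 * h 1 0 - g 1 0 * h 0 0 := by
  rw [QuotientGroup.eq, Gamma0_mem, inv_mul_apply_one_zero,
    ZMod.intCast_zmod_eq_zero_iff_dvd]

theorem smul_mk (s g : SL(2, ℤ)) :
    s • (QuotientGroup.mk g : SL(2, ℤ) ⧸ Gamma0 N) = QuotientGroup.mk (s * g) := rfl

/-- First column of `S * g`. -/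
theorem S_mul_apply_zero_zero (g : SL(2, ℤ)) : (ModularGroup.S * g) 0 0 = - g 1 0 := by
  rw [Matrix.SpecialLinearGroup.coe_mul, ModularGroup.coe_S, Matrix.mul_apply, Fin.sum_univ_two]
  simp

theorem S_mul_apply_one_zero (g : SL(2, ℤ)) : (ModularGroup.S * g) 1 0 = g 0 0 := by
  rw [Matrix.SpecialLinearGroup.coe_mul, ModularGroup.coe_S, Matrix.mul_apply, Fin.sum_univ_two]
  simp

/-- First column of `T ^ k * g`. -/
theorem T_zpow_mul_apply_zero_zero (k : ℤ) (g : SL(2, ℤ)) :
    (ModularGroup.T ^ k * g) 0 0 = g 0 0 + k * g 1 0 := by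
  rw [Matrix.SpecialLinearGroup.coe_mul, ModularGroup.coe_T_zpow, Matrix.mul_apply,
    Fin.sum_univ_two]
  simp

theorem T_zpow_mul_apply_one_zero (k : ℤ) (g : SL(2, ℤ)) :
    (ModularGroup.T ^ k * g) 1 0 = g 1 0 := by
  rw [Matrix.SpecialLinearGroup.coe_mul, ModularGroup.coe_T_zpow, Matrix.mul_apply,
    Fin.sum_univ_two]
  simp

/-- First column of `S * T * g`. -/
theorem ST_mul_apply_zero_zero (g : SL(2, ℤ)) :
    (ModularGroup.S * ModularGroup.T * g) 0 0 = - g 1 0 := by
  rw [mul_assoc, S_mul_apply_zero_zero]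
  have := T_zpow_mul_apply_one_zero 1 g
  rw [zpow_one] at this
  rw [this]

theorem ST_mul_apply_one_zero (g : SL(2, ℤ)) :
    (ModularGroup.S * ModularGroup.T * g) 1 0 = g 0 0 + g 1 0 := by
  rw [mul_assoc, S_mul_apply_one_zero]
  have := T_zpow_mul_apply_zero_zero 1 g
  rw [zpow_one] at this
  rw [this]; ring

/-- The lower unipotent matrix `[[1,0],[u,1]]`. -/
def lowerUni (u : ℤ) : SL(2, ℤ) :=
  ⟨!![1, 0; u, 1], by simp [Matrix.det_fin_two_of]⟩

@[simp] theorem lowerUni_apply_zero_zero (u : ℤ) : lowerUni u 0 0 = 1 := rfl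
@[simp] theorem lowerUni_apply_one_zero (u : ℤ) : lowerUni u 1 0 = u := rfl
@[simp] theorem lowerUni_apply_zero_one (u : ℤ) : lowerUni u 0 1 = 0 := rfl
@[simp] theorem lowerUni_apply_one_one (u : ℤ) : lowerUni u 1 1 = 1 := rfl

/-- The coset of `[[1,0],[u,1]]` for `u : ZMod N`. -/
noncomputable def affinePt (N : ℕ) (u : ZMod N) : SL(2, ℤ) ⧸ Gamma0 N :=
  QuotientGroup.mk (lowerUni (ZMod.cast u : ℤ))

theorem mk_eq_affinePt_iff [NeZero N] (g : SL(2, ℤ)) (u : ZMod N) :
    (QuotientGroup.mk g : SL(2, ℤ) ⧸ Gamma0 N) = affinePt N u ↔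
      ((g 0 0 : ℤ) : ZMod N) * u = ((g 1 0 : ℤ) : ZMod N) := by
  rw [affinePt, mk_eq_mk_iff]
  simp

theorem affinePt_injective [NeZero N] : Function.Injective (affinePt N) := by
  intro u v h
  rw [affinePt, mk_eq_affinePt_iff] at h
  simpa using h.symm

theorem S_smul_affinePt_eq_iff [NeZero N] (u : ZMod N) :
    ModularGroup.S • affinePt N u = affinePt N u ↔ u ^ 2 + 1 = 0 := by
  rw [affinePt, smul_mk, ← affinePt, mk_eq_affinePt_iff, S_mul_apply_zero_zero,
    S_mul_apply_one_zero]
  simp only [lowerUni_apply_one_zero, lowerUni_apply_zero_zero, Int.cast_neg, ZMod.intCast_cast,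
    ZMod.cast_id', id_eq, Int.cast_one]
  constructor
  · intro h
    linear_combination -h
  · intro h
    linear_combination -h

theorem ST_smul_affinePt_eq_iff [NeZero N] (u : ZMod N) :
    (ModularGroup.S * ModularGroup.T) • affinePt N u = affinePt N u ↔ u ^ 2 + u + 1 = 0 := by
  rw [affinePt, smul_mk, ← affinePt, mk_eq_affinePt_iff, ST_mul_apply_zero_zero,
    ST_mul_apply_one_zero]
  simp only [lowerUni_apply_one_zero, lowerUni_apply_zero_zero, Int.cast_neg, ZMod.intCast_cast,
    ZMod.cast_id', id_eq, Int.cast_one, Int.cast_add]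
  constructor
  · intro h
    linear_combination -h
  · intro h
    linear_combination -h

/-- If `g 0 0` is a unit mod `N` (with inverse `w`), then the coset of `g` is an affine point. -/
theorem mk_eq_affinePt_of_inv [NeZero N] (g : SL(2, ℤ)) (w : ZMod N)
    (hw : ((g 0 0 : ℤ) : ZMod N) * w = 1) :
    (QuotientGroup.mk g : SL(2, ℤ) ⧸ Gamma0 N) = affinePt N (((g 1 0 : ℤ) : ZMod N) * w) := by
  rw [mk_eq_affinePt_iff]
  linear_combination ((g 1 0 : ℤ) : ZMod N) * hw

theorem det_rel_zmod (g : SL(2, ℤ)) :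
    ((g 0 0 : ℤ) : ZMod N) * ((g 1 1 : ℤ) : ZMod N)
      - ((g 0 1 : ℤ) : ZMod N) * ((g 1 0 : ℤ) : ZMod N) = 1 := by
  have := congrArg (Int.cast : ℤ → ZMod N) (det_rel g)
  push_cast at this
  exact this

/-- A coset fixed by `S` is an affine point. -/
theorem exists_affinePt_of_S_fixed [NeZero N] (x : SL(2, ℤ) ⧸ Gamma0 N)
    (hx : ModularGroup.S • x = x) : ∃ u : ZMod N, x = affinePt N u := by
  induction x using QuotientGroup.induction_on with
  | H g =>
    rw [smul_mk, mk_eq_mk_iff, S_mul_apply_zero_zero, S_mul_apply_one_zero] at hx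
    push_cast at hx
    have hd := det_rel_zmod (N := N) g
    set a : ZMod N := ((g 0 0 : ℤ) : ZMod N)
    set b : ZMod N := ((g 0 1 : ℤ) : ZMod N)
    set c : ZMod N := ((g 1 0 : ℤ) : ZMod N)
    set d : ZMod N := ((g 1 1 : ℤ) : ZMod N)
    refine ⟨c * (a * d ^ 2 - 2 * b * c * d - a * b ^ 2), mk_eq_affinePt_of_inv g _ ?_⟩
    change a * (a * d ^ 2 - 2 * b * c * d - a * b ^ 2) = 1
    linear_combination (a * d - b * c + 1) * hd + b ^ 2 * hx

/-- A coset fixed by `S * T` is an affine point. -/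
theorem exists_affinePt_of_ST_fixed [NeZero N] (x : SL(2, ℤ) ⧸ Gamma0 N)
    (hx : (ModularGroup.S * ModularGroup.T) • x = x) : ∃ u : ZMod N, x = affinePt N u := by
  induction x using QuotientGroup.induction_on with
  | H g =>
    rw [smul_mk, mk_eq_mk_iff, ST_mul_apply_zero_zero, ST_mul_apply_one_zero] at hx
    push_cast at hx
    have hd := det_rel_zmod (N := N) g
    set a : ZMod N := ((g 0 0 : ℤ) : ZMod N)
    set b : ZMod N := ((g 0 1 : ℤ) : ZMod N)
    set c : ZMod N := ((g 1 0 : ℤ) : ZMod N)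
    set d : ZMod N := ((g 1 1 : ℤ) : ZMod N)
    refine ⟨c * (a * d ^ 2 - 2 * b * c * d - b ^ 2 * (a + c)), mk_eq_affinePt_of_inv g _ ?_⟩
    change a * (a * d ^ 2 - 2 * b * c * d - b ^ 2 * (a + c)) = 1
    linear_combination (a * d - b * c + 1) * hd + b ^ 2 * hx

/-- **I2**: the fixed points of `S` on `SL(2, ℤ) ⧸ Γ₀(N)` are counted by `nuTwo N`. -/
theorem card_fixed_S (N : ℕ) [NeZero N] :
    Nat.card {x : SL(2, ℤ) ⧸ Gamma0 N // ModularGroup.S • x = x} = ModularCurve.nuTwo N := by
  rw [ModularCurve.nuTwo]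
  symm
  refine Nat.card_congr (Equiv.ofBijective
    (fun u => ⟨affinePt N u.1, (S_smul_affinePt_eq_iff u.1).2 u.2⟩) ⟨?_, ?_⟩)
  · intro u v h
    exact Subtype.ext (affinePt_injective (congrArg Subtype.val h))
  · rintro ⟨x, hx⟩
    obtain ⟨u, rfl⟩ := exists_affinePt_of_S_fixed x hx
    exact ⟨⟨u, (S_smul_affinePt_eq_iff u).1 hx⟩, rfl⟩

/-- **I3**: the fixed points of `S * T` on `SL(2, ℤ) ⧸ Γ₀(N)` are counted by `nuThree N`. -/
theorem card_fixed_ST (N : ℕ) [NeZero N] :
    Nat.card {x : SL(2, ℤ) ⧸ Gamma0 N // (ModularGroup.S * ModularGroup.T) • x = x}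
      = ModularCurve.nuThree N := by
  rw [ModularCurve.nuThree]
  symm
  refine Nat.card_congr (Equiv.ofBijective
    (fun u => ⟨affinePt N u.1, (ST_smul_affinePt_eq_iff u.1).2 u.2⟩) ⟨?_, ?_⟩)
  · intro u v h
    exact Subtype.ext (affinePt_injective (congrArg Subtype.val h))
  · rintro ⟨x, hx⟩
    obtain ⟨u, rfl⟩ := exists_affinePt_of_ST_fixed x hx
    exact ⟨⟨u, (ST_smul_affinePt_eq_iff u).1 hx⟩, rfl⟩

end Fermat.Agent.S20.H872

end
-- ===== PACK-END S20/H872/Coset.lean

-- ===== PACK-BEGIN S28/H868/Interface.lean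
section




/-!
# S28 (Igusa) -- shared interface between the analytic side and the algebraic core

`ModFunPackage N` is the ONLY thing the decomposition-group core needs from the analytic theory.
Everything is phrased with formal Laurent series in `t = q^{1/N}` with complex coefficients.
-/

set_option autoImplicit false

noncomputable section

namespace Fermat.Agent.S28

open ModularCurve HahnSeries

theorem coeff_mul_both' {R : Type*} [CommRing R] {x y : LaurentSeries R} {a : ℤ} {s t : Set ℤ}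
    (hs : s.IsPWO) (ht : t.IsPWO) (hxs : x.support ⊆ s) (hyt : y.support ⊆ t) :
    (x * y).coeff a =
      ∑ ij ∈ Finset.antidiagonal hs ht a, x.coeff ij.fst * y.coeff ij.snd := by
  rw [HahnSeries.coeff_mul_left' hs hxs]
  refine Finset.sum_subset (Finset.antidiagonal_mono_right hyt) ?_
  intro ij hij hnot
  have hj : ij.2 ∉ y.support := by
    intro hj
    apply hnot
    rw [Finset.mem_antidiagonal] at hij ⊢
    exact ⟨hij.1, hj, hij.2.2⟩
  simp only [HahnSeries.mem_support, not_not] at hj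
  rw [hj, mul_zero]

/-- underlying function of `twist` -/
def twistFun {R : Type*} [CommRing R] (c : Rˣ) (φ : LaurentSeries R) : LaurentSeries R :=
  HahnSeries.ofSuppBddBelow (fun n : ℤ => ((c ^ n : Rˣ) : R) * φ.coeff n)
    ⟨φ.order, fun m hm => by
      by_contra h
      exact hm (by simp [HahnSeries.coeff_eq_zero_of_lt_order (not_le.mp h)])⟩

@[simp] theorem twistFun_coeff {R : Type*} [CommRing R] (c : Rˣ) (φ : LaurentSeries R) (n : ℤ) :
    (twistFun c φ).coeff n = ((c ^ n : Rˣ) : R) * φ.coeff n := rfl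

theorem twistFun_support {R : Type*} [CommRing R] (c : Rˣ) (φ : LaurentSeries R) :
    (twistFun c φ).support ⊆ φ.support := by
  intro m hm
  simp only [HahnSeries.mem_support, twistFun_coeff] at hm ⊢
  intro h0
  exact hm (by rw [h0, mul_zero])

/-- The substitution `t ↦ c t` on Laurent series, for a unit `c`:
`(twist c φ).coeff n = c ^ n * φ.coeff n`. -/
def twist {R : Type*} [CommRing R] (c : Rˣ) : LaurentSeries R →+* LaurentSeries R where
  toFun := twistFun c
  map_zero' := by ext n; simp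
  map_one' := by
    ext n
    by_cases h : n = 0
    · subst h; simp
    · simp [HahnSeries.coeff_one, h]
  map_add' φ ψ := by ext n; simp [mul_add]
  map_mul' φ ψ := by
    ext n
    rw [coeff_mul_both' φ.isPWO_support ψ.isPWO_support (twistFun_support c φ)
      (twistFun_support c ψ)]
    simp only [twistFun_coeff, HahnSeries.coeff_mul, Finset.mul_sum]
    refine Finset.sum_congr rfl ?_
    intro ij hij
    rw [Finset.mem_antidiagonal] at hij
    rw [← hij.2.2, zpow_add, Units.val_mul]
    ring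

@[simp] theorem twist_coeff {R : Type*} [CommRing R] (c : Rˣ) (φ : LaurentSeries R) (n : ℤ) :
    (twist c φ).coeff n = ((c ^ n : Rˣ) : R) * φ.coeff n := rfl

/-- The embedding `ℚ((q)) → ℂ((t))`, `q ↦ t ^ N` (so `t = q^{1/N}`). -/
def iotaN (N : ℕ) [NeZero N] : LaurentSeries ℚ →+* LaurentSeries ℂ :=
  (qExpand ℂ N).comp (coeffMap (algebraMap ℚ ℂ))

/-- The formal discriminant `Δ = q ∏ (1 - q^n)^24 ∈ ℚ((q))`. -/
def deltaq : LaurentSeries ℚ :=
  HahnSeries.single (1 : ℤ) 1 *
    HahnSeries.ofPowerSeries ℤ ℚ (dedekindEtaUnit.map (Int.castRingHom ℚ))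

/-- The formal modular unit `u_d = Δ(q^d) / Δ(q) ∈ ℚ((q))`. -/
def unitq (d : ℕ) [NeZero d] : LaurentSeries ℚ := qExpand ℚ d deltaq / deltaq

open scoped MatrixGroups

/-- **The analytic package.**  A finite family of Laurent series in `t = q^{1/N}` (in practice: the
`j(ζ_δ^b t^{aN/δ})` and `δ^{-12} Δ(ζ_δ^b t^{aN/δ}) / Δ(t^N)`, i.e. the expansions of
`J((aτ+b)/δ)` and of `δ^{-12} Δ((aτ+b)/δ)/Δ(τ)`), permuted by `SL(2,ℤ)`, such that polynomial
relations are preserved and invariant polynomial expressions are polynomials in `j`. -/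
structure ModFunPackage (N : ℕ) [NeZero N] where
  /-- index type of the generators -/
  ι : Type
  fin : Fintype ι
  /-- the generators, as Laurent series in `t = q^{1/N}` -/
  gen : ι → LaurentSeries ℂ
  /-- the (left) action of `SL(2,ℤ)` on the indices -/
  perm : SL(2, ℤ) →* Equiv.Perm ι
  /-- polynomial relations between the generators are preserved by the action -/
  rel : ∀ (γ : SL(2, ℤ)) (p : MvPolynomial ι ℂ),
    MvPolynomial.aeval gen p = 0 → MvPolynomial.aeval (gen ∘ perm γ) p = 0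
  /-- invariant polynomial expressions in the generators are polynomials in `j` -/
  inv : ∀ p : MvPolynomial ι ℂ,
    (∀ γ : SL(2, ℤ), MvPolynomial.aeval (gen ∘ perm γ) p = MvPolynomial.aeval gen p) →
      MvPolynomial.aeval gen p ∈ Algebra.adjoin ℂ {iotaN N jq}
  /-- the coefficients of the generators lie in `ℤ[ζ_N, 1/N]` -/
  coeff_mem : ∀ (i : ι) (n : ℤ), (gen i).coeff n ∈
    Subring.closure ({Complex.exp (2 * Real.pi * Complex.I / N), (N : ℂ)⁻¹} : Set ℂ)
  /-- the translation `T` acts through `t ↦ c t` for some `N`-th root of unity `c` -/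
  twistUnit : ℂˣ
  twistUnit_pow : twistUnit ^ N = 1
  perm_T : ∀ i : ι, gen (perm ModularGroup.T i) = twist twistUnit (gen i)
  /-- the index of `j(q^d)`, `d ∣ N` -/
  idxJ : ∀ (d : ℕ) [NeZero d], d ∣ N → ι
  gen_idxJ : ∀ (d : ℕ) [NeZero d] (hd : d ∣ N), gen (idxJ d hd) = iotaN N (qExpand ℚ d jq)
  fixJ : ∀ (d : ℕ) [NeZero d] (hd : d ∣ N), ∀ γ ∈ CongruenceSubgroup.Gamma0 N,
    perm γ (idxJ d hd) = idxJ d hd
  /-- the index of the modular unit `u_p = Δ(q^p)/Δ(q)`, `p ∣ N` prime -/
  idxU : ∀ (p : ℕ) [NeZero p], p.Prime → p ∣ N → ι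
  gen_idxU : ∀ (p : ℕ) [NeZero p] (hp : p.Prime) (hpN : p ∣ N),
    gen (idxU p hp hpN) = iotaN N (unitq p)
  fixU : ∀ (p : ℕ) [NeZero p] (hp : p.Prime) (hpN : p ∣ N), ∀ γ ∈ CongruenceSubgroup.Gamma0 p,
    perm γ (idxU p hp hpN) = idxU p hp hpN

end Fermat.Agent.S28

end
end
-- ===== PACK-END S28/H868/Interface.lean

-- ===== PACK-BEGIN S15/H208/LocPSpec.lean
section
/-
S15 / DESC, LOC-p without T7 (helper208): the interface of the leaf T6'' (owner helper608).

`T6ppStatement N q m` : for every inertia element `τ` at a place over `q` and every `x ∈ J₀(N)(ℚ̄)`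
such that `m • x` is RATIONAL (fixed by the absolute Galois group of `ℚ`), `(τ - 1)² x = 0`.
(The wall A2, `A2.Spec.Target N q m`, is the special case `m • x = 0`.)
Consumed by `H208.CountInst` at `N = q = p`, `m = r ^ k`.
-/



set_option autoImplicit false

namespace Fermat.Agent.S15.H208

open ModularCurve

/-- `(τ - 1)² x = 0` for all `x ∈ J₀(N)` with `m • x` rational. -/
def T6ppAt (N m : ℕ) (τ : AlgebraicClosure ℚ ≃ₐ[ℚ] AlgebraicClosure ℚ) : Prop :=
  ∀ x : JZero N,
    (∀ σ : AlgebraicClosure ℚ ≃ₐ[ℚ] AlgebraicClosure ℚ, σ • (m • x) = m • x) →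
    τ • (τ • x) + x = 2 • (τ • x)

/-- **T6''** : `T6ppAt N m τ` for every inertia element `τ` at a place over `q`. -/
def T6ppStatement (N q m : ℕ) : Prop :=
  ∀ P : ValuationSubring (AlgebraicClosure ℚ), P.LiesOverPrime q →
    ∀ τ ∈ P.inertiaSubgroupIn ℚ, T6ppAt N m τ

end Fermat.Agent.S15.H208

end
-- ===== PACK-END S15/H208/LocPSpec.lean

-- ===== PACK-BEGIN S15/H842/Engine.lean
section


/-!
# S15 / DESC — ENGINE (blueprint v3, sec. 1), abstract form      (helper842)

Pure group theory, Mathlib only.  `Γ` acts on the additive commutative group `J` by additive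
automorphisms.  For a subgroup `F ≤ J` put

  `cocSub Γ F := {y : ∀ s, s • y - y ∈ F}`          ("the Kummer cocycle of `y` takes values in `F`").

So `cocSub Γ ⊥ = J^Γ` (= `A` of the blueprint), and for a `Γ`-stable finite `W_E ≤ J[r]`,
`cocSub Γ W_E = Y_E`, `cocSub Γ (F i) = Y_i` (the condition `r y ∈ A` is automatic).

For a flag `F 0 ≤ F 1 ≤ … ≤ F D = W` of `Γ`-stable subgroups the ENGINE is the EXACT formula

  `(∏_{i<D} sel i) * [W ⊓ cocSub (F 0) : F 0] = [cocSub W : cocSub (F 0) ⊔ W] * ∏_{i<D} pG i`,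

* `sel i = [cocSub (F (i+1)) : cocSub (F i) ⊔ F (i+1)]`   (`= |Sel_i|`: the map `y ↦ [c_y mod F i]`
  into `H¹(Γ, F (i+1) / F i)` has kernel `cocSub (F i) ⊔ F (i+1)`, see `mem_cocSub_sup_iff`),
* `pG i = [F (i+1) ⊓ cocSub (F i) : F i]`                (`= |(F (i+1) / F i)^Γ| = |P_i^Γ|`).

With `F 0 = ⊥` this is `|Y_E / (A + W_E)| * ∏ |P_i^Γ| = |W_E^Γ| * ∏ |Sel_i|` (`engine_bot`).
All indices are `AddSubgroup.relIndex` (value `0` = infinite), and the identity holds without any
finiteness hypothesis.  `engine_le` is the inequality form used by ALG0 / (SEL):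
`sel i ≤ r ^ a i`, `r ^ b i ≤ pG i` ⟹ the total index is finite and
`[Y_E : A + W_E] * r ^ (∑ b) ≤ |W_E^Γ| * r ^ (∑ a)`.

Auxiliary: `relIndex_le_of_forall_sub_mem` (bound an index by the size of a set of invariants),
`pG_eq_relIndex_of_trivial`, `pG_eq_one_of_nontrivial` (the two values of `|P_i^Γ|`).
-/

set_option autoImplicit false

namespace Fermat.Agent.S15.H842.Engine

open scoped BigOperators

section Defs

variable (Γ : Type*) [Group Γ] {J : Type*} [AddCommGroup J] [DistribMulAction Γ J]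

/-- The points `y` of `J` whose Kummer cocycle `s ↦ s • y - y` takes values in `F`. -/
def cocSub (F : AddSubgroup J) : AddSubgroup J where
  carrier := {y | ∀ s : Γ, s • y - y ∈ F}
  zero_mem' := by
    intro s
    simp
  add_mem' := by
    intro a b ha hb s
    have h : s • (a + b) - (a + b) = (s • a - a) + (s • b - b) := by
      rw [smul_add]; abel
    rw [h]
    exact F.add_mem (ha s) (hb s)
  neg_mem' := by
    intro a ha s
    have h : s • (-a) - (-a) = -(s • a - a) := by
      rw [smul_neg]; abel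
    rw [h]
    exact F.neg_mem (ha s)

/-- `F` is stable under `Γ`. -/
def IsStable (F : AddSubgroup J) : Prop := ∀ (s : Γ) (f : J), f ∈ F → s • f ∈ F

end Defs

section Basic

variable {Γ : Type*} [Group Γ] {J : Type*} [AddCommGroup J] [DistribMulAction Γ J]

theorem mem_cocSub {F : AddSubgroup J} {y : J} :
    y ∈ cocSub Γ F ↔ ∀ s : Γ, s • y - y ∈ F := Iff.rfl

theorem mem_cocSub_bot {y : J} : y ∈ cocSub Γ (⊥ : AddSubgroup J) ↔ ∀ s : Γ, s • y = y := by
  rw [mem_cocSub]
  constructor
  · intro h s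
    have := h s
    rw [AddSubgroup.mem_bot, sub_eq_zero] at this
    exact this
  · intro h s
    rw [AddSubgroup.mem_bot, sub_eq_zero]
    exact h s

theorem cocSub_mono {F F' : AddSubgroup J} (h : F ≤ F') : cocSub Γ F ≤ cocSub Γ F' :=
  fun _ hy s => h (hy s)

theorem le_cocSub_of_isStable {F : AddSubgroup J} (hF : IsStable Γ F) : F ≤ cocSub Γ F :=
  fun f hf s => F.sub_mem (hF s f hf) hf

theorem isStable_bot : IsStable Γ (⊥ : AddSubgroup J) := by
  intro s f hf
  rw [AddSubgroup.mem_bot] at hf ⊢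
  rw [hf, smul_zero]

/-- The kernel of `y ↦ [c_y mod F₀] ∈ H¹(Γ, F₁ / F₀)` on `cocSub Γ F₁` is `cocSub Γ F₀ ⊔ F₁`:
`y` lies in it iff its cocycle is, modulo `F₀`, the coboundary of some `f ∈ F₁`. -/
theorem mem_cocSub_sup_iff {F₀ F₁ : AddSubgroup J} {y : J} :
    y ∈ cocSub Γ F₀ ⊔ F₁ ↔ ∃ f ∈ F₁, ∀ s : Γ, (s • y - y) - (s • f - f) ∈ F₀ := by
  rw [AddSubgroup.mem_sup]
  constructor
  · rintro ⟨a, ha, f, hf, rfl⟩
    refine ⟨f, hf, fun s => ?_⟩
    have h : (s • (a + f) - (a + f)) - (s • f - f) = s • a - a := by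
      rw [smul_add]; abel
    rw [h]
    exact ha s
  · rintro ⟨f, hf, h⟩
    refine ⟨y - f, fun s => ?_, f, hf, by abel⟩
    have h' : s • (y - f) - (y - f) = (s • y - y) - (s • f - f) := by
      rw [smul_sub]; abel
    rw [h']
    exact h s

end Basic

/-! ## Index bookkeeping in an abelian group -/

section Index

variable {J : Type*} [AddCommGroup J]

/-- second isomorphism theorem + modular law: `[L ⊔ M : K ⊔ M] = [L : K ⊔ (M ⊓ L)]` for `K ≤ L`. -/
theorem relIndex_sup_sup (K L M : AddSubgroup J) (hKL : K ≤ L) :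
    (K ⊔ M).relIndex (L ⊔ M) = (K ⊔ M ⊓ L).relIndex L := by
  have h1 : L ⊔ M = L ⊔ (K ⊔ M) := by
    rw [← sup_assoc, sup_eq_left.2 hKL]
  have h2 : (K ⊔ M) ⊓ L = K ⊔ M ⊓ L := sup_inf_assoc_of_le M hKL
  rw [h1, AddSubgroup.relIndex_sup_right, ← AddSubgroup.inf_relIndex_right, h2]

/-- An index is bounded by the number of values of any invariant separating the cosets. -/
theorem relIndex_le_of_forall_sub_mem {S : Type*} [Finite S] (H K : AddSubgroup J) (κ : J → S)
    (hκ : ∀ y ∈ K, ∀ y' ∈ K, κ y = κ y' → y - y' ∈ H) :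
    H.relIndex K ≠ 0 ∧ H.relIndex K ≤ Nat.card S := by
  classical
  -- the induced map on the quotient `K ⧸ H.addSubgroupOf K` is injective
  let g : (K ⧸ H.addSubgroupOf K) → S := fun q => κ ((Quotient.out q : K) : J)
  have hg : Function.Injective g := by
    intro q q' h
    have h1 : ((Quotient.out q : K) : J) - ((Quotient.out q' : K) : J) ∈ H :=
      hκ _ (Quotient.out q).2 _ (Quotient.out q').2 h
    have h2 : (Quotient.out q : K) - Quotient.out q' ∈ H.addSubgroupOf K := by
      rw [AddSubgroup.mem_addSubgroupOf]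
      simpa using h1
    have h3 : ((Quotient.out q : K) : K ⧸ H.addSubgroupOf K) = (Quotient.out q' : K) := by
      rw [QuotientAddGroup.eq]
      have : -(Quotient.out q : K) + Quotient.out q' = -((Quotient.out q : K) - Quotient.out q') := by
        abel
      rw [this]
      exact (H.addSubgroupOf K).neg_mem h2
    have e1 : ((Quotient.out q : K) : K ⧸ H.addSubgroupOf K) = q := Quotient.out_eq q
    have e2 : ((Quotient.out q' : K) : K ⧸ H.addSubgroupOf K) = q' := Quotient.out_eq q'
    rw [← e1, ← e2]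
    exact h3
  have : Finite (K ⧸ H.addSubgroupOf K) := Finite.of_injective g hg
  refine ⟨?_, ?_⟩
  · show (H.addSubgroupOf K).index ≠ 0
    exact AddSubgroup.index_ne_zero_of_finite
  · show (H.addSubgroupOf K).index ≤ Nat.card S
    rw [AddSubgroup.index]
    exact Nat.card_le_card_of_injective g hg

/-- Indices inside a finite subgroup are non-zero. -/
theorem relIndex_ne_zero_of_finite (H K : AddSubgroup J) [Finite K] : H.relIndex K ≠ 0 := by
  show (H.addSubgroupOf K).index ≠ 0
  exact AddSubgroup.index_ne_zero_of_finite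

end Index

/-! ## One step of the flag -/

section Step

variable {Γ : Type*} [Group Γ] {J : Type*} [AddCommGroup J] [DistribMulAction Γ J]

/-- **ENGINE, one step.**  `F₀ ≤ F₁ ≤ W`, `F₀`, `F₁` stable.  With
`sel = [Y₁ : Y₀ ⊔ F₁]`, `idx = [Y₁ ⊔ W : Y₀ ⊔ W]`, `vⱼ = [W ⊓ Yⱼ : Fⱼ]`, `pG = [F₁ ⊓ Y₀ : F₀]`
(`Yⱼ = cocSub Fⱼ`):  `sel * v₀ = idx * v₁ * pG`. -/
theorem engine_step (F₀ F₁ W : AddSubgroup J) (h01 : F₀ ≤ F₁) (h1W : F₁ ≤ W)
    (hs0 : IsStable Γ F₀) (hs1 : IsStable Γ F₁) :
    (cocSub Γ F₀ ⊔ F₁).relIndex (cocSub Γ F₁) * F₀.relIndex (W ⊓ cocSub Γ F₀) =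
      (cocSub Γ F₀ ⊔ W).relIndex (cocSub Γ F₁ ⊔ W) * F₁.relIndex (W ⊓ cocSub Γ F₁) *
        F₀.relIndex (F₁ ⊓ cocSub Γ F₀) := by
  set Y₀ := cocSub Γ F₀ with hY₀
  set Y₁ := cocSub Γ F₁ with hY₁
  have hY : Y₀ ≤ Y₁ := cocSub_mono h01
  have hF0Y0 : F₀ ≤ Y₀ := le_cocSub_of_isStable hs0
  have hF1Y1 : F₁ ≤ Y₁ := le_cocSub_of_isStable hs1
  set V₀ := W ⊓ Y₀ with hV₀
  set V₁ := W ⊓ Y₁ with hV₁
  have hF1V1 : F₁ ≤ V₁ := le_inf h1W hF1Y1
  have hV1Y1 : V₁ ≤ Y₁ := inf_le_right
  have hV01 : V₀ ≤ V₁ := inf_le_inf_left W hY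
  -- (1) idx = [Y₁ : Y₀ ⊔ V₁]
  have e1 : (Y₀ ⊔ W).relIndex (Y₁ ⊔ W) = (Y₀ ⊔ V₁).relIndex Y₁ :=
    relIndex_sup_sup Y₀ Y₁ W hY
  -- (2) sel = [Y₀ ⊔ V₁ : Y₀ ⊔ F₁] * [Y₁ : Y₀ ⊔ V₁]
  have e2 : (Y₀ ⊔ F₁).relIndex (Y₀ ⊔ V₁) * (Y₀ ⊔ V₁).relIndex Y₁ = (Y₀ ⊔ F₁).relIndex Y₁ :=
    AddSubgroup.relIndex_mul_relIndex _ _ _ (sup_le_sup_left hF1V1 Y₀) (sup_le hY hV1Y1)
  -- (3) [Y₀ ⊔ V₁ : Y₀ ⊔ F₁] = [V₁ : F₁ ⊔ V₀]
  have e3 : (Y₀ ⊔ F₁).relIndex (Y₀ ⊔ V₁) = (F₁ ⊔ V₀).relIndex V₁ := by
    have h := relIndex_sup_sup F₁ V₁ Y₀ hF1V1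
    have hYV : Y₀ ⊓ V₁ = V₀ := by
      rw [hV₁, hV₀, ← inf_assoc, inf_comm Y₀ W, inf_assoc, inf_eq_left.2 hY]
    rw [hYV] at h
    rw [sup_comm Y₀ F₁, sup_comm Y₀ V₁]
    exact h
  -- (4) v₁ = [V₀ : Q] * [V₁ : F₁ ⊔ V₀],  v₀ = pG * [V₀ : Q]
  set Q := F₁ ⊓ Y₀ with hQ
  have hQV : F₁ ⊓ V₀ = Q := by
    rw [hV₀, hQ, ← inf_assoc, inf_eq_left.2 h1W]
  have e4 : F₁.relIndex V₁ = Q.relIndex V₀ * (F₁ ⊔ V₀).relIndex V₁ := by
    have h := AddSubgroup.relIndex_mul_relIndex F₁ (F₁ ⊔ V₀) V₁ le_sup_left (sup_le hF1V1 hV01)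
    rw [AddSubgroup.relIndex_sup_left, ← AddSubgroup.inf_relIndex_right, hQV] at h
    exact h.symm
  have hF0Q : F₀ ≤ Q := le_inf h01 hF0Y0
  have hQV0 : Q ≤ V₀ := by
    rw [← hQV]; exact inf_le_right
  have e5 : F₀.relIndex V₀ = F₀.relIndex Q * Q.relIndex V₀ :=
    (AddSubgroup.relIndex_mul_relIndex F₀ Q V₀ hF0Q hQV0).symm
  rw [← e2, e1, e3, e4, e5]
  ring

end Step

/-! ## The flag -/

section Flag

variable {Γ : Type*} [Group Γ] {J : Type*} [AddCommGroup J] [DistribMulAction Γ J]

/-- `|Sel_i|`, as an index. -/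
noncomputable def sel (Γ : Type*) [Group Γ] {J : Type*} [AddCommGroup J] [DistribMulAction Γ J]
    (F : ℕ → AddSubgroup J) (i : ℕ) : ℕ :=
  (cocSub Γ (F i) ⊔ F (i + 1)).relIndex (cocSub Γ (F (i + 1)))

/-- `|P_i^Γ|`, as an index. -/
noncomputable def pG (Γ : Type*) [Group Γ] {J : Type*} [AddCommGroup J] [DistribMulAction Γ J]
    (F : ℕ → AddSubgroup J) (i : ℕ) : ℕ :=
  (F i).relIndex (F (i + 1) ⊓ cocSub Γ (F i))

/-- telescoping of the indices `[Y_{i+1} ⊔ W : Y_i ⊔ W]` -/
theorem prod_idx (F : ℕ → AddSubgroup J) (W : AddSubgroup J) (k : ℕ)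
    (hmono : ∀ i, i < k → F i ≤ F (i + 1)) :
    ∏ i ∈ Finset.range k, (cocSub Γ (F i) ⊔ W).relIndex (cocSub Γ (F (i + 1)) ⊔ W) =
      (cocSub Γ (F 0) ⊔ W).relIndex (cocSub Γ (F k) ⊔ W) := by
  induction k with
  | zero => simp [AddSubgroup.relIndex_self]
  | succ k ih =>
    have hle : ∀ j, j ≤ k → F 0 ≤ F j := by
      intro j hj
      induction j with
      | zero => exact le_rfl
      | succ j ihj =>
        exact (ihj (Nat.le_of_succ_le hj)).trans (hmono j (Nat.lt_succ_of_le (Nat.le_of_succ_le hj)))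
    rw [Finset.prod_range_succ, ih (fun i hi => hmono i (Nat.lt_succ_of_lt hi))]
    exact AddSubgroup.relIndex_mul_relIndex _ _ _
      (sup_le_sup_right (cocSub_mono (hle k le_rfl)) W)
      (sup_le_sup_right (cocSub_mono (hmono k (Nat.lt_succ_self k))) W)

/-- **ENGINE (general flag), exact formula up to level `k`.** -/
theorem engine_upto (F : ℕ → AddSubgroup J) (W : AddSubgroup J) (k : ℕ)
    (hmono : ∀ i, i < k → F i ≤ F (i + 1)) (hW : ∀ i, i ≤ k → F i ≤ W)
    (hst : ∀ i, i ≤ k → IsStable Γ (F i)) :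
    (∏ i ∈ Finset.range k, sel Γ F i) * (F 0).relIndex (W ⊓ cocSub Γ (F 0)) =
      (cocSub Γ (F 0) ⊔ W).relIndex (cocSub Γ (F k) ⊔ W) *
        (F k).relIndex (W ⊓ cocSub Γ (F k)) * ∏ i ∈ Finset.range k, pG Γ F i := by
  induction k with
  | zero => simp [AddSubgroup.relIndex_self]
  | succ k ih =>
    have ih' := ih (fun i hi => hmono i (Nat.lt_succ_of_lt hi))
      (fun i hi => hW i (Nat.le_succ_of_le hi)) (fun i hi => hst i (Nat.le_succ_of_le hi))
    have hstep := engine_step (Γ := Γ) (F k) (F (k + 1)) W (hmono k (Nat.lt_succ_self k))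
      (hW (k + 1) le_rfl) (hst k (Nat.le_succ k)) (hst (k + 1) le_rfl)
    have hidx := prod_idx (Γ := Γ) F W
    have h0k := hidx k (fun i hi => hmono i (Nat.lt_succ_of_lt hi))
    have h0k1 := hidx (k + 1) hmono
    rw [Finset.prod_range_succ] at h0k1
    rw [h0k] at h0k1
    rw [Finset.prod_range_succ, Finset.prod_range_succ]
    -- abbreviations
    set S := ∏ i ∈ Finset.range k, sel Γ F i
    set P := ∏ i ∈ Finset.range k, pG Γ F i
    set a := (cocSub Γ (F 0) ⊔ W).relIndex (cocSub Γ (F k) ⊔ W)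
    set b := (cocSub Γ (F k) ⊔ W).relIndex (cocSub Γ (F (k + 1)) ⊔ W)
    set c := (cocSub Γ (F 0) ⊔ W).relIndex (cocSub Γ (F (k + 1)) ⊔ W)
    set v0 := (F 0).relIndex (W ⊓ cocSub Γ (F 0))
    set vk := (F k).relIndex (W ⊓ cocSub Γ (F k))
    set vk1 := (F (k + 1)).relIndex (W ⊓ cocSub Γ (F (k + 1)))
    have hstep' : sel Γ F k * vk = b * vk1 * pG Γ F k := hstep
    calc S * sel Γ F k * v0 = (S * v0) * sel Γ F k := by ring
      _ = (a * vk * P) * sel Γ F k := by rw [ih']
      _ = a * P * (sel Γ F k * vk) := by ring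
      _ = a * P * (b * vk1 * pG Γ F k) := by rw [hstep']
      _ = (a * b) * vk1 * (P * pG Γ F k) := by ring
      _ = c * vk1 * (P * pG Γ F k) := by rw [h0k1]

/-- **ENGINE** for a flag ending at `W = F D`:
`(∏ |Sel_i|) * [W ⊓ Y₀ : F 0] = [Y_D : Y₀ ⊔ W] * ∏ |P_i^Γ|`. -/
theorem engine (F : ℕ → AddSubgroup J) (D : ℕ)
    (hmono : ∀ i, i < D → F i ≤ F (i + 1)) (hst : ∀ i, i ≤ D → IsStable Γ (F i)) :
    (∏ i ∈ Finset.range D, sel Γ F i) * (F 0).relIndex (F D ⊓ cocSub Γ (F 0)) =
      (cocSub Γ (F 0) ⊔ F D).relIndex (cocSub Γ (F D)) * ∏ i ∈ Finset.range D, pG Γ F i := by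
  have hle : ∀ j, j ≤ D → ∀ i, i ≤ j → F i ≤ F j := by
    intro j
    induction j with
    | zero =>
      intro _ i hi
      rw [Nat.le_zero.1 hi]
    | succ j ihj =>
      intro hj i hi
      rcases Nat.eq_or_lt_of_le hi with h | h
      · rw [h]
      · exact (ihj (Nat.le_of_succ_le hj) i (Nat.lt_succ_iff.1 h)).trans
          (hmono j (Nat.lt_of_succ_le hj))
  have h := engine_upto (Γ := Γ) F (F D) D hmono (fun i hi => hle D le_rfl i hi) hst
  have hD : F D ≤ cocSub Γ (F D) := le_cocSub_of_isStable (hst D le_rfl)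
  rw [sup_eq_left.2 hD, inf_eq_left.2 hD, AddSubgroup.relIndex_self, mul_one] at h
  exact h

/-- **ENGINE, blueprint form** (`F 0 = ⊥`):
`(∏ |Sel_i|) * |W^Γ| = [Y_E : A + W] * ∏ |P_i^Γ|`, where `A = cocSub Γ ⊥ = J^Γ`, `W = F D`,
`Y_E = cocSub Γ W`. -/
theorem engine_bot (F : ℕ → AddSubgroup J) (D : ℕ) (h0 : F 0 = ⊥)
    (hmono : ∀ i, i < D → F i ≤ F (i + 1)) (hst : ∀ i, i ≤ D → IsStable Γ (F i)) :
    (∏ i ∈ Finset.range D, sel Γ F i) *
        Nat.card ↥(F D ⊓ cocSub Γ (⊥ : AddSubgroup J)) =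
      (cocSub Γ (⊥ : AddSubgroup J) ⊔ F D).relIndex (cocSub Γ (F D)) *
        ∏ i ∈ Finset.range D, pG Γ F i := by
  have h := engine (Γ := Γ) F D hmono hst
  rw [h0, AddSubgroup.relIndex_bot_left] at h
  exact h

end Flag

/-! ## Values of `|P_i^Γ|` and the inequality form -/

section Bounds

variable {Γ : Type*} [Group Γ] {J : Type*} [AddCommGroup J] [DistribMulAction Γ J]

/-- If `Γ` acts trivially on `F₁ / F₀`, then `|P^Γ| = [F₁ : F₀]`. -/
theorem pG_eq_relIndex_of_trivial (F₀ F₁ : AddSubgroup J)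
    (htriv : ∀ f ∈ F₁, ∀ s : Γ, s • f - f ∈ F₀) :
    F₀.relIndex (F₁ ⊓ cocSub Γ F₀) = F₀.relIndex F₁ := by
  have h : F₁ ⊓ cocSub Γ F₀ = F₁ := inf_eq_left.2 (fun f hf => htriv f hf)
  rw [h]

/-- If `[F₁ : F₀]` is a prime `r` and `Γ` does not act trivially on `F₁ / F₀`, then
`|P^Γ| = 1`. -/
theorem pG_eq_one_of_nontrivial (F₀ F₁ : AddSubgroup J) (h01 : F₀ ≤ F₁)
    (hs0 : IsStable Γ F₀) {r : ℕ} (hr : r.Prime) (hidx : F₀.relIndex F₁ = r)
    (hnt : ∃ f ∈ F₁, ∃ s : Γ, s • f - f ∉ F₀) :
    F₀.relIndex (F₁ ⊓ cocSub Γ F₀) = 1 := by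
  set Q := F₁ ⊓ cocSub Γ F₀ with hQ
  have hF0Q : F₀ ≤ Q := le_inf h01 (le_cocSub_of_isStable hs0)
  have hQF1 : Q ≤ F₁ := inf_le_left
  have hmul : F₀.relIndex Q * Q.relIndex F₁ = r := by
    rw [AddSubgroup.relIndex_mul_relIndex F₀ Q F₁ hF0Q hQF1, hidx]
  have hdvd : F₀.relIndex Q ∣ r := Dvd.intro _ hmul
  rcases (Nat.dvd_prime hr).1 hdvd with h1 | hr'
  · exact h1
  · exfalso
    rw [hr'] at hmul
    have h2 : Q.relIndex F₁ = 1 := by
      have hpos : 0 < r := hr.pos
      have : r * Q.relIndex F₁ = r * 1 := by rw [hmul, mul_one]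
      exact Nat.eq_of_mul_eq_mul_left hpos this
    have h3 : F₁ ≤ Q := AddSubgroup.relIndex_eq_one.1 h2
    obtain ⟨f, hf, s, hfs⟩ := hnt
    exact hfs ((h3 hf).2 s)

/-- **ENGINE, inequality form** (what (SEL) consumes).  `W = F D` finite, `F 0 = ⊥`; if for
every piece `|Sel_i|` is finite and `≤ r ^ a i`, and `r ^ b i ≤ |P_i^Γ|`, then the index
`[Y_E : A + W]` is finite and `[Y_E : A + W] * r ^ (∑ b) ≤ |W^Γ| * r ^ (∑ a)`. -/
theorem engine_le (F : ℕ → AddSubgroup J) (D : ℕ) (h0 : F 0 = ⊥)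
    (hmono : ∀ i, i < D → F i ≤ F (i + 1)) (hst : ∀ i, i ≤ D → IsStable Γ (F i))
    [Finite (F D)] (r : ℕ) (a b : ℕ → ℕ)
    (hsel : ∀ i, i < D → sel Γ F i ≠ 0 ∧ sel Γ F i ≤ r ^ a i)
    (hpG : ∀ i, i < D → r ^ b i ≤ pG Γ F i) :
    (cocSub Γ (⊥ : AddSubgroup J) ⊔ F D).relIndex (cocSub Γ (F D)) ≠ 0 ∧
      (cocSub Γ (⊥ : AddSubgroup J) ⊔ F D).relIndex (cocSub Γ (F D)) *
          r ^ (∑ i ∈ Finset.range D, b i) ≤
        Nat.card ↥(F D ⊓ cocSub Γ (⊥ : AddSubgroup J)) * r ^ (∑ i ∈ Finset.range D, a i) := by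
  classical
  have h := engine_bot (Γ := Γ) F D h0 hmono hst
  set T := (cocSub Γ (⊥ : AddSubgroup J) ⊔ F D).relIndex (cocSub Γ (F D)) with hT
  set c := Nat.card ↥(F D ⊓ cocSub Γ (⊥ : AddSubgroup J)) with hc
  have hle : ∀ j, j ≤ D → F j ≤ F D := by
    intro j hj
    obtain ⟨k, rfl⟩ := Nat.exists_eq_add_of_le hj
    clear hj hsel hpG h hst
    induction k with
    | zero => exact le_rfl
    | succ k ih =>
      have h1 : F j ≤ F (j + k) := by
        -- monotone along the flag
        have : ∀ m, j + m ≤ j + (k + 1) → F j ≤ F (j + m) := by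
          intro m
          induction m with
          | zero => intro _; exact le_rfl
          | succ m ihm =>
            intro hm
            exact (ihm (Nat.le_of_succ_le hm)).trans (hmono (j + m) (Nat.lt_of_succ_le hm))
        exact this k (by omega)
      exact h1.trans (hmono (j + k) (by omega))
  -- the finite pieces have non-zero `pG`
  have hpGpos : ∀ i, i < D → pG Γ F i ≠ 0 := by
    intro i hi
    have hfin : Finite ↥(F (i + 1) ⊓ cocSub Γ (F i)) :=
      Finite.of_injective
        (fun x : ↥(F (i + 1) ⊓ cocSub Γ (F i)) =>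
          (⟨x.1, hle (i + 1) hi (x.2.1)⟩ : ↥(F D)))
        (fun x y hxy => Subtype.ext (by simpa using congrArg Subtype.val hxy))
    exact relIndex_ne_zero_of_finite _ _
  have hcpos : c ≠ 0 := by
    have hfin : Finite ↥(F D ⊓ cocSub Γ (⊥ : AddSubgroup J)) :=
      Finite.of_injective
        (fun x : ↥(F D ⊓ cocSub Γ (⊥ : AddSubgroup J)) => (⟨x.1, x.2.1⟩ : ↥(F D)))
        (fun x y hxy => Subtype.ext (by simpa using congrArg Subtype.val hxy))
    exact Nat.card_pos.ne'
  have hSpos : ∏ i ∈ Finset.range D, sel Γ F i ≠ 0 :=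
    Finset.prod_ne_zero_iff.2 (fun i hi => (hsel i (Finset.mem_range.1 hi)).1)
  have hPpos : ∏ i ∈ Finset.range D, pG Γ F i ≠ 0 :=
    Finset.prod_ne_zero_iff.2 (fun i hi => hpGpos i (Finset.mem_range.1 hi))
  have hTpos : T ≠ 0 := by
    intro hT0
    rw [hT0, zero_mul] at h
    exact (mul_ne_zero hSpos hcpos) h
  refine ⟨hTpos, ?_⟩
  have hS : ∏ i ∈ Finset.range D, sel Γ F i ≤ r ^ (∑ i ∈ Finset.range D, a i) := by
    rw [← Finset.prod_pow_eq_pow_sum]
    exact Finset.prod_le_prod' (fun i hi => (hsel i (Finset.mem_range.1 hi)).2)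
  have hP : r ^ (∑ i ∈ Finset.range D, b i) ≤ ∏ i ∈ Finset.range D, pG Γ F i := by
    rw [← Finset.prod_pow_eq_pow_sum]
    exact Finset.prod_le_prod' (fun i hi => hpG i (Finset.mem_range.1 hi))
  calc T * r ^ (∑ i ∈ Finset.range D, b i)
      ≤ T * ∏ i ∈ Finset.range D, pG Γ F i := Nat.mul_le_mul_left _ hP
    _ = (∏ i ∈ Finset.range D, sel Γ F i) * c := h.symm
    _ ≤ r ^ (∑ i ∈ Finset.range D, a i) * c := Nat.mul_le_mul_right _ hS
    _ = c * r ^ (∑ i ∈ Finset.range D, a i) := Nat.mul_comm _ _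

end Bounds

end Fermat.Agent.S15.H842.Engine

end
-- ===== PACK-END S15/H842/Engine.lean

-- ===== PACK-BEGIN Lib/RR/H980/LinAlg.lean
section
/-
Shared library RR (Riemann–Roch for function fields), helper980:
abstract linear algebra of "relative quotients" `Y / X` of submodules of a vector space.
Mathlib only.  Sorry-free.
-/






set_option autoImplicit false

noncomputable section

namespace Fermat.Agent.Lib.RR.H980

open Module

variable {K V : Type*} [Field K] [AddCommGroup V] [Module K V]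

/-- The relative quotient `Y / (X ∩ Y)`. -/
abbrev Quo (X Y : Submodule K V) : Type _ := ↥Y ⧸ X.submoduleOf Y

/-- The relative index `dim Y / (X ∩ Y)` (junk value `0` if infinite). -/
def idx (X Y : Submodule K V) : ℕ := finrank K (Quo X Y)

/-- `Y / (X ∩ Y)` is finite-dimensional. -/
def FinIdx (X Y : Submodule K V) : Prop := Module.Finite K (Quo X Y)

/-! ### Tower law -/

lemma mem_submoduleOf_iff {X Y : Submodule K V} {y : ↥Y} :
    y ∈ X.submoduleOf Y ↔ (y : V) ∈ X := Iff.rfl

section tower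

variable {X Y Z : Submodule K V}

/-- The injection `Y/X → Z/X` for `Y ≤ Z`. -/
def quoIncl (X : Submodule K V) {Y Z : Submodule K V} (hYZ : Y ≤ Z) : Quo X Y →ₗ[K] Quo X Z :=
  Submodule.mapQ _ _ (Submodule.inclusion hYZ) (fun _ hy => hy)

/-- The surjection `Z/X → Z/Y` for `X ≤ Y`. -/
def quoProj {X Y : Submodule K V} (hXY : X ≤ Y) (Z : Submodule K V) : Quo X Z →ₗ[K] Quo Y Z :=
  Submodule.mapQ _ _ LinearMap.id (fun _ hz => hXY hz)

@[simp] lemma quoIncl_mk (X : Submodule K V) {Y Z : Submodule K V} (hYZ : Y ≤ Z) (y : ↥Y) :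
    quoIncl X hYZ (Submodule.Quotient.mk y) = Submodule.Quotient.mk (Submodule.inclusion hYZ y) :=
  rfl

@[simp] lemma quoProj_mk {X Y : Submodule K V} (hXY : X ≤ Y) (Z : Submodule K V) (z : ↥Z) :
    quoProj hXY Z (Submodule.Quotient.mk z) = Submodule.Quotient.mk z := rfl

lemma quoIncl_injective (X : Submodule K V) {Y Z : Submodule K V} (hYZ : Y ≤ Z) :
    Function.Injective (quoIncl X hYZ) := by
  rw [← LinearMap.ker_eq_bot, LinearMap.ker_eq_bot']
  intro q hq
  induction q using Submodule.Quotient.induction_on with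
  | _ y =>
    rw [quoIncl_mk, Submodule.Quotient.mk_eq_zero] at hq
    rw [Submodule.Quotient.mk_eq_zero]
    exact hq

lemma quoProj_surjective {X Y : Submodule K V} (hXY : X ≤ Y) (Z : Submodule K V) :
    Function.Surjective (quoProj hXY Z) := by
  intro q
  induction q using Submodule.Quotient.induction_on with
  | _ z => exact ⟨Submodule.Quotient.mk z, rfl⟩

lemma range_quoIncl_eq_ker_quoProj (hXY : X ≤ Y) (hYZ : Y ≤ Z) :
    LinearMap.range (quoIncl X hYZ) = LinearMap.ker (quoProj hXY Z) := by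
  ext q
  induction q using Submodule.Quotient.induction_on with
  | _ z =>
    rw [LinearMap.mem_ker, quoProj_mk, Submodule.Quotient.mk_eq_zero, mem_submoduleOf_iff]
    constructor
    · rintro ⟨q', hq'⟩
      induction q' using Submodule.Quotient.induction_on with
      | _ y =>
        rw [quoIncl_mk, Submodule.Quotient.eq, mem_submoduleOf_iff] at hq'
        have hq'' : (y : V) - (z : V) ∈ X := hq'
        have : (z : V) = y - (y - z) := by abel
        rw [this]
        exact Y.sub_mem y.2 (hXY hq'')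
    · intro hz
      exact ⟨Submodule.Quotient.mk ⟨z, hz⟩, rfl⟩

/-- Tower law for relative indices. -/
theorem idx_tower (hXY : X ≤ Y) (hYZ : Y ≤ Z) (hfin : FinIdx X Z) :
    idx X Z = idx X Y + idx Y Z := by
  have : Module.Finite K (Quo X Z) := hfin
  have h1 := (quoProj hXY Z).finrank_range_add_finrank_ker
  rw [LinearMap.range_eq_top.mpr (quoProj_surjective hXY Z), finrank_top,
    ← range_quoIncl_eq_ker_quoProj hXY hYZ,
    LinearMap.finrank_range_of_inj (quoIncl_injective X hYZ)] at h1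
  unfold idx
  omega

theorem FinIdx.left (hYZ : Y ≤ Z) (hfin : FinIdx X Z) : FinIdx X Y := by
  have : Module.Finite K (Quo X Z) := hfin
  exact Module.Finite.of_injective (quoIncl X hYZ) (quoIncl_injective X hYZ)

theorem FinIdx.right (hXY : X ≤ Y) (hfin : FinIdx X Z) : FinIdx Y Z := by
  have : Module.Finite K (Quo X Z) := hfin
  exact Module.Finite.of_surjective (quoProj hXY Z) (quoProj_surjective hXY Z)

theorem FinIdx.trans (hXY : X ≤ Y) (hYZ : Y ≤ Z) (h1 : FinIdx X Y) (h2 : FinIdx Y Z) :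
    FinIdx X Z := by
  have : Module.Finite K (Quo X Y) := h1
  have : Module.Finite K (Quo Y Z) := h2
  have : Module.Finite K (LinearMap.ker (quoProj hXY Z)) := by
    rw [← range_quoIncl_eq_ker_quoProj hXY hYZ]
    infer_instance
  have : Module.Finite K (Quo X Z ⧸ LinearMap.ker (quoProj hXY Z)) :=
    Module.Finite.equiv ((quoProj hXY Z).quotKerEquivOfSurjective
      (quoProj_surjective hXY Z)).symm
  exact Module.Finite.of_submodule_quotient (LinearMap.ker (quoProj hXY Z))

end tower

/-! ### Second isomorphism theorem, relative version -/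

section second

variable {A₁ A₂ : Submodule K V} (P : Submodule K V)

/-- The surjection `A₂/A₁ → (A₂ + P)/(A₁ + P)`. -/
def supMap (h : A₁ ≤ A₂) : Quo A₁ A₂ →ₗ[K] Quo (A₁ ⊔ P) (A₂ ⊔ P) :=
  Submodule.mapQ _ _ (Submodule.inclusion (le_sup_left : A₂ ≤ A₂ ⊔ P))
    (fun _ hy => Submodule.mem_sup_left hy)

/-- The injection `(A₂ ∩ P)/(A₁ ∩ P) → A₂/A₁`. -/
def infMap (A₁ A₂ : Submodule K V) : Quo (A₁ ⊓ P) (A₂ ⊓ P) →ₗ[K] Quo A₁ A₂ :=
  Submodule.mapQ _ _ (Submodule.inclusion (inf_le_left : A₂ ⊓ P ≤ A₂))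
    (fun _ hy => (Submodule.mem_inf.mp hy).1)

@[simp] lemma supMap_mk (h : A₁ ≤ A₂) (a : ↥A₂) :
    supMap P h (Submodule.Quotient.mk a) =
      Submodule.Quotient.mk (Submodule.inclusion (le_sup_left : A₂ ≤ A₂ ⊔ P) a) := rfl

@[simp] lemma infMap_mk (b : ↥(A₂ ⊓ P)) :
    infMap P A₁ A₂ (Submodule.Quotient.mk b) =
      Submodule.Quotient.mk (Submodule.inclusion (inf_le_left : A₂ ⊓ P ≤ A₂) b) := rfl

lemma supMap_surjective (h : A₁ ≤ A₂) : Function.Surjective (supMap P h) := by
  intro q
  induction q using Submodule.Quotient.induction_on with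
  | _ z =>
    obtain ⟨a, ha, p, hp, hz⟩ := Submodule.mem_sup.mp z.2
    refine ⟨Submodule.Quotient.mk ⟨a, ha⟩, ?_⟩
    rw [supMap_mk, Submodule.Quotient.eq, mem_submoduleOf_iff]
    have : ((Submodule.inclusion (le_sup_left : A₂ ≤ A₂ ⊔ P) ⟨a, ha⟩ - z : ↥(A₂ ⊔ P)) : V)
        = -p := by
      rw [Submodule.coe_sub, Submodule.coe_inclusion, ← hz]
      simp
    rw [this]
    exact Submodule.mem_sup_right (P.neg_mem hp)

lemma infMap_injective : Function.Injective (infMap P A₁ A₂) := by
  rw [← LinearMap.ker_eq_bot, LinearMap.ker_eq_bot']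
  intro q hq
  induction q using Submodule.Quotient.induction_on with
  | _ b =>
    rw [infMap_mk, Submodule.Quotient.mk_eq_zero, mem_submoduleOf_iff] at hq
    rw [Submodule.Quotient.mk_eq_zero, mem_submoduleOf_iff]
    exact Submodule.mem_inf.mpr ⟨hq, (Submodule.mem_inf.mp b.2).2⟩

lemma range_infMap_eq_ker_supMap (h : A₁ ≤ A₂) :
    LinearMap.range (infMap P A₁ A₂) = LinearMap.ker (supMap P h) := by
  ext q
  induction q using Submodule.Quotient.induction_on with
  | _ a =>
    rw [LinearMap.mem_ker, supMap_mk, Submodule.Quotient.mk_eq_zero, mem_submoduleOf_iff]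
    constructor
    · rintro ⟨q', hq'⟩
      induction q' using Submodule.Quotient.induction_on with
      | _ b =>
        rw [infMap_mk, Submodule.Quotient.eq, mem_submoduleOf_iff] at hq'
        have hq'' : (b : V) - (a : V) ∈ A₁ := hq'
        have : (a : V) = -((b : V) - a) + b := by abel
        show (a : V) ∈ A₁ ⊔ P
        rw [this]
        exact Submodule.add_mem_sup (A₁.neg_mem hq'') (Submodule.mem_inf.mp b.2).2
    · intro ha
      have ha' : (a : V) ∈ A₁ ⊔ P := ha
      obtain ⟨a₁, ha₁, p, hp, hap⟩ := Submodule.mem_sup.mp ha'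
      have hpA : p ∈ A₂ := by
        have : p = a - a₁ := by rw [← hap]; abel
        rw [this]
        exact A₂.sub_mem a.2 (h ha₁)
      refine ⟨Submodule.Quotient.mk ⟨p, Submodule.mem_inf.mpr ⟨hpA, hp⟩⟩, ?_⟩
      rw [infMap_mk, Submodule.Quotient.eq, mem_submoduleOf_iff]
      have : ((Submodule.inclusion (inf_le_left : A₂ ⊓ P ≤ A₂)
          ⟨p, Submodule.mem_inf.mpr ⟨hpA, hp⟩⟩ - a : ↥A₂) : V) = -a₁ := by
        rw [Submodule.coe_sub, Submodule.coe_inclusion, ← hap]
        simp
      rw [this]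
      exact A₁.neg_mem ha₁

theorem FinIdx.sup (h : A₁ ≤ A₂) (hfin : FinIdx A₁ A₂) : FinIdx (A₁ ⊔ P) (A₂ ⊔ P) := by
  have : Module.Finite K (Quo A₁ A₂) := hfin
  exact Module.Finite.of_surjective (supMap P h) (supMap_surjective P h)

theorem FinIdx.inf (hfin : FinIdx A₁ A₂) : FinIdx (A₁ ⊓ P) (A₂ ⊓ P) := by
  have : Module.Finite K (Quo A₁ A₂) := hfin
  exact Module.Finite.of_injective (infMap P A₁ A₂) (infMap_injective P)

/-- `dim (A₂ + P)/(A₁ + P) + dim (A₂ ∩ P)/(A₁ ∩ P) = dim A₂/A₁`. -/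
theorem idx_sup_add_idx_inf (h : A₁ ≤ A₂) (hfin : FinIdx A₁ A₂) :
    idx (A₁ ⊔ P) (A₂ ⊔ P) + idx (A₁ ⊓ P) (A₂ ⊓ P) = idx A₁ A₂ := by
  have : Module.Finite K (Quo A₁ A₂) := hfin
  have h1 := (supMap P h).finrank_range_add_finrank_ker
  rw [LinearMap.range_eq_top.mpr (supMap_surjective P h), finrank_top,
    ← range_infMap_eq_ker_supMap P h,
    LinearMap.finrank_range_of_inj (infMap_injective P)] at h1
  exact h1

end second

/-! ### Quotients of the whole space -/

section whole

variable {X Y : Submodule K V}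

/-- `⊤ / X ≃ V / X`. -/
def quoTopEquiv (X : Submodule K V) : Quo X ⊤ ≃ₗ[K] V ⧸ X :=
  Submodule.Quotient.equiv (X.submoduleOf ⊤) X Submodule.topEquiv (by
    ext x
    simp only [Submodule.mem_map]
    constructor
    · rintro ⟨y, hy, rfl⟩
      exact hy
    · intro hx
      exact ⟨⟨x, Submodule.mem_top⟩, hx, rfl⟩)

lemma idx_top (X : Submodule K V) : idx X ⊤ = finrank K (V ⧸ X) :=
  (quoTopEquiv X).finrank_eq

lemma finIdx_top_iff (X : Submodule K V) : FinIdx X ⊤ ↔ Module.Finite K (V ⧸ X) :=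
  ⟨fun h => by
    have : Module.Finite K (Quo X ⊤) := h
    exact Module.Finite.equiv (quoTopEquiv X),
   fun h => Module.Finite.equiv (quoTopEquiv X).symm⟩

/-- If `Y/X` and `V/Y` are finite-dimensional, so is `V/X`, and dimensions add. -/
theorem finrank_quotient_eq_add (hXY : X ≤ Y) (h1 : FinIdx X Y) (h2 : Module.Finite K (V ⧸ Y)) :
    Module.Finite K (V ⧸ X) ∧ finrank K (V ⧸ X) = finrank K (V ⧸ Y) + idx X Y := by
  have h3 : FinIdx X ⊤ := FinIdx.trans hXY le_top h1 ((finIdx_top_iff Y).mpr h2)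
  refine ⟨(finIdx_top_iff X).mp h3, ?_⟩
  rw [← idx_top, ← idx_top, idx_tower hXY le_top h3, add_comm]

end whole

/-! ### Further lemmas -/

section misc

variable {X Y : Submodule K V}

lemma finIdx_self (X : Submodule K V) : FinIdx X X := by
  unfold FinIdx Quo
  rw [Submodule.submoduleOf_self]
  infer_instance

lemma idx_self (X : Submodule K V) : idx X X = 0 := by
  unfold idx Quo
  rw [Submodule.submoduleOf_self]
  exact finrank_zero_of_subsingleton

/-- For `X ≤ Y` with `Y` finite-dimensional, `dim Y/X + dim X = dim Y`. -/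
lemma idx_add_finrank (hXY : X ≤ Y) [Module.Finite K ↥Y] :
    idx X Y + finrank K ↥X = finrank K ↥Y := by
  have h := Submodule.finrank_quotient_add_finrank (X.submoduleOf Y)
  rw [(Submodule.submoduleOfEquivOfLe hXY).finrank_eq] at h
  exact h

/-- If `Y/X` is zero-dimensional then `Y ≤ X`. -/
lemma le_of_idx_eq_zero (hfin : FinIdx X Y) (h0 : idx X Y = 0) : Y ≤ X := by
  have : Module.Finite K (Quo X Y) := hfin
  have hs : Subsingleton (Quo X Y) := Module.finrank_zero_iff.mp h0
  intro y hy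
  have h1 : (Submodule.Quotient.mk ⟨y, hy⟩ : Quo X Y) = 0 := Subsingleton.elim _ _
  rw [Submodule.Quotient.mk_eq_zero, mem_submoduleOf_iff] at h1
  exact h1

end misc

end Fermat.Agent.Lib.RR.H980

end

end
-- ===== PACK-END Lib/RR/H980/LinAlg.lean

-- ===== PACK-BEGIN S18/H845/PrimElt.lean
section


/-!
# S18 / d1(c): compositum with algebraic constants, elementwise

`E ⊆ K ⊆ L`, `E` perfect.  If `L` is generated over `K` by elements algebraic over `E`, then every
element of `L` lies in `K[α]` for a single `α` algebraic over `E`.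
-/

set_option autoImplicit false
set_option linter.unusedSectionVars false

namespace Fermat.Agent.S18.H845

open IntermediateField

section PE

variable {E K L : Type*} [Field E] [Field K] [Field L] [Algebra E K] [Algebra K L] [Algebra E L]
  [IsScalarTower E K L] [PerfectField E]

omit [PerfectField E] in
lemma adjoin_E_le_adjoin_K (α : L) :
    ((Algebra.adjoin E {α} : Subalgebra E L) : Set L) ⊆ (Algebra.adjoin K {α} : Subalgebra K L) := by
  have h : Algebra.adjoin E {α} ≤ (Algebra.adjoin K {α}).restrictScalars E :=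
    Algebra.adjoin_le (by
      rintro x ⟨rfl⟩
      exact Algebra.self_mem_adjoin_singleton K _)
  exact h

/-- Two algebraic constants lie in `E[α]` for a single algebraic constant `α`. -/
lemma exists_common_adjoin {α₁ α₂ : L} (h₁ : IsAlgebraic E α₁) (h₂ : IsAlgebraic E α₂) :
    ∃ α : L, IsAlgebraic E α ∧ α₁ ∈ Algebra.adjoin K {α} ∧ α₂ ∈ Algebra.adjoin K {α} := by
  let M : IntermediateField E L := IntermediateField.adjoin E {α₁, α₂}
  have hfin : FiniteDimensional E M :=
    IntermediateField.finiteDimensional_adjoin_pair h₁.isIntegral h₂.isIntegral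
  have halg : Algebra.IsAlgebraic E M := Algebra.IsAlgebraic.of_finite E M
  obtain ⟨β, hβ⟩ := Field.exists_primitive_element E M
  have hβalg : IsAlgebraic E (β : L) := by
    have := halg.isAlgebraic β
    exact (isAlgebraic_algebraMap_iff (algebraMap M L).injective).mpr this
  have hM : E⟮(β : L)⟯ = M := by
    have h1 := congrArg (IntermediateField.map M.val) hβ
    rw [IntermediateField.adjoin_map, Set.image_singleton] at h1
    rw [show M.val β = (β : L) from rfl] at h1
    rw [h1]
    ext x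
    simp only [IntermediateField.mem_map, IntermediateField.mem_top, true_and]
    constructor
    · rintro ⟨y, rfl⟩
      exact y.2
    · intro hx
      exact ⟨⟨x, hx⟩, rfl⟩
  have hsub : ∀ x ∈ M, x ∈ Algebra.adjoin K {(β : L)} := by
    intro x hx
    rw [← hM] at hx
    have hx' : x ∈ (E⟮(β : L)⟯).toSubalgebra := hx
    rw [IntermediateField.adjoin_simple_toSubalgebra_of_isAlgebraic hβalg] at hx'
    exact adjoin_E_le_adjoin_K (K := K) (β : L) hx'
  refine ⟨β, hβalg, hsub _ ?_, hsub _ ?_⟩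
  · exact IntermediateField.subset_adjoin E _ (by simp)
  · exact IntermediateField.subset_adjoin E _ (by simp)

/-- If `L` is generated over `K` by elements algebraic over `E`, every element of `L` lies in
`K[α]` for one `α` algebraic over `E`. -/
theorem exists_mem_adjoin_singleton
    (hgen : IntermediateField.adjoin K {α : L | IsAlgebraic E α} = ⊤) (f : L) :
    ∃ α : L, IsAlgebraic E α ∧ f ∈ Algebra.adjoin K {α} := by
  have hf : f ∈ IntermediateField.adjoin K {α : L | IsAlgebraic E α} := by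
    rw [hgen]; exact IntermediateField.mem_top
  induction hf using IntermediateField.adjoin_induction with
  | mem x hx => exact ⟨x, hx, Algebra.self_mem_adjoin_singleton K x⟩
  | algebraMap x => exact ⟨0, isAlgebraic_zero, Subalgebra.algebraMap_mem _ x⟩
  | add x y _ _ hx hy =>
    obtain ⟨α₁, h₁, hx⟩ := hx
    obtain ⟨α₂, h₂, hy⟩ := hy
    obtain ⟨α, hα, ha₁, ha₂⟩ := exists_common_adjoin (K := K) h₁ h₂
    have l₁ : Algebra.adjoin K {α₁} ≤ Algebra.adjoin K {α} :=
      Algebra.adjoin_le (by rintro z ⟨rfl⟩; exact ha₁)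
    have l₂ : Algebra.adjoin K {α₂} ≤ Algebra.adjoin K {α} :=
      Algebra.adjoin_le (by rintro z ⟨rfl⟩; exact ha₂)
    exact ⟨α, hα, add_mem (l₁ hx) (l₂ hy)⟩
  | mul x y _ _ hx hy =>
    obtain ⟨α₁, h₁, hx⟩ := hx
    obtain ⟨α₂, h₂, hy⟩ := hy
    obtain ⟨α, hα, ha₁, ha₂⟩ := exists_common_adjoin (K := K) h₁ h₂
    have l₁ : Algebra.adjoin K {α₁} ≤ Algebra.adjoin K {α} :=
      Algebra.adjoin_le (by rintro z ⟨rfl⟩; exact ha₁)
    have l₂ : Algebra.adjoin K {α₂} ≤ Algebra.adjoin K {α} :=
      Algebra.adjoin_le (by rintro z ⟨rfl⟩; exact ha₂)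
    exact ⟨α, hα, mul_mem (l₁ hx) (l₂ hy)⟩
  | inv x _ hx =>
    obtain ⟨α, hα, hx⟩ := hx
    refine ⟨α, hα, ?_⟩
    have hαK : IsAlgebraic K α := hα.tower_top K
    rw [← IntermediateField.adjoin_simple_toSubalgebra_of_isAlgebraic hαK] at hx ⊢
    have hx' : x ∈ K⟮α⟯ := hx
    exact (show x⁻¹ ∈ K⟮α⟯ from inv_mem hx')

end PE

end Fermat.Agent.S18.H845

end
-- ===== PACK-END S18/H845/PrimElt.lean

-- ===== PACK-BEGIN A2/H708/Tame.lean
section



/-!
# A2 (helper708): the tame character of an inertia group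

`L/K` an algebraic field extension, `A` a valuation subring of `L`,
`τ ∈ A.inertiaSubgroupIn K` (Prelude definition).  For `c ∈ Lˣ` the quotient `τ c / c` is a
unit of `A`; its residue class `tameHom A hτ c ∈ kˣ` (`k` the residue field of `A`)

* is multiplicative in `c` (it is a monoid hom `Lˣ →* kˣ`),
* is trivial on units of `A` (`tameHom_eq_one_of_valuation_eq_one`), hence depends only on the
  valuation of `c` (`tameHom_eq_of_valuation_eq`),
* is trivial on `K` (`tameHom_algebraMap`),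
* is multiplicative in `τ` (`tameHom_mul`),
* takes values in roots of unity: `c ^ n ∈ Kˣ · Aˣ → tame(c) ^ n = 1` (`tameHom_pow_eq_one`),
* `tameHom A hτ c = 1 ↔ v (τ c - c) < v c` (`tameHom_eq_one_iff`).

Also: elementwise facts on decomposition / inertia groups for arbitrary `L/K`
(`apply_mem_iff_of_mem_decomposition`, `valuation_apply_of_mem_decomposition` (algebraic case),
`sub_mem_nonunits_of_mem_inertiaIn`).
-/

set_option autoImplicit false

open scoped Pointwise

namespace Fermat.Agent.A2.H708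

variable {K L : Type*} [Field K] [Field L] [Algebra K L] (A : ValuationSubring L)

/-- Elements of the inertia group (Prelude form) lie in the decomposition group. -/
theorem mem_decomposition_of_mem_inertiaIn {τ : L ≃ₐ[K] L} (hτ : τ ∈ A.inertiaSubgroupIn K) :
    τ ∈ A.decompositionSubgroup K := by
  obtain ⟨g, -, rfl⟩ := hτ
  exact g.2

/-- Elements of the decomposition group preserve `A`. -/
theorem apply_mem_of_mem_decomposition {τ : L ≃ₐ[K] L} (hτ : τ ∈ A.decompositionSubgroup K)
    {x : L} (hx : x ∈ A) : τ x ∈ A := by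
  have h : τ • A = A := MulAction.mem_stabilizer_iff.mp hτ
  have h1 : τ • x ∈ τ • A := ValuationSubring.smul_mem_pointwise_smul τ x A hx
  rw [h] at h1
  exact h1

/-- Elements of the decomposition group reflect `A`. -/
theorem mem_of_apply_mem_of_mem_decomposition {τ : L ≃ₐ[K] L}
    (hτ : τ ∈ A.decompositionSubgroup K) {x : L} (hx : τ x ∈ A) : x ∈ A := by
  have hinv : τ⁻¹ ∈ A.decompositionSubgroup K := inv_mem hτ
  have := apply_mem_of_mem_decomposition A hinv hx
  have h2 : τ⁻¹ (τ x) = x := by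
    show (τ⁻¹ * τ) x = x
    rw [inv_mul_cancel]; rfl
  rwa [h2] at this

theorem apply_mem_iff_of_mem_decomposition {τ : L ≃ₐ[K] L}
    (hτ : τ ∈ A.decompositionSubgroup K) {x : L} : τ x ∈ A ↔ x ∈ A :=
  ⟨mem_of_apply_mem_of_mem_decomposition A hτ, apply_mem_of_mem_decomposition A hτ⟩

/-- Elements of the decomposition group preserve the order of valuations. -/
theorem valuation_apply_le_iff_of_mem_decomposition {τ : L ≃ₐ[K] L}
    (hτ : τ ∈ A.decompositionSubgroup K) (x y : L) :
    A.valuation (τ x) ≤ A.valuation (τ y) ↔ A.valuation x ≤ A.valuation y := by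
  rcases eq_or_ne y 0 with rfl | hy
  · simp
  have hτy : τ y ≠ 0 := by simpa using hy
  have h1 : A.valuation x ≤ A.valuation y ↔ x / y ∈ A := by
    rw [← A.valuation_le_one_iff, map_div₀,
      div_le_one₀ (pos_iff_ne_zero.mpr ((Valuation.ne_zero_iff _).mpr hy))]
  have h2 : A.valuation (τ x) ≤ A.valuation (τ y) ↔ τ x / τ y ∈ A := by
    rw [← A.valuation_le_one_iff, map_div₀,
      div_le_one₀ (pos_iff_ne_zero.mpr ((Valuation.ne_zero_iff _).mpr hτy))]
  rw [h1, h2, ← map_div₀]
  exact apply_mem_iff_of_mem_decomposition A hτ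

theorem valuation_apply_lt_iff_of_mem_decomposition {τ : L ≃ₐ[K] L}
    (hτ : τ ∈ A.decompositionSubgroup K) (x y : L) :
    A.valuation (τ x) < A.valuation (τ y) ↔ A.valuation x < A.valuation y := by
  rw [← not_le, ← not_le, valuation_apply_le_iff_of_mem_decomposition A hτ]

/-- In an algebraic extension every element is fixed by a positive power of any automorphism. -/
theorem exists_pow_apply_eq [Algebra.IsAlgebraic K L] (τ : L ≃ₐ[K] L) (x : L) :
    ∃ n : ℕ, 0 < n ∧ (τ ^ n) x = x := by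
  have hfin : ((minpoly K x).rootSet L).Finite := Polynomial.rootSet_finite _ _
  have hmem : ∀ n : ℕ, (τ ^ n) x ∈ (minpoly K x).rootSet L := by
    intro n
    rw [Polynomial.mem_rootSet]
    refine ⟨minpoly.ne_zero (Algebra.IsIntegral.isIntegral x), ?_⟩
    have := Polynomial.aeval_algHom_apply ((τ ^ n : L ≃ₐ[K] L) : L →ₐ[K] L) x (minpoly K x)
    rw [minpoly.aeval, map_zero] at this
    exact this
  obtain ⟨a, b, hab, h⟩ := hfin.exists_lt_map_eq_of_forall_mem hmem
  refine ⟨b - a, Nat.sub_pos_of_lt hab, ?_⟩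
  have hb : b = (b - a) + a := by omega
  have h3 : (τ ^ a) ((τ ^ (b - a)) x) = (τ ^ a) x := by
    have : (τ ^ b) x = (τ ^ a) ((τ ^ (b - a)) x) := by
      conv_lhs => rw [hb, add_comm, pow_add]
      rfl
    rw [← this, ← h]
  exact (τ ^ a).injective h3

/-- Elements of the decomposition group preserve the valuation (algebraic extensions). -/
theorem valuation_apply_of_mem_decomposition [Algebra.IsAlgebraic K L] {τ : L ≃ₐ[K] L}
    (hτ : τ ∈ A.decompositionSubgroup K) (x : L) :
    A.valuation (τ x) = A.valuation x := by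
  obtain ⟨n, hn, hx⟩ := exists_pow_apply_eq τ x
  have hstep : ∀ k : ℕ, (τ ^ (k + 1)) x = τ ((τ ^ k) x) := by
    intro k
    rw [pow_succ']
    rfl
  rcases lt_trichotomy (A.valuation (τ x)) (A.valuation x) with h | h | h
  · exfalso
    have hk : ∀ k : ℕ, A.valuation ((τ ^ (k + 1)) x) < A.valuation x := by
      intro k
      induction k with
      | zero => simpa using h
      | succ k ih =>
        rw [hstep]
        refine lt_trans ?_ h
        exact (valuation_apply_lt_iff_of_mem_decomposition A hτ _ _).mpr ih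
    have := hk (n - 1)
    rw [Nat.sub_add_cancel hn, hx] at this
    exact lt_irrefl _ this
  · exact h
  · exfalso
    have hk : ∀ k : ℕ, A.valuation x < A.valuation ((τ ^ (k + 1)) x) := by
      intro k
      induction k with
      | zero => simpa using h
      | succ k ih =>
        rw [hstep (k + 1)]
        refine lt_trans h ?_
        exact (valuation_apply_lt_iff_of_mem_decomposition A hτ _ _).mpr ih
    have := hk (n - 1)
    rw [Nat.sub_add_cancel hn, hx] at this
    exact lt_irrefl _ this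

/-- Elements of the inertia group move elements of `A` by nonunits. -/
theorem sub_mem_nonunits_of_mem_inertiaIn {τ : L ≃ₐ[K] L} (hτ : τ ∈ A.inertiaSubgroupIn K)
    {a : L} (ha : a ∈ A) : τ a - a ∈ A.nonunits := by
  obtain ⟨ι', hι', rfl⟩ := hτ
  have h1 : ι' • IsLocalRing.residue A ⟨a, ha⟩ = IsLocalRing.residue A ⟨a, ha⟩ := by
    have := congrArg (fun f => f (IsLocalRing.residue A ⟨a, ha⟩)) (MonoidHom.mem_ker.mp hι')
    simpa using this
  rw [← IsLocalRing.ResidueField.residue_smul, ← sub_eq_zero, ← map_sub,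
    IsLocalRing.residue_eq_zero_iff, ← ValuationSubring.coe_mem_nonunits_iff] at h1
  exact h1

theorem valuation_sub_lt_one_of_mem_inertiaIn {τ : L ≃ₐ[K] L} (hτ : τ ∈ A.inertiaSubgroupIn K)
    {a : L} (ha : A.valuation a ≤ 1) : A.valuation (τ a - a) < 1 :=
  A.mem_nonunits_iff.mp
    (sub_mem_nonunits_of_mem_inertiaIn A hτ ((A.valuation_le_one_iff a).mp ha))

/-- Inertia moves every element by something of strictly smaller valuation... up to the
valuation of the element: `v (τ a - a) < v a` for units `a` of `A`. -/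
theorem valuation_sub_lt_of_mem_inertiaIn_of_unit {τ : L ≃ₐ[K] L}
    (hτ : τ ∈ A.inertiaSubgroupIn K) {a : L} (ha : A.valuation a = 1) :
    A.valuation (τ a - a) < A.valuation a := by
  rw [ha]
  exact valuation_sub_lt_one_of_mem_inertiaIn A hτ ha.le

section tame

variable [Algebra.IsAlgebraic K L]

/-- `τ c / c` is a unit of `A` for `τ` in the decomposition group. -/
theorem valuation_apply_div_self {τ : L ≃ₐ[K] L} (hτ : τ ∈ A.decompositionSubgroup K)
    {c : L} (hc : c ≠ 0) : A.valuation (τ c / c) = 1 := by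
  rw [map_div₀, valuation_apply_of_mem_decomposition A hτ,
    div_self ((Valuation.ne_zero_iff _).mpr hc)]

/-- The raw symbol `c ↦ τ c / c` as a monoid hom `Lˣ →* A.unitGroup`. -/
noncomputable def ratioHom {τ : L ≃ₐ[K] L} (hτ : τ ∈ A.decompositionSubgroup K) : Lˣ →* A.unitGroup where
  toFun c := ⟨Units.map (τ : L →* L) c / c, by
    rw [ValuationSubring.mem_unitGroup_iff]
    simpa using valuation_apply_div_self A hτ c.ne_zero⟩
  map_one' := by
    apply Subtype.ext
    simp
  map_mul' c d := by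
    apply Subtype.ext
    simp only [map_mul, Subgroup.coe_mul]
    rw [mul_div_mul_comm]

@[simp]
theorem coe_ratioHom {τ : L ≃ₐ[K] L} (hτ : τ ∈ A.decompositionSubgroup K) (c : Lˣ) :
    (((ratioHom A hτ c : A.unitGroup) : Lˣ) : L) = τ c / c := by
  simp [ratioHom]

/-- **The tame character** `Lˣ →* kˣ`, `c ↦ (τ c / c mod 𝔪_A)`, of an element `τ` of the
inertia group. -/
noncomputable def tameHom {τ : L ≃ₐ[K] L} (hτ : τ ∈ A.inertiaSubgroupIn K) :
    Lˣ →* (IsLocalRing.ResidueField A)ˣ :=
  A.unitGroupToResidueFieldUnits.comp (ratioHom A (mem_decomposition_of_mem_inertiaIn A hτ))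

/-- `tameHom c = 1 ↔ v (τ c - c) < v c`. -/
theorem tameHom_eq_one_iff {τ : L ≃ₐ[K] L} (hτ : τ ∈ A.inertiaSubgroupIn K) (c : Lˣ) :
    tameHom A hτ c = 1 ↔ A.valuation (τ c - c) < A.valuation (c : L) := by
  have hc0 : A.valuation (c : L) ≠ 0 := (Valuation.ne_zero_iff _).mpr c.ne_zero
  have h1 : tameHom A hτ c = 1 ↔
      ratioHom A (mem_decomposition_of_mem_inertiaIn A hτ) c ∈
        A.unitGroupToResidueFieldUnits.ker := by
    rw [MonoidHom.mem_ker]; rfl
  rw [h1, ker_unitGroupToResidueFieldUnits, Subgroup.mem_comap, Subgroup.coe_subtype,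
    ValuationSubring.mem_principalUnitGroup_iff, coe_ratioHom]
  have h2 : τ c / c - 1 = (τ c - c) / c := by
    field_simp
  rw [h2, map_div₀, div_lt_one₀ (pos_iff_ne_zero.mpr hc0)]
where
  ker_unitGroupToResidueFieldUnits := A.ker_unitGroupToResidueFieldUnits

/-- The tame character is trivial on units of `A`. -/
theorem tameHom_eq_one_of_valuation_eq_one {τ : L ≃ₐ[K] L} (hτ : τ ∈ A.inertiaSubgroupIn K)
    (c : Lˣ) (hc : A.valuation (c : L) = 1) : tameHom A hτ c = 1 :=
  (tameHom_eq_one_iff A hτ c).mpr (valuation_sub_lt_of_mem_inertiaIn_of_unit A hτ hc)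

/-- The tame character depends only on the valuation. -/
theorem tameHom_eq_of_valuation_eq {τ : L ≃ₐ[K] L} (hτ : τ ∈ A.inertiaSubgroupIn K)
    (c d : Lˣ) (h : A.valuation (c : L) = A.valuation (d : L)) :
    tameHom A hτ c = tameHom A hτ d := by
  have h1 : tameHom A hτ (c / d) = 1 := by
    apply tameHom_eq_one_of_valuation_eq_one
    rw [Units.val_div_eq_div_val, map_div₀, h,
      div_self ((Valuation.ne_zero_iff _).mpr d.ne_zero)]
  rw [map_div, div_eq_one] at h1
  exact h1

/-- The tame character is trivial on the base field. -/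
theorem tameHom_algebraMap {τ : L ≃ₐ[K] L} (hτ : τ ∈ A.inertiaSubgroupIn K)
    (c : Lˣ) (a : K) (hc : (c : L) = algebraMap K L a) : tameHom A hτ c = 1 := by
  rw [tameHom_eq_one_iff, hc, AlgEquiv.commutes, sub_self, map_zero, ← hc]
  exact pos_iff_ne_zero.mpr ((Valuation.ne_zero_iff _).mpr c.ne_zero)

/-- More generally the tame character is trivial on elements fixed by `τ`. -/
theorem tameHom_eq_one_of_fixed {τ : L ≃ₐ[K] L} (hτ : τ ∈ A.inertiaSubgroupIn K)
    (c : Lˣ) (hc : τ c = c) : tameHom A hτ c = 1 := by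
  rw [tameHom_eq_one_iff, hc, sub_self, map_zero]
  exact pos_iff_ne_zero.mpr ((Valuation.ne_zero_iff _).mpr c.ne_zero)

/-- Values of the tame character are roots of unity: if `c ^ n = a * u` with `a ∈ K` and `u` a
unit of `A`, then `tame(c) ^ n = 1`. -/
theorem tameHom_pow_eq_one {τ : L ≃ₐ[K] L} (hτ : τ ∈ A.inertiaSubgroupIn K)
    (c : Lˣ) (n : ℕ) (a : K) (u : L) (hu : A.valuation u = 1)
    (h : (c : L) ^ n = algebraMap K L a * u) : tameHom A hτ c ^ n = 1 := by
  have hu0 : u ≠ 0 := by
    rintro rfl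
    simp at hu
  have ha0 : algebraMap K L a ≠ 0 := by
    intro h0
    rw [h0, zero_mul] at h
    exact pow_ne_zero n c.ne_zero h
  have hcn : c ^ n = Units.mk0 _ ha0 * Units.mk0 u hu0 := by
    apply Units.ext
    simpa using h
  rw [← map_pow, hcn, map_mul, tameHom_algebraMap A hτ _ a rfl,
    tameHom_eq_one_of_valuation_eq_one A hτ _ hu, one_mul]

/-- `στ c / c = (σ (τ c) / τ c) · (τ c / c)`. -/
theorem ratioHom_mul {σ τ : L ≃ₐ[K] L} (hσ : σ ∈ A.decompositionSubgroup K)
    (hτ : τ ∈ A.decompositionSubgroup K) (c : Lˣ) :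
    ratioHom A (mul_mem hσ hτ) c =
      ratioHom A hσ (Units.map (τ : L →* L) c) * ratioHom A hτ c := by
  apply Subtype.ext
  apply Units.ext
  rw [Subgroup.coe_mul, Units.val_mul, coe_ratioHom, coe_ratioHom, coe_ratioHom]
  have hc0 : (c : L) ≠ 0 := c.ne_zero
  have hd0 : τ (c : L) ≠ 0 := by simp
  have h1 : ((Units.map (τ : L →* L) c : Lˣ) : L) = τ c := rfl
  have h2 : (σ * τ) (c : L) = σ (τ c) := rfl
  rw [h1, h2]
  field_simp

/-- The tame character is multiplicative in `τ`. -/
theorem tameHom_mul {σ τ : L ≃ₐ[K] L} (hσ : σ ∈ A.inertiaSubgroupIn K)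
    (hτ : τ ∈ A.inertiaSubgroupIn K) (c : Lˣ) :
    tameHom A (mul_mem hσ hτ) c = tameHom A hσ c * tameHom A hτ c := by
  set d : Lˣ := Units.map (τ : L →* L) c with hd
  have hdv : A.valuation (d : L) = A.valuation (c : L) :=
    valuation_apply_of_mem_decomposition A (mem_decomposition_of_mem_inertiaIn A hτ) (c : L)
  have h1 : tameHom A hσ d = tameHom A hσ c := tameHom_eq_of_valuation_eq A hσ d c hdv
  rw [← h1]
  show A.unitGroupToResidueFieldUnits (ratioHom A _ c) = _
  rw [ratioHom_mul A (mem_decomposition_of_mem_inertiaIn A hσ)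
    (mem_decomposition_of_mem_inertiaIn A hτ), map_mul]
  rfl

/-- The tame character of the inverse. -/
theorem tameHom_inv {τ : L ≃ₐ[K] L} (hτ : τ ∈ A.inertiaSubgroupIn K) (c : Lˣ) :
    tameHom A (inv_mem hτ) c = (tameHom A hτ c)⁻¹ := by
  have h1 : tameHom A (mul_mem (inv_mem hτ) hτ) c = 1 := by
    apply tameHom_eq_one_of_fixed
    show (τ⁻¹ * τ) (c : L) = c
    rw [inv_mul_cancel]; rfl
  rw [tameHom_mul A (inv_mem hτ) hτ] at h1
  exact eq_inv_of_mul_eq_one_left h1

end tame

end Fermat.Agent.A2.H708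

end
-- ===== PACK-END A2/H708/Tame.lean

-- ===== PACK-BEGIN A2/IF/H429/Hilbert.lean
section


/-!
# A2 / IF (helper429): the inertia field is unramified (finite level, Mathlib only)

Companion of Mathlib's `IsDecompositionField.ramificationIdx_eq` for the inertia field:
if `E` is the inertia field of `P` in the finite Galois extension `L/K` and `𝓟E` is the prime of
`E` below `P`, then `e(𝓟E | p) = 1`.
-/

set_option autoImplicit false
set_option linter.style.haveILetI false
set_option linter.unusedSectionVars false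

open MulAction Pointwise Ideal NumberField IsDedekindDomain

namespace Fermat.Agent.A2.IF.H429

section

variable (A K L : Type*) {B : Type*} [Field K] [Field L] [Algebra K L] [CommRing A] [CommRing B]
  [Algebra A B] {p : Ideal A} (P : Ideal B) [P.LiesOver p]

variable [Algebra A K] [IsFractionRing A K] [Algebra A L] [IsScalarTower A K L] [Algebra B L]
  [IsScalarTower A B L] [IsFractionRing B L] [MulSemiringAction Gal(L/K) B]
  [SMulDistribClass Gal(L/K) B L]

variable (E 𝓞E : Type*) [Field E] [Algebra E L] [IsInertiaField K L P E] [CommRing 𝓞E]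
  [Algebra 𝓞E E] [IsFractionRing 𝓞E E] [Algebra 𝓞E B] [Algebra 𝓞E L] [IsScalarTower 𝓞E E L]
  [IsScalarTower 𝓞E B L] (𝓟E : Ideal 𝓞E) [hE : P.LiesOver 𝓟E]

variable [IsGalois K L] [IsDedekindDomain A] [IsDedekindDomain B] [Module.Finite A B]
  [Module.IsTorsionFree A B] [Algebra A 𝓞E] [Module.Finite A 𝓞E] [IsScalarTower A 𝓞E B]
  [IsDedekindDomain 𝓞E] [𝓟E.LiesOver p]

variable [FiniteDimensional K L] [Ring.HasFiniteQuotients A] [𝓟E.IsMaximal] [P.IsMaximal]

omit [𝓟E.LiesOver p] in
include K L E P in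
theorem inertiaField_ramificationIdxIn_eq (hp : p ≠ ⊥) [PerfectField 𝓟E.ResidueField] :
    ramificationIdxIn 𝓟E B = p.ramificationIdxIn B := by
  have inst₁ : Module.Finite 𝓞E B := Module.Finite.right A 𝓞E B
  have inst₂ : Module.IsTorsionFree 𝓞E B := by
    rw [Module.isTorsionFree_iff_faithfulSMul]
    apply Algebra.IsAlgebraic.faithfulSMul_tower_top A
  have inst₄ : IsGaloisGroup Gal(L/K) A B := .of_isFractionRing _ _ _ K L
  have inst₅ : IsGaloisGroup (inertia Gal(L/K) P) 𝓞E B := .of_isFractionRing _ _ _ E L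
  have : p.IsMaximal := over_def P p ▸ Ideal.IsMaximal.under A P
  have : Finite (A ⧸ p) := Ring.HasFiniteQuotients.finiteQuotient hp
  have h1 := card_inertia_eq_ramificationIdxIn (G := Gal(L/K)) p P
  have h2 := card_inertia_eq_ramificationIdxIn (G := inertia Gal(L/K) P) 𝓟E P
  rw [← h1, ← h2]
  have h3 : (P.inertia (inertia Gal(L/K) P)) = ⊤ := by
    rw [eq_top_iff]
    intro g _
    exact Ideal.coe_mem_inertia.mp g.2
  rw [h3]
  exact Nat.card_congr Subgroup.topEquiv.toEquiv

include K L E P in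
/-- Let `E` be the inertia field of `P` in `L/K` and `𝓟E` the prime of `E` below `P`.  Then
`𝓟E` is unramified over `K`. -/
theorem inertiaField_ramificationIdx_eq (hp : p ≠ ⊥) [PerfectField 𝓟E.ResidueField] :
    𝓟E.ramificationIdx A = 1 := by
  have inst₁ : Module.Finite 𝓞E B := Module.Finite.right A 𝓞E B
  have inst₂ : Module.IsTorsionFree 𝓞E B := by
    rw [Module.isTorsionFree_iff_faithfulSMul]
    apply Algebra.IsAlgebraic.faithfulSMul_tower_top A
  have inst₃ : Module.IsTorsionFree A 𝓞E := Module.IsTorsionFree.of_faithfulSMul _ _ B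
  have inst₄ : IsGaloisGroup Gal(L/K) A B := .of_isFractionRing _ _ _ K L
  have inst₅ : IsGaloisGroup (inertia Gal(L/K) P) 𝓞E B := .of_isFractionRing _ _ _ E L
  have := ramificationIdx_tower (R := A) 𝓟E P
  rwa [← ramificationIdxIn_eq_ramificationIdx 𝓟E P (inertia Gal(L/K) P),
    inertiaField_ramificationIdxIn_eq A K L P E 𝓞E 𝓟E hp,
    ramificationIdxIn_eq_ramificationIdx p P Gal(L/K),
    right_eq_mul₀ <| (ramificationIdx_pos P A).ne'] at this

end


/-- Finite level form of "the inertia field is unramified": an element of the finite Galois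
number field `F` fixed by the inertia group of `P` has the `P`-adic value of a power of `q`. -/
theorem exists_zpow_valuation_eq_one_of_fixed (F : Type*) [Field F] [NumberField F] [IsGalois ℚ F]
    (w : HeightOneSpectrum (𝓞 F)) (q : ℕ) (hq : q.Prime) (hqP : (q : 𝓞 F) ∈ w.asIdeal)
    (y : F) (hy : y ≠ 0) (hfix : ∀ τ ∈ w.asIdeal.inertia Gal(F/ℚ), τ y = y) :
    ∃ k : ℤ, w.valuation F (y / (q : F) ^ k) = 1 := by
  classical
  set P : Ideal (𝓞 F) := w.asIdeal with hP
  haveI : P.IsPrime := w.isPrime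
  haveI : P.IsMaximal := w.isMaximal
  let T : IntermediateField ℚ F := FixedPoints.intermediateField (inertia Gal(F/ℚ) P)
  let 𝓟T : Ideal (𝓞 T) := P.under (𝓞 T)
  let p : Ideal ℤ := P.under ℤ
  have hqp : (q : ℤ) ∈ p := by
    show algebraMap ℤ (𝓞 F) (q : ℤ) ∈ P
    simpa using hqP
  have hp : p ≠ ⊥ := by
    intro h
    rw [h, Ideal.mem_bot] at hqp
    exact hq.ne_zero (by exact_mod_cast hqp)
  have hpq : p = Ideal.span {(q : ℤ)} := by
    have hmax : (Ideal.span {(q : ℤ)}).IsMaximal :=
      PrincipalIdealRing.isMaximal_of_irreducible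
        (Nat.prime_iff_prime_int.mp hq).irreducible
    have hle : Ideal.span {(q : ℤ)} ≤ p := by
      rw [Ideal.span_singleton_le_iff_mem]; exact hqp
    exact (hmax.eq_of_le (Ideal.IsPrime.ne_top inferInstance) hle).symm
  have h𝓟T0 : 𝓟T ≠ ⊥ := Ideal.ne_bot_of_liesOver_of_ne_bot hp 𝓟T
  haveI : 𝓟T.IsMaximal := Ring.DimensionLEOne.maximalOfPrime h𝓟T0 inferInstance
  haveI : Finite (𝓞 T ⧸ 𝓟T) := Ring.HasFiniteQuotients.finiteQuotient h𝓟T0
  have he : 𝓟T.ramificationIdx ℤ = 1 :=
    inertiaField_ramificationIdx_eq ℤ ℚ F P T (𝓞 T) 𝓟T hp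
  let v : HeightOneSpectrum ℤ := ⟨p, inferInstance, hp⟩
  let wT : HeightOneSpectrum (𝓞 T) := ⟨𝓟T, inferInstance, h𝓟T0⟩
  haveI : wT.asIdeal.LiesOver v.asIdeal := (inferInstance : 𝓟T.LiesOver p)
  haveI : w.asIdeal.LiesOver wT.asIdeal := (inferInstance : P.LiesOver 𝓟T)
  have he' : v.asIdeal.ramificationIdx' wT.asIdeal = 1 := by
    rw [Ideal.ramificationIdx'_eq_ramificationIdx v.asIdeal wT.asIdeal hp]
    exact he
  -- value of `q`
  have hvq : v.valuation ℚ (q : ℚ) = WithZero.exp (-1 : ℤ) := by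
    have h1 : v.valuation ℚ ((q : ℤ) : ℚ) = v.intValuation (q : ℤ) :=
      v.valuation_of_algebraMap (q : ℤ)
    rw [Int.cast_natCast] at h1
    rw [h1]
    exact v.intValuation_singleton (by exact_mod_cast hq.ne_zero) hpq
  have hwq : wT.valuation T (q : T) = WithZero.exp (-1 : ℤ) := by
    have h1 := HeightOneSpectrum.valuation_liesOver T v wT (q : ℚ)
    rw [he', pow_one, hvq] at h1
    rw [h1]
    simp
  -- `y` in `T`
  let yT : T := ⟨y, fun g => hfix g.1 g.2⟩
  have hyT : yT ≠ 0 := fun h => hy (congrArg Subtype.val h)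
  have hwy : wT.valuation T yT ≠ 0 := (Valuation.ne_zero_iff _).mpr hyT
  refine ⟨- WithZero.log (wT.valuation T yT), ?_⟩
  have hz : wT.valuation T (yT / (q : T) ^ (- WithZero.log (wT.valuation T yT))) = 1 := by
    rw [map_div₀, map_zpow₀, hwq, ← WithZero.exp_zsmul]
    simp only [smul_eq_mul, mul_neg, mul_one, neg_neg]
    rw [WithZero.exp_log hwy]
    exact div_self hwy
  have h2 := HeightOneSpectrum.valuation_liesOver F wT w
    (yT / (q : T) ^ (- WithZero.log (wT.valuation T yT)))
  rw [hz, one_pow] at h2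
  have h3 : algebraMap T F (yT / (q : T) ^ (- WithZero.log (wT.valuation T yT))) =
      y / (q : F) ^ (- WithZero.log (wT.valuation T yT)) := by
    rw [map_div₀, map_zpow₀, map_natCast]
    rfl
  rw [← h3]
  exact h2.symm


end Fermat.Agent.A2.IF.H429

end
-- ===== PACK-END A2/IF/H429/Hilbert.lean

-- ===== PACK-BEGIN S13/H175/InertiaLift.lean
section


set_option autoImplicit false

/-!
# Lifting inertia elements along a closed normal subgroup of a profinite group

`G` profinite acting continuously on a discrete commutative ring `B`, `N` a closed normal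
subgroup, `Q` a prime of `B`.  If `g₀ ∈ G` acts trivially modulo `Q` on the `N`-invariants of `B`
then there is `σ ∈ g₀ N` acting trivially modulo `Q` on all of `B`.
-/

open scoped Pointwise

namespace Fermat.Agent.S13.H175

universe u

section

variable {B : Type*} [CommRing B]
variable {G : Type u} [Group G] [MulSemiringAction G B]

theorem isInvariant_fixedPoints (N : Subgroup G) :
    Algebra.IsInvariant (FixedPoints.subalgebra ℤ B N) B N :=
  ⟨fun b hb => ⟨⟨b, fun n => hb n⟩, rfl⟩⟩

theorem smul_mem_fixedPoints (N : Subgroup G) [hn : N.Normal] (g : G) {x : B}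
    (hx : ∀ n ∈ N, n • x = x) : ∀ n ∈ N, n • (g • x) = g • x := by
  intro n hnN
  have h1 : g⁻¹ * n * g ∈ N := by
    have := hn.conj_mem n hnN g⁻¹
    simpa using this
  have h2 := hx _ h1
  calc n • (g • x) = g • ((g⁻¹ * n * g) • x) := by
        simp [mul_smul]
    _ = g • x := by rw [h2]

end

variable {B : Type*} [CommRing B]
variable {G : Type u} [Group G] [MulSemiringAction G B]
variable [TopologicalSpace G] [CompactSpace G] [TotallyDisconnectedSpace G]
variable [IsTopologicalGroup G] [TopologicalSpace B] [DiscreteTopology B] [ContinuousSMul G B]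

theorem exists_inertia_lift (N : Subgroup G) [hn : N.Normal] (hN : IsClosed (N : Set G))
    (Q : Ideal B) [hQ : Q.IsPrime] (g₀ : G)
    (h₀ : ∀ x : B, (∀ n ∈ N, n • x = x) → g₀ • x - x ∈ Q) :
    ∃ σ : G, g₀⁻¹ * σ ∈ N ∧ ∀ x : B, σ • x - x ∈ Q := by
  have : CompactSpace N := isCompact_iff_compactSpace.mp hN.isCompact
  have := isInvariant_fixedPoints (B := B) N
  -- Step 1: move `g₀ • Q` back to `Q` by an element of `N`.
  have hunder : (g₀ • Q).under (FixedPoints.subalgebra ℤ B N) =
      Q.under (FixedPoints.subalgebra ℤ B N) := by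
    ext ⟨x, hx⟩
    have hx' : ∀ n ∈ N, n • x = x := fun n hn' => hx ⟨n, hn'⟩
    simp only [Ideal.mem_comap]
    show x ∈ g₀ • Q ↔ x ∈ Q
    rw [Ideal.mem_pointwise_smul_iff_inv_smul_mem]
    have hy : ∀ n ∈ N, n • (g₀⁻¹ • x) = g₀⁻¹ • x := smul_mem_fixedPoints N g₀⁻¹ hx'
    have h1 := h₀ _ hy
    rw [smul_inv_smul] at h1
    constructor
    · intro h
      have := Q.add_mem h1 h
      simpa using this
    · intro h
      have := Q.sub_mem h h1
      simpa using this
  obtain ⟨n, hn1⟩ := Algebra.IsInvariant.exists_smul_of_under_eq_of_profinite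
    (A := FixedPoints.subalgebra ℤ B N) (G := N) (g₀ • Q) Q hunder
  -- `g₁ = n g₀` stabilises `Q` and still acts trivially mod `Q` on the `N`-invariants
  set g₁ : G := (n : G) * g₀ with hg₁
  have hg₁Q : g₁ • Q = Q := by
    rw [hg₁, mul_smul]
    exact hn1.symm
  have hg₁fix : ∀ x : B, (∀ m ∈ N, m • x = x) → g₁ • x - x ∈ Q := by
    intro x hx
    have h1 : (n : G) • (g₀ • x) = g₀ • x := smul_mem_fixedPoints N g₀ hx n n.2
    rw [hg₁, mul_smul, h1]
    exact h₀ x hx
  -- Step 2: the automorphism of `B ⧸ Q` induced by `g₁` is `B' ⧸ Q'`-linear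
  let e₀ : (B ⧸ Q) ≃ₐ[ℤ ⧸ Q.under ℤ] (B ⧸ Q) :=
    Ideal.Quotient.stabilizerHom Q (Q.under ℤ) G ⟨g₁, hg₁Q⟩
  have he₀ : ∀ x : B, e₀ (Ideal.Quotient.mk Q x) = Ideal.Quotient.mk Q (g₁ • x) := fun x => rfl
  let e : (B ⧸ Q) ≃ₐ[FixedPoints.subalgebra ℤ B N ⧸ Q.under (FixedPoints.subalgebra ℤ B N)]
      (B ⧸ Q) :=
    AlgEquiv.ofRingEquiv (f := e₀.toRingEquiv) (by
      intro x
      obtain ⟨⟨b, hb⟩, rfl⟩ := Ideal.Quotient.mk_surjective x
      have hb' : ∀ m ∈ N, m • b = b := fun m hm => hb ⟨m, hm⟩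
      show e₀ (Ideal.Quotient.mk Q b) = Ideal.Quotient.mk Q b
      rw [he₀, Ideal.Quotient.eq]
      exact hg₁fix b hb')
  obtain ⟨n', hn'⟩ := Ideal.Quotient.stabilizerHom_surjective_of_profinite (G := N)
    (Q.under (FixedPoints.subalgebra ℤ B N)) Q e
  have hn'Q : (n' : N) • Q = Q := n'.2
  have hkey : ∀ x : B, ((n' : N) : G) • x - g₁ • x ∈ Q := by
    intro x
    have h1 := congrArg (fun t => t (Ideal.Quotient.mk Q x)) hn'
    simp only [Ideal.Quotient.stabilizerHom_apply] at h1
    have h2 : e (Ideal.Quotient.mk Q x) = Ideal.Quotient.mk Q (g₁ • x) := he₀ x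
    rw [h2] at h1
    exact Ideal.Quotient.eq.mp h1
  refine ⟨((n' : N) : G)⁻¹ * g₁, ?_, fun x => ?_⟩
  · have h1 : ((n' : N) : G)⁻¹ * (n : G) ∈ N := N.mul_mem (N.inv_mem (n' : N).2) n.2
    have h2 := hn.conj_mem _ h1 g₀⁻¹
    have h3 : g₀⁻¹ * (((n' : N) : G)⁻¹ * g₁) = g₀⁻¹ * (((n' : N) : G)⁻¹ * (n : G)) * g₀⁻¹⁻¹ := by
      rw [hg₁]; group
    rw [h3]
    exact h2
  · have h1 : g₁ • x - ((n' : N) : G) • x ∈ Q := by
      have := Q.neg_mem (hkey x)
      simpa using this
    have h2 : ((n' : N) : G)⁻¹ • (g₁ • x - ((n' : N) : G) • x) ∈ Q := by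
      have h3 : g₁ • x - ((n' : N) : G) • x ∈ ((n' : N) : G) • Q := by
        have : ((n' : N) : G) • Q = Q := hn'Q
        rw [this]; exact h1
      exact Ideal.mem_pointwise_smul_iff_inv_smul_mem.mp h3
    have h4 : ((n' : N) : G)⁻¹ • (g₁ • x - ((n' : N) : G) • x) =
        (((n' : N) : G)⁻¹ * g₁) • x - x := by
      rw [smul_sub, inv_smul_smul, ← mul_smul]
    rw [← h4]
    exact h2

end Fermat.Agent.S13.H175

end
-- ===== PACK-END S13/H175/InertiaLift.lean

-- ===== PACK-BEGIN S18/H138/Charts.lean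
section


/-!
# S18, Route K, ASM (helper138): the three charts of the `x`-line model inside a field

`R` a commutative ring, `F` a field which is an `R`-algebra, `x : F`.  The *charts* are

* `chart R {x}`        : elements of `F` integral over `R[x]`        (`B_fin`),
* `chart R {x⁻¹}`      : elements of `F` integral over `R[x⁻¹]`      (`B_inf`),
* `chart R {x, x⁻¹}`   : elements of `F` integral over `R[x, x⁻¹]`   (`B_mid`).

This file proves the formal properties of the charts needed by the two-chart connectedness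
lemma (`H558.cech_connected`):

* `exists_pow_mul_mem_chart`   : `B_mid = B_fin[1/x]`,
* `exists_inv_pow_mul_mem_chart` : every element of `B_fin` lies in `x ^ D • B_inf`,
* `chart_inter_eq` (in `ChartsConst.lean`) : `B_fin ∩ B_inf = R`.
-/

set_option autoImplicit false
set_option linter.style.haveILetI false

namespace Fermat.Agent.S18.H138

open Polynomial

section Basic

variable (R : Type*) [CommRing R] {F : Type*} [Field F] [Algebra R F]

/-- The chart attached to `S ⊆ F`: the elements of `F` integral over `R[S]`. -/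
def chart (S : Set F) : Subalgebra R F :=
  (integralClosure (Algebra.adjoin R S) F).restrictScalars R

variable {R}

theorem mem_chart {S : Set F} {y : F} :
    y ∈ chart R S ↔ IsIntegral (Algebra.adjoin R S) y := Iff.rfl

theorem adjoin_le_chart (S : Set F) : Algebra.adjoin R S ≤ chart R S := by
  intro y hy
  rw [mem_chart]
  exact isIntegral_algebraMap (R := Algebra.adjoin R S) (x := ⟨y, hy⟩)

theorem mem_chart_of_mem {S : Set F} {y : F} (hy : y ∈ S) : y ∈ chart R S :=
  adjoin_le_chart S (Algebra.subset_adjoin hy)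

/-- Integrality over a smaller subalgebra implies integrality over a bigger one. -/
theorem isIntegral_of_le {A₁ A₂ : Subalgebra R F} (h : A₁ ≤ A₂) {y : F}
    (hy : IsIntegral A₁ y) : IsIntegral A₂ y := by
  have := IsIntegral.map_of_comp_eq (R := A₁) (S := F) (T := A₂) (U := F)
    (Subalgebra.inclusion h).toRingHom (RingHom.id F) (by ext; rfl) hy
  simpa using this

theorem chart_mono {S T : Set F} (h : S ⊆ T) : chart R S ≤ chart R T := fun _ hy =>
  isIntegral_of_le (Algebra.adjoin_mono h) hy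

end Basic

section Denominators

variable {R : Type*} [CommRing R] {F : Type*} [Field F] [Algebra R F]

/-- Clearing denominators in `R[x, x⁻¹]`. -/
theorem exists_pow_mul_mem_adjoin {x : F} (hx : x ≠ 0) {a : F}
    (ha : a ∈ Algebra.adjoin R ({x, x⁻¹} : Set F)) :
    ∃ K : ℕ, ∀ k : ℕ, K ≤ k → x ^ k * a ∈ Algebra.adjoin R ({x} : Set F) := by
  have hxA : x ∈ Algebra.adjoin R ({x} : Set F) := Algebra.subset_adjoin rfl
  induction ha using Algebra.adjoin_induction with
  | mem y hy =>
    rcases hy with rfl | rfl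
    · exact ⟨0, fun k _ => Subalgebra.mul_mem _ (Subalgebra.pow_mem _ hxA k) hxA⟩
    · refine ⟨1, fun k hk => ?_⟩
      obtain ⟨k, rfl⟩ : ∃ j, k = j + 1 := ⟨k - 1, by omega⟩
      rw [pow_succ, mul_assoc, mul_inv_cancel₀ hx, mul_one]
      exact Subalgebra.pow_mem _ hxA k
  | algebraMap r =>
    exact ⟨0, fun k _ => Subalgebra.mul_mem _ (Subalgebra.pow_mem _ hxA k)
      (Subalgebra.algebraMap_mem _ r)⟩
  | add y z _ _ hy hz =>
    obtain ⟨K₁, h₁⟩ := hy
    obtain ⟨K₂, h₂⟩ := hz
    refine ⟨max K₁ K₂, fun k hk => ?_⟩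
    rw [mul_add]
    exact Subalgebra.add_mem _ (h₁ k (le_trans (le_max_left _ _) hk))
      (h₂ k (le_trans (le_max_right _ _) hk))
  | mul y z _ _ hy hz =>
    obtain ⟨K₁, h₁⟩ := hy
    obtain ⟨K₂, h₂⟩ := hz
    refine ⟨K₁ + K₂, fun k hk => ?_⟩
    obtain ⟨j, rfl⟩ : ∃ j, k = K₁ + j := ⟨k - K₁, by omega⟩
    have : x ^ (K₁ + j) * (y * z) = (x ^ K₁ * y) * (x ^ j * z) := by ring
    rw [this]
    exact Subalgebra.mul_mem _ (h₁ K₁ le_rfl) (h₂ j (by omega))

/-- `B_mid = B_fin[1/x]`: an element integral over `R[x, x⁻¹]` becomes integral over `R[x]`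
after multiplication by a power of `x`. -/
theorem exists_pow_mul_mem_chart {x : F} (hx : x ≠ 0) {y : F}
    (hy : y ∈ chart R ({x, x⁻¹} : Set F)) :
    ∃ K : ℕ, x ^ K * y ∈ chart R ({x} : Set F) := by
  classical
  set Af : Subalgebra R F := Algebra.adjoin R ({x} : Set F) with hAf
  set Am : Subalgebra R F := Algebra.adjoin R ({x, x⁻¹} : Set F) with hAm
  have hle : Af ≤ Am := Algebra.adjoin_mono (by simp)
  have hxA : x ∈ Af := Algebra.subset_adjoin rfl
  letI : Algebra Af Am := (Subalgebra.inclusion hle).toRingHom.toAlgebra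
  haveI : IsScalarTower Af Am F := IsScalarTower.of_algebraMap_eq (fun _ => rfl)
  let xf : Af := ⟨x, hxA⟩
  haveI : IsLocalization (Submonoid.powers xf) Am := by
    rw [isLocalization_iff]
    refine ⟨?_, ?_, ?_⟩
    · rintro ⟨_, n, rfl⟩
      have hxinv : x⁻¹ ∈ Am := Algebra.subset_adjoin (by simp)
      refine IsUnit.of_mul_eq_one (⟨x⁻¹, hxinv⟩ ^ n) ?_
      apply Subtype.ext
      change x ^ n * (x⁻¹) ^ n = 1
      rw [← mul_pow, mul_inv_cancel₀ hx, one_pow]
    · intro z
      obtain ⟨K, hK⟩ := exists_pow_mul_mem_adjoin (R := R) hx z.2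
      refine ⟨⟨⟨x ^ K * z, hK K le_rfl⟩, ⟨xf ^ K, K, rfl⟩⟩, ?_⟩
      apply Subtype.ext
      change (z : F) * x ^ K = x ^ K * z
      ring
    · intro a b hab
      refine ⟨1, ?_⟩
      have : (a : F) = b := congrArg (fun t : Am => (t : F)) hab
      rw [Subtype.ext this]
  obtain ⟨⟨_, n, rfl⟩, hm⟩ :=
    IsIntegral.exists_multiple_integral_of_isLocalization (Submonoid.powers xf) (Rₘ := Am)
      (S := F) y hy
  refine ⟨n, ?_⟩
  rw [mem_chart]
  have : (⟨xf ^ n, n, rfl⟩ : Submonoid.powers xf) • y = x ^ n * y := rfl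
  rwa [this] at hm

/-- Every element of `B_fin` lies in `x ^ D • B_inf`. -/
theorem exists_inv_pow_mul_mem_chart {x : F} (hx : x ≠ 0) {y : F}
    (hy : y ∈ chart R ({x} : Set F)) :
    ∃ D : ℕ, x⁻¹ ^ D * y ∈ chart R ({x⁻¹} : Set F) := by
  have h1 : y ∈ chart R ({x⁻¹, x⁻¹⁻¹} : Set F) := by
    refine chart_mono ?_ hy
    rw [inv_inv]
    simp
  exact exists_pow_mul_mem_chart (inv_ne_zero hx) h1

end Denominators

end Fermat.Agent.S18.H138

end
-- ===== PACK-END S18/H138/Charts.lean

-- ===== PACK-BEGIN A2/H372/Transversal.lean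
section


/-!
# A2 / T-ALG : abstract transversality at the crossing points (helper372)

Mathlib-only commutative algebra.  Intended instance (helper609 memo `coord/A2-helper609.md`, (T)):

* `A = B_M`, `B = B_N` (`N = qM`): integral closures of `R[j]` in the function fields of level
  `M` and `N` over a DVR `R` (uniformiser `w`, residue characteristic `q`);
* `α β : A →+* B` the two degeneracy maps (`j_d ↦ j_d`, `j_d ↦ j_{qd}`);
* `P₁ P₂` the centres on `B` of the two Gauss valuations (`P₁ ⊓ P₂ = wB`);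
* `n` a maximal ideal of `B` containing `P₁` and `P₂` (a crossing point).

The Kronecker congruences are used in the SEMILINEAR form `KronCong`:
`∀ a, ∃ a', β a - (α a') ^ q ∈ P₁` and `∀ a, ∃ a', α a - (β a') ^ q ∈ P₂`
(over `ℤ_(q)` one takes `a' = a`; over a general `R` one takes for `a'` a lift of the
coefficientwise inverse Frobenius of `a`), so no `𝔽_q`-structure and no base change is needed.

Main results (all elementwise, no localisation needed to state them):

* `KronCong.exists_transversal` : a local generator `α a₀` of the branch `B/P₁` at `n` is,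
  up to a unit at `n` and modulo `P₁`, an element `f ∈ P₂`.
* `KronCong.exists_local_gen`   : `n = (f) + P₁` locally at `n`, with `f ∈ P₂`.
* `KronCong.exists_node`        : node datum `f ∈ P₂`, `g ∈ P₁` with
  `n = (f, g) + P₁ ⊓ P₂`, `P₁ = (g) + P₁ ⊓ P₂`, `P₂ = (f) + P₁ ⊓ P₂` locally at `n`.
* `exists_smooth_gen`           : at a point of `P₁` not on `P₂`: `n = (α a₀) + P₁ ⊓ P₂` locally.
* `exists_isBranchUnif_of_isDedekindDomain` : the local generator `a₀` exists when
  `A ⧸ comap α P₁` is a Dedekind domain.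
* `surjective_of_birational_of_integral` : `α` is onto `B/P₁` (finite birational onto normal).
* localised forms `KronCong.maximalIdeal_eq_span_node`.
-/

set_option autoImplicit false

namespace Fermat.Agent.A2.H372

open Ideal

variable {A B : Type*} [CommRing A] [CommRing B]

/-- Semilinear Kronecker congruences between two ring homomorphisms `α β : A →+* B`
modulo two ideals `P₁ P₂` of `B`. -/
structure KronCong (q : ℕ) (α β : A →+* B) (P₁ P₂ : Ideal B) : Prop where
  cong₁ : ∀ a : A, ∃ a' : A, β a - (α a') ^ q ∈ P₁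
  cong₂ : ∀ a : A, ∃ a' : A, α a - (β a') ^ q ∈ P₂

theorem KronCong.symm {q : ℕ} {α β : A →+* B} {P₁ P₂ : Ideal B}
    (h : KronCong q α β P₁ P₂) : KronCong q β α P₂ P₁ :=
  ⟨h.cong₂, h.cong₁⟩

/-- The linear Kronecker congruences (`a' = a`) give a `KronCong`. -/
theorem KronCong.of_linear {q : ℕ} {α β : A →+* B} {P₁ P₂ : Ideal B}
    (h₁ : ∀ a : A, β a - (α a) ^ q ∈ P₁) (h₂ : ∀ a : A, α a - (β a) ^ q ∈ P₂) :
    KronCong q α β P₁ P₂ :=
  ⟨fun a => ⟨a, h₁ a⟩, fun a => ⟨a, h₂ a⟩⟩

/-- `a₀` is a local generator at `n` of the branch `B/P` parametrised by `α`: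
`α a₀ ∈ n` and every `α a ∈ n` is, up to a factor `α s ∉ n` and modulo `P`, a multiple
of `α a₀`. -/
def IsBranchUnif (α : A →+* B) (P n : Ideal B) (a₀ : A) : Prop :=
  α a₀ ∈ n ∧ ∀ a : A, α a ∈ n → ∃ s y : A, α s ∉ n ∧ α s * α a - α a₀ * α y ∈ P

theorem pow_sub_pow_mem_of_sub_mem {I : Ideal B} {x y : B} (h : x - y ∈ I) (k : ℕ) :
    x ^ k - y ^ k ∈ I := by
  obtain ⟨c, hc⟩ := sub_dvd_pow_sub_pow x y k
  rw [hc]
  exact I.mul_mem_right c h

/-- **Transversality, core.**  A local generator `α a₀` of the first branch at a crossing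
point `n` agrees modulo `P₁`, up to a factor `u ∉ n`, with an element `f` of `P₂`. -/
theorem KronCong.exists_transversal {q : ℕ} (hq : 2 ≤ q) {α β : A →+* B}
    {P₁ P₂ n : Ideal B} [n.IsPrime] (hP₁ : P₁ ≤ n) (hP₂ : P₂ ≤ n)
    (h : KronCong q α β P₁ P₂) {a₀ : A} (ha₀ : IsBranchUnif α P₁ n a₀) :
    ∃ f ∈ P₂, ∃ u : B, u ∉ n ∧ f - u * α a₀ ∈ P₁ := by
  obtain ⟨a₁, h₁⟩ := h.cong₂ a₀
  obtain ⟨a₂, h₂⟩ := h.cong₁ a₁
  have hq0 : q ≠ 0 := by omega
  have hβ : β a₁ ∈ n := by
    have : (β a₁) ^ q ∈ n := by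
      have := n.sub_mem ha₀.1 (hP₂ h₁)
      simpa using this
    exact Ideal.IsPrime.mem_of_pow_mem inferInstance q this
  have hα₂ : α a₂ ∈ n := by
    have : (α a₂) ^ q ∈ n := by
      have := n.sub_mem hβ (hP₁ h₂)
      simpa using this
    exact Ideal.IsPrime.mem_of_pow_mem inferInstance q this
  obtain ⟨s, y, hs, hsy⟩ := ha₀.2 a₂ hα₂
  have hQ : 1 ≤ q ^ 2 := Nat.one_le_pow _ _ (by omega)
  refine ⟨(α s) ^ (q ^ 2) * (α a₀ - (β a₁) ^ q), P₂.mul_mem_left _ h₁,
    (α s) ^ (q ^ 2) - (α a₀) ^ (q ^ 2 - 1) * (α y) ^ (q ^ 2), ?_, ?_⟩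
  · intro hu
    have h1 : (α a₀) ^ (q ^ 2 - 1) ∈ n := by
      have hpos : q ^ 2 - 1 ≠ 0 := by
        have : 4 ≤ q ^ 2 := by nlinarith
        omega
      exact Ideal.pow_mem_of_mem n ha₀.1 _ (Nat.pos_of_ne_zero hpos)
    have h2 : (α s) ^ (q ^ 2) ∈ n := by
      have := n.add_mem hu (n.mul_mem_right ((α y) ^ (q ^ 2)) h1)
      simpa using this
    exact hs (Ideal.IsPrime.mem_of_pow_mem inferInstance _ h2)
  · have e1 : ((β a₁) ^ q) - ((α a₂) ^ q) ^ q ∈ P₁ := pow_sub_pow_mem_of_sub_mem h₂ q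
    have e2 : (α s * α a₂) ^ (q ^ 2) - (α a₀ * α y) ^ (q ^ 2) ∈ P₁ :=
      pow_sub_pow_mem_of_sub_mem hsy (q ^ 2)
    have hpow : (α a₀) ^ (q ^ 2 - 1) * α a₀ = (α a₀) ^ (q ^ 2) := by
      rw [← pow_succ, Nat.sub_add_cancel hQ]
    have key : (α s) ^ (q ^ 2) * (α a₀ - (β a₁) ^ q)
        - ((α s) ^ (q ^ 2) - (α a₀) ^ (q ^ 2 - 1) * (α y) ^ (q ^ 2)) * α a₀
        = -((α s) ^ (q ^ 2) * ((β a₁) ^ q - ((α a₂) ^ q) ^ q))
          - ((α s * α a₂) ^ (q ^ 2) - (α a₀ * α y) ^ (q ^ 2)) := by
      have hp2 : ((α a₂) ^ q) ^ q = (α a₂) ^ (q ^ 2) := by rw [← pow_mul, sq]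
      rw [hp2, mul_pow, mul_pow, ← hpow]
      ring
    rw [key]
    exact P₁.sub_mem (P₁.neg_mem (P₁.mul_mem_left _ e1)) e2

/-- **Transversality.**  If moreover `α` is onto `B/P₁`, then locally at the crossing point
`n` one has `n = (f) + P₁` with `f ∈ P₂`; in particular `n = P₁ + P₂` locally at `n`. -/
theorem KronCong.exists_local_gen {q : ℕ} (hq : 2 ≤ q) {α β : A →+* B}
    {P₁ P₂ n : Ideal B} [n.IsPrime] (hP₁ : P₁ ≤ n) (hP₂ : P₂ ≤ n)
    (h : KronCong q α β P₁ P₂) (hα : ∀ b : B, ∃ a : A, b - α a ∈ P₁)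
    {a₀ : A} (ha₀ : IsBranchUnif α P₁ n a₀) :
    ∃ f ∈ P₂, ∀ x ∈ n, ∃ t : B, t ∉ n ∧ ∃ z : B, t * x - f * z ∈ P₁ := by
  obtain ⟨f, hf, u, hu, hfu⟩ := h.exists_transversal hq hP₁ hP₂ ha₀
  refine ⟨f, hf, fun x hx => ?_⟩
  obtain ⟨a, ha⟩ := hα x
  have han : α a ∈ n := by
    have := n.sub_mem hx (hP₁ ha)
    simpa using this
  obtain ⟨s, y, hs, hsy⟩ := ha₀.2 a han
  refine ⟨u * α s, fun hmem => ?_, α y, ?_⟩
  · rcases Ideal.IsPrime.mem_or_mem inferInstance hmem with h' | h'
    · exact hu h'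
    · exact hs h'
  · have key : u * α s * x - f * α y
        = u * α s * (x - α a) + u * (α s * α a - α a₀ * α y) - (f - u * α a₀) * α y := by
      ring
    rw [key]
    exact P₁.sub_mem (P₁.add_mem (P₁.mul_mem_left _ ha) (P₁.mul_mem_left _ hsy))
      (P₁.mul_mem_right _ hfu)

/-- `P₁ + P₂` is the maximal ideal locally at a crossing point. -/
theorem KronCong.mem_sup_of_mem {q : ℕ} (hq : 2 ≤ q) {α β : A →+* B}
    {P₁ P₂ n : Ideal B} [n.IsPrime] (hP₁ : P₁ ≤ n) (hP₂ : P₂ ≤ n)
    (h : KronCong q α β P₁ P₂) (hα : ∀ b : B, ∃ a : A, b - α a ∈ P₁)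
    {a₀ : A} (ha₀ : IsBranchUnif α P₁ n a₀) {x : B} (hx : x ∈ n) :
    ∃ t : B, t ∉ n ∧ t * x ∈ P₁ ⊔ P₂ := by
  obtain ⟨f, hf, hloc⟩ := h.exists_local_gen hq hP₁ hP₂ hα ha₀
  obtain ⟨t, ht, z, hz⟩ := hloc x hx
  refine ⟨t, ht, ?_⟩
  have : t * x = (t * x - f * z) + f * z := by ring
  rw [this]
  exact Ideal.add_mem _ (Ideal.mem_sup_left hz) (Ideal.mem_sup_right (P₂.mul_mem_right _ hf))

/-- **Node datum at a crossing point.**  There are `f ∈ P₂`, `g ∈ P₁` such that, locally at
`n` and modulo `P₁ ⊓ P₂` (`= wB` in the application): `n = (f, g)`, `P₁ = (g)`, `P₂ = (f)`;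
and `f * g ∈ P₁ ⊓ P₂`. -/
theorem KronCong.exists_node {q : ℕ} (hq : 2 ≤ q) {α β : A →+* B}
    {P₁ P₂ n : Ideal B} [n.IsPrime] (hP₁ : P₁ ≤ n) (hP₂ : P₂ ≤ n)
    (h : KronCong q α β P₁ P₂)
    (hα : ∀ b : B, ∃ a : A, b - α a ∈ P₁) (hβ : ∀ b : B, ∃ a : A, b - β a ∈ P₂)
    {a₀ b₀ : A} (ha₀ : IsBranchUnif α P₁ n a₀) (hb₀ : IsBranchUnif β P₂ n b₀) :
    ∃ f g : B, f ∈ P₂ ∧ g ∈ P₁ ∧ f * g ∈ P₁ ⊓ P₂ ∧
      (∀ x ∈ n, ∃ t : B, t ∉ n ∧ ∃ y z : B, t * x - (f * y + g * z) ∈ P₁ ⊓ P₂) ∧
      (∀ x ∈ P₁, ∃ t : B, t ∉ n ∧ ∃ z : B, t * x - g * z ∈ P₁ ⊓ P₂) ∧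
      (∀ x ∈ P₂, ∃ t : B, t ∉ n ∧ ∃ y : B, t * x - f * y ∈ P₁ ⊓ P₂) := by
  obtain ⟨f, hf, hlocf⟩ := h.exists_local_gen hq hP₁ hP₂ hα ha₀
  obtain ⟨g, hg, hlocg⟩ := h.symm.exists_local_gen hq hP₂ hP₁ hβ hb₀
  have hP1 : ∀ x ∈ P₁, ∃ t : B, t ∉ n ∧ ∃ z : B, t * x - g * z ∈ P₁ ⊓ P₂ := by
    intro x hx
    obtain ⟨t, ht, z, hz⟩ := hlocg x (hP₁ hx)
    exact ⟨t, ht, z, ⟨P₁.sub_mem (P₁.mul_mem_left _ hx) (P₁.mul_mem_right _ hg), hz⟩⟩
  have hP2 : ∀ x ∈ P₂, ∃ t : B, t ∉ n ∧ ∃ y : B, t * x - f * y ∈ P₁ ⊓ P₂ := by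
    intro x hx
    obtain ⟨t, ht, z, hz⟩ := hlocf x (hP₂ hx)
    exact ⟨t, ht, z, ⟨hz, P₂.sub_mem (P₂.mul_mem_left _ hx) (P₂.mul_mem_right _ hf)⟩⟩
  refine ⟨f, g, hf, hg, ⟨P₁.mul_mem_left _ hg, P₂.mul_mem_right _ hf⟩, ?_, hP1, hP2⟩
  intro x hx
  obtain ⟨t, ht, y, hy⟩ := hlocf x hx
  obtain ⟨t', ht', z, hz⟩ := hP1 _ hy
  refine ⟨t' * t, fun hmem => ?_, t' * y, z, ?_⟩
  · rcases Ideal.IsPrime.mem_or_mem inferInstance hmem with h' | h'
    · exact ht' h'
    · exact ht h'
  · have key : t' * t * x - (f * (t' * y) + g * z) = t' * (t * x - f * y) - g * z := by ring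
    rw [key]
    exact hz

/-- **Smooth points.**  At a point `n` of the first branch which is not on the second one,
`n = (α a₀) + P₁ ⊓ P₂` locally at `n`. -/
theorem exists_smooth_gen {α : A →+* B} {P₁ P₂ n : Ideal B} [n.IsPrime]
    (hP₁ : P₁ ≤ n) (hP₂ : ¬ P₂ ≤ n) (hα : ∀ b : B, ∃ a : A, b - α a ∈ P₁)
    {a₀ : A} (ha₀ : IsBranchUnif α P₁ n a₀) :
    ∀ x ∈ n, ∃ t : B, t ∉ n ∧ ∃ z : B, t * x - α a₀ * z ∈ P₁ ⊓ P₂ := by
  intro x hx
  obtain ⟨e, he, hen⟩ := SetLike.not_le_iff_exists.mp hP₂
  obtain ⟨a, ha⟩ := hα x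
  have han : α a ∈ n := by
    have := n.sub_mem hx (hP₁ ha)
    simpa using this
  obtain ⟨s, y, hs, hsy⟩ := ha₀.2 a han
  refine ⟨e * α s, fun hmem => ?_, e * α y, ?_⟩
  · rcases Ideal.IsPrime.mem_or_mem inferInstance hmem with h' | h'
    · exact hen h'
    · exact hs h'
  · have key : e * α s * x - α a₀ * (e * α y)
        = e * (α s * (x - α a) + (α s * α a - α a₀ * α y)) := by ring
    rw [key]
    exact ⟨P₁.mul_mem_left _ (P₁.add_mem (P₁.mul_mem_left _ ha) hsy), P₂.mul_mem_right _ he⟩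

/-! ### Existence of the local generator on a Dedekind branch -/

/-- In a Dedekind domain every prime ideal is locally principal, in elementwise form. -/
theorem exists_local_generator_of_isDedekindDomain (D : Type*) [CommRing D]
    [IsDedekindDomain D] (m : Ideal D) [m.IsPrime] :
    ∃ a₀ ∈ m, ∀ a ∈ m, ∃ s y : D, s ∉ m ∧ s * a = a₀ * y := by
  by_cases hm : m = ⊥
  · refine ⟨0, m.zero_mem, fun a ha => ⟨1, 0, ?_, ?_⟩⟩
    · exact fun h1 => (Ideal.IsPrime.ne_top inferInstance) ((Ideal.eq_top_iff_one m).mpr h1)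
    · rw [hm] at ha
      rw [Ideal.mem_bot.mp ha]
      simp
  · let L := Localization.AtPrime m
    have : IsDiscreteValuationRing L :=
      IsLocalization.AtPrime.isDiscreteValuationRing_of_dedekind_domain D hm L
    obtain ⟨ϖ, hϖ⟩ := IsDiscreteValuationRing.exists_irreducible L
    obtain ⟨a₀, s₀, rfl⟩ := IsLocalization.exists_mk'_eq m.primeCompl ϖ
    have hs₀ : IsUnit (algebraMap D L (s₀ : D)) := IsLocalization.map_units L s₀
    have hmax : IsLocalRing.maximalIdeal L = Ideal.span {algebraMap D L a₀} := by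
      rw [hϖ.maximalIdeal_eq]
      apply Ideal.span_singleton_eq_span_singleton.mpr
      refine ⟨hs₀.unit, ?_⟩
      simp [IsLocalization.mk'_spec]
    have hinj : Function.Injective (algebraMap D L) :=
      IsLocalization.injective L (Ideal.primeCompl_le_nonZeroDivisors m)
    have ha₀ : a₀ ∈ m := by
      rw [← IsLocalization.AtPrime.to_map_mem_maximal_iff L m a₀, hmax]
      exact Ideal.mem_span_singleton_self _
    refine ⟨a₀, ha₀, fun a ha => ?_⟩
    have : algebraMap D L a ∈ Ideal.span {algebraMap D L a₀} := by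
      rw [← hmax]
      exact (IsLocalization.AtPrime.to_map_mem_maximal_iff L m a).mpr ha
    obtain ⟨c, hc⟩ := Ideal.mem_span_singleton'.mp this
    obtain ⟨y, s, rfl⟩ := IsLocalization.exists_mk'_eq m.primeCompl c
    refine ⟨s, y, s.2, hinj ?_⟩
    rw [map_mul, map_mul, ← hc, ← IsLocalization.mk'_spec L y s]
    ring

/-- If the branch `A ⧸ comap α P` is a Dedekind domain, every prime `n ⊇ P` of `B` has a
local generator in the sense of `IsBranchUnif`. -/
theorem exists_isBranchUnif_of_isDedekindDomain (α : A →+* B) (P n : Ideal B) [n.IsPrime]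
    (hP : P ≤ n) [IsDedekindDomain (A ⧸ Ideal.comap α P)] :
    ∃ a₀ : A, IsBranchUnif α P n a₀ := by
  have hle : Ideal.comap α P ≤ Ideal.comap α n := Ideal.comap_mono hP
  let ψ : A ⧸ Ideal.comap α P →+* B ⧸ n := Ideal.quotientMap n α hle
  let m : Ideal (A ⧸ Ideal.comap α P) := RingHom.ker ψ
  have : m.IsPrime := RingHom.ker_isPrime ψ
  have hmem : ∀ a : A, Ideal.Quotient.mk (Ideal.comap α P) a ∈ m ↔ α a ∈ n := by
    intro a
    simp only [m, ψ, RingHom.mem_ker, Ideal.quotientMap_mk, Ideal.Quotient.eq_zero_iff_mem]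
  obtain ⟨a₀', ha₀', hgen⟩ := exists_local_generator_of_isDedekindDomain _ m
  obtain ⟨a₀, rfl⟩ := Ideal.Quotient.mk_surjective a₀'
  refine ⟨a₀, (hmem a₀).mp ha₀', fun a ha => ?_⟩
  obtain ⟨s', y', hs', hsy'⟩ := hgen _ ((hmem a).mpr ha)
  obtain ⟨s, rfl⟩ := Ideal.Quotient.mk_surjective s'
  obtain ⟨y, rfl⟩ := Ideal.Quotient.mk_surjective y'
  refine ⟨s, y, fun h => hs' ((hmem s).mpr h), ?_⟩
  have h0 : Ideal.Quotient.mk (Ideal.comap α P) (s * a - a₀ * y) = 0 := by
    rw [map_sub, map_mul, map_mul, hsy', sub_self]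
  have := Ideal.Quotient.eq_zero_iff_mem.mp h0
  rw [Ideal.mem_comap, map_sub, map_mul, map_mul] at this
  exact this

/-! ### Localised forms -/

section Localised

variable (R : Type*) [CommRing R] [Algebra B R]

/-- If every element of `n` lies in `J` up to a factor outside `n`, then `n` and `J` generate
the same ideal in the localisation at `n`. -/
theorem map_eq_map_of_local {n J : Ideal B} [n.IsPrime] [IsLocalization.AtPrime R n]
    (hJ : J ≤ n) (h : ∀ x ∈ n, ∃ t : B, t ∉ n ∧ t * x ∈ J) :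
    Ideal.map (algebraMap B R) n = Ideal.map (algebraMap B R) J := by
  refine le_antisymm ?_ (Ideal.map_mono hJ)
  rw [Ideal.map_le_iff_le_comap]
  intro x hx
  obtain ⟨t, ht, htx⟩ := h x hx
  have hu : IsUnit (algebraMap B R t) :=
    IsLocalization.map_units R (⟨t, ht⟩ : n.primeCompl)
  rw [Ideal.mem_comap]
  have hmem : algebraMap B R t * algebraMap B R x ∈ Ideal.map (algebraMap B R) J := by
    rw [← map_mul]
    exact Ideal.mem_map_of_mem _ htx
  exact (Ideal.unit_mul_mem_iff_mem _ hu).mp hmem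

/-- **Node datum, localised form.**  In the local ring `R = B_n` at a crossing point:
`𝔪 = (f, g) + (P₁ ⊓ P₂)R`, `P₁R = (g) + (P₁ ⊓ P₂)R`, `P₂R = (f) + (P₁ ⊓ P₂)R`. -/
theorem KronCong.map_eq_span_node {q : ℕ} (hq : 2 ≤ q) {α β : A →+* B}
    {P₁ P₂ n : Ideal B} [n.IsPrime] [IsLocalization.AtPrime R n]
    (hP₁ : P₁ ≤ n) (hP₂ : P₂ ≤ n) (h : KronCong q α β P₁ P₂)
    (hα : ∀ b : B, ∃ a : A, b - α a ∈ P₁) (hβ : ∀ b : B, ∃ a : A, b - β a ∈ P₂)
    {a₀ b₀ : A} (ha₀ : IsBranchUnif α P₁ n a₀) (hb₀ : IsBranchUnif β P₂ n b₀) :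
    ∃ f g : B, f ∈ P₂ ∧ g ∈ P₁ ∧ f * g ∈ P₁ ⊓ P₂ ∧
      Ideal.map (algebraMap B R) n =
        Ideal.span {algebraMap B R f, algebraMap B R g}
          ⊔ Ideal.map (algebraMap B R) (P₁ ⊓ P₂) ∧
      Ideal.map (algebraMap B R) P₁ =
        Ideal.span {algebraMap B R g} ⊔ Ideal.map (algebraMap B R) (P₁ ⊓ P₂) ∧
      Ideal.map (algebraMap B R) P₂ =
        Ideal.span {algebraMap B R f} ⊔ Ideal.map (algebraMap B R) (P₁ ⊓ P₂) := by
  obtain ⟨f, g, hf, hg, hfg, hn, h1, h2⟩ := h.exists_node hq hP₁ hP₂ hα hβ ha₀ hb₀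
  refine ⟨f, g, hf, hg, hfg, ?_, ?_, ?_⟩
  · have hJ : Ideal.span {f, g} ⊔ (P₁ ⊓ P₂) ≤ n := by
      refine sup_le ?_ (inf_le_left.trans hP₁)
      rw [Ideal.span_le]
      rintro x (rfl | rfl)
      · exact hP₂ hf
      · exact hP₁ hg
    rw [map_eq_map_of_local R hJ, Ideal.map_sup, Ideal.map_span, Set.image_pair]
    intro x hx
    obtain ⟨t, ht, y, z, hyz⟩ := hn x hx
    refine ⟨t, ht, ?_⟩
    have : t * x = (f * y + g * z) + (t * x - (f * y + g * z)) := by ring
    rw [this]
    refine Ideal.add_mem _ (Ideal.mem_sup_left ?_) (Ideal.mem_sup_right hyz)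
    exact Ideal.add_mem _
      (Ideal.mul_mem_right _ _ (Ideal.subset_span (Set.mem_insert _ _)))
      (Ideal.mul_mem_right _ _ (Ideal.subset_span (Set.mem_insert_of_mem _ rfl)))
  · refine le_antisymm ?_ ?_
    · rw [Ideal.map_le_iff_le_comap]
      intro x hx
      obtain ⟨t, ht, z, hz⟩ := h1 x hx
      have hu : IsUnit (algebraMap B R t) :=
        IsLocalization.map_units R (⟨t, ht⟩ : n.primeCompl)
      rw [Ideal.mem_comap]
      refine (Ideal.unit_mul_mem_iff_mem _ hu).mp ?_
      have : algebraMap B R t * algebraMap B R x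
          = algebraMap B R g * algebraMap B R z + algebraMap B R (t * x - g * z) := by
        simp only [map_sub, map_mul]; ring
      rw [this]
      exact Ideal.add_mem _
        (Ideal.mem_sup_left (Ideal.mul_mem_right _ _ (Ideal.mem_span_singleton_self _)))
        (Ideal.mem_sup_right (Ideal.mem_map_of_mem _ hz))
    · refine sup_le ?_ (Ideal.map_mono inf_le_left)
      rw [Ideal.span_le, Set.singleton_subset_iff]
      exact Ideal.mem_map_of_mem _ hg
  · refine le_antisymm ?_ ?_
    · rw [Ideal.map_le_iff_le_comap]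
      intro x hx
      obtain ⟨t, ht, z, hz⟩ := h2 x hx
      have hu : IsUnit (algebraMap B R t) :=
        IsLocalization.map_units R (⟨t, ht⟩ : n.primeCompl)
      rw [Ideal.mem_comap]
      refine (Ideal.unit_mul_mem_iff_mem _ hu).mp ?_
      have : algebraMap B R t * algebraMap B R x
          = algebraMap B R f * algebraMap B R z + algebraMap B R (t * x - f * z) := by
        simp only [map_sub, map_mul]; ring
      rw [this]
      exact Ideal.add_mem _
        (Ideal.mem_sup_left (Ideal.mul_mem_right _ _ (Ideal.mem_span_singleton_self _)))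
        (Ideal.mem_sup_right (Ideal.mem_map_of_mem _ hz))
    · refine sup_le ?_ (Ideal.map_mono inf_le_right)
      rw [Ideal.span_le, Set.singleton_subset_iff]
      exact Ideal.mem_map_of_mem _ hf

/-- **Node datum with a uniformiser.**  If moreover `P₁ ⊓ P₂ = (w)` (reduced special fibre with
exactly the two branches), then in `R = B_n`: `𝔪 = (f, g, w)` and `f * g = w * h`. -/
theorem KronCong.map_eq_span_triple {q : ℕ} (hq : 2 ≤ q) {α β : A →+* B}
    {P₁ P₂ n : Ideal B} [n.IsPrime] [IsLocalization.AtPrime R n]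
    (hP₁ : P₁ ≤ n) (hP₂ : P₂ ≤ n) (h : KronCong q α β P₁ P₂)
    (hα : ∀ b : B, ∃ a : A, b - α a ∈ P₁) (hβ : ∀ b : B, ∃ a : A, b - β a ∈ P₂)
    {a₀ b₀ : A} (ha₀ : IsBranchUnif α P₁ n a₀) (hb₀ : IsBranchUnif β P₂ n b₀)
    {w : B} (hw : P₁ ⊓ P₂ = Ideal.span {w}) :
    ∃ f g k : B, f ∈ P₂ ∧ g ∈ P₁ ∧ f * g = w * k ∧
      Ideal.map (algebraMap B R) n =
        Ideal.span {algebraMap B R f, algebraMap B R g, algebraMap B R w} ∧
      Ideal.map (algebraMap B R) P₁ = Ideal.span {algebraMap B R g, algebraMap B R w} ∧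
      Ideal.map (algebraMap B R) P₂ = Ideal.span {algebraMap B R f, algebraMap B R w} := by
  obtain ⟨f, g, hf, hg, hfg, hn, h1, h2⟩ :=
    h.map_eq_span_node R hq hP₁ hP₂ hα hβ ha₀ hb₀
  rw [hw] at hfg hn h1 h2
  obtain ⟨k, hk⟩ := Ideal.mem_span_singleton'.mp hfg
  refine ⟨f, g, k, hf, hg, by rw [← hk, mul_comm], ?_, ?_, ?_⟩
  · rw [hn, Ideal.map_span, Set.image_singleton, ← Ideal.span_union]
    congr 1
    ext x
    simp only [Set.union_singleton, Set.mem_insert_iff, Set.mem_singleton_iff]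
    tauto
  · rw [h1, Ideal.map_span, Set.image_singleton, ← Ideal.span_union]
    congr 1
  · rw [h2, Ideal.map_span, Set.image_singleton, ← Ideal.span_union]
    congr 1

/-- **Smooth points, localised form.** -/
theorem map_eq_span_smooth {α : A →+* B} {P₁ P₂ n : Ideal B} [n.IsPrime]
    [IsLocalization.AtPrime R n]
    (hP₁ : P₁ ≤ n) (hP₂ : ¬ P₂ ≤ n) (hα : ∀ b : B, ∃ a : A, b - α a ∈ P₁)
    {a₀ : A} (ha₀ : IsBranchUnif α P₁ n a₀) :
    Ideal.map (algebraMap B R) n =
      Ideal.span {algebraMap B R (α a₀)} ⊔ Ideal.map (algebraMap B R) (P₁ ⊓ P₂) := by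
  have hJ : Ideal.span {α a₀} ⊔ (P₁ ⊓ P₂) ≤ n := by
    refine sup_le ?_ (inf_le_left.trans hP₁)
    rw [Ideal.span_le, Set.singleton_subset_iff]
    exact ha₀.1
  rw [map_eq_map_of_local R hJ, Ideal.map_sup, Ideal.map_span, Set.image_singleton]
  intro x hx
  obtain ⟨t, ht, z, hz⟩ := exists_smooth_gen hP₁ hP₂ hα ha₀ x hx
  refine ⟨t, ht, ?_⟩
  have : t * x = α a₀ * z + (t * x - α a₀ * z) := by ring
  rw [this]
  exact Ideal.add_mem _
    (Ideal.mem_sup_left (Ideal.mul_mem_right _ _ (Ideal.mem_span_singleton_self _)))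
    (Ideal.mem_sup_right hz)

end Localised

/-! ### `α` is onto the branch: finite birational onto a normal domain -/

/-- An injective, integral, birational ring homomorphism out of an integrally closed domain is
surjective.  (Used for `A ⧸ wA → B ⧸ P₁`: both have the same fraction field by the residue
degree count, the target is integral over `κ[j]`, the source is normal by `b2`.) -/
theorem surjective_of_birational_of_integral {C D : Type*} [CommRing C] [IsDomain C]
    [IsIntegrallyClosed C] [CommRing D] [IsDomain D] (φ : C →+* D)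
    (hinj : Function.Injective φ) (hint : φ.IsIntegral)
    (hbir : ∀ d : D, ∃ c₁ c₂ : C, c₂ ≠ 0 ∧ φ c₂ * d = φ c₁) : Function.Surjective φ := by
  intro d
  obtain ⟨c₁, c₂, hc₂, hd⟩ := hbir d
  obtain ⟨p, hp, hpd⟩ := hint d
  let K := FractionRing C
  let L := FractionRing D
  let g : C →+* L := (algebraMap D L).comp φ
  have hg : Function.Injective g := (IsFractionRing.injective D L).comp hinj
  let ι : K →+* L := IsFractionRing.lift hg
  have hι : ∀ c : C, ι (algebraMap C K c) = algebraMap D L (φ c) := fun c =>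
    IsFractionRing.lift_algebraMap hg c
  have hc₂K : algebraMap C K c₂ ≠ 0 := by
    simpa using (IsFractionRing.injective C K).ne hc₂
  have hφc₂ : φ c₂ ≠ 0 := by
    simpa using hinj.ne hc₂
  have hc₂L : algebraMap D L (φ c₂) ≠ 0 := by
    simpa using (IsFractionRing.injective D L).ne hφc₂
  set k : K := algebraMap C K c₁ / algebraMap C K c₂ with hk
  have hιk : ι k = algebraMap D L d := by
    rw [hk, map_div₀, hι, hι, ← hd, map_mul, mul_div_cancel_left₀ _ hc₂L]
  have hcomp : ι.comp (algebraMap C K) = (algebraMap D L).comp φ := by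
    ext c; exact hι c
  have he : Polynomial.eval₂ (algebraMap C K) k p = 0 := by
    apply ι.injective
    rw [Polynomial.hom_eval₂, hcomp, hιk, ← Polynomial.hom_eval₂, hpd, map_zero, map_zero]
  have hint' : IsIntegral C k := ⟨p, hp, he⟩
  obtain ⟨c, hc⟩ := IsIntegrallyClosed.isIntegral_iff.mp hint'
  refine ⟨c, ?_⟩
  have h1 : c * c₂ = c₁ := by
    apply IsFractionRing.injective C K
    rw [map_mul, hc, hk, div_mul_cancel₀ _ hc₂K]
  apply mul_left_cancel₀ hφc₂
  rw [hd, ← h1, map_mul, mul_comm]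

end Fermat.Agent.A2.H372

end
-- ===== PACK-END A2/H372/Transversal.lean

-- ===== PACK-BEGIN A2/H528/FrobCong.lean
section





/-!
# A2 — the Frobenius congruence `f(q^ℓ) ≡ f(q)^ℓ (mod ℓ)` for Laurent series

* `qExpand_eq_pow_zmod` : over `𝔽_ℓ`, `f(q^ℓ) = f(q)^ℓ`;
* `exists_frobCong`     : over `ℤ`, `f(q^ℓ) - f(q)^ℓ = ℓ · g` with `g ∈ ℤ((q))`.
-/

set_option autoImplicit false

noncomputable section

open ModularCurve HahnSeries

namespace Fermat.Agent.A2.H528

theorem qExpand_ofPowerSeries {R : Type*} [CommRing R] (n : ℕ) [NeZero n] (u : PowerSeries R) :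
    qExpand R n (HahnSeries.ofPowerSeries ℤ R u)
      = HahnSeries.ofPowerSeries ℤ R (u.expand n (NeZero.ne n)) := by
  have hn : (n : ℤ) ≠ 0 := by exact_mod_cast NeZero.ne n
  have hn0 : 0 < (n : ℤ) := by exact_mod_cast Nat.pos_of_ne_zero (NeZero.ne n)
  ext k
  by_cases hk : (n : ℤ) ∣ k
  · obtain ⟨m, rfl⟩ := hk
    rw [qExpand_coeff_mul]
    rcases le_or_gt 0 m with hm | hm
    · lift m to ℕ using hm
      rw [HahnSeries.ofPowerSeries_apply_coeff,
        show (n : ℤ) * (m : ℤ) = ((n * m : ℕ) : ℤ) by push_cast; ring,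
        HahnSeries.ofPowerSeries_apply_coeff, PowerSeries.coeff_expand_mul]
    · rw [ofPowerSeries_coeff_of_neg _ hm,
        ofPowerSeries_coeff_of_neg _ (mul_neg_of_pos_of_neg hn0 hm)]
  · rw [qExpand_coeff_of_not_dvd n _ hk]
    rcases le_or_gt 0 k with hk0 | hk0
    · lift k to ℕ using hk0
      rw [HahnSeries.ofPowerSeries_apply_coeff, PowerSeries.coeff_expand_of_not_dvd]
      intro h
      exact hk (by exact_mod_cast h)
    · rw [ofPowerSeries_coeff_of_neg _ hk0]

variable (ℓ : ℕ) [hℓ : Fact ℓ.Prime]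

theorem powerSeries_pow_eq_expand (u : PowerSeries (ZMod ℓ)) :
    u ^ ℓ = u.expand ℓ hℓ.out.ne_zero := by
  have h := MvPowerSeries.map_frobenius_expand (σ := Unit) (R := ZMod ℓ) ℓ hℓ.out.ne_zero (f := u)
  have hf : frobenius (ZMod ℓ) ℓ = RingHom.id (ZMod ℓ) := by
    ext a
    simp
  rw [hf, MvPowerSeries.map_id] at h
  exact h.symm

/-- **Frobenius in characteristic `ℓ`**: `f(q^ℓ) = f(q)^ℓ` for `f ∈ 𝔽_ℓ((q))`. -/
theorem qExpand_eq_pow_zmod (f : LaurentSeries (ZMod ℓ)) :
    qExpand (ZMod ℓ) ℓ f = f ^ ℓ := by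
  conv_lhs => rw [← LaurentSeries.single_order_mul_powerSeriesPart f]
  conv_rhs => rw [← LaurentSeries.single_order_mul_powerSeriesPart f]
  rw [map_mul, mul_pow, qExpand_single, HahnSeries.single_pow, one_pow, qExpand_ofPowerSeries,
    ← map_pow, powerSeries_pow_eq_expand, nsmul_eq_mul]

/-- division by `ℓ` as a zero-preserving map of `ℤ` -/
def divPrime : ZeroHom ℤ ℤ where
  toFun c := c / ℓ
  map_zero' := by simp

/-- **Frobenius congruence**: `f(q^ℓ) - f(q)^ℓ ∈ ℓ · ℤ((q))` for `f ∈ ℤ((q))`. -/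
theorem exists_frobCong (x : LaurentSeries ℤ) :
    ∃ g : LaurentSeries ℤ, qExpand ℤ ℓ x - x ^ ℓ = HahnSeries.C (ℓ : ℤ) * g := by
  set D : LaurentSeries ℤ := qExpand ℤ ℓ x - x ^ ℓ with hD
  have h0 : coeffMap (Int.castRingHom (ZMod ℓ)) D = 0 := by
    rw [hD, map_sub, map_pow, coeffMap_qExpand, qExpand_eq_pow_zmod, sub_self]
  have hdvd : ∀ k : ℤ, (ℓ : ℤ) ∣ D.coeff k := by
    intro k
    have h1 := congrArg (fun s => s.coeff k) h0
    simp only [coeffMap_coeff, HahnSeries.coeff_zero, eq_intCast] at h1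
    exact (ZMod.intCast_zmod_eq_zero_iff_dvd _ _).mp h1
  refine ⟨D.map (divPrime ℓ), ?_⟩
  ext k
  rw [HahnSeries.C_mul_eq_smul, HahnSeries.coeff_smul, HahnSeries.map_coeff, smul_eq_mul]
  show D.coeff k = (ℓ : ℤ) * (D.coeff k / ℓ)
  rw [Int.mul_ediv_cancel' (hdvd k)]

end Fermat.Agent.A2.H528

end
end
-- ===== PACK-END A2/H528/FrobCong.lean

-- ===== PACK-BEGIN S28/H326/Basic.lean
section
/-
S28 / helper326: formal conjugation operators on power series over `ℂ`
(`q ↦ ζ^b t` and `q ↦ t^(p²)`, base embedding `q ↦ t^p`) and the Hecke power-sum identity.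
-/




set_option autoImplicit false
set_option linter.unusedSectionVars false

noncomputable section

namespace Fermat.Agent.S28.H326

open ModularCurve HahnSeries

/-- `ℂ⟦X⟧ → ℂ((t))`. -/
abbrev ofPS : PowerSeries ℂ →+* LaurentSeries ℂ := HahnSeries.ofPowerSeries ℤ ℂ

theorem ofPS_coeff_nat (g : PowerSeries ℂ) (n : ℕ) : (ofPS g).coeff (n : ℤ) = g.coeff n :=
  HahnSeries.ofPowerSeries_apply_coeff g n

theorem ofPS_coeff_neg (g : PowerSeries ℂ) {n : ℤ} (hn : n < 0) : (ofPS g).coeff n = 0 :=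
  ofPowerSeries_coeff_of_neg g hn

/-- The primitive `p`-th root of unity `exp(2πi/p)`. -/
def zeta (p : ℕ) : ℂ := Complex.exp (2 * Real.pi * Complex.I / p)

theorem zeta_isPrimitiveRoot (p : ℕ) [NeZero p] : IsPrimitiveRoot (zeta p) p :=
  Complex.isPrimitiveRoot_exp p (NeZero.ne p)

theorem zeta_pow_self (p : ℕ) [NeZero p] : zeta p ^ p = 1 := (zeta_isPrimitiveRoot p).pow_eq_one

theorem zeta_ne_zero (p : ℕ) : zeta p ≠ 0 := Complex.exp_ne_zero _

/-- root-of-unity orthogonality -/
theorem sum_zeta_pow (p : ℕ) [NeZero p] (k : ℕ) :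
    ∑ b ∈ Finset.range p, (zeta p ^ b) ^ k = if p ∣ k then (p : ℂ) else 0 := by
  have hz := zeta_isPrimitiveRoot p
  split_ifs with h
  · have : ∀ b ∈ Finset.range p, (zeta p ^ b) ^ k = 1 := by
      intro b _
      rw [← pow_mul, mul_comm, pow_mul, (hz.pow_eq_one_iff_dvd k).mpr h, one_pow]
    rw [Finset.sum_congr rfl this]
    simp
  · have h1 : zeta p ^ k ≠ 1 := fun hh => h ((hz.pow_eq_one_iff_dvd k).mp hh)
    have h2 : ∑ b ∈ Finset.range p, (zeta p ^ b) ^ k = ∑ b ∈ Finset.range p, (zeta p ^ k) ^ b := by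
      refine Finset.sum_congr rfl fun b _ => ?_
      rw [← pow_mul, ← pow_mul, mul_comm]
    rw [h2]
    have h3 := mul_neg_geom_sum (zeta p ^ k) p
    have h4 : (zeta p ^ k) ^ p = 1 := by
      rw [← pow_mul, mul_comm, pow_mul, zeta_pow_self, one_pow]
    rw [h4, sub_self] at h3
    rcases mul_eq_zero.mp h3 with h5 | h5
    · exact absurd (sub_eq_zero.mp h5).symm h1
    · exact h5

variable (p : ℕ) [NeZero p]

/-- conjugate `g(q) ↦ g(ζ^b t)` -/
def cB (b : ℕ) : PowerSeries ℂ →+* LaurentSeries ℂ :=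
  ofPS.comp (PowerSeries.rescale (zeta p ^ b))

/-- base embedding `g(q) ↦ g(t^p)` -/
def cBase : PowerSeries ℂ →+* LaurentSeries ℂ :=
  (qExpand ℂ p).comp ofPS

/-- conjugate `g(q) ↦ g(t^(p²))` -/
def cInf : PowerSeries ℂ →+* LaurentSeries ℂ :=
  (qExpand ℂ p).comp (cBase p)

/-- `U_p` on power series. -/
def Up (g : PowerSeries ℂ) : PowerSeries ℂ := PowerSeries.mk fun n => g.coeff (n * p)

@[simp] theorem coeff_Up (g : PowerSeries ℂ) (n : ℕ) : (Up p g).coeff n = g.coeff (n * p) := by
  simp [Up]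

theorem cB_coeff_nat (b : ℕ) (g : PowerSeries ℂ) (n : ℕ) :
    (cB p b g).coeff (n : ℤ) = (zeta p ^ b) ^ n * g.coeff n := by
  simp [cB, ofPS_coeff_nat, PowerSeries.coeff_rescale]

theorem cB_coeff_neg (b : ℕ) (g : PowerSeries ℂ) {n : ℤ} (hn : n < 0) :
    (cB p b g).coeff n = 0 := by
  simp [cB, ofPS_coeff_neg _ hn]

theorem cB_zero (g : PowerSeries ℂ) : cB p 0 g = ofPS g := by
  simp [cB]

theorem cBase_coeff_mul (g : PowerSeries ℂ) (n : ℕ) :
    (cBase p g).coeff ((p : ℤ) * n) = g.coeff n := by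
  rw [cBase, RingHom.comp_apply, qExpand_coeff_mul, ofPS_coeff_nat]

theorem cBase_coeff_of_not_dvd (g : PowerSeries ℂ) {n : ℤ} (hn : ¬ (p : ℤ) ∣ n) :
    (cBase p g).coeff n = 0 := by
  rw [cBase, RingHom.comp_apply, qExpand_coeff_of_not_dvd p _ hn]

theorem cBase_coeff_neg (g : PowerSeries ℂ) {n : ℤ} (hn : n < 0) :
    (cBase p g).coeff n = 0 := by
  by_cases h : (p : ℤ) ∣ n
  · obtain ⟨m, rfl⟩ := h
    rw [cBase, RingHom.comp_apply, qExpand_coeff_mul]
    refine ofPS_coeff_neg _ ?_
    have hp : (0 : ℤ) < p := by exact_mod_cast Nat.pos_of_ne_zero (NeZero.ne p)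
    by_contra hm
    rw [not_lt] at hm
    have := mul_nonneg hp.le hm
    omega
  · exact cBase_coeff_of_not_dvd p g h

theorem natCast_mul_coeff (c : ℕ) (x : LaurentSeries ℂ) (n : ℤ) :
    ((c : LaurentSeries ℂ) * x).coeff n = (c : ℂ) * x.coeff n := by
  have : (c : LaurentSeries ℂ) = HahnSeries.C (c : ℂ) := by simp
  rw [this, HahnSeries.C_mul_eq_smul, HahnSeries.coeff_smul, smul_eq_mul]

/-- **Hecke power-sum identity**: `∑_b g(ζ^b t) = p · (U_p g)(t^p)`. -/
theorem sum_cB (g : PowerSeries ℂ) :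
    ∑ b ∈ Finset.range p, cB p b g = (p : LaurentSeries ℂ) * cBase p (Up p g) := by
  ext n
  rw [HahnSeries.coeff_sum, natCast_mul_coeff]
  rcases lt_or_ge n 0 with hn | hn
  · rw [cBase_coeff_neg p _ hn, mul_zero]
    exact Finset.sum_eq_zero fun b _ => cB_coeff_neg p b g hn
  · lift n to ℕ using hn
    simp only [cB_coeff_nat]
    rw [← Finset.sum_mul, sum_zeta_pow]
    split_ifs with h
    · obtain ⟨m, rfl⟩ := h
      have : ((p * m : ℕ) : ℤ) = (p : ℤ) * m := by push_cast; ring
      rw [this, cBase_coeff_mul, coeff_Up, mul_comm m p]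
    · have : ¬ (p : ℤ) ∣ (n : ℤ) := by exact_mod_cast h
      rw [cBase_coeff_of_not_dvd p _ this, zero_mul, mul_zero]

end Fermat.Agent.S28.H326

end
end
-- ===== PACK-END S28/H326/Basic.lean

-- ===== PACK-BEGIN S28/H505/Bridge.lean
section






open UpperHalfPlane ModularForm EisensteinSeries Filter Topology
open scoped PowerSeries.WithPiTopology

namespace Fermat.Agent.S28.H505

theorem bernoulli_four_eq : bernoulli 4 = -1 / 30 := by
  rw [bernoulli_eq_bernoulli'_of_ne_one (by norm_num)]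
  simp [bernoulli'_four]

/-- (B1) The Mathlib `q`-expansion of `E₄` is the Prelude's formal series `eisenstein4`. -/
theorem qExpansion_E₄_eq :
    qExpansion 1 E₄ = ModularCurve.eisenstein4.map (Int.castRingHom ℂ) := by
  ext m
  rw [E_qExpansion_coeff (by norm_num) (by decide) m, PowerSeries.coeff_map,
    ModularCurve.eisenstein4, PowerSeries.coeff_mk]
  split_ifs with h
  · simp
  · rw [bernoulli_four_eq, ArithmeticFunction.sigma_apply]
    simp only [eq_intCast]
    push_cast
    ring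

/-- Taylor power series at `0` of a function `ℂ → ℂ`. -/
noncomputable def taylorPS (g : ℂ → ℂ) : PowerSeries ℂ :=
  .mk fun m => (m.factorial : ℂ)⁻¹ * iteratedDeriv m g 0

theorem coeff_taylorPS (g : ℂ → ℂ) (m : ℕ) :
    (taylorPS g).coeff m = (m.factorial : ℂ)⁻¹ * iteratedDeriv m g 0 := by
  simp [taylorPS]

theorem qExpansion_eq_taylorPS (h : ℝ) (f : ℍ → ℂ) :
    qExpansion h f = taylorPS (cuspFunction h f) := rfl

theorem taylorPS_congr {g h : ℂ → ℂ} (hgh : g =ᶠ[𝓝 0] h) : taylorPS g = taylorPS h := by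
  ext m
  simp [coeff_taylorPS, hgh.iteratedDeriv_eq m]

theorem taylorPS_mul {g h : ℂ → ℂ} (hg : AnalyticAt ℂ g 0) (hh : AnalyticAt ℂ h 0) :
    taylorPS (g * h) = taylorPS g * taylorPS h := by
  ext
  simp only [coeff_taylorPS,
    iteratedDeriv_mul hg.contDiffAt hh.contDiffAt, Finset.mul_sum, PowerSeries.coeff_mul,
    Finset.Nat.sum_antidiagonal_eq_sum_range_succ_mk, Nat.succ_eq_add_one]
  refine Finset.sum_congr rfl fun i hi ↦ ?_
  rw [Nat.cast_choose _ (by grind)]
  field_simp [Nat.factorial_ne_zero]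

theorem iteratedDeriv_polynomial_eval (p : Polynomial ℂ) (m : ℕ) :
    iteratedDeriv m (fun x => p.eval x) = fun x => ((⇑Polynomial.derivative)^[m] p).eval x := by
  induction m generalizing p with
  | zero => simp
  | succ m ih =>
    rw [iteratedDeriv_succ']
    have : deriv (fun x => p.eval x) = fun x => (Polynomial.derivative p).eval x :=
      funext fun x => Polynomial.deriv p
    rw [this, ih, Function.iterate_succ_apply]

theorem taylorPS_polynomial (p : Polynomial ℂ) :
    taylorPS (fun x => p.eval x) = (p : PowerSeries ℂ) := by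
  ext m
  rw [coeff_taylorPS, iteratedDeriv_polynomial_eval, Polynomial.coeff_coe]
  beta_reduce
  rw [← Polynomial.coeff_zero_eq_eval_zero, Polynomial.coeff_iterate_derivative, zero_add,
    Nat.descFactorial_self, nsmul_eq_mul, ← mul_assoc,
    inv_mul_cancel₀ (by exact_mod_cast Nat.factorial_ne_zero m), one_mul]

theorem differentiableOn_iteratedDeriv {g : ℂ → ℂ} {U : Set ℂ} (hU : IsOpen U)
    (hg : DifferentiableOn ℂ g U) (k : ℕ) : DifferentiableOn ℂ (iteratedDeriv k g) U := by
  induction k with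
  | zero => simpa using hg
  | succ k ih => rw [iteratedDeriv_succ]; exact ih.deriv hU

theorem tendstoLocallyUniformlyOn_iteratedDeriv {ι : Type*} {φ : Filter ι} {F : ι → ℂ → ℂ}
    {f : ℂ → ℂ} {U : Set ℂ} (hU : IsOpen U) (hf : TendstoLocallyUniformlyOn F f φ U)
    (hF : ∀ᶠ n in φ, DifferentiableOn ℂ (F n) U) (k : ℕ) :
    TendstoLocallyUniformlyOn (fun n => iteratedDeriv k (F n)) (iteratedDeriv k f) φ U := by
  induction k with
  | zero => simpa using hf
  | succ k ih =>
    have h1 : ∀ᶠ n in φ, DifferentiableOn ℂ (iteratedDeriv k (F n)) U := by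
      filter_upwards [hF] with n hn using differentiableOn_iteratedDeriv hU hn k
    have := ih.deriv h1 hU
    simpa only [iteratedDeriv_succ, Function.comp_def] using this

/-- the analytic Euler product on the unit disc -/
noncomputable def eulerFun (q : ℂ) : ℂ := ∏' n : ℕ, (1 - q ^ (n + 1))

theorem eulerFun_differentiableOn : DifferentiableOn ℂ eulerFun (Metric.ball 0 1) :=
  differentiableOn_tprod_one_sub_pow

theorem eulerFun_analyticAt : AnalyticAt ℂ eulerFun 0 :=
  eulerFun_differentiableOn.analyticAt (Metric.ball_mem_nhds 0 one_pos)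

/-- partial Euler products as polynomials over `ℤ` -/
noncomputable def eulerPoly (t : Finset ℕ) : Polynomial ℤ :=
  ∏ i ∈ t, (1 - Polynomial.X ^ (i + 1))

theorem eulerPoly_eval (t : Finset ℕ) (q : ℂ) :
    ((eulerPoly t).map (Int.castRingHom ℂ)).eval q = ∏ i ∈ t, (1 - q ^ (i + 1)) := by
  simp [eulerPoly, Polynomial.map_prod, Polynomial.eval_prod]

theorem eulerPoly_coe (t : Finset ℕ) :
    ((eulerPoly t : Polynomial ℤ) : PowerSeries ℤ) = ∏ i ∈ t, (1 - PowerSeries.X ^ (i + 1)) := by
  rw [eulerPoly, ← Polynomial.coeToPowerSeries.ringHom_apply, _root_.map_prod]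
  simp [Polynomial.coeToPowerSeries.ringHom_apply]

theorem tendsto_coeff_eulerPoly (k : ℕ) :
    Tendsto (fun t : Finset ℕ => (((eulerPoly t).coeff k : ℤ) : ℂ)) atTop
      (𝓝 ((ModularCurve.etaProd.coeff k : ℤ) : ℂ)) := by
  have h1 : Tendsto (fun t : Finset ℕ => ∏ i ∈ t, ((1 : PowerSeries ℤ) - PowerSeries.X ^ (i + 1)))
      atTop (𝓝 ModularCurve.etaProd) :=
    (PowerSeries.WithPiTopology.multipliable_one_sub_X_pow ℤ).hasProd
  have h2 := ((PowerSeries.WithPiTopology.continuous_coeff ℤ k).tendsto _).comp h1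
  have h3 : Continuous (fun n : ℤ => (n : ℂ)) := continuous_of_discreteTopology
  have h4 := (h3.tendsto _).comp h2
  refine h4.congr fun t => ?_
  simp only [Function.comp_apply, ← eulerPoly_coe, Polynomial.coeff_coe]

theorem taylorPS_eulerFun :
    taylorPS eulerFun = ModularCurve.etaProd.map (Int.castRingHom ℂ) := by
  ext k
  rw [coeff_taylorPS, PowerSeries.coeff_map]
  have hU : IsOpen (Metric.ball (0 : ℂ) 1) := Metric.isOpen_ball
  have h0 : (0 : ℂ) ∈ Metric.ball (0 : ℂ) 1 := Metric.mem_ball_self one_pos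
  have hloc : TendstoLocallyUniformlyOn
      (fun (t : Finset ℕ) (q : ℂ) => ∏ i ∈ t, (1 - q ^ (i + 1))) eulerFun atTop
      (Metric.ball 0 1) :=
    hasProdLocallyUniformlyOn_iff_tendstoLocallyUniformlyOn.mp
      multipliableLocallyUniformlyOn_one_sub_pow.hasProdLocallyUniformlyOn
  have hdiff : ∀ᶠ t : Finset ℕ in atTop,
      DifferentiableOn ℂ (fun q : ℂ => ∏ i ∈ t, (1 - q ^ (i + 1))) (Metric.ball 0 1) :=
    .of_forall fun t => by
      simpa [Finset.prod_fn] using
        DifferentiableOn.finsetProd (u := t) (f := fun i (q : ℂ) => 1 - q ^ (i + 1))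
          (fun _ _ ↦ by fun_prop)
  have h1 := (tendstoLocallyUniformlyOn_iteratedDeriv hU hloc hdiff k).tendsto_at h0
  have h2 : ∀ t : Finset ℕ, iteratedDeriv k (fun q : ℂ => ∏ i ∈ t, (1 - q ^ (i + 1))) 0
      = (k.factorial : ℂ) * (((eulerPoly t).coeff k : ℤ) : ℂ) := by
    intro t
    have := congrArg (PowerSeries.coeff k)
      (taylorPS_polynomial ((eulerPoly t).map (Int.castRingHom ℂ)))
    rw [coeff_taylorPS, Polynomial.coeff_coe, Polynomial.coeff_map] at this
    simp only [eulerPoly_eval, eq_intCast] at this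
    rw [← this, ← mul_assoc, mul_inv_cancel₀ (by exact_mod_cast Nat.factorial_ne_zero k), one_mul]
  simp only [h2] at h1
  have h3 := (tendsto_coeff_eulerPoly k).const_mul (k.factorial : ℂ)
  have h4 := tendsto_nhds_unique h1 h3
  rw [h4, ← mul_assoc, inv_mul_cancel₀ (by exact_mod_cast Nat.factorial_ne_zero k), one_mul]
  simp

theorem taylorPS_id : taylorPS (fun q : ℂ => q) = PowerSeries.X := by
  have := taylorPS_polynomial Polynomial.X
  simpa using this

theorem taylorPS_pow {g : ℂ → ℂ} (hg : AnalyticAt ℂ g 0) (n : ℕ) :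
    taylorPS (g ^ n) = taylorPS g ^ n := by
  induction n with
  | zero =>
    have := taylorPS_polynomial 1
    simpa [Pi.one_def] using this
  | succ n ih => rw [pow_succ, pow_succ, taylorPS_mul (hg.pow n) hg, ih]

/-- (B2) The Mathlib `q`-expansion of `Δ` is `X * etaProd ^ 24`. -/
theorem qExpansion_discriminant_eq :
    qExpansion 1 ModularForm.discriminant =
      PowerSeries.X * (ModularCurve.etaProd.map (Int.castRingHom ℂ)) ^ 24 := by
  rw [qExpansion_eq_taylorPS]
  have h1 : cuspFunction 1 ModularForm.discriminant =ᶠ[𝓝 0]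
      ((fun q : ℂ => q) * eulerFun ^ 24) := by
    filter_upwards [Metric.ball_mem_nhds (0 : ℂ) one_pos] with q hq
    rw [discriminant_cuspFunction_eqOn hq]
    simp only [Pi.mul_apply, Pi.pow_apply, eulerFun]
    rw [(multipliable_one_sub_pow (by simpa using hq)).tprod_pow 24]
  rw [taylorPS_congr h1, taylorPS_mul (by fun_prop) (eulerFun_analyticAt.pow 24), taylorPS_id,
    taylorPS_pow eulerFun_analyticAt, taylorPS_eulerFun]

end Fermat.Agent.S28.H505

end
-- ===== PACK-END S28/H505/Bridge.lean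

-- ===== PACK-BEGIN A2/H489/TwoExt.lean
section


/-!
# A2 / M1-abs (helper489): extensions of a discrete valuation to a finite separable extension

Mathlib-only.  `S` Dedekind domain with fraction field `F`.

* `center V hV` : the centre on `S` of a valuation subring `V ⊇ S` of `F`.
* `eq_valuationSubring_of_center` : a valuation subring `V ≠ ⊤` of `F` containing `S` is the
  valuation subring of the `𝔓`-adic valuation, `𝔓` its centre.
-/

set_option autoImplicit false

namespace Fermat.Agent.A2.H489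

open IsDedekindDomain IsLocalRing

section Center

variable {S F : Type*} [CommRing S] [Field F] [Algebra S F]

/-- the structure map `S → V` for a valuation subring `V` of `F` containing the image of `S`. -/
def toValSub (V : ValuationSubring F) (hV : ∀ s : S, algebraMap S F s ∈ V) : S →+* V :=
  (algebraMap S F).codRestrict V.toSubring hV

@[simp]
theorem coe_toValSub (V : ValuationSubring F) (hV : ∀ s : S, algebraMap S F s ∈ V) (s : S) :
    ((toValSub V hV s : V) : F) = algebraMap S F s := rfl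

/-- The centre on `S` of a valuation subring `V ⊇ S` of `F`. -/
def center (V : ValuationSubring F) (hV : ∀ s : S, algebraMap S F s ∈ V) : Ideal S :=
  (IsLocalRing.maximalIdeal V).comap (toValSub V hV)

instance center_isPrime (V : ValuationSubring F) (hV : ∀ s : S, algebraMap S F s ∈ V) :
    (center V hV).IsPrime :=
  Ideal.comap_isPrime _ _

theorem mem_center_iff (V : ValuationSubring F) (hV : ∀ s : S, algebraMap S F s ∈ V) (s : S) :
    s ∈ center V hV ↔ algebraMap S F s ∈ V.nonunits := by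
  rw [center, Ideal.mem_comap, ← ValuationSubring.coe_mem_nonunits_iff, coe_toValSub]

theorem mem_center_iff_valuation (V : ValuationSubring F)
    (hV : ∀ s : S, algebraMap S F s ∈ V) (s : S) :
    s ∈ center V hV ↔ V.valuation (algebraMap S F s) < 1 := by
  rw [mem_center_iff, ValuationSubring.mem_nonunits_iff]

theorem inv_mem_of_not_mem_center (V : ValuationSubring F)
    (hV : ∀ s : S, algebraMap S F s ∈ V) {s : S} (hs : s ∉ center V hV) :
    (algebraMap S F s)⁻¹ ∈ V := by
  rw [mem_center_iff, ValuationSubring.mem_nonunits_iff_or, not_or, not_not] at hs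
  exact hs.2

end Center

section Dedekind

variable {S F : Type*} [CommRing S] [IsDedekindDomain S] [Field F] [Algebra S F]
  [IsFractionRing S F]

/-- A valuation subring `V ≠ ⊤` of `F = Frac S` containing the Dedekind domain `S` is the
valuation subring of the adic valuation at its centre. -/
theorem eq_valuationSubring_of_center (V : ValuationSubring F)
    (hV : ∀ s : S, algebraMap S F s ∈ V) (hne : V ≠ ⊤)
    (v : HeightOneSpectrum S) (hv : v.asIdeal = center V hV) :
    V = (v.valuation F).valuationSubring := by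
  have hle : (v.valuation F).valuationSubring ≤ V := by
    intro x hx
    obtain ⟨n, d, hnd⟩ := v.exists_primeCompl_mul_eq_of_integer x hx
    have hd : (d : S) ∉ center V hV := by
      rw [← hv]; exact d.2
    have hdinv := inv_mem_of_not_mem_center V hV hd
    have hd0 : algebraMap S F (d : S) ≠ 0 := by
      intro h0
      apply hd
      rw [mem_center_iff, h0]
      exact V.nonunits.zero_mem
    have hx' : x = algebraMap S F n * (algebraMap S F (d : S))⁻¹ := by
      rw [← hnd]; field_simp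
    rw [hx']
    exact V.mul_mem _ _ (hV n) hdinv
  have h1 := v.valuationSubringAtPrime_eq_valuationSubring (K := F)
  have h2 : v.valuationSubringAtPrime F ≤ V := by rw [h1]; exact hle
  rw [← h1]
  exact (ValuationSubring.eq_of_le_of_ne_top (v.valuationSubringAtPrime F) h2 hne).symm

/-- The centre of a valuation subring `V ≠ ⊤` containing `S` is nonzero. -/
theorem center_ne_bot (V : ValuationSubring F) (hV : ∀ s : S, algebraMap S F s ∈ V)
    (hne : V ≠ ⊤) : center V hV ≠ ⊥ := by
  intro hbot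
  apply hne
  rw [eq_top_iff]
  intro x _
  obtain ⟨a, b, hb, rfl⟩ := IsFractionRing.div_surjective (A := S) x
  have hb' : b ∉ center V hV := by
    rw [hbot]
    intro h
    exact (nonZeroDivisors.ne_zero hb) (by simpa using h)
  rw [div_eq_mul_inv]
  exact V.mul_mem _ _ (hV a) (inv_mem_of_not_mem_center V hV hb')

/-- The centre as a height-one prime. -/
def centerSpec (V : ValuationSubring F) (hV : ∀ s : S, algebraMap S F s ∈ V)
    (hne : V ≠ ⊤) : HeightOneSpectrum S where
  asIdeal := center V hV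
  isPrime := center_isPrime V hV
  ne_bot := center_ne_bot V hV hne

theorem eq_valuationSubring_centerSpec (V : ValuationSubring F)
    (hV : ∀ s : S, algebraMap S F s ∈ V) (hne : V ≠ ⊤) :
    V = ((centerSpec V hV hne).valuation F).valuationSubring :=
  eq_valuationSubring_of_center V hV hne _ rfl

/-- Two valuation subrings `≠ ⊤` containing `S` with the same centre are equal. -/
theorem eq_of_center_eq (V W : ValuationSubring F)
    (hV : ∀ s : S, algebraMap S F s ∈ V) (hW : ∀ s : S, algebraMap S F s ∈ W)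
    (hVne : V ≠ ⊤) (hWne : W ≠ ⊤) (h : center V hV = center W hW) : V = W := by
  rw [eq_valuationSubring_centerSpec V hV hVne,
    eq_valuationSubring_of_center W hW hWne (centerSpec V hV hVne) h]

end Dedekind

end Fermat.Agent.A2.H489

end
-- ===== PACK-END A2/H489/TwoExt.lean

-- ===== PACK-BEGIN A2/Mod/H378/L11Abstract.lean
section


/-!
# A2 / MOD leaf L11 (helper378): residue degree one, abstract form

`K` a field, `V ⊆ K` a subring (a discrete valuation ring with uniformiser `w` in the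
application), `O ⊆ V` a subring with `O ∩ w V = w O` and `O ∩ Vˣ = Oˣ`, `X ⊆ V` a set of
elements each satisfying a "Kronecker relation" `s (x - a) = w c` with `a ∈ O`,
`s, c ∈ B := O[X]`, `s ∈ Vˣ`.  If `K` is generated as a field by `O ∪ X`, then `V = O + w V`
(`ResOneData.exists_congr`): the localisation of `B` at `B ∩ w V` is a discrete valuation ring
with fraction field `K` contained in `V`, hence equal to `V`, and its residue field is the
residue field of `O`.
-/

set_option autoImplicit false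

namespace Fermat.Agent.A2.Mod.H378

variable {K : Type*} [Field K]

/-- The hypotheses of the abstract residue-degree-one lemma. -/
structure ResOneData (V O : Subring K) (w : K) (X : Set K) : Prop where
  O_le : ∀ x ∈ O, x ∈ V
  w_mem : w ∈ O
  w_ne : w ≠ 0
  w_nonunit : w⁻¹ ∉ V
  O_div : ∀ x ∈ O, x * w⁻¹ ∈ V → x * w⁻¹ ∈ O
  O_inv : ∀ x ∈ O, x⁻¹ ∈ V → x⁻¹ ∈ O
  X_le : ∀ x ∈ X, x ∈ V
  disc : ∀ x ∈ V, x ≠ 0 → ∃ (n : ℕ) (u : K), u ∈ V ∧ u⁻¹ ∈ V ∧ x = w ^ n * u
  kron : ∀ x ∈ X, ∃ a ∈ O, ∃ s ∈ Subring.closure ((O : Set K) ∪ X), s ≠ 0 ∧ s⁻¹ ∈ V ∧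
    ∃ c ∈ Subring.closure ((O : Set K) ∪ X), s * (x - a) = w * c
  gen : ∀ f : K, f ∈ Subfield.closure ((O : Set K) ∪ X)

namespace ResOneData

variable {V O : Subring K} {w : K} {X : Set K}

/-- `x ≡ g mod w V` for some `g ∈ O`. -/
def Cong (V O : Subring K) (w : K) (x : K) : Prop := ∃ g ∈ O, (x - g) * w⁻¹ ∈ V

theorem w_mem_V (h : ResOneData V O w X) : w ∈ V := h.O_le w h.w_mem

theorem closure_le (h : ResOneData V O w X) : Subring.closure ((O : Set K) ∪ X) ≤ V := by
  rw [Subring.closure_le]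
  rintro x (hx | hx)
  · exact h.O_le x hx
  · exact h.X_le x hx

theorem mem_closure_of_O (O : Subring K) (X : Set K) {x : K} (hx : x ∈ O) :
    x ∈ Subring.closure ((O : Set K) ∪ X) :=
  Subring.subset_closure (Or.inl hx)

theorem Cong.mem (h : ResOneData V O w X) {x : K} (hx : Cong V O w x) : x ∈ V := by
  obtain ⟨g, hg, hv⟩ := hx
  have h1 : x = g + w * ((x - g) * w⁻¹) := by
    have := h.w_ne
    field_simp
    ring
  rw [h1]
  exact V.add_mem (h.O_le g hg) (V.mul_mem h.w_mem_V hv)

theorem Cong.of_O {x : K} (hx : x ∈ O) : Cong V O w x :=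
  ⟨x, hx, by rw [sub_self, zero_mul]; exact V.zero_mem⟩

theorem Cong.add {x y : K} (hx : Cong V O w x) (hy : Cong V O w y) : Cong V O w (x + y) := by
  obtain ⟨g, hg, hv⟩ := hx
  obtain ⟨g', hg', hv'⟩ := hy
  refine ⟨g + g', O.add_mem hg hg', ?_⟩
  have : (x + y - (g + g')) * w⁻¹ = (x - g) * w⁻¹ + (y - g') * w⁻¹ := by ring
  rw [this]
  exact V.add_mem hv hv'

theorem Cong.neg {x : K} (hx : Cong V O w x) : Cong V O w (-x) := by
  obtain ⟨g, hg, hv⟩ := hx
  refine ⟨-g, O.neg_mem hg, ?_⟩
  have : (-x - -g) * w⁻¹ = -((x - g) * w⁻¹) := by ring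
  rw [this]
  exact V.neg_mem hv

theorem Cong.mul (h : ResOneData V O w X) {x y : K} (hx : Cong V O w x) (hy : Cong V O w y) :
    Cong V O w (x * y) := by
  have hyV := Cong.mem h hy
  obtain ⟨g, hg, hv⟩ := hx
  obtain ⟨g', hg', hv'⟩ := hy
  refine ⟨g * g', O.mul_mem hg hg', ?_⟩
  have : (x * y - g * g') * w⁻¹ = (x - g) * w⁻¹ * y + g * ((y - g') * w⁻¹) := by ring
  rw [this]
  exact V.add_mem (V.mul_mem hv hyV) (V.mul_mem (h.O_le g hg) hv')

/-- A unit of `V` which is congruent to an element of `O` has its inverse congruent to an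
element of `O`. -/
theorem Cong.inv (h : ResOneData V O w X) {x : K} (hx : Cong V O w x) (hx0 : x ≠ 0)
    (hxi : x⁻¹ ∈ V) : Cong V O w x⁻¹ := by
  obtain ⟨g, hg, hv⟩ := hx
  have hw := h.w_ne
  have hxg : x = g + w * ((x - g) * w⁻¹) := by
    field_simp
    ring
  have hgV : g ∈ V := h.O_le g hg
  -- `g` is a unit of `V`
  have hg0 : g ≠ 0 := by
    rintro rfl
    apply h.w_nonunit
    have h1 : w⁻¹ = x⁻¹ * ((x - 0) * w⁻¹) := by
      rw [sub_zero]
      field_simp
    rw [h1]
    exact V.mul_mem hxi hv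
  have hgi : g⁻¹ ∈ V := by
    obtain ⟨n, u, hu, hui, hgu⟩ := h.disc g hgV hg0
    rcases Nat.eq_zero_or_pos n with hn | hn
    · rw [hn, pow_zero, one_mul] at hgu
      rw [hgu]
      exact hui
    · exfalso
      apply h.w_nonunit
      obtain ⟨m, rfl⟩ : ∃ m, n = m + 1 := ⟨n - 1, by omega⟩
      have h1 : w⁻¹ = x⁻¹ * (w ^ m * u + (x - g) * w⁻¹) := by
        have h2 : x = w * (w ^ m * u + (x - g) * w⁻¹) := by
          have h5 : w * (w ^ m * u + (x - g) * w⁻¹)
              = w ^ (m + 1) * u + w * ((x - g) * w⁻¹) := by ring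
          rw [h5, ← hgu]
          exact hxg
        have h3 : w ^ m * u + (x - g) * w⁻¹ ≠ 0 := by
          intro h0
          rw [h0, mul_zero] at h2
          exact hx0 h2
        set z := w ^ m * u + (x - g) * w⁻¹ with hz
        have h4 : x⁻¹ = w⁻¹ * z⁻¹ := by
          rw [h2, mul_inv]
        rw [h4, mul_assoc, inv_mul_cancel₀ h3, mul_one]
      rw [h1]
      exact V.mul_mem hxi (V.add_mem (V.mul_mem (V.pow_mem h.w_mem_V m) hu) hv)
  refine ⟨g⁻¹, h.O_inv g hg hgi, ?_⟩
  have : (x⁻¹ - g⁻¹) * w⁻¹ = -((x - g) * w⁻¹) * x⁻¹ * g⁻¹ := by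
    field_simp
    ring
  rw [this]
  exact V.mul_mem (V.mul_mem (V.neg_mem hv) hxi) hgi

/-- Every element of `B = O[X]` is congruent to an element of `O`. -/
theorem cong_of_mem_closure (h : ResOneData V O w X) {b : K}
    (hb : b ∈ Subring.closure ((O : Set K) ∪ X)) : Cong V O w b := by
  induction hb using Subring.closure_induction with
  | mem x hx =>
    rcases hx with hx | hx
    · exact Cong.of_O hx
    · obtain ⟨a, ha, s, hs, hs0, hsi, c, hc, he⟩ := h.kron x hx
      refine ⟨a, ha, ?_⟩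
      have h1 : (x - a) * w⁻¹ = c * s⁻¹ := by
        have hw := h.w_ne
        field_simp
        rw [mul_comm, he, mul_comm]
      rw [h1]
      exact V.mul_mem (h.closure_le hc) hsi
  | zero => exact Cong.of_O O.zero_mem
  | one => exact Cong.of_O O.one_mem
  | add x y _ _ hx hy => exact Cong.add hx hy
  | neg x _ hx => exact Cong.neg hx
  | mul x y _ _ hx hy => exact Cong.mul h hx hy

/-- The Kronecker relation for every element of `B = O[X]`. -/
theorem kron_closure (h : ResOneData V O w X) {b : K}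
    (hb : b ∈ Subring.closure ((O : Set K) ∪ X)) :
    ∃ a ∈ O, ∃ s ∈ Subring.closure ((O : Set K) ∪ X), s ≠ 0 ∧ s⁻¹ ∈ V ∧
      ∃ c ∈ Subring.closure ((O : Set K) ∪ X), s * (b - a) = w * c := by
  induction hb using Subring.closure_induction with
  | mem x hx =>
    rcases hx with hx | hx
    · exact ⟨x, hx, 1, Subring.one_mem _, one_ne_zero, by rw [inv_one]; exact V.one_mem,
        0, Subring.zero_mem _, by rw [sub_self, mul_zero, mul_zero]⟩
    · exact h.kron x hx
  | zero =>
    exact ⟨0, O.zero_mem, 1, Subring.one_mem _, one_ne_zero, by rw [inv_one]; exact V.one_mem,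
        0, Subring.zero_mem _, by rw [sub_self, mul_zero, mul_zero]⟩
  | one =>
    exact ⟨1, O.one_mem, 1, Subring.one_mem _, one_ne_zero, by rw [inv_one]; exact V.one_mem,
        0, Subring.zero_mem _, by rw [sub_self, mul_zero, mul_zero]⟩
  | add x y _ _ hx hy =>
    obtain ⟨a, ha, s, hs, hs0, hsi, c, hc, he⟩ := hx
    obtain ⟨a', ha', s', hs', hs0', hsi', c', hc', he'⟩ := hy
    refine ⟨a + a', O.add_mem ha ha', s * s', Subring.mul_mem _ hs hs', mul_ne_zero hs0 hs0', ?_,
      s' * c + s * c', Subring.add_mem _ (Subring.mul_mem _ hs' hc) (Subring.mul_mem _ hs hc'), ?_⟩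
    · rw [mul_inv]
      exact V.mul_mem hsi hsi'
    · have : s * s' * (x + y - (a + a')) = s' * (s * (x - a)) + s * (s' * (y - a')) := by ring
      rw [this, he, he']
      ring
  | neg x _ hx =>
    obtain ⟨a, ha, s, hs, hs0, hsi, c, hc, he⟩ := hx
    refine ⟨-a, O.neg_mem ha, s, hs, hs0, hsi, -c, Subring.neg_mem _ hc, ?_⟩
    have : s * (-x - -a) = -(s * (x - a)) := by ring
    rw [this, he]
    ring
  | mul x y hxB hyB hx hy =>
    obtain ⟨a, ha, s, hs, hs0, hsi, c, hc, he⟩ := hx
    obtain ⟨a', ha', s', hs', hs0', hsi', c', hc', he'⟩ := hy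
    refine ⟨a * a', O.mul_mem ha ha', s * s', Subring.mul_mem _ hs hs', mul_ne_zero hs0 hs0', ?_,
      c * s' * y + a * s * c', Subring.add_mem _
        (Subring.mul_mem _ (Subring.mul_mem _ hc hs') hyB)
        (Subring.mul_mem _ (Subring.mul_mem _ (mem_closure_of_O O X ha) hs) hc'), ?_⟩
    · rw [mul_inv]
      exact V.mul_mem hsi hsi'
    · have : s * s' * (x * y - a * a') = (s * (x - a)) * s' * y + a * s * (s' * (y - a')) := by
        ring
      rw [this, he, he']
      ring

/-- `B ∩ w V ⊆ w B_𝔪`. -/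
theorem div_closure (h : ResOneData V O w X) {b : K}
    (hb : b ∈ Subring.closure ((O : Set K) ∪ X)) (hbw : b * w⁻¹ ∈ V) :
    ∃ s ∈ Subring.closure ((O : Set K) ∪ X), s ≠ 0 ∧ s⁻¹ ∈ V ∧
      ∃ c ∈ Subring.closure ((O : Set K) ∪ X), s * b = w * c := by
  obtain ⟨a, ha, s, hs, hs0, hsi, c, hc, he⟩ := h.kron_closure hb
  have hw := h.w_ne
  have haw : a * w⁻¹ ∈ V := by
    have h1 : a * w⁻¹ = b * w⁻¹ - c * s⁻¹ := by
      have h2 : c = s * (b - a) * w⁻¹ := by
        rw [he]
        field_simp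
      rw [h2]
      field_simp
      ring
    rw [h1]
    exact V.sub_mem hbw (V.mul_mem (h.closure_le hc) hsi)
  have haO : a * w⁻¹ ∈ O := h.O_div a ha haw
  refine ⟨s, hs, hs0, hsi, s * (a * w⁻¹) + c,
    Subring.add_mem _ (Subring.mul_mem _ hs (mem_closure_of_O O X haO)) hc, ?_⟩
  have h1 : s * b = s * (b - a) + s * a := by ring
  rw [h1, he]
  field_simp
  ring

/-- Every nonzero element of `B` is `w ^ n` times a unit of `B_𝔪`. -/
theorem unit_closure (h : ResOneData V O w X) (n : ℕ) :
    ∀ b ∈ Subring.closure ((O : Set K) ∪ X), ∀ u : K, u ∈ V → u⁻¹ ∈ V → u ≠ 0 →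
      b = w ^ n * u →
      ∃ s ∈ Subring.closure ((O : Set K) ∪ X), s ≠ 0 ∧ s⁻¹ ∈ V ∧
        ∃ s' ∈ Subring.closure ((O : Set K) ∪ X), s' ≠ 0 ∧ s'⁻¹ ∈ V ∧ s * b = w ^ n * s' := by
  have hw := h.w_ne
  induction n with
  | zero =>
    intro b hb u hu hui hu0 hbu
    rw [pow_zero, one_mul] at hbu
    refine ⟨1, Subring.one_mem _, one_ne_zero, by rw [inv_one]; exact V.one_mem,
      b, hb, by rw [hbu]; exact hu0, by rw [hbu]; exact hui, by rw [pow_zero]⟩
  | succ n ih =>
    intro b hb u hu hui hu0 hbu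
    have hbw : b * w⁻¹ ∈ V := by
      have : b * w⁻¹ = w ^ n * u := by
        rw [hbu, pow_succ]
        field_simp
      rw [this]
      exact V.mul_mem (V.pow_mem h.w_mem_V n) hu
    obtain ⟨s, hs, hs0, hsi, c, hc, he⟩ := h.div_closure hb hbw
    have hc' : c = w ^ n * (s * u) := by
      have h1 : w * c = w * (w ^ n * (s * u)) := by
        rw [← he, hbu, pow_succ]
        ring
      exact mul_left_cancel₀ hw h1
    obtain ⟨s₁, hs₁, hs₁0, hs₁i, s₂, hs₂, hs₂0, hs₂i, he₁⟩ :=
      ih c hc (s * u) (V.mul_mem (h.closure_le hs) hu)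
        (by rw [mul_inv]; exact V.mul_mem hsi hui) (mul_ne_zero hs0 hu0) hc'
    refine ⟨s₁ * s, Subring.mul_mem _ hs₁ hs, mul_ne_zero hs₁0 hs0,
      by rw [mul_inv]; exact V.mul_mem hs₁i hsi, s₂, hs₂, hs₂0, hs₂i, ?_⟩
    rw [mul_assoc, he, mul_left_comm, he₁, pow_succ]
    ring

/-- Every element of `K` is a fraction of elements of `B`. -/
theorem exists_frac (h : ResOneData V O w X) (f : K) :
    ∃ b₁ ∈ Subring.closure ((O : Set K) ∪ X), ∃ b₂ ∈ Subring.closure ((O : Set K) ∪ X),
      b₂ ≠ 0 ∧ f * b₂ = b₁ := by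
  have hf := h.gen f
  induction hf using Subfield.closure_induction with
  | mem x hx =>
    exact ⟨x, Subring.subset_closure hx, 1, Subring.one_mem _, one_ne_zero, mul_one _⟩
  | one => exact ⟨1, Subring.one_mem _, 1, Subring.one_mem _, one_ne_zero, mul_one _⟩
  | add x y _ _ hx hy =>
    obtain ⟨b₁, hb₁, b₂, hb₂, h0, he⟩ := hx
    obtain ⟨b₁', hb₁', b₂', hb₂', h0', he'⟩ := hy
    refine ⟨b₁ * b₂' + b₁' * b₂, Subring.add_mem _ (Subring.mul_mem _ hb₁ hb₂')
      (Subring.mul_mem _ hb₁' hb₂), b₂ * b₂', Subring.mul_mem _ hb₂ hb₂', mul_ne_zero h0 h0', ?_⟩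
    rw [← he, ← he']
    ring
  | neg x _ hx =>
    obtain ⟨b₁, hb₁, b₂, hb₂, h0, he⟩ := hx
    exact ⟨-b₁, Subring.neg_mem _ hb₁, b₂, hb₂, h0, by rw [← he, neg_mul]⟩
  | inv x _ hx =>
    obtain ⟨b₁, hb₁, b₂, hb₂, h0, he⟩ := hx
    by_cases hx0 : x = 0
    · exact ⟨0, Subring.zero_mem _, 1, Subring.one_mem _, one_ne_zero,
        by rw [hx0, inv_zero, zero_mul]⟩
    · have hb₁0 : b₁ ≠ 0 := by
        rw [← he]
        exact mul_ne_zero hx0 h0
      refine ⟨b₂, hb₂, b₁, hb₁, hb₁0, ?_⟩
      rw [← he, ← mul_assoc, inv_mul_cancel₀ hx0, one_mul]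
  | mul x y _ _ hx hy =>
    obtain ⟨b₁, hb₁, b₂, hb₂, h0, he⟩ := hx
    obtain ⟨b₁', hb₁', b₂', hb₂', h0', he'⟩ := hy
    refine ⟨b₁ * b₁', Subring.mul_mem _ hb₁ hb₁', b₂ * b₂', Subring.mul_mem _ hb₂ hb₂',
      mul_ne_zero h0 h0', ?_⟩
    rw [← he, ← he']
    ring

/-- **Residue degree one.**  Every element of `V` is congruent modulo `w V` to an element
of `O`. -/
theorem exists_congr (h : ResOneData V O w X) {f : K} (hf : f ∈ V) :
    ∃ g ∈ O, (f - g) * w⁻¹ ∈ V := by
  have hw := h.w_ne
  by_cases hf0 : f = 0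
  · exact ⟨0, O.zero_mem, by rw [hf0, sub_zero, zero_mul]; exact V.zero_mem⟩
  obtain ⟨b₁, hb₁, b₂, hb₂, hb₂0, he⟩ := h.exists_frac f
  have hb₁0 : b₁ ≠ 0 := by
    rw [← he]
    exact mul_ne_zero hf0 hb₂0
  obtain ⟨n₁, u₁, hu₁, hu₁i, hbu₁⟩ := h.disc b₁ (h.closure_le hb₁) hb₁0
  obtain ⟨n₂, u₂, hu₂, hu₂i, hbu₂⟩ := h.disc b₂ (h.closure_le hb₂) hb₂0
  have hu₁0 : u₁ ≠ 0 := by
    rintro rfl
    rw [mul_zero] at hbu₁
    exact hb₁0 hbu₁
  have hu₂0 : u₂ ≠ 0 := by
    rintro rfl
    rw [mul_zero] at hbu₂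
    exact hb₂0 hbu₂
  obtain ⟨s₁, hs₁, hs₁0, hs₁i, t₁, ht₁, ht₁0, ht₁i, he₁⟩ :=
    h.unit_closure n₁ b₁ hb₁ u₁ hu₁ hu₁i hu₁0 hbu₁
  obtain ⟨s₂, hs₂, hs₂0, hs₂i, t₂, ht₂, ht₂0, ht₂i, he₂⟩ :=
    h.unit_closure n₂ b₂ hb₂ u₂ hu₂ hu₂i hu₂0 hbu₂
  -- `n₂ ≤ n₁`
  have hle : n₂ ≤ n₁ := by
    by_contra hlt
    rw [not_le] at hlt
    obtain ⟨m, rfl⟩ : ∃ m, n₂ = n₁ + (m + 1) := ⟨n₂ - n₁ - 1, by omega⟩
    apply h.w_nonunit
    have h1 : w⁻¹ = w ^ m * f * u₂ * u₁⁻¹ := by
      have h2 : f * (w ^ (n₁ + (m + 1)) * u₂) = w ^ n₁ * u₁ := by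
        rw [← hbu₂, ← hbu₁, he]
      have h3 : w ^ n₁ * (w * (w ^ m * f * u₂ * u₁⁻¹)) = w ^ n₁ * 1 := by
        have : w ^ n₁ * (w * (w ^ m * f * u₂ * u₁⁻¹))
            = f * (w ^ (n₁ + (m + 1)) * u₂) * u₁⁻¹ := by
          rw [pow_add, pow_succ]
          ring
        rw [this, h2, mul_assoc, mul_inv_cancel₀ hu₁0]
      have h4 := mul_left_cancel₀ (pow_ne_zero n₁ hw) h3
      exact (eq_inv_of_mul_eq_one_right h4).symm ▸ rfl
    rw [h1]
    exact V.mul_mem (V.mul_mem (V.mul_mem (V.pow_mem h.w_mem_V m) hf) hu₂) hu₁i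
  obtain ⟨k, rfl⟩ : ∃ k, n₁ = n₂ + k := ⟨n₁ - n₂, by omega⟩
  -- `f = w ^ k * (t₁ s₂) / (s₁ t₂)`
  have hfe : f = w ^ k * ((t₁ * s₂) * (s₁ * t₂)⁻¹) := by
    have h1 : b₁ = w ^ (n₂ + k) * t₁ * s₁⁻¹ := by
      rw [← he₁]
      field_simp
    have h2 : b₂ = w ^ n₂ * t₂ * s₂⁻¹ := by
      rw [← he₂]
      field_simp
    have h3 : f = b₁ * b₂⁻¹ := by
      rw [← he]
      field_simp
    rw [h3, h1, h2, pow_add]
    field_simp
  have hC : Cong V O w f := by
    rw [hfe]
    refine Cong.mul h ?_ (Cong.mul h (Cong.mul h (h.cong_of_mem_closure ht₁)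
      (h.cong_of_mem_closure hs₂)) ?_)
    · exact Cong.of_O (O.pow_mem h.w_mem k)
    · refine Cong.inv h (Cong.mul h (h.cong_of_mem_closure hs₁) (h.cong_of_mem_closure ht₂))
        (mul_ne_zero hs₁0 ht₂0) ?_
      rw [mul_inv]
      exact V.mul_mem hs₁i ht₂i
  exact hC

end ResOneData

end Fermat.Agent.A2.Mod.H378

end
-- ===== PACK-END A2/Mod/H378/L11Abstract.lean

-- ===== PACK-BEGIN A2/Mod/H142/S2Core.lean
section









/-!
# A2 / MODASM sub-assembly S2 (components normal) — abstract core (helper142)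

Mathlib-only.  `F` a field, `V` a valuation subring of `F`, `B ⊆ V` a subalgebra (the chart),
`p = B ∩ 𝔪_V` (the component of the special fibre cut out by `V`).

* `isIntegrallyClosed_quotient_of_normal` (**core A**): if the image of `B` in the residue field
  `κ(V)` is integrally closed in `κ(V)` (elementwise form `NormalIn`), then `B ⧸ p` is an
  integrally closed domain.
* `normalIn_transfer` (**core B**): transfer of `NormalIn` along a ring homomorphism
  `γ : F₀ → F` (a degeneracy map) with `γ⁻¹ V = V₀`, `γ B₀ ⊆ B`, residue degree one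
  (`V = γ V₀ + 𝔪_V`) and `B` integral over `γ B₀` MODULO `𝔪_V`.

No integrality of `B` over `γ B₀` itself is needed (it fails in the chart at infinity).
-/

set_option autoImplicit false

noncomputable section

open Polynomial

namespace Fermat.Agent.A2.Mod.H142

section Integral

variable {A₀ A K : Type*} [CommRing A₀] [CommRing A] [CommRing K]

/-- Transitivity of integrality for two ring homomorphisms into a common target. -/
theorem isIntegralElem_trans (ρ₀ : A₀ →+* K) (ρ : A →+* K)
    (h : ∀ a, ρ₀.IsIntegralElem (ρ a)) {x : K} (hx : ρ.IsIntegralElem x) :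
    ρ₀.IsIntegralElem x := by
  let _ : Algebra A₀ K := ρ₀.toAlgebra
  have hmem : ∀ a, ρ a ∈ (integralClosure A₀ K).toSubring := fun a => h a
  obtain ⟨p, hp, hpx⟩ := hx
  let ρ' : A →+* (integralClosure A₀ K).toSubring := ρ.codRestrict _ hmem
  have hx' : IsIntegral (integralClosure A₀ K) x := by
    refine ⟨p.map ρ', hp.map _, ?_⟩
    rw [eval₂_map]
    exact hpx
  exact isIntegral_trans x hx'

/-- A monic relation in `Fin`-indexed form gives integrality. -/
theorem isIntegralElem_of_fin (ρ : A →+* K) {x : K} (n : ℕ) (c : Fin n → A)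
    (h : x ^ n + ∑ i : Fin n, ρ (c i) * x ^ (i : ℕ) = 0) : ρ.IsIntegralElem x := by
  refine ⟨X ^ n + ∑ i : Fin n, C (c i) * X ^ (i : ℕ),
    Polynomial.monic_X_pow_add (Polynomial.degree_sum_fin_lt c), ?_⟩
  rw [eval₂_add, eval₂_pow, eval₂_X, eval₂_finsetSum]
  simpa using h

/-- Integrality gives a monic relation in `Fin`-indexed form. -/
theorem exists_fin_of_isIntegralElem (ρ : A →+* K) {x : K} (hx : ρ.IsIntegralElem x) :
    ∃ (n : ℕ) (c : Fin n → A), x ^ n + ∑ i : Fin n, ρ (c i) * x ^ (i : ℕ) = 0 := by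
  obtain ⟨p, hp, hpx⟩ := hx
  refine ⟨p.natDegree, fun i => p.coeff i, ?_⟩
  have h1 := hp.as_sum
  have h2 : eval₂ ρ x p = x ^ p.natDegree + ∑ i : Fin p.natDegree, ρ (p.coeff i) * x ^ (i : ℕ) := by
    conv_lhs => rw [h1]
    rw [eval₂_add, eval₂_pow, eval₂_X, eval₂_finsetSum,
      ← Fin.sum_univ_eq_sum_range (fun i => eval₂ ρ x (C (p.coeff i) * X ^ i)) p.natDegree]
    simp
  rw [← h2]
  exact hpx

end Integral

section Val

variable {R F : Type*} [CommRing R] [Field F] [Algebra R F]

/-- The residue class map `B → κ(V)` of a subalgebra `B ⊆ V`. -/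
def resMap (V : ValuationSubring F) (B : Subalgebra R F) (hBV : ∀ b ∈ B, b ∈ V) :
    B →+* IsLocalRing.ResidueField V :=
  (IsLocalRing.residue V).comp
    { toFun := fun b => ⟨b.1, hBV b.1 b.2⟩
      map_one' := rfl
      map_mul' := fun _ _ => rfl
      map_zero' := rfl
      map_add' := fun _ _ => rfl }

theorem residue_eq_zero_iff_val (V : ValuationSubring F) (f : V) :
    IsLocalRing.residue V f = 0 ↔ V.valuation (f : F) < 1 := by
  rw [IsLocalRing.residue_eq_zero_iff]
  exact V.valuation_lt_one_iff f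

theorem resMap_apply (V : ValuationSubring F) (B : Subalgebra R F) (hBV : ∀ b ∈ B, b ∈ V)
    (b : B) : resMap V B hBV b = IsLocalRing.residue V ⟨b.1, hBV b.1 b.2⟩ := rfl

theorem resMap_eq_zero_iff (V : ValuationSubring F) (B : Subalgebra R F)
    (hBV : ∀ b ∈ B, b ∈ V) (b : B) : resMap V B hBV b = 0 ↔ V.valuation (b : F) < 1 := by
  rw [resMap_apply, residue_eq_zero_iff_val]

/-- `f̄ = ḡ` in `κ(V)` iff `f - g ∈ 𝔪_V`. -/
theorem residue_eq_iff_val (V : ValuationSubring F) (f g : V) :
    IsLocalRing.residue V f = IsLocalRing.residue V g ↔ V.valuation ((f : F) - g) < 1 := by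
  rw [← sub_eq_zero, ← _root_.map_sub, residue_eq_zero_iff_val]
  rfl

/-- The image of `B` in the residue field of `V` is integrally closed in it (elementwise form;
the shape of `Mod.GoodRedAt.normal`). -/
def NormalIn (V : ValuationSubring F) (B : Set F) : Prop :=
  ∀ f ∈ V, (∃ (n : ℕ) (c : Fin n → F), (∀ i, c i ∈ B) ∧
      V.valuation (f ^ n + ∑ i : Fin n, c i * f ^ (i : ℕ)) < 1) →
    ∃ b ∈ B, V.valuation (f - b) < 1

/-- A monic relation modulo `𝔪_V` with coefficients in `B` is integrality of the residue class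
over `B` (via `resMap`). -/
theorem isIntegralElem_residue_of_rel (V : ValuationSubring F) (B : Subalgebra R F)
    (hBV : ∀ b ∈ B, b ∈ V) (f : V) (n : ℕ) (c : Fin n → F) (hc : ∀ i, c i ∈ B)
    (h : V.valuation ((f : F) ^ n + ∑ i : Fin n, c i * (f : F) ^ (i : ℕ)) < 1) :
    (resMap V B hBV).IsIntegralElem (IsLocalRing.residue V f) := by
  refine isIntegralElem_of_fin _ n (fun i => ⟨c i, hc i⟩) ?_
  have h1 : (f ^ n + ∑ i : Fin n, (⟨c i, hBV _ (hc i)⟩ : V) * f ^ (i : ℕ) : V) =
      (⟨(f : F) ^ n + ∑ i : Fin n, c i * (f : F) ^ (i : ℕ),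
        V.add_mem _ _ (V.pow_mem f.2 n)
          (V.toSubring.sum_mem fun i _ => V.mul_mem _ _ (hBV _ (hc i)) (V.pow_mem f.2 _))⟩ : V) := by
    apply Subtype.ext
    push_cast
    rfl
  have h2 : IsLocalRing.residue V (f ^ n + ∑ i : Fin n, (⟨c i, hBV _ (hc i)⟩ : V) * f ^ (i : ℕ))
      = 0 := by
    rw [h1, residue_eq_zero_iff_val]
    exact h
  rw [_root_.map_add, _root_.map_pow, _root_.map_sum] at h2
  simp only [_root_.map_mul, _root_.map_pow] at h2
  exact h2

/-- Integrality of a residue class over `B` gives a monic relation modulo `𝔪_V`. -/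
theorem exists_rel_of_isIntegralElem_residue (V : ValuationSubring F) (B : Subalgebra R F)
    (hBV : ∀ b ∈ B, b ∈ V) (f : V)
    (h : (resMap V B hBV).IsIntegralElem (IsLocalRing.residue V f)) :
    ∃ (n : ℕ) (c : Fin n → F), (∀ i, c i ∈ B) ∧
      V.valuation ((f : F) ^ n + ∑ i : Fin n, c i * (f : F) ^ (i : ℕ)) < 1 := by
  obtain ⟨n, c, hrel⟩ := exists_fin_of_isIntegralElem _ h
  refine ⟨n, fun i => (c i : F), fun i => (c i).2, ?_⟩
  have h1 : (f ^ n + ∑ i : Fin n, (⟨(c i : F), hBV _ (c i).2⟩ : V) * f ^ (i : ℕ) : V) =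
      (⟨(f : F) ^ n + ∑ i : Fin n, (c i : F) * (f : F) ^ (i : ℕ),
        V.add_mem _ _ (V.pow_mem f.2 n)
          (V.toSubring.sum_mem fun i _ =>
            V.mul_mem _ _ (hBV _ (c i).2) (V.pow_mem f.2 _))⟩ : V) := by
    apply Subtype.ext
    push_cast
    rfl
  have h2 : IsLocalRing.residue V (f ^ n + ∑ i : Fin n, (⟨(c i : F), hBV _ (c i).2⟩ : V) * f ^ (i : ℕ))
      = 0 := by
    rw [_root_.map_add, _root_.map_pow, _root_.map_sum]
    simp only [_root_.map_mul, _root_.map_pow]
    exact hrel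
  rw [h1, residue_eq_zero_iff_val] at h2
  exact h2

/-- **Core A.**  If the image of `B` in `κ(V)` is integrally closed in `κ(V)`, then
`B ⧸ (B ∩ 𝔪_V)` is an integrally closed domain. -/
theorem isIntegrallyClosed_quotient_of_normal
    (V : ValuationSubring F) (B : Subalgebra R F) (hBV : ∀ b ∈ B, b ∈ V)
    (p : Ideal B) (hp : ∀ b : B, b ∈ p ↔ V.valuation (b : F) < 1)
    (hnorm : NormalIn V (B : Set F)) :
    IsIntegrallyClosed (B ⧸ p) := by
  classical
  set ρ := resMap V B hBV with hρ
  have hker : ∀ b : B, b ∈ p → ρ b = 0 := fun b hb =>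
    (resMap_eq_zero_iff V B hBV b).2 ((hp b).1 hb)
  let ρq : B ⧸ p →+* IsLocalRing.ResidueField V := Ideal.Quotient.lift p ρ hker
  have hρq : ∀ b : B, ρq (Ideal.Quotient.mk p b) = ρ b := fun b => Ideal.Quotient.lift_mk p ρ hker
  have hinj : Function.Injective ρq := by
    rw [injective_iff_map_eq_zero]
    intro a ha
    obtain ⟨b, rfl⟩ := Ideal.Quotient.mk_surjective a
    rw [hρq] at ha
    exact Ideal.Quotient.eq_zero_iff_mem.2 ((hp b).2 ((resMap_eq_zero_iff V B hBV b).1 ha))
  have : IsDomain (B ⧸ p) := hinj.isDomain ρq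
  rw [isIntegrallyClosed_iff (FractionRing (B ⧸ p))]
  intro x hx
  let ρK : FractionRing (B ⧸ p) →+* IsLocalRing.ResidueField V := IsFractionRing.lift hinj
  have hρK : ∀ a : B ⧸ p, ρK (algebraMap _ _ a) = ρq a := fun a =>
    IsFractionRing.lift_algebraMap hinj a
  -- `ρK x` is integral over `B ⧸ p`, hence over `B`
  have h1 : ρq.IsIntegralElem (ρK x) := by
    obtain ⟨P, hP, hPx⟩ := hx
    refine ⟨P, hP, ?_⟩
    have h := congrArg ρK hPx
    rw [hom_eval₂, _root_.map_zero] at h
    have hcomp : ρK.comp (algebraMap (B ⧸ p) (FractionRing (B ⧸ p))) = ρq := by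
      ext a
      exact hρK a
    rwa [hcomp] at h
  have h2 : ρ.IsIntegralElem (ρK x) := by
    obtain ⟨n, c, hrel⟩ := exists_fin_of_isIntegralElem _ h1
    choose c' hc' using fun i => Ideal.Quotient.mk_surjective (c i)
    refine isIntegralElem_of_fin _ n c' ?_
    rw [← hrel]
    congr 1
    refine Finset.sum_congr rfl fun i _ => ?_
    rw [← hρq, hc']
  obtain ⟨f, hf⟩ := IsLocalRing.residue_surjective (R := V) (ρK x)
  rw [← hf] at h2
  obtain ⟨n, c, hc, hrel⟩ := exists_rel_of_isIntegralElem_residue V B hBV f h2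
  obtain ⟨b, hb, hfb⟩ := hnorm f f.2 ⟨n, c, hc, hrel⟩
  refine ⟨Ideal.Quotient.mk p ⟨b, hb⟩, ?_⟩
  apply ρK.injective
  rw [hρK, hρq, ← hf, resMap_apply]
  symm
  rw [residue_eq_iff_val]
  exact hfb

end Val

section Transfer

variable {R F₀ F : Type*} [CommRing R] [Field F₀] [Field F] [Algebra R F₀] [Algebra R F]

/-- A ring homomorphism mapping `V₀` into `V` reflects the maximal ideals. -/
theorem val_lt_one_of_map (γ : F₀ →+* F) (V₀ : ValuationSubring F₀) (V : ValuationSubring F)
    (hγV : ∀ g ∈ V₀, γ g ∈ V) {g : F₀} (hg : g ∈ V₀) (h : V.valuation (γ g) < 1) :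
    V₀.valuation g < 1 := by
  by_contra hcon
  rw [not_lt] at hcon
  have hone : V₀.valuation g = 1 := le_antisymm ((V₀.valuation_le_one_iff _).2 hg) hcon
  have hinv : g⁻¹ ∈ V₀ := by
    rw [← V₀.valuation_le_one_iff, map_inv₀, hone, inv_one]
  have h1 : (γ g)⁻¹ ∈ V := by
    rw [← map_inv₀]
    exact hγV _ hinv
  have h2 : V.valuation (γ g)⁻¹ ≤ 1 := (V.valuation_le_one_iff _).2 h1
  have hne : V.valuation (γ g) ≠ 0 := by
    intro h0
    rw [map_inv₀, h0, inv_zero] at h2
    have hg0 : γ g = 0 := (Valuation.zero_iff _).1 h0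
    have : g = 0 := by
      by_contra hg0'
      exact (_root_.map_ne_zero γ).2 hg0' hg0
    rw [this, _root_.map_zero] at hone
    exact zero_ne_one hone
  rw [map_inv₀, inv_le_one₀ (zero_lt_iff.2 hne)] at h2
  exact absurd h (not_lt.2 h2)

/-- The restriction `B₀ → B` of a ring homomorphism `γ : F₀ → F` with `γ B₀ ⊆ B`. -/
def mapSub (γ : F₀ →+* F) (B₀ : Subalgebra R F₀) (B : Subalgebra R F)
    (hγB : ∀ b ∈ B₀, γ b ∈ B) : B₀ →+* B where
  toFun b := ⟨γ b.1, hγB b.1 b.2⟩
  map_one' := Subtype.ext (_root_.map_one γ)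
  map_mul' a b := Subtype.ext (_root_.map_mul γ a.1 b.1)
  map_zero' := Subtype.ext (_root_.map_zero γ)
  map_add' a b := Subtype.ext (_root_.map_add γ a.1 b.1)

@[simp]
theorem coe_mapSub (γ : F₀ →+* F) (B₀ : Subalgebra R F₀) (B : Subalgebra R F)
    (hγB : ∀ b ∈ B₀, γ b ∈ B) (b : B₀) : ((mapSub γ B₀ B hγB b : B) : F) = γ b := rfl

/-- **Core B.**  Transfer of normality of the special fibre along `γ : F₀ → F`:
* `γ V₀ ⊆ V` and `γ 𝔪_{V₀} ⊆ 𝔪_V`;
* `γ B₀ ⊆ B`;
* residue degree one: `V = γ V₀ + 𝔪_V`;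
* `B` is integral over `γ B₀` modulo `𝔪_V` (in the residue field of `V`). -/
theorem normalIn_transfer (γ : F₀ →+* F)
    (V₀ : ValuationSubring F₀) (V : ValuationSubring F)
    (hγV : ∀ g ∈ V₀, γ g ∈ V)
    (hγp : ∀ g : F₀, V₀.valuation g < 1 → V.valuation (γ g) < 1)
    (B₀ : Subalgebra R F₀) (B : Subalgebra R F)
    (hB₀ : ∀ b ∈ B₀, b ∈ V₀) (hB : ∀ b ∈ B, b ∈ V)
    (hγB : ∀ b ∈ B₀, γ b ∈ B)
    (hres : ∀ f ∈ V, ∃ g ∈ V₀, V.valuation (f - γ g) < 1)
    (hint : ∀ b : B, ((resMap V B hB).comp (mapSub γ B₀ B hγB)).IsIntegralElem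
      (resMap V B hB b))
    (hnorm₀ : NormalIn V₀ (B₀ : Set F₀)) :
    NormalIn V (B : Set F) := by
  classical
  intro f hf ⟨n, c, hc, hrel⟩
  -- the two residue maps into `κ(V)`
  set ρ := resMap V B hB with hρ
  set ρ₀ : B₀ →+* IsLocalRing.ResidueField V := ρ.comp (mapSub γ B₀ B hγB) with hρ₀
  -- `f̄` is integral over `γ B̄₀`
  have h2 : ρ₀.IsIntegralElem (IsLocalRing.residue V ⟨f, hf⟩) :=
    isIntegralElem_trans ρ₀ ρ hint (isIntegralElem_residue_of_rel V B hB ⟨f, hf⟩ n c hc hrel)
  -- residue degree one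
  obtain ⟨g, hg, hfg⟩ := hres f hf
  have hfg' : IsLocalRing.residue V ⟨f, hf⟩ = IsLocalRing.residue V ⟨γ g, hγV g hg⟩ := by
    rw [residue_eq_iff_val]
    exact hfg
  rw [hfg'] at h2
  obtain ⟨m, d, hrel₀⟩ := exists_fin_of_isIntegralElem _ h2
  -- descend the relation to level `F₀`
  have hmem₀ : g ^ m + ∑ i : Fin m, (d i : F₀) * g ^ (i : ℕ) ∈ V₀ :=
    V₀.add_mem _ _ (V₀.pow_mem hg m)
      (V₀.toSubring.sum_mem fun i _ => V₀.mul_mem _ _ (hB₀ _ (d i).2) (V₀.pow_mem hg _))
  have hval : V.valuation (γ (g ^ m + ∑ i : Fin m, (d i : F₀) * g ^ (i : ℕ))) < 1 := by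
    have hv : (⟨γ g, hγV g hg⟩ ^ m + ∑ i : Fin m,
        (⟨γ (d i), hB _ (hγB _ (d i).2)⟩ : V) * ⟨γ g, hγV g hg⟩ ^ (i : ℕ) : V) =
        (⟨γ (g ^ m + ∑ i : Fin m, (d i : F₀) * g ^ (i : ℕ)), hγV _ hmem₀⟩ : V) := by
      apply Subtype.ext
      push_cast
      simp only [_root_.map_add, _root_.map_pow, _root_.map_sum, _root_.map_mul]
    have h3 : IsLocalRing.residue V (⟨γ g, hγV g hg⟩ ^ m + ∑ i : Fin m,
        (⟨γ (d i), hB _ (hγB _ (d i).2)⟩ : V) * ⟨γ g, hγV g hg⟩ ^ (i : ℕ)) = 0 := by
      rw [_root_.map_add, _root_.map_pow, _root_.map_sum]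
      simp only [_root_.map_mul, _root_.map_pow]
      exact hrel₀
    rw [hv, residue_eq_zero_iff_val] at h3
    exact h3
  obtain ⟨b₀, hb₀, hgb⟩ := hnorm₀ g hg ⟨m, fun i => (d i : F₀), fun i => (d i).2,
    val_lt_one_of_map γ V₀ V hγV hmem₀ hval⟩
  refine ⟨γ b₀, hγB b₀ hb₀, ?_⟩
  have hpres : V.valuation (γ (g - b₀)) < 1 := hγp _ hgb
  have : f - γ b₀ = (f - γ g) + γ (g - b₀) := by
    rw [_root_.map_sub]
    ring
  rw [this]
  exact lt_of_le_of_lt (Valuation.map_add _ _ _) (max_lt hfg hpres)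

/-- The hypothesis `hint` of `normalIn_transfer` from a coordinate congruence:
`B` integral over `R[y]`, `y ≡ γ c₀ mod 𝔪_V` with `c₀ ∈ B₀`. -/
theorem isIntegralElem_of_coord (γ : F₀ →+* F)
    (hγR : ∀ r : R, γ (algebraMap R F₀ r) = algebraMap R F r)
    (V : ValuationSubring F) (B₀ : Subalgebra R F₀) (B : Subalgebra R F)
    (hB : ∀ b ∈ B, b ∈ V) (hγB : ∀ b ∈ B₀, γ b ∈ B)
    (y : F) (hyB : y ∈ B) (c₀ : F₀) (hc₀ : c₀ ∈ B₀) (hy : V.valuation (y - γ c₀) < 1)
    (hBint : ∀ b ∈ B, IsIntegral (Algebra.adjoin R ({y} : Set F)) b) (b : B) :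
    ((resMap V B hB).comp (mapSub γ B₀ B hγB)).IsIntegralElem (resMap V B hB b) := by
  classical
  set ρ := resMap V B hB with hρ
  set ρ₀ : B₀ →+* IsLocalRing.ResidueField V := ρ.comp (mapSub γ B₀ B hγB) with hρ₀
  have hle : Algebra.adjoin R ({y} : Set F) ≤ B :=
    Algebra.adjoin_le (Set.singleton_subset_iff.2 hyB)
  let ι : Algebra.adjoin R ({y} : Set F) →+* B := (Subalgebra.inclusion hle).toRingHom
  have hι : ∀ a, ((ι a : B) : F) = (a : F) := fun _ => rfl
  -- `b̄` is integral over the image of `R[y]`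
  have h1 : (ρ.comp ι).IsIntegralElem (ρ b) := by
    obtain ⟨Q, hQ, hQb⟩ := hBint b.1 b.2
    refine ⟨Q, hQ, ?_⟩
    have h0 : Q.eval₂ ι b = 0 := by
      apply Subtype.ext
      have := Polynomial.hom_eval₂ Q ι B.val.toRingHom b
      rw [ZeroMemClass.coe_zero]
      calc ((Q.eval₂ ι b : B) : F) = B.val.toRingHom (Q.eval₂ ι b) := rfl
        _ = Q.eval₂ (B.val.toRingHom.comp ι) (B.val.toRingHom b) := this
        _ = 0 := hQb
    have := congrArg ρ h0
    rwa [Polynomial.hom_eval₂, _root_.map_zero] at this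
  -- the image of `R[y]` lies in the image of `B₀`
  refine isIntegralElem_trans ρ₀ (ρ.comp ι) (fun a => ?_) h1
  have hmem : (a : F) ∈ (Polynomial.aeval (R := R) y).range := by
    rw [← Algebra.adjoin_singleton_eq_range_aeval]
    exact a.2
  obtain ⟨Q, hQ⟩ := hmem
  have key : ρ.comp (Polynomial.aeval (R := R) (⟨y, hyB⟩ : B)).toRingHom =
      ρ₀.comp (Polynomial.aeval (R := R) (⟨c₀, hc₀⟩ : B₀)).toRingHom := by
    apply Polynomial.ringHom_ext
    · intro r
      simp only [RingHom.comp_apply, AlgHom.toRingHom_eq_coe, RingHom.coe_coe,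
        Polynomial.aeval_C, hρ₀]
      rw [resMap_apply, resMap_apply]
      congr 1
      apply Subtype.ext
      show algebraMap R F r = γ (algebraMap R F₀ r)
      exact (hγR r).symm
    · simp only [RingHom.comp_apply, AlgHom.toRingHom_eq_coe, RingHom.coe_coe,
        Polynomial.aeval_X, hρ₀]
      rw [resMap_apply, resMap_apply, residue_eq_iff_val]
      exact hy
  have h2 : (ρ.comp ι) a = ρ₀ (Polynomial.aeval (R := R) (⟨c₀, hc₀⟩ : B₀) Q) := by
    have h3 : ι a = Polynomial.aeval (R := R) (⟨y, hyB⟩ : B) Q := by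
      apply Subtype.ext
      rw [hι, ← hQ]
      exact (Polynomial.aeval_algHom_apply B.val (⟨y, hyB⟩ : B) Q).symm ▸ rfl
    rw [RingHom.comp_apply, h3]
    exact congrArg (fun φ : Polynomial R →+* IsLocalRing.ResidueField V => φ Q) key
  rw [h2]
  exact ρ₀.isIntegralElem_map

end Transfer

section Chart

variable {R F₀ F : Type*} [CommRing R] [Field F₀] [Field F] [Algebra R F₀] [Algebra R F]

/-- Integrality over `R[y]` in the form used by `Mod.chart`. -/
theorem isIntegral_adjoin_iff (y f : F) :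
    IsIntegral (Algebra.adjoin R ({y} : Set F)) f ↔
      ∃ p : Polynomial (Polynomial R), p.Monic ∧
        p.eval₂ (Polynomial.eval₂RingHom (algebraMap R F) y) f = 0 := by
  classical
  let ψ : Polynomial R →ₐ[R] Algebra.adjoin R ({y} : Set F) :=
    (Polynomial.aeval (R := R) y).codRestrict (Algebra.adjoin R ({y} : Set F)) (fun p => by
      rw [Algebra.adjoin_singleton_eq_range_aeval]
      exact ⟨p, rfl⟩)
  have hψ : (algebraMap (Algebra.adjoin R ({y} : Set F)) F).comp ψ.toRingHom =
      Polynomial.eval₂RingHom (algebraMap R F) y := by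
    apply Polynomial.ringHom_ext
    · intro r
      simp [ψ]
    · simp [ψ]
  have hsurj : Function.Surjective ψ.toRingHom := by
    rintro ⟨a, ha⟩
    have ha' : a ∈ (Polynomial.aeval (R := R) y).range := by
      rw [← Algebra.adjoin_singleton_eq_range_aeval]
      exact ha
    obtain ⟨Q, hQ⟩ := ha'
    exact ⟨Q, Subtype.ext hQ⟩
  constructor
  · rintro ⟨Q, hQ, hQf⟩
    have hlift : Q ∈ Polynomial.lifts ψ.toRingHom := by
      rw [Polynomial.lifts_iff_coeff_lifts]
      intro n
      exact hsurj _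
    obtain ⟨p, hp, -, hpm⟩ := Polynomial.lifts_and_natDegree_eq_and_monic hlift hQ
    refine ⟨p, hpm, ?_⟩
    rw [← hψ, ← Polynomial.eval₂_map, hp]
    exact hQf
  · rintro ⟨p, hp, hpf⟩
    refine ⟨p.map ψ.toRingHom, hp.map _, ?_⟩
    rw [Polynomial.eval₂_map, hψ]
    exact hpf

/-- A valuation subring containing `R` and `y` contains the integral closure of `R[y]`. -/
theorem mem_valuationSubring_of_isIntegral_adjoin (V : ValuationSubring F)
    (hR : ∀ r : R, algebraMap R F r ∈ V) {y : F} (hy : y ∈ V) {f : F}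
    (hf : IsIntegral (Algebra.adjoin R ({y} : Set F)) f) : f ∈ V := by
  classical
  let VA : Subalgebra R F :=
    { V.toSubring.toSubsemiring with algebraMap_mem' := hR }
  have hle : Algebra.adjoin R ({y} : Set F) ≤ VA :=
    Algebra.adjoin_le (Set.singleton_subset_iff.2 hy)
  obtain ⟨Q, hQ, hQf⟩ := hf
  let ι : Algebra.adjoin R ({y} : Set F) →+* V :=
    { toFun := fun a => ⟨a.1, hle a.2⟩
      map_one' := rfl
      map_mul' := fun _ _ => rfl
      map_zero' := rfl
      map_add' := fun _ _ => rfl }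
  have hint : IsIntegral V f := by
    refine ⟨Q.map ι, hQ.map _, ?_⟩
    rw [Polynomial.eval₂_map]
    exact hQf
  obtain ⟨z, hz⟩ := (IsIntegrallyClosed.isIntegral_iff (R := V) (K := F)).mp hint
  rw [← hz]
  exact z.2

/-- Functoriality of charts: if `γ y₀` is integral over `R[y]` then `γ` maps the integral
closure of `R[y₀]` into the integral closure of `R[y]`. -/
theorem isIntegral_adjoin_map (γ : F₀ →+* F)
    (hγR : ∀ r : R, γ (algebraMap R F₀ r) = algebraMap R F r) {y₀ : F₀} {y : F}
    (hy : IsIntegral (Algebra.adjoin R ({y} : Set F)) (γ y₀)) {b : F₀}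
    (hb : IsIntegral (Algebra.adjoin R ({y₀} : Set F₀)) b) :
    IsIntegral (Algebra.adjoin R ({y} : Set F)) (γ b) := by
  classical
  rw [isIntegral_adjoin_iff] at hb
  obtain ⟨p, hp, hpb⟩ := hb
  -- `γ b` is integral over `R[γ y₀]`
  have h1 : (Polynomial.eval₂RingHom (algebraMap R F) (γ y₀)).IsIntegralElem (γ b) := by
    refine ⟨p, hp, ?_⟩
    have h := congrArg γ hpb
    rw [Polynomial.hom_eval₂, _root_.map_zero] at h
    have hcomp : γ.comp (Polynomial.eval₂RingHom (algebraMap R F₀) y₀) =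
        Polynomial.eval₂RingHom (algebraMap R F) (γ y₀) := by
      apply Polynomial.ringHom_ext
      · intro r
        simp [hγR]
      · simp
    rwa [hcomp] at h
  -- `R[γ y₀]` is integral over `R[y]`
  refine isIntegralElem_trans (algebraMap (Algebra.adjoin R ({y} : Set F)) F)
    (Polynomial.eval₂RingHom (algebraMap R F) (γ y₀)) (fun a => ?_) h1
  show IsIntegral (Algebra.adjoin R ({y} : Set F)) (Polynomial.eval₂ (algebraMap R F) (γ y₀) a)
  rw [Polynomial.eval₂_eq_sum_range]
  refine IsIntegral.sum _ fun i _ => IsIntegral.mul ?_ (hy.pow i)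
  have : algebraMap R F (a.coeff i) =
      algebraMap (Algebra.adjoin R ({y} : Set F)) F (algebraMap R _ (a.coeff i)) := rfl
  rw [this]
  exact isIntegral_algebraMap

end Chart

end Fermat.Agent.A2.Mod.H142

end
end
-- ===== PACK-END A2/Mod/H142/S2Core.lean

-- ===== PACK-BEGIN S18/H393/LocalFree.lean
section


/-!
# S18 / Route K / piece b1 (helper393): local freeness of the normal model

Mathlib-only commutative algebra.

Setting: `Λ` an integrally closed domain with fraction field `K` (application: `Λ = R[x]`,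
`R` a DVR with uniformiser `w`), `w ∈ Λ` a prime element, `F / K` a finite separable field
extension, `B` = the integral closure of `Λ` in `F` (elements of `F` integral over `Λ`).

* `isIntegral_of_isIntegral_mul'` : (b1.a, the "regular sequence" lemma)
  if `w` is prime, `¬ w ∣ t`, and both `w * f` and `t * f` are integral over `Λ`, then so is `f`.
* `mem_smul_top_of_smul_mem` : the same inside `B`: `t • β ∈ w B`, `¬ w ∣ t` imply `β ∈ w B`
  (`B / w B` is torsion-free over `Λ / w`; `(w, t)` is a regular sequence on `B`).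
* `exists_basis_mod` : (b1 / b2.1, local freeness) if moreover `Λ` is noetherian and `Λ / w` is a
  PID, there is `b : Fin [F : K] → F`, integral, `K`-linearly independent, with
  `ρ B ⊆ ∑ Λ bᵢ` for some `ρ ≡ 1 mod w`, and `∑ cᵢ bᵢ ∈ w B → w ∣ cᵢ`.
  So `B` is free with basis `b` over the localisation of `Λ` at `1 + wΛ`, `B / w B` is free over
  `Λ / w` with basis `b mod w`, and `B ⊗ Λ_𝔭` is free with basis `b` for every prime `𝔭`
  of `Λ` with `ρ ∉ 𝔭` (e.g. `𝔭 = (x - c)`, `c` integral, in the application).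
-/

set_option autoImplicit false

namespace Fermat.Agent.S18.H393

open Polynomial

section RegularSequence

variable {Λ : Type*} (K : Type*) {F : Type*} [CommRing Λ] [IsDomain Λ]
  [Field K] [Algebra Λ K] [IsFractionRing Λ K]
  [Field F] [Algebra K F] [Algebra Λ F] [IsScalarTower Λ K F]

/-- If `c • f` is integral over the integrally closed domain `Λ` (`c ≠ 0`), the minimal
polynomial of `f` over `K`, with roots scaled by `c`, has coefficients in `Λ`. -/
theorem coeff_minpoly_mul_pow_mem [IsIntegrallyClosed Λ] {c : Λ} (hc : c ≠ 0) {f : F}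
    (hcf : IsIntegral Λ (algebraMap Λ F c * f)) (i : ℕ) :
    ∃ a : Λ, algebraMap Λ K a =
      (minpoly K f).coeff i * algebraMap Λ K c ^ ((minpoly K f).natDegree - i) := by
  have hcK : algebraMap Λ K c ≠ 0 := by
    simpa using (IsFractionRing.injective Λ K).ne hc
  have hcfK : IsIntegral K (algebraMap Λ F c * f) := hcf.tower_top
  have hmul : algebraMap Λ F c * f = algebraMap K F (algebraMap Λ K c) * f := by
    rw [← IsScalarTower.algebraMap_apply]
  have hfK : IsIntegral K f := by
    have h1 : IsIntegral K (algebraMap K F (algebraMap Λ K c)⁻¹ * (algebraMap Λ F c * f)) :=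
      (isIntegral_algebraMap).mul hcfK
    have h2 : algebraMap K F (algebraMap Λ K c)⁻¹ * (algebraMap Λ F c * f) = f := by
      rw [hmul, ← mul_assoc, ← map_mul, inv_mul_cancel₀ hcK, map_one, one_mul]
    rwa [h2] at h1
  set π := minpoly K f with hπ
  set σ := scaleRoots π (algebraMap Λ K c) with hσ
  have hπm : π.Monic := minpoly.monic hfK
  have hσm : σ.Monic := (monic_scaleRoots_iff _).mpr hπm
  have hσroot : aeval (algebraMap Λ F c * f) σ = 0 := by
    rw [hmul]
    exact scaleRoots_aeval_eq_zero (minpoly.aeval K f)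
  -- the minimal polynomial of `c f` divides `σ`
  have hdvd : minpoly K (algebraMap Λ F c * f) ∣ σ := minpoly.dvd K _ hσroot
  -- degree comparison
  set μ := minpoly K (algebraMap Λ F c * f) with hμ
  have hμm : μ.Monic := minpoly.monic hcfK
  have hroot2 : aeval f (scaleRoots μ (algebraMap Λ K c)⁻¹) = 0 := by
    have h2 : algebraMap K F (algebraMap Λ K c)⁻¹ * (algebraMap Λ F c * f) = f := by
      rw [hmul, ← mul_assoc, ← map_mul, inv_mul_cancel₀ hcK, map_one, one_mul]
    have := scaleRoots_aeval_eq_zero (p := μ) (r := (algebraMap Λ K c)⁻¹)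
      (a := algebraMap Λ F c * f) (minpoly.aeval K _)
    rwa [h2] at this
  have hdvd2 : π ∣ scaleRoots μ (algebraMap Λ K c)⁻¹ := minpoly.dvd K _ hroot2
  have hdeg1 : μ.natDegree ≤ σ.natDegree :=
    natDegree_le_of_dvd hdvd hσm.ne_zero
  have hdeg2 : π.natDegree ≤ μ.natDegree := by
    have := natDegree_le_of_dvd hdvd2 ((monic_scaleRoots_iff _).mpr hμm).ne_zero
    rwa [natDegree_scaleRoots] at this
  have hdegσ : σ.natDegree = π.natDegree := natDegree_scaleRoots _ _
  have hμσ : σ = μ := by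
    refine eq_of_monic_of_dvd_of_natDegree_le hμm hσm hdvd ?_
    rw [hdegσ]; exact hdeg2
  have hlift : μ = (minpoly Λ (algebraMap Λ F c * f)).map (algebraMap Λ K) :=
    minpoly.isIntegrallyClosed_eq_field_fractions' K hcf
  refine ⟨(minpoly Λ (algebraMap Λ F c * f)).coeff i, ?_⟩
  rw [← coeff_map, ← hlift, ← hμσ, hσ, coeff_scaleRoots]

/-- **b1.a (regular sequence lemma).** `Λ` integrally closed domain, `w` prime, `¬ w ∣ t`.
If `w f` and `t f` are integral over `Λ`, then `f` is integral over `Λ`. -/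
theorem isIntegral_of_isIntegral_mul' {Λ : Type*} (K : Type*) {F : Type*} [CommRing Λ]
    [IsDomain Λ] [IsIntegrallyClosed Λ] [Field K] [Algebra Λ K] [IsFractionRing Λ K]
    [Field F] [Algebra K F] [Algebra Λ F] [IsScalarTower Λ K F] {w t : Λ} (hw : Prime w)
    (ht : ¬ w ∣ t) {f : F}
    (hwf : IsIntegral Λ (algebraMap Λ F w * f)) (htf : IsIntegral Λ (algebraMap Λ F t * f)) :
    IsIntegral Λ f := by
  have hw0 : w ≠ 0 := hw.ne_zero
  have ht0 : t ≠ 0 := fun h => ht (h ▸ dvd_zero w)
  have hinj := IsFractionRing.injective Λ K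
  have hwK : algebraMap Λ K w ≠ 0 := by simpa using hinj.ne hw0
  have hfK : IsIntegral K f := by
    have hcfK : IsIntegral K (algebraMap Λ F w * f) := hwf.tower_top
    have hmul : algebraMap Λ F w * f = algebraMap K F (algebraMap Λ K w) * f := by
      rw [← IsScalarTower.algebraMap_apply]
    have h1 : IsIntegral K (algebraMap K F (algebraMap Λ K w)⁻¹ * (algebraMap Λ F w * f)) :=
      (isIntegral_algebraMap).mul hcfK
    have h2 : algebraMap K F (algebraMap Λ K w)⁻¹ * (algebraMap Λ F w * f) = f := by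
      rw [hmul, ← mul_assoc, ← map_mul, inv_mul_cancel₀ hwK, map_one, one_mul]
    rwa [h2] at h1
  set π := minpoly K f with hπ
  have hπm : π.Monic := minpoly.monic hfK
  -- every coefficient of `π` lies in `Λ`
  have hcoeff : ∀ i, ∃ a : Λ, algebraMap Λ K a = π.coeff i := by
    intro i
    obtain ⟨a, ha⟩ := coeff_minpoly_mul_pow_mem K hw0 hwf i
    obtain ⟨b, hb⟩ := coeff_minpoly_mul_pow_mem K ht0 htf i
    set e := π.natDegree - i with he
    have hab : a * t ^ e = b * w ^ e := by
      apply hinj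
      rw [map_mul, map_mul, map_pow, map_pow, ha, hb]
      ring
    have hdvd : w ^ e ∣ a := by
      refine hw.pow_dvd_of_dvd_mul_right e ?_ ⟨b, by rw [hab]; ring⟩
      exact fun h => ht (hw.dvd_of_dvd_pow h)
    obtain ⟨ν, hν⟩ := hdvd
    refine ⟨ν, ?_⟩
    have hwe : algebraMap Λ K w ^ e ≠ 0 := pow_ne_zero _ hwK
    apply mul_right_cancel₀ hwe
    rw [← ha, hν, map_mul, map_pow]; ring
  have hlifts : π ∈ lifts (algebraMap Λ K) := by
    rw [lifts_iff_coeff_lifts]
    intro i
    obtain ⟨a, ha⟩ := hcoeff i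
    exact ⟨a, ha⟩
  obtain ⟨q, hq, -, hqm⟩ := lifts_and_degree_eq_and_monic hlifts hπm
  refine ⟨q, hqm, ?_⟩
  have : aeval f (q.map (algebraMap Λ K)) = 0 := by rw [hq]; exact minpoly.aeval K f
  rwa [aeval_map_algebraMap] at this

end RegularSequence

section Basis

open Pointwise

/-- `B / w B` is torsion-free over `Λ / w`, elementwise form inside `B`:
if `t • β ∈ w B` and `¬ w ∣ t` then `β ∈ w B`. -/
theorem mem_smul_top_of_smul_mem {Λ : Type*} (K : Type*) {F : Type*} [CommRing Λ] [IsDomain Λ]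
    [IsIntegrallyClosed Λ] [Field K] [Algebra Λ K] [IsFractionRing Λ K]
    [Field F] [Algebra K F] [Algebra Λ F] [IsScalarTower Λ K F]
    {w t : Λ} (hw : Prime w) (ht : ¬ w ∣ t)
    {β : integralClosure Λ F}
    (h : t • β ∈ w • (⊤ : Submodule Λ (integralClosure Λ F))) :
    β ∈ w • (⊤ : Submodule Λ (integralClosure Λ F)) := by
  rw [Submodule.mem_smul_pointwise_iff_exists] at h ⊢
  obtain ⟨β', -, hβ'⟩ := h
  have hw0 : w ≠ 0 := hw.ne_zero
  have hwF : algebraMap Λ F w ≠ 0 := by
    have hinj : Function.Injective (algebraMap Λ F) := by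
      rw [IsScalarTower.algebraMap_eq Λ K F]
      exact (algebraMap K F).injective.comp (IsFractionRing.injective Λ K)
    simpa using hinj.ne hw0
  set f : F := (β : F) / algebraMap Λ F w with hf
  have h1 : algebraMap Λ F w * f = (β : F) := by
    rw [hf]; field_simp
  have h2 : algebraMap Λ F t * f = (β' : F) := by
    have h3 : algebraMap Λ F w * (β' : F) = algebraMap Λ F t * (β : F) := by
      have := congrArg (fun x : integralClosure Λ F => (x : F)) hβ'
      simpa [Algebra.smul_def] using this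
    rw [hf]; field_simp; rw [← h3]
  have hfint : IsIntegral Λ f :=
    isIntegral_of_isIntegral_mul' K hw ht (h1 ▸ β.2) (h2 ▸ β'.2)
  refine ⟨⟨f, hfint⟩, Submodule.mem_top, ?_⟩
  apply Subtype.ext
  simpa [Algebra.smul_def] using h1

/-- **b1 (local freeness, elementwise form).**
`Λ` noetherian integrally closed domain, `K = Frac Λ`, `F / K` finite separable,
`w ∈ Λ` prime with `Λ / w` a PID (application: `Λ = R[x]`, `R` a DVR with uniformiser `w`).
Then there is a family `b : Fin [F : K] → F` of integral elements such that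
* `b` is `K`-linearly independent (hence a `K`-basis of `F`);
* (Nakayama) there is `ρ ≡ 1 mod w` with `ρ β ∈ ∑ Λ bᵢ` for every integral `β`
  (so the integral closure `B` is free with basis `b` after inverting `1 + wΛ`);
* (basis mod `w`) if `∑ cᵢ bᵢ ∈ w B` then `w ∣ cᵢ` for all `i`. -/
theorem exists_basis_mod {Λ : Type*} (K : Type*) {F : Type*} [CommRing Λ] [IsDomain Λ]
    [IsIntegrallyClosed Λ] [IsNoetherianRing Λ] [Field K] [Algebra Λ K] [IsFractionRing Λ K]
    [Field F] [Algebra K F] [Algebra Λ F] [IsScalarTower Λ K F]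
    [FiniteDimensional K F] [Algebra.IsSeparable K F]
    {w : Λ} (hw : Prime w) [IsPrincipalIdealRing (Λ ⧸ Ideal.span {w})] :
    ∃ b : Fin (Module.finrank K F) → F,
      (∀ i, IsIntegral Λ (b i)) ∧ LinearIndependent K b ∧
      (∃ ρ : Λ, w ∣ ρ - 1 ∧ ∀ β : F, IsIntegral Λ β →
        ∃ c : Fin (Module.finrank K F) → Λ,
          algebraMap Λ F ρ * β = ∑ i, algebraMap Λ F (c i) * b i) ∧
      (∀ (c : Fin (Module.finrank K F) → Λ) (β : F), IsIntegral Λ β →
        ∑ i, algebraMap Λ F (c i) * b i = algebraMap Λ F w * β → ∀ i, w ∣ c i) := by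
  classical
  have hinjF : Function.Injective (algebraMap Λ F) := by
    rw [IsScalarTower.algebraMap_eq Λ K F]
    exact (algebraMap K F).injective.comp (IsFractionRing.injective Λ K)
  have hfin : Module.Finite Λ (integralClosure Λ F) :=
    IsIntegralClosure.finite Λ K F (integralClosure Λ F)
  set I : Ideal Λ := Ideal.span {w} with hI
  have hIp : I.IsPrime := (Ideal.span_singleton_prime hw.ne_zero).mpr hw
  have hIne : I ≠ ⊤ := hIp.ne_top
  set W : Submodule Λ (integralClosure Λ F) := w • (⊤ : Submodule Λ (integralClosure Λ F))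
    with hW
  have : Module.Finite (Λ ⧸ I) (integralClosure Λ F ⧸ W) :=
    Module.Finite.of_restrictScalars_finite Λ _ _
  have : Module.IsTorsionFree (Λ ⧸ I) (integralClosure Λ F ⧸ W) := by
    refine ⟨fun r hr => ?_⟩
    rw [isSMulRegular_iff_right_eq_zero_of_smul]
    intro q hq
    obtain ⟨t, rfl⟩ := Ideal.Quotient.mk_surjective r
    obtain ⟨β, rfl⟩ := Submodule.Quotient.mk_surjective W q
    have ht : ¬ w ∣ t := by
      intro hdvd
      have : Ideal.Quotient.mk I t = 0 :=
        Ideal.Quotient.eq_zero_iff_mem.mpr (Ideal.mem_span_singleton.mpr hdvd)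
      exact hr.ne_zero this
    have hmem : t • β ∈ W := by
      rw [← Submodule.Quotient.mk_eq_zero W]
      exact hq
    exact (Submodule.Quotient.mk_eq_zero W).mpr (mem_smul_top_of_smul_mem K hw ht hmem)
  have : Module.Free (Λ ⧸ I) (integralClosure Λ F ⧸ W) :=
    Module.free_of_finite_type_torsion_free'
  let e := Module.Free.chooseBasis (Λ ⧸ I) (integralClosure Λ F ⧸ W)
  set ι := Module.Free.ChooseBasisIndex (Λ ⧸ I) (integralClosure Λ F ⧸ W) with hι
  let _ : Fintype ι := Module.Free.ChooseBasisIndex.fintype _ _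
  choose b' hb' using fun i => Submodule.Quotient.mk_surjective W (e i)
  have hmk : ∀ c : ι → Λ, Submodule.Quotient.mk (p := W) (∑ i, c i • b' i) =
      ∑ i, Ideal.Quotient.mk I (c i) • e i := by
    intro c
    change W.mkQ (∑ i, c i • b' i) = _
    rw [map_sum]
    refine Finset.sum_congr rfl fun i _ => ?_
    rw [← hb' i]
    rfl
  -- (4') basis mod w
  have key4 : ∀ c : ι → Λ, (∑ i, c i • b' i) ∈ W → ∀ i, w ∣ c i := by
    intro c hc i
    have h0 : ∑ i, Ideal.Quotient.mk I (c i) • e i = 0 := by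
      rw [← hmk, Submodule.Quotient.mk_eq_zero]; exact hc
    have := (Fintype.linearIndependent_iff.mp e.linearIndependent) _ h0 i
    exact Ideal.mem_span_singleton.mp (Ideal.Quotient.eq_zero_iff_mem.mp this)
  -- spanning mod w
  have span_mod : ∀ β : integralClosure Λ F, ∃ c : ι → Λ, β - ∑ i, c i • b' i ∈ W := by
    intro β
    choose c hc using fun i =>
      Ideal.Quotient.mk_surjective (e.equivFun (Submodule.Quotient.mk (p := W) β) i)
    refine ⟨c, ?_⟩
    rw [← Submodule.Quotient.mk_eq_zero W, Submodule.Quotient.mk_sub, hmk, sub_eq_zero]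
    conv_lhs => rw [← e.sum_equivFun (Submodule.Quotient.mk (p := W) β)]
    refine Finset.sum_congr rfl fun i _ => ?_
    rw [hc i]
  -- Nakayama
  set M : Submodule Λ (integralClosure Λ F) := Submodule.span Λ (Set.range b') with hM
  obtain ⟨ρ, hρ1, hρ⟩ : ∃ ρ : Λ, ρ - 1 ∈ I ∧ ∀ β : integralClosure Λ F, ρ • β ∈ M := by
    have hle : (⊤ : Submodule Λ (integralClosure Λ F ⧸ M)) ≤
        I • (⊤ : Submodule Λ (integralClosure Λ F ⧸ M)) := by
      rintro q -
      obtain ⟨β, rfl⟩ := Submodule.Quotient.mk_surjective M q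
      obtain ⟨c, hc⟩ := span_mod β
      rw [hW, Submodule.mem_smul_pointwise_iff_exists] at hc
      obtain ⟨β', -, hβ'⟩ := hc
      have hsum : (∑ i, c i • b' i) ∈ M :=
        Submodule.sum_mem _ fun i _ =>
          Submodule.smul_mem _ _ (Submodule.subset_span ⟨i, rfl⟩)
      have hβ : β = w • β' + ∑ i, c i • b' i := by rw [hβ']; abel
      have : Submodule.Quotient.mk (p := M) β = w • Submodule.Quotient.mk (p := M) β' := by
        rw [hβ, Submodule.Quotient.mk_add, (Submodule.Quotient.mk_eq_zero M).mpr hsum,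
          add_zero, Submodule.Quotient.mk_smul]
      rw [this]
      exact Submodule.smul_mem_smul (Ideal.mem_span_singleton_self w) Submodule.mem_top
    obtain ⟨ρ, hρ1, hρ⟩ := Submodule.exists_sub_one_mem_and_smul_eq_zero_of_fg_of_le_smul I
      (⊤ : Submodule Λ (integralClosure Λ F ⧸ M)) Module.Finite.fg_top hle
    refine ⟨ρ, hρ1, fun β => ?_⟩
    have := hρ (Submodule.Quotient.mk β) Submodule.mem_top
    rwa [← Submodule.Quotient.mk_smul, Submodule.Quotient.mk_eq_zero] at this
  -- linear independence over Λ inside B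
  have hpow : ∀ (k : ℕ) (c : ι → Λ), ∑ i, c i • b' i = 0 → ∀ i, w ^ k ∣ c i := by
    intro k
    induction k with
    | zero => intro c _ i; simp
    | succ k ih =>
      intro c hc i
      have hdiv := key4 c (hc ▸ W.zero_mem)
      choose d hd using hdiv
      have hd0 : ∑ i, d i • b' i = 0 := by
        have h1 : w • ∑ i, d i • b' i = 0 := by
          rw [Finset.smul_sum, ← hc]
          refine Finset.sum_congr rfl fun i _ => ?_
          rw [hd i, mul_smul]
        have hw0 : w ≠ 0 := hw.ne_zero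
        have hwB : algebraMap Λ (integralClosure Λ F) w ≠ 0 := by
          intro h
          apply hw0
          apply hinjF
          have := congrArg (algebraMap (integralClosure Λ F) F) h
          rw [← IsScalarTower.algebraMap_apply] at this
          simpa using this
        rw [Algebra.smul_def] at h1
        exact (mul_eq_zero.mp h1).resolve_left hwB
      obtain ⟨x, hx⟩ := ih d hd0 i
      exact ⟨x, by rw [hd i, hx, pow_succ]; ring⟩
  have hliB : ∀ c : ι → Λ, ∑ i, c i • b' i = 0 → ∀ i, c i = 0 := by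
    intro c hc i
    have hmem : c i ∈ ⨅ k : ℕ, I ^ k := by
      rw [Ideal.mem_iInf]
      intro k
      rw [hI, Ideal.span_singleton_pow, Ideal.mem_span_singleton]
      exact hpow k c hc i
    rw [Ideal.iInf_pow_eq_bot_of_isDomain I hIne] at hmem
    simpa using hmem
  have hliΛ : LinearIndependent Λ (fun i => ((b' i : integralClosure Λ F) : F)) := by
    rw [Fintype.linearIndependent_iff]
    intro c hc i
    refine hliB c ?_ i
    apply Subtype.ext
    have : ((∑ i, c i • b' i : integralClosure Λ F) : F) = ∑ i, c i • ((b' i : integralClosure Λ F) : F) := by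
      simp
    rw [this, hc]; rfl
  have hliK : LinearIndependent K (fun i => ((b' i : integralClosure Λ F) : F)) :=
    (LinearIndependent.iff_fractionRing Λ K).mp hliΛ
  -- spanning over K
  have hρ0 : ρ ≠ 0 := by
    rintro rfl
    rw [zero_sub, Ideal.neg_mem_iff] at hρ1
    exact hIne ((Ideal.eq_top_iff_one I).mpr hρ1)
  have hspanΛ : ∀ β : integralClosure Λ F, ∃ c : ι → Λ,
      algebraMap Λ F ρ * (β : F) = ∑ i, algebraMap Λ F (c i) * ((b' i : integralClosure Λ F) : F) := by
    intro β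
    have h := hρ β
    rw [hM, Submodule.mem_span_range_iff_exists_fun] at h
    obtain ⟨c, hc⟩ := h
    refine ⟨c, ?_⟩
    have := congrArg (fun x : integralClosure Λ F => (x : F)) hc
    simp only [Algebra.smul_def] at this
    simpa using this.symm
  have hspanK : (⊤ : Submodule K F) ≤ Submodule.span K (Set.range fun i => ((b' i : integralClosure Λ F) : F)) := by
    rintro x -
    obtain ⟨y, hy0, hy⟩ := exists_integral_multiples Λ K ({x} : Finset F)
    have hyx : IsIntegral Λ (y • x) := hy x (Finset.mem_singleton_self x)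
    obtain ⟨c, hc⟩ := hspanΛ ⟨y • x, hyx⟩
    have hyρ : algebraMap Λ K (ρ * y) ≠ 0 := by
      simpa using (IsFractionRing.injective Λ K).ne (mul_ne_zero hρ0 hy0)
    have hx : x = (algebraMap Λ K (ρ * y))⁻¹ • ∑ i, algebraMap Λ K (c i) • ((b' i : integralClosure Λ F) : F) := by
      rw [eq_inv_smul_iff₀ hyρ]
      have : ∑ i, algebraMap Λ K (c i) • ((b' i : integralClosure Λ F) : F) =
          ∑ i, algebraMap Λ F (c i) * ((b' i : integralClosure Λ F) : F) := by
        refine Finset.sum_congr rfl fun i _ => ?_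
        rw [Algebra.smul_def, ← IsScalarTower.algebraMap_apply]
      rw [this, ← hc, Algebra.smul_def, ← IsScalarTower.algebraMap_apply, map_mul]
      simp only [Algebra.smul_def, mul_assoc]
    rw [hx]
    refine Submodule.smul_mem _ _ (Submodule.sum_mem _ fun i _ => Submodule.smul_mem _ _ ?_)
    exact Submodule.subset_span ⟨i, rfl⟩
  let bK : Module.Basis ι K F := Module.Basis.mk hliK hspanK
  have hcard : Fintype.card ι = Module.finrank K F :=
    (Module.finrank_eq_card_basis bK).symm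
  let σ : Fin (Module.finrank K F) ≃ ι := (Fintype.equivFinOfCardEq hcard).symm
  refine ⟨fun j => ((b' (σ j) : integralClosure Λ F) : F), fun j => (b' (σ j)).2,
    hliK.comp σ σ.injective, ⟨ρ, Ideal.mem_span_singleton.mp hρ1, fun β hβ => ?_⟩,
    fun c β hβ hc j => ?_⟩
  · obtain ⟨c, hc⟩ := hspanΛ ⟨β, hβ⟩
    refine ⟨fun j => c (σ j), ?_⟩
    rw [hc]
    exact (Equiv.sum_comp σ fun i => algebraMap Λ F (c i) * ((b' i : integralClosure Λ F) : F)).symm
  · have h1 := key4 (fun i => c (σ.symm i)) ?_ (σ j)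
    · simpa using h1
    · rw [hW, Submodule.mem_smul_pointwise_iff_exists]
      refine ⟨⟨β, hβ⟩, Submodule.mem_top, ?_⟩
      apply Subtype.ext
      have e1 : ((w • (⟨β, hβ⟩ : integralClosure Λ F) : integralClosure Λ F) : F) =
          algebraMap Λ F w * β := by
        simp [Algebra.smul_def]
      have e2 : ((∑ i, c (σ.symm i) • b' i : integralClosure Λ F) : F) =
          ∑ j, algebraMap Λ F (c j) * ((b' (σ j) : integralClosure Λ F) : F) := by
        rw [← Equiv.sum_comp σ]
        simp [Algebra.smul_def]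
      rw [e1, e2, hc]

end Basis

end Fermat.Agent.S18.H393

end
-- ===== PACK-END S18/H393/LocalFree.lean

-- ===== PACK-BEGIN S18/H274/Newton.lean
section


/-!
# S18 / b2 (helper274) — traces of powers and nilpotency in characteristic zero

Mathlib-only.  Over a field of characteristic zero, an endomorphism `f` of a finite dimensional
vector space all of whose positive powers have trace zero is nilpotent
(`isNilpotent_of_trace_pow_eq_zero`), and the matrix version
(`matrix_isNilpotent_of_trace_pow_eq_zero`).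

Proof: induction on the dimension.  By Cayley–Hamilton `χ(f) = 0`; taking traces gives
`χ(0) · dim V = 0`, so `det f = 0` and `range f` is a proper invariant subspace.  The traces of
the powers of `f` restricted to `range f` are those of `f`.
-/

namespace Fermat.Agent.S18.H274

open Module Polynomial

universe u

theorem isNilpotent_of_trace_pow_eq_zero_aux (K : Type*) [Field K] [CharZero K] :
    ∀ (n : ℕ) (V : Type u) [AddCommGroup V] [Module K V] [FiniteDimensional K V],
      finrank K V = n → ∀ f : V →ₗ[K] V,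
        (∀ k, 1 ≤ k → LinearMap.trace K V (f ^ k) = 0) → IsNilpotent f := by
  intro n
  induction n using Nat.strong_induction_on with
  | _ n ih =>
    intro V _ _ _ hn f hf
    rcases Nat.eq_zero_or_pos n with h0 | hpos
    · -- trivial space
      subst h0
      have : Subsingleton V := Module.finrank_zero_iff.mp hn
      have hf0 : f = 0 := Subsingleton.elim _ _
      rw [hf0]
      exact IsNilpotent.zero
    · -- `det f = 0`
      have hCH := LinearMap.aeval_self_charpoly f
      have htr : LinearMap.trace K V (aeval f f.charpoly) = f.charpoly.coeff 0 * (n : K) := by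
        rw [aeval_eq_sum_range, map_sum]
        rw [Finset.sum_eq_single 0]
        · simp [hn, Module.End.one_eq_id]
        · intro i _ hi
          rw [map_smul, hf i (Nat.one_le_iff_ne_zero.mpr hi), smul_zero]
        · intro h
          exact absurd (Finset.mem_range.mpr (Nat.succ_pos _)) h
      rw [hCH, map_zero] at htr
      have hn0 : (n : K) ≠ 0 := Nat.cast_ne_zero.mpr hpos.ne'
      have hc0 : f.charpoly.coeff 0 = 0 := by
        rcases mul_eq_zero.mp htr.symm with h | h
        · exact h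
        · exact absurd h hn0
      have hdet : LinearMap.det f = 0 := by
        rw [LinearMap.det_eq_sign_charpoly_coeff, hc0, mul_zero]
      have hker : ⊥ < LinearMap.ker f := LinearMap.bot_lt_ker_of_det_eq_zero hdet
      have hkerpos : 0 < finrank K (LinearMap.ker f) := by
        rw [Module.finrank_pos_iff_exists_ne_zero]
        obtain ⟨x, hx, hx'⟩ := Submodule.exists_mem_ne_zero_of_ne_bot hker.ne'
        exact ⟨⟨x, hx⟩, fun h => hx' (congrArg Subtype.val h)⟩
      have hrn := LinearMap.finrank_range_add_finrank_ker f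
      have hlt : finrank K (LinearMap.range f) < n := by omega
      -- restriction to the range
      let U := LinearMap.range f
      let f' : V →ₗ[K] U := f.rangeRestrict
      let ι : U →ₗ[K] V := U.subtype
      let g : U →ₗ[K] U := f' ∘ₗ ι
      have hfι : ι ∘ₗ f' = f := LinearMap.subtype_comp_codRestrict _ _ _
      have hgx : ∀ x : U, ((g x : U) : V) = f (x : V) := fun x => rfl
      have hιg' : ∀ (k : ℕ) (x : U), (((g ^ k) x : U) : V) = (f ^ k) (x : V) := by
        intro k
        induction k with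
        | zero => intro x; simp
        | succ k ihk =>
          intro x
          rw [pow_succ', Module.End.mul_apply, hgx, ihk, pow_succ', Module.End.mul_apply]
      have hιg : ∀ k : ℕ, ι ∘ₗ (g ^ k) = (f ^ k) ∘ₗ ι := by
        intro k
        ext x
        exact hιg' k x
      have hg : ∀ k, 1 ≤ k → LinearMap.trace K U (g ^ k) = 0 := by
        intro k hk
        obtain ⟨k, rfl⟩ : ∃ j, k = j + 1 := ⟨k - 1, by omega⟩
        have h1 : g ^ (k + 1) = ((g ^ k) ∘ₗ f') ∘ₗ ι := by
          rw [pow_succ, Module.End.mul_eq_comp, LinearMap.comp_assoc]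
        rw [h1, LinearMap.trace_comp_comm', ← LinearMap.comp_assoc, hιg, LinearMap.comp_assoc,
          hfι, ← Module.End.mul_eq_comp, ← pow_succ]
        exact hf (k + 1) (Nat.succ_pos _)
      obtain ⟨m, hm⟩ := ih _ hlt U rfl g hg
      refine ⟨m + 1, ?_⟩
      ext x
      rw [pow_succ, Module.End.mul_apply]
      have h2 : f x = ((f' x : U) : V) := rfl
      rw [h2, ← hιg', hm]
      simp

/-- Over a field of characteristic zero, an endomorphism of a finite dimensional vector space
all of whose positive powers have trace zero is nilpotent. -/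
theorem isNilpotent_of_trace_pow_eq_zero {K : Type*} [Field K] [CharZero K]
    {V : Type*} [AddCommGroup V] [Module K V] [FiniteDimensional K V] (f : V →ₗ[K] V)
    (hf : ∀ k, 1 ≤ k → LinearMap.trace K V (f ^ k) = 0) : IsNilpotent f :=
  isNilpotent_of_trace_pow_eq_zero_aux K _ V rfl f hf

/-- Matrix version of `isNilpotent_of_trace_pow_eq_zero`. -/
theorem matrix_isNilpotent_of_trace_pow_eq_zero {K : Type*} [Field K] [CharZero K]
    {n : Type*} [Fintype n] [DecidableEq n] (A : Matrix n n K)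
    (hA : ∀ k, 1 ≤ k → (A ^ k).trace = 0) : IsNilpotent A := by
  have h := isNilpotent_of_trace_pow_eq_zero (Matrix.toLin' A) (fun k hk => by
    rw [← Matrix.toLin'_pow, LinearMap.trace_eq_matrix_trace K (Pi.basisFun K n),
      LinearMap.toMatrix_eq_toMatrix', LinearMap.toMatrix'_toLin']
    exact hA k hk)
  obtain ⟨m, hm⟩ := h
  refine ⟨m, ?_⟩
  rw [← Matrix.toLin'_pow] at hm
  exact Matrix.toLin'.injective (by rw [hm, map_zero])

end Fermat.Agent.S18.H274

end
-- ===== PACK-END S18/H274/Newton.lean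

-- ===== PACK-BEGIN S37/H278/DetDvd.lean
section


/-!
# S37 / S18, piece b2-core (helper278): determinant divisibility

A matrix whose rows indexed by `Z` are divisible by `t`, whose column `i₀` is divisible by `t`, and
whose entries `(i, i₀)` with `i ∈ Z` are divisible by `t ^ 2`, has determinant divisible by
`t ^ (#Z + 1)`.
-/

set_option autoImplicit false

namespace Fermat.Agent.S37.H278

open Matrix

theorem pow_card_dvd_det {R : Type*} [CommRing R] {ι : Type*} [Fintype ι] [DecidableEq ι]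
    (t : R) (T : Matrix ι ι R) (Z : Finset ι)
    (h1 : ∀ i ∈ Z, ∀ j, t ∣ T i j) :
    t ^ Z.card ∣ T.det := by
  classical
  choose! r hr using h1
  let T' : Matrix ι ι R := Matrix.of fun i j => if i ∈ Z then r i j else T i j
  have hT : T = Matrix.of fun i j => (if i ∈ Z then t else 1) * T' i j := by
    ext i j
    by_cases hi : i ∈ Z
    · simp [T', hi, hr i hi j]
    · simp [T', hi]
  rw [hT, Matrix.det_mul_column]
  have : (∏ i : ι, if i ∈ Z then t else 1) = t ^ Z.card := by
    rw [Finset.prod_ite_mem, Finset.univ_inter, Finset.prod_const]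
  rw [this]
  exact Dvd.intro _ rfl

theorem pow_card_succ_dvd_det {R : Type*} [CommRing R] {ι : Type*} [Fintype ι] [DecidableEq ι]
    (t : R) (T : Matrix ι ι R) (Z : Finset ι) (i₀ : ι)
    (h1 : ∀ i ∈ Z, ∀ j, t ∣ T i j)
    (h2 : ∀ i ∈ Z, t ^ 2 ∣ T i i₀)
    (h3 : ∀ j, t ∣ T j i₀) :
    t ^ (Z.card + 1) ∣ T.det := by
  classical
  choose! r hr using h1
  choose! q hq using h2
  choose p hp using h3
  let T' : Matrix ι ι R := Matrix.of fun i j =>
    if j = i₀ then (if i ∈ Z then q i else p i) else (if i ∈ Z then r i j else T i j)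
  have hT : T = Matrix.of fun i j =>
      (if i ∈ Z then t else 1) * ((Matrix.of fun i j => (if j = i₀ then t else 1) * T' i j) i j) := by
    ext i j
    by_cases hi : i ∈ Z <;> by_cases hj : j = i₀
    · subst hj; simp [T', hi, hq i hi]; ring
    · simp [T', hi, hj, hr i hi j]
    · subst hj; simp [T', hi, hp i]
    · simp [T', hi, hj]
  rw [hT, Matrix.det_mul_column, Matrix.det_mul_row]
  have e1 : (∏ i : ι, if i ∈ Z then t else 1) = t ^ Z.card := by
    rw [Finset.prod_ite_mem, Finset.univ_inter, Finset.prod_const]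
  have e2 : (∏ j : ι, if j = i₀ then t else 1) = t := by
    rw [Finset.prod_ite_eq' Finset.univ i₀ (fun _ => t)]
    simp
  rw [e1, e2, pow_succ]
  exact Dvd.intro (T'.det) (by ring)

end Fermat.Agent.S37.H278

end
-- ===== PACK-END S37/H278/DetDvd.lean

-- ===== PACK-BEGIN S18/H425/HsepLocal.lean
section


/-!
# S18 / b2.5 HSEP (helper425): local lemmas

* `isSeparable_of_aeval_derivative_ne_zero` : over a field, a root `y` of `P` with `P'(y) ≠ 0`
  is separable.
* `isUnit_discr_of_isSeparable_quotient` : `R` local, `S` finite free over `R`, `𝔪 S` maximal and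
  `S/𝔪S` separable over `R/𝔪` (elementwise) ⟹ the discriminant of any basis is a unit.

Mathlib-only.
-/

set_option autoImplicit false

namespace Fermat.Agent.S18.H425

open Polynomial

/-- A root `y` of `P` with `P'(y) ≠ 0` is separable over the base field. -/
theorem isSeparable_of_aeval_derivative_ne_zero {K F : Type*} [Field K] [Field F] [Algebra K F]
    (y : F) (P : K[X]) (h0 : aeval y P = 0) (h1 : aeval y (derivative P) ≠ 0) :
    IsSeparable K y := by
  have hP0 : P ≠ 0 := by
    rintro rfl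
    simp at h1
  have hint : IsIntegral K y := (isAlgebraic_iff_isIntegral).mp ⟨P, hP0, h0⟩
  obtain ⟨Q, hQ⟩ := minpoly.dvd K y h0
  have hirr : Irreducible (minpoly K y) := minpoly.irreducible hint
  rw [IsSeparable, separable_iff_derivative_ne_zero hirr]
  intro hd
  apply h1
  rw [hQ, derivative_mul, hd, zero_mul, zero_add, map_mul, minpoly.aeval, zero_mul]

open IsLocalRing in
/-- `R` local, `S` finite free over `R` with basis `b`.  If `𝔪 S` is a maximal ideal of `S` and
every element of `S / 𝔪 S` is separable over `R / 𝔪`, then `discr R b` is a unit. -/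
theorem isUnit_discr_of_isSeparable_quotient {R S : Type*} [CommRing R] [CommRing S]
    [Algebra R S] [IsLocalRing R] [Module.Free R S] [Module.Finite R S]
    {ι : Type*} [Fintype ι] [DecidableEq ι] (b : Module.Basis ι R S)
    (hmax : (Ideal.map (algebraMap R S) (maximalIdeal R)).IsMaximal)
    (hsep : ∀ y : S ⧸ Ideal.map (algebraMap R S) (maximalIdeal R),
      IsSeparable (R ⧸ maximalIdeal R) y) :
    IsUnit (Algebra.discr R b) := by
  let : Field (R ⧸ maximalIdeal R) := Ideal.Quotient.field _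
  let : Field (S ⧸ Ideal.map (algebraMap R S) (maximalIdeal R)) := Ideal.Quotient.field _
  have : Algebra.IsSeparable (R ⧸ maximalIdeal R)
      (S ⧸ Ideal.map (algebraMap R S) (maximalIdeal R)) := ⟨hsep⟩
  have : Module.Finite (R ⧸ maximalIdeal R)
      (S ⧸ Ideal.map (algebraMap R S) (maximalIdeal R)) :=
    Module.Finite.of_restrictScalars_finite R _ _
  have hne := Algebra.discr_not_zero_of_basis (R ⧸ maximalIdeal R) (basisQuotient b)
  have hmk : Algebra.discr (R ⧸ maximalIdeal R) (basisQuotient b) =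
      Ideal.Quotient.mk (maximalIdeal R) (Algebra.discr R b) := by
    rw [Algebra.discr_def, Algebra.discr_def, RingHom.map_det]
    congr 1
    ext i j
    simp only [Algebra.traceMatrix_apply, Algebra.traceForm_apply, basisQuotient_apply,
      RingHom.mapMatrix_apply, Matrix.map_apply, ← map_mul]
    exact Algebra.trace_quotient_mk (b i * b j)
  rw [hmk] at hne
  by_contra hu
  apply hne
  rw [Ideal.Quotient.eq_zero_iff_mem]
  exact (IsLocalRing.mem_maximalIdeal _).mpr hu

end Fermat.Agent.S18.H425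

end
-- ===== PACK-END S18/H425/HsepLocal.lean

-- ===== PACK-BEGIN S18/H425/HsepDvd.lean
section


/-!
# S18 / b2.5 HSEP (helper425): divisibility descends along an integral extension of an
integrally closed domain

`dvd_of_algebraMap_dvd`: `Λ` integrally closed domain, `B` a domain, integral and torsion-free
over `Λ`.  If `algebraMap w ∣ algebraMap s` in `B` (`w ≠ 0`) then `w ∣ s` in `Λ`.
Mathlib-only.
-/

set_option autoImplicit false

namespace Fermat.Agent.S18.H425

theorem dvd_of_algebraMap_dvd {Λ B : Type*} [CommRing Λ] [IsDomain Λ] [IsIntegrallyClosed Λ]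
    [CommRing B] [IsDomain B] [Algebra Λ B] [Algebra.IsIntegral Λ B] [Module.IsTorsionFree Λ B]
    {w s : Λ} (hw : w ≠ 0) (h : algebraMap Λ B w ∣ algebraMap Λ B s) : w ∣ s := by
  obtain ⟨b, hb⟩ := h
  have hinj : Function.Injective (algebraMap Λ B) := FaithfulSMul.algebraMap_injective Λ B
  let K := FractionRing Λ
  let L := FractionRing B
  let _ : Algebra K L := FractionRing.liftAlgebra Λ L
  have hwK : algebraMap Λ K w ≠ 0 := by
    simpa using (IsFractionRing.injective Λ K).ne hw
  -- the element `s / w` of `K` maps to `b` in `L`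
  have hb' : algebraMap K L (algebraMap Λ K s / algebraMap Λ K w) = algebraMap B L b := by
    rw [map_div₀, ← IsScalarTower.algebraMap_apply, ← IsScalarTower.algebraMap_apply,
      IsScalarTower.algebraMap_apply Λ B L s, IsScalarTower.algebraMap_apply Λ B L w, hb, map_mul]
    rw [mul_div_assoc, mul_comm, div_mul_cancel₀]
    · rw [← IsScalarTower.algebraMap_apply, IsScalarTower.algebraMap_apply Λ K L]
      exact (map_ne_zero_iff _ (algebraMap K L).injective).mpr hwK
  have hbint : IsIntegral Λ (algebraMap B L b) := (Algebra.IsIntegral.isIntegral b).algebraMap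
  rw [← hb'] at hbint
  have hint : IsIntegral Λ (algebraMap Λ K s / algebraMap Λ K w) :=
    (isIntegral_algebraMap_iff (algebraMap K L).injective).mp hbint
  obtain ⟨c, hc⟩ := IsIntegrallyClosed.algebraMap_eq_of_integral hint
  refine ⟨c, ?_⟩
  apply IsFractionRing.injective Λ K
  rw [map_mul, hc, mul_div_cancel₀ _ hwK]

end Fermat.Agent.S18.H425

end
-- ===== PACK-END S18/H425/HsepDvd.lean

-- ===== PACK-BEGIN S20/Comb/Basic.lean
section






/-!
# Combinatorics on `SL(2,ℤ) ⧸ Gamma0 N` : basic coset criterion, fixed points of `S` and `S * T`.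

Left cosets, Mathlib's left-multiplication action (`MulAction.quotient`).
-/

set_option autoImplicit false

namespace Fermat.Agent.S20.Comb

open Matrix MatrixGroups CongruenceSubgroup

/-- The `(1,0)` entry of `g⁻¹ * g'`. -/
lemma inv_mul_apply_one_zero (g g' : SL(2, ℤ)) :
    (g⁻¹ * g') 1 0 = g 0 0 * g' 1 0 - g 1 0 * g' 0 0 := by
  rw [Matrix.SpecialLinearGroup.coe_mul, Matrix.SpecialLinearGroup.coe_inv,
    Matrix.adjugate_fin_two, Matrix.mul_apply, Fin.sum_univ_two]
  simp
  ring

/-- Coset criterion: `g Γ₀(N) = g' Γ₀(N)` iff `a c' - c a' ≡ 0 mod N`, where `(a, c)`, `(a', c')`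
are the first columns of `g`, `g'`. -/
lemma mk_eq_mk_iff (N : ℕ) (g g' : SL(2, ℤ)) :
    (QuotientGroup.mk g : SL(2, ℤ) ⧸ Gamma0 N) = QuotientGroup.mk g' ↔
      ((g 0 0 : ℤ) : ZMod N) * ((g' 1 0 : ℤ) : ZMod N)
        - ((g 1 0 : ℤ) : ZMod N) * ((g' 0 0 : ℤ) : ZMod N) = 0 := by
  rw [QuotientGroup.eq, Gamma0_mem, inv_mul_apply_one_zero]
  push_cast
  rfl

/-- Determinant relation in `ZMod N`. -/
lemma det_cast (N : ℕ) (g : SL(2, ℤ)) :
    ((g 0 0 : ℤ) : ZMod N) * ((g 1 1 : ℤ) : ZMod N)
      - ((g 0 1 : ℤ) : ZMod N) * ((g 1 0 : ℤ) : ZMod N) = 1 := by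
  have h := g.det_coe
  rw [Matrix.det_fin_two] at h
  have := congrArg (fun z : ℤ => (z : ZMod N)) h
  simpa using this

/-- Fixed-point criterion for a general element `γ`. -/
lemma smul_mk_eq_mk_iff (N : ℕ) (γ g : SL(2, ℤ)) :
    γ • (QuotientGroup.mk g : SL(2, ℤ) ⧸ Gamma0 N) = QuotientGroup.mk g ↔
      ((g 0 0 : ℤ) : ZMod N) * (((γ * g) 1 0 : ℤ) : ZMod N)
        - ((g 1 0 : ℤ) : ZMod N) * (((γ * g) 0 0 : ℤ) : ZMod N) = 0 := by
  rw [MulAction.Quotient.smul_mk, smul_eq_mul, eq_comm, mk_eq_mk_iff]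

lemma S_mul_apply_zero_zero (g : SL(2, ℤ)) : (ModularGroup.S * g) 0 0 = - g 1 0 := by
  rw [Matrix.SpecialLinearGroup.coe_mul, ModularGroup.coe_S, Matrix.mul_apply, Fin.sum_univ_two]
  simp

lemma S_mul_apply_one_zero (g : SL(2, ℤ)) : (ModularGroup.S * g) 1 0 = g 0 0 := by
  rw [Matrix.SpecialLinearGroup.coe_mul, ModularGroup.coe_S, Matrix.mul_apply, Fin.sum_univ_two]
  simp

lemma coe_S_mul_T : ((ModularGroup.S * ModularGroup.T : SL(2, ℤ)) : Matrix (Fin 2) (Fin 2) ℤ)
    = !![0, -1; 1, 1] := by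
  rw [Matrix.SpecialLinearGroup.coe_mul, ModularGroup.coe_S, ModularGroup.coe_T]
  ext i j
  fin_cases i <;> fin_cases j <;> simp [Matrix.mul_apply, Fin.sum_univ_two]

lemma ST_mul_apply_zero_zero (g : SL(2, ℤ)) :
    (ModularGroup.S * ModularGroup.T * g) 0 0 = - g 1 0 := by
  rw [Matrix.SpecialLinearGroup.coe_mul, coe_S_mul_T, Matrix.mul_apply, Fin.sum_univ_two]
  simp

lemma ST_mul_apply_one_zero (g : SL(2, ℤ)) :
    (ModularGroup.S * ModularGroup.T * g) 1 0 = g 0 0 + g 1 0 := by
  rw [Matrix.SpecialLinearGroup.coe_mul, coe_S_mul_T, Matrix.mul_apply, Fin.sum_univ_two]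
  simp

/-- `g Γ₀(N)` is fixed by `S` iff `a² + c² ≡ 0 mod N`. -/
lemma S_smul_mk_eq_mk_iff (N : ℕ) (g : SL(2, ℤ)) :
    ModularGroup.S • (QuotientGroup.mk g : SL(2, ℤ) ⧸ Gamma0 N) = QuotientGroup.mk g ↔
      ((g 0 0 : ℤ) : ZMod N) ^ 2 + ((g 1 0 : ℤ) : ZMod N) ^ 2 = 0 := by
  rw [smul_mk_eq_mk_iff, S_mul_apply_zero_zero, S_mul_apply_one_zero]
  push_cast
  constructor <;> intro h <;> linear_combination h

/-- `g Γ₀(N)` is fixed by `S * T` iff `a² + a c + c² ≡ 0 mod N`. -/
lemma ST_smul_mk_eq_mk_iff (N : ℕ) (g : SL(2, ℤ)) :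
    (ModularGroup.S * ModularGroup.T) • (QuotientGroup.mk g : SL(2, ℤ) ⧸ Gamma0 N)
        = QuotientGroup.mk g ↔
      ((g 0 0 : ℤ) : ZMod N) ^ 2 + ((g 0 0 : ℤ) : ZMod N) * ((g 1 0 : ℤ) : ZMod N)
        + ((g 1 0 : ℤ) : ZMod N) ^ 2 = 0 := by
  rw [smul_mk_eq_mk_iff, ST_mul_apply_zero_zero, ST_mul_apply_one_zero]
  push_cast
  constructor <;> intro h <;> linear_combination h

/-- The matrix `[[x, -1], [1, 0]]` in `SL(2,ℤ)`. -/
def colRep (x : ℤ) : SL(2, ℤ) := ⟨!![x, -1; 1, 0], by simp [Matrix.det_fin_two]⟩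

@[simp] lemma colRep_apply_zero_zero (x : ℤ) : colRep x 0 0 = x := rfl
@[simp] lemma colRep_apply_one_zero (x : ℤ) : colRep x 1 0 = 1 := rfl

/-- If `a² = c * r` in `ZMod N` for the first column `(a, c)` of `g ∈ SL(2,ℤ)`, then `c` has
an explicit inverse. -/
lemma c_mul_inv_eq_one (N : ℕ) (g : SL(2, ℤ)) (r : ZMod N)
    (h : ((g 0 0 : ℤ) : ZMod N) ^ 2 = ((g 1 0 : ℤ) : ZMod N) * r) :
    ((g 1 0 : ℤ) : ZMod N) *
      (r * ((g 1 1 : ℤ) : ZMod N) ^ 2
        - 2 * ((g 0 0 : ℤ) : ZMod N) * ((g 0 1 : ℤ) : ZMod N) * ((g 1 1 : ℤ) : ZMod N)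
        + ((g 0 1 : ℤ) : ZMod N) ^ 2 * ((g 1 0 : ℤ) : ZMod N)) = 1 := by
  have hdet := det_cast N g
  linear_combination (-(((g 1 1 : ℤ) : ZMod N)) ^ 2) * h
    + (((g 0 0 : ℤ) : ZMod N) * ((g 1 1 : ℤ) : ZMod N)
        - ((g 0 1 : ℤ) : ZMod N) * ((g 1 0 : ℤ) : ZMod N) + 1) * hdet

end Fermat.Agent.S20.Comb

end
-- ===== PACK-END S20/Comb/Basic.lean

-- ===== PACK-BEGIN S18/H504/ValDvr.lean
section



/-!
# S18 — every nontrivial valuation ring of a function field is discrete (char-free)

`F/K` a field extension, `O` a valuation subring of `F` containing `K`, `u ∈ O` a non-unit,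
`u ≠ 0`, with `F` finite over `K(u)`.  Then `O` is a principal ideal ring, hence a `Place K F`.
No hypothesis on the characteristic, no separability, `K` arbitrary.

Main results:
* `isPrincipalIdealRing_of_finite` : `IsPrincipalIdealRing O`;
* `placeOfValuationSubring` : the `Place K F` with valuation ring `O`.
-/

set_option autoImplicit false

namespace Fermat.Agent.S18.H504

open AlgebraicCurve IntermediateField Polynomial

variable {K F : Type*} [Field K] [Field F] [Algebra K F]

/-- If a finite sum vanishes and some term is nonzero, the maximal valuation is attained by two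
distinct (nonzero) terms. -/
theorem exists_ne_valuation_eq {Γ₀ : Type*} [LinearOrderedCommGroupWithZero Γ₀]
    (v : Valuation F Γ₀) {ι : Type*} [DecidableEq ι] (s : Finset ι) (a : ι → F)
    (hsum : ∑ i ∈ s, a i = 0) (hne : ∃ i ∈ s, a i ≠ 0) :
    ∃ i ∈ s, ∃ j ∈ s, i ≠ j ∧ a i ≠ 0 ∧ a j ≠ 0 ∧ v (a i) = v (a j) := by
  obtain ⟨i₁, hi₁, hai₁⟩ := hne
  obtain ⟨i₀, hi₀, hmax⟩ := Finset.exists_max_image s (fun i => v (a i)) ⟨i₁, hi₁⟩
  have hv0 : v (a i₀) ≠ 0 := by
    intro h0
    have := hmax i₁ hi₁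
    rw [h0] at this
    exact hai₁ ((v.zero_iff).mp (le_antisymm this zero_le))
  have hai₀ : a i₀ ≠ 0 := fun h => hv0 (by rw [h, map_zero])
  by_contra hcon
  push Not at hcon
  have hlt : ∀ i ∈ s \ {i₀}, v (a i) < v (a i₀) := by
    intro i hi
    rw [Finset.mem_sdiff, Finset.mem_singleton] at hi
    refine lt_of_le_of_ne (hmax i hi.1) ?_
    intro heq
    have hai : a i ≠ 0 := fun h => hv0 (by rw [← heq, h, map_zero])
    exact hcon i₀ hi₀ i hi.1 (Ne.symm hi.2) hai₀ hai heq.symm
  have := v.map_sum_eq_of_lt hi₀ hlt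
  rw [hsum, map_zero] at this
  exact hv0 this.symm

section

variable (O : ValuationSubring F) (hK : ∀ a : K, algebraMap K F a ∈ O)

include hK in
theorem valuation_algebraMap {c : K} (hc : c ≠ 0) : O.valuation (algebraMap K F c) = 1 := by
  have h1 : O.valuation (algebraMap K F c) ≤ 1 := (O.valuation_le_one_iff _).mpr (hK c)
  have h2 : O.valuation (algebraMap K F c⁻¹) ≤ 1 := (O.valuation_le_one_iff _).mpr (hK c⁻¹)
  rw [map_inv₀, map_inv₀] at h2
  have hne : O.valuation (algebraMap K F c) ≠ 0 :=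
    (Valuation.ne_zero_iff _).mpr (by simpa using hc)
  exact le_antisymm h1 ((inv_le_one₀ (zero_lt_iff.mpr hne)).mp h2)

include hK in
theorem aeval_mem {u : F} (hu : u ∈ O) (p : K[X]) : aeval u p ∈ O := by
  rw [aeval_eq_sum_range]
  refine Subring.sum_mem O.toSubring fun i _ => ?_
  rw [Algebra.smul_def]
  exact O.mul_mem _ _ (hK _) (pow_mem hu i)

include hK in
theorem valuation_aeval_of_coeff_zero_ne {u : F} (hu : u ∈ O) (hu' : u⁻¹ ∉ O) (q : K[X])
    (hq : q.coeff 0 ≠ 0) : O.valuation (aeval u q) = 1 := by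
  have hdecomp : aeval u q = aeval u q.divX * u + algebraMap K F (q.coeff 0) := by
    conv_lhs => rw [← divX_mul_X_add q]
    simp only [map_add, map_mul, aeval_X, aeval_C]
  have hu1 : O.valuation u < 1 := by
    have h1 : O.valuation u ≤ 1 := (O.valuation_le_one_iff _).mpr hu
    refine lt_of_le_of_ne h1 fun h => hu' ?_
    rw [← O.valuation_le_one_iff, map_inv₀, h, inv_one]
  have h2 : O.valuation (aeval u q.divX * u) < 1 := by
    rw [map_mul]
    have h3 : O.valuation (aeval u q.divX) ≤ 1 := (O.valuation_le_one_iff _).mpr (aeval_mem O hK hu _)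
    calc O.valuation (aeval u q.divX) * O.valuation u ≤ 1 * O.valuation u :=
          mul_le_mul_left (α := O.ValueGroup) h3 _
      _ < 1 := by rwa [one_mul]
  rw [hdecomp, Valuation.map_add_eq_of_lt_right _ (by rwa [valuation_algebraMap O hK hq]),
    valuation_algebraMap O hK hq]

include hK in
theorem valuation_aeval {u : F} (hu : u ∈ O) (hu' : u⁻¹ ∉ O) (p : K[X]) (hp : p ≠ 0) :
    O.valuation (aeval u p) = O.valuation u ^ p.rootMultiplicity 0 := by
  obtain ⟨q, hpq, hq⟩ := exists_eq_pow_rootMultiplicity_mul_and_not_dvd p hp 0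
  have hq0 : q.coeff 0 ≠ 0 := by
    intro h
    apply hq
    rw [C_0, sub_zero]
    exact X_dvd_iff.mpr h
  conv_lhs => rw [hpq]
  rw [map_mul, map_pow, C_0, sub_zero, aeval_X, map_mul, map_pow,
    valuation_aeval_of_coeff_zero_ne O hK hu hu' q hq0, mul_one]

include hK in
/-- On `K(u)` the valuation is a power of the valuation of `u`. -/
theorem exists_zpow_of_mem_adjoin {u : F} (hu : u ∈ O) (hu' : u⁻¹ ∉ O) {g : F}
    (hg : g ∈ K⟮u⟯) (hg0 : g ≠ 0) : ∃ a : ℤ, O.valuation g = O.valuation u ^ a := by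
  obtain ⟨r, s, rfl⟩ := (mem_adjoin_simple_iff K g).mp hg
  have hr : r ≠ 0 := by
    rintro rfl
    simp at hg0
  have hs : s ≠ 0 := by
    rintro rfl
    simp at hg0
  refine ⟨(r.rootMultiplicity 0 : ℤ) - s.rootMultiplicity 0, ?_⟩
  have hu0 : O.valuation u ≠ 0 := by
    rw [Valuation.ne_zero_iff]
    rintro rfl
    exact hu' (by simp)
  rw [map_div₀, valuation_aeval O hK hu hu' r hr, valuation_aeval O hK hu hu' s hs,
    zpow_sub₀ hu0, zpow_natCast, zpow_natCast]

include hK in
/-- Some positive power `≤ [F : K(u)]` of the valuation of any `f ≠ 0` is a power of the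
valuation of `u`. -/
theorem exists_pow_eq_zpow {u : F} (hu : u ∈ O) (hu' : u⁻¹ ∉ O) [FiniteDimensional K⟮u⟯ F]
    {f : F} (hf : f ≠ 0) :
    ∃ d : ℕ, 0 < d ∧ d ≤ Module.finrank K⟮u⟯ F ∧
      ∃ a : ℤ, O.valuation f ^ d = O.valuation u ^ a := by
  classical
  set n := Module.finrank K⟮u⟯ F with hn
  have hdep : ¬ LinearIndependent K⟮u⟯ (fun i : Fin (n + 1) => f ^ (i : ℕ)) := by
    intro hli
    have := hli.fintype_card_le_finrank
    rw [Fintype.card_fin] at this
    omega
  obtain ⟨c, hsum, i₁, hi₁⟩ := Fintype.not_linearIndependent_iff.mp hdep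
  have hne : ∃ i ∈ (Finset.univ : Finset (Fin (n + 1))), c i • f ^ (i : ℕ) ≠ 0 := by
    refine ⟨i₁, Finset.mem_univ _, ?_⟩
    rw [Algebra.smul_def]
    exact mul_ne_zero (by simpa using hi₁) (pow_ne_zero _ hf)
  obtain ⟨i, -, j, -, hij, hai, haj, hval⟩ :=
    exists_ne_valuation_eq O.valuation Finset.univ (fun i => c i • f ^ (i : ℕ)) hsum hne
  have hci : c i ≠ 0 := fun h => hai (by simp [h])
  have hcj : c j ≠ 0 := fun h => haj (by simp [h])
  obtain ⟨ai, hvi⟩ := exists_zpow_of_mem_adjoin O hK hu hu' (c i).2 (by simpa using hci)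
  obtain ⟨aj, hvj⟩ := exists_zpow_of_mem_adjoin O hK hu hu' (c j).2 (by simpa using hcj)
  have hu0 : O.valuation u ≠ 0 := by
    rw [Valuation.ne_zero_iff]
    rintro rfl
    exact hu' (by simp)
  have hf0 : O.valuation f ≠ 0 := (Valuation.ne_zero_iff _).mpr hf
  simp only [Algebra.smul_def, map_mul, map_pow] at hval
  have hvi' : O.valuation (algebraMap K⟮u⟯ F (c i)) = O.valuation u ^ ai := hvi
  have hvj' : O.valuation (algebraMap K⟮u⟯ F (c j)) = O.valuation u ^ aj := hvj
  rw [hvi', hvj'] at hval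
  -- wlog i < j
  have key : ∀ (i j : ℕ) (ai aj : ℤ), i < j → j ≤ n →
      O.valuation u ^ ai * O.valuation f ^ i = O.valuation u ^ aj * O.valuation f ^ j →
      ∃ d : ℕ, 0 < d ∧ d ≤ n ∧ ∃ a : ℤ, O.valuation f ^ d = O.valuation u ^ a := by
    intro i j ai aj hlt hjn h
    refine ⟨j - i, by omega, by omega, ai - aj, ?_⟩
    have hj : j = (j - i) + i := by omega
    rw [hj, pow_add] at h
    have hfi : O.valuation f ^ i ≠ 0 := pow_ne_zero _ hf0
    have h2 : O.valuation u ^ ai = O.valuation u ^ aj * O.valuation f ^ (j - i) :=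
      mul_right_cancel₀ hfi (h.trans (mul_assoc _ _ _).symm)
    have huaj : O.valuation u ^ aj ≠ 0 := zpow_ne_zero _ hu0
    rw [zpow_sub₀ hu0, h2, mul_comm (O.valuation u ^ aj), mul_div_assoc, div_self huaj, mul_one]
  have hi_le : (i : ℕ) ≤ n := Nat.lt_succ_iff.mp i.2
  have hj_le : (j : ℕ) ≤ n := Nat.lt_succ_iff.mp j.2
  rcases lt_or_gt_of_ne (fun h => hij (Fin.ext h) : (i : ℕ) ≠ j) with h | h
  · exact key i j ai aj h hj_le hval
  · exact key j i aj ai h hi_le hval.symm

include hK in
theorem exists_factorial_pow_eq_zpow {u : F} (hu : u ∈ O) (hu' : u⁻¹ ∉ O)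
    [FiniteDimensional K⟮u⟯ F] {f : F} (hf : f ≠ 0) :
    ∃ a : ℤ, O.valuation f ^ (Module.finrank K⟮u⟯ F).factorial = O.valuation u ^ a := by
  obtain ⟨d, hd0, hdn, a, h⟩ := exists_pow_eq_zpow O hK hu hu' hf
  obtain ⟨k, hk⟩ := Nat.dvd_factorial hd0 hdn
  refine ⟨a * k, ?_⟩
  rw [hk, pow_mul, h, zpow_mul, zpow_natCast]

include hK in
/-- **Discreteness.** A valuation ring of `F` containing `K`, with a nonzero non-unit `u` such
that `F` is finite over `K(u)`, is a principal ideal ring. -/
theorem isPrincipalIdealRing_of_finite {u : F} (hu : u ∈ O) (hu' : u⁻¹ ∉ O)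
    [FiniteDimensional K⟮u⟯ F] : IsPrincipalIdealRing O := by
  classical
  set M := (Module.finrank K⟮u⟯ F).factorial with hM
  have hM0 : M ≠ 0 := Nat.factorial_ne_zero _
  have hu0 : u ≠ 0 := by
    rintro rfl
    exact hu' (by simp)
  have hγ0 : O.valuation u ≠ 0 := (Valuation.ne_zero_iff _).mpr hu0
  have hγ1 : O.valuation u < 1 := by
    have h1 : O.valuation u ≤ 1 := (O.valuation_le_one_iff _).mpr hu
    refine lt_of_le_of_ne h1 fun h => hu' ?_
    rw [← O.valuation_le_one_iff, map_inv₀, h, inv_one]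
  -- integral elements have natural exponents
  have hnat : ∀ b : F, b ∈ O → b ≠ 0 → ∃ k : ℕ, O.valuation b ^ M = O.valuation u ^ k := by
    intro b hb hb0
    obtain ⟨a, ha⟩ := exists_factorial_pow_eq_zpow O hK hu hu' hb0
    rw [← hM] at ha
    have hle : O.valuation b ^ M ≤ 1 := pow_le_one₀ zero_le ((O.valuation_le_one_iff _).mpr hb)
    rcases le_or_gt 0 a with h0 | h0
    · refine ⟨a.toNat, ?_⟩
      rw [ha, ← zpow_natCast, Int.toNat_of_nonneg h0]
    · exfalso
      rw [ha] at hle
      have h1 : O.valuation u ^ a = (O.valuation u ^ (-a).toNat)⁻¹ := by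
        rw [← zpow_natCast, Int.toNat_of_nonneg (by omega), zpow_neg, inv_inv]
      have h2 : O.valuation u ^ (-a).toNat < 1 :=
        pow_lt_one₀ zero_le hγ1 (by omega)
      have h3 : 1 < (O.valuation u ^ (-a).toNat)⁻¹ :=
        (one_lt_inv₀ (zero_lt_iff.mpr (pow_ne_zero _ hγ0))).mpr h2
      rw [h1] at hle
      exact absurd hle (not_le.mpr h3)
  refine ⟨fun I => ?_⟩
  by_cases hI : I = ⊥
  · rw [hI]; exact bot_isPrincipal
  have hex : ∃ k : ℕ, ∃ a ∈ I, a ≠ 0 ∧ O.valuation (a : F) ^ M = O.valuation u ^ k := by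
    obtain ⟨a, haI, ha0⟩ := Submodule.exists_mem_ne_zero_of_ne_bot hI
    obtain ⟨k, hk⟩ := hnat a a.2 (by simpa using ha0)
    exact ⟨k, a, haI, ha0, hk⟩
  obtain ⟨a, haI, ha0, hak⟩ := Nat.find_spec hex
  refine ⟨⟨a, ?_⟩⟩
  apply le_antisymm
  · intro b hb
    rw [Submodule.mem_span_singleton]
    rcases eq_or_ne b 0 with rfl | hb0
    · exact ⟨0, by simp⟩
    have haF : (a : F) ≠ 0 := by simpa using ha0
    have hbF : (b : F) ≠ 0 := by simpa using hb0
    obtain ⟨kb, hkb⟩ := hnat b b.2 hbF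
    have hmin : Nat.find hex ≤ kb := Nat.find_min' hex ⟨b, hb, hb0, hkb⟩
    have hle : O.valuation (b : F) ^ M ≤ O.valuation (a : F) ^ M := by
      rw [hkb, hak]
      exact pow_le_pow_of_le_one zero_le hγ1.le hmin
    have hle' : O.valuation (b : F) ≤ O.valuation (a : F) :=
      (pow_le_pow_iff_left₀ zero_le zero_le hM0).mp hle
    have hq : (b : F) / (a : F) ∈ O := by
      rw [← O.valuation_le_one_iff, map_div₀]
      exact (div_le_one₀ (zero_lt_iff.mpr ((Valuation.ne_zero_iff _).mpr haF))).mpr hle'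
    refine ⟨⟨_, hq⟩, ?_⟩
    ext
    simp only [smul_eq_mul, MulMemClass.coe_mul]
    field_simp
  · rw [Submodule.span_le]
    simpa using haI

theorem ne_top_of_not_mem {u : F} (hu' : u⁻¹ ∉ O) : O ≠ ⊤ :=
  fun h => hu' (h ▸ ValuationSubring.mem_top _)

/-- The place of `F/K` defined by a valuation ring with a non-unit `u`, `[F : K(u)] < ∞`. -/
noncomputable def placeOfValuationSubring {u : F} (hu : u ∈ O) (hu' : u⁻¹ ∉ O)
    [FiniteDimensional K⟮u⟯ F] : Place K F where
  toValuationSubring := O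
  algebraMap_mem' := hK
  ne_top' := fun h => hu' (h ▸ ValuationSubring.mem_top _)
  isPrincipalIdealRing' := isPrincipalIdealRing_of_finite O hK hu hu'

@[simp]
theorem placeOfValuationSubring_toValuationSubring {u : F} (hu : u ∈ O) (hu' : u⁻¹ ∉ O)
    [FiniteDimensional K⟮u⟯ F] :
    (placeOfValuationSubring O hK hu hu').toValuationSubring = O := rfl

end

end Fermat.Agent.S18.H504

end
-- ===== PACK-END S18/H504/ValDvr.lean

-- ===== PACK-BEGIN S29/H32/CoeffDescent.lean
section
/-
S29 row, helper32: descent of the field of constants for subfields of Laurent series.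

Setting: `k ⊆ Ω` fields, `F₀ ⊆ ℚ((q))` an intermediate field.  The Prelude field
`laurentBaseChange Ω F₀ ⊆ Ω((q))` is generated by `Ω` and `F₀`.

Main results (namespace `Fermat.Agent.S29.H32`):
* `exists_of_coeff_mem_range` : an element of `laurentBaseChange Ω F₀` all of whose coefficients
  lie in `k` is the image of an element of `laurentBaseChange k F₀`.
* `coeffMap_mem_laurentBaseChange_of_mem` : `laurentBaseChange k F₀` maps into
  `laurentBaseChange Ω F₀`.
-/



set_option autoImplicit false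

namespace Fermat.Agent.S29.H32

open ModularCurve HahnSeries

section General

variable {k Ω : Type*} [Field k] [Field Ω] [Algebra k Ω]

theorem coeffMap_algebraMap_injective :
    Function.Injective (coeffMap (algebraMap k Ω)) := by
  intro x y h
  ext n
  have := congrArg (fun z => z.coeff n) h
  simp only [coeffMap_coeff] at this
  exact (algebraMap k Ω).injective this

theorem coeff_algebraMap_mul (c : Ω) (z : LaurentSeries Ω) (n : ℤ) :
    (algebraMap Ω (LaurentSeries Ω) c * z).coeff n = c * z.coeff n := by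
  rw [algebraMap_laurentSeries_eq_single]
  simp

/-- The `Ω`-linear combination `∑ βᵢ * ι(gᵢ)` attached to a finitely supported family of Laurent
series over `k`. -/
noncomputable def comb {I : Type*} (β : I → Ω) (g : I →₀ LaurentSeries k) : LaurentSeries Ω :=
  g.sum fun i y => algebraMap Ω (LaurentSeries Ω) (β i) * coeffMap (algebraMap k Ω) y

theorem comb_zero {I : Type*} (β : I → Ω) : comb β (0 : I →₀ LaurentSeries k) = 0 := by
  simp [comb]

theorem comb_add {I : Type*} (β : I → Ω) (g h : I →₀ LaurentSeries k) :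
    comb β (g + h) = comb β g + comb β h := by
  classical
  unfold comb
  apply Finsupp.sum_add_index'
  · intro i; simp
  · intro i y z; simp [mul_add]

theorem comb_single {I : Type*} (β : I → Ω) (i : I) (y : LaurentSeries k) :
    comb β (Finsupp.single i y)
      = algebraMap Ω (LaurentSeries Ω) (β i) * coeffMap (algebraMap k Ω) y := by
  unfold comb
  rw [Finsupp.sum_single_index]
  simp

theorem comb_coeff {I : Type*} (β : I → Ω) (g : I →₀ LaurentSeries k) (n : ℤ) :
    (comb β g).coeff n = g.sum fun i y => algebraMap k Ω (y.coeff n) * β i := by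
  classical
  induction g using Finsupp.induction with
  | zero => simp [comb]
  | single_add i y g hi hy ih =>
    rw [comb_add, HahnSeries.coeff_add, ih, comb_single,
      Finsupp.sum_add_index' (by intro i; simp) (by intro i y z; simp [add_mul]),
      Finsupp.sum_single_index (by simp), coeff_algebraMap_mul, coeffMap_coeff, mul_comm]

/-- Left multiplication by a Laurent series over `k`, coordinatewise. -/
noncomputable def mulLeft {I : Type*} (x : LaurentSeries k) (g : I →₀ LaurentSeries k) :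
    I →₀ LaurentSeries k :=
  g.mapRange (fun y => x * y) (mul_zero x)

theorem comb_mulLeft {I : Type*} (β : I → Ω) (x : LaurentSeries k) (g : I →₀ LaurentSeries k) :
    comb β (mulLeft x g) = coeffMap (algebraMap k Ω) x * comb β g := by
  classical
  induction g using Finsupp.induction with
  | zero => simp [comb, mulLeft]
  | single_add i y g hi hy ih =>
    have h1 : mulLeft x (Finsupp.single i y + g) = Finsupp.single i (x * y) + mulLeft x g := by
      unfold mulLeft
      rw [Finsupp.mapRange_add (by intro a b; exact mul_add x a b), Finsupp.mapRange_single]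
    rw [h1, comb_add, comb_add, ih, comb_single, comb_single, map_mul, mul_add]
    congr 1
    ring

/-- Linear independence: if the `βᵢ` are `k`-linearly independent then `comb β` is injective. -/
theorem eq_zero_of_comb_eq_zero {I : Type*} {β : I → Ω} (hβ : LinearIndependent k β)
    (g : I →₀ LaurentSeries k) (h : comb β g = 0) : g = 0 := by
  classical
  ext i n
  have hn : (comb β g).coeff n = 0 := by rw [h]; rfl
  rw [comb_coeff] at hn
  let c : I →₀ k := g.mapRange (fun y => y.coeff n) rfl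
  have hc : Finsupp.linearCombination k β c = 0 := by
    rw [Finsupp.linearCombination_apply]
    rw [Finsupp.sum_mapRange_index (by intro i; simp)]
    rw [← hn]
    apply Finsupp.sum_congr
    intro j _
    rw [Algebra.smul_def]
  have := (linearIndependent_iff.mp hβ) c hc
  have hci : c i = 0 := by rw [this]; rfl
  simpa [c] using hci

end General

section BaseChange

variable {k Ω : Type*} [Field k] [Field Ω] [Algebra k Ω]

theorem coeffMap_algebraMap_up (c : k) :
    coeffMap (algebraMap k Ω) (algebraMap k (LaurentSeries k) c)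
      = algebraMap Ω (LaurentSeries Ω) (algebraMap k Ω c) := by
  rw [algebraMap_laurentSeries_eq_single, algebraMap_laurentSeries_eq_single, coeffMap_single]

variable [Algebra ℚ k] [Algebra ℚ Ω] [IsScalarTower ℚ k Ω]
variable (F₀ : IntermediateField ℚ (LaurentSeries ℚ))

theorem coeffMap_coeffEmb_up (x : LaurentSeries ℚ) :
    coeffMap (algebraMap k Ω) (coeffEmb k x) = coeffEmb Ω x := by
  rw [coeffEmb, coeffEmb, coeffMap_coeffMap]
  exact coeffMap_congr (IsScalarTower.algebraMap_eq ℚ k Ω).symm x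

/-- `laurentBaseChange k F₀` maps into `laurentBaseChange Ω F₀`. -/
theorem coeffMap_mem_laurentBaseChange_of_mem {x : LaurentSeries k}
    (hx : x ∈ laurentBaseChange k F₀) :
    coeffMap (algebraMap k Ω) x ∈ laurentBaseChange Ω F₀ := by
  rw [mem_laurentBaseChange_iff] at hx
  induction hx using Subfield.closure_induction with
  | mem y hy =>
      rcases hy with ⟨a, rfl⟩ | ⟨z, hz, rfl⟩
      · rw [coeffMap_algebraMap_up]
        exact (laurentBaseChange Ω F₀).algebraMap_mem _
      · rw [coeffMap_coeffEmb_up]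
        exact coeffEmb_mem_laurentBaseChange Ω hz
  | one => simp
  | add x y _ _ hx hy => simpa using add_mem hx hy
  | neg x _ hx => simpa using neg_mem hx
  | inv x _ hx => simpa using inv_mem hx
  | mul x y _ _ hx hy => simpa using mul_mem hx hy

/-- The generating set of `laurentBaseChange Ω F₀` is multiplicatively closed, so the generated
subalgebra is just the `Ω`-span. -/
theorem adjoin_le_span :
    (Algebra.adjoin Ω (⇑(coeffEmb Ω) '' (F₀ : Set (LaurentSeries ℚ)))).toSubmodule
      ≤ @Submodule.span Ω (LaurentSeries Ω) _ _ Algebra.toModule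
          (⇑(coeffEmb Ω) '' (F₀ : Set (LaurentSeries ℚ))) := by
  rw [Algebra.adjoin_eq_span]
  have h : ((Submonoid.closure (⇑(coeffEmb Ω) '' (F₀ : Set (LaurentSeries ℚ))) :
      Submonoid (LaurentSeries Ω)) : Set (LaurentSeries Ω))
      ⊆ (⇑(coeffEmb Ω) '' (F₀ : Set (LaurentSeries ℚ))) := by
    have : (⇑(coeffEmb Ω) '' (F₀ : Set (LaurentSeries ℚ)))
        = ((F₀.toSubfield.toSubring.toSubmonoid.map (coeffEmb Ω : LaurentSeries ℚ →* _) :
            Submonoid (LaurentSeries Ω)) : Set (LaurentSeries Ω)) := by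
      ext z
      simp
    rw [this, Submonoid.closure_eq]
  exact @Submodule.span_mono Ω (LaurentSeries Ω) _ _ Algebra.toModule _ _ h

/-- Every element of the `Ω`-span of `F₀` is a combination `∑ βᵢ * ι(gᵢ)` with
`gᵢ ∈ laurentBaseChange k F₀`, for any `k`-basis `β` of `Ω`. -/
theorem exists_comb_of_mem_span {I : Type*} (β : Module.Basis I k Ω) {a : LaurentSeries Ω}
    (ha : a ∈ Algebra.adjoin Ω (⇑(coeffEmb Ω) '' (F₀ : Set (LaurentSeries ℚ)))) :
    ∃ g : I →₀ LaurentSeries k, (∀ i, g i ∈ laurentBaseChange k F₀) ∧ a = comb (⇑β) g := by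
  classical
  -- auxiliary: `ω * ι(y)` for `y ∈ laurentBaseChange k F₀`
  have key : ∀ (ω : Ω) (y : LaurentSeries k), y ∈ laurentBaseChange k F₀ →
      ∃ g : I →₀ LaurentSeries k, (∀ i, g i ∈ laurentBaseChange k F₀) ∧
        algebraMap Ω (LaurentSeries Ω) ω * coeffMap (algebraMap k Ω) y = comb (⇑β) g := by
    intro ω y hy
    refine ⟨(β.repr ω).mapRange (fun c => algebraMap k (LaurentSeries k) c * y) (by simp),
      fun i => ?_, ?_⟩
    · rw [Finsupp.mapRange_apply]
      exact mul_mem ((laurentBaseChange k F₀).algebraMap_mem _) hy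
    · unfold comb
      rw [Finsupp.sum_mapRange_index (by intro i; simp)]
      conv_lhs => rw [← β.linearCombination_repr ω, Finsupp.linearCombination_apply]
      rw [Finsupp.sum, map_sum, Finset.sum_mul, Finsupp.sum]
      apply Finset.sum_congr rfl
      intro i _
      rw [map_mul, coeffMap_algebraMap_up, Algebra.smul_def (β.repr ω i) (β i), map_mul]
      ring
  have ha' := adjoin_le_span (Ω := Ω) F₀ ha
  clear ha
  induction ha' using Submodule.span_induction with
  | mem x hx =>
      obtain ⟨f, hf, rfl⟩ := hx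
      obtain ⟨g, hg, hge⟩ := key 1 (coeffEmb k f) (coeffEmb_mem_laurentBaseChange k hf)
      refine ⟨g, hg, ?_⟩
      rw [← hge, map_one, one_mul, coeffMap_coeffEmb_up]
  | zero => exact ⟨0, fun i => by simp, (comb_zero _).symm⟩
  | add x y _ _ hx hy =>
      obtain ⟨g, hg, rfl⟩ := hx
      obtain ⟨h, hh, rfl⟩ := hy
      exact ⟨g + h, fun i => by rw [Finsupp.add_apply]; exact add_mem (hg i) (hh i),
        (comb_add _ g h).symm⟩
  | smul ω x _ hx =>
      obtain ⟨g, hg, rfl⟩ := hx
      rw [Algebra.smul_def]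
      -- induct on `g`
      clear ‹_›
      induction g using Finsupp.induction with
      | zero => exact ⟨0, fun i => by simp, by rw [comb_zero, mul_zero]⟩
      | single_add i y g hi hy ih =>
          have hyi : y ∈ laurentBaseChange k F₀ := by
            have := hg i
            rwa [Finsupp.add_apply, Finsupp.single_eq_same,
              Finsupp.notMem_support_iff.mp hi, add_zero] at this
          have hg' : ∀ j, g j ∈ laurentBaseChange k F₀ := by
            intro j
            by_cases hj : j = i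
            · subst hj
              rw [Finsupp.notMem_support_iff.mp hi]
              exact zero_mem _
            · have := hg j
              rwa [Finsupp.add_apply, Finsupp.single_eq_of_ne hj, zero_add] at this
          obtain ⟨g₁, hg₁, e₁⟩ := key (ω * β i) y hyi
          obtain ⟨g₂, hg₂, e₂⟩ := ih hg'
          refine ⟨g₁ + g₂, fun j => by rw [Finsupp.add_apply]; exact add_mem (hg₁ j) (hg₂ j), ?_⟩
          rw [comb_add, comb_add, mul_add, ← e₁, ← e₂, comb_single, map_mul, mul_assoc]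

omit [Algebra ℚ k] [Algebra ℚ Ω] [IsScalarTower ℚ k Ω] in
/-- Lift of a Laurent series over `Ω` with coefficients in `k` to a Laurent series over `k`. -/
noncomputable def coeffDown (x : LaurentSeries Ω) : LaurentSeries k :=
  x.map (⟨Function.invFun (algebraMap k Ω), by
    have h := Function.leftInverse_invFun (algebraMap k Ω).injective (0 : k)
    rwa [map_zero] at h⟩ : ZeroHom Ω k)

omit [Algebra ℚ k] [Algebra ℚ Ω] [IsScalarTower ℚ k Ω] in
theorem coeffMap_coeffDown {x : LaurentSeries Ω}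
    (hx : ∀ n, x.coeff n ∈ Set.range (algebraMap k Ω)) :
    coeffMap (algebraMap k Ω) (coeffDown (k := k) x) = x := by
  ext n
  obtain ⟨c, hc⟩ := hx n
  simp only [coeffMap_coeff, coeffDown, HahnSeries.map_coeff, ZeroHom.coe_mk]
  rw [← hc, Function.leftInverse_invFun (algebraMap k Ω).injective c]

/-- **Descent of constants.**  An element of `laurentBaseChange Ω F₀` whose coefficients all lie
in `k` comes from `laurentBaseChange k F₀`. -/
theorem exists_of_coeff_mem_range {x : LaurentSeries Ω} (hx : x ∈ laurentBaseChange Ω F₀)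
    (hcoeff : ∀ n, x.coeff n ∈ Set.range (algebraMap k Ω)) :
    ∃ y ∈ laurentBaseChange k F₀, coeffMap (algebraMap k Ω) y = x := by
  classical
  let β := Module.Basis.ofVectorSpace k Ω
  refine ⟨coeffDown x, ?_, coeffMap_coeffDown hcoeff⟩
  set x₀ : LaurentSeries k := coeffDown x with hx₀
  have hx₀x : coeffMap (algebraMap k Ω) x₀ = x := coeffMap_coeffDown hcoeff
  obtain ⟨r, hr, s, hs, hxrs⟩ := IntermediateField.mem_adjoin_iff_div.mp hx
  obtain ⟨gr, hgr, rfl⟩ := exists_comb_of_mem_span F₀ β hr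
  obtain ⟨gs, hgs, rfl⟩ := exists_comb_of_mem_span F₀ β hs
  by_cases hs0 : comb (⇑β) gs = 0
  · -- then `x = 0`
    have hx0 : x = 0 := by rw [hxrs, hs0, div_zero]
    have : x₀ = 0 := by
      apply coeffMap_algebraMap_injective (Ω := Ω)
      rw [hx₀x, hx0, map_zero]
    rw [this]
    exact zero_mem _
  · have hmul : coeffMap (algebraMap k Ω) x₀ * comb (⇑β) gs = comb (⇑β) gr := by
      rw [hx₀x, hxrs, div_mul_cancel₀ _ hs0]
    rw [← comb_mulLeft] at hmul
    have hgs0 : gs ≠ 0 := by
      rintro rfl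
      exact hs0 (comb_zero _)
    obtain ⟨i, hi⟩ := Finsupp.ne_iff.mp hgs0
    have hsub : comb (⇑β) (mulLeft x₀ gs - gr) = 0 := by
      have := comb_add (⇑β) (mulLeft x₀ gs - gr) gr
      rw [sub_add_cancel, hmul] at this
      exact (add_eq_right.mp this.symm)
    have hz := eq_zero_of_comb_eq_zero β.linearIndependent _ hsub
    have hi' : x₀ * gs i = gr i := by
      have := congrArg (fun g => g i) hz
      simp only [Finsupp.sub_apply, Finsupp.zero_apply, mulLeft, Finsupp.mapRange_apply] at this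
      exact sub_eq_zero.mp this
    have hgsi : gs i ≠ 0 := by simpa using hi
    have : x₀ = gr i / gs i := by
      rw [eq_div_iff hgsi, hi']
    rw [this]
    exact div_mem (hgr i) (hgs i)

end BaseChange

end Fermat.Agent.S29.H32

end
-- ===== PACK-END S29/H32/CoeffDescent.lean

-- ===== PACK-BEGIN S17/H20/Ext.lean
section


/-!
# S17 / G-DIV (helper20): extension of field isomorphisms to automorphisms (piece EXT)

Mathlib-only field theory used by the "TRANS" ending of the generic-point proof of divisibility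
(`coord/S17-GDIV-helper20.md` on origin/helper20).

* `exists_ringEquiv_of_transcendenceBasis` : two algebraically closed `R`-algebras with
  equipotent transcendence bases over `R` are isomorphic **as `R`-algebras**
  (Mathlib's `IsAlgClosed.equivOfTranscendenceBasis` only records a ring isomorphism).
* `exists_ringEquiv_comp_eq` : if `Ω` is an uncountable algebraically closed field and
  `f g : A →+* Ω` are two embeddings of a countable field, there is an automorphism `τ` of `Ω`
  with `τ ∘ f = g`.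
* `exists_ringEquiv_comp_eq_fixing` : the same, and `τ` fixes pointwise a given set on which
  it is forced to be the identity (the image under `f` of a set on which `f = g`).
-/

set_option autoImplicit false
set_option linter.style.haveILetI false

open Cardinal

namespace Fermat.Agent.S17.H20

universe u v w w'

section Key

variable {R : Type u} {K : Type v} {L : Type w'} [Field R] [Field K] [Field L]

/-- Two algebraically closed fields with equipotent transcendence bases over `R` are isomorphic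
over `R`. -/
theorem exists_ringEquiv_of_transcendenceBasis [Algebra R K] [Algebra R L]
    [IsAlgClosed K] [IsAlgClosed L] {ι κ : Type*} (v : ι → K) (w : κ → L) (e : ι ≃ κ)
    (hv : IsTranscendenceBasis R v) (hw : IsTranscendenceBasis R w) :
    ∃ τ : K ≃+* L, ∀ r : R, τ (algebraMap R K r) = algebraMap R L r := by
  letI := IsAlgClosed.isAlgClosure_of_transcendence_basis v hv
  letI := IsAlgClosed.isAlgClosure_of_transcendence_basis w hw
  let e₁ : MvPolynomial ι R ≃ₐ[R] MvPolynomial κ R :=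
    AlgEquiv.ofAlgHom (MvPolynomial.rename e) (MvPolynomial.rename e.symm)
      (by ext; simp) (by ext; simp)
  let e₀ : Algebra.adjoin R (Set.range v) ≃ₐ[R] Algebra.adjoin R (Set.range w) :=
    (hv.1.aevalEquiv.symm.trans e₁).trans hw.1.aevalEquiv
  refine ⟨IsAlgClosure.equivOfEquiv K L e₀.toRingEquiv, fun r => ?_⟩
  have h1 : algebraMap R K r
      = algebraMap (Algebra.adjoin R (Set.range v)) K
          (algebraMap R (Algebra.adjoin R (Set.range v)) r) := rfl
  rw [h1, IsAlgClosure.equivOfEquiv_algebraMap]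
  have h2 : e₀.toRingEquiv (algebraMap R (Algebra.adjoin R (Set.range v)) r)
      = algebraMap R (Algebra.adjoin R (Set.range w)) r := e₀.commutes r
  rw [h2]
  rfl

end Key

section Uncountable

variable {A : Type u} {Ω : Type v} [Field A] [Field Ω] [IsAlgClosed Ω]

/-- In an uncountable algebraically closed field, any transcendence basis over a countable
field (for any algebra structure) has the cardinality of the field. -/
theorem mk_transcendenceBasis_eq (hA : #A ≤ ℵ₀) (hΩ : ℵ₀ < #Ω) (f : A →+* Ω)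
    (s : Set Ω) (hs : @IsTranscendenceBasis s A Ω _ _ f.toAlgebra (fun x : s => (x : Ω))) :
    #s = #Ω := by
  letI := f.toAlgebra
  have h := IsAlgClosed.cardinal_eq_cardinal_transcendence_basis_of_aleph0_lt
    (R := A) (K := Ω) (fun x : s => (x : Ω)) hs hA hΩ
  exact (Cardinal.lift_injective h).symm

/-- **EXT.** Two embeddings of a countable field into an uncountable algebraically closed field
differ by an automorphism. -/
theorem exists_ringEquiv_comp_eq (hA : #A ≤ ℵ₀) (hΩ : ℵ₀ < #Ω) (f g : A →+* Ω) :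
    ∃ τ : Ω ≃+* Ω, ∀ a : A, τ (f a) = g a := by
  obtain ⟨s, hs⟩ := @exists_isTranscendenceBasis A Ω _ _ f.toAlgebra
    (by
      letI := f.toAlgebra
      exact (faithfulSMul_iff_algebraMap_injective A Ω).mpr f.injective)
  obtain ⟨t, ht⟩ := @exists_isTranscendenceBasis A Ω _ _ g.toAlgebra
    (by
      letI := g.toAlgebra
      exact (faithfulSMul_iff_algebraMap_injective A Ω).mpr g.injective)
  have hst : #s = #t := by
    rw [mk_transcendenceBasis_eq hA hΩ f s hs, mk_transcendenceBasis_eq hA hΩ g t ht]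
  obtain ⟨e⟩ := Cardinal.eq.mp hst
  obtain ⟨τ, hτ⟩ := @exists_ringEquiv_of_transcendenceBasis A Ω Ω _ _ _ f.toAlgebra g.toAlgebra
    _ _ s t (fun x : s => (x : Ω)) (fun x : t => (x : Ω)) e hs ht
  exact ⟨τ, hτ⟩

/-- Variant of **EXT** with the fixed field made explicit: if `f` and `g` agree with a fixed
embedding `i : K₁ →+* Ω` along `j : K₁ →+* A`, then `τ` fixes `i K₁` pointwise. -/
theorem exists_ringEquiv_comp_eq_fixing {K₁ : Type w} [Field K₁] (hA : #A ≤ ℵ₀) (hΩ : ℵ₀ < #Ω)
    (f g : A →+* Ω) (j : K₁ →+* A) (i : K₁ →+* Ω)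
    (hf : ∀ c, f (j c) = i c) (hg : ∀ c, g (j c) = i c) :
    ∃ τ : Ω ≃+* Ω, (∀ a : A, τ (f a) = g a) ∧ ∀ c : K₁, τ (i c) = i c := by
  obtain ⟨τ, hτ⟩ := exists_ringEquiv_comp_eq hA hΩ f g
  refine ⟨τ, hτ, fun c => ?_⟩
  rw [← hf c, hτ, hg, hf]

end Uncountable

end Fermat.Agent.S17.H20

end
-- ===== PACK-END S17/H20/Ext.lean

-- ===== PACK-BEGIN S37/H697/FrobF.lean
section


/-!
# S37 (helper697): coefficientwise automorphisms of the function field `k(j(q^d) : d ∣ N)`

For a field `k` and a ring automorphism `φ` of `k`, the coefficientwise map `coeffMap φ` on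
`k((q))` preserves `modularFunctionFieldFullC k N` (its generators have coefficients in the prime
ring).  This gives a semilinear automorphism `coeffSL N φ` of the function field, hence an action
on places and divisors (Prelude `SemilinearAut`).  For `φ` = Frobenius this is the map `Φ` of the
Eichler–Shimura relation.
-/

set_option autoImplicit false

noncomputable section

open HahnSeries IntermediateField AlgebraicCurve ModularCurve

namespace Fermat.Agent.S37.H697

variable {k : Type*} [Field k] (N : ℕ)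

theorem mem_fullC_iff {x : LaurentSeries k} :
    x ∈ modularFunctionFieldFullC k N ↔
      x ∈ Subfield.closure
        (Set.range (algebraMap k (LaurentSeries k)) ∪ divisorExpansionsC k N) :=
  Iff.rfl

theorem coeffMap_mem_fullC (φ : k →+* k) {x : LaurentSeries k}
    (hx : x ∈ modularFunctionFieldFullC k N) :
    coeffMap φ x ∈ modularFunctionFieldFullC k N := by
  rw [mem_fullC_iff] at hx
  induction hx using Subfield.closure_induction with
  | mem y hy =>
      rcases hy with ⟨a, rfl⟩ | ⟨d, hd, hdN, rfl⟩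
      · rw [coeffMap_algebraMap]
        exact (modularFunctionFieldFullC k N).algebraMap_mem _
      · have := hd
        rw [coeffMap_qExpand, coeffMap_jqModC]
        exact jqModCd_mem_full k N hdN
  | one => simp
  | add x y _ _ hx hy => simpa using add_mem hx hy
  | neg x _ hx => simpa using neg_mem hx
  | inv x _ hx => simpa using inv_mem hx
  | mul x y _ _ hx hy => simpa using mul_mem hx hy

/-- The coefficientwise ring automorphism of `modularFunctionFieldFullC k N` induced by a ring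
automorphism of `k`. -/
def coeffRingAut (φ : k ≃+* k) :
    (modularFunctionFieldFullC k N) ≃+* (modularFunctionFieldFullC k N) where
  toFun x := ⟨coeffMap (φ : k →+* k) (x : LaurentSeries k), coeffMap_mem_fullC N _ x.2⟩
  invFun x := ⟨coeffMap (φ.symm : k →+* k) (x : LaurentSeries k), coeffMap_mem_fullC N _ x.2⟩
  left_inv x := Subtype.ext <| by
    show coeffMap (φ.symm : k →+* k) (coeffMap (φ : k →+* k) (x : LaurentSeries k))
      = (x : LaurentSeries k)
    rw [coeffMap_coeffMap,
      coeffMap_congr (g := RingHom.id k) (RingHom.ext fun a => φ.symm_apply_apply a)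
        (x : LaurentSeries k),
      coeffMap_id]
  right_inv x := Subtype.ext <| by
    show coeffMap (φ : k →+* k) (coeffMap (φ.symm : k →+* k) (x : LaurentSeries k))
      = (x : LaurentSeries k)
    rw [coeffMap_coeffMap,
      coeffMap_congr (g := RingHom.id k) (RingHom.ext fun a => φ.apply_symm_apply a)
        (x : LaurentSeries k),
      coeffMap_id]
  map_mul' x y :=
    Subtype.ext (map_mul (coeffMap (φ : k →+* k)) (x : LaurentSeries k) (y : LaurentSeries k))
  map_add' x y :=
    Subtype.ext (map_add (coeffMap (φ : k →+* k)) (x : LaurentSeries k) (y : LaurentSeries k))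

@[simp]
theorem coe_coeffRingAut_apply (φ : k ≃+* k) (x : modularFunctionFieldFullC k N) :
    (coeffRingAut N φ x : LaurentSeries k) = coeffMap (φ : k →+* k) (x : LaurentSeries k) :=
  rfl

theorem coeffRingAut_algebraMap (φ : k ≃+* k) (a : k) :
    coeffRingAut N φ (algebraMap k (modularFunctionFieldFullC k N) a)
      = algebraMap k (modularFunctionFieldFullC k N) (φ a) :=
  Subtype.ext (coeffMap_algebraMap (φ : k →+* k) a)

/-- The semilinear automorphism of `modularFunctionFieldFullC k N` induced by a ring automorphism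
of `k`. -/
def coeffSL (φ : k ≃+* k) : SemilinearAut k (modularFunctionFieldFullC k N) :=
  ⟨(coeffRingAut N φ, φ), fun a => coeffRingAut_algebraMap N φ a⟩

@[simp]
theorem coe_coeffSL_smul (φ : k ≃+* k) (x : modularFunctionFieldFullC k N) :
    ((coeffSL N φ • x : modularFunctionFieldFullC k N) : LaurentSeries k)
      = coeffMap (φ : k →+* k) (x : LaurentSeries k) :=
  rfl

theorem coeffSL_symm (φ : k ≃+* k) : coeffSL N φ.symm = (coeffSL N φ)⁻¹ := rfl

theorem coeffSL_refl : coeffSL N (RingEquiv.refl k) = 1 := by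
  refine Subtype.ext (Prod.ext (RingEquiv.ext fun x => Subtype.ext ?_) rfl)
  show coeffMap ((RingEquiv.refl k : k ≃+* k) : k →+* k) (x : LaurentSeries k)
    = (x : LaurentSeries k)
  rw [show ((RingEquiv.refl k : k ≃+* k) : k →+* k) = RingHom.id k from RingHom.ext fun _ => rfl,
    coeffMap_id]

end Fermat.Agent.S37.H697

end
end
-- ===== PACK-END S37/H697/FrobF.lean

-- ===== PACK-BEGIN S17/H857/WeakMW.lean
section




/-!
# S17, piece W-KUM (helper857): weak Mordell–Weil from its inputs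

The Kummer/pigeonhole argument, pure algebra + infinite Galois theory.

* `finiteIndex_of_pigeonhole` : a subgroup `H` of `A` such that some map `f : A → Φ` into a finite
  type satisfies `f a = f b → a - b ∈ H` has finite index.
* `weakMW_abstract` : for any `G_ℚ`-module `J` with finite `n`-torsion, `n`-divisible, all of whose
  elements have open stabiliser, and such that the `n`-division points of the fixed points are
  unramified outside a finite set `S`, Hermite–Minkowski (as a hypothesis) implies that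
  `n • J^G` has finite index in `J^G`.
* `weakMW_of` : the skeleton statement `Skel.weakMW_of` (definitions `WeakMW`, `MW`, `UnramifiedAt`
  unfolded).
-/

set_option autoImplicit false

noncomputable section

namespace Fermat.Agent.S17.H857

open ModularCurve AlgebraicCurve

/-- Pigeonhole: if `f : A → Φ`, `Φ` finite, separates the cosets of `H`, then `H` has finite
index. -/
theorem finiteIndex_of_pigeonhole {A : Type*} [AddCommGroup A] (H : AddSubgroup A) {Φ : Type*}
    [Finite Φ] (f : A → Φ) (hf : ∀ a b : A, f a = f b → a - b ∈ H) : H.FiniteIndex := by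
  haveI : Finite (A ⧸ H) := by
    refine Finite.of_injective (fun q : A ⧸ H => f q.out) ?_
    intro q q' hqq'
    have h := hf _ _ hqq'
    have h1 : (QuotientAddGroup.mk q.out : A ⧸ H) = QuotientAddGroup.mk q'.out := by
      rw [QuotientAddGroup.eq]
      have : -q.out + q'.out = -(q.out - q'.out) := by abel
      rw [this]
      exact H.neg_mem h
    simpa using h1
  exact AddSubgroup.finiteIndex_of_finite_quotient

/-- `ℚ̄` -/
abbrev Qb : Type := AlgebraicClosure ℚ

/-- the absolute Galois group of `ℚ` -/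
abbrev GQ : Type := Qb ≃ₐ[ℚ] Qb

theorem isGalois_Qb : IsGalois ℚ Qb := by
  haveI : Algebra.IsAlgebraic ℚ (AlgebraicClosure ℚ) := AlgebraicClosure.isAlgebraic ℚ
  haveI : IsAlgClosure ℚ (AlgebraicClosure ℚ) := ⟨inferInstance, inferInstance⟩
  exact IsAlgClosure.isGalois ℚ Qb

section Abstract

variable {J : Type*} [AddCommGroup J] [DistribMulAction GQ J]

/-- The stabiliser of an element with open stabiliser is the fixing subgroup of its fixed field. -/
theorem fixingSubgroup_fixedField_stabilizer (y : J)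
    (hstab : ∃ K : IntermediateField ℚ Qb, FiniteDimensional ℚ K ∧
      ∀ σ : GQ, (∀ a ∈ K, σ a = a) → σ • y = y) :
    (IntermediateField.fixedField (MulAction.stabilizer GQ y)).fixingSubgroup =
      MulAction.stabilizer GQ y := by
  haveI := isGalois_Qb
  obtain ⟨K, hK, hKy⟩ := hstab
  have hle : K.fixingSubgroup ≤ MulAction.stabilizer GQ y := by
    intro σ hσ
    rw [MulAction.mem_stabilizer_iff]
    exact hKy σ ((IntermediateField.mem_fixingSubgroup_iff K σ).mp hσ)
  have hopen : IsOpen (MulAction.stabilizer GQ y : Set GQ) :=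
    Subgroup.isOpen_mono hle K.fixingSubgroup_isOpen
  have hclosed : IsClosed (MulAction.stabilizer GQ y : Set GQ) :=
    Subgroup.isClosed_of_isOpen _ hopen
  exact InfiniteGalois.fixingSubgroup_fixedField
    (⟨MulAction.stabilizer GQ y, hclosed⟩ : ClosedSubgroup GQ)

/-- The fixed field of the stabiliser is a number field. -/
theorem finiteDimensional_fixedField_stabilizer (y : J)
    (hstab : ∃ K : IntermediateField ℚ Qb, FiniteDimensional ℚ K ∧
      ∀ σ : GQ, (∀ a ∈ K, σ a = a) → σ • y = y) :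
    FiniteDimensional ℚ (IntermediateField.fixedField (MulAction.stabilizer GQ y)) := by
  haveI := isGalois_Qb
  obtain ⟨K, hK, hKy⟩ := hstab
  have hle : K.fixingSubgroup ≤ MulAction.stabilizer GQ y := by
    intro σ hσ
    rw [MulAction.mem_stabilizer_iff]
    exact hKy σ ((IntermediateField.mem_fixingSubgroup_iff K σ).mp hσ)
  have hKK : IntermediateField.fixedField (MulAction.stabilizer GQ y) ≤ K := by
    have h1 := IntermediateField.fixedField_antitone hle
    rwa [InfiniteGalois.fixedField_fixingSubgroup] at h1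
  exact Module.Finite.of_injective (IntermediateField.inclusion hKK).toLinearMap
    (IntermediateField.inclusion hKK).injective

/-- Weak Mordell–Weil, abstract form. -/
theorem weakMW_abstract (n : ℕ)
    (hstab : ∀ x : J, ∃ K : IntermediateField ℚ Qb, FiniteDimensional ℚ K ∧
      ∀ σ : GQ, (∀ a ∈ K, σ a = a) → σ • x = x)
    (T : AddSubgroup J) (hT : ∀ x : J, x ∈ T ↔ n • x = 0) [Finite T]
    (hdiv : ∀ x : J, ∃ y : J, n • y = x)
    (S : Finset ℕ)
    (hunr : ∀ ℓ : ℕ, ℓ.Prime → ℓ ∉ S → ∀ A : ValuationSubring Qb, A.LiesOverPrime ℓ →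
      ∀ σ ∈ A.inertiaSubgroupIn ℚ, ∀ y : J, n • y ∈ FixedPoints.addSubgroup GQ J → σ • y = y)
    (hHM : ∀ d : ℕ, {K : IntermediateField ℚ Qb | FiniteDimensional ℚ K ∧
      Module.finrank ℚ K ≤ d ∧ ∀ ℓ : ℕ, ℓ.Prime → ℓ ∉ S →
        ∀ A : ValuationSubring Qb, A.LiesOverPrime ℓ → ∀ σ ∈ A.inertiaSubgroupIn ℚ,
          ∀ a ∈ K, σ a = a}.Finite) :
    (nsmulAddMonoidHom n :
      FixedPoints.addSubgroup GQ J →+ FixedPoints.addSubgroup GQ J).range.FiniteIndex := by
  classical
  haveI := isGalois_Qb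
  have hfin := hHM (Nat.card T)
  set HM : Set (IntermediateField ℚ Qb) := {K : IntermediateField ℚ Qb | FiniteDimensional ℚ K ∧
      Module.finrank ℚ K ≤ Nat.card T ∧ ∀ ℓ : ℕ, ℓ.Prime → ℓ ∉ S →
        ∀ A : ValuationSubring Qb, A.LiesOverPrime ℓ → ∀ σ ∈ A.inertiaSubgroupIn ℚ,
          ∀ a ∈ K, σ a = a} with hHMdef
  -- the compositum of the Hermite–Minkowski set
  set M : IntermediateField ℚ Qb := ⨆ K ∈ hfin.toFinset, K with hM
  haveI hMfd : FiniteDimensional ℚ M :=
    IntermediateField.finiteDimensional_iSup_of_finset'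
      (fun K hK => (hfin.mem_toFinset.mp hK).1)
  -- torsion differences
  have htorsdiff : ∀ y : J, n • y ∈ FixedPoints.addSubgroup GQ J → ∀ σ : GQ,
      σ • y - y ∈ T := by
    intro y hy σ
    rw [hT, smul_sub, ← smul_comm σ n y, (FixedPoints.mem_addSubgroup GQ J _).mp hy σ, sub_self]
  -- every `n`-division point of a fixed point is fixed by `Gal(ℚ̄/M)`
  have key : ∀ y : J, n • y ∈ FixedPoints.addSubgroup GQ J → ∀ σ : GQ,
      σ ∈ M.fixingSubgroup → σ • y = y := by
    intro y hy σ hσ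
    have hfix := fixingSubgroup_fixedField_stabilizer y (hstab y)
    have hKy_mem : IntermediateField.fixedField (MulAction.stabilizer GQ y) ∈ HM := by
      refine ⟨finiteDimensional_fixedField_stabilizer y (hstab y), ?_, ?_⟩
      · rw [IntermediateField.finrank_eq_fixingSubgroup_index Qb, hfix,
          MulAction.index_stabilizer, ← Nat.card_coe_set_eq]
        refine Nat.card_le_card_of_injective
          (fun z : MulAction.orbit GQ y => (⟨(z : J) - y, ?_⟩ : T)) ?_
        · obtain ⟨σ', hσ'⟩ := z.2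
          rw [← hσ']
          exact htorsdiff y hy σ'
        · intro z z' hzz'
          have := congrArg (fun w : T => (w : J)) hzz'
          simp only [sub_left_inj] at this
          exact Subtype.ext this
      · intro ℓ hℓ hℓS A hA τ hτ a ha
        have hτy : τ • y = y := hunr ℓ hℓ hℓS A hA τ hτ y hy
        exact (IntermediateField.mem_fixedField_iff _ a).mp ha τ
          (MulAction.mem_stabilizer_iff.mpr hτy)
    have hKyM : IntermediateField.fixedField (MulAction.stabilizer GQ y) ≤ M :=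
      le_iSup₂_of_le (f := fun K (_ : K ∈ hfin.toFinset) => K) _
        (hfin.mem_toFinset.mpr hKy_mem) le_rfl
    have h1 : σ ∈ (IntermediateField.fixedField (MulAction.stabilizer GQ y)).fixingSubgroup :=
      IntermediateField.fixingSubgroup_antitone hKyM hσ
    rw [hfix] at h1
    exact MulAction.mem_stabilizer_iff.mp h1
  -- restriction to `M`
  haveI : Finite (M →ₐ[ℚ] Qb) := inferInstance
  let res : GQ → (M →ₐ[ℚ] Qb) := fun σ => (σ : Qb →ₐ[ℚ] Qb).comp M.val
  have hres : ∀ σ τ : GQ, res σ = res τ → σ⁻¹ * τ ∈ M.fixingSubgroup := by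
    intro σ τ h
    rw [IntermediateField.mem_fixingSubgroup_iff]
    intro a ha
    have := congrArg (fun e : M →ₐ[ℚ] Qb => e ⟨a, ha⟩) h
    change σ a = τ a at this
    rw [AlgEquiv.mul_apply, ← this]
    exact σ.symm_apply_apply a
  have hsame : ∀ y : J, n • y ∈ FixedPoints.addSubgroup GQ J → ∀ σ τ : GQ, res σ = res τ →
      σ • y = τ • y := by
    intro y hy σ τ h
    have := key y hy _ (hres σ τ h)
    rw [mul_smul, inv_smul_eq_iff] at this
    exact this.symm
  choose ydiv hydiv using hdiv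
  have hyMW : ∀ x : FixedPoints.addSubgroup GQ J,
      n • ydiv (x : J) ∈ FixedPoints.addSubgroup GQ J := by
    intro x
    rw [hydiv]
    exact x.2
  let f : FixedPoints.addSubgroup GQ J → ((M →ₐ[ℚ] Qb) → T) := fun x e =>
    if h : ∃ σ : GQ, res σ = e then
      ⟨h.choose • ydiv (x : J) - ydiv (x : J), htorsdiff _ (hyMW x) _⟩
    else 0
  refine finiteIndex_of_pigeonhole _ f ?_
  intro x x' hxx'
  have hz : ydiv (x : J) - ydiv (x' : J) ∈ FixedPoints.addSubgroup GQ J := by
    rw [FixedPoints.mem_addSubgroup]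
    intro σ
    have hex : ∃ σ' : GQ, res σ' = res σ := ⟨σ, rfl⟩
    have h1 := congrFun hxx' (res σ)
    simp only [f, dif_pos hex] at h1
    have h2 := congrArg (fun w : T => (w : J)) h1
    simp only at h2
    rw [hsame _ (hyMW x) _ _ hex.choose_spec, hsame _ (hyMW x') _ _ hex.choose_spec] at h2
    rw [smul_sub]
    exact sub_eq_sub_iff_sub_eq_sub.mp h2
  refine ⟨⟨_, hz⟩, ?_⟩
  apply Subtype.ext
  simp only [nsmulAddMonoidHom_apply, AddSubgroup.coe_nsmul, AddSubgroup.coe_sub, smul_sub, hydiv]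

end Abstract

/-- **W-KUM** (skeleton statement `Skel.weakMW_of`, with `WeakMW`, `MW`, `UnramifiedAt`
unfolded). Weak Mordell–Weil for `J₀(N)` from its inputs. -/
theorem weakMW_of (N : ℕ) [NeZero N] (n : ℕ) (hn : n ≠ 0)
    (hstab : ∀ x : JZero N, ∃ K : IntermediateField ℚ Qb, FiniteDimensional ℚ K ∧
      ∀ σ : GQ, (∀ a ∈ K, σ a = a) → σ • x = x)
    (htors : Finite (Pic0.torsion Qb (modularFunctionFieldBar N) n))
    (hdiv : ∀ x : JZero N, ∃ y : JZero N, n • y = x)
    (S : Finset ℕ)
    (hunr : ∀ ℓ : ℕ, ℓ.Prime → ℓ ∉ S → ∀ A : ValuationSubring Qb, A.LiesOverPrime ℓ →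
      ∀ σ ∈ A.inertiaSubgroupIn ℚ, ∀ y : JZero N,
        n • y ∈ FixedPoints.addSubgroup GQ (JZero N) → σ • y = y)
    (hHM : ∀ d : ℕ, {K : IntermediateField ℚ Qb | FiniteDimensional ℚ K ∧
      Module.finrank ℚ K ≤ d ∧ ∀ ℓ : ℕ, ℓ.Prime → ℓ ∉ S →
        ∀ A : ValuationSubring Qb, A.LiesOverPrime ℓ → ∀ σ ∈ A.inertiaSubgroupIn ℚ,
          ∀ a ∈ K, σ a = a}.Finite) :
    (nsmulAddMonoidHom n : FixedPoints.addSubgroup GQ (JZero N) →+
      FixedPoints.addSubgroup GQ (JZero N)).range.FiniteIndex := by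
  haveI := htors
  refine weakMW_abstract (J := JZero N) n hstab (Pic0.torsion Qb (modularFunctionFieldBar N) n)
    (fun x => ?_) hdiv S hunr hHM
  rw [Pic0.mem_torsion, natCast_zsmul]

end Fermat.Agent.S17.H857

end
end
-- ===== PACK-END S17/H857/WeakMW.lean

-- ===== PACK-BEGIN S37/H400/KronFrob.lean
section
/-
S37 / helper400 — piece KRON, part (K0): Frobenius on Laurent series in characteristic `p`.

`f ^ p = V_p (frob f)`, where `V_p = qExpand R p` is `q ↦ q ^ p` and `frob` raises every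
coefficient to the `p`-th power.
-/




set_option autoImplicit false
set_option linter.style.haveILetI false

noncomputable section

open ModularCurve HahnSeries

namespace Fermat.Agent.S37.H400

variable {R : Type*} [CommRing R]

/-- Coefficients of the `p`-th power of a power series in characteristic `p`. -/
theorem powerSeries_coeff_pow_char (p : ℕ) [Fact p.Prime] [CharP R p] (g : PowerSeries R)
    (n : ℕ) :
    PowerSeries.coeff n (g ^ p) = if p ∣ n then (PowerSeries.coeff (n / p) g) ^ p else 0 := by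
  have hp : 0 < p := (Fact.out : p.Prime).pos
  have h1 : PowerSeries.coeff n (g ^ p) =
      PowerSeries.coeff n ((PowerSeries.trunc (n + 1) g : PowerSeries R) ^ p) := by
    rw [← PowerSeries.coeff_coe_trunc_of_lt (Nat.lt_succ_self n) (f := g ^ p),
      ← PowerSeries.trunc_trunc_pow,
      PowerSeries.coeff_coe_trunc_of_lt (Nat.lt_succ_self n)]
  rw [h1, ← Polynomial.coe_pow, Polynomial.coeff_coe, ← Polynomial.map_frobenius_expand,
    Polynomial.coeff_map, Polynomial.coeff_expand hp]
  split_ifs with h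
  · rw [PowerSeries.coeff_trunc, if_pos, frobenius_def]
    exact lt_of_le_of_lt (Nat.div_le_self n p) (Nat.lt_succ_self n)
  · simp

/-- The power-series case of `laurent_pow_char`. -/
theorem ofPowerSeries_pow_char (p : ℕ) [Fact p.Prime] [CharP R p] (g : PowerSeries R) :
    (HahnSeries.ofPowerSeries ℤ R g) ^ p =
      qExpand R p (coeffMap (frobenius R p) (HahnSeries.ofPowerSeries ℤ R g)) := by
  haveI : NeZero p := ⟨(Fact.out : p.Prime).ne_zero⟩
  have hp : 0 < p := (Fact.out : p.Prime).pos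
  have hpz : (0 : ℤ) < (p : ℤ) := by exact_mod_cast hp
  rw [← map_pow]
  ext k
  by_cases hk : (p : ℤ) ∣ k
  · obtain ⟨m, rfl⟩ := hk
    rw [qExpand_coeff_mul, coeffMap_coeff, PowerSeries.coeff_coe, PowerSeries.coeff_coe]
    by_cases hm : m < 0
    · have : (p : ℤ) * m < 0 := by nlinarith
      rw [if_pos this, if_pos hm, map_zero]
    · have hm' : 0 ≤ m := not_lt.mp hm
      have : ¬ (p : ℤ) * m < 0 := by
        have := mul_nonneg hpz.le hm'
        omega
      rw [if_neg this, if_neg hm, powerSeries_coeff_pow_char, frobenius_def]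
      have h1 : ((p : ℤ) * m).natAbs = p * m.natAbs := by
        rw [Int.natAbs_mul, Int.natAbs_natCast]
      rw [h1, if_pos (dvd_mul_right p _), Nat.mul_div_cancel_left _ hp]
  · rw [qExpand_coeff_of_not_dvd p _ hk, PowerSeries.coeff_coe]
    split_ifs with h
    · rfl
    · rw [powerSeries_coeff_pow_char, if_neg]
      intro hd
      apply hk
      have h0 : 0 ≤ k := not_lt.mp h
      have : (k.natAbs : ℤ) = k := Int.natAbs_of_nonneg h0
      rw [← this]
      exact_mod_cast hd

/-- **(K0)** In characteristic `p`, the `p`-th power of a Laurent series is obtained by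
raising the coefficients to the `p`-th power and substituting `q ↦ q ^ p`. -/
theorem laurent_pow_char (p : ℕ) [Fact p.Prime] [CharP R p] (f : LaurentSeries R) :
    haveI : NeZero p := ⟨(Fact.out : p.Prime).ne_zero⟩
    f ^ p = qExpand R p (coeffMap (frobenius R p) f) := by
  haveI : NeZero p := ⟨(Fact.out : p.Prime).ne_zero⟩
  show f ^ p = qExpand R p (coeffMap (frobenius R p) f)
  conv_lhs => rw [← LaurentSeries.single_order_mul_powerSeriesPart f]
  conv_rhs => rw [← LaurentSeries.single_order_mul_powerSeriesPart f]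
  rw [mul_pow, map_mul, map_mul, ofPowerSeries_pow_char, coeffMap_single, qExpand_single,
    HahnSeries.single_pow, map_one, one_pow, nsmul_eq_mul]

end Fermat.Agent.S37.H400

end
end
-- ===== PACK-END S37/H400/KronFrob.lean

-- ===== PACK-BEGIN S18/H9/Res.lean
section



/-!
# S18, squad S18/S05, pieces RES.1 and RES.2 (helper9)

Mathlib + Prelude only.  The two theorems have EXACTLY the unfolded types of
`Fermat.Agent.S18.Sq05.ResAlgClosedStatement` and `Fermat.Agent.S18.Sq05.ResCharStatement`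
(frozen in `Fermat/Agent/S18/Sq05/Spec.lean`, squad-lead helper5), so
`(resAlgClosed : Sq05.ResAlgClosedStatement)` and `(resChar : Sq05.ResCharStatement)` hold by
unfolding the definitions.

* `resAlgClosed` — the residue field of a valuation subring of an algebraically closed field is
  algebraically closed.
* `resChar` — primes different from the residue characteristic are invertible in the residue
  field.
-/

set_option autoImplicit false

namespace Fermat.Agent.S18.H9

open Polynomial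

/-- **RES.1**: the residue field of a valuation subring of an algebraically closed field is
algebraically closed. -/
theorem resAlgClosed :
    ∀ (L : Type) [Field L] [IsAlgClosed L] (A : ValuationSubring L),
      IsAlgClosed (IsLocalRing.ResidueField A) := by
  intro L _ _ A
  refine IsAlgClosed.of_exists_root _ fun p hpm hpi => ?_
  -- lift `p` to a monic polynomial over `A`
  have hsurj : Function.Surjective (IsLocalRing.residue A) := IsLocalRing.residue_surjective
  have hlift : p ∈ Polynomial.lifts (IsLocalRing.residue A) :=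
    (Polynomial.mem_lifts p).mpr (Polynomial.map_surjective _ hsurj p)
  obtain ⟨P, hPmap, hPdeg, hPm⟩ := Polynomial.lifts_and_degree_eq_and_monic hlift hpm
  -- a root of `P` in `L`
  have hdeg : (P.map (algebraMap A L)).degree ≠ 0 := by
    rw [Polynomial.degree_map_eq_of_injective (FaithfulSMul.algebraMap_injective A L), hPdeg]
    exact Polynomial.degree_pos_of_irreducible hpi |>.ne'
  obtain ⟨x, hx⟩ := IsAlgClosed.exists_root (P.map (algebraMap A L)) hdeg
  -- the root is integral over `A`, hence lies in `A`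
  have hint : IsIntegral A x := ⟨P, hPm, by
    rw [← Polynomial.eval_map]; exact hx⟩
  obtain ⟨y, hy⟩ := (IsIntegrallyClosed.isIntegral_iff (R := A) (K := L)).mp hint
  refine ⟨IsLocalRing.residue A y, ?_⟩
  have hy0 : P.eval y = 0 := by
    apply FaithfulSMul.algebraMap_injective A L
    rw [map_zero, ← Polynomial.eval₂_at_apply, Polynomial.eval₂_eq_eval_map, hy]
    exact hx
  rw [← hPmap, Polynomial.eval_map, Polynomial.eval₂_at_apply, hy0, map_zero]

/-- **RES.2**: primes different from the residue characteristic are invertible in the residue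
field. -/
theorem resChar :
    ∀ (L : Type) [Field L] (A : ValuationSubring L) (ℓ p : ℕ), ℓ.Prime → p.Prime →
      A.LiesOverPrime ℓ → p ≠ ℓ → ((p : ℕ) : IsLocalRing.ResidueField A) ≠ 0 := by
  intro L _ A ℓ p hℓ hp hA hne h0
  -- `ℓ` is in the maximal ideal
  have hℓm : ((ℓ : ℕ) : A) ∈ IsLocalRing.maximalIdeal A := by
    obtain ⟨ha, hm⟩ := (ValuationSubring.mem_nonunits_iff_exists_mem_maximalIdeal).mp hA
    have : (⟨(ℓ : L), ha⟩ : A) = ((ℓ : ℕ) : A) := by
      apply Subtype.ext; simp
    rwa [this] at hm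
  -- `p` is in the maximal ideal
  have hpm : ((p : ℕ) : A) ∈ IsLocalRing.maximalIdeal A := by
    rw [← IsLocalRing.residue_eq_zero_iff]
    rw [map_natCast]
    exact h0
  -- Bezout
  have hcop : IsCoprime (p : ℤ) (ℓ : ℤ) := by
    rw [Int.isCoprime_iff_gcd_eq_one]
    exact (Nat.coprime_primes hp hℓ).mpr hne
  obtain ⟨a, b, hab⟩ := hcop
  have h1 : (1 : A) ∈ IsLocalRing.maximalIdeal A := by
    have e : (1 : A) = (a : A) * ((p : ℕ) : A) + (b : A) * ((ℓ : ℕ) : A) := by
      have := congrArg (Int.cast : ℤ → A) hab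
      push_cast at this
      rw [← this]
    rw [e]
    exact Ideal.add_mem _ (Ideal.mul_mem_left _ _ hpm) (Ideal.mul_mem_left _ _ hℓm)
  exact (Ideal.ne_top_iff_one _).mp (IsLocalRing.maximalIdeal.isMaximal A).ne_top h1

end Fermat.Agent.S18.H9

end
-- ===== PACK-END S18/H9/Res.lean

-- ===== PACK-BEGIN S18/H394/Graded.lean
section


/-!
# S18, Route K, pieces b3+b4 (helper394): the graded Kummer algebra

`C` is a commutative `F`-algebra with a power basis `1, T, …, T^(m-1)` and `T ^ m = u`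
(think `C = F[T]/(T^m - u)`).  For a subalgebra `B ⊆ F` which is `m`-root closed
(`f ^ m ∈ B → f ∈ B`) we define

  `kummerSub B = { ∑ fᵢ Tⁱ | fᵢ ^ m * u ^ i ∈ B }`

and show that it is a subalgebra of `C` (it is the integral closure of `B` in `C` when `B` is
normal, but we never need that).
-/

set_option autoImplicit false

namespace Fermat.Agent.S18.H394

open Polynomial

section RootSets

variable {R F : Type*} [CommRing R] [Field F] [Algebra R F]

/-- `B` is closed under `m`-th roots taken in `F`. -/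
def RootClosed (m : ℕ) (B : Subalgebra R F) : Prop := ∀ f : F, f ^ m ∈ B → f ∈ B

/-- `degSet B m u n = {f | f ^ m * u ^ n ∈ B}`: the coefficients allowed in degree `n`. -/
def degSet (B : Subalgebra R F) (m : ℕ) (u : F) (n : ℕ) : Set F := {f | f ^ m * u ^ n ∈ B}

variable {B : Subalgebra R F} {m : ℕ} {u : F}

theorem mem_degSet {n : ℕ} {f : F} : f ∈ degSet B m u n ↔ f ^ m * u ^ n ∈ B := Iff.rfl

theorem zero_mem_degSet (hm : 0 < m) (n : ℕ) : (0 : F) ∈ degSet B m u n := by
  rw [mem_degSet, zero_pow hm.ne', zero_mul]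
  exact B.zero_mem

theorem neg_mem_degSet {n : ℕ} {f : F} (hf : f ∈ degSet B m u n) : -f ∈ degSet B m u n := by
  rw [mem_degSet] at hf ⊢
  rcases Nat.even_or_odd m with h | h
  · rwa [h.neg_pow]
  · rw [h.neg_pow, neg_mul]
    exact B.neg_mem hf

theorem mul_mem_degSet {i j : ℕ} {f g : F} (hf : f ∈ degSet B m u i) (hg : g ∈ degSet B m u j) :
    f * g ∈ degSet B m u (i + j) := by
  rw [mem_degSet] at hf hg ⊢
  have : (f * g) ^ m * u ^ (i + j) = (f ^ m * u ^ i) * (g ^ m * u ^ j) := by ring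
  rw [this]
  exact B.mul_mem hf hg

theorem smul_mem_degSet {n : ℕ} {b f : F} (hb : b ∈ B) (hf : f ∈ degSet B m u n) :
    b * f ∈ degSet B m u n := by
  rw [mem_degSet] at hf ⊢
  have : (b * f) ^ m * u ^ n = b ^ m * (f ^ m * u ^ n) := by ring
  rw [this]
  exact B.mul_mem (B.pow_mem hb m) hf

theorem mem_degSet_zero_of_mem {b : F} (hb : b ∈ B) : b ∈ degSet B m u 0 := by
  rw [mem_degSet, pow_zero, mul_one]
  exact B.pow_mem hb m

theorem mem_of_mem_degSet_zero (hB : RootClosed m B) {b : F} (hb : b ∈ degSet B m u 0) :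
    b ∈ B := by
  rw [mem_degSet, pow_zero, mul_one] at hb
  exact hB b hb

theorem mul_pow_mem_degSet {q r : ℕ} {f : F} (hf : f ∈ degSet B m u (q * m + r)) :
    f * u ^ q ∈ degSet B m u r := by
  rw [mem_degSet] at hf ⊢
  have : (f * u ^ q) ^ m * u ^ r = f ^ m * u ^ (q * m + r) := by ring
  rwa [this]

theorem degSet_mono {B B' : Subalgebra R F} (h : B ≤ B') (n : ℕ) :
    degSet B m u n ⊆ degSet B' m u n := fun _ hf => h hf

/-- The key point: `degSet` is closed under addition when `B` is `m`-root closed. -/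
theorem add_mem_degSet (hB : RootClosed m B) {n : ℕ} {f g : F}
    (hf : f ∈ degSet B m u n) (hg : g ∈ degSet B m u n) : f + g ∈ degSet B m u n := by
  rw [mem_degSet] at hf hg ⊢
  rw [add_pow, Finset.sum_mul]
  refine B.sum_mem fun a ha => ?_
  have ham : a ≤ m := Nat.lt_succ_iff.mp (Finset.mem_range.mp ha)
  have hroot : f ^ a * g ^ (m - a) * u ^ n ∈ B := by
    apply hB
    have : (f ^ a * g ^ (m - a) * u ^ n) ^ m
        = (f ^ m * u ^ n) ^ a * (g ^ m * u ^ n) ^ (m - a) := by
      have h1 : (u ^ n) ^ m = (u ^ n) ^ a * (u ^ n) ^ (m - a) := by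
        rw [← pow_add, Nat.add_sub_cancel' ham]
      calc (f ^ a * g ^ (m - a) * u ^ n) ^ m
          = (f ^ m) ^ a * (g ^ m) ^ (m - a) * (u ^ n) ^ m := by ring
        _ = (f ^ m) ^ a * (g ^ m) ^ (m - a) * ((u ^ n) ^ a * (u ^ n) ^ (m - a)) := by rw [h1]
        _ = (f ^ m * u ^ n) ^ a * (g ^ m * u ^ n) ^ (m - a) := by ring
    rw [this]
    exact B.mul_mem (B.pow_mem hf _) (B.pow_mem hg _)
  have : f ^ a * g ^ (m - a) * (m.choose a : F) * u ^ n
      = (m.choose a : F) * (f ^ a * g ^ (m - a) * u ^ n) := by ring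
  rw [this]
  exact B.mul_mem (natCast_mem B _) hroot

theorem sum_mem_degSet (hB : RootClosed m B) (hm : 0 < m) {n : ℕ} {ι : Type*} (s : Finset ι)
    (f : ι → F) (hf : ∀ i ∈ s, f i ∈ degSet B m u n) : ∑ i ∈ s, f i ∈ degSet B m u n := by
  classical
  induction s using Finset.induction_on with
  | empty => simpa using zero_mem_degSet (B := B) (u := u) hm n
  | insert a s ha ih =>
    rw [Finset.sum_insert ha]
    exact add_mem_degSet hB (hf a (Finset.mem_insert_self a s))
      (ih fun i hi => hf i (Finset.mem_insert_of_mem hi))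

end RootSets

section Coeff

variable {F C : Type*} [Field F] [CommRing C] [Algebra F C]
variable (pb : PowerBasis F C) {u : F}

/-- The `k`-th coefficient of `c` in the power basis. -/
noncomputable def co (k : Fin pb.dim) : C →ₗ[F] F :=
  (Finsupp.lapply k).comp pb.basis.repr.toLinearMap

theorem co_apply (k : Fin pb.dim) (c : C) : co pb k c = pb.basis.repr c k := rfl

theorem sum_co (c : C) : ∑ k : Fin pb.dim, algebraMap F C (co pb k c) * pb.gen ^ (k : ℕ) = c := by
  conv_rhs => rw [← pb.basis.sum_repr c]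
  refine Finset.sum_congr rfl fun k _ => ?_
  rw [co_apply, pb.basis_eq_pow, Algebra.smul_def]

theorem gen_pow_eq (hT : pb.gen ^ pb.dim = algebraMap F C u) (q r : ℕ) :
    pb.gen ^ (q * pb.dim + r) = algebraMap F C (u ^ q) * pb.gen ^ r := by
  rw [pow_add, mul_comm q, pow_mul, hT, map_pow]

theorem co_monomial (hT : pb.gen ^ pb.dim = algebraMap F C u) (f : F) (q : ℕ)
    (r k : Fin pb.dim) :
    co pb k (algebraMap F C f * pb.gen ^ (q * pb.dim + (r : ℕ))) = if r = k then f * u ^ q else 0 := by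
  classical
  rw [gen_pow_eq pb hT, ← mul_assoc, ← map_mul, ← Algebra.smul_def, ← pb.basis_eq_pow, co_apply,
    map_smul, pb.basis.repr_self, Finsupp.smul_apply, Finsupp.single_apply, smul_eq_mul]
  split_ifs <;> simp

theorem co_algebraMap_mul (f : F) (c : C) (k : Fin pb.dim) :
    co pb k (algebraMap F C f * c) = f * co pb k c := by
  rw [← Algebra.smul_def, map_smul, smul_eq_mul]

end Coeff

section KummerSub

variable {R F C : Type*} [CommRing R] [Field F] [Algebra R F] [CommRing C] [Algebra F C]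
  [Algebra R C] [IsScalarTower R F C]
variable (pb : PowerBasis F C) {u : F}

/-- Coefficients of a monomial `f * T ^ n` (any `n`) with `f` allowed in degree `n` are allowed. -/
theorem co_monomial_mem (hT : pb.gen ^ pb.dim = algebraMap F C u) (hm : 0 < pb.dim)
    {B : Subalgebra R F} {n : ℕ} {f : F}
    (hf : f ∈ degSet B pb.dim u n) (k : Fin pb.dim) :
    co pb k (algebraMap F C f * pb.gen ^ n) ∈ degSet B pb.dim u k := by
  have hn : n = n / pb.dim * pb.dim + ((⟨n % pb.dim, Nat.mod_lt _ hm⟩ : Fin pb.dim) : ℕ) := by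
    simp only
    rw [mul_comm]
    exact (Nat.div_add_mod n pb.dim).symm
  have hco := co_monomial pb hT f (n / pb.dim) ⟨n % pb.dim, Nat.mod_lt _ hm⟩ k
  rw [← hn] at hco
  rw [hco]
  split_ifs with h
  · subst h
    apply mul_pow_mem_degSet (q := n / pb.dim)
    simp only
    rw [mul_comm, Nat.div_add_mod]
    exact hf
  · exact zero_mem_degSet hm _

variable (u) in
/-- The graded Kummer subalgebra attached to a root-closed subalgebra `B ⊆ F`. -/
noncomputable def kummerSub (hT : pb.gen ^ pb.dim = algebraMap F C u) (hm : 0 < pb.dim)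
    (B : Subalgebra R F) (hB : RootClosed pb.dim B) : Subalgebra R C where
  carrier := {c | ∀ k : Fin pb.dim, co pb k c ∈ degSet B pb.dim u k}
  zero_mem' := fun k => by
    rw [map_zero]
    exact zero_mem_degSet hm _
  add_mem' := fun {a b} ha hb k => by
    rw [map_add]
    exact add_mem_degSet hB (ha k) (hb k)
  one_mem' := fun k => by
    have h1 : (1 : C) = algebraMap F C 1 * pb.gen ^ 0 := by simp
    rw [h1]
    exact co_monomial_mem pb hT hm (mem_degSet_zero_of_mem B.one_mem) k
  mul_mem' := fun {a b} ha hb k => by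
    have hab : a * b = ∑ i : Fin pb.dim, ∑ j : Fin pb.dim,
        algebraMap F C (co pb i a * co pb j b) * pb.gen ^ ((i : ℕ) + (j : ℕ)) := by
      conv_lhs => rw [← sum_co pb a, ← sum_co pb b, Finset.sum_mul_sum]
      refine Finset.sum_congr rfl fun i _ => Finset.sum_congr rfl fun j _ => ?_
      rw [map_mul, pow_add]
      ring
    rw [hab, map_sum]
    refine sum_mem_degSet hB hm _ _ fun i _ => ?_
    rw [map_sum]
    refine sum_mem_degSet hB hm _ _ fun j _ => ?_
    exact co_monomial_mem pb hT hm (mul_mem_degSet (ha i) (hb j)) k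
  algebraMap_mem' := fun r k => by
    have h1 : algebraMap R C r = algebraMap F C (algebraMap R F r) * pb.gen ^ 0 := by
      rw [pow_zero, mul_one, ← IsScalarTower.algebraMap_apply]
    rw [h1]
    exact co_monomial_mem pb hT hm (mem_degSet_zero_of_mem (B.algebraMap_mem r)) k

variable {pb}

theorem mem_kummerSub {hT : pb.gen ^ pb.dim = algebraMap F C u} {hm : 0 < pb.dim}
    {B : Subalgebra R F} {hB : RootClosed pb.dim B} {c : C} :
    c ∈ kummerSub pb u hT hm B hB ↔ ∀ k : Fin pb.dim, co pb k c ∈ degSet B pb.dim u k :=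
  Iff.rfl

theorem monomial_mem_kummerSub (hT : pb.gen ^ pb.dim = algebraMap F C u) (hm : 0 < pb.dim)
    {B : Subalgebra R F} (hB : RootClosed pb.dim B) {n : ℕ} {f : F}
    (hf : f ∈ degSet B pb.dim u n) :
    algebraMap F C f * pb.gen ^ n ∈ kummerSub pb u hT hm B hB :=
  fun k => co_monomial_mem pb hT hm hf k

theorem algebraMap_mem_kummerSub (hT : pb.gen ^ pb.dim = algebraMap F C u) (hm : 0 < pb.dim)
    {B : Subalgebra R F} (hB : RootClosed pb.dim B) {b : F} (hb : b ∈ B) :
    algebraMap F C b ∈ kummerSub pb u hT hm B hB := by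
  have := monomial_mem_kummerSub hT hm hB (n := 0) (mem_degSet_zero_of_mem (m := pb.dim) (u := u) hb)
  simpa using this

theorem kummerSub_mono (hT : pb.gen ^ pb.dim = algebraMap F C u) (hm : 0 < pb.dim)
    {B B' : Subalgebra R F} (hB : RootClosed pb.dim B) (hB' : RootClosed pb.dim B')
    (h : B ≤ B') : kummerSub pb u hT hm B hB ≤ kummerSub pb u hT hm B' hB' :=
  fun _ hc k => degSet_mono h _ (hc k)

end KummerSub

end Fermat.Agent.S18.H394

end
-- ===== PACK-END S18/H394/Graded.lean

-- ===== PACK-BEGIN S17/H680/GaloisDescent.lean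
section


/-!
# S17 / BASE-2 (helper680): Galois descent for semilinear actions (abstract part)

`L / k` a normal algebraic field extension, `G = Gal(L/k)`, `M` an `L`-vector space with a
semilinear action of `G`.  If `v ∈ M` is fixed by `Gal(L/K)` for a finite subextension `K / k`,
then `v` lies in the `L`-span of the `G`-fixed vectors of any `G`-stable subspace containing it
(`mem_span_fixed`).  If moreover `L / k` is Galois, `k`-linearly independent fixed vectors are
`L`-linearly independent (`linearIndependent_of_fixed`).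
-/

set_option autoImplicit false

noncomputable section

namespace Fermat.Agent.S17.H680

section Extend

variable {k L : Type*} [Field k] [Field L] [Algebra k L] [Normal k L]

/-- Extend an embedding of an intermediate field to an automorphism of `L`. -/
def extendEmb (K : IntermediateField k L) (τ : K →ₐ[k] L) : L ≃ₐ[k] L :=
  AlgEquiv.ofBijective (τ.liftNormal L) (Algebra.IsAlgebraic.algHom_bijective _)

theorem extendEmb_apply (K : IntermediateField k L) (τ : K →ₐ[k] L) (a : K) :
    extendEmb K τ (a : L) = τ a := by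
  have h := τ.liftNormal_commutes L a
  simpa [extendEmb] using h

end Extend

section Descent

variable {k L : Type*} [Field k] [Field L] [Algebra k L] [Normal k L]
variable {M : Type*} [AddCommGroup M] [Module L M] [DistribMulAction (L ≃ₐ[k] L) M]

/-- The trace of `v` from a finite level `K`. -/
def traceAt (K : IntermediateField k L) [FiniteDimensional k K] (v : M) : M :=
  ∑ τ : K →ₐ[k] L, extendEmb K τ • v

variable (hsemi : ∀ (σ : L ≃ₐ[k] L) (a : L) (m : M), σ • (a • m) = σ a • σ • m)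

omit [Normal k L] [Module L M] in
theorem smul_eq_of_agree (K : IntermediateField k L) {v : M}
    (hv : ∀ σ : L ≃ₐ[k] L, (∀ a ∈ K, σ a = a) → σ • v = v) {σ τ : L ≃ₐ[k] L}
    (h : ∀ a ∈ K, σ a = τ a) : σ • v = τ • v := by
  have h1 : (τ⁻¹ * σ) • v = v := by
    apply hv
    intro a ha
    rw [AlgEquiv.mul_apply, h a ha]
    exact τ.symm_apply_apply a
  calc σ • v = (τ * (τ⁻¹ * σ)) • v := by rw [mul_inv_cancel_left]
    _ = τ • v := by rw [mul_smul, h1]

omit [Normal k L] in
include hsemi in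
theorem fixed_smul_of_mem (K : IntermediateField k L) {v : M}
    (hv : ∀ σ : L ≃ₐ[k] L, (∀ a ∈ K, σ a = a) → σ • v = v) {a : L} (ha : a ∈ K)
    (σ : L ≃ₐ[k] L) (hσ : ∀ b ∈ K, σ b = b) : σ • (a • v) = a • v := by
  rw [hsemi, hσ a ha, hv σ hσ]

include hsemi in
/-- The trace of `a • v` is fixed by the Galois group. -/
theorem smul_traceAt (K : IntermediateField k L) [FiniteDimensional k K] {v : M}
    (hv : ∀ σ : L ≃ₐ[k] L, (∀ a ∈ K, σ a = a) → σ • v = v) {a : L} (ha : a ∈ K)
    (ρ : L ≃ₐ[k] L) : ρ • traceAt K (a • v) = traceAt K (a • v) := by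
  classical
  unfold traceAt
  rw [Finset.smul_sum]
  -- reindex by `τ ↦ ρ ∘ τ`
  let e : (K →ₐ[k] L) ≃ (K →ₐ[k] L) :=
    { toFun := fun τ => (ρ : L →ₐ[k] L).comp τ
      invFun := fun τ => ((ρ⁻¹ : L ≃ₐ[k] L) : L →ₐ[k] L).comp τ
      left_inv := fun τ => by
        ext x
        show (ρ⁻¹ : L ≃ₐ[k] L) (ρ (τ x)) = τ x
        exact ρ.symm_apply_apply _
      right_inv := fun τ => by
        ext x
        show ρ ((ρ⁻¹ : L ≃ₐ[k] L) (τ x)) = τ x
        exact ρ.apply_symm_apply _ }
  rw [← Equiv.sum_comp e (fun τ => extendEmb K τ • (a • v))]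
  refine Finset.sum_congr rfl fun τ _ => ?_
  rw [← mul_smul]
  refine smul_eq_of_agree K (fixed_smul_of_mem hsemi K hv ha) ?_
  intro b hb
  rw [AlgEquiv.mul_apply, extendEmb_apply K τ ⟨b, hb⟩, extendEmb_apply K (e τ) ⟨b, hb⟩]
  rfl

include hsemi in
/-- **Galois descent, spanning**: a vector fixed by an open subgroup lies in the span of the
fixed vectors of any stable subspace containing it. -/
theorem mem_span_fixed (V : Submodule L M) (hV : ∀ (σ : L ≃ₐ[k] L), ∀ m ∈ V, σ • m ∈ V)
    {v : M} (hvV : v ∈ V) (K : IntermediateField k L) [FiniteDimensional k K]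
    (hv : ∀ σ : L ≃ₐ[k] L, (∀ a ∈ K, σ a = a) → σ • v = v) :
    v ∈ Submodule.span L {w : M | w ∈ V ∧ ∀ σ : L ≃ₐ[k] L, σ • w = w} := by
  classical
  by_contra hnot
  obtain ⟨φ, hφv, hφ⟩ := Submodule.exists_le_ker_of_notMem hnot
  -- all traces are killed by `φ`
  have hT : ∀ a : K, φ (traceAt K ((a : L) • v)) = 0 := by
    intro a
    have hmem : traceAt K ((a : L) • v) ∈
        Submodule.span L {w : M | w ∈ V ∧ ∀ σ : L ≃ₐ[k] L, σ • w = w} := by
      refine Submodule.subset_span ⟨?_, fun σ => smul_traceAt hsemi K hv a.2 σ⟩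
      unfold traceAt
      exact Submodule.sum_mem _ fun τ _ => hV _ _ (V.smul_mem _ hvV)
    exact hφ hmem
  -- a linear relation between the embeddings
  have hrel : ∑ τ : K →ₐ[k] L, φ (extendEmb K τ • v) • (τ.toLinearMap : K →ₗ[k] L) = 0 := by
    ext a
    have := hT a
    unfold traceAt at this
    rw [map_sum] at this
    rw [LinearMap.sum_apply, LinearMap.zero_apply, ← this]
    refine Finset.sum_congr rfl fun τ _ => ?_
    have h1 : extendEmb K τ • ((a : L) • v) = τ a • (extendEmb K τ • v) := by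
      rw [hsemi, extendEmb_apply]
    rw [h1, LinearMap.map_smul, LinearMap.smul_apply, AlgHom.toLinearMap_apply, smul_eq_mul,
      smul_eq_mul, mul_comm]
  have hli := linearIndependent_algHom_toLinearMap k K L
  have h0 := (Fintype.linearIndependent_iff.mp hli) (fun τ => φ (extendEmb K τ • v)) hrel
    (K.val)
  apply hφv
  have h1 : extendEmb K K.val • v = v := by
    apply hv
    intro a ha
    exact extendEmb_apply K K.val ⟨a, ha⟩
  rw [← h1]
  exact h0

end Descent

section Independence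

variable {k L : Type*} [Field k] [Field L] [Algebra k L] [IsGalois k L]
variable {M : Type*} [AddCommGroup M] [Module L M] [Module k M] [IsScalarTower k L M]
variable [DistribMulAction (L ≃ₐ[k] L) M]
variable (hsemi : ∀ (σ : L ≃ₐ[k] L) (a : L) (m : M), σ • (a • m) = σ a • σ • m)

include hsemi in
/-- **Galois descent, independence**: `k`-linearly independent fixed vectors are `L`-linearly
independent. -/
theorem linearIndependent_of_fixed {ι : Type*} (w : ι → M)
    (hw : ∀ (σ : L ≃ₐ[k] L) (i : ι), σ • w i = w i) (hli : LinearIndependent k w) :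
    LinearIndependent L w := by
  classical
  rw [linearIndependent_iff']
  -- strong induction on the size of the support
  have key : ∀ n : ℕ, ∀ s : Finset ι, s.card = n → ∀ c : ι → L,
      ∑ i ∈ s, c i • w i = 0 → ∀ i ∈ s, c i = 0 := by
    intro n
    induction n using Nat.strong_induction_on with
    | _ n ih =>
      intro s hs c hc i₀ hi₀
      by_contra hne
      -- normalise the coefficient at `i₀`
      set c' : ι → L := fun i => (c i₀)⁻¹ * c i with hc'
      have hc'0 : c' i₀ = 1 := inv_mul_cancel₀ hne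
      have hsum' : ∑ i ∈ s, c' i • w i = 0 := by
        have : ∑ i ∈ s, c' i • w i = (c i₀)⁻¹ • ∑ i ∈ s, c i • w i := by
          rw [Finset.smul_sum]
          refine Finset.sum_congr rfl fun i _ => ?_
          rw [hc', mul_smul]
        rw [this, hc, smul_zero]
      -- all coefficients are Galois-fixed
      have hfix : ∀ σ : L ≃ₐ[k] L, ∀ i ∈ s, σ (c' i) = c' i := by
        intro σ i hi
        have h1 : ∑ j ∈ s, σ (c' j) • w j = 0 := by
          have := congrArg (fun m => σ • m) hsum'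
          simp only [Finset.smul_sum, smul_zero] at this
          rw [← this]
          refine Finset.sum_congr rfl fun j _ => ?_
          rw [hsemi, hw]
        have h2 : ∑ j ∈ s.erase i₀, (σ (c' j) - c' j) • w j = 0 := by
          have h3 : ∑ j ∈ s, (σ (c' j) - c' j) • w j = 0 := by
            simp only [sub_smul, Finset.sum_sub_distrib, h1, hsum', sub_zero]
          rw [← Finset.add_sum_erase s _ hi₀] at h3
          rw [hc'0, map_one, sub_self, zero_smul, zero_add] at h3
          exact h3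
        by_cases hii : i = i₀
        · rw [hii, hc'0, map_one]
        · have hcard : (s.erase i₀).card < n := by
            rw [Finset.card_erase_of_mem hi₀, hs]
            have : 0 < s.card := Finset.card_pos.mpr ⟨i₀, hi₀⟩
            omega
          have := ih _ hcard (s.erase i₀) rfl (fun j => σ (c' j) - c' j) h2 i
            (Finset.mem_erase.mpr ⟨hii, hi⟩)
          exact sub_eq_zero.mp this
      -- hence they come from `k`
      have hk : ∀ i ∈ s, ∃ d : k, algebraMap k L d = c' i := by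
        intro i hi
        exact (InfiniteGalois.mem_range_algebraMap_iff_fixed (c' i)).mpr fun σ => hfix σ i hi
      choose! d hd using hk
      have hsumk : ∑ i ∈ s, d i • w i = 0 := by
        rw [← hsum']
        refine Finset.sum_congr rfl fun i hi => ?_
        rw [← hd i hi, algebraMap_smul]
      have := (linearIndependent_iff'.mp hli) s d hsumk i₀ hi₀
      have h1 : c' i₀ = 0 := by rw [← hd i₀ hi₀, this, map_zero]
      rw [hc'0] at h1
      exact one_ne_zero h1
  intro s c hc i hi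
  exact key s.card s rfl c hc i hi

end Independence

end Fermat.Agent.S17.H680

end
end
-- ===== PACK-END S17/H680/GaloisDescent.lean

-- ===== PACK-BEGIN S17/H737/AbstractDescent.lean
section


/-!
# S17 / tower H: abstract end of the height argument (helper737)

Mathlib-only.  `A` is any commutative additive group (think `MW N`).

* `descent_data_of_pairing_height` : from a quasi-quadratic `q`, a quasi-additive `l`, a
  nonnegative Northcott function `ν` and the positivity inequality
  `ν (-x) ≤ c₁ * (q x - l x / 2) + c₂` (route H-D, inequality (POS)), the function `h := q`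
  is a descent height for the exponent `2`: Northcott, `h x ≤ 2 * h (g + x) + c g`,
  `4 * h x - c₀ ≤ h (2 • x)`.  The conclusion is literally the body of
  `Skel.HasDescentHeight N 2` with `MW N` replaced by `A`.  No Tate limit is needed.
* `exists_quadratic_limit`, `exists_additive_limit` : Tate limits (exact quadratic / additive
  function at bounded distance), for users who prefer exact forms.
-/

set_option autoImplicit false

namespace Fermat.Agent.S17.H737

section Descent

variable {A : Type*} [AddCommGroup A]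

/-- A quasi-quadratic function is bounded at `0`. -/
theorem abs_zero_le_of_quasiQuadratic (q : A → ℝ) (C : ℝ)
    (hq : ∀ x y, |q (x + y) + q (x - y) - 2 * q x - 2 * q y| ≤ C) : |q 0| ≤ C / 2 := by
  have h := hq 0 0
  simp only [add_zero, sub_zero] at h
  have h2 : q 0 + q 0 - 2 * q 0 - 2 * q 0 = -(2 * q 0) := by ring
  rw [h2, abs_neg, abs_mul, abs_two] at h
  linarith

/-- A quasi-quadratic function is quasi-even. -/
theorem abs_neg_sub_le_of_quasiQuadratic (q : A → ℝ) (C : ℝ)
    (hq : ∀ x y, |q (x + y) + q (x - y) - 2 * q x - 2 * q y| ≤ C) (y : A) :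
    |q (-y) - q y| ≤ 2 * C := by
  have h0 := abs_zero_le_of_quasiQuadratic q C hq
  have h := hq 0 y
  simp only [zero_add, zero_sub] at h
  have e : q (-y) - q y = (q y + q (-y) - 2 * q 0 - 2 * q y) + 2 * q 0 := by ring
  rw [e]
  calc |(q y + q (-y) - 2 * q 0 - 2 * q y) + 2 * q 0|
      ≤ |q y + q (-y) - 2 * q 0 - 2 * q y| + |2 * q 0| := abs_add_le _ _
    _ ≤ C + 2 * (C / 2) := by
        rw [abs_mul, abs_two]
        linarith
    _ = 2 * C := by ring

/-- A quasi-additive function is quasi-odd. -/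
theorem abs_add_neg_le_of_quasiAdditive (l : A → ℝ) (C : ℝ)
    (hl : ∀ x y, |l (x + y) - l x - l y| ≤ C) (x : A) : |l x + l (-x)| ≤ 2 * C := by
  have h0 := hl 0 0
  simp only [add_zero] at h0
  have h00 : |l 0| ≤ C := by
    have e : l 0 - l 0 - l 0 = -(l 0) := by ring
    rwa [e, abs_neg] at h0
  have h := hl x (-x)
  rw [add_neg_cancel] at h
  have e : l x + l (-x) = -(l 0 - l x - l (-x)) + l 0 := by ring
  rw [e]
  calc |-(l 0 - l x - l (-x)) + l 0| ≤ |-(l 0 - l x - l (-x))| + |l 0| := abs_add_le _ _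
    _ ≤ C + C := by rw [abs_neg]; linarith
    _ = 2 * C := by ring

/-- **Abstract end of route H-D.**  Quasi-quadratic `q`, quasi-additive `l`, nonnegative
Northcott `ν`, and `(POS)`: `ν (-x) ≤ c₁ * (q x - l x / 2) + c₂` with `c₁ > 0`.
Then `h := q` satisfies the three requirements of a descent height for the exponent `2`
(with `a = 2 < b = 4`). -/
theorem descent_data_of_pairing_height (q l ν : A → ℝ) (C c₁ c₂ : ℝ) (hc₁ : 0 < c₁)
    (hq : ∀ x y, |q (x + y) + q (x - y) - 2 * q x - 2 * q y| ≤ C)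
    (hl : ∀ x y, |l (x + y) - l x - l y| ≤ C)
    (hν0 : ∀ x, 0 ≤ ν x)
    (hν : ∀ B : ℝ, {x : A | ν x ≤ B}.Finite)
    (hpos : ∀ x, ν (-x) ≤ c₁ * (q x - l x / 2) + c₂) :
    ∃ (h : A → ℝ) (a b c₀ : ℝ) (c : A → ℝ), 0 ≤ a ∧ a < b ∧
      (∀ B : ℝ, {x : A | h x ≤ B}.Finite) ∧
      (∀ g x : A, h x ≤ a * h (g + x) + c g) ∧
      (∀ x : A, b * h x - c₀ ≤ h (2 • x)) := by
  have hC : 0 ≤ C := le_trans (abs_nonneg _) (hq 0 0)
  have hq0 := abs_zero_le_of_quasiQuadratic q C hq
  -- first lower bound: `q x - l x / 2 ≥ - c₂ / c₁`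
  have h1 : ∀ x, -(c₂ / c₁) ≤ q x - l x / 2 := by
    intro x
    have h := le_trans (hν0 (-x)) (hpos x)
    have h' : -c₂ ≤ (q x - l x / 2) * c₁ := by linarith
    rw [← neg_div, div_le_iff₀ hc₁]
    exact h'
  -- second lower bound, from `-x`
  have h2 : ∀ x, -(c₂ / c₁) - 3 * C ≤ q x + l x / 2 := by
    intro x
    have h := h1 (-x)
    have hqe := abs_neg_sub_le_of_quasiQuadratic q C hq x
    have hle := abs_add_neg_le_of_quasiAdditive l C hl x
    have hqe' := (abs_le.1 hqe).2
    have hle' := (abs_le.1 hle).1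
    linarith
  -- `q` is bounded below
  have h3 : ∀ x, -(c₂ / c₁) - 3 * C / 2 ≤ q x := by
    intro x
    have := h1 x
    have := h2 x
    linarith
  refine ⟨q, 2, 4, 3 * C / 2, fun g => 2 * q g + C + (c₂ / c₁ + 3 * C / 2), by norm_num,
    by norm_num, ?_, ?_, ?_⟩
  · -- Northcott
    intro B
    have hfin : {x : A | ν (-x) ≤ c₁ * (2 * B + c₂ / c₁ + 3 * C) + c₂}.Finite := by
      have := (hν (c₁ * (2 * B + c₂ / c₁ + 3 * C) + c₂)).preimage
        (f := fun x : A => -x) (fun x _ y _ hxy => neg_injective hxy)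
      exact this
    refine hfin.subset ?_
    intro x hx
    simp only [Set.mem_ofPred_eq] at hx ⊢
    refine le_trans (hpos x) ?_
    have h := h2 x
    have : q x - l x / 2 ≤ 2 * B + c₂ / c₁ + 3 * C := by linarith
    have := mul_le_mul_of_nonneg_left this hc₁.le
    linarith
  · -- translation
    intro g x
    have h := hq (g + x) g
    have e1 : g + x - g = x := by abel
    rw [e1] at h
    have h' := (abs_le.1 h).2
    have hlow := h3 (g + x + g)
    show q x ≤ 2 * q (g + x) + (2 * q g + C + (c₂ / c₁ + 3 * C / 2))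
    linarith
  · -- duplication
    intro x
    have h := hq x x
    rw [sub_self, ← two_nsmul] at h
    have h' := (abs_le.1 h).1
    have h0 := (abs_le.1 hq0).2
    linarith

end Descent

section TateLimit

variable {A : Type*} [AddCommGroup A]

/-- Tate limit for quasi-quadratic functions: an exact quadratic function at distance `≤ C / 2`. -/
theorem exists_quadratic_limit (f : A → ℝ) (C : ℝ)
    (hf : ∀ x y, |f (x + y) + f (x - y) - 2 * f x - 2 * f y| ≤ C) :
    ∃ q : A → ℝ, (∀ x y, q (x + y) + q (x - y) = 2 * q x + 2 * q y) ∧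
      ∀ x, |q x - f x| ≤ C / 2 := by
  have hC : 0 ≤ C := le_trans (abs_nonneg _) (hf 0 0)
  have hf0 := abs_zero_le_of_quasiQuadratic f C hf
  -- the key estimate
  have hdup : ∀ x, |f (2 • x) - 4 * f x| ≤ 3 * C / 2 := by
    intro x
    have h := hf x x
    rw [sub_self, ← two_nsmul] at h
    have e : f (2 • x) - 4 * f x = (f (2 • x) + f 0 - 2 * f x - 2 * f x) - f 0 := by ring
    rw [e]
    calc |(f (2 • x) + f 0 - 2 * f x - 2 * f x) - f 0|
        ≤ |f (2 • x) + f 0 - 2 * f x - 2 * f x| + |f 0| := abs_sub _ _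
      _ ≤ C + C / 2 := by linarith
      _ = 3 * C / 2 := by ring
  let u : A → ℕ → ℝ := fun x n => f ((2 ^ n) • x) / 4 ^ n
  have hstep : ∀ x n, dist (u x n) (u x (n + 1)) ≤ (3 * C / 8) * (1 / 4 : ℝ) ^ n := by
    intro x n
    have h := hdup ((2 ^ n) • x)
    have e2 : (2 : ℕ) • ((2 ^ n) • x) = (2 ^ (n + 1)) • x := by
      rw [smul_smul, pow_succ, mul_comm]
    rw [e2] at h
    have h4 : (0 : ℝ) < 4 ^ n := by positivity
    have h4' : (0 : ℝ) < 4 ^ (n + 1) := by positivity
    rw [Real.dist_eq]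
    have e : u x n - u x (n + 1)
        = -((f ((2 ^ (n + 1)) • x) - 4 * f ((2 ^ n) • x)) / 4 ^ (n + 1)) := by
      simp only [u]
      rw [pow_succ]
      field_simp
      ring
    rw [e, abs_neg, abs_div, abs_of_pos h4']
    rw [div_le_iff₀ h4']
    calc |f ((2 ^ (n + 1)) • x) - 4 * f ((2 ^ n) • x)| ≤ 3 * C / 2 := h
      _ = 3 * C / 8 * (1 / 4) ^ n * 4 ^ (n + 1) := by
          rw [pow_succ, one_div, inv_pow]
          field_simp
          ring
  have hcau : ∀ x, CauchySeq (u x) := fun x =>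
    cauchySeq_of_le_geometric (1 / 4) (3 * C / 8) (by norm_num) (hstep x)
  have hlim : ∀ x, ∃ a, Filter.Tendsto (u x) Filter.atTop (nhds a) := fun x =>
    cauchySeq_tendsto_of_complete (hcau x)
  choose q hq using hlim
  refine ⟨q, ?_, ?_⟩
  · intro x y
    -- pass to the limit in the quasi-parallelogram law
    have hT : Filter.Tendsto
        (fun n => u (x + y) n + u (x - y) n - 2 * u x n - 2 * u y n) Filter.atTop
        (nhds (q (x + y) + q (x - y) - 2 * q x - 2 * q y)) :=
      (((hq (x + y)).add (hq (x - y))).sub ((hq x).const_mul 2)).sub ((hq y).const_mul 2)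
    have hB : ∀ n, |u (x + y) n + u (x - y) n - 2 * u x n - 2 * u y n| ≤ C * (1 / 4 : ℝ) ^ n := by
      intro n
      have h := hf ((2 ^ n) • x) ((2 ^ n) • y)
      rw [← smul_add, ← smul_sub] at h
      have h4 : (0 : ℝ) < 4 ^ n := by positivity
      have e : u (x + y) n + u (x - y) n - 2 * u x n - 2 * u y n
          = (f ((2 ^ n) • (x + y)) + f ((2 ^ n) • (x - y)) - 2 * f ((2 ^ n) • x)
              - 2 * f ((2 ^ n) • y)) / 4 ^ n := by
        simp only [u]
        ring
      rw [e, abs_div, abs_of_pos h4, div_le_iff₀ h4]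
      calc _ ≤ C := h
        _ = C * (1 / 4) ^ n * 4 ^ n := by
            rw [one_div, inv_pow]
            field_simp
    have h0 : Filter.Tendsto (fun n => C * (1 / 4 : ℝ) ^ n) Filter.atTop (nhds 0) := by
      have := (tendsto_pow_atTop_nhds_zero_of_lt_one (r := (1 / 4 : ℝ)) (by norm_num)
        (by norm_num)).const_mul C
      simpa using this
    have hz : Filter.Tendsto
        (fun n => u (x + y) n + u (x - y) n - 2 * u x n - 2 * u y n) Filter.atTop (nhds 0) :=
      squeeze_zero_norm (fun n => by rw [Real.norm_eq_abs]; exact hB n) h0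
    have := tendsto_nhds_unique hT hz
    linarith
  · intro x
    have h := dist_le_of_le_geometric_of_tendsto₀ (1 / 4) (3 * C / 8) (by norm_num) (hstep x)
      (hq x)
    have e0 : u x 0 = f x := by simp [u]
    rw [e0, dist_comm, Real.dist_eq] at h
    refine le_trans h (le_of_eq ?_)
    norm_num
    ring

/-- Tate limit for quasi-additive functions: an exact additive function at distance `≤ C`. -/
theorem exists_additive_limit (f : A → ℝ) (C : ℝ)
    (hf : ∀ x y, |f (x + y) - f x - f y| ≤ C) :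
    ∃ l : A →+ ℝ, ∀ x, |l x - f x| ≤ C := by
  have hC : 0 ≤ C := le_trans (abs_nonneg _) (hf 0 0)
  have hdup : ∀ x, |f (2 • x) - 2 * f x| ≤ C := by
    intro x
    have h := hf x x
    rw [← two_nsmul] at h
    have e : f (2 • x) - 2 * f x = f (2 • x) - f x - f x := by ring
    rwa [e]
  let u : A → ℕ → ℝ := fun x n => f ((2 ^ n) • x) / 2 ^ n
  have hstep : ∀ x n, dist (u x n) (u x (n + 1)) ≤ (C / 2) * (1 / 2 : ℝ) ^ n := by
    intro x n
    have h := hdup ((2 ^ n) • x)
    have e2 : (2 : ℕ) • ((2 ^ n) • x) = (2 ^ (n + 1)) • x := by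
      rw [smul_smul, pow_succ, mul_comm]
    rw [e2] at h
    have h4' : (0 : ℝ) < 2 ^ (n + 1) := by positivity
    rw [Real.dist_eq]
    have e : u x n - u x (n + 1)
        = -((f ((2 ^ (n + 1)) • x) - 2 * f ((2 ^ n) • x)) / 2 ^ (n + 1)) := by
      simp only [u]
      rw [pow_succ]
      field_simp
      ring
    rw [e, abs_neg, abs_div, abs_of_pos h4']
    rw [div_le_iff₀ h4']
    calc |f ((2 ^ (n + 1)) • x) - 2 * f ((2 ^ n) • x)| ≤ C := h
      _ = C / 2 * (1 / 2) ^ n * 2 ^ (n + 1) := by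
          rw [pow_succ, one_div, inv_pow]
          field_simp
  have hcau : ∀ x, CauchySeq (u x) := fun x =>
    cauchySeq_of_le_geometric (1 / 2) (C / 2) (by norm_num) (hstep x)
  have hlim : ∀ x, ∃ a, Filter.Tendsto (u x) Filter.atTop (nhds a) := fun x =>
    cauchySeq_tendsto_of_complete (hcau x)
  choose l hl using hlim
  have hadd : ∀ x y, l (x + y) = l x + l y := by
    intro x y
    have hT : Filter.Tendsto (fun n => u (x + y) n - u x n - u y n) Filter.atTop
        (nhds (l (x + y) - l x - l y)) := ((hl (x + y)).sub (hl x)).sub (hl y)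
    have hB : ∀ n, |u (x + y) n - u x n - u y n| ≤ C * (1 / 2 : ℝ) ^ n := by
      intro n
      have h := hf ((2 ^ n) • x) ((2 ^ n) • y)
      rw [← smul_add] at h
      have h4 : (0 : ℝ) < 2 ^ n := by positivity
      have e : u (x + y) n - u x n - u y n
          = (f ((2 ^ n) • (x + y)) - f ((2 ^ n) • x) - f ((2 ^ n) • y)) / 2 ^ n := by
        simp only [u]
        ring
      rw [e, abs_div, abs_of_pos h4, div_le_iff₀ h4]
      calc _ ≤ C := h
        _ = C * (1 / 2) ^ n * 2 ^ n := by
            rw [one_div, inv_pow]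
            field_simp
    have h0 : Filter.Tendsto (fun n => C * (1 / 2 : ℝ) ^ n) Filter.atTop (nhds 0) := by
      have := (tendsto_pow_atTop_nhds_zero_of_lt_one (r := (1 / 2 : ℝ)) (by norm_num)
        (by norm_num)).const_mul C
      simpa using this
    have hz : Filter.Tendsto (fun n => u (x + y) n - u x n - u y n) Filter.atTop (nhds 0) :=
      squeeze_zero_norm (fun n => by rw [Real.norm_eq_abs]; exact hB n) h0
    have := tendsto_nhds_unique hT hz
    linarith
  refine ⟨AddMonoidHom.mk' l hadd, fun x => ?_⟩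
  have h := dist_le_of_le_geometric_of_tendsto₀ (1 / 2) (C / 2) (by norm_num) (hstep x) (hl x)
  have e0 : u x 0 = f x := by simp [u]
  rw [e0, dist_comm, Real.dist_eq] at h
  refine le_trans h (le_of_eq ?_)
  norm_num
  ring

end TateLimit

end Fermat.Agent.S17.H737

end
-- ===== PACK-END S17/H737/AbstractDescent.lean

-- ===== PACK-BEGIN S17/H740/SegreLift.lean
section




/-!
# Segre substitution and lifting of multihomogeneous polynomials

Slots `a : α` (finitely many), slot `a` has variables `ι a`.  A polynomial in the variables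
`Σ a, ι a` is *multihomogeneous of multidegree `m : α → ℕ`* if every monomial has degree `m a` in the
variables of slot `a` (`IsMultiHom`, a weighted homogeneity with weights in `α → ℕ`).

The *Segre substitution* sends the Segre variable `Z_f`, `f : (a : α) → ι a`, to `∏ a, X ⟨a, f a⟩`.
Main result: every multihomogeneous polynomial of multidegree `(N, …, N)` is the Segre
substitution of a homogeneous polynomial of degree `N` in the Segre variables
(`exists_segre_lift`).

Mathlib-only.  Part of the heights tower of row S17 (leaf SEGRE).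
-/

set_option autoImplicit false

noncomputable section

namespace Fermat.Agent.S17.H740

open MvPolynomial

section Defs

variable {k : Type*} [CommSemiring k] {α : Type*} {ι : α → Type*}

/-- The weight (in `α → ℕ`) of the variable `⟨a, j⟩`: the indicator of its slot. -/
def slotW [DecidableEq α] : (Σ a, ι a) → (α → ℕ) := fun s => Pi.single s.1 1

/-- `p` is multihomogeneous of multidegree `m`: every monomial has degree `m a` in the variables
of slot `a`. -/
def IsMultiHom [DecidableEq α] (p : MvPolynomial (Σ a, ι a) k) (m : α → ℕ) : Prop :=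
  IsWeightedHomogeneous (slotW (ι := ι)) p m

/-- The point of the "big" affine space attached to a family of tuples. -/
def sigmaPt {R : Type*} (u : (a : α) → ι a → R) : (Σ a, ι a) → R := fun s => u s.1 s.2

variable [Fintype α]

/-- The Segre point (multiplication table) of a family of tuples. -/
def segrePt {R : Type*} [CommMonoid R] (u : (a : α) → ι a → R) : ((a : α) → ι a) → R :=
  fun f => ∏ a, u a (f a)

variable (k) in
/-- The Segre substitution `Z_f ↦ ∏ a, X ⟨a, f a⟩`. -/
def segreSubst : MvPolynomial ((a : α) → ι a) k →ₐ[k] MvPolynomial (Σ a, ι a) k :=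
  aeval (fun f => ∏ a, X (⟨a, f a⟩ : Σ a, ι a))

@[simp]
theorem segreSubst_X (f : (a : α) → ι a) :
    segreSubst k (X f) = ∏ a, X (⟨a, f a⟩ : Σ a, ι a) := by
  simp [segreSubst]

theorem aeval_sigmaPt_segreSubst {R : Type*} [CommSemiring R] [Algebra k R]
    (u : (a : α) → ι a → R) (P : MvPolynomial ((a : α) → ι a) k) :
    aeval (sigmaPt u) (segreSubst k P) = aeval (segrePt u) P := by
  have h : (aeval (sigmaPt u)).comp (segreSubst k) =
      (aeval (segrePt u) : MvPolynomial ((a : α) → ι a) k →ₐ[k] R) := by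
    apply MvPolynomial.algHom_ext
    intro f
    simp [segrePt, sigmaPt]
  exact congrArg (fun φ => φ P) h

end Defs

section Weight

variable {α : Type*} [DecidableEq α] {ι : α → Type*}

theorem weight_slotW_apply (d : (Σ a, ι a) →₀ ℕ) (a : α) :
    Finsupp.weight (slotW (ι := ι)) d a = ∑ s ∈ d.support, if s.1 = a then d s else 0 := by
  classical
  rw [Finsupp.weight_apply, Finsupp.sum, Finset.sum_apply]
  refine Finset.sum_congr rfl fun s _ => ?_
  simp only [slotW, Pi.smul_apply, smul_eq_mul, Pi.single_apply]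
  split_ifs with h1 h2 h2
  · simp
  · exact absurd h1.symm h2
  · exact absurd h2.symm h1
  · simp

theorem le_weight_slotW (d : (Σ a, ι a) →₀ ℕ) (s : Σ a, ι a) :
    d s ≤ Finsupp.weight (slotW (ι := ι)) d s.1 := by
  classical
  rw [weight_slotW_apply]
  by_cases hs : s ∈ d.support
  · calc d s = (if s.1 = s.1 then d s else 0) := by simp
      _ ≤ _ := Finset.single_le_sum (f := fun t => if t.1 = s.1 then d t else 0)
          (fun _ _ => Nat.zero_le _) hs
  · simp only [Finsupp.mem_support_iff, not_not] at hs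
    simp [hs]

theorem exists_pos_of_weight_slotW_pos (d : (Σ a, ι a) →₀ ℕ) (a : α)
    (h : 0 < Finsupp.weight (slotW (ι := ι)) d a) : ∃ j : ι a, d ⟨a, j⟩ ≠ 0 := by
  classical
  rw [weight_slotW_apply] at h
  obtain ⟨s, hs, hpos⟩ := Finset.exists_ne_zero_of_sum_ne_zero h.ne'
  by_cases hsa : s.1 = a
  · subst hsa
    refine ⟨s.2, ?_⟩
    simpa using hpos
  · simp [hsa] at hpos

end Weight

section Lift

variable {k : Type*} [CommSemiring k] {α : Type*} [Fintype α] [DecidableEq α] {ι : α → Type*}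

/-- The exponent vector of the monomial `∏ a, X ⟨a, j a⟩`. -/
def transversal (j : (a : α) → ι a) : (Σ a, ι a) →₀ ℕ :=
  ∑ a, Finsupp.single (⟨a, j a⟩ : Σ a, ι a) 1

omit [DecidableEq α] in
theorem monomial_transversal (j : (a : α) → ι a) :
    (monomial (transversal j) (1 : k)) = ∏ a, X (⟨a, j a⟩ : Σ a, ι a) := by
  classical
  unfold transversal
  rw [MvPolynomial.monomial_sum_one]
  rfl

theorem weight_transversal (j : (a : α) → ι a) :
    Finsupp.weight (slotW (ι := ι)) (transversal j) = fun _ => 1 := by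
  classical
  unfold transversal
  rw [map_sum]
  funext b
  simp [Finsupp.weight_single, slotW, Finset.sum_apply, Pi.single_apply]

theorem transversal_le (d : (Σ a, ι a) →₀ ℕ) (j : (a : α) → ι a)
    (hj : ∀ a, d ⟨a, j a⟩ ≠ 0) : transversal j ≤ d := by
  classical
  intro s
  unfold transversal
  rw [Finsupp.finsetSum_apply]
  have : ∀ a ∈ (Finset.univ : Finset α),
      (Finsupp.single (⟨a, j a⟩ : Σ a, ι a) 1) s = if a = s.1 ∧ j s.1 = s.2 then 1 else 0 := by
    intro a _
    rw [Finsupp.single_apply]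
    by_cases h : (⟨a, j a⟩ : Σ a, ι a) = s
    · subst h
      simp
    · rw [if_neg h, if_neg]
      rintro ⟨rfl, h2⟩
      exact h (by cases s; simp_all)
  rw [Finset.sum_congr rfl this]
  by_cases h2 : j s.1 = s.2
  · simp only [h2, and_true]
    rw [Finset.sum_ite_eq' Finset.univ s.1 (fun _ => 1)]
    simp only [Finset.mem_univ, if_true]
    have := hj s.1
    rw [h2] at this
    exact Nat.one_le_iff_ne_zero.mpr (by cases s; simpa using this)
  · simp [h2]

/-- Every monomial whose degree in each slot is `N` is the Segre substitution of a monomial of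
degree `N`. -/
theorem exists_lift_monomial (N : ℕ) : ∀ d : (Σ a, ι a) →₀ ℕ,
    Finsupp.weight (slotW (ι := ι)) d = (fun _ => N) →
    ∃ e : ((a : α) → ι a) →₀ ℕ, e.degree = N ∧
      segreSubst k (monomial e (1 : k)) = monomial d 1 := by
  classical
  induction N with
  | zero =>
    intro d hd
    have hd0 : d = 0 := by
      ext s
      have := le_weight_slotW d s
      rw [hd] at this
      simpa using this
    subst hd0
    exact ⟨0, by simp, by simp⟩
  | succ N ih =>
    intro d hd
    have hex : ∀ a, ∃ j : ι a, d ⟨a, j⟩ ≠ 0 := fun a =>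
      exists_pos_of_weight_slotW_pos d a (by rw [hd]; exact Nat.succ_pos N)
    choose j hj using hex
    have hle := transversal_le d j hj
    obtain ⟨d', hd'⟩ : ∃ d', d = d' + transversal j := ⟨d - transversal j, by
      rw [tsub_add_cancel_of_le hle]⟩
    have hw' : Finsupp.weight (slotW (ι := ι)) d' = fun _ => N := by
      have h1 := hd
      rw [hd', map_add, weight_transversal] at h1
      funext a
      have := congrFun h1 a
      simp only [Pi.add_apply] at this
      omega
    obtain ⟨e', he', hs'⟩ := ih d' hw'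
    refine ⟨e' + Finsupp.single j 1, ?_, ?_⟩
    · rw [map_add, he']
      simp [Finsupp.degree_single]
    · have h2 : (monomial (e' + Finsupp.single j 1) (1 : k)) = monomial e' 1 * X j := by
        rw [X, monomial_mul, mul_one]
      rw [h2, map_mul, hs', segreSubst_X, ← monomial_transversal (k := k), monomial_mul, mul_one,
        ← hd']

/-- **Segre lift.**  A multihomogeneous polynomial of multidegree `(N, …, N)` is the Segre
substitution of a homogeneous polynomial of degree `N` in the Segre variables. -/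
theorem exists_segre_lift {N : ℕ} {p : MvPolynomial (Σ a, ι a) k}
    (hp : IsMultiHom p (fun _ => N)) :
    ∃ P : MvPolynomial ((a : α) → ι a) k, P.IsHomogeneous N ∧ segreSubst k P = p := by
  classical
  have hex : ∀ d : (Σ a, ι a) →₀ ℕ, ∃ e : ((a : α) → ι a) →₀ ℕ,
      d ∈ p.support → e.degree = N ∧ segreSubst k (monomial e (1 : k)) = monomial d 1 := by
    intro d
    by_cases hd : d ∈ p.support
    · obtain ⟨e, he⟩ := exists_lift_monomial (k := k) N d (hp (by simpa using hd))
      exact ⟨e, fun _ => he⟩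
    · exact ⟨0, fun h => absurd h hd⟩
  choose e he using hex
  refine ⟨∑ d ∈ p.support, C (coeff d p) * monomial (e d) 1, ?_, ?_⟩
  · refine IsHomogeneous.sum _ _ _ fun d hd => ?_
    have : (C (coeff d p) * monomial (e d) (1 : k)) = monomial (e d) (coeff d p) := by
      rw [C_mul_monomial, mul_one]
    rw [this]
    exact isHomogeneous_monomial _ (he d hd).1
  · rw [map_sum]
    conv_rhs => rw [← support_sum_monomial_coeff p]
    refine Finset.sum_congr rfl fun d hd => ?_
    rw [map_mul, (he d hd).2]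
    have hC : segreSubst (α := α) (ι := ι) k (C (coeff d p)) = C (coeff d p) := by
      simp [segreSubst]
    rw [hC, C_mul_monomial, mul_one]

end Lift

end Fermat.Agent.S17.H740

end
end
-- ===== PACK-END S17/H740/SegreLift.lean

-- ===== PACK-BEGIN S17/H830/AbsLocal.lean
section


/-!
# S17 / tower H, piece ABS (helper830), part 1: local lemmas

`v` is a nonarchimedean absolute value on a field `Ω` of characteristic zero with
`v p = p⁻¹` for a prime number `p`.

* `abv_le_one_of_isIntegral` : integral elements have absolute value `≤ 1`;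
* `abv_natCast_prime_ne` : `v ℓ = 1` for primes `ℓ ≠ p`;
* `abv_natCast_eq` : `v n = p ^ (-(n.factorization p))` for `n ≠ 0`;
* `abv_eq_one_of_prod_eq_one` : if finitely many factors `≤ 1` have product `1`, each is `1`.
-/

set_option autoImplicit false

noncomputable section

namespace Fermat.Agent.S17.H830

section Local

variable {Ω : Type*} [Field Ω]

/-- Integral elements have absolute value at most one for a nonarchimedean absolute value. -/
theorem abv_le_one_of_isIntegral {v : AbsoluteValue Ω ℝ} (hv : IsNonarchimedean v)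
    {x : Ω} (hx : IsIntegral ℤ x) : v x ≤ 1 := by
  by_contra hlt
  rw [not_le] at hlt
  obtain ⟨P, hmonic, hP⟩ := hx
  have hx0 : x ≠ 0 := by
    rintro rfl
    simp at hlt
    linarith
  set n := P.natDegree with hn
  -- `x ^ n = - ∑ i < n, a i * x ^ i`
  have hsum : x ^ n = - ∑ i ∈ Finset.range n, ((P.coeff i : ℤ) : Ω) * x ^ i := by
    have h1 : Polynomial.eval₂ (algebraMap ℤ Ω) x P = 0 := hP
    rw [Polynomial.eval₂_eq_sum_range, Finset.sum_range_succ, ← hn] at h1
    have h2 : P.coeff n = 1 := hmonic.coeff_natDegree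
    rw [h2] at h1
    simp only [algebraMap_int_eq, eq_intCast, Int.cast_one, one_mul] at h1
    have := eq_neg_of_add_eq_zero_right h1
    rw [this]
  have hle : v (x ^ n) ≤ v x ^ (n - 1) := by
    rw [hsum, map_neg_eq_map]
    rcases Nat.eq_zero_or_pos n with h0 | hpos
    · simp [h0]
    have hne : (Finset.range n).Nonempty := Finset.nonempty_range_iff.mpr hpos.ne'
    obtain ⟨i, hi, hi'⟩ := hv.finset_image_add_of_nonempty
      (fun i => ((P.coeff i : ℤ) : Ω) * x ^ i) hne
    refine hi'.trans ?_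
    rw [map_mul, map_pow]
    have h1 : v ((P.coeff i : ℤ) : Ω) ≤ 1 := hv.apply_intCast_le_one
    have h2 : v x ^ i ≤ v x ^ (n - 1) :=
      pow_le_pow_right₀ hlt.le (Nat.le_sub_one_of_lt (Finset.mem_range.mp hi))
    calc v ((P.coeff i : ℤ) : Ω) * v x ^ i ≤ 1 * v x ^ (n - 1) :=
          mul_le_mul h1 h2 (by positivity) zero_le_one
      _ = v x ^ (n - 1) := one_mul _
  rw [map_pow] at hle
  rcases Nat.eq_zero_or_pos n with h0 | hpos
  · -- degree zero: `P = 1`, impossible
    have : P = 1 := by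
      have := Polynomial.eq_C_of_natDegree_eq_zero (hn ▸ h0)
      rw [this]
      have h2 : P.coeff 0 = 1 := by
        have := hmonic.coeff_natDegree
        rwa [← hn, h0] at this
      rw [h2]; simp
    rw [this] at hP
    simp at hP
  · have h3 : v x ^ (n - 1) < v x ^ n :=
      pow_lt_pow_right₀ hlt (Nat.sub_lt hpos Nat.one_pos)
    linarith

/-- `v ℓ = 1` for a prime `ℓ ≠ p` when `v` is nonarchimedean with `v p < 1`. -/
theorem abv_natCast_prime_ne {v : AbsoluteValue Ω ℝ} (hv : IsNonarchimedean v)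
    {p : ℕ} (hp : p.Prime) (hvp : v (p : Ω) < 1) {ℓ : ℕ} (hℓ : ℓ.Prime) (hne : ℓ ≠ p) :
    v (ℓ : Ω) = 1 := by
  refine le_antisymm hv.apply_natCast_le_one ?_
  by_contra hlt
  rw [not_le] at hlt
  have hcop : IsCoprime (ℓ : ℤ) (p : ℤ) := by
    rw [Int.isCoprime_iff_gcd_eq_one, Int.gcd_natCast_natCast]
    exact (Nat.coprime_primes hℓ hp).mpr hne
  obtain ⟨a, b, hab⟩ := hcop
  have h1 : (1 : Ω) = (a : Ω) * (ℓ : Ω) + (b : Ω) * (p : Ω) := by
    have := congrArg (fun z : ℤ => (z : Ω)) hab
    simp only [Int.cast_add, Int.cast_mul, Int.cast_natCast, Int.cast_one] at this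
    exact this.symm
  have h2 : v (1 : Ω) ≤ max (v ((a : Ω) * (ℓ : Ω))) (v ((b : Ω) * (p : Ω))) := by
    conv_lhs => rw [h1]
    exact hv _ _
  rw [map_one, map_mul, map_mul] at h2
  have ha : v (a : Ω) ≤ 1 := hv.apply_intCast_le_one
  have hb : v (b : Ω) ≤ 1 := hv.apply_intCast_le_one
  have h3 : v (a : Ω) * v (ℓ : Ω) < 1 := by
    calc v (a : Ω) * v (ℓ : Ω) ≤ 1 * v (ℓ : Ω) :=
          mul_le_mul_of_nonneg_right ha (by positivity)
      _ < 1 := by rw [one_mul]; exact hlt
  have h4 : v (b : Ω) * v (p : Ω) < 1 := by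
    calc v (b : Ω) * v (p : Ω) ≤ 1 * v (p : Ω) :=
          mul_le_mul_of_nonneg_right hb (by positivity)
      _ < 1 := by rw [one_mul]; exact hvp
  have := max_lt h3 h4
  linarith

/-- The value of a normalised `p`-adic absolute value on natural numbers. -/
theorem abv_natCast_eq {v : AbsoluteValue Ω ℝ} (hv : IsNonarchimedean v)
    {p : ℕ} (hp : p.Prime) (hvp : v (p : Ω) = (p : ℝ)⁻¹) {n : ℕ} (hn : n ≠ 0) :
    v (n : Ω) = ((p : ℝ)⁻¹) ^ (n.factorization p) := by
  have hp1 : v (p : Ω) < 1 := by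
    rw [hvp]
    exact inv_lt_one_of_one_lt₀ (by exact_mod_cast hp.one_lt)
  induction n using Nat.recOnMul with
  | zero => exact absurd rfl hn
  | one => simp
  | prime q hq =>
    by_cases hqp : q = p
    · subst hqp
      simp [hvp, hq.factorization_self]
    · rw [abv_natCast_prime_ne hv hp hp1 hq hqp]
      have : q.factorization p = 0 := by
        rw [hq.factorization]
        simp [hqp]
      rw [this, pow_zero]
  | mul a b iha ihb =>
    have ha : a ≠ 0 := fun h => hn (by simp [h])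
    have hb : b ≠ 0 := fun h => hn (by simp [h])
    rw [Nat.cast_mul, map_mul, iha ha, ihb hb, Nat.factorization_mul ha hb, Finsupp.add_apply,
      pow_add]

/-- If finitely many real numbers in `[0, 1]` have product `1`, each of them is `1`. -/
theorem eq_one_of_prod_eq_one {α : Type*} (s : Finset α) (f : α → ℝ)
    (h0 : ∀ a ∈ s, 0 ≤ f a) (h1 : ∀ a ∈ s, f a ≤ 1) (hprod : ∏ a ∈ s, f a = 1) :
    ∀ a ∈ s, f a = 1 := by
  classical
  intro a ha
  refine le_antisymm (h1 a ha) ?_
  by_contra hlt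
  rw [not_le] at hlt
  have h2 : ∏ b ∈ s, f b = f a * ∏ b ∈ s.erase a, f b := (Finset.mul_prod_erase s f ha).symm
  have h3 : ∏ b ∈ s.erase a, f b ≤ 1 :=
    Finset.prod_le_one (fun b hb => h0 b (Finset.mem_of_mem_erase hb))
      (fun b hb => h1 b (Finset.mem_of_mem_erase hb))
  have h4 : 0 ≤ ∏ b ∈ s.erase a, f b :=
    Finset.prod_nonneg (fun b hb => h0 b (Finset.mem_of_mem_erase hb))
  have h5 : f a * ∏ b ∈ s.erase a, f b ≤ f a * 1 :=
    mul_le_mul_of_nonneg_left h3 (h0 a ha)
  rw [hprod] at h2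
  linarith

/-- `∏ p, p ^ (-(v_p n)) = n⁻¹` as a `finprod` over all primes. -/
theorem finprod_primes_inv_pow_factorization {n : ℕ} (hn : n ≠ 0) :
    ∏ᶠ p : Nat.Primes, (((p : ℕ) : ℝ)⁻¹) ^ (n.factorization p) = (n : ℝ)⁻¹ := by
  classical
  let e : {q // q ∈ n.primeFactors} → Nat.Primes :=
    fun q => ⟨q.1, Nat.prime_of_mem_primeFactors q.2⟩
  have he : Function.Injective e := by
    intro a b hab
    have := congrArg (fun z : Nat.Primes => (z : ℕ)) hab
    exact Subtype.ext this
  set s : Finset Nat.Primes := n.primeFactors.attach.map ⟨e, he⟩ with hs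
  have hsupp : Function.mulSupport (fun p : Nat.Primes => (((p : ℕ) : ℝ)⁻¹) ^ (n.factorization p))
      ⊆ (s : Set Nat.Primes) := by
    intro p hp
    simp only [Function.mem_mulSupport, ne_eq] at hp
    have hdvd : (p : ℕ) ∣ n := by
      by_contra hdvd
      apply hp
      rw [Nat.factorization_eq_zero_of_not_dvd hdvd, pow_zero]
    have hmem : (p : ℕ) ∈ n.primeFactors := Nat.mem_primeFactors.mpr ⟨p.2, hdvd, hn⟩
    rw [hs, Finset.coe_map, Set.mem_image]
    exact ⟨⟨p, hmem⟩, by simp, rfl⟩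
  rw [finprod_eq_prod_of_mulSupport_subset _ hsupp, hs, Finset.prod_map]
  have hcongr : ∀ x ∈ n.primeFactors.attach,
      ((((⟨e, he⟩ : _ ↪ Nat.Primes) x : Nat.Primes) : ℕ) : ℝ)⁻¹ ^
        (n.factorization (((⟨e, he⟩ : _ ↪ Nat.Primes) x : Nat.Primes) : ℕ)) =
      (fun q : ℕ => ((q : ℝ)⁻¹) ^ (n.factorization q)) x.1 := fun _ _ => rfl
  rw [Finset.prod_congr rfl hcongr,
    Finset.prod_attach n.primeFactors (fun q => (((q : ℕ) : ℝ)⁻¹) ^ (n.factorization q))]
  have h1 : (n : ℝ) = ∏ p ∈ n.primeFactors, ((p : ℝ)) ^ (n.factorization p) := by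
    conv_lhs => rw [← Nat.prod_factorization_pow_eq_self hn]
    rw [Finsupp.prod, Nat.support_factorization]
    push_cast
    rfl
  rw [h1, ← Finset.prod_inv_distrib]
  refine Finset.prod_congr rfl fun p _ => ?_
  rw [inv_pow]

end Local

end Fermat.Agent.S17.H830

end
end
-- ===== PACK-END S17/H830/AbsLocal.lean

-- ===== PACK-BEGIN S15/H62/Constituents.lean
section


/-!
# S15 / DESC piece D3a (helper62): constituents of an "Eisenstein" Galois module

Abstract, Mathlib-only.  Let `r` be a prime, `V` a finite `𝔽_r[G]`-module and `χ : G → 𝔽_r^×` a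
character such that for every `g ∈ G` the operator `(g - 1)(g - χ(g))` is nilpotent on `V`.
(For `V = J₀(p)[r]_𝔓`, `𝔓 = (I, r)` an Eisenstein prime, `χ` the mod `r` cyclotomic character:
Eichler–Shimura gives `F² - T_ℓ F + ℓ = 0` for a Frobenius `F` at `ℓ`, `T_ℓ - 1 - ℓ` is nilpotent
on `V`, and by Chebotarev every `g` is a Frobenius.)  Then

* `exists_eigenline_of_nilpotent` : if `V ≠ 0` there is `v ≠ 0` on which `G` acts trivially, or on
  which `G` acts through `χ`;
* `exists_eigenline` : the same when `(g - 1)(g - χ(g)) = 0` (elementwise form);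
* `exists_flag` : `V` has a `G`-stable full flag `0 = F 0 < F 1 < ... < F n = V`,
  `F (i+1) = F i + 𝔽_r u_i`, and `G` acts on `u_i` modulo `F i` trivially (`ε i = false`) or
  through `χ` (`ε i = true`): all Jordan–Hölder constituents are `ℤ/r` or `μ_r`.
-/

set_option autoImplicit false

namespace Fermat.Agent.S15.H62

open Module

section Fixed

variable {r : ℕ} [Fact r.Prime] {G V : Type*} [Group G] [AddCommGroup V] [Module (ZMod r) V]

/-- The endomorphism ring of a nonzero `𝔽_r`-vector space has characteristic `r`. -/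
theorem charP_end [Nontrivial V] : CharP (Module.End (ZMod r) V) r :=
  charP_of_injective_algebraMap (algebraMap (ZMod r) (Module.End (ZMod r) V)).injective r

/-- A unipotent endomorphism of an `𝔽_r`-vector space has `r`-power order. -/
theorem exists_pow_char_pow_eq_one [Nontrivial V] (u : Module.End (ZMod r) V)
    (hu : IsNilpotent (u - 1)) : ∃ k : ℕ, u ^ r ^ k = 1 := by
  have := charP_end (r := r) (V := V)
  obtain ⟨N, hN⟩ := hu
  refine ⟨N, ?_⟩
  have hlt : N < r ^ N := Nat.lt_pow_self (Fact.out : r.Prime).one_lt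
  have h0 : (u - 1) ^ r ^ N = 0 := pow_eq_zero_of_le hlt.le hN
  have hc : Commute (u - 1) (1 : Module.End (ZMod r) V) := Commute.one_right _
  have := add_pow_char_pow_of_commute r N hc
  rw [sub_add_cancel, h0, one_pow, zero_add] at this
  exact this

/-- The characteristic divides the cardinality of a nontrivial finite `𝔽_r`-vector space. -/
theorem char_dvd_natCard [Finite V] [Nontrivial V] : r ∣ Nat.card V := by
  obtain ⟨v, hv⟩ := exists_ne (0 : V)
  have hr : r • v = 0 := by
    rw [← Nat.cast_smul_eq_nsmul (ZMod r), ZMod.natCast_self, zero_smul]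
  have h1 : addOrderOf v ∣ r := addOrderOf_dvd_of_nsmul_eq_zero hr
  have h2 : addOrderOf v ≠ 1 := by
    intro h
    exact hv (AddMonoid.addOrderOf_eq_one_iff.mp h)
  have h3 : addOrderOf v = r := ((Nat.dvd_prime (Fact.out : r.Prime)).mp h1).resolve_left h2
  rw [← h3]
  exact addOrderOf_dvd_natCard v

/-- **Kolchin for finite `𝔽_r`-vector spaces.** A group acting on a nonzero finite
`𝔽_r`-vector space by unipotent operators has a nonzero fixed vector. -/
theorem exists_fixed_of_unipotent [Finite V] [Nontrivial V] (ρ : Representation (ZMod r) G V)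
    (H : Subgroup G) (hH : ∀ h ∈ H, IsNilpotent (ρ h - 1)) :
    ∃ v : V, v ≠ 0 ∧ ∀ h ∈ H, ρ h v = v := by
  classical
  let φ : G →* (Module.End (ZMod r) V)ˣ := MonoidHom.toHomUnits ρ
  have hφ : ∀ g : G, ((φ g : (Module.End (ZMod r) V)ˣ) : Module.End (ZMod r) V) = ρ g :=
    fun g => rfl
  let P : Subgroup (Module.End (ZMod r) V)ˣ := H.map φ
  have hP : IsPGroup r P := by
    rintro ⟨u, hu⟩
    obtain ⟨h, hh, rfl⟩ := hu
    obtain ⟨k, hk⟩ := exists_pow_char_pow_eq_one (ρ h) (hH h hh)
    refine ⟨k, ?_⟩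
    apply Subtype.ext
    apply Units.ext
    simp only [SubgroupClass.coe_pow, Units.val_pow_eq_pow_val, hφ, OneMemClass.coe_one,
      Units.val_one]
    exact hk
  have h0 : (0 : V) ∈ MulAction.fixedPoints P V := by
    intro u
    exact smul_zero u
  obtain ⟨b, hb, hb0⟩ :=
    hP.exists_fixed_point_of_prime_dvd_card_of_fixed_point V char_dvd_natCard h0
  refine ⟨b, fun h => hb0 h.symm, fun h hh => ?_⟩
  have := hb ⟨φ h, h, hh, rfl⟩
  exact this

/-- For a locally nilpotent operator `B` and `x ≠ 0` some `B ^ i x` is a nonzero element of the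
kernel of `B`. -/
theorem exists_pow_apply_ne_zero_of_nilpotent (B : Module.End (ZMod r) V) {x : V} (hx : x ≠ 0)
    {N : ℕ} (hN : (B ^ N) x = 0) : ∃ i : ℕ, (B ^ i) x ≠ 0 ∧ B ((B ^ i) x) = 0 := by
  classical
  have hex : ∃ n, (B ^ n) x = 0 := ⟨N, hN⟩
  have hpos : Nat.find hex ≠ 0 := by
    intro h0
    have := Nat.find_spec hex
    rw [h0, pow_zero, Module.End.one_apply] at this
    exact hx this
  obtain ⟨i, hi⟩ := Nat.exists_eq_succ_of_ne_zero hpos
  refine ⟨i, ?_, ?_⟩
  · exact Nat.find_min hex (by omega)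
  · have := Nat.find_spec hex
    rw [hi, pow_succ', Module.End.mul_apply] at this
    exact this

end Fixed

section Eigenline

variable {r : ℕ} [Fact r.Prime] {G V : Type*} [Group G] [AddCommGroup V] [Module (ZMod r) V]

/-- The subgroup of `G` acting on the vector `u` through the character `ψ`. -/
def actsThrough (ρ : Representation (ZMod r) G V) (ψ : G →* (ZMod r)ˣ) (u : V) : Subgroup G where
  carrier := {g | ρ g u = ((ψ g : (ZMod r)ˣ) : ZMod r) • u}
  one_mem' := by simp
  mul_mem' := by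
    intro a b ha hb
    change ρ a u = ((ψ a : (ZMod r)ˣ) : ZMod r) • u at ha
    change ρ b u = ((ψ b : (ZMod r)ˣ) : ZMod r) • u at hb
    change ρ (a * b) u = ((ψ (a * b) : (ZMod r)ˣ) : ZMod r) • u
    rw [map_mul, Module.End.mul_apply, hb, map_smul, ha, map_mul, Units.val_mul, mul_smul,
      smul_comm]
  inv_mem' := by
    intro a ha
    change ρ a u = ((ψ a : (ZMod r)ˣ) : ZMod r) • u at ha
    change ρ a⁻¹ u = ((ψ a⁻¹ : (ZMod r)ˣ) : ZMod r) • u
    have h1 : ρ a⁻¹ (ρ a u) = u := by
      rw [← Module.End.mul_apply, ← map_mul, inv_mul_cancel, map_one, Module.End.one_apply]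
    rw [ha, map_smul] at h1
    have h2 : ((ψ a⁻¹ : (ZMod r)ˣ) : ZMod r) * ((ψ a : (ZMod r)ˣ) : ZMod r) = 1 := by
      rw [← Units.val_mul, ← map_mul, inv_mul_cancel, map_one, Units.val_one]
    calc ρ a⁻¹ u = (((ψ a⁻¹ : (ZMod r)ˣ) : ZMod r) * ((ψ a : (ZMod r)ˣ) : ZMod r)) • ρ a⁻¹ u := by
          rw [h2, one_smul]
      _ = ((ψ a⁻¹ : (ZMod r)ˣ) : ZMod r) • u := by rw [mul_smul, h1]

theorem mem_actsThrough {ρ : Representation (ZMod r) G V} {ψ : G →* (ZMod r)ˣ} {u : V} {g : G} :
    g ∈ actsThrough ρ ψ u ↔ ρ g u = ((ψ g : (ZMod r)ˣ) : ZMod r) • u := Iff.rfl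

/-- The "Eisenstein operator" `(g - 1)(g - χ(g))` of `g`. -/
def eisOp (ρ : Representation (ZMod r) G V) (χ : G →* (ZMod r)ˣ) (g : G) :
    Module.End (ZMod r) V :=
  (ρ g - 1) * (ρ g - algebraMap (ZMod r) (Module.End (ZMod r) V) ((χ g : (ZMod r)ˣ) : ZMod r))

theorem eisOp_apply (ρ : Representation (ZMod r) G V) (χ : G →* (ZMod r)ˣ) (g : G) (v : V) :
    eisOp ρ χ g v
      = ρ g (ρ g v) - ρ g v - ((χ g : (ZMod r)ˣ) : ZMod r) • (ρ g v - v) := by
  simp only [eisOp, Module.End.mul_apply, LinearMap.sub_apply, Module.End.one_apply, map_sub,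
    Module.algebraMap_end_apply, map_smul, smul_sub]

/-- **Constituents lemma (D3a), nilpotent form.**  If for every `g` the operator
`(g - 1)(g - χ(g))` is nilpotent on the nonzero finite `𝔽_r[G]`-module `V`, then `V` contains a
nonzero vector on which `G` acts trivially, or one on which `G` acts through `χ`. -/
theorem exists_eigenline_of_nilpotent [Finite V] [Nontrivial V]
    (ρ : Representation (ZMod r) G V) (χ : G →* (ZMod r)ˣ)
    (h : ∀ g : G, IsNilpotent (eisOp ρ χ g)) :
    ∃ v : V, v ≠ 0 ∧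
      ((∀ g, ρ g v = v) ∨ (∀ g, ρ g v = ((χ g : (ZMod r)ˣ) : ZMod r) • v)) := by
  classical
  -- Step 1: a nonzero vector fixed by `H = ker χ`.
  have hH : ∀ g ∈ χ.ker, IsNilpotent (ρ g - 1) := by
    intro g hg
    have hg1 : χ g = 1 := hg
    obtain ⟨N, hN⟩ := h g
    rw [eisOp, hg1, Units.val_one, map_one, ← pow_two, ← pow_mul] at hN
    exact ⟨2 * N, hN⟩
  obtain ⟨v, hv0, hv⟩ := exists_fixed_of_unipotent ρ χ.ker hH
  -- the `H`-fixed vectors are stable under `G`
  have hstab : ∀ (g : G) (w : V), (∀ x ∈ χ.ker, ρ x w = w) → ∀ x ∈ χ.ker, ρ x (ρ g w) = ρ g w := by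
    intro g w hw x hx
    have hx' : g⁻¹ * x * g ∈ χ.ker := by
      have : χ.ker.Normal := inferInstance
      have := this.conj_mem x hx g⁻¹
      simpa using this
    have := hw _ hx'
    calc ρ x (ρ g w) = ρ g (ρ (g⁻¹ * x * g) w) := by
          rw [← Module.End.mul_apply, ← Module.End.mul_apply, ← map_mul, ← map_mul]
          congr 2
          group
      _ = ρ g w := by rw [this]
  -- Step 2: a generator of the image of `χ`.
  obtain ⟨⟨y, g₀, rfl⟩, hy⟩ := (IsCyclic.exists_generator (α := χ.range))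
  have hgen : ∀ g : G, ∃ k : ℤ, χ g = χ g₀ ^ k := by
    intro g
    have := hy ⟨χ g, g, rfl⟩
    obtain ⟨k, hk⟩ := Subgroup.mem_zpowers_iff.mp this
    refine ⟨k, ?_⟩
    have := congrArg Subtype.val hk
    simpa using this.symm
  -- Step 3: from an eigenvector of `g₀` fixed by `H` to a `G`-eigenvector.
  have key : ∀ (ψ : G →* (ZMod r)ˣ) (u : V), χ.ker ≤ ψ.ker → (∀ x ∈ χ.ker, ρ x u = u) →
      ρ g₀ u = ((ψ g₀ : (ZMod r)ˣ) : ZMod r) • u →
      ∀ g, ρ g u = ((ψ g : (ZMod r)ˣ) : ZMod r) • u := by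
    intro ψ u hker hu hg₀ g
    obtain ⟨k, hk⟩ := hgen g
    have h1 : g₀ ∈ actsThrough ρ ψ u := hg₀
    have h2 : g * (g₀ ^ k)⁻¹ ∈ χ.ker := by
      rw [MonoidHom.mem_ker, map_mul, map_inv, map_zpow, hk, mul_inv_cancel]
    have h3 : g * (g₀ ^ k)⁻¹ ∈ actsThrough ρ ψ u := by
      rw [mem_actsThrough, hu _ h2]
      have : ψ (g * (g₀ ^ k)⁻¹) = 1 := hker h2
      rw [this, Units.val_one, one_smul]
    have h4 : g = g * (g₀ ^ k)⁻¹ * g₀ ^ k := by group
    rw [h4]
    exact (actsThrough ρ ψ u).mul_mem h3 ((actsThrough ρ ψ u).zpow_mem h1 k)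
  -- Step 4: an eigenvector of `g₀` among the `H`-fixed vectors.
  set c : ZMod r := ((χ g₀ : (ZMod r)ˣ) : ZMod r) with hc
  set B₁ : Module.End (ZMod r) V := ρ g₀ - 1 with hB₁
  set Bc : Module.End (ZMod r) V := ρ g₀ - algebraMap (ZMod r) (Module.End (ZMod r) V) c with hBc
  have hB₁fix : ∀ w : V, (∀ x ∈ χ.ker, ρ x w = w) → ∀ x ∈ χ.ker, ρ x (B₁ w) = B₁ w := by
    intro w hw x hx
    rw [hB₁, LinearMap.sub_apply, Module.End.one_apply, map_sub, hstab g₀ w hw x hx, hw x hx]
  have hBcfix : ∀ w : V, (∀ x ∈ χ.ker, ρ x w = w) → ∀ x ∈ χ.ker, ρ x (Bc w) = Bc w := by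
    intro w hw x hx
    rw [hBc, LinearMap.sub_apply, Module.algebraMap_end_apply, map_sub, map_smul,
      hstab g₀ w hw x hx, hw x hx]
  have hpowfix : ∀ (B : Module.End (ZMod r) V),
      (∀ w : V, (∀ x ∈ χ.ker, ρ x w = w) → ∀ x ∈ χ.ker, ρ x (B w) = B w) →
      ∀ (i : ℕ) (w : V), (∀ x ∈ χ.ker, ρ x w = w) → ∀ x ∈ χ.ker, ρ x ((B ^ i) w) = (B ^ i) w := by
    intro B hB i
    induction i with
    | zero => intro w hw x hx; simpa using hw x hx
    | succ i ih =>
      intro w hw x hx
      rw [pow_succ', Module.End.mul_apply]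
      exact hB _ (ih w hw) x hx
  have hcomm : Commute B₁ Bc := by
    rw [hB₁, hBc]
    refine Commute.sub_left ?_ ?_
    · exact Commute.sub_right (Commute.refl _) (Algebra.commutes' _ _).symm
    · exact Commute.one_left _
  obtain ⟨N, hN⟩ := h g₀
  rw [eisOp, ← hc, ← hB₁, ← hBc, hcomm.mul_pow] at hN
  by_cases hcase : (Bc ^ N) v = 0
  · -- an eigenvector for `χ`
    obtain ⟨i, hi0, hi⟩ := exists_pow_apply_ne_zero_of_nilpotent Bc hv0 hcase
    refine ⟨(Bc ^ i) v, hi0, Or.inr ?_⟩
    refine key χ _ le_rfl (hpowfix Bc hBcfix i v hv) ?_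
    rw [hBc, LinearMap.sub_apply, Module.algebraMap_end_apply, sub_eq_zero] at hi
    exact hi
  · -- an eigenvector for the trivial character
    have hN' : (B₁ ^ N) ((Bc ^ N) v) = 0 := by
      rw [← Module.End.mul_apply, hN, LinearMap.zero_apply]
    obtain ⟨i, hi0, hi⟩ := exists_pow_apply_ne_zero_of_nilpotent B₁ hcase hN'
    refine ⟨(B₁ ^ i) ((Bc ^ N) v), hi0, Or.inl fun g => ?_⟩
    have hfixed := hpowfix B₁ hB₁fix i _ (hpowfix Bc hBcfix N v hv)
    rw [hB₁, LinearMap.sub_apply, Module.End.one_apply, sub_eq_zero] at hi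
    have := key 1 _ (fun x _ => by simp) hfixed (by simpa using hi) g
    simpa using this

/-- **Constituents lemma (D3a), elementwise form.** -/
theorem exists_eigenline [Finite V] [Nontrivial V] (ρ : Representation (ZMod r) G V)
    (χ : G →* (ZMod r)ˣ)
    (h : ∀ (g : G) (v : V), ρ g (ρ g v) - ρ g v - ((χ g : (ZMod r)ˣ) : ZMod r) • (ρ g v - v) = 0) :
    ∃ v : V, v ≠ 0 ∧
      ((∀ g, ρ g v = v) ∨ (∀ g, ρ g v = ((χ g : (ZMod r)ˣ) : ZMod r) • v)) := by
  refine exists_eigenline_of_nilpotent ρ χ fun g => ⟨1, ?_⟩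
  ext v
  rw [pow_one, eisOp_apply, h g v, LinearMap.zero_apply]

end Eigenline

section Flag

variable {r : ℕ} [Fact r.Prime] {G V : Type*} [Group G] [AddCommGroup V] [Module (ZMod r) V]

/-- The representation induced on the quotient by a stable submodule. -/
def quotRep (ρ : Representation (ZMod r) G V) (L : Submodule (ZMod r) V)
    (hL : ∀ g, L ≤ L.comap (ρ g)) : Representation (ZMod r) G (V ⧸ L) where
  toFun g := L.mapQ L (ρ g) (hL g)
  map_one' := by
    refine LinearMap.ext fun x => ?_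
    obtain ⟨v, rfl⟩ := L.mkQ_surjective x
    simp
  map_mul' a b := by
    refine LinearMap.ext fun x => ?_
    obtain ⟨v, rfl⟩ := L.mkQ_surjective x
    simp

@[simp]
theorem quotRep_mk (ρ : Representation (ZMod r) G V) (L : Submodule (ZMod r) V)
    (hL : ∀ g, L ≤ L.comap (ρ g)) (g : G) (v : V) :
    quotRep ρ L hL g (Submodule.Quotient.mk v) = Submodule.Quotient.mk (ρ g v) := rfl

theorem eisOp_quotRep_mk (ρ : Representation (ZMod r) G V) (χ : G →* (ZMod r)ˣ)
    (L : Submodule (ZMod r) V) (hL : ∀ g, L ≤ L.comap (ρ g)) (g : G) (v : V) :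
    eisOp (quotRep ρ L hL) χ g (Submodule.Quotient.mk v)
      = Submodule.Quotient.mk (eisOp ρ χ g v) := by
  rw [eisOp_apply, eisOp_apply]
  simp only [quotRep_mk, ← Submodule.Quotient.mk_sub, ← Submodule.Quotient.mk_smul]

theorem eisOp_quotRep_pow_mk (ρ : Representation (ZMod r) G V) (χ : G →* (ZMod r)ˣ)
    (L : Submodule (ZMod r) V) (hL : ∀ g, L ≤ L.comap (ρ g)) (g : G) (N : ℕ) (v : V) :
    (eisOp (quotRep ρ L hL) χ g ^ N) (Submodule.Quotient.mk v)
      = Submodule.Quotient.mk ((eisOp ρ χ g ^ N) v) := by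
  induction N generalizing v with
  | zero => simp
  | succ N ih =>
    rw [pow_succ, Module.End.mul_apply, eisOp_quotRep_mk, ih, pow_succ (eisOp ρ χ g),
      Module.End.mul_apply]

theorem isNilpotent_eisOp_quotRep (ρ : Representation (ZMod r) G V) (χ : G →* (ZMod r)ˣ)
    (L : Submodule (ZMod r) V) (hL : ∀ g, L ≤ L.comap (ρ g)) (g : G)
    (h : IsNilpotent (eisOp ρ χ g)) : IsNilpotent (eisOp (quotRep ρ L hL) χ g) := by
  obtain ⟨N, hN⟩ := h
  refine ⟨N, LinearMap.ext fun x => ?_⟩
  obtain ⟨v, rfl⟩ := L.mkQ_surjective x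
  change (eisOp (quotRep ρ L hL) χ g ^ N) (Submodule.Quotient.mk v) = 0
  rw [eisOp_quotRep_pow_mk, hN, LinearMap.zero_apply, Submodule.Quotient.mk_zero]

/-- A full flag from `L` to `⊤` with one-dimensional steps of type `𝟙` (`ε i = false`) or `χ`
(`ε i = true`). -/
def HasFlagFrom (ρ : Representation (ZMod r) G V) (χ : G →* (ZMod r)ˣ)
    (L : Submodule (ZMod r) V) : Prop :=
  ∃ (n : ℕ) (F : ℕ → Submodule (ZMod r) V) (u : ℕ → V) (ε : ℕ → Bool),
    F 0 = L ∧ F n = ⊤ ∧
    (∀ i < n, F (i + 1) = F i ⊔ Submodule.span (ZMod r) {u i}) ∧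
    (∀ i < n, u i ∉ F i) ∧
    (∀ i < n, ∀ g, ρ g (u i) - (if ε i then ((χ g : (ZMod r)ˣ) : ZMod r) else 1) • u i ∈ F i)

/-- In a flag all terms are stable under `G` (if the first one is). -/
theorem HasFlagFrom.stable_step (ρ : Representation (ZMod r) G V) {L : Submodule (ZMod r) V}
    (hL : ∀ g, L ≤ L.comap (ρ g)) {u : V} {e : G → ZMod r} (hu : ∀ g, ρ g u - e g • u ∈ L) :
    ∀ g, L ⊔ Submodule.span (ZMod r) {u} ≤ (L ⊔ Submodule.span (ZMod r) {u}).comap (ρ g) := by
  intro g w hw
  rw [Submodule.mem_comap]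
  obtain ⟨l, hl, s, hs, rfl⟩ := Submodule.mem_sup.mp hw
  obtain ⟨a, rfl⟩ := Submodule.mem_span_singleton.mp hs
  rw [map_add, map_smul]
  have h1 : ρ g l ∈ L := hL g hl
  have h2 : ρ g u = (ρ g u - e g • u) + e g • u := by abel
  rw [h2, smul_add]
  refine Submodule.add_mem _ (Submodule.mem_sup_left h1) (Submodule.add_mem _ ?_ ?_)
  · exact Submodule.mem_sup_left (L.smul_mem a (hu g))
  · exact Submodule.mem_sup_right
      (Submodule.smul_mem _ _ (Submodule.smul_mem _ _ (Submodule.mem_span_singleton_self u)))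

theorem hasFlagFrom_of_stable [Finite V] (ρ : Representation (ZMod r) G V) (χ : G →* (ZMod r)ˣ)
    (h : ∀ g : G, IsNilpotent (eisOp ρ χ g)) (L : Submodule (ZMod r) V)
    (hL : ∀ g, L ≤ L.comap (ρ g)) : HasFlagFrom ρ χ L := by
  classical
  have : WellFoundedGT (Submodule (ZMod r) V) := inferInstance
  induction L using WellFoundedGT.induction with
  | ind L ih =>
    by_cases htop : L = ⊤
    · subst htop
      exact ⟨0, fun _ => ⊤, fun _ => 0, fun _ => false, rfl, rfl, by simp, by simp, by simp⟩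
    · have : Nontrivial (V ⧸ L) := Submodule.Quotient.nontrivial_iff.mpr htop
      have : Finite (V ⧸ L) := Finite.of_surjective _ L.mkQ_surjective
      obtain ⟨x, hx0, hx⟩ := exists_eigenline_of_nilpotent (quotRep ρ L hL) χ
        (fun g => isNilpotent_eisOp_quotRep ρ χ L hL g (h g))
      obtain ⟨v, rfl⟩ := L.mkQ_surjective x
      have hvL : v ∉ L := fun hv => hx0 ((Submodule.Quotient.mk_eq_zero L).mpr hv)
      -- the type of the new step
      obtain ⟨e, he⟩ : ∃ e : Bool, ∀ g,
          ρ g v - (if e then ((χ g : (ZMod r)ˣ) : ZMod r) else 1) • v ∈ L := by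
        rcases hx with hx | hx
        · refine ⟨false, fun g => ?_⟩
          have := hx g
          rw [Submodule.mkQ_apply, quotRep_mk] at this
          rw [← Submodule.Quotient.mk_eq_zero L, Submodule.Quotient.mk_sub, this]
          simp
        · refine ⟨true, fun g => ?_⟩
          have := hx g
          rw [Submodule.mkQ_apply, quotRep_mk] at this
          rw [← Submodule.Quotient.mk_eq_zero L, Submodule.Quotient.mk_sub, this]
          simp
      set L' := L ⊔ Submodule.span (ZMod r) {v} with hL'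
      have hlt : L < L' := by
        refine lt_of_le_of_ne le_sup_left fun heq => hvL ?_
        rw [heq]
        exact Submodule.mem_sup_right (Submodule.mem_span_singleton_self v)
      have hL'stab : ∀ g, L' ≤ L'.comap (ρ g) := HasFlagFrom.stable_step ρ hL he
      obtain ⟨n, F, u, ε, hF0, hFn, hstep, hnot, hact⟩ := ih L' hlt hL'stab
      refine ⟨n + 1, fun i => if i = 0 then L else F (i - 1), fun i => if i = 0 then v else u (i - 1),
        fun i => if i = 0 then e else ε (i - 1), by simp, by simpa using hFn, ?_, ?_, ?_⟩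
      · intro i hi
        rcases Nat.eq_zero_or_pos i with rfl | hpos
        · simp [hF0, hL']
        · obtain ⟨j, rfl⟩ := Nat.exists_eq_succ_of_ne_zero hpos.ne'
          simpa using hstep j (by omega)
      · intro i hi
        rcases Nat.eq_zero_or_pos i with rfl | hpos
        · simpa using hvL
        · obtain ⟨j, rfl⟩ := Nat.exists_eq_succ_of_ne_zero hpos.ne'
          simpa using hnot j (by omega)
      · intro i hi g
        rcases Nat.eq_zero_or_pos i with rfl | hpos
        · simpa using he g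
        · obtain ⟨j, rfl⟩ := Nat.exists_eq_succ_of_ne_zero hpos.ne'
          simpa using hact j (by omega) g

/-- **Constituents (D3a), flag form.**  A finite `𝔽_r[G]`-module on which all operators
`(g - 1)(g - χ(g))` are nilpotent has a `G`-stable full flag whose graded pieces are lines of type
`𝟙` or `χ`. -/
theorem exists_flag [Finite V] (ρ : Representation (ZMod r) G V) (χ : G →* (ZMod r)ˣ)
    (h : ∀ g : G, IsNilpotent (eisOp ρ χ g)) : HasFlagFrom ρ χ ⊥ :=
  hasFlagFrom_of_stable ρ χ h ⊥ fun _ => bot_le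

end Flag

end Fermat.Agent.S15.H62

end
-- ===== PACK-END S15/H62/Constituents.lean

-- ===== PACK-BEGIN S29/M4b/H89/PRoot.lean
section
/-
S29 row, layer M, sub-layer M4b — lemma PROOT (helper89), used by piece K4-UNIQ.

`exists_coeffMap_eq_of_pow` : let `ι : K →+* L` be a homomorphism of fields, `K` algebraically
closed, `p` a natural number invertible in `K`.  If the `p`-th power of a Laurent series `b` over
`L` has all its coefficients in `ι K`, then so has `b`:  `b ^ p = coeffMap ι w → ∃ v, coeffMap ι v = b`.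

Proof: reduce to power series with nonzero constant term; the constant term is a `p`-th root of an
element of `ι K`, hence in `ι K`; then induction on the index, comparing the coefficients of
`(P + X^m R)^p = P^p + p P^(p-1) X^m R + k X^(2m) R^2`.
Mathlib + Prelude `coeffMap` only.
-/



set_option autoImplicit false

noncomputable section

namespace Fermat.Agent.S29.M4b.H89.PRoot

open PowerSeries ModularCurve

section PS

variable {L : Type*} [Field L]

/-- Power series all of whose coefficients lie in a subfield. -/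
def coeffSubring (S : Subfield L) : Subring (PowerSeries L) where
  carrier := {B | ∀ n, PowerSeries.coeff n B ∈ S}
  mul_mem' := by
    intro B C hB hC n
    rw [PowerSeries.coeff_mul]
    exact S.sum_mem fun x _ => S.mul_mem (hB _) (hC _)
  one_mem' := by
    intro n
    rw [PowerSeries.coeff_one]
    split_ifs
    · exact S.one_mem
    · exact S.zero_mem
  add_mem' := by
    intro B C hB hC n
    rw [map_add]
    exact S.add_mem (hB _) (hC _)
  zero_mem' := by
    intro n
    rw [map_zero]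
    exact S.zero_mem
  neg_mem' := by
    intro B hB n
    rw [map_neg]
    exact S.neg_mem (hB _)

theorem mem_coeffSubring {S : Subfield L} {B : PowerSeries L} :
    B ∈ coeffSubring S ↔ ∀ n, PowerSeries.coeff n B ∈ S := Iff.rfl

/-- The key induction, for power series with nonzero constant coefficient. -/
theorem mem_coeffSubring_of_pow (S : Subfield L) {p : ℕ} (hp : (p : L) ≠ 0)
    (hroot : ∀ x : L, x ^ p ∈ S → x ∈ S) (B : PowerSeries L)
    (hB0 : PowerSeries.coeff 0 B ≠ 0) (hBp : B ^ p ∈ coeffSubring S) :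
    B ∈ coeffSubring S := by
  have hp0 : p ≠ 0 := by
    rintro rfl
    exact hp (by simp)
  -- constant coefficient
  have h0 : PowerSeries.coeff 0 B ∈ S := by
    apply hroot
    have := hBp 0
    rwa [PowerSeries.coeff_zero_eq_constantCoeff, map_pow,
      ← PowerSeries.coeff_zero_eq_constantCoeff] at this
  intro m
  induction m using Nat.strong_induction_on with
  | _ m ih =>
    rcases Nat.eq_zero_or_pos m with rfl | hm
    · exact h0
    -- decomposition `B = P + X^m * R`
    set P : PowerSeries L := ((PowerSeries.trunc m B : Polynomial L) : PowerSeries L) with hP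
    set R : PowerSeries L := PowerSeries.mk fun i => PowerSeries.coeff (i + m) B with hR
    have hdec : B = P + PowerSeries.X ^ m * R := by
      rw [add_comm]
      exact PowerSeries.eq_X_pow_mul_shift_add_trunc m B
    have hPmem : P ∈ coeffSubring S := by
      intro n
      rw [hP, Polynomial.coeff_coe, PowerSeries.coeff_trunc]
      split_ifs with hn
      · exact ih n hn
      · exact S.zero_mem
    have hP0 : PowerSeries.coeff 0 P = PowerSeries.coeff 0 B := by
      rw [hP, Polynomial.coeff_coe, PowerSeries.coeff_trunc, if_pos hm]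
    have hR0 : PowerSeries.coeff 0 R = PowerSeries.coeff m B := by
      rw [hR, PowerSeries.coeff_mk, zero_add]
    obtain ⟨k, hk⟩ := Polynomial.powAddExpansion P (PowerSeries.X ^ m * R) p
    have hexp : PowerSeries.coeff m (B ^ p)
        = PowerSeries.coeff m (P ^ p)
          + (p : L) * (PowerSeries.coeff 0 B) ^ (p - 1) * PowerSeries.coeff m B := by
      have e1 : B ^ p = P ^ p + PowerSeries.X ^ m * ((p : PowerSeries L) * P ^ (p - 1) * R)
          + PowerSeries.X ^ (2 * m) * (k * R ^ 2) := by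
        conv_lhs => rw [hdec]
        rw [hk]
        ring
      rw [e1, map_add, map_add, PowerSeries.coeff_X_pow_mul', PowerSeries.coeff_X_pow_mul',
        if_pos le_rfl, if_neg (by omega), add_zero, Nat.sub_self]
      congr 1
      rw [PowerSeries.coeff_zero_eq_constantCoeff, map_mul, map_mul, map_pow, map_natCast,
        ← PowerSeries.coeff_zero_eq_constantCoeff, hP0, hR0]
    have hmem : (p : L) * (PowerSeries.coeff 0 B) ^ (p - 1) * PowerSeries.coeff m B ∈ S := by
      have h1 : PowerSeries.coeff m (P ^ p) ∈ S := (coeffSubring S).pow_mem hPmem p m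
      have h2 := hBp m
      rw [hexp] at h2
      have := S.sub_mem h2 h1
      rwa [add_sub_cancel_left] at this
    have hunit : (p : L) * (PowerSeries.coeff 0 B) ^ (p - 1) ∈ S :=
      S.mul_mem (natCast_mem S p) (S.pow_mem h0 _)
    have hne : (p : L) * (PowerSeries.coeff 0 B) ^ (p - 1) ≠ 0 :=
      mul_ne_zero hp (pow_ne_zero _ hB0)
    have := S.mul_mem (S.inv_mem hunit) hmem
    rwa [← mul_assoc, inv_mul_cancel₀ hne, one_mul] at this

end PS

section Laurent

variable {K L : Type*} [Field K] [Field L]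

/-- Laurent series version: if all coefficients of `b ^ p` lie in `S`, so do those of `b`. -/
theorem laurent_coeff_mem_of_pow (S : Subfield L) {p : ℕ} (hp : (p : L) ≠ 0)
    (hroot : ∀ x : L, x ^ p ∈ S → x ∈ S) (b : LaurentSeries L)
    (hbp : ∀ n, (b ^ p).coeff n ∈ S) : ∀ n, b.coeff n ∈ S := by
  by_cases hb : b = 0
  · intro n
    rw [hb, HahnSeries.coeff_zero]
    exact S.zero_mem
  set B := b.powerSeriesPart with hBdef
  have hbB : HahnSeries.single b.order (1 : L) * HahnSeries.ofPowerSeries ℤ L B = b :=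
    LaurentSeries.single_order_mul_powerSeriesPart b
  have hB0 : PowerSeries.coeff 0 B ≠ 0 := by
    rw [hBdef, LaurentSeries.powerSeriesPart_coeff]
    simpa using (HahnSeries.coeff_order_eq_zero (x := b)).not.2 hb
  have hBp : B ^ p ∈ coeffSubring S := by
    intro n
    have e : b ^ p = HahnSeries.single (p • b.order) (1 : L)
        * HahnSeries.ofPowerSeries ℤ L (B ^ p) := by
      conv_lhs => rw [← hbB]
      rw [mul_pow, HahnSeries.single_pow, one_pow, map_pow]
    have h2 := hbp ((n : ℤ) + p • b.order)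
    rw [e, HahnSeries.coeff_single_mul_add, one_mul, HahnSeries.ofPowerSeries_apply_coeff] at h2
    exact h2
  have hB := mem_coeffSubring_of_pow S hp hroot B hB0 hBp
  intro n
  by_cases hn : b.order ≤ n
  · obtain ⟨k, hk⟩ := Int.le.dest hn
    have := hB k
    rw [hBdef, LaurentSeries.powerSeriesPart_coeff, hk] at this
    exact this
  · rw [HahnSeries.coeff_eq_zero_of_lt_order (not_le.1 hn)]
    exact S.zero_mem

/-- A Laurent series with coefficients in the range of `ι` is in the range of `coeffMap ι`. -/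
theorem exists_coeffMap_eq_of_coeff_mem (ι : K →+* L) (b : LaurentSeries L)
    (hb : ∀ n, b.coeff n ∈ ι.fieldRange) : ∃ v : LaurentSeries K, coeffMap ι v = b := by
  classical
  have hex : ∀ n, ∃ a : K, ι a = b.coeff n := fun n => RingHom.mem_fieldRange.1 (hb n)
  let g : ℤ → K := fun n => if b.coeff n = 0 then 0 else Classical.choose (hex n)
  have hg : ∀ n, ι (g n) = b.coeff n := by
    intro n
    by_cases h0 : b.coeff n = 0
    · simp only [g, if_pos h0, map_zero, h0]
    · simp only [g, if_neg h0]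
      exact Classical.choose_spec (hex n)
  have hsupp : Function.support g ⊆ b.support := by
    intro n hn
    rw [Function.mem_support] at hn
    rw [HahnSeries.mem_support]
    intro h0
    apply hn
    simp only [g, if_pos h0]
  refine ⟨⟨g, b.isPWO_support.mono hsupp⟩, ?_⟩
  ext n
  rw [coeffMap_coeff]
  exact hg n

/-- **PROOT**: a Laurent series over `L` whose `p`-th power has coefficients in the algebraically
closed subfield `ι K` (with `p` invertible in `K`) has coefficients in `ι K`. -/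
theorem exists_coeffMap_eq_of_pow [IsAlgClosed K] (ι : K →+* L) {p : ℕ} (hp : (p : K) ≠ 0)
    (b : LaurentSeries L) (w : LaurentSeries K) (h : b ^ p = coeffMap ι w) :
    ∃ v : LaurentSeries K, coeffMap ι v = b := by
  have hp0 : p ≠ 0 := by
    rintro rfl
    exact hp (by simp)
  have hpL : (p : L) ≠ 0 := by
    have := (map_ne_zero ι).2 hp
    rwa [map_natCast] at this
  apply exists_coeffMap_eq_of_coeff_mem
  apply laurent_coeff_mem_of_pow ι.fieldRange hpL
  · intro x hx
    obtain ⟨c, hc⟩ := RingHom.mem_fieldRange.1 hx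
    let _ : Algebra K L := ι.toAlgebra
    have hint : IsIntegral K x := by
      refine ⟨Polynomial.X ^ p - Polynomial.C c, Polynomial.monic_X_pow_sub_C c hp0, ?_⟩
      rw [Polynomial.eval₂_sub, Polynomial.eval₂_pow, Polynomial.eval₂_X, Polynomial.eval₂_C]
      show x ^ p - ι c = 0
      rw [hc, sub_self]
    have hdeg := IsAlgClosed.degree_eq_one_of_irreducible K (minpoly.irreducible hint)
    have := minpoly.mem_range_of_degree_eq_one K x hdeg
    obtain ⟨a, ha⟩ := this
    exact RingHom.mem_fieldRange.2 ⟨a, ha⟩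
  · intro n
    rw [h, coeffMap_coeff]
    exact RingHom.mem_fieldRange.2 ⟨_, rfl⟩

end Laurent

end Fermat.Agent.S29.M4b.H89.PRoot

end
end
-- ===== PACK-END S29/M4b/H89/PRoot.lean

-- ===== PACK-BEGIN S29/H451/SpecToRel.lean
section


/-!
# S29 / piece GALJ (helper451): from `SpecializationExists` to the relations on `J[p^∞]`

The conclusion `SpecializationExists` of the frozen Eichler–Shimura statement implies
`UnramifiedOutside` and `FrobeniusQuadratic` (Prelude shapes), for any Hecke–Galois module `J`.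
-/

set_option autoImplicit false

noncomputable section

namespace Fermat.Agent.S29.H451

open ModularCurve

variable {K L : Type*} [Field K] [Field L] [Algebra K L]
variable (N p : ℕ) (J : Type*) [AddCommGroup J] [Module HeckeAlg J]
  [DistribMulAction (L ≃ₐ[K] L) J] [SMulCommClass (L ≃ₐ[K] L) HeckeAlg J]

omit [Module HeckeAlg J] [SMulCommClass (L ≃ₐ[K] L) HeckeAlg J] in
theorem galois_smul_nsmul (σ : L ≃ₐ[K] L) (n : ℕ) (x : J) : σ • (n • x) = n • (σ • x) :=
  map_nsmul (DistribSMul.toAddMonoidHom J σ) n x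

theorem unramifiedOutside_of_specializationExists
    (h : SpecializationExists (K := K) (L := L) N p J) :
    UnramifiedOutside (K := K) (L := L) N p J := by
  intro ℓ hℓ hℓNp A hA σ hσ x ⟨n, hn⟩
  obtain ⟨J', _, _, sp, F, hsp, -⟩ := h ℓ hℓ hℓNp A hA
  have h1 : sp (σ • x - x) = 0 := by
    rw [map_sub, hsp.inertia_comm σ hσ x, sub_self]
  have h2 : p ^ n • (σ • x - x) = 0 := by
    rw [smul_sub, ← galois_smul_nsmul J, hn, smul_zero, sub_self]
  exact sub_eq_zero.mp (hsp.injective_torsion _ ⟨n, h2⟩ h1)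

theorem frobeniusQuadratic_of_specializationExists
    (h : SpecializationExists (K := K) (L := L) N p J) :
    FrobeniusQuadratic (K := K) (L := L) N p J := by
  intro ℓ hℓ hℓNp A hA σ hσ x ⟨n, hn⟩
  obtain ⟨J', _, _, sp, F, hsp, hF⟩ := h ℓ hℓ hℓNp A hA
  refine hsp.injective_torsion _ ⟨n, ?_⟩ ?_
  · rw [smul_add, smul_sub, ← galois_smul_nsmul J, ← galois_smul_nsmul J, hn,
      smul_comm (p ^ n) (heckeGen ⟨ℓ, hℓ⟩) (σ • x), ← galois_smul_nsmul J, hn,
      smul_comm (p ^ n) ℓ x, hn]
    simp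
  · rw [map_add, map_sub, hsp.frobenius_comm σ hσ, hsp.frobenius_comm σ hσ, hsp.hecke_comm,
      hsp.frobenius_comm σ hσ, map_nsmul]
    exact hF (sp x)

/-- Both relations at once, in the shape consumed downstream: on the `p`-power torsion of `J`
inertia at `ℓ ∤ Np` acts trivially and every Frobenius `σ` at `ℓ ∤ Np` satisfies
`σ² - T_ℓ σ + ℓ = 0`. -/
theorem relations_of_specializationExists
    (h : SpecializationExists (K := K) (L := L) N p J) :
    UnramifiedOutside (K := K) (L := L) N p J ∧ FrobeniusQuadratic (K := K) (L := L) N p J :=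
  ⟨unramifiedOutside_of_specializationExists N p J h,
    frobeniusQuadratic_of_specializationExists N p J h⟩

end Fermat.Agent.S29.H451

end
end
-- ===== PACK-END S29/H451/SpecToRel.lean

-- ===== PACK-BEGIN S15/H466/ProjAbs.lean
section


/-!
# S15 / DESC — the Hecke projector on a finite torsion level, abstract form (helper466)

`η i` a commuting family of endomorphisms of an abelian group `J`, `X ≤ J` a FINITE subgroup stable
under all `η i`.  Then there is a (non-commutative) polynomial `e` in the `η i` — any property `P`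
of endomorphisms which holds for `1`, the `η i` and is stable under `*` and `-` holds for `e` —
such that on `X`:

* `e x = x`              if `x` is killed by a power of every `η i`,
* `e x` is killed by a power of every `η i`, and `e x ∈ X`.

(`e = ∏ (1 - η_i ^ L)` over finitely many witness indices, `L = |X|!`; no idempotent lifting, no
Noetherian hypothesis: only the pigeonhole principle on the orbits `η^k x`.)
-/

set_option autoImplicit false
set_option linter.style.haveILetI false

namespace Fermat.Agent.S15.H466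

section Period

variable {J : Type*} [AddCommGroup J]

theorem pow_apply_mem_h466 (X : AddSubgroup J) (η : Module.End ℤ J) (hX : ∀ x ∈ X, η x ∈ X)
    (x : J) (hx : x ∈ X) (k : ℕ) : (η ^ k) x ∈ X := by
  induction k with
  | zero => simpa using hx
  | succ k ih =>
    rw [pow_succ', Module.End.mul_apply]
    exact hX _ ih

/-- **Periodicity.**  On a finite stable subgroup `X` with `c = |X|`:
`η^(n + c!) x = η^n x` for `n ≥ c`. -/
theorem pow_add_factorial_apply_h466 (X : AddSubgroup J) [Finite X] (η : Module.End ℤ J)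
    (hX : ∀ x ∈ X, η x ∈ X) (x : J) (hx : x ∈ X) (n : ℕ) (hn : Nat.card X ≤ n) :
    (η ^ (n + (Nat.card X).factorial)) x = (η ^ n) x := by
  classical
  letI : Fintype X := Fintype.ofFinite X
  set c : ℕ := Nat.card X with hc
  -- pigeonhole
  let g : Fin (c + 1) → X := fun k => ⟨(η ^ (k : ℕ)) x, pow_apply_mem_h466 X η hX x hx k⟩
  have hcard : Fintype.card X < Fintype.card (Fin (c + 1)) := by
    rw [Fintype.card_fin, ← Nat.card_eq_fintype_card]
    exact Nat.lt_succ_self _
  obtain ⟨i, j, hij, hg⟩ := Fintype.exists_ne_map_eq_of_card_lt g hcard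
  have hg' : (η ^ (i : ℕ)) x = (η ^ (j : ℕ)) x := congrArg Subtype.val hg
  -- wlog `i < j`
  have key : ∀ a b : ℕ, a < b → b ≤ c → (η ^ a) x = (η ^ b) x →
      (η ^ (n + c.factorial)) x = (η ^ n) x := by
    intro a b hab hbc hab'
    have hd : 0 < b - a := Nat.sub_pos_of_lt hab
    have hdc : b - a ≤ c := (Nat.sub_le _ _).trans hbc
    have hstep : ∀ m, a ≤ m → (η ^ (m + (b - a))) x = (η ^ m) x := by
      intro m hm
      obtain ⟨s, rfl⟩ := Nat.exists_eq_add_of_le hm
      have e1 : a + s + (b - a) = s + b := by omega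
      have e2 : a + s = s + a := by omega
      rw [e1, e2, pow_add, pow_add, Module.End.mul_apply, Module.End.mul_apply, hab']
    have hiter : ∀ t m, a ≤ m → (η ^ (m + t * (b - a))) x = (η ^ m) x := by
      intro t
      induction t with
      | zero => intro m _; simp
      | succ t ih =>
        intro m hm
        have e1 : m + (t + 1) * (b - a) = (m + t * (b - a)) + (b - a) := by ring
        rw [e1, hstep _ (le_trans hm (Nat.le_add_right _ _)), ih m hm]
    obtain ⟨t, ht⟩ := Nat.dvd_factorial hd hdc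
    have hna : a ≤ n := le_trans (le_trans hab.le hbc) hn
    rw [ht, mul_comm]
    exact hiter t n hna
  rcases lt_or_gt_of_ne (fun h => hij (Fin.ext h)) with h | h
  · exact key i j h (Nat.lt_succ_iff.1 j.2) hg'
  · exact key j i h (Nat.lt_succ_iff.1 i.2) hg'.symm

/-- If some power of `η` kills `x ∈ X`, then `η ^ (|X|!)` kills `x`. -/
theorem pow_factorial_apply_eq_zero_h466 (X : AddSubgroup J) [Finite X] (η : Module.End ℤ J)
    (hX : ∀ x ∈ X, η x ∈ X) (x : J) (hx : x ∈ X) (n : ℕ) (h : (η ^ n) x = 0) :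
    (η ^ (Nat.card X).factorial) x = 0 := by
  set c : ℕ := Nat.card X with hc
  have hL : 0 < c.factorial := Nat.factorial_pos c
  have hper : ∀ t, (η ^ (c + t * c.factorial)) x = (η ^ c) x := by
    intro t
    induction t with
    | zero => simp
    | succ t ih =>
      have e1 : c + (t + 1) * c.factorial = (c + t * c.factorial) + c.factorial := by ring
      rw [e1, pow_add_factorial_apply_h466 X η hX x hx _ (Nat.le_add_right _ _), ih]
  have hbig : n ≤ c + n * c.factorial := by
    have : n * 1 ≤ n * c.factorial := Nat.mul_le_mul_left n hL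
    omega
  have hc0 : (η ^ c) x = 0 := by
    rw [← hper n]
    obtain ⟨s, hs⟩ := Nat.exists_eq_add_of_le hbig
    rw [hs, add_comm n s, pow_add, Module.End.mul_apply, h, map_zero]
  obtain ⟨s, hs⟩ := Nat.exists_eq_add_of_le (Nat.self_le_factorial c)
  rw [hs, add_comm c s, pow_add, Module.End.mul_apply, hc0, map_zero]

end Period

section Projector

variable {J : Type*} [AddCommGroup J] {ι : Type*}

/-- **The projector onto the part of `X` killed by powers of all `η i`.** -/
theorem exists_projector_h466 (η : ι → Module.End ℤ J) (hcomm : ∀ i j, Commute (η i) (η j))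
    (X : AddSubgroup J) [Finite X] (hX : ∀ i, ∀ x ∈ X, η i x ∈ X)
    (P : Module.End ℤ J → Prop) (hP1 : P 1) (hPη : ∀ i, P (η i))
    (hPmul : ∀ a b, P a → P b → P (a * b)) (hPsub : ∀ a b, P a → P b → P (a - b)) :
    ∃ e : Module.End ℤ J, P e ∧
      (∀ x ∈ X, (∀ i, ∃ n : ℕ, (η i ^ n) x = 0) → e x = x) ∧
      (∀ x ∈ X, e x ∈ X ∧ ∀ i, ∃ n : ℕ, (η i ^ n) (e x) = 0) := by
  classical
  set L : ℕ := (Nat.card X).factorial with hL
  let f : ι → Module.End ℤ J := fun i => 1 - η i ^ L
  have hPpow : ∀ i (n : ℕ), P (η i ^ n) := by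
    intro i n
    induction n with
    | zero => simpa using hP1
    | succ n ih =>
      rw [pow_succ]
      exact hPmul _ _ ih (hPη i)
  have hPf : ∀ i, P (f i) := fun i => hPsub _ _ hP1 (hPpow i L)
  have hfX : ∀ i, ∀ x ∈ X, f i x ∈ X := by
    intro i x hx
    show (1 - η i ^ L) x ∈ X
    rw [LinearMap.sub_apply, Module.End.one_apply]
    exact X.sub_mem hx (pow_apply_mem_h466 X (η i) (hX i) x hx L)
  have hfcomm : ∀ i j (n : ℕ), Commute (η i ^ n) (f j) := by
    intro i j n
    exact ((Commute.one_right _).sub_right ((hcomm i j).pow_pow n L))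
  -- the product over a list of indices
  let E : List ι → Module.End ℤ J := fun l => (l.map f).prod
  have hE_nil : E [] = 1 := rfl
  have hE_cons : ∀ i l, E (i :: l) = f i * E l := fun i l => by
    show ((i :: l).map f).prod = f i * (l.map f).prod
    rw [List.map_cons, List.prod_cons]
  have hEP : ∀ l, P (E l) := by
    intro l
    induction l with
    | nil => rw [hE_nil]; exact hP1
    | cons i l ih => rw [hE_cons]; exact hPmul _ _ (hPf i) ih
  have hEX : ∀ l, ∀ x ∈ X, E l x ∈ X := by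
    intro l
    induction l with
    | nil => intro x hx; rw [hE_nil]; simpa using hx
    | cons i l ih =>
      intro x hx
      rw [hE_cons, Module.End.mul_apply]
      exact hfX i _ (ih x hx)
  have hEfix : ∀ l, ∀ x ∈ X, (∀ i, ∃ n : ℕ, (η i ^ n) x = 0) → E l x = x := by
    intro l
    induction l with
    | nil => intro x _ _; rw [hE_nil]; rfl
    | cons i l ih =>
      intro x hx hnil
      rw [hE_cons, Module.End.mul_apply, ih x hx hnil]
      show (1 - η i ^ L) x = x
      obtain ⟨n, hn⟩ := hnil i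
      rw [LinearMap.sub_apply, Module.End.one_apply,
        pow_factorial_apply_eq_zero_h466 X (η i) (hX i) x hx n hn, sub_zero]
  have hEkill : ∀ l, ∀ x ∈ X, ∀ i ∈ l, ∃ n : ℕ, (η i ^ n) (E l x) = 0 := by
    intro l
    induction l with
    | nil => intro x _ i hi; simp at hi
    | cons j l ih =>
      intro x hx i hi
      rw [hE_cons, Module.End.mul_apply]
      rcases List.mem_cons.1 hi with rfl | hi'
      · refine ⟨Nat.card X, ?_⟩
        have hy : E l x ∈ X := hEX l x hx
        generalize E l x = y at hy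
        have h1 : f i y = y - (η i ^ L) y := by
          show (1 - η i ^ L) y = y - (η i ^ L) y
          rw [LinearMap.sub_apply, Module.End.one_apply]
        have h2 : (η i ^ Nat.card X) ((η i ^ L) y) = (η i ^ (Nat.card X + L)) y := by
          rw [pow_add, Module.End.mul_apply]
        rw [h1, map_sub, h2, pow_add_factorial_apply_h466 X (η i) (hX i) y hy _ le_rfl, sub_self]
      · obtain ⟨n, hn⟩ := ih x hx i hi'
        refine ⟨n, ?_⟩
        have hc : η i ^ n * f j = f j * η i ^ n := (hfcomm i j n).eq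
        have h1 : (η i ^ n) (f j (E l x)) = (η i ^ n * f j) (E l x) := rfl
        have h2 : (f j * η i ^ n) (E l x) = f j ((η i ^ n) (E l x)) := rfl
        rw [h1, hc, h2, hn, map_zero]
  -- the witnesses
  letI : Fintype X := Fintype.ofFinite X
  have hw : ∀ x : X, ∃ i : Option ι,
      (i = none → ∀ i', ∃ n : ℕ, (η i' ^ n) (x : J) = 0) ∧
      ∀ j, i = some j → ∀ n : ℕ, (η j ^ n) (x : J) ≠ 0 := by
    intro x
    by_cases h : ∀ i', ∃ n : ℕ, (η i' ^ n) (x : J) = 0
    · refine ⟨none, fun _ => h, fun j hj => ?_⟩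
      cases hj
    · obtain ⟨j, hj⟩ := not_forall.1 h
      refine ⟨some j, fun hn => ?_, fun j' hj' n hn => ?_⟩
      · cases hn
      · cases hj'
        exact hj ⟨n, hn⟩
  choose w hwnone hwsome using hw
  let l : List ι := (Finset.univ : Finset X).toList.filterMap w
  refine ⟨E l, hEP l, hEfix l, fun x hx => ⟨hEX l x hx, ?_⟩⟩
  by_contra hbad
  have hy : E l x ∈ X := hEX l x hx
  rcases hwy : w ⟨E l x, hy⟩ with _ | j
  · exact hbad (hwnone ⟨E l x, hy⟩ hwy)
  · have hjl : j ∈ l := by
      rw [List.mem_filterMap]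
      exact ⟨⟨E l x, hy⟩, Finset.mem_toList.2 (Finset.mem_univ _), hwy⟩
    obtain ⟨n, hn⟩ := hEkill l x hx j hjl
    exact hwsome ⟨E l x, hy⟩ j hwy n hn

end Projector

end Fermat.Agent.S15.H466

end
-- ===== PACK-END S15/H466/ProjAbs.lean

-- ===== PACK-BEGIN S29/H152/DescLin.lean
section
/-
S29 / DESC (helper152) — part 4: linear disjointness of `Ω` and `K((q))` over `K`.

* `descLin μ` : coefficientwise application of a `K`-linear functional `μ : Ω → K`,
  `descLin μ (ι z * y) = z * descLin μ y`.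
* `descLin_mem_of_coeffMap_mem` : `x ∈ K((q))` with `ι x ∈ Ω·F₀` lies in `K·F₀`
  (`laurentBaseChange Ω F₀ ∩ K((q)) = laurentBaseChange K F₀`).
* `descLin_exists_preimage` : a series all of whose coefficients lie in `K` comes from `K((q))`.
-/



set_option autoImplicit false

namespace Fermat.Agent.S29.H152

open ModularCurve

variable {K Ω : Type*} [Field K] [Field Ω] [Algebra K Ω]

/-- Coefficientwise application of a `K`-linear functional. -/
noncomputable def descLin (μ : Ω →ₗ[K] K) (y : LaurentSeries Ω) : LaurentSeries K :=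
  y.map μ

@[simp]
theorem descLin_coeff (μ : Ω →ₗ[K] K) (y : LaurentSeries Ω) (k : ℤ) :
    (descLin μ y).coeff k = μ (y.coeff k) := rfl

theorem descLin_add (μ : Ω →ₗ[K] K) (y z : LaurentSeries Ω) :
    descLin μ (y + z) = descLin μ y + descLin μ z := by
  ext k
  simp

theorem descLin_zero (μ : Ω →ₗ[K] K) : descLin μ (0 : LaurentSeries Ω) = 0 := by
  ext k
  simp

theorem descLin_support_subset (μ : Ω →ₗ[K] K) (y : LaurentSeries Ω) :
    (descLin μ y).support ⊆ y.support := by
  intro k hk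
  rw [HahnSeries.mem_support] at hk ⊢
  intro h
  apply hk
  rw [descLin_coeff, h, map_zero]

theorem descLin_coeffMap_support_subset {R S : Type*} [CommRing R] [CommRing S] (φ : R →+* S)
    (z : LaurentSeries R) : (coeffMap φ z).support ⊆ z.support := by
  intro k hk
  rw [HahnSeries.mem_support] at hk ⊢
  intro h
  apply hk
  rw [coeffMap_coeff, h, map_zero]

/-- `descLin μ` is `K((q))`-linear. -/
theorem descLin_coeffMap_mul (μ : Ω →ₗ[K] K) (z : LaurentSeries K) (y : LaurentSeries Ω) :
    descLin μ (coeffMap (algebraMap K Ω) z * y) = z * descLin μ y := by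
  ext n
  rw [descLin_coeff,
    HahnSeries.coeff_mul_left' z.isPWO_support (descLin_coeffMap_support_subset _ z),
    HahnSeries.coeff_mul_right' y.isPWO_support (descLin_support_subset μ y), map_sum]
  refine Finset.sum_congr rfl fun ij _ => ?_
  rw [coeffMap_coeff, descLin_coeff, ← Algebra.smul_def, map_smul, smul_eq_mul]

/-- Constants. -/
theorem descLin_algebraMap (μ : Ω →ₗ[K] K) (c : Ω) :
    descLin μ (algebraMap Ω (LaurentSeries Ω) c) = algebraMap K (LaurentSeries K) (μ c) := by
  rw [algebraMap_laurentSeries_eq_single, algebraMap_laurentSeries_eq_single]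
  ext k
  rw [descLin_coeff]
  rcases eq_or_ne k 0 with rfl | hk
  · simp [HahnSeries.coeff_single_same]
  · simp [HahnSeries.coeff_single_of_ne hk]

/-- A series whose coefficients all lie in `K` comes from `K((q))`. -/
theorem descLin_exists_preimage (v : LaurentSeries Ω)
    (hv : ∀ k, v.coeff k ∈ Set.range (algebraMap K Ω)) :
    ∃ v' : LaurentSeries K, coeffMap (algebraMap K Ω) v' = v := by
  obtain ⟨μ, hμ⟩ := LinearMap.exists_leftInverse_of_injective (Algebra.linearMap K Ω)
    (LinearMap.ker_eq_bot.mpr (algebraMap K Ω).injective)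
  refine ⟨descLin μ v, ?_⟩
  ext k
  rw [coeffMap_coeff, descLin_coeff]
  obtain ⟨c, hc⟩ := hv k
  rw [← hc]
  congr 1
  exact LinearMap.congr_fun hμ c

section LD

variable [Algebra ℚ K] [Algebra ℚ Ω]

theorem descLin_coeffEmb (y : LaurentSeries ℚ) :
    coeffMap (algebraMap K Ω) (coeffEmb K y) = coeffEmb Ω y := by
  rw [coeffEmb, coeffEmb, coeffMap_coeffMap]
  exact coeffMap_congr (RingHom.ext_rat _ _) y

variable (F₀ : IntermediateField ℚ (LaurentSeries ℚ))

/-- The image of `F₀` in `L((q))` as a submonoid. -/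
theorem descLin_closure_image (L : Type*) [Field L] [Algebra ℚ L] :
    (Submonoid.closure (⇑(coeffEmb L) '' (F₀ : Set (LaurentSeries ℚ))) : Set (LaurentSeries L))
      = ⇑(coeffEmb L) '' (F₀ : Set (LaurentSeries ℚ)) := by
  have : (⇑(coeffEmb L) '' (F₀ : Set (LaurentSeries ℚ)))
      = ((F₀.toSubfield.toSubring.toSubmonoid.map (coeffEmb L : _ →* _) :
          Submonoid (LaurentSeries L)) : Set (LaurentSeries L)) := rfl
  rw [this, Submonoid.closure_eq]

omit [Algebra ℚ K] [Algebra ℚ Ω] in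
/-- Multiplying by a constant inside a functional. -/
theorem descLin_algebraMap_mul (μ : Ω →ₗ[K] K) (c : Ω) (x : LaurentSeries Ω) :
    descLin μ (algebraMap Ω (LaurentSeries Ω) c * x)
      = descLin (μ.comp (LinearMap.mulLeft K c)) x := by
  ext k
  rw [descLin_coeff, descLin_coeff, algebraMap_laurentSeries_eq_single,
    HahnSeries.coeff_single_zero_mul]
  rfl

/-- Every functional maps `Ω[F₀]` into `K[F₀]`. -/
theorem descLin_mem_adjoin (μ : Ω →ₗ[K] K) {a : LaurentSeries Ω}
    (ha : a ∈ Algebra.adjoin Ω (⇑(coeffEmb Ω) '' (F₀ : Set (LaurentSeries ℚ)))) :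
    descLin μ a ∈ Algebra.adjoin K (⇑(coeffEmb K) '' (F₀ : Set (LaurentSeries ℚ))) := by
  have ha' : a ∈ Subalgebra.toSubmodule
      (Algebra.adjoin Ω (⇑(coeffEmb Ω) '' (F₀ : Set (LaurentSeries ℚ)))) := ha
  rw [Algebra.adjoin_eq_span, descLin_closure_image] at ha'
  clear ha
  revert μ
  induction ha' using Submodule.span_induction with
  | mem x hx =>
    intro μ
    obtain ⟨y, hy, rfl⟩ := hx
    have h1 : coeffEmb Ω y = coeffMap (algebraMap K Ω) (coeffEmb K y) * algebraMap Ω _ 1 := by
      rw [map_one, mul_one, descLin_coeffEmb]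
    rw [h1, descLin_coeffMap_mul, descLin_algebraMap]
    exact Subalgebra.mul_mem _ (Algebra.subset_adjoin ⟨y, hy, rfl⟩) (Subalgebra.algebraMap_mem _ _)
  | zero =>
    intro μ
    rw [descLin_zero]
    exact Subalgebra.zero_mem _
  | add x y _ _ hx hy =>
    intro μ
    rw [descLin_add]
    exact Subalgebra.add_mem _ (hx μ) (hy μ)
  | smul c x _ hx =>
    intro μ
    rw [Algebra.smul_def, descLin_algebraMap_mul]
    exact hx _

/-- **Linear disjointness**: `Ω·F₀ ∩ K((q)) = K·F₀`. -/
theorem descLin_mem_of_coeffMap_mem (x : LaurentSeries K)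
    (hx : coeffMap (algebraMap K Ω) x ∈ laurentBaseChange Ω F₀) :
    x ∈ laurentBaseChange K F₀ := by
  rw [laurentBaseChange, IntermediateField.mem_adjoin_iff_div] at hx
  obtain ⟨r, hr, s, hs, hrs⟩ := hx
  by_cases hs0 : s = 0
  · rw [hs0, div_zero] at hrs
    have hx0 : x = 0 := by
      ext k
      have := congrArg (fun y => HahnSeries.coeff y k) hrs
      simp only [coeffMap_coeff, HahnSeries.coeff_zero] at this
      rw [HahnSeries.coeff_zero]
      exact (map_eq_zero (algebraMap K Ω)).mp this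
    rw [hx0]
    exact zero_mem _
  · have hmul : coeffMap (algebraMap K Ω) x * s = r := by
      rw [hrs, div_mul_cancel₀ _ hs0]
    obtain ⟨n₀, hn₀⟩ : ∃ n₀, s.coeff n₀ ≠ 0 := by
      by_contra h
      push Not at h
      exact hs0 (HahnSeries.ext (funext h))
    obtain ⟨μ, hμ⟩ : ∃ μ : Ω →ₗ[K] K, μ (s.coeff n₀) ≠ 0 := by
      by_contra h
      push Not at h
      exact hn₀ ((Module.forall_dual_apply_eq_zero_iff K (s.coeff n₀)).mp h)
    have hΛs : descLin μ s ≠ 0 := by
      intro h
      apply hμ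
      have := congrArg (fun y => HahnSeries.coeff y n₀) h
      simpa using this
    have hrel : x * descLin μ s = descLin μ r := by
      rw [← descLin_coeffMap_mul, hmul]
    have hx' : x = descLin μ r / descLin μ s := by
      rw [← hrel, mul_div_cancel_right₀ _ hΛs]
    rw [hx', laurentBaseChange]
    exact div_mem (IntermediateField.algebra_adjoin_le_adjoin K _ (descLin_mem_adjoin F₀ μ hr))
      (IntermediateField.algebra_adjoin_le_adjoin K _ (descLin_mem_adjoin F₀ μ hs))

end LD

end Fermat.Agent.S29.H152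

end
-- ===== PACK-END S29/H152/DescLin.lean

-- ===== PACK-BEGIN S29/H282/Special.lean
section


/-!
# S29 / M4b-K2 (helper282) — special elements of `SL₂(ℤ)`

`IsSpecialElt γ`: `γ` has finite order or trace `2`.  All conjugates of powers of `1`, `S`, `S * T`
and `T` are special.  (These are the stabilisers of the points of `ℍ ∪ ℙ¹(ℚ)`; a character of
`Γ₀(N)` which is trivial on the special elements of `Γ₀(N)` is "unramified everywhere".)
-/

set_option autoImplicit false

open scoped MatrixGroups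
open Matrix

namespace Fermat.Agent.S29.H282

/-- `γ` has finite order or trace `2`. -/
def IsSpecialElt (γ : SL(2, ℤ)) : Prop :=
  (∃ n : ℕ, 0 < n ∧ γ ^ n = 1) ∨ (γ : Matrix (Fin 2) (Fin 2) ℤ).trace = 2

theorem modS_pow_four : (ModularGroup.S : SL(2, ℤ)) ^ 4 = 1 := by
  apply Subtype.ext
  rw [Matrix.SpecialLinearGroup.coe_pow, ModularGroup.coe_S]
  have h2 : (!![0, -1; 1, 0] : Matrix (Fin 2) (Fin 2) ℤ) ^ 2 = -1 := by
    rw [pow_two, Matrix.mul_fin_two]
    ext i j
    fin_cases i <;> fin_cases j <;> simp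
  rw [show (4 : ℕ) = 2 * 2 from rfl, pow_mul, h2]
  simp

theorem modST_pow_six : (ModularGroup.S * ModularGroup.T : SL(2, ℤ)) ^ 6 = 1 := by
  apply Subtype.ext
  rw [Matrix.SpecialLinearGroup.coe_pow, Matrix.SpecialLinearGroup.coe_mul, ModularGroup.coe_S,
    ModularGroup.coe_T]
  have h0 : (!![0, -1; 1, 0] * !![1, 1; 0, 1] : Matrix (Fin 2) (Fin 2) ℤ) = !![0, -1; 1, 1] := by
    rw [Matrix.mul_fin_two]
    ext i j
    fin_cases i <;> fin_cases j <;> simp
  have h2 : (!![0, -1; 1, 1] : Matrix (Fin 2) (Fin 2) ℤ) ^ 2 = !![-1, -1; 1, 0] := by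
    rw [pow_two, Matrix.mul_fin_two]
    ext i j
    fin_cases i <;> fin_cases j <;> simp
  have h3 : (!![0, -1; 1, 1] : Matrix (Fin 2) (Fin 2) ℤ) ^ 3 = -1 := by
    rw [pow_succ, h2, Matrix.mul_fin_two]
    ext i j
    fin_cases i <;> fin_cases j <;> simp
  rw [h0, show (6 : ℕ) = 3 * 2 from rfl, pow_mul, h3]
  simp

theorem trace_modT_pow (e : ℕ) :
    ((ModularGroup.T ^ e : SL(2, ℤ)) : Matrix (Fin 2) (Fin 2) ℤ).trace = 2 := by
  have h := ModularGroup.coe_T_zpow (e : ℤ)
  rw [zpow_natCast] at h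
  rw [h, Matrix.trace_fin_two]
  simp

theorem trace_conj_SL (g γ : SL(2, ℤ)) :
    ((g⁻¹ * γ * g : SL(2, ℤ)) : Matrix (Fin 2) (Fin 2) ℤ).trace
      = (γ : Matrix (Fin 2) (Fin 2) ℤ).trace := by
  rw [Matrix.SpecialLinearGroup.coe_mul, Matrix.trace_mul_comm,
    ← Matrix.SpecialLinearGroup.coe_mul, mul_inv_cancel_left]

theorem conj_pow_SL (g γ : SL(2, ℤ)) (n : ℕ) : (g⁻¹ * γ * g) ^ n = g⁻¹ * γ ^ n * g := by
  induction n with
  | zero => simp
  | succ n ih => rw [pow_succ, ih, pow_succ]; group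

theorem IsSpecialElt.conj {γ : SL(2, ℤ)} (h : IsSpecialElt γ) (g : SL(2, ℤ)) :
    IsSpecialElt (g⁻¹ * γ * g) := by
  rcases h with ⟨n, hn, h⟩ | h
  · exact Or.inl ⟨n, hn, by rw [conj_pow_SL, h]; group⟩
  · exact Or.inr (by rw [trace_conj_SL, h])

theorem isSpecialElt_of_pow_eq_one {γ : SL(2, ℤ)} {n : ℕ} (hn : 0 < n) (h : γ ^ n = 1) :
    IsSpecialElt γ := Or.inl ⟨n, hn, h⟩

theorem isSpecialElt_one_pow (e : ℕ) : IsSpecialElt ((1 : SL(2, ℤ)) ^ e) :=
  isSpecialElt_of_pow_eq_one one_pos (by simp)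

theorem isSpecialElt_S_pow (e : ℕ) : IsSpecialElt ((ModularGroup.S : SL(2, ℤ)) ^ e) :=
  isSpecialElt_of_pow_eq_one (n := 4) (by norm_num)
    (by rw [← pow_mul, mul_comm, pow_mul, modS_pow_four, one_pow])

theorem isSpecialElt_ST_pow (e : ℕ) :
    IsSpecialElt ((ModularGroup.S * ModularGroup.T : SL(2, ℤ)) ^ e) :=
  isSpecialElt_of_pow_eq_one (n := 6) (by norm_num)
    (by rw [← pow_mul, mul_comm, pow_mul, modST_pow_six, one_pow])

theorem isSpecialElt_T_pow (e : ℕ) : IsSpecialElt ((ModularGroup.T : SL(2, ℤ)) ^ e) :=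
  Or.inr (trace_modT_pow e)

end Fermat.Agent.S29.H282

end
-- ===== PACK-END S29/H282/Special.lean

-- ===== PACK-BEGIN S30/H810/Classify.lean
section
/-
S30 / piece ONTO (helper810), part 5 (Mathlib only): elements of `SL(2, ℤ)` of finite order and
of trace `±2`.

* `fixed_or_trivial_of_pow_eq_one` : `g ^ n = 1`, `n > 0` ⟹ `g` acts trivially on `ℍ` or has a
  fixed point in `ℍ`;
* `parabolic_conj` : `tr g = ±2` ⟹ `g` acts trivially or `g ∘ h = h ∘ T^n` on `ℍ` for some
  `h ∈ SL(2, ℤ)`, `n ≠ 0`.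
-/


set_option autoImplicit false

noncomputable section

open UpperHalfPlane Matrix
open scoped MatrixGroups

namespace Fermat.Agent.S30.H810

/-- the Chebyshev-type sequence `u₀ = 0, u₁ = 1, u_{k+2} = t u_{k+1} - u_k` -/
def chebSeq (t : ℤ) : ℕ → ℤ
  | 0 => 0
  | 1 => 1
  | (k + 2) => t * chebSeq t (k + 1) - chebSeq t k

theorem chebSeq_succ_succ (t : ℤ) (k : ℕ) :
    chebSeq t (k + 2) = t * chebSeq t (k + 1) - chebSeq t k := rfl

theorem chebSeq_abs_lt (t : ℤ) (ht : 2 ≤ |t|) (k : ℕ) :
    |chebSeq t k| + 1 ≤ |chebSeq t (k + 1)| := by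
  induction k with
  | zero => simp [chebSeq]
  | succ k ih =>
    rw [chebSeq_succ_succ]
    have h1 : |t * chebSeq t (k + 1)| - |chebSeq t k| ≤ |t * chebSeq t (k + 1) - chebSeq t k| :=
      abs_sub_abs_le_abs_sub _ _
    have h2 : 2 * |chebSeq t (k + 1)| ≤ |t * chebSeq t (k + 1)| := by
      rw [abs_mul]
      exact mul_le_mul_of_nonneg_right ht (abs_nonneg _)
    linarith

theorem chebSeq_succ_ne_zero (t : ℤ) (ht : 2 ≤ |t|) (k : ℕ) : chebSeq t (k + 1) ≠ 0 := by
  intro h
  have := chebSeq_abs_lt t ht k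
  rw [h, abs_zero] at this
  have := abs_nonneg (chebSeq t k)
  linarith

theorem sq_eq_of_det_one (A : Matrix (Fin 2) (Fin 2) ℤ) (hA : A.det = 1) (t : ℤ)
    (ht : A 0 0 + A 1 1 = t) : A * A = (t : Matrix (Fin 2) (Fin 2) ℤ) * A - 1 := by
  rw [Matrix.det_fin_two] at hA
  subst ht
  ext i j
  fin_cases i <;> fin_cases j <;>
    simp [Matrix.mul_apply, Fin.sum_univ_two, Matrix.intCast_apply] <;> nlinarith

theorem pow_succ_eq_chebSeq (A : Matrix (Fin 2) (Fin 2) ℤ) (hA : A.det = 1) (t : ℤ)
    (ht : A 0 0 + A 1 1 = t) (k : ℕ) :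
    A ^ (k + 1) = (chebSeq t (k + 1) : Matrix (Fin 2) (Fin 2) ℤ) * A
      - (chebSeq t k : Matrix (Fin 2) (Fin 2) ℤ) := by
  induction k with
  | zero => simp [chebSeq]
  | succ k ih =>
    rw [pow_succ, ih, sub_mul, mul_assoc, sq_eq_of_det_one A hA t ht, chebSeq_succ_succ]
    have hc : (chebSeq t (k + 1) : Matrix (Fin 2) (Fin 2) ℤ) * (t : Matrix (Fin 2) (Fin 2) ℤ)
        = (t : Matrix (Fin 2) (Fin 2) ℤ) * (chebSeq t (k + 1) : Matrix (Fin 2) (Fin 2) ℤ) :=
      (Int.cast_commute _ _).eq
    push_cast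
    rw [mul_sub, ← mul_assoc, hc]
    noncomm_ring

/-- A finite-order element of `SL(2, ℤ)` with `|tr| ≥ 2` is `±1`. -/
theorem eq_one_or_neg_one_of_pow_eq_one (g : SL(2, ℤ)) (n : ℕ) (hn : 0 < n) (h : g ^ n = 1)
    (ht : 2 ≤ |g 0 0 + g 1 1|) : g = 1 ∨ g = -1 := by
  obtain ⟨k, rfl⟩ : ∃ k, n = k + 1 := ⟨n - 1, by omega⟩
  have hA : (g : Matrix (Fin 2) (Fin 2) ℤ).det = 1 := g.2
  have hpow : (g : Matrix (Fin 2) (Fin 2) ℤ) ^ (k + 1) = 1 := by
    have := congrArg (fun x : SL(2, ℤ) => (x : Matrix (Fin 2) (Fin 2) ℤ)) h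
    simpa using this
  have hu := chebSeq_succ_ne_zero _ ht k
  have key := pow_succ_eq_chebSeq (g : Matrix (Fin 2) (Fin 2) ℤ) hA _ rfl k
  rw [hpow] at key
  have e00 := congrFun (congrFun key 0) 0
  have e01 := congrFun (congrFun key 0) 1
  have e10 := congrFun (congrFun key 1) 0
  have e11 := congrFun (congrFun key 1) 1
  simp [Matrix.mul_apply, Matrix.intCast_apply] at e00 e01 e10 e11
  have h01 : g 0 1 = 0 := by
    rcases e01 with h | h
    · exact absurd h hu
    · exact h
  have h10 : g 1 0 = 0 := by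
    rcases e10 with h | h
    · exact absurd h hu
    · exact h
  have hd : g 0 0 = g 1 1 := by
    have : chebSeq (g 0 0 + g 1 1) (k + 1) * (g 0 0 - g 1 1) = 0 := by linarith
    rcases mul_eq_zero.mp this with h | h
    · exact absurd h hu
    · linarith
  rw [Matrix.det_fin_two, h01, h10, ← hd] at hA
  have hsq : g 0 0 * g 0 0 = 1 := by linarith
  rcases Int.eq_one_or_neg_one_of_mul_eq_one' hsq with ⟨h1, -⟩ | ⟨h1, -⟩
  · left
    ext i j
    fin_cases i <;> fin_cases j <;> simp [h01, h10, ← hd, h1]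
  · right
    ext i j
    fin_cases i <;> fin_cases j <;> simp [h01, h10, ← hd, h1]

/-- **Finite order.** An element of `SL(2, ℤ)` of finite order acts trivially on `ℍ` or has a
fixed point in `ℍ`. -/
theorem fixed_or_trivial_of_pow_eq_one (g : SL(2, ℤ)) (n : ℕ) (hn : 0 < n) (h : g ^ n = 1) :
    (∀ τ : ℍ, g • τ = τ) ∨ ∃ τ₀ : ℍ, g • τ₀ = τ₀ := by
  by_cases ht : 2 ≤ |g 0 0 + g 1 1|
  · left
    rcases eq_one_or_neg_one_of_pow_eq_one g n hn h ht with rfl | rfl
    · intro τ; exact one_smul _ τ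
    · intro τ
      rw [ModularGroup.SL_neg_smul, one_smul]
  · right
    push Not at ht
    have hdet : ((g : GL (Fin 2) ℝ) : Matrix (Fin 2) (Fin 2) ℝ).det = 1 :=
      (Matrix.SpecialLinearGroup.map (Int.castRingHom ℝ) g).det_coe
    have hpos : 0 < ((g : GL (Fin 2) ℝ) : Matrix (Fin 2) (Fin 2) ℝ).det := by
      rw [hdet]; exact one_pos
    have hell : ((g : GL (Fin 2) ℝ) : Matrix (Fin 2) (Fin 2) ℝ).IsElliptic := by
      rw [Matrix.IsElliptic, Matrix.discr_fin_two, Matrix.trace_fin_two]
      rw [hdet]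
      have h1 : ((g : GL (Fin 2) ℝ) : Matrix (Fin 2) (Fin 2) ℝ) 0 0
          + ((g : GL (Fin 2) ℝ) : Matrix (Fin 2) (Fin 2) ℝ) 1 1 = ((g 0 0 + g 1 1 : ℤ) : ℝ) := by
        simp
      rw [h1]
      have h2 : |((g 0 0 + g 1 1 : ℤ) : ℝ)| < 2 := by
        rw [← Int.cast_abs]
        exact_mod_cast ht
      have h3 := abs_lt.mp h2
      nlinarith
    exact ⟨fixedPt (g : GL (Fin 2) ℝ) hell,
      (gl_smul_eq_self_iff_eq_fixedPt hpos hell).mpr rfl⟩

/-- conjugating into upper triangular form: if `(p, q)` is a primitive eigenvector of `g`, then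
`h⁻¹ g h` is upper triangular for a suitable `h ∈ SL(2, ℤ)`. -/
theorem exists_conj_upper (g : SL(2, ℤ)) (ε p q : ℤ) (hpq : IsCoprime p q)
    (h1 : g 0 0 * p + g 0 1 * q = ε * p) (h2 : g 1 0 * p + g 1 1 * q = ε * q) :
    ∃ h : SL(2, ℤ), (h⁻¹ * g * h) 1 0 = 0 := by
  obtain ⟨u, v, huv⟩ := hpq
  have hdet : (!![p, -v; q, u] : Matrix (Fin 2) (Fin 2) ℤ).det = 1 := by
    rw [Matrix.det_fin_two_of]; linarith
  let h : SL(2, ℤ) := ⟨!![p, -v; q, u], hdet⟩
  have hcoe : (h : Matrix (Fin 2) (Fin 2) ℤ) = !![p, -v; q, u] := rfl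
  refine ⟨h, ?_⟩
  rw [Matrix.SpecialLinearGroup.coe_mul, Matrix.SpecialLinearGroup.coe_mul,
    Matrix.SpecialLinearGroup.coe_inv, Matrix.adjugate_fin_two, hcoe]
  simp [Matrix.mul_apply, Fin.sum_univ_two, Matrix.vecMul, dotProduct]
  linear_combination p * h2 - q * h1

/-- **Trace `±2`.** An element of `SL(2, ℤ)` of trace `±2` is conjugate in `SL(2, ℤ)`, as a
transformation of `ℍ`, to a translation `T ^ n`. -/
theorem parabolic_conj (g : SL(2, ℤ)) (ht : g 0 0 + g 1 1 = 2 ∨ g 0 0 + g 1 1 = -2) :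
    ∃ (h : SL(2, ℤ)) (n : ℤ), ∀ τ : ℍ, g • (h • τ) = h • (ModularGroup.T ^ n • τ) := by
  have hdet : g 0 0 * g 1 1 - g 0 1 * g 1 0 = 1 := by
    have := g.det_coe
    rwa [Matrix.det_fin_two] at this
  obtain ⟨ε, hε, htr⟩ : ∃ ε : ℤ, ε * ε = 1 ∧ g 0 0 + g 1 1 = 2 * ε := by
    rcases ht with h | h
    · exact ⟨1, by norm_num, by rw [h]; norm_num⟩
    · exact ⟨-1, by norm_num, by rw [h]; norm_num⟩
  have key : ∃ h : SL(2, ℤ), (h⁻¹ * g * h) 1 0 = 0 := by
    by_cases hc : g 1 0 = 0
    · exact ⟨1, by simpa using hc⟩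
    · -- primitive eigenvector `(x, c) / gcd`
      set x : ℤ := g 0 0 - ε with hx
      have hxx : x * x = -(g 0 1 * g 1 0) := by
        have hd : g 1 1 = ε - x := by rw [hx]; linarith
        rw [hd] at hdet
        have : (g 0 0) = x + ε := by rw [hx]; ring
        rw [this] at hdet
        nlinarith
      set e : ℤ := ((Int.gcd x (g 1 0) : ℕ) : ℤ) with he
      have he0 : e ≠ 0 := by
        rw [he]
        exact_mod_cast (Int.gcd_pos_of_ne_zero_right x hc).ne'
      obtain ⟨p, hp⟩ : e ∣ x := Int.gcd_dvd_left x (g 1 0)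
      obtain ⟨q, hq⟩ : e ∣ g 1 0 := Int.gcd_dvd_right x (g 1 0)
      have hcop : IsCoprime p q := by
        have hpos : 0 < Int.gcd x (g 1 0) := Int.gcd_pos_of_ne_zero_right x hc
        have h1 : Int.gcd x (g 1 0) = Int.gcd x (g 1 0) * Int.gcd p q := by
          conv_lhs => rw [hp, hq, Int.gcd_mul_left]
          rw [he, Int.natAbs_natCast]
        have h2 : Int.gcd p q = 1 :=
          Nat.eq_of_mul_eq_mul_left hpos (by rw [mul_one]; exact h1.symm)
        exact Int.isCoprime_iff_gcd_eq_one.mpr h2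
      refine exists_conj_upper g ε p q hcop ?_ ?_
      · -- `a p + b q = ε p`
        have h3 : e * (g 0 0 * p + g 0 1 * q) = e * (ε * p) := by
          have hb : e * (g 0 1 * q) = g 0 1 * g 1 0 := by rw [hq]; ring
          have ha : e * (g 0 0 * p) = g 0 0 * x := by rw [hp]; ring
          have hr : e * (ε * p) = ε * x := by rw [hp]; ring
          rw [mul_add, ha, hb, hr]
          have : g 0 0 = x + ε := by rw [hx]; ring
          rw [this]
          linarith
        exact mul_left_cancel₀ he0 h3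
      · have h3 : e * (g 1 0 * p + g 1 1 * q) = e * (ε * q) := by
          have hb : e * (g 1 1 * q) = g 1 1 * g 1 0 := by rw [hq]; ring
          have ha : e * (g 1 0 * p) = g 1 0 * x := by rw [hp]; ring
          have hr : e * (ε * q) = ε * g 1 0 := by rw [hq]; ring
          rw [mul_add, ha, hb, hr]
          have hd : g 1 1 = ε - x := by rw [hx]; linarith
          rw [hd]
          ring
        exact mul_left_cancel₀ he0 h3
  obtain ⟨h, hh⟩ := key
  obtain ⟨n, hn⟩ := ModularGroup.exists_eq_T_zpow_of_c_eq_zero hh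
  refine ⟨h, n, fun τ => ?_⟩
  rw [← hn τ, ← mul_smul, ← mul_smul]
  congr 1
  group

end Fermat.Agent.S30.H810

end
end
-- ===== PACK-END S30/H810/Classify.lean

-- ===== PACK-BEGIN S21/ConjPartner.lean
section


/-!
# S21, interface theorem E1: the complex-conjugation partner

For a weight-2 cusp form `f` on `Γ₀(N)` with equivariant primitive `F`, the function
`g z = conj (f (-conj z))` is again a weight-2 cusp form on `Γ₀(N)`, with equivariant primitive
`G z = - conj (F (-conj z))`, and the periods satisfy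
`G (γ i) - G i = - conj (F ((jγj) i) - F i)`.
-/

set_option autoImplicit false

open ModularCurve ModularCurve.Period UpperHalfPlane CongruenceSubgroup Filter Topology
open scoped MatrixGroups ComplexConjugate ModularForm

namespace Fermat.Agent.S21

namespace ConjPartner

/-- `J γ = (jγj) J` in `GL(2, ℝ)`. -/
lemma J_mul_mapGL (γ : SL(2, ℤ)) :
    J * Matrix.SpecialLinearGroup.mapGL ℝ γ
      = Matrix.SpecialLinearGroup.mapGL ℝ (jConjSL γ) * J := by
  ext i j
  fin_cases i <;> fin_cases j <;>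
    simp [Matrix.mul_apply, Fin.sum_univ_two, jConjMat]

lemma J_inv_eq : (J : GL (Fin 2) ℝ)⁻¹ = J := by
  rw [inv_eq_iff_eq_inv, eq_inv_iff_mul_eq_one, ← sq, J_sq]

lemma J_mul_J : (J : GL (Fin 2) ℝ) * J = 1 := by
  rw [← sq, J_sq]

/-- `σ (γ z) = (jγj) (σ z)` for `σ z = -conj z`. -/
lemma J_smul_smul (γ : SL(2, ℤ)) (z : ℍ) : J • (γ • z) = jConjSL γ • (J • z) := by
  show J • (Matrix.SpecialLinearGroup.mapGL ℝ γ • z)
    = Matrix.SpecialLinearGroup.mapGL ℝ (jConjSL γ) • (J • z)
  rw [← mul_smul, ← mul_smul, J_mul_mapGL]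

lemma J_smul_I : J • UpperHalfPlane.I = UpperHalfPlane.I := by
  ext
  rw [coe_J_smul]
  simp

lemma im_J_smul (z : ℍ) : (J • z).im = z.im := by
  show ((J • z : ℍ) : ℂ).im = (z : ℂ).im
  rw [coe_J_smul]
  simp

lemma tendsto_J_smul_atImInfty : Tendsto (fun z : ℍ => J • z) atImInfty atImInfty := by
  rw [atImInfty, tendsto_comap_iff]
  have : (UpperHalfPlane.im ∘ fun z : ℍ => J • z) = UpperHalfPlane.im := by
    funext z; exact im_J_smul z
  rw [this]
  exact tendsto_comap

open ConjAct Pointwise in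
/-- `J` normalises `Γ₀(N)`. -/
lemma conjAct_J_Gamma0 (N : ℕ) :
    toConjAct (J : GL (Fin 2) ℝ)⁻¹ • ((Gamma0 N : Subgroup SL(2, ℤ)) : Subgroup (GL (Fin 2) ℝ))
      = ((Gamma0 N : Subgroup SL(2, ℤ)) : Subgroup (GL (Fin 2) ℝ)) := by
  ext g
  rw [Subgroup.mem_pointwise_smul_iff_inv_smul_mem, map_inv, inv_inv, ConjAct.toConjAct_smul,
    J_inv_eq]
  constructor
  · rintro ⟨γ, hγ, h⟩
    refine ⟨jConjSL γ, jConjSL_mem_Gamma0 hγ, ?_⟩
    have : g = J * Matrix.SpecialLinearGroup.mapGL ℝ γ * J := by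
      rw [h, mul_assoc, mul_assoc, J_mul_J, mul_one, ← mul_assoc, J_mul_J, one_mul]
    rw [this, J_mul_mapGL, mul_assoc, J_mul_J, mul_one]
  · rintro ⟨γ, hγ, rfl⟩
    refine ⟨jConjSL γ, jConjSL_mem_Gamma0 hγ, ?_⟩
    rw [J_mul_mapGL, mul_assoc, J_mul_J, mul_one]

/-- The cusp form `z ↦ conj (f (-conj z))`. -/
noncomputable def conjForm (N : ℕ) (f : CuspForm (Gamma0 N) 2) : CuspForm (Gamma0 N) 2 where
  toFun := ⇑f ∣[(2 : ℤ)] J
  slash_action_eq' γ hγ :=
    (CuspForm.translate f J).slash_action_eq' γ ((conjAct_J_Gamma0 N).symm ▸ hγ)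
  holo' := (CuspForm.translate f J).holo'
  zero_at_cusps' hc := (CuspForm.translate f J).zero_at_cusps' ((conjAct_J_Gamma0 N).symm ▸ hc)

lemma conjForm_apply (N : ℕ) (f : CuspForm (Gamma0 N) 2) (z : ℍ) :
    conjForm N f z = conj (f (J • z)) := by
  show (⇑f ∣[(2 : ℤ)] J) z = _
  simp [ModularForm.slash_def]

/-- The derivative of `w ↦ - conj (F (-conj w))`. -/
lemma hasDerivAt_conjPrimitive {F : ℍ → ℂ} {τ : ℍ} {a : ℂ}
    (h : HasDerivAt (F ∘ ofComplex) a ↑(J • τ)) :
    HasDerivAt ((fun z : ℍ => - conj (F (J • z))) ∘ ofComplex) (conj a) ↑τ := by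
  have hJ : (↑(J • τ) : ℂ) = -conj (τ : ℂ) := coe_J_smul τ
  have h' : HasDerivAt (F ∘ ofComplex) a (-(conj (τ : ℂ))) := by rw [← hJ]; exact h
  have h1 : HasDerivAt ((F ∘ ofComplex) ∘ Neg.neg) (a * (-1)) (conj (τ : ℂ)) :=
    HasDerivAt.comp (conj (τ : ℂ)) h' (hasDerivAt_neg (conj (τ : ℂ)))
  have h2 : HasDerivAt (conj ∘ ((F ∘ ofComplex) ∘ Neg.neg) ∘ conj) (conj (a * (-1))) (τ : ℂ) := by
    rw [hasDerivAt_conj_conj_iff, Complex.conj_conj]
    exact h1
  have h3 := h2.neg
  have h4 : HasDerivAt (-(conj ∘ ((F ∘ ofComplex) ∘ Neg.neg) ∘ conj)) (conj a) (τ : ℂ) :=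
    h3.congr_deriv (by simp)
  refine h4.congr_of_eventuallyEq ?_
  have hopen : {w : ℂ | 0 < w.im} ∈ 𝓝 (τ : ℂ) :=
    isOpen_upperHalfPlaneSet.mem_nhds τ.im_pos
  filter_upwards [hopen] with w hw
  simp only [Function.comp_apply, Pi.neg_apply]
  rw [J_smul, ofComplex_apply_of_im_pos hw]

/-- `G z = - conj (F (-conj z))` is an equivariant primitive of `conjForm N f`. -/
theorem hasEquivariantPrimitive_conj (N : ℕ) (f : CuspForm (Gamma0 N) 2) {F : ℍ → ℂ}
    (hF : HasEquivariantPrimitive N f F) :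
    HasEquivariantPrimitive N (conjForm N f) (fun z : ℍ => - conj (F (J • z))) := by
  obtain ⟨hderiv, hlim, hequiv, hcusp⟩ := hF
  refine ⟨?_, ?_, ?_, ?_⟩
  · intro τ
    rw [conjForm_apply]
    exact hasDerivAt_conjPrimitive (hderiv (J • τ))
  · have h1 : Tendsto (fun z : ℍ => F (J • z)) atImInfty (𝓝 0) :=
      hlim.comp tendsto_J_smul_atImInfty
    have h2 : Tendsto (fun z : ℍ => conj (F (J • z))) atImInfty (𝓝 (conj (0 : ℂ))) :=
      (Complex.continuous_conj.tendsto 0).comp h1
    have h3 := h2.neg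
    simpa using h3
  · intro γ
    obtain ⟨c, hc⟩ := hequiv (jConjGamma0 N γ)
    refine ⟨-conj c, fun z => ?_⟩
    have := hc (J • z)
    rw [jConjGamma0_coe] at this
    show -conj (F (J • ((γ : SL(2, ℤ)) • z))) - -conj (F (J • z)) = -conj c
    rw [J_smul_smul, ← this, map_sub]
    ring
  · intro δ
    obtain ⟨L, hL⟩ := hcusp (jConjSL δ)
    refine ⟨-conj L, ?_⟩
    have h1 : Tendsto (fun w : ℍ => F (jConjSL δ • (J • w))) atImInfty (𝓝 L) :=
      hL.comp tendsto_J_smul_atImInfty
    have h2 : Tendsto (fun w : ℍ => conj (F (jConjSL δ • (J • w)))) atImInfty (𝓝 (conj L)) :=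
      (Complex.continuous_conj.tendsto L).comp h1
    have h3 := h2.neg
    refine h3.congr fun w => ?_
    show -conj (F (jConjSL δ • (J • w))) = -conj (F (J • (δ • w)))
    rw [J_smul_smul]

end ConjPartner

open ConjPartner in
/-- **E1** (complex conjugation): for every cusp form `f` with primitive `F` there is a cusp form
`g` (namely `z ↦ conj (f (-conj z))`) with primitive `G` such that
`G(γ i) - G(i) = - conj (F((jγj) i) - F(i))`. -/
theorem exists_conj_partner (N : ℕ) [NeZero N] (f : CuspForm (Gamma0 N) 2) {F : ℍ → ℂ}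
    (hF : HasEquivariantPrimitive N f F) :
    ∃ (g : CuspForm (Gamma0 N) 2) (G : ℍ → ℂ), HasEquivariantPrimitive N g G ∧
      ∀ γ : Gamma0 N,
        G ((γ : SL(2, ℤ)) • UpperHalfPlane.I) - G UpperHalfPlane.I =
          - conj (F (((jConjGamma0 N γ : Gamma0 N) : SL(2, ℤ)) • UpperHalfPlane.I)
                    - F UpperHalfPlane.I) := by
  refine ⟨conjForm N f, fun z : ℍ => - conj (F (J • z)),
    hasEquivariantPrimitive_conj N f hF, fun γ => ?_⟩
  show -conj (F (J • ((γ : SL(2, ℤ)) • UpperHalfPlane.I))) - -conj (F (J • UpperHalfPlane.I)) = _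
  rw [J_smul_smul, J_smul_I, jConjGamma0_coe, map_sub]
  ring

end Fermat.Agent.S21

end
-- ===== PACK-END S21/ConjPartner.lean

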