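import Mathlib
import Fermat.Prelude.Def_EllipticCurve_ZeroComponentAt
import Fermat.Prelude.Def_FLTPrelim_Ramification
import Fermat.Prelude.Def_ModularCurve_HeckeModule
import Mathlib.AlgebraicGeometry.EllipticCurve.Affine.Point
import Mathlib.NumberTheory.ModularForms.Derivative
import Mathlib.NumberTheory.ModularForms.LevelOne.DimensionFormula
import Mathlib.NumberTheory.ModularForms.LevelOne.GradedRing
import Mathlib.Analysis.Complex.Liouville
import Fermat.Prelude.Def_AlgebraicCurve_DivisorClassGroup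
import Mathlib.NumberTheory.ModularForms.CongruenceSubgroups
import Mathlib.LinearAlgebra.Matrix.SpecialLinearGroup
import Mathlib.GroupTheory.GroupAction.Quotient
import Mathlib.Data.ZMod.Basic
import Fermat.Prelude.Def_ModularCurve_GenusNumerics
import Fermat.Prelude.Def_ModularCurve_IgusaScheme
import Fermat.Prelude.Def_ModularCurve_X0ModL
import Fermat.Prelude.Def_ModularCurve_ArithmeticGalois
import Fermat.Prelude.Def_ModularCurve_ReductionModL
import Mathlib.RingTheory.Ideal.GoingUp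
import Mathlib.RingTheory.DedekindDomain.Basic
import Mathlib.RingTheory.Polynomial.Quotient
import Mathlib.RingTheory.PrincipalIdealDomain
import Mathlib.RingTheory.IntegralClosure.IsIntegralClosure.Basic
import Mathlib.RingTheory.DedekindDomain.PID
import Mathlib.Algebra.Polynomial.AlgebraMap
import Mathlib.RingTheory.Ideal.Quotient.Noetherian
import Fermat.Prelude.Def_ModularCurve_LaurentCoeff
import Mathlib.NumberTheory.ModularForms.NormTrace
import Mathlib.NumberTheory.ModularForms.Discriminant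
import Mathlib.RingTheory.Nullstellensatz
import Mathlib.RingTheory.MvPolynomial.Homogeneous
import Mathlib.NumberTheory.Height.MvPolynomial
import Mathlib.FieldTheory.IsAlgClosed.AlgebraicClosure
import Fermat.Prelude.Def_AlgebraicCurve_BaseChangeGalois

-- ===== PACK-BEGIN S15/Skeleton.lean
section





/-!
# Row S15 (row-lead helper975): frozen interfaces

`S15` (Mazur's Step 3) is deduced from three nodes:

* `LocStatement`  : local lemma at a multiplicative prime (elementary elliptic-curve theory);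
* `GeoStatement`  : the moduli point, the cuspidal class and the reduction maps (Tower A);
* `DescStatement` : Mazur's Eisenstein descent (the wall).

This file contains only definitions (no `sorry`).  The deduction `S15_of_nodes` is in
`Fermat/Agent/S15/Top.lean`.
-/

set_option autoImplicit false

noncomputable section

open WeierstrassCurve WeierstrassCurve.Affine

namespace Fermat.Agent.S15

/-- the absolute Galois group of `ℚ` -/
abbrev Gal : Type := AlgebraicClosure ℚ ≃ₐ[ℚ] AlgebraicClosure ℚ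

/-- the points of the curve `W` over `ℚ̄` -/
abbrev Pts (W : WeierstrassCurve ℤ) : Type :=
  ((W.map (Int.castRingHom ℚ))⁄(AlgebraicClosure ℚ)).Point

/-- **NODE LOC.** A rational point of prime order `p` which lies in the identity component at a
multiplicative prime `ℓ ≠ p` forces `p ∣ (ℓ - 1) (ℓ + 1)`. -/
def LocStatement : Prop :=
  ∀ {p : ℕ} (_hp : p.Prime) (W : WeierstrassCurve ℤ) (_hΔ : W.Δ ≠ 0) (Q : Pts W)
    (_hQfix : ∀ σ : Gal, σ • Q = Q) (_hQord : addOrderOf Q = p)
    {ℓ : ℕ} (_hℓ : ℓ.Prime) (_hℓp : ℓ ≠ p) (_hℓΔ : (ℓ : ℤ) ∣ W.Δ) (_hℓc₄ : ¬ (ℓ : ℤ) ∣ W.c₄)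
    (A : ValuationSubring (AlgebraicClosure ℚ)) (_hA : A.LiesOverPrime ℓ),
    W.InZeroComponentAt A Q → p ∣ (ℓ - 1) * (ℓ + 1)

/-- `x` is an Eisenstein vector: `T_q x = (1 + q) x` for all primes `q ≠ p`. -/
def IsEisensteinVector (p : ℕ) [NeZero p] (x : ModularCurve.JZero p) : Prop :=
  ∀ q : Nat.Primes, (q : ℕ) ≠ p →
    ModularCurve.heckeOperatorBar p q x = ((1 + (q : ℕ) : ℕ)) • x

/-- The ring of endomorphisms of `J₀(p)(ℚ̄)` generated by the `T_q`, `q ∉ S`, `q ≠ p`. -/
def heckeRingAway (p : ℕ) [NeZero p] (S : Finset ℕ) :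
    Subalgebra ℤ (Module.End ℤ (ModularCurve.JZero p)) :=
  Algebra.adjoin ℤ {T | ∃ q : Nat.Primes, (q : ℕ) ∉ S ∧ (q : ℕ) ≠ p ∧
    T = ModularCurve.heckeOperatorBar p q}

/-- A reduction map for `J₀(p)` at the prime `ℓ`: additive, injective on torsion of order prime
to `ℓ`, with kernel stable under the `T_q`, `q ≠ p, ℓ`. -/
structure IsGoodRed (p ℓ : ℕ) [NeZero p] {Y : Type} [AddCommGroup Y]
    (red : ModularCurve.JZero p →+ Y) : Prop where
  inj : ∀ (m : ℕ) (z : ModularCurve.JZero p), ¬ ℓ ∣ m → m • z = 0 → red z = 0 → z = 0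
  hecke : ∀ q : Nat.Primes, (q : ℕ) ≠ p → (q : ℕ) ≠ ℓ → ∀ z : ModularCurve.JZero p,
    red z = 0 → red (ModularCurve.heckeOperatorBar p q z) = 0

/-- **NODE GEO.** For a rational point `Q` of order `p` on `W`: the cuspidal class `c`, the class
`D` of the moduli point `(E, ⟨Q⟩)` minus a cusp, and, at every multiplicative prime `ℓ ≠ p`, a good
reduction map which sees the component of `Q`. -/
def GeoStatement : Prop :=
  ∀ (p : ℕ) [NeZero p] (_hp : p.Prime) (_hp' : p ∉ ({2, 3, 5, 7, 13} : Finset ℕ))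
    (W : WeierstrassCurve ℤ) (_hΔ : W.Δ ≠ 0) (Q : Pts W)
    (_hQfix : ∀ σ : Gal, σ • Q = Q) (_hQord : addOrderOf Q = p),
    ∃ c D : ModularCurve.JZero p,
      (∀ σ : Gal, σ • c = c) ∧ (∀ σ : Gal, σ • D = D) ∧ c ≠ 0 ∧ (p - 1) • c = 0 ∧
      IsEisensteinVector p c ∧
      ∀ (ℓ : ℕ) (_hℓ : ℓ.Prime) (_hℓp : ℓ ≠ p) (_hℓΔ : (ℓ : ℤ) ∣ W.Δ) (_hℓc₄ : ¬ (ℓ : ℤ) ∣ W.c₄)
        (A : ValuationSubring (AlgebraicClosure ℚ)) (_hA : A.LiesOverPrime ℓ),
        ∃ (Y : Type) (_ : AddCommGroup Y) (red : ModularCurve.JZero p →+ Y),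
          IsGoodRed p ℓ red ∧
          (¬ W.InZeroComponentAt A Q → red D = 0) ∧
          (W.InZeroComponentAt A Q → red D = red c ∨ red D = -red c)

/-- **NODE DESC (the wall: Mazur's Eisenstein descent).** There is a Hecke operator `t`, a
polynomial in the `T_q` with `q ∉ S ∪ {p}`, which maps the Mordell–Weil group `J₀(p)(ℚ)` into
torsion and fixes every Eisenstein vector. -/
def DescStatement : Prop :=
  ∀ (p : ℕ) [NeZero p] (_hp : p.Prime) (_hp' : p ∉ ({2, 3, 5, 7, 13} : Finset ℕ))
    (S : Finset ℕ),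
    ∃ t ∈ heckeRingAway p S,
      (∀ z : ModularCurve.JZero p, (∀ σ : Gal, σ • z = z) → ∃ m : ℕ, 0 < m ∧ m • t z = 0) ∧
      ∀ x : ModularCurve.JZero p, IsEisensteinVector p x → t x = x

end Fermat.Agent.S15

end

end
-- ===== PACK-END S15/Skeleton.lean

-- ===== PACK-BEGIN S05/XId.lean
section


/-!
# x-coordinate identities for the affine group law (S05 helper library)

For nonsingular affine points `P = (x₁, y₁)`, `Q = (x₂, y₂)` with `x₁ ≠ x₂` on a Weierstrass
curve over a field, with `x₃ = x(P + Q)` and `x₄ = x(P - Q)`: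

* `(x₁ - x₂)² (x₃ + x₄) = 2 x₁ x₂ (x₁ + x₂) + b₂ x₁ x₂ + b₄ (x₁ + x₂) + b₆`
* `(x₁ - x₂)² (x₃ x₄) = x₁² x₂² - b₄ x₁ x₂ - b₆ (x₁ + x₂) - b₈`

and the duplication formula
`x(2P) (4 x³ + b₂ x² + 2 b₄ x + b₆) = x⁴ - b₄ x² - 2 b₆ x - b₈`.
-/

set_option autoImplicit false

namespace Fermat.Agent.S05.XId

open WeierstrassCurve WeierstrassCurve.Affine

variable {F : Type*} [Field F] (W : Affine F)

/-- numerator of `x(P+Q) + x(P-Q)` -/
def sumNum (x₁ x₂ : F) : F :=
  2 * x₁ * x₂ * (x₁ + x₂) + W.b₂ * x₁ * x₂ + W.b₄ * (x₁ + x₂) + W.b₆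

/-- numerator of `x(P+Q) * x(P-Q)` -/
def prodNum (x₁ x₂ : F) : F :=
  x₁ ^ 2 * x₂ ^ 2 - W.b₄ * x₁ * x₂ - W.b₆ * (x₁ + x₂) - W.b₈

/-- denominator of the duplication formula, `ψ₂² = 4x³ + b₂x² + 2b₄x + b₆` -/
def dblDen (x : F) : F :=
  4 * x ^ 3 + W.b₂ * x ^ 2 + 2 * W.b₄ * x + W.b₆

/-- numerator of the duplication formula -/
def dblNum (x : F) : F :=
  x ^ 4 - W.b₄ * x ^ 2 - 2 * W.b₆ * x - W.b₈

lemma addX_div (x₁ x₂ n d : F) (hd : d ≠ 0) :
    d ^ 2 * W.addX x₁ x₂ (n / d) = n ^ 2 + W.a₁ * d * n - (W.a₂ + x₁ + x₂) * d ^ 2 := by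
  simp only [addX]
  field_simp
  ring

/-- `ψ₂(P)² = 4x³ + b₂x² + 2b₄x + b₆` on the curve, where `ψ₂(P) = y - negY x y = 2y + a₁x + a₃`. -/
lemma sub_negY_sq {x y : F} (h : W.Equation x y) :
    (y - W.negY x y) ^ 2 = dblDen W x := by
  rw [Affine.equation_iff] at h
  simp only [negY, dblDen, WeierstrassCurve.b₂, WeierstrassCurve.b₄, WeierstrassCurve.b₆]
  linear_combination 4 * h

section

variable [DecidableEq F]

lemma addX_sum {x₁ x₂ y₁ y₂ : F} (h₁ : W.Equation x₁ y₁) (h₂ : W.Equation x₂ y₂)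
    (hx : x₁ ≠ x₂) :
    (x₁ - x₂) ^ 2 * (W.addX x₁ x₂ (W.slope x₁ x₂ y₁ y₂) +
        W.addX x₁ x₂ (W.slope x₁ x₂ y₁ (W.negY x₂ y₂))) = sumNum W x₁ x₂ := by
  rw [Affine.equation_iff] at h₁ h₂
  have hd : x₁ - x₂ ≠ 0 := sub_ne_zero.mpr hx
  rw [slope_of_X_ne hx, slope_of_X_ne hx, mul_add, addX_div W _ _ _ _ hd,
    addX_div W _ _ _ _ hd]
  simp only [negY, sumNum, WeierstrassCurve.b₂, WeierstrassCurve.b₄, WeierstrassCurve.b₆]
  linear_combination 2 * h₁ + 2 * h₂

lemma addX_prod {x₁ x₂ y₁ y₂ : F} (h₁ : W.Equation x₁ y₁) (h₂ : W.Equation x₂ y₂)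
    (hx : x₁ ≠ x₂) :
    (x₁ - x₂) ^ 2 * (W.addX x₁ x₂ (W.slope x₁ x₂ y₁ y₂) *
        W.addX x₁ x₂ (W.slope x₁ x₂ y₁ (W.negY x₂ y₂))) = prodNum W x₁ x₂ := by
  rw [Affine.equation_iff] at h₁ h₂
  have hd : x₁ - x₂ ≠ 0 := sub_ne_zero.mpr hx
  have hd2 : (x₁ - x₂) ^ 2 ≠ 0 := pow_ne_zero 2 hd
  apply mul_left_cancel₀ hd2
  have e3 := addX_div W x₁ x₂ (y₁ - y₂) (x₁ - x₂) hd
  have e4 := addX_div W x₁ x₂ (y₁ - W.negY x₂ y₂) (x₁ - x₂) hd
  rw [slope_of_X_ne hx, slope_of_X_ne hx]
  have key : (x₁ - x₂) ^ 2 * ((x₁ - x₂) ^ 2 * (W.addX x₁ x₂ ((y₁ - y₂) / (x₁ - x₂)) *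
      W.addX x₁ x₂ ((y₁ - W.negY x₂ y₂) / (x₁ - x₂)))) =
      ((x₁ - x₂) ^ 2 * W.addX x₁ x₂ ((y₁ - y₂) / (x₁ - x₂))) *
      ((x₁ - x₂) ^ 2 * W.addX x₁ x₂ ((y₁ - W.negY x₂ y₂) / (x₁ - x₂))) := by ring
  rw [key, e3, e4]
  simp only [negY, prodNum, WeierstrassCurve.b₄, WeierstrassCurve.b₆, WeierstrassCurve.b₈]
  linear_combination
    (y₁ ^ 2 + y₁ * x₁ * W.a₁ + y₁ * W.a₃ - 2 * y₂ ^ 2 - 2 * y₂ * x₂ * W.a₁ - 2 * y₂ * W.a₃
      - x₁ ^ 3 + 2 * x₁ ^ 2 * x₂ - x₁ ^ 2 * W.a₂ + 2 * x₁ * x₂ ^ 2 + x₁ * x₂ * W.a₁ ^ 2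
      + 4 * x₁ * x₂ * W.a₂ + x₁ * W.a₁ * W.a₃ + x₁ * W.a₄ - 2 * x₂ ^ 3 - x₂ ^ 2 * W.a₁ ^ 2
      - 2 * x₂ ^ 2 * W.a₂ - x₂ * W.a₁ * W.a₃ + W.a₆) * h₁ +
    (y₂ ^ 2 + y₂ * x₂ * W.a₁ + y₂ * W.a₃ - 4 * x₁ ^ 3 + 2 * x₁ ^ 2 * x₂ - x₁ ^ 2 * W.a₁ ^ 2
      - 4 * x₁ ^ 2 * W.a₂ + 2 * x₁ * x₂ ^ 2 + x₁ * x₂ * W.a₁ ^ 2 + 4 * x₁ * x₂ * W.a₂
      - x₁ * W.a₁ * W.a₃ - 2 * x₁ * W.a₄ - x₂ ^ 3 - x₂ ^ 2 * W.a₂ + x₂ * W.a₁ * W.a₃
      + x₂ * W.a₄ - W.a₆) * h₂

lemma addX_dbl {x y : F} (h : W.Equation x y) (hy : y ≠ W.negY x y) :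
    W.addX x x (W.slope x x y y) * dblDen W x = dblNum W x := by
  have hd : y - W.negY x y ≠ 0 := sub_ne_zero.mpr hy
  rw [slope_of_Y_ne rfl hy, ← sub_negY_sq W h, mul_comm, addX_div W _ _ _ _ hd]
  rw [Affine.equation_iff] at h
  simp only [negY, dblNum, WeierstrassCurve.b₄, WeierstrassCurve.b₆, WeierstrassCurve.b₈]
  linear_combination (-8 * x - W.a₁ ^ 2 - 4 * W.a₂) * h


variable {W}

/-- `P + Q` and `P - Q` for affine points with distinct `x`-coordinates, with the sum and product
formulas for their `x`-coordinates. -/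
theorem add_sub_some {x₁ x₂ y₁ y₂ : F} (h₁ : W.Nonsingular x₁ y₁) (h₂ : W.Nonsingular x₂ y₂)
    (hx : x₁ ≠ x₂) :
    ∃ (x₃ y₃ x₄ y₄ : F) (h₃ : W.Nonsingular x₃ y₃) (h₄ : W.Nonsingular x₄ y₄),
      Point.some x₁ y₁ h₁ + Point.some x₂ y₂ h₂ = Point.some x₃ y₃ h₃ ∧
      Point.some x₁ y₁ h₁ - Point.some x₂ y₂ h₂ = Point.some x₄ y₄ h₄ ∧
      (x₁ - x₂) ^ 2 * (x₃ + x₄) = sumNum W x₁ x₂ ∧
      (x₁ - x₂) ^ 2 * (x₃ * x₄) = prodNum W x₁ x₂ := by
  have h₂' : W.Nonsingular x₂ (W.negY x₂ y₂) := (nonsingular_neg ..).mpr h₂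
  refine ⟨_, _, _, _, nonsingular_add h₁ h₂ fun hxy => hx hxy.left,
    nonsingular_add h₁ h₂' fun hxy => hx hxy.left, Point.add_of_X_ne hx, ?_,
    addX_sum W h₁.1 h₂.1 hx, addX_prod W h₁.1 h₂.1 hx⟩
  rw [sub_eq_add_neg, Point.neg_some, Point.add_of_X_ne hx]

/-- Duplication: if `P = (x, y)` is not 2-torsion then `2P = (x', y')` with
`x' * (4x³ + b₂x² + 2b₄x + b₆) = x⁴ - b₄x² - 2b₆x - b₈`. -/
theorem add_self_some {x y : F} (h : W.Nonsingular x y) (hy : y ≠ W.negY x y) :
    ∃ (x' y' : F) (h' : W.Nonsingular x' y'),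
      Point.some x y h + Point.some x y h = Point.some x' y' h' ∧
      x' * dblDen W x = dblNum W x ∧ dblDen W x ≠ 0 := by
  refine ⟨_, _, nonsingular_add h h fun hxy => hy hxy.right, Point.add_self_of_Y_ne hy,
    addX_dbl W h.1 hy, ?_⟩
  rw [← sub_negY_sq W h.1]
  exact pow_ne_zero 2 (sub_ne_zero.mpr hy)

omit [DecidableEq F] in
/-- If `P = (x, y)` is 2-torsion then `4x³ + b₂x² + 2b₄x + b₆ = 0`. -/
theorem dblDen_eq_zero_of_Y_eq {x y : F} (h : W.Equation x y) (hy : y = W.negY x y) :
    dblDen W x = 0 := by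
  rw [← sub_negY_sq W h, sub_eq_zero.mpr hy]
  ring

end

end Fermat.Agent.S05.XId

end
-- ===== PACK-END S05/XId.lean

-- ===== PACK-BEGIN S24/H84/LaurentDeriv.lean
section


/-!
# `d/dz` on Laurent series as a derivation (helper84, S24 piece KD3)

Mathlib has `LaurentSeries.derivative` only as a linear map.  We prove the Leibniz rule,
package it as a `Derivation`, and compute orders.
-/

set_option autoImplicit false

noncomputable section

namespace Fermat.Agent.S24.H84

open HahnSeries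

section Ring

variable {C : Type*} [CommRing C]

theorem laurent_derivative_coeff (f : LaurentSeries C) (n : ℤ) :
    (LaurentSeries.derivative C f).coeff n = ((n + 1 : ℤ) : C) * f.coeff (n + 1) := by
  rw [LaurentSeries.derivative_apply, LaurentSeries.hasseDeriv_coeff]
  simp [zsmul_eq_mul]

theorem laurent_derivative_ofPowerSeries (P : PowerSeries C) :
    LaurentSeries.derivative C (P : LaurentSeries C) =
      ((PowerSeries.derivative C P : PowerSeries C) : LaurentSeries C) := by
  ext n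
  rw [laurent_derivative_coeff, PowerSeries.coeff_coe, PowerSeries.coeff_coe]
  by_cases hn : n < 0
  · rw [if_pos hn]
    by_cases hn1 : n + 1 < 0
    · rw [if_pos hn1, mul_zero]
    · have : n + 1 = 0 := by omega
      rw [this]; simp
  · rw [if_neg hn, if_neg (by omega)]
    obtain ⟨k, rfl⟩ := Int.eq_ofNat_of_zero_le (not_lt.mp hn)
    have h1 : ((k : ℤ) + 1).natAbs = k + 1 := by omega
    rw [h1, Int.natAbs_natCast, PowerSeries.coeff_derivative]
    push_cast
    ring

theorem laurent_derivative_single_mul (n : ℤ) (h : LaurentSeries C) :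
    LaurentSeries.derivative C (single n (1 : C) * h) =
      (n : C) • (single (n - 1) (1 : C) * h) + single n (1 : C) * LaurentSeries.derivative C h := by
  ext k
  rw [laurent_derivative_coeff, HahnSeries.coeff_add, HahnSeries.coeff_smul,
    coeff_single_mul, coeff_single_mul, coeff_single_mul, laurent_derivative_coeff]
  have e1 : k - (n - 1) = k + 1 - n := by ring
  have e2 : k - n + 1 = k + 1 - n := by ring
  rw [e1, e2]
  simp only [one_mul, smul_eq_mul]
  push_cast
  ring

theorem laurent_derivative_mul (f g : LaurentSeries C) :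
    LaurentSeries.derivative C (f * g) =
      f * LaurentSeries.derivative C g + g * LaurentSeries.derivative C f := by
  obtain ⟨a, P, rfl⟩ : ∃ (a : ℤ) (P : PowerSeries C), f = single a (1 : C) * (P : LaurentSeries C) :=
    ⟨_, _, (LaurentSeries.single_order_mul_powerSeriesPart f).symm⟩
  obtain ⟨b, Q, rfl⟩ : ∃ (b : ℤ) (Q : PowerSeries C), g = single b (1 : C) * (Q : LaurentSeries C) :=
    ⟨_, _, (LaurentSeries.single_order_mul_powerSeriesPart g).symm⟩
  have hfg : single a (1 : C) * (P : LaurentSeries C) * (single b (1 : C) * (Q : LaurentSeries C))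
      = single (a + b) (1 : C) * ((P * Q : PowerSeries C) : LaurentSeries C) := by
    have : single (a + b) (1 : C) = single a (1 : C) * single b (1 : C) := by
      rw [single_mul_single, one_mul]
    rw [this]
    push_cast
    ring
  rw [hfg, laurent_derivative_single_mul, laurent_derivative_single_mul,
    laurent_derivative_single_mul, laurent_derivative_ofPowerSeries,
    laurent_derivative_ofPowerSeries, laurent_derivative_ofPowerSeries,
    Derivation.leibniz, smul_eq_mul, smul_eq_mul]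
  have h1 : single (a + b - 1) (1 : C) = single (a - 1) (1 : C) * single b (1 : C) := by
    rw [single_mul_single, one_mul, show a - 1 + b = a + b - 1 by omega]
  have h2 : single (a + b - 1) (1 : C) = single a (1 : C) * single (b - 1) (1 : C) := by
    rw [single_mul_single, one_mul, show a + (b - 1) = a + b - 1 by omega]
  have h3 : single (a + b) (1 : C) = single a (1 : C) * single b (1 : C) := by
    rw [single_mul_single, one_mul]
  simp only [← HahnSeries.C_mul_eq_smul, PowerSeries.coe_add, PowerSeries.coe_mul]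
  push_cast
  rw [h3]
  have h4 : (HahnSeries.C ((a : C) + (b : C)) : LaurentSeries C) * single (a + b - 1) (1 : C)
      = HahnSeries.C (a : C) * (single (a - 1) (1 : C) * single b (1 : C))
        + HahnSeries.C (b : C) * (single a (1 : C) * single (b - 1) (1 : C)) := by
    rw [← h1, ← h2, map_add]; ring
  linear_combination ((P : LaurentSeries C) * (Q : LaurentSeries C)) * h4

theorem laurent_algebraMap_eq_C (c : C) :
    algebraMap C (LaurentSeries C) c = HahnSeries.C c := by
  rw [HahnSeries.algebraMap_apply', ← HahnSeries.ofPowerSeries_C]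
  rfl

/-- The two `C`-actions on `C((z))` (via `Algebra.toModule` and via `HahnSeries.instModule`)
agree. -/
theorem laurent_algebra_smul_eq (c : C) (f : LaurentSeries C) :
    (@HSMul.hSMul C (LaurentSeries C) _
      (@instHSMul C (LaurentSeries C) (Algebra.toModule.toSMul)) c f) = HahnSeries.C c * f := by
  rw [Algebra.smul_def, laurent_algebraMap_eq_C]

/-- `d/dz` on `C((z))` as a `C`-derivation. -/
def laurentD (C : Type*) [CommRing C] : Derivation C (LaurentSeries C) (LaurentSeries C) where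
  toFun f := LaurentSeries.derivative C f
  map_add' f g := map_add _ f g
  map_smul' c f := by
    ext n
    simp only [RingHom.id_apply, laurent_derivative_coeff]
    rw [laurent_algebra_smul_eq,
      HahnSeries.C_mul_eq_smul, HahnSeries.coeff_smul,
      HahnSeries.coeff_smul, laurent_derivative_coeff]
    simp only [smul_eq_mul]
    ring
  map_one_eq_zero' := by
    ext n
    show (LaurentSeries.derivative C (1 : LaurentSeries C)).coeff n = _
    rw [laurent_derivative_coeff]
    by_cases hn : n + 1 = 0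
    · rw [hn]; simp
    · rw [HahnSeries.coeff_one, if_neg hn]; simp
  leibniz' f g := by
    show LaurentSeries.derivative C (f * g) = _
    rw [laurent_derivative_mul]
    simp [smul_eq_mul]

@[simp] theorem laurentD_apply (f : LaurentSeries C) :
    laurentD C f = LaurentSeries.derivative C f := rfl

theorem laurentD_coeff (f : LaurentSeries C) (n : ℤ) :
    (laurentD C f).coeff n = ((n + 1 : ℤ) : C) * f.coeff (n + 1) :=
  laurent_derivative_coeff f n

theorem laurentD_C (c : C) : laurentD C (HahnSeries.C c) = 0 := by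
  ext n
  rw [laurentD_coeff, HahnSeries.C_apply, HahnSeries.coeff_single]
  by_cases hn : n + 1 = 0
  · rw [hn]; simp
  · rw [if_neg hn]; simp

end Ring

section Field

variable {C : Type*} [Field C] [CharZero C]

/-- In characteristic zero, `ord (df/dz) = ord f - 1` whenever `ord f ≠ 0`. -/
theorem laurentD_order {f : LaurentSeries C} (hf : f.order ≠ 0) :
    (laurentD C f).order = f.order - 1 := by
  have hf0 : f ≠ 0 := by rintro rfl; simp at hf
  have hc : (laurentD C f).coeff (f.order - 1) ≠ 0 := by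
    rw [laurentD_coeff, sub_add_cancel]
    refine mul_ne_zero (by exact_mod_cast hf) ?_
    rw [← HahnSeries.leadingCoeff_eq]
    exact HahnSeries.leadingCoeff_ne_zero.2 hf0
  have hne : laurentD C f ≠ 0 := by
    intro h; rw [h] at hc; simp at hc
  refine le_antisymm (HahnSeries.order_le_of_coeff_ne_zero hc) ?_
  by_contra hlt
  rw [not_le] at hlt
  have h2 : (laurentD C f).coeff (laurentD C f).order ≠ 0 := by
    rw [← HahnSeries.leadingCoeff_eq]
    exact HahnSeries.leadingCoeff_ne_zero.2 hne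
  apply h2
  rw [laurentD_coeff, HahnSeries.coeff_eq_zero_of_lt_order (by omega), mul_zero]

theorem laurentD_ne_zero {f : LaurentSeries C} (hf : f.order ≠ 0) : laurentD C f ≠ 0 := by
  have hf0 : f ≠ 0 := by rintro rfl; simp at hf
  intro h
  have hc : (laurentD C f).coeff (f.order - 1) ≠ 0 := by
    rw [laurentD_coeff, sub_add_cancel]
    refine mul_ne_zero (by exact_mod_cast hf) ?_
    rw [← HahnSeries.leadingCoeff_eq]
    exact HahnSeries.leadingCoeff_ne_zero.2 hf0
  rw [h] at hc
  simp at hc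

omit [CharZero C] in
/-- In general `ord (df/dz) ≥ ord f - 1` (when `df/dz ≠ 0`). -/
theorem laurentD_order_ge {f : LaurentSeries C} (hdf : laurentD C f ≠ 0) :
    f.order - 1 ≤ (laurentD C f).order := by
  by_contra hlt
  rw [not_le] at hlt
  have h2 : (laurentD C f).coeff (laurentD C f).order ≠ 0 := by
    rw [← HahnSeries.leadingCoeff_eq]
    exact HahnSeries.leadingCoeff_ne_zero.2 hdf
  apply h2
  rw [laurentD_coeff, HahnSeries.coeff_eq_zero_of_lt_order (by omega), mul_zero]

/-- `df/dz = 0` iff `f` is constant (characteristic zero). -/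
theorem laurentD_eq_zero_iff {f : LaurentSeries C} :
    laurentD C f = 0 ↔ f = HahnSeries.C (f.coeff 0) := by
  constructor
  · intro h
    ext n
    rw [HahnSeries.C_apply, HahnSeries.coeff_single]
    by_cases hn : n = 0
    · rw [if_pos hn, hn]
    · rw [if_neg hn]
      have := congrArg (fun g : LaurentSeries C => g.coeff (n - 1)) h
      simp only [laurentD_coeff, sub_add_cancel, HahnSeries.coeff_zero] at this
      rcases mul_eq_zero.1 this with h1 | h1
      · exact absurd (by exact_mod_cast h1) hn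
      · exact h1
  · intro h
    rw [h, laurentD_C]

end Field

end Fermat.Agent.S24.H84

end
end
-- ===== PACK-END S24/H84/LaurentDeriv.lean

-- ===== PACK-BEGIN S20/L1/Ramanujan.lean
section





/-!
# Level-one input for S20: Ramanujan identities and simple zeros

(helper140) Serre derivative of a level-one modular form is a level-one modular form;
Ramanujan identities for `E₄`, `E₆`, `Δ`; simple zeros.
-/

set_option autoImplicit false

open UpperHalfPlane ModularForm EisensteinSeries Derivative Filter Topology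
open scoped MatrixGroups Manifold

noncomputable section

namespace Fermat.Agent.S20.L1

/-- If `F` is holomorphic on `ℍ` and bounded at `i∞`, then its derivative tends to zero
at `i∞` (Cauchy estimate on discs of growing radius). -/
theorem isZeroAtImInfty_normalizedDeriv {F : ℍ → ℂ} (hF : MDiff F)
    (hb : IsBoundedAtImInfty F) : IsZeroAtImInfty (D F) := by
  rw [isBoundedAtImInfty_iff] at hb
  obtain ⟨M, A, hMA⟩ := hb
  rw [isZeroAtImInfty_iff]
  intro ε hε
  -- we may assume `M ≥ 0` and `A ≥ 1`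
  set M' : ℝ := max M 0 with hM'
  set A' : ℝ := max A 1 with hA'
  have hM'0 : 0 ≤ M' := le_max_right _ _
  set R : ℝ := M' / ε + 1 with hR
  have hRpos : 0 < R := by positivity
  refine ⟨A' + R, fun z hz ↦ ?_⟩
  have hdiff : DifferentiableOn ℂ (F ∘ ofComplex) upperHalfPlaneSet :=
    _root_.UpperHalfPlane.mdifferentiable_iff.mp hF
  have hsub : Metric.closedBall (z : ℂ) R ⊆ upperHalfPlaneSet := by
    intro w hw
    have h1 : |w.im - (z : ℂ).im| ≤ R := by
      have := Complex.abs_im_le_norm (w - z)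
      rw [Complex.sub_im] at this
      exact this.trans (by simpa [dist_eq_norm] using hw)
    have h2 : (z : ℂ).im = z.im := rfl
    have h3 : A' + R ≤ (z : ℂ).im := by simpa using hz
    have h4 : (1 : ℝ) ≤ A' := le_max_right _ _
    have h5 := abs_le.mp h1
    show 0 < w.im
    linarith [h5.1]
  have hd : DiffContOnCl ℂ (F ∘ ofComplex) (Metric.ball (z : ℂ) R) := by
    refine DifferentiableOn.diffContOnCl ?_
    rw [closure_ball _ hRpos.ne']
    exact hdiff.mono hsub
  have hC : ∀ w ∈ Metric.sphere (z : ℂ) R, ‖(F ∘ ofComplex) w‖ ≤ M' := by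
    intro w hw
    have hwU : w ∈ upperHalfPlaneSet := hsub (Metric.sphere_subset_closedBall hw)
    have h1 : |w.im - (z : ℂ).im| ≤ R := by
      have := Complex.abs_im_le_norm (w - z)
      rw [Complex.sub_im] at this
      exact this.trans (by simpa [dist_eq_norm] using (Metric.sphere_subset_closedBall hw))
    have h3 : A' + R ≤ (z : ℂ).im := by simpa using hz
    have h5 := abs_le.mp h1
    have hA : A ≤ (ofComplex w).im := by
      rw [ofComplex_apply_of_im_pos hwU]
      show A ≤ w.im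
      have : A ≤ A' := le_max_left _ _
      linarith [h5.1]
    exact (hMA _ hA).trans (le_max_left _ _)
  have key := Complex.norm_deriv_le_of_forall_mem_sphere_norm_le hRpos hd hC
  have h2pi : ‖(2 * (Real.pi : ℂ) * Complex.I)‖ = 2 * Real.pi := by
    simp [abs_of_pos Real.pi_pos]
  rw [normalizedDerivOfComplex, norm_mul, norm_inv, h2pi]
  have hpi : (1 : ℝ) ≤ 2 * Real.pi := by linarith [Real.two_le_pi]
  have hMR : M' / R ≤ ε := by
    rw [div_le_iff₀ hRpos, hR]
    have : M' = ε * (M' / ε) := by field_simp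
    nlinarith
  calc (2 * Real.pi)⁻¹ * ‖deriv (F ∘ ofComplex) ↑z‖
      ≤ 1 * ‖deriv (F ∘ ofComplex) ↑z‖ := by
        gcongr
        exact inv_le_one_of_one_le₀ hpi
    _ ≤ ε := by rw [one_mul]; exact key.trans hMR

/-- Build a level-one modular form from function-level data. -/
def mkLevelOne (k : ℤ) (F : ℍ → ℂ) (hol : MDiff F) (inv : ∀ γ : SL(2, ℤ), F ∣[k] γ = F)
    (bdd : IsBoundedAtImInfty F) : ModularForm 𝒮ℒ k where
  toFun := F
  slash_action_eq' A hA := by
    obtain ⟨A, rfl⟩ := hA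
    exact inv A
  holo' := hol
  bdd_at_cusps' hc := by
    rw [Subgroup.IsArithmetic.isCusp_iff_isCusp_SL2Z] at hc
    rw [OnePoint.isBoundedAt_iff_forall_SL2Z hc]
    intro γ _
    rw [inv γ]
    exact bdd

@[simp]
lemma coe_mkLevelOne (k : ℤ) (F : ℍ → ℂ) (hol : MDiff F) (inv : ∀ γ : SL(2, ℤ), F ∣[k] γ = F)
    (bdd : IsBoundedAtImInfty F) : ⇑(mkLevelOne k F hol inv bdd) = F := rfl

lemma levelOne_slash_eq {k : ℤ} (f : ModularForm 𝒮ℒ k) (γ : SL(2, ℤ)) :
    (f : ℍ → ℂ) ∣[k] γ = f :=
  SlashInvariantFormClass.slash_action_eq f _ ⟨γ, rfl⟩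

lemma levelOne_isBoundedAtImInfty {k : ℤ} (f : ModularForm 𝒮ℒ k) :
    IsBoundedAtImInfty (f : ℍ → ℂ) := by
  have := ModularFormClass.bdd_at_infty_slash f (1 : SL(2, ℤ))
  simpa using this

/-- The Serre derivative of a level-one modular form is bounded at `i∞`. -/
lemma isBoundedAtImInfty_serreDerivative {k : ℤ} (f : ModularForm 𝒮ℒ k) :
    IsBoundedAtImInfty (serreDerivative (k : ℂ) (f : ℍ → ℂ)) := by
  have h1 : IsBoundedAtImInfty (D (f : ℍ → ℂ)) :=
    (isZeroAtImInfty_normalizedDeriv f.holo' (levelOne_isBoundedAtImInfty f)).isBoundedAtImInfty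
  have h2 : IsBoundedAtImInfty (fun z ↦ (k : ℂ) * 12⁻¹ * E2 z * f z) := by
    have h3 : IsBoundedAtImInfty (fun z ↦ E2 z * f z) :=
      isBoundedAtImInfty_E2.mul (levelOne_isBoundedAtImInfty f)
    have h4 := h3.const_mul_left ((k : ℂ) * 12⁻¹)
    refine h4.congr_left ?_ |>.trans (Asymptotics.isBigO_refl _ _) 
    intro z
    simp [mul_assoc]
  rw [serreDerivative_eq]
  exact h1.sub h2

/-- The Serre derivative of a level-one modular form, as a modular form of weight `k + 2`. -/
def serreDerivativeForm {k : ℤ} (f : ModularForm 𝒮ℒ k) : ModularForm 𝒮ℒ (k + 2) :=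
  mkLevelOne (k + 2) (serreDerivative (k : ℂ) (f : ℍ → ℂ))
    (serreDerivative_mdifferentiable _ f.holo')
    (fun γ ↦ serreDerivative_slash_invariant f.holo' (levelOne_slash_eq f γ))
    (isBoundedAtImInfty_serreDerivative f)

@[simp]
lemma serreDerivativeForm_apply {k : ℤ} (f : ModularForm 𝒮ℒ k) (z : ℍ) :
    serreDerivativeForm f z = D (f : ℍ → ℂ) z - (k : ℂ) * 12⁻¹ * E2 z * f z := rfl

/-- A periodic holomorphic function bounded at `i∞` tends to the value of its cusp function
at `0`. -/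
lemma tendsto_atImInfty_cuspFunction {f : ℍ → ℂ} {h : ℝ} (hh : 0 < h)
    (hfper : Function.Periodic (f ∘ ofComplex) h) (hfhol : MDiff f)
    (hfbdd : IsBoundedAtImInfty f) :
    Tendsto f atImInfty (𝓝 (cuspFunction h f 0)) := by
  have han := analyticAt_cuspFunction_zero hh hfper hfhol hfbdd
  have : (cuspFunction h f ∘ fun τ : ℍ ↦ Function.Periodic.qParam h τ : ℍ → ℂ) = f := by
    funext τ
    simpa using eq_cuspFunction τ hh.ne' hfper
  simpa [this] using han.continuousAt.tendsto.comp (qParam_tendsto_atImInfty hh)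

/-- A level-one modular form tends to its zeroth `q`-expansion coefficient at `i∞`. -/
lemma levelOne_tendsto_atImInfty {k : ℤ} (f : ModularForm 𝒮ℒ k) :
    Tendsto (f : ℍ → ℂ) atImInfty (𝓝 ((qExpansion 1 f).coeff 0)) := by
  have hper := SlashInvariantFormClass.periodic_comp_ofComplex f one_mem_strictPeriods_SL
  have h1 := tendsto_atImInfty_cuspFunction one_pos hper f.holo' (levelOne_isBoundedAtImInfty f)
  have han := analyticAt_cuspFunction_zero one_pos hper f.holo' (levelOne_isBoundedAtImInfty f)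
  rwa [qExpansion_coeff_zero one_pos han hper, ← cuspFunction_apply_zero one_pos han hper]

lemma tendsto_E₄ : Tendsto (E₄ : ℍ → ℂ) atImInfty (𝓝 1) := by
  simpa [E_qExpansion_coeff_zero (by norm_num : 3 ≤ 4) ⟨2, rfl⟩] using levelOne_tendsto_atImInfty E₄

lemma tendsto_E₆ : Tendsto (E₆ : ℍ → ℂ) atImInfty (𝓝 1) := by
  simpa [E_qExpansion_coeff_zero (by norm_num : 3 ≤ 6) ⟨3, rfl⟩] using levelOne_tendsto_atImInfty E₆

lemma E2_periodic : Function.Periodic (E2 ∘ ofComplex) 1 := by
  intro w
  simp only [Function.comp_apply]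
  by_cases hw : 0 < w.im
  · have hw' : 0 < (w + 1).im := by simpa using hw
    rw [ofComplex_apply_of_im_pos hw, ofComplex_apply_of_im_pos hw']
    have h1 := (hasSum_qExpansion_E2 (z := ⟨w + 1, hw'⟩)).tsum_eq
    have h2 := (hasSum_qExpansion_E2 (z := ⟨w, hw⟩)).tsum_eq
    rw [← h1, ← h2]
    congr 1
    funext m
    congr 2
    rw [mul_add, Complex.exp_add]
    simp
  · have hw' : ¬ 0 < (w + 1).im := by simpa using hw
    rw [ofComplex_apply_of_im_nonpos (not_lt.mp hw), ofComplex_apply_of_im_nonpos (not_lt.mp hw')]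

lemma tendsto_E2 : Tendsto E2 atImInfty (𝓝 1) := by
  have h1 := tendsto_atImInfty_cuspFunction one_pos E2_periodic E2_mdifferentiable
    isBoundedAtImInfty_E2
  have han := analyticAt_cuspFunction_zero one_pos E2_periodic E2_mdifferentiable
    isBoundedAtImInfty_E2
  have hps := hasFPowerSeriesOnBall_cuspFunction (f := E2)
    (c := fun m : ℕ ↦ (if m = 0 then 1 else -24 * ArithmeticFunction.sigma 1 m : ℂ)) one_pos han
    (fun τ ↦ by
      simpa only [Function.Periodic.qParam, Complex.ofReal_one, div_one] using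
        hasSum_qExpansion_E2 (z := τ))
  have h0 := hps.coeff_zero 1
  simp [FormalMultilinearSeries.ofScalars] at h0
  rwa [← h0] at h1

lemma tendsto_serreDerivativeForm {k : ℤ} (f : ModularForm 𝒮ℒ k) {a : ℂ}
    (hf : Tendsto (f : ℍ → ℂ) atImInfty (𝓝 a)) :
    Tendsto (serreDerivativeForm f : ℍ → ℂ) atImInfty (𝓝 (-((k : ℂ) * 12⁻¹ * a))) := by
  have h1 : Tendsto (D (f : ℍ → ℂ)) atImInfty (𝓝 0) :=
    isZeroAtImInfty_normalizedDeriv f.holo' (levelOne_isBoundedAtImInfty f)
  have h2 : Tendsto (fun z ↦ (k : ℂ) * 12⁻¹ * E2 z * f z) atImInfty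
      (𝓝 ((k : ℂ) * 12⁻¹ * 1 * a)) :=
    (tendsto_E2.const_mul _).mul hf
  have h3 := h1.sub h2
  simp only [mul_one, zero_sub] at h3
  exact h3

/-- If two level-one forms of the same weight are proportional and we know their limits
at `i∞`, we can read off the constant. -/
lemma eq_smul_of_rank_one {k : ℤ} (hrank : Module.rank ℂ (ModularForm 𝒮ℒ k) = 1)
    (g f : ModularForm 𝒮ℒ k) {a b : ℂ} (hb : b ≠ 0)
    (hg : Tendsto (g : ℍ → ℂ) atImInfty (𝓝 a)) (hf : Tendsto (f : ℍ → ℂ) atImInfty (𝓝 b)) :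
    ∀ z, g z = a / b * f z := by
  have hf0 : f ≠ 0 := by
    rintro rfl
    have : Tendsto (fun _ : ℍ ↦ (0 : ℂ)) atImInfty (𝓝 b) := hf
    exact hb (tendsto_nhds_unique this tendsto_const_nhds)
  obtain ⟨c, hc⟩ := (finrank_eq_one_iff_of_nonzero' f hf0).mp
    (Module.rank_eq_one_iff_finrank_eq_one.mp hrank) g
  have hcz : ∀ z, g z = c * f z := fun z ↦ by rw [← hc]; rfl
  have hlim : Tendsto (g : ℍ → ℂ) atImInfty (𝓝 (c * b)) := by
    have := hf.const_mul c
    refine this.congr fun z ↦ (hcz z).symm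
  have hab : a = c * b := tendsto_nhds_unique hg hlim
  intro z
  rw [hcz z, hab]
  field_simp

lemma levelOne_weight_eight_rank_one : Module.rank ℂ (ModularForm 𝒮ℒ 8) = 1 := by
  have := dimension_level_one 8 ⟨4, rfl⟩
  simpa [Nat.ModEq] using this

/-- Ramanujan's identity for `E₄`: `D E₄ = (E₂ E₄ - E₆) / 3`. -/
theorem ramanujan_E₄ (z : ℍ) : D (E₄ : ℍ → ℂ) z = 3⁻¹ * (E2 z * E₄ z - E₆ z) := by
  have h := eq_smul_of_rank_one levelOne_weight_six_rank_one
    (mcast (by norm_num) (serreDerivativeForm E₄)) E₆ one_ne_zero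
    (by simpa using tendsto_serreDerivativeForm E₄ tendsto_E₄) tendsto_E₆ z
  simp only [coe_mcast, serreDerivativeForm_apply] at h
  push_cast at h
  linear_combination h

/-- Ramanujan's identity for `E₆`: `D E₆ = (E₂ E₆ - E₄²) / 2`. -/
theorem ramanujan_E₆ (z : ℍ) : D (E₆ : ℍ → ℂ) z = 2⁻¹ * (E2 z * E₆ z - E₄ z ^ 2) := by
  have hE4sq : Tendsto ((E₄.mul E₄ : ModularForm 𝒮ℒ (4 + 4)) : ℍ → ℂ) atImInfty (𝓝 (1 * 1)) :=
    tendsto_E₄.mul tendsto_E₄
  have h := eq_smul_of_rank_one levelOne_weight_eight_rank_one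
    (mcast (by norm_num) (serreDerivativeForm E₆)) (mcast (by norm_num) (E₄.mul E₄))
    (b := 1) one_ne_zero
    (by simpa using tendsto_serreDerivativeForm E₆ tendsto_E₆) (by simpa using hE4sq) z
  simp only [coe_mcast, serreDerivativeForm_apply, ModularForm.coe_mul, Pi.mul_apply] at h
  push_cast at h
  linear_combination h

/-- Ramanujan's identity for `Δ`: `D Δ = E₂ Δ`. -/
theorem ramanujan_discriminant (z : ℍ) :
    D ModularForm.discriminant z = E2 z * ModularForm.discriminant z := by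
  have hη : DifferentiableAt ℂ ModularForm.eta (z : ℂ) :=
    ModularForm.differentiableAt_eta_of_mem_upperHalfPlaneSet z.2
  have hη0 : ModularForm.eta (z : ℂ) ≠ 0 := by
    have := ModularForm.discriminant_ne_zero z
    intro h
    exact this (by simp [ModularForm.discriminant, h])
  have hlog := ModularForm.logDeriv_eta_eq_E2 z
  rw [logDeriv_apply, div_eq_iff hη0] at hlog
  have hev : (ModularForm.discriminant ∘ ofComplex) =ᶠ[𝓝 (z : ℂ)]
      fun w ↦ ModularForm.eta w ^ 24 := by
    filter_upwards [isOpen_upperHalfPlaneSet.mem_nhds z.im_pos] with w hw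
    simp [ModularForm.discriminant, ofComplex_apply_of_im_pos hw]
  have hd : HasDerivAt (fun w ↦ ModularForm.eta w ^ 24)
      (24 * ModularForm.eta (z : ℂ) ^ 23 * deriv ModularForm.eta (z : ℂ)) (z : ℂ) := by
    have := hη.hasDerivAt.fun_pow 24
    simpa using this
  have hderiv := (hd.congr_of_eventuallyEq hev).deriv
  simp only [normalizedDerivOfComplex, hderiv, hlog, ModularForm.discriminant]
  have hpi : (2 * (Real.pi : ℂ) * Complex.I) ≠ 0 := by
    simp [Real.pi_ne_zero]
  field_simp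
  ring

local notation "Δ" => ModularForm.discriminant

lemma mdiff_discriminant : MDiff (Δ : ℍ → ℂ) := CuspForm.discriminant.holo'

lemma mdiff_E₄ : MDiff (E₄ : ℍ → ℂ) := ModularFormClass.holo E₄

lemma mdiff_E₆ : MDiff (E₆ : ℍ → ℂ) := ModularFormClass.holo E₆

lemma E₄_cube_sub_E₆_sq (z : ℍ) : E₄ z ^ 3 - E₆ z ^ 2 = 1728 * Δ z := by
  rw [discriminant_eq_E₄_cube_sub_E₆_sq z]; ring

lemma E₆_ne_zero_of_E₄_eq_zero {z : ℍ} (h : E₄ z = 0) : E₆ z ≠ 0 := by
  intro h6
  have := E₄_cube_sub_E₆_sq z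
  rw [h, h6] at this
  have hΔ := discriminant_ne_zero z
  apply hΔ
  have : (1728 : ℂ) * Δ z = 0 := by rw [← this]; ring
  simpa using this

lemma E₄_ne_zero_of_E₆_eq_zero {z : ℍ} (h : E₆ z = 0) : E₄ z ≠ 0 := by
  intro h4
  exact E₆_ne_zero_of_E₄_eq_zero h4 h

/-- Zeros of `E₄` are simple. -/
theorem D_E₄_ne_zero {z : ℍ} (h : E₄ z = 0) : D (E₄ : ℍ → ℂ) z ≠ 0 := by
  rw [ramanujan_E₄, h]
  have := E₆_ne_zero_of_E₄_eq_zero h
  simpa using this

/-- Zeros of `E₆` are simple. -/
theorem D_E₆_ne_zero {z : ℍ} (h : E₆ z = 0) : D (E₆ : ℍ → ℂ) z ≠ 0 := by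
  rw [ramanujan_E₆, h]
  have := E₄_ne_zero_of_E₆_eq_zero h
  simpa using this

/-- The numerator `E₄(z)³ Δ(z₀) − E₄(z₀)³ Δ(z)` of `j(z) − j(z₀)`, a level one form of
weight 12 in `z`. -/
def jDiff (z₀ : ℍ) : ℍ → ℂ := fun z ↦ E₄ z ^ 3 * Δ z₀ - E₄ z₀ ^ 3 * Δ z

lemma jDiff_self (z₀ : ℍ) : jDiff z₀ z₀ = 0 := by simp [jDiff]

lemma jDiff_eq (z₀ : ℍ) :
    jDiff z₀ = (Δ z₀) • ((E₄ : ℍ → ℂ) ^ 3) - (E₄ z₀ ^ 3) • (Δ : ℍ → ℂ) := by
  funext z
  simp [jDiff, mul_comm]

lemma mdiff_jDiff (z₀ : ℍ) : MDiff (jDiff z₀) := by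
  rw [jDiff_eq]
  exact ((mdiff_E₄.pow 3).const_smul _).sub (mdiff_discriminant.const_smul _)

theorem D_jDiff (z₀ z : ℍ) :
    D (jDiff z₀) z = E2 z * jDiff z₀ z - E₄ z ^ 2 * E₆ z * Δ z₀ := by
  have h1 : MDiff ((E₄ : ℍ → ℂ) ^ 3) := mdiff_E₄.pow 3
  rw [jDiff_eq, normalizedDerivOfComplex_sub _ _ (h1.const_smul _)
    (mdiff_discriminant.const_smul _), normalizedDerivOfComplex_smul _ _ h1,
    normalizedDerivOfComplex_smul _ _ mdiff_discriminant,
    normalizedDerivOfComplex_pow _ _ mdiff_E₄]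
  simp only [Pi.sub_apply, Pi.smul_apply, Pi.mul_apply, Pi.pow_apply, smul_eq_mul,
    ramanujan_E₄, ramanujan_discriminant, Nat.cast_ofNat, Pi.ofNat_apply]
  ring

/-- Zeros of `jDiff z₀` at points where `E₄ E₆ ≠ 0` are simple. -/
theorem D_jDiff_ne_zero {z₀ z : ℍ} (h : jDiff z₀ z = 0) (h4 : E₄ z ≠ 0) (h6 : E₆ z ≠ 0) :
    D (jDiff z₀) z ≠ 0 := by
  rw [D_jDiff, h, mul_zero, zero_sub, neg_ne_zero]
  exact _root_.mul_ne_zero (_root_.mul_ne_zero (pow_ne_zero _ h4) h6) (discriminant_ne_zero z₀)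

/-- The `j`-invariant `E₄³ / Δ` (normalised so that `j = 1/q + ...`). -/
def jFun (z : ℍ) : ℂ := E₄ z ^ 3 / Δ z

lemma jFun_eq_iff (z z' : ℍ) : jFun z = jFun z' ↔ jDiff z' z = 0 := by
  rw [jFun, jFun, div_eq_div_iff (discriminant_ne_zero z) (discriminant_ne_zero z'), jDiff,
    sub_eq_zero]

lemma jFun_eq_zero_iff (z : ℍ) : jFun z = 0 ↔ E₄ z = 0 := by
  simp [jFun, discriminant_ne_zero z]

lemma jFun_eq_1728_iff (z : ℍ) : jFun z = 1728 ↔ E₆ z = 0 := by
  rw [jFun, div_eq_iff (discriminant_ne_zero z)]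
  have := E₄_cube_sub_E₆_sq z
  constructor
  · intro h
    have : E₆ z ^ 2 = 0 := by linear_combination h - this
    simpa using this
  · intro h
    rw [h] at this
    linear_combination this

lemma mdiff_jFun : MDiff jFun :=
  (mdiff_E₄.pow 3).div mdiff_discriminant discriminant_ne_zero

theorem D_jFun (z : ℍ) : D jFun z = - (E₄ z ^ 2 * E₆ z / Δ z) := by
  -- `jFun * Δ = E₄ ^ 3`
  have hmul : jFun * (Δ : ℍ → ℂ) = (E₄ : ℍ → ℂ) ^ 3 := by
    funext w
    simp [jFun, div_mul_cancel₀ _ (discriminant_ne_zero w)]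
  have h := congrFun (congrArg D hmul) z
  rw [normalizedDerivOfComplex_mul _ _ mdiff_jFun mdiff_discriminant,
    normalizedDerivOfComplex_pow _ _ mdiff_E₄] at h
  simp only [Pi.add_apply, Pi.mul_apply, Pi.pow_apply, ramanujan_E₄, ramanujan_discriminant,
    Nat.cast_ofNat, Pi.ofNat_apply] at h
  have hΔ := discriminant_ne_zero z
  have hj : jFun z = E₄ z ^ 3 / Δ z := rfl
  rw [hj] at h
  field_simp at h ⊢
  linear_combination h

theorem D_jFun_ne_zero {z : ℍ} (h4 : E₄ z ≠ 0) (h6 : E₆ z ≠ 0) : D jFun z ≠ 0 := by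
  rw [D_jFun, neg_ne_zero]
  exact div_ne_zero (_root_.mul_ne_zero (pow_ne_zero _ h4) h6) (discriminant_ne_zero z)

end Fermat.Agent.S20.L1

end
end
-- ===== PACK-END S20/L1/Ramanujan.lean

-- ===== PACK-BEGIN S24/Deg/H457_Bound.lean
section


/-!
# S24 / DEG-ALG (helper457), part 2: bounded degree ⇒ bounded dimension

If every element of a field extension `F/k` (char. 0) is algebraic of degree `≤ n`, then
`F/k` is finite of degree `≤ n` (primitive element theorem).
-/

set_option autoImplicit false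

noncomputable section

open Polynomial Module

namespace Fermat.Agent.S24.Deg457

/-- In characteristic zero, an extension all of whose elements are algebraic of degree `≤ n`
is finite-dimensional of dimension `≤ n`. -/
theorem finiteDimensional_and_finrank_le_of_forall_natDegree_minpoly_le
    {k F : Type*} [Field k] [Field F] [Algebra k F] [CharZero k] (n : ℕ)
    (h : ∀ x : F, IsIntegral k x ∧ (minpoly k x).natDegree ≤ n) :
    FiniteDimensional k F ∧ finrank k F ≤ n := by
  haveI : Algebra.IsAlgebraic k F := ⟨fun x => (h x).1.isAlgebraic⟩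
  have key : ∀ L : IntermediateField k F, FiniteDimensional k L → finrank k L ≤ n := by
    intro L hL
    obtain ⟨α, hα⟩ := Field.exists_primitive_element k L
    have h1 : finrank k L = (minpoly k α).natDegree := by
      rw [← IntermediateField.adjoin.finrank (IsIntegral.of_finite k α), hα]
      exact (IntermediateField.finrank_top').symm
    rw [h1]
    have h2 : minpoly k (α : F) = minpoly k α :=
      (minpoly.algebraMap_eq (algebraMap L F).injective α)
    rw [← h2]
    exact (h (α : F)).2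
  have hfd : FiniteDimensional k F := by
    by_contra hnot
    obtain ⟨L, hL, hlt⟩ := IntermediateField.exists_lt_finrank_of_infinite_dimensional hnot n
    exact absurd (key L hL) (not_le.mpr hlt)
  refine ⟨hfd, ?_⟩
  have := key ⊤ inferInstance
  rwa [IntermediateField.finrank_top'] at this

end Fermat.Agent.S24.Deg457

end
end
-- ===== PACK-END S24/Deg/H457_Bound.lean

-- ===== PACK-BEGIN S24/H864/FF3a.lean
section



/-!
# S24 / ALG / FF1+FF3 (part a): the Dedekind domain `B = integralClosure K[t] F`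
-/

set_option autoImplicit false

noncomputable section

open AlgebraicCurve IntermediateField IsDedekindDomain

namespace Fermat.Agent.S24.H864

variable {K F : Type*} [Field K] [Field F] [Algebra K F]

section Setup

variable (K) (t : F)

/-- `K[t] ⊆ F`. -/
abbrev polyRing : Subalgebra K F := Algebra.adjoin K {t}

/-- the element `t` of `K[t]` -/
def tR : polyRing K t := ⟨t, Algebra.self_mem_adjoin_singleton K t⟩

/-- `K[X] ≃ K[t]` for transcendental `t`. -/
def polyEquiv (ht : Transcendental K t) : Polynomial K ≃ₐ[K] polyRing K t :=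
  (AlgEquiv.ofInjective (Polynomial.aeval t) (transcendental_iff_injective.mp ht)).trans
    (Subalgebra.equivOfEq _ _ (Algebra.adjoin_singleton_eq_range_aeval K t).symm)

theorem polyEquiv_apply_coe (ht : Transcendental K t) (P : Polynomial K) :
    ((polyEquiv K t ht P : polyRing K t) : F) = Polynomial.aeval t P := rfl

theorem polyEquiv_X (ht : Transcendental K t) : polyEquiv K t ht Polynomial.X = tR K t := by
  apply Subtype.ext
  rw [polyEquiv_apply_coe, Polynomial.aeval_X]
  rfl

end Setup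

end Fermat.Agent.S24.H864

end
end
-- ===== PACK-END S24/H864/FF3a.lean

-- ===== PACK-BEGIN S20/Comb694/Basic.lean
section






/-!
# Combinatorics on `SL(2,ℤ) ⧸ Gamma0 N` : basic coset criterion, fixed points of `S` and `S * T`.

Left cosets, Mathlib's left-multiplication action (`MulAction.quotient`).
-/

set_option autoImplicit false

namespace Fermat.Agent.S20.Comb694

open Matrix MatrixGroups CongruenceSubgroup

/-- The `(1,0)` entry of `g⁻¹ * g'`. -/
lemma inv_mul_apply_one_zero (g g' : SL(2, ℤ)) :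
    (g⁻¹ * g') 1 0 = g 0 0 * g' 1 0 - g 1 0 * g' 0 0 := by
  rw [Matrix.SpecialLinearGroup.coe_mul, Matrix.SpecialLinearGroup.coe_inv,
    Matrix.adjugate_fin_two, Matrix.mul_apply, Fin.sum_univ_two]
  simp
  ring

/-- Coset criterion: `g Γ₀(N) = g' Γ₀(N)` iff `a c' - c a' ≡ 0 mod N`, where `(a, c)`, `(a', c')`
are the first columns of `g`, `g'`. -/
lemma mk_eq_mk_iff (N : ℕ) (g g' : SL(2, ℤ)) :
    (QuotientGroup.mk g : SL(2, ℤ) ⧸ Gamma0 N) = QuotientGroup.mk g' ↔
      ((g 0 0 : ℤ) : ZMod N) * ((g' 1 0 : ℤ) : ZMod N)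
        - ((g 1 0 : ℤ) : ZMod N) * ((g' 0 0 : ℤ) : ZMod N) = 0 := by
  rw [QuotientGroup.eq, Gamma0_mem, inv_mul_apply_one_zero]
  push_cast
  rfl

/-- Determinant relation in `ZMod N`. -/
lemma det_cast (N : ℕ) (g : SL(2, ℤ)) :
    ((g 0 0 : ℤ) : ZMod N) * ((g 1 1 : ℤ) : ZMod N)
      - ((g 0 1 : ℤ) : ZMod N) * ((g 1 0 : ℤ) : ZMod N) = 1 := by
  have h := g.det_coe
  rw [Matrix.det_fin_two] at h
  have := congrArg (fun z : ℤ => (z : ZMod N)) h
  simpa using this

/-- Fixed-point criterion for a general element `γ`. -/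
lemma smul_mk_eq_mk_iff (N : ℕ) (γ g : SL(2, ℤ)) :
    γ • (QuotientGroup.mk g : SL(2, ℤ) ⧸ Gamma0 N) = QuotientGroup.mk g ↔
      ((g 0 0 : ℤ) : ZMod N) * (((γ * g) 1 0 : ℤ) : ZMod N)
        - ((g 1 0 : ℤ) : ZMod N) * (((γ * g) 0 0 : ℤ) : ZMod N) = 0 := by
  rw [MulAction.Quotient.smul_mk, smul_eq_mul, eq_comm, mk_eq_mk_iff]

lemma S_mul_apply_zero_zero (g : SL(2, ℤ)) : (ModularGroup.S * g) 0 0 = - g 1 0 := by
  rw [Matrix.SpecialLinearGroup.coe_mul, ModularGroup.coe_S, Matrix.mul_apply, Fin.sum_univ_two]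
  simp

lemma S_mul_apply_one_zero (g : SL(2, ℤ)) : (ModularGroup.S * g) 1 0 = g 0 0 := by
  rw [Matrix.SpecialLinearGroup.coe_mul, ModularGroup.coe_S, Matrix.mul_apply, Fin.sum_univ_two]
  simp

lemma coe_S_mul_T : ((ModularGroup.S * ModularGroup.T : SL(2, ℤ)) : Matrix (Fin 2) (Fin 2) ℤ)
    = !![0, -1; 1, 1] := by
  rw [Matrix.SpecialLinearGroup.coe_mul, ModularGroup.coe_S, ModularGroup.coe_T]
  ext i j
  fin_cases i <;> fin_cases j <;> simp [Matrix.mul_apply, Fin.sum_univ_two]

lemma ST_mul_apply_zero_zero (g : SL(2, ℤ)) :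
    (ModularGroup.S * ModularGroup.T * g) 0 0 = - g 1 0 := by
  rw [Matrix.SpecialLinearGroup.coe_mul, coe_S_mul_T, Matrix.mul_apply, Fin.sum_univ_two]
  simp

lemma ST_mul_apply_one_zero (g : SL(2, ℤ)) :
    (ModularGroup.S * ModularGroup.T * g) 1 0 = g 0 0 + g 1 0 := by
  rw [Matrix.SpecialLinearGroup.coe_mul, coe_S_mul_T, Matrix.mul_apply, Fin.sum_univ_two]
  simp

/-- `g Γ₀(N)` is fixed by `S` iff `a² + c² ≡ 0 mod N`. -/
lemma S_smul_mk_eq_mk_iff (N : ℕ) (g : SL(2, ℤ)) :
    ModularGroup.S • (QuotientGroup.mk g : SL(2, ℤ) ⧸ Gamma0 N) = QuotientGroup.mk g ↔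
      ((g 0 0 : ℤ) : ZMod N) ^ 2 + ((g 1 0 : ℤ) : ZMod N) ^ 2 = 0 := by
  rw [smul_mk_eq_mk_iff, S_mul_apply_zero_zero, S_mul_apply_one_zero]
  push_cast
  constructor <;> intro h <;> linear_combination h

/-- `g Γ₀(N)` is fixed by `S * T` iff `a² + a c + c² ≡ 0 mod N`. -/
lemma ST_smul_mk_eq_mk_iff (N : ℕ) (g : SL(2, ℤ)) :
    (ModularGroup.S * ModularGroup.T) • (QuotientGroup.mk g : SL(2, ℤ) ⧸ Gamma0 N)
        = QuotientGroup.mk g ↔
      ((g 0 0 : ℤ) : ZMod N) ^ 2 + ((g 0 0 : ℤ) : ZMod N) * ((g 1 0 : ℤ) : ZMod N)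
        + ((g 1 0 : ℤ) : ZMod N) ^ 2 = 0 := by
  rw [smul_mk_eq_mk_iff, ST_mul_apply_zero_zero, ST_mul_apply_one_zero]
  push_cast
  constructor <;> intro h <;> linear_combination h

/-- The matrix `[[x, -1], [1, 0]]` in `SL(2,ℤ)`. -/
def colRep (x : ℤ) : SL(2, ℤ) := ⟨!![x, -1; 1, 0], by simp [Matrix.det_fin_two]⟩

@[simp] lemma colRep_apply_zero_zero (x : ℤ) : colRep x 0 0 = x := rfl
@[simp] lemma colRep_apply_one_zero (x : ℤ) : colRep x 1 0 = 1 := rfl

/-- If `a² = c * r` in `ZMod N` for the first column `(a, c)` of `g ∈ SL(2,ℤ)`, then `c` has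
an explicit inverse. -/
lemma c_mul_inv_eq_one (N : ℕ) (g : SL(2, ℤ)) (r : ZMod N)
    (h : ((g 0 0 : ℤ) : ZMod N) ^ 2 = ((g 1 0 : ℤ) : ZMod N) * r) :
    ((g 1 0 : ℤ) : ZMod N) *
      (r * ((g 1 1 : ℤ) : ZMod N) ^ 2
        - 2 * ((g 0 0 : ℤ) : ZMod N) * ((g 0 1 : ℤ) : ZMod N) * ((g 1 1 : ℤ) : ZMod N)
        + ((g 0 1 : ℤ) : ZMod N) ^ 2 * ((g 1 0 : ℤ) : ZMod N)) = 1 := by
  have hdet := det_cast N g
  linear_combination (-(((g 1 1 : ℤ) : ZMod N)) ^ 2) * h
    + (((g 0 0 : ℤ) : ZMod N) * ((g 1 1 : ℤ) : ZMod N)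
        - ((g 0 1 : ℤ) : ZMod N) * ((g 1 0 : ℤ) : ZMod N) + 1) * hdet

end Fermat.Agent.S20.Comb694

end
-- ===== PACK-END S20/Comb694/Basic.lean

-- ===== PACK-BEGIN S20/CuspCount360.lean
section



/-!
# Number of `T`-orbits on `SL(2,ℤ) ⧸ Γ₀(N)` equals `cuspCount N`

Pure group theory / elementary number theory (no analysis).
Main result: `Fermat.Agent.S20.CuspCount360.card_orbits_T`.
-/

set_option autoImplicit false

open scoped MatrixGroups
open CongruenceSubgroup Matrix

namespace Fermat.Agent.S20.CuspCount360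

/-! ## Arithmetic core -/

section Arith

/-- `→` part 1: the gcd of the lower-left entry with `N` is an invariant. -/
theorem gcd_eq_of_dvd {N : ℕ} {a c a' c' : ℤ} (hac : IsCoprime a c) (hac' : IsCoprime a' c')
    (h : (N : ℤ) ∣ a * c' - c * a') : Int.gcd c N = Int.gcd c' N := by
  apply Nat.dvd_antisymm
  · -- d ∣ c'
    apply Int.dvd_gcd _ (Int.gcd_dvd_right c N)
    have hd1 : ((Int.gcd c N : ℕ) : ℤ) ∣ c := Int.gcd_dvd_left c N
    have hd2 : ((Int.gcd c N : ℕ) : ℤ) ∣ a * c' - c * a' := (Int.gcd_dvd_right c N).trans h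
    have hd3 : ((Int.gcd c N : ℕ) : ℤ) ∣ a * c' := by
      have := dvd_add hd2 (hd1.mul_right a')
      simpa using this
    have hcop : IsCoprime ((Int.gcd c N : ℕ) : ℤ) a :=
      (IsCoprime.of_isCoprime_of_dvd_right hac hd1).symm
    exact hcop.dvd_of_dvd_mul_left hd3
  · apply Int.dvd_gcd _ (Int.gcd_dvd_right c' N)
    have hd1 : ((Int.gcd c' N : ℕ) : ℤ) ∣ c' := Int.gcd_dvd_left c' N
    have hd2 : ((Int.gcd c' N : ℕ) : ℤ) ∣ a * c' - c * a' := (Int.gcd_dvd_right c' N).trans h
    have hd3 : ((Int.gcd c' N : ℕ) : ℤ) ∣ a' * c := by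
      have := dvd_sub (hd1.mul_left a) hd2
      have e : a * c' - (a * c' - c * a') = a' * c := by ring
      rwa [e] at this
    have hcop : IsCoprime ((Int.gcd c' N : ℕ) : ℤ) a' :=
      (IsCoprime.of_isCoprime_of_dvd_right hac' hd1).symm
    exact hcop.dvd_of_dvd_mul_left hd3

/-- `→` part 2. Here `c = d * c₁`, `c' = d * c₁'`, `N = d * M`, and `e ∣ d`, `e ∣ M`. -/
theorem dvd_of_dvd {d M e a a' c₁ c₁' k : ℤ} (hd : d ≠ 0) (hed : e ∣ d) (heM : e ∣ M)
    (h : d * M ∣ (a + k * (d * c₁)) * (d * c₁') - (d * c₁) * a') :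
    e ∣ a * c₁' - a' * c₁ := by
  have h1 : d * M ∣ d * ((a + k * (d * c₁)) * c₁' - c₁ * a') := by
    have e1 : (a + k * (d * c₁)) * (d * c₁') - (d * c₁) * a'
        = d * ((a + k * (d * c₁)) * c₁' - c₁ * a') := by ring
    rwa [e1] at h
  have h2 : M ∣ (a + k * (d * c₁)) * c₁' - c₁ * a' := (mul_dvd_mul_iff_left hd).mp h1
  have h3 : e ∣ (a + k * (d * c₁)) * c₁' - c₁ * a' := heM.trans h2
  have h4 : e ∣ d * (k * c₁ * c₁') := hed.mul_right _
  have := dvd_sub h3 h4
  have e2 : (a + k * (d * c₁)) * c₁' - c₁ * a' - d * (k * c₁ * c₁') = a * c₁' - a' * c₁ := by ring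
  rwa [e2] at this

/-- `←`: solving the linear congruence. -/
theorem exists_k {d M a a' c₁ c₁' : ℤ} (h1 : IsCoprime c₁ M) (h1' : IsCoprime c₁' M)
    (h : ((Int.gcd d M : ℕ) : ℤ) ∣ a * c₁' - a' * c₁) :
    ∃ k : ℤ, d * M ∣ (a + k * (d * c₁)) * (d * c₁') - (d * c₁) * a' := by
  obtain ⟨t, ht⟩ := h
  obtain ⟨u, v, huv⟩ := h1
  obtain ⟨u', v', huv'⟩ := h1'
  have hb := Int.gcd_eq_gcd_ab d M
  set x := Int.gcdA d M
  set y := Int.gcdB d M
  -- z := u * u' is an inverse of c₁ c₁' mod M
  refine ⟨-t * x * (u * u'), ?_⟩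
  have e1 : (a + (-t * x * (u * u')) * (d * c₁)) * (d * c₁') - (d * c₁) * a'
      = d * ((a * c₁' - a' * c₁) - t * x * d * ((u * c₁) * (u' * c₁'))) := by ring
  rw [e1]
  apply mul_dvd_mul_left
  have e2 : u * c₁ = 1 - v * M := by linear_combination huv
  have e3 : u' * c₁' = 1 - v' * M := by linear_combination huv'
  rw [e2, e3, ht]
  refine ⟨t * y + t * x * d * (v + v' - v * v' * M), ?_⟩
  linear_combination (t) * hb

/-- Comparison of the `r`-invariants inside a fixed `ZMod e`. -/
theorem val_mul_inv_eq_iff {e : ℕ} [NeZero e] {a a' c₁ c₁' : ℤ}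
    (h1 : IsCoprime c₁ (e : ℤ)) (h1' : IsCoprime c₁' (e : ℤ)) :
    ((a : ZMod e) * (c₁ : ZMod e)⁻¹).val = ((a' : ZMod e) * (c₁' : ZMod e)⁻¹).val ↔
      (e : ℤ) ∣ a * c₁' - a' * c₁ := by
  have hu : IsUnit ((c₁ : ℤ) : ZMod e) := (ZMod.coe_int_isUnit_iff_isCoprime c₁ e).2 h1.symm
  have hu' : IsUnit ((c₁' : ℤ) : ZMod e) := (ZMod.coe_int_isUnit_iff_isCoprime c₁' e).2 h1'.symm
  have hi : ((c₁ : ℤ) : ZMod e) * ((c₁ : ℤ) : ZMod e)⁻¹ = 1 := ZMod.mul_inv_of_unit _ hu
  have hi' : ((c₁' : ℤ) : ZMod e) * ((c₁' : ℤ) : ZMod e)⁻¹ = 1 := ZMod.mul_inv_of_unit _ hu'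
  rw [(ZMod.val_injective e).eq_iff, ← ZMod.intCast_zmod_eq_zero_iff_dvd]
  push_cast
  constructor
  · intro h
    have : (a : ZMod e) * c₁' - a' * c₁
        = ((a : ZMod e) * (c₁ : ZMod e)⁻¹ - (a' : ZMod e) * (c₁' : ZMod e)⁻¹) * (c₁ * c₁')
          + (a : ZMod e) * c₁' * (1 - c₁ * (c₁ : ZMod e)⁻¹)
          - (a' : ZMod e) * c₁ * (1 - c₁' * (c₁' : ZMod e)⁻¹) := by ring
    rw [this, h, hi, hi']; ring
  · intro h
    have : (a : ZMod e) * (c₁ : ZMod e)⁻¹ - (a' : ZMod e) * (c₁' : ZMod e)⁻¹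
        = ((a : ZMod e) * c₁' - a' * c₁) * ((c₁ : ZMod e)⁻¹ * (c₁' : ZMod e)⁻¹)
          + (a : ZMod e) * (c₁ : ZMod e)⁻¹ * (1 - c₁' * (c₁' : ZMod e)⁻¹)
          - (a' : ZMod e) * (c₁' : ZMod e)⁻¹ * (1 - c₁ * (c₁ : ZMod e)⁻¹) := by ring
    have h0 := sub_eq_zero.mp (by rw [this, h, hi, hi']; ring :
      (a : ZMod e) * (c₁ : ZMod e)⁻¹ - (a' : ZMod e) * (c₁' : ZMod e)⁻¹ = 0)
    exact h0

end Arith

/-! ## The invariant -/

section Invariant

variable (N : ℕ)

/-- `e(d) = gcd (d, N / d)`. -/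
def eOf (d : ℕ) : ℕ := Nat.gcd d (N / d)

/-- The `r`-invariant computed with an explicit `d`. -/
noncomputable def rAux (d : ℕ) (a c : ℤ) : ℕ :=
  (((a : ℤ) : ZMod (eOf N d)) * (((c / (d : ℤ) : ℤ)) : ZMod (eOf N d))⁻¹).val

/-- The `d`-invariant `gcd (c, N)` of `g = [a b; c d]`. -/
def dInv (g : SL(2, ℤ)) : ℕ := Int.gcd ((g : Matrix (Fin 2) (Fin 2) ℤ) 1 0) N

/-- The full invariant `(d, r)`. -/
noncomputable def cuspInv (g : SL(2, ℤ)) : (_ : ℕ) × ℕ :=
  ⟨dInv N g, rAux N (dInv N g) ((g : Matrix (Fin 2) (Fin 2) ℤ) 0 0)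
    ((g : Matrix (Fin 2) (Fin 2) ℤ) 1 0)⟩

theorem isCoprime_col (g : SL(2, ℤ)) :
    IsCoprime ((g : Matrix (Fin 2) (Fin 2) ℤ) 0 0) ((g : Matrix (Fin 2) (Fin 2) ℤ) 1 0) := by
  have h := g.det_coe
  rw [Matrix.det_fin_two] at h
  exact ⟨(g : Matrix (Fin 2) (Fin 2) ℤ) 1 1, -(g : Matrix (Fin 2) (Fin 2) ℤ) 0 1, by
    linear_combination h⟩

theorem mk_eq_mk_iff (g g' : SL(2, ℤ)) :
    ((g : SL(2, ℤ) ⧸ Gamma0 N) = (g' : SL(2, ℤ) ⧸ Gamma0 N)) ↔
      (N : ℤ) ∣ (g : Matrix (Fin 2) (Fin 2) ℤ) 0 0 * (g' : Matrix (Fin 2) (Fin 2) ℤ) 1 0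
        - (g : Matrix (Fin 2) (Fin 2) ℤ) 1 0 * (g' : Matrix (Fin 2) (Fin 2) ℤ) 0 0 := by
  rw [QuotientGroup.eq, Gamma0_mem, ZMod.intCast_zmod_eq_zero_iff_dvd]
  have : ((g⁻¹ * g' : SL(2, ℤ)) : Matrix (Fin 2) (Fin 2) ℤ) 1 0
      = (g : Matrix (Fin 2) (Fin 2) ℤ) 0 0 * (g' : Matrix (Fin 2) (Fin 2) ℤ) 1 0
        - (g : Matrix (Fin 2) (Fin 2) ℤ) 1 0 * (g' : Matrix (Fin 2) (Fin 2) ℤ) 0 0 := by
    rw [Matrix.SpecialLinearGroup.coe_mul, Matrix.SpecialLinearGroup.SL2_inv_expl]
    rw [Matrix.mul_apply, Fin.sum_univ_two]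
    simp
    ring
  rw [this]

theorem T_zpow_mul_col (k : ℤ) (g : SL(2, ℤ)) :
    ((ModularGroup.T ^ k * g : SL(2, ℤ)) : Matrix (Fin 2) (Fin 2) ℤ) 0 0
        = (g : Matrix (Fin 2) (Fin 2) ℤ) 0 0 + k * (g : Matrix (Fin 2) (Fin 2) ℤ) 1 0 ∧
    ((ModularGroup.T ^ k * g : SL(2, ℤ)) : Matrix (Fin 2) (Fin 2) ℤ) 1 0
        = (g : Matrix (Fin 2) (Fin 2) ℤ) 1 0 := by
  rw [Matrix.SpecialLinearGroup.coe_mul, ModularGroup.coe_T_zpow]
  constructor <;> rw [Matrix.mul_apply, Fin.sum_univ_two] <;> simp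

/-- Data attached to `c` and `N ≠ 0`: `d = gcd (c, N)`, `c = d * c₁`, `N = d * M`,
`e = gcd (d, M)`, and `c₁` is coprime to `M` and to `e`. -/
theorem gcd_data {N : ℕ} (hN : N ≠ 0) (c : ℤ) :
    Int.gcd c N ≠ 0 ∧ Int.gcd c N ∣ N ∧
    ((Int.gcd c N : ℕ) : ℤ) * (c / ((Int.gcd c N : ℕ) : ℤ)) = c ∧
    ((Int.gcd c N : ℕ) : ℤ) * ((N / Int.gcd c N : ℕ) : ℤ) = (N : ℤ) ∧
    IsCoprime (c / ((Int.gcd c N : ℕ) : ℤ)) ((N / Int.gcd c N : ℕ) : ℤ) ∧
    IsCoprime (c / ((Int.gcd c N : ℕ) : ℤ)) ((eOf N (Int.gcd c N) : ℕ) : ℤ) ∧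
    eOf N (Int.gcd c N) ≠ 0 := by
  have hd0 : Int.gcd c N ≠ 0 := by
    intro h
    rw [Int.gcd_eq_zero_iff] at h
    exact hN (by exact_mod_cast h.2)
  have hdN : Int.gcd c N ∣ N := Int.natCast_dvd_natCast.mp (Int.gcd_dvd_right c N)
  have hc : ((Int.gcd c N : ℕ) : ℤ) * (c / ((Int.gcd c N : ℕ) : ℤ)) = c :=
    Int.mul_ediv_cancel' (Int.gcd_dvd_left c N)
  have hNM : ((Int.gcd c N : ℕ) : ℤ) * ((N / Int.gcd c N : ℕ) : ℤ) = (N : ℤ) := by
    exact_mod_cast Nat.mul_div_cancel' hdN
  have hcop : IsCoprime (c / ((Int.gcd c N : ℕ) : ℤ)) ((N / Int.gcd c N : ℕ) : ℤ) := by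
    rw [Int.isCoprime_iff_gcd_eq_one]
    have := Int.gcd_div_gcd_div_gcd (i := c) (j := (N : ℤ)) (Nat.pos_of_ne_zero hd0)
    rwa [← Int.natCast_div] at this
  have heM : ((eOf N (Int.gcd c N) : ℕ) : ℤ) ∣ ((N / Int.gcd c N : ℕ) : ℤ) :=
    Int.natCast_dvd_natCast.mpr (Nat.gcd_dvd_right _ _)
  refine ⟨hd0, hdN, hc, hNM, hcop, IsCoprime.of_isCoprime_of_dvd_right hcop heM, ?_⟩
  exact Nat.gcd_ne_zero_left hd0

theorem arith_iff {N : ℕ} (hN : N ≠ 0) {a c a' c' : ℤ} (hac : IsCoprime a c)
    (hac' : IsCoprime a' c') :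
    (∃ k : ℤ, (N : ℤ) ∣ (a + k * c) * c' - c * a') ↔
      (Int.gcd c N = Int.gcd c' N ∧ rAux N (Int.gcd c N) a c = rAux N (Int.gcd c N) a' c') := by
  obtain ⟨hd0, hdN, hc, hNM, hcop, hcope, he0⟩ := gcd_data hN c
  obtain ⟨hd0', hdN', hc', hNM', hcop', hcope', he0'⟩ := gcd_data hN c'
  have : NeZero (eOf N (Int.gcd c N)) := ⟨he0⟩
  have hed : ((eOf N (Int.gcd c N) : ℕ) : ℤ) ∣ ((Int.gcd c N : ℕ) : ℤ) :=
    Int.natCast_dvd_natCast.mpr (Nat.gcd_dvd_left _ _)
  have heM : ((eOf N (Int.gcd c N) : ℕ) : ℤ) ∣ ((N / Int.gcd c N : ℕ) : ℤ) :=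
    Int.natCast_dvd_natCast.mpr (Nat.gcd_dvd_right _ _)
  constructor
  · rintro ⟨k, hk⟩
    have hcopk : IsCoprime (a + k * c) c := hac.add_mul_right_left k
    have hdd : Int.gcd c N = Int.gcd c' N := gcd_eq_of_dvd hcopk hac' hk
    refine ⟨hdd, ?_⟩
    rw [← hdd] at hc' hcope'
    unfold rAux
    rw [val_mul_inv_eq_iff hcope hcope']
    refine dvd_of_dvd (k := k) (by exact_mod_cast hd0) hed heM ?_
    rw [hNM, hc, hc']
    exact hk
  · rintro ⟨hdd, hr⟩
    rw [← hdd] at hc' hcope' hcop'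
    unfold rAux at hr
    rw [val_mul_inv_eq_iff hcope hcope'] at hr
    have hr' : ((Int.gcd ((Int.gcd c N : ℕ) : ℤ) ((N / Int.gcd c N : ℕ) : ℤ) : ℕ) : ℤ) ∣
        a * (c' / ((Int.gcd c N : ℕ) : ℤ)) - a' * (c / ((Int.gcd c N : ℕ) : ℤ)) := by
      rw [Int.gcd_natCast_natCast]
      exact hr
    obtain ⟨k, hk⟩ := exists_k (a := a) (a' := a') hcop hcop' hr'
    refine ⟨k, ?_⟩
    rw [hNM, hc, hc'] at hk
    exact hk

variable [NeZero N]

/-- Two cosets `gΓ₀(N)`, `g'Γ₀(N)` lie in the same `⟨T⟩`-orbit iff they have the same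
invariant. -/
theorem orbit_iff (g g' : SL(2, ℤ)) :
    (∃ k : ℤ, ((ModularGroup.T ^ k * g : SL(2, ℤ)) : SL(2, ℤ) ⧸ Gamma0 N)
        = (g' : SL(2, ℤ) ⧸ Gamma0 N)) ↔ cuspInv N g = cuspInv N g' := by
  have key := arith_iff (NeZero.ne N) (isCoprime_col g) (isCoprime_col g')
  constructor
  · rintro ⟨k, hk⟩
    rw [mk_eq_mk_iff, (T_zpow_mul_col k g).1, (T_zpow_mul_col k g).2] at hk
    obtain ⟨h1, h2⟩ := key.1 ⟨k, hk⟩
    unfold cuspInv dInv
    rw [← h1, h2]
  · intro h
    unfold cuspInv dInv at h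
    rw [Sigma.mk.injEq] at h
    obtain ⟨h1, h2⟩ := h
    have h2' := eq_of_heq h2
    rw [← h1] at h2'
    obtain ⟨k, hk⟩ := key.2 ⟨h1, h2'⟩
    refine ⟨k, ?_⟩
    rw [mk_eq_mk_iff, (T_zpow_mul_col k g).1, (T_zpow_mul_col k g).2]
    exact hk

/-- The finite set of possible invariants. -/
def cuspSet : Finset ((_ : ℕ) × ℕ) :=
  N.divisors.sigma fun d => (Finset.range (eOf N d)).filter fun r => (eOf N d).Coprime r

omit [NeZero N] in
theorem card_cuspSet : (cuspSet N).card = ModularCurve.cuspCount N := by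
  unfold cuspSet ModularCurve.cuspCount
  rw [Finset.card_sigma]
  refine Finset.sum_congr rfl fun d _ => ?_
  rw [Nat.totient_eq_card_coprime]
  rfl

theorem cuspInv_mem (g : SL(2, ℤ)) : cuspInv N g ∈ cuspSet N := by
  obtain ⟨hd0, hdN, hc, hNM, hcop, hcope, he0⟩ :=
    gcd_data (NeZero.ne N) ((g : Matrix (Fin 2) (Fin 2) ℤ) 1 0)
  have : NeZero (eOf N (Int.gcd ((g : Matrix (Fin 2) (Fin 2) ℤ) 1 0) N)) := ⟨he0⟩
  unfold cuspSet cuspInv dInv
  rw [Finset.mem_sigma, Nat.mem_divisors, Finset.mem_filter, Finset.mem_range]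
  refine ⟨⟨hdN, NeZero.ne N⟩, ZMod.val_lt _, ?_⟩
  -- the value is a unit
  have hed : ((eOf N (Int.gcd ((g : Matrix (Fin 2) (Fin 2) ℤ) 1 0) N) : ℕ) : ℤ) ∣
      (g : Matrix (Fin 2) (Fin 2) ℤ) 1 0 :=
    (Int.natCast_dvd_natCast.mpr (Nat.gcd_dvd_left _ _)).trans (Int.gcd_dvd_left _ _)
  have hae : IsCoprime ((g : Matrix (Fin 2) (Fin 2) ℤ) 0 0)
      ((eOf N (Int.gcd ((g : Matrix (Fin 2) (Fin 2) ℤ) 1 0) N) : ℕ) : ℤ) :=
    IsCoprime.of_isCoprime_of_dvd_right (isCoprime_col g) hed
  have hua := (ZMod.coe_int_isUnit_iff_isCoprime _ _).2 hae.symm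
  have huc := (ZMod.coe_int_isUnit_iff_isCoprime _ _).2 hcope.symm
  have hinv : IsUnit ((((g : Matrix (Fin 2) (Fin 2) ℤ) 1 0 /
      ((Int.gcd ((g : Matrix (Fin 2) (Fin 2) ℤ) 1 0) N : ℕ) : ℤ) : ℤ) :
        ZMod (eOf N (Int.gcd ((g : Matrix (Fin 2) (Fin 2) ℤ) 1 0) N)))⁻¹) :=
    IsUnit.of_mul_eq_one _ (by rw [mul_comm]; exact ZMod.mul_inv_of_unit _ huc)
  have hu := hua.mul hinv
  have := ZMod.val_coe_unit_coprime hu.unit
  rw [IsUnit.unit_spec] at this
  exact this.symm

omit [NeZero N] in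
/-- Every element of `cuspSet N` is the invariant of some `g`. -/
theorem exists_cuspInv_eq (p : (_ : ℕ) × ℕ) (hp : p ∈ cuspSet N) :
    ∃ g : SL(2, ℤ), cuspInv N g = p := by
  obtain ⟨d, r⟩ := p
  unfold cuspSet at hp
  rw [Finset.mem_sigma, Nat.mem_divisors, Finset.mem_filter, Finset.mem_range] at hp
  obtain ⟨⟨hdN, hN⟩, hr, hcop⟩ := hp
  dsimp only at hdN hr hcop
  have hd0 : d ≠ 0 := fun h => hN (by rw [h] at hdN; exact Nat.eq_zero_of_zero_dvd hdN)
  have : NeZero d := ⟨hd0⟩
  have hed : eOf N d ∣ d := Nat.gcd_dvd_left _ _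
  have he0 : eOf N d ≠ 0 := Nat.gcd_ne_zero_left hd0
  have : NeZero (eOf N d) := ⟨he0⟩
  -- lift the unit `r` mod `e` to a unit `v` mod `d`
  obtain ⟨v, hv⟩ := ZMod.unitsMap_surjective hed (ZMod.unitOfCoprime r hcop.symm)
  have hvcop : ((v : ZMod d).val).Coprime d := ZMod.val_coe_unit_coprime v
  have hcast : (((v : ZMod d).val : ℕ) : ZMod (eOf N d)) = (r : ZMod (eOf N d)) := by
    have h1 := congrArg (fun u : (ZMod (eOf N d))ˣ => (u : ZMod (eOf N d))) hv
    simp only [ZMod.unitsMap_def, Units.coe_map, MonoidHom.coe_coe, ZMod.castHom_apply,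
      ZMod.coe_unitOfCoprime] at h1
    rw [ZMod.natCast_val]
    exact h1
  -- Bézout
  have hco : IsCoprime (((v : ZMod d).val : ℕ) : ℤ) ((d : ℕ) : ℤ) :=
    Nat.isCoprime_iff_coprime.mpr hvcop
  obtain ⟨x, y, hxy⟩ := hco
  let g : SL(2, ℤ) := ⟨!![(((v : ZMod d).val : ℕ) : ℤ), -y; (d : ℤ), x], by
    rw [Matrix.det_fin_two_of]; linear_combination hxy⟩
  have hg00 : (g : Matrix (Fin 2) (Fin 2) ℤ) 0 0 = (((v : ZMod d).val : ℕ) : ℤ) := rfl
  have hg10 : (g : Matrix (Fin 2) (Fin 2) ℤ) 1 0 = (d : ℤ) := rfl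
  refine ⟨g, ?_⟩
  have hgcd : Int.gcd ((d : ℕ) : ℤ) (N : ℤ) = d := by
    rw [Int.gcd_natCast_natCast]; exact Nat.gcd_eq_left hdN
  unfold cuspInv dInv
  rw [hg00, hg10, hgcd]
  congr 1
  unfold rAux
  rw [Int.ediv_self (by exact_mod_cast hd0)]
  simp only [Int.cast_one, ZMod.inv_one, mul_one, Int.cast_natCast]
  rw [hcast, ZMod.val_natCast]
  exact Nat.mod_eq_of_lt hr

/-- **Main theorem**: the number of orbits of `⟨T⟩` acting by left multiplication on
`SL(2,ℤ) ⧸ Γ₀(N)` is `cuspCount N = ∑_{d ∣ N} φ(gcd(d, N/d))`. -/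
theorem card_orbits_T :
    Nat.card (MulAction.orbitRel.Quotient (Subgroup.zpowers ModularGroup.T)
      (SL(2, ℤ) ⧸ Gamma0 N)) = ModularCurve.cuspCount N := by
  rw [← card_cuspSet, ← Nat.card_eq_finsetCard]
  -- representative of an orbit
  let rep : MulAction.orbitRel.Quotient (Subgroup.zpowers ModularGroup.T)
      (SL(2, ℤ) ⧸ Gamma0 N) → SL(2, ℤ) := fun x => Quotient.out (Quotient.out x)
  have hrep : ∀ x, (Quotient.mk'' ((rep x : SL(2, ℤ)) : SL(2, ℤ) ⧸ Gamma0 N) :
      MulAction.orbitRel.Quotient (Subgroup.zpowers ModularGroup.T)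
      (SL(2, ℤ) ⧸ Gamma0 N)) = x := by
    intro x
    show Quotient.mk'' ((Quotient.out (Quotient.out x) : SL(2, ℤ)) : SL(2, ℤ) ⧸ Gamma0 N) = x
    rw [QuotientGroup.out_eq']
    exact Quotient.out_eq x
  -- orbit equivalence in terms of `T ^ k`
  have horb : ∀ g g' : SL(2, ℤ),
      (Quotient.mk'' (g : SL(2, ℤ) ⧸ Gamma0 N) :
        MulAction.orbitRel.Quotient (Subgroup.zpowers ModularGroup.T) (SL(2, ℤ) ⧸ Gamma0 N))
        = Quotient.mk'' (g' : SL(2, ℤ) ⧸ Gamma0 N) ↔ cuspInv N g' = cuspInv N g := by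
    intro g g'
    rw [Quotient.eq'', MulAction.orbitRel_apply, MulAction.mem_orbit_iff, ← orbit_iff]
    constructor
    · rintro ⟨⟨t, ht⟩, h⟩
      obtain ⟨k, rfl⟩ := Subgroup.mem_zpowers_iff.mp ht
      exact ⟨k, h⟩
    · rintro ⟨k, h⟩
      exact ⟨⟨ModularGroup.T ^ k, Subgroup.mem_zpowers_iff.mpr ⟨k, rfl⟩⟩, h⟩
  refine Nat.card_congr (Equiv.ofBijective
    (fun x => (⟨cuspInv N (rep x), cuspInv_mem N (rep x)⟩ : cuspSet N)) ⟨?_, ?_⟩)
  · intro x y hxy
    have h := congrArg Subtype.val hxy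
    dsimp only at h
    rw [← hrep x, ← hrep y]
    exact (horb _ _).2 h.symm
  · rintro ⟨p, hp⟩
    obtain ⟨g, hg⟩ := exists_cuspInv_eq N p hp
    refine ⟨Quotient.mk'' (g : SL(2, ℤ) ⧸ Gamma0 N), ?_⟩
    apply Subtype.ext
    dsimp only
    rw [← hg]
    exact (horb _ _).1 (hrep (Quotient.mk'' (g : SL(2, ℤ) ⧸ Gamma0 N))).symm

end Invariant

end Fermat.Agent.S20.CuspCount360

end
-- ===== PACK-END S20/CuspCount360.lean

-- ===== PACK-BEGIN S29/H751/PthRootBall.lean
section


/-!
# Holomorphic `p`-th roots on a disc (helper751, S29 / P5 / KUM + E3)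

* `exists_exp_eq_on_ball`: a nowhere vanishing holomorphic function on an open disc is `exp ∘ L`.
* `exists_pow_eq_on_ball_of_ne_zero`: hence it has a holomorphic `p`-th root.
* `exists_pow_eq_on_ball`: a holomorphic function on (a neighbourhood of) a closed disc, not
  locally zero, all of whose zeros have order divisible by `p`, has a holomorphic `p`-th root on
  the open disc.
-/

set_option autoImplicit false

open Complex Set Metric Filter Topology

namespace Fermat.Agent.S29.H751

/-- A nowhere vanishing holomorphic function on an open disc has a holomorphic logarithm. -/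
theorem exists_exp_eq_on_ball {g : ℂ → ℂ} {c : ℂ} {r : ℝ}
    (hg : DifferentiableOn ℂ g (ball c r)) (hne : ∀ z ∈ ball c r, g z ≠ 0) :
    ∃ L : ℂ → ℂ, DifferentiableOn ℂ L (ball c r) ∧ ∀ z ∈ ball c r, cexp (L z) = g z := by
  by_cases hr : 0 < r
  swap
  · refine ⟨fun _ => 0, differentiableOn_const _, fun z hz => ?_⟩
    rw [ball_eq_empty.2 (not_lt.1 hr)] at hz
    exact absurd hz (notMem_empty z)
  have hopen : IsOpen (ball c r) := isOpen_ball
  have hc : c ∈ ball c r := mem_ball_self hr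
  -- the logarithmic derivative
  have hdg : DifferentiableOn ℂ (deriv g) (ball c r) := hg.deriv hopen
  have hφ : DifferentiableOn ℂ (fun z => deriv g z / g z) (ball c r) :=
    hdg.div hg hne
  obtain ⟨L₀, hL₀⟩ := hφ.isExactOn_ball
  -- `g * exp (-L₀)` has zero derivative
  set F : ℂ → ℂ := fun z => g z * cexp (-L₀ z) with hF
  have hFd : ∀ z ∈ ball c r, HasDerivAt F 0 z := by
    intro z hz
    have h1 : HasDerivAt g (deriv g z) z :=
      (hg.differentiableAt (hopen.mem_nhds hz)).hasDerivAt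
    have h2 : HasDerivAt (fun z => cexp (-L₀ z)) (cexp (-L₀ z) * (-(deriv g z / g z))) z :=
      ((hL₀ z hz).neg).cexp
    have h3 := h1.mul h2
    have : deriv g z * cexp (-L₀ z) + g z * (cexp (-L₀ z) * -(deriv g z / g z)) = 0 := by
      field_simp [hne z hz]
      ring
    rw [this] at h3
    exact h3
  have hFdiff : DifferentiableOn ℂ F (ball c r) := fun z hz =>
    (hFd z hz).differentiableAt.differentiableWithinAt
  have hconst : ∀ z ∈ ball c r, F z = F c := by
    intro z hz
    exact hopen.is_const_of_deriv_eq_zero isPreconnected_ball hFdiff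
      (fun w hw => (hFd w hw).deriv) hz hc
  have hFc : F c ≠ 0 := mul_ne_zero (hne c hc) (exp_ne_zero _)
  refine ⟨fun z => L₀ z + Complex.log (F c), ?_, ?_⟩
  · have hL₀d : DifferentiableOn ℂ L₀ (ball c r) := fun z hz =>
      (hL₀ z hz).differentiableAt.differentiableWithinAt
    exact hL₀d.add_const _
  · intro z hz
    have h := hconst z hz
    simp only [hF] at h
    rw [Complex.exp_add, Complex.exp_log hFc]
    simp only [hF]
    rw [← h, mul_comm, mul_assoc, ← Complex.exp_add]
    simp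

/-- A nowhere vanishing holomorphic function on an open disc has a holomorphic `p`-th root. -/
theorem exists_pow_eq_on_ball_of_ne_zero {g : ℂ → ℂ} {c : ℂ} {r : ℝ} (p : ℕ) (hp : p ≠ 0)
    (hg : DifferentiableOn ℂ g (ball c r)) (hne : ∀ z ∈ ball c r, g z ≠ 0) :
    ∃ u : ℂ → ℂ, DifferentiableOn ℂ u (ball c r) ∧ ∀ z ∈ ball c r, u z ^ p = g z := by
  obtain ⟨L, hL, hLg⟩ := exists_exp_eq_on_ball hg hne
  refine ⟨fun z => cexp (L z / p), ?_, fun z hz => ?_⟩
  · exact (hL.div_const _).cexp
  · rw [← Complex.exp_nat_mul, mul_div_cancel₀ _ (Nat.cast_ne_zero.2 hp), hLg z hz]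

/-- Two functions which are continuous at `x` and agree on a punctured neighbourhood of `x`
agree at `x`. -/
theorem eq_of_eventuallyEq_nhdsNE {f g : ℂ → ℂ} {x : ℂ} (hf : ContinuousAt f x)
    (hg : ContinuousAt g x) (h : ∀ᶠ z in 𝓝[≠] x, f z = g z) : f x = g x := by
  have h1 : Tendsto f (𝓝[≠] x) (𝓝 (f x)) := hf.tendsto.mono_left nhdsWithin_le_nhds
  have h2 : Tendsto g (𝓝[≠] x) (𝓝 (g x)) := hg.tendsto.mono_left nhdsWithin_le_nhds
  exact tendsto_nhds_unique h1 (h2.congr' (h.mono fun z hz => hz.symm))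

/-- A holomorphic function near a closed disc, nowhere locally zero, all of whose zeros in the
closed disc have order divisible by `p`, has a holomorphic `p`-th root on the open disc. -/
theorem exists_pow_eq_on_ball {G : ℂ → ℂ} {c : ℂ} {r : ℝ} (p : ℕ) (hp : p ≠ 0)
    (hG : AnalyticOnNhd ℂ G (closedBall c r))
    (hord : ∀ z ∈ closedBall c r, ∃ m : ℕ, analyticOrderAt G z = ((p * m : ℕ) : ℕ∞)) :
    ∃ u : ℂ → ℂ, DifferentiableOn ℂ u (ball c r) ∧ ∀ z ∈ ball c r, u z ^ p = G z := by
  classical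
  set K := closedBall c r with hK
  have hmero : MeromorphicOn G K := hG.meromorphicOn
  have hfin : (MeromorphicOn.divisor G K).support.Finite :=
    (MeromorphicOn.divisor G K).finiteSupport (isCompact_closedBall c r)
  have hordK : ∀ z ∈ K, ∃ m : ℕ, meromorphicOrderAt G z = ((p * m : ℕ) : ℤ) := by
    intro z hz
    obtain ⟨m, hm⟩ := hord z hz
    refine ⟨m, ?_⟩
    rw [(hG z hz).meromorphicOrderAt_eq, hm]
    rfl
  have hne' : ∀ u : K, meromorphicOrderAt G u ≠ ⊤ := by
    intro u
    obtain ⟨m, hm⟩ := hordK u u.2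
    rw [hm]
    exact WithTop.coe_ne_top
  obtain ⟨g, hg, hgne, hEq⟩ := hmero.extract_zeros_poles hne' hfin
  set D := MeromorphicOn.divisor G K with hD
  have hDm : ∀ u, ∃ m : ℕ, D u = ((p * m : ℕ) : ℤ) := by
    intro u
    by_cases hu : u ∈ K
    · obtain ⟨m, hm⟩ := hordK u hu
      refine ⟨m, ?_⟩
      rw [hD, MeromorphicOn.divisor_apply hmero hu, hm]
      rfl
    · refine ⟨0, ?_⟩
      have : D u = 0 := Function.locallyFinsuppWithin.apply_eq_zero_of_notMem D hu
      simp [this]
  choose E hE using hDm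
  -- the polynomial part of the root
  set ψ : ℂ → ℂ := fun z => ∏ u ∈ hfin.toFinset, (z - u) ^ (E u) with hψ
  have hψd : Differentiable ℂ ψ := by
    have : ψ = ∏ u ∈ hfin.toFinset, (fun z : ℂ => (z - u) ^ (E u)) := by
      funext z
      rw [hψ, Finset.prod_apply]
    rw [this]
    apply Differentiable.finsetProd
    intro u _
    exact (differentiable_id.sub_const u).pow _
  -- the factorised rational function is `ψ ^ p`
  have hφ : ∀ z, (∏ᶠ u, (fun x : ℂ => x - u) ^ D u) z = ψ z ^ p := by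
    intro z
    rw [Function.FactorizedRational.finprod_eq_fun hfin]
    show (∏ᶠ u, (z - u) ^ D u) = ψ z ^ p
    rw [finprod_eq_prod_of_mulSupport_subset (s := hfin.toFinset)]
    · rw [hψ]
      simp only
      rw [← Finset.prod_pow]
      refine Finset.prod_congr rfl fun u _ => ?_
      rw [hE u, zpow_natCast, ← pow_mul, mul_comm]
    · intro u hu
      simp only [Function.mem_mulSupport, ne_eq] at hu
      simp only [Set.Finite.coe_toFinset, Function.mem_support, ne_eq]
      intro h0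
      exact hu (by rw [h0]; simp)
  -- root of the unit part
  have hgd : DifferentiableOn ℂ g (ball c r) :=
    (hg.mono ball_subset_closedBall).differentiableOn
  obtain ⟨w, hwd, hw⟩ := exists_pow_eq_on_ball_of_ne_zero p hp hgd
    (fun z hz => hgne ⟨z, ball_subset_closedBall hz⟩)
  refine ⟨fun z => ψ z * w z, hψd.differentiableOn.mul hwd, fun z hz => ?_⟩
  rw [mul_pow, hw z hz, ← hφ z]
  -- upgrade the codiscrete equality to an equality at `z`
  have hS := hEq
  rw [Filter.EventuallyEq, Filter.Eventually, mem_codiscreteWithin] at hS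
  have hzK : z ∈ K := ball_subset_closedBall hz
  have h1 := hS z hzK
  rw [Filter.disjoint_principal_right] at h1
  have h2 : ∀ᶠ y in 𝓝[≠] z, y ∈ K := by
    have : ball c r ∈ 𝓝 z := isOpen_ball.mem_nhds hz
    exact mem_nhdsWithin_of_mem_nhds (Filter.mem_of_superset this ball_subset_closedBall)
  have h3 : ∀ᶠ y in 𝓝[≠] z, G y = ((∏ᶠ u, (fun x : ℂ => x - u) ^ D u) • g) y := by
    filter_upwards [h1, h2] with y hy1 hy2
    by_contra hcon
    exact hy1 ⟨hy2, hcon⟩
  have hcG : ContinuousAt G z := (hG z hzK).continuousAt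
  have hcR : ContinuousAt (fun y => ((∏ᶠ u, (fun x : ℂ => x - u) ^ D u) • g) y) z := by
    have : (fun y => ((∏ᶠ u, (fun x : ℂ => x - u) ^ D u) • g) y) = fun y => ψ y ^ p * g y := by
      funext y
      simp only [Pi.smul_apply', smul_eq_mul, hφ y]
    rw [this]
    exact ((hψd.continuous.continuousAt).pow p).mul (hg z hzK).continuousAt
  have := eq_of_eventuallyEq_nhdsNE hcG hcR h3
  rw [this]
  simp [Pi.smul_apply', smul_eq_mul]


end Fermat.Agent.S29.H751

end
-- ===== PACK-END S29/H751/PthRootBall.lean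

-- ===== PACK-BEGIN S28/Defs.lean
section
/-
S28 (Igusa) long-shot -- shared definitions and the interface structure `CoreData`.
All S28 declarations live in namespace `Fermat.Agent.S28`.
-/




set_option autoImplicit false

noncomputable section

open ModularCurve HahnSeries

namespace Fermat.Agent.S28

/-! ### Formal q-series over an arbitrary commutative ring -/

section Formal

variable (R : Type*) [CommRing R]

/-- Formal discriminant `Δ = q ∏ (1 - qⁿ)²⁴` as a Laurent series over `R`. -/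
def deltaL : LaurentSeries R :=
  HahnSeries.single (1 : ℤ) 1 *
    HahnSeries.ofPowerSeries ℤ R (dedekindEtaUnit.map (Int.castRingHom R))

/-- Formal inverse of `Δ`: `q⁻¹ ∏ (1 - qⁿ)⁻²⁴`. -/
def deltaInvL : LaurentSeries R :=
  HahnSeries.single (-1 : ℤ) 1 *
    HahnSeries.ofPowerSeries ℤ R (dedekindEtaUnitInv.map (Int.castRingHom R))

/-- `θ = q d/dq` on Laurent series: multiplies the coefficient of `qⁿ` by `n`. -/
def thetaL (f : LaurentSeries R) : LaurentSeries R where
  coeff n := (n : R) * f.coeff n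
  isPWO_support' := f.isPWO_support.mono fun n hn => by
    simp only [Function.mem_support, ne_eq] at hn ⊢
    intro h
    exact hn (by rw [h, mul_zero])

@[simp] theorem thetaL_coeff (f : LaurentSeries R) (n : ℤ) :
    (thetaL R f).coeff n = (n : R) * f.coeff n := rfl

/-- The modular unit `u_p = Δ(q^p)/Δ(q)` as a formal Laurent series. -/
def unitL (p : ℕ) [NeZero p] : LaurentSeries R :=
  qExpand R p (deltaL R) * deltaInvL R

end Formal

/-! ### Fields -/

/-- `k(j) ⊂ k((q))`. -/
def jField (k : Type*) [Field k] : IntermediateField k (LaurentSeries k) :=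
  IntermediateField.adjoin k {jqModC k}

/-- The integral generators `j(q^d)`, `d ∣ N`, in `ℤ((q))`. -/
def intDivisorExpansions (N : ℕ) : Set (LaurentSeries ℤ) :=
  {x | ∃ (d : ℕ) (_ : NeZero d), d ∣ N ∧ x = qExpand ℤ d (jqModC ℤ)}

/-- Evaluation `ℤ[Y] → A((q))`, `Y ↦ y`. -/
abbrev evalAt {A : Type*} [CommRing A] (y : LaurentSeries A) : Polynomial ℤ →+* LaurentSeries A :=
  (Polynomial.aeval (R := ℤ) y).toRingHom

/-- Prime-level input from the analytic team: the modular polynomial `Φ_p ∈ ℤ[Y][X]`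
(monic of degree `p+1` in `X`) with the two vanishing properties
`Φ_p(j(q^p), j(q)) = 0` and `Φ_p(j(q), j(q^p)) = 0`. -/
structure ModPolyData (p : ℕ) [NeZero p] : Type where
  Φ : Polynomial (Polynomial ℤ)
  monic : Φ.Monic
  natDegree_eq : Φ.natDegree = p + 1
  eval_jp : Φ.eval₂ (evalAt (jqModC ℤ)) (qExpand ℤ p (jqModC ℤ)) = 0
  eval_j : Φ.eval₂ (evalAt (qExpand ℤ p (jqModC ℤ))) (jqModC ℤ) = 0

/-- Prime-level input from the analytic team: `p¹² Δ(q^p)/Δ(q)` is integral over `ℤ[j]`. -/
structure UnitPolyData (p : ℕ) [NeZero p] : Type where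
  W : Polynomial (Polynomial ℤ)
  monic : W.Monic
  eval_unit : W.eval₂ (evalAt (jqModC ℤ)) ((p : LaurentSeries ℤ) ^ 12 * unitL ℤ p) = 0

/-- The interface between the field-theory part [L] and the valuation part [V]:
`n` integral "monomials" spanning `F` over `ℚ(j)` whose reductions to `K((q))`
are linearly independent over `K(j)`; plus integrality of the generators. -/
structure CoreData (N : ℕ) [NeZero N] (K : Type) [Field K] : Prop where
  exists_basis : ∃ (n : ℕ) (y : Fin n → LaurentSeries ℤ),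
    (∀ i, y i ∈ Subring.closure (intDivisorExpansions N)) ∧
    (∀ x ∈ modularFunctionFieldFull N,
      x ∈ Submodule.span (jField ℚ)
        (Set.range fun i => coeffMap (Int.castRingHom ℚ) (y i))) ∧
    LinearIndependent (jField K) (fun i => coeffMap (Int.castRingHom K) (y i))
  integral : ∀ (d : ℕ) [NeZero d], d ∣ N →
    ∃ P : Polynomial (Polynomial ℤ), P.Monic ∧
      P.eval₂ (evalAt (jqModC ℤ)) (qExpand ℤ d (jqModC ℤ)) = 0

end Fermat.Agent.S28

end

end
-- ===== PACK-END S28/Defs.lean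

-- ===== PACK-BEGIN S28/H25/DerivQExp.lean
section


/-!
# `q`-expansion of the normalised derivative `D = (2πi)⁻¹ d/dτ`

(helper25, S28 piece [A-θ], route independent.)
If `F : ℍ → ℂ` is holomorphic, `h`-periodic and bounded at `i∞` with `q`-expansion `∑ aₙ qₕⁿ`,
then `D F` is given by the convergent series `h⁻¹ ∑ n aₙ qₕⁿ`; in particular (for `h = 1`)
`qExpansion 1 (D F) = θ (qExpansion 1 F)` with `θ = q d/dq`.
-/

set_option autoImplicit false

open UpperHalfPlane hiding I
open Function Derivative Complex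
open scoped Manifold

noncomputable section

namespace Fermat.Agent.S28.H25

local notation "𝕢" => Function.Periodic.qParam

theorem hasDerivAt_qParam (h : ℝ) (z : ℂ) :
    HasDerivAt (𝕢 h) (𝕢 h z * (2 * Real.pi * I / h)) z := by
  unfold Function.Periodic.qParam
  have h1 : HasDerivAt (fun z : ℂ => 2 * Real.pi * I * z / h) (2 * Real.pi * I / h) z := by
    have := ((hasDerivAt_id z).const_mul (2 * Real.pi * I)).div_const (h : ℂ)
    simpa using this
  exact h1.cexp

/-- `D F = h⁻¹ · q · g'(q)` with `g` the cusp function of `F`. -/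
theorem D_eq_qParam_mul_deriv_cuspFunction {F : ℍ → ℂ} {h : ℝ} (hh : 0 < h)
    (hper : Periodic (F ∘ ofComplex) h) (hhol : MDiff F) (hbdd : IsBoundedAtImInfty F) (τ : ℍ) :
    D F τ = (h : ℂ)⁻¹ * (𝕢 h τ * deriv (cuspFunction h F) (𝕢 h τ)) := by
  have hq : ‖𝕢 h τ‖ < 1 := Periodic.norm_qParam_lt_one hh τ.im_pos
  have hg : DifferentiableAt ℂ (cuspFunction h F) (𝕢 h τ) :=
    differentiableAt_cuspFunction hh hper hhol hbdd hq
  have heq : (F ∘ ofComplex) =ᶠ[nhds (τ : ℂ)] (cuspFunction h F) ∘ (𝕢 h) := by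
    filter_upwards [isOpen_upperHalfPlaneSet.mem_nhds τ.im_pos] with z hz
    have := eq_cuspFunction (f := F) ⟨z, hz⟩ hh.ne' hper
    simp only [comp_apply, ofComplex_apply_of_im_pos hz]
    exact this.symm
  have hcomp := (hg.hasDerivAt.comp (τ : ℂ) (hasDerivAt_qParam h τ)).deriv
  rw [normalizedDerivOfComplex, heq.deriv_eq, hcomp]
  have hpi : (2 * (Real.pi : ℂ) * I) ≠ 0 := by
    simp [Real.pi_ne_zero]
  have hh' : (h : ℂ) ≠ 0 := by exact_mod_cast hh.ne'
  field_simp

/-- Termwise differentiation of the `q`-expansion. -/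
theorem hasSum_D_of_bounded {F : ℍ → ℂ} {h : ℝ} (hh : 0 < h)
    (hper : Periodic (F ∘ ofComplex) h) (hhol : MDiff F) (hbdd : IsBoundedAtImInfty F) (τ : ℍ) :
    HasSum (fun n : ℕ => ((h : ℂ)⁻¹ * ((n : ℂ) * (qExpansion h F).coeff n)) • 𝕢 h τ ^ n)
      (D F τ) := by
  set g := cuspFunction h F with hgdef
  have hgdiff : DifferentiableOn ℂ g (Metric.ball 0 1) :=
    differentiableOn_cuspFunction_ball hh hper hhol hbdd
  have hg'diff : DifferentiableOn ℂ (deriv g) (Metric.ball 0 1) :=
    hgdiff.deriv Metric.isOpen_ball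
  have hq : 𝕢 h τ ∈ Metric.ball (0 : ℂ) 1 := by
    simpa using Periodic.norm_qParam_lt_one hh τ.im_pos
  have hT := hasSum_taylorSeries_on_ball hg'diff hq
  rw [D_eq_qParam_mul_deriv_cuspFunction hh hper hhol hbdd τ]
  have hT2 := (hT.mul_left (𝕢 h τ)).mul_left ((h : ℂ)⁻¹)
  have hfun : (fun n : ℕ => ((h : ℂ)⁻¹ * (((n + 1 : ℕ) : ℂ) *
      (qExpansion h F).coeff (n + 1))) • 𝕢 h τ ^ (n + 1)) =
      (fun i : ℕ => (h : ℂ)⁻¹ * (𝕢 h τ * (((i.factorial : ℕ) : ℂ))⁻¹ • (𝕢 h τ - 0) ^ i •
        iteratedDeriv i (deriv g) 0)) := by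
    funext n
    rw [qExpansion_coeff, ← iteratedDeriv_succ', sub_zero]
    have hn : ((n.factorial : ℕ) : ℂ) ≠ 0 := by exact_mod_cast n.factorial_ne_zero
    have hn1 : ((n : ℂ) + 1) ≠ 0 := by exact_mod_cast n.succ_ne_zero
    simp only [smul_eq_mul]
    rw [Nat.factorial_succ]
    push_cast
    field_simp
    rw [hgdef]
    ring
  have hshift : HasSum (fun n : ℕ => ((h : ℂ)⁻¹ * (((n + 1 : ℕ) : ℂ) *
      (qExpansion h F).coeff (n + 1))) • 𝕢 h τ ^ (n + 1))
      ((h : ℂ)⁻¹ * (𝕢 h τ * deriv g (𝕢 h τ))) := by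
    rw [hfun]
    exact hT2
  have := (hasSum_nat_add_iff' (f := fun n : ℕ => ((h : ℂ)⁻¹ * ((n : ℂ) *
      (qExpansion h F).coeff n)) • 𝕢 h τ ^ n) 1).mp (by simpa using hshift)
  simpa using this

/-- `D F` is periodic if `F` is. -/
theorem periodic_D {F : ℍ → ℂ} {h : ℝ} (hh : 0 < h)
    (hper : Periodic (F ∘ ofComplex) h) (hhol : MDiff F) (hbdd : IsBoundedAtImInfty F) :
    Periodic (D F ∘ ofComplex) h := by
  intro w
  by_cases! hw : 0 < Complex.im w
  · have hw' : 0 < Complex.im (w + h) := by simp [hw]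
    simp only [comp_apply, ofComplex_apply_of_im_pos hw', ofComplex_apply_of_im_pos hw]
    rw [D_eq_qParam_mul_deriv_cuspFunction hh hper hhol hbdd,
      D_eq_qParam_mul_deriv_cuspFunction hh hper hhol hbdd]
    have hq : 𝕢 h ((⟨w + h, hw'⟩ : ℍ) : ℂ) = 𝕢 h ((⟨w, hw⟩ : ℍ) : ℂ) := by
      show 𝕢 h (w + h) = 𝕢 h w
      have hh' : (h : ℂ) ≠ 0 := by exact_mod_cast hh.ne'
      simp only [Function.Periodic.qParam]
      rw [show 2 * (Real.pi : ℂ) * Complex.I * (w + h) / h
          = 2 * Real.pi * Complex.I * w / h + 2 * Real.pi * Complex.I by field_simp]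
      rw [Complex.exp_add, Complex.exp_two_pi_mul_I, mul_one]
    rw [hq]
  · have : Complex.im (w + h) ≤ 0 := by simpa using hw
    simp [ofComplex_apply_of_im_nonpos this, ofComplex_apply_of_im_nonpos hw]

theorem isBoundedAtImInfty_D {F : ℍ → ℂ} {h : ℝ} (hh : 0 < h)
    (hper : Periodic (F ∘ ofComplex) h) (hhol : MDiff F) (hbdd : IsBoundedAtImInfty F) :
    IsBoundedAtImInfty (D F) :=
  isBoundedAtImInfty_of_hasSum_qExpansion hh (hasSum_D_of_bounded hh hper hhol hbdd)

theorem analyticAt_cuspFunction_D {F : ℍ → ℂ} {h : ℝ} (hh : 0 < h)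
    (hper : Periodic (F ∘ ofComplex) h) (hhol : MDiff F) (hbdd : IsBoundedAtImInfty F) :
    AnalyticAt ℂ (cuspFunction h (D F)) 0 :=
  analyticAt_cuspFunction_zero hh (periodic_D hh hper hhol hbdd)
    (normalizedDerivOfComplex_mdifferentiable hhol) (isBoundedAtImInfty_D hh hper hhol hbdd)

/-- The `q`-expansion of `D F` is `h⁻¹ θ` of the `q`-expansion of `F`. -/
theorem qExpansion_D_coeff {F : ℍ → ℂ} {h : ℝ} (hh : 0 < h)
    (hper : Periodic (F ∘ ofComplex) h) (hhol : MDiff F) (hbdd : IsBoundedAtImInfty F) (n : ℕ) :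
    (qExpansion h (D F)).coeff n = (h : ℂ)⁻¹ * ((n : ℂ) * (qExpansion h F).coeff n) := by
  have hfanalytic := analyticAt_cuspFunction_D hh hper hhol hbdd
  have h1 := (hasFPowerSeriesOnBall_cuspFunction hh hfanalytic
    (hasSum_D_of_bounded hh hper hhol hbdd)).hasFPowerSeriesAt
  have h2 : HasFPowerSeriesAt (cuspFunction h (D F))
      (FormalMultilinearSeries.ofScalars ℂ fun m ↦ (qExpansion h (D F)).coeff m) 0 := by
    simpa [qExpansion_coeff, div_eq_mul_inv, mul_comm]
      using hfanalytic.hasFPowerSeriesAt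
  have := congr_arg (FormalMultilinearSeries.coeff · n) (h1.eq_formalMultilinearSeries h2)
  simpa [FormalMultilinearSeries.coeff_ofScalars] using this.symm

/-- `θ = X d/dX` on power series. -/
def thetaP {R : Type*} [CommRing R] (f : PowerSeries R) : PowerSeries R :=
  PowerSeries.X * PowerSeries.derivative R f

theorem coeff_thetaP {R : Type*} [CommRing R] (f : PowerSeries R) (n : ℕ) :
    (thetaP f).coeff n = (n : R) * f.coeff n := by
  rcases n with _ | n
  · simp [thetaP]
  · rw [thetaP, PowerSeries.coeff_succ_X_mul, PowerSeries.coeff_derivative]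
    push_cast
    ring

theorem qExpansion_D {F : ℍ → ℂ}
    (hper : Periodic (F ∘ ofComplex) 1) (hhol : MDiff F) (hbdd : IsBoundedAtImInfty F) :
    qExpansion 1 (D F) = thetaP (qExpansion 1 F) := by
  ext n
  rw [qExpansion_D_coeff one_pos hper hhol hbdd, coeff_thetaP]
  simp

end Fermat.Agent.S28.H25

end
end
-- ===== PACK-END S28/H25/DerivQExp.lean

-- ===== PACK-BEGIN S24/Mod/H368Lift.lean
section


/-!
# S24 / MOD glue (helper368): lifting a ring hom from polynomial generators to a generated field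

`exists_lift`: if `F' = K(s i : i ∈ ι) ⊆ E` and `Φ : MvPolynomial ι K →+* L` has the same kernel as
evaluation at the generators `s`, then `Φ` induces a ring hom `σ : F' →+* L`.
-/

set_option autoImplicit false

noncomputable section

open MvPolynomial

namespace Fermat.Agent.S24.H368

variable {K E L ι : Type*} [Field K] [Field E] [Algebra K E] [Field L]

/-- The ring hom `Algebra.adjoin K (range s) →+* L` induced by `Φ`, when `ker (aeval s) ≤ ker Φ`. -/
theorem exists_ringHom_adjoin (s : ι → E) (Φ : MvPolynomial ι K →+* L)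
    (h : ∀ p, aeval s p = 0 → Φ p = 0) :
    ∃ g : Algebra.adjoin K (Set.range s) →+* L,
      ∀ (p : MvPolynomial ι K) (x : Algebra.adjoin K (Set.range s)),
        (x : E) = aeval s p → g x = Φ p := by
  classical
  have hrange : Algebra.adjoin K (Set.range s) = (aeval s : MvPolynomial ι K →ₐ[K] E).range :=
    Algebra.adjoin_range_eq_range_aeval K s
  -- a section of `aeval s` on the adjoin
  have hsec : ∀ x : Algebra.adjoin K (Set.range s), ∃ p : MvPolynomial ι K, aeval s p = (x : E) := by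
    intro x
    have hx : (x : E) ∈ (aeval s : MvPolynomial ι K →ₐ[K] E).range := hrange ▸ x.2
    exact hx
  choose sec hsec' using hsec
  have key : ∀ (p : MvPolynomial ι K) (x : Algebra.adjoin K (Set.range s)),
      (x : E) = aeval s p → Φ (sec x) = Φ p := by
    intro p x hx
    have : aeval s (sec x - p) = 0 := by rw [map_sub, hsec', hx, sub_self]
    have := h _ this
    rwa [map_sub, sub_eq_zero] at this
  refine ⟨{ toFun := fun x => Φ (sec x), map_one' := ?_, map_mul' := ?_, map_zero' := ?_,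
            map_add' := ?_ }, fun p x hx => key p x hx⟩
  · rw [key 1 1 (by simp), map_one]
  · intro x y
    rw [key (sec x * sec y) (x * y) (by simp [hsec']), map_mul]
  · rw [key 0 0 (by simp), map_zero]
  · intro x y
    rw [key (sec x + sec y) (x + y) (by simp [hsec']), map_add]

open scoped IntermediateField.algebraAdjoinAdjoin in
/-- **Lift.** If `Φ : MvPolynomial ι K →+* L` has the same kernel as evaluation at `s : ι → E`,
it induces a ring hom from the field `K(s)` to `L`. -/
theorem exists_lift (s : ι → E) (F' : IntermediateField K E)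
    (hF : F' = IntermediateField.adjoin K (Set.range s))
    (Φ : MvPolynomial ι K →+* L) (h : ∀ p, Φ p = 0 ↔ aeval s p = 0) :
    ∃ σ : F' →+* L, ∀ (p : MvPolynomial ι K) (x : F'), (x : E) = aeval s p → σ x = Φ p := by
  subst hF
  obtain ⟨g, hg⟩ := exists_ringHom_adjoin s Φ (fun p hp => (h p).2 hp)
  have hginj : Function.Injective g := by
    rw [injective_iff_map_eq_zero]
    intro x hx
    obtain ⟨p, hp⟩ : ∃ p : MvPolynomial ι K, aeval s p = (x : E) := by
      have hx' : (x : E) ∈ (aeval s : MvPolynomial ι K →ₐ[K] E).range :=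
        (Algebra.adjoin_range_eq_range_aeval K s) ▸ x.2
      exact hx'
    have h1 : Φ p = 0 := by rw [← hg p x hp.symm, hx]
    have h2 := (h p).1 h1
    exact Subtype.ext (by rw [← hp, h2]; rfl)
  refine ⟨IsFractionRing.lift (A := Algebra.adjoin K (Set.range s)) hginj, fun p x hx => ?_⟩
  have hxmem : (x : E) ∈ Algebra.adjoin K (Set.range s) := by
    rw [hx, Algebra.adjoin_range_eq_range_aeval]
    exact ⟨p, rfl⟩
  have hx' : x = algebraMap (Algebra.adjoin K (Set.range s))
      (IntermediateField.adjoin K (Set.range s)) ⟨(x : E), hxmem⟩ := Subtype.ext rfl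
  rw [hx', IsFractionRing.lift_algebraMap]
  exact hg p _ hx

end Fermat.Agent.S24.H368

end
end
-- ===== PACK-END S24/Mod/H368Lift.lean

-- ===== PACK-BEGIN S15/H808/RtfAlg.lean
section


/-!
# S15 / DESC skeleton leaf RTF, the algebra (helper808)

A finitely generated abelian group has bounded torsion:
`exists_exponent_of_fg : AddGroup.FG A → ∃ e > 0, ∀ t torsion, e • t = 0`.
Mathlib only.
-/

set_option autoImplicit false

namespace Fermat.Agent.S15.H808

/-- The torsion of a finitely generated abelian group has a finite exponent. -/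
theorem exists_exponent_of_fg (A : Type*) [AddCommGroup A] (h : AddGroup.FG A) :
    ∃ e : ℕ, 0 < e ∧ ∀ t : A, (∃ m : ℕ, 0 < m ∧ m • t = 0) → e • t = 0 := by
  have : Module.Finite ℤ A := Module.Finite.iff_addGroup_fg.mpr h
  have : IsNoetherian ℤ A := isNoetherian_of_isNoetherianRing_of_finite ℤ A
  let T : Submodule ℤ A := Submodule.torsion ℤ A
  have : Module.Finite ℤ T := Module.Finite.of_fg (IsNoetherian.noetherian T)
  have htors : Module.IsTorsion ℤ T := Submodule.torsion_isTorsion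
  have : Finite T := Module.finite_of_fg_torsion T htors
  refine ⟨Nat.card T, Nat.card_pos, ?_⟩
  rintro t ⟨m, hm0, hm⟩
  have ht : t ∈ T := by
    rw [Submodule.mem_torsion_iff]
    refine ⟨⟨(m : ℤ), ?_⟩, ?_⟩
    · rw [mem_nonZeroDivisors_iff_ne_zero]
      exact_mod_cast hm0.ne'
    · show (m : ℤ) • t = 0
      rw [natCast_zsmul]
      exact hm
  have h1 : Nat.card T • (⟨t, ht⟩ : T) = 0 := card_nsmul_eq_zero'
  have h2 := congrArg (Subtype.val) h1
  simpa using h2

end Fermat.Agent.S15.H808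

end
-- ===== PACK-END S15/H808/RtfAlg.lean

-- ===== PACK-BEGIN A2/Spec.lean
section




/-!
# WALL A2 — frozen interfaces (row-lead helper13)

Goal (`Target N q m`): for `q ‖ N`, `q ∤ m`, every `τ` in an inertia group at `q` satisfies
`(τ - 1)² = 0` on `JZero N [m]` (`JZero N = Pic⁰(ℚ̄(X₀(N)))`, Prelude language).

Layers (see `coord/A2.md` on `origin/helper13`):

* `Target`        : the wall, Prelude language.
* `KummerTarget`  : the same on Kummer generators (`div f ∈ m·Div ⇒ (τ-1)² f ∈ (F̄ˣ)^m`).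
* `SSChart`, `SepCoord`, `AlgSSConclusion` : the abstract semistable theorem ALG (Mathlib only).
* `GoodField`     : the finite levels `E' ⊇ ℚ̄^{I}` over which ALG is applied (piece IF).

This file contains only definitions (no `sorry`).  The interface theorems are the `Prop`s
`AlgSSStatement`, `IFStatement` (this file) and `ModSSStatement` (`ModDefs.lean`).

v2 (19:10Z, LANDED, never to change again):
* `SSChart` has the two incomparability fields `not_le₁₂`, `not_le₂₁` (audit helper154: without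
  them the good-reduction case `p₁ = (w) < p₂` was admitted);
* `GoodField` has the field `finite_order` and `AlgSSStatement` the hypothesis `hfo` (the lift
  `τ` has finite order on the finite level; asked for by route G, helper12 `H12.wallG`).
-/

set_option autoImplicit false

noncomputable section

namespace Fermat.Agent.A2

open ModularCurve AlgebraicCurve

/-- The field `ℚ̄`. -/
abbrev Qb : Type := AlgebraicClosure ℚ

/-- **The wall A2** at `(N, q, m)`: unipotent inertia on the `m`-torsion of `J₀(N)`. -/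
def Target (N q m : ℕ) : Prop :=
  ∀ P : ValuationSubring Qb, P.LiesOverPrime q →
    ∀ τ ∈ P.inertiaSubgroupIn ℚ, ∀ x : JZero N, m • x = 0 →
      τ • (τ • x) + x = 2 • (τ • x)

/-- The automorphism of `F̄_N = ℚ̄(X₀(N))` induced by `τ ∈ G_ℚ` (action on coefficients). -/
abbrev act (N : ℕ) (τ : Qb ≃ₐ[ℚ] Qb) :
    modularFunctionFieldBar N ≃+* modularFunctionFieldBar N :=
  arithmeticRingAut (modularFunctionFieldFull N) τ

/-- **Kummer form of the wall**: if `div f ∈ m · Div`, then `τ²(f) · f / τ(f)²` is an `m`-th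
power in `F̄_N`. -/
def KummerTarget (N q m : ℕ) : Prop :=
  ∀ P : ValuationSubring Qb, P.LiesOverPrime q →
    ∀ τ ∈ P.inertiaSubgroupIn ℚ, ∀ f : modularFunctionFieldBar N, f ≠ 0 →
      (∀ v : Place Qb (modularFunctionFieldBar N), (m : ℤ) ∣ v.ord f) →
      ∃ h : modularFunctionFieldBar N, h ≠ 0 ∧
        act N τ (act N τ f) * f = h ^ m * (act N τ f) ^ 2

/-! ## ALG: abstract semistable two-chart models (Mathlib only) -/

section Alg

variable {R F : Type*} [CommRing R] [Field F] [Algebra R F]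

/-- A chart `B ⊆ F` of a model over `R` whose special fibre `B / wB` is reduced with exactly two
components `p₁`, `p₂`, both normal, meeting transversally (`p₁ + p₂` radical, i.e. every common
point is an ordinary double point). -/
structure SSChart (w : R) (B : Subalgebra R F) where
  /-- first component -/
  p₁ : Ideal B
  /-- second component -/
  p₂ : Ideal B
  prime₁ : p₁.IsPrime
  prime₂ : p₂.IsPrime
  ne : p₁ ≠ p₂
  not_le₁₂ : ¬ p₁ ≤ p₂
  not_le₂₁ : ¬ p₂ ≤ p₁
  inf_eq : p₁ ⊓ p₂ = Ideal.span {algebraMap R B w}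
  normal₁ : IsIntegrallyClosed (B ⧸ p₁)
  normal₂ : IsIntegrallyClosed (B ⧸ p₂)
  transversal : (p₁ ⊔ p₂).IsRadical

variable (R) in
/-- `x` is a separating coordinate for the special fibre: some `E(x)`-basis of `F` consisting of
elements of the chart `B` has a discriminant `d(x)`, `d ∈ R[X]`, which is nonzero modulo the
maximal ideal. -/
def SepCoord [IsLocalRing R] (E : Type*) [Field E] [Algebra E F] (x : F) (B : Subalgebra R F) :
    Prop :=
  ∃ (n : ℕ) (b : Fin n → F), (∀ i, b i ∈ B) ∧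
    LinearIndependent (IntermediateField.adjoin E ({x} : Set F)) b ∧
    n = Module.finrank (IntermediateField.adjoin E ({x} : Set F)) F ∧
    ∃ d : Polynomial R, d.map (IsLocalRing.residue R) ≠ 0 ∧
      Polynomial.aeval x d =
        algebraMap (IntermediateField.adjoin E ({x} : Set F)) F
          (Algebra.discr (IntermediateField.adjoin E ({x} : Set F)) b)

/-- `m ∣ div f` on every discrete valuation ring of `F` containing `E`, in Mathlib-only form:
locally `f = u · h ^ m` with `u` a unit. -/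
def DivisibleDiv (E : Type*) [Field E] [Algebra E F] (m : ℕ) (f : F) : Prop :=
  ∀ V : ValuationSubring F, IsDiscreteValuationRing V → (∀ e : E, algebraMap E F e ∈ V) →
    ∃ h u : F, h ≠ 0 ∧ u ∈ V ∧ u⁻¹ ∈ V ∧ f = u * h ^ m

/-- The conclusion of ALG: `(τ - 1)²` kills the Kummer classes with `m ∣ div`. -/
def AlgSSConclusion (E : Type*) [Field E] [Algebra E F] (m : ℕ) (τ : F ≃+* F) : Prop :=
  ∀ f : F, f ≠ 0 → DivisibleDiv E m f →
    ∃ h : F, h ≠ 0 ∧ τ (τ f) * f = h ^ m * (τ f) ^ 2

/-- **ALG (interface statement).**  Henselian DVR `R` with algebraically closed residue field of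
characteristic `q`, `F / E` a function field with coordinate `x`, `Bf`, `Bi` the integral closures
of `R[x]`, `R[1/x]` in `F`, both semistable with two components (`SSChart`) and separating
coordinate, `τ` a semilinear automorphism of finite order fixing `x` and acting trivially modulo
`w` on both charts.  Then `(τ - 1)²` kills every Kummer class `f` with `m ∣ div f`, `q ∤ m`. -/
def AlgSSStatement : Prop :=
  ∀ {R E F : Type} [CommRing R] [IsDomain R] [IsDiscreteValuationRing R] [HenselianLocalRing R]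
    [IsAlgClosed (IsLocalRing.ResidueField R)]
    [Field E] [CharZero E] [Algebra R E] [IsFractionRing R E]
    [Field F] [Algebra E F] [Algebra R F] [IsScalarTower R E F]
    (w : R) (_ : Irreducible w) (q m : ℕ) (_ : q.Prime)
    (_ : (q : R) ∈ IsLocalRing.maximalIdeal R) (_ : 0 < m) (_ : ¬ q ∣ m)
    (x : F) (_ : Transcendental E x)
    (_ : FiniteDimensional (IntermediateField.adjoin E ({x} : Set F)) F)
    (_ : ∀ f : F, IsAlgebraic E f → f ∈ (algebraMap E F).range)
    (Bf Bi : Subalgebra R F)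
    (_ : ∀ f : F, f ∈ Bf ↔ IsIntegral (Algebra.adjoin R ({x} : Set F)) f)
    (_ : ∀ f : F, f ∈ Bi ↔ IsIntegral (Algebra.adjoin R ({x⁻¹} : Set F)) f)
    (_ : SSChart w Bf) (_ : SSChart w Bi)
    (_ : SepCoord R E x Bf) (_ : SepCoord R E x⁻¹ Bi)
    (τ : F ≃+* F) (τE : E ≃+* E) (τR : R ≃+* R)
    (_ : ∀ e : E, τ (algebraMap E F e) = algebraMap E F (τE e))
    (_ : ∀ r : R, τE (algebraMap R E r) = algebraMap R E (τR r))
    (_ : τ x = x)
    (_ : ∃ r : ℕ, 0 < r ∧ ∀ f : F, (⇑τ)^[r] f = f)
    (_ : ∀ b ∈ Bf, ∃ c ∈ Bf, τ b - b = algebraMap R F w * c)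
    (_ : ∀ b ∈ Bi, ∃ c ∈ Bi, τ b - b = algebraMap R F w * c),
    AlgSSConclusion E m τ

end Alg

/-! ## IF: good levels -/

/-- `R_E := P ∩ E`. -/
abbrev RE (P : ValuationSubring Qb) (E : IntermediateField ℚ Qb) : ValuationSubring E :=
  P.comap (algebraMap E Qb)

/-- A *good level* for `P`: an intermediate field `E ⊆ ℚ̄`, stable under the inertia group of
`P`, such that `R_E = P ∩ E` is a henselian discrete valuation ring with algebraically closed
residue field on which the inertia group acts trivially modulo the maximal ideal.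
(Example: every finite extension of the inertia field `ℚ̄^{I_P}` inside `ℚ̄`.) -/
structure GoodField (P : ValuationSubring Qb) (E : IntermediateField ℚ Qb) : Prop where
  stable : ∀ τ ∈ P.inertiaSubgroupIn ℚ, ∀ e : Qb, e ∈ E → τ e ∈ E
  dvr : IsDiscreteValuationRing (RE P E)
  henselian : HenselianLocalRing (RE P E)
  algClosed : IsAlgClosed (IsLocalRing.ResidueField (RE P E))
  trivial_mod : ∀ τ ∈ P.inertiaSubgroupIn ℚ, ∀ e : Qb, e ∈ E → e ∈ P →
    τ e - e ∈ P.nonunits
  finite_order : ∀ τ ∈ P.inertiaSubgroupIn ℚ, ∃ r : ℕ, 0 < r ∧ ∀ e : Qb, e ∈ E →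
    (⇑τ)^[r] e = e

/-- **IF (interface statement).**  Every finite set of algebraic numbers lies in a good level for
`P` (`E` = compositum of the inertia field `ℚ̄^{I_P}` and a finite normal extension of `ℚ`). -/
def IFStatement : Prop :=
  ∀ (q : ℕ) (_ : q.Prime) (P : ValuationSubring Qb) (_ : P.LiesOverPrime q) (S : Finset Qb),
    ∃ E : IntermediateField ℚ Qb, (∀ s ∈ S, s ∈ E) ∧ GoodField P E

end Fermat.Agent.A2

end
end
-- ===== PACK-END A2/Spec.lean

-- ===== PACK-BEGIN S18/H602/Descent.lean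
section



/-!
# S18, piece d1 : descent from `Q̄` to a number field  (owner helper602)

`Q̄ = AlgebraicClosure ℚ`, `A ⊆ Q̄` a valuation subring, `E ⊆ Q̄` a finite extension of `ℚ`,
`R_E := A ∩ E = A.comap (algebraMap E Q̄)`.

Main results (namespace `Fermat.Agent.S18.H602`):

* `coeffMap_mem_laurentBaseChange` : functoriality of `laurentBaseChange` in the field.
* `exists_finite_descent`, `exists_finite_descent₂` : every element (pair of elements) of
  `laurentBaseChange Q̄ F₀` comes from `laurentBaseChange E F₀` for a finite `E/ℚ`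
  (containing any prescribed finite `E₀`).
* `exists_series_descent₂` : the same for Laurent series with coefficients in `A`; they descend
  to Laurent series with coefficients in `R_E`.
* `coreStatement_of_coreAt` : CORE over `A` follows from CORE over all `R_E`.
-/

set_option autoImplicit false

noncomputable section

namespace Fermat.Agent.S18.H602

open ModularCurve AlgebraicCurve HahnSeries IntermediateField

local notation "Q̄" => AlgebraicClosure ℚ

/-! ## 1. Generalities on `coeffMap` -/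

section CoeffMap

variable {R S : Type*} [CommRing R] [CommRing S]

theorem coeffMap_injective (f : R →+* S) (hf : Function.Injective f) :
    Function.Injective (coeffMap f) := by
  intro x y h
  ext n
  apply hf
  have := congrArg (fun z => z.coeff n) h
  simpa using this

/-- A Laurent series all of whose coefficients lie in the range of an injective ring
homomorphism comes from a Laurent series over the source. -/
theorem exists_coeffMap_eq (f : R →+* S) (hf : Function.Injective f) (y : LaurentSeries S)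
    (h : ∀ n, y.coeff n ∈ Set.range f) : ∃ x : LaurentSeries R, coeffMap f x = y := by
  choose c hc using h
  have hsupp : Function.support c = y.support := by
    ext n
    simp only [Function.mem_support, HahnSeries.mem_support, ne_eq, ← hc n]
    rw [map_eq_zero_iff f hf]
  refine ⟨⟨c, ?_⟩, ?_⟩
  · rw [hsupp]
    exact y.isPWO_support
  · ext n
    simp [hc]

theorem coeffMap_algebraMap' {L L' : Type*} [Field L] [Field L'] (φ : L →+* L') (c : L) :
    coeffMap φ (algebraMap L (LaurentSeries L) c) = algebraMap L' (LaurentSeries L') (φ c) := by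
  rw [algebraMap_laurentSeries_eq_single, algebraMap_laurentSeries_eq_single, coeffMap_single]

end CoeffMap

/-! ## 2. Functoriality of `laurentBaseChange` -/

section Functoriality

variable {L L' : Type*} [Field L] [Field L'] [Algebra ℚ L] [Algebra ℚ L']
variable (F₀ : IntermediateField ℚ (LaurentSeries ℚ))

theorem coeffMap_coeffEmb' (φ : L →+* L') (x : LaurentSeries ℚ) :
    coeffMap φ (coeffEmb L x) = coeffEmb L' x := by
  rw [coeffEmb, coeffMap_coeffMap]
  exact coeffMap_congr (Subsingleton.elim _ _) x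

theorem coeffMap_mem_laurentBaseChange (φ : L →+* L') {x : LaurentSeries L}
    (hx : x ∈ laurentBaseChange L F₀) : coeffMap φ x ∈ laurentBaseChange L' F₀ := by
  rw [mem_laurentBaseChange_iff] at hx
  induction hx using Subfield.closure_induction with
  | mem y hy =>
      rcases hy with ⟨a, rfl⟩ | ⟨z, hz, rfl⟩
      · rw [coeffMap_algebraMap']
        exact (laurentBaseChange L' F₀).algebraMap_mem _
      · rw [coeffMap_coeffEmb']
        exact coeffEmb_mem_laurentBaseChange L' hz
  | one => simp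
  | add x y _ _ hx hy => simpa using add_mem hx hy
  | neg x _ hx => simpa using neg_mem hx
  | inv x _ hx => simpa using inv_mem hx
  | mul x y _ _ hx hy => simpa using mul_mem hx hy

end Functoriality

/-! ## 3. Descent of elements of `laurentBaseChange Q̄ F₀` to a finite extension of `ℚ` -/

section FiniteDescent

variable (F₀ : IntermediateField ℚ (LaurentSeries ℚ))

/-- `x ∈ Q̄((q))` is defined over the finite extension `E` (inside the base change of `F₀`). -/
def DescendsTo (E : IntermediateField ℚ Q̄) (x : LaurentSeries Q̄) : Prop :=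
  ∃ y ∈ laurentBaseChange E F₀, coeffMap (algebraMap E Q̄) y = x

variable {F₀}

theorem DescendsTo.mem {E : IntermediateField ℚ Q̄} {x : LaurentSeries Q̄}
    (h : DescendsTo F₀ E x) : x ∈ laurentBaseChange Q̄ F₀ := by
  obtain ⟨y, hy, rfl⟩ := h
  exact coeffMap_mem_laurentBaseChange F₀ _ hy

theorem DescendsTo.mono {E E' : IntermediateField ℚ Q̄} (hE : E ≤ E') {x : LaurentSeries Q̄}
    (h : DescendsTo F₀ E x) : DescendsTo F₀ E' x := by
  obtain ⟨y, hy, rfl⟩ := h
  refine ⟨coeffMap (IntermediateField.inclusion hE : E →+* E') y,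
    coeffMap_mem_laurentBaseChange F₀ _ hy, ?_⟩
  rw [coeffMap_coeffMap]
  exact coeffMap_congr (RingHom.ext fun _ => rfl) y

theorem DescendsTo.add {E : IntermediateField ℚ Q̄} {x x' : LaurentSeries Q̄}
    (h : DescendsTo F₀ E x) (h' : DescendsTo F₀ E x') : DescendsTo F₀ E (x + x') := by
  obtain ⟨y, hy, rfl⟩ := h
  obtain ⟨y', hy', rfl⟩ := h'
  exact ⟨y + y', add_mem hy hy', map_add _ _ _⟩

theorem DescendsTo.mul {E : IntermediateField ℚ Q̄} {x x' : LaurentSeries Q̄}
    (h : DescendsTo F₀ E x) (h' : DescendsTo F₀ E x') : DescendsTo F₀ E (x * x') := by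
  obtain ⟨y, hy, rfl⟩ := h
  obtain ⟨y', hy', rfl⟩ := h'
  exact ⟨y * y', mul_mem hy hy', map_mul _ _ _⟩

theorem DescendsTo.neg {E : IntermediateField ℚ Q̄} {x : LaurentSeries Q̄}
    (h : DescendsTo F₀ E x) : DescendsTo F₀ E (-x) := by
  obtain ⟨y, hy, rfl⟩ := h
  exact ⟨-y, neg_mem hy, map_neg _ _⟩

theorem DescendsTo.inv {E : IntermediateField ℚ Q̄} {x : LaurentSeries Q̄}
    (h : DescendsTo F₀ E x) : DescendsTo F₀ E x⁻¹ := by
  obtain ⟨y, hy, rfl⟩ := h
  exact ⟨y⁻¹, inv_mem hy, map_inv₀ _ _⟩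

theorem DescendsTo.one (E : IntermediateField ℚ Q̄) : DescendsTo F₀ E 1 :=
  ⟨1, one_mem _, map_one _⟩

theorem descendsTo_const (a : Q̄) :
    DescendsTo F₀ ℚ⟮a⟯ (algebraMap Q̄ (LaurentSeries Q̄) a) := by
  refine ⟨algebraMap ℚ⟮a⟯ (LaurentSeries ℚ⟮a⟯) ⟨a, mem_adjoin_simple_self ℚ a⟩,
    (laurentBaseChange ℚ⟮a⟯ F₀).algebraMap_mem _, ?_⟩
  rw [coeffMap_algebraMap']
  rfl

theorem descendsTo_coeffEmb (E : IntermediateField ℚ Q̄) {z : LaurentSeries ℚ} (hz : z ∈ F₀) :
    DescendsTo F₀ E (coeffEmb Q̄ z) :=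
  ⟨coeffEmb E z, coeffEmb_mem_laurentBaseChange E hz, coeffMap_coeffEmb' _ z⟩

theorem isAlgebraic_Qbar : Algebra.IsAlgebraic ℚ Q̄ := AlgebraicClosure.isAlgebraic ℚ

/-- Every element of `laurentBaseChange Q̄ F₀` is defined over a finite extension of `ℚ`. -/
theorem exists_finite_descent {x : LaurentSeries Q̄} (hx : x ∈ laurentBaseChange Q̄ F₀) :
    ∃ E : IntermediateField ℚ Q̄, FiniteDimensional ℚ E ∧ DescendsTo F₀ E x := by
  have := isAlgebraic_Qbar
  rw [mem_laurentBaseChange_iff] at hx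
  induction hx using Subfield.closure_induction with
  | mem y hy =>
      rcases hy with ⟨a, rfl⟩ | ⟨z, hz, rfl⟩
      · exact ⟨ℚ⟮a⟯, IntermediateField.adjoin.finiteDimensional
          (Algebra.IsAlgebraic.isAlgebraic a).isIntegral, descendsTo_const a⟩
      · exact ⟨⊥, inferInstance, descendsTo_coeffEmb ⊥ hz⟩
  | one => exact ⟨⊥, inferInstance, DescendsTo.one ⊥⟩
  | add x y _ _ hx hy =>
      obtain ⟨E₁, h₁, hx⟩ := hx
      obtain ⟨E₂, h₂, hy⟩ := hy
      exact ⟨E₁ ⊔ E₂, IntermediateField.finiteDimensional_sup E₁ E₂,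
        (hx.mono le_sup_left).add (hy.mono le_sup_right)⟩
  | neg x _ hx =>
      obtain ⟨E₁, h₁, hx⟩ := hx
      exact ⟨E₁, h₁, hx.neg⟩
  | inv x _ hx =>
      obtain ⟨E₁, h₁, hx⟩ := hx
      exact ⟨E₁, h₁, hx.inv⟩
  | mul x y _ _ hx hy =>
      obtain ⟨E₁, h₁, hx⟩ := hx
      obtain ⟨E₂, h₂, hy⟩ := hy
      exact ⟨E₁ ⊔ E₂, IntermediateField.finiteDimensional_sup E₁ E₂,
        (hx.mono le_sup_left).mul (hy.mono le_sup_right)⟩

/-- Two elements of `laurentBaseChange Q̄ F₀` are defined over a common finite extension of `ℚ`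
containing a prescribed finite extension `E₀`. -/
theorem exists_finite_descent₂ (E₀ : IntermediateField ℚ Q̄) [FiniteDimensional ℚ E₀]
    {x₁ x₂ : LaurentSeries Q̄} (h₁ : x₁ ∈ laurentBaseChange Q̄ F₀)
    (h₂ : x₂ ∈ laurentBaseChange Q̄ F₀) :
    ∃ E : IntermediateField ℚ Q̄, FiniteDimensional ℚ E ∧ E₀ ≤ E ∧
      DescendsTo F₀ E x₁ ∧ DescendsTo F₀ E x₂ := by
  obtain ⟨E₁, hE₁, d₁⟩ := exists_finite_descent h₁
  obtain ⟨E₂, hE₂, d₂⟩ := exists_finite_descent h₂
  have : FiniteDimensional ℚ ↥(E₁ ⊔ E₂) := IntermediateField.finiteDimensional_sup E₁ E₂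
  exact ⟨E₀ ⊔ (E₁ ⊔ E₂), IntermediateField.finiteDimensional_sup _ _, le_sup_left,
    d₁.mono (le_sup_left.trans le_sup_right), d₂.mono (le_sup_right.trans le_sup_right)⟩

end FiniteDescent

/-! ## 4. The valuation ring `R_E = A ∩ E` -/

section RE

variable (A : ValuationSubring Q̄) (E : IntermediateField ℚ Q̄)

/-- `R_E := A ∩ E`, a valuation subring of `E`. -/
def RE : ValuationSubring E := A.comap (algebraMap E Q̄)

variable {A E} in
theorem mem_RE {x : E} : x ∈ RE A E ↔ (x : Q̄) ∈ A := Iff.rfl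

/-- The inclusion `R_E → A`. -/
def toA : ↥(RE A E) →+* ↥A :=
  ((algebraMap E Q̄).comp (RE A E).subtype).codRestrict A (fun x => x.2)

@[simp]
theorem coe_toA (x : RE A E) : ((toA A E x : A) : Q̄) = ((x : E) : Q̄) := rfl

theorem toA_injective : Function.Injective (toA A E) := by
  intro x y h
  have h' : ((x : E) : Q̄) = ((y : E) : Q̄) := congrArg (fun z : A => (z : Q̄)) h
  exact Subtype.ext (Subtype.ext h')

theorem subtype_comp_toA :
    (A.subtype : ↥A →+* Q̄).comp (toA A E) = (algebraMap E Q̄).comp (RE A E).subtype :=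
  RingHom.ext fun _ => rfl

instance isLocalHom_toA : IsLocalHom (toA A E) where
  map_nonunit := by
    intro a ha
    obtain ⟨b, hb⟩ := isUnit_iff_exists_inv.mp ha
    have hb' : ((a : E) : Q̄) * (b : Q̄) = 1 := congrArg (fun z : A => (z : Q̄)) hb
    have ha0 : (a : E) ≠ 0 := by
      rintro h0
      rw [h0] at hb'
      simp at hb'
    have hinv : ((a : E)⁻¹ : E) ∈ RE A E := by
      rw [mem_RE]
      have : (((a : E)⁻¹ : E) : Q̄) = (b : Q̄) := by
        have h1 : (((a : E)⁻¹ : E) : Q̄) = ((a : E) : Q̄)⁻¹ := by simp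
        rw [h1]
        exact inv_eq_of_mul_eq_one_right hb'
      rw [this]
      exact b.2
    exact isUnit_iff_exists_inv.mpr ⟨⟨(a : E)⁻¹, hinv⟩, Subtype.ext (mul_inv_cancel₀ ha0)⟩

/-- The map of residue fields `κ_E → k`. -/
def resMap : IsLocalRing.ResidueField (RE A E) →+* IsLocalRing.ResidueField A :=
  IsLocalRing.ResidueField.map (toA A E)

theorem resMap_injective : Function.Injective (resMap A E) := (resMap A E).injective

theorem resMap_comp_residue :
    (resMap A E).comp (IsLocalRing.residue (RE A E)) = (IsLocalRing.residue A).comp (toA A E) :=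
  IsLocalRing.ResidueField.map_comp_residue (toA A E)

theorem coeffMap_residue_toA (V : LaurentSeries (RE A E)) :
    coeffMap (IsLocalRing.residue A) (coeffMap (toA A E) V) =
      coeffMap (resMap A E) (coeffMap (IsLocalRing.residue (RE A E)) V) := by
  rw [coeffMap_coeffMap, coeffMap_coeffMap, resMap_comp_residue]

variable {A E}

/-- A series over `A` whose image in `Q̄((q))` is defined over `E` comes from a series over
`R_E = A ∩ E`. -/
theorem exists_series_descent {F₀ : IntermediateField ℚ (LaurentSeries ℚ)} (U : LaurentSeries A)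
    (h : DescendsTo F₀ E (coeffMap A.subtype U)) :
    ∃ V : LaurentSeries (RE A E),
      coeffMap (RE A E).subtype V ∈ laurentBaseChange E F₀ ∧ coeffMap (toA A E) V = U := by
  obtain ⟨y, hy, hyU⟩ := h
  have hc : ∀ n, y.coeff n ∈ Set.range (RE A E).subtype := by
    intro n
    have h1 : algebraMap E Q̄ (y.coeff n) = ((U.coeff n : A) : Q̄) := by
      have := congrArg (fun z => z.coeff n) hyU
      simpa using this
    refine ⟨⟨y.coeff n, ?_⟩, rfl⟩
    rw [mem_RE]
    change algebraMap E Q̄ (y.coeff n) ∈ A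
    rw [h1]
    exact (U.coeff n).2
  obtain ⟨V, hV⟩ := exists_coeffMap_eq (RE A E).subtype Subtype.val_injective y hc
  refine ⟨V, hV ▸ hy, ?_⟩
  apply coeffMap_injective A.subtype Subtype.val_injective
  rw [coeffMap_coeffMap, ← hyU, ← hV, coeffMap_coeffMap, subtype_comp_toA]

end RE

/-! ## 5. CORE over `A` from CORE over the rings `R_E` -/

section Core

variable (A : ValuationSubring Q̄) (E : IntermediateField ℚ Q̄) (N : ℕ)

/-- `IsIntAt A E N V`: the series `V ∈ R_E((q))` lies in `F_{N,E} = E(j(q^d) : d ∣ N)` and has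
nonzero reduction modulo the maximal ideal of `R_E`. -/
def IsIntAt (V : LaurentSeries (RE A E)) : Prop :=
  coeffMap (RE A E).subtype V ∈ laurentBaseChange E (modularFunctionFieldFull N) ∧
    coeffMap (IsLocalRing.residue (RE A E)) V ≠ 0

variable {A E N}

theorem IsIntAt.mem_bar {V : LaurentSeries (RE A E)} (h : IsIntAt A E N V) :
    coeffMap (algebraMap E Q̄) (coeffMap (RE A E).subtype V) ∈ modularFunctionFieldBar N :=
  coeffMap_mem_laurentBaseChange _ _ h.1

/-- The element of `F̄_N = Q̄(j(q^d) : d ∣ N)` defined by an integral series over `R_E`. -/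
def toFbar {V : LaurentSeries (RE A E)} (h : IsIntAt A E N V) : modularFunctionFieldBar N :=
  ⟨coeffMap (algebraMap E Q̄) (coeffMap (RE A E).subtype V), h.mem_bar⟩

theorem coe_toFbar {V : LaurentSeries (RE A E)} (h : IsIntAt A E N V) :
    (toFbar h : LaurentSeries Q̄) = coeffMap A.subtype (coeffMap (toA A E) V) := by
  rw [coeffMap_coeffMap, subtype_comp_toA, ← coeffMap_coeffMap]
  rfl

variable (A E N)

/-- CORE over the ring `R_E = A ∩ E` (a discrete valuation ring when `E/ℚ` is finite and `A`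
lies over a prime, see `isDiscreteValuationRing_RE`): two integral series over `R_E` with the
same (nonzero) reduction, whose quotient has divisor divisible by `m` on `F̄_N`, differ by a
constant times an `m`-th power in `F̄_N`. -/
def CoreAt (m : ℕ) : Prop :=
  ∀ (V₁ V₂ : LaurentSeries (RE A E)) (h₁ : IsIntAt A E N V₁) (h₂ : IsIntAt A E N V₂),
    coeffMap (IsLocalRing.residue (RE A E)) V₁ = coeffMap (IsLocalRing.residue (RE A E)) V₂ →
    (∀ v : Place Q̄ (modularFunctionFieldBar N),
      (m : ℤ) ∣ v.ord (toFbar h₁) - v.ord (toFbar h₂)) →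
    ∃ (c : Q̄) (y : modularFunctionFieldBar N), c ≠ 0 ∧ y ≠ 0 ∧
      toFbar h₁ = algebraMap Q̄ (modularFunctionFieldBar N) c * y ^ m * toFbar h₂

variable {A N}

/-- **Descent (piece d1).**  If CORE holds over `R_E = A ∩ E` for every finite extension `E/ℚ`
inside `Q̄` containing a fixed finite extension `E₀`, then CORE holds over `A`: this is
`Fermat.Agent.S18.CoreStatement N A m` of the row's `Spec.lean`, with `IsInt` and `toF` unfolded
(the hypothesis that the reduction lies in `F_{N,k}` is not needed). -/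
theorem core_of_coreAt (m : ℕ) (E₀ : IntermediateField ℚ Q̄) [FiniteDimensional ℚ E₀]
    (H : ∀ E : IntermediateField ℚ Q̄, FiniteDimensional ℚ E → E₀ ≤ E → CoreAt A E N m)
    (U₁ U₂ : LaurentSeries A)
    (h₁ : coeffMap A.subtype U₁ ∈ modularFunctionFieldBar N)
    (h₂ : coeffMap A.subtype U₂ ∈ modularFunctionFieldBar N)
    (hne : coeffMap (IsLocalRing.residue A) U₁ ≠ 0)
    (hred : coeffMap (IsLocalRing.residue A) U₁ = coeffMap (IsLocalRing.residue A) U₂)
    (hdiv : ∀ v : Place Q̄ (modularFunctionFieldBar N),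
      (m : ℤ) ∣ v.ord (⟨coeffMap A.subtype U₁, h₁⟩ : modularFunctionFieldBar N) -
        v.ord (⟨coeffMap A.subtype U₂, h₂⟩ : modularFunctionFieldBar N)) :
    ∃ (c : Q̄) (y : modularFunctionFieldBar N), c ≠ 0 ∧ y ≠ 0 ∧
      (⟨coeffMap A.subtype U₁, h₁⟩ : modularFunctionFieldBar N) =
        algebraMap Q̄ (modularFunctionFieldBar N) c * y ^ m *
          (⟨coeffMap A.subtype U₂, h₂⟩ : modularFunctionFieldBar N) := by
  obtain ⟨E, hE, hE₀, d₁, d₂⟩ := exists_finite_descent₂ E₀ h₁ h₂
  obtain ⟨V₁, hV₁, rfl⟩ := exists_series_descent U₁ d₁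
  obtain ⟨V₂, hV₂, rfl⟩ := exists_series_descent U₂ d₂
  have hinj := coeffMap_injective (resMap A E) (resMap_injective A E)
  rw [coeffMap_residue_toA] at hne
  rw [coeffMap_residue_toA, coeffMap_residue_toA] at hred
  have i₁ : IsIntAt A E N V₁ := ⟨hV₁, fun h0 => hne (by rw [h0, map_zero])⟩
  have i₂ : IsIntAt A E N V₂ := ⟨hV₂, fun h0 => hne (by rw [hred, h0, map_zero])⟩
  have e₁ : toFbar i₁ = (⟨coeffMap A.subtype (coeffMap (toA A E) V₁), h₁⟩ :
      modularFunctionFieldBar N) := Subtype.ext (coe_toFbar i₁)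
  have e₂ : toFbar i₂ = (⟨coeffMap A.subtype (coeffMap (toA A E) V₂), h₂⟩ :
      modularFunctionFieldBar N) := Subtype.ext (coe_toFbar i₂)
  obtain ⟨c, y, hc, hy, hcy⟩ := H E hE hE₀ V₁ V₂ i₁ i₂ (hinj hred) (by
    intro v
    rw [e₁, e₂]
    exact hdiv v)
  exact ⟨c, y, hc, hy, by rw [← e₁, ← e₂]; exact hcy⟩

end Core

end Fermat.Agent.S18.H602

end
end
-- ===== PACK-END S18/H602/Descent.lean

-- ===== PACK-BEGIN A2/H129/GaussTwice.lean
section


/-!
# A2 / K2 (abstract part): applying `τ - 1` twice makes a function `≡ 1` along every component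

Pure valuation theory, Mathlib only.

`F` is a field (in the application: the function field `Q̄(X₀(N))`), `Kc` the subfield of
constants, `V` a valuation subring of `F` (a Gauss valuation = a component of the special fibre),
`τ` a ring automorphism of `F` (the action of an element of the inertia group through the
coefficients).

* `InInertia V τ` : `τ` acts trivially on the residue field of `V`
  (`v (τ u - u) < 1` for all `u` with `v u ≤ 1`).
* `HasConstValues Kc V` : every nonzero `f` is a constant times a unit of `V`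
  (the value group of `V` is the value group of the constants).
* `PreservesConstValues Kc V τ` : `τ c / c` is a unit of `V` for every nonzero constant `c`.

Main results (multiplicative notation: `tauSubOne τ f = τ f / f`):

* `oneAddNonunits_tauSubOne` : `u` unit of `V` ⟹ `τ u / u ∈ 1 + 𝔪_V`.
* `exists_const_twice` : for every `f ≠ 0` there is a constant `c ≠ 0` with
  `(τ - 1)² f / c ∈ 1 + 𝔪_V`.
* `exists_const_twice_two` : the same for two valuation subrings `V∞`, `V₀`
  SIMULTANEOUSLY (one constant `c` for both).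
* `exists_const_once_two` : `(τ - 1) f / c ∈ 1 + 𝔪_{V∞}` and `(τ - 1) f / (c c') ∈ 1 + 𝔪_{V₀}` with a
  constant `c'` which is a unit of `V₀`.
-/

set_option autoImplicit false

namespace Fermat.Agent.A2.H129

variable {F : Type*} [Field F]

/-- `u` is a unit of the valuation subring `V`. -/
def IsUnitOf (V : ValuationSubring F) (u : F) : Prop := V.valuation u = 1

/-- `g ∈ 1 + 𝔪_V`. -/
def OneAddNonunits (V : ValuationSubring F) (g : F) : Prop := V.valuation (g - 1) < 1

/-- `τ` acts trivially on the residue field of `V` (and hence maps `V` to itself). -/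
def InInertia (V : ValuationSubring F) (τ : F ≃+* F) : Prop :=
  ∀ u : F, V.valuation u ≤ 1 → V.valuation (τ u - u) < 1

/-- every nonzero element of `F` is a constant times a unit of `V`. -/
def HasConstValues (Kc : Subfield F) (V : ValuationSubring F) : Prop :=
  ∀ f : F, f ≠ 0 → ∃ c ∈ Kc, c ≠ 0 ∧ IsUnitOf V (f * c⁻¹)

/-- `τ` preserves the valuation of the constants. -/
def PreservesConstValues (Kc : Subfield F) (V : ValuationSubring F) (τ : F ≃+* F) : Prop :=
  ∀ c ∈ Kc, c ≠ 0 → IsUnitOf V (τ c * c⁻¹)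

/-- the multiplicative version of `τ - 1`. -/
def tauSubOne (τ : F ≃+* F) (f : F) : F := τ f * f⁻¹

section basic

variable {V : ValuationSubring F} {τ : F ≃+* F}

theorem IsUnitOf.ne_zero {u : F} (hu : IsUnitOf V u) : u ≠ 0 := by
  rintro rfl
  simp [IsUnitOf] at hu

theorem IsUnitOf.mul {u w : F} (hu : IsUnitOf V u) (hw : IsUnitOf V w) : IsUnitOf V (u * w) := by
  simp only [IsUnitOf, map_mul] at *
  rw [hu, hw, one_mul]

theorem IsUnitOf.inv {u : F} (hu : IsUnitOf V u) : IsUnitOf V u⁻¹ := by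
  simp only [IsUnitOf, map_inv₀] at *
  rw [hu, inv_one]

theorem OneAddNonunits.isUnitOf {g : F} (hg : OneAddNonunits V g) : IsUnitOf V g := by
  have h1 : V.valuation (1 : F) = 1 := map_one _
  have h : V.valuation (1 + (g - 1)) = V.valuation (1 : F) :=
    Valuation.map_add_eq_of_lt_left _ (by rw [h1]; exact hg)
  have e : (1 : F) + (g - 1) = g := by ring
  rw [e, h1] at h
  exact h

theorem OneAddNonunits.one : OneAddNonunits V (1 : F) := by
  simp [OneAddNonunits]

theorem OneAddNonunits.mul {g h : F} (hg : OneAddNonunits V g) (hh : OneAddNonunits V h) :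
    OneAddNonunits V (g * h) := by
  have e : g * h - 1 = (g - 1) * h + (h - 1) := by ring
  have hh1 : V.valuation h = 1 := hh.isUnitOf
  have h1 : V.valuation ((g - 1) * h) < 1 := by
    rw [map_mul, hh1, mul_one]; exact hg
  unfold OneAddNonunits at *
  rw [e]
  exact lt_of_le_of_lt (Valuation.map_add _ _ _) (max_lt h1 hh)

theorem OneAddNonunits.inv {g : F} (hg : OneAddNonunits V g) : OneAddNonunits V g⁻¹ := by
  have hg1 : V.valuation g = 1 := hg.isUnitOf
  have hg0 : g ≠ 0 := (hg.isUnitOf).ne_zero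
  have e : g⁻¹ - 1 = -((g - 1) * g⁻¹) := by field_simp; ring
  unfold OneAddNonunits at *
  rw [e, Valuation.map_neg, map_mul, map_inv₀, hg1, inv_one, mul_one]
  exact hg

/-- `τ` maps units of `V` to units of `V`. -/
theorem InInertia.isUnitOf (hτ : InInertia V τ) {u : F} (hu : IsUnitOf V u) :
    IsUnitOf V (τ u) := by
  have h := hτ u (le_of_eq hu)
  have h' : V.valuation (u + (τ u - u)) = V.valuation u :=
    Valuation.map_add_eq_of_lt_left _ (by rw [hu]; exact h)
  have e : u + (τ u - u) = τ u := by ring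
  rw [e] at h'
  exact h'.trans hu

/-- **Lemma B.** For a unit `u` of `V`, `τ u / u ∈ 1 + 𝔪_V`. -/
theorem oneAddNonunits_tauSubOne (hτ : InInertia V τ) {u : F} (hu : IsUnitOf V u) :
    OneAddNonunits V (tauSubOne τ u) := by
  have hu0 : u ≠ 0 := hu.ne_zero
  have e : tauSubOne τ u - 1 = (τ u - u) * u⁻¹ := by
    unfold tauSubOne; field_simp
  unfold OneAddNonunits
  rw [e, map_mul, map_inv₀, hu, inv_one, mul_one]
  exact hτ u (le_of_eq hu)

theorem tauSubOne_mul (τ : F ≃+* F) (f g : F) :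
    tauSubOne τ (f * g) = tauSubOne τ f * tauSubOne τ g := by
  unfold tauSubOne
  rw [map_mul, mul_inv]
  ring

theorem tauSubOne_inv (τ : F ≃+* F) (f : F) :
    tauSubOne τ f⁻¹ = (tauSubOne τ f)⁻¹ := by
  unfold tauSubOne
  rw [map_inv₀, mul_inv]

theorem tauSubOne_ne_zero (τ : F ≃+* F) {f : F} (hf : f ≠ 0) : tauSubOne τ f ≠ 0 := by
  unfold tauSubOne
  exact mul_ne_zero (by simpa using hf) (inv_ne_zero hf)

theorem tauSubOne_mem (Kc : Subfield F) (hK : ∀ c ∈ Kc, τ c ∈ Kc) {c : F} (hc : c ∈ Kc) :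
    tauSubOne τ c ∈ Kc :=
  Kc.mul_mem (hK c hc) (Kc.inv_mem hc)

end basic

section main

variable {Kc : Subfield F} {τ : F ≃+* F}

/-- **One valuation.** For every `f ≠ 0` there is a constant `c ≠ 0` such that
`(τ - 1) f / c ∈ 1 + 𝔪_V`. -/
theorem exists_const_once {V : ValuationSubring F}
    (hK : ∀ c ∈ Kc, τ c ∈ Kc) (hV : HasConstValues Kc V) (hτ : InInertia V τ)
    {f : F} (hf : f ≠ 0) :
    ∃ c ∈ Kc, c ≠ 0 ∧ OneAddNonunits V (tauSubOne τ f * c⁻¹) := by
  obtain ⟨c, hc, hc0, hu⟩ := hV f hf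
  refine ⟨tauSubOne τ c, tauSubOne_mem Kc hK hc, tauSubOne_ne_zero τ hc0, ?_⟩
  have e : tauSubOne τ f * (tauSubOne τ c)⁻¹ = tauSubOne τ (f * c⁻¹) := by
    rw [tauSubOne_mul, tauSubOne_inv]
  rw [e]
  exact oneAddNonunits_tauSubOne hτ hu

/-- **Two valuations, once.**  For every `f ≠ 0` there are constants `c`, `c'` with
`(τ-1) f / c ∈ 1 + 𝔪_{V₁}`, `(τ-1) f / (c c') ∈ 1 + 𝔪_{V₀}`, and `c'` a unit of `V₀`. -/
theorem exists_const_once_two {V₁ V₀ : ValuationSubring F}
    (hK : ∀ c ∈ Kc, τ c ∈ Kc)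
    (hV₁ : HasConstValues Kc V₁) (hτ₁ : InInertia V₁ τ)
    (hV₀ : HasConstValues Kc V₀) (hτ₀ : InInertia V₀ τ)
    (hP₀ : PreservesConstValues Kc V₀ τ)
    {f : F} (hf : f ≠ 0) :
    ∃ c ∈ Kc, c ≠ 0 ∧ ∃ c' ∈ Kc, IsUnitOf V₀ c' ∧
      OneAddNonunits V₁ (tauSubOne τ f * c⁻¹) ∧
      OneAddNonunits V₀ (tauSubOne τ f * c⁻¹ * c'⁻¹) := by
  obtain ⟨c, hc, hc0, hu⟩ := hV₁ f hf
  have hfc : f * c⁻¹ ≠ 0 := hu.ne_zero
  obtain ⟨d, hd, hd0, hud⟩ := hV₀ (f * c⁻¹) hfc
  refine ⟨tauSubOne τ c, tauSubOne_mem Kc hK hc, tauSubOne_ne_zero τ hc0,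
    tauSubOne τ d, tauSubOne_mem Kc hK hd, hP₀ d hd hd0, ?_, ?_⟩
  · have e : tauSubOne τ f * (tauSubOne τ c)⁻¹ = tauSubOne τ (f * c⁻¹) := by
      rw [tauSubOne_mul, tauSubOne_inv]
    rw [e]
    exact oneAddNonunits_tauSubOne hτ₁ hu
  · have e : tauSubOne τ f * (tauSubOne τ c)⁻¹ * (tauSubOne τ d)⁻¹
        = tauSubOne τ (f * c⁻¹ * d⁻¹) := by
      rw [tauSubOne_mul, tauSubOne_mul, tauSubOne_inv, tauSubOne_inv]
    rw [e]
    exact oneAddNonunits_tauSubOne hτ₀ hud

/-- **Two valuations, twice (K2).**  For every `f ≠ 0` there is ONE constant `c ≠ 0` such that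
`(τ - 1)² f / c` lies in `1 + 𝔪_{V₁}` and in `1 + 𝔪_{V₀}`. -/
theorem exists_const_twice_two {V₁ V₀ : ValuationSubring F}
    (hK : ∀ c ∈ Kc, τ c ∈ Kc)
    (hV₁ : HasConstValues Kc V₁) (hτ₁ : InInertia V₁ τ)
    (hV₀ : HasConstValues Kc V₀) (hτ₀ : InInertia V₀ τ)
    (hP₀ : PreservesConstValues Kc V₀ τ)
    {f : F} (hf : f ≠ 0) :
    ∃ c ∈ Kc, c ≠ 0 ∧
      OneAddNonunits V₁ (tauSubOne τ (tauSubOne τ f) * c⁻¹) ∧
      OneAddNonunits V₀ (tauSubOne τ (tauSubOne τ f) * c⁻¹) := by
  obtain ⟨c, hc, hc0, c', hc', hu', h₁, h₀⟩ :=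
    exists_const_once_two hK hV₁ hτ₁ hV₀ hτ₀ hP₀ hf
  have hc'0 : c' ≠ 0 := hu'.ne_zero
  -- `g₁ := (τ-1) f / c ∈ 1 + 𝔪_{V₁}`, and `g₁ / c' ∈ 1 + 𝔪_{V₀}`
  refine ⟨tauSubOne τ c, tauSubOne_mem Kc hK hc, tauSubOne_ne_zero τ hc0, ?_, ?_⟩
  · have e : tauSubOne τ (tauSubOne τ f) * (tauSubOne τ c)⁻¹
        = tauSubOne τ (tauSubOne τ f * c⁻¹) := by
      rw [tauSubOne_mul, tauSubOne_inv]
    rw [e]
    exact oneAddNonunits_tauSubOne hτ₁ h₁.isUnitOf
  · have e : tauSubOne τ (tauSubOne τ f) * (tauSubOne τ c)⁻¹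
        = tauSubOne τ (tauSubOne τ f * c⁻¹ * c'⁻¹) * tauSubOne τ c' := by
      rw [tauSubOne_mul, tauSubOne_mul, tauSubOne_inv, tauSubOne_inv]
      have : tauSubOne τ c' ≠ 0 := tauSubOne_ne_zero τ hc'0
      field_simp
    rw [e]
    exact (oneAddNonunits_tauSubOne hτ₀ h₀.isUnitOf).mul (oneAddNonunits_tauSubOne hτ₀ hu')

end main

end Fermat.Agent.A2.H129

end
-- ===== PACK-END A2/H129/GaussTwice.lean

-- ===== PACK-BEGIN A2/IF/H429/Dvr.lean
section


/-!
# A2 / IF (helper429): a criterion for discrete valuation rings (Mathlib only)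

A valuation ring in which a fixed power `x ^ N` of every nonzero element is associated to a
power of a fixed nonzero non-unit `ϖ` is a discrete valuation ring.
-/

set_option autoImplicit false

namespace Fermat.Agent.A2.IF.H429

section

variable {R : Type*} [CommRing R] [IsDomain R]

theorem pow_associated_inj {ϖ : R} (hϖ0 : ϖ ≠ 0) (hϖ : ¬ IsUnit ϖ) {a b : ℕ}
    (h : Associated (ϖ ^ a) (ϖ ^ b)) : a = b := by
  wlog hab : a ≤ b generalizing a b
  · exact (this h.symm (le_of_not_ge hab)).symm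
  obtain ⟨c, rfl⟩ := Nat.exists_eq_add_of_le hab
  by_contra hne
  have hc : c ≠ 0 := fun h0 => hne (by simp [h0])
  obtain ⟨u, hu⟩ := h
  rw [pow_add] at hu
  have h1 : (u : R) = ϖ ^ c := mul_left_cancel₀ (pow_ne_zero a hϖ0) hu
  have h2 : IsUnit (ϖ ^ c) := h1 ▸ u.isUnit
  exact hϖ ((isUnit_pow_iff hc).mp h2)

variable [ValuationRing R]

/-- **DVR criterion.** -/
theorem isDiscreteValuationRing_of_pow_associated (ϖ : R) (hϖ0 : ϖ ≠ 0) (hϖ : ¬ IsUnit ϖ)
    (N : ℕ) (hN : 0 < N) (h : ∀ x : R, x ≠ 0 → ∃ k : ℕ, Associated (x ^ N) (ϖ ^ k)) :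
    IsDiscreteValuationRing R := by
  classical
  -- the "valuation"
  choose! ν hν using h
  have hν_unique : ∀ x : R, x ≠ 0 → ∀ k : ℕ, Associated (x ^ N) (ϖ ^ k) → ν x = k := by
    intro x hx k hk
    exact pow_associated_inj hϖ0 hϖ ((hν x hx).symm.trans hk)
  have hν_mul : ∀ x y : R, x ≠ 0 → y ≠ 0 → ν (x * y) = ν x + ν y := by
    intro x y hx hy
    apply hν_unique _ (mul_ne_zero hx hy)
    rw [mul_pow, pow_add]
    exact (hν x hx).mul_mul (hν y hy)
  have hν_unit : ∀ x : R, x ≠ 0 → (ν x = 0 ↔ IsUnit x) := by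
    intro x hx
    constructor
    · intro h0
      have h1 := hν x hx
      rw [h0, pow_zero] at h1
      have h2 : IsUnit (x ^ N) := h1.symm.isUnit isUnit_one
      exact (isUnit_pow_iff hN.ne').mp h2
    · intro hu
      apply hν_unique x hx 0
      rw [pow_zero]
      exact associated_one_iff_isUnit.mpr (hu.pow N)
  -- a non-unit of minimal valuation
  have hex : ∃ k : ℕ, ∃ x : R, x ≠ 0 ∧ ¬ IsUnit x ∧ ν x = k := ⟨ν ϖ, ϖ, hϖ0, hϖ, rfl⟩
  obtain ⟨π, hπ0, hπu, hπk⟩ := Nat.find_spec hex
  have hmin : ∀ x : R, x ≠ 0 → ¬ IsUnit x → ν π ≤ ν x := by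
    intro x hx hxu
    rw [hπk]
    exact Nat.find_min' hex ⟨x, hx, hxu, rfl⟩
  have hπpos : 0 < ν π := by
    rcases Nat.eq_zero_or_pos (ν π) with h0 | h0
    · exact absurd ((hν_unit π hπ0).mp h0) hπu
    · exact h0
  have hirr : Irreducible π := by
    refine ⟨hπu, fun a b hab => ?_⟩
    by_contra hcon
    rw [not_or] at hcon
    have ha0 : a ≠ 0 := by
      rintro rfl
      rw [zero_mul] at hab
      exact hπ0 hab
    have hb0 : b ≠ 0 := by
      rintro rfl
      rw [mul_zero] at hab
      exact hπ0 hab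
    have h1 := hν_mul a b ha0 hb0
    rw [← hab] at h1
    have h2 := hmin a ha0 hcon.1
    have h3 := hmin b hb0 hcon.2
    omega
  have key : ∀ n : ℕ, ∀ x : R, x ≠ 0 → ν x = n → ∃ j : ℕ, Associated (π ^ j) x := by
    intro n
    induction n using Nat.strong_induction_on with
    | _ n ih =>
      intro x hx hxn
      by_cases hxu : IsUnit x
      · exact ⟨0, by rw [pow_zero]; exact (associated_one_iff_isUnit.mpr hxu).symm⟩
      · rcases ValuationRing.dvd_total π x with ⟨y, hy⟩ | ⟨z, hz⟩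
        · have hy0 : y ≠ 0 := by
            rintro rfl
            rw [mul_zero] at hy
            exact hx hy
          have h1 := hν_mul π y hπ0 hy0
          rw [← hy, hxn] at h1
          obtain ⟨j, hj⟩ := ih (ν y) (by omega) y hy0 rfl
          refine ⟨j + 1, ?_⟩
          rw [pow_succ', hy]
          exact (Associated.refl π).mul_mul hj
        · have hz0 : z ≠ 0 := by
            rintro rfl
            rw [mul_zero] at hz
            exact hπ0 hz
          rcases hirr.isUnit_or_isUnit hz with h1 | h1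
          · exact absurd h1 hxu
          · refine ⟨1, ?_⟩
            rw [pow_one, hz]
            exact (associated_mul_unit_right x z h1).symm
  exact IsDiscreteValuationRing.ofHasUnitMulPowIrreducibleFactorization
    ⟨π, hirr, fun {x} hx => key (ν x) x hx rfl⟩

end

end Fermat.Agent.A2.IF.H429

end
-- ===== PACK-END A2/IF/H429/Dvr.lean

-- ===== PACK-BEGIN A2/H348/KummerCoord.lean
section


/-!
# A2 / piece E (ALG_ss), part 1: coordinates of integral elements in a Kummer algebra

Mathlib-only.  `F'` a commutative `F`-algebra (NOT necessarily a field: the case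
`F' = F[X]/(X^m - ε)` with `X^m - ε` reducible is the important one) with a *Kummer basis*:
`ζ ^ m = ε ∈ F` and `1, ζ, …, ζ^(m-1)` is an `F`-basis of `F'`.  For a subalgebra `O ⊆ F` which is
integrally closed in `F` and contains `ε`, `(m ε)⁻¹`:

* `KummerBasis.isIntegral_iff` : `c ∈ F'` is integral over `O` iff all its coordinates in the
  basis `ζ^i` lie in `O`
  (`⟸` trivial, `⟹` by the discrete Fourier transform over the `m` evaluations
  `ζ ↦ ω^k r` in an algebraic closure, `KummerBasis.sum_evalAt`).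
* `KummerBasis.scale` : `ζ / h` is again a Kummer basis (for `ε / h^m`).
* `KummerBasis.evalAt` : the `F`-algebra map `F' → Ω`, `ζ ↦ y` for `y ^ m = ε`.
-/

set_option autoImplicit false
set_option linter.unusedSectionVars false
set_option linter.style.haveILetI false

open Module Polynomial

namespace Fermat.Agent.A2.H348

variable {A F F' : Type*} [CommRing A] [Field F] [CommRing F'] [Nontrivial F'] [Algebra A F]
  [Algebra F F'] [Algebra A F'] [IsScalarTower A F F']

/-- Kummer basis: `ζ ^ m = ε` and `(ζ ^ i)_{i < m}` is an `F`-basis of `F'`. -/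
structure KummerBasis (m : ℕ) (ε : F) (ζ : F') where
  pow_eq : ζ ^ m = algebraMap F F' ε
  basis : Basis (Fin m) F F'
  basis_apply : ∀ i : Fin m, basis i = ζ ^ (i : ℕ)

namespace KummerBasis

variable {m : ℕ} {ε : F} {ζ : F'} (kb : KummerBasis m ε ζ)

include kb

theorem finiteDimensional : FiniteDimensional F F' :=
  Module.Finite.of_basis kb.basis

theorem finrank_eq : Module.finrank F F' = m := by
  rw [Module.finrank_eq_card_basis kb.basis, Fintype.card_fin]

theorem m_pos : 0 < m := by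
  by_contra h
  have hm : m = 0 := by omega
  subst hm
  have h1 : (1 : F') = 0 := by
    have := kb.basis.repr.injective
    apply this
    ext i
    exact i.elim0
  exact one_ne_zero h1

/-- every element is the sum of its coordinates times the powers of `ζ`. -/
theorem sum_repr (c : F') :
    c = ∑ i : Fin m, algebraMap F F' (kb.basis.repr c i) * ζ ^ (i : ℕ) := by
  conv_lhs => rw [← kb.basis.sum_repr c]
  refine Finset.sum_congr rfl fun i _ => ?_
  rw [kb.basis_apply, Algebra.smul_def]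

/-- coordinates of a combination of powers of `ζ`. -/
theorem repr_sum (f : Fin m → F) (i : Fin m) :
    kb.basis.repr (∑ j : Fin m, algebraMap F F' (f j) * ζ ^ (j : ℕ)) i = f i := by
  have : (∑ j : Fin m, algebraMap F F' (f j) * ζ ^ (j : ℕ)) = ∑ j : Fin m, f j • kb.basis j := by
    refine Finset.sum_congr rfl fun j _ => ?_
    rw [kb.basis_apply, Algebra.smul_def]
  rw [this, kb.basis.repr_sum_self]

/-- rescaling a Kummer basis by a nonzero element of `F`. -/
noncomputable def scale (h : F) (hh : h ≠ 0) :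
    KummerBasis m (ε * (h ^ m)⁻¹) (ζ * algebraMap F F' h⁻¹) where
  pow_eq := by
    rw [mul_pow, kb.pow_eq, map_mul, ← map_pow, inv_pow]
  basis := kb.basis.unitsSMul fun i => Units.mk0 ((h ^ (i : ℕ))⁻¹) (inv_ne_zero (pow_ne_zero _ hh))
  basis_apply := by
    intro i
    rw [Basis.unitsSMul_apply, kb.basis_apply, Units.smul_def, Units.val_mk0, Algebra.smul_def,
      mul_pow, ← map_pow, inv_pow, mul_comm]

/-- the associated power basis. -/
noncomputable def powerBasis : PowerBasis F F' where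
  gen := ζ
  dim := m
  basis := kb.basis
  basis_eq_pow := kb.basis_apply

theorem minpoly_eq : minpoly F ζ = X ^ m - C ε := by
  have h1 : (minpoly F ζ).natDegree = m := kb.powerBasis.natDegree_minpoly
  have h2 : minpoly F ζ ∣ X ^ m - C ε := minpoly.dvd F ζ (by simp [kb.pow_eq])
  have h3 : IsIntegral F ζ := kb.powerBasis.isIntegral_gen
  exact (eq_of_monic_of_dvd_of_natDegree_le (minpoly.monic h3)
    (monic_X_pow_sub_C _ kb.m_pos.ne') h2 (by rw [h1, natDegree_X_pow_sub_C])).symm

section Eval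

variable {Ω : Type*} [Field Ω] [Algebra F Ω]

/-- evaluation `ζ ↦ y` at a root `y` of `X ^ m - ε`. -/
noncomputable def evalAt (y : Ω) (hy : y ^ m = algebraMap F Ω ε) : F' →ₐ[F] Ω :=
  kb.powerBasis.lift y (by
    rw [show kb.powerBasis.gen = ζ from rfl, kb.minpoly_eq]
    simp [hy])

theorem evalAt_zeta (y : Ω) (hy : y ^ m = algebraMap F Ω ε) : kb.evalAt y hy ζ = y :=
  kb.powerBasis.lift_gen _ _

theorem evalAt_apply (y : Ω) (hy : y ^ m = algebraMap F Ω ε) (c : F') :
    kb.evalAt y hy c = ∑ i : Fin m, algebraMap F Ω (kb.basis.repr c i) * y ^ (i : ℕ) := by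
  conv_lhs => rw [kb.sum_repr c]
  rw [map_sum]
  refine Finset.sum_congr rfl fun i _ => ?_
  rw [map_mul, map_pow, kb.evalAt_zeta, AlgHom.commutes]

omit kb in
theorem sum_pow_primitiveRoot {ω : Ω} (hω : IsPrimitiveRoot ω m) (n : ℕ) :
    ∑ k ∈ Finset.range m, (ω ^ n) ^ k = if m ∣ n then (m : Ω) else 0 := by
  split_ifs with h
  · have : ω ^ n = 1 := (hω.pow_eq_one_iff_dvd n).2 h
    simp [this]
  · have h1 : ω ^ n ≠ 1 := fun h1 => h ((hω.pow_eq_one_iff_dvd n).1 h1)
    have h2 : (ω ^ n - 1) * ∑ k ∈ Finset.range m, (ω ^ n) ^ k = 0 := by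
      rw [mul_geom_sum, ← pow_mul, mul_comm, pow_mul, hω.pow_eq_one, one_pow, sub_self]
    rcases mul_eq_zero.1 h2 with h3 | h3
    · exact absurd (sub_eq_zero.1 h3) h1
    · exact h3

omit kb in
theorem mul_pow_eq {ω r : Ω} (hω : IsPrimitiveRoot ω m) (hr : r ^ m = algebraMap F Ω ε) (k : ℕ) :
    (ω ^ k * r) ^ m = algebraMap F Ω ε := by
  rw [mul_pow, ← pow_mul, mul_comm k m, pow_mul, hω.pow_eq_one, one_pow, one_mul, hr]

/-- **discrete Fourier transform**: recover the `i`-th coordinate from the `m` evaluations. -/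
theorem sum_evalAt {ω r : Ω} (hω : IsPrimitiveRoot ω m) (hr : r ^ m = algebraMap F Ω ε)
    (c : F') (i : Fin m) :
    ∑ k ∈ Finset.range m, (ω ^ (m - (i : ℕ))) ^ k * kb.evalAt (ω ^ k * r) (mul_pow_eq hω hr k) c =
      (m : Ω) * (algebraMap F Ω (kb.basis.repr c i) * r ^ (i : ℕ)) := by
  classical
  have h1 : ∀ k ∈ Finset.range m,
      (ω ^ (m - (i : ℕ))) ^ k * kb.evalAt (ω ^ k * r) (mul_pow_eq hω hr k) c =
      ∑ j : Fin m, (algebraMap F Ω (kb.basis.repr c j) * r ^ (j : ℕ)) *
        (ω ^ (m - (i : ℕ) + (j : ℕ))) ^ k := by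
    intro k _
    rw [kb.evalAt_apply, Finset.mul_sum]
    refine Finset.sum_congr rfl fun j _ => ?_
    rw [mul_pow, pow_add, mul_pow, ← pow_mul ω (j : ℕ) k, ← pow_mul ω k (j : ℕ),
      mul_comm (j : ℕ) k]
    ring
  rw [Finset.sum_congr rfl h1, Finset.sum_comm]
  have h2 : ∀ j ∈ (Finset.univ : Finset (Fin m)),
      ∑ k ∈ Finset.range m, (algebraMap F Ω (kb.basis.repr c j) * r ^ (j : ℕ)) *
        (ω ^ (m - (i : ℕ) + (j : ℕ))) ^ k =
      if j = i then (m : Ω) * (algebraMap F Ω (kb.basis.repr c i) * r ^ (i : ℕ)) else 0 := by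
    intro j _
    rw [← Finset.mul_sum, sum_pow_primitiveRoot hω]
    have hi := i.2
    have hj := j.2
    by_cases hji : j = i
    · subst hji
      rw [if_pos rfl, if_pos ⟨1, by omega⟩, mul_comm]
    · rw [if_neg hji, if_neg, mul_zero]
      rintro ⟨q, hq⟩
      have hne : (j : ℕ) ≠ (i : ℕ) := fun h => hji (Fin.ext h)
      rcases Nat.lt_or_ge (j : ℕ) (i : ℕ) with h | h
      · have h1 : 0 < m - (i : ℕ) + (j : ℕ) := by omega
        have h2 : m - (i : ℕ) + (j : ℕ) < m := by omega
        rcases Nat.eq_zero_or_pos q with rfl | hq0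
        · omega
        · have : m ≤ m * q := Nat.le_mul_of_pos_right m hq0
          omega
      · have h1 : m < m - (i : ℕ) + (j : ℕ) := by omega
        have h2 : m - (i : ℕ) + (j : ℕ) < 2 * m := by omega
        rcases Nat.lt_or_ge q 2 with hq2 | hq2
        · interval_cases q <;> omega
        · have : m * 2 ≤ m * q := Nat.mul_le_mul_left m hq2
          omega
  rw [Finset.sum_congr rfl h2, Finset.sum_ite_eq' Finset.univ i]
  simp

end Eval

end KummerBasis

section Integral

variable {m : ℕ} {ε : F} {ζ : F'} (kb : KummerBasis m ε ζ) (O : Subalgebra A F)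

include kb

/-- `ζ` is integral over `O` if `ε ∈ O`. -/
theorem KummerBasis.isIntegral_zeta (hε : ε ∈ O) : IsIntegral O ζ := by
  refine ⟨Polynomial.X ^ m - Polynomial.C (⟨ε, hε⟩ : O), ?_, ?_⟩
  · exact Polynomial.monic_X_pow_sub_C _ kb.m_pos.ne'
  · rw [Polynomial.eval₂_sub, Polynomial.eval₂_pow, Polynomial.eval₂_X, Polynomial.eval₂_C,
      kb.pow_eq]
    exact sub_self _

omit kb [Nontrivial F'] in
/-- elements of `O` are integral over `O` (as elements of `F'`). -/
theorem isIntegral_algebraMap_of_mem' (O : Subalgebra A F) {a : F} (ha : a ∈ O) :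
    IsIntegral O (algebraMap F F' a) := by
  have : algebraMap F F' a = algebraMap O F' ⟨a, ha⟩ := rfl
  rw [this]
  exact isIntegral_algebraMap

/-- **Key lemma, easy direction.** -/
theorem KummerBasis.isIntegral_of_repr_mem (hε : ε ∈ O) {c : F'}
    (hc : ∀ i, kb.basis.repr c i ∈ O) : IsIntegral O c := by
  rw [kb.sum_repr c]
  refine IsIntegral.sum _ fun i _ => ?_
  exact (isIntegral_algebraMap_of_mem' O (hc i)).mul ((kb.isIntegral_zeta O hε).pow _)

/-- the evaluations of an integral element are integral. -/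
theorem KummerBasis.isIntegral_evalAt {Ω : Type*} [Field Ω] [Algebra F Ω]
    (y : Ω) (hy : y ^ m = algebraMap F Ω ε) {c : F'} (hc : IsIntegral O c) :
    IsIntegral O (kb.evalAt y hy c) := by
  obtain ⟨P, hP, hPc⟩ := hc
  refine ⟨P, hP, ?_⟩
  have h := congrArg (kb.evalAt y hy : F' →+* Ω) hPc
  rw [map_zero, Polynomial.hom_eval₂] at h
  have h2 : ((kb.evalAt y hy : F' →+* Ω).comp (algebraMap O F')) = algebraMap O Ω := by
    ext a
    exact (kb.evalAt y hy).commutes (a : F)
  rw [h2] at h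
  exact h

/-- **Key lemma, main direction**: the coordinates of an element integral over `O` lie in `O`,
if `O` is integrally closed in `F` and `ε`, `(m ε)⁻¹ ∈ O`. -/
theorem KummerBasis.repr_mem_of_isIntegral (hO : ∀ f : F, IsIntegral O f → f ∈ O)
    (hε : ε ∈ O) (hmε : ((m : F) * ε)⁻¹ ∈ O) (hmε0 : (m : F) * ε ≠ 0) {c : F'}
    (hc : IsIntegral O c) (i : Fin m) : kb.basis.repr c i ∈ O := by
  classical
  have hm0 : (m : F) ≠ 0 := left_ne_zero_of_mul hmε0
  have hε0 : ε ≠ 0 := right_ne_zero_of_mul hmε0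
  haveI : NeZero (m : F) := ⟨hm0⟩
  set Ω := AlgebraicClosure F with hΩ
  obtain ⟨ω, hω⟩ := HasEnoughRootsOfUnity.exists_primitiveRoot Ω m
  obtain ⟨r, hr⟩ := IsAlgClosed.exists_pow_nat_eq (algebraMap F Ω ε) kb.m_pos
  have hmO : (m : F) ∈ O := by
    have : (m : F) = algebraMap A F (m : A) := by simp
    rw [this]; exact O.algebraMap_mem _
  have hminv : ((m : F))⁻¹ ∈ O := by
    have : ((m : F))⁻¹ = ε * ((m : F) * ε)⁻¹ := by
      rw [mul_inv, mul_left_comm, mul_inv_cancel₀ hε0, mul_one]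
    rw [this]; exact O.mul_mem hε hmε
  have hεinv : ε⁻¹ ∈ O := by
    have : ε⁻¹ = (m : F) * ((m : F) * ε)⁻¹ := by
      rw [mul_inv, ← mul_assoc, mul_inv_cancel₀ hm0, one_mul]
    rw [this]; exact O.mul_mem hmO hmε
  have hr0 : r ≠ 0 := by
    intro h
    rw [h, zero_pow kb.m_pos.ne'] at hr
    exact hε0 ((map_eq_zero (algebraMap F Ω)).1 hr.symm)
  have hωint : IsIntegral O ω := by
    refine IsIntegral.of_pow kb.m_pos ?_
    rw [hω.pow_eq_one]; exact isIntegral_one
  have hrinv : IsIntegral O r⁻¹ := by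
    refine IsIntegral.of_pow kb.m_pos ?_
    rw [inv_pow, hr, ← map_inv₀]
    exact isIntegral_algebraMap_of_mem' O hεinv
  have hsum := kb.sum_evalAt hω hr c i
  have hint : IsIntegral O ((m : Ω) * (algebraMap F Ω (kb.basis.repr c i) * r ^ (i : ℕ))) := by
    rw [← hsum]
    refine IsIntegral.sum _ fun k _ => ?_
    exact ((hωint.pow _).pow _).mul (kb.isIntegral_evalAt O _ _ hc)
  have hminvΩ : IsIntegral O (algebraMap F Ω ((m : F))⁻¹) := isIntegral_algebraMap_of_mem' O hminv
  have h3 : algebraMap F Ω (kb.basis.repr c i) =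
      algebraMap F Ω ((m : F))⁻¹ *
        ((m : Ω) * (algebraMap F Ω (kb.basis.repr c i) * r ^ (i : ℕ))) * r⁻¹ ^ (i : ℕ) := by
    have hmΩ : (m : Ω) ≠ 0 := by
      have : (m : Ω) = algebraMap F Ω (m : F) := by simp
      rw [this]; exact (_root_.map_ne_zero _).2 hm0
    have : algebraMap F Ω ((m : F))⁻¹ = ((m : Ω))⁻¹ := by rw [map_inv₀]; simp
    rw [this, inv_pow, ← mul_assoc, inv_mul_cancel₀ hmΩ, one_mul, mul_assoc,
      mul_inv_cancel₀ (pow_ne_zero _ hr0), mul_one]
  have h4 : IsIntegral O (algebraMap F Ω (kb.basis.repr c i)) := by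
    rw [h3]
    exact (hminvΩ.mul hint).mul (hrinv.pow _)
  exact hO _ ((isIntegral_algebraMap_iff (algebraMap F Ω).injective).1 h4)

/-- **Key lemma.** -/
theorem KummerBasis.isIntegral_iff (hO : ∀ f : F, IsIntegral O f → f ∈ O)
    (hε : ε ∈ O) (hmε : ((m : F) * ε)⁻¹ ∈ O) (hmε0 : (m : F) * ε ≠ 0) (c : F') :
    IsIntegral O c ↔ ∀ i, kb.basis.repr c i ∈ O :=
  ⟨fun hc i => kb.repr_mem_of_isIntegral O hO hε hmε hmε0 hc i,
    fun h => kb.isIntegral_of_repr_mem O hε h⟩

end Integral

end Fermat.Agent.A2.H348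

end
-- ===== PACK-END A2/H348/KummerCoord.lean

-- ===== PACK-BEGIN A2/H348/SubLoc.lean
section


/-!
# A2 / piece E (ALG_ss), part 2: localisations of a subalgebra of a field, conductor argument

Mathlib-only.  `B ⊆ F` a subalgebra of a field, `F'` an `F`-algebra.

* `exists_smul_isIntegral_of_subLoc` : if `O ⊇ B` is "a localisation of `B` at `S`" inside `F`
  (every `f ∈ O` has a denominator in `S`, elements of `S` are invertible in `O`), then an element
  of `F'` integral over `O` becomes integral over `B` after multiplication by some `s ∈ S`.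
* `locAt B 𝔪` : the localisation of `B` at a prime ideal, as a subalgebra of `F`.
* `mem_of_forall_maximal` : the conductor argument: a `B`-submodule `M ⊆ F'` contains `c` as soon
  as for every maximal ideal `𝔪` some `s ∉ 𝔪` satisfies `s • c ∈ M`.
-/

set_option autoImplicit false
set_option linter.unusedSectionVars false

namespace Fermat.Agent.A2.H348

variable {A F F' : Type*} [CommRing A] [Field F] [CommRing F'] [Algebra A F] [Algebra F F']
  [Algebra A F'] [IsScalarTower A F F']

section SubLoc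

variable (B O : Subalgebra A F)

/-- integrality over a localisation descends up to a denominator. -/
theorem exists_smul_isIntegral_of_subLoc (hBO : B ≤ O) (S : Submonoid B)
    (hS0 : ∀ s ∈ S, (s : F) ≠ 0)
    (hS : ∀ f ∈ O, ∃ s ∈ S, (s : F) * f ∈ B) (hSinv : ∀ s ∈ S, ((s : F))⁻¹ ∈ O)
    (c : F') (hc : IsIntegral O c) :
    ∃ s ∈ S, IsIntegral B (algebraMap F F' (s : F) * c) := by
  letI : Algebra B O := (Subalgebra.inclusion hBO).toRingHom.toAlgebra
  have halg : ∀ b : B, ((algebraMap B O b : O) : F) = (b : F) := fun b => rfl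
  haveI : IsScalarTower B O F' := IsScalarTower.of_algebraMap_eq fun b => rfl
  haveI : IsLocalization S O := by
    rw [isLocalization_iff]
    refine ⟨?_, ?_, ?_⟩
    · intro y
      refine IsUnit.of_mul_eq_one (⟨((y : B) : F)⁻¹, hSinv y y.2⟩ : O) ?_
      apply Subtype.ext
      show ((y : B) : F) * ((y : B) : F)⁻¹ = 1
      exact mul_inv_cancel₀ (hS0 y y.2)
    · intro z
      obtain ⟨s, hs, hsz⟩ := hS z z.2
      refine ⟨(⟨(s : F) * z, hsz⟩, ⟨s, hs⟩), ?_⟩
      apply Subtype.ext
      show (z : F) * (s : F) = (s : F) * z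
      exact mul_comm _ _
    · intro x y hxy
      refine ⟨1, ?_⟩
      have : (x : F) = (y : F) := congrArg (fun t : O => (t : F)) hxy
      rw [Subtype.ext this]
  obtain ⟨m, hm⟩ := IsIntegral.exists_multiple_integral_of_isLocalization S c hc
  refine ⟨m, m.2, ?_⟩
  have : (m • c : F') = algebraMap F F' ((m : B) : F) * c := by
    rw [Submonoid.smul_def, Algebra.smul_def]; rfl
  rwa [this] at hm

end SubLoc

section LocAt

variable (B : Subalgebra A F)

/-- The localisation of `B ⊆ F` at the prime ideal `𝔪`, as a subalgebra of `F`. -/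
def locAt (𝔪 : Ideal B) [h𝔪 : 𝔪.IsPrime] : Subalgebra A F where
  carrier := {f | ∃ s : B, s ∉ 𝔪 ∧ (s : F) * f ∈ B}
  mul_mem' := by
    rintro f g ⟨s, hs, hsf⟩ ⟨t, ht, htg⟩
    refine ⟨s * t, fun h => (h𝔪.mem_or_mem h).elim hs ht, ?_⟩
    have : ((s * t : B) : F) * (f * g) = ((s : F) * f) * ((t : F) * g) := by
      push_cast; ring
    rw [this]
    exact B.mul_mem hsf htg
  add_mem' := by
    rintro f g ⟨s, hs, hsf⟩ ⟨t, ht, htg⟩
    refine ⟨s * t, fun h => (h𝔪.mem_or_mem h).elim hs ht, ?_⟩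
    have : ((s * t : B) : F) * (f + g) = (t : F) * ((s : F) * f) + (s : F) * ((t : F) * g) := by
      push_cast; ring
    rw [this]
    exact B.add_mem (B.mul_mem t.2 hsf) (B.mul_mem s.2 htg)
  algebraMap_mem' := by
    intro r
    refine ⟨1, fun h => h𝔪.ne_top ((Ideal.eq_top_iff_one _).2 h), ?_⟩
    simp only [OneMemClass.coe_one, one_mul]
    exact B.algebraMap_mem r

variable {B}

theorem mem_locAt {𝔪 : Ideal B} [𝔪.IsPrime] {f : F} :
    f ∈ locAt B 𝔪 ↔ ∃ s : B, s ∉ 𝔪 ∧ (s : F) * f ∈ B := Iff.rfl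

theorem le_locAt (𝔪 : Ideal B) [h𝔪 : 𝔪.IsPrime] : B ≤ locAt B 𝔪 := by
  intro f hf
  refine ⟨1, fun h => h𝔪.ne_top ((Ideal.eq_top_iff_one _).2 h), ?_⟩
  simpa using hf

theorem inv_mem_locAt (𝔪 : Ideal B) [𝔪.IsPrime] {s : B} (hs : s ∉ 𝔪) :
    ((s : F))⁻¹ ∈ locAt B 𝔪 := by
  refine ⟨s, hs, ?_⟩
  rcases eq_or_ne (s : F) 0 with h | h
  · rw [h, zero_mul]; exact B.zero_mem
  · rw [mul_inv_cancel₀ h]; exact B.one_mem

theorem coe_ne_zero_of_notMem (𝔪 : Ideal B) {s : B} (hs : s ∉ 𝔪) : (s : F) ≠ 0 := by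
  intro h
  apply hs
  have : s = 0 := Subtype.ext h
  rw [this]
  exact 𝔪.zero_mem

/-- integrality over `B_𝔪` descends to `B` up to a denominator outside `𝔪`. -/
theorem exists_smul_isIntegral_of_locAt (𝔪 : Ideal B) [𝔪.IsPrime] (c : F')
    (hc : IsIntegral (locAt B 𝔪) c) :
    ∃ s : B, s ∉ 𝔪 ∧ IsIntegral B (algebraMap F F' (s : F) * c) := by
  obtain ⟨s, hs, h⟩ := exists_smul_isIntegral_of_subLoc B (locAt B 𝔪) (le_locAt 𝔪) 𝔪.primeCompl
    (fun s hs => coe_ne_zero_of_notMem 𝔪 hs)
    (fun f hf => by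
      obtain ⟨s, hs, hsf⟩ := hf
      exact ⟨s, hs, hsf⟩)
    (fun s hs => inv_mem_locAt 𝔪 hs) c hc
  exact ⟨s, hs, h⟩

/-- `B_𝔪` is integrally closed in `F` if `B` is. -/
theorem locAt_integrallyClosed (hB : ∀ f : F, IsIntegral B f → f ∈ B) (𝔪 : Ideal B) [𝔪.IsPrime]
    (f : F) (hf : IsIntegral (locAt B 𝔪) f) : f ∈ locAt B 𝔪 := by
  obtain ⟨s, hs, h⟩ := exists_smul_isIntegral_of_locAt (F' := F) 𝔪 f hf
  exact ⟨s, hs, hB _ h⟩

/-- `1 + ϖ t` is invertible in `B_𝔪` for `ϖ ∈ 𝔪`. -/
theorem one_add_mul_inv_mem_locAt (𝔪 : Ideal B) [𝔪.IsPrime] {ϖ : B} (hϖ : ϖ ∈ 𝔪) {t : F}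
    (ht : t ∈ locAt B 𝔪) : (1 + (ϖ : F) * t)⁻¹ ∈ locAt B 𝔪 := by
  obtain ⟨s, hs, hst⟩ := ht
  have hmem : s + ϖ * ⟨(s : F) * t, hst⟩ ∉ 𝔪 := by
    intro h
    apply hs
    have h2 : ϖ * ⟨(s : F) * t, hst⟩ ∈ 𝔪 := 𝔪.mul_mem_right _ hϖ
    have := 𝔪.sub_mem h h2
    simpa using this
  have hs0 : (s : F) ≠ 0 := coe_ne_zero_of_notMem 𝔪 hs
  have hne : ((s + ϖ * ⟨(s : F) * t, hst⟩ : B) : F) ≠ 0 := coe_ne_zero_of_notMem 𝔪 hmem
  have hval : ((s + ϖ * ⟨(s : F) * t, hst⟩ : B) : F) = (s : F) * (1 + (ϖ : F) * t) := by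
    push_cast; ring
  have h1 : (1 + (ϖ : F) * t) ≠ 0 := by
    intro h
    rw [hval, h, mul_zero] at hne
    exact hne rfl
  refine ⟨s + ϖ * ⟨(s : F) * t, hst⟩, hmem, ?_⟩
  rw [hval, mul_assoc, mul_inv_cancel₀ h1, mul_one]
  exact s.2

end LocAt

section Conductor

variable (B : Subalgebra A F)

/-- **Conductor argument.** -/
theorem mem_of_forall_maximal (M : Submodule B F') (c : F')
    (h : ∀ 𝔪 : Ideal B, 𝔪.IsMaximal → ∃ s : B, s ∉ 𝔪 ∧ s • c ∈ M) : c ∈ M := by
  let I : Ideal B := M.comap (LinearMap.toSpanSingleton B F' c)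
  have hI : ∀ s : B, s ∈ I ↔ s • c ∈ M := fun s => by
    simp [I, Submodule.mem_comap, LinearMap.toSpanSingleton_apply]
  by_cases hIt : I = ⊤
  · have h1 : (1 : B) ∈ I := by rw [hIt]; trivial
    have := (hI 1).1 h1
    simpa using this
  · obtain ⟨𝔪, h𝔪, hle⟩ := Ideal.exists_le_maximal I hIt
    obtain ⟨s, hs, hsc⟩ := h 𝔪 h𝔪
    exact absurd (hle ((hI s).2 hsc)) hs

end Conductor

end Fermat.Agent.A2.H348

end
-- ===== PACK-END A2/H348/SubLoc.lean

-- ===== PACK-BEGIN A2/Alg/H609/DimOne.lean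
section









/-!
# WALL A2 / ALG (helper609): components of the special fibre have dimension one

`R` a ring, `w ∈ R` generating a maximal ideal, `B` an `R`-algebra integral over `R[X]` via
`X ↦ x`, `p` a prime of `B` containing `w`.  Then every nonzero prime of `B ⧸ p` is maximal
(`dimensionLEOne_quotient`): `B ⧸ p` is integral over `(R/w)[X]`.  Mathlib only.
-/

set_option autoImplicit false

namespace Fermat.Agent.A2.Alg.H609

open Polynomial

/-- A domain integral over `k[X]` (`k` a field) has dimension at most one. -/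
theorem dimensionLEOne_of_isIntegral_polynomial {k D : Type*} [Field k] [CommRing D]
    [IsDomain D] (ψ : k[X] →+* D) (hψ : ψ.IsIntegral) : Ring.DimensionLEOne D := by
  refine ⟨fun {𝔮} h𝔮0 h𝔮 => ?_⟩
  let _ : Algebra k[X] D := ψ.toAlgebra
  obtain ⟨d, hd𝔮, hd0⟩ := Submodule.exists_mem_ne_zero_of_ne_bot h𝔮0
  have h1 : 𝔮.comap (algebraMap k[X] D) ≠ ⊥ :=
    Ideal.comap_ne_bot_of_integral_mem hd0 hd𝔮 (hψ d)
  have h2 : (𝔮.comap (algebraMap k[X] D)).IsPrime := Ideal.comap_isPrime _ 𝔮
  have h3 : (𝔮.comap (algebraMap k[X] D)).IsMaximal := h2.isMaximal h1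
  exact Ideal.isMaximal_of_isIntegral_of_isMaximal_comap' ψ hψ 𝔮 h3

variable {R B : Type*} [CommRing R] [CommRing B] [Algebra R B]

/-- **Components have dimension one.** -/
theorem dimensionLEOne_quotient {w : R} (hw : (Ideal.span {w}).IsMaximal) (x : B)
    (hint : (aeval (R := R) x).toRingHom.IsIntegral)
    (p : Ideal B) [p.IsPrime] (hwp : algebraMap R B w ∈ p) : Ring.DimensionLEOne (B ⧸ p) := by
  let _ : Field (R ⧸ Ideal.span {w}) := Ideal.Quotient.field _
  let ψ₀ : R ⧸ Ideal.span {w} →+* B ⧸ p :=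
    Ideal.Quotient.lift (Ideal.span {w}) ((Ideal.Quotient.mk p).comp (algebraMap R B)) (by
      intro a ha
      obtain ⟨c, rfl⟩ := Ideal.mem_span_singleton'.mp ha
      rw [RingHom.comp_apply, _root_.map_mul, _root_.map_mul, Ideal.Quotient.eq_zero_iff_mem.mpr hwp,
        mul_zero])
  let ψ : (R ⧸ Ideal.span {w})[X] →+* B ⧸ p := eval₂RingHom ψ₀ (Ideal.Quotient.mk p x)
  let π : R[X] →+* (R ⧸ Ideal.span {w})[X] := mapRingHom (Ideal.Quotient.mk (Ideal.span {w}))
  have hcomp : ψ.comp π = (Ideal.Quotient.mk p).comp (aeval (R := R) x).toRingHom := by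
    refine Polynomial.ringHom_ext (fun r => ?_) ?_
    · simp only [RingHom.comp_apply, ψ, π, ψ₀, coe_mapRingHom, map_C, coe_eval₂RingHom, eval₂_C,
        Ideal.Quotient.lift_mk, AlgHom.toRingHom_eq_coe, RingHom.coe_coe, aeval_C]
    · simp only [RingHom.comp_apply, ψ, π, coe_mapRingHom, map_X, coe_eval₂RingHom, eval₂_X,
        AlgHom.toRingHom_eq_coe, RingHom.coe_coe, aeval_X]
  have h1 : ((Ideal.Quotient.mk p).comp (aeval (R := R) x).toRingHom).IsIntegral :=
    RingHom.IsIntegral.trans _ _ hint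
      (RingHom.isIntegral_of_surjective _ Ideal.Quotient.mk_surjective)
  have h2 : ψ.IsIntegral := RingHom.IsIntegral.tower_top π ψ (by rw [hcomp]; exact h1)
  exact dimensionLEOne_of_isIntegral_polynomial ψ h2

/-- The components of the special fibre are Dedekind. -/
theorem isDedekindDomain_quotient [IsNoetherianRing B] {w : R}
    (hw : (Ideal.span {w}).IsMaximal) (x : B)
    (hint : (aeval (R := R) x).toRingHom.IsIntegral)
    (p : Ideal B) [p.IsPrime] (hwp : algebraMap R B w ∈ p) [IsIntegrallyClosed (B ⧸ p)] :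
    IsDedekindDomain (B ⧸ p) := by
  have hdim : Ring.DimensionLEOne (B ⧸ p) := dimensionLEOne_quotient hw x hint p hwp
  have hded : IsDedekindRing (B ⧸ p) :=
    { toIsNoetherian := inferInstance
      toDimensionLEOne := hdim
      toIsIntegralClosure := inferInstance }
  exact { toIsDomain := inferInstance, toIsDedekindRing := hded }

end Fermat.Agent.A2.Alg.H609

end
-- ===== PACK-END A2/Alg/H609/DimOne.lean

-- ===== PACK-BEGIN S18/H754/KummerSpec.lean
section


/-!
# S18, Route K, pieces b3 + b4 merged: the ETALE KUMMER COVER (helper754, squad S18/S34)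

Mathlib-only.  Setting (one chart):

* `B` : Noetherian integrally closed domain (chart algebra of the model, over a DVR `A'`),
  `F = Frac B`, `ϖ ∈ B` a prime element (uniformiser of `A'`), and the special fibre `B/ϖ` is
  regular: every maximal ideal `𝔪 ∋ ϖ` is locally generated by `ϖ` and one more element
  (this is the OUTPUT of b2: `B/ϖ` Dedekind).
* `u ∈ F`, `z ^ p = u` in an extension field `F'`, `p` prime and invertible in `B`,
  `u` is a unit at `ϖ` with `u ≡ 1 mod ϖ`, and at every height-one prime of `B` the element `u`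
  is a unit times a `p`-th power (`p ∣ ord_v(u)` for all places).

Conclusions (no discriminant counting for the cover is needed: the cover is étale over the
regular chart because regular local rings of this shape are UFDs):

* `KummerLift`  : every Kummer idempotent `e_η = p⁻¹ ∑_{a<p} η^a z^a` (`η^p = 1`) is congruent
  modulo `ϖ O'` to an element integral over `B` (`O'` = integral closure of `B_(ϖ)`).
* `KummerUnmixed` : if `c ∈ F(z)` is integral over `B` and `c ∈ ϖ O'` then `c/ϖ` is integral over `B`.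
* `kummerIdem_*` : idempotency / orthogonality / nontriviality of the `e_η` modulo `ϖ O'`.
-/

set_option autoImplicit false

noncomputable section

namespace Fermat.Agent.S18.H754

open Polynomial

variable {B : Type*} [CommRing B] [IsDomain B]
  {F : Type*} [Field F] [Algebra B F] [IsFractionRing B F]
  {F' : Type*} [Field F'] [Algebra F F'] [Algebra B F'] [IsScalarTower B F F']

/-- The Kummer idempotent candidate attached to `η` (a `p`-th root of unity in `B`). -/
def kummerIdem (p : ℕ) (η : B) (z : F') : F' :=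
  (p : F')⁻¹ * ∑ a ∈ Finset.range p, algebraMap B F' (η ^ a) * z ^ a

/-- `y ∈ ϖ O'`, where `O'` is the integral closure of `B_(ϖ)` in `F'`, elementwise:
`s y = ϖ c` with `s ∈ B ∖ ϖB` and `c` integral over `B`. -/
def InPiO (ϖ : B) (y : F') : Prop :=
  ∃ s : B, s ∉ Ideal.span {ϖ} ∧ ∃ c : F', IsIntegral B c ∧
    algebraMap B F' s * y = algebraMap B F' ϖ * c

/-- The special fibre is regular at every closed point: `𝔪 B_𝔪 = (ϖ, t)`. -/
def RegularAlong (ϖ : B) : Prop :=
  ∀ 𝔪 : Ideal B, 𝔪.IsMaximal → ϖ ∈ 𝔪 →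
    ∃ t ∈ 𝔪, ∀ a ∈ 𝔪, ∃ s : B, s ∉ 𝔪 ∧ s * a ∈ Ideal.span {ϖ, t}

/-- `u` is a unit at `ϖ` and `u ≡ 1 mod ϖ`. -/
def OneModPi (ϖ : B) (u : F) : Prop :=
  ∃ a s : B, s ∉ Ideal.span {ϖ} ∧ a - s ∈ Ideal.span {ϖ} ∧
    u * algebraMap B F s = algebraMap B F a

/-- `p ∣ ord_𝔭 (u)` at every height-one prime `𝔭` of `B`, elementwise. -/
def DivisibleDivisor (B : Type*) [CommRing B] {F : Type*} [Field F] [Algebra B F]
    (p : ℕ) (u : F) : Prop :=
  ∀ 𝔭 : Ideal B, 𝔭.IsPrime → 𝔭.height = 1 →
    ∃ t : F, ∃ a s : B, a ∉ 𝔭 ∧ s ∉ 𝔭 ∧ u * t ^ p * algebraMap B F s = algebraMap B F a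

/-- STATEMENT of the lifting theorem. -/
def KummerLiftStatement : Prop :=
  ∀ (B : Type) [CommRing B] [IsDomain B] [IsNoetherianRing B] [IsIntegrallyClosed B]
    (F : Type) [Field F] [Algebra B F] [IsFractionRing B F]
    (F' : Type) [Field F'] [Algebra F F'] [Algebra B F'] [IsScalarTower B F F']
    (ϖ : B) (_ : Prime ϖ) (_ : RegularAlong ϖ)
    (p : ℕ) (_ : p.Prime) (_ : IsUnit (p : B))
    (u : F) (z : F') (_ : z ^ p = algebraMap F F' u) (_ : ∀ y : F, y ^ p ≠ u)
    (_ : OneModPi ϖ u) (_ : DivisibleDivisor B p u)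
    (η : B) (_ : η ^ p = 1),
    ∃ b : F', IsIntegral B b ∧ InPiO ϖ (b - kummerIdem p η z)

/-- STATEMENT of unmixedness of `ϖ` on the integral closure in `F(z)`. -/
def KummerUnmixedStatement : Prop :=
  ∀ (B : Type) [CommRing B] [IsDomain B] [IsNoetherianRing B] [IsIntegrallyClosed B]
    (F : Type) [Field F] [Algebra B F] [IsFractionRing B F]
    (F' : Type) [Field F'] [Algebra F F'] [Algebra B F'] [IsScalarTower B F F']
    (ϖ : B) (_ : Prime ϖ) (_ : RegularAlong ϖ)
    (p : ℕ) (_ : p.Prime) (_ : IsUnit (p : B))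
    (u : F) (z : F') (_ : z ^ p = algebraMap F F' u) (_ : ∀ y : F, y ^ p ≠ u)
    (_ : OneModPi ϖ u) (_ : DivisibleDivisor B p u)
    (c : F') (_ : c ∈ IntermediateField.adjoin F {z}) (_ : IsIntegral B c) (_ : InPiO ϖ c),
    ∃ c' : F', IsIntegral B c' ∧ c = algebraMap B F' ϖ * c'

/-- STATEMENT: the Kummer idempotents are idempotent and orthogonal modulo `ϖ O'`, sum to one,
and none of them vanishes modulo `ϖ O'`. -/
def KummerIdemStatement : Prop :=
  ∀ (B : Type) [CommRing B] [IsDomain B] [IsIntegrallyClosed B]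
    (F : Type) [Field F] [Algebra B F] [IsFractionRing B F]
    (F' : Type) [Field F'] [Algebra F F'] [Algebra B F'] [IsScalarTower B F F']
    (ϖ : B) (_ : Prime ϖ)
    (p : ℕ) (_ : p.Prime) (_ : IsUnit (p : B))
    (u : F) (z : F') (_ : z ^ p = algebraMap F F' u) (_ : ∀ y : F, y ^ p ≠ u)
    (_ : OneModPi ϖ u),
    (∀ η : B, η ^ p = 1 → InPiO ϖ (kummerIdem p η z * kummerIdem p η z - kummerIdem p η z)) ∧
    (∀ η η' : B, η ^ p = 1 → η' ^ p = 1 → η ≠ η' →
      InPiO ϖ (kummerIdem p η z * kummerIdem p η' z)) ∧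
    (∀ ζ : B, IsPrimitiveRoot ζ p →
      ∑ i ∈ Finset.range p, kummerIdem p (ζ ^ i) z = 1) ∧
    (∀ η : B, η ^ p = 1 → ¬ InPiO ϖ (kummerIdem p η z))

end Fermat.Agent.S18.H754

end

end
-- ===== PACK-END S18/H754/KummerSpec.lean

-- ===== PACK-BEGIN S18/B12/H84/RegularAlong.lean
section


/-!
# S18 / b2.5 / A9 (helper84): regularity along a Dedekind special fibre

`regularAlongOfDedekind` = `RegularAlongOfDedekindStatement` of `origin/helper33`
`Fermat/Agent/S18/B12/Spec3.lean`, unfolded (Mathlib-only; the `Spec3`-typed wrapper is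
`Fermat/Agent/S18/B12/H84/Stmt.lean`):

if `B/ϖB` is a Dedekind domain, then every maximal ideal `𝔪 ∋ ϖ` of `B` is locally generated by
`ϖ` and one more element `t`: for every `a ∈ 𝔪` there is `s ∉ 𝔪` with `s * a ∈ (ϖ, t)`.

Generic core: `exists_local_generator` (a maximal ideal of a Dedekind domain is locally
principal, elementwise form).
-/

set_option autoImplicit false

namespace Fermat.Agent.S18.B12.H84

universe u

/-- A maximal ideal `M` of a Dedekind domain is locally principal: there is `t ∈ M` and for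
every `a ∈ M` an `s ∉ M` with `s * a ∈ (t)`.  (Elementwise form; `s` may even be chosen
independently of `a`.) -/
theorem exists_local_generator {D : Type u} [CommRing D] [IsDedekindDomain D]
    (M : Ideal D) (hM : M.IsMaximal) :
    ∃ t ∈ M, ∃ s : D, s ∉ M ∧ ∀ a ∈ M, s * a ∈ Ideal.span {t} := by
  by_cases h0 : M = ⊥
  · refine ⟨0, M.zero_mem, 1, ?_, ?_⟩
    · exact (Ideal.ne_top_iff_one M).mp hM.ne_top
    · intro a ha
      rw [h0, Ideal.mem_bot] at ha
      rw [ha, mul_zero]
      exact Ideal.zero_mem _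
  · obtain ⟨t, ht1, ht2⟩ := Ideal.exists_mem_pow_notMem_pow_succ M h0 hM.ne_top 1
    rw [pow_one] at ht1
    have hle : Ideal.span {t} ≤ M := (Ideal.span_singleton_le_iff_mem M).mpr ht1
    obtain ⟨J, hJ⟩ := Ideal.dvd_iff_le.mpr hle
    have hJM : ¬ J ≤ M := by
      intro hJM
      apply ht2
      have h1 : Ideal.span {t} ≤ M * M := by
        rw [hJ]
        exact Ideal.mul_mono_right hJM
      have h2 : t ∈ M * M := h1 (Ideal.mem_span_singleton_self t)
      simpa [pow_succ] using h2
    obtain ⟨s, hsJ, hsM⟩ := SetLike.not_le_iff_exists.mp hJM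
    refine ⟨t, ht1, s, hsM, fun a ha => ?_⟩
    rw [hJ, mul_comm s a]
    exact Ideal.mul_mem_mul ha hsJ

/-- **A9** (`RegularAlongOfDedekindStatement`, unfolded). -/
theorem regularAlongOfDedekind (B : Type u) [CommRing B] (ϖ : B)
    (hD : IsDedekindDomain (B ⧸ Ideal.span {ϖ})) (𝔪 : Ideal B) (h𝔪 : 𝔪.IsMaximal)
    (hϖ : ϖ ∈ 𝔪) :
    ∃ t ∈ 𝔪, ∀ a ∈ 𝔪, ∃ s : B, s ∉ 𝔪 ∧ s * a ∈ Ideal.span {ϖ, t} := by
  let q : B →+* B ⧸ Ideal.span {ϖ} := Ideal.Quotient.mk (Ideal.span {ϖ})
  have hq : Function.Surjective q := Ideal.Quotient.mk_surjective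
  have hker : RingHom.ker q = Ideal.span {ϖ} := Ideal.mk_ker
  have hkerle : RingHom.ker q ≤ 𝔪 := by
    rw [hker]
    exact (Ideal.span_singleton_le_iff_mem 𝔪).mpr hϖ
  have hcomap : (𝔪.map q).comap q = 𝔪 := by
    rw [Ideal.comap_map_of_surjective q hq]
    refine le_antisymm (sup_le le_rfl ?_) le_sup_left
    rw [← RingHom.ker_eq_comap_bot]
    exact hkerle
  have hmax : (𝔪.map q).IsMaximal := by
    rcases Ideal.map_eq_top_or_isMaximal_of_surjective q hq h𝔪 with h | h
    · exfalso
      apply h𝔪.ne_top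
      rw [← hcomap, h, Ideal.comap_top]
    · exact h
  obtain ⟨tbar, htbar, sbar, hsbar, hall⟩ := exists_local_generator (𝔪.map q) hmax
  obtain ⟨t, rfl⟩ := hq tbar
  obtain ⟨s, rfl⟩ := hq sbar
  have ht : t ∈ 𝔪 := by
    rw [← hcomap]
    exact Ideal.mem_comap.mpr htbar
  have hs : s ∉ 𝔪 := fun h => hsbar (Ideal.mem_map_of_mem q h)
  refine ⟨t, ht, fun a ha => ⟨s, hs, ?_⟩⟩
  have h1 : q s * q a ∈ Ideal.span {q t} := hall (q a) (Ideal.mem_map_of_mem q ha)
  obtain ⟨cbar, hc⟩ := Ideal.mem_span_singleton'.mp h1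
  obtain ⟨c, rfl⟩ := hq cbar
  have h2 : s * a - c * t ∈ Ideal.span {ϖ} := by
    rw [← hker, RingHom.mem_ker, map_sub, map_mul, map_mul, hc, sub_self]
  have h3 : s * a = (s * a - c * t) + c * t := by ring
  rw [h3]
  refine Ideal.add_mem _ ?_ ?_
  · exact Ideal.span_mono (by simp) h2
  · exact Ideal.mul_mem_left _ c (Ideal.subset_span (by simp))

end Fermat.Agent.S18.B12.H84

end
-- ===== PACK-END S18/B12/H84/RegularAlong.lean

-- ===== PACK-BEGIN A2/Alg/H754/ChartDim.lean
section


/-!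
# A2 / ALG / P-S (helper754): the components of a two-dimensional chart are Dedekind

`B` a domain, integral over a Noetherian ring `A₀` of Krull dimension `≤ 2` (`A₀ = R[x]`, `R` a
DVR).  Then every prime `q` strictly containing a nonzero prime `p` is maximal; hence `B ⧸ p` is
a Dedekind domain as soon as it is Noetherian and integrally closed.
-/

set_option autoImplicit false
set_option linter.style.haveILetI false

namespace Fermat.Agent.A2.Alg.H754

section Dim

variable {A₀ B : Type*} [CommRing A₀] [IsNoetherianRing A₀] [CommRing B] [IsDomain B]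
  [Algebra A₀ B] [Algebra.IsIntegral A₀ B]

/-- No chain of primes `⊥ < p < q < M` in an integral extension of a ring of dimension `≤ 2`. -/
theorem isMaximal_of_lt_of_ne_bot (hdim : ringKrullDim A₀ ≤ 2) (p q : Ideal B) [hp : p.IsPrime]
    [hq : q.IsPrime] (hp0 : p ≠ ⊥) (hpq : p < q) : q.IsMaximal := by
  by_contra hmax
  obtain ⟨M, hM, hqM⟩ := Ideal.exists_le_maximal q hq.ne_top
  have hqM' : q < M := lt_of_le_of_ne hqM (fun h => hmax (h ▸ hM))
  haveI hMp : M.IsPrime := hM.isPrime
  haveI hbot : (⊥ : Ideal B).IsPrime := Ideal.isPrime_bot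
  have key : ∀ (I J : Ideal B) [I.IsPrime], I < J →
      I.comap (algebraMap A₀ B) < J.comap (algebraMap A₀ B) := by
    intro I J _ hIJ
    obtain ⟨x, hxJ, hxI⟩ := SetLike.exists_of_lt hIJ
    exact Ideal.comap_lt_comap_of_integral_mem_sdiff hIJ.le ⟨hxJ, hxI⟩
      (Algebra.IsIntegral.isIntegral x)
  have h0 := key ⊥ p (bot_lt_iff_ne_bot.2 hp0)
  have h1 := key p q hpq
  have h2 := key q M hqM'
  haveI := Ideal.finiteHeight_of_isNoetherianRing ((⊥ : Ideal B).comap (algebraMap A₀ B))
  haveI := Ideal.finiteHeight_of_isNoetherianRing (p.comap (algebraMap A₀ B))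
  haveI := Ideal.finiteHeight_of_isNoetherianRing (q.comap (algebraMap A₀ B))
  have e0 := Order.add_one_le_of_lt (Ideal.height_strict_mono_of_isPrime h0)
  have e1 := Order.add_one_le_of_lt (Ideal.height_strict_mono_of_isPrime h1)
  have e2 := Order.add_one_le_of_lt (Ideal.height_strict_mono_of_isPrime h2)
  have hne : M.comap (algebraMap A₀ B) ≠ ⊤ := (Ideal.comap_isPrime _ M).ne_top
  have e3 : ((M.comap (algebraMap A₀ B)).height : WithBot ℕ∞) ≤ 2 :=
    le_trans (Ideal.height_le_ringKrullDim_of_ne_top hne) hdim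
  have e3' : (M.comap (algebraMap A₀ B)).height ≤ 2 := by
    have h2 : ((2 : ℕ∞) : WithBot ℕ∞) = 2 := rfl
    rw [← h2] at e3
    exact WithBot.coe_le_coe.1 e3
  have e4 : (3 : ℕ∞) ≤ (M.comap (algebraMap A₀ B)).height := by
    calc (3 : ℕ∞) = 0 + 1 + 1 + 1 := by norm_num
      _ ≤ ((⊥ : Ideal B).comap (algebraMap A₀ B)).height + 1 + 1 + 1 := by gcongr; exact zero_le
      _ ≤ (p.comap (algebraMap A₀ B)).height + 1 + 1 := by gcongr
      _ ≤ (q.comap (algebraMap A₀ B)).height + 1 := by gcongr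
      _ ≤ _ := e2
  have : (3 : ℕ∞) ≤ 2 := le_trans e4 e3'
  exact absurd this (by decide)

/-- The components of the special fibre are Dedekind. -/
theorem isDedekindDomain_quotient_of_dim [IsNoetherianRing B] (hdim : ringKrullDim A₀ ≤ 2)
    (p : Ideal B) [hp : p.IsPrime] (hp0 : p ≠ ⊥) (hnorm : IsIntegrallyClosed (B ⧸ p)) :
    IsDedekindDomain (B ⧸ p) := by
  have hsurj : Function.Surjective (Ideal.Quotient.mk p) := Ideal.Quotient.mk_surjective
  have h1 : IsNoetherianRing (B ⧸ p) := inferInstance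
  have h2 : Ring.DimensionLEOne (B ⧸ p) := by
    refine ⟨fun {Q} hQ0 hQ => ?_⟩
    haveI := hQ
    have hle : p ≤ Q.comap (Ideal.Quotient.mk p) := by
      intro b hb
      rw [Ideal.mem_comap, Ideal.Quotient.eq_zero_iff_mem.2 hb]
      exact Q.zero_mem
    have hne : p ≠ Q.comap (Ideal.Quotient.mk p) := by
      intro h
      apply hQ0
      rw [← Ideal.map_comap_of_surjective _ hsurj Q, ← h, Ideal.map_quotient_self]
    have hmax : (Q.comap (Ideal.Quotient.mk p)).IsMaximal :=
      isMaximal_of_lt_of_ne_bot (A₀ := A₀) hdim p _ hp0 (lt_of_le_of_ne hle hne)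
    rw [← Ideal.map_comap_of_surjective _ hsurj Q]
    haveI := hmax
    exact Ideal.IsMaximal.map_of_surjective_of_ker_le hsurj (by rw [Ideal.mk_ker]; exact hle)
  have h3 : IsIntegrallyClosed (B ⧸ p) := hnorm
  exact { h1, h2, h3 with }

end Dim

end Fermat.Agent.A2.Alg.H754

end
-- ===== PACK-END A2/Alg/H754/ChartDim.lean

-- ===== PACK-BEGIN A2/H48/TwoVal.lean
section


/-!
# A2 / piece QEP2, part 1 (helper48): two valuation rings with a common uniformiser

Mathlib-only.  `F` a field, `V₁ ≠ V₂` valuation subrings of `F` whose maximal ideals are both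
generated by the same element `ϖ` (both "unramified" over a common base).

* `IsUnif V ϖ` : `ϖ ∈ V`, `ϖ⁻¹ ∉ V`, and every non-unit of `V` is divisible by `ϖ` in `V`;
* `exists_separating` : there is `c` with `c ∈ 𝔪₁` and `c⁻¹ ∈ 𝔪₂`;
* `exists_approx` : for `f ∈ V₁` with `ϖ ^ k * f ∈ V₂` there is `g ∈ V₁ ∩ V₂` with
  `g ≡ f mod ϖ V₁` and `g ∈ ϖ V₂` (explicit weak approximation).
-/

set_option autoImplicit false

namespace Fermat.Agent.A2.H48

variable {F : Type*} [Field F]

/-- `ϖ` generates the maximal ideal of the valuation subring `V` (elementwise form). -/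
structure IsUnif (V : ValuationSubring F) (ϖ : F) : Prop where
  mem : ϖ ∈ V
  inv_not_mem : ϖ⁻¹ ∉ V
  gen : ∀ f ∈ V, f⁻¹ ∉ V → f * ϖ⁻¹ ∈ V

namespace IsUnif

variable {V : ValuationSubring F} {ϖ : F}

theorem ne_zero (h : IsUnif V ϖ) : ϖ ≠ 0 := by
  rintro rfl
  exact h.inv_not_mem (by simp)

theorem val_lt_one (h : IsUnif V ϖ) : V.valuation ϖ < 1 := by
  have h1 : V.valuation ϖ ≤ 1 := (V.valuation_le_one_iff ϖ).2 h.mem
  rcases lt_or_eq_of_le h1 with h2 | h2
  · exact h2
  · exfalso
    apply h.inv_not_mem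
    rw [← V.valuation_le_one_iff, map_inv₀, h2, inv_one]

theorem val_ne_zero (h : IsUnif V ϖ) : V.valuation ϖ ≠ 0 :=
  (Valuation.ne_zero_iff _).2 h.ne_zero

theorem val_le_of_lt_one (h : IsUnif V ϖ) {f : F} (hf : V.valuation f < 1) :
    V.valuation f ≤ V.valuation ϖ := by
  by_cases hf0 : f = 0
  · subst hf0; simp
  have hfV : f ∈ V := (V.valuation_le_one_iff f).1 hf.le
  have hfinv : f⁻¹ ∉ V := by
    intro hmem
    have h1 : V.valuation f⁻¹ ≤ 1 := (V.valuation_le_one_iff _).2 hmem
    rw [map_inv₀] at h1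
    have h2 : V.valuation f ≠ 0 := (Valuation.ne_zero_iff _).2 hf0
    have h3 : 1 ≤ V.valuation f := by
      rwa [inv_le_one₀ (zero_lt_iff.2 h2)] at h1
    exact absurd hf (not_lt.2 h3)
  have h4 := h.gen f hfV hfinv
  have h5 : V.valuation (f * ϖ⁻¹) ≤ 1 := (V.valuation_le_one_iff _).2 h4
  rw [map_mul, map_inv₀] at h5
  rwa [mul_inv_le_iff₀ (zero_lt_iff.2 h.val_ne_zero), one_mul] at h5

/-- membership in `ϖ V` in terms of the valuation -/
theorem mul_inv_mem_iff (h : IsUnif V ϖ) {f : F} :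
    f * ϖ⁻¹ ∈ V ↔ V.valuation f < 1 := by
  rw [← V.valuation_le_one_iff, map_mul, map_inv₀,
    mul_inv_le_iff₀ (zero_lt_iff.2 h.val_ne_zero), one_mul]
  constructor
  · intro h1; exact lt_of_le_of_lt h1 h.val_lt_one
  · intro h1; exact h.val_le_of_lt_one h1

theorem pow_mul_inv_mem (h : IsUnif V ϖ) {f : F} (k : ℕ) (hf : V.valuation f ≤ V.valuation ϖ ^ k) :
    f * (ϖ ^ k)⁻¹ ∈ V := by
  rw [← V.valuation_le_one_iff, map_mul, map_inv₀, map_pow,
    mul_inv_le_iff₀ (pow_pos (zero_lt_iff.2 h.val_ne_zero) k), one_mul]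
  exact hf

end IsUnif

section Two

variable {V₁ V₂ : ValuationSubring F} {ϖ : F}

theorem not_le_of_ne (h₁ : IsUnif V₁ ϖ) (h₂ : IsUnif V₂ ϖ) (hne : V₁ ≠ V₂) : ¬ V₁ ≤ V₂ := by
  intro hle
  have : ¬ V₂ ≤ V₁ := fun h => hne (le_antisymm hle h)
  obtain ⟨b, hb2, hb1⟩ := SetLike.not_le_iff_exists.1 this
  have hb0 : b ≠ 0 := by rintro rfl; exact hb1 (zero_mem _)
  have hv1 : 1 < V₁.valuation b := by
    rw [← not_le, V₁.valuation_le_one_iff]; exact hb1
  have hv1' : V₁.valuation b⁻¹ < 1 := by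
    rw [map_inv₀]
    exact inv_lt_one_of_one_lt₀ hv1
  have h3 : b⁻¹ * ϖ⁻¹ ∈ V₁ := h₁.mul_inv_mem_iff.2 hv1'
  have h4 : b⁻¹ * ϖ⁻¹ ∈ V₂ := hle h3
  apply h₂.inv_not_mem
  have : ϖ⁻¹ = b * (b⁻¹ * ϖ⁻¹) := by field_simp
  rw [this]
  exact mul_mem hb2 h4

/-- Two distinct valuation rings with the same uniformiser are incomparable: there is `c` in the
maximal ideal of `V₁` whose inverse lies in the maximal ideal of `V₂`. -/
theorem exists_separating (h₁ : IsUnif V₁ ϖ) (h₂ : IsUnif V₂ ϖ) (hne : V₁ ≠ V₂) :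
    ∃ c : F, c ≠ 0 ∧ V₁.valuation c < 1 ∧ V₂.valuation c⁻¹ < 1 := by
  obtain ⟨a, ha1, ha2⟩ := SetLike.not_le_iff_exists.1 (not_le_of_ne h₁ h₂ hne)
  obtain ⟨b, hb2, hb1⟩ := SetLike.not_le_iff_exists.1 (not_le_of_ne h₂ h₁ (Ne.symm hne))
  have ha0 : a ≠ 0 := by rintro rfl; exact ha2 (zero_mem _)
  have hb0 : b ≠ 0 := by rintro rfl; exact hb1 (zero_mem _)
  have hv1a : V₁.valuation a ≤ 1 := (V₁.valuation_le_one_iff a).2 ha1
  have hv2b : V₂.valuation b ≤ 1 := (V₂.valuation_le_one_iff b).2 hb2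
  have hv1b : 1 < V₁.valuation b := by
    rw [← not_le, V₁.valuation_le_one_iff]; exact hb1
  have hv2a : 1 < V₂.valuation a := by
    rw [← not_le, V₂.valuation_le_one_iff]; exact ha2
  refine ⟨a * b⁻¹, mul_ne_zero ha0 (inv_ne_zero hb0), ?_, ?_⟩
  · rw [map_mul, map_inv₀]
    calc V₁.valuation a * (V₁.valuation b)⁻¹ ≤ 1 * (V₁.valuation b)⁻¹ :=
          mul_le_mul_left hv1a _
      _ < 1 := by rw [one_mul]; exact inv_lt_one_of_one_lt₀ hv1b
  · rw [mul_inv, inv_inv, map_mul, map_inv₀]
    calc (V₂.valuation a)⁻¹ * V₂.valuation b ≤ (V₂.valuation a)⁻¹ * 1 :=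
          mul_le_mul_right hv2b _
      _ < 1 := by rw [mul_one]; exact inv_lt_one_of_one_lt₀ hv2a

/-- Explicit weak approximation: an element `f ∈ V₁` can be corrected, modulo `ϖ V₁`, to an
element of `V₁ ∩ ϖ V₂`. -/
theorem exists_approx (h₁ : IsUnif V₁ ϖ) (h₂ : IsUnif V₂ ϖ) (hne : V₁ ≠ V₂)
    {f : F} (hf : f ∈ V₁) {k : ℕ} (hk : ϖ ^ k * f ∈ V₂) :
    ∃ g : F, g ∈ V₁ ∧ (g - f) * ϖ⁻¹ ∈ V₁ ∧ g * ϖ⁻¹ ∈ V₂ := by
  obtain ⟨c, hc0, hc1, hc2⟩ := exists_separating h₁ h₂ hne
  set n := k + 1 with hn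
  have hcn1 : V₁.valuation (c ^ n) < 1 := by
    rw [map_pow]; exact pow_lt_one₀ zero_le hc1 (by omega)
  have hcn2 : V₂.valuation ((c⁻¹) ^ n) < 1 := by
    rw [map_pow]; exact pow_lt_one₀ zero_le hc2 (by omega)
  have hu1 : V₁.valuation (1 + c ^ n) = 1 := Valuation.map_one_add_of_lt _ hcn1
  have hu2 : V₂.valuation (1 + (c⁻¹) ^ n) = 1 := Valuation.map_one_add_of_lt _ hcn2
  have hne1 : 1 + c ^ n ≠ 0 := by
    intro h; rw [h, map_zero] at hu1; exact zero_ne_one hu1
  have hne2 : 1 + (c⁻¹) ^ n ≠ 0 := by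
    intro h; rw [h, map_zero] at hu2; exact zero_ne_one hu2
  set e := (1 + c ^ n)⁻¹ with he
  have he1 : V₁.valuation e = 1 := by rw [he, map_inv₀, hu1, inv_one]
  have hee : e - 1 = -(c ^ n) * e := by
    rw [he]; field_simp; ring
  have he1' : V₁.valuation (e - 1) < 1 := by
    rw [hee, map_mul, Valuation.map_neg, he1, mul_one]; exact hcn1
  have hee2 : e = (c⁻¹) ^ n * (1 + (c⁻¹) ^ n)⁻¹ := by
    have hcn0 : c ^ n ≠ 0 := pow_ne_zero _ hc0
    have h3 : 1 + (c ^ n)⁻¹ ≠ 0 := by rwa [inv_pow] at hne2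
    rw [he, inv_pow, eq_comm, ← div_eq_mul_inv, div_eq_iff h3, ← div_eq_inv_mul, 
      eq_div_iff hne1]
    field_simp
    ring
  have he2 : V₂.valuation e ≤ V₂.valuation ϖ ^ n := by
    rw [hee2, map_mul, map_inv₀, hu2, inv_one, mul_one, map_pow]
    exact pow_le_pow_left₀ zero_le (h₂.val_le_of_lt_one hc2) n
  refine ⟨f * e, ?_, ?_, ?_⟩
  · exact mul_mem hf ((V₁.valuation_le_one_iff e).1 he1.le)
  · rw [h₁.mul_inv_mem_iff]
    have : f * e - f = f * (e - 1) := by ring
    rw [this, map_mul]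
    calc V₁.valuation f * V₁.valuation (e - 1) ≤ 1 * V₁.valuation (e - 1) :=
          mul_le_mul_left ((V₁.valuation_le_one_iff f).2 hf) _
      _ < 1 := by rw [one_mul]; exact he1'
  · rw [h₂.mul_inv_mem_iff]
    have hk' : V₂.valuation ϖ ^ k * V₂.valuation f ≤ 1 := by
      have := (V₂.valuation_le_one_iff _).2 hk
      rwa [map_mul, map_pow] at this
    rw [map_mul]
    calc V₂.valuation f * V₂.valuation e ≤ V₂.valuation f * V₂.valuation ϖ ^ n :=
          mul_le_mul_right he2 _
      _ = (V₂.valuation ϖ ^ k * V₂.valuation f) * V₂.valuation ϖ := by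
          rw [hn, pow_succ, mul_comm (V₂.valuation ϖ ^ k) (V₂.valuation f), mul_assoc]
      _ ≤ 1 * V₂.valuation ϖ := mul_le_mul_left hk' _
      _ < 1 := by rw [one_mul]; exact h₂.val_lt_one

end Two

end Fermat.Agent.A2.H48

end
-- ===== PACK-END A2/H48/TwoVal.lean

-- ===== PACK-BEGIN S28/H988/Coprime.lean
section
/-
S28 / [L.UP] upper bound, helper988.
Pure algebra (Mathlib only):
* `isCoprime_map_of_reduction`: two monic polynomials over `k⟦X⟧`, one with unit constant
  coefficient, the other congruent to `X ^ m` modulo the maximal ideal, are coprime over `k⸨X⸩`.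
* `mem_range_of_common_root`: the "gcd lemma": a common root `x` of two polynomials over a
  subfield `F`, such that the two quotients by `X - x` are coprime, lies in `F`.
-/


set_option autoImplicit false

noncomputable section

open Polynomial

namespace Fermat.Agent.S28.H988

section Reduction

variable {k : Type*} [Field k]

/-- A monic polynomial over `k⟦X⟧` all of whose lower coefficients lie in the maximal ideal
reduces to `X ^ natDegree`. -/
theorem map_constantCoeff_eq_X_pow (g : Polynomial (PowerSeries k)) (hg : g.Monic)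
    (hc : ∀ i < g.natDegree, PowerSeries.constantCoeff (g.coeff i) = 0) :
    g.map (PowerSeries.constantCoeff (R := k)) = X ^ g.natDegree := by
  ext i
  rw [coeff_map, coeff_X_pow]
  rcases lt_trichotomy i g.natDegree with h | h | h
  · rw [hc i h, if_neg (ne_of_lt h)]
  · rw [h, if_pos rfl, coeff_natDegree, hg.leadingCoeff, map_one]
  · rw [coeff_eq_zero_of_natDegree_lt h, map_zero, if_neg (ne_of_gt h)]

/-- Two monic polynomials over `k⟦X⟧`, one with unit constant coefficient, the other congruent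
to `X ^ m` modulo the maximal ideal, are coprime over `k⸨X⸩`. -/
theorem isCoprime_map_of_reduction
    (g₁ g₂ : Polynomial (PowerSeries k)) (h₁ : g₁.Monic) (h₂ : g₂.Monic)
    (hc₁ : PowerSeries.constantCoeff (g₁.coeff 0) ≠ 0)
    (hc₂ : ∀ i < g₂.natDegree, PowerSeries.constantCoeff (g₂.coeff i) = 0) :
    IsCoprime (g₁.map (algebraMap (PowerSeries k) (LaurentSeries k)))
      (g₂.map (algebraMap (PowerSeries k) (LaurentSeries k))) := by
  classical
  set φ := algebraMap (PowerSeries k) (LaurentSeries k) with hφ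
  have hφinj : Function.Injective φ := IsFractionRing.injective _ _
  rw [← EuclideanDomain.gcd_isUnit_iff]
  set H := EuclideanDomain.gcd (g₁.map φ) (g₂.map φ) with hH
  have hHne : H ≠ 0 := by
    intro h0
    have := (EuclideanDomain.gcd_eq_zero_iff.mp h0).1
    exact (h₁.map φ).ne_zero this
  have hH1 : H ∣ g₁.map φ := EuclideanDomain.gcd_dvd_left _ _
  have hH2 : H ∣ g₂.map φ := EuclideanDomain.gcd_dvd_right _ _
  -- normalise
  set H' := H * C (leadingCoeff H)⁻¹ with hH'
  have hH'monic : H'.Monic := monic_mul_leadingCoeff_inv hHne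
  have hunit : IsUnit (C (leadingCoeff H)⁻¹ : Polynomial (LaurentSeries k)) :=
    isUnit_C.mpr (IsUnit.mk0 _ (inv_ne_zero (leadingCoeff_ne_zero.mpr hHne)))
  have hH'1 : H' ∣ g₁.map φ := (hunit.mul_right_dvd).mpr hH1
  have hH'2 : H' ∣ g₂.map φ := (hunit.mul_right_dvd).mpr hH2
  obtain ⟨h', hh'⟩ := IsIntegrallyClosed.eq_map_mul_C_of_dvd (LaurentSeries k) h₁ hH'1
  rw [hH'monic.leadingCoeff, map_one, mul_one] at hh'
  have hh'monic : h'.Monic := monic_of_injective hφinj (by rw [hh']; exact hH'monic)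
  have hd1 : h' ∣ g₁ := (map_dvd_map φ hφinj hh'monic).mp (by rw [hh']; exact hH'1)
  have hd2 : h' ∣ g₂ := (map_dvd_map φ hφinj hh'monic).mp (by rw [hh']; exact hH'2)
  -- reduce modulo the maximal ideal
  set ψ := PowerSeries.constantCoeff (R := k) with hψ
  have hb1 : h'.map ψ ∣ g₁.map ψ := Polynomial.map_dvd ψ hd1
  have hb2 : h'.map ψ ∣ X ^ g₂.natDegree := by
    rw [← map_constantCoeff_eq_X_pow g₂ h₂ hc₂]
    exact Polynomial.map_dvd ψ hd2
  have hbmonic : (h'.map ψ).Monic := hh'monic.map ψ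
  obtain ⟨i, _, hi⟩ := (dvd_prime_pow (prime_X (R := k)) _).mp hb2
  have hi0 : i = 0 := by
    by_contra hne
    have hX : (X : Polynomial k) ∣ h'.map ψ :=
      (dvd_pow_self X hne).trans hi.symm.dvd
    have := hX.trans hb1
    rw [X_dvd_iff, coeff_map] at this
    exact hc₁ this
  rw [hi0, pow_zero] at hi
  have hdeg0 : (h'.map ψ).natDegree = 0 := by
    have := natDegree_eq_of_degree_eq (degree_eq_degree_of_associated hi)
    simpa using this
  have hh'deg : h'.natDegree = 0 := by
    rw [← hdeg0, hh'monic.natDegree_map]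
  have hh'one : h' = 1 := by
    have := eq_C_of_natDegree_eq_zero hh'deg
    rw [this]
    have hc : h'.coeff 0 = 1 := by
      have := hh'monic.leadingCoeff
      rwa [leadingCoeff, hh'deg] at this
    rw [hc, C_1]
  have hH'one : H' = 1 := by rw [← hh', hh'one, Polynomial.map_one]
  have : IsUnit H' := by rw [hH'one]; exact isUnit_one
  exact (IsUnit.mul_iff.mp this).1

end Reduction

section GcdLemma

variable {F K : Type*} [Field F] [Field K] [Algebra F K]

/-- The gcd lemma: if `x` is a common root of `A` and `B` (polynomials over the subfield `F`)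
and the quotients of `A` and `B` by `X - x` are coprime over the big field, then `x ∈ F`. -/
theorem mem_range_of_common_root (A B : Polynomial F) (hA : A ≠ 0) (x : K)
    (hAx : (A.map (algebraMap F K)).IsRoot x) (hBx : (B.map (algebraMap F K)).IsRoot x)
    (hcop : IsCoprime ((A.map (algebraMap F K)) /ₘ (X - C x))
      ((B.map (algebraMap F K)) /ₘ (X - C x))) :
    x ∈ (algebraMap F K).range := by
  have hAx' : aeval x A = 0 := by
    rw [aeval_def, eval₂_eq_eval_map]; exact hAx
  have hBx' : aeval x B = 0 := by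
    rw [aeval_def, eval₂_eq_eval_map]; exact hBx
  have hint : IsIntegral F x := by
    refine ⟨A * C (leadingCoeff A)⁻¹, monic_mul_leadingCoeff_inv hA, ?_⟩
    rw [eval₂_mul, ← aeval_def, hAx', zero_mul]
  rw [← minpoly.natDegree_eq_one_iff]
  set μ := minpoly F x with hμ
  have hμA : μ ∣ A := minpoly.dvd F x hAx'
  have hμB : μ ∣ B := minpoly.dvd F x hBx'
  set φ := algebraMap F K with hφ
  have hμroot : (μ.map φ).IsRoot x := by
    have := minpoly.aeval F x
    rw [aeval_def, eval₂_eq_eval_map] at this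
    exact this
  have e1 := mul_divByMonic_eq_iff_isRoot.mpr hμroot
  have e2 := mul_divByMonic_eq_iff_isRoot.mpr hAx
  have e3 := mul_divByMonic_eq_iff_isRoot.mpr hBx
  have hne : (X - C x : Polynomial K) ≠ 0 := X_sub_C_ne_zero x
  have d1 : (μ.map φ) /ₘ (X - C x) ∣ (A.map φ) /ₘ (X - C x) := by
    have : μ.map φ ∣ A.map φ := Polynomial.map_dvd φ hμA
    rw [← e1, ← e2] at this
    exact (mul_dvd_mul_iff_left hne).mp this
  have d2 : (μ.map φ) /ₘ (X - C x) ∣ (B.map φ) /ₘ (X - C x) := by
    have : μ.map φ ∣ B.map φ := Polynomial.map_dvd φ hμB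
    rw [← e1, ← e3] at this
    exact (mul_dvd_mul_iff_left hne).mp this
  have hu : IsUnit ((μ.map φ) /ₘ (X - C x)) := hcop.isUnit_of_dvd' d1 d2
  have hdeg : (μ.map φ).natDegree = 1 := by
    rw [← e1, natDegree_mul hne hu.ne_zero, natDegree_X_sub_C, natDegree_eq_zero_of_isUnit hu]
  rwa [natDegree_map] at hdeg

end GcdLemma

end Fermat.Agent.S28.H988

end

end
-- ===== PACK-END S28/H988/Coprime.lean

-- ===== PACK-BEGIN A2/Mod/H816/L3Poly.lean
section


/-!
# A2 / MOD leaf L3, part 1 (helper816): a nonzero polynomial does not vanish at a polar series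

`eval₂_C_ne_zero_of_polar`: over a field `k`, if `U ∈ k((t))` has a pole of exact order `a > 0`
(`U.coeff n = 0` for `n < -a`, `U.coeff (-a) ≠ 0`) and `g ∈ k[X]` is nonzero, then `g(U) ≠ 0`;
more precisely the coefficient of `t^(-a·deg g)` in `g(U)` is `lc(g) · U.coeff(-a)^(deg g)`.
-/

set_option autoImplicit false

noncomputable section

namespace Fermat.Agent.A2.Mod.H816

open HahnSeries Polynomial

variable {k : Type*} [Field k]

/-- The order of a series with lowest term in degree `-a`. -/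
theorem order_eq_of_polar {U : LaurentSeries k} {a : ℤ}
    (h0 : ∀ n : ℤ, n < a → U.coeff n = 0) (h1 : U.coeff a ≠ 0) : U.order = a := by
  have hU : U ≠ 0 := by
    rintro rfl
    exact h1 (by simp)
  apply le_antisymm
  · exact order_le_of_coeff_ne_zero h1
  · by_contra hlt
    push Not at hlt
    exact (HahnSeries.coeff_order_eq_zero.not.mpr hU) (h0 _ hlt)

theorem ne_zero_of_polar {U : LaurentSeries k} {a : ℤ} (h1 : U.coeff a ≠ 0) : U ≠ 0 := by
  rintro rfl
  exact h1 (by simp)

/-- coefficients of powers of a series of order `a`. -/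
theorem coeff_pow_of_lt {U : LaurentSeries k} {a : ℤ}
    (h0 : ∀ n : ℤ, n < a → U.coeff n = 0) (h1 : U.coeff a ≠ 0) (i : ℕ) {n : ℤ}
    (hn : n < i * a) : (U ^ i).coeff n = 0 := by
  apply HahnSeries.coeff_eq_zero_of_lt_order
  rw [HahnSeries.order_pow, order_eq_of_polar h0 h1, nsmul_eq_mul]
  exact hn

/-- leading coefficient of powers of a series of order `a`. -/
theorem coeff_pow_order {U : LaurentSeries k} {a : ℤ}
    (h0 : ∀ n : ℤ, n < a → U.coeff n = 0) (h1 : U.coeff a ≠ 0) (i : ℕ) :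
    (U ^ i).coeff (i * a) = U.coeff a ^ i := by
  induction i with
  | zero => simp
  | succ i ih =>
    have hU := order_eq_of_polar h0 h1
    have hUi : (U ^ i).order = i * a := by
      rw [HahnSeries.order_pow, hU, nsmul_eq_mul]
    have key := HahnSeries.coeff_mul_order_add_order (U ^ i) U
    rw [HahnSeries.leadingCoeff_eq, HahnSeries.leadingCoeff_eq, hUi, hU, ih] at key
    rw [pow_succ, pow_succ]
    have : ((i + 1 : ℕ) : ℤ) * a = i * a + a := by push_cast; ring
    rw [this]
    exact key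

/-- **Non-vanishing at a polar series.** -/
theorem coeff_eval₂_C_of_polar {U : LaurentSeries k} {a : ℤ} (ha : a < 0)
    (h0 : ∀ n : ℤ, n < a → U.coeff n = 0) (h1 : U.coeff a ≠ 0) (g : k[X]) :
    (g.eval₂ (HahnSeries.C : k →+* LaurentSeries k) U).coeff (g.natDegree * a) =
      g.leadingCoeff * U.coeff a ^ g.natDegree := by
  rw [Polynomial.eval₂_eq_sum_range, HahnSeries.coeff_sum]
  rw [Finset.sum_eq_single g.natDegree]
  · rw [HahnSeries.C_mul_eq_smul, HahnSeries.coeff_smul, coeff_pow_order h0 h1, smul_eq_mul]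
    rfl
  · intro i hi hne
    have hlt : i < g.natDegree := by
      have := Finset.mem_range.mp hi
      omega
    rw [HahnSeries.C_mul_eq_smul, HahnSeries.coeff_smul, coeff_pow_of_lt h0 h1 i, smul_zero]
    have h2 : ((i : ℤ)) < (g.natDegree : ℤ) := by exact_mod_cast hlt
    nlinarith
  · intro h
    exact absurd (Finset.mem_range.mpr (Nat.lt_succ_self _)) h

theorem eval₂_C_ne_zero_of_polar {U : LaurentSeries k} {a : ℤ} (ha : a < 0)
    (h0 : ∀ n : ℤ, n < a → U.coeff n = 0) (h1 : U.coeff a ≠ 0) {g : k[X]} (hg : g ≠ 0) :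
    g.eval₂ (HahnSeries.C : k →+* LaurentSeries k) U ≠ 0 := by
  intro h
  have := coeff_eval₂_C_of_polar ha h0 h1 g
  rw [h, HahnSeries.coeff_zero] at this
  have h2 : g.leadingCoeff * U.coeff a ^ g.natDegree ≠ 0 :=
    mul_ne_zero (Polynomial.leadingCoeff_ne_zero.mpr hg) (pow_ne_zero _ h1)
  exact h2 this.symm

end Fermat.Agent.A2.Mod.H816

end

end
-- ===== PACK-END A2/Mod/H816/L3Poly.lean

-- ===== PACK-BEGIN S18/H876/Kummer.lean
section


/-!
# S18 / d2 : Kummer descent along an extension of degree prime to `m`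

`K` algebraically closed, `E ≤ F` intermediate fields of `Ω/K` with `[F : E]` finite and prime to
`m`.  If `y ∈ F` and `y ^ m ∈ E` then `y ∈ E`.
-/

set_option autoImplicit false

namespace Fermat.Agent.S18.H876

/-- Over an algebraically closed base field every root of unity of an extension field lies in
the base field. -/
theorem mem_range_algebraMap_of_pow_eq_one {K Ω : Type*} [Field K] [Field Ω] [Algebra K Ω]
    [IsAlgClosed K] {ζ : Ω} {m : ℕ} (hm : 0 < m) (h : ζ ^ m = 1) :
    ζ ∈ Set.range (algebraMap K Ω) := by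
  have hint : IsIntegral K ζ := by
    refine ⟨Polynomial.X ^ m - 1, Polynomial.monic_X_pow_sub_C (1 : K) hm.ne', ?_⟩
    simp [h]
  have hirr := minpoly.irreducible hint
  have hdeg := IsAlgClosed.degree_eq_one_of_irreducible K hirr
  have := (minpoly.degree_eq_one_iff (A := K) (x := ζ)).1 hdeg
  simpa using this

/-- **Kummer descent.**  -/
theorem mem_of_pow_mem_of_coprime {K Ω : Type*} [Field K] [Field Ω] [Algebra K Ω]
    [IsAlgClosed K] (E F : IntermediateField K Ω) (hEF : E ≤ F)
    [FiniteDimensional E (IntermediateField.extendScalars hEF)]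
    (m : ℕ) (hm : 0 < m)
    (hcop : (Module.finrank E (IntermediateField.extendScalars hEF)).Coprime m)
    (y : Ω) (hy : y ∈ F) (hym : y ^ m ∈ E) : y ∈ E := by
  classical
  rcases eq_or_ne y 0 with rfl | hy0
  · exact E.zero_mem
  set F' : IntermediateField E Ω := IntermediateField.extendScalars hEF with hF'
  set d : ℕ := Module.finrank E F' with hd
  have hyF' : y ∈ F' := (IntermediateField.mem_extendScalars hEF).2 hy
  set y' : F' := ⟨y, hyF'⟩ with hy'
  set n : E := Algebra.norm E y' with hn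
  -- norm of `y' ^ m`
  have h1 : y' ^ m = algebraMap E F' ⟨y ^ m, hym⟩ := by
    apply Subtype.ext
    simp [hy']
  haveI : Module.Free E F' := Module.Free.of_divisionRing E F'
  have h2 : n ^ m = (⟨y ^ m, hym⟩ : E) ^ d := by
    rw [hn, ← map_pow, h1, Algebra.norm_algebraMap]
  have h3 : (n : Ω) ^ m = (y ^ d) ^ m := by
    have := congrArg (fun e : E => (e : Ω)) h2
    simp only [SubmonoidClass.coe_pow] at this
    rw [this, ← pow_mul, ← pow_mul, mul_comm]
  -- the quotient is a root of unity, hence constant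
  have hyd0 : y ^ d ≠ 0 := pow_ne_zero _ hy0
  have hζ : ((n : Ω) / y ^ d) ^ m = 1 := by
    rw [div_pow, h3, div_self (pow_ne_zero _ hyd0)]
  obtain ⟨c, hc⟩ := mem_range_algebraMap_of_pow_eq_one (K := K) hm hζ
  have hcE : (n : Ω) / y ^ d ∈ E := by
    rw [← hc]
    exact E.algebraMap_mem c
  have hn0 : (n : Ω) ≠ 0 := by
    intro h0
    rw [h0, zero_div] at hζ
    rw [zero_pow hm.ne'] at hζ
    exact zero_ne_one hζ
  have hydE : y ^ d ∈ E := by
    have : y ^ d = (n : Ω) / ((n : Ω) / y ^ d) := by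
      field_simp
    rw [this]
    exact E.div_mem n.2 hcE
  -- Bezout
  have hbez : (d : ℤ) * Nat.gcdA d m + (m : ℤ) * Nat.gcdB d m = 1 := by
    have := Nat.gcd_eq_gcd_ab d m
    rw [Nat.Coprime.gcd_eq_one hcop] at this
    exact_mod_cast this.symm
  have hy1 : y = (y ^ d) ^ (Nat.gcdA d m) * (y ^ m) ^ (Nat.gcdB d m) := by
    rw [← zpow_natCast y d, ← zpow_natCast y m, ← zpow_mul, ← zpow_mul, ← zpow_add₀ hy0, hbez,
      zpow_one]
  rw [hy1]
  exact E.mul_mem (zpow_mem hydE _) (zpow_mem hym _)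

/-- **Kummer descent, tower form.**  `K ⊆ E ⊆ F` fields, `K` algebraically closed, `[F : E]`
finite and prime to `m`.  If `y ∈ F` and `y ^ m` comes from `E`, then `y` comes from `E`. -/
theorem exists_algebraMap_eq_of_pow_eq {K E F : Type*} [Field K] [Field E] [Field F]
    [Algebra K E] [Algebra E F] [Algebra K F] [IsScalarTower K E F]
    [IsAlgClosed K] [FiniteDimensional E F]
    (m : ℕ) (hm : 0 < m) (hcop : (Module.finrank E F).Coprime m)
    (y : F) (e : E) (hym : y ^ m = algebraMap E F e) : ∃ x : E, algebraMap E F x = y := by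
  classical
  rcases eq_or_ne y 0 with rfl | hy0
  · exact ⟨0, map_zero _⟩
  set d : ℕ := Module.finrank E F with hd
  set n : E := Algebra.norm E y with hn
  haveI : Module.Free E F := Module.Free.of_divisionRing E F
  have h2 : n ^ m = e ^ d := by
    rw [hn, ← map_pow, hym, Algebra.norm_algebraMap]
  have h3 : (algebraMap E F n) ^ m = (y ^ d) ^ m := by
    rw [← map_pow, h2, map_pow, ← hym, ← pow_mul, ← pow_mul, mul_comm]
  have hyd0 : y ^ d ≠ 0 := pow_ne_zero _ hy0
  have hζ : (algebraMap E F n / y ^ d) ^ m = 1 := by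
    rw [div_pow, h3, div_self (pow_ne_zero _ hyd0)]
  obtain ⟨c, hc⟩ := mem_range_algebraMap_of_pow_eq_one (K := K) hm hζ
  have hn0 : algebraMap E F n ≠ 0 := by
    intro h0
    rw [h0, zero_div, zero_pow hm.ne'] at hζ
    exact zero_ne_one hζ
  have hc0 : algebraMap K E c ≠ 0 := by
    intro h0
    have : algebraMap K F c = 0 := by
      rw [IsScalarTower.algebraMap_apply K E F, h0, map_zero]
    rw [this] at hc
    exact (div_ne_zero hn0 hyd0) hc.symm
  -- `y ^ d` comes from `E`
  have hydE : algebraMap E F (n / algebraMap K E c) = y ^ d := by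
    rw [map_div₀, ← IsScalarTower.algebraMap_apply K E F, hc]
    field_simp
  -- Bezout
  have hbez : (d : ℤ) * Nat.gcdA d m + (m : ℤ) * Nat.gcdB d m = 1 := by
    have := Nat.gcd_eq_gcd_ab d m
    rw [Nat.Coprime.gcd_eq_one hcop] at this
    exact_mod_cast this.symm
  refine ⟨(n / algebraMap K E c) ^ (Nat.gcdA d m) * e ^ (Nat.gcdB d m), ?_⟩
  rw [map_mul, map_zpow₀, map_zpow₀, hydE, ← hym, ← zpow_natCast y d, ← zpow_natCast y m,
    ← zpow_mul, ← zpow_mul, ← zpow_add₀ hy0, hbez, zpow_one]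

end Fermat.Agent.S18.H876

end
-- ===== PACK-END S18/H876/Kummer.lean

-- ===== PACK-BEGIN A2/Mod/H372/KronClosure.lean
section


/-!
# A2 / MODASM S3, abstract part (helper372): closure of a chart under the Kronecker twist

Mathlib-only.  Setting (residue-field form): `S` a ring (the Gauss valuation ring `V∞_M` of
level `M`), `A → S` a subring (the level-`M` chart), `κ` a reduced ring of characteristic `q`
(the residue field of a Gauss valuation ring of level `Mq`), `f g : S →+* κ` the reductions of the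
two degeneracy maps.

* `isIntegralElem_of_forall_exists` : integrality is inherited along an inclusion of ranges;
* `isIntegralElem_of_frobenius`     : `y ^ q` integral over `Frob ∘ f` ⟹ `y` integral over `f`;
* `exists_eq_pow_of_normal`         : **Kronecker closure**: if `g s = (f s') ^ q` is solvable in
  `S` (leaf L12), `A` is "normal in `S` modulo `ker f`" (`GoodRedAt.normal`), `A` is integral over
  a polynomial ring `R[y]` with `g = f` on `R` and `g y = (f y) ^ q`, then `g a = (f a') ^ q` is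
  solvable in `A` (`a ∈ A`);
* `exists_eq_of_normal`             : **residue degree one on the chart**: the same mechanism gives
  `ρ b = f a` for `b` in a chart `B` of level `Mq` (leaf L11).
-/

set_option autoImplicit false

namespace Fermat.Agent.A2.Mod.H372

open Polynomial

section Integral

variable {A C κ : Type*} [CommRing A] [CommRing C] [CommRing κ]

/-- Integrality with respect to `h` implies integrality with respect to `f` when the range of
`h` is contained in the range of `f`. -/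
theorem isIntegralElem_of_forall_exists (h : C →+* κ) (f : A →+* κ)
    (hr : ∀ c, ∃ a, f a = h c) {x : κ} (hx : h.IsIntegralElem x) : f.IsIntegralElem x := by
  obtain ⟨p, hp, hpx⟩ := hx
  have hlift : p.map h ∈ Polynomial.lifts f := by
    rw [Polynomial.lifts_iff_coeff_lifts]
    intro n
    rw [Polynomial.coeff_map]
    obtain ⟨a, ha⟩ := hr (p.coeff n)
    exact ⟨a, ha⟩
  obtain ⟨p', hp', -, hmon⟩ := Polynomial.lifts_and_natDegree_eq_and_monic hlift (hp.map h)
  refine ⟨p', hmon, ?_⟩
  rw [← Polynomial.eval_map, hp', Polynomial.eval_map, hpx]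

/-- Integrality is preserved by ring homomorphisms. -/
theorem isIntegralElem_map {B : Type*} [CommRing B] (j : C →+* A) (φ : A →+* B) {a : A}
    (ha : j.IsIntegralElem a) : (φ.comp j).IsIntegralElem (φ a) := by
  obtain ⟨p, hp, hpa⟩ := ha
  refine ⟨p, hp, ?_⟩
  rw [← Polynomial.hom_eval₂, hpa, map_zero]

/-- Frobenius descent of integrality. -/
theorem isIntegralElem_of_frobenius (q : ℕ) [ExpChar κ q] [IsReduced κ] (f : A →+* κ) {y : κ}
    (h : ((frobenius κ q).comp f).IsIntegralElem (y ^ q)) : f.IsIntegralElem y := by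
  obtain ⟨p, hp, hpy⟩ := h
  refine ⟨p, hp, ?_⟩
  have h1 : frobenius κ q (p.eval₂ f y) = 0 := by
    rw [Polynomial.hom_eval₂, frobenius_def, hpy]
  exact frobenius_inj κ q (by rw [h1, map_zero])

end Integral

section Closure

variable {R S A κ : Type*} [CommRing R] [CommRing S] [CommRing A] [CommRing κ]

/-- **Kronecker closure of the chart.** -/
theorem exists_eq_pow_of_normal (q : ℕ) [ExpChar κ q] [IsReduced κ]
    (f g : S →+* κ) (ι : A →+* S)
    (hnormal : ∀ s : S, (f.comp ι).IsIntegralElem (f s) → ∃ a : A, f s = f (ι a))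
    (hK : ∀ s : S, ∃ s' : S, g s = (f s') ^ q)
    (c : R →+* A) (y : A)
    (hint : ∀ a : A, (Polynomial.eval₂RingHom c y).IsIntegralElem a)
    (hc : ∀ r : R, g (ι (c r)) = f (ι (c r)))
    (hy : g (ι y) = (f (ι y)) ^ q) :
    ∀ a : A, ∃ a' : A, g (ι a) = (f (ι a')) ^ q := by
  -- constants
  have hconst : ∀ r : R, ∃ a : A, g (ι (c r)) = (f (ι a)) ^ q := by
    intro r
    obtain ⟨s', hs'⟩ := hK (ι (c r))
    have hint' : (f.comp ι).IsIntegralElem (f s') := by
      refine ⟨X ^ q - C (c r), ?_, ?_⟩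
      · exact Polynomial.monic_X_pow_sub_C _ (expChar_pos κ q).ne'
      · rw [Polynomial.eval₂_sub, Polynomial.eval₂_pow, Polynomial.eval₂_X, Polynomial.eval₂_C,
          RingHom.comp_apply, ← hs', hc, sub_self]
    obtain ⟨a, ha⟩ := hnormal s' hint'
    exact ⟨a, by rw [hs', ha]⟩
  -- polynomials
  have hpoly : ∀ p : Polynomial R, ∃ a : A,
      g (ι (Polynomial.eval₂RingHom c y p)) = (f (ι a)) ^ q := by
    intro p
    induction p using Polynomial.induction_on' with
    | add p₁ p₂ h₁ h₂ =>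
      obtain ⟨a₁, h₁⟩ := h₁
      obtain ⟨a₂, h₂⟩ := h₂
      refine ⟨a₁ + a₂, ?_⟩
      rw [map_add, map_add, map_add, h₁, h₂, map_add, map_add, add_pow_expChar]
    | monomial n r =>
      obtain ⟨a, ha⟩ := hconst r
      refine ⟨a * y ^ n, ?_⟩
      rw [Polynomial.coe_eval₂RingHom, Polynomial.eval₂_monomial, map_mul, map_mul, map_pow,
        map_pow, ha, hy, map_mul, map_mul, map_pow, map_pow, mul_pow, ← pow_mul, ← pow_mul,
        mul_comm q n]
  intro a
  obtain ⟨s', hs'⟩ := hK (ι a)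
  have h1 : ((g.comp ι).comp (Polynomial.eval₂RingHom c y)).IsIntegralElem (g (ι a)) :=
    isIntegralElem_map (Polynomial.eval₂RingHom c y) (g.comp ι) (hint a)
  have h2 : ((frobenius κ q).comp (f.comp ι)).IsIntegralElem ((f s') ^ q) := by
    rw [← hs']
    refine isIntegralElem_of_forall_exists _ _ (fun p => ?_) h1
    obtain ⟨a', ha'⟩ := hpoly p
    exact ⟨a', by
      rw [RingHom.comp_apply, RingHom.comp_apply, frobenius_def, RingHom.comp_apply,
        RingHom.comp_apply, ha']⟩
  obtain ⟨a', ha'⟩ := hnormal s' (isIntegralElem_of_frobenius q _ h2)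
  exact ⟨a', by rw [hs', ha']⟩

/-- **Residue degree one on the chart.** -/
theorem exists_eq_of_normal {B : Type*} [CommRing B]
    (f : S →+* κ) (ι : A →+* S)
    (hnormal : ∀ s : S, (f.comp ι).IsIntegralElem (f s) → ∃ a : A, f s = f (ι a))
    (ρ : B →+* κ) (hres : ∀ b : B, ∃ s : S, ρ b = f s)
    (c : R →+* B) (y : B)
    (hc : ∀ r : R, ∃ a : A, ρ (c r) = f (ι a))
    (hy : ∃ a : A, ρ y = f (ι a)) :
    ∀ b : B, (Polynomial.eval₂RingHom c y).IsIntegralElem b → ∃ a : A, ρ b = f (ι a) := by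
  have hpoly : ∀ p : Polynomial R, ∃ a : A, ρ (Polynomial.eval₂RingHom c y p) = f (ι a) := by
    intro p
    induction p using Polynomial.induction_on' with
    | add p₁ p₂ h₁ h₂ =>
      obtain ⟨a₁, h₁⟩ := h₁
      obtain ⟨a₂, h₂⟩ := h₂
      exact ⟨a₁ + a₂, by rw [map_add, map_add, h₁, h₂, map_add, map_add]⟩
    | monomial n r =>
      obtain ⟨a, ha⟩ := hc r
      obtain ⟨ay, hay⟩ := hy
      refine ⟨a * ay ^ n, ?_⟩
      rw [Polynomial.coe_eval₂RingHom, Polynomial.eval₂_monomial, map_mul, map_pow, ha, hay,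
        map_mul, map_mul, map_pow, map_pow]
  intro b hb
  obtain ⟨s, hs⟩ := hres b
  have h1 : (ρ.comp (Polynomial.eval₂RingHom c y)).IsIntegralElem (ρ b) :=
    isIntegralElem_map (Polynomial.eval₂RingHom c y) ρ hb
  have h2 : (f.comp ι).IsIntegralElem (f s) := by
    rw [← hs]
    refine isIntegralElem_of_forall_exists _ _ (fun p => ?_) h1
    obtain ⟨a, ha⟩ := hpoly p
    exact ⟨a, by rw [RingHom.comp_apply, RingHom.comp_apply, ha]⟩
  obtain ⟨a, ha⟩ := hnormal s h2
  exact ⟨a, by rw [hs, ha]⟩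

end Closure

end Fermat.Agent.A2.Mod.H372

end
-- ===== PACK-END A2/Mod/H372/KronClosure.lean

-- ===== PACK-BEGIN S28/H806/LemmaM.lean
section


set_option autoImplicit false
set_option linter.unusedSectionVars false
set_option linter.style.haveILetI false

noncomputable section

namespace Fermat.Agent.S28.H806

open Polynomial

section PrimePower

variable {P D : Type*} [CommRing P] [IsDomain P] [CommRing D] [IsDomain D]

/-- If `ell` generates the kernel of `red` and `red c ≠ 0`, then `u * c = v * ell ^ m`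
forces `ell ^ m ∣ u`. -/
theorem pow_dvd_of_mul_eq_mul_pow (red : P →+* D) (ell : P) (hell0 : ell ≠ 0)
    (hell : red ell = 0) (hker : ∀ u : P, red u = 0 → ell ∣ u) :
    ∀ (m : ℕ) (c : P), red c ≠ 0 → ∀ u v : P, u * c = v * ell ^ m → ell ^ m ∣ u := by
  intro m
  induction m with
  | zero => intro c _ u v _; simp
  | succ m ih =>
    intro c hc u v h
    have hu : red u = 0 := by
      have h1 := congrArg red h
      rw [map_mul, map_mul, map_pow, hell, pow_succ, mul_zero, mul_zero] at h1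
      rcases mul_eq_zero.mp h1 with h2 | h2
      · exact h2
      · exact absurd h2 hc
    obtain ⟨u', rfl⟩ := hker u hu
    have h' : u' * c = v * ell ^ m := by
      apply mul_left_cancel₀ hell0
      rw [← mul_assoc, h, pow_succ]; ring
    obtain ⟨w, hw⟩ := ih c hc u' v h'
    exact ⟨w, by rw [hw, pow_succ]; ring⟩

end PrimePower

section LemmaM

variable {P F D : Type*} [CommRing P] [IsDomain P] [IsIntegrallyClosed P]
  [Field F] [Algebra P F] [Module.IsTorsionFree P F] [CommRing D] [IsDomain D]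

/-- **Lemma M.**  Let `P` be an integrally closed domain, `ell ∈ P` a generator of the kernel of
`red : P → D`, and `s ∈ P` with `red s ≠ 0`.  If `ell • y` and `s • y` are integral over `P`, then
so is `y`. -/
theorem isIntegral_of_isIntegral_smul_of_isIntegral_smul (red : P →+* D) (ell s : P)
    (hell0 : ell ≠ 0) (hell : red ell = 0) (hker : ∀ u : P, red u = 0 → ell ∣ u)
    (hs : red s ≠ 0) (y : F) (h1 : IsIntegral P (ell • y)) (h2 : IsIntegral P (s • y)) :
    IsIntegral P y := by
  classical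
  have hs0 : s ≠ 0 := fun h => hs (by rw [h, map_zero])
  have e1 := IsIntegrallyClosed.minpoly_smul hs0 h1
  have e2 := IsIntegrallyClosed.minpoly_smul hell0 h2
  rw [smul_comm] at e1
  rw [e1] at e2
  set g := minpoly P (ell • y) with hg
  set h := minpoly P (s • y) with hh
  have hdeg : g.natDegree = h.natDegree := by
    have := congrArg Polynomial.natDegree e2
    rwa [natDegree_scaleRoots, natDegree_scaleRoots] at this
  set n := g.natDegree with hn
  have hdiv : ∀ i, ell ^ (n - i) ∣ g.coeff i := by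
    intro i
    have hc := congrArg (fun p => p.coeff i) e2
    simp only [coeff_scaleRoots] at hc
    rw [← hdeg] at hc
    exact pow_dvd_of_mul_eq_mul_pow red ell hell0 hell hker (n - i) (s ^ (n - i))
      (by rw [map_pow]; exact pow_ne_zero _ hs) (g.coeff i) (h.coeff i) hc
  choose a ha using hdiv
  have hgm : g.Monic := minpoly.monic h1
  have han : a n = 1 := by
    have := ha n
    rw [Nat.sub_self, pow_zero, one_mul] at this
    rw [← this]
    exact hgm.coeff_natDegree
  let f : P[X] := X ^ n + ∑ i ∈ Finset.range n, C (a i) * X ^ i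
  have hfm : f.Monic := by
    apply monic_X_pow_add
    rw [degree_lt_iff_coeff_zero]
    intro m hm
    rw [finsetSum_coeff]
    refine Finset.sum_eq_zero fun i hi => ?_
    rw [coeff_C_mul_X_pow, if_neg]
    have := Finset.mem_range.mp hi
    omega
  refine ⟨f, hfm, ?_⟩
  have hroot : aeval (ell • y) g = 0 := minpoly.aeval P (ell • y)
  rw [hgm.as_sum] at hroot
  have hell' : algebraMap P F ell ≠ 0 := by
    intro h0
    exact hell0 ((FaithfulSMul.algebraMap_injective P F) (by rw [h0, map_zero]))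
  have key : (algebraMap P F ell) ^ n * eval₂ (algebraMap P F) y f = 0 := by
    rw [← hroot]
    simp only [f, eval₂_add, eval₂_pow, eval₂_X, eval₂_finsetSum, eval₂_mul, eval₂_C,
      map_add, map_pow, aeval_X, map_sum, map_mul, aeval_C, Algebra.smul_def]
    rw [mul_add, Finset.mul_sum, mul_pow]
    congr 1
    refine Finset.sum_congr rfl fun i hi => ?_
    have hi' : i ≤ n := (Finset.mem_range.mp hi).le
    rw [ha i, map_mul, map_pow, mul_pow]
    have : (algebraMap P F ell) ^ n = (algebraMap P F ell) ^ (n - i) * (algebraMap P F ell) ^ i := by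
      rw [← pow_add, Nat.sub_add_cancel hi']
    rw [this]; ring
  rcases mul_eq_zero.mp key with h0 | h0
  · exact absurd h0 (pow_ne_zero _ hell')
  · exact h0

end LemmaM

end Fermat.Agent.S28.H806

end
end
-- ===== PACK-END S28/H806/LemmaM.lean

-- ===== PACK-BEGIN S18/H203/IntegralDiv.lean
section


/-!
# S18 / b1 (helper203): divisibility by a prime element in an integral closure

`S` an integrally closed domain with fraction field `K`, `w ∈ S` a prime element, `t ∈ S` with
`w ∤ t`, `F / K` a field extension.  If `w z` and `t z` are integral over `S` for some `z ∈ F`,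
then `z` is integral over `S`.

Consequence (`dvd_of_dvd_smul`): in the integral closure `B` of `S` in `F`,
`w ∣ t • b → w ∣ b`; i.e. `B / w B` is a torsion-free `S / w S`-module
(`(w, t)` is a regular sequence on `B`).
-/

set_option autoImplicit false

namespace Fermat.Agent.S18.H203

open Polynomial

section Prime

variable {S : Type*} [CommRing S] [IsDomain S]

/-- If `w` is prime, `w ∤ t` and `w ^ i ∣ t ^ i * a`, then `w ^ i ∣ a`. -/
theorem pow_dvd_of_pow_dvd_pow_mul {w t : S} (hw : Prime w) (ht : ¬ w ∣ t) (i j : ℕ) {a : S}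
    (h : w ^ i ∣ t ^ j * a) : w ^ i ∣ a :=
  hw.pow_dvd_of_dvd_mul_left i (fun h' => ht (hw.dvd_of_dvd_pow h')) h

end Prime

section Field

variable {S K : Type*} [CommRing S] [IsDomain S] [Field K] [Algebra S K] [IsFractionRing S K]

/-- An element `c` of the fraction field with `w ^ i * c ∈ S` and `t ^ i * c ∈ S`, where `w` is
prime and `w ∤ t`, lies in `S`. -/
theorem mem_range_of_pow_mul_mem {w t : S} (hw : Prime w) (ht : ¬ w ∣ t) (i : ℕ) (c : K)
    (h1 : algebraMap S K w ^ i * c ∈ (algebraMap S K).range)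
    (h2 : algebraMap S K t ^ i * c ∈ (algebraMap S K).range) :
    c ∈ (algebraMap S K).range := by
  obtain ⟨a, ha⟩ := h1
  obtain ⟨a', ha'⟩ := h2
  have hinj : Function.Injective (algebraMap S K) := IsFractionRing.injective S K
  have hw0 : algebraMap S K w ≠ 0 := by
    simpa using (map_ne_zero_iff _ hinj).mpr hw.ne_zero
  -- `t ^ i * a = w ^ i * a'`
  have hrel : t ^ i * a = w ^ i * a' := by
    apply hinj
    simp only [map_mul, map_pow, ha, ha']
    ring
  have hdvd : w ^ i ∣ a := pow_dvd_of_pow_dvd_pow_mul hw ht i i ⟨a', hrel⟩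
  obtain ⟨s, rfl⟩ := hdvd
  refine ⟨s, ?_⟩
  have h3 : algebraMap S K w ^ i * algebraMap S K s = algebraMap S K w ^ i * c := by
    rw [← ha, map_mul, map_pow]
  exact mul_left_cancel₀ (pow_ne_zero i hw0) h3

end Field

section Integral

variable {S K F : Type*} [CommRing S] [IsDomain S] [IsIntegrallyClosed S]
  [Field K] [Algebra S K] [IsFractionRing S K]
  [Field F] [Algebra K F] [Algebra S F] [IsScalarTower S K F]

omit [IsIntegrallyClosed S] [IsDomain S] [IsFractionRing S K] in
/-- A monic polynomial over `K` all of whose coefficients lie in `S` is the image of a monic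
polynomial over `S`. -/
theorem exists_monic_map_eq {P : K[X]} (hP : P.Monic)
    (hc : ∀ n, P.coeff n ∈ (algebraMap S K).range) :
    ∃ Q : S[X], Q.Monic ∧ Q.map (algebraMap S K) = P := by
  have hl : P ∈ Polynomial.lifts (algebraMap S K) := by
    rw [Polynomial.lifts_iff_coeff_lifts]
    intro n
    obtain ⟨a, ha⟩ := hc n
    exact ⟨a, ha⟩
  obtain ⟨Q, hQ, -, hQm⟩ := Polynomial.lifts_and_degree_eq_and_monic hl hP
  exact ⟨Q, hQm, hQ⟩

/-- The coefficients of the minimal polynomial over `K` of `a • z` (`a ∈ S` nonzero, `a • z`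
integral over `S`) : `coeff i * a ^ (d - i) ∈ S`. -/
theorem coeff_minpoly_mul_pow_mem {a : S} (ha : a ≠ 0) {z : F} (hz : IsIntegral K z)
    (haz : IsIntegral S (algebraMap S F a * z)) (i : ℕ) :
    (minpoly K z).coeff i * algebraMap S K a ^ ((minpoly K z).natDegree - i) ∈
      (algebraMap S K).range := by
  have hinj : Function.Injective (algebraMap S K) := IsFractionRing.injective S K
  have ha0 : algebraMap S K a ≠ 0 := by
    simpa using (map_ne_zero_iff _ hinj).mpr ha
  -- minimal polynomial of `a • z` over `K`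
  have h1 : minpoly K (algebraMap S K a • z) = (minpoly K z).scaleRoots (algebraMap S K a) :=
    IsIntegrallyClosed.minpoly_smul ha0 hz
  have h2 : algebraMap S K a • z = algebraMap S F a * z := by
    rw [Algebra.smul_def, ← IsScalarTower.algebraMap_apply]
  rw [h2] at h1
  have h3 : minpoly K (algebraMap S F a * z) =
      (minpoly S (algebraMap S F a * z)).map (algebraMap S K) :=
    minpoly.isIntegrallyClosed_eq_field_fractions' K haz
  have h4 : ((minpoly K z).scaleRoots (algebraMap S K a)).coeff i =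
      (minpoly K z).coeff i * algebraMap S K a ^ ((minpoly K z).natDegree - i) :=
    Polynomial.coeff_scaleRoots _ _ _
  rw [← h4, ← h1, h3, Polynomial.coeff_map]
  exact ⟨_, rfl⟩

/-- **Key lemma.**  If `w z` and `t z` are integral over the integrally closed domain `S`, where
`w` is a prime element and `w ∤ t`, then `z` is integral over `S`. -/
theorem isIntegral_of_isIntegral_mul (K : Type*) [Field K] [Algebra S K] [IsFractionRing S K]
    [Algebra K F] [IsScalarTower S K F] {w t : S} (hw : Prime w) (ht : ¬ w ∣ t) {z : F}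
    (h1 : IsIntegral S (algebraMap S F w * z)) (h2 : IsIntegral S (algebraMap S F t * z)) :
    IsIntegral S z := by
  have hinjK : Function.Injective (algebraMap S K) := IsFractionRing.injective S K
  have hw0 : algebraMap S K w ≠ 0 := by
    simpa using (map_ne_zero_iff _ hinjK).mpr hw.ne_zero
  have hwF : algebraMap S F w ≠ 0 := by
    rw [IsScalarTower.algebraMap_apply S K F]
    simpa using (map_ne_zero_iff _ (algebraMap K F).injective).mpr hw0
  have ht0 : t ≠ 0 := fun h => ht (h ▸ dvd_zero w)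
  -- `z` is integral (algebraic) over `K`
  have hzK : IsIntegral K z := by
    have h3 : IsIntegral K (algebraMap S F w * z) := h1.tower_top
    have h4 : IsIntegral K (algebraMap K F (algebraMap S K w)⁻¹) := isIntegral_algebraMap
    have h5 := h4.mul h3
    rw [map_inv₀, ← IsScalarTower.algebraMap_apply S K F, inv_mul_cancel_left₀ hwF] at h5
    exact h5
  -- all coefficients of the minimal polynomial lie in `S`
  have hcoeff : ∀ n, (minpoly K z).coeff n ∈ (algebraMap S K).range := by
    intro n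
    have e1 := coeff_minpoly_mul_pow_mem (K := K) hw.ne_zero hzK h1 n
    have e2 := coeff_minpoly_mul_pow_mem (K := K) ht0 hzK h2 n
    rw [mul_comm] at e1 e2
    exact mem_range_of_pow_mul_mem hw ht _ _ e1 e2
  obtain ⟨Q, hQm, hQ⟩ := exists_monic_map_eq (minpoly.monic hzK) hcoeff
  refine ⟨Q, hQm, ?_⟩
  have h6 : Polynomial.aeval z (Q.map (algebraMap S K)) = 0 := by
    rw [hQ]; exact minpoly.aeval K z
  rwa [Polynomial.aeval_map_algebraMap] at h6

end Integral

end Fermat.Agent.S18.H203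

end
-- ===== PACK-END S18/H203/IntegralDiv.lean

-- ===== PACK-BEGIN S18/B12/H693/RedBasis.lean
section
/-
S18 / Route K / b2, leaf P4 = `RedBasisStatement` (helper693).  Mathlib-only.

A finite torsion-free algebra `R₁` over a PID `R` has a family which is `R`-linearly independent
modulo nilpotents and spans `R₁` modulo nilpotents (`R₁ / nilradical` is finite free).
-/


set_option autoImplicit false

namespace Fermat.Agent.S18.B12.H693

open Module

/-- `R₁ / nilradical` is torsion-free over `R` if `R₁` is. -/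
theorem isTorsionFree_quotient_nilradical (R : Type*) [CommRing R] [IsDomain R]
    (R₁ : Type*) [CommRing R₁] [Algebra R R₁] [Module.IsTorsionFree R R₁] :
    Module.IsTorsionFree R (R₁ ⧸ nilradical R₁) := by
  rw [Module.isTorsionFree_iff_smul_eq_zero]
  intro r m hrm
  by_cases hr : r = 0
  · exact Or.inl hr
  right
  obtain ⟨x, rfl⟩ := Ideal.Quotient.mk_surjective m
  have h1 : Ideal.Quotient.mk (nilradical R₁) (r • x) = 0 := by
    rw [← hrm]; rfl
  rw [Ideal.Quotient.eq_zero_iff_mem, mem_nilradical] at h1 ⊢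
  obtain ⟨k, hk⟩ := h1
  refine ⟨k, ?_⟩
  rw [smul_pow] at hk
  exact (smul_eq_zero.mp hk).resolve_left (pow_ne_zero k hr)

/-- **P4 (reduced basis)**, explicit form of `Fermat.Agent.S18.B12.RedBasisStatement`. -/
theorem exists_redBasis (R : Type*) [CommRing R] [IsDomain R] [IsPrincipalIdealRing R]
    (R₁ : Type*) [CommRing R₁] [Algebra R R₁] [Module.Finite R R₁] [Module.IsTorsionFree R R₁] :
    ∃ (r : ℕ) (y : Fin r → R₁),
      (∀ a : Fin r → R, IsNilpotent (∑ i, a i • y i) → a = 0) ∧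
      (∀ x : R₁, ∃ a : Fin r → R, IsNilpotent (x - ∑ i, a i • y i)) := by
  classical
  have htf : Module.IsTorsionFree R (R₁ ⧸ nilradical R₁) :=
    isTorsionFree_quotient_nilradical R R₁
  have hfin : Module.Finite R (R₁ ⧸ nilradical R₁) :=
    Module.Finite.of_surjective (Ideal.Quotient.mkₐ R (nilradical R₁)).toLinearMap
      (Ideal.Quotient.mkₐ_surjective R (nilradical R₁))
  have hfree : Module.Free R (R₁ ⧸ nilradical R₁) := Module.free_of_finite_type_torsion_free'
  let bQ : Basis (Fin (finrank R (R₁ ⧸ nilradical R₁))) R (R₁ ⧸ nilradical R₁) :=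
    Module.finBasis R _
  choose y hy using fun i => Ideal.Quotient.mk_surjective (bQ i)
  have hsum : ∀ a : Fin (finrank R (R₁ ⧸ nilradical R₁)) → R,
      Ideal.Quotient.mk (nilradical R₁) (∑ i, a i • y i) = ∑ i, a i • bQ i := by
    intro a
    rw [map_sum]
    refine Finset.sum_congr rfl fun i _ => ?_
    rw [← hy i]
    rfl
  refine ⟨_, y, ?_, ?_⟩
  · intro a ha
    have h0 : ∑ i, a i • bQ i = 0 := by
      rw [← hsum, Ideal.Quotient.eq_zero_iff_mem, mem_nilradical]
      exact ha
    have := (Fintype.linearIndependent_iff.mp bQ.linearIndependent) a h0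
    exact funext this
  · intro x
    refine ⟨fun i => bQ.repr (Ideal.Quotient.mk (nilradical R₁) x) i, ?_⟩
    rw [← mem_nilradical, ← Ideal.Quotient.eq_zero_iff_mem, map_sub, hsum, bQ.sum_repr, sub_self]

end Fermat.Agent.S18.B12.H693

end
-- ===== PACK-END S18/B12/H693/RedBasis.lean

-- ===== PACK-BEGIN S18/H274/DetRank.lean
section


/-!
# S18 / b2 (helper274) — DET-RANK

Mathlib-only linear algebra.  `R` a commutative ring, `π : R →+* K` a surjection onto a field
whose kernel is contained in `(t)`.  If the reduction `M.map π` of a square matrix `M` kills `s`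
linearly independent vectors, then `t ^ s ∣ det M`.

Main statements (all sorry-free):

* `pow_card_dvd_det_of_col_dvd` : columns in a finset `S` divisible by `t`  ⇒ `t ^ #S ∣ det`.
* `pow_dvd_det_of_linearIndependent_ker` : the elementwise kernel form.
* `pow_sub_rank_dvd_det` : `t ^ (card n - rank (M.map π)) ∣ det M`.
-/

namespace Fermat.Agent.S18.H274

open Matrix Module

variable {R : Type*} [CommRing R]

/-- If all columns with index in `S` of a square matrix are divisible by `t`, then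
`t ^ #S` divides the determinant. -/
theorem pow_card_dvd_det_of_col_dvd {n : Type*} [Fintype n] [DecidableEq n]
    (t : R) (N : Matrix n n R) (S : Finset n) (h : ∀ j ∈ S, ∀ i, t ∣ N i j) :
    t ^ S.card ∣ N.det := by
  classical
  choose! Q hQ using h
  let Q' : Matrix n n R := fun i j => if j ∈ S then Q j i else N i j
  let d : n → R := fun j => if j ∈ S then t else 1
  have hN : N = Q' * Matrix.diagonal d := by
    ext i j
    rw [Matrix.mul_diagonal]
    by_cases hj : j ∈ S
    · simp only [Q', d, hj, if_true]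
      rw [hQ j hj i, mul_comm]
    · simp [Q', d, hj]
  have hd : ∏ j, d j = t ^ S.card := by
    simp only [d]
    rw [Finset.prod_ite_mem, Finset.univ_inter, Finset.prod_const]
  rw [hN, Matrix.det_mul, Matrix.det_diagonal, hd]
  exact Dvd.intro_left _ rfl

/-- **DET-RANK, kernel form.**  `π : R →+* K` a surjection onto a field with `ker π ⊆ (t)`.
If the reduced matrix `M.map π` kills `s` linearly independent vectors then `t ^ s ∣ det M`. -/
theorem pow_dvd_det_of_linearIndependent_ker {K : Type*} [Field K] (π : R →+* K)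
    (hπ : Function.Surjective π) (t : R) (hker : ∀ x, π x = 0 → t ∣ x)
    {n : Type*} [Fintype n] [DecidableEq n] (M : Matrix n n R) {s : ℕ}
    (v : Fin s → n → K) (hv : LinearIndependent K v)
    (hMv : ∀ a, (M.map π).mulVec (v a) = 0) :
    t ^ s ∣ M.det := by
  classical
  -- extend `v` to a basis of `n → K`
  have hs := hv.linearIndepOn_id
  let B := Basis.extend hs
  have hB : ∀ x, B x = (x : n → K) := fun x => by rw [Basis.coe_extend]
  have hsub : Set.range v ⊆ hs.extend (Set.subset_univ _) := hs.subset_extend _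
  let _ : Fintype (hs.extend (Set.subset_univ (Set.range v))) :=
    FiniteDimensional.fintypeBasisIndex B
  let e : n ≃ (hs.extend (Set.subset_univ (Set.range v))) := (Pi.basisFun K n).indexEquiv B
  -- the matrix of the new basis and a lift
  let Pbar : Matrix n n K := fun i j => (e j : n → K) i
  have hPbar_unit : IsUnit Pbar.det := by
    rw [← Matrix.isUnit_iff_isUnit_det, ← Matrix.linearIndependent_cols_iff_isUnit]
    have h1 : LinearIndependent K (fun j => B (e j)) :=
      B.linearIndependent.comp e e.injective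
    have h2 : Pbar.col = fun j => B (e j) := by
      funext j
      rw [hB]
      rfl
    rw [h2]
    exact h1
  let P : Matrix n n R := fun i j => Classical.choose (hπ (Pbar i j))
  have hP : P.map π = Pbar := by
    ext i j
    exact Classical.choose_spec (hπ (Pbar i j))
  -- the set of columns coming from `v`
  let S : Finset n := Finset.univ.image (fun a : Fin s => e.symm ⟨v a, hsub ⟨a, rfl⟩⟩)
  have hScard : S.card = s := by
    rw [Finset.card_image_of_injective]
    · simp
    · intro a a' h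
      have := e.symm.injective h
      exact hv.injective (Subtype.mk.inj this)
  have hcol : ∀ j ∈ S, ∀ i, t ∣ (M * P) i j := by
    intro j hj i
    obtain ⟨a, -, rfl⟩ := Finset.mem_image.mp hj
    apply hker
    rw [RingHom.map_matrix_mul, hP]
    have h3 := congrFun (hMv a) i
    simp only [Matrix.mulVec, dotProduct, Pi.zero_apply] at h3
    rw [Matrix.mul_apply]
    simp only [Pbar, Equiv.apply_symm_apply]
    exact h3
  have h4 := pow_card_dvd_det_of_col_dvd t (M * P) S hcol
  rw [hScard, Matrix.det_mul] at h4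
  -- `det P` is coprime to `t`
  have hdetP : π P.det = Pbar.det := by
    rw [RingHom.map_det, RingHom.mapMatrix_apply, hP]
  obtain ⟨y, hy⟩ := hπ (↑hPbar_unit.unit⁻¹ : K)
  have h5 : π (y * P.det - 1) = 0 := by
    rw [map_sub, map_mul, hy, hdetP, map_one, sub_eq_zero]
    exact hPbar_unit.val_inv_mul
  obtain ⟨z, hz⟩ := hker _ h5
  have hcop : IsCoprime t P.det := ⟨-z, y, by linear_combination hz⟩
  exact (hcop.pow_left).dvd_of_dvd_mul_right h4

/-- **DET-RANK, rank form.**  `t ^ (card n - rank (M mod t)) ∣ det M`. -/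
theorem pow_sub_rank_dvd_det {K : Type*} [Field K] (π : R →+* K)
    (hπ : Function.Surjective π) (t : R) (hker : ∀ x, π x = 0 → t ∣ x)
    {n : Type*} [Fintype n] [DecidableEq n] (M : Matrix n n R) :
    t ^ (Fintype.card n - (M.map π).rank) ∣ M.det := by
  classical
  let f := (M.map π).mulVecLin
  have hrn := LinearMap.finrank_range_add_finrank_ker f
  have hrank : (M.map π).rank = finrank K (LinearMap.range f) := rfl
  have hcard : finrank K (n → K) = Fintype.card n := Module.finrank_fintype_fun_eq_card K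
  have hk : finrank K (LinearMap.ker f) = Fintype.card n - (M.map π).rank := by
    rw [hrank]; omega
  let b := Module.finBasis K (LinearMap.ker f)
  rw [← hk]
  refine pow_dvd_det_of_linearIndependent_ker π hπ t hker M
    (fun a => ((b a : LinearMap.ker f) : n → K)) ?_ ?_
  · have := b.linearIndependent
    exact this.map' (LinearMap.ker f).subtype (Submodule.ker_subtype _)
  · intro a
    have := (b a).2
    rw [LinearMap.mem_ker] at this
    exact this

end Fermat.Agent.S18.H274

end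
-- ===== PACK-END S18/H274/DetRank.lean

-- ===== PACK-BEGIN S18/B12/H84/IntClosed.lean
section


/-!
# S18 / b2.5 / A8 (helper84): normality from the discriminant bounds

`intClosedOfDiscr_of_sfLattice : SFLatticeHyp → (IntClosedOfDiscrStatement, unfolded)`,
Mathlib-only; `SFLatticeHyp` is a verbatim copy of `SFLatticeStatement` of `origin/helper33`
`Fermat/Agent/S18/B12/Spec.lean`.  The `Spec`-typed wrapper
`SFLatticeStatement → IntClosedOfDiscrStatement` is `Fermat/Agent/S18/B12/H84/Stmt.lean`.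

`Λ` a PID, `C` a domain, free of rank `n` over `Λ` with `disc ≠ 0`, such that at every prime `t`
of `Λ` the reduced fibre `(C/tC)_red` is spanned by `s` elements and `t ^ (n - s + 1) ∤ disc`.
Then `C` is integrally closed.

Proof: for `f ∈ Frac C` integral over `C`, the ring `C[f]` is a free `Λ`-module of rank `n`
containing `C`; Theorem L (`SFLatticeStatement`) gives for every prime `t` a denominator
`g ∉ (t)` with `g f ∈ C`; the ideal of denominators of `f` contains a nonzero element and lies in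
no maximal ideal of the PID `Λ`, so it is the unit ideal.
-/

set_option autoImplicit false

namespace Fermat.Agent.S18.B12.H84

universe u v

/-- In a PID, an ideal containing a nonzero element and, for every prime `t`, an element not
divisible by `t`, is the unit ideal. -/
theorem ideal_eq_top_of_forall_prime {Λ : Type u} [CommRing Λ] [IsDomain Λ]
    [IsPrincipalIdealRing Λ] (I : Ideal Λ) (h0 : ∃ d ∈ I, d ≠ 0)
    (h : ∀ t : Λ, Prime t → ∃ g ∈ I, ¬ t ∣ g) : I = ⊤ := by
  by_contra hI
  obtain ⟨𝔭, h𝔭, hle⟩ := Ideal.exists_le_maximal I hI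
  have hgen : Ideal.span {Submodule.IsPrincipal.generator 𝔭} = 𝔭 :=
    Ideal.span_singleton_generator 𝔭
  set t := Submodule.IsPrincipal.generator 𝔭 with ht_def
  by_cases ht : t = 0
  · obtain ⟨d, hd, hd0⟩ := h0
    have h1 : d ∈ 𝔭 := hle hd
    rw [← hgen, ht, Ideal.mem_span_singleton, zero_dvd_iff] at h1
    exact hd0 h1
  · have hp : Prime t := by
      rw [← Ideal.span_singleton_prime ht, hgen]
      exact h𝔭.isPrime
    obtain ⟨g, hg, hgt⟩ := h t hp
    have h1 : g ∈ 𝔭 := hle hg
    rw [← hgen, Ideal.mem_span_singleton] at h1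
    exact hgt h1

/-- Every element of the fraction field of a domain `C` algebraic over `Λ` has a nonzero
denominator in `Λ`. -/
theorem exists_smul_mem_range {Λ : Type u} [CommRing Λ] [IsDomain Λ] {C : Type v} [CommRing C]
    [IsDomain C] [Algebra Λ C] [Algebra.IsAlgebraic Λ C] (x : FractionRing C) :
    ∃ d : Λ, d ≠ 0 ∧ ∃ c : C, d • x = algebraMap C (FractionRing C) c := by
  obtain ⟨a, b, hb, rfl⟩ := IsFractionRing.div_surjective C x
  have hb0 : b ≠ 0 := nonZeroDivisors.ne_zero hb
  obtain ⟨r, hr, c, hc⟩ := (Algebra.IsAlgebraic.isAlgebraic (R := Λ) b).exists_nonzero_dvd hb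
  refine ⟨r, hr, c * a, ?_⟩
  have hbK : algebraMap C (FractionRing C) b ≠ 0 := by
    intro h
    exact hb0 ((IsFractionRing.injective C (FractionRing C)) (h.trans (map_zero _).symm))
  rw [Algebra.smul_def, IsScalarTower.algebraMap_apply Λ C (FractionRing C), hc, map_mul, map_mul]
  field_simp

/-- Verbatim copy of `B12.SFLatticeStatement` (Theorem L, two-lattice form). -/
def SFLatticeHyp : Prop :=
  ∀ (Λ : Type u) [CommRing Λ] [IsDomain Λ] [IsPrincipalIdealRing Λ] (t : Λ) (_ : Prime t)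
    (L : Type v) [CommRing L] [Algebra Λ L] (C Ct : Subalgebra Λ L) (_ : C ≤ Ct)
    (n : ℕ) (b : Module.Basis (Fin n) Λ C) (_ : Module.Basis (Fin n) Λ Ct)
    (s : ℕ) (y : Fin s → C)
    (_ : ∀ x : C, ∃ a : Fin s → Λ,
        x - ∑ i, a i • y i ∈ (Ideal.span {algebraMap Λ C t}).radical),
    Algebra.discr Λ b ≠ 0 → ¬ t ^ (n - s + 1) ∣ Algebra.discr Λ b →
    ∀ x ∈ Ct, ∃ g : Λ, ¬ t ∣ g ∧ g • x ∈ C

/-- **A8** from Theorem L: `SFLatticeStatement → IntClosedOfDiscrStatement` (unfolded). -/
theorem intClosedOfDiscr_of_sfLattice (hSF : SFLatticeHyp.{u, v})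
    (Λ : Type u) [CommRing Λ] [IsDomain Λ] [IsPrincipalIdealRing Λ]
    (C : Type v) [CommRing C] [IsDomain C] [Algebra Λ C] (n : ℕ) (b : Module.Basis (Fin n) Λ C)
    (hdisc : Algebra.discr Λ b ≠ 0)
    (hbound : ∀ t : Λ, Prime t → ∃ (s : ℕ) (y : Fin s → C),
      (∀ c : C, ∃ a : Fin s → Λ,
        c - ∑ i, a i • y i ∈ (Ideal.span {algebraMap Λ C t}).radical) ∧
      ¬ t ^ (n - s + 1) ∣ Algebra.discr Λ b) :
    IsIntegrallyClosed C := by
  classical
  have : Module.Free Λ C := Module.Free.of_basis b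
  have : Module.Finite Λ C := Module.Finite.of_basis b
  have hinj : Function.Injective (algebraMap Λ C) := FaithfulSMul.algebraMap_injective Λ C
  have : Algebra.IsIntegral Λ C := Algebra.IsIntegral.of_finite Λ C
  have : Algebra.IsAlgebraic Λ C := Algebra.IsIntegral.isAlgebraic
  have hinjK : Function.Injective (algebraMap Λ (FractionRing C)) := by
    rw [IsScalarTower.algebraMap_eq Λ C (FractionRing C)]
    exact (IsFractionRing.injective C (FractionRing C)).comp hinj
  have htfK : Module.IsTorsionFree Λ (FractionRing C) := by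
    refine Module.IsTorsionFree.of_smul_eq_zero fun r m hrm => ?_
    rw [Algebra.smul_def, mul_eq_zero] at hrm
    rcases hrm with h | h
    · exact Or.inl (hinjK (h.trans (map_zero _).symm))
    · exact Or.inr h
  refine (isIntegrallyClosed_iff (FractionRing C)).mpr fun {f} hf => ?_
  have hfΛ : IsIntegral Λ f := isIntegral_trans f hf
  -- the two lattices
  let φ : C →ₐ[Λ] FractionRing C := IsScalarTower.toAlgHom Λ C (FractionRing C)
  have hφ : Function.Injective φ := IsFractionRing.injective C (FractionRing C)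
  let e : C ≃ₐ[Λ] φ.range := AlgEquiv.ofInjective φ hφ
  have hle : φ.range ≤ φ.range ⊔ Algebra.adjoin Λ {f} := le_sup_left
  have hfCt : f ∈ φ.range ⊔ Algebra.adjoin Λ {f} :=
    (le_sup_right : Algebra.adjoin Λ {f} ≤ φ.range ⊔ Algebra.adjoin Λ {f})
      (Algebra.self_mem_adjoin_singleton Λ f)
  have : Module.Finite Λ φ.range := Module.Finite.equiv e.toLinearEquiv
  have : Module.Finite Λ (Algebra.adjoin Λ {f}) :=
    Module.Finite.iff_fg.mpr hfΛ.fg_adjoin_singleton
  have hfinCt : Module.Finite Λ ↥(φ.range ⊔ Algebra.adjoin Λ {f}) := Subalgebra.finite_sup _ _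
  have : Module.IsTorsionFree Λ ↥(φ.range ⊔ Algebra.adjoin Λ {f}) :=
    Function.Injective.moduleIsTorsionFree
      (fun z : ↥(φ.range ⊔ Algebra.adjoin Λ {f}) => (z : FractionRing C))
      Subtype.val_injective (fun _ _ => rfl)
  have : Module.Free Λ ↥(φ.range ⊔ Algebra.adjoin Λ {f}) :=
    Module.free_of_finite_type_torsion_free'
  have hrank0 : Module.finrank Λ φ.range = n := by
    rw [← e.toLinearEquiv.finrank_eq, Module.finrank_eq_card_basis b, Fintype.card_fin]
  -- a common denominator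
  have hd : ∃ d : Λ, d ≠ 0 ∧ ∀ x ∈ φ.range ⊔ Algebra.adjoin Λ {f}, d • x ∈ φ.range := by
    have hfg : (Subalgebra.toSubmodule (φ.range ⊔ Algebra.adjoin Λ {f})).FG :=
      Module.Finite.iff_fg.mp hfinCt
    obtain ⟨S, hS⟩ := hfg
    choose dx hdx0 cx hcx using fun x : FractionRing C => exists_smul_mem_range (Λ := Λ) x
    refine ⟨∏ x ∈ S, dx x, Finset.prod_ne_zero_iff.mpr fun x _ => hdx0 x, fun x hx => ?_⟩
    have hx' : x ∈ Submodule.span Λ (S : Set (FractionRing C)) := by
      rw [hS]; exact hx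
    refine Submodule.span_induction (p := fun z _ => (∏ x ∈ S, dx x) • z ∈ φ.range)
      ?_ ?_ ?_ ?_ hx'
    · intro z hz
      have hzS : z ∈ S := hz
      rw [← Finset.mul_prod_erase S dx hzS, mul_comm, mul_smul, hcx z]
      have hmem : algebraMap C (FractionRing C) (cx z) ∈ φ.range := ⟨cx z, rfl⟩
      exact Subalgebra.smul_mem _ hmem _
    · rw [smul_zero]; exact Subalgebra.zero_mem _
    · intro y z _ _ hy hz
      rw [smul_add]; exact Subalgebra.add_mem _ hy hz
    · intro a y _ hy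
      rw [smul_comm]; exact Subalgebra.smul_mem _ hy _
  obtain ⟨d, hd0, hd⟩ := hd
  have hrank : Module.finrank Λ ↥(φ.range ⊔ Algebra.adjoin Λ {f}) = n := by
    apply le_antisymm
    · rw [← hrank0]
      let μ : ↥(φ.range ⊔ Algebra.adjoin Λ {f}) →ₗ[Λ] φ.range :=
        { toFun := fun z => ⟨d • (z : FractionRing C), hd z z.2⟩
          map_add' := fun y z => Subtype.ext (smul_add d (y : FractionRing C) z)
          map_smul' := fun a z => Subtype.ext (smul_comm d a (z : FractionRing C)) }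
      have hμ : Function.Injective μ := by
        intro y z hyz
        have h1 : d • (y : FractionRing C) = d • (z : FractionRing C) :=
          congrArg Subtype.val hyz
        exact Subtype.ext (smul_right_injective (FractionRing C) hd0 h1)
      exact LinearMap.finrank_le_finrank_of_injective hμ
    · rw [← hrank0]
      exact LinearMap.finrank_le_finrank_of_injective
        (f := (Subalgebra.inclusion hle).toLinearMap) (Subalgebra.inclusion_injective hle)
  let bt : Module.Basis (Fin n) Λ ↥(φ.range ⊔ Algebra.adjoin Λ {f}) :=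
    Module.finBasisOfFinrankEq Λ _ hrank
  let b₀ : Module.Basis (Fin n) Λ φ.range := b.map e.toLinearEquiv
  have hdisc₀ : Algebra.discr Λ b₀ = Algebra.discr Λ b := by
    rw [Algebra.discr_eq_discr_of_algEquiv b e]
    congr 1
  -- the ideal of denominators
  let I : Ideal Λ :=
    { carrier := {g | g • f ∈ φ.range}
      add_mem' := fun {g h} hg hh => by
        change (g + h) • f ∈ φ.range
        rw [add_smul]; exact Subalgebra.add_mem _ hg hh
      zero_mem' := by
        change (0 : Λ) • f ∈ φ.range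
        rw [zero_smul]; exact Subalgebra.zero_mem _
      smul_mem' := fun a g hg => by
        change (a • g) • f ∈ φ.range
        rw [smul_assoc]; exact Subalgebra.smul_mem _ hg _ }
  have hI : I = ⊤ := by
    refine ideal_eq_top_of_forall_prime I ⟨d, hd f hfCt, hd0⟩ fun t ht => ?_
    obtain ⟨s, y, hy, hnd⟩ := hbound t ht
    have hy₀ : ∀ x : φ.range, ∃ a : Fin s → Λ,
        x - ∑ i, a i • e (y i) ∈ (Ideal.span {algebraMap Λ φ.range t}).radical := by
      intro x
      obtain ⟨a, ha⟩ := hy (e.symm x)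
      refine ⟨a, ?_⟩
      obtain ⟨k, hk⟩ := ha
      obtain ⟨z, hz⟩ := Ideal.mem_span_singleton'.mp hk
      refine ⟨k, Ideal.mem_span_singleton'.mpr ⟨e z, ?_⟩⟩
      have h1 := congrArg e hz
      rw [map_mul, map_pow, map_sub, map_sum, AlgEquiv.apply_symm_apply, AlgEquiv.commutes] at h1
      rw [h1]
      congr 2
      exact Finset.sum_congr rfl fun i _ => map_smul e (a i) (y i)
    obtain ⟨g, hgt, hg⟩ := hSF Λ t ht (FractionRing C) φ.range (φ.range ⊔ Algebra.adjoin Λ {f})
      hle n b₀ bt s (fun i => e (y i)) hy₀ (hdisc₀ ▸ hdisc) (hdisc₀ ▸ hnd) f hfCt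
    exact ⟨g, hg, hgt⟩
  have h1 : (1 : Λ) ∈ I := by rw [hI]; exact Submodule.mem_top
  have h2 : (1 : Λ) • f ∈ φ.range := h1
  rw [one_smul] at h2
  obtain ⟨c, hc⟩ := h2
  exact ⟨c, hc⟩

end Fermat.Agent.S18.B12.H84

end
-- ===== PACK-END S18/B12/H84/IntClosed.lean

-- ===== PACK-BEGIN S37/H278/AdaptedBasis.lean
section


/-!
# S37 / S18, piece b2-core (helper278): adapted bases over a local ring

`M` finite free over a local ring `o`, `I ≤ M` a submodule with `I + span(u_1..u_s) = M`,
`z ∈ I` with `z ∉ 𝔪 M`.  Then `M` has a basis containing `z`, all of whose members except at most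
`s` lie in `I`.
-/

set_option autoImplicit false
set_option linter.style.haveILetI false
set_option linter.unusedSectionVars false

namespace Fermat.Agent.S37.H278

open Module TensorProduct

universe u v

theorem exists_adapted_basis {o : Type u} {M : Type v} [CommRing o] [IsLocalRing o]
    [AddCommGroup M] [Module o M] [Module.Free o M] [Module.Finite o M]
    (I : Submodule o M) (z : M) (hzI : z ∈ I)
    (hz : z ∉ (IsLocalRing.maximalIdeal o • ⊤ : Submodule o M))
    (s : ℕ) (u : Fin s → M) (hu : I ⊔ Submodule.span o (Set.range u) = ⊤) :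
    ∃ (ι : Type (max u v)) (_ : Fintype ι) (_ : DecidableEq ι) (b : Basis ι o M)
      (Z : Finset ι) (i₀ : ι),
      i₀ ∈ Z ∧ b i₀ = z ∧ (∀ i ∈ Z, b i ∈ I) ∧ Fintype.card ι ≤ Z.card + s := by
  classical
  let κ := IsLocalRing.ResidueField o
  let V := κ ⊗[o] M
  let π : M →ₗ[o] V := TensorProduct.mk o κ M 1
  have hπsurj : Function.Surjective π :=
    TensorProduct.mk_surjective o M κ Ideal.Quotient.mk_surjective
  have hπz : π z ≠ 0 := by
    intro h0
    apply hz
    rw [← LinearMap.ker_tensorProductMk]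
    exact h0
  -- step 1 : maximal independent subset of π '' I containing π z
  have hs0 : LinearIndepOn κ id ({π z} : Set V) := by
    rw [linearIndepOn_singleton_iff]
    exact hπz
  have hsub0 : ({π z} : Set V) ⊆ π '' (I : Set M) :=
    Set.singleton_subset_iff.mpr ⟨z, hzI, rfl⟩
  obtain ⟨B₁, hB₁sub, hzB₁, hspanB₁, hB₁li⟩ := exists_linearIndepOn_id_extension hs0 hsub0
  -- step 2 : extend by images of the u's
  set t' : Set V := B₁ ∪ π '' (Set.range u) with ht'def
  have hst : B₁ ⊆ t' := Set.subset_union_left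
  have ht' : ⊤ ≤ Submodule.span κ t' := by
    intro x _
    obtain ⟨m, rfl⟩ := hπsurj x
    have hm : m ∈ I ⊔ Submodule.span o (Set.range u) := by rw [hu]; trivial
    obtain ⟨a, ha, c, hc, rfl⟩ := Submodule.mem_sup.mp hm
    rw [map_add]
    refine Submodule.add_mem _ ?_ ?_
    · have : π a ∈ Submodule.span κ B₁ := hspanB₁ ⟨a, ha, rfl⟩
      exact Submodule.span_mono hst this
    · -- c in span of u
      have hle : Submodule.span o (Set.range u) ≤
          ((Submodule.span κ t').restrictScalars o).comap π := by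
        rw [Submodule.span_le]
        rintro _ ⟨j, rfl⟩
        show π (u j) ∈ Submodule.span κ t'
        exact Submodule.subset_span (Or.inr ⟨u j, ⟨j, rfl⟩, rfl⟩)
      exact hle hc
  let bV : Basis (hB₁li.extend hst) κ V := Basis.extendLe hB₁li hst ht'
  have hbV : ∀ i : hB₁li.extend hst, bV i = (i : V) := fun i => by
    simp [bV, Basis.coe_extendLe]
  have hBsub : hB₁li.extend hst ⊆ t' := hB₁li.extend_subset hst
  have hB₁B : B₁ ⊆ hB₁li.extend hst := hB₁li.subset_extend hst
  haveI : Finite (hB₁li.extend hst) := Module.Finite.finite_basis bV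
  letI : Fintype (hB₁li.extend hst) := Fintype.ofFinite _
  -- lifts
  have hlift : ∀ i : hB₁li.extend hst, ∃ m : M, π m = (i : V) ∧
      ((i : V) ∈ B₁ → m ∈ I) ∧ ((i : V) = π z → m = z) := by
    intro i
    by_cases h1 : (i : V) = π z
    · exact ⟨z, h1.symm, fun _ => hzI, fun _ => rfl⟩
    · by_cases h2 : (i : V) ∈ B₁
      · obtain ⟨m, hm, hmi⟩ := hB₁sub h2
        exact ⟨m, hmi, fun _ => hm, fun h => absurd h h1⟩
      · obtain ⟨m, hm⟩ := hπsurj (i : V)
        exact ⟨m, hm, fun h => absurd h h2, fun h => absurd h h1⟩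
  choose w hw1 hw2 hw3 using hlift
  have hli : LinearIndependent κ (π ∘ w) := by
    have : (π ∘ w) = bV := by
      funext i
      simp [hw1 i, hbV i]
    rw [this]
    exact bV.linearIndependent
  have hliM : LinearIndependent o w := IsLocalRing.linearIndependent_of_flat w hli
  have hspM : Submodule.span o (Set.range w) = ⊤ :=
    IsLocalRing.span_eq_top_of_tmul_eq_basis w bV (fun i => by
      rw [hbV i]; exact hw1 i)
  let b : Basis (hB₁li.extend hst) o M := Basis.mk hliM hspM.ge
  have hb : ∀ i, b i = w i := fun i => by simp [b]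
  let i₀ : hB₁li.extend hst := ⟨π z, hB₁B (hzB₁ rfl)⟩
  let Z : Finset (hB₁li.extend hst) := Finset.univ.filter fun i => (i : V) ∈ B₁
  refine ⟨hB₁li.extend hst, inferInstance, inferInstance, b, Z, i₀, ?_, ?_, ?_, ?_⟩
  · simp only [Z, Finset.mem_filter, Finset.mem_univ, true_and]
    exact hzB₁ rfl
  · rw [hb]; exact hw3 i₀ rfl
  · intro i hi
    simp only [Z, Finset.mem_filter, Finset.mem_univ, true_and] at hi
    rw [hb]; exact hw2 i hi
  · -- counting
    have hcompl : ∀ i : hB₁li.extend hst, i ∉ Z → ∃ j : Fin s, π (u j) = (i : V) := by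
      intro i hi
      simp only [Z, Finset.mem_filter, Finset.mem_univ, true_and] at hi
      rcases hBsub i.2 with h | h
      · exact absurd h hi
      · obtain ⟨_, ⟨j, rfl⟩, hj⟩ := h
        exact ⟨j, hj⟩
    have hcard : (Finset.univ.filter fun i : hB₁li.extend hst => i ∉ Z).card ≤ s := by
      rw [← Fintype.card_subtype]
      choose g hg using fun (i : {i : hB₁li.extend hst // i ∉ Z}) => hcompl i.1 i.2
      have hinj : Function.Injective g := by
        intro i j hij
        apply Subtype.ext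
        apply Subtype.ext
        rw [← hg i, ← hg j, hij]
      simpa using Fintype.card_le_of_injective g hinj
    have hsplit := Finset.card_filter_add_card_filter_not
      (s := (Finset.univ : Finset (hB₁li.extend hst))) (fun i => i ∈ Z)
    have hZ : (Finset.univ.filter fun i : hB₁li.extend hst => i ∈ Z) = Z := by
      ext i; simp
    rw [hZ] at hsplit
    rw [← Finset.card_univ, ← hsplit]
    omega

end Fermat.Agent.S37.H278

end
-- ===== PACK-END S37/H278/AdaptedBasis.lean

-- ===== PACK-BEGIN S18/H333/Trunc.lean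
section


/-!
# S18 / c3 (helper333): kernel-computable truncated power-series arithmetic over `ℤ`

`tl n f` is the list of the first `n` coefficients of `f : ℤ⟦X⟧`.  The operations
`tmul`, `tadd`, `tsub`, `tsmul`, `tpow`, `tV` on lists compute `tl n` of products, sums, … and
are evaluated by `decide +kernel`.
-/

set_option autoImplicit false

namespace Fermat.Agent.S18.H333

open PowerSeries

/-- computable truncated multiplication of coefficient lists (mod `X^n`). -/
def tmul (n : ℕ) (a b : List ℤ) : List ℤ :=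
  (List.range n).map fun k =>
    ((List.range (k + 1)).map fun i => a.getD i 0 * b.getD (k - i) 0).sum

def tadd (n : ℕ) (a b : List ℤ) : List ℤ :=
  (List.range n).map fun k => a.getD k 0 + b.getD k 0

def tsub (n : ℕ) (a b : List ℤ) : List ℤ :=
  (List.range n).map fun k => a.getD k 0 - b.getD k 0

def tsmul (n : ℕ) (c : ℤ) (a : List ℤ) : List ℤ :=
  (List.range n).map fun k => c * a.getD k 0

def tone (n : ℕ) : List ℤ :=
  (List.range n).map fun k => if k = 0 then 1 else 0

def tzero (n : ℕ) : List ℤ :=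
  (List.range n).map fun _ => 0

def tX (n : ℕ) : List ℤ :=
  (List.range n).map fun k => if k = 1 then 1 else 0

def tpow (n : ℕ) (a : List ℤ) : ℕ → List ℤ
  | 0 => tone n
  | m + 1 => tmul n (tpow n a m) a

/-- `X ↦ X^p` on truncated lists -/
def tV (n p : ℕ) (a : List ℤ) : List ℤ :=
  (List.range n).map fun k => if p ∣ k then a.getD (k / p) 0 else 0

def oneSubXpow (n j : ℕ) : List ℤ :=
  (List.range n).map fun k => (if k = 0 then 1 else 0) - (if k = j then 1 else 0)

/-- truncation of `∏_{i<m} (1 - X^(i+1))` -/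
def etaLrec (n : ℕ) : ℕ → List ℤ
  | 0 => tone n
  | m + 1 => tmul n (etaLrec n m) (oneSubXpow n (m + 1))

/-- `X ↦ X ^ p` on power series, defined coefficientwise. -/
noncomputable def Vser {R : Type*} [Semiring R] (p : ℕ) (f : PowerSeries R) : PowerSeries R :=
  PowerSeries.mk fun n => if p ∣ n then PowerSeries.coeff (n / p) f else 0

@[simp]
theorem coeff_Vser {R : Type*} [Semiring R] (p : ℕ) (f : PowerSeries R) (n : ℕ) :
    PowerSeries.coeff n (Vser p f) = if p ∣ n then PowerSeries.coeff (n / p) f else 0 := by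
  rw [Vser, PowerSeries.coeff_mk]

theorem Vser_map {R S : Type*} [Semiring R] [Semiring S] (φ : R →+* S) (p : ℕ)
    (f : PowerSeries R) : (Vser p f).map φ = Vser p (f.map φ) := by
  ext n
  simp only [PowerSeries.coeff_map, coeff_Vser]
  split_ifs <;> simp

/-- the list of the first `n` coefficients -/
noncomputable def tl (n : ℕ) (f : PowerSeries ℤ) : List ℤ :=
  (List.range n).map fun k => coeff k f

@[simp] theorem length_tl (n : ℕ) (f : PowerSeries ℤ) : (tl n f).length = n := by
  simp [tl]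

theorem tl_getD (n : ℕ) (f : PowerSeries ℤ) {i : ℕ} (hi : i < n) :
    (tl n f).getD i 0 = coeff i f := by
  simp [tl, List.getD, hi]

theorem tl_ext_iff (n : ℕ) (f g : PowerSeries ℤ) :
    tl n f = tl n g ↔ ∀ k < n, coeff k f = coeff k g := by
  constructor
  · intro h k hk
    rw [← tl_getD n f hk, ← tl_getD n g hk, h]
  · intro h
    refine List.map_congr_left fun k hk => h k (List.mem_range.mp hk)

theorem tl_eq_of_coeff (n : ℕ) (f : PowerSeries ℤ) (c : ℕ → ℤ) (h : ∀ k < n, coeff k f = c k) :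
    tl n f = (List.range n).map c :=
  List.map_congr_left fun k hk => h k (List.mem_range.mp hk)

theorem tl_mul (n : ℕ) (f g : PowerSeries ℤ) : tl n (f * g) = tmul n (tl n f) (tl n g) := by
  refine List.map_congr_left fun k hk => ?_
  have hk' : k < n := List.mem_range.mp hk
  rw [coeff_mul, Finset.Nat.sum_antidiagonal_eq_sum_range_succ_mk, ← List.sum_toFinset _
    (List.nodup_range), List.toFinset_range]
  refine Finset.sum_congr rfl fun i hi => ?_
  have hi' : i < k + 1 := Finset.mem_range.mp hi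
  rw [tl_getD n f (by omega), tl_getD n g (by omega)]

theorem tl_add (n : ℕ) (f g : PowerSeries ℤ) : tl n (f + g) = tadd n (tl n f) (tl n g) := by
  refine List.map_congr_left fun k hk => ?_
  have hk' : k < n := List.mem_range.mp hk
  rw [tl_getD n f hk', tl_getD n g hk', map_add]

theorem tl_sub (n : ℕ) (f g : PowerSeries ℤ) : tl n (f - g) = tsub n (tl n f) (tl n g) := by
  refine List.map_congr_left fun k hk => ?_
  have hk' : k < n := List.mem_range.mp hk
  rw [tl_getD n f hk', tl_getD n g hk', map_sub]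

theorem tl_smul (n : ℕ) (c : ℤ) (f : PowerSeries ℤ) : tl n (c • f) = tsmul n c (tl n f) := by
  refine List.map_congr_left fun k hk => ?_
  have hk' : k < n := List.mem_range.mp hk
  rw [tl_getD n f hk', map_zsmul, smul_eq_mul]

theorem tl_one (n : ℕ) : tl n 1 = tone n := by
  refine List.map_congr_left fun k _ => ?_
  rw [coeff_one]

theorem tl_zero (n : ℕ) : tl n 0 = tzero n := by
  refine List.map_congr_left fun k _ => ?_
  simp

theorem tl_X (n : ℕ) : tl n X = tX n := by
  refine List.map_congr_left fun k _ => ?_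
  rw [coeff_X]

theorem tl_pow (n : ℕ) (f : PowerSeries ℤ) (m : ℕ) : tl n (f ^ m) = tpow n (tl n f) m := by
  induction m with
  | zero => rw [pow_zero, tl_one]; rfl
  | succ m ih => rw [pow_succ, tl_mul, ih]; rfl

theorem tl_oneSubXpow (n j : ℕ) : tl n (1 - X ^ j) = oneSubXpow n j := by
  refine List.map_congr_left fun k _ => ?_
  rw [map_sub, coeff_one, coeff_X_pow]

theorem tl_Vser (n p : ℕ) (hp : 0 < p) (f : PowerSeries ℤ) :
    tl n (Vser p f) = tV n p (tl n f) := by
  refine List.map_congr_left fun k hk => ?_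
  have hk' : k < n := List.mem_range.mp hk
  have : k / p < n := lt_of_le_of_lt (Nat.div_le_self k p) hk'
  rw [coeff_Vser, tl_getD n f this]

theorem tl_eq_tzero_iff (n : ℕ) (f : PowerSeries ℤ) :
    tl n f = tzero n ↔ ∀ k < n, coeff k f = 0 := by
  rw [← tl_zero, tl_ext_iff]
  simp

/-- truncation of a finite product `∏_{i<m} (1 - X^(i+1))` -/
theorem tl_prod_range (n m : ℕ) :
    tl n (∏ i ∈ Finset.range m, ((1 : PowerSeries ℤ) - X ^ (i + 1))) = etaLrec n m := by
  induction m with
  | zero => rw [Finset.prod_range_zero, tl_one]; rfl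
  | succ m ih => rw [Finset.prod_range_succ, tl_mul, ih, tl_oneSubXpow]; rfl

theorem tl_mul_congr (n : ℕ) {f f' g g' : PowerSeries ℤ} (hf : tl n f = tl n f')
    (hg : tl n g = tl n g') : tl n (f * g) = tl n (f' * g') := by
  rw [tl_mul, tl_mul, hf, hg]

/-- factors `1 - X^(i+1)` with `n ≤ i + 1` do not change the first `n` coefficients -/
theorem tl_prod_of_le (n : ℕ) (s : Finset ℕ) (hs : ∀ i ∈ s, n ≤ i + 1) :
    tl n (∏ i ∈ s, ((1 : PowerSeries ℤ) - X ^ (i + 1))) = tl n 1 := by
  induction s using Finset.induction_on with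
  | empty => rw [Finset.prod_empty]
  | insert a s ha ih =>
    rw [Finset.prod_insert ha]
    have h1 : tl n ((1 : PowerSeries ℤ) - X ^ (a + 1)) = tl n 1 := by
      rw [tl_ext_iff]
      intro k hk
      have hka : k ≠ a + 1 := by
        have := hs a (Finset.mem_insert_self a s)
        omega
      rw [map_sub, coeff_X_pow, if_neg hka, sub_zero]
    have h2 := tl_mul_congr n h1 (ih fun i hi => hs i (Finset.mem_insert_of_mem hi))
    rw [h2, one_mul]

end Fermat.Agent.S18.H333

end
-- ===== PACK-END S18/H333/Trunc.lean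

-- ===== PACK-BEGIN S17/H770/DerLaurent.lean
section



/-!
# S17 / G-DIV piece DER (helper770): the coefficientwise derivation on Laurent series

For a derivation `d` of a field `L` (over any base ring `R`), `laurentDer d` is the additive map
of `L((q))` acting coefficientwise; it satisfies the Leibniz rule (`laurentDer_mul`), kills
`coeffEmb L x` (series with rational coefficients), extends `d` on constants, does not lower the
`q`-adic order and preserves every `laurentBaseChange L F₀`.  `fieldDer d F₀` is the induced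
derivation of the field `laurentBaseChange L F₀`.
-/

set_option autoImplicit false

namespace Fermat.Agent.S17.H770

open HahnSeries ModularCurve

section Laurent

variable {R L : Type*} [CommRing R] [Field L] [Algebra R L]

/-- The coefficientwise map of `L((q))` attached to a derivation of `L`. -/
noncomputable def laurentDer (d : Derivation R L L) : LaurentSeries L →+ LaurentSeries L where
  toFun x := x.map d
  map_zero' := by
    ext k
    simp
  map_add' x y := by
    ext k
    simp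

@[simp]
theorem laurentDer_coeff (d : Derivation R L L) (x : LaurentSeries L) (k : ℤ) :
    (laurentDer d x).coeff k = d (x.coeff k) :=
  rfl

theorem support_laurentDer_subset (d : Derivation R L L) (x : LaurentSeries L) :
    (laurentDer d x).support ⊆ x.support := by
  intro k hk
  rw [HahnSeries.mem_support] at hk ⊢
  intro h
  exact hk (by rw [laurentDer_coeff, h, map_zero])

/-- Leibniz rule. -/
theorem laurentDer_mul (d : Derivation R L L) (x y : LaurentSeries L) :
    laurentDer d (x * y) = x * laurentDer d y + y * laurentDer d x := by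
  ext k
  rw [laurentDer_coeff, HahnSeries.coeff_add, HahnSeries.coeff_mul,
    HahnSeries.coeff_mul_right' y.isPWO_support (support_laurentDer_subset d y),
    mul_comm y (laurentDer d x),
    HahnSeries.coeff_mul_left' x.isPWO_support (support_laurentDer_subset d x),
    map_sum, ← Finset.sum_add_distrib]
  refine Finset.sum_congr rfl fun ij _ => ?_
  simp only [Derivation.leibniz, laurentDer_coeff, smul_eq_mul]
  ring

theorem laurentDer_eq_zero_iff (d : Derivation R L L) (x : LaurentSeries L) :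
    laurentDer d x = 0 ↔ ∀ k, d (x.coeff k) = 0 := by
  constructor
  · intro h k
    rw [← laurentDer_coeff, h, HahnSeries.coeff_zero]
  · intro h
    ext k
    rw [laurentDer_coeff, h, HahnSeries.coeff_zero]

theorem laurentDer_single (d : Derivation R L L) (k : ℤ) (c : L) :
    laurentDer d (HahnSeries.single k c) = HahnSeries.single k (d c) := by
  ext m
  rcases eq_or_ne m k with rfl | hm
  · simp [HahnSeries.coeff_single_same]
  · simp [HahnSeries.coeff_single_of_ne hm]

theorem laurentDer_algebraMap (d : Derivation R L L) (c : L) :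
    laurentDer d (algebraMap L (LaurentSeries L) c) = algebraMap L (LaurentSeries L) (d c) := by
  rw [algebraMap_laurentSeries_eq_single, algebraMap_laurentSeries_eq_single, laurentDer_single]

@[simp]
theorem laurentDer_one (d : Derivation R L L) : laurentDer d (1 : LaurentSeries L) = 0 := by
  have h := laurentDer_algebraMap d 1
  rwa [map_one, Derivation.map_one_eq_zero, map_zero] at h

theorem laurentDer_inv (d : Derivation R L L) (x : LaurentSeries L) :
    laurentDer d x⁻¹ = -(x⁻¹ ^ 2 * laurentDer d x) := by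
  rcases eq_or_ne x 0 with rfl | hx
  · simp
  · have h := laurentDer_mul d x x⁻¹
    rw [mul_inv_cancel₀ hx, laurentDer_one] at h
    have h2 : x * laurentDer d x⁻¹ = -(x⁻¹ * laurentDer d x) := eq_neg_of_add_eq_zero_left h.symm
    have h3 : laurentDer d x⁻¹ = x⁻¹ * (x * laurentDer d x⁻¹) := by
      rw [← mul_assoc, inv_mul_cancel₀ hx, one_mul]
    rw [h3, h2]
    ring

/-- The coefficientwise derivation does not lower the `q`-adic order. -/
theorem order_le_order_laurentDer (d : Derivation R L L) (x : LaurentSeries L)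
    (h : laurentDer d x ≠ 0) : x.order ≤ (laurentDer d x).order := by
  have hc : (laurentDer d x).coeff (laurentDer d x).order ≠ 0 :=
    fun h0 => h (HahnSeries.coeff_order_eq_zero.1 h0)
  exact HahnSeries.order_le_of_coeff_ne_zero (fun h0 => hc (by
    rw [laurentDer_coeff, h0, map_zero]))

/-- A derivation of a field kills the image of `ℚ`. -/
theorem derivation_algebraMap_rat [Algebra ℚ L] (d : Derivation R L L) (r : ℚ) :
    d (algebraMap ℚ L r) = 0 := by
  have h : algebraMap ℚ L r = (r.num : L) / (r.den : L) := by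
    rw [eq_ratCast, Rat.cast_def]
  rw [h, Derivation.leibniz_div, Derivation.map_intCast, Derivation.map_natCast]
  simp

/-- The coefficientwise derivation kills series with rational coefficients. -/
theorem laurentDer_coeffEmb [Algebra ℚ L] (d : Derivation R L L) (x : LaurentSeries ℚ) :
    laurentDer d (coeffEmb L x) = 0 := by
  ext k
  rw [laurentDer_coeff, coeffEmb_coeff, derivation_algebraMap_rat, HahnSeries.coeff_zero]

/-- The coefficientwise derivation preserves `laurentBaseChange L F₀`. -/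
theorem laurentDer_mem_laurentBaseChange [Algebra ℚ L] (d : Derivation R L L)
    (F₀ : IntermediateField ℚ (LaurentSeries ℚ)) {x : LaurentSeries L}
    (hx : x ∈ laurentBaseChange L F₀) : laurentDer d x ∈ laurentBaseChange L F₀ := by
  rw [mem_laurentBaseChange_iff] at hx
  induction hx using Subfield.closure_induction with
  | mem y hy =>
      rcases hy with ⟨a, rfl⟩ | ⟨z, hz, rfl⟩
      · rw [laurentDer_algebraMap]
        exact (laurentBaseChange L F₀).algebraMap_mem _
      · rw [laurentDer_coeffEmb]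
        exact zero_mem _
  | one => simp
  | add x y _ _ hx hy => simpa using add_mem hx hy
  | neg x _ hx => simpa using neg_mem hx
  | inv x hx' hx =>
      rw [← mem_laurentBaseChange_iff] at hx'
      rw [laurentDer_inv]
      exact neg_mem (mul_mem (pow_mem (inv_mem hx') 2) hx)
  | mul x y hx' hy' hx hy =>
      rw [← mem_laurentBaseChange_iff] at hx' hy'
      rw [laurentDer_mul]
      exact add_mem (mul_mem hx' hy) (mul_mem hy' hx)

end Laurent

section BaseChange

variable {R L : Type*} [CommRing R] [Field L] [Algebra R L] [Algebra ℚ L]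

/-- The derivation of the function field `F_L = laurentBaseChange L F₀` induced by a
derivation of the constant field `L` (coefficientwise on `q`-expansions). -/
noncomputable def fieldDer (d : Derivation R L L) (F₀ : IntermediateField ℚ (LaurentSeries ℚ)) :
    Derivation ℤ (laurentBaseChange L F₀) (laurentBaseChange L F₀) :=
  Derivation.mk'
    (AddMonoidHom.toIntLinearMap
      { toFun := fun x => ⟨laurentDer d x, laurentDer_mem_laurentBaseChange d F₀ x.2⟩
        map_zero' := Subtype.ext (by simp)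
        map_add' := fun x y => Subtype.ext (by simp) })
    (fun x y => Subtype.ext (by
      change laurentDer d ((x : LaurentSeries L) * y) = _
      rw [laurentDer_mul]
      rfl))

@[simp]
theorem fieldDer_coe (d : Derivation R L L) (F₀ : IntermediateField ℚ (LaurentSeries ℚ))
    (x : laurentBaseChange L F₀) :
    ((fieldDer d F₀ x : laurentBaseChange L F₀) : LaurentSeries L) = laurentDer d x :=
  rfl

theorem fieldDer_mul (d : Derivation R L L) (F₀ : IntermediateField ℚ (LaurentSeries ℚ))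
    (x y : laurentBaseChange L F₀) :
    fieldDer d F₀ (x * y) = x * fieldDer d F₀ y + y * fieldDer d F₀ x := by
  rw [Derivation.leibniz, smul_eq_mul, smul_eq_mul]

theorem fieldDer_algebraMap (d : Derivation R L L) (F₀ : IntermediateField ℚ (LaurentSeries ℚ))
    (c : L) :
    fieldDer d F₀ (algebraMap L (laurentBaseChange L F₀) c) =
      algebraMap L (laurentBaseChange L F₀) (d c) :=
  Subtype.ext (laurentDer_algebraMap d c)

theorem fieldDer_coeffEmb (d : Derivation R L L) (F₀ : IntermediateField ℚ (LaurentSeries ℚ))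
    {x : LaurentSeries ℚ} (hx : x ∈ F₀) :
    fieldDer d F₀ ⟨coeffEmb L x, coeffEmb_mem_laurentBaseChange L hx⟩ = 0 :=
  Subtype.ext (laurentDer_coeffEmb d x)

theorem fieldDer_inv (d : Derivation R L L) (F₀ : IntermediateField ℚ (LaurentSeries ℚ))
    (x : laurentBaseChange L F₀) :
    fieldDer d F₀ x⁻¹ = -(x⁻¹ ^ 2 * fieldDer d F₀ x) := by
  rw [Derivation.leibniz_inv, smul_eq_mul, neg_mul]

theorem fieldDer_eq_zero_iff (d : Derivation R L L) (F₀ : IntermediateField ℚ (LaurentSeries ℚ))
    (x : laurentBaseChange L F₀) :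
    fieldDer d F₀ x = 0 ↔ ∀ k, d ((x : LaurentSeries L).coeff k) = 0 := by
  rw [← laurentDer_eq_zero_iff, Subtype.ext_iff]
  rfl

end BaseChange

end Fermat.Agent.S17.H770

end
-- ===== PACK-END S17/H770/DerLaurent.lean

-- ===== PACK-BEGIN S17/H800/Der.lean
section
/-
S17 row, piece G-DIV / DER groundwork (helper800).  Mathlib + Prelude `LaurentCoeff` only.

* `extendDer` / `extendDer_algebraMap` : derivations extend along formally étale ring maps;
* `exists_derivation_eq_one` (**DER-0**, enough derivations): `K ⊆ L` fields of characteristic `0`,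
  `c ∈ L` transcendental over `K` ⟹ there is a `K`-derivation `δ` of `L` with `δ c = 1`;
  `isAlgebraic_of_forall_derivation_eq_zero` : if every `K`-derivation of `L` kills `c`, then `c`
  is algebraic over `K`;
* `coeffDer δ : L((q)) →+ L((q))` (**DER-a**): the coefficientwise derivation attached to a
  derivation `δ` of `L`: Leibniz rule `coeffDer_mul`, `coeffDer_inv`, values on constants
  `coeffDer_algebraMap`, `coeffDer_coeffMap` / `coeffDer_coeffEmb` (kills series with coefficients
  in `ker δ`, e.g. rational coefficients), `coeffDer_eq_zero_iff`, `order_le_order_coeffDer`,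
  `coeffDer_mem_laurentBaseChange` (stability of `L · F₀`).
-/



set_option autoImplicit false
set_option linter.unusedSectionVars false
set_option linter.style.haveILetI false

noncomputable section

open scoped TensorProduct
open KaehlerDifferential HahnSeries ModularCurve

namespace Fermat.Agent.S17.H800

section Extend

variable (R S T : Type*) [CommRing R] [CommRing S] [CommRing T]
  [Algebra R S] [Algebra R T] [Algebra S T] [IsScalarTower R S T] [Algebra.FormallyEtale S T]
variable {N : Type*} [AddCommGroup N] [Module R N] [Module S N] [Module T N]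
  [IsScalarTower R S N] [IsScalarTower R T N] [IsScalarTower S T N]

/-- Extension of a derivation along a formally étale ring map. -/
noncomputable def extendDer (d : Derivation R S N) : Derivation R T N :=
  ((d.liftKaehlerDifferential.liftBaseChange T) ∘ₗ
      (tensorKaehlerEquivOfFormallyEtale R S T).symm.toLinearMap).compDer (D R T)

theorem extendDer_algebraMap (d : Derivation R S N) (s : S) :
    extendDer R S T d (algebraMap S T s) = d s := by
  simp [extendDer, tensorKaehlerEquivOfFormallyEtale_symm_D_algebraMap]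

end Extend

section Field

open scoped IntermediateField.algebraAdjoinAdjoin

variable {K L : Type*} [Field K] [Field L] [Algebra K L] [CharZero K]

/-- In characteristic `0`, a field is formally étale over the polynomial subalgebra generated by
a transcendence basis. -/
theorem formallyEtale_adjoin_of_isTranscendenceBasis {ι : Type*} {v : ι → L}
    (hv : IsTranscendenceBasis K v) :
    Algebra.FormallyEtale (Algebra.adjoin K (Set.range v)) L := by
  haveI : CharZero L := charZero_of_injective_algebraMap (algebraMap K L).injective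
  haveI : Algebra.FormallyEtale (Algebra.adjoin K (Set.range v))
      (IntermediateField.adjoin K (Set.range v)) :=
    Algebra.FormallyEtale.of_isLocalization (nonZeroDivisors _)
  haveI : Algebra.IsAlgebraic (IntermediateField.adjoin K (Set.range v)) L :=
    hv.isAlgebraic_field
  haveI : Algebra.IsSeparable (IntermediateField.adjoin K (Set.range v)) L :=
    Algebra.IsAlgebraic.isSeparable_of_perfectField
  haveI : Algebra.FormallyEtale (IntermediateField.adjoin K (Set.range v)) L :=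
    Algebra.FormallyEtale.of_isSeparable _ _
  exact Algebra.FormallyEtale.comp _ (IntermediateField.adjoin K (Set.range v)) _

/-- The partial derivative with respect to one member of an algebraically independent family,
as an `L`-valued derivation of the polynomial subalgebra. -/
theorem exists_derivation_adjoin {ι : Type*} [DecidableEq ι] {v : ι → L}
    (hv : AlgebraicIndependent K v) (i : ι) :
    ∃ d : Derivation K (Algebra.adjoin K (Set.range v)) L,
      ∀ j, d ⟨v j, Algebra.subset_adjoin (Set.mem_range_self j)⟩ = if j = i then 1 else 0 := by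
  letI algSL : Algebra (MvPolynomial ι K) L := (MvPolynomial.aeval v).toAlgebra
  haveI : IsScalarTower K (MvPolynomial ι K) L :=
    IsScalarTower.of_algebraMap_eq' (MvPolynomial.aeval v).comp_algebraMap.symm
  let d₀ : Derivation K (MvPolynomial ι K) L :=
    MvPolynomial.mkDerivation K (fun j => if j = i then (1 : L) else 0)
  let e := hv.aevalEquiv
  have hsmul : ∀ (p : MvPolynomial ι K) (x : L), p • x = MvPolynomial.aeval v p * x :=
    fun p x => rfl
  have hcoe : ∀ a : Algebra.adjoin K (Set.range v),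
      MvPolynomial.aeval v (e.symm a) = (a : L) := by
    intro a
    have := hv.algebraMap_aevalEquiv (e.symm a)
    rw [AlgEquiv.apply_symm_apply] at this
    exact this.symm
  refine ⟨Derivation.mk' ((d₀ : MvPolynomial ι K →ₗ[K] L) ∘ₗ e.symm.toLinearMap) ?_, ?_⟩
  · intro a b
    simp only [LinearMap.coe_comp, Function.comp_apply, AlgEquiv.toLinearMap_apply, map_mul]
    show d₀ (e.symm a * e.symm b) = a • d₀ (e.symm b) + b • d₀ (e.symm a)
    rw [d₀.leibniz, hsmul, hsmul, hcoe, hcoe]
    rfl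
  · intro j
    show d₀ (e.symm _) = _
    have : e.symm ⟨v j, Algebra.subset_adjoin (Set.mem_range_self j)⟩ = MvPolynomial.X j := by
      rw [AlgEquiv.symm_apply_eq]
      apply Subtype.ext
      have := hv.algebraMap_aevalEquiv (MvPolynomial.X j)
      rw [MvPolynomial.aeval_X] at this
      exact this.symm
    rw [this, MvPolynomial.mkDerivation_X]

/-- **Enough derivations** (characteristic `0`): for `c ∈ L` transcendental over `K` there is
a `K`-derivation `∂` of `L` with `δ c = 1`. -/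
theorem exists_derivation_eq_one {c : L} (hc : Transcendental K c) :
    ∃ δ : Derivation K L L, δ c = 1 := by
  classical
  have hind : AlgebraicIndepOn K id ({c} : Set L) := by
    show AlgebraicIndependent K (fun x : ({c} : Set L) => id (x : L))
    rw [algebraicIndependent_singleton_iff (⟨c, rfl⟩ : ({c} : Set L))]
    exact hc
  obtain ⟨s, hcs, hs⟩ := exists_isTranscendenceBasis_superset hind
  haveI := formallyEtale_adjoin_of_isTranscendenceBasis hs
  let i : s := ⟨c, hcs rfl⟩
  obtain ⟨d, hd⟩ := exists_derivation_adjoin hs.1 i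
  refine ⟨extendDer K (Algebra.adjoin K (Set.range ((↑) : s → L))) L d, ?_⟩
  have h1 : c = algebraMap (Algebra.adjoin K (Set.range ((↑) : s → L))) L
      ⟨((↑) : s → L) i, Algebra.subset_adjoin (Set.mem_range_self i)⟩ := rfl
  rw [h1, extendDer_algebraMap, hd i, if_pos rfl]

/-- If every `K`-derivation of `L` kills `c`, then `c` is algebraic over `K` (char. `0`). -/
theorem isAlgebraic_of_forall_derivation_eq_zero {c : L}
    (h : ∀ δ : Derivation K L L, δ c = 0) : IsAlgebraic K c := by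
  by_contra hc
  obtain ⟨δ, h1⟩ := exists_derivation_eq_one (K := K) (c := c) hc
  rw [h δ] at h1
  exact zero_ne_one h1

end Field


section CoeffDer

variable {K L : Type*} [CommRing K] [CommRing L] [Algebra K L]

/-- Coefficientwise application of a derivation to a Laurent series. -/
def coeffDerFun (δ : Derivation K L L) (f : LaurentSeries L) : LaurentSeries L :=
  f.map (δ : L →+ L)

@[simp]
theorem coeffDerFun_coeff (δ : Derivation K L L) (f : LaurentSeries L) (n : ℤ) :
    (coeffDerFun δ f).coeff n = δ (f.coeff n) := rfl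

theorem support_coeffDerFun_subset (δ : Derivation K L L) (f : LaurentSeries L) :
    (coeffDerFun δ f).support ⊆ f.support := by
  intro n hn
  rw [HahnSeries.mem_support] at hn ⊢
  intro h0
  apply hn
  rw [coeffDerFun_coeff, h0, map_zero]

theorem coeffDerFun_add (δ : Derivation K L L) (f g : LaurentSeries L) :
    coeffDerFun δ (f + g) = coeffDerFun δ f + coeffDerFun δ g := by
  ext n
  simp

theorem coeffDerFun_mul (δ : Derivation K L L) (f g : LaurentSeries L) :
    coeffDerFun δ (f * g) = f * coeffDerFun δ g + g * coeffDerFun δ f := by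
  ext n
  rw [coeffDerFun_coeff, HahnSeries.coeff_add, HahnSeries.coeff_mul,
    HahnSeries.coeff_mul_right' g.isPWO_support (support_coeffDerFun_subset δ g),
    mul_comm g, HahnSeries.coeff_mul_left' f.isPWO_support (support_coeffDerFun_subset δ f),
    map_sum, ← Finset.sum_add_distrib]
  refine Finset.sum_congr rfl fun ij _ => ?_
  rw [δ.leibniz, coeffDerFun_coeff, coeffDerFun_coeff, smul_eq_mul, smul_eq_mul]
  ring

/-- The coefficientwise derivation of `L((q))` attached to a derivation of `L`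
(as an additive map; Leibniz rule: `coeffDer_mul`). -/
def coeffDer (δ : Derivation K L L) : LaurentSeries L →+ LaurentSeries L where
  toFun := coeffDerFun δ
  map_zero' := by ext n; simp
  map_add' := coeffDerFun_add δ

theorem coeffDer_apply (δ : Derivation K L L) (f : LaurentSeries L) :
    coeffDer δ f = coeffDerFun δ f := rfl

@[simp]
theorem coeffDer_coeff (δ : Derivation K L L) (f : LaurentSeries L) (n : ℤ) :
    (coeffDer δ f).coeff n = δ (f.coeff n) := rfl

/-- Leibniz rule. -/
theorem coeffDer_mul (δ : Derivation K L L) (f g : LaurentSeries L) :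
    coeffDer δ (f * g) = f * coeffDer δ g + g * coeffDer δ f :=
  coeffDerFun_mul δ f g

theorem coeffDer_one (δ : Derivation K L L) : coeffDer δ (1 : LaurentSeries L) = 0 := by
  have h := coeffDer_mul δ 1 1
  rw [mul_one, one_mul] at h
  have h2 : coeffDer δ (1 : LaurentSeries L) + coeffDer δ 1 = coeffDer δ 1 + 0 := by
    rw [add_zero]; exact h.symm
  exact add_left_cancel h2

theorem coeffDer_eq_zero_iff (δ : Derivation K L L) (f : LaurentSeries L) :
    coeffDer δ f = 0 ↔ ∀ n, δ (f.coeff n) = 0 := by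
  constructor
  · intro h n
    rw [← coeffDer_coeff, h, HahnSeries.coeff_zero]
  · intro h
    ext n
    rw [coeffDer_coeff, h, HahnSeries.coeff_zero]

theorem coeffDer_single (δ : Derivation K L L) (n : ℤ) (c : L) :
    coeffDer δ (HahnSeries.single n c) = HahnSeries.single n (δ c) := by
  ext m
  rcases eq_or_ne m n with rfl | hm
  · simp [HahnSeries.coeff_single_same]
  · simp [HahnSeries.coeff_single_of_ne hm]

/-- The coefficientwise derivation kills the series with coefficients in the kernel. -/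
theorem coeffDer_coeffMap {R : Type*} [CommRing R] (φ : R →+* L) (δ : Derivation K L L)
    (hφ : ∀ r, δ (φ r) = 0) (g : LaurentSeries R) : coeffDer δ (coeffMap φ g) = 0 := by
  rw [coeffDer_eq_zero_iff]
  intro n
  rw [coeffMap_coeff, hφ]

theorem support_coeffDer_subset (δ : Derivation K L L) (f : LaurentSeries L) :
    (coeffDer δ f).support ⊆ f.support := support_coeffDerFun_subset δ f

/-- The coefficientwise derivation does not lower the `q`-order. -/
theorem order_le_order_coeffDer (δ : Derivation K L L) {f : LaurentSeries L}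
    (h : coeffDer δ f ≠ 0) : f.order ≤ (coeffDer δ f).order := by
  have hf : f ≠ 0 := fun h0 => h (by rw [h0, map_zero])
  have h1 : (coeffDer δ f).order ∈ (coeffDer δ f).support :=
    (HahnSeries.mem_support _ _).mpr (HahnSeries.coeff_order_eq_zero.not.mpr h)
  have h2 : (coeffDer δ f).order ∈ f.support := support_coeffDer_subset δ f h1
  exact HahnSeries.order_le_of_coeff_ne_zero h2

end CoeffDer

section Field

variable {K L : Type*} [CommRing K] [Field L] [Algebra K L]

theorem coeffDer_C (δ : Derivation K L L) (c : L) :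
    coeffDer δ (HahnSeries.C c : LaurentSeries L) = HahnSeries.C (δ c) := by
  rw [HahnSeries.C_apply, HahnSeries.C_apply]
  exact coeffDer_single δ 0 c

theorem coeffDer_algebraMap (δ : Derivation K L L) (c : L) :
    coeffDer δ (algebraMap L (LaurentSeries L) c) = algebraMap L (LaurentSeries L) (δ c) := by
  rw [algebraMap_laurentSeries_eq_single, algebraMap_laurentSeries_eq_single]
  exact coeffDer_single δ 0 c

/-- Quotient rule for inverses. -/
theorem coeffDer_inv (δ : Derivation K L L) (f : LaurentSeries L) :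
    coeffDer δ f⁻¹ = -(f⁻¹ ^ 2 * coeffDer δ f) := by
  rcases eq_or_ne f 0 with rfl | hf
  · simp
  · have h := coeffDer_mul δ f f⁻¹
    rw [mul_inv_cancel₀ hf, coeffDer_one] at h
    have h2 : f * coeffDer δ f⁻¹ = -(f⁻¹ * coeffDer δ f) := by
      rw [eq_neg_iff_add_eq_zero]; exact h.symm
    have h3 : coeffDer δ f⁻¹ = f⁻¹ * (f * coeffDer δ f⁻¹) := by
      rw [← mul_assoc, inv_mul_cancel₀ hf, one_mul]
    rw [h3, h2]
    ring

/-- A derivation of a field of characteristic `0` kills the rational numbers. -/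
theorem derivation_algebraMap_rat [Algebra ℚ L] (δ : Derivation K L L) (r : ℚ) :
    δ (algebraMap ℚ L r) = 0 := by
  have h : algebraMap ℚ L r = (r.num : L) / (r.den : L) := by
    conv_lhs => rw [← Rat.num_div_den r]
    rw [map_div₀, map_intCast, map_natCast]
  rw [h, Derivation.leibniz_div, Derivation.map_intCast, Derivation.map_natCast]
  simp

variable [Algebra ℚ L]

/-- The coefficientwise derivation kills the series with rational coefficients. -/
theorem coeffDer_coeffEmb (δ : Derivation K L L) (x : LaurentSeries ℚ) :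
    coeffDer δ (coeffEmb L x) = 0 :=
  coeffDer_coeffMap (algebraMap ℚ L) δ (derivation_algebraMap_rat δ) x

/-- The coefficientwise derivation preserves the base change `L · F₀` of a field of Laurent
series with rational coefficients. -/
theorem coeffDer_mem_laurentBaseChange (δ : Derivation K L L)
    (F₀ : IntermediateField ℚ (LaurentSeries ℚ)) {x : LaurentSeries L}
    (hx : x ∈ laurentBaseChange L F₀) : coeffDer δ x ∈ laurentBaseChange L F₀ := by
  induction hx using IntermediateField.adjoin_induction with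
  | mem y hy =>
    obtain ⟨z, -, rfl⟩ := hy
    rw [coeffDer_coeffEmb]
    exact zero_mem _
  | algebraMap c =>
    rw [coeffDer_algebraMap]
    exact IntermediateField.algebraMap_mem _ _
  | add y z hy hz ihy ihz =>
    rw [map_add]
    exact add_mem ihy ihz
  | inv y hy ih =>
    rw [coeffDer_inv]
    exact neg_mem (mul_mem (pow_mem (inv_mem hy) 2) ih)
  | mul y z hy hz ihy ihz =>
    rw [coeffDer_mul]
    exact add_mem (mul_mem hy ihz) (mul_mem hz ihy)

end Field

end Fermat.Agent.S17.H800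

end
end
-- ===== PACK-END S17/H800/Der.lean

-- ===== PACK-BEGIN S17/H20/AlgCl.lean
section


/-!
# S17 / G-DIV (helper20): the algebraic closure of `K₀(S)` in `L`, as a subfield (for TRANS)

Mathlib-only.
-/

set_option autoImplicit false

noncomputable section

open Cardinal

namespace Fermat.Agent.S17.H20

section AlgCl

variable {L : Type*} [Field L]

/-- The algebraic closure in `L` of the subfield generated by `K₀` and `S`. -/
def algClosureAdjoin (K₀ : Subfield L) (S : Set L) : Subfield L :=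
  (algebraicClosure (IntermediateField.adjoin K₀ S) L).toSubfield

theorem mem_algClosureAdjoin {K₀ : Subfield L} {S : Set L} {x : L} :
    x ∈ algClosureAdjoin K₀ S ↔ IsAlgebraic (IntermediateField.adjoin K₀ S) x :=
  mem_algebraicClosure_iff

theorem le_algClosureAdjoin (K₀ : Subfield L) (S : Set L) : K₀ ≤ algClosureAdjoin K₀ S := by
  intro a ha
  rw [mem_algClosureAdjoin]
  exact isAlgebraic_algebraMap
    (⟨a, (IntermediateField.adjoin K₀ S).algebraMap_mem ⟨a, ha⟩⟩ : IntermediateField.adjoin K₀ S)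

theorem subset_algClosureAdjoin (K₀ : Subfield L) (S : Set L) :
    S ⊆ (algClosureAdjoin K₀ S : Set L) := by
  intro a ha
  rw [SetLike.mem_coe, mem_algClosureAdjoin]
  exact isAlgebraic_algebraMap
    (⟨a, IntermediateField.subset_adjoin K₀ S ha⟩ : IntermediateField.adjoin K₀ S)

theorem algClosedIn_algClosureAdjoin (K₀ : Subfield L) (S : Set L) (x : L)
    (hx : IsAlgebraic (algClosureAdjoin K₀ S) x) : x ∈ algClosureAdjoin K₀ S := by
  rw [mem_algClosureAdjoin]
  have hx' : IsAlgebraic (algebraicClosure (IntermediateField.adjoin K₀ S) L) x := hx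
  exact hx'.restrictScalars (IntermediateField.adjoin K₀ S)

theorem countable_algClosureAdjoin (K₀ : Subfield L) (S : Set L)
    (hK₀ : (K₀ : Set L).Countable) (hS : S.Countable) :
    ((algClosureAdjoin K₀ S : Subfield L) : Set L).Countable := by
  rw [← Set.countable_coe_iff, ← Cardinal.mk_le_aleph0_iff]
  have h1 : #(IntermediateField.adjoin K₀ S) ≤ ℵ₀ := by
    refine (IntermediateField.cardinalMk_adjoin_le K₀ S).trans ?_
    have a1 : #K₀ ≤ ℵ₀ := Cardinal.mk_le_aleph0_iff.mpr hK₀.to_subtype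
    have a2 : #S ≤ ℵ₀ := Cardinal.mk_le_aleph0_iff.mpr hS.to_subtype
    exact sup_le (sup_le a1 a2) le_rfl
  have _i : Module.IsTorsionFree (IntermediateField.adjoin K₀ S) L :=
    Module.isTorsionFree_iff_algebraMap_injective.mpr
      (algebraMap (IntermediateField.adjoin K₀ S) L).injective
  have h2 : #{x : L // IsAlgebraic (IntermediateField.adjoin K₀ S) x}
      ≤ max #(IntermediateField.adjoin K₀ S) ℵ₀ :=
    Algebraic.cardinalMk_le_max (IntermediateField.adjoin K₀ S) L
  have h3 : #(algClosureAdjoin K₀ S) ≤ #{x : L // IsAlgebraic (IntermediateField.adjoin K₀ S) x} :=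
    Cardinal.mk_le_of_injective
      (f := fun y : algClosureAdjoin K₀ S =>
        (⟨(y : L), mem_algClosureAdjoin.mp y.2⟩ :
          {x : L // IsAlgebraic (IntermediateField.adjoin K₀ S) x}))
      (fun a b h => Subtype.ext (Subtype.mk.inj h))
  exact h3.trans (h2.trans (max_le h1 le_rfl))

theorem notMem_algClosureAdjoin {ι : Type*} (K₀ : Subfield L) (x : ι → L)
    (hx : AlgebraicIndependent K₀ x) (s : Set ι) (i : ι) (hi : i ∉ s) :
    x i ∉ algClosureAdjoin K₀ (x '' s) := by
  rw [mem_algClosureAdjoin]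
  exact IntermediateField.transcendental_adjoin_iff.mpr (hx.transcendental_adjoin hi)

end AlgCl

end Fermat.Agent.S17.H20

end
end
-- ===== PACK-END S17/H20/AlgCl.lean

-- ===== PACK-BEGIN S37/H697/Bounded.lean
section


/-!
# S37 (helper697): the bounded-homomorphism trick

An additive map `δ : (X →₀ ℤ) →+ (Y →₀ ℤ)` which kills a subgroup `Pr` ("principal divisors") and
is bounded on the generators `single P 1` vanishes on every `D` all of whose multiples `n • D` are
congruent modulo `Pr` to elements of bounded `ℓ¹`-norm.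

This replaces divisibility of `Pic⁰` in uniqueness statements for place reductions, and pointwise
arguments in the Eichler–Shimura relation: the boundedness hypothesis on multiples is supplied by
Riemann's inequality.
-/

set_option autoImplicit false

namespace Fermat.Agent.S37.H697

open Finsupp

variable {X Y : Type*}

/-- The `ℓ¹`-norm of a finitely supported integer-valued function. -/
noncomputable def l1norm (E : X →₀ ℤ) : ℕ := E.sum fun _ n => n.natAbs

@[simp] theorem l1norm_zero : l1norm (0 : X →₀ ℤ) = 0 := by simp [l1norm]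

theorem l1norm_single (P : X) (n : ℤ) : l1norm (single P n) = n.natAbs := by
  simp [l1norm]

theorem l1norm_add_le (D E : X →₀ ℤ) : l1norm (D + E) ≤ l1norm D + l1norm E := by
  classical
  unfold l1norm
  have h1 : (D + E).sum (fun _ n => n.natAbs)
      = ∑ x ∈ D.support ∪ E.support, ((D + E) x).natAbs :=
    Finsupp.sum_of_support_subset _ Finsupp.support_add _ (fun _ _ => rfl)
  have h2 : D.sum (fun _ n => n.natAbs) = ∑ x ∈ D.support ∪ E.support, (D x).natAbs :=
    Finsupp.sum_of_support_subset _ Finset.subset_union_left _ (fun _ _ => rfl)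
  have h3 : E.sum (fun _ n => n.natAbs) = ∑ x ∈ D.support ∪ E.support, (E x).natAbs :=
    Finsupp.sum_of_support_subset _ Finset.subset_union_right _ (fun _ _ => rfl)
  rw [h1, h2, h3, ← Finset.sum_add_distrib]
  exact Finset.sum_le_sum fun x _ => by
    rw [Finsupp.add_apply]; exact Int.natAbs_add_le _ _

theorem l1norm_neg (D : X →₀ ℤ) : l1norm (-D) = l1norm D := by
  unfold l1norm
  rw [Finsupp.sum_neg_index (fun _ => rfl)]
  simp [Finsupp.sum]

theorem l1norm_sub_le (D E : X →₀ ℤ) : l1norm (D - E) ≤ l1norm D + l1norm E := by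
  rw [sub_eq_add_neg]
  exact (l1norm_add_le D (-E)).trans (by rw [l1norm_neg])

theorem natAbs_apply_le_l1norm (E : X →₀ ℤ) (x : X) : (E x).natAbs ≤ l1norm E := by
  classical
  by_cases hx : x ∈ E.support
  · unfold l1norm Finsupp.sum
    exact Finset.single_le_sum (f := fun a => (E a).natAbs) (fun _ _ => Nat.zero_le _) hx
  · rw [Finsupp.notMem_support_iff.mp hx]; simp

/-- A bounded additive functional is bounded by the `ℓ¹`-norm. -/
theorem natAbs_map_le (φ : (X →₀ ℤ) →+ ℤ) (C : ℕ)
    (hC : ∀ P : X, (φ (single P 1)).natAbs ≤ C) (E : X →₀ ℤ) :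
    (φ E).natAbs ≤ C * l1norm E := by
  classical
  induction E using Finsupp.induction with
  | zero => simp
  | single_add P n E hP hn ih =>
    have hsingle : φ (single P n) = n * φ (single P 1) := by
      have : single P n = n • single P (1 : ℤ) := by
        rw [Finsupp.smul_single, smul_eq_mul, mul_one]
      rw [this, map_zsmul, smul_eq_mul]
    have hnorm : l1norm (single P n + E) = n.natAbs + l1norm E := by
      unfold l1norm
      rw [Finsupp.sum_add_index_of_disjoint]
      · simp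
      · rw [Finset.disjoint_left]
        intro x hx hx'
        have : x = P := by
          have := Finsupp.support_single_subset hx
          simpa using this
        exact hP (this ▸ hx')
    rw [map_add, hnorm, hsingle, mul_add]
    refine (Int.natAbs_add_le _ _).trans (Nat.add_le_add ?_ ih)
    rw [Int.natAbs_mul, mul_comm]
    exact Nat.mul_le_mul_right _ (hC P)

/-- **Bounded-homomorphism trick.** -/
theorem eq_zero_of_bounded (δ : (X →₀ ℤ) →+ (Y →₀ ℤ)) (Pr : AddSubgroup (X →₀ ℤ))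
    (hPr : ∀ D ∈ Pr, δ D = 0) (C : ℕ) (hC : ∀ P : X, l1norm (δ (single P 1)) ≤ C)
    (D : X →₀ ℤ) (B : ℕ)
    (hB : ∀ n : ℕ, ∃ E : X →₀ ℤ, l1norm E ≤ B ∧ n • D - E ∈ Pr) :
    δ D = 0 := by
  ext y
  rw [Finsupp.zero_apply]
  set φ : (X →₀ ℤ) →+ ℤ := (Finsupp.applyAddHom y).comp δ with hφ
  have hφC : ∀ P : X, (φ (single P 1)).natAbs ≤ C := fun P =>
    (natAbs_apply_le_l1norm (δ (single P 1)) y).trans (hC P)
  have hbound : ∀ n : ℕ, n * (φ D).natAbs ≤ C * B := by
    intro n
    obtain ⟨E, hE, hmem⟩ := hB n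
    have h0 : δ (n • D - E) = 0 := hPr _ hmem
    have h1 : φ (n • D) = φ E := by
      have : φ (n • D - E) = 0 := by
        show (δ (n • D - E)) y = 0
        rw [h0]; rfl
      rw [map_sub, sub_eq_zero] at this
      exact this
    have h2 : (φ (n • D)).natAbs = n * (φ D).natAbs := by
      rw [map_nsmul, nsmul_eq_mul, Int.natAbs_mul, Int.natAbs_natCast]
    rw [← h2, h1]
    exact (natAbs_map_le φ C hφC E).trans (Nat.mul_le_mul_left _ hE)
  have hzero : (φ D).natAbs = 0 := by
    by_contra hne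
    have hpos : 1 ≤ (φ D).natAbs := Nat.one_le_iff_ne_zero.mpr hne
    have := hbound (C * B + 1)
    have h3 : (C * B + 1) * 1 ≤ (C * B + 1) * (φ D).natAbs := Nat.mul_le_mul_left _ hpos
    omega
  exact Int.natAbs_eq_zero.mp hzero

end Fermat.Agent.S37.H697

end
-- ===== PACK-END S37/H697/Bounded.lean

-- ===== PACK-BEGIN S18/H568/NormDescent.lean
section


/-!
# S18 / node D2 — abstract Kummer descent by the norm trick (helper568)

`F'/F` finite of degree `d`, `gcd(d, m) = 1`, `u ∈ F` with `u = c · y ^ m` in `F'` (`c` a constant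
of the base field `K`, `y ∈ F'`).  Then `u = c' · y' ^ m` with `c' ∈ K`, `y' ∈ F`.

Proof: `u ^ d = Nm(u) = c ^ d · Nm(y) ^ m`; with `a d + b m = 1`,
`u = (u ^ d) ^ a · (u ^ b) ^ m = c ^ (d a) · (Nm(y) ^ a · u ^ b) ^ m`.

Mathlib-only.
-/

set_option autoImplicit false

noncomputable section

namespace Fermat.Agent.S18.H568

open Module

/-- Norm trick (Kummer descent along an extension of degree prime to `m`). -/
theorem exists_pow_of_norm_coprime {K F F' : Type*} [Field K] [Field F] [Field F']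
    [Algebra K F] [Algebra K F'] [Algebra F F'] [IsScalarTower K F F']
    [FiniteDimensional F F'] (m : ℕ) (hcop : Nat.Coprime (finrank F F') m)
    (u : F) (hu : u ≠ 0) (c : K) (hc : c ≠ 0) (y : F') (hy : y ≠ 0)
    (h : algebraMap F F' u = algebraMap K F' c * y ^ m) :
    ∃ (c' : K) (y' : F), c' ≠ 0 ∧ y' ≠ 0 ∧ u = algebraMap K F c' * y' ^ m := by
  set d : ℕ := finrank F F' with hd
  -- norms
  have hN : u ^ d = (algebraMap K F c) ^ d * (Algebra.norm F y) ^ m := by
    have h1 : Algebra.norm F (algebraMap F F' u) = u ^ d := Algebra.norm_algebraMap u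
    have h2 : Algebra.norm F (algebraMap K F' c) = (algebraMap K F c) ^ d := by
      rw [IsScalarTower.algebraMap_apply K F F']
      exact Algebra.norm_algebraMap _
    rw [← h1, h, map_mul, map_pow, h2]
  have hNy : Algebra.norm F y ≠ 0 := by
    rw [Ne, Algebra.norm_eq_zero_iff]
    exact hy
  have hcF : algebraMap K F c ≠ 0 := by
    rw [Ne, map_eq_zero_iff _ (algebraMap K F).injective]
    exact hc
  -- Bezout
  have hbez : (1 : ℤ) = (d : ℤ) * Int.gcdA d m + (m : ℤ) * Int.gcdB d m := by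
    have := Int.gcd_eq_gcd_ab (d : ℤ) (m : ℤ)
    rw [Int.gcd_natCast_natCast, hcop.gcd_eq_one] at this
    exact_mod_cast this
  set a : ℤ := Int.gcdA d m
  set b : ℤ := Int.gcdB d m
  refine ⟨c ^ ((d : ℤ) * a), (Algebra.norm F y) ^ a * u ^ b, zpow_ne_zero _ hc,
    mul_ne_zero (zpow_ne_zero _ hNy) (zpow_ne_zero _ hu), ?_⟩
  have hu1 : u = u ^ ((d : ℤ) * a + (m : ℤ) * b) := by rw [← hbez, zpow_one]
  rw [map_zpow₀]
  calc u = u ^ ((d : ℤ) * a + (m : ℤ) * b) := hu1
    _ = (u ^ d) ^ a * (u ^ b) ^ m := by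
        rw [zpow_add₀ hu, zpow_mul, zpow_natCast, mul_comm (m : ℤ) b, zpow_mul, zpow_natCast]
    _ = ((algebraMap K F c) ^ d * (Algebra.norm F y) ^ m) ^ a * (u ^ b) ^ m := by rw [hN]
    _ = (algebraMap K F c) ^ ((d : ℤ) * a) * ((Algebra.norm F y) ^ a * u ^ b) ^ m := by
        rw [mul_zpow, mul_pow, zpow_mul, zpow_natCast, ← zpow_natCast ((Algebra.norm F) y) m,
          ← zpow_mul, ← zpow_natCast (((Algebra.norm F) y) ^ a) m, ← zpow_mul,
          mul_comm (m : ℤ) a, mul_assoc]

end Fermat.Agent.S18.H568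

end

end
-- ===== PACK-END S18/H568/NormDescent.lean

-- ===== PACK-BEGIN S20/F_helper658.lean
section
/-
S20 / work package F (helper658): one modular form of level `Γ₀(N)` whose `SL(2,ℤ)`-conjugates
take pairwise distinct values at a common point.

`f0 N = Δ ∣[12] diag(N,1)` (i.e. `τ ↦ N¹¹ Δ(Nτ)`).  For `A ∈ SL(2,ℤ)` write
`diag(N,1) A = B U` with `B ∈ SL(2,ℤ)`, `U = [e b; 0 d]`, `e = gcd(N, A₁₀)`, `e d = N`.  Then
`f0 ∣ A = Δ ∣ U` decays at `i∞` exactly like `exp(-2π (N/d²) Im τ)`, so `f0 ∣ A = f0` forces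
`d = 1`, i.e. `A ∈ Γ₀(N)`.  Hence the conjugates are pairwise distinct holomorphic functions and
the product of their differences is a nonzero holomorphic function on `ℍ`.
-/



set_option autoImplicit false

open UpperHalfPlane ModularForm CongruenceSubgroup MatrixGroups
open Matrix.SpecialLinearGroup Filter Topology
open scoped Manifold

noncomputable section

namespace Fermat.Agent.S20.F658

/-- `diag(N, 1)` as an element of `GL(2, ℝ)`. -/
def gN (N : ℕ) [NeZero N] : GL (Fin 2) ℝ :=
  Matrix.GeneralLinearGroup.mkOfDetNeZero !![(N : ℝ), 0; 0, 1]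
    (by simpa [Matrix.det_fin_two] using NeZero.ne N)

lemma gN_val (N : ℕ) [NeZero N] : (gN N : Matrix (Fin 2) (Fin 2) ℝ) = !![(N : ℝ), 0; 0, 1] := rfl

lemma gN_det (N : ℕ) [NeZero N] : (gN N).det.val = N := by
  simp [gN, Matrix.det_fin_two]

/-- an element of `SL(2,ℤ)` from its entries -/
def mkSL2 (a b c d : ℤ) (h : a * d - b * c = 1) : SL(2, ℤ) :=
  ⟨!![a, b; c, d], by rw [Matrix.det_fin_two_of]; exact h⟩

lemma mkSL2_val (a b c d : ℤ) (h : a * d - b * c = 1) :
    (mkSL2 a b c d h : Matrix (Fin 2) (Fin 2) ℤ) = !![a, b; c, d] := rfl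

lemma SL2_det_eq (A : SL(2, ℤ)) : A 0 0 * A 1 1 - A 0 1 * A 1 0 = 1 := by
  have := A.det_coe
  rwa [Matrix.det_fin_two] at this

/-- for `A ∈ Γ₀(N)`, `diag(N,1) A = A' diag(N,1)` with `A' ∈ SL(2,ℤ)` -/
lemma gN_mul_Gamma0 (N : ℕ) [NeZero N] (A : SL(2, ℤ)) (hA : A ∈ Gamma0 N) :
    ∃ A' : SL(2, ℤ), gN N * mapGL ℝ A = mapGL ℝ A' * gN N := by
  rw [Gamma0_mem, ZMod.intCast_zmod_eq_zero_iff_dvd] at hA
  obtain ⟨c', hc'⟩ := hA
  have hdet := SL2_det_eq A
  refine ⟨mkSL2 (A 0 0) (N * A 0 1) c' (A 1 1) ?_, ?_⟩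
  · rw [hc'] at hdet
    linear_combination hdet
  · apply Matrix.GeneralLinearGroup.ext
    intro i j
    fin_cases i <;> fin_cases j <;>
      simp [Matrix.mul_apply, Fin.sum_univ_two, gN_val, mkSL2_val, hc', mul_comm]

open ConjAct Pointwise in
lemma Gamma0_le_conj (N : ℕ) [NeZero N] :
    (Gamma0 N : Subgroup (GL (Fin 2) ℝ)) ≤ toConjAct (gN N)⁻¹ • 𝒮ℒ := by
  rintro _ ⟨A, hA, rfl⟩
  rw [Subgroup.mem_pointwise_smul_iff_inv_smul_mem, ← _root_.map_inv, inv_inv, toConjAct_smul]
  obtain ⟨A', hA'⟩ := gN_mul_Gamma0 N A hA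
  exact ⟨A', by rw [hA', mul_inv_cancel_right]⟩

open ConjAct Pointwise in
/-- `f₀ = Δ ∣[12] diag(N,1)`, i.e. `τ ↦ N^11 Δ(N τ)`, as a modular form of level `Γ₀(N)`. -/
def f0 (N : ℕ) [NeZero N] : ModularForm (Gamma0 N : Subgroup (GL (Fin 2) ℝ)) 12 where
  toFun := (discriminant : ℍ → ℂ) ∣[(12 : ℤ)] gN N
  slash_action_eq' γ hγ :=
    (ModularForm.translate CuspForm.discriminant (gN N)).slash_action_eq' γ (Gamma0_le_conj N hγ)
  holo' := (ModularForm.translate CuspForm.discriminant (gN N)).holo'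
  bdd_at_cusps' hc :=
    (ModularForm.translate CuspForm.discriminant (gN N)).bdd_at_cusps'
      (hc.mono (Gamma0_le_conj N))

lemma coe_f0 (N : ℕ) [NeZero N] :
    (f0 N : ℍ → ℂ) = (discriminant : ℍ → ℂ) ∣[(12 : ℤ)] gN N := rfl

lemma hermite_aux (N p q r s e N' r' x y : ℤ) (hdet : p * s - q * r = 1) (hN' : N = e * N')
    (hr' : r = e * r') (hbez : e = N * x + r * y) (he0 : e ≠ 0) :
    N' * p * (x * s) - (-(y - N * x * q)) * r' = 1 ∧
    N * q = N' * p * ((x * s) * N * q + (y - N * x * q) * s) + (-(y - N * x * q)) * N' ∧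
    s = r' * ((x * s) * N * q + (y - N * x * q) * s) + (x * s) * N' := by
  have hbez' : N * p * (x * s) + (y - N * x * q) * r = e := by
    rw [hbez]; linear_combination (N * x) * hdet
  refine ⟨?_, ?_, ?_⟩
  · apply mul_left_cancel₀ he0
    linear_combination hbez' - (p * x * s) * hN' - (y - N * x * q) * hr'
  · have : p * ((x * s) * N * q + (y - N * x * q) * s) - (y - N * x * q) = q * e := by
      rw [← hbez']; linear_combination (y - N * x * q) * hdet
    linear_combination (-N') * this + q * hN'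
  · apply mul_left_cancel₀ he0
    have h1 : e * s = s * (N * p * (x * s) + (y - N * x * q) * r) := by rw [hbez']; ring
    linear_combination h1 + (x * s * N) * hdet
      + ((x * s) * N * q + (y - N * x * q) * s) * hr' + (x * s) * hN'

/-- Hermite-type decomposition: `diag(N,1) A = B U` with `B ∈ SL(2,ℤ)` and `U` upper triangular
with diagonal `(e, N/e)`, `e = gcd(N, A₁₀)`. -/
lemma exists_upper (N : ℕ) [NeZero N] (A : SL(2, ℤ)) :
    ∃ (B : SL(2, ℤ)) (U : GL (Fin 2) ℝ) (e d : ℕ), gN N * mapGL ℝ A = mapGL ℝ B * U ∧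
      U 1 0 = 0 ∧ U 1 1 = d ∧ U.det.val = N ∧ e * d = N ∧ e = Int.gcd N (A 1 0) := by
  have hN : (N : ℤ) ≠ 0 := Int.natCast_ne_zero.mpr (NeZero.ne N)
  have hdet : A 0 0 * A 1 1 - A 0 1 * A 1 0 = 1 := SL2_det_eq A
  obtain ⟨e, he⟩ : ∃ e : ℕ, e = Int.gcd N (A 1 0) := ⟨_, rfl⟩
  have he0 : (e : ℤ) ≠ 0 := by
    rw [he, Int.natCast_ne_zero]
    intro h
    rw [Int.gcd_eq_zero_iff] at h
    exact hN h.1
  obtain ⟨N', hN'⟩ : (e : ℤ) ∣ N := he ▸ Int.gcd_dvd_left _ _
  obtain ⟨r', hr'⟩ : (e : ℤ) ∣ A 1 0 := he ▸ Int.gcd_dvd_right _ _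
  have hbez : (e : ℤ) = N * Int.gcdA N (A 1 0) + A 1 0 * Int.gcdB N (A 1 0) :=
    he ▸ Int.gcd_eq_gcd_ab _ _
  obtain ⟨hB, h01, h11⟩ := hermite_aux N (A 0 0) (A 0 1) (A 1 0) (A 1 1) e N' r' _ _ hdet hN' hr'
    hbez he0
  have hN'pos : 0 < N' := by
    have h1 : (0 : ℤ) < N := by exact_mod_cast Nat.pos_of_ne_zero (NeZero.ne N)
    have h2 : (0 : ℤ) < e := by exact_mod_cast Nat.pos_of_ne_zero (by exact_mod_cast he0)
    rw [hN'] at h1
    by_contra h
    push Not at h
    nlinarith
  obtain ⟨d, hd⟩ : ∃ d : ℕ, (d : ℤ) = N' := ⟨N'.toNat, Int.toNat_of_nonneg hN'pos.le⟩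
  obtain ⟨x, hx⟩ : ∃ x : ℤ, x = Int.gcdA N (A 1 0) := ⟨_, rfl⟩
  obtain ⟨y, hy⟩ : ∃ y : ℤ, y = Int.gcdB N (A 1 0) := ⟨_, rfl⟩
  rw [← hx, ← hy] at hB h01 h11
  obtain ⟨u, hu⟩ : ∃ u : ℤ, u = x * A 1 1 := ⟨_, rfl⟩
  obtain ⟨v, hv⟩ : ∃ v : ℤ, v = y - N * x * A 0 1 := ⟨_, rfl⟩
  rw [← hu, ← hv] at hB h01 h11
  obtain ⟨b, hb⟩ : ∃ b : ℤ, b = u * N * A 0 1 + v * A 1 1 := ⟨_, rfl⟩
  rw [← hb] at h01 h11
  have hed : e * d = N := by
    have : (e : ℤ) * d = N := by rw [hd, ← hN']
    exact_mod_cast this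
  have hU : Matrix.det !![(e : ℝ), (b : ℝ); 0, (d : ℝ)] ≠ 0 := by
    rw [Matrix.det_fin_two_of]
    have : ((e : ℝ) * d) ≠ 0 := by
      have : ((e * d : ℕ) : ℝ) ≠ 0 := by rw [hed]; exact_mod_cast NeZero.ne N
      exact_mod_cast this
    simpa using this
  refine ⟨mkSL2 (N' * A 0 0) (-v) r' u hB, Matrix.GeneralLinearGroup.mkOfDetNeZero _ hU, e, d,
    ?_, rfl, rfl, ?_, hed, he⟩
  · -- the matrix identity
    have h00 : (N : ℤ) * A 0 0 = N' * A 0 0 * e := by rw [hN']; ring
    have h01' : (N : ℤ) * A 0 1 = N' * A 0 0 * b + -(v * d) := by rw [h01, hd]; ring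
    have h10 : A 1 0 = r' * e := by rw [hr']; ring
    have h11' : A 1 1 = r' * b + u * d := by rw [hd]; exact h11
    apply Matrix.GeneralLinearGroup.ext
    intro i j
    fin_cases i <;> fin_cases j <;>
      simp [Matrix.mul_apply, Fin.sum_univ_two, gN_val, mkSL2_val,
        Matrix.GeneralLinearGroup.mkOfDetNeZero]
    · exact_mod_cast h00
    · exact_mod_cast h01'
    · exact_mod_cast h10
    · exact_mod_cast h11'
  · simp [Matrix.GeneralLinearGroup.mkOfDetNeZero, Matrix.det_fin_two_of]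
    exact_mod_cast hed

/-- `‖Δ z‖ · exp(2π Im z) → 1` as `Im z → ∞`. -/
lemma tendsto_norm_discriminant_mul_exp :
    Tendsto (fun z : ℍ ↦ ‖discriminant z‖ * Real.exp (2 * Real.pi * z.im)) atImInfty (𝓝 1) := by
  have h := (tendsto_atImInfty_tprod_one_sub_eta_q_pow).norm
  rw [norm_one] at h
  refine h.congr fun z ↦ ?_
  rw [discriminant_eq_q_prod, norm_mul]
  have hq_norm : ‖Function.Periodic.qParam 1 z‖ = Real.exp (-2 * Real.pi * z.im) := by
    simp [Function.Periodic.qParam, Complex.norm_exp]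
  rw [hq_norm, mul_comm (Real.exp _), mul_assoc, ← Real.exp_add]
  simp

/-- decay rate of `Δ ∣ g` at `i∞` for upper triangular `g` -/
lemma tendsto_norm_slash_upper (g : GL (Fin 2) ℝ) (hg : g 1 0 = 0) :
    Tendsto (fun τ : ℍ ↦ ‖((discriminant : ℍ → ℂ) ∣[(12 : ℤ)] g) τ‖ *
        Real.exp (2 * Real.pi * (|g.det.val| / (g 1 1) ^ 2) * τ.im)) atImInfty
      (𝓝 (|g.det.val| ^ 11 * (|g 1 1| ^ 12)⁻¹)) := by
  have h := (tendsto_norm_discriminant_mul_exp.comp (tendsto_smul_atImInfty hg)).mul_const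
    (|g.det.val| ^ 11 * (|g 1 1| ^ 12)⁻¹)
  rw [one_mul] at h
  refine h.congr fun τ ↦ ?_
  have hden : denom g τ = ((g 1 1 : ℝ) : ℂ) := by simp [denom, hg]
  have him : (g • τ).im = |g.det.val| / (g 1 1) ^ 2 * τ.im := by
    rw [im_smul_eq_div_normSq, hden, Complex.normSq_ofReal]
    ring
  simp only [Function.comp_apply, slash_apply, norm_mul, norm_σ, norm_zpow, hden, him,
    Complex.norm_real, Real.norm_eq_abs]
  rw [abs_abs, show ((12 : ℤ) - 1) = ((11 : ℕ) : ℤ) by norm_num, zpow_natCast,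
    show (-12 : ℤ) = -((12 : ℕ) : ℤ) by norm_num, zpow_neg, zpow_natCast,
    show 2 * Real.pi * (|g.det.val| / (g 1 1) ^ 2 * τ.im)
      = 2 * Real.pi * (|g.det.val| / (g 1 1) ^ 2) * τ.im by ring]
  ring

/-- a function cannot decay at two different exponential rates -/
lemma rate_unique {f : ℍ → ℂ} {α β c c' : ℝ} (hc : c ≠ 0) (hc' : c' ≠ 0)
    (h : Tendsto (fun τ : ℍ ↦ ‖f τ‖ * Real.exp (2 * Real.pi * α * τ.im)) atImInfty (𝓝 c))
    (h' : Tendsto (fun τ : ℍ ↦ ‖f τ‖ * Real.exp (2 * Real.pi * β * τ.im)) atImInfty (𝓝 c')) :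
    α = β := by
  -- it suffices to prove `β ≤ α` for all such data, by symmetry
  suffices H : ∀ {α β c c' : ℝ}, c ≠ 0 → c' ≠ 0 →
      Tendsto (fun τ : ℍ ↦ ‖f τ‖ * Real.exp (2 * Real.pi * α * τ.im)) atImInfty (𝓝 c) →
      Tendsto (fun τ : ℍ ↦ ‖f τ‖ * Real.exp (2 * Real.pi * β * τ.im)) atImInfty (𝓝 c') →
      β ≤ α from le_antisymm (H hc' hc h' h) (H hc hc' h h')
  intro α β c c' hc hc' h h'
  by_contra hlt
  push Not at hlt
  -- `exp (2π(β-α) Im τ) → ∞`
  have hexp : Tendsto (fun τ : ℍ ↦ Real.exp (2 * Real.pi * (β - α) * τ.im)) atImInfty atTop := by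
    refine Real.tendsto_exp_atTop.comp ?_
    refine Tendsto.const_mul_atTop (by have := Real.pi_pos; nlinarith) ?_
    exact tendsto_comap
  -- hence `‖f τ‖ exp(2π β Im τ) = (‖f τ‖ exp(2π α Im τ)) * exp(2π(β-α) Im τ)` is unbounded
  have hprod : Tendsto (fun τ : ℍ ↦ |‖f τ‖ * Real.exp (2 * Real.pi * β * τ.im)|)
      atImInfty atTop := by
    have h1 : Tendsto (fun τ : ℍ ↦ |‖f τ‖ * Real.exp (2 * Real.pi * α * τ.im)|) atImInfty
        (𝓝 |c|) := h.abs
    have h2 := Tendsto.pos_mul_atTop (abs_pos.mpr hc) h1 hexp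
    refine h2.congr fun τ ↦ ?_
    rw [← abs_of_pos (Real.exp_pos (2 * Real.pi * (β - α) * τ.im)), ← abs_mul, mul_assoc,
      ← Real.exp_add]
    congr 3
    ring
  exact not_tendsto_nhds_of_tendsto_atTop hprod _ h'.abs


/-- the stabiliser of `Δ ∣ diag(N,1)` in `SL(2,ℤ)` is contained in `Γ₀(N)` -/
lemma mem_Gamma0_of_slash_eq (N : ℕ) [NeZero N] (A : SL(2, ℤ))
    (h : ((discriminant : ℍ → ℂ) ∣[(12 : ℤ)] gN N) ∣[(12 : ℤ)] (mapGL ℝ A : GL (Fin 2) ℝ) =
      (discriminant : ℍ → ℂ) ∣[(12 : ℤ)] gN N) :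
    A ∈ Gamma0 N := by
  obtain ⟨B, U, e, d, hBU, hU10, hU11, hUdet, hed, he⟩ := exists_upper N A
  have hΔB : (discriminant : ℍ → ℂ) ∣[(12 : ℤ)] (mapGL ℝ B : GL (Fin 2) ℝ) = discriminant :=
    CuspForm.discriminant.slash_action_eq' _ ⟨B, rfl⟩
  rw [← SlashAction.slash_mul, hBU, SlashAction.slash_mul, hΔB] at h
  have hN0 : (N : ℝ) ≠ 0 := by exact_mod_cast NeZero.ne N
  have hNpos : (0 : ℝ) < N := by exact_mod_cast Nat.pos_of_ne_zero (NeZero.ne N)
  have hd0 : d ≠ 0 := by
    rintro rfl
    rw [mul_zero] at hed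
    exact NeZero.ne N hed.symm
  have hdR : (d : ℝ) ≠ 0 := by exact_mod_cast hd0
  have h1 := tendsto_norm_slash_upper U hU10
  have h2 := tendsto_norm_slash_upper (gN N) (by simp [gN_val])
  rw [h] at h1
  have hg11 : (gN N) 1 1 = 1 := by simp [gN_val]
  rw [hU11, hUdet] at h1
  rw [hg11, gN_det] at h2
  have hrate := rate_unique (by positivity) (by positivity) h1 h2
  -- `N / d^2 = N / 1`, so `d = 1`
  have hd1 : d = 1 := by
    have h3 : ((d : ℝ)) ^ 2 = 1 := by
      rw [abs_of_pos hNpos] at hrate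
      field_simp at hrate
      nlinarith [hrate]
    have h4 : (d : ℝ) = 1 := by
      have hdpos : (0 : ℝ) ≤ d := Nat.cast_nonneg d
      nlinarith
    exact_mod_cast h4
  rw [hd1, mul_one] at hed
  rw [Gamma0_mem, ZMod.intCast_zmod_eq_zero_iff_dvd]
  have : (e : ℤ) ∣ A 1 0 := he ▸ Int.gcd_dvd_right _ _
  rwa [hed] at this


/-- the conjugates of `f0 N` are pairwise distinct functions -/
lemma quotientFunc_f0_injective (N : ℕ) [NeZero N] :
    Function.Injective (fun q : 𝒮ℒ ⧸ (Gamma0 N : Subgroup (GL (Fin 2) ℝ)).subgroupOf 𝒮ℒ ↦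
      SlashInvariantForm.quotientFunc (f0 N) q) := by
  intro q q' hqq'
  induction q using Quotient.inductionOn with
  | h h =>
  induction q' using Quotient.inductionOn with
  | h h' =>
  simp only [SlashInvariantForm.quotientFunc_mk] at hqq'
  -- `f₀ ∣ h⁻¹ = f₀ ∣ h'⁻¹`
  have key : ((f0 N : ℍ → ℂ) ∣[(12 : ℤ)] ((h : GL (Fin 2) ℝ)⁻¹ * (h' : GL (Fin 2) ℝ))) =
      (f0 N : ℍ → ℂ) := by
    rw [SlashAction.slash_mul, hqq', ← SlashAction.slash_mul, inv_mul_cancel,
      SlashAction.slash_one]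
  obtain ⟨A, hA⟩ : ((h : GL (Fin 2) ℝ)⁻¹ * (h' : GL (Fin 2) ℝ)) ∈ 𝒮ℒ :=
    mul_mem (inv_mem h.2) h'.2
  rw [← hA, coe_f0] at key
  have hmem := mem_Gamma0_of_slash_eq N A key
  refine Quotient.sound (QuotientGroup.leftRel_apply.mpr ?_)
  rw [Subgroup.mem_subgroupOf]
  exact ⟨A, hmem, by rw [hA]; simp⟩

end Fermat.Agent.S20.F658

namespace Fermat.Agent.S20

open F658 in
/-- **WP F.** There is a weight 12 form of level `Γ₀(N)` and a point `z₀` at which its
`SL(2,ℤ)`-conjugates take pairwise distinct values. -/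
theorem exists_form_distinct_conjugates (N : ℕ) [NeZero N] :
    ∃ (f₀ : ModularForm (Gamma0 N : Subgroup (GL (Fin 2) ℝ)) 12) (z₀ : ℍ),
      Function.Injective (fun q : 𝒮ℒ ⧸ (Gamma0 N : Subgroup (GL (Fin 2) ℝ)).subgroupOf 𝒮ℒ ↦
        SlashInvariantForm.quotientFunc f₀ q z₀) := by
  classical
  let 𝒬 := 𝒮ℒ ⧸ (Gamma0 N : Subgroup (GL (Fin 2) ℝ)).subgroupOf 𝒮ℒ
  let _ : Fintype 𝒬 := Fintype.ofFinite 𝒬
  let F : 𝒬 → ℍ → ℂ := fun q ↦ SlashInvariantForm.quotientFunc (f0 N) q
  have hF : ∀ q, MDifferentiable 𝓘(ℂ) 𝓘(ℂ) (F q) :=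
    Quotient.forall.mpr fun r ↦ (ModularForm.translate (f0 N) r.val⁻¹).holo'
  let s : Finset (𝒬 × 𝒬) := Finset.univ.filter fun p ↦ p.1 ≠ p.2
  have hne : ∏ p ∈ s, (F p.1 - F p.2) ≠ 0 := by
    intro h0
    rw [UpperHalfPlane.prod_eq_zero_iff (fun p _ ↦ (hF p.1).sub (hF p.2))] at h0
    obtain ⟨p, hp, hp0⟩ := h0
    exact (Finset.mem_filter.mp hp).2 (quotientFunc_f0_injective N (sub_eq_zero.mp hp0))
  obtain ⟨z₀, hz₀⟩ := Function.ne_iff.mp hne
  refine ⟨f0 N, z₀, fun q q' hqq' ↦ ?_⟩
  by_contra hq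
  apply hz₀
  rw [Finset.prod_apply, Pi.zero_apply]
  exact Finset.prod_eq_zero (i := (q, q')) (Finset.mem_filter.mpr ⟨Finset.mem_univ _, hq⟩)
    (by simpa [F, sub_eq_zero] using hqq')

end Fermat.Agent.S20

end
end
-- ===== PACK-END S20/F_helper658.lean

-- ===== PACK-BEGIN S17/H980/Siegel.lean
section


/-!
# Siegel's lemma in Plücker form (piece MINK of S17 / tower H, helper980)

Mathlib-only.  For an integer matrix `B` (`d × n`, `d < n`) with a non-vanishing maximal minor there
is a non-zero integer vector `a` in the kernel of `B` with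

  `‖a‖_∞ ≤ k * H ^ (1 / k)`,   `k = n - d`,  `H = max |maximal minors of B|`.

The proof is the pigeonhole principle (no measure theory): choose the maximal minor `B₁` of largest
absolute value; the `(T + 1) ^ k` vectors of the box `{0, …, T} ^ k` (free coordinates) are mapped to
the finite group `ℤ ^ d / B₁ ℤ ^ d` of order `|det B₁|`; Cramer's rule bounds the remaining
coordinates because all ratios of maximal minors are `≤ 1` in absolute value.

Main statements:
* `exists_small_kernel_block` : block form `[B₁ | B₂]`, `B₁` square.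
* `exists_small_kernel` : general form, minors indexed by embeddings `Fin d ↪ ι`.
-/

set_option autoImplicit false

open Matrix

namespace Fermat.Agent.S17.H980

section Block

variable {ι₁ ι₂ : Type*} [Fintype ι₁] [DecidableEq ι₁] [Fintype ι₂] [DecidableEq ι₂]

/-- The index of the lattice `B₁ ℤ^d` in `ℤ^d` is `|det B₁|`. -/
theorem card_quotient_range_mulVecLin (B₁ : Matrix ι₁ ι₁ ℤ) (hdet : B₁.det ≠ 0) :
    Nat.card ((ι₁ → ℤ) ⧸ LinearMap.range (Matrix.toLin' B₁)) = B₁.det.natAbs := by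
  have hinj : Function.Injective (Matrix.toLin' B₁) := by
    rw [← LinearMap.ker_eq_bot, LinearMap.ker_eq_bot']
    intro v hv
    exact Matrix.eq_zero_of_mulVec_eq_zero hdet (by simpa using hv)
  let e : (ι₁ → ℤ) ≃ₗ[ℤ] LinearMap.range (Matrix.toLin' B₁) := LinearEquiv.ofInjective _ hinj
  have h := Submodule.natAbs_det_equiv (LinearMap.range (Matrix.toLin' B₁)) e
  rw [← h]
  congr 1
  rw [← LinearMap.det_toLin' B₁]
  congr 1

/-- **Pigeonhole step.**  If `|det B₁| < (T + 1) ^ k` (`k = #ι₂`), there are integer vectors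
`a₁`, `a₂ ≠ 0` with `B₁ a₁ + B₂ a₂ = 0` and `|a₂ i| ≤ T`. -/
theorem exists_small_kernel_pigeonhole (B₁ : Matrix ι₁ ι₁ ℤ) (B₂ : Matrix ι₁ ι₂ ℤ)
    (hdet : B₁.det ≠ 0) (T : ℕ) (hT : B₁.det.natAbs < (T + 1) ^ Fintype.card ι₂) :
    ∃ (a₁ : ι₁ → ℤ) (a₂ : ι₂ → ℤ), a₂ ≠ 0 ∧ B₁ *ᵥ a₁ + B₂ *ᵥ a₂ = 0 ∧ ∀ i, |a₂ i| ≤ T := by
  classical
  set N := LinearMap.range (Matrix.toLin' B₁) with hN
  have hcard : Nat.card ((ι₁ → ℤ) ⧸ N) = B₁.det.natAbs := card_quotient_range_mulVecLin B₁ hdet
  have hfin : Finite ((ι₁ → ℤ) ⧸ N) := by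
    apply Nat.finite_of_card_ne_zero
    rw [hcard]
    exact Int.natAbs_ne_zero.mpr hdet
  -- the box
  let f : (ι₂ → Fin (T + 1)) → (ι₁ → ℤ) ⧸ N := fun c =>
    Submodule.Quotient.mk (B₂ *ᵥ (fun i => ((c i : ℕ) : ℤ)))
  letI : Fintype ((ι₁ → ℤ) ⧸ N) := Fintype.ofFinite _
  have hlt : Fintype.card ((ι₁ → ℤ) ⧸ N) < Fintype.card (ι₂ → Fin (T + 1)) := by
    rw [← Nat.card_eq_fintype_card, hcard, Fintype.card_fun, Fintype.card_fin]
    exact hT
  obtain ⟨c, c', hne, hcc'⟩ := Fintype.exists_ne_map_eq_of_card_lt f hlt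
  -- the difference
  let a₂ : ι₂ → ℤ := fun i => ((c i : ℕ) : ℤ) - ((c' i : ℕ) : ℤ)
  have ha₂ : a₂ ≠ 0 := by
    intro h
    apply hne
    funext i
    have := congrFun h i
    simp only [a₂, Pi.zero_apply, sub_eq_zero] at this
    exact Fin.ext (by exact_mod_cast this)
  have hmem : B₂ *ᵥ a₂ ∈ N := by
    have h1 : B₂ *ᵥ a₂ = B₂ *ᵥ (fun i => ((c i : ℕ) : ℤ)) - B₂ *ᵥ (fun i => ((c' i : ℕ) : ℤ)) := by
      rw [← Matrix.mulVec_sub]; rfl
    rw [h1, ← Submodule.Quotient.eq]
    exact hcc'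
  obtain ⟨b, hb⟩ := hmem
  refine ⟨-b, a₂, ha₂, ?_, ?_⟩
  · rw [Matrix.mulVec_neg, ← hb]
    simp [Matrix.toLin'_apply]
  · intro i
    have h1 : ((c i : ℕ) : ℤ) ≤ T := by exact_mod_cast Nat.lt_succ_iff.mp (c i).2
    have h2 : ((c' i : ℕ) : ℤ) ≤ T := by exact_mod_cast Nat.lt_succ_iff.mp (c' i).2
    have h3 : (0 : ℤ) ≤ ((c i : ℕ) : ℤ) := Int.natCast_nonneg _
    have h4 : (0 : ℤ) ≤ ((c' i : ℕ) : ℤ) := Int.natCast_nonneg _
    simp only [a₂]
    rw [abs_le]
    constructor <;> omega

omit [DecidableEq ι₂] in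
/-- **Cramer step.**  If all the determinants obtained from `B₁` by replacing one column by a
column of `B₂` are bounded by `|det B₁|`, then `B₁ a₁ + B₂ a₂ = 0` and `|a₂ i| ≤ T` imply
`|a₁ j| ≤ k T`. -/
theorem abs_le_of_cramer (B₁ : Matrix ι₁ ι₁ ℤ) (B₂ : Matrix ι₁ ι₂ ℤ) (hdet : B₁.det ≠ 0)
    (hmax : ∀ (j : ι₁) (i : ι₂), |(B₁.updateCol j (fun r => B₂ r i)).det| ≤ |B₁.det|)
    (a₁ : ι₁ → ℤ) (a₂ : ι₂ → ℤ) (h : B₁ *ᵥ a₁ + B₂ *ᵥ a₂ = 0) (T : ℕ) (hT : ∀ i, |a₂ i| ≤ T)
    (j : ι₁) : |a₁ j| ≤ Fintype.card ι₂ * T := by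
  -- `det B₁ • a₁ = cramer B₁ (B₁ a₁) = - cramer B₁ (B₂ a₂)`
  have h1 : B₁ *ᵥ a₁ = -(B₂ *ᵥ a₂) := eq_neg_of_add_eq_zero_left h
  have h2 : B₁.det • a₁ = B₁.cramer (B₁ *ᵥ a₁) := by
    rw [Matrix.cramer_eq_adjugate_mulVec, Matrix.mulVec_mulVec, Matrix.adjugate_mul,
      Matrix.smul_mulVec, Matrix.one_mulVec]
  have h3 : B₂ *ᵥ a₂ = ∑ i, a₂ i • (fun r => B₂ r i) := by
    funext r
    simp [Matrix.mulVec, dotProduct, mul_comm]
  have h4 : B₁.det * a₁ j = -∑ i, a₂ i * (B₁.updateCol j (fun r => B₂ r i)).det := by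
    have := congrFun h2 j
    rw [h1, h3, map_neg, map_sum] at this
    simp only [Pi.smul_apply, smul_eq_mul, Pi.neg_apply, Finset.sum_apply, map_smul,
      Matrix.cramer_apply] at this
    exact this
  have h5 : |B₁.det| * |a₁ j| ≤ |B₁.det| * (Fintype.card ι₂ * T) := by
    rw [← abs_mul, h4, abs_neg]
    calc |∑ i, a₂ i * (B₁.updateCol j (fun r => B₂ r i)).det|
        ≤ ∑ i, |a₂ i * (B₁.updateCol j (fun r => B₂ r i)).det| := Finset.abs_sum_le_sum_abs _ _
      _ ≤ ∑ _i : ι₂, (T : ℤ) * |B₁.det| := by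
          apply Finset.sum_le_sum
          intro i _
          rw [abs_mul]
          exact mul_le_mul (hT i) (hmax j i) (abs_nonneg _) (by positivity)
      _ = |B₁.det| * (Fintype.card ι₂ * T) := by
          rw [Finset.sum_const, Finset.card_univ, nsmul_eq_mul]; ring
  exact le_of_mul_le_mul_left h5 (abs_pos.mpr hdet)

end Block

section General

variable {ι₁ ι : Type*} [Fintype ι₁] [DecidableEq ι₁] [Fintype ι] [DecidableEq ι]

/-- The maximal minor of `B` attached to a choice `e` of columns. -/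
def minor (B : Matrix ι₁ ι ℤ) (e : ι₁ ↪ ι) : ℤ := (B.submatrix id e).det

/-- Replacing the `j`-th chosen column by a column outside the range is again a choice of columns. -/
def updateEmb (e : ι₁ ↪ ι) (j : ι₁) (i : ι) (hi : i ∉ Set.range e) : ι₁ ↪ ι where
  toFun := Function.update e j i
  inj' := by
    intro x y hxy
    by_cases hx : x = j
    · by_cases hy : y = j
      · rw [hx, hy]
      · exfalso
        rw [hx, Function.update_self, Function.update_of_ne hy] at hxy
        exact hi ⟨y, hxy.symm⟩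
    · by_cases hy : y = j
      · exfalso
        rw [hy, Function.update_self, Function.update_of_ne hx] at hxy
        exact hi ⟨x, hxy⟩
      · rw [Function.update_of_ne hx, Function.update_of_ne hy] at hxy
        exact e.injective hxy

theorem minor_updateEmb (B : Matrix ι₁ ι ℤ) (e : ι₁ ↪ ι) (j : ι₁) (i : ι) (hi : i ∉ Set.range e) :
    minor B (updateEmb e j i hi) = ((B.submatrix id e).updateCol j (fun r => B r i)).det := by
  unfold minor
  congr 1
  ext r c
  by_cases hc : c = j
  · subst hc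
    simp [updateEmb, Matrix.updateCol_apply]
  · simp [updateEmb, Matrix.updateCol_apply, hc, Function.update_of_ne hc]

/-- **Siegel's lemma in Plücker form** (integer version).  Let `B` be an integer matrix with fewer
rows than columns, `k = #columns - #rows`, with a non-vanishing maximal minor, all maximal minors
bounded by `H`, and `H < (T + 1) ^ k`.  Then the kernel of `B` contains a non-zero integer vector
with all coordinates bounded by `k * T`. -/
theorem exists_small_kernel (B : Matrix ι₁ ι ℤ) (hcard : Fintype.card ι₁ < Fintype.card ι)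
    (hne : ∃ e : ι₁ ↪ ι, minor B e ≠ 0) (H : ℕ) (hH : ∀ e : ι₁ ↪ ι, |minor B e| ≤ H)
    (T : ℕ) (hT : H < (T + 1) ^ (Fintype.card ι - Fintype.card ι₁)) :
    ∃ a : ι → ℤ, a ≠ 0 ∧ B *ᵥ a = 0 ∧
      ∀ i, |a i| ≤ ((Fintype.card ι - Fintype.card ι₁ : ℕ) : ℤ) * T := by
  classical
  -- a column choice with maximal `|minor|`
  obtain ⟨e, -, hemax⟩ := Finset.exists_max_image (Finset.univ : Finset (ι₁ ↪ ι))
    (fun e => |minor B e|) (by obtain ⟨e, _⟩ := hne; exact ⟨e, Finset.mem_univ _⟩)
  have he0 : minor B e ≠ 0 := by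
    obtain ⟨e', he'⟩ := hne
    have h1 := hemax e' (Finset.mem_univ _)
    have h2 : 0 < |minor B e'| := abs_pos.mpr he'
    exact abs_pos.mp (lt_of_lt_of_le h2 h1)
  set k := Fintype.card ι - Fintype.card ι₁ with hk
  have hk1 : 1 ≤ k := by omega
  -- the complement of the chosen columns
  let ι₂ := {i : ι // i ∉ Set.range e}
  have hcard₂ : Fintype.card ι₂ = k := by
    have h1 : Fintype.card ι₂ = Fintype.card ι - Fintype.card {i : ι // i ∈ Set.range e} :=
      Fintype.card_subtype_compl _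
    have h2 : Fintype.card {i : ι // i ∈ Set.range e} = Fintype.card ι₁ := by
      rw [← Fintype.card_congr (Equiv.ofInjective e e.injective)]
    rw [h1, h2]
  let B₁ : Matrix ι₁ ι₁ ℤ := B.submatrix id e
  let B₂ : Matrix ι₁ ι₂ ℤ := B.submatrix id (fun i => i.1)
  have hdet : B₁.det ≠ 0 := he0
  have hT' : B₁.det.natAbs < (T + 1) ^ Fintype.card ι₂ := by
    rw [hcard₂]
    refine lt_of_le_of_lt ?_ hT
    have := hH e
    have h3 : ((B₁.det.natAbs : ℕ) : ℤ) ≤ H := by rw [Int.natCast_natAbs]; exact this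
    exact_mod_cast h3
  obtain ⟨a₁, a₂, ha₂, hker, hbd⟩ := exists_small_kernel_pigeonhole B₁ B₂ hdet T hT'
  have hmax : ∀ (j : ι₁) (i : ι₂), |(B₁.updateCol j (fun r => B₂ r i)).det| ≤ |B₁.det| := by
    intro j i
    have := hemax (updateEmb e j i.1 i.2) (Finset.mem_univ _)
    rw [minor_updateEmb] at this
    exact this
  have hbd₁ : ∀ j, |a₁ j| ≤ (k : ℤ) * T := by
    intro j
    have := abs_le_of_cramer B₁ B₂ hdet hmax a₁ a₂ hker T hbd j
    rw [hcard₂] at this
    exact this
  -- glue `a₁` and `a₂`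
  let σ : ι₁ ⊕ ι₂ ≃ ι :=
    (Equiv.sumCongr (Equiv.ofInjective e e.injective) (Equiv.refl _)).trans
      (Equiv.Set.sumCompl (Set.range e))
  have hσl : ∀ j, σ (Sum.inl j) = e j := fun j => rfl
  have hσr : ∀ i : ι₂, σ (Sum.inr i) = i.1 := fun i => rfl
  let a : ι → ℤ := fun i => Sum.elim a₁ a₂ (σ.symm i)
  have hal : ∀ j, a (e j) = a₁ j := by
    intro j
    simp only [a]
    rw [← hσl j, Equiv.symm_apply_apply]; rfl
  have har : ∀ i : ι₂, a i.1 = a₂ i := by
    intro i
    simp only [a]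
    rw [← hσr i, Equiv.symm_apply_apply]; rfl
  refine ⟨a, ?_, ?_, ?_⟩
  · intro h
    apply ha₂
    funext i
    rw [← har i, h]; rfl
  · funext r
    have h1 : (B *ᵥ a) r = ∑ s : ι₁ ⊕ ι₂, B r (σ s) * a (σ s) := by
      simp only [Matrix.mulVec, dotProduct]
      exact (Equiv.sum_comp σ (fun i => B r i * a i)).symm
    rw [h1, Fintype.sum_sum_type]
    simp only [hσl, hσr, hal, har]
    have h2 := congrFun hker r
    simp only [Pi.add_apply, Matrix.mulVec, dotProduct, Pi.zero_apply] at h2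
    exact h2
  · intro i
    obtain ⟨s, rfl⟩ := σ.surjective i
    rcases s with j | i'
    · rw [hσl, hal]; exact hbd₁ j
    · rw [hσr, har]
      refine le_trans (hbd i') ?_
      have : (1 : ℤ) ≤ k := by exact_mod_cast hk1
      nlinarith [Int.natCast_nonneg T]

end General

end Fermat.Agent.S17.H980

end
-- ===== PACK-END S17/H980/Siegel.lean

-- ===== PACK-BEGIN S17/H377/LangPlace.lean
section


set_option linter.style.haveILetI false

/-!
# Lang's place-extension theorem (helper377, S17 / G-DIV piece PLACE, Mathlib-only)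

`exists_valuationSubring_extends`: a ring hom `φ : A →+* k` from a subring `A` of a field `Ω`
into an algebraically closed field `k` extends to a valuation subring `V ⊇ A` of `Ω`,
`π : V →+* k`, with `ker π` the maximal ideal of `V`.
(Atiyah–Macdonald 5.21.)
-/

set_option autoImplicit false

namespace Fermat.Agent.S17.H377

open IsLocalRing Polynomial

section Graph

variable {Ω k : Type*} [Field Ω] [Field k]

/-- A subring of `Ω × k` which is the graph of a partial ring hom. -/
def IsFunctionalGraph (G : Subring (Ω × k)) : Prop := ∀ c : k, ((0 : Ω), c) ∈ G → c = 0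

/-- The graph of a partial ring hom. -/
def graphOf (A : Subring Ω) (f : A →+* k) : Subring (Ω × k) :=
  (A.subtype.prod f).range

theorem mem_graphOf {A : Subring Ω} {f : A →+* k} {p : Ω × k} :
    p ∈ graphOf A f ↔ ∃ a : A, (a : Ω) = p.1 ∧ f a = p.2 := by
  simp only [graphOf, RingHom.mem_range, RingHom.prod_apply, Subring.subtype_apply, Prod.ext_iff]

theorem isFunctionalGraph_graphOf (A : Subring Ω) (f : A →+* k) :
    IsFunctionalGraph (graphOf A f) := by
  intro c hc
  obtain ⟨a, ha1, ha2⟩ := mem_graphOf.mp hc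
  have : a = 0 := Subtype.ext ha1
  simpa [this] using ha2.symm

/-- The domain of a graph. -/
def domOf (G : Subring (Ω × k)) : Subring Ω := G.map (RingHom.fst Ω k)

theorem mem_domOf {G : Subring (Ω × k)} {x : Ω} : x ∈ domOf G ↔ ∃ c : k, (x, c) ∈ G := by
  simp only [domOf, Subring.mem_map, RingHom.coe_fst]
  constructor
  · rintro ⟨p, hp, rfl⟩
    exact ⟨p.2, hp⟩
  · rintro ⟨c, hc⟩
    exact ⟨(x, c), hc, rfl⟩

theorem snd_unique {G : Subring (Ω × k)} (hG : IsFunctionalGraph G) {x : Ω} {c c' : k}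
    (h : (x, c) ∈ G) (h' : (x, c') ∈ G) : c = c' := by
  have h2 := G.sub_mem h h'
  have h3 : ((x, c) - (x, c') : Ω × k) = (0, c - c') := by
    ext <;> simp
  rw [h3] at h2
  exact sub_eq_zero.mp (hG _ h2)

/-- The partial hom of a functional graph. -/
noncomputable def homOf (G : Subring (Ω × k)) (hG : IsFunctionalGraph G) : domOf G →+* k where
  toFun x := Classical.choose (mem_domOf.mp x.2)
  map_one' := snd_unique hG (Classical.choose_spec (mem_domOf.mp (1 : domOf G).2)) G.one_mem
  map_zero' := snd_unique hG (Classical.choose_spec (mem_domOf.mp (0 : domOf G).2)) G.zero_mem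
  map_mul' x y := snd_unique hG (Classical.choose_spec (mem_domOf.mp (x * y).2))
    (G.mul_mem (Classical.choose_spec (mem_domOf.mp x.2)) (Classical.choose_spec (mem_domOf.mp y.2)))
  map_add' x y := snd_unique hG (Classical.choose_spec (mem_domOf.mp (x + y).2))
    (G.add_mem (Classical.choose_spec (mem_domOf.mp x.2)) (Classical.choose_spec (mem_domOf.mp y.2)))

theorem homOf_spec (G : Subring (Ω × k)) (hG : IsFunctionalGraph G) (x : domOf G) :
    ((x : Ω), homOf G hG x) ∈ G :=
  Classical.choose_spec (mem_domOf.mp x.2)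

theorem homOf_eq (G : Subring (Ω × k)) (hG : IsFunctionalGraph G) {x : Ω} {c : k}
    (h : (x, c) ∈ G) : homOf G hG ⟨x, mem_domOf.mpr ⟨c, h⟩⟩ = c :=
  snd_unique hG (homOf_spec G hG _) h

/-- A maximal partial ring hom from a subring of `Ω` to `k`. -/
def IsMaxPartialHom (V : Subring Ω) (π : V →+* k) : Prop :=
  ∀ (A : Subring Ω) (f : A →+* k) (h : V ≤ A),
    (∀ v : V, f (Subring.inclusion h v) = π v) → A ≤ V

/-- Zorn: every partial hom extends to a maximal one. -/
theorem exists_isMaxPartialHom (A : Subring Ω) (φ : A →+* k) :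
    ∃ (V : Subring Ω) (π : V →+* k) (h : A ≤ V),
      (∀ a : A, π (Subring.inclusion h a) = φ a) ∧ IsMaxPartialHom V π := by
  obtain ⟨G, hG0, hGmax⟩ := zorn_le_nonempty₀ {G : Subring (Ω × k) | IsFunctionalGraph G}
    (fun c hc hchain y hy => by
      refine ⟨sSup c, ?_, fun z hz => le_sSup hz⟩
      intro d hd
      obtain ⟨s, hs, hds⟩ :=
        (Subring.mem_sSup_of_directedOn ⟨y, hy⟩ hchain.directedOn).mp hd
      exact hc hs d hds)
    (graphOf A φ) (isFunctionalGraph_graphOf A φ)
  have hGf : IsFunctionalGraph G := hGmax.prop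
  have hAV : A ≤ domOf G := fun a ha =>
    mem_domOf.mpr ⟨φ ⟨a, ha⟩, hG0 (mem_graphOf.mpr ⟨⟨a, ha⟩, rfl, rfl⟩)⟩
  refine ⟨domOf G, homOf G hGf, hAV, fun a => ?_, ?_⟩
  · exact homOf_eq G hGf (hG0 (mem_graphOf.mpr ⟨a, rfl, rfl⟩))
  · intro B f hVB hext b hb
    have hle : G ≤ graphOf B f := by
      rintro ⟨x, c⟩ hxc
      have hx : x ∈ domOf G := mem_domOf.mpr ⟨c, hxc⟩
      refine mem_graphOf.mpr ⟨⟨x, hVB hx⟩, rfl, ?_⟩
      have := hext ⟨x, hx⟩
      rw [homOf_eq G hGf hxc] at this
      exact this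
    have hge : graphOf B f ≤ G := hGmax.le_of_ge (isFunctionalGraph_graphOf B f) hle
    exact mem_domOf.mpr ⟨f ⟨b, hb⟩, hge (mem_graphOf.mpr ⟨⟨b, hb⟩, rfl, rfl⟩)⟩

end Graph

section MaxHom

variable {Ω k : Type*} [Field Ω] [Field k]

/-- For a maximal partial hom, elements not in the kernel are invertible in the domain. -/
theorem IsMaxPartialHom.inv_mem {V : Subring Ω} {π : V →+* k} (hmax : IsMaxPartialHom V π)
    (v : V) (hv : π v ≠ 0) : ((v : Ω))⁻¹ ∈ V := by
  classical
  let P : Ideal V := RingHom.ker π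
  have : P.IsPrime := RingHom.ker_isPrime π
  let A : Subring Ω := (LocalSubring.ofPrime V P).toSubring
  have hg : ∀ y : P.primeCompl, IsUnit (π y) := fun y =>
    IsUnit.mk0 _ (fun h => y.2 ((RingHom.mem_ker).mpr h))
  let f : A →+* k := IsLocalization.lift (M := P.primeCompl) (S := A) hg
  have hA : A ≤ V := hmax A f (LocalSubring.le_ofPrime V P)
    (fun v => IsLocalization.lift_eq (M := P.primeCompl) (S := A) hg v)
  have hvP : v ∈ P.primeCompl := fun h => hv ((RingHom.mem_ker).mp h)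
  have hu : IsUnit (algebraMap V A v) := IsLocalization.map_units A ⟨v, hvP⟩
  obtain ⟨u, hu'⟩ := isUnit_iff_exists_inv.mp hu
  have h1 : (v : Ω) * (u : Ω) = 1 := congrArg Subtype.val hu'
  have h2 : ((v : Ω))⁻¹ = (u : Ω) := by
    have hv0 : (v : Ω) ≠ 0 := left_ne_zero_of_mul_eq_one h1
    exact inv_eq_of_mul_eq_one_right h1
  rw [h2]
  exact hA u.2

theorem IsMaxPartialHom.ker_isMaximal {V : Subring Ω} {π : V →+* k}
    (hmax : IsMaxPartialHom V π) : (RingHom.ker π).IsMaximal := by
  refine Ideal.isMaximal_iff.mpr ⟨fun h => ?_, fun J x hJ hx hxJ => ?_⟩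
  · have : π 1 = 0 := (RingHom.mem_ker).mp h
    simp at this
  · have hx' : π x ≠ 0 := fun h => hx ((RingHom.mem_ker).mpr h)
    have hinv := hmax.inv_mem x hx'
    have : (⟨((x : Ω))⁻¹, hinv⟩ : V) * x = 1 := by
      apply Subtype.ext
      have hx0 : (x : Ω) ≠ 0 := fun h => hx' (by
        have : x = 0 := Subtype.ext h
        simp [this])
      simp [hx0]
    rw [← this]
    exact J.mul_mem_left _ hxJ

/-- Core step: if `ker π` does not generate the unit ideal of `V[y]`, then `y ∈ V`. -/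
theorem IsMaxPartialHom.mem_of_map_ne_top [IsAlgClosed k] {V : Subring Ω} {π : V →+* k}
    (hmax : IsMaxPartialHom V π) (y : Ω)
    (hy : (RingHom.ker π).map (algebraMap V (Algebra.adjoin V {y})) ≠ ⊤) : y ∈ V := by
  classical
  have hPmax : (RingHom.ker π).IsMaximal := hmax.ker_isMaximal
  obtain ⟨M, hM, hPM⟩ := Ideal.exists_le_maximal _ hy
  have hcomap : RingHom.ker π ≤ M.comap (algebraMap V (Algebra.adjoin V {y})) :=
    Ideal.map_le_iff_le_comap.mp hPM
  letI : Field (V ⧸ RingHom.ker π) := Ideal.Quotient.field _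
  letI : Field (Algebra.adjoin V {y} ⧸ M) := Ideal.Quotient.field M
  letI : Algebra (V ⧸ RingHom.ker π) (Algebra.adjoin V {y} ⧸ M) :=
    (Ideal.quotientMap M (algebraMap V (Algebra.adjoin V {y})) hcomap).toAlgebra
  letI : Algebra (V ⧸ RingHom.ker π) k := (RingHom.kerLift π).toAlgebra
  haveI : IsScalarTower V (V ⧸ RingHom.ker π) (Algebra.adjoin V {y} ⧸ M) :=
    IsScalarTower.of_algebraMap_eq (fun v => rfl)
  haveI : Algebra.FiniteType V (Algebra.adjoin V {y}) := by
    have h := Subalgebra.fg_adjoin_finset (R := V) ({y} : Finset Ω)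
    rw [Finset.coe_singleton] at h
    exact (Subalgebra.fg_iff_finiteType _).mp h
  haveI : Algebra.FiniteType V (Algebra.adjoin V {y} ⧸ M) :=
    Algebra.FiniteType.of_surjective (Ideal.Quotient.mkₐ V M) Ideal.Quotient.mk_surjective
  haveI : Algebra.FiniteType (V ⧸ RingHom.ker π) (Algebra.adjoin V {y} ⧸ M) :=
    Algebra.FiniteType.of_restrictScalars_finiteType V _ _
  haveI : Module.Finite (V ⧸ RingHom.ker π) (Algebra.adjoin V {y} ⧸ M) :=
    finite_of_finite_type_of_isJacobsonRing _ _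
  haveI : Algebra.IsAlgebraic (V ⧸ RingHom.ker π) (Algebra.adjoin V {y} ⧸ M) :=
    Algebra.IsAlgebraic.of_finite _ _
  haveI : Module.IsTorsionFree (V ⧸ RingHom.ker π) (Algebra.adjoin V {y} ⧸ M) :=
    DivisionSemiring.to_moduleIsTorsionFree
  haveI : Module.IsTorsionFree (V ⧸ RingHom.ker π) k :=
    DivisionSemiring.to_moduleIsTorsionFree
  let ψ : (Algebra.adjoin V {y} ⧸ M) →ₐ[V ⧸ RingHom.ker π] k := IsAlgClosed.lift
  let f : (Algebra.adjoin V {y}).toSubring →+* k :=
    (ψ : (Algebra.adjoin V {y} ⧸ M) →+* k).comp (Ideal.Quotient.mk M)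
  have hVS : V ≤ (Algebra.adjoin V {y}).toSubring := fun v hv =>
    (Algebra.adjoin V {y}).algebraMap_mem ⟨v, hv⟩
  have hle := hmax (Algebra.adjoin V {y}).toSubring f hVS (fun v => by
    have h1 : f (Subring.inclusion hVS v)
        = ψ (algebraMap (V ⧸ RingHom.ker π) (Algebra.adjoin V {y} ⧸ M)
            (Ideal.Quotient.mk _ v)) := rfl
    rw [h1, ψ.commutes]
    rfl)
  exact hle (Algebra.subset_adjoin (Set.mem_singleton y))

/-- A maximal partial hom into an algebraically closed field is defined on a valuation ring. -/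
theorem IsMaxPartialHom.mem_or_inv_mem [IsAlgClosed k] {V : Subring Ω} {π : V →+* k}
    (hmax : IsMaxPartialHom V π) (x : Ω) : x ∈ V ∨ x⁻¹ ∈ V := by
  classical
  by_cases hx : x ∈ V
  · exact Or.inl hx
  right
  have hx0 : x ≠ 0 := fun h => hx (h ▸ V.zero_mem)
  have htop : (RingHom.ker π).map (algebraMap V (Algebra.adjoin V {x})) = ⊤ := by
    by_contra h
    exact hx (hmax.mem_of_map_ne_top x h)
  have hPmax : (RingHom.ker π).IsMaximal := hmax.ker_isMaximal
  letI := invertibleOfNonzero hx0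
  obtain ⟨p, hp, hpx⟩ := Algebra.exists_aeval_invOf_eq_zero_of_idealMap_adjoin_sup_span_eq_top x
    (RingHom.ker π) hPmax.ne_top (by rw [htop]; exact top_sup_eq _)
  have hlc : π p.leadingCoeff = 1 := by
    have := (RingHom.mem_ker).mp hp
    rwa [map_sub, map_one, sub_eq_zero] at this
  have hlcinv := hmax.inv_mem p.leadingCoeff (by rw [hlc]; exact one_ne_zero)
  have hlc0 : (p.leadingCoeff : Ω) ≠ 0 := by
    intro h
    have : p.leadingCoeff = 0 := Subtype.ext h
    rw [this, map_zero] at hlc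
    exact zero_ne_one hlc
  have hunit : IsUnit p.leadingCoeff := by
    refine isUnit_iff_exists_inv.mpr ⟨⟨_, hlcinv⟩, Subtype.ext ?_⟩
    simp [hlc0]
  have hint : IsIntegral V (x⁻¹) :=
    ⟨C hunit.unit⁻¹.1 * p, by simp [Polynomial.Monic], by
      have : (⅟x : Ω) = x⁻¹ := invOf_eq_inv x
      rw [this] at hpx
      rw [aeval_def] at hpx
      simp only [eval₂_mul, eval₂_C, hpx, mul_zero]⟩
  apply hmax.mem_of_map_ne_top x⁻¹
  haveI : Algebra.IsIntegral V (Algebra.adjoin V {x⁻¹}) :=
    Algebra.IsIntegral.adjoin (by simpa using hint)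
  have hker : RingHom.ker (algebraMap V (Algebra.adjoin V {x⁻¹})) ≤ RingHom.ker π := by
    intro v hv
    have h0 : algebraMap V (Algebra.adjoin V {x⁻¹}) v = 0 := (RingHom.mem_ker).mp hv
    have h1 : (v : Ω) = 0 := congrArg Subtype.val h0
    have : v = 0 := Subtype.ext h1
    rw [this]
    exact Ideal.zero_mem _
  obtain ⟨Q, hQ, hQc⟩ := Ideal.exists_ideal_over_maximal_of_isIntegral
    (S := Algebra.adjoin V {x⁻¹}) (RingHom.ker π) hker
  intro htop'
  have hle : (RingHom.ker π).map (algebraMap V (Algebra.adjoin V {x⁻¹})) ≤ Q :=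
    Ideal.map_le_iff_le_comap.mpr hQc.ge
  rw [htop'] at hle
  exact hQ.ne_top (top_le_iff.mp hle)

/-- **Lang's place-extension theorem** (Atiyah–Macdonald 5.21, Chevalley):
a ring hom from a subring `A` of a field `Ω` to an algebraically closed field `k` extends to a
valuation subring `V ⊇ A` of `Ω`; the kernel of the extension is the maximal ideal of `V`. -/
theorem exists_valuationSubring_extends [IsAlgClosed k] (A : Subring Ω) (φ : A →+* k) :
    ∃ (V : ValuationSubring Ω) (π : V →+* k),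
      (∀ a : A, ∃ h : (a : Ω) ∈ V, π ⟨a, h⟩ = φ a) ∧
      (∀ v : V, π v = 0 ↔ v ∈ IsLocalRing.maximalIdeal V) := by
  obtain ⟨V₀, π₀, hAV, hext, hmax⟩ := exists_isMaxPartialHom A φ
  let V : ValuationSubring Ω := ⟨V₀, fun x => hmax.mem_or_inv_mem x⟩
  refine ⟨V, π₀, fun a => ⟨hAV a.2, hext a⟩, fun v => ?_⟩
  rw [IsLocalRing.mem_maximalIdeal, mem_nonunits_iff]
  constructor
  · intro h hu
    have := hu.map π₀
    rw [h] at this
    exact not_isUnit_zero this
  · intro hnu
    by_contra h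
    apply hnu
    have hinv := hmax.inv_mem v h
    have hv0 : (v : Ω) ≠ 0 := by
      intro h0
      have : v = 0 := Subtype.ext h0
      rw [this, map_zero] at h
      exact h rfl
    refine isUnit_iff_exists_inv.mpr ⟨⟨_, hinv⟩, Subtype.ext ?_⟩
    show (v : Ω) * (v : Ω)⁻¹ = 1
    exact mul_inv_cancel₀ hv0

end MaxHom

section KPlace

variable (K : Type*) {Ω : Type*} [Field K] [Field Ω] [Algebra K Ω]

/-- `V` is a `K`-place of `Ω` with residue map `π`: a valuation subring of `Ω` containing `K`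
whose residue field is `K` (via `π`, which is the identity on `K`). -/
structure IsKPlace (V : ValuationSubring Ω) (π : V →+* K) : Prop where
  algebraMap_mem : ∀ c : K, algebraMap K Ω c ∈ V
  map_algebraMap : ∀ c : K, π ⟨algebraMap K Ω c, algebraMap_mem c⟩ = c
  ker : ∀ v : V, π v = 0 ↔ v ∈ IsLocalRing.maximalIdeal V

variable {K}

theorem IsKPlace.surjective {V : ValuationSubring Ω} {π : V →+* K} (h : IsKPlace K V π) :
    Function.Surjective π := fun c => ⟨_, h.map_algebraMap c⟩

/-- `V = K ⊕ 𝔪_V`. -/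
theorem IsKPlace.sub_mem_maximalIdeal {V : ValuationSubring Ω} {π : V →+* K}
    (h : IsKPlace K V π) (v : V) :
    v - ⟨algebraMap K Ω (π v), h.algebraMap_mem _⟩ ∈ IsLocalRing.maximalIdeal V := by
  rw [← h.ker, map_sub, h.map_algebraMap, sub_self]

theorem IsKPlace.isUnit_iff {V : ValuationSubring Ω} {π : V →+* K} (h : IsKPlace K V π)
    (v : V) : IsUnit v ↔ π v ≠ 0 := by
  rw [Ne, h.ker, IsLocalRing.mem_maximalIdeal, mem_nonunits_iff, not_not]

/-- If `x ∉ V` then `x⁻¹` lies in the maximal ideal, i.e. `π x⁻¹ = 0` ("`x` specialises to `∞`"). -/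
theorem IsKPlace.map_inv_eq_zero {V : ValuationSubring Ω} {π : V →+* K} (h : IsKPlace K V π)
    {x : Ω} (hx : x ∉ V) :
    ∃ hx' : x⁻¹ ∈ V, π ⟨x⁻¹, hx'⟩ = 0 := by
  have hx' : x⁻¹ ∈ V := (V.mem_or_inv_mem x).resolve_left hx
  refine ⟨hx', ?_⟩
  by_contra hne
  have hu : IsUnit (⟨x⁻¹, hx'⟩ : V) := (h.isUnit_iff _).mpr hne
  obtain ⟨w, hw⟩ := isUnit_iff_exists_inv.mp hu
  have h1 : x⁻¹ * (w : Ω) = 1 := congrArg Subtype.val hw
  have hx0 : x ≠ 0 := fun h0 => hx (h0 ▸ V.zero_mem)
  have : (w : Ω) = x := by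
    field_simp at h1
    exact h1
  exact hx (this ▸ w.2)

/-- **Lang's theorem, `K`-algebra form**: a `K`-algebra hom `φ : B →ₐ[K] K` on a `K`-subalgebra
`B` of a field `Ω` (`K` algebraically closed) extends to a `K`-place of `Ω`. -/
theorem exists_isKPlace_extends [IsAlgClosed K] (B : Subalgebra K Ω) (φ : B →ₐ[K] K) :
    ∃ (V : ValuationSubring Ω) (π : V →+* K), IsKPlace K V π ∧
      ∀ b : B, ∃ h : (b : Ω) ∈ V, π ⟨b, h⟩ = φ b := by
  obtain ⟨V, π, hext, hker⟩ := exists_valuationSubring_extends B.toSubring (φ : B →+* K)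
  have hmem : ∀ c : K, algebraMap K Ω c ∈ V := fun c =>
    (hext ⟨algebraMap K Ω c, B.algebraMap_mem c⟩).1
  refine ⟨V, π, ⟨hmem, fun c => ?_, hker⟩, fun b => hext b⟩
  obtain ⟨h, hc⟩ := hext ⟨algebraMap K Ω c, B.algebraMap_mem c⟩
  rw [hc]
  exact φ.commutes c

/-- Every field extension of an algebraically closed field `K` has a `K`-place. -/
theorem exists_isKPlace [IsAlgClosed K] :
    ∃ (V : ValuationSubring Ω) (π : V →+* K), IsKPlace K V π := by
  obtain ⟨V, π, h, -⟩ := exists_isKPlace_extends (⊥ : Subalgebra K Ω)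
    ((Algebra.botEquiv K Ω : (⊥ : Subalgebra K Ω) →ₐ[K] K))
  exact ⟨V, π, h⟩

/-- Algebraically independent elements can be specialised to arbitrary values of `K`. -/
theorem exists_isKPlace_of_algebraicIndependent [IsAlgClosed K] {ι : Type*} (t : ι → Ω)
    (ht : AlgebraicIndependent K t) (c : ι → K) :
    ∃ (V : ValuationSubring Ω) (π : V →+* K), IsKPlace K V π ∧
      ∀ i, ∃ h : t i ∈ V, π ⟨t i, h⟩ = c i := by
  let φ : Algebra.adjoin K (Set.range t) →ₐ[K] K :=
    (MvPolynomial.aeval c).comp (ht.aevalEquiv.symm : _ →ₐ[K] MvPolynomial ι K)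
  obtain ⟨V, π, hK, hext⟩ := exists_isKPlace_extends (Algebra.adjoin K (Set.range t)) φ
  refine ⟨V, π, hK, fun i => ?_⟩
  have hti : t i ∈ Algebra.adjoin K (Set.range t) := Algebra.subset_adjoin ⟨i, rfl⟩
  obtain ⟨h, hi⟩ := hext ⟨t i, hti⟩
  refine ⟨h, hi.trans ?_⟩
  have h1 : ht.aevalEquiv (MvPolynomial.X i) = ⟨t i, hti⟩ := by
    apply Subtype.ext
    simp
  have h2 : ht.aevalEquiv.symm ⟨t i, hti⟩ = MvPolynomial.X i := by
    rw [← h1, AlgEquiv.symm_apply_apply]
  show (MvPolynomial.aeval c) (ht.aevalEquiv.symm ⟨t i, hti⟩) = c i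
  rw [h2, MvPolynomial.aeval_X]

/-- Weak Nullstellensatz: a nontrivial algebra of finite type over an algebraically closed
field `K` has a `K`-point. -/
theorem exists_algHom_of_finiteType [IsAlgClosed K] (B : Type*) [CommRing B] [Algebra K B]
    [Nontrivial B] [Algebra.FiniteType K B] : Nonempty (B →ₐ[K] K) := by
  obtain ⟨M, hM⟩ := Ideal.exists_maximal B
  letI : Field (B ⧸ M) := Ideal.Quotient.field M
  haveI : Algebra.FiniteType K (B ⧸ M) :=
    Algebra.FiniteType.of_surjective (Ideal.Quotient.mkₐ K M) Ideal.Quotient.mk_surjective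
  haveI : Module.Finite K (B ⧸ M) := finite_of_finite_type_of_isJacobsonRing _ _
  haveI : Algebra.IsAlgebraic K (B ⧸ M) := Algebra.IsAlgebraic.of_finite _ _
  haveI : Module.IsTorsionFree K (B ⧸ M) := DivisionSemiring.to_moduleIsTorsionFree
  let ψ : (B ⧸ M) →ₐ[K] K := IsAlgClosed.lift
  exact ⟨ψ.comp (Ideal.Quotient.mkₐ K M)⟩

/-- Unit-avoiding places: finitely many nonzero elements of `Ω` are simultaneously units of
some `K`-place (their residues are nonzero). -/
theorem exists_isKPlace_units [IsAlgClosed K] (s : Finset Ω) (hs : ∀ x ∈ s, x ≠ 0) :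
    ∃ (V : ValuationSubring Ω) (π : V →+* K), IsKPlace K V π ∧
      ∀ x ∈ s, ∃ h : x ∈ V, π ⟨x, h⟩ ≠ 0 := by
  classical
  let T : Finset Ω := s ∪ s.image (fun x => x⁻¹)
  let B : Subalgebra K Ω := Algebra.adjoin K (T : Set Ω)
  haveI : Algebra.FiniteType K B :=
    (Subalgebra.fg_iff_finiteType _).mp (Subalgebra.fg_adjoin_finset T)
  obtain ⟨φ⟩ := exists_algHom_of_finiteType (K := K) B
  obtain ⟨V, π, hK, hext⟩ := exists_isKPlace_extends B φ
  refine ⟨V, π, hK, fun x hx => ?_⟩
  have hxB : x ∈ B := Algebra.subset_adjoin (by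
    simp only [T, Finset.coe_union, Set.mem_union, Finset.mem_coe]
    exact Or.inl hx)
  have hxiB : x⁻¹ ∈ B := Algebra.subset_adjoin (by
    simp only [T, Finset.coe_union, Set.mem_union, Finset.mem_coe, Finset.mem_image]
    exact Or.inr ⟨x, hx, rfl⟩)
  obtain ⟨h, hφ⟩ := hext ⟨x, hxB⟩
  refine ⟨h, ?_⟩
  rw [hφ]
  intro h0
  have hmul : (⟨x, hxB⟩ : B) * ⟨x⁻¹, hxiB⟩ = 1 := Subtype.ext (mul_inv_cancel₀ (hs x hx))
  have := congrArg φ hmul
  rw [map_mul, h0, zero_mul, map_one] at this
  exact zero_ne_one this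

end KPlace

end Fermat.Agent.S17.H377

end
-- ===== PACK-END S17/H377/LangPlace.lean

-- ===== PACK-BEGIN Lib/RR/H638/LinAlg.lean
section


/-!
# Linear algebra for the Čech formula (helper638)

`finrank_map_mkQ_of_exhaust`: if `V` is exhausted by an increasing chain of finite-dimensional
subspaces `Vₙ` with `dim Vₙ = dim (W ⊓ Vₙ) + g` for `n ≥ n₀`, then the image of `V` in `E ⧸ W`
has dimension `g`.
-/

set_option autoImplicit false

namespace Fermat.Agent.Lib.RR.H638

variable {K E : Type*} [Field K] [AddCommGroup E] [Module K E]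

theorem finrank_map_mkQ_add (W U : Submodule K E) [Module.Finite K U] :
    Module.finrank K ↥(U.map W.mkQ) + Module.finrank K ↥(W ⊓ U) = Module.finrank K U := by
  have h := LinearMap.finrank_range_add_finrank_ker (W.mkQ.comp U.subtype)
  have hr : LinearMap.range (W.mkQ.comp U.subtype) = U.map W.mkQ := by
    rw [LinearMap.range_comp, Submodule.range_subtype]
  have hk : LinearMap.ker (W.mkQ.comp U.subtype) = Submodule.comap U.subtype (W ⊓ U) := by
    rw [LinearMap.ker_comp, Submodule.ker_mkQ, Submodule.comap_inf, Submodule.comap_subtype_self,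
      inf_top_eq]
  rw [hr, hk] at h
  have e := Submodule.comapSubtypeEquivOfLe (inf_le_right : W ⊓ U ≤ U)
  rw [← h, e.finrank_eq]

theorem finrank_map_mkQ_of_exhaust (V W : Submodule K E) (Vn : ℕ → Submodule K E)
    (hmono : Monotone Vn) (hfin : ∀ n, Module.Finite K (Vn n)) (hVn : ∀ n, Vn n ≤ V)
    (hex : ∀ f ∈ V, ∃ n, f ∈ Vn n) (g n0 : ℕ)
    (hdim : ∀ n, n0 ≤ n → Module.finrank K (Vn n) = Module.finrank K ↥(W ⊓ Vn n) + g) :
    Module.Finite K ↥(V.map W.mkQ) ∧ Module.finrank K ↥(V.map W.mkQ) = g := by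
  have hI : ∀ n, n0 ≤ n → Module.finrank K ↥((Vn n).map W.mkQ) = g := by
    intro n hn
    have := hfin n
    have h1 := finrank_map_mkQ_add W (Vn n)
    have h2 := hdim n hn
    omega
  have hfinI : ∀ n, Module.Finite K ↥((Vn n).map W.mkQ) := fun n => by
    have := hfin n
    infer_instance
  have heq : ∀ n, n0 ≤ n → (Vn n0).map W.mkQ = (Vn n).map W.mkQ := by
    intro n hn
    have := hfinI n
    exact Submodule.eq_of_le_of_finrank_eq (Submodule.map_mono (hmono hn))
      ((hI n0 le_rfl).trans (hI n hn).symm)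
  have htop : V.map W.mkQ = (Vn n0).map W.mkQ := by
    apply le_antisymm
    · rintro _ ⟨f, hf, rfl⟩
      obtain ⟨n, hn⟩ := hex f hf
      have hle : Vn n ≤ Vn (max n n0) := hmono (le_max_left _ _)
      rw [heq (max n n0) (le_max_right _ _)]
      exact ⟨f, hle hn, rfl⟩
    · exact Submodule.map_mono (hVn n0)
  rw [htop]
  exact ⟨hfinI n0, hI n0 le_rfl⟩

end Fermat.Agent.Lib.RR.H638

end
-- ===== PACK-END Lib/RR/H638/LinAlg.lean

-- ===== PACK-BEGIN S37/H100/EigenCount.lean
section


/-!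
# S37 / E2 (helper100): linear-algebra core of the fibre formula for characteristic polynomials

Mathlib-only.

* `H100.finrank_inf_le_succ` : one filtration step of codimension `≤ 1`.
* `H100.finrank_le_sum_add` : a finite family of filtrations with steps of codimension `≤ 1`.
* `H100.charpoly_eq_prod_of_rootMultiplicity_le` : a monic polynomial over an algebraically
  closed field whose root multiplicities are bounded by those of `∏ (X - a i) ^ e i`, of the
  same degree, is equal to it.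
-/

set_option autoImplicit false

open Polynomial Module

namespace Fermat.Agent.S37.H100

section Filtration

variable {K V : Type*} [Field K] [AddCommGroup V] [Module K V]

/-- One step: if `G'` has "codimension at most one in `G`", then for every finite-dimensional
`E`, `dim (E ⊓ G) ≤ dim (E ⊓ G') + 1`. -/
theorem finrank_inf_le_succ (E G G' : Submodule K V) [FiniteDimensional K E]
    (h : ∀ y ∈ G, ∀ y' ∈ G, y' ∉ G' → ∃ c : K, y - c • y' ∈ G') :
    finrank K ↥(E ⊓ G) ≤ finrank K ↥(E ⊓ G') + 1 := by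
  have : FiniteDimensional K ↥(E ⊓ G') :=
    Submodule.finiteDimensional_of_le (inf_le_left : E ⊓ G' ≤ E)
  by_cases hle : E ⊓ G ≤ G'
  · have : E ⊓ G ≤ E ⊓ G' := le_inf inf_le_left hle
    exact (Submodule.finrank_mono this).trans (Nat.le_succ _)
  · obtain ⟨y', hy', hy'G⟩ := SetLike.not_le_iff_exists.mp hle
    have hsub : E ⊓ G ≤ (E ⊓ G') ⊔ Submodule.span K {y'} := by
      intro y hy
      obtain ⟨c, hc⟩ := h y hy.2 y' hy'.2 hy'G
      have h1 : y - c • y' ∈ E ⊓ G' := ⟨E.sub_mem hy.1 (E.smul_mem c hy'.1), hc⟩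
      have h2 : c • y' ∈ Submodule.span K {y'} :=
        Submodule.smul_mem _ c (Submodule.mem_span_singleton_self y')
      have := Submodule.add_mem_sup h1 h2
      rwa [sub_add_cancel] at this
    calc finrank K ↥(E ⊓ G) ≤ finrank K ↥((E ⊓ G') ⊔ Submodule.span K {y'}) :=
          Submodule.finrank_mono hsub
      _ ≤ finrank K ↥(E ⊓ G') + finrank K ↥(Submodule.span K {y'}) :=
          Submodule.finrank_add_le_finrank_add_finrank _ _
      _ ≤ finrank K ↥(E ⊓ G') + 1 := by
          gcongr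
          rcases eq_or_ne y' 0 with h0 | h0
          · rw [h0, Submodule.span_zero_singleton]
            simp
          · exact (finrank_span_singleton h0).le

/-- A chain of `e` steps. -/
theorem finrank_inf_le_add (E : Submodule K V) [FiniteDimensional K E]
    (G : ℕ → Submodule K V)
    (h : ∀ j, ∀ y ∈ G j, ∀ y' ∈ G j, y' ∉ G (j + 1) → ∃ c : K, y - c • y' ∈ G (j + 1))
    (e : ℕ) :
    finrank K ↥(E ⊓ G 0) ≤ finrank K ↥(E ⊓ G e) + e := by
  induction e with
  | zero => simp
  | succ e ih =>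
    have := finrank_inf_le_succ E (G e) (G (e + 1)) (h e)
    omega

/-- A finite family of filtrations `G w 0 = ⊤ ⊇ G w 1 ⊇ …` with steps of codimension at most
one: `dim E ≤ ∑_{w ∈ T} e w + dim (E ⊓ ⨅_{w ∈ T} G w (e w))`. -/
theorem finrank_le_sum_add {ι : Type*} (T : Finset ι) (e : ι → ℕ)
    (G : ι → ℕ → Submodule K V) (h0 : ∀ w ∈ T, G w 0 = ⊤)
    (h : ∀ w ∈ T, ∀ j, ∀ y ∈ G w j, ∀ y' ∈ G w j, y' ∉ G w (j + 1) →
      ∃ c : K, y - c • y' ∈ G w (j + 1))
    (E : Submodule K V) [FiniteDimensional K E] :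
    finrank K ↥E ≤ ∑ w ∈ T, e w + finrank K ↥(E ⊓ ⨅ w ∈ T, G w (e w)) := by
  classical
  induction T using Finset.induction_on generalizing E with
  | empty =>
    have : (⨅ w ∈ (∅ : Finset ι), G w (e w)) = ⊤ := by simp
    rw [this, inf_top_eq]
    simp
  | insert w T hw ih =>
    have h0' : ∀ w' ∈ T, G w' 0 = ⊤ := fun w' hw' => h0 w' (Finset.mem_insert_of_mem hw')
    have h' : ∀ w' ∈ T, ∀ j, ∀ y ∈ G w' j, ∀ y' ∈ G w' j, y' ∉ G w' (j + 1) →
        ∃ c : K, y - c • y' ∈ G w' (j + 1) :=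
      fun w' hw' => h w' (Finset.mem_insert_of_mem hw')
    have h1 := finrank_inf_le_add E (G w) (h w (Finset.mem_insert_self w T)) (e w)
    rw [h0 w (Finset.mem_insert_self w T), inf_top_eq] at h1
    have : FiniteDimensional K ↥(E ⊓ G w (e w)) :=
      Submodule.finiteDimensional_of_le (inf_le_left : E ⊓ G w (e w) ≤ E)
    have h2 := ih h0' h' (E ⊓ G w (e w))
    rw [Finset.sum_insert hw, Finset.iInf_insert]
    have heq : E ⊓ G w (e w) ⊓ ⨅ w' ∈ T, G w' (e w') =
        E ⊓ (G w (e w) ⊓ ⨅ w' ∈ T, G w' (e w')) := inf_assoc _ _ _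
    rw [heq] at h2
    omega

end Filtration

section Roots

variable {K : Type*} [Field K]

/-- A monic polynomial over an algebraically closed field whose root multiplicities are bounded
by those of `∏ (X - a w) ^ e w`, of the same degree, is equal to this product. -/
theorem eq_prod_of_rootMultiplicity_le [IsAlgClosed K] [DecidableEq K] {ι : Type*}
    (s : Finset ι)
    (a : ι → K) (e : ι → ℕ) (p : K[X]) (hp : p.Monic)
    (hdeg : p.natDegree = ∑ w ∈ s, e w)
    (hle : ∀ μ : K, p.rootMultiplicity μ ≤ ∑ w ∈ s.filter (fun w => a w = μ), e w) :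
    p = ∏ w ∈ s, (X - C (a w)) ^ e w := by
  classical
  set r : K[X] := ∏ w ∈ s, (X - C (a w)) ^ e w with hr
  have hrm : r.Monic := monic_prod_of_monic _ _ fun w _ => (monic_X_sub_C (a w)).pow (e w)
  have hroots : r.roots = ∑ w ∈ s, e w • ({a w} : Multiset K) := by
    rw [hr, roots_prod _ _ (by
      rw [Finset.prod_ne_zero_iff]
      intro w _
      exact pow_ne_zero _ (X_sub_C_ne_zero (a w)))]
    simp only [roots_pow, roots_X_sub_C]
    rfl
  have hcount : ∀ μ : K, r.roots.count μ = ∑ w ∈ s.filter (fun w => a w = μ), e w := by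
    intro μ
    rw [hroots, Multiset.count_sum', Finset.sum_filter]
    refine Finset.sum_congr rfl fun w _ => ?_
    rw [Multiset.count_nsmul, Multiset.count_singleton]
    split_ifs with h1 h2 h2
    · simp
    · exact absurd h1.symm h2
    · exact absurd h2.symm h1
    · simp
  have hle' : p.roots ≤ r.roots := by
    rw [Multiset.le_iff_count]
    intro μ
    rw [count_roots, hcount]
    exact hle μ
  have hcardp : Multiset.card p.roots = p.natDegree :=
    (IsAlgClosed.splits p).natDegree_eq_card_roots.symm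
  have hcardr : Multiset.card r.roots = ∑ w ∈ s, e w := by
    rw [hroots, Multiset.card_sum]
    simp
  have heq : p.roots = r.roots :=
    Multiset.eq_of_le_of_card_le hle' (by rw [hcardp, hcardr, hdeg])
  rw [(IsAlgClosed.splits p).eq_prod_roots_of_monic hp,
    (IsAlgClosed.splits r).eq_prod_roots_of_monic hrm, heq]

end Roots

end Fermat.Agent.S37.H100

end
-- ===== PACK-END S37/H100/EigenCount.lean

-- ===== PACK-BEGIN S17/H500/NullCert.lean
section





/-!
# Projective Nullstellensatz certificates and height lower bounds on closed cones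

Mathlib's lower bound `Height.logHeight_eval_ge` for the height of `(p j (x))_j` needs, as a
hypothesis, a *certificate*: homogeneous polynomials `q (k, j)` of degree `M` with
`∑ j, q (k, j) (x) * p j (x) = x k ^ (M + N)`.  This file produces the certificate from the
geometric hypothesis "the `p j` have no common zero, except the origin, on the cone cut out by a
homogeneous ideal `I`" (checked over any algebraically closed extension `L` of the ground field),
and derives the height inequality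

  `C + N * logHeight x ≤ logHeight (fun j ↦ (p j).eval x)`   for all `x` in the cone of `I`.

Mathlib-only; route-independent tool for the heights tower of row S17.

* `exists_certificate`       : the certificate modulo `I`
* `exists_certificate_eval`  : the certificate evaluated at the points of the cone
* `logHeight_eval_ge_on`     : the height lower bound on the cone
* `abs_logHeight_eval_sub_le_on` : two-sided bound `|h(p(x)) - N h(x)| ≤ C` on the cone
-/

set_option autoImplicit false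

noncomputable section

namespace Fermat.Agent.S17.H500

open MvPolynomial

variable {k : Type*} [Field k] {ι ι' : Type*}

/-- Elementary form of homogeneity of an ideal of a polynomial ring: closed under taking
homogeneous components. -/
def HomIdeal (I : Ideal (MvPolynomial ι k)) : Prop :=
  ∀ f ∈ I, ∀ n : ℕ, homogeneousComponent n f ∈ I

theorem homIdeal_bot : HomIdeal (⊥ : Ideal (MvPolynomial ι k)) := by
  intro f hf n
  rw [Ideal.mem_bot] at hf
  subst hf
  simp

/-- The homogeneous component of degree `M + N` of `c * p`, `p` homogeneous of degree `N`. -/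
theorem homogeneousComponent_add_mul_of_isHomogeneous {M N : ℕ} (c : MvPolynomial ι k)
    {p : MvPolynomial ι k} (hp : p.IsHomogeneous N) :
    homogeneousComponent (M + N) (c * p) = homogeneousComponent M c * p := by
  classical
  conv_lhs => rw [← sum_homogeneousComponent c, Finset.sum_mul, map_sum]
  have key : ∀ n : ℕ, homogeneousComponent (M + N) (homogeneousComponent n c * p) =
      if n = M then homogeneousComponent M c * p else 0 := by
    intro n
    have hh : (homogeneousComponent n c * p).IsHomogeneous (n + N) :=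
      (homogeneousComponent_isHomogeneous n c).mul hp
    rw [homogeneousComponent_of_mem hh]
    by_cases hn : n = M
    · subst hn; simp
    · have hne : ¬ (M = n) := fun h => hn h.symm
      simp [hn, hne]
  simp_rw [key]
  rw [Finset.sum_ite_eq']
  split_ifs with h
  · rfl
  · have : homogeneousComponent M c = 0 := by
      apply homogeneousComponent_eq_zero
      simp only [Finset.mem_range, not_lt] at h
      omega
    simp [this]

/-- **Projective Nullstellensatz certificate.**  Let `I` be a homogeneous ideal and `p j`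
homogeneous polynomials of degree `N` over a field `k` such that, over some algebraically closed
extension `L`, the only common zero of `I` and the `p j` is the origin.  Then there are `M` and
homogeneous polynomials `q (i, j)` of degree `M` with
`∑ j, q (i, j) * p j ≡ X i ^ (M + N)  (mod I)` for every variable `i`. -/
theorem exists_certificate [Finite ι] [Fintype ι'] (L : Type*) [Field L] [Algebra k L]
    [IsAlgClosed L] (I : Ideal (MvPolynomial ι k)) (hI : HomIdeal I) {N : ℕ}
    (p : ι' → MvPolynomial ι k) (hp : ∀ j, (p j).IsHomogeneous N)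
    (h0 : ∀ x : ι → L, (∀ f ∈ I, aeval x f = 0) → (∀ j, aeval x (p j) = 0) → x = 0) :
    ∃ (M : ℕ) (q : ι × ι' → MvPolynomial ι k), (∀ a, (q a).IsHomogeneous M) ∧
      ∀ i, (∑ j, q (i, j) * p j) - X i ^ (M + N) ∈ I := by
  classical
  set J : Ideal (MvPolynomial ι k) := I ⊔ Ideal.span (Set.range p) with hJ
  -- every variable lies in the radical of `J`
  have hrad : ∀ i : ι, (X i : MvPolynomial ι k) ∈ J.radical := by
    intro i
    rw [← vanishingIdeal_zeroLocus_eq_radical (K := L) J, mem_vanishingIdeal_iff]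
    intro x hx
    have hx0 : x = 0 := by
      apply h0 x
      · intro f hf
        exact hx f (Ideal.mem_sup_left hf)
      · intro j
        exact hx (p j) (Ideal.mem_sup_right (Ideal.subset_span ⟨j, rfl⟩))
    simp [hx0]
  choose e he using hrad
  obtain ⟨M, hM⟩ : ∃ M : ℕ, ∀ i, e i ≤ M := by
    obtain ⟨M, hM⟩ := (Set.finite_range e).bddAbove
    exact ⟨M, fun i => hM ⟨i, rfl⟩⟩
  have hXJ : ∀ i : ι, (X i : MvPolynomial ι k) ^ (M + N) ∈ J := by
    intro i
    have : M + N = (M + N - e i) + e i := by have := hM i; omega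
    rw [this, pow_add]
    exact Ideal.mul_mem_left _ _ (he i)
  -- decompose
  have hdec : ∀ i : ι, ∃ (f : MvPolynomial ι k) (c : ι' → MvPolynomial ι k), f ∈ I ∧
      f + ∑ j, c j * p j = X i ^ (M + N) := by
    intro i
    obtain ⟨f, hf, g, hg, hfg⟩ := Submodule.mem_sup.mp (hXJ i)
    obtain ⟨c, hc⟩ := (Ideal.mem_span_range_iff_exists_fun).mp hg
    exact ⟨f, c, hf, by rw [hc]; exact hfg⟩
  choose f c hf hfc using hdec
  refine ⟨M, fun a => homogeneousComponent M (c a.1 a.2),
    fun a => homogeneousComponent_isHomogeneous _ _, fun i => ?_⟩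
  have h1 := congrArg (homogeneousComponent (M + N)) (hfc i)
  rw [map_add, map_sum] at h1
  simp_rw [homogeneousComponent_add_mul_of_isHomogeneous _ (hp _)] at h1
  have h2 : homogeneousComponent (M + N) ((X i : MvPolynomial ι k) ^ (M + N)) = X i ^ (M + N) :=
    homogeneousComponent_of_mem ((isHomogeneous_X k i).pow (M + N)) |>.trans (by simp)
  rw [h2] at h1
  have h3 : (∑ j, homogeneousComponent M (c i j) * p j) - X i ^ (M + N) =
      -homogeneousComponent (M + N) (f i) := by
    rw [← h1]; ring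
  simp only
  rw [h3]
  exact I.neg_mem (hI _ (hf i) _)

/-- The certificate of `exists_certificate`, evaluated at the `k`-points of the cone of `I`:
exactly the hypothesis of `Height.logHeight_eval_ge`. -/
theorem exists_certificate_eval [Finite ι] [Fintype ι'] (L : Type*) [Field L] [Algebra k L]
    [IsAlgClosed L] (I : Ideal (MvPolynomial ι k)) (hI : HomIdeal I) {N : ℕ}
    (p : ι' → MvPolynomial ι k) (hp : ∀ j, (p j).IsHomogeneous N)
    (h0 : ∀ x : ι → L, (∀ f ∈ I, aeval x f = 0) → (∀ j, aeval x (p j) = 0) → x = 0) :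
    ∃ (M : ℕ) (q : ι × ι' → MvPolynomial ι k), (∀ a, (q a).IsHomogeneous M) ∧
      ∀ x : ι → k, (∀ f ∈ I, eval x f = 0) →
        ∀ i, ∑ j, (q (i, j)).eval x * (p j).eval x = x i ^ (M + N) := by
  obtain ⟨M, q, hq, hqI⟩ := exists_certificate L I hI p hp h0
  refine ⟨M, q, hq, fun x hx i => ?_⟩
  have := hx _ (hqI i)
  simpa [sub_eq_zero] using this

variable [Height.AdmissibleAbsValues k]

/-- **Height lower bound on a closed cone.**  If the homogeneous polynomials `p j` of degree `N`
have no common zero other than the origin on the cone of the homogeneous ideal `I`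
(over an algebraically closed extension `L`), then for all `k`-points `x` of the cone
`C + N * logHeight x ≤ logHeight (p j (x))_j`. -/
theorem logHeight_eval_ge_on [Finite ι] [Fintype ι'] (L : Type*) [Field L] [Algebra k L]
    [IsAlgClosed L] (I : Ideal (MvPolynomial ι k)) (hI : HomIdeal I) {N : ℕ}
    (p : ι' → MvPolynomial ι k) (hp : ∀ j, (p j).IsHomogeneous N)
    (h0 : ∀ x : ι → L, (∀ f ∈ I, aeval x f = 0) → (∀ j, aeval x (p j) = 0) → x = 0) :
    ∃ C : ℝ, ∀ x : ι → k, (∀ f ∈ I, eval x f = 0) →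
      C + N * Height.logHeight x ≤ Height.logHeight (fun j ↦ (p j).eval x) := by
  obtain ⟨M, q, hq, hcert⟩ := exists_certificate_eval L I hI p hp h0
  obtain ⟨C, hC⟩ := Height.logHeight_eval_ge' (K := k) (M := M) (N := N) hq
  exact ⟨C, fun x hx => hC p (hcert x hx)⟩

/-- Two-sided version: `|logHeight (p (x)) - N * logHeight x| ≤ C` on the cone of `I`. -/
theorem abs_logHeight_eval_sub_le_on [Finite ι] [Fintype ι'] (L : Type*) [Field L] [Algebra k L]
    [IsAlgClosed L] (I : Ideal (MvPolynomial ι k)) (hI : HomIdeal I) {N : ℕ}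
    (p : ι' → MvPolynomial ι k) (hp : ∀ j, (p j).IsHomogeneous N)
    (h0 : ∀ x : ι → L, (∀ f ∈ I, aeval x f = 0) → (∀ j, aeval x (p j) = 0) → x = 0) :
    ∃ C : ℝ, ∀ x : ι → k, (∀ f ∈ I, eval x f = 0) →
      |Height.logHeight (fun j ↦ (p j).eval x) - N * Height.logHeight x| ≤ C := by
  obtain ⟨C₁, hC₁⟩ := Height.logHeight_eval_le' (K := k) hp
  obtain ⟨C₂, hC₂⟩ := logHeight_eval_ge_on L I hI p hp h0
  refine ⟨max C₁ (-C₂), fun x hx => abs_sub_le_iff.mpr ⟨?_, ?_⟩⟩
  · have := hC₁ x
    have h2 := le_max_left C₁ (-C₂)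
    linarith
  · have := hC₂ x hx
    have h2 := le_max_right C₁ (-C₂)
    linarith

end Fermat.Agent.S17.H500

end
end
-- ===== PACK-END S17/H500/NullCert.lean

-- ===== PACK-BEGIN Lib/Cheb/H764/Orbit.lean
section


/-!
# CHEB / piece A: decomposition groups and primes of a fixed field (orbit count)

Abstract setting: `R ⊆ T ⊆ S` Dedekind-like rings, `G` a finite Galois group of `S/R`,
`H ≤ G` a Galois group of `S/T`.
-/

set_option autoImplicit false
set_option linter.unusedSectionVars false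

namespace Fermat.Agent.Lib.Cheb.H764

open Ideal MulAction
open scoped Pointwise

section abstract

variable {R T S : Type*} [CommRing R] [CommRing T] [CommRing S]
  [IsDomain R] [IsDomain T] [IsDomain S]
  [Algebra R T] [Algebra T S] [Algebra R S] [IsScalarTower R T S]
  [Module.Finite R S] [Module.Finite T S]
  [Module.Flat R S] [Module.Flat T S]
  {G : Type*} [Group G] [Finite G] [MulSemiringAction G S] [IsGaloisGroup G R S]
  (H : Subgroup G) [IsGaloisGroup H T S]

/-- the stabilizer in the subgroup is the intersection with the subgroup -/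
lemma stabilizer_subgroup_eq (Q : Ideal S) :
    stabilizer H Q = (stabilizer G Q).subgroupOf H := by
  ext h
  simp [Subgroup.mem_subgroupOf, Subgroup.smul_def]

lemma card_stabilizer_eq_mul (p : Ideal R) [p.IsPrime] [PerfectField p.ResidueField]
    (Q : Ideal S) [Q.IsPrime] [Q.LiesOver p] :
    Nat.card (stabilizer G Q) = Q.ramificationIdx R * Q.inertiaDeg R := by
  rw [Ideal.card_stabilizer_eq (G := G) p Q, ramificationIdxIn_eq_ramificationIdx p Q G,
    inertiaDegIn_eq_inertiaDeg p Q G]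

/-- `|D_Q(G)| = e(𝔮|p) f(𝔮|p) |D_Q(H)|` for `𝔮 = Q ∩ T`. -/
lemma card_stabilizer_eq_mul_card_stabilizer (p : Ideal R) [p.IsPrime]
    [PerfectField p.ResidueField]
    (q : Ideal T) [q.IsPrime] [q.LiesOver p] [PerfectField q.ResidueField]
    (Q : Ideal S) [Q.IsPrime] [Q.LiesOver q] [Q.LiesOver p] :
    Nat.card (stabilizer G Q) =
      (q.ramificationIdx R * q.inertiaDeg R) * Nat.card (stabilizer H Q) := by
  have h1 : Nat.card (stabilizer H Q) = Q.ramificationIdx T * Q.inertiaDeg T :=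
    card_stabilizer_eq_mul (G := H) q Q
  rw [card_stabilizer_eq_mul (G := G) p Q, h1,
    ramificationIdx_tower (R := R) q Q, inertiaDeg_tower (R := R) q Q]
  ring

lemma card_subgroupOf_eq_iff (A B : Subgroup G) :
    Nat.card (A.subgroupOf B) = Nat.card A ↔ A ≤ B := by
  constructor
  · intro h
    have h1 : Nat.card (A.subgroupOf B) = Nat.card (A ⊓ B : Subgroup G) := by
      rw [← Subgroup.inf_subgroupOf_right]
      exact Nat.card_congr (Subgroup.subgroupOfEquivOfLe inf_le_right).toEquiv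
    rw [h1] at h
    have h2 : (A ⊓ B : Subgroup G) = A :=
      Subgroup.eq_of_le_of_card_ge inf_le_left h.ge
    rw [← h2]
    exact inf_le_right
  · intro h
    exact Nat.card_congr (Subgroup.subgroupOfEquivOfLe h).toEquiv

/-- `e(𝔮|p) f(𝔮|p) = 1` iff the decomposition group of `Q` is contained in `H`. -/
lemma ramificationIdx_mul_inertiaDeg_eq_one_iff (p : Ideal R) [p.IsPrime]
    [PerfectField p.ResidueField]
    (q : Ideal T) [q.IsPrime] [q.LiesOver p] [PerfectField q.ResidueField]
    (Q : Ideal S) [Q.IsPrime] [Q.LiesOver q] [Q.LiesOver p] :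
    q.ramificationIdx R * q.inertiaDeg R = 1 ↔ stabilizer G Q ≤ H := by
  have key := card_stabilizer_eq_mul_card_stabilizer H p q Q
  have hpos : 0 < Nat.card (stabilizer H Q) := Nat.card_pos
  rw [stabilizer_subgroup_eq H Q] at key hpos
  rw [← card_subgroupOf_eq_iff]
  constructor
  · intro h
    rw [key, h, one_mul]
  · intro h
    rw [← h] at key
    have h3 : 1 * Nat.card ((stabilizer G Q).subgroupOf H) =
        (q.ramificationIdx R * q.inertiaDeg R) * Nat.card ((stabilizer G Q).subgroupOf H) := by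
      rw [one_mul]; exact key
    exact (Nat.eq_of_mul_eq_mul_right hpos h3).symm

/-- orbit-stabilizer for the primes above `p` -/
lemma ncard_primesOver_mul_card_stabilizer_aux
    (p : Ideal R) [p.IsPrime] (P : Ideal S) [P.IsPrime] [P.LiesOver p] :
    (p.primesOver S).ncard * Nat.card (stabilizer G P) = Nat.card G := by
  rw [← Algebra.IsInvariant.orbit_eq_primesOver R S G p P]
  simpa using Nat.card_congr (MulAction.orbitProdStabilizerEquivGroup G P)

/-- the number of primes of `S` above `𝔮` times the order of the decomposition group in `H` -/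
lemma ncard_primesOver_mul_card_stabilizer
    (q : Ideal T) [q.IsPrime] (Q : Ideal S) [Q.IsPrime] [Q.LiesOver q] :
    (q.primesOver S).ncard * Nat.card (stabilizer H Q) = Nat.card H :=
  ncard_primesOver_mul_card_stabilizer_aux (G := H) q Q

/-- inner sum of the orbit count: the primes of `S` above a prime `𝔮` of `T` with `e f = 1`
contribute `|H|`. -/
lemma finsum_card_stabilizer_primesOver (p : Ideal R) [p.IsPrime] [PerfectField p.ResidueField]
    (q : Ideal T) [q.IsPrime] [q.LiesOver p] [PerfectField q.ResidueField]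
    (hq : q.ramificationIdx R * q.inertiaDeg R = 1) (hfin : (q.primesOver S).Finite)
    (hne : (q.primesOver S).Nonempty) :
    ∑ᶠ Q ∈ q.primesOver S, Nat.card (stabilizer G Q) = Nat.card H := by
  classical
  have key : ∀ Q ∈ q.primesOver S,
      (q.primesOver S).ncard * Nat.card (stabilizer G Q) = Nat.card H := by
    intro Q hQ
    haveI : Q.IsPrime := hQ.1
    haveI : Q.LiesOver q := hQ.2
    haveI : Q.LiesOver p := LiesOver.trans Q q p
    rw [card_stabilizer_eq_mul_card_stabilizer H p q Q, hq, one_mul]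
    exact ncard_primesOver_mul_card_stabilizer H q Q
  have hn : 0 < (q.primesOver S).ncard := (Set.ncard_pos hfin).mpr hne
  have hconst : ∀ Q ∈ q.primesOver S,
      Nat.card (stabilizer G Q) = Nat.card H / (q.primesOver S).ncard := by
    intro Q hQ
    rw [← key Q hQ, Nat.mul_div_cancel_left _ hn]
  rw [finsum_mem_congr rfl hconst, finsum_mem_eq_finite_toFinset_sum _ hfin, Finset.sum_const,
    smul_eq_mul, ← Set.ncard_eq_toFinset_card _ hfin]
  obtain ⟨Q, hQ⟩ := hne
  rw [← hconst Q hQ]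
  exact key Q hQ

end abstract

end Fermat.Agent.Lib.Cheb.H764

end
-- ===== PACK-END Lib/Cheb/H764/Orbit.lean

-- ===== PACK-BEGIN S37/Red/Spec.lean
section



/-!
# S37-RED — frozen interfaces (architect: helper40)            v1

Abstract construction of the **place reduction map** `r : Pl(F) → Pl(F_k)` of a function field
with a "Gauss-type" reduction datum and good charts, in the generality needed to produce the
hypothesis `ModularCurve.IsPlaceReductionAlong` of the Prelude (row S37; also level `M` of S18).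

Everything here is Mathlib + Prelude `AlgebraicCurve.Place` only.  Documentation, proofs on paper
and the split into pieces: `coord/S37-red.md` on `origin/helper40`.

Conventions: all statements are `def … : Prop` (no `sorry` in this file); a piece `X` is DONE
when `theorem x : XStatement …` is proved sorry-free in `Fermat/Agent/S37/Red/H<seat>/…`.
-/

set_option autoImplicit false

noncomputable section

namespace Fermat.Agent.S37.Red

open AlgebraicCurve IntermediateField

universe u

/-! ## 1. The datum -/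

/-- A **reduction datum**: constants `A ⊆ K`, `π : A ↠ k`; a valuation ring `O ⊆ F` containing
`A` with a surjective ring hom `ρ : O ↠ F_k` extending `π`; a coordinate `x ∈ O` whose reduction
is transcendental over `k`.  (For modular function fields: `O` = valuation ring of the Gauss
valuation of `q`-expansion coefficients, `ρ` = coefficientwise reduction, `x = j` or a
Hauptmodul.) -/
structure Datum {K k : Type u} [Field K] [Field k] (A : ValuationSubring K) (π : A →+* k)
    (F Fk : Type u) [Field F] [Field Fk] [Algebra K F] [Algebra k Fk] where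
  π_surj : Function.Surjective π
  /-- the (Gauss) valuation ring of the function field -/
  O : ValuationSubring F
  /-- reduction of functions -/
  ρ : O →+* Fk
  ρ_surj : Function.Surjective ρ
  const_mem : ∀ a : A, algebraMap K F (a : K) ∈ O
  ρ_const : ∀ a : A, ρ ⟨algebraMap K F (a : K), const_mem a⟩ = algebraMap k Fk (π a)
  /-- the coordinate -/
  x : F
  x_mem : x ∈ O
  xk_transc : Transcendental k (ρ ⟨x, x_mem⟩)

namespace Datum

variable {K k F Fk : Type u} [Field K] [Field k] [Field F] [Field Fk]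
  [Algebra K F] [Algebra k Fk] {A : ValuationSubring K} {π : A →+* k} (G : Datum A π F Fk)

/-- the reduced coordinate `x̄ ∈ F_k` -/
def xk : Fk := G.ρ ⟨G.x, G.x_mem⟩

/-- total reduction `F → F_k` (junk value `0` outside `O`) -/
def red (f : F) : Fk := open Classical in if h : f ∈ G.O then G.ρ ⟨f, h⟩ else 0

/-- the image of `A` in `F` -/
def constRing (_G : Datum A π F Fk) : Subring F := A.toSubring.map (algebraMap K F)

/-- `A[t] ⊆ F` -/
def polyRing (t : F) : Subring F := G.constRing ⊔ Subring.closure {t}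

/-- `B_t` := integral closure of `A[t]` in `F`.  `B_fin = G.chart G.x`, `B_inf = G.chart G.x⁻¹`. -/
def chart (t : F) : Subring F := (integralClosure (G.polyRing t) F).toSubring

/-- `C_s` := integral closure of `k[s]` in `F_k`.  `C_fin = chartk G.xk`, `C_inf = chartk G.xk⁻¹`. -/
def chartk (_G : Datum A π F Fk) (s : Fk) : Subring Fk :=
  (integralClosure (Algebra.adjoin k {s}) Fk).toSubring

/-- `K·B_t` := integral closure of `K[t]` in `F`. -/
def chartK (_G : Datum A π F Fk) (t : F) : Subring F :=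
  (integralClosure (Algebra.adjoin K {t}) F).toSubring

/-- **Good charts** = the hypotheses (H1), (H3), (H4') of `coord/S37-red.md`. -/
structure Good : Prop where
  /-- (H1) `F / K(x)` is finite -/
  finite : FiniteDimensional K⟮G.x⟯ F
  /-- (H1) `F_k / k(x̄)` is finite … -/
  finite_k : FiniteDimensional k⟮G.xk⟯ Fk
  /-- (H1) … and separable … -/
  sep_k : Algebra.IsSeparable k⟮G.xk⟯ Fk
  /-- (H1) … of the same degree. -/
  finrank_eq : Module.finrank K⟮G.x⟯ F = Module.finrank k⟮G.xk⟯ Fk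
  /-- (H3) normality of the special fibre, finite chart: every element of `F_k` integral over
  `k[x̄]` is the reduction of an element of `O` integral over `A[x]`. -/
  lift_fin : ∀ c ∈ G.chartk G.xk, ∃ b ∈ G.chart G.x, ∃ hb : b ∈ G.O, G.ρ ⟨b, hb⟩ = c
  /-- (H3) the same at infinity. -/
  lift_inf : ∀ c ∈ G.chartk G.xk⁻¹, ∃ b ∈ G.chart G.x⁻¹, ∃ hb : b ∈ G.O, G.ρ ⟨b, hb⟩ = c
  /-- (H4') saturation, finite chart: `O ∩ K·B_fin = B_fin`. -/
  sat_fin : ∀ f ∈ G.O, f ∈ G.chartK G.x → f ∈ G.chart G.x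
  /-- (H4') the same at infinity. -/
  sat_inf : ∀ f ∈ G.O, f ∈ G.chartK G.x⁻¹ → f ∈ G.chart G.x⁻¹

end Datum

/-! ## 2. Values at places, the properties of `r` -/

section Props

variable {K k F Fk : Type u} [Field K] [Field k] [Field F] [Field Fk]
  [Algebra K F] [Algebra k Fk]

/-- `f(P) = a`: the function `f` is regular at `P` with value `a`.
(Not `0 < P.ord (f - a)`: the Prelude has `ord 0 = 0`.) -/
def ValAt (P : Place K F) (f : F) (a : K) : Prop :=
  P.toValuationSubring.valuation (f - algebraMap K F a) < 1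

variable {A : ValuationSubring K} {π : A →+* k} (G : Datum A π F Fk)
  (r : Place K F → Place k Fk)

/-- (i) + (ii) of the Prelude `IsPlaceReductionAlong`, in abstract form:
`r` preserves degrees and `r_*(div y) = div (ρ y)` for every unit `y` of `O`. -/
def IsRed : Prop :=
  (∀ P, (r P).deg = P.deg) ∧
    ∀ (y : F) (hy : y ∈ G.O), G.ρ ⟨y, hy⟩ ≠ 0 →
      ∀ D : Divisor K F, (∀ P, D P = P.ord y) →
        ∀ Q, Finsupp.mapDomain r D Q = Q.ord (G.ρ ⟨y, hy⟩)

/-- **Evaluation compatibility** on the chart of `t` (`t = x` or `t = x⁻¹`): if `t(P) ∈ A`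
then for all `b ∈ B_t`: `b(P) = a ∈ A` implies `(ρ b)(r P) = π a`. -/
def EvalCompatAt (t : F) : Prop :=
  ∀ (P : Place K F) (a₀ : A), ValAt P t a₀ →
    ∀ b ∈ G.chart t, ∀ (hb : b ∈ G.O) (a : A), ValAt P b a →
      ValAt (r P) (G.ρ ⟨b, hb⟩) (π a)

/-- (EC) evaluation compatibility on both charts. -/
def EvalCompat : Prop := EvalCompatAt G r G.x ∧ EvalCompatAt G r G.x⁻¹

/-- **RED-C1**: (EC) determines `r` (constants algebraically closed). -/
def EvalCompatUniqueStatement [IsAlgClosed K] [CharZero K] [IsAlgClosed k] : Prop :=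
  G.Good → ∀ r₁ r₂ : Place K F → Place k Fk, EvalCompat G r₁ → EvalCompat G r₂ → r₁ = r₂

end Props

/-! ## 3. MAIN THEOREM of S37-RED (abstract form) -/

/-- **RED-MAIN**: over algebraically closed constants (`K` of characteristic `0`), a datum with
good charts has a place reduction map with (i), (ii) and (EC). -/
def MainStatement : Prop :=
  ∀ (K k F Fk : Type u) [Field K] [Field k] [Field F] [Field Fk] [Algebra K F] [Algebra k Fk]
    [IsAlgClosed K] [CharZero K] [IsAlgClosed k] (A : ValuationSubring K) (π : A →+* k)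
    (G : Datum A π F Fk), G.Good →
    ∃ r : Place K F → Place k Fk, IsRed G r ∧ EvalCompat G r

/-! ## 4. The pieces -/

section Pieces

variable {K k F Fk : Type u} [Field K] [Field k] [Field F] [Field Fk]
  [Algebra K F] [Algebra k Fk] [IsAlgClosed K] [CharZero K] [IsAlgClosed k]
  {A : ValuationSubring K} {π : A →+* k} (G : Datum A π F Fk)

/-- Hypothesis on an auxiliary coordinate `t ∈ O`: reduction transcendental, both extensions
finite of the same degree, the one in characteristic `ℓ` separable. -/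
structure Datum.AuxCoord (t : F) : Prop where
  mem : t ∈ G.O
  transc : Transcendental k (G.red t)
  finite : FiniteDimensional K⟮t⟯ F
  finite_k : FiniteDimensional k⟮G.red t⟯ Fk
  sep_k : Algebra.IsSeparable k⟮G.red t⟯ Fk
  finrank_eq : Module.finrank K⟮t⟯ F = Module.finrank k⟮G.red t⟯ Fk

/-- **RED-A1 (norms commute with reduction)**.  For an auxiliary coordinate `t` and `y ∈ O`:
`N_{F/K(t)}(y) ∈ O` and `ρ (N_{F/K(t)} y) = N_{F_k/k(t̄)} (ρ y)`.
(Gauss: lifts of a `k(t̄)`-basis of `F_k` form a basis of `O` over `O ∩ K(t)`.) -/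
def NormRedStatement : Prop :=
  ∀ t : F, G.AuxCoord t → ∀ y ∈ G.O,
    ((Algebra.norm K⟮t⟯ y : K⟮t⟯) : F) ∈ G.O ∧
      G.red ((Algebra.norm K⟮t⟯ y : K⟮t⟯) : F) =
        ((Algebra.norm k⟮G.red t⟯ (G.red y) : k⟮G.red t⟯) : Fk)

/-- **RED-A (fibre sums)**.  For an auxiliary coordinate `t`, a unit `y` of `O` and `c ∈ A`:
the number of zeros (minus poles) of `ȳ` on the fibre `t̄ = c̄` equals the number of zeros (minus
poles) of `y` on the residue disc `t ≡ c mod 𝔪_A`.  The sums are over arbitrary finite sets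
containing the relevant part of the support. -/
def FibreSumStatement : Prop :=
  ∀ t : F, G.AuxCoord t → ∀ (y : F) (hy : y ∈ G.O), G.ρ ⟨y, hy⟩ ≠ 0 → ∀ c : A,
    ∀ (S : Finset (Place K F)) (T : Finset (Place k Fk)),
      (∀ P : Place K F, P.ord y ≠ 0 → (∃ a : A, π a = π c ∧ ValAt P t a) → P ∈ S) →
      (∀ P ∈ S, ∃ a : A, π a = π c ∧ ValAt P t a) →
      (∀ Q : Place k Fk, Q.ord (G.ρ ⟨y, hy⟩) ≠ 0 → ValAt Q (G.red t) (π c) → Q ∈ T) →
      (∀ Q ∈ T, ValAt Q (G.red t) (π c)) →
      ∑ Q ∈ T, Q.ord (G.ρ ⟨y, hy⟩) = ∑ P ∈ S, P.ord y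

/-- `t` is **monic-like of degree `M`** w.r.t. `x`: `t ∈ B_fin` and `t / x^M ∈ 1 + x⁻¹ B_inf`. -/
def Datum.MonicLike (t : F) (M : ℕ) : Prop :=
  t ∈ G.chart G.x ∧ ∃ β ∈ G.chart G.x⁻¹, t = G.x ^ M * (1 + G.x⁻¹ * β)

/-- **RED-B (degrees)**.  A monic-like `t` of degree `M ≥ 1` whose reduction is a separating
element is an auxiliary coordinate: `[F : K(t)] = M n = [F_k : k(t̄)]`; moreover `t(P) ∈ A`
forces `x(P) ∈ A`. -/
def DegEqStatement : Prop :=
  G.Good → ∀ (t : F) (M : ℕ), 0 < M → G.MonicLike t M →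
    Algebra.IsSeparable k⟮G.red t⟯ Fk →
    G.AuxCoord t ∧ Module.finrank K⟮t⟯ F = M * Module.finrank K⟮G.x⟯ F ∧
      ∀ (P : Place K F) (a : A), ValAt P t a → ∃ a₀ : A, ValAt P G.x a₀

/-- **RED-D1 (separating coordinates)**.  Given a place `Q₁` of `F_k` in the finite chart and a
finite set `T` of places of the finite chart not containing `Q₁`, there is a monic-like `t`
with separating reduction such that `t̄(Q₁) = 0` and `t̄(Q) ≠ 0` for `Q ∈ T`.
(`t = x + (p(x) + h)^ℓ`, `ℓ = char k`, CRT in `C_fin` + (H3).) -/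
def SepStatement : Prop :=
  G.Good → ∀ (Q₁ : Place k Fk) (T : Finset (Place k Fk)), G.xk ∈ Q₁.toValuationSubring →
    (∀ Q ∈ T, G.xk ∈ Q.toValuationSubring) → Q₁ ∉ T →
    ∃ (t : F) (M : ℕ), 0 < M ∧ G.MonicLike t M ∧ Algebra.IsSeparable k⟮G.red t⟯ Fk ∧
      ValAt Q₁ (G.red t) 0 ∧ ∀ Q ∈ T, ¬ ValAt Q (G.red t) 0

/-- **RED-C0 (every chart function has a value in `A`)**: if `t(P) ∈ A` then every `b ∈ B_t`
is regular at `P` with value in `A`. -/
def ChartValueStatement : Prop :=
  ∀ (t : F) (P : Place K F) (a₀ : A), ValAt P t a₀ → ∀ b ∈ G.chart t, ∃ a : A, ValAt P b a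

/-- **RED-C (construction of `r`)**: existence of a map with (i) and (EC). -/
def ExistsEvalCompatStatement : Prop :=
  G.Good → ∃ r : Place K F → Place k Fk, (∀ P, (r P).deg = P.deg) ∧ EvalCompat G r

/-- **RED-D (the count)**: (EC) implies (ii). -/
def RedOfEvalCompatStatement : Prop :=
  G.Good → ∀ r : Place K F → Place k Fk, (∀ P, (r P).deg = P.deg) → EvalCompat G r → IsRed G r

/-- **RED-F (Galois compatibility, abstract)**: a semilinear automorphism `g` of `F/K` which
preserves `A` and `O`, fixes `x` and induces `gk` on `F_k/k` commutes with `r`. -/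
def GaloisCompatStatement : Prop :=
  G.Good → ∀ r : Place K F → Place k Fk, EvalCompat G r →
    ∀ (g : SemilinearAut K F) (gk : SemilinearAut k Fk),
      (∀ a : K, a ∈ A → SemilinearAut.baseAut g a ∈ A) →
      (∀ f : F, f ∈ G.O → g • f ∈ G.O) →
      (∀ (f : F) (hf : f ∈ G.O) (hgf : g • f ∈ G.O), G.ρ ⟨g • f, hgf⟩ = gk • G.ρ ⟨f, hf⟩) →
      g • G.x = G.x →
      ∀ P : Place K F, r (g • P) = gk • r P

end Pieces

end Fermat.Agent.S37.Red

end
end
-- ===== PACK-END S37/Red/Spec.lean

-- ===== PACK-BEGIN S37/H217/Lattice.lean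
section


/-!
# Block ALG, lemmas L1 and L3 (lifted residue bases over valuation rings)

Abstract setting (Mathlib only).  `L/L₀` a finite field extension, `V₀ ⊆ L₀` and `V ⊆ L` valuation
subrings with `V ∩ L₀ = V₀` (`ValExtends`).  A family `e : ι → L` of elements of `V` is
*residually independent* (`ResidIndep`) if a `V₀`-combination of the `e i` lying in the maximal
ideal of `V` has all its coefficients in the maximal ideal of `V₀` (i.e. the residues of the `e i`
are linearly independent over the residue field of `V₀`).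

If `#ι = [L : L₀]` then (this is the "defectless, `e = 1`, `f = n`" case):

* `L1` (`linearIndependent_of_residIndep`, `repr_mem_of_mem`, `repr_mem_nonunits_of_mem`):
  `e` is an `L₀`-basis of `L`, and `V = ⊕ V₀ e i`, `𝔪_V = ⊕ 𝔪_{V₀} e i`;
* `L3` (`exists_matrix_leftMul`, `norm_mem_and_map_norm`, `charpoly_mem_and_map_charpoly`):
  for `y ∈ V` the matrix of multiplication by `y` has entries in `V₀`, and for any compatible pair
  of ring homs `ρ₀ : V₀ → R₁`, `ρ : V → S₁` (`S₁` free over `R₁` on the images of the `e i`) norm,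
  trace and characteristic polynomial commute with `ρ`.
-/

namespace Fermat.Agent.S37.H217

open scoped BigOperators

section Lattice

variable {L₀ L : Type*} [Field L₀] [Field L] [Algebra L₀ L]

/-- `V` lies over `V₀`, i.e. `V ∩ L₀ = V₀`. -/
def ValExtends (V₀ : ValuationSubring L₀) (V : ValuationSubring L) : Prop :=
  ∀ a : L₀, algebraMap L₀ L a ∈ V ↔ a ∈ V₀

/-- Residual independence of a family `e` (see the module docstring). -/
def ResidIndep (V₀ : ValuationSubring L₀) (V : ValuationSubring L) {ι : Type*} [Fintype ι]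
    (e : ι → L) : Prop :=
  ∀ c : ι → L₀, (∀ i, c i ∈ V₀) → (∑ i, c i • e i) ∈ V.nonunits → ∀ i, c i ∈ V₀.nonunits

variable {V₀ : ValuationSubring L₀} {V : ValuationSubring L}

theorem ValExtends.mem_nonunits_iff (h : ValExtends V₀ V) (a : L₀) :
    algebraMap L₀ L a ∈ V.nonunits ↔ a ∈ V₀.nonunits := by
  rw [ValuationSubring.mem_nonunits_iff_or, ValuationSubring.mem_nonunits_iff_or, ← map_inv₀,
    h a⁻¹, map_eq_zero]

/-- Scaling: a nonzero finite family in `L₀` can be divided by one of its members so that all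
members land in `V₀`. -/
theorem exists_scale {ι : Type*} [Fintype ι] (V₀ : ValuationSubring L₀) (c : ι → L₀)
    (hc : c ≠ 0) : ∃ m, c m ≠ 0 ∧ ∀ i, c i / c m ∈ V₀ := by
  classical
  obtain ⟨i₀, hi₀⟩ : ∃ i₀, c i₀ ≠ 0 := by
    by_contra h
    exact hc (funext fun i => not_not.mp fun hi => h ⟨i, hi⟩)
  obtain ⟨m, -, hm⟩ := Finset.exists_max_image Finset.univ (fun i => V₀.valuation (c i))
    ⟨i₀, Finset.mem_univ _⟩
  have hm0 : c m ≠ 0 := by
    intro h0
    have h1 := hm i₀ (Finset.mem_univ _)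
    rw [h0, map_zero] at h1
    exact hi₀ ((map_eq_zero _).mp (le_antisymm h1 zero_le))
  refine ⟨m, hm0, fun i => ?_⟩
  rw [← ValuationSubring.valuation_le_one_iff, map_div₀]
  have hv : V₀.valuation (c m) ≠ 0 := (map_ne_zero _).mpr hm0
  exact (div_le_one₀ (zero_lt_iff.mpr hv)).mpr (hm i (Finset.mem_univ _))

theorem smul_sum_div {ι : Type*} [Fintype ι] (c : ι → L₀) (e : ι → L) (m : ι) :
    ∑ i, (c i / c m) • e i = algebraMap L₀ L (c m)⁻¹ * ∑ i, c i • e i := by
  rw [Finset.mul_sum]
  refine Finset.sum_congr rfl fun i _ => ?_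
  rw [Algebra.smul_def, Algebra.smul_def, ← mul_assoc, ← map_mul, div_eq_inv_mul]

/-- `L1`, key step: a combination of the `e i` lying in `V` has coefficients in `V₀`. -/
theorem coeff_mem_of_sum_mem {ι : Type*} [Fintype ι] (h : ValExtends V₀ V) {e : ι → L}
    (hR : ResidIndep V₀ V e) (c : ι → L₀) (hc : (∑ i, c i • e i) ∈ V) : ∀ i, c i ∈ V₀ := by
  by_contra hne
  obtain ⟨i₀, hi₀⟩ := not_forall.mp hne
  have hc0 : c ≠ 0 := by
    intro h0
    apply hi₀
    rw [h0]
    exact V₀.zero_mem
  obtain ⟨m, hm0, hm⟩ := exists_scale V₀ c hc0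
  have hmV : c m ∉ V₀ := by
    intro hmem
    apply hi₀
    have : c i₀ = c i₀ / c m * c m := by field_simp
    rw [this]
    exact V₀.mul_mem _ _ (hm i₀) hmem
  have hinv : (c m)⁻¹ ∈ V₀.nonunits :=
    (ValuationSubring.inv_mem_nonunits_iff V₀).mpr (Or.inr hmV)
  have hsum : (∑ i, (c i / c m) • e i) ∈ V.nonunits := by
    rw [smul_sum_div]
    have h1 : algebraMap L₀ L (c m)⁻¹ ∈ V.nonunits := (h.mem_nonunits_iff _).mpr hinv
    rw [ValuationSubring.mem_nonunits_iff] at h1 ⊢
    rw [map_mul]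
    exact mul_lt_one_of_nonneg_of_lt_one_left zero_le h1
      ((ValuationSubring.valuation_le_one_iff V _).mpr hc)
  have := hR _ hm hsum m
  rw [div_self hm0] at this
  rw [ValuationSubring.mem_nonunits_iff, map_one] at this
  exact lt_irrefl _ this

/-- `L1`: a residually independent family is linearly independent. -/
theorem eq_zero_of_sum_eq_zero {ι : Type*} [Fintype ι] {e : ι → L}
    (hR : ResidIndep V₀ V e) (c : ι → L₀) (hc : (∑ i, c i • e i) = 0) : ∀ i, c i = 0 := by
  by_contra hne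
  have hc0 : c ≠ 0 := by
    intro h0
    apply hne
    intro i
    rw [h0]
    rfl
  obtain ⟨m, hm0, hm⟩ := exists_scale V₀ c hc0
  have hsum : (∑ i, (c i / c m) • e i) ∈ V.nonunits := by
    rw [smul_sum_div, hc, mul_zero]
    exact V.nonunits.zero_mem
  have := hR _ hm hsum m
  rw [div_self hm0] at this
  rw [ValuationSubring.mem_nonunits_iff, map_one] at this
  exact lt_irrefl _ this

theorem linearIndependent_of_residIndep {ι : Type*} [Fintype ι]
    {e : ι → L} (hR : ResidIndep V₀ V e) : LinearIndependent L₀ e :=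
  Fintype.linearIndependent_iff.mpr fun c hc => eq_zero_of_sum_eq_zero hR c hc

/-- `L1`: a residually independent family of cardinality `[L : L₀]` is a basis. -/
theorem exists_basis_of_residIndep {ι : Type*} [Fintype ι] [Nonempty ι]
    {e : ι → L} (hR : ResidIndep V₀ V e) (hcard : Fintype.card ι = Module.finrank L₀ L) :
    ∃ b : Module.Basis ι L₀ L, ⇑b = e :=
  ⟨basisOfLinearIndependentOfCardEqFinrank (linearIndependent_of_residIndep hR) hcard,
    coe_basisOfLinearIndependentOfCardEqFinrank _ _⟩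

section Basis

variable {ι : Type*} [Fintype ι]

/-- `L1`: coordinates of elements of `V` in a residually independent basis lie in `V₀`. -/
theorem repr_mem_of_mem (h : ValExtends V₀ V) (b : Module.Basis ι L₀ L)
    (hR : ResidIndep V₀ V b) {y : L} (hy : y ∈ V) (i : ι) : b.repr y i ∈ V₀ :=
  coeff_mem_of_sum_mem h hR (fun i => b.repr y i) (by rw [b.sum_repr]; exact hy) i

/-- `L1`: coordinates of elements of `𝔪_V` in a residually independent basis lie in `𝔪_{V₀}`. -/
theorem repr_mem_nonunits_of_mem (h : ValExtends V₀ V) (b : Module.Basis ι L₀ L)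
    (hR : ResidIndep V₀ V b) {y : L} (hy : y ∈ V.nonunits) (i : ι) :
    b.repr y i ∈ V₀.nonunits :=
  hR (fun i => b.repr y i) (fun i => repr_mem_of_mem h b hR (V.nonunits_subset hy) i)
    (by rw [b.sum_repr]; exact hy) i

variable [DecidableEq ι]

/-- The matrix (with entries in `V₀`) of multiplication by `y ∈ V` in a residually independent
basis consisting of elements of `V`. -/
noncomputable def intMatrix (h : ValExtends V₀ V) (b : Module.Basis ι L₀ L)
    (hR : ResidIndep V₀ V b) (hb : ∀ i, b i ∈ V) (y : V) : Matrix ι ι V₀ :=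
  fun i j => ⟨b.repr ((y : L) * b j) i, repr_mem_of_mem h b hR (V.mul_mem _ _ y.2 (hb j)) i⟩

theorem intMatrix_map (h : ValExtends V₀ V) (b : Module.Basis ι L₀ L)
    (hR : ResidIndep V₀ V b) (hb : ∀ i, b i ∈ V) (y : V) :
    (intMatrix h b hR hb y).map (algebraMap V₀ L₀) = Algebra.leftMulMatrix b (y : L) := by
  ext i j
  rw [Algebra.leftMulMatrix_eq_repr_mul]
  rfl

/-- `L3`: the norm of `y ∈ V` is the determinant of the integral matrix; in particular it lies
in `V₀`. -/
theorem norm_eq_det_intMatrix (h : ValExtends V₀ V) (b : Module.Basis ι L₀ L)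
    (hR : ResidIndep V₀ V b) (hb : ∀ i, b i ∈ V) (y : V) :
    Algebra.norm L₀ (y : L) = ((intMatrix h b hR hb y).det : L₀) := by
  rw [Algebra.norm_eq_matrix_det b, ← intMatrix_map h b hR hb y]
  exact (RingHom.map_det (algebraMap V₀ L₀) _).symm

theorem trace_eq_trace_intMatrix (h : ValExtends V₀ V) (b : Module.Basis ι L₀ L)
    (hR : ResidIndep V₀ V b) (hb : ∀ i, b i ∈ V) (y : V) :
    Algebra.trace L₀ L (y : L) = ((intMatrix h b hR hb y).trace : L₀) := by
  rw [Algebra.trace_eq_matrix_trace b, ← intMatrix_map h b hR hb y]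
  exact (AddMonoidHom.map_trace (algebraMap V₀ L₀) _).symm

theorem charpoly_eq_map_charpoly_intMatrix [FiniteDimensional L₀ L] (h : ValExtends V₀ V)
    (b : Module.Basis ι L₀ L) (hR : ResidIndep V₀ V b) (hb : ∀ i, b i ∈ V) (y : V) :
    (Algebra.lmul L₀ L (y : L)).charpoly =
      (intMatrix h b hR hb y).charpoly.map (algebraMap V₀ L₀) := by
  rw [← Matrix.charpoly_map, intMatrix_map, Algebra.leftMulMatrix_apply,
    LinearMap.charpoly_toMatrix]

theorem norm_mem (h : ValExtends V₀ V) (b : Module.Basis ι L₀ L)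
    (hR : ResidIndep V₀ V b) (hb : ∀ i, b i ∈ V) {y : L} (hy : y ∈ V) :
    Algebra.norm L₀ y ∈ V₀ := by
  have := norm_eq_det_intMatrix h b hR hb ⟨y, hy⟩
  rw [this]
  exact Subtype.property _

section Reduction

variable {R₁ S₁ : Type*} [CommRing R₁] [CommRing S₁] [Algebra R₁ S₁]

/-- `L3`: compatibility of the multiplication matrices with a reduction map. -/
theorem leftMulMatrix_map_eq (h : ValExtends V₀ V) (b : Module.Basis ι L₀ L)
    (hR : ResidIndep V₀ V b) (hb : ∀ i, b i ∈ V) (ρ₀ : V₀ →+* R₁) (ρ : V →+* S₁)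
    (hρ : ∀ a : V₀, ρ ⟨algebraMap L₀ L a, (h a).mpr a.2⟩ = algebraMap R₁ S₁ (ρ₀ a))
    (b₁ : Module.Basis ι R₁ S₁) (hb₁ : ∀ i, ρ ⟨b i, hb i⟩ = b₁ i) (y : V) :
    Algebra.leftMulMatrix b₁ (ρ y) = (intMatrix h b hR hb y).map ρ₀ := by
  have key : ∀ j, ρ y * b₁ j = ∑ i, ρ₀ (intMatrix h b hR hb y i j) • b₁ i := by
    intro j
    have h1 : y * ⟨b j, hb j⟩ =
        ∑ i, (⟨algebraMap L₀ L (intMatrix h b hR hb y i j), (h _).mpr (Subtype.property _)⟩ : V) *
          ⟨b i, hb i⟩ := by
      apply Subtype.ext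
      have h2 : ((∑ i, (⟨algebraMap L₀ L (intMatrix h b hR hb y i j),
          (h _).mpr (Subtype.property _)⟩ : V) * ⟨b i, hb i⟩ : V) : L) =
          ∑ i, algebraMap L₀ L (intMatrix h b hR hb y i j) * b i := by
        rw [← ValuationSubring.subtype_apply, map_sum]
        rfl
      rw [h2]
      have h3 := b.sum_repr ((y : L) * b j)
      simp only [Algebra.smul_def] at h3
      exact h3.symm
    rw [← hb₁ j, ← map_mul, h1, map_sum]
    refine Finset.sum_congr rfl fun i _ => ?_
    rw [map_mul, hρ, hb₁, Algebra.smul_def]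
  ext i j
  rw [Algebra.leftMulMatrix_eq_repr_mul, key j, b₁.repr_sum_self]
  rfl

/-- `L3`: **norm commutes with reduction**. -/
theorem map_norm_eq_norm_map (h : ValExtends V₀ V) (b : Module.Basis ι L₀ L)
    (hR : ResidIndep V₀ V b) (hb : ∀ i, b i ∈ V) (ρ₀ : V₀ →+* R₁) (ρ : V →+* S₁)
    (hρ : ∀ a : V₀, ρ ⟨algebraMap L₀ L a, (h a).mpr a.2⟩ = algebraMap R₁ S₁ (ρ₀ a))
    (b₁ : Module.Basis ι R₁ S₁) (hb₁ : ∀ i, ρ ⟨b i, hb i⟩ = b₁ i) (y : V) :
    ρ₀ ⟨Algebra.norm L₀ (y : L), norm_mem h b hR hb y.2⟩ = Algebra.norm R₁ (ρ y) := by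
  rw [Algebra.norm_eq_matrix_det b₁, leftMulMatrix_map_eq h b hR hb ρ₀ ρ hρ b₁ hb₁ y]
  have : (⟨Algebra.norm L₀ (y : L), norm_mem h b hR hb y.2⟩ : V₀) =
      (intMatrix h b hR hb y).det := Subtype.ext (norm_eq_det_intMatrix h b hR hb y)
  rw [this]
  exact RingHom.map_det ρ₀ _

/-- `L3`: trace commutes with reduction. -/
theorem map_trace_intMatrix_eq_trace_map (h : ValExtends V₀ V) (b : Module.Basis ι L₀ L)
    (hR : ResidIndep V₀ V b) (hb : ∀ i, b i ∈ V) (ρ₀ : V₀ →+* R₁) (ρ : V →+* S₁)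
    (hρ : ∀ a : V₀, ρ ⟨algebraMap L₀ L a, (h a).mpr a.2⟩ = algebraMap R₁ S₁ (ρ₀ a))
    (b₁ : Module.Basis ι R₁ S₁) (hb₁ : ∀ i, ρ ⟨b i, hb i⟩ = b₁ i) (y : V) :
    ρ₀ (intMatrix h b hR hb y).trace = Algebra.trace R₁ S₁ (ρ y) := by
  rw [Algebra.trace_eq_matrix_trace b₁, leftMulMatrix_map_eq h b hR hb ρ₀ ρ hρ b₁ hb₁ y]
  exact AddMonoidHom.map_trace ρ₀ _

/-- `L3`: characteristic polynomial commutes with reduction. -/
theorem map_charpoly_intMatrix_eq_charpoly_map (h : ValExtends V₀ V) (b : Module.Basis ι L₀ L)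
    (hR : ResidIndep V₀ V b) (hb : ∀ i, b i ∈ V) (ρ₀ : V₀ →+* R₁) (ρ : V →+* S₁)
    (hρ : ∀ a : V₀, ρ ⟨algebraMap L₀ L a, (h a).mpr a.2⟩ = algebraMap R₁ S₁ (ρ₀ a))
    (b₁ : Module.Basis ι R₁ S₁) (hb₁ : ∀ i, ρ ⟨b i, hb i⟩ = b₁ i) (y : V) :
    (intMatrix h b hR hb y).charpoly.map ρ₀ =
      (Algebra.leftMulMatrix b₁ (ρ y)).charpoly := by
  rw [leftMulMatrix_map_eq h b hR hb ρ₀ ρ hρ b₁ hb₁ y, Matrix.charpoly_map]

end Reduction

end Basis

end Lattice

end Fermat.Agent.S37.H217

end
-- ===== PACK-END S37/H217/Lattice.lean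

-- ===== PACK-BEGIN S15/H111/Count2Alg.lean
section
/-
Row S15, node DESC, tower COUNT for `r = 2` (helper111): PURE ALGEBRA (Mathlib only).
Blueprint: `coord/S15-COUNT2-helper111.md`.

* `exists_four_torsion_sub_eq`  (LOC-∞, abstract): on a `2`-divisible abelian group with an additive
  involution `c`, every `y` with `c (2y) = 2y` has `c y - y = c z - z` for some `z` killed by `4`.
* `card_sq_le_of_isotropic`  (isotropic subgroups of a non-degenerate pairing into `ZMod n`;
  the pairing is a plain function, additive only on the relevant subgroups).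
* `pairing_sub_sub_eq_zero`  (`(c - 1) E` is isotropic for a `c`-anti-invariant pairing).
* `card_sq_le_of_tower`  (SAT): the saturation count.
-/


set_option autoImplicit false

namespace Fermat.Agent.S15.H111

section LocInfty

variable {J : Type*} [AddCommGroup J]

/-- **LOC-∞, abstract form.**  `J` a `2`-divisible abelian group, `c` an additive involution,
`c (2 y) = 2 y`.  Then `c y - y = c z - z` for some `z` with `4 z = 0`. -/
theorem exists_four_torsion_sub_eq (c : J →+ J) (hc : ∀ x, c (c x) = x)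
    (hdiv : ∀ x : J, ∃ y : J, 2 • y = x) (y : J) (hy : c (2 • y) = 2 • y) :
    ∃ z : J, 4 • z = 0 ∧ c z - z = c y - y := by
  obtain ⟨y', hy'⟩ := hdiv y
  have hcy : 2 • c y = 2 • y := by rw [← map_nsmul, hy]
  have hcy' : 2 • c y' = c y := by rw [← map_nsmul, hy']
  refine ⟨y - (y' + c y'), ?_, ?_⟩
  · have h1 : 2 • (y - (y' + c y')) = y - c y := by
      rw [smul_sub, smul_add, hy', hcy', two_nsmul]; abel
    have h4 : (4 : ℕ) • (y - (y' + c y')) = 2 • (2 • (y - (y' + c y'))) := by
      rw [← mul_nsmul]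
    rw [h4, h1, smul_sub, hcy, sub_self]
  · rw [map_sub, map_add, hc]
    abel

end LocInfty

section Isotropic

open Function

/-- **Isotropic subgroups of a non-degenerate pairing into `ZMod n` are small.**
`B` is a plain function, additive in each variable on `E × Y`; `Y ≤ E` is isotropic and the pairing
`E × Y → ZMod n` has trivial right kernel. -/
theorem card_sq_le_of_isotropic {X : Type*} [AddCommGroup X] {n : ℕ} [NeZero n]
    (B : X → X → ZMod n) (E Y : AddSubgroup X) [Finite E] (hYE : Y ≤ E)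
    (hl : ∀ x ∈ E, ∀ x' ∈ E, ∀ y ∈ Y, B (x + x') y = B x y + B x' y)
    (hr : ∀ x ∈ E, ∀ y ∈ Y, ∀ y' ∈ Y, B x (y + y') = B x y + B x y')
    (hiso : ∀ y ∈ Y, ∀ y' ∈ Y, B y y' = 0)
    (hnd : ∀ y ∈ Y, (∀ x ∈ E, B x y = 0) → y = 0) :
    Nat.card Y ^ 2 ≤ Nat.card E := by
  classical
  have : Finite Y := Finite.of_injective (fun y : Y => (⟨y, hYE y.2⟩ : E))
    (fun a b h => Subtype.ext (congrArg (fun e : E => (e : X)) h))
  have hl0 : ∀ y ∈ Y, B 0 y = 0 := fun y hy => by
    have := hl 0 E.zero_mem 0 E.zero_mem y hy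
    rw [add_zero] at this
    exact left_eq_add.mp this
  let Φ : E →+ (Y → ZMod n) :=
    { toFun := fun x y => B (x : X) (y : X)
      map_zero' := by funext y; exact hl0 y y.2
      map_add' := fun x x' => by funext y; exact hl x x.2 x' x'.2 y y.2 }
  have h1 : Nat.card Φ.ker * Nat.card Φ.range = Nat.card E := by
    rw [← AddSubgroup.index_ker]; exact AddSubgroup.card_mul_index _
  have h2 : Nat.card Y ≤ Nat.card Φ.ker := by
    refine Nat.card_le_card_of_injective
      (fun y : Y => (⟨⟨y, hYE y.2⟩, ?_⟩ : Φ.ker)) ?_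
    · rw [AddMonoidHom.mem_ker]
      funext y'
      exact hiso y y.2 y' y'.2
    · intro a b h
      have := congrArg (fun e : Φ.ker => ((e : E) : X)) h
      exact Subtype.ext this
  have h3 : Nat.card Y ≤ Nat.card Φ.range := by
    let ev : Y → AddChar Φ.range ℂ := fun y =>
      { toFun := fun h => ZMod.stdAddChar ((h : Y → ZMod n) y)
        map_zero_eq_one' := by simp
        map_add_eq_mul' := fun h h' => by
          simp [AddChar.map_add_eq_mul] }
    have hev : Injective ev := by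
      intro y y' hyy'
      have hsub : ((y : X) - (y' : X)) = 0 := by
        refine hnd _ (Y.sub_mem y.2 y'.2) fun x hx => ?_
        have := congrArg (fun ψ : AddChar Φ.range ℂ => ψ ⟨Φ ⟨x, hx⟩, ⟨⟨x, hx⟩, rfl⟩⟩) hyy'
        have h' : ZMod.stdAddChar (B x (y : X)) = ZMod.stdAddChar (B x (y' : X)) := this
        have h'' := ZMod.injective_stdAddChar h'
        have h3 := hr x hx ((y : X) - (y' : X)) (Y.sub_mem y.2 y'.2) (y' : X) y'.2
        rw [sub_add_cancel, h''] at h3
        exact right_eq_add.mp h3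
      exact Subtype.ext (sub_eq_zero.mp hsub)
    let _ : Fintype Φ.range := Fintype.ofFinite _
    calc Nat.card Y ≤ Nat.card (AddChar Φ.range ℂ) := Nat.card_le_card_of_injective ev hev
      _ = Fintype.card (AddChar Φ.range ℂ) := Nat.card_eq_fintype_card
      _ ≤ Fintype.card Φ.range := AddChar.card_addChar_le _ _
      _ = Nat.card Φ.range := Nat.card_eq_fintype_card.symm
  calc Nat.card Y ^ 2 = Nat.card Y * Nat.card Y := sq _
    _ ≤ Nat.card Φ.ker * Nat.card Φ.range := Nat.mul_le_mul h2 h3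
    _ = Nat.card E := h1

/-- The image of `c - 1` is isotropic for a `c`-anti-invariant pairing (`c` an involution);
`B` a plain function, bi-additive on the `c`-stable subgroup `E`. -/
theorem pairing_sub_sub_eq_zero {X A : Type*} [AddCommGroup X] [AddCommGroup A]
    (B : X → X → A) (E : AddSubgroup X) (c : X →+ X) (hc : ∀ x, c (c x) = x)
    (hcE : ∀ x ∈ E, c x ∈ E)
    (hl : ∀ x ∈ E, ∀ x' ∈ E, ∀ y ∈ E, B (x + x') y = B x y + B x' y)
    (hr : ∀ x ∈ E, ∀ y ∈ E, ∀ y' ∈ E, B x (y + y') = B x y + B x y')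
    (hcB : ∀ x ∈ E, ∀ y ∈ E, B (c x) (c y) = - B x y) (x y : X) (hx : x ∈ E) (hy : y ∈ E) :
    B (c x - x) (c y - y) = 0 := by
  have hcx := hcE x hx
  have hcy := hcE y hy
  have h1 : B x (c y) = - B (c x) y := by
    have h := hcB x hx (c y) hcy
    rw [hc] at h
    rw [h, neg_neg]
  -- expand in the second variable
  have e1 : ∀ u ∈ E, B u (c y) = B u (c y - y) + B u y := fun u hu => by
    have := hr u hu (c y - y) (E.sub_mem hcy hy) y hy
    rwa [sub_add_cancel] at this
  have e2 : ∀ v ∈ E, B (c x) v = B (c x - x) v + B x v := fun v hv => by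
    have := hl (c x - x) (E.sub_mem hcx hx) x hx v hv
    rwa [sub_add_cancel] at this
  have hcxy := hcB x hx y hy
  -- B (cx) (cy) = B (cx - x) (cy) + B x (cy) = B(cx - x)(cy - y) + B (cx - x) y + B x (cy)
  have a1 := e2 (c y) hcy
  have a2 := e1 (c x - x) (E.sub_mem hcx hx)
  have a3 := e2 y hy
  -- B (cx - x) y = B (cx) y - B x y
  have : B (c x - x) (c y - y) = B (c x) (c y) - B x (c y) - (B (c x) y - B x y) := by
    rw [a1, a2, a3]; abel
  rw [this, hcxy, h1]
  abel

end Isotropic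

section Sat

variable {M : Type*} [AddCommGroup M]

/-- The `2 ^ k`-torsion subgroup. -/
def tk (M : Type*) [AddCommGroup M] (k : ℕ) : AddSubgroup M :=
  (nsmulAddMonoidHom (α := M) (2 ^ k)).ker

theorem mem_tk {k : ℕ} {x : M} : x ∈ tk M k ↔ 2 ^ k • x = 0 := by
  rw [tk, AddMonoidHom.mem_ker]; rfl

theorem tk_mono {k l : ℕ} (h : k ≤ l) : tk M k ≤ tk M l := by
  intro x hx
  rw [mem_tk] at hx ⊢
  obtain ⟨m, rfl⟩ := Nat.exists_eq_add_of_le h
  rw [pow_add, mul_nsmul, hx, smul_zero]

/-- `|H| = |H ∩ ker f| * |f(H)|`. -/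
theorem card_eq_card_inf_ker_mul_card_map {N : Type*} [AddCommGroup N] (f : M →+ N)
    (H : AddSubgroup M) :
    Nat.card H = Nat.card ↥(H ⊓ f.ker) * Nat.card ↥(H.map f) := by
  let g : H →+ N := f.comp H.subtype
  have h1 : Nat.card g.ker * Nat.card g.range = Nat.card H := by
    rw [← AddSubgroup.index_ker]; exact AddSubgroup.card_mul_index _
  have h2 : g.range = H.map f := by
    ext y
    constructor
    · rintro ⟨x, rfl⟩
      exact ⟨x, x.2, rfl⟩
    · rintro ⟨x, hx, rfl⟩
      exact ⟨⟨x, hx⟩, rfl⟩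
  have h3 : Nat.card g.ker = Nat.card ↥(H ⊓ f.ker) := by
    refine Nat.card_congr
      { toFun := fun x => ⟨(x : H), ⟨(x : H).2, x.2⟩⟩
        invFun := fun x => ⟨⟨x, x.2.1⟩, x.2.2⟩
        left_inv := fun x => rfl
        right_inv := fun x => rfl }
  rw [← h1, h2, h3]

theorem le_of_forall_pow_le_pow_succ {a b : ℕ} (hb : 0 < b) (h : ∀ k : ℕ, a ^ k ≤ b ^ (k + 1)) :
    a ≤ b := by
  by_contra hab
  rw [not_le] at hab
  have hb' : (0 : ℝ) < b := by exact_mod_cast hb
  have h1 : (1 : ℝ) < (a : ℝ) / b := by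
    rw [one_lt_div hb']
    exact_mod_cast hab
  obtain ⟨n, hn⟩ := pow_unbounded_of_one_lt (b : ℝ) h1
  have h2 : ((a : ℝ) / b) ^ n ≤ b := by
    rw [div_pow, div_le_iff₀ (pow_pos hb' n)]
    have := h n
    have h3 : ((a ^ n : ℕ) : ℝ) ≤ ((b ^ (n + 1) : ℕ) : ℝ) := by exact_mod_cast this
    push_cast at h3
    calc (a : ℝ) ^ n ≤ (b : ℝ) ^ (n + 1) := h3
      _ = b * b ^ n := by ring
  exact absurd hn (not_lt.mpr h2)

/-- **SAT (the saturation count).**  `E ≤ M` a subgroup stable under the additive endomorphism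
`c`, whose `2`-power torsion is `2`-divisible (inside `E`) with finite `2 ^ k`-torsion.
If `|(c - 1) E[2^k]|² ≤ |E[2^k]|` for all `k`, then `U := (c - 1) E[4] ∩ M[2]` satisfies
`|U|² ≤ |E[2]|`. -/
theorem card_sq_le_of_tower (E : AddSubgroup M) (c : M →+ M) (hcE : ∀ x ∈ E, c x ∈ E)
    (hdiv : ∀ (k : ℕ) (x : M), x ∈ E → 2 ^ k • x = 0 → ∃ y ∈ E, 2 • y = x)
    (hfin : ∀ k, Finite ↥(E ⊓ tk M k))
    (hiso : ∀ k, Nat.card ((E ⊓ tk M k).map (c - AddMonoidHom.id M)) ^ 2 ≤
      Nat.card ↥(E ⊓ tk M k)) :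
    Nat.card ↥(((E ⊓ tk M 2).map (c - AddMonoidHom.id M)) ⊓ tk M 1) ^ 2 ≤
      Nat.card ↥(E ⊓ tk M 1) := by
  set d : M →+ M := c - AddMonoidHom.id M with hd
  set μ : M →+ M := nsmulAddMonoidHom (α := M) 2 with hμ
  have hμapp : ∀ x : M, μ x = 2 • x := fun x => rfl
  have hμker : μ.ker = tk M 1 := by
    ext x
    rw [AddMonoidHom.mem_ker, mem_tk, pow_one, hμapp]
  have ha : ∀ k, (E ⊓ tk M (k + 1)).map μ = E ⊓ tk M k := by
    intro k
    ext x
    constructor
    · rintro ⟨y, ⟨hyE, hy⟩, rfl⟩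
      replace hy : y ∈ tk M (k + 1) := hy
      replace hyE : y ∈ E := hyE
      rw [mem_tk] at hy
      refine AddSubgroup.mem_inf.mpr ⟨?_, ?_⟩
      · rw [hμapp]; exact E.nsmul_mem hyE 2
      · rw [mem_tk, hμapp, ← mul_nsmul, mul_comm, ← pow_succ]
        exact hy
    · rintro ⟨hxE, hx⟩
      replace hx : x ∈ tk M k := hx
      replace hxE : x ∈ E := hxE
      rw [mem_tk] at hx
      obtain ⟨y, hyE, hy⟩ := hdiv k x hxE hx
      refine ⟨y, AddSubgroup.mem_inf.mpr ⟨hyE, ?_⟩, by rw [hμapp, hy]⟩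
      rw [mem_tk, pow_succ, mul_comm, mul_nsmul, hy, hx]
  have hb : ∀ k, (E ⊓ tk M (k + 1)) ⊓ μ.ker = E ⊓ tk M 1 := by
    intro k
    rw [hμker, inf_assoc]
    congr 1
    exact inf_eq_right.mpr (tk_mono (by omega))
  have hc : ∀ k, Nat.card ↥(E ⊓ tk M k) = Nat.card ↥(E ⊓ tk M 1) ^ k := by
    intro k
    induction k with
    | zero =>
      rw [pow_zero]
      have : E ⊓ tk M 0 = ⊥ := by
        ext x
        rw [AddSubgroup.mem_inf, mem_tk, pow_zero, one_nsmul, AddSubgroup.mem_bot]
        exact ⟨fun h => h.2, fun h => ⟨h ▸ E.zero_mem, h⟩⟩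
      rw [this]
      exact AddSubgroup.card_bot
    | succ k ih =>
      rw [card_eq_card_inf_ker_mul_card_map μ (E ⊓ tk M (k + 1)), hb, ha, ih, pow_succ, mul_comm]
  have hdμ : ∀ x : M, d (μ x) = μ (d x) := fun x => by
    rw [hμapp, hμapp, map_nsmul]
  have hV : ∀ k, ((E ⊓ tk M (k + 1)).map d).map μ = (E ⊓ tk M k).map d := by
    intro k
    rw [← ha k]
    ext x
    constructor
    · rintro ⟨y, ⟨z, hz, rfl⟩, rfl⟩
      exact ⟨μ z, ⟨z, hz, rfl⟩, hdμ z⟩
    · rintro ⟨y, ⟨z, hz, rfl⟩, rfl⟩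
      exact ⟨d z, ⟨z, hz, rfl⟩, (hdμ z).symm⟩
  have hVle : ∀ k, (E ⊓ tk M k).map d ≤ E ⊓ tk M k := by
    intro k x
    rintro ⟨z, ⟨hzE, hz⟩, rfl⟩
    replace hz : z ∈ tk M k := hz
    replace hzE : z ∈ E := hzE
    rw [mem_tk] at hz
    refine AddSubgroup.mem_inf.mpr ⟨?_, ?_⟩
    · show (c - AddMonoidHom.id M) z ∈ E
      rw [AddMonoidHom.sub_apply]
      exact E.sub_mem (hcE z hzE) hzE
    · rw [mem_tk, ← map_nsmul, hz, map_zero]
  have hVfin : ∀ k, Finite ((E ⊓ tk M k).map d) := fun k =>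
    have := hfin k
    Finite.of_injective (fun x : (E ⊓ tk M k).map d => (⟨x, hVle k x.2⟩ : ↥(E ⊓ tk M k)))
      (fun a b h => Subtype.ext (congrArg (fun e : ↥(E ⊓ tk M k) => (e : M)) h))
  set U : AddSubgroup M := ((E ⊓ tk M 2).map d) ⊓ tk M 1 with hU
  have hg : ∀ k, Nat.card U ^ k ≤ Nat.card ((E ⊓ tk M (k + 1)).map d) := by
    intro k
    induction k with
    | zero =>
      rw [pow_zero]
      have := hVfin 1
      exact Nat.card_pos
    | succ k ih =>
      have hle : U ≤ (E ⊓ tk M (k + 2)).map d ⊓ μ.ker := by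
        rw [hμker]
        exact inf_le_inf_right _
          (AddSubgroup.map_mono (inf_le_inf_left _ (tk_mono (by omega))))
      have : Finite ↥((E ⊓ tk M (k + 2)).map d ⊓ μ.ker) := by
        have := hVfin (k + 2)
        exact Finite.of_injective
          (fun x : ↥((E ⊓ tk M (k + 2)).map d ⊓ μ.ker) =>
            (⟨x, x.2.1⟩ : (E ⊓ tk M (k + 2)).map d))
          (fun a b h => Subtype.ext
            (congrArg (fun e : (E ⊓ tk M (k + 2)).map d => (e : M)) h))
      have h1 := AddSubgroup.card_le_of_le hle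
      rw [card_eq_card_inf_ker_mul_card_map μ ((E ⊓ tk M (k + 2)).map d), hV (k + 1), pow_succ,
        mul_comm]
      exact Nat.mul_le_mul h1 ih
  have := hfin 1
  refine le_of_forall_pow_le_pow_succ Nat.card_pos fun k => ?_
  calc (Nat.card U ^ 2) ^ k = (Nat.card U ^ k) ^ 2 := by rw [← pow_mul, ← pow_mul, mul_comm]
    _ ≤ Nat.card ((E ⊓ tk M (k + 1)).map d) ^ 2 := Nat.pow_le_pow_left (hg k) 2
    _ ≤ Nat.card ↥(E ⊓ tk M (k + 1)) := hiso (k + 1)
    _ = Nat.card ↥(E ⊓ tk M 1) ^ (k + 1) := hc (k + 1)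

end Sat

end Fermat.Agent.S15.H111

end
-- ===== PACK-END S15/H111/Count2Alg.lean

-- ===== PACK-BEGIN S29/H152/DescEchelon.lean
section
/-
S29 / DESC (helper152) — part 2: the "echelon" lemma.

A nonzero `C`-subspace `W` of `C((q))` whose nonzero elements have bounded order, stable under a
set `H` of coefficientwise ring endomorphisms, contains a nonzero vector fixed by all of `H`
(the vector of maximal order, normalised to leading coefficient `1`).
-/



set_option autoImplicit false

namespace Fermat.Agent.S29.H152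

open ModularCurve

variable {C : Type*} [Field C]

theorem descEchelon_exists_fixed (W : Submodule C (LaurentSeries C))
    (hW : ∃ v ∈ W, v ≠ 0) (B : ℤ) (hB : ∀ v ∈ W, v ≠ 0 → v.order ≤ B)
    (H : Set (C →+* C)) (hH : ∀ σ ∈ H, ∀ v ∈ W, coeffMap σ v ∈ W) :
    ∃ v ∈ W, v ≠ 0 ∧ ∀ σ ∈ H, coeffMap σ v = v := by
  classical
  -- maximal order
  obtain ⟨s, ⟨v₁, hv₁W, hv₁0, hv₁s⟩, hmax⟩ :=
    Int.exists_greatest_of_bdd (P := fun n : ℤ => ∃ v ∈ W, v ≠ 0 ∧ v.order = n)
      ⟨B, fun z ⟨v, hvW, hv0, hvz⟩ => hvz ▸ hB v hvW hv0⟩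
      (by obtain ⟨v, hvW, hv0⟩ := hW; exact ⟨v.order, v, hvW, hv0, rfl⟩)
  have hc : v₁.coeff s ≠ 0 := by
    rw [← hv₁s]
    exact fun h => hv₁0 (HahnSeries.coeff_order_eq_zero.mp h)
  set v : LaurentSeries C := (v₁.coeff s)⁻¹ • v₁ with hv
  have hvW : v ∈ W := W.smul_mem _ hv₁W
  have hvs : v.coeff s = 1 := by
    rw [hv, HahnSeries.coeff_smul, smul_eq_mul, inv_mul_cancel₀ hc]
  have hvlt : ∀ k < s, v.coeff k = 0 := by
    intro k hk
    have h0 : v₁.coeff k = 0 := HahnSeries.coeff_eq_zero_of_lt_order (by rw [hv₁s]; exact hk)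
    rw [hv, HahnSeries.coeff_smul, h0, smul_zero]
  have hv0 : v ≠ 0 := by
    intro h
    rw [h] at hvs
    simp at hvs
  refine ⟨v, hvW, hv0, fun σ hσ => ?_⟩
  by_contra hne
  have hd0 : coeffMap σ v - v ≠ 0 := sub_ne_zero.mpr hne
  have hdW : coeffMap σ v - v ∈ W := W.sub_mem (hH σ hσ v hvW) hvW
  have hle : (coeffMap σ v - v).order ≤ s := hmax _ ⟨_, hdW, hd0, rfl⟩
  have hcoeff : ∀ k ≤ s, (coeffMap σ v - v).coeff k = 0 := by
    intro k hk
    rw [HahnSeries.coeff_sub, coeffMap_coeff]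
    rcases hk.lt_or_eq with h | h
    · rw [hvlt k h, map_zero, sub_zero]
    · rw [h, hvs, map_one, sub_self]
  exact hd0 (HahnSeries.coeff_order_eq_zero.mp (hcoeff _ hle))

end Fermat.Agent.S29.H152

end
-- ===== PACK-END S29/H152/DescEchelon.lean

-- ===== PACK-BEGIN S21/H585/OrbitSum.lean
section


/-!
# Orbit sums on a finite `G`-set (linear algebra of permutation modules of cyclic groups)

For a group `G` acting on a finite type `X`, `g : G` and a field `K` we study
* `osum K g : (X → K) →ₗ[K] (Orb g X → K)`, the sum over the orbits of `⟨g⟩`,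
* `cobd K g : (X → K) →ₗ[K] (X → K)`, `h ↦ (x ↦ h (g • x) - h x)`,
and prove `ker (osum K g) = range (cobd K g)` by a dimension count.
-/

set_option autoImplicit false

namespace Fermat.Agent.S21.H585

section

variable {G : Type*} [Group G] {X : Type*} [MulAction G X]

/-- The orbit space of the cyclic group `⟨g⟩` acting on `X`. -/
abbrev Orb (g : G) (X : Type*) [MulAction G X] : Type _ :=
  MulAction.orbitRel.Quotient (Subgroup.zpowers g) X

/-- The quotient map to the orbit space. -/
def orbMk (g : G) (x : X) : Orb g X := Quotient.mk'' x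

lemma orbMk_surjective (g : G) : Function.Surjective (orbMk (X := X) g) :=
  Quotient.mk''_surjective

lemma orbMk_eq_iff (g : G) (x y : X) :
    orbMk g x = orbMk g y ↔ ∃ k : ℤ, g ^ k • y = x := by
  rw [orbMk, orbMk, Quotient.eq'', MulAction.orbitRel_apply, MulAction.mem_orbit_iff]
  constructor
  · rintro ⟨⟨h, hh⟩, rfl⟩
    obtain ⟨k, rfl⟩ := Subgroup.mem_zpowers_iff.mp hh
    exact ⟨k, rfl⟩
  · rintro ⟨k, rfl⟩
    exact ⟨⟨g ^ k, Subgroup.zpow_mem_zpowers g k⟩, rfl⟩

lemma orbMk_smul (g : G) (x : X) : orbMk g (g • x) = orbMk g x :=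
  (orbMk_eq_iff g _ _).mpr ⟨1, by rw [zpow_one]⟩

lemma orbMk_inv_smul (g : G) (x : X) : orbMk g (g⁻¹ • x) = orbMk g x :=
  (orbMk_eq_iff g _ _).mpr ⟨-1, by rw [zpow_neg_one]⟩


variable (K : Type*) [Field K]

/-- `h ↦ h ∘ g - h`. -/
def cobd (g : G) : (X → K) →ₗ[K] (X → K) where
  toFun h x := h (g • x) - h x
  map_add' h h' := by funext x; simp only [Pi.add_apply]; ring
  map_smul' t h := by funext x; simp only [Pi.smul_apply, smul_eq_mul, RingHom.id_apply]; ring

@[simp] lemma cobd_apply (g : G) (h : X → K) (x : X) : cobd K g h x = h (g • x) - h x := rfl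

variable [Fintype X]

open Classical in
/-- Sum over the orbits of `⟨g⟩`. -/
noncomputable def osum (g : G) : (X → K) →ₗ[K] (Orb g X → K) where
  toFun m ω := ∑ x : X, if orbMk g x = ω then m x else 0
  map_add' m m' := by
    funext ω
    simp only [Pi.add_apply, ← Finset.sum_add_distrib]
    refine Finset.sum_congr rfl fun x _ => ?_
    split_ifs <;> simp
  map_smul' t m := by
    funext ω
    simp only [Pi.smul_apply, smul_eq_mul, RingHom.id_apply, Finset.mul_sum]
    refine Finset.sum_congr rfl fun x _ => ?_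
    split_ifs <;> simp

open Classical in
lemma osum_apply (g : G) (m : X → K) (ω : Orb g X) :
    osum K g m ω = ∑ x : X, if orbMk g x = ω then m x else 0 := rfl

/-- Orbit sums are invariant under translation by `g`. -/
lemma osum_comp_smul (g : G) (m : X → K) : osum K g (fun x => m (g • x)) = osum K g m := by
  classical
  funext ω
  rw [osum_apply, osum_apply]
  refine Fintype.sum_equiv (MulAction.toPerm g) _ _ fun x => ?_
  simp only [MulAction.toPerm_apply, orbMk_smul]

lemma osum_cobd (g : G) (h : X → K) : osum K g (cobd K g h) = 0 := by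
  have : cobd K g h = (fun x => h (g • x)) - h := rfl
  rw [this, map_sub, osum_comp_smul, sub_self]

lemma range_cobd_le_ker_osum (g : G) :
    LinearMap.range (cobd K g : (X → K) →ₗ[K] (X → K)) ≤ LinearMap.ker (osum K g) := by
  rintro _ ⟨h, rfl⟩
  exact osum_cobd K g h

/-- The total sum of the orbit sums is the total sum. -/
lemma sum_osum (g : G) [Fintype (Orb g X)] (m : X → K) : ∑ ω, osum K g m ω = ∑ x, m x := by
  classical
  simp only [osum_apply]
  rw [Finset.sum_comm]
  refine Finset.sum_congr rfl fun x _ => ?_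
  rw [Finset.sum_ite_eq]
  simp

lemma osum_surjective (g : G) : Function.Surjective (osum K g : (X → K) → (Orb g X → K)) := by
  classical
  intro z
  refine ⟨fun x => if x = Quotient.out (orbMk g x) then z (orbMk g x) else 0, ?_⟩
  funext ω
  rw [osum_apply]
  have hω : orbMk g (Quotient.out ω) = ω := Quotient.out_eq' ω
  rw [Finset.sum_eq_single (Quotient.out ω)]
  · rw [if_pos hω, hω, if_pos rfl]
  · intro x _ hx
    by_cases h1 : orbMk g x = ω
    · rw [if_pos h1, if_neg]
      rw [h1]; exact hx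
    · rw [if_neg h1]
  · intro h; exact absurd (Finset.mem_univ _) h


/-- Pull-back of functions from the orbit space. -/
def orbPb (g : G) : (Orb g X → K) →ₗ[K] (X → K) where
  toFun z x := z (orbMk g x)
  map_add' _ _ := rfl
  map_smul' _ _ := rfl

omit [Fintype X] in
lemma orbPb_injective (g : G) :
    Function.Injective (orbPb K g : (Orb g X → K) → (X → K)) := by
  intro z z' h
  funext ω
  obtain ⟨x, rfl⟩ := orbMk_surjective g ω
  exact congrFun h x

omit [Fintype X] in
lemma eq_of_cobd_eq_zero (g : G) {h : X → K} (hh : cobd K g h = 0) (k : ℤ) (x : X) :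
    h (g ^ k • x) = h x := by
  have h1 : ∀ y, h (g • y) = h y := fun y => by
    have := congrFun hh y
    simpa [sub_eq_zero] using this
  induction k using Int.induction_on generalizing x with
  | zero => simp
  | succ n ih =>
    rw [zpow_add_one, mul_smul, ih, h1]
  | pred n ih =>
    rw [zpow_sub_one, mul_smul, ih]
    have := h1 (g⁻¹ • x)
    rw [smul_inv_smul] at this
    exact this.symm

omit [Fintype X] in
lemma ker_cobd_eq_range_orbPb (g : G) :
    LinearMap.ker (cobd K g : (X → K) →ₗ[K] (X → K)) = LinearMap.range (orbPb K g) := by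
  apply le_antisymm
  · intro h hh
    rw [LinearMap.mem_ker] at hh
    refine ⟨fun ω => h (Quotient.out ω), ?_⟩
    funext x
    show h (Quotient.out (orbMk g x)) = h x
    have h1 : orbMk g (Quotient.out (orbMk g x)) = orbMk g x := Quotient.out_eq' _
    obtain ⟨k, hk⟩ := (orbMk_eq_iff g _ _).mp h1
    rw [← hk, eq_of_cobd_eq_zero K g hh]
  · rintro _ ⟨z, rfl⟩
    rw [LinearMap.mem_ker]
    funext x
    show z (orbMk g (g • x)) - z (orbMk g x) = 0
    rw [orbMk_smul, sub_self]

lemma finrank_orb_fun (g : G) : Module.finrank K (Orb g X → K) = Nat.card (Orb g X) := by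
  classical
  letI : Fintype (Orb g X) := Fintype.ofFinite _
  rw [Module.finrank_fintype_fun_eq_card, Nat.card_eq_fintype_card]

lemma finrank_ker_cobd (g : G) :
    Module.finrank K (LinearMap.ker (cobd K g : (X → K) →ₗ[K] (X → K))) = Nat.card (Orb g X) := by
  rw [ker_cobd_eq_range_orbPb, LinearMap.finrank_range_of_inj (orbPb_injective K g),
    finrank_orb_fun]

lemma finrank_range_cobd_add (g : G) :
    Module.finrank K (LinearMap.range (cobd K g : (X → K) →ₗ[K] (X → K))) + Nat.card (Orb g X)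
      = Fintype.card X := by
  rw [← finrank_ker_cobd K g, LinearMap.finrank_range_add_finrank_ker,
    Module.finrank_fintype_fun_eq_card]

lemma finrank_ker_osum_add (g : G) :
    Module.finrank K (LinearMap.ker (osum K g : (X → K) →ₗ[K] (Orb g X → K)))
      + Nat.card (Orb g X) = Fintype.card X := by
  have h := LinearMap.finrank_range_add_finrank_ker (osum K g : (X → K) →ₗ[K] (Orb g X → K))
  rw [LinearMap.range_eq_top.mpr (osum_surjective K g), finrank_top, finrank_orb_fun,
    Module.finrank_fintype_fun_eq_card] at h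
  omega

/-- **Coboundary lemma**: a function with vanishing `⟨g⟩`-orbit sums is of the form
`h ∘ g - h`. -/
theorem ker_osum_eq_range_cobd (g : G) :
    LinearMap.ker (osum K g : (X → K) →ₗ[K] (Orb g X → K)) = LinearMap.range (cobd K g) := by
  symm
  apply Submodule.eq_of_le_of_finrank_eq (range_cobd_le_ker_osum K g)
  have h1 := finrank_range_cobd_add K (X := X) g
  have h2 := finrank_ker_osum_add K (X := X) g
  omega

theorem exists_cobd_of_osum_eq_zero (g : G) {b : X → K} (hb : osum K g b = 0) :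
    ∃ h : X → K, ∀ x, b x = h (g • x) - h x := by
  have : b ∈ LinearMap.range (cobd K g : (X → K) →ₗ[K] (X → K)) := by
    rw [← ker_osum_eq_range_cobd]; exact hb
  obtain ⟨h, rfl⟩ := this
  exact ⟨h, fun x => rfl⟩

end

end Fermat.Agent.S21.H585

end
-- ===== PACK-END S21/H585/OrbitSum.lean

-- ===== PACK-BEGIN S59/H585/Unimod.lean
section
/-
S59 / non-minimal engine — pure algebra (helper585): a unimodularity criterion.

`bijective_of_radical_mod_primes`: a bilinear form `B` on a finite free `ℤ`-module `L` such that,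
for every prime `p`, every `x` with `p ∣ B y x` for all `y` lies in `p L`, is PERFECT on the left:
`x ↦ B x` is a bijection `L → Dual ℤ L`.
-/


set_option autoImplicit false

namespace Fermat.Agent.S59.H585

open Module

section Unimod

variable {L : Type*} [AddCommGroup L] [Module.Finite ℤ L] [Module.Free ℤ L]

/-- An integer which is not a unit is divisible by a prime. -/
theorem exists_prime_dvd_of_not_isUnit {d : ℤ} (hd : ¬ IsUnit d) : ∃ p : ℕ, p.Prime ∧ (p : ℤ) ∣ d := by
  have h1 : d.natAbs ≠ 1 := fun h => hd (Int.isUnit_iff_natAbs_eq.mpr h)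
  obtain ⟨p, hp, hpd⟩ := Nat.exists_prime_and_dvd h1
  exact ⟨p, hp, Int.natCast_dvd.mpr hpd⟩

omit [Module.Finite ℤ L] [Module.Free ℤ L] in
/-- The Gram matrix of `B` in the basis `b` has unit determinant if the radical of `B` modulo every
prime `p` is `p L`. -/
theorem isUnit_det_gram {ι : Type*} [Fintype ι] [DecidableEq ι] (b : Basis ι ℤ L)
    (B : L →ₗ[ℤ] L →ₗ[ℤ] ℤ)
    (h : ∀ p : ℕ, p.Prime → ∀ x : L, (∀ y : L, (p : ℤ) ∣ B y x) → ∃ x' : L, x = (p : ℤ) • x') :
    IsUnit (Matrix.of fun i j => B (b i) (b j)).det := by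
  classical
  set G : Matrix ι ι ℤ := Matrix.of fun i j => B (b i) (b j) with hG
  by_contra hdet
  obtain ⟨p, hp, hpd⟩ := exists_prime_dvd_of_not_isUnit hdet
  have : Fact p.Prime := ⟨hp⟩
  -- the reduction of `G` is singular
  have hdet0 : (G.map (Int.castRingHom (ZMod p))).det = 0 := by
    rw [← RingHom.mapMatrix_apply, ← RingHom.map_det]
    exact (ZMod.intCast_zmod_eq_zero_iff_dvd _ _).mpr hpd
  obtain ⟨vbar, hv0, hv⟩ := Matrix.exists_mulVec_eq_zero_iff.mpr hdet0
  -- lift the kernel vector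
  let v : ι → ℤ := fun i => ((vbar i).val : ℤ)
  have hvv : ∀ i, ((v i : ℤ) : ZMod p) = vbar i := fun i => by
    show (((vbar i).val : ℤ) : ZMod p) = vbar i
    rw [Int.cast_natCast, ZMod.natCast_zmod_val]
  obtain ⟨x, hxdef⟩ : ∃ x : L, x = ∑ j, v j • b j := ⟨_, rfl⟩
  have hBx : ∀ i, B (b i) x = ∑ j, G i j * v j := by
    intro i
    rw [hxdef, map_sum]
    refine Finset.sum_congr rfl fun j _ => ?_
    rw [map_smul, smul_eq_mul, mul_comm]
    rfl
  have hdiv : ∀ i, (p : ℤ) ∣ B (b i) x := by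
    intro i
    rw [← ZMod.intCast_zmod_eq_zero_iff_dvd, hBx]
    have e : ((∑ j, G i j * v j : ℤ) : ZMod p) =
        ((G.map (Int.castRingHom (ZMod p))).mulVec vbar) i := by
      rw [Int.cast_sum, Matrix.mulVec, dotProduct]
      refine Finset.sum_congr rfl fun j _ => ?_
      rw [Int.cast_mul, hvv]
      rfl
    rw [e, hv]
    rfl
  have hdiv' : ∀ y : L, (p : ℤ) ∣ B y x := by
    intro y
    rw [← b.sum_repr y, map_sum, LinearMap.sum_apply]
    refine Finset.dvd_sum fun i _ => ?_
    rw [map_smul, LinearMap.smul_apply, smul_eq_mul]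
    exact Dvd.dvd.mul_left (hdiv i) _
  obtain ⟨x', hx'⟩ := h p hp x hdiv'
  -- coordinates of `x` are divisible by `p`
  have hrepr : ∀ i, b.repr x i = v i := by
    intro i
    rw [hxdef, map_sum, Finsupp.finsetSum_apply]
    rw [Finset.sum_eq_single i]
    · rw [map_smul, Finsupp.smul_apply, Basis.repr_self, Finsupp.single_eq_same, smul_eq_mul,
        mul_one]
    · intro j _ hj
      rw [map_smul, Finsupp.smul_apply, Basis.repr_self, Finsupp.single_eq_of_ne hj.symm,
        smul_zero]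
    · intro hi
      exact absurd (Finset.mem_univ i) hi
  apply hv0
  funext i
  have h1 : v i = (p : ℤ) * b.repr x' i := by
    rw [← hrepr i, hx', map_smul, Finsupp.smul_apply, smul_eq_mul]
  rw [Pi.zero_apply, ← hvv i, h1, Int.cast_mul, Int.cast_natCast, ZMod.natCast_self, zero_mul]

/-- **Unimodularity criterion.**  If the radical of `B` modulo every prime `p` is `p L`, then
`x ↦ B x` is a bijection `L → Dual ℤ L`. -/
theorem bijective_of_radical_mod_primes (B : L →ₗ[ℤ] L →ₗ[ℤ] ℤ)
    (h : ∀ p : ℕ, p.Prime → ∀ x : L, (∀ y : L, (p : ℤ) ∣ B y x) → ∃ x' : L, x = (p : ℤ) • x') :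
    Function.Bijective B := by
  classical
  let ι := Module.Free.ChooseBasisIndex ℤ L
  let b : Basis ι ℤ L := Module.Free.chooseBasis ℤ L
  set G : Matrix ι ι ℤ := Matrix.of fun i j => B (b i) (b j) with hG
  have hunit : IsUnit G.det := isUnit_det_gram b B h
  have hGu : IsUnit G := (Matrix.isUnit_iff_isUnit_det G).mpr hunit
  have hBv : ∀ (x : L) (j : ι), B x (b j) = (Matrix.vecMul (fun i => b.repr x i) G) j := by
    intro x j
    rw [Matrix.vecMul, dotProduct]
    conv_lhs => rw [← b.sum_repr x]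
    rw [map_sum, LinearMap.sum_apply]
    refine Finset.sum_congr rfl fun i _ => ?_
    rw [map_smul, LinearMap.smul_apply, smul_eq_mul]
    rfl
  constructor
  · -- injective
    rw [← LinearMap.ker_eq_bot, LinearMap.ker_eq_bot']
    intro x hx
    have h0 : Matrix.vecMul (fun i => b.repr x i) G = 0 := by
      funext j
      rw [← hBv x j, hx]
      rfl
    have h1 : (fun i => b.repr x i) = 0 := by
      have hinj := Matrix.vecMul_injective_of_isUnit hGu
      exact hinj (h0.trans (Matrix.zero_vecMul G).symm)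
    apply b.repr.injective
    rw [map_zero]
    ext i
    exact congrFun h1 i
  · -- surjective
    intro f
    obtain ⟨w, hw⟩ := (Matrix.vecMul_surjective_iff_isUnit.mpr hGu) (fun j => f (b j))
    refine ⟨∑ i, w i • b i, ?_⟩
    apply b.ext
    intro j
    rw [hBv]
    have hrepr : (fun i => b.repr (∑ i, w i • b i) i) = w := by
      funext i
      rw [map_sum, Finsupp.finsetSum_apply, Finset.sum_eq_single i]
      · rw [map_smul, Finsupp.smul_apply, Basis.repr_self, Finsupp.single_eq_same, smul_eq_mul,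
          mul_one]
      · intro k _ hk
        rw [map_smul, Finsupp.smul_apply, Basis.repr_self, Finsupp.single_eq_of_ne hk.symm,
          smul_zero]
      · intro hi
        exact absurd (Finset.mem_univ i) hi
    have hw' : Matrix.vecMul w G = fun j => f (b j) := hw
    rw [hrepr, hw']

end Unimod

end Fermat.Agent.S59.H585

end
-- ===== PACK-END S59/H585/Unimod.lean

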