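import Mathlib.AlgebraicGeometry.EllipticCurve.Affine.Point
import Mathlib.RingTheory.Valuation.ValuationSubring
import Mathlib.RingTheory.Valuation.RamificationGroup
import Mathlib.Tactic
import Fermat.Prelude.Def_EllipticCurve_FrobeniusTrace
import Mathlib
import Fermat.Statements.S24
import Mathlib.NumberTheory.ModularForms.QExpansion
import Mathlib.Analysis.Complex.TaylorSeries
import Mathlib.RingTheory.LaurentSeries
import Mathlib.Data.ZMod.QuotientGroup
import Mathlib.GroupTheory.GroupAction.FixedPoints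
import Mathlib.GroupTheory.GroupAction.Quotient
import Mathlib.Dynamics.PeriodicPts.Defs
import Mathlib.SetTheory.Cardinal.Finite
import Mathlib.Tactic.Ring
import Mathlib.Data.Nat.Prime.Basic
import Fermat.Prelude.Def_AlgebraicCurve_Correspondence
import Mathlib.Algebra.Ring.GeomSum
import Mathlib.Algebra.CharZero.Defs
import Fermat.Prelude.Def_ModularCurve_X0
import Fermat.Prelude.Def_ModularCurve_X0ModL
import Fermat.Prelude.Def_ModularCurve_ModularUnit
import Fermat.Prelude.Def_GroupCohomology_ContinuousUnramified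
import Mathlib.RingTheory.Length
import Mathlib.RingTheory.Localization.AsSubring
import Mathlib.RingTheory.Localization.AtPrime.Basic
import Mathlib.RingTheory.Localization.Ideal
import Mathlib.RingTheory.DiscreteValuationRing.TFAE
import Mathlib.RingTheory.Ideal.AssociatedPrime.Basic
import Mathlib.RingTheory.Valuation.ValuationRing
import Mathlib.RingTheory.IntegralClosure.IntegrallyClosed
import Fermat.Prelude.Def_ModularCurve_LaurentCoeff
import Fermat.Prelude.Def_ModularCurve_ReductionModL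
import Mathlib.NumberTheory.Height.NumberField
import Mathlib.RingTheory.Ideal.Norm.RelNorm
import Mathlib.NumberTheory.NumberField.InfinitePlace.Ramification
import Mathlib.FieldTheory.PrimitiveElement
import Mathlib.Analysis.Complex.BranchLogRoot
import Mathlib.Analysis.Meromorphic.FactorizedRational
import Mathlib.Analysis.SpecialFunctions.Complex.Analytic
import Mathlib.Analysis.Convex.Contractible
import Mathlib.RingTheory.Polynomial.Cyclotomic.Roots
import Fermat.Prelude.Def_EllipticCurve_ZeroComponentAt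
import Fermat.Prelude.Def_FLTPrelim_Ramification
import Fermat.Prelude.Def_ModularCurve_ArithmeticGalois

-- ===== PACK-BEGIN S05/SameRed.lean
section





/-!
# S05, piece (C2): integral points with the same nonsingular reduction differ by a point of `E₁`

Abstract setting: `K` a field, `v : Valuation K Γ₀`, `W` a Weierstrass curve over `K` with
`v`-integral coefficients.
-/

set_option autoImplicit false

namespace Fermat.Agent.S05.SameRed

open WeierstrassCurve WeierstrassCurve.Affine

set_option linter.unusedSectionVars false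
set_option linter.unusedVariables false

variable {K : Type*} [Field K] [DecidableEq K]
  {Γ₀ : Type*} [LinearOrderedCommGroupWithZero Γ₀]

/-- The coefficients of `W` are `v`-integral. -/
structure IntegralCoeffs (W : Affine K) (v : Valuation K Γ₀) : Prop where
  a₁ : v W.a₁ ≤ 1
  a₂ : v W.a₂ ≤ 1
  a₃ : v W.a₃ ≤ 1
  a₄ : v W.a₄ ≤ 1
  a₆ : v W.a₆ ≤ 1

/-- The "kernel of reduction" `E₁`: the point at infinity together with the affine points whose
`x`-coordinate is not `v`-integral. -/
def InKer (W : Affine K) (v : Valuation K Γ₀) : W.Point → Prop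
  | .zero => True
  | .some x _ _ => 1 < v x

variable {W : Affine K} {v : Valuation K Γ₀}

@[simp] lemma inKer_zero : InKer W v 0 := trivial

@[simp] lemma inKer_some {x y : K} (h : W.Nonsingular x y) :
    InKer W v (Point.some x y h) ↔ 1 < v x := Iff.rfl

lemma val_add_le_one {a b : K} (ha : v a ≤ 1) (hb : v b ≤ 1) : v (a + b) ≤ 1 :=
  (v.map_add a b).trans (max_le ha hb)

lemma val_sub_le_one {a b : K} (ha : v a ≤ 1) (hb : v b ≤ 1) : v (a - b) ≤ 1 :=
  (v.map_sub a b).trans (max_le ha hb)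

lemma val_mul_le_one {a b : K} (ha : v a ≤ 1) (hb : v b ≤ 1) : v (a * b) ≤ 1 := by
  rw [map_mul]; exact mul_le_one' ha hb

lemma val_mul_lt_one_left {a b : K} (ha : v a < 1) (hb : v b ≤ 1) : v (a * b) < 1 := by
  rw [map_mul]; exact (mul_le_of_le_one_right' hb).trans_lt ha

lemma val_mul_lt_one_right {a b : K} (ha : v a ≤ 1) (hb : v b < 1) : v (a * b) < 1 := by
  rw [map_mul]; exact (mul_le_of_le_one_left' ha).trans_lt hb

lemma val_add_lt_one {a b : K} (ha : v a < 1) (hb : v b < 1) : v (a + b) < 1 :=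
  (v.map_add a b).trans_lt (max_lt ha hb)

lemma val_natCast_le_one (n : ℕ) : v (n : K) ≤ 1 := by
  induction n with
  | zero => simp
  | succ n ih => push_cast; exact val_add_le_one ih (by simp)

/-- If `a ≡ b mod 𝔪` and `v b = 1`-ness: `v a = 1 ↔ v b = 1` is what we need in the form:
`v (a - b) < 1` and `v a = 1` imply `v b = 1`. -/
lemma val_eq_one_of_sub_lt {a b : K} (hab : v (a - b) < 1) (ha : v a = 1) : v b = 1 := by
  have : b = a + -(a - b) := by ring
  rw [this, v.map_add_eq_of_lt_left (by rwa [Valuation.map_neg, ha]), ha]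

lemma val_lt_one_of_sub_lt {a b : K} (hab : v (a - b) < 1) (ha : v a < 1) : v b < 1 := by
  have : b = a + -(a - b) := by ring
  rw [this]
  exact val_add_lt_one ha (by rwa [Valuation.map_neg])

/-- If the slope is non-integral, then so is the `x`-coordinate of the sum. -/
theorem one_lt_val_addX (hW : IntegralCoeffs W v) {x₁ x₂ ℓ : K} (hx₁ : v x₁ ≤ 1)
    (hx₂ : v x₂ ≤ 1) (hℓ : 1 < v ℓ) : 1 < v (W.addX x₁ x₂ ℓ) := by
  have hℓ0 : 0 < v ℓ := lt_trans zero_lt_one hℓ
  have h2 : v ℓ < v (ℓ ^ 2) := by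
    rw [map_pow, pow_two]
    exact lt_mul_of_one_lt_left hℓ0 hℓ
  have h3 : v (W.a₁ * ℓ) ≤ v ℓ := by
    rw [map_mul]; exact mul_le_of_le_one_left' hW.a₁
  have h4 : v (ℓ ^ 2 + W.a₁ * ℓ) = v (ℓ ^ 2) :=
    v.map_add_eq_of_lt_left (h3.trans_lt h2)
  have h5 : v (W.a₂ + x₁ + x₂) ≤ 1 := val_add_le_one (val_add_le_one hW.a₂ hx₁) hx₂
  have h6 : W.addX x₁ x₂ ℓ = (ℓ ^ 2 + W.a₁ * ℓ) + -(W.a₂ + x₁ + x₂) := by
    simp only [Affine.addX]; ring
  rw [h6, v.map_add_eq_of_lt_left (by
    rw [Valuation.map_neg, h4]; exact h5.trans_lt (hℓ.trans h2)), h4]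
  exact hℓ.trans h2

/-- **(C2)** Two integral affine points whose coordinates are congruent modulo the maximal ideal
and whose common reduction is nonsingular differ by a point in the kernel of reduction. -/
theorem inKer_sub_of_same_reduction (hW : IntegralCoeffs W v) {x₁ y₁ x₂ y₂ : K}
    (h₁ : W.Nonsingular x₁ y₁) (h₂ : W.Nonsingular x₂ y₂)
    (hx₁ : v x₁ ≤ 1) (hy₁ : v y₁ ≤ 1) (hx₂ : v x₂ ≤ 1) (hy₂ : v y₂ ≤ 1)
    (hx : v (x₁ - x₂) < 1) (hy : v (y₁ - y₂) < 1)
    (hns : v (W.a₁ * y₁ - (3 * x₁ ^ 2 + 2 * W.a₂ * x₁ + W.a₄)) = 1 ∨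
      v (2 * y₁ + W.a₁ * x₁ + W.a₃) = 1) :
    InKer W v (Point.some x₁ y₁ h₁ - Point.some x₂ y₂ h₂) := by
  rw [sub_eq_add_neg, Point.neg_some]
  -- abbreviations
  set n : K := y₁ + y₂ + W.a₁ * x₂ + W.a₃ with hn
  set g : K := x₁ ^ 2 + x₁ * x₂ + x₂ ^ 2 + W.a₂ * (x₁ + x₂) + W.a₄ - W.a₁ * y₁ with hg
  have hnegY : W.negY x₂ y₂ = -y₂ - W.a₁ * x₂ - W.a₃ := rfl
  have e₁ := (Affine.equation_iff x₁ y₁).mp h₁.1
  have e₂ := (Affine.equation_iff x₂ y₂).mp h₂.1
  -- the key identity
  have key : (y₁ - y₂) * n = (x₁ - x₂) * g := by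
    simp only [hn, hg]; linear_combination e₁ - e₂
  -- congruences
  have hn_cong : v (n - (2 * y₁ + W.a₁ * x₁ + W.a₃)) < 1 := by
    have : n - (2 * y₁ + W.a₁ * x₁ + W.a₃) = -(y₁ - y₂) + -(W.a₁ * (x₁ - x₂)) := by
      simp only [hn]; ring
    rw [this]
    exact val_add_lt_one (by rwa [Valuation.map_neg])
      (by rw [Valuation.map_neg]; exact val_mul_lt_one_right hW.a₁ hx)
  have hg_cong : v (g + (W.a₁ * y₁ - (3 * x₁ ^ 2 + 2 * W.a₂ * x₁ + W.a₄))) < 1 := by
    have : g + (W.a₁ * y₁ - (3 * x₁ ^ 2 + 2 * W.a₂ * x₁ + W.a₄)) =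
        -((x₁ - x₂) * (x₁ + (x₁ + x₂) + W.a₂)) := by
      simp only [hg]; ring
    rw [this, Valuation.map_neg]
    exact val_mul_lt_one_left hx
      (val_add_le_one (val_add_le_one hx₁ (val_add_le_one hx₁ hx₂)) hW.a₂)
  by_cases hxx : x₁ = x₂
  · -- same `x`-coordinate
    rcases Affine.Y_eq_of_X_eq h₁.1 h₂.1 hxx with hyy | hyy
    · -- `P₁ = P₂`
      subst hxx; subst hyy
      rw [Point.add_of_Y_eq rfl (by rw [Affine.negY_negY])]
      exact inKer_zero
    · -- `P₁ = -P₂`, so the difference is `2 P₁`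
      subst hxx
      by_cases hyy' : y₁ = y₂
      · subst hyy'
        rw [Point.add_of_Y_eq rfl (by rw [Affine.negY_negY])]
        exact inKer_zero
      · have hne : y₁ ≠ W.negY x₁ (W.negY x₁ y₂) := by rwa [Affine.negY_negY]
        rw [Point.add_of_Y_ne hne, inKer_some]
        apply one_lt_val_addX hW hx₁ hx₁
        rw [Affine.slope_of_Y_ne rfl hne]
        -- denominator: `y₁ - negY x₁ y₁ = 2 y₁ + a₁ x₁ + a₃ = y₁ - y₂`
        have hden : y₁ - W.negY x₁ y₁ = y₁ - y₂ := by
          rw [hyy, hnegY]; simp only [Affine.negY]; ring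
        have hden' : 2 * y₁ + W.a₁ * x₁ + W.a₃ = y₁ - y₂ := by
          rw [hyy, hnegY]; ring
        have hY : v (2 * y₁ + W.a₁ * x₁ + W.a₃) < 1 := by rw [hden']; exact hy
        have hX : v (W.a₁ * y₁ - (3 * x₁ ^ 2 + 2 * W.a₂ * x₁ + W.a₄)) = 1 := by
          rcases hns with h | h
          · exact h
          · exact absurd h hY.ne
        have hnum : v (3 * x₁ ^ 2 + 2 * W.a₂ * x₁ + W.a₄ - W.a₁ * y₁) = 1 := by
          rw [← Valuation.map_neg, neg_sub]; exact hX
        have hd0 : y₁ - y₂ ≠ 0 := sub_ne_zero.mpr hyy'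
        rw [hden, map_div₀, hnum, one_div]
        exact (one_lt_inv₀ ((Valuation.pos_iff v).mpr hd0)).mpr hy
  · -- distinct `x`-coordinates
    rw [Point.add_of_X_ne hxx, inKer_some]
    apply one_lt_val_addX hW hx₁ hx₂
    rw [Affine.slope_of_X_ne hxx]
    have hd0 : x₁ - x₂ ≠ 0 := sub_ne_zero.mpr hxx
    have hnum : y₁ - W.negY x₂ y₂ = n := by rw [hnegY]; simp only [hn]; ring
    rw [hnum, map_div₀, one_lt_div₀ ((Valuation.pos_iff v).mpr hd0)]
    by_cases hY : v (2 * y₁ + W.a₁ * x₁ + W.a₃) = 1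
    · -- `n` is a unit
      have hn1 : v n = 1 := by
        have h := hn_cong
        rw [← Valuation.map_neg, neg_sub] at h
        exact val_eq_one_of_sub_lt h hY
      rw [hn1]; exact hx
    · have hX : v (W.a₁ * y₁ - (3 * x₁ ^ 2 + 2 * W.a₂ * x₁ + W.a₄)) = 1 :=
        hns.resolve_right hY
      -- `g` is a unit
      have hg1 : v g = 1 := by
        have h : v (-(W.a₁ * y₁ - (3 * x₁ ^ 2 + 2 * W.a₂ * x₁ + W.a₄)) - g) < 1 := by
          rw [← Valuation.map_neg]
          convert hg_cong using 2; ring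
        have h' : v (-(W.a₁ * y₁ - (3 * x₁ ^ 2 + 2 * W.a₂ * x₁ + W.a₄))) = 1 := by
          rw [Valuation.map_neg]; exact hX
        exact val_eq_one_of_sub_lt h h'
      have hvkey : v (y₁ - y₂) * v n = v (x₁ - x₂) := by
        rw [← map_mul, key, map_mul, hg1, mul_one]
      have hn0 : n ≠ 0 := by
        intro h0
        rw [h0, mul_zero] at key
        rcases mul_eq_zero.mp key.symm with h | h
        · exact hd0 h
        · rw [h, map_zero] at hg1; exact zero_ne_one hg1
      have hvn : 0 < v n := (Valuation.pos_iff v).mpr hn0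
      rw [← hvkey]
      exact mul_lt_of_lt_one_left hvn hy

end Fermat.Agent.S05.SameRed

end
-- ===== PACK-END S05/SameRed.lean

-- ===== PACK-BEGIN S54/ValRing.lean
section



set_option autoImplicit false

namespace Fermat.Agent.S54

open Polynomial

/-- Valuation subrings contain all algebraic integers. -/
theorem isIntegral_mem_valuationSubring {K : Type*} [Field K] (A : ValuationSubring K)
    {b : K} (hb : IsIntegral ℤ b) : b ∈ A := by
  have h1 : IsIntegral A.toSubring b := by
    obtain ⟨p, hp, hpb⟩ := hb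
    refine ⟨p.map (algebraMap ℤ A.toSubring), hp.map _, ?_⟩
    rw [Polynomial.eval₂_map]
    have : (algebraMap A.toSubring K).comp (algebraMap ℤ A.toSubring) = algebraMap ℤ K := by
      ext; simp
    rw [this]
    exact hpb
  have h2 := (IsIntegrallyClosed.isIntegral_iff (R := A) (K := K)).mp h1
  obtain ⟨y, hy⟩ := h2
  rw [← hy]
  exact y.2

/-- An element lying in every valuation subring is integral over `ℤ`. -/
theorem isIntegral_of_forall_mem_valuationSubring {K : Type*} [Field K] (y : K)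
    (H : ∀ V : ValuationSubring K, y ∈ V) : IsIntegral ℤ y := by
  by_contra hy
  let R : Subring K := (integralClosure ℤ K).toSubring
  have hyR : y ∉ R := hy
  have : IsIntegrallyClosedIn R K := inferInstanceAs (IsIntegrallyClosedIn (integralClosure ℤ K) K)
  obtain ⟨V, -, hV⟩ := R.exists_le_valuationSubring_of_isIntegrallyClosedIn hyR
  exact hV (H V)

theorem aeval_mem_valuationSubring {K : Type*} [Field K] (V : ValuationSubring K) {x : K}
    (hx : x ∈ V) (q : ℤ[X]) : aeval x q ∈ V := by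
  induction q using Polynomial.induction_on with
  | C a => simp
  | add p q hp hq => rw [map_add]; exact V.add_mem _ _ hp hq
  | monomial n a h =>
    rw [pow_succ, ← mul_assoc, map_mul, aeval_X]
    exact V.mul_mem _ _ h hx

theorem coeff_iterate_divX (p : ℤ[X]) (r n : ℕ) :
    ((divX^[r]) p).coeff n = p.coeff (n + r) := by
  induction r generalizing n with
  | zero => simp
  | succ r ih =>
    rw [Function.iterate_succ_apply', coeff_divX, ih]
    congr 1
    ring

/-- The Horner recursion for the tails `divX^[r] p` of a polynomial. -/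
theorem aeval_iterate_divX {K : Type*} [Field K] (x : K) (p : ℤ[X]) (r : ℕ) :
    aeval x ((divX^[r]) p) = aeval x ((divX^[r + 1]) p) * x + (p.coeff r : K) := by
  conv_lhs => rw [← divX_mul_X_add ((divX^[r]) p)]
  rw [map_add, map_mul, aeval_X, aeval_C, coeff_iterate_divX, zero_add,
    Function.iterate_succ_apply']
  simp

/-- The Horner tails of an integer polynomial killing `x` lie in every valuation subring. -/
theorem horner_mem_valuationSubring {K : Type*} [Field K] (x : K) (p : ℤ[X])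
    (hp : aeval x p = 0) (V : ValuationSubring K) (r : ℕ) :
    aeval x ((divX^[r]) p) ∈ V := by
  rcases V.mem_or_inv_mem x with hx | hx
  · exact aeval_mem_valuationSubring V hx _
  · induction r with
    | zero => simp [hp]
    | succ r ih =>
      have h := aeval_iterate_divX x p r
      by_cases hx0 : x = 0
      · exact aeval_mem_valuationSubring V (hx0 ▸ V.zero_mem) _
      have : aeval x ((divX^[r + 1]) p) = x⁻¹ * (aeval x ((divX^[r]) p) - (p.coeff r : K)) := by
        rw [h]; field_simp; ring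
      rw [this]
      exact V.mul_mem _ _ hx (sub_mem ih (intCast_mem V _))

theorem horner_isIntegral {K : Type*} [Field K] (x : K) (p : ℤ[X])
    (hp : aeval x p = 0) (r : ℕ) :
    IsIntegral ℤ (aeval x ((divX^[r]) p)) :=
  isIntegral_of_forall_mem_valuationSubring _ fun V => horner_mem_valuationSubring x p hp V r

theorem horner_mul_isIntegral {K : Type*} [Field K] (x : K) (p : ℤ[X])
    (hp : aeval x p = 0) (r : ℕ) :
    IsIntegral ℤ (x * aeval x ((divX^[r + 1]) p)) := by
  have h := aeval_iterate_divX x p r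
  have : x * aeval x ((divX^[r + 1]) p) = aeval x ((divX^[r]) p) - (p.coeff r : K) := by
    rw [h]; ring
  rw [this]
  exact (horner_isIntegral x p hp r).sub isIntegral_algebraMap

/-- An integer which is a non-unit of a valuation subring over `ℓ` is divisible by `ℓ`. -/
theorem dvd_of_intCast_mem_nonunits {K : Type*} [Field K] (A : ValuationSubring K) (ℓ : ℕ)
    (hℓ : ℓ.Prime) (hA : A.LiesOverPrime ℓ) (a : ℤ) (ha : (a : K) ∈ A.nonunits) :
    (ℓ : ℤ) ∣ a := by
  by_contra hdvd
  have hcop : IsCoprime (ℓ : ℤ) a :=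
    (Nat.prime_iff_prime_int.mp hℓ).coprime_iff_not_dvd.mpr hdvd
  obtain ⟨u, v, huv⟩ := hcop
  have h1 : ((u * ℓ + v * a : ℤ) : K) ∈ A.nonunits := by
    push_cast
    refine A.nonunits.add_mem ?_ ?_
    · obtain ⟨h1, h2⟩ := ValuationSubring.mem_nonunits_iff_exists_mem_maximalIdeal.mp hA
      have := Ideal.mul_mem_left _ (⟨(u : K), intCast_mem A u⟩ : A) h2
      exact ValuationSubring.mem_nonunits_iff_exists_mem_maximalIdeal.mpr ⟨_, this⟩
    · obtain ⟨h1, h2⟩ := ValuationSubring.mem_nonunits_iff_exists_mem_maximalIdeal.mp ha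
      have := Ideal.mul_mem_left _ (⟨(v : K), intCast_mem A v⟩ : A) h2
      exact ValuationSubring.mem_nonunits_iff_exists_mem_maximalIdeal.mpr ⟨_, this⟩
  rw [huv, ValuationSubring.mem_nonunits_iff] at h1
  simp at h1

/-- (4b) A valuation subring over `ℓ` of an algebraic extension of `ℚ` is the localisation of
the ring of algebraic integers at the prime below it. -/
theorem mem_valuationSubring_iff {K : Type*} [Field K] [CharZero K] [Algebra.IsAlgebraic ℚ K]
    (A : ValuationSubring K) (ℓ : ℕ)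
    (hℓ : ℓ.Prime) (hA : A.LiesOverPrime ℓ) (x : K) :
    x ∈ A ↔ ∃ b s, IsIntegral ℤ b ∧ IsIntegral ℤ s ∧ s ∉ A.nonunits ∧ x * s = b := by
  constructor
  · intro hx
    -- a primitive integer polynomial killing `x`
    have halg : IsAlgebraic ℤ x :=
      (IsFractionRing.isAlgebraic_iff ℤ ℚ K).mpr (Algebra.IsAlgebraic.isAlgebraic x)
    obtain ⟨f, hf0, hfx⟩ := halg
    set p := f.primPart with hp
    have hpprim : p.IsPrimitive := f.isPrimitive_primPart
    have hpx : aeval x p = 0 := by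
      have h1 : f = C f.content * p := f.eq_C_content_mul_primPart
      rw [h1, map_mul, aeval_C] at hfx
      rcases mul_eq_zero.mp hfx with h | h
      · exfalso
        have : f.content = 0 := by simpa using h
        exact hf0 (Polynomial.content_eq_zero_iff.mp this)
      · exact h
    -- some coefficient is not in the maximal ideal
    have hcoeff : ∃ i, ((p.coeff i : ℤ) : K) ∉ A.nonunits := by
      by_contra hcon
      push Not at hcon
      have hdvd : C (ℓ : ℤ) ∣ p := by
        rw [Polynomial.C_dvd_iff_dvd_coeff]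
        intro i
        exact dvd_of_intCast_mem_nonunits A ℓ hℓ hA _ (hcon i)
      have hu := hpprim _ hdvd
      rw [Int.isUnit_iff] at hu
      have := hℓ.one_lt
      omega
    -- some Horner tail is a unit
    have hex : ∃ r, aeval x ((divX^[r + 1]) p) ∉ A.nonunits := by
      by_contra hcon
      push Not at hcon
      obtain ⟨i, hi⟩ := hcoeff
      apply hi
      have h := aeval_iterate_divX x p i
      have h2 : ((p.coeff i : ℤ) : K) =
          aeval x ((divX^[i]) p) - aeval x ((divX^[i + 1]) p) * x := by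
        rw [h]; ring
      rw [h2]
      have hmul : aeval x ((divX^[i + 1]) p) * x ∈ A.nonunits := by
        obtain ⟨h1, h2⟩ := ValuationSubring.mem_nonunits_iff_exists_mem_maximalIdeal.mp (hcon i)
        have := Ideal.mul_mem_right (⟨x, hx⟩ : A) _ h2
        exact ValuationSubring.mem_nonunits_iff_exists_mem_maximalIdeal.mpr ⟨_, this⟩
      refine A.nonunits.sub_mem ?_ hmul
      rcases i with _ | i
      · simp [hpx, A.nonunits.zero_mem]
      · exact hcon i
    obtain ⟨r, hr⟩ := hex
    exact ⟨x * aeval x ((divX^[r + 1]) p), aeval x ((divX^[r + 1]) p),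
      horner_mul_isIntegral x p hpx r, horner_isIntegral x p hpx (r + 1), hr, rfl⟩
  · rintro ⟨b, s, hb, hs, hsA, hxs⟩
    have hbA : b ∈ A := isIntegral_mem_valuationSubring A hb
    have hs0 : s ≠ 0 := fun h => hsA (h ▸ A.nonunits.zero_mem)
    have hsinv : s⁻¹ ∈ A := by
      by_contra h
      exact hsA (A.mem_nonunits_iff_or.mpr (Or.inr h))
    have : x = b * s⁻¹ := by
      rw [← hxs]; field_simp
    rw [this]
    exact A.mul_mem _ _ hbA hsinv

end Fermat.Agent.S54

end
-- ===== PACK-END S54/ValRing.lean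

-- ===== PACK-BEGIN S24/Defs.lean
section


/-!
# S24 — shared interface definitions

`LocalData` packages, for a local parameter `t` of the rational subfield `K(t) ⊆ F`,
a full set of `K(t)`-embeddings of `F` into a Laurent series field together with the
"monodromy" permutation.  See `Fermat/Agent/S24/Alg.lean` (algebraic side) and
`Fermat/Agent/S24/Mod.lean` (modular side).
-/

set_option autoImplicit false

noncomputable section

open AlgebraicCurve ModularCurve
open scoped MatrixGroups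

namespace Fermat.Agent.S24

/-- Number of orbits (cycles, fixed points included) of a permutation. -/
def numOrbits {X : Type*} (π : Equiv.Perm X) : ℕ :=
  Nat.card (MulAction.orbitRel.Quotient (Subgroup.zpowers π) X)

/-- Local uniformisation data of `F/K` at the zero of `t`: a family `σ x` (`x : X`) of pairwise
distinct field embeddings `F → C((z))`, all restricting to the same embedding of `K(t)`, with
`ord_z (σ x t) = m > 0`, and a permutation `perm` of `X` realising `z ↦ ζ z`
(`ζ` a primitive `m`-th root of unity). -/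
structure LocalData (K F : Type*) [Field K] [Field F] [Algebra K F] (C : Type*) [Field C]
    (X : Type*) (t : F) where
  m : ℕ
  m_pos : 0 < m
  ζ : C
  hζ : IsPrimitiveRoot ζ m
  ι : K →+* C
  perm : Equiv.Perm X
  σ : X → (F →+* LaurentSeries C)
  σ_inj : Function.Injective σ
  σ_const : ∀ (x : X) (c : K), σ x (algebraMap K F c) = HahnSeries.C (ι c)
  σ_t_eq : ∀ x y : X, σ x t = σ y t
  σ_t_order : ∀ x : X, (σ x t).order = (m : ℤ)
  σ_perm_order : ∀ (x : X) (f : F), (σ (perm x) f).order = (σ x f).order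
  σ_perm_leadingCoeff : ∀ (x : X) (f : F),
    (σ (perm x) f).leadingCoeff = ζ ^ (σ x f).order * (σ x f).leadingCoeff

section Modular

variable (N : ℕ) [NeZero N]

/-- The base field `ℚ̄`. -/
abbrev Kbar : Type := AlgebraicClosure ℚ

/-- The function field of `X₀(N)` over `ℚ̄` (as a type). -/
abbrev FF : Type := ↥(modularFunctionFieldBar N)

/-- The `j`-function as an element of the function field of `X₀(N)` over `ℚ̄`. -/
def jF : FF N :=
  ⟨coeffEmb Kbar jq,
    coeffEmb_mem_laurentBaseChange Kbar (modularFunctionField_le_full N (jq_mem N))⟩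

/-- The coset space `SL₂(ℤ) / Γ₀(N)`. -/
abbrev XX : Type := SL(2, ℤ) ⧸ CongruenceSubgroup.Gamma0 N

/-- The permutation of `SL₂(ℤ) / Γ₀(N)` induced by left multiplication by `g`. -/
def permOf (g : SL(2, ℤ)) : Equiv.Perm (XX N) := MulAction.toPerm g

end Modular

end Fermat.Agent.S24

end
end
-- ===== PACK-END S24/Defs.lean

-- ===== PACK-BEGIN S24/H84/Kaehler.lean
section


/-!
# Kähler differentials of a function field in one variable (helper84, S24 piece KD1)

`K` a field of characteristic zero, `F/K` a field extension, `x : F` with `F` algebraic over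
`K(x)`.  Then `Ω[F⁄K]` is spanned by `D x`.
-/

set_option autoImplicit false

open KaehlerDifferential Polynomial IntermediateField TensorProduct

namespace Fermat.Agent.S24.H84

section Kaehler

variable {K F : Type*} [Field K] [Field F] [Algebra K F]

/-- `D e ∈ span {D x}` for `e ∈ K⟮x⟯`. -/
theorem D_mem_span_of_mem_adjoin_simple (x : F) {e : F} (he : e ∈ K⟮x⟯) :
    D K F e ∈ Submodule.span F {D K F x} := by
  obtain ⟨r, s, rfl⟩ := (IntermediateField.mem_adjoin_simple_iff K e).1 he
  rw [Derivation.leibniz_div, Derivation.map_aeval, Derivation.map_aeval]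
  refine Submodule.smul_mem _ _ (Submodule.sub_mem _ ?_ ?_) <;>
  exact Submodule.smul_mem _ _ (Submodule.smul_mem _ _ (Submodule.mem_span_singleton_self _))

theorem map_mem_span_D (x : F) (y : Ω[K⟮x⟯⁄K]) :
    KaehlerDifferential.map K K K⟮x⟯ F y ∈ Submodule.span F {D K F x} := by
  have hy : y ∈ Submodule.span K⟮x⟯ (Set.range (D K K⟮x⟯)) := by
    rw [span_range_derivation]; trivial
  induction hy using Submodule.span_induction with
  | mem z hz =>
    obtain ⟨e, rfl⟩ := hz
    rw [map_D]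
    exact D_mem_span_of_mem_adjoin_simple x e.2
  | zero => simp
  | add u v _ _ hu hv => rw [map_add]; exact Submodule.add_mem _ hu hv
  | smul c u _ hu =>
    rw [map_smul, ← algebraMap_smul F c]
    exact Submodule.smul_mem _ _ hu

theorem mapBaseChange_mem_span_D (x : F) (t : F ⊗[K⟮x⟯] Ω[K⟮x⟯⁄K]) :
    KaehlerDifferential.mapBaseChange K K⟮x⟯ F t ∈ Submodule.span F {D K F x} := by
  induction t using TensorProduct.induction_on with
  | zero => simp
  | tmul b y =>
    rw [mapBaseChange_tmul]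
    exact Submodule.smul_mem _ _ (map_mem_span_D x y)
  | add a b ha hb => rw [map_add]; exact Submodule.add_mem _ ha hb

/-- If `F` is algebraic over `K⟮x⟯` (characteristic zero), then `D x` spans `Ω[F⁄K]`. -/
theorem span_D_eq_top [CharZero K] (x : F) [Algebra.IsAlgebraic K⟮x⟯ F] :
    Submodule.span F {D K F x} = ⊤ := by
  have : CharZero K⟮x⟯ := charZero_of_injective_algebraMap (algebraMap K K⟮x⟯).injective
  have : Algebra.IsSeparable K⟮x⟯ F := Algebra.IsAlgebraic.isSeparable_of_perfectField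
  have : Algebra.FormallyUnramified K⟮x⟯ F := Algebra.FormallyUnramified.of_isSeparable _ _
  have : Subsingleton Ω[F⁄K⟮x⟯] := Algebra.FormallyUnramified.subsingleton_kaehlerDifferential
  rw [eq_top_iff]
  intro ω _
  have hex := KaehlerDifferential.exact_mapBaseChange_map K K⟮x⟯ F
  have h0 : KaehlerDifferential.map K K⟮x⟯ F F ω = 0 := Subsingleton.elim _ _
  obtain ⟨t, rfl⟩ := (hex ω).1 h0
  exact mapBaseChange_mem_span_D x t

end Kaehler

end Fermat.Agent.S24.H84

end
-- ===== PACK-END S24/H84/Kaehler.lean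

-- ===== PACK-BEGIN S24/JFun/QFun.lean
section



/-!
# Functions on the upper half plane of the form `τ ↦ g (q(τ))`

For `g` holomorphic on the open unit disc, `ofQ g τ = g (exp (2πiτ))` is `1`-periodic, holomorphic,
bounded at `i∞`, and its `q`-expansion is the Taylor series of `g` at `0`.
-/

set_option autoImplicit false

namespace Fermat.Agent.S24.JFun

open Filter Topology Complex Metric Function
open UpperHalfPlane hiding I
open scoped Manifold

local notation "𝕢" => Function.Periodic.qParam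

/-- The function `τ ↦ g (exp (2πiτ))` on the upper half plane. -/
noncomputable def ofQ (g : ℂ → ℂ) : ℍ → ℂ := fun τ => g (𝕢 1 τ)

theorem ofQ_apply (g : ℂ → ℂ) (τ : ℍ) : ofQ g τ = g (𝕢 1 τ) := rfl

theorem norm_qParam_one_lt_one (τ : ℍ) : ‖𝕢 1 (τ : ℂ)‖ < 1 :=
  Function.Periodic.norm_qParam_lt_one one_pos τ.im_pos

theorem qParam_one_mem_ball (τ : ℍ) : 𝕢 1 (τ : ℂ) ∈ ball (0 : ℂ) 1 := by
  simpa using norm_qParam_one_lt_one τ

/-- A function on `ℍ` invariant under `τ ↦ τ + 1` gives a `1`-periodic function on `ℂ`. -/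
theorem periodic_comp_ofComplex_of_vadd {f : ℍ → ℂ} (hf : ∀ τ : ℍ, f ((1 : ℝ) +ᵥ τ) = f τ) :
    Periodic (f ∘ ofComplex) ((1 : ℝ) : ℂ) := by
  intro w
  by_cases hw : 0 < _root_.Complex.im w
  · have hw1 : 0 < _root_.Complex.im (w + ((1 : ℝ) : ℂ)) := by simpa using hw
    simp only [comp_apply, ofComplex_apply_of_im_pos hw1, ofComplex_apply_of_im_pos hw]
    rw [← hf ⟨w, hw⟩]
    congr 1
    ext
    simp [add_comm]
  · have hw' : _root_.Complex.im w ≤ 0 := not_lt.mp hw
    have hw1 : _root_.Complex.im (w + ((1 : ℝ) : ℂ)) ≤ 0 := by simpa using hw'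
    simp only [comp_apply]
    rw [ofComplex_apply_eq_of_im_nonpos hw1 hw']

theorem qParam_one_add_one (z : ℂ) : 𝕢 1 (z + 1) = 𝕢 1 z := by
  unfold Function.Periodic.qParam
  have h : 2 * (Real.pi : ℂ) * _root_.Complex.I * (z + 1) / ((1 : ℝ) : ℂ)
      = 2 * (Real.pi : ℂ) * _root_.Complex.I * z / ((1 : ℝ) : ℂ) + 2 * (Real.pi : ℂ) * _root_.Complex.I := by
    simp
    ring
  rw [h, Complex.exp_add, Complex.exp_two_pi_mul_I, mul_one]

theorem qParam_one_vadd (τ : ℍ) : 𝕢 1 (((1 : ℝ) +ᵥ τ : ℍ) : ℂ) = 𝕢 1 (τ : ℂ) := by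
  have h := qParam_one_add_one (τ : ℂ)
  rw [← h]
  congr 1
  simp [add_comm]

theorem ofQ_vadd (g : ℂ → ℂ) (τ : ℍ) : ofQ g ((1 : ℝ) +ᵥ τ) = ofQ g τ := by
  rw [ofQ_apply, ofQ_apply, qParam_one_vadd]

theorem ofQ_periodic (g : ℂ → ℂ) : Periodic (ofQ g ∘ ofComplex) ((1 : ℝ) : ℂ) :=
  periodic_comp_ofComplex_of_vadd (ofQ_vadd g)

theorem ofQ_mdiff {g : ℂ → ℂ} (hg : DifferentiableOn ℂ g (ball 0 1)) : MDiff (ofQ g) := by
  rw [UpperHalfPlane.mdifferentiable_iff]
  have h1 : DifferentiableOn ℂ (fun z : ℂ => g (𝕢 1 z)) {z : ℂ | 0 < z.im} := by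
    intro z hz
    have hq : 𝕢 1 z ∈ ball (0 : ℂ) 1 := by
      simpa using Function.Periodic.norm_qParam_lt_one one_pos hz
    have hgz : DifferentiableAt ℂ g (𝕢 1 z) := hg.differentiableAt (isOpen_ball.mem_nhds hq)
    have hqz : DifferentiableAt ℂ (𝕢 1) z := by
      unfold Function.Periodic.qParam
      fun_prop
    exact (hgz.comp z hqz).differentiableWithinAt
  refine h1.congr fun z hz => ?_
  simp [ofQ, ofComplex_apply_of_im_pos hz]

theorem ofQ_tendsto {g : ℂ → ℂ} (hg : DifferentiableOn ℂ g (ball 0 1)) :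
    Tendsto (ofQ g) atImInfty (𝓝 (g 0)) := by
  have h0 : ContinuousAt g 0 :=
    (hg.differentiableAt (isOpen_ball.mem_nhds (mem_ball_self one_pos))).continuousAt
  exact h0.tendsto.comp (UpperHalfPlane.qParam_tendsto_atImInfty one_pos)

theorem ofQ_bdd {g : ℂ → ℂ} (hg : DifferentiableOn ℂ g (ball 0 1)) :
    IsBoundedAtImInfty (ofQ g) :=
  (ofQ_tendsto hg).isBigO_one ℝ

theorem ofQ_analyticAt {g : ℂ → ℂ} (hg : DifferentiableOn ℂ g (ball 0 1)) :
    AnalyticAt ℂ (cuspFunction 1 (ofQ g)) 0 :=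
  analyticAt_cuspFunction_zero one_pos (ofQ_periodic g) (ofQ_mdiff hg) (ofQ_bdd hg)

theorem ofQ_hasSum {g : ℂ → ℂ} (hg : DifferentiableOn ℂ g (ball 0 1)) (τ : ℍ) :
    HasSum (fun m : ℕ => (((m.factorial : ℂ))⁻¹ * iteratedDeriv m g 0) • 𝕢 1 (τ : ℂ) ^ m)
      (ofQ g τ) := by
  have h := Complex.hasSum_taylorSeries_on_ball (f := g) (c := 0) (r := 1) hg
    (z := 𝕢 1 (τ : ℂ)) (by simpa using norm_qParam_one_lt_one τ)
  have heq : (fun n : ℕ => ((n.factorial : ℂ))⁻¹ • (𝕢 1 (τ : ℂ) - 0) ^ n • iteratedDeriv n g 0)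
      = fun m : ℕ => (((m.factorial : ℂ))⁻¹ * iteratedDeriv m g 0) • 𝕢 1 (τ : ℂ) ^ m := by
    funext m
    simp only [sub_zero, smul_eq_mul]
    ring
  rw [heq] at h
  exact h

/-- Uniqueness of `q`-expansion coefficients, for plain functions on `ℍ`. -/
theorem qExpansion_coeff_unique_fun {f : ℍ → ℂ} {c : ℕ → ℂ}
    (hfanalytic : AnalyticAt ℂ (cuspFunction 1 f) 0)
    (hf : ∀ τ : ℍ, HasSum (fun m : ℕ => c m • 𝕢 1 (τ : ℂ) ^ m) (f τ)) (m : ℕ) :
    (qExpansion 1 f).coeff m = c m := by
  have h1 := (hasFPowerSeriesOnBall_cuspFunction one_pos hfanalytic hf).hasFPowerSeriesAt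
  have h2 := hfanalytic.hasFPowerSeriesAt
  have h3 := congr_arg (FormalMultilinearSeries.coeff · m) (h1.eq_formalMultilinearSeries h2)
  simp only [FormalMultilinearSeries.coeff_ofScalars] at h3
  rw [qExpansion_coeff, h3, div_eq_inv_mul]

/-- The `q`-expansion of `τ ↦ g (q(τ))` is the Taylor expansion of `g` at `0`. -/
theorem qExpansion_ofQ_coeff {g : ℂ → ℂ} (hg : DifferentiableOn ℂ g (ball 0 1)) (m : ℕ) :
    (qExpansion 1 (ofQ g)).coeff m = ((m.factorial : ℂ))⁻¹ * iteratedDeriv m g 0 :=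
  qExpansion_coeff_unique_fun (ofQ_analyticAt hg) (ofQ_hasSum hg) m

end Fermat.Agent.S24.JFun

end
-- ===== PACK-END S24/JFun/QFun.lean

-- ===== PACK-BEGIN S24/Deg/H648Conj.lean
section


/-!
# S24 / M6-AN (helper648): function-level conjugate product

For a holomorphic `Γ₀(N)`-invariant function `f` on `ℍ` whose `SL₂(ℤ)`-translates have at most
exponential growth at `i∞`, the polynomial `∏ₓ (Y - f ∘ gₓ⁻¹)` (product over
`x ∈ SL₂(ℤ)/Γ₀(N)`) has holomorphic, `SL₂(ℤ)`-invariant coefficients of exponential growth.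
-/

set_option autoImplicit false

noncomputable section

open UpperHalfPlane ModularGroup CongruenceSubgroup Polynomial
open scoped MatrixGroups Manifold Modular Real

namespace Fermat.Agent.S24.H648

/-- At most exponential growth at `i∞` (on `im τ ≥ 1`). -/
def ExpGrowth (f : ℍ → ℂ) : Prop :=
  ∃ (C : ℝ) (m : ℕ), ∀ τ : ℍ, 1 ≤ τ.im → ‖f τ‖ ≤ C * Real.exp (2 * π * m * τ.im)

lemma ExpGrowth.mono {f : ℍ → ℂ} {C : ℝ} {m : ℕ}
    (h : ∀ τ : ℍ, 1 ≤ τ.im → ‖f τ‖ ≤ C * Real.exp (2 * π * m * τ.im)) {C' : ℝ} {m' : ℕ}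
    (hC : C ≤ C') (hC0 : 0 ≤ C') (hm : m ≤ m') (τ : ℍ) (hτ : 1 ≤ τ.im) :
    ‖f τ‖ ≤ C' * Real.exp (2 * π * m' * τ.im) := by
  refine (h τ hτ).trans ?_
  have h1 : Real.exp (2 * π * m * τ.im) ≤ Real.exp (2 * π * m' * τ.im) := by
    apply Real.exp_le_exp.mpr
    have : (m : ℝ) ≤ m' := by exact_mod_cast hm
    have hpi := Real.pi_pos
    have := τ.im_pos
    gcongr
  calc C * Real.exp (2 * π * m * τ.im) ≤ C' * Real.exp (2 * π * m * τ.im) := by
        gcongr
    _ ≤ C' * Real.exp (2 * π * m' * τ.im) := by gcongr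

lemma expGrowth_const (c : ℂ) : ExpGrowth (fun _ => c) := by
  refine ⟨‖c‖, 0, fun τ _ => ?_⟩
  simp

lemma ExpGrowth.add {f g : ℍ → ℂ} (hf : ExpGrowth f) (hg : ExpGrowth g) :
    ExpGrowth (f + g) := by
  obtain ⟨C, m, h⟩ := hf
  obtain ⟨C', m', h'⟩ := hg
  refine ⟨|C| + |C'|, max m m', fun τ hτ => ?_⟩
  have h1 := ExpGrowth.mono h (C' := |C|) (m' := max m m') (le_abs_self C) (abs_nonneg C)
    (le_max_left _ _) τ hτ
  have h2 := ExpGrowth.mono h' (C' := |C'|) (m' := max m m') (le_abs_self C') (abs_nonneg C')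
    (le_max_right _ _) τ hτ
  calc ‖(f + g) τ‖ ≤ ‖f τ‖ + ‖g τ‖ := norm_add_le _ _
    _ ≤ _ := by rw [add_mul]; exact add_le_add h1 h2

lemma ExpGrowth.mul {f g : ℍ → ℂ} (hf : ExpGrowth f) (hg : ExpGrowth g) :
    ExpGrowth (f * g) := by
  obtain ⟨C, m, h⟩ := hf
  obtain ⟨C', m', h'⟩ := hg
  refine ⟨|C| * |C'|, m + m', fun τ hτ => ?_⟩
  have h1 := ExpGrowth.mono h (C' := |C|) (m' := m) (le_abs_self C) (abs_nonneg C) le_rfl τ hτ
  have h2 := ExpGrowth.mono h' (C' := |C'|) (m' := m') (le_abs_self C') (abs_nonneg C') le_rfl τ hτ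
  have : Real.exp (2 * π * (m + m' : ℕ) * τ.im)
      = Real.exp (2 * π * m * τ.im) * Real.exp (2 * π * m' * τ.im) := by
    rw [← Real.exp_add]; push_cast; ring_nf
  calc ‖(f * g) τ‖ = ‖f τ‖ * ‖g τ‖ := norm_mul _ _
    _ ≤ (|C| * Real.exp (2 * π * m * τ.im)) * (|C'| * Real.exp (2 * π * m' * τ.im)) :=
        mul_le_mul h1 h2 (norm_nonneg _) (by positivity)
    _ = _ := by rw [this]; ring

/-- Holomorphic functions on `ℍ` of at most exponential growth at `i∞`. -/
def niceRing : Subalgebra ℂ (ℍ → ℂ) where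
  carrier := {f | MDifferentiable 𝓘(ℂ) 𝓘(ℂ) f ∧ ExpGrowth f}
  mul_mem' := fun ⟨h1, h2⟩ ⟨h1', h2'⟩ => ⟨h1.mul h1', h2.mul h2'⟩
  add_mem' := fun ⟨h1, h2⟩ ⟨h1', h2'⟩ => ⟨h1.add h1', h2.add h2'⟩
  algebraMap_mem' := fun c => ⟨mdifferentiable_const, expGrowth_const c⟩


lemma mem_niceRing {f : ℍ → ℂ} :
    f ∈ niceRing ↔ MDifferentiable 𝓘(ℂ) 𝓘(ℂ) f ∧ ExpGrowth f := Iff.rfl

variable (N : ℕ)

/-- Holomorphic `Γ₀(N)`-invariant functions all of whose `SL₂(ℤ)`-translates have at most
exponential growth at `i∞`. -/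
def goodRing : Subalgebra ℂ (ℍ → ℂ) where
  carrier := {f | MDifferentiable 𝓘(ℂ) 𝓘(ℂ) f ∧ (∀ γ ∈ Gamma0 N, ∀ τ : ℍ, f (γ • τ) = f τ) ∧
      ∀ g : SL(2, ℤ), ExpGrowth (fun τ => f (g • τ))}
  mul_mem' := by
    rintro f g ⟨h1, h2, h3⟩ ⟨h1', h2', h3'⟩
    refine ⟨h1.mul h1', fun γ hγ τ => ?_, fun g => ?_⟩
    · show f (γ • τ) * g (γ • τ) = f τ * g τ
      rw [h2 γ hγ τ, h2' γ hγ τ]
    · exact (h3 g).mul (h3' g)
  add_mem' := by
    rintro f g ⟨h1, h2, h3⟩ ⟨h1', h2', h3'⟩
    refine ⟨h1.add h1', fun γ hγ τ => ?_, fun g => ?_⟩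
    · show f (γ • τ) + g (γ • τ) = f τ + g τ
      rw [h2 γ hγ τ, h2' γ hγ τ]
    · exact (h3 g).add (h3' g)
  algebraMap_mem' := fun c =>
    ⟨mdifferentiable_const, fun _ _ _ => rfl, fun _ => expGrowth_const c⟩

lemma mem_goodRing {f : ℍ → ℂ} :
    f ∈ goodRing N ↔ MDifferentiable 𝓘(ℂ) 𝓘(ℂ) f ∧ (∀ γ ∈ Gamma0 N, ∀ τ : ℍ, f (γ • τ) = f τ) ∧
      ∀ g : SL(2, ℤ), ExpGrowth (fun τ => f (g • τ)) := Iff.rfl

/-- The conjugate `f ∘ gₓ⁻¹` of `f` attached to the coset `x = gₓ Γ₀(N)`. -/
def conj (f : ℍ → ℂ) (x : SL(2, ℤ) ⧸ Gamma0 N) : ℍ → ℂ :=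
  fun τ => f ((Quotient.out x)⁻¹ • τ)

variable {N}

lemma conj_mk {f : ℍ → ℂ} (hf : ∀ γ ∈ Gamma0 N, ∀ τ : ℍ, f (γ • τ) = f τ) (g : SL(2, ℤ))
    (τ : ℍ) : conj N f (g : SL(2, ℤ) ⧸ Gamma0 N) τ = f (g⁻¹ • τ) := by
  obtain ⟨h, hh⟩ := QuotientGroup.mk_out_eq_mul (Gamma0 N) g
  unfold conj
  rw [hh, mul_inv_rev, mul_smul]
  exact hf _ (inv_mem h.2) _

lemma conj_smul {f : ℍ → ℂ} (hf : ∀ γ ∈ Gamma0 N, ∀ τ : ℍ, f (γ • τ) = f τ) (γ : SL(2, ℤ))
    (x : SL(2, ℤ) ⧸ Gamma0 N) (τ : ℍ) : conj N f x (γ • τ) = conj N f (γ⁻¹ • x) τ := by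
  induction x using QuotientGroup.induction_on with
  | H g =>
    rw [conj_mk hf, MulAction.Quotient.smul_mk, conj_mk hf, smul_eq_mul, mul_inv_rev, inv_inv,
      mul_smul]

lemma conj_one_coset {f : ℍ → ℂ} (hf : ∀ γ ∈ Gamma0 N, ∀ τ : ℍ, f (γ • τ) = f τ) (τ : ℍ) :
    conj N f ((1 : SL(2, ℤ)) : SL(2, ℤ) ⧸ Gamma0 N) τ = f τ := by
  rw [conj_mk hf]; simp

lemma mdifferentiable_comp_smul {f : ℍ → ℂ} (hf : MDifferentiable 𝓘(ℂ) 𝓘(ℂ) f)
    (g : SL(2, ℤ)) : MDifferentiable 𝓘(ℂ) 𝓘(ℂ) (fun τ : ℍ => f (g • τ)) := by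
  have h : MDifferentiable 𝓘(ℂ) 𝓘(ℂ) (fun τ : ℍ => (g : GL (Fin 2) ℝ) • τ) :=
    UpperHalfPlane.mdifferentiable_smul (by simp)
  exact hf.comp h

lemma conj_mem_niceRing {f : ℍ → ℂ} (hf : f ∈ goodRing N) (x : SL(2, ℤ) ⧸ Gamma0 N) :
    conj N f x ∈ niceRing :=
  ⟨mdifferentiable_comp_smul hf.1 _, hf.2.2 _⟩


/-- Coefficients of a finite product `∏ (Y - aₓ)` with `aₓ` in `niceRing` are in `niceRing`. -/
lemma coeff_prod_mem_niceRing {ι : Type*} (a : ι → ℍ → ℂ) (ha : ∀ i, a i ∈ niceRing)
    (s : Finset ι) (k : ℕ) :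
    (fun τ => (∏ i ∈ s, (X - C (a i τ))).coeff k) ∈ niceRing := by
  classical
  induction s using Finset.induction_on generalizing k with
  | empty =>
    have : (fun τ : ℍ => (∏ i ∈ (∅ : Finset ι), (X - C (a i τ))).coeff k)
        = algebraMap ℂ (ℍ → ℂ) (if k = 0 then 1 else 0) := by
      funext τ
      simp [Polynomial.coeff_one]
    rw [this]
    exact Subalgebra.algebraMap_mem _ _
  | insert i s hi ih =>
    cases k with
    | zero =>
      have : (fun τ : ℍ => (∏ j ∈ insert i s, (X - C (a j τ))).coeff 0)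
          = - (a i * fun τ => (∏ j ∈ s, (X - C (a j τ))).coeff 0) := by
        funext τ
        rw [Finset.prod_insert hi, sub_mul, Polynomial.coeff_sub, Polynomial.coeff_X_mul_zero,
          Polynomial.coeff_C_mul]
        simp
      rw [this]
      exact Subalgebra.neg_mem _ (Subalgebra.mul_mem _ (ha i) (ih 0))
    | succ k =>
      have : (fun τ : ℍ => (∏ j ∈ insert i s, (X - C (a j τ))).coeff (k + 1))
          = (fun τ => (∏ j ∈ s, (X - C (a j τ))).coeff k)
            - (a i * fun τ => (∏ j ∈ s, (X - C (a j τ))).coeff (k + 1)) := by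
        funext τ
        rw [Finset.prod_insert hi, sub_mul, Polynomial.coeff_sub, Polynomial.coeff_X_mul,
          Polynomial.coeff_C_mul]
        simp
      rw [this]
      exact Subalgebra.sub_mem _ (ih k) (Subalgebra.mul_mem _ (ha i) (ih (k + 1)))

variable (N) in
/-- The "characteristic polynomial" `∏ₓ (Y - f ∘ gₓ⁻¹)` evaluated at `τ`. -/
def charPolyAt [Fintype (SL(2, ℤ) ⧸ Gamma0 N)] (f : ℍ → ℂ) (τ : ℍ) : ℂ[X] :=
  ∏ x : SL(2, ℤ) ⧸ Gamma0 N, (X - C (conj N f x τ))

section charPoly

variable [Fintype (SL(2, ℤ) ⧸ Gamma0 N)]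

lemma charPolyAt_monic (f : ℍ → ℂ) (τ : ℍ) : (charPolyAt N f τ).Monic :=
  Polynomial.monic_prod_of_monic _ _ fun _ _ => Polynomial.monic_X_sub_C _

lemma charPolyAt_natDegree (f : ℍ → ℂ) (τ : ℍ) :
    (charPolyAt N f τ).natDegree = Fintype.card (SL(2, ℤ) ⧸ Gamma0 N) := by
  unfold charPolyAt
  rw [Polynomial.natDegree_prod_of_monic _ _ fun _ _ => Polynomial.monic_X_sub_C _]
  simp

lemma charPolyAt_smul {f : ℍ → ℂ} (hf : ∀ γ ∈ Gamma0 N, ∀ τ : ℍ, f (γ • τ) = f τ)
    (γ : SL(2, ℤ)) (τ : ℍ) : charPolyAt N f (γ • τ) = charPolyAt N f τ := by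
  unfold charPolyAt
  refine Fintype.prod_equiv (MulAction.toPerm γ⁻¹) _ _ fun x => ?_
  rw [conj_smul hf]
  rfl

lemma charPolyAt_eval_self {f : ℍ → ℂ} (hf : ∀ γ ∈ Gamma0 N, ∀ τ : ℍ, f (γ • τ) = f τ)
    (τ : ℍ) : (charPolyAt N f τ).eval (f τ) = 0 := by
  unfold charPolyAt
  rw [Polynomial.eval_prod]
  refine Finset.prod_eq_zero (Finset.mem_univ ((1 : SL(2, ℤ)) : SL(2, ℤ) ⧸ Gamma0 N)) ?_
  rw [conj_one_coset hf]
  simp

lemma charPolyAt_eval_conj (f : ℍ → ℂ) (x : SL(2, ℤ) ⧸ Gamma0 N)
    (τ : ℍ) : (charPolyAt N f τ).eval (conj N f x τ) = 0 := by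
  unfold charPolyAt
  rw [Polynomial.eval_prod]
  refine Finset.prod_eq_zero (Finset.mem_univ x) ?_
  simp

lemma coeff_charPolyAt_mem_niceRing {f : ℍ → ℂ} (hf : f ∈ goodRing N) (k : ℕ) :
    (fun τ => (charPolyAt N f τ).coeff k) ∈ niceRing :=
  coeff_prod_mem_niceRing (conj N f) (conj_mem_niceRing hf) Finset.univ k

/-- **Main theorem (M6-AN).**  Given the polynomiality principle (D5) for `J`, the conjugate
product `∏ₓ (Y - f ∘ gₓ⁻¹)` of a good function `f` has coefficients in `ℂ[J]`. -/
theorem exists_charPoly (J : ℍ → ℂ)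
    (hD5 : ∀ F : ℍ → ℂ, MDifferentiable 𝓘(ℂ) 𝓘(ℂ) F →
      (∀ (γ : SL(2, ℤ)) (τ : ℍ), F (γ • τ) = F τ) → ExpGrowth F →
      ∃ p : ℂ[X], ∀ τ, F τ = p.eval (J τ))
    {f : ℍ → ℂ} (hf : f ∈ goodRing N) :
    ∃ P : (ℂ[X])[X], P.Monic ∧ P.natDegree = Fintype.card (SL(2, ℤ) ⧸ Gamma0 N) ∧
      ∀ τ : ℍ, P.map (Polynomial.evalRingHom (J τ)) = charPolyAt N f τ := by
  classical
  set n := Fintype.card (SL(2, ℤ) ⧸ Gamma0 N) with hn
  have key : ∀ k : ℕ, ∃ p : ℂ[X], ∀ τ, (charPolyAt N f τ).coeff k = p.eval (J τ) := by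
    intro k
    have h := coeff_charPolyAt_mem_niceRing hf k
    exact hD5 _ h.1 (fun γ τ => by rw [charPolyAt_smul hf.2.1]) h.2
  choose p hp using key
  set Q : (ℂ[X])[X] := ∑ i ∈ Finset.range n, C (p i) * X ^ i with hQ
  have hQdeg : Q.degree < n := by
    rw [Polynomial.degree_lt_iff_coeff_zero]
    intro m hm
    rw [hQ, Polynomial.finsetSum_coeff]
    refine Finset.sum_eq_zero fun i hi => ?_
    rw [Polynomial.coeff_C_mul_X_pow, if_neg]
    have := Finset.mem_range.mp hi
    omega
  refine ⟨X ^ n + Q, Polynomial.monic_X_pow_add hQdeg, ?_, fun τ => ?_⟩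
  · rw [Polynomial.natDegree_add_eq_left_of_degree_lt (by rwa [Polynomial.degree_X_pow]),
      Polynomial.natDegree_X_pow]
  · have h1 := (charPolyAt_monic (N := N) f τ).as_sum
    rw [charPolyAt_natDegree] at h1
    rw [h1, Polynomial.map_add, Polynomial.map_pow, Polynomial.map_X, hQ, Polynomial.map_sum]
    congr 1
    refine Finset.sum_congr rfl fun i _ => ?_
    rw [Polynomial.map_mul, Polynomial.map_pow, Polynomial.map_X, Polynomial.map_C,
      Polynomial.coe_evalRingHom, ← hp i τ]

/-- Corollary: function-level `HYP(n)`. -/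
theorem exists_charPoly_eval_eq_zero (J : ℍ → ℂ)
    (hD5 : ∀ F : ℍ → ℂ, MDifferentiable 𝓘(ℂ) 𝓘(ℂ) F →
      (∀ (γ : SL(2, ℤ)) (τ : ℍ), F (γ • τ) = F τ) → ExpGrowth F →
      ∃ p : ℂ[X], ∀ τ, F τ = p.eval (J τ))
    {f : ℍ → ℂ} (hf : f ∈ goodRing N) :
    ∃ P : (ℂ[X])[X], P.Monic ∧ P.natDegree = Fintype.card (SL(2, ℤ) ⧸ Gamma0 N) ∧
      ∀ τ : ℍ, (P.map (Polynomial.evalRingHom (J τ))).eval (f τ) = 0 := by
  obtain ⟨P, h1, h2, h3⟩ := exists_charPoly J hD5 hf
  exact ⟨P, h1, h2, fun τ => by rw [h3, charPolyAt_eval_self hf.2.1]⟩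

end charPoly

end Fermat.Agent.S24.H648

end
end
-- ===== PACK-END S24/Deg/H648Conj.lean

-- ===== PACK-BEGIN S24/Mod/H708QInf.lean
section



/-!
# S24 / MOD-QINF (helper708): Laurent `q^(1/h)`-expansions at `i∞`

For `h : ℕ`, `h ≠ 0`, we consider functions `f : ℍ → ℂ` which are holomorphic, `h`-periodic and
meromorphic at `i∞` (`f * q_h ^ M` bounded at `i∞` for some `M`, `q_h τ = exp (2 π i τ / h)`).
They form a subalgebra `merInf h`, and the Laurent expansion in `q_h` is an injective algebra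
homomorphism `qexpInf h : merInf h →ₐ[ℂ] LaurentSeries ℂ`.

Everything is over `ℂ`, Mathlib only.
-/

set_option autoImplicit false
set_option linter.unusedSectionVars false

noncomputable section

namespace Fermat.Agent.S24.H708

open Complex Function Filter
open UpperHalfPlane hiding I
open scoped Manifold Real Topology

/-- The local parameter `q_h τ = exp (2 π i τ / h)` at `i∞`, as a function on `ℍ`. -/
def qh (h : ℕ) : ℍ → ℂ := fun τ => Function.Periodic.qParam (h : ℝ) (τ : ℂ)

lemma qh_apply (h : ℕ) (τ : ℍ) : qh h τ = Function.Periodic.qParam (h : ℝ) (τ : ℂ) := rfl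

lemma qh_ne_zero (h : ℕ) (τ : ℍ) : qh h τ ≠ 0 := Function.Periodic.qParam_ne_zero _

lemma qh_pow_ne_zero (h : ℕ) (M : ℕ) (τ : ℍ) : (qh h ^ M) τ ≠ 0 := by
  simpa using pow_ne_zero M (qh_ne_zero h τ)

section basic

variable (h : ℕ) [NeZero h]

lemma hpos : (0 : ℝ) < (h : ℝ) := by exact_mod_cast Nat.pos_of_ne_zero (NeZero.ne h)

lemma norm_qh_lt_one (τ : ℍ) : ‖qh h τ‖ < 1 :=
  Function.Periodic.norm_qParam_lt_one (hpos h) τ.im_pos

omit [NeZero h] in
lemma mdiff_qh : MDiff (qh h) := by
  rw [UpperHalfPlane.mdifferentiable_iff]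
  have hd : DifferentiableOn ℂ (Function.Periodic.qParam (h : ℝ)) {z : ℂ | 0 < z.im} :=
    (Function.Periodic.differentiable_qParam (h := (h : ℝ))).differentiableOn
  refine hd.congr ?_
  intro z hz
  simp only [comp_apply, qh_apply, ofComplex_apply_of_im_pos hz]

lemma periodic_qh : Periodic (qh h ∘ ofComplex) (h : ℝ) := by
  intro w
  by_cases hw : 0 < _root_.Complex.im w
  · have hw' : 0 < _root_.Complex.im (w + (h : ℝ)) := by simpa using hw
    simp only [comp_apply, qh_apply, ofComplex_apply_of_im_pos hw',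
      ofComplex_apply_of_im_pos hw]
    simp only [Function.Periodic.qParam]
    have hh : ((h : ℝ) : ℂ) ≠ 0 := by
      exact_mod_cast (NeZero.ne h)
    rw [show 2 * (π : ℂ) * _root_.Complex.I * (w + ((h : ℝ) : ℂ)) / ((h : ℝ) : ℂ)
        = 2 * (π : ℂ) * _root_.Complex.I * w / ((h : ℝ) : ℂ) + 2 * π * _root_.Complex.I by field_simp]
    rw [Complex.exp_add, Complex.exp_two_pi_mul_I, mul_one]
  · have hw0 : _root_.Complex.im w ≤ 0 := not_lt.mp hw
    have hw' : _root_.Complex.im (w + (h : ℝ)) ≤ 0 := by simpa using hw0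
    simp only [comp_apply]
    rw [ofComplex_apply_of_im_nonpos hw', ofComplex_apply_of_im_nonpos hw0]

lemma isBounded_qh : IsBoundedAtImInfty (qh h) := by
  rw [UpperHalfPlane.isBoundedAtImInfty_iff]
  exact ⟨1, 0, fun τ _ => (norm_qh_lt_one h τ).le⟩

end basic

/-- The class of holomorphic `h`-periodic functions bounded at `i∞`. -/
structure IsHolInf (h : ℕ) (f : ℍ → ℂ) : Prop where
  hol : MDiff f
  per : Periodic (f ∘ ofComplex) (h : ℝ)
  bdd : IsBoundedAtImInfty f

namespace IsHolInf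

variable {h : ℕ} {f g : ℍ → ℂ}

lemma mul (hf : IsHolInf h f) (hg : IsHolInf h g) : IsHolInf h (f * g) :=
  ⟨hf.hol.mul hg.hol, hf.per.mul hg.per, hf.bdd.mul hg.bdd⟩

lemma add (hf : IsHolInf h f) (hg : IsHolInf h g) : IsHolInf h (f + g) :=
  ⟨hf.hol.add hg.hol, hf.per.add hg.per, hf.bdd.add hg.bdd⟩

lemma const (h : ℕ) (c : ℂ) : IsHolInf h (fun _ => c) :=
  ⟨mdifferentiable_const, fun _ => rfl, Filter.const_boundedAtFilter _ c⟩

lemma one (h : ℕ) : IsHolInf h (1 : ℍ → ℂ) := const h 1

lemma qh (h : ℕ) [NeZero h] : IsHolInf h (_root_.Fermat.Agent.S24.H708.qh h) :=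
  ⟨mdiff_qh h, periodic_qh h, isBounded_qh h⟩

lemma pow (hf : IsHolInf h f) (n : ℕ) : IsHolInf h (f ^ n) := by
  induction n with
  | zero => simpa using one h
  | succ n ih => rw [pow_succ]; exact ih.mul hf

lemma analyticAt [NeZero h] (hf : IsHolInf h f) : AnalyticAt ℂ (cuspFunction (h : ℝ) f) 0 :=
  analyticAt_cuspFunction_zero (hpos h) hf.per hf.hol hf.bdd

lemma qExpansion_mul [NeZero h] (hf : IsHolInf h f) (hg : IsHolInf h g) :
    qExpansion (h : ℝ) (f * g) = qExpansion (h : ℝ) f * qExpansion (h : ℝ) g :=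
  UpperHalfPlane.qExpansion_mul hf.analyticAt hg.analyticAt

lemma qExpansion_add [NeZero h] (hf : IsHolInf h f) (hg : IsHolInf h g) :
    qExpansion (h : ℝ) (f + g) = qExpansion (h : ℝ) f + qExpansion (h : ℝ) g :=
  UpperHalfPlane.qExpansion_add hf.analyticAt hg.analyticAt

lemma hasSum [NeZero h] (hf : IsHolInf h f) (τ : ℍ) :
    HasSum (fun m : ℕ => (qExpansion (h : ℝ) f).coeff m * H708.qh h τ ^ m) (f τ) := by
  simpa [smul_eq_mul, qh_apply] using hasSum_qExpansion (hpos h) hf.per hf.hol hf.bdd τ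

lemma qExpansion_eq_zero_iff [NeZero h] (hf : IsHolInf h f) :
    qExpansion (h : ℝ) f = 0 ↔ f = 0 :=
  UpperHalfPlane.qExpansion_eq_zero_iff (hpos h) hf.per hf.hol hf.bdd

end IsHolInf


section qExpansion_qh

variable (h : ℕ) [NeZero h]

omit [NeZero h] in
/-- `UpperHalfPlane.qExpansion_coeff_unique` for plain functions. -/
lemma qExpansion_coeff_unique_fun {g : ℍ → ℂ} (hh : (0 : ℝ) < (h : ℝ)) (hcont : Continuous g)
    {c : ℕ → ℂ} (hg : AnalyticAt ℂ (cuspFunction (h : ℝ) g) 0)
    (hs : ∀ τ : ℍ, HasSum (fun m ↦ c m • Function.Periodic.qParam (h : ℝ) (τ : ℂ) ^ m) (g τ))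
    (m : ℕ) : c m = (qExpansion (h : ℝ) g).coeff m :=
  UpperHalfPlane.qExpansion_coeff_unique (ContinuousMap.mk g hcont) hh hg hs m

omit [NeZero h] in
lemma hasSum_qh_aux (τ : ℍ) : HasSum (fun m : ℕ => (if m = 1 then (1 : ℂ) else 0) •
      Function.Periodic.qParam (h : ℝ) (τ : ℂ) ^ m) (qh h τ) := by
  have h1 := hasSum_ite_eq (1 : ℕ) (qh h τ)
  have h2 : (fun m : ℕ => (if m = 1 then (1 : ℂ) else 0) •
      Function.Periodic.qParam (h : ℝ) (τ : ℂ) ^ m) = fun m : ℕ => if m = 1 then qh h τ else 0 := by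
    funext m
    by_cases hm : m = 1
    · subst hm; simp [qh_apply]
    · simp [hm]
  rw [h2]
  exact h1

lemma qExpansion_qh : qExpansion (h : ℝ) (qh h) = PowerSeries.X := by
  ext m
  have h3 := qExpansion_coeff_unique_fun h (hpos h) (mdiff_qh h).continuous
    (IsHolInf.qh h).analyticAt (hasSum_qh_aux h) m
  rw [PowerSeries.coeff_X]
  exact h3.symm

end qExpansion_qh

/-- `f` is holomorphic on `ℍ`, `h`-periodic, and meromorphic at `i∞`. -/
structure IsMerInf (h : ℕ) (f : ℍ → ℂ) : Prop where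
  hol : MDiff f
  per : Periodic (f ∘ ofComplex) (h : ℝ)
  bdd : ∃ M : ℕ, IsBoundedAtImInfty (f * qh h ^ M)

/-- The candidate Laurent expansion of `f` computed with pole order bound `M`. -/
def lau (h : ℕ) (M : ℕ) (f : ℍ → ℂ) : LaurentSeries ℂ :=
  HahnSeries.single (-(M : ℤ)) (1 : ℂ) *
    HahnSeries.ofPowerSeries ℤ ℂ (qExpansion (h : ℝ) (f * qh h ^ M))

namespace IsMerInf

variable {h : ℕ} {f g : ℍ → ℂ}

lemma isHolInf_mul_pow [NeZero h] (hf : IsMerInf h f) {M : ℕ}
    (hM : IsBoundedAtImInfty (f * qh h ^ M)) : IsHolInf h (f * qh h ^ M) :=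
  ⟨hf.hol.mul ((mdiff_qh h).pow M), hf.per.mul ((IsHolInf.qh h).pow M).per, hM⟩

lemma of_isHolInf [NeZero h] (hf : IsHolInf h f) : IsMerInf h f :=
  ⟨hf.hol, hf.per, 0, by simpa using hf.bdd⟩

lemma bdd_succ [NeZero h] {M : ℕ}
    (hM : IsBoundedAtImInfty (f * qh h ^ M)) : IsBoundedAtImInfty (f * qh h ^ (M + 1)) := by
  rw [pow_succ, ← mul_assoc]
  exact hM.mul (isBounded_qh h)

lemma bdd_of_le [NeZero h] {M M' : ℕ} (hle : M ≤ M')
    (hM : IsBoundedAtImInfty (f * qh h ^ M)) : IsBoundedAtImInfty (f * qh h ^ M') := by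
  induction M', hle using Nat.le_induction with
  | base => exact hM
  | succ n _ ih => exact bdd_succ ih

lemma lau_succ [NeZero h] (hf : IsMerInf h f) {M : ℕ}
    (hM : IsBoundedAtImInfty (f * qh h ^ M)) : lau h (M + 1) f = lau h M f := by
  unfold lau
  have h1 : f * qh h ^ (M + 1) = (f * qh h ^ M) * qh h := by rw [pow_succ, mul_assoc]
  rw [h1, (hf.isHolInf_mul_pow hM).qExpansion_mul (IsHolInf.qh h), qExpansion_qh, _root_.map_mul,
    HahnSeries.ofPowerSeries_X, mul_comm (HahnSeries.ofPowerSeries ℤ ℂ _), ← mul_assoc,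
    HahnSeries.single_mul_single]
  have h2 : (-((M + 1 : ℕ) : ℤ) + 1) = -(M : ℤ) := by push_cast; ring1
  rw [h2, mul_one]

lemma lau_of_le [NeZero h] (hf : IsMerInf h f) {M M' : ℕ} (hle : M ≤ M')
    (hM : IsBoundedAtImInfty (f * qh h ^ M)) : lau h M' f = lau h M f := by
  induction M', hle using Nat.le_induction with
  | base => rfl
  | succ n hn ih => rw [hf.lau_succ (bdd_of_le hn hM), ih]

lemma lau_eq [NeZero h] (hf : IsMerInf h f) {M M' : ℕ}
    (hM : IsBoundedAtImInfty (f * qh h ^ M)) (hM' : IsBoundedAtImInfty (f * qh h ^ M')) :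
    lau h M f = lau h M' f := by
  rcases le_total M M' with hle | hle
  · exact (hf.lau_of_le hle hM).symm
  · exact hf.lau_of_le hle hM'


lemma mul [NeZero h] (hf : IsMerInf h f) (hg : IsMerInf h g) : IsMerInf h (f * g) := by
  obtain ⟨M, hM⟩ := hf.bdd
  obtain ⟨M', hM'⟩ := hg.bdd
  refine ⟨hf.hol.mul hg.hol, hf.per.mul hg.per, M + M', ?_⟩
  have : f * g * qh h ^ (M + M') = (f * qh h ^ M) * (g * qh h ^ M') := by
    rw [pow_add]; ring1
  rw [this]
  exact hM.mul hM'

lemma add [NeZero h] (hf : IsMerInf h f) (hg : IsMerInf h g) : IsMerInf h (f + g) := by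
  obtain ⟨M, hM⟩ := hf.bdd
  obtain ⟨M', hM'⟩ := hg.bdd
  refine ⟨hf.hol.add hg.hol, hf.per.add hg.per, max M M', ?_⟩
  rw [add_mul]
  exact (bdd_of_le (le_max_left _ _) hM).add (bdd_of_le (le_max_right _ _) hM')

lemma const (h : ℕ) [NeZero h] (c : ℂ) : IsMerInf h (fun _ => c) :=
  of_isHolInf (IsHolInf.const h c)

lemma one (h : ℕ) [NeZero h] : IsMerInf h (1 : ℍ → ℂ) := const h 1

lemma zero (h : ℕ) [NeZero h] : IsMerInf h (0 : ℍ → ℂ) := const h 0

lemma neg [NeZero h] (hf : IsMerInf h f) : IsMerInf h (-f) := by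
  have := (const h (-1)).mul hf
  convert this using 1
  ext τ; simp

lemma sub [NeZero h] (hf : IsMerInf h f) (hg : IsMerInf h g) : IsMerInf h (f - g) := by
  rw [sub_eq_add_neg]; exact hf.add hg.neg

lemma pow [NeZero h] (hf : IsMerInf h f) (n : ℕ) : IsMerInf h (f ^ n) := by
  induction n with
  | zero => simpa using one h
  | succ n ih => rw [pow_succ]; exact ih.mul hf

end IsMerInf

/-- The Laurent `q_h`-expansion of a function (junk value `0` outside `IsMerInf`). -/
def qexpFun (h : ℕ) (f : ℍ → ℂ) : LaurentSeries ℂ := by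
  classical
  exact if hf : IsMerInf h f then lau h hf.bdd.choose f else 0

section qexpFun

variable {h : ℕ} [NeZero h] {f g : ℍ → ℂ}

lemma qexpFun_eq_lau (hf : IsMerInf h f) {M : ℕ} (hM : IsBoundedAtImInfty (f * qh h ^ M)) :
    qexpFun h f = lau h M f := by
  classical
  rw [qexpFun, dif_pos hf]
  exact hf.lau_eq hf.bdd.choose_spec hM

lemma qexpFun_of_isHolInf (hf : IsHolInf h f) :
    qexpFun h f = HahnSeries.ofPowerSeries ℤ ℂ (qExpansion (h : ℝ) f) := by
  have hb : IsBoundedAtImInfty (f * qh h ^ 0) := by simpa using hf.bdd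
  rw [qexpFun_eq_lau (IsMerInf.of_isHolInf hf) hb, lau]
  simp

lemma qexpFun_mul (hf : IsMerInf h f) (hg : IsMerInf h g) :
    qexpFun h (f * g) = qexpFun h f * qexpFun h g := by
  obtain ⟨M, hM⟩ := hf.bdd
  obtain ⟨M', hM'⟩ := hg.bdd
  have hfg : f * g * qh h ^ (M + M') = (f * qh h ^ M) * (g * qh h ^ M') := by
    rw [pow_add]; ring1
  have hb : IsBoundedAtImInfty (f * g * qh h ^ (M + M')) := by
    rw [hfg]; exact hM.mul hM'
  rw [qexpFun_eq_lau (hf.mul hg) hb, qexpFun_eq_lau hf hM, qexpFun_eq_lau hg hM']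
  unfold lau
  rw [hfg, (hf.isHolInf_mul_pow hM).qExpansion_mul (hg.isHolInf_mul_pow hM'), _root_.map_mul]
  have hs : (HahnSeries.single (-((M + M' : ℕ) : ℤ)) (1 : ℂ) : LaurentSeries ℂ)
      = HahnSeries.single (-(M : ℤ)) 1 * HahnSeries.single (-(M' : ℤ)) 1 := by
    rw [HahnSeries.single_mul_single, mul_one]
    have h2 : (-((M + M' : ℕ) : ℤ)) = -(M : ℤ) + -(M' : ℤ) := by push_cast; ring1
    rw [h2]
  rw [hs]
  ring1

lemma qexpFun_add (hf : IsMerInf h f) (hg : IsMerInf h g) :
    qexpFun h (f + g) = qexpFun h f + qexpFun h g := by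
  obtain ⟨M, hM⟩ := hf.bdd
  obtain ⟨M', hM'⟩ := hg.bdd
  have hM1 := IsMerInf.bdd_of_le (le_max_left M M') hM
  have hM2 := IsMerInf.bdd_of_le (le_max_right M M') hM'
  have hb : IsBoundedAtImInfty ((f + g) * qh h ^ (max M M')) := by
    rw [add_mul]; exact hM1.add hM2
  rw [qexpFun_eq_lau (hf.add hg) hb, qexpFun_eq_lau hf hM1, qexpFun_eq_lau hg hM2]
  unfold lau
  rw [add_mul, (hf.isHolInf_mul_pow hM1).qExpansion_add (hg.isHolInf_mul_pow hM2), map_add,
    mul_add]

lemma qExpansion_const (h : ℕ) [NeZero h] (c : ℂ) :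
    qExpansion (h : ℝ) (fun _ : ℍ => c) = PowerSeries.C c := by
  have h1 : (fun _ : ℍ => c) = c • (1 : ℍ → ℂ) := by
    ext τ; simp
  rw [h1, UpperHalfPlane.qExpansion_smul (IsHolInf.one h).analyticAt, qExpansion_one]
  ext n
  simp [PowerSeries.coeff_C, PowerSeries.coeff_one]

lemma qexpFun_const (h : ℕ) [NeZero h] (c : ℂ) :
    qexpFun h (fun _ : ℍ => c) = HahnSeries.C c := by
  rw [qexpFun_of_isHolInf (IsHolInf.const h c), qExpansion_const, HahnSeries.ofPowerSeries_C]

lemma qexpFun_eq_zero_iff (hf : IsMerInf h f) : qexpFun h f = 0 ↔ f = 0 := by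
  obtain ⟨M, hM⟩ := hf.bdd
  rw [qexpFun_eq_lau hf hM, lau]
  have hne : (HahnSeries.single (-(M : ℤ)) (1 : ℂ) : LaurentSeries ℂ) ≠ 0 := by
    simp
  rw [mul_eq_zero, or_iff_right hne, map_eq_zero_iff _ HahnSeries.ofPowerSeries_injective,
    (hf.isHolInf_mul_pow hM).qExpansion_eq_zero_iff]
  constructor
  · intro h0
    ext τ
    have := congrFun h0 τ
    simp only [Pi.mul_apply, Pi.zero_apply, mul_eq_zero] at this
    exact this.resolve_right (qh_pow_ne_zero h M τ)
  · rintro rfl; simp

end qexpFun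

/-- The algebra of holomorphic `h`-periodic functions on `ℍ`, meromorphic at `i∞`. -/
def merInf (h : ℕ) [NeZero h] : Subalgebra ℂ (ℍ → ℂ) where
  carrier := {f | IsMerInf h f}
  mul_mem' := fun hf hg => IsMerInf.mul hf hg
  add_mem' := fun hf hg => IsMerInf.add hf hg
  algebraMap_mem' := fun c => IsMerInf.const h c

lemma mem_merInf {h : ℕ} [NeZero h] {f : ℍ → ℂ} : f ∈ merInf h ↔ IsMerInf h f := Iff.rfl

/-- The Laurent expansion in `q_h = exp (2 π i τ / h)` at `i∞`. -/
def qexpInf (h : ℕ) [NeZero h] : merInf h →ₐ[ℂ] LaurentSeries ℂ where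
  toFun f := qexpFun h (f : ℍ → ℂ)
  map_one' := by
    show qexpFun h (1 : ℍ → ℂ) = 1
    have := qexpFun_const h (1 : ℂ)
    rw [show (1 : ℍ → ℂ) = fun _ => (1 : ℂ) from rfl, this]
    simp
  map_mul' f g := qexpFun_mul f.2 g.2
  map_zero' := by
    show qexpFun h (0 : ℍ → ℂ) = 0
    exact (qexpFun_eq_zero_iff (IsMerInf.zero h)).mpr rfl
  map_add' f g := qexpFun_add f.2 g.2
  commutes' c := by
    show qexpFun h (fun _ : ℍ => c) = algebraMap ℂ (LaurentSeries ℂ) c
    rw [qexpFun_const]
    have h1 : algebraMap ℂ (PowerSeries ℂ) c = PowerSeries.C c := by simp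
    rw [HahnSeries.algebraMap_apply', h1, HahnSeries.ofPowerSeries_C]

lemma qexpInf_apply {h : ℕ} [NeZero h] (f : merInf h) : qexpInf h f = qexpFun h (f : ℍ → ℂ) := rfl

lemma qexpInf_injective (h : ℕ) [NeZero h] : Function.Injective (qexpInf h) := by
  rw [injective_iff_map_eq_zero]
  intro f hf
  have := (qexpFun_eq_zero_iff f.2).mp hf
  exact Subtype.ext this


/-! ### Convergence of the Laurent expansion and uniqueness -/

section hasSum

/-- Reindexing a Laurent-type sum over `ℤ` (vanishing below `-M`) as a sum over `ℕ`. -/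
lemma hasSum_int_iff_nat (φ : ℤ → ℂ) (M : ℕ) (hφ : ∀ n : ℤ, n < -(M : ℤ) → φ n = 0)
    (x : ℂ) (hx : x ≠ 0) (s : ℂ) :
    HasSum (fun n : ℤ => φ n * x ^ n) s ↔
      HasSum (fun m : ℕ => φ ((m : ℤ) - M) * x ^ m) (s * x ^ M) := by
  have hinj : Function.Injective (fun m : ℕ => (m : ℤ) - (M : ℤ)) := by
    intro a b hab
    simp only [sub_left_inj] at hab
    exact_mod_cast hab
  have hrange : ∀ n : ℤ, n ∉ Set.range (fun m : ℕ => (m : ℤ) - (M : ℤ)) →
      (fun n : ℤ => φ n * x ^ n) n = 0 := by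
    intro n hn
    have hlt : n < -(M : ℤ) := by
      by_contra hge
      rw [not_lt] at hge
      apply hn
      refine ⟨(n + M).toNat, ?_⟩
      simp only
      rw [Int.toNat_of_nonneg (by omega)]
      ring
    simp [hφ n hlt]
  rw [← hinj.hasSum_iff hrange]
  have hxM : x ^ M ≠ 0 := pow_ne_zero M hx
  rw [← hasSum_mul_right_iff hxM]
  have hfun : (fun i : ℕ => ((fun n : ℤ => φ n * x ^ n) ∘ fun m : ℕ => (m : ℤ) - (M : ℤ)) i * x ^ M)
      = fun m : ℕ => φ ((m : ℤ) - M) * x ^ m := by
    funext m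
    simp only [comp_apply]
    rw [zpow_sub₀ hx, zpow_natCast, zpow_natCast]
    field_simp
  rw [hfun]

variable {h : ℕ} [NeZero h] {f : ℍ → ℂ}

lemma lau_coeff (M : ℕ) (f : ℍ → ℂ) (n : ℤ) :
    (lau h M f).coeff n = (HahnSeries.ofPowerSeries ℤ ℂ
      (qExpansion (h : ℝ) (f * qh h ^ M))).coeff (n + M) := by
  rw [lau, HahnSeries.coeff_single_mul, one_mul, sub_neg_eq_add]

lemma lau_coeff_of_lt (M : ℕ) (f : ℍ → ℂ) {n : ℤ} (hn : n < -(M : ℤ)) :
    (lau h M f).coeff n = 0 := by
  rw [lau_coeff, PowerSeries.coeff_coe, if_pos (by omega)]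

lemma lau_coeff_natCast_sub (M : ℕ) (f : ℍ → ℂ) (m : ℕ) :
    (lau h M f).coeff ((m : ℤ) - M) = (qExpansion (h : ℝ) (f * qh h ^ M)).coeff m := by
  rw [lau_coeff, sub_add_cancel, HahnSeries.ofPowerSeries_apply_coeff]

/-- The Laurent expansion converges to `f` on all of `ℍ`. -/
theorem hasSum_qexpFun (hf : IsMerInf h f) (τ : ℍ) :
    HasSum (fun n : ℤ => (qexpFun h f).coeff n * qh h τ ^ n) (f τ) := by
  obtain ⟨M, hM⟩ := hf.bdd
  rw [qexpFun_eq_lau hf hM,
    hasSum_int_iff_nat _ M (fun n hn => lau_coeff_of_lt M f hn) _ (qh_ne_zero h τ)]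
  have := (hf.isHolInf_mul_pow hM).hasSum τ
  simpa [lau_coeff_natCast_sub] using this

/-- If a Laurent series converges to a holomorphic `f` on all of `ℍ`, then `f` is `h`-periodic
and meromorphic at `i∞`. -/
theorem IsMerInf.of_hasSum (hol : MDiff f) (φ : LaurentSeries ℂ)
    (hs : ∀ τ : ℍ, HasSum (fun n : ℤ => φ.coeff n * qh h τ ^ n) (f τ)) : IsMerInf h f := by
  refine ⟨hol, ?_, ?_⟩
  · intro w
    by_cases hw : 0 < _root_.Complex.im w
    · have hw' : 0 < _root_.Complex.im (w + (h : ℝ)) := by simpa using hw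
      have hq : qh h (ofComplex (w + (h : ℝ))) = qh h (ofComplex w) := periodic_qh h w
      have h1 := hs (ofComplex (w + (h : ℝ)))
      rw [hq] at h1
      exact h1.unique (hs (ofComplex w))
    · have hw0 : _root_.Complex.im w ≤ 0 := not_lt.mp hw
      have hw' : _root_.Complex.im (w + (h : ℝ)) ≤ 0 := by simpa using hw0
      simp only [comp_apply]
      rw [ofComplex_apply_of_im_nonpos hw', ofComplex_apply_of_im_nonpos hw0]
  · refine ⟨(-φ.order).toNat, ?_⟩
    set M := (-φ.order).toNat with hMdef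
    have hφ : ∀ n : ℤ, n < -(M : ℤ) → φ.coeff n = 0 := by
      intro n hn
      apply HahnSeries.coeff_eq_zero_of_lt_order
      have : -φ.order ≤ (M : ℤ) := by rw [hMdef]; exact Int.self_le_toNat _
      omega
    have hs' : ∀ τ : ℍ, HasSum (fun m : ℕ => φ.coeff ((m : ℤ) - M) •
        Function.Periodic.qParam (h : ℝ) (τ : ℂ) ^ m) ((f * qh h ^ M) τ) := by
      intro τ
      have := (hasSum_int_iff_nat _ M hφ _ (qh_ne_zero h τ) _).mp (hs τ)
      simpa [smul_eq_mul, qh_apply] using this
    exact isBoundedAtImInfty_of_hasSum_qExpansion (hpos h) hs'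

/-- Uniqueness of the Laurent expansion. -/
theorem qexpFun_eq_of_hasSum (hol : MDiff f) (φ : LaurentSeries ℂ)
    (hs : ∀ τ : ℍ, HasSum (fun n : ℤ => φ.coeff n * qh h τ ^ n) (f τ)) : qexpFun h f = φ := by
  have hf := IsMerInf.of_hasSum hol φ hs
  obtain ⟨M₀, hM₀⟩ := hf.bdd
  set M := max M₀ (-φ.order).toNat with hMdef
  have hM : IsBoundedAtImInfty (f * qh h ^ M) := IsMerInf.bdd_of_le (le_max_left _ _) hM₀
  have hφ : ∀ n : ℤ, n < -(M : ℤ) → φ.coeff n = 0 := by
    intro n hn
    apply HahnSeries.coeff_eq_zero_of_lt_order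
    have h1 : -φ.order ≤ ((-φ.order).toNat : ℤ) := Int.self_le_toNat _
    have h2 : ((-φ.order).toNat : ℤ) ≤ (M : ℤ) := by
      exact_mod_cast le_max_right M₀ (-φ.order).toNat
    omega
  have hs' : ∀ τ : ℍ, HasSum (fun m : ℕ => φ.coeff ((m : ℤ) - M) •
      Function.Periodic.qParam (h : ℝ) (τ : ℂ) ^ m) ((f * qh h ^ M) τ) := by
    intro τ
    have := (hasSum_int_iff_nat _ M hφ _ (qh_ne_zero h τ) _).mp (hs τ)
    simpa [smul_eq_mul, qh_apply] using this
  have hco := qExpansion_coeff_unique_fun h (hpos h)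
    (hf.isHolInf_mul_pow hM).hol.continuous (hf.isHolInf_mul_pow hM).analyticAt hs'
  rw [qexpFun_eq_lau hf hM]
  ext n
  by_cases hn : n < -(M : ℤ)
  · rw [lau_coeff_of_lt M f hn, hφ n hn]
  · rw [not_lt] at hn
    obtain ⟨m, rfl⟩ : ∃ m : ℕ, n = (m : ℤ) - M := ⟨(n + M).toNat, by
      rw [Int.toNat_of_nonneg (by omega)]; ring⟩
    rw [lau_coeff_natCast_sub, ← hco m]

end hasSum

/-- `HasQExp h f φ`: `f` is holomorphic on `ℍ`, `h`-periodic, meromorphic at `i∞` and `φ` is its
Laurent expansion in `q_h = exp (2 π i τ / h)`. -/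
def HasQExp (h : ℕ) (f : ℍ → ℂ) (φ : LaurentSeries ℂ) : Prop :=
  IsMerInf h f ∧ qexpFun h f = φ

namespace HasQExp

variable {h : ℕ} [NeZero h] {f g : ℍ → ℂ} {φ ψ : LaurentSeries ℂ}

lemma isMerInf (hf : HasQExp h f φ) : IsMerInf h f := hf.1

lemma qexpFun_eq (hf : HasQExp h f φ) : qexpFun h f = φ := hf.2

lemma mdiff (hf : HasQExp h f φ) : MDiff f := hf.1.hol

lemma of_isMerInf (hf : IsMerInf h f) : HasQExp h f (qexpFun h f) := ⟨hf, rfl⟩

lemma hasSum (hf : HasQExp h f φ) (τ : ℍ) :
    HasSum (fun n : ℤ => φ.coeff n * qh h τ ^ n) (f τ) := by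
  have := hasSum_qexpFun hf.1 τ
  rwa [hf.2] at this

lemma of_hasSum (hol : MDiff f)
    (hs : ∀ τ : ℍ, HasSum (fun n : ℤ => φ.coeff n * qh h τ ^ n) (f τ)) : HasQExp h f φ :=
  ⟨IsMerInf.of_hasSum hol φ hs, qexpFun_eq_of_hasSum hol φ hs⟩

lemma iff_hasSum (hol : MDiff f) :
    HasQExp h f φ ↔ ∀ τ : ℍ, HasSum (fun n : ℤ => φ.coeff n * qh h τ ^ n) (f τ) :=
  ⟨fun hf => hf.hasSum, of_hasSum hol⟩

lemma mul (hf : HasQExp h f φ) (hg : HasQExp h g ψ) : HasQExp h (f * g) (φ * ψ) :=
  ⟨hf.1.mul hg.1, by rw [qexpFun_mul hf.1 hg.1, hf.2, hg.2]⟩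

lemma add (hf : HasQExp h f φ) (hg : HasQExp h g ψ) : HasQExp h (f + g) (φ + ψ) :=
  ⟨hf.1.add hg.1, by rw [qexpFun_add hf.1 hg.1, hf.2, hg.2]⟩

lemma const (h : ℕ) [NeZero h] (c : ℂ) : HasQExp h (fun _ => c) (HahnSeries.C c) :=
  ⟨IsMerInf.const h c, qexpFun_const h c⟩

lemma one (h : ℕ) [NeZero h] : HasQExp h (1 : ℍ → ℂ) 1 := by
  have := const h 1
  rwa [_root_.map_one] at this

lemma zero (h : ℕ) [NeZero h] : HasQExp h (0 : ℍ → ℂ) 0 := by
  have := const h 0
  rwa [map_zero] at this

lemma neg (hf : HasQExp h f φ) : HasQExp h (-f) (-φ) := by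
  have := (const h (-1)).mul hf
  have e1 : (fun _ : ℍ => (-1 : ℂ)) * f = -f := by ext τ; simp
  have e2 : (HahnSeries.C (-1 : ℂ) : LaurentSeries ℂ) * φ = -φ := by
    rw [map_neg, _root_.map_one, neg_one_mul]
  rwa [e1, e2] at this

lemma sub (hf : HasQExp h f φ) (hg : HasQExp h g ψ) : HasQExp h (f - g) (φ - ψ) := by
  rw [sub_eq_add_neg, sub_eq_add_neg]; exact hf.add hg.neg

lemma pow (hf : HasQExp h f φ) (n : ℕ) : HasQExp h (f ^ n) (φ ^ n) := by
  induction n with
  | zero => simpa using one h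
  | succ n ih => rw [pow_succ, pow_succ]; exact ih.mul hf

/-- The expansion determines the function. -/
lemma eq_of_eq (hf : HasQExp h f φ) (hg : HasQExp h g φ) : f = g := by
  ext τ
  exact (hf.hasSum τ).unique (hg.hasSum τ)

/-- The function determines the expansion. -/
lemma unique (hf : HasQExp h f φ) (hg : HasQExp h f ψ) : φ = ψ := hf.2.symm.trans hg.2

lemma eq_zero_iff (hf : HasQExp h f φ) : φ = 0 ↔ f = 0 := by
  rw [← hf.2]; exact qexpFun_eq_zero_iff hf.1

lemma qexpInf_eq (hf : HasQExp h f φ) : qexpInf h ⟨f, hf.1⟩ = φ := hf.2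

end HasQExp

lemma hasQExp_qh (h : ℕ) [NeZero h] : HasQExp h (qh h) (HahnSeries.single 1 1) := by
  refine ⟨IsMerInf.of_isHolInf (IsHolInf.qh h), ?_⟩
  rw [qexpFun_of_isHolInf (IsHolInf.qh h), qExpansion_qh, HahnSeries.ofPowerSeries_X]

end Fermat.Agent.S24.H708

end
end
-- ===== PACK-END S24/Mod/H708QInf.lean

-- ===== PACK-BEGIN S20/Comb694/Orbits.lean
section








/-!
# Counting orbits of a cyclic group whose generator has prime order on a finite set

If `g ^ n` acts trivially on the finite set `X` and `n` is prime then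
`n * #(X / ⟨g⟩) = #X + (n - 1) * #Fix(g)`.
-/

set_option autoImplicit false

namespace Fermat.Agent.S20.Comb694

open MulAction Subgroup Function

variable {G X : Type*} [Group G] [MulAction G X]

lemma card_eq_sum_minimalPeriod [Fintype X] (g : G)
    [Fintype (orbitRel.Quotient (zpowers g) X)] :
    Fintype.card X
      = ∑ q : orbitRel.Quotient (zpowers g) X, minimalPeriod (g • ·) q.out := by
  have (q : orbitRel.Quotient (zpowers g) X) :
      Fintype (MulAction.orbit (zpowers g) q.out) := Fintype.ofFinite _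
  simp only [MulAction.minimalPeriod_eq_card]
  rw [← Fintype.card_sigma]
  exact Fintype.card_congr (MulAction.selfEquivSigmaOrbits (zpowers g) X)

lemma minimalPeriod_eq_of_prime (g : G) (n : ℕ) (hn : n.Prime) (hg : ∀ x : X, g ^ n • x = x)
    (x : X) [Decidable (g • x = x)] :
    minimalPeriod (g • ·) x = if g • x = x then 1 else n := by
  have hper : IsPeriodicPt (g • ·) n x := by
    rw [IsPeriodicPt, IsFixedPt, smul_iterate]
    exact hg x
  have hdvd := hper.minimalPeriod_dvd
  rcases (Nat.dvd_prime hn).mp hdvd with h1 | h2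
  · have hfix : g • x = x := minimalPeriod_eq_one_iff_isFixedPt.mp h1
    rw [h1, if_pos hfix]
  · have hfix : ¬ g • x = x := fun h => by
      have h1 : minimalPeriod (g • ·) x = 1 := minimalPeriod_eq_one_iff_isFixedPt.mpr h
      rw [h2] at h1
      exact hn.one_lt.ne' h1
    rw [h2, if_neg hfix]

lemma smul_eq_of_mem_orbit_zpowers_of_fixed (g : G) (x y : X) (hx : g • x = x)
    (hy : y ∈ MulAction.orbit (zpowers g) x) : y = x := by
  obtain ⟨⟨h, hh⟩, rfl⟩ := hy
  obtain ⟨k, rfl⟩ := Subgroup.mem_zpowers_iff.mp hh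
  exact fixedBy_subset_fixedBy_zpow X g k hx

/-- If `g ^ n` acts trivially on the finite set `X` (`n` prime), then
`n * #orbits = #X + (n - 1) * #Fix(g)`. -/
theorem prime_mul_card_orbits [Finite X] (g : G) (n : ℕ) (hn : n.Prime)
    (hg : ∀ x : X, g ^ n • x = x) :
    n * Nat.card (orbitRel.Quotient (zpowers g) X)
      = Nat.card X + (n - 1) * Nat.card (fixedBy X g) := by
  classical
  haveI := Fintype.ofFinite X
  haveI : Fintype (orbitRel.Quotient (zpowers g) X) := Fintype.ofFinite _
  have h1 := card_eq_sum_minimalPeriod (X := X) g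
  simp only [minimalPeriod_eq_of_prime g n hn hg] at h1
  rw [Finset.sum_ite, Finset.sum_const, Finset.sum_const, smul_eq_mul, mul_one,
    smul_eq_mul] at h1
  have h2 : (Finset.univ.filter
      (fun q : orbitRel.Quotient (zpowers g) X => g • q.out = q.out)).card
        = Nat.card (fixedBy X g) := by
    rw [← Fintype.card_subtype, ← Nat.card_eq_fintype_card]
    refine Nat.card_eq_of_bijective
      (fun q : {q : orbitRel.Quotient (zpowers g) X // g • q.out = q.out} =>
        (⟨q.1.out, q.2⟩ : fixedBy X g)) ⟨?_, ?_⟩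
    · intro q q' h
      have h' : q.1.out = q'.1.out := congrArg Subtype.val h
      exact Subtype.ext (Quotient.out_injective h')
    · rintro ⟨x, hx⟩
      have hx' : g • x = x := hx
      have hout : (Quotient.mk'' x : orbitRel.Quotient (zpowers g) X).out = x := by
        apply smul_eq_of_mem_orbit_zpowers_of_fixed g x _ hx'
        have := Quotient.exact (Quotient.out_eq (Quotient.mk'' x : orbitRel.Quotient (zpowers g) X))
        exact (MulAction.orbitRel_apply).mp this
      refine ⟨⟨Quotient.mk'' x, ?_⟩, ?_⟩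
      · rw [hout]; exact hx'
      · exact Subtype.ext hout
  have h3 := Finset.card_filter_add_card_filter_not (s := (Finset.univ :
      Finset (orbitRel.Quotient (zpowers g) X)))
      (fun q : orbitRel.Quotient (zpowers g) X => g • q.out = q.out)
  rw [Finset.card_univ] at h3
  rw [Nat.card_eq_fintype_card, Nat.card_eq_fintype_card, ← h3, h1, ← h2]
  obtain ⟨m, rfl⟩ : ∃ m, n = m + 1 := ⟨n - 1, (Nat.succ_pred_eq_of_pos hn.pos).symm⟩
  simp only [Nat.add_sub_cancel]
  ring

end Fermat.Agent.S20.Comb694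

end
-- ===== PACK-END S20/Comb694/Orbits.lean

-- ===== PACK-BEGIN S29/H455/KummerCorr.lean
section


/-!
# Kummer classes in `Pic⁰` and correspondences (Prelude language)

`IsKummerClass n f x` : the class `x ∈ Pic⁰(F)` is represented by a degree-zero divisor `D` with
`n • D = div f`.  Main results:

* `exists_isKummerClass_of_zsmul_eq_zero` : every `n`-torsion class is a Kummer class;
* `IsKummerClass.unique`, `.add`, `.neg`, `.mul_pow`, `.eq_zero_iff` ;
* `IsKummerClass.correspondence` : the correspondence `ψ_* φ^*` (Prelude `Pic0.correspondence`,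
  e.g. the Hecke operator `T_ℓ = α_* β^*`) sends the Kummer class of `f` to the Kummer class of
  `Norm_ψ (φ f)`;
* `IsKummerClass.smul` : semilinear automorphisms send the Kummer class of `f` to that of `g • f`.
-/

set_option autoImplicit false
set_option linter.style.haveILetI false
set_option linter.unusedSectionVars false

noncomputable section

namespace Fermat.Agent.S29.H455

open AlgebraicCurve

variable {K F F' : Type*} [Field K] [Field F] [Field F'] [Algebra K F] [Algebra K F']

/-- The norm along an algebra homomorphism `ψ : F → F'` (Prelude `algebraAlong`). -/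
def normAlong (ψ : F →ₐ[K] F') (y : F') : F :=
  letI := algebraAlong ψ
  Algebra.norm F y

theorem normAlong_ne_zero (ψ : F →ₐ[K] F') (hfin : FiniteAlong K ψ) {y : F'} (hy : y ≠ 0) :
    normAlong ψ y ≠ 0 := by
  letI := algebraAlong ψ
  haveI : Module.Finite F F' := hfin
  exact Algebra.norm_ne_zero_iff.mpr hy

theorem normAlong_mul (ψ : F →ₐ[K] F') (y z : F') :
    normAlong ψ (y * z) = normAlong ψ y * normAlong ψ z := by
  letI := algebraAlong ψ
  exact map_mul (Algebra.norm F) y z

theorem normAlong_pow (ψ : F →ₐ[K] F') (y : F') (n : ℕ) :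
    normAlong ψ (y ^ n) = normAlong ψ y ^ n := by
  letI := algebraAlong ψ
  exact map_pow (Algebra.norm F) y n

section Divisors

variable [HasPrincipalDivisors K F']
variable (φ ψ : F →ₐ[K] F') (hφ : φ.toRingHom.IsIntegral) (hψ : ψ.toRingHom.IsIntegral)

theorem pullbackAlong_apply_of_ord {f : F} {D : Divisor K F}
    (hD : ∀ v : Place K F, D v = v.ord f) (w : Place K F') :
    Divisor.pullbackAlong φ hφ D w = w.ord (φ f) := by
  letI := algebraAlong φ
  haveI := isScalarTower_along φ
  haveI := isIntegral_along φ hφ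
  exact Divisor.pullback_apply_eq_ord hD w

theorem pushforwardAlong_apply_of_ord (hfin : FiniteAlong K ψ) (hN : NormFormulaAlong K ψ hfin)
    {g : F'} (hg : g ≠ 0) {D : Divisor K F'} (hD : ∀ w : Place K F', D w = w.ord g)
    (v : Place K F) :
    Divisor.pushforwardAlong ψ hψ D v = v.ord (normAlong ψ g) := by
  letI := algebraAlong ψ
  haveI := isScalarTower_along ψ
  haveI := isIntegral_along ψ hψ
  haveI : Module.Finite F F' := hfin
  exact hN g hg D hD v

/-- The correspondence `ψ_* φ^*` sends `div f` to `div (Norm_ψ (φ f))`. -/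
theorem correspondence_apply_of_ord (hfin : FiniteAlong K ψ) (hN : NormFormulaAlong K ψ hfin)
    {f : F} (hf : f ≠ 0) {D : Divisor K F} (hD : ∀ v : Place K F, D v = v.ord f)
    (v : Place K F) :
    Divisor.correspondence φ ψ hφ hψ D v = v.ord (normAlong ψ (φ f)) := by
  rw [Divisor.correspondence_apply]
  refine pushforwardAlong_apply_of_ord ψ hψ hfin hN ?_ (fun w => ?_) v
  · exact (map_ne_zero φ).mpr hf
  · exact pullbackAlong_apply_of_ord φ hφ hD w

/-- If `n • D = div f` then `n • (ψ_* φ^* D) = div (Norm_ψ (φ f))`. -/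
theorem correspondence_kummer (hfin : FiniteAlong K ψ) (hN : NormFormulaAlong K ψ hfin)
    {n : ℤ} {f : F} (hf : f ≠ 0) {D : Divisor K F}
    (hD : ∀ v : Place K F, n * D v = v.ord f) (v : Place K F) :
    n * Divisor.correspondence φ ψ hφ hψ D v = v.ord (normAlong ψ (φ f)) := by
  have h := correspondence_apply_of_ord φ ψ hφ hψ hfin hN hf (D := n • D)
    (fun v => by rw [Finsupp.smul_apply, smul_eq_mul, hD]) v
  rw [map_zsmul, Finsupp.smul_apply, smul_eq_mul] at h
  exact h

end Divisors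

/-! ### The Kummer relation -/

/-- `x` is the `n`-Kummer class of `f`: `x = [D]` with `D` of degree zero and `n • D = div f`. -/
def IsKummerClass (n : ℤ) (f : F) (x : Pic0 K F) : Prop :=
  f ≠ 0 ∧ ∃ D : Divisor.degZero (K := K) (F := F),
    Pic0.mk D = x ∧ ∀ v : Place K F, n * (D : Divisor K F) v = v.ord f

namespace IsKummerClass

variable {n : ℤ} {f g : F} {x y : Pic0 K F}

theorem ne_zero (h : IsKummerClass n f x) : f ≠ 0 := h.1

/-- A Kummer class is `n`-torsion. -/
theorem zsmul_eq_zero (h : IsKummerClass n f x) : n • x = 0 := by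
  obtain ⟨hf, D, rfl, hD⟩ := h
  have h1 : n • Pic0.mk D = Pic0.mk (n • D) := rfl
  rw [h1]
  refine (QuotientAddGroup.eq_zero_iff _).mpr ?_
  rw [AddSubgroup.mem_addSubgroupOf]
  refine ⟨f, hf, fun v => ?_⟩
  rw [← hD v]
  simp

theorem add (hx : IsKummerClass n f x) (hy : IsKummerClass n g y) :
    IsKummerClass n (f * g) (x + y) := by
  obtain ⟨hf, D, rfl, hD⟩ := hx
  obtain ⟨hg, E, rfl, hE⟩ := hy
  refine ⟨mul_ne_zero hf hg, D + E, rfl, fun v => ?_⟩
  rw [Place.ord_mul v hf hg, ← hD v, ← hE v]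
  simp [mul_add]

theorem neg (hx : IsKummerClass n f x) : IsKummerClass n f⁻¹ (-x) := by
  obtain ⟨hf, D, rfl, hD⟩ := hx
  refine ⟨inv_ne_zero hf, -D, rfl, fun v => ?_⟩
  rw [Place.ord_inv, ← hD v]
  simp

theorem zero : IsKummerClass n (1 : F) (0 : Pic0 K F) :=
  ⟨one_ne_zero, 0, rfl, fun v => by simp⟩

/-- Changing `f` by an `n`-th power changes the divisor by a principal divisor. -/
theorem mul_zpow [HasPrincipalDivisors K F] (hx : IsKummerClass n f x) (hg : g ≠ 0) :
    IsKummerClass n (f * g ^ n) x := by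
  obtain ⟨hf, D, rfl, hD⟩ := hx
  obtain ⟨E, hE, hE0⟩ := HasPrincipalDivisors.exists_divisor (K := K) g hg
  refine ⟨mul_ne_zero hf (zpow_ne_zero n hg), D + ⟨E, hE0⟩, ?_, fun v => ?_⟩
  · rw [Pic0.mk_add]
    have : Pic0.mk (⟨E, hE0⟩ : Divisor.degZero (K := K) (F := F)) = 0 := by
      refine (QuotientAddGroup.eq_zero_iff _).mpr ?_
      rw [AddSubgroup.mem_addSubgroupOf]
      exact ⟨g, hg, hE⟩
    rw [this, add_zero]
  · rw [Place.ord_mul v hf (zpow_ne_zero n hg), Place.ord_zpow, ← hD v]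
    simp [mul_add, hE v]

/-- The Kummer class of `f` is unique (for `n ≠ 0`). -/
theorem unique (hn : n ≠ 0) (hx : IsKummerClass n f x) (hy : IsKummerClass n f y) : x = y := by
  obtain ⟨-, D, rfl, hD⟩ := hx
  obtain ⟨-, E, rfl, hE⟩ := hy
  congr 1
  apply Subtype.ext
  apply Finsupp.ext
  intro v
  have := (hD v).trans (hE v).symm
  exact mul_left_cancel₀ hn this

/-- The Kummer class of `f` vanishes iff `div f = n • div g` for some `g`. -/
theorem eq_zero_iff (hn : n ≠ 0) (hx : IsKummerClass n f x) :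
    x = 0 ↔ ∃ g : F, g ≠ 0 ∧ ∀ v : Place K F, v.ord f = n * v.ord g := by
  obtain ⟨hf, D, rfl, hD⟩ := hx
  constructor
  · intro h
    have h1 := (QuotientAddGroup.eq_zero_iff _).mp h
    rw [AddSubgroup.mem_addSubgroupOf] at h1
    obtain ⟨g, hg, hDg⟩ := h1
    exact ⟨g, hg, fun v => by rw [← hD v, hDg v]⟩
  · rintro ⟨g, hg, hfg⟩
    refine (QuotientAddGroup.eq_zero_iff _).mpr ?_
    rw [AddSubgroup.mem_addSubgroupOf]
    refine ⟨g, hg, fun v => ?_⟩
    have := (hD v).trans (hfg v)
    exact mul_left_cancel₀ hn this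

/-- **Correspondences on Kummer classes**: `ψ_* φ^*` sends the Kummer class of `f` to the
Kummer class of `Norm_ψ (φ f)`. -/
theorem correspondence [HasPrincipalDivisors K F'] (φ ψ : F →ₐ[K] F')
    (hφ : φ.toRingHom.IsIntegral) (hψ : ψ.toRingHom.IsIntegral)
    (hFI : FundamentalIdentityAlong K φ hφ) (hfin : FiniteAlong K ψ)
    (hN : NormFormulaAlong K ψ hfin) (hx : IsKummerClass n f x) :
    IsKummerClass n (normAlong ψ (φ f)) (Pic0.correspondence φ ψ hφ hψ hFI hfin hN x) := by
  obtain ⟨hf, D, rfl, hD⟩ := hx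
  refine ⟨normAlong_ne_zero ψ hfin ((map_ne_zero φ).mpr hf),
    Pic0.degZeroCorrespondence φ ψ hφ hψ hFI D, (Pic0.correspondence_mk _ _ _ _ _ _ _ D).symm,
    fun v => ?_⟩
  rw [Pic0.coe_degZeroCorrespondence]
  exact correspondence_kummer φ ψ hφ hψ hfin hN hf hD v

/-- **Semilinear automorphisms on Kummer classes**. -/
theorem smul (σ : SemilinearAut K F) (hx : IsKummerClass n f x) :
    IsKummerClass n (σ • f) (σ • x) := by
  obtain ⟨hf, D, rfl, hD⟩ := hx
  refine ⟨?_, SemilinearAut.degZeroSMulHom σ D, (SemilinearAut.pic0_smul_mk σ D).symm,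
    fun v => ?_⟩
  · rw [SemilinearAut.smul_def]
    exact (map_ne_zero _).mpr hf
  · rw [SemilinearAut.coe_degZeroSMulHom, SemilinearAut.divisor_smul_apply, hD (σ⁻¹ • v)]
    have h := SemilinearAut.ord_smul σ (σ⁻¹ • v) f
    rw [smul_inv_smul] at h
    exact h.symm

end IsKummerClass

/-- Every `n`-torsion class is a Kummer class. -/
theorem exists_isKummerClass_of_zsmul_eq_zero {n : ℤ} {x : Pic0 K F} (hx : n • x = 0) :
    ∃ f : F, IsKummerClass n f x := by
  obtain ⟨D, rfl⟩ := Pic0.mk_surjective x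
  have h1 : n • Pic0.mk D = Pic0.mk (n • D) := rfl
  rw [h1] at hx
  have h2 := (QuotientAddGroup.eq_zero_iff _).mp hx
  rw [AddSubgroup.mem_addSubgroupOf] at h2
  obtain ⟨f, hf, hDf⟩ := h2
  refine ⟨f, hf, D, rfl, fun v => ?_⟩
  rw [← hDf v]
  simp

end Fermat.Agent.S29.H455

end
end
-- ===== PACK-END S29/H455/KummerCorr.lean

-- ===== PACK-BEGIN S24/H324/Laurent.lean
section




/-!
# S24 / ALG (helper324) — Laurent series: "vanishing below `N`" calculus

`VanishBelow N A` says that all coefficients of `A` of index `< N` vanish.  This is a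
junk-free replacement of `N ≤ A.order` (which misbehaves for `A = 0`).
-/

set_option autoImplicit false

namespace Fermat.Agent.S24.H324

open HahnSeries

variable {C : Type*} [Field C]

/-- All coefficients of index `< N` vanish. -/
def VanishBelow (N : ℤ) (A : LaurentSeries C) : Prop := ∀ i : ℤ, i < N → A.coeff i = 0

theorem vanishBelow_zero (N : ℤ) : VanishBelow N (0 : LaurentSeries C) := fun _ _ => rfl

theorem VanishBelow.mono {N M : ℤ} {A : LaurentSeries C} (h : VanishBelow N A) (hMN : M ≤ N) :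
    VanishBelow M A := fun i hi => h i (lt_of_lt_of_le hi hMN)

theorem VanishBelow.add {N : ℤ} {A B : LaurentSeries C} (hA : VanishBelow N A)
    (hB : VanishBelow N B) : VanishBelow N (A + B) := fun i hi => by
  rw [coeff_add, hA i hi, hB i hi, add_zero]

theorem VanishBelow.neg {N : ℤ} {A : LaurentSeries C} (hA : VanishBelow N A) :
    VanishBelow N (-A) := fun i hi => by
  rw [coeff_neg, hA i hi, neg_zero]

theorem VanishBelow.sub {N : ℤ} {A B : LaurentSeries C} (hA : VanishBelow N A)
    (hB : VanishBelow N B) : VanishBelow N (A - B) := fun i hi => by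
  rw [coeff_sub, hA i hi, hB i hi, sub_zero]

theorem vanishBelow_order (A : LaurentSeries C) : VanishBelow A.order A :=
  fun _ hi => coeff_eq_zero_of_lt_order hi

theorem vanishBelow_of_le_order {N : ℤ} {A : LaurentSeries C} (h : N ≤ A.order) :
    VanishBelow N A := (vanishBelow_order A).mono h

theorem VanishBelow.le_order {N : ℤ} {A : LaurentSeries C} (h : VanishBelow N A) (hA : A ≠ 0) :
    N ≤ A.order := by
  by_contra hlt
  exact hA (coeff_order_eq_zero.mp (h _ (lt_of_not_ge hlt)))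

theorem vanishBelow_iff {N : ℤ} {A : LaurentSeries C} (hA : A ≠ 0) :
    VanishBelow N A ↔ N ≤ A.order :=
  ⟨fun h => h.le_order hA, vanishBelow_of_le_order⟩

theorem VanishBelow.mul {N M : ℤ} {A B : LaurentSeries C} (hA : VanishBelow N A)
    (hB : VanishBelow M B) : VanishBelow (N + M) (A * B) := by
  rcases eq_or_ne A 0 with rfl | hA0
  · rw [zero_mul]; exact vanishBelow_zero _
  rcases eq_or_ne B 0 with rfl | hB0
  · rw [mul_zero]; exact vanishBelow_zero _
  apply vanishBelow_of_le_order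
  rw [order_mul hA0 hB0]
  exact add_le_add (hA.le_order hA0) (hB.le_order hB0)

/-- Cancellation of a nonzero factor. -/
theorem VanishBelow.of_mul_right {N : ℤ} {A B : LaurentSeries C} (hB : B ≠ 0)
    (h : VanishBelow N (A * B)) : VanishBelow (N - B.order) A := by
  rcases eq_or_ne A 0 with rfl | hA0
  · exact vanishBelow_zero _
  apply vanishBelow_of_le_order
  have := h.le_order (mul_ne_zero hA0 hB)
  rw [order_mul hA0 hB] at this
  omega

theorem eq_zero_of_forall_vanishBelow {A : LaurentSeries C}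
    (h : ∀ N : ℕ, VanishBelow (N : ℤ) A) : A = 0 := by
  ext i
  have := h (i + 1).toNat i (by omega)
  simpa using this

theorem vanishBelow_sum {ι : Type*} (s : Finset ι) (N : ℤ) (A : ι → LaurentSeries C)
    (h : ∀ i ∈ s, VanishBelow N (A i)) : VanishBelow N (∑ i ∈ s, A i) := by
  classical
  induction s using Finset.induction_on with
  | empty => simpa using vanishBelow_zero N
  | insert a s ha ih =>
    rw [Finset.sum_insert ha]
    exact (h a (Finset.mem_insert_self a s)).add
      (ih fun i hi => h i (Finset.mem_insert_of_mem hi))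

theorem coeff_sum' {ι : Type*} (s : Finset ι) (A : ι → LaurentSeries C) (n : ℤ) :
    (∑ i ∈ s, A i).coeff n = ∑ i ∈ s, (A i).coeff n := by
  classical
  induction s using Finset.induction_on with
  | empty => simp
  | insert a s ha ih => rw [Finset.sum_insert ha, Finset.sum_insert ha, coeff_add, ih]

theorem leadingCoeff_pow' (A : LaurentSeries C) (n : ℕ) :
    (A ^ n).leadingCoeff = A.leadingCoeff ^ n := by
  induction n with
  | zero => simp
  | succ n ih => rw [pow_succ, pow_succ, leadingCoeff_mul, ih]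

theorem order_pow' (A : LaurentSeries C) (n : ℕ) : (A ^ n).order = n * A.order := by
  rw [order_pow, nsmul_eq_mul]

/-- The "geometric sum" `∑_{l<e} P^l Q^(e-1-l)` of two series with the same order `g` and the
same leading coefficient is nonzero of order `g (e - 1)` (characteristic zero). -/
theorem geomSum_ne_zero_and_order [CharZero C] {P Q : LaurentSeries C} {g : ℤ}
    (hP0 : P ≠ 0) (hQ0 : Q ≠ 0) (hP : P.order = g) (hQ : Q.order = g)
    (hlc : P.leadingCoeff = Q.leadingCoeff) (e : ℕ) (he : 0 < e) :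
    (∑ l ∈ Finset.range e, P ^ l * Q ^ (e - 1 - l)) ≠ 0 ∧
      (∑ l ∈ Finset.range e, P ^ l * Q ^ (e - 1 - l)).order = g * ((e : ℤ) - 1) := by
  set S := ∑ l ∈ Finset.range e, P ^ l * Q ^ (e - 1 - l) with hS
  have hterm_ne : ∀ l, P ^ l * Q ^ (e - 1 - l) ≠ 0 := fun l =>
    mul_ne_zero (pow_ne_zero _ hP0) (pow_ne_zero _ hQ0)
  have hterm_ord : ∀ l ∈ Finset.range e, (P ^ l * Q ^ (e - 1 - l)).order = g * ((e : ℤ) - 1) := by
    intro l hl
    have hl' : l < e := Finset.mem_range.mp hl
    rw [order_mul (pow_ne_zero _ hP0) (pow_ne_zero _ hQ0), order_pow', order_pow', hP, hQ]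
    have : ((e - 1 - l : ℕ) : ℤ) = (e : ℤ) - 1 - l := by omega
    rw [this]; ring
  have hterm_lc : ∀ l ∈ Finset.range e,
      (P ^ l * Q ^ (e - 1 - l)).coeff (g * ((e : ℤ) - 1)) = P.leadingCoeff ^ (e - 1) := by
    intro l hl
    have hl' : l < e := Finset.mem_range.mp hl
    rw [← hterm_ord l hl, ← leadingCoeff_eq, leadingCoeff_mul, leadingCoeff_pow',
      leadingCoeff_pow', ← hlc, ← _root_.pow_add]
    congr 1
    omega
  have hcoeff : S.coeff (g * ((e : ℤ) - 1)) = (e : C) * P.leadingCoeff ^ (e - 1) := by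
    rw [hS, coeff_sum', Finset.sum_congr rfl hterm_lc, Finset.sum_const, Finset.card_range,
      nsmul_eq_mul]
  have hne : S.coeff (g * ((e : ℤ) - 1)) ≠ 0 := by
    rw [hcoeff]
    refine mul_ne_zero (Nat.cast_ne_zero.mpr he.ne') (pow_ne_zero _ ?_)
    exact leadingCoeff_ne_zero.mpr hP0
  have hS0 : S ≠ 0 := by
    intro h
    rw [h] at hne
    exact hne rfl
  refine ⟨hS0, le_antisymm (order_le_of_coeff_ne_zero hne) ?_⟩
  have hV : VanishBelow (g * ((e : ℤ) - 1)) S :=
    vanishBelow_sum _ _ _ fun l hl => vanishBelow_of_le_order (hterm_ord l hl).ge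
  exact hV.le_order hS0

end Fermat.Agent.S24.H324

end
-- ===== PACK-END S24/H324/Laurent.lean

-- ===== PACK-BEGIN S28/H145/PowIndep.lean
section



/-!
# Leaf [L.I] of the S28 plan

If `x` is a Laurent series whose order is prime to `p`, then `1, x, …, x^(p-1)` are linearly
independent over (any subring of) the range of `V_p = qExpand k p`.
-/

set_option autoImplicit false

noncomputable section

open ModularCurve HahnSeries

namespace Fermat.Agent.S28.H145

variable {k : Type*} [Field k]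

/-- A finite sum of nonzero Laurent series with pairwise distinct orders is nonzero. -/
theorem sum_ne_zero_of_injOn_order {ι : Type*} (s : Finset ι) (t : ι → LaurentSeries k)
    (hs : s.Nonempty) (h0 : ∀ i ∈ s, t i ≠ 0)
    (hinj : Set.InjOn (fun i => (t i).order) (s : Set ι)) : ∑ i ∈ s, t i ≠ 0 := by
  classical
  obtain ⟨i₀, hi₀, hmin⟩ := Finset.exists_min_image s (fun i => (t i).order) hs
  intro hsum
  have hc : (∑ i ∈ s, t i).coeff (t i₀).order = (t i₀).coeff (t i₀).order := by
    rw [HahnSeries.coeff_sum]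
    refine Finset.sum_eq_single_of_mem i₀ hi₀ ?_
    intro i hi hne
    refine HahnSeries.coeff_eq_zero_of_lt_order ?_
    refine lt_of_le_of_ne (hmin i hi) ?_
    intro h
    exact hne (hinj hi hi₀ h.symm)
  rw [hsum] at hc
  exact h0 i₀ hi₀ (HahnSeries.coeff_order_eq_zero.mp hc.symm)

/-- The order of a nonzero element of the range of `qExpand k p` is divisible by `p`. -/
theorem dvd_order_qExpand (p : ℕ) [NeZero p] (z : LaurentSeries k) :
    (p : ℤ) ∣ (qExpand k p z).order := by
  by_cases hz : qExpand k p z = 0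
  · rw [hz, HahnSeries.order_zero]; exact dvd_zero _
  · by_contra h
    exact hz (HahnSeries.coeff_order_eq_zero.mp (qExpand_coeff_of_not_dvd p z h))

/-- **[L.I], core form.** If `p ∤ ord x`... more precisely if `ord x` is prime to `p`, a relation
`∑_{i<p} V_p(c i) * x^i = 0` forces all `c i = 0`. -/
theorem eq_zero_of_sum_qExpand_mul_pow_eq_zero (p : ℕ) [NeZero p] (x : LaurentSeries k)
    (hx : x ≠ 0) (hord : IsCoprime x.order (p : ℤ)) (c : Fin p → LaurentSeries k)
    (h : ∑ i : Fin p, qExpand k p (c i) * x ^ (i : ℕ) = 0) : ∀ i, c i = 0 := by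
  classical
  by_contra hne
  push Not at hne
  set s : Finset (Fin p) := Finset.univ.filter (fun i => c i ≠ 0) with hs
  have hsne : s.Nonempty := by
    obtain ⟨i, hi⟩ := hne
    exact ⟨i, by simp [hs, hi]⟩
  have hterm : ∀ i ∈ s, qExpand k p (c i) * x ^ (i : ℕ) ≠ 0 := by
    intro i hi
    have hci : c i ≠ 0 := by simpa [hs] using hi
    exact mul_ne_zero (fun h0 => hci (qExpand_injective p (by rw [h0, map_zero])))
      (pow_ne_zero _ hx)
  have hordterm : ∀ i ∈ s, (qExpand k p (c i) * x ^ (i : ℕ)).order =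
      (qExpand k p (c i)).order + (i : ℕ) * x.order := by
    intro i hi
    have hci : c i ≠ 0 := by simpa [hs] using hi
    have h1 : qExpand k p (c i) ≠ 0 := fun h0 => hci (qExpand_injective p (by rw [h0, map_zero]))
    rw [HahnSeries.order_mul h1 (pow_ne_zero _ hx), HahnSeries.order_pow, nsmul_eq_mul]
  have hsum : ∑ i ∈ s, qExpand k p (c i) * x ^ (i : ℕ) = 0 := by
    rw [← h]
    refine Finset.sum_subset (Finset.subset_univ _) ?_
    intro i _ hi
    have hci : c i = 0 := by simpa [hs] using hi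
    rw [hci, map_zero, zero_mul]
  refine sum_ne_zero_of_injOn_order s _ hsne hterm ?_ hsum
  intro i hi j hj hij
  simp only at hij
  rw [hordterm i hi, hordterm j hj] at hij
  -- reduce modulo `p`
  obtain ⟨a, ha⟩ := dvd_order_qExpand p (c i)
  obtain ⟨b, hb⟩ := dvd_order_qExpand p (c j)
  rw [ha, hb] at hij
  have hdvd : (p : ℤ) ∣ ((i : ℕ) - (j : ℕ) : ℤ) * x.order := ⟨b - a, by linear_combination hij⟩
  have hdvd' : (p : ℤ) ∣ ((i : ℕ) : ℤ) - (j : ℕ) := hord.symm.dvd_of_dvd_mul_right hdvd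
  have hi' : ((i : ℕ) : ℤ) < p := by exact_mod_cast i.2
  have hj' : ((j : ℕ) : ℤ) < p := by exact_mod_cast j.2
  have hi0 : (0 : ℤ) ≤ ((i : ℕ) : ℤ) := Int.natCast_nonneg _
  have hj0 : (0 : ℤ) ≤ ((j : ℕ) : ℤ) := Int.natCast_nonneg _
  have : ((i : ℕ) : ℤ) - (j : ℕ) = 0 := by
    apply Int.eq_zero_of_abs_lt_dvd hdvd'
    rw [abs_lt]
    constructor <;> linarith
  exact Fin.ext (by exact_mod_cast sub_eq_zero.mp this)

/-- **[L.I].** If `B` is a subfield of `k((q))` contained in the range of `V_p` and `ord x` is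
prime to `p`, then `1, x, …, x^(p-1)` are linearly independent over `B`. -/
theorem linearIndependent_pow_of_le_range (p : ℕ) [NeZero p] (B : Subfield (LaurentSeries k))
    (hB : ∀ b ∈ B, b ∈ (qExpand k p).range) (x : LaurentSeries k)
    (hx : x ≠ 0) (hord : IsCoprime x.order (p : ℤ)) :
    LinearIndependent B (fun i : Fin p => x ^ (i : ℕ)) := by
  rw [Fintype.linearIndependent_iff]
  intro g hg i
  choose c hc using fun i => hB (g i) (g i).2
  have h : ∑ i : Fin p, qExpand k p (c i) * x ^ (i : ℕ) = 0 := by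
    rw [← hg]
    refine Finset.sum_congr rfl fun i _ => ?_
    rw [hc i]
    rfl
  have := eq_zero_of_sum_qExpand_mul_pow_eq_zero p x hx hord c h i
  apply Subtype.ext
  rw [← hc i, this, map_zero]
  rfl

/-- Polynomial form of [L.I]: a polynomial of degree `< p` with coefficients in the range of
`V_p` that kills `x` (with `ord x` prime to `p`) is zero. -/
theorem eq_zero_of_eval_eq_zero_of_natDegree_lt (p : ℕ) [NeZero p] (x : LaurentSeries k)
    (hx : x ≠ 0) (hord : IsCoprime x.order (p : ℤ)) (f : Polynomial (LaurentSeries k))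
    (hf : ∀ n, f.coeff n ∈ (qExpand k p).range) (hdeg : f.natDegree < p)
    (h : f.eval x = 0) : f = 0 := by
  choose c hc using hf
  have hsum : ∑ i : Fin p, qExpand k p (c i) * x ^ (i : ℕ) = 0 := by
    rw [← h, Polynomial.eval_eq_sum_range' hdeg, ← Fin.sum_univ_eq_sum_range
      (fun i => f.coeff i * x ^ i) p]
    refine Finset.sum_congr rfl fun i _ => ?_
    rw [hc]
  have hall := eq_zero_of_sum_qExpand_mul_pow_eq_zero p x hx hord (fun i => c i) hsum
  ext n
  by_cases hn : n < p
  · have := hall ⟨n, hn⟩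
    simp only at this
    rw [← hc n, this, map_zero, Polynomial.coeff_zero]
  · rw [Polynomial.coeff_eq_zero_of_natDegree_lt (lt_of_lt_of_le hdeg (not_lt.mp hn)),
      Polynomial.coeff_zero]

end Fermat.Agent.S28.H145

end

end
-- ===== PACK-END S28/H145/PowIndep.lean

-- ===== PACK-BEGIN S28/H626/Twist.lean
section
/-
S28 helper (helper626): twists `t ↦ c t` of Laurent series, the family `j(ξ tⁿ)`,
and transport of two-variable integral polynomial relations along ring homomorphisms.
Mathlib + Prelude only.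
-/



set_option autoImplicit false

noncomputable section

open ModularCurve HahnSeries Polynomial

namespace Fermat.Agent.S28.H626

/-! ### Twist `t ↦ c t` -/

section Twist

variable {R : Type*} [CommRing R]

theorem coeff_mul_of_support_subset {x y : LaurentSeries R} {a : ℤ} {s t : Set ℤ}
    (hs : s.IsPWO) (ht : t.IsPWO) (hxs : x.support ⊆ s) (hyt : y.support ⊆ t) :
    (x * y).coeff a =
      ∑ ij ∈ Finset.antidiagonal hs ht a, x.coeff ij.fst * y.coeff ij.snd := by
  rw [HahnSeries.coeff_mul_left' hs hxs]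
  refine Finset.sum_subset (Finset.antidiagonal_mono_right hyt) ?_
  intro ij hij hnot
  have hj : ij.2 ∉ y.support := by
    intro hj
    apply hnot
    rw [Finset.mem_antidiagonal] at hij ⊢
    exact ⟨hij.1, hj, hij.2.2⟩
  simp only [HahnSeries.mem_support, not_not] at hj
  rw [hj, mul_zero]

/-- underlying function of `twist` -/
def twistFun (c : Rˣ) (φ : LaurentSeries R) : LaurentSeries R where
  coeff n := ((c ^ n : Rˣ) : R) * φ.coeff n
  isPWO_support' := φ.isPWO_support.mono fun n hn => by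
    simp only [Function.mem_support, ne_eq] at hn
    simp only [HahnSeries.mem_support, ne_eq]
    intro h
    exact hn (by rw [h, mul_zero])

@[simp] theorem twistFun_coeff (c : Rˣ) (φ : LaurentSeries R) (n : ℤ) :
    (_root_.Fermat.Agent.S28.H626.twistFun c φ).coeff n = ((c ^ n : Rˣ) : R) * φ.coeff n := rfl

theorem twistFun_support (c : Rˣ) (φ : LaurentSeries R) :
    (_root_.Fermat.Agent.S28.H626.twistFun c φ).support ⊆ φ.support := by
  intro m hm
  simp only [HahnSeries.mem_support, _root_.Fermat.Agent.S28.H626.twistFun_coeff] at hm ⊢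
  intro h0
  exact hm (by rw [h0, mul_zero])

/-- The substitution `t ↦ c t` on Laurent series, for a unit `c`:
`(twist c φ).coeff n = c ^ n * φ.coeff n`. -/
def twist (c : Rˣ) : LaurentSeries R →+* LaurentSeries R where
  toFun := _root_.Fermat.Agent.S28.H626.twistFun c
  map_zero' := by ext n; simp
  map_one' := by
    ext n
    by_cases h : n = 0
    · subst h; simp
    · simp [HahnSeries.coeff_one, h]
  map_add' φ ψ := by ext n; simp [mul_add]
  map_mul' φ ψ := by
    ext n
    rw [coeff_mul_of_support_subset φ.isPWO_support ψ.isPWO_support (_root_.Fermat.Agent.S28.H626.twistFun_support c φ)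
      (_root_.Fermat.Agent.S28.H626.twistFun_support c ψ)]
    simp only [_root_.Fermat.Agent.S28.H626.twistFun_coeff, HahnSeries.coeff_mul, Finset.mul_sum]
    refine Finset.sum_congr rfl ?_
    intro ij hij
    rw [Finset.mem_antidiagonal] at hij
    rw [← hij.2.2, zpow_add, Units.val_mul]
    ring

@[simp] theorem twist_coeff (c : Rˣ) (φ : LaurentSeries R) (n : ℤ) :
    (_root_.Fermat.Agent.S28.H626.twist c φ).coeff n = ((c ^ n : Rˣ) : R) * φ.coeff n := rfl

theorem twist_one_apply (φ : LaurentSeries R) : _root_.Fermat.Agent.S28.H626.twist (1 : Rˣ) φ = φ := by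
  ext n; simp

theorem twist_twist (c d : Rˣ) (φ : LaurentSeries R) :
    _root_.Fermat.Agent.S28.H626.twist c (_root_.Fermat.Agent.S28.H626.twist d φ) = _root_.Fermat.Agent.S28.H626.twist (c * d) φ := by
  ext n
  simp only [_root_.Fermat.Agent.S28.H626.twist_coeff, mul_zpow, Units.val_mul]
  ring

/-- `f((c t)^m) = f(c^m t^m)`. -/
theorem twist_qExpand (c : Rˣ) (m : ℕ) [NeZero m] (φ : LaurentSeries R) :
    _root_.Fermat.Agent.S28.H626.twist c (qExpand R m φ) = qExpand R m (_root_.Fermat.Agent.S28.H626.twist (c ^ m) φ) := by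
  ext n
  by_cases hn : (m : ℤ) ∣ n
  · obtain ⟨k, rfl⟩ := hn
    rw [_root_.Fermat.Agent.S28.H626.twist_coeff, qExpand_coeff_mul, qExpand_coeff_mul, _root_.Fermat.Agent.S28.H626.twist_coeff]
    congr 2
    rw [← zpow_natCast, ← zpow_mul]
  · rw [_root_.Fermat.Agent.S28.H626.twist_coeff, qExpand_coeff_of_not_dvd _ _ hn, qExpand_coeff_of_not_dvd _ _ hn, mul_zero]

end Twist

end Fermat.Agent.S28.H626

end

end
-- ===== PACK-END S28/H626/Twist.lean

-- ===== PACK-BEGIN S28/H565/TExp.lean
section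



/-!
# S28 analytic bridge, part 1: convergent `t`-expansions (helper565)

`HasTExp h f φ` says that the function `f : ℍ → ℂ` is given, at every point of the upper
half plane, by the (absolutely) convergent Laurent expansion `φ` in the local parameter
`t = exp (2 π i τ / h)`.  We prove that this relation is compatible with the ring operations,
that `φ` is determined by `f`, and that it is compatible with `qExpand`.
-/

set_option autoImplicit false

noncomputable section

open UpperHalfPlane Complex Function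
open scoped Real

namespace Fermat.Agent.S28.H565

local notation "𝕢" => Periodic.qParam

/-- `f` is given on all of `ℍ` by the convergent power series `P` in `t = exp (2πiτ/h)`. -/
def HasPExp (h : ℝ) (f : ℍ → ℂ) (P : PowerSeries ℂ) : Prop :=
  ∀ τ : ℍ, HasSum (fun n : ℕ => PowerSeries.coeff n P * 𝕢 h τ ^ n) (f τ)

/-- `f` is given on all of `ℍ` by the convergent Laurent series `φ` in `t = exp (2πiτ/h)`. -/
def HasTExp (h : ℝ) (f : ℍ → ℂ) (φ : LaurentSeries ℂ) : Prop :=
  ∀ τ : ℍ, HasSum (fun n : ℤ => φ.coeff n * 𝕢 h τ ^ n) (f τ)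

section PExp

variable {h : ℝ} {f g : ℍ → ℂ} {P Q : PowerSeries ℂ}

theorem HasPExp.congr (hf : HasPExp h f P) (hfg : ∀ τ, f τ = g τ) : HasPExp h g P :=
  fun τ => hfg τ ▸ hf τ

theorem HasPExp.add (hf : HasPExp h f P) (hg : HasPExp h g Q) : HasPExp h (f + g) (P + Q) := by
  intro τ
  have := (hf τ).add (hg τ)
  simpa [add_mul] using this

theorem HasPExp.zero : HasPExp h 0 0 := by
  intro τ
  simp [hasSum_zero]

theorem HasPExp.const (c : ℂ) : HasPExp h (fun _ => c) (PowerSeries.C c) := by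
  intro τ
  have := hasSum_ite_eq (0 : ℕ) c
  refine this.congr_fun ?_ |>.mono_left le_rfl
  intro n
  by_cases hn : n = 0
  · subst hn; simp
  · simp [PowerSeries.coeff_C, hn]

theorem HasPExp.smul (c : ℂ) (hf : HasPExp h f P) : HasPExp h (c • f) (c • P) := by
  intro τ
  have := (hf τ).mul_left c
  simpa [mul_assoc] using this

theorem HasPExp.neg (hf : HasPExp h f P) : HasPExp h (-f) (-P) := by
  intro τ
  have := (hf τ).neg
  simpa using this

theorem HasPExp.sub (hf : HasPExp h f P) (hg : HasPExp h g Q) : HasPExp h (f - g) (P - Q) := by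
  intro τ
  have := (hf τ).sub (hg τ)
  simpa [sub_mul] using this

theorem HasPExp.mul (hf : HasPExp h f P) (hg : HasPExp h g Q) : HasPExp h (f * g) (P * Q) := by
  intro τ
  have h1 := hf τ
  have h2 := hg τ
  have n1 : Summable fun n : ℕ => ‖PowerSeries.coeff n P * 𝕢 h τ ^ n‖ := h1.summable.norm
  have n2 : Summable fun n : ℕ => ‖PowerSeries.coeff n Q * 𝕢 h τ ^ n‖ := h2.summable.norm
  have key := tsum_mul_tsum_eq_tsum_sum_antidiagonal_of_summable_norm n1 n2
  have hs := (summable_norm_sum_mul_antidiagonal_of_summable_norm n1 n2).of_norm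
  rw [h1.tsum_eq, h2.tsum_eq] at key
  have hfun : (fun n : ℕ => PowerSeries.coeff n (P * Q) * 𝕢 h τ ^ n) =
      fun n => ∑ kl ∈ Finset.HasAntidiagonal.antidiagonal n,
        (PowerSeries.coeff kl.1 P * 𝕢 h τ ^ kl.1) * (PowerSeries.coeff kl.2 Q * 𝕢 h τ ^ kl.2) := by
    funext n
    rw [PowerSeries.coeff_mul, Finset.sum_mul]
    refine Finset.sum_congr rfl fun kl hkl => ?_
    rw [Finset.HasAntidiagonal.mem_antidiagonal] at hkl
    rw [← hkl, pow_add]
    ring
  rw [hfun]
  simpa [Pi.mul_apply, key] using hs.hasSum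

theorem HasPExp.X : HasPExp h (fun τ => 𝕢 h τ) PowerSeries.X := by
  intro τ
  have := hasSum_ite_eq (1 : ℕ) (𝕢 h τ)
  refine this.congr_fun ?_ |>.mono_left le_rfl
  intro n
  by_cases hn : n = 1
  · subst hn; simp
  · simp [PowerSeries.coeff_X, hn]

theorem HasPExp.pow (hf : HasPExp h f P) (n : ℕ) : HasPExp h (f ^ n) (P ^ n) := by
  induction n with
  | zero =>
    have := HasPExp.const (h := h) 1
    rw [map_one] at this
    rw [pow_zero, pow_zero]
    exact this
  | succ n ih =>
    rw [pow_succ, pow_succ]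
    exact ih.mul hf

theorem cuspFunction_zero_fun (h : ℝ) : cuspFunction h (0 : ℍ → ℂ) = 0 := by
  simpa [cuspFunction, Periodic.cuspFunction]
      using! (tendsto_const_nhds.mono_left nhdsWithin_le_nhds).limUnder_eq

theorem coeff_eq_zero_of_hasSum_zero {h : ℝ} (hh : 0 < h) (c : ℕ → ℂ)
    (H : ∀ τ : ℍ, HasSum (fun n : ℕ => c n * 𝕢 h τ ^ n) 0) (m : ℕ) : c m = 0 := by
  have han : AnalyticAt ℂ (cuspFunction h (0 : ℍ → ℂ)) 0 := by
    rw [cuspFunction_zero_fun]; exact analyticAt_const
  have H' : ∀ τ : ℍ, HasSum (fun n : ℕ => c n • 𝕢 h τ ^ n) ((0 : ℍ → ℂ) τ) := fun τ => H τ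
  have h1 := (hasFPowerSeriesOnBall_cuspFunction hh han H').hasFPowerSeriesAt
  rw [cuspFunction_zero_fun] at h1
  have h2 := h1.eq_zero
  have h3 := congrArg (fun p => FormalMultilinearSeries.coeff p m) h2
  simp only [FormalMultilinearSeries.coeff_ofScalars] at h3
  rw [h3]
  rfl

theorem HasPExp.eq_zero (hh : 0 < h) (H : HasPExp h 0 P) : P = 0 := by
  ext m
  simpa using coeff_eq_zero_of_hasSum_zero hh (fun n => PowerSeries.coeff n P) (fun τ => H τ) m

theorem HasPExp.unique (hh : 0 < h) (hP : HasPExp h f P) (hQ : HasPExp h f Q) : P = Q := by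
  have := (hP.sub hQ)
  rw [sub_self] at this
  exact sub_eq_zero.mp (this.eq_zero hh)

/-- A function with a convergent power series expansion is bounded at `i∞`. -/
theorem HasPExp.isBoundedAtImInfty (hh : 0 < h) (hf : HasPExp h f P) :
    IsBoundedAtImInfty f :=
  UpperHalfPlane.isBoundedAtImInfty_of_hasSum_qExpansion (c := fun n => PowerSeries.coeff n P) hh
    (fun τ => by simpa using hf τ)

end PExp

section TExp

variable {h : ℝ} {f g : ℍ → ℂ} {φ ψ : LaurentSeries ℂ}

theorem HasTExp.congr (hf : HasTExp h f φ) (hfg : ∀ τ, f τ = g τ) : HasTExp h g φ :=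
  fun τ => hfg τ ▸ hf τ

theorem HasTExp.add (hf : HasTExp h f φ) (hg : HasTExp h g ψ) : HasTExp h (f + g) (φ + ψ) := by
  intro τ
  have := (hf τ).add (hg τ)
  simpa [add_mul] using this

theorem HasTExp.zero : HasTExp h 0 0 := by
  intro τ
  simp [hasSum_zero]

theorem HasTExp.neg (hf : HasTExp h f φ) : HasTExp h (-f) (-φ) := by
  intro τ
  have := (hf τ).neg
  simpa using this

theorem HasTExp.sub (hf : HasTExp h f φ) (hg : HasTExp h g ψ) : HasTExp h (f - g) (φ - ψ) := by
  intro τ
  have := (hf τ).sub (hg τ)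
  simpa [sub_mul] using this

theorem HasTExp.smul (c : ℂ) (hf : HasTExp h f φ) : HasTExp h (c • f) (c • φ) := by
  intro τ
  have := (hf τ).mul_left c
  simpa [mul_assoc] using this

/-- Key bridge between Laurent and power series expansions. -/
theorem hasTExp_single_mul_iff (m : ℤ) (P : PowerSeries ℂ) :
    HasTExp h f (HahnSeries.single m (1 : ℂ) * HahnSeries.ofPowerSeries ℤ ℂ P) ↔
      HasPExp h (fun τ => f τ * 𝕢 h τ ^ (-m)) P := by
  have key : ∀ τ : ℍ,
      HasSum (fun n : ℤ =>
        (HahnSeries.single m (1 : ℂ) * HahnSeries.ofPowerSeries ℤ ℂ P).coeff n * 𝕢 h τ ^ n) (f τ) ↔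
      HasSum (fun n : ℕ => PowerSeries.coeff n P * 𝕢 h τ ^ n) (f τ * 𝕢 h τ ^ (-m)) := by
    intro τ
    have hq : 𝕢 h τ ≠ 0 := Periodic.qParam_ne_zero _
    have hι : Function.Injective (fun k : ℕ => (k : ℤ) + m) := by
      intro a b hab
      simpa using hab
    have hzero : ∀ n ∉ Set.range (fun k : ℕ => (k : ℤ) + m),
        (HahnSeries.single m (1 : ℂ) * HahnSeries.ofPowerSeries ℤ ℂ P).coeff n * 𝕢 h τ ^ n = 0 := by
      intro n hn
      have hlt : n - m < 0 := by
        by_contra hge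
        rw [not_lt] at hge
        exact hn ⟨(n - m).toNat, by simp [Int.toNat_of_nonneg hge]⟩
      rw [HahnSeries.coeff_single_mul, ModularCurve.ofPowerSeries_coeff_of_neg _ hlt]
      simp
    rw [← hι.hasSum_iff hzero]
    have hfun : ((fun n : ℤ =>
        (HahnSeries.single m (1 : ℂ) * HahnSeries.ofPowerSeries ℤ ℂ P).coeff n * 𝕢 h τ ^ n) ∘
          fun k : ℕ => (k : ℤ) + m) =
        fun k : ℕ => (PowerSeries.coeff k P * 𝕢 h τ ^ k) * 𝕢 h τ ^ m := by
      funext k
      simp only [Function.comp_apply]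
      rw [HahnSeries.coeff_single_mul_add, HahnSeries.ofPowerSeries_apply_coeff, one_mul,
        zpow_add₀ hq, zpow_natCast, mul_assoc]
    rw [hfun]
    have hval : f τ = (f τ * 𝕢 h τ ^ (-m)) * 𝕢 h τ ^ m := by
      rw [mul_assoc, ← zpow_add₀ hq, neg_add_cancel, zpow_zero, mul_one]
    conv_lhs => rw [hval]
    exact hasSum_mul_right_iff (zpow_ne_zero m hq)
  exact ⟨fun H τ => (key τ).mp (H τ), fun H τ => (key τ).mpr (H τ)⟩

/-- Any Laurent expansion can be rewritten as a power series expansion. -/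
theorem HasTExp.hasPExp (hf : HasTExp h f φ) :
    HasPExp h (fun τ => f τ * 𝕢 h τ ^ (-φ.order)) φ.powerSeriesPart := by
  rw [← hasTExp_single_mul_iff, LaurentSeries.single_order_mul_powerSeriesPart]
  exact hf

theorem HasPExp.hasTExp {P : PowerSeries ℂ} (hf : HasPExp h f P) :
    HasTExp h f (HahnSeries.ofPowerSeries ℤ ℂ P) := by
  have := (hasTExp_single_mul_iff (h := h) (f := f) 0 P).mpr (by simpa using hf)
  simpa using this

theorem HasTExp.mul (hf : HasTExp h f φ) (hg : HasTExp h g ψ) : HasTExp h (f * g) (φ * ψ) := by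
  have h1 := hf.hasPExp
  have h2 := hg.hasPExp
  have h3 := h1.mul h2
  have hφψ : φ * ψ = HahnSeries.single (φ.order + ψ.order) (1 : ℂ) *
      HahnSeries.ofPowerSeries ℤ ℂ (φ.powerSeriesPart * ψ.powerSeriesPart) := by
    conv_lhs => rw [← LaurentSeries.single_order_mul_powerSeriesPart φ,
      ← LaurentSeries.single_order_mul_powerSeriesPart ψ]
    rw [map_mul, ← mul_one (1 : ℂ), ← HahnSeries.single_mul_single, mul_one]
    ring
  rw [hφψ, hasTExp_single_mul_iff]
  refine h3.congr fun τ => ?_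
  have hq : 𝕢 h τ ≠ 0 := Periodic.qParam_ne_zero _
  simp only [Pi.mul_apply]
  rw [neg_add, zpow_add₀ hq]
  ring

theorem HasTExp.const (c : ℂ) : HasTExp h (fun _ => c) (HahnSeries.C c) := by
  have := (HasPExp.const (h := h) c).hasTExp
  rwa [HahnSeries.ofPowerSeries_C] at this

theorem HasTExp.one : HasTExp h 1 1 := by
  have := HasTExp.const (h := h) 1
  rw [map_one] at this
  exact this

theorem HasTExp.pow (hf : HasTExp h f φ) (n : ℕ) : HasTExp h (f ^ n) (φ ^ n) := by
  induction n with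
  | zero =>
    rw [pow_zero, pow_zero]
    exact HasTExp.one
  | succ n ih =>
    rw [pow_succ, pow_succ]
    exact ih.mul hf

theorem HasTExp.single (m : ℤ) : HasTExp h (fun τ => 𝕢 h τ ^ m) (HahnSeries.single m (1 : ℂ)) := by
  have h1 : HasPExp h (fun τ => 𝕢 h τ ^ m * 𝕢 h τ ^ (-m)) 1 := by
    have := HasPExp.const (h := h) 1
    rw [map_one] at this
    refine this.congr fun τ => ?_
    have hq : 𝕢 h τ ≠ 0 := Periodic.qParam_ne_zero _
    rw [← zpow_add₀ hq, add_neg_cancel, zpow_zero]
  have := (hasTExp_single_mul_iff (h := h) (f := fun τ => 𝕢 h τ ^ m) m 1).mpr h1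
  simpa using this

theorem HasTExp.eq_zero (hh : 0 < h) (H : HasTExp h 0 φ) : φ = 0 := by
  have h1 := H.hasPExp
  have h2 : HasPExp h 0 φ.powerSeriesPart := h1.congr fun τ => by simp
  have h3 := h2.eq_zero hh
  rw [← LaurentSeries.single_order_mul_powerSeriesPart φ, h3]
  simp

theorem HasTExp.unique (hh : 0 < h) (hφ : HasTExp h f φ) (hψ : HasTExp h f ψ) : φ = ψ := by
  have := hφ.sub hψ
  rw [sub_self] at this
  exact sub_eq_zero.mp (this.eq_zero hh)

/-- If a function has an expansion, the function is determined by the expansion. -/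
theorem HasTExp.fun_unique (hf : HasTExp h f φ) (hg : HasTExp h g φ) : f = g :=
  funext fun τ => (hf τ).unique (hg τ)

/-- Polynomial expressions: if `f` has expansion `φ` then `Q ∘ f` has expansion `Q(φ)`. -/
theorem HasTExp.polynomial_aeval (hf : HasTExp h f φ) (Q : Polynomial ℂ) :
    HasTExp h (fun τ => Q.eval (f τ)) (Polynomial.aeval φ Q) := by
  induction Q using Polynomial.induction_on' with
  | add p q hp hq =>
    rw [map_add]
    exact (hp.add hq).congr fun τ => by simp
  | monomial n a =>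
    rw [Polynomial.aeval_monomial]
    have h1 := (HasTExp.const (h := h) a).mul (hf.pow n)
    have h2 : algebraMap ℂ (LaurentSeries ℂ) a = HahnSeries.C a := by
      rw [ModularCurve.algebraMap_laurentSeries_eq_single]; rfl
    rw [h2]
    exact h1.congr fun τ => by simp [Polynomial.eval_monomial]

theorem qParam_mul_pow (h : ℝ) (m : ℕ) (hm : m ≠ 0) (z : ℂ) (k : ℤ) :
    𝕢 (h * m) z ^ ((m : ℤ) * k) = 𝕢 h z ^ k := by
  have hm' : (m : ℂ) ≠ 0 := by exact_mod_cast hm
  simp only [Periodic.qParam]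
  rw [← Complex.exp_int_mul, ← Complex.exp_int_mul]
  congr 1
  push_cast
  rcases eq_or_ne (h : ℂ) 0 with h0 | h0
  · simp [h0]
  · field_simp

/-- Change of parameter `t ↦ t^m`: an expansion in `exp (2πiτ/h)` gives one in
`exp (2πiτ/(hm))`. -/
theorem HasTExp.qExpand (m : ℕ) [NeZero m] (hf : HasTExp h f φ) :
    HasTExp (h * m) f (ModularCurve.qExpand ℂ m φ) := by
  intro τ
  have hm : (m : ℤ) ≠ 0 := by exact_mod_cast NeZero.ne m
  have hι : Function.Injective (fun k : ℤ => (m : ℤ) * k) := mul_right_injective₀ hm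
  have hzero : ∀ n ∉ Set.range (fun k : ℤ => (m : ℤ) * k),
      (ModularCurve.qExpand ℂ m φ).coeff n * 𝕢 (h * m) τ ^ n = 0 := by
    intro n hn
    rw [ModularCurve.qExpand_coeff_of_not_dvd, zero_mul]
    rintro ⟨c, rfl⟩
    exact hn ⟨c, rfl⟩
  rw [← hι.hasSum_iff hzero]
  have hfun : ((fun n : ℤ => (ModularCurve.qExpand ℂ m φ).coeff n * 𝕢 (h * m) τ ^ n) ∘
      fun k : ℤ => (m : ℤ) * k) = fun k : ℤ => φ.coeff k * 𝕢 h τ ^ k := by
    funext k
    simp only [Function.comp_apply]
    rw [ModularCurve.qExpand_coeff_mul, qParam_mul_pow h m (NeZero.ne m)]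
  rw [hfun]
  exact hf τ

theorem HasTExp.qExpand_one (m : ℕ) [NeZero m] (hf : HasTExp 1 f φ) :
    HasTExp m f (ModularCurve.qExpand ℂ m φ) := by
  have := hf.qExpand m
  rwa [one_mul] at this

end TExp

end Fermat.Agent.S28.H565

end
end
-- ===== PACK-END S28/H565/TExp.lean

-- ===== PACK-BEGIN S28/H589/Section.lean
section



/-!
# S28 / A-Φ descent, formal part 1 (helper589): the section matrix

For `f ∈ R((q))` and `p ≥ 1`, the Laurent series ring is free of rank `p` over the image of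
`V_p = qExpand R p` (`q ↦ q^p`) with basis `1, q, …, q^(p-1)`.  The matrix of multiplication
by `f` in this basis has entries the "sections" `sec p f i k = ∑ₘ f_{pm+k-i} qᵐ`.  Its
characteristic polynomial `χ` is monic of degree `p` over `R((q))` and `V_p(χ)(f) = 0`.
-/

set_option autoImplicit false

noncomputable section

open ModularCurve HahnSeries

namespace Fermat.Agent.S28.H589

variable {R : Type*} [CommRing R]

theorem sec_bddBelow (p : ℕ) [NeZero p] (f : LaurentSeries R) (i k : ℕ) :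
    BddBelow (Function.support fun m : ℤ => f.coeff ((p : ℤ) * m + k - i)) := by
  refine ⟨-(|f.order| + i + k), ?_⟩
  intro m hm
  by_contra hlt
  push Not at hlt
  apply hm
  apply HahnSeries.coeff_eq_zero_of_lt_order
  have hp : (1 : ℤ) ≤ p := by
    have := Nat.pos_of_ne_zero (NeZero.ne p)
    exact_mod_cast this
  have hm0 : m < 0 := by
    have h1 := abs_nonneg f.order
    have : (0 : ℤ) ≤ i := Int.natCast_nonneg i
    have : (0 : ℤ) ≤ k := Int.natCast_nonneg k
    linarith
  have h2 : (p : ℤ) * m ≤ m := by nlinarith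
  have h3 := neg_abs_le f.order
  have : (0 : ℤ) ≤ i := Int.natCast_nonneg i
  linarith

/-- The section `∑ₘ f_{pm+k-i} qᵐ` of `f`. -/
def sec (p : ℕ) [NeZero p] (f : LaurentSeries R) (i k : ℕ) : LaurentSeries R :=
  HahnSeries.ofSuppBddBelow (fun m : ℤ => f.coeff ((p : ℤ) * m + k - i)) (sec_bddBelow p f i k)

@[simp]
theorem sec_coeff (p : ℕ) [NeZero p] (f : LaurentSeries R) (i k : ℕ) (m : ℤ) :
    (sec p f i k).coeff m = f.coeff ((p : ℤ) * m + k - i) := rfl

/-- `f · qⁱ = ∑_{k<p} V_p(sec p f i k) · qᵏ`. -/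
theorem mul_single_eq_sum_sec (p : ℕ) [NeZero p] (f : LaurentSeries R) (i : ℕ) :
    f * HahnSeries.single (i : ℤ) (1 : R) =
      ∑ k ∈ Finset.range p, qExpand R p (sec p f i k) * HahnSeries.single (k : ℤ) (1 : R) := by
  ext n
  rw [HahnSeries.coeff_mul_single, mul_one, HahnSeries.coeff_sum]
  have hp : (0 : ℤ) < p := by
    have := Nat.pos_of_ne_zero (NeZero.ne p)
    exact_mod_cast this
  set k₀ : ℕ := (n % (p : ℤ)).toNat with hk₀
  have hk₀n : ((k₀ : ℕ) : ℤ) = n % (p : ℤ) := Int.toNat_of_nonneg (Int.emod_nonneg _ hp.ne')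
  have hk₀p : k₀ < p := by
    have := Int.emod_lt_of_pos n hp
    rw [← hk₀n] at this
    exact_mod_cast this
  rw [Finset.sum_eq_single_of_mem k₀ (Finset.mem_range.mpr hk₀p)]
  · rw [HahnSeries.coeff_mul_single, mul_one]
    have hdiv : n - (k₀ : ℤ) = (p : ℤ) * (n / (p : ℤ)) := by
      rw [hk₀n]
      have := Int.emod_add_mul_ediv n (p : ℤ)
      linarith
    rw [hdiv, qExpand_coeff_mul, sec_coeff]
    congr 1
    rw [← hdiv]
    ring
  · intro k hk hne
    rw [HahnSeries.coeff_mul_single, mul_one]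
    apply qExpand_coeff_of_not_dvd
    intro hdvd
    apply hne
    have hkp : k < p := Finset.mem_range.mp hk
    have h1 : n % (p : ℤ) = (k : ℤ) % (p : ℤ) := by
      have := (Int.emod_emod_of_dvd n (dvd_refl (p : ℤ)))
      exact (Int.emod_eq_emod_iff_emod_sub_eq_zero).mpr (Int.emod_eq_zero_of_dvd hdvd)
    have h2 : (k : ℤ) % (p : ℤ) = k := Int.emod_eq_of_lt (Int.natCast_nonneg k) (by exact_mod_cast hkp)
    have : ((k₀ : ℕ) : ℤ) = (k : ℤ) := by rw [hk₀n, h1, h2]
    exact_mod_cast this.symm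

/-- The section matrix of `f`. -/
def secMat (p : ℕ) [NeZero p] (f : LaurentSeries R) : Matrix (Fin p) (Fin p) (LaurentSeries R) :=
  fun i k => sec p f (i : ℕ) (k : ℕ)

/-- The basis vector `(qᵏ)ₖ`. -/
def qVec (R : Type*) [CommRing R] (p : ℕ) : Fin p → LaurentSeries R :=
  fun k => HahnSeries.single ((k : ℕ) : ℤ) (1 : R)

theorem secMat_mulVec (p : ℕ) [NeZero p] (f : LaurentSeries R) :
    ((secMat p f).map (qExpand R p)).mulVec (qVec R p) = f • qVec R p := by
  funext i
  simp only [Matrix.mulVec, dotProduct, Matrix.map_apply, secMat, qVec, Pi.smul_apply,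
    smul_eq_mul]
  rw [mul_single_eq_sum_sec p f (i : ℕ), ← Fin.sum_univ_eq_sum_range
    (fun k => qExpand R p (sec p f (i : ℕ) k) * HahnSeries.single (k : ℤ) (1 : R)) p]

/-- **Section charpoly.**  For every `f ∈ R((q))` there is a monic polynomial `χ` of degree `p`
over `R((q))` with `V_p(χ)(f) = 0`. -/
theorem exists_section_charpoly [Nontrivial R] (p : ℕ) [NeZero p] (f : LaurentSeries R) :
    ∃ χ : Polynomial (LaurentSeries R), χ.Monic ∧ χ.natDegree = p ∧
      (χ.map (qExpand R p)).eval f = 0 := by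
  classical
  refine ⟨(secMat p f).charpoly, Matrix.charpoly_monic _, ?_, ?_⟩
  · rw [Matrix.charpoly_natDegree_eq_dim, Fintype.card_fin]
  · rw [← Matrix.charpoly_map, Matrix.eval_charpoly]
    set A : Matrix (Fin p) (Fin p) (LaurentSeries R) :=
      Matrix.scalar (Fin p) f - (secMat p f).map (qExpand R p) with hA
    have hAv : A.mulVec (qVec R p) = 0 := by
      rw [hA, Matrix.sub_mulVec, secMat_mulVec]
      funext i
      simp [Matrix.mulVec, dotProduct, Matrix.scalar_apply, Matrix.diagonal_apply]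
    have hdet : A.det • qVec R p = 0 := by
      have h1 : (A.adjugate * A).mulVec (qVec R p) = 0 := by
        rw [← Matrix.mulVec_mulVec, hAv, Matrix.mulVec_zero]
      rw [Matrix.adjugate_mul, Matrix.smul_mulVec, Matrix.one_mulVec] at h1
      exact h1
    have h0 := congrFun hdet ⟨0, Nat.pos_of_ne_zero (NeZero.ne p)⟩
    simp only [Pi.smul_apply, qVec, Nat.cast_zero, smul_eq_mul, Pi.zero_apply] at h0
    have h1 : (HahnSeries.single (0 : ℤ) (1 : R)) = 1 := rfl
    rw [h1, mul_one] at h0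
    exact h0

end Fermat.Agent.S28.H589

end

end
-- ===== PACK-END S28/H589/Section.lean

-- ===== PACK-BEGIN S28/H205/Conv.lean
section




/-!
# S28 analytic toolkit, part 1: convergent Laurent series on the upper half plane

`ConvTo N φ f` : the formal Laurent series `φ ∈ ℂ((t))` converges on all of `ℍ`, in the local
parameter `t = t_N(τ) = exp(2πiτ/N)`, to the function `f : ℍ → ℂ`.

Main API: closure under ring operations, uniqueness of the series, holomorphy of the limit,
inverses, substitutions `τ ↦ (aτ+b)/d`, descent along `τ ↦ τ + 1`.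
-/

set_option autoImplicit false

noncomputable section

open UpperHalfPlane Complex HahnSeries
open scoped Real Manifold

namespace Fermat.Agent.S28.H205

section Twist

variable {R : Type*} [CommRing R]

/-- The substitution `t ↦ u t` on Laurent series, for a unit `u`. -/
def twistFun (u : Rˣ) (φ : LaurentSeries R) : LaurentSeries R where
  coeff n := φ.coeff n * ((u ^ n : Rˣ) : R)
  isPWO_support' := φ.isPWO_support.mono (fun n hn => by
    simp only [Function.mem_support, ne_eq] at hn ⊢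
    exact fun h => hn (by rw [h, zero_mul]))

@[simp] theorem twistFun_coeff (u : Rˣ) (φ : LaurentSeries R) (n : ℤ) :
    (_root_.Fermat.Agent.S28.H205.twistFun u φ).coeff n = φ.coeff n * ((u ^ n : Rˣ) : R) := rfl

theorem support_twistFun (u : Rˣ) (φ : LaurentSeries R) :
    (_root_.Fermat.Agent.S28.H205.twistFun u φ).support = φ.support := by
  ext n
  simp only [HahnSeries.mem_support, _root_.Fermat.Agent.S28.H205.twistFun_coeff, ne_eq]
  constructor
  · exact fun h h0 => h (by rw [h0, zero_mul])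
  · intro h h0
    exact h ((Units.mul_left_eq_zero _).mp h0)

theorem twistFun_mul (u : Rˣ) (φ ψ : LaurentSeries R) :
    _root_.Fermat.Agent.S28.H205.twistFun u (φ * ψ) = _root_.Fermat.Agent.S28.H205.twistFun u φ * _root_.Fermat.Agent.S28.H205.twistFun u ψ := by
  ext n
  rw [_root_.Fermat.Agent.S28.H205.twistFun_coeff, HahnSeries.coeff_mul, HahnSeries.coeff_mul, Finset.sum_mul]
  have hfin : Finset.antidiagonal (_root_.Fermat.Agent.S28.H205.twistFun u φ).isPWO_support (_root_.Fermat.Agent.S28.H205.twistFun u ψ).isPWO_support n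
      = Finset.antidiagonal φ.isPWO_support ψ.isPWO_support n := by
    ext ⟨i, j⟩
    simp only [Finset.mem_antidiagonal, support_twistFun]
  rw [hfin]
  refine Finset.sum_congr rfl fun ij hij => ?_
  obtain ⟨-, -, hsum⟩ := Finset.mem_antidiagonal.mp hij
  rw [_root_.Fermat.Agent.S28.H205.twistFun_coeff, _root_.Fermat.Agent.S28.H205.twistFun_coeff, ← hsum, zpow_add, Units.val_mul]
  ring

/-- The substitution `t ↦ u t` on Laurent series, as a ring homomorphism. -/
def twist (u : Rˣ) : LaurentSeries R →+* LaurentSeries R where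
  toFun := _root_.Fermat.Agent.S28.H205.twistFun u
  map_zero' := by ext n; simp
  map_one' := by
    ext n
    rw [_root_.Fermat.Agent.S28.H205.twistFun_coeff, HahnSeries.coeff_one]
    split_ifs with h
    · subst h; simp
    · simp
  map_add' φ ψ := by ext n; simp [add_mul]
  map_mul' := twistFun_mul u

@[simp] theorem twist_coeff (u : Rˣ) (φ : LaurentSeries R) (n : ℤ) :
    (_root_.Fermat.Agent.S28.H205.twist u φ).coeff n = φ.coeff n * ((u ^ n : Rˣ) : R) := rfl

theorem twist_one (φ : LaurentSeries R) : _root_.Fermat.Agent.S28.H205.twist (1 : Rˣ) φ = φ := by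
  ext n; simp

theorem twist_mul_apply (u v : Rˣ) (φ : LaurentSeries R) :
    _root_.Fermat.Agent.S28.H205.twist (u * v) φ = _root_.Fermat.Agent.S28.H205.twist u (_root_.Fermat.Agent.S28.H205.twist v φ) := by
  ext n
  simp only [_root_.Fermat.Agent.S28.H205.twist_coeff, mul_zpow, Units.val_mul]
  ring

theorem twist_single (u : Rˣ) (n : ℤ) (r : R) :
    _root_.Fermat.Agent.S28.H205.twist u (HahnSeries.single n r) = HahnSeries.single n (r * ((u ^ n : Rˣ) : R)) := by
  ext k
  rw [_root_.Fermat.Agent.S28.H205.twist_coeff, HahnSeries.coeff_single, HahnSeries.coeff_single]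
  split_ifs with h
  · subst h; rfl
  · simp

theorem twist_C (u : Rˣ) (r : R) : _root_.Fermat.Agent.S28.H205.twist u (HahnSeries.C r) = HahnSeries.C r := by
  have h := twist_single u 0 r
  simpa [HahnSeries.C] using h

end Twist

/-- The local parameter `t_N(τ) = exp(2πiτ/N)` at the cusp `∞`. -/
def tPar (N : ℕ) (τ : ℍ) : ℂ := Function.Periodic.qParam (N : ℝ) (τ : ℂ)

theorem tPar_ne_zero (N : ℕ) (τ : ℍ) : tPar N τ ≠ 0 :=
  Function.Periodic.qParam_ne_zero _

theorem norm_tPar_lt_one (N : ℕ) [NeZero N] (τ : ℍ) : ‖tPar N τ‖ < 1 :=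
  Function.Periodic.norm_qParam_lt_one (by exact_mod_cast Nat.pos_of_ne_zero (NeZero.ne N)) τ.im_pos

theorem exists_tPar_eq (N : ℕ) [NeZero N] {q : ℂ} (hq : ‖q‖ < 1) (hq0 : q ≠ 0) :
    ∃ τ : ℍ, tPar N τ = q := by
  have hN : (0 : ℝ) < N := by exact_mod_cast Nat.pos_of_ne_zero (NeZero.ne N)
  exact ⟨⟨Function.Periodic.invQParam N q,
    Function.Periodic.im_invQParam_pos_of_norm_lt_one hN hq hq0⟩,
    Function.Periodic.qParam_right_inv hN.ne' hq0⟩

/-- Power-series level convergence. -/
def PConv (N : ℕ) (p : PowerSeries ℂ) (F : ℍ → ℂ) : Prop :=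
  ∀ τ : ℍ, HasSum (fun k : ℕ => PowerSeries.coeff k p * tPar N τ ^ k) (F τ)

/-- The sum of a power series as a function on `ℂ`. -/
def psSum (p : PowerSeries ℂ) (q : ℂ) : ℂ := ∑' k : ℕ, PowerSeries.coeff k p * q ^ k

namespace PConv

variable {N : ℕ} {p p' : PowerSeries ℂ} {F G : ℍ → ℂ}

theorem mul (hp : PConv N p F) (hq : PConv N p' G) : PConv N (p * p') (F * G) := by
  intro τ
  have h1 := hp τ
  have h2 := hq τ
  have hn1 : Summable (fun k => ‖PowerSeries.coeff k p * tPar N τ ^ k‖) := h1.summable.norm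
  have hn2 : Summable (fun k => ‖PowerSeries.coeff k p' * tPar N τ ^ k‖) := h2.summable.norm
  have hs := (summable_norm_sum_mul_antidiagonal_of_summable_norm hn1 hn2).of_norm.hasSum
  rw [← tsum_mul_tsum_eq_tsum_sum_antidiagonal_of_summable_norm hn1 hn2, h1.tsum_eq,
    h2.tsum_eq] at hs
  have hfun : (fun n : ℕ => PowerSeries.coeff n (p * p') * tPar N τ ^ n) =
      fun n => ∑ kl ∈ Finset.HasAntidiagonal.antidiagonal n,
        PowerSeries.coeff kl.1 p * tPar N τ ^ kl.1 *
          (PowerSeries.coeff kl.2 p' * tPar N τ ^ kl.2) := by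
    funext n
    rw [PowerSeries.coeff_mul, Finset.sum_mul]
    refine Finset.sum_congr rfl fun kl hkl => ?_
    rw [← Finset.HasAntidiagonal.mem_antidiagonal.mp hkl, _root_.pow_add]
    ring
  rw [hfun]
  exact hs

theorem add (hp : PConv N p F) (hq : PConv N p' G) : PConv N (p + p') (F + G) := by
  intro τ
  simpa [add_mul] using (hp τ).add (hq τ)

theorem sub (hp : PConv N p F) (hq : PConv N p' G) : PConv N (p - p') (F - G) := by
  intro τ
  simpa [sub_mul] using (hp τ).sub (hq τ)

theorem summable_ball [NeZero N] (hp : PConv N p F) {q : ℂ} (hq : ‖q‖ < 1) :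
    Summable (fun k : ℕ => PowerSeries.coeff k p * q ^ k) := by
  rcases eq_or_ne q 0 with rfl | hq0
  · refine summable_of_ne_finset_zero (s := {0}) fun k hk => ?_
    have : k ≠ 0 := by simpa using hk
    simp [this]
  · obtain ⟨τ, rfl⟩ := exists_tPar_eq N hq hq0
    exact (hp τ).summable

theorem eq_psSum (hp : PConv N p F) (τ : ℍ) : F τ = psSum p (tPar N τ) :=
  (hp τ).tsum_eq.symm

theorem hasFPowerSeriesOnBall [NeZero N] (hp : PConv N p F) :
    HasFPowerSeriesOnBall (psSum p) (.ofScalars ℂ (fun k => PowerSeries.coeff k p)) 0 1 := by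
  constructor
  · refine le_of_forall_lt_imp_le_of_dense fun r hr ↦ ?_
    lift r to NNReal using hr.ne_top
    apply FormalMultilinearSeries.le_radius_of_summable
    have hr1 : ‖((r : ℝ) : ℂ)‖ < 1 := by
      simpa using hr
    simpa [norm_mul, mul_comm, mul_left_comm, mul_assoc] using
      (hp.summable_ball hr1).norm
  · simp
  · intro y hy
    rw [← ENNReal.coe_one, Metric.eball_coe, NNReal.coe_one, mem_ball_zero_iff] at hy
    simpa [psSum, mul_comm] using (hp.summable_ball hy).hasSum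

theorem psSum_zero (p : PowerSeries ℂ) : psSum p 0 = PowerSeries.coeff 0 p := by
  rw [psSum, tsum_eq_single 0]
  · simp
  · intro k hk
    simp [hk]

theorem psSum_eq_zero_of_zero [NeZero N] (hp : PConv N p 0) {q : ℂ} (hq : ‖q‖ < 1)
    (hq0 : q ≠ 0) : psSum p q = 0 := by
  obtain ⟨τ, rfl⟩ := exists_tPar_eq N hq hq0
  exact (hp.eq_psSum τ).symm

theorem eq_zero_of_zero [NeZero N] (hp : PConv N p 0) : p = 0 := by
  have hfp := hp.hasFPowerSeriesOnBall
  have han : AnalyticAt ℂ (psSum p) 0 := hfp.analyticAt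
  rcases han.eventually_eq_zero_or_eventually_ne_zero with h | h
  · have h1 : HasFPowerSeriesAt (0 : ℂ → ℂ)
        (.ofScalars ℂ (fun k => PowerSeries.coeff k p)) 0 :=
      hfp.hasFPowerSeriesAt.congr h
    have h2 := h1.eq_zero
    have h3 := (FormalMultilinearSeries.ofScalars_series_eq_zero (E := ℂ)
      (c := fun k => PowerSeries.coeff k p)).mp h2
    ext k
    simpa using congrFun h3 k
  · exfalso
    have h2 : ∀ᶠ z in nhdsWithin (0 : ℂ) {0}ᶜ, psSum p z = 0 := by
      filter_upwards [self_mem_nhdsWithin,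
        nhdsWithin_le_nhds (Metric.ball_mem_nhds (0 : ℂ) one_pos)] with z hz hz'
      exact hp.psSum_eq_zero_of_zero (by simpa using hz') hz
    obtain ⟨z, hz1, hz2⟩ := (h.and h2).exists
    exact hz1 hz2

theorem unique [NeZero N] (hp : PConv N p F) (hp' : PConv N p' F) : p = p' := by
  have h := hp.sub hp'
  rw [sub_self] at h
  exact sub_eq_zero.mp h.eq_zero_of_zero

theorem differentiableOn_psSum [NeZero N] (hp : PConv N p F) :
    DifferentiableOn ℂ (psSum p) (Metric.ball 0 1) := by
  have h := hp.hasFPowerSeriesOnBall.differentiableOn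
  rwa [← ENNReal.ofReal_one, Metric.eball_ofReal] at h

theorem mdiff [NeZero N] (hp : PConv N p F) : MDiff F := by
  rw [UpperHalfPlane.mdifferentiable_iff]
  have hN : (0 : ℝ) < N := by exact_mod_cast Nat.pos_of_ne_zero (NeZero.ne N)
  have hG := hp.differentiableOn_psSum
  have hcomp : DifferentiableOn ℂ (psSum p ∘ Function.Periodic.qParam (N : ℝ)) {z | 0 < z.im} :=
    hG.comp (Function.Periodic.differentiable_qParam.differentiableOn) (fun z hz => by
      simpa using Function.Periodic.norm_qParam_lt_one hN hz)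
  refine hcomp.congr fun z hz => ?_
  simp only [Function.comp_apply, ofComplex_apply_of_im_pos hz]
  exact hp.eq_psSum ⟨z, hz⟩

theorem inv [NeZero N] (hp : PConv N p F) (hF : ∀ τ, F τ ≠ 0)
    (h0 : PowerSeries.coeff 0 p ≠ 0) : PConv N p⁻¹ (fun τ => (F τ)⁻¹) := by
  have hG := hp.differentiableOn_psSum
  have hne : ∀ q ∈ Metric.ball (0 : ℂ) 1, psSum p q ≠ 0 := by
    intro q hq
    rcases eq_or_ne q 0 with rfl | hq0
    · rwa [psSum_zero]
    · obtain ⟨τ, rfl⟩ := exists_tPar_eq N (by simpa using hq) hq0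
      rw [← hp.eq_psSum τ]
      exact hF τ
  have hH : DifferentiableOn ℂ (fun q => (psSum p q)⁻¹) (Metric.ball 0 1) := hG.inv hne
  set d : PowerSeries ℂ :=
    PowerSeries.mk fun n => (n.factorial : ℂ)⁻¹ * iteratedDeriv n (fun q => (psSum p q)⁻¹) 0
    with hd
  have hdconv : PConv N d (fun τ => (F τ)⁻¹) := by
    intro τ
    have hmem : tPar N τ ∈ Metric.ball (0 : ℂ) ((1 : NNReal) : ℝ) := by
      simpa using norm_tPar_lt_one N τ
    have h := Complex.hasSum_taylorSeries_on_ball (r := 1) (by simpa using hH) hmem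
    show HasSum _ ((F τ)⁻¹)
    rw [hp.eq_psSum τ]
    have hfun : (fun k : ℕ => PowerSeries.coeff k d * tPar N τ ^ k) =
        fun n : ℕ => (n.factorial : ℂ)⁻¹ • (tPar N τ - 0) ^ n •
          iteratedDeriv n (fun q => (psSum p q)⁻¹) 0 := by
      funext n
      simp only [hd, PowerSeries.coeff_mk, sub_zero, smul_eq_mul]
      ring
    rw [hfun]
    exact h
  have hmul := hp.mul hdconv
  have hone : PConv N 1 (F * fun τ => (F τ)⁻¹) := by
    intro τ
    have : (F * fun τ => (F τ)⁻¹) τ = 1 := by simp [hF τ]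
    rw [this]
    have h := hasSum_single (f := fun k : ℕ => PowerSeries.coeff k (1 : PowerSeries ℂ) *
      tPar N τ ^ k) 0 (fun k hk => by simp [PowerSeries.coeff_one, hk])
    simpa using h
  have hpd : p * d = 1 := hmul.unique hone
  have hd' : d = p⁻¹ := by
    rw [PowerSeries.eq_inv_iff_mul_eq_one (by simpa using h0), mul_comm]
    exact hpd
  rw [← hd']
  exact hdconv

end PConv

/-- `φ` converges on `ℍ` to `f` in the parameter `t_N`. -/
def ConvTo (N : ℕ) (φ : LaurentSeries ℂ) (f : ℍ → ℂ) : Prop :=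
  ∀ τ : ℍ, HasSum (fun n : ℤ => φ.coeff n * tPar N τ ^ n) (f τ)

theorem coeff_single_mul_ofPS_add (e : ℤ) (p : PowerSeries ℂ) (k : ℕ) :
    (HahnSeries.single e (1 : ℂ) * HahnSeries.ofPowerSeries ℤ ℂ p).coeff ((k : ℤ) + e) =
      PowerSeries.coeff k p := by
  rw [HahnSeries.coeff_single_mul, one_mul, add_sub_cancel_right,
    HahnSeries.ofPowerSeries_apply_coeff]

theorem coeff_single_mul_ofPS_of_lt (e : ℤ) (p : PowerSeries ℂ) {n : ℤ} (hn : n < e) :
    (HahnSeries.single e (1 : ℂ) * HahnSeries.ofPowerSeries ℤ ℂ p).coeff n = 0 := by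
  rw [HahnSeries.coeff_single_mul, one_mul,
    ModularCurve.ofPowerSeries_coeff_of_neg _ (by omega)]

/-- Reduction of Laurent-level convergence to power-series-level convergence. -/
theorem convTo_single_mul_ofPS_iff (N : ℕ) (e : ℤ) (p : PowerSeries ℂ) (f : ℍ → ℂ) :
    ConvTo N (HahnSeries.single e (1 : ℂ) * HahnSeries.ofPowerSeries ℤ ℂ p) f ↔
      PConv N p (fun τ => tPar N τ ^ (-e) * f τ) := by
  have hinj : Function.Injective (fun k : ℕ => (k : ℤ) + e) := fun a b h => by
    simpa using h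
  have hrange : ∀ (τ : ℍ) (n : ℤ), n ∉ Set.range (fun k : ℕ => (k : ℤ) + e) →
      (HahnSeries.single e (1 : ℂ) * HahnSeries.ofPowerSeries ℤ ℂ p).coeff n *
        tPar N τ ^ n = 0 := by
    intro τ n hn
    have hlt : n < e := by
      by_contra hge
      push Not at hge
      exact hn ⟨(n - e).toNat, by simp [Int.toNat_of_nonneg (sub_nonneg.mpr hge)]⟩
    rw [coeff_single_mul_ofPS_of_lt e p hlt, zero_mul]
  have key : ∀ τ : ℍ, HasSum (fun n : ℤ =>
      (HahnSeries.single e (1 : ℂ) * HahnSeries.ofPowerSeries ℤ ℂ p).coeff n * tPar N τ ^ n)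
        (f τ) ↔
      HasSum (fun k : ℕ => PowerSeries.coeff k p * tPar N τ ^ k) (tPar N τ ^ (-e) * f τ) := by
    intro τ
    have ht := tPar_ne_zero N τ
    rw [← hinj.hasSum_iff (hrange τ)]
    have hfun : ((fun n : ℤ =>
        (HahnSeries.single e (1 : ℂ) * HahnSeries.ofPowerSeries ℤ ℂ p).coeff n * tPar N τ ^ n) ∘
          fun k : ℕ => (k : ℤ) + e) =
        fun k : ℕ => tPar N τ ^ e * (PowerSeries.coeff k p * tPar N τ ^ k) := by
      funext k
      simp only [Function.comp_apply, coeff_single_mul_ofPS_add, zpow_add₀ ht, zpow_natCast]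
      ring
    rw [hfun]
    constructor
    · intro h
      have h' := h.mul_left (tPar N τ ^ (-e))
      have hfun2 : (fun k : ℕ => tPar N τ ^ (-e) *
          (tPar N τ ^ e * (PowerSeries.coeff k p * tPar N τ ^ k))) =
          fun k : ℕ => PowerSeries.coeff k p * tPar N τ ^ k := by
        funext k
        rw [← mul_assoc, ← zpow_add₀ ht, neg_add_cancel, zpow_zero, one_mul]
      rwa [hfun2] at h'
    · intro h
      have h' := h.mul_left (tPar N τ ^ e)
      rwa [← mul_assoc, ← zpow_add₀ ht, add_neg_cancel, zpow_zero, one_mul] at h'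
  exact ⟨fun h τ => (key τ).mp (h τ), fun h τ => (key τ).mpr (h τ)⟩

theorem convTo_iff (N : ℕ) (φ : LaurentSeries ℂ) (f : ℍ → ℂ) :
    ConvTo N φ f ↔ PConv N φ.powerSeriesPart (fun τ => tPar N τ ^ (-φ.order) * f τ) := by
  conv_lhs => rw [← LaurentSeries.single_order_mul_powerSeriesPart φ]
  exact convTo_single_mul_ofPS_iff N φ.order φ.powerSeriesPart f

theorem single_mul_ofPS_mul (e₁ e₂ : ℤ) (p₁ p₂ : PowerSeries ℂ) :
    (HahnSeries.single e₁ (1 : ℂ) * HahnSeries.ofPowerSeries ℤ ℂ p₁) *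
      (HahnSeries.single e₂ (1 : ℂ) * HahnSeries.ofPowerSeries ℤ ℂ p₂) =
      HahnSeries.single (e₁ + e₂) (1 : ℂ) * HahnSeries.ofPowerSeries ℤ ℂ (p₁ * p₂) := by
  rw [map_mul, ← one_mul (1 : ℂ), ← HahnSeries.single_mul_single, one_mul]
  ring

namespace ConvTo

variable {N : ℕ} {φ ψ : LaurentSeries ℂ} {f g : ℍ → ℂ}

theorem congr_fun (h : ConvTo N φ f) (hfg : ∀ τ, f τ = g τ) : ConvTo N φ g :=
  fun τ => hfg τ ▸ h τ

theorem fun_unique (h : ConvTo N φ f) (h' : ConvTo N φ g) : f = g :=
  funext fun τ => (h τ).unique (h' τ)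

theorem add (hf : ConvTo N φ f) (hg : ConvTo N ψ g) : ConvTo N (φ + ψ) (f + g) := by
  intro τ
  simpa [add_mul] using (hf τ).add (hg τ)

theorem neg (hf : ConvTo N φ f) : ConvTo N (-φ) (-f) := by
  intro τ
  simpa using (hf τ).neg

theorem sub (hf : ConvTo N φ f) (hg : ConvTo N ψ g) : ConvTo N (φ - ψ) (f - g) := by
  intro τ
  simpa [sub_mul] using (hf τ).sub (hg τ)

theorem mul (hf : ConvTo N φ f) (hg : ConvTo N ψ g) : ConvTo N (φ * ψ) (f * g) := by
  rw [convTo_iff] at hf hg
  have h := hf.mul hg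
  rw [← LaurentSeries.single_order_mul_powerSeriesPart φ,
    ← LaurentSeries.single_order_mul_powerSeriesPart ψ, single_mul_ofPS_mul,
    convTo_single_mul_ofPS_iff]
  intro τ
  have := h τ
  have ht := tPar_ne_zero N τ
  convert this using 1
  simp only [Pi.mul_apply, neg_add, zpow_add₀ ht]
  ring

theorem zero_fun [NeZero N] (h : ConvTo N φ 0) : φ = 0 := by
  rw [convTo_iff] at h
  have h' : PConv N φ.powerSeriesPart 0 := fun τ => by simpa using h τ
  exact (LaurentSeries.powerSeriesPart_eq_zero φ).mp h'.eq_zero_of_zero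

/-- Uniqueness of the expansion. -/
theorem series_unique [NeZero N] (h : ConvTo N φ f) (h' : ConvTo N ψ f) : φ = ψ := by
  have hsub := h.sub h'
  rw [sub_self] at hsub
  exact sub_eq_zero.mp hsub.zero_fun

theorem mdiff_tPar_zpow (N : ℕ) (e : ℤ) : MDiff (fun τ : ℍ => tPar N τ ^ e) := by
  rw [UpperHalfPlane.mdifferentiable_iff]
  have hd : DifferentiableOn ℂ (fun z : ℂ => Function.Periodic.qParam (N : ℝ) z ^ e)
      {z | 0 < z.im} := fun z _ =>
    ((Function.Periodic.differentiable_qParam z).zpow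
      (Or.inl (Function.Periodic.qParam_ne_zero z))).differentiableWithinAt
  refine hd.congr fun z hz => ?_
  simp [tPar, ofComplex_apply_of_im_pos hz]

/-- The limit of a convergent expansion is holomorphic on `ℍ`. -/
theorem mdiff [NeZero N] (h : ConvTo N φ f) : MDiff f := by
  rw [convTo_iff] at h
  have h1 := h.mdiff
  have h2 := mdiff_tPar_zpow N φ.order
  have h3 : MDiff ((fun τ : ℍ => tPar N τ ^ φ.order) * fun τ => tPar N τ ^ (-φ.order) * f τ) :=
    h2.mul h1
  have heq : ((fun τ : ℍ => tPar N τ ^ φ.order) * fun τ => tPar N τ ^ (-φ.order) * f τ) = f := by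
    funext τ
    have ht := tPar_ne_zero N τ
    simp only [Pi.mul_apply]
    rw [← mul_assoc, ← zpow_add₀ ht, add_neg_cancel, zpow_zero, one_mul]
  rwa [heq] at h3

/-- Inverses: if `f` vanishes nowhere then `φ⁻¹` converges to `f⁻¹`. -/
theorem inv [NeZero N] (h : ConvTo N φ f) (hf : ∀ τ, f τ ≠ 0) :
    ConvTo N φ⁻¹ (fun τ => (f τ)⁻¹) := by
  have hφ : φ ≠ 0 := by
    rintro rfl
    have h0 : f UpperHalfPlane.I = 0 :=
      (h UpperHalfPlane.I).unique (by simp)
    exact hf _ h0
  have hp := (convTo_iff N φ f).mp h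
  have hc0 : PowerSeries.coeff 0 φ.powerSeriesPart ≠ 0 := by
    rw [LaurentSeries.powerSeriesPart_coeff]
    intro h0
    rw [Nat.cast_zero, add_zero] at h0
    exact hφ (HahnSeries.coeff_order_eq_zero.mp h0)
  have hcc : PowerSeries.constantCoeff φ.powerSeriesPart ≠ 0 := by
    rw [← PowerSeries.coeff_zero_eq_constantCoeff_apply]
    exact hc0
  have hF : ∀ τ, (fun τ => tPar N τ ^ (-φ.order) * f τ) τ ≠ 0 := fun τ =>
    mul_ne_zero (zpow_ne_zero _ (tPar_ne_zero N τ)) (hf τ)
  have hinv := hp.inv hF hc0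
  have hφinv : φ⁻¹ = HahnSeries.single (-φ.order) (1 : ℂ) *
      HahnSeries.ofPowerSeries ℤ ℂ (φ.powerSeriesPart)⁻¹ := by
    apply inv_eq_of_mul_eq_one_right
    have hrep := LaurentSeries.single_order_mul_powerSeriesPart φ
    calc φ * (HahnSeries.single (-φ.order) (1 : ℂ) *
          HahnSeries.ofPowerSeries ℤ ℂ (φ.powerSeriesPart)⁻¹)
        = (HahnSeries.single φ.order (1 : ℂ) * HahnSeries.ofPowerSeries ℤ ℂ φ.powerSeriesPart) *
          (HahnSeries.single (-φ.order) (1 : ℂ) *
            HahnSeries.ofPowerSeries ℤ ℂ (φ.powerSeriesPart)⁻¹) := by rw [hrep]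
      _ = 1 := by
        rw [single_mul_ofPS_mul, add_neg_cancel, PowerSeries.mul_inv_cancel _ hcc]
        simp
  rw [hφinv, convTo_single_mul_ofPS_iff]
  intro τ
  have := hinv τ
  have ht := tPar_ne_zero N τ
  convert this using 1
  simp only [neg_neg, mul_inv, zpow_neg, inv_inv]

end ConvTo

/-- `exp(2πi b / M)` as a unit of `ℂ`. -/
def zetaU (M : ℕ) (b : ℤ) : ℂˣ :=
  Units.mk0 (Complex.exp (2 * π * Complex.I * b / M)) (Complex.exp_ne_zero _)

@[simp] theorem coe_zetaU (M : ℕ) (b : ℤ) :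
    (zetaU M b : ℂ) = Complex.exp (2 * π * Complex.I * b / M) := rfl

theorem twist_coeff' (u : ℂˣ) (φ : LaurentSeries ℂ) (n : ℤ) :
    (_root_.Fermat.Agent.S28.H205.twist u φ).coeff n = φ.coeff n * (u : ℂ) ^ n := by
  rw [_root_.Fermat.Agent.S28.H205.twist_coeff, Units.val_zpow_eq_zpow_val]

theorem hasSum_qExpand_iff (a : ℕ) [NeZero a] (φ : LaurentSeries ℂ) (t s : ℂ) :
    HasSum (fun k : ℤ => (ModularCurve.qExpand ℂ a φ).coeff k * t ^ k) s ↔
      HasSum (fun n : ℤ => φ.coeff n * (t ^ a) ^ n) s := by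
  have ha : (a : ℤ) ≠ 0 := by exact_mod_cast NeZero.ne a
  have hinj : Function.Injective (fun n : ℤ => (a : ℤ) * n) := fun x y h =>
    mul_left_cancel₀ ha h
  rw [← hinj.hasSum_iff (f := fun k : ℤ => (ModularCurve.qExpand ℂ a φ).coeff k * t ^ k)]
  · have hfun : ((fun k : ℤ => (ModularCurve.qExpand ℂ a φ).coeff k * t ^ k) ∘
        fun n : ℤ => (a : ℤ) * n) = fun n : ℤ => φ.coeff n * (t ^ a) ^ n := by
      funext n
      simp only [Function.comp_apply, ModularCurve.qExpand_coeff_mul]
      rw [zpow_mul, zpow_natCast]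
    rw [hfun]
  · intro k hk
    rw [ModularCurve.qExpand_coeff_of_not_dvd a φ (fun ⟨m, hm⟩ => hk ⟨m, hm.symm⟩), zero_mul]

theorem tPar_subst (N : ℕ) (a d : ℕ) (b : ℤ) (τ σ : ℍ) (hσ : (σ : ℂ) = (a * τ + b) / d) :
    tPar N σ = (zetaU (N * d) b : ℂ) * tPar (N * d) τ ^ a := by
  simp only [tPar, Function.Periodic.qParam, coe_zetaU, hσ]
  rw [← Complex.exp_nat_mul, ← Complex.exp_add]
  congr 1
  push_cast
  by_cases hd : (d : ℂ) = 0
  · simp [hd]
  by_cases hN : (N : ℂ) = 0
  · simp [hN]
  field_simp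
  ring

namespace ConvTo

variable {N : ℕ} {φ ψ : LaurentSeries ℂ} {f g : ℍ → ℂ}

/-- General substitution `τ ↦ (a τ + b) / d`. -/
theorem subst (h : ConvTo N φ f) (a d : ℕ) [NeZero a] (b : ℤ)
    (σ : ℍ → ℍ) (hσ : ∀ τ, (σ τ : ℂ) = (a * τ + b) / d) :
    ConvTo (N * d) (ModularCurve.qExpand ℂ a (H205.twist (zetaU (N * d) b) φ)) (f ∘ σ) := by
  intro τ
  rw [hasSum_qExpand_iff]
  have h1 := h (σ τ)
  rw [tPar_subst N a d b τ (σ τ) (hσ τ)] at h1
  have hfun : (fun n : ℤ => (H205.twist (zetaU (N * d) b) φ).coeff n *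
      (tPar (N * d) τ ^ a) ^ n) =
      fun n : ℤ => φ.coeff n * ((zetaU (N * d) b : ℂ) * tPar (N * d) τ ^ a) ^ n := by
    funext n
    rw [twist_coeff', mul_zpow]
    ring
  rw [hfun]
  exact h1

/-- Translation `τ ↦ τ + b` corresponds to the twist `t ↦ exp(2πi b/N) t`. -/
theorem twist (h : ConvTo N φ f) (b : ℤ) (σ : ℍ → ℍ)
    (hσ : ∀ τ, (σ τ : ℂ) = τ + b) :
    ConvTo N (H205.twist (zetaU N b) φ) (f ∘ σ) := by
  have h1 := h.subst 1 1 b σ (fun τ => by simp [hσ τ])
  rw [mul_one] at h1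
  simpa [ModularCurve.qExpand_one_apply] using h1

/-- `τ ↦ a τ` corresponds to `t ↦ t ^ a`. -/
theorem qExpand (h : ConvTo N φ f) (a : ℕ) [NeZero a] (σ : ℍ → ℍ)
    (hσ : ∀ τ, (σ τ : ℂ) = a * τ) :
    ConvTo N (ModularCurve.qExpand ℂ a φ) (f ∘ σ) := by
  have h1 := h.subst a 1 0 σ (fun τ => by simp [hσ τ])
  rw [mul_one] at h1
  have hz : zetaU N 0 = 1 := by
    ext
    simp
  rwa [hz, twist_one] at h1

/-- `τ ↦ τ / d` corresponds to passing from the parameter `t_N` to `t_{N d}`. -/
theorem scale (h : ConvTo N φ f) (d : ℕ) (σ : ℍ → ℍ)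
    (hσ : ∀ τ, (σ τ : ℂ) = τ / d) :
    ConvTo (N * d) φ (f ∘ σ) := by
  have h1 := h.subst 1 d 0 σ (fun τ => by simp [hσ τ])
  have hz : zetaU (N * d) 0 = 1 := by
    ext
    simp
  rwa [hz, twist_one, ModularCurve.qExpand_one_apply] at h1

/-- Change of parameter: `t_N = t_{N d} ^ d`. -/
theorem changeLevel (h : ConvTo N φ f) (d : ℕ) [NeZero d] :
    ConvTo (N * d) (ModularCurve.qExpand ℂ d φ) f := by
  have h1 := h.subst d d 0 id (fun τ => by
    have hd : (d : ℂ) ≠ 0 := by exact_mod_cast NeZero.ne d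
    simp only [id, Int.cast_zero, add_zero]
    field_simp)
  have hz : zetaU (N * d) 0 = 1 := by
    ext
    simp
  rwa [hz, twist_one] at h1

end ConvTo

theorem zetaU_one_zpow_eq_one_iff (N : ℕ) [NeZero N] (n : ℤ) :
    (zetaU N 1 : ℂ) ^ n = 1 ↔ (N : ℤ) ∣ n := by
  have hN : (N : ℂ) ≠ 0 := by exact_mod_cast NeZero.ne N
  rw [coe_zetaU, ← Complex.exp_int_mul, Complex.exp_eq_one_iff]
  constructor
  · rintro ⟨m, hm⟩
    refine ⟨m, ?_⟩
    have h2 : (2 * (π : ℂ) * Complex.I) ≠ 0 := by
      simp [Real.pi_ne_zero]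
    have h3 : (n : ℂ) = (N : ℂ) * m := by
      field_simp at hm
      simpa using hm
    exact_mod_cast h3
  · rintro ⟨m, rfl⟩
    refine ⟨m, ?_⟩
    push_cast
    field_simp

/-- Descent: an expansion in `t_N` of a function invariant under `τ ↦ τ + 1` is an expansion
in `q = t_N ^ N`. -/
theorem ConvTo.descend {N : ℕ} {φ : LaurentSeries ℂ} {f : ℍ → ℂ} [NeZero N] (h : ConvTo N φ f)
    (hT : ∀ τ σ : ℍ, (σ : ℂ) = τ + 1 → f σ = f τ) :
    ∃ φ₁ : LaurentSeries ℂ, φ = ModularCurve.qExpand ℂ N φ₁ ∧ ConvTo 1 φ₁ f := by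
  have hNpos : (0 : ℤ) < N := by exact_mod_cast Nat.pos_of_ne_zero (NeZero.ne N)
  -- invariance under the twist
  have htw : H205.twist (zetaU N 1) φ = φ := by
    have h1 := h.twist 1 (fun τ => (1 : ℝ) +ᵥ τ) (fun τ => by
      rw [UpperHalfPlane.coe_vadd]; push_cast; ring)
    have h2 : (f ∘ fun τ => (1 : ℝ) +ᵥ τ) = f := by
      funext τ
      exact hT τ _ (by rw [UpperHalfPlane.coe_vadd]; push_cast; ring)
    rw [h2] at h1
    exact h1.series_unique h
  have hvan : ∀ n : ℤ, ¬ (N : ℤ) ∣ n → φ.coeff n = 0 := by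
    intro n hn
    have h1 := congrArg (fun x => x.coeff n) htw
    simp only [twist_coeff'] at h1
    by_contra hne
    have h2 : (zetaU N 1 : ℂ) ^ n = 1 := by
      have := mul_left_cancel₀ hne (h1.trans (mul_one _).symm)
      exact this
    exact hn ((zetaU_one_zpow_eq_one_iff N n).mp h2)
  -- the descended series
  have hbdd : BddBelow (Function.support fun k : ℤ => φ.coeff ((N : ℤ) * k)) := by
    refine ⟨min φ.order 0, fun k hk => ?_⟩
    simp only [Function.mem_support, ne_eq] at hk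
    have h1 : φ.order ≤ (N : ℤ) * k := HahnSeries.order_le_of_coeff_ne_zero hk
    rcases le_or_gt 0 k with hk0 | hk0
    · exact le_trans (min_le_right _ _) hk0
    · refine le_trans (min_le_left _ _) (le_trans h1 ?_)
      nlinarith
  refine ⟨HahnSeries.ofSuppBddBelow _ hbdd, ?_, ?_⟩
  · ext n
    by_cases hn : (N : ℤ) ∣ n
    · obtain ⟨k, rfl⟩ := hn
      rw [ModularCurve.qExpand_coeff_mul]
      rfl
    · rw [hvan n hn, ModularCurve.qExpand_coeff_of_not_dvd N _ hn]
  · intro τ
    have h1 := h τ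
    have hinj : Function.Injective (fun k : ℤ => (N : ℤ) * k) := fun x y hxy =>
      mul_left_cancel₀ hNpos.ne' hxy
    rw [← hinj.hasSum_iff (fun n hn => by
      rw [hvan n (fun ⟨m, hm⟩ => hn ⟨m, hm.symm⟩), zero_mul])] at h1
    have hfun : ((fun n : ℤ => φ.coeff n * tPar N τ ^ n) ∘ fun k : ℤ => (N : ℤ) * k) =
        fun k : ℤ => (HahnSeries.ofSuppBddBelow _ hbdd).coeff k * tPar 1 τ ^ k := by
      funext k
      have ht : tPar 1 τ = tPar N τ ^ N := by
        have := tPar_subst 1 N N 0 τ τ (by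
          have hN : (N : ℂ) ≠ 0 := by exact_mod_cast NeZero.ne N
          field_simp
          simp)
        rw [this, one_mul]
        simp
      simp only [Function.comp_apply, ht]
      rw [zpow_mul, zpow_natCast]
      rfl
    rw [hfun] at h1
    exact h1

theorem convTo_zero (N : ℕ) : ConvTo N 0 0 := by
  intro τ
  simp [hasSum_zero]

theorem convTo_single (N : ℕ) (k : ℤ) (c : ℂ) :
    ConvTo N (HahnSeries.single k c) (fun τ => c * tPar N τ ^ k) := by
  intro τ
  have h := hasSum_single (f := fun n : ℤ => (HahnSeries.single k c).coeff n * tPar N τ ^ n) k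
    (fun n hn => by simp [HahnSeries.coeff_single_of_ne hn])
  simpa using h

theorem convTo_C (N : ℕ) (c : ℂ) : ConvTo N (HahnSeries.C c) (fun _ => c) := by
  have h := convTo_single N 0 c
  simpa [HahnSeries.C] using h

theorem convTo_one (N : ℕ) : ConvTo N 1 1 := by
  have h := convTo_C N 1
  rw [map_one] at h
  exact h

theorem ConvTo.pow {N : ℕ} {φ : LaurentSeries ℂ} {f : ℍ → ℂ} (hf : ConvTo N φ f) (k : ℕ) :
    ConvTo N (φ ^ k) (f ^ k) := by
  induction k with
  | zero => simpa using convTo_one N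
  | succ k ih => rw [_root_.pow_succ, _root_.pow_succ]; exact ih.mul hf

theorem ConvTo.const_mul {N : ℕ} {φ : LaurentSeries ℂ} {f : ℍ → ℂ} (hf : ConvTo N φ f) (c : ℂ) :
    ConvTo N (HahnSeries.C c * φ) (fun τ => c * f τ) :=
  (convTo_C N c).mul hf

theorem ConvTo.sum {N : ℕ} {ι : Type*} (s : Finset ι) {φ : ι → LaurentSeries ℂ}
    {f : ι → ℍ → ℂ} (h : ∀ i ∈ s, ConvTo N (φ i) (f i)) :
    ConvTo N (∑ i ∈ s, φ i) (∑ i ∈ s, f i) := by
  classical
  induction s using Finset.induction_on with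
  | empty => simpa using convTo_zero N
  | insert a s ha ih =>
    rw [Finset.sum_insert ha, Finset.sum_insert ha]
    exact (h a (Finset.mem_insert_self a s)).add
      (ih fun i hi => h i (Finset.mem_insert_of_mem hi))

theorem ConvTo.prod {N : ℕ} {ι : Type*} (s : Finset ι) {φ : ι → LaurentSeries ℂ}
    {f : ι → ℍ → ℂ} (h : ∀ i ∈ s, ConvTo N (φ i) (f i)) :
    ConvTo N (∏ i ∈ s, φ i) (∏ i ∈ s, f i) := by
  classical
  induction s using Finset.induction_on with
  | empty => simpa using convTo_one N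
  | insert a s ha ih =>
    rw [Finset.prod_insert ha, Finset.prod_insert ha]
    exact (h a (Finset.mem_insert_self a s)).mul
      (ih fun i hi => h i (Finset.mem_insert_of_mem hi))

end Fermat.Agent.S28.H205

end
end
-- ===== PACK-END S28/H205/Conv.lean

-- ===== PACK-BEGIN S24/H902/PowerEval.lean
section


/-!
# Evaluation of formal power series over `ℂ` at points of a disc

`Ev f q v` says that the power series `f` converges (unconditionally) at `q` with sum `v`.
We prove: compatibility with products (Cauchy product), uniqueness of the power series of a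
function on a disc, the Taylor series of a function differentiable on a disc, and that the
formal inverse of a power series computes the inverse of the value.
-/

set_option autoImplicit false

noncomputable section

namespace Fermat.Agent.S24.H902

open Complex PowerSeries Filter Topology

/-- `Ev f q v`: the power series `f` converges at `q` with sum `v`. -/
def Ev (f : PowerSeries ℂ) (q v : ℂ) : Prop :=
  HasSum (fun n : ℕ => PowerSeries.coeff n f * q ^ n) v

theorem Ev.hasSum {f : PowerSeries ℂ} {q v : ℂ} (h : Ev f q v) :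
    HasSum (fun n : ℕ => PowerSeries.coeff n f * q ^ n) v := h

theorem ev_iff {f : PowerSeries ℂ} {q v : ℂ} :
    Ev f q v ↔ HasSum (fun n : ℕ => PowerSeries.coeff n f * q ^ n) v := Iff.rfl

theorem Ev.unique {f : PowerSeries ℂ} {q v w : ℂ} (h : Ev f q v) (h' : Ev f q w) : v = w :=
  HasSum.unique h h'

theorem Ev.congr_val {f : PowerSeries ℂ} {q v w : ℂ} (h : Ev f q v) (hvw : v = w) : Ev f q w :=
  hvw ▸ h

theorem ev_one (q : ℂ) : Ev 1 q 1 := by
  unfold Ev
  have : (fun n : ℕ => PowerSeries.coeff n (1 : PowerSeries ℂ) * q ^ n)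
      = fun n : ℕ => if n = 0 then (1 : ℂ) else 0 := by
    funext n
    by_cases hn : n = 0
    · subst hn; simp
    · simp [PowerSeries.coeff_one, hn]
  rw [this]
  exact hasSum_ite_eq 0 (1 : ℂ)

theorem ev_C (c q : ℂ) : Ev (PowerSeries.C c) q c := by
  unfold Ev
  have : (fun n : ℕ => PowerSeries.coeff n (PowerSeries.C c : PowerSeries ℂ) * q ^ n)
      = fun n : ℕ => if n = 0 then c else 0 := by
    funext n
    by_cases hn : n = 0
    · subst hn; simp
    · simp [PowerSeries.coeff_C, hn]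
  rw [this]
  exact hasSum_ite_eq 0 c

theorem ev_X (q : ℂ) : Ev PowerSeries.X q q := by
  unfold Ev
  have : (fun n : ℕ => PowerSeries.coeff n (PowerSeries.X : PowerSeries ℂ) * q ^ n)
      = fun n : ℕ => if n = 1 then q else 0 := by
    funext n
    by_cases hn : n = 1
    · subst hn; simp
    · simp [PowerSeries.coeff_X, hn]
  rw [this]
  exact hasSum_ite_eq 1 q

theorem Ev.add {f g : PowerSeries ℂ} {q v w : ℂ} (hf : Ev f q v) (hg : Ev g q w) :
    Ev (f + g) q (v + w) := by
  unfold Ev at *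
  have h := HasSum.add hf hg
  have e : (fun n : ℕ => PowerSeries.coeff n (f + g) * q ^ n)
      = fun n : ℕ => PowerSeries.coeff n f * q ^ n + PowerSeries.coeff n g * q ^ n := by
    funext n
    rw [map_add, add_mul]
  rw [e]
  exact h

theorem Ev.smul {f : PowerSeries ℂ} {q v : ℂ} (c : ℂ) (hf : Ev f q v) :
    Ev (c • f) q (c * v) := by
  unfold Ev at *
  have h := HasSum.mul_left c hf
  have e : (fun n : ℕ => PowerSeries.coeff n (c • f) * q ^ n)
      = fun n : ℕ => c * (PowerSeries.coeff n f * q ^ n) := by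
    funext n
    rw [map_smul, smul_eq_mul, mul_assoc]
  rw [e]
  exact h

/-- Cauchy product. -/
theorem Ev.mul {f g : PowerSeries ℂ} {q v w : ℂ} (hf : Ev f q v) (hg : Ev g q w) :
    Ev (f * g) q (v * w) := by
  have hfs : Summable fun n : ℕ => ‖PowerSeries.coeff n f * q ^ n‖ :=
    summable_norm_iff.mpr hf.summable
  have hgs : Summable fun n : ℕ => ‖PowerSeries.coeff n g * q ^ n‖ :=
    summable_norm_iff.mpr hg.summable
  have h1 := tsum_mul_tsum_eq_tsum_sum_antidiagonal_of_summable_norm hfs hgs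
  have h2 := summable_norm_sum_mul_antidiagonal_of_summable_norm hfs hgs
  have h3 : Summable fun n : ℕ => ∑ kl ∈ Finset.HasAntidiagonal.antidiagonal n,
      (PowerSeries.coeff kl.1 f * q ^ kl.1) * (PowerSeries.coeff kl.2 g * q ^ kl.2) :=
    summable_norm_iff.mp h2
  have key : ∀ n : ℕ, ∑ kl ∈ Finset.HasAntidiagonal.antidiagonal n,
      (PowerSeries.coeff kl.1 f * q ^ kl.1) * (PowerSeries.coeff kl.2 g * q ^ kl.2)
        = PowerSeries.coeff n (f * g) * q ^ n := by
    intro n
    rw [PowerSeries.coeff_mul, Finset.sum_mul]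
    refine Finset.sum_congr rfl fun kl hkl => ?_
    have hkl' := Finset.HasAntidiagonal.mem_antidiagonal.mp hkl
    rw [← hkl', pow_add]
    ring
  unfold Ev
  have h4 : HasSum (fun n : ℕ => ∑ kl ∈ Finset.HasAntidiagonal.antidiagonal n,
      (PowerSeries.coeff kl.1 f * q ^ kl.1) * (PowerSeries.coeff kl.2 g * q ^ kl.2)) (v * w) := by
    have := h3.hasSum
    rw [← h1, hf.tsum_eq, hg.tsum_eq] at this
    exact this
  have e : (fun n : ℕ => PowerSeries.coeff n (f * g) * q ^ n)
      = fun n : ℕ => ∑ kl ∈ Finset.HasAntidiagonal.antidiagonal n,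
      (PowerSeries.coeff kl.1 f * q ^ kl.1) * (PowerSeries.coeff kl.2 g * q ^ kl.2) :=
    funext fun n => (key n).symm
  rw [e]
  exact h4

theorem Ev.pow {f : PowerSeries ℂ} {q v : ℂ} (hf : Ev f q v) (k : ℕ) :
    Ev (f ^ k) q (v ^ k) := by
  induction k with
  | zero => simpa using ev_one q
  | succ k ih => rw [pow_succ, pow_succ]; exact ih.mul hf

/-- A function given on a disc by a convergent power series has that series as its
formal power series expansion at `0`. -/
theorem hasFPowerSeriesOnBall_of_ev {a : PowerSeries ℂ} {r : NNReal} (hr : 0 < r) {c : ℂ → ℂ}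
    (ha : ∀ q : ℂ, ‖q‖ < r → Ev a q (c q)) :
    HasFPowerSeriesOnBall c
      (FormalMultilinearSeries.ofScalars ℂ fun n => PowerSeries.coeff n a) 0 r := by
  constructor
  · refine le_of_forall_lt_imp_le_of_dense fun r' hr' => ?_
    lift r' to NNReal using hr'.ne_top
    have hr'' : (r' : ℝ) < r := by exact_mod_cast hr'
    apply FormalMultilinearSeries.le_radius_of_summable
    have hs := (ha (r' : ℂ) (by simpa using hr'')).summable.norm
    refine hs.congr fun n => ?_
    rw [FormalMultilinearSeries.ofScalars_norm]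
    simp [norm_pow]
  · exact_mod_cast hr
  · intro y hy
    rw [Metric.eball_coe, mem_ball_zero_iff] at hy
    have h := ha y hy
    unfold Ev at h
    rw [zero_add]
    have e : (fun n : ℕ => (FormalMultilinearSeries.ofScalars ℂ
        (fun n => PowerSeries.coeff n a)) n fun _ => y)
        = fun n : ℕ => PowerSeries.coeff n a * y ^ n := by
      funext n
      rw [FormalMultilinearSeries.ofScalars_apply_eq]
      simp
    rw [e]
    exact h

/-- Uniqueness of power series expansions on a disc. -/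
theorem ev_series_unique {a b : PowerSeries ℂ} {r : ℝ} (hr : 0 < r) {c : ℂ → ℂ}
    (ha : ∀ q : ℂ, ‖q‖ < r → Ev a q (c q)) (hb : ∀ q : ℂ, ‖q‖ < r → Ev b q (c q)) :
    a = b := by
  lift r to NNReal using hr.le
  have hr' : 0 < r := by exact_mod_cast hr
  have h1 := (hasFPowerSeriesOnBall_of_ev hr' ha).hasFPowerSeriesAt
  have h2 := (hasFPowerSeriesOnBall_of_ev hr' hb).hasFPowerSeriesAt
  have h3 := h1.eq_formalMultilinearSeries h2
  have h4 := FormalMultilinearSeries.ofScalars_series_injective ℂ ℂ h3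
  ext n
  exact congrFun h4 n

/-- The Taylor series at `0` of a function, as a formal power series. -/
def taylor0 (F : ℂ → ℂ) : PowerSeries ℂ :=
  PowerSeries.mk fun n => ((n.factorial : ℂ))⁻¹ * iteratedDeriv n F 0

@[simp]
theorem coeff_taylor0 (F : ℂ → ℂ) (n : ℕ) :
    PowerSeries.coeff n (taylor0 F) = ((n.factorial : ℂ))⁻¹ * iteratedDeriv n F 0 := by
  simp [taylor0]

/-- A function differentiable on a disc around `0` is the sum of its Taylor series there. -/
theorem ev_taylor0 {F : ℂ → ℂ} {r : ℝ} (hF : DifferentiableOn ℂ F (Metric.ball 0 r)) {q : ℂ}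
    (hq : ‖q‖ < r) : Ev (taylor0 F) q (F q) := by
  have h := Complex.hasSum_taylorSeries_on_ball hF (z := q) (by simpa using hq)
  unfold Ev
  have e : (fun n : ℕ => PowerSeries.coeff n (taylor0 F) * q ^ n)
      = fun n : ℕ => ((n.factorial : ℂ))⁻¹ • (q - 0) ^ n • iteratedDeriv n F 0 := by
    funext n
    rw [coeff_taylor0, sub_zero, smul_eq_mul, smul_eq_mul]
    ring
  rw [e]
  exact h

/-- If a power series represents `F` on a disc, it is the Taylor series of `F`. -/
theorem eq_taylor0_of_ev {a : PowerSeries ℂ} {r : ℝ} (hr : 0 < r) {F : ℂ → ℂ}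
    (hF : DifferentiableOn ℂ F (Metric.ball 0 r))
    (ha : ∀ q : ℂ, ‖q‖ < r → Ev a q (F q)) : a = taylor0 F :=
  ev_series_unique hr ha fun _ hq => ev_taylor0 hF hq

/-- A convergent power series on a disc defines a differentiable function there. -/
theorem differentiableOn_of_ev {a : PowerSeries ℂ} {r : ℝ} (hr : 0 < r) {c : ℂ → ℂ}
    (ha : ∀ q : ℂ, ‖q‖ < r → Ev a q (c q)) : DifferentiableOn ℂ c (Metric.ball 0 r) := by
  lift r to NNReal using hr.le
  have hr' : 0 < r := by exact_mod_cast hr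
  have h := (hasFPowerSeriesOnBall_of_ev hr' ha).analyticOnNhd
  rw [Metric.eball_coe] at h
  exact h.differentiableOn

/-- **Formal inverse = analytic inverse.**  If `u` represents a nowhere vanishing function `U`
on the disc of radius `r` and `u * w = 1` formally, then `w` represents `1 / U` on that disc. -/
theorem ev_of_mul_eq_one {u w : PowerSeries ℂ} {r : ℝ} (hr : 0 < r) {U : ℂ → ℂ}
    (hu : ∀ q : ℂ, ‖q‖ < r → Ev u q (U q)) (hU : ∀ q : ℂ, ‖q‖ < r → U q ≠ 0)
    (huw : u * w = 1) {q : ℂ} (hq : ‖q‖ < r) : Ev w q (U q)⁻¹ := by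
  have hUd : DifferentiableOn ℂ U (Metric.ball 0 r) := differentiableOn_of_ev hr hu
  have hGd : DifferentiableOn ℂ (fun q => (U q)⁻¹) (Metric.ball 0 r) :=
    hUd.inv fun x hx => hU x (by simpa using hx)
  have hg : ∀ q : ℂ, ‖q‖ < r → Ev (taylor0 fun q => (U q)⁻¹) q (U q)⁻¹ :=
    fun q hq => ev_taylor0 hGd hq
  have hprod : ∀ q : ℂ, ‖q‖ < r → Ev (u * taylor0 fun q => (U q)⁻¹) q 1 := fun q hq =>
    ((hu q hq).mul (hg q hq)).congr_val (mul_inv_cancel₀ (hU q hq))
  have hone : u * (taylor0 fun q => (U q)⁻¹) = 1 :=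
    ev_series_unique (c := fun _ => 1) hr hprod fun q _ => ev_one q
  have hw : w = taylor0 fun q => (U q)⁻¹ := by
    calc w = w * (u * taylor0 fun q => (U q)⁻¹) := by rw [hone, mul_one]
      _ = (u * w) * taylor0 (fun q => (U q)⁻¹) := by ring
      _ = taylor0 fun q => (U q)⁻¹ := by rw [huw, one_mul]
  rw [hw]
  exact hg q hq

end Fermat.Agent.S24.H902

end
end
-- ===== PACK-END S24/H902/PowerEval.lean

-- ===== PACK-BEGIN S15/H2/FiniteSplit.lean
section


/-!
# Row S15, node DESC (helper2): splitting a finite module at an ideal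

For a commutative ring `T`, an ideal `𝔪` and a **finite** `T`-module `Y` there are `K ≥ 1` and
`f ∈ 𝔪 ^ K` acting on `Y` as an idempotent such that `𝔪 ^ K` kills `(1 - f) Y`.  Hence
`Y = Y[𝔪^∞] ⊕ f Y`, `Y[𝔪^∞] = ker f = (1 - f) Y` and `f Y ⊆ 𝔪 ^ k Y` for all `k`.
The datum `(K, f)` only depends on the annihilator of `Y`, so it passes to submodules and
quotients; this makes `Y ↦ Y[𝔪^∞]` exact on finite modules without any localisation.
-/

set_option autoImplicit false

namespace Fermat.Agent.S15.H2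

open Submodule

section Split

variable {T : Type*} [CommRing T]

/-- The `𝔪`-primary part `Y[𝔪^∞]` of a module. -/
def primaryPart (𝔪 : Ideal T) (Y : Type*) [AddCommGroup Y] [Module T Y] : Submodule T Y where
  carrier := {y | ∃ k : ℕ, ∀ t ∈ 𝔪 ^ k, t • y = 0}
  zero_mem' := ⟨0, fun t _ => smul_zero t⟩
  add_mem' := by
    rintro a b ⟨k, hk⟩ ⟨l, hl⟩
    refine ⟨max k l, fun t ht => ?_⟩
    rw [smul_add, hk t (Ideal.pow_le_pow_right (le_max_left k l) ht),
      hl t (Ideal.pow_le_pow_right (le_max_right k l) ht), add_zero]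
  smul_mem' := by
    rintro c y ⟨k, hk⟩
    exact ⟨k, fun t ht => by rw [smul_comm, hk t ht, smul_zero]⟩

theorem mem_primaryPart {𝔪 : Ideal T} {Y : Type*} [AddCommGroup Y] [Module T Y] {y : Y} :
    y ∈ primaryPart 𝔪 Y ↔ ∃ k : ℕ, ∀ t ∈ 𝔪 ^ k, t • y = 0 :=
  Iff.rfl

/-- A splitting datum for `Y` at `𝔪`. -/
structure IsSplit (𝔪 : Ideal T) (K : ℕ) (f : T) (Y : Type*) [AddCommGroup Y] [Module T Y] :
    Prop where
  pos : 1 ≤ K
  mem : f ∈ 𝔪 ^ K
  idem : ∀ y : Y, f • f • y = f • y
  kill : ∀ t ∈ 𝔪 ^ K, ∀ y : Y, t • (y - f • y) = 0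

variable {𝔪 : Ideal T} {K : ℕ} {f : T}

theorem exists_isSplit (𝔪 : Ideal T) (Y : Type*) [AddCommGroup Y] [Module T Y] [Finite Y] :
    ∃ (K : ℕ) (f : T), IsSplit 𝔪 K f Y := by
  have : IsArtinian T Y := isArtinian_of_finite
  obtain ⟨n, hn⟩ := IsArtinian.monotone_stabilizes (R := T) (M := Y)
    ⟨fun k => OrderDual.toDual ((𝔪 ^ k) • (⊤ : Submodule T Y)), fun a b hab =>
      OrderDual.toDual_le_toDual.mpr (Submodule.smul_mono_left (Ideal.pow_le_pow_right hab))⟩
  have hn' : ∀ m, n ≤ m → (𝔪 ^ n) • (⊤ : Submodule T Y) = (𝔪 ^ m) • (⊤ : Submodule T Y) :=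
    fun m hm => hn m hm
  set K := n + 1 with hK
  set N : Submodule T Y := (𝔪 ^ K) • (⊤ : Submodule T Y) with hN
  have hNfg : N.FG := by
    have : IsNoetherian T Y := isNoetherian_of_finite T Y
    exact IsNoetherian.noetherian N
  have hle : N ≤ (𝔪 ^ K) • N := by
    rw [hN, ← Submodule.mul_smul, ← pow_add, ← hn' (K + K) (by omega), ← hn' K (by omega)]
  obtain ⟨r, hr1, hr⟩ :=
    Submodule.exists_sub_one_mem_and_smul_eq_zero_of_fg_of_le_smul (𝔪 ^ K) N hNfg hle
  have hfmem : 1 - r ∈ 𝔪 ^ K := by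
    have := (𝔪 ^ K).neg_mem hr1
    simpa using this
  have hmemN : ∀ t ∈ 𝔪 ^ K, ∀ y : Y, t • y ∈ N := fun t ht y =>
    Submodule.smul_mem_smul ht Submodule.mem_top
  refine ⟨K, 1 - r, ⟨by omega, hfmem, fun y => ?_, fun t ht y => ?_⟩⟩
  · -- idempotent: (1 - r) • y ∈ N so r • (1 - r) • y = 0
    have h1 := hr _ (hmemN _ hfmem y)
    have : (1 - r) • (1 - r) • y = (1 - r) • y - r • (1 - r) • y := by
      rw [sub_smul 1 r ((1 - r) • y), one_smul]
    rw [this, h1, sub_zero]
  · have h1 := hr _ (hmemN t ht y)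
    have : y - (1 - r) • y = r • y := by rw [sub_smul, one_smul]; abel
    rw [this, smul_comm, h1]

namespace IsSplit

variable {Y : Type*} [AddCommGroup Y] [Module T Y]

theorem pow_smul (h : IsSplit 𝔪 K f Y) (y : Y) : ∀ n : ℕ, 1 ≤ n → f ^ n • y = f • y := by
  intro n hn
  induction n, hn using Nat.le_induction with
  | base => rw [pow_one]
  | succ n _ ih => rw [pow_succ', mul_smul, ih, h.idem]

theorem pow_mem (h : IsSplit 𝔪 K f Y) (n : ℕ) : f ^ n ∈ 𝔪 ^ n := by
  have h1 : f ^ n ∈ (𝔪 ^ K) ^ n := Ideal.pow_mem_pow h.mem n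
  rw [← pow_mul] at h1
  exact Ideal.pow_le_pow_right (Nat.le_mul_of_pos_left n h.pos) h1

theorem not_mem_of_ne_top (h : IsSplit 𝔪 K f Y) (h𝔪 : 𝔪 ≠ ⊤) : 1 - f ∉ 𝔪 := by
  intro hmem
  have hf : f ∈ 𝔪 := by
    have := h.pow_mem 1
    simpa using this
  exact h𝔪 ((Ideal.eq_top_iff_one 𝔪).mpr (by simpa using 𝔪.add_mem hmem hf))

/-- `Y[𝔪^∞] = ker f`. -/
theorem mem_primaryPart_iff (h : IsSplit 𝔪 K f Y) (y : Y) :
    y ∈ primaryPart 𝔪 Y ↔ f • y = 0 := by
  constructor
  · rintro ⟨k, hk⟩
    rcases Nat.eq_zero_or_pos k with rfl | hkpos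
    · have := hk 1 (by simp)
      rw [one_smul] at this
      rw [this, smul_zero]
    · rw [← h.pow_smul y k hkpos]
      exact hk _ (h.pow_mem k)
  · intro hy
    refine ⟨K, fun t ht => ?_⟩
    have := h.kill t ht y
    rwa [hy, sub_zero] at this

theorem sub_smul_mem_primaryPart (h : IsSplit 𝔪 K f Y) (y : Y) :
    y - f • y ∈ primaryPart 𝔪 Y := by
  rw [h.mem_primaryPart_iff, smul_sub, h.idem, sub_self]

theorem smul_mem_pow_smul_top (h : IsSplit 𝔪 K f Y) (y : Y) (n : ℕ) :
    f • y ∈ (𝔪 ^ n) • (⊤ : Submodule T Y) := by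
  rcases Nat.eq_zero_or_pos n with rfl | hn
  · simp
  · rw [← h.pow_smul y n hn]
    exact Submodule.smul_mem_smul (h.pow_mem n) Submodule.mem_top

/-- If `Y[𝔪^∞] = 0` then `Y = 𝔪 Y`. -/
theorem top_le_smul_top_of_primaryPart_eq_bot (h : IsSplit 𝔪 K f Y)
    (h0 : primaryPart 𝔪 Y = ⊥) : (⊤ : Submodule T Y) ≤ 𝔪 • (⊤ : Submodule T Y) := by
  intro y _
  have h1 : y - f • y = 0 := by
    have := h.sub_smul_mem_primaryPart y
    rwa [h0, Submodule.mem_bot] at this
  have h2 : y = f • y := sub_eq_zero.mp h1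
  rw [h2]
  have := h.smul_mem_pow_smul_top y 1
  rwa [pow_one] at this

/-- A splitting datum passes to the target of a surjective linear map. -/
theorem of_surjective {Z : Type*} [AddCommGroup Z] [Module T Z] (h : IsSplit 𝔪 K f Y)
    (φ : Y →ₗ[T] Z) (hφ : Function.Surjective φ) : IsSplit 𝔪 K f Z where
  pos := h.pos
  mem := h.mem
  idem := fun z => by
    obtain ⟨y, rfl⟩ := hφ z
    rw [← map_smul, ← map_smul, h.idem]
  kill := fun t ht z => by
    obtain ⟨y, rfl⟩ := hφ z
    rw [← map_smul, ← map_sub, ← map_smul, h.kill t ht y, map_zero]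

/-- A splitting datum passes to the source of an injective linear map. -/
theorem of_injective {Z : Type*} [AddCommGroup Z] [Module T Z] (h : IsSplit 𝔪 K f Y)
    (φ : Z →ₗ[T] Y) (hφ : Function.Injective φ) : IsSplit 𝔪 K f Z where
  pos := h.pos
  mem := h.mem
  idem := fun z => hφ (by rw [map_smul, map_smul, h.idem])
  kill := fun t ht z => hφ (by
    rw [map_smul, map_sub, map_smul, h.kill t ht, map_zero])

end IsSplit

end Split

end Fermat.Agent.S15.H2

end
-- ===== PACK-END S15/H2/FiniteSplit.lean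

-- ===== PACK-BEGIN Lib/RR/H80/Res/FPTrace.lean
section


/-!
# Traces of finite-potent endomorphisms (Tate, *Residues of differentials on curves*, §1)

`FinPot θ` : some power of `θ` has finite-dimensional range.
`fpTr θ`   : the trace of `θ` on the range of such a power (`0` if `θ` is not finite-potent).

Main lemma `fpTr_eq_trace_restrict`: the trace can be computed on any finite-dimensional
`θ`-stable subspace containing the range of some power of `θ`.
-/

set_option autoImplicit false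

noncomputable section

namespace Fermat.Agent.Lib.RR.H80

open LinearMap Module

variable {K V V' : Type*} [Field K] [AddCommGroup V] [Module K V] [AddCommGroup V'] [Module K V']

/-- `θ` is finite-potent: some power has finite-dimensional range. -/
def FinPot (θ : Module.End K V) : Prop :=
  ∃ n : ℕ, FiniteDimensional K (LinearMap.range (θ ^ n))

theorem range_pow_stable (θ : Module.End K V) (n : ℕ) :
    ∀ x ∈ LinearMap.range (θ ^ n), θ x ∈ LinearMap.range (θ ^ n) := by
  rintro x ⟨y, rfl⟩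
  refine ⟨θ y, ?_⟩
  rw [← Module.End.mul_apply, ← Module.End.mul_apply, ← pow_succ, ← pow_succ']

open Classical in
def fpTr (θ : Module.End K V) : K :=
  if h : FinPot θ then
    LinearMap.trace K (LinearMap.range (θ ^ h.choose)) (θ.restrict (range_pow_stable θ h.choose))
  else 0

theorem trace_restrict_eq_of_map_le (θ : Module.End K V) {W W' : Submodule K V}
    [FiniteDimensional K W] [FiniteDimensional K W'] (hle : W' ≤ W)
    (hW : ∀ x ∈ W, θ x ∈ W) (hW' : ∀ x ∈ W', θ x ∈ W') (h : ∀ x ∈ W, θ x ∈ W') :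
    LinearMap.trace K W (θ.restrict hW) = LinearMap.trace K W' (θ.restrict hW') := by
  let ι : W' →ₗ[K] W := Submodule.inclusion hle
  let p : W →ₗ[K] W' := (θ.domRestrict W).codRestrict W' (fun x => h x x.2)
  have h1 : θ.restrict hW = ι ∘ₗ p := by
    ext x
    rfl
  have h2 : θ.restrict hW' = p ∘ₗ ι := by
    ext x
    rfl
  rw [h1, h2]
  exact (LinearMap.trace_comp_comm' ι p).symm

theorem pow_mem_of_stable (θ : Module.End K V) {W : Submodule K V} (hW : ∀ x ∈ W, θ x ∈ W)
    (k : ℕ) : ∀ x ∈ W, (θ ^ k) x ∈ W := by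
  induction k with
  | zero => intro x hx; simpa using hx
  | succ k ih =>
    intro x hx
    rw [pow_succ', Module.End.mul_apply]
    exact hW _ (ih x hx)

theorem trace_restrict_eq_of_pow_map_le (θ : Module.End K V) {W' : Submodule K V}
    [FiniteDimensional K W'] (hW' : ∀ x ∈ W', θ x ∈ W') (k : ℕ) :
    ∀ (W : Submodule K V) [FiniteDimensional K W] (_ : W' ≤ W) (hW : ∀ x ∈ W, θ x ∈ W)
      (_ : ∀ x ∈ W, (θ ^ k) x ∈ W'),
    LinearMap.trace K W (θ.restrict hW) = LinearMap.trace K W' (θ.restrict hW') := by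
  induction k with
  | zero =>
    intro W _ hle hW h
    have hWW : W = W' := le_antisymm (fun x hx => by simpa using h x hx) hle
    subst hWW
    rfl
  | succ k ih =>
    intro W _ hle hW h
    have hmapW : W.map θ ≤ W := by
      rintro _ ⟨x, hx, rfl⟩
      exact hW x hx
    set W₁ : Submodule K V := W' ⊔ W.map θ with hW₁
    have hW₁le : W₁ ≤ W := sup_le hle hmapW
    have : FiniteDimensional K W₁ := Submodule.finiteDimensional_of_le hW₁le
    have hW₁st : ∀ x ∈ W₁, θ x ∈ W₁ := by
      intro x hx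
      obtain ⟨a, ha, b, hb, rfl⟩ := Submodule.mem_sup.mp hx
      rw [map_add]
      refine Submodule.add_mem _ (Submodule.mem_sup_left (hW' a ha)) (Submodule.mem_sup_right ?_)
      exact Submodule.mem_map_of_mem (hmapW hb)
    have hstep : ∀ x ∈ W, θ x ∈ W₁ := fun x hx =>
      Submodule.mem_sup_right (Submodule.mem_map_of_mem hx)
    have hk : ∀ x ∈ W₁, (θ ^ k) x ∈ W' := by
      intro x hx
      obtain ⟨a, ha, b, hb, rfl⟩ := Submodule.mem_sup.mp hx
      rw [map_add]
      refine Submodule.add_mem _ (pow_mem_of_stable θ hW' k a ha) ?_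
      obtain ⟨c, hc, rfl⟩ := hb
      have := h c hc
      rwa [pow_succ, Module.End.mul_apply] at this
    rw [trace_restrict_eq_of_map_le θ hW₁le hW hW₁st hstep]
    exact ih W₁ (le_sup_left) hW₁st hk

theorem fpTr_eq_trace_restrict (θ : Module.End K V) (W : Submodule K V) [FiniteDimensional K W]
    (hW : ∀ x ∈ W, θ x ∈ W) (n : ℕ) (hn : LinearMap.range (θ ^ n) ≤ W) :
    fpTr θ = LinearMap.trace K W (θ.restrict hW) := by
  have hfp : FinPot θ := ⟨n, Submodule.finiteDimensional_of_le hn⟩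
  rw [fpTr, dif_pos hfp]
  have : FiniteDimensional K (LinearMap.range (θ ^ hfp.choose)) := hfp.choose_spec
  set W₀ := LinearMap.range (θ ^ hfp.choose) with hW₀
  have hW₀st := range_pow_stable θ hfp.choose
  set U : Submodule K V := W₀ ⊔ W with hU
  have : FiniteDimensional K U := by
    rw [hU]; infer_instance
  have hUst : ∀ x ∈ U, θ x ∈ U := by
    intro x hx
    obtain ⟨a, ha, b, hb, rfl⟩ := Submodule.mem_sup.mp hx
    rw [map_add]
    exact Submodule.add_mem _ (Submodule.mem_sup_left (hW₀st a ha))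
      (Submodule.mem_sup_right (hW b hb))
  have e1 := trace_restrict_eq_of_pow_map_le θ hW₀st hfp.choose U le_sup_left hUst
    (fun x _ => LinearMap.mem_range_self _ x)
  have e2 := trace_restrict_eq_of_pow_map_le θ hW n U le_sup_right hUst
    (fun x _ => hn (LinearMap.mem_range_self _ x))
  rw [← e1, e2]

theorem fpTr_of_not_finPot {θ : Module.End K V} (h : ¬ FinPot θ) : fpTr θ = 0 := by
  unfold fpTr
  exact dif_neg h

theorem finPot_of_range_pow_le (θ : Module.End K V) (W : Submodule K V) [FiniteDimensional K W]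
    (n : ℕ) (hn : LinearMap.range (θ ^ n) ≤ W) : FinPot θ :=
  ⟨n, Submodule.finiteDimensional_of_le hn⟩

/-- A nilpotent endomorphism has trace zero. -/
theorem fpTr_eq_zero_of_pow_eq_zero (θ : Module.End K V) (n : ℕ) (h : θ ^ n = 0) : fpTr θ = 0 := by
  have hst : ∀ x ∈ (⊥ : Submodule K V), θ x ∈ (⊥ : Submodule K V) := by
    intro x hx
    rw [Submodule.mem_bot] at hx ⊢
    rw [hx, map_zero]
  rw [fpTr_eq_trace_restrict θ ⊥ hst n (by rw [h, LinearMap.range_zero])]
  have : θ.restrict hst = 0 := Subsingleton.elim _ _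
  rw [this, map_zero]

theorem fpTr_zero : fpTr (0 : Module.End K V) = 0 :=
  fpTr_eq_zero_of_pow_eq_zero 0 1 (pow_one 0)

theorem finPot_smul {c : K} (hc : c ≠ 0) (θ : Module.End K V) : FinPot (c • θ) ↔ FinPot θ := by
  have key : ∀ n : ℕ, LinearMap.range ((c • θ) ^ n) = LinearMap.range (θ ^ n) := by
    intro n
    rw [smul_pow]
    exact LinearMap.range_smul _ _ (pow_ne_zero n hc)
  constructor
  · rintro ⟨n, hn⟩
    exact ⟨n, by rwa [key n] at hn⟩
  · rintro ⟨n, hn⟩
    exact ⟨n, by rwa [key n]⟩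

theorem fpTr_smul (c : K) (θ : Module.End K V) : fpTr (c • θ) = c * fpTr θ := by
  rcases eq_or_ne c 0 with rfl | hc
  · rw [zero_smul, fpTr_zero, zero_mul]
  by_cases h : FinPot θ
  · obtain ⟨n, hn⟩ := h
    have hst := range_pow_stable θ n
    have hst' : ∀ x ∈ LinearMap.range (θ ^ n), (c • θ) x ∈ LinearMap.range (θ ^ n) :=
      fun x hx => Submodule.smul_mem _ c (hst x hx)
    rw [fpTr_eq_trace_restrict θ _ hst n le_rfl,
      fpTr_eq_trace_restrict (c • θ) _ hst' n (by
        rw [smul_pow, LinearMap.range_smul _ _ (pow_ne_zero n hc)])]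
    have : (c • θ).restrict hst' = c • θ.restrict hst := by
      ext x
      rfl
    rw [this, map_smul, smul_eq_mul]
  · have h' : ¬ FinPot (c • θ) := fun hh => h ((finPot_smul hc θ).mp hh)
    rw [fpTr_of_not_finPot h, fpTr_of_not_finPot h', mul_zero]

theorem fpTr_neg (θ : Module.End K V) : fpTr (-θ) = -fpTr θ := by
  have := fpTr_smul (-1 : K) θ
  simpa using this

/-- Additivity on a common finite-dimensional stable subspace. -/
theorem fpTr_add_of_stable (θ φ : Module.End K V) (W : Submodule K V) [FiniteDimensional K W]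
    (hθ : ∀ x ∈ W, θ x ∈ W) (hφ : ∀ x ∈ W, φ x ∈ W) (n : ℕ)
    (hθn : LinearMap.range (θ ^ n) ≤ W) (hφn : LinearMap.range (φ ^ n) ≤ W)
    (hn : LinearMap.range ((θ + φ) ^ n) ≤ W) :
    fpTr (θ + φ) = fpTr θ + fpTr φ := by
  have hst : ∀ x ∈ W, (θ + φ) x ∈ W := fun x hx => Submodule.add_mem _ (hθ x hx) (hφ x hx)
  rw [fpTr_eq_trace_restrict θ W hθ n hθn, fpTr_eq_trace_restrict φ W hφ n hφn,
    fpTr_eq_trace_restrict (θ + φ) W hst n hn, ← map_add]
  congr 1

theorem comp_pow_succ (φ : V' →ₗ[K] V) (ψ : V →ₗ[K] V') (n : ℕ) :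
    ((ψ ∘ₗ φ : Module.End K V') ^ (n + 1)) = ψ ∘ₗ ((φ ∘ₗ ψ : Module.End K V) ^ n) ∘ₗ φ := by
  induction n with
  | zero =>
    ext x
    simp
  | succ n ih =>
    rw [pow_succ, ih]
    ext x
    simp only [Module.End.mul_apply, LinearMap.comp_apply]
    rw [pow_succ, Module.End.mul_apply]
    rfl

/-- `Tr (φ ψ) = Tr (ψ φ)`. -/
theorem fpTr_comp_comm (φ : V' →ₗ[K] V) (ψ : V →ₗ[K] V')
    (h : FinPot (φ ∘ₗ ψ : Module.End K V)) :
    fpTr (φ ∘ₗ ψ : Module.End K V) = fpTr (ψ ∘ₗ φ : Module.End K V') := by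
  obtain ⟨n, hn⟩ := h
  set W : Submodule K V := LinearMap.range ((φ ∘ₗ ψ : Module.End K V) ^ n) with hWdef
  have hWst : ∀ x ∈ W, (φ ∘ₗ ψ : Module.End K V) x ∈ W := range_pow_stable _ n
  set W' : Submodule K V' := W.map ψ with hW'def
  have : FiniteDimensional K W' := by rw [hW'def]; infer_instance
  have hW'st : ∀ x ∈ W', (ψ ∘ₗ φ : Module.End K V') x ∈ W' := by
    rintro _ ⟨w, hw, rfl⟩
    exact ⟨_, hWst w hw, rfl⟩
  have hn' : LinearMap.range ((ψ ∘ₗ φ : Module.End K V') ^ (n + 1)) ≤ W' := by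
    rintro _ ⟨x, rfl⟩
    rw [comp_pow_succ]
    exact ⟨_, LinearMap.mem_range_self _ (φ x), rfl⟩
  rw [fpTr_eq_trace_restrict _ W hWst n le_rfl, fpTr_eq_trace_restrict _ W' hW'st (n + 1) hn']
  let a : W →ₗ[K] W' := (ψ.domRestrict W).codRestrict W' (fun x => ⟨x, x.2, rfl⟩)
  let b : W' →ₗ[K] W := (φ.domRestrict W').codRestrict W (fun x => by
    obtain ⟨w, hw, hx⟩ := x.2
    show φ (x : V') ∈ W
    rw [← hx]
    exact hWst w hw)
  have h1 : (φ ∘ₗ ψ : Module.End K V).restrict hWst = b ∘ₗ a := by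
    ext x
    rfl
  have h2 : (ψ ∘ₗ φ : Module.End K V').restrict hW'st = a ∘ₗ b := by
    ext x
    rfl
  rw [h1, h2]
  exact LinearMap.trace_comp_comm' a b

end Fermat.Agent.Lib.RR.H80

end
end
-- ===== PACK-END Lib/RR/H80/Res/FPTrace.lean

-- ===== PACK-BEGIN S55/Bridge/Level.lean
section



/-!
# S55 bridge, part B2a: a representation as in S55 factors through a finite Galois level
unramified outside `S`.
-/

set_option autoImplicit false

namespace Fermat.Agent.S55.Bridge

open IntermediateField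

/-- `ℚ̄/ℚ` is algebraic (for the `Algebra ℚ ℚ̄` instance found by instance search). -/
theorem isAlgebraic_Qbar : Algebra.IsAlgebraic ℚ (AlgebraicClosure ℚ) :=
  AlgebraicClosure.isAlgebraic ℚ

/-- `ℚ̄/ℚ` is Galois (for the `Algebra ℚ ℚ̄` instance found by instance search). -/
theorem isGalois_Qbar : IsGalois ℚ (AlgebraicClosure ℚ) := by
  haveI : Algebra.IsAlgebraic ℚ (AlgebraicClosure ℚ) := isAlgebraic_Qbar
  haveI : IsAlgClosure ℚ (AlgebraicClosure ℚ) := ⟨inferInstance, inferInstance⟩
  haveI : Normal ℚ (AlgebraicClosure ℚ) := IsAlgClosure.normal ℚ (AlgebraicClosure ℚ)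
  exact isGalois_iff.mpr ⟨inferInstance, inferInstance⟩

attribute [local instance] isAlgebraic_Qbar isGalois_Qbar

/-- A subgroup of `G_ℚ` containing `G_F` for a finite `F/ℚ` and all inertia groups outside `S`
is `G_L` for a finite `L/ℚ` unramified outside `S`. -/
theorem exists_level_of_subgroup (S : Finset Nat.Primes)
    (N : Subgroup (AlgebraicClosure ℚ ≃ₐ[ℚ] AlgebraicClosure ℚ))
    (F : IntermediateField ℚ (AlgebraicClosure ℚ)) (hFfin : FiniteDimensional ℚ F)
    (hF : F.fixingSubgroup ≤ N)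
    (hur : ∀ q : Nat.Primes, q ∉ S → ∀ A : ValuationSubring (AlgebraicClosure ℚ),
      A.LiesOverPrime (q : ℕ) → A.inertiaSubgroupIn ℚ ≤ N) :
    ∃ L : IntermediateField ℚ (AlgebraicClosure ℚ),
      L.IsUnramifiedOutside S ∧ L.fixingSubgroup = N ∧ L ≤ F := by
  have hopenF : IsOpen (F.fixingSubgroup : Set (AlgebraicClosure ℚ ≃ₐ[ℚ] AlgebraicClosure ℚ)) :=
    IntermediateField.fixingSubgroup_isOpen F
  have hopen : IsOpen (N : Set (AlgebraicClosure ℚ ≃ₐ[ℚ] AlgebraicClosure ℚ)) :=
    Subgroup.isOpen_mono hF hopenF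
  have hclosed : IsClosed (N : Set (AlgebraicClosure ℚ ≃ₐ[ℚ] AlgebraicClosure ℚ)) :=
    Subgroup.isClosed_of_isOpen N hopen
  have hfix : (IntermediateField.fixedField N).fixingSubgroup = N :=
    InfiniteGalois.fixingSubgroup_fixedField ⟨N, hclosed⟩
  have hle : IntermediateField.fixedField N ≤ F := by
    rw [← InfiniteGalois.fixedField_fixingSubgroup F]
    exact IntermediateField.fixedField_antitone hF
  refine ⟨IntermediateField.fixedField N, ⟨?_, ?_⟩, hfix, hle⟩
  · exact FiniteDimensional.of_injective (IntermediateField.inclusion hle).toLinearMap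
      (IntermediateField.inclusion_injective hle)
  · intro q hq A hA
    rw [hfix]
    exact hur q hq A hA

/-- If moreover the subgroup is normal, the level is Galois over `ℚ`. -/
theorem exists_galois_level_of_subgroup (S : Finset Nat.Primes)
    (N : Subgroup (AlgebraicClosure ℚ ≃ₐ[ℚ] AlgebraicClosure ℚ)) [N.Normal]
    (F : IntermediateField ℚ (AlgebraicClosure ℚ)) (hFfin : FiniteDimensional ℚ F)
    (hF : F.fixingSubgroup ≤ N)
    (hur : ∀ q : Nat.Primes, q ∉ S → ∀ A : ValuationSubring (AlgebraicClosure ℚ),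
      A.LiesOverPrime (q : ℕ) → A.inertiaSubgroupIn ℚ ≤ N) :
    ∃ L : IntermediateField ℚ (AlgebraicClosure ℚ),
      L.IsUnramifiedOutside S ∧ IsGalois ℚ L ∧ L.fixingSubgroup = N ∧ L ≤ F := by
  obtain ⟨L, hL, hfix, hle⟩ := exists_level_of_subgroup S N F hFfin hF hur
  refine ⟨L, hL, ?_, hfix, hle⟩
  have h := (InfiniteGalois.normal_iff_isGalois L).1 (by rw [hfix]; infer_instance)
  convert h
  exact Subsingleton.elim _ _

section Rep

variable {k : Type} [Field k]
  (M : Rep k (AlgebraicClosure ℚ ≃ₐ[ℚ] AlgebraicClosure ℚ)) [FiniteDimensional k M]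

/-- Pointwise smoothness plus finite-dimensionality gives a uniform finite level. -/
theorem exists_finite_level_of_smooth
    (hsm : ∀ m : M, ∃ F : IntermediateField ℚ (AlgebraicClosure ℚ), FiniteDimensional ℚ F ∧
      ∀ s ∈ F.fixingSubgroup, M.ρ s m = m) :
    ∃ F : IntermediateField ℚ (AlgebraicClosure ℚ), FiniteDimensional ℚ F ∧
      ∀ s ∈ F.fixingSubgroup, M.ρ s = 1 := by
  classical
  choose F hFfin hFfix using hsm
  let b := Module.finBasis k M
  refine ⟨⨆ i, F (b i), ?_, ?_⟩
  · haveI : ∀ i, FiniteDimensional ℚ (F (b i)) := fun i => hFfin (b i)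
    exact IntermediateField.finiteDimensional_iSup_of_finite
  · intro s hs
    apply b.ext
    intro i
    have hle : F (b i) ≤ ⨆ i, F (b i) := le_iSup (fun i => F (b i)) i
    exact hFfix (b i) s (IntermediateField.fixingSubgroup_antitone hle hs)

/-- **B2a.** The representation `M` of S55 factors through `Gal(L/ℚ)` for a finite Galois
extension `L/ℚ` unramified outside `S`; in fact `G_L = ker ρ`. -/
theorem exists_galois_level_of_rep (S : Finset Nat.Primes)
    (hsm : ∀ m : M, ∃ F : IntermediateField ℚ (AlgebraicClosure ℚ), FiniteDimensional ℚ F ∧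
      ∀ s ∈ F.fixingSubgroup, M.ρ s m = m)
    (hMur : ∀ q : Nat.Primes, q ∉ S → ∀ A : ValuationSubring (AlgebraicClosure ℚ),
      A.LiesOverPrime (q : ℕ) → ∀ g ∈ A.inertiaSubgroupIn ℚ, M.ρ g = 1) :
    ∃ L : IntermediateField ℚ (AlgebraicClosure ℚ),
      L.IsUnramifiedOutside S ∧ IsGalois ℚ L ∧ ∀ s, s ∈ L.fixingSubgroup ↔ M.ρ s = 1 := by
  obtain ⟨F, hFfin, hF⟩ := exists_finite_level_of_smooth M hsm
  obtain ⟨L, hL, hgal, hfix, -⟩ := exists_galois_level_of_subgroup S (MonoidHom.ker M.ρ) F hFfin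
    (fun s hs => MonoidHom.mem_ker.2 (hF s hs))
    (fun q hq A hA g hg => MonoidHom.mem_ker.2 (hMur q hq A hA g hg))
  refine ⟨L, hL, hgal, fun s => ?_⟩
  rw [hfix, MonoidHom.mem_ker]

end Rep

end Fermat.Agent.S55.Bridge

end
-- ===== PACK-END S55/Bridge/Level.lean

-- ===== PACK-BEGIN A2/H729/RegSeq.lean
section


/-!
# A2 (helper729): the regular-sequence lemma on a normal model

`A` an integrally closed domain, `F` a field containing `A`, `w ∈ A` prime, `s ∈ A` not divisible
by `w`.  If `w t` and `s t` are integral over `A` then `t` is integral over `A`.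
(No noetherian hypothesis, no Krull domains: minimal polynomials and `scaleRoots`.)
-/

set_option autoImplicit false

namespace Fermat.Agent.A2.H729

open Polynomial

variable {A : Type*} [CommRing A] [IsDomain A] [IsIntegrallyClosed A]
  {F : Type*} [Field F] [Algebra A F] [Module.IsTorsionFree A F]

theorem isIntegral_of_smul_of_smul {w s : A} (hw : Prime w) (hs : ¬ w ∣ s) {t : F}
    (h1 : IsIntegral A (w • t)) (h2 : IsIntegral A (s • t)) : IsIntegral A t := by
  classical
  have hw0 : w ≠ 0 := hw.ne_zero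
  have hs0 : s ≠ 0 := fun h => hs (h ▸ dvd_zero w)
  set p := minpoly A (w • t) with hp
  set p' := minpoly A (s • t) with hp'
  have hcomm : s • (w • t) = w • (s • t) := smul_comm s w t
  have hE : p.scaleRoots s = p'.scaleRoots w := by
    rw [hp, hp', ← IsIntegrallyClosed.minpoly_smul hs0 h1, ← IsIntegrallyClosed.minpoly_smul hw0 h2,
      hcomm]
  set n := p.natDegree with hn
  have hn' : p'.natDegree = n := by
    have := congrArg natDegree hE
    rw [natDegree_scaleRoots, natDegree_scaleRoots] at this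
    exact this.symm
  have hcoef : ∀ i, p.coeff i * s ^ (n - i) = p'.coeff i * w ^ (n - i) := by
    intro i
    have := congrArg (fun q => q.coeff i) hE
    simp only [coeff_scaleRoots] at this
    rw [hn'] at this
    exact this
  have hspow : ∀ k : ℕ, ¬ w ∣ s ^ k := fun k h => hs (hw.dvd_of_dvd_pow h)
  have hdvd : ∀ i, w ^ (n - i) ∣ p.coeff i := by
    intro i
    refine hw.pow_dvd_of_dvd_mul_right _ (hspow (n - i)) ?_
    rw [hcoef i]
    exact Dvd.intro_left _ rfl
  choose c hc using hdvd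
  have hmonic : p.Monic := minpoly.monic h1
  -- the monic polynomial annihilating `t`
  set q : A[X] := X ^ n + ∑ i : Fin n, C (c i) * X ^ (i : ℕ) with hq
  have hqm : q.Monic := monic_X_pow_add (degree_sum_fin_lt fun i : Fin n => c i)
  refine ⟨q, hqm, ?_⟩
  have hp_eval : aeval (w • t) p = 0 := minpoly.aeval A (w • t)
  -- expand `p` as a sum over `range (n+1)`
  have hpsum : aeval (w • t) p = ∑ i ∈ Finset.range (n + 1), p.coeff i • (w • t) ^ i := by
    rw [aeval_eq_sum_range]
  have key : (w ^ n) • (eval₂ (algebraMap A F) t q) = aeval (w • t) p := by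
    rw [hpsum, hq, eval₂_add, eval₂_pow, eval₂_X, eval₂_finsetSum, Finset.sum_range_succ,
      Finset.sum_range fun i => p.coeff i • (w • t) ^ i]
    have hlead : p.coeff n = 1 := hmonic.coeff_natDegree
    rw [hlead, one_smul, smul_add, Finset.smul_sum, add_comm]
    congr 1
    · refine Finset.sum_congr rfl fun i _ => ?_
      rw [eval₂_mul, eval₂_C, eval₂_pow, eval₂_X, hc i, _root_.smul_pow, Algebra.smul_def,
        Algebra.smul_def, Algebra.smul_def, map_mul, map_pow, map_pow, map_pow]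
      have hpow : (algebraMap A F w) ^ n =
          (algebraMap A F w) ^ (n - (i : ℕ)) * (algebraMap A F w) ^ (i : ℕ) := by
        rw [← pow_add]
        congr 1
        have := i.2
        omega
      rw [hpow]
      ring
    · rw [_root_.smul_pow]
  have h0 : (w ^ n) • (eval₂ (algebraMap A F) t q) = 0 := by rw [key, hp_eval]
  rcases smul_eq_zero.1 h0 with h | h
  · exact absurd h (pow_ne_zero _ hw0)
  · exact h

end Fermat.Agent.A2.H729

end
-- ===== PACK-END A2/H729/RegSeq.lean

-- ===== PACK-BEGIN A2/H609/RelLen.lean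
section


/-!
# Node purity, part 2: relative lengths `ℓ(N / N')` of submodules

`relLen N' N = Module.length R (N ⧸ N')` for submodules `N' N` of `M` (meaningful for `N' ≤ N`),
with the chain rule and a transport lemma along a linear map.  Mathlib only.
-/

set_option autoImplicit false

namespace Fermat.Agent.A2.H609

open Submodule

variable {R : Type*} [CommRing R] {M M' : Type*} [AddCommGroup M] [Module R M]
  [AddCommGroup M'] [Module R M']

/-- The relative length `ℓ(N / N')`. -/
noncomputable def relLen (N' N : Submodule R M) : ℕ∞ :=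
  Module.length R (↥N ⧸ N'.submoduleOf N)

/-- The map `N / N' → P / P'` induced by a linear map `φ` with `φ N ⊆ P`, `φ N' ⊆ P'`. -/
noncomputable def relMap (φ : M →ₗ[R] M') {N' N : Submodule R M} {P' P : Submodule R M'}
    (hNP : ∀ x ∈ N, φ x ∈ P) (hNP' : ∀ x ∈ N', φ x ∈ P') :
    (↥N ⧸ N'.submoduleOf N) →ₗ[R] (↥P ⧸ P'.submoduleOf P) :=
  Submodule.mapQ (N'.submoduleOf N) (P'.submoduleOf P) (φ.restrict hNP) (by
    intro x hx
    rw [Submodule.mem_comap]
    exact hNP' _ hx)

theorem relMap_mk (φ : M →ₗ[R] M') {N' N : Submodule R M} {P' P : Submodule R M'}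
    (hNP : ∀ x ∈ N, φ x ∈ P) (hNP' : ∀ x ∈ N', φ x ∈ P') (x : N) :
    relMap φ hNP hNP' (Submodule.Quotient.mk x) =
      Submodule.Quotient.mk (⟨φ x, hNP x x.2⟩ : P) := rfl

theorem relMap_injective (φ : M →ₗ[R] M') {N' N : Submodule R M} {P' P : Submodule R M'}
    (hNP : ∀ x ∈ N, φ x ∈ P) (hNP' : ∀ x ∈ N', φ x ∈ P')
    (hinj : ∀ x ∈ N, φ x ∈ P' → x ∈ N') : Function.Injective (relMap φ hNP hNP') := by
  rw [← LinearMap.ker_eq_bot, _root_.eq_bot_iff]
  intro y hy
  obtain ⟨x, rfl⟩ := Submodule.Quotient.mk_surjective _ y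
  rw [LinearMap.mem_ker, relMap_mk, Submodule.Quotient.mk_eq_zero] at hy
  rw [Submodule.mem_bot, Submodule.Quotient.mk_eq_zero]
  exact hinj x x.2 hy

theorem relMap_surjective (φ : M →ₗ[R] M') {N' N : Submodule R M} {P' P : Submodule R M'}
    (hNP : ∀ x ∈ N, φ x ∈ P) (hNP' : ∀ x ∈ N', φ x ∈ P')
    (hsurj : ∀ y ∈ P, ∃ x ∈ N, y - φ x ∈ P') : Function.Surjective (relMap φ hNP hNP') := by
  intro z
  obtain ⟨y, rfl⟩ := Submodule.Quotient.mk_surjective _ z
  obtain ⟨x, hx, hxy⟩ := hsurj y y.2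
  refine ⟨Submodule.Quotient.mk ⟨x, hx⟩, ?_⟩
  rw [relMap_mk, eq_comm, Submodule.Quotient.eq]
  exact hxy

/-- Transport of relative length along a linear map inducing a bijection `N / N' → P / P'`. -/
theorem relLen_eq_of_map (φ : M →ₗ[R] M') {N' N : Submodule R M} {P' P : Submodule R M'}
    (hNP : ∀ x ∈ N, φ x ∈ P) (hNP' : ∀ x ∈ N', φ x ∈ P')
    (hinj : ∀ x ∈ N, φ x ∈ P' → x ∈ N')
    (hsurj : ∀ y ∈ P, ∃ x ∈ N, y - φ x ∈ P') : relLen N' N = relLen P' P :=
  (LinearEquiv.ofBijective (relMap φ hNP hNP')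
    ⟨relMap_injective φ hNP hNP' hinj, relMap_surjective φ hNP hNP' hsurj⟩).length_eq

/-- Chain rule for relative lengths. -/
theorem relLen_add {A B C : Submodule R M} (hAB : A ≤ B) (hBC : B ≤ C) :
    relLen A C = relLen A B + relLen B C := by
  have h1 : ∀ x ∈ B, (LinearMap.id : M →ₗ[R] M) x ∈ C := fun x hx => hBC hx
  have h2 : ∀ x ∈ A, (LinearMap.id : M →ₗ[R] M) x ∈ A := fun x hx => hx
  have h3 : ∀ x ∈ C, (LinearMap.id : M →ₗ[R] M) x ∈ C := fun x hx => hx
  have h4 : ∀ x ∈ A, (LinearMap.id : M →ₗ[R] M) x ∈ B := fun x hx => hAB hx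
  let f := relMap (LinearMap.id : M →ₗ[R] M) (N' := A) (N := B) (P' := A) (P := C) h1 h2
  let g := relMap (LinearMap.id : M →ₗ[R] M) (N' := A) (N := C) (P' := B) (P := C) h3 h4
  have hf : Function.Injective f := relMap_injective _ h1 h2 (fun x _ hx => hx)
  have hg : Function.Surjective g :=
    relMap_surjective _ h3 h4 (fun y hy => ⟨y, hy, by simp⟩)
  have hfg : Function.Exact f g := by
    intro z
    constructor
    · intro hz
      obtain ⟨y, rfl⟩ := Submodule.Quotient.mk_surjective _ z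
      have hy : (y : M) ∈ B := by
        have := hz
        simp only [g] at this
        rw [relMap_mk, Submodule.Quotient.mk_eq_zero] at this
        exact this
      refine ⟨Submodule.Quotient.mk ⟨y, hy⟩, ?_⟩
      simp only [f]
      rw [relMap_mk]
      rfl
    · rintro ⟨w, rfl⟩
      obtain ⟨x, rfl⟩ := Submodule.Quotient.mk_surjective _ w
      simp only [f, g]
      rw [relMap_mk, relMap_mk, Submodule.Quotient.mk_eq_zero]
      exact x.2
  exact Module.length_eq_add_of_exact f g hf hg hfg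

/-- A surjection `N / N' → P / P'` induced by a linear map bounds the relative length. -/
theorem relLen_le_of_map (φ : M →ₗ[R] M') {N' N : Submodule R M} {P' P : Submodule R M'}
    (hNP : ∀ x ∈ N, φ x ∈ P) (hNP' : ∀ x ∈ N', φ x ∈ P')
    (hsurj : ∀ y ∈ P, ∃ x ∈ N, y - φ x ∈ P') : relLen P' P ≤ relLen N' N :=
  Module.length_le_of_surjective (relMap φ hNP hNP') (relMap_surjective φ hNP hNP' hsurj)

theorem relLen_self (A : Submodule R M) : relLen A A = 0 := by
  rw [relLen, Module.length_eq_zero_iff]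
  refine ⟨fun x y => ?_⟩
  obtain ⟨a, rfl⟩ := Submodule.Quotient.mk_surjective _ x
  obtain ⟨b, rfl⟩ := Submodule.Quotient.mk_surjective _ y
  rw [Submodule.Quotient.eq]
  exact A.sub_mem a.2 b.2

theorem relLen_mono_right {A B C : Submodule R M} (hAB : A ≤ B) (hBC : B ≤ C) :
    relLen A B ≤ relLen A C := by
  rw [relLen_add hAB hBC]
  exact le_self_add

theorem relLen_mono_left {A B C : Submodule R M} (hAB : A ≤ B) (hBC : B ≤ C) :
    relLen B C ≤ relLen A C := by
  rw [relLen_add hAB hBC]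
  exact le_add_self

/-- `ℓ(M / N)` as a relative length. -/
theorem relLen_top (N : Submodule R M) : relLen N ⊤ = Module.length R (M ⧸ N) := by
  have h1 : ∀ x ∈ (⊤ : Submodule R M), (LinearMap.id : M →ₗ[R] M) x ∈ (⊤ : Submodule R M) :=
    fun _ _ => trivial
  -- build the equivalence `⊤ / N ≃ M / N`
  let φ : (↥(⊤ : Submodule R M) ⧸ N.submoduleOf ⊤) →ₗ[R] (M ⧸ N) :=
    Submodule.mapQ (N.submoduleOf ⊤) N (⊤ : Submodule R M).subtype (by
      intro x hx
      exact hx)
  have hφ : Function.Bijective φ := by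
    constructor
    · rw [← LinearMap.ker_eq_bot, _root_.eq_bot_iff]
      intro y hy
      obtain ⟨x, rfl⟩ := Submodule.Quotient.mk_surjective _ y
      rw [LinearMap.mem_ker] at hy
      have : (Submodule.Quotient.mk (x : M) : M ⧸ N) = 0 := hy
      rw [Submodule.Quotient.mk_eq_zero] at this
      rw [Submodule.mem_bot, Submodule.Quotient.mk_eq_zero]
      exact this
    · intro z
      obtain ⟨y, rfl⟩ := Submodule.Quotient.mk_surjective _ z
      exact ⟨Submodule.Quotient.mk ⟨y, trivial⟩, rfl⟩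
  exact (LinearEquiv.ofBijective φ hφ).length_eq

end Fermat.Agent.A2.H609

end
-- ===== PACK-END A2/H609/RelLen.lean

-- ===== PACK-BEGIN A2/H849/Hartogs.lean
section










/-!
# Algebraic Hartogs lemma for noetherian integrally closed domains (helper849, cell A2)

Mathlib-only.  `R` a noetherian integrally closed domain with fraction field `K`.

* `locAt K P` : the localisation `R_P` as a subalgebra of `K`.
* `isDiscreteValuationRing_locAt_of_colon` : if the prime `P` is a colon ideal `(a) : c`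
  (`a ≠ 0`), then `R_P` is a discrete valuation ring.
* `hartogs_locAt` : an element of `K` lying in `R_P` for every prime `P` with `R_P` a DVR lies
  in `R`.
* `exists_valuationSubring_not_mem` : if `u ∉ R` there is a discrete valuation subring `O ⊇ R`
  of `K`, equal to the localisation of `R` at its centre, with `u ∉ O`.
* `isUnit_of_forall_valuationSubring` : an element with trivial Weil divisor is a unit.
-/

set_option autoImplicit false

namespace Fermat.Agent.A2.H849

open IsLocalRing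

variable {R : Type*} [CommRing R] [IsDomain R]
variable (K : Type*) [Field K] [Algebra R K] [IsFractionRing R K]

/-- The localisation `R_P` as a subalgebra of the fraction field `K`. -/
noncomputable def locAt (P : Ideal R) [P.IsPrime] : Subalgebra R K :=
  Localization.subalgebra.ofField K P.primeCompl P.primeCompl_le_nonZeroDivisors

variable {K}

theorem mem_locAt_iff (P : Ideal R) [P.IsPrime] (x : K) :
    x ∈ locAt K P ↔ ∃ a s : R, s ∉ P ∧ x = algebraMap R K a * (algebraMap R K s)⁻¹ := by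
  constructor
  · rintro ⟨a, s, hs, rfl⟩
    exact ⟨a, s, hs, rfl⟩
  · rintro ⟨a, s, hs, rfl⟩
    exact ⟨a, s, hs, rfl⟩

instance locAt_isLocalization (P : Ideal R) [P.IsPrime] :
    IsLocalization.AtPrime (locAt K P) P :=
  Localization.subalgebra.isLocalization_ofField K P.primeCompl P.primeCompl_le_nonZeroDivisors

instance locAt_isLocalRing (P : Ideal R) [P.IsPrime] : IsLocalRing (locAt K P) :=
  IsLocalization.AtPrime.isLocalRing (locAt K P) P

instance locAt_isNoetherianRing [IsNoetherianRing R] (P : Ideal R) [P.IsPrime] :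
    IsNoetherianRing (locAt K P) :=
  IsLocalization.isNoetherianRing P.primeCompl (locAt K P) inferInstance


/-- **Key lemma.** In a noetherian integrally closed domain, a prime which is a colon ideal
`(a) : c` with `a ≠ 0` has a discrete valuation ring as localisation. -/
theorem isDiscreteValuationRing_locAt_of_colon [IsNoetherianRing R] [IsIntegrallyClosed R]
    (P : Ideal R) [hPp : P.IsPrime] (a c : R) (ha : a ≠ 0)
    (hP : ∀ r, r ∈ P ↔ a ∣ r * c) : IsDiscreteValuationRing (locAt K P) := by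
  have haP : a ∈ P := (hP a).2 ⟨c, rfl⟩
  have hc : ¬ a ∣ c := fun h => by
    have h1 : (1 : R) ∈ P := (hP 1).2 (by simpa using h)
    exact (Ideal.ne_top_iff_one P).1 hPp.ne_top h1
  have hc0 : c ≠ 0 := fun h => hc (h ▸ dvd_zero a)
  have hinj : Function.Injective (algebraMap R K) := IsFractionRing.injective R K
  have haK : algebraMap R K a ≠ 0 := fun h => ha (hinj (by rw [h, map_zero]))
  have hcK : algebraMap R K c ≠ 0 := fun h => hc0 (hinj (by rw [h, map_zero]))
  set v : K := algebraMap R K c / algebraMap R K a with hv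
  have hv0 : v ≠ 0 := div_ne_zero hcK haK
  have hk : ∀ r ∈ P, ∃ k : R, algebraMap R K k = algebraMap R K r * v := by
    intro r hr
    obtain ⟨k, hk⟩ := (hP r).1 hr
    refine ⟨k, ?_⟩
    rw [hv, mul_div_assoc', eq_div_iff haK, ← map_mul, ← map_mul, hk, mul_comm]
  by_cases hcase : ∀ r ∈ P, ∀ k : R, algebraMap R K k = algebraMap R K r * v → k ∈ P
  · exfalso
    let N : Submodule R K := Submodule.map (Algebra.linearMap R K) P
    have hint : IsIntegral R v := by
      refine isIntegral_of_smul_mem_submodule N ?_ ?_ v ?_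
      · rw [Submodule.ne_bot_iff]
        exact ⟨_, ⟨a, haP, rfl⟩, haK⟩
      · exact Submodule.FG.map _ (IsNoetherian.noetherian _)
      · rintro n ⟨r, hr, rfl⟩
        obtain ⟨k, hk'⟩ := hk r hr
        refine ⟨k, hcase r hr k hk', ?_⟩
        rw [Algebra.linearMap_apply, hk', Algebra.linearMap_apply, smul_eq_mul, mul_comm]
    obtain ⟨y, hy⟩ := IsIntegrallyClosed.algebraMap_eq_of_integral hint
    apply hc
    refine ⟨y, hinj ?_⟩
    rw [map_mul, hy, hv, mul_div_cancel₀ _ haK]
  · push Not at hcase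
    obtain ⟨t, htP, k, hkt, hkP⟩ := hcase
    have hk0 : k ≠ 0 := fun h => hkP (h ▸ P.zero_mem)
    have hkK : algebraMap R K k ≠ 0 := fun h => hk0 (hinj (by rw [h, map_zero]))
    have htK : algebraMap R K t ≠ 0 := by
      intro h
      rw [h, zero_mul] at hkt
      exact hkK hkt
    have hmax : maximalIdeal (locAt K P) =
        Ideal.span {algebraMap R (locAt K P) t} := by
      rw [← IsLocalization.AtPrime.map_eq_maximalIdeal P (locAt K P)]
      apply le_antisymm
      · rw [Ideal.map_le_iff_le_comap]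
        intro r hr
        rw [Ideal.mem_comap, Ideal.mem_span_singleton']
        obtain ⟨kr, hkr⟩ := hk r hr
        refine ⟨⟨algebraMap R K kr * (algebraMap R K k)⁻¹,
          (mem_locAt_iff P _).2 ⟨kr, k, hkP, rfl⟩⟩, ?_⟩
        apply Subtype.ext
        show algebraMap R K kr * (algebraMap R K k)⁻¹ * algebraMap R K t = algebraMap R K r
        rw [hkr, hkt]
        field_simp
      · rw [Ideal.span_le, Set.singleton_subset_iff]
        exact Ideal.mem_map_of_mem _ htP
    have hprinc : (maximalIdeal (locAt K P)).IsPrincipal := ⟨⟨_, hmax⟩⟩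
    have hpir : IsPrincipalIdealRing (locAt K P) :=
      ((tfae_of_isNoetherianRing_of_isLocalRing_of_isDomain
        (R := locAt K P)).out 4 0).mp hprinc
    refine { toIsPrincipalIdealRing := hpir, toIsLocalRing := inferInstance, not_a_field' := ?_ }
    intro hbot
    have h1 : algebraMap R (locAt K P) t ∈ maximalIdeal (locAt K P) := by
      rw [hmax]
      exact Ideal.mem_span_singleton_self _
    rw [hbot, Ideal.mem_bot] at h1
    have h2 := congrArg (fun z : locAt K P => (z : K)) h1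
    exact htK h2


omit [IsDomain R] in
theorem smul_mk_span_eq_zero_iff (a r c : R) :
    r • (Ideal.Quotient.mk (Ideal.span {a}) c) = 0 ↔ a ∣ r * c := by
  have h1 : r • (Ideal.Quotient.mk (Ideal.span {a}) c) = Ideal.Quotient.mk (Ideal.span {a}) (r * c) :=
    rfl
  rw [h1, Ideal.Quotient.eq_zero_iff_mem, Ideal.mem_span_singleton]

/-- **Algebraic Hartogs lemma**, localisation form: an element of `K` which lies in `R_P` for
every prime `P` such that `R_P` is a discrete valuation ring lies in `R`. -/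
theorem hartogs_locAt [IsNoetherianRing R] [IsIntegrallyClosed R] (u : K)
    (h : ∀ (P : Ideal R) [P.IsPrime], IsDiscreteValuationRing (locAt K P) → u ∈ locAt K P) :
    u ∈ (algebraMap R K).range := by
  have hinj : Function.Injective (algebraMap R K) := IsFractionRing.injective R K
  obtain ⟨b, a, ha, rfl⟩ := IsFractionRing.div_surjective R u
  have ha0 : a ≠ 0 := nonZeroDivisors.ne_zero ha
  have haK : algebraMap R K a ≠ 0 := fun h => ha0 (hinj (by rw [h, map_zero]))
  by_cases hab : a ∣ b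
  · obtain ⟨y, rfl⟩ := hab
    refine ⟨y, ?_⟩
    rw [map_mul, mul_div_cancel_left₀ _ haK]
  exfalso
  -- the module `R / (a)` and the class of `b`
  set x : R ⧸ Ideal.span {a} := Ideal.Quotient.mk _ b with hx
  have hx0 : x ≠ 0 := by
    rw [hx, Ne, Ideal.Quotient.eq_zero_iff_mem, Ideal.mem_span_singleton]
    exact hab
  obtain ⟨P, hPass, hle⟩ := exists_le_isAssociatedPrime_of_isNoetherianRing R x hx0
  obtain ⟨hPp, y, hy⟩ := (isAssociatedPrime_iff (I := P) (M := R ⧸ Ideal.span {a})).1 hPass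
  obtain ⟨c, rfl⟩ := Ideal.Quotient.mk_surjective y
  have hP : ∀ r, r ∈ P ↔ a ∣ r * c := by
    intro r
    rw [hy, Submodule.mem_colon_singleton, Submodule.mem_bot]
    exact smul_mk_span_eq_zero_iff a r c
  have hdvr : IsDiscreteValuationRing (locAt K P) :=
    isDiscreteValuationRing_locAt_of_colon P a c ha0 hP
  obtain ⟨r, s, hs, hrs⟩ := (mem_locAt_iff P _).1 (h P hdvr)
  have hsK : algebraMap R K s ≠ 0 := by
    intro h0
    apply hs
    rw [hinj (by rw [h0, map_zero] : algebraMap R K s = algebraMap R K 0)]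
    exact P.zero_mem
  have hsb : s * b = r * a := by
    apply hinj
    rw [map_mul, map_mul]
    field_simp at hrs
    rw [mul_comm, hrs, mul_comm]
  apply hs
  apply hle
  rw [Submodule.mem_colon_singleton, Submodule.mem_bot, hx]
  exact (smul_mk_span_eq_zero_iff a s b).2 ⟨r, by rw [hsb, mul_comm]⟩


/-- The valuation subring of `K` given by a localisation `R_P` which is a valuation ring. -/
noncomputable def locValuationSubring (P : Ideal R) [P.IsPrime]
    (h : ValuationRing (locAt K P)) : ValuationSubring K :=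
  { (locAt K P).toSubring with
    mem_or_inv_mem' := fun x => by
      rcases ValuationRing.isInteger_or_isInteger (locAt K P) (K := K) x with ⟨y, hy⟩ | ⟨y, hy⟩
      · left
        rw [← hy]
        exact y.2
      · right
        rw [← hy]
        exact y.2 }

theorem mem_locValuationSubring_iff (P : Ideal R) [P.IsPrime]
    (h : ValuationRing (locAt K P)) (x : K) :
    x ∈ locValuationSubring P h ↔ x ∈ locAt K P := Iff.rfl

theorem algebraMap_mem_locValuationSubring (P : Ideal R) [P.IsPrime]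
    (h : ValuationRing (locAt K P)) (r : R) : algebraMap R K r ∈ locValuationSubring P h :=
  (locAt K P).algebraMap_mem r

/-- The obvious ring isomorphism. -/
noncomputable def locValuationSubringEquiv (P : Ideal R) [P.IsPrime]
    (h : ValuationRing (locAt K P)) : locAt K P ≃+* locValuationSubring P h :=
  { toFun := fun x => ⟨x.1, x.2⟩
    invFun := fun x => ⟨x.1, x.2⟩
    left_inv := fun _ => rfl
    right_inv := fun _ => rfl
    map_mul' := fun _ _ => rfl
    map_add' := fun _ _ => rfl }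

theorem isDiscreteValuationRing_locValuationSubring (P : Ideal R) [P.IsPrime]
    (h : IsDiscreteValuationRing (locAt K P)) :
    IsDiscreteValuationRing (locValuationSubring P (inferInstance : ValuationRing (locAt K P))) :=
  IsDiscreteValuationRing.RingEquivClass.isDiscreteValuationRing
    (locValuationSubringEquiv P inferInstance)

/-- A prime with DVR localisation has height one: it contains no nonzero prime other than
itself. -/
theorem eq_of_le_of_isDiscreteValuationRing (P Q : Ideal R) [hP : P.IsPrime] (hQ : Q.IsPrime)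
    (hdvr : IsDiscreteValuationRing (locAt K P)) (hQ0 : Q ≠ ⊥) (hle : Q ≤ P) : Q = P := by
  have hd : Disjoint (P.primeCompl : Set R) (Q : Set R) := by
    rw [Set.disjoint_left]
    intro x hx hxQ
    exact hx (hle hxQ)
  have hdP : Disjoint (P.primeCompl : Set R) (P : Set R) := by
    rw [Set.disjoint_left]
    intro x hx hxP
    exact hx hxP
  have hQ' : (Ideal.map (algebraMap R (locAt K P)) Q).IsPrime :=
    IsLocalization.isPrime_of_isPrime_disjoint P.primeCompl (locAt K P) Q hQ hd
  have hne : Ideal.map (algebraMap R (locAt K P)) Q ≠ ⊥ := by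
    obtain ⟨q, hq, hq0⟩ := Submodule.exists_mem_ne_zero_of_ne_bot hQ0
    intro h
    have h1 : algebraMap R (locAt K P) q ∈ Ideal.map (algebraMap R (locAt K P)) Q :=
      Ideal.mem_map_of_mem _ hq
    rw [h, Ideal.mem_bot] at h1
    apply hq0
    apply IsFractionRing.injective R K
    have h2 := congrArg (fun z : locAt K P => (z : K)) h1
    simpa using h2
  have hmax : (Ideal.map (algebraMap R (locAt K P)) Q).IsMaximal := hQ'.isMaximal hne
  have h3 : Ideal.map (algebraMap R (locAt K P)) Q = maximalIdeal (locAt K P) :=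
    IsLocalRing.eq_maximalIdeal hmax
  rw [← IsLocalization.AtPrime.map_eq_maximalIdeal P (locAt K P)] at h3
  have h4 : (Ideal.map (algebraMap R (locAt K P)) Q).under R =
      (Ideal.map (algebraMap R (locAt K P)) P).under R := by rw [h3]
  rwa [IsLocalization.under_map_of_isPrime_disjoint P.primeCompl (locAt K P) hQ hd,
    IsLocalization.under_map_of_isPrime_disjoint P.primeCompl (locAt K P) hP hdP] at h4

/-- `O` is a discrete valuation subring of `K` which is the localisation of `R` at the height-one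
prime `P`. -/
structure IsLocDVR (O : ValuationSubring K) (P : Ideal R) : Prop where
  prime : P.IsPrime
  ne_bot : P ≠ ⊥
  dvr : IsDiscreteValuationRing O
  le : ∀ r : R, algebraMap R K r ∈ O
  exists_frac : ∀ x ∈ O, ∃ r s : R, s ∉ P ∧ x = algebraMap R K r * (algebraMap R K s)⁻¹
  inv_mem : ∀ s : R, s ∉ P → (algebraMap R K s)⁻¹ ∈ O
  inv_not_mem : ∀ r : R, r ∈ P → r ≠ 0 → (algebraMap R K r)⁻¹ ∉ O
  height_one : ∀ Q : Ideal R, Q.IsPrime → Q ≠ ⊥ → Q ≤ P → Q = P

theorem isLocDVR_locValuationSubring (P : Ideal R) [hPp : P.IsPrime]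
    (hdvr : IsDiscreteValuationRing (locAt K P)) :
    IsLocDVR (locValuationSubring P (inferInstance : ValuationRing (locAt K P))) P := by
  have hinj : Function.Injective (algebraMap R K) := IsFractionRing.injective R K
  refine ⟨hPp, ?_, isDiscreteValuationRing_locValuationSubring P hdvr,
    algebraMap_mem_locValuationSubring P inferInstance, ?_, ?_, ?_, ?_⟩
  · intro hbot
    apply IsDiscreteValuationRing.not_a_field (locAt K P)
    rw [← IsLocalization.AtPrime.map_eq_maximalIdeal P (locAt K P), Ideal.map_eq_bot_iff_le_ker]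
    intro x hx
    rw [hbot, Ideal.mem_bot] at hx
    rw [hx]
    exact Ideal.zero_mem _
  · intro x hx
    exact (mem_locAt_iff P x).1 hx
  · intro s hs
    exact (mem_locAt_iff P _).2 ⟨1, s, hs, by rw [map_one, one_mul]⟩
  · intro r hr hr0 hinv
    have h1 : algebraMap R (locAt K P) r ∈ maximalIdeal (locAt K P) := by
      rw [← IsLocalization.AtPrime.map_eq_maximalIdeal P (locAt K P)]
      exact Ideal.mem_map_of_mem _ hr
    have h2 : IsUnit (algebraMap R (locAt K P) r) := by
      have hrK : algebraMap R K r ≠ 0 := fun h => hr0 (hinj (by rw [h, map_zero]))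
      refine IsUnit.of_mul_eq_one ⟨(algebraMap R K r)⁻¹, hinv⟩ ?_
      apply Subtype.ext
      show algebraMap R K r * (algebraMap R K r)⁻¹ = 1
      exact mul_inv_cancel₀ hrK
    exact (mem_nonunits_iff.1 ((IsLocalRing.mem_maximalIdeal _).1 h1)) h2
  · intro Q hQ hQ0 hle
    exact eq_of_le_of_isDiscreteValuationRing P Q hQ hdvr hQ0 hle

/-- **Algebraic Hartogs lemma**, valuation form.  If `u ∈ K` is not in `R` there is a discrete
valuation subring `O` of `K`, the localisation of `R` at a height-one prime `P`, with `u ∉ O`. -/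
theorem exists_isLocDVR_not_mem [IsNoetherianRing R] [IsIntegrallyClosed R] (u : K)
    (hu : u ∉ (algebraMap R K).range) :
    ∃ (O : ValuationSubring K) (P : Ideal R), IsLocDVR O P ∧ u ∉ O := by
  by_contra hcon
  apply hu
  apply hartogs_locAt u
  intro P hPp hdvr
  by_contra huP
  exact hcon ⟨_, P, isLocDVR_locValuationSubring P hdvr, huP⟩

/-- **Algebraic Hartogs lemma**, positive form. -/
theorem mem_range_of_forall_isLocDVR [IsNoetherianRing R] [IsIntegrallyClosed R] (u : K)
    (h : ∀ (O : ValuationSubring K) (P : Ideal R), IsLocDVR O P → u ∈ O) :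
    u ∈ (algebraMap R K).range := by
  by_contra hu
  obtain ⟨O, P, hOP, huO⟩ := exists_isLocDVR_not_mem u hu
  exact huO (h O P hOP)

/-- An element of `K` lying in every discrete valuation subring of `K` containing `R` lies in
`R`. -/
theorem mem_range_of_forall_valuationSubring [IsNoetherianRing R] [IsIntegrallyClosed R] (u : K)
    (h : ∀ O : ValuationSubring K, IsDiscreteValuationRing O →
      (∀ r : R, algebraMap R K r ∈ O) → u ∈ O) :
    u ∈ (algebraMap R K).range :=
  mem_range_of_forall_isLocDVR u (fun O _ hOP => h O hOP.dvr hOP.le)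

/-- **Trivial Weil divisor ⇒ unit.**  If `u ≠ 0` is a unit of every discrete valuation subring
of `K` which is the localisation of `R` at a height-one prime, then `u` is (the image of) a unit
of `R`. -/
theorem isUnit_of_forall_isLocDVR [IsNoetherianRing R] [IsIntegrallyClosed R] (u : K)
    (hu : u ≠ 0)
    (h : ∀ (O : ValuationSubring K) (P : Ideal R), IsLocDVR O P → u ∈ O ∧ u⁻¹ ∈ O) :
    ∃ r : Rˣ, algebraMap R K (r : R) = u := by
  obtain ⟨r, hr⟩ := mem_range_of_forall_isLocDVR u (fun O P hOP => (h O P hOP).1)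
  obtain ⟨r', hr'⟩ := mem_range_of_forall_isLocDVR u⁻¹ (fun O P hOP => (h O P hOP).2)
  have hinj : Function.Injective (algebraMap R K) := IsFractionRing.injective R K
  have hmul : r * r' = 1 := by
    apply hinj
    rw [map_mul, map_one]
    show algebraMap R K r * algebraMap R K r' = 1
    rw [hr, hr', mul_inv_cancel₀ hu]
  exact ⟨⟨r, r', hmul, by rw [mul_comm, hmul]⟩, hr⟩

/-- Same with all discrete valuation subrings containing `R`. -/
theorem isUnit_of_forall_valuationSubring [IsNoetherianRing R] [IsIntegrallyClosed R] (u : K)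
    (hu : u ≠ 0)
    (h : ∀ O : ValuationSubring K, IsDiscreteValuationRing O →
      (∀ r : R, algebraMap R K r ∈ O) → u ∈ O ∧ u⁻¹ ∈ O) :
    ∃ r : Rˣ, algebraMap R K (r : R) = u :=
  isUnit_of_forall_isLocDVR u hu (fun O _ hOP => h O hOP.dvr hOP.le)

end Fermat.Agent.A2.H849

end
-- ===== PACK-END A2/H849/Hartogs.lean

-- ===== PACK-BEGIN A2/Alg/H754/LocU.lean
section


/-!
# A2 / ALG / P-S (helper754): elementwise local units

`B` a domain with fraction field `F`, `𝔮` a prime of `B`.  `LocU 𝔮 f` : `f` is a unit of `B_𝔮`,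
elementwise (`f = a / b`, `a, b ∈ B ∖ 𝔮`).  Closure under products, inverses, integer powers;
comparison with a valuation subring `W = B_𝔮` of `F`.
-/

set_option autoImplicit false

namespace Fermat.Agent.A2.Alg.H754

variable {B F : Type*} [CommRing B] [Field F] [Algebra B F]

/-- `f` is a unit of `B_𝔮`, elementwise. -/
def LocU (𝔮 : Ideal B) (f : F) : Prop :=
  ∃ a b : B, a ∉ 𝔮 ∧ b ∉ 𝔮 ∧ f * algebraMap B F b = algebraMap B F a

namespace LocU

variable {𝔮 : Ideal B}

theorem one (h1 : (1 : B) ∉ 𝔮) : LocU 𝔮 (1 : F) :=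
  ⟨1, 1, h1, h1, by rw [map_one, mul_one]⟩

theorem of_notMem {b : B} (hb : b ∉ 𝔮) (h1 : (1 : B) ∉ 𝔮) : LocU 𝔮 (algebraMap B F b) :=
  ⟨b, 1, hb, h1, by rw [map_one, mul_one]⟩

theorem mono {𝔮' : Ideal B} (h : 𝔮 ≤ 𝔮') {f : F} (hf : LocU 𝔮' f) : LocU 𝔮 f := by
  obtain ⟨a, b, ha, hb, hab⟩ := hf
  exact ⟨a, b, fun h' => ha (h h'), fun h' => hb (h h'), hab⟩

theorem mul [h𝔮 : 𝔮.IsPrime] {f g : F} (hf : LocU 𝔮 f) (hg : LocU 𝔮 g) : LocU 𝔮 (f * g) := by
  obtain ⟨a, b, ha, hb, hab⟩ := hf
  obtain ⟨a', b', ha', hb', hab'⟩ := hg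
  refine ⟨a * a', b * b', ?_, ?_, ?_⟩
  · exact fun h => (h𝔮.mem_or_mem h).elim ha ha'
  · exact fun h => (h𝔮.mem_or_mem h).elim hb hb'
  · rw [map_mul, map_mul, ← hab, ← hab']
    ring

theorem pow [h𝔮 : 𝔮.IsPrime] {f : F} (hf : LocU 𝔮 f) (k : ℕ) : LocU 𝔮 (f ^ k) := by
  induction k with
  | zero =>
    rw [pow_zero]
    exact one (fun h => h𝔮.ne_top ((Ideal.eq_top_iff_one _).2 h))
  | succ k ih =>
    rw [pow_succ]
    exact ih.mul hf

variable [FaithfulSMul B F]

theorem algebraMap_ne_zero {b : B} (hb : b ∉ 𝔮) : algebraMap B F b ≠ 0 := by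
  intro h
  have : b = 0 := FaithfulSMul.algebraMap_injective B F (by rw [h, map_zero])
  exact hb (this ▸ 𝔮.zero_mem)

theorem ne_zero {f : F} (hf : LocU 𝔮 f) : f ≠ 0 := by
  obtain ⟨a, b, ha, hb, hab⟩ := hf
  rintro rfl
  rw [zero_mul] at hab
  exact algebraMap_ne_zero ha hab.symm

theorem inv {f : F} (hf : LocU 𝔮 f) : LocU 𝔮 f⁻¹ := by
  have hf0 := hf.ne_zero
  obtain ⟨a, b, ha, hb, hab⟩ := hf
  refine ⟨b, a, hb, ha, ?_⟩
  rw [← hab, ← mul_assoc, inv_mul_cancel₀ hf0, one_mul]

theorem zpow [h𝔮 : 𝔮.IsPrime] {f : F} (hf : LocU 𝔮 f) (k : ℤ) : LocU 𝔮 (f ^ k) := by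
  cases k with
  | ofNat k =>
    rw [Int.ofNat_eq_natCast, zpow_natCast]
    exact hf.pow k
  | negSucc k =>
    rw [zpow_negSucc]
    exact (hf.pow (k + 1)).inv

/-- cancel a power: used with a valuation ring. -/
theorem of_mul_left [h𝔮 : 𝔮.IsPrime] {f g : F} (hfg : LocU 𝔮 (f * g)) (hg : LocU 𝔮 g) :
    LocU 𝔮 f := by
  have hg0 := hg.ne_zero
  have := hfg.mul hg.inv
  rwa [mul_assoc, mul_inv_cancel₀ hg0, mul_one] at this

end LocU

section Val

variable [FaithfulSMul B F]

/-- `f` and `f⁻¹` both in `B_𝔮` (elementwise) implies `f` is a unit of `B_𝔮`. -/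
theorem locU_of_frac_of_inv_frac (𝔮 : Ideal B) [h𝔮 : 𝔮.IsPrime] {f : F} (hf : f ≠ 0)
    (h1 : ∃ a s : B, s ∉ 𝔮 ∧ f * algebraMap B F s = algebraMap B F a)
    (h2 : ∃ a s : B, s ∉ 𝔮 ∧ f⁻¹ * algebraMap B F s = algebraMap B F a) : LocU 𝔮 f := by
  obtain ⟨a, s, hs, has⟩ := h1
  obtain ⟨a', s', hs', has'⟩ := h2
  refine ⟨a, s, ?_, hs, has⟩
  intro ha
  have e : algebraMap B F (a * a') = algebraMap B F (s * s') := by
    rw [map_mul, map_mul, ← has, ← has']
    field_simp
  have e' : a * a' = s * s' := FaithfulSMul.algebraMap_injective B F e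
  have : s * s' ∈ 𝔮 := e' ▸ 𝔮.mul_mem_right a' ha
  exact (h𝔮.mem_or_mem this).elim hs hs'

/-- Units of a valuation subring `W = B_𝔮`. -/
theorem locU_iff_of_valuationSubring (𝔮 : Ideal B) [h𝔮 : 𝔮.IsPrime] (W : ValuationSubring F)
    (hW : ∀ f : F, f ∈ W ↔ ∃ a s : B, s ∉ 𝔮 ∧ f * algebraMap B F s = algebraMap B F a)
    {f : F} (hf : f ≠ 0) : LocU 𝔮 f ↔ f ∈ W ∧ f⁻¹ ∈ W := by
  constructor
  · intro h
    refine ⟨?_, ?_⟩
    · obtain ⟨a, b, -, hb, hab⟩ := h
      exact (hW f).2 ⟨a, b, hb, hab⟩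
    · obtain ⟨a, b, -, hb, hab⟩ := h.inv
      exact (hW f⁻¹).2 ⟨a, b, hb, hab⟩
  · rintro ⟨h1, h2⟩
    exact locU_of_frac_of_inv_frac 𝔮 hf ((hW f).1 h1) ((hW f⁻¹).1 h2)

/-- In a valuation ring, an element whose positive power is a unit is a unit. -/
theorem locU_of_pow (𝔮 : Ideal B) [h𝔮 : 𝔮.IsPrime] (W : ValuationSubring F)
    (hW : ∀ f : F, f ∈ W ↔ ∃ a s : B, s ∉ 𝔮 ∧ f * algebraMap B F s = algebraMap B F a)
    {f : F} {m : ℕ} (hm : 0 < m) (h : LocU 𝔮 (f ^ m)) : LocU 𝔮 f := by
  have hf0 : f ≠ 0 := by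
    rintro rfl
    rw [zero_pow hm.ne'] at h
    exact h.ne_zero rfl
  obtain ⟨k, rfl⟩ : ∃ k, m = k + 1 := ⟨m - 1, (Nat.sub_add_cancel hm).symm⟩
  obtain ⟨h1, h2⟩ := (locU_iff_of_valuationSubring 𝔮 W hW (pow_ne_zero _ hf0)).1 h
  rw [locU_iff_of_valuationSubring 𝔮 W hW hf0]
  rcases W.mem_or_inv_mem f with hf | hf
  · refine ⟨hf, ?_⟩
    have e : f⁻¹ = f ^ k * (f ^ (k + 1))⁻¹ := by
      rw [pow_succ]
      field_simp
    rw [e]
    exact W.mul_mem _ _ (pow_mem hf k) h2
  · refine ⟨?_, hf⟩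
    have e : f = f⁻¹ ^ k * f ^ (k + 1) := by
      rw [pow_succ, inv_pow]
      field_simp
    rw [e]
    exact W.mul_mem _ _ (pow_mem hf k) h1

end Val

end Fermat.Agent.A2.Alg.H754

end
-- ===== PACK-END A2/Alg/H754/LocU.lean

-- ===== PACK-BEGIN S18/H754/DivisorPow.lean
section


/-!
# S18 / Route K / étale Kummer cover, piece P2 (helper754)

In a UFD `R` with fraction field `F`: if `u ∈ Fˣ` is, at every prime element `π`, a `π`-unit times
a `p`-th power, then `u` is a unit of `R` times a `p`-th power.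
-/

set_option autoImplicit false

noncomputable section

namespace Fermat.Agent.S18.H754

section P2

variable {R : Type*} [CommRing R] [IsDomain R]
  {F : Type*} [Field F] [Algebra R F] [IsFractionRing R F]

/-- `u` is a `π`-adic unit times a `p`-th power. -/
def LocallyPow (R : Type*) [CommRing R] {F : Type*} [Field F] [Algebra R F]
    (p : ℕ) (u : F) (π : R) : Prop :=
  ∃ t : F, ∃ a b : R, ¬ π ∣ a ∧ ¬ π ∣ b ∧ u * t ^ p * algebraMap R F b = algebraMap R F a

omit [IsDomain R] [IsFractionRing R F] in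
lemma LocallyPow.mul_pow {p : ℕ} {u : F} {π : R} (h : LocallyPow R p u π) {c : F} (hc : c ≠ 0) :
    LocallyPow R p (u * c ^ p) π := by
  obtain ⟨t, a, b, ha, hb, h⟩ := h
  refine ⟨t / c, a, b, ha, hb, ?_⟩
  rw [← h, div_pow]
  field_simp

omit [IsDomain R] in
lemma LocallyPow.inv {p : ℕ} {u : F} {π : R} (hu : u ≠ 0) (h : LocallyPow R p u π) :
    LocallyPow R p u⁻¹ π := by
  obtain ⟨t, a, b, ha, hb, h⟩ := h
  refine ⟨t⁻¹, b, a, hb, ha, ?_⟩
  by_cases hp : p = 0
  · subst hp
    simp only [pow_zero, mul_one] at h ⊢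
    rw [← h]
    field_simp
  · have ht : t ≠ 0 := by
      rintro rfl
      rw [zero_pow hp, mul_zero, zero_mul] at h
      have ha0 : a = 0 := IsFractionRing.injective R F (by rw [← h, map_zero])
      exact ha (ha0 ▸ dvd_zero π)
    rw [← h, inv_pow]
    field_simp

variable [UniqueFactorizationMonoid R]

/-- the key divisibility: a prime dividing the numerator but not the denominator of a locally
`p`-th power divides the numerator at least `p` times. -/
lemma pow_dvd_of_locallyPow {p : ℕ} {π : R} (hπ : Prime π) {a b : R} (ha : a ≠ 0) (hb : b ≠ 0)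
    (hπa : π ∣ a) (hπb : ¬ π ∣ b)
    (h : LocallyPow R p (algebraMap R F a / algebraMap R F b) π) : π ^ p ∣ a := by
  obtain ⟨t, a', b', ha', hb', h⟩ := h
  have ha'0 : a' ≠ 0 := fun h0 => ha' (h0 ▸ dvd_zero π)
  have hb'0 : b' ≠ 0 := fun h0 => hb' (h0 ▸ dvd_zero π)
  obtain ⟨c, d, hd, rfl⟩ := IsFractionRing.div_surjective (A := R) t
  have hd0 : d ≠ 0 := nonZeroDivisors.ne_zero hd
  have hinj := IsFractionRing.injective R F
  have hbF : algebraMap R F b ≠ 0 := fun h0 => hb (hinj (by rw [h0, map_zero]))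
  have hdF : algebraMap R F d ≠ 0 := fun h0 => hd0 (hinj (by rw [h0, map_zero]))
  have hc0 : c ≠ 0 := by
    rintro rfl
    by_cases hp : p = 0
    · subst hp
      simp only [pow_zero, mul_one] at h
      -- `a * b' = a' * b`
      have h2 : a * b' = a' * b := by
        apply hinj
        rw [map_mul, map_mul, ← h]
        field_simp
      have : π ∣ a' * b := h2 ▸ Dvd.dvd.mul_right hπa b'
      rcases hπ.dvd_or_dvd this with h3 | h3
      · exact ha' h3
      · exact hπb h3
    · rw [map_zero, zero_div, zero_pow hp, mul_zero, zero_mul] at h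
      exact ha'0 (hinj (by rw [← h, map_zero]))
  have heq : a * c ^ p * b' = a' * b * d ^ p := by
    apply hinj
    simp only [map_mul, map_pow]
    rw [← h, div_pow]
    field_simp
  -- multiplicities
  have hfin : ∀ x : R, x ≠ 0 → FiniteMultiplicity π x :=
    fun x hx => FiniteMultiplicity.of_prime_left hπ hx
  have e1 := congrArg (emultiplicity π) heq
  rw [emultiplicity_mul hπ, emultiplicity_mul hπ, emultiplicity_mul hπ, emultiplicity_mul hπ,
    emultiplicity_pow hπ, emultiplicity_pow hπ, emultiplicity_eq_zero.mpr ha',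
    emultiplicity_eq_zero.mpr hb', emultiplicity_eq_zero.mpr hπb,
    (hfin a ha).emultiplicity_eq_multiplicity, (hfin c hc0).emultiplicity_eq_multiplicity,
    (hfin d hd0).emultiplicity_eq_multiplicity] at e1
  have e2 : multiplicity π a + p * multiplicity π c = p * multiplicity π d := by
    have : ((multiplicity π a + p * multiplicity π c : ℕ) : ℕ∞) =
        ((p * multiplicity π d : ℕ) : ℕ∞) := by
      push_cast
      simpa using e1
    exact_mod_cast this
  have h1 : 1 ≤ multiplicity π a := by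
    rw [← (hfin a ha).pow_dvd_iff_le_multiplicity, pow_one]
    exact hπa
  have h2 : p ∣ multiplicity π a := by
    have : p ∣ multiplicity π a + p * multiplicity π c := ⟨multiplicity π d, e2⟩
    exact (Nat.dvd_add_left (Dvd.intro _ rfl)).mp this
  have h3 : p ≤ multiplicity π a := Nat.le_of_dvd h1 h2
  exact pow_dvd_of_le_multiplicity h3

lemma pow_dvd_of_locallyPow' {p : ℕ} {π : R} (hπ : Prime π) {a b : R} (ha : a ≠ 0) (hb : b ≠ 0)
    (hπa : ¬ π ∣ a) (hπb : π ∣ b)
    (h : LocallyPow R p (algebraMap R F a / algebraMap R F b) π) : π ^ p ∣ b := by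
  have hinj := IsFractionRing.injective R F
  have haF : algebraMap R F a ≠ 0 := fun h0 => ha (hinj (by rw [h0, map_zero]))
  have hbF : algebraMap R F b ≠ 0 := fun h0 => hb (hinj (by rw [h0, map_zero]))
  have h' := h.inv (div_ne_zero haF hbF)
  rw [inv_div] at h'
  exact pow_dvd_of_locallyPow hπ hb ha hπb hπa h'

/-- **P2.** In a UFD, an element of the fraction field which is locally (at every prime element)
a unit times a `p`-th power is a unit times a `p`-th power. -/
theorem exists_unit_mul_pow_aux (p : ℕ) (hp : 0 < p) :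
    ∀ x : R, x ≠ 0 → ∀ a b : R, a * b = x →
      (∀ π : R, Prime π → LocallyPow R p (algebraMap R F a / algebraMap R F b) π) →
      ∃ s : F, s ≠ 0 ∧ ∃ w : Rˣ,
        algebraMap R F a / algebraMap R F b * s ^ p = algebraMap R F w := by
  intro x
  refine WellFounded.induction (wellFounded_dvdNotUnit (α := R))
    (C := fun x => x ≠ 0 → ∀ a b : R, a * b = x →
      (∀ π : R, Prime π → LocallyPow R p (algebraMap R F a / algebraMap R F b) π) →
      ∃ s : F, s ≠ 0 ∧ ∃ w : Rˣ,
        algebraMap R F a / algebraMap R F b * s ^ p = algebraMap R F w) x ?_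
  intro x ih hx a b hab H
  have hinj := IsFractionRing.injective R F
  have ha : a ≠ 0 := fun h0 => hx (by rw [← hab, h0, zero_mul])
  have hb : b ≠ 0 := fun h0 => hx (by rw [← hab, h0, mul_zero])
  have haF : algebraMap R F a ≠ 0 := fun h0 => ha (hinj (by rw [h0, map_zero]))
  have hbF : algebraMap R F b ≠ 0 := fun h0 => hb (hinj (by rw [h0, map_zero]))
  by_cases hxu : IsUnit x
  · -- both `a` and `b` are units
    have hau : IsUnit a := isUnit_of_mul_isUnit_left (hab ▸ hxu)
    have hbu : IsUnit b := isUnit_of_mul_isUnit_right (hab ▸ hxu)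
    obtain ⟨ua, hua⟩ := hau
    obtain ⟨ub, hub⟩ := hbu
    refine ⟨1, one_ne_zero, ua * ub⁻¹, ?_⟩
    rw [one_pow, mul_one, Units.val_mul, map_mul, ← hua, ← hub, div_eq_mul_inv, map_units_inv]
  · obtain ⟨π, hπirr, hπx⟩ := WfDvdMonoid.exists_irreducible_factor hxu hx
    have hπ : Prime π := UniqueFactorizationMonoid.irreducible_iff_prime.mp hπirr
    have hπF : algebraMap R F π ≠ 0 := fun h0 => hπ.ne_zero (hinj (by rw [h0, map_zero]))
    by_cases hπa : π ∣ a
    · by_cases hπb : π ∣ b
      · -- cancel `π`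
        obtain ⟨a₁, rfl⟩ := hπa
        obtain ⟨b₁, rfl⟩ := hπb
        have ha₁ : a₁ ≠ 0 := right_ne_zero_of_mul ha
        have hb₁ : b₁ ≠ 0 := right_ne_zero_of_mul hb
        have hlt : DvdNotUnit (a₁ * b₁) x := by
          refine ⟨mul_ne_zero ha₁ hb₁, π * π, ?_, ?_⟩
          · intro hu
            exact hπ.not_unit (isUnit_of_mul_isUnit_left hu)
          · rw [← hab]; ring
        have hquot : algebraMap R F (π * a₁) / algebraMap R F (π * b₁) =
            algebraMap R F a₁ / algebraMap R F b₁ := by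
          rw [map_mul, map_mul]
          field_simp
        rw [hquot] at H ⊢
        exact ih (a₁ * b₁) hlt (mul_ne_zero ha₁ hb₁) a₁ b₁ rfl H
      · -- `π ^ p ∣ a`
        obtain ⟨a₂, rfl⟩ := pow_dvd_of_locallyPow hπ ha hb hπa hπb (H π hπ)
        have ha₂ : a₂ ≠ 0 := right_ne_zero_of_mul ha
        have hlt : DvdNotUnit (a₂ * b) x := by
          refine ⟨mul_ne_zero ha₂ hb, π ^ p, ?_, ?_⟩
          · intro hu
            exact hπ.not_unit (isUnit_of_dvd_unit (dvd_pow_self π hp.ne') hu)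
          · rw [← hab]; ring
        have hquot : algebraMap R F a₂ / algebraMap R F b =
            algebraMap R F (π ^ p * a₂) / algebraMap R F b * ((algebraMap R F π)⁻¹) ^ p := by
          rw [map_mul, map_pow, inv_pow]
          field_simp
        have H' : ∀ π' : R, Prime π' →
            LocallyPow R p (algebraMap R F a₂ / algebraMap R F b) π' := by
          intro π' hπ'
          rw [hquot]
          exact (H π' hπ').mul_pow (inv_ne_zero hπF)
        obtain ⟨s, hs, w, hw⟩ := ih (a₂ * b) hlt (mul_ne_zero ha₂ hb) a₂ b rfl H'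
        refine ⟨s * (algebraMap R F π)⁻¹, mul_ne_zero hs (inv_ne_zero hπF), w, ?_⟩
        rw [← hw, hquot]
        ring
    · have hπb : π ∣ b := by
        rcases hπ.dvd_or_dvd (hab ▸ hπx) with h | h
        · exact absurd h hπa
        · exact h
      obtain ⟨b₂, rfl⟩ := pow_dvd_of_locallyPow' hπ ha hb hπa hπb (H π hπ)
      have hb₂ : b₂ ≠ 0 := right_ne_zero_of_mul hb
      have hlt : DvdNotUnit (a * b₂) x := by
        refine ⟨mul_ne_zero ha hb₂, π ^ p, ?_, ?_⟩
        · intro hu
          exact hπ.not_unit (isUnit_of_dvd_unit (dvd_pow_self π hp.ne') hu)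
        · rw [← hab]; ring
      have hb₂F : algebraMap R F b₂ ≠ 0 := fun h0 => hb₂ (hinj (by rw [h0, map_zero]))
      have hquot : algebraMap R F a / algebraMap R F b₂ =
          algebraMap R F a / algebraMap R F (π ^ p * b₂) * (algebraMap R F π) ^ p := by
        rw [map_mul, map_pow]
        field_simp
      have H' : ∀ π' : R, Prime π' →
          LocallyPow R p (algebraMap R F a / algebraMap R F b₂) π' := by
        intro π' hπ'
        rw [hquot]
        exact (H π' hπ').mul_pow hπF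
      obtain ⟨s, hs, w, hw⟩ := ih (a * b₂) hlt (mul_ne_zero ha hb₂) a b₂ rfl H'
      refine ⟨s * algebraMap R F π, mul_ne_zero hs hπF, w, ?_⟩
      rw [← hw, hquot]
      ring

theorem exists_unit_mul_pow (p : ℕ) (hp : 0 < p) (u : F) (hu : u ≠ 0)
    (H : ∀ π : R, Prime π → LocallyPow R p u π) :
    ∃ s : F, s ≠ 0 ∧ ∃ w : Rˣ, u * s ^ p = algebraMap R F w := by
  obtain ⟨a, b, hb, rfl⟩ := IsFractionRing.div_surjective (A := R) u
  have hb0 : b ≠ 0 := nonZeroDivisors.ne_zero hb
  have ha0 : a ≠ 0 := by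
    rintro rfl
    rw [map_zero, zero_div] at hu
    exact hu rfl
  exact exists_unit_mul_pow_aux p hp (a * b) (mul_ne_zero ha0 hb0) a b rfl H

end P2

end Fermat.Agent.S18.H754

end

end
-- ===== PACK-END S18/H754/DivisorPow.lean

-- ===== PACK-BEGIN S18/H754/LocalUFD.lean
section


/-!
# S18 / Route K / étale Kummer cover, piece P1 (helper754)

A Noetherian local domain whose maximal ideal is generated by a prime element `ϖ` and one more
element `t` is a unique factorisation domain.
-/

set_option autoImplicit false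

noncomputable section

namespace Fermat.Agent.S18.H754

open IsLocalRing

section P1

variable {R : Type*} [CommRing R] [IsDomain R] [IsNoetherianRing R] [IsLocalRing R]

/-- The quotient of a Noetherian local domain by a prime element `ϖ` with `𝔪 = (ϖ, t)` is a
principal ideal ring. -/
theorem isPrincipalIdealRing_quotient_of_regular_pair (ϖ t : R) (hϖ : Prime ϖ)
    (hm : maximalIdeal R = Ideal.span {ϖ, t}) :
    letI : (Ideal.span {ϖ}).IsPrime := (Ideal.span_singleton_prime hϖ.ne_zero).mpr hϖ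
    IsPrincipalIdealRing (R ⧸ Ideal.span {ϖ}) := by
  haveI hprime : (Ideal.span {ϖ}).IsPrime := (Ideal.span_singleton_prime hϖ.ne_zero).mpr hϖ
  haveI : Nontrivial (R ⧸ Ideal.span {ϖ}) := Ideal.Quotient.nontrivial_iff.mpr hprime.ne_top
  haveI : IsLocalRing (R ⧸ Ideal.span {ϖ}) :=
    IsLocalRing.of_surjective' (Ideal.Quotient.mk _) Ideal.Quotient.mk_surjective
  have hmax : maximalIdeal (R ⧸ Ideal.span {ϖ}) =
      Ideal.span {Ideal.Quotient.mk (Ideal.span {ϖ}) t} := by
    have h1 : maximalIdeal (R ⧸ Ideal.span {ϖ}) =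
        (maximalIdeal R).map (Ideal.Quotient.mk (Ideal.span {ϖ})) := by
      haveI := IsLocalHom.of_surjective (Ideal.Quotient.mk (Ideal.span {ϖ}))
        Ideal.Quotient.mk_surjective
      ext x
      obtain ⟨x, rfl⟩ := Ideal.Quotient.mk_surjective x
      simp [sup_eq_left.mpr (le_maximalIdeal hprime.ne_top)]
    rw [h1, hm, Ideal.map_span, Set.image_pair]
    have h0 : Ideal.Quotient.mk (Ideal.span {ϖ}) ϖ = 0 :=
      Ideal.Quotient.eq_zero_iff_mem.mpr (Ideal.mem_span_singleton_self ϖ)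
    rw [h0]
    apply le_antisymm
    · rw [Ideal.span_le]
      rintro x (rfl | rfl)
      · exact Ideal.zero_mem _
      · exact Ideal.subset_span rfl
    · apply Ideal.span_mono
      intro x hx
      right
      exact hx
  have htfae := (tfae_of_isNoetherianRing_of_isLocalRing_of_isDomain
    (R := R ⧸ Ideal.span {ϖ})).out 4 0
  exact htfae.mp ⟨⟨_, hmax⟩⟩

/-- **P1.** A Noetherian local domain with `𝔪 = (ϖ, t)`, `ϖ` prime, is a UFD. -/
theorem ufd_of_regular_pair (ϖ t : R) (hϖ : Prime ϖ)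
    (hm : maximalIdeal R = Ideal.span {ϖ, t}) : UniqueFactorizationMonoid R := by
  haveI hprime : (Ideal.span {ϖ}).IsPrime := (Ideal.span_singleton_prime hϖ.ne_zero).mpr hϖ
  haveI hpid : IsPrincipalIdealRing (R ⧸ Ideal.span {ϖ}) :=
    isPrincipalIdealRing_quotient_of_regular_pair ϖ t hϖ hm
  apply UniqueFactorizationMonoid.of_forall_isPrincipal_of_height_eq_one
  intro 𝔮 h𝔮 hht
  by_cases hϖ𝔮 : ϖ ∈ 𝔮
  · exact ⟨ϖ, 𝔮.eq_span_singleton_of_height_eq_one hht hϖ𝔮 hϖ⟩
  · -- the image of `𝔮` modulo `ϖ` is principal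
    obtain ⟨fbar, hfbar⟩ := (hpid.principal (𝔮.map (Ideal.Quotient.mk (Ideal.span {ϖ})))).principal
    have hfmem : fbar ∈ 𝔮.map (Ideal.Quotient.mk (Ideal.span {ϖ})) := by
      rw [hfbar]
      exact Submodule.mem_span_singleton_self fbar
    obtain ⟨f, hf𝔮, rfl⟩ :=
      (Ideal.mem_map_iff_of_surjective _ Ideal.Quotient.mk_surjective).1 hfmem
    refine ⟨f, le_antisymm ?_ ?_⟩
    · have key : 𝔮 ≤ Ideal.span {f} ⊔ Ideal.span {ϖ} • 𝔮 := by
        intro g hg
        have hgbar : Ideal.Quotient.mk (Ideal.span {ϖ}) g ∈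
            𝔮.map (Ideal.Quotient.mk (Ideal.span {ϖ})) := Ideal.mem_map_of_mem _ hg
        rw [hfbar] at hgbar
        obtain ⟨abar, habar⟩ := Submodule.mem_span_singleton.1 hgbar
        obtain ⟨a, rfl⟩ := Ideal.Quotient.mk_surjective abar
        have h1 : g - a * f ∈ Ideal.span {ϖ} := by
          rw [← Ideal.Quotient.eq_zero_iff_mem, map_sub, map_mul, sub_eq_zero]
          rw [← habar]
          rfl
        obtain ⟨g₁, hg₁⟩ := Ideal.mem_span_singleton'.1 h1
        have hg₁𝔮 : g₁ ∈ 𝔮 := by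
          have h2 : g₁ * ϖ ∈ 𝔮 := by
            rw [hg₁]
            exact 𝔮.sub_mem hg (𝔮.mul_mem_left a hf𝔮)
          exact (h𝔮.mem_or_mem h2).resolve_right hϖ𝔮
        have h3 : g = a * f + ϖ * g₁ := by
          rw [mul_comm ϖ g₁, hg₁]
          ring
        rw [h3]
        refine Submodule.add_mem_sup ?_ ?_
        · exact Ideal.mul_mem_left _ a (Ideal.mem_span_singleton_self f)
        · exact Submodule.smul_mem_smul (Ideal.mem_span_singleton_self ϖ) hg₁𝔮
      have hjac : Ideal.span {ϖ} ≤ Ideal.jacobson (⊥ : Ideal R) := by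
        rw [IsLocalRing.jacobson_eq_maximalIdeal ⊥ bot_ne_top, Ideal.span_singleton_le_iff_mem]
        exact hϖ.not_unit
      exact Submodule.le_of_le_smul_of_le_jacobson_bot (IsNoetherian.noetherian 𝔮) hjac key
    · rw [Submodule.span_singleton_le_iff_mem]
      exact hf𝔮

end P1

end Fermat.Agent.S18.H754

end

end
-- ===== PACK-END S18/H754/LocalUFD.lean

-- ===== PACK-BEGIN S18/H438/Front/HeightOne.lean
section


/-!
# S18 / ALG-FRONT (helper438), part 3a: localisation at a height-one prime is a DVR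

`B` a Noetherian integrally closed domain with fraction field `F`, `𝔭` a prime of height one.
Then `B_𝔭 ⊆ F` is a discrete valuation ring, realised as a `ValuationSubring F`:

    exists_dvr_of_height_one :
      ∃ W : ValuationSubring F, IsDiscreteValuationRing W ∧
        ∀ f : F, f ∈ W ↔ ∃ a s : B, s ∉ 𝔭 ∧ f * algebraMap B F s = algebraMap B F a
-/

set_option autoImplicit false
set_option linter.style.haveILetI false
set_option linter.unusedSectionVars false

noncomputable section

namespace Fermat.Agent.S18.H438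

open IsLocalRing

variable {B F : Type*} [CommRing B] [IsDomain B] [Field F] [Algebra B F] [IsFractionRing B F]

/-- Membership in the localisation `B_𝔭 ⊆ F`. -/
theorem mem_ofField_primeCompl_iff (𝔭 : Ideal B) [𝔭.IsPrime] (f : F) :
    f ∈ Localization.subalgebra.ofField F 𝔭.primeCompl 𝔭.primeCompl_le_nonZeroDivisors ↔
      ∃ a s : B, s ∉ 𝔭 ∧ f * algebraMap B F s = algebraMap B F a := by
  constructor
  · rintro ⟨a, s, hs, rfl⟩
    refine ⟨a, s, hs, ?_⟩
    have hs0 : algebraMap B F s ≠ 0 := by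
      intro h
      have : s = 0 := (FaithfulSMul.algebraMap_injective B F) (by rw [h, map_zero])
      exact hs (this ▸ 𝔭.zero_mem)
    field_simp
  · rintro ⟨a, s, hs, h⟩
    refine ⟨a, s, hs, ?_⟩
    have hs0 : algebraMap B F s ≠ 0 := by
      intro h
      have : s = 0 := (FaithfulSMul.algebraMap_injective B F) (by rw [h, map_zero])
      exact hs (this ▸ 𝔭.zero_mem)
    rw [← h]
    field_simp

variable [IsNoetherianRing B] [IsIntegrallyClosed B]

/-- **Localisation at a height-one prime of a Noetherian normal domain is a DVR.** -/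
theorem isDiscreteValuationRing_ofField_of_height_one (𝔭 : Ideal B) [h𝔭 : 𝔭.IsPrime]
    (h : 𝔭.height = 1) :
    IsDiscreteValuationRing
      (Localization.subalgebra.ofField F 𝔭.primeCompl 𝔭.primeCompl_le_nonZeroDivisors) := by
  set A := Localization.subalgebra.ofField F 𝔭.primeCompl 𝔭.primeCompl_le_nonZeroDivisors with hA
  haveI hloc : IsLocalization.AtPrime A 𝔭 :=
    Localization.subalgebra.isLocalization_ofField F 𝔭.primeCompl 𝔭.primeCompl_le_nonZeroDivisors
  haveI : IsLocalRing A := IsLocalization.AtPrime.isLocalRing A 𝔭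
  haveI : IsNoetherianRing A := IsLocalization.isNoetherianRing 𝔭.primeCompl A inferInstance
  haveI : IsIntegrallyClosed A :=
    isIntegrallyClosed_of_isLocalization A 𝔭.primeCompl 𝔭.primeCompl_le_nonZeroDivisors
  have h𝔭bot : 𝔭 ≠ ⊥ := Ideal.ne_bot_of_height_eq_one h
  have hfin : 𝔭.FiniteHeight := by simp [𝔭.finiteHeight_iff, h]
  -- the maximal ideal is the extension of `𝔭`
  have hmax : maximalIdeal A = 𝔭.map (algebraMap B A) :=
    (IsLocalization.AtPrime.map_eq_maximalIdeal 𝔭 A).symm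
  -- `A` is not a field
  have hnf : ¬ IsField A := by
    rw [isField_iff_maximalIdeal_eq]
    intro hbot
    obtain ⟨x, hx, hx0⟩ := Submodule.exists_mem_ne_zero_of_ne_bot h𝔭bot
    have hxmem : algebraMap B A x ∈ maximalIdeal A := by
      rw [hmax]; exact Ideal.mem_map_of_mem _ hx
    rw [hbot, Ideal.mem_bot] at hxmem
    have hinj : Function.Injective (algebraMap B A) :=
      IsLocalization.injective A 𝔭.primeCompl_le_nonZeroDivisors
    exact hx0 (hinj (by rw [hxmem, map_zero]))
  -- every nonzero prime is the maximal ideal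
  have huniq : ∀ P : Ideal A, P ≠ ⊥ → P.IsPrime → P = maximalIdeal A := by
    intro P hP hPprime
    have hP' : (P.comap (algebraMap B A)).IsPrime := Ideal.comap_isPrime _ _
    have hmapcomap : (P.comap (algebraMap B A)).map (algebraMap B A) = P :=
      IsLocalization.map_under 𝔭.primeCompl A P
    have hle : P.comap (algebraMap B A) ≤ 𝔭 := by
      have hdisj : Disjoint (𝔭.primeCompl : Set B) (P.comap (algebraMap B A) : Set B) :=
        ((IsLocalization.isPrime_iff_isPrime_disjoint 𝔭.primeCompl A P).1 hPprime).2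
      intro x hx
      by_contra hx𝔭
      exact Set.disjoint_left.1 hdisj hx𝔭 hx
    have hne : P.comap (algebraMap B A) ≠ ⊥ := by
      intro h0
      apply hP
      rw [← hmapcomap, h0, Ideal.map_bot]
    have hfin' : (P.comap (algebraMap B A)).FiniteHeight :=
      Ideal.finiteHeight_of_le hle h𝔭.ne_top
    have h1 : 𝔭.height ≤ (P.comap (algebraMap B A)).height := by
      rw [h]
      rw [Order.one_le_iff_pos, pos_iff_ne_zero, Ne, Ideal.height_eq_zero_iff_eq_bot]
      exact hne
    have heq : P.comap (algebraMap B A) = 𝔭 := Ideal.eq_of_le_of_height_le (h := hle) (h_height := h1)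
    rw [hmax, ← heq, hmapcomap]
  have htfae := (IsDiscreteValuationRing.TFAE A hnf).out 0 3
  rw [htfae]
  refine ⟨inferInstance, maximalIdeal A, ⟨?_, inferInstance⟩, ?_⟩
  · exact isField_iff_maximalIdeal_eq.not.1 hnf
  · rintro P ⟨hP, hPprime⟩
    exact huniq P hP hPprime

/-- **`B_𝔭` as a discrete valuation subring of `F`.** -/
theorem exists_dvr_of_height_one (𝔭 : Ideal B) [h𝔭 : 𝔭.IsPrime] (h : 𝔭.height = 1) :
    ∃ W : ValuationSubring F, IsDiscreteValuationRing W ∧
      ∀ f : F, f ∈ W ↔ ∃ a s : B, s ∉ 𝔭 ∧ f * algebraMap B F s = algebraMap B F a := by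
  set A := Localization.subalgebra.ofField F 𝔭.primeCompl 𝔭.primeCompl_le_nonZeroDivisors with hA
  haveI hdvr : IsDiscreteValuationRing A := isDiscreteValuationRing_ofField_of_height_one 𝔭 h
  have hval : ∀ f : F, f ∈ A ∨ f⁻¹ ∈ A := by
    intro f
    rcases ValuationRing.isInteger_or_isInteger A f with ⟨a, ha⟩ | ⟨a, ha⟩
    · left; rw [← ha]; exact a.2
    · right; rw [← ha]; exact a.2
  let W : ValuationSubring F := { A.toSubring with mem_or_inv_mem' := hval }
  have hWA : ∀ f : F, f ∈ W ↔ f ∈ A := fun f => Iff.rfl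
  refine ⟨W, ?_, fun f => ?_⟩
  · -- transfer along the identity
    let e : A ≃+* W :=
      { toFun := fun a => ⟨a.1, (hWA _).2 a.2⟩
        invFun := fun b => ⟨b.1, (hWA _).1 b.2⟩
        left_inv := fun _ => rfl
        right_inv := fun _ => rfl
        map_mul' := fun _ _ => rfl
        map_add' := fun _ _ => rfl }
    exact IsDiscreteValuationRing.RingEquivClass.isDiscreteValuationRing e
  · rw [hWA]
    exact mem_ofField_primeCompl_iff 𝔭 f

end Fermat.Agent.S18.H438

end
end
-- ===== PACK-END S18/H438/Front/HeightOne.lean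

-- ===== PACK-BEGIN A2/Mod/H398/LinDisj.lean
section



/-!
# A2 / MOD leaf L8 (helper398) — linear disjointness of `E((t))` and `K` over `E`

For a field extension `K / E`, `ι = coeffMap : E((t)) → K((t))`, `x ∈ E((t))`:
a family `b` of Laurent series over `E` is linearly independent over `E(x)` **iff** `ι ∘ b` is
linearly independent over `K(ι x)`.  (Proof: apply `E`-linear functionals `K → E` coefficientwise.)
-/

set_option autoImplicit false

noncomputable section

namespace Fermat.Agent.A2.Mod.H398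

open ModularCurve HahnSeries Polynomial IntermediateField

section LinDisj

variable {E K : Type*} [Field E] [Field K] [Algebra E K]

/-- The coefficient embedding `E((t)) → K((t))`. -/
abbrev iotaL (E K : Type*) [Field E] [Field K] [Algebra E K] :
    LaurentSeries E →+* LaurentSeries K :=
  coeffMap (algebraMap E K)

theorem iotaL_injective : Function.Injective (iotaL E K) :=
  (iotaL E K).injective

theorem iotaL_algebraMap (c : E) :
    iotaL E K (algebraMap E (LaurentSeries E) c) =
      algebraMap K (LaurentSeries K) (algebraMap E K c) := by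
  rw [algebraMap_laurentSeries_eq_single, algebraMap_laurentSeries_eq_single]
  exact coeffMap_single _ _ _

theorem iotaL_comp_algebraMap :
    (iotaL E K).comp (algebraMap E (LaurentSeries E)) =
      (algebraMap K (LaurentSeries K)).comp (algebraMap E K) :=
  RingHom.ext fun c => iotaL_algebraMap c

theorem iotaL_aeval (x : LaurentSeries E) (r : E[X]) :
    iotaL E K (aeval x r) = aeval (iotaL E K x) (r.map (algebraMap E K)) := by
  rw [aeval_def, aeval_def, Polynomial.hom_eval₂, iotaL_comp_algebraMap, Polynomial.eval₂_map]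

theorem iotaL_mem_adjoin_simple {x c : LaurentSeries E} (hc : c ∈ E⟮x⟯) :
    iotaL E K c ∈ K⟮iotaL E K x⟯ := by
  obtain ⟨r, s, rfl⟩ := (IntermediateField.mem_adjoin_simple_iff E c).mp hc
  rw [map_div₀, iotaL_aeval, iotaL_aeval]
  exact (IntermediateField.mem_adjoin_simple_iff K _).mpr ⟨_, _, rfl⟩

/-- Apply an `E`-linear functional `K → E` coefficientwise. -/
def coeffLin (φ : K →ₗ[E] E) (y : LaurentSeries K) : LaurentSeries E := y.map φ

@[simp]
theorem coeffLin_coeff (φ : K →ₗ[E] E) (y : LaurentSeries K) (n : ℤ) :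
    (coeffLin φ y).coeff n = φ (y.coeff n) := rfl

theorem coeffLin_zero (φ : K →ₗ[E] E) : coeffLin φ 0 = 0 := by
  ext n; simp

theorem coeffLin_add (φ : K →ₗ[E] E) (y z : LaurentSeries K) :
    coeffLin φ (y + z) = coeffLin φ y + coeffLin φ z := by
  ext n; simp

theorem coeffLin_sum (φ : K →ₗ[E] E) {ι : Type*} (s : Finset ι) (f : ι → LaurentSeries K) :
    coeffLin φ (∑ i ∈ s, f i) = ∑ i ∈ s, coeffLin φ (f i) := by
  classical
  induction s using Finset.induction_on with
  | empty => simp [coeffLin_zero]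
  | insert a s ha ih => rw [Finset.sum_insert ha, Finset.sum_insert ha, coeffLin_add, ih]

theorem coeffLin_support_subset (φ : K →ₗ[E] E) (y : LaurentSeries K) :
    (coeffLin φ y).support ⊆ y.support := by
  intro n hn
  rw [HahnSeries.mem_support] at hn ⊢
  intro h
  apply hn
  rw [coeffLin_coeff, h, map_zero]

theorem iotaL_support_subset (a : LaurentSeries E) :
    (iotaL E K a).support ⊆ a.support := by
  intro n hn
  rw [HahnSeries.mem_support] at hn ⊢
  intro h
  apply hn
  rw [coeffMap_coeff, h, map_zero]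

/-- **Semilinearity**: `π_φ (ι a · y) = a · π_φ y`. -/
theorem coeffLin_iotaL_mul (φ : K →ₗ[E] E) (a : LaurentSeries E) (y : LaurentSeries K) :
    coeffLin φ (iotaL E K a * y) = a * coeffLin φ y := by
  ext n
  rw [coeffLin_coeff, HahnSeries.coeff_mul_left' a.isPWO_support (iotaL_support_subset a),
    HahnSeries.coeff_mul_right' y.isPWO_support (coeffLin_support_subset φ y), map_sum]
  refine Finset.sum_congr rfl fun ij _ => ?_
  rw [coeffMap_coeff, coeffLin_coeff, ← Algebra.smul_def, map_smul, smul_eq_mul]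

theorem coeffLin_algebraMap (φ : K →ₗ[E] E) (κ : K) :
    coeffLin φ (algebraMap K (LaurentSeries K) κ) = algebraMap E (LaurentSeries E) (φ κ) := by
  rw [algebraMap_laurentSeries_eq_single, algebraMap_laurentSeries_eq_single]
  ext n
  rw [coeffLin_coeff]
  by_cases h : n = 0
  · subst h
    simp
  · rw [HahnSeries.coeff_single_of_ne h, HahnSeries.coeff_single_of_ne h, map_zero]

/-- `π_φ` maps `K[ι x]` into `E[x]`. -/
theorem coeffLin_aeval_mem (φ : K →ₗ[E] E) (x : LaurentSeries E) (Q : K[X]) :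
    coeffLin φ (aeval (iotaL E K x) Q) ∈ Algebra.adjoin E {x} := by
  induction Q using Polynomial.induction_on' with
  | add p q hp hq =>
    rw [map_add, coeffLin_add]
    exact add_mem hp hq
  | monomial m κ =>
    have h1 : aeval (iotaL E K x) (monomial m κ) =
        iotaL E K (x ^ m) * algebraMap K (LaurentSeries K) κ := by
      rw [aeval_monomial, map_pow, mul_comm]
    rw [h1, coeffLin_iotaL_mul, coeffLin_algebraMap]
    exact mul_mem (pow_mem (Algebra.self_mem_adjoin_singleton E x) m)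
      (Subalgebra.algebraMap_mem _ _)

/-- If all coefficientwise functionals vanish, the series vanishes. -/
theorem eq_zero_of_forall_coeffLin {y : LaurentSeries K}
    (h : ∀ φ : K →ₗ[E] E, coeffLin φ y = 0) : y = 0 := by
  ext n
  rw [HahnSeries.coeff_zero]
  refine (Module.forall_dual_apply_eq_zero_iff E (y.coeff n)).mp fun φ => ?_
  have := congrArg (fun z => z.coeff n) (h φ)
  simpa using this

/-- **Linear disjointness, subalgebra form.** -/
theorem linearIndependent_adjoin_iotaL (x : LaurentSeries E) {n : ℕ}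
    (b : Fin n → LaurentSeries E) (hb : LinearIndependent (Algebra.adjoin E {x}) b) :
    LinearIndependent (Algebra.adjoin K {iotaL E K x}) (fun i => iotaL E K (b i)) := by
  rw [Fintype.linearIndependent_iff] at hb ⊢
  intro c hc i
  have key : ∀ φ : K →ₗ[E] E, coeffLin φ (c i : LaurentSeries K) = 0 := by
    intro φ
    have hmem : ∀ i, coeffLin φ (c i : LaurentSeries K) ∈ Algebra.adjoin E {x} := by
      intro i
      obtain ⟨Q, hQ⟩ := (Algebra.adjoin_singleton_eq_range_aeval K (iotaL E K x) ▸ (c i).2 :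
        (c i : LaurentSeries K) ∈ (aeval (iotaL E K x) : K[X] →ₐ[K] LaurentSeries K).range)
      rw [← hQ]
      exact coeffLin_aeval_mem φ x Q
    have h1 : ∑ i, (⟨coeffLin φ (c i : LaurentSeries K), hmem i⟩ : Algebra.adjoin E {x}) • b i
        = 0 := by
      have h2 := congrArg (coeffLin φ) hc
      rw [coeffLin_zero, coeffLin_sum] at h2
      rw [← h2]
      refine Finset.sum_congr rfl fun i _ => ?_
      rw [Subalgebra.smul_def, smul_eq_mul, Subalgebra.smul_def, smul_eq_mul,
        mul_comm (c i : LaurentSeries K), coeffLin_iotaL_mul, mul_comm]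
    have h3 := hb _ h1 i
    exact congrArg Subtype.val h3
  exact Subtype.ext (eq_zero_of_forall_coeffLin key)

open IntermediateField.algebraAdjoinAdjoin in
/-- **Linear disjointness**: `E(x)`-independent families stay independent over `K(ι x)`. -/
theorem linearIndependent_iotaL (x : LaurentSeries E) {n : ℕ}
    (b : Fin n → LaurentSeries E) (hb : LinearIndependent E⟮x⟯ b) :
    LinearIndependent K⟮iotaL E K x⟯ (fun i => iotaL E K (b i)) := by
  rw [← LinearIndependent.iff_fractionRing (Algebra.adjoin E {x}) E⟮x⟯] at hb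
  rw [← LinearIndependent.iff_fractionRing (Algebra.adjoin K {iotaL E K x}) K⟮iotaL E K x⟯]
  exact linearIndependent_adjoin_iotaL x b hb

/-- The converse (easy) direction. -/
theorem linearIndependent_of_iotaL (x : LaurentSeries E) {n : ℕ}
    (b : Fin n → LaurentSeries E)
    (hb : LinearIndependent K⟮iotaL E K x⟯ (fun i => iotaL E K (b i))) :
    LinearIndependent E⟮x⟯ b := by
  rw [Fintype.linearIndependent_iff] at hb ⊢
  intro c hc i
  have h1 : ∑ i, (⟨iotaL E K (c i : LaurentSeries E), iotaL_mem_adjoin_simple (c i).2⟩ :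
      K⟮iotaL E K x⟯) • iotaL E K (b i) = 0 := by
    have h2 := congrArg (iotaL E K) hc
    rw [map_zero, map_sum] at h2
    rw [← h2]
    refine Finset.sum_congr rfl fun i _ => ?_
    rw [IntermediateField.smul_def, smul_eq_mul, IntermediateField.smul_def, smul_eq_mul, map_mul]
  have h3 := congrArg Subtype.val (hb _ h1 i)
  apply Subtype.ext
  apply iotaL_injective (K := K)
  rw [IntermediateField.coe_zero, map_zero]
  exact h3

theorem linearIndependent_iotaL_iff (x : LaurentSeries E) {n : ℕ}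
    (b : Fin n → LaurentSeries E) :
    LinearIndependent K⟮iotaL E K x⟯ (fun i => iotaL E K (b i)) ↔ LinearIndependent E⟮x⟯ b :=
  ⟨linearIndependent_of_iotaL x b, linearIndependent_iotaL x b⟩

end LinDisj

end Fermat.Agent.A2.Mod.H398

end

end
-- ===== PACK-END A2/Mod/H398/LinDisj.lean

-- ===== PACK-BEGIN S28/H806/Transcend.lean
section



set_option autoImplicit false
set_option linter.unusedSectionVars false
set_option linter.style.haveILetI false

noncomputable section

namespace Fermat.Agent.S28.H806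

open Polynomial ModularCurve

section LemmaT

variable {D : Type*} [CommRing D] [IsDomain D]

theorem order_C_mul_pow (t : HahnSeries ℤ D) (ht : t ≠ 0) {c : D} (hc : c ≠ 0) (i : ℕ) :
    (HahnSeries.C c * t ^ i).order = (i : ℤ) * t.order := by
  have hC : (HahnSeries.C c : HahnSeries ℤ D) ≠ 0 := by
    intro h
    exact hc (HahnSeries.C_injective (by rw [h, map_zero]))
  rw [HahnSeries.order_mul hC (pow_ne_zero _ ht), HahnSeries.order_pow, HahnSeries.order_C,
    zero_add, nsmul_eq_mul]

/-- **Lemma T.** A Laurent series of nonzero order is transcendental over the coefficients: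
`∑ cᵢ tⁱ = 0` forces all `cᵢ = 0`. -/
theorem eq_zero_of_eval₂_C_eq_zero (t : HahnSeries ℤ D) (ht : t.order ≠ 0) (p : D[X])
    (hp : p.eval₂ (HahnSeries.C (Γ := ℤ) (R := D)) t = 0) : p = 0 := by
  classical
  by_contra hp0
  have ht0 : t ≠ 0 := by
    rintro rfl
    exact ht HahnSeries.order_zero
  have hne : p.support.Nonempty := by
    rw [Finset.nonempty_iff_ne_empty, Ne, Polynomial.support_eq_empty]
    exact hp0
  obtain ⟨i0, hi0, hmin⟩ := Finset.exists_min_image p.support (fun i : ℕ => (i : ℤ) * t.order) hne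
  have hci0 : p.coeff i0 ≠ 0 := Polynomial.mem_support_iff.mp hi0
  rw [Polynomial.eval₂_eq_sum, Polynomial.sum_def] at hp
  have hcoef := congrArg (fun x : HahnSeries ℤ D => x.coeff ((i0 : ℤ) * t.order)) hp
  simp only [HahnSeries.coeff_zero] at hcoef
  have hsum : (∑ i ∈ p.support, HahnSeries.C (p.coeff i) * t ^ i).coeff ((i0 : ℤ) * t.order) =
      ∑ i ∈ p.support, (HahnSeries.C (p.coeff i) * t ^ i).coeff ((i0 : ℤ) * t.order) :=
    map_sum (HahnSeries.coeff.addMonoidHom ((i0 : ℤ) * t.order)) _ p.support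
  rw [hsum, Finset.sum_eq_single i0] at hcoef
  · have h1 : (HahnSeries.C (p.coeff i0) * t ^ i0) ≠ 0 := by
      apply mul_ne_zero
      · intro h
        exact hci0 (HahnSeries.C_injective (by rw [h, map_zero]))
      · exact pow_ne_zero _ ht0
    rw [← order_C_mul_pow t ht0 hci0 i0] at hcoef
    exact h1 (HahnSeries.coeff_order_eq_zero.mp hcoef)
  · intro i hi hii0
    have hci : p.coeff i ≠ 0 := Polynomial.mem_support_iff.mp hi
    apply HahnSeries.coeff_eq_zero_of_lt_order
    rw [order_C_mul_pow t ht0 hci i]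
    have hle := hmin i hi
    rcases lt_or_eq_of_le hle with h | h
    · exact h
    · exfalso
      apply hii0
      have := mul_right_cancel₀ ht h
      exact_mod_cast this.symm
  · intro h
    exact absurd hi0 h

end LemmaT

section JOrder

variable (D : Type*) [CommRing D] [IsDomain D]

theorem jqModC_order_neg : (jqModC D).order < 0 := by
  have h1 : (jqModC D).coeff (-1) ≠ 0 := by
    rw [coeff_jqModC_neg_one]
    exact one_ne_zero
  exact lt_of_le_of_lt (HahnSeries.order_le_of_coeff_ne_zero h1) (by norm_num)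

theorem jqModC_order_ne_zero : (jqModC D).order ≠ 0 := (jqModC_order_neg D).ne

theorem jqModC_ne_zero' : jqModC D ≠ 0 := jqModC_ne_zero_of_nontrivial D

variable (k : Type*) [Field k]

theorem jqModC_inv_order_ne_zero : ((jqModC k)⁻¹).order ≠ 0 := by
  have h0 := jqModC_ne_zero' k
  have h1 : (jqModC k)⁻¹ ≠ 0 := inv_ne_zero h0
  have h2 := HahnSeries.order_mul h0 h1
  rw [mul_inv_cancel₀ h0, HahnSeries.order_one] at h2
  have h3 := jqModC_order_neg k
  omega

end JOrder

end Fermat.Agent.S28.H806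

end
end
-- ===== PACK-END S28/H806/Transcend.lean

-- ===== PACK-BEGIN S28/H326/Newton.lean
section
/-
S28 / helper326: Newton's identities, membership form.

If all power sums of a finite family `z` in a commutative `ℚ`-algebra lie in a `ℚ`-subalgebra `B`,
then so do all elementary symmetric functions; hence `∏ (X - z i)` has coefficients in `B`.
-/


set_option autoImplicit false

namespace Fermat.Agent.S28.H326

open Finset

/-- **Newton**: power sums in `B` ⟹ elementary symmetric functions in `B`. -/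
theorem esymm_mem_of_psum_mem {Ω : Type*} [CommRing Ω] [Algebra ℚ Ω] (B : Subalgebra ℚ Ω)
    {σ : Type*} [Fintype σ] (z : σ → Ω) (h : ∀ m : ℕ, 0 < m → ∑ i, z i ^ m ∈ B) (k : ℕ) :
    (Finset.univ.val.map z).esymm k ∈ B := by
  induction k using Nat.strong_induction_on with
  | _ k ih =>
    rcases Nat.eq_zero_or_pos k with rfl | hk
    · have : (Finset.univ.val.map z).esymm 0 = 1 := by simp [Multiset.esymm]
      rw [this]; exact one_mem B
    · have key := congrArg (MvPolynomial.aeval (R := ℚ) z) (MvPolynomial.mul_esymm_eq_sum σ ℚ k)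
      simp only [map_mul, map_natCast, map_pow, map_neg, map_one, map_sum,
        MvPolynomial.aeval_esymm_eq_multiset_esymm] at key
      have hps : ∀ m : ℕ, MvPolynomial.aeval (R := ℚ) z (MvPolynomial.psum σ ℚ m) = ∑ i, z i ^ m := by
        intro m
        simp [MvPolynomial.psum]
      simp only [hps] at key
      have hR : (-1 : Ω) ^ (k + 1) * ∑ a ∈ antidiagonal k with a.1 < k,
          (-1 : Ω) ^ a.1 * (Finset.univ.val.map z).esymm a.1 * ∑ i, z i ^ a.2 ∈ B := by
        refine mul_mem (pow_mem (neg_mem (one_mem B)) _) (sum_mem fun a ha => ?_)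
        rw [mem_filter, HasAntidiagonal.mem_antidiagonal] at ha
        refine mul_mem (mul_mem (pow_mem (neg_mem (one_mem B)) _) (ih a.1 ha.2)) (h a.2 (by omega))
      rw [← key] at hR
      have hk0 : (k : ℚ) ≠ 0 := by exact_mod_cast hk.ne'
      have : (Finset.univ.val.map z).esymm k =
          (k : ℚ)⁻¹ • ((k : Ω) * (Finset.univ.val.map z).esymm k) := by
        rw [← nsmul_eq_mul, ← Nat.cast_smul_eq_nsmul ℚ k, smul_smul,
          inv_mul_cancel₀ hk0, one_smul]
      rw [this]
      exact B.smul_mem hR _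

/-- Vieta + Newton: the monic polynomial with roots `z i` has coefficients in `B`. -/
theorem prod_X_sub_C_mem_of_psum_mem {Ω : Type*} [CommRing Ω] [Algebra ℚ Ω] (B : Subalgebra ℚ Ω)
    {σ : Type*} [Fintype σ] (z : σ → Ω) (h : ∀ m : ℕ, 0 < m → ∑ i, z i ^ m ∈ B) (n : ℕ) :
    (∏ i, (Polynomial.X - Polynomial.C (z i))).coeff n ∈ B := by
  have hV := Multiset.prod_X_sub_X_eq_sum_esymm (Finset.univ.val.map z)
  rw [Multiset.map_map] at hV
  have hprod : (∏ i, (Polynomial.X - Polynomial.C (z i))) =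
      (Multiset.map ((fun t => Polynomial.X - Polynomial.C t) ∘ z) Finset.univ.val).prod := by
    rfl
  rw [hprod, hV, Polynomial.finsetSum_coeff]
  refine sum_mem fun j _ => ?_
  have : ((-1 : Polynomial Ω) ^ j * (Polynomial.C ((Finset.univ.val.map z).esymm j) *
      Polynomial.X ^ (Multiset.card (Finset.univ.val.map z) - j))) =
      Polynomial.C ((-1) ^ j * (Finset.univ.val.map z).esymm j) *
        Polynomial.X ^ (Multiset.card (Finset.univ.val.map z) - j) := by
    simp [mul_assoc]
  rw [this, Polynomial.coeff_C_mul_X_pow]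
  split_ifs
  · exact mul_mem (pow_mem (neg_mem (one_mem B)) _) (esymm_mem_of_psum_mem B z h j)
  · exact zero_mem B

end Fermat.Agent.S28.H326

end
-- ===== PACK-END S28/H326/Newton.lean

-- ===== PACK-BEGIN A2/Mod/H816/L8Abs.lean
section


/-!
# A2 / MOD leaf L8, part 1 (helper816): two valuations and linear independence

Abstract (Mathlib only).  `E ⊆ F` fields, `v, v'` additive valuations of `F` with values in
`WithTop ℤ`, trivial on `E`, `x ∈ F` with `v x = v' x = -n < 0`.

* `addVal_sum_le_of_distinct` : ultrametric sum with pairwise distinct values;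
* `addVal_aeval_eq` : `v (g(x)) = deg g · v x`;
* `transcendental_of_addVal_ne_zero` : `v f ∉ {0, ⊤}` implies `f` transcendental over `E`;
* `addVal_mem_adjoin` : on `E(x)` both valuations agree and take values in `n ℤ`;
* `linearIndependent_of_two_addVal` : families `u`, `u'` with `v (u i) = e i < v' (u i)`,
  `v' (u' i) = e i < v (u' i)`, `e` injective modulo `n`, are jointly linearly independent
  over `E(x)`.
-/

set_option autoImplicit false

noncomputable section

namespace Fermat.Agent.A2.Mod.H816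

open Polynomial

section Ultra

variable {R : Type*} [Ring R] (v : AddValuation R (WithTop ℤ))

/-- **Ultrametric sum, distinct values.** -/
theorem addVal_sum_le_of_distinct {ι : Type*} (s : Finset ι) (c : ι → R)
    (hd : ∀ i ∈ s, ∀ j ∈ s, i ≠ j → v (c i) = v (c j) → v (c i) = ⊤) :
    ∀ j ∈ s, v (∑ i ∈ s, c i) ≤ v (c j) := by
  classical
  intro j hj
  obtain ⟨j₀, hj₀, hmin⟩ := Finset.exists_min_image s (fun i => v (c i)) ⟨j, hj⟩
  refine le_trans ?_ (hmin j hj)
  by_cases htop : v (c j₀) = ⊤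
  · rw [htop]; exact le_top
  · rw [← Finset.add_sum_erase s c hj₀]
    have hlt : v (c j₀) < v (∑ i ∈ s.erase j₀, c i) := by
      apply AddValuation.map_lt_sum v htop
      intro i hi
      have his : i ∈ s := Finset.mem_of_mem_erase hi
      have hne : i ≠ j₀ := Finset.ne_of_mem_erase hi
      refine lt_of_le_of_ne (hmin i his) ?_
      intro heq
      exact htop (hd j₀ hj₀ i his hne.symm heq)
    rw [AddValuation.map_add_eq_of_lt_left v hlt]

end Ultra

section WithTopInt

theorem withTop_int_eq_top_of_add_two_le {z : WithTop ℤ} (h : z + 2 ≤ z) : z = ⊤ := by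
  induction z using WithTop.recTopCoe with
  | top => rfl
  | coe a =>
    exfalso
    have h2 : ((a + 2 : ℤ) : WithTop ℤ) ≤ (a : WithTop ℤ) := by
      have : ((a + 2 : ℤ) : WithTop ℤ) = (a : WithTop ℤ) + 2 := by
        push_cast; rfl
      rw [this]; exact h
    have := WithTop.coe_le_coe.mp h2
    omega

end WithTopInt

section Field

variable {E F : Type*} [Field E] [Field F] [Algebra E F]

/-- value of a monomial -/
theorem addVal_monomial (v : AddValuation F (WithTop ℤ))
    (hE : ∀ c : E, c ≠ 0 → v (algebraMap E F c) = 0) {x : F} {a : ℤ}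
    (hx : v x = (a : WithTop ℤ)) {c : E} (hc : c ≠ 0) (i : ℕ) :
    v (algebraMap E F c * x ^ i) = ((i * a : ℤ) : WithTop ℤ) := by
  rw [AddValuation.map_mul, hE c hc, zero_add, AddValuation.map_pow, hx]
  rw [← WithTop.coe_nsmul, nsmul_eq_mul]

/-- **Value of a polynomial at an element of negative value.** -/
theorem addVal_aeval_eq (v : AddValuation F (WithTop ℤ))
    (hE : ∀ c : E, c ≠ 0 → v (algebraMap E F c) = 0) {x : F} {a : ℤ} (ha : a < 0)
    (hx : v x = (a : WithTop ℤ)) {g : E[X]} (hg : g ≠ 0) :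
    v (aeval x g) = ((g.natDegree * a : ℤ) : WithTop ℤ) := by
  classical
  rw [aeval_eq_sum_range]
  have hterm : ∀ i : ℕ, g.coeff i ≠ 0 →
      v (g.coeff i • x ^ i) = ((i * a : ℤ) : WithTop ℤ) := by
    intro i hi
    rw [Algebra.smul_def]
    exact addVal_monomial v hE hx hi i
  have hzero : ∀ i : ℕ, g.coeff i = 0 → v (g.coeff i • x ^ i) = ⊤ := by
    intro i hi
    rw [hi, zero_smul, AddValuation.map_zero]
  apply le_antisymm
  · have hlc : g.coeff g.natDegree ≠ 0 := by
      rw [coeff_natDegree]; exact leadingCoeff_ne_zero.mpr hg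
    rw [← hterm g.natDegree hlc]
    apply addVal_sum_le_of_distinct v _ _ _ _ (Finset.mem_range.mpr (Nat.lt_succ_self _))
    intro i _ j _ hij heq
    by_cases hi : g.coeff i = 0
    · exact hzero i hi
    · by_cases hj : g.coeff j = 0
      · rw [heq]; exact hzero j hj
      · exfalso
        rw [hterm i hi, hterm j hj] at heq
        have h1 : (i : ℤ) * a = j * a := WithTop.coe_injective heq
        have h2 : (i : ℤ) = j := mul_right_cancel₀ (ne_of_lt ha) h1
        exact hij (by exact_mod_cast h2)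
  · apply AddValuation.map_le_sum
    intro i hi
    by_cases hc : g.coeff i = 0
    · rw [hzero i hc]; exact le_top
    · rw [hterm i hc]
      apply WithTop.coe_le_coe.mpr
      have h1 : (i : ℤ) ≤ g.natDegree := by
        have := Finset.mem_range.mp hi
        exact_mod_cast Nat.lt_succ_iff.mp this
      nlinarith

theorem aeval_ne_zero_of_addVal (v : AddValuation F (WithTop ℤ))
    (hE : ∀ c : E, c ≠ 0 → v (algebraMap E F c) = 0) {x : F} {a : ℤ} (ha : a < 0)
    (hx : v x = (a : WithTop ℤ)) {g : E[X]} (hg : g ≠ 0) : aeval x g ≠ 0 := by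
  intro h
  have := addVal_aeval_eq v hE ha hx hg
  rw [h, AddValuation.map_zero] at this
  exact WithTop.top_ne_coe this

/-- an element of negative value is transcendental over the constants -/
theorem transcendental_of_addVal_neg (v : AddValuation F (WithTop ℤ))
    (hE : ∀ c : E, c ≠ 0 → v (algebraMap E F c) = 0) {x : F} {a : ℤ} (ha : a < 0)
    (hx : v x = (a : WithTop ℤ)) : Transcendental E x := by
  rw [Transcendental, IsAlgebraic]
  rintro ⟨g, hg, hroot⟩
  exact aeval_ne_zero_of_addVal v hE ha hx hg hroot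

/-- an element of nonzero finite value is transcendental over the constants -/
theorem transcendental_of_addVal_ne_zero (v : AddValuation F (WithTop ℤ))
    (hE : ∀ c : E, c ≠ 0 → v (algebraMap E F c) = 0) {x : F} {a : ℤ} (ha : a ≠ 0)
    (hx : v x = (a : WithTop ℤ)) : Transcendental E x := by
  rcases lt_or_gt_of_ne ha with h | h
  · exact transcendental_of_addVal_neg v hE h hx
  · have hinv : v x⁻¹ = ((-a : ℤ) : WithTop ℤ) := by
      rw [AddValuation.map_inv, hx]; rfl
    have := transcendental_of_addVal_neg v hE (by omega : -a < 0) hinv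
    intro halg
    exact this halg.inv

/-- On `E(x)`: two valuations trivial on `E` with the same negative value at `x` agree, with
values in `a ℤ`. -/
theorem addVal_mem_adjoin (v v' : AddValuation F (WithTop ℤ))
    (hE : ∀ c : E, c ≠ 0 → v (algebraMap E F c) = 0)
    (hE' : ∀ c : E, c ≠ 0 → v' (algebraMap E F c) = 0) {x : F} {a : ℤ} (ha : a < 0)
    (hx : v x = (a : WithTop ℤ)) (hx' : v' x = (a : WithTop ℤ))
    {r : F} (hr : r ∈ IntermediateField.adjoin E ({x} : Set F)) :
    v' r = v r ∧ (r ≠ 0 → ∃ m : ℤ, v r = ((m * a : ℤ) : WithTop ℤ)) := by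
  obtain ⟨g, h, rfl⟩ := (IntermediateField.mem_adjoin_simple_iff E r).mp hr
  by_cases hg : g = 0
  · simp [hg]
  by_cases hh : h = 0
  · simp [hh]
  have e1 := addVal_aeval_eq v hE ha hx hg
  have e2 := addVal_aeval_eq v hE ha hx hh
  have e1' := addVal_aeval_eq v' hE' ha hx' hg
  have e2' := addVal_aeval_eq v' hE' ha hx' hh
  have key : v (aeval x g / aeval x h) =
      (((g.natDegree : ℤ) - h.natDegree) * a : ℤ) := by
    rw [AddValuation.map_div, e1, e2]
    rw [← WithTop.LinearOrderedAddCommGroup.coe_sub]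
    congr 1
    ring
  have key' : v' (aeval x g / aeval x h) =
      (((g.natDegree : ℤ) - h.natDegree) * a : ℤ) := by
    rw [AddValuation.map_div, e1', e2']
    rw [← WithTop.LinearOrderedAddCommGroup.coe_sub]
    congr 1
    ring
  exact ⟨by rw [key, key'], fun _ => ⟨_, key⟩⟩

end Field

section Indep

variable {E F : Type*} [Field E] [Field F] [Algebra E F]

/-- One family: the value of `∑ Aᵢ uᵢ` is at most that of each term, and the second valuation of
the sum is strictly bigger. -/
theorem addVal_one_side (v v' : AddValuation F (WithTop ℤ))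
    (hE : ∀ c : E, c ≠ 0 → v (algebraMap E F c) = 0)
    (hE' : ∀ c : E, c ≠ 0 → v' (algebraMap E F c) = 0) {x : F} {a : ℤ} (ha : a < 0)
    (hx : v x = (a : WithTop ℤ)) (hx' : v' x = (a : WithTop ℤ))
    {ι : Type*} [Fintype ι] (e : ι → ℤ)
    (he : ∀ i i' : ι, ∀ m m' : ℤ, m * a + e i = m' * a + e i' → i = i')
    (u : ι → F) (hu : ∀ i, v (u i) = (e i : WithTop ℤ))
    (hu' : ∀ i, (e i : WithTop ℤ) + 1 ≤ v' (u i))
    (A : ι → F) (hA : ∀ i, A i ∈ IntermediateField.adjoin E ({x} : Set F)) :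
    (∀ j, v (∑ i, A i * u i) ≤ v (A j) + (e j : WithTop ℤ)) ∧
      v (∑ i, A i * u i) + 1 ≤ v' (∑ i, A i * u i) := by
  have hval : ∀ i, v (A i * u i) = v (A i) + (e i : WithTop ℤ) := fun i => by
    rw [AddValuation.map_mul, hu]
  have h1 : ∀ j, v (∑ i, A i * u i) ≤ v (A j) + (e j : WithTop ℤ) := by
    intro j
    rw [← hval j]
    apply addVal_sum_le_of_distinct v Finset.univ _ _ j (Finset.mem_univ j)
    intro i _ i' _ hii heq
    by_cases hi : A i = 0
    · rw [hi, zero_mul, AddValuation.map_zero]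
    by_cases hi' : A i' = 0
    · rw [heq, hi', zero_mul, AddValuation.map_zero]
    exfalso
    obtain ⟨m, hm⟩ := (addVal_mem_adjoin v v' hE hE' ha hx hx' (hA i)).2 hi
    obtain ⟨m', hm'⟩ := (addVal_mem_adjoin v v' hE hE' ha hx hx' (hA i')).2 hi'
    rw [hval, hval, hm, hm', ← WithTop.coe_add, ← WithTop.coe_add] at heq
    exact hii (he i i' m m' (WithTop.coe_injective heq))
  refine ⟨h1, ?_⟩
  apply AddValuation.map_le_sum
  intro i _
  rw [AddValuation.map_mul, (addVal_mem_adjoin v v' hE hE' ha hx hx' (hA i)).1]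
  calc v (∑ i, A i * u i) + 1 ≤ v (A i) + (e i : WithTop ℤ) + 1 := by
        gcongr
        exact h1 i
    _ = v (A i) + ((e i : WithTop ℤ) + 1) := by rw [add_assoc]
    _ ≤ v (A i) + v' (u i) := by
        gcongr
        exact hu' i

/-- **Two valuations give linear independence over `E(x)`.** -/
theorem linearIndependent_of_two_addVal (v v' : AddValuation F (WithTop ℤ))
    (hE : ∀ c : E, c ≠ 0 → v (algebraMap E F c) = 0)
    (hE' : ∀ c : E, c ≠ 0 → v' (algebraMap E F c) = 0) {x : F} {a : ℤ} (ha : a < 0)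
    (hx : v x = (a : WithTop ℤ)) (hx' : v' x = (a : WithTop ℤ))
    {ι : Type*} [Fintype ι] (e : ι → ℤ)
    (he : ∀ i i' : ι, ∀ m m' : ℤ, m * a + e i = m' * a + e i' → i = i')
    (u u' : ι → F) (hu : ∀ i, v (u i) = (e i : WithTop ℤ))
    (hu' : ∀ i, (e i : WithTop ℤ) + 1 ≤ v' (u i))
    (hw : ∀ i, v' (u' i) = (e i : WithTop ℤ))
    (hw' : ∀ i, (e i : WithTop ℤ) + 1 ≤ v (u' i)) :
    LinearIndependent (IntermediateField.adjoin E ({x} : Set F)) (Sum.elim u u') := by
  classical
  rw [Fintype.linearIndependent_iff]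
  intro g hg
  rw [Fintype.sum_sum_type] at hg
  simp only [Sum.elim_inl, Sum.elim_inr] at hg
  set A : ι → F := fun i => ((g (Sum.inl i) : IntermediateField.adjoin E ({x} : Set F)) : F)
    with hAdef
  set B : ι → F := fun i => ((g (Sum.inr i) : IntermediateField.adjoin E ({x} : Set F)) : F)
    with hBdef
  have hA : ∀ i, A i ∈ IntermediateField.adjoin E ({x} : Set F) := fun i => (g (Sum.inl i)).2
  have hB : ∀ i, B i ∈ IntermediateField.adjoin E ({x} : Set F) := fun i => (g (Sum.inr i)).2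
  have hsum : (∑ i, A i * u i) + ∑ i, B i * u' i = 0 := by
    rw [← hg]
    rfl
  obtain ⟨a1, a2⟩ := addVal_one_side v v' hE hE' ha hx hx' e he u hu hu' A hA
  obtain ⟨b1, b2⟩ := addVal_one_side v' v hE' hE ha hx' hx e he u' hw hw' B hB
  have hneg : (∑ i, B i * u' i) = -∑ i, A i * u i := by
    rw [eq_neg_iff_add_eq_zero, add_comm]; exact hsum
  rw [hneg, AddValuation.map_neg, AddValuation.map_neg] at b2
  simp only [hneg, AddValuation.map_neg] at b1
  set s := ∑ i, A i * u i with hs
  have htop : v s = ⊤ := by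
    apply withTop_int_eq_top_of_add_two_le
    calc v s + 2 = v s + 1 + 1 := by rw [add_assoc]; rfl
      _ ≤ v' s + 1 := by gcongr
      _ ≤ v s := b2
  have htop' : v' s = ⊤ := by
    rw [htop] at a2
    exact top_le_iff.mp (by simpa using a2)
  have hAz : ∀ i, A i = 0 := by
    intro i
    have h := a1 i
    rw [htop, top_le_iff] at h
    have : v (A i) = ⊤ := by
      by_contra hne
      obtain ⟨z, hz⟩ := WithTop.ne_top_iff_exists.mp hne
      rw [← hz, ← WithTop.coe_add] at h
      exact WithTop.coe_ne_top h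
    exact (AddValuation.top_iff v).mp this
  have hBz : ∀ i, B i = 0 := by
    intro i
    have h := b1 i
    rw [htop', top_le_iff] at h
    have : v' (B i) = ⊤ := by
      by_contra hne
      obtain ⟨z, hz⟩ := WithTop.ne_top_iff_exists.mp hne
      rw [← hz, ← WithTop.coe_add] at h
      exact WithTop.coe_ne_top h
    exact (AddValuation.top_iff v').mp this
  rintro (i | i)
  · exact Subtype.ext (hAz i)
  · exact Subtype.ext (hBz i)

end Indep

end Fermat.Agent.A2.Mod.H816

end

end
-- ===== PACK-END A2/Mod/H816/L8Abs.lean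

-- ===== PACK-BEGIN S18/Alg/Spec.lean
section


/-!
# S18 / ALG — frozen abstract interface (row-lead helper18), Mathlib-only

v2 (18:10Z): fields `gauss` and `separable` repaired (`0⁻¹ = 0` bugs found by helper887).
v3 (18:25Z): `GoodModel` UNCHANGED; NEW `GoodFamily` (directed family of good models); `AlgMainStatement`
now takes a `GoodFamily`, so that ALG may enlarge the constant field `Ec` (needed by endgame K').
v4 = FINAL (landed on main, never to change again): (a) new field `x_mem_V : x ∈ V` (trivial for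
MOD; asked for by helper467/24/187); (b) `AlgMainStatement` only for PRIME `m` (helper425/694: the
frozen S18 for all `m` follows from prime `m`, `S18/H694/PrimeRed.lean`).

Everything is a sub-object of ONE field `Ω` (in the application `Ω = F_M = Q̄(j_d : d ∣ M)`):

* `Lc`  : the algebraically closed constant field (`Q̄`),
* `Ec ≤ Lc`, `R ⊆ Ec` : a subfield with a discrete valuation ring `R`, uniformiser `w`
  (`Ec` a number field, `R = A ∩ Ec`),
* `Fc`  : the function field over `Ec` (`Ec(j_d : d ∣ M)`), `Ω = Fc · Lc`,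
* `x ∈ Fc` : the coordinate (`j`, `t₂` or `t₃`),
* `V ⊆ Fc` : the Gauss valuation ring (residue field = function field of the special fibre),
* `S ⊆ R` : the finite branch values of `Ω / Lc(x)`.

`GoodModel`/`GoodFamily` = what MOD(M) + d1 must supply.  `AlgMainStatement` = what ALG (b1–b5, or
the polar endgame) must prove.  Together they give `CoreStatement M A m`.
-/

set_option autoImplicit false

namespace Fermat.Agent.S18.Alg

variable {Ω : Type*} [Field Ω]

/-- `R[x]` as a subring of `Ω`. -/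
def polyRing (R : Subring Ω) (x : Ω) : Subring Ω := Subring.closure ((R : Set Ω) ∪ {x})

/-- `E(x)` as a subfield of `Ω`. -/
def ratField (Ec : Subfield Ω) (x : Ω) : Subfield Ω := Subfield.closure ((Ec : Set Ω) ∪ {x})

/-- The chart: elements of `Fc` integral over `R[x]`. -/
def chart (Fc : Subfield Ω) (R : Subring Ω) (x : Ω) : Set Ω :=
  {b | b ∈ Fc ∧ IsIntegral (polyRing R x) b}

/-- The data supplied by the modular side (see the module docstring). -/
structure GoodModel (Lc Ec Fc : Subfield Ω) (R V : Subring Ω) (w x : Ω) (S : Finset Ω) : Prop where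
  charZero : CharZero Ω
  -- `R` is a discrete valuation ring of `Ec` with uniformiser `w`, perfect residue field
  R_le : (R : Set Ω) ⊆ Ec
  R_total : ∀ e ∈ Ec, e ∈ R ∨ e⁻¹ ∈ R
  w_mem : w ∈ R
  w_ne_zero : w ≠ 0
  w_inv_not_mem : w⁻¹ ∉ R
  w_gen : ∀ r ∈ R, r⁻¹ ∉ R → r * w⁻¹ ∈ R
  w_discrete : ∀ r ∈ R, r ≠ 0 → ∃ n : ℕ, r * (w⁻¹) ^ n ∈ R ∧ (r * (w⁻¹) ^ n)⁻¹ ∈ R
  residue_perfect : ∃ p : ℕ, p.Prime ∧ (p : Ω) * w⁻¹ ∈ R ∧
    ∀ r ∈ R, ∃ s ∈ R, (r - s ^ p) * w⁻¹ ∈ R
  -- the fields
  E_le_L : Ec ≤ Lc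
  E_le_F : Ec ≤ Fc
  L_algebraic : ∀ a ∈ Lc, IsAlgebraic Ec a
  L_algClosed : IsAlgClosed Lc
  E_closed_in_F : ∀ f ∈ Fc, IsAlgebraic Ec f → f ∈ Ec
  compositum : Subfield.closure ((Fc : Set Ω) ∪ Lc) = ⊤
  -- the coordinate
  x_mem : x ∈ Fc
  x_transcendental : Transcendental Lc x
  finite : ∃ s : Finset Ω, (s : Set Ω) ⊆ Fc ∧
    ∀ f ∈ Fc, f ∈ Submodule.span (ratField Ec x) (s : Set Ω)
  -- the Gauss valuation ring `V` of `Fc`
  V_le : (V : Set Ω) ⊆ Fc
  V_total : ∀ f ∈ Fc, f ∈ V ∨ f⁻¹ ∈ V
  R_le_V : R ≤ V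
  w_inv_not_mem_V : w⁻¹ ∉ V
  V_gen : ∀ f ∈ V, f⁻¹ ∉ V → f * w⁻¹ ∈ V
  x_mem_V : x ∈ V
  /-- `V` restricted to `E(x)` is the Gauss valuation: a polynomial in `x` over `R` with a unit
  coefficient is a unit of `V` (in particular `x` and `x⁻¹` lie in `V`). -/
  gauss : ∀ P : Polynomial Ω, (∀ i, P.coeff i ∈ R) → (∃ i, P.coeff i ≠ 0 ∧ (P.coeff i)⁻¹ ∈ R) →
    (P.eval x)⁻¹ ∈ V
  /-- `q`-expansion principle on both charts: `b` integral over `R[x^{±1}]`, `b/w ∈ V`
  ⟹ `b/w` integral over `R[x^{±1}]`. -/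
  qep_fin : ∀ b ∈ chart Fc R x, b * w⁻¹ ∈ V → b * w⁻¹ ∈ chart Fc R x
  qep_inf : ∀ b ∈ chart Fc R x⁻¹, b * w⁻¹ ∈ V → b * w⁻¹ ∈ chart Fc R x⁻¹
  /-- the residue field of `V` is separable over `κ(x̄)` (elementwise form) -/
  separable : ∀ f ∈ V, ∃ P : Polynomial Ω, (∀ i, P.coeff i ∈ polyRing R x) ∧
    P.eval f * w⁻¹ ∈ V ∧ (Polynomial.derivative P).eval f ≠ 0 ∧
    ((Polynomial.derivative P).eval f)⁻¹ ∈ V
  -- branch values: in `R`, pairwise distinct mod `w`, the nonzero ones are units of `R`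
  S_mem : ∀ s ∈ S, s ∈ R
  S_distinct : ∀ s ∈ S, ∀ t ∈ S, s ≠ t → (s - t)⁻¹ ∈ R
  S_unit : ∀ s ∈ S, s ≠ 0 → s⁻¹ ∈ R
  /-- over `Lc`: at a place where `x` takes a value `c ∉ S`, `x - c` is a uniformiser -/
  unramified : ∀ O : ValuationSubring Ω, (∀ a ∈ Lc, a ∈ O) → ∀ c ∈ Lc, c ∉ S →
    x - c ∈ O → (x - c)⁻¹ ∉ O → ∀ t ∈ O, t⁻¹ ∉ O → t * (x - c)⁻¹ ∈ O

/-- A model, as a tuple `(Ec, Fc, R, V, w)`. -/
abbrev Model (Ω : Type*) [Field Ω] : Type _ :=
  Subfield Ω × Subfield Ω × Subring Ω × Subring Ω × Ω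

/-- `p ≤ p'` for models: all four sub-objects grow (the uniformiser may change). -/
def Model.le (p p' : Model Ω) : Prop :=
  p.1 ≤ p'.1 ∧ p.2.1 ≤ p'.2.1 ∧ p.2.2.1 ≤ p'.2.2.1 ∧ p.2.2.2.1 ≤ p'.2.2.2.1

/-- A **directed family of good models** (v3): every member is a `GoodModel`, and every member can
be enlarged inside the family so that its constant field `Ec` contains any given finite set of
elements of `Lc`.  (In the application: all number fields `E ⊆ Q̄`.)  ALG may therefore assume
that `Ec` contains `ζ_m`, the `x`-coordinates of the zeros and poles of `u`, the constants of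
`Fc(u^{1/m})`, … by passing to a larger member. -/
structure GoodFamily (Lc : Subfield Ω) (x : Ω) (S : Finset Ω) (𝓕 : Set (Model Ω)) : Prop where
  good : ∀ p ∈ 𝓕, GoodModel Lc p.1 p.2.1 p.2.2.1 p.2.2.2.1 p.2.2.2.2 x S
  enlarge : ∀ p ∈ 𝓕, ∀ T : Finset Ω, (∀ a ∈ T, a ∈ Lc) →
    ∃ p' ∈ 𝓕, Model.le p p' ∧ ∀ a ∈ T, a ∈ p'.1

/-- **ALG main statement** (v4): for a directed family of good models, a member `p = (Ec,Fc,R,V,w)`
and a function `u ∈ Fc` with `u ≡ 1 mod w` whose divisor (over `Lc`) is divisible by `m`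
(`m` a PRIME number which is a unit of `R`): `u` is a constant times an `m`-th power in
`Ω = Fc·Lc`. -/
def AlgMainStatement (Lc : Subfield Ω) (x : Ω) (S : Finset Ω) (𝓕 : Set (Model Ω)) : Prop :=
  GoodFamily Lc x S 𝓕 →
    ∀ p ∈ 𝓕, ∀ m : ℕ, m.Prime → ((m : Ω))⁻¹ ∈ p.2.2.1 →
    ∀ u ∈ p.2.1, u ≠ 0 → (u - 1) * (p.2.2.2.2)⁻¹ ∈ p.2.2.2.1 →
      (∀ O : ValuationSubring Ω, (∀ a ∈ Lc, a ∈ O) →
        ∃ t : Ω, t ≠ 0 ∧ u * t ^ m ∈ O ∧ (u * t ^ m)⁻¹ ∈ O) →
      ∃ y : Ω, ∃ c ∈ Lc, c ≠ 0 ∧ u = c * y ^ m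

end Fermat.Agent.S18.Alg

end
-- ===== PACK-END S18/Alg/Spec.lean

-- ===== PACK-BEGIN S18/B12/Spec.lean
section


/-!
# S18, Route K, pieces b1 + b2 (squad S18/S33, squad-lead helper33) — FROZEN statements

Everything here is Mathlib-only commutative algebra.  Each `def … : Prop` below is a statement to be
proved as `theorem <name> : <Statement>` in `Fermat/Agent/S18/B12/<Owner>/…`.
See `coord/S18-b1b2.md` (branch `helper33`) for the mathematics and the proof of each piece.

Notation: `R` = DVR `A'` with uniformiser `w`, fraction field `E` (char 0), residue field `k'`;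
`B` = normal model, a finite `R[X]`-algebra (chart `B_fin`; the chart `B_inf` is the same thing with
`X = 1/x`).  `(Λ, t)` = a PID with a prime element (`(k'[X], x - c̄)` or `(E[X], x - c)`).
-/

set_option autoImplicit false

noncomputable section

namespace Fermat.Agent.S18.B12

open Polynomial

universe u v

/-- **b1 (regular sequence).**  `B` integrally closed domain, integral over `R[X]` (`R` integrally
closed domain with `R[X]` integrally closed, e.g. a DVR), `w ≠ 0` a constant, `p` monic.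
If `w * b = p * b'` in `B` then `b = p * b''` and `b' = w * b''`.
(So `p` is a non-zero-divisor on `B/wB` and `w` is a non-zero-divisor on `B/pB`.) -/
def RegSeqStatement : Prop :=
  ∀ (R : Type u) [CommRing R] [IsDomain R] [IsIntegrallyClosed R] [IsIntegrallyClosed R[X]]
    (B : Type v) [CommRing B] [IsDomain B] [IsIntegrallyClosed B] [Algebra R[X] B]
    [Algebra.IsIntegral R[X] B] [Module.IsTorsionFree R[X] B]
    (w : R) (_ : w ≠ 0) (p : R[X]) (_ : p.Monic) (b b' : B),
    algebraMap R[X] B (C w) * b = algebraMap R[X] B p * b' →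
    ∃ b'' : B, b = algebraMap R[X] B p * b'' ∧ b' = algebraMap R[X] B (C w) * b''

/-- **b1' (regular sequence, primitive version).**  Same with `p` primitive instead of monic
(`R` a DVR); needed for the primes `π` of `R[X]` in the branch-locus hypothesis. -/
def RegSeqPrimStatement : Prop :=
  ∀ (R : Type u) [CommRing R] [IsDomain R] [IsDiscreteValuationRing R]
    (B : Type v) [CommRing B] [IsDomain B] [IsIntegrallyClosed B] [Algebra R[X] B]
    [Algebra.IsIntegral R[X] B] [Module.IsTorsionFree R[X] B]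
    (w : R) (_ : w ≠ 0) (p : R[X]) (_ : p.IsPrimitive) (b b' : B),
    algebraMap R[X] B (C w) * b = algebraMap R[X] B p * b' →
    ∃ b'' : B, b = algebraMap R[X] B p * b'' ∧ b' = algebraMap R[X] B (C w) * b''

/-- **b2-ζ (reduced basis).**  A finite torsion-free algebra `R₁` over a DVR `R` has a family `y`
which is `R`-linearly independent modulo nilpotents and spans `R₁` modulo nilpotents
(`R₁ / nilradical` is finite free). -/
def RedBasisStatement : Prop :=
  ∀ (R : Type u) [CommRing R] [IsDomain R] [IsPrincipalIdealRing R]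
    (R₁ : Type v) [CommRing R₁] [Algebra R R₁] [Module.Finite R R₁] [Module.IsTorsionFree R R₁],
    ∃ (r : ℕ) (y : Fin r → R₁),
      (∀ a : Fin r → R, IsNilpotent (∑ i, a i • y i) → a = 0) ∧
      (∀ x : R₁, ∃ a : Fin r → R, IsNilpotent (x - ∑ i, a i • y i))

/-- **b2-SF (special fibre, two lattices).**  `Λ` a PID, `t` prime.  `C ≤ Ct` two `Λ`-subalgebras of
a commutative `Λ`-algebra `L`, both free of rank `n`.  If `(C/tC)_red` is spanned by `s` elements
over `Λ/t` and `t ^ (n - s + 1)` does not divide `disc(C/Λ) ≠ 0`, then `C = Ct` locally at `t`. -/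
def SFLatticeStatement : Prop :=
  ∀ (Λ : Type u) [CommRing Λ] [IsDomain Λ] [IsPrincipalIdealRing Λ] (t : Λ) (_ : Prime t)
    (L : Type v) [CommRing L] [Algebra Λ L] (C Ct : Subalgebra Λ L) (_ : C ≤ Ct)
    (n : ℕ) (b : Module.Basis (Fin n) Λ C) (_ : Module.Basis (Fin n) Λ Ct)
    (s : ℕ) (y : Fin s → C)
    (_ : ∀ x : C, ∃ a : Fin s → Λ,
        x - ∑ i, a i • y i ∈ (Ideal.span {algebraMap Λ C t}).radical),
    Algebra.discr Λ b ≠ 0 → ¬ t ^ (n - s + 1) ∣ Algebra.discr Λ b →
    ∀ x ∈ Ct, ∃ g : Λ, ¬ t ∣ g ∧ g • x ∈ C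

/-- **b2-SF' (special fibre, idempotent form).**  Same hypotheses on `C`; `ε ∈ L` idempotent with
`g₀ • ε ∈ C` for some `g₀ ≠ 0`, `L` torsion-free over `Λ`.  Then `g • ε ∈ C` for some `g ∉ (t)`. -/
def SFIdemStatement : Prop :=
  ∀ (Λ : Type u) [CommRing Λ] [IsDomain Λ] [IsPrincipalIdealRing Λ] (t : Λ) (_ : Prime t)
    (L : Type v) [CommRing L] [Algebra Λ L] [Module.IsTorsionFree Λ L] (C : Subalgebra Λ L)
    (n : ℕ) (b : Module.Basis (Fin n) Λ C)
    (s : ℕ) (y : Fin s → C)
    (_ : ∀ x : C, ∃ a : Fin s → Λ,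
        x - ∑ i, a i • y i ∈ (Ideal.span {algebraMap Λ C t}).radical),
    Algebra.discr Λ b ≠ 0 → ¬ t ^ (n - s + 1) ∣ Algebra.discr Λ b →
    ∀ ε : L, ε * ε = ε → (∃ g₀ : Λ, g₀ ≠ 0 ∧ g₀ • ε ∈ C) → ∃ g : Λ, ¬ t ∣ g ∧ g • ε ∈ C

/-- **b2-α (tame discriminant).**  `Λ` a PID, `t` prime with residue field of characteristic `0`
(`ℚ ⊆ Λ`).  `C₀` a Dedekind domain, finite free over `Λ` of rank `n` with basis `β`.  If `y` is a
family of `r` elements of `C₀` that is `Λ/t`-linearly independent modulo `rad(t C₀)`, then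
`t ^ (n - r + 1)` does not divide `disc(β)`.
(Char 0 ⇒ tame: the exponent of `t` in the discriminant is exactly `n - dim (C₀/t)_red`.) -/
def TameDiscrStatement : Prop :=
  ∀ (Λ : Type u) [CommRing Λ] [IsDomain Λ] [IsPrincipalIdealRing Λ] [Algebra ℚ Λ]
    (t : Λ) (_ : Prime t)
    (C₀ : Type v) [CommRing C₀] [IsDomain C₀] [IsDedekindDomain C₀] [Algebra Λ C₀]
    [Module.IsTorsionFree Λ C₀]
    (n : ℕ) (β : Module.Basis (Fin n) Λ C₀) (r : ℕ) (y : Fin r → C₀)
    (_ : ∀ a : Fin r → Λ,
        (∑ i, a i • y i) ∈ (Ideal.span {algebraMap Λ C₀ t}).radical → ∀ i, t ∣ a i),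
    ¬ t ^ (n - r + 1) ∣ Algebra.discr Λ β

/-- **b2 (normality of the special fibre; TOP LEVEL of this squad).**
`R` DVR of characteristic 0, uniformiser `w`; `B` an integrally closed domain, finite over `R[X]`.
* `hsep`: some `n`-tuple of `B` (`n` = generic degree) has discriminant `≢ 0 mod w`
  (the special fibre is generically étale over `k'[x]`);
* `S`: the finite branch values, pairwise distinct mod `w`;
* `hNC`: for every prime `π` of `R[X]` other than `w` and the `X - c`, `c ∈ S`, the fibre `B/πB`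
  is reduced (`F/E(x)` is unramified outside `S ∪ {∞}`).
Conclusion: every idempotent `b/g` of the total fraction ring of `B/wB` lies in `B/wB`. -/
def B2Statement : Prop :=
  ∀ (R : Type u) [CommRing R] [IsDomain R] [IsDiscreteValuationRing R] [CharZero R]
    (w : R) (_ : Irreducible w)
    (B : Type v) [CommRing B] [IsDomain B] [IsIntegrallyClosed B] [Algebra R[X] B]
    [Module.Finite R[X] B] [Module.IsTorsionFree R[X] B]
    (_ : ∃ x : Fin (Module.finrank R[X] B) → B,
        ¬ C w ∣ (Matrix.of fun i j => Algebra.intTrace R[X] B (x i * x j)).det)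
    (S : Finset R) (_ : ∀ c ∈ S, ∀ c' ∈ S, c ≠ c' → IsUnit (c - c'))
    (_ : ∀ π : R[X], Prime π → ¬ Associated π (C w) → (∀ c ∈ S, ¬ Associated π (X - C c)) →
        (Ideal.span {algebraMap R[X] B π}).IsRadical)
    (b : B) (g : R[X]), ¬ C w ∣ g →
      b ^ 2 - algebraMap R[X] B g * b ∈ Ideal.span {algebraMap R[X] B (C w)} →
      ∃ b₀ : B, b - algebraMap R[X] B g * b₀ ∈ Ideal.span {algebraMap R[X] B (C w)}

end Fermat.Agent.S18.B12

end
end
-- ===== PACK-END S18/B12/Spec.lean

-- ===== PACK-BEGIN S37/H278/Lattice.lean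
section


/-!
# S37 / S18, piece b2-core (helper278): lattices in a finite algebra and their traces

`o` a PID with fraction field `K`, `L` a commutative `K`-algebra.  A subalgebra `R ⊆ L` which is a
finitely generated `o`-module spanning `L` is finite free over `o`, `L` is its localization, and the
trace of `L / K` restricted to `R` is the trace of `R / o`.
-/

set_option autoImplicit false

namespace Fermat.Agent.S37.H278

open Module

section Lattice

variable {o K L : Type*} [CommRing o] [IsDomain o]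
  [Field K] [Algebra o K] [IsFractionRing o K]
  [CommRing L] [Algebra K L] [Algebra o L] [IsScalarTower o K L]

omit [IsDomain o] in
theorem smul_eq_zero_of_fractionRing (K : Type*) [Field K] [Algebra o K] [IsFractionRing o K]
    [Algebra K L] [IsScalarTower o K L] {r : o} (hr : r ≠ 0) {x : L}
    (h : r • x = 0) : x = 0 := by
  have h' : (algebraMap o K r) • x = 0 := by rwa [algebraMap_smul]
  have hne : algebraMap o K r ≠ 0 := by
    intro h0
    exact hr ((IsFractionRing.injective o K) (by rw [h0, map_zero]))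
  rcases smul_eq_zero.mp h' with h1 | h1
  · exact absurd h1 hne
  · exact h1

/-- A lattice: a subalgebra of `L`, finitely generated as `o`-module, spanning `L`. -/
structure IsLattice (R : Subalgebra o L) : Prop where
  fg : (Subalgebra.toSubmodule R).FG
  span : ∀ l : L, ∃ σ : o, σ ≠ 0 ∧ σ • l ∈ R

variable {R : Subalgebra o L}

theorem IsLattice.finite (h : IsLattice R) : Module.Finite o R :=
  Module.Finite.iff_fg.mpr h.fg

include K in
theorem isTorsionFree_subalgebra (R : Subalgebra o L) : Module.IsTorsionFree o R := by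
  refine ⟨fun r hr x y hxy => ?_⟩
  have hr0 : r ≠ 0 := by
    rintro rfl
    have := hr.left
    exact one_ne_zero (this (by simp : (0 : o) * 1 = 0 * 0))
  have hxy' : r • ((x : L) - (y : L)) = 0 := by
    have := congrArg (Subtype.val) hxy
    simp only [Subalgebra.coe_smul] at this
    rw [smul_sub, this, sub_self]
  have := smul_eq_zero_of_fractionRing K hr0 hxy'
  exact Subtype.ext (sub_eq_zero.mp this)

include K in
theorem IsLattice.free [IsPrincipalIdealRing o] (h : IsLattice R) : Module.Free o R := by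
  haveI := h.finite
  haveI := isTorsionFree_subalgebra (K := K) R
  exact Module.free_of_finite_type_torsion_free'

include K in
theorem IsLattice.isLocalization (h : IsLattice R) :
    IsLocalization (Algebra.algebraMapSubmonoid R (nonZeroDivisors o)) L where
  map_units := by
    rintro ⟨y, σ, hσ, rfl⟩
    have hσ0 : σ ≠ 0 := nonZeroDivisors.ne_zero hσ
    have hne : algebraMap o K σ ≠ 0 := by
      intro h0
      exact hσ0 ((IsFractionRing.injective o K) (by rw [h0, map_zero]))
    have : algebraMap R L (algebraMap o R σ) = algebraMap K L (algebraMap o K σ) := by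
      rw [← IsScalarTower.algebraMap_apply, ← IsScalarTower.algebraMap_apply]
    rw [this]
    exact (IsUnit.mk0 _ hne).map (algebraMap K L)
  surj := by
    intro l
    obtain ⟨σ, hσ, hl⟩ := h.span l
    refine ⟨(⟨σ • l, hl⟩, ⟨algebraMap o R σ, σ, mem_nonZeroDivisors_of_ne_zero hσ, rfl⟩), ?_⟩
    show l * algebraMap R L (algebraMap o R σ) = σ • l
    rw [← IsScalarTower.algebraMap_apply, Algebra.smul_def, mul_comm]
  exists_of_eq := by
    intro x y hxy
    refine ⟨1, ?_⟩
    have : x = y := Subtype.ext hxy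
    rw [this]

include K in
theorem IsLattice.trace_eq [IsPrincipalIdealRing o] (h : IsLattice R) (a : R) :
    Algebra.trace K L (a : L) = algebraMap o K (Algebra.trace o R a) := by
  haveI := h.finite
  haveI := h.free (K := K)
  haveI := h.isLocalization (K := K)
  exact Algebra.trace_localization o (nonZeroDivisors o) (Rₘ := K) (Sₘ := L) a

theorem isLattice_adjoin {G : Set L} (hG : G.Finite) (hint : ∀ g ∈ G, IsIntegral o g)
    (hspan : ∀ l : L, ∃ σ : o, σ ≠ 0 ∧ σ • l ∈ Algebra.adjoin o G) :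
    IsLattice (Algebra.adjoin o G) :=
  ⟨fg_adjoin_of_finite hG hint, hspan⟩

end Lattice

section DVR

variable {o K L : Type*} [CommRing o] [IsDomain o] [IsDiscreteValuationRing o]
  [Field K] [Algebra o K] [IsFractionRing o K]
  [CommRing L] [Algebra K L] [Algebra o L] [IsScalarTower o K L]

/-- In a finite free algebra over a local ring, the trace of an element which is nilpotent
modulo the maximal ideal lies in the maximal ideal. -/
theorem trace_mem_maximalIdeal_of_pow_mem {o S : Type*} [CommRing o] [IsLocalRing o]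
    [CommRing S] [Algebra o S] [Module.Free o S] [Module.Finite o S] (a : S) (k : ℕ)
    (hk : a ^ k ∈ Ideal.map (algebraMap o S) (IsLocalRing.maximalIdeal o)) :
    Algebra.trace o S a ∈ IsLocalRing.maximalIdeal o := by
  have h1 := Algebra.trace_quotient_mk (R := o) (S := S) a
  have hnil : IsNilpotent
      (Ideal.Quotient.mk (Ideal.map (algebraMap o S) (IsLocalRing.maximalIdeal o)) a) := by
    refine ⟨k, ?_⟩
    rw [← map_pow]
    exact Ideal.Quotient.eq_zero_iff_mem.mpr hk
  have h2 := Algebra.isNilpotent_trace_of_isNilpotent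
    (R := o ⧸ IsLocalRing.maximalIdeal o) hnil
  rw [h1] at h2
  have h3 : (Ideal.Quotient.mk (IsLocalRing.maximalIdeal o)) (Algebra.trace o S a) = 0 := by
    haveI : IsReduced (o ⧸ IsLocalRing.maximalIdeal o) := by
      haveI : (IsLocalRing.maximalIdeal o).IsPrime := inferInstance
      infer_instance
    exact h2.eq_zero
  exact Ideal.Quotient.eq_zero_iff_mem.mp h3

theorem dvd_trace_of_pow_mem {S : Type*} [CommRing S] [Algebra o S] [Module.Free o S]
    [Module.Finite o S] {t : o} (ht : Irreducible t) (a : S) (k : ℕ)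
    (hk : ∃ a' : S, a ^ k = t • a') : t ∣ Algebra.trace o S a := by
  have hmax : IsLocalRing.maximalIdeal o = Ideal.span {t} := ht.maximalIdeal_eq
  obtain ⟨a', ha'⟩ := hk
  have hmem : a ^ k ∈ Ideal.map (algebraMap o S) (IsLocalRing.maximalIdeal o) := by
    rw [ha', Algebra.smul_def]
    apply Ideal.mul_mem_right
    apply Ideal.mem_map_of_mem
    rw [hmax]
    exact Ideal.mem_span_singleton_self t
  have := trace_mem_maximalIdeal_of_pow_mem a k hmem
  rw [hmax] at this
  exact Ideal.mem_span_singleton.mp this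

include K in
/-- trace of an element of a lattice, nilpotent modulo `t`, is divisible by `t` -/
theorem IsLattice.dvd_trace {R : Subalgebra o L} (h : IsLattice R) {t : o} (ht : Irreducible t)
    (a : R) (k : ℕ) (hk : ∃ a' : R, a ^ k = t • a') : t ∣ Algebra.trace o R a := by
  haveI := h.finite
  haveI := h.free (K := K)
  exact dvd_trace_of_pow_mem ht a k hk

end DVR

end Fermat.Agent.S37.H278

end
-- ===== PACK-END S37/H278/Lattice.lean

-- ===== PACK-BEGIN S18/H438/Front/Dvr.lean
section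


/-!
# S18 / ALG-FRONT (helper438), part 0: a subring with a uniformiser is a DVR

`A : Subring K` (`K` a field), `w ∈ A`, `w ≠ 0`, `w⁻¹ ∉ A`, every nonzero element of `A` is
`w ^ n * unit`.  Then `A` is a discrete valuation ring with uniformiser `w`.
-/

set_option autoImplicit false
set_option linter.unusedSectionVars false

noncomputable section

namespace Fermat.Agent.S18.H438

variable {K : Type*} [Field K] (A : Subring K) {w : K}

/-- units of a subring of a field, elementwise -/
theorem isUnit_subring_iff {a : A} : IsUnit a ↔ (a : K) ≠ 0 ∧ (a : K)⁻¹ ∈ A := by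
  constructor
  · rintro ⟨⟨u, v, huv, hvu⟩, rfl⟩
    have h1 : (u : K) * (v : K) = 1 := congrArg Subtype.val huv
    have hu0 : (u : K) ≠ 0 := left_ne_zero_of_mul_eq_one h1
    refine ⟨hu0, ?_⟩
    have : (u : K)⁻¹ = (v : K) := (eq_inv_of_mul_eq_one_right h1).symm
    rw [show ((⟨u, v, huv, hvu⟩ : Aˣ) : A) = u from rfl, this]
    exact v.2
  · rintro ⟨h0, hinv⟩
    refine ⟨⟨a, ⟨(a : K)⁻¹, hinv⟩, Subtype.ext ?_, Subtype.ext ?_⟩, rfl⟩
    · show (a : K) * (a : K)⁻¹ = 1
      exact mul_inv_cancel₀ h0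
    · show (a : K)⁻¹ * (a : K) = 1
      exact inv_mul_cancel₀ h0

variable (hwA : w ∈ A) (hw0 : w ≠ 0) (hwinv : w⁻¹ ∉ A)
  (hdisc : ∀ r ∈ A, r ≠ 0 → ∃ n : ℕ, r * (w⁻¹) ^ n ∈ A ∧ (r * (w⁻¹) ^ n)⁻¹ ∈ A)

include hwA hw0 hwinv hdisc

/-- `w` is irreducible in `A`. -/
theorem irreducible_unif_of_disc : Irreducible (⟨w, hwA⟩ : A) := by
  have hnu : ¬ IsUnit (⟨w, hwA⟩ : A) := fun h => hwinv ((isUnit_subring_iff A).1 h).2
  refine ⟨hnu, ?_⟩
  intro a b hab
  have habK : w = (a : K) * (b : K) := congrArg Subtype.val hab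
  have ha0 : (a : K) ≠ 0 := fun h => hw0 (by rw [habK, h, zero_mul])
  have hb0 : (b : K) ≠ 0 := fun h => hw0 (by rw [habK, h, mul_zero])
  obtain ⟨n, hn1, hn2⟩ := hdisc a a.2 ha0
  obtain ⟨m, hm1, hm2⟩ := hdisc b b.2 hb0
  -- `w = w^(n+m) * unit`
  have hprod : ((a : K) * (w⁻¹) ^ n) * ((b : K) * (w⁻¹) ^ m) = w * (w⁻¹) ^ (n + m) := by
    rw [habK, pow_add]; ring
  have hunit : w * (w⁻¹) ^ (n + m) ∈ A ∧ (w * (w⁻¹) ^ (n + m))⁻¹ ∈ A := by
    rw [← hprod]
    refine ⟨A.mul_mem hn1 hm1, ?_⟩
    rw [mul_inv]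
    exact A.mul_mem hn2 hm2
  -- so `n + m = 1`
  have hnm : n + m = 1 := by
    rcases Nat.lt_or_ge (n + m) 1 with h | h
    · -- `n + m = 0`: `w` would be a unit
      have h0 : n + m = 0 := by omega
      rw [h0, pow_zero, mul_one] at hunit
      exact absurd hunit.2 hwinv
    · rcases Nat.eq_or_lt_of_le h with h1 | h1
      · exact h1.symm
      · -- `n + m ≥ 2`: `w⁻¹ = (w * w^-(n+m)) * w^(n+m-2) ∈ A`
        exfalso
        obtain ⟨k, hk⟩ : ∃ k, n + m = k + 2 := ⟨n + m - 2, by omega⟩
        have : w⁻¹ = (w * (w⁻¹) ^ (n + m)) * w ^ k := by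
          rw [hk, pow_add, inv_pow, inv_pow]
          field_simp
        apply hwinv
        rw [this]
        exact A.mul_mem hunit.1 (A.pow_mem hwA k)
  rcases Nat.eq_zero_or_pos n with hn | hn
  · left
    rw [isUnit_subring_iff]
    refine ⟨ha0, ?_⟩
    rw [hn, pow_zero, mul_one] at hn2
    exact hn2
  · right
    have hm : m = 0 := by omega
    rw [isUnit_subring_iff]
    refine ⟨hb0, ?_⟩
    rw [hm, pow_zero, mul_one] at hm2
    exact hm2

/-- **`A` is a discrete valuation ring.** -/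
theorem isDiscreteValuationRing_of_disc : IsDiscreteValuationRing A := by
  refine IsDiscreteValuationRing.ofHasUnitMulPowIrreducibleFactorization
    ⟨⟨w, hwA⟩, irreducible_unif_of_disc A hwA hw0 hwinv hdisc, ?_⟩
  intro r hr
  have hr0 : (r : K) ≠ 0 := fun h => hr (Subtype.ext h)
  obtain ⟨n, hn1, hn2⟩ := hdisc r r.2 hr0
  refine ⟨n, ?_⟩
  have hu : IsUnit (⟨(r : K) * (w⁻¹) ^ n, hn1⟩ : A) := by
    rw [isUnit_subring_iff]
    refine ⟨mul_ne_zero hr0 (pow_ne_zero n (inv_ne_zero hw0)), hn2⟩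
  obtain ⟨u, hu'⟩ := hu
  refine ⟨u, Subtype.ext ?_⟩
  rw [hu']
  show w ^ n * ((r : K) * (w⁻¹) ^ n) = r
  rw [inv_pow]
  field_simp

end Fermat.Agent.S18.H438

end
end
-- ===== PACK-END S18/H438/Front/Dvr.lean

-- ===== PACK-BEGIN S29/H32/AutOrbit.lean
section
/-
S29 row, helper32: automorphisms of an algebraically closed field over an algebraically closed
subfield.  Mathlib-only.

Main results (namespace `Fermat.Agent.S29.H32`):
* `exists_algEquiv_apply_eq_add` : a transcendental element `z` of an algebraically closed field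
  `Ω` over a field `k` can be moved to `z + c` (`c ∈ k`) by a `k`-automorphism of `Ω`.
* `mem_range_of_finite_orbit` : if `k` is algebraically closed and `z : Ω` has only finitely many
  conjugates under `Ω ≃ₐ[k] Ω`, then `z ∈ k`.
* `mem_range_of_fixed_of_finiteIndex` : the fixed field of a finite-index subgroup of
  `Ω ≃ₐ[k] Ω` is `k`.
-/


set_option autoImplicit false

namespace Fermat.Agent.S29.H32

open MvPolynomial

section Shift

variable {k : Type*} [CommRing k] {ι : Type*} [DecidableEq ι]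

/-- The `k`-algebra endomorphism of `k[X_i]` sending `X_{i₀} ↦ X_{i₀} + c` and fixing the other
variables. -/
noncomputable def shiftHom (i₀ : ι) (c : k) : MvPolynomial ι k →ₐ[k] MvPolynomial ι k :=
  aeval fun i => if i = i₀ then X i + C c else X i

theorem shiftHom_X (i₀ : ι) (c : k) (i : ι) :
    shiftHom i₀ c (X i) = if i = i₀ then X i + C c else X i := by
  simp [shiftHom]

theorem shiftHom_comp (i₀ : ι) (c d : k) :
    (shiftHom i₀ c).comp (shiftHom i₀ d) = shiftHom i₀ (c + d) := by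
  apply MvPolynomial.algHom_ext
  intro i
  by_cases h : i = i₀
  · subst h
    simp only [shiftHom, AlgHom.comp_apply, aeval_X, if_true, map_add, algHom_C,
      algebraMap_eq, map_add, add_assoc]
  · simp [shiftHom, h]

theorem shiftHom_zero (i₀ : ι) : shiftHom i₀ (0 : k) = AlgHom.id k (MvPolynomial ι k) := by
  apply MvPolynomial.algHom_ext
  intro i
  by_cases h : i = i₀ <;> simp [shiftHom, h]

/-- The shift as an algebra automorphism. -/
noncomputable def shiftEquiv (i₀ : ι) (c : k) : MvPolynomial ι k ≃ₐ[k] MvPolynomial ι k :=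
  AlgEquiv.ofAlgHom (shiftHom i₀ c) (shiftHom i₀ (-c))
    (by rw [shiftHom_comp, add_neg_cancel, shiftHom_zero])
    (by rw [shiftHom_comp, neg_add_cancel, shiftHom_zero])

theorem shiftEquiv_X_self (i₀ : ι) (c : k) : shiftEquiv i₀ c (X i₀) = X i₀ + C c := by
  simp [shiftEquiv, shiftHom_X]

end Shift

section Move

variable {k Ω : Type*} [Field k] [Field Ω] [Algebra k Ω] [IsAlgClosed Ω]

/-- A transcendental element of an algebraically closed field can be translated by any
constant by an automorphism. -/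
theorem exists_algEquiv_apply_eq_add (z : Ω) (hz : Transcendental k z) (c : k) :
    ∃ σ : Ω ≃ₐ[k] Ω, σ z = z + algebraMap k Ω c := by
  classical
  have hs : AlgebraicIndepOn k id ({z} : Set Ω) := by
    have : AlgebraicIndependent k (fun x : ({z} : Set Ω) => (x : Ω)) := by
      rw [algebraicIndependent_singleton_iff (⟨z, rfl⟩ : ({z} : Set Ω))]
      exact hz
    exact this
  obtain ⟨t, hzt, ht⟩ := exists_isTranscendenceBasis_superset hs
  set B : t → Ω := fun x => (x : Ω) with hB
  have hzmem : z ∈ t := hzt rfl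
  let i₀ : t := ⟨z, hzmem⟩
  have hcl := IsAlgClosed.isAlgClosure_of_transcendence_basis B ht
  -- the automorphism of the polynomial subalgebra
  let e₀ : Algebra.adjoin k (Set.range B) ≃ₐ[k] Algebra.adjoin k (Set.range B) :=
    (ht.1.aevalEquiv.symm.trans (shiftEquiv i₀ c)).trans ht.1.aevalEquiv
  have he₀ : ∀ x, (e₀ x : Ω) = aeval B (shiftEquiv i₀ c (ht.1.aevalEquiv.symm x)) := by
    intro x
    simp only [e₀, AlgEquiv.trans_apply]
    exact AlgebraicIndependent.algebraMap_aevalEquiv ht.1 _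
  let σ₀ : Ω ≃+* Ω := IsAlgClosure.equivOfEquiv Ω Ω e₀.toRingEquiv
  have hσ₀ : ∀ r : Algebra.adjoin k (Set.range B),
      σ₀ (algebraMap _ Ω r) = algebraMap _ Ω (e₀ r) := fun r =>
    IsAlgClosure.equivOfEquiv_algebraMap Ω Ω e₀.toRingEquiv r
  have hcomm : ∀ a : k, σ₀ (algebraMap k Ω a) = algebraMap k Ω a := by
    intro a
    have h1 : algebraMap k Ω a
        = algebraMap (Algebra.adjoin k (Set.range B)) Ω (algebraMap k _ a) := rfl
    rw [h1, hσ₀, e₀.commutes]
  refine ⟨AlgEquiv.ofRingEquiv (f := σ₀) hcomm, ?_⟩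
  have hzB : z = algebraMap (Algebra.adjoin k (Set.range B)) Ω
      ⟨z, Algebra.subset_adjoin ⟨i₀, rfl⟩⟩ := rfl
  show σ₀ z = _
  conv_lhs => rw [hzB]
  rw [hσ₀]
  show (e₀ _ : Ω) = _
  rw [he₀]
  have hsymm : ht.1.aevalEquiv.symm ⟨z, Algebra.subset_adjoin ⟨i₀, rfl⟩⟩ = X i₀ := by
    rw [AlgEquiv.symm_apply_eq]
    apply Subtype.ext
    show z = algebraMap (Algebra.adjoin k (Set.range B)) Ω (ht.1.aevalEquiv (X i₀))
    rw [AlgebraicIndependent.algebraMap_aevalEquiv, aeval_X]
  rw [hsymm, shiftEquiv_X_self]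
  simp [B, i₀]

end Move

section Orbit

variable {k Ω : Type*} [Field k] [Field Ω] [Algebra k Ω] [IsAlgClosed k] [IsAlgClosed Ω]

omit [IsAlgClosed Ω] in
/-- Over an algebraically closed field, an element which is not a constant is transcendental. -/
theorem transcendental_of_not_mem_range {z : Ω} (hz : z ∉ Set.range (algebraMap k Ω)) :
    Transcendental k z := by
  intro halg
  apply hz
  have hint : IsIntegral k z := halg.isIntegral
  have hdeg : (minpoly k z).degree = 1 :=
    IsAlgClosed.degree_eq_one_of_irreducible k (minpoly.irreducible hint)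
  exact minpoly.mem_range_of_degree_eq_one k z hdeg

/-- An element with finitely many conjugates under `Aut(Ω/k)` lies in `k`
(`k`, `Ω` algebraically closed). -/
theorem mem_range_of_finite_orbit (z : Ω)
    (h : (Set.range fun σ : Ω ≃ₐ[k] Ω => σ z).Finite) : z ∈ Set.range (algebraMap k Ω) := by
  by_contra hz
  have htr := transcendental_of_not_mem_range hz
  have hinj : Function.Injective fun c : k => z + algebraMap k Ω c := by
    intro c d hcd
    exact (algebraMap k Ω).injective (add_left_cancel hcd)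
  have hsub : (Set.range fun c : k => z + algebraMap k Ω c)
      ⊆ Set.range fun σ : Ω ≃ₐ[k] Ω => σ z := by
    rintro _ ⟨c, rfl⟩
    obtain ⟨σ, hσ⟩ := exists_algEquiv_apply_eq_add z htr c
    exact ⟨σ, hσ⟩
  have : Infinite k := IsAlgClosed.instInfinite
  exact Set.infinite_range_of_injective hinj (h.subset hsub)

/-- The fixed field of a finite-index subgroup of `Aut(Ω/k)` is `k`. -/
theorem mem_range_of_fixed_of_finiteIndex (H : Subgroup (Ω ≃ₐ[k] Ω)) [H.FiniteIndex] (z : Ω)
    (hfix : ∀ σ ∈ H, σ z = z) : z ∈ Set.range (algebraMap k Ω) := by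
  apply mem_range_of_finite_orbit
  -- the orbit map factors through the finite quotient `G ⧸ H`
  let f : (Ω ≃ₐ[k] Ω) ⧸ H → Ω := Quotient.lift (fun σ : Ω ≃ₐ[k] Ω => σ z) (by
    intro a b hab
    have hab' : a⁻¹ * b ∈ H := QuotientGroup.leftRel_apply.mp hab
    have := hfix _ hab'
    show a z = b z
    have h2 : b z = a ((a⁻¹ * b) z) := by
      simp [AlgEquiv.mul_apply, AlgEquiv.aut_inv]
    rw [h2, this])
  have : Finite ((Ω ≃ₐ[k] Ω) ⧸ H) := Subgroup.finite_quotient_of_finiteIndex
  have : (Set.range fun σ : Ω ≃ₐ[k] Ω => σ z) ⊆ Set.range f := by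
    rintro _ ⟨σ, rfl⟩
    exact ⟨QuotientGroup.mk σ, rfl⟩
  exact (Set.finite_range f).subset this

end Orbit

end Fermat.Agent.S29.H32

end
-- ===== PACK-END S29/H32/AutOrbit.lean

-- ===== PACK-BEGIN S17/H770/DerExt.lean
section


/-!
# S17 / G-DIV piece DER-0 (helper770): existence of derivations (Mathlib only)

* `exists_derivation_ext_of_formallyEtale`: a derivation `S → T` extends along a formally
  étale map `S → T` to a derivation `T → T`.
* `exists_derivation_of_isTranscendenceBasis`: prescribed values on a transcendence basis.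
* `exists_derivation_eq_one`: `K ⊆ L` fields of characteristic `0`, `s ∈ L` transcendental over
  `K`: there is a `K`-derivation `∂` of `L` with `∂ s = 1`.
-/

set_option autoImplicit false

namespace Fermat.Agent.S17.H770

open KaehlerDifferential TensorProduct

section Ext

variable (R S T : Type*) [CommRing R] [CommRing S] [CommRing T]
variable [Algebra R S] [Algebra R T] [Algebra S T] [IsScalarTower R S T]

/-- Extension of a derivation along a formally étale map. -/
theorem exists_derivation_ext_of_formallyEtale [Algebra.FormallyEtale S T]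
    (d : Derivation R S T) : ∃ D : Derivation R T T, ∀ s : S, D (algebraMap S T s) = d s := by
  let l : Ω[S⁄R] →ₗ[S] T := d.liftKaehlerDifferential
  let lT : T ⊗[S] Ω[S⁄R] →ₗ[T] T := LinearMap.liftBaseChange T l
  let e := KaehlerDifferential.tensorKaehlerEquivOfFormallyEtale R S T
  let L : Ω[T⁄R] →ₗ[T] T := lT ∘ₗ e.symm.toLinearMap
  refine ⟨L.compDer (KaehlerDifferential.D R T), fun s => ?_⟩
  simp [L, lT, l, e, KaehlerDifferential.tensorKaehlerEquivOfFormallyEtale_symm_D_algebraMap]

end Ext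

section Field

variable {K L : Type*} [Field K] [Field L] [Algebra K L] [CharZero K]

open scoped IntermediateField.algebraAdjoinAdjoin in
/-- In characteristic `0` a derivation can be prescribed arbitrarily on a transcendence basis. -/
theorem exists_derivation_of_isTranscendenceBasis {ι : Type*} {v : ι → L}
    (hv : IsTranscendenceBasis K v) (f : ι → L) :
    ∃ D : Derivation K L L, ∀ i, D (v i) = f i := by
  classical
  let e : MvPolynomial ι K ≃ₐ[K] Algebra.adjoin K (Set.range v) := hv.1.aevalEquiv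
  -- derivation on the polynomial subalgebra
  obtain ⟨d, hd⟩ : ∃ d : Derivation K (Algebra.adjoin K (Set.range v)) L,
      ∀ i, d ⟨v i, Algebra.subset_adjoin ⟨i, rfl⟩⟩ = f i := by
    let modS : Module (MvPolynomial ι K) L :=
      Module.compHom L (e : MvPolynomial ι K →+* Algebra.adjoin K (Set.range v))
    have hsm : ∀ (p : MvPolynomial ι K) (x : L), p • x = (e p : L) * x := fun p x => rfl
    have : IsScalarTower K (MvPolynomial ι K) L := ⟨fun c p x => by
      rw [hsm, hsm, map_smul, Subalgebra.coe_smul, smul_mul_assoc]⟩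
    let d₀ : Derivation K (MvPolynomial ι K) L := MvPolynomial.mkDerivation K f
    refine ⟨Derivation.mk' (d₀.toLinearMap ∘ₗ e.symm.toLinearMap) ?_, ?_⟩
    · intro a b
      simp only [LinearMap.comp_apply, AlgEquiv.toLinearMap_apply, Derivation.coeFn_coe,
        map_mul, Derivation.leibniz, hsm, AlgEquiv.apply_symm_apply]
      rfl
    · intro i
      have : e.symm ⟨v i, Algebra.subset_adjoin ⟨i, rfl⟩⟩ = MvPolynomial.X i := by
        rw [AlgEquiv.symm_apply_eq]
        ext
        simp [e]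
      simp [this, d₀, MvPolynomial.mkDerivation_X]
  have : Algebra.FormallyEtale (Algebra.adjoin K (Set.range v))
      (IntermediateField.adjoin K (Set.range v)) := .of_isLocalization (nonZeroDivisors _)
  have : Algebra.IsAlgebraic (IntermediateField.adjoin K (Set.range v)) L :=
    hv.isAlgebraic_field
  have : CharZero (IntermediateField.adjoin K (Set.range v)) :=
    charZero_of_injective_algebraMap (algebraMap K _).injective
  have : Algebra.IsSeparable (IntermediateField.adjoin K (Set.range v)) L := inferInstance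
  have : Algebra.FormallyEtale (IntermediateField.adjoin K (Set.range v)) L :=
    Algebra.FormallyEtale.of_isSeparable _ L
  have : Algebra.FormallyEtale (Algebra.adjoin K (Set.range v)) L :=
    .comp _ (IntermediateField.adjoin K (Set.range v)) _
  obtain ⟨D, hD⟩ := exists_derivation_ext_of_formallyEtale K (Algebra.adjoin K (Set.range v)) L d
  exact ⟨D, fun i => by simpa [hd] using hD ⟨v i, Algebra.subset_adjoin ⟨i, rfl⟩⟩⟩

/-- `K ⊆ L` fields of characteristic `0`, `s ∈ L` transcendental over `K`: there is a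
`K`-derivation `∂` of `L` with `∂ s = 1`. -/
theorem exists_derivation_eq_one (s : L) (hs : Transcendental K s) :
    ∃ D : Derivation K L L, D s = 1 := by
  classical
  have h1 : AlgebraicIndepOn K id ({s} : Set L) :=
    (algebraicIndependent_singleton_iff (R := K) (x := fun i : ({s} : Set L) => id (i : L))
      ⟨s, rfl⟩).2 hs
  obtain ⟨t, hst, ht⟩ := exists_isTranscendenceBasis_superset h1
  obtain ⟨D, hD⟩ := exists_derivation_of_isTranscendenceBasis ht
    (fun i => if (i : L) = s then 1 else 0)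
  exact ⟨D, by simpa using hD ⟨s, hst rfl⟩⟩

end Field

end Fermat.Agent.S17.H770

end
-- ===== PACK-END S17/H770/DerExt.lean

-- ===== PACK-BEGIN S37/H400/KronSection.lean
section
/-
S37 / helper400 — piece KRON, part (K1): `p`-sections of Laurent series and the section matrix.

For `f ∈ R((T))` the *section matrix* `secMat p f ∈ Mat_p(R((q)))` is the matrix of multiplication
by `f` on `R((T))`, seen as a free module over `V_p (R((q)))` (`V_p = qExpand R p : q ↦ T ^ p`) with
basis `1, T, …, T^{p-1}`.  We prove that `secMat p` is multiplicative, sends `V_p a` to the scalar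
matrix `a`, and satisfies Cayley–Hamilton in the form `(charpoly.map V_p).eval f = 0`.

(The section matrix idea is due to helper807, `S28/H807/Section.lean`; this file is an independent
self-contained development with the multiplicative structure needed for the Kronecker congruence.)
-/




set_option autoImplicit false

noncomputable section

open ModularCurve HahnSeries Polynomial Matrix

namespace Fermat.Agent.S37.H400

variable {R : Type*} [CommRing R]

/-- The `r`-th `p`-section `∑ₘ f_{pm+r} qᵐ` of a Laurent series `f`. -/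
def secL (p : ℕ) [NeZero p] (r : ℤ) (f : LaurentSeries R) : LaurentSeries R :=
  HahnSeries.ofSuppBddBelow (fun m : ℤ => f.coeff ((p : ℤ) * m + r))
    ⟨(f.order - r) / (p : ℤ), by
      intro m hm
      by_contra hlt
      apply hm
      apply HahnSeries.coeff_eq_zero_of_lt_order
      have hp : (0 : ℤ) < (p : ℤ) := by exact_mod_cast Nat.pos_of_ne_zero (NeZero.ne p)
      have h1 : m + 1 ≤ (f.order - r) / (p : ℤ) := not_le.mp hlt
      have h2 : (m + 1) * (p : ℤ) ≤ f.order - r := (Int.le_ediv_iff_mul_le hp).mp h1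
      nlinarith⟩

@[simp]
theorem secL_coeff (p : ℕ) [NeZero p] (r : ℤ) (f : LaurentSeries R) (m : ℤ) :
    (secL p r f).coeff m = f.coeff ((p : ℤ) * m + r) := rfl

theorem secL_coeffMap {S : Type*} [CommRing S] (φ : R →+* S) (p : ℕ) [NeZero p] (r : ℤ)
    (f : LaurentSeries R) : secL p r (coeffMap φ f) = coeffMap φ (secL p r f) := by
  ext m
  simp

theorem secL_add (p : ℕ) [NeZero p] (r : ℤ) (f g : LaurentSeries R) :
    secL p r (f + g) = secL p r f + secL p r g := by
  ext m
  simp

theorem secL_zero (p : ℕ) [NeZero p] (r : ℤ) : secL p r (0 : LaurentSeries R) = 0 := by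
  ext m
  simp

theorem secL_sum (p : ℕ) [NeZero p] (r : ℤ) {ι : Type*} (s : Finset ι)
    (F : ι → LaurentSeries R) : secL p r (∑ i ∈ s, F i) = ∑ i ∈ s, secL p r (F i) := by
  classical
  induction s using Finset.induction_on with
  | empty => simp [secL_zero]
  | insert a s ha ih => rw [Finset.sum_insert ha, Finset.sum_insert ha, secL_add, ih]

/-- Shifting by `T ^ k` shifts the section index. -/
theorem secL_mul_single (p : ℕ) [NeZero p] (r k : ℤ) (f : LaurentSeries R) :
    secL p r (f * HahnSeries.single k (1 : R)) = secL p (r - k) f := by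
  ext m
  rw [secL_coeff, secL_coeff]
  have : (p : ℤ) * m + r = ((p : ℤ) * m + (r - k)) + k := by ring
  rw [this, HahnSeries.coeff_mul_single_add, mul_one]

/-- The recombination `∑ᵢ V_p(aᵢ) Tⁱ` of a family of sections. -/
def recomb (p : ℕ) [NeZero p] (a : Fin p → LaurentSeries R) : LaurentSeries R :=
  ∑ i : Fin p, qExpand R p (a i) * HahnSeries.single ((i : ℕ) : ℤ) (1 : R)

theorem coeff_qExpand_mul_single (p : ℕ) [NeZero p] (a : LaurentSeries R) (i : Fin p)
    (m : ℤ) (j : Fin p) :
    (qExpand R p a * HahnSeries.single ((i : ℕ) : ℤ) (1 : R)).coeff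
        ((p : ℤ) * m + ((j : ℕ) : ℤ)) = if j = i then a.coeff m else 0 := by
  have hi : ((i : ℕ) : ℤ) < p := by exact_mod_cast i.2
  have hj : ((j : ℕ) : ℤ) < p := by exact_mod_cast j.2
  have hi0 : (0 : ℤ) ≤ ((i : ℕ) : ℤ) := by positivity
  have hj0 : (0 : ℤ) ≤ ((j : ℕ) : ℤ) := by positivity
  have h : (p : ℤ) * m + ((j : ℕ) : ℤ) =
      ((p : ℤ) * m + ((j : ℕ) : ℤ) - ((i : ℕ) : ℤ)) + ((i : ℕ) : ℤ) := by ring
  rw [h, HahnSeries.coeff_mul_single_add, mul_one]
  split_ifs with hji
  · subst hji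
    rw [add_sub_cancel_right, qExpand_coeff_mul]
  · apply qExpand_coeff_of_not_dvd
    intro hd
    apply hji
    apply Fin.ext
    have h2 : (p : ℤ) ∣ ((j : ℕ) : ℤ) - ((i : ℕ) : ℤ) := by
      have : (p : ℤ) * m + ((j : ℕ) : ℤ) - ((i : ℕ) : ℤ)
          = (p : ℤ) * m + (((j : ℕ) : ℤ) - ((i : ℕ) : ℤ)) := by ring
      rw [this] at hd
      exact (Int.dvd_add_right (dvd_mul_right _ _)).mp hd
    obtain ⟨c, hc⟩ := h2
    have hc0 : c = 0 := by
      by_contra hne
      rcases lt_or_gt_of_ne hne with hlt | hgt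
      · have : (p : ℤ) * c ≤ (p : ℤ) * (-1) := by
          apply mul_le_mul_of_nonneg_left _ (by positivity)
          omega
        omega
      · have : (p : ℤ) * 1 ≤ (p : ℤ) * c := by
          apply mul_le_mul_of_nonneg_left _ (by positivity)
          omega
        omega
    rw [hc0, mul_zero] at hc
    have : ((j : ℕ) : ℤ) = ((i : ℕ) : ℤ) := by omega
    exact_mod_cast this

/-- Sections of a recombination. -/
theorem secL_recomb (p : ℕ) [NeZero p] (a : Fin p → LaurentSeries R) (j : Fin p) :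
    secL p ((j : ℕ) : ℤ) (recomb p a) = a j := by
  ext m
  rw [secL_coeff, recomb, HahnSeries.coeff_sum]
  simp_rw [coeff_qExpand_mul_single]
  simp

/-- Every Laurent series is the recombination of its sections. -/
theorem recomb_secL (p : ℕ) [NeZero p] (f : LaurentSeries R) :
    recomb p (fun i : Fin p => secL p ((i : ℕ) : ℤ) f) = f := by
  have hp : (0 : ℤ) < (p : ℤ) := by exact_mod_cast Nat.pos_of_ne_zero (NeZero.ne p)
  ext n
  have hlt : (n % (p : ℤ)).toNat < p := by
    have h1 : n % (p : ℤ) < p := Int.emod_lt_of_pos n hp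
    have h0 : 0 ≤ n % (p : ℤ) := Int.emod_nonneg n hp.ne'
    omega
  set j : Fin p := ⟨(n % (p : ℤ)).toNat, hlt⟩ with hj
  have hjv : ((j : ℕ) : ℤ) = n % (p : ℤ) := by
    simp only [hj]
    exact Int.toNat_of_nonneg (Int.emod_nonneg n hp.ne')
  have hn : n = (p : ℤ) * (n / (p : ℤ)) + ((j : ℕ) : ℤ) := by
    rw [hjv]; have := Int.emod_add_mul_ediv n (p : ℤ); linarith
  rw [recomb, HahnSeries.coeff_sum]
  conv_lhs =>
    enter [2, i]
    rw [hn, coeff_qExpand_mul_single]
  simp only [Finset.sum_ite_eq, Finset.mem_univ, if_true, secL_coeff]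
  rw [← hn]

/-- `V_p`-semilinearity of the sections. -/
theorem secL_qExpand_mul (p : ℕ) [NeZero p] (a h : LaurentSeries R) (j : Fin p) :
    secL p ((j : ℕ) : ℤ) (qExpand R p a * h) = a * secL p ((j : ℕ) : ℤ) h := by
  conv_lhs => rw [← recomb_secL p h]
  have : qExpand R p a * recomb p (fun i : Fin p => secL p ((i : ℕ) : ℤ) h)
      = recomb p (fun i : Fin p => a * secL p ((i : ℕ) : ℤ) h) := by
    simp only [recomb, Finset.mul_sum, map_mul, mul_assoc]
  rw [this, secL_recomb]

/-- The section matrix of `f`: entry `(i', i)` is the `i'`-th section of `f · Tⁱ`,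
i.e. the `(i' - i)`-th section of `f`. -/
def secMat (p : ℕ) [NeZero p] (f : LaurentSeries R) :
    Matrix (Fin p) (Fin p) (LaurentSeries R) :=
  fun i' i => secL p ((i' : ℕ) : ℤ) (f * HahnSeries.single ((i : ℕ) : ℤ) (1 : R))

theorem secMat_apply (p : ℕ) [NeZero p] (f : LaurentSeries R) (i' i : Fin p) :
    secMat p f i' i = secL p ((i' : ℕ) : ℤ) (f * HahnSeries.single ((i : ℕ) : ℤ) (1 : R)) :=
  rfl

theorem secMat_apply' (p : ℕ) [NeZero p] (f : LaurentSeries R) (i' i : Fin p) :
    secMat p f i' i = secL p (((i' : ℕ) : ℤ) - ((i : ℕ) : ℤ)) f := by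
  rw [secMat_apply, secL_mul_single]

theorem secMat_coeffMap {S : Type*} [CommRing S] (φ : R →+* S) (p : ℕ) [NeZero p]
    (f : LaurentSeries R) :
    secMat p (coeffMap φ f) = (secMat p f).map (coeffMap φ) := by
  ext i' i : 1
  simp only [secMat_apply', Matrix.map_apply, secL_coeffMap]

/-- Key identity: `f · Tⁱ = ∑_{i'} V_p(M_{i',i}) · T^{i'}`. -/
theorem mul_single_eq_recomb (p : ℕ) [NeZero p] (f : LaurentSeries R) (i : Fin p) :
    f * HahnSeries.single ((i : ℕ) : ℤ) (1 : R) = recomb p (fun i' => secMat p f i' i) :=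
  (recomb_secL p _).symm

/-- The section matrix is multiplicative. -/
theorem secMat_mul (p : ℕ) [NeZero p] (f g : LaurentSeries R) :
    secMat p (f * g) = secMat p f * secMat p g := by
  ext i' i : 1
  have hmul : (secMat p f * secMat p g) i' i = ∑ j, secMat p f i' j * secMat p g j i :=
    Matrix.mul_apply
  rw [hmul, secMat_apply, mul_assoc, mul_single_eq_recomb p g i, recomb,
    Finset.mul_sum, secL_sum p _ Finset.univ]
  apply Finset.sum_congr rfl
  intro j _
  rw [← mul_assoc, mul_comm f, mul_assoc, secL_qExpand_mul, mul_comm]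
  rfl

theorem secL_single_one (p : ℕ) [NeZero p] (i' i : Fin p) :
    secL p ((i' : ℕ) : ℤ) (HahnSeries.single ((i : ℕ) : ℤ) (1 : R)) =
      if i' = i then 1 else 0 := by
  have h := secL_recomb p (fun j : Fin p => if j = i then (1 : LaurentSeries R) else 0) i'
  have h2 : recomb p (fun j : Fin p => if j = i then (1 : LaurentSeries R) else 0)
      = HahnSeries.single ((i : ℕ) : ℤ) (1 : R) := by
    rw [recomb, Finset.sum_eq_single i]
    · simp
    · intro b _ hb; simp [hb]
    · intro h; exact absurd (Finset.mem_univ _) h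
  rw [h2] at h
  exact h

/-- The section matrix of `V_p a` is the scalar matrix `a`. -/
theorem secMat_qExpand (p : ℕ) [NeZero p] (a : LaurentSeries R) :
    secMat p (qExpand R p a) = Matrix.scalar (Fin p) a := by
  ext i' i : 1
  rw [secMat_apply, secL_qExpand_mul, secL_single_one, Matrix.scalar_apply,
    Matrix.diagonal_apply]
  split_ifs <;> simp

theorem secMat_one (p : ℕ) [NeZero p] : secMat p (1 : LaurentSeries R) = 1 := by
  have := secMat_qExpand p (1 : LaurentSeries R)
  rwa [map_one, map_one] at this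

theorem secMat_pow (p : ℕ) [NeZero p] (f : LaurentSeries R) (n : ℕ) :
    secMat p (f ^ n) = secMat p f ^ n := by
  induction n with
  | zero => rw [pow_zero, pow_zero, secMat_one]
  | succ n ih => rw [pow_succ, pow_succ, secMat_mul, ih]

/-- **Cayley–Hamilton for the section matrix**: the characteristic polynomial of `secMat p f`,
with coefficients pushed along `V_p`, kills `f`. -/
theorem secMat_charpoly_eval (p : ℕ) [NeZero p] (f : LaurentSeries R) :
    (((secMat p f).charpoly).map (qExpand R p)).eval f = 0 := by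
  set A : Matrix (Fin p) (Fin p) (LaurentSeries R) := (secMat p f).map (qExpand R p) with hA
  set v : Fin p → LaurentSeries R := fun i => HahnSeries.single ((i : ℕ) : ℤ) (1 : R) with hv
  set B : Matrix (Fin p) (Fin p) (LaurentSeries R) := Matrix.scalar (Fin p) f - Aᵀ with hB
  have hBv : B *ᵥ v = 0 := by
    funext i
    simp only [hB, Matrix.sub_mulVec, Pi.sub_apply, Pi.zero_apply]
    rw [sub_eq_zero]
    have h1 : (Matrix.scalar (Fin p) f *ᵥ v) i = f * v i := by
      simp [Matrix.scalar_apply, Matrix.mulVec, dotProduct, Matrix.diagonal_apply]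
    rw [h1]
    simp only [Matrix.mulVec, dotProduct, Matrix.transpose_apply, hA, Matrix.map_apply, hv]
    exact mul_single_eq_recomb p f i
  have hdet : B.det • v = 0 := by
    have h : (Matrix.adjugate B * B) *ᵥ v = (B.det • (1 : Matrix (Fin p) (Fin p) _)) *ᵥ v := by
      rw [Matrix.adjugate_mul]
    rw [← Matrix.mulVec_mulVec, hBv, Matrix.mulVec_zero] at h
    rw [Matrix.smul_mulVec, Matrix.one_mulVec] at h
    exact h.symm
  have h0 : B.det * v ⟨0, Nat.pos_of_ne_zero (NeZero.ne p)⟩ = 0 := by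
    have := congrFun hdet ⟨0, Nat.pos_of_ne_zero (NeZero.ne p)⟩
    simpa using this
  have hv0 : v ⟨0, Nat.pos_of_ne_zero (NeZero.ne p)⟩ = 1 := by
    simp only [hv]
    rfl
  rw [hv0, mul_one] at h0
  rw [← Matrix.charpoly_map, ← hA, ← Matrix.charpoly_transpose, Matrix.eval_charpoly]
  exact h0

end Fermat.Agent.S37.H400

end

end
-- ===== PACK-END S37/H400/KronSection.lean

-- ===== PACK-BEGIN S18/H694/PrimeRed.lean
section


/-!
# S18: reduction to PRIME `m` at the top level (helper694)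

`reductionModL A N` is an additive group homomorphism, so the frozen statement S18 for all `m`
prime to `ℓ` follows from the case where `m` is a prime number different from `ℓ`
(strong induction on `m`: `z' := (m / p) • z` is killed by `p` and has zero reduction).

Consequence for the row: every node below the top (CORE, d2, GLUE, ALG) is only needed for
PRIME `m`; no induction / rescaling is needed inside ALG.
-/

set_option autoImplicit false

namespace Fermat.Agent.S18.H694

/-- Abstract form: for an additive hom `red`, "`p`-torsion with zero reduction vanishes for all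
primes `p ≠ ℓ`" implies the same for every `m` prime to `ℓ`. -/
theorem eq_zero_of_prime_case {G H : Type*} [AddCommGroup G] [AddCommGroup H] (red : G →+ H)
    {ℓ : ℕ} (hℓ : ℓ.Prime)
    (hprime : ∀ p : ℕ, p.Prime → p ≠ ℓ → ∀ z : G, p • z = 0 → red z = 0 → z = 0) :
    ∀ m : ℕ, ¬ ℓ ∣ m → ∀ z : G, m • z = 0 → red z = 0 → z = 0 := by
  intro m
  induction m using Nat.strong_induction_on with
  | _ m ih =>
    intro hm z hmz hz
    rcases Nat.lt_or_ge m 2 with h2 | h2
    · interval_cases m
      · exact absurd (dvd_zero ℓ) hm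
      · simpa using hmz
    · obtain ⟨p, hp, hpm⟩ := Nat.exists_prime_and_dvd (by omega : m ≠ 1)
      obtain ⟨m', rfl⟩ := hpm
      have hm'pos : 0 < m' := by
        rcases Nat.eq_zero_or_pos m' with h | h
        · subst h; simp at h2
        · exact h
      have hpl : p ≠ ℓ := by
        rintro rfl
        exact hm (dvd_mul_right _ _)
      have hm' : ¬ ℓ ∣ m' := fun h => hm (h.mul_left p)
      have hz' : m' • z = 0 := by
        apply hprime p hp hpl (m' • z)
        · rw [smul_smul]; exact hmz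
        · rw [map_nsmul, hz, smul_zero]
      have hlt : m' < p * m' := by
        have := hp.two_le
        nlinarith
      exact ih m' hlt hm' z hz' hz

open ModularCurve in
/-- The frozen S18 statement for all `m` from its PRIME case. -/
theorem s18_of_prime_case (N : ℕ) [NeZero N] {ℓ : ℕ} [Fact ℓ.Prime]
    (A : ValuationSubring (AlgebraicClosure ℚ))
    (hprime : ∀ p : ℕ, p.Prime → ¬ ℓ ∣ p → ∀ z : ModularCurve.JZero N,
      p • z = 0 → ModularCurve.reductionModL A N z = 0 → z = 0)
    (m : ℕ) (hm : ¬ ℓ ∣ m) (z : ModularCurve.JZero N)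
    (hmz : m • z = 0) (hz : ModularCurve.reductionModL A N z = 0) : z = 0 := by
  have hℓ : ℓ.Prime := Fact.out
  refine eq_zero_of_prime_case (ModularCurve.reductionModL A N) hℓ ?_ m hm z hmz hz
  intro p hp hpl
  exact hprime p hp (fun h => hpl ((Nat.prime_dvd_prime_iff_eq hℓ hp).mp h).symm)

end Fermat.Agent.S18.H694

end
-- ===== PACK-END S18/H694/PrimeRed.lean

-- ===== PACK-BEGIN S18/H498/Connected.lean
section


/-!
# S18, piece b5 (abstract connectedness / "formal functions by hand")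

Pure commutative algebra, Mathlib only.

Setting: `R` a local ring, `ϖ : R`, `C` a commutative `R`-algebra on which `ϖ` is a
non-zero-divisor, `B₁ B₂ : Subalgebra R C` (the two chart algebras inside the overlap
algebra `C`), `B₁ ⊓ B₂ = R`, and the `ϖ`-power torsion of `C / (B₁ + B₂)` is killed by `ϖ ^ c`.
Then every idempotent of `B₁ / ϖ` which agrees in `C / ϖ` with an idempotent of `B₂ / ϖ`
is trivial (`0` or `1`).
-/

set_option autoImplicit false

namespace Fermat.Agent.S18.H498

section Idem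

variable {S : Type*} [CommRing S]

/-- Newton step for idempotents: `b ↦ 3 b² - 2 b³`. -/
theorem newton_idem_sub (b : S) : (3 * b ^ 2 - 2 * b ^ 3) - b = (b ^ 2 - b) * (1 - 2 * b) := by
  ring

theorem newton_idem_sq (b : S) :
    (3 * b ^ 2 - 2 * b ^ 3) ^ 2 - (3 * b ^ 2 - 2 * b ^ 3) =
      (b ^ 2 - b) ^ 2 * (4 * b ^ 2 - 4 * b - 3) := by
  ring

/-- Lifting of idempotents modulo `p` to idempotents modulo `p ^ (n + 1)`. -/
theorem exists_idem_lift (p e : S) (h : p ∣ e ^ 2 - e) (n : ℕ) :
    ∃ b : S, p ∣ b - e ∧ p ^ (n + 1) ∣ b ^ 2 - b := by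
  induction n with
  | zero => exact ⟨e, by simp, by simpa using h⟩
  | succ n ih =>
    obtain ⟨b, hb1, hb2⟩ := ih
    refine ⟨3 * b ^ 2 - 2 * b ^ 3, ?_, ?_⟩
    · have h1 : p ∣ (3 * b ^ 2 - 2 * b ^ 3) - b := by
        rw [newton_idem_sub]
        exact Dvd.dvd.mul_right ((dvd_pow_self p (Nat.succ_ne_zero n)).trans hb2) _
      have : (3 * b ^ 2 - 2 * b ^ 3) - e = ((3 * b ^ 2 - 2 * b ^ 3) - b) + (b - e) := by ring
      rw [this]
      exact dvd_add h1 hb1
    · rw [newton_idem_sq]
      refine Dvd.dvd.mul_right ?_ _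
      have h2 : (p ^ (n + 1)) ^ 2 ∣ (b ^ 2 - b) ^ 2 := pow_dvd_pow_of_dvd hb2 2
      rw [← pow_mul] at h2
      exact (pow_dvd_pow p (by omega)).trans h2

theorem idem_diff_cube (b₁ b₂ : S) :
    (b₁ - b₂) ^ 3 - (b₁ - b₂) =
      (b₁ + 1 - 3 * b₂) * (b₁ ^ 2 - b₁) - (b₂ + 1 - 3 * b₁) * (b₂ ^ 2 - b₂) := by
  ring

/-- Uniqueness of idempotent lifts: two idempotents modulo `p ^ n` which are congruent
modulo `p` are congruent modulo `p ^ n`. -/
theorem idem_lift_unique (p : S) (n : ℕ) (b₁ b₂ : S)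
    (h₁ : p ^ n ∣ b₁ ^ 2 - b₁) (h₂ : p ^ n ∣ b₂ ^ 2 - b₂) (h : p ∣ b₁ - b₂) :
    p ^ n ∣ b₁ - b₂ := by
  have hcube : p ^ n ∣ (b₁ - b₂) ^ 3 - (b₁ - b₂) := by
    rw [idem_diff_cube]
    exact dvd_sub (Dvd.dvd.mul_left h₁ _) (Dvd.dvd.mul_left h₂ _)
  have key : ∀ k : ℕ, k + 1 ≤ n → p ^ (k + 1) ∣ b₁ - b₂ := by
    intro k
    induction k with
    | zero => intro _; simpa using h
    | succ k ih =>
      intro hk
      have ih' := ih (by omega)
      have h3 : p ^ (k + 2) ∣ (b₁ - b₂) ^ 3 := by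
        have h3' : (p ^ (k + 1)) ^ 3 ∣ (b₁ - b₂) ^ 3 := pow_dvd_pow_of_dvd ih' 3
        rw [← pow_mul] at h3'
        exact (pow_dvd_pow p (by omega)).trans h3'
      have hc : p ^ (k + 2) ∣ (b₁ - b₂) ^ 3 - (b₁ - b₂) := (pow_dvd_pow p hk).trans hcube
      have : b₁ - b₂ = (b₁ - b₂) ^ 3 - ((b₁ - b₂) ^ 3 - (b₁ - b₂)) := by ring
      rw [this]
      exact dvd_sub h3 hc
  rcases Nat.eq_zero_or_pos n with hn | hn
  · subst hn; simp
  · have := key (n - 1) (by omega)
    rwa [Nat.sub_add_cancel hn] at this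

end Idem

section Cech

variable {R C : Type*} [CommRing R] [IsLocalRing R] [CommRing C] [Algebra R C]

/-- **Abstract connectedness (b5).**  `B₁ ∩ B₂ = R`, `ϖ`-power torsion of `C / (B₁ + B₂)` killed
by `ϖ ^ c`: an idempotent `e₁` of `B₁ / ϖ` agreeing in `C / ϖ` with an idempotent `e₂` of
`B₂ / ϖ` is `0` or `1` in `B₁ / ϖ`. -/
theorem idem_trivial_of_cech (ϖ : R) (B₁ B₂ : Subalgebra R C)
    (hint : ∀ y : C, y ∈ B₁ → y ∈ B₂ → ∃ r : R, algebraMap R C r = y)
    (c : ℕ)
    (hH1 : ∀ (n : ℕ) (y : C),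
      (∃ b₁ ∈ B₁, ∃ b₂ ∈ B₂, algebraMap R C ϖ ^ n * y = b₁ + b₂) →
        ∃ b₁ ∈ B₁, ∃ b₂ ∈ B₂, algebraMap R C ϖ ^ c * y = b₁ + b₂)
    (e₁ e₂ : C) (he₁ : e₁ ∈ B₁) (he₂ : e₂ ∈ B₂)
    (h₁ : ∃ a ∈ B₁, e₁ ^ 2 - e₁ = algebraMap R C ϖ * a)
    (h₂ : ∃ a ∈ B₂, e₂ ^ 2 - e₂ = algebraMap R C ϖ * a)
    (h₁₂ : ∃ y : C, e₁ - e₂ = algebraMap R C ϖ * y) :
    (∃ a ∈ B₁, e₁ = algebraMap R C ϖ * a) ∨ (∃ a ∈ B₁, 1 - e₁ = algebraMap R C ϖ * a) := by
  set p : C := algebraMap R C ϖ with hp
  -- lift inside `B₁`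
  obtain ⟨a₁, ha₁, hea₁⟩ := h₁
  obtain ⟨a₂, ha₂, hea₂⟩ := h₂
  have hd₁ : (algebraMap R B₁ ϖ) ∣ (⟨e₁, he₁⟩ : B₁) ^ 2 - ⟨e₁, he₁⟩ :=
    ⟨⟨a₁, ha₁⟩, Subtype.ext (by simpa using hea₁)⟩
  have hd₂ : (algebraMap R B₂ ϖ) ∣ (⟨e₂, he₂⟩ : B₂) ^ 2 - ⟨e₂, he₂⟩ :=
    ⟨⟨a₂, ha₂⟩, Subtype.ext (by simpa using hea₂)⟩
  obtain ⟨b₁, ⟨u₁, hu₁⟩, ⟨v₁, hv₁⟩⟩ := exists_idem_lift _ _ hd₁ c
  obtain ⟨b₂, ⟨u₂, hu₂⟩, ⟨v₂, hv₂⟩⟩ := exists_idem_lift _ _ hd₂ c
  have hu₁' : (b₁ : C) - e₁ = p * u₁ := by
    have := congrArg (Subtype.val) hu₁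
    simpa using this
  have hu₂' : (b₂ : C) - e₂ = p * u₂ := by
    have := congrArg (Subtype.val) hu₂
    simpa using this
  have hv₁' : (b₁ : C) ^ 2 - b₁ = p ^ (c + 1) * v₁ := by
    have := congrArg (Subtype.val) hv₁
    simpa using this
  have hv₂' : (b₂ : C) ^ 2 - b₂ = p ^ (c + 1) * v₂ := by
    have := congrArg (Subtype.val) hv₂
    simpa using this
  obtain ⟨y₀, hy₀⟩ := h₁₂
  have hdiff : p ∣ (b₁ : C) - b₂ := by
    refine ⟨u₁ + y₀ - u₂, ?_⟩
    have : (b₁ : C) - b₂ = ((b₁ : C) - e₁) + (e₁ - e₂) - ((b₂ : C) - e₂) := by ring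
    rw [this, hu₁', hy₀, hu₂']; ring
  obtain ⟨y, hy⟩ := idem_lift_unique p (c + 1) (b₁ : C) (b₂ : C) ⟨_, hv₁'⟩ ⟨_, hv₂'⟩ hdiff
  obtain ⟨β₁, hβ₁, β₂, hβ₂, hβ⟩ := hH1 (c + 1) y
    ⟨b₁, b₁.2, -b₂, B₂.neg_mem b₂.2, by rw [← hy]; ring⟩
  have hpB₁ : p ∈ B₁ := B₁.algebraMap_mem ϖ
  have hpB₂ : p ∈ B₂ := B₂.algebraMap_mem ϖ
  -- the glued element
  have hz : (b₁ : C) - p * β₁ = b₂ + p * β₂ := by
    have h1 : (b₁ : C) - b₂ = p * (β₁ + β₂) := by
      rw [hy, pow_succ, ← hβ]; ring
    linear_combination h1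
  have hz₁ : (b₁ : C) - p * β₁ ∈ B₁ := B₁.sub_mem b₁.2 (B₁.mul_mem hpB₁ hβ₁)
  have hz₂ : (b₁ : C) - p * β₁ ∈ B₂ := by
    rw [hz]; exact B₂.add_mem b₂.2 (B₂.mul_mem hpB₂ hβ₂)
  obtain ⟨r, hr⟩ := hint _ hz₁ hz₂
  set z : C := (b₁ : C) - p * β₁ with hzdef
  -- `z² - z = p * w`, `w ∈ B₁`
  set w : C := p ^ c * v₁ - 2 * β₁ * b₁ + p * β₁ ^ 2 + β₁ with hw
  have hwB : w ∈ B₁ := by
    refine B₁.add_mem (B₁.add_mem (B₁.sub_mem (B₁.mul_mem (B₁.pow_mem hpB₁ c) v₁.2) ?_) ?_) hβ₁
    · exact B₁.mul_mem (B₁.mul_mem (by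
        have : (2 : C) = algebraMap R C 2 := (map_ofNat (algebraMap R C) 2).symm
        rw [this]; exact B₁.algebraMap_mem 2) hβ₁) b₁.2
    · exact B₁.mul_mem hpB₁ (B₁.pow_mem hβ₁ 2)
  have hzw : z ^ 2 - z = p * w := by
    have : z ^ 2 - z = ((b₁ : C) ^ 2 - b₁) + p * (-2 * β₁ * b₁ + p * β₁ ^ 2 + β₁) := by
      rw [hzdef]; ring
    rw [this, hv₁', hw, pow_succ]; ring
  rcases IsLocalRing.isUnit_or_isUnit_one_sub_self r with hunit | hunit
  · right
    obtain ⟨s, hs⟩ := hunit.exists_right_inv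
    have hs' : z * algebraMap R C s = 1 := by
      rw [← hr, ← map_mul, hs, map_one]
    refine ⟨-(algebraMap R C s * w) - β₁ + u₁, ?_, ?_⟩
    · exact B₁.add_mem (B₁.sub_mem (B₁.neg_mem (B₁.mul_mem (B₁.algebraMap_mem s) hwB)) hβ₁) u₁.2
    · have h1 : 1 - z = p * (-(algebraMap R C s * w)) := by
        have : 1 - z = -(algebraMap R C s) * (z ^ 2 - z) + (1 - z) * (1 - z * algebraMap R C s) +
            z * (1 - z * algebraMap R C s) * 0 := by ring
        rw [this, hs', hzw]; ring
      have : 1 - e₁ = (1 - z) - p * β₁ + ((b₁ : C) - e₁) := by rw [hzdef]; ring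
      rw [this, h1, hu₁']; ring
  · left
    obtain ⟨s, hs⟩ := hunit.exists_right_inv
    have hs' : (1 - z) * algebraMap R C s = 1 := by
      rw [← hr, ← map_one (algebraMap R C), ← map_sub, ← map_mul, hs, map_one]
    refine ⟨-(algebraMap R C s * w) + β₁ - u₁, ?_, ?_⟩
    · exact B₁.sub_mem (B₁.add_mem (B₁.neg_mem (B₁.mul_mem (B₁.algebraMap_mem s) hwB)) hβ₁) u₁.2
    · have h1 : z = p * (-(algebraMap R C s * w)) := by
        have : z = -(algebraMap R C s) * (z ^ 2 - z) + z * (1 - (1 - z) * algebraMap R C s) := by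
          ring
        rw [this, hs', hzw]; ring
      have : e₁ = z + p * β₁ - ((b₁ : C) - e₁) := by rw [hzdef]; ring
      rw [this, h1, hu₁']; ring

end Cech

end Fermat.Agent.S18.H498

end
-- ===== PACK-END S18/H498/Connected.lean

-- ===== PACK-BEGIN S17/H380/AbsRel.lean
section





namespace Fermat.Agent.S17.H380

open NumberField Height Module

section Embeddings

variable {K L : Type*} [Field K] [NumberField K] [Field L] [NumberField L] [Algebra K L]

/-- The complex embeddings of `L` extending a given embedding `ψ` of `K` correspond to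
`K`-algebra homomorphisms `L → ℂ`, where `ℂ` is a `K`-algebra via `ψ`. -/
noncomputable def embExtEquiv (ψ : K →+* ℂ) :
    letI := ψ.toAlgebra
    (L →ₐ[K] ℂ) ≃ {φ : L →+* ℂ // φ.comp (algebraMap K L) = ψ} :=
  letI := ψ.toAlgebra
  { toFun := fun f => ⟨f.toRingHom, by ext x; exact f.commutes x⟩
    invFun := fun φ =>
      { (φ.1 : L →+* ℂ) with
        commutes' := fun x => congrArg (fun g : K →+* ℂ => g x) φ.2 }
    left_inv := fun f => by ext; rfl
    right_inv := fun φ => by ext; rfl }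

theorem natCard_embExt (ψ : K →+* ℂ) :
    Nat.card {φ : L →+* ℂ // φ.comp (algebraMap K L) = ψ} = finrank K L := by
  let _ := ψ.toAlgebra
  rw [← Nat.card_congr (embExtEquiv (L := L) ψ)]
  exact AlgHom.natCard_of_splits K L ℂ (fun _ => IsAlgClosed.splits _)

open Classical in
theorem card_filter_embExt (ψ : K →+* ℂ) :
    (Finset.univ.filter (fun φ : L →+* ℂ => φ.comp (algebraMap K L) = ψ)).card = finrank K L := by
  rw [← natCard_embExt (L := L) ψ, Nat.card_eq_fintype_card, Fintype.card_subtype]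

/-- Products over complex embeddings of `L` of a function of the restricted embedding. -/
theorem prod_embeddings_comp {M : Type*} [CommMonoid M] (f : (K →+* ℂ) → M) :
    ∏ φ : L →+* ℂ, f (φ.comp (algebraMap K L)) = (∏ ψ : K →+* ℂ, f ψ) ^ finrank K L := by
  classical
  rw [← Finset.prod_fiberwise (s := Finset.univ) (g := fun φ : L →+* ℂ => φ.comp (algebraMap K L))]
  rw [← Finset.prod_pow]
  refine Finset.prod_congr rfl fun ψ _ => ?_
  rw [Finset.prod_congr rfl (fun φ hφ => by rw [(Finset.mem_filter.mp hφ).2] :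
      ∀ φ ∈ Finset.univ.filter (fun φ : L →+* ℂ => φ.comp (algebraMap K L) = ψ),
        f (φ.comp (algebraMap K L)) = f ψ)]
  rw [Finset.prod_const, card_filter_embExt]

/-- Products over infinite places with multiplicity are products over complex embeddings. -/
theorem prod_infinitePlace_pow_mult {M : Type*} [CommMonoid M] (g : InfinitePlace K → M) :
    ∏ v : InfinitePlace K, g v ^ v.mult = ∏ ψ : K →+* ℂ, g (InfinitePlace.mk ψ) := by
  classical
  rw [← Finset.prod_fiberwise (s := Finset.univ) (g := fun ψ : K →+* ℂ => InfinitePlace.mk ψ)]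
  refine Finset.prod_congr rfl fun v _ => ?_
  rw [Finset.prod_congr rfl (fun φ hφ => by rw [(Finset.mem_filter.mp hφ).2] :
      ∀ φ ∈ Finset.univ.filter (fun φ : K →+* ℂ => InfinitePlace.mk φ = v),
        g (InfinitePlace.mk φ) = g v)]
  rw [Finset.prod_const, InfinitePlace.card_filter_mk_eq]

/-- **Infinite part of the degree formula**: for an extension `L/K` of number fields,
the weighted product over the infinite places of `L` of a function of the place below
is the `[L:K]`-th power of the weighted product over the infinite places of `K`. -/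
theorem prod_infinitePlace_comap {M : Type*} [CommMonoid M] (g : InfinitePlace K → M) :
    ∏ w : InfinitePlace L, g (w.comap (algebraMap K L)) ^ w.mult
      = (∏ v : InfinitePlace K, g v ^ v.mult) ^ finrank K L := by
  rw [prod_infinitePlace_pow_mult (fun w : InfinitePlace L => g (w.comap (algebraMap K L))),
    prod_infinitePlace_pow_mult g]
  simp only [InfinitePlace.comap_mk]
  exact prod_embeddings_comp (L := L) (fun ψ => g (InfinitePlace.mk ψ))

end Embeddings


section Relative

variable {K L : Type*} [Field K] [NumberField K] [Field L] [NumberField L] [Algebra K L]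
variable {ι : Type*} [_root_.Finite ι]

/-- The multiplicative height of a nonzero tuple of algebraic integers: the archimedean
part divided by the absolute norm of the ideal generated by the entries. -/
theorem mulHeight_integral_eq {y : ι → 𝓞 K} (hy : y ≠ 0) :
    mulHeight (fun i => (y i : K)) * (Ideal.span (Set.range y)).absNorm
      = ∏ v : InfinitePlace K, (⨆ i, v (y i)) ^ v.mult := by
  have hy' : (fun i => (y i : K)) ≠ 0 := by
    intro h
    apply hy
    funext i
    have := congrFun h i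
    exact RingOfIntegers.coe_eq_zero_iff.mp this
  rw [NumberField.mulHeight_eq hy', mul_assoc, mul_comm (∏ᶠ v : FinitePlace K, _),
    NumberField.absNorm_mul_finprod_finitePlace_eq_one hy, mul_one]

omit [_root_.Finite ι] in
theorem absNorm_span_range_ne_zero {y : ι → 𝓞 K} (hy : y ≠ 0) :
    ((Ideal.span (Set.range y)).absNorm : ℝ) ≠ 0 := by
  rw [Nat.cast_ne_zero, Ne, Ideal.absNorm_eq_zero_iff, Ideal.span_eq_bot]
  intro h
  apply hy
  funext i
  exact h _ ⟨i, rfl⟩

/-- **Degree formula for heights**, integral case. -/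
theorem mulHeight_algebraMap_integral (y : ι → 𝓞 K) :
    mulHeight (fun i => algebraMap K L (y i : K))
      = mulHeight (fun i => (y i : K)) ^ finrank K L := by
  rcases eq_or_ne y 0 with rfl | hy
  · have h0 : (fun i : ι => algebraMap K L (((0 : ι → 𝓞 K) i : 𝓞 K) : K)) = 0 := by
      funext i; simp
    have h1 : (fun i : ι => ((((0 : ι → 𝓞 K) i : 𝓞 K)) : K)) = 0 := by
      funext i; simp
    rw [h0, h1]; simp
  -- the tuple upstairs
  set z : ι → 𝓞 L := fun i => algebraMap (𝓞 K) (𝓞 L) (y i) with hz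
  have hzy : ∀ i, ((z i : 𝓞 L) : L) = algebraMap K L (y i : K) := fun i => rfl
  have hz0 : z ≠ 0 := by
    intro h
    apply hy
    funext i
    have h1 := congrFun h i
    have h2 : algebraMap K L (y i : K) = 0 := by
      rw [← hzy i, h1]; simp
    have h3 : (y i : K) = 0 := by
      simpa using h2
    exact RingOfIntegers.coe_eq_zero_iff.mp h3
  have hspan : Ideal.span (Set.range z)
      = (Ideal.span (Set.range y)).map (algebraMap (𝓞 K) (𝓞 L)) := by
    rw [Ideal.map_span, ← Set.range_comp]; rfl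
  have hnorm : ((Ideal.span (Set.range z)).absNorm : ℝ)
      = ((Ideal.span (Set.range y)).absNorm : ℝ) ^ finrank K L := by
    rw [hspan, Ideal.absNorm_algebraMap, IsFractionRing.finrank_eq (𝓞 K) K (𝓞 L) L]
    push_cast; rfl
  have hK := mulHeight_integral_eq hy
  have hL := mulHeight_integral_eq hz0
  have hinf : ∏ w : InfinitePlace L, (⨆ i, w (z i)) ^ w.mult
      = (∏ v : InfinitePlace K, (⨆ i, v (y i)) ^ v.mult) ^ finrank K L := by
    rw [← prod_infinitePlace_comap (L := L) (fun v : InfinitePlace K => ⨆ i, v (y i))]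
    refine Finset.prod_congr rfl fun w _ => ?_
    congr 1
  have hne := absNorm_span_range_ne_zero hz0
  have key : mulHeight (fun i => ((z i : 𝓞 L) : L)) * ((Ideal.span (Set.range z)).absNorm : ℝ)
      = mulHeight (fun i => (y i : K)) ^ finrank K L
          * ((Ideal.span (Set.range z)).absNorm : ℝ) := by
    rw [hL, hinf, ← hK, mul_pow, hnorm]
  exact mul_right_cancel₀ hne key

/-- **Degree formula for heights**: for an extension `L/K` of number fields the multiplicative
height of a tuple of elements of `K`, computed in `L`, is the `[L:K]`-th power of its height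
computed in `K`. -/
theorem mulHeight_algebraMap (x : ι → K) :
    mulHeight (fun i => algebraMap K L (x i)) = mulHeight x ^ finrank K L := by
  obtain ⟨b, hb⟩ := IsLocalization.exist_integer_multiples_of_finite (nonZeroDivisors (𝓞 K)) x
  choose y hy using hb
  have hb0 : ((b : 𝓞 K) : K) ≠ 0 := by
    have := nonZeroDivisors.coe_ne_zero b
    exact fun h => this (RingOfIntegers.coe_eq_zero_iff.mp h)
  have hyx : (fun i => (y i : K)) = ((b : 𝓞 K) : K) • x := by
    funext i
    have := hy i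
    simp only [Pi.smul_apply, smul_eq_mul]
    rw [Algebra.smul_def] at this
    exact this
  have hbL : algebraMap K L ((b : 𝓞 K) : K) ≠ 0 := by simp [hb0]
  have hyxL : (fun i => algebraMap K L (y i : K))
      = (algebraMap K L ((b : 𝓞 K) : K)) • (fun i => algebraMap K L (x i)) := by
    funext i
    have := congrFun hyx i
    simp only [Pi.smul_apply, smul_eq_mul] at this ⊢
    rw [this, map_mul]
  have := mulHeight_algebraMap_integral (L := L) y
  rw [hyx, hyxL, mulHeight_smul_eq_mulHeight _ hb0, mulHeight_smul_eq_mulHeight _ hbL] at this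
  exact this

/-- Logarithmic version of the degree formula. -/
theorem logHeight_algebraMap (x : ι → K) :
    logHeight (fun i => algebraMap K L (x i)) = finrank K L * logHeight x := by
  rw [logHeight_eq_log_mulHeight, mulHeight_algebraMap, Real.log_pow, logHeight_eq_log_mulHeight]

end Relative

end Fermat.Agent.S17.H380

end
-- ===== PACK-END S17/H380/AbsRel.lean

-- ===== PACK-BEGIN S17/H860/Cramer.lean
section
/-
helper860 — S17 / tower H — leaf CRAMER (Mathlib-only).

Cramer's rule as a polynomial identity, in the form needed by the global route to (E3)-upper,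
(PART), (VDM), (ADJ) (origin/helper710:coord/S17-H-L1-helper710.md, sec. 3):

* `det_bordered` : Laplace expansion of a bordered determinant over any commutative ring,
    `det [[A, b], [c, d]] = det A * d - ∑ s, det (A.updateRow s c) * b s`.
* `cramer_of_finrank_le` : if `W` is a subspace of `γ → K` of dimension `≤ card κ`, the vectors
    `v s` (`s : κ`) and `w` lie in `W`, then for every choice of columns `T : κ → γ` and every `t`
    `det (v s (T j))_{s j} * w t = ∑ s, det ((v s (T j)).updateRow s (w ∘ T)) * v s t`.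
* `cramer_of_rank_le` : the same for rows `S : κ → ρ` of a matrix `B` with `rank B ≤ card κ`
    and `w` in the row space of `B`.
* adjugate forms of the right-hand side.
-/


namespace Fermat.Agent.S17.H860

open Matrix

section Bordered

variable {R : Type*} {κ : Type*}

/-- The bordered matrix `[[A, b], [c, d]]`, indexed by `κ ⊕ Unit`. -/
def bordered (A : Matrix κ κ R) (b c : κ → R) (d : R) : Matrix (κ ⊕ Unit) (κ ⊕ Unit) R :=
  fromBlocks A (replicateCol Unit b) (replicateRow Unit c) (of fun _ _ => d)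

@[simp] theorem bordered_inl_inl (A : Matrix κ κ R) (b c : κ → R) (d : R) (i j : κ) :
    bordered A b c d (Sum.inl i) (Sum.inl j) = A i j := rfl

@[simp] theorem bordered_inl_inr (A : Matrix κ κ R) (b c : κ → R) (d : R) (i : κ) (u : Unit) :
    bordered A b c d (Sum.inl i) (Sum.inr u) = b i := rfl

@[simp] theorem bordered_inr_inl (A : Matrix κ κ R) (b c : κ → R) (d : R) (u : Unit) (j : κ) :
    bordered A b c d (Sum.inr u) (Sum.inl j) = c j := rfl

@[simp] theorem bordered_inr_inr (A : Matrix κ κ R) (b c : κ → R) (d : R) (u u' : Unit) :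
    bordered A b c d (Sum.inr u) (Sum.inr u') = d := rfl

variable [CommRing R] [Fintype κ] [DecidableEq κ]

/-- `det (A.updateRow s c) = ∑ j, c j * adj(A) j s`. -/
theorem det_updateRow_eq_sum_adjugate (A : Matrix κ κ R) (s : κ) (c : κ → R) :
    (A.updateRow s c).det = ∑ j, c j * A.adjugate j s := by
  rw [det_eq_sum_mul_adjugate_row (A.updateRow s c) s]
  refine Finset.sum_congr rfl fun j _ => ?_
  rw [updateRow_self, adjugate_apply, adjugate_apply, updateRow_idem]

/-- `det (A.updateCol j b) = ∑ s, adj(A) j s * b s`. -/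
theorem det_updateCol_eq_sum_adjugate (A : Matrix κ κ R) (j : κ) (b : κ → R) :
    (A.updateCol j b).det = ∑ s, A.adjugate j s * b s := by
  rw [← cramer_apply, cramer_eq_adjugate_mulVec]
  rfl

/-- The two ways of writing the correction term in a bordered determinant agree. -/
theorem sum_det_updateRow_mul_eq (A : Matrix κ κ R) (b c : κ → R) :
    ∑ s, (A.updateRow s c).det * b s = ∑ j, c j * (A.updateCol j b).det := by
  simp_rw [det_updateRow_eq_sum_adjugate, det_updateCol_eq_sum_adjugate, Finset.sum_mul,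
    Finset.mul_sum]
  rw [Finset.sum_comm]
  refine Finset.sum_congr rfl fun j _ => Finset.sum_congr rfl fun s _ => ?_
  ring

/-- the `(inr, inr)` cofactor of a bordered matrix -/
theorem adjugate_bordered_inr_inr (A : Matrix κ κ R) (b c : κ → R) (d : R) :
    (bordered A b c d).adjugate (Sum.inr ()) (Sum.inr ()) = A.det := by
  rw [adjugate_apply]
  have h : (bordered A b c d).updateRow (Sum.inr ()) (Pi.single (Sum.inr ()) 1) =
      fromBlocks A (replicateCol Unit b) 0 1 := by
    ext i j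
    rcases i with i | i <;> rcases j with j | j <;>
      simp [bordered, updateRow_apply]
  rw [h, det_fromBlocks_zero₂₁, det_one, mul_one]

/-- the `(inl j, inr)` cofactor of a bordered matrix -/
theorem adjugate_bordered_inl_inr (A : Matrix κ κ R) (b c : κ → R) (d : R) (j : κ) :
    (bordered A b c d).adjugate (Sum.inl j) (Sum.inr ()) = - (A.updateCol j b).det := by
  rw [adjugate_apply]
  set M' := (bordered A b c d).updateRow (Sum.inr ()) (Pi.single (Sum.inl j) 1) with hM'
  have hswap : M'.submatrix id (Equiv.swap (Sum.inl j) (Sum.inr ())) =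
      fromBlocks (A.updateCol j b) (replicateCol Unit fun s => A s j) 0 1 := by
    ext r k
    rcases r with r | r <;> rcases k with k | k
    · by_cases hk : k = j
      · subst hk
        simp [M', updateRow_apply]
      · have : Equiv.swap (Sum.inl j) (Sum.inr ()) (Sum.inl k) = (Sum.inl k : κ ⊕ Unit) :=
          Equiv.swap_apply_of_ne_of_ne (by simpa using hk) (by simp)
        simp [M', updateRow_apply, this, hk]
    · simp [M', updateRow_apply]
    · by_cases hk : k = j
      · subst hk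
        simp [M', updateRow_apply]
      · have : Equiv.swap (Sum.inl j) (Sum.inr ()) (Sum.inl k) = (Sum.inl k : κ ⊕ Unit) :=
          Equiv.swap_apply_of_ne_of_ne (by simpa using hk) (by simp)
        simp [M', updateRow_apply, this, hk]
    · simp [M', updateRow_apply]
  have hdet := det_permute' (Equiv.swap (Sum.inl j) (Sum.inr ())) M'
  rw [hswap, det_fromBlocks_zero₂₁, det_one, mul_one,
    Equiv.Perm.sign_swap (by simp : (Sum.inl j : κ ⊕ Unit) ≠ Sum.inr ())] at hdet
  rw [hdet]
  simp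

/-- **Laplace expansion of a bordered determinant** (any commutative ring):
`det [[A, b], [c, d]] = det A * d - ∑ s, det (A.updateRow s c) * b s`. -/
theorem det_bordered (A : Matrix κ κ R) (b c : κ → R) (d : R) :
    (bordered A b c d).det = A.det * d - ∑ s, (A.updateRow s c).det * b s := by
  rw [det_eq_sum_mul_adjugate_row (bordered A b c d) (Sum.inr ()), Fintype.sum_sum_type,
    sum_det_updateRow_mul_eq]
  simp only [Finset.univ_unique, Finset.sum_singleton, bordered_inr_inl, bordered_inr_inr,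
    adjugate_bordered_inl_inr]
  simp only [PUnit.default_eq_unit, adjugate_bordered_inr_inr, mul_neg, Finset.sum_neg_distrib]
  ring

/-- column form of `det_bordered` -/
theorem det_bordered' (A : Matrix κ κ R) (b c : κ → R) (d : R) :
    (bordered A b c d).det = A.det * d - ∑ j, c j * (A.updateCol j b).det := by
  rw [det_bordered, sum_det_updateRow_mul_eq]

/-- adjugate form of `det_bordered` -/
theorem det_bordered_adjugate (A : Matrix κ κ R) (b c : κ → R) (d : R) :
    (bordered A b c d).det = A.det * d - c ⬝ᵥ (A.adjugate *ᵥ b) := by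
  rw [det_bordered']
  simp only [det_updateCol_eq_sum_adjugate, dotProduct, mulVec]

end Bordered

section Field

variable {K : Type*} [Field K] {κ : Type*} [Fintype κ] [DecidableEq κ]

/-- A bordered determinant built from `card κ + 1` vectors of a space of dimension `≤ card κ`
vanishes. -/
theorem det_bordered_eq_zero_of_finrank_le {V : Type*} [AddCommGroup V] [Module K V]
    [Module.Finite K V] (hV : Module.finrank K V ≤ Fintype.card κ)
    (v : κ → V) (w : V) (φ : κ → V →ₗ[K] K) (ψ : V →ₗ[K] K) :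
    (bordered (Matrix.of fun s j => φ j (v s)) (fun s => ψ (v s)) (fun j => φ j w) (ψ w)).det
      = 0 := by
  classical
  apply det_eq_zero_of_not_linearIndependent_rows
  intro hli
  let Φ : V →ₗ[K] (κ ⊕ Unit → K) :=
    LinearMap.pi fun i => Sum.elim (fun j => φ j) (fun _ => ψ) i
  let u : κ ⊕ Unit → V := Sum.elim v fun _ => w
  have hrow : (fun i => bordered (Matrix.of fun s j => φ j (v s)) (fun s => ψ (v s))
      (fun j => φ j w) (ψ w) i) = Φ ∘ u := by
    funext i k
    rcases i with i | i <;> rcases k with k | k <;> rfl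
  rw [hrow] at hli
  have hu : LinearIndependent K u := LinearIndependent.of_comp Φ hli
  have := hu.fintype_card_le_finrank
  simp only [Fintype.card_sum, Fintype.card_unique] at this
  omega

/-- **Cramer's rule as a polynomial identity**, abstract form.  `V` a vector space of dimension
`≤ card κ`, `v s` (`s : κ`) and `w` vectors of `V`, `φ j` (`j : κ`) and `ψ` linear forms. Then
`det (φ j (v s)) * ψ w = ∑ s, det ((φ j (v s)).updateRow s (φ · w)) * ψ (v s)`.
No hypothesis that the `v s` are independent or that the `φ j` are distinct is needed. -/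
theorem cramer_of_finrank_le {V : Type*} [AddCommGroup V] [Module K V]
    [Module.Finite K V] (hV : Module.finrank K V ≤ Fintype.card κ)
    (v : κ → V) (w : V) (φ : κ → V →ₗ[K] K) (ψ : V →ₗ[K] K) :
    (Matrix.of fun s j => φ j (v s)).det * ψ w =
      ∑ s, ((Matrix.of fun s j => φ j (v s)).updateRow s fun j => φ j w).det * ψ (v s) := by
  have h := det_bordered_eq_zero_of_finrank_le hV v w φ ψ
  rw [det_bordered] at h
  exact sub_eq_zero.mp h

/-- adjugate form of `cramer_of_finrank_le` -/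
theorem cramer_adjugate_of_finrank_le {V : Type*} [AddCommGroup V] [Module K V]
    [Module.Finite K V] (hV : Module.finrank K V ≤ Fintype.card κ)
    (v : κ → V) (w : V) (φ : κ → V →ₗ[K] K) (ψ : V →ₗ[K] K) :
    (Matrix.of fun s j => φ j (v s)).det * ψ w =
      ∑ s, ∑ j, φ j w * (Matrix.of fun s j => φ j (v s)).adjugate j s * ψ (v s) := by
  rw [cramer_of_finrank_le hV v w φ ψ]
  refine Finset.sum_congr rfl fun s _ => ?_
  rw [det_updateRow_eq_sum_adjugate, Finset.sum_mul]

variable {γ : Type*}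

/-- **Cramer's rule as a polynomial identity**, coordinate form.  `W` a subspace of `γ → K` of
dimension `≤ card κ`, `v s` (`s : κ`) and `w` vectors of `W`. Then for all `T : κ → γ` (columns)
and every `t : γ`:
`det (v s (T j))_{s j} * w t = ∑ s, det ((v s (T j)).updateRow s (w ∘ T)) * v s t`. -/
theorem cramer_of_mem_submodule (W : Submodule K (γ → K)) [Module.Finite K W]
    (hW : Module.finrank K W ≤ Fintype.card κ)
    (v : κ → γ → K) (hv : ∀ s, v s ∈ W) (w : γ → K) (hw : w ∈ W) (T : κ → γ) (t : γ) :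
    (Matrix.of fun s j => v s (T j)).det * w t =
      ∑ s, ((Matrix.of fun s j => v s (T j)).updateRow s (w ∘ T)).det * v s t :=
  cramer_of_finrank_le hW (fun s => (⟨v s, hv s⟩ : W)) ⟨w, hw⟩
    (fun j => (LinearMap.proj (T j)).comp W.subtype) ((LinearMap.proj t).comp W.subtype)

/-- adjugate form of `cramer_of_mem_submodule` -/
theorem cramer_adjugate_of_mem_submodule (W : Submodule K (γ → K)) [Module.Finite K W]
    (hW : Module.finrank K W ≤ Fintype.card κ)
    (v : κ → γ → K) (hv : ∀ s, v s ∈ W) (w : γ → K) (hw : w ∈ W) (T : κ → γ) (t : γ) :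
    (Matrix.of fun s j => v s (T j)).det * w t =
      ∑ s, ∑ j, w (T j) * (Matrix.of fun s j => v s (T j)).adjugate j s * v s t :=
  cramer_adjugate_of_finrank_le hW (fun s => (⟨v s, hv s⟩ : W)) ⟨w, hw⟩
    (fun j => (LinearMap.proj (T j)).comp W.subtype) ((LinearMap.proj t).comp W.subtype)

variable {ρ : Type*} [Fintype ρ] [Fintype γ]

/-- **Cramer's rule as a polynomial identity**, matrix form.  `B` a matrix of rank `≤ card κ`,
`w` in the row space of `B`.  Then for all `S : κ → ρ` (rows), `T : κ → γ` (columns), `t : γ`: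
`det B_{S,T} * w t = ∑ s, det (B_{S,T}[row s ← w ∘ T]) * B (S s) t`. -/
theorem cramer_of_rank_le (B : Matrix ρ γ K) (hB : B.rank ≤ Fintype.card κ) (w : γ → K)
    (hw : w ∈ Submodule.span K (Set.range B.row)) (S : κ → ρ) (T : κ → γ) (t : γ) :
    (B.submatrix S T).det * w t =
      ∑ s, ((B.submatrix S T).updateRow s (w ∘ T)).det * B (S s) t := by
  have hW : Module.finrank K (Submodule.span K (Set.range B.row)) ≤ Fintype.card κ := by
    rwa [← Matrix.rank_eq_finrank_span_row]
  exact cramer_of_mem_submodule (Submodule.span K (Set.range B.row)) hW (fun s => B (S s))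
    (fun s => Submodule.subset_span ⟨S s, rfl⟩) w hw T t

/-- adjugate form of `cramer_of_rank_le` -/
theorem cramer_adjugate_of_rank_le (B : Matrix ρ γ K) (hB : B.rank ≤ Fintype.card κ) (w : γ → K)
    (hw : w ∈ Submodule.span K (Set.range B.row)) (S : κ → ρ) (T : κ → γ) (t : γ) :
    (B.submatrix S T).det * w t =
      ∑ s, ∑ j, w (T j) * (B.submatrix S T).adjugate j s * B (S s) t := by
  have hW : Module.finrank K (Submodule.span K (Set.range B.row)) ≤ Fintype.card κ := by
    rwa [← Matrix.rank_eq_finrank_span_row]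
  exact cramer_adjugate_of_mem_submodule (Submodule.span K (Set.range B.row)) hW
    (fun s => B (S s)) (fun s => Submodule.subset_span ⟨S s, rfl⟩) w hw T t

end Field

end Fermat.Agent.S17.H860

end
-- ===== PACK-END S17/H860/Cramer.lean

-- ===== PACK-BEGIN Lib/Cheb/Spec.lean
section



/-!
# Shared library CHEB — frozen interface statements

Tier 1 ("FROB", Frobenius' density theorem, qualitative): every `σ ∈ Gal(ℚ̄/ℚ)` generates, on any
finite extension, the same cyclic group as some Frobenius element at a prime outside a given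
finite set.  Needs only the simple pole of Dedekind zeta functions.

Tier 2 (exact qualitative Chebotarev): `σ` itself is a Frobenius.  Needs Dirichlet `L`-series
over number fields (statement `CycStatement`).

All blocks prove one of the `Prop`s below, e.g. `theorem primeSum : Spec.PrimeSumStatement`.
Plan, owners, status: `coord/CHEB.md` on branch `origin/helper993`.
-/

set_option autoImplicit false

open NumberField
open scoped Pointwise

namespace Fermat.Agent.Lib.Cheb.Spec

/-- `ℚ̄`. -/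
abbrev Qb : Type := AlgebraicClosure ℚ

/-- `Gal(ℚ̄/ℚ)`. -/
abbrev GQ : Type := Qb ≃ₐ[ℚ] Qb

/-- Number of prime ideals of `𝓞 F` of absolute norm `p` (the degree-one primes above `p`). -/
noncomputable def primeCount (F : Type) [Field F] [NumberField F] (p : ℕ) : ℕ :=
  Nat.card {𝔮 : Ideal (𝓞 F) // 𝔮.IsPrime ∧ Ideal.absNorm 𝔮 = p}

/-- The decomposition group of a prime `P` of `𝓞 L` in `Gal(L/ℚ)`. -/
abbrev decomp (L : Type) [Field L] [NumberField L] (P : Ideal (𝓞 L)) :
    Subgroup (L ≃ₐ[ℚ] L) :=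
  MulAction.stabilizer (L ≃ₐ[ℚ] L) P

/-- The primes `P` of `𝓞 L` above `p` whose decomposition group is contained in `H`. -/
def primesLe (L : Type) [Field L] [NumberField L] (H : Subgroup (L ≃ₐ[ℚ] L)) (p : ℕ) :
    Set (Ideal (𝓞 L)) :=
  {P | P.IsPrime ∧ (p : 𝓞 L) ∈ P ∧ decomp L P ≤ H}

/-- `∑_{P ∣ p, D_P ≤ H} |D_P|`. -/
noncomputable def decompWeight (L : Type) [Field L] [NumberField L]
    (H : Subgroup (L ≃ₐ[ℚ] L)) (p : ℕ) : ℕ :=
  ∑ᶠ P : primesLe L H p, Nat.card (decomp L P.1)

/-- The inertia group of `P` is trivial. -/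
def InertiaTrivial (L : Type) [Field L] [NumberField L] (P : Ideal (𝓞 L)) : Prop :=
  ∀ ι : L ≃ₐ[ℚ] L, (∀ x : 𝓞 L, ι • x - x ∈ P) → ι = 1

/-! ## Tier 1 -/

/-- (Z) = F1 = W1: prime sums of degree-one primes, any number field. -/
def PrimeSumStatement : Prop :=
  ∀ (F : Type) [Field F] [NumberField F], ∃ C : ℝ, ∀ s : ℝ, 1 < s → s ≤ 2 →
    |(∑' p : Nat.Primes, (primeCount F p : ℝ) * (p : ℝ) ^ (-s)) - Real.log (1 / (s - 1))| ≤ C

/-- (B0): at most `[F:ℚ]` primes of norm `p`. -/
def PrimeCountBoundStatement : Prop :=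
  ∀ (F : Type) [Field F] [NumberField F] (p : ℕ), primeCount F p ≤ Module.finrank ℚ F

/-- (A) = F2+F3: degree-one primes of the fixed field `L^H` versus decomposition groups. -/
def CountStatement : Prop :=
  ∀ (L : Type) [Field L] [NumberField L] [IsGalois ℚ L] (H : Subgroup (L ≃ₐ[ℚ] L)),
    ∃ B : Finset ℕ, ∀ p : ℕ, p.Prime → p ∉ B →
      primeCount (IntermediateField.fixedField H) p * Nat.card H = decompWeight L H p

/-- (D) = F5: outside a finite set of primes the decomposition group is generated by an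
arithmetic Frobenius and the inertia group is trivial. -/
def FrobStatement : Prop :=
  ∀ (L : Type) [Field L] [NumberField L] [IsGalois ℚ L],
    ∃ B : Finset ℕ, ∀ p : ℕ, p.Prime → p ∉ B →
      ∀ P : Ideal (𝓞 L), P.IsPrime → (p : 𝓞 L) ∈ P →
        InertiaTrivial L P ∧
        ∃ τ : L ≃ₐ[ℚ] L, IsArithFrobAt ℤ τ P ∧ decomp L P = Subgroup.zpowers τ

/-- (M) = F4: finite-level Frobenius density theorem (qualitative). -/
def FrobFiniteStatement : Prop :=
  ∀ (L : Type) [Field L] [NumberField L] [IsGalois ℚ L] (σ : L ≃ₐ[ℚ] L) (S : Finset ℕ),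
    ∃ (p : ℕ) (P : Ideal (𝓞 L)) (τ : L ≃ₐ[ℚ] L),
      p.Prime ∧ p ∉ S ∧ P.IsPrime ∧ (p : 𝓞 L) ∈ P ∧ InertiaTrivial L P ∧
      IsArithFrobAt ℤ τ P ∧ Subgroup.zpowers τ = Subgroup.zpowers σ

/-- FROB, Prelude level: on every finite extension `E` of `ℚ` inside `ℚ̄`, `σ` and some Frobenius
element `τ` (at a prime `ℓ ∉ S`, with inertia acting trivially on `E`) are powers of each other. -/
def FrobeniusDivisionStatement : Prop :=
  ∀ (E : IntermediateField ℚ Qb), FiniteDimensional ℚ E → ∀ (σ : GQ) (S : Finset ℕ),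
    ∃ (ℓ : ℕ) (A : ValuationSubring Qb) (τ : GQ) (k j : ℕ),
      ℓ.Prime ∧ ℓ ∉ S ∧ A.LiesOverPrime ℓ ∧ A.IsFrobeniusAt τ ℓ ∧
      (∀ ι ∈ A.inertiaSubgroupIn ℚ, ∀ x ∈ E, ι x = x) ∧
      (∀ x ∈ E, τ x = (σ ^ k) x) ∧ (∀ x ∈ E, (τ ^ j) x = σ x)

/-- F6 = W5 (bridge), Tier 1. -/
def BridgeDivisionStatement : Prop :=
  FrobFiniteStatement → FrobeniusDivisionStatement

/-! ## Tier 2 -/

/-- Number of ideals of `𝓞 F` of absolute norm `n`. -/
noncomputable def idealCount (F : Type) [Field F] [NumberField F] (n : ℕ) : ℕ :=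
  Nat.card {I : Ideal (𝓞 F) // Ideal.absNorm I = n}

/-- (AN) analytic core of Tier 2: for a Dirichlet character `χ` mod `m` such that `χ ∘ N` is not
trivial on the ideals of `𝓞 F` prime to `m`, the series `L_F(s, χ ∘ N) = ∑_I χ(N I) N I ^ (-s)`
has a limit as `s → 1⁺`. -/
def DirichletLimitStatement : Prop :=
  ∀ (F : Type) [Field F] [NumberField F] (m : ℕ) [NeZero m] (χ : DirichletCharacter ℂ m),
    (∃ I : Ideal (𝓞 F), χ (Ideal.absNorm I : ZMod m) ≠ 0 ∧ χ (Ideal.absNorm I : ZMod m) ≠ 1) →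
    ∃ c : ℂ, Filter.Tendsto
      (fun s : ℝ => LSeries (fun n => χ (n : ZMod m) * (idealCount F n : ℂ)) (s : ℂ))
      (nhdsWithin 1 (Set.Ioi 1)) (nhds c)

/-- (CYC) cyclotomic case, stated inside a Galois number field `L ∋ ζ_m`: if the cyclic group
`⟨g⟩` acts faithfully on `ζ`, then `g` is an arithmetic Frobenius at a prime outside `S`. -/
def CycStatement : Prop :=
  ∀ (L : Type) [Field L] [NumberField L] [IsGalois ℚ L] (m : ℕ) (ζ : L), 0 < m →
    IsPrimitiveRoot ζ m → ∀ g : L ≃ₐ[ℚ] L, (∀ k : ℕ, (g ^ k) ζ = ζ → g ^ k = 1) →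
    ∀ S : Finset ℕ, ∃ (p : ℕ) (P : Ideal (𝓞 L)),
      p.Prime ∧ p ∉ S ∧ P.IsPrime ∧ (p : 𝓞 L) ∈ P ∧ InertiaTrivial L P ∧ IsArithFrobAt ℤ g P

/-- Finite-level qualitative Chebotarev. -/
def ChebFiniteStatement : Prop :=
  ∀ (L : Type) [Field L] [NumberField L] [IsGalois ℚ L] (σ : L ≃ₐ[ℚ] L) (S : Finset ℕ),
    ∃ (p : ℕ) (P : Ideal (𝓞 L)),
      p.Prime ∧ p ∉ S ∧ P.IsPrime ∧ (p : 𝓞 L) ∈ P ∧ InertiaTrivial L P ∧ IsArithFrobAt ℤ σ P

/-- (CROSS) field crossing (may use (D) to discard ramified primes). -/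
def CrossStatement : Prop :=
  FrobStatement → CycStatement → ChebFiniteStatement

/-- Qualitative Chebotarev, Prelude level. -/
def ChebotarevStatement : Prop :=
  ∀ (E : IntermediateField ℚ Qb), FiniteDimensional ℚ E → ∀ (σ : GQ) (S : Finset ℕ),
    ∃ (ℓ : ℕ) (A : ValuationSubring Qb) (τ : GQ),
      ℓ.Prime ∧ ℓ ∉ S ∧ A.LiesOverPrime ℓ ∧ A.IsFrobeniusAt τ ℓ ∧
      (∀ ι ∈ A.inertiaSubgroupIn ℚ, ∀ x ∈ E, ι x = x) ∧ (∀ x ∈ E, τ x = σ x)

/-- Bridge, Tier 2. -/
def BridgeStatement : Prop :=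
  ChebFiniteStatement → ChebotarevStatement

end Fermat.Agent.Lib.Cheb.Spec

end
-- ===== PACK-END Lib/Cheb/Spec.lean

-- ===== PACK-BEGIN Lib/Cheb/H761/Sieve.lean
section


/-!
# Euler products over the prime ideals of a Dedekind domain, sieve form

Let `R` be a Dedekind domain and `f : Ideal R → 𝕜` a summable, completely multiplicative function
(`f (I * J) = f I * f J`, `f ⊤ = 1`).  For a set `S` of nonzero primes let `sieveSet S` be the set
of nonzero ideals divisible by no prime of `S`.  Then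

* `tsum_sieve_finset` : `∑_{I ∈ sieveSet T} f I = ∏_{𝔭 ∈ T} (1 - f 𝔭) * ∑_{I ≠ 0} f I`
  for every finite set `T` of primes;
* `tendsto_tsum_sieve` : `∑_{I ∈ sieveSet T} f I → 1` along `T → all primes`;
* `tendsto_prod_one_sub` : `∏_{𝔭 ∈ T} (1 - f 𝔭) → (∑_{I ≠ 0} f I)⁻¹`, and `∑_{I ≠ 0} f I ≠ 0`.
-/

set_option autoImplicit false

namespace Fermat.Agent.Lib.Cheb.H761

open IsDedekindDomain Filter Topology

section Sieve

set_option linter.unusedSectionVars false

variable {R : Type*} [CommRing R] [IsDedekindDomain R]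

/-- nonzero ideals not divisible by any prime of `S` -/
def sieveSet (S : Set (HeightOneSpectrum R)) : Set (Ideal R) :=
  {I | I ≠ ⊥ ∧ ∀ 𝔭 ∈ S, ¬ I ≤ 𝔭.asIdeal}

lemma mem_sieveSet {S : Set (HeightOneSpectrum R)} {I : Ideal R} :
    I ∈ sieveSet S ↔ I ≠ ⊥ ∧ ∀ 𝔭 ∈ S, ¬ I ≤ 𝔭.asIdeal := Iff.rfl

lemma mem_sieveSet_empty {I : Ideal R} :
    I ∈ sieveSet (∅ : Set (HeightOneSpectrum R)) ↔ I ≠ ⊥ := by
  simp [sieveSet]

lemma top_mem_sieveSet (S : Set (HeightOneSpectrum R)) : (⊤ : Ideal R) ∈ sieveSet S := by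
  refine ⟨top_ne_bot, fun 𝔭 _ h => ?_⟩
  exact 𝔭.isPrime.ne_top (top_le_iff.mp h)

lemma sieveSet_anti {S T : Set (HeightOneSpectrum R)} (h : S ⊆ T) : sieveSet T ⊆ sieveSet S :=
  fun _ hI => ⟨hI.1, fun 𝔭 h𝔭 => hI.2 𝔭 (h h𝔭)⟩

lemma mul_mem_sieveSet {S : Set (HeightOneSpectrum R)} {𝔭 : HeightOneSpectrum R} (h𝔭 : 𝔭 ∉ S)
    {J : Ideal R} (hJ : J ∈ sieveSet S) : 𝔭.asIdeal * J ∈ sieveSet S := by
  refine ⟨?_, fun 𝔮 h𝔮 hle => ?_⟩
  · rw [← Ideal.zero_eq_bot]
    exact mul_ne_zero (by rw [Ideal.zero_eq_bot]; exact 𝔭.ne_bot)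
      (by rw [Ideal.zero_eq_bot]; exact hJ.1)
  · rcases 𝔮.isPrime.mul_le.mp hle with h | h
    · have : 𝔭 = 𝔮 := by
        apply HeightOneSpectrum.ext
        exact (𝔭.isMaximal.eq_of_le 𝔮.isPrime.ne_top h)
      exact h𝔭 (this ▸ h𝔮)
    · exact hJ.2 𝔮 h𝔮 h

lemma sieveSet_eq_union (S : Set (HeightOneSpectrum R)) {𝔭 : HeightOneSpectrum R} (h𝔭 : 𝔭 ∉ S) :
    sieveSet S = sieveSet (insert 𝔭 S) ∪ (fun I => 𝔭.asIdeal * I) '' sieveSet S := by
  ext I
  constructor
  · intro hI
    by_cases hle : I ≤ 𝔭.asIdeal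
    · right
      obtain ⟨J, rfl⟩ := Ideal.dvd_iff_le.mpr hle
      refine ⟨J, ⟨?_, fun 𝔮 h𝔮 hJ => ?_⟩, rfl⟩
      · rintro rfl
        exact hI.1 (by simp)
      · exact hI.2 𝔮 h𝔮 (Ideal.mul_le_right.trans hJ)
    · left
      refine ⟨hI.1, fun 𝔮 h𝔮 => ?_⟩
      rcases Set.mem_insert_iff.mp h𝔮 with rfl | h
      · exact hle
      · exact hI.2 𝔮 h
  · rintro (hI | ⟨J, hJ, rfl⟩)
    · exact sieveSet_anti (Set.subset_insert _ _) hI
    · exact mul_mem_sieveSet h𝔭 hJ

lemma disjoint_sieveSet_image (S : Set (HeightOneSpectrum R)) (𝔭 : HeightOneSpectrum R) :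
    Disjoint (sieveSet (insert 𝔭 S)) ((fun I => 𝔭.asIdeal * I) '' sieveSet S) := by
  rw [Set.disjoint_left]
  rintro I hI ⟨J, -, rfl⟩
  exact hI.2 𝔭 (Set.mem_insert _ _) (show 𝔭.asIdeal * J ≤ 𝔭.asIdeal from Ideal.mul_le_left)

lemma injOn_mul (S : Set (HeightOneSpectrum R)) (𝔭 : HeightOneSpectrum R) :
    Set.InjOn (fun I => 𝔭.asIdeal * I) (sieveSet S) := by
  intro I _ J _ h
  have h0 : 𝔭.asIdeal ≠ 0 := by rw [Ideal.zero_eq_bot]; exact 𝔭.ne_bot
  exact mul_left_cancel₀ h0 h

variable {𝕜 : Type*} [NormedField 𝕜] [CompleteSpace 𝕜] {f : Ideal R → 𝕜}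

/-- One sieve step. -/
theorem tsum_sieve_insert (hf : Summable f) (hmul : ∀ I J, f (I * J) = f I * f J)
    (S : Set (HeightOneSpectrum R)) {𝔭 : HeightOneSpectrum R} (h𝔭 : 𝔭 ∉ S) :
    ∑' I : sieveSet (insert 𝔭 S), f I = (1 - f 𝔭.asIdeal) * ∑' I : sieveSet S, f I := by
  have h1 : ∑' I : sieveSet S, f I =
      ∑' I : ↥(sieveSet (insert 𝔭 S) ∪ (fun I => 𝔭.asIdeal * I) '' sieveSet S), f I :=
    tsum_congr_set_coe f (sieveSet_eq_union S h𝔭)
  rw [(hf.subtype _).tsum_union_disjoint (disjoint_sieveSet_image S 𝔭) (hf.subtype _),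
    tsum_image f (injOn_mul S 𝔭)] at h1
  simp only [hmul] at h1
  rw [tsum_mul_left] at h1
  linear_combination -h1

/-- Finitely many sieve steps. -/
theorem tsum_sieve_finset (hf : Summable f) (hmul : ∀ I J, f (I * J) = f I * f J)
    (T : Finset (HeightOneSpectrum R)) :
    ∑' I : sieveSet (T : Set (HeightOneSpectrum R)), f I =
      (∏ 𝔭 ∈ T, (1 - f 𝔭.asIdeal)) * ∑' I : sieveSet (∅ : Set (HeightOneSpectrum R)), f I := by
  classical
  induction T using Finset.induction_on with
  | empty =>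
    rw [Finset.prod_empty, one_mul]
    exact tsum_congr_set_coe f (by rw [Finset.coe_empty])
  | insert 𝔭 T h𝔭 ih =>
    rw [Finset.coe_insert, tsum_sieve_insert hf hmul _ (by simpa using h𝔭), ih,
      Finset.prod_insert h𝔭, mul_assoc]

/-- Every nonzero proper ideal is contained in a nonzero prime. -/
lemma exists_le_heightOneSpectrum {I : Ideal R} (h0 : I ≠ ⊥) (h1 : I ≠ ⊤) :
    ∃ 𝔭 : HeightOneSpectrum R, I ≤ 𝔭.asIdeal := by
  obtain ⟨M, hM, hle⟩ := Ideal.exists_le_maximal I h1
  refine ⟨⟨M, hM.isPrime, ?_⟩, hle⟩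
  rintro rfl
  exact h0 (le_bot_iff.mp hle)

/-- The sieved sums tend to `1`. -/
theorem tendsto_tsum_sieve (hf : Summable f) (h1 : f ⊤ = 1) :
    Tendsto (fun T : Finset (HeightOneSpectrum R) =>
      ∑' I : sieveSet (T : Set (HeightOneSpectrum R)), f I) atTop (𝓝 1) := by
  classical
  rw [tendsto_nhds]
  intro e he_open he1
  have he0 : (fun x : 𝕜 => 1 + x) ⁻¹' e ∈ 𝓝 (0 : 𝕜) := by
    apply (continuous_const.add continuous_id).continuousAt.preimage_mem_nhds
    simpa using he_open.mem_nhds he1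
  obtain ⟨A, hA⟩ := hf.tsum_vanishing he0
  -- a prime above each nonzero proper ideal of `A`
  let g : Ideal R → Finset (HeightOneSpectrum R) := fun I =>
    if h : I ≠ ⊥ ∧ I ≠ ⊤ then {(exists_le_heightOneSpectrum h.1 h.2).choose} else ∅
  have hg : ∀ I, I ≠ ⊥ → I ≠ ⊤ → ∃ 𝔭 ∈ g I, I ≤ 𝔭.asIdeal := by
    intro I h0 h1
    refine ⟨(exists_le_heightOneSpectrum h0 h1).choose, ?_,
      (exists_le_heightOneSpectrum h0 h1).choose_spec⟩
    simp only [g, dif_pos (And.intro h0 h1), Finset.mem_singleton]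
  rw [Filter.mem_atTop_sets]
  refine ⟨A.biUnion g, fun T hT => ?_⟩
  rw [Set.mem_preimage]
  -- split off the unit ideal
  have hsplit : sieveSet (T : Set (HeightOneSpectrum R)) =
      {⊤} ∪ (sieveSet (T : Set (HeightOneSpectrum R)) \ {⊤}) := by
    rw [Set.union_sdiff_self, Set.union_eq_self_of_subset_left]
    exact Set.singleton_subset_iff.mpr (top_mem_sieveSet _)
  have hdisj : Disjoint ({⊤} : Set (Ideal R))
      (sieveSet (T : Set (HeightOneSpectrum R)) \ {⊤}) := Set.disjoint_sdiff_right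
  have hsum : ∑' I : sieveSet (T : Set (HeightOneSpectrum R)), f I =
      1 + ∑' I : ↥(sieveSet (T : Set (HeightOneSpectrum R)) \ {⊤}), f I := by
    rw [tsum_congr_set_coe f hsplit,
      (hf.subtype _).tsum_union_disjoint hdisj (hf.subtype _), tsum_singleton (⊤ : Ideal R) f, h1]
  rw [hsum]
  apply hA
  rw [Set.disjoint_left]
  rintro I ⟨hI, hItop⟩ hIA
  obtain ⟨𝔭, h𝔭, hle⟩ := hg I hI.1 (by simpa using hItop)
  exact hI.2 𝔭 (Finset.mem_coe.mpr (hT (Finset.mem_biUnion.mpr ⟨I, hIA, h𝔭⟩))) hle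

/-- The sum over all nonzero ideals is nonzero. -/
theorem tsum_sieve_empty_ne_zero (hf : Summable f) (hmul : ∀ I J, f (I * J) = f I * f J)
    (h1 : f ⊤ = 1) : ∑' I : sieveSet (∅ : Set (HeightOneSpectrum R)), f I ≠ 0 := by
  intro h0
  have h := tendsto_tsum_sieve hf h1
  simp only [tsum_sieve_finset hf hmul, h0, mul_zero] at h
  exact zero_ne_one (tendsto_nhds_unique tendsto_const_nhds h)

/-- **Euler product**: the finite products `∏_{𝔭 ∈ T} (1 - f 𝔭)` tend to the inverse of the sum of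
`f` over all nonzero ideals. -/
theorem tendsto_prod_one_sub (hf : Summable f) (hmul : ∀ I J, f (I * J) = f I * f J)
    (h1 : f ⊤ = 1) :
    Tendsto (fun T : Finset (HeightOneSpectrum R) => ∏ 𝔭 ∈ T, (1 - f 𝔭.asIdeal)) atTop
      (𝓝 (∑' I : sieveSet (∅ : Set (HeightOneSpectrum R)), f I)⁻¹) := by
  have hZ := tsum_sieve_empty_ne_zero hf hmul h1
  have h := (tendsto_tsum_sieve hf h1).mul_const
    (∑' I : sieveSet (∅ : Set (HeightOneSpectrum R)), f I)⁻¹
  simp only [tsum_sieve_finset hf hmul, one_mul] at h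
  refine h.congr fun T => ?_
  rw [mul_assoc, mul_inv_cancel₀ hZ, mul_one]

/-- **Euler product**, `HasProd` form. -/
theorem hasProd_one_sub (hf : Summable f) (hmul : ∀ I J, f (I * J) = f I * f J)
    (h1 : f ⊤ = 1) :
    HasProd (fun 𝔭 : HeightOneSpectrum R => 1 - f 𝔭.asIdeal)
      (∑' I : sieveSet (∅ : Set (HeightOneSpectrum R)), f I)⁻¹ := by
  simpa [HasProd] using tendsto_prod_one_sub hf hmul h1

end Sieve

end Fermat.Agent.Lib.Cheb.H761

end
-- ===== PACK-END Lib/Cheb/H761/Sieve.lean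

-- ===== PACK-BEGIN Lib/Cheb/H993/LogAsymp.lean
section


/-!
# `f = a · log (1/(s-1)) + O(1)` on `(1, 2]`, and prime Dirichlet sums

Small calculus used by the glue piece `M` of the shared library CHEB.
-/

set_option autoImplicit false

namespace Fermat.Agent.Lib.Cheb.H993

noncomputable section

/-- The main term `log (1 / (s - 1))`. -/
def ell (s : ℝ) : ℝ := Real.log (1 / (s - 1))

/-- `f = a · ell + O(1)` on `(1, 2]`. -/
def LogAsymp (f : ℝ → ℝ) (a : ℝ) : Prop :=
  ∃ C : ℝ, ∀ s : ℝ, 1 < s → s ≤ 2 → |f s - a * ell s| ≤ C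

theorem LogAsymp.congr {f g : ℝ → ℝ} {a : ℝ} (hf : LogAsymp f a)
    (h : ∀ s : ℝ, 1 < s → s ≤ 2 → g s = f s) : LogAsymp g a := by
  obtain ⟨C, hC⟩ := hf
  exact ⟨C, fun s h1 h2 => by rw [h s h1 h2]; exact hC s h1 h2⟩

theorem LogAsymp.add {f g : ℝ → ℝ} {a b : ℝ} (hf : LogAsymp f a) (hg : LogAsymp g b) :
    LogAsymp (fun s => f s + g s) (a + b) := by
  obtain ⟨C, hC⟩ := hf
  obtain ⟨D, hD⟩ := hg
  refine ⟨C + D, fun s h1 h2 => ?_⟩
  have e : f s + g s - (a + b) * ell s = (f s - a * ell s) + (g s - b * ell s) := by ring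
  rw [e]
  exact (abs_add_le _ _).trans (add_le_add (hC s h1 h2) (hD s h1 h2))

theorem LogAsymp.sub {f g : ℝ → ℝ} {a b : ℝ} (hf : LogAsymp f a) (hg : LogAsymp g b) :
    LogAsymp (fun s => f s - g s) (a - b) := by
  obtain ⟨C, hC⟩ := hf
  obtain ⟨D, hD⟩ := hg
  refine ⟨C + D, fun s h1 h2 => ?_⟩
  have e : f s - g s - (a - b) * ell s = (f s - a * ell s) - (g s - b * ell s) := by ring
  rw [e]
  exact (abs_sub _ _).trans (add_le_add (hC s h1 h2) (hD s h1 h2))

theorem LogAsymp.const_mul {f : ℝ → ℝ} {a : ℝ} (c : ℝ) (hf : LogAsymp f a) :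
    LogAsymp (fun s => c * f s) (c * a) := by
  obtain ⟨C, hC⟩ := hf
  refine ⟨|c| * C, fun s h1 h2 => ?_⟩
  have e : c * f s - c * a * ell s = c * (f s - a * ell s) := by ring
  rw [e, abs_mul]
  exact mul_le_mul_of_nonneg_left (hC s h1 h2) (abs_nonneg c)

theorem LogAsymp.zero_of_bounded {f : ℝ → ℝ} {K : ℝ}
    (h : ∀ s : ℝ, 1 < s → s ≤ 2 → |f s| ≤ K) : LogAsymp f 0 :=
  ⟨K, fun s h1 h2 => by simpa using h s h1 h2⟩

theorem LogAsymp.sum {ι : Type*} (t : Finset ι) {f : ι → ℝ → ℝ} {a : ι → ℝ}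
    (h : ∀ i ∈ t, LogAsymp (f i) (a i)) :
    LogAsymp (fun s => ∑ i ∈ t, f i s) (∑ i ∈ t, a i) := by
  classical
  induction t using Finset.induction_on with
  | empty =>
    exact ⟨0, fun s _ _ => by simp⟩
  | insert i t hi ih =>
    have h1 := h i (Finset.mem_insert_self i t)
    have h2 := ih (fun j hj => h j (Finset.mem_insert_of_mem hj))
    have h3 := h1.add h2
    rw [Finset.sum_insert hi]
    exact h3.congr (fun s _ _ => Finset.sum_insert hi)

/-- `ell` is unbounded above on `(1, 2]`. -/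
theorem exists_ell_gt (M : ℝ) : ∃ s : ℝ, 1 < s ∧ s ≤ 2 ∧ M < ell s := by
  refine ⟨1 + Real.exp (-(|M| + 1)), ?_, ?_, ?_⟩
  · have := Real.exp_pos (-(|M| + 1)); linarith
  · have h : Real.exp (-(|M| + 1)) ≤ 1 := by
      rw [Real.exp_le_one_iff]; have := abs_nonneg M; linarith
    linarith
  · unfold ell
    have e : (1 + Real.exp (-(|M| + 1)) - 1) = Real.exp (-(|M| + 1)) := by ring
    rw [e, one_div, ← Real.exp_neg, Real.log_exp]
    have := le_abs_self M
    linarith

/-- If `f = a · ell + O(1)` with `a > 0` then `f` takes arbitrarily large values. -/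
theorem LogAsymp.exists_gt {f : ℝ → ℝ} {a : ℝ} (hf : LogAsymp f a) (ha : 0 < a) (M : ℝ) :
    ∃ s : ℝ, 1 < s ∧ s ≤ 2 ∧ M < f s := by
  obtain ⟨C, hC⟩ := hf
  obtain ⟨s, h1, h2, hs⟩ := exists_ell_gt ((M + C) / a)
  refine ⟨s, h1, h2, ?_⟩
  have := (abs_le.mp (hC s h1 h2)).1
  have h3 : M + C < a * ell s := by
    rw [div_lt_iff₀ ha] at hs
    linarith
  linarith

/-- The prime Dirichlet sum `∑_p a(p) p^{-s}`. -/
def pSum (a : ℕ → ℝ) (s : ℝ) : ℝ := ∑' p : Nat.Primes, a p * ((p : ℕ) : ℝ) ^ (-s)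

theorem summable_pSum {a : ℕ → ℝ} {K : ℝ} (h0 : ∀ p, 0 ≤ a p) (hK : ∀ p, a p ≤ K)
    {s : ℝ} (hs : 1 < s) : Summable (fun p : Nat.Primes => a p * ((p : ℕ) : ℝ) ^ (-s)) := by
  have hsum : Summable (fun p : Nat.Primes => K * ((p : ℕ) : ℝ) ^ (-s)) :=
    (Nat.Primes.summable_rpow.mpr (by linarith)).mul_left K
  refine Summable.of_nonneg_of_le (fun p => ?_) (fun p => ?_) hsum
  · exact mul_nonneg (h0 p) (Real.rpow_nonneg (Nat.cast_nonneg _) _)
  · exact mul_le_mul_of_nonneg_right (hK p) (Real.rpow_nonneg (Nat.cast_nonneg _) _)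

theorem pSum_nonneg {a : ℕ → ℝ} (h0 : ∀ p, 0 ≤ a p) (s : ℝ) : 0 ≤ pSum a s :=
  tsum_nonneg fun p => mul_nonneg (h0 p) (Real.rpow_nonneg (Nat.cast_nonneg _) _)

theorem pSum_finset_sum {ι : Type*} (t : Finset ι) {a : ι → ℕ → ℝ} {K : ℝ}
    (h0 : ∀ i p, 0 ≤ a i p) (hK : ∀ i p, a i p ≤ K) {s : ℝ} (hs : 1 < s) :
    pSum (fun p => ∑ i ∈ t, a i p) s = ∑ i ∈ t, pSum (a i) s := by
  unfold pSum
  rw [← Summable.tsum_finsetSum (fun i _ => summable_pSum (h0 i) (hK i) hs)]
  congr 1
  funext p
  rw [Finset.sum_mul]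

/-- A prime sum supported on a finite set of primes is bounded. -/
theorem abs_pSum_le_of_support {a : ℕ → ℝ} {K : ℝ} (B : Finset ℕ) (h0 : ∀ p, 0 ≤ a p)
    (hK : ∀ p, a p ≤ K) (hB : ∀ p, p ∉ B → a p = 0) {s : ℝ} (hs : 1 < s) :
    |pSum a s| ≤ K * B.card := by
  have hK0 : 0 ≤ K := (h0 0).trans (hK 0)
  rw [abs_of_nonneg (pSum_nonneg h0 s)]
  unfold pSum
  -- compare with the finite sum over `B`
  let T : Finset Nat.Primes := (B.filter Nat.Prime).attach.map
    ⟨fun p => ⟨p.1, (Finset.mem_filter.mp p.2).2⟩, fun p q h => by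
      apply Subtype.ext; simpa using congrArg Subtype.val h⟩
  have hT : ∀ p : Nat.Primes, p ∉ T → a p * ((p : ℕ) : ℝ) ^ (-s) = 0 := by
    intro p hp
    have : (p : ℕ) ∉ B := by
      intro hpB
      apply hp
      simp only [T, Finset.mem_map, Finset.mem_attach, true_and]
      exact ⟨⟨p.1, Finset.mem_filter.mpr ⟨hpB, p.2⟩⟩, rfl⟩
    rw [hB _ this, zero_mul]
  rw [tsum_eq_sum hT]
  have hcard : T.card ≤ B.card := by
    simp only [T, Finset.card_map, Finset.card_attach]
    exact Finset.card_filter_le _ _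
  calc ∑ p ∈ T, a p * ((p : ℕ) : ℝ) ^ (-s) ≤ ∑ _p ∈ T, K := by
        refine Finset.sum_le_sum fun p _ => ?_
        have h1 : ((p : ℕ) : ℝ) ^ (-s) ≤ 1 := by
          apply Real.rpow_le_one_of_one_le_of_nonpos
          · exact_mod_cast p.2.one_lt.le
          · linarith
        calc a p * ((p : ℕ) : ℝ) ^ (-s) ≤ K * 1 :=
              mul_le_mul (hK p) h1 (Real.rpow_nonneg (Nat.cast_nonneg _) _) hK0
          _ = K := mul_one K
    _ = K * T.card := by rw [Finset.sum_const, nsmul_eq_mul, mul_comm]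
    _ ≤ K * B.card := by
        apply mul_le_mul_of_nonneg_left _ hK0
        exact_mod_cast hcard

end

end Fermat.Agent.Lib.Cheb.H993

end
-- ===== PACK-END Lib/Cheb/H993/LogAsymp.lean

-- ===== PACK-BEGIN S37/Red/H759/Directed.lean
section
/-
S37-RED, piece E4(c) "passage R_E → A", generic part (helper759).  Mathlib-only.

Closure operators commute with DIRECTED unions.  `Ω` a field, `κ : ι → Set Ω` a directed family
of sets (in the application: the images of the residue fields `κ_E` of the number fields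
`E ⊆ Q̄`, or of the rings `A ∩ E`), `k0 ⊆ ⋃ κ i`, `S` a set of generators.

* `exists_mem_subring_closure`  : `c ∈ Subring.closure (k0 ∪ S)`  ⟹ `∃ i, c ∈ Subring.closure (κ i ∪ S)`
* `exists_mem_subfield_closure` : `c ∈ Subfield.closure (k0 ∪ S)` ⟹ `∃ i, c ∈ Subfield.closure (κ i ∪ S)`
* `exists_isIntegral`           : `c` integral over `Subring.closure (k0 ∪ S)` ⟹
                                  `∃ i, c` integral over `Subring.closure (κ i ∪ S)`
* `exists_level`                : all three at once, for a common index `i`, which can moreover be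
                                  chosen above any given index.
* `isIntegral_subring_iff`      : normal form of integrality over a subring of `Ω`
                                  (monic polynomial over `Ω` with coefficients in the subring).
-/


set_option autoImplicit false

namespace Fermat.Agent.S37.Red.H759

open Polynomial

section NormalForm

variable {Ω : Type*} [CommRing Ω]

/-- Integrality over a subring `B ⊆ Ω`: normal form with a polynomial over `Ω`. -/
theorem isIntegral_subring_iff (B : Subring Ω) (c : Ω) :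
    IsIntegral B c ↔
      ∃ P : Polynomial Ω, P.Monic ∧ (∀ i, P.coeff i ∈ B) ∧ P.eval c = 0 := by
  constructor
  · rintro ⟨p, hp, hpc⟩
    refine ⟨p.map B.subtype, hp.map _, fun i => ?_, ?_⟩
    · rw [coeff_map]; exact (p.coeff i).2
    · rw [eval_map]; exact hpc
  · rintro ⟨P, hP, hcoeff, hPc⟩
    have hlift : P ∈ Polynomial.lifts B.subtype := by
      rw [Polynomial.lifts_iff_coeff_lifts]
      intro n
      exact ⟨⟨P.coeff n, hcoeff n⟩, rfl⟩
    obtain ⟨q, hq, -, hqm⟩ := Polynomial.lifts_and_natDegree_eq_and_monic hlift hP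
    refine ⟨q, hqm, ?_⟩
    have : eval₂ (algebraMap B Ω) c q = (q.map B.subtype).eval c := by
      rw [eval_map]; rfl
    rw [this, hq, hPc]

/-- Integrality is monotone in the subring. -/
theorem isIntegral_subring_mono {B C : Subring Ω} (h : B ≤ C) {c : Ω} (hc : IsIntegral B c) :
    IsIntegral C c := by
  rw [isIntegral_subring_iff] at hc ⊢
  obtain ⟨P, hP, hcoeff, hPc⟩ := hc
  exact ⟨P, hP, fun i => h (hcoeff i), hPc⟩

/-- Integrality over a subalgebra is integrality over the underlying subring. -/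
theorem isIntegral_subalgebra_iff {k : Type*} [CommRing k] [Algebra k Ω] (B : Subalgebra k Ω)
    (c : Ω) : IsIntegral B c ↔ IsIntegral B.toSubring c := by
  constructor
  · rintro ⟨p, hp, hpc⟩
    exact ⟨p, hp, hpc⟩
  · rintro ⟨p, hp, hpc⟩
    exact ⟨p, hp, hpc⟩

end NormalForm

section Directed

variable {Ω : Type*} [Field Ω] {ι : Type*} [Nonempty ι] (κ : ι → Set Ω)

omit [Nonempty ι] in
theorem directed_subring_closure (hdir : Directed (· ⊆ ·) κ) (S : Set Ω) :
    Directed (· ≤ ·) fun i => Subring.closure (κ i ∪ S) := by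
  intro i j
  obtain ⟨l, hil, hjl⟩ := hdir i j
  exact ⟨l, Subring.closure_mono (Set.union_subset_union_left S hil),
    Subring.closure_mono (Set.union_subset_union_left S hjl)⟩

omit [Nonempty ι] in
theorem directed_subfield_closure (hdir : Directed (· ⊆ ·) κ) (S : Set Ω) :
    Directed (· ≤ ·) fun i => Subfield.closure (κ i ∪ S) := by
  intro i j
  obtain ⟨l, hil, hjl⟩ := hdir i j
  exact ⟨l, Subfield.closure_mono (Set.union_subset_union_left S hil),
    Subfield.closure_mono (Set.union_subset_union_left S hjl)⟩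

/-- Elements of the subring generated by `k0 ∪ S` are defined at a finite level. -/
theorem exists_mem_subring_closure (hdir : Directed (· ⊆ ·) κ) {k0 : Set Ω} (S : Set Ω)
    (hk : k0 ⊆ ⋃ i, κ i) {c : Ω} (hc : c ∈ Subring.closure (k0 ∪ S)) :
    ∃ i, c ∈ Subring.closure (κ i ∪ S) := by
  have hle : Subring.closure (k0 ∪ S) ≤ ⨆ i, Subring.closure (κ i ∪ S) := by
    rw [Subring.closure_le]
    rintro a (ha | ha)
    · obtain ⟨i, hi⟩ := Set.mem_iUnion.mp (hk ha)
      exact (le_iSup (fun i => Subring.closure (κ i ∪ S)) i)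
        (Subring.subset_closure (Or.inl hi))
    · obtain ⟨i⟩ := ‹Nonempty ι›
      exact (le_iSup (fun i => Subring.closure (κ i ∪ S)) i)
        (Subring.subset_closure (Or.inr ha))
  exact (Subring.mem_iSup_of_directed (directed_subring_closure κ hdir S)).mp (hle hc)

/-- Elements of the subfield generated by `k0 ∪ S` are defined at a finite level. -/
theorem exists_mem_subfield_closure (hdir : Directed (· ⊆ ·) κ) {k0 : Set Ω} (S : Set Ω)
    (hk : k0 ⊆ ⋃ i, κ i) {c : Ω} (hc : c ∈ Subfield.closure (k0 ∪ S)) :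
    ∃ i, c ∈ Subfield.closure (κ i ∪ S) := by
  have hle : Subfield.closure (k0 ∪ S) ≤ ⨆ i, Subfield.closure (κ i ∪ S) := by
    rw [Subfield.closure_le]
    rintro a (ha | ha)
    · obtain ⟨i, hi⟩ := Set.mem_iUnion.mp (hk ha)
      exact (le_iSup (fun i => Subfield.closure (κ i ∪ S)) i)
        (Subfield.subset_closure (Or.inl hi))
    · obtain ⟨i⟩ := ‹Nonempty ι›
      exact (le_iSup (fun i => Subfield.closure (κ i ∪ S)) i)
        (Subfield.subset_closure (Or.inr ha))
  exact (Subfield.mem_iSup_of_directed (directed_subfield_closure κ hdir S)).mp (hle hc)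

/-- Finitely many elements of the subring generated by `k0 ∪ S` are defined at a common finite
level. -/
theorem exists_forall_mem_subring_closure (hdir : Directed (· ⊆ ·) κ) {k0 : Set Ω} (S : Set Ω)
    (hk : k0 ⊆ ⋃ i, κ i) (T : Finset Ω) (hT : ∀ c ∈ T, c ∈ Subring.closure (k0 ∪ S)) :
    ∃ i, ∀ c ∈ T, c ∈ Subring.closure (κ i ∪ S) := by
  classical
  induction T using Finset.induction_on with
  | empty =>
    obtain ⟨i⟩ := ‹Nonempty ι›
    exact ⟨i, by simp⟩
  | insert a T _ ih =>
    obtain ⟨i, hi⟩ := ih (fun c hc => hT c (Finset.mem_insert_of_mem hc))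
    obtain ⟨j, hj⟩ := exists_mem_subring_closure κ hdir S hk (hT a (Finset.mem_insert_self a T))
    obtain ⟨l, hil, hjl⟩ := directed_subring_closure κ hdir S i j
    refine ⟨l, fun c hc => ?_⟩
    rcases Finset.mem_insert.mp hc with rfl | hc
    · exact hjl hj
    · exact hil (hi c hc)

/-- Integrality over the subring generated by `k0 ∪ S` holds at a finite level. -/
theorem exists_isIntegral (hdir : Directed (· ⊆ ·) κ) {k0 : Set Ω} (S : Set Ω)
    (hk : k0 ⊆ ⋃ i, κ i) {c : Ω} (hc : IsIntegral (Subring.closure (k0 ∪ S)) c) :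
    ∃ i, IsIntegral (Subring.closure (κ i ∪ S)) c := by
  classical
  rw [isIntegral_subring_iff] at hc
  obtain ⟨P, hP, hcoeff, hPc⟩ := hc
  obtain ⟨i, hi⟩ := exists_forall_mem_subring_closure κ hdir S hk
    (P.support.image fun n => P.coeff n) (by
      intro a ha
      obtain ⟨n, -, rfl⟩ := Finset.mem_image.mp ha
      exact hcoeff n)
  refine ⟨i, (isIntegral_subring_iff _ _).mpr ⟨P, hP, fun n => ?_, hPc⟩⟩
  by_cases hn : n ∈ P.support
  · exact hi _ (Finset.mem_image_of_mem _ hn)
  · rw [Polynomial.notMem_support_iff.mp hn]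
    exact zero_mem _

/-- **Finite level**: an element of the field generated by `k0 ∪ S` which is integral over the
ring generated by `k0 ∪ S'` is, for some index `i ≥ i₀`, an element of the field generated by
`κ i ∪ S` integral over the ring generated by `κ i ∪ S'`. -/
theorem exists_level (hdir : Directed (· ⊆ ·) κ) {k0 : Set Ω} (S S' : Set Ω)
    (hk : k0 ⊆ ⋃ i, κ i) (i₀ : ι) {c : Ω} (hc : c ∈ Subfield.closure (k0 ∪ S))
    (hint : IsIntegral (Subring.closure (k0 ∪ S')) c) :
    ∃ i, κ i₀ ⊆ κ i ∧ c ∈ Subfield.closure (κ i ∪ S) ∧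
      IsIntegral (Subring.closure (κ i ∪ S')) c := by
  obtain ⟨i₁, h₁⟩ := exists_mem_subfield_closure κ hdir S hk hc
  obtain ⟨i₂, h₂⟩ := exists_isIntegral κ hdir S' hk hint
  obtain ⟨i₃, h₁₃, h₂₃⟩ := hdir i₁ i₂
  obtain ⟨i, h₃, h₀⟩ := hdir i₃ i₀
  refine ⟨i, h₀, ?_, ?_⟩
  · exact Subfield.closure_mono (Set.union_subset_union_left S (h₁₃.trans h₃)) h₁
  · exact isIntegral_subring_mono
      (Subring.closure_mono (Set.union_subset_union_left S' (h₂₃.trans h₃))) h₂

end Directed

end Fermat.Agent.S37.Red.H759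

namespace Fermat.Agent.S37.Red.H759

section Monotone

variable {Ω : Type*} [Field Ω] {ι : Type*} [Preorder ι] [IsDirected ι (· ≤ ·)] [Nonempty ι]
  (κ : ι → Set Ω)

omit [Field Ω] [Nonempty ι] in
theorem directed_of_monotone (hmono : Monotone κ) : Directed (· ⊆ ·) κ := by
  intro i j
  obtain ⟨l, hil, hjl⟩ := exists_ge_ge i j
  exact ⟨l, hmono hil, hmono hjl⟩

/-- **Finite level, monotone form**: for a monotone family `κ` over a directed preorder, an
element of the field generated by `k0 ∪ S` which is integral over the ring generated by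
`k0 ∪ S'` is, for some index `i ≥ i₀`, an element of the field generated by `κ i ∪ S` integral
over the ring generated by `κ i ∪ S'`. -/
theorem exists_level_ge (hmono : Monotone κ) {k0 : Set Ω} (S S' : Set Ω)
    (hk : k0 ⊆ ⋃ i, κ i) (i₀ : ι) {c : Ω} (hc : c ∈ Subfield.closure (k0 ∪ S))
    (hint : IsIntegral (Subring.closure (k0 ∪ S')) c) :
    ∃ i, i₀ ≤ i ∧ c ∈ Subfield.closure (κ i ∪ S) ∧
      IsIntegral (Subring.closure (κ i ∪ S')) c := by
  have hdir := directed_of_monotone κ hmono
  obtain ⟨i₁, h₁⟩ := exists_mem_subfield_closure κ hdir S hk hc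
  obtain ⟨i₂, h₂⟩ := exists_isIntegral κ hdir S' hk hint
  obtain ⟨i₃, h₁₃, h₂₃⟩ := exists_ge_ge i₁ i₂
  obtain ⟨i, h₃, h₀⟩ := exists_ge_ge i₃ i₀
  refine ⟨i, h₀, ?_, ?_⟩
  · exact Subfield.closure_mono (Set.union_subset_union_left S (hmono (h₁₃.trans h₃))) h₁
  · exact isIntegral_subring_mono
      (Subring.closure_mono (Set.union_subset_union_left S' (hmono (h₂₃.trans h₃)))) h₂

end Monotone

end Fermat.Agent.S37.Red.H759

end
-- ===== PACK-END S37/Red/H759/Directed.lean

-- ===== PACK-BEGIN S29/H152/DescAut.lean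
section
/-
S29 / DESC (helper152) — part 1: automorphisms of an algebraically closed field over an
algebraically closed subfield.  Mathlib-only.

* `descAut_exists_add_one` : `x` transcendental over `K` in an algebraically closed field `C`
  ⇒ some `σ : C ≃ₐ[K] C` has `σ x = x + 1`.
* `descAut_mem_range_of_fixed` : `K`, `C` algebraically closed, `C` of characteristic zero,
  `H ≤ Aut(C/K)` of finite index, `x` fixed by `H` ⇒ `x ∈ K`.
-/


set_option autoImplicit false

namespace Fermat.Agent.S29.H152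

open MvPolynomial

section Shift

variable {K : Type*} [Field K] {ι : Type*} [DecidableEq ι]

/-- The `K`-algebra endomorphism of `K[X_i]` with `X_{i₀} ↦ X_{i₀} + c`, other variables fixed. -/
noncomputable def descShift (i₀ : ι) (c : K) : MvPolynomial ι K →ₐ[K] MvPolynomial ι K :=
  aeval fun i => if i = i₀ then X i + C c else X i

theorem descShift_X_self (i₀ : ι) (c : K) : descShift i₀ c (X i₀) = X i₀ + C c := by
  simp [descShift]

theorem descShift_X_of_ne (i₀ : ι) (c : K) {i : ι} (h : i ≠ i₀) :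
    descShift i₀ c (X i) = X i := by
  simp [descShift, h]

theorem descShift_comp (i₀ : ι) (c d : K) :
    (descShift i₀ c).comp (descShift i₀ d) = descShift i₀ (c + d) := by
  apply MvPolynomial.algHom_ext
  intro i
  by_cases h : i = i₀
  · subst h
    simp only [AlgHom.comp_apply, descShift_X_self, map_add]
    rw [show (descShift i c) (C d) = C d from (descShift i c).commutes d]
    ring
  · simp only [AlgHom.comp_apply, descShift_X_of_ne _ _ h]

theorem descShift_zero (i₀ : ι) : descShift i₀ (0 : K) = AlgHom.id K _ := by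
  apply MvPolynomial.algHom_ext
  intro i
  by_cases h : i = i₀
  · subst h
    simp [descShift_X_self]
  · simp [descShift_X_of_ne _ _ h]

/-- The shift as an algebra automorphism. -/
noncomputable def descShiftEquiv (i₀ : ι) (c : K) : MvPolynomial ι K ≃ₐ[K] MvPolynomial ι K :=
  AlgEquiv.ofAlgHom (descShift i₀ c) (descShift i₀ (-c))
    (by rw [descShift_comp, add_neg_cancel, descShift_zero])
    (by rw [descShift_comp, neg_add_cancel, descShift_zero])

theorem descShiftEquiv_X_self (i₀ : ι) (c : K) : descShiftEquiv i₀ c (X i₀) = X i₀ + C c :=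
  descShift_X_self i₀ c

end Shift

section Aut

variable {K Ω : Type*} [Field K] [Field Ω] [Algebra K Ω] [IsAlgClosed Ω]

/-- For `x` transcendental over `K` in an algebraically closed field `C`, some `K`-automorphism
of `C` maps `x` to `x + 1`. -/
theorem descAut_exists_add_one (x : Ω) (hx : Transcendental K x) :
    ∃ σ : Ω ≃ₐ[K] Ω, σ x = x + 1 := by
  classical
  have hind : AlgebraicIndepOn K id ({x} : Set Ω) := by
    show AlgebraicIndependent K fun i : ({x} : Set Ω) => id (i : Ω)
    let _ : Unique ({x} : Set Ω) := Set.uniqueSingleton x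
    rw [algebraicIndependent_unique_type_iff]
    exact hx
  obtain ⟨B, hxB, hB⟩ := exists_isTranscendenceBasis_superset hind
  have hxB' : x ∈ B := hxB (Set.mem_singleton x)
  let i₀ : B := ⟨x, hxB'⟩
  -- the subalgebra generated by the basis
  let A := Algebra.adjoin K (Set.range ((↑) : B → Ω))
  have hAC : IsAlgClosure A Ω := IsAlgClosed.isAlgClosure_of_transcendence_basis _ hB
  -- the automorphism of `A`
  let e : A ≃ₐ[K] A := (hB.1.aevalEquiv.symm.trans (descShiftEquiv i₀ 1)).trans hB.1.aevalEquiv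
  let σ₀ : Ω ≃+* Ω := IsAlgClosure.equivOfEquiv Ω Ω e.toRingEquiv
  have hσ₀ : ∀ a : A, σ₀ (algebraMap A Ω a) = algebraMap A Ω (e a) := fun a =>
    IsAlgClosure.equivOfEquiv_algebraMap Ω Ω e.toRingEquiv a
  have hK : ∀ r : K, σ₀ (algebraMap K Ω r) = algebraMap K Ω r := by
    intro r
    have h1 : algebraMap K Ω r = algebraMap A Ω (algebraMap K A r) := rfl
    rw [h1, hσ₀, e.commutes]
  refine ⟨AlgEquiv.ofRingEquiv (f := σ₀) hK, ?_⟩
  show σ₀ x = x + 1
  have hx1 : x = algebraMap A Ω (hB.1.aevalEquiv (X i₀)) := by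
    rw [hB.1.algebraMap_aevalEquiv, aeval_X]
  have he : e (hB.1.aevalEquiv (X i₀)) = hB.1.aevalEquiv (X i₀ + C 1) := by
    show hB.1.aevalEquiv ((descShiftEquiv i₀ 1) (hB.1.aevalEquiv.symm (hB.1.aevalEquiv (X i₀)))) = _
    rw [AlgEquiv.symm_apply_apply, descShiftEquiv_X_self]
  conv_lhs => rw [hx1]
  rw [hσ₀, he, hB.1.algebraMap_aevalEquiv, map_add, aeval_X, aeval_C]
  simp [i₀]

omit [IsAlgClosed Ω] in
/-- Iterating: `σ ^ n` maps `x` to `x + n`. -/
theorem descAut_pow_apply {σ : Ω ≃ₐ[K] Ω} {x : Ω} (h : σ x = x + 1) (n : ℕ) :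
    (σ ^ n) x = x + n := by
  induction n with
  | zero => simp
  | succ n ih =>
    rw [pow_succ', AlgEquiv.mul_apply, ih, map_add, h, map_natCast]
    push_cast
    ring

end Aut

section Fixed

variable {K Ω : Type*} [Field K] [Field Ω] [Algebra K Ω] [IsAlgClosed K] [IsAlgClosed Ω]
  [CharZero Ω]

/-- An element of `C` fixed by a finite-index subgroup of `Aut(C/K)` lies in `K`. -/
theorem descAut_mem_range_of_fixed (H : Subgroup (Ω ≃ₐ[K] Ω)) (hH : H.index ≠ 0) (x : Ω)
    (hx : ∀ σ ∈ H, σ x = x) : x ∈ Set.range (algebraMap K Ω) := by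
  by_contra hxK
  have htr : Transcendental K x := by
    intro halg
    apply hxK
    have hint : IsIntegral K x := halg.isIntegral
    have hdeg : (minpoly K x).degree = 1 :=
      IsAlgClosed.degree_eq_one_of_irreducible K (minpoly.irreducible hint)
    exact minpoly.mem_range_of_degree_eq_one K x hdeg
  obtain ⟨σ, hσ⟩ := descAut_exists_add_one x htr
  obtain ⟨n, hn, -, hmem⟩ := Subgroup.exists_pow_mem_of_index_ne_zero hH σ
  have h1 := hx _ hmem
  rw [descAut_pow_apply hσ] at h1
  have : (n : Ω) = 0 := by simpa using h1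
  exact hn.ne' (by exact_mod_cast this)

end Fixed

end Fermat.Agent.S29.H152

end
-- ===== PACK-END S29/H152/DescAut.lean

-- ===== PACK-BEGIN S29/H152/DescStab.lean
section
/-
S29 / DESC (helper152) — part 5: the coefficientwise action of `Aut(Ω/K)` on `Ω((q))`, the
stabiliser of a Kummer class and its finite index.
-/



set_option autoImplicit false

namespace Fermat.Agent.S29.H152

open ModularCurve

variable {K Ω : Type*} [Field K] [Field Ω] [Algebra K Ω]

/-- The coefficientwise action of `σ ∈ Aut(Ω/K)` on Laurent series. -/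
noncomputable def descSig (σ : Ω ≃ₐ[K] Ω) : LaurentSeries Ω →+* LaurentSeries Ω :=
  coeffMap (σ : Ω →+* Ω)

theorem descSig_def (σ : Ω ≃ₐ[K] Ω) (x : LaurentSeries Ω) :
    descSig σ x = coeffMap (σ : Ω →+* Ω) x := rfl

@[simp]
theorem descSig_coeff (σ : Ω ≃ₐ[K] Ω) (x : LaurentSeries Ω) (k : ℤ) :
    (descSig σ x).coeff k = σ (x.coeff k) := rfl

@[simp]
theorem descSig_one (x : LaurentSeries Ω) : descSig (1 : Ω ≃ₐ[K] Ω) x = x := by
  ext k
  simp

theorem descSig_mul (σ τ : Ω ≃ₐ[K] Ω) (x : LaurentSeries Ω) :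
    descSig (σ * τ) x = descSig σ (descSig τ x) := by
  ext k
  simp

@[simp]
theorem descSig_inv_apply (σ : Ω ≃ₐ[K] Ω) (x : LaurentSeries Ω) :
    descSig σ⁻¹ (descSig σ x) = x := by
  rw [← descSig_mul, inv_mul_cancel, descSig_one]

@[simp]
theorem descSig_apply_inv (σ : Ω ≃ₐ[K] Ω) (x : LaurentSeries Ω) :
    descSig σ (descSig σ⁻¹ x) = x := by
  rw [← descSig_mul, mul_inv_cancel, descSig_one]

theorem descSig_injective (σ : Ω ≃ₐ[K] Ω) : Function.Injective (descSig σ) :=
  Function.LeftInverse.injective (descSig_inv_apply σ)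

theorem descSig_algebraMap (σ : Ω ≃ₐ[K] Ω) (c : Ω) :
    descSig σ (algebraMap Ω (LaurentSeries Ω) c) = algebraMap Ω (LaurentSeries Ω) (σ c) :=
  coeffMap_algebraMap _ c

theorem descSig_coeffMap (σ : Ω ≃ₐ[K] Ω) (x : LaurentSeries K) :
    descSig σ (coeffMap (algebraMap K Ω) x) = coeffMap (algebraMap K Ω) x := by
  ext k
  simp

theorem descSig_coeffEmb [Algebra ℚ Ω] (σ : Ω ≃ₐ[K] Ω) (y : LaurentSeries ℚ) :
    descSig σ (coeffEmb Ω y) = coeffEmb Ω y := by
  rw [descSig, coeffEmb, coeffMap_coeffMap]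
  exact coeffMap_congr (RingHom.ext_rat _ _) y

/-- The base-changed field is stable under the coefficientwise action. -/
theorem descSig_mem_laurentBaseChange [Algebra ℚ Ω] (F₀ : IntermediateField ℚ (LaurentSeries ℚ))
    (σ : Ω ≃ₐ[K] Ω) {x : LaurentSeries Ω} (hx : x ∈ laurentBaseChange Ω F₀) :
    descSig σ x ∈ laurentBaseChange Ω F₀ := by
  rw [mem_laurentBaseChange_iff] at hx
  induction hx using Subfield.closure_induction with
  | mem y hy =>
      rcases hy with ⟨a, rfl⟩ | ⟨z, hz, rfl⟩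
      · rw [descSig_algebraMap]
        exact (laurentBaseChange Ω F₀).algebraMap_mem _
      · rw [descSig_coeffEmb]
        exact coeffEmb_mem_laurentBaseChange Ω hz
  | one => simp
  | add x y _ _ hx hy => simpa using add_mem hx hy
  | neg x _ hx => simpa using neg_mem hx
  | inv x _ hx => simpa using inv_mem hx
  | mul x y _ _ hx hy => simpa using mul_mem hx hy

/-! ### The stabiliser of a Kummer class -/

section Stab

variable (F : IntermediateField Ω (LaurentSeries Ω))
  (hF : ∀ (σ : Ω ≃ₐ[K] Ω) (x : LaurentSeries Ω), x ∈ F → descSig σ x ∈ F)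
  (f : LaurentSeries Ω) (p : ℕ)

/-- The stabiliser of the class of `f` modulo `p`-th powers of `F`. -/
def descStab : Subgroup (Ω ≃ₐ[K] Ω) where
  carrier := {σ | ∃ u ∈ F, u ≠ 0 ∧ descSig σ f = f * u ^ p}
  one_mem' := ⟨1, one_mem _, one_ne_zero, by simp⟩
  mul_mem' := by
    rintro σ τ ⟨u, hu, hu0, hσ⟩ ⟨w, hw, hw0, hτ⟩
    refine ⟨u * descSig σ w, mul_mem hu (hF σ w hw),
      mul_ne_zero hu0 ((map_ne_zero_iff _ (descSig_injective σ)).mpr hw0), ?_⟩
    rw [descSig_mul, hτ, map_mul, map_pow, hσ]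
    ring
  inv_mem' := by
    rintro σ ⟨u, hu, hu0, hσ⟩
    have hu' : descSig σ⁻¹ u ≠ 0 := (map_ne_zero_iff _ (descSig_injective σ⁻¹)).mpr hu0
    refine ⟨(descSig σ⁻¹ u)⁻¹, inv_mem (hF σ⁻¹ u hu), inv_ne_zero hu', ?_⟩
    have h1 : descSig σ⁻¹ (descSig σ f) = descSig σ⁻¹ f * descSig σ⁻¹ u ^ p := by
      rw [hσ, map_mul, map_pow]
    rw [descSig_inv_apply] at h1
    conv_rhs => rw [h1]
    rw [inv_pow, mul_assoc, mul_inv_cancel₀ (pow_ne_zero _ hu'), mul_one]

theorem mem_descStab {σ : Ω ≃ₐ[K] Ω} :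
    σ ∈ descStab F hF f p ↔ ∃ u ∈ F, u ≠ 0 ∧ descSig σ f = f * u ^ p := Iff.rfl

/-- If the orbit of the class of `f` is contained in a finite set of classes, the stabiliser has
finite index. -/
theorem descStab_index_ne_zero (T : Set (LaurentSeries Ω)) (hT : T.Finite)
    (horb : ∀ σ : Ω ≃ₐ[K] Ω, ∃ t ∈ T, ∃ u ∈ F, u ≠ 0 ∧ descSig σ f = t * u ^ p) :
    (descStab F hF f p).index ≠ 0 := by
  classical
  have hTfin : Finite T := hT
  choose t ht u hu hu0 hσ using horb
  have key : ∀ σ τ : Ω ≃ₐ[K] Ω, t σ = t τ → τ⁻¹ * σ ∈ descStab F hF f p := by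
    intro σ τ hst
    have huτ : u τ ^ p ≠ 0 := pow_ne_zero _ (hu0 τ)
    -- `σ f = τ f * (u σ / u τ)^p`
    have h1 : descSig σ f = descSig τ f * (u σ / u τ) ^ p := by
      rw [hσ σ, hσ τ, hst, div_pow]
      field_simp
    refine ⟨descSig τ⁻¹ (u σ / u τ), hF _ _ (div_mem (hu σ) (hu τ)),
      (map_ne_zero_iff _ (descSig_injective τ⁻¹)).mpr (div_ne_zero (hu0 σ) (hu0 τ)), ?_⟩
    rw [descSig_mul, h1, map_mul, map_pow, descSig_inv_apply]
  have hinj : Function.Injective
      (fun Q : (Ω ≃ₐ[K] Ω) ⧸ descStab F hF f p => (⟨t Q.out, ht Q.out⟩ : T)) := by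
    intro Q Q' hQ
    have h1 : t Q.out = t Q'.out := congrArg Subtype.val hQ
    have h2 := key Q'.out Q.out h1.symm
    have h3 : (Q.out : (Ω ≃ₐ[K] Ω) ⧸ descStab F hF f p) = Q'.out :=
      QuotientGroup.eq.mpr h2
    rwa [QuotientGroup.out_eq', QuotientGroup.out_eq'] at h3
  have hfin : Finite ((Ω ≃ₐ[K] Ω) ⧸ descStab F hF f p) := Finite.of_injective _ hinj
  exact (Subgroup.finiteIndex_of_finite_quotient (H := descStab F hF f p)).index_ne_zero

end Stab

end Fermat.Agent.S29.H152

end
-- ===== PACK-END S29/H152/DescStab.lean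

-- ===== PACK-BEGIN S29/H942/MeroRootLocal.lean
section






/-!
# Roots of analytic functions: a continuous `p`-th root of a non-vanishing analytic function is
analytic
-/

set_option autoImplicit false

noncomputable section

open Filter Topology Set Complex

namespace Fermat.Agent.S29.H942

/-- `1` is an isolated `p`-th root of unity. -/
lemma eventually_pow_eq_one_imp {p : ℕ} (hp : p ≠ 0) :
    ∀ᶠ t : ℂ in 𝓝 1, t ^ p = 1 → t = 1 := by
  have hfin : ({t : ℂ | t ^ p = 1} \ {1}).Finite := by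
    refine Set.Finite.subset (Polynomial.nthRootsFinset p (1 : ℂ)).finite_toSet ?_
    intro t ht
    simp only [Finset.mem_coe]
    exact (Polynomial.mem_nthRootsFinset (Nat.pos_of_ne_zero hp) _).2 ht.1
  have hopen : IsOpen (({t : ℂ | t ^ p = 1} \ {1})ᶜ) := hfin.isClosed.isOpen_compl
  have hmem : (1 : ℂ) ∈ ({t : ℂ | t ^ p = 1} \ {1})ᶜ := by simp
  filter_upwards [hopen.mem_nhds hmem] with t ht h1
  by_contra hne
  exact ht ⟨h1, hne⟩

/-- A function which is continuous at `z₀` and whose `p`-th power is analytic and non-zero at `z₀`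
is analytic at `z₀`. -/
theorem analyticAt_of_continuousAt_of_pow {r g : ℂ → ℂ} {z₀ : ℂ} {p : ℕ} (hp : p ≠ 0)
    (hr : ContinuousAt r z₀) (hg : AnalyticAt ℂ g z₀) (hpow : ∀ᶠ z in 𝓝 z₀, r z ^ p = g z)
    (hne : g z₀ ≠ 0) : AnalyticAt ℂ r z₀ := by
  have hpz : r z₀ ^ p = g z₀ := hpow.self_of_nhds
  have hc : r z₀ ≠ 0 := by
    intro h
    rw [h, zero_pow hp] at hpz
    exact hne hpz.symm
  have hpC : (p : ℂ) ≠ 0 := by exact_mod_cast hp
  -- the analytic candidate
  set s : ℂ → ℂ := fun z => r z₀ * exp (log (g z / g z₀) / p) with hs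
  have hq : AnalyticAt ℂ (fun z => g z / g z₀) z₀ := hg.div analyticAt_const hne
  have hq1 : (fun z => g z / g z₀) z₀ ∈ slitPlane := by
    simp only [div_self hne]
    exact one_mem_slitPlane
  have hlog : AnalyticAt ℂ (fun z => log (g z / g z₀)) z₀ := hq.clog hq1
  have hsA : AnalyticAt ℂ s z₀ :=
    analyticAt_const.mul ((hlog.div analyticAt_const hpC).cexp)
  have hs0 : s z₀ = r z₀ := by
    simp [hs, div_self hne]
  have hgne : ∀ᶠ z in 𝓝 z₀, g z ≠ 0 := hg.continuousAt.eventually_ne hne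
  have hspow : ∀ᶠ z in 𝓝 z₀, s z ^ p = g z := by
    filter_upwards [hgne] with z hz
    have h1 : g z / g z₀ ≠ 0 := div_ne_zero hz hne
    simp only [hs, mul_pow]
    rw [← exp_nat_mul, mul_div_cancel₀ _ hpC, exp_log h1, hpz]
    field_simp
  have hsne : ∀ᶠ z in 𝓝 z₀, s z ≠ 0 := hsA.continuousAt.eventually_ne (by rw [hs0]; exact hc)
  -- the quotient is continuous with value `1` at `z₀`, and a root of unity
  have hquot : ContinuousAt (fun z => r z / s z) z₀ :=
    hr.div hsA.continuousAt (by rw [hs0]; exact hc)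
  have hquot1 : (fun z => r z / s z) z₀ = 1 := by
    simp only [hs0, div_self hc]
  have hev : ∀ᶠ z in 𝓝 z₀, (r z / s z) ^ p = 1 → r z / s z = 1 := by
    have h1 : Tendsto (fun z => r z / s z) (𝓝 z₀) (𝓝 1) := by
      have := hquot.tendsto
      have h2 : r z₀ / s z₀ = 1 := hquot1
      rwa [h2] at this
    exact h1.eventually (eventually_pow_eq_one_imp hp)
  have heq : r =ᶠ[𝓝 z₀] s := by
    filter_upwards [hev, hpow, hspow, hsne] with z h1 h2 h3 h4
    have : (r z / s z) ^ p = 1 := by
      rw [div_pow, h2, h3, div_self]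
      rw [← h3]
      exact pow_ne_zero p h4
    have h5 := h1 this
    rwa [div_eq_one_iff_eq h4] at h5
  exact hsA.congr heq.symm

/-- A continuous `p`-th root of a non-vanishing analytic function on an open set is analytic. -/
theorem analyticOnNhd_of_continuousOn_of_pow {r g : ℂ → ℂ} {U : Set ℂ} (hU : IsOpen U) {p : ℕ}
    (hp : p ≠ 0) (hr : ContinuousOn r U) (hg : AnalyticOnNhd ℂ g U)
    (hpow : ∀ z ∈ U, r z ^ p = g z) (hne : ∀ z ∈ U, g z ≠ 0) : AnalyticOnNhd ℂ r U := by
  intro z hz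
  refine analyticAt_of_continuousAt_of_pow hp (hr.continuousAt (hU.mem_nhds hz)) (hg z hz) ?_
    (hne z hz)
  filter_upwards [hU.mem_nhds hz] with w hw using hpow w hw

/-- Existence of analytic `p`-th roots of non-vanishing analytic functions on simply connected
open sets. -/
theorem exists_analyticOnNhd_pow_eq {g : ℂ → ℂ} {U : Set ℂ} (hUc : IsSimplyConnected U)
    (hU : IsOpen U) {p : ℕ} (hp : p ≠ 0) (hg : AnalyticOnNhd ℂ g U) (hne : ∀ z ∈ U, g z ≠ 0) :
    ∃ r : ℂ → ℂ, AnalyticOnNhd ℂ r U ∧ ∀ z, r z ^ p = g z := by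
  have h0 : (0 : ℂ) ∉ g '' U := by
    rintro ⟨z, hz, h⟩
    exact hne z hz h
  obtain ⟨r, hrc, hr⟩ := exists_continuousOn_pow_eq hUc hU hg.continuousOn h0 hp
  exact ⟨r, analyticOnNhd_of_continuousOn_of_pow hU hp hrc hg (fun z _ => hr z) hne, hr⟩

/-- Open convex nonempty sets are simply connected. -/
lemma isSimplyConnected_of_convex {U : Set ℂ} (hU : Convex ℝ U) (hne : U.Nonempty) :
    IsSimplyConnected U := by
  have := hU.contractibleSpace hne
  show SimplyConnectedSpace U
  infer_instance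

end Fermat.Agent.S29.H942

end
end
-- ===== PACK-END S29/H942/MeroRootLocal.lean

-- ===== PACK-BEGIN S21/H585/Parabolic.lean
section


/-!
# Parabolic elements of `SL(2, ℤ)` are conjugate to `± T ^ k`
-/

set_option autoImplicit false

namespace Fermat.Agent.S21.H585

open Matrix ModularGroup
open scoped MatrixGroups

/-- A fixed primitive vector of a trace-2 matrix in `SL(2, ℤ)`. -/
lemma exists_fixed_vector (a b c d : ℤ) (hdet : a * d - b * c = 1) (htr : a + d = 2) :
    ∃ p q u v : ℤ, a * p + b * q = p ∧ c * p + d * q = q ∧ u * p + v * q = 1 := by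
  have hα : (a - 1) ^ 2 + b * c = 0 := by
    have hd : d = 2 - a := by omega
    subst hd
    linear_combination -hdet
  by_cases hc : c = 0
  · subst hc
    have ha : a = 1 := by
      have : (a - 1) ^ 2 = 0 := by simpa using hα
      have := pow_eq_zero_iff (n := 2) (by norm_num) |>.mp this
      omega
    have hd : d = 1 := by omega
    subst ha hd
    exact ⟨1, 0, 1, 0, by ring, by ring, by ring⟩
  · have hpos : 0 < Int.gcd c (a - 1) := Int.gcd_pos_of_ne_zero_left _ hc
    set e : ℤ := ((Int.gcd c (a - 1) : ℕ) : ℤ) with he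
    have he0 : e ≠ 0 := by
      rw [he]
      exact_mod_cast hpos.ne'
    have hq : c = e * (c / e) := (Int.mul_ediv_cancel' (Int.gcd_dvd_left _ _)).symm
    have hp : a - 1 = e * ((a - 1) / e) := (Int.mul_ediv_cancel' (Int.gcd_dvd_right _ _)).symm
    have hcop : IsCoprime ((a - 1) / e) (c / e) := by
      rw [Int.isCoprime_iff_gcd_eq_one, Int.gcd_comm]
      exact Int.gcd_div_gcd_div_gcd hpos
    generalize (a - 1) / e = p at hp hcop
    generalize c / e = q at hq hcop
    obtain ⟨u, v, huv⟩ := hcop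
    refine ⟨p, q, u, v, ?_, ?_, huv⟩
    · have h1 : e * ((a - 1) * p + b * q) = 0 := by
        have : e * ((a - 1) * p + b * q) = (a - 1) * (e * p) + b * (e * q) := by ring
        rw [this, ← hp, ← hq]
        linear_combination hα
      have h2 := (mul_eq_zero.mp h1).resolve_left he0
      linear_combination h2
    · have hd : d - 1 = -(a - 1) := by omega
      have h1 : c * p + (d - 1) * q = 0 := by
        rw [hd, hq, hp]; ring
      linear_combination h1


/-- An element of `SL(2, ℤ)` from its entries. -/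
def mkSL2 (p r q s : ℤ) (h : p * s - r * q = 1) : SL(2, ℤ) :=
  ⟨!![p, r; q, s], by rw [Matrix.det_fin_two_of]; exact h⟩

lemma coe_mkSL2 (p r q s : ℤ) (h : p * s - r * q = 1) :
    ((mkSL2 p r q s h : SL(2, ℤ)) : Matrix (Fin 2) (Fin 2) ℤ) = !![p, r; q, s] := rfl

theorem exists_mul_eq_mul_T_zpow (γ : SL(2, ℤ))
    (htr : (γ : Matrix (Fin 2) (Fin 2) ℤ).trace = 2) :
    ∃ (g : SL(2, ℤ)) (k : ℤ), γ * g = g * T ^ k := by
  have hdet : γ.1 0 0 * γ.1 1 1 - γ.1 0 1 * γ.1 1 0 = 1 := by
    have := γ.2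
    rwa [Matrix.det_fin_two] at this
  have htr' : γ.1 0 0 + γ.1 1 1 = 2 := by
    rwa [Matrix.trace_fin_two] at htr
  obtain ⟨p, q, u, v, h1, h2, h4⟩ := exists_fixed_vector _ _ _ _ hdet htr'
  set a := γ.1 0 0 with ha
  set b := γ.1 0 1 with hb
  set c := γ.1 1 0 with hc
  set d := γ.1 1 1 with hd
  refine ⟨mkSL2 p (-v) q u (by linear_combination h4),
    u * (-a * v + b * u) + v * (-c * v + d * u), ?_⟩
  apply Subtype.ext
  rw [Matrix.SpecialLinearGroup.coe_mul, Matrix.SpecialLinearGroup.coe_mul, coe_T_zpow,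
    coe_mkSL2]
  have hγ : γ.1 = !![a, b; c, d] := by
    ext i j; fin_cases i <;> fin_cases j <;> rfl
  rw [hγ]
  ext i j
  fin_cases i <;> fin_cases j <;>
    simp only [Matrix.mul_apply, Fin.sum_univ_two, Matrix.of_apply, Matrix.cons_val',
      Matrix.cons_val_zero, Matrix.cons_val_one, Matrix.cons_val_fin_one, Fin.zero_eta,
      Fin.mk_one, Fin.isValue]
  · linear_combination h1
  · linear_combination (-(-a * v + b * u)) * h4 + v * u * h1 + v * v * h2
      + v * (1 - a - d) * h4 - v * htr'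
  · linear_combination h2
  · linear_combination (-(-c * v + d * u)) * h4 - u * u * h1 - u * v * h2
      - u * (1 - a - d) * h4 + u * htr'

theorem exists_conj_T_zpow (γ : SL(2, ℤ))
    (htr : (γ : Matrix (Fin 2) (Fin 2) ℤ).trace ^ 2 = 4) :
    ∃ (g : SL(2, ℤ)) (k : ℤ), γ = g * T ^ k * g⁻¹ ∨ γ = -(g * T ^ k * g⁻¹) := by
  have h2 : (γ : Matrix (Fin 2) (Fin 2) ℤ).trace = 2 ∨
      (γ : Matrix (Fin 2) (Fin 2) ℤ).trace = -2 := by
    have : ((γ : Matrix (Fin 2) (Fin 2) ℤ).trace - 2) *
        ((γ : Matrix (Fin 2) (Fin 2) ℤ).trace + 2) = 0 := by linear_combination htr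
    rcases mul_eq_zero.mp this with h | h
    · left; omega
    · right; omega
  rcases h2 with h | h
  · obtain ⟨g, k, hg⟩ := exists_mul_eq_mul_T_zpow γ h
    exact ⟨g, k, Or.inl (by rw [← hg, mul_inv_cancel_right])⟩
  · have h' : ((-γ : SL(2, ℤ)) : Matrix (Fin 2) (Fin 2) ℤ).trace = 2 := by
      rw [Matrix.SpecialLinearGroup.coe_neg, Matrix.trace_neg, h]; norm_num
    obtain ⟨g, k, hg⟩ := exists_mul_eq_mul_T_zpow (-γ) h'
    refine ⟨g, k, Or.inr ?_⟩
    rw [← hg, mul_inv_cancel_right, neg_neg]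

end Fermat.Agent.S21.H585

end
-- ===== PACK-END S21/H585/Parabolic.lean

-- ===== PACK-BEGIN S41/H585/PDCobd.lean
section


/-!
# S41 / PD helper (helper585): coboundaries of a permutation with values in an abelian group

`exists_cobd_of_cycle_sum_zero`: for a permutation `σ` of a finite type `X` and `b : X → A`
(`A` any abelian group) whose sums along all closed `σ`-paths vanish, there is `h : X → A` with
`b x = h (σ x) - h x`.  (The field-valued version by dimension count is
`Fermat.Agent.S21.H585.exists_cobd_of_osum_eq_zero`.)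
-/

set_option autoImplicit false

namespace Fermat.Agent.S41.H585

open Equiv

section

variable {X : Type*} {A : Type*} [AddCommGroup A]

/-- Partial sums of `b` along the `σ`-path starting at `r`. -/
def pathSum (σ : Perm X) (b : X → A) (r : X) (k : ℕ) : A :=
  ∑ j ∈ Finset.range k, b ((σ ^ j) r)

@[simp] lemma pathSum_zero (σ : Perm X) (b : X → A) (r : X) : pathSum σ b r 0 = 0 := by
  simp [pathSum]

lemma pathSum_succ (σ : Perm X) (b : X → A) (r : X) (k : ℕ) :
    pathSum σ b r (k + 1) = pathSum σ b r k + b ((σ ^ k) r) := by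
  simp [pathSum, Finset.sum_range_succ]

lemma pathSum_add (σ : Perm X) (b : X → A) (r : X) (k n : ℕ) :
    pathSum σ b r (k + n) = pathSum σ b r k + pathSum σ b ((σ ^ k) r) n := by
  unfold pathSum
  rw [Finset.sum_range_add]
  congr 1
  refine Finset.sum_congr rfl fun j _ => ?_
  rw [add_comm k j, pow_add, Perm.mul_apply]

lemma pathSum_eq_of_le (σ : Perm X) (b : X → A)
    (hb : ∀ x (n : ℕ), (σ ^ n) x = x → pathSum σ b x n = 0) (r : X) {k k' : ℕ} (hk : k ≤ k')
    (h : (σ ^ k) r = (σ ^ k') r) : pathSum σ b r k = pathSum σ b r k' := by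
  obtain ⟨n, rfl⟩ := Nat.exists_eq_add_of_le hk
  rw [pathSum_add, hb ((σ ^ k) r) n, add_zero]
  rw [← Perm.mul_apply, ← pow_add, add_comm n k]
  exact h.symm

lemma pathSum_eq (σ : Perm X) (b : X → A)
    (hb : ∀ x (n : ℕ), (σ ^ n) x = x → pathSum σ b x n = 0) (r : X) {k k' : ℕ}
    (h : (σ ^ k) r = (σ ^ k') r) : pathSum σ b r k = pathSum σ b r k' := by
  rcases le_total k k' with hk | hk
  · exact pathSum_eq_of_le σ b hb r hk h
  · exact (pathSum_eq_of_le σ b hb r hk h.symm).symm

/-- **Cycle sums zero ⇒ coboundary** (values in an arbitrary abelian group). -/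
theorem exists_cobd_of_cycle_sum_zero [Finite X] (σ : Perm X) (b : X → A)
    (hb : ∀ x (n : ℕ), (σ ^ n) x = x → ∑ j ∈ Finset.range n, b ((σ ^ j) x) = 0) :
    ∃ h : X → A, ∀ x, b x = h (σ x) - h x := by
  classical
  let s : Setoid X := Perm.SameCycle.setoid σ
  let rep : X → X := fun x => Quotient.out (Quotient.mk s x)
  have hrep : ∀ x, Perm.SameCycle σ (rep x) x := fun x => Quotient.mk_out (s := s) x
  have hk : ∀ x, ∃ k : ℕ, (σ ^ k) (rep x) = x := fun x => (hrep x).exists_nat_pow_eq
  choose k hkx using hk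
  have hrepσ : ∀ x, rep (σ x) = rep x := by
    intro x
    have : Quotient.mk s (σ x) = Quotient.mk s x :=
      Quotient.sound (Perm.sameCycle_apply_left.mpr (Perm.SameCycle.refl σ x))
    show Quotient.out (Quotient.mk s (σ x)) = Quotient.out (Quotient.mk s x)
    rw [this]
  refine ⟨fun x => pathSum σ b (rep x) (k x), fun x => ?_⟩
  have h1 : (σ ^ (k (σ x))) (rep x) = (σ ^ (k x + 1)) (rep x) := by
    have := hkx (σ x)
    rw [hrepσ] at this
    rw [this, pow_succ', Perm.mul_apply, hkx]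
  have h2 : pathSum σ b (rep (σ x)) (k (σ x)) = pathSum σ b (rep x) (k x + 1) := by
    rw [hrepσ]
    exact pathSum_eq σ b hb (rep x) h1
  show b x = pathSum σ b (rep (σ x)) (k (σ x)) - pathSum σ b (rep x) (k x)
  rw [h2, pathSum_succ, hkx]
  abel

end

end Fermat.Agent.S41.H585

end
-- ===== PACK-END S41/H585/PDCobd.lean

-- ===== PACK-BEGIN S41/H761/CosetSystem.lean
section


/-!
# Coset systems and their transfers (helper761, row S41, block HK)

Ambient group `𝒢`, groups `Γ`, `Γ'` with homomorphisms `ι : Γ →* 𝒢` (injective), `ι' : Γ' →* 𝒢`.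
A family `ρ : I → 𝒢` is a *coset system* from `Γ` to `Γ'` if

* (S1) for all `i`, `g'` there are `j`, `g` with `ρ i * ι' g' = ι g * ρ j`;
* (S2) `ρ i = ι g * ρ j` implies `i = j`.

Then `j =: act i g'` and `g =: coc i g'` are unique, `coc` is a cocycle, and
`transfer φ g' = ∑ i, φ (coc i g')` is an additive homomorphism `Γ' → A` for every additive
homomorphism `φ : Γ → A`.  Restriction along a homomorphism realized by conjugation, the transfer
(corestriction) to an overgroup and Hecke operators are all of this form; relations between them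
reduce to the comparison theorem `transfer_eq_of_le` and the composition theorem `transfer_comp`.
-/

set_option autoImplicit false

namespace Fermat.Agent.S41.H761

section CosetSystem

variable {𝒢 Γ Γ' Γ'' : Type*} [Group 𝒢] [Group Γ] [Group Γ'] [Group Γ'']
variable {I J : Type*}

/-- A coset system from `Γ` to `Γ'` inside `𝒢`. -/
structure IsCosetSystem (ι : Γ →* 𝒢) (ι' : Γ' →* 𝒢) (ρ : I → 𝒢) : Prop where
  inj : Function.Injective ι
  exists_mul : ∀ (i : I) (g' : Γ'), ∃ (j : I) (g : Γ), ρ i * ι' g' = ι g * ρ j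
  eq_of_mul : ∀ (i j : I) (g : Γ), ρ i = ι g * ρ j → i = j

namespace IsCosetSystem

variable {ι : Γ →* 𝒢} {ι' : Γ' →* 𝒢} {ι'' : Γ'' →* 𝒢} {ρ : I → 𝒢} {ρ' : J → 𝒢}

section Basic

variable (h : IsCosetSystem ι ι' ρ)
include h

/-- The right action of `Γ'` on the index set. -/
noncomputable def act (i : I) (g' : Γ') : I := (h.exists_mul i g').choose

/-- The cocycle. -/
noncomputable def coc (i : I) (g' : Γ') : Γ := (h.exists_mul i g').choose_spec.choose

theorem spec (i : I) (g' : Γ') : ρ i * ι' g' = ι (h.coc i g') * ρ (h.act i g') :=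
  (h.exists_mul i g').choose_spec.choose_spec

theorem unique {i j : I} {g' : Γ'} {g : Γ} (e : ρ i * ι' g' = ι g * ρ j) :
    h.act i g' = j ∧ h.coc i g' = g := by
  have e2 := h.spec i g'
  rw [e] at e2
  have e3 : ρ (h.act i g') = ι ((h.coc i g')⁻¹ * g) * ρ j := by
    rw [map_mul, map_inv, mul_assoc, e2, inv_mul_cancel_left]
  have hj := h.eq_of_mul _ _ _ e3
  refine ⟨hj, ?_⟩
  rw [hj] at e2
  exact h.inj (mul_right_cancel e2).symm

theorem act_eq {i j : I} {g' : Γ'} {g : Γ} (e : ρ i * ι' g' = ι g * ρ j) : h.act i g' = j :=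
  (h.unique e).1

theorem coc_eq {i j : I} {g' : Γ'} {g : Γ} (e : ρ i * ι' g' = ι g * ρ j) : h.coc i g' = g :=
  (h.unique e).2

theorem act_one (i : I) : h.act i 1 = i := h.act_eq (g := 1) (by simp)

theorem coc_one (i : I) : h.coc i 1 = 1 := h.coc_eq (j := i) (by simp)

theorem mul_spec (i : I) (g' k' : Γ') :
    ρ i * ι' (g' * k') = ι (h.coc i g' * h.coc (h.act i g') k') * ρ (h.act (h.act i g') k') := by
  rw [map_mul, ← mul_assoc, h.spec i g', mul_assoc, h.spec (h.act i g') k', map_mul, mul_assoc]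

theorem act_mul (i : I) (g' k' : Γ') : h.act i (g' * k') = h.act (h.act i g') k' :=
  h.act_eq (h.mul_spec i g' k')

theorem coc_mul (i : I) (g' k' : Γ') :
    h.coc i (g' * k') = h.coc i g' * h.coc (h.act i g') k' :=
  h.coc_eq (h.mul_spec i g' k')

/-- The action of `g'` as a permutation of the index set. -/
noncomputable def actEquiv (g' : Γ') : I ≃ I where
  toFun i := h.act i g'
  invFun i := h.act i g'⁻¹
  left_inv i := by
    show h.act (h.act i g') g'⁻¹ = i
    rw [← h.act_mul, mul_inv_cancel, h.act_one]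
  right_inv i := by
    show h.act (h.act i g'⁻¹) g' = i
    rw [← h.act_mul, inv_mul_cancel, h.act_one]

@[simp] theorem actEquiv_apply (g' : Γ') (i : I) : h.actEquiv g' i = h.act i g' := rfl

/-- Conjugation formula for the cocycle. -/
theorem map_coc (i : I) (g' : Γ') :
    ι (h.coc i g') = ρ i * ι' g' * (ρ (h.act i g'))⁻¹ := by
  rw [h.spec i g', mul_inv_cancel_right]

end Basic

section Transfer

variable {A : Type*} [AddCommGroup A] [Fintype I]

/-- The transfer of a coset system. -/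
noncomputable def transfer (h : IsCosetSystem ι ι' ρ) (φ : Additive Γ →+ A) :
    Additive Γ' →+ A where
  toFun g' := ∑ i, φ (Additive.ofMul (h.coc i (Additive.toMul g')))
  map_zero' := by
    simp only [toMul_zero, h.coc_one, ofMul_one, map_zero, Finset.sum_const_zero]
  map_add' a b := by
    simp only [toMul_add, h.coc_mul, ofMul_mul, map_add, Finset.sum_add_distrib]
    congr 1
    exact Equiv.sum_comp (h.actEquiv (Additive.toMul a))
      (fun j => φ (Additive.ofMul (h.coc j (Additive.toMul b))))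

theorem transfer_apply (h : IsCosetSystem ι ι' ρ) (φ : Additive Γ →+ A) (g' : Γ') :
    h.transfer φ (Additive.ofMul g') = ∑ i, φ (Additive.ofMul (h.coc i g')) := rfl

theorem transfer_add (h : IsCosetSystem ι ι' ρ) (φ ψ : Additive Γ →+ A) :
    h.transfer (φ + ψ) = h.transfer φ + h.transfer ψ := by
  refine AddMonoidHom.ext fun g' => ?_
  simp only [transfer, AddMonoidHom.coe_mk, ZeroHom.coe_mk, AddMonoidHom.add_apply,
    Finset.sum_add_distrib]

theorem transfer_comp_left {B : Type*} [AddCommGroup B] (h : IsCosetSystem ι ι' ρ) (π : A →+ B)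
    (φ : Additive Γ →+ A) : h.transfer (π.comp φ) = π.comp (h.transfer φ) := by
  refine AddMonoidHom.ext fun g' => ?_
  simp only [transfer, AddMonoidHom.coe_mk, ZeroHom.coe_mk, AddMonoidHom.coe_comp,
    Function.comp_apply, map_sum]

omit [Fintype I] in
/-- If every coset of a system is a coset of a finite family, the system is finite. -/
theorem finite_of_le [Finite J] (h : IsCosetSystem ι ι' ρ)
    (hle : ∀ i, ∃ (j : J) (g : Γ), ρ i = ι g * ρ' j) : Finite I := by
  choose e β hβ using hle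
  refine Finite.of_injective e fun i i' hii => ?_
  apply h.eq_of_mul i i' (β i * (β i')⁻¹)
  rw [hβ i, hii, map_mul, map_inv, mul_assoc, hβ i', inv_mul_cancel_left]

/-- **Comparison.**  Two coset systems such that every coset of the first is a coset of the
second, and the action of the second is transitive, have the same transfer. -/
theorem transfer_eq_of_le [Fintype J] [Nonempty I] (h : IsCosetSystem ι ι' ρ)
    (h' : IsCosetSystem ι ι' ρ') (hle : ∀ i, ∃ (j : J) (g : Γ), ρ i = ι g * ρ' j)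
    (htr : ∀ j j' : J, ∃ g' : Γ', h'.act j g' = j') (φ : Additive Γ →+ A) :
    h.transfer φ = h'.transfer φ := by
  classical
  choose e β hβ using hle
  -- equivariance
  have key : ∀ (i : I) (g' : Γ'), h'.act (e i) g' = e (h.act i g') ∧
      h'.coc (e i) g' = (β i)⁻¹ * h.coc i g' * β (h.act i g') := by
    intro i g'
    apply h'.unique
    have h1 : ρ' (e i) = ι (β i)⁻¹ * ρ i := by
      rw [hβ i, map_inv, inv_mul_cancel_left]
    rw [h1, mul_assoc, h.spec i g', hβ (h.act i g')]
    simp only [map_mul, map_inv, mul_assoc]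
  have einj : Function.Injective e := by
    intro i i' hii
    apply h.eq_of_mul i i' (β i * (β i')⁻¹)
    rw [hβ i, hii, map_mul, map_inv, mul_assoc, hβ i', inv_mul_cancel_left]
  have esurj : Function.Surjective e := by
    intro j
    obtain ⟨i₀⟩ := ‹Nonempty I›
    obtain ⟨g', hg'⟩ := htr (e i₀) j
    exact ⟨h.act i₀ g', by rw [← (key i₀ g').1, hg']⟩
  let E : I ≃ J := Equiv.ofBijective e ⟨einj, esurj⟩
  refine AddMonoidHom.ext fun g' => ?_
  obtain ⟨g, rfl⟩ : ∃ g : Γ', Additive.ofMul g = g' := ⟨Additive.toMul g', rfl⟩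
  rw [transfer_apply, transfer_apply, ← Equiv.sum_comp E]
  have hE : ∀ i, E i = e i := fun _ => rfl
  simp only [hE, (key _ g).2, ofMul_mul, ofMul_inv, map_add, map_neg, Finset.sum_add_distrib,
    Finset.sum_neg_distrib]
  have hperm : ∑ i, φ (Additive.ofMul (β (h.act i g))) = ∑ i, φ (Additive.ofMul (β i)) :=
    Equiv.sum_comp (h.actEquiv g) (fun i => φ (Additive.ofMul (β i)))
  rw [hperm]
  abel

omit [Fintype I] in
/-- In the situation of the comparison theorem the index sets have the same cardinality. -/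
theorem card_eq_of_le [Nonempty I] (h : IsCosetSystem ι ι' ρ)
    (h' : IsCosetSystem ι ι' ρ') (hle : ∀ i, ∃ (j : J) (g : Γ), ρ i = ι g * ρ' j)
    (htr : ∀ j j' : J, ∃ g' : Γ', h'.act j g' = j') : Nat.card I = Nat.card J := by
  choose e β hβ using hle
  have key : ∀ (i : I) (g' : Γ'), h'.act (e i) g' = e (h.act i g') := by
    intro i g'
    apply h'.act_eq (g := (β i)⁻¹ * h.coc i g' * β (h.act i g'))
    have h1 : ρ' (e i) = ι (β i)⁻¹ * ρ i := by
      rw [hβ i, map_inv, inv_mul_cancel_left]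
    rw [h1, mul_assoc, h.spec i g', hβ (h.act i g')]
    simp only [map_mul, map_inv, mul_assoc]
  have einj : Function.Injective e := by
    intro i i' hii
    apply h.eq_of_mul i i' (β i * (β i')⁻¹)
    rw [hβ i, hii, map_mul, map_inv, mul_assoc, hβ i', inv_mul_cancel_left]
  have esurj : Function.Surjective e := by
    intro j
    obtain ⟨i₀⟩ := ‹Nonempty I›
    obtain ⟨g', hg'⟩ := htr (e i₀) j
    exact ⟨h.act i₀ g', by rw [← key i₀ g', hg']⟩
  exact Nat.card_eq_of_bijective e ⟨einj, esurj⟩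

omit [Fintype I] in
/-- The product of two coset systems, provided its cosets are distinct. -/
theorem prod (h : IsCosetSystem ι ι' ρ) (h' : IsCosetSystem ι' ι'' ρ')
    (hS2 : ∀ (i i' : I) (j j' : J) (g : Γ), ρ i * ρ' j = ι g * (ρ i' * ρ' j') → i = i' ∧ j = j') :
    IsCosetSystem ι ι'' (fun x : I × J => ρ x.1 * ρ' x.2) where
  inj := h.inj
  exists_mul := by
    rintro ⟨i, j⟩ g''
    refine ⟨(h.act i (h'.coc j g''), h'.act j g''), h.coc i (h'.coc j g''), ?_⟩
    simp only
    rw [mul_assoc, h'.spec j g'', ← mul_assoc, h.spec i (h'.coc j g''), mul_assoc]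
  eq_of_mul := by
    rintro ⟨i, j⟩ ⟨i', j'⟩ g e
    obtain ⟨rfl, rfl⟩ := hS2 i i' j j' g e
    rfl

/-- **Composition.** -/
theorem transfer_comp [Fintype J] (h : IsCosetSystem ι ι' ρ) (h' : IsCosetSystem ι' ι'' ρ')
    (hprod : IsCosetSystem ι ι'' (fun x : I × J => ρ x.1 * ρ' x.2)) (φ : Additive Γ →+ A) :
    h'.transfer (h.transfer φ) = hprod.transfer φ := by
  refine AddMonoidHom.ext fun g'' => ?_
  obtain ⟨g, rfl⟩ : ∃ g : Γ'', Additive.ofMul g = g'' := ⟨Additive.toMul g'', rfl⟩
  rw [transfer_apply, transfer_apply]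
  simp only [transfer_apply]
  rw [Fintype.sum_prod_type_right]
  refine Finset.sum_congr rfl fun j _ => Finset.sum_congr rfl fun i _ => ?_
  congr 2
  symm
  apply hprod.coc_eq (j := (h.act i (h'.coc j g), h'.act j g))
  simp only
  rw [mul_assoc, h'.spec j g, ← mul_assoc, h.spec i (h'.coc j g), mul_assoc]

end Transfer

/-- A homomorphism `c : Γ' →* Γ` realized by conjugation by `d` is a coset system with one
representative; its transfer is the pull-back along `c`. -/
theorem single (hι : Function.Injective ι) (c : Γ' →* Γ) (d : 𝒢)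
    (hd : ∀ g' : Γ', d * ι' g' = ι (c g') * d) :
    IsCosetSystem ι ι' (fun _ : Unit => d) where
  inj := hι
  exists_mul := fun _ g' => ⟨(), c g', hd g'⟩
  eq_of_mul := fun _ _ _ _ => rfl

theorem single_coc (hι : Function.Injective ι) (c : Γ' →* Γ) (d : 𝒢)
    (hd : ∀ g' : Γ', d * ι' g' = ι (c g') * d) (i : Unit) (g' : Γ') :
    (single hι c d hd).coc i g' = c g' :=
  (single hι c d hd).coc_eq (j := ()) (hd g')

theorem single_transfer {A : Type*} [AddCommGroup A] (hι : Function.Injective ι) (c : Γ' →* Γ)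
    (d : 𝒢) (hd : ∀ g' : Γ', d * ι' g' = ι (c g') * d) (φ : Additive Γ →+ A) :
    (single hι c d hd).transfer φ = φ.comp (MonoidHom.toAdditive c) := by
  refine AddMonoidHom.ext fun g' => ?_
  obtain ⟨g, rfl⟩ : ∃ g : Γ', Additive.ofMul g = g' := ⟨Additive.toMul g', rfl⟩
  rw [transfer_apply]
  simp only [Finset.univ_unique, Finset.sum_singleton]
  show φ (Additive.ofMul ((single hι c d hd).coc default g)) = φ (Additive.ofMul (c g))
  rw [single_coc hι c d hd]

end IsCosetSystem

end CosetSystem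

/-! ## Mathlib's transfer as the transfer of a coset system -/

section MathlibTransfer

open Subgroup Subgroup.leftTransversals MulAction

variable {G : Type*} [Group G]

theorem out_inv_mul_mul_out_mem (H : Subgroup G) (g : G) (q : G ⧸ H) :
    (q.out)⁻¹ * g * (g⁻¹ • q).out ∈ H := by
  rw [mul_assoc, ← QuotientGroup.eq]
  have h1 : ((g * (g⁻¹ • q).out : G) : G ⧸ H) = g • ((((g⁻¹ • q).out : G)) : G ⧸ H) := rfl
  rw [h1, QuotientGroup.out_eq', QuotientGroup.out_eq', smul_inv_smul]

/-- Mathlib's transfer, computed with the transversal `Quotient.out`. -/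
theorem transfer_eq_prod_out {H : Subgroup G} {A : Type*} [CommGroup A] (ϕ : H →* A)
    [H.FiniteIndex] (g : G) :
    letI := H.fintypeQuotientOfFiniteIndex
    ϕ.transfer g =
      ∏ q : G ⧸ H, ϕ ⟨(q.out)⁻¹ * g * (g⁻¹ • q).out, out_inv_mul_mul_out_mem H g q⟩ := by
  rw [MonoidHom.transfer_def ϕ
    ⟨Set.range Quotient.out, isComplement_range_left Quotient.out_eq'⟩ g]
  unfold diff
  simp only
  refine Finset.prod_congr rfl fun q _ => ?_
  congr 1
  apply Subtype.ext
  simp only
  rw [smul_apply_eq_smul_apply_inv_smul]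
  rw [IsComplement.leftQuotientEquiv_apply (f := Quotient.out) Quotient.out_eq',
    IsComplement.leftQuotientEquiv_apply (f := Quotient.out) Quotient.out_eq']
  rw [smul_eq_mul, mul_assoc]

variable {𝒢 H' : Type*} [Group 𝒢] [Group H']

/-- The coset system of the transfer along an injective homomorphism `f : H' →* G`:
representatives `ι (q.out)⁻¹`, `q ∈ G ⧸ f.range`. -/
theorem IsCosetSystem.ofTransfer (f : H' →* G) (hf : Function.Injective f) (ι : G →* 𝒢)
    (hι : Function.Injective ι) :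
    IsCosetSystem (ι.comp f) ι (fun q : G ⧸ f.range => ι (q.out)⁻¹) where
  inj := hι.comp hf
  exists_mul := by
    intro q g
    obtain ⟨h, hh⟩ := out_inv_mul_mul_out_mem f.range g q
    refine ⟨g⁻¹ • q, h, ?_⟩
    simp only [MonoidHom.comp_apply, hh, ← map_mul]
    rw [mul_inv_cancel_right]
  eq_of_mul := by
    intro q q' h e
    simp only [MonoidHom.comp_apply, ← map_mul] at e
    have e2 := hι e
    have e3 : (q'.out)⁻¹ * q.out = (f h)⁻¹ := by
      rw [← inv_inj, mul_inv_rev, inv_inv, e2, inv_inv, inv_mul_cancel_right]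
    have e4 : ((q'.out : G) : G ⧸ f.range) = ((q.out : G) : G ⧸ f.range) := by
      rw [QuotientGroup.eq, e3]
      exact inv_mem ⟨h, rfl⟩
    rw [QuotientGroup.out_eq', QuotientGroup.out_eq'] at e4
    exact e4.symm

theorem IsCosetSystem.ofTransfer_act (f : H' →* G) (hf : Function.Injective f) (ι : G →* 𝒢)
    (hι : Function.Injective ι) (q : G ⧸ f.range) (g : G) :
    (IsCosetSystem.ofTransfer f hf ι hι).act q g = g⁻¹ • q ∧
    f ((IsCosetSystem.ofTransfer f hf ι hι).coc q g) = (q.out)⁻¹ * g * (g⁻¹ • q).out := by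
  obtain ⟨h, hh⟩ := out_inv_mul_mul_out_mem f.range g q
  have key := (IsCosetSystem.ofTransfer f hf ι hι).unique (i := q) (j := g⁻¹ • q) (g' := g)
    (g := h) (by
      simp only [MonoidHom.comp_apply, hh, ← map_mul]
      rw [mul_inv_cancel_right])
  exact ⟨key.1, by rw [key.2, hh]⟩

end MathlibTransfer

end Fermat.Agent.S41.H761

end
-- ===== PACK-END S41/H761/CosetSystem.lean

-- ===== PACK-BEGIN S15/H542/ModSpec.lean
section





/-!
# S15, piece MOD (architect helper542): the moduli place of `(E, ⟨Q⟩)` on `X₀(p)`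

INTERFACE FILE (definitions and target statements only, no proofs).

* `veluCurve W Q p` : Vélu's model of `E / ⟨Q⟩` for a point `Q` of odd order `p`
  (`a₁' = a₁, a₂' = a₂, a₃' = a₃, a₄' = a₄ - 5 t, a₆' = a₆ - b₂ t - 7 w`,
  `t = ∑ (6 x² + b₂ x + b₄)`, `w = ∑ (u + x t)`, `u = 4 x³ + b₂ x² + 2 b₄ x + b₆`,
  sums over the points `k • Q`, `1 ≤ k ≤ (p - 1) / 2`).
* `jInv W = c₄³ / Δ`.
* `jBar p`, `jNBar p` : the functions `j(q)`, `j(q^p)` in the function field of `X₀(p)` over `ℚ̄`.
* `ModuliPlaceStatement` : **the MOD node** consumed by TOP / COMPAT.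
* `IsModularPair p a a'` : `(a, a')` is a point of the plane model `{G(j, j_p) = 0}` of `X₀(p)`.
* sub-statements `PlaceOfModularPairStatement` (MOD-A1), `PlaceUniqueStatement` (MOD-A2),
  `VeluModularPairStatement` (MOD-B), `VeluRationalStatement` (MOD-V).
-/

set_option autoImplicit false

noncomputable section

open WeierstrassCurve AlgebraicCurve ModularCurve
open scoped WeierstrassCurve.Affine

namespace Fermat.Agent.S15.H542

/-! ## Vélu's formulas -/

section Velu

variable {K : Type*} [Field K]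

/-- The `x`-coordinate of a point (`0` at the point at infinity). -/
def xOf {W : WeierstrassCurve.Affine K} : W.Point → K
  | .zero => 0
  | .some x _ _ => x

/-- The `y`-coordinate of a point (`0` at the point at infinity). -/
def yOf {W : WeierstrassCurve.Affine K} : W.Point → K
  | .zero => 0
  | .some _ y _ => y

/-- Vélu's `t_Q = 6 x² + b₂ x + b₄` (for a point which is not of order `2`). -/
def veluT1 (W : WeierstrassCurve K) (x : K) : K := 6 * x ^ 2 + W.b₂ * x + W.b₄

/-- Vélu's `u_Q = 4 x³ + b₂ x² + 2 b₄ x + b₆ = (2 y + a₁ x + a₃)²`. -/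
def veluU1 (W : WeierstrassCurve K) (x : K) : K :=
  4 * x ^ 3 + W.b₂ * x ^ 2 + 2 * W.b₄ * x + W.b₆

variable [DecidableEq K]

/-- Vélu's `t = ∑_{k = 1}^{(p-1)/2} t_{kQ}`. -/
def veluT (W : WeierstrassCurve K) (Q : W.toAffine.Point) (p : ℕ) : K :=
  ∑ k ∈ Finset.Icc 1 ((p - 1) / 2), veluT1 W (xOf (k • Q))

/-- Vélu's `w = ∑_{k = 1}^{(p-1)/2} (u_{kQ} + x_{kQ} t_{kQ})`. -/
def veluW (W : WeierstrassCurve K) (Q : W.toAffine.Point) (p : ℕ) : K :=
  ∑ k ∈ Finset.Icc 1 ((p - 1) / 2),
    (veluU1 W (xOf (k • Q)) + xOf (k • Q) * veluT1 W (xOf (k • Q)))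

/-- Vélu's Weierstrass model of the quotient `E / ⟨Q⟩`, `Q` of odd order `p`. -/
def veluCurve (W : WeierstrassCurve K) (Q : W.toAffine.Point) (p : ℕ) : WeierstrassCurve K where
  a₁ := W.a₁
  a₂ := W.a₂
  a₃ := W.a₃
  a₄ := W.a₄ - 5 * veluT W Q p
  a₆ := W.a₆ - W.b₂ * veluT W Q p - 7 * veluW W Q p

/-- The `j`-invariant `c₄³ / Δ` (junk value `0` if `Δ = 0`). -/
def jInv (W : WeierstrassCurve K) : K := W.c₄ ^ 3 / W.Δ

end Velu

/-! ## The functions `j`, `j_p` on `X₀(p)` over `ℚ̄` -/

section Functions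

variable (N : ℕ) [NeZero N]

/-- `j(q)` as an element of the function field of `X₀(N)` over `ℚ̄`. -/
def jBar : modularFunctionFieldBar N :=
  ⟨coeffEmb (AlgebraicClosure ℚ) jq,
    coeffEmb_mem_laurentBaseChange (AlgebraicClosure ℚ) (modularFunctionField_le_full N (jq_mem N))⟩

/-- `j(q^N)` as an element of the function field of `X₀(N)` over `ℚ̄`. -/
def jNBar : modularFunctionFieldBar N :=
  ⟨coeffEmb (AlgebraicClosure ℚ) (qExpand ℚ N jq),
    coeffEmb_mem_laurentBaseChange (AlgebraicClosure ℚ) (jqd_mem_full N dvd_rfl)⟩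

/-- `(a, a')` lies on the plane model of `X₀(N)`: every polynomial relation over `ℚ` between the
`q`-series `j(q)` and `j(q^N)` vanishes at `(a, a')`. -/
def IsModularPair {K : Type*} [Field K] [Algebra ℚ K] (a a' : K) : Prop :=
  ∀ G : MvPolynomial (Fin 2) ℚ,
    MvPolynomial.aeval ![jq, qExpand ℚ N jq] G = 0 → MvPolynomial.aeval ![a, a'] G = 0

/-- The place `P` takes the value `a` at the function `f`. -/
def HasValueAt {N : ℕ} (P : Place (AlgebraicClosure ℚ) (modularFunctionFieldBar N))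
    (f : modularFunctionFieldBar N) (a : AlgebraicClosure ℚ) : Prop :=
  0 < P.ord (f - algebraMap (AlgebraicClosure ℚ) (modularFunctionFieldBar N) a)

/-- `P` is fixed by the arithmetic Galois action. -/
def IsGaloisFixedPlace {N : ℕ} (P : Place (AlgebraicClosure ℚ) (modularFunctionFieldBar N)) :
    Prop :=
  ∀ σ : AlgebraicClosure ℚ ≃ₐ[ℚ] AlgebraicClosure ℚ,
    arithmeticGalois (modularFunctionFieldFull N) σ • P = P

end Functions

/-! ## The MOD node -/

/-- The curve `E = W ⊗ ℚ̄` of the frozen statement S15. -/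
abbrev curveBar (W : WeierstrassCurve ℤ) : WeierstrassCurve (AlgebraicClosure ℚ) :=
  (W.map (Int.castRingHom ℚ))⁄(AlgebraicClosure ℚ)

/-- **MOD.**  A rational point `Q` of prime order `p ≥ 5` on `E/ℚ` (non-integral `j` at `2`) gives a
Galois-fixed place `P_x` of the function field of `X₀(p)` over `ℚ̄` with `j(P_x) = j(E)` and
`j_p(P_x) = j(E/⟨Q⟩)` (Vélu model); `E/⟨Q⟩` is nonsingular. -/
def ModuliPlaceStatement : Prop :=
  ∀ (p : ℕ) [NeZero p] (_hp : p.Prime) (_hp5 : 5 ≤ p)
    (W : WeierstrassCurve ℤ) (_hΔ : W.Δ ≠ 0)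
    (Q : (curveBar W).toAffine.Point)
    (_hQfix : ∀ σ : AlgebraicClosure ℚ ≃ₐ[ℚ] AlgebraicClosure ℚ, σ • Q = Q)
    (_hQord : addOrderOf Q = p)
    (_h2Δ : (2 : ℤ) ∣ W.Δ) (_h2c₄ : ¬ (2 : ℤ) ∣ W.c₄),
    (veluCurve (curveBar W) Q p).Δ ≠ 0 ∧
    (∃ r : ℚ, algebraMap ℚ (AlgebraicClosure ℚ) r = jInv (veluCurve (curveBar W) Q p)) ∧
    ∃ P : Place (AlgebraicClosure ℚ) (modularFunctionFieldBar p),
      IsGaloisFixedPlace P ∧
      HasValueAt P (jBar p) (jInv (curveBar W)) ∧
      HasValueAt P (jNBar p) (jInv (veluCurve (curveBar W) Q p))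

/-! ## Sub-statements -/

/-- **MOD-V** (algebra).  Vélu's curve of a Galois-fixed point is defined over `ℚ`:
its `j`-invariant is rational. -/
def VeluRationalStatement : Prop :=
  ∀ (p : ℕ) (W : WeierstrassCurve ℤ)
    (Q : (curveBar W).toAffine.Point)
    (_hQfix : ∀ σ : AlgebraicClosure ℚ ≃ₐ[ℚ] AlgebraicClosure ℚ, σ • Q = Q),
    ∃ r : ℚ, algebraMap ℚ (AlgebraicClosure ℚ) r = jInv (veluCurve (curveBar W) Q p)

/-- **MOD-A1** (function fields).  Every point of the plane model lifts to a place. -/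
def PlaceOfModularPairStatement : Prop :=
  ∀ (p : ℕ) [NeZero p] (_hp : p.Prime) (a a' : AlgebraicClosure ℚ),
    IsModularPair p a a' →
    ∃ P : Place (AlgebraicClosure ℚ) (modularFunctionFieldBar p),
      HasValueAt P (jBar p) a ∧ HasValueAt P (jNBar p) a'

/-- **MOD-A2** (function fields).  Above a rational `j`-value which is not `2`-integral the
place with given `(j, j_p)`-values is unique.  (The discriminant of `Φ_p(X, j)` in `X` is a
polynomial in `j` with integer coefficients and leading coefficient `± p ^ p`.) -/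
def PlaceUniqueStatement : Prop :=
  ∀ (p : ℕ) [NeZero p] (_hp : p.Prime) (_hp2 : p ≠ 2) (r : ℚ) (_hr : padicValRat 2 r < 0)
    (a' : AlgebraicClosure ℚ)
    (P P' : Place (AlgebraicClosure ℚ) (modularFunctionFieldBar p)),
    HasValueAt P (jBar p) (algebraMap ℚ (AlgebraicClosure ℚ) r) → HasValueAt P (jNBar p) a' →
    HasValueAt P' (jBar p) (algebraMap ℚ (AlgebraicClosure ℚ) r) → HasValueAt P' (jNBar p) a' →
    P = P'

/-- **MOD-B** (the bridge: complex uniformisation).  Over a field `K` of characteristic `0`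
which embeds into `ℂ`: if `Q` has exact order `p` (odd prime) on the elliptic curve `E`, then
Vélu's curve is nonsingular and `(j(E), j(E/⟨Q⟩))` lies on the plane model of `X₀(p)`. -/
def VeluModularPairStatement : Prop :=
  ∀ (p : ℕ) [NeZero p] (_hp : p.Prime) (_hp2 : p ≠ 2)
    (E : WeierstrassCurve (AlgebraicClosure ℚ)) (_hΔ : E.Δ ≠ 0)
    (Q : E.toAffine.Point) (_hQord : addOrderOf Q = p),
    (veluCurve E Q p).Δ ≠ 0 ∧ IsModularPair p (jInv E) (jInv (veluCurve E Q p))

end Fermat.Agent.S15.H542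

end
end
-- ===== PACK-END S15/H542/ModSpec.lean

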