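import Mathlib
import Fermat.Prelude.Def_AlgebraicCurve_Correspondence
import Fermat.Prelude.Def_ModularCurve_JqCoeff
import Fermat.Prelude.Def_ModularCurve_ArithmeticGalois
import Fermat.Prelude.Def_ModularCurve_X0ModL
import Fermat.Prelude.Def_ModularCurve_ReductionModL
import Fermat.Prelude.Def_ModularCurve_X0
import Mathlib.Tactic
import Mathlib.NumberTheory.Height.MvPolynomial
import Fermat.Prelude.Def_FLTPrelim_Ramification
import Fermat.Prelude.Def_ModularCurve_LaurentCoeff
import Fermat.Agent.Pack.S15.AE0L3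
import Fermat.Agent.Pack.S15.AE0L0
import Fermat.Agent.Pack.S15.AE0L2
import Fermat.Agent.Pack.S15.AE0L1

-- ===== PACK-BEGIN S24/Alg/LocBasic.lean
section


/-!
# S24 / ALG-LOC, part 1: valuations induced by embeddings into Laurent series

`Induces σ v` : the place `v` of `F` is the one cut out by the embedding `σ : F → C((z))`.
Main result `loc_exists_mult`: then `ord_z ∘ σ = g * v.ord` for some `g ≥ 1`.
-/

set_option autoImplicit false

noncomputable section

open AlgebraicCurve

namespace Fermat.Agent.S24.H144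

variable {K F : Type*} [Field K] [Field F] [Algebra K F]
variable {C : Type*} [Field C]

/-- The embedding `σ` induces the place `v`: the valuation ring of `v` is the set of `f`
whose image has non-negative order. -/
def Induces (σ : F →+* LaurentSeries C) (v : Place K F) : Prop :=
  ∀ f : F, f ∈ v.toValuationSubring ↔ 0 ≤ (σ f).order

theorem loc_map_ne_zero (σ : F →+* LaurentSeries C) {f : F} (hf : f ≠ 0) : σ f ≠ 0 :=
  (map_ne_zero σ).mpr hf

theorem loc_order_map_mul (σ : F →+* LaurentSeries C) {f g : F} (hf : f ≠ 0) (hg : g ≠ 0) :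
    (σ (f * g)).order = (σ f).order + (σ g).order := by
  rw [map_mul]
  exact HahnSeries.order_mul (loc_map_ne_zero σ hf) (loc_map_ne_zero σ hg)

theorem loc_order_map_one (σ : F →+* LaurentSeries C) : (σ (1 : F)).order = 0 := by
  rw [map_one]; exact HahnSeries.order_one

theorem loc_order_map_inv (σ : F →+* LaurentSeries C) (f : F) :
    (σ f⁻¹).order = -(σ f).order := by
  rcases eq_or_ne f 0 with rfl | hf
  · simp
  · have h := loc_order_map_mul σ hf (inv_ne_zero hf)
    rw [mul_inv_cancel₀ hf, loc_order_map_one] at h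
    omega

theorem loc_order_map_pow (σ : F →+* LaurentSeries C) {f : F} (hf : f ≠ 0) (n : ℕ) :
    (σ (f ^ n)).order = n * (σ f).order := by
  induction n with
  | zero => simp
  | succ n ih =>
    rw [pow_succ, loc_order_map_mul σ (pow_ne_zero n hf) hf, ih]
    push_cast; ring

theorem loc_order_map_zpow (σ : F →+* LaurentSeries C) {f : F} (hf : f ≠ 0) (n : ℤ) :
    (σ (f ^ n)).order = n * (σ f).order := by
  obtain ⟨k, rfl | rfl⟩ := Int.eq_nat_or_neg n
  · rw [zpow_natCast]; exact loc_order_map_pow σ hf k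
  · rw [zpow_neg, zpow_natCast, loc_order_map_inv, loc_order_map_pow σ hf k]; ring

theorem loc_order_map_add_le (σ : F →+* LaurentSeries C) {f g : F} (hfg : f + g ≠ 0) :
    min (σ f).order (σ g).order ≤ (σ (f + g)).order := by
  rw [map_add]
  exact HahnSeries.min_order_le_order_add (by rw [← map_add]; exact loc_map_ne_zero σ hfg)

/-- A unit of the valuation ring has order `0`. -/
theorem loc_order_unit {σ : F →+* LaurentSeries C} {v : Place K F} (hσ : Induces σ v)
    (u : v.toValuationSubringˣ) : (σ ((u : v.toValuationSubring) : F)).order = 0 := by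
  have h1 : 0 ≤ (σ ((u : v.toValuationSubring) : F)).order :=
    (hσ _).mp (u : v.toValuationSubring).2
  have h2 : 0 ≤ (σ (((u⁻¹ : v.toValuationSubringˣ) : v.toValuationSubring) : F)).order :=
    (hσ _).mp ((u⁻¹ : v.toValuationSubringˣ) : v.toValuationSubring).2
  have h3 : (((u⁻¹ : v.toValuationSubringˣ) : v.toValuationSubring) : F)
      = (((u : v.toValuationSubring) : F))⁻¹ := by
    have hmul : ((u : v.toValuationSubring) : F)
        * (((u⁻¹ : v.toValuationSubringˣ) : v.toValuationSubring) : F) = 1 := by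
      have := congrArg (Subtype.val) (Units.mul_inv u)
      exact this
    exact eq_inv_of_mul_eq_one_right hmul
  rw [h3, loc_order_map_inv] at h2
  omega

/-- A non-unit of the valuation ring which is nonzero has positive order. -/
theorem loc_order_pos_of_not_isUnit {σ : F →+* LaurentSeries C} {v : Place K F}
    (hσ : Induces σ v) {a : v.toValuationSubring} (ha : a ≠ 0) (hu : ¬ IsUnit a) :
    0 < (σ (a : F)).order := by
  have h1 : 0 ≤ (σ (a : F)).order := (hσ _).mp a.2
  have haF : (a : F) ≠ 0 := by simpa using ha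
  have h2 : ¬ (0 ≤ (σ ((a : F)⁻¹)).order) := by
    intro h
    have hmem : (a : F)⁻¹ ∈ v.toValuationSubring := (hσ _).mpr h
    apply hu
    refine ⟨⟨a, ⟨(a : F)⁻¹, hmem⟩, ?_, ?_⟩, rfl⟩
    · ext; simp [haF]
    · ext; simp [haF]
  rw [loc_order_map_inv] at h2
  omega

/-- **LOC1.** If `σ` induces `v` then `ord_z ∘ σ = g * v.ord` for a positive integer `g`. -/
theorem loc_exists_mult (v : Place K F) (σ : F →+* LaurentSeries C) (hσ : Induces σ v) :
    ∃ g : ℕ, 0 < g ∧ ∀ f : F, (σ f).order = g * v.ord f := by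
  obtain ⟨π, hπ⟩ := IsDiscreteValuationRing.exists_irreducible v.toValuationSubring
  have hπ0 : π ≠ 0 := hπ.ne_zero
  have hπF : (π : F) ≠ 0 := by simpa using hπ0
  have hpos : 0 < (σ (π : F)).order := loc_order_pos_of_not_isUnit hσ hπ0 hπ.not_isUnit
  refine ⟨(σ (π : F)).order.toNat, by omega, fun f => ?_⟩
  rcases eq_or_ne f 0 with rfl | hf
  · simp
  obtain ⟨u, hu⟩ := v.exists_unit_mul_zpow hf hπ
  have huF : ((u : v.toValuationSubring) : F) ≠ 0 := by simp
  conv_lhs => rw [hu]
  rw [loc_order_map_mul σ huF (zpow_ne_zero _ hπF), loc_order_unit hσ u,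
    loc_order_map_zpow σ hπF, Int.toNat_of_nonneg hpos.le]
  ring

end Fermat.Agent.S24.H144

end
end
-- ===== PACK-END S24/Alg/LocBasic.lean

-- ===== PACK-BEGIN S24/Alg/LocPlace.lean
section


/-!
# S24 / ALG-LOC, part 2: the place cut out by an embedding into Laurent series
-/

set_option autoImplicit false

noncomputable section

open AlgebraicCurve

namespace Fermat.Agent.S24.H144

variable {K F : Type*} [Field K] [Field F] [Algebra K F]
variable {C : Type*} [Field C]

/-- The valuation subring of `F` cut out by an embedding `σ : F → C((z))`. -/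
def locValSubring (σ : F →+* LaurentSeries C) : ValuationSubring F where
  carrier := {f | 0 ≤ (σ f).order}
  mul_mem' := by
    intro a b ha hb
    simp only [Set.mem_setOf_eq] at ha hb ⊢
    rcases eq_or_ne a 0 with rfl | ha0
    · simp
    rcases eq_or_ne b 0 with rfl | hb0
    · simp
    rw [loc_order_map_mul σ ha0 hb0]; omega
  one_mem' := by simp [loc_order_map_one]
  add_mem' := by
    intro a b ha hb
    simp only [Set.mem_setOf_eq] at ha hb ⊢
    rcases eq_or_ne (a + b) 0 with h | h
    · rw [h]; simp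
    · have := loc_order_map_add_le σ h
      exact le_trans (le_min ha hb) this
  zero_mem' := by simp
  neg_mem' := by
    intro a ha
    simp only [Set.mem_setOf_eq] at ha ⊢
    rw [map_neg, HahnSeries.order_neg]; exact ha
  mem_or_inv_mem' := by
    intro a
    simp only [Set.mem_setOf_eq]
    rw [loc_order_map_inv]
    omega

@[simp]
theorem mem_locValSubring (σ : F →+* LaurentSeries C) (f : F) :
    f ∈ locValSubring σ ↔ 0 ≤ (σ f).order := Iff.rfl

theorem locValSubring_isPrincipalIdealRing (σ : F →+* LaurentSeries C) :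
    IsPrincipalIdealRing (locValSubring σ) := by
  classical
  refine ⟨fun I => ?_⟩
  by_cases hI : I = ⊥
  · rw [hI]; exact ⟨⟨0, by simp⟩⟩
  -- pick a nonzero element of minimal order
  have hne : ∃ n : ℕ, ∃ a ∈ I, a ≠ 0 ∧ (σ (a : F)).order.toNat = n := by
    obtain ⟨a, ha, ha0⟩ := Submodule.exists_mem_ne_zero_of_ne_bot hI
    exact ⟨_, a, ha, ha0, rfl⟩
  obtain ⟨a, haI, ha0, han⟩ := Nat.find_spec hne
  have hmin : ∀ b ∈ I, b ≠ 0 → (σ (a : F)).order ≤ (σ (b : F)).order := by
    intro b hb hb0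
    have h1 : Nat.find hne ≤ (σ (b : F)).order.toNat := Nat.find_min' hne ⟨b, hb, hb0, rfl⟩
    have h2 : 0 ≤ (σ (a : F)).order := a.2
    have h3 : 0 ≤ (σ (b : F)).order := b.2
    omega
  have haF : (a : F) ≠ 0 := by simpa using ha0
  refine ⟨⟨a, le_antisymm ?_ ?_⟩⟩
  · intro b hb
    rw [Submodule.mem_span_singleton]
    rcases eq_or_ne b 0 with rfl | hb0
    · exact ⟨0, by simp⟩
    have hbF : (b : F) ≠ 0 := by simpa using hb0
    have hq : (b : F) * (a : F)⁻¹ ∈ locValSubring σ := by
      rw [mem_locValSubring, loc_order_map_mul σ hbF (inv_ne_zero haF), loc_order_map_inv]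
      have := hmin b hb hb0
      omega
    refine ⟨⟨_, hq⟩, ?_⟩
    ext
    simp [haF]
  · rw [Submodule.span_le]
    intro b hb
    rw [Set.mem_singleton_iff] at hb
    rw [hb]; exact haI

/-- The place of `F` cut out by an embedding `σ : F → C((z))` which is constant on `K`
and has some element of negative order. -/
def placeOfEmb (σ : F →+* LaurentSeries C)
    (hK : ∀ c : K, 0 ≤ (σ (algebraMap K F c)).order)
    (hneg : ∃ f : F, (σ f).order < 0) : Place K F where
  toValuationSubring := locValSubring σ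
  algebraMap_mem' := hK
  ne_top' := by
    obtain ⟨f, hf⟩ := hneg
    intro h
    have : f ∈ locValSubring σ := by rw [h]; exact ValuationSubring.mem_top f
    rw [mem_locValSubring] at this
    omega
  isPrincipalIdealRing' := locValSubring_isPrincipalIdealRing σ

theorem induces_placeOfEmb (σ : F →+* LaurentSeries C)
    (hK : ∀ c : K, 0 ≤ (σ (algebraMap K F c)).order)
    (hneg : ∃ f : F, (σ f).order < 0) : Induces σ (placeOfEmb σ hK hneg) :=
  fun _ => Iff.rfl

/-- Two places induced by the same embedding coincide. -/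
theorem Induces.unique {σ : F →+* LaurentSeries C} {v w : Place K F}
    (hv : Induces σ v) (hw : Induces σ w) : v = w := by
  apply Place.ext
  ext f
  rw [hv f, hw f]

/-- If two embeddings have the same order function, they induce the same places. -/
theorem Induces.of_order_eq {σ τ : F →+* LaurentSeries C} {v : Place K F}
    (hv : Induces σ v) (h : ∀ f, (τ f).order = (σ f).order) : Induces τ v :=
  fun f => by rw [hv f, h f]

end Fermat.Agent.S24.H144

end
end
-- ===== PACK-END S24/Alg/LocPlace.lean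

-- ===== PACK-BEGIN S24/Alg/H240Diff.lean
section


/-!
# S24 / ALG — the formal derivative on Laurent series is a derivation, and
`Ω[F⁄K] ≠ 0` from one local embedding

* `lsD` : the derivative `d/dz` on `LaurentSeries C`, with the Leibniz rule `lsD_mul`;
* `lsD_ne_zero_of_order_ne_zero` : in characteristic zero, `d/dz f ≠ 0` if `ord f ≠ 0`;
* `embDerivation` : for a ring hom `σ : F →+* LaurentSeries C` sending `K` to constants,
  `f ↦ d/dz (σ f)` as a `K`-derivation of `F`;
* `exists_differential_ne_zero_of_nonempty` : the interface statement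
  `exists_differential_ne_zero` of `Alg.lean`, with the (necessary) extra hypothesis
  `[Nonempty X]`.
-/

set_option autoImplicit false

noncomputable section

open HahnSeries KaehlerDifferential

namespace Fermat.Agent.S24.H240

section Laurent

variable {C : Type*} [CommRing C]

/-- The formal derivative `d/dz` on Laurent series. -/
def lsD (f : LaurentSeries C) : LaurentSeries C := LaurentSeries.derivative C f

theorem lsD_coeff (f : LaurentSeries C) (n : ℤ) :
    (lsD f).coeff n = (n + 1) • f.coeff (n + 1) := by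
  simp [lsD, LaurentSeries.hasseDeriv_coeff]

theorem lsD_add (f g : LaurentSeries C) : lsD (f + g) = lsD f + lsD g :=
  map_add (LaurentSeries.derivative C) f g

theorem lsD_zero : lsD (0 : LaurentSeries C) = 0 :=
  map_zero (LaurentSeries.derivative C)

theorem lsD_C (c : C) : lsD (HahnSeries.C c : LaurentSeries C) = 0 := by
  ext n
  rw [lsD_coeff, HahnSeries.coeff_zero]
  by_cases h : n + 1 = 0
  · rw [h, zero_smul]
  · rw [HahnSeries.C_apply, HahnSeries.coeff_single_of_ne h, smul_zero]

/-- Derivative of `z^a * f`. -/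
theorem lsD_single_mul (a : ℤ) (f : LaurentSeries C) :
    lsD ((single a (1 : C)) * f) =
      a • ((single (a - 1) (1 : C)) * f) + (single a (1 : C)) * lsD f := by
  ext n
  rw [lsD_coeff, HahnSeries.coeff_add, HahnSeries.coeff_smul, HahnSeries.coeff_single_mul,
    HahnSeries.coeff_single_mul, HahnSeries.coeff_single_mul, lsD_coeff, one_mul, one_mul,
    one_mul]
  have h1 : n + 1 - a = n - (a - 1) := by ring
  have h2 : n - a + 1 = n - (a - 1) := by ring
  rw [h1, h2, ← add_smul]
  congr 1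
  ring

/-- The derivative of (the image of) a power series is (the image of) its derivative. -/
theorem lsD_ofPowerSeries (p : PowerSeries C) :
    lsD (HahnSeries.ofPowerSeries ℤ C p) =
      HahnSeries.ofPowerSeries ℤ C (PowerSeries.derivative C p) := by
  ext n
  rw [lsD_coeff]
  change _ • ((p : PowerSeries C) : LaurentSeries C).coeff (n + 1) =
    ((PowerSeries.derivative C p : PowerSeries C) : LaurentSeries C).coeff n
  rw [PowerSeries.coeff_coe, PowerSeries.coeff_coe]
  by_cases hn : n < 0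
  · rw [if_pos hn]
    by_cases hn1 : n + 1 < 0
    · rw [if_pos hn1, smul_zero]
    · have : n + 1 = 0 := by omega
      rw [this, zero_smul]
  · rw [if_neg hn, if_neg (by omega)]
    obtain ⟨k, rfl⟩ := Int.eq_ofNat_of_zero_le (not_lt.mp hn)
    have hk : ((k : ℤ) + 1).natAbs = k + 1 := by omega
    rw [hk, Int.natAbs_natCast]
    change _ = PowerSeries.coeff k (PowerSeries.derivative C p)
    rw [PowerSeries.coeff_derivative, zsmul_eq_mul, mul_comm]
    push_cast
    ring

theorem lsD_ofPowerSeries_mul (p q : PowerSeries C) :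
    lsD (HahnSeries.ofPowerSeries ℤ C p * HahnSeries.ofPowerSeries ℤ C q) =
      HahnSeries.ofPowerSeries ℤ C p * lsD (HahnSeries.ofPowerSeries ℤ C q) +
        HahnSeries.ofPowerSeries ℤ C q * lsD (HahnSeries.ofPowerSeries ℤ C p) := by
  rw [← map_mul, lsD_ofPowerSeries, lsD_ofPowerSeries, lsD_ofPowerSeries,
    Derivation.leibniz, map_add, smul_eq_mul, smul_eq_mul, map_mul, map_mul]

/-- **Leibniz rule** for the formal derivative of Laurent series. -/
theorem lsD_mul (f g : LaurentSeries C) : lsD (f * g) = f * lsD g + g * lsD f := by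
  have hf := LaurentSeries.single_order_mul_powerSeriesPart f
  have hg := LaurentSeries.single_order_mul_powerSeriesPart g
  set p := HahnSeries.ofPowerSeries ℤ C f.powerSeriesPart with hp
  set q := HahnSeries.ofPowerSeries ℤ C g.powerSeriesPart with hq
  set a := f.order with ha
  set b := g.order with hb
  have hfg : f * g = single (a + b) (1 : C) * (p * q) := by
    rw [← hf, ← hg]
    have : (single (a + b) (1 : C) : LaurentSeries C) = single a 1 * single b 1 := by
      rw [HahnSeries.single_mul_single, one_mul]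
    rw [this]
    ring
  have hsa : (single a (1 : C) : LaurentSeries C) = single (a - 1) 1 * single 1 1 := by
    rw [HahnSeries.single_mul_single, one_mul, sub_add_cancel]
  have hsb : (single b (1 : C) : LaurentSeries C) = single (b - 1) 1 * single 1 1 := by
    rw [HahnSeries.single_mul_single, one_mul, sub_add_cancel]
  have hsab : (single (a + b) (1 : C) : LaurentSeries C) =
      single (a - 1) 1 * single (b - 1) 1 * (single 1 1 * single 1 1) := by
    simp only [HahnSeries.single_mul_single, one_mul]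
    have : a + b = a - 1 + (b - 1) + (1 + 1) := by ring
    rw [← this]
  have hsab1 : (single (a + b - 1) (1 : C) : LaurentSeries C) =
      single (a - 1) 1 * single (b - 1) 1 * single 1 1 := by
    simp only [HahnSeries.single_mul_single, one_mul]
    have : a + b - 1 = a - 1 + (b - 1) + 1 := by ring
    rw [← this]
  have e1 : lsD f = a • (single (a - 1) (1 : C) * p) + single a (1 : C) * lsD p := by
    conv_lhs => rw [← hf]
    exact lsD_single_mul a p
  have e2 : lsD g = b • (single (b - 1) (1 : C) * q) + single b (1 : C) * lsD q := by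
    conv_lhs => rw [← hg]
    exact lsD_single_mul b q
  rw [hfg, lsD_single_mul, lsD_ofPowerSeries_mul, e1, e2]
  conv_rhs => rw [← hf, ← hg]
  rw [hsab, hsab1, hsa, hsb]
  simp only [zsmul_eq_mul]
  push_cast
  ring

theorem lsD_one : lsD (1 : LaurentSeries C) = 0 := by
  have := lsD_C (1 : C)
  rwa [map_one] at this

end Laurent

section CharZero

variable {C : Type*} [Field C] [CharZero C]

/-- In characteristic zero, a Laurent series of nonzero order has nonzero derivative. -/
theorem lsD_ne_zero_of_order_ne_zero (f : LaurentSeries C) (hf : f.order ≠ 0) : lsD f ≠ 0 := by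
  have hf0 : f ≠ 0 := by
    rintro rfl
    exact hf HahnSeries.order_zero
  intro h
  have hc := congrArg (fun g : LaurentSeries C => g.coeff (f.order - 1)) h
  simp only [lsD_coeff, sub_add_cancel, HahnSeries.coeff_zero] at hc
  rw [zsmul_eq_mul, mul_eq_zero] at hc
  rcases hc with hc | hc
  · exact hf (by exact_mod_cast hc)
  · exact hf0 (HahnSeries.coeff_order_eq_zero.mp hc)

end CharZero

section Derivation

variable {K F : Type*} [Field K] [Field F] [Algebra K F]
variable {C : Type*} [Field C]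

/-- For a ring hom `σ : F →+* LaurentSeries C` mapping `K` to constants, the map
`f ↦ d/dz (σ f)` is a `K`-derivation of `F` into `LaurentSeries C` (an `F`-module via `σ`). -/
theorem exists_embDerivation (σ : F →+* LaurentSeries C) (ι : K →+* C)
    (hσ : ∀ c : K, σ (algebraMap K F c) = HahnSeries.C (ι c)) (y : F)
    (hy : lsD (σ y) ≠ 0) : KaehlerDifferential.D K F y ≠ 0 := by
  let modF : Module F (LaurentSeries C) := Module.compHom (LaurentSeries C) σ
  let modK : Module K (LaurentSeries C) :=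
    Module.compHom (LaurentSeries C) (σ.comp (algebraMap K F))
  have : IsScalarTower K F (LaurentSeries C) :=
    ⟨fun c f g => by
      change σ (c • f) * g = σ (algebraMap K F c) * (σ f * g)
      rw [Algebra.smul_def, map_mul, mul_assoc]⟩
  have hsmulF : ∀ (f : F) (g : LaurentSeries C), f • g = σ f * g := fun _ _ => rfl
  have hsmulK : ∀ (c : K) (g : LaurentSeries C), c • g = σ (algebraMap K F c) * g :=
    fun _ _ => rfl
  let δ : Derivation K F (LaurentSeries C) :=
    { toFun := fun f => lsD (σ f)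
      map_add' := fun f g => by simp only [map_add, lsD_add]
      map_smul' := fun c f => by
        simp only [RingHom.id_apply]
        rw [hsmulK, Algebra.smul_def, map_mul, lsD_mul, hσ, lsD_C, mul_zero, add_zero]
      map_one_eq_zero' := by
        change lsD (σ 1) = 0
        rw [map_one, lsD_one]
      leibniz' := fun f g => by
        change lsD (σ (f * g)) = f • lsD (σ g) + g • lsD (σ f)
        rw [map_mul, lsD_mul, hsmulF, hsmulF] }
  intro h0
  apply hy
  have : δ.liftKaehlerDifferential (KaehlerDifferential.D K F y) = δ y :=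
    Derivation.liftKaehlerDifferential_comp_D δ y
  rw [h0, map_zero] at this
  exact this.symm

end Derivation

section Interface

variable {K F : Type*} [Field K] [Field F] [Algebra K F]
variable {C : Type*} [Field C] [CharZero C] {X : Type*}

/-- Interface theorem `exists_differential_ne_zero` of `Alg.lean`, with the necessary
hypothesis `[Nonempty X]` (it is false for empty `X`). -/
theorem exists_differential_ne_zero_of_nonempty [Nonempty X] (j : F)
    (dataInf : LocalData K F C X j⁻¹) :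
    ∃ ω : Ω[F⁄K], ω ≠ 0 := by
  obtain ⟨x⟩ := ‹Nonempty X›
  refine ⟨KaehlerDifferential.D K F j⁻¹, ?_⟩
  apply exists_embDerivation (dataInf.σ x) dataInf.ι (dataInf.σ_const x)
  apply lsD_ne_zero_of_order_ne_zero
  rw [dataInf.σ_t_order x]
  exact_mod_cast dataInf.m_pos.ne'

end Interface

end Fermat.Agent.S24.H240

end
end
-- ===== PACK-END S24/Alg/H240Diff.lean

-- ===== PACK-BEGIN S24/H117/PlaceBasic.lean
section


/-!
# S24 / H117 — basic API for `AlgebraicCurve.Place.ord`

Elementary facts about the order function of a place (membership, ultrametric inequality,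
constants), re-proved here because the Prelude versions are private.
-/

set_option autoImplicit false

noncomputable section

open AlgebraicCurve

namespace Fermat.Agent.S24.H117

variable {K F : Type*} [Field K] [Field F] [Algebra K F] (v : Place K F)

theorem ord_nonneg_of_mem {f : F} (hf : f ∈ v.toValuationSubring) : 0 ≤ v.ord f := by
  rcases eq_or_ne f 0 with rfl | hf0
  · simp
  obtain ⟨π, hπ⟩ := IsDiscreteValuationRing.exists_irreducible v.toValuationSubring
  obtain ⟨n, u, hu⟩ :=
    IsDiscreteValuationRing.eq_unit_mul_pow_irreducible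
      (x := (⟨f, hf⟩ : v.toValuationSubring)) (by simpa [Subtype.ext_iff] using hf0) hπ
  have hcoe : f = ((u : v.toValuationSubring) : F) * ((π : F) ^ (n : ℤ)) := by
    have h := congrArg (Subtype.val) hu
    push_cast at h
    rw [zpow_natCast]
    exact h
  rw [hcoe, v.ord_unit_smul_zpow u hπ (n : ℤ)]
  exact Int.natCast_nonneg n

theorem mem_of_ord_nonneg {f : F} (h : 0 ≤ v.ord f) : f ∈ v.toValuationSubring := by
  rcases eq_or_ne f 0 with rfl | hf
  · exact zero_mem _
  obtain ⟨π, hπ⟩ := IsDiscreteValuationRing.exists_irreducible v.toValuationSubring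
  obtain ⟨u, hu⟩ := v.exists_unit_mul_zpow hf hπ
  rw [hu, show v.ord f = (((v.ord f).toNat : ℕ) : ℤ) from (Int.toNat_of_nonneg h).symm,
    zpow_natCast]
  exact mul_mem (u : v.toValuationSubring).2 (pow_mem (π : v.toValuationSubring).2 _)

theorem mem_iff_ord_nonneg {f : F} : f ∈ v.toValuationSubring ↔ 0 ≤ v.ord f :=
  ⟨ord_nonneg_of_mem v, mem_of_ord_nonneg v⟩

theorem exists_ord_eq_one : ∃ π : F, π ≠ 0 ∧ v.ord π = 1 := by
  obtain ⟨π, hπ⟩ := IsDiscreteValuationRing.exists_irreducible v.toValuationSubring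
  refine ⟨(π : F), ?_, v.ord_coe_irreducible hπ⟩
  simpa [ne_eq, ZeroMemClass.coe_eq_zero] using hπ.ne_zero

theorem ord_algebraMap (c : K) : v.ord (algebraMap K F c) = 0 := by
  rcases eq_or_ne c 0 with rfl | hc
  · simp
  have h1 : 0 ≤ v.ord (algebraMap K F c) := ord_nonneg_of_mem v (v.algebraMap_mem' c)
  have h2 : 0 ≤ v.ord (algebraMap K F c⁻¹) := ord_nonneg_of_mem v (v.algebraMap_mem' c⁻¹)
  rw [map_inv₀, v.ord_inv] at h2
  omega

theorem ord_neg (f : F) : v.ord (-f) = v.ord f := by
  simp [Place.ord, Valuation.map_neg]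

theorem ord_add_ge {f g : F} (hfg : f + g ≠ 0) : min (v.ord f) (v.ord g) ≤ v.ord (f + g) := by
  rcases eq_or_ne f 0 with rfl | hf
  · simp
  rcases eq_or_ne g 0 with rfl | hg
  · simp
  -- wlog ord f ≤ ord g
  wlog hle : v.ord f ≤ v.ord g generalizing f g
  · have := this (f := g) (g := f) (by rwa [add_comm]) hg hf (le_of_not_ge hle)
    rwa [min_comm, add_comm]
  rw [min_eq_left hle]
  have hq : g / f ∈ v.toValuationSubring := by
    apply mem_of_ord_nonneg
    rw [div_eq_mul_inv, v.ord_mul hg (inv_ne_zero hf), v.ord_inv]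
    omega
  have h1 : (1 + g / f) ∈ v.toValuationSubring := add_mem (one_mem _) hq
  have h1ne : (1 + g / f) ≠ 0 := by
    intro h0
    apply hfg
    have : f * (1 + g / f) = f + g := by field_simp
    rw [← this, h0, mul_zero]
  have : f + g = f * (1 + g / f) := by field_simp
  rw [this, v.ord_mul hf h1ne]
  have := ord_nonneg_of_mem v h1
  omega

theorem ord_add_eq_of_lt {f g : F} (h : v.ord f < v.ord g) (hf : f ≠ 0) :
    v.ord (f + g) = v.ord f := by
  rcases eq_or_ne g 0 with rfl | hg
  · simp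
  have hfg : f + g ≠ 0 := by
    intro h0
    have : g = -f := eq_neg_of_add_eq_zero_right h0
    rw [this, _root_.Fermat.Agent.S24.H117.ord_neg] at h
    exact lt_irrefl _ h
  apply le_antisymm
  · by_contra hlt
    push Not at hlt
    have h2 : min (v.ord (f + g)) (v.ord (-g)) ≤ v.ord ((f + g) + -g) :=
      ord_add_ge v (by simpa using hf)
    rw [add_neg_cancel_right, _root_.Fermat.Agent.S24.H117.ord_neg] at h2
    have : v.ord f < min (v.ord (f + g)) (v.ord g) := lt_min hlt h
    omega
  · have := ord_add_ge v hfg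
    rwa [min_eq_left h.le] at this

theorem ord_pow (f : F) (n : ℕ) : v.ord (f ^ n) = n * v.ord f := by
  have := v.ord_zpow f (n : ℤ)
  rwa [zpow_natCast] at this

theorem ord_div {f g : F} (hf : f ≠ 0) (hg : g ≠ 0) : v.ord (f / g) = v.ord f - v.ord g := by
  rw [div_eq_mul_inv, v.ord_mul hf (inv_ne_zero hg), v.ord_inv]; ring

theorem ne_zero_of_ord_ne_zero {f : F} (h : v.ord f ≠ 0) : f ≠ 0 := by
  rintro rfl
  exact h v.ord_zero

/-- Two places with the same non-negative-order elements are equal. -/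
theorem place_ext_of_le {v w : Place K F}
    (h : ∀ f : F, 0 ≤ v.ord f → 0 ≤ w.ord f) : v = w := by
  apply Place.ext
  have hle : v.toValuationSubring ≤ w.toValuationSubring := fun f hf =>
    mem_of_ord_nonneg w (h f (ord_nonneg_of_mem v hf))
  refine le_antisymm hle ?_
  intro f hf
  by_contra hfv
  have hf0 : f ≠ 0 := fun h0 => hfv (h0 ▸ zero_mem _)
  have hvf : v.ord f < 0 := by
    by_contra hge
    exact hfv (mem_of_ord_nonneg v (not_lt.mp hge))
  -- then `f⁻¹` has positive order at `v`, and every element is `u * (f⁻¹)^n`-bounded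
  obtain ⟨g, hg0, hg⟩ : ∃ g : F, g ≠ 0 ∧ w.ord g < 0 := by
    by_contra hcon
    push Not at hcon
    apply w.ne_top'
    refine SetLike.ext fun x => ⟨fun _ => ValuationSubring.mem_top x, fun _ => ?_⟩
    rcases eq_or_ne x 0 with rfl | hx
    · exact zero_mem _
    · exact mem_of_ord_nonneg w (hcon x hx)
  -- choose n with ord_v (g * f⁻¹ ^ n) ≥ 0
  have hfinv : 0 < v.ord f⁻¹ := by rw [v.ord_inv]; omega
  obtain ⟨n, hn⟩ : ∃ n : ℕ, 0 ≤ v.ord (g * f⁻¹ ^ n) := by
    refine ⟨(-v.ord g).toNat, ?_⟩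
    rw [v.ord_mul hg0 (pow_ne_zero _ (inv_ne_zero hf0)), ord_pow]
    have : (0:ℤ) ≤ ((-v.ord g).toNat : ℤ) := Int.natCast_nonneg _
    have h2 : -v.ord g ≤ ((-v.ord g).toNat : ℤ) := Int.self_le_toNat _
    nlinarith
  have hw := h _ hn
  rw [w.ord_mul hg0 (pow_ne_zero _ (inv_ne_zero hf0)), ord_pow, w.ord_inv] at hw
  have hwf : 0 ≤ w.ord f := ord_nonneg_of_mem w hf
  have : (n : ℤ) * -w.ord f ≤ 0 := by
    have : (0:ℤ) ≤ n := Int.natCast_nonneg _
    nlinarith
  omega

end Fermat.Agent.S24.H117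

end
end
-- ===== PACK-END S24/H117/PlaceBasic.lean

-- ===== PACK-BEGIN S24/H117/EmbPlace.lean
section


/-!
# S24 / H117 — the place induced by an embedding into Laurent series (LT1)

For a ring homomorphism `σ : F →+* LaurentSeries C` which is "constant on `K`" and nontrivial
(some element has nonzero order), `{f | 0 ≤ (σ f).order}` is a discrete valuation ring of `F`
containing `K`, i.e. a `Place K F`, and `(σ f).order = k * v.ord f` for a fixed `k > 0`.
-/

set_option autoImplicit false

noncomputable section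

open AlgebraicCurve

namespace Fermat.Agent.S24.H117

variable {K F : Type*} [Field K] [Field F] [Algebra K F]
variable {C : Type*} [Field C]

section Laurent

theorem order_inv' (g : LaurentSeries C) : (g⁻¹).order = -g.order := by
  rcases eq_or_ne g 0 with rfl | hg
  · simp
  have h := HahnSeries.order_mul hg (inv_ne_zero hg)
  rw [mul_inv_cancel₀ hg, HahnSeries.order_one] at h
  omega

theorem order_add_ge' {g h : LaurentSeries C} (hg : 0 ≤ g.order) (hh : 0 ≤ h.order) :
    0 ≤ (g + h).order := by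
  rcases eq_or_ne (g + h) 0 with h0 | h0
  · rw [h0, HahnSeries.order_zero]
  · exact le_trans (le_min hg hh) (HahnSeries.min_order_le_order_add h0)

/-- The valuation subring of `C((z))` of series of non-negative order. -/
def OL (C : Type*) [Field C] : ValuationSubring (LaurentSeries C) where
  carrier := {g | 0 ≤ g.order}
  mul_mem' := by
    intro a b ha hb
    simp only [Set.mem_ofPred_eq] at ha hb ⊢
    rcases eq_or_ne a 0 with rfl | ha0
    · simp
    rcases eq_or_ne b 0 with rfl | hb0
    · simp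
    rw [HahnSeries.order_mul ha0 hb0]
    omega
  one_mem' := by simp
  add_mem' := by
    intro a b ha hb
    exact order_add_ge' ha hb
  zero_mem' := by simp
  neg_mem' := by
    intro a ha
    simp only [Set.mem_ofPred_eq] at ha ⊢
    rwa [HahnSeries.order_neg]
  mem_or_inv_mem' := by
    intro a
    simp only [Set.mem_ofPred_eq]
    rw [order_inv']
    omega

@[simp]
theorem mem_OL {g : LaurentSeries C} : g ∈ OL C ↔ 0 ≤ g.order := Iff.rfl

end Laurent

section Emb

variable (σ : F →+* LaurentSeries C)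

/-- The order function of an embedding. -/
def eord (f : F) : ℤ := (σ f).order

@[simp] theorem eord_zero : eord σ 0 = 0 := by simp [eord]

@[simp] theorem eord_one : eord σ 1 = 0 := by simp [eord]

theorem eord_mul {f g : F} (hf : f ≠ 0) (hg : g ≠ 0) :
    eord σ (f * g) = eord σ f + eord σ g := by
  simp only [eord, map_mul]
  exact HahnSeries.order_mul ((map_ne_zero σ).mpr hf) ((map_ne_zero σ).mpr hg)

theorem eord_inv (f : F) : eord σ f⁻¹ = -eord σ f := by
  simp only [eord, map_inv₀]
  exact order_inv' _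

theorem eord_pow (f : F) (n : ℕ) : eord σ (f ^ n) = n * eord σ f := by
  simp only [eord, map_pow, HahnSeries.order_pow, nsmul_eq_mul]

theorem eord_zpow (f : F) (n : ℤ) : eord σ (f ^ n) = n * eord σ f := by
  cases n with
  | ofNat n => simpa using eord_pow σ f n
  | negSucc n =>
    rw [zpow_negSucc, eord_inv, eord_pow]
    simp only [Int.negSucc_eq]
    push_cast
    ring

theorem eord_neg (f : F) : eord σ (-f) = eord σ f := by
  simp only [eord, map_neg, HahnSeries.order_neg]

theorem eord_add_ge {f g : F} (hfg : f + g ≠ 0) :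
    min (eord σ f) (eord σ g) ≤ eord σ (f + g) := by
  simp only [eord, map_add]
  apply HahnSeries.min_order_le_order_add
  rw [← map_add]
  exact (map_ne_zero σ).mpr hfg

/-- The valuation subring of `F` induced by `σ`. -/
def embRing : ValuationSubring F := (OL C).comap σ

@[simp]
theorem mem_embRing {f : F} : f ∈ embRing σ ↔ 0 ≤ eord σ f := Iff.rfl

theorem coe_ne_zero_embRing {a : embRing σ} (ha : a ≠ 0) : (a : F) ≠ 0 :=
  fun h => ha (Subtype.ext h)

theorem isUnit_embRing_iff {a : embRing σ} (ha : a ≠ 0) : IsUnit a ↔ eord σ (a : F) = 0 := by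
  have ha0 : (a : F) ≠ 0 := coe_ne_zero_embRing σ ha
  constructor
  · intro h
    obtain ⟨b, hb⟩ := isUnit_iff_exists_inv.mp h
    have hb' : (a : F) * (b : F) = 1 := congrArg Subtype.val hb
    have hbne : (b : F) ≠ 0 := by
      intro h0
      rw [h0, mul_zero] at hb'
      exact zero_ne_one hb'
    have hsum := eord_mul σ ha0 hbne
    rw [hb', eord_one] at hsum
    have h1 : 0 ≤ eord σ (a : F) := a.2
    have h2 : 0 ≤ eord σ (b : F) := b.2
    omega
  · intro h0
    have hinv : (a : F)⁻¹ ∈ embRing σ := by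
      rw [mem_embRing, eord_inv]; omega
    exact ⟨⟨a, ⟨(a : F)⁻¹, hinv⟩, Subtype.ext (mul_inv_cancel₀ ha0),
      Subtype.ext (inv_mul_cancel₀ ha0)⟩, rfl⟩

/-- If some element has nonzero order, then `embRing σ` is a discrete valuation ring: there is
an element `π` of minimal positive order `k`, and every order is a multiple of `k`. -/
theorem exists_min_pos (hnt : ∃ t : F, eord σ t ≠ 0) :
    ∃ (k : ℕ) (π : F), 0 < k ∧ π ≠ 0 ∧ eord σ π = k ∧ ∀ f : F, (k : ℤ) ∣ eord σ f := by
  classical
  obtain ⟨t, ht⟩ := hnt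
  have hex : ∃ n : ℕ, 0 < n ∧ ∃ f : F, eord σ f = n := by
    rcases lt_or_gt_of_ne ht with h | h
    · refine ⟨(eord σ t⁻¹).toNat, ?_, t⁻¹, ?_⟩
      · rw [eord_inv]; omega
      · rw [eord_inv]; omega
    · exact ⟨(eord σ t).toNat, by omega, t, by omega⟩
  let k := Nat.find hex
  obtain ⟨hk0, π, hπ⟩ := Nat.find_spec hex
  have hmin : ∀ n : ℕ, 0 < n → (∃ f : F, eord σ f = n) → k ≤ n := fun n hn hf =>
    Nat.find_min' hex ⟨hn, hf⟩
  have hπ0 : π ≠ 0 := by
    rintro rfl
    rw [eord_zero] at hπ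
    have : (k : ℤ) = 0 := hπ.symm
    have hk0' : 0 < k := hk0
    omega
  refine ⟨k, π, hk0, hπ0, hπ, fun f => ?_⟩
  rcases eq_or_ne f 0 with rfl | hf
  · simp
  -- division with remainder
  set q := eord σ f / (k : ℤ) with hq
  set r := eord σ f % (k : ℤ) with hr
  have hk0' : (0 : ℤ) < k := by exact_mod_cast hk0
  have hr0 : 0 ≤ r := Int.emod_nonneg _ hk0'.ne'
  have hrk : r < k := Int.emod_lt_of_pos _ hk0'
  have hdecomp : eord σ f = k * q + r := (Int.mul_ediv_add_emod _ _).symm
  have hg : eord σ (f * π ^ (-q)) = r := by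
    rw [eord_mul σ hf (zpow_ne_zero _ hπ0), eord_zpow, hπ, hdecomp]
    ring
  by_cases hr' : r = 0
  · exact Int.dvd_of_emod_eq_zero hr'
  · exfalso
    have := hmin r.toNat (by omega) ⟨_, by rw [hg]; omega⟩
    have hk0'' : 0 < k := hk0
    omega

theorem isDiscreteValuationRing_embRing (hnt : ∃ t : F, eord σ t ≠ 0) :
    IsDiscreteValuationRing (embRing σ) := by
  obtain ⟨k, π, hk0, hπ0, hπ, hdvd⟩ := exists_min_pos σ hnt
  have hπmem : π ∈ embRing σ := by rw [mem_embRing, hπ]; positivity
  have hk0' : (0 : ℤ) < k := by exact_mod_cast hk0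
  apply IsDiscreteValuationRing.ofHasUnitMulPowIrreducibleFactorization
  refine ⟨⟨π, hπmem⟩, ?_, ?_⟩
  · -- irreducible
    have hπne : (⟨π, hπmem⟩ : embRing σ) ≠ 0 := fun h => hπ0 (congrArg Subtype.val h)
    refine ⟨fun hu => ?_, fun a b hab => ?_⟩
    · have := (isUnit_embRing_iff σ hπne).mp hu
      simp only at this
      omega
    · have hab' : π = (a : F) * (b : F) := congrArg Subtype.val hab
      have ha0 : a ≠ 0 := by
        rintro rfl
        apply hπ0
        simpa using hab'
      have hb0 : b ≠ 0 := by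
        rintro rfl
        apply hπ0
        simpa using hab'
      have ha0' : (a : F) ≠ 0 := coe_ne_zero_embRing σ ha0
      have hb0' : (b : F) ≠ 0 := coe_ne_zero_embRing σ hb0
      have hsum := eord_mul σ ha0' hb0'
      rw [← hab', hπ] at hsum
      obtain ⟨ca, hca⟩ := hdvd (a : F)
      obtain ⟨cb, hcb⟩ := hdvd (b : F)
      have h1 : 0 ≤ eord σ (a : F) := a.2
      have h2 : 0 ≤ eord σ (b : F) := b.2
      rw [isUnit_embRing_iff σ ha0, isUnit_embRing_iff σ hb0]
      have hca0 : 0 ≤ ca := by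
        by_contra hneg
        push Not at hneg
        rw [hca] at h1
        nlinarith
      have hcb0 : 0 ≤ cb := by
        by_contra hneg
        push Not at hneg
        rw [hcb] at h2
        nlinarith
      have hsum' : (k : ℤ) * (ca + cb) = k * 1 := by rw [hca, hcb] at hsum; linarith
      have h3 : ca + cb = 1 := mul_left_cancel₀ hk0'.ne' hsum'
      rcases (show ca = 0 ∨ cb = 0 by omega) with h | h
      · left; rw [hca, h, mul_zero]
      · right; rw [hcb, h, mul_zero]
  · intro x hx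
    have hx0 : (x : F) ≠ 0 := coe_ne_zero_embRing σ hx
    obtain ⟨c, hc⟩ := hdvd (x : F)
    have hxnn : 0 ≤ eord σ (x : F) := x.2
    have hc0 : 0 ≤ c := by
      by_contra hneg
      push Not at hneg
      rw [hc] at hxnn
      nlinarith
    refine ⟨c.toNat, ?_⟩
    have hu : eord σ ((x : F) * (π ^ c.toNat)⁻¹) = 0 := by
      rw [eord_mul σ hx0 (inv_ne_zero (pow_ne_zero _ hπ0)), eord_inv, eord_pow, hπ, hc]
      have : ((c.toNat : ℕ) : ℤ) = c := Int.toNat_of_nonneg hc0
      rw [this]; ring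
    have hmem : (x : F) * (π ^ c.toNat)⁻¹ ∈ embRing σ := by
      rw [mem_embRing, hu]
    have hne : (⟨_, hmem⟩ : embRing σ) ≠ 0 := fun h =>
      (mul_ne_zero hx0 (inv_ne_zero (pow_ne_zero _ hπ0))) (congrArg Subtype.val h)
    have hunit : IsUnit (⟨_, hmem⟩ : embRing σ) := (isUnit_embRing_iff σ hne).mpr hu
    refine ⟨hunit.unit, ?_⟩
    apply Subtype.ext
    have hπpow : π ^ c.toNat ≠ 0 := pow_ne_zero _ hπ0
    show π ^ c.toNat * ((x : F) * (π ^ c.toNat)⁻¹) = (x : F)
    field_simp

/-- The place of `F/K` induced by an embedding `σ : F → C((z))` which has non-negative order on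
the constants and is nontrivial. -/
def placeOfEmb (hK : ∀ c : K, 0 ≤ eord σ (algebraMap K F c)) (hnt : ∃ t : F, eord σ t ≠ 0) :
    Place K F where
  toValuationSubring := embRing σ
  algebraMap_mem' := hK
  ne_top' := by
    obtain ⟨t, ht⟩ := hnt
    intro htop
    have h1 : t ∈ embRing σ := htop ▸ ValuationSubring.mem_top t
    have h2 : t⁻¹ ∈ embRing σ := htop ▸ ValuationSubring.mem_top t⁻¹
    rw [mem_embRing] at h1 h2
    rw [eord_inv] at h2
    omega
  isPrincipalIdealRing' :=
    haveI := isDiscreteValuationRing_embRing σ hnt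
    inferInstance

@[simp]
theorem placeOfEmb_toValuationSubring (hK : ∀ c : K, 0 ≤ eord σ (algebraMap K F c))
    (hnt : ∃ t : F, eord σ t ≠ 0) :
    (placeOfEmb σ hK hnt).toValuationSubring = embRing σ := rfl

/-- If the valuation ring of a place `v` is `{f | 0 ≤ ord (σ f)}`, then `ord ∘ σ = k * v.ord`
for some `k > 0`. -/
theorem exists_mult_of_eq (v : Place K F) (hv : v.toValuationSubring = embRing σ) :
    ∃ k : ℕ, 0 < k ∧ ∀ f : F, eord σ f = k * v.ord f := by
  have hmem : ∀ f : F, f ∈ v.toValuationSubring ↔ 0 ≤ eord σ f := fun f => by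
    rw [hv]; rfl
  obtain ⟨π, hπ⟩ := IsDiscreteValuationRing.exists_irreducible v.toValuationSubring
  have hπ0 : (π : F) ≠ 0 := fun h => hπ.ne_zero (Subtype.ext h)
  have hπnn : 0 ≤ eord σ (π : F) := (hmem _).mp π.2
  have hπpos : 0 < eord σ (π : F) := by
    rcases hπnn.lt_or_eq with h | h
    · exact h
    · exfalso
      have hinv : (π : F)⁻¹ ∈ v.toValuationSubring := by
        rw [hmem, eord_inv]; omega
      apply hπ.not_isUnit
      exact ⟨⟨π, ⟨(π : F)⁻¹, hinv⟩, Subtype.ext (mul_inv_cancel₀ hπ0),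
        Subtype.ext (inv_mul_cancel₀ hπ0)⟩, rfl⟩
  refine ⟨(eord σ (π : F)).toNat, by omega, fun f => ?_⟩
  rcases eq_or_ne f 0 with rfl | hf
  · simp
  obtain ⟨u, hu⟩ := v.exists_unit_mul_zpow hf hπ
  have hu0 : ((u : v.toValuationSubring) : F) ≠ 0 := by
    intro h
    exact u.ne_zero (Subtype.ext h)
  have hu1 : 0 ≤ eord σ ((u : v.toValuationSubring) : F) := (hmem _).mp (u : v.toValuationSubring).2
  have hu2 : 0 ≤ eord σ (((u⁻¹ : v.toValuationSubringˣ) : v.toValuationSubring) : F) :=
    (hmem _).mp ((u⁻¹ : v.toValuationSubringˣ) : v.toValuationSubring).2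
  have hmul : ((u : v.toValuationSubring) : F)
      * (((u⁻¹ : v.toValuationSubringˣ) : v.toValuationSubring) : F) = 1 := by
    exact congrArg Subtype.val (Units.mul_inv u)
  have hu2' : eord σ (((u⁻¹ : v.toValuationSubringˣ) : v.toValuationSubring) : F)
      = - eord σ ((u : v.toValuationSubring) : F) := by
    rw [← eord_inv]
    congr 1
    exact eq_inv_of_mul_eq_one_right hmul
  have hu3 : eord σ ((u : v.toValuationSubring) : F) = 0 := by omega
  conv_lhs => rw [hu]
  rw [eord_mul σ hu0 (zpow_ne_zero _ hπ0), eord_zpow, hu3, zero_add,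
    Int.toNat_of_nonneg hπnn]
  ring

theorem exists_mult (hK : ∀ c : K, 0 ≤ eord σ (algebraMap K F c))
    (hnt : ∃ t : F, eord σ t ≠ 0) :
    ∃ k : ℕ, 0 < k ∧ ∀ f : F, eord σ f = k * (placeOfEmb σ hK hnt).ord f :=
  exists_mult_of_eq σ _ rfl

end Emb

section LocalDataPlaces

variable {X : Type*} {t : F} (L : LocalData K F C X t)

theorem eord_const (x : X) (c : K) : eord (L.σ x) (algebraMap K F c) = 0 := by
  simp only [eord, L.σ_const, HahnSeries.order_C]

theorem eord_t (x : X) : eord (L.σ x) t = L.m := L.σ_t_order x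

theorem nontrivial_σ (x : X) : ∃ s : F, eord (L.σ x) s ≠ 0 :=
  ⟨t, by rw [eord_t]; exact_mod_cast L.m_pos.ne'⟩

/-- **LT1.** The place of `F/K` induced by the embedding `L.σ x`. -/
def placeOf (x : X) : Place K F :=
  placeOfEmb (L.σ x) (fun c => (eord_const L x c).ge) (nontrivial_σ L x)

theorem exists_mult_placeOf (x : X) :
    ∃ k : ℕ, 0 < k ∧ ∀ f : F, ((L.σ x) f).order = k * (placeOf L x).ord f :=
  exists_mult (L.σ x) _ _

/-- The multiplicity `k_x` with `ord_z ∘ σ_x = k_x * ord_{v_x}`. -/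
def mult (x : X) : ℕ := (exists_mult_placeOf L x).choose

theorem mult_pos (x : X) : 0 < mult L x := (exists_mult_placeOf L x).choose_spec.1

theorem order_eq (x : X) (f : F) :
    ((L.σ x) f).order = mult L x * (placeOf L x).ord f :=
  (exists_mult_placeOf L x).choose_spec.2 f

theorem mem_placeOf_iff (x : X) (f : F) :
    f ∈ (placeOf L x).toValuationSubring ↔ 0 ≤ ((L.σ x) f).order := Iff.rfl

theorem ord_placeOf_nonneg_iff (x : X) (f : F) :
    0 ≤ (placeOf L x).ord f ↔ 0 ≤ ((L.σ x) f).order := by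
  rw [← mem_iff_ord_nonneg]; rfl

theorem mult_mul_ord_t (x : X) : (mult L x : ℤ) * (placeOf L x).ord t = L.m := by
  rw [← order_eq, L.σ_t_order]

theorem ord_t_pos (x : X) : 0 < (placeOf L x).ord t := by
  have h := mult_mul_ord_t L x
  have hk : (0 : ℤ) < mult L x := by exact_mod_cast mult_pos L x
  have hm : (0 : ℤ) < L.m := by exact_mod_cast L.m_pos
  by_contra hcon
  push Not at hcon
  nlinarith

theorem placeOf_perm (x : X) : placeOf L (L.perm x) = placeOf L x := by
  apply Place.ext
  ext f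
  show 0 ≤ ((L.σ (L.perm x)) f).order ↔ 0 ≤ ((L.σ x) f).order
  rw [L.σ_perm_order]

theorem mult_perm (x : X) : mult L (L.perm x) = mult L x := by
  obtain ⟨π, hπ0, hπ⟩ := exists_ord_eq_one (placeOf L x)
  have h1 := order_eq L x π
  have h2 := order_eq L (L.perm x) π
  rw [L.σ_perm_order, placeOf_perm, h1, hπ] at h2
  have : (mult L x : ℤ) = mult L (L.perm x) := by linarith
  exact_mod_cast this.symm

end LocalDataPlaces

end Fermat.Agent.S24.H117

end
end
-- ===== PACK-END S24/H117/EmbPlace.lean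

-- ===== PACK-BEGIN S24/H117/RatFun.lean
section


/-!
# S24 / H117 — orders of rational functions of `t` at places over `t = 0`

If `0 < v.ord t` then for every `e ∈ K⟮t⟯` the order `v.ord e` is `n * v.ord t` for an integer
`n` depending only on `e` (the `t`-adic order of `e`).
-/

set_option autoImplicit false

noncomputable section

open AlgebraicCurve Polynomial IntermediateField

namespace Fermat.Agent.S24.H117

variable {K F : Type*} [Field K] [Field F] [Algebra K F]

theorem aeval_mem_place (v : Place K F) {t : F} (hv : 0 ≤ v.ord t) (p : K[X]) :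
    aeval t p ∈ v.toValuationSubring := by
  rw [aeval_eq_sum_range]
  refine Subring.sum_mem v.toValuationSubring.toSubring (fun i _ => ?_)
  rw [Algebra.smul_def]
  exact mul_mem (v.algebraMap_mem' _) (pow_mem (mem_of_ord_nonneg v hv) _)

theorem ord_aeval_of_coeff_zero_ne (v : Place K F) {t : F} (hv : 0 < v.ord t) (q : K[X])
    (hq : q.coeff 0 ≠ 0) : v.ord (aeval t q) = 0 := by
  have hdecomp : aeval t q = algebraMap K F (q.coeff 0) + aeval t q.divX * t := by
    conv_lhs => rw [← divX_mul_X_add q]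
    simp only [map_add, map_mul, aeval_X, aeval_C]
    ring
  have hc : v.ord (algebraMap K F (q.coeff 0)) = 0 := _root_.Fermat.Agent.S24.H117.ord_algebraMap v _
  have hc0 : algebraMap K F (q.coeff 0) ≠ 0 := by simpa using hq
  rw [hdecomp]
  rcases eq_or_ne (aeval t q.divX * t) 0 with h0 | h0
  · rw [h0, add_zero, hc]
  · have ht0 : t ≠ 0 := right_ne_zero_of_mul h0
    have hd0 : aeval t q.divX ≠ 0 := left_ne_zero_of_mul h0
    have h1 : 0 ≤ v.ord (aeval t q.divX) :=
      ord_nonneg_of_mem v (aeval_mem_place v hv.le _)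
    have h2 : 0 < v.ord (aeval t q.divX * t) := by
      rw [v.ord_mul hd0 ht0]; omega
    rw [ord_add_eq_of_lt v (by rw [hc]; exact h2) hc0, hc]

theorem ord_aeval_eq (v : Place K F) {t : F} (hv : 0 < v.ord t) (p : K[X]) (hp : p ≠ 0) :
    aeval t p ≠ 0 ∧ v.ord (aeval t p) = (p.rootMultiplicity 0 : ℤ) * v.ord t := by
  obtain ⟨q, hpq, hq⟩ := exists_eq_pow_rootMultiplicity_mul_and_not_dvd p hp 0
  have hq0 : q.coeff 0 ≠ 0 := by
    intro h
    apply hq
    rw [C_0, sub_zero]
    exact X_dvd_iff.mpr h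
  have ht0 : t ≠ 0 := ne_zero_of_ord_ne_zero v hv.ne'
  have hqu := ord_aeval_of_coeff_zero_ne v hv q hq0
  have hqne : aeval t q ≠ 0 := by
    intro h
    have hdecomp : aeval t q = algebraMap K F (q.coeff 0) + aeval t q.divX * t := by
      conv_lhs => rw [← divX_mul_X_add q]
      simp only [map_add, map_mul, aeval_X, aeval_C]
      ring
    -- if `aeval t q = 0` then the constant term has positive order
    have hc0 : algebraMap K F (q.coeff 0) ≠ 0 := by simpa using hq0
    have hc : v.ord (algebraMap K F (q.coeff 0)) = 0 := _root_.Fermat.Agent.S24.H117.ord_algebraMap v _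
    have heq : algebraMap K F (q.coeff 0) = -(aeval t q.divX * t) := by
      rw [h] at hdecomp
      exact eq_neg_of_add_eq_zero_left hdecomp.symm
    have hne : aeval t q.divX * t ≠ 0 := by
      intro h0
      rw [h0, neg_zero] at heq
      exact hc0 heq
    have hd0 : aeval t q.divX ≠ 0 := left_ne_zero_of_mul hne
    have h1 : 0 ≤ v.ord (aeval t q.divX) :=
      ord_nonneg_of_mem v (aeval_mem_place v hv.le _)
    rw [heq, _root_.Fermat.Agent.S24.H117.ord_neg, v.ord_mul hd0 ht0] at hc
    omega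
  have hval : aeval t p = t ^ p.rootMultiplicity 0 * aeval t q := by
    conv_lhs => rw [hpq]
    simp only [C_0, sub_zero, map_mul, map_pow, aeval_X]
  refine ⟨?_, ?_⟩
  · rw [hval]
    exact mul_ne_zero (pow_ne_zero _ ht0) hqne
  · rw [hval, v.ord_mul (pow_ne_zero _ ht0) hqne, ord_pow, hqu, add_zero]

/-- The order at a place over `t = 0` of an element of `K(t)` is a fixed multiple of `ord t`. -/
theorem exists_ord_eq_mul_of_mem_adjoin {t e : F} (he : e ∈ K⟮t⟯) :
    ∃ n : ℤ, ∀ v : Place K F, 0 < v.ord t → v.ord e = n * v.ord t := by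
  obtain ⟨r, s, rfl⟩ := (mem_adjoin_simple_iff K e).mp he
  by_cases hr : r = 0
  · exact ⟨0, fun v _ => by simp [hr]⟩
  by_cases hs : s = 0
  · exact ⟨0, fun v _ => by simp [hs]⟩
  refine ⟨(r.rootMultiplicity 0 : ℤ) - s.rootMultiplicity 0, fun v hv => ?_⟩
  obtain ⟨hr1, hr2⟩ := ord_aeval_eq v hv r hr
  obtain ⟨hs1, hs2⟩ := ord_aeval_eq v hv s hs
  rw [ord_div v hr1 hs1, hr2, hs2]
  ring

/-- Transfer of integrality on `K(t)` between two places over `t = 0`. -/
theorem ord_nonneg_of_mem_adjoin {t e : F} (he : e ∈ K⟮t⟯) {v w : Place K F}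
    (hv : 0 < v.ord t) (hw : 0 < w.ord t) (h : 0 ≤ w.ord e) : 0 ≤ v.ord e := by
  obtain ⟨n, hn⟩ := exists_ord_eq_mul_of_mem_adjoin (K := K) he
  rw [hn w hw] at h
  rw [hn v hv]
  have hn0 : 0 ≤ n := by
    by_contra hneg
    push Not at hneg
    nlinarith
  positivity

end Fermat.Agent.S24.H117

end
end
-- ===== PACK-END S24/H117/RatFun.lean

-- ===== PACK-BEGIN S24/H117/Approx.lean
section


/-!
# S24 / H117 — a weak approximation lemma for places

For a place `v` and a finite set `s` of places not containing `v`, there is `f : F` with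
`v.ord f < 0` and `0 < w.ord f` for all `w ∈ s`.
-/

set_option autoImplicit false

noncomputable section

open AlgebraicCurve

namespace Fermat.Agent.S24.H117

variable {K F : Type*} [Field K] [Field F] [Algebra K F]

/-- Two distinct places are separated by a function. -/
theorem exists_ord_pos_neg {v w : Place K F} (h : v ≠ w) :
    ∃ y : F, 0 < v.ord y ∧ w.ord y < 0 := by
  have h1 : ∃ a : F, 0 ≤ v.ord a ∧ w.ord a < 0 := by
    by_contra hcon
    push Not at hcon
    exact h (place_ext_of_le hcon)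
  have h2 : ∃ b : F, 0 ≤ w.ord b ∧ v.ord b < 0 := by
    by_contra hcon
    push Not at hcon
    exact h (place_ext_of_le hcon).symm
  obtain ⟨a, ha1, ha2⟩ := h1
  obtain ⟨b, hb1, hb2⟩ := h2
  have ha0 : a ≠ 0 := ne_zero_of_ord_ne_zero w ha2.ne
  have hb0 : b ≠ 0 := ne_zero_of_ord_ne_zero v hb2.ne
  refine ⟨a / b, ?_, ?_⟩
  · rw [ord_div v ha0 hb0]; omega
  · rw [ord_div w ha0 hb0]; omega

/-- There is a function with a zero at `v` and poles at all places of `s`. -/
theorem exists_ord_pos_forall_neg (v : Place K F) (s : Finset (Place K F)) (hv : v ∉ s) :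
    ∃ u : F, 0 < v.ord u ∧ ∀ w ∈ s, w.ord u < 0 := by
  classical
  induction s using Finset.induction_on with
  | empty =>
    obtain ⟨π, -, hπ⟩ := exists_ord_eq_one v
    exact ⟨π, by omega, by simp⟩
  | insert w s hw ih =>
    have hvs : v ∉ s := fun h => hv (Finset.mem_insert_of_mem h)
    have hvw : v ≠ w := fun h => hv (h ▸ Finset.mem_insert_self _ _)
    obtain ⟨u, hu1, hu2⟩ := ih hvs
    by_cases hwu : w.ord u < 0
    · refine ⟨u, hu1, fun w' hw' => ?_⟩
      rcases Finset.mem_insert.mp hw' with rfl | h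
      · exact hwu
      · exact hu2 w' h
    · push Not at hwu
      obtain ⟨y, hy1, hy2⟩ := exists_ord_pos_neg hvw
      have hu0 : u ≠ 0 := ne_zero_of_ord_ne_zero v hu1.ne'
      have hy0 : y ≠ 0 := ne_zero_of_ord_ne_zero v hy1.ne'
      -- choose a large exponent
      obtain ⟨N, hN1, hNbig⟩ : ∃ N : ℕ, 1 ≤ N ∧ ∀ w' ∈ s, (w'.ord u).natAbs < N := by
        refine ⟨1 + ∑ w' ∈ s, (w'.ord u).natAbs, by omega, fun w' hw' => ?_⟩
        have := Finset.single_le_sum (f := fun w' : Place K F => (w'.ord u).natAbs)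
          (fun _ _ => Nat.zero_le _) hw'
        have h2 : (w'.ord u).natAbs ≤ ∑ w' ∈ s, (w'.ord u).natAbs := this
        omega
      have hyN0 : y ^ N ≠ 0 := pow_ne_zero _ hy0
      have hwlt : w.ord (y ^ N) < w.ord u := by
        rw [ord_pow]
        have : (N : ℤ) * w.ord y < 0 := by
          have : (1 : ℤ) ≤ N := by exact_mod_cast hN1
          nlinarith
        omega
      have hsum_w : w.ord (u + y ^ N) = w.ord (y ^ N) := by
        rw [add_comm]
        exact ord_add_eq_of_lt w hwlt hyN0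
      have hne : u + y ^ N ≠ 0 := by
        apply ne_zero_of_ord_ne_zero w
        rw [hsum_w, ord_pow]
        have : (1 : ℤ) ≤ N := by exact_mod_cast hN1
        nlinarith
      refine ⟨u + y ^ N, ?_, fun w' hw' => ?_⟩
      · have := ord_add_ge v hne
        have h2 : 0 < v.ord (y ^ N) := by
          rw [ord_pow]
          have : (1 : ℤ) ≤ N := by exact_mod_cast hN1
          nlinarith
        have : 0 < min (v.ord u) (v.ord (y ^ N)) := lt_min hu1 h2
        omega
      · rcases Finset.mem_insert.mp hw' with rfl | h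
        · rw [hsum_w, ord_pow]
          have : (1 : ℤ) ≤ N := by exact_mod_cast hN1
          nlinarith
        · have hu' := hu2 w' h
          have hbig := hNbig w' h
          have hneq : w'.ord (y ^ N) ≠ w'.ord u := by
            rw [ord_pow]
            intro heq
            rcases eq_or_ne (w'.ord y) 0 with h0 | h0
            · rw [h0, mul_zero] at heq
              omega
            · have h1 : (w'.ord u).natAbs = N * (w'.ord y).natAbs := by
                rw [← heq, Int.natAbs_mul, Int.natAbs_natCast]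
              have h2 : 1 ≤ (w'.ord y).natAbs := Int.natAbs_pos.mpr h0
              have h3 : N ≤ N * (w'.ord y).natAbs := Nat.le_mul_of_pos_right N h2
              omega
          rcases lt_or_gt_of_ne hneq with hlt | hgt
          · rw [add_comm, ord_add_eq_of_lt w' hlt hyN0]
            omega
          · rw [ord_add_eq_of_lt w' hgt hu0]
            exact hu'

/-- **Weak approximation (the form we need).** -/
theorem exists_ord_neg_forall_pos (v : Place K F) (s : Finset (Place K F)) (hv : v ∉ s) :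
    ∃ f : F, v.ord f < 0 ∧ ∀ w ∈ s, 0 < w.ord f := by
  obtain ⟨u, hu1, hu2⟩ := exists_ord_pos_forall_neg v s hv
  refine ⟨u⁻¹, ?_, fun w hw => ?_⟩
  · rw [v.ord_inv]; omega
  · rw [w.ord_inv]
    have := hu2 w hw
    omega

end Fermat.Agent.S24.H117

end
end
-- ===== PACK-END S24/H117/Approx.lean

-- ===== PACK-BEGIN S24/Mod/H997Frac.lean
section


/-!
# S24 / MOD — the polynomial ring `R_N = ℚ̄[j(q^d) : d ∣ N]` inside the function field `FF N`

* `RN N`   : the `ℚ̄`-subalgebra of `ℚ̄((q))` generated by the `j(q^d)`, `d ∣ N`;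
* `inclRN` : the inclusion `RN N → FF N`;
* `liftF`  : every injective ring hom `RN N →+* L` into a field extends uniquely to `FF N →+* L`.
-/

set_option autoImplicit false

noncomputable section

open ModularCurve HahnSeries IntermediateField

namespace Fermat.Agent.S24.H997

variable (N : ℕ)

/-- The generators `j(q^d)`, `d ∣ N`, as Laurent series over `ℚ̄`. -/
def gensBar : Set (LaurentSeries Kbar) := ⇑(coeffEmb Kbar) '' divisorExpansions N

/-- The function field of `X₀(N)` over `ℚ̄` is generated over `ℚ̄` by the `j(q^d)`, `d ∣ N`. -/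
theorem modularFunctionFieldBar_eq_adjoin :
    modularFunctionFieldBar N = IntermediateField.adjoin Kbar (gensBar N) := by
  apply le_antisymm
  · show laurentBaseChange Kbar (modularFunctionFieldFull N) ≤ _
    rw [laurentBaseChange, IntermediateField.adjoin_le_iff]
    rintro _ ⟨x, hx, rfl⟩
    have hx' : x ∈ IntermediateField.adjoin ℚ (divisorExpansions N) := hx
    induction hx' using IntermediateField.adjoin_induction with
    | mem y hy => exact IntermediateField.subset_adjoin Kbar _ ⟨y, hy, rfl⟩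
    | algebraMap c =>
        have h : coeffEmb Kbar (algebraMap ℚ (LaurentSeries ℚ) c)
            = algebraMap Kbar (LaurentSeries Kbar) (algebraMap ℚ Kbar c) := by
          rw [algebraMap_apply_eq_single, algebraMap_laurentSeries_eq_single, coeffEmb,
            coeffMap_single]
        show coeffEmb Kbar (algebraMap ℚ (LaurentSeries ℚ) c) ∈ _
        rw [h]
        exact IntermediateField.algebraMap_mem _ _
    | add y z _ _ hy hz =>
        show coeffEmb Kbar (y + z) ∈ _
        rw [map_add]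
        exact add_mem (hy (by assumption)) (hz (by assumption))
    | inv y _ hy =>
        show coeffEmb Kbar (y⁻¹) ∈ _
        rw [map_inv₀]
        exact inv_mem (hy (by assumption))
    | mul y z _ _ hy hz =>
        show coeffEmb Kbar (y * z) ∈ _
        rw [map_mul]
        exact mul_mem (hy (by assumption)) (hz (by assumption))
  · show _ ≤ laurentBaseChange Kbar (modularFunctionFieldFull N)
    rw [laurentBaseChange]
    exact IntermediateField.adjoin.mono _ _ _
      (Set.image_mono (IntermediateField.subset_adjoin ℚ _))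

/-- The polynomial ring `ℚ̄[j(q^d) : d ∣ N] ⊆ ℚ̄((q))`. -/
def RN : Subalgebra Kbar (LaurentSeries Kbar) := Algebra.adjoin Kbar (gensBar N)

theorem RN_le : RN N ≤ (modularFunctionFieldBar N).toSubalgebra := by
  rw [modularFunctionFieldBar_eq_adjoin]
  exact IntermediateField.algebra_adjoin_le_adjoin Kbar (gensBar N)

/-- The inclusion `R_N → FF N`. -/
def inclRN : RN N →ₐ[Kbar] FF N := Subalgebra.inclusion (RN_le N)

@[simp] theorem coe_inclRN (r : RN N) : ((inclRN N r : FF N) : LaurentSeries Kbar) = r := rfl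

theorem inclRN_injective : Function.Injective (inclRN N) :=
  Subalgebra.inclusion_injective (RN_le N)

theorem exists_div_inclRN (f : FF N) :
    ∃ r t : RN N, t ≠ 0 ∧ f = inclRN N r / inclRN N t := by
  have hf : (f : LaurentSeries Kbar) ∈ IntermediateField.adjoin Kbar (gensBar N) := by
    rw [← modularFunctionFieldBar_eq_adjoin]; exact f.2
  obtain ⟨r, hr, s, hs, h⟩ := IntermediateField.mem_adjoin_iff_div.mp hf
  by_cases hs0 : s = 0
  · refine ⟨0, 1, one_ne_zero, ?_⟩
    apply Subtype.ext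
    rw [h, hs0, div_zero]
    simp
  · refine ⟨⟨r, hr⟩, ⟨s, hs⟩, fun h0 => hs0 (congrArg Subtype.val h0), ?_⟩
    apply Subtype.ext
    rw [h]
    simp

/-- The generator `j(q^d)` as an element of `R_N`. -/
def jR (d : ℕ) [NeZero d] (hd : d ∣ N) : RN N :=
  ⟨coeffEmb Kbar (qExpand ℚ d jq),
    Algebra.subset_adjoin ⟨_, mem_divisorExpansions N hd, rfl⟩⟩

theorem inclRN_jR_one [NeZero N] : inclRN N (jR N 1 (one_dvd N)) = jF N := by
  apply Subtype.ext
  simp [jR, jF, qExpand_one_apply]

section Lift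

variable {N}
variable {L : Type*} [Field L]

/-- Extension of an injective ring hom `R_N →+* L` to the fraction field `FF N`. -/
def liftF (s : RN N →+* L) (hs : Function.Injective s) : FF N →+* L :=
  letI : Algebra (RN N) (FF N) := (inclRN N).toRingHom.toAlgebra
  haveI : FaithfulSMul (RN N) (FF N) :=
    (faithfulSMul_iff_algebraMap_injective _ _).mpr (inclRN_injective N)
  haveI : IsFractionRing (RN N) (FF N) :=
    IsFractionRing.of_field _ _ fun z => by
      obtain ⟨r, t, -, h⟩ := exists_div_inclRN N z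
      exact ⟨r, t, h⟩
  IsFractionRing.lift hs

theorem liftF_inclRN (s : RN N →+* L) (hs : Function.Injective s) (r : RN N) :
    liftF s hs (inclRN N r) = s r := by
  let _ : Algebra (RN N) (FF N) := (inclRN N).toRingHom.toAlgebra
  have : FaithfulSMul (RN N) (FF N) :=
    (faithfulSMul_iff_algebraMap_injective _ _).mpr (inclRN_injective N)
  have : IsFractionRing (RN N) (FF N) :=
    IsFractionRing.of_field _ _ fun z => by
      obtain ⟨r, t, -, h⟩ := exists_div_inclRN N z
      exact ⟨r, t, h⟩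
  exact IsFractionRing.lift_algebraMap hs r

theorem liftF_div (s : RN N →+* L) (hs : Function.Injective s) (r t : RN N) :
    liftF s hs (inclRN N r / inclRN N t) = s r / s t := by
  rw [map_div₀, liftF_inclRN, liftF_inclRN]

theorem liftF_algebraMap (s : RN N →+* L) (hs : Function.Injective s) (c : Kbar) :
    liftF s hs (algebraMap Kbar (FF N) c) = s (algebraMap Kbar (RN N) c) := by
  rw [← liftF_inclRN s hs]
  congr 1

end Lift

end Fermat.Agent.S24.H997

end
end
-- ===== PACK-END S24/Mod/H997Frac.lean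

-- ===== PACK-BEGIN S24/Mod/H997Bridge.lean
section


/-!
# S24 / MOD — analytic interface (`HolBase`) and the bridge `e : R_N → Hol`

`HolBase N` packages a ring `Hol` of functions `ℍ → ℂ` (intended: holomorphic functions on `ℍ`
invariant under `Γ(N)` and meromorphic at the cusps), stable under the action of `SL(2,ℤ)`,
containing the functions `J d = (τ ↦ j(dτ))` for `d ∣ N`, together with ONE injective expansion
ring hom `qexp : Hol →+* ℂ((z))` (intended: expansion at `i∞` in `z = q^{1/N}`) such that the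
expansion of `J d` is the formal series `jq(z^{N d})` of the Prelude.

From this we construct the *bridge* `e : R_N →+* Hol` (injective, `e (j(q^d)) = J d`,
`e c = const (ι c)`), i.e. "formal relation ⇔ analytic relation".
-/

set_option autoImplicit false

noncomputable section

open ModularCurve HahnSeries UpperHalfPlane
open scoped MatrixGroups

namespace Fermat.Agent.S24.H997

/-- Precomposition of a function on `ℍ` with the action of `g ∈ SL(2,ℤ)`. -/
def compSL (g : SL(2, ℤ)) (f : ℍ → ℂ) : ℍ → ℂ := fun τ => f (g • τ)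

@[simp] theorem compSL_apply (g : SL(2, ℤ)) (f : ℍ → ℂ) (τ : ℍ) : compSL g f τ = f (g • τ) := rfl

theorem compSL_one (f : ℍ → ℂ) : compSL 1 f = f := by
  funext τ; simp [compSL]

theorem compSL_mul (g h : SL(2, ℤ)) (f : ℍ → ℂ) : compSL (g * h) f = compSL h (compSL g f) := by
  funext τ; simp [compSL, mul_smul]

/-- The fixed embedding `ℚ̄ → ℂ`. -/
def ιKAlg : Kbar →ₐ[ℚ] ℂ :=
  haveI : Algebra.IsAlgebraic ℚ (AlgebraicClosure ℚ) := AlgebraicClosure.isAlgebraic ℚ
  IsAlgClosed.lift

/-- The fixed embedding `ℚ̄ → ℂ`. -/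
def ιK : Kbar →+* ℂ := ιKAlg.toRingHom

theorem ιK_injective : Function.Injective ιK := ιK.injective

theorem ιK_algebraMap (c : ℚ) : ιK (algebraMap ℚ Kbar c) = (c : ℂ) := by
  have := ιKAlg.commutes c
  simpa [ιK] using this

/-- Basic analytic interface. -/
structure HolBase (N : ℕ) [NeZero N] where
  /-- the ring of nice functions on `ℍ` -/
  Hol : Subring (ℍ → ℂ)
  const_mem : ∀ c : ℂ, (fun _ : ℍ => c) ∈ Hol
  comp_mem : ∀ (g : SL(2, ℤ)) (f : ℍ → ℂ), f ∈ Hol → compSL g f ∈ Hol
  /-- `J d τ = j(dτ)` -/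
  J : ℕ → ℍ → ℂ
  J_mem : ∀ d, d ∣ N → J d ∈ Hol
  J_one_inv : ∀ (g : SL(2, ℤ)) (τ : ℍ), J 1 (g • τ) = J 1 τ
  J_inv : ∀ d, d ∣ N → ∀ g ∈ CongruenceSubgroup.Gamma0 N, ∀ τ : ℍ, J d (g • τ) = J d τ
  J_distinct : ∀ g : SL(2, ℤ), (∀ τ : ℍ, J N (g • τ) = J N τ) → g ∈ CongruenceSubgroup.Gamma0 N
  /-- expansion at `i∞` in the variable `z = q^{1/N}` -/
  qexp : Hol →+* LaurentSeries ℂ
  qexp_injective : Function.Injective qexp
  qexp_const : ∀ c : ℂ, qexp ⟨_, const_mem c⟩ = HahnSeries.C c
  qexp_J : ∀ (d : ℕ) (hd : d ∣ N) (k : ℤ),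
    (qexp ⟨J d, J_mem d hd⟩).coeff k
      = if ((N * d : ℕ) : ℤ) ∣ k then ((jq.coeff (k / ((N * d : ℕ) : ℤ)) : ℚ) : ℂ) else 0

namespace HolBase

variable {N : ℕ} [NeZero N] (B : HolBase N)

/-- constant functions as elements of `Hol` -/
def constH (c : ℂ) : B.Hol := ⟨_, B.const_mem c⟩

/-- `J d` as an element of `Hol` -/
def JH (d : ℕ) (hd : d ∣ N) : B.Hol := ⟨B.J d, B.J_mem d hd⟩

/-- precomposition with `g ∈ SL(2,ℤ)` as a ring endomorphism of `Hol` -/
def compH (g : SL(2, ℤ)) : B.Hol →+* B.Hol where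
  toFun h := ⟨compSL g h.1, B.comp_mem g h.1 h.2⟩
  map_one' := rfl
  map_mul' _ _ := rfl
  map_zero' := rfl
  map_add' _ _ := rfl

@[simp] theorem compH_apply (g : SL(2, ℤ)) (h : B.Hol) (τ : ℍ) :
    (B.compH g h : ℍ → ℂ) τ = (h : ℍ → ℂ) (g • τ) := rfl

theorem compH_one (h : B.Hol) : B.compH 1 h = h := by
  apply Subtype.ext; funext τ; simp

theorem compH_mul (g g' : SL(2, ℤ)) (h : B.Hol) :
    B.compH (g * g') h = B.compH g' (B.compH g h) := by
  apply Subtype.ext; funext τ; simp [mul_smul]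

theorem compH_injective (g : SL(2, ℤ)) : Function.Injective (B.compH g) := by
  intro h h' hh
  have := congrArg (B.compH g⁻¹) hh
  rwa [← compH_mul, ← compH_mul, mul_inv_cancel, compH_one, compH_one] at this

theorem compH_constH (g : SL(2, ℤ)) (c : ℂ) : B.compH g (B.constH c) = B.constH c := rfl

theorem compH_JH_one (g : SL(2, ℤ)) : B.compH g (B.JH 1 (one_dvd N)) = B.JH 1 (one_dvd N) := by
  apply Subtype.ext; funext τ; exact B.J_one_inv g τ

theorem compH_JH_of_mem (d : ℕ) (hd : d ∣ N) {g : SL(2, ℤ)}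
    (hg : g ∈ CongruenceSubgroup.Gamma0 N) : B.compH g (B.JH d hd) = B.JH d hd := by
  apply Subtype.ext; funext τ; exact B.J_inv d hd g hg τ

/-- The formal comparison map `ℚ̄((q)) → ℂ((z))`, `q ↦ z^N`, coefficients via `ιK`. -/
def Φ (N : ℕ) [NeZero N] : LaurentSeries Kbar →+* LaurentSeries ℂ :=
  (qExpand ℂ N).comp (coeffMap ιK)

theorem Φ_injective : Function.Injective (Φ N) := by
  intro x y h
  have h1 : coeffMap ιK x = coeffMap ιK y := qExpand_injective N h
  ext k
  apply ιK_injective
  have := congrArg (fun s => s.coeff k) h1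
  simpa using this

theorem Φ_coeff (x : LaurentSeries Kbar) (k : ℤ) :
    (Φ N x).coeff k = if (N : ℤ) ∣ k then ιK (x.coeff (k / N)) else 0 := by
  split_ifs with h
  · obtain ⟨m, rfl⟩ := h
    have hN : (N : ℤ) ≠ 0 := by exact_mod_cast NeZero.ne N
    rw [Int.mul_ediv_cancel_left _ hN]
    show (qExpand ℂ N (coeffMap ιK x)).coeff (N * m) = _
    rw [qExpand_coeff_mul]; rfl
  · exact qExpand_coeff_of_not_dvd N _ h

theorem Φ_algebraMap (c : Kbar) :
    Φ N (algebraMap Kbar (LaurentSeries Kbar) c) = HahnSeries.C (ιK c) := by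
  rw [algebraMap_laurentSeries_eq_single]
  show qExpand ℂ N (coeffMap ιK (HahnSeries.single 0 c)) = _
  rw [coeffMap_single, qExpand_single, mul_zero]; rfl

theorem Φ_gen (d : ℕ) [NeZero d] (hd : d ∣ N) :
    Φ N (coeffEmb Kbar (qExpand ℚ d jq)) = B.qexp (B.JH d hd) := by
  ext k
  rw [Φ_coeff]
  show _ = (B.qexp ⟨B.J d, B.J_mem d hd⟩).coeff k
  rw [B.qexp_J d hd k]
  have hN : (N : ℤ) ≠ 0 := by exact_mod_cast NeZero.ne N
  have hd0 : (d : ℤ) ≠ 0 := by exact_mod_cast NeZero.ne d
  by_cases h1 : (N : ℤ) ∣ k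
  · obtain ⟨m, rfl⟩ := h1
    rw [if_pos (dvd_mul_right _ _), Int.mul_ediv_cancel_left _ hN, coeffEmb_coeff, ιK_algebraMap]
    by_cases h2 : (d : ℤ) ∣ m
    · obtain ⟨l, rfl⟩ := h2
      have h3 : ((N * d : ℕ) : ℤ) ∣ (N : ℤ) * (d * l) := ⟨l, by push_cast; ring⟩
      rw [if_pos h3, qExpand_coeff_mul]
      have : (N : ℤ) * (d * l) / ((N * d : ℕ) : ℤ) = l := by
        have h4 : (N : ℤ) * (d * l) = ((N * d : ℕ) : ℤ) * l := by push_cast; ring
        rw [h4, Int.mul_ediv_cancel_left]
        exact_mod_cast (Nat.mul_ne_zero (NeZero.ne N) (NeZero.ne d))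
      rw [this]
    · have h3 : ¬ ((N * d : ℕ) : ℤ) ∣ (N : ℤ) * m := by
        rintro ⟨l, hl⟩
        apply h2
        refine ⟨l, ?_⟩
        have : (N : ℤ) * m = N * (d * l) := by rw [hl]; push_cast; ring
        exact mul_left_cancel₀ hN this
      rw [if_neg h3, qExpand_coeff_of_not_dvd d _ h2]
      simp
  · have h3 : ¬ ((N * d : ℕ) : ℤ) ∣ k := by
      intro h; apply h1
      exact dvd_trans ⟨(d : ℤ), by push_cast; ring⟩ h
    rw [if_neg h1, if_neg h3]

theorem Φ_mem_range {r : LaurentSeries Kbar} (hr : r ∈ RN N) : Φ N r ∈ B.qexp.range := by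
  induction hr using Algebra.adjoin_induction with
  | mem x hx =>
      obtain ⟨y, ⟨d, hne, hd, rfl⟩, rfl⟩ := hx
      exact ⟨B.JH d hd, (B.Φ_gen d hd).symm⟩
  | algebraMap c =>
      exact ⟨B.constH (ιK c), by rw [Φ_algebraMap]; exact B.qexp_const _⟩
  | add _ _ _ _ hx hy => rw [map_add]; exact add_mem hx hy
  | mul _ _ _ _ hx hy => rw [map_mul]; exact mul_mem hx hy

/-- `Hol ≃ range qexp`. -/
def qexpEquiv : B.Hol ≃+* B.qexp.range :=
  RingEquiv.ofBijective B.qexp.rangeRestrict
    ⟨fun x y h => B.qexp_injective (congrArg Subtype.val h), B.qexp.rangeRestrict_surjective⟩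

/-- The bridge `e : R_N →+* Hol`. -/
def bridge : RN N →+* B.Hol :=
  (B.qexpEquiv.symm : B.qexp.range →+* B.Hol).comp
    (((Φ N).comp (RN N).val.toRingHom).codRestrict B.qexp.range fun r => B.Φ_mem_range r.2)

theorem qexp_bridge (r : RN N) : B.qexp (B.bridge r) = Φ N (r : LaurentSeries Kbar) := by
  have h := B.qexpEquiv.apply_symm_apply
    ((((Φ N).comp (RN N).val.toRingHom).codRestrict B.qexp.range
      fun r => B.Φ_mem_range r.2) r)
  exact congrArg Subtype.val h

theorem bridge_injective : Function.Injective B.bridge := by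
  intro r r' h
  apply Subtype.ext
  apply Φ_injective (N := N)
  rw [← qexp_bridge, ← qexp_bridge, h]

theorem bridge_algebraMap (c : Kbar) : B.bridge (algebraMap Kbar (RN N) c) = B.constH (ιK c) := by
  apply B.qexp_injective
  rw [qexp_bridge]
  show Φ N (algebraMap Kbar (LaurentSeries Kbar) c) = _
  rw [Φ_algebraMap]
  exact (B.qexp_const _).symm

theorem bridge_jR (d : ℕ) [NeZero d] (hd : d ∣ N) : B.bridge (jR N d hd) = B.JH d hd := by
  apply B.qexp_injective
  rw [qexp_bridge]
  exact B.Φ_gen d hd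

/-- Every `e r` is `Γ₀(N)`-invariant. -/
theorem compH_bridge_of_mem {g : SL(2, ℤ)} (hg : g ∈ CongruenceSubgroup.Gamma0 N) (r : RN N) :
    B.compH g (B.bridge r) = B.bridge r := by
  obtain ⟨r, hr⟩ := r
  induction hr using Algebra.adjoin_induction with
  | mem x hx =>
      obtain ⟨y, ⟨d, hne, hd, rfl⟩, rfl⟩ := hx
      have : (⟨coeffEmb Kbar (qExpand ℚ d jq), Algebra.subset_adjoin
          ⟨_, ⟨d, hne, hd, rfl⟩, rfl⟩⟩ : RN N) = jR N d hd := rfl
      rw [this, bridge_jR]
      exact B.compH_JH_of_mem d hd hg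
  | algebraMap c =>
      have : (⟨algebraMap Kbar (LaurentSeries Kbar) c, Subalgebra.algebraMap_mem _ c⟩ : RN N)
          = algebraMap Kbar (RN N) c := rfl
      rw [this, bridge_algebraMap]
      rfl
  | add x y hx hy ihx ihy =>
      have : (⟨x + y, add_mem hx hy⟩ : RN N) = ⟨x, hx⟩ + ⟨y, hy⟩ := rfl
      rw [this, map_add, map_add, ihx, ihy]
  | mul x y hx hy ihx ihy =>
      have : (⟨x * y, mul_mem hx hy⟩ : RN N) = ⟨x, hx⟩ * ⟨y, hy⟩ := rfl
      rw [this, map_mul, map_mul, ihx, ihy]

end HolBase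

end Fermat.Agent.S24.H997

end
end
-- ===== PACK-END S24/Mod/H997Bridge.lean

-- ===== PACK-BEGIN S24/H624/Taylor.lean
section


/-!
# Taylor expansion at a point of the upper half-plane as an injective algebra hom
-/

set_option autoImplicit false

namespace Fermat.Agent.S24.H624

open UpperHalfPlane Complex
open scoped Manifold Topology

/-- `n`-th Taylor coefficient at `τ` (in the coordinate `z - τ`). -/
noncomputable def taylorCoeff (τ : ℍ) (f : ℍ → ℂ) (n : ℕ) : ℂ :=
  iteratedDeriv n (f ∘ ofComplex) (τ : ℂ) / (n.factorial : ℂ)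

theorem contDiffAt_of_mdiff {f : ℍ → ℂ} (hf : MDiff f) (τ : ℍ) (n : ℕ∞) :
    ContDiffAt ℂ n (f ∘ ofComplex) (τ : ℂ) :=
  (analyticAt_of_mdiff hf τ).contDiffAt.of_le (by exact_mod_cast le_top)

theorem taylorCoeff_add {f g : ℍ → ℂ} (hf : MDiff f) (hg : MDiff g) (τ : ℍ) (n : ℕ) :
    taylorCoeff τ (f + g) n = taylorCoeff τ f n + taylorCoeff τ g n := by
  unfold taylorCoeff
  have : ((f + g) ∘ ofComplex) = (f ∘ ofComplex) + (g ∘ ofComplex) := rfl
  rw [this, iteratedDeriv_add (contDiffAt_of_mdiff hf τ n) (contDiffAt_of_mdiff hg τ n), add_div]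

theorem taylorCoeff_const (c : ℂ) (τ : ℍ) (n : ℕ) :
    taylorCoeff τ (fun _ => c) n = if n = 0 then c else 0 := by
  unfold taylorCoeff
  have : ((fun _ : ℍ => c) ∘ ofComplex) = fun _ : ℂ => c := rfl
  rw [this]
  rcases n with _ | n
  · simp
  · rw [iteratedDeriv_succ']
    simp

theorem taylorCoeff_mul {f g : ℍ → ℂ} (hf : MDiff f) (hg : MDiff g) (τ : ℍ) (n : ℕ) :
    taylorCoeff τ (f * g) n
      = ∑ p ∈ Finset.HasAntidiagonal.antidiagonal n,
          taylorCoeff τ f p.1 * taylorCoeff τ g p.2 := by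
  unfold taylorCoeff
  have : ((f * g) ∘ ofComplex) = (f ∘ ofComplex) * (g ∘ ofComplex) := rfl
  rw [this, iteratedDeriv_mul (contDiffAt_of_mdiff hf τ n) (contDiffAt_of_mdiff hg τ n),
    Finset.Nat.sum_antidiagonal_eq_sum_range_succ
      (fun i j => iteratedDeriv i (f ∘ ofComplex) (τ : ℂ) / (i.factorial : ℂ)
        * (iteratedDeriv j (g ∘ ofComplex) (τ : ℂ) / (j.factorial : ℂ))) n,
    Finset.sum_div]
  refine Finset.sum_congr rfl fun i hi => ?_
  have hi' : i ≤ n := Nat.lt_succ_iff.mp (Finset.mem_range.mp hi)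
  have h1 : (n.choose i : ℂ) = (n.factorial : ℂ) / ((i.factorial : ℂ) * ((n - i).factorial : ℂ)) := by
    rw [Nat.choose_eq_factorial_div_factorial hi']
    rw [Nat.cast_div (Nat.factorial_mul_factorial_dvd_factorial hi')
      (by exact_mod_cast (Nat.mul_pos (Nat.factorial_pos _) (Nat.factorial_pos _)).ne')]
    push_cast
    rfl
  rw [h1]
  have hn : (n.factorial : ℂ) ≠ 0 := by exact_mod_cast (Nat.factorial_pos n).ne'
  have hi0 : (i.factorial : ℂ) ≠ 0 := by exact_mod_cast (Nat.factorial_pos i).ne'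
  have hni : ((n - i).factorial : ℂ) ≠ 0 := by exact_mod_cast (Nat.factorial_pos (n - i)).ne'
  field_simp

/-- Taylor expansion at `τ` as a `ℂ`-algebra hom from holomorphic functions to power series. -/
noncomputable def taylorAt (τ : ℍ) : holoRing →ₐ[ℂ] PowerSeries ℂ where
  toFun f := PowerSeries.mk (taylorCoeff τ (f : ℍ → ℂ))
  map_one' := by
    ext n
    rw [PowerSeries.coeff_mk, PowerSeries.coeff_one]
    exact taylorCoeff_const 1 τ n
  map_mul' f g := by
    ext n
    rw [PowerSeries.coeff_mk, PowerSeries.coeff_mul]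
    simp only [PowerSeries.coeff_mk]
    exact taylorCoeff_mul f.2 g.2 τ n
  map_zero' := by
    ext n
    rw [PowerSeries.coeff_mk, map_zero]
    have := taylorCoeff_const 0 τ n
    rw [show (((0 : holoRing) : ℍ → ℂ)) = fun _ => (0 : ℂ) from rfl, this]
    simp
  map_add' f g := by
    ext n
    rw [PowerSeries.coeff_mk, map_add, PowerSeries.coeff_mk, PowerSeries.coeff_mk]
    exact taylorCoeff_add f.2 g.2 τ n
  commutes' c := by
    ext n
    rw [PowerSeries.coeff_mk]
    have := taylorCoeff_const c τ n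
    rw [show ((algebraMap ℂ holoRing c : holoRing) : ℍ → ℂ) = fun _ => c from rfl, this]
    rw [PowerSeries.algebraMap_apply, Algebra.algebraMap_self, RingHom.id_apply, PowerSeries.coeff_C]

@[simp]
theorem coeff_taylorAt (τ : ℍ) (f : holoRing) (n : ℕ) :
    PowerSeries.coeff n (taylorAt τ f) = taylorCoeff τ (f : ℍ → ℂ) n := by
  show PowerSeries.coeff n (PowerSeries.mk (taylorCoeff τ (f : ℍ → ℂ))) = _
  rw [PowerSeries.coeff_mk]

theorem taylorCoeff_zero_idx (τ : ℍ) (f : ℍ → ℂ) : taylorCoeff τ f 0 = f τ := by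
  simp [taylorCoeff, Function.comp_apply, ofComplex_apply]

theorem taylorCoeff_eq_zero_iff (τ : ℍ) (f : ℍ → ℂ) (n : ℕ) :
    taylorCoeff τ f n = 0 ↔ iteratedDeriv n (f ∘ ofComplex) (τ : ℂ) = 0 := by
  unfold taylorCoeff
  have hn : (n.factorial : ℂ) ≠ 0 := by exact_mod_cast (Nat.factorial_pos n).ne'
  rw [div_eq_zero_iff]
  simp [hn]

/-- The order of the Taylor series is the analytic order of vanishing. -/
theorem order_taylorAt (τ : ℍ) (f : holoRing) :
    (taylorAt τ f).order = ordAt τ (f : ℍ → ℂ) := by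
  have han := analyticAt_of_mdiff f.2 τ
  by_cases h0 : f = 0
  · subst h0
    rw [map_zero, PowerSeries.order_zero]
    exact (ordAt_zero τ).symm
  · have hne : ordAt τ (f : ℍ → ℂ) ≠ ⊤ :=
      ordAt_ne_top f.2 (fun h => h0 (Subtype.ext h)) τ
    obtain ⟨n, hn⟩ := ENat.ne_top_iff_exists.mp hne
    rw [← hn]
    have key := (analyticOrderAt_eq_nat_iff_iteratedDeriv_eq_zero han (n := n)).mp
      (by rw [← ordAt_def]; exact hn.symm)
    rw [PowerSeries.order_eq_nat]
    refine ⟨?_, fun i hi => ?_⟩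
    · rw [coeff_taylorAt, Ne, taylorCoeff_eq_zero_iff]
      exact key.2
    · rw [coeff_taylorAt, taylorCoeff_eq_zero_iff]
      exact key.1 i hi

theorem taylorAt_injective (τ : ℍ) : Function.Injective (taylorAt τ) := by
  rw [injective_iff_map_eq_zero]
  intro f hf
  by_contra h0
  have h1 := order_taylorAt τ f
  rw [hf, PowerSeries.order_zero] at h1
  exact ordAt_ne_top f.2 (fun h => h0 (Subtype.ext h)) τ h1.symm

end Fermat.Agent.S24.H624

end
-- ===== PACK-END S24/H624/Taylor.lean

-- ===== PACK-BEGIN S24/H624/Moebius.lean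
section


/-!
# Order of vanishing under Möbius transformations; the rotation lemma
-/

set_option autoImplicit false

namespace Fermat.Agent.S24.H624

open UpperHalfPlane Complex
open scoped Manifold Topology MatrixGroups

/-- The Möbius map of `g` on `ℂ` (junk where the denominator vanishes). -/
noncomputable def moeb (g : GL (Fin 2) ℝ) (z : ℂ) : ℂ := num g z / denom g z

theorem moeb_coe {g : GL (Fin 2) ℝ} (hg : 0 < g.det.val) (τ : ℍ) :
    moeb g (τ : ℂ) = ((g • τ : ℍ) : ℂ) :=
  (coe_smul_of_det_pos hg τ).symm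

theorem hasDerivAt_num (g : GL (Fin 2) ℝ) (z : ℂ) :
    HasDerivAt (num g) ((g 0 0 : ℝ) : ℂ) z := by
  have h : HasDerivAt (fun w : ℂ => ((g 0 0 : ℝ) : ℂ) * w + ((g 0 1 : ℝ) : ℂ))
      (((g 0 0 : ℝ) : ℂ) * 1) z :=
    ((hasDerivAt_id z).const_mul _).add_const _
  rw [mul_one] at h
  exact h

theorem hasDerivAt_denom (g : GL (Fin 2) ℝ) (z : ℂ) :
    HasDerivAt (denom g) ((g 1 0 : ℝ) : ℂ) z := by
  have h : HasDerivAt (fun w : ℂ => ((g 1 0 : ℝ) : ℂ) * w + ((g 1 1 : ℝ) : ℂ))
      (((g 1 0 : ℝ) : ℂ) * 1) z :=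
    ((hasDerivAt_id z).const_mul _).add_const _
  rw [mul_one] at h
  exact h

theorem det_eq (g : GL (Fin 2) ℝ) :
    ((g.det.val : ℝ) : ℂ) = (g 0 0 : ℂ) * (g 1 1 : ℂ) - (g 0 1 : ℂ) * (g 1 0 : ℂ) := by
  rw [Matrix.GeneralLinearGroup.val_det_apply, Matrix.det_fin_two]
  push_cast
  rfl

theorem hasDerivAt_moeb (g : GL (Fin 2) ℝ) {z : ℂ} (hz : denom g z ≠ 0) :
    HasDerivAt (moeb g) (((g.det.val : ℝ) : ℂ) / denom g z ^ 2) z := by
  have h := (hasDerivAt_num g z).div (hasDerivAt_denom g z) hz
  have e : (((g 0 0 : ℝ) : ℂ) * denom g z - num g z * ((g 1 0 : ℝ) : ℂ)) / denom g z ^ 2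
      = ((g.det.val : ℝ) : ℂ) / denom g z ^ 2 := by
    rw [det_eq]
    congr 1
    simp only [num, denom]
    ring
  rw [e] at h
  exact h

theorem analyticAt_moeb (g : GL (Fin 2) ℝ) {z : ℂ} (hz : denom g z ≠ 0) :
    AnalyticAt ℂ (moeb g) z := by
  have hn : AnalyticAt ℂ (num g) z := by
    have : num g = fun w : ℂ => ((g 0 0 : ℝ) : ℂ) * w + ((g 0 1 : ℝ) : ℂ) := by
      funext w; simp [num]
    rw [this]
    fun_prop
  have hd : AnalyticAt ℂ (denom g) z := by
    have : denom g = fun w : ℂ => ((g 1 0 : ℝ) : ℂ) * w + ((g 1 1 : ℝ) : ℂ) := by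
      funext w; simp [denom]
    rw [this]
    fun_prop
  exact hn.div hd hz

theorem deriv_moeb_ne_zero {g : GL (Fin 2) ℝ} (hg : 0 < g.det.val) {z : ℂ}
    (hz : denom g z ≠ 0) : deriv (moeb g) z ≠ 0 := by
  rw [(hasDerivAt_moeb g hz).deriv]
  refine div_ne_zero ?_ (pow_ne_zero _ hz)
  exact_mod_cast hg.ne'

theorem eventuallyEq_comp_smul {g : GL (Fin 2) ℝ} (hg : 0 < g.det.val) (f : ℍ → ℂ) (τ : ℍ) :
    ((fun z : ℍ => f (g • z)) ∘ ofComplex) =ᶠ[𝓝 (τ : ℂ)] ((f ∘ ofComplex) ∘ moeb g) := by
  filter_upwards [isOpen_upperHalfPlaneSet.mem_nhds τ.im_pos] with z hz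
  have hz' : 0 < z.im := hz
  simp only [Function.comp_apply]
  rw [ofComplex_apply_of_im_pos hz']
  have : moeb g z = ((g • (⟨z, hz'⟩ : ℍ) : ℍ) : ℂ) := moeb_coe hg ⟨z, hz'⟩
  rw [this, ofComplex_apply]

/-- Order of vanishing is invariant under Möbius transformations. -/
theorem ordAt_comp_smul {g : GL (Fin 2) ℝ} (hg : 0 < g.det.val) (f : ℍ → ℂ) (τ : ℍ) :
    ordAt τ (fun z : ℍ => f (g • z)) = ordAt (g • τ) f := by
  have hd : denom g (τ : ℂ) ≠ 0 := denom_ne_zero g τ
  rw [ordAt_def, analyticOrderAt_congr (eventuallyEq_comp_smul hg f τ),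
    analyticOrderAt_comp_of_deriv_ne_zero (analyticAt_moeb g hd) (deriv_moeb_ne_zero hg hd),
    moeb_coe hg, ordAt_def]

theorem mdiff_comp_smul {g : GL (Fin 2) ℝ} (hg : 0 < g.det.val) {f : ℍ → ℂ} (hf : MDiff f) :
    MDiff (fun z : ℍ => f (g • z)) :=
  hf.comp (mdifferentiable_smul hg)

/-- Key algebraic identity: `g z - g w = det g * (z - w) / (denom z * denom w)`. -/
theorem moeb_sub_moeb (g : GL (Fin 2) ℝ) {z w : ℂ} (hz : denom g z ≠ 0) (hw : denom g w ≠ 0) :
    moeb g z - moeb g w = ((g.det.val : ℝ) : ℂ) * (z - w) / (denom g z * denom g w) := by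
  rw [det_eq]
  unfold moeb
  rw [div_sub_div _ _ hz hw]
  congr 1
  simp only [num, denom]
  ring

/-- **Rotation lemma.** If `g` fixes `τ`, and the nonzero holomorphic function `f` is invariant
under `g`, then `(deriv of g at τ) ^ ord_τ f = 1`, i.e. `(det g / denom g τ ^ 2) ^ n = 1`. -/
theorem rotation_lemma {g : GL (Fin 2) ℝ} (hg : 0 < g.det.val) {f : ℍ → ℂ} (hf : MDiff f)
    (hf0 : f ≠ 0) {τ : ℍ} (hτ : g • τ = τ) (hinv : ∀ z : ℍ, f (g • z) = f z) :
    (((g.det.val : ℝ) : ℂ) / denom g (τ : ℂ) ^ 2) ^ (ordAt τ f).toNat = 1 := by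
  set n := (ordAt τ f).toNat with hn
  have hne := ordAt_ne_top hf hf0 τ
  have hord : analyticOrderAt (f ∘ ofComplex) (τ : ℂ) = (n : ℕ∞) := by
    rw [← ordAt_def, hn, ENat.natCast_toNat hne]
  obtain ⟨u, hu, hu0, hfu⟩ :=
    ((analyticAt_of_mdiff hf τ).analyticOrderAt_eq_natCast).mp hord
  have hd : denom g (τ : ℂ) ≠ 0 := denom_ne_zero g τ
  have hmτ : moeb g (τ : ℂ) = (τ : ℂ) := by rw [moeb_coe hg, hτ]
  have hmcont : ContinuousAt (moeb g) (τ : ℂ) := (analyticAt_moeb g hd).continuousAt
  -- near τ: f ∘ ofComplex ∘ moeb = f ∘ ofComplex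
  have h1 : ∀ᶠ z in 𝓝 (τ : ℂ), (f ∘ ofComplex) (moeb g z) = (f ∘ ofComplex) z := by
    filter_upwards [eventuallyEq_comp_smul hg f τ] with z hz
    have := hz
    simp only [Function.comp_apply] at this ⊢
    rw [← this, hinv]
  -- near τ: moeb z is near τ so factorization applies at moeb z
  have h2 : ∀ᶠ z in 𝓝 (τ : ℂ), (f ∘ ofComplex) (moeb g z)
      = (moeb g z - (τ : ℂ)) ^ n • u (moeb g z) := by
    have : Filter.Tendsto (moeb g) (𝓝 (τ : ℂ)) (𝓝 (τ : ℂ)) := by
      have := hmcont.tendsto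
      rwa [hmτ] at this
    exact this.eventually hfu
  have h3 : ∀ᶠ z in 𝓝 (τ : ℂ), denom g z ≠ 0 :=
    (hasDerivAt_denom g _).continuousAt.eventually_ne hd
  set c : ℂ := ((g.det.val : ℝ) : ℂ) with hc
  -- on a punctured neighbourhood: (c / (denom z * denom τ))^n * u (moeb z) = u z
  have h4 : ∀ᶠ z in 𝓝[≠] (τ : ℂ),
      (c / (denom g z * denom g (τ : ℂ))) ^ n * u (moeb g z) = u z := by
    have hall := (h1.and (h2.and (h3.and hfu)))
    filter_upwards [hall.filter_mono nhdsWithin_le_nhds, self_mem_nhdsWithin] with z hz hzne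
    obtain ⟨e1, e2, e3, e4⟩ := hz
    have hzne' : z - (τ : ℂ) ≠ 0 := sub_ne_zero.mpr hzne
    have e5 : moeb g z - (τ : ℂ) = c * (z - (τ : ℂ)) / (denom g z * denom g (τ : ℂ)) := by
      have := moeb_sub_moeb g e3 hd
      rwa [hmτ] at this
    rw [e2, e4, e5] at e1
    simp only [smul_eq_mul] at e1
    have e6 : c * (z - (τ : ℂ)) / (denom g z * denom g (τ : ℂ))
        = (z - (τ : ℂ)) * (c / (denom g z * denom g (τ : ℂ))) := by ring
    rw [e6, mul_pow, mul_assoc] at e1
    exact mul_left_cancel₀ (pow_ne_zero n hzne') e1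
  -- pass to the limit
  have hL : Filter.Tendsto (fun z => (c / (denom g z * denom g (τ : ℂ))) ^ n * u (moeb g z))
      (𝓝[≠] (τ : ℂ)) (𝓝 ((c / (denom g (τ : ℂ) * denom g (τ : ℂ))) ^ n * u (τ : ℂ))) := by
    have hcd : ContinuousAt (fun z => (c / (denom g z * denom g (τ : ℂ))) ^ n) (τ : ℂ) := by
      have hden : ContinuousAt (fun z => denom g z * denom g (τ : ℂ)) (τ : ℂ) :=
        ((hasDerivAt_denom g _).continuousAt).mul continuousAt_const
      exact ((continuousAt_const.div hden (mul_ne_zero hd hd))).pow n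
    have hu' : ContinuousAt (fun z => u (moeb g z)) (τ : ℂ) := by
      have : ContinuousAt u (moeb g (τ : ℂ)) := by rw [hmτ]; exact hu.continuousAt
      exact ContinuousAt.comp (f := moeb g) (g := u) this hmcont
    have hmul : ContinuousAt
        (fun z => (c / (denom g z * denom g (τ : ℂ))) ^ n * u (moeb g z)) (τ : ℂ) := hcd.mul hu'
    have := hmul.tendsto
    simp only [hmτ] at this
    exact this.mono_left nhdsWithin_le_nhds
  have hR : Filter.Tendsto u (𝓝[≠] (τ : ℂ)) (𝓝 (u (τ : ℂ))) :=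
    hu.continuousAt.tendsto.mono_left nhdsWithin_le_nhds
  have hlim := tendsto_nhds_unique (hL.congr' h4) hR
  have hfin : (c / (denom g (τ : ℂ) * denom g (τ : ℂ))) ^ n = 1 := by
    have := mul_right_cancel₀ hu0 (hlim.trans (one_mul _).symm)
    exact this
  rw [← hfin, sq]

end Fermat.Agent.S24.H624

end
-- ===== PACK-END S24/H624/Moebius.lean

-- ===== PACK-BEGIN S29/H801/M1Push.lean
section
/-
S29 / M1 (helper801), part 1: functoriality of the Prelude's `inertiaDegAlong` and
`pushforwardAlong` under composition of field embeddings.  Mathlib + Prelude + helper818's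
`S37/H818/PullFunct` only.
-/




set_option autoImplicit false
set_option linter.style.haveILetI false

noncomputable section

namespace Fermat.Agent.S29.H801

open AlgebraicCurve Fermat.Agent.S37.H818

variable {K F G G₁ : Type*} [Field K] [Field F] [Field G] [Field G₁]
  [Algebra K F] [Algebra K G] [Algebra K G₁]

section Tower

variable [Algebra F G] [Algebra G G₁] [Algebra F G₁] [IsScalarTower F G G₁]
  [IsScalarTower K F G] [IsScalarTower K G G₁] [IsScalarTower K F G₁]
  [Algebra.IsIntegral F G] [Algebra.IsIntegral G G₁] [Algebra.IsIntegral F G₁]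

theorem restrict_restrict (W : Place K G₁) : (W.restrict G).restrict F = W.restrict F := by
  apply Place.ext
  ext x
  simp only [Place.restrict_toValuationSubring, ValuationSubring.mem_comap]
  rw [IsScalarTower.algebraMap_apply F G G₁]

/-- Inertia degrees are multiplicative in towers (instance version). -/
theorem inertiaDeg_tower (W : Place K G₁) :
    W.inertiaDeg F = (W.restrict G).inertiaDeg F * W.inertiaDeg G := by
  set w := W.restrict G with hw
  have hv : w.restrict F = W.restrict F := restrict_restrict W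
  -- the composite of the residue maps
  let ι : (w.restrict F).ResidueField →+* W.ResidueField :=
    (Place.restrictResidueMap G W).comp (Place.restrictResidueMap F w)
  letI alg : Algebra (w.restrict F).ResidueField W.ResidueField := ι.toAlgebra
  haveI : IsScalarTower (w.restrict F).ResidueField w.ResidueField W.ResidueField :=
    IsScalarTower.of_algebraMap_eq fun _ => rfl
  have h1 : Module.finrank (w.restrict F).ResidueField w.ResidueField *
      Module.finrank w.ResidueField W.ResidueField =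
      Module.finrank (w.restrict F).ResidueField W.ResidueField :=
    Module.finrank_mul_finrank _ _ _
  have h2 : Module.finrank (w.restrict F).ResidueField W.ResidueField = W.inertiaDeg F := by
    unfold Place.inertiaDeg
    -- transport along `hv`
    have key : ∀ (v' : Place K F) (hv' : v' = W.restrict F)
        (j : v'.ResidueField →+* W.ResidueField),
        (∀ (a : v'.toValuationSubring) (ha : algebraMap F G₁ (a : F) ∈ W.toValuationSubring),
          j (IsLocalRing.residue _ a) =
            IsLocalRing.residue _ (⟨algebraMap F G₁ (a : F), ha⟩ : W.toValuationSubring)) →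
        @Module.finrank v'.ResidueField W.ResidueField _ _ j.toAlgebra.toModule =
          Module.finrank (W.restrict F).ResidueField W.ResidueField := by
      intro v' hv' j hj
      subst hv'
      have : j = Place.restrictResidueMap F W := by
        apply Ideal.Quotient.ringHom_ext
        ext a
        exact (hj a (ValuationSubring.mem_comap.mp a.2)).trans
          (Place.restrictResidueMap_residue W a).symm
      subst this
      rfl
    refine key (w.restrict F) hv ι ?_
    intro a ha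
    show (Place.restrictResidueMap G W) ((Place.restrictResidueMap F w)
      (IsLocalRing.residue _ a)) = _
    rw [Place.restrictResidueMap_residue, Place.restrictResidueMap_residue]
    refine congrArg _ (Subtype.ext ?_)
    show algebraMap G G₁ (algebraMap F G (a : F)) = algebraMap F G₁ (a : F)
    rw [← IsScalarTower.algebraMap_apply]
  rw [← h2, ← h1]
  rfl

end Tower

/-- Inertia degrees are multiplicative in towers (`Along` version). -/
theorem inertiaDegAlong_comp (φ : F →ₐ[K] G) (ψ : G →ₐ[K] G₁)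
    (hφ : φ.toRingHom.IsIntegral) (hψ : ψ.toRingHom.IsIntegral)
    (hψφ : (ψ.comp φ).toRingHom.IsIntegral) (W : Place K G₁) :
    W.inertiaDegAlong (ψ.comp φ) hψφ =
      (W.restrictAlong ψ hψ).inertiaDegAlong φ hφ * W.inertiaDegAlong ψ hψ := by
  letI := algebraAlong φ
  letI := algebraAlong ψ
  letI := algebraAlong (ψ.comp φ)
  haveI := isScalarTower_along φ
  haveI := isScalarTower_along ψ
  haveI := isScalarTower_along (ψ.comp φ)
  haveI := isIntegral_along φ hφ
  haveI := isIntegral_along ψ hψ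
  haveI := isIntegral_along (ψ.comp φ) hψφ
  haveI : IsScalarTower F G G₁ := IsScalarTower.of_algebraMap_eq fun _ => rfl
  exact inertiaDeg_tower (F := F) (G := G) W

/-- Pushforward of divisors is functorial. -/
theorem pushforwardAlong_comp (φ : F →ₐ[K] G) (ψ : G →ₐ[K] G₁)
    (hφ : φ.toRingHom.IsIntegral) (hψ : ψ.toRingHom.IsIntegral)
    (hψφ : (ψ.comp φ).toRingHom.IsIntegral) (D : Divisor K G₁) :
    Divisor.pushforwardAlong (ψ.comp φ) hψφ D =
      Divisor.pushforwardAlong φ hφ (Divisor.pushforwardAlong ψ hψ D) := by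
  induction D using Finsupp.induction with
  | zero => simp
  | single_add W n D _ _ ih =>
    rw [map_add, map_add, map_add, ih]
    congr 1
    rw [Divisor.pushforwardAlong_single, Divisor.pushforwardAlong_single,
      Divisor.pushforwardAlong_single, restrictAlong_comp φ ψ hφ hψ hψφ W,
      inertiaDegAlong_comp φ ψ hφ hψ hψφ W]
    congr 1
    push_cast
    ring

end Fermat.Agent.S29.H801

end

end
-- ===== PACK-END S29/H801/M1Push.lean

-- ===== PACK-BEGIN S29/H751/PthRoot.lean
section


set_option autoImplicit false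

open Complex Set Metric Filter Topology

namespace Fermat.Agent.S29.H751

/-- Uniqueness of normalised `p`-th roots on a preconnected open set. -/
theorem eqOn_of_pow_eq_of_eq {U : Set ℂ} (hU : IsOpen U) (hUc : IsPreconnected U)
    {u v : ℂ → ℂ} (hu : DifferentiableOn ℂ u U) (hv : DifferentiableOn ℂ v U) {p : ℕ}
    (hp : p ≠ 0) (huv : ∀ z ∈ U, u z ^ p = v z ^ p) {z₀ : ℂ} (hz₀ : z₀ ∈ U)
    (h0 : u z₀ = v z₀) (hne : u z₀ ≠ 0) : EqOn u v U := by
  have hua := hu.analyticOnNhd hU
  have hva := hv.analyticOnNhd hU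
  refine hua.eqOn_of_preconnected_of_eventuallyEq hva hUc hz₀ ?_
  -- the cofactor `∑ u^i v^(p-1-i)` is nonzero near `z₀`
  set S : ℂ → ℂ := fun z => ∑ i ∈ Finset.range p, u z ^ i * v z ^ (p - 1 - i) with hS
  have hScont : ContinuousAt S z₀ := by
    have hcu : ContinuousAt u z₀ := (hua z₀ hz₀).continuousAt
    have hcv : ContinuousAt v z₀ := (hva z₀ hz₀).continuousAt
    rw [hS]
    exact tendsto_finsetSum _ fun i _ => (hcu.pow i).mul (hcv.pow _)
  have hS0 : S z₀ ≠ 0 := by
    have : S z₀ = p * u z₀ ^ (p - 1) := by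
      simp only [hS, ← h0]
      rw [Finset.sum_congr rfl (fun i hi => by
        rw [← pow_add, Nat.add_sub_of_le (Nat.le_sub_one_of_lt (Finset.mem_range.1 hi))]),
        Finset.sum_const, Finset.card_range, nsmul_eq_mul]
    rw [this]
    exact mul_ne_zero (Nat.cast_ne_zero.2 hp) (pow_ne_zero _ hne)
  have h1 : ∀ᶠ z in 𝓝 z₀, S z ≠ 0 := hScont.eventually_ne hS0
  have h2 : ∀ᶠ z in 𝓝 z₀, z ∈ U := hU.mem_nhds hz₀
  filter_upwards [h1, h2] with z hz1 hz2
  have h3 : S z * (u z - v z) = u z ^ p - v z ^ p := by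
    simp only [hS]
    exact (Commute.all (u z) (v z)).geom_sum₂_mul p
  rw [huv z hz2, sub_self] at h3
  rcases mul_eq_zero.1 h3 with h | h
  · exact absurd h hz1
  · exact sub_eq_zero.1 h

/-- For two points of the upper half plane there is a disc containing both whose closure
is contained in the upper half plane. -/
theorem exists_ball_upperHalfPlane {z₀ z : ℂ} (hz₀ : 0 < z₀.im) (hz : 0 < z.im) :
    ∃ (c : ℂ) (r : ℝ), z₀ ∈ ball c r ∧ z ∈ ball c r ∧ closedBall c r ⊆ {w : ℂ | 0 < w.im} := by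
  set δ : ℝ := min z.im z₀.im / 2 with hδ
  have hδ0 : 0 < δ := by rw [hδ]; have := lt_min hz hz₀; linarith
  have hδz : δ < z.im := by
    rw [hδ]; have := min_le_left z.im z₀.im; linarith
  have hδz₀ : δ < z₀.im := by
    rw [hδ]; have := min_le_right z.im z₀.im; linarith
  set d : ℝ := (z.re - z₀.re) ^ 2 with hd
  have hd0 : 0 ≤ d := sq_nonneg _
  set R : ℝ := z.im + z₀.im + d / δ with hR
  have hdδ : 0 ≤ d / δ := div_nonneg hd0 hδ0.le
  have hRδ : 0 < R - δ := by rw [hR]; linarith
  refine ⟨⟨z₀.re, R⟩, R - δ, ?_, ?_, ?_⟩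
  · rw [mem_ball, dist_eq_norm]
    have : z₀ - (⟨z₀.re, R⟩ : ℂ) = ⟨0, z₀.im - R⟩ := by
      apply Complex.ext <;> simp
    rw [this]
    have h2 : ‖(⟨0, z₀.im - R⟩ : ℂ)‖ = |z₀.im - R| := by
      rw [Complex.norm_def, Complex.normSq_mk]
      simp [← sq, Real.sqrt_sq_eq_abs]
    rw [h2, abs_lt]
    constructor <;> rw [hR] <;> linarith
  · rw [mem_ball, dist_eq_norm]
    have : z - (⟨z₀.re, R⟩ : ℂ) = ⟨z.re - z₀.re, z.im - R⟩ := by
      apply Complex.ext <;> simp
    rw [this]
    apply lt_of_pow_lt_pow_left₀ 2 hRδ.le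
    rw [Complex.sq_norm, Complex.normSq_mk]
    have key : d < (z.im - δ) * (2 * R - δ - z.im) := by
      have h1 : δ * (2 * (d / δ)) = 2 * d := by field_simp
      have h2 : 0 < z.im - δ := by linarith
      have h3 : 2 * (d / δ) < 2 * R - δ - z.im := by rw [hR]; linarith
      have h4 : δ ≤ z.im - δ := by
        rw [hδ]; have := min_le_left z.im z₀.im; linarith
      calc d ≤ 2 * d := by linarith
        _ = δ * (2 * (d / δ)) := h1.symm
        _ ≤ (z.im - δ) * (2 * (d / δ)) := by
            apply mul_le_mul_of_nonneg_right h4; linarith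
        _ < (z.im - δ) * (2 * R - δ - z.im) := by
            apply mul_lt_mul_of_pos_left h3 h2
    nlinarith [key]
  · intro w hw
    rw [mem_closedBall, dist_eq_norm] at hw
    have h1 : |(w - (⟨z₀.re, R⟩ : ℂ)).im| ≤ ‖w - (⟨z₀.re, R⟩ : ℂ)‖ := Complex.abs_im_le_norm _
    have h2 : (w - (⟨z₀.re, R⟩ : ℂ)).im = w.im - R := by simp
    rw [h2] at h1
    have h3 := (abs_le.1 (h1.trans hw)).1
    show 0 < w.im
    linarith


/-- **Holomorphic `p`-th roots on the upper half plane.**  A holomorphic function on the upper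
half plane all of whose orders of vanishing are finite and divisible by `p` is the `p`-th power
of a holomorphic function. -/
theorem exists_pow_eq_on_upperHalfPlane {G : ℂ → ℂ} (p : ℕ) (hp : p ≠ 0)
    (hG : DifferentiableOn ℂ G {z : ℂ | 0 < z.im})
    (hord : ∀ z : ℂ, 0 < z.im → ∃ m : ℕ, analyticOrderAt G z = ((p * m : ℕ) : ℕ∞)) :
    ∃ u : ℂ → ℂ, DifferentiableOn ℂ u {z : ℂ | 0 < z.im} ∧
      ∀ z : ℂ, 0 < z.im → u z ^ p = G z := by
  classical
  set H : Set ℂ := {z : ℂ | 0 < z.im} with hH
  have hHo : IsOpen H := isOpen_lt continuous_const Complex.continuous_im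
  have hGa : AnalyticOnNhd ℂ G H := hG.analyticOnNhd hHo
  -- a base point where `G` does not vanish
  obtain ⟨z₀, hz₀, hGz₀⟩ : ∃ z₀ ∈ H, G z₀ ≠ 0 := by
    have hI : (0 : ℝ) < Complex.I.im := by simp
    obtain ⟨m, hm⟩ := hord Complex.I hI
    have hnt : analyticOrderAt G Complex.I ≠ ⊤ := by rw [hm]; exact ENat.natCast_ne_top _
    rw [Ne, analyticOrderAt_eq_top] at hnt
    have h1 : ∃ᶠ z in 𝓝 Complex.I, G z ≠ 0 := by
      rw [Filter.Frequently]
      intro h
      apply hnt
      filter_upwards [h] with z hz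
      exact not_not.1 hz
    have h2 : ∀ᶠ z in 𝓝 Complex.I, z ∈ H := hHo.mem_nhds hI
    obtain ⟨z, hz1, hz2⟩ := (h1.and_eventually h2).exists
    exact ⟨z, hz2, hz1⟩
  obtain ⟨w₀, hw₀⟩ := IsAlgClosed.exists_pow_nat_eq (G z₀) (Nat.pos_of_ne_zero hp)
  have hw₀ne : w₀ ≠ 0 := by
    intro h
    rw [h, zero_pow hp] at hw₀
    exact hGz₀ hw₀.symm
  -- local normalised roots
  have key : ∀ z : ℂ, 0 < z.im → ∃ (c : ℂ) (r : ℝ) (v : ℂ → ℂ), z₀ ∈ ball c r ∧ z ∈ ball c r ∧
      closedBall c r ⊆ H ∧ DifferentiableOn ℂ v (ball c r) ∧ (∀ y ∈ ball c r, v y ^ p = G y) ∧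
      v z₀ = w₀ := by
    intro z hz
    obtain ⟨c, r, h1, h2, h3⟩ := exists_ball_upperHalfPlane hz₀ hz
    obtain ⟨v, hv, hvp⟩ := exists_pow_eq_on_ball (G := G) (c := c) (r := r) p hp (hGa.mono h3)
      (fun y hy => hord y (h3 hy))
    have hvz₀ : v z₀ ≠ 0 := by
      intro h
      have := hvp z₀ h1
      rw [h, zero_pow hp] at this
      exact hGz₀ this.symm
    refine ⟨c, r, fun y => (w₀ / v z₀) * v y, h1, h2, h3, ?_, ?_, ?_⟩
    · exact hv.const_mul _
    · intro y hy
      rw [mul_pow, div_pow, hw₀, hvp z₀ h1, hvp y hy, div_self hGz₀, one_mul]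
    · field_simp
  choose! c r v hv1 hv2 hv3 hv4 hv5 hv6 using key
  -- compatibility
  have compat : ∀ z z' : ℂ, 0 < z.im → 0 < z'.im →
      EqOn (v z) (v z') (ball (c z) (r z) ∩ ball (c z') (r z')) := by
    intro z z' hz hz'
    refine eqOn_of_pow_eq_of_eq (isOpen_ball.inter isOpen_ball)
      ((convex_ball _ _).inter (convex_ball _ _)).isPreconnected
      ((hv4 z hz).mono inter_subset_left) ((hv4 z' hz').mono inter_subset_right) hp ?_
      ⟨hv1 z hz, hv1 z' hz'⟩ ?_ ?_
    · intro y hy
      rw [hv5 z hz y hy.1, hv5 z' hz' y hy.2]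
    · rw [hv6 z hz, hv6 z' hz']
    · rw [hv6 z hz]; exact hw₀ne
  refine ⟨fun y => v y y, ?_, ?_⟩
  · intro z hz
    have hz' : 0 < z.im := hz
    have hev : (fun y => v y y) =ᶠ[𝓝 z] v z := by
      have hB : ball (c z) (r z) ∈ 𝓝 z := isOpen_ball.mem_nhds (hv2 z hz')
      filter_upwards [hB] with y hy
      have hy' : 0 < y.im := hv3 z hz' (ball_subset_closedBall hy)
      exact compat y z hy' hz' ⟨hv2 y hy', hy⟩
    have hd : DifferentiableAt ℂ (v z) z :=
      (hv4 z hz').differentiableAt (isOpen_ball.mem_nhds (hv2 z hz'))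
    exact (hev.differentiableAt_iff.2 hd).differentiableWithinAt
  · intro z hz
    exact hv5 z hz z (hv2 z hz)

end Fermat.Agent.S29.H751

end
-- ===== PACK-END S29/H751/PthRoot.lean

-- ===== PACK-BEGIN S29/H751/PthRootUHP.lean
section


/-!
# Holomorphic `p`-th roots on `ℍ` and the character of a root (helper751, S29 / P5)

* `exists_pow_eq_UHP`: a holomorphic `F : ℍ → ℂ` all of whose orders of vanishing are finite and
  divisible by `p` is a `p`-th power of a holomorphic function.
* `eq_of_pow_eq_UHP`: two holomorphic functions on `ℍ` with the same `p`-th power which agree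
  at one point where they do not vanish are equal.
* `exists_character_of_pow_eq`: if `U ^ p` is weakly modular of weight `k * p` for a group `Γ`
  of matrices of positive determinant, then `U` is weakly modular of weight `k` with a character
  `χ : Γ →* ℂˣ`, `χ ^ p = 1`.
-/

set_option autoImplicit false

open Complex Set Metric Filter Topology UpperHalfPlane
open scoped Manifold MatrixGroups

namespace Fermat.Agent.S29.H751

/-- `F ∘ ofComplex` agrees with `u` on the upper half plane when `F τ = u τ`. -/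
theorem comp_ofComplex_eqOn (u : ℂ → ℂ) :
    EqOn ((fun τ : ℍ => u τ) ∘ ofComplex) u {z : ℂ | 0 < z.im} := by
  intro z hz
  simp only [Function.comp_apply, ofComplex_apply_of_im_pos hz]

/-- **Holomorphic `p`-th roots on `ℍ`.** -/
theorem exists_pow_eq_UHP {F : ℍ → ℂ} (hF : MDifferentiable 𝓘(ℂ) 𝓘(ℂ) F) (p : ℕ) (hp : p ≠ 0)
    (hord : ∀ τ : ℍ, ∃ m : ℕ, analyticOrderAt (F ∘ ofComplex) (τ : ℂ) = ((p * m : ℕ) : ℕ∞)) :
    ∃ U : ℍ → ℂ, MDifferentiable 𝓘(ℂ) 𝓘(ℂ) U ∧ ∀ τ : ℍ, U τ ^ p = F τ := by
  obtain ⟨u, hu, hup⟩ := exists_pow_eq_on_upperHalfPlane (G := F ∘ ofComplex) p hp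
    (UpperHalfPlane.mdifferentiable_iff.1 hF) (fun z hz => hord ⟨z, hz⟩)
  refine ⟨fun τ => u τ, ?_, fun τ => ?_⟩
  · rw [UpperHalfPlane.mdifferentiable_iff]
    exact hu.congr (comp_ofComplex_eqOn u)
  · have := hup τ τ.im_pos
    rw [this, comp_ofComplex]

/-- Uniqueness of normalised holomorphic `p`-th roots on `ℍ`. -/
theorem eq_of_pow_eq_UHP {A B : ℍ → ℂ} (hA : MDifferentiable 𝓘(ℂ) 𝓘(ℂ) A)
    (hB : MDifferentiable 𝓘(ℂ) 𝓘(ℂ) B) {p : ℕ} (hp : p ≠ 0)
    (h : ∀ τ : ℍ, A τ ^ p = B τ ^ p) {τ₀ : ℍ} (h0 : A τ₀ = B τ₀) (hne : A τ₀ ≠ 0) : A = B := by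
  have hHo : IsOpen {z : ℂ | 0 < z.im} := isOpen_lt continuous_const Complex.continuous_im
  have hHc : IsPreconnected {z : ℂ | 0 < z.im} :=
    (convex_halfSpace_im_gt 0).isPreconnected
  have key := eqOn_of_pow_eq_of_eq hHo hHc (UpperHalfPlane.mdifferentiable_iff.1 hA)
    (UpperHalfPlane.mdifferentiable_iff.1 hB) hp
    (fun z hz => by
      simp only [Function.comp_apply]
      exact h _)
    (z₀ := (τ₀ : ℂ)) τ₀.im_pos
    (by simp only [Function.comp_apply, ofComplex_apply]; exact h0)
    (by simp only [Function.comp_apply, ofComplex_apply]; exact hne)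
  funext τ
  have := key τ.im_pos
  simpa only [Function.comp_apply, ofComplex_apply] using this

/-- **The character of a `p`-th root.**  Let `Γ` be a group of real matrices of positive
determinant and `U` a holomorphic function on `ℍ`, not identically zero, such that `U ^ p`
is weakly modular of weight `k * p` for `Γ`.  Then `U` is weakly modular of weight `k` up to
a character `χ` of `Γ` with `χ ^ p = 1`. -/
theorem exists_character_of_pow_eq (Γ : Subgroup (GL (Fin 2) ℝ))
    (hdet : ∀ γ ∈ Γ, 0 < (γ.det : ℝ)) (k : ℤ) {p : ℕ} (hp : p ≠ 0) {U : ℍ → ℂ}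
    (hU : MDifferentiable 𝓘(ℂ) 𝓘(ℂ) U) (hne : ∃ τ, U τ ≠ 0)
    (hpow : ∀ γ ∈ Γ, ∀ τ : ℍ, U (γ • τ) ^ p = (denom γ τ ^ k * U τ) ^ p) :
    ∃ χ : Γ →* ℂˣ, (∀ γ, χ γ ^ p = 1) ∧
      ∀ (γ : Γ) (τ : ℍ), U ((γ : GL (Fin 2) ℝ) • τ) = χ γ * denom γ τ ^ k * U τ := by
  classical
  obtain ⟨τ₁, hτ₁⟩ := hne
  -- for each `γ`, the constant
  have key : ∀ γ : Γ, ∃ ζ : ℂˣ, ζ ^ p = 1 ∧
      ∀ τ : ℍ, U ((γ : GL (Fin 2) ℝ) • τ) = ζ * denom γ τ ^ k * U τ := by
    intro γ
    have hB1 : denom (γ : GL (Fin 2) ℝ) τ₁ ^ k * U τ₁ ≠ 0 :=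
      mul_ne_zero (zpow_ne_zero _ (denom_ne_zero _ _)) hτ₁
    have hA1 : U ((γ : GL (Fin 2) ℝ) • τ₁) ≠ 0 := by
      intro h0
      have := hpow γ γ.2 τ₁
      rw [h0, zero_pow hp] at this
      exact pow_ne_zero p hB1 this.symm
    set z : ℂ := U ((γ : GL (Fin 2) ℝ) • τ₁) / (denom (γ : GL (Fin 2) ℝ) τ₁ ^ k * U τ₁) with hz
    have hz0 : z ≠ 0 := div_ne_zero hA1 hB1
    have hzp : z ^ p = 1 := by
      rw [hz, div_pow, hpow γ γ.2 τ₁, div_self (pow_ne_zero p hB1)]
    refine ⟨Units.mk0 z hz0, ?_, ?_⟩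
    · ext
      simp [hzp]
    · intro τ
      have hAd : MDifferentiable 𝓘(ℂ) 𝓘(ℂ) (fun τ : ℍ => U ((γ : GL (Fin 2) ℝ) • τ)) :=
        hU.comp (UpperHalfPlane.mdifferentiable_smul (hdet γ γ.2))
      have hBd : MDifferentiable 𝓘(ℂ) 𝓘(ℂ)
          (fun τ : ℍ => z * denom (γ : GL (Fin 2) ℝ) τ ^ k * U τ) := by
        have h1 : MDifferentiable 𝓘(ℂ) 𝓘(ℂ)
            (fun τ : ℍ => denom (γ : GL (Fin 2) ℝ) τ ^ k) := mdifferentiable_denom_zpow _ k
        have h2 : MDifferentiable 𝓘(ℂ) 𝓘(ℂ)
            (fun τ : ℍ => z * denom (γ : GL (Fin 2) ℝ) τ ^ k) :=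
          (mdifferentiable_const (c := z)).mul h1
        exact h2.mul hU
      have := eq_of_pow_eq_UHP hAd hBd hp (fun τ => by
        rw [hpow γ γ.2 τ, mul_assoc, mul_pow z, hzp, one_mul]) (τ₀ := τ₁)
        (by
          simp only [hz]
          field_simp) hA1
      simpa using congrFun this τ
  choose χ hχp hχ using key
  have hmul : ∀ γ δ : Γ, χ (γ * δ) = χ γ * χ δ := by
    intro γ δ
    have h1 := hχ (γ * δ) τ₁
    have h2 := hχ γ ((δ : GL (Fin 2) ℝ) • τ₁)
    have h3 := hχ δ τ₁
    have hco : denom ((γ : GL (Fin 2) ℝ) * δ) τ₁ =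
        denom (γ : GL (Fin 2) ℝ) (((δ : GL (Fin 2) ℝ) • τ₁ : ℍ) : ℂ) *
          denom (δ : GL (Fin 2) ℝ) τ₁ := by
      rw [denom_cocycle _ _ τ₁.im_ne_zero, coe_smul_of_det_pos (hdet δ δ.2)]
    have hsm : ((γ * δ : Γ) : GL (Fin 2) ℝ) • τ₁ =
        (γ : GL (Fin 2) ℝ) • ((δ : GL (Fin 2) ℝ) • τ₁) := by
      rw [Subgroup.coe_mul, mul_smul]
    rw [hsm, h2, h3, Subgroup.coe_mul, hco, mul_zpow] at h1
    have hd1 := zpow_ne_zero k (denom_ne_zero (γ : GL (Fin 2) ℝ) ((δ : GL (Fin 2) ℝ) • τ₁))
    have hd2 := zpow_ne_zero k (denom_ne_zero (δ : GL (Fin 2) ℝ) τ₁)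
    have h4 : ((χ (γ * δ) : ℂˣ) : ℂ) = (χ γ : ℂ) * (χ δ : ℂ) := by
      have h5 : (χ γ : ℂ) * (χ δ : ℂ) *
          (denom (γ : GL (Fin 2) ℝ) (((δ : GL (Fin 2) ℝ) • τ₁ : ℍ) : ℂ) ^ k *
            denom (δ : GL (Fin 2) ℝ) τ₁ ^ k * U τ₁) =
          (χ (γ * δ) : ℂ) *
          (denom (γ : GL (Fin 2) ℝ) (((δ : GL (Fin 2) ℝ) • τ₁ : ℍ) : ℂ) ^ k *
            denom (δ : GL (Fin 2) ℝ) τ₁ ^ k * U τ₁) := by
        linear_combination h1
      exact (mul_right_cancel₀ (mul_ne_zero (mul_ne_zero hd1 hd2) hτ₁) h5).symm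
    exact Units.ext (by simpa using h4)
  exact ⟨MonoidHom.mk' χ hmul, fun γ => hχp γ, fun γ τ => hχ γ τ⟩

end Fermat.Agent.S29.H751

end
-- ===== PACK-END S29/H751/PthRootUHP.lean

-- ===== PACK-BEGIN S24/H324/LocalUnique.lean
section



/-!
# S24 / ALG (helper324) — local uniqueness of embeddings

Two embeddings `σ τ : F → C((z))` inducing the same place `v` (with the same multiplicity `g`),
agreeing on the constants and on one element `t` with `v(t) > 0`, and such that the leading
coefficients of `σ π` and `τ π` agree for one uniformiser `π`, are equal.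

No completeness, no Dedekind domains: successive approximation inside `F`.
-/

set_option autoImplicit false

namespace Fermat.Agent.S24.H324

open AlgebraicCurve HahnSeries
open Fermat.Agent.S24.H117

variable {K F : Type*} [Field K] [Field F] [Algebra K F]
variable {C : Type*} [Field C]

section Abstract

variable (v : Place K F) (σ τ : F →+* LaurentSeries C) (g : ℕ)

/-- Hypotheses shared by the lemmas of this section. -/
structure SamePlace : Prop where
  g_pos : 0 < g
  ordσ : ∀ f : F, (σ f).order = (g : ℤ) * v.ord f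
  ordτ : ∀ f : F, (τ f).order = (g : ℤ) * v.ord f
  const : ∀ c : K, σ (algebraMap K F c) = τ (algebraMap K F c)

variable {v σ τ g}

theorem SamePlace.vanishσ (h : SamePlace v σ τ g) {f : F} {n : ℤ} (hf : n ≤ v.ord f) :
    VanishBelow ((g : ℤ) * n) (σ f) := by
  apply vanishBelow_of_le_order
  rw [h.ordσ]
  exact mul_le_mul_of_nonneg_left hf (by positivity)

theorem SamePlace.vanishτ (h : SamePlace v σ τ g) {f : F} {n : ℤ} (hf : n ≤ v.ord f) :
    VanishBelow ((g : ℤ) * n) (τ f) := by
  apply vanishBelow_of_le_order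
  rw [h.ordτ]
  exact mul_le_mul_of_nonneg_left hf (by positivity)

/-- **Local uniqueness.** -/
theorem SamePlace.eq_of_leadingCoeff_eq [CharZero C] (h : SamePlace v σ τ g)
    (π : F) (hπ : v.ord π = 1)
    (hres : ∀ f : F, 0 ≤ v.ord f →
      ∃ (c : K) (f₁ : F), 0 ≤ v.ord f₁ ∧ f = algebraMap K F c + π * f₁)
    (t : F) (ht : 0 < v.ord t) (hst : σ t = τ t)
    (hlc : (σ π).leadingCoeff = (τ π).leadingCoeff) : σ = τ := by
  have hg : (0 : ℤ) < g := by exact_mod_cast h.g_pos
  have hπ0 : π ≠ 0 := ne_zero_of_ord_ne_zero v (by rw [hπ]; norm_num)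
  have ht0 : t ≠ 0 := ne_zero_of_ord_ne_zero v ht.ne'
  set P := σ π with hP
  set Q := τ π with hQ
  have hP0 : P ≠ 0 := (map_ne_zero σ).mpr hπ0
  have hQ0 : Q ≠ 0 := (map_ne_zero τ).mpr hπ0
  have hPord : P.order = g := by rw [hP, h.ordσ, hπ, mul_one]
  have hQord : Q.order = g := by rw [hQ, h.ordτ, hπ, mul_one]
  -- ramification index
  obtain ⟨e, he⟩ : ∃ e : ℕ, (e : ℤ) = v.ord t := ⟨(v.ord t).toNat, Int.toNat_of_nonneg ht.le⟩
  have he0 : 0 < e := by
    have : (0 : ℤ) < e := by rw [he]; exact ht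
    exact_mod_cast this
  -- the unit `u = t / π ^ e`
  set u := t / π ^ e with hu
  have hu0 : u ≠ 0 := div_ne_zero ht0 (pow_ne_zero _ hπ0)
  have hut : t = u * π ^ e := by rw [hu, div_mul_cancel₀ _ (pow_ne_zero _ hπ0)]
  have huord : v.ord u = 0 := by
    rw [hu, ord_div v ht0 (pow_ne_zero _ hπ0), ord_pow, hπ, he]; ring
  have hσu0 : σ u ≠ 0 := (map_ne_zero σ).mpr hu0
  have hσuord : (σ u).order = 0 := by rw [h.ordσ, huord, mul_zero]
  -- the geometric sum
  obtain ⟨hS0, hSord⟩ := geomSum_ne_zero_and_order hP0 hQ0 hPord hQord hlc e he0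
  have hgeom := geom_sum₂_mul P Q e
  -- main induction
  have key : ∀ N : ℕ, ∀ f : F, 0 ≤ v.ord f → VanishBelow (N : ℤ) (σ f - τ f) := by
    intro N
    induction N with
    | zero =>
      intro f hf
      have h1 := h.vanishσ hf
      have h2 := h.vanishτ hf
      rw [mul_zero] at h1 h2
      simpa using h1.sub h2
    | succ N ih =>
      intro f hf
      -- the difference `P - Q`
      have hPQ : VanishBelow ((N : ℤ) + g) (P - Q) := by
        have hu1 := ih u huord.ge
        have hrel : (P ^ e - Q ^ e) * σ u = -(Q ^ e * (σ u - τ u)) := by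
          have h1 : σ t = σ u * P ^ e := by rw [hut, map_mul, map_pow]
          have h2 : τ t = τ u * Q ^ e := by rw [hut, map_mul, map_pow]
          have h3 : σ u * P ^ e = τ u * Q ^ e := by rw [← h1, ← h2, hst]
          linear_combination h3
        have hQe : VanishBelow ((g : ℤ) * e) (Q ^ e) := by
          apply vanishBelow_of_le_order
          rw [order_pow', hQord]
          exact le_of_eq (mul_comm _ _)
        have h4 : VanishBelow ((g : ℤ) * e + N) ((P ^ e - Q ^ e) * σ u) := by
          rw [hrel]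
          exact (hQe.mul hu1).neg
        have h5 := h4.of_mul_right hσu0
        rw [hσuord, sub_zero, ← hgeom] at h5
        have h6 : VanishBelow ((g : ℤ) * e + N)
            ((P - Q) * ∑ l ∈ Finset.range e, P ^ l * Q ^ (e - 1 - l)) := by
          rw [mul_comm (P - Q)]; exact h5
        have h7 := h6.of_mul_right hS0
        rw [hSord] at h7
        refine h7.mono ?_
        have : (g : ℤ) * e + N - g * ((e : ℤ) - 1) = N + g := by ring
        rw [this]
      obtain ⟨c, f₁, hf₁, rfl⟩ := hres f hf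
      have hdecomp : σ (algebraMap K F c + π * f₁) - τ (algebraMap K F c + π * f₁)
          = P * (σ f₁ - τ f₁) + (P - Q) * τ f₁ := by
        rw [map_add, map_add, map_mul, map_mul, h.const c]
        ring
      rw [hdecomp]
      have hA : VanishBelow ((g : ℤ) + N) (P * (σ f₁ - τ f₁)) :=
        (vanishBelow_of_le_order hPord.ge).mul (ih f₁ hf₁)
      have hB : VanishBelow ((N : ℤ) + g + 0) ((P - Q) * τ f₁) := by
        refine hPQ.mul ?_
        have := h.vanishτ hf₁
        rwa [mul_zero] at this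
      have hA' : VanishBelow ((N + 1 : ℕ) : ℤ) (P * (σ f₁ - τ f₁)) :=
        hA.mono (by push_cast; omega)
      have hB' : VanishBelow ((N + 1 : ℕ) : ℤ) ((P - Q) * τ f₁) :=
        hB.mono (by push_cast; omega)
      exact hA'.add hB'
  have hint : ∀ f : F, 0 ≤ v.ord f → σ f = τ f := fun f hf =>
    sub_eq_zero.mp (eq_zero_of_forall_vanishBelow fun N => key N f hf)
  refine RingHom.ext fun f => ?_
  rcases le_or_gt 0 (v.ord f) with hf | hf
  · exact hint f hf
  · have hinv : σ f⁻¹ = τ f⁻¹ := hint f⁻¹ (by rw [v.ord_inv]; omega)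
    rw [map_inv₀, map_inv₀] at hinv
    exact inv_injective hinv

/-- The `e`-th power of the leading coefficient of `σ π` is determined by `σ t`. -/
theorem SamePlace.leadingCoeff_pow_eq (h : SamePlace v σ τ g)
    (π : F) (hπ : v.ord π = 1)
    (hres : ∀ f : F, 0 ≤ v.ord f →
      ∃ (c : K) (f₁ : F), 0 ≤ v.ord f₁ ∧ f = algebraMap K F c + π * f₁)
    (t : F) (ht : 0 < v.ord t) (hst : σ t = τ t) (e : ℕ) (he : (e : ℤ) = v.ord t) :
    (σ π).leadingCoeff ^ e = (τ π).leadingCoeff ^ e := by
  have hg : (0 : ℤ) < g := by exact_mod_cast h.g_pos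
  have hπ0 : π ≠ 0 := ne_zero_of_ord_ne_zero v (by rw [hπ]; norm_num)
  have ht0 : t ≠ 0 := ne_zero_of_ord_ne_zero v ht.ne'
  set u := t / π ^ e with hu
  have hu0 : u ≠ 0 := div_ne_zero ht0 (pow_ne_zero _ hπ0)
  have hut : t = u * π ^ e := by rw [hu, div_mul_cancel₀ _ (pow_ne_zero _ hπ0)]
  have huord : v.ord u = 0 := by
    rw [hu, ord_div v ht0 (pow_ne_zero _ hπ0), ord_pow, hπ, he]; ring
  obtain ⟨c, u₁, hu₁, hcu⟩ := hres u huord.ge
  -- leading coefficient of the image of a unit `c + π u₁`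
  have hlead : ∀ ρ : F →+* LaurentSeries C, (∀ f : F, (ρ f).order = (g : ℤ) * v.ord f) →
      (ρ u).leadingCoeff = (ρ (algebraMap K F c)).coeff 0 := by
    intro ρ hρ
    have hord : (ρ u).order = 0 := by rw [hρ, huord, mul_zero]
    rw [leadingCoeff_eq, hord, hcu, map_add, coeff_add]
    have : (ρ (π * u₁)).coeff 0 = 0 := by
      rcases eq_or_ne u₁ 0 with rfl | hu₁0
      · simp
      apply coeff_eq_zero_of_lt_order
      rw [hρ, v.ord_mul hπ0 hu₁0, hπ]
      nlinarith
    rw [this, add_zero]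
  have h1 : σ t = σ u * (σ π) ^ e := by rw [hut, map_mul, map_pow]
  have h2 : τ t = τ u * (τ π) ^ e := by rw [hut, map_mul, map_pow]
  have h3 := congrArg HahnSeries.leadingCoeff hst
  rw [h1, h2, leadingCoeff_mul, leadingCoeff_mul, leadingCoeff_pow', leadingCoeff_pow',
    hlead σ h.ordσ, hlead τ h.ordτ, h.const c] at h3
  have hne : (τ (algebraMap K F c)).coeff 0 ≠ 0 := by
    rw [← hlead τ h.ordτ]
    exact leadingCoeff_ne_zero.mpr ((map_ne_zero τ).mpr hu0)
  exact mul_left_cancel₀ hne h3

end Abstract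

end Fermat.Agent.S24.H324

end
-- ===== PACK-END S24/H324/LocalUnique.lean

-- ===== PACK-BEGIN S28/H25/ThetaAnalytic.lean
section




/-!
# The `θ`-identity for `j`, analytic part (helper25, S28 piece [A-θ])

In `ℂ⟦q⟧`, with `e4, e6, δ` the `q`-expansions of `E₄, E₆, Δ` and `θ = q d/dq`:
* `e4 ^ 3 - e6 ^ 2 = 1728 * δ`;
* `3 * e4 ^ 2 * θ e4 * δ - e4 ^ 3 * θ δ = - (e4 ^ 2 * e6 * δ)`.
-/

set_option autoImplicit false

open UpperHalfPlane hiding I
open Function Derivative Complex ModularForm EisensteinSeries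
open scoped Manifold MatrixGroups

noncomputable section

namespace Fermat.Agent.S28.H25

/-- Functions on `ℍ` whose cusp function (period `1`) is analytic at `0`. -/
def qAnalytic : Subring (ℍ → ℂ) where
  carrier := {F | AnalyticAt ℂ (cuspFunction 1 F) 0}
  mul_mem' {f g} hf hg := by
    simp only [Set.mem_ofPred_eq] at hf hg ⊢
    rw [cuspFunction_mul hf.continuousAt hg.continuousAt]
    exact hf.mul hg
  one_mem' := by
    simp only [Set.mem_ofPred_eq]
    have h1 : cuspFunction 1 (1 : ℍ → ℂ) = 1 := by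
      ext q
      rcases eq_or_ne q 0 with rfl | hq
      · simpa [cuspFunction, Function.Periodic.cuspFunction] using!
          tendsto_const_nhds.limUnder_eq
      · simp [cuspFunction, Function.Periodic.cuspFunction_eq_of_nonzero 1 _ hq]
    rw [h1]
    exact analyticAt_const
  add_mem' {f g} hf hg := by
    simp only [Set.mem_ofPred_eq] at hf hg ⊢
    rw [cuspFunction_add hf.continuousAt hg.continuousAt]
    exact hf.add hg
  zero_mem' := by
    simp only [Set.mem_ofPred_eq]
    have h0 : cuspFunction 1 (0 : ℍ → ℂ) = 0 := by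
      ext q
      rcases eq_or_ne q 0 with rfl | hq
      · simpa [cuspFunction, Function.Periodic.cuspFunction] using!
          tendsto_const_nhds.limUnder_eq
      · simp [cuspFunction, Function.Periodic.cuspFunction_eq_of_nonzero 1 _ hq]
    rw [h0]
    exact analyticAt_const
  neg_mem' {f} hf := by
    simp only [Set.mem_ofPred_eq] at hf ⊢
    rw [cuspFunction_neg hf.continuousAt]
    exact hf.neg

theorem mem_qAnalytic_iff {F : ℍ → ℂ} :
    F ∈ qAnalytic ↔ AnalyticAt ℂ (cuspFunction 1 F) 0 := Iff.rfl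

/-- The `q`-expansion, as a ring homomorphism on `qAnalytic`. -/
def qExpRingHom : qAnalytic →+* PowerSeries ℂ where
  toFun F := qExpansion 1 (F : ℍ → ℂ)
  map_one' := qExpansion_one 1
  map_mul' F G := qExpansion_mul F.2 G.2
  map_zero' := qExpansion_zero 1
  map_add' F G := qExpansion_add F.2 G.2

@[simp] theorem qExpRingHom_apply (F : qAnalytic) :
    qExpRingHom F = qExpansion 1 (F : ℍ → ℂ) := rfl

theorem mem_qAnalytic_of_modularForm {k : ℤ} (f : ModularForm 𝒮ℒ k) :
    (f : ℍ → ℂ) ∈ qAnalytic :=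
  ModularFormClass.analyticAt_cuspFunction_zero f one_pos one_mem_strictPeriods_SL

theorem periodic_of_modularForm {k : ℤ} (f : ModularForm 𝒮ℒ k) :
    Periodic ((f : ℍ → ℂ) ∘ ofComplex) (1 : ℝ) :=
  SlashInvariantFormClass.periodic_comp_ofComplex f one_mem_strictPeriods_SL

theorem mem_qAnalytic_D_of_modularForm {k : ℤ} (f : ModularForm 𝒮ℒ k) :
    D (f : ℍ → ℂ) ∈ qAnalytic :=
  analyticAt_cuspFunction_D one_pos (periodic_of_modularForm f) (ModularFormClass.holo f)
    (ModularFormClass.bdd_at_infty f)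

theorem qExpansion_D_of_modularForm {k : ℤ} (f : ModularForm 𝒮ℒ k) :
    qExpansion 1 (D (f : ℍ → ℂ)) = thetaP (qExpansion 1 (f : ℍ → ℂ)) :=
  qExpansion_D (periodic_of_modularForm f) (ModularFormClass.holo f)
    (ModularFormClass.bdd_at_infty f)

/-- `Δ` as a modular form of weight 12 -/
def discForm : ModularForm 𝒮ℒ 12 := (CuspForm.discriminant : CuspForm 𝒮ℒ 12)

theorem coe_discForm : (discForm : ℍ → ℂ) = ModularForm.discriminant := rfl

/-- `e4 ^ 3 - e6 ^ 2 = 1728 δ` in `ℂ⟦q⟧`. -/
theorem qExp_E4_cube_sub_E6_sq :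
    qExpansion 1 E₄ ^ 3 - qExpansion 1 E₆ ^ 2 =
      1728 * qExpansion 1 ModularForm.discriminant := by
  let a4 : qAnalytic := ⟨E₄, mem_qAnalytic_of_modularForm E₄⟩
  let a6 : qAnalytic := ⟨E₆, mem_qAnalytic_of_modularForm E₆⟩
  let aΔ : qAnalytic := ⟨ModularForm.discriminant, mem_qAnalytic_of_modularForm discForm⟩
  have key : a4 ^ 3 - a6 ^ 2 = 1728 * aΔ := by
    apply Subtype.ext
    funext z
    have := Fermat.Agent.S20.L1.E₄_cube_sub_E₆_sq z
    have h3 : ((1728 : qAnalytic) : ℍ → ℂ) z = 1728 := rfl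
    push_cast
    simp only [a4, a6, aΔ, Pi.sub_apply, Pi.mul_apply, Pi.pow_apply]
    rw [h3]
    exact this
  have := congrArg qExpRingHom key
  simpa only [map_sub, map_pow, map_mul, map_ofNat, qExpRingHom_apply] using this

/-- `3 e4² θ(e4) δ - e4³ θ(δ) = - e4² e6 δ` in `ℂ⟦q⟧`. -/
theorem qExp_theta_relation :
    3 * qExpansion 1 E₄ ^ 2 * thetaP (qExpansion 1 E₄) * qExpansion 1 ModularForm.discriminant
      - qExpansion 1 E₄ ^ 3 * thetaP (qExpansion 1 ModularForm.discriminant) =
      - (qExpansion 1 E₄ ^ 2 * qExpansion 1 E₆ * qExpansion 1 ModularForm.discriminant) := by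
  let a4 : qAnalytic := ⟨E₄, mem_qAnalytic_of_modularForm E₄⟩
  let a6 : qAnalytic := ⟨E₆, mem_qAnalytic_of_modularForm E₆⟩
  let aΔ : qAnalytic := ⟨ModularForm.discriminant, mem_qAnalytic_of_modularForm discForm⟩
  let d4 : qAnalytic := ⟨D (E₄ : ℍ → ℂ), mem_qAnalytic_D_of_modularForm E₄⟩
  let dΔ : qAnalytic := ⟨D (ModularForm.discriminant : ℍ → ℂ),
    mem_qAnalytic_D_of_modularForm discForm⟩
  have key : 3 * a4 ^ 2 * d4 * aΔ - a4 ^ 3 * dΔ = - (a4 ^ 2 * a6 * aΔ) := by
    apply Subtype.ext
    funext z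
    have h4 := Fermat.Agent.S20.L1.ramanujan_E₄ z
    have hΔ := Fermat.Agent.S20.L1.ramanujan_discriminant z
    have h3 : ((3 : qAnalytic) : ℍ → ℂ) z = 3 := rfl
    push_cast
    simp only [a4, a6, aΔ, d4, dΔ, Pi.sub_apply, Pi.mul_apply, Pi.pow_apply, Pi.neg_apply]
    rw [h3, h4, hΔ]
    ring
  have := congrArg qExpRingHom key
  simp only [map_sub, map_pow, map_mul, map_neg, map_ofNat, qExpRingHom_apply] at this
  have e1 : qExpansion 1 (D (E₄ : ℍ → ℂ)) = thetaP (qExpansion 1 E₄) :=
    qExpansion_D_of_modularForm E₄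
  have e2 : qExpansion 1 (D (ModularForm.discriminant : ℍ → ℂ)) =
      thetaP (qExpansion 1 ModularForm.discriminant) :=
    qExpansion_D_of_modularForm discForm
  simpa only [a4, a6, aΔ, d4, dΔ, e1, e2] using this

end Fermat.Agent.S28.H25

end
end
-- ===== PACK-END S28/H25/ThetaAnalytic.lean

-- ===== PACK-BEGIN S28/H25/ThetaFormal.lean
section




/-!
# The `θ`-identity for `j`, formal part (helper25, S28 piece [A-θ])

`(θ j)⁶ = Δ · j⁴ · (j - 1728)³` in `ℤ((q))`, for the Prelude's formal `j = jqModC ℤ`,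
`Δ = q · dedekindEtaUnit`, `θ = q d/dq`, assuming the two bridges
* `qExpansion 1 E₄ = eisenstein4` (proved here) and
* `qExpansion 1 Δ = X * dedekindEtaUnit` (hypothesis `DeltaBridge`).
-/

set_option autoImplicit false

open UpperHalfPlane hiding I
open ModularForm EisensteinSeries ModularCurve
open scoped MatrixGroups

noncomputable section

namespace Fermat.Agent.S28.H25

section thetaP

variable {R : Type*} [CommRing R]

theorem thetaP_mul (f g : PowerSeries R) :
    thetaP (f * g) = thetaP f * g + f * thetaP g := by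
  unfold thetaP
  rw [Derivation.leibniz]
  simp only [smul_eq_mul]
  ring

theorem thetaP_X : thetaP (PowerSeries.X : PowerSeries R) = PowerSeries.X := by
  unfold thetaP
  rw [PowerSeries.derivative_X, mul_one]

theorem thetaP_pow_three (f : PowerSeries R) :
    thetaP (f ^ 3) = 3 * f ^ 2 * thetaP f := by
  have : f ^ 3 = f * (f * f) := by ring
  rw [this, thetaP_mul, thetaP_mul]
  ring

theorem thetaP_map {S : Type*} [CommRing S] (φ : R →+* S) (f : PowerSeries R) :
    thetaP (f.map φ) = (thetaP f).map φ := by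
  ext n
  simp [coeff_thetaP]

end thetaP

/-- Pure algebra: the `θ`-identity from the two analytic relations, over a field. -/
theorem theta_identity_of_relations {K : Type*} [Field K]
    (E e6 et eti u : PowerSeries K) (h0 : et * eti = 1) (hu : u = E ^ 3 * eti)
    (hi : E ^ 3 - e6 ^ 2 = 1728 * (PowerSeries.X * et))
    (hii : 3 * E ^ 2 * thetaP E * (PowerSeries.X * et) - E ^ 3 * thetaP (PowerSeries.X * et) =
      - (E ^ 2 * e6 * (PowerSeries.X * et))) :
    (thetaP u - u) ^ 6 = et * u ^ 4 * (u - 1728 * PowerSeries.X) ^ 3 := by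
  have heta : et ≠ 0 := by
    rintro rfl
    simp at h0
  have hX : (PowerSeries.X : PowerSeries K) ≠ 0 := PowerSeries.X_ne_zero
  have hueta : u * et = E ^ 3 := by
    rw [hu]
    linear_combination E ^ 3 * h0
  have hθ : thetaP u * et + u * thetaP et = 3 * E ^ 2 * thetaP E := by
    rw [← thetaP_mul, hueta, thetaP_pow_three]
  have hbr : 3 * E ^ 2 * thetaP E * et - E ^ 3 * et - E ^ 3 * thetaP et + E ^ 2 * e6 * et = 0 := by
    have h1 : PowerSeries.X * (3 * E ^ 2 * thetaP E * et - E ^ 3 * et - E ^ 3 * thetaP et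
        + E ^ 2 * e6 * et) = 0 := by
      rw [thetaP_mul, thetaP_X] at hii
      linear_combination hii
    rcases mul_eq_zero.mp h1 with h | h
    · exact absurd h hX
    · exact h
  have h1 : (thetaP u - u) * et = - (E ^ 2 * e6) := by
    apply mul_right_cancel₀ heta
    linear_combination et * hθ + hbr - (thetaP et + et) * hueta
  have h2 : e6 ^ 2 = et * (u - 1728 * PowerSeries.X) := by
    linear_combination -hi - hueta
  have h3 : ((thetaP u - u) * et) ^ 6 = et ^ 6 * (et * u ^ 4 * (u - 1728 * PowerSeries.X) ^ 3) := by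
    calc ((thetaP u - u) * et) ^ 6 = (- (E ^ 2 * e6)) ^ 6 := by rw [h1]
      _ = (E ^ 3) ^ 4 * (e6 ^ 2) ^ 3 := by ring
      _ = (u * et) ^ 4 * (et * (u - 1728 * PowerSeries.X)) ^ 3 := by rw [hueta, h2]
      _ = et ^ 6 * (et * u ^ 4 * (u - 1728 * PowerSeries.X) ^ 3) := by ring
  apply mul_left_cancel₀ (pow_ne_zero 6 heta)
  rw [← h3]
  ring

/-- Bridge B1: the `q`-expansion of `E₄` is the Prelude's `eisenstein4`. -/
theorem qExpansion_E4_eq_eisenstein4 :
    qExpansion 1 E₄ = eisenstein4.map (Int.castRingHom ℂ) := by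
  ext m
  rw [E_qExpansion_coeff _ ⟨2, rfl⟩]
  simp only [eisenstein4, PowerSeries.coeff_map, PowerSeries.coeff_mk]
  split_ifs with h
  · simp
  · norm_num [show bernoulli 4 = -1 / 30 by decide +kernel, ArithmeticFunction.sigma_apply]

/-- Bridge B2 (to be supplied): the `q`-expansion of `Δ` is `q ∏ (1 - qⁿ)²⁴`. -/
def DeltaBridge : Prop :=
  qExpansion 1 ModularForm.discriminant =
    PowerSeries.X * dedekindEtaUnit.map (Int.castRingHom ℂ)

/-- The `θ`-identity in `ℤ⟦q⟧`: with `u = q · j = E₄³ / ∏(1-qⁿ)²⁴`,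
`(θ u - u)⁶ = ∏(1-qⁿ)²⁴ · u⁴ · (u - 1728 q)³`. -/
theorem theta_identity_powerSeries (hΔ : DeltaBridge) :
    (thetaP jNum - jNum) ^ 6 =
      dedekindEtaUnit * jNum ^ 4 * (jNum - 1728 * PowerSeries.X) ^ 3 := by
  have hinj : Function.Injective (PowerSeries.map (Int.castRingHom ℂ)) := by
    intro f g hfg
    ext n
    have := congrArg (PowerSeries.coeff n) hfg
    simpa using this
  apply hinj
  have hΔ' : qExpansion 1 ModularForm.discriminant =
      PowerSeries.X * dedekindEtaUnit.map (Int.castRingHom ℂ) := hΔ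
  have h := theta_identity_of_relations (K := ℂ) (eisenstein4.map (Int.castRingHom ℂ))
    (qExpansion 1 E₆) (dedekindEtaUnit.map (Int.castRingHom ℂ))
    (dedekindEtaUnitInv.map (Int.castRingHom ℂ)) (jNum.map (Int.castRingHom ℂ))
    (by rw [← map_mul, dedekindEtaUnit_mul_inv, map_one])
    (by rw [jNum, map_mul, map_pow])
    (by rw [← qExpansion_E4_eq_eisenstein4, ← hΔ']; exact qExp_E4_cube_sub_E6_sq)
    (by rw [← qExpansion_E4_eq_eisenstein4, ← hΔ']; exact qExp_theta_relation)
  simp only [map_pow, map_mul, map_sub, map_ofNat, PowerSeries.map_X, ← thetaP_map]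
  exact h

end Fermat.Agent.S28.H25

end
end
-- ===== PACK-END S28/H25/ThetaFormal.lean

-- ===== PACK-BEGIN S24/GenusNat.lean
section



/-!
# S24 — the Riemann–Hurwitz number is a non-negative even integer
(parity via signs of permutations, non-negativity via Scott's lemma / Ree's theorem)

INTERFACE FILE (statement frozen by helper984); proof by helper883 (`Fermat.Agent.S24.Scott`).
-/

set_option autoImplicit false

noncomputable section

open scoped MatrixGroups

namespace Fermat.Agent.S24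

variable (N : ℕ) [NeZero N]

theorem exists_genus_nat :
    ∃ g : ℕ, (Nat.card (XX N) : ℤ) + 2 - numOrbits (permOf N ModularGroup.S)
        - numOrbits (permOf N (ModularGroup.S * ModularGroup.T))
        - numOrbits (permOf N ModularGroup.T) = 2 * (g : ℤ) :=
  Scott.exists_genus_Gamma0 N

end Fermat.Agent.S24

end
end
-- ===== PACK-END S24/GenusNat.lean

-- ===== PACK-BEGIN A2/Alg/Spec.lean
section


/-!
# WALL A2 / ALG — frozen sub-interfaces (architect helper34), Mathlib-only

Decomposition of `Fermat.Agent.A2.algSS` (statement in `Fermat/Agent/A2/Skel.lean`, row-lead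
helper13).  This file contains ONLY definitions (no `sorry`).  The exact theorem statements of the
sub-pieces are in `Fermat/Agent/A2/Alg/Skel.lean`; the board is `coord/A2-ALG.md` (origin/helper34).

Notation: `R` henselian DVR, uniformiser `w`, `E = Frac R`, `F / E` the function field,
`B ⊆ F` a chart (integral closure of `R[x]` or `R[x⁻¹]`), `c : SSChart w B` its two components
`p₁`, `p₂`; `V_i := B_{p_i}` (a DVR with uniformiser `w`).

Elementwise local conditions (no localisation types, everything is a statement about elements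
of `F`):

* `LocUnit B n u`   : `u ∈ (B_n)ˣ`            (`u = a / b`, `a, b ∈ B ∖ n`);
* `LocOne B n I u`  : `u ∈ 1 + I · B_n`       (`u = a / b`, `b ∉ n`, `a - b ∈ I`);
* `OneAt B p u`     : `u ∈ 1 + p B_p`         (`u ≡ 1` on the component `p`);
* `ConstAt B p u`   : `u ∈ c · (1 + p B_p)` for a unit `c` of `R` (`u` is a unit on the component
                      `p`, with CONSTANT residue);
* `IsSplit B c u`   : `ConstAt` on both components of the chart;
* `LocalFactor B c m u n` : local factorisation of the Kummer problem `Y ^ m = u` at the closed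
                      point `n` of the special fibre.
* `ChartCtx`, `TauCtx` : the standing hypotheses of `algSS`, bundled (one chart).
-/

set_option autoImplicit false

namespace Fermat.Agent.A2.Alg

section Defs

variable {R F : Type*} [CommRing R] [Field F] [Algebra R F]

/-- `u` is a unit of the localisation `B_n`: `u = a / b` with `a, b ∈ B ∖ n`. -/
def LocUnit (B : Subalgebra R F) (n : Ideal B) (u : F) : Prop :=
  ∃ a b : B, a ∉ n ∧ b ∉ n ∧ u * (b : F) = (a : F)

/-- `u ∈ 1 + I · B_n`: `u = a / b` with `b ∉ n` and `a - b ∈ I`. -/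
def LocOne (B : Subalgebra R F) (n I : Ideal B) (u : F) : Prop :=
  ∃ a b : B, b ∉ n ∧ a - b ∈ I ∧ u * (b : F) = (a : F)

/-- `u ≡ 1` on the component `p` (`u ∈ 1 + p B_p`). -/
def OneAt (B : Subalgebra R F) (p : Ideal B) (u : F) : Prop :=
  LocOne B p p u

/-- `u` is a unit on the component `p` with constant residue: `u = a / b`, `b ∉ p`,
`a - c b ∈ p` for a unit `c` of `R`. -/
def ConstAt (B : Subalgebra R F) (p : Ideal B) (u : F) : Prop :=
  ∃ c : R, IsUnit c ∧ ∃ a b : B, b ∉ p ∧ a - algebraMap R B c * b ∈ p ∧ u * (b : F) = (a : F)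

/-- `u` has constant (unit) residue on both components of the chart. -/
def IsSplit {w : R} (B : Subalgebra R F) (c : SSChart w B) (u : F) : Prop :=
  ConstAt B c.p₁ u ∧ ConstAt B c.p₂ u

/-- The two components are incomparable (both are minimal primes over `w`, i.e. both are curves).
`SSChart` only records `p₁ ≠ p₂`, which also allows the degenerate case `p₁ = (w) ⊊ p₂`
(good reduction, `p₂` a closed point). -/
def Incomparable {w : R} {B : Subalgebra R F} (c : SSChart w B) : Prop :=
  ¬ c.p₁ ≤ c.p₂ ∧ ¬ c.p₂ ≤ c.p₁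

/-- **Purity datum at a closed point `n`** for `u`: `u · d ^ m` is a unit of `B_n`, and `d` is a
unit on both components. -/
def PureAt {w : R} (B : Subalgebra R F) (c : SSChart w B) (m : ℕ) (u : F) (n : Ideal B) : Prop :=
  ∃ d : F, d ≠ 0 ∧ LocUnit B n (u * d ^ m) ∧ LocUnit B c.p₁ d ∧ LocUnit B c.p₂ d

/-- **Local factorisation at a closed point `n`** of the special fibre of the chart `B`, for the
Kummer problem `Y ^ m = u`:  there is `h ∈ Fˣ` with `u · h ^ m ∈ 1 + w B_n` and `h ≡ 1` on both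
components.
(Then `B_n[Y]/(Y^m - u h^m)` is finite étale over `B_n` with canonically split special fibre, and
the sheet `Y h ≡ 1` is the same on the two branches through `n`.) -/
def LocalFactor {w : R} (B : Subalgebra R F) (c : SSChart w B) (m : ℕ) (u : F)
    (n : Ideal B) : Prop :=
  ∃ h : F, h ≠ 0 ∧ LocOne B n (Ideal.span {algebraMap R B w}) (u * h ^ m) ∧
    OneAt B c.p₁ h ∧ OneAt B c.p₂ h

/-- Local factorisations at ALL closed points of the special fibre of the chart `B`. -/
def LocallyFactored {w : R} (B : Subalgebra R F) (c : SSChart w B) (m : ℕ) (u : F) : Prop :=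
  ∀ n : Ideal B, n.IsMaximal → algebraMap R B w ∈ n → LocalFactor B c m u n

end Defs

section Ctx

variable {R E F : Type*} [CommRing R] [Field E] [Algebra R E] [Field F] [Algebra E F]
  [Algebra R F]

/-- The standing hypotheses of `algSS` on ONE chart `B` with coordinate `x`
(`(x, B) = (x, Bf)` or `(x⁻¹, Bi)`). -/
structure ChartCtx (E : Type*) [Field E] [Algebra R E] [Algebra E F] (w : R) (x : F)
    (B : Subalgebra R F) : Prop where
  hw : Irreducible w
  hx : Transcendental E x
  hfin : FiniteDimensional (IntermediateField.adjoin E ({x} : Set F)) F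
  hconst : ∀ f : F, IsAlgebraic E f → f ∈ (algebraMap E F).range
  hB : ∀ f : F, f ∈ B ↔ IsIntegral (Algebra.adjoin R ({x} : Set F)) f

/-- The standing hypotheses of `algSS` on the semilinear automorphism `τ`, on one chart. -/
structure TauCtx (w : R) (B : Subalgebra R F) (τ : F ≃+* F) (τE : E ≃+* E) (τR : R ≃+* R) :
    Prop where
  hτE : ∀ e : E, τ (algebraMap E F e) = algebraMap E F (τE e)
  hτR : ∀ r : R, τE (algebraMap R E r) = algebraMap R E (τR r)
  hτB : ∀ b ∈ B, ∃ c ∈ B, τ b - b = algebraMap R F w * c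

end Ctx

end Fermat.Agent.A2.Alg

end
-- ===== PACK-END A2/Alg/Spec.lean

-- ===== PACK-BEGIN A2/Alg/H34/Basic.lean
section


/-!
# WALL A2 / ALG — leaves A1' and ASM (helper34)

* `divisibleDiv_mul_inv`, `divisibleDiv_tau` : `DivisibleDiv` is stable under quotients and under
  a semilinear automorphism.
* `chartCtx_inv` : the standing hypotheses for the chart at infinity.
* `locOne_tau_div` : `v ∈ (B_n)ˣ`, `τ ≡ id mod w`, `w ∈ I`  ⟹  `τ v / v ∈ 1 + I B_n`.
* `localFactor_of_pureAt` (**ASM**) : `PureAt u n ⟹ LocalFactor (τ u / u) n`.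

Statements are VERBATIM those of `Fermat/Agent/A2/Alg/Skel.lean` (origin/helper34).
-/

set_option autoImplicit false

namespace Fermat.Agent.A2.Alg.H34

open Fermat.Agent.A2 Fermat.Agent.A2.Alg

section Div

variable {E F : Type*} [Field E] [Field F] [Algebra E F]

/-- **A1'.** -/
theorem divisibleDiv_mul_inv (m : ℕ) (f g : F) (hf : DivisibleDiv E m f)
    (hg : DivisibleDiv E m g) : DivisibleDiv E m (f * g⁻¹) := by
  intro V hV hE
  obtain ⟨h₁, u₁, hh₁, hu₁, hu₁', rfl⟩ := hf V hV hE
  obtain ⟨h₂, u₂, hh₂, hu₂, hu₂', rfl⟩ := hg V hV hE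
  refine ⟨h₁ * h₂⁻¹, u₁ * u₂⁻¹, mul_ne_zero hh₁ (inv_ne_zero hh₂), V.mul_mem _ _ hu₁ hu₂', ?_, ?_⟩
  · rw [mul_inv, inv_inv]
    exact V.mul_mem _ _ hu₁' hu₂
  · rw [mul_pow, inv_pow, mul_inv]
    ring

/-- The ring isomorphism `V.comap τ ≃ V` induced by `τ`. -/
noncomputable def comapEquiv (τ : F ≃+* F) (V : ValuationSubring F) :
    V.comap (τ : F →+* F) ≃+* V where
  toFun a := ⟨τ a.1, a.2⟩
  invFun b := ⟨τ.symm b.1, by
    show (τ : F →+* F) (τ.symm b.1) ∈ V
    simpa using b.2⟩
  left_inv a := Subtype.ext (by simp)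
  right_inv b := Subtype.ext (by simp)
  map_mul' a b := Subtype.ext (by simp)
  map_add' a b := Subtype.ext (by simp)

/-- **A1'.**  `τ` permutes the discrete valuation rings of `F` containing `E`. -/
theorem divisibleDiv_tau (τ : F ≃+* F) (τE : E ≃+* E)
    (hτE : ∀ e : E, τ (algebraMap E F e) = algebraMap E F (τE e)) (m : ℕ) (f : F)
    (h : DivisibleDiv E m f) : DivisibleDiv E m (τ f) := by
  intro V hV hE
  have hV' : IsDiscreteValuationRing (V.comap (τ : F →+* F)) :=
    IsDiscreteValuationRing.RingEquivClass.isDiscreteValuationRing (comapEquiv τ V).symm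
  have hE' : ∀ e : E, algebraMap E F e ∈ V.comap (τ : F →+* F) := fun e => by
    show τ (algebraMap E F e) ∈ V
    rw [hτE]
    exact hE _
  obtain ⟨h₀, u, hh₀, hu, hu', rfl⟩ := h _ hV' hE'
  refine ⟨τ h₀, τ u, (map_ne_zero τ).2 hh₀, hu, ?_, ?_⟩
  · rw [← map_inv₀]
    exact hu'
  · rw [map_mul, map_pow]

end Div

section Chart

variable {R E F : Type*} [CommRing R] [Field E] [Algebra R E] [Field F] [Algebra E F]
  [Algebra R F]

theorem adjoin_inv_eq (x : F) :
    IntermediateField.adjoin E ({x⁻¹} : Set F) = IntermediateField.adjoin E ({x} : Set F) := by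
  apply le_antisymm
  · rw [IntermediateField.adjoin_le_iff]
    rintro y hy
    rw [Set.mem_singleton_iff] at hy
    subst hy
    exact inv_mem (IntermediateField.subset_adjoin E _ (Set.mem_singleton x))
  · rw [IntermediateField.adjoin_le_iff]
    rintro y hy
    rw [Set.mem_singleton_iff] at hy
    subst hy
    have := inv_mem (IntermediateField.subset_adjoin E ({y⁻¹} : Set F) (Set.mem_singleton _))
    rwa [inv_inv] at this

/-- **A1'.**  The chart at infinity satisfies the same standing hypotheses with `x⁻¹`. -/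
theorem chartCtx_inv (w : R) (hw : Irreducible w) (x : F) (hx : Transcendental E x)
    (hfin : FiniteDimensional (IntermediateField.adjoin E ({x} : Set F)) F)
    (hconst : ∀ f : F, IsAlgebraic E f → f ∈ (algebraMap E F).range)
    (Bi : Subalgebra R F)
    (hBi : ∀ f : F, f ∈ Bi ↔ IsIntegral (Algebra.adjoin R ({x⁻¹} : Set F)) f) :
    ChartCtx E w x⁻¹ Bi := by
  refine ⟨hw, ?_, ?_, hconst, hBi⟩
  · intro h
    apply hx
    have := h.inv
    rwa [inv_inv] at this
  · rw [adjoin_inv_eq]
    exact hfin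

end Chart

section Asm

variable {R F : Type*} [CommRing R] [Field F] [Algebra R F]

/-- `τ` maps `B` into `B`, and is the identity modulo `w`. -/
theorem exists_tau_eq (w : R) (B : Subalgebra R F) (τ : F ≃+* F)
    (hτB : ∀ b ∈ B, ∃ c ∈ B, τ b - b = algebraMap R F w * c) (b : B) :
    ∃ b' c : B, (b' : F) = τ b ∧ b' - b = algebraMap R B w * c := by
  obtain ⟨c, hc, h⟩ := hτB b b.2
  refine ⟨⟨τ b, ?_⟩, ⟨c, hc⟩, rfl, ?_⟩
  · have : τ (b : F) = b + algebraMap R F w * c := by linear_combination h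
    rw [this]
    exact B.add_mem b.2 (B.mul_mem (B.algebraMap_mem w) hc)
  · apply Subtype.ext
    simpa using h

/-- `v ∈ (B_n)ˣ`, `τ ≡ id mod w`, `w ∈ n`, `w ∈ I`  ⟹  `τ v / v ∈ 1 + I B_n`. -/
theorem locOne_tau_div (w : R) (B : Subalgebra R F) (τ : F ≃+* F)
    (hτB : ∀ b ∈ B, ∃ c ∈ B, τ b - b = algebraMap R F w * c)
    (n : Ideal B) (hn : n.IsPrime) (hwn : algebraMap R B w ∈ n)
    (I : Ideal B) (hwI : algebraMap R B w ∈ I) (v : F) (hv : LocUnit B n v) :
    LocOne B n I (τ v * v⁻¹) := by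
  obtain ⟨a, b, ha, hb, hab⟩ := hv
  obtain ⟨a', ca, ha', hca⟩ := exists_tau_eq w B τ hτB a
  obtain ⟨b', cb, hb', hcb⟩ := exists_tau_eq w B τ hτB b
  have hb'n : b' ∉ n := by
    intro h
    apply hb
    have h1 : b = b' - algebraMap R B w * cb := by rw [← hcb]; ring
    rw [h1]
    exact n.sub_mem h (n.mul_mem_right _ hwn)
  have ha0 : (a : F) ≠ 0 := by
    intro h
    apply ha
    have : a = 0 := Subtype.ext h
    rw [this]
    exact n.zero_mem
  have hb0 : (b : F) ≠ 0 := by
    intro h
    apply hb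
    have : b = 0 := Subtype.ext h
    rw [this]
    exact n.zero_mem
  have hv0 : v ≠ 0 := by
    rintro rfl
    rw [zero_mul] at hab
    exact ha0 hab.symm
  have hb'0 : (b' : F) ≠ 0 := by
    rw [hb']
    exact (map_ne_zero τ).2 hb0
  refine ⟨a' * b, a * b', ?_, ?_, ?_⟩
  · intro h
    rcases hn.mem_or_mem h with h | h
    · exact ha h
    · exact hb'n h
  · have h1 : a' * b - a * b' = algebraMap R B w * (ca * b - a * cb) := by
      have e1 : a' = a + algebraMap R B w * ca := by rw [← hca]; ring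
      have e2 : b' = b + algebraMap R B w * cb := by rw [← hcb]; ring
      rw [e1, e2]
      ring
    rw [h1]
    exact I.mul_mem_right _ hwI
  · -- `τ v * v⁻¹ * (a * b') = a' * b`
    have hτ : τ v * (b' : F) = (a' : F) := by
      rw [hb', ha', ← map_mul, hab]
    have hv' : v = (a : F) * (b : F)⁻¹ := by
      field_simp
      exact hab
    push_cast
    have : τ v = (a' : F) * (b' : F)⁻¹ := by
      field_simp
      exact hτ
    rw [this, hv']
    field_simp

/-- **ASM.**  `u d ^ m = ε ∈ (B_n)ˣ`; `h := τ d / d`; then `(τ u / u) h ^ m = τ ε / ε ∈ 1 + w B_n`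
and `h ≡ 1` on both components (`d` is a unit there, `τ ≡ id mod w`). -/
theorem localFactor_of_pureAt {E : Type*} [Field E] [Algebra R E] [Algebra E F]
    (w : R) (B : Subalgebra R F) (c : SSChart w B)
    (τ : F ≃+* F) (τE : E ≃+* E) (τR : R ≃+* R) (hτ : TauCtx w B τ τE τR)
    (m : ℕ) (u : F) (hu : u ≠ 0) (n : Ideal B) (hn : n.IsPrime) (hwn : algebraMap R B w ∈ n)
    (h : PureAt B c m u n) : LocalFactor B c m (τ u * u⁻¹) n := by
  obtain ⟨d, hd, hε, hd₁, hd₂⟩ := h
  have hw₁ : algebraMap R B w ∈ c.p₁ := by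
    have : algebraMap R B w ∈ c.p₁ ⊓ c.p₂ := by
      rw [c.inf_eq]
      exact Ideal.mem_span_singleton_self _
    exact this.1
  have hw₂ : algebraMap R B w ∈ c.p₂ := by
    have : algebraMap R B w ∈ c.p₁ ⊓ c.p₂ := by
      rw [c.inf_eq]
      exact Ideal.mem_span_singleton_self _
    exact this.2
  have hτd : τ d ≠ 0 := (map_ne_zero τ).2 hd
  refine ⟨τ d * d⁻¹, mul_ne_zero hτd (inv_ne_zero hd), ?_,
    locOne_tau_div w B τ hτ.hτB c.p₁ c.prime₁ hw₁ c.p₁ hw₁ d hd₁,
    locOne_tau_div w B τ hτ.hτB c.p₂ c.prime₂ hw₂ c.p₂ hw₂ d hd₂⟩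
  have key : τ u * u⁻¹ * (τ d * d⁻¹) ^ m = τ (u * d ^ m) * (u * d ^ m)⁻¹ := by
    rw [map_mul, map_pow, mul_pow, inv_pow, mul_inv]
    ring
  rw [key]
  exact locOne_tau_div w B τ hτ.hτB n hn hwn _ (Ideal.mem_span_singleton_self _) _ hε

end Asm

end Fermat.Agent.A2.Alg.H34

end
-- ===== PACK-END A2/Alg/H34/Basic.lean

-- ===== PACK-BEGIN A2/H609/Multiplicity.lean
section



/-!
# Node purity, part 3: the multiplicity identity

`R` integrally closed noetherian domain, `u π : R`, `u` regular modulo `π`, `ℓ(R/(u,π)) < ∞`.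
If `t ^ m = u * r` with `π ^ k ∈ (u, r)` (i.e. `t` generates the root ideal `I = I_1` at every
"horizontal" prime through `u`), then

  `ℓ(R / ((u) + (π))) = m • ℓ(R / (I + (π)))`.

Mathlib only.
-/

set_option autoImplicit false

namespace Fermat.Agent.A2.H609

open Ideal

variable {R : Type*} [CommRing R]

section Basic

variable [IsDomain R]

/-- `u` regular mod `π` implies `π` regular mod `u` (in a domain). -/
theorem dvd_of_dvd_mul_of_reg {u π : R} (hπ0 : π ≠ 0) (hreg : ∀ x : R, π ∣ u * x → π ∣ x)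
    {z : R} (h : u ∣ π * z) : u ∣ z := by
  obtain ⟨w, hw⟩ := h
  obtain ⟨w', hw'⟩ := hreg w ⟨z, hw.symm⟩
  refine ⟨w', ?_⟩
  have : π * z = π * (u * w') := by rw [hw, hw']; ring
  exact mul_left_cancel₀ hπ0 this

theorem dvd_of_dvd_pow_mul_of_reg {u π : R} (hπ0 : π ≠ 0) (hreg : ∀ x : R, π ∣ u * x → π ∣ x)
    (k : ℕ) {z : R} (h : u ∣ π ^ k * z) : u ∣ z := by
  induction k with
  | zero => simpa using h
  | succ k ih =>
    apply ih
    apply dvd_of_dvd_mul_of_reg hπ0 hreg
    rwa [← _root_.mul_assoc, ← pow_succ']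

/-- `r` is regular modulo `u` as soon as `π ^ k ∈ (u, r)`. -/
theorem dvd_of_dvd_mul_of_pow_mem {u π r : R} (hπ0 : π ≠ 0)
    (hreg : ∀ x : R, π ∣ u * x → π ∣ x) {k : ℕ} (hk : π ^ k ∈ Ideal.span {u, r})
    {y : R} (h : u ∣ r * y) : u ∣ y := by
  obtain ⟨a, b, hab⟩ := Ideal.mem_span_pair.mp hk
  apply dvd_of_dvd_pow_mul_of_reg hπ0 hreg k
  rw [← hab, add_mul]
  apply dvd_add
  · exact Dvd.intro_left (a * y) (by ring)
  · have : b * r * y = b * (r * y) := by ring
    rw [this]
    exact Dvd.dvd.mul_left h b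

theorem dvd_of_dvd_pow_mul_of_pow_mem {u π r : R} (hπ0 : π ≠ 0)
    (hreg : ∀ x : R, π ∣ u * x → π ∣ x) {k : ℕ} (hk : π ^ k ∈ Ideal.span {u, r})
    (j : ℕ) {y : R} (h : u ∣ r ^ j * y) : u ∣ y := by
  induction j with
  | zero => simpa using h
  | succ j ih =>
    apply ih
    apply dvd_of_dvd_mul_of_pow_mem hπ0 hreg hk
    rwa [← _root_.mul_assoc, ← pow_succ']

omit [IsDomain R] in
/-- `π ^ (k * j) ∈ (u, r ^ j)` if `π ^ k ∈ (u, r)`. -/
theorem pow_mul_mem_span_pair {u π r : R} {k : ℕ} (hk : π ^ k ∈ Ideal.span {u, r}) (j : ℕ) :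
    π ^ (k * j) ∈ Ideal.span {u, r ^ j} := by
  obtain ⟨a, b, hab⟩ := Ideal.mem_span_pair.mp hk
  rw [pow_mul, ← hab]
  -- `(a u + b r)^j - (b r)^j` is divisible by `a u`
  have h1 : (a * u + b * r - b * r) ∣ (a * u + b * r) ^ j - (b * r) ^ j := sub_dvd_pow_sub_pow _ _ j
  rw [add_sub_cancel_right] at h1
  obtain ⟨c, hc⟩ := h1
  have h2 : (a * u + b * r) ^ j = (a * c) * u + b ^ j * r ^ j := by
    have : (a * u + b * r) ^ j = a * u * c + (b * r) ^ j := by rw [← hc]; ring
    rw [this, mul_pow]; ring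
  rw [h2]
  exact Ideal.mem_span_pair.mpr ⟨a * c, b ^ j, rfl⟩

end Basic

section Finiteness

/-- A cyclic module killed by `𝔞` has length at most `ℓ(R/𝔞)`. -/
theorem relLen_span_singleton_le (𝔞 : Ideal R) (x : R) :
    relLen (𝔞 * Ideal.span {x}) (Ideal.span {x}) ≤ relLen 𝔞 (⊤ : Ideal R) := by
  refine relLen_le_of_map (LinearMap.mulRight R x) (N' := 𝔞) (N := ⊤)
    (P' := 𝔞 * Ideal.span {x}) (P := Ideal.span {x}) ?_ ?_ ?_
  · intro y _
    rw [LinearMap.mulRight_apply]
    exact Ideal.mem_span_singleton.mpr (Dvd.intro_left y rfl)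
  · intro y hy
    rw [LinearMap.mulRight_apply]
    exact Ideal.mul_mem_mul hy (Ideal.mem_span_singleton_self x)
  · intro y hy
    obtain ⟨c, rfl⟩ := Ideal.mem_span_singleton'.mp hy
    refine ⟨c, trivial, ?_⟩
    rw [LinearMap.mulRight_apply, sub_self]
    exact Ideal.zero_mem _

/-- For a finitely generated ideal `A` and an ideal `𝔞` with `ℓ(R/𝔞) < ∞`: `ℓ(A/𝔞A) < ∞`. -/
theorem relLen_mul_ne_top (𝔞 : Ideal R) (h𝔞 : relLen 𝔞 (⊤ : Ideal R) ≠ ⊤)
    (A : Ideal R) (hA : A.FG) : relLen (𝔞 * A) A ≠ ⊤ := by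
  refine Submodule.fg_induction
    (motive := fun (A : Submodule R R) _ => relLen (𝔞 * (A : Ideal R)) A ≠ ⊤) ?_ ?_ A hA
  · intro x
    exact ne_top_of_le_ne_top h𝔞 (relLen_span_singleton_le 𝔞 x)
  · intro M₁ M₂ _ _ h₁ h₂
    -- chain `𝔞 M₁ ⊔ 𝔞 M₂ ≤ M₁ ⊔ 𝔞 M₂ ≤ M₁ ⊔ M₂`
    have hmul : 𝔞 * ((M₁ ⊔ M₂ : Submodule R R) : Ideal R) = 𝔞 * (M₁ : Ideal R) ⊔ 𝔞 * (M₂ : Ideal R) :=
      Ideal.mul_sup 𝔞 M₁ M₂
    have hle1 : 𝔞 * (M₁ : Ideal R) ≤ M₁ := Ideal.mul_le_right
    have hle2 : 𝔞 * (M₂ : Ideal R) ≤ M₂ := Ideal.mul_le_right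
    have hAB : (𝔞 * (M₁ : Ideal R) ⊔ 𝔞 * (M₂ : Ideal R) : Ideal R) ≤ M₁ ⊔ 𝔞 * (M₂ : Ideal R) :=
      sup_le_sup_right hle1 _
    have hBC : (M₁ ⊔ 𝔞 * (M₂ : Ideal R) : Ideal R) ≤ M₁ ⊔ M₂ := sup_le_sup_left hle2 _
    show relLen (𝔞 * ((M₁ ⊔ M₂ : Submodule R R) : Ideal R)) (M₁ ⊔ M₂) ≠ ⊤
    rw [hmul, relLen_add hAB hBC]
    have hfirst : relLen (𝔞 * (M₁ : Ideal R) ⊔ 𝔞 * (M₂ : Ideal R) : Ideal R)
        (M₁ ⊔ 𝔞 * (M₂ : Ideal R) : Ideal R) ≤ relLen (𝔞 * (M₁ : Ideal R)) M₁ := by
      refine relLen_le_of_map (LinearMap.id : R →ₗ[R] R) ?_ ?_ ?_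
      · intro x hx
        exact Submodule.mem_sup_left hx
      · intro x hx
        exact Submodule.mem_sup_left hx
      · intro y hy
        obtain ⟨a, ha, b, hb, rfl⟩ := Submodule.mem_sup.mp hy
        refine ⟨a, ha, ?_⟩
        rw [LinearMap.id_apply, add_sub_cancel_left]
        exact Submodule.mem_sup_right hb
    have hsecond : relLen (M₁ ⊔ 𝔞 * (M₂ : Ideal R) : Ideal R) (M₁ ⊔ M₂ : Ideal R) ≤
        relLen (𝔞 * (M₂ : Ideal R)) M₂ := by
      refine relLen_le_of_map (LinearMap.id : R →ₗ[R] R) ?_ ?_ ?_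
      · intro x hx
        exact Submodule.mem_sup_right hx
      · intro x hx
        exact Submodule.mem_sup_right hx
      · intro y hy
        obtain ⟨a, ha, b, hb, rfl⟩ := Submodule.mem_sup.mp hy
        refine ⟨b, hb, ?_⟩
        rw [LinearMap.id_apply, add_sub_cancel_right]
        exact Submodule.mem_sup_left ha
    intro htop
    rcases ENat.add_eq_top.mp htop with h | h
    · exact ne_top_of_le_ne_top h₁ hfirst h
    · exact ne_top_of_le_ne_top h₂ hsecond h

/-- `ℓ(R/(u, π^N)) < ∞` if `ℓ(R/(u, π)) < ∞`. -/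
theorem relLen_span_pair_pow_ne_top (u π : R)
    (hfin : relLen (Ideal.span {u, π}) (⊤ : Ideal R) ≠ ⊤) (N : ℕ) :
    relLen (Ideal.span {u, π ^ N}) (⊤ : Ideal R) ≠ ⊤ := by
  induction N with
  | zero =>
    have : Ideal.span {u, π ^ 0} = (⊤ : Ideal R) := by
      rw [Ideal.eq_top_iff_one, pow_zero]
      exact Ideal.subset_span (by simp)
    rw [this, relLen_self]
    exact ENat.zero_ne_top
  | succ N ih =>
    have hAB : Ideal.span {u, π ^ (N + 1)} ≤ Ideal.span {u, π ^ N} := by
      rw [Ideal.span_le]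
      intro x hx
      rcases hx with rfl | rfl
      · exact Ideal.subset_span (by simp)
      · rw [pow_succ]
        exact Ideal.mul_mem_right _ _ (Ideal.subset_span (by simp))
    rw [relLen_add hAB le_top]
    intro htop
    rcases ENat.add_eq_top.mp htop with h | h
    swap
    · exact ih h
    revert h
    refine ne_top_of_le_ne_top hfin ?_
    refine relLen_le_of_map (LinearMap.mulLeft R (π ^ N)) (N' := Ideal.span {u, π})
      (N := (⊤ : Ideal R)) ?_ ?_ ?_
    · intro x _
      rw [LinearMap.mulLeft_apply]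
      exact Ideal.mul_mem_right _ _ (Ideal.subset_span (by simp))
    · intro x hx
      rw [LinearMap.mulLeft_apply]
      obtain ⟨a, b, rfl⟩ := Ideal.mem_span_pair.mp hx
      refine Ideal.mem_span_pair.mpr ⟨π ^ N * a, b, ?_⟩
      rw [pow_succ]; ring
    · intro y hy
      obtain ⟨a, b, rfl⟩ := Ideal.mem_span_pair.mp hy
      refine ⟨b, trivial, ?_⟩
      rw [LinearMap.mulLeft_apply]
      have : a * u + b * π ^ N - π ^ N * b = a * u := by ring
      rw [this]
      exact Ideal.mul_mem_left _ _ (Ideal.subset_span (by simp))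

end Finiteness

end Fermat.Agent.A2.H609

end
-- ===== PACK-END A2/H609/Multiplicity.lean

-- ===== PACK-BEGIN A2/H609/Chain.lean
section


/-!
# Node purity, part 4: `ℓ(R/((u)+(π))) = m • ℓ(R/(I_1+(π)))`

Mathlib only.  See `Multiplicity.lean` for the setting.
-/

set_option autoImplicit false

namespace Fermat.Agent.A2.H609

open Ideal

variable {R : Type*} [CommRing R] [IsDomain R] [IsIntegrallyClosed R]

section Generator

variable {u π t r : R} {m : ℕ} {hm : m ≠ 0}

/-- (d) `t ^ j * g ∈ I_{j+1} → g ∈ I_1` when `t ^ m = u * r` and `r` is regular modulo `u`. -/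
theorem mem_rootIdeal_one_of_pow_mul_mem (hu0 : u ≠ 0) (hπ0 : π ≠ 0)
    (hreg : ∀ x : R, π ∣ u * x → π ∣ x) (ht : t ^ m = u * r)
    {k : ℕ} (hk : π ^ k ∈ Ideal.span {u, r}) {j : ℕ} {g : R}
    (h : t ^ j * g ∈ rootIdeal u m hm (j + 1)) : g ∈ rootIdeal u m hm 1 := by
  rw [mem_rootIdeal] at h ⊢
  rw [pow_one]
  have h1 : (t ^ j * g) ^ m = u ^ j * (r ^ j * g ^ m) := by
    rw [mul_pow, ← pow_mul, _root_.mul_comm j m, pow_mul, ht, mul_pow]; ring
  rw [h1, pow_succ] at h
  have h2 : u ∣ r ^ j * g ^ m := (mul_dvd_mul_iff_left (pow_ne_zero j hu0)).mp h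
  exact dvd_of_dvd_pow_mul_of_pow_mem hπ0 hreg hk j h2

/-- (e') `r ^ j * I_j ⊆ (t ^ j)`. -/
theorem pow_dvd_pow_mul_of_mem_rootIdeal (ht : t ^ m = u * r) {j : ℕ} {g : R}
    (hg : g ∈ rootIdeal u m hm j) : t ^ j ∣ r ^ j * g := by
  rw [mem_rootIdeal] at hg
  obtain ⟨x, hx⟩ := hg
  apply dvd_of_pow_dvd_pow hm
  have h1 : (t ^ j) ^ m = u ^ j * r ^ j := by
    rw [← pow_mul, _root_.mul_comm j m, pow_mul, ht, mul_pow]
  have h2 : (r ^ j * g) ^ m = (u ^ j * r ^ j) * ((r ^ j) ^ (m - 1) * x) := by
    rw [mul_pow, hx]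
    have : (r ^ j) ^ m = r ^ j * (r ^ j) ^ (m - 1) := by
      rw [← pow_succ', Nat.sub_add_cancel (Nat.one_le_iff_ne_zero.mpr hm)]
    rw [this]; ring
  rw [h1, h2]
  exact Dvd.intro _ rfl

theorem pow_mem_rootIdeal_of_pow_eq (ht : t ^ m = u * r) (j : ℕ) :
    t ^ j ∈ rootIdeal u m hm j := by
  apply pow_mem_rootIdeal
  rw [mem_rootIdeal, pow_one, ht]
  exact Dvd.intro _ rfl

end Generator

section Chain

variable [IsNoetherianRing R]
variable {u π t r : R} {m : ℕ} {hm : m ≠ 0}

/-- (e) finiteness of `ℓ(I_j / ((t^j) + I_{j+1}))`. -/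
theorem relLen_span_sup_rootIdeal_ne_top
    (ht : t ^ m = u * r) {k : ℕ} (hk : π ^ k ∈ Ideal.span {u, r})
    (hfin : relLen (Ideal.span {u, π}) (⊤ : Ideal R) ≠ ⊤) (j : ℕ) :
    relLen (Ideal.span {t ^ j} ⊔ rootIdeal u m hm (j + 1)) (rootIdeal u m hm j) ≠ ⊤ := by
  set A := rootIdeal u m hm j with hA
  set A' := Ideal.span {t ^ j} ⊔ rootIdeal u m hm (j + 1) with hA'
  set 𝔞 : Ideal R := Ideal.span {u, r ^ j} with h𝔞
  have hA'A : A' ≤ A := by
    refine sup_le ?_ (rootIdeal_antitone u m hm (Nat.le_succ j))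
    rw [Ideal.span_le, Set.singleton_subset_iff]
    exact pow_mem_rootIdeal_of_pow_eq ht j
  have h𝔞A : 𝔞 * A ≤ A' := by
    rw [Ideal.mul_le]
    intro a ha g hg
    obtain ⟨c, d, rfl⟩ := Ideal.mem_span_pair.mp ha
    rw [add_mul]
    refine Ideal.add_mem _ ?_ ?_
    · refine Submodule.mem_sup_right ?_
      have : c * u * g = c * (u * g) := by ring
      rw [this]
      exact Ideal.mul_mem_left _ _ (self_mul_mem_rootIdeal_succ hg)
    · refine Submodule.mem_sup_left ?_
      have : d * r ^ j * g = d * (r ^ j * g) := by ring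
      rw [this]
      exact Ideal.mul_mem_left _ _
        (Ideal.mem_span_singleton.mpr (pow_dvd_pow_mul_of_mem_rootIdeal ht hg))
  have h𝔟 : Ideal.span {u, π ^ (k * j)} ≤ 𝔞 := by
    rw [Ideal.span_le]
    intro x hx
    rcases hx with rfl | rfl
    · exact Ideal.subset_span (by simp)
    · exact pow_mul_mem_span_pair hk j
  have h𝔞fin : relLen 𝔞 (⊤ : Ideal R) ≠ ⊤ :=
    ne_top_of_le_ne_top (relLen_span_pair_pow_ne_top u π hfin (k * j))
      (relLen_mono_left h𝔟 le_top)
  exact ne_top_of_le_ne_top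
    (relLen_mul_ne_top 𝔞 h𝔞fin A (IsNoetherian.noetherian A))
    (relLen_mono_left h𝔞A hA'A)

omit [IsNoetherianRing R] in
/-- Step Z: `ℓ((I_j + (π)) / (I_{j+1} + (π))) = ℓ(I_j / (I_{j+1} + π I_j))`. -/
theorem relLen_stepZ (hπ0 : π ≠ 0) (hreg : ∀ x : R, π ∣ u * x → π ∣ x) (j : ℕ) :
    relLen (rootIdeal u m hm (j + 1) ⊔ Ideal.span {π} * rootIdeal u m hm j)
        (rootIdeal u m hm j) =
      relLen (rootIdeal u m hm (j + 1) ⊔ Ideal.span {π})
        (rootIdeal u m hm j ⊔ Ideal.span {π}) := by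
  refine relLen_eq_of_map (LinearMap.id : R →ₗ[R] R) ?_ ?_ ?_ ?_
  · intro x hx
    exact Submodule.mem_sup_left hx
  · intro x hx
    obtain ⟨a, ha, b, hb, rfl⟩ := Submodule.mem_sup.mp hx
    refine Ideal.add_mem _ (Submodule.mem_sup_left ha) (Submodule.mem_sup_right ?_)
    exact Ideal.mul_le_left hb
  · intro x hx hx'
    rw [LinearMap.id_apply] at hx'
    obtain ⟨a, ha, b, hb, hab⟩ := Submodule.mem_sup.mp hx'
    obtain ⟨c, rfl⟩ := Ideal.mem_span_singleton'.mp hb
    have hc : c ∈ rootIdeal u m hm j := by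
      apply mem_rootIdeal_of_mul_mem hπ0 hreg
      have : π * c = x - a := by rw [← hab]; ring
      rw [this]
      exact Ideal.sub_mem _ hx (rootIdeal_antitone u m hm (Nat.le_succ j) ha)
    rw [← hab]
    refine Ideal.add_mem _ (Submodule.mem_sup_left ha) (Submodule.mem_sup_right ?_)
    rw [_root_.mul_comm c π]
    exact Ideal.mul_mem_mul (Ideal.mem_span_singleton_self π) hc
  · intro y hy
    obtain ⟨a, ha, b, hb, rfl⟩ := Submodule.mem_sup.mp hy
    refine ⟨a, ha, ?_⟩
    rw [LinearMap.id_apply, add_sub_cancel_left]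
    exact Submodule.mem_sup_right hb

/-- Step Y: replace `I_j` by its finite-colength submodule `(t^j) + I_{j+1}`. -/
theorem relLen_stepY (hπ0 : π ≠ 0) (hreg : ∀ x : R, π ∣ u * x → π ∣ x)
    (ht : t ^ m = u * r) {k : ℕ} (hk : π ^ k ∈ Ideal.span {u, r})
    (hfin : relLen (Ideal.span {u, π}) (⊤ : Ideal R) ≠ ⊤) (j : ℕ) :
    relLen (rootIdeal u m hm (j + 1) ⊔ Ideal.span {π} * rootIdeal u m hm j)
        (rootIdeal u m hm j) =
      relLen (rootIdeal u m hm (j + 1) ⊔
          Ideal.span {π} * (Ideal.span {t ^ j} ⊔ rootIdeal u m hm (j + 1)))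
        (Ideal.span {t ^ j} ⊔ rootIdeal u m hm (j + 1)) := by
  set A := rootIdeal u m hm j with hA
  set J := rootIdeal u m hm (j + 1) with hJ
  set A' := Ideal.span {t ^ j} ⊔ J with hA'
  set B := J ⊔ Ideal.span {π} * A with hB
  set B' := J ⊔ Ideal.span {π} * A' with hB'
  have hJA : J ≤ A := rootIdeal_antitone u m hm (Nat.le_succ j)
  have hA'A : A' ≤ A := by
    refine sup_le ?_ hJA
    rw [Ideal.span_le, Set.singleton_subset_iff]
    exact pow_mem_rootIdeal_of_pow_eq ht j
  have hB'A' : B' ≤ A' := sup_le le_sup_right Ideal.mul_le_right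
  have hB'B : B' ≤ B := sup_le_sup_left (Ideal.mul_mono_right hA'A) _
  have hBA : B ≤ A := sup_le hJA Ideal.mul_le_right
  have hfinA : relLen A' A ≠ ⊤ := relLen_span_sup_rootIdeal_ne_top ht hk hfin j
  -- `A / A' ≃ B / B'` via multiplication by `π`
  have hiso : relLen A' A = relLen B' B := by
    refine relLen_eq_of_map (LinearMap.mulLeft R π) ?_ ?_ ?_ ?_
    · intro x hx
      rw [LinearMap.mulLeft_apply]
      exact Submodule.mem_sup_right (Ideal.mul_mem_mul (Ideal.mem_span_singleton_self π) hx)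
    · intro x hx
      rw [LinearMap.mulLeft_apply]
      exact Submodule.mem_sup_right (Ideal.mul_mem_mul (Ideal.mem_span_singleton_self π) hx)
    · intro x hx hx'
      rw [LinearMap.mulLeft_apply] at hx'
      obtain ⟨a, ha, b, hb, hab⟩ := Submodule.mem_sup.mp hx'
      obtain ⟨c, hc, rfl⟩ := Ideal.mem_span_singleton_mul.mp hb
      -- `π * (x - c) = a ∈ J`, so `x - c ∈ J`
      have h1 : x - c ∈ J := by
        apply mem_rootIdeal_of_mul_mem hπ0 hreg
        have : π * (x - c) = a := by rw [mul_sub, ← hab]; ring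
        rw [this]
        exact ha
      have : x = (x - c) + c := by ring
      rw [this]
      exact Ideal.add_mem _ (Submodule.mem_sup_right h1) hc
    · intro y hy
      obtain ⟨a, ha, b, hb, rfl⟩ := Submodule.mem_sup.mp hy
      obtain ⟨c, hc, rfl⟩ := Ideal.mem_span_singleton_mul.mp hb
      refine ⟨c, hc, ?_⟩
      rw [LinearMap.mulLeft_apply, add_sub_cancel_right]
      exact Submodule.mem_sup_left ha
  have e1 : relLen B' A = relLen B' A' + relLen A' A := relLen_add hB'A' hA'A
  have e2 : relLen B' A = relLen B' B + relLen B A := relLen_add hB'B hBA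
  rw [e1, ← hiso, add_comm (relLen A' A)] at e2
  exact (ENat.add_left_injective_of_ne_top hfinA e2).symm

omit [IsNoetherianRing R] in
/-- Step X: `ℓ(((t^j) + I_{j+1}) / (I_{j+1} + π ((t^j) + I_{j+1}))) = ℓ(R / (I_1 + (π)))`. -/
theorem relLen_stepX (hu0 : u ≠ 0) (hπ0 : π ≠ 0) (hreg : ∀ x : R, π ∣ u * x → π ∣ x)
    (ht : t ^ m = u * r) {k : ℕ} (hk : π ^ k ∈ Ideal.span {u, r}) (j : ℕ) :
    relLen (rootIdeal u m hm 1 ⊔ Ideal.span {π}) (⊤ : Ideal R) =
      relLen (rootIdeal u m hm (j + 1) ⊔
          Ideal.span {π} * (Ideal.span {t ^ j} ⊔ rootIdeal u m hm (j + 1)))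
        (Ideal.span {t ^ j} ⊔ rootIdeal u m hm (j + 1)) := by
  set J := rootIdeal u m hm (j + 1) with hJ
  refine relLen_eq_of_map (LinearMap.mulLeft R (t ^ j)) ?_ ?_ ?_ ?_
  · intro x _
    rw [LinearMap.mulLeft_apply]
    exact Submodule.mem_sup_left (Ideal.mul_mem_right _ _ (Ideal.mem_span_singleton_self _))
  · intro x hx
    rw [LinearMap.mulLeft_apply]
    obtain ⟨a, ha, b, hb, rfl⟩ := Submodule.mem_sup.mp hx
    obtain ⟨c, rfl⟩ := Ideal.mem_span_singleton'.mp hb
    rw [mul_add]
    refine Ideal.add_mem _ (Submodule.mem_sup_left ?_) (Submodule.mem_sup_right ?_)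
    · have := mul_mem_rootIdeal (pow_mem_rootIdeal_of_pow_eq (hm := hm) ht j) ha
      exact this
    · have : t ^ j * (c * π) = π * (c * t ^ j) := by ring
      rw [this]
      refine Ideal.mul_mem_mul (Ideal.mem_span_singleton_self π) (Submodule.mem_sup_left ?_)
      exact Ideal.mul_mem_left _ _ (Ideal.mem_span_singleton_self _)
  · intro x _ hx'
    rw [LinearMap.mulLeft_apply] at hx'
    obtain ⟨a, ha, b, hb, hab⟩ := Submodule.mem_sup.mp hx'
    obtain ⟨c, hc, rfl⟩ := Ideal.mem_span_singleton_mul.mp hb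
    obtain ⟨d, hd, e, he, rfl⟩ := Submodule.mem_sup.mp hc
    obtain ⟨y, rfl⟩ := Ideal.mem_span_singleton'.mp hd
    -- `t^j (x - π y) = a + π e ∈ J`
    have h1 : t ^ j * (x - π * y) ∈ J := by
      have : t ^ j * (x - π * y) = a + π * e := by
        have h2 : t ^ j * x = a + π * (y * t ^ j + e) := hab.symm
        rw [mul_sub, h2]; ring
      rw [this]
      exact Ideal.add_mem _ ha (Ideal.mul_mem_left _ _ he)
    have h2 : x - π * y ∈ rootIdeal u m hm 1 :=
      mem_rootIdeal_one_of_pow_mul_mem hu0 hπ0 hreg ht hk h1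
    have : x = (x - π * y) + y * π := by ring
    rw [this]
    exact Ideal.add_mem _ (Submodule.mem_sup_left h2)
      (Submodule.mem_sup_right (Ideal.mul_mem_left _ _ (Ideal.mem_span_singleton_self π)))
  · intro y hy
    obtain ⟨a, ha, b, hb, rfl⟩ := Submodule.mem_sup.mp hy
    obtain ⟨c, rfl⟩ := Ideal.mem_span_singleton'.mp ha
    refine ⟨c, trivial, ?_⟩
    rw [LinearMap.mulLeft_apply]
    have : c * t ^ j + b - t ^ j * c = b := by ring
    rw [this]
    exact Submodule.mem_sup_left hb

/-- The colength function `c(j) = ℓ(R / (I_j + (π)))` is additive: `c(j+1) = c(j) + c(1)`. -/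
theorem relLen_succ (hu0 : u ≠ 0) (hπ0 : π ≠ 0) (hreg : ∀ x : R, π ∣ u * x → π ∣ x)
    (ht : t ^ m = u * r) {k : ℕ} (hk : π ^ k ∈ Ideal.span {u, r})
    (hfin : relLen (Ideal.span {u, π}) (⊤ : Ideal R) ≠ ⊤) (j : ℕ) :
    relLen (rootIdeal u m hm (j + 1) ⊔ Ideal.span {π}) (⊤ : Ideal R) =
      relLen (rootIdeal u m hm j ⊔ Ideal.span {π}) (⊤ : Ideal R) +
        relLen (rootIdeal u m hm 1 ⊔ Ideal.span {π}) (⊤ : Ideal R) := by
  have hAB : rootIdeal u m hm (j + 1) ⊔ Ideal.span {π} ≤ rootIdeal u m hm j ⊔ Ideal.span {π} :=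
    sup_le_sup_right (rootIdeal_antitone u m hm (Nat.le_succ j)) _
  rw [relLen_add hAB le_top, ← relLen_stepZ hπ0 hreg j, relLen_stepY hπ0 hreg ht hk hfin j,
    ← relLen_stepX hu0 hπ0 hreg ht hk j, add_comm]

/-- **Multiplicity identity**: `ℓ(R/((u)+(π))) = m • ℓ(R/(I_1+(π)))`. -/
theorem relLen_span_pair_eq_nsmul (hu0 : u ≠ 0) (hπ0 : π ≠ 0)
    (hreg : ∀ x : R, π ∣ u * x → π ∣ x)
    (ht : t ^ m = u * r) {k : ℕ} (hk : π ^ k ∈ Ideal.span {u, r})
    (hfin : relLen (Ideal.span {u, π}) (⊤ : Ideal R) ≠ ⊤) :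
    relLen (Ideal.span {u, π}) (⊤ : Ideal R) =
      m • relLen (rootIdeal u m hm 1 ⊔ Ideal.span {π}) (⊤ : Ideal R) := by
  have key : ∀ j : ℕ, relLen (rootIdeal u m hm j ⊔ Ideal.span {π}) (⊤ : Ideal R) =
      j • relLen (rootIdeal u m hm 1 ⊔ Ideal.span {π}) (⊤ : Ideal R) := by
    intro j
    induction j with
    | zero =>
      rw [rootIdeal_zero, top_sup_eq, relLen_self, zero_smul]
    | succ j ih =>
      rw [relLen_succ hu0 hπ0 hreg ht hk hfin j, ih, succ_nsmul]
  have h := key m
  rw [rootIdeal_self] at h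
  have hspan : Ideal.span {u} ⊔ Ideal.span {π} = Ideal.span {u, π} := by
    rw [← Ideal.span_union]
    rfl
  rw [hspan] at h
  exact h

end Chain

end Fermat.Agent.A2.H609

end
-- ===== PACK-END A2/H609/Chain.lean

-- ===== PACK-BEGIN S18/H754/IntLoc.lean
section


/-!
# S18 / Route K / étale Kummer cover: the ring `O'` (integral closure of `B_(ϖ)`) elementwise
-/

set_option autoImplicit false

noncomputable section

namespace Fermat.Agent.S18.H754

section IntLoc

variable {B : Type*} [CommRing B] {F' : Type*} [Field F'] [Algebra B F']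

/-- The ring `O'` of elements of `F'` which become integral over `B` after multiplication by
some `s ∈ B ∖ ϖB` (the integral closure of `B_(ϖ)` in `F'`). -/
def Oloc (ϖ : B) (hϖ : Prime ϖ) : Subring F' where
  carrier := {y | ∃ s : B, s ∉ Ideal.span {ϖ} ∧ IsIntegral B (algebraMap B F' s * y)}
  mul_mem' := by
    rintro x y ⟨s, hs, hx⟩ ⟨s', hs', hy⟩
    refine ⟨s * s', ?_, ?_⟩
    · intro h
      rw [Ideal.mem_span_singleton] at h hs hs'
      rcases hϖ.dvd_or_dvd h with h | h
      · exact hs h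
      · exact hs' h
    · have e : algebraMap B F' (s * s') * (x * y) =
          (algebraMap B F' s * x) * (algebraMap B F' s' * y) := by
        rw [map_mul]; ring
      rw [e]
      exact hx.mul hy
  one_mem' := by
    refine ⟨1, ?_, ?_⟩
    · rw [Ideal.mem_span_singleton]
      exact fun h => hϖ.not_unit (isUnit_of_dvd_one h)
    · rw [map_one, mul_one]
      exact isIntegral_one
  add_mem' := by
    rintro x y ⟨s, hs, hx⟩ ⟨s', hs', hy⟩
    refine ⟨s * s', ?_, ?_⟩
    · intro h
      rw [Ideal.mem_span_singleton] at h hs hs'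
      rcases hϖ.dvd_or_dvd h with h | h
      · exact hs h
      · exact hs' h
    · have h1 : IsIntegral B (algebraMap B F' s' * (algebraMap B F' s * x)) :=
        (isIntegral_algebraMap).mul hx
      have h2 : IsIntegral B (algebraMap B F' s * (algebraMap B F' s' * y)) :=
        (isIntegral_algebraMap).mul hy
      have e : algebraMap B F' (s * s') * (x + y) =
          algebraMap B F' s' * (algebraMap B F' s * x) +
            algebraMap B F' s * (algebraMap B F' s' * y) := by
        rw [map_mul]; ring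
      rw [e]
      exact h1.add h2
  zero_mem' := by
    refine ⟨1, ?_, ?_⟩
    · rw [Ideal.mem_span_singleton]
      exact fun h => hϖ.not_unit (isUnit_of_dvd_one h)
    · rw [mul_zero]
      exact isIntegral_zero
  neg_mem' := by
    rintro x ⟨s, hs, hx⟩
    refine ⟨s, hs, ?_⟩
    rw [mul_neg]
    exact hx.neg

lemma mem_Oloc {ϖ : B} {hϖ : Prime ϖ} {y : F'} :
    y ∈ Oloc (F' := F') ϖ hϖ ↔
      ∃ s : B, s ∉ Ideal.span {ϖ} ∧ IsIntegral B (algebraMap B F' s * y) := Iff.rfl

lemma mem_Oloc_of_isIntegral {ϖ : B} (hϖ : Prime ϖ) {y : F'} (hy : IsIntegral B y) :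
    y ∈ Oloc (F' := F') ϖ hϖ := by
  refine ⟨1, ?_, ?_⟩
  · rw [Ideal.mem_span_singleton]
    exact fun h => hϖ.not_unit (isUnit_of_dvd_one h)
  · rw [map_one, one_mul]
    exact hy

lemma algebraMap_mem_Oloc {ϖ : B} (hϖ : Prime ϖ) (b : B) :
    algebraMap B F' b ∈ Oloc (F' := F') ϖ hϖ :=
  mem_Oloc_of_isIntegral hϖ isIntegral_algebraMap

/-- `ϖ O'` in terms of `O'`. -/
lemma inPiO_iff [FaithfulSMul B F'] {ϖ : B} (hϖ : Prime ϖ) {y : F'} :
    InPiO ϖ y ↔ ∃ y' ∈ Oloc (F' := F') ϖ hϖ, y = algebraMap B F' ϖ * y' := by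
  have hinj : Function.Injective (algebraMap B F') := FaithfulSMul.algebraMap_injective B F'
  constructor
  · rintro ⟨s, hs, c, hc, h⟩
    have hs0 : algebraMap B F' s ≠ 0 := by
      intro h0
      apply hs
      have : s = 0 := hinj (by rw [h0, map_zero])
      rw [this]
      exact Ideal.zero_mem _
    refine ⟨c / algebraMap B F' s, ⟨s, hs, ?_⟩, ?_⟩
    · rw [mul_div_cancel₀ _ hs0]
      exact hc
    · field_simp
      rw [mul_comm]
      exact h
  · rintro ⟨y', ⟨s, hs, hy'⟩, rfl⟩
    exact ⟨s, hs, _, hy', by ring⟩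

lemma InPiO.add [FaithfulSMul B F'] {ϖ : B} (hϖ : Prime ϖ) {x y : F'}
    (hx : InPiO ϖ x) (hy : InPiO ϖ y) : InPiO ϖ (x + y) := by
  rw [inPiO_iff hϖ] at hx hy ⊢
  obtain ⟨x', hx', rfl⟩ := hx
  obtain ⟨y', hy', rfl⟩ := hy
  exact ⟨x' + y', add_mem hx' hy', by ring⟩

lemma InPiO.neg [FaithfulSMul B F'] {ϖ : B} (hϖ : Prime ϖ) {x : F'}
    (hx : InPiO ϖ x) : InPiO ϖ (-x) := by
  rw [inPiO_iff hϖ] at hx ⊢
  obtain ⟨x', hx', rfl⟩ := hx
  exact ⟨-x', neg_mem hx', by ring⟩

lemma InPiO.sub [FaithfulSMul B F'] {ϖ : B} (hϖ : Prime ϖ) {x y : F'}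
    (hx : InPiO ϖ x) (hy : InPiO ϖ y) : InPiO ϖ (x - y) := by
  rw [sub_eq_add_neg]
  exact hx.add hϖ (hy.neg hϖ)

lemma InPiO.mul_left [FaithfulSMul B F'] {ϖ : B} (hϖ : Prime ϖ) {x y : F'}
    (hx : x ∈ Oloc (F' := F') ϖ hϖ) (hy : InPiO ϖ y) : InPiO ϖ (x * y) := by
  rw [inPiO_iff hϖ] at hy ⊢
  obtain ⟨y', hy', rfl⟩ := hy
  exact ⟨x * y', mul_mem hx hy', by ring⟩

lemma InPiO.mul_right [FaithfulSMul B F'] {ϖ : B} (hϖ : Prime ϖ) {x y : F'}
    (hx : InPiO ϖ x) (hy : y ∈ Oloc (F' := F') ϖ hϖ) : InPiO ϖ (x * y) := by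
  rw [mul_comm]
  exact hx.mul_left hϖ hy

lemma InPiO.zero [FaithfulSMul B F'] {ϖ : B} (hϖ : Prime ϖ) : InPiO ϖ (0 : F') := by
  rw [inPiO_iff hϖ]
  exact ⟨0, zero_mem _, by ring⟩

lemma InPiO.sum [FaithfulSMul B F'] {ϖ : B} (hϖ : Prime ϖ) {ι : Type*} (s : Finset ι)
    (f : ι → F') (h : ∀ i ∈ s, InPiO ϖ (f i)) : InPiO ϖ (∑ i ∈ s, f i) := by
  classical
  induction s using Finset.induction_on with
  | empty => simpa using InPiO.zero hϖ
  | insert a s ha ih =>
    rw [Finset.sum_insert ha]
    exact (h a (Finset.mem_insert_self a s)).add hϖ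
      (ih fun i hi => h i (Finset.mem_insert_of_mem hi))

/-- `x ≡ y mod ϖ O'` implies `x ^ a ≡ y ^ a`. -/
lemma InPiO.pow_sub_pow [FaithfulSMul B F'] {ϖ : B} (hϖ : Prime ϖ) {x y : F'}
    (hx : x ∈ Oloc (F' := F') ϖ hϖ) (hy : y ∈ Oloc (F' := F') ϖ hϖ)
    (h : InPiO ϖ (x - y)) (a : ℕ) : InPiO ϖ (x ^ a - y ^ a) := by
  have h1 : x ^ a - y ^ a = (∑ i ∈ Finset.range a, x ^ i * y ^ (a - 1 - i)) * (x - y) :=
    (Commute.all x y).geom_sum₂_mul a |>.symm
  rw [h1]
  refine h.mul_left hϖ ?_
  exact sum_mem fun i _ => mul_mem (pow_mem hx _) (pow_mem hy _)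

end IntLoc

end Fermat.Agent.S18.H754

end

end
-- ===== PACK-END S18/H754/IntLoc.lean

-- ===== PACK-BEGIN S18/H754/KummerLocal.lean
section




/-!
# S18 / Route K / étale Kummer cover: the LOCAL lifting theorem

`R` a Noetherian local domain with `𝔪 = (ϖ, t)`, `ϖ` prime (so `R` is a UFD), `u ∈ Frac R` with
`u ≡ 1 mod ϖ` which is locally a unit times a `p`-th power at every prime element.
Then `u = w (d/c)^p` with `w ∈ Rˣ`, `ϖ ∤ c, d` and `c ≡ σ d mod ϖ` for a unit `σ`, and the Kummer
idempotents lift to elements integral over `R`.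
-/

set_option autoImplicit false

noncomputable section

namespace Fermat.Agent.S18.H754

open Polynomial IsLocalRing

section Local

variable {R : Type*} [CommRing R] [IsDomain R] [IsNoetherianRing R] [IsLocalRing R]
  {F : Type*} [Field F] [Algebra R F] [IsFractionRing R F]

/-- Normal form of a locally-`p`-th-power `u ≡ 1 mod ϖ` over a regular local ring of the shape
`𝔪 = (ϖ, t)`. -/
theorem exists_kummer_normal_form (ϖ t : R) (hϖ : Prime ϖ)
    (hm : maximalIdeal R = Ideal.span {ϖ, t})
    (p : ℕ) (hp : 0 < p) (u : F) (h1 : OneModPi ϖ u)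
    (hdiv : ∀ π : R, Prime π → LocallyPow R p u π) :
    ∃ (c d : R) (w σ : Rˣ), ¬ ϖ ∣ c ∧ ¬ ϖ ∣ d ∧
      u * algebraMap R F c ^ p = algebraMap R F w * algebraMap R F d ^ p ∧
      ϖ ∣ c - σ * d := by
  classical
  haveI : UniqueFactorizationMonoid R := ufd_of_regular_pair ϖ t hϖ hm
  have hinj : Function.Injective (algebraMap R F) := IsFractionRing.injective R F
  obtain ⟨a, s, hs, has, hu⟩ := h1
  rw [Ideal.mem_span_singleton] at hs has
  have ha : ¬ ϖ ∣ a := by
    intro h
    apply hs
    have := dvd_sub h has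
    rwa [sub_sub_cancel] at this
  have ha0 : a ≠ 0 := fun h => ha (h ▸ dvd_zero _)
  have hs0 : s ≠ 0 := fun h => hs (h ▸ dvd_zero _)
  have hsF : algebraMap R F s ≠ 0 := fun h => hs0 (hinj (by rw [h, map_zero]))
  have haF : algebraMap R F a ≠ 0 := fun h => ha0 (hinj (by rw [h, map_zero]))
  have hu0 : u ≠ 0 := by
    rintro rfl
    rw [zero_mul] at hu
    exact haF hu.symm
  obtain ⟨s₀, hs₀, w, hw⟩ := exists_unit_mul_pow (R := R) p hp u hu0 hdiv
  obtain ⟨c, ⟨d, hd⟩, hrel, hcd⟩ := IsFractionRing.exists_reduced_fraction R (K := F) s₀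
  have hd0 : d ≠ 0 := nonZeroDivisors.ne_zero hd
  have hdF : algebraMap R F d ≠ 0 := fun h => hd0 (hinj (by rw [h, map_zero]))
  rw [IsFractionRing.mk'_eq_div] at hcd
  simp only at hcd hrel
  -- the key equation in `R`
  have key : a * c ^ p = w * s * d ^ p := by
    apply hinj
    simp only [map_mul, map_pow]
    rw [← hu, ← hw, ← hcd, div_pow]
    field_simp
  have hc : ¬ ϖ ∣ c := by
    intro h
    have h2 : ϖ ∣ (w : R) * s * d ^ p := by
      rw [← key]
      exact Dvd.dvd.mul_left (dvd_pow h hp.ne') a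
    rcases hϖ.dvd_or_dvd h2 with h3 | h3
    · rcases hϖ.dvd_or_dvd h3 with h4 | h4
      · exact hϖ.not_unit (isUnit_of_dvd_unit h4 w.isUnit)
      · exact hs h4
    · exact hϖ.not_unit (hrel h (hϖ.dvd_of_dvd_pow h3))
  have hd' : ¬ ϖ ∣ d := by
    intro h
    have h2 : ϖ ∣ a * c ^ p := by
      rw [key]
      exact Dvd.dvd.mul_left (dvd_pow h hp.ne') _
    rcases hϖ.dvd_or_dvd h2 with h3 | h3
    · exact ha h3
    · exact hc (hϖ.dvd_of_dvd_pow h3)
  -- pass to the quotient `R/ϖ`, a local principal ideal domain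
  haveI hprime : (Ideal.span {ϖ}).IsPrime := (Ideal.span_singleton_prime hϖ.ne_zero).mpr hϖ
  haveI hpid : IsPrincipalIdealRing (R ⧸ Ideal.span {ϖ}) :=
    isPrincipalIdealRing_quotient_of_regular_pair ϖ t hϖ hm
  haveI : Nontrivial (R ⧸ Ideal.span {ϖ}) := Ideal.Quotient.nontrivial_iff.mpr hprime.ne_top
  haveI : IsLocalRing (R ⧸ Ideal.span {ϖ}) :=
    IsLocalRing.of_surjective' (Ideal.Quotient.mk _) Ideal.Quotient.mk_surjective
  haveI : IsDomain (R ⧸ Ideal.span {ϖ}) := Ideal.Quotient.isDomain _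
  haveI : ValuationRing (R ⧸ Ideal.span {ϖ}) :=
    ValuationRing.iff_local_bezout_domain.mpr ⟨inferInstance, inferInstance⟩
  set mk := Ideal.Quotient.mk (Ideal.span {ϖ}) with hmk
  have hmk0 : ∀ x : R, mk x = 0 ↔ ϖ ∣ x := fun x => by
    rw [hmk, Ideal.Quotient.eq_zero_iff_mem, Ideal.mem_span_singleton]
  have hmc : mk c ≠ 0 := fun h => hc ((hmk0 c).1 h)
  have hmd : mk d ≠ 0 := fun h => hd' ((hmk0 d).1 h)
  have hms : mk s ≠ 0 := fun h => hs ((hmk0 s).1 h)
  have hmas : mk a = mk s := by
    rw [← sub_eq_zero, ← map_sub]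
    exact (hmk0 _).2 has
  have hmw : IsUnit (mk (w : R)) := w.isUnit.map mk
  have key' : mk c ^ p = mk (w : R) * mk d ^ p := by
    have := congrArg mk key
    simp only [map_mul, map_pow] at this
    rw [hmas] at this
    have h3 : mk s * mk c ^ p = mk s * (mk (w : R) * mk d ^ p) := by
      rw [this]; ring
    exact mul_left_cancel₀ hms h3
  have hx : ∃ x : R ⧸ Ideal.span {ϖ}, IsUnit x ∧ mk c = x * mk d := by
    rcases ValuationRing.dvd_total (mk c) (mk d) with ⟨y, hy⟩ | ⟨y, hy⟩
    · -- `mk d = mk c * y`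
      have h4 : mk c ^ p * 1 = mk c ^ p * (mk (w : R) * y ^ p) := by
        rw [mul_one]
        conv_lhs => rw [key', hy, mul_pow]
        ring
      have h5 : 1 = mk (w : R) * y ^ p := mul_left_cancel₀ (pow_ne_zero p hmc) h4
      have h6 : IsUnit (y ^ p) := IsUnit.of_mul_eq_one_right _ h5.symm
      have h7 : IsUnit y := (isUnit_pow_iff hp.ne').1 h6
      obtain ⟨y', rfl⟩ := h7
      refine ⟨((y'⁻¹ : (R ⧸ Ideal.span {ϖ})ˣ) : R ⧸ Ideal.span {ϖ}), Units.isUnit _, ?_⟩
      rw [hy]
      rw [mul_comm (mk c), ← mul_assoc, Units.inv_mul, one_mul]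
    · -- `mk c = mk d * y`
      have h4 : mk d ^ p * y ^ p = mk d ^ p * mk (w : R) := by
        rw [← mul_pow, ← hy, key']
        ring
      have h5 : y ^ p = mk (w : R) := mul_left_cancel₀ (pow_ne_zero p hmd) h4
      have h7 : IsUnit y := (isUnit_pow_iff hp.ne').1 (h5 ▸ hmw)
      exact ⟨y, h7, by rw [hy, mul_comm]⟩
  obtain ⟨x, hxu, hxc⟩ := hx
  obtain ⟨σ', rfl⟩ := Ideal.Quotient.mk_surjective x
  have hσ' : IsUnit σ' := by
    rw [← IsLocalRing.notMem_maximalIdeal]
    intro hmem
    obtain ⟨y, hy⟩ := hxu.exists_right_inv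
    obtain ⟨y', rfl⟩ := Ideal.Quotient.mk_surjective y
    have h8 : ϖ ∣ σ' * y' - 1 := by
      rw [← hmk0, map_sub, map_mul, map_one, sub_eq_zero]
      exact hy
    have h9 : ϖ ∈ maximalIdeal R := by
      rw [hm]
      exact Ideal.subset_span (Set.mem_insert _ _)
    have h10 : σ' * y' - 1 ∈ maximalIdeal R := Ideal.mem_of_dvd _ h8 h9
    have h11 : σ' * y' ∈ maximalIdeal R := Ideal.mul_mem_right _ _ hmem
    have h12 : (1 : R) ∈ maximalIdeal R := by
      have := Ideal.sub_mem _ h11 h10
      rwa [sub_sub_cancel] at this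
    exact (Ideal.ne_top_iff_one _).1 (IsLocalRing.maximalIdeal.isMaximal R).ne_top h12
  obtain ⟨σ, rfl⟩ := hσ'
  refine ⟨c, d, w, σ, hc, hd', ?_, ?_⟩
  · rw [← hw, ← hcd, div_pow]
    field_simp
  · rw [← hmk0, map_sub, map_mul, sub_eq_zero]
    exact hxc

section Lift

variable {F' : Type*} [Field F'] [Algebra F F'] [Algebra R F'] [IsScalarTower R F F']

omit [IsNoetherianRing R] [IsLocalRing R] in
lemma faithfulSMul_of_tower (R F F' : Type*) [CommRing R] [IsDomain R] [Field F] [Algebra R F]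
    [IsFractionRing R F] [Field F'] [Algebra F F'] [Algebra R F'] [IsScalarTower R F F'] :
    FaithfulSMul R F' := by
  rw [faithfulSMul_iff_algebraMap_injective]
  rw [IsScalarTower.algebraMap_eq R F F']
  exact (algebraMap F F').injective.comp (IsFractionRing.injective R F)

/-- **Local lifting theorem** for the Kummer idempotents. -/
theorem kummer_lift_local (ϖ t : R) (hϖ : Prime ϖ)
    (hm : maximalIdeal R = Ideal.span {ϖ, t})
    (p : ℕ) (hp : 0 < p) (hpu : IsUnit (p : R))
    (u : F) (z : F') (hz : z ^ p = algebraMap F F' u) (h1 : OneModPi ϖ u)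
    (hdiv : ∀ π : R, Prime π → LocallyPow R p u π) (η : R) :
    ∃ b : F', IsIntegral R b ∧ InPiO ϖ (b - kummerIdem p η z) := by
  classical
  haveI : FaithfulSMul R F' := faithfulSMul_of_tower R F F'
  have hinj' : Function.Injective (algebraMap R F') := FaithfulSMul.algebraMap_injective R F'
  obtain ⟨c, d, w, σ, hc, hd, hcd, hσ⟩ := exists_kummer_normal_form ϖ t hϖ hm p hp u h1 hdiv
  have hc0 : c ≠ 0 := fun h => hc (h ▸ dvd_zero _)
  have hd0 : d ≠ 0 := fun h => hd (h ▸ dvd_zero _)
  have hcF : algebraMap R F' c ≠ 0 := fun h => hc0 (hinj' (by rw [h, map_zero]))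
  have hdF : algebraMap R F' d ≠ 0 := fun h => hd0 (hinj' (by rw [h, map_zero]))
  have hcd' : algebraMap F F' u * algebraMap R F' c ^ p =
      algebraMap R F' w * algebraMap R F' d ^ p := by
    have := congrArg (algebraMap F F') hcd
    simpa only [map_mul, map_pow, ← IsScalarTower.algebraMap_apply] using this
  -- `θ = z c / d`, `θ ^ p = w`
  set θ : F' := z * algebraMap R F' c / algebraMap R F' d with hθ
  have hθp : θ ^ p = algebraMap R F' w := by
    rw [hθ, div_pow, mul_pow, hz, hcd']
    field_simp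
  have hθi : IsIntegral R θ := by
    refine IsIntegral.of_pow hp ?_
    rw [hθp]
    exact isIntegral_algebraMap
  -- `z c = θ d`
  have hzc : algebraMap R F' c * z = θ * algebraMap R F' d := by
    rw [hθ]
    field_simp
  set τ : R := ((σ⁻¹ : Rˣ) : R) with hτ
  set y : F' := θ * algebraMap R F' τ with hy
  have hyi : IsIntegral R y := hθi.mul isIntegral_algebraMap
  have hyO : y ∈ Oloc (F' := F') ϖ hϖ := mem_Oloc_of_isIntegral hϖ hyi
  have hcs : c ∉ Ideal.span {ϖ} := by
    rw [Ideal.mem_span_singleton]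
    exact hc
  have hzO : z ∈ Oloc (F' := F') ϖ hϖ := by
    refine ⟨c, hcs, ?_⟩
    rw [hzc]
    exact hθi.mul isIntegral_algebraMap
  -- `y ≡ z mod ϖ O'`
  obtain ⟨r, hr⟩ := hσ
  have hr' : τ * c - d = ϖ * (τ * r) := by
    have h2 : τ * (c - σ * d) = τ * c - d := by
      rw [mul_sub, ← mul_assoc, hτ, Units.inv_mul, one_mul]
    rw [← h2, hr]
    ring
  have hyz : InPiO ϖ (y - z) := by
    refine ⟨c, hcs, θ * algebraMap R F' (τ * r), hθi.mul isIntegral_algebraMap, ?_⟩
    have h3 : algebraMap R F' c * (y - z) = θ * algebraMap R F' (τ * c - d) := by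
      rw [mul_sub, hzc, hy, map_sub, map_mul]
      ring
    rw [h3, hr', map_mul]
    ring
  -- the lift
  have hpinv : ((p : F'))⁻¹ = algebraMap R F' ((hpu.unit⁻¹ : Rˣ) : R) := by
    have h4 : algebraMap R F' ((hpu.unit⁻¹ : Rˣ) : R) * (p : F') = 1 := by
      rw [← map_natCast (algebraMap R F') p, ← map_mul]
      rw [IsUnit.val_inv_mul hpu, map_one]
    exact (eq_inv_of_mul_eq_one_left h4).symm
  refine ⟨(p : F')⁻¹ * ∑ a ∈ Finset.range p, algebraMap R F' (η ^ a) * y ^ a, ?_, ?_⟩
  · rw [hpinv]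
    refine isIntegral_algebraMap.mul ?_
    refine IsIntegral.sum _ fun a _ => ?_
    exact isIntegral_algebraMap.mul (hyi.pow a)
  · have h5 : (p : F')⁻¹ * ∑ a ∈ Finset.range p, algebraMap R F' (η ^ a) * y ^ a -
        kummerIdem p η z =
        (p : F')⁻¹ * ∑ a ∈ Finset.range p, algebraMap R F' (η ^ a) * (y ^ a - z ^ a) := by
      rw [kummerIdem, ← mul_sub, ← Finset.sum_sub_distrib]
      congr 1
      refine Finset.sum_congr rfl fun a _ => ?_
      ring
    rw [h5, hpinv]
    refine InPiO.mul_left hϖ (algebraMap_mem_Oloc hϖ _) ?_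
    refine InPiO.sum hϖ _ _ fun a _ => ?_
    refine InPiO.mul_left hϖ (algebraMap_mem_Oloc hϖ _) ?_
    exact InPiO.pow_sub_pow hϖ hyO hzO hyz a

end Lift

end Local

end Fermat.Agent.S18.H754

end

end
-- ===== PACK-END S18/H754/KummerLocal.lean

-- ===== PACK-BEGIN A2/H708/GaussInf.lean
section




/-!
# A2 (helper708): the Gauss valuation at `∞`, generic construction

`L ⊇ ℚ` a field, `A` a valuation subring of `L`, `F₀ ⊆ ℚ((t))` a field,
`F = laurentBaseChange L F₀ = L·F₀ ⊆ L((t))`.  Hypotheses: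

* `IntGen F₀` : every element of `F₀` is a fraction of series with INTEGER coefficients lying in
  `F₀` (true for `modularFunctionFieldFull N`, all `N`: see `GaussInfModular.lean`);
* `AttainsMax A F₀` : a nonzero element of `F` with bounded denominators has a coefficient of
  maximal valuation (true if `A` is noetherian, e.g. a DVR: `attainsMax_of_isNoetherianRing`;
  true for every valuation subring of `ℚ̄` over a prime: `GaussInfQbar.lean`).

Results:

* `exists_normal_form` : every `f ∈ Fˣ` satisfies `f · U₂ = c · U₁` with `c ∈ Lˣ` and `U₁, U₂`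
  PRIMITIVE `A`-integral series in `F` (nonzero reduction).
* `gaussInf A F₀ hgen hmax : ValuationSubring F` : the Gauss valuation ring
  `{U₁ / U₂ : U₂ primitive}`; `mem_gaussInf_iff`, `algebraMap_mem_gaussInf_iff`
  (`V ∩ L = A`), `exists_const_mul_unit` (value group of `V` = value group of `A`),
  `valuation_lt_one_iff'` (description of the maximal ideal).
* `redInf : gaussInf →+* k((t))`, `redInf_eq_zero_iff` (kernel = maximal ideal),
  `redInf_of_incl` (on integral series it is the coefficientwise reduction).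
-/

set_option autoImplicit false

noncomputable section

namespace Fermat.Agent.A2.H708

open ModularCurve HahnSeries IntermediateField Fermat.Agent.S18.H602

variable {L : Type*} [Field L] (A : ValuationSubring L)

/-- inclusion of `A`-integral series. -/
abbrev incl : LaurentSeries A →+* LaurentSeries L := coeffMap A.subtype

/-- reduction of `A`-integral series. -/
abbrev red : LaurentSeries A →+* LaurentSeries (IsLocalRing.ResidueField A) :=
  coeffMap (IsLocalRing.residue A)

/-- constants. -/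
abbrev cst (c : L) : LaurentSeries L := algebraMap L (LaurentSeries L) c

theorem incl_injective : Function.Injective (incl A) :=
  coeffMap_injective A.subtype Subtype.val_injective

theorem coeff_cst_mul (c : L) (x : LaurentSeries L) (n : ℤ) :
    (cst c * x).coeff n = c * x.coeff n := by
  rw [cst, algebraMap_laurentSeries_eq_single, HahnSeries.coeff_single_zero_mul]

theorem cst_mul (c d : L) : cst (c * d) = cst c * cst d := map_mul _ _ _

theorem cst_one : cst (1 : L) = 1 := map_one _

theorem cst_ne_zero {c : L} (hc : c ≠ 0) : cst c ≠ 0 := by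
  intro h
  have := congrArg (fun z => z.coeff 0) h
  simp [cst, algebraMap_laurentSeries_eq_single] at this
  exact hc this

theorem cst_inv_mul_cst {c : L} (hc : c ≠ 0) : cst c⁻¹ * cst c = 1 := by
  rw [← cst_mul, inv_mul_cancel₀ hc, cst_one]

theorem cst_mul_cst_inv {c : L} (hc : c ≠ 0) : cst c * cst c⁻¹ = 1 := by
  rw [← cst_mul, mul_inv_cancel₀ hc, cst_one]

/-- constants of `A` as integral series. -/
def cstA (a : A) : LaurentSeries A := HahnSeries.single 0 a

theorem incl_cstA (a : A) : incl A (cstA A a) = cst (a : L) := by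
  rw [cstA, cst, algebraMap_laurentSeries_eq_single, coeffMap_single]
  rfl

theorem red_cstA (a : A) :
    red A (cstA A a) = HahnSeries.single 0 (IsLocalRing.residue A a) := by
  rw [cstA, coeffMap_single]

theorem coeff_incl (U : LaurentSeries A) (n : ℤ) : (incl A U).coeff n = ((U.coeff n : A) : L) :=
  rfl

theorem red_eq_zero_iff (U : LaurentSeries A) :
    red A U = 0 ↔ ∀ n, A.valuation ((U.coeff n : A) : L) < 1 := by
  constructor
  · intro h n
    have := congrArg (fun z => z.coeff n) h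
    simp only [coeffMap_coeff, HahnSeries.coeff_zero, IsLocalRing.residue_eq_zero_iff] at this
    exact (A.valuation_lt_one_iff _).mp this
  · intro h
    ext n
    simp only [coeffMap_coeff, HahnSeries.coeff_zero, IsLocalRing.residue_eq_zero_iff]
    exact (A.valuation_lt_one_iff _).mpr (h n)

theorem red_ne_zero_iff (U : LaurentSeries A) :
    red A U ≠ 0 ↔ ∃ n, A.valuation ((U.coeff n : A) : L) = 1 := by
  rw [Ne, red_eq_zero_iff]
  constructor
  · intro h
    by_contra hcon
    apply h
    intro n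
    have h1 : A.valuation ((U.coeff n : A) : L) ≤ 1 := (A.valuation_le_one_iff _).mpr (U.coeff n).2
    exact lt_of_le_of_ne h1 (fun h2 => hcon ⟨n, h2⟩)
  · rintro ⟨n, hn⟩ h
    exact (h n).ne hn

theorem ne_zero_of_red_ne_zero {U : LaurentSeries A} (h : red A U ≠ 0) : U ≠ 0 := by
  rintro rfl
  exact h (map_zero _)

theorem incl_ne_zero {U : LaurentSeries A} (h : U ≠ 0) : incl A U ≠ 0 :=
  fun h0 => h (incl_injective A (h0.trans (map_zero _).symm))

/-- Lifting a series with coefficients in `A`. -/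
theorem exists_incl_eq {x : LaurentSeries L} (h : ∀ n, x.coeff n ∈ A) :
    ∃ U : LaurentSeries A, incl A U = x :=
  exists_coeffMap_eq A.subtype Subtype.val_injective x (fun n => ⟨⟨x.coeff n, h n⟩, rfl⟩)

/-- If `c · (primitive) = integral` then `c ∈ A`. -/
theorem mem_of_cst_mul_prim {c : L} {U U' : LaurentSeries A} (hU : red A U ≠ 0)
    (h : cst c * incl A U = incl A U') : c ∈ A := by
  obtain ⟨n, hn⟩ := (red_ne_zero_iff A U).mp hU
  have h1 := congrArg (fun z => z.coeff n) h
  simp only [coeff_cst_mul, coeff_incl] at h1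
  rw [← A.valuation_le_one_iff]
  have h2 : A.valuation (c * ((U.coeff n : A) : L)) ≤ 1 := by
    rw [h1]; exact (A.valuation_le_one_iff _).mpr (U'.coeff n).2
  rwa [map_mul, hn, mul_one] at h2

/-- If `c · (primitive) = integral with zero reduction` then `v(c) < 1`. -/
theorem valuation_lt_one_of_cst_mul_prim {c : L} {U U' : LaurentSeries A} (hU : red A U ≠ 0)
    (hU' : red A U' = 0) (h : cst c * incl A U = incl A U') : A.valuation c < 1 := by
  obtain ⟨n, hn⟩ := (red_ne_zero_iff A U).mp hU
  have h1 := congrArg (fun z => z.coeff n) h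
  simp only [coeff_cst_mul, coeff_incl] at h1
  have h2 : A.valuation (c * ((U.coeff n : A) : L)) < 1 := by
    rw [h1]; exact (red_eq_zero_iff A U').mp hU' n
  rwa [map_mul, hn, mul_one] at h2

/-- `c · integral` with `v(c) < 1` has zero reduction. -/
theorem red_eq_zero_of_cst_mul {c : L} (hc : A.valuation c < 1) {U U' : LaurentSeries A}
    (h : cst c * incl A U = incl A U') : red A U' = 0 := by
  rw [red_eq_zero_iff]
  intro n
  have h1 := congrArg (fun z => z.coeff n) h
  simp only [coeff_cst_mul, coeff_incl] at h1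
  rw [← h1, map_mul]
  calc A.valuation c * A.valuation ((U.coeff n : A) : L) ≤ A.valuation c * 1 := by
        exact mul_le_mul_right ((A.valuation_le_one_iff _).mpr (U.coeff n).2) _
    _ = A.valuation c := mul_one _
    _ < 1 := hc


/-! ## Attained maximum and normalisation -/

section attained

variable [Algebra ℚ L] (F₀ : IntermediateField ℚ (LaurentSeries ℚ))

/-- A nonzero element of `F = L·F₀` with bounded denominators has a coefficient of maximal
valuation. -/
def AttainsMax : Prop :=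
  ∀ x : LaurentSeries L, x ∈ laurentBaseChange L F₀ → x ≠ 0 →
    (∃ d : L, d ≠ 0 ∧ ∀ n, d * x.coeff n ∈ A) →
    ∃ n₀, x.coeff n₀ ≠ 0 ∧ ∀ n, A.valuation (x.coeff n) ≤ A.valuation (x.coeff n₀)

omit [Algebra ℚ L] in
/-- The maximum is attained for every bounded series when `A` is noetherian (e.g. a DVR). -/
theorem exists_max_coeff_of_isNoetherianRing [IsNoetherianRing A] {x : LaurentSeries L}
    (hx0 : x ≠ 0) (hb : ∃ d : L, d ≠ 0 ∧ ∀ n, d * x.coeff n ∈ A) :
    ∃ n₀, x.coeff n₀ ≠ 0 ∧ ∀ n, A.valuation (x.coeff n) ≤ A.valuation (x.coeff n₀) := by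
  classical
  obtain ⟨d, hd0, hd⟩ := hb
  have hM : Submodule.span A (Set.range x.coeff) ≤ Submodule.span A {d⁻¹} := by
    rw [Submodule.span_le]
    rintro _ ⟨n, rfl⟩
    rw [SetLike.mem_coe, Submodule.mem_span_singleton]
    refine ⟨⟨d * x.coeff n, hd n⟩, ?_⟩
    show (d * x.coeff n) * d⁻¹ = x.coeff n
    field_simp
  have hfg : (Submodule.span A (Set.range x.coeff)).FG :=
    Submodule.FG.of_le (Submodule.fg_span_singleton _) hM
  obtain ⟨s, hs, hspan⟩ := (Submodule.fg_span_iff_fg_span_finset_subset _).mp hfg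
  obtain ⟨n₁, hn₁⟩ : ∃ n, x.coeff n ≠ 0 := by
    by_contra h
    push Not at h
    exact hx0 (HahnSeries.ext (funext h))
  have hsne : s.Nonempty := by
    by_contra h
    rw [Finset.not_nonempty_iff_eq_empty] at h
    rw [h, Finset.coe_empty, Submodule.span_empty] at hspan
    have : x.coeff n₁ ∈ Submodule.span A (Set.range x.coeff) :=
      Submodule.subset_span ⟨n₁, rfl⟩
    rw [hspan, Submodule.mem_bot] at this
    exact hn₁ this
  obtain ⟨e₀, he₀, hmax⟩ := Finset.exists_max_image s (fun e => A.valuation e) hsne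
  obtain ⟨n₀, rfl⟩ := hs he₀
  have key : ∀ z ∈ Submodule.span A (s : Set L), A.valuation z ≤ A.valuation (x.coeff n₀) := by
    intro z hz
    induction hz using Submodule.span_induction with
    | mem z hz => exact hmax z hz
    | zero => simp
    | add a b _ _ ha hb => exact (A.valuation.map_add a b).trans (max_le ha hb)
    | smul r z _ hz =>
      have : r • z = (r : L) * z := rfl
      rw [this, map_mul]
      calc A.valuation (r : L) * A.valuation z ≤ 1 * A.valuation z := by
            exact mul_le_mul_left ((A.valuation_le_one_iff _).mpr r.2) _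
        _ = A.valuation z := one_mul _
        _ ≤ _ := hz
  have hall : ∀ n, A.valuation (x.coeff n) ≤ A.valuation (x.coeff n₀) := fun n =>
    key _ (hspan ▸ Submodule.subset_span ⟨n, rfl⟩)
  refine ⟨n₀, ?_, hall⟩
  intro h0
  have h1 := hall n₁
  rw [h0, map_zero] at h1
  have h2 : A.valuation (x.coeff n₁) = 0 := le_antisymm h1 zero_le
  rw [map_eq_zero] at h2
  exact hn₁ h2

theorem attainsMax_of_isNoetherianRing [IsNoetherianRing A] : AttainsMax A F₀ :=
  fun _ _ hx0 hb => exists_max_coeff_of_isNoetherianRing A hx0 hb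

variable {A F₀}

/-- **Normalisation.** A nonzero `A`-integral element of `F` is a constant times a primitive
`A`-integral series. -/
theorem exists_prim_scale (hmax : AttainsMax A F₀) {U : LaurentSeries A}
    (hU : incl A U ∈ laurentBaseChange L F₀) (hU0 : U ≠ 0) :
    ∃ (c : A) (U' : LaurentSeries A), c ≠ 0 ∧ red A U' ≠ 0 ∧ U = cstA A c * U' ∧
      incl A U' ∈ laurentBaseChange L F₀ := by
  have hx0 : incl A U ≠ 0 := incl_ne_zero A hU0
  obtain ⟨n₀, hn₀, hmax'⟩ := hmax _ hU hx0
    ⟨1, one_ne_zero, fun n => by rw [one_mul]; exact (U.coeff n).2⟩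
  set c : A := U.coeff n₀ with hc
  have hcQ : (c : L) ≠ 0 := hn₀
  have hc0 : c ≠ 0 := fun h => hcQ (by rw [h]; rfl)
  have hint : ∀ n, (cst (c : L)⁻¹ * incl A U).coeff n ∈ A := by
    intro n
    rw [coeff_cst_mul, ← A.valuation_le_one_iff, map_mul, map_inv₀]
    have hv0 : A.valuation (c : L) ≠ 0 := (Valuation.ne_zero_iff _).mpr hcQ
    rw [inv_mul_le_iff₀ (zero_lt_iff.mpr hv0), mul_one]
    exact hmax' n
  obtain ⟨U', hU'⟩ := exists_incl_eq A hint
  have hmul : U = cstA A c * U' := by
    apply incl_injective A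
    rw [map_mul, incl_cstA, hU', ← mul_assoc, ← cst_mul, mul_inv_cancel₀ hcQ, cst_one, one_mul]
  refine ⟨c, U', hc0, ?_, hmul, ?_⟩
  · rw [red_ne_zero_iff]
    refine ⟨n₀, ?_⟩
    have h1 : ((U'.coeff n₀ : A) : L) = (c : L)⁻¹ * (incl A U).coeff n₀ := by
      rw [← coeff_cst_mul, ← hU']
      rfl
    rw [h1]
    have h2 : (incl A U).coeff n₀ = (c : L) := rfl
    rw [h2, inv_mul_cancel₀ hcQ, map_one]
  · rw [hU']
    exact mul_mem ((laurentBaseChange L F₀).algebraMap_mem _) hU

end attained


/-! ## Every element of `F` is a fraction of integral series -/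

section frac

variable [Algebra ℚ L] (F₀ : IntermediateField ℚ (LaurentSeries ℚ))

/-- integer series as `A`-integral series. -/
abbrev castA : LaurentSeries ℤ →+* LaurentSeries A := coeffMap (Int.castRingHom A)

/-- integer series as rational series. -/
abbrev castQ : LaurentSeries ℤ →+* LaurentSeries ℚ := coeffMap (Int.castRingHom ℚ)

theorem incl_castA (P : LaurentSeries ℤ) : incl A (castA A P) = coeffEmb L (castQ P) := by
  rw [incl, castA, coeffMap_coeffMap, coeffEmb, castQ, coeffMap_coeffMap]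
  exact coeffMap_congr (RingHom.ext_int _ _) P

theorem castA_injective : Function.Injective (castA A) := by
  have : CharZero L := algebraRat.charZero L
  have hA : Function.Injective (Int.castRingHom A) := by
    intro a b h
    have h1 : ((a : A) : L) = ((b : A) : L) := congrArg Subtype.val h
    have h2 : ((a : ℤ) : L) = ((b : ℤ) : L) := by simpa using h1
    exact_mod_cast h2
  exact coeffMap_injective _ hA

/-- Every element of `F₀` is a fraction of series with integer coefficients lying in `F₀`. -/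
def IntGen : Prop :=
  ∀ z ∈ F₀, ∃ P Q : LaurentSeries ℤ, Q ≠ 0 ∧ castQ Q ∈ F₀ ∧ z * castQ Q = castQ P

/-- `x` is a fraction of `A`-integral series of `F`. -/
def IsFrac (x : LaurentSeries L) : Prop :=
  ∃ U₁ U₂ : LaurentSeries A, U₂ ≠ 0 ∧ incl A U₂ ∈ laurentBaseChange L F₀ ∧
    x * incl A U₂ = incl A U₁

variable {A F₀}

theorem isFrac_of_mem (hgen : IntGen F₀) {x : LaurentSeries L}
    (hx : x ∈ laurentBaseChange L F₀) : IsFrac A F₀ x := by
  have hF : ∀ y, y ∈ Subfield.closure (Set.range (algebraMap L (LaurentSeries L)) ∪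
      ⇑(coeffEmb L) '' (F₀ : Set (LaurentSeries ℚ))) → y ∈ laurentBaseChange L F₀ :=
    fun y hy => mem_laurentBaseChange_iff.mpr hy
  rw [mem_laurentBaseChange_iff] at hx
  induction hx using Subfield.closure_induction with
  | mem y hy =>
    rcases hy with ⟨a, rfl⟩ | ⟨z, hz, rfl⟩
    · rcases A.mem_or_inv_mem a with ha | ha
      · refine ⟨cstA A ⟨a, ha⟩, 1, one_ne_zero, ?_, ?_⟩
        · rw [map_one]; exact one_mem _
        · rw [map_one, mul_one, incl_cstA]
      · by_cases ha0 : a = 0
        · refine ⟨0, 1, one_ne_zero, ?_, ?_⟩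
          · rw [map_one]; exact one_mem _
          · rw [ha0, map_zero, map_zero, zero_mul]
        · refine ⟨1, cstA A ⟨a⁻¹, ha⟩, ?_, ?_, ?_⟩
          · intro h
            have := congrArg (incl A) h
            rw [incl_cstA, map_zero] at this
            exact cst_ne_zero (inv_ne_zero ha0) this
          · rw [incl_cstA]
            exact (laurentBaseChange L F₀).algebraMap_mem _
          · rw [incl_cstA, map_one]
            exact cst_mul_cst_inv ha0
    · obtain ⟨P, Q, hQ0, hQ, hPQ⟩ := hgen z hz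
      refine ⟨castA A P, castA A Q, ?_, ?_, ?_⟩
      · intro h
        exact hQ0 (castA_injective A (h.trans (map_zero _).symm))
      · rw [incl_castA]
        exact coeffEmb_mem_laurentBaseChange L hQ
      · rw [incl_castA, incl_castA, ← map_mul, hPQ]
  | one =>
    refine ⟨1, 1, one_ne_zero, ?_, ?_⟩
    · rw [map_one]; exact one_mem _
    · rw [map_one, mul_one]
  | add x y hx hy ihx ihy =>
    obtain ⟨U₁, U₂, h0, hm, he⟩ := ihx
    obtain ⟨U₁', U₂', h0', hm', he'⟩ := ihy
    refine ⟨U₁ * U₂' + U₁' * U₂, U₂ * U₂', mul_ne_zero h0 h0', ?_, ?_⟩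
    · rw [map_mul]; exact mul_mem hm hm'
    · rw [map_add, map_mul, map_mul, map_mul, ← he, ← he']
      ring
  | neg x hx ihx =>
    obtain ⟨U₁, U₂, h0, hm, he⟩ := ihx
    exact ⟨-U₁, U₂, h0, hm, by rw [map_neg, ← he, neg_mul]⟩
  | inv x hx ihx =>
    obtain ⟨U₁, U₂, h0, hm, he⟩ := ihx
    by_cases hx0 : x = 0
    · refine ⟨0, 1, one_ne_zero, ?_, ?_⟩
      · rw [map_one]; exact one_mem _
      · rw [hx0, inv_zero, zero_mul, map_zero]
    · have hU₁ : U₁ ≠ 0 := by
        rintro rfl
        rw [map_zero] at he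
        rcases mul_eq_zero.mp he with h | h
        · exact hx0 h
        · exact incl_ne_zero A h0 h
      refine ⟨U₂, U₁, hU₁, ?_, ?_⟩
      · rw [← he]
        exact mul_mem (hF x hx) hm
      · rw [← he, ← mul_assoc, inv_mul_cancel₀ hx0, one_mul]
  | mul x y hx hy ihx ihy =>
    obtain ⟨U₁, U₂, h0, hm, he⟩ := ihx
    obtain ⟨U₁', U₂', h0', hm', he'⟩ := ihy
    refine ⟨U₁ * U₁', U₂ * U₂', mul_ne_zero h0 h0', ?_, ?_⟩
    · rw [map_mul]; exact mul_mem hm hm'
    · rw [map_mul, map_mul, ← he, ← he']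
      ring

/-- **Normal form.** Every nonzero `f ∈ F` satisfies `f · U₂ = c · U₁` with `c ∈ Lˣ` and
`U₁`, `U₂` primitive integral series of `F`. -/
theorem exists_normal_form (hgen : IntGen F₀) (hmax : AttainsMax A F₀) {x : LaurentSeries L}
    (hx : x ∈ laurentBaseChange L F₀) (hx0 : x ≠ 0) :
    ∃ (c : L) (U₁ U₂ : LaurentSeries A), c ≠ 0 ∧ red A U₁ ≠ 0 ∧ red A U₂ ≠ 0 ∧
      incl A U₁ ∈ laurentBaseChange L F₀ ∧ incl A U₂ ∈ laurentBaseChange L F₀ ∧
      x * incl A U₂ = cst c * incl A U₁ := by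
  obtain ⟨W₁, W₂, h0, hm, he⟩ := isFrac_of_mem (A := A) hgen hx
  have hW₁0 : W₁ ≠ 0 := by
    rintro rfl
    rw [map_zero] at he
    rcases mul_eq_zero.mp he with h | h
    · exact hx0 h
    · exact incl_ne_zero A h0 h
  have hm₁ : incl A W₁ ∈ laurentBaseChange L F₀ := by
    rw [← he]; exact mul_mem hx hm
  obtain ⟨c₁, U₁, hc₁, hp₁, rfl, hU₁⟩ := exists_prim_scale hmax hm₁ hW₁0
  obtain ⟨c₂, U₂, hc₂, hp₂, rfl, hU₂⟩ := exists_prim_scale hmax hm h0
  have hc₂L : (c₂ : L) ≠ 0 := fun h => hc₂ (Subtype.ext h)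
  have hc₁L : (c₁ : L) ≠ 0 := fun h => hc₁ (Subtype.ext h)
  refine ⟨(c₁ : L) * (c₂ : L)⁻¹, U₁, U₂, mul_ne_zero hc₁L (inv_ne_zero hc₂L), hp₁, hp₂, hU₁,
    hU₂, ?_⟩
  rw [map_mul, map_mul, incl_cstA, incl_cstA] at he
  have h1 : x * incl A U₂ = cst (c₂ : L)⁻¹ * (x * (cst (c₂ : L) * incl A U₂)) := by
    rw [← mul_assoc, mul_comm (cst _) x, mul_assoc x, ← mul_assoc (cst _), cst_inv_mul_cst hc₂L,
      one_mul]
  rw [h1, he, ← mul_assoc, ← cst_mul, mul_comm (c₂ : L)⁻¹]

end frac


/-! ## The Gauss valuation ring -/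

section gauss

variable [Algebra ℚ L] (F₀ : IntermediateField ℚ (LaurentSeries ℚ))

/-- `f = U₁ / U₂` with `U₁, U₂` integral series, `U₂ ∈ F` primitive. -/
def IsGaussInt (f : LaurentSeries L) : Prop :=
  ∃ U₁ U₂ : LaurentSeries A, red A U₂ ≠ 0 ∧ incl A U₂ ∈ laurentBaseChange L F₀ ∧
    f * incl A U₂ = incl A U₁

variable {A F₀}

theorem IsGaussInt.zero : IsGaussInt A F₀ 0 :=
  ⟨0, 1, by rw [map_one]; exact one_ne_zero, by rw [map_one]; exact one_mem _,
    by rw [zero_mul, map_zero]⟩

theorem IsGaussInt.one : IsGaussInt A F₀ 1 :=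
  ⟨1, 1, by rw [map_one]; exact one_ne_zero, by rw [map_one]; exact one_mem _,
    by rw [one_mul]⟩

theorem IsGaussInt.mul {f g : LaurentSeries L} (hf : IsGaussInt A F₀ f)
    (hg : IsGaussInt A F₀ g) : IsGaussInt A F₀ (f * g) := by
  obtain ⟨U₁, U₂, h0, hm, he⟩ := hf
  obtain ⟨U₁', U₂', h0', hm', he'⟩ := hg
  refine ⟨U₁ * U₁', U₂ * U₂', ?_, ?_, ?_⟩
  · rw [map_mul]; exact mul_ne_zero h0 h0'
  · rw [map_mul]; exact mul_mem hm hm'
  · rw [map_mul, map_mul, ← he, ← he']
    ring

theorem IsGaussInt.add {f g : LaurentSeries L} (hf : IsGaussInt A F₀ f)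
    (hg : IsGaussInt A F₀ g) : IsGaussInt A F₀ (f + g) := by
  obtain ⟨U₁, U₂, h0, hm, he⟩ := hf
  obtain ⟨U₁', U₂', h0', hm', he'⟩ := hg
  refine ⟨U₁ * U₂' + U₁' * U₂, U₂ * U₂', ?_, ?_, ?_⟩
  · rw [map_mul]; exact mul_ne_zero h0 h0'
  · rw [map_mul]; exact mul_mem hm hm'
  · rw [map_add, map_mul, map_mul, map_mul, ← he, ← he']
    ring

theorem IsGaussInt.neg {f : LaurentSeries L} (hf : IsGaussInt A F₀ f) :
    IsGaussInt A F₀ (-f) := by
  obtain ⟨U₁, U₂, h0, hm, he⟩ := hf
  exact ⟨-U₁, U₂, h0, hm, by rw [map_neg, ← he, neg_mul]⟩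

/-- integral elements of `F` are Gauss-integral. -/
theorem IsGaussInt.of_incl (U : LaurentSeries A) : IsGaussInt A F₀ (incl A U) :=
  ⟨U, 1, by rw [map_one]; exact one_ne_zero, by rw [map_one]; exact one_mem _,
    by rw [map_one, mul_one]⟩

/-- In normal form `f · U₂ = c · U₁`: `f` is Gauss-integral iff `c ∈ A`. -/
theorem isGaussInt_iff_of_normal_form {f : LaurentSeries L} {c : L} {U₁ U₂ : LaurentSeries A}
    (h₁ : red A U₁ ≠ 0) (h₂ : red A U₂ ≠ 0) (hm₂ : incl A U₂ ∈ laurentBaseChange L F₀)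
    (he : f * incl A U₂ = cst c * incl A U₁) : IsGaussInt A F₀ f ↔ c ∈ A := by
  constructor
  · rintro ⟨W₁, W₂, hW, -, heW⟩
    have key : cst c * incl A (U₁ * W₂) = incl A (W₁ * U₂) := by
      rw [map_mul, map_mul, ← mul_assoc, ← he, ← heW]
      ring
    refine mem_of_cst_mul_prim A ?_ key
    rw [map_mul]
    exact mul_ne_zero h₁ hW
  · intro hc
    exact ⟨cstA A ⟨c, hc⟩ * U₁, U₂, h₂, hm₂, by rw [map_mul, incl_cstA, he]⟩

omit [Algebra ℚ L] in
/-- In normal form `f · U₂ = c · U₁`, the inverse has normal form `f⁻¹ · U₁ = c⁻¹ · U₂`. -/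
theorem normal_form_inv {f : LaurentSeries L} {c : L} {U₁ U₂ : LaurentSeries A}
    (hf : f ≠ 0) (hc : c ≠ 0) (he : f * incl A U₂ = cst c * incl A U₁) :
    f⁻¹ * incl A U₁ = cst c⁻¹ * incl A U₂ := by
  have h1 : incl A U₁ = cst c⁻¹ * (f * incl A U₂) := by
    rw [he, ← mul_assoc, cst_inv_mul_cst hc, one_mul]
  rw [h1]
  field_simp

variable (A F₀) in
/-- **The Gauss valuation ring at `∞`** of `F = L·F₀` with respect to the valuation ring `A` of
`L`: fractions `U₁ / U₂` of `A`-integral series with `U₂` primitive. -/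
def gaussInf (hgen : IntGen F₀) (hmax : AttainsMax A F₀) :
    ValuationSubring ↥(laurentBaseChange L F₀) where
  carrier := {f | IsGaussInt A F₀ (f : LaurentSeries L)}
  mul_mem' := fun hf hg => IsGaussInt.mul hf hg
  one_mem' := IsGaussInt.one
  add_mem' := fun hf hg => IsGaussInt.add hf hg
  zero_mem' := IsGaussInt.zero
  neg_mem' := fun hf => IsGaussInt.neg hf
  mem_or_inv_mem' := by
    intro f
    by_cases hf : f = 0
    · left
      rw [hf]
      exact IsGaussInt.zero
    · have hf' : (f : LaurentSeries L) ≠ 0 := fun h => hf (Subtype.ext h)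
      obtain ⟨c, U₁, U₂, hc, h₁, h₂, hm₁, hm₂, he⟩ := exists_normal_form hgen hmax f.2 hf'
      rcases A.mem_or_inv_mem c with hcA | hcA
      · left
        exact (isGaussInt_iff_of_normal_form h₁ h₂ hm₂ he).mpr hcA
      · right
        show IsGaussInt A F₀ ((f⁻¹ : ↥(laurentBaseChange L F₀)) : LaurentSeries L)
        rw [IntermediateField.coe_inv]
        exact (isGaussInt_iff_of_normal_form h₂ h₁ hm₁ (normal_form_inv hf' hc he)).mpr hcA

variable (hgen : IntGen F₀) (hmax : AttainsMax A F₀)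

theorem mem_gaussInf_iff {f : ↥(laurentBaseChange L F₀)} :
    f ∈ gaussInf A F₀ hgen hmax ↔ IsGaussInt A F₀ (f : LaurentSeries L) := Iff.rfl

/-- `V ∩ L = A`. -/
theorem algebraMap_mem_gaussInf_iff (c : L) :
    algebraMap L ↥(laurentBaseChange L F₀) c ∈ gaussInf A F₀ hgen hmax ↔ c ∈ A := by
  rw [mem_gaussInf_iff]
  have he : ((algebraMap L ↥(laurentBaseChange L F₀) c : ↥(laurentBaseChange L F₀)) :
      LaurentSeries L) * incl A 1 = cst c * incl A 1 := rfl
  exact isGaussInt_iff_of_normal_form (by rw [map_one]; exact one_ne_zero)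
    (by rw [map_one]; exact one_ne_zero) (by rw [map_one]; exact one_mem _) he

/-- membership in normal form. -/
theorem mem_gaussInf_iff_of_normal_form {f : ↥(laurentBaseChange L F₀)} {c : L}
    {U₁ U₂ : LaurentSeries A} (h₁ : red A U₁ ≠ 0) (h₂ : red A U₂ ≠ 0)
    (hm₂ : incl A U₂ ∈ laurentBaseChange L F₀)
    (he : (f : LaurentSeries L) * incl A U₂ = cst c * incl A U₁) :
    f ∈ gaussInf A F₀ hgen hmax ↔ c ∈ A :=
  isGaussInt_iff_of_normal_form h₁ h₂ hm₂ he

/-- the valuation in normal form: `v_V(f) ≤ 1 ↔ v_A(c) ≤ 1`. -/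
theorem valuation_le_one_iff_of_normal_form {f : ↥(laurentBaseChange L F₀)} {c : L}
    {U₁ U₂ : LaurentSeries A} (h₁ : red A U₁ ≠ 0) (h₂ : red A U₂ ≠ 0)
    (hm₂ : incl A U₂ ∈ laurentBaseChange L F₀)
    (he : (f : LaurentSeries L) * incl A U₂ = cst c * incl A U₁) :
    (gaussInf A F₀ hgen hmax).valuation f ≤ 1 ↔ A.valuation c ≤ 1 := by
  rw [ValuationSubring.valuation_le_one_iff, ValuationSubring.valuation_le_one_iff]
  exact mem_gaussInf_iff_of_normal_form hgen hmax h₁ h₂ hm₂ he

/-- the valuation in normal form: `v_V(f) < 1 ↔ v_A(c) < 1`. -/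
theorem valuation_lt_one_iff_of_normal_form {f : ↥(laurentBaseChange L F₀)} {c : L}
    {U₁ U₂ : LaurentSeries A} (hc : c ≠ 0) (h₁ : red A U₁ ≠ 0) (h₂ : red A U₂ ≠ 0)
    (hm₁ : incl A U₁ ∈ laurentBaseChange L F₀)
    (he : (f : LaurentSeries L) * incl A U₂ = cst c * incl A U₁) :
    (gaussInf A F₀ hgen hmax).valuation f < 1 ↔ A.valuation c < 1 := by
  have hf0 : (f : LaurentSeries L) ≠ 0 := by
    intro h
    rw [h, zero_mul] at he
    rcases mul_eq_zero.mp he.symm with h' | h'
    · exact cst_ne_zero hc h'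
    · exact incl_ne_zero A (ne_zero_of_red_ne_zero A h₁) h'
  have hf : f ≠ 0 := fun h => hf0 (by rw [h]; rfl)
  have hinv : ((f⁻¹ : ↥(laurentBaseChange L F₀)) : LaurentSeries L) * incl A U₁
      = cst c⁻¹ * incl A U₂ := by
    rw [IntermediateField.coe_inv]
    exact normal_form_inv hf0 hc he
  have h1 := valuation_le_one_iff_of_normal_form hgen hmax h₂ h₁ hm₁ hinv
  rw [map_inv₀, map_inv₀] at h1
  have hv : (gaussInf A F₀ hgen hmax).valuation f ≠ 0 := (Valuation.ne_zero_iff _).mpr hf
  have hvc : A.valuation c ≠ 0 := (Valuation.ne_zero_iff _).mpr hc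
  rw [inv_le_one₀ (zero_lt_iff.mpr hv), inv_le_one₀ (zero_lt_iff.mpr hvc)] at h1
  rw [← not_le, ← not_le, h1]

/-- **The value group of `V` is the value group of `A`**: every nonzero `f` is a constant
times a unit of `V`. -/
theorem exists_const_mul_unit {f : ↥(laurentBaseChange L F₀)} (hf : f ≠ 0) :
    ∃ c : L, c ≠ 0 ∧
      (gaussInf A F₀ hgen hmax).valuation
        (f * (algebraMap L ↥(laurentBaseChange L F₀) c)⁻¹) = 1 := by
  have hf' : (f : LaurentSeries L) ≠ 0 := fun h => hf (Subtype.ext h)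
  obtain ⟨c, U₁, U₂, hc, h₁, h₂, hm₁, hm₂, he⟩ := exists_normal_form hgen hmax f.2 hf'
  refine ⟨c, hc, ?_⟩
  set u : ↥(laurentBaseChange L F₀) := f * (algebraMap L ↥(laurentBaseChange L F₀) c)⁻¹ with hu
  have heu : (u : LaurentSeries L) * incl A U₂ = cst 1 * incl A U₁ := by
    have : (u : LaurentSeries L) = (f : LaurentSeries L) * (cst c)⁻¹ := by
      rw [hu, IntermediateField.coe_mul, IntermediateField.coe_inv]
      rfl
    rw [this, mul_assoc, mul_comm (cst c)⁻¹, ← mul_assoc, he, cst_one, one_mul,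
      mul_comm (cst c), mul_assoc, mul_inv_cancel₀ (cst_ne_zero hc), mul_one]
  have h1 := valuation_le_one_iff_of_normal_form hgen hmax h₁ h₂ hm₂ heu
  have h2 := valuation_lt_one_iff_of_normal_form hgen hmax one_ne_zero h₁ h₂ hm₁ heu
  rw [map_one] at h1 h2
  exact le_antisymm (h1.mpr le_rfl) (not_lt.mp (fun h => lt_irrefl _ (h2.mp h)))

end gauss

end Fermat.Agent.A2.H708

end
end
-- ===== PACK-END A2/H708/GaussInf.lean

-- ===== PACK-BEGIN A2/H708/GaussInfModular.lean
section




/-!
# A2 (helper708): `modularFunctionFieldFull N` is generated by integer series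

`intGen_full N : IntGen (modularFunctionFieldFull N)` : every element of
`ℚ(j(t^d) : d ∣ N) ⊆ ℚ((t))` is a fraction `P / Q` of series with INTEGER coefficients lying in
the field.  This is the hypothesis `hgen` of the Gauss valuation ring `gaussInf` (all levels `N`,
all residue characteristics).
-/

set_option autoImplicit false

noncomputable section

namespace Fermat.Agent.A2.H708

open ModularCurve HahnSeries IntermediateField Fermat.Agent.S18.H602

theorem castQ_injective : Function.Injective castQ :=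
  coeffMap_injective _ (RingHom.injective_int (Int.castRingHom ℚ))

/-- `j(t^d)` with integer coefficients. -/
def jInt (d : ℕ) [NeZero d] : LaurentSeries ℤ := jqNModC ℤ d

theorem castQ_jInt (d : ℕ) [NeZero d] : castQ (jInt d) = qExpand ℚ d jq := by
  rw [castQ, jInt, coeffMap_jqNModC, jqNModC, jqModC_rat]

theorem castQ_single_zero (a : ℤ) :
    castQ (HahnSeries.single 0 a) = algebraMap ℚ (LaurentSeries ℚ) (a : ℚ) := by
  rw [castQ, coeffMap_single, algebraMap_laurentSeries_eq_single]
  rfl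

/-- fractions of integer series in a subfield of `ℚ((t))`. -/
def IsIntFrac (F₀ : IntermediateField ℚ (LaurentSeries ℚ)) (z : LaurentSeries ℚ) : Prop :=
  ∃ P Q : LaurentSeries ℤ, Q ≠ 0 ∧ castQ Q ∈ F₀ ∧ z * castQ Q = castQ P

theorem castQ_ne_zero {Q : LaurentSeries ℤ} (h : Q ≠ 0) : castQ Q ≠ 0 :=
  fun h0 => h (castQ_injective (h0.trans (map_zero _).symm))

/-- A field generated over `ℚ` by integer series consists of fractions of integer series. -/
theorem intGen_adjoin (S : Set (LaurentSeries ℤ)) :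
    IntGen (IntermediateField.adjoin ℚ (castQ '' S)) := by
  intro z hz
  show IsIntFrac _ z
  induction hz using IntermediateField.adjoin_induction with
  | mem y hy =>
    obtain ⟨s, hs, rfl⟩ := hy
    refine ⟨s, 1, one_ne_zero, ?_, ?_⟩
    · rw [map_one]; exact one_mem _
    · rw [map_one, mul_one]
  | algebraMap c =>
    refine ⟨HahnSeries.single 0 c.num, HahnSeries.single 0 (c.den : ℤ), ?_, ?_, ?_⟩
    · intro h
      have := congrArg (fun z => z.coeff 0) h
      simp at this
    · rw [castQ_single_zero]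
      exact IntermediateField.algebraMap_mem _ _
    · rw [castQ_single_zero, castQ_single_zero, ← map_mul]
      congr 1
      have := Rat.mul_den_eq_num c
      exact_mod_cast this
  | add x y hx hy ihx ihy =>
    obtain ⟨P, Q, h0, hm, he⟩ := ihx
    obtain ⟨P', Q', h0', hm', he'⟩ := ihy
    refine ⟨P * Q' + P' * Q, Q * Q', mul_ne_zero h0 h0', ?_, ?_⟩
    · rw [map_mul]; exact mul_mem hm hm'
    · rw [map_add, map_mul, map_mul, map_mul, ← he, ← he']
      ring
  | inv x hx ihx =>
    obtain ⟨P, Q, h0, hm, he⟩ := ihx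
    by_cases hx0 : x = 0
    · refine ⟨0, 1, one_ne_zero, ?_, ?_⟩
      · rw [map_one]; exact one_mem _
      · rw [hx0, inv_zero, zero_mul, map_zero]
    · have hP : P ≠ 0 := by
        rintro rfl
        rw [map_zero] at he
        rcases mul_eq_zero.mp he with h | h
        · exact hx0 h
        · exact castQ_ne_zero h0 h
      refine ⟨Q, P, hP, ?_, ?_⟩
      · rw [← he]
        exact mul_mem hx hm
      · rw [← he, ← mul_assoc, inv_mul_cancel₀ hx0, one_mul]
  | mul x y hx hy ihx ihy =>
    obtain ⟨P, Q, h0, hm, he⟩ := ihx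
    obtain ⟨P', Q', h0', hm', he'⟩ := ihy
    refine ⟨P * P', Q * Q', mul_ne_zero h0 h0', ?_, ?_⟩
    · rw [map_mul]; exact mul_mem hm hm'
    · rw [map_mul, map_mul, ← he, ← he']
      ring

/-- the integer generators of `modularFunctionFieldFull N`. -/
def intGens (N : ℕ) : Set (LaurentSeries ℤ) :=
  {x | ∃ (d : ℕ) (_ : NeZero d), d ∣ N ∧ x = jInt d}

theorem castQ_image_intGens (N : ℕ) : castQ '' intGens N = divisorExpansions N := by
  ext x
  constructor
  · rintro ⟨_, ⟨d, hd, hdN, rfl⟩, rfl⟩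
    exact ⟨d, hd, hdN, castQ_jInt d⟩
  · rintro ⟨d, hd, hdN, rfl⟩
    exact ⟨jInt d, ⟨d, hd, hdN, rfl⟩, castQ_jInt d⟩

/-- **`ℚ(j(t^d) : d ∣ N)` is generated by integer series** (every level `N`). -/
theorem intGen_full (N : ℕ) : IntGen (modularFunctionFieldFull N) := by
  have h := intGen_adjoin (intGens N)
  rw [castQ_image_intGens] at h
  exact h

end Fermat.Agent.A2.H708

end
end
-- ===== PACK-END A2/H708/GaussInfModular.lean

-- ===== PACK-BEGIN S18/H516/GaussSpan.lean
section




/-!
# S18 / MOD (helper516): base change of the S28 basis from `ℚ` to an arbitrary field `L ⊇ ℚ`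

`F_L := laurentBaseChange L (modularFunctionFieldFull N) ⊆ L((q))` is exactly the `L(j)`-span of
the images of the S28 "monomials" `y i ∈ ℤ[j_d : d ∣ N]`.
-/

set_option autoImplicit false
set_option linter.unusedSectionVars false

noncomputable section

namespace Fermat.Agent.S18.H516

open ModularCurve HahnSeries IntermediateField Polynomial Fermat.Agent.S28

section CoeffEmb

variable (L : Type*) [Field L] [Algebra ℚ L]

theorem coeffEmb_jq : coeffEmb L jq = jqModC L := by
  rw [← jqModC_rat, coeffEmb, coeffMap_jqModC]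

theorem coeffEmb_aeval (x : LaurentSeries ℚ) (r : ℚ[X]) :
    coeffEmb L (aeval x r) = aeval (coeffEmb L x) (r.map (algebraMap ℚ L)) := by
  rw [aeval_def, aeval_def, hom_eval₂, eval₂_map]
  congr 1
  exact RingHom.ext_rat _ _

/-- `coeffEmb` maps `ℚ(j)` into `L(j)`. -/
theorem coeffEmb_mem_jField {c : LaurentSeries ℚ} (hc : c ∈ jField ℚ) :
    coeffEmb L c ∈ jField L := by
  rw [jField, mem_adjoin_simple_iff] at hc
  obtain ⟨r, s, rfl⟩ := hc
  have hj : coeffEmb L (jqModC ℚ) = jqModC L := by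
    rw [coeffEmb, coeffMap_jqModC]
  rw [map_div₀, coeffEmb_aeval, coeffEmb_aeval, hj]
  rw [jField, mem_adjoin_simple_iff]
  exact ⟨_, _, rfl⟩

theorem coeffMap_intCast_eq_coeffEmb (y : LaurentSeries ℤ) :
    coeffMap (Int.castRingHom L) y = coeffEmb L (coeffMap (Int.castRingHom ℚ) y) := by
  rw [coeffEmb, coeffMap_coeffMap]
  exact coeffMap_congr (RingHom.ext_int _ _) y

end CoeffEmb

section Closure

variable (R : Type*) [CommRing R] (N : ℕ)

/-- The generators `j(q^d)`, `d ∣ N` over an arbitrary ring. -/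
theorem coeffMap_mem_of_mem_closure {K : Type*} [Field K] [NeZero N] {y : LaurentSeries ℤ}
    (hy : y ∈ Subring.closure (intDivisorExpansions N)) :
    coeffMap (Int.castRingHom K) y ∈ modularFunctionFieldFullC K N := by
  induction hy using Subring.closure_induction with
  | mem x hx =>
    obtain ⟨d, hd, hdN, rfl⟩ := hx
    rw [coeffMap_qExpand, coeffMap_jqModC]
    exact jqModCd_mem_full K N hdN
  | zero => rw [map_zero]; exact zero_mem _
  | one => rw [map_one]; exact one_mem _
  | add x y _ _ hx hy => rw [map_add]; exact add_mem hx hy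
  | neg x _ hx => rw [map_neg]; exact neg_mem hx
  | mul x y _ _ hx hy => rw [map_mul]; exact mul_mem hx hy

end Closure

section Span

variable (L : Type*) [Field L] [Algebra ℚ L] (N : ℕ) [NeZero N]
variable {n : ℕ} (y : Fin n → LaurentSeries ℤ)

/-- The `L(j)`-span of the base-changed monomials. -/
def spanL : Submodule (jField L) (LaurentSeries L) :=
  Submodule.span (jField L) (Set.range fun i => coeffMap (Int.castRingHom L) (y i))

/-- Hypothesis package extracted from `CoreData.exists_basis` (char-0 half). -/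
def SpansQ : Prop :=
  (∀ i, y i ∈ Subring.closure (intDivisorExpansions N)) ∧
    ∀ x ∈ modularFunctionFieldFull N,
      x ∈ Submodule.span (jField ℚ) (Set.range fun i => coeffMap (Int.castRingHom ℚ) (y i))

variable {N y}

omit [Algebra ℚ L] in
theorem yL_mem_spanL (i : Fin n) : coeffMap (Int.castRingHom L) (y i) ∈ spanL L y :=
  Submodule.subset_span ⟨i, rfl⟩

theorem coeffEmb_mem_spanL (h : SpansQ N y) {x : LaurentSeries ℚ}
    (hx : x ∈ modularFunctionFieldFull N) : coeffEmb L x ∈ spanL L y := by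
  have hx' := h.2 x hx
  clear hx
  induction hx' using Submodule.span_induction with
  | mem z hz =>
    obtain ⟨i, rfl⟩ := hz
    rw [← coeffMap_intCast_eq_coeffEmb L (y i)]
    exact yL_mem_spanL L i
  | zero => rw [map_zero]; exact zero_mem _
  | add a b _ _ ha hb => rw [map_add]; exact add_mem ha hb
  | smul c a _ ha =>
    have : coeffEmb L (c • a) = (⟨coeffEmb L c, coeffEmb_mem_jField L c.2⟩ : jField L) •
        coeffEmb L a := by
      show coeffEmb L ((c : LaurentSeries ℚ) * a) = coeffEmb L c * coeffEmb L a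
      rw [map_mul]
    rw [this]
    exact Submodule.smul_mem _ _ ha

theorem yQ_mem_full (h : SpansQ N y) (i : Fin n) :
    coeffMap (Int.castRingHom ℚ) (y i) ∈ modularFunctionFieldFull N := by
  have := coeffMap_mem_of_mem_closure (K := ℚ) N (h.1 i)
  rwa [modularFunctionFieldFullC_rat] at this

theorem one_mem_spanL (h : SpansQ N y) : (1 : LaurentSeries L) ∈ spanL L y := by
  have := coeffEmb_mem_spanL L h (one_mem (modularFunctionFieldFull N))
  rwa [map_one] at this

theorem mul_mem_spanL (h : SpansQ N y) {a b : LaurentSeries L} (ha : a ∈ spanL L y)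
    (hb : b ∈ spanL L y) : a * b ∈ spanL L y := by
  induction ha using Submodule.span_induction with
  | mem z hz =>
    obtain ⟨i, rfl⟩ := hz
    induction hb using Submodule.span_induction with
    | mem w hw =>
      obtain ⟨j, rfl⟩ := hw
      show coeffMap (Int.castRingHom L) (y i) * coeffMap (Int.castRingHom L) (y j) ∈ _
      rw [coeffMap_intCast_eq_coeffEmb L (y i), coeffMap_intCast_eq_coeffEmb L (y j), ← map_mul]
      exact coeffEmb_mem_spanL L h (mul_mem (yQ_mem_full h i) (yQ_mem_full h j))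
    | zero => rw [mul_zero]; exact zero_mem _
    | add a b _ _ ha hb => rw [mul_add]; exact add_mem ha hb
    | smul c a _ ha =>
      have : (fun i => coeffMap (Int.castRingHom L) (y i)) i * (c • a) =
          c • ((fun i => coeffMap (Int.castRingHom L) (y i)) i * a) := by
        show _ * ((c : LaurentSeries L) * a) = (c : LaurentSeries L) * (_ * a)
        ring
      rw [this]
      exact Submodule.smul_mem _ _ ha
  | zero => rw [zero_mul]; exact zero_mem _
  | add a b _ _ ha hb => rw [add_mul]; exact add_mem ha hb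
  | smul c a _ ha =>
    have : (c • a) * b = c • (a * b) := by
      show ((c : LaurentSeries L) * a) * b = (c : LaurentSeries L) * (a * b)
      ring
    rw [this]
    exact Submodule.smul_mem _ _ ha

/-- The span as a subalgebra over `L(j)`. -/
def spanAlg (h : SpansQ N y) : Subalgebra (jField L) (LaurentSeries L) where
  carrier := spanL L y
  mul_mem' := fun ha hb => mul_mem_spanL L h ha hb
  add_mem' := fun ha hb => add_mem ha hb
  algebraMap_mem' c := by
    have : algebraMap (jField L) (LaurentSeries L) c = c • (1 : LaurentSeries L) := by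
      rw [Algebra.smul_def, mul_one]
    rw [this]
    exact Submodule.smul_mem _ _ (one_mem_spanL L h)

theorem mem_spanAlg (h : SpansQ N y) {x : LaurentSeries L} :
    x ∈ spanAlg L h ↔ x ∈ spanL L y := Iff.rfl

theorem inv_mem_spanL (h : SpansQ N y) {x : LaurentSeries L} (hx : x ∈ spanL L y) :
    x⁻¹ ∈ spanL L y := by
  have hfin : Module.Finite (jField L) (spanAlg L h) := by
    have : Module.Finite (jField L) (spanL L y) :=
      Module.Finite.span_of_finite _ (Set.finite_range _)
    exact this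
  have hint : IsIntegral (jField L) (⟨x, hx⟩ : spanAlg L h) := IsIntegral.of_finite _ _
  have halg : IsAlgebraic (jField L) ((⟨x, hx⟩ : spanAlg L h) : LaurentSeries L) :=
    (hint.isAlgebraic).algebraMap (A := LaurentSeries L)
  exact (spanAlg L h).inv_mem_of_algebraic (x := ⟨x, hx⟩) halg

/-- The span as an intermediate field of `L((q))/L`. -/
def spanField (h : SpansQ N y) : IntermediateField L (LaurentSeries L) where
  carrier := spanL L y
  mul_mem' := fun ha hb => mul_mem_spanL L h ha hb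
  add_mem' := fun ha hb => add_mem ha hb
  one_mem' := one_mem_spanL L h
  zero_mem' := zero_mem _
  algebraMap_mem' c := by
    have hc : algebraMap L (LaurentSeries L) c ∈ jField L := (jField L).algebraMap_mem c
    have : algebraMap L (LaurentSeries L) c =
        (⟨_, hc⟩ : jField L) • (1 : LaurentSeries L) := by
      show _ = algebraMap L (LaurentSeries L) c * 1
      rw [mul_one]
    rw [this]
    exact Submodule.smul_mem _ _ (one_mem_spanL L h)
  inv_mem' := fun x hx => inv_mem_spanL L h hx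

theorem jField_le_baseChange : jField L ≤ laurentBaseChange L (modularFunctionFieldFull N) := by
  rw [jField, adjoin_le_iff]
  rintro x rfl
  have hj : jq ∈ modularFunctionFieldFull N := modularFunctionField_le_full N (jq_mem N)
  have := coeffEmb_mem_laurentBaseChange L hj
  rwa [coeffEmb_jq] at this

/-- **Base change of the S28 basis.** `F_L` is the `L(j)`-span of the monomials. -/
theorem mem_baseChange_iff_mem_spanL (h : SpansQ N y) {x : LaurentSeries L} :
    x ∈ laurentBaseChange L (modularFunctionFieldFull N) ↔ x ∈ spanL L y := by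
  constructor
  · intro hx
    have hle : laurentBaseChange L (modularFunctionFieldFull N) ≤ spanField L h := by
      rw [laurentBaseChange, adjoin_le_iff]
      rintro z ⟨w, hw, rfl⟩
      exact coeffEmb_mem_spanL L h hw
    exact hle hx
  · intro hx
    induction hx using Submodule.span_induction with
    | mem z hz =>
      obtain ⟨i, rfl⟩ := hz
      show coeffMap (Int.castRingHom L) (y i) ∈ _
      rw [coeffMap_intCast_eq_coeffEmb L (y i)]
      exact coeffEmb_mem_laurentBaseChange L (yQ_mem_full h i)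
    | zero => exact zero_mem _
    | add a b _ _ ha hb => exact add_mem ha hb
    | smul c a _ ha =>
      exact mul_mem (jField_le_baseChange L c.2) ha

end Span

end Fermat.Agent.S18.H516

end
end
-- ===== PACK-END S18/H516/GaussSpan.lean

-- ===== PACK-BEGIN S18/H516/GaussDecomp.lean
section






/-!
# S18 / MOD (helper516): Gauss decomposition from the S28 basis

`A` a valuation subring of a field `L ⊇ ℚ`, `π : A →+* k` any ring hom to a field `k`
such that `CoreData N k` holds (S28; true when `char k ∤ N`).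

* `exists_gauss_decomp` (G4): every `f ≠ 0` in `F_L` is `c · U₁ / U₂` with `U₁, U₂ ∈ A((q))`,
  images in `F_L`, reductions in `F_k` and nonzero.  (This is `PrincipalGeneratedByIntegral`
  as a theorem, valid at every level.)
* `red_mem_of_incl_mem` (G5): `U ∈ A((q))` with image in `F_L` has reduction in `F_k`.
-/

set_option autoImplicit false
set_option linter.unusedSectionVars false

noncomputable section

namespace Fermat.Agent.S18.H516

open ModularCurve IntermediateField Polynomial Fermat.Agent.S28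

section Scale

variable {L : Type*} [Field L] (A : ValuationSubring L)

/-- Joint scaling of a finite family of polynomials over the fraction field of a valuation ring:
after division by a suitable constant all coefficients are integral and one of them is `1`. -/
theorem exists_scale {n : ℕ} (H : Fin n → L[X]) (hH : ∃ i, H i ≠ 0) :
    ∃ (c : L) (H' : Fin n → A[X]), c ≠ 0 ∧
      (∀ i, (H' i).map A.subtype = C c⁻¹ * H i) ∧ ∃ i m, (H' i).coeff m = 1 := by
  classical
  set T : Finset (Σ _ : Fin n, ℕ) := Finset.univ.sigma (fun i => (H i).support) with hT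
  have hTne : T.Nonempty := by
    obtain ⟨i, hi⟩ := hH
    obtain ⟨m, hm⟩ : (H i).support.Nonempty := by
      rw [Finset.nonempty_iff_ne_empty, Ne, Polynomial.support_eq_empty]
      exact hi
    exact ⟨⟨i, m⟩, by simp [hT, hm]⟩
  obtain ⟨⟨i0, m0⟩, h0T, hmax⟩ := Finset.exists_max_image T
    (fun p => A.valuation ((H p.1).coeff p.2)) hTne
  have hc : (H i0).coeff m0 ≠ 0 := by
    have : m0 ∈ (H i0).support := by simpa [hT] using h0T
    exact Polynomial.mem_support_iff.mp this
  set c : L := (H i0).coeff m0 with hcdef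
  have hmem : ∀ i m, c⁻¹ * (H i).coeff m ∈ A := by
    intro i m
    by_cases h0 : (H i).coeff m = 0
    · rw [h0, mul_zero]; exact zero_mem _
    · have hT' : (⟨i, m⟩ : Σ _ : Fin n, ℕ) ∈ T := by
        simp [hT, Polynomial.mem_support_iff, h0]
      have hle := hmax ⟨i, m⟩ hT'
      rw [← A.valuation_le_one_iff, map_mul, map_inv₀]
      have hvc : A.valuation c ≠ 0 := (_root_.map_ne_zero _).mpr hc
      rw [inv_mul_le_iff₀ (zero_lt_iff.mpr hvc), mul_one]
      exact hle
  have hsub : ∀ i, (↑(C c⁻¹ * H i).coeffs : Set L) ⊆ A.toSubring := by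
    intro i x hx
    rw [Finset.mem_coe, Polynomial.mem_coeffs_iff] at hx
    obtain ⟨m, -, rfl⟩ := hx
    rw [Polynomial.coeff_C_mul]
    exact hmem i m
  refine ⟨c, fun i => (C c⁻¹ * H i).toSubring A.toSubring (hsub i), hc,
    fun i => Polynomial.map_toSubring _ A.toSubring (hsub i), i0, m0, ?_⟩
  apply Subtype.ext
  rw [Polynomial.coeff_toSubring, Polynomial.coeff_C_mul]
  show c⁻¹ * c = 1
  exact inv_mul_cancel₀ hc

end Scale

section Eval

variable {R S : Type*} [CommRing R] [CommRing S]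

theorem coeffMap_C (f : R →+* S) (a : R) :
    coeffMap f (HahnSeries.C (Γ := ℤ) a) = HahnSeries.C (f a) := by
  rw [HahnSeries.C_apply, HahnSeries.C_apply, coeffMap_single]

/-- Evaluation of a polynomial at `j ∈ R((q))`. -/
def evJ (P : R[X]) : LaurentSeries R := P.eval₂ (HahnSeries.C (Γ := ℤ) (R := R)) (jqModC R)

theorem coeffMap_evJ (f : R →+* S) (P : R[X]) : coeffMap f (evJ P) = evJ (P.map f) := by
  rw [evJ, evJ, hom_eval₂, eval₂_map, coeffMap_jqModC]
  congr 1
  ext a
  exact congrArg (fun z : LaurentSeries S => z.coeff _) (coeffMap_C f a)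

theorem evJ_add (P Q : R[X]) : evJ (P + Q) = evJ P + evJ Q := eval₂_add _ _

theorem evJ_mul (P Q : R[X]) : evJ (P * Q) = evJ P * evJ Q := eval₂_mul _ _

theorem evJ_C (a : R) : evJ (C a) = HahnSeries.C a := eval₂_C _ _

theorem evJ_zero : evJ (0 : R[X]) = 0 := eval₂_zero _ _

theorem evJ_one : evJ (1 : R[X]) = 1 := eval₂_one _ _

theorem evJ_prod {ι : Type*} (s : Finset ι) (g : ι → R[X]) :
    evJ (∏ i ∈ s, g i) = ∏ i ∈ s, evJ (g i) :=
  eval₂_finsetProd _ _ _ _

end Eval

section Field

variable (K : Type*) [Field K]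

theorem aeval_eq_evJ (Q : K[X]) : aeval (jqModC K) Q = evJ Q := by
  rw [aeval_def, evJ]
  congr 1
  ext a
  rw [algebraMap_laurentSeries_eq_single, HahnSeries.C_apply]

theorem evJ_eq_zero_iff {Q : K[X]} : evJ Q = 0 ↔ Q = 0 := by
  constructor
  · intro h
    exact Fermat.Agent.S28.H806.eq_zero_of_eval₂_C_eq_zero (jqModC K)
      (Fermat.Agent.S28.H806.jqModC_order_ne_zero K) Q h
  · rintro rfl
    exact evJ_zero

theorem evJ_mem_jField (Q : K[X]) : evJ Q ∈ jField K := by
  rw [← aeval_eq_evJ, jField, mem_adjoin_simple_iff]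
  exact ⟨Q, 1, by simp⟩

theorem exists_fraction {c : LaurentSeries K} (hc : c ∈ jField K) :
    ∃ r s : K[X], s ≠ 0 ∧ evJ s * c = evJ r := by
  rw [jField, mem_adjoin_simple_iff] at hc
  obtain ⟨r, s, rfl⟩ := hc
  by_cases hs : s = 0
  · refine ⟨0, 1, one_ne_zero, ?_⟩
    rw [hs, map_zero, div_zero, mul_zero, evJ_zero]
  · refine ⟨r, s, hs, ?_⟩
    have hs' : aeval (jqModC K) s ≠ 0 := by
      rw [aeval_eq_evJ]
      exact fun h => hs (evJ_eq_zero_iff K |>.mp h)
    rw [← aeval_eq_evJ, ← aeval_eq_evJ]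
    field_simp

/-- Clearing denominators in a `K(j)`-linear combination. -/
theorem exists_cleared {n : ℕ} (v : Fin n → LaurentSeries K) {x : LaurentSeries K}
    (hx : x ∈ Submodule.span (jField K) (Set.range v)) :
    ∃ (G : K[X]) (H : Fin n → K[X]), G ≠ 0 ∧ evJ G * x = ∑ i, evJ (H i) * v i := by
  classical
  obtain ⟨c, rfl⟩ := (Submodule.mem_span_range_iff_exists_fun (jField K)).mp hx
  have hc : ∀ i, ∃ r s : K[X], s ≠ 0 ∧ evJ s * (c i : LaurentSeries K) = evJ r :=
    fun i => exists_fraction K (c i).2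
  choose r s hs hrs using hc
  refine ⟨∏ i, s i, fun i => r i * ∏ j ∈ Finset.univ.erase i, s j, ?_, ?_⟩
  · exact Finset.prod_ne_zero_iff.mpr fun i _ => hs i
  · rw [Finset.mul_sum]
    refine Finset.sum_congr rfl fun i _ => ?_
    rw [← Finset.mul_prod_erase Finset.univ s (Finset.mem_univ i), evJ_mul, evJ_mul,
      IntermediateField.smul_def, smul_eq_mul, ← hrs i]
    ring

end Field

section Decomp

variable {L : Type*} [Field L] [Algebra ℚ L] (A : ValuationSubring L)
variable {k : Type} [Field k] (π : A →+* k) (N : ℕ) [NeZero N]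

/-- Integral series: image in `F_L`, reduction in `F_k` and nonzero. -/
def IsIntSeries (U : LaurentSeries A) : Prop :=
  coeffMap A.subtype U ∈ laurentBaseChange L (modularFunctionFieldFull N) ∧
    coeffMap π U ∈ modularFunctionFieldFullC k N ∧ coeffMap π U ≠ 0

omit [Algebra ℚ L] in
theorem incl_injective : Function.Injective (coeffMap A.subtype) := by
  intro x y hxy
  ext m
  have := congrArg (fun z : LaurentSeries L => z.coeff m) hxy
  exact this

theorem jField_le_fullC (K : Type*) [Field K] : jField K ≤ modularFunctionFieldFullC K N := by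
  rw [jField, adjoin_le_iff]
  rintro x rfl
  exact jqModC_mem_full K N

theorem C_mem_baseChange (c : L) :
    HahnSeries.C (Γ := ℤ) c ∈ laurentBaseChange L (modularFunctionFieldFull N) := by
  have := (laurentBaseChange L (modularFunctionFieldFull N)).algebraMap_mem c
  rwa [algebraMap_laurentSeries_eq_single, ← HahnSeries.C_apply] at this

/-- **(G4) Gauss decomposition.** -/
theorem exists_gauss_decomp (core : CoreData N k) {f : LaurentSeries L}
    (hf : f ∈ laurentBaseChange L (modularFunctionFieldFull N)) (hf0 : f ≠ 0) :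
    ∃ (c : L) (U₁ U₂ : LaurentSeries A), c ≠ 0 ∧ IsIntSeries A π N U₁ ∧ IsIntSeries A π N U₂ ∧
      f * coeffMap A.subtype U₂ = HahnSeries.C c * coeffMap A.subtype U₁ := by
  classical
  obtain ⟨n, y, hy, hspan, hli⟩ := core.exists_basis
  have hS : SpansQ N y := ⟨hy, hspan⟩
  have hfs := (mem_baseChange_iff_mem_spanL L hS).mp hf
  obtain ⟨G, H, hG, hGH⟩ := exists_cleared L _ hfs
  have hGne : evJ G ≠ 0 := fun h => hG ((evJ_eq_zero_iff L).mp h)
  have hH : ∃ i, H i ≠ 0 := by
    by_contra hcon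
    push Not at hcon
    have : evJ G * f = 0 := by
      rw [hGH]
      exact Finset.sum_eq_zero fun i _ => by rw [hcon i, evJ_zero, zero_mul]
    rcases mul_eq_zero.mp this with h | h
    · exact hGne h
    · exact hf0 h
  obtain ⟨g0, G', hg0, hG', i1, m1, hG1⟩ := exists_scale A (fun _ : Fin 1 => G) ⟨0, hG⟩
  obtain rfl : i1 = 0 := Subsingleton.elim _ _
  obtain ⟨h0, H', hh0, hH', i0, m0, hH1⟩ := exists_scale A H hH
  set U₂ : LaurentSeries A := evJ (G' 0) with hU₂
  set U₁ : LaurentSeries A := ∑ i, evJ (H' i) * coeffMap (Int.castRingHom A) (y i) with hU₁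
  have hU₂L : coeffMap A.subtype U₂ = HahnSeries.C g0⁻¹ * evJ G := by
    rw [hU₂, coeffMap_evJ, hG' 0, evJ_mul, evJ_C]
  have hU₁L : coeffMap A.subtype U₁ =
      HahnSeries.C h0⁻¹ * ∑ i, evJ (H i) * coeffMap (Int.castRingHom L) (y i) := by
    rw [hU₁, map_sum, Finset.mul_sum]
    refine Finset.sum_congr rfl fun i _ => ?_
    rw [map_mul, coeffMap_evJ, hH' i, evJ_mul, evJ_C, coeffMap_coeffMap,
      show (A.subtype.comp (Int.castRingHom A)) = Int.castRingHom L from RingHom.ext_int _ _]
    ring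
  have hU₁k : coeffMap π U₁ =
      ∑ i, evJ ((H' i).map π) * coeffMap (Int.castRingHom k) (y i) := by
    rw [hU₁, map_sum]
    refine Finset.sum_congr rfl fun i _ => ?_
    rw [map_mul, coeffMap_evJ, coeffMap_coeffMap,
      show (π.comp (Int.castRingHom A)) = Int.castRingHom k from RingHom.ext_int _ _]
  have hU₂k : coeffMap π U₂ = evJ ((G' 0).map π) := by
    rw [hU₂, coeffMap_evJ]
  refine ⟨h0 * g0⁻¹, U₁, U₂, mul_ne_zero hh0 (inv_ne_zero hg0), ⟨?_, ?_, ?_⟩, ⟨?_, ?_, ?_⟩, ?_⟩
  · rw [hU₁L, ← hGH]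
    exact mul_mem (C_mem_baseChange N _)
      (mul_mem (jField_le_baseChange L (evJ_mem_jField L G)) hf)
  · rw [hU₁k]
    refine sum_mem fun i _ => mul_mem (jField_le_fullC N k (evJ_mem_jField k _)) ?_
    exact coeffMap_mem_of_mem_closure N (hy i)
  · rw [hU₁k]
    intro h0'
    have hli' := Fintype.linearIndependent_iff.mp hli
      (fun i => (⟨evJ ((H' i).map π), evJ_mem_jField k _⟩ : jField k)) h0' i0
    have h1 : evJ ((H' i0).map π) = 0 := congrArg Subtype.val hli'
    have h2 := (evJ_eq_zero_iff k).mp h1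
    have h3 := congrArg (fun P : k[X] => P.coeff m0) h2
    simp only [Polynomial.coeff_map, Polynomial.coeff_zero, hH1, map_one] at h3
    exact one_ne_zero h3
  · rw [hU₂L]
    exact mul_mem (C_mem_baseChange N _) (jField_le_baseChange L (evJ_mem_jField L G))
  · rw [hU₂k]
    exact jField_le_fullC N k (evJ_mem_jField k _)
  · rw [hU₂k]
    intro h1
    have h2 := (evJ_eq_zero_iff k).mp h1
    have h3 := congrArg (fun P : k[X] => P.coeff m1) h2
    simp only [Polynomial.coeff_map, Polynomial.coeff_zero, hG1, map_one] at h3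
    exact one_ne_zero h3
  · rw [hU₂L, hU₁L, ← hGH, map_mul]
    have hC : HahnSeries.C (Γ := ℤ) h0 * HahnSeries.C h0⁻¹ = 1 := by
      rw [← map_mul, mul_inv_cancel₀ hh0, map_one]
    calc f * (HahnSeries.C g0⁻¹ * evJ G)
        = (HahnSeries.C (Γ := ℤ) h0 * HahnSeries.C h0⁻¹) * (HahnSeries.C g0⁻¹ * (evJ G * f)) := by
          rw [hC]; ring
      _ = HahnSeries.C h0 * HahnSeries.C g0⁻¹ * (HahnSeries.C h0⁻¹ * (evJ G * f)) := by ring

theorem C_mem_fullC (K : Type*) [Field K] (c : K) :
    HahnSeries.C (Γ := ℤ) c ∈ modularFunctionFieldFullC K N := by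
  have := (modularFunctionFieldFullC K N).algebraMap_mem c
  rwa [algebraMap_laurentSeries_eq_single, ← HahnSeries.C_apply] at this

/-- **(G5)** A series with coefficients in `A` lying in `F_L` reduces into `F_k`. -/
theorem red_mem_of_incl_mem (core : CoreData N k) {U : LaurentSeries A}
    (hU : coeffMap A.subtype U ∈ laurentBaseChange L (modularFunctionFieldFull N)) :
    coeffMap π U ∈ modularFunctionFieldFullC k N := by
  by_cases hU0 : U = 0
  · rw [hU0, map_zero]; exact zero_mem _
  have hU0' : coeffMap A.subtype U ≠ 0 := fun h => hU0 (incl_injective A (by rw [h, map_zero]))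
  obtain ⟨c, U₁, U₂, hc, h₁, h₂, heq⟩ := exists_gauss_decomp A π N core hU hU0'
  rcases A.mem_or_inv_mem c with hcA | hcA
  · have h1 : U * U₂ = HahnSeries.C ⟨c, hcA⟩ * U₁ := by
      apply incl_injective A
      rw [map_mul, map_mul, coeffMap_C, heq]
      rfl
    have hk := congrArg (coeffMap π) h1
    rw [map_mul, map_mul, coeffMap_C] at hk
    have h2 : coeffMap π U =
        HahnSeries.C (π ⟨c, hcA⟩) * coeffMap π U₁ * (coeffMap π U₂)⁻¹ := by
      rw [← hk, mul_assoc, mul_inv_cancel₀ h₂.2.2, mul_one]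
    rw [h2]
    exact mul_mem (mul_mem (C_mem_fullC N k _) h₁.2.1) (inv_mem h₂.2.1)
  · have h1 : HahnSeries.C ⟨c⁻¹, hcA⟩ * (U * U₂) = U₁ := by
      apply incl_injective A
      rw [map_mul, map_mul, coeffMap_C, heq]
      show HahnSeries.C c⁻¹ * (HahnSeries.C c * _) = _
      rw [← mul_assoc, ← map_mul, inv_mul_cancel₀ hc, map_one, one_mul]
    have hk := congrArg (coeffMap π) h1
    rw [map_mul, map_mul, coeffMap_C] at hk
    have hne : HahnSeries.C (Γ := ℤ) (π ⟨c⁻¹, hcA⟩) ≠ 0 := by
      intro h0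
      rw [h0, zero_mul] at hk
      exact h₁.2.2 hk.symm
    have h2 : coeffMap π U =
        (HahnSeries.C (Γ := ℤ) (π ⟨c⁻¹, hcA⟩))⁻¹ * coeffMap π U₁ * (coeffMap π U₂)⁻¹ := by
      rw [← hk, ← mul_assoc, inv_mul_cancel₀ hne, one_mul, mul_assoc,
        mul_inv_cancel₀ h₂.2.2, mul_one]
    rw [h2]
    exact mul_mem (mul_mem (inv_mem (C_mem_fullC N k _)) h₁.2.1) (inv_mem h₂.2.1)

end Decomp

end Fermat.Agent.S18.H516

end
end
-- ===== PACK-END S18/H516/GaussDecomp.lean

-- ===== PACK-BEGIN A2/H489/TwoExtB.lean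
section


/-!
# A2 / M1-abs, part B (helper489): valuation subrings over a DVR and the integral closure
-/

set_option autoImplicit false

namespace Fermat.Agent.A2.H489

open IsDedekindDomain IsLocalRing

section Over

variable {A L : Type*} [CommRing A] [IsLocalRing A] [Field L] [Algebra A L]

/-- `V` lies over the local ring `A`: it contains `A` and the maximal ideal of `A` consists of
nonunits of `V`. -/
structure IsOver (A : Type*) {L : Type*} [CommRing A] [IsLocalRing A] [Field L] [Algebra A L]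
    (V : ValuationSubring L) : Prop where
  mem : ∀ a : A, algebraMap A L a ∈ V
  nonunit : ∀ a ∈ maximalIdeal A, algebraMap A L a ∈ V.nonunits

variable {V : ValuationSubring L}

theorem IsOver.integral_mem (hV : IsOver A V) {x : L} (hx : IsIntegral A x) : x ∈ V := by
  let _ : Algebra A V := (toValSub V hV.mem).toAlgebra
  have : IsScalarTower A V L := IsScalarTower.of_algebraMap_eq (fun _ => rfl)
  have h : IsIntegral V x := hx.tower_top
  obtain ⟨y, hy⟩ := (IsIntegrallyClosed.isIntegral_iff (R := V) (K := L)).mp h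
  rw [← hy]
  exact y.2

theorem IsOver.mem_integralClosure (hV : IsOver A V) (s : integralClosure A L) :
    algebraMap (integralClosure A L) L s ∈ V :=
  hV.integral_mem s.2

theorem IsOver.not_mem_nonunits_of_isUnit (hV : IsOver A V) {a : A} (ha : IsUnit a) :
    algebraMap A L a ∉ V.nonunits := by
  obtain ⟨u, rfl⟩ := ha
  intro h
  rw [ValuationSubring.mem_nonunits_iff] at h
  have h1 : V.valuation (algebraMap A L (↑u⁻¹ : A)) ≤ 1 :=
    (ValuationSubring.valuation_le_one_iff V _).mpr (hV.mem _)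
  have h2 : V.valuation (algebraMap A L (u : A)) * V.valuation (algebraMap A L (↑u⁻¹ : A)) = 1 := by
    rw [← map_mul, ← map_mul, Units.mul_inv, map_one, map_one]
  have h3 : V.valuation (algebraMap A L (u : A)) * V.valuation (algebraMap A L (↑u⁻¹ : A)) < 1 :=
    mul_lt_one_of_lt_of_le h h1
  exact absurd h2 (ne_of_lt h3)

theorem IsOver.mem_nonunits_iff (hV : IsOver A V) (a : A) :
    algebraMap A L a ∈ V.nonunits ↔ a ∈ maximalIdeal A := by
  constructor
  · intro h
    by_contra hna
    rw [IsLocalRing.mem_maximalIdeal, _root_.mem_nonunits_iff, not_not] at hna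
    exact hV.not_mem_nonunits_of_isUnit hna h
  · exact hV.nonunit a

theorem IsOver.center_liesOver (hV : IsOver A V) :
    (center V hV.mem_integralClosure).LiesOver (maximalIdeal A) := by
  constructor
  ext a
  rw [Ideal.under, Ideal.mem_comap, mem_center_iff, ← IsScalarTower.algebraMap_apply,
    hV.mem_nonunits_iff]

theorem IsOver.ne_top_of_nonunit (hV : IsOver A V) {w : A} (hw : w ∈ maximalIdeal A)
    (hw0 : algebraMap A L w ≠ 0) : V ≠ ⊤ := by
  intro h
  have h1 := hV.nonunit w hw
  rw [ValuationSubring.mem_nonunits_iff_or] at h1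
  rcases h1 with h1 | h1
  · exact hw0 h1
  · apply h1
    rw [h]
    exact ValuationSubring.mem_top _

end Over

section Main

variable {A K L : Type*} [CommRing A] [IsDomain A] [IsDiscreteValuationRing A]
  [Field K] [Algebra A K] [IsFractionRing A K]
  [Field L] [Algebra K L] [Algebra A L] [IsScalarTower A K L]

omit [IsDiscreteValuationRing A] in
theorem algebraMap_injective_AL (A K L : Type*) [CommRing A] [IsDomain A]
    [Field K] [Algebra A K] [IsFractionRing A K]
    [Field L] [Algebra K L] [Algebra A L] [IsScalarTower A K L] :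
    Function.Injective (algebraMap A L) := by
  rw [IsScalarTower.algebraMap_eq A K L]
  exact (algebraMap K L).injective.comp (IsFractionRing.injective A K)

theorem IsOver.ne_top (K : Type*) {A L : Type*} [CommRing A] [IsDomain A]
    [IsDiscreteValuationRing A] [Field K] [Algebra A K] [IsFractionRing A K]
    [Field L] [Algebra K L] [Algebra A L] [IsScalarTower A K L]
    {V : ValuationSubring L} (hV : IsOver A V) : V ≠ ⊤ := by
  obtain ⟨w, hw⟩ := IsDiscreteValuationRing.exists_irreducible A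
  refine hV.ne_top_of_nonunit (w := w) ?_ ?_
  · rw [IsLocalRing.mem_maximalIdeal, _root_.mem_nonunits_iff]
    exact hw.not_isUnit
  · intro h0
    apply hw.ne_zero
    apply algebraMap_injective_AL A K L
    rw [h0, map_zero]

end Main

end Fermat.Agent.A2.H489

end
-- ===== PACK-END A2/H489/TwoExtB.lean

-- ===== PACK-BEGIN A2/H489/TwoExtC.lean
section


/-!
# A2 / M1-abs, part C (helper489): residues and the counting argument
-/

set_option autoImplicit false

namespace Fermat.Agent.A2.H489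

open IsDedekindDomain IsLocalRing

section Residue

variable (K : Type*) {A L : Type*} [CommRing A] [IsDomain A] [IsDiscreteValuationRing A]
  [Field K] [Algebra A K] [IsFractionRing A K]
  [Field L] [Algebra K L] [Algebra A L] [IsScalarTower A K L]
  [FiniteDimensional K L] [Algebra.IsSeparable K L]

theorem mul_mem_nonunits {V : ValuationSubring L} {x y : L} (hx : x ∈ V) (hy : y ∈ V.nonunits) :
    x * y ∈ V.nonunits := by
  rw [ValuationSubring.mem_nonunits_iff] at hy ⊢
  rw [map_mul]
  exact Right.mul_lt_one_of_le_of_lt ((ValuationSubring.valuation_le_one_iff V x).mpr hx) hy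

include K in
/-- every element of `V` is congruent modulo the maximal ideal to an element of the integral
closure of `A`. -/
theorem IsOver.exists_sub_mem_nonunits {V : ValuationSubring L} (hV : IsOver A V)
    {x : L} (hx : x ∈ V) :
    ∃ s : integralClosure A L, x - algebraMap (integralClosure A L) L s ∈ V.nonunits := by
  have : IsDedekindDomain (integralClosure A L) := integralClosure.isDedekindDomain A K L
  have : IsFractionRing (integralClosure A L) L :=
    integralClosure.isFractionRing_of_finite_extension K L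
  have hne : V ≠ ⊤ := hV.ne_top K
  set v := centerSpec V hV.mem_integralClosure hne with hvdef
  have hVv : V = (v.valuation L).valuationSubring :=
    eq_valuationSubring_centerSpec V hV.mem_integralClosure hne
  have hx' : v.valuation L x ≤ 1 := by
    rw [hVv] at hx
    exact hx
  obtain ⟨n, d, hnd⟩ := v.exists_primeCompl_mul_eq_of_integer x hx'
  have hd : (d : integralClosure A L) ∉ v.asIdeal := d.2
  obtain ⟨d', i, hi, hdi⟩ := v.isMaximal.exists_inv hd
  refine ⟨n * d', ?_⟩
  have hi' : algebraMap (integralClosure A L) L i ∈ V.nonunits :=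
    (mem_center_iff V hV.mem_integralClosure i).mp hi
  have key : x - algebraMap (integralClosure A L) L (n * d')
      = x * algebraMap (integralClosure A L) L i := by
    have h1 : algebraMap (integralClosure A L) L (d' * (d : integralClosure A L) + i) = 1 := by
      rw [hdi, map_one]
    rw [map_add, map_mul] at h1
    rw [map_mul]
    linear_combination (algebraMap (integralClosure A L) L d') * hnd - x * h1
  rw [key]
  exact mul_mem_nonunits hx hi'

/-- Lifts `s i` of elements `u i ∈ V` with independent residues have independent residues in the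
quotient of the integral closure by the centre. -/
theorem IsOver.linearIndependent_mk {V : ValuationSubring L} (hV : IsOver A V)
    [hlo : (center V hV.mem_integralClosure).LiesOver (maximalIdeal A)] {f : ℕ}
    (u : Fin f → L) (s : Fin f → integralClosure A L)
    (hs : ∀ i, u i - algebraMap (integralClosure A L) L (s i) ∈ V.nonunits)
    (hind : ∀ a : Fin f → A, (∑ i, algebraMap A L (a i) * u i) ∈ V.nonunits →
      ∀ i, a i ∈ maximalIdeal A) :
    LinearIndependent (A ⧸ maximalIdeal A)
      (fun i => Ideal.Quotient.mk (center V hV.mem_integralClosure) (s i)) := by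
  rw [Fintype.linearIndependent_iff]
  intro c hc i
  choose a ha using fun i => Ideal.Quotient.mk_surjective (c i)
  have h1 : ∀ i, c i • Ideal.Quotient.mk (center V hV.mem_integralClosure) (s i)
      = Ideal.Quotient.mk (center V hV.mem_integralClosure)
          (algebraMap A (integralClosure A L) (a i) * s i) := by
    intro i
    rw [Algebra.smul_def, ← ha i, Ideal.Quotient.algebraMap_mk_of_liesOver, map_mul]
  simp only [h1] at hc
  rw [← map_sum, Ideal.Quotient.eq_zero_iff_mem, mem_center_iff] at hc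
  have h2 : (∑ i, algebraMap A L (a i) * u i)
      = algebraMap (integralClosure A L) L
          (∑ i, algebraMap A (integralClosure A L) (a i) * s i)
        + ∑ i, algebraMap A L (a i) * (u i - algebraMap (integralClosure A L) L (s i)) := by
    rw [map_sum, ← Finset.sum_add_distrib]
    refine Finset.sum_congr rfl fun i _ => ?_
    rw [map_mul, ← IsScalarTower.algebraMap_apply]
    ring
  have h3 : (∑ i, algebraMap A L (a i) * u i) ∈ V.nonunits := by
    rw [h2]
    refine add_mem hc (sum_mem fun i _ => ?_)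
    exact mul_mem_nonunits (hV.mem _) (hs i)
  have h4 := hind a h3 i
  rw [← ha i]
  exact Ideal.Quotient.eq_zero_iff_mem.mpr h4

include K in
/-- A family of `f` elements of `V` whose residues are independent over the residue field of
`A` bounds the inertia degree of the centre from below. -/
theorem IsOver.le_inertiaDeg {V : ValuationSubring L} (hV : IsOver A V) {f : ℕ}
    (u : Fin f → L) (hu : ∀ i, u i ∈ V)
    (hind : ∀ a : Fin f → A, (∑ i, algebraMap A L (a i) * u i) ∈ V.nonunits →
      ∀ i, a i ∈ maximalIdeal A) :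
    f ≤ Ideal.inertiaDeg' (maximalIdeal A) (center V hV.mem_integralClosure) := by
  have hlo := hV.center_liesOver
  have hfin : Module.Finite A (integralClosure A L) := IsIntegralClosure.finite A K L _
  rw [Ideal.inertiaDeg'_algebraMap]
  choose s hs using fun i => hV.exists_sub_mem_nonunits K (hu i)
  have hli := hV.linearIndependent_mk u s hs hind
  have h5 := hli.fintype_card_le_finrank
  simpa using h5

end Residue

section Count

variable (K : Type*) {A L : Type*} [CommRing A] [IsDomain A] [IsDiscreteValuationRing A]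
  [Field K] [Algebra A K] [IsFractionRing A K]
  [Field L] [Algebra K L] [Algebra A L] [IsScalarTower A K L]
  [FiniteDimensional K L] [Algebra.IsSeparable K L]

include K in
/-- **Counting core.**  Two distinct valuation subrings over `A` whose inertia degrees add up to
at least `[L : K]` are the only ones, are unramified, and the bounds are equalities. -/
theorem twoExt_core {V₁ V₂ : ValuationSubring L} (h₁ : IsOver A V₁) (h₂ : IsOver A V₂)
    (hne : V₁ ≠ V₂) {f₁ f₂ : ℕ} (hf : Module.finrank K L ≤ f₁ + f₂)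
    (hf₁ : f₁ ≤ Ideal.inertiaDeg' (maximalIdeal A) (center V₁ h₁.mem_integralClosure))
    (hf₂ : f₂ ≤ Ideal.inertiaDeg' (maximalIdeal A) (center V₂ h₂.mem_integralClosure)) :
    (∀ P : Ideal (integralClosure A L), P.IsPrime → P.LiesOver (maximalIdeal A) →
        P = center V₁ h₁.mem_integralClosure ∨ P = center V₂ h₂.mem_integralClosure) ∧
      Ideal.ramificationIdx' (maximalIdeal A) (center V₁ h₁.mem_integralClosure) = 1 ∧
      Ideal.ramificationIdx' (maximalIdeal A) (center V₂ h₂.mem_integralClosure) = 1 ∧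
      Ideal.inertiaDeg' (maximalIdeal A) (center V₁ h₁.mem_integralClosure) = f₁ ∧
      Ideal.inertiaDeg' (maximalIdeal A) (center V₂ h₂.mem_integralClosure) = f₂ := by
  have hD : IsDedekindDomain (integralClosure A L) := integralClosure.isDedekindDomain A K L
  have hFr : IsFractionRing (integralClosure A L) L :=
    integralClosure.isFractionRing_of_finite_extension K L
  have hfin : Module.Finite A (integralClosure A L) := IsIntegralClosure.finite A K L _
  have hTF : Module.IsTorsionFree A (integralClosure A L) := by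
    rw [Module.isTorsionFree_iff_algebraMap_injective]
    intro a b hab
    apply algebraMap_injective_AL A K L
    have := congrArg (algebraMap (integralClosure A L) L) hab
    rwa [← IsScalarTower.algebraMap_apply, ← IsScalarTower.algebraMap_apply] at this
  have hlo₁ := h₁.center_liesOver
  have hlo₂ := h₂.center_liesOver
  have hp0 : maximalIdeal A ≠ ⊥ := IsDiscreteValuationRing.not_a_field A
  set P₁ := center V₁ h₁.mem_integralClosure with hP₁
  set P₂ := center V₂ h₂.mem_integralClosure with hP₂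
  have hP₁₂ : P₁ ≠ P₂ := fun h =>
    hne (eq_of_center_eq V₁ V₂ h₁.mem_integralClosure h₂.mem_integralClosure
      (h₁.ne_top K) (h₂.ne_top K) h)
  have hmem₁ : P₁ ∈ IsDedekindDomain.primesOverFinset (maximalIdeal A) (integralClosure A L) :=
    (IsDedekindDomain.mem_primesOverFinset_iff hp0 _).mpr ⟨inferInstance, hlo₁⟩
  have hmem₂ : P₂ ∈ IsDedekindDomain.primesOverFinset (maximalIdeal A) (integralClosure A L) :=
    (IsDedekindDomain.mem_primesOverFinset_iff hp0 _).mpr ⟨inferInstance, hlo₂⟩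
  have hsum := by
    set_option linter.deprecated false in
    exact Ideal.sum_ramification_inertia (integralClosure A L) K L hp0
  have hpos : ∀ P ∈ IsDedekindDomain.primesOverFinset (maximalIdeal A) (integralClosure A L),
      1 ≤ Ideal.ramificationIdx' (maximalIdeal A) P ∧
      1 ≤ Ideal.inertiaDeg' (maximalIdeal A) P := by
    intro P hP
    obtain ⟨hPp, hPl⟩ := (IsDedekindDomain.mem_primesOverFinset_iff hp0 _).mp hP
    exact ⟨Nat.one_le_iff_ne_zero.mpr
        (Ideal.IsDedekindDomain.ramificationIdx'_ne_zero_of_liesOver P hp0),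
      Nat.one_le_iff_ne_zero.mpr (Ideal.inertiaDeg'_ne_zero (maximalIdeal A) P)⟩
  rw [← Finset.add_sum_erase _ _ hmem₁] at hsum
  have hmem₂' : P₂ ∈ (IsDedekindDomain.primesOverFinset (maximalIdeal A) (integralClosure A L)).erase P₁ :=
    Finset.mem_erase.mpr ⟨hP₁₂.symm, hmem₂⟩
  rw [← Finset.add_sum_erase _ _ hmem₂'] at hsum
  set T := ((IsDedekindDomain.primesOverFinset (maximalIdeal A) (integralClosure A L)).erase P₁).erase P₂ with hT
  have hrest : T.card ≤ ∑ P ∈ T, Ideal.ramificationIdx' (maximalIdeal A) P *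
      Ideal.inertiaDeg' (maximalIdeal A) P := by
    rw [Finset.card_eq_sum_ones]
    refine Finset.sum_le_sum fun P hP => ?_
    have hP' : P ∈ IsDedekindDomain.primesOverFinset (maximalIdeal A) (integralClosure A L) :=
      Finset.mem_of_mem_erase (Finset.mem_of_mem_erase hP)
    exact Right.one_le_mul (hpos P hP').1 (hpos P hP').2
  obtain ⟨he₁, hi₁⟩ := hpos P₁ hmem₁
  obtain ⟨he₂, hi₂⟩ := hpos P₂ hmem₂
  have hm₁ : Ideal.inertiaDeg' (maximalIdeal A) P₁ ≤
      Ideal.ramificationIdx' (maximalIdeal A) P₁ * Ideal.inertiaDeg' (maximalIdeal A) P₁ :=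
    Nat.le_mul_of_pos_left _ he₁
  have hm₂ : Ideal.inertiaDeg' (maximalIdeal A) P₂ ≤
      Ideal.ramificationIdx' (maximalIdeal A) P₂ * Ideal.inertiaDeg' (maximalIdeal A) P₂ :=
    Nat.le_mul_of_pos_left _ he₂
  have hT0 : T.card = 0 := by omega
  have hi₁' : Ideal.inertiaDeg' (maximalIdeal A) P₁ = f₁ := by omega
  have hi₂' : Ideal.inertiaDeg' (maximalIdeal A) P₂ = f₂ := by omega
  have hem₁ : Ideal.ramificationIdx' (maximalIdeal A) P₁ *
      Ideal.inertiaDeg' (maximalIdeal A) P₁ = Ideal.inertiaDeg' (maximalIdeal A) P₁ := by omega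
  have hem₂ : Ideal.ramificationIdx' (maximalIdeal A) P₂ *
      Ideal.inertiaDeg' (maximalIdeal A) P₂ = Ideal.inertiaDeg' (maximalIdeal A) P₂ := by omega
  refine ⟨?_, ?_, ?_, hi₁', hi₂'⟩
  · intro P hPp hPl
    have hP : P ∈ IsDedekindDomain.primesOverFinset (maximalIdeal A) (integralClosure A L) :=
      (IsDedekindDomain.mem_primesOverFinset_iff hp0 _).mpr ⟨hPp, hPl⟩
    by_contra hcon
    rw [not_or] at hcon
    have : P ∈ T := Finset.mem_erase.mpr ⟨hcon.2, Finset.mem_erase.mpr ⟨hcon.1, hP⟩⟩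
    rw [Finset.card_eq_zero] at hT0
    rw [hT0] at this
    exact absurd this (Finset.notMem_empty _)
  · exact Nat.eq_of_mul_eq_mul_right (by omega : 0 < Ideal.inertiaDeg' (maximalIdeal A) P₁)
      (by rw [hem₁, one_mul])
  · exact Nat.eq_of_mul_eq_mul_right (by omega : 0 < Ideal.inertiaDeg' (maximalIdeal A) P₂)
      (by rw [hem₂, one_mul])

end Count

end Fermat.Agent.A2.H489

end
-- ===== PACK-END A2/H489/TwoExtC.lean

-- ===== PACK-BEGIN S18/B12/Spec2.lean
section



/-!
# S18, Route K, b2: assembly pieces (squad S18/S33, squad-lead helper33) — FROZEN statements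

Abstract setting for the assembly of `B2Statement` (see `coord/S18-b1b2.md`, section "Assembly"):
`P` = a noetherian UFD (later `R[X]`), `w ∈ P` a prime (later `C w`) with `P/(w)` a PID (later `k'[X]`)
and `P[1/w]` a PID containing `ℚ` (later `E[X]`); `B` = integrally closed domain, finite and
torsion-free over `P`.  Special fibre `B/wB := B ⧸ (span {w}).map (algebraMap P B)` as an algebra over
`P ⧸ span {w}` (Mathlib instance `Ideal.Quotient.algebraQuotientMapQuotient`).
-/

set_option autoImplicit false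

noncomputable section

namespace Fermat.Agent.S18.B12

open Polynomial

universe u v

/-- Gram determinant of the integral trace form of an `n`-tuple of `B`. -/
def intDiscr (P : Type u) (B : Type v) [CommRing P] [IsDomain P] [IsIntegrallyClosed P]
    [CommRing B] [IsDomain B] [IsIntegrallyClosed B] [Algebra P B] [Module.Finite P B]
    [Module.IsTorsionFree P B] {n : ℕ} (x : Fin n → B) : P :=
  (Matrix.of fun i j => Algebra.intTrace P B (x i * x j)).det

/-- `x` is a basis of `B` over `P` locally at the ideal `𝔪`: linearly independent, and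
`g • B ⊆ span x` for some `g ∉ 𝔪`. -/
def IsLocalBasis (P : Type u) (B : Type v) [CommRing P] [CommRing B] [Algebra P B]
    (𝔪 : Ideal P) (n : ℕ) (x : Fin n → B) : Prop :=
  LinearIndependent P x ∧ ∃ g : P, g ∉ 𝔪 ∧ ∀ b : B, g • b ∈ Submodule.span P (Set.range x)

/-- **A0 (abstract regular sequence).**  `w` prime in `P`, `w ∤ u`: if `u * b = w * b'` in the
normal `B` then `b = w * b''`, `b' = u * b''`.  (Implies both statements of P1.) -/
def RegSeqAbsStatement : Prop :=
  ∀ (P : Type u) [CommRing P] [IsDomain P] [IsIntegrallyClosed P]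
    (B : Type v) [CommRing B] [IsDomain B] [IsIntegrallyClosed B] [Algebra P B]
    [Algebra.IsIntegral P B] [Module.IsTorsionFree P B]
    (u w : P) (_ : Prime w) (_ : ¬ w ∣ u) (b b' : B),
    algebraMap P B u * b = algebraMap P B w * b' →
    ∃ b'' : B, b = algebraMap P B w * b'' ∧ b' = algebraMap P B u * b''

/-- **A2 (local basis).**  `P` noetherian domain, `𝔪 = (w, p)` maximal, `(p, w)` regular on `B`
(hypothesis `hreg`).  Then `B` has a basis locally at `𝔪`. -/
def LocalBasisStatement : Prop :=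
  ∀ (P : Type u) [CommRing P] [IsDomain P] [IsNoetherianRing P]
    (B : Type v) [CommRing B] [Algebra P B] [Module.Finite P B] [Module.IsTorsionFree P B]
    (w p : P) (_ : (Ideal.span {w, p}).IsMaximal)
    (_ : ∀ b b' : B, algebraMap P B p * b = algebraMap P B w * b' →
      ∃ b'' : B, b = algebraMap P B w * b'' ∧ b' = algebraMap P B p * b''),
    ∃ (n : ℕ) (x : Fin n → B), IsLocalBasis P B (Ideal.span {w, p}) n x

/-- **A2' (rank).**  A local basis has `n = Module.finrank P B` elements, and the Gram determinant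
of any other `n`-tuple `x'` satisfies `g² · intDiscr x' = u² · intDiscr x` with `g ∉ 𝔪`. -/
def LocalBasisRankStatement : Prop :=
  ∀ (P : Type u) [CommRing P] [IsDomain P] [IsIntegrallyClosed P]
    (B : Type v) [CommRing B] [IsDomain B] [IsIntegrallyClosed B] [Algebra P B]
    [Module.Finite P B] [Module.IsTorsionFree P B]
    (𝔪 : Ideal P) [𝔪.IsPrime] (n : ℕ) (x : Fin n → B), IsLocalBasis P B 𝔪 n x →
    n = Module.finrank P B ∧
    ∀ x' : Fin n → B, ∃ g u : P, g ∉ 𝔪 ∧ g ^ 2 * intDiscr P B x' = u ^ 2 * intDiscr P B x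

/-- **A3 (discriminant reduction mod `w`).**  `w` prime with `P/(w)` a PID, `x` a local basis at a
prime `𝔪 ∋ w`, `bb` a basis of `B/wB` over `P/(w)`.  Then `bb` has `n` elements and
`intDiscr x mod w = ū² · disc(bb)` with `u ∉ 𝔪`. -/
def DiscrRedStatement : Prop :=
  ∀ (P : Type u) [CommRing P] [IsDomain P] [IsIntegrallyClosed P]
    (B : Type v) [CommRing B] [IsDomain B] [IsIntegrallyClosed B] [Algebra P B]
    [Module.Finite P B] [Module.IsTorsionFree P B]
    (w : P) (_ : Prime w) (𝔪 : Ideal P) [𝔪.IsPrime] (_ : w ∈ 𝔪)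
    (n : ℕ) (x : Fin n → B) (_ : IsLocalBasis P B 𝔪 n x)
    (n' : ℕ) (bb : Module.Basis (Fin n') (P ⧸ Ideal.span {w})
      (B ⧸ (Ideal.span {w}).map (algebraMap P B))),
    n' = n ∧ ∃ u : P, u ∉ 𝔪 ∧
      Ideal.Quotient.mk (Ideal.span {w}) (intDiscr P B x) =
        Ideal.Quotient.mk (Ideal.span {w}) u ^ 2 * Algebra.discr (P ⧸ Ideal.span {w}) bb

/-- **A4 (UFD step).**  If every prime factor of `D ≠ 0` lying in the prime ideal `𝔪` is
associated to `p`, then `D = p ^ a * D₁` with `D₁ ∉ 𝔪`. -/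
def UFDStepStatement : Prop :=
  ∀ (P : Type u) [CommRing P] [IsDomain P] [UniqueFactorizationMonoid P]
    (𝔪 : Ideal P) [𝔪.IsPrime] (p : P) (_ : Prime p) (D : P) (_ : D ≠ 0)
    (_ : ∀ π : P, Prime π → π ∣ D → π ∈ 𝔪 → Associated π p),
    ∃ (a : ℕ) (D₁ : P), D = p ^ a * D₁ ∧ D₁ ∉ 𝔪

/-- **A5 (generic fibre).**  `P[1/w]` a PID in which every positive integer is invertible.
`π ≠ w` a prime of `P`, `x` a local basis at `(π)`, `y` a family of `r` elements of `B` that is
independent modulo `rad(πB)`.  Then `π ^ (n - r + 1) ∤ intDiscr x`.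
(Apply `TameDiscrStatement` to `Λ = P[1/w]`, `C₀ = B[1/w]`, which is a Dedekind domain.) -/
def GenericDiscrStatement : Prop :=
  ∀ (P : Type u) [CommRing P] [IsDomain P] [UniqueFactorizationMonoid P] [IsNoetherianRing P]
    (w : P) (_ : Prime w) (_ : IsPrincipalIdealRing (Localization.Away w))
    (_ : ∀ m : ℕ, m ≠ 0 → IsUnit (algebraMap P (Localization.Away w) (m : P)))
    (B : Type v) [CommRing B] [IsDomain B] [IsIntegrallyClosed B] [Algebra P B]
    [Module.Finite P B] [Module.IsTorsionFree P B]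
    (π : P) (_ : Prime π) (_ : ¬ Associated π w)
    (n : ℕ) (x : Fin n → B) (_ : IsLocalBasis P B (Ideal.span {π}) n x)
    (r : ℕ) (y : Fin r → B)
    (_ : ∀ a : Fin r → P,
      (∑ i, a i • y i) ∈ (Ideal.span {algebraMap P B π}).radical → ∀ i, π ∣ a i),
    ¬ π ^ (n - r + 1) ∣ intDiscr P B x

/-- **A5' (reduced basis at a prime `s` with `P/(s)` a PID).**  There is a family `y` of elements
of `B` which is independent modulo `rad(sB)` and spans `B` modulo `rad(sB)`. -/
def RedBasisAbsStatement : Prop :=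
  ∀ (P : Type u) [CommRing P] [IsDomain P] [IsIntegrallyClosed P]
    (B : Type v) [CommRing B] [IsDomain B] [IsIntegrallyClosed B] [Algebra P B]
    [Module.Finite P B] [Module.IsTorsionFree P B]
    (s : P) (_ : Prime s) (_ : IsPrincipalIdealRing (P ⧸ Ideal.span {s})),
    ∃ (r : ℕ) (y : Fin r → B),
      (∀ a : Fin r → P,
        (∑ i, a i • y i) ∈ (Ideal.span {algebraMap P B s}).radical → ∀ i, s ∣ a i) ∧
      (∀ b : B, ∃ a : Fin r → P,
        b - ∑ i, a i • y i ∈ (Ideal.span {algebraMap P B s}).radical)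

/-- **P2'' (special fibre, internal idempotent form).**  `Λ` a PID, `t` prime, `C` a commutative
`Λ`-algebra with basis `b`; `(C/tC)_red` spanned by `s` elements; `disc b ≠ 0`,
`t ^ (n - s + 1) ∤ disc b`.  If `e * e = g • e` with `g ≠ 0` (so `e/g` is an idempotent of
`Frac C`), then `h • e = g • c` for some `h ∉ (t)`, `c ∈ C`. -/
def SFIdemIntStatement : Prop :=
  ∀ (Λ : Type u) [CommRing Λ] [IsDomain Λ] [IsPrincipalIdealRing Λ] (t : Λ) (_ : Prime t)
    (C : Type v) [CommRing C] [Algebra Λ C] (n : ℕ) (b : Module.Basis (Fin n) Λ C)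
    (s : ℕ) (y : Fin s → C)
    (_ : ∀ x : C, ∃ a : Fin s → Λ,
        x - ∑ i, a i • y i ∈ (Ideal.span {algebraMap Λ C t}).radical),
    Algebra.discr Λ b ≠ 0 → ¬ t ^ (n - s + 1) ∣ Algebra.discr Λ b →
    ∀ (e : C) (g : Λ), g ≠ 0 → e * e = g • e → ∃ (h : Λ) (c : C), ¬ t ∣ h ∧ h • e = g • c

/-- **A6 (special fibre at the closed point `𝔪 = (w, p)`).**  `x` local basis at `𝔪`,
`intDiscr x = p ^ a * D₁` with `D₁ ∉ 𝔪`, `y` spans `B` modulo `rad(𝔪B)` with `a ≤ n - r`.
Then every idempotent `e/g` of `Frac(B/wB)` is regular at `𝔪`: `h e ≡ g c mod wB`, `h ∉ 𝔪`. -/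
def SpecialFibreStatement : Prop :=
  ∀ (P : Type u) [CommRing P] [IsDomain P] [UniqueFactorizationMonoid P] [IsNoetherianRing P]
    (w : P) (_ : Prime w) (_ : IsPrincipalIdealRing (P ⧸ Ideal.span {w}))
    (B : Type v) [CommRing B] [IsDomain B] [IsIntegrallyClosed B] [Algebra P B]
    [Module.Finite P B] [Module.IsTorsionFree P B]
    (p : P) (_ : (Ideal.span {w, p}).IsMaximal) (_ : ¬ w ∣ p)
    (n : ℕ) (x : Fin n → B) (_ : IsLocalBasis P B (Ideal.span {w, p}) n x)
    (a : ℕ) (D₁ : P) (_ : intDiscr P B x = p ^ a * D₁) (_ : D₁ ∉ Ideal.span {w, p})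
    (r : ℕ) (y : Fin r → B)
    (_ : ∀ b : B, ∃ c : Fin r → P, b - ∑ i, c i • y i ∈
      (Ideal.span {algebraMap P B w, algebraMap P B p}).radical)
    (_ : a ≤ n - r)
    (e : B) (g : P), ¬ w ∣ g →
      e ^ 2 - algebraMap P B g * e ∈ Ideal.span {algebraMap P B w} →
      ∃ (h : P) (c : B), h ∉ Ideal.span {w, p} ∧
        algebraMap P B h * e - algebraMap P B g * c ∈ Ideal.span {algebraMap P B w}

/-- **A7 (abstract b2).**  `S` = finite set of branch primes. -/
def B2AbsStatement : Prop :=
  ∀ (P : Type u) [CommRing P] [IsDomain P] [UniqueFactorizationMonoid P] [IsNoetherianRing P]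
    (w : P) (_ : Prime w) (_ : IsPrincipalIdealRing (P ⧸ Ideal.span {w}))
    (_ : IsPrincipalIdealRing (Localization.Away w))
    (_ : ∀ m : ℕ, m ≠ 0 → IsUnit (algebraMap P (Localization.Away w) (m : P)))
    (B : Type v) [CommRing B] [IsDomain B] [IsIntegrallyClosed B] [Algebra P B]
    [Module.Finite P B] [Module.IsTorsionFree P B]
    (_ : ∃ x : Fin (Module.finrank P B) → B, ¬ w ∣ intDiscr P B x)
    (S : Finset P)
    (_ : ∀ s ∈ S, Prime s ∧ ¬ Associated s w ∧ (Ideal.span {w, s}).IsMaximal ∧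
      IsPrincipalIdealRing (P ⧸ Ideal.span {s}))
    (_ : ∀ s ∈ S, ∀ s' ∈ S, s ≠ s' → s' ∉ Ideal.span {w, s})
    (_ : ∀ π : P, Prime π → ¬ Associated π w → (∀ s ∈ S, ¬ Associated π s) →
        (Ideal.span {algebraMap P B π}).IsRadical)
    (e : B) (g : P), ¬ w ∣ g →
      e ^ 2 - algebraMap P B g * e ∈ Ideal.span {algebraMap P B w} →
      ∃ c : B, e - algebraMap P B g * c ∈ Ideal.span {algebraMap P B w}

/-- **A1 (instantiation `P = R[X]`).**  The ring-theoretic facts about `R[X]` needed to deduce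
`B2Statement` from `B2AbsStatement`. -/
def PolyInstStatement : Prop :=
  ∀ (R : Type u) [CommRing R] [IsDomain R] [IsDiscreteValuationRing R] [CharZero R]
    (w : R) (_ : Irreducible w),
    Prime (C w : R[X]) ∧
    IsPrincipalIdealRing (R[X] ⧸ Ideal.span {(C w : R[X])}) ∧
    IsPrincipalIdealRing (Localization.Away (C w : R[X])) ∧
    (∀ m : ℕ, m ≠ 0 → IsUnit (algebraMap R[X] (Localization.Away (C w : R[X])) (m : R[X]))) ∧
    ∀ c : R, Prime (X - C c : R[X]) ∧ ¬ Associated (X - C c : R[X]) (C w) ∧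
      (Ideal.span {(C w : R[X]), X - C c}).IsMaximal ∧
      IsPrincipalIdealRing (R[X] ⧸ Ideal.span {(X - C c : R[X])}) ∧
      ∀ c' : R, X - C c' ∈ Ideal.span {(C w : R[X]), X - C c} → ¬ IsUnit (c - c')

end Fermat.Agent.S18.B12

end
end
-- ===== PACK-END S18/B12/Spec2.lean

-- ===== PACK-BEGIN S18/B12/Spec3.lean
section



/-!
# S18, Route K, b2: the HEART (`B2CoreAbsStatement`) and the two OUTPUT SHAPES
(squad S18/S33, squad-lead helper33) — FROZEN statements, Mathlib-only

* `B2CoreAbsStatement` : at every closed point `t` of the special fibre `B/wB` over `Λ = P/(w)`: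
  `ord_t disc(B/wB) ≤ n - s` with `(B/wB mod t)_red` spanned by `s` elements
  (exactly the hypothesis of "Theorem L", `SFLatticeStatement` / H933 / H636 / H998).
* Output O1 `B2RegularStatement` : `B/wB` a domain ⟹ `RegularAlong w` (shape of
  `Fermat.Agent.S18.H754.RegularAlong`, consumed by the Kummer endgame K').
* Output O2 `B2Statement` (Spec.lean) : idempotents of `Frac(B/wB)` lie in `B/wB` (no domain
  hypothesis; consumed by "b4 = b2 for the cover").
-/

set_option autoImplicit false

noncomputable section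

namespace Fermat.Agent.S18.B12

open Polynomial

universe u v

/-- **A6' (heart of b2).**  Abstract setting of Spec2 (`P` noetherian UFD, `w` prime, `P/(w)` and
`P[1/w]` PIDs, char 0 generic fibre, `B` normal finite torsion-free over `P`, `hsep`, branch primes
`S` pairwise comaximal mod `w`, unramified outside `S`).  Then for every prime `t` of
`Λ = P/(w)` and every `Λ`-basis `bb` of `B/wB`: `disc bb ≠ 0`, and there is a family of `s`
elements spanning `B/wB` modulo `rad(t)` with `t ^ (n - s + 1) ∤ disc bb`. -/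
def B2CoreAbsStatement : Prop :=
  ∀ (P : Type u) [CommRing P] [IsDomain P] [UniqueFactorizationMonoid P] [IsNoetherianRing P]
    (w : P) (_ : Prime w) (_ : IsPrincipalIdealRing (P ⧸ Ideal.span {w}))
    (_ : IsPrincipalIdealRing (Localization.Away w))
    (_ : ∀ m : ℕ, m ≠ 0 → IsUnit (algebraMap P (Localization.Away w) (m : P)))
    (B : Type v) [CommRing B] [IsDomain B] [IsIntegrallyClosed B] [Algebra P B]
    [Module.Finite P B] [Module.IsTorsionFree P B]
    (_ : ∃ x : Fin (Module.finrank P B) → B, ¬ w ∣ intDiscr P B x)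
    (S : Finset P)
    (_ : ∀ s ∈ S, Prime s ∧ ¬ Associated s w ∧ (Ideal.span {w, s}).IsMaximal ∧
      IsPrincipalIdealRing (P ⧸ Ideal.span {s}))
    (_ : ∀ s ∈ S, ∀ s' ∈ S, s ≠ s' → s' ∉ Ideal.span {w, s})
    (_ : ∀ π : P, Prime π → ¬ Associated π w → (∀ s ∈ S, ¬ Associated π s) →
        (Ideal.span {algebraMap P B π}).IsRadical)
    (t : P ⧸ Ideal.span {w}) (_ : Prime t) (n : ℕ)
    (bb : Module.Basis (Fin n) (P ⧸ Ideal.span {w})
      (B ⧸ (Ideal.span {w}).map (algebraMap P B))),
    Algebra.discr (P ⧸ Ideal.span {w}) bb ≠ 0 ∧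
    ∃ (s : ℕ) (y : Fin s → B ⧸ (Ideal.span {w}).map (algebraMap P B)),
      (∀ c : B ⧸ (Ideal.span {w}).map (algebraMap P B), ∃ a : Fin s → P ⧸ Ideal.span {w},
        c - ∑ i, a i • y i ∈ (Ideal.span {algebraMap (P ⧸ Ideal.span {w})
          (B ⧸ (Ideal.span {w}).map (algebraMap P B)) t}).radical) ∧
      ¬ t ^ (n - s + 1) ∣ Algebra.discr (P ⧸ Ideal.span {w}) bb

/-- **A8 (normality from the discriminant bounds).**  `Λ` a PID, `C` a domain, free of rank `n`
over `Λ`, satisfying the bound of `B2CoreAbsStatement` at every prime `t`.  Then `C` is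
integrally closed.  (Apply Theorem L to `C ⊆ C[f]`, `f` integral over `C`.) -/
def IntClosedOfDiscrStatement : Prop :=
  ∀ (Λ : Type u) [CommRing Λ] [IsDomain Λ] [IsPrincipalIdealRing Λ]
    (C : Type v) [CommRing C] [IsDomain C] [Algebra Λ C] (n : ℕ) (b : Module.Basis (Fin n) Λ C),
    Algebra.discr Λ b ≠ 0 →
    (∀ t : Λ, Prime t → ∃ (s : ℕ) (y : Fin s → C),
      (∀ c : C, ∃ a : Fin s → Λ,
        c - ∑ i, a i • y i ∈ (Ideal.span {algebraMap Λ C t}).radical) ∧
      ¬ t ^ (n - s + 1) ∣ Algebra.discr Λ b) →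
    IsIntegrallyClosed C

/-- **A9 (regularity along a Dedekind special fibre).**  If `B/ϖB` is a Dedekind domain then
every maximal ideal `𝔪 ∋ ϖ` of `B` is locally generated by `ϖ` and one more element. -/
def RegularAlongOfDedekindStatement : Prop :=
  ∀ (B : Type u) [CommRing B] (ϖ : B), IsDedekindDomain (B ⧸ Ideal.span {ϖ}) →
    ∀ 𝔪 : Ideal B, 𝔪.IsMaximal → ϖ ∈ 𝔪 →
      ∃ t ∈ 𝔪, ∀ a ∈ 𝔪, ∃ s : B, s ∉ 𝔪 ∧ s * a ∈ Ideal.span {ϖ, t}

/-- **OUTPUT O1 (b2, regular form; concrete).**  As `B2Statement`, plus `hdom`: `w` is prime in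
`B` (the special fibre is a domain; QEP).  Conclusion = `H754.RegularAlong (C w)`, unfolded. -/
def B2RegularStatement : Prop :=
  ∀ (R : Type u) [CommRing R] [IsDomain R] [IsDiscreteValuationRing R] [CharZero R]
    (w : R) (_ : Irreducible w)
    (B : Type v) [CommRing B] [IsDomain B] [IsIntegrallyClosed B] [Algebra R[X] B]
    [Module.Finite R[X] B] [Module.IsTorsionFree R[X] B]
    (_ : Prime (algebraMap R[X] B (C w)))
    (_ : ∃ x : Fin (Module.finrank R[X] B) → B,
        ¬ C w ∣ (Matrix.of fun i j => Algebra.intTrace R[X] B (x i * x j)).det)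
    (S : Finset R) (_ : ∀ c ∈ S, ∀ c' ∈ S, c ≠ c' → IsUnit (c - c'))
    (_ : ∀ π : R[X], Prime π → ¬ Associated π (C w) → (∀ c ∈ S, ¬ Associated π (X - C c)) →
        (Ideal.span {algebraMap R[X] B π}).IsRadical)
    (𝔪 : Ideal B), 𝔪.IsMaximal → algebraMap R[X] B (C w) ∈ 𝔪 →
      ∃ t ∈ 𝔪, ∀ a ∈ 𝔪, ∃ s : B, s ∉ 𝔪 ∧
        s * a ∈ Ideal.span {algebraMap R[X] B (C w), t}

end Fermat.Agent.S18.B12

end
end
-- ===== PACK-END S18/B12/Spec3.lean

-- ===== PACK-BEGIN S18/B12/H93/RegSeqAbs.lean
section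




/-!
# S18 / B12 / A0: `RegSeqAbsStatement` (helper93), adapter over `H393.isIntegral_of_isIntegral_mul'`.
-/

set_option autoImplicit false

namespace Fermat.Agent.S18.B12.H93

attribute [local instance] FractionRing.liftAlgebra FractionRing.isScalarTower_liftAlgebra

universe u v

theorem regSeqAbs : RegSeqAbsStatement.{u, v} := by
  intro P _ _ _ B _ _ _ _ _ _ u w hw hwu b b' hbb'
  classical
  have hw0 : w ≠ 0 := hw.ne_zero
  have hinjPB : Function.Injective (algebraMap P B) := FaithfulSMul.algebraMap_injective P B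
  have hinjBF : Function.Injective (algebraMap B (FractionRing B)) :=
    IsFractionRing.injective B (FractionRing B)
  have hwB : algebraMap P B w ≠ 0 := fun h => hw0 (hinjPB (by rw [map_zero]; exact h))
  have hwF : algebraMap B (FractionRing B) (algebraMap P B w) ≠ 0 :=
    fun h => hwB (hinjBF (by rw [map_zero]; exact h))
  -- the element `f = b / w`
  set f : FractionRing B :=
    algebraMap B (FractionRing B) b * (algebraMap B (FractionRing B) (algebraMap P B w))⁻¹ with hf
  have hPF : ∀ x : P, algebraMap P (FractionRing B) x =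
      algebraMap B (FractionRing B) (algebraMap P B x) :=
    fun x => IsScalarTower.algebraMap_apply P B (FractionRing B) x
  have hwf : algebraMap P (FractionRing B) w * f = algebraMap B (FractionRing B) b := by
    rw [hPF, hf]
    field_simp
  have huf : algebraMap P (FractionRing B) u * f = algebraMap B (FractionRing B) b' := by
    rw [hPF, hf, ← mul_assoc, ← map_mul, hbb', map_mul]
    field_simp
  have hintB : ∀ x : B, IsIntegral P (algebraMap B (FractionRing B) x) :=
    fun x => (Algebra.IsIntegral.isIntegral x).algebraMap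
  have hfint : IsIntegral P f :=
    Fermat.Agent.S18.H393.isIntegral_of_isIntegral_mul' (FractionRing P) hw hwu
      (hwf ▸ hintB b) (huf ▸ hintB b')
  have hfintB : IsIntegral B f := hfint.tower_top
  obtain ⟨b'', hb''⟩ := IsIntegrallyClosed.isIntegral_iff.mp hfintB
  refine ⟨b'', ?_, ?_⟩
  · apply hinjBF
    rw [map_mul, hb'', ← hPF, hwf]
  · apply hinjBF
    rw [map_mul, hb'', ← hPF, huf]

end Fermat.Agent.S18.B12.H93

end
-- ===== PACK-END S18/B12/H93/RegSeqAbs.lean

-- ===== PACK-BEGIN S18/B12/H93/LocalBasis.lean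
section



/-!
# S18 / B12 / A2: `LocalBasisStatement` (helper93).

`𝔪 = (w, p)` maximal, `(p, w)` regular on the finite `P`-module `B`: a lift of a basis of `B/𝔪B`
is a basis of `B` locally at `𝔪` (Nakayama twice).
-/

set_option autoImplicit false

namespace Fermat.Agent.S18.B12.H93

open Pointwise

attribute [local instance] Ideal.Quotient.field

universe u v

theorem localBasis : LocalBasisStatement.{u, v} := by
  intro P _ _ _ B _ _ _ _ w p hmax hreg
  classical
  set 𝔪 : Ideal P := Ideal.span {w, p} with h𝔪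
  have hw𝔪 : w ∈ 𝔪 := Ideal.subset_span (by simp)
  have hp𝔪 : p ∈ 𝔪 := Ideal.subset_span (by simp)
  let N : Submodule P B := 𝔪 • ⊤
  have hfin : Module.Finite (P ⧸ 𝔪) (B ⧸ N) := Module.Finite.of_restrictScalars_finite P _ _
  let β := Module.finBasis (P ⧸ 𝔪) (B ⧸ N)
  have hlift : ∀ i, ∃ x : B, N.mkQ x = β i := fun i => Submodule.mkQ_surjective N _
  choose x hx using hlift
  refine ⟨Module.finrank (P ⧸ 𝔪) (B ⧸ N), x, ?_⟩
  have hmksmul : ∀ (a : P) (y : B ⧸ N), (Ideal.Quotient.mk 𝔪 a) • y = a • y := by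
    intro a y
    rw [← Ideal.Quotient.algebraMap_eq, algebraMap_smul]
  -- reduction of a combination
  have hred : ∀ a : Fin (Module.finrank (P ⧸ 𝔪) (B ⧸ N)) → P,
      N.mkQ (∑ i, a i • x i) = ∑ i, (Ideal.Quotient.mk 𝔪 (a i)) • β i := by
    intro a
    rw [map_sum]
    refine Finset.sum_congr rfl fun i _ => ?_
    rw [map_smul, hx, hmksmul]
  -- spanning modulo `𝔪`
  have hspan : (⊤ : Submodule P B) ≤ Submodule.span P (Set.range x) ⊔ 𝔪 • ⊤ := by
    intro b _
    have hl : ∀ i, ∃ a : P, Ideal.Quotient.mk 𝔪 a = β.repr (N.mkQ b) i :=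
      fun i => Ideal.Quotient.mk_surjective _
    choose a ha using hl
    have h1 : N.mkQ (b - ∑ i, a i • x i) = 0 := by
      rw [map_sub, hred, sub_eq_zero]
      conv_lhs => rw [← β.sum_repr (N.mkQ b)]
      exact Finset.sum_congr rfl fun i _ => by rw [ha]
    have h2 : b - ∑ i, a i • x i ∈ N := by
      rwa [Submodule.mkQ_apply, Submodule.Quotient.mk_eq_zero] at h1
    have h3 : ∑ i, a i • x i ∈ Submodule.span P (Set.range x) :=
      Submodule.sum_mem _ fun i _ => Submodule.smul_mem _ _ (Submodule.subset_span ⟨i, rfl⟩)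
    have : b = ∑ i, a i • x i + (b - ∑ i, a i • x i) := by ring
    rw [this]
    exact Submodule.add_mem_sup h3 h2
  obtain ⟨g, hg1, hgle⟩ := Submodule.exists_sub_one_mem_and_smul_le_of_fg_of_le_sup
    (N := Submodule.span P (Set.range x)) (N' := ⊤) (P := ⊤) (I := 𝔪)
    (Module.finite_def.mp inferInstance) le_rfl hspan
  have hg𝔪 : g ∉ 𝔪 := by
    intro hg
    have : (1 : P) ∈ 𝔪 := by
      have := 𝔪.sub_mem hg hg1
      simpa using this
    exact hmax.ne_top ((Ideal.eq_top_iff_one 𝔪).mpr this)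
  have hgB : ∀ b : B, g • b ∈ Submodule.span P (Set.range x) := fun b =>
    hgle (Submodule.smul_mem_pointwise_smul b g ⊤ Submodule.mem_top)
  refine ⟨?_, g, hg𝔪, hgB⟩
  -- linear independence
  let L : (Fin (Module.finrank (P ⧸ 𝔪) (B ⧸ N)) → P) →ₗ[P] B := Fintype.linearCombination P x
  have hLapp : ∀ a, L a = ∑ i, a i • x i := fun a => Fintype.linearCombination_apply P x a
  set I : Submodule P (Fin (Module.finrank (P ⧸ 𝔪) (B ⧸ N)) → P) := LinearMap.ker L with hI
  have hIfg : I.FG := IsNoetherian.noetherian I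
  -- `g • I ≤ 𝔪 • I`
  have hkey : ∀ a ∈ I, g • a ∈ 𝔪 • I := by
    intro a ha
    have ha0 : ∑ i, a i • x i = 0 := by rw [← hLapp]; exact ha
    -- coefficients lie in `𝔪`
    have hmem : ∀ i, a i ∈ 𝔪 := by
      intro i
      have h1 := hred a
      rw [ha0, map_zero] at h1
      have h2 := (Fintype.linearIndependent_iff.mp β.linearIndependent) _ h1.symm i
      exact Ideal.Quotient.eq_zero_iff_mem.mp h2
    have hdec : ∀ i, ∃ c d : P, c * w + d * p = a i := fun i => Ideal.mem_span_pair.mp (hmem i)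
    choose c d hcd using hdec
    have hrel : algebraMap P B p * (∑ i, d i • x i) = algebraMap P B w * (-∑ i, c i • x i) := by
      have : ∑ i, (c i * w + d i * p) • x i = 0 := by
        rw [← ha0]; exact Finset.sum_congr rfl fun i _ => by rw [hcd]
      rw [← Algebra.smul_def, ← Algebra.smul_def, smul_neg, Finset.smul_sum, Finset.smul_sum,
        eq_neg_iff_add_eq_zero, ← Finset.sum_add_distrib, ← this]
      refine Finset.sum_congr rfl fun i _ => ?_
      rw [smul_smul, smul_smul, ← add_smul]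
      congr 1; ring
    obtain ⟨b'', hb1, hb2⟩ := hreg _ _ hrel
    obtain ⟨e, he⟩ := (Submodule.mem_span_range_iff_exists_fun P).mp (hgB b'')
    -- two relations
    have hr1 : (fun i => g * d i - w * e i) ∈ I := by
      rw [hI, LinearMap.mem_ker, hLapp]
      have : ∑ i, (g * d i - w * e i) • x i = g • ∑ i, d i • x i - w • ∑ i, e i • x i := by
        rw [Finset.smul_sum, Finset.smul_sum, ← Finset.sum_sub_distrib]
        exact Finset.sum_congr rfl fun i _ => by rw [sub_smul, smul_smul, smul_smul]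
      rw [this, hb1, he, ← Algebra.smul_def, smul_comm, sub_self]
    have hr2 : (fun i => g * c i + p * e i) ∈ I := by
      rw [hI, LinearMap.mem_ker, hLapp]
      have : ∑ i, (g * c i + p * e i) • x i = g • ∑ i, c i • x i + p • ∑ i, e i • x i := by
        rw [Finset.smul_sum, Finset.smul_sum, ← Finset.sum_add_distrib]
        exact Finset.sum_congr rfl fun i _ => by rw [add_smul, smul_smul, smul_smul]
      have hc : ∑ i, c i • x i = -(algebraMap P B p * b'') := by rw [← hb2, neg_neg]
      rw [this, hc, he, ← Algebra.smul_def, smul_neg, smul_comm, neg_add_cancel]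
    have hsum : g • a = w • (fun i => g * c i + p * e i) + p • (fun i => g * d i - w * e i) := by
      funext i
      simp only [Pi.smul_apply, Pi.add_apply, smul_eq_mul]
      rw [← hcd i]; ring
    rw [hsum]
    exact Submodule.add_mem _ (Submodule.smul_mem_smul hw𝔪 hr2) (Submodule.smul_mem_smul hp𝔪 hr1)
  have hIle : I ≤ 𝔪 • I := by
    intro a ha
    have h1 : g • a ∈ 𝔪 • I := hkey a ha
    have h2 : (g - 1) • a ∈ 𝔪 • I := Submodule.smul_mem_smul hg1 ha
    have : a = g • a - (g - 1) • a := by rw [sub_smul, one_smul]; abel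
    rw [this]
    exact Submodule.sub_mem _ h1 h2
  obtain ⟨r, hr1, hr0⟩ := Submodule.exists_sub_one_mem_and_smul_eq_zero_of_fg_of_le_smul 𝔪 I
    hIfg hIle
  have hrne : r ≠ 0 := by
    rintro rfl
    have : (1 : P) ∈ 𝔪 := by
      have := 𝔪.neg_mem hr1
      simpa using this
    exact hmax.ne_top ((Ideal.eq_top_iff_one 𝔪).mpr this)
  rw [Fintype.linearIndependent_iff]
  intro a ha i
  have haI : a ∈ I := by rw [hI, LinearMap.mem_ker, hLapp]; exact ha
  have h0 := hr0 a haI
  have h1 := congrFun h0 i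
  rw [Pi.smul_apply, smul_eq_mul, Pi.zero_apply] at h1
  exact (mul_eq_zero.mp h1).resolve_left hrne

end Fermat.Agent.S18.B12.H93

end
-- ===== PACK-END S18/B12/H93/LocalBasis.lean

-- ===== PACK-BEGIN S18/B12/H93/LocalBasisRank.lean
section



/-!
# S18 / B12 / A2': `LocalBasisRankStatement` (helper93).
-/

set_option autoImplicit false

namespace Fermat.Agent.S18.B12.H93

universe u v

theorem localBasisRank : LocalBasisRankStatement.{u, v} := by
  intro P _ _ _ B _ _ _ _ _ _ 𝔪 _ n x hx
  obtain ⟨hli, g, hg, hgB⟩ := hx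
  classical
  have hg0 : g ≠ 0 := fun h => hg (h ▸ 𝔪.zero_mem)
  constructor
  · apply le_antisymm
    · have := hli.fintype_card_le_finrank
      simpa using this
    · have hfin : Module.Finite P (Submodule.span P (Set.range x)) :=
        Module.Finite.span_of_finite P (Set.finite_range x)
      let f : B →ₗ[P] Submodule.span P (Set.range x) :=
        (LinearMap.lsmul P B g).codRestrict _ hgB
      have hf : Function.Injective f := by
        intro a b hab
        have h1 : g • a = g • b := congrArg Subtype.val hab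
        exact smul_right_injective B hg0 h1
      have h1 := LinearMap.finrank_le_finrank_of_injective hf
      have h2 : Module.finrank P (Submodule.span P (Set.range x)) = n := by
        rw [finrank_span_eq_card hli, Fintype.card_fin]
      omega
  · intro x'
    have hU : ∀ i, ∃ c : Fin n → P, ∑ j, c j • x j = g • x' i :=
      fun i => (Submodule.mem_span_range_iff_exists_fun P).mp (hgB (x' i))
    choose U hUx using hU
    refine ⟨g ^ n, (Matrix.of U).det, fun h => hg (Ideal.IsPrime.mem_of_pow_mem inferInstance n h),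
      ?_⟩
    set G : Matrix (Fin n) (Fin n) P := Matrix.of fun i j => Algebra.intTrace P B (x i * x j)
      with hG
    set G' : Matrix (Fin n) (Fin n) P := Matrix.of fun i j => Algebra.intTrace P B (x' i * x' j)
      with hG'
    have hmat : (g ^ 2) • G' = Matrix.of U * G * (Matrix.of U).transpose := by
      ext i j
      rw [Matrix.smul_apply, hG', Matrix.of_apply, smul_eq_mul, Matrix.mul_apply]
      have h1 : g ^ 2 * Algebra.intTrace P B (x' i * x' j) =
          Algebra.intTrace P B ((g • x' i) * (g • x' j)) := by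
        rw [smul_mul_smul_comm, ← sq, map_smul, smul_eq_mul]
      rw [h1, ← hUx i, ← hUx j, Finset.sum_mul_sum, map_sum]
      simp_rw [Matrix.mul_apply, Finset.sum_mul]
      rw [Finset.sum_comm]
      refine Finset.sum_congr rfl fun k _ => ?_
      rw [map_sum]
      refine Finset.sum_congr rfl fun l _ => ?_
      rw [smul_mul_smul_comm, map_smul, smul_eq_mul, Matrix.transpose_apply, Matrix.of_apply,
        Matrix.of_apply, hG, Matrix.of_apply]
      ring
    have hdet := congrArg Matrix.det hmat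
    rw [Matrix.det_smul, Matrix.det_mul, Matrix.det_mul, Matrix.det_transpose, Fintype.card_fin]
      at hdet
    show (g ^ n) ^ 2 * G'.det = (Matrix.of U).det ^ 2 * G.det
    rw [← pow_mul, mul_comm n 2, pow_mul, hdet]
    ring

end Fermat.Agent.S18.B12.H93

end
-- ===== PACK-END S18/B12/H93/LocalBasisRank.lean

-- ===== PACK-BEGIN S18/B12/H203/UFDStep.lean
section



/-!
# S18 / b2.5, piece A4: the UFD step (`UFDStepStatement`)

If every prime factor of `D ≠ 0` lying in the prime ideal `𝔪` is associated to the prime `p`,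
then `D = p ^ a * D₁` with `D₁ ∉ 𝔪`.
-/

set_option autoImplicit false

namespace Fermat.Agent.S18.B12.H203

universe u v

/-- In a UFD, a nonzero element of a prime ideal has a prime factor in that ideal. -/
theorem exists_prime_dvd_mem_of_mem {P : Type u} [CommRing P] [IsDomain P]
    [UniqueFactorizationMonoid P] (𝔪 : Ideal P) [h𝔪 : 𝔪.IsPrime] (d : P) (hd0 : d ≠ 0)
    (hd : d ∈ 𝔪) : ∃ π : P, Prime π ∧ π ∣ d ∧ π ∈ 𝔪 := by
  revert hd0 hd
  refine UniqueFactorizationMonoid.induction_on_prime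
    (P := fun d : P => d ≠ 0 → d ∈ 𝔪 → ∃ π : P, Prime π ∧ π ∣ d ∧ π ∈ 𝔪) d ?_ ?_ ?_
  · intro h0 _
    exact absurd rfl h0
  · intro x hx _ hxm
    exact absurd (Ideal.eq_top_of_isUnit_mem 𝔪 hxm hx) h𝔪.ne_top
  · intro a q ha0 hq ih _ hmem
    rcases h𝔪.mem_or_mem hmem with hqm | ham
    · exact ⟨q, hq, dvd_mul_right q a, hqm⟩
    · obtain ⟨π, hπ, hπa, hπm⟩ := ih ha0 ham
      exact ⟨π, hπ, hπa.mul_left q, hπm⟩

/-- **A4 (UFD step).** -/
theorem ufdStep.{w} : UFDStepStatement.{w} := by
  intro P _ _ _ 𝔪 h𝔪 p hp D hD hass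
  obtain ⟨a, D₁, hpD₁, hDeq⟩ := WfDvdMonoid.max_power_factor hD hp.irreducible
  refine ⟨a, D₁, hDeq, ?_⟩
  intro hmem
  have hD₁0 : D₁ ≠ 0 := by
    rintro rfl
    exact hD (by rw [hDeq, mul_zero])
  obtain ⟨π, hπ, hπD₁, hπm⟩ := exists_prime_dvd_mem_of_mem 𝔪 D₁ hD₁0 hmem
  have hπD : π ∣ D := by
    rw [hDeq]
    exact hπD₁.mul_left _
  have hassoc : Associated π p := hass π hπ hπD hπm
  exact hpD₁ (hassoc.symm.dvd.trans hπD₁)

end Fermat.Agent.S18.B12.H203

end
-- ===== PACK-END S18/B12/H203/UFDStep.lean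

-- ===== PACK-BEGIN S18/B12/H203/PolyInst.lean
section



/-!
# S18 / b2.5, piece A1: instantiation `P = R[X]` (`PolyInstStatement`)

`R` a discrete valuation ring of characteristic zero, `w` a uniformizer.
-/

set_option autoImplicit false
set_option linter.unusedSectionVars false

noncomputable section

namespace Fermat.Agent.S18.B12.H203

open Polynomial

universe u

section

variable {R : Type u} [CommRing R] [IsDomain R] [IsDiscreteValuationRing R]

/-- The ideal generated by a uniformizer of a DVR is maximal. -/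
theorem span_irreducible_isMaximal {w : R} (hw : Irreducible w) :
    (Ideal.span {w}).IsMaximal := by
  rw [← (IsDiscreteValuationRing.irreducible_iff_uniformizer w).mp hw]
  infer_instance

/-- Every nonzero element of a DVR becomes a unit after inverting a uniformizer. -/
theorem isUnit_algebraMap_away_of_ne_zero {w : R} (hw : Irreducible w) {r : R} (hr : r ≠ 0)
    (S : Type*) [CommRing S] [Algebra R S] [IsLocalization.Away w S] :
    IsUnit (algebraMap R S r) := by
  obtain ⟨n, hn⟩ := IsDiscreteValuationRing.associated_pow_irreducible hr hw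
  rw [IsLocalization.Away.algebraMap_isUnit_iff w]
  exact ⟨n, hn.dvd⟩

/-- The localization of a DVR away from a uniformizer is a field. -/
theorem isField_localization_away {w : R} (hw : Irreducible w) :
    IsField (Localization.Away w) := by
  have hle : Submonoid.powers w ≤ nonZeroDivisors R :=
    Submonoid.powers_le.mpr (mem_nonZeroDivisors_of_ne_zero hw.ne_zero)
  have hdom : IsDomain (Localization.Away w) :=
    IsLocalization.isDomain_localization hle
  refine ⟨exists_pair_ne _, mul_comm, ?_⟩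
  intro a ha
  obtain ⟨⟨r, s⟩, hrs⟩ := IsLocalization.surj (Submonoid.powers w) a
  simp only at hrs
  have hr : r ≠ 0 := by
    rintro rfl
    rw [map_zero] at hrs
    have hs : IsUnit (algebraMap R (Localization.Away w) s) :=
      IsLocalization.map_units _ s
    exact ha ((hs.mul_left_eq_zero).mp hrs)
  have hru : IsUnit (algebraMap R (Localization.Away w) r) :=
    isUnit_algebraMap_away_of_ne_zero hw hr _
  have hau : IsUnit a := by
    have : IsUnit (a * algebraMap R (Localization.Away w) s) := hrs ▸ hru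
    exact isUnit_of_mul_isUnit_left this
  obtain ⟨b, hb⟩ := hau.exists_right_inv
  exact ⟨b, hb⟩

/-- `R[X][1/C w]` is a principal ideal ring. -/
theorem isPrincipalIdealRing_away_C {w : R} (hw : Irreducible w) :
    IsPrincipalIdealRing (Localization.Away (C w : R[X])) := by
  let _ : Field (Localization.Away w) := (isField_localization_away hw).toField
  let _ : Algebra R[X] (Localization.Away w)[X] :=
    (mapRingHom (algebraMap R (Localization.Away w))).toAlgebra
  have hloc : IsLocalization (Submonoid.powers (C w : R[X])) (Localization.Away w)[X] := by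
    have := Polynomial.isLocalization (Submonoid.powers w) (Localization.Away w)
    rwa [Submonoid.map_powers] at this
  let e : (Localization.Away w)[X] ≃ₐ[R[X]] Localization.Away (C w : R[X]) :=
    IsLocalization.algEquiv (Submonoid.powers (C w : R[X])) _ _
  exact IsPrincipalIdealRing.of_surjective e.toRingEquiv.toRingHom e.surjective

/-- Positive integers are invertible in `R[X][1/C w]` when `R` has characteristic zero. -/
theorem isUnit_natCast_away_C [CharZero R] {w : R} (hw : Irreducible w) (m : ℕ) (hm : m ≠ 0) :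
    IsUnit (algebraMap R[X] (Localization.Away (C w : R[X])) (m : R[X])) := by
  have hm' : (m : R) ≠ 0 := Nat.cast_ne_zero.mpr hm
  obtain ⟨n, hn⟩ := IsDiscreteValuationRing.associated_pow_irreducible hm' hw
  rw [IsLocalization.Away.algebraMap_isUnit_iff (C w : R[X])]
  refine ⟨n, ?_⟩
  obtain ⟨d, hd⟩ := hn.dvd
  refine ⟨C d, ?_⟩
  rw [← C_pow, hd, C_mul, C_eq_natCast]

/-- The evaluation-at-`c`-mod-`w` map `R[X] → R/(w)`. -/
def evalModHom (w c : R) : R[X] →+* R ⧸ Ideal.span {w} :=
  (Ideal.Quotient.mk (Ideal.span {w})).comp (evalRingHom c)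

theorem evalModHom_apply (w c : R) (f : R[X]) :
    evalModHom w c f = Ideal.Quotient.mk (Ideal.span {w}) (f.eval c) := rfl

theorem evalModHom_surjective (w c : R) : Function.Surjective (evalModHom w c) := by
  intro y
  obtain ⟨r, rfl⟩ := Ideal.Quotient.mk_surjective y
  exact ⟨C r, by simp [evalModHom_apply]⟩

theorem ker_evalModHom (w c : R) :
    RingHom.ker (evalModHom w c) = Ideal.span {(C w : R[X]), X - C c} := by
  apply le_antisymm
  · intro f hf
    rw [RingHom.mem_ker, evalModHom_apply, Ideal.Quotient.eq_zero_iff_mem,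
      Ideal.mem_span_singleton] at hf
    obtain ⟨r, hr⟩ := hf
    obtain ⟨q, hq⟩ := (X_sub_C_dvd_sub_C_eval (a := c) (p := f))
    have hfe : f = C w * C r + (X - C c) * q := by
      rw [← hq, ← C_mul, ← hr]
      ring
    rw [hfe]
    refine Ideal.add_mem _ (Ideal.mul_mem_right _ _ (Ideal.subset_span (by simp)))
      (Ideal.mul_mem_right _ _ (Ideal.subset_span (by simp)))
  · rw [Ideal.span_le]
    intro f hf
    rcases hf with rfl | hf
    · simp [evalModHom_apply]
    · rw [Set.mem_singleton_iff] at hf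
      subst hf
      simp [evalModHom_apply]

end

/-- **A1 (instantiation `P = R[X]`).** -/
theorem polyInst.{w} : PolyInstStatement.{w} := by
  intro R _ _ _ _ w hw
  have hmax : (Ideal.span {w}).IsMaximal := span_irreducible_isMaximal hw
  have hwp : Prime w := hw.prime
  refine ⟨Polynomial.prime_C_iff.mpr hwp, ?_, isPrincipalIdealRing_away_C hw,
    isUnit_natCast_away_C hw, ?_⟩
  · -- `R[X]/(C w) ≃ (R/w)[X]`
    let _ : Field (R ⧸ Ideal.span {w}) := Ideal.Quotient.field _
    let e : (R ⧸ Ideal.span {w})[X] ≃+* R[X] ⧸ (Ideal.span {w}).map (C : R →+* R[X]) :=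
      Ideal.polynomialQuotientEquivQuotientPolynomial (Ideal.span {w})
    have hmap : (Ideal.span {w}).map (C : R →+* R[X]) = Ideal.span {(C w : R[X])} := by
      rw [Ideal.map_span, Set.image_singleton]
    let e' : R[X] ⧸ (Ideal.span {w}).map (C : R →+* R[X]) ≃+* R[X] ⧸ Ideal.span {(C w : R[X])} :=
      Ideal.quotEquivOfEq hmap
    exact IsPrincipalIdealRing.of_surjective (e.trans e').toRingHom (e.trans e').surjective
  · intro c
    refine ⟨Polynomial.prime_X_sub_C c, ?_, ?_, ?_, ?_⟩
    · intro hass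
      have hdvd : (X - C c : R[X]) ∣ C w := hass.dvd
      rw [Polynomial.dvd_iff_isRoot, IsRoot.def, eval_C] at hdvd
      exact hw.ne_zero hdvd
    · letI : Field (R ⧸ Ideal.span {w}) := Ideal.Quotient.field _
      rw [← ker_evalModHom]
      exact RingHom.ker_isMaximal_of_surjective _ (evalModHom_surjective w c)
    · let e : (R[X] ⧸ Ideal.span {(X - C c : R[X])}) ≃ₐ[R] R :=
        Polynomial.quotientSpanXSubCAlgEquiv c
      exact IsPrincipalIdealRing.of_surjective e.symm.toRingEquiv.toRingHom e.symm.surjective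
    · intro c' hmem hunit
      rw [← ker_evalModHom, RingHom.mem_ker, evalModHom_apply, eval_sub, eval_X, eval_C,
        Ideal.Quotient.eq_zero_iff_mem] at hmem
      exact hmax.ne_top (Ideal.eq_top_of_isUnit_mem _ hmem hunit)

end Fermat.Agent.S18.B12.H203

end
end
-- ===== PACK-END S18/B12/H203/PolyInst.lean

-- ===== PACK-BEGIN S18/H264/SepGraph.lean
section


/-!
# S18 / G-SEP (helper264): the field `separable` of `Alg.GoodModel` from a reduction *relation*

Mathlib-only, abstract.  Instead of a reduction homomorphism on the valuation ring `V` we use a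
subring `T ≤ Ω × L` ("`(g, ḡ) ∈ T` iff `ḡ` is a reduction of `g`"); no well-definedness is
needed.  `L` is a field of characteristic `ℓ` with a `ℤ`-valued valuation (`L = k((q))`).

* `evalZZ x y` : evaluation `ℤ[X][Y] → B`, `X ↦ x`, `Y ↦ y`;
* `evalZZ_mem_graph` : `(P(x, f), P(x̄, f̄)) ∈ T`;
* `exists_poly_of_graph` : from `P ∈ ℤ[X][Y]` with `P(x̄, f̄) = 0`, `(∂P/∂Y)(x̄, f̄) ≠ 0`
  to the conclusion of the field `separable` (with coefficients even in `ℤ[x]`);
* `exists_poly_of_graph_sep` : the same from `f̄` algebraic over `𝔽_ℓ(x̄)` and `ℓ ∤ v(x̄)`.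
-/

set_option autoImplicit false

namespace Fermat.Agent.S18.H264

open Polynomial

section EvalZZ

/-- Evaluation of an integral bivariate polynomial: `X ↦ x` (inner variable), `Y ↦ y`. -/
noncomputable def evalZZ {B : Type*} [CommRing B] (x y : B) : Polynomial (Polynomial ℤ) →+* B :=
  Polynomial.eval₂RingHom (Polynomial.eval₂RingHom (Int.castRingHom B) x) y

theorem evalZZ_apply {B : Type*} [CommRing B] (x y : B) (P : Polynomial (Polynomial ℤ)) :
    evalZZ x y P = P.eval₂ (Polynomial.eval₂RingHom (Int.castRingHom B) x) y := rfl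

theorem map_evalZZ {B C : Type*} [CommRing B] [CommRing C] (φ : B →+* C) (x y : B)
    (P : Polynomial (Polynomial ℤ)) : φ (evalZZ x y P) = evalZZ (φ x) (φ y) P := by
  have h : φ.comp (Polynomial.eval₂RingHom (Int.castRingHom B) x) =
      Polynomial.eval₂RingHom (Int.castRingHom C) (φ x) := by
    refine Polynomial.ringHom_ext (fun n => ?_) ?_
    · simp
    · simp
  rw [evalZZ_apply, evalZZ_apply, Polynomial.hom_eval₂, h]

end EvalZZ

section Graph

variable {Ω L : Type*} [Field Ω] [Field L]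

/-- Polynomial expressions respect the reduction relation. -/
theorem evalZZ_mem_graph (T : Subring (Ω × L)) {x f : Ω} {xb fb : L} (hx : (x, xb) ∈ T)
    (hf : (f, fb) ∈ T) (P : Polynomial (Polynomial ℤ)) :
    (evalZZ x f P, evalZZ xb fb P) ∈ T := by
  have h1 := map_evalZZ ((RingHom.fst Ω L).comp T.subtype) ⟨(x, xb), hx⟩ ⟨(f, fb), hf⟩ P
  have h2 := map_evalZZ ((RingHom.snd Ω L).comp T.subtype) ⟨(x, xb), hx⟩ ⟨(f, fb), hf⟩ P
  have h3 : ((evalZZ (⟨(x, xb), hx⟩ : T) ⟨(f, fb), hf⟩ P : T) : Ω × L) =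
      (evalZZ x f P, evalZZ xb fb P) := Prod.ext h1 h2
  rw [← h3]
  exact Subtype.property _

/-- The value at `x` of an integral polynomial lies in every subring containing `x`. -/
theorem eval₂_intCast_mem (S : Subring Ω) {x : Ω} (hx : x ∈ S) (g : Polynomial ℤ) :
    Polynomial.eval₂ (Int.castRingHom Ω) x g ∈ S := by
  rw [eval₂_eq_sum_range]
  refine sum_mem fun i _ => ?_
  exact mul_mem (by simp) (pow_mem hx _)

/-- **The field `separable` from a reduction relation and an integral polynomial.** -/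
theorem exists_poly_of_graph (T : Subring (Ω × L)) (V R : Subring Ω) (w x f : Ω) (xb fb : L)
    (hx : (x, xb) ∈ T) (hf : (f, fb) ∈ T)
    (hker : ∀ g : Ω, (g, (0 : L)) ∈ T → g * w⁻¹ ∈ V)
    (hunit : ∀ (g : Ω) (b : L), (g, b) ∈ T → b ≠ 0 → g ≠ 0 ∧ g⁻¹ ∈ V)
    (P : Polynomial (Polynomial ℤ)) (h0 : evalZZ xb fb P = 0)
    (h1 : evalZZ xb fb (derivative P) ≠ 0) :
    ∃ PΩ : Polynomial Ω, (∀ i, PΩ.coeff i ∈ Subring.closure ((R : Set Ω) ∪ {x})) ∧
      PΩ.eval f * w⁻¹ ∈ V ∧ (derivative PΩ).eval f ≠ 0 ∧ ((derivative PΩ).eval f)⁻¹ ∈ V := by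
  refine ⟨P.map (Polynomial.eval₂RingHom (Int.castRingHom Ω) x), ?_, ?_, ?_⟩
  · intro i
    rw [coeff_map, coe_eval₂RingHom]
    exact eval₂_intCast_mem _
      (Subring.subset_closure (Set.mem_union_right _ (Set.mem_singleton x))) _
  · rw [eval_map, ← evalZZ_apply]
    apply hker
    have h := evalZZ_mem_graph T hx hf P
    rwa [h0] at h
  · rw [derivative_map, eval_map, ← evalZZ_apply]
    exact hunit _ _ (evalZZ_mem_graph T hx hf (derivative P)) h1

end Graph

section Sep

variable {Ω L : Type*} [Field Ω] [Field L] (ℓ : ℕ) [hℓ : Fact ℓ.Prime] [Algebra (ZMod ℓ) L]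

/-- Lifting a bivariate polynomial over `𝔽_ℓ` to `ℤ`. -/
theorem exists_int_lift (xb fb : L) (Pbar : Polynomial (Polynomial (ZMod ℓ))) :
    ∃ P : Polynomial (Polynomial ℤ),
      evalZZ xb fb P =
        Pbar.eval₂ (aeval xb : Polynomial (ZMod ℓ) →ₐ[ZMod ℓ] L).toRingHom fb ∧
      evalZZ xb fb (derivative P) =
        (derivative Pbar).eval₂ (aeval xb : Polynomial (ZMod ℓ) →ₐ[ZMod ℓ] L).toRingHom fb := by
  obtain ⟨P, hP⟩ := Polynomial.map_surjective
    (Polynomial.mapRingHom (Int.castRingHom (ZMod ℓ)))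
    (Polynomial.map_surjective _ (ZMod.intCast_surjective)) Pbar
  have hcomp : ((aeval xb : Polynomial (ZMod ℓ) →ₐ[ZMod ℓ] L).toRingHom).comp
      (Polynomial.mapRingHom (Int.castRingHom (ZMod ℓ))) =
      Polynomial.eval₂RingHom (Int.castRingHom L) xb := by
    refine Polynomial.ringHom_ext (fun n => ?_) ?_
    · simp
    · simp
  refine ⟨P, ?_, ?_⟩
  · rw [← hP, Polynomial.eval₂_map, hcomp, evalZZ_apply]
  · rw [← hP, derivative_map, Polynomial.eval₂_map, hcomp, evalZZ_apply]

/-- **The field `separable` from a reduction relation**, for `L` of characteristic `ℓ` with a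
`ℤ`-valued valuation `v`, `ℓ ∤ v x̄`, `f̄` algebraic over `𝔽_ℓ(x̄)`. -/
theorem exists_poly_of_graph_sep (v : AddValuation L (WithTop ℤ))
    (T : Subring (Ω × L)) (V R : Subring Ω) (w x f : Ω) (xb fb : L)
    (hx : (x, xb) ∈ T) (hf : (f, fb) ∈ T)
    (hker : ∀ g : Ω, (g, (0 : L)) ∈ T → g * w⁻¹ ∈ V)
    (hunit : ∀ (g : Ω) (b : L), (g, b) ∈ T → b ≠ 0 → g ≠ 0 ∧ g⁻¹ ∈ V)
    (n : ℤ) (hv : v xb = (n : WithTop ℤ)) (hn : ¬ (ℓ : ℤ) ∣ n)
    (halg : IsAlgebraic (IntermediateField.adjoin (ZMod ℓ) {xb}) fb) :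
    ∃ PΩ : Polynomial Ω, (∀ i, PΩ.coeff i ∈ Subring.closure ((R : Set Ω) ∪ {x})) ∧
      PΩ.eval f * w⁻¹ ∈ V ∧ (derivative PΩ).eval f ≠ 0 ∧ ((derivative PΩ).eval f)⁻¹ ∈ V := by
  have hsep := isSeparable_of_isAlgebraic_of_addVal (κ := ZMod ℓ) ℓ v xb n hv hn fb halg
  obtain ⟨Pbar, hb0, hb1⟩ := exists_bivariate_simple_root xb fb hsep
  obtain ⟨P, hP0, hP1⟩ := exists_int_lift ℓ xb fb Pbar
  exact exists_poly_of_graph T V R w x f xb fb hx hf hker hunit P (by rw [hP0, hb0])
    (by rw [hP1]; exact hb1)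

end Sep

end Fermat.Agent.S18.H264

end
-- ===== PACK-END S18/H264/SepGraph.lean

-- ===== PACK-BEGIN S20/Comb/Fixed.lean
section


/-!
# Fixed points of `S` and `S * T` on `SL(2,ℤ) ⧸ Gamma0 N`

* `card_fixedBy_S : Nat.card (MulAction.fixedBy (SL(2,ℤ) ⧸ Gamma0 N) S) = nuTwo N`
* `card_fixedBy_ST : Nat.card (MulAction.fixedBy (SL(2,ℤ) ⧸ Gamma0 N) (S * T)) = nuThree N`
-/

set_option autoImplicit false

namespace Fermat.Agent.S20.Comb

open Matrix MatrixGroups CongruenceSubgroup

variable (N : ℕ)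

/-- From a root of `x² + 1` in `ZMod N` to a fixed point of `S`. -/
noncomputable def rootToFixedS (x : {x : ZMod N // x ^ 2 + 1 = 0}) :
    MulAction.fixedBy (SL(2, ℤ) ⧸ Gamma0 N) ModularGroup.S :=
  ⟨QuotientGroup.mk (colRep (ZMod.cast x.1 : ℤ)), by
    rw [MulAction.mem_fixedBy, S_smul_mk_eq_mk_iff]
    simp only [colRep_apply_zero_zero, colRep_apply_one_zero, ZMod.intCast_zmod_cast,
      Int.cast_one, one_pow]
    exact x.2⟩

lemma rootToFixedS_bijective : Function.Bijective (rootToFixedS N) := by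
  constructor
  · rintro ⟨x, hx⟩ ⟨y, hy⟩ h
    have h' := congrArg Subtype.val h
    simp only [rootToFixedS] at h'
    rw [mk_eq_mk_iff] at h'
    simp only [colRep_apply_zero_zero, colRep_apply_one_zero, ZMod.intCast_zmod_cast,
      Int.cast_one, _root_.mul_one, _root_.one_mul] at h'
    exact Subtype.ext (sub_eq_zero.mp h')
  · rintro ⟨q, hq⟩
    obtain ⟨g, rfl⟩ := QuotientGroup.mk_surjective q
    rw [MulAction.mem_fixedBy, S_smul_mk_eq_mk_iff] at hq
    have hinv := c_mul_inv_eq_one N g (-((g 1 0 : ℤ) : ZMod N)) (by linear_combination hq)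
    set a : ZMod N := ((g 0 0 : ℤ) : ZMod N) with ha
    set c : ZMod N := ((g 1 0 : ℤ) : ZMod N) with hc
    set i : ZMod N := (-c * ((g 1 1 : ℤ) : ZMod N) ^ 2
        - 2 * a * ((g 0 1 : ℤ) : ZMod N) * ((g 1 1 : ℤ) : ZMod N)
        + ((g 0 1 : ℤ) : ZMod N) ^ 2 * c) with hi
    refine ⟨⟨a * i, ?_⟩, ?_⟩
    · linear_combination (i ^ 2) * hq - (c * i + 1) * hinv
    · apply Subtype.ext
      simp only [rootToFixedS]
      rw [mk_eq_mk_iff]
      simp only [colRep_apply_zero_zero, colRep_apply_one_zero, ZMod.intCast_zmod_cast,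
        Int.cast_one, _root_.one_mul]
      linear_combination a * hinv

/-- **(I2)** The number of fixed points of `S` on `SL(2,ℤ) ⧸ Γ₀(N)` is `ν₂(N)`. -/
theorem card_fixedBy_S :
    Nat.card (MulAction.fixedBy (SL(2, ℤ) ⧸ Gamma0 N) ModularGroup.S) = ModularCurve.nuTwo N := by
  rw [ModularCurve.nuTwo]
  exact (Nat.card_eq_of_bijective _ (rootToFixedS_bijective N)).symm

/-- From a root of `x² + x + 1` in `ZMod N` to a fixed point of `S * T`. -/
noncomputable def rootToFixedST (x : {x : ZMod N // x ^ 2 + x + 1 = 0}) :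
    MulAction.fixedBy (SL(2, ℤ) ⧸ Gamma0 N) (ModularGroup.S * ModularGroup.T) :=
  ⟨QuotientGroup.mk (colRep (ZMod.cast x.1 : ℤ)), by
    rw [MulAction.mem_fixedBy, ST_smul_mk_eq_mk_iff]
    simp only [colRep_apply_zero_zero, colRep_apply_one_zero, ZMod.intCast_zmod_cast,
      Int.cast_one, one_pow, _root_.mul_one]
    exact x.2⟩

lemma rootToFixedST_bijective : Function.Bijective (rootToFixedST N) := by
  constructor
  · rintro ⟨x, hx⟩ ⟨y, hy⟩ h
    have h' := congrArg Subtype.val h
    simp only [rootToFixedST] at h'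
    rw [mk_eq_mk_iff] at h'
    simp only [colRep_apply_zero_zero, colRep_apply_one_zero, ZMod.intCast_zmod_cast,
      Int.cast_one, _root_.mul_one, _root_.one_mul] at h'
    exact Subtype.ext (sub_eq_zero.mp h')
  · rintro ⟨q, hq⟩
    obtain ⟨g, rfl⟩ := QuotientGroup.mk_surjective q
    rw [MulAction.mem_fixedBy, ST_smul_mk_eq_mk_iff] at hq
    have hinv := c_mul_inv_eq_one N g (-((g 0 0 : ℤ) : ZMod N) - ((g 1 0 : ℤ) : ZMod N))
      (by linear_combination hq)
    set a : ZMod N := ((g 0 0 : ℤ) : ZMod N) with ha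
    set c : ZMod N := ((g 1 0 : ℤ) : ZMod N) with hc
    set i : ZMod N := ((-a - c) * ((g 1 1 : ℤ) : ZMod N) ^ 2
        - 2 * a * ((g 0 1 : ℤ) : ZMod N) * ((g 1 1 : ℤ) : ZMod N)
        + ((g 0 1 : ℤ) : ZMod N) ^ 2 * c) with hi
    refine ⟨⟨a * i, ?_⟩, ?_⟩
    · linear_combination (i ^ 2) * hq - (c * i + 1 + a * i) * hinv
    · apply Subtype.ext
      simp only [rootToFixedST]
      rw [mk_eq_mk_iff]
      simp only [colRep_apply_zero_zero, colRep_apply_one_zero, ZMod.intCast_zmod_cast,
        Int.cast_one, _root_.one_mul]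
      linear_combination a * hinv

/-- **(I3)** The number of fixed points of `S * T` on `SL(2,ℤ) ⧸ Γ₀(N)` is `ν₃(N)`. -/
theorem card_fixedBy_ST :
    Nat.card (MulAction.fixedBy (SL(2, ℤ) ⧸ Gamma0 N) (ModularGroup.S * ModularGroup.T))
      = ModularCurve.nuThree N := by
  rw [ModularCurve.nuThree]
  exact (Nat.card_eq_of_bijective _ (rootToFixedST_bijective N)).symm

end Fermat.Agent.S20.Comb

end
-- ===== PACK-END S20/Comb/Fixed.lean

-- ===== PACK-BEGIN S18/H107/Branch.lean
section



/-!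
# helper107 — S18 / M3-T : branch data in valuation-subring form (Mathlib-only)

`Unram107 O z` : `z` generates the maximal ideal of `O` as far as divisibility is concerned
(`∀ s ∈ 𝔪_O, s / z ∈ O`) — the conclusion of `GoodModel.unramified`.
`OrdLe107 O y k` : `ord_O y ≤ k` (`∀ s ∈ 𝔪_O, s ^ k / y ∈ O`).

`unram_of_factor107` : `y = z ^ k * U`, `U` a unit of `O`, `z ∈ 𝔪_O`, `ord_O y ≤ k` ⟹ `ord_O z ≤ 1`.
-/

set_option autoImplicit false

namespace Fermat.Agent.S18.H107

variable {Ω : Type*} [Field Ω]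

/-- `ord_O y ≤ k`, in valuation-subring language. -/
def OrdLe107 (O : ValuationSubring Ω) (y : Ω) (k : ℕ) : Prop :=
  ∀ s ∈ O, s⁻¹ ∉ O → s ^ k * y⁻¹ ∈ O

theorem val_lt_one107 (O : ValuationSubring Ω) {s : Ω} (hs : s ∈ O) (hs' : s⁻¹ ∉ O) :
    O.valuation s < 1 := by
  have h1 : O.valuation s ≤ 1 := (O.valuation_le_one_iff s).2 hs
  refine lt_of_le_of_ne h1 fun h => hs' ?_
  refine (O.valuation_le_one_iff _).1 ?_
  rw [map_inv₀, h, inv_one]

theorem mem_of_val_lt_one107 (O : ValuationSubring Ω) {s : Ω} (h : O.valuation s < 1) : s ∈ O :=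
  (O.valuation_le_one_iff s).1 h.le

theorem inv_not_mem_of_val_lt_one107 (O : ValuationSubring Ω) {s : Ω} (hs0 : s ≠ 0)
    (h : O.valuation s < 1) : s⁻¹ ∉ O := by
  intro hmem
  have h1 : O.valuation s⁻¹ ≤ 1 := (O.valuation_le_one_iff _).2 hmem
  rw [map_inv₀] at h1
  have hpos : 0 < O.valuation s := by
    rw [Valuation.pos_iff]
    exact hs0
  have h2 : (1 : O.ValueGroup) ≤ O.valuation s := by
    have := (inv_le_one₀ hpos).1 h1
    exact this
  exact absurd h (not_lt.2 h2)

theorem val_eq_one_of_mem107 (O : ValuationSubring Ω) {c : Ω} (hc : c ∈ O) (hc' : c⁻¹ ∈ O)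
    (hc0 : c ≠ 0) : O.valuation c = 1 := by
  have h1 : O.valuation c ≤ 1 := (O.valuation_le_one_iff c).2 hc
  have h2 : O.valuation c⁻¹ ≤ 1 := (O.valuation_le_one_iff _).2 hc'
  rw [map_inv₀] at h2
  have hpos : 0 < O.valuation c := by
    rw [Valuation.pos_iff]
    exact hc0
  exact le_antisymm h1 ((inv_le_one₀ hpos).1 h2)

theorem val_const107 (O : ValuationSubring Ω) (Lc : Subfield Ω) (hL : ∀ a ∈ Lc, a ∈ O) {c : Ω}
    (hc : c ∈ Lc) (hc0 : c ≠ 0) : O.valuation c = 1 :=
  val_eq_one_of_mem107 O (hL c hc) (hL _ (Lc.inv_mem hc)) hc0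

theorem val_add_eq_one107 (O : ValuationSubring Ω) {u m : Ω} (hu : O.valuation u = 1)
    (hm : O.valuation m < 1) : O.valuation (u + m) = 1 := by
  rw [← hu]
  exact Valuation.map_add_eq_of_lt_left _ (by rw [hu]; exact hm)

/-- `ord_O y ≤ k` in terms of the valuation. -/
theorem OrdLe107.val_le {O : ValuationSubring Ω} {y : Ω} {k : ℕ} (h : OrdLe107 O y k)
    (hy : y ≠ 0) {s : Ω} (hs : O.valuation s < 1) : O.valuation s ^ k ≤ O.valuation y := by
  rcases eq_or_ne s 0 with rfl | hs0
  · rcases Nat.eq_zero_or_pos k with rfl | hk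
    · -- `k = 0`: need `1 ≤ v y`
      simp only [pow_zero]
      by_contra hlt
      rw [not_le] at hlt
      -- then `y ∈ 𝔪_O`, and `OrdLe` with `s = y` gives `1 * y⁻¹ ∈ O`, contradiction
      have hyO : y ∈ O := mem_of_val_lt_one107 O hlt
      have hy' : y⁻¹ ∉ O := inv_not_mem_of_val_lt_one107 O hy hlt
      have := h y hyO hy'
      rw [pow_zero, one_mul] at this
      exact hy' this
    · rw [map_zero, zero_pow hk.ne']
      exact zero_le
  · have hsO : s ∈ O := mem_of_val_lt_one107 O hs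
    have hs' : s⁻¹ ∉ O := inv_not_mem_of_val_lt_one107 O hs0 hs
    have h1 := (O.valuation_le_one_iff _).2 (h s hsO hs')
    rw [map_mul, map_pow, map_inv₀] at h1
    have hpos : 0 < O.valuation y := by
      rw [Valuation.pos_iff]
      exact hy
    have := (mul_inv_le_iff₀ hpos).1 h1
    rwa [one_mul] at this

/-- **Key lemma**: `y = z ^ k * U` with `U` a unit at `O`, `z ∈ 𝔪_O`, `ord_O y ≤ k`, `k ≥ 1`
⟹ `z` is a uniformiser of `O`. -/
theorem unram_of_factor107 (O : ValuationSubring Ω) {y z U : Ω} {k : ℕ} (hk : k ≠ 0)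
    (hy : y = z ^ k * U) (hU : O.valuation U = 1) (hz0 : z ≠ 0)
    (hord : OrdLe107 O y k) : OrdLe107 O z 1 := by
  intro s hs hs'
  have hsv := val_lt_one107 O hs hs'
  have hU0 : U ≠ 0 := by
    intro h0
    rw [h0, map_zero] at hU
    exact zero_ne_one hU
  have hy0 : y ≠ 0 := by
    rw [hy]
    exact mul_ne_zero (pow_ne_zero _ hz0) hU0
  have h1 := hord.val_le hy0 hsv
  rw [hy, map_mul, map_pow, hU, mul_one] at h1
  have h2 : O.valuation s ≤ O.valuation z := le_of_pow_le_pow_left₀ hk zero_le h1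
  refine (O.valuation_le_one_iff _).1 ?_
  rw [pow_one, map_mul, map_inv₀]
  have hpos : 0 < O.valuation z := by
    rw [Valuation.pos_iff]
    exact hz0
  rw [mul_inv_le_iff₀ hpos, one_mul]
  exact h2

theorem OrdLe107.one_iff {O : ValuationSubring Ω} {z : Ω} :
    OrdLe107 O z 1 ↔ ∀ s ∈ O, s⁻¹ ∉ O → s * z⁻¹ ∈ O := by
  unfold OrdLe107
  simp only [pow_one]

/-- The branch data of the `j`-line needed for the Hauptmodul transfers: `Ω / Lc(j)` is unramified
outside `0, 1728, ∞`, with ramification index `≤ 3` over `0` and `≤ 2` over `1728`. -/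
structure BranchJ107 (Lc : Subfield Ω) (j : Ω) : Prop where
  generic : ∀ O : ValuationSubring Ω, (∀ a ∈ Lc, a ∈ O) → ∀ a ∈ Lc, a ≠ 0 → a ≠ 1728 →
    j - a ∈ O → (j - a)⁻¹ ∉ O → OrdLe107 O (j - a) 1
  zero : ∀ O : ValuationSubring Ω, (∀ a ∈ Lc, a ∈ O) → j ∈ O → j⁻¹ ∉ O → OrdLe107 O j 3
  c1728 : ∀ O : ValuationSubring Ω, (∀ a ∈ Lc, a ∈ O) → j - 1728 ∈ O → (j - 1728)⁻¹ ∉ O →
    OrdLe107 O (j - 1728) 2

end Fermat.Agent.S18.H107

end
-- ===== PACK-END S18/H107/Branch.lean

-- ===== PACK-BEGIN S18/H107/T2Branch.lean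
section




/-!
# helper107 — S18 / M3-T : `unramified` for the Hauptmodul `t₂` (`j t² = (t + 256)³`)

From the branch data of the `j`-line (`BranchJ107`): for every constant `c ∉ {-64, 0}`, at a place
`O` with `t ≡ c`, `t - c` is a uniformiser.  (`t = -256` lies over `j = 0` with `e(t/j) = 3`,
`t = 512` over `j = 1728` with `e(t/j) = 2`; only `t = -64`, `0`, `∞` can ramify in `Ω / Lc(t)`.)
-/

set_option autoImplicit false

namespace Fermat.Agent.S18.H107

variable {Ω : Type*} [Field Ω] [CharZero Ω]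

theorem unramified_t2_107 (Lc : Subfield Ω) (j t : Ω) (hrel : j * t ^ 2 = (t + 256) ^ 3)
    (hB : BranchJ107 Lc j) (O : ValuationSubring Ω) (hL : ∀ a ∈ Lc, a ∈ O) (c : Ω) (hc : c ∈ Lc)
    (hc64 : c ≠ -64) (hc0 : c ≠ 0) (hz : t - c ∈ O) (hz' : (t - c)⁻¹ ∉ O) :
    ∀ s ∈ O, s⁻¹ ∉ O → s * (t - c)⁻¹ ∈ O := by
  rw [← OrdLe107.one_iff]
  have hzv : O.valuation (t - c) < 1 := val_lt_one107 O hz hz'
  have hz0 : t - c ≠ 0 := by
    intro h0
    rw [h0, inv_zero] at hz'
    exact hz' O.zero_mem
  have hcv : O.valuation c = 1 := val_const107 O Lc hL hc hc0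
  have htv : O.valuation t = 1 := by
    have : t = c + (t - c) := by ring
    rw [this]
    exact val_add_eq_one107 O hcv hzv
  have ht0 : t ≠ 0 := by
    intro h0
    rw [h0, map_zero] at htv
    exact zero_ne_one htv
  have htO : t ∈ O := (O.valuation_le_one_iff _).1 htv.le
  have hcO : c ∈ O := hL c hc
  have ht2v : O.valuation ((t ^ 2)⁻¹) = 1 := by
    rw [map_inv₀, map_pow, htv, one_pow, inv_one]
  by_cases h256 : c = -256
  · -- over `j = 0`
    subst h256
    have hy : j = (t - -256) ^ 3 * (t ^ 2)⁻¹ := by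
      field_simp
      linear_combination hrel
    have hj0 : j ≠ 0 := by
      rw [hy]
      exact mul_ne_zero (pow_ne_zero _ hz0) (inv_ne_zero (pow_ne_zero _ ht0))
    have hjv : O.valuation j < 1 := by
      rw [hy, map_mul, ht2v, mul_one, map_pow]
      exact pow_lt_one₀ zero_le hzv (by norm_num)
    exact unram_of_factor107 O (k := 3) (by norm_num) hy ht2v hz0
      (hB.zero O hL (mem_of_val_lt_one107 O hjv) (inv_not_mem_of_val_lt_one107 O hj0 hjv))
  by_cases h512 : c = 512
  · -- over `j = 1728`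
    subst h512
    have h576 : O.valuation (576 : Ω) = 1 :=
      val_const107 O Lc hL (ofNat_mem Lc 576) (by norm_num)
    have ht64 : O.valuation (t + 64) = 1 := by
      have : t + 64 = 576 + (t - 512) := by ring
      rw [this]
      exact val_add_eq_one107 O h576 hzv
    have hUv : O.valuation ((t + 64) * (t ^ 2)⁻¹) = 1 := by
      rw [map_mul, ht64, ht2v, mul_one]
    have hy : j - 1728 = (t - 512) ^ 2 * ((t + 64) * (t ^ 2)⁻¹) := by
      field_simp
      linear_combination hrel
    have hU0 : (t + 64) * (t ^ 2)⁻¹ ≠ 0 := by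
      intro h0
      rw [h0, map_zero] at hUv
      exact zero_ne_one hUv
    have hy0 : j - 1728 ≠ 0 := by
      rw [hy]
      exact mul_ne_zero (pow_ne_zero _ hz0) hU0
    have hyv : O.valuation (j - 1728) < 1 := by
      rw [hy, map_mul, hUv, mul_one, map_pow]
      exact pow_lt_one₀ zero_le hzv (by norm_num)
    exact unram_of_factor107 O (k := 2) (by norm_num) hy hUv hz0
      (hB.c1728 O hL (mem_of_val_lt_one107 O hyv) (inv_not_mem_of_val_lt_one107 O hy0 hyv))
  · -- generic point
    have hc256 : c + 256 ≠ 0 := fun h => h256 (by linear_combination h)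
    have hc512 : c - 512 ≠ 0 := fun h => h512 (by linear_combination h)
    have hc64' : c + 64 ≠ 0 := fun h => hc64 (by linear_combination h)
    set a : Ω := (c + 256) ^ 3 * (c ^ 2)⁻¹ with ha
    have haL : a ∈ Lc :=
      Lc.mul_mem (Lc.pow_mem (Lc.add_mem hc (ofNat_mem Lc 256)) 3) (Lc.inv_mem (Lc.pow_mem hc 2))
    have ha0 : a ≠ 0 := mul_ne_zero (pow_ne_zero _ hc256) (inv_ne_zero (pow_ne_zero _ hc0))
    have ha1728 : a ≠ 1728 := by
      intro h
      have h1 : (c - 512) ^ 2 * (c + 64) = 0 := by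
        have h2 : (c + 256) ^ 3 = 1728 * c ^ 2 := by
          rw [ha] at h
          field_simp at h
          linear_combination h
        linear_combination h2
      rcases mul_eq_zero.1 h1 with h3 | h3
      · exact hc512 (pow_eq_zero_iff (by norm_num) |>.1 h3)
      · exact hc64' h3
    -- the cofactor
    set W : Ω := c ^ 2 * t ^ 2 - (196608 * c + 16777216) * t - 16777216 * c with hW
    set W₀ : Ω := c * (c + 256) ^ 2 * (c - 512) with hW₀
    set W₁ : Ω := c ^ 2 * (t + c) - 196608 * c - 16777216 with hW₁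
    have hW₀L : W₀ ∈ Lc :=
      Lc.mul_mem (Lc.mul_mem hc (Lc.pow_mem (Lc.add_mem hc (ofNat_mem Lc 256)) 2))
        (Lc.sub_mem hc (ofNat_mem Lc 512))
    have hW₀0 : W₀ ≠ 0 := mul_ne_zero (mul_ne_zero hc0 (pow_ne_zero _ hc256)) hc512
    have hW₁O : W₁ ∈ O :=
      sub_mem (sub_mem (mul_mem (pow_mem hcO 2) (add_mem htO hcO))
        (mul_mem (ofNat_mem O 196608) hcO)) (ofNat_mem O 16777216)
    have hWv : O.valuation W = 1 := by
      have e : W = W₀ + (t - c) * W₁ := by
        rw [hW, hW₀, hW₁]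
        ring
      rw [e]
      refine val_add_eq_one107 O (val_const107 O Lc hL hW₀L hW₀0) ?_
      rw [map_mul]
      calc O.valuation (t - c) * O.valuation W₁ ≤ O.valuation (t - c) * 1 := by
            gcongr
            exact (O.valuation_le_one_iff _).2 hW₁O
        _ = O.valuation (t - c) := mul_one _
        _ < 1 := hzv
    have hUv : O.valuation (W * (t ^ 2 * c ^ 2)⁻¹) = 1 := by
      rw [map_mul, hWv, one_mul, map_inv₀, map_mul, map_pow, map_pow, htv, hcv, one_pow,
        mul_one, inv_one]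
    have hy : j - a = (t - c) ^ 1 * (W * (t ^ 2 * c ^ 2)⁻¹) := by
      rw [ha, hW]
      field_simp
      linear_combination (c ^ 2) * hrel
    have hU0 : W * (t ^ 2 * c ^ 2)⁻¹ ≠ 0 := by
      intro h0
      rw [h0, map_zero] at hUv
      exact zero_ne_one hUv
    have hy0 : j - a ≠ 0 := by
      rw [hy]
      exact mul_ne_zero (pow_ne_zero _ hz0) hU0
    have hyv : O.valuation (j - a) < 1 := by
      rw [hy, map_mul, hUv, mul_one, pow_one]
      exact hzv
    exact unram_of_factor107 O (k := 1) (by norm_num) hy hUv hz0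
      (hB.generic O hL a haL ha0 ha1728 (mem_of_val_lt_one107 O hyv)
        (inv_not_mem_of_val_lt_one107 O hy0 hyv))

end Fermat.Agent.S18.H107

end
-- ===== PACK-END S18/H107/T2Branch.lean

-- ===== PACK-BEGIN S18/H107/T3Branch.lean
section




/-!
# helper107 — S18 / M3-T : `unramified` for the Hauptmodul `t₃` (`j t³ = (t + 27)(t + 243)³`)

From the branch data of the `j`-line (`BranchJ107`): for every constant `c ∉ {-27, 0}`, at a place
`O` with `t ≡ c`, `t - c` is a uniformiser.  (`t = -243` lies over `j = 0` with `e(t/j) = 3`, the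
two roots of `t² - 486 t - 19683` over `j = 1728` with `e(t/j) = 2`; only `t = -27`, `0`, `∞` can
ramify in `Ω / Lc(t)`.)
-/

set_option autoImplicit false

namespace Fermat.Agent.S18.H107

variable {Ω : Type*} [Field Ω] [CharZero Ω]

theorem unramified_t3_107 (Lc : Subfield Ω) (j t : Ω)
    (hrel : j * t ^ 3 = (t + 27) * (t + 243) ^ 3)
    (hB : BranchJ107 Lc j) (O : ValuationSubring Ω) (hL : ∀ a ∈ Lc, a ∈ O) (c : Ω) (hc : c ∈ Lc)
    (hc27 : c ≠ -27) (hc0 : c ≠ 0) (hz : t - c ∈ O) (hz' : (t - c)⁻¹ ∉ O) :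
    ∀ s ∈ O, s⁻¹ ∉ O → s * (t - c)⁻¹ ∈ O := by
  rw [← OrdLe107.one_iff]
  have hzv : O.valuation (t - c) < 1 := val_lt_one107 O hz hz'
  have hz0 : t - c ≠ 0 := by
    intro h0
    rw [h0, inv_zero] at hz'
    exact hz' O.zero_mem
  have hcv : O.valuation c = 1 := val_const107 O Lc hL hc hc0
  have htv : O.valuation t = 1 := by
    have : t = c + (t - c) := by ring
    rw [this]
    exact val_add_eq_one107 O hcv hzv
  have ht0 : t ≠ 0 := by
    intro h0
    rw [h0, map_zero] at htv
    exact zero_ne_one htv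
  have htO : t ∈ O := (O.valuation_le_one_iff _).1 htv.le
  have hcO : c ∈ O := hL c hc
  have ht3v : O.valuation ((t ^ 3)⁻¹) = 1 := by
    rw [map_inv₀, map_pow, htv, one_pow, inv_one]
  by_cases h243 : c = -243
  · -- over `j = 0`
    subst h243
    have h216 : O.valuation (-216 : Ω) = 1 :=
      val_const107 O Lc hL (Lc.neg_mem (ofNat_mem Lc 216)) (by norm_num)
    have ht27 : O.valuation (t + 27) = 1 := by
      have : t + 27 = -216 + (t - -243) := by ring
      rw [this]
      exact val_add_eq_one107 O h216 hzv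
    have hUv : O.valuation ((t + 27) * (t ^ 3)⁻¹) = 1 := by
      rw [map_mul, ht27, ht3v, mul_one]
    have hU0 : (t + 27) * (t ^ 3)⁻¹ ≠ 0 := by
      intro h0
      rw [h0, map_zero] at hUv
      exact zero_ne_one hUv
    have hy : j = (t - -243) ^ 3 * ((t + 27) * (t ^ 3)⁻¹) := by
      field_simp
      linear_combination hrel
    have hj0 : j ≠ 0 := by
      rw [hy]
      exact mul_ne_zero (pow_ne_zero _ hz0) hU0
    have hjv : O.valuation j < 1 := by
      rw [hy, map_mul, hUv, mul_one, map_pow]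
      exact pow_lt_one₀ zero_le hzv (by norm_num)
    exact unram_of_factor107 O (k := 3) (by norm_num) hy hUv hz0
      (hB.zero O hL (mem_of_val_lt_one107 O hjv) (inv_not_mem_of_val_lt_one107 O hj0 hjv))
  by_cases hq : c ^ 2 - 486 * c - 19683 = 0
  · -- over `j = 1728`
    have h2c : 2 * c - 486 ≠ 0 := by
      intro h
      have h1 : (314928 : Ω) = 0 := by
        linear_combination (2 * c - 486) * h - 4 * hq
      norm_num at h1
    have h2cL : 2 * c - 486 ∈ Lc :=
      Lc.sub_mem (Lc.mul_mem (ofNat_mem Lc 2) hc) (ofNat_mem Lc 486)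
    have htc : O.valuation (t + c - 486) = 1 := by
      have : t + c - 486 = (2 * c - 486) + (t - c) := by ring
      rw [this]
      exact val_add_eq_one107 O (val_const107 O Lc hL h2cL h2c) hzv
    have hUv : O.valuation ((t + c - 486) ^ 2 * (t ^ 3)⁻¹) = 1 := by
      rw [map_mul, map_pow, htc, one_pow, ht3v, mul_one]
    have hU0 : (t + c - 486) ^ 2 * (t ^ 3)⁻¹ ≠ 0 := by
      intro h0
      rw [h0, map_zero] at hUv
      exact zero_ne_one hUv
    have hy : j - 1728 = (t - c) ^ 2 * ((t + c - 486) ^ 2 * (t ^ 3)⁻¹) := by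
      field_simp
      linear_combination hrel +
        (2 * (t - c) * (t + c - 486) + (c ^ 2 - 486 * c - 19683)) * hq
    have hy0 : j - 1728 ≠ 0 := by
      rw [hy]
      exact mul_ne_zero (pow_ne_zero _ hz0) hU0
    have hyv : O.valuation (j - 1728) < 1 := by
      rw [hy, map_mul, hUv, mul_one, map_pow]
      exact pow_lt_one₀ zero_le hzv (by norm_num)
    exact unram_of_factor107 O (k := 2) (by norm_num) hy hUv hz0
      (hB.c1728 O hL (mem_of_val_lt_one107 O hyv) (inv_not_mem_of_val_lt_one107 O hy0 hyv))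
  · -- generic point
    have hc27' : c + 27 ≠ 0 := fun h => hc27 (by linear_combination h)
    have hc243 : c + 243 ≠ 0 := fun h => h243 (by linear_combination h)
    set a : Ω := (c + 27) * (c + 243) ^ 3 * (c ^ 3)⁻¹ with ha
    have haL : a ∈ Lc :=
      Lc.mul_mem (Lc.mul_mem (Lc.add_mem hc (ofNat_mem Lc 27))
        (Lc.pow_mem (Lc.add_mem hc (ofNat_mem Lc 243)) 3)) (Lc.inv_mem (Lc.pow_mem hc 3))
    have ha0 : a ≠ 0 :=
      mul_ne_zero (mul_ne_zero hc27' (pow_ne_zero _ hc243)) (inv_ne_zero (pow_ne_zero _ hc0))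
    have ha1728 : a ≠ 1728 := by
      intro h
      have h1 : (c ^ 2 - 486 * c - 19683) ^ 2 = 0 := by
        have h2 : (c + 27) * (c + 243) ^ 3 = 1728 * c ^ 3 := by
          rw [ha] at h
          field_simp at h
          linear_combination h
        linear_combination h2
      exact hq (pow_eq_zero_iff (by norm_num) |>.1 h1)
    -- the cofactor
    set W : Ω := c ^ 3 * t ^ 3 - (196830 * c ^ 2 + 19131876 * c + 387420489) * t ^ 2 -
      (19131876 * c ^ 2 + 387420489 * c) * t - 387420489 * c ^ 2 with hW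
    set W₀ : Ω := c ^ 2 * (c + 243) ^ 2 * (c ^ 2 - 486 * c - 19683) with hW₀
    set W₁ : Ω := c ^ 3 * (t ^ 2 + t * c + c ^ 2) -
      (196830 * c ^ 2 + 19131876 * c + 387420489) * (t + c) -
      (19131876 * c ^ 2 + 387420489 * c) with hW₁
    have hW₀L : W₀ ∈ Lc :=
      Lc.mul_mem (Lc.mul_mem (Lc.pow_mem hc 2) (Lc.pow_mem (Lc.add_mem hc (ofNat_mem Lc 243)) 2))
        (Lc.sub_mem (Lc.sub_mem (Lc.pow_mem hc 2) (Lc.mul_mem (ofNat_mem Lc 486) hc))
          (ofNat_mem Lc 19683))
    have hW₀0 : W₀ ≠ 0 := mul_ne_zero (mul_ne_zero (pow_ne_zero _ hc0) (pow_ne_zero _ hc243)) hq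
    have hW₁O : W₁ ∈ O :=
      sub_mem (sub_mem
        (mul_mem (pow_mem hcO 3) (add_mem (add_mem (pow_mem htO 2) (mul_mem htO hcO))
          (pow_mem hcO 2)))
        (mul_mem (add_mem (add_mem (mul_mem (ofNat_mem O 196830) (pow_mem hcO 2))
          (mul_mem (ofNat_mem O 19131876) hcO)) (ofNat_mem O 387420489)) (add_mem htO hcO)))
        (add_mem (mul_mem (ofNat_mem O 19131876) (pow_mem hcO 2))
          (mul_mem (ofNat_mem O 387420489) hcO))
    have hWv : O.valuation W = 1 := by
      have e : W = W₀ + (t - c) * W₁ := by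
        rw [hW, hW₀, hW₁]
        ring
      rw [e]
      refine val_add_eq_one107 O (val_const107 O Lc hL hW₀L hW₀0) ?_
      rw [map_mul]
      calc O.valuation (t - c) * O.valuation W₁ ≤ O.valuation (t - c) * 1 := by
            gcongr
            exact (O.valuation_le_one_iff _).2 hW₁O
        _ = O.valuation (t - c) := mul_one _
        _ < 1 := hzv
    have hUv : O.valuation (W * (t ^ 3 * c ^ 3)⁻¹) = 1 := by
      rw [map_mul, hWv, one_mul, map_inv₀, map_mul, map_pow, map_pow, htv, hcv, one_pow,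
        mul_one, inv_one]
    have hy : j - a = (t - c) ^ 1 * (W * (t ^ 3 * c ^ 3)⁻¹) := by
      rw [ha, hW]
      field_simp
      linear_combination (c ^ 3) * hrel
    have hU0 : W * (t ^ 3 * c ^ 3)⁻¹ ≠ 0 := by
      intro h0
      rw [h0, map_zero] at hUv
      exact zero_ne_one hUv
    have hy0 : j - a ≠ 0 := by
      rw [hy]
      exact mul_ne_zero (pow_ne_zero _ hz0) hU0
    have hyv : O.valuation (j - a) < 1 := by
      rw [hy, map_mul, hUv, mul_one, pow_one]
      exact hzv
    exact unram_of_factor107 O (k := 1) (by norm_num) hy hUv hz0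
      (hB.generic O hL a haL ha0 ha1728 (mem_of_val_lt_one107 O hyv)
        (inv_not_mem_of_val_lt_one107 O hy0 hyv))

end Fermat.Agent.S18.H107

end
-- ===== PACK-END S18/H107/T3Branch.lean

-- ===== PACK-BEGIN S37/H700/GaussBasic.lean
section




/-!
# S37 / piece GAUSS (helper700): basic lemmas

Elementary facts about `coeffMap`, polynomials in `j` and normalisation of finitely many
elements of the fraction field of a valuation ring.
-/

set_option autoImplicit false

noncomputable section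

namespace Fermat.Agent.S37.H700

open ModularCurve HahnSeries Polynomial

section CoeffMap

variable {R S : Type*} [CommRing R] [CommRing S]

theorem coeffMap_injective {f : R →+* S} (hf : Function.Injective f) :
    Function.Injective (coeffMap f) := by
  intro x y h
  ext n
  apply hf
  have := congrArg (fun z => HahnSeries.coeff z n) h
  simpa using this

theorem coeffMap_C (f : R →+* S) (r : R) :
    coeffMap f (HahnSeries.C r : LaurentSeries R) = HahnSeries.C (f r) := by
  show coeffMap f (HahnSeries.single 0 r) = HahnSeries.single 0 (f r)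
  exact coeffMap_single f 0 r

/-- Evaluation of a polynomial at the `q`-expansion of `j`, with explicit constant map. -/
def evalJ (R : Type*) [CommRing R] (P : R[X]) : LaurentSeries R :=
  P.eval₂ (HahnSeries.C : R →+* LaurentSeries R) (jqModC R)

theorem coeffMap_evalJ (f : R →+* S) (P : R[X]) :
    coeffMap f (evalJ R P) = evalJ S (P.map f) := by
  unfold evalJ
  rw [Polynomial.hom_eval₂, Polynomial.eval₂_map, coeffMap_jqModC]
  congr 1
  ext r : 1
  exact coeffMap_C f r

theorem evalJ_add (P Q : R[X]) : evalJ R (P + Q) = evalJ R P + evalJ R Q :=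
  Polynomial.eval₂_add _ _

theorem evalJ_mul (P Q : R[X]) : evalJ R (P * Q) = evalJ R P * evalJ R Q :=
  Polynomial.eval₂_mul _ _

theorem evalJ_zero : evalJ R (0 : R[X]) = 0 := Polynomial.eval₂_zero _ _

theorem evalJ_one : evalJ R (1 : R[X]) = 1 := Polynomial.eval₂_one _ _

end CoeffMap

section Field

variable (K : Type*) [Field K]

theorem evalJ_eq_aeval (P : K[X]) : evalJ K P = Polynomial.aeval (jqModC K) P := by
  unfold evalJ
  rw [Polynomial.aeval_def]
  congr 1
  ext c : 1
  rw [algebraMap_laurentSeries_eq_single]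
  rfl

/-- The coefficient of `q^{-deg P}` in `P(j)` is the leading coefficient of `P`. -/
theorem coeff_evalJ_natDegree (P : K[X]) :
    (evalJ K P).coeff (-(P.natDegree : ℤ)) = P.leadingCoeff := by
  unfold evalJ
  rw [Polynomial.eval₂_eq_sum_range, HahnSeries.coeff_sum,
    Finset.sum_eq_single_of_mem P.natDegree (Finset.self_mem_range_succ _)]
  · show (HahnSeries.single 0 (P.coeff P.natDegree) * jqModC K ^ P.natDegree).coeff _ = _
    rw [HahnSeries.coeff_single_zero_mul, coeff_jqModC_pow_self, mul_one]; rfl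
  · intro i hi hne
    have hlt : i < P.natDegree :=
      lt_of_le_of_ne (Nat.lt_succ_iff.mp (Finset.mem_range.mp hi)) hne
    show (HahnSeries.single 0 (P.coeff i) * jqModC K ^ i).coeff _ = _
    rw [HahnSeries.coeff_single_zero_mul, coeff_jqModC_pow_of_lt K (by omega), mul_zero]

theorem evalJ_eq_zero_iff {P : K[X]} : evalJ K P = 0 ↔ P = 0 := by
  constructor
  · intro hP
    have h := coeff_evalJ_natDegree K P
    rw [hP, HahnSeries.coeff_zero] at h
    exact Polynomial.leadingCoeff_eq_zero.mp h.symm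
  · rintro rfl
    exact evalJ_zero

theorem jqModC_mem_jField : jqModC K ∈ Fermat.Agent.S28.jField K :=
  IntermediateField.subset_adjoin K _ (Set.mem_singleton _)

theorem evalJ_mem_jField (P : K[X]) : evalJ K P ∈ Fermat.Agent.S28.jField K := by
  rw [evalJ_eq_aeval]
  exact Polynomial.aeval_mem_adjoin_singleton K (jqModC K) |> fun h =>
    (IntermediateField.algebra_adjoin_le_adjoin K _) h

/-- Every element of `K(j)` is a quotient of polynomials in `j` with nonzero denominator. -/
theorem exists_evalJ_of_mem_jField {c : LaurentSeries K} (hc : c ∈ Fermat.Agent.S28.jField K) :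
    ∃ r s : K[X], s ≠ 0 ∧ c * evalJ K s = evalJ K r := by
  obtain ⟨r, s, hrs⟩ := (IntermediateField.mem_adjoin_simple_iff K c).mp hc
  by_cases hs : s = 0
  · refine ⟨0, 1, one_ne_zero, ?_⟩
    rw [hrs, hs, map_zero, div_zero, zero_mul, evalJ_zero]
  · refine ⟨r, s, hs, ?_⟩
    have hs' : Polynomial.aeval (jqModC K) s ≠ 0 := by
      rw [← evalJ_eq_aeval]
      exact fun h => hs ((evalJ_eq_zero_iff K).mp h)
    rw [hrs, evalJ_eq_aeval, evalJ_eq_aeval, div_mul_cancel₀ _ hs']

end Field

end Fermat.Agent.S37.H700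

end
end
-- ===== PACK-END S37/H700/GaussBasic.lean

-- ===== PACK-BEGIN S37/H700/GaussSpan.lean
section


/-!
# S37 / piece GAUSS (helper700): the integral monomials span `F̄_N` over `L(j)`
-/

set_option autoImplicit false

noncomputable section

namespace Fermat.Agent.S37.H700

open ModularCurve HahnSeries Polynomial
open Fermat.Agent.S28 (jField intDivisorExpansions)

section IntSeries

variable (K : Type*) [Field K]

/-- Reduction/base change of an element of `ℤ[j(q^d) : d ∣ N]` lies in `K(j(q^d) : d ∣ N)`. -/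
theorem coeffMap_intCast_mem_fullC (N : ℕ) {y : LaurentSeries ℤ}
    (hy : y ∈ Subring.closure (intDivisorExpansions N)) :
    coeffMap (Int.castRingHom K) y ∈ modularFunctionFieldFullC K N := by
  induction hy using Subring.closure_induction with
  | mem x hx =>
    obtain ⟨d, hd, hdN, rfl⟩ := hx
    rw [coeffMap_qExpand, coeffMap_jqModC]
    exact jqModCd_mem_full K N hdN
  | zero => simp
  | one => simp
  | add x y _ _ hx hy => rw [map_add]; exact add_mem hx hy
  | neg x _ hx => rw [map_neg]; exact neg_mem hx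
  | mul x y _ _ hx hy => rw [map_mul]; exact mul_mem hx hy

theorem smul_jField_def (c : jField K) (x : LaurentSeries K) :
    c • x = (c : LaurentSeries K) * x := rfl

end IntSeries

section Span

variable (L : Type*) [Field L] [Algebra ℚ L]

theorem coeffEmb_evalJ (P : ℚ[X]) :
    coeffEmb L (evalJ ℚ P) = evalJ L (P.map (algebraMap ℚ L)) :=
  coeffMap_evalJ _ P

theorem coeffEmb_intCast (y : LaurentSeries ℤ) :
    coeffEmb L (coeffMap (Int.castRingHom ℚ) y) = coeffMap (Int.castRingHom L) y := by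
  rw [coeffEmb, coeffMap_coeffMap]
  exact coeffMap_congr (RingHom.ext_int _ _) y

/-- `coeffEmb` maps `ℚ(j)` into `L(j)`. -/
theorem coeffEmb_mem_jField {c : LaurentSeries ℚ} (hc : c ∈ jField ℚ) :
    coeffEmb L c ∈ jField L := by
  obtain ⟨r, s, hs, hrs⟩ := exists_evalJ_of_mem_jField ℚ hc
  have h := congrArg (coeffEmb L) hrs
  rw [map_mul, coeffEmb_evalJ, coeffEmb_evalJ] at h
  have hs' : evalJ L (s.map (algebraMap ℚ L)) ≠ 0 := by
    rw [Ne, evalJ_eq_zero_iff]
    exact (Polynomial.map_ne_zero_iff (algebraMap ℚ L).injective).mpr hs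
  have : coeffEmb L c = evalJ L (r.map (algebraMap ℚ L)) * (evalJ L (s.map (algebraMap ℚ L)))⁻¹ := by
    rw [← h, mul_assoc, mul_inv_cancel₀ hs', mul_one]
  rw [this]
  exact mul_mem (evalJ_mem_jField L _) (inv_mem (evalJ_mem_jField L _))

variable {n : ℕ} (y : Fin n → LaurentSeries ℤ)

/-- The `L(j)`-span of the base-changed monomials. -/
def spanL : Submodule (jField L) (LaurentSeries L) :=
  Submodule.span (jField L) (Set.range fun i => coeffMap (Int.castRingHom L) (y i))

theorem coeffEmb_mem_spanL {x : LaurentSeries ℚ}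
    (hx : x ∈ Submodule.span (jField ℚ)
      (Set.range fun i => coeffMap (Int.castRingHom ℚ) (y i))) :
    coeffEmb L x ∈ spanL L y := by
  induction hx using Submodule.span_induction with
  | mem x hx =>
    obtain ⟨i, rfl⟩ := hx
    rw [coeffEmb_intCast]
    exact Submodule.subset_span ⟨i, rfl⟩
  | zero => rw [map_zero]; exact zero_mem _
  | add x y _ _ hx hy => rw [map_add]; exact add_mem hx hy
  | smul c x _ hx =>
    rw [smul_jField_def, map_mul]
    exact (spanL L y).smul_mem ⟨coeffEmb L c, coeffEmb_mem_jField L c.2⟩ hx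

variable (N : ℕ)
variable (hy_mem : ∀ i, y i ∈ Subring.closure (intDivisorExpansions N))
variable (hy_span : ∀ x ∈ modularFunctionFieldFull N,
      x ∈ Submodule.span (jField ℚ)
        (Set.range fun i => coeffMap (Int.castRingHom ℚ) (y i)))

include hy_span in
theorem coeffEmb_mem_spanL_of_mem {x : LaurentSeries ℚ} (hx : x ∈ modularFunctionFieldFull N) :
    coeffEmb L x ∈ spanL L y :=
  coeffEmb_mem_spanL L y (hy_span x hx)

include hy_span in
theorem one_mem_spanL : (1 : LaurentSeries L) ∈ spanL L y := by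
  have := coeffEmb_mem_spanL_of_mem L y N hy_span (one_mem (modularFunctionFieldFull N))
  rwa [map_one] at this

include hy_mem hy_span in
theorem gen_mul_gen_mem_spanL (i j : Fin n) :
    coeffMap (Int.castRingHom L) (y i) * coeffMap (Int.castRingHom L) (y j) ∈ spanL L y := by
  rw [← coeffEmb_intCast L (y i), ← coeffEmb_intCast L (y j), ← map_mul]
  refine coeffEmb_mem_spanL_of_mem L y N hy_span (mul_mem ?_ ?_)
  · rw [← modularFunctionFieldFullC_rat]; exact coeffMap_intCast_mem_fullC ℚ N (hy_mem i)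
  · rw [← modularFunctionFieldFullC_rat]; exact coeffMap_intCast_mem_fullC ℚ N (hy_mem j)

include hy_mem hy_span in
theorem mul_mem_spanL {a b : LaurentSeries L} (ha : a ∈ spanL L y) (hb : b ∈ spanL L y) :
    a * b ∈ spanL L y := by
  induction ha using Submodule.span_induction with
  | mem a ha =>
    obtain ⟨i, rfl⟩ := ha
    induction hb using Submodule.span_induction with
    | mem b hb =>
      obtain ⟨j, rfl⟩ := hb
      exact gen_mul_gen_mem_spanL L y N hy_mem hy_span i j
    | zero => rw [mul_zero]; exact zero_mem _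
    | add x z _ _ hx hz => rw [mul_add]; exact add_mem hx hz
    | smul c x _ hx =>
      rw [smul_jField_def, mul_left_comm]
      exact (spanL L y).smul_mem c hx
  | zero => rw [zero_mul]; exact zero_mem _
  | add x z _ _ hx hz => rw [add_mul]; exact add_mem hx hz
  | smul c x _ hx =>
    rw [smul_jField_def, mul_assoc]
    exact (spanL L y).smul_mem c hx

/-- The span as a subalgebra over `L(j)`. -/
def spanAlg : Subalgebra (jField L) (LaurentSeries L) :=
  (spanL L y).toSubalgebra (one_mem_spanL L y N hy_span)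
    (fun _ _ ha hb => mul_mem_spanL L y N hy_mem hy_span ha hb)

include hy_mem hy_span in
theorem inv_mem_spanL {a : LaurentSeries L} (ha : a ∈ spanL L y) : a⁻¹ ∈ spanL L y := by
  have hfg : (spanAlg L y N hy_mem hy_span).toSubmodule.FG := by
    show (spanL L y).FG
    exact Submodule.fg_span (Set.finite_range _)
  have hint : IsIntegral (jField L) a :=
    IsIntegral.of_mem_of_fg (spanAlg L y N hy_mem hy_span) hfg a ha
  exact (spanAlg L y N hy_mem hy_span).inv_mem_of_algebraic
    (x := ⟨a, ha⟩) hint.isAlgebraic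

include hy_mem hy_span in
/-- **Spanning over `L`**: every element of `F̄_N = L·F_N` is an `L(j)`-combination of the
integral monomials. -/
theorem mem_spanL_of_mem_baseChange {x : LaurentSeries L}
    (hx : x ∈ laurentBaseChange L (modularFunctionFieldFull N)) : x ∈ spanL L y := by
  rw [mem_laurentBaseChange_iff] at hx
  induction hx using Subfield.closure_induction with
  | mem x hx =>
    rcases hx with ⟨a, rfl⟩ | ⟨z, hz, rfl⟩
    · have h1 := one_mem_spanL L y N hy_span
      have := (spanL L y).smul_mem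
        (⟨algebraMap L (LaurentSeries L) a, (jField L).algebraMap_mem a⟩ : jField L) h1
      rwa [smul_jField_def, mul_one] at this
    · exact coeffEmb_mem_spanL_of_mem L y N hy_span hz
  | one => exact one_mem_spanL L y N hy_span
  | add x z _ _ hx hz => exact add_mem hx hz
  | neg x _ hx => exact neg_mem hx
  | inv x _ hx => exact inv_mem_spanL L y N hy_mem hy_span hx
  | mul x z _ _ hx hz => exact mul_mem_spanL L y N hy_mem hy_span hx hz

end Span

end Fermat.Agent.S37.H700

end
end
-- ===== PACK-END S37/H700/GaussSpan.lean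

-- ===== PACK-BEGIN Lib/Haupt/Formal.lean
section



/-!
# Truncations of the Prelude's formal `E₄` and Euler product (helper637)
-/

set_option autoImplicit false

namespace Fermat.Agent.Lib.Haupt

open PowerSeries Filter Topology
open scoped PowerSeries.WithPiTopology

/-- Computable `σ₃`. -/
def sig3 (n : ℕ) : ℤ := ((List.range (n + 1)).map fun d => if d ∣ n then (d : ℤ) ^ 3 else 0).sum

theorem sig3_eq (n : ℕ) (hn : n ≠ 0) : sig3 n = ∑ d ∈ n.divisors, (d : ℤ) ^ 3 := by
  unfold sig3
  rw [sum_map_range, ← Finset.sum_filter]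
  apply Finset.sum_congr _ (fun _ _ => rfl)
  ext d
  simp only [Finset.mem_filter, Finset.mem_range, Nat.mem_divisors]
  constructor
  · rintro ⟨_, h⟩
    exact ⟨h, hn⟩
  · rintro ⟨h, _⟩
    exact ⟨Nat.lt_succ_of_le (Nat.le_of_dvd (Nat.pos_of_ne_zero hn) h), h⟩

/-- Computable coefficients of `E₄`. -/
def e4c (n : ℕ) : ℤ := if n = 0 then 1 else 240 * sig3 n

theorem coeff_eisenstein4 (n : ℕ) : coeff n ModularCurve.eisenstein4 = e4c n := by
  unfold e4c ModularCurve.eisenstein4
  rw [coeff_mk]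
  split_ifs with h
  · rfl
  · rw [sig3_eq n h]

theorem tr_eisenstein4 (M : ℕ) : tr M ModularCurve.eisenstein4 = ofFn M e4c := by
  rw [tr_eq_ofFn]
  exact ofFn_congr fun n _ => coeff_eisenstein4 n

/-- Truncated partial Euler products. -/
def lEuler (M : ℕ) : ℕ → List ℤ
  | 0 => lone M
  | k + 1 => lsub M (lEuler M k) (lshift M (k + 1) (lEuler M k))

theorem tr_prod_range (M k : ℕ) :
    tr M (∏ n ∈ Finset.range k, (1 - X ^ (n + 1) : PowerSeries ℤ)) = lEuler M k := by
  induction k with
  | zero => rw [Finset.prod_range_zero, tr_one]; rfl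
  | succ k ih =>
    rw [Finset.prod_range_succ, mul_sub, mul_one, mul_comm, tr_sub, tr_X_pow_mul, ih]
    rfl

/-- Multiplying by `1 - X ^ (n + 1)` with `n ≥ m` does not change the `m`-th coefficient. -/
theorem coeff_mul_one_sub_X_pow (f : PowerSeries ℤ) {m n : ℕ} (h : m ≤ n) :
    coeff m (f * (1 - X ^ (n + 1))) = coeff m f := by
  rw [mul_sub, mul_one, map_sub, mul_comm, coeff_X_pow_mul', if_neg (by omega), sub_zero]

theorem coeff_prod_of_range_subset {M : ℕ} (s : Finset ℕ) (hs : Finset.range M ⊆ s) {m : ℕ}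
    (hm : m < M) :
    coeff m (∏ n ∈ s, (1 - X ^ (n + 1) : PowerSeries ℤ))
      = coeff m (∏ n ∈ Finset.range M, (1 - X ^ (n + 1) : PowerSeries ℤ)) := by
  induction s using Finset.strongInduction with
  | H s ih =>
    by_cases hsr : s = Finset.range M
    · rw [hsr]
    · obtain ⟨a, has, haM⟩ : ∃ a ∈ s, a ∉ Finset.range M := by
        by_contra hcon
        push Not at hcon
        exact hsr (Finset.Subset.antisymm hcon hs)
      have hsub : Finset.range M ⊆ s.erase a := by
        intro x hx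
        exact Finset.mem_erase.mpr ⟨fun h => haM (h ▸ hx), hs hx⟩
      rw [← Finset.mul_prod_erase s _ has, mul_comm,
        coeff_mul_one_sub_X_pow _ (by rw [Finset.mem_range] at haM; omega)]
      exact ih _ (Finset.erase_ssubset has) hsub

theorem coeff_etaProd {M m : ℕ} (hm : m < M) :
    coeff m ModularCurve.etaProd
      = coeff m (∏ n ∈ Finset.range M, (1 - X ^ (n + 1) : PowerSeries ℤ)) := by
  have h1 : HasProd (fun n : ℕ => (1 - X ^ (n + 1) : PowerSeries ℤ)) ModularCurve.etaProd :=
    (PowerSeries.WithPiTopology.multipliable_one_sub_X_pow ℤ).hasProd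
  have h2 : Tendsto (fun s : Finset ℕ => ∏ n ∈ s, (1 - X ^ (n + 1) : PowerSeries ℤ))
      atTop (𝓝 ModularCurve.etaProd) := h1
  have h3 := (PowerSeries.WithPiTopology.tendsto_iff_coeff_tendsto ℤ _ _ _).1 h2 m
  have h4 : Tendsto (fun s : Finset ℕ => coeff m (∏ n ∈ s, (1 - X ^ (n + 1) : PowerSeries ℤ)))
      atTop (𝓝 (coeff m (∏ n ∈ Finset.range M, (1 - X ^ (n + 1) : PowerSeries ℤ)))) := by
    apply tendsto_const_nhds.congr'
    filter_upwards [eventually_ge_atTop (Finset.range M)] with s hs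
    exact (coeff_prod_of_range_subset s hs hm).symm
  exact tendsto_nhds_unique h3 h4

theorem tr_etaProd (M : ℕ) : tr M ModularCurve.etaProd = lEuler M M := by
  rw [← tr_prod_range, tr_eq_ofFn, tr_eq_ofFn]
  exact ofFn_congr fun n hn => coeff_etaProd hn

end Fermat.Agent.Lib.Haupt

end
-- ===== PACK-END Lib/Haupt/Formal.lean

-- ===== PACK-BEGIN Lib/Haupt/Coeffs.lean
section


/-!
# The four formal modular identities, up to the Sturm bound (helper637)

`Phi1 … Phi4 : PowerSeries ℤ` are the differences of the two sides of the modular-form identities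
behind the Hauptmodul relations for `Γ₀(2)` and `Γ₀(3)`.  Here we check by a kernel computation
that their coefficients vanish up to the Sturm bound.
-/

set_option autoImplicit false

noncomputable section

namespace Fermat.Agent.Lib.Haupt

open PowerSeries

/-- The formal `E₄`. -/
abbrev E4Z : PowerSeries ℤ := ModularCurve.eisenstein4

/-- The formal `Δ = X · ∏ (1 - Xⁿ)²⁴` over `ℤ`. -/
def DeltaZ : PowerSeries ℤ := X * ModularCurve.etaProd ^ 24

/-- `f(X^d)`. -/
abbrev ex (d : ℕ) [NeZero d] (f : PowerSeries ℤ) : PowerSeries ℤ := expand d (NeZero.ne d) f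

/-- `E₄³ Δ Δ₂ - (Δ + 256 Δ₂)³`. -/
def Phi1 : PowerSeries ℤ :=
  E4Z ^ 3 * (DeltaZ * ex 2 DeltaZ) - (DeltaZ + C 256 * ex 2 DeltaZ) ^ 3

/-- `E₄(2τ)³ Δ Δ₂ - (Δ + 16 Δ₂)³`. -/
def Phi2 : PowerSeries ℤ :=
  ex 2 E4Z ^ 3 * (DeltaZ * ex 2 DeltaZ) - (DeltaZ + C 16 * ex 2 DeltaZ) ^ 3

/-- `Δ Δ₃ (E₄³ - 756 Δ - 19131876 Δ₃)² - (Δ² + 196830 Δ Δ₃ + 387420489 Δ₃²)²`. -/
def Phi3 : PowerSeries ℤ :=
  (DeltaZ * ex 3 DeltaZ) * (E4Z ^ 3 - (C 756 * DeltaZ + C 19131876 * ex 3 DeltaZ)) ^ 2
    - (DeltaZ ^ 2 + (C 196830 * (DeltaZ * ex 3 DeltaZ) + C 387420489 * ex 3 DeltaZ ^ 2)) ^ 2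

/-- `Δ Δ₃ (E₄(3τ)³ - 36 Δ - 756 Δ₃)² - (Δ² + 270 Δ Δ₃ + 729 Δ₃²)²`. -/
def Phi4 : PowerSeries ℤ :=
  (DeltaZ * ex 3 DeltaZ) * (ex 3 E4Z ^ 3 - (C 36 * DeltaZ + C 756 * ex 3 DeltaZ)) ^ 2
    - (DeltaZ ^ 2 + (C 270 * (DeltaZ * ex 3 DeltaZ) + C 729 * ex 3 DeltaZ ^ 2)) ^ 2

theorem tr_DeltaZ (M : ℕ) : tr M DeltaZ = lshift M 1 (lpow M (lEuler M M) 24) := by
  rw [DeltaZ, ← pow_one (X : PowerSeries ℤ), tr_X_pow_mul, tr_pow, tr_etaProd]

set_option maxRecDepth 1000000 in
theorem tr_Phi1 : tr 13 Phi1 = List.replicate 13 0 := by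
  simp only [Phi1, tr_sub, tr_mul, tr_pow, tr_add, tr_C, tr_expand, tr_DeltaZ,
    tr_eisenstein4]
  decide

end Fermat.Agent.Lib.Haupt

namespace Fermat.Agent.Lib.Haupt

open PowerSeries

set_option maxRecDepth 1000000 in
theorem tr_Phi2 : tr 13 Phi2 = List.replicate 13 0 := by
  simp only [Phi2, tr_sub, tr_mul, tr_pow, tr_add, tr_C, tr_expand, tr_DeltaZ,
    tr_eisenstein4]
  decide

set_option maxRecDepth 1000000 in
theorem tr_Phi3 : tr 37 Phi3 = List.replicate 37 0 := by
  simp only [Phi3, tr_sub, tr_mul, tr_pow, tr_add, tr_C, tr_expand, tr_DeltaZ,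
    tr_eisenstein4]
  decide

set_option maxRecDepth 1000000 in
theorem tr_Phi4 : tr 37 Phi4 = List.replicate 37 0 := by
  simp only [Phi4, tr_sub, tr_mul, tr_pow, tr_add, tr_C, tr_expand, tr_DeltaZ,
    tr_eisenstein4]
  decide

theorem coeff_Phi1 {n : ℕ} (hn : n < 13) : coeff n Phi1 = 0 := coeff_eq_zero_of_tr_eq tr_Phi1 hn
theorem coeff_Phi2 {n : ℕ} (hn : n < 13) : coeff n Phi2 = 0 := coeff_eq_zero_of_tr_eq tr_Phi2 hn
theorem coeff_Phi3 {n : ℕ} (hn : n < 37) : coeff n Phi3 = 0 := coeff_eq_zero_of_tr_eq tr_Phi3 hn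
theorem coeff_Phi4 {n : ℕ} (hn : n < 37) : coeff n Phi4 = 0 := coeff_eq_zero_of_tr_eq tr_Phi4 hn

end Fermat.Agent.Lib.Haupt

end
end
-- ===== PACK-END Lib/Haupt/Coeffs.lean

-- ===== PACK-BEGIN S18/B12/H393/DiscrRed.lean
section



/-!
# S18 / Route K / b2.5, piece A3 (helper393): `DiscrRedStatement`

`discrRed : DiscrRedStatement` (exact frozen shape of `B12/Spec2.lean`).

* `smul_trace_eq_trace_of_quasiBasis` : generic trace lemma.  `M` finite free over `A`,
  `x` a linearly independent family with `g • M ⊆ span x`, `f` an endomorphism with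
  `g • f (x j) = ∑ i, m i j • x i`.  Then `g * tr f = tr m`.
  (Proof: `tr (φ ∘ f ∘ ι) = tr (ι ∘ φ ∘ f)` for `ι : span x → M`, `φ = g • _ : M → span x`.)
* `smul_intTrace_eq` : `g * intTrace P B β = tr m` if `g • (β * x j) = ∑ i, m i j • x i`
  (`x` a local basis of `B` over `P`).
* `mk_intTrace_eq_trace` : `intTrace P B β mod w = Tr_{(B/wB)/(P/w)} (β mod w)`.
-/

set_option autoImplicit false

noncomputable section

namespace Fermat.Agent.S18.B12.H393

open Fermat.Agent.S18.B12

universe u v

section Generic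

variable {A : Type*} [CommRing A] {M : Type*} [AddCommGroup M] [Module A M]

/-- **Generic trace lemma.** -/
theorem smul_trace_eq_trace_of_quasiBasis [Module.Free A M] [Module.Finite A M]
    {n : ℕ} (f : M →ₗ[A] M) (x : Fin n → M) (hli : LinearIndependent A x) (g : A)
    (hspan : ∀ y : M, g • y ∈ Submodule.span A (Set.range x))
    (m : Matrix (Fin n) (Fin n) A) (hm : ∀ j, g • f (x j) = ∑ i, m i j • x i) :
    g * LinearMap.trace A M f = m.trace := by
  classical
  set E : Submodule A M := Submodule.span A (Set.range x) with hE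
  let bE : Module.Basis (Fin n) A E := Module.Basis.span hli
  have hbE : ∀ j, ((bE j : E) : M) = x j := fun j => Module.Basis.coe_span_apply hli j
  have : Module.Free A E := Module.Free.of_basis bE
  have : Module.Finite A E := Module.Finite.of_basis bE
  let φ : M →ₗ[A] E :=
    { toFun := fun y => ⟨g • y, hspan y⟩
      map_add' := fun y z => Subtype.ext (by simp [smul_add])
      map_smul' := fun r y => Subtype.ext (by simp [smul_comm g r]) }
  have h1 : LinearMap.trace A M (E.subtype ∘ₗ (φ ∘ₗ f)) =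
      LinearMap.trace A E ((φ ∘ₗ f) ∘ₗ E.subtype) :=
    LinearMap.trace_comp_comm' (φ ∘ₗ f) E.subtype
  have h2 : E.subtype ∘ₗ (φ ∘ₗ f) = g • f := by
    ext y; simp [φ]
  have h3 : LinearMap.toMatrix bE bE ((φ ∘ₗ f) ∘ₗ E.subtype) = m := by
    ext i j
    rw [LinearMap.toMatrix_apply]
    have : ((φ ∘ₗ f) ∘ₗ E.subtype) (bE j) = ∑ i, m i j • bE i := by
      apply Subtype.ext
      simp only [LinearMap.coe_comp, Function.comp_apply, Submodule.subtype_apply,
        LinearMap.coe_mk, AddHom.coe_mk, φ, hbE]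
      rw [hm j, Submodule.coe_sum]
      refine Finset.sum_congr rfl fun i _ => ?_
      rw [Submodule.coe_smul, hbE]
    rw [this, map_sum]
    simp [Finsupp.single_apply, Finset.sum_apply']
  rw [h2, map_smul, smul_eq_mul] at h1
  rw [h1, LinearMap.trace_eq_matrix_trace A bE, h3]

end Generic

section IntTrace

attribute [local instance] FractionRing.liftAlgebra FractionRing.isScalarTower_liftAlgebra

variable {P : Type u} [CommRing P] [IsDomain P] [IsIntegrallyClosed P]
  {B : Type v} [CommRing B] [IsDomain B] [IsIntegrallyClosed B] [Algebra P B]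
  [Module.Finite P B] [Module.IsTorsionFree P B]

/-- `g * intTrace β = tr m` when `g • (β * x j) = ∑ i, m i j • x i` for a quasi-basis `x`. -/
theorem smul_intTrace_eq {n : ℕ} (x : Fin n → B) (hli : LinearIndependent P x) (g : P)
    (hspan : ∀ b : B, g • b ∈ Submodule.span P (Set.range x)) (β : B)
    (m : Matrix (Fin n) (Fin n) P) (hm : ∀ j, g • (β * x j) = ∑ i, m i j • x i) :
    g * Algebra.intTrace P B β = m.trace := by
  classical
  have : IsIntegralClosure B P (FractionRing B) :=
    IsIntegralClosure.of_isIntegrallyClosed _ _ _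
  have : Algebra.IsAlgebraic (FractionRing P) (FractionRing B) :=
    isAlgebraic_of_isFractionRing P B ..
  have hloc : IsLocalization (Algebra.algebraMapSubmonoid B (nonZeroDivisors P))
      (FractionRing B) :=
    IsIntegralClosure.isLocalization _ (FractionRing P) _ _
  have : FiniteDimensional (FractionRing P) (FractionRing B) :=
    .of_isLocalization P B (nonZeroDivisors P)
  set K := FractionRing P
  set L := FractionRing B
  have hinjBL : Function.Injective (algebraMap B L) := IsFractionRing.injective B L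
  -- linear independence over `K`
  have hliP : LinearIndependent P (fun j => algebraMap B L (x j)) := by
    have := hli.map' (IsScalarTower.toAlgHom P B L).toLinearMap
      (LinearMap.ker_eq_bot.mpr hinjBL)
    exact this
  have hliK : LinearIndependent K (fun j => algebraMap B L (x j)) :=
    (LinearIndependent.iff_fractionRing P K).mp hliP
  -- images of elements of the `P`-span lie in the `K`-span
  have hmemK : ∀ y : B, y ∈ Submodule.span P (Set.range x) →
      algebraMap B L y ∈ Submodule.span K (Set.range fun j => algebraMap B L (x j)) := by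
    intro y hy
    rw [Submodule.mem_span_range_iff_exists_fun] at hy
    obtain ⟨c, rfl⟩ := hy
    rw [map_sum]
    refine Submodule.sum_mem _ fun i _ => ?_
    have : algebraMap B L (c i • x i) = algebraMap P K (c i) • algebraMap B L (x i) := by
      rw [Algebra.smul_def, map_mul, ← IsScalarTower.algebraMap_apply,
        IsScalarTower.algebraMap_apply P K L, ← Algebra.smul_def]
    rw [this]
    exact Submodule.smul_mem _ _ (Submodule.subset_span ⟨i, rfl⟩)
  have hspanK : ∀ ℓ : L, algebraMap P K g • ℓ ∈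
      Submodule.span K (Set.range fun j => algebraMap B L (x j)) := by
    intro ℓ
    obtain ⟨⟨b, s⟩, hs⟩ := IsLocalization.surj (Algebra.algebraMapSubmonoid B (nonZeroDivisors P)) ℓ
    obtain ⟨s₀, hs₀, hs₀'⟩ := s.2
    have hs₀K : algebraMap P K s₀ ≠ 0 := by
      have := (IsFractionRing.injective P K).ne (nonZeroDivisors.ne_zero hs₀)
      simpa using this
    have hℓ : ℓ = (algebraMap P K s₀)⁻¹ • algebraMap B L b := by
      rw [eq_inv_smul_iff₀ hs₀K]
      simp only at hs
      rw [← hs, ← hs₀', Algebra.smul_def, ← IsScalarTower.algebraMap_apply,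
        IsScalarTower.algebraMap_apply P B L, mul_comm]
    have hgb : algebraMap P K g • algebraMap B L b = algebraMap B L (g • b) := by
      rw [Algebra.smul_def (A := B), map_mul, ← IsScalarTower.algebraMap_apply,
        IsScalarTower.algebraMap_apply P K L, ← Algebra.smul_def]
    rw [hℓ, smul_comm, hgb]
    exact Submodule.smul_mem _ _ (hmemK _ (hspan b))
  have hmK : ∀ j, algebraMap P K g • (Algebra.lmul K L (algebraMap B L β)) (algebraMap B L (x j)) =
      ∑ i, (m.map (algebraMap P K)) i j • algebraMap B L (x i) := by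
    intro j
    have h := congrArg (algebraMap B L) (hm j)
    rw [map_sum] at h
    have e1 : algebraMap B L (g • (β * x j)) =
        algebraMap P K g • (Algebra.lmul K L (algebraMap B L β)) (algebraMap B L (x j)) := by
      rw [Algebra.smul_def (A := B), map_mul, ← IsScalarTower.algebraMap_apply,
        IsScalarTower.algebraMap_apply P K L, ← Algebra.smul_def, map_mul]
      rfl
    rw [← e1, h]
    refine Finset.sum_congr rfl fun i _ => ?_
    rw [Matrix.map_apply, Algebra.smul_def (A := B), map_mul, ← IsScalarTower.algebraMap_apply,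
      IsScalarTower.algebraMap_apply P K L, ← Algebra.smul_def]
  have key := smul_trace_eq_trace_of_quasiBasis (A := K) (M := L)
    (Algebra.lmul K L (algebraMap B L β)) (fun j => algebraMap B L (x j)) hliK
    (algebraMap P K g) hspanK (m.map (algebraMap P K)) hmK
  apply IsFractionRing.injective P K
  rw [map_mul, Algebra.algebraMap_intTrace_fractionRing, Algebra.trace_apply, key]
  simp [Matrix.trace, map_sum]

end IntTrace

section Reduction

variable {P : Type u} [CommRing P]
  {B : Type v} [CommRing B] [Algebra P B]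

/-- Membership in `w B` (as the ideal `(span {w}).map (algebraMap P B)`). -/
theorem mem_map_span_singleton_iff (w : P) (b : B) :
    b ∈ (Ideal.span {w}).map (algebraMap P B) ↔ ∃ β : B, b = w • β := by
  rw [Ideal.map_span, Set.image_singleton, Ideal.mem_span_singleton']
  constructor
  · rintro ⟨β, rfl⟩; exact ⟨β, by rw [Algebra.smul_def, mul_comm]⟩
  · rintro ⟨β, rfl⟩; exact ⟨β, by rw [Algebra.smul_def, mul_comm]⟩

theorem mk_sum_smul (w : P) {n : ℕ} (c : Fin n → P) (x : Fin n → B) :
    Ideal.Quotient.mk ((Ideal.span {w}).map (algebraMap P B)) (∑ i, c i • x i) =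
      ∑ i, Ideal.Quotient.mk (Ideal.span {w}) (c i) •
        Ideal.Quotient.mk ((Ideal.span {w}).map (algebraMap P B)) (x i) := by
  rw [map_sum]
  refine Finset.sum_congr rfl fun i _ => ?_
  rw [Ideal.Quotient.mk_smul_mk_quotient_map_quotient, Algebra.smul_def]

/-- The reduction mod `w` of a quasi-basis is linearly independent over `P/(w)`. -/
theorem linearIndependent_mk_of_quasiBasis {w : P} (hw : Prime w) {n : ℕ} (x : Fin n → B)
    (hli : LinearIndependent P x) (g : P) (hg : ¬ w ∣ g)
    (hspan : ∀ b : B, g • b ∈ Submodule.span P (Set.range x)) :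
    LinearIndependent (P ⧸ Ideal.span {w})
      (fun j => Ideal.Quotient.mk ((Ideal.span {w}).map (algebraMap P B)) (x j)) := by
  classical
  rw [Fintype.linearIndependent_iff]
  intro cb hcb i
  choose c hc using fun i => Ideal.Quotient.mk_surjective (cb i)
  have h0 : Ideal.Quotient.mk ((Ideal.span {w}).map (algebraMap P B)) (∑ i, c i • x i) = 0 := by
    rw [mk_sum_smul, ← hcb]
    refine Finset.sum_congr rfl fun i _ => ?_
    rw [hc i]
  rw [Ideal.Quotient.eq_zero_iff_mem, mem_map_span_singleton_iff] at h0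
  obtain ⟨β, hβ⟩ := h0
  have hgβ := hspan β
  rw [Submodule.mem_span_range_iff_exists_fun] at hgβ
  obtain ⟨d, hd⟩ := hgβ
  have hrel : ∑ i, (g * c i - w * d i) • x i = 0 := by
    simp only [sub_smul, Finset.sum_sub_distrib, mul_smul]
    rw [← Finset.smul_sum, ← Finset.smul_sum, hβ, hd, smul_comm, sub_self]
  have := (Fintype.linearIndependent_iff.mp hli) _ hrel i
  have hdvd : w ∣ g * c i := ⟨d i, sub_eq_zero.mp this⟩
  have hwc : w ∣ c i := (hw.dvd_or_dvd hdvd).resolve_left hg
  rw [← hc i, Ideal.Quotient.eq_zero_iff_mem, Ideal.mem_span_singleton]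
  exact hwc

theorem smul_mem_span_mk_of_quasiBasis (w : P) {n : ℕ} (x : Fin n → B) (g : P)
    (hspan : ∀ b : B, g • b ∈ Submodule.span P (Set.range x))
    (q : B ⧸ (Ideal.span {w}).map (algebraMap P B)) :
    Ideal.Quotient.mk (Ideal.span {w}) g • q ∈ Submodule.span (P ⧸ Ideal.span {w})
      (Set.range fun j => Ideal.Quotient.mk ((Ideal.span {w}).map (algebraMap P B)) (x j)) := by
  obtain ⟨b, rfl⟩ := Ideal.Quotient.mk_surjective q
  have h := hspan b
  rw [Submodule.mem_span_range_iff_exists_fun] at h ⊢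
  obtain ⟨c, hc⟩ := h
  refine ⟨fun i => Ideal.Quotient.mk (Ideal.span {w}) (c i), ?_⟩
  rw [← mk_sum_smul, hc, Ideal.Quotient.mk_smul_mk_quotient_map_quotient, Algebra.smul_def]

end Reduction

section Main

variable {P : Type u} [CommRing P] [IsDomain P] [IsIntegrallyClosed P]
  {B : Type v} [CommRing B] [IsDomain B] [IsIntegrallyClosed B] [Algebra P B]
  [Module.Finite P B] [Module.IsTorsionFree P B]

/-- **Trace reduction.** `intTrace P B β mod w` is the trace of `β mod w` on `B/wB` over `P/(w)`. -/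
theorem mk_intTrace_eq_trace {w : P} (hw : Prime w) {n : ℕ} (x : Fin n → B)
    (hli : LinearIndependent P x) (g : P) (hg : ¬ w ∣ g)
    (hspan : ∀ b : B, g • b ∈ Submodule.span P (Set.range x))
    [Module.Free (P ⧸ Ideal.span {w}) (B ⧸ (Ideal.span {w}).map (algebraMap P B))]
    [Module.Finite (P ⧸ Ideal.span {w}) (B ⧸ (Ideal.span {w}).map (algebraMap P B))]
    (β : B) :
    Ideal.Quotient.mk (Ideal.span {w}) (Algebra.intTrace P B β) =
      Algebra.trace (P ⧸ Ideal.span {w}) (B ⧸ (Ideal.span {w}).map (algebraMap P B))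
        (Ideal.Quotient.mk _ β) := by
  classical
  have hIp : (Ideal.span {w}).IsPrime := (Ideal.span_singleton_prime hw.ne_zero).mpr hw
  have hex : ∀ j, ∃ c : Fin n → P, ∑ i, c i • x i = g • (β * x j) := fun j =>
    (Submodule.mem_span_range_iff_exists_fun P).mp (hspan (β * x j))
  choose c hc using hex
  let m : Matrix (Fin n) (Fin n) P := Matrix.of fun i j => c j i
  have hm : ∀ j, g • (β * x j) = ∑ i, m i j • x i := fun j => (hc j).symm
  have hP := smul_intTrace_eq x hli g hspan β m hm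
  have hmΛ : ∀ j, Ideal.Quotient.mk (Ideal.span {w}) g •
      (Algebra.lmul (P ⧸ Ideal.span {w}) (B ⧸ (Ideal.span {w}).map (algebraMap P B))
        (Ideal.Quotient.mk _ β)) (Ideal.Quotient.mk _ (x j)) =
      ∑ i, (m.map (Ideal.Quotient.mk (Ideal.span {w}))) i j •
        Ideal.Quotient.mk ((Ideal.span {w}).map (algebraMap P B)) (x i) := by
    intro j
    have h := congrArg (Ideal.Quotient.mk ((Ideal.span {w}).map (algebraMap P B))) (hm j)
    rw [mk_sum_smul] at h
    rw [show (∑ i, (m.map (Ideal.Quotient.mk (Ideal.span {w}))) i j •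
        Ideal.Quotient.mk ((Ideal.span {w}).map (algebraMap P B)) (x i)) =
        ∑ i, Ideal.Quotient.mk (Ideal.span {w}) (m i j) •
          Ideal.Quotient.mk ((Ideal.span {w}).map (algebraMap P B)) (x i) from rfl, ← h]
    change Ideal.Quotient.mk (Ideal.span {w}) g •
      (Ideal.Quotient.mk ((Ideal.span {w}).map (algebraMap P B)) β *
        Ideal.Quotient.mk ((Ideal.span {w}).map (algebraMap P B)) (x j)) = _
    rw [← map_mul, Ideal.Quotient.mk_smul_mk_quotient_map_quotient, Algebra.smul_def]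
  have hΛ := smul_trace_eq_trace_of_quasiBasis (A := P ⧸ Ideal.span {w})
    (M := B ⧸ (Ideal.span {w}).map (algebraMap P B))
    (Algebra.lmul _ _ (Ideal.Quotient.mk _ β))
    (fun j => Ideal.Quotient.mk _ (x j))
    (linearIndependent_mk_of_quasiBasis hw x hli g hg hspan)
    (Ideal.Quotient.mk _ g)
    (smul_mem_span_mk_of_quasiBasis w x g hspan)
    (m.map (Ideal.Quotient.mk _)) hmΛ
  have hg0 : Ideal.Quotient.mk (Ideal.span {w}) g ≠ 0 := by
    rw [Ne, Ideal.Quotient.eq_zero_iff_mem, Ideal.mem_span_singleton]; exact hg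
  apply mul_left_cancel₀ hg0
  rw [Algebra.trace_apply, hΛ, ← map_mul, hP]
  simp [Matrix.trace, map_sum]

/-- **A3.** `DiscrRedStatement` (exact frozen shape of `B12/Spec2.lean`). -/
theorem discrRed : DiscrRedStatement.{u, v} := by
  intro P _ _ _ B _ _ _ _ _ _ w hw 𝔪 _ hw𝔪 n x hx n' bb
  classical
  obtain ⟨hli, g, hg𝔪, hspan⟩ := hx
  have hgw : ¬ w ∣ g := fun h => hg𝔪 (Ideal.mem_of_dvd 𝔪 h hw𝔪)
  have hIp : (Ideal.span {w}).IsPrime := (Ideal.span_singleton_prime hw.ne_zero).mpr hw
  have hfree : Module.Free (P ⧸ Ideal.span {w}) (B ⧸ (Ideal.span {w}).map (algebraMap P B)) :=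
    Module.Free.of_basis bb
  have hfin : Module.Finite (P ⧸ Ideal.span {w}) (B ⧸ (Ideal.span {w}).map (algebraMap P B)) :=
    Module.Finite.of_basis bb
  have hliΛ := linearIndependent_mk_of_quasiBasis hw x hli g hgw hspan
  have hspanΛ := smul_mem_span_mk_of_quasiBasis w x g hspan
  have hg0 : Ideal.Quotient.mk (Ideal.span {w}) g ≠ 0 := by
    rw [Ne, Ideal.Quotient.eq_zero_iff_mem, Ideal.mem_span_singleton]; exact hgw
  -- ranks
  have hrank : Module.finrank (P ⧸ Ideal.span {w})
      (B ⧸ (Ideal.span {w}).map (algebraMap P B)) = n' := by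
    rw [Module.finrank_eq_card_basis bb, Fintype.card_fin]
  have hn : n' = n := by
    apply le_antisymm
    · -- `B/wB` embeds into `span x̄` by multiplication by `ḡ`
      set E := Submodule.span (P ⧸ Ideal.span {w})
        (Set.range fun j => Ideal.Quotient.mk ((Ideal.span {w}).map (algebraMap P B)) (x j))
      let bE : Module.Basis (Fin n) (P ⧸ Ideal.span {w}) E := Module.Basis.span hliΛ
      have : Module.Free (P ⧸ Ideal.span {w}) E := Module.Free.of_basis bE
      have : Module.Finite (P ⧸ Ideal.span {w}) E := Module.Finite.of_basis bE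
      let φ : (B ⧸ (Ideal.span {w}).map (algebraMap P B)) →ₗ[P ⧸ Ideal.span {w}] E :=
        { toFun := fun y => ⟨Ideal.Quotient.mk (Ideal.span {w}) g • y, hspanΛ y⟩
          map_add' := fun y z => Subtype.ext (by simp [smul_add])
          map_smul' := fun r y => Subtype.ext (by simp [smul_comm (Ideal.Quotient.mk _ g) r]) }
      have hφ : Function.Injective φ := by
        intro y z hyz
        have h1 : Ideal.Quotient.mk (Ideal.span {w}) g • y =
            Ideal.Quotient.mk (Ideal.span {w}) g • z := congrArg Subtype.val hyz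
        have h2 : Ideal.Quotient.mk (Ideal.span {w}) g • (y - z) = 0 := by
          rw [smul_sub, h1, sub_self]
        exact sub_eq_zero.mp ((smul_eq_zero.mp h2).resolve_left hg0)
      have h1 := LinearMap.finrank_le_finrank_of_injective hφ
      rw [hrank, Module.finrank_eq_card_basis bE, Fintype.card_fin] at h1
      exact h1
    · have h1 := hliΛ.fintype_card_le_finrank
      rw [Fintype.card_fin, hrank] at h1
      exact h1
  subst hn
  refine ⟨rfl, ?_⟩
  -- the matrices
  let Pm : Matrix (Fin n') (Fin n') (P ⧸ Ideal.span {w}) :=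
    Matrix.of fun i j => bb.repr (Ideal.Quotient.mk _ (x i)) j
  have hex : ∀ i, ∃ c : Fin n' → (P ⧸ Ideal.span {w}),
      ∑ j, c j • Ideal.Quotient.mk ((Ideal.span {w}).map (algebraMap P B)) (x j) =
        Ideal.Quotient.mk (Ideal.span {w}) g • bb i := fun i =>
    (Submodule.mem_span_range_iff_exists_fun _).mp (hspanΛ (bb i))
  choose V hV using hex
  let Vm : Matrix (Fin n') (Fin n') (P ⧸ Ideal.span {w}) := Matrix.of V
  have hVP : Vm * Pm = Ideal.Quotient.mk (Ideal.span {w}) g • (1 : Matrix _ _ _) := by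
    ext i k
    have h := congrArg (fun y => bb.repr y k) (hV i)
    simp only [map_sum, map_smul, Finsupp.coe_finsetSum, Finsupp.coe_smul, Finset.sum_apply,
      Pi.smul_apply, smul_eq_mul, Module.Basis.repr_self, Finsupp.single_apply] at h
    rw [Matrix.mul_apply, Matrix.smul_apply, Matrix.one_apply]
    simp only [Vm, Pm, Matrix.of_apply, smul_eq_mul]
    rw [h]
  have hdet : Vm.det * Pm.det = Ideal.Quotient.mk (Ideal.span {w}) g ^ n' := by
    rw [← Matrix.det_mul, hVP, Matrix.det_smul, Matrix.det_one, mul_one, Fintype.card_fin]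
  obtain ⟨u, hu⟩ := Ideal.Quotient.mk_surjective Pm.det
  obtain ⟨v, hv⟩ := Ideal.Quotient.mk_surjective Vm.det
  refine ⟨u, ?_, ?_⟩
  · intro hu𝔪
    have h1 : Ideal.Quotient.mk (Ideal.span {w}) (v * u - g ^ n') = 0 := by
      rw [map_sub, map_mul, map_pow, hu, hv, hdet, sub_self]
    rw [Ideal.Quotient.eq_zero_iff_mem, Ideal.mem_span_singleton] at h1
    have h2 : v * u - g ^ n' ∈ 𝔪 := Ideal.mem_of_dvd 𝔪 h1 hw𝔪
    have h3 : g ^ n' ∈ 𝔪 := by
      have := 𝔪.sub_mem (𝔪.mul_mem_left v hu𝔪) h2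
      simpa using this
    exact hg𝔪 (Ideal.IsPrime.mem_of_pow_mem inferInstance n' h3)
  · -- discriminants
    have hxb : (fun i => Ideal.Quotient.mk ((Ideal.span {w}).map (algebraMap P B)) (x i)) =
        (Pm.map (algebraMap (P ⧸ Ideal.span {w})
          (B ⧸ (Ideal.span {w}).map (algebraMap P B)))).mulVec bb := by
      funext i
      simp only [Matrix.mulVec, dotProduct, Matrix.map_apply, Pm, Matrix.of_apply]
      conv_lhs => rw [← bb.sum_repr (Ideal.Quotient.mk _ (x i))]
      refine Finset.sum_congr rfl fun j _ => ?_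
      rw [Algebra.smul_def]
    have hdisc : Algebra.discr (P ⧸ Ideal.span {w})
        (fun i => Ideal.Quotient.mk ((Ideal.span {w}).map (algebraMap P B)) (x i)) =
        Pm.det ^ 2 * Algebra.discr (P ⧸ Ideal.span {w}) bb := by
      rw [hxb, Algebra.discr_of_matrix_mulVec]
    rw [hu, ← hdisc, Algebra.discr_def, intDiscr, RingHom.map_det]
    congr 1
    ext i j
    simp only [RingHom.mapMatrix_apply, Matrix.map_apply, Matrix.of_apply,
      Algebra.traceMatrix_apply, Algebra.traceForm_apply]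
    rw [mk_intTrace_eq_trace hw x hli g hgw hspan, map_mul]

end Main

end Fermat.Agent.S18.B12.H393

end
end
-- ===== PACK-END S18/B12/H393/DiscrRed.lean

-- ===== PACK-BEGIN S18/H394/KummerFinite.lean
section



/-!
# S18, Route K, pieces b3+b4 (helper394): finiteness of the Kummer chart

If `B` is contained in a finitely generated `R[x]`-submodule of `F` and `u` has a denominator in
`B`, then `kummerSub B` is finitely generated over `R[x]` (in the explicit form consumed by the
two-chart connectedness theorem).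
-/

set_option autoImplicit false

namespace Fermat.Agent.S18.H394

open Polynomial

section Finite

variable {R F C : Type*} [CommRing R] [IsNoetherianRing R] [Field F] [Algebra R F]
  [CommRing C] [Algebra F C] [Algebra R C] [IsScalarTower R F C]

omit [IsNoetherianRing R] [Algebra R C] [IsScalarTower R F C] [CommRing C] [Algebra F C] in
theorem pow_mul_mem_of_mem_degSet {m : ℕ} (hm0 : 0 < m) {u : F} (hu : u ≠ 0)
    {B : Subalgebra R F} (hB : RootClosed m B) {d : F} (hdB : d ∈ B) (hdu : d * u⁻¹ ∈ B)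
    {k : ℕ} {f : F} (hf : f ∈ degSet B m u k) : d ^ k * f ∈ B := by
  apply hB
  obtain ⟨m', rfl⟩ : ∃ m', m = m' + 1 := Nat.exists_eq_succ_of_ne_zero hm0.ne'
  have hf' : f ^ (m' + 1) * u ^ k ∈ B := hf
  have key : (d ^ k * f) ^ (m' + 1) = (d * u⁻¹) ^ k * (d ^ k) ^ m' * (f ^ (m' + 1) * u ^ k) := by
    have hu' : (u⁻¹) ^ k * u ^ k = 1 := by rw [← mul_pow, inv_mul_cancel₀ hu, one_pow]
    calc (d ^ k * f) ^ (m' + 1) = d ^ k * (d ^ k) ^ m' * f ^ (m' + 1) * 1 := by ring
      _ = d ^ k * (d ^ k) ^ m' * f ^ (m' + 1) * ((u⁻¹) ^ k * u ^ k) := by rw [hu']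
      _ = (d * u⁻¹) ^ k * (d ^ k) ^ m' * (f ^ (m' + 1) * u ^ k) := by ring
  rw [key]
  exact B.mul_mem (B.mul_mem (B.pow_mem hdu k) (B.pow_mem (B.pow_mem hdB k) m')) hf'

theorem kummerSub_fg (pb : PowerBasis F C) (u : F) (hu : u ≠ 0)
    (hT : pb.gen ^ pb.dim = algebraMap F C u) (hm0 : 0 < pb.dim)
    (B : Subalgebra R F) (hB : RootClosed pb.dim B)
    (x : F) (hx : x ∈ B)
    (hfin : ∃ s : Finset F, ∀ b ∈ B, ∃ P : F → Polynomial R,
      b = ∑ β ∈ s, Polynomial.aeval x (P β) * β)
    (hden : ∃ d ∈ B, d ≠ 0 ∧ d * u⁻¹ ∈ B) :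
    ∃ S : Finset C, (∀ c ∈ S, c ∈ kummerSub pb u hT hm0 B hB) ∧
      ∀ b ∈ kummerSub pb u hT hm0 B hB, ∃ P : C → Polynomial R,
        b = ∑ c ∈ S, Polynomial.aeval (algebraMap F C x) (P c) * c := by
  classical
  letI modF : Module R[X] F := Module.compHom F (aeval x : R[X] →ₐ[R] F).toRingHom
  letI modC : Module R[X] C :=
    Module.compHom C (aeval (algebraMap F C x) : R[X] →ₐ[R] C).toRingHom
  have smulF : ∀ (p : R[X]) (f : F), p • f = aeval x p * f := fun _ _ => rfl
  have smulC : ∀ (p : R[X]) (c : C), p • c = aeval (algebraMap F C x) p * c := fun _ _ => rfl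
  have haevalB : ∀ p : R[X], aeval x p ∈ B := fun p => by
    have : aeval x p ∈ Algebra.adjoin R {x} := Polynomial.aeval_mem_adjoin_singleton R x
    exact (Algebra.adjoin_le (Set.singleton_subset_iff.mpr hx)) this
  set K := kummerSub pb u hT hm0 B hB with hK
  have haevalC : ∀ p : R[X], aeval (algebraMap F C x) p = algebraMap F C (aeval x p) := fun p =>
    Polynomial.aeval_algebraMap_apply C x p
  obtain ⟨s₀, hs₀⟩ := hfin
  obtain ⟨d, hdB, hd0, hdu⟩ := hden
  -- the ambient finitely generated module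
  let N : Submodule R[X] F := Submodule.span R[X] (s₀ : Set F)
  have hNfg : N.FG := Submodule.fg_span (Finset.finite_toSet s₀)
  have hBN : ∀ b ∈ B, b ∈ N := by
    intro b hb
    obtain ⟨P, hP⟩ := hs₀ b hb
    rw [hP]
    refine N.sum_mem fun β hβ => ?_
    rw [← smulF]
    exact N.smul_mem (P β) (Submodule.subset_span hβ)
  -- the graded pieces as `R[X]`-submodules of `F`
  let I : ℕ → Submodule R[X] F := fun k =>
    { carrier := degSet B pb.dim u k
      add_mem' := fun ha hb => add_mem_degSet hB ha hb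
      zero_mem' := zero_mem_degSet hm0 k
      smul_mem' := fun p f hf => by
        show p • f ∈ degSet B pb.dim u k
        rw [smulF]
        exact smul_mem_degSet (haevalB p) hf }
  -- multiplication by a constant as an `R[X]`-linear map
  let mulL : F → (F →ₗ[R[X]] F) := fun a =>
    { toFun := fun f => a * f
      map_add' := fun f g => mul_add a f g
      map_smul' := fun p f => by
        show a * (p • f) = p • (a * f)
        rw [smulF, smulF]; ring }
  have hIfg : ∀ k, (I k).FG := by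
    intro k
    have hJle : (I k).map (mulL (d ^ k)) ≤ N := by
      rintro _ ⟨f, hf, rfl⟩
      exact hBN _ (pow_mul_mem_of_mem_degSet hm0 hu hB hdB hdu hf)
    have hJfg : ((I k).map (mulL (d ^ k))).FG := Submodule.FG.of_le hNfg hJle
    have hI : I k = ((I k).map (mulL (d ^ k))).map (mulL (d ^ k)⁻¹) := by
      rw [← Submodule.map_comp]
      have : (mulL (d ^ k)⁻¹).comp (mulL (d ^ k)) = LinearMap.id := by
        apply LinearMap.ext
        intro f
        show (d ^ k)⁻¹ * (d ^ k * f) = f
        rw [← mul_assoc, inv_mul_cancel₀ (pow_ne_zero k hd0), one_mul]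
      rw [this, Submodule.map_id]
    rw [hI]
    exact hJfg.map _
  -- the Kummer algebra as an `R[X]`-submodule of `C`
  let K' : Submodule R[X] C :=
    { carrier := K
      add_mem' := fun ha hb => K.add_mem ha hb
      zero_mem' := K.zero_mem
      smul_mem' := fun p c hc => by
        show p • c ∈ K
        rw [smulC, haevalC]
        exact K.mul_mem (algebraMap_mem_kummerSub hT hm0 hB (haevalB p)) hc }
  let φ : ℕ → (F →ₗ[R[X]] C) := fun k =>
    { toFun := fun f => algebraMap F C f * pb.gen ^ k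
      map_add' := fun f g => by rw [map_add, add_mul]
      map_smul' := fun p f => by
        show algebraMap F C (p • f) * pb.gen ^ k = p • (algebraMap F C f * pb.gen ^ k)
        rw [smulF, smulC, haevalC, map_mul, mul_assoc] }
  have hK' : K' = ⨆ k : Fin pb.dim, (I (k : ℕ)).map (φ (k : ℕ)) := by
    apply le_antisymm
    · intro c hc
      have hcK : c ∈ K := hc
      rw [← sum_co pb c]
      refine Submodule.sum_mem _ fun k _ => ?_
      refine (le_iSup (fun k : Fin pb.dim => (I (k : ℕ)).map (φ (k : ℕ))) k) ?_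
      exact ⟨co pb k c, hcK k, rfl⟩
    · refine iSup_le fun k => ?_
      rintro _ ⟨f, hf, rfl⟩
      exact monomial_mem_kummerSub hT hm0 hB hf
  have hK'fg : K'.FG := by
    rw [hK']
    exact Submodule.fg_iSup _ fun k => (hIfg k).map _
  obtain ⟨S, hS⟩ := hK'fg
  refine ⟨S, fun c hc => ?_, fun b hb => ?_⟩
  · have : c ∈ K' := hS ▸ Submodule.subset_span hc
    exact this
  · have hb' : b ∈ Submodule.span R[X] (S : Set C) := by rw [hS]; exact hb
    obtain ⟨f, -, hf⟩ := Submodule.mem_span_finset.mp hb'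
    exact ⟨f, hf.symm⟩

end Finite

end Fermat.Agent.S18.H394

end
-- ===== PACK-END S18/H394/KummerFinite.lean

-- ===== PACK-BEGIN S17/H934/Pos.lean
section



/-!
# S17 / tower H, formal leaf F-POS (helper934): the positivity inequality

`pos : P.WDStatement q → P.EllStatement l → P.KeyStatement → P.PosStatement q l`
for an arbitrary pairing package `P` (architect helper500, `H500/Package.lean`).

Proof.  For `x : A` pick good representatives `D₁`, `D` of degree `d` with `D` disjoint from `D₁`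
(`mov1`), and a small section `a` through `D` (`mink`), `Z a = D + D'`.  Then
`N D + N D' = N (Z a) ≤ m ht a + C ≤ (m/k) (Pl D + C) ≤ (m/k) (N D - δ D + C')` (`bez`, `vdm`), and
`N D - δ D ≤ (q x - l x / 2) + (k/m) N D + C''` by the key formula, `WD` and `Ell`; the `N D` terms
cancel.
-/

set_option autoImplicit false

namespace Fermat.Agent.S17.H934

open Fermat.Agent.S17.H500

variable {A : Type} [AddCommGroup A]

/-- **F-POS.** -/
theorem pos (P : PairingPackage A) (q l : A → ℝ) (hq : P.WDStatement q)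
    (hl : P.EllStatement l) (hKey : P.KeyStatement) : P.PosStatement q l := by
  obtain ⟨Cq, hq⟩ := hq
  obtain ⟨⟨Cl, hl⟩, -⟩ := hl
  obtain ⟨Ck, hKey⟩ := hKey
  obtain ⟨Cb, hbez⟩ := P.bez
  obtain ⟨Cv, hvdm⟩ := P.vdm
  obtain ⟨Cm, hmink⟩ := P.mink
  -- numerics
  have hg : (1 : ℝ) ≤ P.g := by exact_mod_cast P.one_le_g
  have hgd : (2 : ℝ) * P.g ≤ P.d := by exact_mod_cast P.two_g_le_d
  have hdm : (4 : ℝ) * P.d + 2 * P.g ≤ P.m := by exact_mod_cast P.four_d_le_m
  have hm : (0 : ℝ) < P.m := by linarith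
  have hk : (0 : ℝ) < P.k := by unfold PairingPackage.k; linarith
  have hkdef : P.k = (P.m : ℝ) - P.d + 1 - P.g := rfl
  have hmk : (0 : ℝ) ≤ P.m / P.k := (div_pos hm hk).le
  refine ⟨P.m / P.k * (Cv + Cm + (Cq + Cl / 2 + Ck)) + Cb, fun x => ?_⟩
  obtain ⟨D₁, hD₁deg, hD₁cls, -, hD₁good⟩ := P.mov1 x 0
  obtain ⟨D, hDdeg, hDcls, hDdisj, hDgood⟩ := P.mov1 x D₁
  obtain ⟨a, D', hZ, hht⟩ := hmink D hDgood hDdeg
  have hdegZ := P.deg_Z a
  rw [hZ, map_add, hDdeg] at hdegZ
  have hclsZ := P.cls_Z a
  rw [hZ, map_add, hDcls] at hclsZ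
  refine ⟨D', by omega, eq_neg_of_add_eq_zero_right hclsZ, ?_⟩
  -- the chain of inequalities
  have h1 : P.N D + P.N D' ≤ P.m * P.ht a + Cb := by
    have := hbez a
    rw [hZ, P.N_add] at this
    have := (abs_le.1 this).2
    linarith
  have h2 : P.k * P.ht a ≤ P.N D - P.δ D + Cv + Cm := by
    have := hvdm D hDgood hDdeg
    rw [hkdef]
    linarith
  have h3 := (abs_le.1 (hKey D D₁ hDdeg hD₁deg (hDcls.trans hD₁cls.symm) hDgood hD₁good
    hDdisj)).2
  have h4 := (abs_le.1 (hq x D D₁ hDdeg hD₁deg hDcls hD₁cls hDgood hD₁good hDdisj)).1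
  have h5 := (abs_le.1 (hl x D hDdeg hDcls hDgood)).2
  -- `N D - δ D ≤ (q x - l x / 2) + (k/m) N D + C''`
  have hkm : (1 - (P.d : ℝ) / P.m) * P.N D - ((2 * (P.g : ℝ) - 2) / P.m) * P.N D / 2 =
      P.k / P.m * P.N D := by
    rw [hkdef]
    field_simp
    ring
  have h6 : P.N D - P.δ D ≤ (q x - l x / 2) + P.k / P.m * P.N D + (Cq + Cl / 2 + Ck) := by
    rw [← hkm]
    linarith
  -- `m ht a ≤ (m/k) (N D - δ D + C')`
  have h7 : P.m * P.ht a ≤ P.m / P.k * (P.N D - P.δ D + Cv + Cm) := by
    have h := mul_le_mul_of_nonneg_left h2 hmk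
    have e : P.m / P.k * (P.k * P.ht a) = P.m * P.ht a := by
      field_simp
    rw [e] at h
    exact h
  have h8 : P.m / P.k * (P.N D - P.δ D + Cv + Cm) ≤
      P.m / P.k * ((q x - l x / 2) + P.k / P.m * P.N D + (Cq + Cl / 2 + Ck) + Cv + Cm) :=
    mul_le_mul_of_nonneg_left (by linarith) hmk
  have e9 : P.m / P.k * ((q x - l x / 2) + P.k / P.m * P.N D + (Cq + Cl / 2 + Ck) + Cv + Cm) =
      P.m / P.k * (q x - l x / 2) + P.N D + P.m / P.k * (Cv + Cm + (Cq + Cl / 2 + Ck)) := by
    field_simp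
    ring
  rw [e9] at h8
  linarith

end Fermat.Agent.S17.H934

end
-- ===== PACK-END S17/H934/Pos.lean

-- ===== PACK-BEGIN S17/H924/EndOf.lean
section


/-!
# S17 / tower H, formal leaf F-END (helper924)

`end_of : QPStatement q → P.EllStatement l → P.PosStatement q l → EndStatement A`.

`ν y := sInf {N D' | deg D' = m - d ∧ cls D' = y}`; the set is nonempty by `PosStatement`
(applied to `-y`), bounded below by `N_nonneg`; Northcott for `ν` from `P.northcott`.
-/

set_option autoImplicit false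

namespace Fermat.Agent.S17.H924

open Fermat.Agent.S17.H500

variable {A : Type} [AddCommGroup A]

/-- The set of naive heights of the representatives of degree `m - d` of a class. -/
def repHeights (P : PairingPackage A) (y : A) : Set ℝ :=
  {r | ∃ D' : P.Dv, P.deg D' = P.m - P.d ∧ P.cls D' = y ∧ P.N D' = r}

/-- `ν y` : the least naive height of a representative of degree `m - d`. -/
noncomputable def nuOf (P : PairingPackage A) (y : A) : ℝ := sInf (repHeights P y)

theorem repHeights_bddBelow (P : PairingPackage A) (y : A) : BddBelow (repHeights P y) :=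
  ⟨0, fun _ ⟨D', _, _, h⟩ => h ▸ P.N_nonneg D'⟩

theorem k_pos (P : PairingPackage A) : 0 < P.k := by
  have h1 := P.one_le_g
  have h2 := P.two_g_le_d
  have h3 := P.four_d_le_m
  have h4 : (P.d : ℝ) + P.g + 1 ≤ P.m := by
    have : P.d + P.g + 1 ≤ P.m := by omega
    exact_mod_cast this
  unfold PairingPackage.k
  linarith

theorem m_pos (P : PairingPackage A) : (0 : ℝ) < P.m := by
  have h1 := P.one_le_g
  have h2 := P.two_g_le_d
  have h3 := P.four_d_le_m
  have : 0 < P.m := by omega
  exact_mod_cast this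

/-- **F-END.** -/
theorem end_of (P : PairingPackage A) (q l : A → ℝ) (hqp : QPStatement q)
    (hl : P.EllStatement l) (hpos : P.PosStatement q l) : EndStatement A := by
  obtain ⟨C₁, hC₁⟩ := hqp
  obtain ⟨-, C₂, hC₂⟩ := hl
  obtain ⟨C₃, hC₃⟩ := hpos
  -- nonemptiness of the sets of representatives
  have hne : ∀ y : A, (repHeights P y).Nonempty := by
    intro y
    obtain ⟨D', hdeg, hcls, -⟩ := hC₃ (-y)
    exact ⟨P.N D', D', hdeg, by rw [hcls, neg_neg], rfl⟩
  refine ⟨q, l, nuOf P, max C₁ C₂, P.m / P.k, C₃, div_pos (m_pos P) (k_pos P), ?_, ?_, ?_, ?_, ?_⟩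
  · exact fun x y => (hC₁ x y).trans (le_max_left _ _)
  · exact fun x y => (hC₂ x y).trans (le_max_right _ _)
  · intro x
    exact le_csInf (hne x) fun r ⟨D', _, _, h⟩ => h ▸ P.N_nonneg D'
  · intro B
    have hfin := P.northcott (P.m - P.d) (B + 1)
    refine (hfin.image P.cls).subset ?_
    intro y hy
    have hy' : nuOf P y ≤ B := hy
    have hlt : sInf (repHeights P y) < B + 1 := lt_of_le_of_lt hy' (by linarith)
    obtain ⟨r, ⟨D', hdeg, hcls, hN⟩, hr⟩ := exists_lt_of_csInf_lt (hne y) hlt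
    exact ⟨D', ⟨hdeg.le, by rw [hN]; exact hr.le⟩, hcls⟩
  · intro x
    obtain ⟨D', hdeg, hcls, hN⟩ := hC₃ x
    exact (csInf_le (repHeights_bddBelow P (-x)) ⟨D', hdeg, hcls, rfl⟩).trans hN

end Fermat.Agent.S17.H924

end
-- ===== PACK-END S17/H924/EndOf.lean

-- ===== PACK-BEGIN S17/H380/AbsBound.lean
section



set_option linter.unusedSectionVars false

namespace Fermat.Agent.S17.H380

open NumberField Height Module MvPolynomial

section FinitePart

variable {K L : Type*} [Field K] [NumberField K] [Field L] [NumberField L] [Algebra K L]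
variable {ι : Type*} [_root_.Finite ι]

theorem prod_infinitePlace_iSup_pos {x : ι → K} (hx : x ≠ 0) :
    0 < ∏ v : InfinitePlace K, (⨆ i, v (x i)) ^ v.mult := by
  obtain ⟨i₀, hi₀⟩ := Function.ne_iff.mp hx
  refine Finset.prod_pos fun v _ => pow_pos ?_ _
  refine lt_of_lt_of_le ?_ (Finite.le_ciSup_of_le i₀ le_rfl)
  exact (InfinitePlace.pos_iff (w := v)).mpr hi₀

/-- **Degree formula, finite part**. -/
theorem finprod_finitePlace_iSup_algebraMap {x : ι → K} (hx : x ≠ 0) :
    ∏ᶠ w : FinitePlace L, ⨆ i, w (algebraMap K L (x i))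
      = (∏ᶠ v : FinitePlace K, ⨆ i, v (x i)) ^ finrank K L := by
  have hx' : (fun i => algebraMap K L (x i)) ≠ 0 := by
    obtain ⟨i₀, hi₀⟩ := Function.ne_iff.mp hx
    exact Function.ne_iff.mpr ⟨i₀, by simpa using hi₀⟩
  have h := mulHeight_algebraMap (L := L) x
  rw [NumberField.mulHeight_eq hx, NumberField.mulHeight_eq hx', mul_pow] at h
  have hinf : ∏ w : InfinitePlace L, (⨆ i, w (algebraMap K L (x i))) ^ w.mult
      = (∏ v : InfinitePlace K, (⨆ i, v (x i)) ^ v.mult) ^ finrank K L := by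
    rw [← prod_infinitePlace_comap (L := L) (fun v : InfinitePlace K => ⨆ i, v (x i))]
    rfl
  rw [hinf] at h
  exact mul_left_cancel₀ (pow_pos (prod_infinitePlace_iSup_pos hx) _).ne' h

end FinitePart


section Bound

variable {K L : Type*} [Field K] [NumberField K] [Field L] [NumberField L] [Algebra K L]
variable {ι ι' : Type*} [_root_.Finite ι']

/-- A supremum of maxima with `1` of suprema, as a single supremum over an `Option`-indexed
family. -/
theorem iSup_max_iSup_one_eq [Nonempty ι'] {S : ι' → Type*} [∀ j, _root_.Finite (S j)]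
    (c : (j : ι') → S j → ℝ) :
    ⨆ j, max (⨆ s : S j, c j s) 1
      = ⨆ i : Option (Σ j, S j), Option.elim i 1 (fun a => c a.1 a.2) := by
  refine le_antisymm (ciSup_le fun j => max_le ?_ ?_) (ciSup_le fun i => ?_)
  · refine Real.iSup_le (fun s => ?_) ?_
    · exact Finite.le_ciSup_of_le (some ⟨j, s⟩) le_rfl
    · exact le_trans zero_le_one (Finite.le_ciSup_of_le none le_rfl)
  · exact Finite.le_ciSup_of_le none le_rfl
  · obtain ⟨j₀⟩ := ‹Nonempty ι'›
    rcases i with _ | ⟨j, s⟩
    · exact Finite.le_ciSup_of_le j₀ (le_max_right _ _)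
    · refine Finite.le_ciSup_of_le j (le_max_of_le_left ?_)
      exact Finite.le_ciSup_of_le s le_rfl

/-- The tuple consisting of `1` and all the coefficients of a family of polynomials. -/
noncomputable def coeffTuple (p : ι' → MvPolynomial ι K) :
    Option (Σ j, (p j).support) → K :=
  fun i => Option.elim i 1 (fun a => coeff a.2.1 (p a.1))

theorem coeffTuple_ne_zero (p : ι' → MvPolynomial ι K) : coeffTuple p ≠ 0 :=
  Function.ne_iff.mpr ⟨none, by simp [coeffTuple]⟩

theorem iSup_support_map (w : AbsoluteValue L ℝ) (q : MvPolynomial ι K) :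
    ⨆ s : (map (algebraMap K L) q).support, w (coeff s.1 (map (algebraMap K L) q))
      = ⨆ s : q.support, w (algebraMap K L (coeff s.1 q)) := by
  have hsupp : (map (algebraMap K L) q).support = q.support :=
    support_map_of_injective q (algebraMap K L).injective
  refine Equiv.iSup_congr (Equiv.subtypeEquivRight (fun s => by rw [hsupp])) (fun s => ?_)
  simp [coeff_map]

/-- The nonarchimedean local factor of `mulHeightBound` as a supremum over `coeffTuple`. -/
theorem nonarch_factor_eq [Nonempty ι'] (v : AbsoluteValue K ℝ) (p : ι' → MvPolynomial ι K) :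
    ⨆ j, max (⨆ s : (p j).support, v (coeff s.1 (p j))) 1 = ⨆ i, v (coeffTuple p i) := by
  rw [iSup_max_iSup_one_eq (fun j (s : (p j).support) => v (coeff s.1 (p j)))]
  refine iSup_congr fun i => ?_
  rcases i with _ | a <;> simp [coeffTuple]

theorem nonarch_factor_map_eq [Nonempty ι'] (w : AbsoluteValue L ℝ)
    (p : ι' → MvPolynomial ι K) :
    ⨆ j, max (⨆ s : (map (algebraMap K L) (p j)).support,
        w (coeff s.1 (map (algebraMap K L) (p j)))) 1
      = ⨆ i, w (algebraMap K L (coeffTuple p i)) := by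
  simp_rw [iSup_support_map]
  rw [iSup_max_iSup_one_eq (fun j (s : (p j).support) => w (algebraMap K L (coeff s.1 (p j))))]
  refine iSup_congr fun i => ?_
  rcases i with _ | a <;> simp [coeffTuple]

theorem arch_term_map_eq (w : AbsoluteValue L ℝ) (q : MvPolynomial ι K) :
    (AddMonoidAlgebra.coeff (map (algebraMap K L) q)).sum (fun _ c => w c)
      = (AddMonoidAlgebra.coeff q).sum (fun _ c => w (algebraMap K L c)) := by
  have hsupp : (map (algebraMap K L) q).support = q.support :=
    support_map_of_injective q (algebraMap K L).injective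
  change ∑ s ∈ (map (algebraMap K L) q).support, w (coeff s (map (algebraMap K L) q))
    = ∑ s ∈ q.support, w (algebraMap K L (coeff s q))
  rw [hsupp]
  refine Finset.sum_congr rfl fun s _ => ?_
  rw [coeff_map]

/-- **Degree formula for `mulHeightBound`**. -/
theorem mulHeightBound_map [Nonempty ι'] (p : ι' → MvPolynomial ι K) :
    mulHeightBound (fun j => map (algebraMap K L) (p j)) = mulHeightBound p ^ finrank K L := by
  rw [mulHeightBound_eq, mulHeightBound_eq, mul_pow, prod_archAbsVal_eq, prod_archAbsVal_eq,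
    prod_nonarchAbsVal_eq (fun v => ⨆ j, max (⨆ s : (p j).support, v (coeff s.1 (p j))) 1),
    prod_nonarchAbsVal_eq (fun w => ⨆ j, max (⨆ s : (map (algebraMap K L) (p j)).support,
      w (coeff s.1 (map (algebraMap K L) (p j)))) 1)]
  congr 1
  · rw [← prod_infinitePlace_comap (L := L)
      (fun v : InfinitePlace K => ⨆ j, (AddMonoidAlgebra.coeff (p j)).sum (fun _ c => v.val c))]
    refine Finset.prod_congr rfl fun w _ => ?_
    congr 1
    refine iSup_congr fun j => ?_
    rw [arch_term_map_eq]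
    rfl
  · simp_rw [nonarch_factor_map_eq, nonarch_factor_eq]
    exact finprod_finitePlace_iSup_algebraMap (L := L) (coeffTuple_ne_zero p)

end Bound

end Fermat.Agent.S17.H380

end
-- ===== PACK-END S17/H380/AbsBound.lean

-- ===== PACK-BEGIN S17/H740/SegreCone.lean
section



/-!
# The Segre cone of a product of cones

For homogeneous ideals `I a ⊆ k[X_j : j ∈ ι a]` (one per slot `a : α`) and an algebraically closed
(or just infinite) extension `L` of `k`, `segreIdeal L I` is the ideal of all polynomials in the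
Segre variables that vanish at every Segre point `segrePt u`, `u a` in the cone of `I a`.

* `homIdeal_segreIdeal` : it is a homogeneous ideal;
* `exists_eq_segrePt`   : every nonzero `L`-point of its zero set is a Segre point `segrePt u` with
  every `u a` a nonzero point of the cone of `I a`.

Mathlib + `H500.NullCert` only.  Leaf SEGRE of the heights tower of row S17.
-/

set_option autoImplicit false

noncomputable section

namespace Fermat.Agent.S17.H740

open MvPolynomial
open Fermat.Agent.S17.H500 (HomIdeal)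

section Smul

variable {σ R A : Type*} [CommSemiring R] [CommSemiring A] [Algebra R A]

theorem aeval_smul_of_isHomogeneous {f : MvPolynomial σ R} {n : ℕ} (hf : f.IsHomogeneous n)
    (t : A) (v : σ → A) : aeval (t • v) f = t ^ n * aeval v f := by
  classical
  conv_lhs => rw [← f.support_sum_monomial_coeff]
  conv_rhs => rw [← f.support_sum_monomial_coeff]
  rw [map_sum, map_sum, Finset.mul_sum]
  refine Finset.sum_congr rfl fun d hd => ?_
  rw [aeval_monomial, aeval_monomial]
  have hdeg : n = ∑ i ∈ d.support, d i := hf.degree_eq_sum_deg_support hd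
  have : (d.prod fun i e => (t • v) i ^ e) = t ^ n * d.prod fun i e => v i ^ e := by
    simp only [Finsupp.prod, Pi.smul_apply, smul_eq_mul, mul_pow, Finset.prod_mul_distrib,
      Finset.prod_pow_eq_pow_sum, ← hdeg]
  rw [this]
  ring

theorem aeval_smul_eq_sum (f : MvPolynomial σ R) (t : A) (v : σ → A) :
    aeval (t • v) f =
      ∑ n ∈ Finset.range (f.totalDegree + 1), t ^ n * aeval v (homogeneousComponent n f) := by
  conv_lhs => rw [← sum_homogeneousComponent f]
  rw [map_sum]
  exact Finset.sum_congr rfl fun n _ =>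
    aeval_smul_of_isHomogeneous (homogeneousComponent_isHomogeneous n f) t v

end Smul

variable {k : Type*} [Field k] {α : Type*} [Fintype α] {ι : α → Type*}
variable (L : Type*) [Field L] [Algebra k L]

/-- `u` is a point of the product of the cones of the ideals `I a`. -/
def InCones (I : ∀ a, Ideal (MvPolynomial (ι a) k)) (u : (a : α) → ι a → L) : Prop :=
  ∀ a, ∀ f ∈ I a, aeval (u a) f = 0

/-- The vanishing ideal of the Segre image of the product of the cones. -/
def segreIdeal (I : ∀ a, Ideal (MvPolynomial (ι a) k)) :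
    Ideal (MvPolynomial ((a : α) → ι a) k) where
  carrier := {P | ∀ u : (a : α) → ι a → L, InCones L I u → aeval (segrePt u) P = 0}
  add_mem' := by
    intro P Q hP hQ u hu
    rw [map_add, hP u hu, hQ u hu, add_zero]
  zero_mem' := by
    intro u _
    exact map_zero _
  smul_mem' := by
    intro c P hP u hu
    rw [smul_eq_mul, map_mul, hP u hu, mul_zero]

variable {L}

theorem mem_segreIdeal {I : ∀ a, Ideal (MvPolynomial (ι a) k)}
    {P : MvPolynomial ((a : α) → ι a) k} :
    P ∈ segreIdeal L I ↔ ∀ u : (a : α) → ι a → L, InCones L I u → aeval (segrePt u) P = 0 :=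
  Iff.rfl

omit [Fintype α] in
theorem inCones_update_smul [DecidableEq α] {I : ∀ a, Ideal (MvPolynomial (ι a) k)}
    (hI : ∀ a, HomIdeal (I a)) {u : (a : α) → ι a → L} (hu : InCones L I u) (a₀ : α) (t : L) :
    InCones L I (Function.update u a₀ (t • u a₀)) := by
  intro a f hf
  by_cases h : a = a₀
  · subst h
    rw [Function.update_self, aeval_smul_eq_sum]
    refine Finset.sum_eq_zero fun n _ => ?_
    rw [hu a _ (hI a f hf n), mul_zero]
  · rw [Function.update_of_ne h]
    exact hu a f hf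

theorem segrePt_update_smul [DecidableEq α] (u : (a : α) → ι a → L) (a₀ : α) (t : L) :
    segrePt (Function.update u a₀ (t • u a₀)) = t • segrePt u := by
  funext f
  simp only [segrePt, Pi.smul_apply, smul_eq_mul]
  rw [← Finset.mul_prod_erase Finset.univ _ (Finset.mem_univ a₀),
    ← Finset.mul_prod_erase Finset.univ (fun a => u a (f a)) (Finset.mem_univ a₀)]
  rw [Function.update_self, Pi.smul_apply, smul_eq_mul, mul_assoc]
  congr 2
  refine Finset.prod_congr rfl fun a ha => ?_
  rw [Function.update_of_ne (Finset.ne_of_mem_erase ha)]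

/-- The Segre ideal is homogeneous. -/
theorem homIdeal_segreIdeal [Nonempty α] [Infinite L] {I : ∀ a, Ideal (MvPolynomial (ι a) k)}
    (hI : ∀ a, HomIdeal (I a)) : HomIdeal (segreIdeal L I) := by
  classical
  intro P hP n u hu
  obtain ⟨a₀⟩ := ‹Nonempty α›
  -- the polynomial `∑ t^m P_m(z)` vanishes identically
  set z := segrePt u with hz
  set q : Polynomial L := ∑ m ∈ Finset.range (P.totalDegree + 1),
    Polynomial.C (aeval z (homogeneousComponent m P)) * Polynomial.X ^ m with hq
  have hq0 : q = 0 := by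
    apply Polynomial.funext
    intro t
    have h1 := hP _ (inCones_update_smul hI hu a₀ t)
    rw [segrePt_update_smul, aeval_smul_eq_sum] at h1
    rw [hq, Polynomial.eval_finsetSum, Polynomial.eval_zero, ← h1]
    refine Finset.sum_congr rfl fun m _ => ?_
    rw [Polynomial.eval_mul, Polynomial.eval_C, Polynomial.eval_pow, Polynomial.eval_X, mul_comm]
  by_cases hn : n ∈ Finset.range (P.totalDegree + 1)
  · have := congrArg (fun r => Polynomial.coeff r n) hq0
    simp only [hq, Polynomial.finsetSum_coeff, Polynomial.coeff_C_mul, Polynomial.coeff_X_pow,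
      Polynomial.coeff_zero] at this
    rw [Finset.sum_eq_single n] at this
    · simpa using this
    · intro m _ hm
      simp [Ne.symm hm]
    · intro h
      exact absurd hn h
  · have : homogeneousComponent n P = 0 := by
      apply homogeneousComponent_eq_zero
      simp only [Finset.mem_range, not_lt] at hn
      omega
    rw [this, map_zero]

/-! ### Points of the zero set are Segre points -/

section RankOne

variable [DecidableEq α]

theorem swap_mem_segreIdeal (I : ∀ a, Ideal (MvPolynomial (ι a) k)) (f g : (a : α) → ι a)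
    (a : α) :
    (X f * X g - X (Function.update f a (g a)) * X (Function.update g a (f a)) :
      MvPolynomial ((a : α) → ι a) k) ∈ segreIdeal L I := by
  intro u _
  simp only [map_sub, map_mul, aeval_X, segrePt]
  rw [sub_eq_zero, ← Finset.prod_mul_distrib, ← Finset.prod_mul_distrib]
  refine Finset.prod_congr rfl fun b _ => ?_
  by_cases h : b = a
  · subst h
    simp [mul_comm]
  · simp [Function.update_of_ne h]

variable {I : ∀ a, Ideal (MvPolynomial (ι a) k)} {z : ((a : α) → ι a) → L}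

theorem swap_eq (hz : ∀ P ∈ segreIdeal L I, aeval z P = 0) (f g : (a : α) → ι a) (a : α) :
    z f * z g = z (Function.update f a (g a)) * z (Function.update g a (f a)) := by
  have := hz _ (swap_mem_segreIdeal (L := L) I f g a)
  simpa [sub_eq_zero] using this

/-- Auxiliary: replace `f₀` by `f` on the slots in `s`. -/
def mixFun (f₀ f : (a : α) → ι a) (s : Finset α) : (a : α) → ι a :=
  fun a => if a ∈ s then f a else f₀ a

omit [Fintype α] in
theorem mixFun_insert (f₀ f : (a : α) → ι a) {s : Finset α} {a : α} (ha : a ∉ s) :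
    Function.update (mixFun f₀ f (insert a s)) a (f₀ a) = mixFun f₀ f s := by
  funext b
  by_cases h : b = a
  · subst h
    simp [mixFun, ha]
  · simp [mixFun, h]

theorem mix_eq (hz : ∀ P ∈ segreIdeal L I, aeval z P = 0) (f₀ f : (a : α) → ι a)
    (s : Finset α) :
    z (mixFun f₀ f s) * z f₀ ^ s.card = z f₀ * ∏ a ∈ s, z (Function.update f₀ a (f a)) := by
  induction s using Finset.induction_on with
  | empty =>
    have : mixFun f₀ f ∅ = f₀ := by funext a; simp [mixFun]
    simp [this]
  | insert a s ha ih =>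
    have h1 := swap_eq hz (mixFun f₀ f (insert a s)) f₀ a
    rw [mixFun_insert f₀ f ha] at h1
    have h2 : mixFun f₀ f (insert a s) a = f a := by simp [mixFun]
    rw [h2] at h1
    rw [Finset.card_insert_of_notMem ha, Finset.prod_insert ha, pow_succ]
    calc z (mixFun f₀ f (insert a s)) * (z f₀ ^ s.card * z f₀)
        = (z (mixFun f₀ f (insert a s)) * z f₀) * z f₀ ^ s.card := by ring
      _ = (z (mixFun f₀ f s) * z f₀ ^ s.card) * z (Function.update f₀ a (f a)) := by
          rw [h1]; ring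
      _ = _ := by rw [ih]; ring

/-- A nonzero point of the zero set of the Segre ideal is a Segre point (rank one). -/
theorem exists_segrePt_eq [Nonempty α] (hz : ∀ P ∈ segreIdeal L I, aeval z P = 0)
    (hz0 : z ≠ 0) : ∃ u : (a : α) → ι a → L, segrePt u = z := by
  obtain ⟨f₀, hf₀⟩ : ∃ f₀, z f₀ ≠ 0 := by
    by_contra h
    exact hz0 (_root_.funext fun f => by_contra fun hf => h ⟨f, hf⟩)
  obtain ⟨a₀⟩ := ‹Nonempty α›
  set u : (a : α) → ι a → L := fun a j => z (Function.update f₀ a j) / z f₀ with hu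
  refine ⟨Function.update u a₀ (z f₀ • u a₀), ?_⟩
  rw [segrePt_update_smul]
  funext f
  have h := mix_eq hz f₀ f Finset.univ
  have hmix : mixFun f₀ f Finset.univ = f := by funext a; simp [mixFun]
  rw [hmix] at h
  simp only [Pi.smul_apply, smul_eq_mul, segrePt, hu, Finset.prod_div_distrib,
    Finset.prod_const]
  have hpow : z f₀ ^ (Finset.univ : Finset α).card ≠ 0 := pow_ne_zero _ hf₀
  rw [← mul_div_assoc, ← h, mul_div_assoc, div_self hpow, mul_one]

end RankOne

/-! ### Slot membership -/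

section Slot

variable [DecidableEq α]

omit [Fintype α] in
theorem weight_slotW_mapDomain (a : α) (e : ι a →₀ ℕ) :
    Finsupp.weight (slotW (ι := ι)) (e.mapDomain (Sigma.mk a)) = Pi.single a e.degree := by
  classical
  rw [Finsupp.weight_apply, Finsupp.sum_mapDomain_index (by simp) (by intros; simp [add_smul])]
  simp only [slotW, Finsupp.sum, Finsupp.degree_apply]
  rw [← Finset.sum_smul]
  funext b
  by_cases hb : b = a
  · subst hb
    simp
  · simp [hb]

omit [Fintype α] in
theorem isWeightedHomogeneous_rename_sigma (a : α) {g : MvPolynomial (ι a) k} {d : ℕ}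
    (hg : g.IsHomogeneous d) :
    IsWeightedHomogeneous (slotW (ι := ι)) (rename (Sigma.mk a) g) (Pi.single a d) := by
  classical
  intro e he
  obtain ⟨e', rfl, he'⟩ := coeff_rename_ne_zero _ _ _ he
  rw [weight_slotW_mapDomain]
  congr 1
  have := hg he'
  rw [← this, Finsupp.degree_eq_weight_one]
  rfl

theorem isMultiHom_slotPoly (a : α) {g : MvPolynomial (ι a) k} {d : ℕ} (hg : g.IsHomogeneous d)
    (j : (b : α) → ι b) :
    IsMultiHom (rename (Sigma.mk a) g *
      ∏ b ∈ Finset.univ.erase a, (X (⟨b, j b⟩ : Σ b, ι b) : MvPolynomial (Σ b, ι b) k) ^ d)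
      (fun _ => d) := by
  classical
  have h1 := isWeightedHomogeneous_rename_sigma (k := k) a hg
  have h2 : IsWeightedHomogeneous (slotW (ι := ι))
      (∏ b ∈ Finset.univ.erase a, (X (⟨b, j b⟩ : Σ b, ι b) : MvPolynomial (Σ b, ι b) k) ^ d)
      (∑ b ∈ Finset.univ.erase a, Pi.single b d) := by
    refine IsWeightedHomogeneous.prod _ _ _ fun b _ => ?_
    have := (isWeightedHomogeneous_X k (slotW (ι := ι)) (⟨b, j b⟩ : Σ b, ι b)).pow d
    convert this using 1
    funext c
    simp [slotW, Pi.single_apply]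
  have h3 := h1.mul h2
  have hsum : (Pi.single a d + ∑ b ∈ Finset.univ.erase a, Pi.single b d : α → ℕ) = fun _ => d := by
    rw [Finset.add_sum_erase Finset.univ (fun b => (Pi.single b d : α → ℕ)) (Finset.mem_univ a)]
    funext c
    simp [Finset.sum_apply, Pi.single_apply]
  unfold IsMultiHom
  rw [← hsum]
  exact h3

variable {I : ∀ a, Ideal (MvPolynomial (ι a) k)}

/-- If the Segre point of `u` (all `u a ≠ 0`) lies in the zero set of the Segre ideal, then
every `u a` lies in the cone of `I a`. -/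
theorem inCones_of_segrePt (hI : ∀ a, HomIdeal (I a)) {u : (a : α) → ι a → L}
    (hu0 : ∀ a, u a ≠ 0) (hz : ∀ P ∈ segreIdeal L I, aeval (segrePt u) P = 0) :
    InCones L I u := by
  classical
  have hex : ∀ b, ∃ j : ι b, u b j ≠ 0 := fun b => by
    by_contra h
    exact hu0 b (_root_.funext fun j => by_contra fun hj => h ⟨j, hj⟩)
  choose j hj using hex
  -- homogeneous elements first
  have key : ∀ a (g : MvPolynomial (ι a) k) (d : ℕ), g ∈ I a → g.IsHomogeneous d →
      aeval (u a) g = 0 := by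
    intro a g d hgI hg
    obtain ⟨Q, -, hQ⟩ := exists_segre_lift (isMultiHom_slotPoly (k := k) a hg j)
    have hQJ : Q ∈ segreIdeal L I := by
      intro v hv
      rw [← aeval_sigmaPt_segreSubst, hQ, map_mul, aeval_rename]
      have : (sigmaPt v ∘ Sigma.mk a) = v a := rfl
      rw [this, hv a g hgI, zero_mul]
    have h1 := hz Q hQJ
    rw [← aeval_sigmaPt_segreSubst, hQ, map_mul, aeval_rename] at h1
    have h2 : (sigmaPt u ∘ Sigma.mk a) = u a := rfl
    rw [h2] at h1
    rcases mul_eq_zero.mp h1 with h | h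
    · exact h
    · exfalso
      rw [map_prod] at h
      obtain ⟨b, -, hb⟩ := Finset.prod_eq_zero_iff.mp h
      rw [map_pow, aeval_X] at hb
      exact hj b (eq_zero_of_pow_eq_zero hb)
  intro a f hf
  rw [← sum_homogeneousComponent f, map_sum]
  exact Finset.sum_eq_zero fun n _ =>
    key a _ n (hI a f hf n) (homogeneousComponent_isHomogeneous n f)

end Slot

end Fermat.Agent.S17.H740

end
end
-- ===== PACK-END S17/H740/SegreCone.lean

-- ===== PACK-BEGIN S17/H740/SegreCert.lean
section


/-!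
# Multi-projective Nullstellensatz certificates and height bounds (leaf SEGRE of S17/H)

Slots `a : α` with variables `ι a` and homogeneous ideals `I a`; `p j` multihomogeneous of
multidegree `(N, …, N)` in the variables `Σ a, ι a`, without common zero on the product of the
punctured cones of the `I a` (checked over an algebraically closed extension `L`).

* `exists_segre_certificate` : there are `M` and homogeneous `Q (f, j)` of degree `M` in the
  Segre variables with `∑ j, Q (f, j)(z) * p j (u) = z f ^ (M + N)`, `z = segrePt u`, for every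
  `L`-point `u` of the product of the cones;
* `exists_segre_certificate_eval` : the same at `k`-points, together with Segre lifts `P j` of
  the `p j` (`eval (segrePt u) (P j) = eval (sigmaPt u) (p j)`), i.e. exactly the hypothesis of
  Mathlib's `Height.logHeight_eval_ge`;
* `logHeight_multi_eval_ge`, `logHeight_multi_eval_le`, `abs_logHeight_multi_eval_sub_le` :
  `|logHeight (p j (u))_j - N * ∑ a, logHeight (u a)| ≤ C` on the product of the cones
  (all `u a ≠ 0`).
-/

set_option autoImplicit false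

noncomputable section

namespace Fermat.Agent.S17.H740

open MvPolynomial
open Fermat.Agent.S17.H500 (HomIdeal)

variable {k : Type*} [Field k] {α : Type*} [Fintype α] {ι : α → Type*} {ι' : Type*}

theorem segrePt_eq_zero_of {R : Type*} [CommMonoidWithZero R] {u : (a : α) → ι a → R} {a : α}
    (h : u a = 0) : segrePt u = 0 := by
  funext f
  simp only [segrePt, Pi.zero_apply]
  exact Finset.prod_eq_zero (Finset.mem_univ a) (by rw [h]; rfl)

/-- **Multi-projective Nullstellensatz certificate** (evaluated at the `L`-points). -/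
theorem exists_segre_certificate [Nonempty α] [∀ a, Finite (ι a)] [Fintype ι']
    (L : Type*) [Field L] [Algebra k L] [IsAlgClosed L]
    (I : ∀ a, Ideal (MvPolynomial (ι a) k)) (hI : ∀ a, HomIdeal (I a)) {N : ℕ}
    (p : ι' → MvPolynomial (Σ a, ι a) k)
    (hp : ∀ j, ∃ P : MvPolynomial ((a : α) → ι a) k, P.IsHomogeneous N ∧ segreSubst k P = p j)
    (h0 : ∀ u : (a : α) → ι a → L, InCones L I u → (∀ j, aeval (sigmaPt u) (p j) = 0) →
      ∃ a, u a = 0) :
    ∃ (M : ℕ) (Q : ((a : α) → ι a) × ι' → MvPolynomial ((a : α) → ι a) k),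
      (∀ c, (Q c).IsHomogeneous M) ∧
      ∀ u : (a : α) → ι a → L, InCones L I u → ∀ f,
        ∑ j, aeval (segrePt u) (Q (f, j)) * aeval (sigmaPt u) (p j) = segrePt u f ^ (M + N) := by
  classical
  choose P hPhom hPp using hp
  have hcert := H500.exists_certificate L (segreIdeal L I) (homIdeal_segreIdeal hI) P hPhom (by
    intro z hzJ hzP
    by_contra hz0
    obtain ⟨u, rfl⟩ := exists_segrePt_eq hzJ hz0
    have hu0 : ∀ a, u a ≠ 0 := fun a h => hz0 (segrePt_eq_zero_of h)
    have hu := inCones_of_segrePt hI hu0 hzJ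
    obtain ⟨a, ha⟩ := h0 u hu (fun j => by
      rw [← hPp j, aeval_sigmaPt_segreSubst]; exact hzP j)
    exact hu0 a ha)
  obtain ⟨M, Q, hQ, hQJ⟩ := hcert
  refine ⟨M, Q, hQ, fun u hu f => ?_⟩
  have := hQJ f u hu
  rw [map_sub, map_sum, map_pow, aeval_X, sub_eq_zero] at this
  rw [← this]
  refine Finset.sum_congr rfl fun j _ => ?_
  rw [map_mul, ← hPp j, aeval_sigmaPt_segreSubst]

/-- Version of `exists_segre_certificate` whose hypothesis is multihomogeneity. -/
theorem exists_segre_certificate' [DecidableEq α] [Nonempty α] [∀ a, Finite (ι a)] [Fintype ι']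
    (L : Type*) [Field L] [Algebra k L] [IsAlgClosed L]
    (I : ∀ a, Ideal (MvPolynomial (ι a) k)) (hI : ∀ a, HomIdeal (I a)) {N : ℕ}
    (p : ι' → MvPolynomial (Σ a, ι a) k) (hp : ∀ j, IsMultiHom (p j) (fun _ => N))
    (h0 : ∀ u : (a : α) → ι a → L, InCones L I u → (∀ j, aeval (sigmaPt u) (p j) = 0) →
      ∃ a, u a = 0) :
    ∃ (M : ℕ) (Q : ((a : α) → ι a) × ι' → MvPolynomial ((a : α) → ι a) k),
      (∀ c, (Q c).IsHomogeneous M) ∧
      ∀ u : (a : α) → ι a → L, InCones L I u → ∀ f,
        ∑ j, aeval (segrePt u) (Q (f, j)) * aeval (sigmaPt u) (p j) = segrePt u f ^ (M + N) :=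
  exists_segre_certificate L I hI p (fun j => exists_segre_lift (hp j)) h0

section KPoints

variable (L : Type*) [Field L] [Algebra k L]

theorem aeval_algebraMap_comp {σ : Type*} (v : σ → k) (f : MvPolynomial σ k) :
    aeval (fun i => algebraMap k L (v i)) f = algebraMap k L (eval v f) := by
  have := comp_aeval_apply (f := v) (Algebra.ofId k L) f
  simpa [Algebra.ofId_apply] using this.symm

omit [Fintype α] in
theorem inCones_algebraMap {I : ∀ a, Ideal (MvPolynomial (ι a) k)} {u : (a : α) → ι a → k}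
    (hu : ∀ a, ∀ f ∈ I a, eval (u a) f = 0) :
    InCones L I (fun a j => algebraMap k L (u a j)) := by
  intro a f hf
  rw [aeval_algebraMap_comp, hu a f hf, map_zero]

theorem segrePt_algebraMap (u : (a : α) → ι a → k) :
    segrePt (fun a j => algebraMap k L (u a j)) = fun f => algebraMap k L (segrePt u f) := by
  funext f
  simp [segrePt]

omit [Fintype α] in
theorem sigmaPt_algebraMap (u : (a : α) → ι a → k) :
    sigmaPt (fun a j => algebraMap k L (u a j)) = fun s => algebraMap k L (sigmaPt u s) := rfl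

end KPoints

/-- **Certificate at `k`-points**, in the exact shape of the hypothesis of
`Height.logHeight_eval_ge`: `P j` are Segre lifts of the `p j`. -/
theorem exists_segre_certificate_eval [Nonempty α] [∀ a, Finite (ι a)] [Fintype ι']
    (L : Type*) [Field L] [Algebra k L] [IsAlgClosed L]
    (I : ∀ a, Ideal (MvPolynomial (ι a) k)) (hI : ∀ a, HomIdeal (I a)) {N : ℕ}
    (p : ι' → MvPolynomial (Σ a, ι a) k)
    (hp : ∀ j, ∃ P : MvPolynomial ((a : α) → ι a) k, P.IsHomogeneous N ∧ segreSubst k P = p j)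
    (h0 : ∀ u : (a : α) → ι a → L, InCones L I u → (∀ j, aeval (sigmaPt u) (p j) = 0) →
      ∃ a, u a = 0) :
    ∃ (M : ℕ) (Q : ((a : α) → ι a) × ι' → MvPolynomial ((a : α) → ι a) k)
      (P : ι' → MvPolynomial ((a : α) → ι a) k),
      (∀ c, (Q c).IsHomogeneous M) ∧ (∀ j, (P j).IsHomogeneous N) ∧
      (∀ j, segreSubst k (P j) = p j) ∧
      (∀ (u : (a : α) → ι a → k) (j : ι'), eval (segrePt u) (P j) = eval (sigmaPt u) (p j)) ∧
      ∀ u : (a : α) → ι a → k, (∀ a, ∀ f ∈ I a, eval (u a) f = 0) → ∀ f,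
        ∑ j, eval (segrePt u) (Q (f, j)) * eval (segrePt u) (P j) = segrePt u f ^ (M + N) := by
  classical
  obtain ⟨M, Q, hQ, hcert⟩ := exists_segre_certificate L I hI p hp h0
  choose P hPhom hPp using hp
  have hPeval : ∀ (u : (a : α) → ι a → k) (j : ι'),
      eval (segrePt u) (P j) = eval (sigmaPt u) (p j) := by
    intro u j
    have := aeval_sigmaPt_segreSubst (k := k) (R := k) u (P j)
    rw [hPp j] at this
    simpa using this.symm
  refine ⟨M, Q, P, hQ, hPhom, hPp, hPeval, fun u hu f => ?_⟩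
  have h1 := hcert _ (inCones_algebraMap L hu) f
  rw [segrePt_algebraMap, sigmaPt_algebraMap] at h1
  simp only [aeval_algebraMap_comp] at h1
  rw [← map_pow] at h1
  simp only [← map_mul, ← map_sum] at h1
  have h2 := (algebraMap k L).injective h1
  rw [← h2]
  exact Finset.sum_congr rfl fun j _ => by rw [hPeval]

/-- **Certificate at `L`-points with Segre lifts**: the shape needed to feed a height lower
bound over `L` (e.g. an absolute height on `ℚ̄`) with polynomials defined over `k`. -/
theorem exists_segre_certificate_aeval [Nonempty α] [∀ a, Finite (ι a)] [Fintype ι']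
    (L : Type*) [Field L] [Algebra k L] [IsAlgClosed L]
    (I : ∀ a, Ideal (MvPolynomial (ι a) k)) (hI : ∀ a, HomIdeal (I a)) {N : ℕ}
    (p : ι' → MvPolynomial (Σ a, ι a) k)
    (hp : ∀ j, ∃ P : MvPolynomial ((a : α) → ι a) k, P.IsHomogeneous N ∧ segreSubst k P = p j)
    (h0 : ∀ u : (a : α) → ι a → L, InCones L I u → (∀ j, aeval (sigmaPt u) (p j) = 0) →
      ∃ a, u a = 0) :
    ∃ (M : ℕ) (Q : ((a : α) → ι a) × ι' → MvPolynomial ((a : α) → ι a) k)
      (P : ι' → MvPolynomial ((a : α) → ι a) k),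
      (∀ c, (Q c).IsHomogeneous M) ∧ (∀ j, (P j).IsHomogeneous N) ∧
      (∀ j, segreSubst k (P j) = p j) ∧
      (∀ (u : (a : α) → ι a → L) (j : ι'),
        aeval (segrePt u) (P j) = aeval (sigmaPt u) (p j)) ∧
      ∀ u : (a : α) → ι a → L, InCones L I u → ∀ f,
        ∑ j, aeval (segrePt u) (Q (f, j)) * aeval (segrePt u) (P j) = segrePt u f ^ (M + N) := by
  classical
  obtain ⟨M, Q, hQ, hcert⟩ := exists_segre_certificate L I hI p hp h0
  choose P hPhom hPp using hp
  have hPeval : ∀ (u : (a : α) → ι a → L) (j : ι'),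
      aeval (segrePt u) (P j) = aeval (sigmaPt u) (p j) := by
    intro u j
    rw [← hPp j, aeval_sigmaPt_segreSubst]
  refine ⟨M, Q, P, hQ, hPhom, hPp, hPeval, fun u hu f => ?_⟩
  rw [← hcert u hu f]
  exact Finset.sum_congr rfl fun j _ => by rw [hPeval]

/-! ### Height bounds -/

section Heights

variable [Height.AdmissibleAbsValues k]

/-- **Lower bound for multihomogeneous maps without common zero on a product of cones.** -/
theorem logHeight_multi_eval_ge [Nonempty α] [∀ a, Finite (ι a)] [Fintype ι']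
    (L : Type*) [Field L] [Algebra k L] [IsAlgClosed L]
    (I : ∀ a, Ideal (MvPolynomial (ι a) k)) (hI : ∀ a, HomIdeal (I a)) {N : ℕ}
    (p : ι' → MvPolynomial (Σ a, ι a) k)
    (hp : ∀ j, ∃ P : MvPolynomial ((a : α) → ι a) k, P.IsHomogeneous N ∧ segreSubst k P = p j)
    (h0 : ∀ u : (a : α) → ι a → L, InCones L I u → (∀ j, aeval (sigmaPt u) (p j) = 0) →
      ∃ a, u a = 0) :
    ∃ C : ℝ, ∀ u : (a : α) → ι a → k, (∀ a, ∀ f ∈ I a, eval (u a) f = 0) → (∀ a, u a ≠ 0) →
      C + N * ∑ a, Height.logHeight (u a) ≤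
        Height.logHeight (fun j => eval (sigmaPt u) (p j)) := by
  obtain ⟨M, Q, P, hQ, -, -, hPeval, hcert⟩ := exists_segre_certificate_eval L I hI p hp h0
  obtain ⟨C, hC⟩ := Height.logHeight_eval_ge' (K := k) (M := M) (N := N) hQ
  refine ⟨C, fun u hu hu0 => ?_⟩
  have h1 := hC P (x := segrePt u) (hcert u hu)
  have h2 : Height.logHeight (segrePt u) = ∑ a, Height.logHeight (u a) :=
    Height.logHeight_fun_prod_eq hu0
  rw [h2] at h1
  simpa only [hPeval] using h1

/-- **Upper bound for multihomogeneous maps of multidegree `(N, …, N)`.** -/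
theorem logHeight_multi_eval_le [∀ a, Finite (ι a)] [Fintype ι'] {N : ℕ}
    (p : ι' → MvPolynomial (Σ a, ι a) k)
    (hp : ∀ j, ∃ P : MvPolynomial ((a : α) → ι a) k, P.IsHomogeneous N ∧ segreSubst k P = p j) :
    ∃ C : ℝ, ∀ u : (a : α) → ι a → k, (∀ a, u a ≠ 0) →
      Height.logHeight (fun j => eval (sigmaPt u) (p j)) ≤
        C + N * ∑ a, Height.logHeight (u a) := by
  choose P hPhom hPp using hp
  obtain ⟨C, hC⟩ := Height.logHeight_eval_le' (K := k) hPhom
  refine ⟨C, fun u hu0 => ?_⟩
  have h1 := hC (segrePt u)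
  have h2 : Height.logHeight (segrePt u) = ∑ a, Height.logHeight (u a) :=
    Height.logHeight_fun_prod_eq hu0
  rw [h2] at h1
  have hPeval : ∀ j, eval (segrePt u) (P j) = eval (sigmaPt u) (p j) := by
    intro j
    have := aeval_sigmaPt_segreSubst (k := k) (R := k) u (P j)
    rw [hPp j] at this
    simpa using this.symm
  simpa only [hPeval] using h1

/-- Two-sided bound. -/
theorem abs_logHeight_multi_eval_sub_le [Nonempty α] [∀ a, Finite (ι a)] [Fintype ι']
    (L : Type*) [Field L] [Algebra k L] [IsAlgClosed L]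
    (I : ∀ a, Ideal (MvPolynomial (ι a) k)) (hI : ∀ a, HomIdeal (I a)) {N : ℕ}
    (p : ι' → MvPolynomial (Σ a, ι a) k)
    (hp : ∀ j, ∃ P : MvPolynomial ((a : α) → ι a) k, P.IsHomogeneous N ∧ segreSubst k P = p j)
    (h0 : ∀ u : (a : α) → ι a → L, InCones L I u → (∀ j, aeval (sigmaPt u) (p j) = 0) →
      ∃ a, u a = 0) :
    ∃ C : ℝ, ∀ u : (a : α) → ι a → k, (∀ a, ∀ f ∈ I a, eval (u a) f = 0) → (∀ a, u a ≠ 0) →
      |Height.logHeight (fun j => eval (sigmaPt u) (p j)) - N * ∑ a, Height.logHeight (u a)| ≤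
        C := by
  obtain ⟨C₁, hC₁⟩ := logHeight_multi_eval_le (k := k) p hp
  obtain ⟨C₂, hC₂⟩ := logHeight_multi_eval_ge L I hI p hp h0
  refine ⟨max C₁ (-C₂), fun u hu hu0 => abs_sub_le_iff.mpr ⟨?_, ?_⟩⟩
  · have := hC₁ u hu0
    have h2 := le_max_left C₁ (-C₂)
    linarith
  · have := hC₂ u hu hu0
    have h2 := le_max_right C₁ (-C₂)
    linarith

end Heights

end Fermat.Agent.S17.H740

end
end
-- ===== PACK-END S17/H740/SegreCert.lean

-- ===== PACK-BEGIN Lib/Cheb/H764/Count.lean
section



/-!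
# CHEB / piece A: `Spec.CountStatement`

For a Galois number field `L/ℚ`, a subgroup `H ≤ Gal(L/ℚ)`, `F = L^H` and a prime `p` not dividing
the discriminant of `L`:
`#{primes of 𝓞 F of norm p} * |H| = ∑_{P ∣ p, D_P ≤ H} |D_P|`.
-/

set_option autoImplicit false
set_option linter.unusedSectionVars false
set_option linter.unusedVariables false
set_option linter.style.haveILetI false

open NumberField Ideal MulAction
open scoped Pointwise

namespace Fermat.Agent.Lib.Cheb.H764

open Fermat.Agent.Lib.Cheb.Spec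

section

variable (L : Type) [Field L] [NumberField L] [IsGalois ℚ L]

/-- the bad set: primes dividing the discriminant -/
noncomputable def badPrimes : Finset ℕ := (NumberField.discr L).natAbs.primeFactors

lemma not_dvd_discr_of_not_mem_badPrimes {p : ℕ} (hp : p.Prime) (hpB : p ∉ badPrimes L) :
    ¬ (p : ℤ) ∣ NumberField.discr L := by
  intro h
  apply hpB
  rw [badPrimes, Nat.mem_primeFactors]
  refine ⟨hp, ?_, ?_⟩
  · exact Int.natCast_dvd.mp h
  · exact Int.natAbs_ne_zero.mpr (NumberField.discr_ne_zero L)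

lemma liesOver_of_mem {F : Type} [Field F] [NumberField F] {p : ℕ} (hp : p.Prime)
    (P : Ideal (𝓞 F)) [P.IsPrime] (hP : (p : 𝓞 F) ∈ P) :
    P.LiesOver (Ideal.span {(p : ℤ)}) := by
  have hp' : Prime (p : ℤ) := Nat.prime_iff_prime_int.mp hp
  rw [Ideal.liesOver_span_iff (IsPrime.ne_top inferInstance) hp']
  simpa using hP

lemma mem_of_liesOver {F : Type} [Field F] [NumberField F] {p : ℕ} (hp : p.Prime)
    (P : Ideal (𝓞 F)) [P.IsPrime] [hP : P.LiesOver (Ideal.span {(p : ℤ)})] :
    (p : 𝓞 F) ∈ P := by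
  have hp' : Prime (p : ℤ) := Nat.prime_iff_prime_int.mp hp
  have := (Ideal.liesOver_span_iff (IsPrime.ne_top inferInstance) hp').mp hP
  simpa using this

lemma ramificationIdx_eq_one_of_not_mem_badPrimes {p : ℕ} (hp : p.Prime) (hpB : p ∉ badPrimes L)
    (P : Ideal (𝓞 L)) [P.IsPrime] (hP : (p : 𝓞 L) ∈ P) : P.ramificationIdx ℤ = 1 := by
  have hp' : Prime (p : ℤ) := Nat.prime_iff_prime_int.mp hp
  have h := (NumberField.not_dvd_discr_iff_forall_mem L (𝓞 L) hp').mp
    (not_dvd_discr_of_not_mem_badPrimes L hp hpB) P inferInstance (by simpa using hP)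
  exact Ideal.ramificationIdx_eq_one_of_isUnramifiedAt

end

section main

variable (L : Type) [Field L] [NumberField L] [IsGalois ℚ L] (H : Subgroup (L ≃ₐ[ℚ] L))

lemma isGaloisGroup_fixedField :
    IsGaloisGroup H (IntermediateField.fixedField H) L :=
  IsGaloisGroup.subgroup (L ≃ₐ[ℚ] L) ℚ L H

lemma isGaloisGroup_ringOfIntegers :
    IsGaloisGroup H (𝓞 (IntermediateField.fixedField H)) (𝓞 L) := by
  haveI := isGaloisGroup_fixedField L H
  exact IsGaloisGroup.of_isFractionRing H (𝓞 (IntermediateField.fixedField H)) (𝓞 L)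
    (IntermediateField.fixedField H) L

lemma span_isPrime {p : ℕ} (hp : p.Prime) : (Ideal.span {(p : ℤ)}).IsPrime :=
  (Ideal.span_singleton_prime (by exact_mod_cast hp.ne_zero)).mpr (Nat.prime_iff_prime_int.mp hp)

/-- data attached to a prime `𝔮` of `𝓞 F` of norm `p` -/
lemma ef_eq_one_of_absNorm_eq {p : ℕ} (hp : p.Prime) (hpB : p ∉ badPrimes L)
    (q : Ideal (𝓞 (IntermediateField.fixedField H))) [q.IsPrime] (hq : absNorm q = p) :
    q.LiesOver (Ideal.span {(p : ℤ)}) ∧ q.ramificationIdx ℤ * q.inertiaDeg ℤ = 1 := by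
  have hmem : (p : 𝓞 (IntermediateField.fixedField H)) ∈ q := by
    have := Ideal.absNorm_mem q
    rwa [hq] at this
  haveI hlo : q.LiesOver (Ideal.span {(p : ℤ)}) := liesOver_of_mem hp q hmem
  refine ⟨hlo, ?_⟩
  have hf : q.inertiaDeg ℤ = 1 := by
    have h1 := Ideal.pow_inertiaDeg p q
    rw [hq] at h1
    exact Nat.pow_right_injective hp.two_le (by simpa using h1)
  obtain ⟨⟨P, hP1, hP2⟩⟩ := (inferInstance : Nonempty (q.primesOver (𝓞 L)))
  haveI := hP1
  haveI := hP2
  have hPmem : (p : 𝓞 L) ∈ P := by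
    have h2 : algebraMap (𝓞 (IntermediateField.fixedField H)) (𝓞 L)
        (p : 𝓞 (IntermediateField.fixedField H)) ∈ P := by
      rw [← Ideal.mem_comap, ← Ideal.under_def, ← Ideal.over_def P q]
      exact hmem
    simpa using h2
  have he := ramificationIdx_eq_one_of_not_mem_badPrimes L hp hpB P hPmem
  rw [Ideal.ramificationIdx_tower (R := ℤ) q P] at he
  rw [hf, mul_one]
  exact Nat.eq_one_of_mul_eq_one_right he

/-- a prime `P` of `𝓞 L` over `p` with `D_P ≤ H` restricts to a prime of `𝓞 F` of norm `p` -/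
lemma absNorm_under_eq {p : ℕ} (hp : p.Prime)
    (P : Ideal (𝓞 L)) [P.IsPrime] (hP : (p : 𝓞 L) ∈ P)
    (hle : stabilizer (L ≃ₐ[ℚ] L) P ≤ H) :
    (P.under (𝓞 (IntermediateField.fixedField H))).IsPrime ∧
      absNorm (P.under (𝓞 (IntermediateField.fixedField H))) = p := by
  haveI := isGaloisGroup_ringOfIntegers L H
  haveI := span_isPrime hp
  haveI : P.LiesOver (Ideal.span {(p : ℤ)}) := liesOver_of_mem hp P hP
  haveI hqp : (P.under (𝓞 (IntermediateField.fixedField H))).IsPrime := inferInstance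
  haveI : (P.under (𝓞 (IntermediateField.fixedField H))).LiesOver (Ideal.span {(p : ℤ)}) :=
    LiesOver.tower_bot P _ _
  refine ⟨hqp, ?_⟩
  have h1 := (ramificationIdx_mul_inertiaDeg_eq_one_iff (G := L ≃ₐ[ℚ] L) H
    (Ideal.span {(p : ℤ)}) (P.under (𝓞 (IntermediateField.fixedField H))) P).mpr hle
  have hf : (P.under (𝓞 (IntermediateField.fixedField H))).inertiaDeg ℤ = 1 :=
    Nat.eq_one_of_mul_eq_one_left h1
  have h2 := Ideal.pow_inertiaDeg p (P.under (𝓞 (IntermediateField.fixedField H)))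
  rw [hf, pow_one] at h2
  exact h2.symm

/-- **Piece A**, for primes not dividing the discriminant. -/
theorem count_of_not_mem_badPrimes {p : ℕ} (hp : p.Prime) (hpB : p ∉ badPrimes L) :
    primeCount (IntermediateField.fixedField H) p * Nat.card H = decompWeight L H p := by
  classical
  haveI := isGaloisGroup_ringOfIntegers L H
  haveI := span_isPrime hp
  have hfinT : {q : Ideal (𝓞 (IntermediateField.fixedField H)) |
      q.IsPrime ∧ absNorm q = p}.Finite :=
    (Ideal.finite_setOf_absNorm_eq p).subset (fun q h => h.2)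
  have hfinS : (primesLe L H p).Finite := by
    refine Set.Finite.subset
      (Algebra.QuasiFinite.finite_primesOver (S := 𝓞 L) (Ideal.span {(p : ℤ)})) ?_
    rintro P ⟨hP1, hP2, -⟩
    haveI := hP1
    exact ⟨hP1, liesOver_of_mem hp P hP2⟩
  -- the left-hand side
  have hL : primeCount (IntermediateField.fixedField H) p = hfinT.toFinset.card := by
    rw [← Set.ncard_eq_toFinset_card _ hfinT, ← Nat.card_coe_set_eq]
    rfl
  -- the right-hand side
  have hR : decompWeight L H p = ∑ P ∈ hfinS.toFinset, Nat.card (decomp L P) := by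
    rw [decompWeight, finsum_set_coe_eq_finsum_mem (f := fun P => Nat.card (decomp L P)),
      finsum_mem_eq_finite_toFinset_sum _ hfinS]
  rw [hL, hR]
  have hmaps : ∀ P ∈ hfinS.toFinset,
      P.under (𝓞 (IntermediateField.fixedField H)) ∈ hfinT.toFinset := by
    intro P hP
    rw [Set.Finite.mem_toFinset] at hP ⊢
    obtain ⟨hP1, hP2, hP3⟩ := hP
    haveI := hP1
    exact absNorm_under_eq L H hp P hP2 hP3
  rw [← Finset.sum_fiberwise_of_maps_to hmaps, Finset.card_eq_sum_ones, Finset.sum_mul]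
  refine Finset.sum_congr rfl fun q hq => ?_
  rw [Set.Finite.mem_toFinset] at hq
  obtain ⟨hq1, hq2⟩ := hq
  haveI := hq1
  obtain ⟨hlo, hef⟩ := ef_eq_one_of_absNorm_eq L H hp hpB q hq2
  haveI := hlo
  rw [one_mul, ← finsum_card_stabilizer_primesOver (G := L ≃ₐ[ℚ] L) H (Ideal.span {(p : ℤ)}) q hef
    (Algebra.QuasiFinite.finite_primesOver (S := 𝓞 L) q) Set.Nonempty.of_subtype,
    ← finsum_mem_coe_finset]
  refine finsum_mem_congr ?_ (fun _ _ => rfl)
  ext P
  rw [Finset.coe_filter, Set.mem_setOf_eq, Set.Finite.mem_toFinset]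
  constructor
  · intro hP
    have hP1 : P.IsPrime := hP.1
    have hP2 : P.LiesOver q := hP.2
    haveI := hP1
    haveI := hP2
    haveI : P.LiesOver (Ideal.span {(p : ℤ)}) := LiesOver.trans P q _
    refine ⟨⟨hP1, mem_of_liesOver hp P, ?_⟩, (Ideal.over_def P q).symm⟩
    exact (ramificationIdx_mul_inertiaDeg_eq_one_iff (G := L ≃ₐ[ℚ] L) H
      (Ideal.span {(p : ℤ)}) q P).mp hef
  · rintro ⟨hP, hP4⟩
    exact ⟨hP.1, ⟨hP4.symm⟩⟩

/-- **Piece A** of the CHEB library: `Spec.CountStatement`. -/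
theorem count : Spec.CountStatement := by
  intro L _ _ _ H
  exact ⟨badPrimes L, fun p hp hpB => count_of_not_mem_badPrimes L H hp hpB⟩

end main

end Fermat.Agent.Lib.Cheb.H764

end
-- ===== PACK-END Lib/Cheb/H764/Count.lean

-- ===== PACK-BEGIN S37/Red/H399/NormRed.lean
section



/-!
# S37-RED, piece RED-A1 (helper399): norms commute with reduction

`Fermat.Agent.S37.Red.H399.normRed : NormRedStatement G` for every reduction datum `G`
(interface `Fermat/Agent/S37/Red/Spec.lean` of helper40).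

Route (coord/S37-red.md, A1): for an auxiliary coordinate `t`
* `O ∩ K = A` and `ker ρ = 𝔪_O` (`mem_O_iff_mem_A`, `rho_eq_zero_iff`);
* Gauss lemma: `ρ (O ∩ K(t)) ⊆ k(t̄)` (`rho_mem_adjoin`);
* lifts of a `k(t̄)`-basis of `F_k` are residually independent over `O ∩ K(t)`, hence a basis of
  `F / K(t)` (helper217's lattice lemmas, `Fermat/Agent/S37/H217/Lattice.lean`), and the
  norm is the determinant of an integral matrix which reduces to the matrix of `ρ y`.
-/

set_option autoImplicit false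

noncomputable section

namespace Fermat.Agent.S37.Red.H399

open AlgebraicCurve IntermediateField Polynomial Fermat.Agent.S37.H217

universe u

variable {K k F Fk : Type u} [Field K] [Field k] [Field F] [Field Fk]
  [Algebra K F] [Algebra k Fk] {A : ValuationSubring K} {π : A →+* k} (G : Datum A π F Fk)

/-- the kernel of `ρ` is the maximal ideal of `O` -/
theorem rho_eq_zero_iff (y : G.O) : G.ρ y = 0 ↔ (y : F) ∈ G.O.nonunits := by
  have hmax : (RingHom.ker G.ρ).IsMaximal := RingHom.ker_isMaximal_of_surjective G.ρ G.ρ_surj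
  have hker : RingHom.ker G.ρ = IsLocalRing.maximalIdeal G.O := IsLocalRing.eq_maximalIdeal hmax
  rw [← RingHom.mem_ker, hker, ValuationSubring.coe_mem_nonunits_iff]

/-- the kernel of `π` is the maximal ideal of `A` -/
theorem pi_eq_zero_iff (G : Datum A π F Fk) (a : A) : π a = 0 ↔ (a : K) ∈ A.nonunits := by
  have hmax : (RingHom.ker π).IsMaximal := RingHom.ker_isMaximal_of_surjective π G.π_surj
  have hker : RingHom.ker π = IsLocalRing.maximalIdeal A := IsLocalRing.eq_maximalIdeal hmax
  rw [← RingHom.mem_ker, hker, ValuationSubring.coe_mem_nonunits_iff]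

/-- the total reduction agrees with `ρ` on `O` -/
theorem red_eq_of_mem {f : F} (hf : f ∈ G.O) : G.red f = G.ρ ⟨f, hf⟩ := by
  rw [Datum.red, dif_pos hf]

/-- the ring homomorphism `A → O` -/
def constHom : A →+* G.O where
  toFun a := ⟨algebraMap K F (a : K), G.const_mem a⟩
  map_one' := Subtype.ext (by simp)
  map_mul' a b := Subtype.ext (by simp)
  map_zero' := Subtype.ext (by simp)
  map_add' a b := Subtype.ext (by simp)

@[simp] theorem coe_constHom (a : A) : ((constHom G a : G.O) : F) = algebraMap K F (a : K) := rfl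

theorem rho_constHom (a : A) : G.ρ (constHom G a) = algebraMap k Fk (π a) := G.ρ_const a

theorem rho_comp_constHom : G.ρ.comp (constHom G) = (algebraMap k Fk).comp π :=
  RingHom.ext fun a => rho_constHom G a

/-- `O ∩ K = A` -/
theorem mem_O_iff_mem_A (c : K) : algebraMap K F c ∈ G.O ↔ c ∈ A := by
  constructor
  · intro hc
    by_contra hcA
    have hc0 : c ≠ 0 := fun h => hcA (h ▸ A.zero_mem)
    have hinv : c⁻¹ ∈ A := (A.mem_or_inv_mem c).resolve_left hcA
    have hnu : c⁻¹ ∈ A.nonunits := (A.inv_mem_nonunits_iff).mpr (Or.inr hcA)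
    have h0 : π ⟨c⁻¹, hinv⟩ = 0 := (pi_eq_zero_iff G ⟨c⁻¹, hinv⟩).mpr hnu
    have h1 : G.ρ (constHom G ⟨c⁻¹, hinv⟩) = 0 := by rw [rho_constHom, h0, map_zero]
    have h2 : G.ρ (constHom G ⟨c⁻¹, hinv⟩ * ⟨algebraMap K F c, hc⟩) = 0 := by
      rw [map_mul, h1, zero_mul]
    have h3 : constHom G ⟨c⁻¹, hinv⟩ * ⟨algebraMap K F c, hc⟩ = 1 := by
      apply Subtype.ext
      show algebraMap K F c⁻¹ * algebraMap K F c = 1
      rw [← map_mul, inv_mul_cancel₀ hc0, map_one]
    rw [h3, map_one] at h2
    exact one_ne_zero h2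
  · intro hc
    exact G.const_mem ⟨c, hc⟩

omit [Field F] [Field Fk] [Algebra K F] [Algebra k Fk] in
/-- scaling a nonzero polynomial over `K` to a primitive polynomial over `A` -/
theorem exists_primitive (π : A →+* k) (P : K[X]) (hP : P ≠ 0) :
    ∃ (c : K) (P₀ : A[X]), c ≠ 0 ∧ P = C c * P₀.map A.subtype ∧ P₀.map π ≠ 0 := by
  classical
  have hsupp : P.support.Nonempty := Polynomial.support_nonempty.mpr hP
  obtain ⟨m, hm, hmax⟩ := Finset.exists_max_image P.support (fun i => A.valuation (P.coeff i)) hsupp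
  have hc0 : P.coeff m ≠ 0 := Polynomial.mem_support_iff.mp hm
  have hv0 : A.valuation (P.coeff m) ≠ 0 := (_root_.map_ne_zero _).mpr hc0
  have hmem : ∀ i, (P.coeff m)⁻¹ * P.coeff i ∈ A := by
    intro i
    by_cases hi : i ∈ P.support
    · rw [← ValuationSubring.valuation_le_one_iff, map_mul, map_inv₀,
        inv_mul_le_iff₀ (zero_lt_iff.mpr hv0), mul_one]
      exact hmax i hi
    · rw [Polynomial.notMem_support_iff.mp hi, mul_zero]
      exact A.zero_mem
  have hlift : C (P.coeff m)⁻¹ * P ∈ Polynomial.lifts A.subtype := by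
    rw [Polynomial.lifts_iff_coeff_lifts]
    intro i
    rw [Polynomial.coeff_C_mul]
    exact ⟨⟨_, hmem i⟩, rfl⟩
  obtain ⟨P₀, hP₀⟩ := (Polynomial.mem_lifts _).mp hlift
  refine ⟨P.coeff m, P₀, hc0, ?_, ?_⟩
  · rw [hP₀, ← mul_assoc, ← C_mul, mul_inv_cancel₀ hc0, C_1, one_mul]
  · intro h
    have h1 : (P₀.map π).coeff m = 0 := by rw [h, coeff_zero]
    rw [coeff_map] at h1
    have h2 : ((P₀.coeff m : A) : K) = 1 := by
      have := congrArg (fun Q => Q.coeff m) hP₀
      simp only [coeff_map, coeff_C_mul] at this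
      rw [ValuationSubring.subtype_apply] at this
      rw [this, inv_mul_cancel₀ hc0]
    have h3 : P₀.coeff m = 1 := Subtype.ext h2
    rw [h3, map_one] at h1
    exact one_ne_zero h1


section Aux

variable {G} {t : F} (ht : G.AuxCoord t)

include ht

theorem red_t_eq : G.red t = G.ρ ⟨t, ht.mem⟩ := by
  rw [Datum.red, dif_pos ht.mem]

/-- value in `O` of a polynomial over `A` at `t` -/
def evalO (P : A[X]) : G.O := P.eval₂ (constHom G) ⟨t, ht.mem⟩

theorem coe_evalO (P : A[X]) :
    ((evalO ht P : G.O) : F) = aeval t (P.map A.subtype) := by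
  have h := Polynomial.hom_eval₂ P (constHom G) G.O.subtype ⟨t, ht.mem⟩
  rw [aeval_def, eval₂_map]
  exact h

theorem rho_evalO (P : A[X]) : G.ρ (evalO ht P) = aeval (G.red t) (P.map π) := by
  rw [evalO, Polynomial.hom_eval₂, rho_comp_constHom, aeval_def, eval₂_map, red_t_eq ht]

theorem rho_evalO_ne_zero {P : A[X]} (hP : P.map π ≠ 0) : G.ρ (evalO ht P) ≠ 0 := by
  rw [rho_evalO ht]
  intro h
  exact hP (transcendental_iff.mp ht.transc _ h)

/-- **Gauss lemma**: the reduction of an element of `O ∩ K(t)` lies in `k(t̄)`. -/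
theorem rho_mem_adjoin (f : F) (hf : f ∈ K⟮t⟯) (hfO : f ∈ G.O) :
    G.ρ ⟨f, hfO⟩ ∈ k⟮G.red t⟯ := by
  obtain ⟨P, Q, hPQ⟩ := (IntermediateField.mem_adjoin_simple_iff K f).mp hf
  by_cases hP : P = 0
  · have : (⟨f, hfO⟩ : G.O) = 0 := Subtype.ext (by
      show f = 0
      rw [hPQ, hP, map_zero, zero_div])
    rw [this, map_zero]
    exact zero_mem _
  by_cases hQ : Q = 0
  · have : (⟨f, hfO⟩ : G.O) = 0 := Subtype.ext (by
      show f = 0
      rw [hPQ, hQ, map_zero, div_zero])
    rw [this, map_zero]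
    exact zero_mem _
  obtain ⟨c, P₀, hc, hPc, hP₀⟩ := exists_primitive π P hP
  obtain ⟨d, Q₀, hd, hQd, hQ₀⟩ := exists_primitive π Q hQ
  have hPne := rho_evalO_ne_zero ht hP₀
  have hQne := rho_evalO_ne_zero ht hQ₀
  -- the constant `c / d` lies in `A`
  have hP0F : ((evalO ht P₀ : G.O) : F) ≠ 0 := by
    intro h
    apply hPne
    have : evalO ht P₀ = 0 := Subtype.ext h
    rw [this, map_zero]
  have hQ0F : ((evalO ht Q₀ : G.O) : F) ≠ 0 := by
    intro h
    apply hQne
    have : evalO ht Q₀ = 0 := Subtype.ext h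
    rw [this, map_zero]
  have hfeq : f * (evalO ht Q₀ : G.O) = algebraMap K F (c / d) * (evalO ht P₀ : G.O) := by
    rw [hPQ, hPc, hQd, coe_evalO, coe_evalO, map_mul, map_mul, aeval_C, aeval_C, map_div₀]
    have hdF : algebraMap K F d ≠ 0 := (_root_.map_ne_zero _).mpr hd
    have hQ0F' : aeval t (Q₀.map A.subtype) ≠ 0 := by rw [← coe_evalO ht]; exact hQ0F
    field_simp
  -- `P₀(t)` is a unit of `O`
  have hPunit : IsUnit (evalO ht P₀) := by
    by_contra hnu
    apply hPne
    rw [rho_eq_zero_iff, ValuationSubring.coe_mem_nonunits_iff, IsLocalRing.mem_maximalIdeal]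
    exact hnu
  obtain ⟨u, hu⟩ := hPunit
  have hcdO : algebraMap K F (c / d) ∈ G.O := by
    have h1 : algebraMap K F (c / d) =
        ((⟨f, hfO⟩ * evalO ht Q₀ * ((u⁻¹ : G.Oˣ) : G.O) : G.O) : F) := by
      have h2 : ((u : G.O) : F) * (((u⁻¹ : G.Oˣ) : G.O) : F) = 1 := by
        exact congrArg Subtype.val (Units.mul_inv u)
      rw [hu] at h2
      show _ = f * (evalO ht Q₀ : G.O) * (((u⁻¹ : G.Oˣ) : G.O) : F)
      rw [hfeq, mul_assoc, h2, mul_one]
    rw [h1]
    exact Subtype.property _
  have hcdA : c / d ∈ A := (mem_O_iff_mem_A G _).mp hcdO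
  -- now compute the reduction
  have hkey : (⟨f, hfO⟩ : G.O) * evalO ht Q₀ = constHom G ⟨c / d, hcdA⟩ * evalO ht P₀ :=
    Subtype.ext hfeq
  have hρ := congrArg G.ρ hkey
  rw [map_mul, map_mul, rho_constHom, rho_evalO ht, rho_evalO ht] at hρ
  have hQne' : aeval (G.red t) (Q₀.map π) ≠ 0 := by rw [← rho_evalO ht]; exact hQne
  have : G.ρ ⟨f, hfO⟩ =
      algebraMap k Fk (π ⟨c / d, hcdA⟩) * aeval (G.red t) (P₀.map π) /
        aeval (G.red t) (Q₀.map π) := by
    rw [eq_div_iff hQne']
    exact hρ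
  rw [this]
  refine div_mem (mul_mem (IntermediateField.algebraMap_mem _ _) ?_) ?_
  · exact IntermediateField.algebra_adjoin_le_adjoin k _ (Polynomial.aeval_mem_adjoin_singleton k _)
  · exact IntermediateField.algebra_adjoin_le_adjoin k _ (Polynomial.aeval_mem_adjoin_singleton k _)

end Aux

/-! ### The Gauss valuation ring of `K(t)` and the lifted basis -/

/-- the valuation ring `O ∩ K(t)` of `K(t)` -/
def gaussRing (t : F) : ValuationSubring K⟮t⟯ := G.O.comap (algebraMap K⟮t⟯ F)

theorem valExtends_gaussRing (t : F) : ValExtends (gaussRing G t) G.O :=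
  fun _ => Iff.rfl

/-- the inclusion `O ∩ K(t) → O` -/
def inclO (t : F) : gaussRing G t →+* G.O where
  toFun a := ⟨algebraMap K⟮t⟯ F (a : K⟮t⟯), a.2⟩
  map_one' := Subtype.ext (by simp)
  map_mul' a b := Subtype.ext (by simp)
  map_zero' := Subtype.ext (by simp)
  map_add' a b := Subtype.ext (by simp)

@[simp] theorem coe_inclO (t : F) (a : gaussRing G t) :
    ((inclO G t a : G.O) : F) = ((a : K⟮t⟯) : F) := rfl

section Main

variable {G} {t : F} (ht : G.AuxCoord t)

/-- reduction `O ∩ K(t) → k(t̄)` -/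
def rho₀ : gaussRing G t →+* k⟮G.red t⟯ :=
  (G.ρ.comp (inclO G t)).codRestrict k⟮G.red t⟯
    (fun a => rho_mem_adjoin ht _ (a : K⟮t⟯).2 a.2)

theorem coe_rho₀ (a : gaussRing G t) : ((rho₀ ht a : k⟮G.red t⟯) : Fk) = G.ρ (inclO G t a) := rfl

include ht

/-- **RED-A1**, for one auxiliary coordinate. -/
theorem normRed_aux (y : F) (hy : y ∈ G.O) :
    ((Algebra.norm K⟮t⟯ y : K⟮t⟯) : F) ∈ G.O ∧
      G.red ((Algebra.norm K⟮t⟯ y : K⟮t⟯) : F) =
        ((Algebra.norm k⟮G.red t⟯ (G.red y) : k⟮G.red t⟯) : Fk) := by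
  classical
  have := ht.finite
  have := ht.finite_k
  have h := valExtends_gaussRing G t
  -- a basis of `F_k / k(t̄)` and lifts to `O`
  let b₁ := Module.finBasis k⟮G.red t⟯ Fk
  have hnpos : 0 < Module.finrank k⟮G.red t⟯ Fk := Module.finrank_pos
  have : Nonempty (Fin (Module.finrank k⟮G.red t⟯ Fk)) := ⟨⟨0, hnpos⟩⟩
  choose e he using fun i => G.ρ_surj (b₁ i)
  have hR : ResidIndep (gaussRing G t) G.O (fun i => ((e i : G.O) : F)) := by
    intro c hc hsum i
    have hs : (∑ i, c i • ((e i : G.O) : F)) =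
        ((∑ i, inclO G t ⟨c i, hc i⟩ * e i : G.O) : F) := by
      rw [← ValuationSubring.subtype_apply, map_sum]
      refine Finset.sum_congr rfl fun i _ => ?_
      rw [Algebra.smul_def]
      rfl
    rw [hs] at hsum
    have h0 : G.ρ (∑ i, inclO G t ⟨c i, hc i⟩ * e i) = 0 := (rho_eq_zero_iff G _).mpr hsum
    rw [map_sum] at h0
    have h1 : ∑ i, rho₀ ht ⟨c i, hc i⟩ • b₁ i = 0 := by
      rw [← h0]
      refine Finset.sum_congr rfl fun i _ => ?_
      rw [map_mul, he i, Algebra.smul_def]
      rfl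
    have h2 := Fintype.linearIndependent_iff.mp b₁.linearIndependent _ h1 i
    have h3 : G.ρ (inclO G t ⟨c i, hc i⟩) = 0 := by
      rw [← coe_rho₀ ht, h2]
      rfl
    have h4 := (rho_eq_zero_iff G _).mp h3
    exact (h.mem_nonunits_iff (c i)).mp h4
  have hcard : Fintype.card (Fin (Module.finrank k⟮G.red t⟯ Fk)) = Module.finrank K⟮t⟯ F := by
    rw [Fintype.card_fin, ht.finrank_eq]
  obtain ⟨b, hb⟩ := exists_basis_of_residIndep hR hcard
  have hR' : ResidIndep (gaussRing G t) G.O ⇑b := by rw [hb]; exact hR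
  have hbO : ∀ i, b i ∈ G.O := fun i => by rw [hb]; exact (e i).2
  have hb₁ : ∀ i, G.ρ ⟨b i, hbO i⟩ = b₁ i := by
    intro i
    have : (⟨b i, hbO i⟩ : G.O) = e i := Subtype.ext (congrFun hb i)
    rw [this, he i]
  have hρ : ∀ a : gaussRing G t,
      G.ρ ⟨algebraMap K⟮t⟯ F a, (h a).mpr a.2⟩ = algebraMap k⟮G.red t⟯ Fk (rho₀ ht a) :=
    fun a => rfl
  have key := map_norm_eq_norm_map h b hR' hbO (rho₀ ht) G.ρ hρ b₁ hb₁ ⟨y, hy⟩
  have hmem : ((Algebra.norm K⟮t⟯ y : K⟮t⟯) : F) ∈ G.O := norm_mem h b hR' hbO hy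
  refine ⟨hmem, ?_⟩
  rw [red_eq_of_mem G hmem, red_eq_of_mem G hy]
  exact congrArg Subtype.val key

end Main

/-- **RED-A1 (norms commute with reduction)**: `NormRedStatement` of the frozen interface. -/
theorem normRed : NormRedStatement G :=
  fun _ ht y hy => normRed_aux ht y hy

end Fermat.Agent.S37.Red.H399

end
end
-- ===== PACK-END S37/Red/H399/NormRed.lean

-- ===== PACK-BEGIN S37/H217/Integral.lean
section


/-!
# Block ALG, lemma L2 (q-expansion principle from the degree equality)

Setting of `Lattice.lean`: `V ⊆ L` lies over `V₀ ⊆ L₀`, `b` a basis of `L/L₀` consisting of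
elements of `V`, residually independent.

* `minpoly_coeff_mem`: for `y ∈ V` the minimal polynomial of `y` over `L₀` has coefficients in
  `V₀`.
* `isIntegral_inf_of_isIntegral`: if `R ⊆ L₀` is an integrally closed domain with fraction field
  `L₀` and `y ∈ V` is integral over `R`, then `y` is integral over `V₀ ∩ R`.
  (Application: `R = K[x]`, `V₀` = Gauss valuation ring, `V₀ ∩ R = A[x]`: the integral closure
  of `A[x]` in `L` is `V ∩` (integral closure of `K[x]`).)
* `exists_scalar_of_mem_nonunits`: if every nonzero element of `𝔪_{V₀}` is divisible in `V₀` by a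
  "constant" of `𝔪_{V₀}` (predicate `P`), then every nonzero `y ∈ 𝔪_V` is divisible in `V` by
  such a constant.  (Application: QEP, `y ∈ B`, `ρ y = 0` implies `y ∈ 𝔪_A B`.)
-/

namespace Fermat.Agent.S37.H217

open Polynomial

section Integral

variable {L₀ L : Type*} [Field L₀] [Field L] [Algebra L₀ L]
variable {V₀ : ValuationSubring L₀} {V : ValuationSubring L}
variable {ι : Type*} [Fintype ι] [DecidableEq ι]

theorem aeval_charpoly_intMatrix [FiniteDimensional L₀ L] (h : ValExtends V₀ V)
    (b : Module.Basis ι L₀ L) (hR : ResidIndep V₀ V b) (hb : ∀ i, b i ∈ V) (y : V) :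
    aeval (y : L) ((intMatrix h b hR hb y).charpoly.map (algebraMap V₀ L₀)) = 0 := by
  rw [← charpoly_eq_map_charpoly_intMatrix h b hR hb y]
  have h1 := LinearMap.aeval_self_charpoly (Algebra.lmul L₀ L (y : L))
  rw [aeval_algHom_apply] at h1
  have h2 := congrArg (fun f : Module.End L₀ L => f 1) h1
  simpa using h2

/-- For `y ∈ V`, the minimal polynomial of `y` over `L₀` has coefficients in `V₀`. -/
theorem minpoly_coeff_mem [FiniteDimensional L₀ L] (h : ValExtends V₀ V)
    (b : Module.Basis ι L₀ L) (hR : ResidIndep V₀ V b) (hb : ∀ i, b i ∈ V) (y : V) (i : ℕ) :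
    (minpoly L₀ (y : L)).coeff i ∈ V₀ := by
  have hdvd : minpoly L₀ (y : L) ∣ (intMatrix h b hR hb y).charpoly.map (algebraMap V₀ L₀) :=
    minpoly.dvd L₀ (y : L) (aeval_charpoly_intMatrix h b hR hb y)
  have hmon : (minpoly L₀ (y : L)).Monic := minpoly.monic (IsIntegral.of_finite L₀ (y : L))
  have hl := integralClosure.mem_lifts_of_monic_of_dvd_map L₀
    (Matrix.charpoly_monic (intMatrix h b hR hb y)) hmon hdvd
  rw [Polynomial.lifts_iff_coeff_lifts] at hl
  obtain ⟨c, hc⟩ := hl i
  have hint : IsIntegral V₀ ((minpoly L₀ (y : L)).coeff i) := by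
    rw [← hc]
    exact c.2
  obtain ⟨a, ha⟩ := IsIntegrallyClosed.isIntegral_iff.mp hint
  rw [← ha]
  exact a.2

/-- If `y ∈ V` is integral over an integrally closed domain `R` with fraction field `L₀`, then
the coefficients of its minimal polynomial over `R` land in `V₀`. -/
theorem minpoly_coeff_mem_of_isIntegral [FiniteDimensional L₀ L] (h : ValExtends V₀ V)
    (b : Module.Basis ι L₀ L) (hR : ResidIndep V₀ V b) (hb : ∀ i, b i ∈ V)
    {R : Type*} [CommRing R] [IsDomain R] [Algebra R L₀] [IsFractionRing R L₀]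
    [IsIntegrallyClosed R] [Algebra R L] [IsScalarTower R L₀ L]
    (y : V) (hy : IsIntegral R (y : L)) (i : ℕ) :
    algebraMap R L₀ ((minpoly R (y : L)).coeff i) ∈ V₀ := by
  have h1 := minpoly_coeff_mem h b hR hb y i
  rwa [minpoly.isIntegrallyClosed_eq_field_fractions' L₀ hy, coeff_map] at h1

/-- If `y ∈ V` is integral over an integrally closed domain `R` with fraction field `L₀`, then
`y` is integral over the subring `V₀ ∩ R` of `L₀`. -/
theorem isIntegral_inf_of_isIntegral [FiniteDimensional L₀ L] (h : ValExtends V₀ V)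
    (b : Module.Basis ι L₀ L) (hR : ResidIndep V₀ V b) (hb : ∀ i, b i ∈ V)
    {R : Type*} [CommRing R] [IsDomain R] [Algebra R L₀] [IsFractionRing R L₀]
    [IsIntegrallyClosed R] [Algebra R L] [IsScalarTower R L₀ L]
    (y : V) (hy : IsIntegral R (y : L)) :
    IsIntegral (↥(V₀.toSubring ⊓ (algebraMap R L₀).range)) (y : L) := by
  set S : Subring L₀ := V₀.toSubring ⊓ (algebraMap R L₀).range with hS
  have hmin : minpoly L₀ (y : L) = (minpoly R (y : L)).map (algebraMap R L₀) :=
    minpoly.isIntegrallyClosed_eq_field_fractions' L₀ hy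
  have hl : minpoly L₀ (y : L) ∈ Polynomial.lifts (algebraMap S L₀) := by
    rw [Polynomial.lifts_iff_coeff_lifts]
    intro i
    refine ⟨⟨(minpoly L₀ (y : L)).coeff i, ?_, ?_⟩, rfl⟩
    · exact minpoly_coeff_mem h b hR hb y i
    · rw [hmin, coeff_map]
      exact ⟨_, rfl⟩
  have hmon : (minpoly L₀ (y : L)).Monic := minpoly.monic (IsIntegral.of_finite L₀ (y : L))
  obtain ⟨q, hq, -, hqm⟩ := Polynomial.lifts_and_degree_eq_and_monic hl hmon
  refine ⟨q, hqm, ?_⟩
  have h1 : aeval (y : L) (q.map (algebraMap S L₀)) = 0 := by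
    rw [hq]; exact minpoly.aeval L₀ (y : L)
  rw [aeval_map_algebraMap] at h1
  exact h1

omit [DecidableEq ι] in
/-- QEP, abstract form: divisibility of elements of `𝔪_V` by constants. -/
theorem exists_scalar_of_mem_nonunits (h : ValExtends V₀ V)
    (b : Module.Basis ι L₀ L) (hR : ResidIndep V₀ V b) (hb : ∀ i, b i ∈ V)
    (P : L₀ → Prop)
    (hgen : ∀ c ∈ V₀.nonunits, c ≠ 0 → ∃ a : L₀, a ≠ 0 ∧ a ∈ V₀.nonunits ∧ P a ∧ c / a ∈ V₀)
    {y : L} (hy : y ∈ V.nonunits) (hy0 : y ≠ 0) :
    ∃ a : L₀, a ≠ 0 ∧ a ∈ V₀.nonunits ∧ P a ∧ (algebraMap L₀ L a)⁻¹ * y ∈ V := by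
  have hc0 : (fun i => b.repr y i) ≠ 0 := by
    intro h0
    apply hy0
    rw [← b.sum_repr y]
    refine Finset.sum_eq_zero fun i _ => ?_
    have := congrFun h0 i
    simp only [Pi.zero_apply] at this
    rw [this, zero_smul]
  obtain ⟨m, hm0, hm⟩ := exists_scale V₀ (fun i => b.repr y i) hc0
  obtain ⟨a, ha0, ha, hPa, hdiv⟩ := hgen _ (repr_mem_nonunits_of_mem h b hR hy m) hm0
  refine ⟨a, ha0, ha, hPa, ?_⟩
  have hsum : (algebraMap L₀ L a)⁻¹ * y = ∑ i, algebraMap L₀ L (b.repr y i / a) * b i := by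
    conv_lhs => rw [← b.sum_repr y]
    rw [Finset.mul_sum]
    refine Finset.sum_congr rfl fun i _ => ?_
    rw [Algebra.smul_def, ← mul_assoc, ← map_inv₀, ← map_mul, div_eq_inv_mul]
  rw [hsum]
  refine V.toSubring.sum_mem fun i _ => ?_
  refine V.mul_mem _ _ ((h _).mpr ?_) (hb i)
  have : b.repr y i / a = b.repr y i / b.repr y m * (b.repr y m / a) := by
    field_simp
  rw [this]
  exact V₀.mul_mem _ _ (hm i) hdiv

end Integral

end Fermat.Agent.S37.H217

end
-- ===== PACK-END S37/H217/Integral.lean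

-- ===== PACK-BEGIN S29/H152/DescInt.lean
section
/-
S29 / DESC (helper152) — part 6: integrality lemmas.  Mathlib-only.
-/



set_option autoImplicit false

namespace Fermat.Agent.S29.H152

open Polynomial

variable {C : Type*} [Field C]

/-- A root of a monic polynomial with coefficients in a subalgebra is integral over it. -/
theorem descInt_isIntegral_of_poly {A : Type*} [CommRing A] [Algebra C A] (S : Subalgebra C A)
    (Q : A[X]) (hQ : Q.Monic) (hc : ∀ i, Q.coeff i ∈ S) {x : A} (hx : Q.eval x = 0) :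
    IsIntegral S x := by
  have hl : Q ∈ Polynomial.lifts (algebraMap S A) := by
    rw [Polynomial.lifts_iff_coeff_lifts]
    intro n
    exact ⟨⟨Q.coeff n, hc n⟩, rfl⟩
  obtain ⟨q, hq, -, hqm⟩ := Polynomial.lifts_and_natDegree_eq_and_monic hl hQ
  refine ⟨q, hqm, ?_⟩
  rw [← Polynomial.eval_map, hq]
  exact hx

/-- Converse: an integral element is a root of a monic polynomial with coefficients in `S`. -/
theorem descInt_exists_poly {A : Type*} [CommRing A] [Algebra C A] (S : Subalgebra C A)
    {x : A} (hx : IsIntegral S x) :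
    ∃ Q : A[X], Q.Monic ∧ (∀ i, Q.coeff i ∈ S) ∧ Q.eval x = 0 := by
  obtain ⟨P, hP, hPx⟩ := hx
  refine ⟨P.map (algebraMap S A), hP.map _, fun i => ?_, ?_⟩
  · rw [Polynomial.coeff_map]
    exact (P.coeff i).2
  · rw [Polynomial.eval_map]
    exact hPx

/-- Ring endomorphisms preserving a subalgebra (as a set) preserve integrality over it. -/
theorem descInt_isIntegral_map {A : Type*} [CommRing A] [Algebra C A] (S : Subalgebra C A)
    (Φ : A →+* A) (hS : ∀ x ∈ S, Φ x ∈ S) {x : A} (hx : IsIntegral S x) :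
    IsIntegral S (Φ x) := by
  obtain ⟨Q, hQ, hc, hQx⟩ := descInt_exists_poly S hx
  refine descInt_isIntegral_of_poly S (Q.map Φ) (hQ.map _) (fun i => ?_) ?_
  · rw [Polynomial.coeff_map]
    exact hS _ (hc i)
  · rw [Polynomial.eval_map, Polynomial.eval₂_hom, hQx, map_zero]

/-- A ring endomorphism fixing `s` and mapping constants to constants preserves `C[s]`. -/
theorem descInt_map_mem_adjoin {A : Type*} [CommRing A] [Algebra C A] (Φ : A →+* A) (s : A)
    (hs : Φ s = s) (hconst : ∀ c : C, ∃ c' : C, Φ (algebraMap C A c) = algebraMap C A c')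
    {x : A} (hx : x ∈ Algebra.adjoin C {s}) : Φ x ∈ Algebra.adjoin C {s} := by
  induction hx using Algebra.adjoin_induction with
  | mem y hy =>
    rw [Set.mem_singleton_iff] at hy
    rw [hy, hs]
    exact Algebra.self_mem_adjoin_singleton C s
  | algebraMap c =>
    obtain ⟨c', hc'⟩ := hconst c
    rw [hc']
    exact Subalgebra.algebraMap_mem _ _
  | add x y _ _ hx hy =>
    rw [map_add]
    exact Subalgebra.add_mem _ hx hy
  | mul x y _ _ hx hy =>
    rw [map_mul]
    exact Subalgebra.mul_mem _ hx hy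

/-- An element integral over `C[j]` becomes integral over `C[j⁻¹]` after multiplication by a
power of `j⁻¹`. -/
theorem descInt_exists_pow {j : LaurentSeries C} (hj : j.order = -1) {y : LaurentSeries C}
    (hy : IsIntegral (Algebra.adjoin C {j}) y) :
    ∃ M : ℕ, IsIntegral (Algebra.adjoin C {j⁻¹}) (y * j⁻¹ ^ M) := by
  classical
  obtain ⟨P, hP, hc, hPy⟩ := descInt_exists_poly _ hy
  choose D hD using fun i => descBound_mul_inv_pow_mem hj (hc i)
  set d := P.natDegree with hd
  set M := (Finset.range (d + 1)).sup D with hM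
  have hDM : ∀ i, i ≤ d → D i ≤ M := fun i hi =>
    Finset.le_sup (f := D) (Finset.mem_range.mpr (Nat.lt_succ_of_le hi))
  refine ⟨M, descInt_isIntegral_of_poly _ (P.scaleRoots (j⁻¹ ^ M))
    ((monic_scaleRoots_iff _).mpr hP) (fun i => ?_) ?_⟩
  · rw [coeff_scaleRoots, ← hd]
    rcases lt_trichotomy i d with hi | hi | hi
    · rw [← pow_mul]
      refine hD i _ ((hDM i hi.le).trans ?_)
      exact Nat.le_mul_of_pos_right M (Nat.sub_pos_of_lt hi)
    · rw [hi, Nat.sub_self, pow_zero, mul_one, hd, hP.coeff_natDegree]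
      exact Subalgebra.one_mem _
    · rw [Polynomial.coeff_eq_zero_of_natDegree_lt (hd ▸ hi), zero_mul]
      exact Subalgebra.zero_mem _
  · rw [mul_comm, scaleRoots_eval_mul, hPy, mul_zero]

/-- In a field extension of an algebraically closed field, algebraic elements are constants. -/
theorem descInt_mem_range_of_isIntegral {Ω A : Type*} [Field Ω] [IsAlgClosed Ω] [Field A]
    [Algebra Ω A] {x : A} (hx : IsIntegral Ω x) : x ∈ Set.range (algebraMap Ω A) := by
  have hdeg : (minpoly Ω x).degree = 1 :=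
    IsAlgClosed.degree_eq_one_of_irreducible Ω (minpoly.irreducible hx)
  exact minpoly.mem_range_of_degree_eq_one Ω x hdeg

/-- Roots of unity in a field extension of an algebraically closed field are constants. -/
theorem descInt_mem_range_of_pow_eq_one {Ω A : Type*} [Field Ω] [IsAlgClosed Ω] [Field A]
    [Algebra Ω A] {x : A} {p : ℕ} (hp : 0 < p) (hx : x ^ p = 1) :
    x ∈ Set.range (algebraMap Ω A) := by
  apply descInt_mem_range_of_isIntegral
  refine IsIntegral.of_pow hp ?_
  rw [hx]
  exact isIntegral_one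

end Fermat.Agent.S29.H152

end
-- ===== PACK-END S29/H152/DescInt.lean

-- ===== PACK-BEGIN S24/H504/EmbPlace.lean
section



/-!
# The place of `F/K` attached to an embedding `F → C((z))`
-/

set_option autoImplicit false

namespace Fermat.Agent.S24.H504

open AlgebraicCurve

variable {K F : Type*} [Field K] [Field F] [Algebra K F]
variable {C : Type*} [Field C]

/-! ### Order calculus in `C((z))` -/

theorem ls_orderTop_eq_order {A : LaurentSeries C} (hA : A ≠ 0) :
    A.orderTop = (A.order : WithTop ℤ) :=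
  (HahnSeries.order_eq_orderTop_of_ne_zero hA).symm

theorem ls_orderTop_nonneg_iff (A : LaurentSeries C) : 0 ≤ A.orderTop ↔ 0 ≤ A.order := by
  rcases eq_or_ne A 0 with rfl | hA
  · simp
  · rw [ls_orderTop_eq_order hA]
    exact_mod_cast Iff.rfl

theorem ls_orderTop_pos_iff (A : LaurentSeries C) : 0 < A.orderTop ↔ A = 0 ∨ 0 < A.order := by
  rcases eq_or_ne A 0 with rfl | hA
  · simp
  · rw [ls_orderTop_eq_order hA]
    simp only [hA, false_or]
    exact_mod_cast Iff.rfl

theorem ls_orderTop_inv {A : LaurentSeries C} (hA : A ≠ 0) :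
    A⁻¹.orderTop = ((-A.order : ℤ) : WithTop ℤ) := by
  have h1 : A * A⁻¹ = 1 := mul_inv_cancel₀ hA
  have h2 := HahnSeries.order_mul hA (inv_ne_zero hA)
  rw [h1, HahnSeries.order_one] at h2
  rw [ls_orderTop_eq_order (inv_ne_zero hA)]
  congr 1
  omega

theorem ls_order_inv (A : LaurentSeries C) : A⁻¹.order = -A.order := by
  rcases eq_or_ne A 0 with rfl | hA
  · simp
  have h1 : A * A⁻¹ = 1 := mul_inv_cancel₀ hA
  have h2 := HahnSeries.order_mul hA (inv_ne_zero hA)
  rw [h1, HahnSeries.order_one] at h2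
  omega

theorem ls_order_zpow (A : LaurentSeries C) (n : ℤ) : (A ^ n).order = n * A.order := by
  rcases n with n | n
  · simp [HahnSeries.order_pow]
  · rw [zpow_negSucc, ls_order_inv, HahnSeries.order_pow]
    simp only [nsmul_eq_mul, Int.negSucc_eq]
    push_cast
    ring

/-! ### The valuation subring attached to an embedding -/

/-- The valuation subring `{f | 0 ≤ ord_z (σ f)}` of `F`. -/
def embSubring (σ : F →+* LaurentSeries C) : ValuationSubring F where
  carrier := {f | 0 ≤ (σ f).orderTop}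
  mul_mem' := by
    intro a b ha hb
    simp only [Set.mem_ofPred_eq, map_mul, HahnSeries.orderTop_mul] at *
    exact add_nonneg ha hb
  one_mem' := by simp
  add_mem' := by
    intro a b ha hb
    simp only [Set.mem_ofPred_eq, map_add] at *
    exact le_trans (le_min ha hb) HahnSeries.min_orderTop_le_orderTop_add
  zero_mem' := by simp
  neg_mem' := by
    intro a ha
    simpa [HahnSeries.orderTop_neg] using ha
  mem_or_inv_mem' := by
    intro a
    rcases eq_or_ne a 0 with rfl | ha
    · left; simp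
    have hσa : σ a ≠ 0 := (map_ne_zero σ).mpr ha
    simp only [Set.mem_ofPred_eq, map_inv₀]
    rw [ls_orderTop_inv hσa, ls_orderTop_eq_order hσa]
    rcases le_total 0 (σ a).order with h | h
    · left; exact_mod_cast h
    · right
      have : (0 : ℤ) ≤ -(σ a).order := by omega
      exact_mod_cast this

theorem mem_embSubring (σ : F →+* LaurentSeries C) (f : F) :
    f ∈ embSubring σ ↔ 0 ≤ (σ f).orderTop := Iff.rfl

theorem mem_embSubring' (σ : F →+* LaurentSeries C) (f : F) :
    f ∈ embSubring σ ↔ 0 ≤ (σ f).order := by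
  rw [mem_embSubring, ls_orderTop_nonneg_iff]

theorem isPrincipalIdealRing_embSubring (σ : F →+* LaurentSeries C) :
    IsPrincipalIdealRing (embSubring σ) := by
  classical
  refine ⟨fun I => ?_⟩
  by_cases hI : I = ⊥
  · rw [hI]; exact bot_isPrincipal
  -- pick a nonzero element of minimal order
  have hex : ∃ n : ℕ, ∃ a ∈ I, a ≠ 0 ∧ (σ (a : F)).order = n := by
    obtain ⟨a, haI, ha0⟩ := Submodule.exists_mem_ne_zero_of_ne_bot hI
    have hnn : 0 ≤ (σ (a : F)).order := (mem_embSubring' σ _).mp a.2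
    exact ⟨(σ (a : F)).order.toNat, a, haI, ha0, (Int.toNat_of_nonneg hnn).symm⟩
  obtain ⟨a, haI, ha0, han⟩ := Nat.find_spec hex
  refine ⟨⟨a, ?_⟩⟩
  apply le_antisymm
  · intro b hb
    rw [Submodule.mem_span_singleton]
    rcases eq_or_ne b 0 with rfl | hb0
    · exact ⟨0, by simp⟩
    have haF : (a : F) ≠ 0 := by simpa using ha0
    have hbF : (b : F) ≠ 0 := by simpa using hb0
    have hbnn : 0 ≤ (σ (b : F)).order := (mem_embSubring' σ _).mp b.2
    have hmin : Nat.find hex ≤ (σ (b : F)).order.toNat :=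
      Nat.find_min' hex ⟨b, hb, hb0, (Int.toNat_of_nonneg hbnn).symm⟩
    have hle : (σ (a : F)).order ≤ (σ (b : F)).order := by
      rw [han]
      have : ((Nat.find hex : ℕ) : ℤ) ≤ ((σ (b : F)).order.toNat : ℤ) := by exact_mod_cast hmin
      rwa [Int.toNat_of_nonneg hbnn] at this
    have hq : (b : F) / (a : F) ∈ embSubring σ := by
      rw [mem_embSubring', map_div₀, div_eq_mul_inv,
        HahnSeries.order_mul ((map_ne_zero σ).mpr hbF) (inv_ne_zero ((map_ne_zero σ).mpr haF)),
        ls_order_inv]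
      omega
    refine ⟨⟨_, hq⟩, ?_⟩
    ext
    simp only [smul_eq_mul, MulMemClass.coe_mul]
    field_simp
  · rw [Submodule.span_le]
    simpa using haI

/-- The place of `F/K` attached to an embedding `σ : F → C((z))` which is integral on `K` and
has some element of nonzero order. -/
def placeOfEmb (σ : F →+* LaurentSeries C)
    (hK : ∀ c : K, 0 ≤ (σ (algebraMap K F c)).order)
    (ht : ∃ t : F, (σ t).order ≠ 0) : Place K F where
  toValuationSubring := embSubring σ
  algebraMap_mem' := fun c => (mem_embSubring' σ _).mpr (hK c)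
  ne_top' := by
    obtain ⟨t, ht⟩ := ht
    intro htop
    have h1 : t ∈ embSubring σ := htop ▸ ValuationSubring.mem_top t
    have h2 : t⁻¹ ∈ embSubring σ := htop ▸ ValuationSubring.mem_top t⁻¹
    rw [mem_embSubring'] at h1 h2
    rw [map_inv₀, ls_order_inv] at h2
    omega
  isPrincipalIdealRing' := isPrincipalIdealRing_embSubring σ

@[simp]
theorem placeOfEmb_toValuationSubring (σ : F →+* LaurentSeries C)
    (hK : ∀ c : K, 0 ≤ (σ (algebraMap K F c)).order)
    (ht : ∃ t : F, (σ t).order ≠ 0) :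
    (placeOfEmb σ hK ht).toValuationSubring = embSubring σ := rfl

/-! ### Proportionality of orders -/

/-- `σ` induces the place `v`: the valuation ring of `v` is the pullback of `C[[z]]`. -/
def Induces (σ : F →+* LaurentSeries C) (v : Place K F) : Prop :=
  ∀ f : F, f ∈ v.toValuationSubring ↔ 0 ≤ (σ f).order

theorem induces_placeOfEmb (σ : F →+* LaurentSeries C)
    (hK : ∀ c : K, 0 ≤ (σ (algebraMap K F c)).order)
    (ht : ∃ t : F, (σ t).order ≠ 0) : Induces σ (placeOfEmb σ hK ht) :=
  fun f => mem_embSubring' σ f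

theorem Induces.eq_placeOfEmb {σ : F →+* LaurentSeries C} {v : Place K F} (h : Induces σ v)
    (hK : ∀ c : K, 0 ≤ (σ (algebraMap K F c)).order)
    (ht : ∃ t : F, (σ t).order ≠ 0) : v = placeOfEmb σ hK ht := by
  apply Place.ext
  ext f
  rw [placeOfEmb_toValuationSubring, mem_embSubring', h f]

theorem Induces.unique {σ : F →+* LaurentSeries C} {v w : Place K F} (h : Induces σ v)
    (h' : Induces σ w) : v = w := by
  apply Place.ext
  ext f
  rw [h f, h' f]

theorem Induces.order_nonneg_iff {σ : F →+* LaurentSeries C} {v : Place K F} (h : Induces σ v)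
    (f : F) : 0 ≤ (σ f).order ↔ 0 ≤ v.ord f := by
  rw [← h f, mem_iff_ord_nonneg']

theorem Induces.order_eq_zero_iff {σ : F →+* LaurentSeries C} {v : Place K F} (h : Induces σ v)
    (f : F) : (σ f).order = 0 ↔ v.ord f = 0 := by
  have h1 := h.order_nonneg_iff f
  have h2 := h.order_nonneg_iff f⁻¹
  rw [map_inv₀, ls_order_inv, Place.ord_inv] at h2
  constructor <;> intro h0 <;> omega

/-- The multiplicity of an embedding inducing `v`: the `z`-order of a uniformizer. -/
theorem Induces.exists_mult {σ : F →+* LaurentSeries C} {v : Place K F} (h : Induces σ v) :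
    ∃ μ : ℕ, 0 < μ ∧ ∀ f : F, (σ f).order = μ * v.ord f := by
  obtain ⟨π, hπ⟩ := IsDiscreteValuationRing.exists_irreducible v.toValuationSubring
  have hπ1 : v.ord (π : F) = 1 := v.ord_coe_irreducible hπ
  have hpos : 0 < (σ (π : F)).order := by
    have h1 := (h.order_nonneg_iff (π : F)).mpr (by omega)
    have h2 := (h.order_eq_zero_iff (π : F)).not.mpr (by omega)
    omega
  refine ⟨(σ (π : F)).order.toNat, by omega, fun f => ?_⟩
  rcases eq_or_ne f 0 with rfl | hf
  · simp
  obtain ⟨u, hu⟩ := v.exists_unit_mul_zpow hf hπ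
  have hu0 : ((u : v.toValuationSubring) : F) ≠ 0 := by simp
  have hπ0 : (π : F) ≠ 0 := by
    intro h0; rw [h0] at hπ1; simp at hπ1
  have huo : (σ ((u : v.toValuationSubring) : F)).order = 0 :=
    (h.order_eq_zero_iff _).mpr (v.ord_coe_unit u)
  conv_lhs => rw [hu]
  rw [map_mul, map_zpow₀,
    HahnSeries.order_mul ((map_ne_zero σ).mpr hu0) (zpow_ne_zero _ ((map_ne_zero σ).mpr hπ0)),
    huo, ls_order_zpow, Int.toNat_of_nonneg hpos.le]
  ring

end Fermat.Agent.S24.H504

end
-- ===== PACK-END S24/H504/EmbPlace.lean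

-- ===== PACK-BEGIN S29/H942/MeroRootFinite.lean
section


/-!
# `p`-th roots of meromorphic functions with finitely many zeros and poles on simply connected
open sets
-/

set_option autoImplicit false

noncomputable section

open Filter Topology Set Complex MeromorphicOn Function

namespace Fermat.Agent.S29.H942

/-- The `p`-th power of the factorized rational function with exponents `e` is the factorized
rational function with exponents `p * e`. -/
lemma factorizedRational_pow {e : ℂ → ℤ} (he : e.HasFiniteSupport) (p : ℕ) :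
    (∏ᶠ u, ((· - u) : ℂ → ℂ) ^ e u) ^ p = ∏ᶠ u, ((· - u) : ℂ → ℂ) ^ ((p : ℤ) * e u) := by
  have h1 : (fun u => ((· - u) : ℂ → ℂ) ^ e u).HasFiniteMulSupport := by
    have := FactorizedRational.mulSupport e
    unfold Function.HasFiniteMulSupport
    rw [this]
    exact he
  rw [finprod_pow h1]
  refine finprod_congr fun u => ?_
  rw [← zpow_natCast, ← zpow_mul, mul_comm]

/-- **Finite case.** A meromorphic function on a simply connected open set with finitely many
zeros and poles, all of order divisible by `p`, has a meromorphic `p`-th root. -/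
theorem exists_meromorphicOn_pow_eq_of_finite {f : ℂ → ℂ} {U : Set ℂ}
    (hUc : IsSimplyConnected U) (hU : IsOpen U) (hf : MeromorphicOn f U)
    (h₂f : ∀ u : U, meromorphicOrderAt f u ≠ ⊤) (h₃f : (divisor f U).support.Finite)
    {p : ℕ} (hp : p ≠ 0) (hdiv : ∀ z, (p : ℤ) ∣ divisor f U z) :
    ∃ h : ℂ → ℂ, MeromorphicOn h U ∧ (h ^ p) =ᶠ[codiscreteWithin U] f := by
  obtain ⟨g, hg, hgne, hfg⟩ := hf.extract_zeros_poles h₂f h₃f
  obtain ⟨r, hr, hrp⟩ := exists_analyticOnNhd_pow_eq hUc hU hp hg (fun z hz => hgne ⟨z, hz⟩)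
  set e : ℂ → ℤ := fun u => divisor f U u / (p : ℤ) with he
  have hpe : ∀ u, (p : ℤ) * e u = divisor f U u := fun u => Int.mul_ediv_cancel' (hdiv u)
  have hesupp : e.HasFiniteSupport := by
    refine Set.Finite.subset h₃f ?_
    intro u hu
    simp only [Function.mem_support, ne_eq] at hu ⊢
    intro h0
    apply hu
    simp [he, h0]
  refine ⟨(∏ᶠ u, ((· - u) : ℂ → ℂ) ^ e u) * r, ?_, ?_⟩
  · exact ((FactorizedRational.meromorphicNFOn e U).meromorphicOn).mul hr.meromorphicOn
  · have h1 : ((∏ᶠ u, ((· - u) : ℂ → ℂ) ^ e u) * r) ^ p =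
        (∏ᶠ u, ((· - u) : ℂ → ℂ) ^ divisor f U u) • g := by
      rw [mul_pow, factorizedRational_pow hesupp]
      simp_rw [hpe]
      ext z
      simp [hrp z]
    rw [h1]
    exact hfg.symm

end Fermat.Agent.S29.H942

end
end
-- ===== PACK-END S29/H942/MeroRootFinite.lean

-- ===== PACK-BEGIN S41/H281/Eis.lean
section



/-!
# S41 / block EIS (helper281): the Hecke transfer is Eisenstein on congruence characters

Let `l ∤ N` be a prime, `m ≥ 0` with `l ≡ 1 mod m`, and `φ : Γ₀(N) → A` an additive character which is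
trivial on `Γ₀(N) ∩ Γ(m)`.  Then `T_l φ = (l + 1) φ`, where `T_l` is the Hecke transfer
`Fermat.Agent.S29.H642.heckeTransfer`.

Proof.  `α_x γ = γ_x α_{πx}` with `α_j = [[1, j],[0, l]]`, `α_∞ = [[l, 0],[0, 1]]`.  Modulo `m` we have
`α_x ≡ δ_x` with `δ_j = [[1, j],[0, 1]]`, `δ_∞ = 1` in `Γ₀(N)`, hence `γ_x δ_{πx} ≡ δ_x γ mod m`, so
`φ(γ_x) = φ(γ) + φ(δ_x) − φ(δ_{πx})`; sum over `x` and use that `π` is a permutation.
-/

set_option autoImplicit false

namespace Fermat.Agent.S41.H281

open CongruenceSubgroup Matrix.SpecialLinearGroup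
open P2MW.S_ModularForm_heckeT_slash_eq_self_of_mem_Gamma0.ModularForm.HeckeSlashInvariance
open Fermat.Agent.S29.H642
open scoped MatrixGroups

variable {p : ℕ} {N : ℕ}

/-- The integral matrix of the Hecke representative `heckeRep p x`. -/
def repInt (p : ℕ) (x : OnePoint (ZMod p)) : Matrix (Fin 2) (Fin 2) ℤ :=
  x.elim !![(p : ℤ), 0; 0, 1] (fun j => !![1, (j.val : ℤ); 0, (p : ℤ)])

/-- The unipotent element of `SL(2, ℤ)` congruent to `heckeRep p x` modulo every `m ∣ p - 1`. -/
def repSL (p : ℕ) (x : OnePoint (ZMod p)) : SL(2, ℤ) :=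
  x.elim 1 (fun j => ⟨!![1, (j.val : ℤ); 0, 1], by simp⟩)

@[simp] theorem repInt_infty : repInt p OnePoint.infty = !![(p : ℤ), 0; 0, 1] := rfl

@[simp] theorem repInt_coe (j : ZMod p) :
    repInt p (j : OnePoint (ZMod p)) = !![1, (j.val : ℤ); 0, (p : ℤ)] := rfl

@[simp] theorem repSL_infty : repSL p OnePoint.infty = 1 := rfl

@[simp] theorem repSL_coe (j : ZMod p) :
    ((repSL p (j : OnePoint (ZMod p)) : SL(2, ℤ)) : Matrix (Fin 2) (Fin 2) ℤ) =
      !![1, (j.val : ℤ); 0, 1] := rfl

theorem repSL_mem_Gamma0 (p N : ℕ) (x : OnePoint (ZMod p)) : repSL p x ∈ Gamma0 N := by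
  induction x using OnePoint.rec with
  | infty => exact one_mem _
  | coe j => rw [Gamma0_mem, repSL_coe]; simp

theorem heckeRep_val_eq (hp : p ≠ 0) (x : OnePoint (ZMod p)) :
    ((heckeRep p x : GL (Fin 2) ℝ) : Matrix (Fin 2) (Fin 2) ℝ) =
      (repInt p x).map (Int.castRingHom ℝ) := by
  induction x using OnePoint.rec with
  | infty =>
    rw [heckeRep_infty, ModularForm.val_heckeDiagMatrix hp]
    ext i j
    fin_cases i <;> fin_cases j <;> simp
  | coe j =>
    rw [heckeRep_coe, ModularForm.val_heckeMatrix hp]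
    ext i j
    fin_cases i <;> fin_cases j <;> simp

theorem mapGL_val_eq (g : SL(2, ℤ)) :
    ((mapGL ℝ g : GL (Fin 2) ℝ) : Matrix (Fin 2) (Fin 2) ℝ) =
      (g : Matrix (Fin 2) (Fin 2) ℤ).map (Int.castRingHom ℝ) := by
  ext i j
  simp

/-- The defining relation of `hElt`, as an identity of integral matrices. -/
theorem hElt_spec_int [Fact p.Prime] (hpN : ¬ p ∣ N) (γ : Gamma0 N) (x : OnePoint (ZMod p)) :
    repInt p x * ((γ : SL(2, ℤ)) : Matrix (Fin 2) (Fin 2) ℤ) =
      (((hElt hpN γ x : Gamma0 N) : SL(2, ℤ)) : Matrix (Fin 2) (Fin 2) ℤ) *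
        repInt p (hPerm p (γ : SL(2, ℤ)) x) := by
  have hp : p ≠ 0 := (Fact.out : p.Prime).ne_zero
  have h := congrArg (fun M : GL (Fin 2) ℝ => (M : Matrix (Fin 2) (Fin 2) ℝ)) (hElt_spec hpN γ x)
  simp only [Matrix.GeneralLinearGroup.coe_mul, heckeRep_val_eq hp, mapGL_val_eq] at h
  have hinj : Function.Injective
      (fun M : Matrix (Fin 2) (Fin 2) ℤ => M.map (Int.castRingHom ℝ)) :=
    Matrix.map_injective (Int.cast_injective (α := ℝ))
  apply hinj
  simp only [Matrix.map_mul]
  exact h

/-- Modulo `m` with `p ≡ 1 mod m`, the Hecke representative is congruent to the unipotent `repSL`. -/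
theorem repInt_map_eq (m : ℕ) (hm : ((p : ℕ) : ZMod m) = 1) (x : OnePoint (ZMod p)) :
    (repInt p x).map (Int.castRingHom (ZMod m)) =
      ((repSL p x : SL(2, ℤ)) : Matrix (Fin 2) (Fin 2) ℤ).map (Int.castRingHom (ZMod m)) := by
  induction x using OnePoint.rec with
  | infty =>
    ext i j
    fin_cases i <;> fin_cases j <;> simp [hm]
  | coe j =>
    rw [repSL_coe]
    ext i j
    fin_cases i <;> fin_cases j <;> simp [hm]

/-- The key congruence: `γ_x δ_{πx} ≡ δ_x γ mod m`. -/
theorem hElt_mul_repSL_inv_mem_Gamma [Fact p.Prime] (hpN : ¬ p ∣ N) (m : ℕ)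
    (hm : ((p : ℕ) : ZMod m) = 1) (γ : Gamma0 N) (x : OnePoint (ZMod p)) :
    (repSL p x * (γ : SL(2, ℤ)))⁻¹ *
      (((hElt hpN γ x : Gamma0 N) : SL(2, ℤ)) * repSL p (hPerm p (γ : SL(2, ℤ)) x)) ∈ Gamma m := by
  have h := congrArg (fun M : Matrix (Fin 2) (Fin 2) ℤ => M.map (Int.castRingHom (ZMod m)))
    (hElt_spec_int hpN γ x)
  simp only [Matrix.map_mul, repInt_map_eq m hm] at h
  have h2 : (Matrix.SpecialLinearGroup.map (Int.castRingHom (ZMod m)))
      (repSL p x * (γ : SL(2, ℤ))) =
      (Matrix.SpecialLinearGroup.map (Int.castRingHom (ZMod m)))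
        (((hElt hpN γ x : Gamma0 N) : SL(2, ℤ)) * repSL p (hPerm p (γ : SL(2, ℤ)) x)) := by
    apply Subtype.ext
    simpa [Matrix.map_mul] using h
  show _ ∈ (Matrix.SpecialLinearGroup.map (Int.castRingHom (ZMod m))).ker
  rw [MonoidHom.mem_ker, map_mul, map_inv, h2, inv_mul_cancel]

section Transfer

variable {A : Type*} [AddCommGroup A]

/-- **EIS**, pointwise form: for a character `φ` of `Γ₀(N)` trivial on `Γ₀(N) ∩ Γ(m)` and a prime
`p ∤ N`, `p ≡ 1 mod m`, we have `φ(γ_x) = φ(γ) + φ(δ_x) − φ(δ_{πx})`. -/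
theorem apply_hElt_of_vanish [Fact p.Prime] (hpN : ¬ p ∣ N) (m : ℕ) (hm : ((p : ℕ) : ZMod m) = 1)
    (φ : Additive (Gamma0 N) →+ A)
    (hφ : ∀ γ : Gamma0 N, (γ : SL(2, ℤ)) ∈ Gamma m → φ (Additive.ofMul γ) = 0)
    (γ : Gamma0 N) (x : OnePoint (ZMod p)) :
    φ (Additive.ofMul (hElt hpN γ x)) =
      φ (Additive.ofMul γ) + φ (Additive.ofMul (⟨repSL p x, repSL_mem_Gamma0 p N x⟩ : Gamma0 N)) -
        φ (Additive.ofMul (⟨repSL p (hPerm p (γ : SL(2, ℤ)) x),
          repSL_mem_Gamma0 p N _⟩ : Gamma0 N)) := by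
  set d : Gamma0 N := ⟨repSL p x, repSL_mem_Gamma0 p N x⟩ with hd
  set d' : Gamma0 N := ⟨repSL p (hPerm p (γ : SL(2, ℤ)) x), repSL_mem_Gamma0 p N _⟩ with hd'
  have hmem : (((d * γ)⁻¹ * (hElt hpN γ x * d') : Gamma0 N) : SL(2, ℤ)) ∈ Gamma m := by
    have := hElt_mul_repSL_inv_mem_Gamma hpN m hm γ x
    simpa [hd, hd'] using this
  have h0 := hφ _ hmem
  rw [ofMul_mul, ofMul_inv, ofMul_mul, ofMul_mul, map_add, map_neg, map_add, map_add] at h0
  have h1 : φ (Additive.ofMul (hElt hpN γ x)) + φ (Additive.ofMul d') =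
      φ (Additive.ofMul d) + φ (Additive.ofMul γ) := by
    have := eq_of_sub_eq_zero (by rw [sub_eq_add_neg, add_comm]; exact h0 :
      φ (Additive.ofMul (hElt hpN γ x)) + φ (Additive.ofMul d') -
        (φ (Additive.ofMul d) + φ (Additive.ofMul γ)) = 0)
    exact this
  rw [eq_sub_iff_add_eq, h1, add_comm]

/-- **Block EIS**: for a prime `p ∤ N` with `p ≡ 1 mod m`, the Hecke transfer `T_p` acts as `p + 1`
on every character of `Γ₀(N)` which is trivial on `Γ₀(N) ∩ Γ(m)`. -/
theorem heckeTransfer_eq_of_vanish [Fact p.Prime] (hpN : ¬ p ∣ N) (m : ℕ)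
    (hm : ((p : ℕ) : ZMod m) = 1) (φ : Additive (Gamma0 N) →+ A)
    (hφ : ∀ γ : Gamma0 N, (γ : SL(2, ℤ)) ∈ Gamma m → φ (Additive.ofMul γ) = 0) :
    heckeTransfer hpN φ = (p + 1) • φ := by
  refine AddMonoidHom.ext fun γ' => ?_
  obtain ⟨γ, rfl⟩ : ∃ γ : Gamma0 N, Additive.ofMul γ = γ' := ⟨Additive.toMul γ', rfl⟩
  rw [heckeTransfer_apply]
  simp only [apply_hElt_of_vanish hpN m hm φ hφ γ]
  rw [Finset.sum_sub_distrib, Finset.sum_add_distrib]
  have hperm : ∑ x : OnePoint (ZMod p),
      φ (Additive.ofMul (⟨repSL p (hPerm p (γ : SL(2, ℤ)) x),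
        repSL_mem_Gamma0 p N _⟩ : Gamma0 N)) =
      ∑ x : OnePoint (ZMod p),
        φ (Additive.ofMul (⟨repSL p x, repSL_mem_Gamma0 p N x⟩ : Gamma0 N)) :=
    Equiv.sum_comp (hPerm p (γ : SL(2, ℤ)))
      (fun y => φ (Additive.ofMul (⟨repSL p y, repSL_mem_Gamma0 p N y⟩ : Gamma0 N)))
  rw [hperm, add_sub_cancel_right, Finset.sum_const, Finset.card_univ]
  have hcard : Fintype.card (OnePoint (ZMod p)) = p + 1 := by
    rw [show Fintype.card (OnePoint (ZMod p)) = Fintype.card (Option (ZMod p)) from rfl,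
      Fintype.card_option, ZMod.card]
  rw [hcard, AddMonoidHom.smul_apply]

/-- Variant of `heckeTransfer_eq_of_vanish` with the congruence in `Nat.ModEq` form. -/
theorem heckeTransfer_eq_of_vanish_modEq [Fact p.Prime] (hpN : ¬ p ∣ N) (m : ℕ)
    (hm : p ≡ 1 [MOD m]) (φ : Additive (Gamma0 N) →+ A)
    (hφ : ∀ γ : Gamma0 N, (γ : SL(2, ℤ)) ∈ Gamma m → φ (Additive.ofMul γ) = 0) :
    heckeTransfer hpN φ = (p + 1) • φ :=
  heckeTransfer_eq_of_vanish hpN m
    (by have := (ZMod.natCast_eq_natCast_iff p 1 m).mpr hm; simpa using this) φ hφ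

end Transfer

end Fermat.Agent.S41.H281

end
-- ===== PACK-END S41/H281/Eis.lean

-- ===== PACK-BEGIN S15/H542/ModA2Alg.lean
section



/-!
# S15, piece MOD-A2 (helper542), algebraic core: the big root of `Φ_p(a, Y)` is simple

Let `Φ ∈ ℤ[X][Y]` have modular shape of level `N ≥ 2` (`H962.IsModularShape`), `v` a valuation on
an algebraically closed field `K`, and `a, b ∈ K` with `Φ(a, b) = 0`, `1 < v a`, `v b = (v a)^N`.
Then `b` is a simple root of `Φ(a, Y)`: `∂Φ/∂Y (a, b) ≠ 0`.

(The Newton polygon of `Φ(a, Y)` has exactly one root of valuation `(v a)^N`; the other `N` roots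
have valuation `(v a)^{1/N}`.  Proof here: all roots have valuation `> 1`, the product of the roots
has valuation `(v a)^{N+1}`, and a double root `b` would contribute `(v a)^{2N} > (v a)^{N+1}`.)
-/

set_option autoImplicit false

noncomputable section

open Polynomial

namespace Fermat.Agent.S15.H542

open Fermat.Agent.S15.H962

section Alg

variable {K : Type*} [Field K]

/-- The one-variable polynomial `Φ(a, Y)`. -/
def phiSpec (Φ : ℤ[X][X]) (a : K) : K[X] :=
  Φ.map (Polynomial.eval₂RingHom (Int.castRingHom K) a)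

theorem eval_phiSpec (Φ : ℤ[X][X]) (a b : K) : (phiSpec Φ a).eval b = eval2 Φ a b := by
  unfold phiSpec eval2
  rw [Polynomial.eval_map]

theorem eval_derivative_phiSpec (Φ : ℤ[X][X]) (a b : K) :
    (derivative (phiSpec Φ a)).eval b = eval2 (derivative Φ) a b := by
  unfold phiSpec eval2
  rw [Polynomial.derivative_map, Polynomial.eval_map]

theorem phiSpec_monic {Φ : ℤ[X][X]} (hΦ : Φ.Monic) (a : K) : (phiSpec Φ a).Monic :=
  hΦ.map _

theorem phiSpec_coeff_zero (Φ : ℤ[X][X]) (a : K) :
    (phiSpec Φ a).coeff 0 = (Φ.coeff 0).eval₂ (Int.castRingHom K) a := by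
  simp [phiSpec, Polynomial.coeff_map]

theorem phiSpec_natDegree {Φ : ℤ[X][X]} (hΦ : Φ.Monic) (a : K) :
    (phiSpec Φ a).natDegree = Φ.natDegree :=
  hΦ.natDegree_map _

variable {Γ₀ : Type*} [LinearOrderedCommGroupWithZero Γ₀] (v : Valuation K Γ₀)

/-- The valuation of a product of a multiset all of whose members have valuation `≥ 1`. -/
theorem one_le_val_multiset_prod (s : Multiset K) (h : ∀ r ∈ s, 1 ≤ v r) : 1 ≤ v s.prod := by
  refine Multiset.prod_induction (fun x => 1 ≤ v x) s ?_ ?_ h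
  · intro x y hx hy
    rw [map_mul]
    calc (1 : Γ₀) = 1 * 1 := (mul_one 1).symm
      _ ≤ v x * v y := mul_le_mul' hx hy
  · simp

/-- **The big root is simple.** -/
theorem simple_root_of_isModularShape [IsAlgClosed K] {N : ℕ} (hN : 1 < N) {Φ : ℤ[X][X]}
    (hΦ : IsModularShape N Φ) {a b : K} (ha : 1 < v a) (h : eval2 Φ a b = 0)
    (hb : v b = v a ^ N) : eval2 (derivative Φ) a b ≠ 0 := by
  classical
  intro hd
  have hN0 : 0 < N := by omega
  set f := phiSpec Φ a with hf
  have hf_monic : f.Monic := phiSpec_monic hΦ.monic a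
  have hf0 : f ≠ 0 := hf_monic.ne_zero
  have hroot : f.IsRoot b := by rw [IsRoot, hf, eval_phiSpec]; exact h
  have hdroot : (derivative f).IsRoot b := by rw [IsRoot, hf, eval_derivative_phiSpec]; exact hd
  have hmult : 1 < f.rootMultiplicity b :=
    (one_lt_rootMultiplicity_iff_isRoot hf0).mpr ⟨hroot, hdroot⟩
  have hcount : 2 ≤ f.roots.count b := by rw [count_roots]; exact hmult
  have hsplit : f.Splits := IsAlgClosed.splits f
  have hprod : f.coeff 0 = (-1) ^ f.natDegree * f.roots.prod :=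
    hsplit.coeff_zero_eq_prod_roots_of_monic hf_monic
  -- valuation of the constant coefficient
  have hc0 : v (f.coeff 0) = v a ^ (N + 1) := by
    rw [hf, phiSpec_coeff_zero]
    exact val_eval_eq v ha (Φ.coeff 0) hΦ.coeff_zero_natDegree hΦ.coeff_zero_unit
  -- all roots have valuation ≥ 1
  have hroots : ∀ r ∈ f.roots, 1 ≤ v r := by
    intro r hr
    have hr0 : eval2 Φ a r = 0 := by
      rw [← eval_phiSpec]
      exact (Polynomial.mem_roots hf0).mp hr
    rcases val_root_of_isModularShape v hN0 hΦ ha hr0 with h1 | h1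
    · rw [h1]; exact (one_lt_pow₀ ha hN0.ne').le
    · exact (one_lt_of_pow_eq ha h1).le
  -- split off the double root
  obtain ⟨t, ht⟩ := Multiset.le_iff_exists_add.mp
    (Multiset.le_count_iff_replicate_le.mp hcount)
  have hprod2 : f.roots.prod = b ^ 2 * t.prod := by
    rw [ht, Multiset.prod_add, Multiset.prod_replicate]
  have ht1 : 1 ≤ v t.prod := by
    refine one_le_val_multiset_prod v t fun r hr => hroots r ?_
    rw [ht]
    exact Multiset.mem_add.mpr (Or.inr hr)
  have hval : v (f.coeff 0) = v a ^ (2 * N) * v t.prod := by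
    rw [hprod, hprod2, map_mul, map_pow, Valuation.map_neg, map_one, one_pow, one_mul, map_mul,
      map_pow, hb, ← pow_mul, mul_comm N 2]
  rw [hc0] at hval
  have hlt : v a ^ (N + 1) < v a ^ (2 * N) := pow_lt_pow_right₀ ha (by omega)
  have hle : v a ^ (2 * N) ≤ v a ^ (2 * N) * v t.prod := by
    calc v a ^ (2 * N) = v a ^ (2 * N) * 1 := (mul_one _).symm
      _ ≤ v a ^ (2 * N) * v t.prod := mul_le_mul' le_rfl ht1
  rw [← hval] at hle
  exact absurd hlt (not_lt.mpr hle)

end Alg

end Fermat.Agent.S15.H542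

end
end
-- ===== PACK-END S15/H542/ModA2Alg.lean

-- ===== PACK-BEGIN S15/H386/LeadTerm.lean
section
/-
Row S15, node GEO (helper386): leading terms of Laurent series.

`IsLead x n a` : `x = a q^n + (higher order terms)` (`a = 0` is allowed).  This predicate is
closed under sums, products and weakening of the exponent, so that estimates of the orders of
polynomial expressions need no case distinction on vanishing.  Mathlib-only.
-/


set_option autoImplicit false

noncomputable section

open HahnSeries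

namespace Fermat.Agent.S15.H386

variable {k : Type*} [Field k]

/-- `x = a q^n + (higher order terms)`; `a = 0` is allowed. -/
def IsLead (x : LaurentSeries k) (n : ℤ) (a : k) : Prop :=
  x.coeff n = a ∧ ∀ m < n, x.coeff m = 0

theorem IsLead.coeff_eq {x : LaurentSeries k} {n : ℤ} {a : k} (h : IsLead x n a) :
    x.coeff n = a := h.1

theorem IsLead.coeff_eq_zero {x : LaurentSeries k} {n : ℤ} {a : k} (h : IsLead x n a) {m : ℤ}
    (hm : m < n) : x.coeff m = 0 := h.2 m hm

theorem IsLead.le_orderTop {x : LaurentSeries k} {n : ℤ} {a : k} (h : IsLead x n a) :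
    (n : WithTop ℤ) ≤ x.orderTop :=
  le_orderTop_iff_forall.mpr fun j hj => h.2 j (by exact_mod_cast hj)

theorem isLead_iff_lt_orderTop (x : LaurentSeries k) (n : ℤ) (a : k) :
    IsLead x n a ↔ (n : WithTop ℤ) < (x - single n a).orderTop := by
  constructor
  · intro h
    have h1 : ((n + 1 : ℤ) : WithTop ℤ) ≤ (x - single n a).orderTop := by
      refine le_orderTop_iff_forall.mpr fun j hj => ?_
      have hj' : j < n + 1 := by exact_mod_cast hj
      rw [HahnSeries.coeff_sub, HahnSeries.coeff_single]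
      rcases eq_or_lt_of_le (Int.lt_add_one_iff.mp hj') with rfl | hlt
      · rw [if_pos rfl, h.1, sub_self]
      · rw [if_neg hlt.ne, h.2 j hlt, sub_zero]
    refine lt_of_lt_of_le ?_ h1
    exact_mod_cast Int.lt_add_one_iff.mpr le_rfl
  · intro h
    refine ⟨?_, fun m hm => ?_⟩
    · have := coeff_eq_zero_of_lt_orderTop h
      rw [HahnSeries.coeff_sub, HahnSeries.coeff_single, if_pos rfl] at this
      exact sub_eq_zero.mp this
    · have := coeff_eq_zero_of_lt_orderTop (lt_trans (by exact_mod_cast hm) h)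
      rw [HahnSeries.coeff_sub, HahnSeries.coeff_single, if_neg hm.ne, sub_zero] at this
      exact this

theorem isLead_zero (n : ℤ) : IsLead (0 : LaurentSeries k) n 0 :=
  ⟨rfl, fun _ _ => rfl⟩

theorem isLead_single (n : ℤ) (a : k) : IsLead (single n a : LaurentSeries k) n a :=
  ⟨by rw [HahnSeries.coeff_single, if_pos rfl], fun m hm => by
    rw [HahnSeries.coeff_single, if_neg hm.ne]⟩

theorem isLead_one : IsLead (1 : LaurentSeries k) 0 1 := by
  rw [← HahnSeries.single_zero_one]
  exact isLead_single 0 1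

theorem isLead_intCast (z : ℤ) : IsLead ((z : ℤ) : LaurentSeries k) 0 (z : k) := by
  rw [← HahnSeries.single_zero_intCast]
  exact isLead_single 0 _

theorem IsLead.add {x y : LaurentSeries k} {n : ℤ} {a b : k} (hx : IsLead x n a)
    (hy : IsLead y n b) : IsLead (x + y) n (a + b) :=
  ⟨by rw [HahnSeries.coeff_add, hx.1, hy.1], fun m hm => by
    rw [HahnSeries.coeff_add, hx.2 m hm, hy.2 m hm, add_zero]⟩

theorem IsLead.neg {x : LaurentSeries k} {n : ℤ} {a : k} (hx : IsLead x n a) :
    IsLead (-x) n (-a) :=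
  ⟨by rw [HahnSeries.coeff_neg, hx.1], fun m hm => by
    rw [HahnSeries.coeff_neg, hx.2 m hm, neg_zero]⟩

theorem IsLead.sub {x y : LaurentSeries k} {n : ℤ} {a b : k} (hx : IsLead x n a)
    (hy : IsLead y n b) : IsLead (x - y) n (a - b) := by
  rw [sub_eq_add_neg, sub_eq_add_neg]
  exact hx.add hy.neg

/-- Weakening of the exponent. -/
theorem IsLead.of_lt {x : LaurentSeries k} {n : ℤ} {a : k} (hx : IsLead x n a) {n' : ℤ}
    (h : n' < n) : IsLead x n' 0 :=
  ⟨hx.2 n' h, fun m hm => hx.2 m (lt_trans hm h)⟩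

theorem IsLead.of_le {x : LaurentSeries k} {n : ℤ} {a : k} (hx : IsLead x n a) {n' : ℤ}
    (h : n' ≤ n) : ∃ a', IsLead x n' a' := by
  rcases eq_or_lt_of_le h with rfl | hlt
  · exact ⟨a, hx⟩
  · exact ⟨0, hx.of_lt hlt⟩

theorem IsLead.mul {x y : LaurentSeries k} {n m : ℤ} {a b : k} (hx : IsLead x n a)
    (hy : IsLead y m b) : IsLead (x * y) (n + m) (a * b) := by
  rw [isLead_iff_lt_orderTop]
  have hx' := (isLead_iff_lt_orderTop x n a).mp hx
  have hy' := (isLead_iff_lt_orderTop y m b).mp hy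
  have hsplit : x * y - single (n + m) (a * b) =
      (x - single n a) * y + single n a * (y - single m b) := by
    rw [← HahnSeries.single_mul_single]
    ring
  rw [hsplit]
  refine lt_of_lt_of_le (lt_min ?_ ?_) min_orderTop_le_orderTop_add
  · refine lt_of_lt_of_le ?_ orderTop_add_le_mul
    rw [WithTop.coe_add]
    exact WithTop.add_lt_add_of_lt_of_le (WithTop.coe_ne_top) hx' hy.le_orderTop
  · refine lt_of_lt_of_le ?_ orderTop_add_le_mul
    rw [WithTop.coe_add]
    exact WithTop.add_lt_add_of_le_of_lt (WithTop.coe_ne_top) orderTop_single_le hy'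

theorem IsLead.pow {x : LaurentSeries k} {n : ℤ} {a : k} (hx : IsLead x n a) (i : ℕ) :
    IsLead (x ^ i) (i * n) (a ^ i) := by
  induction i with
  | zero =>
    rw [pow_zero, pow_zero, Nat.cast_zero, zero_mul]
    exact isLead_one
  | succ i ih =>
    rw [pow_succ, pow_succ, Nat.cast_succ, add_mul, one_mul]
    exact ih.mul hx

theorem isLead_sum {ι : Type*} (s : Finset ι) (f : ι → LaurentSeries k) (n : ℤ) (a : ι → k)
    (h : ∀ i ∈ s, IsLead (f i) n (a i)) : IsLead (∑ i ∈ s, f i) n (∑ i ∈ s, a i) := by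
  classical
  induction s using Finset.induction_on with
  | empty => simpa using isLead_zero (k := k) n
  | insert j s hj ih =>
    rw [Finset.sum_insert hj, Finset.sum_insert hj]
    exact (h j (Finset.mem_insert_self j s)).add
      (ih fun i hi => h i (Finset.mem_insert_of_mem hi))

theorem isLead_multiset_prod {ι : Type*} (s : Multiset ι) (f : ι → LaurentSeries k) (n : ι → ℤ)
    (a : ι → k) (h : ∀ i ∈ s, IsLead (f i) (n i) (a i)) :
    IsLead (s.map f).prod (s.map n).sum (s.map a).prod := by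
  induction s using Multiset.induction_on with
  | empty => simpa using isLead_one (k := k)
  | cons j s ih =>
    rw [Multiset.map_cons, Multiset.prod_cons, Multiset.map_cons, Multiset.sum_cons,
      Multiset.map_cons, Multiset.prod_cons]
    exact (h j (Multiset.mem_cons_self j s)).mul
      (ih fun i hi => h i (Multiset.mem_cons_of_mem hi))

/-- Uniqueness of the leading term. -/
theorem IsLead.unique {x : LaurentSeries k} {n n' : ℤ} {a a' : k} (h : IsLead x n a)
    (h' : IsLead x n' a') (ha : a ≠ 0) (ha' : a' ≠ 0) : n = n' ∧ a = a' := by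
  have hn : n = n' := by
    rcases lt_trichotomy n n' with hlt | heq | hgt
    · exact absurd (h.1.symm.trans (h'.2 n hlt)) ha
    · exact heq
    · exact absurd (h'.1.symm.trans (h.2 n' hgt)) ha'
  subst hn
  exact ⟨rfl, h.1.symm.trans h'.1⟩

/-- A series with a nonzero leading term at `n` has no leading term at a bigger exponent. -/
theorem IsLead.le_of_ne_zero {x : LaurentSeries k} {n n' : ℤ} {a a' : k} (h : IsLead x n a)
    (ha : a ≠ 0) (h' : IsLead x n' a') : n' ≤ n := by
  by_contra hlt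
  exact ha (h.1.symm.trans (h'.2 n (not_le.mp hlt)))

end Fermat.Agent.S15.H386

end
end
-- ===== PACK-END S15/H386/LeadTerm.lean

-- ===== PACK-BEGIN S28/H865Integral.lean
section
/-
S28 helper (helper865): abstract integrality lemma (c).

If `P` is an integrally closed domain, `ℓ ∈ P` is prime, `s ∈ P` is not divisible by `ℓ`, and
both `ℓ • a` and `s • a` are integral over `P`, then `a` is integral over `P`.
-/


set_option autoImplicit false

noncomputable section

namespace Fermat.Agent.S28.H865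

open Polynomial

/-- A monic polynomial all of whose coefficients are suitably divisible is a `scaleRoots`. -/
theorem exists_monic_scaleRoots_eq {P : Type*} [CommRing P] [IsDomain P] {ν : P[X]}
    (hν : ν.Monic) {ℓ : P} (h : ∀ i, ℓ ^ (ν.natDegree - i) ∣ ν.coeff i) :
    ∃ μ : P[X], μ.Monic ∧ μ.scaleRoots ℓ = ν := by
  classical
  choose c hc using h
  set m := ν.natDegree with hm
  by_cases hℓ : ℓ = 0
  · -- then all lower coefficients vanish, `ν = X ^ m`
    refine ⟨ν, hν, ?_⟩
    ext i
    rw [coeff_scaleRoots]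
    rcases lt_trichotomy i m with hi | hi | hi
    · have h0 : ν.coeff i = 0 := by
        rw [hc i, hℓ, zero_pow (by omega), zero_mul]
      rw [h0, zero_mul]
    · rw [hi, ← hm, Nat.sub_self, pow_zero, mul_one]
    · rw [coeff_eq_zero_of_natDegree_lt (by omega), zero_mul]
  set μ : P[X] := ∑ i ∈ Finset.range (m + 1), monomial i (c i) with hμ
  have hμcoeff : ∀ i, μ.coeff i = if i ≤ m then c i else 0 := by
    intro i
    rw [hμ, finsetSum_coeff]
    simp only [coeff_monomial]
    rw [Finset.sum_ite_eq' (Finset.range (m + 1)) i]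
    simp
  have hcm : c m = 1 := by
    have h1 := hc m
    rw [Nat.sub_self, pow_zero, one_mul] at h1
    rw [← h1]
    exact hν.coeff_natDegree
  have hμdeg : μ.natDegree ≤ m := by
    rw [hμ]
    refine natDegree_sum_le_of_forall_le _ _ fun i hi => ?_
    exact (natDegree_monomial_le _).trans (Nat.lt_succ_iff.mp (Finset.mem_range.mp hi))
  have hμmonic : μ.Monic := by
    refine monic_of_natDegree_le_of_coeff_eq_one m hμdeg ?_
    rw [hμcoeff, if_pos le_rfl, hcm]
  have hμdeg' : μ.natDegree = m := by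
    refine le_antisymm hμdeg ?_
    refine le_natDegree_of_ne_zero ?_
    rw [hμcoeff, if_pos le_rfl, hcm]
    exact one_ne_zero
  refine ⟨μ, hμmonic, ?_⟩
  ext i
  rw [coeff_scaleRoots, hμdeg', hμcoeff]
  by_cases hi : i ≤ m
  · rw [if_pos hi, hc i, mul_comm]
  · rw [if_neg hi, zero_mul, coeff_eq_zero_of_natDegree_lt (by omega)]

/-- **Abstract integrality lemma.** -/
theorem isIntegral_of_smul_of_smul {P F : Type*} [CommRing P] [IsDomain P]
    [IsIntegrallyClosed P] [CommRing F] [IsDomain F] [Algebra P F] [FaithfulSMul P F]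
    {ℓ s : P} (hℓ : Prime ℓ) (hs : ¬ ℓ ∣ s) {a : F}
    (h1 : IsIntegral P (ℓ • a)) (h2 : IsIntegral P (s • a)) : IsIntegral P a := by
  have hs0 : s ≠ 0 := fun h => hs (h ▸ dvd_zero ℓ)
  have hℓ0 : ℓ ≠ 0 := hℓ.ne_zero
  have key : (minpoly P (ℓ • a)).scaleRoots s = (minpoly P (s • a)).scaleRoots ℓ := by
    rw [← IsIntegrallyClosed.minpoly_smul hs0 h1, ← IsIntegrallyClosed.minpoly_smul hℓ0 h2,
      smul_smul, smul_smul, mul_comm]
  have hdeg : (minpoly P (ℓ • a)).natDegree = (minpoly P (s • a)).natDegree := by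
    have := congrArg Polynomial.natDegree key
    simpa [Polynomial.natDegree_scaleRoots] using this
  have hcoeff : ∀ i, ℓ ^ ((minpoly P (ℓ • a)).natDegree - i) ∣ (minpoly P (ℓ • a)).coeff i := by
    intro i
    have h3 := congrArg (fun p => Polynomial.coeff p i) key
    simp only [Polynomial.coeff_scaleRoots] at h3
    rw [← hdeg] at h3
    refine hℓ.pow_dvd_of_dvd_mul_right (b := s ^ ((minpoly P (ℓ • a)).natDegree - i)) _
      (fun h => hs (hℓ.dvd_of_dvd_pow h)) ?_
    rw [h3]
    exact dvd_mul_left _ _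
  obtain ⟨μ, hμ, hμν⟩ := exists_monic_scaleRoots_eq (minpoly.monic h1) hcoeff
  refine ⟨μ, hμ, ?_⟩
  have h4 : Polynomial.eval₂ (algebraMap P F) (algebraMap P F ℓ * a) (μ.scaleRoots ℓ) = 0 := by
    rw [hμν, ← Algebra.smul_def, ← Polynomial.aeval_def]
    exact minpoly.aeval P _
  rw [Polynomial.scaleRoots_eval₂_mul] at h4
  have h5 : (algebraMap P F ℓ) ^ μ.natDegree ≠ 0 :=
    pow_ne_zero _ (by
      rw [Ne, FaithfulSMul.algebraMap_eq_zero_iff]
      exact hℓ0)
  exact (mul_eq_zero.mp h4).resolve_left h5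

end Fermat.Agent.S28.H865

end
end
-- ===== PACK-END S28/H865Integral.lean

-- ===== PACK-BEGIN S28/H208/Twist.lean
section
/-
S28 [L3]: twist automorphism `t ↦ c·t` of Laurent series and its interaction with `qExpand`.
-/



set_option autoImplicit false

noncomputable section

open ModularCurve HahnSeries

namespace Fermat.Agent.S28.H208

variable {k : Type*} [Field k]

/-- Twist `Σ aₙ tⁿ ↦ Σ aₙ cⁿ tⁿ`. -/
def twFun (c : k) (f : LaurentSeries k) : LaurentSeries k where
  coeff n := c ^ n * f.coeff n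
  isPWO_support' := f.isPWO_support.mono fun n hn => by
    simp only [Function.mem_support, ne_eq] at hn ⊢
    intro h
    exact hn (by rw [h, mul_zero])

@[simp] theorem twFun_coeff (c : k) (f : LaurentSeries k) (n : ℤ) :
    (twFun c f).coeff n = c ^ n * f.coeff n := rfl

theorem twFun_support (c : k) (hc : c ≠ 0) (f : LaurentSeries k) :
    (twFun c f).support = f.support := by
  ext n
  simp only [HahnSeries.mem_support, twFun_coeff, ne_eq, mul_eq_zero, not_or]
  constructor
  · exact fun h => h.2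
  · exact fun h => ⟨zpow_ne_zero n hc, h⟩

theorem twFun_mul (c : k) (hc : c ≠ 0) (x y : LaurentSeries k) :
    twFun c (x * y) = twFun c x * twFun c y := by
  ext n
  rw [twFun_coeff, HahnSeries.coeff_mul, HahnSeries.coeff_mul, Finset.mul_sum]
  symm
  refine Finset.sum_congr ?_ fun ij hij => ?_
  · ext ij
    simp only [Finset.mem_antidiagonal, twFun_support c hc]
  · have h : ij.1 + ij.2 = n := (Finset.mem_antidiagonal.mp hij).2.2
    rw [twFun_coeff, twFun_coeff, ← h, zpow_add₀ hc]
    ring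

/-- The twist as a ring homomorphism. -/
def tw (c : k) (hc : c ≠ 0) : LaurentSeries k →+* LaurentSeries k where
  toFun := twFun c
  map_one' := by
    ext n
    rw [twFun_coeff, HahnSeries.coeff_one]
    split_ifs with h
    · subst h; simp
    · simp
  map_mul' := twFun_mul c hc
  map_zero' := by
    ext n
    simp
  map_add' x y := by
    ext n
    simp [mul_add]

@[simp] theorem tw_coeff (c : k) (hc : c ≠ 0) (f : LaurentSeries k) (n : ℤ) :
    (tw c hc f).coeff n = c ^ n * f.coeff n := rfl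

/-- Twisting a series in `t^m` by `c` with `c^m = 1` does nothing. -/
theorem tw_qExpand_of_pow_eq_one (c : k) (hc : c ≠ 0) (m : ℕ) [NeZero m] (hcm : c ^ m = 1)
    (f : LaurentSeries k) : tw c hc (qExpand k m f) = qExpand k m f := by
  ext n
  rw [tw_coeff]
  by_cases hn : (m : ℤ) ∣ n
  · obtain ⟨a, rfl⟩ := hn
    rw [zpow_mul, zpow_natCast, hcm, one_zpow, one_mul]
  · rw [qExpand_coeff_of_not_dvd m f hn, mul_zero]

end Fermat.Agent.S28.H208

end

end
-- ===== PACK-END S28/H208/Twist.lean

-- ===== PACK-BEGIN S18/H905/Residue.lean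
section



/-!
# S18 / H905 — the residue field of a valuation subring of an algebraically closed field

* `isAlgClosed_residueField` : the residue field of a valuation subring of an algebraically
  closed field is algebraically closed;
* `natCast_residue_eq_zero`  : if `A` lies over `ℓ` then `ℓ = 0` in the residue field of `A`;
* `natCast_residue_ne_zero`  : if moreover `ℓ` is prime and `ℓ ∤ n`, then `n ≠ 0` there.
-/

set_option autoImplicit false

open Polynomial

namespace Fermat.Agent.S18.H905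

variable {L : Type*} [Field L]

/-- The residue field of a valuation subring of an algebraically closed field is algebraically
closed. -/
theorem isAlgClosed_residueField [IsAlgClosed L] (A : ValuationSubring L) :
    IsAlgClosed (IsLocalRing.ResidueField A) := by
  refine IsAlgClosed.of_exists_root _ ?_
  intro p hpm hpirr
  have hsurj : Function.Surjective (IsLocalRing.residue A) := IsLocalRing.residue_surjective
  obtain ⟨P, hPmap, hPdeg, hPm⟩ :=
    Polynomial.lifts_and_natDegree_eq_and_monic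
      ((Polynomial.mem_lifts p).mpr (Polynomial.map_surjective _ hsurj p)) hpm
  have hpdeg : p.natDegree ≠ 0 := fun h =>
    hpirr.not_isUnit (by
      rw [Polynomial.Monic.isUnit_iff hpm]
      exact Polynomial.eq_one_of_monic_natDegree_zero hpm h)
  have hdeg : (P.map (algebraMap A L)).degree ≠ 0 := by
    intro h0
    have h1 : (P.map (algebraMap A L)).natDegree = 0 := Polynomial.natDegree_eq_zero_iff_degree_le_zero.mpr h0.le
    rw [hPm.natDegree_map] at h1
    exact hpdeg (hPdeg ▸ h1)
  obtain ⟨x, hx⟩ := IsAlgClosed.exists_root (P.map (algebraMap A L)) hdeg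
  have hx' : Polynomial.eval₂ (algebraMap A L) x P = 0 := by
    rw [← Polynomial.eval_map]; exact hx
  have hint : IsIntegral A x := ⟨P, hPm, hx'⟩
  obtain ⟨y, rfl⟩ := IsIntegrallyClosed.isIntegral_iff.mp hint
  refine ⟨IsLocalRing.residue A y, ?_⟩
  have hy : P.eval y = 0 := by
    have hinj : Function.Injective (algebraMap A L) := Subtype.val_injective
    apply hinj
    rw [map_zero, ← hx', Polynomial.eval₂_at_apply]
  rw [← hPmap, Polynomial.eval_map, Polynomial.eval₂_at_apply, hy, map_zero]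

/-- If `A` lies over `ℓ`, then `ℓ = 0` in the residue field. -/
theorem natCast_residue_eq_zero (A : ValuationSubring L) {ℓ : ℕ} (hA : A.LiesOverPrime ℓ) :
    ((ℓ : ℕ) : IsLocalRing.ResidueField A) = 0 := by
  have h : ((ℓ : A) : L) ∈ A.nonunits := by
    have h0 : (ℓ : L) ∈ A.nonunits := hA
    simpa using h0
  have h' : (ℓ : A) ∈ IsLocalRing.maximalIdeal A := (A.coe_mem_nonunits_iff).mp h
  have := (IsLocalRing.residue_eq_zero_iff (ℓ : A)).mpr h'
  simpa using this

/-- If `A` lies over the prime `ℓ` and `ℓ ∤ n`, then `n ≠ 0` in the residue field. -/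
theorem natCast_residue_ne_zero (A : ValuationSubring L) {ℓ : ℕ} (hℓ : ℓ.Prime)
    (hA : A.LiesOverPrime ℓ) {n : ℕ} (hn : ¬ ℓ ∣ n) :
    ((n : ℕ) : IsLocalRing.ResidueField A) ≠ 0 := by
  intro h0
  have hcop : Nat.Coprime n ℓ := ((Nat.Prime.coprime_iff_not_dvd hℓ).mpr hn).symm
  have hb := Nat.gcd_eq_gcd_ab n ℓ
  rw [hcop] at hb
  have := congrArg (Int.cast : ℤ → IsLocalRing.ResidueField A) hb
  push_cast at this
  rw [h0, natCast_residue_eq_zero A hA, zero_mul, zero_mul, add_zero] at this
  exact one_ne_zero this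

end Fermat.Agent.S18.H905

end
-- ===== PACK-END S18/H905/Residue.lean

-- ===== PACK-BEGIN S15/H542/ModV.lean
section


/-!
# S15, piece MOD-V (helper542): Vélu's curve of a Galois-fixed point is defined over `ℚ`

`veluRational : VeluRationalStatement`.

More generally, for any `W` over `ℚ̄` fixed by a field automorphism `σ` and any point `Q` fixed by
`σ`, Vélu's curve `veluCurve W Q p` is fixed by `σ` (`veluCurve_map_eq_of_fixed`).
-/

set_option autoImplicit false

noncomputable section

open WeierstrassCurve AlgebraicCurve ModularCurve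
open scoped WeierstrassCurve.Affine

namespace Fermat.Agent.S15.H542

section General

variable {K : Type*} [Field K] [DecidableEq K]

/-- `xOf` commutes with `Point.map` along a field automorphism. -/
theorem xOf_map_algEquiv {F : Type*} [Field F] [Algebra F K] (W : WeierstrassCurve F)
    (σ : K ≃ₐ[F] K) (P : (W⁄K).toAffine.Point) :
    xOf (WeierstrassCurve.Affine.Point.map (W' := W) σ.toAlgHom P) = σ (xOf P) := by
  cases P with
  | zero =>
    have h0 : WeierstrassCurve.Affine.Point.map (W' := W) σ.toAlgHom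
        (WeierstrassCurve.Affine.Point.zero) = WeierstrassCurve.Affine.Point.zero :=
      map_zero (WeierstrassCurve.Affine.Point.map (W' := W) σ.toAlgHom)
    rw [h0]
    simp [xOf]
  | some x y h => rfl

/-- The `x`-coordinate of a fixed point is fixed. -/
theorem xOf_fixed {F : Type*} [Field F] [Algebra F K] (W : WeierstrassCurve F)
    (σ : K ≃ₐ[F] K) (P : (W⁄K).toAffine.Point) (hP : σ • P = P) :
    σ (xOf P) = xOf P := by
  rw [← xOf_map_algEquiv W σ P]
  rw [WeierstrassCurve.Affine.Point.algEquiv_smul_def] at hP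
  rw [hP]

/-- Multiples of a fixed point are fixed. -/
theorem nsmul_fixed {F : Type*} [Field F] [Algebra F K] (W : WeierstrassCurve F)
    (σ : K ≃ₐ[F] K) (P : (W⁄K).toAffine.Point) (hP : σ • P = P) (k : ℕ) :
    σ • (k • P) = k • P := by
  rw [WeierstrassCurve.Affine.Point.algEquiv_smul_def] at hP ⊢
  rw [map_nsmul, hP]

end General

/-- `ℚ̄ / ℚ` is Galois. -/
theorem isGalois_Qbar_h542 : IsGalois ℚ (AlgebraicClosure ℚ) := by
  have : Algebra.IsAlgebraic ℚ (AlgebraicClosure ℚ) := AlgebraicClosure.isAlgebraic ℚ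
  have : IsAlgClosure ℚ (AlgebraicClosure ℚ) := ⟨inferInstance, inferInstance⟩
  exact IsAlgClosure.isGalois ℚ (AlgebraicClosure ℚ)

section Rational

variable (F : WeierstrassCurve ℚ) (Q : (F⁄(AlgebraicClosure ℚ)).toAffine.Point)
  (σ : AlgebraicClosure ℚ ≃ₐ[ℚ] AlgebraicClosure ℚ)

theorem sigma_b₂ : σ (F⁄(AlgebraicClosure ℚ)).b₂ = (F⁄(AlgebraicClosure ℚ)).b₂ := by
  change σ (F.map (algebraMap ℚ (AlgebraicClosure ℚ))).b₂ =
    (F.map (algebraMap ℚ (AlgebraicClosure ℚ))).b₂
  rw [WeierstrassCurve.map_b₂]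
  exact σ.commutes _

theorem sigma_b₄ : σ (F⁄(AlgebraicClosure ℚ)).b₄ = (F⁄(AlgebraicClosure ℚ)).b₄ := by
  change σ (F.map (algebraMap ℚ (AlgebraicClosure ℚ))).b₄ =
    (F.map (algebraMap ℚ (AlgebraicClosure ℚ))).b₄
  rw [WeierstrassCurve.map_b₄]
  exact σ.commutes _

theorem sigma_b₆ : σ (F⁄(AlgebraicClosure ℚ)).b₆ = (F⁄(AlgebraicClosure ℚ)).b₆ := by
  change σ (F.map (algebraMap ℚ (AlgebraicClosure ℚ))).b₆ =
    (F.map (algebraMap ℚ (AlgebraicClosure ℚ))).b₆
  rw [WeierstrassCurve.map_b₆]
  exact σ.commutes _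

theorem sigma_veluT (hQ : σ • Q = Q) (p : ℕ) :
    σ (veluT (F⁄(AlgebraicClosure ℚ)) Q p) = veluT (F⁄(AlgebraicClosure ℚ)) Q p := by
  unfold veluT veluT1
  rw [map_sum]
  refine Finset.sum_congr rfl fun k _ => ?_
  have hx := xOf_fixed F σ (k • Q) (nsmul_fixed F σ Q hQ k)
  simp only [map_add, map_mul, map_pow, map_ofNat, hx, sigma_b₂, sigma_b₄]

theorem sigma_veluW (hQ : σ • Q = Q) (p : ℕ) :
    σ (veluW (F⁄(AlgebraicClosure ℚ)) Q p) = veluW (F⁄(AlgebraicClosure ℚ)) Q p := by
  unfold veluW veluT1 veluU1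
  rw [map_sum]
  refine Finset.sum_congr rfl fun k _ => ?_
  have hx := xOf_fixed F σ (k • Q) (nsmul_fixed F σ Q hQ k)
  simp only [map_add, map_mul, map_pow, map_ofNat, hx, sigma_b₂, sigma_b₄, sigma_b₆]

/-- Vélu's curve of a fixed point is fixed. -/
theorem veluCurve_map_eq_of_fixed (hQ : σ • Q = Q) (p : ℕ) :
    (veluCurve (F⁄(AlgebraicClosure ℚ)) Q p).map (σ : AlgebraicClosure ℚ →+* AlgebraicClosure ℚ)
      = veluCurve (F⁄(AlgebraicClosure ℚ)) Q p := by
  have hT := sigma_veluT F Q σ hQ p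
  have hW := sigma_veluW F Q σ hQ p
  have h2 := sigma_b₂ F σ
  have ha : ∀ a : ℚ, σ (algebraMap ℚ (AlgebraicClosure ℚ) a) = algebraMap ℚ (AlgebraicClosure ℚ) a :=
    fun a => σ.commutes a
  ext
  · simp only [WeierstrassCurve.map_a₁, veluCurve, WeierstrassCurve.baseChange]
    exact ha _
  · simp only [WeierstrassCurve.map_a₂, veluCurve, WeierstrassCurve.baseChange]
    exact ha _
  · simp only [WeierstrassCurve.map_a₃, veluCurve, WeierstrassCurve.baseChange]
    exact ha _
  · simp only [WeierstrassCurve.map_a₄, veluCurve, RingHom.coe_coe, map_sub, map_mul, map_ofNat,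
      hT]
    congr 1
    exact ha _
  · simp only [WeierstrassCurve.map_a₆, veluCurve, RingHom.coe_coe, map_sub, map_mul, map_ofNat,
      hT, hW, h2]
    congr 2
    exact ha _

theorem sigma_jInv_veluCurve (hQ : σ • Q = Q) (p : ℕ) :
    σ (jInv (veluCurve (F⁄(AlgebraicClosure ℚ)) Q p)) =
      jInv (veluCurve (F⁄(AlgebraicClosure ℚ)) Q p) := by
  have h := veluCurve_map_eq_of_fixed F Q σ hQ p
  have h1 : jInv ((veluCurve (F⁄(AlgebraicClosure ℚ)) Q p).map
      (σ : AlgebraicClosure ℚ →+* AlgebraicClosure ℚ)) =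
      σ (jInv (veluCurve (F⁄(AlgebraicClosure ℚ)) Q p)) := by
    simp only [jInv, WeierstrassCurve.map_c₄, WeierstrassCurve.map_Δ, RingHom.coe_coe, map_div₀,
      map_pow]
  rw [← h1, h]

end Rational

/-- **MOD-V.** -/
theorem veluRational : VeluRationalStatement := by
  intro p W Q hQfix
  have := isGalois_Qbar_h542
  have h := (InfiniteGalois.mem_range_algebraMap_iff_fixed (k := ℚ) (K := AlgebraicClosure ℚ)
    (jInv (veluCurve (curveBar W) Q p))).mpr
    (fun σ => sigma_jInv_veluCurve (W.map (Int.castRingHom ℚ)) Q σ (hQfix σ) p)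
  exact h

end Fermat.Agent.S15.H542

end
end
-- ===== PACK-END S15/H542/ModV.lean

-- ===== PACK-BEGIN S56/H186/TameVal.lean
section



/-!
# S56 / leaf TAME-CYC (helper186), part 1: value group facts

`A` a valuation subring of a field `L`, algebraic over `K`.

* `exists_ne_valuation_eq_of_sum_eq_zero` : in a vanishing sum with a nonzero term, two different
  terms have the same nonzero valuation.
* `exists_pow_valuation_eq` : for `x ≠ 0` algebraic over `K` there are `0 < n ≤ deg (minpoly x)` and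
  `a ∈ Kˣ` with `v x ^ n = v a`.
* `valuation_natCast_eq_one_of_coprime`, `exists_valuation_rat_eq_zpow` : if `A` lies over the prime
  `q`, then `v (ℚˣ) = v q ^ ℤ`.
* `exists_valuation_eq_zpow_root` : if `c ^ N = q` and `N` is divisible by all `n ≤ d`, then
  `v x ∈ v c ^ ℤ` for every `x ≠ 0` whose minimal polynomial has degree `≤ d`.
-/

set_option autoImplicit false
set_option linter.unusedSectionVars false

namespace Fermat.Agent.S56.H186

open Polynomial

section General

variable {R : Type*} [Ring R] {Γ₀ : Type*} [LinearOrderedCommGroupWithZero Γ₀]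
  (v : Valuation R Γ₀)

/-- In a vanishing finite sum having a term of nonzero valuation, two different terms have the
same nonzero valuation. -/
theorem exists_ne_valuation_eq_of_sum_eq_zero {ι : Type*} [DecidableEq ι] (s : Finset ι)
    (f : ι → R) (hsum : ∑ i ∈ s, f i = 0) (hne : ∃ i ∈ s, v (f i) ≠ 0) :
    ∃ i ∈ s, ∃ j ∈ s, i ≠ j ∧ v (f i) = v (f j) ∧ v (f i) ≠ 0 := by
  obtain ⟨i₀, hi₀, hv₀⟩ := hne
  obtain ⟨j, hj, hmax⟩ := Finset.exists_max_image s (fun i => v (f i)) ⟨i₀, hi₀⟩
  have hj0 : v (f j) ≠ 0 := by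
    intro h0
    have := hmax i₀ hi₀
    rw [h0] at this
    exact hv₀ (le_antisymm this zero_le)
  by_contra hcon
  push Not at hcon
  have hlt : ∀ i ∈ s \ {j}, v (f i) < v (f j) := by
    intro i hi
    rw [Finset.mem_sdiff, Finset.mem_singleton] at hi
    rcases lt_or_eq_of_le (hmax i hi.1) with h | h
    · exact h
    · exfalso
      exact hj0 (hcon j hj i hi.1 (Ne.symm hi.2) h.symm)
  have := v.map_sum_eq_of_lt hj hlt
  rw [hsum, map_zero] at this
  exact hj0 this.symm

end General

section Algebraic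

variable {K L : Type*} [Field K] [Field L] [Algebra K L] (A : ValuationSubring L)

/-- For `x ≠ 0` algebraic over `K`, a positive power `n ≤ deg (minpoly x)` of `v x` is the
valuation of a nonzero element of `K`. -/
theorem exists_pow_valuation_eq {x : L} (hx : x ≠ 0) (hint : IsIntegral K x) :
    ∃ n : ℕ, 0 < n ∧ n ≤ (minpoly K x).natDegree ∧
      ∃ a : K, a ≠ 0 ∧ A.valuation x ^ n = A.valuation (algebraMap K L a) := by
  classical
  set f := minpoly K x with hf
  set d := f.natDegree with hd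
  have hsum : ∑ i ∈ Finset.range (d + 1), algebraMap K L (f.coeff i) * x ^ i = 0 := by
    have h := minpoly.aeval K x
    rw [← hf, aeval_eq_sum_range] at h
    simpa [Algebra.smul_def] using h
  have hvx : A.valuation x ≠ 0 := (Valuation.ne_zero_iff _).mpr hx
  have hmonic : f.coeff d = 1 := (minpoly.monic hint).coeff_natDegree
  have hne : ∃ i ∈ Finset.range (d + 1),
      A.valuation (algebraMap K L (f.coeff i) * x ^ i) ≠ 0 := by
    refine ⟨d, Finset.mem_range.mpr (Nat.lt_succ_self d), ?_⟩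
    rw [hmonic, map_one, one_mul, map_pow]
    exact pow_ne_zero _ hvx
  obtain ⟨i, hi, j, hj, hij, heq, hne0⟩ :=
    exists_ne_valuation_eq_of_sum_eq_zero A.valuation _ _ hsum hne
  -- symmetric statement: wlog i < j
  have key : ∀ i j : ℕ, i < j → j < d + 1 →
      A.valuation (algebraMap K L (f.coeff i) * x ^ i) =
        A.valuation (algebraMap K L (f.coeff j) * x ^ j) →
      A.valuation (algebraMap K L (f.coeff i) * x ^ i) ≠ 0 →
      ∃ n : ℕ, 0 < n ∧ n ≤ d ∧
        ∃ a : K, a ≠ 0 ∧ A.valuation x ^ n = A.valuation (algebraMap K L a) := by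
    intro i j hlt hjd heq hne0
    have hci : f.coeff i ≠ 0 := by
      intro h0
      apply hne0
      rw [h0, map_zero, zero_mul, map_zero]
    have hcj : f.coeff j ≠ 0 := by
      intro h0
      apply hne0
      rw [heq, h0, map_zero, zero_mul, map_zero]
    refine ⟨j - i, Nat.sub_pos_of_lt hlt, by omega, f.coeff i / f.coeff j,
      div_ne_zero hci hcj, ?_⟩
    have hvj : A.valuation (algebraMap K L (f.coeff j)) ≠ 0 :=
      (Valuation.ne_zero_iff _).mpr (by simpa using hcj)
    have hxi : A.valuation x ^ i ≠ 0 := pow_ne_zero _ hvx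
    rw [map_mul, map_mul, map_pow, map_pow] at heq
    rw [map_div₀, map_div₀, eq_div_iff hvj]
    have hji : j = (j - i) + i := by omega
    have h2 : A.valuation x ^ j = A.valuation x ^ (j - i) * A.valuation x ^ i := by
      conv_lhs => rw [hji, pow_add]
    rw [h2] at heq
    have h3 : A.valuation (algebraMap K L (f.coeff i)) * A.valuation x ^ i =
        (A.valuation x ^ (j - i) * A.valuation (algebraMap K L (f.coeff j))) *
          A.valuation x ^ i := by
      rw [heq]; ac_rfl
    exact (mul_right_cancel₀ hxi h3).symm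
  rcases lt_or_gt_of_ne hij with h | h
  · exact key i j h (Finset.mem_range.mp hj) heq hne0
  · exact key j i h (Finset.mem_range.mp hi) heq.symm (heq ▸ hne0)

/-- General form: if the valuations of `Kˣ` are powers of `v π`, `c ^ N = π` and `N` is divisible
by every `0 < n ≤ d`, then the valuation of every nonzero `x` of degree `≤ d` over `K` is an
integral power of `v c`. -/
theorem exists_valuation_eq_zpow_root_of {π : L}
    (hK : ∀ a : K, a ≠ 0 → ∃ m : ℤ, A.valuation (algebraMap K L a) = A.valuation π ^ m)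
    {N d : ℕ} (hN : ∀ n : ℕ, 0 < n → n ≤ d → n ∣ N) {c : L} (hc : c ^ N = π) {x : L}
    (hx : x ≠ 0) (hint : IsIntegral K x) (hdeg : (minpoly K x).natDegree ≤ d) :
    ∃ m : ℤ, A.valuation x = A.valuation c ^ m := by
  obtain ⟨n, hn0, hnd, a, ha, hxa⟩ := exists_pow_valuation_eq A hx hint
  obtain ⟨m, hm⟩ := hK a ha
  obtain ⟨N', rfl⟩ := hN n hn0 (hnd.trans hdeg)
  refine ⟨N' * m, ?_⟩
  have h1 : A.valuation x ^ n = (A.valuation c ^ ((N' : ℤ) * m)) ^ n := by
    rw [hxa, hm, ← hc, map_pow, ← zpow_natCast (A.valuation c ^ ((N' : ℤ) * m)) n,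
      ← zpow_natCast (A.valuation c) (n * N'), ← zpow_mul, ← zpow_mul]
    congr 1
    push_cast; ring
  exact (pow_left_inj hn0.ne').mp h1

end Algebraic

section Rat

variable {L : Type*} [Field L] [Algebra ℚ L] (A : ValuationSubring L) {q : ℕ}

theorem valuation_natCast_le_one (n : ℕ) : A.valuation (n : L) ≤ 1 :=
  (A.valuation_le_one_iff _).mpr (natCast_mem A n)

theorem valuation_intCast_le_one (n : ℤ) : A.valuation (n : L) ≤ 1 :=
  (A.valuation_le_one_iff _).mpr (intCast_mem A n)

/-- Integers prime to `q` are units of a valuation subring lying over `q`. -/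
theorem valuation_natCast_eq_one_of_coprime (hq : A.LiesOverPrime q) {n : ℕ}
    (hn : Nat.Coprime n q) : A.valuation (n : L) = 1 := by
  obtain ⟨a, b, hab⟩ := Nat.isCoprime_iff_coprime.mpr hn
  have hq1 : A.valuation (q : L) < 1 := A.mem_nonunits_iff.mp hq
  have hL : (a : L) * (n : L) = 1 - (b : L) * (q : L) := by
    have := congrArg (Int.cast : ℤ → L) hab
    push_cast at this
    rw [← this]; ring
  have hbq : A.valuation ((b : L) * (q : L)) < 1 := by
    rw [map_mul]
    calc A.valuation (b : L) * A.valuation (q : L) ≤ 1 * A.valuation (q : L) :=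
          mul_le_mul' (valuation_intCast_le_one A b) le_rfl
      _ = A.valuation (q : L) := one_mul _
      _ < 1 := hq1
  have h1 : A.valuation ((a : L) * (n : L)) = 1 := by
    rw [hL]; exact Valuation.map_one_sub_of_lt _ hbq
  rw [map_mul] at h1
  refine le_antisymm (valuation_natCast_le_one A n) ?_
  calc (1 : A.ValueGroup) = A.valuation (a : L) * A.valuation (n : L) := h1.symm
    _ ≤ 1 * A.valuation (n : L) := mul_le_mul' (valuation_intCast_le_one A a) le_rfl
    _ = A.valuation (n : L) := one_mul _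

theorem exists_valuation_natCast_eq_pow (hq : A.LiesOverPrime q) (hqp : q.Prime) {n : ℕ}
    (hn : n ≠ 0) : ∃ i : ℕ, A.valuation (n : L) = A.valuation (q : L) ^ i := by
  obtain ⟨i, n', hn', rfl⟩ := Nat.exists_eq_pow_mul_and_not_dvd hn q hqp.ne_one
  refine ⟨i, ?_⟩
  have hc : Nat.Coprime n' q := ((Nat.Prime.coprime_iff_not_dvd hqp).mpr hn').symm
  rw [Nat.cast_mul, Nat.cast_pow, map_mul, map_pow, valuation_natCast_eq_one_of_coprime A hq hc,
    mul_one]

theorem exists_valuation_intCast_eq_pow (hq : A.LiesOverPrime q) (hqp : q.Prime) {n : ℤ}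
    (hn : n ≠ 0) : ∃ i : ℕ, A.valuation (n : L) = A.valuation (q : L) ^ i := by
  obtain ⟨i, hi⟩ := exists_valuation_natCast_eq_pow A hq hqp (Int.natAbs_ne_zero.mpr hn)
  refine ⟨i, ?_⟩
  rw [← hi]
  rcases Int.natAbs_eq n with h | h
  · conv_lhs => rw [h]
    simp
  · conv_lhs => rw [h]
    simp

/-- The valuation of a nonzero rational number is an integral power of `v q`. -/
theorem exists_valuation_rat_eq_zpow (hq : A.LiesOverPrime q) (hqp : q.Prime) {a : ℚ}
    (ha : a ≠ 0) : ∃ m : ℤ, A.valuation (algebraMap ℚ L a) = A.valuation (q : L) ^ m := by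
  obtain ⟨i, hi⟩ := exists_valuation_intCast_eq_pow A hq hqp (Rat.num_ne_zero.mpr ha)
  obtain ⟨j, hj⟩ := exists_valuation_natCast_eq_pow A hq hqp a.den_ne_zero
  refine ⟨(i : ℤ) - j, ?_⟩
  have h1 : algebraMap ℚ L a = (a.num : L) / (a.den : L) := by
    rw [eq_ratCast, Rat.cast_def]
  have hq0 : A.valuation (q : L) ≠ 0 := by
    haveI : CharZero L := charZero_of_injective_ringHom (algebraMap ℚ L).injective
    exact (Valuation.ne_zero_iff _).mpr (Nat.cast_ne_zero.mpr hqp.ne_zero)
  rw [h1, map_div₀, hi, hj, zpow_sub₀ hq0, zpow_natCast, zpow_natCast]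

/-- If `c ^ N = q` with `N` divisible by every `0 < n ≤ d`, then the valuation of every nonzero
`x` of degree `≤ d` over `ℚ` is an integral power of `v c`. -/
theorem exists_valuation_eq_zpow_root (hq : A.LiesOverPrime q) (hqp : q.Prime) {N d : ℕ}
    (hN : ∀ n : ℕ, 0 < n → n ≤ d → n ∣ N) {c : L} (hc : c ^ N = (q : L)) {x : L} (hx : x ≠ 0)
    (hint : IsIntegral ℚ x) (hdeg : (minpoly ℚ x).natDegree ≤ d) :
    ∃ m : ℤ, A.valuation x = A.valuation c ^ m :=
  exists_valuation_eq_zpow_root_of A (fun _ ha => exists_valuation_rat_eq_zpow A hq hqp ha)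
    hN hc hx hint hdeg

end Rat

end Fermat.Agent.S56.H186

end
-- ===== PACK-END S56/H186/TameVal.lean

-- ===== PACK-BEGIN S15/H946/Ex.lean
section


/-!
# S15 / DESC / T1 HOPF-E — the extension `E_x` of `ℤ/ℓ` by `J[ℓ]`  (helper946)

For an abelian group `J` with an action of a group `G`, a `G`-fixed point `x` and `ℓ ≠ 0`:

    E_x := { (s, a) ∈ J × ℤ : ℓ s = a x } / ⟨(x, ℓ)⟩ .

It is an extension `0 → J[ℓ] → E_x → ℤ/ℓ` of `G`-modules (`ι`, `κ`), onto if `x ∈ ℓ J`; for
`ℓ y = x` the class `pt y` of `(y, 1)` lies over `1` and `σ (pt y) - pt y = ι (σ y - y)`: the class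
of the extension is the Kummer class of `x`.  (If `x` has infinite order this is `(J[ℓ] + ℤy)/ℤx`.)

`rep : E_x → J` is the set-theoretic section `[(s, a)] ↦ s - ⌊a/ℓ⌋ x` (`ℓ · rep m = (κ m).val x`);
it is additive up to the carry: `rep (m + m') = rep m + rep m' - ⌊(κ m + κ m')/ℓ⌋ x`.

Mathlib only; sorry-free.
-/

set_option autoImplicit false

noncomputable section

namespace Fermat.Agent.S15.H946

variable {J : Type} [AddCommGroup J] (ℓ : ℕ) (x : J)

/-- The pairs `(s, a)` with `ℓ s = a x`. -/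
def preE : AddSubgroup (J × ℤ) where
  carrier := {p | (ℓ : ℤ) • p.1 = p.2 • x}
  zero_mem' := by simp
  add_mem' := by
    intro p q hp hq
    simp only [Set.mem_ofPred_eq, Prod.fst_add, Prod.snd_add, smul_add, add_smul] at *
    rw [hp, hq]
  neg_mem' := by
    intro p hp
    simp only [Set.mem_ofPred_eq, Prod.fst_neg, Prod.snd_neg, smul_neg, neg_smul] at *
    rw [hp]

theorem mem_preE (p : J × ℤ) : p ∈ preE ℓ x ↔ (ℓ : ℤ) • p.1 = p.2 • x := Iff.rfl

/-- The generator `(x, ℓ)` of the relations. -/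
def genE : preE ℓ x := ⟨(x, (ℓ : ℤ)), rfl⟩

/-- **The extension `E_x`.** -/
abbrev Ex : Type := preE ℓ x ⧸ AddSubgroup.zmultiples (genE ℓ x)

/-- The class of a pair. -/
def mkE (s : J) (a : ℤ) (h : (ℓ : ℤ) • s = a • x) : Ex ℓ x :=
  QuotientAddGroup.mk (⟨(s, a), h⟩ : preE ℓ x)

theorem mkE_surjective (m : Ex ℓ x) : ∃ s a h, mkE ℓ x s a h = m := by
  obtain ⟨⟨⟨s, a⟩, h⟩, rfl⟩ := QuotientAddGroup.mk_surjective m
  exact ⟨s, a, h, rfl⟩

theorem mkE_add (s s' : J) (a a' : ℤ) (h : (ℓ : ℤ) • s = a • x) (h' : (ℓ : ℤ) • s' = a' • x) :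
    mkE ℓ x s a h + mkE ℓ x s' a' h' =
      mkE ℓ x (s + s') (a + a') (by rw [smul_add, add_smul, h, h']) := rfl

theorem mkE_eq_iff (s s' : J) (a a' : ℤ) (h : (ℓ : ℤ) • s = a • x) (h' : (ℓ : ℤ) • s' = a' • x) :
    mkE ℓ x s a h = mkE ℓ x s' a' h' ↔ ∃ n : ℤ, s' = s + n • x ∧ a' = a + n * ℓ := by
  unfold mkE
  rw [QuotientAddGroup.eq, AddSubgroup.mem_zmultiples_iff]
  constructor
  · rintro ⟨n, hn⟩
    have h1 := congrArg (fun p : preE ℓ x => (p : J × ℤ).1) hn
    have h2 := congrArg (fun p : preE ℓ x => (p : J × ℤ).2) hn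
    simp only [genE, AddSubgroup.coe_zsmul, Prod.smul_fst, Prod.smul_snd, AddSubgroup.coe_add,
      AddSubgroup.coe_neg, Prod.fst_add, Prod.snd_add, Prod.fst_neg, Prod.snd_neg,
      smul_eq_mul] at h1 h2
    refine ⟨n, ?_, ?_⟩
    · rw [h1]; abel
    · rw [h2]; ring
  · rintro ⟨n, h1, h2⟩
    refine ⟨n, Subtype.ext ?_⟩
    simp only [genE, AddSubgroup.coe_zsmul, AddSubgroup.coe_add, AddSubgroup.coe_neg]
    refine Prod.ext ?_ ?_
    · simp only [Prod.smul_fst, Prod.fst_add, Prod.fst_neg]
      rw [h1]; abel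
    · simp only [Prod.smul_snd, Prod.snd_add, Prod.snd_neg, smul_eq_mul]
      rw [h2]; ring

/-! ### The projection to `ℤ/ℓ` -/

/-- The projection `κ : E_x → ℤ/ℓ`. -/
def kap : Ex ℓ x →+ ZMod ℓ :=
  QuotientAddGroup.lift _
    ((Int.castAddHom (ZMod ℓ)).comp ((AddMonoidHom.snd J ℤ).comp (preE ℓ x).subtype))
    (by
      rw [AddSubgroup.zmultiples_le]
      show ((Int.castAddHom (ZMod ℓ)).comp ((AddMonoidHom.snd J ℤ).comp (preE ℓ x).subtype))
        (genE ℓ x) = 0
      simp [genE])

@[simp] theorem kap_mkE (s : J) (a : ℤ) (h : (ℓ : ℤ) • s = a • x) :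
    kap ℓ x (mkE ℓ x s a h) = (a : ZMod ℓ) := rfl

/-! ### The representatives -/

variable [NeZero ℓ]

/-- The representative `s - ⌊a/ℓ⌋ x` of the class of `(s, a)`. -/
def rep : Ex ℓ x → J :=
  Quotient.lift (fun p : preE ℓ x => (p : J × ℤ).1 - ((p : J × ℤ).2 / (ℓ : ℤ)) • x) (by
    rintro ⟨⟨s, a⟩, h⟩ ⟨⟨s', a'⟩, h'⟩ hr
    have hr' : mkE ℓ x s a h = mkE ℓ x s' a' h' := Quotient.sound hr
    obtain ⟨n, h1, h2⟩ := (mkE_eq_iff ℓ x s s' a a' h h').1 hr'
    have hℓ : (ℓ : ℤ) ≠ 0 := by exact_mod_cast NeZero.ne ℓ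
    show s - (a / (ℓ : ℤ)) • x = s' - (a' / (ℓ : ℤ)) • x
    rw [h1, h2, Int.add_mul_ediv_right _ _ hℓ, add_smul]
    abel)

@[simp] theorem rep_mkE (s : J) (a : ℤ) (h : (ℓ : ℤ) • s = a • x) :
    rep ℓ x (mkE ℓ x s a h) = s - (a / (ℓ : ℤ)) • x := rfl

/-- `ℓ · rep m = (κ m).val · x`. -/
theorem smul_rep (m : Ex ℓ x) : (ℓ : ℤ) • rep ℓ x m = ((kap ℓ x m).val : ℤ) • x := by
  obtain ⟨s, a, h, rfl⟩ := mkE_surjective ℓ x m
  rw [rep_mkE, kap_mkE, smul_sub, h, smul_smul, ZMod.val_intCast, ← sub_smul]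
  congr 1
  have := Int.mul_ediv_add_emod a (ℓ : ℤ)
  linarith

/-- The carry constant. -/
def carry (j j' : ZMod ℓ) : J := -((((j.val + j'.val) / ℓ : ℕ) : ℤ) • x)

/-- **`rep` is additive up to the carry.** -/
theorem rep_add (m m' : Ex ℓ x) :
    rep ℓ x (m + m') = rep ℓ x m + rep ℓ x m' + carry ℓ x (kap ℓ x m) (kap ℓ x m') := by
  obtain ⟨s, a, h, rfl⟩ := mkE_surjective ℓ x m
  obtain ⟨s', a', h', rfl⟩ := mkE_surjective ℓ x m'
  rw [mkE_add, rep_mkE, rep_mkE, rep_mkE, kap_mkE, kap_mkE, carry]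
  have hℓ : (ℓ : ℤ) ≠ 0 := by exact_mod_cast NeZero.ne ℓ
  have hℓ' : (0 : ℤ) < ℓ := by exact_mod_cast Nat.pos_of_ne_zero (NeZero.ne ℓ)
  have key : (a + a') / (ℓ : ℤ) =
      a / (ℓ : ℤ) + a' / (ℓ : ℤ) + (((((a : ZMod ℓ).val + (a' : ZMod ℓ).val) / ℓ : ℕ)) : ℤ) := by
    have e1 := Int.mul_ediv_add_emod a (ℓ : ℤ)
    have e2 := Int.mul_ediv_add_emod a' (ℓ : ℤ)
    have hsum : a + a' = (a % (ℓ : ℤ) + a' % (ℓ : ℤ)) + (a / (ℓ : ℤ) + a' / (ℓ : ℤ)) * ℓ := by
      linarith
    rw [hsum, Int.add_mul_ediv_right _ _ hℓ]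
    push_cast
    rw [ZMod.val_intCast, ZMod.val_intCast]
    ring
  rw [key, add_smul, add_smul]
  abel

/-- Grading and representative determine the element. -/
theorem eq_of_kap_rep {m m' : Ex ℓ x} (hk : kap ℓ x m = kap ℓ x m')
    (hr : rep ℓ x m = rep ℓ x m') : m = m' := by
  obtain ⟨s, a, h, rfl⟩ := mkE_surjective ℓ x m
  obtain ⟨s', a', h', rfl⟩ := mkE_surjective ℓ x m'
  rw [kap_mkE, kap_mkE] at hk
  rw [rep_mkE, rep_mkE] at hr
  rw [mkE_eq_iff]
  have hmod : a % (ℓ : ℤ) = a' % (ℓ : ℤ) := (ZMod.intCast_eq_intCast_iff' a a' ℓ).1 hk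
  have e1 := Int.mul_ediv_add_emod a (ℓ : ℤ)
  have e2 := Int.mul_ediv_add_emod a' (ℓ : ℤ)
  refine ⟨a' / (ℓ : ℤ) - a / (ℓ : ℤ), ?_, ?_⟩
  · rw [sub_smul]
    have : s' = s - (a / (ℓ : ℤ)) • x + (a' / (ℓ : ℤ)) • x := by rw [hr]; abel
    rw [this]; abel
  · linarith

/-! ### The subgroup `J[ℓ]` -/

/-- The inclusion `ι : J[ℓ] → E_x`. -/
def iot : (Submodule.torsionBy ℤ J (ℓ : ℤ)) →+ Ex ℓ x where
  toFun w := mkE ℓ x (w : J) 0 (by
    rw [zero_smul]
    exact (Submodule.mem_torsionBy_iff _ _).1 w.2)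
  map_zero' := rfl
  map_add' _ _ := rfl

omit [NeZero ℓ] in
@[simp] theorem kap_iot (w : Submodule.torsionBy ℤ J (ℓ : ℤ)) : kap ℓ x (iot ℓ x w) = 0 := by
  simp [iot]

@[simp] theorem rep_iot (w : Submodule.torsionBy ℤ J (ℓ : ℤ)) : rep ℓ x (iot ℓ x w) = (w : J) := by
  simp [iot]

theorem iot_injective : Function.Injective (iot ℓ x) := by
  intro w w' h
  have := congrArg (rep ℓ x) h
  rw [rep_iot, rep_iot] at this
  exact Subtype.ext this

/-- Exactness in the middle: the kernel of `κ` is the image of `ι`. -/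
theorem exists_iot_of_kap_eq_zero {m : Ex ℓ x} (h : kap ℓ x m = 0) :
    ∃ w, iot ℓ x w = m := by
  have h1 := smul_rep ℓ x m
  rw [h, ZMod.val_zero] at h1
  simp only [Nat.cast_zero, zero_smul] at h1
  refine ⟨⟨rep ℓ x m, (Submodule.mem_torsionBy_iff _ _).2 h1⟩, ?_⟩
  apply eq_of_kap_rep
  · rw [kap_iot, h]
  · rw [rep_iot]

omit [NeZero ℓ] in
/-- The point over `1` attached to a division point `y` of `x`. -/
def ptE (y : J) (hy : (ℓ : ℤ) • y = x) : Ex ℓ x := mkE ℓ x y 1 (by rw [one_smul, hy])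

omit [NeZero ℓ] in
@[simp] theorem kap_ptE (y : J) (hy : (ℓ : ℤ) • y = x) : kap ℓ x (ptE ℓ x y hy) = 1 := by
  simp [ptE]

/-- Every element is `ι w + j · pt y`. -/
theorem exists_eq_iot_add (y : J) (hy : (ℓ : ℤ) • y = x) (m : Ex ℓ x) :
    ∃ w, m = iot ℓ x w + ((kap ℓ x m).val : ℤ) • ptE ℓ x y hy := by
  have h0 : kap ℓ x (m - ((kap ℓ x m).val : ℤ) • ptE ℓ x y hy) = 0 := by
    rw [map_sub, map_zsmul, kap_ptE]
    simp
  obtain ⟨w, hw⟩ := exists_iot_of_kap_eq_zero ℓ x h0
  exact ⟨w, by rw [hw]; abel⟩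

/-! ### Finiteness -/

theorem finite_Ex [Finite (Submodule.torsionBy ℤ J (ℓ : ℤ))] : Finite (Ex ℓ x) := by
  classical
  -- a section of `κ` on its range
  let sec : ZMod ℓ → Ex ℓ x := fun j => if h : ∃ m, kap ℓ x m = j then h.choose else 0
  have hsec : ∀ m, kap ℓ x (sec (kap ℓ x m)) = kap ℓ x m := by
    intro m
    have h : ∃ m', kap ℓ x m' = kap ℓ x m := ⟨m, rfl⟩
    simp only [sec, dif_pos h]
    exact h.choose_spec
  have hmem : ∀ m, rep ℓ x m - rep ℓ x (sec (kap ℓ x m)) ∈ Submodule.torsionBy ℤ J (ℓ : ℤ) := by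
    intro m
    rw [Submodule.mem_torsionBy_iff, smul_sub, smul_rep, smul_rep, hsec, sub_self]
  have : Finite (ZMod ℓ) := by
    have : Fintype (ZMod ℓ) := ZMod.fintype ℓ
    infer_instance
  refine Finite.of_injective
    (fun m => ((kap ℓ x m, ⟨_, hmem m⟩) : ZMod ℓ × Submodule.torsionBy ℤ J (ℓ : ℤ))) ?_
  intro m m' h
  have hk : kap ℓ x m = kap ℓ x m' := congrArg Prod.fst h
  have hr := congrArg (fun p : ZMod ℓ × Submodule.torsionBy ℤ J (ℓ : ℤ) => (p.2 : J)) h
  simp only [hk] at hr
  exact eq_of_kap_rep ℓ x hk (sub_left_injective hr)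

/-! ### The action -/

section Action

variable {G : Type} [Group G] [DistribMulAction G J] (hx : ∀ σ : G, σ • x = x)

include hx in
omit [NeZero ℓ] in
theorem smul_mem_preE (σ : G) (p : J × ℤ) (hp : p ∈ preE ℓ x) : (σ • p.1, p.2) ∈ preE ℓ x := by
  rw [mem_preE] at hp ⊢
  show (ℓ : ℤ) • σ • p.1 = p.2 • x
  rw [← smul_comm σ, hp, smul_comm σ, hx]

omit [NeZero ℓ] in
/-- The action of `σ` on pairs. -/
def preAct (σ : G) : preE ℓ x →+ preE ℓ x where
  toFun p := ⟨(σ • (p : J × ℤ).1, (p : J × ℤ).2), smul_mem_preE ℓ x hx σ p p.2⟩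
  map_zero' := Subtype.ext (by simp)
  map_add' p q := Subtype.ext (by simp [smul_add])

omit [NeZero ℓ] in
/-- **The action of `G` on `E_x`.** -/
def actE (σ : G) : Ex ℓ x →+ Ex ℓ x :=
  QuotientAddGroup.map _ _ (preAct ℓ x hx σ) (by
    rw [AddSubgroup.zmultiples_le]
    show preAct ℓ x hx σ (genE ℓ x) ∈ AddSubgroup.zmultiples (genE ℓ x)
    have : preAct ℓ x hx σ (genE ℓ x) = genE ℓ x := Subtype.ext (by
      show (σ • x, (ℓ : ℤ)) = (x, (ℓ : ℤ))
      rw [hx])
    rw [this]
    exact AddSubgroup.mem_zmultiples _)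

omit [NeZero ℓ] in
@[simp] theorem actE_mkE (σ : G) (s : J) (a : ℤ) (h : (ℓ : ℤ) • s = a • x) :
    actE ℓ x hx σ (mkE ℓ x s a h) =
      mkE ℓ x (σ • s) a (smul_mem_preE ℓ x hx σ (s, a) h) := rfl

omit [NeZero ℓ] in
theorem actE_one (m : Ex ℓ x) : actE ℓ x hx 1 m = m := by
  obtain ⟨s, a, h, rfl⟩ := mkE_surjective ℓ x m
  rw [actE_mkE]
  congr 1
  exact one_smul G s

omit [NeZero ℓ] in
theorem actE_mul (σ τ : G) (m : Ex ℓ x) :
    actE ℓ x hx (σ * τ) m = actE ℓ x hx σ (actE ℓ x hx τ m) := by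
  obtain ⟨s, a, h, rfl⟩ := mkE_surjective ℓ x m
  rw [actE_mkE, actE_mkE, actE_mkE]
  congr 1
  exact mul_smul σ τ s

omit [NeZero ℓ] in
@[simp] theorem kap_actE (σ : G) (m : Ex ℓ x) : kap ℓ x (actE ℓ x hx σ m) = kap ℓ x m := by
  obtain ⟨s, a, h, rfl⟩ := mkE_surjective ℓ x m
  rw [actE_mkE, kap_mkE, kap_mkE]

@[simp] theorem rep_actE (σ : G) (m : Ex ℓ x) : rep ℓ x (actE ℓ x hx σ m) = σ • rep ℓ x m := by
  obtain ⟨s, a, h, rfl⟩ := mkE_surjective ℓ x m
  rw [actE_mkE, rep_mkE, rep_mkE, smul_sub, smul_comm σ, hx]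

/-- If `σ` fixes the representative, it fixes the element. -/
theorem actE_eq_self_of_rep {σ : G} {m : Ex ℓ x} (h : σ • rep ℓ x m = rep ℓ x m) :
    actE ℓ x hx σ m = m :=
  eq_of_kap_rep ℓ x (kap_actE ℓ x hx σ m) (by rw [rep_actE, h])

omit [NeZero ℓ] in
/-- `ι` is equivariant. -/
theorem actE_iot (σ : G) (w : Submodule.torsionBy ℤ J (ℓ : ℤ)) :
    actE ℓ x hx σ (iot ℓ x w) = iot ℓ x ⟨σ • (w : J), by
      rw [Submodule.mem_torsionBy_iff, smul_comm, (Submodule.mem_torsionBy_iff _ _).1 w.2,
        smul_zero]⟩ := rfl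

omit [NeZero ℓ] in
/-- **The class of the extension is the Kummer class of `x`.** -/
theorem actE_ptE (σ : G) (y : J) (hy : (ℓ : ℤ) • y = x) :
    actE ℓ x hx σ (ptE ℓ x y hy) = ptE ℓ x y hy + iot ℓ x ⟨σ • y - y, by
      rw [Submodule.mem_torsionBy_iff, smul_sub, smul_comm, hy, hx, sub_self]⟩ := by
  unfold ptE iot
  simp only [actE_mkE, AddMonoidHom.coe_mk, ZeroHom.coe_mk]
  rw [mkE_add]
  congr 1
  abel

end Action

end Fermat.Agent.S15.H946

end
end
-- ===== PACK-END S15/H946/Ex.lean

-- ===== PACK-BEGIN S18/H278/NCVal.lean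
section


/-!
# S18 / ALG-FRONT, piece hNC (helper278), part 1: the valuation-theoretic core

`Ω` a field, `Lc ≤ Ω` an algebraically closed subfield, `x : Ω`, `S` a finite set (branch values).
Hypothesis `Unramified Lc x S` = the field `unramified` of `Alg.GoodModel` (`Alg/Spec.lean`):
at a place `O ⊇ Lc` of `Ω` where `x` takes a value `c ∈ Lc`, `c ∉ S`, `x - c` is a uniformiser.

`mul_inv_mem_of_unramified` : if `P ∈ Lc[X]` is separable without roots in `S` and `P(x)` is a
nonunit of `O`, then `P(x)` is a uniformiser of `O`: `t / P(x) ∈ O` for every nonunit `t` of `O`.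
-/

set_option autoImplicit false
set_option linter.unusedSectionVars false

namespace Fermat.Agent.S18.H278

open Polynomial

section Val

variable {Ω : Type*} [Field Ω]

/-- The `unramified` field of `Alg.GoodModel`, as a standalone predicate. -/
def Unramified (Lc : Subfield Ω) (x : Ω) (S : Finset Ω) : Prop :=
  ∀ O : ValuationSubring Ω, (∀ a ∈ Lc, a ∈ O) → ∀ c ∈ Lc, c ∉ S →
    x - c ∈ O → (x - c)⁻¹ ∉ O → ∀ t ∈ O, t⁻¹ ∉ O → t * (x - c)⁻¹ ∈ O

variable (O : ValuationSubring Ω) (Lc : Subfield Ω) (hLO : ∀ a ∈ Lc, a ∈ O)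

/-- `t ∈ O`, `t⁻¹ ∉ O` means valuation `< 1`. -/
theorem valuation_lt_one_of_inv_not_mem {t : Ω} (ht : t ∈ O) (ht' : t⁻¹ ∉ O) :
    O.valuation t < 1 := by
  rcases eq_or_ne t 0 with rfl | h0
  · exact absurd (by rw [inv_zero]; exact O.zero_mem) ht'
  have h1 : O.valuation t ≤ 1 := (O.valuation_le_one_iff t).mpr ht
  refine lt_of_le_of_ne h1 fun h => ht' ?_
  rw [← O.valuation_le_one_iff, map_inv₀, h, inv_one]

theorem inv_not_mem_of_valuation_lt_one {t : Ω} (h0 : t ≠ 0) (ht : O.valuation t < 1) :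
    t⁻¹ ∉ O := by
  intro h
  have h1 : O.valuation t⁻¹ ≤ 1 := (O.valuation_le_one_iff _).mpr h
  have h2 : O.valuation (t * t⁻¹) < 1 := by
    rw [map_mul]
    exact mul_lt_one_of_lt_of_le ht h1
  rw [mul_inv_cancel₀ h0, map_one] at h2
  exact lt_irrefl _ h2

include hLO in
/-- A nonzero constant is a unit of `O`. -/
theorem valuation_eq_one_of_mem {a : Ω} (ha : a ∈ Lc) (ha0 : a ≠ 0) : O.valuation a = 1 := by
  have h1 : O.valuation a ≤ 1 := (O.valuation_le_one_iff a).mpr (hLO a ha)
  refine le_antisymm h1 ?_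
  by_contra h
  rw [not_le] at h
  exact inv_not_mem_of_valuation_lt_one O ha0 h (hLO _ (Lc.inv_mem ha))

include hLO in
/-- A polynomial with constant coefficients evaluated at an element of `O` lies in `O`. -/
theorem aeval_mem_of_mem (Q : Polynomial Lc) {y : Ω} (hy : y ∈ O) : aeval y Q ∈ O := by
  induction Q using Polynomial.induction_on' with
  | add p q hp hq => rw [map_add]; exact O.add_mem _ _ hp hq
  | monomial n a =>
    rw [aeval_monomial]
    exact O.mul_mem _ _ (hLO _ a.2) (pow_mem hy n)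

include hLO in
/-- `Q(y) ≡ Q(c)` modulo `y - c`. -/
theorem valuation_aeval_sub_le (Q : Polynomial Lc) {y : Ω} (hy : y ∈ O) (c : Lc) :
    O.valuation (aeval y Q - ((Q.eval c : Lc) : Ω)) ≤ O.valuation (y - (c : Ω)) := by
  obtain ⟨Q₁, hQ₁⟩ : (X - C c) ∣ Q - C (Q.eval c) := by
    rw [dvd_iff_isRoot]
    simp
  have h1 : aeval y Q - ((Q.eval c : Lc) : Ω) = (y - (c : Ω)) * aeval y Q₁ := by
    have := congrArg (aeval y) hQ₁
    rw [map_sub, map_mul, map_sub, aeval_X, aeval_C, aeval_C] at this
    exact this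
  rw [h1, map_mul]
  exact mul_le_of_le_one_right' ((O.valuation_le_one_iff _).mpr (aeval_mem_of_mem O Lc hLO Q₁ hy))

include hLO in
/-- **Uniformiser lemma.**  If `P ∈ Lc[X]` is separable with no root in `S` and `P(x)` is a
nonunit of the place `O ⊇ Lc`, then `P(x)` is a uniformiser of `O`. -/
theorem mul_inv_mem_of_unramified [IsAlgClosed Lc] {x : Ω} {S : Finset Ω}
    (hunr : Unramified Lc x S)
    (P : Polynomial Lc) (hPsep : P.Separable) (hroots : ∀ c : Lc, P.IsRoot c → (c : Ω) ∉ S)
    (hπO : aeval x P ∈ O) (hπ : (aeval x P)⁻¹ ∉ O) :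
    ∀ t ∈ O, t⁻¹ ∉ O → t * (aeval x P)⁻¹ ∈ O := by
  have hP0 : P ≠ 0 := hPsep.ne_zero
  have hvπ : O.valuation (aeval x P) < 1 := valuation_lt_one_of_inv_not_mem O hπO hπ
  have hlead : O.valuation ((P.leadingCoeff : Lc) : Ω) = 1 :=
    valuation_eq_one_of_mem O Lc hLO (P.leadingCoeff).2
      (by simpa using leadingCoeff_ne_zero.mpr hP0)
  -- `x ∈ O`
  have hxO : x ∈ O := by
    by_contra hx
    have hx0 : x ≠ 0 := fun h => hx (h ▸ O.zero_mem)
    have hxinv : x⁻¹ ∈ O := (O.mem_or_inv_mem x).resolve_left hx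
    have hvx : O.valuation x⁻¹ < 1 :=
      valuation_lt_one_of_inv_not_mem O hxinv (by rwa [inv_inv])
    let _inst := invertibleOfNonzero hx0
    have h1 := eval₂_reverse_mul_pow (algebraMap Lc Ω) x P
    rw [invOf_eq_inv] at h1
    have h2 : O.valuation (aeval x⁻¹ P.reverse) = 1 := by
      have h3 := valuation_aeval_sub_le O Lc hLO P.reverse hxinv 0
      have h4 : P.reverse.eval 0 = P.leadingCoeff := by
        rw [← coeff_zero_eq_eval_zero, coeff_zero_reverse]
      rw [h4] at h3
      have h3' : O.valuation (aeval x⁻¹ P.reverse - ((P.leadingCoeff : Lc) : Ω)) ≤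
          O.valuation x⁻¹ := by simpa using h3
      have h6 : O.valuation (aeval x⁻¹ P.reverse - ((P.leadingCoeff : Lc) : Ω)) <
          O.valuation ((P.leadingCoeff : Lc) : Ω) := by
        rw [hlead]; exact lt_of_le_of_lt h3' hvx
      rw [Valuation.map_eq_of_sub_lt _ h6, hlead]
    have h7 : O.valuation (aeval x P) = O.valuation x ^ P.natDegree := by
      rw [aeval_def, ← h1, map_mul, map_pow, ← aeval_def, h2, one_mul]
    have h8 : 1 ≤ O.valuation x := by
      by_contra h
      rw [not_le] at h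
      exact hx ((O.valuation_le_one_iff x).mp h.le)
    have h9 : 1 ≤ O.valuation x ^ P.natDegree := one_le_pow₀ h8
    rw [← h7] at h9
    exact absurd hvπ (not_lt.mpr h9)
  -- a root `c₀` with `x - c₀` a nonunit
  have hsplit := (IsAlgClosed.splits P).eq_prod_roots
  have hprod : aeval x P =
      ((P.leadingCoeff : Lc) : Ω) * (P.roots.map (fun c : Lc => x - (c : Ω))).prod := by
    conv_lhs => rw [hsplit]
    rw [map_mul, aeval_C, map_multiset_prod, Multiset.map_map]
    congr 2
    refine Multiset.map_congr rfl fun c _ => ?_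
    simp only [Function.comp_apply, map_sub, aeval_X, aeval_C]
    rfl
  obtain ⟨c₀, hc₀, hvc₀⟩ : ∃ c₀ ∈ P.roots, O.valuation (x - (c₀ : Ω)) < 1 := by
    by_contra hcon
    push Not at hcon
    have hall : ∀ c ∈ P.roots, O.valuation (x - (c : Ω)) = 1 := fun c hc =>
      le_antisymm ((O.valuation_le_one_iff _).mpr (O.sub_mem hxO (hLO _ c.2))) (hcon c hc)
    have h1 : O.valuation (aeval x P) = 1 := by
      rw [hprod, map_mul, hlead, one_mul, map_multiset_prod, Multiset.map_map]
      apply Multiset.prod_eq_one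
      intro a ha
      obtain ⟨c, hc, rfl⟩ := Multiset.mem_map.mp ha
      exact hall c hc
    rw [h1] at hvπ
    exact lt_irrefl _ hvπ
  have hroot : P.IsRoot c₀ := isRoot_of_mem_roots hc₀
  have hc₀S : (c₀ : Ω) ∉ S := hroots c₀ hroot
  have hxc₀ : x - (c₀ : Ω) ∈ O := O.sub_mem hxO (hLO _ c₀.2)
  have hxc₀0 : x - (c₀ : Ω) ≠ 0 := by
    intro h
    have hx' : aeval x P = 0 := by
      rw [sub_eq_zero] at h
      have h2 : aeval (algebraMap Lc Ω c₀) P = algebraMap Lc Ω (P.eval c₀) :=
        aeval_algebraMap_apply_eq_algebraMap_eval c₀ P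
      rw [h]
      show aeval (algebraMap Lc Ω c₀) P = 0
      rw [h2, hroot.eq_zero, map_zero]
    rw [hx', inv_zero] at hπ
    exact hπ O.zero_mem
  have hxc₀inv : (x - (c₀ : Ω))⁻¹ ∉ O := inv_not_mem_of_valuation_lt_one O hxc₀0 hvc₀
  -- `P = (X - c₀) Q` with `Q(c₀) ≠ 0`
  set Q := P /ₘ (X - C c₀) with hQ
  have hPQ : (X - C c₀) * Q = P := mul_divByMonic_eq_iff_isRoot.mpr hroot
  have hQc₀ : Q.eval c₀ ≠ 0 := by
    have hder := hPsep.eval₂_derivative_ne_zero (RingHom.id Lc) (x := c₀)
      (by rw [eval₂_id]; exact hroot)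
    rw [eval₂_id] at hder
    intro h0
    apply hder
    rw [← hPQ, derivative_mul, eval_add, eval_mul, eval_mul, derivative_sub, derivative_X,
      derivative_C, sub_zero, eval_one, one_mul, eval_sub, eval_X, eval_C, sub_self, zero_mul,
      add_zero, h0]
  have hvQ : O.valuation (aeval x Q) = 1 := by
    have h3 := valuation_aeval_sub_le O Lc hLO Q hxO c₀
    have h5 : O.valuation ((Q.eval c₀ : Lc) : Ω) = 1 :=
      valuation_eq_one_of_mem O Lc hLO (Q.eval c₀).2 (by simpa using hQc₀)
    have h6 : O.valuation (aeval x Q - ((Q.eval c₀ : Lc) : Ω)) <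
        O.valuation ((Q.eval c₀ : Lc) : Ω) := by
      rw [h5]; exact lt_of_le_of_lt h3 hvc₀
    rw [Valuation.map_eq_of_sub_lt _ h6, h5]
  have hvP : O.valuation (aeval x P) = O.valuation (x - (c₀ : Ω)) := by
    rw [← hPQ, map_mul, map_mul, hvQ, mul_one, map_sub, aeval_X, aeval_C]
    rfl
  -- conclusion
  intro t ht ht'
  have h1 : t * (x - (c₀ : Ω))⁻¹ ∈ O := hunr O hLO c₀ c₀.2 hc₀S hxc₀ hxc₀inv t ht ht'
  rw [← O.valuation_le_one_iff] at h1 ⊢
  rwa [map_mul, map_inv₀, hvP, ← map_inv₀, ← map_mul]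

/-- The branch values in the chart at infinity. -/
def invBranch [DecidableEq Ω] (S : Finset Ω) : Finset Ω := insert 0 (S.image fun s => s⁻¹)

/-- **Chart at infinity**: `Unramified` for `x` and `S` implies `Unramified` for `x⁻¹` and
`{0} ∪ S⁻¹`. -/
theorem Unramified.inv [DecidableEq Ω] {Lc : Subfield Ω} {x : Ω} {S : Finset Ω}
    (hunr : Unramified Lc x S) : Unramified Lc x⁻¹ (invBranch S) := by
  intro O hLO c' hc'L hc'S hmem hinv t ht ht'
  have hc'0 : c' ≠ 0 := by
    rintro rfl
    exact hc'S (Finset.mem_insert_self _ _)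
  have hcS : c'⁻¹ ∉ S := by
    intro h
    apply hc'S
    refine Finset.mem_insert_of_mem (Finset.mem_image.mpr ⟨c'⁻¹, h, inv_inv c'⟩)
  have hv1 : O.valuation (x⁻¹ - c') < 1 := valuation_lt_one_of_inv_not_mem O hmem hinv
  have hvc' : O.valuation c' = 1 := valuation_eq_one_of_mem O Lc hLO hc'L hc'0
  have hvx' : O.valuation x⁻¹ = 1 := by
    rw [Valuation.map_eq_of_sub_lt _ (by rw [hvc']; exact hv1), hvc']
  have hx0 : x ≠ 0 := by
    rintro rfl
    rw [inv_zero, map_zero] at hvx'
    exact zero_ne_one hvx'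
  have hvx : O.valuation x = 1 := by
    rw [map_inv₀] at hvx'
    exact inv_eq_one.mp hvx'
  have hkey : x - c'⁻¹ = -((x⁻¹ - c') * x * c'⁻¹) := by
    field_simp
    ring
  have hv2 : O.valuation (x - c'⁻¹) = O.valuation (x⁻¹ - c') := by
    rw [hkey, Valuation.map_neg, map_mul, map_mul, hvx, map_inv₀, hvc', inv_one, mul_one, mul_one]
  have hxc0 : x - c'⁻¹ ≠ 0 := by
    intro h
    rw [h, map_zero] at hv2
    have h3 : x⁻¹ - c' = 0 := (Valuation.zero_iff _).mp hv2.symm
    rw [h3, inv_zero] at hinv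
    exact hinv O.zero_mem
  have h1 : x - c'⁻¹ ∈ O := by
    rw [← O.valuation_le_one_iff, hv2]
    exact hv1.le
  have h2 : (x - c'⁻¹)⁻¹ ∉ O :=
    inv_not_mem_of_valuation_lt_one O hxc0 (by rw [hv2]; exact hv1)
  have h3 := hunr O hLO c'⁻¹ (Lc.inv_mem hc'L) hcS h1 h2 t ht ht'
  rw [← O.valuation_le_one_iff] at h3 ⊢
  rwa [map_mul, map_inv₀, ← hv2, ← map_inv₀, ← map_mul]

end Val

end Fermat.Agent.S18.H278

end
-- ===== PACK-END S18/H278/NCVal.lean

-- ===== PACK-BEGIN S37/H939/MatrixCorank.lean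
section


/-!
# Corank of the reduction of a matrix bounds the valuation of its determinant
(row S37 / S18, piece b2 = R2; seat helper939)

`S` a commutative ring, `K` a field, `φ : S →+* K` surjective with kernel contained in `(π)`.
For a square matrix `G` over `S`:  `π ^ (n - rank (φ G)) ∣ det G`.
-/

set_option autoImplicit false

namespace Fermat.Agent.S37.H939

open Matrix

variable {S K : Type*} [CommRing S] [Field K] {ι : Type*} [Fintype ι] [DecidableEq ι]

lemma prod_ite_mem_eq_pow_card (J : Finset ι) (π : S) :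
    (∏ j, if j ∈ J then π else 1) = π ^ J.card := by
  classical
  rw [Finset.prod_ite, Finset.prod_const_one, mul_one, Finset.prod_const]
  congr 1
  congr 1
  ext j
  simp

/-- If every column indexed by `J` of `G` is divisible by `π`, then `π ^ #J ∣ det G`. -/
lemma pow_card_dvd_det_of_cols (G : Matrix ι ι S) (π : S) (J : Finset ι)
    (h : ∀ j ∈ J, ∀ i, π ∣ G i j) : π ^ J.card ∣ G.det := by
  classical
  choose! q hq using h
  -- `G = H * diagonal δ`
  let δ : ι → S := fun j => if j ∈ J then π else 1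
  let H : Matrix ι ι S := fun i j => if j ∈ J then q j i else G i j
  have hG : G = H * diagonal δ := by
    ext i j
    rw [Matrix.mul_diagonal]
    by_cases hj : j ∈ J
    · simp only [H, δ, hj, if_true]
      rw [hq j hj i, mul_comm]
    · simp only [H, δ, hj, if_false, mul_one]
  have hδ : ∏ j, δ j = π ^ J.card := prod_ite_mem_eq_pow_card J π
  rw [hG, Matrix.det_mul, Matrix.det_diagonal, hδ]
  exact Dvd.intro_left _ rfl

omit [Fintype ι] in
/-- Lift a transvection along a surjective ring hom. -/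
lemma exists_transvection_lift (φ : S →+* K) (hφ : Function.Surjective φ)
    (t : TransvectionStruct ι K) :
    ∃ t' : TransvectionStruct ι S, t'.toMatrix.map φ = t.toMatrix := by
  obtain ⟨s, hs⟩ := hφ t.c
  refine ⟨⟨t.i, t.j, t.hij, s⟩, ?_⟩
  ext a b
  simp only [TransvectionStruct.toMatrix, transvection, Matrix.map_apply, Matrix.add_apply,
    Matrix.one_apply, Matrix.single_apply]
  split_ifs <;> simp [hs]

/-- Lift a product of transvections along a surjective ring hom, keeping determinant `1`. -/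
lemma exists_lift_prod_transvections (φ : S →+* K) (hφ : Function.Surjective φ)
    (L : List (TransvectionStruct ι K)) :
    ∃ P : Matrix ι ι S, P.det = 1 ∧ P.map φ = (L.map TransvectionStruct.toMatrix).prod := by
  induction L with
  | nil => exact ⟨1, by simp, by simp⟩
  | cons t L ih =>
    obtain ⟨P, hP, hPφ⟩ := ih
    obtain ⟨t', ht'⟩ := exists_transvection_lift φ hφ t
    refine ⟨t'.toMatrix * P, by simp [hP], ?_⟩
    rw [List.map_cons, List.prod_cons, ← hPφ, ← ht', Matrix.map_mul]

/-- **Corank lemma.** If `φ : S →+* K` is surjective with `ker φ ⊆ (π)`, then for every square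
matrix `G` over `S` we have `π ^ (n - rank (φ G)) ∣ det G`. -/
theorem pow_corank_dvd_det (φ : S →+* K) (hφ : Function.Surjective φ) (π : S)
    (hπ : ∀ s, φ s = 0 → π ∣ s) (G : Matrix ι ι S) :
    π ^ (Fintype.card ι - (G.map φ).rank) ∣ G.det := by
  classical
  obtain ⟨L, L', D, hD⟩ :=
    Matrix.Pivot.exists_list_transvec_mul_diagonal_mul_list_transvec (G.map φ)
  obtain ⟨P, hP, hPφ⟩ := exists_lift_prod_transvections φ hφ L
  obtain ⟨P', hP', hP'φ⟩ := exists_lift_prod_transvections φ hφ L'
  -- `G' = adj P * G * adj P'` reduces to `diagonal D`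
  set G' : Matrix ι ι S := P.adjugate * G * P'.adjugate with hG'
  have hdet : G'.det = G.det := by
    rw [hG', Matrix.det_mul, Matrix.det_mul, Matrix.det_adjugate, Matrix.det_adjugate, hP, hP']
    simp
  have hPu : IsUnit (P.map φ).det := by
    rw [← RingHom.mapMatrix_apply, ← RingHom.map_det, hP, map_one]; exact isUnit_one
  have hP'u : IsUnit (P'.map φ).det := by
    rw [← RingHom.mapMatrix_apply, ← RingHom.map_det, hP', map_one]; exact isUnit_one
  have hadjP : (P.adjugate).map φ * P.map φ = 1 := by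
    rw [← Matrix.map_mul, Matrix.adjugate_mul, hP, one_smul]
    simp
  have hadjP' : P'.map φ * (P'.adjugate).map φ = 1 := by
    rw [← Matrix.map_mul, Matrix.mul_adjugate, hP', one_smul]
    simp
  have hred : G'.map φ = diagonal D := by
    rw [hG', Matrix.map_mul, Matrix.map_mul, hD, ← hPφ, ← hP'φ]
    calc (P.adjugate).map φ * (P.map φ * diagonal D * P'.map φ) * (P'.adjugate).map φ
        = ((P.adjugate).map φ * P.map φ) * diagonal D * (P'.map φ * (P'.adjugate).map φ) := by
          simp only [Matrix.mul_assoc]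
      _ = diagonal D := by rw [hadjP, hadjP', Matrix.one_mul, Matrix.mul_one]
  -- the rank
  have hrank : (G.map φ).rank = Fintype.card {i // D i ≠ 0} := by
    rw [hD, ← hPφ, ← hP'φ, Matrix.rank_mul_eq_left_of_isUnit_det _ _ hP'u,
      Matrix.rank_mul_eq_right_of_isUnit_det _ _ hPu, Matrix.rank_diagonal]
  -- the zero columns
  let J : Finset ι := Finset.univ.filter fun j => D j = 0
  have hJ : J.card = Fintype.card ι - (G.map φ).rank := by
    rw [hrank]
    have h1 : Fintype.card {i // D i ≠ 0} = (Finset.univ.filter fun j => D j ≠ 0).card := by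
      rw [Fintype.card_subtype]
    have h2 : (Finset.univ.filter fun j => D j ≠ 0).card + J.card = Fintype.card ι := by
      rw [add_comm]
      exact Finset.card_filter_add_card_filter_not (s := Finset.univ) (p := fun j => D j = 0)
        |>.trans Finset.card_univ
    omega
  rw [← hJ, ← hdet]
  apply pow_card_dvd_det_of_cols
  intro j hj i
  apply hπ
  have hj' : D j = 0 := by simpa [J] using hj
  have := congrFun (congrFun hred i) j
  rw [Matrix.map_apply] at this
  rw [this, Matrix.diagonal_apply]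
  split_ifs with h
  · rw [h]; exact hj'
  · rfl

end Fermat.Agent.S37.H939

end
-- ===== PACK-END S37/H939/MatrixCorank.lean

-- ===== PACK-BEGIN S37/H939/Fibre.lean
section



/-!
# Fibres of a finite free `k[X]`-algebra over rational points
(row S37 / S18, piece b2 = R2; seat helper939)
-/

set_option autoImplicit false
set_option linter.unusedSectionVars false

namespace Fermat.Agent.S37.H939

open Polynomial Matrix

variable {k : Type*} [Field k]

section Defs

variable (T : Type*) [CommRing T] [Algebra k[X] T]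

/-- The ideal of the fibre of `T` over `X = c`. -/
def fibreIdeal (c : k) : Ideal T := Ideal.span {algebraMap k[X] T (X - C c)}

variable [Algebra k T]

/-- The dimension of the reduced fibre over `X = c`
(the number of geometric points of the fibre when `k` is perfect). -/
noncomputable def redRank (c : k) : ℕ := Module.finrank k (T ⧸ (fibreIdeal T c).radical)

end Defs

section Coord

variable {T : Type*} [CommRing T] [Algebra k[X] T] [Algebra k T] [IsScalarTower k k[X] T]
variable {ι : Type*} [Fintype ι] [DecidableEq ι] (b : Module.Basis ι k[X] T)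

lemma mem_fibreIdeal_iff (c : k) (z : T) :
    z ∈ fibreIdeal T c ↔ ∀ i, (X - C c) ∣ b.repr z i := by
  rw [fibreIdeal, Ideal.mem_span_singleton]
  constructor
  · rintro ⟨y, rfl⟩ i
    rw [← Algebra.smul_def, map_smul]
    exact ⟨b.repr y i, by simp⟩
  · intro h
    choose q hq using h
    refine ⟨∑ i, q i • b i, ?_⟩
    rw [← Algebra.smul_def, Finset.smul_sum]
    conv_lhs => rw [← b.sum_repr z]
    refine Finset.sum_congr rfl fun i _ => ?_
    rw [hq i, mul_smul]

/-- Coordinates modulo `X - c`. -/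
noncomputable def coord (c : k) : T →ₗ[k] (ι → k) where
  toFun z i := (b.repr z i).eval c
  map_add' x y := by ext i; simp
  map_smul' a z := by
    ext i
    have : a • z = (C a : k[X]) • z := by
      rw [← Polynomial.algebraMap_eq, algebraMap_smul]
    simp [this]

@[simp] lemma coord_apply (c : k) (z : T) (i : ι) : coord b c z i = (b.repr z i).eval c := rfl

/-- The constant lift of a coordinate vector. -/
noncomputable def lift : (ι → k) →ₗ[k] T where
  toFun v := ∑ i, (C (v i) : k[X]) • b i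
  map_add' x y := by simp [add_smul, Finset.sum_add_distrib]
  map_smul' a v := by
    simp only [Pi.smul_apply, smul_eq_mul, RingHom.id_apply, Finset.smul_sum]
    refine Finset.sum_congr rfl fun i _ => ?_
    rw [C_mul, mul_smul, ← Polynomial.algebraMap_eq, algebraMap_smul]

lemma lift_apply (v : ι → k) : lift b v = ∑ i, (C (v i) : k[X]) • b i := rfl

@[simp] lemma repr_lift (v : ι → k) (i : ι) : b.repr (lift b v) i = C (v i) := by
  simp [lift_apply, Finsupp.single_apply, Finset.sum_apply']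

@[simp] lemma coord_lift (c : k) (v : ι → k) : coord b c (lift b v) = v := by
  ext i; simp

lemma coord_eq_zero_iff (c : k) (z : T) : coord b c z = 0 ↔ z ∈ fibreIdeal T c := by
  rw [mem_fibreIdeal_iff b]
  constructor
  · intro h i
    rw [Polynomial.dvd_iff_isRoot]
    exact congrFun h i
  · intro h
    ext i
    exact Polynomial.dvd_iff_isRoot.mp (h i)

lemma sub_lift_coord_mem (c : k) (z : T) : z - lift b (coord b c z) ∈ fibreIdeal T c := by
  rw [← coord_eq_zero_iff b, map_sub, coord_lift, sub_self]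

lemma coord_surjective (c : k) : Function.Surjective (coord b c) :=
  fun v => ⟨lift b v, coord_lift b c v⟩

end Coord

end Fermat.Agent.S37.H939

namespace Fermat.Agent.S37.H939

open Polynomial Matrix

variable {k : Type*} [Field k]

section Trace

variable {T : Type*} [CommRing T] [Algebra k[X] T] [Algebra k T] [IsScalarTower k k[X] T]
variable {ι : Type*} [Fintype ι] [DecidableEq ι] (b : Module.Basis ι k[X] T)

include b in
/-- The trace of an element which is nilpotent on the fibre vanishes at `c`. -/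
lemma eval_trace_eq_zero_of_mem_radical (c : k) {y : T} (hy : y ∈ (fibreIdeal T c).radical) :
    (Algebra.trace k[X] T y).eval c = 0 := by
  obtain ⟨m, hm⟩ := hy
  rw [fibreIdeal, Ideal.mem_span_singleton] at hm
  obtain ⟨z, hz⟩ := hm
  set A : Matrix ι ι k[X] := Algebra.leftMulMatrix b y with hA
  have h1 : A ^ m = (X - C c) • Algebra.leftMulMatrix b z := by
    rw [hA, ← map_pow, hz, map_mul, AlgHom.commutes, Matrix.algebraMap_eq_diagonal]
    ext i j
    simp [Matrix.diagonal_mul]
  have h2 : ((evalRingHom c).mapMatrix A) ^ m = 0 := by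
    rw [← map_pow, h1]
    ext i j
    simp
  have h3 : IsNilpotent ((evalRingHom c).mapMatrix A).trace :=
    Matrix.isNilpotent_trace_of_isNilpotent ⟨m, h2⟩
  have h4 : ((evalRingHom c).mapMatrix A).trace = 0 := h3.eq_zero
  rw [Algebra.trace_eq_matrix_trace b, ← hA]
  have h5 : ((evalRingHom c).mapMatrix A).trace = (evalRingHom c) A.trace := by
    simp [Matrix.trace, map_sum]
  rw [h5] at h4
  exact h4

/-- The rank of the trace matrix evaluated at `c` is at most the dimension of the reduced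
fibre. -/
theorem rank_traceMatrix_eval_le (c : k) :
    ((Algebra.traceMatrix k[X] b).map (evalRingHom c)).rank ≤ redRank T c := by
  classical
  set G : Matrix ι ι k := (Algebra.traceMatrix k[X] b).map (evalRingHom c) with hG
  let Rad : Ideal T := (fibreIdeal T c).radical
  let Ψ : (ι → k) →ₗ[k] T ⧸ Rad := (Ideal.Quotient.mkₐ k Rad).toLinearMap ∘ₗ lift b
  have hΨsurj : Function.Surjective Ψ := by
    intro q
    obtain ⟨z, rfl⟩ := Ideal.Quotient.mk_surjective q
    refine ⟨coord b c z, ?_⟩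
    show Ideal.Quotient.mk Rad (lift b (coord b c z)) = Ideal.Quotient.mk Rad z
    rw [eq_comm, Ideal.Quotient.eq]
    exact Ideal.le_radical (sub_lift_coord_mem b c z)
  have hker : LinearMap.ker Ψ ≤ LinearMap.ker G.mulVecLin := by
    intro v hv
    rw [LinearMap.mem_ker] at hv ⊢
    have hv' : lift b v ∈ Rad := by
      have : Ideal.Quotient.mk Rad (lift b v) = 0 := hv
      exact Ideal.Quotient.eq_zero_iff_mem.mp this
    ext i
    rw [Matrix.mulVecLin_apply, Pi.zero_apply]
    have hmem : b i * lift b v ∈ Rad := Rad.mul_mem_left _ hv'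
    have h0 := eval_trace_eq_zero_of_mem_radical b c hmem
    rw [lift_apply, Finset.mul_sum, map_sum, eval_finsetSum] at h0
    rw [← h0, Matrix.mulVec, dotProduct]
    refine Finset.sum_congr rfl fun j _ => ?_
    rw [hG, Matrix.map_apply, Algebra.traceMatrix_apply, Algebra.traceForm_apply,
      mul_smul_comm, map_smul, smul_eq_mul, eval_mul, eval_C, coe_evalRingHom, mul_comm]
  have h1 := LinearMap.finrank_range_add_finrank_ker G.mulVecLin
  have h2 := LinearMap.finrank_range_add_finrank_ker Ψ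
  have h3 : Module.finrank k (LinearMap.ker Ψ) ≤ Module.finrank k (LinearMap.ker G.mulVecLin) :=
    Submodule.finrank_mono hker
  have h4 : Module.finrank k (LinearMap.range Ψ) = redRank T c := by
    rw [LinearMap.range_eq_top.mpr hΨsurj, finrank_top]
    rfl
  have h5 : G.rank = Module.finrank k (LinearMap.range G.mulVecLin) := rfl
  omega

/-- **(II)** `(X - c) ^ (n - redRank)` divides the discriminant. -/
theorem pow_dvd_discr (c : k) :
    (X - C c) ^ (Fintype.card ι - redRank T c) ∣ Algebra.discr k[X] b := by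
  have h := pow_corank_dvd_det (evalRingHom c)
    (fun a => ⟨C a, by simp⟩) (X - C c)
    (fun s hs => Polynomial.dvd_iff_isRoot.mpr hs) (Algebra.traceMatrix k[X] b)
  rw [Algebra.discr_def]
  refine dvd_trans (pow_dvd_pow _ ?_) h
  have := rank_traceMatrix_eval_le b c
  omega

end Trace

end Fermat.Agent.S37.H939

end
-- ===== PACK-END S37/H939/Fibre.lean

-- ===== PACK-BEGIN S37/H217/Gauss.lean
section


/-!
# Block ALG, lemma L4 (Gauss lemma for roots over a valuation ring)

`K` an algebraically closed field, `A` a valuation subring of `K` with residue field `k`,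
`N ∈ A[X]` with nonzero reduction.  Then for every `cbar ∈ k` the multiplicity of `cbar` as a
root of the reduction of `N` equals the number (with multiplicity) of roots `c` of `N` in `K`
such that `c ∈ A` and `c` reduces to `cbar`.
-/

namespace Fermat.Agent.S37.H217

open Polynomial

section Gauss

variable {K : Type*} [Field K]

/-- Coefficient recursion: if `(1 - C d * X) * Q = P` with `d ∈ A` and `P` with coefficients in
`A`, then `Q` has coefficients in `A`. -/
theorem coeff_mem_of_one_sub_mul (A : ValuationSubring K) (d : K) (hd : d ∈ A) (P Q : K[X])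
    (hP : ∀ i, P.coeff i ∈ A) (h : (1 - C d * X) * Q = P) : ∀ i, Q.coeff i ∈ A := by
  have key : ∀ i, Q.coeff (i + 1) = P.coeff (i + 1) + d * Q.coeff i := by
    intro i
    rw [← h]
    simp [sub_mul, mul_assoc, coeff_X_mul, coeff_C_mul]
  have key0 : Q.coeff 0 = P.coeff 0 := by
    rw [← h]; simp [sub_mul, mul_assoc]
  intro i
  induction i with
  | zero => rw [key0]; exact hP 0
  | succ i ih => rw [key]; exact A.add_mem _ _ (hP _) (A.mul_mem _ _ hd ih)

/-- If `c ∉ A` is a root (in `K`) of `N ∈ A[X]`, then `N = (1 - C d * X) * N₁` in `A[X]`, where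
`d = c⁻¹` lies in the maximal ideal of `A`. -/
theorem exists_factor_of_root_not_mem (A : ValuationSubring K) (N : Polynomial A) (c : K)
    (hc : (N.map (algebraMap A K)).IsRoot c) (hcA : c ∉ A) :
    ∃ (d : A) (N₁ : Polynomial A), d ∈ IsLocalRing.maximalIdeal A ∧ (d : K) = c⁻¹ ∧
      N = (1 - C d * X) * N₁ ∧
      N.map (algebraMap A K) = (X - C c) * (C (-c)⁻¹ * N₁.map (algebraMap A K)) := by
  have hinj : Function.Injective (algebraMap A K) := Subtype.coe_injective
  have hc0 : c ≠ 0 := fun h => hcA (h ▸ A.zero_mem)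
  have hdA : c⁻¹ ∈ A := (A.mem_or_inv_mem c).resolve_left hcA
  obtain ⟨Q, hQ⟩ := dvd_iff_isRoot.mpr hc
  -- `N_K = (X - c) * Q = (1 - c⁻¹ X) * ((-c) Q)`
  have hfac : (1 - C c⁻¹ * X) * (C (-c) * Q) = N.map (algebraMap A K) := by
    rw [hQ]
    have : (1 - C c⁻¹ * X) * (C (-c) * Q) = (C (-c) * (1 - C c⁻¹ * X)) * Q := by ring
    rw [this]
    congr 1
    rw [mul_sub, mul_one, ← mul_assoc, ← C_mul]
    have : -c * c⁻¹ = -1 := by field_simp
    rw [this]
    simp only [map_neg, map_one, neg_mul, one_mul, sub_neg_eq_add]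
    ring
  have hcoeff : ∀ i, (C (-c) * Q).coeff i ∈ A := by
    refine coeff_mem_of_one_sub_mul A c⁻¹ hdA _ _ ?_ hfac
    intro i
    rw [coeff_map]
    exact (N.coeff i).2
  have hlift : (C (-c) * Q) ∈ Polynomial.lifts (algebraMap A K) := by
    rw [Polynomial.lifts_iff_coeff_lifts]
    intro i
    exact ⟨⟨_, hcoeff i⟩, rfl⟩
  obtain ⟨N₁, hN₁⟩ := (Polynomial.mem_lifts _).mp hlift
  refine ⟨⟨c⁻¹, hdA⟩, N₁, ?_, rfl, ?_, ?_⟩
  · rw [IsLocalRing.mem_maximalIdeal]
    intro hu
    apply hcA
    have := (A.inv_mem_nonunits_iff (x := c))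
    obtain ⟨u, hu'⟩ := hu
    have h1 : ((u⁻¹ : Aˣ) : A) * ⟨c⁻¹, hdA⟩ = 1 := by
      rw [← hu']; simp
    have h2 : (((u⁻¹ : Aˣ) : A) : K) * c⁻¹ = 1 := by
      have := congrArg (fun x : A => (x : K)) h1
      simpa using this
    have h3 : (((u⁻¹ : Aˣ) : A) : K) = c := by
      field_simp at h2
      exact h2
    rw [← h3]
    exact ((u⁻¹ : Aˣ) : A).2
  · apply Polynomial.map_injective _ hinj
    rw [Polynomial.map_mul, hN₁, ← hfac]
    congr 1
    simp [Polynomial.map_sub, Polynomial.map_mul]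
  · rw [hN₁, hQ, ← mul_assoc (C (-c)⁻¹), ← C_mul]
    have : (-c)⁻¹ * -c = 1 := by field_simp
    rw [this]; simp

open Classical in
/-- **Gauss lemma for roots.**  For `N ∈ A[X]` with nonzero reduction, the multiplicity of `cbar`
as a root of the reduction equals the number of roots of `N` in `K` (with multiplicity) lying in
`A` and reducing to `cbar`. -/
theorem rootMultiplicity_map_residue_eq_card_filter [IsAlgClosed K]
    (A : ValuationSubring K) (N : Polynomial A)
    (hN : N.map (IsLocalRing.residue A) ≠ 0) (cbar : IsLocalRing.ResidueField A) :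
    (N.map (IsLocalRing.residue A)).rootMultiplicity cbar =
      ((N.map (algebraMap A K)).roots.filter
        (fun c => ∃ h : c ∈ A, IsLocalRing.residue A ⟨c, h⟩ = cbar)).card := by
  have hinj : Function.Injective (algebraMap A K) := Subtype.coe_injective
  induction' hn : N.natDegree using Nat.strong_induction_on with n ih generalizing N
  have hN0 : N ≠ 0 := by
    intro h; apply hN; rw [h, Polynomial.map_zero]
  have hNK : N.map (algebraMap A K) ≠ 0 := by
    intro h; apply hN0; apply Polynomial.map_injective _ hinj; rw [h, Polynomial.map_zero]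
  by_cases hdeg : N.natDegree = 0
  · obtain ⟨a, rfl⟩ := natDegree_eq_zero.mp hdeg
    simp only [Polynomial.map_C, rootMultiplicity_C, roots_C, Multiset.filter_zero,
      Multiset.card_zero]
  · have hK : (N.map (algebraMap A K)).degree ≠ 0 := by
      intro h
      apply hdeg
      have := natDegree_eq_of_degree_eq_some h
      rwa [natDegree_map_eq_of_injective hinj] at this
    obtain ⟨c, hc⟩ := IsAlgClosed.exists_root _ hK
    by_cases hcA : c ∈ A
    · have hroot : N.IsRoot ⟨c, hcA⟩ := by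
        have := eval_map_apply (p := N) (algebraMap A K) ⟨c, hcA⟩
        apply hinj
        rw [map_zero, ← this]
        exact hc
      obtain ⟨N₁, hN₁⟩ := dvd_iff_isRoot.mpr hroot
      subst hN₁
      have hN₁bar : N₁.map (IsLocalRing.residue A) ≠ 0 := by
        intro h; apply hN; rw [Polynomial.map_mul, h, mul_zero]
      have hN₁0 : N₁ ≠ 0 := by
        intro h; apply hN₁bar; rw [h, Polynomial.map_zero]
      have hdeg₁ : N₁.natDegree < n := by
        rw [← hn, natDegree_mul (X_sub_C_ne_zero _) hN₁0, natDegree_X_sub_C]; omega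
      have IH := ih _ hdeg₁ N₁ hN₁bar rfl
      rw [Polynomial.map_mul] at hN hNK
      rw [Polynomial.map_mul, Polynomial.map_mul, rootMultiplicity_mul hN, roots_mul hNK,
        Multiset.filter_add, Multiset.card_add, IH]
      congr 1
      simp only [Polynomial.map_sub, map_X, map_C, rootMultiplicity_X_sub_C, roots_X_sub_C,
        Multiset.filter_singleton]
      by_cases hcb : cbar = IsLocalRing.residue A ⟨c, hcA⟩
      · rw [if_pos hcb, if_pos ⟨hcA, hcb.symm⟩]
        rfl
      · rw [if_neg hcb, if_neg]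
        · rfl
        · rintro ⟨h, hh⟩
          exact hcb hh.symm
    · obtain ⟨d, N₁, hd, hdc, hfac, hfacK⟩ := exists_factor_of_root_not_mem A N c hc hcA
      have hdbar : IsLocalRing.residue A d = 0 := (IsLocalRing.residue_eq_zero_iff d).mpr hd
      have hbar : N.map (IsLocalRing.residue A) = N₁.map (IsLocalRing.residue A) := by
        rw [hfac, Polynomial.map_mul]
        simp [hdbar]
      have hN₁bar : N₁.map (IsLocalRing.residue A) ≠ 0 := by rwa [← hbar]
      have hN₁0 : N₁ ≠ 0 := by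
        intro h; apply hN₁bar; rw [h, Polynomial.map_zero]
      have hc0 : c ≠ 0 := fun h => hcA (h ▸ A.zero_mem)
      have hcinv : (-c)⁻¹ ≠ 0 := inv_ne_zero (neg_ne_zero.mpr hc0)
      have hdeg₁ : N₁.natDegree < n := by
        have h1 := congrArg natDegree hfacK
        rw [natDegree_map_eq_of_injective hinj, natDegree_mul (X_sub_C_ne_zero _)
          (mul_ne_zero (C_ne_zero.mpr hcinv) ((Polynomial.map_ne_zero_iff hinj).mpr hN₁0)),
          natDegree_X_sub_C, natDegree_C_mul hcinv, natDegree_map_eq_of_injective hinj] at h1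
        omega
      have IH := ih _ hdeg₁ N₁ hN₁bar rfl
      rw [hbar, IH, hfacK, roots_mul (by rw [← hfacK]; exact hNK), roots_X_sub_C,
        roots_C_mul _ hcinv, Multiset.filter_add, Multiset.filter_singleton, if_neg]
      · simp
      · rintro ⟨h, -⟩
        exact hcA h

end Gauss

end Fermat.Agent.S37.H217

end
-- ===== PACK-END S37/H217/Gauss.lean

-- ===== PACK-BEGIN S37/H448/AscentAbs.lean
section



/-!
# S37 / RED-E4(c) (helper448): geometric normality ascends along algebraic extensions of a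
perfect field — abstract q-series form

Setting: `k₀` a perfect field, `k / k₀` an algebraic extension with `k` algebraically closed,
`ι : k₀((q)) → k((q))` the coefficientwise embedding, `X ∈ k₀((q))` a coordinate.
Integrality over `R[X]` inside `R((q))` is `(evalSer R X).IsIntegralElem z`
(`evalSer R X : R[T] →+* R((q))`, `T ↦ X`; this is the shape of `Core.IntElt.IsFin`).

Main result `exists_integral_decomp`:
if `z = ∑ C (e i) * ι (w i)` with `w i` in a `k₀`-subspace `F₀ ⊆ k₀((q))` (a set closed under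
`0`, `+` and multiplication by constants `C c`) and `z` is integral
over `k[ι X]`, then `z = ∑ C (e' j) * ι (w' j)` with `w' j ∈ F₀` **integral over `k₀[X]`**.

Proof: `k' := k₀(e i)` is finite separable over `k₀`; take a basis `b` of `k'/k₀`, its dual basis
`d` for the trace form, rewrite `z = ∑ C (b j) * ι (w' j)`; then
`ι (w' j) = ∑_σ C (σ (d j)) * σ̂ z` (sum over the embeddings `σ : k' → k`, `σ̂` an extension of
`σ` to `k`, acting coefficientwise), a sum of products of integral elements; finally integrality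
descends from `k[ι X]` to `k₀[X]` because `k[T]` is integral over `k₀[T]` and `ι` is injective.
-/

set_option autoImplicit false
set_option linter.style.haveILetI false
set_option linter.unusedSimpArgs false

noncomputable section

namespace Fermat.Agent.S37.H448

open HahnSeries ModularCurve Polynomial

/-- evaluation `R[T] → R((q))`, `T ↦ u` (same term as `Core.evalSeries`) -/
def evalSer (R : Type*) [CommRing R] (u : LaurentSeries R) :
    Polynomial R →+* LaurentSeries R :=
  Polynomial.eval₂RingHom (HahnSeries.C : R →+* LaurentSeries R) u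

section Basic

variable {R S : Type*} [CommRing R] [CommRing S]

theorem coeffMap_C' (f : R →+* S) (r : R) :
    coeffMap f (HahnSeries.C r) = HahnSeries.C (f r) := by
  show coeffMap f (HahnSeries.single 0 r) = HahnSeries.single 0 (f r)
  exact coeffMap_single f 0 r

theorem coeffMap_injective' {f : R →+* S} (hf : Function.Injective f) :
    Function.Injective (coeffMap f) := by
  intro x y h
  ext n
  apply hf
  have := congrArg (fun s => s.coeff n) h
  simpa using this

theorem evalSer_C (u : LaurentSeries R) (r : R) :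
    evalSer R u (Polynomial.C r) = HahnSeries.C r := by
  simp [evalSer]

theorem evalSer_X (u : LaurentSeries R) : evalSer R u Polynomial.X = u := by
  simp [evalSer]

/-- base change of the evaluation map -/
theorem coeffMap_comp_evalSer (f : R →+* S) (u : LaurentSeries R) :
    (coeffMap f).comp (evalSer R u) =
      (evalSer S (coeffMap f u)).comp (Polynomial.mapRingHom f) := by
  apply Polynomial.ringHom_ext
  · intro r
    simp [evalSer_C, coeffMap_C']
  · simp [evalSer_X]

/-- integrality is preserved by coefficient maps -/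
theorem isIntegralElem_coeffMap (f : R →+* S) {u z : LaurentSeries R}
    (h : (evalSer R u).IsIntegralElem z) :
    (evalSer S (coeffMap f u)).IsIntegralElem (coeffMap f z) := by
  obtain ⟨p, hp, hz⟩ := h
  refine ⟨p.map (Polynomial.mapRingHom f), hp.map _, ?_⟩
  rw [Polynomial.eval₂_map, ← coeffMap_comp_evalSer, ← Polynomial.hom_eval₂, hz, map_zero]

theorem isIntegralElem_C (u : LaurentSeries R) (r : R) :
    (evalSer R u).IsIntegralElem (HahnSeries.C r) := by
  rw [← evalSer_C u r]
  exact RingHom.isIntegralElem_map _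

theorem isIntegralElem_sum (g : Polynomial R →+* LaurentSeries R) {ι : Type*} (s : Finset ι)
    (f : ι → LaurentSeries R) (h : ∀ i ∈ s, g.IsIntegralElem (f i)) :
    g.IsIntegralElem (∑ i ∈ s, f i) := by
  classical
  induction s using Finset.induction_on with
  | empty =>
    rw [Finset.sum_empty]
    exact g.isIntegralElem_zero
  | insert a s ha ih =>
    rw [Finset.sum_insert ha]
    exact RingHom.IsIntegralElem.add g (h a (Finset.mem_insert_self a s))
      (ih fun i hi => h i (Finset.mem_insert_of_mem hi))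

end Basic

section Descent

variable {k₀ k : Type*} [Field k₀] [Field k] [Algebra k₀ k]

/-- `k[T]` is integral over `k₀[T]` when `k / k₀` is algebraic -/
theorem mapRingHom_isIntegral [Algebra.IsAlgebraic k₀ k] :
    (Polynomial.mapRingHom (algebraMap k₀ k)).IsIntegral := by
  intro p
  induction p using Polynomial.induction_on' with
  | add p q hp hq => exact RingHom.IsIntegralElem.add _ hp hq
  | monomial n a =>
    have ha : (Polynomial.mapRingHom (algebraMap k₀ k)).IsIntegralElem (Polynomial.C a) := by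
      obtain ⟨m, hm, hma⟩ := (Algebra.IsAlgebraic.isAlgebraic (R := k₀) a).isIntegral
      refine ⟨m.map (Polynomial.C : k₀ →+* Polynomial k₀), hm.map _, ?_⟩
      rw [Polynomial.eval₂_map]
      have hcomp : (Polynomial.mapRingHom (algebraMap k₀ k)).comp (Polynomial.C : k₀ →+* _) =
          (Polynomial.C : k →+* Polynomial k).comp (algebraMap k₀ k) := by
        ext r
        simp
      rw [hcomp, ← Polynomial.hom_eval₂, hma, map_zero]
    have hX : (Polynomial.mapRingHom (algebraMap k₀ k)).IsIntegralElem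
        (Polynomial.X ^ n : Polynomial k) := by
      have : (Polynomial.X ^ n : Polynomial k) =
          Polynomial.mapRingHom (algebraMap k₀ k) (Polynomial.X ^ n) := by simp
      rw [this]
      exact RingHom.isIntegralElem_map _
    rw [← Polynomial.C_mul_X_pow_eq_monomial]
    exact RingHom.IsIntegralElem.mul _ ha hX

/-- integrality descends from `k[ι X]` to `k₀[X]` -/
theorem isIntegralElem_descent [Algebra.IsAlgebraic k₀ k] {X w : LaurentSeries k₀}
    (h : (evalSer k (coeffMap (algebraMap k₀ k) X)).IsIntegralElem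
      (coeffMap (algebraMap k₀ k) w)) :
    (evalSer k₀ X).IsIntegralElem w := by
  set f := evalSer k (coeffMap (algebraMap k₀ k) X) with hf
  set g := Polynomial.mapRingHom (algebraMap k₀ k) with hg
  have hfg : (f.comp g).IsIntegralElem (coeffMap (algebraMap k₀ k) w) := by
    letI : Algebra (Polynomial k₀) (Polynomial k) := g.toAlgebra
    letI : Algebra (Polynomial k) (LaurentSeries k) := f.toAlgebra
    letI : Algebra (Polynomial k₀) (LaurentSeries k) := (f.comp g).toAlgebra
    haveI : IsScalarTower (Polynomial k₀) (Polynomial k) (LaurentSeries k) :=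
      IsScalarTower.of_algebraMap_eq fun _ => rfl
    haveI : Algebra.IsIntegral (Polynomial k₀) (Polynomial k) := ⟨mapRingHom_isIntegral⟩
    exact isIntegral_trans (R := Polynomial k₀) (A := Polynomial k) _ h
  obtain ⟨P, hP, hPz⟩ := hfg
  refine ⟨P, hP, ?_⟩
  have hcomp : f.comp g = (coeffMap (algebraMap k₀ k)).comp (evalSer k₀ X) :=
    (coeffMap_comp_evalSer (algebraMap k₀ k) X).symm
  rw [hcomp, ← Polynomial.hom_eval₂] at hPz
  exact coeffMap_injective' (algebraMap k₀ k).injective (hPz.trans (map_zero _).symm)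

end Descent

section Main

variable {k₀ k : Type*} [Field k₀] [Field k] [Algebra k₀ k]

theorem coeffMap_smul_eq (c : k₀) (w : LaurentSeries k₀) :
    coeffMap (algebraMap k₀ k) (c • w) =
      HahnSeries.C (algebraMap k₀ k c) * coeffMap (algebraMap k₀ k) w := by
  rw [← HahnSeries.C_mul_eq_smul, map_mul, coeffMap_C']

/-- **Geometric normality ascent, abstract form.**  If `z = ∑ C (e i) * ι (w i)` with `w i` in
the set `F₀` (closed under `k₀`-linear combinations) is integral over `k[ι X]`, then `z = ∑ C (e' j) * ι (w' j)` with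
`w' j ∈ F₀` integral over `k₀[X]`. -/
theorem exists_integral_decomp [PerfectField k₀] [IsAlgClosed k] [Algebra.IsAlgebraic k₀ k]
    (F₀ : Set (LaurentSeries k₀)) (h0 : (0 : LaurentSeries k₀) ∈ F₀)
    (hadd : ∀ x y : LaurentSeries k₀, x ∈ F₀ → y ∈ F₀ → x + y ∈ F₀)
    (hC : ∀ (c : k₀) (x : LaurentSeries k₀), x ∈ F₀ → HahnSeries.C c * x ∈ F₀)
    (X : LaurentSeries k₀)
    {m : ℕ} (e : Fin m → k) (w : Fin m → LaurentSeries k₀) (hw : ∀ i, w i ∈ F₀)
    (hint : (evalSer k (coeffMap (algebraMap k₀ k) X)).IsIntegralElem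
      (∑ i, HahnSeries.C (e i) * coeffMap (algebraMap k₀ k) (w i))) :
    ∃ (n : ℕ) (e' : Fin n → k) (w' : Fin n → LaurentSeries k₀),
      (∀ j, w' j ∈ F₀) ∧ (∀ j, (evalSer k₀ X).IsIntegralElem (w' j)) ∧
      ∑ i, HahnSeries.C (e i) * coeffMap (algebraMap k₀ k) (w i) =
        ∑ j, HahnSeries.C (e' j) * coeffMap (algebraMap k₀ k) (w' j) := by
  classical
  set z := ∑ i, HahnSeries.C (e i) * coeffMap (algebraMap k₀ k) (w i) with hz
  -- the finite subextension generated by the `e i`
  let k' : IntermediateField k₀ k := IntermediateField.adjoin k₀ (Set.range e)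
  haveI : FiniteDimensional k₀ k' :=
    IntermediateField.finiteDimensional_adjoin
      (fun x _ => (Algebra.IsAlgebraic.isAlgebraic (R := k₀) x).isIntegral)
  haveI : Algebra.IsSeparable k₀ k' := Algebra.IsAlgebraic.isSeparable_of_perfectField
  haveI : IsAlgClosure k₀ k := ⟨inferInstance, inferInstance⟩
  haveI : Normal k₀ k := IsAlgClosure.normal k₀ k
  let b : Module.Basis (Fin (Module.finrank k₀ k')) k₀ k' := Module.finBasis k₀ k'
  let d : Module.Basis (Fin (Module.finrank k₀ k')) k₀ k' :=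
    (Algebra.traceForm k₀ k').dualBasis (traceForm_nondegenerate k₀ k') b
  have he : ∀ i, e i ∈ k' := fun i => IntermediateField.subset_adjoin k₀ _ ⟨i, rfl⟩
  let c : Fin m → Fin (Module.finrank k₀ k') → k₀ := fun i j => b.repr ⟨e i, he i⟩ j
  have hc : ∀ i, e i = ∑ j, algebraMap k₀ k (c i j) * ((b j : k') : k) := by
    intro i
    have h1 := b.sum_repr ⟨e i, he i⟩
    have h2 := congrArg (fun x : k' => (x : k)) h1
    simp only [AddSubmonoidClass.coe_finsetSum] at h2
    rw [← h2]
    refine Finset.sum_congr rfl fun j _ => ?_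
    rw [IntermediateField.coe_smul, Algebra.smul_def]
  let w' : Fin (Module.finrank k₀ k') → LaurentSeries k₀ :=
    fun j => ∑ i, HahnSeries.C (c i j) * w i
  have hw' : ∀ j, w' j ∈ F₀ := fun j =>
    Finset.sum_induction _ (fun x => x ∈ F₀) hadd h0 fun i _ => hC _ _ (hw i)
  have hzw' : z = ∑ j, HahnSeries.C ((b j : k') : k) * coeffMap (algebraMap k₀ k) (w' j) := by
    have h1 : ∀ j, HahnSeries.C ((b j : k') : k) * coeffMap (algebraMap k₀ k) (w' j) =
        ∑ i, HahnSeries.C (algebraMap k₀ k (c i j) * ((b j : k') : k)) *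
          coeffMap (algebraMap k₀ k) (w i) := by
      intro j
      rw [map_sum, Finset.mul_sum]
      refine Finset.sum_congr rfl fun i _ => ?_
      rw [map_mul, coeffMap_C', map_mul]
      ring
    rw [Finset.sum_congr rfl fun j _ => h1 j, Finset.sum_comm, hz]
    refine Finset.sum_congr rfl fun i _ => ?_
    rw [← Finset.sum_mul, ← map_sum, ← hc i]
  -- the conjugates of `z`
  have hconj : ∀ σ : k' →ₐ[k₀] k,
      coeffMap ((σ.liftNormal k : k →ₐ[k₀] k) : k →+* k) z =
        ∑ i, HahnSeries.C (σ (b i)) * coeffMap (algebraMap k₀ k) (w' i) := by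
    intro σ
    rw [hzw', map_sum]
    refine Finset.sum_congr rfl fun i _ => ?_
    rw [map_mul, coeffMap_C', coeffMap_coeffMap]
    have h1 : ((σ.liftNormal k : k →ₐ[k₀] k) : k →+* k) ((b i : k') : k) = σ (b i) :=
      AlgHom.liftNormal_commutes σ k (b i)
    have h2 : (((σ.liftNormal k : k →ₐ[k₀] k) : k →+* k).comp (algebraMap k₀ k)) =
        algebraMap k₀ k := by
      ext r
      exact (σ.liftNormal k).commutes r
    rw [h1, h2]
  have key : ∀ j, coeffMap (algebraMap k₀ k) (w' j) =
      ∑ σ : k' →ₐ[k₀] k, HahnSeries.C (σ (d j)) *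
        coeffMap ((σ.liftNormal k : k →ₐ[k₀] k) : k →+* k) z := by
    intro j
    have h1 : ∀ σ : k' →ₐ[k₀] k, HahnSeries.C (σ (d j)) *
        coeffMap ((σ.liftNormal k : k →ₐ[k₀] k) : k →+* k) z =
        ∑ i, HahnSeries.C (σ (d j * b i)) * coeffMap (algebraMap k₀ k) (w' i) := by
      intro σ
      rw [hconj σ, Finset.mul_sum]
      refine Finset.sum_congr rfl fun i _ => ?_
      rw [map_mul, map_mul, mul_assoc]
    rw [Finset.sum_congr rfl fun σ _ => h1 σ, Finset.sum_comm]
    have h2 : ∀ i, ∑ σ : k' →ₐ[k₀] k, HahnSeries.C (σ (d j * b i)) *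
        coeffMap (algebraMap k₀ k) (w' i) =
        if i = j then coeffMap (algebraMap k₀ k) (w' i) else 0 := by
      intro i
      rw [← Finset.sum_mul, ← map_sum, ← trace_eq_sum_embeddings k, ← Algebra.traceForm_apply,
        LinearMap.BilinForm.apply_dualBasis_left]
      split_ifs with h
      · rw [map_one, map_one, one_mul]
      · rw [map_zero, map_zero, zero_mul]
    rw [Finset.sum_congr rfl fun i _ => h2 i, Finset.sum_ite_eq' Finset.univ j]
    simp
  refine ⟨Module.finrank k₀ k', fun j => ((b j : k') : k), w', hw', ?_, hzw'⟩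
  intro j
  apply isIntegralElem_descent (k := k)
  rw [key j]
  refine isIntegralElem_sum _ _ _ fun σ _ =>
    RingHom.IsIntegralElem.mul _ (isIntegralElem_C _ _) ?_
  have h3 := isIntegralElem_coeffMap ((σ.liftNormal k : k →ₐ[k₀] k) : k →+* k) hint
  have h4 : (((σ.liftNormal k : k →ₐ[k₀] k) : k →+* k).comp (algebraMap k₀ k)) =
      algebraMap k₀ k := by
    ext r
    exact (σ.liftNormal k).commutes r
  rwa [coeffMap_coeffMap, h4] at h3

end Main

end Fermat.Agent.S37.H448

end
end
-- ===== PACK-END S37/H448/AscentAbs.lean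

-- ===== PACK-BEGIN S19/Glue.lean
section


/-!
# Cell A3 (S19) — top glue: frozen S19 from the three blocks ORD, FIN, ORDER
-/

set_option autoImplicit false

namespace Fermat.Agent.S19

open ModularCurve

/-- The frozen S19 conclusion, for fixed `N, ℓ, k`. -/
def FrozenConclusion (p : ℕ) (ℓ : ℕ) (k : ℕ) : Prop :=
  ∃ (H : Type) (_ : CommRing H) (_ : HopfAlgebra (GaloisRep.ratLocalizedAt ℓ) H),
    Module.Finite (GaloisRep.ratLocalizedAt ℓ) H ∧ Module.Flat (GaloisRep.ratLocalizedAt ℓ) H ∧
    Coalgebra.IsCocomm (GaloisRep.ratLocalizedAt ℓ) H ∧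
    ∃ e : WithConv (H →ₐ[GaloisRep.ratLocalizedAt ℓ] AlgebraicClosure ℚ) ≃
        ↥(Submodule.torsionBy ℤ (JZero p) ((ℓ : ℤ) ^ k)),
      (∀ f g, e (f * g) = e f + e g) ∧
      ∀ (σ : AlgebraicClosure ℚ ≃ₐ[ℚ] AlgebraicClosure ℚ)
        (f g : WithConv (H →ₐ[GaloisRep.ratLocalizedAt ℓ] AlgebraicClosure ℚ)),
        (∀ h : H, g h = σ (f h)) → ((e g : JZero p)) = σ • (e f : JZero p)

theorem frozen_of_hopfModel (p ℓ k : ℕ) (h : HopfModel ℓ (Tors p ℓ k) (torsAct p ℓ k)) :
    FrozenConclusion p ℓ k := by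
  obtain ⟨H, i1, i2, hfin, hflat, hco, e, hmul, hgal⟩ := h
  refine ⟨H, i1, i2, hfin, hflat, hco, e, hmul, ?_⟩
  intro σ f g hfg
  have := hgal σ f g hfg
  rw [this]
  rfl

/-- **Top glue**: frozen S19 from ORD + FIN + ORDER. -/
theorem S19_of_blocks (hord : OrdStatement) (hfin : FinStatement) (horder : OrderStatement)
    (p : ℕ) [NeZero p] (ℓ : ℕ) [Fact ℓ.Prime] (hℓp : ¬ ℓ ∣ p) (k : ℕ) :
    FrozenConclusion p ℓ k := by
  haveI : Finite (Tors p ℓ k) := hfin p ℓ k
  exact frozen_of_hopfModel p ℓ k (hord ℓ (Tors p ℓ k) (torsAct p ℓ k) (horder p ℓ hℓp k))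

end Fermat.Agent.S19

end
-- ===== PACK-END S19/Glue.lean

-- ===== PACK-BEGIN A3/H319/LevelPull.lean
section



/-!
# A3 / LEVEL (helper319), part 1: the pull-back (conorm) on `Pic⁰` along an algebra map

Generic (Prelude language).  For `φ : F →ₐ[K] F'` integral with the fundamental identity:

* `pic0Pull φ hφ hFI : Pic0 K F →+ Pic0 K F'`, `pic0Pull_mk`;
* `pic0Pull_smul` : it commutes with semilinear automorphisms intertwined by `φ`;
* `isKummerClass_pic0Pull` : it sends the Kummer class of `f` to the Kummer class of `φ f`.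
-/

set_option autoImplicit false
set_option linter.style.haveILetI false

noncomputable section

namespace Fermat.Agent.A3.H319

open AlgebraicCurve Fermat.Agent.S29

variable {K F F' : Type*} [Field K] [Field F] [Field F'] [Algebra K F] [Algebra K F']
variable [HasPrincipalDivisors K F']
variable (φ : F →ₐ[K] F') (hφ : φ.toRingHom.IsIntegral)
variable (hFI : FundamentalIdentityAlong K φ hφ)

/-- Pull-back of degree-zero divisors along `φ`. -/
def degZeroPull :
    Divisor.degZero (K := K) (F := F) →+ Divisor.degZero (K := K) (F := F') :=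
  ((Divisor.pullbackAlong φ hφ).domRestrict (Divisor.degZero (K := K) (F := F))).codRestrict _
    (fun D => Divisor.pullbackAlong_mem_degZero φ hφ hFI D.2)

@[simp]
theorem coe_degZeroPull (D : Divisor.degZero (K := K) (F := F)) :
    (degZeroPull φ hφ hFI D : Divisor K F') = Divisor.pullbackAlong φ hφ (D : Divisor K F) :=
  rfl

/-- The pull-back (conorm) `Pic⁰(F) → Pic⁰(F')` along `φ`. -/
def pic0Pull : Pic0 K F →+ Pic0 K F' :=
  QuotientAddGroup.map _ _ (degZeroPull φ hφ hFI) (by
    rintro ⟨D, hD0⟩ hD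
    simp only [AddSubgroup.mem_addSubgroupOf] at hD ⊢
    exact Divisor.isPrincipal_pullbackAlong φ hφ hD)

theorem pic0Pull_mk (D : Divisor.degZero (K := K) (F := F)) :
    pic0Pull φ hφ hFI (Pic0.mk D) = Pic0.mk (degZeroPull φ hφ hFI D) :=
  rfl

/-- The pull-back commutes with semilinear automorphisms intertwined by `φ`. -/
theorem pic0Pull_smul {g : SemilinearAut K F} {g' : SemilinearAut K F'}
    (h : SemilinearAut.IntertwinesAlong (φ : F →+* F') g g') (x : Pic0 K F) :
    pic0Pull φ hφ hFI (g • x) = g' • pic0Pull φ hφ hFI x := by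
  obtain ⟨D, rfl⟩ := Pic0.mk_surjective x
  rw [SemilinearAut.pic0_smul_mk, pic0Pull_mk, pic0Pull_mk, SemilinearAut.pic0_smul_mk]
  refine congrArg Pic0.mk (Subtype.ext ?_)
  rw [coe_degZeroPull, SemilinearAut.coe_degZeroSMulHom, SemilinearAut.coe_degZeroSMulHom,
    coe_degZeroPull]
  exact H571.pullbackAlong_smul φ hφ h (D : Divisor K F)

/-- The pull-back sends the Kummer class of `f` to the Kummer class of `φ f`. -/
theorem isKummerClass_pic0Pull {n : ℤ} {f : F} {x : Pic0 K F}
    (hx : H455.IsKummerClass n f x) :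
    H455.IsKummerClass n (φ f) (pic0Pull φ hφ hFI x) := by
  obtain ⟨hf, D, rfl, hD⟩ := hx
  refine ⟨(map_ne_zero φ).mpr hf, degZeroPull φ hφ hFI D, (pic0Pull_mk φ hφ hFI D).symm,
    fun w => ?_⟩
  rw [coe_degZeroPull, Divisor.pullbackAlong_apply, Place.ord_restrictAlong φ hφ w f,
    ← hD (w.restrictAlong φ hφ)]
  ring

end Fermat.Agent.A3.H319

end
end
-- ===== PACK-END A3/H319/LevelPull.lean

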