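import Mathlib
import Fermat.Prelude.Def_FLTPrelim_Ramification
import Fermat.Prelude.Def_ModularCurve_HeckeModule
import Mathlib.RingTheory.Valuation.ValuationSubring
import Fermat.Prelude.Def_EllipticCurve_FrobeniusTrace
import Fermat.Prelude.Def_AlgebraicCurve_Repartitions
import Fermat.Prelude.Def_ModularCurve_X0ModL
import Fermat.Prelude.Def_ModularCurve_ArithmeticGalois
import Fermat.Prelude.Def_ModularCurve_X0
import Fermat.Prelude.Def_AlgebraicCurve_BaseChangeGalois
import Mathlib.RingTheory.DiscreteValuationRing.Basic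
import Mathlib.RingTheory.Algebraic.Integral
import Mathlib.RingTheory.Localization.FractionRing
import Mathlib.RingTheory.Polynomial.UniqueFactorization
import Mathlib.Tactic.FieldSimp
import Mathlib.RingTheory.Valuation.LocalSubring
import Mathlib.RingTheory.RootsOfUnity.AlgebraicallyClosed
import Fermat.Prelude.Def_AlgebraicCurve_DivisorPushPull
import Mathlib.Algebra.Polynomial.Degree.Lemmas
import Mathlib.Algebra.Polynomial.Monic
import Mathlib.Tactic.Ring
import Mathlib.Tactic.FinCases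
import Fermat.Prelude.Def_ModularCurve_ReductionModL
import Mathlib.NumberTheory.ModularForms.QExpansion
import Mathlib.NumberTheory.ModularForms.CongruenceSubgroups
import Mathlib.RingTheory.PowerSeries.Expand
import Fermat.Prelude.Thm_CongruenceSubgroup_one_mem_strictPeriods_Gamma0
import Mathlib.Tactic
import Fermat.Prelude.Def_AlgebraicCurve_DivisorClassGroup
import Fermat.Prelude.Def_ModularCurve_PeriodMap
import Mathlib.LinearAlgebra.Matrix.SchurComplement
import Mathlib.LinearAlgebra.Matrix.NonsingularInverse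
import Mathlib.LinearAlgebra.Matrix.ToLin
import Mathlib.LinearAlgebra.Projection
import Mathlib.LinearAlgebra.Matrix.Rank
import Mathlib.FieldTheory.Galois.Infinite
import Mathlib.FieldTheory.KrullTopology
import Mathlib.RingTheory.Valuation.RamificationGroup
import Fermat.Agent.Pack.S15.AE0L1
import Fermat.Agent.Pack.S15.AE0L0
import Fermat.Agent.Pack.S15.AE0L2
import Fermat.Agent.Pack.S15.AE0L3

-- ===== PACK-BEGIN S19/Spec.lean
section


/-!
# Cell A3 (S19) — FROZEN second-level interface (row-lead helper15, after deputy helper979)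

    OrderStatement  <==  LEVEL  +  OrderStatementGood
    OrderStatementGood  <==  FIN + CONT + UNR + LOCAL

* `IsContAddAction`, `CoordDatum`, `IsInertiaAt`, `LocalCoordDatum` are taken verbatim from the
  deputy's spec `origin/helper979:Fermat/Agent/S19/H979/Spec.lean` (namespace changed).
* `UnrStatement`   (UNR, pure algebra)  : local coordinates at ONE place, equivariant under
                   inertia only  ==>  global coordinates.
* `LocalStatement` (LOCAL = DISC + GR)  : the torsion of `J₀(N)` at a GOOD level has local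
                   coordinates.  Its decomposition into DISC (abstract `RedDatum`) and GR (the
                   instance for `X₀(N)`) is frozen by helper979 / helper799 in their own spec files.
* `LevelStatement` (LEVEL, only needed for `ℓ = 2, 3`): the torsion at level `N` embeds
                   Galois-equivariantly into the torsion at a good level.

Proved here (no holes): `orderDatum_of_coordDatum`, `OrderDatum.comap`, `orderStatement_of_good`,
`orderStatementGood_of`.
-/

set_option autoImplicit false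

noncomputable section

namespace Fermat.Agent.S19

/-- The action is by additive automorphisms and every point has an open stabiliser. -/
structure IsContAddAction {M : Type} [AddCommGroup M] (act : GalQ → M → M) : Prop where
  act_one : ∀ m, act 1 m = m
  act_mul : ∀ σ τ m, act (σ * τ) m = act σ (act τ m)
  act_add : ∀ σ m m', act σ (m + m') = act σ m + act σ m'
  cont : ∀ m, ∃ L : IntermediateField ℚ Qb, FiniteDimensional ℚ L ∧
    ∀ σ : GalQ, (∀ a ∈ L, σ a = a) → act σ m = m

/-- Global integral Galois-equivariant coordinates with `Zbar`-polynomial addition. -/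
structure CoordDatum (ℓ : ℕ) (M : Type) [AddCommGroup M] (act : GalQ → M → M) where
  ι : Type
  fin : Finite ι
  Φ : M → ι → Qb
  inj : Function.Injective Φ
  equivariant : ∀ σ m i, Φ (act σ m) i = σ (Φ m i)
  integral : ∀ m i, IsIntegral (Rl ℓ) (Φ m i)
  add_mem : ∀ i, (fun p : M × M => Φ (p.1 + p.2) i) ∈
      Algebra.adjoin (Zb ℓ) ({f | ∃ j, f = fun p : M × M => Φ p.1 j} ∪
        {f | ∃ j, f = fun p : M × M => Φ p.2 j})

/-- `σ` lies in the inertia group of the valuation ring `V`. -/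
def IsInertiaAt (V : ValuationSubring Qb) (σ : GalQ) : Prop :=
  ∀ a : Qb, a ∈ V → σ a - a ∈ V.nonunits

/-- Integral coordinates at ONE place above `ℓ`, equivariant under inertia only; the addition
polynomials may have arbitrary coefficients in `V`. -/
structure LocalCoordDatum (ℓ : ℕ) (M : Type) [AddCommGroup M] (act : GalQ → M → M) where
  V : ValuationSubring Qb
  ell_mem : (ℓ : Qb) ∈ V.nonunits
  ι : Type
  fin : Finite ι
  Ψ : M → ι → Qb
  inj : Function.Injective Ψ
  integral : ∀ m i, Ψ m i ∈ V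
  equivariant : ∀ σ, IsInertiaAt V σ → ∀ m i, Ψ (act σ m) i = σ (Ψ m i)
  add_mem : ∀ i, (fun p : M × M => Ψ (p.1 + p.2) i) ∈
      Algebra.adjoin V ({f | ∃ j, f = fun p : M × M => Ψ p.1 j} ∪
        {f | ∃ j, f = fun p : M × M => Ψ p.2 j})

/-- **UNR** (unramified descent; pure algebra). -/
def UnrStatement : Prop :=
  ∀ (ℓ : ℕ) [Fact ℓ.Prime] (M : Type) [AddCommGroup M] [Finite M] (act : GalQ → M → M),
    IsContAddAction act → LocalCoordDatum ℓ M act → Nonempty (CoordDatum ℓ M act)

/-- Levels at which the S18 cell proves good reduction of the coordinate-line model. -/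
def GoodLevel (N ℓ : ℕ) : Prop := 5 ≤ ℓ ∨ (ℓ = 3 ∧ 2 ∣ N) ∨ (ℓ = 2 ∧ 3 ∣ N)

/-- **LOCAL** (= DISC + GR): local coordinates on the torsion at a good level. -/
def LocalStatement : Prop :=
  ∀ (N : ℕ) [NeZero N] (ℓ : ℕ) [Fact ℓ.Prime], ¬ ℓ ∣ N → GoodLevel N ℓ → ∀ k : ℕ,
    Finite (Tors N ℓ k) → Nonempty (LocalCoordDatum ℓ (Tors N ℓ k) (torsAct N ℓ k))

/-- **CONT**: the Galois action on the torsion is additive with open stabilisers. -/
def ContStatement : Prop :=
  ∀ (N : ℕ) [NeZero N] (ℓ : ℕ) [Fact ℓ.Prime] (k : ℕ), IsContAddAction (torsAct N ℓ k)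

/-- **ORDER at good levels.** -/
def OrderStatementGood : Prop :=
  ∀ (N : ℕ) [NeZero N] (ℓ : ℕ) [Fact ℓ.Prime], ¬ ℓ ∣ N → GoodLevel N ℓ → ∀ k : ℕ,
    Nonempty (OrderDatum ℓ (Tors N ℓ k) (torsAct N ℓ k))

/-- **LEVEL**: the torsion at level `N` embeds equivariantly into the torsion at a good level
(`M = N` if `ℓ ≥ 5`; `M = lcm(N,2)` if `ℓ = 3`; `M = lcm(N,3)` if `ℓ = 2`; the map is the
conorm). -/
def LevelStatement : Prop :=
  ∀ (N : ℕ) [NeZero N] (ℓ : ℕ) [Fact ℓ.Prime], ¬ ℓ ∣ N → ∀ k : ℕ,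
    ∃ (M : ℕ) (_ : NeZero M) (k' : ℕ), ¬ ℓ ∣ M ∧ GoodLevel M ℓ ∧
      ∃ j : Tors N ℓ k →+ Tors M ℓ k', Function.Injective j ∧
        ∀ (σ : GalQ) (x : Tors N ℓ k), j (torsAct N ℓ k σ x) = torsAct M ℓ k' σ (j x)

/-! ## Proved glue -/

/-- Global coordinates give an order datum. -/
theorem orderDatum_of_coordDatum {ℓ : ℕ} {M : Type} [AddCommGroup M] {act : GalQ → M → M}
    (hadd : ∀ (σ : GalQ) (a b : M), act σ (a + b) = act σ a + act σ b)
    (D : CoordDatum ℓ M act) : Nonempty (OrderDatum ℓ M act) := by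
  refine ⟨{ act_add := hadd
            gens := Set.range fun (i : D.ι) (m : M) => D.Φ m i
            equivariant := ?_
            integral := ?_
            separates := ?_
            add_mem := ?_ }⟩
  · rintro f ⟨i, rfl⟩ σ m
    exact D.equivariant σ m i
  · rintro f ⟨i, rfl⟩ m
    exact D.integral m i
  · intro m m' h
    apply D.inj
    funext i
    exact h _ ⟨i, rfl⟩
  · rintro f ⟨i, rfl⟩
    refine Algebra.adjoin_mono ?_ (D.add_mem i)
    rintro g (⟨j, rfl⟩ | ⟨j, rfl⟩)
    · exact Or.inl ⟨_, ⟨j, rfl⟩, rfl⟩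
    · exact Or.inr ⟨_, ⟨j, rfl⟩, rfl⟩

/-- Restriction of an order datum along an injective equivariant additive map
(closure under Galois submodules). -/
theorem OrderDatum.comap {ℓ : ℕ} {M M' : Type} [AddCommGroup M] [AddCommGroup M']
    {act : GalQ → M → M} {act' : GalQ → M' → M'} (D : OrderDatum ℓ M act)
    (hadd' : ∀ (σ : GalQ) (a b : M'), act' σ (a + b) = act' σ a + act' σ b)
    (j : M' →+ M) (hj : Function.Injective j)
    (hjσ : ∀ (σ : GalQ) (x : M'), j (act' σ x) = act σ (j x)) :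
    Nonempty (OrderDatum ℓ M' act') := by
  refine ⟨{ act_add := hadd'
            gens := (fun f : M → Qb => f ∘ j) '' D.gens
            equivariant := ?_
            integral := ?_
            separates := ?_
            add_mem := ?_ }⟩
  · rintro _ ⟨f, hf, rfl⟩ σ m
    show f (j (act' σ m)) = σ (f (j m))
    rw [hjσ]
    exact D.equivariant f hf σ (j m)
  · rintro _ ⟨f, hf, rfl⟩ m
    exact D.integral f hf (j m)
  · intro m m' h
    apply hj
    apply D.separates
    intro f hf
    exact h _ ⟨f, hf, rfl⟩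
  · rintro _ ⟨f, hf, rfl⟩
    -- pull back along `j × j`
    let φ : (M × M → Qb) →ₐ[Zb ℓ] (M' × M' → Qb) :=
      { toFun := fun F p => F (j p.1, j p.2)
        map_one' := rfl
        map_mul' := fun _ _ => rfl
        map_zero' := rfl
        map_add' := fun _ _ => rfl
        commutes' := fun _ => rfl }
    have h1 : φ (fun p : M × M => f (p.1 + p.2)) ∈
        (Algebra.adjoin (Zb ℓ) (coordFunctions D.gens)).map φ :=
      ⟨_, D.add_mem f hf, rfl⟩
    have h2 : (fun p : M' × M' => (f ∘ j) (p.1 + p.2)) = φ (fun p : M × M => f (p.1 + p.2)) := by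
      funext p
      show f (j (p.1 + p.2)) = f (j p.1 + j p.2)
      rw [map_add]
    rw [h2]
    rw [AlgHom.map_adjoin] at h1
    refine Algebra.adjoin_mono ?_ h1
    rintro _ ⟨g, (⟨h, hh, rfl⟩ | ⟨h, hh, rfl⟩), rfl⟩
    · exact Or.inl ⟨h ∘ j, ⟨h, hh, rfl⟩, rfl⟩
    · exact Or.inr ⟨h ∘ j, ⟨h, hh, rfl⟩, rfl⟩

/-- ORDER at all levels from ORDER at good levels and LEVEL. -/
theorem orderStatement_of_good (hgood : OrderStatementGood) (hlevel : LevelStatement) :
    OrderStatement := by
  intro N _ ℓ _ hℓN k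
  obtain ⟨M, hM, k', hℓM, hg, j, hj, hjσ⟩ := hlevel N ℓ hℓN k
  obtain ⟨D⟩ := hgood M ℓ hℓM hg k'
  exact D.comap (torsAct_add N ℓ k) j hj hjσ

/-- ORDER at good levels from FIN, CONT, UNR and LOCAL. -/
theorem orderStatementGood_of (hfin : FinStatement) (hcont : ContStatement)
    (hunr : UnrStatement) (hlocal : LocalStatement) : OrderStatementGood := by
  intro N _ ℓ _ hℓN hg k
  have hF : Finite (Tors N ℓ k) := hfin N ℓ k
  obtain ⟨L⟩ := hlocal N ℓ hℓN hg k hF
  obtain ⟨C⟩ := hunr ℓ (Tors N ℓ k) (torsAct N ℓ k) (hcont N ℓ k) L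
  exact orderDatum_of_coordDatum (torsAct_add N ℓ k) C

end Fermat.Agent.S19

end

end
-- ===== PACK-END S19/Spec.lean

-- ===== PACK-BEGIN S15/H975/DescSpec.lean
section





/-!
# Row S15, node DESC-CORE: FROZEN SKELETON (row-lead helper975)

Design: `coord/S15-DESC-blueprint.md` (v3) + `coord/S15-DESC-skeleton.md` (this file explained).

    DescCoreTarget p S r   (= `H302.DescCoreAt p S r`, the wall of row S15)
      <== ALG0   (pure algebra)      SelBound + DIV + FINW + RTF
      <== ENGINE (pure algebra)      SelBound from a flag + per-step bounds + |K| |U| <= |W_E|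
      <== FLAG                       a Galois flag of `W_E = J[r]_Eis` with pieces `1` or `omega`
      <== LOCAL                      the per-step bounds (all the arithmetic)
            <== G3, PEU1J, PEUwJ, LOCP, COUNT (odd r) / LOCR2 (r = 2), + class field theory of Q
                  PEU*J <== T1 (HopfE) + T2 (rank r^2 Hopf orders, pure algebra)
                  LOCP  <== T6 (strong A2) + T7 (J(Q_p^ur)/r generated by torsion)

Everything below is DEFINITIONS and `Prop`s; the only theorem is the trivial assembly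
`descCoreTarget_of_nodes`.  A leaf = `theorem xxx : XxxStatement` in YOUR file
`Fermat/Agent/S15/H<seat>/...`, importing this file.  Do not edit this file.

Notation: `A = rat p` (rational points), `W = tors p r`, `W_E = eis p S r`,
`Y(F) = sel p r F = {y | r y ∈ A, σ y - y ∈ F for all σ}`.
-/

set_option autoImplicit false

noncomputable section

namespace Fermat.Agent.S15.H975

open ModularCurve

/-- `ℚ̄` -/
abbrev Qb : Type := AlgebraicClosure ℚ

/-- `Gal(ℚ̄/ℚ)` -/
abbrev Gal : Type := Qb ≃ₐ[ℚ] Qb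

section Defs

variable (p : ℕ) [NeZero p]

/-- `A = J₀(p)(ℚ)`: the Galois-fixed points. -/
def rat : AddSubgroup (JZero p) where
  carrier := {x | ∀ σ : _root_.Fermat.Agent.S15.H975.Gal, σ • x = x}
  zero_mem' := fun σ => smul_zero σ
  add_mem' := by
    intro a b ha hb σ
    rw [smul_add, ha σ, hb σ]
  neg_mem' := by
    intro a ha σ
    rw [smul_neg, ha σ]

/-- `W = J₀(p)[r]`. -/
def tors (r : ℕ) : AddSubgroup (JZero p) where
  carrier := {w | r • w = 0}
  zero_mem' := smul_zero r
  add_mem' := by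
    intro a b ha hb
    show r • (a + b) = 0
    rw [nsmul_add, show r • a = 0 from ha, show r • b = 0 from hb, add_zero]
  neg_mem' := by
    intro a ha
    show r • (-a) = 0
    rw [neg_nsmul, show r • a = 0 from ha, neg_zero]

/-- The Eisenstein operator `η_ℓ = T_ℓ - (1 + ℓ)`. -/
def eta (ℓ : Nat.Primes) : Module.End ℤ (JZero p) :=
  heckeOperatorBar p ℓ - ((1 + (ℓ : ℕ) : ℕ) : ℤ) • (1 : Module.End ℤ (JZero p))

/-- `w` is Eisenstein (generalised eigenvector) for the good primes `ℓ ≠ p`, `ℓ ∉ S`. -/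
def IsEis (S : Set ℕ) (w : JZero p) : Prop :=
  ∀ ℓ : Nat.Primes, (ℓ : ℕ) ≠ p → (ℓ : ℕ) ∉ S → ∃ k : ℕ, (eta p ℓ ^ k) w = 0

theorem isEis_zero (S : Set ℕ) : IsEis p S 0 := fun _ _ _ => ⟨0, map_zero _⟩

theorem IsEis.add {S : Set ℕ} {a b : JZero p} (ha : IsEis p S a) (hb : IsEis p S b) :
    IsEis p S (a + b) := by
  intro ℓ h1 h2
  obtain ⟨k, hk⟩ := ha ℓ h1 h2
  obtain ⟨k', hk'⟩ := hb ℓ h1 h2
  refine ⟨k + k', ?_⟩
  rw [map_add]
  have e1 : (eta p ℓ ^ (k + k')) a = 0 := by
    rw [add_comm, pow_add, Module.End.mul_apply, hk, map_zero]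
  have e2 : (eta p ℓ ^ (k + k')) b = 0 := by
    rw [pow_add, Module.End.mul_apply, hk', map_zero]
  rw [e1, e2, add_zero]

theorem IsEis.neg {S : Set ℕ} {a : JZero p} (ha : IsEis p S a) : IsEis p S (-a) := by
  intro ℓ h1 h2
  obtain ⟨k, hk⟩ := ha ℓ h1 h2
  exact ⟨k, by rw [map_neg, hk, neg_zero]⟩

/-- `W_E`: the Eisenstein part of `J₀(p)[r]` (for the good primes `ℓ ≠ p`, `ℓ ∉ S`). -/
def eis (S : Set ℕ) (r : ℕ) : AddSubgroup (JZero p) where
  carrier := {w | r • w = 0 ∧ IsEis p S w}
  zero_mem' := ⟨smul_zero r, isEis_zero p S⟩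
  add_mem' := by
    rintro a b ⟨ha, ha'⟩ ⟨hb, hb'⟩
    exact ⟨by rw [nsmul_add, ha, hb, add_zero], ha'.add p hb'⟩
  neg_mem' := by
    rintro a ⟨ha, ha'⟩
    exact ⟨by rw [neg_nsmul, ha, neg_zero], ha'.neg p⟩

/-- `Y(F) = {y | r y ∈ A, σ y - y ∈ F for all σ}`: the `r`-division points of rational points
whose cocycle takes values in `F`. -/
def sel (r : ℕ) (F : AddSubgroup (JZero p)) : AddSubgroup (JZero p) where
  carrier := {y | (∀ σ : _root_.Fermat.Agent.S15.H975.Gal, σ • (r • y) = r • y) ∧ ∀ σ : _root_.Fermat.Agent.S15.H975.Gal, σ • y - y ∈ F}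
  zero_mem' := ⟨fun σ => by rw [smul_zero, smul_zero], fun σ => by
    rw [smul_zero, sub_zero]; exact F.zero_mem⟩
  add_mem' := by
    rintro a b ⟨ha, ha'⟩ ⟨hb, hb'⟩
    refine ⟨fun σ => ?_, fun σ => ?_⟩
    · rw [nsmul_add, smul_add σ (r • a) (r • b), ha σ, hb σ]
    · have h : σ • (a + b) - (a + b) = (σ • a - a) + (σ • b - b) := by
        rw [smul_add σ a b]; abel
      rw [h]
      exact F.add_mem (ha' σ) (hb' σ)
  neg_mem' := by
    rintro a ⟨ha, ha'⟩
    refine ⟨fun σ => ?_, fun σ => ?_⟩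
    · rw [neg_nsmul, smul_neg σ (r • a), ha σ]
    · have h : σ • (-a) - (-a) = -(σ • a - a) := by
        rw [smul_neg σ a]; abel
      rw [h]
      exact F.neg_mem (ha' σ)

/-- `F` is Galois-stable. -/
def IsStable (F : AddSubgroup (JZero p)) : Prop :=
  ∀ σ : _root_.Fermat.Agent.S15.H975.Gal, ∀ f ∈ F, σ • f ∈ F

/-- `z ≡ z'` modulo `r A + A_tors`  (verbatim `H302.CongModRTors`). -/
def CongMod (r : ℕ) (z z' : JZero p) : Prop :=
  ∃ w : JZero p, (∀ σ : _root_.Fermat.Agent.S15.H975.Gal, σ • w = w) ∧ ∃ m : ℕ, 0 < m ∧ m • (z - z' - r • w) = 0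

/-- **The target** (verbatim `H302.DescCoreAt p S r`). -/
def DescCoreTarget (S : Set ℕ) (r : ℕ) : Prop :=
  ∀ z : JZero p, (∀ σ : _root_.Fermat.Agent.S15.H975.Gal, σ • z = z) →
    (∀ ℓ : Nat.Primes, (ℓ : ℕ) ≠ p → (ℓ : ℕ) ∉ S →
      CongMod p r (heckeOperatorBar p ℓ z) ((1 + (ℓ : ℕ) : ℕ) • z)) →
    CongMod p r z 0

/-- **SEL-BOUND**: `[Y(W_E) : A + W_E] ≤ |W_E ∩ A|` (and the index is finite). -/
def SelBound (S : Set ℕ) (r : ℕ) : Prop :=
  (rat p ⊔ eis p S r).relIndex (sel p r (eis p S r)) ≠ 0 ∧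
  (rat p ⊔ eis p S r).relIndex (sel p r (eis p S r)) ≤ Nat.card ↥(eis p S r ⊓ rat p)

/-- `F' ≤ F` is an Eisenstein piece: both Galois-stable, index `r`, and the Galois group acts on
`F / F'` trivially or through the cyclotomic character `ω` modulo `r`. -/
def IsEisPiece (r : ℕ) (F' F : AddSubgroup (JZero p)) : Prop :=
  F' ≤ F ∧ IsStable p F' ∧ IsStable p F ∧ F'.relIndex F = r ∧
    ((∀ σ : _root_.Fermat.Agent.S15.H975.Gal, ∀ f ∈ F, σ • f - f ∈ F') ∨
      ∃ ζ : Qb, IsPrimitiveRoot ζ r ∧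
        ∀ (σ : _root_.Fermat.Agent.S15.H975.Gal) (k : ℕ), σ ζ = ζ ^ k → ∀ f ∈ F, σ • f - k • f ∈ F')

/-- A full flag of Eisenstein pieces of `W_E`. -/
def IsFlag (S : Set ℕ) (r : ℕ) (D : ℕ) (F : ℕ → AddSubgroup (JZero p)) : Prop :=
  F 0 = ⊥ ∧ F D = eis p S r ∧ ∀ i < D, IsEisPiece p r (F i) (F (i + 1))

/-- `s = [Y(F) : Y(F') + F]`: the order of the Selmer group of the piece `F / F'`. -/
def selIndex (r : ℕ) (F' F : AddSubgroup (JZero p)) : ℕ :=
  (sel p r F' ⊔ F).relIndex (sel p r F)

/-- `g = [F ∩ Y(F') : F'] = |(F / F')^G|`. -/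
def fixIndex (r : ℕ) (F' F : AddSubgroup (JZero p)) : ℕ :=
  F'.relIndex (F ⊓ sel p r F')

/-- **The step bound** for the piece `F / F'`, relative to `K` (the non-étale part at `r`) and
`U` (the ramification at `p`):  `s · r^et ≤ r^ram · g`, where
`et := [F ∩ K ≤ F']`, `ram := [F ∩ U ≰ F']`. -/
def StepBound (r : ℕ) (K U F' F : AddSubgroup (JZero p)) : Prop :=
  selIndex p r F' F ≠ 0 ∧
  (F ⊓ K ≤ F' → F ⊓ U ≤ F' → selIndex p r F' F * r ≤ fixIndex p r F' F) ∧
  (F ⊓ K ≤ F' → ¬ F ⊓ U ≤ F' → selIndex p r F' F ≤ fixIndex p r F' F) ∧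
  (¬ F ⊓ K ≤ F' → F ⊓ U ≤ F' → selIndex p r F' F ≤ fixIndex p r F' F) ∧
  (¬ F ⊓ K ≤ F' → ¬ F ⊓ U ≤ F' → selIndex p r F' F ≤ r * fixIndex p r F' F)

end Defs

/-! ## Level 0 and 1: the pure algebra -/

/-- **DIV** (= G-DIV of row S17): `J₀(p)(ℚ̄)` is `r`-divisible. -/
def DivStatement : Prop :=
  ∀ (p : ℕ) [NeZero p], p.Prime → ∀ r : ℕ, r.Prime → ∀ x : JZero p, ∃ y : JZero p, r • y = x

/-- **FINW** (on main: `S17.H317.torsion_finite`, `A3.H319`): `J₀(p)[n]` is finite. -/
def FinStatement : Prop :=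
  ∀ (p : ℕ) [NeZero p] (n : ℕ), 0 < n → Finite ↥(tors p n)

/-- **RTF**: the rational torsion has bounded exponent (from S17, or from the finiteness of the
reductions of `J₀(p)(ℚ)` at two primes). -/
def RtfStatement : Prop :=
  ∀ (p : ℕ) [NeZero p], p.Prime → ∃ e : ℕ, 0 < e ∧
    ∀ t : JZero p, (∀ σ : _root_.Fermat.Agent.S15.H975.Gal, σ • t = t) → (∃ m : ℕ, 0 < m ∧ m • t = 0) → e • t = 0

/-- **ALG0** (pure algebra + Hecke facts on main: `S29.heckeOperatorsCommuteBar`,
`S29.H571`): the descent core from SEL-BOUND.  Blueprint §0. -/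
def Alg0Statement : Prop :=
  ∀ (p : ℕ) [NeZero p] (S : Set ℕ) (r : ℕ), p.Prime → r.Prime →
    (∀ x : JZero p, ∃ y : JZero p, r • y = x) →
    (∀ n : ℕ, 0 < n → Finite ↥(tors p n)) →
    (∃ e : ℕ, 0 < e ∧
      ∀ t : JZero p, (∀ σ : _root_.Fermat.Agent.S15.H975.Gal, σ • t = t) → (∃ m : ℕ, 0 < m ∧ m • t = 0) → e • t = 0) →
    SelBound p S r → DescCoreTarget p S r

/-- **ENGINE** (pure algebra, Mathlib only): SEL-BOUND from a flag with step bounds.
Blueprint §1: for `F' ≤ F` Galois-stable,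
`[Y(F) : A + F] · |F'^G| · g = s · [Y(F') : A + F'] · |F^G|`, and `Y(⊥) = A`. -/
def EngineStatement : Prop :=
  ∀ (p : ℕ) [NeZero p] (S : Set ℕ) (r : ℕ), r.Prime → Finite ↥(tors p r) →
    ∀ K U : AddSubgroup (JZero p), K ≤ eis p S r → U ≤ eis p S r →
      Nat.card ↥K * Nat.card ↥U ≤ Nat.card ↥(eis p S r) →
    ∀ (D : ℕ) (F : ℕ → AddSubgroup (JZero p)), IsFlag p S r D F →
      (∀ i < D, StepBound p r K U (F i) (F (i + 1))) → SelBound p S r

/-! ## Level 1: the two arithmetic nodes -/

/-- **FLAG**: `W_E` has a full Galois flag with pieces of type `1` or `ω`.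
Route: `S15.H62.exists_flag_of_frobenius` + `S37.Core.rawES` + Chebotarev (`Lib/Cheb`). -/
def FlagStatement : Prop :=
  ∀ (p : ℕ) [NeZero p], p.Prime → ∀ (S : Finset ℕ) (r : ℕ), r.Prime → r ∣ p - 1 →
    ∃ (D : ℕ) (F : ℕ → AddSubgroup (JZero p)), IsFlag p (S : Set ℕ) r D F

/-- **LOCAL**: subgroups `K`, `U` of `W_E` with `|K| |U| ≤ |W_E|` for which every Eisenstein
piece satisfies the step bound. -/
def LocalStatement : Prop :=
  ∀ (p : ℕ) [NeZero p], p.Prime → ∀ (S : Finset ℕ) (r : ℕ), r.Prime → r ∣ p - 1 →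
    ∃ K U : AddSubgroup (JZero p), K ≤ eis p (S : Set ℕ) r ∧ U ≤ eis p (S : Set ℕ) r ∧
      Nat.card ↥K * Nat.card ↥U ≤ Nat.card ↥(eis p (S : Set ℕ) r) ∧
      ∀ F' F : AddSubgroup (JZero p), F ≤ eis p (S : Set ℕ) r → IsEisPiece p r F' F →
        StepBound p r K U F' F

/-- **Assembly of the skeleton.** -/
theorem descCoreTarget_of_nodes (hA : Alg0Statement) (hE : EngineStatement)
    (hDiv : DivStatement) (hFin : FinStatement) (hRtf : RtfStatement)
    (hFlag : FlagStatement) (hLoc : LocalStatement)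
    (p : ℕ) [NeZero p] (hp : p.Prime) (S : Finset ℕ) (r : ℕ) (hr : r.Prime) (hrp : r ∣ p - 1) :
    DescCoreTarget p (S : Set ℕ) r := by
  have hW : Finite ↥(tors p r) := hFin p r hr.pos
  obtain ⟨D, F, hF⟩ := hFlag p hp S r hr hrp
  obtain ⟨K, U, hK, hU, hKU, hstep⟩ := hLoc p hp S r hr hrp
  have hsel : SelBound p (S : Set ℕ) r :=
    hE p (S : Set ℕ) r hr hW K U hK hU hKU D F hF fun i hi =>
      hstep (F i) (F (i + 1)) (by
        -- `F (i+1) ≤ F D = W_E`
        have hmono : ∀ j, j ≤ D → ∀ i, i ≤ j → F i ≤ F j := by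
          intro j
          induction j with
          | zero =>
            intro _ i hi
            rw [Nat.le_zero.mp hi]
          | succ j ih =>
            intro hj i hi
            rcases Nat.lt_or_ge i (j + 1) with h | h
            · exact (ih (Nat.le_of_succ_le hj) i (Nat.lt_succ_iff.mp h)).trans
                (hF.2.2 j (Nat.lt_of_succ_le hj)).1
            · rw [le_antisymm hi h]
        rw [← hF.2.1]
        exact hmono D le_rfl (i + 1) hi) (hF.2.2 i hi)
  exact hA p (S : Set ℕ) r hp hr (hDiv p hp r hr) (fun n hn => hFin p n hn) (hRtf p hp) hsel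

/-! ## Level 2: the leaves of LOCAL -/

/-- **G3**: inertia at `ℓ ∤ p r` acts trivially on the `r`-division points of the points it
fixes.  Formal from row S37 (`WeakRedData.inertia`) and the frozen S18. -/
def G3Statement : Prop :=
  ∀ (p : ℕ) [NeZero p], p.Prime → ∀ r : ℕ, r.Prime → ∀ ℓ : ℕ, ℓ.Prime → ℓ ≠ p → ℓ ≠ r →
    ∀ A : ValuationSubring Qb, A.LiesOverPrime ℓ → ∀ τ ∈ A.inertiaSubgroupIn ℚ,
      ∀ y : JZero p, τ • (r • y) = r • y → τ • y = y

/-- **LOC-p**: the cocycles of `Y(W_E)` restricted to inertia at (one place over) `p` take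
values in a subgroup `U` of `W_E` with `|U|² ≤ |W_E|`.  Blueprint §5 (T6 + T7 + algebra). -/
def LocPStatement : Prop :=
  ∀ (p : ℕ) [NeZero p], p.Prime → ∀ (S : Finset ℕ) (r : ℕ), r.Prime → r ∣ p - 1 →
    ∃ A : ValuationSubring Qb, A.LiesOverPrime p ∧
      ∃ U : AddSubgroup (JZero p), U ≤ eis p (S : Set ℕ) r ∧
        Nat.card ↥U ^ 2 ≤ Nat.card ↥(eis p (S : Set ℕ) r) ∧
        ∀ y ∈ sel p r (eis p (S : Set ℕ) r), ∀ τ ∈ A.inertiaSubgroupIn ℚ, τ • y - y ∈ U

/-- **T7 (LOC-p')**: every rational point is `t + r u` with `t` of `r`-power order, `t` and `u`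
fixed by inertia at (one place over) `p`. -/
def T7Statement : Prop :=
  ∀ (p : ℕ) [NeZero p], p.Prime → ∀ r : ℕ, r.Prime → r ≠ p →
    ∃ A : ValuationSubring Qb, A.LiesOverPrime p ∧
      ∀ x : JZero p, (∀ σ : _root_.Fermat.Agent.S15.H975.Gal, σ • x = x) →
        ∃ t u : JZero p, x = t + r • u ∧ (∃ k : ℕ, r ^ k • t = 0) ∧
          ∀ τ ∈ A.inertiaSubgroupIn ℚ, τ • t = t ∧ τ • u = u

/-- **T6 (strong A2 + tame)**: at every level `r^k` the inertia at `p` acts on `J₀(p)[r^k]`
through the powers of one element `t₀` with `(t₀ - 1)² = 0`. -/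
def T6Statement : Prop :=
  ∀ (p : ℕ) [NeZero p], p.Prime → ∀ r : ℕ, r.Prime → r ≠ p →
    ∀ A : ValuationSubring Qb, A.LiesOverPrime p → ∀ k : ℕ,
      ∃ t₀ ∈ A.inertiaSubgroupIn ℚ,
        (∀ w : JZero p, r ^ k • w = 0 → t₀ • t₀ • w - 2 • t₀ • w + w = 0) ∧
        ∀ τ ∈ A.inertiaSubgroupIn ℚ, ∃ j : ℕ, ∀ w : JZero p, r ^ k • w = 0 →
          τ • w = (t₀ ^ j) • w

/-- **COUNT, `r` odd**: for a complex conjugation `cc`, `|W_E^{cc = -1}|² ≤ |W_E|`. -/
def CountOddStatement : Prop :=
  ∀ (p : ℕ) [NeZero p], p.Prime → ∀ (S : Finset ℕ) (r : ℕ), r.Prime → r ≠ 2 → r ∣ p - 1 →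
    ∃ cc : _root_.Fermat.Agent.S15.H975.Gal, cc * cc = 1 ∧ (∀ ζ : Qb, ζ ^ r = 1 → cc ζ = ζ⁻¹) ∧
      ∃ K : AddSubgroup (JZero p), (∀ w, w ∈ K ↔ w ∈ eis p (S : Set ℕ) r ∧ cc • w = -w) ∧
        Nat.card ↥K ^ 2 ≤ Nat.card ↥(eis p (S : Set ℕ) r)

/-- **LOC-r, `r = 2`** (COUNT + LOC-r-ét): the cocycles of `Y(W_E)` restricted to inertia at
(one place over) `2` take values in a subgroup `K` of `W_E` with `|K|² ≤ |W_E|`
(`K = W_E ∩ ker(reduction)`; the bound is the ordinarity of the Eisenstein part). -/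
def LocR2Statement : Prop :=
  ∀ (p : ℕ) [NeZero p], p.Prime → p ≠ 2 → ∀ (S : Finset ℕ),
    ∃ A : ValuationSubring Qb, A.LiesOverPrime 2 ∧
      ∃ K : AddSubgroup (JZero p), K ≤ eis p (S : Set ℕ) 2 ∧
        Nat.card ↥K ^ 2 ≤ Nat.card ↥(eis p (S : Set ℕ) 2) ∧
        ∀ y ∈ sel p 2 (eis p (S : Set ℕ) 2), ∀ τ ∈ A.inertiaSubgroupIn ℚ, τ • y - y ∈ K

/-- **PEU-1 on `J`** (`r` odd): on a piece with trivial Galois action the characters
`σ ↦ (σ y - y mod F')`, `y ∈ Y(F)`, are unramified at `r`. -/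
def Peu1JStatement : Prop :=
  ∀ (p : ℕ) [NeZero p], p.Prime → ∀ r : ℕ, r.Prime → r ≠ p → r ≠ 2 →
    ∀ A : ValuationSubring Qb, A.LiesOverPrime r → ∀ τ ∈ A.inertiaSubgroupIn ℚ,
    ∀ F' F : AddSubgroup (JZero p), F' ≤ F → F ≤ tors p r → IsStable p F' → IsStable p F →
      F'.relIndex F = r → (∀ σ : _root_.Fermat.Agent.S15.H975.Gal, ∀ f ∈ F, σ • f - f ∈ F') →
      ∀ y ∈ sel p r F, τ • y - y ∈ F'

/-- **PEU-ω on `J`** (all `r`, including `2`): on a piece of type `ω` (generated by `e`, with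
`ζ ↔ e`), if `a ∈ ℚˣ` is the Kummer class of `y ∈ Y(F)` (i.e. `σ α = ζ^m α` implies
`σ y - y ≡ m e mod F'`, `α^r = a`), then `r ∣ v_r(a)`. -/
def PeuOmegaJStatement : Prop :=
  ∀ (p : ℕ) [NeZero p], p.Prime → ∀ r : ℕ, r.Prime → r ≠ p →
    ∀ F' F : AddSubgroup (JZero p), F' ≤ F → F ≤ tors p r → IsStable p F' → IsStable p F →
      F'.relIndex F = r →
    ∀ ζ : Qb, IsPrimitiveRoot ζ r →
      (∀ (σ : _root_.Fermat.Agent.S15.H975.Gal) (k : ℕ), σ ζ = ζ ^ k → ∀ f ∈ F, σ • f - k • f ∈ F') →
    ∀ e ∈ F, e ∉ F' → ∀ y ∈ sel p r F, ∀ (a : ℚ) (α : Qb), a ≠ 0 →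
      α ^ r = algebraMap ℚ Qb a →
      (∀ (σ : _root_.Fermat.Agent.S15.H975.Gal) (m : ℕ), σ α = ζ ^ m * α → σ • y - y - m • e ∈ F') →
      (r : ℤ) ∣ padicValRat r a

/-! ## Level 3: flatness at `r` without Fontaine (T1 + T2) -/

/-- **T1 (HOPF-E)**: for a rational point `x = r y` the extension
`0 → J[r] → E_x → ℤ/r → 0` (class = Kummer class of `x`) has a Hopf model over `ℤ_(r)`.
Route: the A3 LOCAL assembly (`A3/H799/Asm.lean`) for the finite inertia-stable SET
`{t + j y}` with the twisted addition, then `S19.UnrStatement`, `S19.OrdStatement`. -/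
def T1Statement : Prop :=
  ∀ (p : ℕ) [NeZero p], p.Prime → ∀ r : ℕ, r.Prime → r ≠ p →
    ∀ y : JZero p, (∀ σ : _root_.Fermat.Agent.S15.H975.Gal, σ • (r • y) = r • y) →
      ∃ (M : Type) (_ : AddCommGroup M) (_ : Finite M) (act : _root_.Fermat.Agent.S15.H975.Gal → M → M)
        (ι : ↥(tors p r) →+ M) (y' : M),
        Fermat.Agent.S19.IsContAddAction act ∧ Fermat.Agent.S19.HopfModel r M act ∧
        Function.Injective ι ∧ r • y' = 0 ∧
        (∀ j : ℕ, j • y' ∈ ι.range → r ∣ j) ∧
        (∀ m : M, ∃ (j : ℕ) (w : ↥(tors p r)), m = j • y' + ι w) ∧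
        (∀ (σ : _root_.Fermat.Agent.S15.H975.Gal) (w w' : ↥(tors p r)), (w' : JZero p) = σ • (w : JZero p) →
          act σ (ι w) = ι w') ∧
        ∀ (σ : _root_.Fermat.Agent.S15.H975.Gal) (w : ↥(tors p r)), (w : JZero p) = σ • y - y → act σ y' = y' + ι w

/-- **T2-ω** (pure algebra over `ℤ_(r)`; blueprint §4 (a)-(d)): a Hopf model of an extension of
`ℤ/r` (generated by `y`) by `μ_r` (generated by `e ↔ ζ`) with Kummer class `a` forces
`r ∣ v_r(a)`. -/
def T2OmegaStatement : Prop :=
  ∀ (r : ℕ), r.Prime → ∀ (Q : Type) (_ : AddCommGroup Q) (_ : Finite Q) (act : _root_.Fermat.Agent.S15.H975.Gal → Q → Q),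
    Fermat.Agent.S19.IsContAddAction act → Fermat.Agent.S19.HopfModel r Q act →
    ∀ e y : Q, r • e = 0 → r • y = 0 → e ≠ 0 → (∀ j : ℕ, j • y ∈ AddSubgroup.zmultiples e → r ∣ j) →
      (∀ q : Q, ∃ i j : ℕ, q = i • e + j • y) →
    ∀ ζ : Qb, IsPrimitiveRoot ζ r → (∀ (σ : _root_.Fermat.Agent.S15.H975.Gal) (k : ℕ), σ ζ = ζ ^ k → act σ e = k • e) →
    ∀ (a : ℚ) (α : Qb), a ≠ 0 → α ^ r = algebraMap ℚ Qb a →
      (∀ (σ : _root_.Fermat.Agent.S15.H975.Gal) (m : ℕ), σ α = ζ ^ m * α → act σ y = y + m • e) →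
      (r : ℤ) ∣ padicValRat r a

/-- **T2-1** (pure algebra, `r` odd; blueprint §4 (e),(c)): a Hopf model of an extension of `ℤ/r`
by `ℤ/r` with trivial Galois action on the sub and the quotient is unramified at `r`. -/
def T2OneStatement : Prop :=
  ∀ (r : ℕ), r.Prime → r ≠ 2 →
    ∀ (Q : Type) (_ : AddCommGroup Q) (_ : Finite Q) (act : _root_.Fermat.Agent.S15.H975.Gal → Q → Q),
    Fermat.Agent.S19.IsContAddAction act → Fermat.Agent.S19.HopfModel r Q act →
    ∀ e y : Q, r • e = 0 → r • y = 0 → (∀ q : Q, ∃ i j : ℕ, q = i • e + j • y) →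
      (∀ σ : _root_.Fermat.Agent.S15.H975.Gal, act σ e = e) → (∀ σ : _root_.Fermat.Agent.S15.H975.Gal, ∃ m : ℕ, act σ y = y + m • e) →
    ∀ A : ValuationSubring Qb, A.LiesOverPrime r → ∀ τ ∈ A.inertiaSubgroupIn ℚ, act τ y = y

end Fermat.Agent.S15.H975

end

end
-- ===== PACK-END S15/H975/DescSpec.lean

-- ===== PACK-BEGIN S15/H208/CountInst.lean
section
/-
S15 / DESC, LOC-p without T7 (helper208): CNT-inst, abstract form.

`J` an additive group with an action of a group `G`, `A = J^G`, `M ≤ J` a `G`-stable subgroup of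
`r`-power torsion (in the application: the Eisenstein part of `J₀(p)[r^∞]`), `τ₀ ∈ G`.
`Y_E = {y : r y ∈ A, σ y - y ∈ M for all σ}`, `U₀ = (τ₀ - 1) Y_E`.

`card_tauSub_YE_sq_le` :  `|U₀|² ≤ [Y_E : A]`, provided

* (DIV)  `J = r J`,
* (PROJ) for every `k` there is a `G`-equivariant endomorphism `e` of `J` which is the identity on
         `M[r^k]` and maps `J[r^k]` into `M`,
* (T6'') `(τ₀ - 1)² h = 0` whenever `r^k h ∈ A` for some `k`,
* `A ∩ M` is finite and `[Y_E : A]` is finite.

`selfImproving` : the arithmetic which turns (SEL) + (CNT) + (COUNT) into SEL-BOUND.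
-/


set_option autoImplicit false
set_option linter.style.haveILetI false

namespace Fermat.Agent.S15.H208

section Inst

variable {J : Type*} [AddCommGroup J] (G : Type*) [Group G] [DistribMulAction G J]

/-- `τ - 1` as an additive endomorphism -/
def tauSub {G : Type*} [Group G] [DistribMulAction G J] (τ : G) : J →+ J :=
  DistribSMul.toAddMonoidHom J τ - AddMonoidHom.id J

theorem tauSub_apply {G : Type*} [Group G] [DistribMulAction G J] (τ : G) (x : J) :
    tauSub τ x = τ • x - x := rfl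

/-- the `r`-divisible hull of the rational points, `E`-part:
`{h : r^k h ∈ A for some k, σ h - h ∈ M for all σ}` -/
def hullE (r : ℕ) (M : AddSubgroup J) : AddSubgroup J where
  carrier := {h | (∃ k : ℕ, ∀ σ : G, σ • (r ^ k • h) = r ^ k • h) ∧ ∀ σ : G, σ • h - h ∈ M}
  zero_mem' := ⟨⟨0, fun σ => by simp⟩, fun σ => by simp⟩
  add_mem' := by
    rintro a b ⟨⟨k, hk⟩, ha⟩ ⟨⟨l, hl⟩, hb⟩
    refine ⟨⟨k + l, fun σ => ?_⟩, fun σ => ?_⟩
    · have h1 : r ^ (k + l) • a = r ^ l • (r ^ k • a) := by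
        rw [← mul_smul, ← pow_add, add_comm]
      have h2 : r ^ (k + l) • b = r ^ k • (r ^ l • b) := by
        rw [← mul_smul, ← pow_add]
      rw [smul_add, h1, h2, smul_add, smul_comm σ, hk σ, smul_comm σ (r ^ k), hl σ]
    · have : σ • (a + b) - (a + b) = (σ • a - a) + (σ • b - b) := by
        rw [smul_add]; abel
      rw [this]
      exact M.add_mem (ha σ) (hb σ)
  neg_mem' := by
    rintro a ⟨⟨k, hk⟩, ha⟩
    refine ⟨⟨k, fun σ => ?_⟩, fun σ => ?_⟩
    · rw [smul_neg, smul_neg, hk σ]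
    · have : σ • (-a) - (-a) = -(σ • a - a) := by
        rw [smul_neg]; abel
      rw [this]
      exact M.neg_mem (ha σ)

/-- `Y_E = {y : r y ∈ A, σ y - y ∈ M for all σ}` -/
def YE (r : ℕ) (M : AddSubgroup J) : AddSubgroup J where
  carrier := {y | (∀ σ : G, σ • (r • y) = r • y) ∧ ∀ σ : G, σ • y - y ∈ M}
  zero_mem' := ⟨fun σ => by simp, fun σ => by simp⟩
  add_mem' := by
    rintro a b ⟨hk, ha⟩ ⟨hl, hb⟩
    refine ⟨fun σ => ?_, fun σ => ?_⟩
    · rw [smul_add, smul_add, hk σ, hl σ]
    · have : σ • (a + b) - (a + b) = (σ • a - a) + (σ • b - b) := by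
        rw [smul_add]; abel
      rw [this]
      exact M.add_mem (ha σ) (hb σ)
  neg_mem' := by
    rintro a ⟨hk, ha⟩
    refine ⟨fun σ => ?_, fun σ => ?_⟩
    · rw [smul_neg, smul_neg, hk σ]
    · have : σ • (-a) - (-a) = -(σ • a - a) := by
        rw [smul_neg]; abel
      rw [this]
      exact M.neg_mem (ha σ)

variable {G}

theorem mem_hullE {r : ℕ} {M : AddSubgroup J} {h : J} :
    h ∈ hullE G r M ↔
      (∃ k : ℕ, ∀ σ : G, σ • (r ^ k • h) = r ^ k • h) ∧ ∀ σ : G, σ • h - h ∈ M := Iff.rfl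

theorem mem_YE {r : ℕ} {M : AddSubgroup J} {y : J} :
    y ∈ YE G r M ↔ (∀ σ : G, σ • (r • y) = r • y) ∧ ∀ σ : G, σ • y - y ∈ M := Iff.rfl

theorem YE_le_hullE (r : ℕ) (M : AddSubgroup J) : YE G r M ≤ hullE G r M := by
  rintro y ⟨h1, h2⟩
  exact ⟨⟨1, fun σ => by rw [pow_one]; exact h1 σ⟩, h2⟩

theorem fixed_le_YE (r : ℕ) (M : AddSubgroup J) : FixedPoints.addSubgroup G J ≤ YE G r M := by
  intro a ha
  have ha : ∀ σ : G, σ • a = a := ha
  refine ⟨fun σ => by rw [smul_comm, ha σ], fun σ => ?_⟩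
  rw [ha σ, sub_self]
  exact M.zero_mem

theorem le_hullE_of_tors (r : ℕ) (M : AddSubgroup J)
    (hMtors : ∀ x ∈ M, ∃ k : ℕ, r ^ k • x = 0) (hMG : ∀ (σ : G), ∀ x ∈ M, σ • x ∈ M) :
    M ≤ hullE G r M := by
  intro x hx
  obtain ⟨k, hk⟩ := hMtors x hx
  exact ⟨⟨k, fun σ => by rw [hk, smul_zero]⟩, fun σ => M.sub_mem (hMG σ x hx) hx⟩

/-- (DIV) + (PROJ) ⟹ the hull is `r`-divisible modulo the rational points. -/
theorem hullE_divisible (r : ℕ) (M : AddSubgroup J)
    (hDIV : ∀ x : J, ∃ y : J, r • y = x)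
    (hPROJ : ∀ k : ℕ, ∃ e : J →+ J, (∀ (σ : G) (x : J), e (σ • x) = σ • e x) ∧
      (∀ x ∈ M, r ^ k • x = 0 → e x = x) ∧ (∀ x : J, r ^ k • x = 0 → e x ∈ M))
    (h : J) (hh : h ∈ hullE G r M) :
    ∃ h' ∈ hullE G r M, r • h' - h ∈ FixedPoints.addSubgroup G J := by
  obtain ⟨⟨k, hk⟩, hM⟩ := hh
  obtain ⟨h₁, rfl⟩ := hDIV h
  obtain ⟨e, he1, he2, he3⟩ := hPROJ (k + 1)
  have hpow : ∀ x : J, r ^ (k + 1) • x = r ^ k • (r • x) := by
    intro x
    rw [← mul_smul, ← pow_succ]
  -- `σ h₁ - h₁` is killed by `r^(k+1)`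
  have hfix : ∀ σ : G, σ • (r ^ (k + 1) • h₁) = r ^ (k + 1) • h₁ := by
    intro σ
    rw [hpow, hk σ]
  have hc : ∀ σ : G, r ^ (k + 1) • (σ • h₁ - h₁) = 0 := by
    intro σ
    calc r ^ (k + 1) • (σ • h₁ - h₁) = r ^ (k + 1) • σ • h₁ - r ^ (k + 1) • h₁ := smul_sub _ _ _
      _ = σ • (r ^ (k + 1) • h₁) - r ^ (k + 1) • h₁ := by rw [smul_comm]
      _ = 0 := by rw [hfix σ, sub_self]
  have hc' : ∀ σ : G, r ^ (k + 1) • (σ • (r • h₁) - r • h₁) = 0 := by
    intro σ
    have h0 : σ • (r • h₁) - r • h₁ = r • (σ • h₁ - h₁) := by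
      rw [smul_sub, smul_comm]
    rw [h0, smul_comm, hc σ, smul_zero]
  refine ⟨e h₁, ⟨⟨k + 1, fun σ => ?_⟩, fun σ => ?_⟩, ?_⟩
  · calc σ • (r ^ (k + 1) • e h₁) = σ • e (r ^ (k + 1) • h₁) := by rw [map_nsmul]
      _ = e (σ • (r ^ (k + 1) • h₁)) := (he1 _ _).symm
      _ = e (r ^ (k + 1) • h₁) := by rw [hfix σ]
      _ = r ^ (k + 1) • e h₁ := map_nsmul _ _ _
  · rw [← he1, ← map_sub]
    exact he3 _ (hc σ)
  · show ∀ σ : G, σ • (r • e h₁ - r • h₁) = r • e h₁ - r • h₁
    intro σ
    have h1 : σ • (r • e h₁ - r • h₁) - (r • e h₁ - r • h₁)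
        = e (σ • (r • h₁) - r • h₁) - (σ • (r • h₁) - r • h₁) := by
      rw [map_sub, he1, map_nsmul, smul_sub]
      abel
    have h2 : e (σ • (r • h₁) - r • h₁) = σ • (r • h₁) - r • h₁ :=
      he2 _ (hM σ) (hc' σ)
    rw [h2, sub_self] at h1
    exact sub_eq_zero.1 h1

/-- **CNT-inst (abstract).**  `|(τ₀ - 1) Y_E|² ≤ [Y_E : A]`. -/
theorem card_tauSub_YE_sq_le (r : ℕ) (M : AddSubgroup J) (τ₀ : G)
    (hMtors : ∀ x ∈ M, ∃ k : ℕ, r ^ k • x = 0)
    (hMG : ∀ (σ : G), ∀ x ∈ M, σ • x ∈ M)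
    (hdiv : ∀ h ∈ hullE G r M, ∃ h' ∈ hullE G r M, r • h' - h ∈ FixedPoints.addSubgroup G J)
    (hT6 : ∀ h ∈ hullE G r M, τ₀ • (τ₀ • h - h) - (τ₀ • h - h) = 0)
    (hfinA : Finite ↥(FixedPoints.addSubgroup G J ⊓ M))
    (hfinY : (FixedPoints.addSubgroup G J).relIndex (YE G r M) ≠ 0) :
    Nat.card ((YE G r M).map (tauSub τ₀)) ^ 2
      ≤ (FixedPoints.addSubgroup G J).relIndex (YE G r M) := by
  classical
  set A : AddSubgroup J := FixedPoints.addSubgroup G J with hA
  set H : AddSubgroup J := hullE G r M with hH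
  set Y : AddSubgroup J := YE G r M with hY
  have hAmem : ∀ a : J, a ∈ A ↔ ∀ σ : G, σ • a = a := fun a => Iff.rfl
  have hYH : Y ≤ H := YE_le_hullE r M
  have hMH : M ≤ H := le_hullE_of_tors r M hMtors hMG
  -- the quotient `X = H / A`
  let AH : AddSubgroup H := A.addSubgroupOf H
  let π : H →+ H ⧸ AH := QuotientAddGroup.mk' AH
  have hπ : ∀ h : H, π h = 0 ↔ (h : J) ∈ A := by
    intro h
    rw [QuotientAddGroup.mk'_apply, QuotientAddGroup.eq_zero_iff]
    exact AddSubgroup.mem_addSubgroupOf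
  -- `N₀ : H → M`
  let N₀ : H →+ M :=
    { toFun := fun h => ⟨τ₀ • (h : J) - h, h.2.2 τ₀⟩
      map_zero' := by
        apply Subtype.ext
        simp
      map_add' := fun a b => by
        apply Subtype.ext
        show τ₀ • ((a : J) + b) - (a + b) = (τ₀ • (a : J) - a) + (τ₀ • (b : J) - b)
        rw [smul_add]; abel }
  have hN₀ : ∀ h : H, ((N₀ h : M) : J) = τ₀ • (h : J) - h := fun h => rfl
  have hN₀A : AH ≤ N₀.ker := by
    intro h hh
    rw [AddMonoidHom.mem_ker]
    apply Subtype.ext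
    rw [hN₀]
    have : (h : J) ∈ A := AddSubgroup.mem_addSubgroupOf.1 hh
    rw [(hAmem _).1 this τ₀, sub_self]
    rfl
  let N : H ⧸ AH →+ M := QuotientAddGroup.lift AH N₀ hN₀A
  have hNπ : ∀ h : H, N (π h) = N₀ h := fun h => rfl
  let ι : M →+ H ⧸ AH := π.comp (AddSubgroup.inclusion hMH)
  have hι : ∀ m : M, ι m = π ⟨(m : J), hMH m.2⟩ := fun m => rfl
  -- `N ∘ ι ∘ N = 0`
  have hN : ∀ x : H ⧸ AH, N (ι (N x)) = 0 := by
    intro x
    obtain ⟨h, rfl⟩ := QuotientAddGroup.mk'_surjective AH x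
    rw [hNπ, hι, hNπ]
    apply Subtype.ext
    rw [hN₀]
    exact hT6 h h.2
  -- `ker ι` is finite
  have hker : Finite ι.ker := by
    haveI := hfinA
    refine Finite.of_injective
      (fun m : ι.ker => (⟨((m : M) : J), ?_⟩ : ↥(A ⊓ M))) ?_
    · refine ⟨?_, (m : M).2⟩
      have h1 := m.2
      rw [AddMonoidHom.mem_ker, hι, hπ] at h1
      exact h1
    · intro a b hab
      apply Subtype.ext
      apply Subtype.ext
      exact congrArg (fun z : ↥(A ⊓ M) => (z : J)) hab
  -- the map `Y → X[r]`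
  have hrY : ∀ y : Y, r • π ⟨(y : J), hYH y.2⟩ = 0 := by
    intro y
    rw [← map_nsmul, hπ]
    show r • (y : J) ∈ A
    rw [hAmem]
    exact y.2.1
  let f : Y →+ torsN (H ⧸ AH) r :=
    { toFun := fun y => ⟨π ⟨(y : J), hYH y.2⟩, mem_torsN.2 (hrY y)⟩
      map_zero' := by
        apply Subtype.ext
        exact map_zero π
      map_add' := fun a b => by
        apply Subtype.ext
        exact map_add π ⟨(a : J), hYH a.2⟩ ⟨(b : J), hYH b.2⟩ }
  have hf : ∀ y : Y, ((f y : torsN (H ⧸ AH) r) : H ⧸ AH) = π ⟨(y : J), hYH y.2⟩ := fun y => rfl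
  have hfsurj : Function.Surjective f := by
    rintro ⟨x, hx⟩
    obtain ⟨h, rfl⟩ := QuotientAddGroup.mk'_surjective AH x
    have h1 : r • π h = 0 := mem_torsN.1 hx
    rw [← map_nsmul, hπ] at h1
    have h2 : (h : J) ∈ Y := by
      refine ⟨fun σ => ?_, h.2.2⟩
      exact (hAmem _).1 h1 σ
    exact ⟨⟨(h : J), h2⟩, Subtype.ext rfl⟩
  have hfker : f.ker = A.addSubgroupOf Y := by
    ext y
    rw [AddMonoidHom.mem_ker, AddSubgroup.mem_addSubgroupOf]
    constructor
    · intro h
      have := congrArg Subtype.val h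
      rw [hf] at this
      exact (hπ _).1 this
    · intro h
      apply Subtype.ext
      rw [hf]
      exact (hπ _).2 h
  have hcardX : Nat.card (torsN (H ⧸ AH) r) = A.relIndex Y := by
    have h1 := AddSubgroup.index_ker f
    rw [AddMonoidHom.range_eq_top.2 hfsurj] at h1
    rw [AddSubgroup.relIndex, ← hfker, h1]
    exact (Nat.card_congr (Equiv.Set.univ _)).symm
  have hfinX : Finite (torsN (H ⧸ AH) r) := by
    have : Nat.card (torsN (H ⧸ AH) r) ≠ 0 := by rw [hcardX]; exact hfinY
    exact (Nat.card_pos_iff.1 (Nat.pos_of_ne_zero this)).2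
  -- divisibility
  have hdivX : ∀ k : ℕ, ∀ x : H ⧸ AH, r ^ k • x = 0 →
      ∃ x' : H ⧸ AH, r ^ (k + 1) • x' = 0 ∧ r • x' = x := by
    intro k x hx
    obtain ⟨h, rfl⟩ := QuotientAddGroup.mk'_surjective AH x
    obtain ⟨h', hh', hd⟩ := hdiv h h.2
    have h2 : r • π ⟨h', hh'⟩ = π h := by
      rw [← map_nsmul, ← sub_eq_zero, ← map_sub, hπ]
      exact hd
    refine ⟨π ⟨h', hh'⟩, ?_, h2⟩
    rw [pow_succ, mul_smul, h2]
    exact hx
  -- the image
  have himg : (imgN N r).map M.subtype = Y.map (tauSub τ₀) := by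
    ext u
    constructor
    · rintro ⟨m, ⟨x, hx, rfl⟩, rfl⟩
      obtain ⟨y, hy⟩ := hfsurj ⟨x, hx⟩
      have hxy : x = π ⟨(y : J), hYH y.2⟩ := by
        have := congrArg Subtype.val hy
        rw [hf] at this
        exact this.symm
      refine ⟨(y : J), y.2, ?_⟩
      rw [hxy, hNπ]
      rfl
    · rintro ⟨y, hy, rfl⟩
      refine ⟨N₀ ⟨y, hYH hy⟩, ⟨π ⟨y, hYH hy⟩, mem_torsN.2 (hrY ⟨y, hy⟩), rfl⟩, rfl⟩
  have hcardU : Nat.card (Y.map (tauSub τ₀)) = Nat.card (imgN N r) := by
    rw [← himg]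
    exact AddSubgroup.card_map_of_injective M.subtype_injective
  rw [hcardU, ← hcardX]
  exact card_imgN_sq_le_card_tors r ι N hN hker hfinX hdivX

end Inst

/-- The self-improving arithmetic: (SEL) `a·E ≤ b·u`, (CNT) `u²·b ≤ a·w`, (COUNT) `w ≤ E²`
give SEL-BOUND `a ≤ b`.  (`a = |Y_E/(A+W_E)|`, `b = |W_E^G|`, `u = |U₀|`, `w = |W_E|`,
`E = r^(#et)`.) -/
theorem selfImproving (a b u w E : ℕ) (ha : 0 < a) (hE : 0 < E)
    (hSEL : a * E ≤ b * u) (hCNT : u ^ 2 * b ≤ a * w) (hCOUNT : w ≤ E ^ 2) : a ≤ b := by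
  by_contra hlt
  have hlt' : b < a := Nat.lt_of_not_le hlt
  have h1 : (a * E) ^ 2 ≤ (b * u) ^ 2 := Nat.pow_le_pow_left hSEL 2
  have h2 : (b * u) ^ 2 = b * (u ^ 2 * b) := by ring
  have h3 : b * (u ^ 2 * b) ≤ b * (a * w) := Nat.mul_le_mul_left _ hCNT
  have h4 : b * (a * w) ≤ b * (a * E ^ 2) := Nat.mul_le_mul_left _ (Nat.mul_le_mul_left _ hCOUNT)
  have h5 : (a * E) ^ 2 ≤ b * (a * E ^ 2) := by
    rw [h2] at h1
    exact le_trans h1 (le_trans h3 h4)
  have h6 : (a * E) ^ 2 = a * (a * E ^ 2) := by ring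
  rw [h6] at h5
  have hpos : 0 < a * E ^ 2 := Nat.mul_pos ha (pow_pos hE 2)
  exact absurd (Nat.le_of_mul_le_mul_right h5 hpos) (Nat.not_le.2 hlt')

end Fermat.Agent.S15.H208

end
-- ===== PACK-END S15/H208/CountInst.lean

-- ===== PACK-BEGIN S05/FG.lean
section



/-!
# The kernel of reduction has no prime-to-residue-characteristic torsion (S05 helper)

`K` a field with a valuation `v`, `W` a Weierstrass curve over `K` with `v`-integral coefficients.
If `P = (x, y)` is a nonsingular affine point with `n • P = 0` and `v n = 1`, then `v x ≤ 1`.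

The proof only uses `x`-coordinates: with `s = 1/x` and `s_k = 1/x(kP)` one shows by induction
`s_k ≡ k² s` modulo `{t | v t < v s}`.  No assumption on the residue characteristic (in particular
`v 2 < 1` is allowed).
-/

set_option autoImplicit false

namespace Fermat.Agent.S05.FG

open WeierstrassCurve WeierstrassCurve.Affine
open Fermat.Agent.S05.XId

variable {K : Type*} [Field K] {Γ₀ : Type*} [LinearOrderedCommGroupWithZero Γ₀]
  (v : Valuation K Γ₀)

/-- The Weierstrass curve `W` has `v`-integral coefficients. -/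
def IsIntegralAt (W : Affine K) : Prop :=
  v W.a₁ ≤ 1 ∧ v W.a₂ ≤ 1 ∧ v W.a₃ ≤ 1 ∧ v W.a₄ ≤ 1 ∧ v W.a₆ ≤ 1

lemma v_natCast_le_one (n : ℕ) : v (n : K) ≤ 1 := by
  induction n with
  | zero => simp
  | succ n ih =>
    push_cast
    exact v.map_add_le ih (by simp)

lemma v_ofNat_le_one (n : ℕ) [n.AtLeastTwo] : v (OfNat.ofNat n : K) ≤ 1 := by
  have := v_natCast_le_one v (OfNat.ofNat n)
  rwa [Nat.cast_ofNat] at this

variable {v}

lemma v_mul_le_one {a b : K} (ha : v a ≤ 1) (hb : v b ≤ 1) : v (a * b) ≤ 1 := by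
  rw [map_mul]; exact Left.mul_le_one ha hb

lemma v_pow_le_one {a : K} (ha : v a ≤ 1) (n : ℕ) : v (a ^ n) ≤ 1 := by
  rw [map_pow]; exact pow_le_one' ha n

lemma v_add_le_one {a b : K} (ha : v a ≤ 1) (hb : v b ≤ 1) : v (a + b) ≤ 1 :=
  v.map_add_le ha hb

lemma v_sub_le_one {a b : K} (ha : v a ≤ 1) (hb : v b ≤ 1) : v (a - b) ≤ 1 :=
  v.map_sub_le ha hb

lemma v_neg_le_one {a : K} (ha : v a ≤ 1) : v (-a) ≤ 1 := by
  rwa [v.map_neg]

/-- `v (a * t) < g` if `v a ≤ 1` and `v t < g`. -/
lemma v_mul_lt_left {a t : K} {g : Γ₀} (ha : v a ≤ 1) (ht : v t < g) : v (a * t) < g := by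
  rw [map_mul]; exact mul_lt_of_le_one_of_lt ha ht

lemma v_mul_lt_right {a t : K} {g : Γ₀} (ha : v a ≤ 1) (ht : v t < g) : v (t * a) < g := by
  rw [mul_comm]; exact v_mul_lt_left ha ht

/-- `v (a * t) < v t` if `v a < 1` and `t ≠ 0`. -/
lemma v_mul_lt_self {a t : K} (ha : v a < 1) (ht : t ≠ 0) : v (a * t) < v t := by
  rw [map_mul]
  exact mul_lt_of_lt_one_left (zero_lt_iff.mpr ((v.ne_zero_iff).mpr ht)) ha

lemma v_mul_lt_of_lt_one_of_le {a t : K} {g : Γ₀} (hg : g ≠ 0) (ha : v a < 1) (ht : v t ≤ g) :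
    v (a * t) < g := by
  rw [map_mul]
  calc v a * v t ≤ v a * g := by gcongr
    _ < g := mul_lt_of_lt_one_left (zero_lt_iff.mpr hg) ha

section coeffs

variable {W : Affine K} (hW : IsIntegralAt v W)
include hW

lemma v_b₂ : v W.b₂ ≤ 1 := by
  obtain ⟨h1, h2, h3, h4, h6⟩ := hW
  rw [WeierstrassCurve.b₂]
  exact v_add_le_one (v_pow_le_one h1 2) (v_mul_le_one (v_ofNat_le_one v 4) h2)

lemma v_b₄ : v W.b₄ ≤ 1 := by
  obtain ⟨h1, h2, h3, h4, h6⟩ := hW
  rw [WeierstrassCurve.b₄]
  exact v_add_le_one (v_mul_le_one (v_ofNat_le_one v 2) h4) (v_mul_le_one h1 h3)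

lemma v_b₆ : v W.b₆ ≤ 1 := by
  obtain ⟨h1, h2, h3, h4, h6⟩ := hW
  rw [WeierstrassCurve.b₆]
  exact v_add_le_one (v_pow_le_one h3 2) (v_mul_le_one (v_ofNat_le_one v 4) h6)

lemma v_b₈ : v W.b₈ ≤ 1 := by
  obtain ⟨h1, h2, h3, h4, h6⟩ := hW
  rw [WeierstrassCurve.b₈]
  refine v_sub_le_one (v_add_le_one (v_sub_le_one (v_add_le_one ?_ ?_) ?_) ?_) ?_
  · exact v_mul_le_one (v_pow_le_one h1 2) h6
  · exact v_mul_le_one (v_mul_le_one (v_ofNat_le_one v 4) h2) h6
  · exact v_mul_le_one (v_mul_le_one h1 h3) h4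
  · exact v_mul_le_one h2 (v_pow_le_one h3 2)
  · exact v_pow_le_one h4 2

end coeffs

section estimates

variable {W : Affine K} (hW : IsIntegralAt v W)
include hW

/-- Generic step: estimate for `1/x(Q+P) + 1/x(Q-P)` in terms of `s = 1/x(P)`, `s' = 1/x(Q)`. -/
lemma step_generic {s s' x₃ x₄ : K} (hs0 : s ≠ 0) (hs'0 : s' ≠ 0) (hs : v s < 1)
    (hs' : v s' ≤ v s)
    (hsum : (s'⁻¹ - s⁻¹) ^ 2 * (x₃ + x₄) = sumNum W s'⁻¹ s⁻¹)
    (hprod : (s'⁻¹ - s⁻¹) ^ 2 * (x₃ * x₄) = prodNum W s'⁻¹ s⁻¹) :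
    x₃ ≠ 0 ∧ x₄ ≠ 0 ∧ v (x₃⁻¹ + x₄⁻¹ - 2 * (s + s')) < v s := by
  have hb2 := v_b₂ hW
  have hb4 := v_b₄ hW
  have hb6 := v_b₆ hW
  have hb8 := v_b₈ hW
  have hs1 : v s ≤ 1 := hs.le
  have hs'1 : v s' ≤ 1 := hs'.trans hs1
  have hs'lt : v s' < 1 := lt_of_le_of_lt hs' hs
  have hss : v (s + s') ≤ 1 := v_add_le_one hs1 hs'1
  have h2 : v (2 : K) ≤ 1 := v_ofNat_le_one v 2
  set V : K := 1 - W.b₄ * s * s' - W.b₆ * s * s' * (s + s') - W.b₈ * (s * s') ^ 2 with hV
  set U : K := 2 * (s + s') + W.b₂ * s * s' + W.b₄ * s * s' * (s + s') + W.b₆ * (s * s') ^ 2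
    with hU
  have e1 : (s'⁻¹ - s⁻¹) ^ 2 * (s * s') ^ 2 = (s - s') ^ 2 := by
    field_simp
  have e2 : sumNum W s'⁻¹ s⁻¹ * (s * s') ^ 2 = U := by
    simp only [sumNum, hU]
    field_simp
  have e3 : prodNum W s'⁻¹ s⁻¹ * (s * s') ^ 2 = V := by
    simp only [prodNum, hV]
    field_simp
  have hsum' : (s - s') ^ 2 * (x₃ + x₄) = U := by
    rw [← e1, ← e2, ← hsum]; ring
  have hprod' : (s - s') ^ 2 * (x₃ * x₄) = V := by
    rw [← e1, ← e3, ← hprod]; ring
  -- `V` is a unit
  have hV1 : v (V - 1) < 1 := by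
    have : V - 1 = -(s' * (s * (W.b₄ + W.b₆ * (s + s') + W.b₈ * (s * s')))) := by
      simp only [hV]; ring
    rw [this, v.map_neg]
    refine v_mul_lt_right ?_ hs'lt
    exact v_mul_le_one hs1 (v_add_le_one (v_add_le_one hb4 (v_mul_le_one hb6 hss))
      (v_mul_le_one hb8 (v_mul_le_one hs1 hs'1)))
  have hVv : v V = 1 := by
    have : V = 1 + (V - 1) := by ring
    rw [this]
    exact v.map_one_add_of_lt hV1
  have hV0 : V ≠ 0 := by
    intro h
    rw [h, map_zero] at hVv
    exact zero_ne_one hVv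
  have h34 : x₃ * x₄ ≠ 0 := by
    intro h
    rw [h, mul_zero] at hprod'
    exact hV0 hprod'.symm
  have hx3 : x₃ ≠ 0 := left_ne_zero_of_mul h34
  have hx4 : x₄ ≠ 0 := right_ne_zero_of_mul h34
  refine ⟨hx3, hx4, ?_⟩
  have key : (x₃⁻¹ + x₄⁻¹ - 2 * (s + s')) * V = U - 2 * (s + s') * V := by
    have : (x₃⁻¹ + x₄⁻¹) * V = U := by
      rw [← hprod', ← hsum']
      field_simp
      ring
    rw [sub_mul, this]
  have hR : U - 2 * (s + s') * V = s' * (s * (W.b₂ + W.b₄ * (s + s') + W.b₆ * (s * s') +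
      2 * (s + s') * (W.b₄ + W.b₆ * (s + s') + W.b₈ * (s * s')))) := by
    simp only [hU, hV]; ring
  have hRv : v (U - 2 * (s + s') * V) < v s := by
    rw [hR]
    refine v_mul_lt_of_lt_one_of_le ((v.ne_zero_iff).mpr hs0) hs'lt ?_
    rw [map_mul]
    refine mul_le_of_le_one_right' ?_
    refine v_add_le_one (v_add_le_one (v_add_le_one hb2 (v_mul_le_one hb4 hss))
      (v_mul_le_one hb6 (v_mul_le_one hs1 hs'1))) ?_
    exact v_mul_le_one (v_mul_le_one h2 hss) (v_add_le_one (v_add_le_one hb4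
      (v_mul_le_one hb6 hss)) (v_mul_le_one hb8 (v_mul_le_one hs1 hs'1)))
  have : v ((x₃⁻¹ + x₄⁻¹ - 2 * (s + s')) * V) < v s := by rw [key]; exact hRv
  rwa [map_mul, hVv, mul_one] at this

/-- Duplication step. -/
lemma step_dbl {s x' : K} (hs0 : s ≠ 0) (hs : v s < 1)
    (h : x' * dblDen W s⁻¹ = dblNum W s⁻¹) :
    x' ≠ 0 ∧ v (x'⁻¹ - 4 * s) < v s := by
  have hb2 := v_b₂ hW
  have hb4 := v_b₄ hW
  have hb6 := v_b₆ hW
  have hb8 := v_b₈ hW
  have hs1 : v s ≤ 1 := hs.le
  have h2 : v (2 : K) ≤ 1 := v_ofNat_le_one v 2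
  have h4 : v (4 : K) ≤ 1 := v_ofNat_le_one v 4
  set V : K := 1 - W.b₄ * s ^ 2 - 2 * W.b₆ * s ^ 3 - W.b₈ * s ^ 4 with hV
  set U : K := 4 * s + W.b₂ * s ^ 2 + 2 * W.b₄ * s ^ 3 + W.b₆ * s ^ 4 with hU
  have e2 : dblDen W s⁻¹ * s ^ 4 = U := by
    simp only [dblDen, hU]
    field_simp
  have e3 : dblNum W s⁻¹ * s ^ 4 = V := by
    simp only [dblNum, hV]
    field_simp
  have h' : x' * U = V := by
    rw [← e2, ← e3, ← h]; ring
  have hV1 : v (V - 1) < 1 := by
    have : V - 1 = -(s * (s * (W.b₄ + 2 * W.b₆ * s + W.b₈ * s ^ 2))) := by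
      simp only [hV]; ring
    rw [this, v.map_neg]
    refine v_mul_lt_right ?_ hs
    exact v_mul_le_one hs1 (v_add_le_one (v_add_le_one hb4 (v_mul_le_one (v_mul_le_one h2 hb6) hs1))
      (v_mul_le_one hb8 (v_pow_le_one hs1 2)))
  have hVv : v V = 1 := by
    have : V = 1 + (V - 1) := by ring
    rw [this]
    exact v.map_one_add_of_lt hV1
  have hV0 : V ≠ 0 := by
    intro h
    rw [h, map_zero] at hVv
    exact zero_ne_one hVv
  have hxU : x' * U ≠ 0 := by rw [h']; exact hV0
  have hx' : x' ≠ 0 := left_ne_zero_of_mul hxU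
  have hU0 : U ≠ 0 := right_ne_zero_of_mul hxU
  refine ⟨hx', ?_⟩
  have key : (x'⁻¹ - 4 * s) * V = U - 4 * s * V := by
    have : x'⁻¹ * V = U := by
      rw [← h']; field_simp
    rw [sub_mul, this]
  have hR : U - 4 * s * V = s * (s * (W.b₂ + 2 * W.b₄ * s + W.b₆ * s ^ 2 +
      4 * (W.b₄ * s + 2 * W.b₆ * s ^ 2 + W.b₈ * s ^ 3))) := by
    simp only [hU, hV]; ring
  have hRv : v (U - 4 * s * V) < v s := by
    rw [hR]
    refine v_mul_lt_of_lt_one_of_le ((v.ne_zero_iff).mpr hs0) hs ?_
    rw [map_mul]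
    refine mul_le_of_le_one_right' ?_
    refine v_add_le_one (v_add_le_one (v_add_le_one hb2 (v_mul_le_one (v_mul_le_one h2 hb4) hs1))
      (v_mul_le_one hb6 (v_pow_le_one hs1 2))) ?_
    exact v_mul_le_one h4 (v_add_le_one (v_add_le_one (v_mul_le_one hb4 hs1)
      (v_mul_le_one (v_mul_le_one h2 hb6) (v_pow_le_one hs1 2)))
      (v_mul_le_one hb8 (v_pow_le_one hs1 3)))
  have : v ((x'⁻¹ - 4 * s) * V) < v s := by rw [key]; exact hRv
  rwa [map_mul, hVv, mul_one] at this

/-- If `P = (1/s, y)` is 2-torsion and in the kernel of reduction then `v 2 < 1`. -/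
lemma v_two_lt_one_of_dblDen_eq_zero {s : K} (hs0 : s ≠ 0) (hs : v s < 1)
    (h : dblDen W s⁻¹ = 0) : v (2 : K) < 1 := by
  have hb2 := v_b₂ hW
  have hb4 := v_b₄ hW
  have hb6 := v_b₆ hW
  have hs1 : v s ≤ 1 := hs.le
  have h2 : v (2 : K) ≤ 1 := v_ofNat_le_one v 2
  have e2 : dblDen W s⁻¹ * s ^ 3 = 4 + W.b₂ * s + 2 * W.b₄ * s ^ 2 + W.b₆ * s ^ 3 := by
    simp only [dblDen]
    field_simp
  rw [h, zero_mul] at e2
  have h4 : (4 : K) = -(s * (W.b₂ + 2 * W.b₄ * s + W.b₆ * s ^ 2)) := by
    linear_combination -e2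
  have hv4 : v (4 : K) < 1 := by
    rw [h4, v.map_neg]
    refine v_mul_lt_right ?_ hs
    exact v_add_le_one (v_add_le_one hb2 (v_mul_le_one (v_mul_le_one h2 hb4) hs1))
      (v_mul_le_one hb6 (v_pow_le_one hs1 2))
  by_contra hcon
  have h21 : v (2 : K) = 1 := le_antisymm h2 (not_lt.mp hcon)
  have : v (4 : K) = 1 := by
    have : (4 : K) = 2 * 2 := by norm_num
    rw [this, map_mul, h21, mul_one]
  rw [this] at hv4
  exact lt_irrefl _ hv4

end estimates

section main

variable [DecidableEq K] {W : Affine K}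

/-- The induction predicate: either `k • P = 0` and `v k < 1`, or `k • P = (xk, yk)` with
`1/xk ≡ k² s` modulo elements of valuation `< v s`. -/
def Good (v : Valuation K Γ₀) (W : Affine K) (P : W.Point) (s : K) (k : ℕ) : Prop :=
  (k • P = 0 ∧ v (k : K) < 1) ∨
  ∃ (xk yk : K) (hk : W.Nonsingular xk yk), k • P = Point.some xk yk hk ∧ xk ≠ 0 ∧
    v (xk⁻¹ - (k : K) ^ 2 * s) < v s

theorem good_all (hW : IsIntegralAt v W) {x y : K} (h : W.Nonsingular x y) (hx : 1 < v x)
    (k : ℕ) :
    Good v W (Point.some x y h) x⁻¹ k ∧ Good v W (Point.some x y h) x⁻¹ (k + 1) := by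
  have hx0 : x ≠ 0 := by
    rintro rfl
    rw [map_zero] at hx
    exact not_lt_zero hx
  have hs0 : x⁻¹ ≠ 0 := inv_ne_zero hx0
  have hs : v x⁻¹ < 1 := by
    rw [map_inv₀]; exact inv_lt_one_of_one_lt₀ hx
  have hvs0 : v x⁻¹ ≠ 0 := (v.ne_zero_iff).mpr hs0
  have hvspos : 0 < v x⁻¹ := zero_lt_iff.mpr hvs0
  have h2 : v (2 : K) ≤ 1 := v_ofNat_le_one v 2
  induction k with
  | zero =>
    refine ⟨Or.inl ⟨zero_nsmul _, by simp⟩, Or.inr ⟨x, y, h, one_nsmul _, hx0, ?_⟩⟩
    simpa using hvspos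
  | succ j ih =>
    obtain ⟨gj, gj1⟩ := ih
    refine ⟨gj1, ?_⟩
    have e1 : (j + 1 + 1) • Point.some x y h = (j + 1) • Point.some x y h + Point.some x y h :=
      succ_nsmul _ (j + 1)
    have e0 : (j + 1) • Point.some x y h = j • Point.some x y h + Point.some x y h :=
      succ_nsmul _ j
    rcases gj1 with ⟨hQ0, hvk⟩ | ⟨xk, yk, hk, hQ, hxk0, hvk⟩
    · -- `(j+1) P = 0`
      refine Or.inr ⟨x, y, h, by rw [e1, hQ0, zero_add], hx0, ?_⟩
      have : x⁻¹ - ((j + 1 + 1 : ℕ) : K) ^ 2 * x⁻¹ =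
          -(((j + 1 : ℕ) : K) * ((((j + 3 : ℕ) : K)) * x⁻¹)) := by
        push_cast; ring
      rw [this, v.map_neg]
      refine v_mul_lt_of_lt_one_of_le hvs0 hvk ?_
      rw [map_mul]
      exact mul_le_of_le_one_left' (v_natCast_le_one v _)
    · by_cases hxk : xk = x
      · subst hxk
        by_cases hyy : yk = y
        · -- `(j+1) P = P`
          subst hyy
          have hj0 : j • Point.some xk yk h = 0 := by
            have := e0
            rw [hQ] at this
            exact add_eq_right.mp this.symm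
          have hvj : v (j : K) < 1 := by
            rcases gj with ⟨-, hvj⟩ | ⟨xj, yj, hj, hjP, -, -⟩
            · exact hvj
            · rw [hj0] at hjP
              exact absurd hjP.symm (Point.some_ne_zero hj)
          by_cases hy2 : yk = W.negY xk yk
          · -- `2P = 0`
            refine Or.inl ⟨by rw [e1, hQ]; exact Point.add_self_of_Y_eq hy2, ?_⟩
            have hd := dblDen_eq_zero_of_Y_eq h.1 hy2
            have h2lt := v_two_lt_one_of_dblDen_eq_zero hW hs0 hs (by rwa [inv_inv])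
            push_cast
            have : (j : K) + 1 + 1 = j + 2 := by ring
            rw [this]
            exact v.map_add_lt hvj h2lt
          · obtain ⟨x', y', h', hPP, hdbl, -⟩ := add_self_some h hy2
            obtain ⟨hx'0, hvx'⟩ := step_dbl hW hs0 hs (x' := x') (by rwa [inv_inv])
            refine Or.inr ⟨x', y', h', by rw [e1, hQ]; exact hPP, hx'0, ?_⟩
            have : x'⁻¹ - ((j + 1 + 1 : ℕ) : K) ^ 2 * xk⁻¹ =
                (x'⁻¹ - 4 * xk⁻¹) - (j : K) * ((((j + 4 : ℕ) : K)) * xk⁻¹) := by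
              push_cast; ring
            rw [this]
            refine v.map_sub_lt hvx' (v_mul_lt_of_lt_one_of_le hvs0 hvj ?_)
            rw [map_mul]
            exact mul_le_of_le_one_left' (v_natCast_le_one v _)
        · -- `(j+1) P = -P ≠ P`
          have hy : yk = W.negY xk y := (Y_eq_of_X_eq hk.1 h.1 rfl).resolve_left hyy
          have hy2 : y ≠ W.negY xk y := fun hcon => hyy (hy.trans hcon.symm)
          refine Or.inl ⟨by rw [e1, hQ]; exact Point.add_of_Y_eq rfl hy, ?_⟩
          obtain ⟨x', y', h', hPP, hdbl, -⟩ := add_self_some h hy2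
          obtain ⟨hx'0, hvx'⟩ := step_dbl hW hs0 hs (x' := x') (by rwa [inv_inv])
          -- `j P = -(2P)`
          have hQneg : Point.some xk yk hk = -Point.some xk y h := by
            rw [Point.neg_some]
            congr 1
          have hjP' : j • Point.some xk y h = -Point.some x' y' h' := by
            have : j • Point.some xk y h = (j + 1) • Point.some xk y h - Point.some xk y h :=
              eq_sub_of_add_eq e0.symm
            rw [this, hQ, hQneg, ← hPP]
            abel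
          rw [Point.neg_some] at hjP'
          have hvj2 : v (x'⁻¹ - (j : K) ^ 2 * xk⁻¹) < v xk⁻¹ := by
            rcases gj with ⟨hj0, -⟩ | ⟨xj, yj, hj, hjP, -, hvj⟩
            · rw [hj0] at hjP'
              exact absurd hjP' (Point.some_ne_zero _).symm
            · rw [hjP'] at hjP
              have hxx : x' = xj := (Point.some.inj hjP).1
              rw [hxx]
              exact hvj
          -- `v (j * (j+2)) < 1`
          have hA : v ((j : K) * ((j : K) + 2)) < 1 := by
            have e : xk⁻¹ - ((j + 1 : ℕ) : K) ^ 2 * xk⁻¹ = -(((j : K) * ((j : K) + 2)) * xk⁻¹) := by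
              push_cast; ring
            rw [e, v.map_neg, map_mul] at hvk
            by_contra hcon
            exact absurd hvk (not_lt.mpr (le_mul_of_one_le_left' (not_lt.mp hcon)))
          -- `v ((j-2) * (j+2)) < 1`
          have hB : v (((j : K) - 2) * ((j : K) + 2)) < 1 := by
            have e : (((j : K) - 2) * ((j : K) + 2)) * xk⁻¹ =
                (x'⁻¹ - 4 * xk⁻¹) - (x'⁻¹ - (j : K) ^ 2 * xk⁻¹) := by ring
            have hlt : v ((((j : K) - 2) * ((j : K) + 2)) * xk⁻¹) < v xk⁻¹ := by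
              rw [e]; exact v.map_sub_lt hvx' hvj2
            rw [map_mul] at hlt
            by_contra hcon
            exact absurd hlt (not_lt.mpr (le_mul_of_one_le_left' (not_lt.mp hcon)))
          have hle : v ((j : K) + 2) ≤ 1 := v_add_le_one (v_natCast_le_one v j) h2
          push_cast
          have e12 : (j : K) + 1 + 1 = j + 2 := by ring
          rw [e12]
          by_contra hcon
          have h1 : v ((j : K) + 2) = 1 := le_antisymm hle (not_lt.mp hcon)
          rw [map_mul, h1, mul_one] at hA hB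
          have h2lt : v (2 : K) < 1 := by
            have : (2 : K) = (j : K) - ((j : K) - 2) := by ring
            rw [this]
            exact v.map_sub_lt hA hB
          exact hcon (v.map_add_lt hA h2lt)
      · -- generic case
        obtain ⟨x₃, y₃, x₄, y₄, h₃, h₄, hadd, hsub, hsum, hprod⟩ := add_sub_some hk h hxk
        have hjP' : j • Point.some x y h = Point.some x₄ y₄ h₄ := by
          have : j • Point.some x y h = (j + 1) • Point.some x y h - Point.some x y h :=
            eq_sub_of_add_eq e0.symm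
          rw [this, hQ, hsub]
        have hvj : v (x₄⁻¹ - (j : K) ^ 2 * x⁻¹) < v x⁻¹ := by
          rcases gj with ⟨hj0, -⟩ | ⟨xj, yj, hj, hjP, -, hvj⟩
          · rw [hj0] at hjP'
            exact absurd hjP' (Point.some_ne_zero _).symm
          · rw [hjP'] at hjP
            have hxx : x₄ = xj := (Point.some.inj hjP).1
            rw [hxx]
            exact hvj
        have hs' : v xk⁻¹ ≤ v x⁻¹ := by
          have e : xk⁻¹ = (xk⁻¹ - ((j + 1 : ℕ) : K) ^ 2 * x⁻¹) + ((j + 1 : ℕ) : K) ^ 2 * x⁻¹ := by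
            ring
          rw [e]
          refine v.map_add_le hvk.le ?_
          rw [map_mul]
          exact mul_le_of_le_one_left' (v_pow_le_one (v_natCast_le_one v _) 2)
        obtain ⟨hx₃0, -, hv34⟩ := step_generic hW (s := x⁻¹) (s' := xk⁻¹) (x₃ := x₃) (x₄ := x₄)
          hs0 (inv_ne_zero hxk0) hs hs' (by rwa [inv_inv, inv_inv]) (by rwa [inv_inv, inv_inv])
        refine Or.inr ⟨x₃, y₃, h₃, by rw [e1, hQ]; exact hadd, hx₃0, ?_⟩
        have e : x₃⁻¹ - ((j + 1 + 1 : ℕ) : K) ^ 2 * x⁻¹ =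
            (x₃⁻¹ + x₄⁻¹ - 2 * (x⁻¹ + xk⁻¹)) - (x₄⁻¹ - (j : K) ^ 2 * x⁻¹) +
              2 * (xk⁻¹ - ((j + 1 : ℕ) : K) ^ 2 * x⁻¹) := by
          push_cast; ring
        rw [e]
        exact v.map_add_lt (v.map_sub_lt hv34 hvj) (v_mul_lt_left h2 hvk)

/-- **No torsion in the kernel of reduction.** If `W` has `v`-integral coefficients, `n` is a
`v`-unit and `n • (x, y) = 0`, then `x` is `v`-integral. -/
theorem v_x_le_one_of_nsmul_eq_zero (hW : IsIntegralAt v W) {x y : K} (h : W.Nonsingular x y)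
    {n : ℕ} (hn : v (n : K) = 1) (hP : n • Point.some x y h = 0) : v x ≤ 1 := by
  by_contra hx
  rcases (good_all hW h (not_le.mp hx) n).1 with ⟨-, hlt⟩ | ⟨xk, yk, hk, hkP, -, -⟩
  · rw [hn] at hlt
    exact lt_irrefl _ hlt
  · rw [hP] at hkP
    exact Point.some_ne_zero hk hkP.symm

/-- Point form of `v_x_le_one_of_nsmul_eq_zero`. -/
theorem eq_zero_or_v_x_le_one_of_nsmul_eq_zero (hW : IsIntegralAt v W) (P : W.Point)
    {n : ℕ} (hn : v (n : K) = 1) (hP : n • P = 0) :
    P = 0 ∨ ∃ (x y : K) (h : W.Nonsingular x y), P = Point.some x y h ∧ v x ≤ 1 := by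
  rcases P with _ | ⟨x, y, h⟩
  · exact Or.inl rfl
  · exact Or.inr ⟨x, y, h, rfl, v_x_le_one_of_nsmul_eq_zero hW h hn hP⟩

/-- A point in the kernel of reduction (`1 < v x`) killed by a `v`-unit integer does not exist. -/
theorem nsmul_ne_zero_of_one_lt_v_x (hW : IsIntegralAt v W) {x y : K} (h : W.Nonsingular x y)
    (hx : 1 < v x) {n : ℕ} (hn : v (n : K) = 1) : n • Point.some x y h ≠ 0 := fun hP =>
  absurd (v_x_le_one_of_nsmul_eq_zero hW h hn hP) (not_le.mpr hx)

/-- Integer-multiple version. -/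
theorem v_x_le_one_of_zsmul_eq_zero (hW : IsIntegralAt v W) {x y : K} (h : W.Nonsingular x y)
    {n : ℕ} (hn : v (n : K) = 1) (hP : (n : ℤ) • Point.some x y h = 0) : v x ≤ 1 :=
  v_x_le_one_of_nsmul_eq_zero hW h hn (by rwa [natCast_zsmul] at hP)

omit [DecidableEq K] in
/-- The `y`-coordinate of an affine point with `v`-integral `x`-coordinate is `v`-integral. -/
theorem v_y_le_one_of_v_x_le_one (hW : IsIntegralAt v W) {x y : K} (h : W.Equation x y)
    (hx : v x ≤ 1) : v y ≤ 1 := by
  obtain ⟨h1, h2, h3, h4, h6⟩ := hW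
  rw [Affine.equation_iff] at h
  by_contra hy
  have hy1 : 1 < v y := not_le.mp hy
  have hy0 : v y ≠ 0 := (zero_lt_one.trans hy1).ne'
  -- `y² = -(a₁ x + a₃) y + (x³ + a₂ x² + a₄ x + a₆)`, so `v y ^ 2 ≤ v y`
  have e : y ^ 2 = -((W.a₁ * x + W.a₃) * y) + (x ^ 3 + W.a₂ * x ^ 2 + W.a₄ * x + W.a₆) := by
    linear_combination h
  have hA : v ((W.a₁ * x + W.a₃) * y) ≤ v y := by
    rw [map_mul]
    exact mul_le_of_le_one_left' (v_add_le_one (v_mul_le_one h1 hx) h3)
  have hB : v (x ^ 3 + W.a₂ * x ^ 2 + W.a₄ * x + W.a₆) ≤ v y :=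
    (v_add_le_one (v_add_le_one (v_add_le_one (v_pow_le_one hx 3)
      (v_mul_le_one h2 (v_pow_le_one hx 2))) (v_mul_le_one h4 hx)) h6).trans hy1.le
  have hle : v (y ^ 2) ≤ v y := by
    rw [e]
    exact v.map_add_le (by rwa [v.map_neg]) hB
  rw [map_pow, sq] at hle
  have : v y * v y ≤ 1 * v y := by rwa [one_mul]
  have := le_of_mul_le_mul_right this (zero_lt_iff.mpr hy0)
  exact hy this

end main

section subring

variable {K : Type*} [Field K] [DecidableEq K] {W : Affine K}

/-- `ValuationSubring` form: if the coefficients of `W` lie in `A`, the natural number `n` is a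
unit of `A` (i.e. `(n : K) ∉ A.nonunits`), and `n • (x, y) = 0`, then `x ∈ A` and `y ∈ A`. -/
theorem mem_of_nsmul_eq_zero (A : ValuationSubring K)
    (h₁ : W.a₁ ∈ A) (h₂ : W.a₂ ∈ A) (h₃ : W.a₃ ∈ A) (h₄ : W.a₄ ∈ A) (h₆ : W.a₆ ∈ A)
    {x y : K} (h : W.Nonsingular x y) {n : ℕ} (hn : (n : K) ∉ A.nonunits)
    (hP : n • Point.some x y h = 0) : x ∈ A ∧ y ∈ A := by
  have hW : IsIntegralAt A.valuation W :=
    ⟨(A.valuation_le_one_iff _).mpr h₁, (A.valuation_le_one_iff _).mpr h₂,
      (A.valuation_le_one_iff _).mpr h₃, (A.valuation_le_one_iff _).mpr h₄,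
      (A.valuation_le_one_iff _).mpr h₆⟩
  have hn1 : A.valuation (n : K) = 1 := by
    refine le_antisymm (v_natCast_le_one _ n) (not_lt.mp ?_)
    rwa [← ValuationSubring.mem_nonunits_iff]
  have hx := v_x_le_one_of_nsmul_eq_zero hW h hn1 hP
  exact ⟨(A.valuation_le_one_iff _).mp hx,
    (A.valuation_le_one_iff _).mp (v_y_le_one_of_v_x_le_one hW h.1 hx)⟩

end subring

end Fermat.Agent.S05.FG

end
-- ===== PACK-END S05/FG.lean

-- ===== PACK-BEGIN S05/C1b.lean
section



/-!
# (C1b): the kernel of reduction `E₁` has no `n`-torsion for `n` a `v`-unit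

Adapter exposing `Fermat.Agent.S05.FG` in the shared vocabulary of
`Fermat.Agent.S05.SameRed` (`IntegralCoeffs`, `InKer`).
-/

set_option autoImplicit false

namespace Fermat.Agent.S05.C1b

open WeierstrassCurve WeierstrassCurve.Affine
open Fermat.Agent.S05

variable {K : Type*} [Field K] [DecidableEq K]
  {Γ₀ : Type*} [LinearOrderedCommGroupWithZero Γ₀]
  {W : Affine K} {v : Valuation K Γ₀}

omit [DecidableEq K] in
lemma isIntegralAt_of_integralCoeffs (hW : SameRed.IntegralCoeffs W v) : FG.IsIntegralAt v W :=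
  ⟨hW.a₁, hW.a₂, hW.a₃, hW.a₄, hW.a₆⟩

/-- **(C1b)** `E₁` has no `n`-torsion when `v n = 1` (no hypothesis on `v 2`, `n` arbitrary). -/
theorem eq_zero_of_inKer_of_nsmul_eq_zero (hW : SameRed.IntegralCoeffs W v) (n : ℕ)
    (hn : v (n : K) = 1) (P : W.Point) (hP : SameRed.InKer W v P) (h : n • P = 0) : P = 0 := by
  rcases P with _ | ⟨x, y, hxy⟩
  · rfl
  · exact absurd (FG.v_x_le_one_of_nsmul_eq_zero (isIntegralAt_of_integralCoeffs hW) hxy hn h)
      (not_le.mpr hP)

/-- Integer-multiple form of (C1b), as consumed by `GoodRed`. -/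
theorem eq_zero_of_inKer_of_zsmul_eq_zero (hW : SameRed.IntegralCoeffs W v) (n : ℕ)
    (hn : v (n : K) = 1) (P : W.Point) (hP : SameRed.InKer W v P) (h : (n : ℤ) • P = 0) :
    P = 0 :=
  eq_zero_of_inKer_of_nsmul_eq_zero hW n hn P hP (by rwa [natCast_zsmul] at h)

/-- A torsion point of order prime to the residue characteristic is integral. -/
theorem val_x_le_one_of_nsmul_eq_zero (hW : SameRed.IntegralCoeffs W v) {n : ℕ}
    (hn : v (n : K) = 1) {x y : K} (hxy : W.Nonsingular x y) (h : n • Point.some x y hxy = 0) :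
    v x ≤ 1 ∧ v y ≤ 1 := by
  have hx := FG.v_x_le_one_of_nsmul_eq_zero (isIntegralAt_of_integralCoeffs hW) hxy hn h
  exact ⟨hx, FG.v_y_le_one_of_v_x_le_one (isIntegralAt_of_integralCoeffs hW) hxy.1 hx⟩

end Fermat.Agent.S05.C1b

end
-- ===== PACK-END S05/C1b.lean

-- ===== PACK-BEGIN S54/FrobExists.lean
section




set_option autoImplicit false

namespace Fermat.Agent.S54

open scoped Pointwise

/-- The prime of the ring of algebraic integers below a valuation subring. -/
def primeBelow (A : ValuationSubring (AlgebraicClosure ℚ)) :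
    Ideal (integralClosure ℤ (AlgebraicClosure ℚ)) where
  carrier := {b | (b : AlgebraicClosure ℚ) ∈ A.nonunits}
  add_mem' := fun {a b} ha hb => A.nonunits.add_mem ha hb
  zero_mem' := A.nonunits.zero_mem
  smul_mem' := fun c b hb => by
    obtain ⟨hb1, hb2⟩ := ValuationSubring.mem_nonunits_iff_exists_mem_maximalIdeal.mp hb
    have hc : (c : AlgebraicClosure ℚ) ∈ A := isIntegral_mem_valuationSubring A c.2
    have := Ideal.mul_mem_left _ (⟨c, hc⟩ : A) hb2
    exact ValuationSubring.mem_nonunits_iff_exists_mem_maximalIdeal.mpr ⟨_, this⟩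

theorem mem_primeBelow (A : ValuationSubring (AlgebraicClosure ℚ))
    (b : integralClosure ℤ (AlgebraicClosure ℚ)) :
    b ∈ primeBelow A ↔ (b : AlgebraicClosure ℚ) ∈ A.nonunits := Iff.rfl

theorem primeBelow_isPrime (A : ValuationSubring (AlgebraicClosure ℚ)) :
    (primeBelow A).IsPrime := by
  constructor
  · intro h
    have : (1 : integralClosure ℤ (AlgebraicClosure ℚ)) ∈ primeBelow A := by
      rw [h]; trivial
    rw [mem_primeBelow, ValuationSubring.mem_nonunits_iff] at this
    simp at this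
  · intro a b hab
    rw [mem_primeBelow, ValuationSubring.mem_nonunits_iff] at hab ⊢
    rw [mem_primeBelow, ValuationSubring.mem_nonunits_iff]
    have ha : A.valuation (a : AlgebraicClosure ℚ) ≤ 1 :=
      (A.valuation_le_one_iff _).mpr (isIntegral_mem_valuationSubring A a.2)
    have hb : A.valuation (b : AlgebraicClosure ℚ) ≤ 1 :=
      (A.valuation_le_one_iff _).mpr (isIntegral_mem_valuationSubring A b.2)
    by_contra hcon
    rw [not_or, not_lt, not_lt] at hcon
    have ha1 : A.valuation (a : AlgebraicClosure ℚ) = 1 := le_antisymm ha hcon.1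
    have hb1 : A.valuation (b : AlgebraicClosure ℚ) = 1 := le_antisymm hb hcon.2
    have : A.valuation ((a * b : integralClosure ℤ (AlgebraicClosure ℚ)) : AlgebraicClosure ℚ)
        = 1 := by
      push_cast
      rw [map_mul, ha1, hb1, mul_one]
    exact absurd hab (by rw [this]; exact lt_irrefl _)

/-- There is a valuation subring of `ℚ̄` over every prime number. -/
theorem exists_valuationSubring_liesOver (ℓ : ℕ) (hℓ : ℓ.Prime) :
    ∃ A : ValuationSubring (AlgebraicClosure ℚ), A.LiesOverPrime ℓ := by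
  let A₀ : Subring (AlgebraicClosure ℚ) := (algebraMap ℤ (AlgebraicClosure ℚ)).range
  let l₀ : A₀ := ⟨(ℓ : AlgebraicClosure ℚ), ⟨(ℓ : ℤ), by simp⟩⟩
  have hI : Ideal.span {l₀} ≠ ⊤ := by
    intro h
    rw [Ideal.span_singleton_eq_top] at h
    obtain ⟨⟨m, n, rfl⟩, hm⟩ := h.exists_right_inv
    have h1 : ((ℓ : ℤ) : AlgebraicClosure ℚ) * ((n : ℤ) : AlgebraicClosure ℚ) = 1 := by
      have := congrArg Subtype.val hm
      simpa [l₀] using this
    have h2 : (ℓ : ℤ) * n = 1 := by exact_mod_cast h1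
    have h3 : (ℓ : ℤ) ∣ 1 := ⟨n, h2.symm⟩
    have h4 : ℓ ∣ 1 := by exact_mod_cast h3
    exact hℓ.one_lt.ne' (Nat.dvd_one.mp h4)
  obtain ⟨A, -, hA⟩ := Ideal.image_subset_nonunits_valuationSubring _ hI
  refine ⟨A, ?_⟩
  apply hA
  exact ⟨l₀, Ideal.subset_span rfl, rfl⟩

/-- Existence of Frobenius elements in the absolute Galois group of `ℚ`: for every prime
number `ℓ` there are a valuation subring `A` of `ℚ̄` over `ℓ` and `σ ∈ Gal(ℚ̄/ℚ)` which is a
Frobenius element at `A`. -/
theorem exists_frobenius (ℓ : ℕ) (hℓ : ℓ.Prime) :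
    ∃ (A : ValuationSubring (AlgebraicClosure ℚ))
      (σ : AlgebraicClosure ℚ ≃ₐ[ℚ] AlgebraicClosure ℚ),
      A.LiesOverPrime ℓ ∧ A.IsFrobeniusAt σ ℓ := by
  have : Algebra.IsAlgebraic ℚ (AlgebraicClosure ℚ) := AlgebraicClosure.isAlgebraic ℚ
  obtain ⟨A, hA⟩ := exists_valuationSubring_liesOver ℓ hℓ
  have := primeBelow_isPrime A
  have hℓQ : (ℓ : integralClosure ℤ (AlgebraicClosure ℚ)) ∈ primeBelow A := by
    rw [mem_primeBelow]
    exact hA
  obtain ⟨σ, hσQ', hσF⟩ := exists_frob_integralClosure ℓ hℓ (primeBelow A) hℓQ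
  have hσQ : ∀ x, σ • x ∈ primeBelow A ↔ x ∈ primeBelow A := by
    intro x
    conv_lhs => rw [← hσQ']
    exact Ideal.smul_mem_pointwise_smul_iff
  have key : ∀ τ : AlgebraicClosure ℚ ≃ₐ[ℚ] AlgebraicClosure ℚ,
      (∀ x, τ • x ∈ primeBelow A ↔ x ∈ primeBelow A) → ∀ x ∈ A, τ x ∈ A := by
    intro τ hτ x hx
    obtain ⟨b, s, hb, hs, hsA, hxs⟩ := (mem_valuationSubring_iff A ℓ hℓ hA x).mp hx
    refine (mem_valuationSubring_iff A ℓ hℓ hA (τ x)).mpr
      ⟨τ b, τ s, hb.map τ, hs.map τ, ?_, ?_⟩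
    · exact (hτ ⟨s, hs⟩).not.mpr hsA
    · rw [← map_mul, hxs]
  have hσA : σ ∈ A.decompositionSubgroup ℚ := by
    rw [MulAction.mem_stabilizer_iff]
    ext x
    rw [ValuationSubring.mem_smul_pointwise_iff_exists]
    constructor
    · rintro ⟨s, hs, rfl⟩
      exact key σ hσQ s hs
    · intro hx
      refine ⟨σ⁻¹ • x, key σ⁻¹ ?_ x hx, by simp⟩
      intro y
      rw [← hσQ (σ⁻¹ • y)]
      simp
  refine ⟨A, σ, hA, hσA, ?_⟩
  intro x
  obtain ⟨a, rfl⟩ := IsLocalRing.residue_surjective x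
  obtain ⟨b, s, hb, hs, hsA, hxs⟩ := (mem_valuationSubring_iff A ℓ hℓ hA a).mp a.2
  have hbA : b ∈ A := isIntegral_mem_valuationSubring A hb
  have hsA' : s ∈ A := isIntegral_mem_valuationSubring A hs
  have hint : ∀ (y : AlgebraicClosure ℚ) (hy : IsIntegral ℤ y),
      (⟨σ, hσA⟩ : A.decompositionSubgroup ℚ) •
        IsLocalRing.residue A ⟨y, isIntegral_mem_valuationSubring A hy⟩ =
      (IsLocalRing.residue A ⟨y, isIntegral_mem_valuationSubring A hy⟩) ^ ℓ := by
    intro y hy
    rw [← IsLocalRing.ResidueField.residue_smul, ← map_pow, ← sub_eq_zero, ← map_sub,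
      IsLocalRing.residue_eq_zero_iff, ← ValuationSubring.coe_mem_nonunits_iff]
    exact hσF ⟨y, hy⟩
  have h1 : IsLocalRing.residue A a * IsLocalRing.residue A ⟨s, hsA'⟩ =
      IsLocalRing.residue A ⟨b, hbA⟩ := by
    rw [← map_mul]
    congr 1
    exact Subtype.ext hxs
  have h2 : IsLocalRing.residue A ⟨s, hsA'⟩ ≠ 0 := by
    rw [Ne, IsLocalRing.residue_eq_zero_iff, ← ValuationSubring.coe_mem_nonunits_iff]
    exact hsA
  have h3 := congrArg (fun z => (⟨σ, hσA⟩ : A.decompositionSubgroup ℚ) • z) h1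
  simp only [smul_mul'] at h3
  rw [hint s hs, hint b hb, ← h1, mul_pow] at h3
  exact mul_right_cancel₀ (pow_ne_zero _ h2) h3

end Fermat.Agent.S54

end
-- ===== PACK-END S54/FrobExists.lean

-- ===== PACK-BEGIN Lib/RR/Ord.lean
section


/-!
# RR library: elementary calculus of `Place.ord`
-/

set_option autoImplicit false

noncomputable section

open AlgebraicCurve

namespace Fermat.Agent.Lib.RR

variable {K F : Type*} [Field K] [Field F] [Algebra K F]

theorem ord_nonneg_of_mem (v : Place K F) {f : F} (hf : f ∈ v.toValuationSubring) :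
    0 ≤ v.ord f := by
  rcases eq_or_ne f 0 with rfl | hf0
  · simp
  obtain ⟨π, hπ⟩ := IsDiscreteValuationRing.exists_irreducible v.toValuationSubring
  obtain ⟨n, u, hu⟩ :=
    IsDiscreteValuationRing.eq_unit_mul_pow_irreducible
      (x := (⟨f, hf⟩ : v.toValuationSubring)) (by simpa [Subtype.ext_iff] using hf0) hπ
  have hcoe : f = ((u : v.toValuationSubring) : F) * ((π : F) ^ (n : ℤ)) := by
    have h := congrArg (Subtype.val) hu
    push_cast at h
    rw [zpow_natCast]
    exact h
  rw [hcoe, v.ord_unit_smul_zpow u hπ (n : ℤ)]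
  exact Int.natCast_nonneg n

theorem mem_of_ord_nonneg (v : Place K F) {f : F} (h : 0 ≤ v.ord f) :
    f ∈ v.toValuationSubring := by
  rcases eq_or_ne f 0 with rfl | hf
  · exact zero_mem _
  obtain ⟨π, hπ⟩ := IsDiscreteValuationRing.exists_irreducible v.toValuationSubring
  obtain ⟨u, hu⟩ := v.exists_unit_mul_zpow hf hπ
  rw [hu, show v.ord f = (((v.ord f).toNat : ℕ) : ℤ) from (Int.toNat_of_nonneg h).symm,
    zpow_natCast]
  exact mul_mem (u : v.toValuationSubring).2 (pow_mem (π : v.toValuationSubring).2 _)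

/-- `f ∈ O_v ↔ 0 ≤ ord_v f` (valid also for `f = 0` because `ord_v 0 = 0`). -/
theorem mem_iff_ord_nonneg (v : Place K F) (f : F) :
    f ∈ v.toValuationSubring ↔ 0 ≤ v.ord f :=
  ⟨ord_nonneg_of_mem v, mem_of_ord_nonneg v⟩

theorem ord_algebraMap (v : Place K F) (c : K) : v.ord (algebraMap K F c) = 0 := by
  rcases eq_or_ne c 0 with rfl | hc
  · simp
  have h1 : 0 ≤ v.ord (algebraMap K F c) := ord_nonneg_of_mem v (v.algebraMap_mem' c)
  have h2 : 0 ≤ v.ord (algebraMap K F c⁻¹) := ord_nonneg_of_mem v (v.algebraMap_mem' c⁻¹)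
  rw [map_inv₀, v.ord_inv] at h2
  omega

theorem ord_pow (v : Place K F) (f : F) (n : ℕ) : v.ord (f ^ n) = n * v.ord f := by
  have := v.ord_zpow f (n : ℤ)
  rwa [zpow_natCast] at this

theorem ord_neg (v : Place K F) (f : F) : v.ord (-f) = v.ord f := by
  rcases eq_or_ne f 0 with rfl | hf
  · simp
  have h : (-1 : F) ≠ 0 := by simp
  have h1 : v.ord (-1 : F) = 0 := by
    have h2 := v.ord_mul h h
    rw [neg_one_mul, neg_neg, v.ord_one] at h2
    omega
  rw [← neg_one_mul, v.ord_mul h hf, h1, zero_add]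

theorem ne_zero_of_ord_ne_zero (v : Place K F) {f : F} (h : v.ord f ≠ 0) : f ≠ 0 := by
  rintro rfl; exact h v.ord_zero

/-- Ultrametric inequality. -/
theorem ord_add (v : Place K F) {f g : F} (hf : f ≠ 0) (hg : g ≠ 0) (hfg : f + g ≠ 0) :
    min (v.ord f) (v.ord g) ≤ v.ord (f + g) := by
  wlog h : v.ord f ≤ v.ord g generalizing f g
  · have := this hg hf (by rwa [add_comm]) (by omega)
    rwa [min_comm, add_comm g f] at this
  rw [min_eq_left h]
  have hq : g * f⁻¹ ∈ v.toValuationSubring := by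
    apply mem_of_ord_nonneg
    rw [v.ord_mul hg (inv_ne_zero hf), v.ord_inv]; omega
  have h1 : 1 + g * f⁻¹ ∈ v.toValuationSubring := add_mem (one_mem _) hq
  have h2 : f + g = f * (1 + g * f⁻¹) := by field_simp
  have h3 : (1 + g * f⁻¹) ≠ 0 := by
    intro h0; rw [h0, mul_zero] at h2; exact hfg h2
  rw [h2, v.ord_mul hf h3]
  have := ord_nonneg_of_mem v h1
  omega

/-- Ultrametric inequality in the "zero or bounded below" form used for `L(D)`. -/
theorem ord_add_of_le (v : Place K F) {f g : F} {n : ℤ}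
    (hf : f = 0 ∨ n ≤ v.ord f) (hg : g = 0 ∨ n ≤ v.ord g) :
    f + g = 0 ∨ n ≤ v.ord (f + g) := by
  rcases eq_or_ne (f + g) 0 with h0 | h0
  · exact Or.inl h0
  right
  rcases eq_or_ne f 0 with rfl | hf0
  · rw [zero_add] at h0 ⊢
    exact hg.resolve_left h0
  rcases eq_or_ne g 0 with rfl | hg0
  · rw [add_zero]
    exact hf.resolve_left hf0
  exact le_trans (le_min (hf.resolve_left hf0) (hg.resolve_left hg0)) (ord_add v hf0 hg0 h0)

/-- Strict case of the ultrametric inequality. -/
theorem ord_add_eq_of_lt (v : Place K F) {f g : F} (hf : f ≠ 0) (hg : g ≠ 0)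
    (h : v.ord f < v.ord g) : v.ord (f + g) = v.ord f := by
  have hfg : f + g ≠ 0 := by
    intro h0
    have : g = -f := by rw [← sub_eq_zero]; rw [sub_neg_eq_add, add_comm]; exact h0
    rw [this, ord_neg] at h
    exact lt_irrefl _ h
  have h1 := ord_add v hf hg hfg
  rw [min_eq_left h.le] at h1
  have hng : -g ≠ 0 := neg_ne_zero.mpr hg
  have h2 := ord_add v hfg hng (by simpa using hf)
  rw [add_neg_cancel_right, ord_neg] at h2
  rcases le_total (v.ord (f + g)) (v.ord g) with h3 | h3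
  · rw [min_eq_left h3] at h2; omega
  · rw [min_eq_right h3] at h2; omega

/-- Every place has a uniformizer. -/
theorem exists_ord_eq_one (v : Place K F) : ∃ t : F, v.ord t = 1 := by
  obtain ⟨π, hπ⟩ := IsDiscreteValuationRing.exists_irreducible v.toValuationSubring
  exact ⟨π, v.ord_coe_irreducible hπ⟩

/-- An element of the valuation ring lies in the maximal ideal iff it is `0` or has positive
order. -/
theorem mem_maximalIdeal_iff (v : Place K F) (a : v.toValuationSubring) :
    a ∈ IsLocalRing.maximalIdeal v.toValuationSubring ↔ (a : F) = 0 ∨ 0 < v.ord (a : F) := by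
  rw [IsLocalRing.mem_maximalIdeal, mem_nonunits_iff]
  constructor
  · intro h
    by_contra hcon
    simp only [not_or, not_lt] at hcon
    obtain ⟨h0, h1⟩ := hcon
    apply h
    have h2 : v.ord (a : F) = 0 := le_antisymm h1 (ord_nonneg_of_mem v a.2)
    have hinv : (a : F)⁻¹ ∈ v.toValuationSubring := by
      apply mem_of_ord_nonneg
      rw [v.ord_inv, h2]; simp
    refine IsUnit.of_mul_eq_one (⟨(a : F)⁻¹, hinv⟩ : v.toValuationSubring) ?_
    ext
    simp [h0]
  · rintro (h | h) hu
    · have : a = 0 := by ext; simpa using h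
      rw [this] at hu
      exact not_isUnit_zero hu
    · have := v.ord_coe_unit hu.unit
      rw [IsUnit.unit_spec] at this
      omega

/-- At a place of degree one every element of the valuation ring is congruent to a constant. -/
theorem exists_const_sub (v : Place K F) (hv : v.deg = 1) {f : F} (hf : 0 ≤ v.ord f) :
    ∃ c : K, f - algebraMap K F c = 0 ∨ 0 < v.ord (f - algebraMap K F c) := by
  have hmem : f ∈ v.toValuationSubring := mem_of_ord_nonneg v hf
  have h1 : (1 : v.ResidueField) ≠ 0 := one_ne_zero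
  have hspan := (finrank_eq_one_iff_of_nonzero' (1 : v.ResidueField) h1).mp hv
  obtain ⟨c, hc⟩ := hspan (IsLocalRing.residue v.toValuationSubring ⟨f, hmem⟩)
  refine ⟨c, ?_⟩
  have hc' : IsLocalRing.residue v.toValuationSubring
      (⟨f, hmem⟩ - algebraMap K v.toValuationSubring c) = 0 := by
    rw [map_sub, ← hc, Algebra.smul_def, mul_one]
    rw [IsScalarTower.algebraMap_apply K v.toValuationSubring v.ResidueField]
    simp
  rw [IsLocalRing.residue_eq_zero_iff] at hc'
  have := (mem_maximalIdeal_iff v _).mp hc'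
  simpa using this

end Fermat.Agent.Lib.RR

end
end
-- ===== PACK-END Lib/RR/Ord.lean

-- ===== PACK-BEGIN Lib/RR/Basic.lean
section


/-!
# RR library, layer L1: the spaces `L(D)`

* `L(D) = 0` for `deg D < 0`;
* `L(D + P) ⊆ L(D) + K f₀`;
* `L(D)` is finite-dimensional and `ℓ(D) ≤ deg D + 1` for `deg D ≥ -1`;
* `L(0) = K`, `ℓ(0) = 1`;
* `ℓ(D + div z) = ℓ(D)`.
-/

set_option autoImplicit false

noncomputable section

open AlgebraicCurve

namespace Fermat.Agent.Lib.RR

variable {K F : Type*} [Field K] [Field F] [Algebra K F]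

/-! ### Divisors and degrees -/

theorem degree_eq_sum (D : Divisor K F) :
    Divisor.degree D = ∑ v ∈ D.support, D v * (v.deg : ℤ) := by
  simp [Divisor.degree, Finsupp.liftAddHom_apply, Finsupp.sum]

theorem degree_nonneg {D : Divisor K F} (h : 0 ≤ D) : 0 ≤ Divisor.degree D := by
  rw [degree_eq_sum]
  refine Finset.sum_nonneg fun v _ => mul_nonneg ?_ (Int.natCast_nonneg _)
  simpa using Finsupp.le_def.mp h v

theorem degree_mono {D D' : Divisor K F} (h : D ≤ D') :
    Divisor.degree D ≤ Divisor.degree D' := by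
  have h1 : 0 ≤ D' - D := sub_nonneg.mpr h
  have h2 := degree_nonneg h1
  rw [map_sub] at h2
  linarith

theorem degree_prim (v : Place K F) (hv : v.deg = 1) : Divisor.degree (prim v) = 1 := by
  simp [prim, hv]

@[simp] theorem prim_apply_self (v : Place K F) : prim v v = 1 := by
  simp [prim]

theorem prim_apply_of_ne {v w : Place K F} (h : w ≠ v) : prim v w = 0 := by
  simp [prim, h.symm]

/-! ### The spaces `L(D)` -/

theorem mem_L_iff {D : Divisor K F} {f : F} :
    f ∈ riemannRochSpace D ↔ ∀ v : Place K F, f = 0 ∨ -D v ≤ v.ord f :=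
  mem_riemannRochSpace_iff

theorem L_mono {D D' : Divisor K F} (h : D ≤ D') :
    riemannRochSpace D ≤ riemannRochSpace D' := by
  intro f hf
  rw [mem_L_iff] at hf ⊢
  intro v
  rcases hf v with h0 | h1
  · exact Or.inl h0
  · right
    have := Finsupp.le_def.mp h v
    omega

/-- A nonzero element of `L(D)` forces `deg D ≥ 0`. -/
theorem degree_nonneg_of_mem_L [HasPrincipalDivisors K F] {D : Divisor K F} {f : F}
    (hf : f ∈ riemannRochSpace D) (hf0 : f ≠ 0) : 0 ≤ Divisor.degree D := by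
  obtain ⟨E, hE, hE0⟩ := HasPrincipalDivisors.exists_divisor (K := K) f hf0
  have h1 : 0 ≤ D + E := by
    rw [Finsupp.le_def]
    intro v
    have := (mem_L_iff.mp hf v).resolve_left hf0
    simp only [Finsupp.coe_zero, Pi.zero_apply, Finsupp.coe_add, Pi.add_apply, hE v]
    omega
  have h2 := degree_nonneg h1
  rw [map_add, hE0, add_zero] at h2
  exact h2

theorem L_eq_bot_of_degree_neg [HasPrincipalDivisors K F] {D : Divisor K F}
    (h : Divisor.degree D < 0) : riemannRochSpace D = ⊥ := by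
  rw [eq_bot_iff]
  intro f hf
  rw [Submodule.mem_bot]
  by_contra hf0
  have := degree_nonneg_of_mem_L hf hf0
  omega

/-- One step: `L(D + P) ⊆ L(D) + K f₀` for any `f₀ ∈ L(D + P) \ L(D)`, `P` of degree one. -/
theorem L_add_prim_le (v : Place K F) (hv : v.deg = 1) (D : Divisor K F) {f₀ : F}
    (hf₀ : f₀ ∈ riemannRochSpace (D + prim v)) (hf₀' : f₀ ∉ riemannRochSpace D) :
    riemannRochSpace (D + prim v) ≤ riemannRochSpace D ⊔ Submodule.span K {f₀} := by
  classical
  have hf₀0 : f₀ ≠ 0 := fun h => hf₀' (h ▸ Submodule.zero_mem _)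
  -- the order of `f₀` at `v` is exactly `-(D v + 1)`
  have hord₀ : v.ord f₀ = -(D v + 1) := by
    have h1 := (mem_L_iff.mp hf₀ v).resolve_left hf₀0
    simp only [Finsupp.coe_add, Pi.add_apply, prim_apply_self] at h1
    by_contra hne
    apply hf₀'
    rw [mem_L_iff]
    intro w
    right
    by_cases hw : w = v
    · subst hw; omega
    · have h2 := (mem_L_iff.mp hf₀ w).resolve_left hf₀0
      simpa [prim_apply_of_ne hw] using h2
  intro f hf
  rcases eq_or_ne f 0 with rfl | hf0
  · exact Submodule.zero_mem _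
  have hordf := (mem_L_iff.mp hf v).resolve_left hf0
  simp only [Finsupp.coe_add, Pi.add_apply, prim_apply_self] at hordf
  have hg : 0 ≤ v.ord (f * f₀⁻¹) := by
    rw [v.ord_mul hf0 (inv_ne_zero hf₀0), v.ord_inv, hord₀]; omega
  obtain ⟨c, hc⟩ := exists_const_sub v hv hg
  have hdecomp : f = (f - c • f₀) + c • f₀ := by ring
  rw [hdecomp]
  refine Submodule.add_mem _ (Submodule.mem_sup_left ?_)
    (Submodule.mem_sup_right (Submodule.smul_mem _ _ (Submodule.mem_span_singleton_self _)))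
  have hmem' : f - c • f₀ ∈ riemannRochSpace (D + prim v) :=
    Submodule.sub_mem _ hf (Submodule.smul_mem _ _ hf₀)
  rw [mem_L_iff]
  intro w
  by_cases hw : w = v
  · subst hw
    have hfac : f - c • f₀ = (f * f₀⁻¹ - algebraMap K F c) * f₀ := by
      rw [Algebra.smul_def]; field_simp
    rcases hc with hc | hc
    · left; rw [hfac, hc, zero_mul]
    · rcases eq_or_ne (f - c • f₀) 0 with h0 | h0
      · exact Or.inl h0
      right
      have hne : f * f₀⁻¹ - algebraMap K F c ≠ 0 := by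
        intro h; rw [hfac, h, zero_mul] at h0; exact h0 rfl
      rw [hfac, w.ord_mul hne hf₀0, hord₀]
      omega
  · have h2 := mem_L_iff.mp hmem' w
    simpa [prim_apply_of_ne hw] using h2

/-- One step, dimension form. -/
theorem L_add_prim_finite (v : Place K F) (hv : v.deg = 1) (D : Divisor K F)
    [Module.Finite K (riemannRochSpace D)] :
    Module.Finite K (riemannRochSpace (D + prim v)) ∧
      ell (D + prim v) ≤ ell D + 1 := by
  classical
  by_cases h : riemannRochSpace (D + prim v) ≤ riemannRochSpace D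
  · have hfin : Module.Finite K (riemannRochSpace (D + prim v)) :=
      Submodule.finiteDimensional_of_le h
    exact ⟨hfin, (Submodule.finrank_mono h).trans (Nat.le_succ _)⟩
  · obtain ⟨f₀, hf₀, hf₀'⟩ := SetLike.not_le_iff_exists.mp h
    have hle := L_add_prim_le v hv D hf₀ hf₀'
    have hfin' : Module.Finite K ↥(riemannRochSpace D ⊔ Submodule.span K {f₀}) := inferInstance
    have hfin : Module.Finite K (riemannRochSpace (D + prim v)) :=
      Submodule.finiteDimensional_of_le hle
    refine ⟨hfin, ?_⟩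
    calc ell (D + prim v) ≤ Module.finrank K ↥(riemannRochSpace D ⊔ Submodule.span K {f₀}) :=
          Submodule.finrank_mono hle
      _ ≤ Module.finrank K (riemannRochSpace D) + Module.finrank K (Submodule.span K {f₀}) :=
          Submodule.finrank_add_le_finrank_add_finrank _ _
      _ ≤ ell D + 1 := by
          have := finrank_span_singleton (K := K) (fun h => hf₀' (h ▸ Submodule.zero_mem _) : f₀ ≠ 0)
          rw [this]; rfl


/-! ### Consequences under the standing hypotheses -/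

section FF1

variable [hFF : FF1 K F]

instance (priority := 100) instHasPrincipalDivisors_of_FF1 : HasPrincipalDivisors K F := hFF.hpd

theorem deg_eq_one (v : Place K F) : v.deg = 1 := FF1.deg_eq_one v

@[simp] theorem degree_prim' (v : Place K F) : Divisor.degree (prim v) = 1 :=
  degree_prim v (deg_eq_one v)

/-- `L(D)` is finite-dimensional, of dimension at most `deg D + 1`. -/
theorem finite_and_ell_le : ∀ (n : ℕ) (D : Divisor K F), Divisor.degree D + 1 ≤ n →
    Module.Finite K (riemannRochSpace D) ∧ ell D ≤ n := by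
  intro n
  induction n with
  | zero =>
    intro D hD
    have h : riemannRochSpace D = ⊥ := L_eq_bot_of_degree_neg (by push_cast at hD; omega)
    refine ⟨by rw [h]; infer_instance, ?_⟩
    have h0 : ell D = 0 := by unfold ell; rw [h]; exact finrank_bot K F
    omega
  | succ n ih =>
    intro D hD
    obtain ⟨v₀⟩ := hFF.nonempty_place
    have hdeg : Divisor.degree (D - prim v₀) + 1 ≤ n := by
      rw [map_sub, degree_prim']; push_cast at hD; omega
    obtain ⟨hfin, hle⟩ := ih (D - prim v₀) hdeg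
    have := L_add_prim_finite v₀ (deg_eq_one v₀) (D - prim v₀)
    rw [sub_add_cancel] at this
    exact ⟨this.1, this.2.trans (by omega)⟩

instance finite_L (D : Divisor K F) : Module.Finite K (riemannRochSpace D) :=
  (finite_and_ell_le (Divisor.degree D + 1).toNat D (Int.self_le_toNat _)).1

theorem ell_le_toNat (D : Divisor K F) : ell D ≤ (Divisor.degree D + 1).toNat :=
  (finite_and_ell_le (Divisor.degree D + 1).toNat D (Int.self_le_toNat _)).2

theorem ell_le_degree_add_one {D : Divisor K F} (h : -1 ≤ Divisor.degree D) :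
    (ell D : ℤ) ≤ Divisor.degree D + 1 := by
  have := ell_le_toNat D
  have h2 : ((Divisor.degree D + 1).toNat : ℤ) = Divisor.degree D + 1 :=
    Int.toNat_of_nonneg (by omega)
  omega

theorem ell_eq_zero_of_degree_neg {D : Divisor K F} (h : Divisor.degree D < 0) : ell D = 0 := by
  unfold ell; rw [L_eq_bot_of_degree_neg h]; exact finrank_bot K F

theorem ell_mono {D D' : Divisor K F} (h : D ≤ D') : ell D ≤ ell D' :=
  Submodule.finrank_mono (L_mono h)

theorem ell_add_prim_le (D : Divisor K F) (v : Place K F) : ell (D + prim v) ≤ ell D + 1 :=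
  (L_add_prim_finite v (deg_eq_one v) D).2

/-- Induction principle: from `D` upwards, adding one place at a time. -/
theorem induction_ge {P : Divisor K F → Prop} (D : Divisor K F) (h0 : P D)
    (hstep : ∀ (D' : Divisor K F) (v : Place K F), D ≤ D' → P D' → P (D' + prim v)) :
    ∀ D', D ≤ D' → P D' := by
  classical
  have key : ∀ (n : ℕ) (D' : Divisor K F), D ≤ D' → Divisor.degree (D' - D) ≤ n → P D' := by
    intro n
    induction n with
    | zero =>
      intro D' hle hdeg
      have hE : 0 ≤ D' - D := sub_nonneg.mpr hle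
      have hE0 : D' - D = 0 := by
        by_contra hne
        obtain ⟨v, hv⟩ := Finsupp.support_nonempty_iff.mpr hne
        rw [Finsupp.mem_support_iff] at hv
        have hv0 : 0 ≤ (D' - D) v := by simpa using Finsupp.le_def.mp hE v
        have hge : prim v ≤ D' - D := by
          rw [Finsupp.le_def]
          intro w
          by_cases hw : w = v
          · subst hw; rw [prim_apply_self]; omega
          · rw [prim_apply_of_ne hw]; simpa using Finsupp.le_def.mp hE w
        have := degree_mono hge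
        rw [degree_prim'] at this
        push_cast at hdeg
        omega
      rw [sub_eq_zero] at hE0
      rw [hE0]; exact h0
    | succ n ih =>
      intro D' hle hdeg
      by_cases hE0 : D' - D = 0
      · rw [sub_eq_zero] at hE0
        rw [hE0]; exact h0
      have hE : 0 ≤ D' - D := sub_nonneg.mpr hle
      obtain ⟨v, hv⟩ := Finsupp.support_nonempty_iff.mpr hE0
      rw [Finsupp.mem_support_iff] at hv
      have hv0 : 0 ≤ (D' - D) v := by simpa using Finsupp.le_def.mp hE v
      have hge : prim v ≤ D' - D := by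
        rw [Finsupp.le_def]
        intro w
        by_cases hw : w = v
        · subst hw; rw [prim_apply_self]; omega
        · rw [prim_apply_of_ne hw]; simpa using Finsupp.le_def.mp hE w
      have hle' : D ≤ D' - prim v := by
        have : D + prim v ≤ D' := by
          have := add_le_add_left hge D
          rwa [sub_add_cancel, add_comm] at this
        exact le_sub_iff_add_le.mpr this
      have hdeg' : Divisor.degree (D' - prim v - D) ≤ n := by
        have : D' - prim v - D = (D' - D) - prim v := by abel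
        rw [this, map_sub, degree_prim']
        push_cast at hdeg; omega
      have := hstep (D' - prim v) v hle' (ih (D' - prim v) hle' hdeg')
      rwa [sub_add_cancel] at this
  intro D' hle
  exact key (Divisor.degree (D' - D)).toNat D' hle (Int.self_le_toNat _)

/-- `deg D - ℓ(D)` is monotone in `D`. -/
theorem degree_sub_ell_mono {D D' : Divisor K F} (h : D ≤ D') :
    Divisor.degree D - ell D ≤ Divisor.degree D' - ell D' := by
  refine induction_ge (P := fun D' => Divisor.degree D - ell D ≤ Divisor.degree D' - ell D')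
    D le_rfl ?_ D' h
  intro D'' v _ hP
  have h1 := ell_add_prim_le D'' v
  rw [map_add, degree_prim']
  omega

/-- Functions without poles are constant. -/
theorem L_zero : riemannRochSpace (0 : Divisor K F) = LinearMap.range (Algebra.linearMap K F) := by
  apply le_antisymm
  · intro f hf
    obtain ⟨v₀⟩ := hFF.nonempty_place
    have hf0 : 0 ≤ v₀.ord f := by
      rcases mem_L_iff.mp hf v₀ with h | h
      · simp [h]
      · simpa using h
    obtain ⟨c, hc⟩ := exists_const_sub v₀ (deg_eq_one v₀) hf0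
    have hcL : algebraMap K F c ∈ riemannRochSpace (0 : Divisor K F) := by
      rw [mem_L_iff]; intro v; right; simp [ord_algebraMap]
    have hg : f - algebraMap K F c ∈ riemannRochSpace (0 : Divisor K F) :=
      Submodule.sub_mem _ hf hcL
    have hzero : f - algebraMap K F c = 0 := by
      by_contra hne
      have hpos := hc.resolve_left hne
      have hmem : f - algebraMap K F c ∈ riemannRochSpace (-prim v₀) := by
        rw [mem_L_iff]
        intro w
        right
        by_cases hw : w = v₀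
        · subst hw; simp only [Finsupp.coe_neg, Pi.neg_apply, prim_apply_self, neg_neg]; omega
        · have := (mem_L_iff.mp hg w).resolve_left hne
          simpa [prim_apply_of_ne hw] using this
      have hbot : riemannRochSpace (-prim v₀) = ⊥ :=
        L_eq_bot_of_degree_neg (by rw [map_neg, degree_prim']; omega)
      rw [hbot, Submodule.mem_bot] at hmem
      exact hne hmem
    exact ⟨c, by rw [Algebra.linearMap_apply]; exact (sub_eq_zero.mp hzero).symm⟩
  · rintro _ ⟨c, rfl⟩
    rw [mem_L_iff]; intro v; right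
    simp [ord_algebraMap]

theorem ell_zero : ell (0 : Divisor K F) = 1 := by
  unfold ell
  rw [L_zero]
  have hinj : Function.Injective (Algebra.linearMap K F) := (algebraMap K F).injective
  rw [LinearMap.finrank_range_of_inj hinj]
  exact Module.finrank_self K

/-- The divisor of a nonzero function. -/
def divOf (z : F) (hz : z ≠ 0) : Divisor K F :=
  (HasPrincipalDivisors.exists_divisor (K := K) z hz).choose

theorem divOf_apply (z : F) (hz : z ≠ 0) (v : Place K F) : divOf z hz v = v.ord z :=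
  (HasPrincipalDivisors.exists_divisor (K := K) z hz).choose_spec.1 v

@[simp] theorem degree_divOf (z : F) (hz : z ≠ 0) : Divisor.degree (divOf (K := K) z hz) = 0 :=
  (HasPrincipalDivisors.exists_divisor (K := K) z hz).choose_spec.2

/-- Multiplication by `z` maps `L(D + div z)` isomorphically onto `L(D)`. -/
theorem ell_add_divOf (D : Divisor K F) (z : F) (hz : z ≠ 0) :
    ell (D + divOf z hz) = ell D := by
  let e : F ≃ₗ[K] F :=
    LinearEquiv.ofLinearMap (LinearMap.mulLeft K z) (LinearMap.mulLeft K z⁻¹)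
      (by ext x; simp [hz]) (by ext x; simp [hz])
  have hmap : Submodule.map (e : F →ₗ[K] F) (riemannRochSpace (D + divOf z hz))
      = riemannRochSpace D := by
    ext f
    simp only [Submodule.mem_map, mem_L_iff]
    constructor
    · rintro ⟨g, hg, rfl⟩ v
      rcases hg v with h | h
      · left; simp [e, h]
      · rcases eq_or_ne g 0 with rfl | hg0
        · left; simp [e]
        right
        show -D v ≤ v.ord (z * g)
        rw [v.ord_mul hz hg0]
        simp only [Finsupp.coe_add, Pi.add_apply, divOf_apply] at h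
        omega
    · intro hf
      refine ⟨z⁻¹ * f, fun v => ?_, by simp [e, hz]⟩
      rcases hf v with h | h
      · left; simp [h]
      · rcases eq_or_ne f 0 with rfl | hf0
        · left; simp
        right
        rw [v.ord_mul (inv_ne_zero hz) hf0, v.ord_inv]
        simp only [Finsupp.coe_add, Pi.add_apply, divOf_apply]
        omega
  unfold ell
  rw [← hmap]
  exact (LinearEquiv.finrank_map_eq e _).symm

end FF1

end Fermat.Agent.Lib.RR

end
end
-- ===== PACK-END Lib/RR/Basic.lean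

-- ===== PACK-BEGIN Lib/RR/Approx.lean
section


/-!
# RR library: separation / approximation for finitely many places

(The first three lemmas follow helper144's `S24/Alg/LocApprox.lean`.)
-/

set_option autoImplicit false

noncomputable section

open AlgebraicCurve

namespace Fermat.Agent.Lib.RR

variable {K F : Type*} [Field K] [Field F] [Algebra K F]

/-- The valuation rings of two places are comparable only if the places are equal. -/
theorem place_eq_of_le {v w : Place K F} (h : v.toValuationSubring ≤ w.toValuationSubring) :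
    v = w := by
  apply Place.ext
  refine le_antisymm h ?_
  intro f hf
  by_contra hfv
  have hfw : 0 ≤ w.ord f := ord_nonneg_of_mem w hf
  have hfv' : v.ord f < 0 := by
    by_contra h0
    exact hfv (mem_of_ord_nonneg v (not_lt.mp h0))
  have hf0 : f ≠ 0 := ne_zero_of_ord_ne_zero v hfv'.ne
  obtain ⟨h1, hh1⟩ := exists_ord_eq_one w
  have hh0 : h1 ≠ 0 := ne_zero_of_ord_ne_zero w (by omega)
  set r : ℕ := (v.ord h1).toNat + 1 with hr
  have hfr : f ^ r ≠ 0 := pow_ne_zero r hf0
  have hv : v.ord (f ^ r * h1) < 0 := by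
    rw [v.ord_mul hfr hh0, ord_pow]
    have : (r : ℤ) * v.ord f ≤ -(r : ℤ) := by nlinarith
    have : v.ord h1 ≤ (v.ord h1).toNat := Int.self_le_toNat _
    have : (r : ℤ) = (v.ord h1).toNat + 1 := by rw [hr]; push_cast; ring
    omega
  have hmem : (f ^ r * h1)⁻¹ ∈ w.toValuationSubring := by
    apply h
    apply mem_of_ord_nonneg
    rw [v.ord_inv]; omega
  have hw := ord_nonneg_of_mem w hmem
  rw [w.ord_inv, w.ord_mul hfr hh0, ord_pow, hh1] at hw
  have : 0 ≤ (r : ℤ) * w.ord f := mul_nonneg (Int.natCast_nonneg r) hfw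
  omega

/-- Two distinct places are separated by a function. -/
theorem exists_sep {v w : Place K F} (hvw : v ≠ w) :
    ∃ c : F, 0 < v.ord c ∧ w.ord c < 0 := by
  have h1 : ¬ v.toValuationSubring ≤ w.toValuationSubring := fun h => hvw (place_eq_of_le h)
  have h2 : ¬ w.toValuationSubring ≤ v.toValuationSubring :=
    fun h => hvw (place_eq_of_le h).symm
  obtain ⟨a, hav, haw⟩ := SetLike.not_le_iff_exists.mp h1
  obtain ⟨b, hbw, hbv⟩ := SetLike.not_le_iff_exists.mp h2
  have hav' : 0 ≤ v.ord a := ord_nonneg_of_mem v hav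
  have hbw' : 0 ≤ w.ord b := ord_nonneg_of_mem w hbw
  have haw' : w.ord a < 0 := by
    by_contra h0; exact haw (mem_of_ord_nonneg w (not_lt.mp h0))
  have hbv' : v.ord b < 0 := by
    by_contra h0; exact hbv (mem_of_ord_nonneg v (not_lt.mp h0))
  have ha0 : a ≠ 0 := ne_zero_of_ord_ne_zero w haw'.ne
  have hb0 : b ≠ 0 := ne_zero_of_ord_ne_zero v hbv'.ne
  refine ⟨a * b⁻¹, ?_, ?_⟩
  · rw [v.ord_mul ha0 (inv_ne_zero hb0), v.ord_inv]; omega
  · rw [w.ord_mul ha0 (inv_ne_zero hb0), w.ord_inv]; omega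

/-- For a place `v` outside a finite set `S` of places there is a function with a zero at `v` and
poles at all places of `S`. -/
theorem exists_zero_poles (v : Place K F) (S : Finset (Place K F)) (hv : v ∉ S) :
    ∃ g : F, 0 < v.ord g ∧ ∀ w ∈ S, w.ord g < 0 := by
  classical
  induction S using Finset.induction_on with
  | empty =>
    obtain ⟨h, hh⟩ := exists_ord_eq_one v
    exact ⟨h, by omega, by simp⟩
  | insert w₀ S' hw₀ ih =>
    have hv' : v ∉ S' := fun h => hv (Finset.mem_insert_of_mem h)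
    have hvw₀ : v ≠ w₀ := fun h => hv (h ▸ Finset.mem_insert_self _ _)
    obtain ⟨g, hgv, hgS⟩ := ih hv'
    obtain ⟨c, hcv, hcw⟩ := exists_sep hvw₀
    have hg0 : g ≠ 0 := ne_zero_of_ord_ne_zero v hgv.ne'
    have hc0 : c ≠ 0 := ne_zero_of_ord_ne_zero v hcv.ne'
    by_cases hgw : w₀.ord g < 0
    · refine ⟨g, hgv, ?_⟩
      intro w hw
      rcases Finset.mem_insert.mp hw with rfl | hw
      · exact hgw
      · exact hgS w hw
    · have hgw := not_lt.mp hgw
      set r : ℕ := (∑ w ∈ S', (w.ord c).natAbs) + 1 with hr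
      have hrS : ∀ w ∈ S', -(r : ℤ) < w.ord c := by
        intro w hw
        have h1 : (w.ord c).natAbs ≤ ∑ w ∈ S', (w.ord c).natAbs :=
          Finset.single_le_sum (f := fun w : Place K F => (w.ord c).natAbs)
            (fun _ _ => Nat.zero_le _) hw
        have h2 : (r : ℤ) = ((∑ w ∈ S', (w.ord c).natAbs : ℕ) : ℤ) + 1 := by
          rw [hr]; push_cast; ring
        have h3 : ((w.ord c).natAbs : ℤ) ≤ ((∑ w ∈ S', (w.ord c).natAbs : ℕ) : ℤ) := by
          exact_mod_cast h1
        omega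
      have hr1 : 1 ≤ r := by omega
      have hgr0 : g ^ r ≠ 0 := pow_ne_zero r hg0
      have hw₀' : w₀.ord (c + g ^ r) = w₀.ord c := by
        apply ord_add_eq_of_lt w₀ hc0 hgr0
        rw [ord_pow]
        have : 0 ≤ (r : ℤ) * w₀.ord g := mul_nonneg (Int.natCast_nonneg r) hgw
        omega
      have hsum0 : c + g ^ r ≠ 0 := ne_zero_of_ord_ne_zero w₀ (by rw [hw₀']; omega)
      refine ⟨c + g ^ r, ?_, ?_⟩
      · have h1 := ord_add v hc0 hgr0 hsum0
        rw [ord_pow] at h1
        have h2 : 0 < (r : ℤ) * v.ord g := mul_pos (by exact_mod_cast hr1) hgv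
        have h3 : 0 < min (v.ord c) ((r : ℤ) * v.ord g) := lt_min hcv h2
        omega
      · intro w hw
        rcases Finset.mem_insert.mp hw with rfl | hw
        · rw [hw₀']; exact hcw
        · have h1 : w.ord (g ^ r) < w.ord c := by
            rw [ord_pow]
            have h2 := hgS w hw
            have h3 := hrS w hw
            have h4 : (r : ℤ) * w.ord g ≤ -(r : ℤ) := by nlinarith
            omega
          rw [add_comm, ord_add_eq_of_lt w hgr0 hc0 h1, ord_pow]
          have h2 := hgS w hw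
          have hrpos : (0 : ℤ) < r := by exact_mod_cast hr1
          exact mul_neg_of_pos_of_neg hrpos h2

/-- For a place `v` outside a finite set `S` of places and every `M` there is a function which is
a unit at `v` and vanishes to order at least `M` at all places of `S`. -/
theorem exists_unit_zeros (v : Place K F) (S : Finset (Place K F)) (hv : v ∉ S) (M : ℕ) :
    ∃ s : F, s ≠ 0 ∧ v.ord s = 0 ∧ ∀ w ∈ S, (M : ℤ) ≤ w.ord s := by
  obtain ⟨g, hgv, hgS⟩ := exists_zero_poles v S hv
  have hg0 : g ≠ 0 := ne_zero_of_ord_ne_zero v hgv.ne'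
  -- `u = g⁻¹` has a pole at `v` and zeros on `S`; `s = 1 / (1 + g ^ (M+1))`
  set r : ℕ := M + 1 with hr
  have hgr0 : g ^ r ≠ 0 := pow_ne_zero r hg0
  have hrpos : (0 : ℤ) < r := by rw [hr]; push_cast; omega
  have hv1 : v.ord (1 + g ^ r) = 0 := by
    have h1 : v.ord (1 : F) < v.ord (g ^ r) := by
      rw [v.ord_one, ord_pow]; exact mul_pos hrpos hgv
    rw [ord_add_eq_of_lt v one_ne_zero hgr0 h1, v.ord_one]
  have hne : (1 + g ^ r : F) ≠ 0 := by
    intro h0
    have h1 : v.ord (1 : F) < v.ord (g ^ r) := by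
      rw [v.ord_one, ord_pow]; exact mul_pos hrpos hgv
    have h2 : g ^ r = -1 := by rw [← sub_eq_zero, sub_neg_eq_add, add_comm]; exact h0
    rw [h2, ord_neg, v.ord_one] at h1
    exact lt_irrefl _ h1
  refine ⟨(1 + g ^ r)⁻¹, inv_ne_zero hne, by rw [v.ord_inv, hv1, neg_zero], ?_⟩
  intro w hw
  have hgw := hgS w hw
  have h1 : w.ord (g ^ r) < w.ord (1 : F) := by
    rw [w.ord_one, ord_pow]; exact mul_neg_of_pos_of_neg hrpos hgw
  have h2 : w.ord (1 + g ^ r) = w.ord (g ^ r) := by
    rw [add_comm]; exact ord_add_eq_of_lt w hgr0 one_ne_zero h1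
  rw [w.ord_inv, h2, ord_pow]
  have h3 : (r : ℤ) * w.ord g ≤ -(r : ℤ) := by nlinarith
  rw [hr] at h3 ⊢
  push_cast at h3 ⊢
  omega

/-- The order of a finite sum all of whose terms are `0` or of order `> n`. -/
theorem ord_sum_gt (v : Place K F) {ι : Type*} (s : Finset ι) (y : ι → F) (n : ℤ)
    (h : ∀ i ∈ s, y i = 0 ∨ n < v.ord (y i)) :
    ∑ i ∈ s, y i = 0 ∨ n < v.ord (∑ i ∈ s, y i) := by
  classical
  induction s using Finset.induction_on with
  | empty => left; simp
  | insert a s ha ih =>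
    rw [Finset.sum_insert ha]
    have h1 := h a (Finset.mem_insert_self _ _)
    have h2 := ih (fun i hi => h i (Finset.mem_insert_of_mem hi))
    have h1' : y a = 0 ∨ n + 1 ≤ v.ord (y a) := h1.imp id (fun h => by omega)
    have h2' : ∑ i ∈ s, y i = 0 ∨ n + 1 ≤ v.ord (∑ i ∈ s, y i) := h2.imp id (fun h => by omega)
    exact (ord_add_of_le v h1' h2').imp id (fun h => by omega)

end Fermat.Agent.Lib.RR

end
end
-- ===== PACK-END Lib/RR/Approx.lean

-- ===== PACK-BEGIN S24/Alg/Basic.lean
section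



/-!
# S24 / ALG — small lemmas on `Place.ord` used by the global assembly (helper984)
-/

set_option autoImplicit false

noncomputable section

open AlgebraicCurve KaehlerDifferential

namespace Fermat.Agent.S24

variable {K F : Type*} [Field K] [Field F] [Algebra K F]

theorem ord_algebraMap (v : Place K F) (c : K) : v.ord (algebraMap K F c) = 0 := by
  rcases eq_or_ne c 0 with rfl | hc
  · simp
  · have h1 : algebraMap K F c ∈ v.toValuationSubring := v.algebraMap_mem' c
    have h2 : algebraMap K F c⁻¹ ∈ v.toValuationSubring := v.algebraMap_mem' c⁻¹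
    have hu : IsUnit (⟨algebraMap K F c, h1⟩ : v.toValuationSubring) := by
      refine IsUnit.of_mul_eq_one (⟨algebraMap K F c⁻¹, h2⟩ : v.toValuationSubring) ?_
      apply Subtype.ext
      show algebraMap K F c * algebraMap K F c⁻¹ = 1
      rw [← map_mul, mul_inv_cancel₀ hc, map_one]
    have := v.ord_coe_unit hu.unit
    simpa using this

theorem ord_neg (v : Place K F) (x : F) : v.ord (-x) = v.ord x := by
  simp [Place.ord]

theorem le_ord_add (v : Place K F) {x y : F} {k : ℤ} (hx : x = 0 ∨ k ≤ v.ord x)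
    (hy : y = 0 ∨ k ≤ v.ord y) : x + y = 0 ∨ k ≤ v.ord (x + y) := by
  have hx' : v.adicValuation x ≤ WithZero.exp (-k) :=
    v.adicValuation_le_exp_iff.mpr (by simpa using hx)
  have hy' : v.adicValuation y ≤ WithZero.exp (-k) :=
    v.adicValuation_le_exp_iff.mpr (by simpa using hy)
  have := (Valuation.map_add v.adicValuation x y).trans (max_le hx' hy')
  simpa using v.adicValuation_le_exp_iff.mp this

theorem point_unique (v : Place K F) (j : F) {a b : K}
    (ha : 0 < v.ord (j - algebraMap K F a)) (hb : 0 < v.ord (j - algebraMap K F b)) :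
    a = b := by
  by_contra hab
  have hsub : (j - algebraMap K F a) + -(j - algebraMap K F b) = algebraMap K F (b - a) := by
    rw [map_sub]; ring
  have h := le_ord_add v (k := 1) (x := j - algebraMap K F a) (y := -(j - algebraMap K F b))
    (Or.inr ha) (Or.inr (by rw [ord_neg]; exact hb))
  rw [hsub, ord_algebraMap] at h
  rcases h with h | h
  · have : b - a = 0 := by
      have hinj := (algebraMap K F).injective
      exact hinj (by rw [h, map_zero])
    exact hab (sub_eq_zero.mp this).symm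
  · omega

theorem not_pos_ord_sub_of_pos_ord_inv (v : Place K F) (j : F) (a : K)
    (hinf : 0 < v.ord j⁻¹) : ¬ 0 < v.ord (j - algebraMap K F a) := by
  intro ha
  have hj : v.ord j < 0 := by
    have := v.ord_inv j
    omega
  have h := le_ord_add v (k := 0) (x := j - algebraMap K F a) (y := algebraMap K F a)
    (Or.inr ha.le) (Or.inr (by rw [ord_algebraMap]))
  rw [sub_add_cancel] at h
  rcases h with h | h
  · rw [h] at hj; simp at hj
  · omega

section Adjoin

variable (K) in
theorem adjoin_sub_algebraMap (j : F) (a : K) :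
    IntermediateField.adjoin K {j - algebraMap K F a} = IntermediateField.adjoin K {j} := by
  apply le_antisymm
  · rw [IntermediateField.adjoin_le_iff, Set.singleton_subset_iff]
    exact sub_mem (IntermediateField.mem_adjoin_simple_self K j)
      (IntermediateField.algebraMap_mem _ a)
  · rw [IntermediateField.adjoin_le_iff, Set.singleton_subset_iff]
    have h : (j - algebraMap K F a) + algebraMap K F a
        ∈ IntermediateField.adjoin K {j - algebraMap K F a} :=
      add_mem (IntermediateField.mem_adjoin_simple_self K _)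
        (IntermediateField.algebraMap_mem _ a)
    simpa using h

variable (K) in
theorem adjoin_inv (j : F) :
    IntermediateField.adjoin K {j⁻¹} = IntermediateField.adjoin K {j} := by
  apply le_antisymm
  · rw [IntermediateField.adjoin_le_iff, Set.singleton_subset_iff]
    exact inv_mem (IntermediateField.mem_adjoin_simple_self K j)
  · rw [IntermediateField.adjoin_le_iff, Set.singleton_subset_iff]
    have h : (j⁻¹)⁻¹ ∈ IntermediateField.adjoin K {j⁻¹} :=
      inv_mem (IntermediateField.mem_adjoin_simple_self K _)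
    simpa using h

theorem finiteDimensional_and_finrank_of_eq {E₁ E₂ : IntermediateField K F} (h : E₁ = E₂)
    [FiniteDimensional ↥E₂ F] :
    FiniteDimensional ↥E₁ F ∧ Module.finrank ↥E₁ F = Module.finrank ↥E₂ F := by
  subst h
  exact ⟨inferInstance, rfl⟩

end Adjoin

end Fermat.Agent.S24

end
end
-- ===== PACK-END S24/Alg/Basic.lean

-- ===== PACK-BEGIN S24/Deg/H457_Descent.lean
section


/-!
# S24 / DEG-ALG (helper457), part 1: descent of algebraic relations along a coefficient embedding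

`K →+* L` a field embedding, `coeffMap ι : K((q)) → L((q))`.
* `linearIndependent_coeffMap`: `coeffMap ι` maps `K`-linearly independent families to
  `L`-linearly independent families.
* `exists_relation_of_coeffMap_monic`: if `coeffMap ι a` is a root of a monic polynomial of
  degree `n` over `L[coeffMap ι J]`, then `a` is a root of a nonzero polynomial of degree `≤ n`
  over `K[J]`.
-/

set_option autoImplicit false

noncomputable section

open Polynomial ModularCurve

namespace Fermat.Agent.S24.Deg457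

variable {K L : Type*} [Field K] [Field L]

/-- `coeffMap ι` preserves linear independence (over the respective coefficient fields). -/
theorem linearIndependent_coeffMap (ι : K →+* L) {I : Type*} (v : I → LaurentSeries K)
    (hv : LinearIndependent K v) :
    LinearIndependent L (fun i => coeffMap ι (v i)) := by
  classical
  let _ : Algebra K L := ι.toAlgebra
  rw [linearIndependent_iff'] at hv ⊢
  intro s g hg i hi
  -- it suffices to show that every `K`-linear functional kills `g i`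
  rw [← Module.forall_dual_apply_eq_zero_iff K]
  intro φ
  refine hv s (fun i => φ (g i)) ?_ i hi
  ext k
  have hk := congrArg (fun x : LaurentSeries L => x.coeff k) hg
  simp only [HahnSeries.coeff_sum, HahnSeries.coeff_smul, coeffMap_coeff, smul_eq_mul,
    HahnSeries.coeff_zero] at hk ⊢
  have h2 := congrArg φ hk
  rw [map_zero, map_sum] at h2
  rw [← h2]
  refine Finset.sum_congr rfl fun x _ => ?_
  have : g x * ι ((v x).coeff k) = ((v x).coeff k) • g x := by
    rw [Algebra.smul_def, mul_comm]; rfl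
  rw [this, map_smul, smul_eq_mul, mul_comm]

/-- evaluation of polynomials at `J`, as a ring hom -/
abbrev evJ (J : LaurentSeries K) : K[X] →+* LaurentSeries K :=
  (aeval J : K[X] →ₐ[K] LaurentSeries K).toRingHom

theorem evJ_apply (J : LaurentSeries K) (p : K[X]) : evJ J p = aeval J p := rfl

theorem coeffMap_algebraMap' (ι : K →+* L) (c : K) :
    coeffMap ι (algebraMap K (LaurentSeries K) c) = algebraMap L (LaurentSeries L) (ι c) := by
  rw [algebraMap_laurentSeries_eq_single, algebraMap_laurentSeries_eq_single, coeffMap_single]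

theorem coeffMap_smul' (ι : K →+* L) (c : K) (x : LaurentSeries K) :
    coeffMap ι (c • x) = ι c • coeffMap ι x := by
  ext k; simp

/-- the `HahnSeries` scalar action agrees with multiplication by `algebraMap` (for the
power-series algebra structure on Laurent series). -/
theorem hsmul_eq_algebraMap_mul (c : K) (x : LaurentSeries K) :
    c • x = algebraMap K (LaurentSeries K) c * x := by
  rw [algebraMap_laurentSeries_eq_single, HahnSeries.single_zero_mul_eq_smul]

/-- bivariate polynomial attached to a finite coefficient table -/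
def tablePoly {D n : ℕ} (g : Fin (D + 1) × Fin (n + 1) → K) : K[X][X] :=
  ∑ k : Fin (n + 1), monomial (k : ℕ) (∑ i : Fin (D + 1), monomial (i : ℕ) (g (i, k)))

theorem tablePoly_coeff_coeff {D n : ℕ} (g : Fin (D + 1) × Fin (n + 1) → K)
    (i : Fin (D + 1)) (k : Fin (n + 1)) :
    ((tablePoly g).coeff k).coeff i = g (i, k) := by
  classical
  simp only [tablePoly, finsetSum_coeff, coeff_monomial]
  rw [Finset.sum_eq_single k]
  · simp only [if_true, finsetSum_coeff, coeff_monomial]
    rw [Finset.sum_eq_single i]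
    · simp
    · intro b _ hb
      rw [if_neg]
      exact fun h => hb (Fin.ext h)
    · simp
  · intro b _ hb
    rw [if_neg]
    · simp
    · exact fun h => hb (Fin.ext h)
  · simp

theorem tablePoly_natDegree_le {D n : ℕ} (g : Fin (D + 1) × Fin (n + 1) → K) :
    (tablePoly g).natDegree ≤ n := by
  refine natDegree_sum_le_of_forall_le _ _ fun k _ => ?_
  exact (natDegree_monomial_le _).trans (Nat.lt_succ_iff.mp k.2)

theorem tablePoly_eval₂ {D n : ℕ} (g : Fin (D + 1) × Fin (n + 1) → K)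
    (J a : LaurentSeries K) :
    (tablePoly g).eval₂ (evJ J) a = ∑ p : Fin (D + 1) × Fin (n + 1), g p • (J ^ (p.1 : ℕ) * a ^ (p.2 : ℕ)) := by
  rw [tablePoly, eval₂_finsetSum, Fintype.sum_prod_type_right]
  refine Finset.sum_congr rfl fun k _ => ?_
  rw [eval₂_monomial, evJ_apply, map_sum, Finset.sum_mul]
  refine Finset.sum_congr rfl fun i _ => ?_
  rw [aeval_monomial, hsmul_eq_algebraMap_mul, mul_assoc]

/-- **Descent**: a monic relation of degree `n` over `L[ι J]` for `ι a` gives a nonzero relation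
of degree `≤ n` over `K[J]` for `a`. -/
theorem exists_relation_of_coeffMap_monic (ι : K →+* L) (J a : LaurentSeries K) (n : ℕ)
    (P : L[X][X]) (hP : P.Monic) (hn : P.natDegree = n)
    (h0 : P.eval₂ (evJ (coeffMap ι J)) (coeffMap ι a) = 0) :
    ∃ Q : K[X][X], Q ≠ 0 ∧ Q.natDegree ≤ n ∧ Q.eval₂ (evJ J) a = 0 := by
  classical
  set D : ℕ := P.support.sup fun k => (P.coeff k).natDegree with hD
  have hDle : ∀ k, (P.coeff k).natDegree ≤ D := by
    intro k
    by_cases hk : k ∈ P.support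
    · exact Finset.le_sup (f := fun k => (P.coeff k).natDegree) hk
    · rw [notMem_support_iff.mp hk]; simp
  let v : Fin (D + 1) × Fin (n + 1) → LaurentSeries K := fun p => J ^ (p.1 : ℕ) * a ^ (p.2 : ℕ)
  have hnot : ¬ LinearIndependent K v := by
    intro hv
    have hw := linearIndependent_coeffMap ι v hv
    rw [Fintype.linearIndependent_iff] at hw
    have key := hw (fun p => (P.coeff p.2).coeff p.1) ?_ (0, Fin.last n)
    · simp only [Fin.val_last] at key
      rw [← hn, hP.coeff_natDegree] at key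
      simp at key
    · rw [Fintype.sum_prod_type_right]
      rw [eval₂_eq_sum_range' _ (n := n + 1) (by omega)] at h0
      rw [← h0, Finset.sum_range]
      refine Finset.sum_congr rfl fun k _ => ?_
      rw [evJ_apply, aeval_eq_sum_range' (n := D + 1) (Nat.lt_succ_of_le (hDle _)),
        Finset.sum_range, Finset.sum_mul]
      refine Finset.sum_congr rfl fun i _ => ?_
      simp only [v, map_mul, map_pow]
      rw [hsmul_eq_algebraMap_mul, Algebra.smul_def, mul_assoc]
  rw [Fintype.not_linearIndependent_iff] at hnot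
  obtain ⟨g, hg, p, hp⟩ := hnot
  refine ⟨tablePoly g, ?_, tablePoly_natDegree_le g, ?_⟩
  · intro h
    apply hp
    rw [← tablePoly_coeff_coeff g p.1 p.2, h]
    simp
  · rw [tablePoly_eval₂]
    exact hg

end Fermat.Agent.S24.Deg457

end
end
-- ===== PACK-END S24/Deg/H457_Descent.lean

-- ===== PACK-BEGIN S24/Deg/H457_Alg.lean
section




/-!
# S24 / DEG-ALG (helper457), part 3: the degree bound from relations over `ℂ`

Interface hypothesis `Hyp L N n` (to be proved analytically for `L = ℂ`, `n = |SL₂(ℤ)/Γ₀(N)|`):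
every element of the `L`-subalgebra of `L((q))` generated by the `j(q^d)`, `d ∣ N`, is a root of a
monic polynomial of degree `n` with coefficients in `L[j]`.

Main result: `finiteDimensional_and_finrank_le`.
-/

set_option autoImplicit false

noncomputable section

open Polynomial ModularCurve IntermediateField

namespace Fermat.Agent.S24.Deg457

section General

variable (K : Type*) [Field K] [Algebra ℚ K]

/-- `j` as a Laurent series over `K` -/
def JK : LaurentSeries K := coeffEmb K jq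

theorem JK_eq : JK K = jqModC K := by
  rw [JK, coeffEmb, ← jqModC_rat, coeffMap_jqModC]

theorem aeval_JK_ne_zero {t : K[X]} (ht : t ≠ 0) : aeval (JK K) t ≠ 0 := by
  intro hp
  rw [JK_eq] at hp
  set n := t.natDegree with hn
  have hcoeff : (aeval (jqModC K) t).coeff (-(n : ℤ)) = t.coeff n := by
    rw [aeval_def, eval₂_eq_sum_range, HahnSeries.coeff_sum, Finset.sum_eq_single n]
    · rw [algebraMap_laurentSeries_eq_single, HahnSeries.coeff_single_zero_mul,
        coeff_jqModC_pow_self, mul_one]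
    · intro i hi hin
      have hilt : i < n := lt_of_le_of_ne (Nat.lt_succ_iff.mp (Finset.mem_range.mp hi)) hin
      rw [algebraMap_laurentSeries_eq_single, HahnSeries.coeff_single_zero_mul,
        coeff_jqModC_pow_of_lt, mul_zero]
      omega
    · intro hn'
      exact absurd (Finset.self_mem_range_succ n) hn'
  rw [hp] at hcoeff
  simp only [HahnSeries.coeff_zero] at hcoeff
  exact ht (leadingCoeff_eq_zero.mp hcoeff.symm)

/-- the generators `j(q^d)`, `d ∣ N`, over `K` -/
def gens (N : ℕ) : Set (LaurentSeries K) := ⇑(coeffEmb K) '' divisorExpansions N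

/-- the `K`-algebra generated by the `j(q^d)` -/
def AK (N : ℕ) : Subalgebra K (LaurentSeries K) := Algebra.adjoin K (gens K N)

theorem JK_mem_gens (N : ℕ) : JK K ∈ gens K N := by
  refine ⟨jq, ?_, rfl⟩
  have := mem_divisorExpansions N (d := 1) (one_dvd N)
  rwa [qExpand_one_apply] at this

theorem JK_mem_AK (N : ℕ) : JK K ∈ AK K N := Algebra.subset_adjoin (JK_mem_gens K N)

theorem aeval_JK_mem_AK (N : ℕ) (t : K[X]) : aeval (JK K) t ∈ AK K N := by
  rw [aeval_def, eval₂_eq_sum_range]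
  refine Subalgebra.sum_mem _ fun i _ => ?_
  exact Subalgebra.mul_mem _ (Subalgebra.algebraMap_mem _ _)
    (Subalgebra.pow_mem _ (JK_mem_AK K N) _)

/-- The interface hypothesis. -/
def Hyp (N n : ℕ) : Prop :=
  ∀ b ∈ AK K N, ∃ P : K[X][X], P.Monic ∧ P.natDegree = n ∧ P.eval₂ (evJ (JK K)) b = 0

/-- `x` is a root of a nonzero polynomial of degree `≤ n` over `K[j]`. -/
def AlgDeg (n : ℕ) (x : LaurentSeries K) : Prop :=
  ∃ Q : K[X][X], Q ≠ 0 ∧ Q.natDegree ≤ n ∧ Q.eval₂ (evJ (JK K)) x = 0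

variable {K}

theorem eval₂_mem_AK {N : ℕ} (Q : K[X][X]) {s : LaurentSeries K} (hs : s ∈ AK K N) :
    Q.eval₂ (evJ (JK K)) s ∈ AK K N := by
  rw [eval₂_eq_sum_range]
  refine Subalgebra.sum_mem _ fun i _ => ?_
  exact Subalgebra.mul_mem _ (aeval_JK_mem_AK K N _) (Subalgebra.pow_mem _ hs _)

theorem AlgDeg.of_mul_eq {n : ℕ} {x a : LaurentSeries K} {t : K[X]} (ht : t ≠ 0)
    (hxa : x * aeval (JK K) t = a) (ha : AlgDeg K n a) : AlgDeg K n x := by
  obtain ⟨Q, hQ0, hQn, hQ⟩ := ha
  have hlin : (C t * X : K[X][X]) ≠ C ((C t * X : K[X][X]).coeff 0) := by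
    intro h
    have h1 := congrArg (fun p : K[X][X] => p.coeff 1) h
    simp only [coeff_C_mul, coeff_X_one, mul_one, coeff_X_zero, mul_zero, map_zero,
      coeff_zero] at h1
    exact ht h1
  refine ⟨Q.comp (C t * X), ?_, ?_, ?_⟩
  · intro h
    rcases (comp_eq_zero_iff.mp h) with h | ⟨_, h⟩
    · exact hQ0 h
    · exact hlin h
  · rw [natDegree_comp]
    have : (C t * X : K[X][X]).natDegree ≤ 1 := by
      refine (natDegree_C_mul_le _ _).trans ?_
      exact natDegree_X_le
    calc Q.natDegree * (C t * X : K[X][X]).natDegree ≤ Q.natDegree * 1 :=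
          Nat.mul_le_mul_left _ this
      _ = Q.natDegree := mul_one _
      _ ≤ n := hQn
  · rw [eval₂_comp, eval₂_mul, eval₂_C, eval₂_X, evJ_apply, mul_comm, hxa]
    exact hQ

/-- a nonzero algebraic element of `A` has an "inverse up to a polynomial in `j`" in `A`. -/
theorem exists_mul_eq_aeval {N n : ℕ} {s : LaurentSeries K} (hs : s ∈ AK K N) (hs0 : s ≠ 0)
    (ha : AlgDeg K n s) : ∃ g ∈ AK K N, ∃ t : K[X], t ≠ 0 ∧ s * g = aeval (JK K) t := by
  obtain ⟨Q, hQ0, -, hQ⟩ := ha
  -- strong induction on the degree to reach a nonzero constant coefficient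
  have key : ∀ m : ℕ, ∀ Q : K[X][X], Q.natDegree ≤ m → Q ≠ 0 → Q.eval₂ (evJ (JK K)) s = 0 →
      ∃ Q₁ : K[X][X], Q₁.coeff 0 ≠ 0 ∧ Q₁.eval₂ (evJ (JK K)) s = 0 := by
    intro m
    induction m with
    | zero =>
      intro Q hdeg hQ0 hQ
      refine ⟨Q, ?_, hQ⟩
      intro h0
      apply hQ0
      rw [eq_C_of_natDegree_le_zero hdeg, h0, map_zero]
    | succ m ih =>
      intro Q hdeg hQ0 hQ
      by_cases h0 : Q.coeff 0 = 0
      · have hdiv : Q = divX Q * X := by
          conv_lhs => rw [← divX_mul_X_add Q, h0, map_zero, add_zero]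
        have hd0 : divX Q ≠ 0 := by
          intro h; apply hQ0; rw [hdiv, h, zero_mul]
        have hev : (divX Q).eval₂ (evJ (JK K)) s = 0 := by
          rw [hdiv, eval₂_mul, eval₂_X] at hQ
          rcases mul_eq_zero.mp hQ with h | h
          · exact h
          · exact absurd h hs0
        refine ih (divX Q) ?_ hd0 hev
        rw [natDegree_divX_eq_natDegree_tsub_one]
        omega
      · exact ⟨Q, h0, hQ⟩
  obtain ⟨Q₁, h0, hQ₁⟩ := key Q.natDegree Q le_rfl hQ0 hQ
  refine ⟨-(divX Q₁).eval₂ (evJ (JK K)) s, Subalgebra.neg_mem _ (eval₂_mem_AK _ hs),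
    Q₁.coeff 0, h0, ?_⟩
  have hsplit : Q₁.eval₂ (evJ (JK K)) s
      = (divX Q₁).eval₂ (evJ (JK K)) s * s + aeval (JK K) (Q₁.coeff 0) := by
    conv_lhs => rw [← divX_mul_X_add Q₁]
    rw [eval₂_add, eval₂_mul, eval₂_X, eval₂_C, evJ_apply]
  rw [hQ₁] at hsplit
  linear_combination hsplit

end General

section Descent

variable {K L : Type*} [Field K] [Algebra ℚ K] [Field L] [Algebra ℚ L]

theorem coeffMap_coeffEmb' (ι : K →+* L) (y : LaurentSeries ℚ) :
    coeffMap ι (coeffEmb K y) = coeffEmb L y := by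
  rw [coeffEmb, coeffMap_coeffMap, coeffEmb]
  exact coeffMap_congr (Subsingleton.elim _ _) y

theorem coeffMap_JK (ι : K →+* L) : coeffMap ι (JK K) = JK L := coeffMap_coeffEmb' ι jq

theorem coeffMap_mem_AK (ι : K →+* L) {N : ℕ} {a : LaurentSeries K} (ha : a ∈ AK K N) :
    coeffMap ι a ∈ AK L N := by
  unfold AK at ha
  induction ha using Algebra.adjoin_induction with
  | mem x hx =>
    obtain ⟨y, hy, rfl⟩ := hx
    rw [coeffMap_coeffEmb']
    exact Algebra.subset_adjoin ⟨y, hy, rfl⟩
  | algebraMap r =>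
    rw [coeffMap_algebraMap']
    exact Subalgebra.algebraMap_mem _ _
  | add x y _ _ hx hy =>
    rw [map_add]; exact Subalgebra.add_mem _ hx hy
  | mul x y _ _ hx hy =>
    rw [map_mul]; exact Subalgebra.mul_mem _ hx hy

/-- Lemma B: elements of `A_K` are algebraic of degree `≤ n` over `K[j]`, given the hypothesis
over the bigger field `L`. -/
theorem algDeg_of_mem_AK (ι : K →+* L) {N n : ℕ} (hyp : Hyp L N n) {a : LaurentSeries K}
    (ha : a ∈ AK K N) : AlgDeg K n a := by
  obtain ⟨P, hP, hn, h0⟩ := hyp _ (coeffMap_mem_AK ι ha)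
  rw [← coeffMap_JK ι] at h0
  exact exists_relation_of_coeffMap_monic ι (JK K) a n P hP hn h0

end Descent

section Field

variable {K L : Type*} [Field K] [Algebra ℚ K] [Field L] [Algebra ℚ L]

theorem coeffEmb_mem_adjoin_gens (N : ℕ) {y : LaurentSeries ℚ}
    (hy : y ∈ IntermediateField.adjoin ℚ (divisorExpansions N)) :
    coeffEmb K y ∈ IntermediateField.adjoin K (gens K N) := by
  refine IntermediateField.adjoin_induction ℚ
    (p := fun y _ => coeffEmb K y ∈ IntermediateField.adjoin K (gens K N)) ?_ ?_ ?_ ?_ ?_ hy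
  · intro x hx
    exact IntermediateField.subset_adjoin K _ ⟨x, hx, rfl⟩
  · intro c
    have : coeffEmb K (algebraMap ℚ (LaurentSeries ℚ) c)
        = algebraMap K (LaurentSeries K) (algebraMap ℚ K c) := by
      rw [coeffEmb, coeffMap_algebraMap']
    rw [this]
    exact IntermediateField.algebraMap_mem _ _
  · intro x y _ _ hx hy
    rw [map_add]; exact add_mem hx hy
  · intro x _ hx
    rw [map_inv₀]; exact inv_mem hx
  · intro x y _ _ hx hy
    rw [map_mul]; exact mul_mem hx hy

/-- the base-changed function field is generated over `K` by the `j(q^d)`. -/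
theorem laurentBaseChange_full_le (N : ℕ) :
    laurentBaseChange K (modularFunctionFieldFull N) ≤ IntermediateField.adjoin K (gens K N) := by
  rw [laurentBaseChange, IntermediateField.adjoin_le_iff]
  rintro _ ⟨y, hy, rfl⟩
  exact coeffEmb_mem_adjoin_gens N hy

/-- Lemma H: every element of the function field is algebraic of degree `≤ n` over `K[j]`. -/
theorem algDeg_of_mem_field (ι : K →+* L) {N n : ℕ} (hyp : Hyp L N n) {x : LaurentSeries K}
    (hx : x ∈ laurentBaseChange K (modularFunctionFieldFull N)) : AlgDeg K n x := by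
  have hx' := laurentBaseChange_full_le (K := K) N hx
  rw [IntermediateField.mem_adjoin_iff_div] at hx'
  obtain ⟨r, hr, s, hs, rfl⟩ := hx'
  have hr' : r ∈ AK K N := hr
  have hs' : s ∈ AK K N := hs
  by_cases hs0 : s = 0
  · subst hs0
    rw [div_zero]
    exact algDeg_of_mem_AK ι hyp (Subalgebra.zero_mem _)
  · obtain ⟨g, hg, t, ht, hst⟩ := exists_mul_eq_aeval hs' hs0 (algDeg_of_mem_AK ι hyp hs')
    refine AlgDeg.of_mul_eq (a := r * g) ht ?_ (algDeg_of_mem_AK ι hyp (Subalgebra.mul_mem _ hr' hg))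
    rw [← hst]
    field_simp

end Field

end Fermat.Agent.S24.Deg457

end
end
-- ===== PACK-END S24/Deg/H457_Alg.lean

-- ===== PACK-BEGIN S29/DefsM.lean
section
/-
S29 row — FROZEN interface definitions for layer M (the torsion module).  Row-lead helper269.
Namespace `Fermat.Agent.S29`.  Do not edit; propose changes via a note kind='question' stmt='S29'.
-/



set_option autoImplicit false

noncomputable section

namespace Fermat.Agent.S29

open ModularCurve AlgebraicCurve
open scoped TensorProduct MatrixGroups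

/-! ### The `p`-torsion of `J₀(N)(ℚ̄)` (Prelude `JZero N`) with Hecke and Galois operators -/

section Jp

variable (N : ℕ) [NeZero N] (p : ℕ)

/-- `J₀(N)(ℚ̄)[p]` as a `ℤ`-submodule of the Prelude's `JZero N`. -/
abbrev Jp : Submodule ℤ (JZero N) := Submodule.torsionBy ℤ (JZero N) (p : ℤ)

/-- The Prelude Hecke operator `T_ℓ` restricted to `J₀(N)[p]`. -/
def heckeJp (ℓ : Nat.Primes) : Jp N p →ₗ[ℤ] Jp N p :=
  (heckeOperatorBar N ℓ).restrict (p := Jp N p) (q := Jp N p) (fun x hx => by
    rw [Submodule.mem_torsionBy_iff] at hx ⊢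
    rw [← map_smul, hx, map_zero])

@[simp] theorem coe_heckeJp (ℓ : Nat.Primes) (x : Jp N p) :
    ((heckeJp N p ℓ x : Jp N p) : JZero N) = heckeOperatorBar N ℓ (x : JZero N) := rfl

/-- The Galois action on `J₀(N)[p]`. -/
def galJp (σ : GQ) : Jp N p →ₗ[ℤ] Jp N p :=
  ((DistribSMul.toAddMonoidHom (JZero N) σ).toIntLinearMap).restrict
    (p := Jp N p) (q := Jp N p) (fun x hx => by
    rw [Submodule.mem_torsionBy_iff] at hx ⊢
    rw [← map_smul, hx, map_zero])

omit [NeZero N] in
@[simp] theorem coe_galJp (σ : GQ) (x : Jp N p) :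
    ((galJp N p σ x : Jp N p) : JZero N) = σ • (x : JZero N) := rfl

end Jp

/-! ### Parabolic additive characters of `Γ₀(N)` and the cohomological Hecke operator -/

section ParHom

variable (N : ℕ)

/-- The group `Γ₀(N)` as a type. -/
abbrev G0 : Type := ↥(CongruenceSubgroup.Gamma0 N)

/-- Integer matrix of an element of `Γ₀(N)`. -/
def G0.mat {N : ℕ} (γ : G0 N) : Matrix (Fin 2) (Fin 2) ℤ := ((γ : SL(2, ℤ)) : Matrix (Fin 2) (Fin 2) ℤ)

/-- `c : Γ₀(N) → A` is an additive character vanishing on all elements of trace `±2`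
(cusp stabilisers, `-1`) and on all torsion (elliptic) elements. -/
structure IsParHom {N : ℕ} {A : Type*} [AddCommGroup A] (c : G0 N → A) : Prop where
  map_mul : ∀ γ γ' : G0 N, c (γ * γ') = c γ + c γ'
  parabolic : ∀ γ : G0 N, (γ.mat.trace = 2 ∨ γ.mat.trace = -2) → c γ = 0
  elliptic : ∀ (γ : G0 N) (n : ℕ), 0 < n → γ ^ n = 1 → c γ = 0

/-- Coset representatives of `Γ₀(N) \ Γ₀(N) diag(1,ℓ) Γ₀(N)` (`ℓ ∤ N` prime):
`none ↦ [[ℓ,0],[0,1]]`, `some b ↦ [[1,b],[0,ℓ]]`. -/
def heckeRep (ℓ : ℕ) : Option (Fin ℓ) → Matrix (Fin 2) (Fin 2) ℤ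
  | none => !![(ℓ : ℤ), 0; 0, 1]
  | some b => !![1, ((b : ℕ) : ℤ); 0, (ℓ : ℤ)]

/-- `heckeRep i * γ = γ' * heckeRep j`. -/
def IsHeckeFactor {N : ℕ} (ℓ : ℕ) (γ : G0 N) (i : Option (Fin ℓ)) (q : Option (Fin ℓ) × G0 N) :
    Prop :=
  heckeRep ℓ i * γ.mat = q.2.mat * heckeRep ℓ q.1

open Classical in
/-- The (unique, for `ℓ ∤ N` prime) pair `(j, γ')` with `heckeRep i * γ = γ' * heckeRep j`. -/
def heckeFac (ℓ : ℕ) (γ : G0 N) (i : Option (Fin ℓ)) : Option (Fin ℓ) × G0 N :=
  if h : ∃ q : Option (Fin ℓ) × G0 N, IsHeckeFactor ℓ γ i q then Classical.choose h else (i, 1)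

/-- The cohomological Hecke operator on functions `Γ₀(N) → A`:
`(T_ℓ c)(γ) = ∑ᵢ c(γ'ᵢ)` where `αᵢ γ = γ'ᵢ α_{π(i)}`. -/
def heckeCoh {A : Type*} [AddCommMonoid A] (ℓ : ℕ) (c : G0 N → A) : G0 N → A :=
  fun γ => ∑ i : Option (Fin ℓ), c (heckeFac N ℓ γ i).2

end ParHom

/-! ### External input: the frozen statement S37 -/

/-- The frozen statement S37 as a `Prop` (row S37 proves it as `Fermat.Agent.S37.result`). -/
def S37Statement : Prop :=
  ∀ (N p : ℕ) [NeZero N] (_ : ModularCurve.HeckeOperatorsCommuteBar N),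
    letI := ModularCurve.heckeModuleBar N
    ∀ (_ : SMulCommClass GQ ModularCurve.HeckeAlg (ModularCurve.JZero N)),
      ModularCurve.SpecializationExists (K := ℚ) (L := AlgebraicClosure ℚ) N p
        (ModularCurve.JZero N)

end Fermat.Agent.S29

end
end
-- ===== PACK-END S29/DefsM.lean

-- ===== PACK-BEGIN S28/H145/PrimeDegree.lean
section





/-!
# Leaf [L.B2] of the S28 plan: the prime-level degrees are `p + 1`

From the modular polynomial `Φ_p` (`ModPolyData p`) and `j(q^p) ∉ k(j)` we deduce that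
`j(q^p)` has degree exactly `p + 1` over `k(j)` and `j` has degree exactly `p + 1` over
`k(j(q^p))`.
-/

set_option autoImplicit false

noncomputable section

open ModularCurve HahnSeries Polynomial

namespace Fermat.Agent.S28.H145

variable (k : Type*) [Field k]

/-! ### Basic facts on `j` -/

theorem jqModC_ne_zero' : jqModC k ≠ 0 := jqModC_ne_zero_of_nontrivial k

theorem order_jqModC : (jqModC k).order = -1 := by
  have h1 : (jqModC k).coeff (-1) ≠ 0 := by
    rw [coeff_jqModC_neg_one]; exact one_ne_zero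
  refine le_antisymm (HahnSeries.order_le_of_coeff_ne_zero h1) ?_
  by_contra hlt
  rw [not_le] at hlt
  exact (HahnSeries.coeff_order_eq_zero.not.mpr (jqModC_ne_zero' k)) (coeff_jqModC_of_lt k hlt)

theorem isCoprime_order_jqModC (p : ℕ) : IsCoprime (jqModC k).order (p : ℤ) := by
  rw [order_jqModC]
  exact (isCoprime_one_left).neg_left

/-- `j ∉ range V_p` for `p ≥ 2`. -/
theorem jqModC_notMem_range (p : ℕ) [NeZero p] (hp : 2 ≤ p) :
    jqModC k ∉ (qExpand k p).range := by
  rintro ⟨z, hz⟩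
  have h := dvd_order_qExpand (k := k) p z
  rw [hz, order_jqModC] at h
  have h1 : (p : ℤ) ∣ 1 := (dvd_neg.mp h)
  have h2 : (p : ℤ) ≤ 1 := Int.le_of_dvd one_pos h1
  have : (2 : ℤ) ≤ p := by exact_mod_cast hp
  omega

/-! ### Transfer of the modular equation to `k` -/

theorem coeffMap_comp_evalAt {A B : Type*} [CommRing A] [CommRing B] (f : A →+* B)
    (y : LaurentSeries A) :
    (coeffMap f).comp (evalAt y) = evalAt (coeffMap f y) := by
  refine Polynomial.ringHom_ext' (Subsingleton.elim _ _) ?_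
  simp [evalAt]

theorem qExpand_comp_evalAt {A : Type*} [CommRing A] (p : ℕ) [NeZero p] (y : LaurentSeries A) :
    (qExpand A p).comp (evalAt y) = evalAt (qExpand A p y) := by
  refine Polynomial.ringHom_ext' (Subsingleton.elim _ _) ?_
  simp [evalAt]

variable {k} in
theorem modPoly_eval_jp_field {p : ℕ} [NeZero p] (Φ : ModPolyData p) :
    Φ.Φ.eval₂ (evalAt (jqModC k)) (qExpand k p (jqModC k)) = 0 := by
  have h := congrArg (coeffMap (Int.castRingHom k)) Φ.eval_jp
  rwa [Polynomial.hom_eval₂, coeffMap_comp_evalAt, coeffMap_qExpand, coeffMap_jqModC, map_zero]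
    at h

variable {k} in
theorem modPoly_eval_j_field {p : ℕ} [NeZero p] (Φ : ModPolyData p) :
    Φ.Φ.eval₂ (evalAt (qExpand k p (jqModC k))) (jqModC k) = 0 := by
  have h := congrArg (coeffMap (Int.castRingHom k)) Φ.eval_j
  rwa [Polynomial.hom_eval₂, coeffMap_comp_evalAt, coeffMap_qExpand, coeffMap_jqModC, map_zero]
    at h

variable {k} in
/-- `Φ_p(j(q^{p²}), j(q^p)) = 0`. -/
theorem modPoly_eval_jpp_field {p : ℕ} [NeZero p] (Φ : ModPolyData p) :
    Φ.Φ.eval₂ (evalAt (qExpand k p (jqModC k))) (qExpand k p (qExpand k p (jqModC k))) = 0 := by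
  have h := congrArg (qExpand k p) (modPoly_eval_jp_field (k := k) Φ)
  rwa [Polynomial.hom_eval₂, qExpand_comp_evalAt, map_zero] at h

/-! ### Polynomials over intermediate fields -/

section Sub

variable {k}
variable (K : IntermediateField k (LaurentSeries k))

/-- The ring hom `ℤ[Y] → K`, `Y ↦ y`, for `y ∈ K`. -/
def evalAtSub (y : LaurentSeries k) (hy : y ∈ K) : Polynomial ℤ →+* K :=
  Polynomial.eval₂RingHom (Int.castRingHom K) ⟨y, hy⟩

theorem algebraMap_comp_evalAtSub (y : LaurentSeries k) (hy : y ∈ K) :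
    (algebraMap K (LaurentSeries k)).comp (evalAtSub K y hy) = evalAt y := by
  refine Polynomial.ringHom_ext' (Subsingleton.elim _ _) ?_
  simp [evalAtSub, evalAt]

theorem aeval_map_evalAtSub (y : LaurentSeries k) (hy : y ∈ K) (P : Polynomial (Polynomial ℤ))
    (x : LaurentSeries k) :
    Polynomial.aeval x (P.map (evalAtSub K y hy)) = P.eval₂ (evalAt y) x := by
  rw [Polynomial.aeval_def, Polynomial.eval₂_map, algebraMap_comp_evalAtSub]

end Sub

/-! ### The fields `k(j)` and `k(j(q^p))` -/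

section Fields

variable (p : ℕ) [NeZero p]

/-- `k(j(q^p)) = V_p(k(j))`. -/
def jpField : IntermediateField k (LaurentSeries k) :=
  (jField k).map (qExpandAlgHomC k p)

variable {k p}

theorem jqModC_mem_jField : jqModC k ∈ jField k :=
  IntermediateField.mem_adjoin_simple_self k _

theorem jp_mem_jpField : qExpand k p (jqModC k) ∈ jpField k p :=
  (IntermediateField.mem_map _).mpr ⟨jqModC k, jqModC_mem_jField, rfl⟩

theorem jpField_eq_adjoin :
    jpField k p = IntermediateField.adjoin k {qExpand k p (jqModC k)} := by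
  rw [jpField, jField, IntermediateField.adjoin_map]
  simp

theorem mem_range_of_mem_jpField {y : LaurentSeries k} (hy : y ∈ jpField k p) :
    y ∈ (qExpand k p).range := by
  obtain ⟨x, -, rfl⟩ := (IntermediateField.mem_map _).mp hy
  exact ⟨x, rfl⟩

theorem jp_mem_jField_of_jpp_mem
    (h : qExpand k p (qExpand k p (jqModC k)) ∈ jpField k p) :
    qExpand k p (jqModC k) ∈ jField k := by
  obtain ⟨x, hx, hxe⟩ := (IntermediateField.mem_map _).mp h
  have : x = qExpand k p (jqModC k) := qExpand_injective p hxe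
  rwa [← this]

end Fields

/-! ### The degree of `j` over `k(j(q^p))` -/

section Main

variable {k} {p : ℕ} [NeZero p]

/-- A monic polynomial of degree `p` with coefficients in the range of `V_p` cannot kill both
`j` and an element of the range of `V_p`. -/
theorem false_of_monic_natDegree_eq_of_roots (hp : 2 ≤ p) (f : Polynomial (LaurentSeries k))
    (hf : f.Monic) (hdeg : f.natDegree = p) (hcoef : ∀ n, f.coeff n ∈ (qExpand k p).range)
    (hj : f.eval (jqModC k) = 0) (z : LaurentSeries k) (hz : f.eval (qExpand k p z) = 0) :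
    False := by
  have hlift : f ∈ Polynomial.lifts (qExpand k p) :=
    (Polynomial.lifts_iff_coeff_lifts f).mpr fun n => by
      obtain ⟨c, hc⟩ := hcoef n
      exact ⟨c, hc⟩
  obtain ⟨m', hm'map, hm'deg, hm'monic⟩ := Polynomial.lifts_and_natDegree_eq_and_monic hlift hf
  have hroot : m'.IsRoot z := by
    have h1 : (qExpand k p) (m'.eval z) = 0 := by
      rw [← Polynomial.eval₂_hom, ← Polynomial.eval_map, hm'map]; exact hz
    exact qExpand_injective p (by rw [h1, map_zero])
  have hfac : (X - Polynomial.C z) * (m' /ₘ (X - Polynomial.C z)) = m' := Polynomial.mul_divByMonic_eq_iff_isRoot.mpr hroot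
  set m₂ := m' /ₘ (X - Polynomial.C z) with hm₂
  have hm₂deg : m₂.natDegree = p - 1 := by
    rw [hm₂, Polynomial.natDegree_divByMonic _ (Polynomial.monic_X_sub_C z), hm'deg, hdeg,
      Polynomial.natDegree_X_sub_C]
  have hfmap : f = (X - Polynomial.C (qExpand k p z)) * m₂.map (qExpand k p) := by
    rw [← hm'map, ← hfac, Polynomial.map_mul, Polynomial.map_sub, Polynomial.map_X,
      Polynomial.map_C]
  have hne : jqModC k - qExpand k p z ≠ 0 := by
    intro h
    exact jqModC_notMem_range k p hp ⟨z, (sub_eq_zero.mp h).symm⟩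
  have hj2 : (m₂.map (qExpand k p)).eval (jqModC k) = 0 := by
    have := hj
    rw [hfmap, Polynomial.eval_mul, Polynomial.eval_sub, Polynomial.eval_X, Polynomial.eval_C]
      at this
    exact (mul_eq_zero.mp this).resolve_left hne
  have hzero : m₂.map (qExpand k p) = 0 := by
    refine eq_zero_of_eval_eq_zero_of_natDegree_lt p (jqModC k) (jqModC_ne_zero' k)
      (isCoprime_order_jqModC k p) _ (fun n => ?_) ?_ hj2
    · rw [Polynomial.coeff_map]; exact ⟨_, rfl⟩
    · calc (m₂.map (qExpand k p)).natDegree ≤ m₂.natDegree := Polynomial.natDegree_map_le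
        _ = p - 1 := hm₂deg
        _ < p := by omega
  rw [hzero, mul_zero] at hfmap
  exact hf.ne_zero hfmap

/-- **[L.B2], first half.** The minimal polynomial of `j` over `k(j(q^p))` is `Φ_p(X, j(q^p))`,
of degree `p + 1`. -/
theorem minpoly_j_over_jpField (Φ : ModPolyData p) (hp : 2 ≤ p)
    (hB1 : qExpand k p (jqModC k) ∉ jField k) :
    minpoly (jpField k p) (jqModC k) =
      Φ.Φ.map (evalAtSub (jpField k p) _ jp_mem_jpField) := by
  set K₁ := jpField k p with hK₁
  set P₁ : Polynomial K₁ := Φ.Φ.map (evalAtSub K₁ _ jp_mem_jpField) with hP₁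
  have hP₁monic : P₁.Monic := Φ.monic.map _
  have hP₁deg : P₁.natDegree = p + 1 := by
    rw [hP₁, Φ.monic.natDegree_map, Φ.natDegree_eq]
  have hroot_j : Polynomial.aeval (jqModC k) P₁ = 0 := by
    rw [hP₁, aeval_map_evalAtSub]; exact modPoly_eval_j_field Φ
  have hroot_jpp : Polynomial.aeval (qExpand k p (qExpand k p (jqModC k))) P₁ = 0 := by
    rw [hP₁, aeval_map_evalAtSub]; exact modPoly_eval_jpp_field Φ
  have hint : IsIntegral K₁ (jqModC k) := ⟨P₁, hP₁monic, by rwa [← Polynomial.aeval_def]⟩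
  set m := minpoly K₁ (jqModC k) with hm
  have hm_dvd : m ∣ P₁ := minpoly.dvd K₁ _ hroot_j
  have hm_monic : m.Monic := minpoly.monic hint
  have hm_le : m.natDegree ≤ p + 1 :=
    hP₁deg ▸ Polynomial.natDegree_le_of_dvd hm_dvd hP₁monic.ne_zero
  have hcoef : ∀ n, (m.map (algebraMap K₁ (LaurentSeries k))).coeff n ∈ (qExpand k p).range := by
    intro n
    rw [Polynomial.coeff_map]
    exact mem_range_of_mem_jpField (m.coeff n).2
  have hmj : (m.map (algebraMap K₁ (LaurentSeries k))).eval (jqModC k) = 0 := by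
    rw [Polynomial.eval_map, ← Polynomial.aeval_def]; exact minpoly.aeval K₁ _
  -- Claim A
  have hA : p ≤ m.natDegree := by
    by_contra hlt
    rw [not_le] at hlt
    have := eq_zero_of_eval_eq_zero_of_natDegree_lt p (jqModC k) (jqModC_ne_zero' k)
      (isCoprime_order_jqModC k p) (m.map (algebraMap K₁ (LaurentSeries k))) hcoef
      (by rwa [hm_monic.natDegree_map]) hmj
    exact (hm_monic.map _).ne_zero this
  -- Claim B
  have hB : m.natDegree ≠ p := by
    intro hdeg
    obtain ⟨r, hr⟩ := hm_dvd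
    have hr_monic : r.Monic := hm_monic.of_mul_monic_left (hr ▸ hP₁monic)
    have hr_deg : r.natDegree = 1 := by
      have := congrArg Polynomial.natDegree hr
      rw [hm_monic.natDegree_mul hr_monic, hP₁deg, hdeg] at this
      omega
    have hr_eq : r = X + Polynomial.C (r.coeff 0) := hr_monic.eq_X_add_C hr_deg
    have h0 : Polynomial.aeval (qExpand k p (qExpand k p (jqModC k))) m *
        Polynomial.aeval (qExpand k p (qExpand k p (jqModC k))) r = 0 := by
      rw [← map_mul, ← hr]; exact hroot_jpp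
    rcases mul_eq_zero.mp h0 with h1 | h1
    · refine false_of_monic_natDegree_eq_of_roots hp (m.map (algebraMap K₁ (LaurentSeries k)))
        (hm_monic.map _) (by rw [hm_monic.natDegree_map, hdeg]) hcoef hmj
        (qExpand k p (jqModC k)) ?_
      rw [Polynomial.eval_map, ← Polynomial.aeval_def]; exact h1
    · rw [hr_eq] at h1
      simp only [map_add, Polynomial.aeval_X, Polynomial.aeval_C] at h1
      have hmem : qExpand k p (qExpand k p (jqModC k)) ∈ K₁ := by
        have : qExpand k p (qExpand k p (jqModC k)) =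
            -(algebraMap K₁ (LaurentSeries k) (r.coeff 0)) := eq_neg_of_add_eq_zero_left h1
        rw [this]
        exact neg_mem (r.coeff 0).2
      exact hB1 (jp_mem_jField_of_jpp_mem hmem)
  have hdeg : m.natDegree = p + 1 := by omega
  exact (Polynomial.eq_of_monic_of_dvd_of_natDegree_le hm_monic hP₁monic hm_dvd
    (by rw [hP₁deg, hdeg])).symm

theorem natDegree_minpoly_j_over_jpField (Φ : ModPolyData p) (hp : 2 ≤ p)
    (hB1 : qExpand k p (jqModC k) ∉ jField k) :
    (minpoly (jpField k p) (jqModC k)).natDegree = p + 1 := by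
  rw [minpoly_j_over_jpField Φ hp hB1, Φ.monic.natDegree_map, Φ.natDegree_eq]

/-- The minimal polynomial of `j(q^{p²})` over `k(j(q^p))` is also `Φ_p(X, j(q^p))`. -/
theorem minpoly_jpp_over_jpField (Φ : ModPolyData p) (hp : 2 ≤ p)
    (hB1 : qExpand k p (jqModC k) ∉ jField k) :
    minpoly (jpField k p) (qExpand k p (qExpand k p (jqModC k))) =
      Φ.Φ.map (evalAtSub (jpField k p) _ jp_mem_jpField) := by
  have hP₁monic : (Φ.Φ.map (evalAtSub (jpField k p) _ jp_mem_jpField)).Monic := Φ.monic.map _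
  have hroot_j : Polynomial.aeval (jqModC k)
      (Φ.Φ.map (evalAtSub (jpField k p) _ jp_mem_jpField)) = 0 := by
    rw [aeval_map_evalAtSub]; exact modPoly_eval_j_field Φ
  have hint : IsIntegral (jpField k p) (jqModC k) :=
    ⟨_, hP₁monic, by rwa [← Polynomial.aeval_def]⟩
  have hirr : Irreducible (Φ.Φ.map (evalAtSub (jpField k p) _ jp_mem_jpField)) := by
    rw [← minpoly_j_over_jpField Φ hp hB1]
    exact minpoly.irreducible hint
  refine (minpoly.eq_of_irreducible_of_monic hirr ?_ hP₁monic).symm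
  rw [aeval_map_evalAtSub]
  exact modPoly_eval_jpp_field Φ

/-- The ring isomorphism `k(j) ≃ k(j(q^p))` induced by `V_p`. -/
def jFieldEquiv (k : Type*) [Field k] (p : ℕ) [NeZero p] : jField k ≃ₐ[k] jpField k p :=
  IntermediateField.equivMap (jField k) (qExpandAlgHomC k p)

theorem algebraMap_comp_jFieldEquiv :
    (algebraMap (jpField k p) (LaurentSeries k)).comp (jFieldEquiv k p : jField k →+* jpField k p)
      = (qExpand k p).comp (algebraMap (jField k) (LaurentSeries k)) := by
  ext x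
  rfl

/-- **[L.B2], second half.** The minimal polynomial of `j(q^p)` over `k(j)` is `Φ_p(X, j)`. -/
theorem minpoly_jp_over_jField (Φ : ModPolyData p) (hp : 2 ≤ p)
    (hB1 : qExpand k p (jqModC k) ∉ jField k) :
    minpoly (jField k) (qExpand k p (jqModC k)) =
      Φ.Φ.map (evalAtSub (jField k) _ jqModC_mem_jField) := by
  set K₀ := jField k with hK₀
  set P₀ : Polynomial K₀ := Φ.Φ.map (evalAtSub K₀ _ jqModC_mem_jField) with hP₀
  have hP₀monic : P₀.Monic := Φ.monic.map _
  have hP₀deg : P₀.natDegree = p + 1 := by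
    rw [hP₀, Φ.monic.natDegree_map, Φ.natDegree_eq]
  have hroot : Polynomial.aeval (qExpand k p (jqModC k)) P₀ = 0 := by
    rw [hP₀, aeval_map_evalAtSub]; exact modPoly_eval_jp_field Φ
  have hint : IsIntegral K₀ (qExpand k p (jqModC k)) :=
    ⟨P₀, hP₀monic, by rwa [← Polynomial.aeval_def]⟩
  set m₀ := minpoly K₀ (qExpand k p (jqModC k)) with hm₀
  have hm₀_dvd : m₀ ∣ P₀ := minpoly.dvd K₀ _ hroot
  have hm₀_monic : m₀.Monic := minpoly.monic hint
  -- transport to `k(j(q^p))`
  set g : Polynomial (jpField k p) := m₀.map (jFieldEquiv k p : jField k →+* jpField k p) with hg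
  have hg_monic : g.Monic := hm₀_monic.map _
  have hg_deg : g.natDegree = m₀.natDegree := hm₀_monic.natDegree_map _
  have hg_root : Polynomial.aeval (qExpand k p (qExpand k p (jqModC k))) g = 0 := by
    rw [hg, Polynomial.aeval_def, Polynomial.eval₂_map, algebraMap_comp_jFieldEquiv,
      ← Polynomial.hom_eval₂, ← Polynomial.aeval_def, minpoly.aeval, map_zero]
  have hdvd : minpoly (jpField k p) (qExpand k p (qExpand k p (jqModC k))) ∣ g :=
    minpoly.dvd _ _ hg_root
  rw [minpoly_jpp_over_jpField Φ hp hB1] at hdvd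
  have hle : p + 1 ≤ m₀.natDegree := by
    have := Polynomial.natDegree_le_of_dvd hdvd hg_monic.ne_zero
    rwa [Φ.monic.natDegree_map, Φ.natDegree_eq, hg_deg] at this
  exact (Polynomial.eq_of_monic_of_dvd_of_natDegree_le hm₀_monic hP₀monic hm₀_dvd
    (by rw [hP₀deg]; exact hle)).symm

theorem natDegree_minpoly_jp_over_jField (Φ : ModPolyData p) (hp : 2 ≤ p)
    (hB1 : qExpand k p (jqModC k) ∉ jField k) :
    (minpoly (jField k) (qExpand k p (jqModC k))).natDegree = p + 1 := by
  rw [minpoly_jp_over_jField Φ hp hB1, Φ.monic.natDegree_map, Φ.natDegree_eq]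

theorem isIntegral_jp_over_jField (Φ : ModPolyData p) :
    IsIntegral (jField k) (qExpand k p (jqModC k)) := by
  refine ⟨Φ.Φ.map (evalAtSub (jField k) _ jqModC_mem_jField), Φ.monic.map _, ?_⟩
  rw [← Polynomial.aeval_def, aeval_map_evalAtSub]
  exact modPoly_eval_jp_field Φ

theorem isIntegral_j_over_jpField (Φ : ModPolyData p) :
    IsIntegral (jpField k p) (jqModC k) := by
  refine ⟨Φ.Φ.map (evalAtSub (jpField k p) _ jp_mem_jpField), Φ.monic.map _, ?_⟩
  rw [← Polynomial.aeval_def, aeval_map_evalAtSub]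
  exact modPoly_eval_j_field Φ

/-- `[k(j, j(q^p)) : k(j)] = p + 1`. -/
theorem finrank_adjoin_jp_over_jField (Φ : ModPolyData p) (hp : 2 ≤ p)
    (hB1 : qExpand k p (jqModC k) ∉ jField k) :
    Module.finrank (jField k)
      (IntermediateField.adjoin (jField k) {qExpand k p (jqModC k)}) = p + 1 := by
  have h := IntermediateField.adjoin.finrank (isIntegral_jp_over_jField (k := k) Φ)
  rw [h, natDegree_minpoly_jp_over_jField Φ hp hB1]

/-- `[k(j(q^p), j) : k(j(q^p))] = p + 1`. -/
theorem finrank_adjoin_j_over_jpField (Φ : ModPolyData p) (hp : 2 ≤ p)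
    (hB1 : qExpand k p (jqModC k) ∉ jField k) :
    Module.finrank (jpField k p)
      (IntermediateField.adjoin (jpField k p) {jqModC k}) = p + 1 := by
  have h := IntermediateField.adjoin.finrank (isIntegral_j_over_jpField (k := k) Φ)
  rw [h, natDegree_minpoly_j_over_jpField Φ hp hB1]

end Main

end Fermat.Agent.S28.H145

end

end
-- ===== PACK-END S28/H145/PrimeDegree.lean

-- ===== PACK-BEGIN S24/Mod/H368Gens.lean
section



/-!
# S24 / MOD glue (helper368): generators of the function field of `X₀(N)`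

The Prelude defines `modularFunctionFieldBar N` as the field generated over `ℚ̄` by the image
of the whole field `ℚ(j(q^d) : d ∣ N)`.  Here we show it is generated by the finitely many
series `j(q^d)`, `d ∣ N`, and deduce the `MvPolynomial` presentation used to construct
embeddings.
-/

set_option autoImplicit false
set_option linter.style.haveILetI false

noncomputable section

open ModularCurve IntermediateField MvPolynomial

namespace Fermat.Agent.S24.H368

variable (L : Type*) [Field L] [Algebra ℚ L]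

/-- `j(q^d)` with coefficients in `L`, for a divisor `d` of `N`. -/
def gen (N : ℕ) (d : N.divisors) : LaurentSeries L :=
  haveI : NeZero d.1 := ⟨(Nat.pos_of_mem_divisors d.2).ne'⟩
  coeffEmb L (qExpand ℚ d.1 jq)

theorem gen_eq (N : ℕ) (d : ℕ) [NeZero d] (hd : d ∈ N.divisors) :
    gen L N ⟨d, hd⟩ = coeffEmb L (qExpand ℚ d jq) := rfl

theorem gen_one (N : ℕ) [NeZero N] :
    gen L N ⟨1, Nat.one_mem_divisors.2 (NeZero.ne N)⟩ = coeffEmb L jq := by
  rw [gen_eq, qExpand_one_apply]

/-- The image under `coeffEmb` of the field generated by a set lies in the field generated by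
the image of the set. -/
theorem coeffEmb_mem_adjoin_image (T : Set (LaurentSeries ℚ)) {x : LaurentSeries ℚ}
    (hx : x ∈ IntermediateField.adjoin ℚ T) :
    coeffEmb L x ∈ IntermediateField.adjoin L (⇑(coeffEmb L) '' T) := by
  induction hx using IntermediateField.adjoin_induction with
  | mem y hy => exact subset_adjoin L _ ⟨y, hy, rfl⟩
  | algebraMap c =>
    have : coeffEmb L (algebraMap ℚ (LaurentSeries ℚ) c)
        = algebraMap L (LaurentSeries L) (algebraMap ℚ L c) := by
      rw [algebraMap_apply_eq_single, algebraMap_laurentSeries_eq_single]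
      exact coeffMap_single _ _ _
    rw [this]
    exact (IntermediateField.adjoin L _).algebraMap_mem _
  | add x y _ _ hx hy => rw [map_add]; exact add_mem hx hy
  | inv x _ hx => rw [map_inv₀]; exact inv_mem hx
  | mul x y _ _ hx hy => rw [map_mul]; exact mul_mem hx hy

theorem laurentBaseChange_adjoin (T : Set (LaurentSeries ℚ)) :
    laurentBaseChange L (IntermediateField.adjoin ℚ T)
      = IntermediateField.adjoin L (⇑(coeffEmb L) '' T) := by
  apply le_antisymm
  · rw [laurentBaseChange, adjoin_le_iff]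
    rintro _ ⟨x, hx, rfl⟩
    exact coeffEmb_mem_adjoin_image L T hx
  · rw [laurentBaseChange]
    exact IntermediateField.adjoin.mono L _ _ (Set.image_mono (subset_adjoin ℚ T))

theorem image_divisorExpansions (N : ℕ) [NeZero N] :
    ⇑(coeffEmb L) '' divisorExpansions N = Set.range (gen L N) := by
  ext x
  constructor
  · rintro ⟨y, ⟨d, hne, hd, rfl⟩, rfl⟩
    exact ⟨⟨d, Nat.mem_divisors.2 ⟨hd, NeZero.ne N⟩⟩, rfl⟩
  · rintro ⟨⟨d, hd⟩, rfl⟩
    exact ⟨_, ⟨d, ⟨(Nat.pos_of_mem_divisors hd).ne'⟩, Nat.dvd_of_mem_divisors hd, rfl⟩, rfl⟩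

/-- The function field of `X₀(N)` over `L` is generated over `L` by the `j(q^d)`, `d ∣ N`. -/
theorem laurentBaseChange_full_eq_adjoin (N : ℕ) [NeZero N] :
    laurentBaseChange L (modularFunctionFieldFull N)
      = IntermediateField.adjoin L (Set.range (gen L N)) := by
  rw [modularFunctionFieldFull, laurentBaseChange_adjoin, image_divisorExpansions]

theorem modularFunctionFieldBar_eq_adjoin (N : ℕ) [NeZero N] :
    modularFunctionFieldBar N
      = IntermediateField.adjoin (AlgebraicClosure ℚ) (Set.range (gen (AlgebraicClosure ℚ) N)) :=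
  laurentBaseChange_full_eq_adjoin _ N

/-- Every element of `K(s)` is a quotient of two polynomial expressions in the generators. -/
theorem exists_aeval_div {K E ι : Type*} [Field K] [Field E] [Algebra K E] (s : ι → E)
    {x : E} (hx : x ∈ IntermediateField.adjoin K (Set.range s)) :
    ∃ p q : MvPolynomial ι K, aeval s q ≠ 0 ∧ x = aeval s p / aeval s q := by
  obtain ⟨a, ha, b, hb, rfl⟩ := IntermediateField.mem_adjoin_iff_div.1 hx
  rw [Algebra.adjoin_range_eq_range_aeval] at ha hb
  obtain ⟨p, rfl⟩ := ha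
  obtain ⟨q, rfl⟩ := hb
  by_cases hq : aeval s q = 0
  · refine ⟨0, 1, by simp, ?_⟩
    simp [hq]
  · exact ⟨p, q, hq, rfl⟩

end Fermat.Agent.S24.H368

end
end
-- ===== PACK-END S24/Mod/H368Gens.lean

-- ===== PACK-BEGIN S24/H902/EtaBridge.lean
section



/-!
# The Euler product: formal power series versus analytic function

The formal product `ModularCurve.etaProd = ∏' n, (1 - X^(n+1)) : ℤ⟦X⟧` (Pi topology) evaluates,
for `‖q‖ < 1`, to the analytic infinite product `∏' n, (1 - q^(n+1))`.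
-/

set_option autoImplicit false

noncomputable section

namespace Fermat.Agent.S24.H902

open Complex PowerSeries Filter Topology ModularCurve
open scoped PowerSeries.WithPiTopology

/-- The Euler function `q ↦ ∏ (1 - q^(n+1))` on `ℂ` (meaningful for `‖q‖ < 1`). -/
def eulerFn (q : ℂ) : ℂ := ∏' n : ℕ, (1 - q ^ (n + 1))

theorem differentiableOn_eulerFn : DifferentiableOn ℂ eulerFn (Metric.ball 0 1) :=
  ModularForm.differentiableOn_tprod_one_sub_pow

theorem eulerFn_ne_zero {q : ℂ} (hq : ‖q‖ < 1) : eulerFn q ≠ 0 := by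
  unfold eulerFn
  have hs : Summable fun n : ℕ => ‖-q ^ (n + 1)‖ := by
    simpa using (summable_nat_add_iff 1).mpr (summable_geometric_of_lt_one (norm_nonneg q) hq)
  have := tprod_one_add_ne_zero_of_summable (f := fun n : ℕ => -q ^ (n + 1)) ?_ hs
  · simpa [sub_eq_add_neg] using this
  · intro i
    have hlt : ‖q ^ (i + 1)‖ < 1 := by
      rw [norm_pow]
      exact pow_lt_one₀ (norm_nonneg q) hq (Nat.succ_ne_zero i)
    intro h0
    have h0' : 1 + -q ^ (i + 1) = 0 := h0
    have : q ^ (i + 1) = 1 := by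
      linear_combination -h0'
    rw [this] at hlt
    simp at hlt

/-- Partial products as polynomials. -/
def partialPoly (s : Finset ℕ) : Polynomial ℂ := ∏ i ∈ s, (1 - Polynomial.X ^ (i + 1))

theorem eval_partialPoly (s : Finset ℕ) (q : ℂ) :
    (partialPoly s).eval q = ∏ i ∈ s, (1 - q ^ (i + 1)) := by
  simp [partialPoly, Polynomial.eval_prod]

theorem iteratedDeriv_polynomial_eval (p : Polynomial ℂ) (n : ℕ) :
    iteratedDeriv n (fun x => p.eval x) = fun x => ((Polynomial.derivative)^[n] p).eval x := by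
  induction n with
  | zero => simp
  | succ n ih =>
    rw [iteratedDeriv_succ, ih]
    funext x
    rw [Polynomial.deriv, Function.iterate_succ_apply']

theorem tendstoLocallyUniformlyOn_partialPoly :
    TendstoLocallyUniformlyOn (fun (s : Finset ℕ) (q : ℂ) => (partialPoly s).eval q) eulerFn
      atTop (Metric.ball 0 1) := by
  have h := ModularForm.multipliableLocallyUniformlyOn_one_sub_pow.hasProdLocallyUniformlyOn
  unfold HasProdLocallyUniformlyOn at h
  have e : (fun (s : Finset ℕ) (q : ℂ) => (partialPoly s).eval q)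
      = fun (s : Finset ℕ) (q : ℂ) => ∏ i ∈ s, (1 - q ^ (i + 1)) := by
    funext s q
    exact eval_partialPoly s q
  rw [e]
  exact h

theorem tendstoLocallyUniformlyOn_iteratedDeriv_partialPoly (n : ℕ) :
    TendstoLocallyUniformlyOn
      (fun (s : Finset ℕ) => iteratedDeriv n (fun q : ℂ => (partialPoly s).eval q))
      (iteratedDeriv n eulerFn) atTop (Metric.ball 0 1) := by
  induction n with
  | zero =>
    simp only [iteratedDeriv_zero]
    exact tendstoLocallyUniformlyOn_partialPoly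
  | succ n ih =>
    have hd : ∀ᶠ s : Finset ℕ in atTop, DifferentiableOn ℂ
        (iteratedDeriv n (fun q : ℂ => (partialPoly s).eval q)) (Metric.ball 0 1) := by
      refine Eventually.of_forall fun s => ?_
      rw [iteratedDeriv_polynomial_eval]
      exact (Polynomial.differentiable _).differentiableOn
    have h := ih.deriv hd Metric.isOpen_ball
    have e : (deriv ∘ fun (s : Finset ℕ) => iteratedDeriv n (fun q : ℂ => (partialPoly s).eval q))
        = fun (s : Finset ℕ) => iteratedDeriv (n + 1) (fun q : ℂ => (partialPoly s).eval q) := by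
      funext s
      simp only [Function.comp_apply]
      rw [iteratedDeriv_succ]
    rw [e, ← iteratedDeriv_succ] at h
    exact h

theorem iteratedDeriv_partialPoly_zero (s : Finset ℕ) (n : ℕ) :
    iteratedDeriv n (fun q : ℂ => (partialPoly s).eval q) 0
      = (n.factorial : ℂ) * (partialPoly s).coeff n := by
  rw [iteratedDeriv_polynomial_eval]
  simp only []
  rw [← Polynomial.coeff_zero_eq_eval_zero, Polynomial.coeff_iterate_derivative, zero_add,
    Nat.descFactorial_self, nsmul_eq_mul]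

/-- Partial products as integral formal power series. -/
theorem coeff_partialPoly (s : Finset ℕ) (n : ℕ) :
    (partialPoly s).coeff n
      = ((PowerSeries.coeff n (∏ i ∈ s, (1 - PowerSeries.X ^ (i + 1)) : PowerSeries ℤ) : ℤ) : ℂ) := by
  have h1 : ((partialPoly s : Polynomial ℂ) : PowerSeries ℂ)
      = PowerSeries.map (Int.castRingHom ℂ) (∏ i ∈ s, (1 - PowerSeries.X ^ (i + 1))) := by
    rw [partialPoly, ← Polynomial.coeToPowerSeries.ringHom_apply, map_prod, map_prod]
    refine Finset.prod_congr rfl fun i _ => ?_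
    simp
  have h2 := congrArg (PowerSeries.coeff n) h1
  rw [Polynomial.coeff_coe, PowerSeries.coeff_map] at h2
  simpa using h2

theorem tendsto_coeff_formal (n : ℕ) :
    Tendsto (fun s : Finset ℕ =>
      (PowerSeries.coeff n (∏ i ∈ s, (1 - PowerSeries.X ^ (i + 1)) : PowerSeries ℤ)))
      atTop (𝓝 (PowerSeries.coeff n etaProd)) := by
  have h := (PowerSeries.WithPiTopology.multipliable_one_sub_X_pow ℤ).hasProd
  have h' : Tendsto (fun s : Finset ℕ => (∏ i ∈ s, (1 - PowerSeries.X ^ (i + 1)) : PowerSeries ℤ))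
      atTop (𝓝 etaProd) := by
    simpa [HasProd, etaProd] using h
  exact ((PowerSeries.WithPiTopology.continuous_coeff ℤ n).tendsto _).comp h'

/-- **Taylor coefficients of the Euler function are the coefficients of the formal product.** -/
theorem taylor0_eulerFn : taylor0 eulerFn = PowerSeries.map (Int.castRingHom ℂ) etaProd := by
  ext n
  rw [coeff_taylor0, PowerSeries.coeff_map]
  have h1 : Tendsto (fun s : Finset ℕ => iteratedDeriv n (fun q : ℂ => (partialPoly s).eval q) 0)
      atTop (𝓝 (iteratedDeriv n eulerFn 0)) :=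
    (tendstoLocallyUniformlyOn_iteratedDeriv_partialPoly n).tendsto_at
      (Metric.mem_ball_self one_pos)
  have h2 : Tendsto (fun s : Finset ℕ => iteratedDeriv n (fun q : ℂ => (partialPoly s).eval q) 0)
      atTop (𝓝 ((n.factorial : ℂ) * ((PowerSeries.coeff n etaProd : ℤ) : ℂ))) := by
    have h3 : Tendsto (fun s : Finset ℕ => (n.factorial : ℂ) *
        ((PowerSeries.coeff n (∏ i ∈ s, (1 - PowerSeries.X ^ (i + 1)) : PowerSeries ℤ) : ℤ) : ℂ))
        atTop (𝓝 ((n.factorial : ℂ) * ((PowerSeries.coeff n etaProd : ℤ) : ℂ))) := by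
      refine Tendsto.const_mul _ ?_
      exact ((continuous_of_discreteTopology (f := fun k : ℤ => (k : ℂ))).tendsto _).comp
        (tendsto_coeff_formal n)
    refine h3.congr fun s => ?_
    rw [iteratedDeriv_partialPoly_zero, coeff_partialPoly]
  have h4 := tendsto_nhds_unique h1 h2
  rw [h4]
  have hn : (n.factorial : ℂ) ≠ 0 := by exact_mod_cast n.factorial_ne_zero
  simp [hn]

/-- The formal Euler product evaluates to the analytic Euler product on the unit disc. -/
theorem ev_etaProd {q : ℂ} (hq : ‖q‖ < 1) :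
    Ev (PowerSeries.map (Int.castRingHom ℂ) etaProd) q (∏' n : ℕ, (1 - q ^ (n + 1))) := by
  rw [← taylor0_eulerFn]
  exact ev_taylor0 differentiableOn_eulerFn hq

/-- `dedekindEtaUnit = etaProd ^ 24` evaluates to `(∏ (1 - q^(n+1)))^24`. -/
theorem ev_dedekindEtaUnit {q : ℂ} (hq : ‖q‖ < 1) :
    Ev (PowerSeries.map (Int.castRingHom ℂ) dedekindEtaUnit) q
      ((∏' n : ℕ, (1 - q ^ (n + 1))) ^ 24) := by
  rw [dedekindEtaUnit, map_pow]
  exact (ev_etaProd hq).pow 24

/-- The formal inverse `dedekindEtaUnitInv` evaluates to `1 / (∏ (1 - q^(n+1)))^24`. -/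
theorem ev_dedekindEtaUnitInv {q : ℂ} (hq : ‖q‖ < 1) :
    Ev (PowerSeries.map (Int.castRingHom ℂ) dedekindEtaUnitInv) q
      ((∏' n : ℕ, (1 - q ^ (n + 1))) ^ 24)⁻¹ := by
  have hmul : PowerSeries.map (Int.castRingHom ℂ) dedekindEtaUnit
      * PowerSeries.map (Int.castRingHom ℂ) dedekindEtaUnitInv = 1 := by
    rw [← map_mul, dedekindEtaUnit_mul_inv, map_one]
  exact ev_of_mul_eq_one (U := fun q => (∏' n : ℕ, (1 - q ^ (n + 1))) ^ 24) one_pos
    (fun q hq => ev_dedekindEtaUnit hq)
    (fun q hq => pow_ne_zero 24 (eulerFn_ne_zero hq)) hmul hq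

end Fermat.Agent.S24.H902

end
end
-- ===== PACK-END S24/H902/EtaBridge.lean

-- ===== PACK-BEGIN S24/H902/JBridge.lean
section


/-!
# Analytic `q`-expansion of `j = E₄³/Δ` equals the Prelude's formal `jNum`

Main result `hasSum_jNum`: for `τ ∈ ℍ` and `q = exp(2πiτ)`,
`∑ (jNum.coeff n) qⁿ = q · E₄(τ)³ / Δ(τ)`.
-/

set_option autoImplicit false

noncomputable section

namespace Fermat.Agent.S24.H902

open Complex PowerSeries Filter Topology ModularCurve UpperHalfPlane ModularForm
  EisensteinSeries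
open scoped MatrixGroups Real

local notation "𝕢" => Function.Periodic.qParam

local notation "Δ" => ModularForm.discriminant

/-- The `q`-expansion of `E₄` is the (image of the) Prelude's integral series `eisenstein4`. -/
theorem qExpansion_E4_eq :
    qExpansion 1 E₄ = PowerSeries.map (Int.castRingHom ℂ) eisenstein4 := by
  ext m
  rw [E_qExpansion_coeff _ ⟨2, rfl⟩, PowerSeries.coeff_map, eisenstein4, PowerSeries.coeff_mk]
  by_cases hm : m = 0
  · simp [hm]
  · simp only [hm, if_false]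
    rw [ArithmeticFunction.sigma_apply]
    norm_num [show bernoulli 4 = -1 / 30 by decide +kernel]

theorem norm_qParam_one_lt_one (τ : ℍ) : ‖𝕢 1 (τ : ℂ)‖ < 1 :=
  Function.Periodic.norm_qParam_lt_one one_pos τ.im_pos

theorem ev_eisenstein4 (τ : ℍ) :
    Ev (PowerSeries.map (Int.castRingHom ℂ) eisenstein4) (𝕢 1 (τ : ℂ)) (E₄ τ) := by
  have h := ModularForm.hasSum_qExpansion E₄ one_pos one_mem_strictPeriods_SL τ
  rw [qExpansion_E4_eq] at h
  exact h

theorem discriminant_eq_q_mul_eulerFn_pow (τ : ℍ) :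
    Δ τ = 𝕢 1 (τ : ℂ) * (∏' n : ℕ, (1 - (𝕢 1 (τ : ℂ)) ^ (n + 1))) ^ 24 := by
  rw [discriminant_eq_q_prod]
  congr 1
  exact (ModularForm.multipliable_one_sub_pow (norm_qParam_one_lt_one τ)).tprod_pow 24

/-- **Bridge.** The Prelude's formal series `jNum` (so that `jq = q⁻¹ · jNum`) evaluates at
`q = exp(2πiτ)` to `q · E₄(τ)³/Δ(τ)`. -/
theorem ev_jNum (τ : ℍ) :
    Ev (PowerSeries.map (Int.castRingHom ℂ) jNum) (𝕢 1 (τ : ℂ))
      (𝕢 1 (τ : ℂ) * (E₄ τ ^ 3 / Δ τ)) := by
  have hq := norm_qParam_one_lt_one τ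
  have hq0 : 𝕢 1 (τ : ℂ) ≠ 0 := Function.Periodic.qParam_ne_zero _
  have hP : (∏' n : ℕ, (1 - (𝕢 1 (τ : ℂ)) ^ (n + 1))) ^ 24 ≠ 0 :=
    pow_ne_zero 24 (eulerFn_ne_zero hq)
  have h := ((ev_eisenstein4 τ).pow 3).mul (ev_dedekindEtaUnitInv hq)
  rw [jNum, map_mul, map_pow]
  refine h.congr_val ?_
  rw [discriminant_eq_q_mul_eulerFn_pow]
  field_simp

/-- The same statement as a plain `HasSum` with integer coefficients. -/
theorem hasSum_jNum (τ : ℍ) :
    HasSum (fun n : ℕ => ((PowerSeries.coeff n jNum : ℤ) : ℂ) * (𝕢 1 (τ : ℂ)) ^ n)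
      (𝕢 1 (τ : ℂ) * (E₄ τ ^ 3 / Δ τ)) := by
  have h := ev_jNum τ
  unfold Ev at h
  simpa [PowerSeries.coeff_map] using h

/-- Variant with `cexp (2πiτ)` written out. -/
theorem hasSum_jNum_cexp (τ : ℍ) :
    HasSum (fun n : ℕ => ((PowerSeries.coeff n jNum : ℤ) : ℂ) * cexp (2 * π * Complex.I * τ) ^ n)
      (cexp (2 * π * Complex.I * τ) * (E₄ τ ^ 3 / Δ τ)) := by
  have h := hasSum_jNum τ
  have e : 𝕢 1 (τ : ℂ) = cexp (2 * π * Complex.I * τ) := by
    simp [Function.Periodic.qParam]
  rw [e] at h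
  exact h

end Fermat.Agent.S24.H902

end
end
-- ===== PACK-END S24/H902/JBridge.lean

-- ===== PACK-BEGIN S15/H466/SelAbs.lean
section




/-!
# S15 / DESC — the consumer of route 208 (helper466): SEL-BOUND from the self-improving count

Abstract form (Mathlib + `H842.Engine` + `H208.CountInst` only).

`Γ` acts on `J`; `F 0 = ⊥ ≤ F 1 ≤ … ≤ F D = W` a flag of `Γ`-stable subgroups with all indices a
prime `r`; `K, U ≤ W`.  Put `A = cocSub Γ ⊥ = J^Γ`, `Y = cocSub Γ W`,
`jmp F X i = [F (i+1) ⊓ X ≰ F i]` (`= 1` iff the flag of `X` jumps at `i`).  If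

* (STEP)  `|Sel_i| ≠ 0` and `|Sel_i| * r ^ (1 - jmp F K i) ≤ r ^ (jmp F U i) * |P_i^Γ|`,
* (COUNT) `|K|² ≤ |W|`,
* (CNT)   `|U|² ≤ [Y : A]`   (as soon as this index is finite),

then `[Y : A + W]` is finite and `≤ |W ∩ A|`   (`selBound_abs`).

No bound `|K| |U| ≤ |W|` is needed: this is helper208's self-improving count
(`coord/S15-LOCp-helper208.md`), with the exact ENGINE formula of helper842.
-/

set_option autoImplicit false

namespace Fermat.Agent.S15.H466

open Fermat.Agent.S15.H842.Engine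
open scoped BigOperators

section Chain

variable {J : Type*} [AddCommGroup J]

/-- `1` if the induced flag `F i ⊓ X` jumps at `i`, else `0`. -/
noncomputable def jmp (F : ℕ → AddSubgroup J) (X : AddSubgroup J) (i : ℕ) : ℕ := by
  classical
  exact if F (i + 1) ⊓ X ≤ F i then 0 else 1

theorem jmp_le_one (F : ℕ → AddSubgroup J) (X : AddSubgroup J) (i : ℕ) : jmp F X i ≤ 1 := by
  classical
  unfold jmp
  split_ifs <;> omega

theorem jmp_eq_zero {F : ℕ → AddSubgroup J} {X : AddSubgroup J} {i : ℕ}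
    (h : F (i + 1) ⊓ X ≤ F i) : jmp F X i = 0 := by
  classical
  unfold jmp
  rw [if_pos h]

theorem jmp_eq_one {F : ℕ → AddSubgroup J} {X : AddSubgroup J} {i : ℕ}
    (h : ¬ F (i + 1) ⊓ X ≤ F i) : jmp F X i = 1 := by
  classical
  unfold jmp
  rw [if_neg h]

/-- In a commutative group the relative index is monotone for divisibility in the right
argument. -/
theorem relIndex_dvd_of_le_right_h466 (H L L' : AddSubgroup J) (hL : L ≤ L') :
    H.relIndex L ∣ H.relIndex L' := by
  have h1 : (H ⊓ L').relIndex ((H ⊓ L') ⊔ L) * ((H ⊓ L') ⊔ L).relIndex L' =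
      (H ⊓ L').relIndex L' :=
    AddSubgroup.relIndex_mul_relIndex _ _ _ le_sup_left (sup_le inf_le_right hL)
  have h2 : (H ⊓ L').relIndex ((H ⊓ L') ⊔ L) = H.relIndex L := by
    rw [AddSubgroup.relIndex_sup_left, ← AddSubgroup.inf_relIndex_right (H ⊓ L') L,
      inf_assoc, inf_eq_right.2 hL, AddSubgroup.inf_relIndex_right]
  rw [h2, AddSubgroup.inf_relIndex_right] at h1
  exact Dvd.intro _ h1

/-- The order of `F k ⊓ X` is `r ^ (number of jumps below k)`. -/
theorem card_inf_flag (r : ℕ) (hr : r.Prime) (F : ℕ → AddSubgroup J) (X : AddSubgroup J)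
    (h0 : F 0 = ⊥) (k : ℕ) (hmono : ∀ i, i < k → F i ≤ F (i + 1))
    (hidx : ∀ i, i < k → (F i).relIndex (F (i + 1)) = r) :
    Nat.card ↥(F k ⊓ X) = r ^ (∑ i ∈ Finset.range k, jmp F X i) := by
  induction k with
  | zero =>
    rw [h0, bot_inf_eq, Finset.range_zero, Finset.sum_empty, pow_zero]
    exact AddSubgroup.card_bot
  | succ k ih =>
    have hk := ih (fun i hi => hmono i (Nat.lt_succ_of_lt hi))
      (fun i hi => hidx i (Nat.lt_succ_of_lt hi))
    have hle : F k ⊓ X ≤ F (k + 1) ⊓ X := inf_le_inf_right X (hmono k (Nat.lt_succ_self k))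
    have h1 : Nat.card ↥(F k ⊓ X) * (F k ⊓ X).relIndex (F (k + 1) ⊓ X) =
        Nat.card ↥(F (k + 1) ⊓ X) := by
      have := AddSubgroup.relIndex_mul_relIndex (⊥ : AddSubgroup J) (F k ⊓ X) (F (k + 1) ⊓ X)
        bot_le hle
      rwa [AddSubgroup.relIndex_bot_left, AddSubgroup.relIndex_bot_left] at this
    have h2 : (F k ⊓ X).relIndex (F (k + 1) ⊓ X) = (F k).relIndex (F (k + 1) ⊓ X) := by
      rw [← AddSubgroup.inf_relIndex_right (F k) (F (k + 1) ⊓ X),
        ← AddSubgroup.inf_relIndex_right (F k ⊓ X) (F (k + 1) ⊓ X)]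
      congr 1
      rw [inf_eq_left.2 hle, ← inf_assoc, inf_eq_left.2 (hmono k (Nat.lt_succ_self k))]
    have h3 : (F k).relIndex (F (k + 1) ⊓ X) = r ^ jmp F X k := by
      by_cases hj : F (k + 1) ⊓ X ≤ F k
      · rw [jmp_eq_zero hj, pow_zero]
        exact AddSubgroup.relIndex_eq_one.2 hj
      · rw [jmp_eq_one hj, pow_one]
        have hd : (F k).relIndex (F (k + 1) ⊓ X) ∣ r := by
          rw [← hidx k (Nat.lt_succ_self k)]
          exact relIndex_dvd_of_le_right_h466 _ _ _ inf_le_left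
        rcases (Nat.dvd_prime hr).1 hd with h | h
        · exact absurd (AddSubgroup.relIndex_eq_one.1 h) hj
        · exact h
    rw [Finset.sum_range_succ, pow_add, ← hk, ← h3, ← h2, h1]

/-- The order of `F k` is `r ^ k`. -/
theorem card_flag (r : ℕ) (F : ℕ → AddSubgroup J)
    (h0 : F 0 = ⊥) (k : ℕ) (hmono : ∀ i, i < k → F i ≤ F (i + 1))
    (hidx : ∀ i, i < k → (F i).relIndex (F (i + 1)) = r) :
    Nat.card ↥(F k) = r ^ k := by
  induction k with
  | zero =>
    rw [h0, pow_zero]
    exact AddSubgroup.card_bot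
  | succ k ih =>
    have hk := ih (fun i hi => hmono i (Nat.lt_succ_of_lt hi))
      (fun i hi => hidx i (Nat.lt_succ_of_lt hi))
    have h1 : Nat.card ↥(F k) * (F k).relIndex (F (k + 1)) = Nat.card ↥(F (k + 1)) := by
      have := AddSubgroup.relIndex_mul_relIndex (⊥ : AddSubgroup J) (F k) (F (k + 1))
        bot_le (hmono k (Nat.lt_succ_self k))
      rwa [AddSubgroup.relIndex_bot_left, AddSubgroup.relIndex_bot_left] at this
    rw [← h1, hk, hidx k (Nat.lt_succ_self k), pow_succ]

end Chain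

section Abs

variable {Γ : Type*} [Group Γ] {J : Type*} [AddCommGroup J] [DistribMulAction Γ J]

/-- **SEL-BOUND from the self-improving count (abstract form).** -/
theorem selBound_abs (r : ℕ) (hr : r.Prime) (F : ℕ → AddSubgroup J) (D : ℕ) (h0 : F 0 = ⊥)
    (hmono : ∀ i, i < D → F i ≤ F (i + 1)) (hst : ∀ i, i ≤ D → IsStable Γ (F i))
    (hidx : ∀ i, i < D → (F i).relIndex (F (i + 1)) = r)
    (K U : AddSubgroup J) (hK : K ≤ F D) (hU : U ≤ F D)
    (hKc : Nat.card ↥K ^ 2 ≤ Nat.card ↥(F D))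
    (hstep : ∀ i, i < D → sel Γ F i ≠ 0 ∧
      sel Γ F i * r ^ (1 - jmp F K i) ≤ r ^ jmp F U i * pG Γ F i)
    (hCNT : (cocSub Γ (⊥ : AddSubgroup J)).relIndex (cocSub Γ (F D)) ≠ 0 →
      Nat.card ↥U ^ 2 ≤ (cocSub Γ (⊥ : AddSubgroup J)).relIndex (cocSub Γ (F D))) :
    (cocSub Γ (⊥ : AddSubgroup J) ⊔ F D).relIndex (cocSub Γ (F D)) ≠ 0 ∧
      (cocSub Γ (⊥ : AddSubgroup J) ⊔ F D).relIndex (cocSub Γ (F D)) ≤
        Nat.card ↥(F D ⊓ cocSub Γ (⊥ : AddSubgroup J)) := by
  classical
  set A : AddSubgroup J := cocSub Γ (⊥ : AddSubgroup J) with hA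
  set W : AddSubgroup J := F D with hW
  set Y : AddSubgroup J := cocSub Γ W with hY
  set a : ℕ := (A ⊔ W).relIndex Y with ha
  set b : ℕ := Nat.card ↥(W ⊓ A) with hb
  have hrpos : 0 < r := hr.pos
  -- sizes
  have hcardW : Nat.card ↥W = r ^ D := card_flag r F h0 D hmono hidx
  have hfinW : Finite ↥W := by
    have : Nat.card ↥W ≠ 0 := by rw [hcardW]; exact pow_ne_zero _ hrpos.ne'
    exact (Nat.card_pos_iff.1 (Nat.pos_of_ne_zero this)).2
  have hcardK : Nat.card ↥K = r ^ (∑ i ∈ Finset.range D, jmp F K i) := by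
    have := card_inf_flag r hr F K h0 D hmono hidx
    rwa [inf_eq_right.2 hK] at this
  have hcardU : Nat.card ↥U = r ^ (∑ i ∈ Finset.range D, jmp F U i) := by
    have := card_inf_flag r hr F U h0 D hmono hidx
    rwa [inf_eq_right.2 hU] at this
  have hsum : (∑ i ∈ Finset.range D, (1 - jmp F K i)) + (∑ i ∈ Finset.range D, jmp F K i) = D := by
    rw [← Finset.sum_add_distrib]
    have : ∀ i ∈ Finset.range D, (1 - jmp F K i) + jmp F K i = 1 := by
      intro i _
      have := jmp_le_one F K i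
      omega
    rw [Finset.sum_congr rfl this]
    simp
  set E : ℕ := r ^ (∑ i ∈ Finset.range D, (1 - jmp F K i)) with hE
  have hEpos : 0 < E := pow_pos hrpos _
  have hwE : Nat.card ↥W = E * Nat.card ↥K := by
    rw [hcardW, hcardK, hE, ← pow_add, hsum]
  have hKpos : 0 < Nat.card ↥K := by rw [hcardK]; exact pow_pos hrpos _
  -- (COUNT)
  have hCOUNT : Nat.card ↥W ≤ E ^ 2 := by
    have h1 : Nat.card ↥K * Nat.card ↥K ≤ E * Nat.card ↥K := by
      rw [← hwE, ← sq]
      exact hKc
    have h2 : Nat.card ↥K ≤ E := Nat.le_of_mul_le_mul_right h1 hKpos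
    rw [hwE, sq]
    exact Nat.mul_le_mul_left _ h2
  -- the engine
  have heng : (∏ i ∈ Finset.range D, sel Γ F i) * b = a * ∏ i ∈ Finset.range D, pG Γ F i :=
    engine_bot (Γ := Γ) F D h0 hmono hst
  have hle : ∀ j, j ≤ D → F j ≤ W := by
    intro j hj
    have hle' : ∀ n, j + n ≤ D → F j ≤ F (j + n) := by
      intro n
      induction n with
      | zero => intro _; exact le_rfl
      | succ n ihn =>
        intro hn
        exact (ihn (by omega)).trans (hmono (j + n) (by omega))
    have := hle' (D - j) (by omega)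
    rwa [Nat.add_sub_cancel' hj] at this
  have hpGne : ∀ i, i < D → pG Γ F i ≠ 0 := by
    intro i hi
    have hfin : Finite ↥(F (i + 1) ⊓ cocSub Γ (F i)) :=
      Finite.of_injective
        (fun x : ↥(F (i + 1) ⊓ cocSub Γ (F i)) => (⟨x.1, hle (i + 1) hi x.2.1⟩ : ↥W))
        (fun x y hxy => Subtype.ext (congrArg (fun z : ↥W => (z : J)) hxy))
    exact relIndex_ne_zero_of_finite _ _
  have hPg : 0 < ∏ i ∈ Finset.range D, pG Γ F i :=
    Finset.prod_pos fun i hi => Nat.pos_of_ne_zero (hpGne i (Finset.mem_range.1 hi))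
  have hPs : 0 < ∏ i ∈ Finset.range D, sel Γ F i :=
    Finset.prod_pos fun i hi => Nat.pos_of_ne_zero (hstep i (Finset.mem_range.1 hi)).1
  have hbpos : 0 < b := by
    have hfin : Finite ↥(W ⊓ A) :=
      Finite.of_injective (fun x : ↥(W ⊓ A) => (⟨x.1, x.2.1⟩ : ↥W))
        (fun x y hxy => Subtype.ext (congrArg (fun z : ↥W => (z : J)) hxy))
    exact Nat.card_pos
  have hapos : 0 < a := by
    have h1 : 0 < (∏ i ∈ Finset.range D, sel Γ F i) * b := Nat.mul_pos hPs hbpos
    rw [heng] at h1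
    exact Nat.pos_of_ne_zero fun h => by rw [h, zero_mul] at h1; exact lt_irrefl _ h1
  -- (SEL)
  have hprod : (∏ i ∈ Finset.range D, sel Γ F i) * E ≤
      r ^ (∑ i ∈ Finset.range D, jmp F U i) * ∏ i ∈ Finset.range D, pG Γ F i := by
    have h1 : ∏ i ∈ Finset.range D, (sel Γ F i * r ^ (1 - jmp F K i)) ≤
        ∏ i ∈ Finset.range D, (r ^ jmp F U i * pG Γ F i) :=
      Finset.prod_le_prod (fun i _ => Nat.zero_le _)
        (fun i hi => (hstep i (Finset.mem_range.1 hi)).2)
    rwa [Finset.prod_mul_distrib, Finset.prod_mul_distrib, Finset.prod_pow_eq_pow_sum,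
      Finset.prod_pow_eq_pow_sum] at h1
  have hSEL : a * E ≤ b * Nat.card ↥U := by
    have h1 : (a * E) * (∏ i ∈ Finset.range D, pG Γ F i) ≤
        (b * Nat.card ↥U) * ∏ i ∈ Finset.range D, pG Γ F i := by
      calc (a * E) * (∏ i ∈ Finset.range D, pG Γ F i)
          = (a * ∏ i ∈ Finset.range D, pG Γ F i) * E := by ring
        _ = ((∏ i ∈ Finset.range D, sel Γ F i) * b) * E := by rw [← heng]
        _ = b * ((∏ i ∈ Finset.range D, sel Γ F i) * E) := by ring
        _ ≤ b * (r ^ (∑ i ∈ Finset.range D, jmp F U i) * ∏ i ∈ Finset.range D, pG Γ F i) :=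
            Nat.mul_le_mul_left _ hprod
        _ = (b * Nat.card ↥U) * ∏ i ∈ Finset.range D, pG Γ F i := by rw [hcardU]; ring
    exact Nat.le_of_mul_le_mul_right h1 hPg
  -- (CNT)
  have hAW : A ≤ A ⊔ W := le_sup_left
  have hWY : W ≤ Y := le_cocSub_of_isStable (hst D le_rfl)
  have hAY : A ≤ Y := cocSub_mono bot_le
  have hAWY : A ⊔ W ≤ Y := sup_le hAY hWY
  have hidxAY : A.relIndex Y = A.relIndex W * a := by
    rw [← AddSubgroup.relIndex_mul_relIndex A (A ⊔ W) Y hAW hAWY, AddSubgroup.relIndex_sup_left]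
  have hidxW : A.relIndex W * b = Nat.card ↥W := by
    have := AddSubgroup.relIndex_mul_relIndex (⊥ : AddSubgroup J) (W ⊓ A) W bot_le inf_le_left
    rw [AddSubgroup.relIndex_bot_left, AddSubgroup.relIndex_bot_left, inf_comm,
      AddSubgroup.inf_relIndex_right] at this
    rw [hb, inf_comm, mul_comm]
    exact this
  have hAWne : A.relIndex W ≠ 0 := relIndex_ne_zero_of_finite _ _
  have hAYne : A.relIndex Y ≠ 0 := by
    rw [hidxAY]
    exact Nat.mul_ne_zero hAWne hapos.ne'
  have hCNT' : Nat.card ↥U ^ 2 * b ≤ a * Nat.card ↥W := by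
    calc Nat.card ↥U ^ 2 * b ≤ A.relIndex Y * b := Nat.mul_le_mul_right _ (hCNT hAYne)
      _ = a * (A.relIndex W * b) := by rw [hidxAY]; ring
      _ = a * Nat.card ↥W := by rw [hidxW]
  exact ⟨hapos.ne', Fermat.Agent.S15.H208.selfImproving a b (Nat.card ↥U) (Nat.card ↥W) E hapos hEpos
    hSEL hCNT' hCOUNT⟩

end Abs

end Fermat.Agent.S15.H466

end
-- ===== PACK-END S15/H466/SelAbs.lean

-- ===== PACK-BEGIN A2/ModDefs.lean
section


/-!
# WALL A2 — concrete objects at a good level and the MOD interface (row-lead helper13)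

Definitions only (no `sorry`); LANDED, never to change again.

* `FE E N`            : `F_{N,E} = E(j(t^d) : d ∣ N) ⊆ E((t))`;
* `algREFE`, `towerREFE` : its structure over `R_E = P ∩ E`;
* `GoodField.res`     : restriction of `τ ∈ I_P` to a good level;
* `ModSSData P E N`   : the semistable two-chart model with coordinate `x`
  (intended: `x = j(t) · j(t^q)`, so that `α^*`, `β^*` map the level-`M` charts of `j^{±1}` into
  the level-`N` charts of `x^{±1}`; any coordinate is allowed by the structure);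
* `ModSSStatement`    : the MOD interface statement.
-/

set_option autoImplicit false
set_option synthInstance.maxHeartbeats 400000
set_option maxHeartbeats 1600000

noncomputable section

namespace Fermat.Agent.A2

open ModularCurve AlgebraicCurve

section Mod

variable (P : ValuationSubring Qb) (E : IntermediateField ℚ Qb) (N q : ℕ)

/-- `F_{N,E} = E(j(t^d) : d ∣ N) ⊆ E((t))`. -/
abbrev FE : IntermediateField E (LaurentSeries E) :=
  laurentBaseChange E (modularFunctionFieldFull N)

/-- The algebra structure of `F_{N,E}` over `R_E = P ∩ E`. -/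
instance algREFE : Algebra (RE P E) (FE E N) :=
  ((algebraMap E (FE E N)).comp (RE P E).subtype).toAlgebra

instance towerREFE : IsScalarTower (RE P E) E (FE E N) :=
  IsScalarTower.of_algebraMap_eq fun _ => rfl

/-- The restriction of `τ ∈ I_P` to a good level. -/
def GoodField.res {P : ValuationSubring Qb} {E : IntermediateField ℚ Qb} (hE : GoodField P E)
    (τ : Qb ≃ₐ[ℚ] Qb) (hτ : τ ∈ P.inertiaSubgroupIn ℚ) : E ≃ₐ[ℚ] E :=
  AlgEquiv.ofBijective
    { toFun := fun e => ⟨τ (e : Qb), hE.stable τ hτ e e.2⟩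
      map_one' := Subtype.ext (map_one τ)
      map_mul' := fun a b => Subtype.ext (map_mul τ (a : Qb) (b : Qb))
      map_zero' := Subtype.ext (map_zero τ)
      map_add' := fun a b => Subtype.ext (map_add τ (a : Qb) (b : Qb))
      commutes' := fun r => Subtype.ext (τ.commutes r) }
    ⟨fun a b hab => Subtype.ext (τ.injective (congrArg Subtype.val hab)),
      fun b => ⟨⟨τ⁻¹ (b : Qb), hE.stable τ⁻¹ (inv_mem hτ) b b.2⟩,
        Subtype.ext (τ.apply_symm_apply (b : Qb))⟩⟩

/-- The semistable model of `X₀(N)`, `q ‖ N`, over `R_E` for a good level `E`, with coordinate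
`x`. -/
structure ModSSData where
  /-- the coordinate -/
  x : FE E N
  hx : Transcendental E x
  hfin : FiniteDimensional (IntermediateField.adjoin E ({x} : Set (FE E N))) (FE E N)
  hconst : ∀ f : FE E N, IsAlgebraic E f → f ∈ (algebraMap E (FE E N)).range
  /-- the finite chart -/
  Bf : Subalgebra (RE P E) (FE E N)
  /-- the chart at infinity -/
  Bi : Subalgebra (RE P E) (FE E N)
  hBf : ∀ f : FE E N, f ∈ Bf ↔ IsIntegral (Algebra.adjoin (RE P E) ({x} : Set (FE E N))) f
  hBi : ∀ f : FE E N, f ∈ Bi ↔ IsIntegral (Algebra.adjoin (RE P E) ({x⁻¹} : Set (FE E N))) f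
  cf : ∀ w : RE P E, Irreducible w → Nonempty (SSChart w Bf)
  ci : ∀ w : RE P E, Irreducible w → Nonempty (SSChart w Bi)
  sf : SepCoord (RE P E) E x Bf
  si : SepCoord (RE P E) E x⁻¹ Bi
  /-- inertia fixes the coordinate and acts trivially modulo `w` on both charts -/
  hτx : ∀ (hE : GoodField P E) (τ : Qb ≃ₐ[ℚ] Qb) (hτ : τ ∈ P.inertiaSubgroupIn ℚ),
    arithmeticRingAut (modularFunctionFieldFull N) (hE.res τ hτ) x = x
  hτf : ∀ (hE : GoodField P E) (τ : Qb ≃ₐ[ℚ] Qb) (hτ : τ ∈ P.inertiaSubgroupIn ℚ)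
    (w : RE P E), Irreducible w → ∀ b ∈ Bf, ∃ c ∈ Bf,
      arithmeticRingAut (modularFunctionFieldFull N) (hE.res τ hτ) b - b =
        algebraMap (RE P E) (FE E N) w * c
  hτi : ∀ (hE : GoodField P E) (τ : Qb ≃ₐ[ℚ] Qb) (hτ : τ ∈ P.inertiaSubgroupIn ℚ)
    (w : RE P E), Irreducible w → ∀ b ∈ Bi, ∃ c ∈ Bi,
      arithmeticRingAut (modularFunctionFieldFull N) (hE.res τ hτ) b - b =
        algebraMap (RE P E) (FE E N) w * c

end Mod

/-- **MOD (interface statement).**  For `q ‖ N` the modular function field has a semistable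
two-component model over every good level. -/
def ModSSStatement : Prop :=
  ∀ (P : ValuationSubring Qb) (E : IntermediateField ℚ Qb) (N q : ℕ),
    q.Prime → q ∣ N → ¬ q ^ 2 ∣ N → N ≠ 0 → P.LiesOverPrime q → GoodField P E →
      Nonempty (ModSSData P E N)

/-- **T1 (interface statement)**: `ALG + IF + MOD ⟹ KummerTarget`. -/
def T1Statement : Prop :=
  AlgSSStatement → IFStatement → ModSSStatement →
    ∀ (N q m : ℕ), q.Prime → q ∣ N → ¬ q ^ 2 ∣ N → N ≠ 0 → 0 < m → ¬ q ∣ m →
      KummerTarget N q m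

end Fermat.Agent.A2

end
end
-- ===== PACK-END A2/ModDefs.lean

-- ===== PACK-BEGIN A2/H129/Kummer.lean
section



/-!
# A2 / K1: the Kummer dictionary (Prelude language, any `K`, `F`)

`x ∈ Pic0 K F` with `m • x = 0`, `x = [D]`, `m D = div f`.  For a semilinear automorphism `g`:
`(g - 1)² x = 0` as soon as `(g - 1)² f = c · y ^ m` for a constant `c` and a function `y`
(multiplicative notation `tauSubOne`).

* `KummerTwice g m` : the Kummer-side statement (what K2 + K3 have to prove).
* `unipotent_of_kummerTwice` : `KummerTwice g m → ∀ x, m • x = 0 → g • (g • x - x) = g • x - x`.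
-/

set_option autoImplicit false

namespace Fermat.Agent.A2.H129

open AlgebraicCurve

variable {K F : Type*} [Field K] [Field F] [Algebra K F]

/-- **Kummer-side statement.** For every `f ≠ 0` whose divisor is divisible by `m`, the function
`(g - 1)² f = g(g f / f) / (g f / f)` is a constant times an `m`-th power. -/
def KummerTwice (g : SemilinearAut K F) (m : ℕ) : Prop :=
  ∀ f : F, f ≠ 0 → (∀ v : Place K F, (m : ℤ) ∣ v.ord f) →
    ∃ y : F, ∃ c : K, c ≠ 0 ∧
      tauSubOne (SemilinearAut.toRingAut g) (tauSubOne (SemilinearAut.toRingAut g) f)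
        = algebraMap K F c * y ^ m

theorem ord_algebraMap_eq_zero (v : Place K F) (c : K) : v.ord (algebraMap K F c) = 0 := by
  rcases eq_or_ne c 0 with rfl | hc
  · simp
  have h1 : algebraMap K F c ∈ v.toValuationSubring := v.algebraMap_mem' c
  have h2 : algebraMap K F c⁻¹ ∈ v.toValuationSubring := v.algebraMap_mem' c⁻¹
  have hu : IsUnit (⟨algebraMap K F c, h1⟩ : v.toValuationSubring) := by
    refine IsUnit.of_mul_eq_one (⟨algebraMap K F c⁻¹, h2⟩ : v.toValuationSubring) ?_
    ext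
    show algebraMap K F c * algebraMap K F c⁻¹ = 1
    rw [← map_mul, mul_inv_cancel₀ hc, map_one]
  exact v.ord_coe_unit hu.unit

theorem ord_smul_eq (g : SemilinearAut K F) (w : Place K F) (f : F) :
    w.ord (SemilinearAut.toRingAut g f) = (g⁻¹ • w).ord f := by
  have h := SemilinearAut.ord_smul g (g⁻¹ • w) f
  rw [smul_inv_smul] at h
  exact h

theorem ord_div (v : Place K F) {f h : F} (hf : f ≠ 0) (hh : h ≠ 0) :
    v.ord (f * h⁻¹) = v.ord f - v.ord h := by
  rw [v.ord_mul hf (inv_ne_zero hh), v.ord_inv, sub_eq_add_neg]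

theorem ord_pow (v : Place K F) (y : F) (m : ℕ) : v.ord (y ^ m) = m * v.ord y := by
  have := v.ord_zpow y (m : ℤ)
  simpa using this

/-- **K1.**  The Kummer-side statement implies `(g - 1)² = 0` on the `m`-torsion of `Pic0`. -/
theorem unipotent_of_kummerTwice (g : SemilinearAut K F) (m : ℕ) (hm : m ≠ 0)
    (H : KummerTwice g m) (x : Pic0 K F) (hx : m • x = 0) :
    g • (g • x - x) = g • x - x := by
  obtain ⟨D, rfl⟩ := Pic0.mk_surjective x
  -- the Kummer generator
  have hprin : ((m • D : Divisor.degZero (K := K) (F := F)) : Divisor K F) ∈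
      Divisor.principal (K := K) (F := F) := by
    have h0 : Pic0.mk (m • D) = 0 := hx
    have := (QuotientAddGroup.eq_zero_iff (m • D)).1 h0
    simpa [AddSubgroup.mem_addSubgroupOf] using this
  obtain ⟨f, hf, hfD⟩ := hprin
  have hfD' : ∀ v : Place K F, v.ord f = (m : ℤ) * (D : Divisor K F) v := by
    intro v
    rw [← hfD v]
    simp [Finsupp.smul_apply]
  obtain ⟨y, c, hc, hyc⟩ := H f hf (fun v => ⟨_, hfD' v⟩)
  set τ := SemilinearAut.toRingAut g with hτ
  have hτf : τ f ≠ 0 := by simpa using hf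
  have h1 : tauSubOne τ f ≠ 0 := tauSubOne_ne_zero τ hf
  have h2 : tauSubOne τ (tauSubOne τ f) ≠ 0 := tauSubOne_ne_zero τ h1
  have hy : y ≠ 0 := by
    rintro rfl
    rw [zero_pow hm, mul_zero] at hyc
    exact h2 hyc
  have hcF : algebraMap K F c ≠ 0 := by simpa using hc
  -- the divisor `E = (g-1)² D`
  set E : Divisor.degZero (K := K) (F := F) :=
    SemilinearAut.degZeroSMulHom g (SemilinearAut.degZeroSMulHom g D - D)
      - (SemilinearAut.degZeroSMulHom g D - D) with hE
  have hgoal : g • (g • Pic0.mk D - Pic0.mk D) - (g • Pic0.mk D - Pic0.mk D) = Pic0.mk E := by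
    rw [SemilinearAut.pic0_smul_mk]
    rfl
  rw [← sub_eq_zero, hgoal]
  refine (QuotientAddGroup.eq_zero_iff E).2 ?_
  rw [AddSubgroup.mem_addSubgroupOf]
  refine ⟨y, hy, fun w => ?_⟩
  -- compare `m * E w` and `m * ord_w y`
  have hEw : (E : Divisor K F) w =
      (D : Divisor K F) (g⁻¹ • (g⁻¹ • w)) - (D : Divisor K F) (g⁻¹ • w)
        - ((D : Divisor K F) (g⁻¹ • w) - (D : Divisor K F) w) := by
    simp only [hE, AddSubgroupClass.coe_sub, SemilinearAut.coe_degZeroSMulHom, smul_sub,
      Finsupp.sub_apply, SemilinearAut.divisor_smul_apply]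
  have e1 : ∀ (h : F), h ≠ 0 → ∀ v : Place K F,
      v.ord (tauSubOne τ h) = (g⁻¹ • v).ord h - v.ord h := by
    intro h hh v
    have hτh : τ h ≠ 0 := by simpa using hh
    show v.ord (τ h * h⁻¹) = _
    rw [ord_div v hτh hh, hτ, ord_smul_eq]
  have hord : w.ord (tauSubOne τ (tauSubOne τ f)) =
      (g⁻¹ • (g⁻¹ • w)).ord f - (g⁻¹ • w).ord f - ((g⁻¹ • w).ord f - w.ord f) := by
    rw [e1 _ h1 w, e1 f hf (g⁻¹ • w), e1 f hf w]
  have hord2 : w.ord (tauSubOne τ (tauSubOne τ f)) = (m : ℤ) * w.ord y := by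
    rw [hyc, w.ord_mul hcF (pow_ne_zero m hy), ord_algebraMap_eq_zero, zero_add, ord_pow]
  have hmE : (m : ℤ) * (E : Divisor K F) w = (m : ℤ) * w.ord y := by
    rw [← hord2, hord, hEw, hfD', hfD', hfD']
    ring
  have hm' : (m : ℤ) ≠ 0 := by exact_mod_cast hm
  exact mul_left_cancel₀ hm' hmE

end Fermat.Agent.A2.H129

end
-- ===== PACK-END A2/H129/Kummer.lean

-- ===== PACK-BEGIN A2/H129/KummerJZero.lean
section



/-!
# A2 / K1 for `JZero N`: the wall A2 from its Kummer form

`A2Kummer N m σ` is the Kummer-side statement for the arithmetic Galois action of `σ` on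
`Q̄(X₀(N)) ⊂ Q̄((q))`; `unipotent_JZero_of_kummer` turns it into `(σ - 1)² = 0` on `J₀(N)[m]`.
-/

set_option autoImplicit false

namespace Fermat.Agent.A2.H129

open AlgebraicCurve ModularCurve

/-- The Kummer form of wall A2 for one `σ`: for every `f ∈ Q̄(X₀(N))^×` whose divisor is divisible
by `m`, `(σ-1)² f` is a constant times an `m`-th power. -/
def A2Kummer (N m : ℕ) (σ : AlgebraicClosure ℚ ≃ₐ[ℚ] AlgebraicClosure ℚ) : Prop :=
  KummerTwice (K := AlgebraicClosure ℚ) (F := modularFunctionFieldBar N)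
    (arithmeticGalois (modularFunctionFieldFull N) σ) m

theorem unipotent_JZero_of_kummer (N m : ℕ) (hm : m ≠ 0)
    (σ : AlgebraicClosure ℚ ≃ₐ[ℚ] AlgebraicClosure ℚ) (H : A2Kummer N m σ)
    (x : JZero N) (hx : m • x = 0) :
    σ • (σ • x - x) = σ • x - x := by
  have h := unipotent_of_kummerTwice
    (arithmeticGalois (modularFunctionFieldFull N) σ) m hm H x hx
  exact h

end Fermat.Agent.A2.H129

end
-- ===== PACK-END A2/H129/KummerJZero.lean

-- ===== PACK-BEGIN S13/H175/InertiaMem.lean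
section




set_option autoImplicit false

/-!
# Membership criteria for the Prelude inertia subgroup `A.inertiaSubgroupIn K`
-/

open scoped Pointwise

namespace Fermat.Agent.S13.H175

/-- An automorphism stabilising `A` and acting trivially on the residue field of `A` lies in
the inertia subgroup. -/
theorem mem_inertiaSubgroupIn_of {K L : Type*} [Field K] [Field L] [Algebra K L]
    (A : ValuationSubring L) (σ : L ≃ₐ[K] L) (hstab : σ • A = A)
    (h : ∀ x : L, x ∈ A → σ x - x ∈ A.nonunits) : σ ∈ A.inertiaSubgroupIn K := by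
  unfold ValuationSubring.inertiaSubgroupIn
  rw [Subgroup.mem_map]
  refine ⟨⟨σ, hstab⟩, ?_, rfl⟩
  unfold ValuationSubring.inertiaSubgroup
  rw [MonoidHom.mem_ker]
  ext r
  obtain ⟨x, rfl⟩ := IsLocalRing.residue_surjective r
  show (⟨σ, hstab⟩ : A.decompositionSubgroup K) • IsLocalRing.residue A x = IsLocalRing.residue A x
  rw [← IsLocalRing.ResidueField.residue_smul]
  rw [← sub_eq_zero, ← map_sub, IsLocalRing.residue_eq_zero_iff]
  have h1 := h x x.2
  rw [ValuationSubring.mem_nonunits_iff_exists_mem_maximalIdeal] at h1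
  obtain ⟨h2, h3⟩ := h1
  convert h3 using 1
  exact Subtype.ext rfl

/-- Over an algebraic extension of `ℚ`: an automorphism acting trivially modulo the maximal
ideal of `A` on all algebraic integers lies in the inertia subgroup of `A`. -/
theorem mem_inertiaSubgroupIn_of_integral
    (A : ValuationSubring (AlgebraicClosure ℚ)) (ℓ : ℕ) (hℓ : ℓ.Prime) (hA : A.LiesOverPrime ℓ)
    (σ : AlgebraicClosure ℚ ≃ₐ[ℚ] AlgebraicClosure ℚ)
    (h : ∀ x : AlgebraicClosure ℚ, IsIntegral ℤ x → σ x - x ∈ A.nonunits) :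
    σ ∈ A.inertiaSubgroupIn ℚ := by
  have : Algebra.IsAlgebraic ℚ (AlgebraicClosure ℚ) := AlgebraicClosure.isAlgebraic ℚ
  -- `σ` maps integral elements to integral elements
  have hint : ∀ (τ : AlgebraicClosure ℚ ≃ₐ[ℚ] AlgebraicClosure ℚ) (x : AlgebraicClosure ℚ),
      IsIntegral ℤ x → IsIntegral ℤ (τ x) := by
    intro τ x hx
    exact hx.map τ
  -- the same hypothesis holds for `σ⁻¹`
  have h' : ∀ x : AlgebraicClosure ℚ, IsIntegral ℤ x → σ.symm x - x ∈ A.nonunits := by
    intro x hx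
    have h1 := h (σ.symm x) (hint σ.symm x hx)
    rw [AlgEquiv.apply_symm_apply] at h1
    have := A.nonunits.neg_mem h1
    simpa using this
  -- key: such a `τ` maps `A` into `A` and acts trivially on the residue field
  have key : ∀ (τ : AlgebraicClosure ℚ ≃ₐ[ℚ] AlgebraicClosure ℚ),
      (∀ x : AlgebraicClosure ℚ, IsIntegral ℤ x → τ x - x ∈ A.nonunits) →
      ∀ x : AlgebraicClosure ℚ, x ∈ A → τ x ∈ A ∧ τ x - x ∈ A.nonunits := by
    intro τ hτ x hx
    obtain ⟨b, s, hb, hs, hsA, hxs⟩ := (Fermat.Agent.S54.mem_valuationSubring_iff A ℓ hℓ hA x).mp hx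
    have hbA : b ∈ A := Fermat.Agent.S54.isIntegral_mem_valuationSubring A hb
    have hsmem : s ∈ A := Fermat.Agent.S54.isIntegral_mem_valuationSubring A hs
    have hτs_mem : τ s ∈ A := Fermat.Agent.S54.isIntegral_mem_valuationSubring A (hint τ s hs)
    have hτb_mem : τ b ∈ A := Fermat.Agent.S54.isIntegral_mem_valuationSubring A (hint τ b hb)
    have hs0 : s ≠ 0 := fun h0 => hsA (h0 ▸ A.nonunits.zero_mem)
    have hτs0 : τ s ≠ 0 := fun h0 => hs0 (by simpa using h0)
    -- `τ s` is a unit of `A`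
    have hτsA : τ s ∉ A.nonunits := by
      intro hcon
      have h1 := hτ s hs
      have h2 : s = τ s - (τ s - s) := by ring
      apply hsA
      rw [h2]
      exact A.nonunits.sub_mem hcon h1
    have hsinv : s⁻¹ ∈ A := by
      by_contra hc
      exact hsA (A.mem_nonunits_iff_or.mpr (Or.inr hc))
    have hτsinv : (τ s)⁻¹ ∈ A := by
      by_contra hc
      exact hτsA (A.mem_nonunits_iff_or.mpr (Or.inr hc))
    have hx_eq : x = b * s⁻¹ := by
      rw [← hxs]; field_simp
    have hτx_eq : τ x = τ b * (τ s)⁻¹ := by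
      rw [hx_eq, map_mul, map_inv₀]
    refine ⟨?_, ?_⟩
    · rw [hτx_eq]
      exact A.mul_mem _ _ hτb_mem hτsinv
    · have hdiff : τ x - x = ((τ b - b) * s - b * (τ s - s)) * ((τ s)⁻¹ * s⁻¹) := by
        rw [hτx_eq, hx_eq]
        field_simp
        ring
      rw [hdiff]
      -- nonunits form an ideal-like subset
      have hmul : ∀ u v : AlgebraicClosure ℚ, u ∈ A.nonunits → v ∈ A → u * v ∈ A.nonunits := by
        intro u v hu hv
        obtain ⟨h1, h2⟩ := ValuationSubring.mem_nonunits_iff_exists_mem_maximalIdeal.mp hu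
        have := Ideal.mul_mem_right (⟨v, hv⟩ : A) _ h2
        exact ValuationSubring.mem_nonunits_iff_exists_mem_maximalIdeal.mpr ⟨_, this⟩
      apply hmul _ _ _ (A.mul_mem _ _ hτsinv hsinv)
      apply A.nonunits.sub_mem
      · exact hmul _ _ (hτ b hb) hsmem
      · rw [mul_comm]
        exact hmul _ _ (hτ s hs) hbA
  apply mem_inertiaSubgroupIn_of A σ
  · -- `σ • A = A`
    apply le_antisymm
    · intro y hy
      obtain ⟨x, hx, rfl⟩ := (ValuationSubring.mem_smul_pointwise_iff_exists σ y A).mp hy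
      exact (key σ h x hx).1
    · intro y hy
      rw [ValuationSubring.mem_smul_pointwise_iff_exists]
      refine ⟨σ.symm y, (key σ.symm h' y hy).1, ?_⟩
      simp
  · intro x hx
    exact (key σ h x hx).2

end Fermat.Agent.S13.H175

end
-- ===== PACK-END S13/H175/InertiaMem.lean

-- ===== PACK-BEGIN S14/H937/Setup.lean
section






/-!
# S14, blocks LOCAL-I / LOCAL-D (helper937): finite-level package

`A` a valuation subring of `ℚ̄`, `K` a number field inside `ℚ̄`, `M/K` a finite Galois extension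
inside `ℚ̄`.  We relate `A` to the primes of `𝓞 K` and `𝓞 M` below it, and lift elements of the
inertia / decomposition groups of `Gal(M/K)` to `Gal(ℚ̄/K)`.
-/

set_option autoImplicit false
set_option linter.style.haveILetI false

open NumberField
open scoped Pointwise

namespace Fermat.Agent.S14.H937

/-- `ℚ̄`. -/
abbrev Qb := AlgebraicClosure ℚ

theorem h937_isAlgebraic : Algebra.IsAlgebraic ℚ Qb := AlgebraicClosure.isAlgebraic ℚ

section toZbar

variable (F : Type*) [Field F] [Algebra F Qb]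

/-- The ring hom from the integers of a field mapping to `ℚ̄` to the ring of all algebraic
integers. -/
noncomputable def toZbar : 𝓞 F →+* integralClosure ℤ Qb where
  toFun x := ⟨algebraMap F Qb (x : F), map_isIntegral_int (algebraMap F Qb) x.2⟩
  map_one' := by ext; simp
  map_mul' x y := by ext; simp
  map_zero' := by ext; simp
  map_add' x y := by ext; simp

theorem toZbar_coe (x : 𝓞 F) : ((toZbar F x : integralClosure ℤ Qb) : Qb) =
    algebraMap F Qb (x : F) := rfl

/-- The prime of `𝓞 F` below a valuation subring of `ℚ̄`. -/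
noncomputable def primeOf (A : ValuationSubring Qb) : Ideal (𝓞 F) :=
  (Fermat.Agent.S54.primeBelow A).comap (toZbar F)

theorem mem_primeOf (A : ValuationSubring Qb) (x : 𝓞 F) :
    x ∈ primeOf F A ↔ algebraMap F Qb (x : F) ∈ A.nonunits := Iff.rfl

instance primeOf_isPrime (A : ValuationSubring Qb) : (primeOf F A).IsPrime :=
  haveI := Fermat.Agent.S54.primeBelow_isPrime A
  Ideal.comap_isPrime _ _

theorem natCast_mem_primeOf (A : ValuationSubring Qb) (ℓ : ℕ) (hA : A.LiesOverPrime ℓ) :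
    (ℓ : 𝓞 F) ∈ primeOf F A := by
  rw [mem_primeOf]
  have hA' : (ℓ : Qb) ∈ A.nonunits := hA
  simpa using hA'

theorem primeOf_ne_bot [CharZero F] (A : ValuationSubring Qb) (ℓ : ℕ) (hℓ : ℓ.Prime)
    (hA : A.LiesOverPrime ℓ) : primeOf F A ≠ ⊥ := by
  intro h
  have h1 := natCast_mem_primeOf F A ℓ hA
  rw [h, Ideal.mem_bot] at h1
  have : (ℓ : 𝓞 F) ≠ 0 := by
    exact_mod_cast hℓ.ne_zero
  exact this h1

end toZbar

section dict

open IsDedekindDomain

variable (F : Type*) [Field F] [NumberField F] [Algebra F Qb]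
variable (A : ValuationSubring Qb) (w : HeightOneSpectrum (𝓞 F)) (hw : w.asIdeal = primeOf F A)

omit [NumberField F] in
theorem integer_mem (x : 𝓞 F) : algebraMap F Qb (x : F) ∈ A :=
  Fermat.Agent.S54.isIntegral_mem_valuationSubring A (map_isIntegral_int (algebraMap F Qb) x.2)

theorem mul_mem_nonunits_left {a b : Qb} (ha : a ∈ A.nonunits) (hb : b ∈ A) :
    a * b ∈ A.nonunits := by
  obtain ⟨h1, h2⟩ := ValuationSubring.mem_nonunits_iff_exists_mem_maximalIdeal.mp ha
  have := Ideal.mul_mem_right (⟨b, hb⟩ : A) _ h2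
  exact ValuationSubring.mem_nonunits_iff_exists_mem_maximalIdeal.mpr ⟨_, this⟩

theorem inv_mem_of_not_mem_nonunits {a : Qb} (ha : a ∉ A.nonunits) : a⁻¹ ∈ A := by
  by_contra h
  exact ha (A.mem_nonunits_iff_or.mpr (Or.inr h))

include hw in
theorem mem_of_valuation_le_one (x : F) (hx : w.valuation F x ≤ 1) :
    algebraMap F Qb x ∈ A := by
  obtain ⟨n, d, hnd⟩ := w.exists_primeCompl_mul_eq_of_integer x hx
  have hd : algebraMap F Qb ((d : 𝓞 F) : F) ∉ A.nonunits := by
    have h1 : (d : 𝓞 F) ∉ primeOf F A := by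
      rw [← hw]; exact d.2
    rw [mem_primeOf] at h1
    exact h1
  have hd0 : algebraMap F Qb ((d : 𝓞 F) : F) ≠ 0 := fun h0 => hd (h0 ▸ A.nonunits.zero_mem)
  have h2 : algebraMap F Qb x = algebraMap F Qb ((n : 𝓞 F) : F) *
      (algebraMap F Qb ((d : 𝓞 F) : F))⁻¹ := by
    rw [eq_mul_inv_iff_mul_eq₀ hd0, ← map_mul]
    congr 1
  rw [h2]
  exact A.mul_mem _ _ (integer_mem F A n) (inv_mem_of_not_mem_nonunits A hd)

include hw in
theorem mem_nonunits_of_valuation_lt_one (x : F) (hx : w.valuation F x < 1) :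
    algebraMap F Qb x ∈ A.nonunits := by
  obtain ⟨n, d, hnd⟩ := w.exists_primeCompl_mul_eq_of_integer x hx.le
  have hd : algebraMap F Qb ((d : 𝓞 F) : F) ∉ A.nonunits := by
    have h1 : (d : 𝓞 F) ∉ primeOf F A := by
      rw [← hw]; exact d.2
    rw [mem_primeOf] at h1
    exact h1
  have hd0 : algebraMap F Qb ((d : 𝓞 F) : F) ≠ 0 := fun h0 => hd (h0 ▸ A.nonunits.zero_mem)
  have hdv : w.valuation F ((d : 𝓞 F) : F) = 1 := by
    rw [HeightOneSpectrum.valuation_of_algebraMap, HeightOneSpectrum.intValuation_eq_one_iff_mem_primeCompl]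
    exact d.2
  have hn : (n : 𝓞 F) ∈ w.asIdeal := by
    rw [← HeightOneSpectrum.valuation_lt_one_iff_mem (K := F)]
    have : w.valuation F ((n : 𝓞 F) : F) = w.valuation F x * w.valuation F ((d : 𝓞 F) : F) := by
      rw [← map_mul]; congr 1; exact hnd.symm
    rw [this, hdv, mul_one]
    exact hx
  rw [hw, mem_primeOf] at hn
  have h2 : algebraMap F Qb x = algebraMap F Qb ((n : 𝓞 F) : F) *
      (algebraMap F Qb ((d : 𝓞 F) : F))⁻¹ := by
    rw [eq_mul_inv_iff_mul_eq₀ hd0, ← map_mul]
    congr 1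
  rw [h2]
  exact mul_mem_nonunits_left A hn (inv_mem_of_not_mem_nonunits A hd)

include hw in
theorem valuation_eq_one_of (x : F) (hx : w.valuation F x = 1) :
    A.valuation (algebraMap F Qb x) = 1 := by
  have hx0 : x ≠ 0 := by
    rintro rfl
    simp at hx
  have h1 := mem_of_valuation_le_one F A w hw x hx.le
  have h2 : w.valuation F x⁻¹ ≤ 1 := by
    rw [map_inv₀, hx, inv_one]
  have h3 := mem_of_valuation_le_one F A w hw x⁻¹ h2
  rw [map_inv₀] at h3
  apply le_antisymm
  · exact (A.valuation_le_one_iff _).mpr h1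
  · have h4 := (A.valuation_le_one_iff _).mpr h3
    rw [map_inv₀] at h4
    have hne : A.valuation (algebraMap F Qb x) ≠ 0 := by
      rw [Valuation.ne_zero_iff]
      simpa using hx0
    exact (inv_le_one₀ (zero_lt_iff.mpr hne)).mp h4

include hw in
theorem valuation_le_one_of_mem (x : F) (hx : algebraMap F Qb x ∈ A) :
    w.valuation F x ≤ 1 := by
  by_contra hcon
  rw [not_le] at hcon
  have hx0 : x ≠ 0 := by
    rintro rfl
    simp at hcon
  have h1 : w.valuation F x⁻¹ < 1 := by
    rw [map_inv₀]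
    exact inv_lt_one_of_one_lt₀ hcon
  have h2 := mem_nonunits_of_valuation_lt_one F A w hw x⁻¹ h1
  rw [map_inv₀, ValuationSubring.mem_nonunits_iff, map_inv₀] at h2
  have h3 := (A.valuation_le_one_iff _).mpr hx
  have hne : A.valuation (algebraMap F Qb x) ≠ 0 := by
    rw [Valuation.ne_zero_iff]
    simpa using hx0
  have h4 : 1 < A.valuation (algebraMap F Qb x) := by
    have := (inv_lt_one₀ (zero_lt_iff.mpr hne)).mp h2
    exact this
  exact absurd h3 (not_le.mpr h4)

end dict

end Fermat.Agent.S14.H937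

end
-- ===== PACK-END S14/H937/Setup.lean

-- ===== PACK-BEGIN S18/H138/ChartsConst.lean
section


/-!
# S18, Route K, ASM (helper138): constants and finiteness of the charts

* `mem_range_of_mem_adjoin_inter` : `R[x] ∩ R[x⁻¹] = R` for `x` transcendental over `R`.
* `isIntegral_of_mem_chart_inter` : an element of `F` integral over `R[x]` and over `R[x⁻¹]` is
  integral over `R` (for `R[X]` integrally closed, e.g. `R` a DVR).
* `exists_finite_gens`            : `B_fin` is generated over `R` by finitely many `x ^ j * bs i`.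
-/

set_option autoImplicit false
set_option linter.style.haveILetI false

namespace Fermat.Agent.S18.H138

open Polynomial

variable {R : Type*} [CommRing R] {F : Type*} [Field F] [Algebra R F]

theorem mem_adjoin_singleton_iff {x c : F} :
    c ∈ Algebra.adjoin R ({x} : Set F) ↔ ∃ P : R[X], aeval x P = c := by
  rw [Algebra.adjoin_singleton_eq_range_aeval]
  rfl

/-- `x ^ d * Q(x⁻¹) = (reflect d Q)(x)` for `natDegree Q ≤ d`. -/
theorem pow_mul_aeval_inv {x : F} (hx : x ≠ 0) (Q : R[X]) {d : ℕ} (hd : Q.natDegree ≤ d) :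
    x ^ d * aeval x⁻¹ Q = aeval x (reflect d Q) := by
  letI : Invertible x := invertibleOfNonzero hx
  have h := eval₂_reflect_mul_pow (algebraMap R F) x d (reflect d Q)
    (le_trans natDegree_reflect_le (by simp [hd]))
  rw [reflect_reflect] at h
  rw [invOf_eq_inv] at h
  rw [aeval_def, aeval_def, ← h, mul_comm]

theorem ne_zero_of_transcendental {x : F} (hx : Transcendental R x) : x ≠ 0 := by
  haveI : Nontrivial R := (algebraMap R F).domain_nontrivial
  rintro rfl
  exact hx ⟨X, X_ne_zero, by simp⟩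

theorem transcendental_inv {x : F} (hx : Transcendental R x) : Transcendental R x⁻¹ := by
  have hx0 : x ≠ 0 := ne_zero_of_transcendental hx
  rw [transcendental_iff] at hx ⊢
  intro Q hQ
  have h := pow_mul_aeval_inv (R := R) hx0 Q le_rfl
  rw [hQ, mul_zero] at h
  have h2 := hx _ h.symm
  have := congrArg (reflect Q.natDegree) h2
  rwa [reflect_reflect, reflect_zero] at this

/-- `R[x] ∩ R[x⁻¹] = R` inside `F`, for `x` transcendental over `R`. -/
theorem mem_range_of_mem_adjoin_inter {x : F} (hx : Transcendental R x) {c : F}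
    (h1 : c ∈ Algebra.adjoin R ({x} : Set F)) (h2 : c ∈ Algebra.adjoin R ({x⁻¹} : Set F)) :
    c ∈ Set.range (algebraMap R F) := by
  haveI : Nontrivial R := (algebraMap R F).domain_nontrivial
  have hx0 : x ≠ 0 := ne_zero_of_transcendental hx
  obtain ⟨P, rfl⟩ := mem_adjoin_singleton_iff.1 h1
  obtain ⟨Q, hQ⟩ := mem_adjoin_singleton_iff.1 h2
  have h := pow_mul_aeval_inv (R := R) hx0 Q le_rfl
  rw [hQ] at h
  have h3 : aeval x (X ^ Q.natDegree * P) = aeval x (reflect Q.natDegree Q) := by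
    rw [map_mul, map_pow, aeval_X, h]
  have h4 : X ^ Q.natDegree * P = reflect Q.natDegree Q := by
    have := (transcendental_iff.1 hx) (X ^ Q.natDegree * P - reflect Q.natDegree Q)
      (by rw [map_sub, h3, sub_self])
    exact sub_eq_zero.1 this
  by_cases hP : P = 0
  · subst hP
    exact ⟨0, by simp⟩
  have h5 : (X ^ Q.natDegree * P).natDegree = Q.natDegree + P.natDegree := by
    rw [natDegree_X_pow_mul _ hP, add_comm]
  have h6 : (reflect Q.natDegree Q).natDegree ≤ Q.natDegree :=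
    le_trans natDegree_reflect_le (by simp)
  rw [← h4, h5] at h6
  have h7 : P.natDegree = 0 := by omega
  obtain ⟨r, hr⟩ := natDegree_eq_zero.1 h7
  exact ⟨r, by rw [← hr]; simp⟩

section Integral

theorem isIntegrallyClosed_adjoin_singleton [IsIntegrallyClosed R[X]] {x : F}
    (hx : Transcendental R x) : IsIntegrallyClosed (Algebra.adjoin R ({x} : Set F)) := by
  have hinj : Function.Injective (aeval (R := R) x) :=
    (injective_iff_map_eq_zero _).2 (transcendental_iff.1 hx)
  let e : R[X] ≃ₐ[R] Algebra.adjoin R ({x} : Set F) :=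
    (AlgEquiv.ofInjective (aeval (R := R) x) hinj).trans
      (Subalgebra.equivOfEq _ _ (Algebra.adjoin_singleton_eq_range_aeval R x).symm)
  exact IsIntegrallyClosed.of_equiv e.toRingEquiv

theorem isNoetherianRing_adjoin_singleton [IsNoetherianRing R] {x : F}
    (hx : Transcendental R x) : IsNoetherianRing (Algebra.adjoin R ({x} : Set F)) := by
  have hinj : Function.Injective (aeval (R := R) x) :=
    (injective_iff_map_eq_zero _).2 (transcendental_iff.1 hx)
  let e : R[X] ≃ₐ[R] Algebra.adjoin R ({x} : Set F) :=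
    (AlgEquiv.ofInjective (aeval (R := R) x) hinj).trans
      (Subalgebra.equivOfEq _ _ (Algebra.adjoin_singleton_eq_range_aeval R x).symm)
  exact isNoetherianRing_of_ringEquiv _ e.toRingEquiv

/-- The field generated by `R` and `x` inside `F`. -/
def baseField (R : Type*) [CommRing R] {F : Type*} [Field F] [Algebra R F] (x : F) :
    Subfield F :=
  Subfield.closure (Set.range (algebraMap R F) ∪ {x})

theorem adjoin_le_baseField (x : F) {a : F} (ha : a ∈ Algebra.adjoin R ({x} : Set F)) :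
    a ∈ baseField R x := by
  have : a ∈ (Algebra.adjoin R ({x} : Set F)).toSubring := ha
  rw [Algebra.adjoin_eq_ring_closure] at this
  exact Subfield.subring_closure_le _ this

theorem inv_mem_baseField (x : F) : x⁻¹ ∈ baseField R x :=
  (baseField R x).inv_mem (Subfield.subset_closure (by simp))

theorem baseField_inv (x : F) : baseField R x⁻¹ = baseField R x := by
  apply le_antisymm
  · refine Subfield.closure_le.2 ?_
    rintro y (hy | hy)
    · exact Subfield.subset_closure (Or.inl hy)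
    · rw [Set.mem_singleton_iff] at hy
      rw [hy]
      exact inv_mem_baseField x
  · refine Subfield.closure_le.2 ?_
    rintro y (hy | hy)
    · exact Subfield.subset_closure (Or.inl hy)
    · rw [Set.mem_singleton_iff] at hy
      rw [hy]
      have := inv_mem_baseField (R := R) x⁻¹
      rwa [inv_inv] at this

theorem exists_div_of_mem_baseField (x : F) {z : F} (hz : z ∈ baseField R x) :
    ∃ a ∈ Algebra.adjoin R ({x} : Set F), ∃ b ∈ Algebra.adjoin R ({x} : Set F), z = a / b := by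
  obtain ⟨a, ha, b, hb, rfl⟩ := Subfield.mem_closure_iff.1 hz
  rw [← Algebra.adjoin_eq_ring_closure] at ha hb
  exact ⟨a, ha, b, hb, rfl⟩

/-- Coefficients of the minimal polynomial over the fraction field of an integrally closed
subalgebra `A` of `F` lie in `A`. -/
theorem minpoly_coeff_mem (A : Subalgebra R F) [IsIntegrallyClosed A] (K : Subfield F)
    (hAK : ∀ a ∈ A, a ∈ K) (hfrac : ∀ z ∈ K, ∃ a ∈ A, ∃ b ∈ A, z = a / b)
    {y : F} (hy : IsIntegral A y) (n : ℕ) :
    (((minpoly K y).coeff n : K) : F) ∈ A := by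
  let φ : A →+* K :=
    { toFun := fun a => ⟨a, hAK a a.2⟩
      map_one' := rfl
      map_mul' := fun _ _ => rfl
      map_zero' := rfl
      map_add' := fun _ _ => rfl }
  letI : Algebra A K := φ.toAlgebra
  haveI : IsScalarTower A K F := IsScalarTower.of_algebraMap_eq (fun _ => rfl)
  have hinj : Function.Injective (algebraMap A K) := by
    intro a b hab
    have : (a : F) = b := congrArg (fun t : K => (t : F)) hab
    exact Subtype.ext this
  haveI : FaithfulSMul A K := (faithfulSMul_iff_algebraMap_injective A K).2 hinj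
  haveI : IsFractionRing A K := by
    refine IsFractionRing.of_field A K (fun z => ?_)
    obtain ⟨a, ha, b, hb, h⟩ := hfrac z z.2
    exact ⟨⟨a, ha⟩, ⟨b, hb⟩, Subtype.ext h⟩
  have h := minpoly.isIntegrallyClosed_eq_field_fractions' (R := A) (S := F) K hy
  rw [h, coeff_map]
  exact ((minpoly A y).coeff n).2

/-- An element of `F` integral over `R[x]` and over `R[x⁻¹]` is integral over `R`. -/
theorem isIntegral_of_mem_chart_inter [IsIntegrallyClosed R[X]] {x : F}
    (hx : Transcendental R x) {y : F}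
    (h1 : y ∈ chart R ({x} : Set F)) (h2 : y ∈ chart R ({x⁻¹} : Set F)) :
    IsIntegral R y := by
  have hx0 : x ≠ 0 := ne_zero_of_transcendental hx
  have hxi : Transcendental R x⁻¹ := transcendental_inv hx
  haveI := isIntegrallyClosed_adjoin_singleton (R := R) hx
  haveI := isIntegrallyClosed_adjoin_singleton (R := R) hxi
  set K := baseField R x with hK
  have hc1 : ∀ n, (((minpoly K y).coeff n : K) : F) ∈ Algebra.adjoin R ({x} : Set F) :=
    minpoly_coeff_mem _ K (fun a ha => adjoin_le_baseField x ha)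
      (fun z hz => exists_div_of_mem_baseField x hz) h1
  have hc2 : ∀ n, (((minpoly K y).coeff n : K) : F) ∈ Algebra.adjoin R ({x⁻¹} : Set F) :=
    minpoly_coeff_mem _ K (fun a ha => by
        have := adjoin_le_baseField (R := R) x⁻¹ ha
        rwa [baseField_inv] at this)
      (fun z hz => by
        have hz' : z ∈ baseField R x⁻¹ := by rwa [baseField_inv]
        exact exists_div_of_mem_baseField x⁻¹ hz') h2
  have hc : ∀ n, (((minpoly K y).coeff n : K) : F) ∈ Set.range (algebraMap R F) := fun n =>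
    mem_range_of_mem_adjoin_inter hx (hc1 n) (hc2 n)
  have hyK : IsIntegral K y := by
    obtain ⟨p, hp, hp0⟩ := h1
    refine ⟨p.map (⟨⟨⟨fun a => (⟨a, adjoin_le_baseField x a.2⟩ : K), rfl⟩, fun _ _ => rfl⟩,
      rfl, fun _ _ => rfl⟩ : Algebra.adjoin R ({x} : Set F) →+* K), hp.map _, ?_⟩
    rw [eval₂_map]
    exact hp0
  have hmem : (minpoly K y).map (algebraMap K F) ∈ lifts (algebraMap R F) := by
    rw [lifts_iff_coeff_lifts]
    intro n
    rw [coeff_map]
    exact hc n
  obtain ⟨q, hq, -, hqm⟩ := lifts_and_natDegree_eq_and_monic hmem ((minpoly.monic hyK).map _)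
  refine ⟨q, hqm, ?_⟩
  rw [← eval_map, hq, eval_map, ← aeval_def]
  exact minpoly.aeval K y

end Integral

end Fermat.Agent.S18.H138

end
-- ===== PACK-END S18/H138/ChartsConst.lean

-- ===== PACK-BEGIN A2/H552/Const.lean
section








/-!
# A2 / ALG (c1), part 2 (helper552): no new constants in an unramified extension

`R` a Henselian discrete valuation ring of characteristic zero with algebraically closed residue
field, uniformiser `w`.

* `exists_algebraMap_eq_of_isAlgebraic` (ring form): `O ⊇ R` a domain whose non-units are exactly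
  the multiples of `w` (a local ring with maximal ideal `w O`: "`e = 1`"; no finiteness, no
  noetherianity, no rank assumption).  Then every element of `O` algebraic over `R` lies in `R`.
* `mem_range_of_isAlgebraic_of_valuationSubring` (field form): `E = Frac R`, `L / E` any field
  extension, `V` a valuation subring of `L` containing `R` in which `w` is a non-unit generating
  the non-units.  Then every element of `L` algebraic over `E` lies in `E`.

Application (A2, route G, step (c1)): `E` is algebraically closed in the Kummer cover `𝔽` of `F`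
as soon as ONE of the two Gauss valuations `V₁` of `F` (uniformiser `w`) has an extension to `𝔽`
with `e = 1` (e.g. when `V₁` splits completely).
-/

set_option autoImplicit false

namespace Fermat.Agent.A2.H552

open Polynomial IsLocalRing

section RingForm

variable {R O : Type*} [CommRing R] [IsDomain R] [IsDiscreteValuationRing R]
  [CommRing O] [IsDomain O] [Algebra R O]

/-- If `w^n` divides `r` in `O`, it does so in `R`. -/
theorem pow_dvd_of_map_pow_dvd {w : R} (hw : Irreducible w)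
    (hwO : ¬ IsUnit (algebraMap R O w)) (hinj : Function.Injective (algebraMap R O))
    (n : ℕ) (r : R) (h : algebraMap R O w ^ n ∣ algebraMap R O r) : w ^ n ∣ r := by
  rcases eq_or_ne r 0 with rfl | hr
  · exact dvd_zero _
  obtain ⟨a, u, rfl⟩ := IsDiscreteValuationRing.eq_unit_mul_pow_irreducible hr hw
  rcases le_or_gt n a with hna | hna
  · exact Dvd.dvd.mul_left (pow_dvd_pow w hna) _
  exfalso
  obtain ⟨k, rfl⟩ : ∃ k, n = a + (k + 1) := ⟨n - a - 1, by omega⟩
  have hw0 : algebraMap R O w ≠ 0 := by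
    intro h0
    exact hw.ne_zero (hinj (by rw [h0, _root_.map_zero]))
  rw [_root_.map_mul, _root_.map_pow, pow_add, mul_comm (algebraMap R O (u : R))] at h
  have h' := (mul_dvd_mul_iff_left (pow_ne_zero a hw0)).mp h
  have h'' : algebraMap R O w ∣ algebraMap R O (u : R) :=
    (dvd_pow_self _ (Nat.succ_ne_zero k)).trans h'
  exact hwO (isUnit_of_dvd_unit h'' (u.isUnit.map (algebraMap R O)))

variable [IsAlgClosed (ResidueField R)]

/-- The residue field of `O` is that of `R`: every element of `O` algebraic over `R` is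
congruent modulo `w` to an element of `R`. -/
theorem exists_sub_dvd_of_isAlgebraic {w : R} (hw : Irreducible w)
    (hnu : ∀ b : O, ¬ IsUnit b → algebraMap R O w ∣ b)
    (hwO : ¬ IsUnit (algebraMap R O w)) (hinj : Function.Injective (algebraMap R O))
    (β : O) (hβ : IsAlgebraic R β) : ∃ b : R, algebraMap R O w ∣ β - algebraMap R O b := by
  obtain ⟨p, hp0, hp⟩ := hβ
  have hmax : maximalIdeal R = Ideal.span {w} := hw.maximalIdeal_eq
  have hw0 : algebraMap R O w ≠ 0 := by
    intro h0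
    exact hw.ne_zero (hinj (by rw [h0, _root_.map_zero]))
  have hCw : ¬ IsUnit (C w : R[X]) := by
    rw [Polynomial.isUnit_iff]
    rintro ⟨r, hr, hrw⟩
    rw [C_inj] at hrw
    exact hw.not_isUnit (hrw ▸ hr)
  -- make `p` primitive
  obtain ⟨n, p₀, hndvd, rfl⟩ := WfDvdMonoid.max_power_factor' hp0 hCw
  have hp₀ : aeval β p₀ = 0 := by
    rw [_root_.map_mul, _root_.map_pow, aeval_C] at hp
    exact (mul_eq_zero.mp hp).resolve_left (pow_ne_zero n hw0)
  have hbar : p₀.map (residue R) ≠ 0 := by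
    intro h
    apply hndvd
    rw [C_dvd_iff_dvd_coeff]
    intro i
    have hi : residue R (p₀.coeff i) = 0 := by
      rw [← coeff_map, h, coeff_zero]
    rw [residue_eq_zero_iff, hmax, Ideal.mem_span_singleton] at hi
    exact hi
  -- split the reduction and lift the factorisation
  set pb := p₀.map (residue R) with hpb
  have hsplit : pb = C pb.leadingCoeff * (pb.roots.map fun x => X - C x).prod :=
    (IsAlgClosed.splits pb).eq_prod_roots
  have hsurj : Function.Surjective (residue R) := Ideal.Quotient.mk_surjective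
  let lift : ResidueField R → R := Function.surjInv hsurj
  have hlift : ∀ x, residue R (lift x) = x := Function.surjInv_eq hsurj
  set ℓ := lift pb.leadingCoeff with hℓ
  have hℓu : IsUnit ℓ := by
    rw [← IsLocalRing.notMem_maximalIdeal, ← residue_eq_zero_iff, hℓ, hlift]
    exact leadingCoeff_ne_zero.mpr hbar
  set P : R[X] := C ℓ * (pb.roots.map fun x => X - C (lift x)).prod with hP
  have hPbar : P.map (residue R) = pb := by
    rw [hP, Polynomial.map_mul, map_C, hℓ, hlift, Polynomial.map_multiset_prod,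
      Multiset.map_map]
    conv_rhs => rw [hsplit]
    congr 2
    refine Multiset.map_congr rfl fun x _ => ?_
    simp [hlift]
  have hdiff : C w ∣ p₀ - P := by
    rw [C_dvd_iff_dvd_coeff]
    intro i
    have hi : residue R ((p₀ - P).coeff i) = 0 := by
      rw [← coeff_map, Polynomial.map_sub, hPbar, ← hpb, sub_self, coeff_zero]
    rw [residue_eq_zero_iff, hmax, Ideal.mem_span_singleton] at hi
    exact hi
  obtain ⟨Q, hQ⟩ := hdiff
  have heval : aeval β P = - (algebraMap R O w * aeval β Q) := by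
    have h1 : aeval β p₀ - aeval β P = algebraMap R O w * aeval β Q := by
      rw [← _root_.map_sub, hQ, _root_.map_mul, aeval_C]
    rw [hp₀, zero_sub] at h1
    rw [← h1, neg_neg]
  have hPeval : aeval β P = algebraMap R O ℓ *
      (pb.roots.map fun x => β - algebraMap R O (lift x)).prod := by
    rw [hP, _root_.map_mul, aeval_C, _root_.map_multiset_prod, Multiset.map_map]
    congr 2
    refine Multiset.map_congr rfl fun x _ => ?_
    simp
  by_contra hcon
  have hunits : ∀ x ∈ pb.roots, IsUnit (β - algebraMap R O (lift x)) := by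
    intro x _
    by_contra hx
    exact hcon ⟨lift x, hnu _ hx⟩
  have hprod : IsUnit (pb.roots.map fun x => β - algebraMap R O (lift x)).prod := by
    apply Multiset.prod_induction (p := fun y : O => IsUnit y)
    · intro a b ha hb; exact ha.mul hb
    · exact isUnit_one
    · intro y hy
      obtain ⟨x, hx, rfl⟩ := Multiset.mem_map.mp hy
      exact hunits x hx
  have hPu : IsUnit (aeval β P) := by
    rw [hPeval]
    exact (hℓu.map (algebraMap R O)).mul hprod
  apply hwO
  refine isUnit_of_dvd_unit ?_ hPu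
  rw [heval]
  exact (Dvd.intro _ rfl).neg_right ..

/-- Successive approximation: an element of `O` algebraic over `R` is congruent to an element
of `R` modulo every power of `w`. -/
theorem exists_pow_dvd_sub_of_isAlgebraic {w : R} (hw : Irreducible w)
    (hnu : ∀ b : O, ¬ IsUnit b → algebraMap R O w ∣ b)
    (hwO : ¬ IsUnit (algebraMap R O w)) (hinj : Function.Injective (algebraMap R O))
    (α : O) (hα : IsAlgebraic R α) (j : ℕ) :
    ∃ s : R, algebraMap R O w ^ j ∣ α - algebraMap R O s := by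
  have hw0 : algebraMap R O w ≠ 0 := by
    intro h0
    exact hw.ne_zero (hinj (by rw [h0, _root_.map_zero]))
  induction j with
  | zero => exact ⟨0, by simp⟩
  | succ j ih =>
    obtain ⟨s, β, hβ⟩ := ih
    have hβalg : IsAlgebraic R β := by
      refine IsAlgebraic.of_mul (y := algebraMap R O w ^ j)
        (mem_nonZeroDivisors_of_ne_zero (pow_ne_zero j hw0)) ?_ ?_
      · rw [← _root_.map_pow]; exact isAlgebraic_algebraMap _
      · rw [← hβ]; exact hα.sub (isAlgebraic_algebraMap s)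
    obtain ⟨b, γ, hγ⟩ := exists_sub_dvd_of_isAlgebraic hw hnu hwO hinj β hβalg
    refine ⟨s + w ^ j * b, γ, ?_⟩
    rw [_root_.map_add, _root_.map_mul, _root_.map_pow, pow_succ]
    linear_combination hβ + algebraMap R O w ^ j * hγ

omit [IsAlgClosed (ResidueField R)] in
/-- A nonzero element of `O` algebraic over `R` has finite `w`-adic valuation. -/
theorem exists_eq_pow_mul_unit_of_isAlgebraic {w : R} (hw : Irreducible w)
    (hnu : ∀ b : O, ¬ IsUnit b → algebraMap R O w ∣ b)
    (hwO : ¬ IsUnit (algebraMap R O w)) (hinj : Function.Injective (algebraMap R O))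
    (γ : O) (hγ0 : γ ≠ 0) (hγ : IsAlgebraic R γ) :
    ∃ (c : ℕ) (η : O), IsUnit η ∧ γ = algebraMap R O w ^ c * η := by
  obtain ⟨r, hr0, hr⟩ := hγ.exists_nonzero_dvd (mem_nonZeroDivisors_of_ne_zero hγ0)
  obtain ⟨a, u, rfl⟩ := IsDiscreteValuationRing.eq_unit_mul_pow_irreducible hr0 hw
  by_contra hcon
  have hall : ∀ c, algebraMap R O w ^ c ∣ γ := by
    intro c
    induction c with
    | zero => simp
    | succ c ih =>
      obtain ⟨η, hη⟩ := ih
      have hηu : ¬ IsUnit η := fun hu => hcon ⟨c, η, hu, hη⟩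
      obtain ⟨η', hη'⟩ := hnu η hηu
      exact ⟨η', by rw [hη, hη', pow_succ, mul_assoc]⟩
  have h1 : algebraMap R O w ^ (a + 1) ∣ algebraMap R O (↑u * w ^ a) := (hall (a + 1)).trans hr
  have h2 := pow_dvd_of_map_pow_dvd hw hwO hinj (a + 1) _ h1
  rw [pow_succ, mul_comm (u : R)] at h2
  have h3 := (mul_dvd_mul_iff_left (pow_ne_zero a hw.ne_zero)).mp h2
  exact hw.not_isUnit (isUnit_of_dvd_unit h3 u.isUnit)

/-- **No new constants (ring form).**  `R` a Henselian discrete valuation ring of characteristic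
zero with algebraically closed residue field and uniformiser `w`; `O ⊇ R` a domain whose
non-units are exactly the multiples of `w`.  Then every element of `O` which is algebraic over
`R` lies in `R`. -/
theorem exists_algebraMap_eq_of_isAlgebraic [HenselianLocalRing R] [CharZero R] {w : R}
    (hw : Irreducible w)
    (hnu : ∀ b : O, ¬ IsUnit b → algebraMap R O w ∣ b)
    (hwO : ¬ IsUnit (algebraMap R O w)) (hinj : Function.Injective (algebraMap R O))
    (α : O) (hα : IsAlgebraic R α) : ∃ r : R, algebraMap R O r = α := by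
  classical
  have hw0 : algebraMap R O w ≠ 0 := by
    intro h0
    exact hw.ne_zero (hinj (by rw [h0, _root_.map_zero]))
  -- a nonzero polynomial of minimal degree killing `α`
  have hex : ∃ n, ∃ p : R[X], p ≠ 0 ∧ aeval α p = 0 ∧ p.natDegree = n := by
    obtain ⟨p, hp0, hp⟩ := hα
    exact ⟨_, p, hp0, hp, rfl⟩
  obtain ⟨p, hp0, hp, hpn⟩ := Nat.find_spec hex
  have hmin : ∀ q : R[X], q ≠ 0 → aeval α q = 0 → p.natDegree ≤ q.natDegree := by
    intro q hq0 hq
    rw [hpn]
    exact Nat.find_min' hex ⟨q, hq0, hq, rfl⟩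
  have hdeg : p.natDegree ≠ 0 := by
    intro h
    have hpC := eq_C_of_natDegree_eq_zero h
    rw [hpC, aeval_C] at hp
    have h0 : p.coeff 0 = 0 := hinj (hp.trans (_root_.map_zero _).symm)
    rw [h0, C_0] at hpC
    exact hp0 hpC
  have hder0 : derivative p ≠ 0 := fun h => hdeg (derivative_eq_zero.mp h)
  have hderα : aeval α (derivative p) ≠ 0 := fun h =>
    absurd (hmin _ hder0 h) (not_le.mpr (natDegree_derivative_lt hdeg))
  have hγalg : IsAlgebraic R (aeval α (derivative p)) :=
    Algebra.isAlgebraic_adjoin_singleton_iff.mpr hα _ (aeval_mem_adjoin_singleton R α)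
  obtain ⟨c, η, hη, hγ⟩ :=
    exists_eq_pow_mul_unit_of_isAlgebraic hw hnu hwO hinj _ hderα hγalg
  obtain ⟨s, δ, hδ⟩ := exists_pow_dvd_sub_of_isAlgebraic hw hnu hwO hinj α hα (2 * c + 1)
  have hsα : algebraMap R O s - α = -(algebraMap R O w ^ (2 * c + 1) * δ) := by
    rw [← hδ]; ring
  have hdvd : ∀ q : R[X], algebraMap R O s - α ∣ algebraMap R O (q.eval s) - aeval α q := by
    intro q
    have := sub_dvd_eval_sub (algebraMap R O s) α (q.map (algebraMap R O))
    rwa [eval_map, eval_map, eval₂_at_apply, ← aeval_def] at this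
  -- `p(s)` is divisible by `w^(2c+1)`
  have e2 : algebraMap R O w ^ (2 * c + 1) ∣ algebraMap R O (p.eval s) := by
    have e1 := hdvd p
    rw [hp, sub_zero] at e1
    refine Dvd.dvd.trans ?_ e1
    exact ⟨-δ, by rw [hsα]; ring⟩
  obtain ⟨u, hu⟩ := pow_dvd_of_map_pow_dvd hw hwO hinj _ _ e2
  -- `p'(s) = w^c * unit`
  obtain ⟨κ, hκ⟩ := hdvd (derivative p)
  set η' := η - algebraMap R O w ^ (c + 1) * δ * κ with hη'
  have hη'eq : algebraMap R O ((derivative p).eval s) = algebraMap R O w ^ c * η' := by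
    have h5 : algebraMap R O ((derivative p).eval s) =
        aeval α (derivative p) + (algebraMap R O s - α) * κ := by
      rw [← hκ]; ring
    rw [h5, hγ, hsα, hη']
    ring
  have hη'u : IsUnit η' := by
    by_contra h
    obtain ⟨t, ht⟩ := hnu _ h
    have hdvdη : algebraMap R O w ∣ η :=
      ⟨t + algebraMap R O w ^ c * δ * κ, by
        have : η = η' + algebraMap R O w ^ (c + 1) * δ * κ := by rw [hη']; ring
        rw [this, ht]; ring⟩
    exact hwO (isUnit_of_dvd_unit hdvdη hη)
  obtain ⟨ε, hε⟩ := pow_dvd_of_map_pow_dvd hw hwO hinj c _ (Dvd.intro _ hη'eq.symm)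
  have hεu : IsUnit ε := by
    have hφε : algebraMap R O ε = η' := by
      have h6 : algebraMap R O w ^ c * algebraMap R O ε = algebraMap R O w ^ c * η' := by
        rw [← hη'eq, hε, _root_.map_mul, _root_.map_pow]
      exact mul_left_cancel₀ (pow_ne_zero c hw0) h6
    by_contra h
    have hmem : ε ∈ maximalIdeal R := by rwa [mem_maximalIdeal, mem_nonunits_iff]
    rw [hw.maximalIdeal_eq, Ideal.mem_span_singleton] at hmem
    obtain ⟨t, rfl⟩ := hmem
    apply hwO
    refine isUnit_of_dvd_unit ?_ hη'u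
    rw [← hφε, _root_.map_mul]
    exact Dvd.intro _ rfl
  have hwm : w ∈ maximalIdeal R := by
    rw [hw.maximalIdeal_eq]
    exact Ideal.mem_span_singleton_self w
  obtain ⟨a, ha, -⟩ := exists_root_of_approx p s w u ε c hwm hεu hu hε
  -- split off the root
  have hfac : (X - C a) * (p /ₘ (X - C a)) = p := mul_divByMonic_eq_iff_isRoot.mpr ha
  set p₁ := p /ₘ (X - C a) with hp₁
  have hp₁0 : p₁ ≠ 0 := by
    intro h
    rw [h, mul_zero] at hfac
    exact hp0 hfac.symm
  have hdeg1 : p.natDegree = 1 + p₁.natDegree := by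
    conv_lhs => rw [← hfac]
    rw [natDegree_mul (X_sub_C_ne_zero a) hp₁0, natDegree_X_sub_C]
  have hp₁α : aeval α p₁ ≠ 0 := fun h => by
    have := hmin p₁ hp₁0 h
    omega
  refine ⟨a, ?_⟩
  have h7 := congrArg (aeval α) hfac
  rw [_root_.map_mul, hp, _root_.map_sub, aeval_X, aeval_C] at h7
  have h8 := (mul_eq_zero.mp h7).resolve_right hp₁α
  exact (sub_eq_zero.mp h8).symm

end RingForm

section FieldForm

variable {R E L : Type*} [CommRing R] [IsDomain R] [IsDiscreteValuationRing R]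
  [HenselianLocalRing R] [IsAlgClosed (ResidueField R)]
  [Field E] [CharZero E] [Algebra R E] [IsFractionRing R E]
  [Field L] [Algebra E L] [Algebra R L] [IsScalarTower R E L]

/-- **No new constants (field form).**  `R` a Henselian discrete valuation ring with
algebraically closed residue field, uniformiser `w`, fraction field `E` of characteristic zero;
`L / E` an arbitrary field extension and `V` a valuation subring of `L` containing `R`, in which
`w` is a non-unit and generates the non-units (i.e. `V` is unramified over `R`).  Then `E` is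
algebraically closed in `L`. -/
theorem mem_range_of_isAlgebraic_of_valuationSubring (w : R) (hw : Irreducible w)
    (V : ValuationSubring L) (hRV : ∀ r : R, algebraMap R L r ∈ V)
    (hwV : (algebraMap R L w)⁻¹ ∉ V)
    (hgen : ∀ b ∈ V, b⁻¹ ∉ V → b * (algebraMap R L w)⁻¹ ∈ V)
    (a : L) (ha : IsAlgebraic E a) : a ∈ (algebraMap E L).range := by
  have hinjRE : Function.Injective (algebraMap R E) := IsFractionRing.injective R E
  have hinjRL : Function.Injective (algebraMap R L) := by
    rw [IsScalarTower.algebraMap_eq R E L]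
    exact (algebraMap E L).injective.comp hinjRE
  have : CharZero R := ⟨fun m n h => Nat.cast_injective (R := E) (by
    have := congrArg (algebraMap R E) h
    simpa using this)⟩
  have hwL : algebraMap R L w ≠ 0 := by
    intro h0
    exact hw.ne_zero (hinjRL (by rw [h0, _root_.map_zero]))
  let algV : Algebra R V := ((algebraMap R L).codRestrict V.toSubring hRV).toAlgebra
  have hcoe : ∀ r : R, ((algebraMap R V r : V) : L) = algebraMap R L r := fun _ => rfl
  have hinjV : Function.Injective (algebraMap R V) := by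
    intro r r' h
    apply hinjRL
    rw [← hcoe, ← hcoe, h]
  have hnu : ∀ b : V, ¬ IsUnit b → algebraMap R V w ∣ b := by
    intro b hb
    rcases eq_or_ne (b : L) 0 with h0 | h0
    · have : b = 0 := Subtype.ext h0
      rw [this]
      exact dvd_zero _
    have hbinv : (b : L)⁻¹ ∉ V := by
      intro hmem
      apply hb
      refine IsUnit.of_mul_eq_one (⟨(b : L)⁻¹, hmem⟩ : V) (Subtype.ext ?_)
      change (b : L) * (b : L)⁻¹ = 1
      exact mul_inv_cancel₀ h0
    refine ⟨⟨(b : L) * (algebraMap R L w)⁻¹, hgen _ b.2 hbinv⟩, Subtype.ext ?_⟩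
    change (b : L) = algebraMap R L w * ((b : L) * (algebraMap R L w)⁻¹)
    field_simp
  have hwO : ¬ IsUnit (algebraMap R V w) := by
    intro hu
    obtain ⟨c, hc⟩ := hu.exists_right_inv
    have hcL : algebraMap R L w * (c : L) = 1 := by
      have := congrArg (fun x : V => (x : L)) hc
      rw [← hcoe]
      simpa using this
    have : (algebraMap R L w)⁻¹ = (c : L) := by
      rw [inv_eq_iff_eq_inv]
      exact eq_inv_of_mul_eq_one_left hcL
    exact hwV (this ▸ c.2)
  have core : ∀ x ∈ V, IsAlgebraic E x → x ∈ (algebraMap E L).range := by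
    intro x hx hxalg
    have hxR : IsAlgebraic R x := (IsFractionRing.isAlgebraic_iff R E L).mpr hxalg
    obtain ⟨p, hp0, hp⟩ := hxR
    have hx' : IsAlgebraic R (⟨x, hx⟩ : V) := by
      refine ⟨p, hp0, Subtype.ext ?_⟩
      have h1 : V.subtype (aeval (⟨x, hx⟩ : V) p) =
          eval₂ (V.subtype.comp (algebraMap R V)) (V.subtype ⟨x, hx⟩) p := by
        rw [aeval_def, hom_eval₂]
      have h2 : V.subtype.comp (algebraMap R V) = algebraMap R L := RingHom.ext fun _ => rfl
      rw [h2] at h1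
      change V.subtype (aeval (⟨x, hx⟩ : V) p) = 0
      rw [h1]
      change eval₂ (algebraMap R L) x p = 0
      rw [← aeval_def]
      exact hp
    obtain ⟨r, hr⟩ := exists_algebraMap_eq_of_isAlgebraic hw hnu hwO hinjV _ hx'
    refine ⟨algebraMap R E r, ?_⟩
    rw [← IsScalarTower.algebraMap_apply R E L, ← hcoe, hr]
  rcases V.mem_or_inv_mem a with h | h
  · exact core a h ha
  · obtain ⟨e, he⟩ := core a⁻¹ h (IsAlgebraic.inv_iff.mpr ha)
    refine ⟨e⁻¹, ?_⟩
    rw [map_inv₀, he, inv_inv]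

end FieldForm

end Fermat.Agent.A2.H552

end
-- ===== PACK-END A2/H552/Const.lean

-- ===== PACK-BEGIN A2/H552/KummerConst.lean
section





/-!
# A2 / ALG, COVER-CONST (helper552): a Kummer cover `K(u^{1/m})`, `u ≡ 1 mod w`, has no new
constants over a Henselian base

`R` a Henselian discrete valuation ring with algebraically closed residue field, uniformiser `w`,
`E = Frac R` of characteristic zero, `m` invertible in the residue field.

* `exists_isPrimitiveRoot_of_henselian` : `R` contains a primitive `m`-th root of unity.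
* `kummer_no_new_constants` : `K ⊇ R` a field with a valuation subring `V ⊇ R` with uniformiser
  `w` (in the application: the Gauss valuation ring `V∞` of the function field), `Ω = K[z]`,
  `z ^ m = 1 + w t`, `t ∈ V`.  Then `E` is algebraically closed in `Ω`.
* `kummer_isIntegral_mem_range` : hence `R` is integrally closed in `Ω`
  (= hypothesis `hRF` of `A2.H193.kummer_root_mem` / `S18.H138.connected_special_fibre`
  for the cover `Ω`).
-/

set_option autoImplicit false

namespace Fermat.Agent.A2.H552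

open Polynomial IsLocalRing

section Roots

variable {R : Type*} [CommRing R] [HenselianLocalRing R] [IsAlgClosed (ResidueField R)]

/-- A Henselian local ring with algebraically closed residue field contains a primitive `m`-th
root of unity, for `m` invertible in the residue field. -/
theorem exists_isPrimitiveRoot_of_henselian (m : ℕ) (hm : (m : ResidueField R) ≠ 0) :
    ∃ ζ : R, IsPrimitiveRoot ζ m := by
  have hm0 : m ≠ 0 := by
    rintro rfl
    exact hm (by simp)
  have : NeZero (m : ResidueField R) := ⟨hm⟩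
  obtain ⟨ζb, hζb⟩ := HasEnoughRootsOfUnity.prim (M := ResidueField R) (n := m)
  have hζb0 : ζb ≠ 0 := hζb.ne_zero hm0
  obtain ⟨ζ, hζ, hres⟩ := exists_root_of_residue_simple_root (X ^ m - C (1 : R))
    (monic_X_pow_sub_C 1 hm0) ζb
    (by simp [hζb.pow_eq_one])
    (by
      simp only [Polynomial.map_sub, Polynomial.map_pow, map_X, map_C, derivative_sub,
        derivative_X_pow, derivative_C, sub_zero, eval_mul, eval_C, eval_pow, eval_X]
      exact mul_ne_zero hm (pow_ne_zero _ hζb0))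
  have hζm : ζ ^ m = 1 := by
    have : (X ^ m - C (1 : R)).eval ζ = 0 := hζ
    simpa [sub_eq_zero] using this
  refine ⟨ζ, hζm, fun l hl => ?_⟩
  apply hζb.dvd_of_pow_eq_one
  rw [← hres, ← _root_.map_pow, hl, _root_.map_one]

end Roots

section Cover

variable {R E K Ω : Type*} [CommRing R] [IsDomain R] [IsDiscreteValuationRing R]
  [HenselianLocalRing R] [IsAlgClosed (ResidueField R)]
  [Field E] [CharZero E] [Algebra R E] [IsFractionRing R E]
  [Field K] [Algebra R K] [Field Ω] [Algebra K Ω] [Algebra E Ω] [Algebra R Ω]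
  [IsScalarTower R E Ω] [IsScalarTower R K Ω]

/-- **COVER-CONST.**  A Kummer cover `Ω = K[z]`, `z ^ m = 1 + w t`, of a field `K` carrying an
unramified discrete valuation ring `V ⊇ R` has no new constants: `E = Frac R` is algebraically
closed in `Ω`. -/
theorem kummer_no_new_constants (w : R) (hw : Irreducible w) (V : ValuationSubring K)
    (hRV : ∀ r : R, algebraMap R K r ∈ V)
    (hwV : (algebraMap R K w)⁻¹ ∉ V)
    (hVgen : ∀ a ∈ V, a⁻¹ ∉ V → a * (algebraMap R K w)⁻¹ ∈ V)
    (hdisc : ∀ c : K, ∃ k : ℕ, algebraMap R K w ^ k * c ∈ V)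
    (m : ℕ) (hm : (m : ResidueField R) ≠ 0)
    (t : K) (ht : t ∈ V) (z : Ω)
    (hz : z ^ m = algebraMap K Ω (1 + algebraMap R K w * t))
    (hgen : ∀ b : Ω, b ∈ Algebra.adjoin K ({z} : Set Ω))
    (y : Ω) (hy : IsAlgebraic E y) : y ∈ (algebraMap E Ω).range := by
  have hm0 : m ≠ 0 := by
    rintro rfl
    exact hm (by simp)
  have hinjRE : Function.Injective (algebraMap R E) := IsFractionRing.injective R E
  have hinjRΩ : Function.Injective (algebraMap R Ω) := by
    rw [IsScalarTower.algebraMap_eq R E Ω]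
    exact (algebraMap E Ω).injective.comp hinjRE
  have hinjRK : Function.Injective (algebraMap R K) := by
    intro a b h
    apply hinjRΩ
    rw [IsScalarTower.algebraMap_apply R K Ω, IsScalarTower.algebraMap_apply R K Ω, h]
  have hwK0 : algebraMap R K w ≠ 0 := fun h => hw.ne_zero (hinjRK (by rw [h, _root_.map_zero]))
  -- roots of unity and `1/m`
  obtain ⟨ζ, hζ⟩ := exists_isPrimitiveRoot_of_henselian (R := R) m hm
  have hζK : IsPrimitiveRoot (algebraMap R K ζ) m := hζ.map_of_injective hinjRK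
  have hmu : IsUnit ((m : ℕ) : R) := by
    rw [← IsLocalRing.notMem_maximalIdeal, ← residue_eq_zero_iff, _root_.map_natCast]
    exact hm
  obtain ⟨mi, hmi⟩ := hmu.exists_right_inv
  have hmK : (m : K) * algebraMap R K mi = 1 := by
    have := congrArg (algebraMap R K) hmi
    simpa using this
  have hmK0 : (m : K) ≠ 0 := left_ne_zero_of_mul_eq_one hmK
  have hmKinv : ((m : K))⁻¹ ∈ V := by
    rw [inv_eq_of_mul_eq_one_right hmK]
    exact hRV mi
  -- a valuation subring of `Ω` dominating `V`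
  obtain ⟨W, hle, hloc⟩ := (LocalSubring.range
    ((algebraMap K Ω).comp V.subtype)).exists_le_valuationSubring
  have hVW : ∀ a ∈ V, algebraMap K Ω a ∈ W := fun a ha =>
    hle ⟨⟨a, ha⟩, rfl⟩
  have hwW : (algebraMap K Ω (algebraMap R K w))⁻¹ ∉ W := by
    intro hmem
    set f := (algebraMap K Ω).comp V.subtype with hf
    have hwr : algebraMap K Ω (algebraMap R K w) ∈ (LocalSubring.range f).toSubring :=
      ⟨⟨algebraMap R K w, hRV w⟩, rfl⟩
    have hu : IsUnit (Subring.inclusion hle ⟨_, hwr⟩) := by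
      refine IsUnit.of_mul_eq_one ⟨(algebraMap K Ω (algebraMap R K w))⁻¹, hmem⟩
        (Subtype.ext ?_)
      change algebraMap K Ω (algebraMap R K w) * (algebraMap K Ω (algebraMap R K w))⁻¹ = 1
      exact mul_inv_cancel₀ (fun h => hwK0 ((algebraMap K Ω).injective (by rw [h, _root_.map_zero])))
    have hu' := hloc.map_nonunit _ hu
    obtain ⟨c, hc⟩ := hu'.exists_right_inv
    obtain ⟨⟨b, hb⟩, hbc⟩ := c.2
    have h1 : algebraMap K Ω (algebraMap R K w) * algebraMap K Ω b = 1 := by
      have := congrArg Subtype.val hc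
      simp only [Subring.coe_mul, Subring.coe_one] at this
      rw [← this, ← hbc]
      rfl
    have h2 : algebraMap R K w * b = 1 := by
      apply (algebraMap K Ω).injective
      rw [_root_.map_mul, h1, _root_.map_one]
    apply hwV
    rw [inv_eq_of_mul_eq_one_right h2]
    exact hb
  have hunr := (kummer_unramified V W hVW (algebraMap R K w) (hRV w) hwK0 hwW hVgen hdisc m
    (Nat.pos_of_ne_zero hm0) hmK0 hmKinv (algebraMap R K ζ) hζK t ht z hz hgen).1
  have hRW : ∀ r : R, algebraMap R Ω r ∈ W := fun r => by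
    rw [IsScalarTower.algebraMap_apply R K Ω]
    exact hVW _ (hRV r)
  rw [← IsScalarTower.algebraMap_apply R K Ω] at hwW hunr
  exact mem_range_of_isAlgebraic_of_valuationSubring w hw W hRW hwW hunr y hy

variable (E) in
include E in
/-- **COVER-CONST, integral form**: `R` is integrally closed in the Kummer cover `Ω`. -/
theorem kummer_isIntegral_mem_range (w : R) (hw : Irreducible w) (V : ValuationSubring K)
    (hRV : ∀ r : R, algebraMap R K r ∈ V)
    (hwV : (algebraMap R K w)⁻¹ ∉ V)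
    (hVgen : ∀ a ∈ V, a⁻¹ ∉ V → a * (algebraMap R K w)⁻¹ ∈ V)
    (hdisc : ∀ c : K, ∃ k : ℕ, algebraMap R K w ^ k * c ∈ V)
    (m : ℕ) (hm : (m : ResidueField R) ≠ 0)
    (t : K) (ht : t ∈ V) (z : Ω)
    (hz : z ^ m = algebraMap K Ω (1 + algebraMap R K w * t))
    (hgen : ∀ b : Ω, b ∈ Algebra.adjoin K ({z} : Set Ω))
    (y : Ω) (hy : IsIntegral R y) : y ∈ Set.range (algebraMap R Ω) := by
  have hyalg : IsAlgebraic E y :=
    (IsFractionRing.isAlgebraic_iff R E Ω).mp hy.isAlgebraic
  obtain ⟨e, rfl⟩ := kummer_no_new_constants (E := E) w hw V hRV hwV hVgen hdisc m hm t ht z hz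
    hgen y hyalg
  have he : IsIntegral R e :=
    (isIntegral_algebraMap_iff (algebraMap E Ω).injective).mp hy
  obtain ⟨r, rfl⟩ := (IsIntegrallyClosed.isIntegral_iff (R := R) (K := E)).mp he
  exact ⟨r, IsScalarTower.algebraMap_apply R E Ω r⟩

end Cover

end Fermat.Agent.A2.H552

end
-- ===== PACK-END A2/H552/KummerConst.lean

-- ===== PACK-BEGIN S28/H326/Integral.lean
section
/-
S28 / helper326: integrality bookkeeping for Laurent series over `ℂ`:
* `IntCoeff` : the subring of series all of whose coefficients are algebraic integers;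
* `jP p = j(t^p)` and the leading-coefficient lemma for `Q(j(t^p))`;
* `exists_int_poly_of_integral` : `Q ∈ ℚ[X]` with `Q(j(t^p))` having algebraic-integer
  coefficients has integer coefficients.
-/




set_option autoImplicit false
set_option linter.unusedSectionVars false

noncomputable section

namespace Fermat.Agent.S28.H326

open ModularCurve HahnSeries

/-- Laurent series over `ℂ` whose coefficients are all algebraic integers. -/
def IntCoeff : Subring (LaurentSeries ℂ) where
  carrier := {x | ∀ n, IsIntegral ℤ (x.coeff n)}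
  mul_mem' {x y} hx hy n := by
    rw [HahnSeries.coeff_mul]
    exact IsIntegral.sum _ fun ij _ => (hx _).mul (hy _)
  one_mem' n := by
    rw [HahnSeries.coeff_one]
    split_ifs
    · exact isIntegral_one
    · exact isIntegral_zero
  add_mem' {x y} hx hy n := by
    rw [HahnSeries.coeff_add]
    exact (hx n).add (hy n)
  zero_mem' n := by
    rw [HahnSeries.coeff_zero]
    exact isIntegral_zero
  neg_mem' {x} hx n := by
    rw [HahnSeries.coeff_neg]
    exact (hx n).neg

theorem mem_IntCoeff {x : LaurentSeries ℂ} : x ∈ IntCoeff ↔ ∀ n, IsIntegral ℤ (x.coeff n) :=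
  Iff.rfl

/-- coefficient cast `ℤ((q)) → ℂ((q))` -/
abbrev kap : LaurentSeries ℤ →+* LaurentSeries ℂ := coeffMap (Int.castRingHom ℂ)

theorem kap_injective : Function.Injective kap := by
  intro x y h
  ext n
  have := congrArg (fun z => z.coeff n) h
  simpa using this

theorem kap_mem_IntCoeff (x : LaurentSeries ℤ) : kap x ∈ IntCoeff := fun n => by
  rw [coeffMap_coeff]
  exact isIntegral_algebraMap (R := ℤ) (A := ℂ) (x := x.coeff n)

variable (p : ℕ) [NeZero p]

theorem qExpand_mem_IntCoeff {x : LaurentSeries ℂ} (hx : x ∈ IntCoeff) :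
    qExpand ℂ p x ∈ IntCoeff := fun n => by
  by_cases h : (p : ℤ) ∣ n
  · obtain ⟨m, rfl⟩ := h
    rw [qExpand_coeff_mul]
    exact hx m
  · rw [qExpand_coeff_of_not_dvd p _ h]
    exact isIntegral_zero

theorem zeta_isIntegral : IsIntegral ℤ (zeta p) :=
  (zeta_isPrimitiveRoot p).isIntegral (Nat.pos_of_ne_zero (NeZero.ne p))

theorem cB_mem_IntCoeff (b : ℕ) (g : PowerSeries ℤ) :
    cB p b (g.map (Int.castRingHom ℂ)) ∈ IntCoeff := fun n => by
  rcases lt_or_ge n 0 with hn | hn
  · rw [cB_coeff_neg p b _ hn]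
    exact isIntegral_zero
  · lift n to ℕ using hn
    rw [cB_coeff_nat, PowerSeries.coeff_map]
    exact (((zeta_isIntegral p).pow b).pow n).mul
      (isIntegral_algebraMap (R := ℤ) (A := ℂ) (x := g.coeff n))

/-- `j(t^p)` over `ℂ`. -/
def jP : LaurentSeries ℂ := qExpand ℂ p (jqModC ℂ)

theorem jP_pow_coeff_self (n : ℕ) : (jP p ^ n).coeff (-((p : ℤ) * n)) = 1 := by
  rw [jP, ← map_pow, show -((p : ℤ) * n) = (p : ℤ) * (-(n : ℤ)) by ring, qExpand_coeff_mul,
    coeff_jqModC_pow_self]

theorem jP_pow_coeff_of_lt {i n : ℕ} (h : i < n) : (jP p ^ i).coeff (-((p : ℤ) * n)) = 0 := by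
  rw [jP, ← map_pow, show -((p : ℤ) * n) = (p : ℤ) * (-(n : ℤ)) by ring, qExpand_coeff_mul]
  exact coeff_jqModC_pow_of_lt ℂ (by omega)

theorem jP_pow_mem_IntCoeff (n : ℕ) : jP p ^ n ∈ IntCoeff := by
  refine Subring.pow_mem _ ?_ n
  rw [jP, ← coeffMap_jqModC (Int.castRingHom ℂ)]
  exact qExpand_mem_IntCoeff p (kap_mem_IntCoeff _)

theorem ratCast_mul_coeff (c : ℚ) (x : LaurentSeries ℂ) (n : ℤ) :
    ((c : LaurentSeries ℂ) * x).coeff n = (c : ℂ) * x.coeff n := by
  have : (c : LaurentSeries ℂ) = HahnSeries.C (c : ℂ) := (map_ratCast HahnSeries.C c).symm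
  rw [this, HahnSeries.C_mul_eq_smul, HahnSeries.coeff_smul, smul_eq_mul]

theorem rat_algebraMap_mul_coeff (c : ℚ) (x : LaurentSeries ℂ) (n : ℤ) :
    (algebraMap ℚ (LaurentSeries ℂ) c * x).coeff n = (c : ℂ) * x.coeff n := by
  rw [eq_ratCast, ratCast_mul_coeff]

/-- leading coefficient of `Q(j(t^p))` -/
theorem aeval_jP_coeff (Q : Polynomial ℚ) {n : ℕ} (hn : Q.natDegree ≤ n) :
    (Polynomial.aeval (jP p) Q).coeff (-((p : ℤ) * n)) = (Q.coeff n : ℂ) := by
  rw [Polynomial.aeval_eq_sum_range' (Nat.lt_succ_of_le hn), HahnSeries.coeff_sum,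
    Finset.sum_range_succ]
  rw [Finset.sum_eq_zero, zero_add, Algebra.smul_def, rat_algebraMap_mul_coeff,
    jP_pow_coeff_self, mul_one]
  · intro i hi
    rw [Algebra.smul_def, rat_algebraMap_mul_coeff, jP_pow_coeff_of_lt p (Finset.mem_range.mp hi),
      mul_zero]

theorem rat_of_isIntegral {a : ℚ} (h : IsIntegral ℤ (a : ℂ)) : ∃ m : ℤ, (m : ℚ) = a := by
  have h1 : IsIntegral ℤ a := by
    have := (isIntegral_algebraMap_iff (R := ℤ) (A := ℚ) (B := ℂ)
      (algebraMap ℚ ℂ).injective (x := a)).mp (by simpa using h)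
    exact this
  obtain ⟨m, hm⟩ := IsIntegrallyClosed.isIntegral_iff.mp h1
  exact ⟨m, by simpa using hm⟩

/-- **Integrality by leading terms**: if `Q(j(t^p))` has algebraic-integer coefficients,
then `Q` has integer coefficients. -/
theorem exists_int_poly_of_integral (Q : Polynomial ℚ)
    (h : Polynomial.aeval (jP p) Q ∈ IntCoeff) :
    ∃ Q' : Polynomial ℤ, Q'.map (Int.castRingHom ℚ) = Q := by
  suffices H : ∀ d : ℕ, ∀ Q : Polynomial ℚ, Q.natDegree < d →
      Polynomial.aeval (jP p) Q ∈ IntCoeff → ∃ Q' : Polynomial ℤ,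
        Q'.map (Int.castRingHom ℚ) = Q from H (Q.natDegree + 1) Q (Nat.lt_succ_self _) h
  intro d
  induction d with
  | zero => intro Q hQ; omega
  | succ d ih =>
    intro Q hQ hint
    have hle : Q.natDegree ≤ d := Nat.lt_succ_iff.mp hQ
    have hlead := aeval_jP_coeff p Q hle
    obtain ⟨m, hm⟩ := rat_of_isIntegral (hlead ▸ hint _)
    set Q1 : Polynomial ℚ := Q - Polynomial.C (Q.coeff d) * Polynomial.X ^ d with hQ1
    have hdeg : Q1.natDegree < d ∨ Q1 = 0 := by
      by_cases h0 : Q1 = 0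
      · exact Or.inr h0
      left
      have h1 : Q1.natDegree ≤ d := by
        refine (Polynomial.natDegree_sub_le _ _).trans (max_le hle ?_)
        exact Polynomial.natDegree_C_mul_X_pow_le _ _
      rcases Nat.lt_or_ge Q1.natDegree d with h2 | h2
      · exact h2
      · have h3 : Q1.natDegree = d := le_antisymm h1 h2
        have h4 : Q1.coeff d = 0 := by
          simp [hQ1]
        have h5 : Q1.leadingCoeff = 0 := by
          rw [Polynomial.leadingCoeff, h3, h4]
        exact absurd (Polynomial.leadingCoeff_eq_zero.mp h5) h0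
    have hint1 : Polynomial.aeval (jP p) Q1 ∈ IntCoeff := by
      rw [hQ1, map_sub, map_mul, Polynomial.aeval_C, map_pow, Polynomial.aeval_X]
      refine Subring.sub_mem _ hint ?_
      rw [← hm]
      have : algebraMap ℚ (LaurentSeries ℂ) (m : ℚ) = ((m : ℤ) : LaurentSeries ℂ) := by
        simp
      rw [this]
      exact Subring.mul_mem _ (intCast_mem _ m) (jP_pow_mem_IntCoeff p d)
    have hQ1' : ∃ Q' : Polynomial ℤ, Q'.map (Int.castRingHom ℚ) = Q1 := by
      rcases hdeg with h1 | h1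
      · rcases Nat.eq_zero_or_pos d with hd | hd
        · omega
        · exact ih Q1 (by omega) hint1 |>.elim (fun Q' h' => ⟨Q', h'⟩) |> fun x => x
      · exact ⟨0, by simp [h1]⟩
    obtain ⟨Q', hQ'⟩ := hQ1'
    refine ⟨Q' + Polynomial.C m * Polynomial.X ^ d, ?_⟩
    rw [Polynomial.map_add, hQ', Polynomial.map_mul, Polynomial.map_pow, Polynomial.map_X,
      Polynomial.map_C, hQ1]
    simp [hm]

end Fermat.Agent.S28.H326

end
end
-- ===== PACK-END S28/H326/Integral.lean

-- ===== PACK-BEGIN S28/H326/Pairs.lean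
section
/-
S28 / helper326: the conjugate families `w i` (of the modular unit `p¹² Δ(q^p)/Δ(q)`),
`Y i`, and `y i` (of `j(q^p)`), `i ∈ P¹(𝔽_p) = Option (Fin p)`, as Laurent series over `ℂ`
in `t = q^(1/p)`; their mixed power sums in terms of the integer Hecke series.
-/





set_option autoImplicit false
set_option linter.unusedSectionVars false

noncomputable section

namespace Fermat.Agent.S28.H326

open ModularCurve HahnSeries

/-! ### Integer data -/

/-- formal `Δ = q ∏ (1 - qⁿ)²⁴` as a power series over `ℤ` -/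
def DZ : PowerSeries ℤ := PowerSeries.X * dedekindEtaUnit

/-- formal `E₄³` -/
def EZ : PowerSeries ℤ := eisenstein4 ^ 3

theorem jNum_mul_unit : jNum * dedekindEtaUnit = EZ := by
  rw [jNum, EZ, mul_assoc, mul_comm dedekindEtaUnitInv, dedekindEtaUnit_mul_inv, mul_one]

/-- formal `Δ` as a Laurent series over `ℤ` -/
def deltaZ : LaurentSeries ℤ := HahnSeries.ofPowerSeries ℤ ℤ DZ

/-- formal `Δ⁻¹` as a Laurent series over `ℤ` -/
def deltaInvZ : LaurentSeries ℤ :=
  HahnSeries.single (-1 : ℤ) 1 * HahnSeries.ofPowerSeries ℤ ℤ dedekindEtaUnitInv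

theorem deltaZ_mul_deltaInvZ : deltaZ * deltaInvZ = 1 := by
  rw [deltaZ, deltaInvZ, DZ, map_mul, HahnSeries.ofPowerSeries_X]
  calc single (1 : ℤ) (1 : ℤ) * (HahnSeries.ofPowerSeries ℤ ℤ) dedekindEtaUnit *
        (single (-1 : ℤ) (1 : ℤ) * (HahnSeries.ofPowerSeries ℤ ℤ) dedekindEtaUnitInv)
      = (single (1 : ℤ) (1 : ℤ) * single (-1 : ℤ) (1 : ℤ)) *
          ((HahnSeries.ofPowerSeries ℤ ℤ) dedekindEtaUnit *
            (HahnSeries.ofPowerSeries ℤ ℤ) dedekindEtaUnitInv) := by ring
    _ = 1 := by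
      rw [← map_mul, dedekindEtaUnit_mul_inv, HahnSeries.single_mul_single]
      simp

/-- `jq · Δ = E₄³` in `ℤ((q))`. -/
theorem jq_mul_deltaZ : jqModC ℤ * deltaZ = HahnSeries.ofPowerSeries ℤ ℤ EZ := by
  rw [jqModC, deltaZ, DZ, map_mul, HahnSeries.ofPowerSeries_X, ← jNum_mul_unit, map_mul]
  have h : (jNum.map (Int.castRingHom ℤ)) = jNum := by
    ext n; simp
  rw [h]
  calc single (-1 : ℤ) (1 : ℤ) * (HahnSeries.ofPowerSeries ℤ ℤ) jNum *
        (single (1 : ℤ) (1 : ℤ) * (HahnSeries.ofPowerSeries ℤ ℤ) dedekindEtaUnit)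
      = (single (-1 : ℤ) (1 : ℤ) * single (1 : ℤ) (1 : ℤ)) *
          ((HahnSeries.ofPowerSeries ℤ ℤ) jNum *
            (HahnSeries.ofPowerSeries ℤ ℤ) dedekindEtaUnit) := by ring
    _ = _ := by
      rw [HahnSeries.single_mul_single]
      simp

/-! ### Complex versions -/

/-- cast of power series `ℤ⟦X⟧ → ℂ⟦X⟧` -/
abbrev toC : PowerSeries ℤ →+* PowerSeries ℂ := PowerSeries.map (Int.castRingHom ℂ)

theorem kap_ofPS (g : PowerSeries ℤ) : kap (HahnSeries.ofPowerSeries ℤ ℤ g) = ofPS (toC g) :=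
  coeffMap_ofPowerSeries _ g

variable (p : ℕ) [NeZero p]

/-- `U_p` on integer power series -/
def UpZ (g : PowerSeries ℤ) : PowerSeries ℤ := PowerSeries.mk fun n => g.coeff (n * p)

theorem toC_UpZ (g : PowerSeries ℤ) : toC (UpZ p g) = Up p (toC g) := by
  ext n
  simp [UpZ, Up]

/-- the integer Hecke series `p · T_p^{(k)} φ = p^k φ(q^p) + p (U_p φ)(q)` -/
def heckeL (k : ℕ) (φ : PowerSeries ℤ) : LaurentSeries ℤ :=
  (p : LaurentSeries ℤ) ^ k * qExpand ℤ p (HahnSeries.ofPowerSeries ℤ ℤ φ) +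
    (p : LaurentSeries ℤ) * HahnSeries.ofPowerSeries ℤ ℤ (UpZ p φ)

/-- **The analytic input** (to be supplied from the Hecke operator `T_p` on level one forms):
`p · T_p(E₄^{3a} Δ^r) = P(j) · Δ^{a+r}` with `P ∈ ℤ[X]`. -/
def HeckeInput : Prop :=
  ∀ a r : ℕ, ∃ P : Polynomial ℤ,
    heckeL p (12 * (a + r)) (EZ ^ a * DZ ^ r) =
      Polynomial.aeval (jqModC ℤ) P * deltaZ ^ (a + r)

/-- `θ : ℤ[Y] → ℂ((t))`, `Y ↦ j(t^p)` -/
def theta : Polynomial ℤ →+* LaurentSeries ℂ :=
  (qExpand ℂ p).comp (kap.comp (Polynomial.aeval (jqModC ℤ)).toRingHom)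

theorem theta_apply (P : Polynomial ℤ) :
    theta p P = qExpand ℂ p (kap (Polynomial.aeval (jqModC ℤ) P)) := rfl

theorem theta_X : theta p Polynomial.X = jP p := by
  rw [theta_apply, Polynomial.aeval_X, jP, coeffMap_jqModC]

theorem theta_eq_aeval (P : Polynomial ℤ) :
    theta p P = Polynomial.aeval (jP p) (P.map (Int.castRingHom ℚ)) := by
  induction P using Polynomial.induction_on' with
  | add a b ha hb => rw [map_add, ha, hb, Polynomial.map_add, map_add]
  | monomial n c =>
    rw [← Polynomial.C_mul_X_pow_eq_monomial, map_mul, map_pow, theta_X, Polynomial.map_mul,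
      Polynomial.map_pow, Polynomial.map_X, Polynomial.map_C, map_mul, map_pow,
      Polynomial.aeval_X, Polynomial.aeval_C]
    congr 1
    rw [theta_apply, Polynomial.aeval_C]
    simp

/-- The `ℚ`-subalgebra `ℚ[j(t^p)]` of `ℂ((t))`. -/
def Bsub : Subalgebra ℚ (LaurentSeries ℂ) := (Polynomial.aeval (jP p)).range

theorem theta_mem_Bsub (P : Polynomial ℤ) : theta p P ∈ Bsub p :=
  ⟨P.map (Int.castRingHom ℚ), (theta_eq_aeval p P).symm⟩

/-! ### The conjugates -/

/-- `E₄³` over `ℂ` -/
def EC : PowerSeries ℂ := toC EZ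
/-- `Δ` over `ℂ` -/
def DC : PowerSeries ℂ := toC DZ

/-- the `p + 1` conjugation maps, indexed by `P¹(𝔽_p)` -/
def conj : Option (Fin p) → (PowerSeries ℂ →+* LaurentSeries ℂ)
  | none => cInf p
  | some b => cB p b

/-- the weight-12 scalars -/
def scal : Option (Fin p) → LaurentSeries ℂ
  | none => (p : LaurentSeries ℂ) ^ 12
  | some _ => 1

/-- `Δ(t^p)` -/
def del : LaurentSeries ℂ := cBase p DC

/-- `Δ(t^p)⁻¹` -/
def delInv : LaurentSeries ℂ := qExpand ℂ p (kap deltaInvZ)

theorem del_eq : del p = qExpand ℂ p (kap deltaZ) := by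
  rw [del, cBase, RingHom.comp_apply, deltaZ, kap_ofPS, DC]

theorem del_mul_delInv : del p * delInv p = 1 := by
  rw [del_eq, delInv, ← map_mul, ← map_mul, deltaZ_mul_deltaInvZ, map_one, map_one]

theorem delInv_mem_IntCoeff : delInv p ∈ IntCoeff :=
  qExpand_mem_IntCoeff p (kap_mem_IntCoeff _)

/-- conjugates of the unit: `w_∞ = p¹² Δ(t^(p²))/Δ(t^p)`, `w_b = Δ(ζ^b t)/Δ(t^p)` -/
def w (i : Option (Fin p)) : LaurentSeries ℂ := scal p i * conj p i DC * delInv p

/-- `Y_∞ = p¹² E₄³(t^(p²))/Δ(t^p)`, `Y_b = E₄³(ζ^b t)/Δ(t^p)` -/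
def Y (i : Option (Fin p)) : LaurentSeries ℂ := scal p i * conj p i EC * delInv p

theorem sum_scal_pow_conj (m : ℕ) (φ : PowerSeries ℤ) :
    ∑ i, scal p i ^ m * conj p i (toC φ) = qExpand ℂ p (kap (heckeL p (12 * m) φ)) := by
  rw [Fintype.sum_option]
  simp only [scal, conj, one_pow, one_mul]
  rw [Fin.sum_univ_eq_sum_range (fun b => cB p b (toC φ)) p, sum_cB, heckeL]
  simp only [map_add, map_mul, map_pow, map_natCast, coeffMap_qExpand, kap_ofPS, toC_UpZ,
    ← pow_mul]
  rfl

/-- **Mixed power sums** are in `ℤ[j(t^p)]`. -/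
theorem sum_Y_pow_mul_w_pow (h : HeckeInput p) (a r : ℕ) :
    ∃ P : Polynomial ℤ, ∑ i, Y p i ^ a * w p i ^ r = theta p P := by
  obtain ⟨P, hP⟩ := h a r
  refine ⟨P, ?_⟩
  have h1 : ∀ i, Y p i ^ a * w p i ^ r =
      (scal p i ^ (a + r) * conj p i (toC (EZ ^ a * DZ ^ r))) * delInv p ^ (a + r) := by
    intro i
    rw [Y, w, EC, DC, map_mul, map_mul, map_pow, map_pow, map_pow, map_pow]
    ring
  simp only [h1]
  rw [← Finset.sum_mul, sum_scal_pow_conj, hP, map_mul, map_mul, map_pow, map_pow, ← del_eq,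
    ← theta_apply, mul_assoc, ← mul_pow, del_mul_delInv, one_pow, mul_one]

theorem sum_w_pow_mem (h : HeckeInput p) (r : ℕ) : ∑ i, w p i ^ r ∈ Bsub p := by
  obtain ⟨P, hP⟩ := sum_Y_pow_mul_w_pow p h 0 r
  simp only [pow_zero, one_mul] at hP
  rw [hP]
  exact theta_mem_Bsub p P

end Fermat.Agent.S28.H326

end
end
-- ===== PACK-END S28/H326/Pairs.lean

-- ===== PACK-BEGIN S18/H876/Transfer.lean
section





/-!
# S18 / d2 : transfer of CORE from level `M` to level `N ∣ M`

`core_descend_of_coprime` :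
  `N ∣ M`, `[F_M : F_N]` finite and prime to `m`  ⟹  `CoreStatement M A m → CoreStatement N A m`.

Ingredients: restriction of places along `F_N ⊆ F_M` (Prelude `Place.restrict`,
`ord_w = e · ord_v`) and Kummer descent (`H876.exists_algebraMap_eq_of_pow_eq`).
-/

set_option autoImplicit false

noncomputable section

namespace Fermat.Agent.S18.H876

open ModularCurve AlgebraicCurve HahnSeries

/-! ### Abstract part -/

/-- Divisibility of order differences passes from a field to an integral extension. -/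
theorem dvd_ord_sub_algebraMap {K E F : Type*} [Field K] [Field E] [Field F]
    [Algebra K E] [Algebra K F] [Algebra E F] [IsScalarTower K E F] [Algebra.IsIntegral E F]
    (m : ℤ) (f g : E) (h : ∀ v : Place K E, m ∣ v.ord f - v.ord g) (w : Place K F) :
    m ∣ w.ord (algebraMap E F f) - w.ord (algebraMap E F g) := by
  rw [w.ord_restrict f, w.ord_restrict g, ← mul_sub]
  exact Dvd.dvd.mul_left (h (w.restrict E)) _

/-! ### The tower `F_N ⊆ F_M` -/

section Tower

variable {N M : ℕ} [NeZero N] [NeZero M]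

theorem bar_le_bar (h : N ∣ M) : modularFunctionFieldBar N ≤ modularFunctionFieldBar M :=
  IntermediateField.adjoin.mono _ _ _ (Set.image_mono (full_degeneracy_le h))

/-- The inclusion `F_N → F_M`. -/
def barIncl (h : N ∣ M) : modularFunctionFieldBar N →ₐ[Qb] modularFunctionFieldBar M :=
  IntermediateField.inclusion (bar_le_bar h)

@[simp] theorem coe_barIncl (h : N ∣ M) (x : modularFunctionFieldBar N) :
    ((barIncl h x : modularFunctionFieldBar M) : LaurentSeries Qb) = x :=
  IntermediateField.coe_inclusion _ _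

theorem barIncl_injective (h : N ∣ M) : Function.Injective (barIncl h) :=
  (barIncl h).toRingHom.injective

/-- The algebra structure `F_N → F_M` given by the inclusion. -/
@[reducible] def barAlgebra (h : N ∣ M) :
    Algebra (modularFunctionFieldBar N) (modularFunctionFieldBar M) :=
  (barIncl h).toRingHom.toAlgebra

theorem barAlgebra_isScalarTower (h : N ∣ M) :
    @IsScalarTower Qb (modularFunctionFieldBar N) (modularFunctionFieldBar M) _
      (barAlgebra h).toSMul _ := by
  letI := barAlgebra h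
  refine IsScalarTower.of_algebraMap_eq fun c => ?_
  exact ((barIncl h).commutes c).symm

theorem isInt_of_dvd (h : N ∣ M) {A : ValuationSubring Qb} {U : LaurentSeries A}
    (hU : IsInt A N U) : IsInt A M U :=
  ⟨bar_le_bar h hU.1, full_degeneracyC_le _ h hU.2.1, hU.2.2⟩

omit [NeZero N] in
theorem coe_toF {A : ValuationSubring Qb} {U : LaurentSeries A} (hU : IsInt A N U) :
    ((toF hU : modularFunctionFieldBar N) : LaurentSeries Qb) = coeffMap A.subtype U := rfl

theorem toF_isInt_of_dvd (h : N ∣ M) {A : ValuationSubring Qb} {U : LaurentSeries A}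
    (hU : IsInt A N U) :
    toF (isInt_of_dvd h hU) = barIncl h (toF hU) := by
  apply Subtype.ext
  rw [coe_toF, coe_barIncl, coe_toF]

omit [NeZero N] in
theorem toF_ne_zero {A : ValuationSubring Qb} {U : LaurentSeries A}
    (hU : IsInt A N U) : toF hU ≠ 0 := by
  intro h0
  have h1 : coeffMap A.subtype U = 0 := by
    rw [← coe_toF hU, h0]
    rfl
  have hU0 : U = 0 := by
    ext n
    have h2 := congrArg (fun s => HahnSeries.coeff s n) h1
    simpa using h2
  exact hU.2.2 (by rw [hU0, map_zero])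

end Tower

/-! ### The transfer -/

/-- **d2 (degree as hypothesis).** -/
theorem core_descend_of_coprime {N M : ℕ} [NeZero N] [NeZero M] (h : N ∣ M)
    (A : ValuationSubring Qb) (m : ℕ)
    (hfin : @Module.Finite (modularFunctionFieldBar N) (modularFunctionFieldBar M) _ _
      (barAlgebra h).toModule)
    (hcop : (@Module.finrank (modularFunctionFieldBar N) (modularFunctionFieldBar M) _ _
      (barAlgebra h).toModule).Coprime m)
    (hM : CoreStatement M A m) : CoreStatement N A m := by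
  letI := barAlgebra h
  haveI := barAlgebra_isScalarTower h
  haveI : FiniteDimensional (modularFunctionFieldBar N) (modularFunctionFieldBar M) := hfin
  haveI : Algebra.IsIntegral (modularFunctionFieldBar N) (modularFunctionFieldBar M) :=
    Algebra.IsIntegral.of_finite _ _
  have halg : ∀ x : modularFunctionFieldBar N,
      algebraMap (modularFunctionFieldBar N) (modularFunctionFieldBar M) x = barIncl h x :=
    fun _ => rfl
  intro U₁ U₂ h₁ h₂ hred hdiv
  obtain ⟨c, y, hc, hy, hcy⟩ := hM U₁ U₂ (isInt_of_dvd h h₁) (isInt_of_dvd h h₂) hred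
    (fun w => by
      rw [toF_isInt_of_dvd h h₁, toF_isInt_of_dvd h h₂, ← halg, ← halg]
      exact dvd_ord_sub_algebraMap (m : ℤ) (toF h₁) (toF h₂) hdiv w)
  rw [toF_isInt_of_dvd h h₁, toF_isInt_of_dvd h h₂] at hcy
  have hinj := barIncl_injective h
  have h₂0 : toF h₂ ≠ 0 := toF_ne_zero h₂
  have hc' : algebraMap Qb (modularFunctionFieldBar N) c ≠ 0 := by
    simpa using hc
  rcases Nat.eq_zero_or_pos m with hm0 | hmpos
  · subst hm0
    refine ⟨c, 1, hc, one_ne_zero, ?_⟩
    apply hinj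
    rw [hcy, pow_zero, pow_zero, mul_one, mul_one, map_mul, AlgHom.commutes]
  · -- `y ^ m` comes from `F_N`
    have hym : y ^ m = algebraMap (modularFunctionFieldBar N) (modularFunctionFieldBar M)
        (toF h₁ / (algebraMap Qb (modularFunctionFieldBar N) c * toF h₂)) := by
      rw [halg, map_div₀, map_mul, AlgHom.commutes, hcy]
      have h₂0' : barIncl h (toF h₂) ≠ 0 := fun h0 => h₂0 (hinj (by rw [h0, map_zero]))
      have hc'' : algebraMap Qb (modularFunctionFieldBar M) c ≠ 0 := by simpa using hc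
      field_simp
    obtain ⟨x, hx⟩ := exists_algebraMap_eq_of_pow_eq (K := Qb) m hmpos hcop y _ hym
    rw [halg] at hx
    refine ⟨c, x, hc, ?_, ?_⟩
    · rintro rfl
      exact hy (by rw [← hx, map_zero])
    · apply hinj
      rw [hcy, map_mul, map_mul, map_pow, hx, AlgHom.commutes]

end Fermat.Agent.S18.H876

end
end
-- ===== PACK-END S18/H876/Transfer.lean

-- ===== PACK-BEGIN S18/Mod/Defs.lean
section



/-!
# S18 / MOD — frozen CONCRETE objects at level `M` (row-lead helper18)

For a valuation subring `A` of `Q̄` and an intermediate field `E` of `Q̄/ℚ` (a number field in the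
application) we define the sub-objects of `Ω := F_M = modularFunctionFieldBar M` that instantiate
`Alg.GoodModel`:

* `Lc M`       constants `Q̄`
* `Ec M E`     constants in `E`
* `Rc M A E`   constants in `A ∩ E`
* `Fc M E`     `E(j_d : d ∣ M)`
* `Vc M A E`   Gauss valuation ring: quotients `U₁/U₂` of series `U_i ∈ (A ∩ E)((q))` lying in `Fc`,
               with `U₂ ≢ 0` mod the maximal ideal of `A`.

MOD deliverable: `GoodModelStatement` below.  GLUE deliverable: `GlueStatement` below (needed for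
PRIME `m` only, see `Integ/Skeleton.lean`).

v4 = FINAL (landed on main): unchanged from v3 except that `Alg.GoodModel` has the new field
`x_mem_V` and `Alg.AlgMainStatement` is for prime `m`.
-/

set_option autoImplicit false

noncomputable section

namespace Fermat.Agent.S18.Mod

open ModularCurve AlgebraicCurve HahnSeries

/-- `Ω = F_M`, the function field of `X₀(M)` over `Q̄`, as a type. -/
abbrev Om (M : ℕ) : Type := ↥(modularFunctionFieldBar M)

/-- The constants `Q̄ ⊆ Ω`. -/
def Lc (M : ℕ) : Subfield (Om M) := (algebraMap Qb (Om M)).fieldRange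

/-- The constants from `E`. -/
def Ec (M : ℕ) (E : IntermediateField ℚ Qb) : Subfield (Om M) :=
  E.toSubfield.map (algebraMap Qb (Om M))

/-- The constants from `A ∩ E`. -/
def Rc (M : ℕ) (A : ValuationSubring Qb) (E : IntermediateField ℚ Qb) : Subring (Om M) :=
  (A.toSubring ⊓ E.toSubfield.toSubring).map (algebraMap Qb (Om M))

/-- The generator `j(q^d)` of `Ω`. -/
def jd (M : ℕ) (d : ℕ) [NeZero d] (hd : d ∣ M) : Om M :=
  ⟨coeffEmb Qb (qExpand ℚ d jq), coeffEmb_mem_laurentBaseChange Qb (jqd_mem_full M hd)⟩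

/-- `j ∈ Ω`. -/
def jOm (M : ℕ) : Om M := jd M 1 (one_dvd M)

/-- The set of generators `j(q^d)`, `d ∣ M`. -/
def gens (M : ℕ) : Set (Om M) := {y | ∃ (d : ℕ) (_ : NeZero d) (hd : d ∣ M), y = jd M d hd}

/-- `Fc = E(j_d : d ∣ M)`. -/
def Fc (M : ℕ) (E : IntermediateField ℚ Qb) : Subfield (Om M) :=
  Subfield.closure ((Ec M E : Set (Om M)) ∪ gens M)

/-- A series over `A` is `E`-rational, lies in `Fc`, (and is automatically `A`-integral). -/
def IsIntE (M : ℕ) (A : ValuationSubring Qb) (E : IntermediateField ℚ Qb)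
    (U : LaurentSeries A) : Prop :=
  (∀ n : ℤ, ((U.coeff n : A) : Qb) ∈ E) ∧
    ∃ f ∈ Fc M E, (f : LaurentSeries Qb) = coeffMap A.subtype U

/-- The Gauss valuation ring of `Fc`, as a set; it is a subring (part of the MOD deliverable). -/
def VcSet (M : ℕ) (A : ValuationSubring Qb) (E : IntermediateField ℚ Qb) : Set (Om M) :=
  {f | f ∈ Fc M E ∧ ∃ U₁ U₂ : LaurentSeries A, IsIntE M A E U₁ ∧ IsIntE M A E U₂ ∧
    coeffMap (IsLocalRing.residue A) U₂ ≠ 0 ∧
    (f : LaurentSeries Qb) * coeffMap A.subtype U₂ = coeffMap A.subtype U₁}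

/-- `x` is an admissible coordinate with finite branch set `S` for the residue characteristic `ℓ`:
`ℓ ≥ 5`: `x = j`, `S = {0, 1728}`;
`ℓ = 3`: `2 ∣ M`, `j x² = (x+256)³`, `S = {0, -64}`;
`ℓ = 2`: `3 ∣ M`, `j x³ = (x+27)(x+243)³`, `S = {0, -27}`;
in the last two cases `x` is the image of an integral series `q⁻¹ + …` lying in `ℚ(j_d : d ∣ M)`. -/
def IsCoordinate (M ℓ : ℕ) (x : Om M) (S : Finset (Om M)) : Prop :=
  (5 ≤ ℓ ∧ x = jOm M ∧ ∀ s, s ∈ S ↔ s = 0 ∨ s = 1728) ∨
  ((ℓ = 3 ∧ jOm M * x ^ 2 = (x + 256) ^ 3 ∧ ∀ s, s ∈ S ↔ s = 0 ∨ s = -64) ∨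
    (ℓ = 2 ∧ jOm M * x ^ 3 = (x + 27) * (x + 243) ^ 3 ∧ ∀ s, s ∈ S ↔ s = 0 ∨ s = -27)) ∧
   ∃ X : LaurentSeries ℤ, X.coeff (-1) = 1 ∧ (∀ k : ℤ, k < -1 → X.coeff k = 0) ∧
     (x : LaurentSeries Qb) = coeffMap (Int.castRingHom Qb) X ∧
     coeffMap (Int.castRingHom ℚ) X ∈ modularFunctionFieldFull M

/-- The family of all concrete models: one for each intermediate field `E` of `Q̄/ℚ` that is
finite over `ℚ`, with `V` the subring with underlying set `VcSet M A E` and `w` any element. -/
def family (M : ℕ) (A : ValuationSubring Qb) : Set (Alg.Model (Om M)) :=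
  {p | ∃ E : IntermediateField ℚ Qb, FiniteDimensional ℚ E ∧ p.1 = Ec M E ∧ p.2.1 = Fc M E ∧
    p.2.2.1 = Rc M A E ∧ (p.2.2.2.1 : Set (Om M)) = VcSet M A E}

/-- **MOD deliverable** (v3).  For every admissible coordinate `x` there is a directed family `𝓕`
of good models, consisting of concrete models, and containing a model over a number field
`E ∋ T` for every finite set `T` of elements of `Q̄`. -/
def GoodModelStatement (M ℓ : ℕ) (A : ValuationSubring Qb) : Prop :=
  ∀ (x : Om M) (S : Finset (Om M)), IsCoordinate M ℓ x S →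
    ∃ 𝓕 : Set (Alg.Model (Om M)), 𝓕 ⊆ family M A ∧ Alg.GoodFamily (Lc M) x S 𝓕 ∧
      ∀ T : Finset Qb, ∃ (E : IntermediateField ℚ Qb) (V : Subring (Om M)) (w : Om M),
        FiniteDimensional ℚ E ∧ (∀ a ∈ T, a ∈ E) ∧ (V : Set (Om M)) = VcSet M A E ∧
        ((Ec M E, Fc M E, Rc M A E, V, w) : Alg.Model (Om M)) ∈ 𝓕

/-- **Existence of coordinates** (c3): for `ℓ ∤ M`, with `2 ∣ M` if `ℓ = 3` and `3 ∣ M` if `ℓ = 2`. -/
def CoordinateStatement (M ℓ : ℕ) : Prop :=
  ∃ (x : Om M) (S : Finset (Om M)), IsCoordinate M ℓ x S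

/-- **ALG deliverable**, instantiated: `Alg.AlgMainStatement` for all arguments over `Ω = Om M`. -/
def AlgStatement (M : ℕ) : Prop :=
  ∀ (Lc : Subfield (Om M)) (x : Om M) (S : Finset (Om M)) (𝓕 : Set (Alg.Model (Om M))),
    Alg.AlgMainStatement Lc x S 𝓕

/-- **GLUE deliverable** (d1): the hub statement at level `M` from MOD and ALG. -/
def GlueStatement (M ℓ : ℕ) (A : ValuationSubring Qb) (m : ℕ) : Prop :=
  CoordinateStatement M ℓ → GoodModelStatement M ℓ A → AlgStatement M → CoreStatement M A m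

end Fermat.Agent.S18.Mod

end
end
-- ===== PACK-END S18/Mod/Defs.lean

-- ===== PACK-BEGIN S18/H576/Skel.lean
section


/-!
# S18 / MOD-ASM (helper576): `node_mod` from field lemmas about the concrete objects

Skeleton: each `field_*` lemma below is one field (or group of fields) of
`Alg.GoodModel (Lc M) (Ec M E) (Fc M E) (Rc M A E) V w x S` for the concrete objects of
`Mod/Defs.lean`.  `goodModelStatement_of_fields` assembles them into `Mod.GoodModelStatement`.
-/

set_option autoImplicit false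

noncomputable section

namespace Fermat.Agent.S18.H576

open ModularCurve AlgebraicCurve HahnSeries Fermat.Agent.S18 Fermat.Agent.S18.Mod

/-- The part of `GoodModel` that does not mention `V`, `w`, `x`, `S`. -/
structure FieldFacts (M : ℕ) (A : ValuationSubring Qb) (E : IntermediateField ℚ Qb) : Prop where
  R_le : (Rc M A E : Set (Om M)) ⊆ Ec M E
  R_total : ∀ e ∈ Ec M E, e ∈ Rc M A E ∨ e⁻¹ ∈ Rc M A E
  E_le_L : Ec M E ≤ Lc M
  E_le_F : Ec M E ≤ Fc M E
  L_algebraic : ∀ a ∈ Lc M, IsAlgebraic (Ec M E) a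
  L_algClosed : IsAlgClosed (Lc M)
  E_closed_in_F : ∀ f ∈ Fc M E, IsAlgebraic (Ec M E) f → f ∈ Ec M E
  compositum : Subfield.closure ((Fc M E : Set (Om M)) ∪ Lc M) = ⊤

/-- The uniformiser facts. -/
structure UnifFacts (M : ℕ) (A : ValuationSubring Qb) (E : IntermediateField ℚ Qb)
    (w : Om M) : Prop where
  w_mem : w ∈ Rc M A E
  w_ne_zero : w ≠ 0
  w_inv_not_mem : w⁻¹ ∉ Rc M A E
  w_gen : ∀ r ∈ Rc M A E, r⁻¹ ∉ Rc M A E → r * w⁻¹ ∈ Rc M A E
  w_discrete : ∀ r ∈ Rc M A E, r ≠ 0 →
    ∃ n : ℕ, r * (w⁻¹) ^ n ∈ Rc M A E ∧ (r * (w⁻¹) ^ n)⁻¹ ∈ Rc M A E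
  residue_perfect : ∃ p : ℕ, p.Prime ∧ (p : Om M) * w⁻¹ ∈ Rc M A E ∧
    ∀ r ∈ Rc M A E, ∃ s ∈ Rc M A E, (r - s ^ p) * w⁻¹ ∈ Rc M A E

/-- The coordinate facts. -/
structure CoordFacts (M : ℕ) (E : IntermediateField ℚ Qb) (x : Om M) : Prop where
  x_mem : x ∈ Fc M E
  x_transcendental : Transcendental (Lc M) x
  finite : ∃ s : Finset (Om M), (s : Set (Om M)) ⊆ Fc M E ∧
    ∀ f ∈ Fc M E, f ∈ Submodule.span (Alg.ratField (Ec M E) x) (s : Set (Om M))

/-- The Gauss valuation ring facts. -/
structure ValFacts (M : ℕ) (A : ValuationSubring Qb) (E : IntermediateField ℚ Qb)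
    (V : Subring (Om M)) (w x : Om M) : Prop where
  V_le : (V : Set (Om M)) ⊆ Fc M E
  x_mem_V : x ∈ V
  V_total : ∀ f ∈ Fc M E, f ∈ V ∨ f⁻¹ ∈ V
  R_le_V : Rc M A E ≤ V
  w_inv_not_mem_V : w⁻¹ ∉ V
  V_gen : ∀ f ∈ V, f⁻¹ ∉ V → f * w⁻¹ ∈ V
  gauss : ∀ P : Polynomial (Om M), (∀ i, P.coeff i ∈ Rc M A E) →
    (∃ i, P.coeff i ≠ 0 ∧ (P.coeff i)⁻¹ ∈ Rc M A E) → (P.eval x)⁻¹ ∈ V
  separable : ∀ f ∈ V, ∃ P : Polynomial (Om M),
    (∀ i, P.coeff i ∈ Alg.polyRing (Rc M A E) x) ∧
    P.eval f * w⁻¹ ∈ V ∧ (Polynomial.derivative P).eval f ≠ 0 ∧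
    ((Polynomial.derivative P).eval f)⁻¹ ∈ V

/-- The `q`-expansion principle on both charts. -/
structure QepFacts (M : ℕ) (A : ValuationSubring Qb) (E : IntermediateField ℚ Qb)
    (V : Subring (Om M)) (w x : Om M) : Prop where
  qep_fin : ∀ b ∈ Alg.chart (Fc M E) (Rc M A E) x, b * w⁻¹ ∈ V →
    b * w⁻¹ ∈ Alg.chart (Fc M E) (Rc M A E) x
  qep_inf : ∀ b ∈ Alg.chart (Fc M E) (Rc M A E) x⁻¹, b * w⁻¹ ∈ V →
    b * w⁻¹ ∈ Alg.chart (Fc M E) (Rc M A E) x⁻¹

/-- The branch facts. -/
structure BranchFacts (M : ℕ) (A : ValuationSubring Qb) (E : IntermediateField ℚ Qb)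
    (x : Om M) (S : Finset (Om M)) : Prop where
  S_mem : ∀ s ∈ S, s ∈ Rc M A E
  S_distinct : ∀ s ∈ S, ∀ t ∈ S, s ≠ t → (s - t)⁻¹ ∈ Rc M A E
  S_unit : ∀ s ∈ S, s ≠ 0 → s⁻¹ ∈ Rc M A E
  unramified : ∀ O : ValuationSubring (Om M), (∀ a ∈ Lc M, a ∈ O) → ∀ c ∈ Lc M, c ∉ S →
    x - c ∈ O → (x - c)⁻¹ ∉ O → ∀ t ∈ O, t⁻¹ ∉ O → t * (x - c)⁻¹ ∈ O

/-- Assembly of one `GoodModel` from the six groups of facts. -/
theorem goodModel_of_facts {M : ℕ} {A : ValuationSubring Qb} {E : IntermediateField ℚ Qb}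
    {V : Subring (Om M)} {w x : Om M} {S : Finset (Om M)}
    (hcz : CharZero (Om M))
    (hF : FieldFacts M A E) (hU : UnifFacts M A E w) (hC : CoordFacts M E x)
    (hV : ValFacts M A E V w x) (hQ : QepFacts M A E V w x) (hB : BranchFacts M A E x S) :
    Alg.GoodModel (Lc M) (Ec M E) (Fc M E) (Rc M A E) V w x S where
  charZero := hcz
  R_le := hF.R_le
  R_total := hF.R_total
  w_mem := hU.w_mem
  w_ne_zero := hU.w_ne_zero
  w_inv_not_mem := hU.w_inv_not_mem
  w_gen := hU.w_gen
  w_discrete := hU.w_discrete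
  residue_perfect := hU.residue_perfect
  E_le_L := hF.E_le_L
  E_le_F := hF.E_le_F
  L_algebraic := hF.L_algebraic
  L_algClosed := hF.L_algClosed
  E_closed_in_F := hF.E_closed_in_F
  compositum := hF.compositum
  x_mem := hC.x_mem
  x_transcendental := hC.x_transcendental
  finite := hC.finite
  V_le := hV.V_le
  x_mem_V := hV.x_mem_V
  V_total := hV.V_total
  R_le_V := hV.R_le_V
  w_inv_not_mem_V := hV.w_inv_not_mem_V
  V_gen := hV.V_gen
  gauss := hV.gauss
  qep_fin := hQ.qep_fin
  qep_inf := hQ.qep_inf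
  separable := hV.separable
  S_mem := hB.S_mem
  S_distinct := hB.S_distinct
  S_unit := hB.S_unit
  unramified := hB.unramified

end Fermat.Agent.S18.H576

end
end
-- ===== PACK-END S18/H576/Skel.lean

-- ===== PACK-BEGIN S18/Mod/H216/Parts.lean
section


/-!
# S18 / MOD-ASM (helper216): `Alg.GoodModel` split into six independent PARTS

`Alg.GoodModel Lc Ec Fc R V w x S` (Alg/Spec v4, on main) has 34 fields.  They are grouped here into six `Prop`-structures
with the SAME field names and the SAME field types, so that each group can be proved by a different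
owner, in any order:

| part | structure | fields |
|---|---|---|
| G-R   | `PartR Ec R w`        | `R_le R_total w_mem w_ne_zero w_inv_not_mem w_gen w_discrete residue_perfect` |
| G-FLD | `PartFld Lc Ec Fc x`  | `E_le_L E_le_F L_algebraic L_algClosed E_closed_in_F compositum x_mem x_transcendental finite` |
| G-V   | `PartV Fc R V w x`    | `V_le V_total R_le_V w_inv_not_mem_V V_gen x_mem_V gauss` |
| G-QEP | `PartQep Fc R V w x`  | `qep_fin qep_inf` |
| G-SEP | `PartSep R V w x`     | `separable` |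
| G-BR  | `PartBr Lc R x S`     | `S_mem S_distinct S_unit unramified` |

`goodModel_of_parts` assembles them (+ `CharZero Ω`); `GoodModel.partR` … project back.
Everything here is Mathlib-only (abstract field `Ω`).
-/

set_option autoImplicit false

namespace Fermat.Agent.S18.Mod.H216

open Fermat.Agent.S18.Alg

variable {Ω : Type*} [Field Ω]

/-- **G-R**: `R` is a discrete valuation ring of `Ec`, uniformiser `w`, perfect residue field. -/
structure PartR (Ec : Subfield Ω) (R : Subring Ω) (w : Ω) : Prop where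
  R_le : (R : Set Ω) ⊆ Ec
  R_total : ∀ e ∈ Ec, e ∈ R ∨ e⁻¹ ∈ R
  w_mem : w ∈ R
  w_ne_zero : w ≠ 0
  w_inv_not_mem : w⁻¹ ∉ R
  w_gen : ∀ r ∈ R, r⁻¹ ∉ R → r * w⁻¹ ∈ R
  w_discrete : ∀ r ∈ R, r ≠ 0 → ∃ n : ℕ, r * (w⁻¹) ^ n ∈ R ∧ (r * (w⁻¹) ^ n)⁻¹ ∈ R
  residue_perfect : ∃ p : ℕ, p.Prime ∧ (p : Ω) * w⁻¹ ∈ R ∧
    ∀ r ∈ R, ∃ s ∈ R, (r - s ^ p) * w⁻¹ ∈ R

/-- **G-FLD**: the fields `Ec ≤ Lc`, `Ec ≤ Fc`, and the coordinate `x`. -/
structure PartFld (Lc Ec Fc : Subfield Ω) (x : Ω) : Prop where
  E_le_L : Ec ≤ Lc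
  E_le_F : Ec ≤ Fc
  L_algebraic : ∀ a ∈ Lc, IsAlgebraic Ec a
  L_algClosed : IsAlgClosed Lc
  E_closed_in_F : ∀ f ∈ Fc, IsAlgebraic Ec f → f ∈ Ec
  compositum : Subfield.closure ((Fc : Set Ω) ∪ Lc) = ⊤
  x_mem : x ∈ Fc
  x_transcendental : Transcendental Lc x
  finite : ∃ s : Finset Ω, (s : Set Ω) ⊆ Fc ∧
    ∀ f ∈ Fc, f ∈ Submodule.span (ratField Ec x) (s : Set Ω)

/-- **G-V**: `V` is the Gauss valuation ring of `Fc`. -/
structure PartV (Fc : Subfield Ω) (R V : Subring Ω) (w x : Ω) : Prop where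
  V_le : (V : Set Ω) ⊆ Fc
  V_total : ∀ f ∈ Fc, f ∈ V ∨ f⁻¹ ∈ V
  R_le_V : R ≤ V
  w_inv_not_mem_V : w⁻¹ ∉ V
  V_gen : ∀ f ∈ V, f⁻¹ ∉ V → f * w⁻¹ ∈ V
  x_mem_V : x ∈ V
  gauss : ∀ P : Polynomial Ω, (∀ i, P.coeff i ∈ R) → (∃ i, P.coeff i ≠ 0 ∧ (P.coeff i)⁻¹ ∈ R) →
    (P.eval x)⁻¹ ∈ V

/-- **G-QEP**: the `q`-expansion principle on both charts. -/
structure PartQep (Fc : Subfield Ω) (R V : Subring Ω) (w x : Ω) : Prop where
  qep_fin : ∀ b ∈ chart Fc R x, b * w⁻¹ ∈ V → b * w⁻¹ ∈ chart Fc R x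
  qep_inf : ∀ b ∈ chart Fc R x⁻¹, b * w⁻¹ ∈ V → b * w⁻¹ ∈ chart Fc R x⁻¹

/-- **G-SEP**: the residue field of `V` is separable over `κ(x̄)`. -/
structure PartSep (R V : Subring Ω) (w x : Ω) : Prop where
  separable : ∀ f ∈ V, ∃ P : Polynomial Ω, (∀ i, P.coeff i ∈ polyRing R x) ∧
    P.eval f * w⁻¹ ∈ V ∧ (Polynomial.derivative P).eval f ≠ 0 ∧
    ((Polynomial.derivative P).eval f)⁻¹ ∈ V

/-- **G-BR**: the branch values. -/
structure PartBr (Lc : Subfield Ω) (R : Subring Ω) (x : Ω) (S : Finset Ω) : Prop where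
  S_mem : ∀ s ∈ S, s ∈ R
  S_distinct : ∀ s ∈ S, ∀ t ∈ S, s ≠ t → (s - t)⁻¹ ∈ R
  S_unit : ∀ s ∈ S, s ≠ 0 → s⁻¹ ∈ R
  unramified : ∀ O : ValuationSubring Ω, (∀ a ∈ Lc, a ∈ O) → ∀ c ∈ Lc, c ∉ S →
    x - c ∈ O → (x - c)⁻¹ ∉ O → ∀ t ∈ O, t⁻¹ ∉ O → t * (x - c)⁻¹ ∈ O

/-- **Assembly**: the six parts give a `GoodModel`. -/
theorem goodModel_of_parts {Lc Ec Fc : Subfield Ω} {R V : Subring Ω} {w x : Ω} {S : Finset Ω}
    (h0 : CharZero Ω) (hR : PartR Ec R w) (hF : PartFld Lc Ec Fc x) (hV : PartV Fc R V w x)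
    (hQ : PartQep Fc R V w x) (hS : PartSep R V w x) (hB : PartBr Lc R x S) :
    GoodModel Lc Ec Fc R V w x S where
  charZero := h0
  R_le := hR.R_le
  R_total := hR.R_total
  w_mem := hR.w_mem
  w_ne_zero := hR.w_ne_zero
  w_inv_not_mem := hR.w_inv_not_mem
  w_gen := hR.w_gen
  w_discrete := hR.w_discrete
  residue_perfect := hR.residue_perfect
  E_le_L := hF.E_le_L
  E_le_F := hF.E_le_F
  L_algebraic := hF.L_algebraic
  L_algClosed := hF.L_algClosed
  E_closed_in_F := hF.E_closed_in_F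
  compositum := hF.compositum
  x_mem := hF.x_mem
  x_transcendental := hF.x_transcendental
  finite := hF.finite
  V_le := hV.V_le
  V_total := hV.V_total
  R_le_V := hV.R_le_V
  w_inv_not_mem_V := hV.w_inv_not_mem_V
  V_gen := hV.V_gen
  x_mem_V := hV.x_mem_V
  gauss := hV.gauss
  qep_fin := hQ.qep_fin
  qep_inf := hQ.qep_inf
  separable := hS.separable
  S_mem := hB.S_mem
  S_distinct := hB.S_distinct
  S_unit := hB.S_unit
  unramified := hB.unramified

section Project

variable {Lc Ec Fc : Subfield Ω} {R V : Subring Ω} {w x : Ω} {S : Finset Ω}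

theorem partR_of_goodModel (h : GoodModel Lc Ec Fc R V w x S) : PartR Ec R w :=
  ⟨h.R_le, h.R_total, h.w_mem, h.w_ne_zero, h.w_inv_not_mem, h.w_gen, h.w_discrete,
    h.residue_perfect⟩

theorem partFld_of_goodModel (h : GoodModel Lc Ec Fc R V w x S) : PartFld Lc Ec Fc x :=
  ⟨h.E_le_L, h.E_le_F, h.L_algebraic, h.L_algClosed, h.E_closed_in_F, h.compositum, h.x_mem,
    h.x_transcendental, h.finite⟩

theorem partV_of_goodModel (h : GoodModel Lc Ec Fc R V w x S) : PartV Fc R V w x :=
  ⟨h.V_le, h.V_total, h.R_le_V, h.w_inv_not_mem_V, h.V_gen, h.x_mem_V, h.gauss⟩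

theorem partQep_of_goodModel (h : GoodModel Lc Ec Fc R V w x S) : PartQep Fc R V w x :=
  ⟨h.qep_fin, h.qep_inf⟩

theorem partSep_of_goodModel (h : GoodModel Lc Ec Fc R V w x S) : PartSep R V w x :=
  ⟨h.separable⟩

theorem partBr_of_goodModel (h : GoodModel Lc Ec Fc R V w x S) : PartBr Lc R x S :=
  ⟨h.S_mem, h.S_distinct, h.S_unit, h.unramified⟩

end Project

end Fermat.Agent.S18.Mod.H216

end
-- ===== PACK-END S18/Mod/H216/Parts.lean

-- ===== PACK-BEGIN S18/Mod/H216/QepAbs.lean
section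



/-!
# S18 / MOD (helper216): the q-expansion principle, ABSTRACT form (Mathlib-only + Lemma M)

Setting of `Alg/Spec.lean`: `R ⊆ Ec ⊆ Fc ⊆ Ω`, Gauss valuation ring `V`, uniformiser `w`,
coordinate `x`.  For `t ∈ {x, x⁻¹}` a **denominator statement**

    `Den t` : ∀ f ∈ Fc ∩ V, ∃ s ∈ R[t], s ∉ wV, s·f integral over R[t]

implies the q-expansion principle on the chart `R[t]` (`qep_of_den`; Lemma M of S28/H806).
`den_inv_of_den` transfers `Den x` to `Den x⁻¹`, so that

    `partQep_of_den` : PartR + PartV + x ∈ V + x transcendental over R + Den x  ⟹  PartQep.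
-/

set_option autoImplicit false
set_option linter.unusedSectionVars false
set_option linter.style.haveILetI false

noncomputable section

namespace Fermat.Agent.S18.Mod.H216

open Polynomial Fermat.Agent.S18.Alg

variable {Ω : Type*} [Field Ω]

section PolyRing

variable (R : Subring Ω) (t : Ω)

/-- Evaluation `R[X] → Ω`, `X ↦ t`. -/
def evR : (↥R)[X] →+* Ω := Polynomial.eval₂RingHom R.subtype t

theorem evR_apply (p : (↥R)[X]) : evR R t p = p.eval₂ R.subtype t := rfl

theorem evR_C (r : R) : evR R t (C r) = (r : Ω) := by simp [evR]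

theorem evR_X : evR R t X = t := by simp [evR]

theorem evR_eq_sum (p : (↥R)[X]) :
    evR R t p = ∑ i ∈ Finset.range (p.natDegree + 1), ((p.coeff i : R) : Ω) * t ^ i := by
  rw [evR_apply, Polynomial.eval₂_eq_sum_range]
  rfl

theorem polyRing_eq_range : polyRing R t = (evR R t).range := by
  apply le_antisymm
  · rw [polyRing, Subring.closure_le]
    rintro u (hu | hu)
    · exact ⟨C ⟨u, hu⟩, evR_C R t _⟩
    · rw [Set.mem_singleton_iff] at hu
      rw [hu]
      exact ⟨X, evR_X R t⟩
  · rintro _ ⟨p, rfl⟩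
    rw [evR_eq_sum]
    refine sum_mem fun i _ => mul_mem ?_ (pow_mem ?_ i)
    · exact Subring.subset_closure (Or.inl (p.coeff i).2)
    · exact Subring.subset_closure (Or.inr rfl)

theorem mem_polyRing_iff {u : Ω} : u ∈ polyRing R t ↔ ∃ p : (↥R)[X], evR R t p = u := by
  rw [polyRing_eq_range]
  rfl

theorem le_polyRing : R ≤ polyRing R t := fun _ hr => Subring.subset_closure (Or.inl hr)

theorem self_mem_polyRing : t ∈ polyRing R t := Subring.subset_closure (Or.inr rfl)

theorem polyRing_le {V : Subring Ω} (hRV : R ≤ V) (ht : t ∈ V) : polyRing R t ≤ V := by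
  rw [polyRing, Subring.closure_le]
  rintro u (hu | hu)
  · exact hRV hu
  · rw [Set.mem_singleton_iff] at hu
    rw [hu]
    exact ht

/-- `R[X] ≃ R[t]` when `t` is transcendental over `R`. -/
def polyEquiv (htr : Function.Injective (evR R t)) : (↥R)[X] ≃+* ↥(polyRing R t) :=
  (RingEquiv.ofBijective (evR R t).rangeRestrict
    ⟨fun a b h => htr (congrArg Subtype.val h), (evR R t).rangeRestrict_surjective⟩).trans
    (RingEquiv.subringCongr (polyRing_eq_range R t).symm)

end PolyRing

section Main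

variable {Ec Fc : Subfield Ω} {R V : Subring Ω} {w x : Ω}

theorem dvd_total_of_partR (hR : PartR Ec R w) (a b : ↥R) :
    ∃ c : ↥R, a * c = b ∨ b * c = a := by
  by_cases ha : (a : Ω) = 0
  · refine ⟨0, Or.inr ?_⟩
    apply Subtype.ext
    simp [ha]
  by_cases hb : (b : Ω) = 0
  · refine ⟨0, Or.inl ?_⟩
    apply Subtype.ext
    simp [hb]
  have hmem : (b : Ω) * (a : Ω)⁻¹ ∈ Ec := mul_mem (hR.R_le b.2) (inv_mem (hR.R_le a.2))
  rcases hR.R_total _ hmem with h | h
  · refine ⟨⟨_, h⟩, Or.inl ?_⟩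
    apply Subtype.ext
    show (a : Ω) * ((b : Ω) * (a : Ω)⁻¹) = b
    field_simp
  · refine ⟨⟨_, h⟩, Or.inr ?_⟩
    apply Subtype.ext
    show (b : Ω) * ((b : Ω) * (a : Ω)⁻¹)⁻¹ = a
    field_simp

theorem valuationRing_of_partR (hR : PartR Ec R w) : ValuationRing ↥R :=
  haveI : PreValuationRing ↥R := ⟨dvd_total_of_partR hR⟩
  {}

end Main

section Residue

variable {Fc : Subfield Ω} {R V : Subring Ω} {w x : Ω}

/-- The ideal `wV` of `V`. -/
def wIdeal (V : Subring Ω) (w : Ω) (hw : w ∈ V) : Ideal ↥V := Ideal.span {(⟨w, hw⟩ : ↥V)}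

theorem mem_wIdeal_iff (hw : w ∈ V) (hw0 : w ≠ 0) (u : ↥V) :
    u ∈ wIdeal V w hw ↔ (u : Ω) * w⁻¹ ∈ V := by
  rw [wIdeal, Ideal.mem_span_singleton]
  constructor
  · rintro ⟨c, hc⟩
    have h1 : (u : Ω) = w * c := congrArg Subtype.val hc
    have h2 : (u : Ω) * w⁻¹ = c := by rw [h1]; field_simp
    rw [h2]
    exact c.2
  · intro h
    refine ⟨⟨_, h⟩, Subtype.ext ?_⟩
    show (u : Ω) = w * ((u : Ω) * w⁻¹)
    field_simp

theorem wIdeal_isPrime (hV : PartV Fc R V w x) (hwV : w ∈ V) (hw0 : w ≠ 0) :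
    (wIdeal V w hwV).IsPrime := by
  rw [Ideal.isPrime_iff]
  constructor
  · intro h
    have h1 : (1 : ↥V) ∈ wIdeal V w hwV := by rw [h]; trivial
    rw [mem_wIdeal_iff hwV hw0] at h1
    apply hV.w_inv_not_mem_V
    simpa using h1
  · intro a b hab
    rw [mem_wIdeal_iff hwV hw0] at hab
    rw [mem_wIdeal_iff hwV hw0, mem_wIdeal_iff hwV hw0]
    by_contra hcon
    push Not at hcon
    have ha : (a : Ω)⁻¹ ∈ V := by
      by_contra h
      exact hcon.1 (hV.V_gen a a.2 h)
    have ha0 : (a : Ω) ≠ 0 := by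
      intro h0
      apply hcon.1
      rw [h0, zero_mul]
      exact zero_mem _
    have h3 : (b : Ω) * w⁻¹ = (a : Ω)⁻¹ * (((a * b : ↥V) : Ω) * w⁻¹) := by
      push_cast
      field_simp
    exact hcon.2 (h3 ▸ mul_mem ha hab)

end Residue

section Qep

variable {Ec Fc : Subfield Ω} {R V : Subring Ω} {w x : Ω}

/-- Kernel form of the Gauss property for the chart parameter `t`: a polynomial in `t` over `R`
lying in `wV` has all its coefficients in `wR`. -/
def KernelAt (R V : Subring Ω) (w t : Ω) : Prop :=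
  ∀ p : (↥R)[X], evR R t p * w⁻¹ ∈ V → ∀ i, ((p.coeff i : ↥R) : Ω) * w⁻¹ ∈ R

/-- The denominator statement on the chart `R[t]`. -/
def DenAt (Fc : Subfield Ω) (R V : Subring Ω) (w t : Ω) : Prop :=
  ∀ f ∈ Fc, f ∈ V → ∃ s ∈ polyRing R t, s * w⁻¹ ∉ V ∧ IsIntegral (polyRing R t) (s * f)

/-- **QEP from denominators** (Lemma M). -/
theorem qep_of_den (hR : PartR Ec R w) (hV : PartV Fc R V w x) (hEF : Ec ≤ Fc) {t : Ω}
    (htV : t ∈ V) (htr : Function.Injective (evR R t)) (hker : KernelAt R V w t)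
    (hden : DenAt Fc R V w t) :
    ∀ b ∈ chart Fc R t, b * w⁻¹ ∈ V → b * w⁻¹ ∈ chart Fc R t := by
  intro b hb hbV
  have hwR := hR.w_mem
  have hwV : w ∈ V := hV.R_le_V hwR
  have hw0 := hR.w_ne_zero
  have hwF : w ∈ Fc := hEF (hR.R_le hwR)
  have hyF : b * w⁻¹ ∈ Fc := mul_mem hb.1 (inv_mem hwF)
  refine ⟨hyF, ?_⟩
  obtain ⟨s, hsP, hsV, hsint⟩ := hden _ hyF hbV
  haveI := valuationRing_of_partR hR
  haveI : IsIntegrallyClosed ↥(polyRing R t) := IsIntegrallyClosed.of_equiv (polyEquiv R t htr)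
  haveI := wIdeal_isPrime hV hwV hw0
  have hPV : polyRing R t ≤ V := polyRing_le R t hV.R_le_V htV
  let red : ↥(polyRing R t) →+* (↥V ⧸ wIdeal V w hwV) :=
    (Ideal.Quotient.mk _).comp (Subring.inclusion hPV)
  have hred : ∀ u : ↥(polyRing R t), red u = 0 ↔ (u : Ω) * w⁻¹ ∈ V := by
    intro u
    show Ideal.Quotient.mk _ (Subring.inclusion hPV u) = 0 ↔ _
    rw [Ideal.Quotient.eq_zero_iff_mem, mem_wIdeal_iff hwV hw0]
    rfl
  let ell : ↥(polyRing R t) := ⟨w, le_polyRing R t hwR⟩
  refine Fermat.Agent.S28.H806.isIntegral_of_isIntegral_smul_of_isIntegral_smul red ell ⟨s, hsP⟩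
    ?_ ?_ ?_ ?_ (b * w⁻¹) ?_ ?_
  · intro h
    exact hw0 (congrArg Subtype.val h)
  · rw [hred]
    show w * w⁻¹ ∈ V
    rw [mul_inv_cancel₀ hw0]
    exact one_mem _
  · intro u hu
    rw [hred] at hu
    obtain ⟨p, hp⟩ := (mem_polyRing_iff R t).mp u.2
    have hc := hker p (by rw [hp]; exact hu)
    have hmem : (u : Ω) * w⁻¹ ∈ polyRing R t := by
      rw [← hp, evR_eq_sum, Finset.sum_mul]
      refine sum_mem fun i _ => ?_
      have h4 : ((p.coeff i : ↥R) : Ω) * t ^ i * w⁻¹ = (((p.coeff i : ↥R) : Ω) * w⁻¹) * t ^ i := by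
        ring
      rw [h4]
      exact mul_mem (le_polyRing R t (hc i)) (pow_mem (self_mem_polyRing R t) i)
    refine ⟨⟨_, hmem⟩, Subtype.ext ?_⟩
    show (u : Ω) = w * ((u : Ω) * w⁻¹)
    field_simp
  · rw [Ne, hred]
    exact hsV
  · have h5 : ell • (b * w⁻¹) = b := by
      show w * (b * w⁻¹) = b
      field_simp
    rw [h5]
    exact hb.2
  · exact hsint

/-- The kernel property for `x` from the `gauss` field. -/
theorem kernelAt_of_gauss (hR : PartR Ec R w) (hV : PartV Fc R V w x)
    (htr : Function.Injective (evR R x)) : KernelAt R V w x := by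
  intro p hp i
  by_contra hi
  have hci : ((p.coeff i : ↥R) : Ω) ≠ 0 := by
    intro h0
    apply hi
    rw [h0, zero_mul]
    exact zero_mem _
  have hunit : ((p.coeff i : ↥R) : Ω)⁻¹ ∈ R := by
    by_contra h
    exact hi (hR.w_gen _ (p.coeff i).2 h)
  have hg := hV.gauss (p.map R.subtype) (fun k => by rw [coeff_map]; exact (p.coeff k).2)
    ⟨i, by rw [coeff_map]; exact hci, by rw [coeff_map]; exact hunit⟩
  have hev : (p.map R.subtype).eval x = evR R x p := by rw [evR_apply, eval_map]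
  rw [hev] at hg
  have hne : evR R x p ≠ 0 := by
    intro h0
    have hp0 : p = 0 := htr (by rw [h0, map_zero])
    apply hci
    rw [hp0]
    simp
  apply hV.w_inv_not_mem_V
  have h6 : w⁻¹ = (evR R x p)⁻¹ * (evR R x p * w⁻¹) := by
    field_simp
  rw [h6]
  exact mul_mem hg hp

theorem inv_mem_V_of_gauss (hV : PartV Fc R V w x) : x⁻¹ ∈ V := by
  have h1 : (1 : Ω) ∈ R := one_mem _
  have hg := hV.gauss (X : Polynomial Ω) (fun k => by
      rw [coeff_X]
      split_ifs
      · exact one_mem _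
      · exact zero_mem _)
    ⟨1, by simp, by simp [h1]⟩
  simpa using hg

/-- `p(x⁻¹) = (reflect d p)(x) · x⁻ᵈ` for `d ≥ deg p`. -/
theorem evR_inv_eq (R : Subring Ω) {x : Ω} (hx0 : x ≠ 0) (p : (↥R)[X]) (d : ℕ)
    (hd : p.natDegree ≤ d) :
    evR R x⁻¹ p = evR R x (p.reflect d) * (x⁻¹) ^ d := by
  letI : Invertible x⁻¹ := invertibleOfNonzero (inv_ne_zero hx0)
  have h := eval₂_reflect_mul_pow R.subtype x⁻¹ d p hd
  rw [invOf_eq_inv, inv_inv] at h
  rw [evR_apply, evR_apply, h]

/-- `p(x) = (reflect d p)(x⁻¹) · xᵈ` for `d ≥ deg p`. -/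
theorem evR_eq_inv (R : Subring Ω) {x : Ω} (hx0 : x ≠ 0) (p : (↥R)[X]) (d : ℕ)
    (hd : p.natDegree ≤ d) :
    evR R x p = evR R x⁻¹ (p.reflect d) * x ^ d := by
  letI : Invertible x := invertibleOfNonzero hx0
  have h := eval₂_reflect_mul_pow R.subtype x d p hd
  rw [invOf_eq_inv] at h
  rw [evR_apply, evR_apply, h]

theorem coeff_eq_coeff_reflect (p : (↥R)[X]) (d i : ℕ) :
    p.coeff i = (p.reflect d).coeff (revAt d i) := by
  rw [coeff_reflect, revAt_invol]

theorem injective_evR_inv (hx0 : x ≠ 0) (htr : Function.Injective (evR R x)) :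
    Function.Injective (evR R x⁻¹) := by
  rw [injective_iff_map_eq_zero]
  intro p hp
  rw [evR_inv_eq R hx0 p p.natDegree le_rfl] at hp
  have h1 : evR R x (p.reflect p.natDegree) = 0 := by
    rcases mul_eq_zero.mp hp with h | h
    · exact h
    · exact absurd h (pow_ne_zero _ (inv_ne_zero hx0))
  have h2 : p.reflect p.natDegree = 0 := htr (by rw [h1, map_zero])
  ext i
  rw [coeff_eq_coeff_reflect p p.natDegree i, h2]
  simp

theorem kernelAt_inv (hx0 : x ≠ 0) (hxV : x ∈ V) (hker : KernelAt R V w x) :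
    KernelAt R V w x⁻¹ := by
  intro p hp i
  rw [coeff_eq_coeff_reflect p p.natDegree i]
  apply hker
  have h0 : (x⁻¹) ^ p.natDegree * x ^ p.natDegree = 1 := by
    rw [← mul_pow, inv_mul_cancel₀ hx0, one_pow]
  have h1 : evR R x (p.reflect p.natDegree) * w⁻¹ = evR R x⁻¹ p * w⁻¹ * x ^ p.natDegree := by
    rw [evR_inv_eq R hx0 p p.natDegree le_rfl]
    calc evR R x (p.reflect p.natDegree) * w⁻¹
        = evR R x (p.reflect p.natDegree) * w⁻¹ * ((x⁻¹) ^ p.natDegree * x ^ p.natDegree) := by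
          rw [h0, mul_one]
      _ = _ := by ring
  rw [h1]
  exact mul_mem hp (pow_mem hxV _)

/-- Integral over `R[x]` ⟹ `x⁻ᴰ · z` integral over `R[x⁻¹]` for some `D`. -/
theorem exists_pow_isIntegral_inv (R : Subring Ω) {x : Ω} (hx0 : x ≠ 0) {z : Ω}
    (hz : IsIntegral (polyRing R x) z) :
    ∃ D : ℕ, IsIntegral (polyRing R x⁻¹) ((x⁻¹) ^ D * z) := by
  classical
  obtain ⟨Q, hmonic, hroot⟩ := hz
  have hcoeff : ∀ i, ∃ p : (↥R)[X], evR R x p = ((Q.coeff i : ↥(polyRing R x)) : Ω) :=
    fun i => (mem_polyRing_iff R x).mp (Q.coeff i).2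
  choose p hp using hcoeff
  set D : ℕ := ∑ i ∈ Finset.range (Q.natDegree + 1), (p i).natDegree with hD
  have hpD : ∀ i ≤ Q.natDegree, (p i).natDegree ≤ D := fun i hi =>
    Finset.single_le_sum (f := fun i => (p i).natDegree) (fun _ _ => Nat.zero_le _)
      (Finset.mem_range.mpr (Nat.lt_succ_of_le hi))
  set q : Polynomial Ω := (Q.map (algebraMap (polyRing R x) Ω)).scaleRoots ((x⁻¹) ^ D) with hq
  have hqmonic : q.Monic := (Polynomial.monic_scaleRoots_iff _).mpr (hmonic.map _)
  have hqroot : q.eval ((x⁻¹) ^ D * z) = 0 := by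
    rw [hq, Polynomial.scaleRoots_eval_mul, Polynomial.eval_map, hroot, mul_zero]
  have hxx : ∀ n : ℕ, x ^ n * (x⁻¹) ^ n = 1 := fun n => by
    rw [← mul_pow, mul_inv_cancel₀ hx0, one_pow]
  have hqcoeff : ∀ i, q.coeff i ∈ polyRing R x⁻¹ := by
    intro i
    rw [hq, Polynomial.coeff_scaleRoots, Polynomial.coeff_map, hmonic.natDegree_map]
    by_cases hi : i < Q.natDegree
    · obtain ⟨k, hk⟩ : ∃ k, Q.natDegree - i = k + 1 := ⟨Q.natDegree - i - 1, by omega⟩
      have h1 : algebraMap (polyRing R x) Ω (Q.coeff i) = evR R x (p i) := (hp i).symm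
      have h2 : evR R x (p i) * (x⁻¹) ^ D = evR R x⁻¹ ((p i).reflect D) := by
        rw [evR_eq_inv R hx0 (p i) D (hpD i hi.le), mul_assoc, hxx, mul_one]
      have h3 : algebraMap (polyRing R x) Ω (Q.coeff i) * ((x⁻¹) ^ D) ^ (Q.natDegree - i) =
          evR R x⁻¹ ((p i).reflect D) * ((x⁻¹) ^ D) ^ k := by
        rw [hk, pow_succ, h1, ← h2]
        ring
      rw [h3]
      exact mul_mem ((mem_polyRing_iff R x⁻¹).mpr ⟨_, rfl⟩)
        (pow_mem (pow_mem (self_mem_polyRing R x⁻¹) D) k)
    · rcases (not_lt.mp hi).lt_or_eq with hlt | heq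
      · rw [Polynomial.coeff_eq_zero_of_natDegree_lt hlt, map_zero, zero_mul]
        exact zero_mem _
      · rw [← heq, hmonic.coeff_natDegree, map_one, one_mul, Nat.sub_self, pow_zero]
        exact one_mem _
  have hlifts : q ∈ Polynomial.lifts (algebraMap (polyRing R x⁻¹) Ω) :=
    (Polynomial.lifts_iff_coeff_lifts q).mpr fun i => ⟨⟨q.coeff i, hqcoeff i⟩, rfl⟩
  obtain ⟨q', hq'q, -, hq'monic⟩ := Polynomial.lifts_and_natDegree_eq_and_monic hlifts hqmonic
  refine ⟨D, q', hq'monic, ?_⟩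
  rw [Polynomial.eval₂_eq_eval_map, hq'q, hqroot]

/-- Transfer of the denominator statement from the chart `R[x]` to the chart `R[x⁻¹]`. -/
theorem denAt_inv (hx0 : x ≠ 0) (hxV : x ∈ V) (hden : DenAt Fc R V w x) :
    DenAt Fc R V w x⁻¹ := by
  intro f hf hfV
  obtain ⟨s, hsP, hsV, hsint⟩ := hden f hf hfV
  obtain ⟨p, hp⟩ := (mem_polyRing_iff R x).mp hsP
  obtain ⟨D, hD⟩ := exists_pow_isIntegral_inv R hx0 hsint
  have hxx : ∀ n : ℕ, x ^ n * (x⁻¹) ^ n = 1 := fun n => by
    rw [← mul_pow, mul_inv_cancel₀ hx0, one_pow]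
  have hs1 : (x⁻¹) ^ p.natDegree * s ∈ polyRing R x⁻¹ := by
    have h1 : (x⁻¹) ^ p.natDegree * s = evR R x⁻¹ (p.reflect p.natDegree) := by
      rw [← hp, evR_eq_inv R hx0 p p.natDegree le_rfl, mul_comm, mul_assoc, hxx, mul_one]
    rw [h1]
    exact (mem_polyRing_iff R x⁻¹).mpr ⟨_, rfl⟩
  refine ⟨(x⁻¹) ^ D * ((x⁻¹) ^ p.natDegree * s),
    mul_mem (pow_mem (self_mem_polyRing R x⁻¹) D) hs1, ?_, ?_⟩
  · intro h
    apply hsV
    have h2 : s * w⁻¹ =
        x ^ D * x ^ p.natDegree * ((x⁻¹) ^ D * ((x⁻¹) ^ p.natDegree * s) * w⁻¹) := by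
      calc s * w⁻¹ = (x ^ D * (x⁻¹) ^ D) * (x ^ p.natDegree * (x⁻¹) ^ p.natDegree) * (s * w⁻¹) := by
            rw [hxx, hxx, one_mul, one_mul]
        _ = _ := by ring
    rw [h2]
    exact mul_mem (mul_mem (pow_mem hxV D) (pow_mem hxV _)) h
  · have h3 : (x⁻¹) ^ D * ((x⁻¹) ^ p.natDegree * s) * f =
        (x⁻¹) ^ p.natDegree * ((x⁻¹) ^ D * (s * f)) := by ring
    rw [h3]
    have h4 : IsIntegral (polyRing R x⁻¹) ((x⁻¹) ^ p.natDegree) :=
      isIntegral_algebraMap (R := polyRing R x⁻¹) (A := Ω)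
        (x := ⟨(x⁻¹) ^ p.natDegree, pow_mem (self_mem_polyRing R x⁻¹) _⟩)
    exact h4.mul hD

/-- **G-QEP from denominators on the finite chart.** -/
theorem partQep_of_den (hR : PartR Ec R w) (hV : PartV Fc R V w x) (hEF : Ec ≤ Fc)
    (hxV : x ∈ V) (htr : Function.Injective (evR R x)) (hden : DenAt Fc R V w x) :
    PartQep Fc R V w x := by
  have hx0 : x ≠ 0 := by
    intro h0
    have h1 : evR R x X = evR R x 0 := by rw [evR_X, map_zero, h0]
    exact X_ne_zero (htr h1)
  have hker := kernelAt_of_gauss hR hV htr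
  exact ⟨qep_of_den hR hV hEF hxV htr hker hden,
    qep_of_den hR hV hEF (inv_mem_V_of_gauss hV) (injective_evR_inv hx0 htr)
      (kernelAt_inv hx0 hxV hker) (denAt_inv hx0 hxV hden)⟩

/-- Adapter: `x` transcendental over a subfield `Lc ⊇ R` (as in `GoodModel.x_transcendental`)
gives injectivity of `R[X] → Ω`. -/
theorem injective_evR_of_transcendental {Lc : Subfield Ω} (hRL : (R : Set Ω) ⊆ Lc)
    (hx : Transcendental Lc x) : Function.Injective (evR R x) := by
  rw [injective_iff_map_eq_zero]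
  intro p hp
  let ι : ↥R →+* ↥Lc := Subring.inclusion (S := R) (T := Lc.toSubring) hRL
  have h1 : Polynomial.aeval x (p.map ι) = 0 := by
    rw [Polynomial.aeval_def, Polynomial.eval₂_map]
    exact hp
  have h2 : p.map ι = 0 := by
    by_contra hne
    exact hx ⟨_, hne, h1⟩
  exact Polynomial.map_injective ι (Subring.inclusion_injective hRL) (by rw [h2, Polynomial.map_zero])

end Qep

end Fermat.Agent.S18.Mod.H216

end
end
-- ===== PACK-END S18/Mod/H216/QepAbs.lean

-- ===== PACK-BEGIN S18/Mod/H216/Vc.lean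
section


/-!
# S18 / MOD-ASM (helper216): the Gauss valuation ring `Vc M A E` as a `Subring`

`Mod.VcSet M A E` (frozen in `Mod/Defs.lean`) is only a set.  Here:

* `intE M A E : Subring (LaurentSeries A)` — the series satisfying `IsIntE M A E`;
* `Vc M A E : Subring (Om M)` with `(Vc M A E : Set (Om M)) = VcSet M A E` (`coe_Vc`);
* `mem_Vc_iff`, `mem_Vc_of_isIntE`.
-/

set_option autoImplicit false

noncomputable section

namespace Fermat.Agent.S18.Mod.H216

open ModularCurve AlgebraicCurve HahnSeries Fermat.Agent.S18 Fermat.Agent.S18.Mod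

variable (M : ℕ) (A : ValuationSubring Qb) (E : IntermediateField ℚ Qb)

/-- The coercion `Ω = F_M → Q̄((q))` as a ring homomorphism. -/
def omVal : Om M →+* LaurentSeries Qb := (modularFunctionFieldBar M).val.toRingHom

@[simp] theorem omVal_apply (f : Om M) : omVal M f = (f : LaurentSeries Qb) := rfl

theorem omVal_injective : Function.Injective (omVal M) := Subtype.val_injective

/-- Series over `Q̄` all of whose coefficients lie in `E`. -/
def coeffsIn : Subring (LaurentSeries Qb) where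
  carrier := {U | ∀ n : ℤ, U.coeff n ∈ E}
  zero_mem' := fun n => by simp
  one_mem' := fun n => by
    rw [HahnSeries.coeff_one]
    split_ifs
    · exact one_mem _
    · exact zero_mem _
  add_mem' := fun {a b} ha hb n => by
    rw [HahnSeries.coeff_add]
    exact add_mem (ha n) (hb n)
  neg_mem' := fun {a} ha n => by
    rw [HahnSeries.coeff_neg]
    exact neg_mem (ha n)
  mul_mem' := fun {a b} ha hb n => by
    rw [HahnSeries.coeff_mul]
    exact sum_mem fun ij _ => mul_mem (ha _) (hb _)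

theorem mem_coeffsIn {U : LaurentSeries Qb} : U ∈ coeffsIn E ↔ ∀ n : ℤ, U.coeff n ∈ E := Iff.rfl

/-- The subring of `A((q))` cut out by `IsIntE`. -/
def intE : Subring (LaurentSeries A) :=
  (coeffsIn E).comap (coeffMap A.subtype) ⊓
    ((Fc M E).toSubring.map (omVal M)).comap (coeffMap A.subtype)

theorem mem_intE {U : LaurentSeries A} : U ∈ intE M A E ↔ IsIntE M A E U := by
  constructor
  · rintro ⟨h1, f, hf, hfU⟩
    exact ⟨fun n => h1 n, f, hf, hfU⟩
  · rintro ⟨h1, f, hf, hfU⟩
    exact ⟨fun n => h1 n, f, hf, hfU⟩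

theorem red_mul_ne_zero {U V : LaurentSeries A}
    (hU : coeffMap (IsLocalRing.residue A) U ≠ 0) (hV : coeffMap (IsLocalRing.residue A) V ≠ 0) :
    coeffMap (IsLocalRing.residue A) (U * V) ≠ 0 := by
  rw [map_mul]
  exact mul_ne_zero hU hV

theorem red_one_ne_zero : coeffMap (IsLocalRing.residue A) (1 : LaurentSeries A) ≠ 0 := by
  rw [map_one]
  exact one_ne_zero

/-- The Gauss valuation ring of `Fc M E`, as a subring of `Ω`. -/
def Vc : Subring (Om M) where
  carrier := VcSet M A E
  zero_mem' := by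
    refine ⟨zero_mem _, 0, 1, (mem_intE M A E).mp (zero_mem _), (mem_intE M A E).mp (one_mem _),
      red_one_ne_zero A, ?_⟩
    simp
  one_mem' := by
    refine ⟨one_mem _, 1, 1, (mem_intE M A E).mp (one_mem _), (mem_intE M A E).mp (one_mem _),
      red_one_ne_zero A, ?_⟩
    simp
  add_mem' := by
    rintro f g ⟨hf, U₁, U₂, h₁, h₂, hne, heq⟩ ⟨hg, W₁, W₂, k₁, k₂, kne, keq⟩
    rw [← mem_intE] at h₁ h₂ k₁ k₂
    refine ⟨add_mem hf hg, U₁ * W₂ + W₁ * U₂, U₂ * W₂,
      (mem_intE M A E).mp (add_mem (mul_mem h₁ k₂) (mul_mem k₁ h₂)),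
      (mem_intE M A E).mp (mul_mem h₂ k₂), red_mul_ne_zero A hne kne, ?_⟩
    push_cast
    rw [map_add, map_mul, map_mul, map_mul, ← heq, ← keq]
    ring
  neg_mem' := by
    rintro f ⟨hf, U₁, U₂, h₁, h₂, hne, heq⟩
    rw [← mem_intE] at h₁ h₂
    refine ⟨neg_mem hf, -U₁, U₂, (mem_intE M A E).mp (neg_mem h₁), (mem_intE M A E).mp h₂,
      hne, ?_⟩
    push_cast
    rw [map_neg, ← heq]
    ring
  mul_mem' := by
    rintro f g ⟨hf, U₁, U₂, h₁, h₂, hne, heq⟩ ⟨hg, W₁, W₂, k₁, k₂, kne, keq⟩
    rw [← mem_intE] at h₁ h₂ k₁ k₂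
    refine ⟨mul_mem hf hg, U₁ * W₁, U₂ * W₂, (mem_intE M A E).mp (mul_mem h₁ k₁),
      (mem_intE M A E).mp (mul_mem h₂ k₂), red_mul_ne_zero A hne kne, ?_⟩
    push_cast
    rw [map_mul, map_mul, ← heq, ← keq]
    ring

@[simp] theorem coe_Vc : (Vc M A E : Set (Om M)) = VcSet M A E := rfl

theorem mem_Vc_iff {f : Om M} : f ∈ Vc M A E ↔ f ∈ VcSet M A E := Iff.rfl

theorem Vc_le_Fc : (Vc M A E : Set (Om M)) ⊆ Fc M E := fun _ hf => hf.1

/-- An `E`-rational integral series lying in `Fc` gives an element of `Vc`. -/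
theorem mem_Vc_of_isIntE {f : Om M} {U : LaurentSeries A} (hU : IsIntE M A E U)
    (hfU : (f : LaurentSeries Qb) = coeffMap A.subtype U) : f ∈ Vc M A E := by
  obtain ⟨h1, g, hg, hgU⟩ := hU
  have hfg : f = g := Subtype.ext (hfU.trans hgU.symm)
  refine ⟨hfg ▸ hg, U, 1, ⟨h1, g, hg, hgU⟩, (mem_intE M A E).mp (one_mem _), red_one_ne_zero A, ?_⟩
  rw [map_one, mul_one, hfU]

end Fermat.Agent.S18.Mod.H216

end
end
-- ===== PACK-END S18/Mod/H216/Vc.lean

-- ===== PACK-BEGIN S18/H203/TorsionFree.lean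
section


/-!
# S18 / b1 (helper203): `B / w B` is torsion-free over `S / w S`

`S` an integrally closed domain, `w ∈ S` prime, `F / Frac S` a field extension, `B` the integral
closure of `S` in `F`.

* `dvd_of_dvd_smul` : `w ∣ t • b` in `B`, `w ∤ t` in `S`  ⟹  `w ∣ b` in `B`.
* `dvd_of_dvd_mul` : the same with `algebraMap S B t * b`.
* `not_dvd_of_not_dvd` : if `w ∤ b` in `B` and `w ∤ t` in `S` then `w ∤ t • b`.
-/

set_option autoImplicit false

namespace Fermat.Agent.S18.H203

section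

variable {S B : Type*} [CommRing S] [IsDomain S] [IsIntegrallyClosed S]
  [CommRing B] [Algebra S B]

/-- **b1, regular sequence.** In the integral closure `B` of `S`: if the prime element `w`
divides `t • b` and `w ∤ t` in `S`, then `w ∣ b` in `B`. -/
theorem dvd_of_dvd_smul (K F : Type*) [Field K] [Algebra S K] [IsFractionRing S K]
    [Field F] [Algebra K F] [Algebra S F] [IsScalarTower S K F]
    [Algebra B F] [IsScalarTower S B F] [IsIntegralClosure B S F]
    {w t : S} (hw : Prime w) (ht : ¬ w ∣ t) {b : B}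
    (h : algebraMap S B w ∣ t • b) : algebraMap S B w ∣ b := by
  obtain ⟨y, hy⟩ := h
  have hinjK : Function.Injective (algebraMap S K) := IsFractionRing.injective S K
  have hw0 : algebraMap S K w ≠ 0 := by
    simpa using (map_ne_zero_iff _ hinjK).mpr hw.ne_zero
  have hwF : algebraMap S F w ≠ 0 := by
    rw [IsScalarTower.algebraMap_apply S K F]
    simpa using (map_ne_zero_iff _ (algebraMap K F).injective).mpr hw0
  set z : F := (algebraMap S F w)⁻¹ * algebraMap B F b with hz
  have h1 : algebraMap S F w * z = algebraMap B F b := by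
    rw [hz, mul_inv_cancel_left₀ hwF]
  have h2 : algebraMap S F t * z = algebraMap B F y := by
    have e1 : algebraMap B F (t • b) = algebraMap S F t * algebraMap B F b := by
      rw [Algebra.smul_def, map_mul, ← IsScalarTower.algebraMap_apply]
    have e2 : algebraMap B F (t • b) = algebraMap S F w * algebraMap B F y := by
      rw [hy, map_mul, ← IsScalarTower.algebraMap_apply]
    rw [hz]
    calc algebraMap S F t * ((algebraMap S F w)⁻¹ * algebraMap B F b)
        = (algebraMap S F w)⁻¹ * (algebraMap S F t * algebraMap B F b) := by ring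
      _ = (algebraMap S F w)⁻¹ * (algebraMap S F w * algebraMap B F y) := by rw [← e1, e2]
      _ = algebraMap B F y := inv_mul_cancel_left₀ hwF _
  have hi1 : IsIntegral S (algebraMap S F w * z) := by
    rw [h1]; exact (IsIntegralClosure.isIntegral S F b).algebraMap
  have hi2 : IsIntegral S (algebraMap S F t * z) := by
    rw [h2]; exact (IsIntegralClosure.isIntegral S F y).algebraMap
  have hzi : IsIntegral S z := isIntegral_of_isIntegral_mul K hw ht hi1 hi2
  obtain ⟨b', hb'⟩ := (IsIntegralClosure.isIntegral_iff (A := B)).mp hzi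
  refine ⟨b', ?_⟩
  apply IsIntegralClosure.algebraMap_injective B S F
  rw [map_mul, hb', ← IsScalarTower.algebraMap_apply, h1]

/-- Multiplicative form of `dvd_of_dvd_smul`. -/
theorem dvd_of_dvd_mul (K F : Type*) [Field K] [Algebra S K] [IsFractionRing S K]
    [Field F] [Algebra K F] [Algebra S F] [IsScalarTower S K F]
    [Algebra B F] [IsScalarTower S B F] [IsIntegralClosure B S F]
    {w t : S} (hw : Prime w) (ht : ¬ w ∣ t) {b : B}
    (h : algebraMap S B w ∣ algebraMap S B t * b) : algebraMap S B w ∣ b := by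
  rw [← Algebra.smul_def] at h
  exact dvd_of_dvd_smul K F hw ht h

end

end Fermat.Agent.S18.H203

end
-- ===== PACK-END S18/H203/TorsionFree.lean

-- ===== PACK-BEGIN S18/H203/QuotFree.lean
section


/-!
# S18 / b1 (helper203): the special fibre `B / w B` is free over `S / w S`

`S` an integrally closed domain, `w ∈ S` prime, `F / Frac S` a field extension, `B` the integral
closure of `S` in `F`.  Put `S̄ := S ⧸ (w)` and `B̄ := B ⧸ (w) B` (Mathlib instance
`Ideal.Quotient.algebraQuotientMapQuotient : Algebra S̄ B̄`).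

* `isTorsionFree_quotient` : `B̄` is a torsion-free `S̄`-module.
* `finite_quotient`        : `B̄` is a finite `S̄`-module if `B` is a finite `S`-module.
* `free_quotient`          : `B̄` is a free `S̄`-module if moreover `S̄` is a PID
  (application: `S = R[x]`, `R` a DVR with uniformiser `w`, `S̄ = κ[x]`).
-/

set_option autoImplicit false

namespace Fermat.Agent.S18.H203

open Ideal

section

variable {S B : Type*} [CommRing S] [IsDomain S] [IsIntegrallyClosed S]
  [CommRing B] [Algebra S B]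

omit [IsDomain S] [IsIntegrallyClosed S] in
/-- `(w) B` is the principal ideal generated by the image of `w`. -/
theorem map_span_singleton_eq (w : S) :
    (Ideal.span {w}).map (algebraMap S B) = Ideal.span {algebraMap S B w} := by
  rw [Ideal.map_span, Set.image_singleton]

omit [IsDomain S] [IsIntegrallyClosed S] in
/-- membership in `(w) B` is divisibility by `w`. -/
theorem mem_map_span_singleton_iff (w : S) (b : B) :
    b ∈ (Ideal.span {w}).map (algebraMap S B) ↔ algebraMap S B w ∣ b := by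
  rw [map_span_singleton_eq, Ideal.mem_span_singleton]

/-- **b1, torsion-freeness of the special fibre.** -/
theorem isTorsionFree_quotient (K F : Type*) [Field K] [Algebra S K] [IsFractionRing S K]
    [Field F] [Algebra K F] [Algebra S F] [IsScalarTower S K F]
    [Algebra B F] [IsScalarTower S B F] [IsIntegralClosure B S F]
    {w : S} (hw : Prime w) :
    Module.IsTorsionFree (S ⧸ Ideal.span {w}) (B ⧸ (Ideal.span {w}).map (algebraMap S B)) := by
  have : (Ideal.span {w}).IsPrime := (Ideal.span_singleton_prime hw.ne_zero).mpr hw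
  refine ⟨fun r hr => ?_⟩
  obtain ⟨t, rfl⟩ := Ideal.Quotient.mk_surjective r
  have ht : ¬ w ∣ t := by
    intro hdvd
    have h0 : (Ideal.Quotient.mk (Ideal.span {w}) t) = 0 := by
      rw [Ideal.Quotient.eq_zero_iff_mem, Ideal.mem_span_singleton]
      exact hdvd
    exact hr.ne_zero h0
  intro x y hxy
  obtain ⟨x, rfl⟩ := Ideal.Quotient.mk_surjective x
  obtain ⟨y, rfl⟩ := Ideal.Quotient.mk_surjective y
  simp only [Ideal.Quotient.mk_smul_mk_quotient_map_quotient] at hxy
  rw [Ideal.Quotient.eq, ← mul_sub, mem_map_span_singleton_iff] at hxy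
  rw [Ideal.Quotient.eq, mem_map_span_singleton_iff]
  exact dvd_of_dvd_mul K F hw ht hxy

omit [IsDomain S] [IsIntegrallyClosed S] in
/-- The special fibre is a finite module. -/
theorem finite_quotient [Module.Finite S B] (I : Ideal S) :
    Module.Finite (S ⧸ I) (B ⧸ I.map (algebraMap S B)) := by
  have : Module.Finite S (B ⧸ I.map (algebraMap S B)) :=
    Module.Finite.of_surjective (Ideal.Quotient.mkₐ S (I.map (algebraMap S B))).toLinearMap
      (Ideal.Quotient.mkₐ_surjective S _)
  exact Module.Finite.of_restrictScalars_finite S (S ⧸ I) (B ⧸ I.map (algebraMap S B))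

/-- **b1, freeness of the special fibre.** -/
theorem free_quotient (K F : Type*) [Field K] [Algebra S K] [IsFractionRing S K]
    [Field F] [Algebra K F] [Algebra S F] [IsScalarTower S K F]
    [Algebra B F] [IsScalarTower S B F] [IsIntegralClosure B S F] [Module.Finite S B]
    {w : S} (hw : Prime w) [IsPrincipalIdealRing (S ⧸ Ideal.span {w})] :
    Module.Free (S ⧸ Ideal.span {w}) (B ⧸ (Ideal.span {w}).map (algebraMap S B)) := by
  have : (Ideal.span {w}).IsPrime := (Ideal.span_singleton_prime hw.ne_zero).mpr hw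
  have := isTorsionFree_quotient (B := B) K F hw
  have := finite_quotient (B := B) (Ideal.span {w})
  exact Module.free_of_finite_type_torsion_free'

end

end Fermat.Agent.S18.H203

end
-- ===== PACK-END S18/H203/QuotFree.lean

-- ===== PACK-BEGIN S18/H274/TraceNil.lean
section


/-!
# S18 / b2 (helper274) — the radical of the trace form consists of nilpotents (char 0)

Mathlib-only.  `C` a commutative `Λ`-algebra with a finite basis `β`, `φ : Λ →+* K` a ring
homomorphism to a field of characteristic zero.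

* `exists_pow_leftMulMatrix_map_eq_zero` : if `φ (Tr (z c)) = 0` for all `c`, then the matrix of
  multiplication by some power `z ^ m` vanishes under `φ`.
* `exists_pow_dvd_of_trace_dvd` : (`φ` = reduction mod `t`)  if `t ∣ Tr (z c)` for all `c` then
  `t ∣ z ^ m` in `C` for some `m`.
* `eq_zero_of_trace_eq_zero` : (`φ` = inclusion into the fraction field) if `Tr (z c) = 0` for all
  `c` and `C` is reduced, then `z = 0`.
* `discr_ne_zero_of_charZero` : the discriminant of a basis of a reduced finite free algebra over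
  a domain of characteristic zero is nonzero.
-/

namespace Fermat.Agent.S18.H274

open Module

section basic

variable {Λ : Type*} [CommRing Λ] {C : Type*} [CommRing C] [Algebra Λ C]
variable {ι : Type*} [Fintype ι] [DecidableEq ι] (β : Basis ι Λ C)

omit [DecidableEq ι] in
include β in
theorem dvd_of_forall_dvd_repr (t : Λ) (x : C) (h : ∀ i, t ∣ β.repr x i) :
    algebraMap Λ C t ∣ x := by
  choose e he using h
  refine ⟨∑ i, e i • β i, ?_⟩
  conv_lhs => rw [← β.sum_repr x]
  rw [Finset.mul_sum]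
  refine Finset.sum_congr rfl fun i _ => ?_
  rw [he i, mul_smul, Algebra.smul_def t]

omit [Fintype ι] [DecidableEq ι] in
include β in
theorem dvd_repr_of_dvd (t : Λ) (x : C) (h : algebraMap Λ C t ∣ x) (i : ι) :
    t ∣ β.repr x i := by
  obtain ⟨c, rfl⟩ := h
  rw [← Algebra.smul_def, map_smul]
  exact ⟨β.repr c i, rfl⟩

omit [DecidableEq ι] in
theorem trace_mul_dvd_of_basis (d : Λ) (y : C)
    (h : ∀ k, d ∣ Algebra.trace Λ C (y * β k)) (c : C) :
    d ∣ Algebra.trace Λ C (y * c) := by
  conv_rhs => rw [← β.sum_repr c]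
  rw [Finset.mul_sum, map_sum]
  refine Finset.dvd_sum fun k _ => ?_
  rw [mul_smul_comm, map_smul, smul_eq_mul]
  exact Dvd.dvd.mul_left (h k) _

theorem exists_pow_leftMulMatrix_map_eq_zero {K : Type*} [Field K] [CharZero K]
    (φ : Λ →+* K) (z : C) (hz : ∀ c, φ (Algebra.trace Λ C (z * c)) = 0) :
    ∃ m : ℕ, (Algebra.leftMulMatrix β (z ^ m)).map φ = 0 := by
  let A := Algebra.leftMulMatrix β z
  have hA : ∀ k, 1 ≤ k → ((φ.mapMatrix A) ^ k).trace = 0 := by
    intro k hk
    obtain ⟨k, rfl⟩ : ∃ j, k = j + 1 := ⟨k - 1, by omega⟩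
    rw [← map_pow, RingHom.mapMatrix_apply, ← AddMonoidHom.map_trace, ← map_pow,
      ← Algebra.trace_eq_matrix_trace β, pow_succ']
    exact hz _
  obtain ⟨m, hm⟩ := matrix_isNilpotent_of_trace_pow_eq_zero (φ.mapMatrix A) hA
  refine ⟨m, ?_⟩
  rw [map_pow, ← RingHom.mapMatrix_apply, map_pow]
  exact hm

end basic

section quotient

variable {Λ : Type*} [CommRing Λ] {C : Type*} [CommRing C] [Algebra Λ C]
variable {ι : Type*} [Fintype ι] [DecidableEq ι] (β : Basis ι Λ C)

include β in
/-- If `K` is a characteristic zero field, `π : Λ →+* K` has kernel contained in `(t)` and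
`π (Tr (z c)) = 0` for all `c`, then `z` is nilpotent modulo `t C`. -/
theorem exists_pow_dvd_of_trace_map_eq_zero {K : Type*} [Field K] [CharZero K]
    (π : Λ →+* K) (t : Λ) (hker : ∀ x, π x = 0 → t ∣ x)
    (z : C) (hz : ∀ c, π (Algebra.trace Λ C (z * c)) = 0) :
    ∃ m : ℕ, algebraMap Λ C t ∣ z ^ m := by
  classical
  obtain ⟨m, hm⟩ := exists_pow_leftMulMatrix_map_eq_zero β π z hz
  refine ⟨m, dvd_of_forall_dvd_repr β t _ fun i => ?_⟩
  have h1 := Algebra.leftMulMatrix_mulVec_repr β (z ^ m) 1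
  rw [mul_one] at h1
  rw [← h1]
  simp only [Matrix.mulVec, dotProduct]
  refine Finset.dvd_sum fun j _ => ?_
  apply Dvd.dvd.mul_right
  apply hker
  have := congrFun (congrFun hm i) j
  simpa using this

end quotient

section domain

variable {Λ : Type*} [CommRing Λ] [IsDomain Λ] [CharZero Λ]
variable {C : Type*} [CommRing C] [IsReduced C] [Algebra Λ C]
variable {ι : Type*} [Fintype ι] [DecidableEq ι] (β : Basis ι Λ C)

include β in
theorem eq_zero_of_trace_eq_zero (z : C) (hz : ∀ c, Algebra.trace Λ C (z * c) = 0) : z = 0 := by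
  classical
  let K := FractionRing Λ
  have : CharZero K := charZero_of_injective_algebraMap (IsFractionRing.injective Λ K)
  obtain ⟨m, hm⟩ := exists_pow_leftMulMatrix_map_eq_zero β (algebraMap Λ K) z
    (fun c => by rw [hz c, map_zero])
  have h0 : Algebra.leftMulMatrix β (z ^ m) = 0 := by
    ext i j
    have := congrFun (congrFun hm i) j
    simp only [Matrix.map_apply, Matrix.zero_apply] at this
    rw [Matrix.zero_apply]
    exact IsFractionRing.injective Λ K (by rw [this, map_zero])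
  have h1 : z ^ m = 0 := Algebra.leftMulMatrix_injective β (by rw [h0, map_zero])
  exact IsReduced.eq_zero _ ⟨m, h1⟩

/-- The discriminant of a basis of a reduced finite free algebra over a domain of
characteristic zero is nonzero. -/
theorem discr_ne_zero_of_charZero : Algebra.discr Λ β ≠ 0 := by
  classical
  intro hD
  rw [Algebra.discr_def] at hD
  obtain ⟨v, hv0, hv⟩ := Matrix.exists_mulVec_eq_zero_iff.mpr hD
  have hz : ∀ c, Algebra.trace Λ C ((∑ i, v i • β i) * c) = 0 := by
    intro c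
    have hk : ∀ k, (0 : Λ) ∣ Algebra.trace Λ C ((∑ i, v i • β i) * β k) := by
      intro k
      rw [zero_dvd_iff]
      have := congrFun hv k
      simp only [Matrix.mulVec, dotProduct, Algebra.traceMatrix_apply, Algebra.traceForm_apply,
        Pi.zero_apply] at this
      rw [Finset.sum_mul, map_sum, ← this]
      refine Finset.sum_congr rfl fun i _ => ?_
      rw [smul_mul_assoc, map_smul, smul_eq_mul, mul_comm (β i) (β k), mul_comm]
    exact zero_dvd_iff.mp (trace_mul_dvd_of_basis β 0 _ hk c)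
  have h0 := eq_zero_of_trace_eq_zero β _ hz
  apply hv0
  funext i
  have h1 := congrArg (fun x => β.repr x i) h0
  simp only [β.repr_sum_self, map_zero, Finsupp.coe_zero, Pi.zero_apply] at h1
  exact h1

end domain

end Fermat.Agent.S18.H274

end
-- ===== PACK-END S18/H274/TraceNil.lean

-- ===== PACK-BEGIN S18/H274/Tame.lean
section




/-!
# S18 / b2.3 (helper274) — TAME discriminant bound

Mathlib-only, sorry-free.  `Λ` a domain, `t` a prime element, `π : Λ →+* K` a surjection onto a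
field of characteristic `0` with kernel `(t)`.  `C` a Dedekind domain which is free of finite rank
over `Λ` with basis `β`.

* `pow_dvd_mul_of_trace_dvd` : if `t ^ a ∣ Tr (y c)` for all `c : C`, then `t ^ a ∣ t * y` in `C`
  ("`t` times the trace dual is integral").
* `tame_discr_of_residue` : if `y : Fin r → C` is linearly independent modulo `rad (t C)` then
  `¬ t ^ (card ι - r + 1) ∣ discr β`.
* `tameDiscr` : the same in the frozen shape `TameDiscrStatement` of
  `origin/helper33:Fermat/Agent/S18/B12/Spec.lean` (`Λ` a PID containing `ℚ`).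
-/

namespace Fermat.Agent.S18.H274

open Module

section

variable {Λ : Type*} [CommRing Λ] [IsDomain Λ]
variable {C : Type*} [CommRing C] [IsDedekindDomain C] [Algebra Λ C]
variable {ι : Type*} [Fintype ι] [DecidableEq ι] (β : Basis ι Λ C)
variable {K : Type*} [Field K] [CharZero K] (π : Λ →+* K)

include β π in
/-- **`t` times the trace dual is integral.**  If `t ^ a` divides `Tr (y c)` for all `c`, then
`t ^ a` divides `t * y` in `C`. -/
theorem pow_dvd_mul_of_trace_dvd (t : Λ) (ht0 : t ≠ 0) (hπt : π t = 0)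
    (hker : ∀ x, π x = 0 → t ∣ x) (y : C) (a : ℕ)
    (hy : ∀ c, t ^ a ∣ Algebra.trace Λ C (y * c)) :
    algebraMap Λ C t ^ a ∣ algebraMap Λ C t * y := by
  classical
  have hinj : Function.Injective (algebraMap Λ C) := β.algebraMap_injective
  have hτ : algebraMap Λ C t ≠ 0 := fun h => ht0 (hinj (by rw [h, map_zero]))
  obtain ⟨β₀, β₀', z, z₁, h1, hz, hz₁⟩ :=
    exists_split_of_isDedekindDomain (algebraMap Λ C t * y) (algebraMap Λ C t ^ a)
      (pow_ne_zero a hτ)
  have hzc : ∀ c, π (Algebra.trace Λ C (z * c)) = 0 := by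
    intro c
    obtain ⟨e, he⟩ := hy (β₀' * c)
    have h2 : t ^ a * Algebra.trace Λ C (z * c) = t ^ a * (t * e) := by
      calc t ^ a * Algebra.trace Λ C (z * c)
          = Algebra.trace Λ C ((z * algebraMap Λ C t ^ a) * c) := by
            rw [← smul_eq_mul, ← map_smul, Algebra.smul_def, map_pow]
            congr 1; ring
        _ = Algebra.trace Λ C (t • (y * (β₀' * c))) := by
            rw [hz, Algebra.smul_def]
            congr 1; ring
        _ = t ^ a * (t * e) := by
            rw [map_smul, he, smul_eq_mul]; ring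
    have h3 := mul_left_cancel₀ (pow_ne_zero a ht0) h2
    rw [h3, map_mul, hπt, zero_mul]
  obtain ⟨m, c₀, hc₀⟩ := exists_pow_dvd_of_trace_map_eq_zero β π t hker z hzc
  have hβ₀ : β₀ = 1 - z := by rw [← h1]; ring
  have hgeom := mul_neg_geom_sum z (m * a)
  refine ⟨(∑ i ∈ Finset.range (m * a), z ^ i) * z₁ + c₀ ^ a * (algebraMap Λ C t * y), ?_⟩
  have hzma : z ^ (m * a) = algebraMap Λ C t ^ a * c₀ ^ a := by
    rw [pow_mul, hc₀, mul_pow]
  calc algebraMap Λ C t * y
      = (1 - z ^ (m * a)) * (algebraMap Λ C t * y) + z ^ (m * a) * (algebraMap Λ C t * y) := by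
        ring
    _ = (∑ i ∈ Finset.range (m * a), z ^ i) * (β₀ * (algebraMap Λ C t * y))
          + z ^ (m * a) * (algebraMap Λ C t * y) := by
        rw [← hgeom, hβ₀]; ring
    _ = algebraMap Λ C t ^ a *
          ((∑ i ∈ Finset.range (m * a), z ^ i) * z₁ + c₀ ^ a * (algebraMap Λ C t * y)) := by
        rw [← hz₁, hzma]; ring

include π in
/-- **TAME discriminant bound**, residue-field form.  `π : Λ →+* K` a surjection onto a field
of characteristic `0` with kernel `(t)`, `t` prime; `C` Dedekind, free over `Λ` with basis `β`.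
If `y : Fin r → C` is linearly independent modulo `rad (t C)`, then
`t ^ (card ι - r + 1)` does not divide the discriminant of `β`. -/
theorem tame_discr_of_residue [WfDvdMonoid Λ] (hπ : Function.Surjective π)
    (t : Λ) (ht : Prime t) (hπt : π t = 0) (hker : ∀ x, π x = 0 → t ∣ x)
    (r : ℕ) (y : Fin r → C)
    (hy : ∀ a : Fin r → Λ,
        (∑ i, a i • y i) ∈ (Ideal.span {algebraMap Λ C t}).radical → ∀ i, t ∣ a i) :
    ¬ t ^ (Fintype.card ι - r + 1) ∣ Algebra.discr Λ β := by
  classical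
  have ht0 : t ≠ 0 := ht.ne_zero
  have hchar : CharZero Λ := ⟨fun n m h => by
    have := congrArg π h
    simpa using this⟩
  -- Step 1: the discriminant is nonzero
  have hD0 : Algebra.discr Λ β ≠ 0 := discr_ne_zero_of_charZero β
  -- Step 2: `D = t ^ a * D'`
  obtain ⟨a, D', hD', hD⟩ := WfDvdMonoid.max_power_factor hD0 ht.irreducible
  set G := Algebra.traceMatrix Λ β with hG
  have hGdet : G.det = t ^ a * D' := by rw [← hD, Algebra.discr_def]
  have hGsymm : ∀ i k, G i k = G k i := by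
    intro i k
    simp only [hG, Algebra.traceMatrix_apply, Algebra.traceForm_apply, mul_comm]
  have hGapp : ∀ i k, G i k = Algebra.trace Λ C (β i * β k) := by
    intro i k
    simp only [hG, Algebra.traceMatrix_apply, Algebra.traceForm_apply]
  -- trace of `(∑ i, M i j • β i) * β k` is `(G * M) k j`
  have htrcol : ∀ (M : Matrix ι ι Λ) (j k : ι),
      Algebra.trace Λ C ((∑ i, M i j • β i) * β k) = (G * M) k j := by
    intro M j k
    rw [Finset.sum_mul, map_sum, Matrix.mul_apply]
    refine Finset.sum_congr rfl fun i _ => ?_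
    rw [smul_mul_assoc, map_smul, smul_eq_mul, hGsymm k i, hGapp, mul_comm]
  -- Step 3: the matrix `N` with `t • adj G = t ^ a • N`
  have hdual : ∀ j, algebraMap Λ C t ^ a ∣ algebraMap Λ C t * (∑ i, G.adjugate i j • β i) := by
    intro j
    apply pow_dvd_mul_of_trace_dvd β π t ht0 hπt hker
    apply trace_mul_dvd_of_basis β
    intro k
    rw [htrcol, Matrix.mul_adjugate, hGdet, Matrix.smul_apply, Matrix.one_apply, smul_eq_mul]
    split_ifs
    · rw [mul_one]; exact Dvd.intro _ rfl
    · rw [mul_zero]; exact dvd_zero _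
  choose x hx using hdual
  let N : Matrix ι ι Λ := fun i j => β.repr (x j) i
  have hxN : ∀ j, x j = ∑ i, N i j • β i := fun j => (β.sum_repr (x j)).symm
  have hN : ∀ i j, t * G.adjugate i j = t ^ a * N i j := by
    intro i j
    have h1 : β.repr (algebraMap Λ C t * ∑ i, G.adjugate i j • β i) i
        = β.repr (algebraMap Λ C t ^ a * x j) i := by rw [hx j]
    rw [← Algebra.smul_def, map_smul, Finsupp.smul_apply, β.repr_sum_self, ← map_pow,
      ← Algebra.smul_def, map_smul, Finsupp.smul_apply, smul_eq_mul, smul_eq_mul] at h1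
    exact h1
  -- Step 4: `G * N = (t * D') • 1`
  have hGN : G * N = (t * D') • (1 : Matrix ι ι Λ) := by
    ext i j
    apply mul_left_cancel₀ (pow_ne_zero a ht0)
    have h2 : t ^ a * (G * N) i j = t * (G * G.adjugate) i j := by
      rw [Matrix.mul_apply, Matrix.mul_apply, Finset.mul_sum, Finset.mul_sum]
      refine Finset.sum_congr rfl fun k _ => ?_
      rw [mul_left_comm, ← hN, mul_left_comm]
    rw [h2, Matrix.mul_adjugate, hGdet]
    simp only [Matrix.smul_apply, smul_eq_mul]
    ring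
  -- Step 5: the columns of `N` are nilpotent modulo `t`
  have hxrad : ∀ j, x j ∈ (Ideal.span {algebraMap Λ C t}).radical := by
    intro j
    have h3 : ∀ c, π (Algebra.trace Λ C (x j * c)) = 0 := by
      intro c
      have h4 : t ∣ Algebra.trace Λ C (x j * c) := by
        apply trace_mul_dvd_of_basis β
        intro k
        rw [hxN j, htrcol, hGN, Matrix.smul_apply, smul_eq_mul, mul_assoc]
        exact Dvd.intro _ rfl
      obtain ⟨e, he⟩ := h4
      rw [he, map_mul, hπt, zero_mul]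
    obtain ⟨m, hm⟩ := exists_pow_dvd_of_trace_map_eq_zero β π t hker (x j) h3
    rw [Ideal.mem_radical_iff]
    exact ⟨m, Ideal.mem_span_singleton.mpr hm⟩
  -- Step 6: rank bound
  let Nbar : Matrix ι ι K := N.map π
  let Ybar : Matrix ι (Fin r) K := fun i' i => π (β.repr (y i) i')
  let W : Submodule K (ι → K) := LinearMap.range Nbar.mulVecLin
  let f : (Fin r → K) →ₗ[K] ((ι → K) ⧸ W) := W.mkQ ∘ₗ Ybar.mulVecLin
  have hfinj : Function.Injective f := by
    rw [← LinearMap.ker_eq_bot, LinearMap.ker_eq_bot']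
    intro abar habar
    have h5 : Ybar.mulVec abar ∈ W := by
      have : W.mkQ (Ybar.mulVecLin abar) = 0 := habar
      rwa [Submodule.mkQ_apply, Submodule.Quotient.mk_eq_zero] at this
    obtain ⟨vbar, hvbar⟩ := h5
    choose a₀ ha₀ using fun i => hπ (abar i)
    choose v hv using fun j => hπ (vbar j)
    -- the element `e = ∑ a i • y i - ∑ v j • x j` is divisible by `t`
    have he : algebraMap Λ C t ∣ (∑ i, a₀ i • y i) - ∑ j, v j • x j := by
      apply dvd_of_forall_dvd_repr β
      intro i'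
      apply hker
      have h6 := congrFun hvbar i'
      simp only [Matrix.mulVecLin_apply, Matrix.mulVec, dotProduct, Nbar, Ybar,
        Matrix.map_apply] at h6
      rw [map_sub, Finsupp.sub_apply, map_sum, map_sum, Finsupp.finsetSum_apply,
        Finsupp.finsetSum_apply, map_sub, map_sum, map_sum, sub_eq_zero]
      have e1 : ∀ i, π ((β.repr (a₀ i • y i)) i') = π (β.repr (y i) i') * abar i := by
        intro i
        rw [map_smul, Finsupp.smul_apply, smul_eq_mul, map_mul, ha₀, mul_comm]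
      have e2 : ∀ j, π ((β.repr (v j • x j)) i') = π (N i' j) * vbar j := by
        intro j
        rw [map_smul, Finsupp.smul_apply, smul_eq_mul, map_mul, hv, mul_comm]
      simp only [e1, e2]
      exact h6.symm
    -- hence `∑ a i • y i` is in the radical
    have hrad : (∑ i, a₀ i • y i) ∈ (Ideal.span {algebraMap Λ C t}).radical := by
      have h7 : (∑ i, a₀ i • y i) = ((∑ i, a₀ i • y i) - ∑ j, v j • x j) + ∑ j, v j • x j := by
        ring
      rw [h7]
      refine Ideal.add_mem _ (Ideal.le_radical (Ideal.mem_span_singleton.mpr he)) ?_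
      refine Ideal.sum_mem _ fun j _ => ?_
      rw [Algebra.smul_def]
      exact Ideal.mul_mem_left _ _ (hxrad j)
    funext i
    rw [← ha₀ i]
    obtain ⟨e, he'⟩ := hy a₀ hrad i
    rw [he', map_mul, hπt, zero_mul, Pi.zero_apply]
  have hrank : r + Nbar.rank ≤ Fintype.card ι := by
    have h8 := LinearMap.finrank_le_finrank_of_injective hfinj
    have h9 := Submodule.finrank_quotient_add_finrank W
    rw [Module.finrank_fin_fun, ] at h8
    rw [Module.finrank_fintype_fun_eq_card] at h9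
    have h10 : Nbar.rank = finrank K W := rfl
    omega
  -- Step 7: DET-RANK
  have hdetN : t ^ r ∣ N.det := by
    refine dvd_trans (pow_dvd_pow t ?_) (pow_sub_rank_dvd_det π hπ t hker N)
    have : (N.map π).rank = Nbar.rank := rfl
    omega
  -- Step 8: `a + r ≤ card ι`
  have hdet : t ^ a * D' * N.det = t ^ Fintype.card ι * D' ^ Fintype.card ι := by
    rw [← hGdet, ← Matrix.det_mul, hGN, Matrix.det_smul, Matrix.det_one, mul_one, mul_pow]
  have har : a + r ≤ Fintype.card ι := by
    by_contra hlt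
    rw [not_le] at hlt
    obtain ⟨e, he⟩ := hdetN
    obtain ⟨d, hd⟩ : ∃ d, a + r = Fintype.card ι + (d + 1) :=
      ⟨a + r - Fintype.card ι - 1, by omega⟩
    have h11 : t ^ Fintype.card ι * (t * (t ^ d * (D' * e)))
        = t ^ Fintype.card ι * D' ^ Fintype.card ι := by
      rw [← hdet, he]
      have : t ^ a * D' * (t ^ r * e) = t ^ (a + r) * (D' * e) := by ring
      rw [this, hd]
      ring
    have h12 := mul_left_cancel₀ (pow_ne_zero _ ht0) h11
    exact hD' (ht.dvd_of_dvd_pow (Dvd.intro _ h12))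
  -- Step 9: conclusion
  intro hdvd
  rw [hD] at hdvd
  obtain ⟨d, hd⟩ : ∃ d, Fintype.card ι - r + 1 = a + (d + 1) :=
    ⟨Fintype.card ι - r - a, by omega⟩
  rw [hd, pow_add, pow_succ] at hdvd
  have h13 := (mul_dvd_mul_iff_left (pow_ne_zero a ht0)).mp hdvd
  exact hD' (dvd_trans (Dvd.intro_left _ rfl) h13)

end

universe u v

/-- **b2-α (tame discriminant)** in the frozen shape `TameDiscrStatement` of
`origin/helper33:Fermat/Agent/S18/B12/Spec.lean` (unfolded):
`theorem foo : TameDiscrStatement := fun Λ _ _ _ _ t ht C₀ _ _ _ _ _ n β r y hy =>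
   tameDiscr Λ t ht C₀ n β r y hy`. -/
theorem tameDiscr
    (Λ : Type u) [CommRing Λ] [IsDomain Λ] [IsPrincipalIdealRing Λ] [Algebra ℚ Λ]
    (t : Λ) (ht : Prime t)
    (C₀ : Type v) [CommRing C₀] [IsDomain C₀] [IsDedekindDomain C₀] [Algebra Λ C₀]
    [Module.IsTorsionFree Λ C₀]
    (n : ℕ) (β : Module.Basis (Fin n) Λ C₀) (r : ℕ) (y : Fin r → C₀)
    (hy : ∀ a : Fin r → Λ,
        (∑ i, a i • y i) ∈ (Ideal.span {algebraMap Λ C₀ t}).radical → ∀ i, t ∣ a i) :
    ¬ t ^ (n - r + 1) ∣ Algebra.discr Λ β := by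
  have hmax : (Ideal.span {t}).IsMaximal :=
    PrincipalIdealRing.isMaximal_of_irreducible ht.irreducible
  let _ : Field (Λ ⧸ Ideal.span {t}) := Ideal.Quotient.field _
  have hchar : CharZero (Λ ⧸ Ideal.span {t}) := algebraRat.charZero _
  have h := tame_discr_of_residue β (Ideal.Quotient.mk (Ideal.span {t}))
    Ideal.Quotient.mk_surjective t ht
    ((Ideal.Quotient.eq_zero_iff_dvd t t).mpr dvd_rfl)
    (fun x hx => (Ideal.Quotient.eq_zero_iff_dvd t x).mp hx) r y hy
  rwa [Fintype.card_fin] at h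

end Fermat.Agent.S18.H274

end
-- ===== PACK-END S18/H274/Tame.lean

-- ===== PACK-BEGIN S18/H425/GoodModelInv.lean
section


/-!
# S18 / ALG (helper425): `GoodModel` is symmetric under `x ↦ x⁻¹`

* `mem_polyRing_iff` : `c ∈ polyRing R x ↔ ∃ Q : R[X], aeval x Q = c`.
* `goodModel_x_inv_mem_V` : `x⁻¹ ∈ V` (so `x` is a unit of `V`, with the field `x_mem_V`).
* `not_isIntegral_mul_inv` : `z / w` is not integral over `R[z]` (`z` transcendental, `w` a non-unit).
* `goodModel_inv` : `GoodModel Lc Ec Fc R V w x S →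
    GoodModel Lc Ec Fc R V w x⁻¹ (insert 0 ((S.erase 0).image (·⁻¹)))`.
* `goodFamily_inv` : the same for `GoodFamily` (same family `𝓕`).

So the chart at infinity needs no separate treatment: apply any chart theorem to `x⁻¹`.
Imports only the frozen interface `Alg/Spec.lean`.
-/

set_option autoImplicit false

noncomputable section

namespace Fermat.Agent.S18.H425

open Polynomial Fermat.Agent.S18.Alg

variable {Ω : Type*} [Field Ω]

/-- `R[x]` consists of the values at `x` of the polynomials with coefficients in `R`. -/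
theorem mem_polyRing_iff {R : Subring Ω} {x c : Ω} :
    c ∈ polyRing R x ↔ ∃ Q : Polynomial R, aeval x Q = c := by
  have h : polyRing R x = (Algebra.adjoin R {x}).toSubring := by
    rw [Algebra.adjoin_eq_ring_closure]
    unfold polyRing
    congr 1
    have hr : Set.range (algebraMap R Ω) = (R : Set Ω) := by
      ext y
      constructor
      · rintro ⟨a, rfl⟩
        exact a.2
      · intro hy
        exact ⟨⟨y, hy⟩, rfl⟩
    rw [hr]
  rw [h, Subalgebra.mem_toSubring, Algebra.adjoin_singleton_eq_range_aeval]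
  rfl

theorem mem_polyRing_of_mem {R : Subring Ω} (x : Ω) {r : Ω} (hr : r ∈ R) : r ∈ polyRing R x :=
  Subring.subset_closure (Or.inl hr)

theorem self_mem_polyRing (R : Subring Ω) (x : Ω) : x ∈ polyRing R x :=
  Subring.subset_closure (Or.inr rfl)

/-- `x⁻¹ ^ N * Q(x) = (reflect N Q)(x⁻¹)` for `natDegree Q ≤ N`. -/
theorem aeval_inv_reflect {R : Subring Ω} {x : Ω} (hx : x ≠ 0) (N : ℕ) (Q : Polynomial R)
    (hQ : Q.natDegree ≤ N) : aeval x⁻¹ (reflect N Q) = aeval x Q * (x⁻¹) ^ N := by
  let _ : Invertible x := invertibleOfNonzero hx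
  have h := eval₂_reflect_mul_pow (algebraMap R Ω) x N Q hQ
  rw [invOf_eq_inv] at h
  rw [aeval_def, aeval_def, ← h, mul_assoc, ← mul_pow, mul_inv_cancel₀ hx, one_pow, mul_one]

/-- A polynomial relation over a subring `R ≤ Lc` is a polynomial relation over `Lc`. -/
theorem transcendental_subring {R : Subring Ω} {Lc : Subfield Ω} (hRL : ∀ r ∈ R, r ∈ Lc)
    {z : Ω} (hz : Transcendental Lc z) : Transcendental R z := by
  rw [transcendental_iff]
  intro Q hQ
  let ι : R →+* Lc :=
    { toFun := fun r => ⟨r.1, hRL r.1 r.2⟩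
      map_one' := rfl
      map_mul' := fun _ _ => rfl
      map_zero' := rfl
      map_add' := fun _ _ => rfl }
  have hι : Function.Injective ι := fun a b hab =>
    Subtype.ext (congrArg (fun y : Lc => (y : Ω)) hab)
  have hcomp : (algebraMap Lc Ω).comp ι = algebraMap R Ω := rfl
  have h0 : aeval z (Q.map ι) = 0 := by
    rw [aeval_def, eval₂_map, hcomp, ← aeval_def, hQ]
  have := (transcendental_iff.mp hz) (Q.map ι) h0
  exact (Polynomial.map_eq_zero_iff hι).mp this

/-- If `z` is transcendental over `R` and `w ∈ R` is a nonzero non-unit of `R`, then `z / w` is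
not integral over `R[z]`. -/
theorem not_isIntegral_mul_inv {R : Subring Ω} {z w : Ω} (hz : Transcendental R z)
    (hw : w ∈ R) (hw0 : w ≠ 0) (hwinv : w⁻¹ ∉ R) :
    ¬ IsIntegral (polyRing R z) (z * w⁻¹) := by
  rintro ⟨p, hp, hp0⟩
  set n := p.natDegree with hn
  have hcoeff : ∀ i, ∃ Q : Polynomial R, aeval z Q = ((p.coeff i : polyRing R z) : Ω) :=
    fun i => mem_polyRing_iff.mp (p.coeff i).2
  choose Q hQ using hcoeff
  let ω : R := ⟨w, hw⟩
  let H : Polynomial R := ∑ i ∈ Finset.range n, Q i * C ω ^ (n - 1 - i) * X ^ i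
  have hsum : (z * w⁻¹) ^ n +
      ∑ i ∈ Finset.range n, ((p.coeff i : polyRing R z) : Ω) * (z * w⁻¹) ^ i = 0 := by
    rw [eval₂_eq_sum_range, Finset.sum_range_succ, ← hn] at hp0
    have hlead : p.coeff n = 1 := hp
    rw [hlead, map_one, one_mul, add_comm] at hp0
    exact hp0
  have hG : aeval z (X ^ n + C ω * H) = 0 := by
    have hω : algebraMap R Ω ω = w := rfl
    rw [map_add, map_mul, map_pow, aeval_X, aeval_C, hω, map_sum]
    have : w ^ n * ((z * w⁻¹) ^ n +
        ∑ i ∈ Finset.range n, ((p.coeff i : polyRing R z) : Ω) * (z * w⁻¹) ^ i) = 0 := by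
      rw [hsum, mul_zero]
    rw [← this, mul_add, Finset.mul_sum, Finset.mul_sum]
    congr 1
    · rw [mul_pow, mul_comm (z ^ n), ← mul_assoc, ← mul_pow, mul_inv_cancel₀ hw0, one_pow,
        one_mul]
    · apply Finset.sum_congr rfl
      intro i hi
      have hi' : i < n := Finset.mem_range.mp hi
      rw [map_mul, map_mul, map_pow, map_pow, aeval_X, aeval_C, hω, hQ]
      have hwn : w ^ n = w * w ^ (n - 1 - i) * w ^ i := by
        rw [← pow_succ', ← pow_add]
        congr 1
        omega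
      rw [hwn, mul_pow]
      have hwi : w ^ i * (w⁻¹) ^ i = 1 := by
        rw [← mul_pow, mul_inv_cancel₀ hw0, one_pow]
      calc w * (((p.coeff i : polyRing R z) : Ω) * w ^ (n - 1 - i) * z ^ i)
          = w * w ^ (n - 1 - i) * (((p.coeff i : polyRing R z) : Ω) * z ^ i) * 1 := by ring
        _ = w * w ^ (n - 1 - i) * (((p.coeff i : polyRing R z) : Ω) * z ^ i) *
              (w ^ i * (w⁻¹) ^ i) := by rw [hwi]
        _ = w * w ^ (n - 1 - i) * w ^ i *
              (((p.coeff i : polyRing R z) : Ω) * (z ^ i * w⁻¹ ^ i)) := by ring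
  have hG0 := (transcendental_iff.mp hz) _ hG
  have hc := congrArg (fun P => P.coeff n) hG0
  simp only [coeff_add, coeff_X_pow, if_true, coeff_C_mul, coeff_zero] at hc
  apply hwinv
  have h1 : w * (-(H.coeff n : R) : R) = 1 := by
    have h2 : (1 : R) + ω * H.coeff n = 0 := hc
    have h3 := congrArg (fun r : R => (r : Ω)) h2
    simp only [Subring.coe_add, Subring.coe_one, Subring.coe_mul, Subring.coe_zero] at h3
    have hω : (ω : Ω) = w := rfl
    rw [hω] at h3
    rw [Subring.coe_neg, mul_neg]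
    linear_combination -h3
  have h4 : w⁻¹ = ((-(H.coeff n : R) : R) : Ω) := by
    exact inv_eq_of_mul_eq_one_right h1
  rw [h4]
  exact (-(H.coeff n)).2

/-- `P(x⁻¹) = (reflect N P)(x) * x⁻¹ ^ N` for a polynomial over `Ω`, `natDegree P ≤ N`. -/
theorem eval_inv_eq_reflect {x : Ω} (hx : x ≠ 0) (N : ℕ) (P : Polynomial Ω)
    (hP : P.natDegree ≤ N) : P.eval x⁻¹ = (reflect N P).eval x * (x⁻¹) ^ N := by
  let _ : Invertible x⁻¹ := invertibleOfNonzero (inv_ne_zero hx)
  have h := eval₂_reflect_mul_pow (RingHom.id Ω) x⁻¹ N P hP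
  rw [invOf_eq_inv, inv_inv] at h
  rw [eval, eval, h]

/-- For a valuation subring: `a⁻¹ ∉ O` iff `a ≠ 0` and `v a < 1`. -/
theorem inv_not_mem_iff (O : ValuationSubring Ω) {a : Ω} :
    a⁻¹ ∉ O ↔ a ≠ 0 ∧ O.valuation a < 1 := by
  constructor
  · intro h
    have ha : a ≠ 0 := by
      rintro rfl
      exact h (by simp)
    refine ⟨ha, ?_⟩
    by_contra hlt
    apply h
    rw [← ValuationSubring.valuation_le_one_iff, map_inv₀]
    exact inv_le_one_of_one_le₀ (not_lt.mp hlt)
  · rintro ⟨ha, hlt⟩ hmem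
    rw [← ValuationSubring.valuation_le_one_iff, map_inv₀] at hmem
    have hv0 : O.valuation a ≠ 0 := (Valuation.ne_zero_iff _).mpr ha
    have : 1 ≤ O.valuation a := by
      have := (inv_le_one₀ (zero_lt_iff.mpr hv0)).mp hmem
      exact this
    exact absurd hlt (not_lt.mpr this)

section GoodModel

variable {Lc Ec Fc : Subfield Ω} {R V : Subring Ω} {w x : Ω} {S : Finset Ω}

theorem goodModel_x_ne_zero (h : GoodModel Lc Ec Fc R V w x S) : x ≠ 0 := by
  rintro rfl
  exact h.x_transcendental isAlgebraic_zero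

theorem goodModel_R_le_Lc (h : GoodModel Lc Ec Fc R V w x S) : ∀ r ∈ R, r ∈ Lc :=
  fun _ hr => h.E_le_L (h.R_le hr)

theorem goodModel_transcendental_inv (h : GoodModel Lc Ec Fc R V w x S) :
    Transcendental Lc x⁻¹ := by
  intro hx
  apply h.x_transcendental
  have := hx.inv
  rwa [inv_inv] at this

/-- `x⁻¹ ∈ V`. -/
theorem goodModel_x_inv_mem_V (h : GoodModel Lc Ec Fc R V w x S) : x⁻¹ ∈ V := by
  have := h.gauss X (fun i => by
    rw [coeff_X]
    split_ifs
    · exact R.one_mem
    · exact R.zero_mem) ⟨1, by simp, by simp⟩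
  simpa using this

theorem ratField_inv (Ec : Subfield Ω) (x : Ω) : ratField Ec x⁻¹ = ratField Ec x := by
  unfold ratField
  apply le_antisymm
  · rw [Subfield.closure_le]
    rintro y (hy | hy)
    · exact Subfield.subset_closure (Or.inl hy)
    · rw [Set.mem_singleton_iff] at hy
      rw [hy]
      exact Subfield.inv_mem _ (Subfield.subset_closure (Or.inr rfl))
  · rw [Subfield.closure_le]
    rintro y (hy | hy)
    · exact Subfield.subset_closure (Or.inl hy)
    · rw [Set.mem_singleton_iff] at hy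
      rw [hy]
      have : x⁻¹ ∈ Subfield.closure ((Ec : Set Ω) ∪ {x⁻¹}) :=
        Subfield.subset_closure (Or.inr rfl)
      have := Subfield.inv_mem _ this
      rwa [inv_inv] at this

/-- `gauss` for `x⁻¹`. -/
theorem goodModel_gauss_inv (h : GoodModel Lc Ec Fc R V w x S) (P : Polynomial Ω)
    (hP : ∀ i, P.coeff i ∈ R) (hu : ∃ i, P.coeff i ≠ 0 ∧ (P.coeff i)⁻¹ ∈ R) :
    (P.eval x⁻¹)⁻¹ ∈ V := by
  have hx := goodModel_x_ne_zero h
  rw [eval_inv_eq_reflect hx P.natDegree P le_rfl, mul_inv, ← inv_pow, inv_inv]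
  refine V.mul_mem (h.gauss _ (fun i => ?_) ?_) (V.pow_mem h.x_mem_V _)
  · rw [coeff_reflect]
    exact hP _
  · obtain ⟨i, hi0, hi⟩ := hu
    refine ⟨revAt P.natDegree i, ?_, ?_⟩
    · rw [coeff_reflect, revAt_invol]
      exact hi0
    · rw [coeff_reflect, revAt_invol]
      exact hi

/-- `separable` for `x⁻¹`. -/
theorem goodModel_separable_inv (h : GoodModel Lc Ec Fc R V w x S) (f : Ω) (hf : f ∈ V) :
    ∃ P : Polynomial Ω, (∀ i, P.coeff i ∈ polyRing R x⁻¹) ∧
      P.eval f * w⁻¹ ∈ V ∧ (Polynomial.derivative P).eval f ≠ 0 ∧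
      ((Polynomial.derivative P).eval f)⁻¹ ∈ V := by
  have hx := goodModel_x_ne_zero h
  obtain ⟨P, hPc, hP0, hP1, hP2⟩ := h.separable f hf
  have hex : ∀ i, ∃ Q : Polynomial R, aeval x Q = P.coeff i := fun i => mem_polyRing_iff.mp (hPc i)
  choose Q hQ using hex
  let D : ℕ := P.support.sup fun i => (Q i).natDegree
  refine ⟨C ((x⁻¹) ^ D) * P, fun i => ?_, ?_, ?_, ?_⟩
  · rw [coeff_C_mul]
    by_cases hi : i ∈ P.support
    · have hdeg : (Q i).natDegree ≤ D := Finset.le_sup (f := fun i => (Q i).natDegree) hi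
      rw [mem_polyRing_iff]
      exact ⟨reflect D (Q i), by rw [aeval_inv_reflect hx D (Q i) hdeg, hQ, mul_comm]⟩
    · rw [notMem_support_iff.mp hi, mul_zero]
      exact Subring.zero_mem _
  · rw [eval_mul, eval_C, mul_assoc]
    exact V.mul_mem (V.pow_mem (goodModel_x_inv_mem_V h) _) hP0
  · rw [derivative_C_mul, eval_mul, eval_C]
    exact mul_ne_zero (pow_ne_zero _ (inv_ne_zero hx)) hP1
  · rw [derivative_C_mul, eval_mul, eval_C, mul_inv, ← inv_pow, inv_inv]
    exact V.mul_mem (V.pow_mem h.x_mem_V _) hP2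

/-- `unramified` for `x⁻¹`. -/
theorem goodModel_unramified_inv [DecidableEq Ω] (h : GoodModel Lc Ec Fc R V w x S)
    (O : ValuationSubring Ω) (hL : ∀ a ∈ Lc, a ∈ O) (c : Ω) (hc : c ∈ Lc)
    (hcS : c ∉ insert 0 ((S.erase 0).image (·⁻¹)))
    (h1 : x⁻¹ - c ∈ O) (h2 : (x⁻¹ - c)⁻¹ ∉ O) (t : Ω) (ht : t ∈ O) (ht' : t⁻¹ ∉ O) :
    t * (x⁻¹ - c)⁻¹ ∈ O := by
  have hx := goodModel_x_ne_zero h
  have hc0 : c ≠ 0 := by
    rintro rfl
    exact hcS (Finset.mem_insert_self _ _)
  have hcinvS : c⁻¹ ∉ S := by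
    intro hmem
    apply hcS
    apply Finset.mem_insert_of_mem
    rw [Finset.mem_image]
    exact ⟨c⁻¹, Finset.mem_erase.mpr ⟨inv_ne_zero hc0, hmem⟩, inv_inv c⟩
  have hcO : c ∈ O := hL c hc
  have hcinvO : c⁻¹ ∈ O := hL _ (Lc.inv_mem hc)
  obtain ⟨hne, hlt⟩ := (inv_not_mem_iff O).mp h2
  have hvc : O.valuation c = 1 := by
    apply le_antisymm ((ValuationSubring.valuation_le_one_iff O c).mpr hcO)
    have := (ValuationSubring.valuation_le_one_iff O c⁻¹).mpr hcinvO
    rw [map_inv₀] at this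
    exact (inv_le_one₀ (zero_lt_iff.mpr ((Valuation.ne_zero_iff _).mpr hc0))).mp this
  have hvxinv : O.valuation x⁻¹ = 1 := by
    have : x⁻¹ = (x⁻¹ - c) + c := by ring
    rw [this, Valuation.map_add_eq_of_lt_right _ (by rw [hvc]; exact hlt), hvc]
  have hvx : O.valuation x = 1 := by
    rw [map_inv₀] at hvxinv
    exact inv_eq_one.mp hvxinv
  have hxO : x ∈ O := (ValuationSubring.valuation_le_one_iff O x).mp hvx.le
  have hid : x - c⁻¹ = -(c⁻¹ * x * (x⁻¹ - c)) := by
    field_simp
    ring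
  have h1' : x - c⁻¹ ∈ O := by
    rw [hid]
    exact O.neg_mem _ (O.mul_mem _ _ (O.mul_mem _ _ hcinvO hxO) h1)
  have h2' : (x - c⁻¹)⁻¹ ∉ O := by
    rw [inv_not_mem_iff]
    refine ⟨?_, ?_⟩
    · rw [hid]
      exact neg_ne_zero.mpr (mul_ne_zero (mul_ne_zero (inv_ne_zero hc0) hx) hne)
    · rw [hid, Valuation.map_neg, map_mul, map_mul, map_inv₀, hvc, hvx, inv_one, one_mul, one_mul]
      exact hlt
  have key := h.unramified O hL c⁻¹ (Lc.inv_mem hc) hcinvS h1' h2' t ht ht'
  have hid2 : t * (x⁻¹ - c)⁻¹ = -(t * (x - c⁻¹)⁻¹ * (c⁻¹ * x)) := by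
    have hne' : x - c⁻¹ ≠ 0 := by
      rw [hid]
      exact neg_ne_zero.mpr (mul_ne_zero (mul_ne_zero (inv_ne_zero hc0) hx) hne)
    rw [hid]
    field_simp
  rw [hid2]
  exact O.neg_mem _ (O.mul_mem _ _ key (O.mul_mem _ _ hcinvO hxO))

/-- **`GoodModel` is symmetric under `x ↦ x⁻¹`**, with branch set
`S' = {0} ∪ {s⁻¹ : s ∈ S, s ≠ 0}`. -/
theorem goodModel_inv [DecidableEq Ω] (h : GoodModel Lc Ec Fc R V w x S) :
    GoodModel Lc Ec Fc R V w x⁻¹ (insert 0 ((S.erase 0).image (·⁻¹))) where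
  charZero := h.charZero
  R_le := h.R_le
  R_total := h.R_total
  w_mem := h.w_mem
  w_ne_zero := h.w_ne_zero
  w_inv_not_mem := h.w_inv_not_mem
  w_gen := h.w_gen
  w_discrete := h.w_discrete
  residue_perfect := h.residue_perfect
  E_le_L := h.E_le_L
  E_le_F := h.E_le_F
  L_algebraic := h.L_algebraic
  L_algClosed := h.L_algClosed
  E_closed_in_F := h.E_closed_in_F
  compositum := h.compositum
  x_mem := Fc.inv_mem h.x_mem
  x_transcendental := goodModel_transcendental_inv h
  finite := by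
    rw [ratField_inv]
    exact h.finite
  V_le := h.V_le
  V_total := h.V_total
  R_le_V := h.R_le_V
  w_inv_not_mem_V := h.w_inv_not_mem_V
  V_gen := h.V_gen
  x_mem_V := goodModel_x_inv_mem_V h
  gauss := goodModel_gauss_inv h
  qep_fin := h.qep_inf
  qep_inf := by
    rw [inv_inv]
    exact h.qep_fin
  separable := goodModel_separable_inv h
  S_mem := by
    intro s hs
    rcases Finset.mem_insert.mp hs with rfl | hs
    · exact R.zero_mem
    · obtain ⟨s', hs', rfl⟩ := Finset.mem_image.mp hs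
      obtain ⟨hs0, hsS⟩ := Finset.mem_erase.mp hs'
      exact h.S_unit s' hsS hs0
  S_distinct := by
    intro a ha b hb hab
    rcases Finset.mem_insert.mp ha with rfl | ha
    · rcases Finset.mem_insert.mp hb with rfl | hb
      · exact absurd rfl hab
      · obtain ⟨s', hs', rfl⟩ := Finset.mem_image.mp hb
        obtain ⟨hs0, hsS⟩ := Finset.mem_erase.mp hs'
        have : (0 - s'⁻¹)⁻¹ = -s' := by
          rw [zero_sub, inv_neg, inv_inv]
        rw [this]
        exact R.neg_mem (h.S_mem s' hsS)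
    · obtain ⟨s', hs', rfl⟩ := Finset.mem_image.mp ha
      obtain ⟨hs0, hsS⟩ := Finset.mem_erase.mp hs'
      rcases Finset.mem_insert.mp hb with rfl | hb
      · have : (s'⁻¹ - 0)⁻¹ = s' := by
          rw [sub_zero, inv_inv]
        rw [this]
        exact h.S_mem s' hsS
      · obtain ⟨t', ht', rfl⟩ := Finset.mem_image.mp hb
        obtain ⟨ht0, htS⟩ := Finset.mem_erase.mp ht'
        have hst : s' ≠ t' := by
          rintro rfl
          exact hab rfl
        have hts : t' - s' ≠ 0 := sub_ne_zero.mpr (Ne.symm hst)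
        have : (s'⁻¹ - t'⁻¹)⁻¹ = s' * t' * (t' - s')⁻¹ := by
          field_simp
        rw [this]
        exact R.mul_mem (R.mul_mem (h.S_mem s' hsS) (h.S_mem t' htS))
          (h.S_distinct t' htS s' hsS (Ne.symm hst))
  S_unit := by
    intro s hs hs0
    rcases Finset.mem_insert.mp hs with rfl | hs
    · exact absurd rfl hs0
    · obtain ⟨s', hs', rfl⟩ := Finset.mem_image.mp hs
      obtain ⟨_, hsS⟩ := Finset.mem_erase.mp hs'
      rw [inv_inv]
      exact h.S_mem s' hsS
  unramified := goodModel_unramified_inv h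

/-- A good family for `x` is a good family for `x⁻¹`. -/
theorem goodFamily_inv [DecidableEq Ω] {𝓕 : Set (Model Ω)} (h : GoodFamily Lc x S 𝓕) :
    GoodFamily Lc x⁻¹ (insert 0 ((S.erase 0).image (·⁻¹))) 𝓕 where
  good := fun p hp => goodModel_inv (h.good p hp)
  enlarge := h.enlarge

end GoodModel

end Fermat.Agent.S18.H425

end
end
-- ===== PACK-END S18/H425/GoodModelInv.lean

-- ===== PACK-BEGIN S18/Mod/H216/Family.lean
section


/-!
# S18 / MOD-ASM (helper216): `GoodModelStatement` from `GoodAt`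

`GoodAt M A x S` : for EVERY number field `E ⊆ Q̄` the concrete objects
`(Ec M E, Fc M E, Rc M A E, V, w)` (with `V` the subring whose carrier is `VcSet M A E` and `w` some
uniformiser) form an `Alg.GoodModel`.

`goodModelStatement_of_goodAt` : the frozen MOD deliverable `Mod.GoodModelStatement M ℓ A`
(node_mod of `Integ/Skeleton.lean`) follows from `GoodAt` for every admissible coordinate.
The family is `{ all concrete good models }`; directedness is monotonicity in `E`.
-/

set_option autoImplicit false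
set_option linter.style.haveILetI false

noncomputable section

namespace Fermat.Agent.S18.Mod.H216

open ModularCurve AlgebraicCurve HahnSeries Fermat.Agent.S18 Fermat.Agent.S18.Mod

/-- The per-number-field MOD deliverable. -/
def GoodAt (M : ℕ) (A : ValuationSubring Qb) (x : Om M) (S : Finset (Om M)) : Prop :=
  ∀ E : IntermediateField ℚ Qb, FiniteDimensional ℚ E →
    ∃ (V : Subring (Om M)) (w : Om M), (V : Set (Om M)) = VcSet M A E ∧
      Alg.GoodModel (Lc M) (Ec M E) (Fc M E) (Rc M A E) V w x S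

section Mono

variable (M : ℕ) (A : ValuationSubring Qb) {E E' : IntermediateField ℚ Qb}

theorem Ec_mono (h : E ≤ E') : Ec M E ≤ Ec M E' := by
  rintro _ ⟨a, ha, rfl⟩
  exact ⟨a, h ha, rfl⟩

theorem Fc_mono (h : E ≤ E') : Fc M E ≤ Fc M E' :=
  Subfield.closure_mono (Set.union_subset_union_left _ (Ec_mono M h))

theorem Rc_mono (h : E ≤ E') : Rc M A E ≤ Rc M A E' := by
  rintro _ ⟨a, ha, rfl⟩
  exact ⟨a, ⟨ha.1, h ha.2⟩, rfl⟩

theorem IsIntE_mono (h : E ≤ E') {U : LaurentSeries A} (hU : IsIntE M A E U) :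
    IsIntE M A E' U := by
  obtain ⟨h1, f, hf, hfU⟩ := hU
  exact ⟨fun n => h (h1 n), f, Fc_mono M h hf, hfU⟩

theorem VcSet_mono (h : E ≤ E') : VcSet M A E ⊆ VcSet M A E' := by
  rintro f ⟨hf, U₁, U₂, h₁, h₂, hne, heq⟩
  exact ⟨Fc_mono M h hf, U₁, U₂, IsIntE_mono M A h h₁, IsIntE_mono M A h h₂, hne, heq⟩

end Mono

/-- Every finite set of elements of `Q̄` lies in a number field containing a given one. -/
theorem exists_finite_ge (E : IntermediateField ℚ Qb) (hE : FiniteDimensional ℚ E)
    (T : Set Qb) (hT : T.Finite) :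
    ∃ E' : IntermediateField ℚ Qb, FiniteDimensional ℚ E' ∧ E ≤ E' ∧ ∀ a ∈ T, a ∈ E' := by
  haveI := hE
  haveI : Finite T := hT
  haveI : Algebra.IsAlgebraic ℚ Qb := AlgebraicClosure.isAlgebraic ℚ
  haveI : FiniteDimensional ℚ (IntermediateField.adjoin ℚ T) :=
    IntermediateField.finiteDimensional_adjoin
      (fun x _ => (Algebra.IsAlgebraic.isAlgebraic (R := ℚ) x).isIntegral)
  refine ⟨E ⊔ IntermediateField.adjoin ℚ T, inferInstance, le_sup_left, fun a ha => ?_⟩
  exact (le_sup_right : IntermediateField.adjoin ℚ T ≤ E ⊔ IntermediateField.adjoin ℚ T)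
    (IntermediateField.subset_adjoin ℚ T ha)

/-- **MOD assembly, top step**: the frozen `GoodModelStatement` from `GoodAt`. -/
theorem goodModelStatement_of_goodAt (M ℓ : ℕ) (A : ValuationSubring Qb)
    (h : ∀ (x : Om M) (S : Finset (Om M)), IsCoordinate M ℓ x S → GoodAt M A x S) :
    GoodModelStatement M ℓ A := by
  intro x S hxS
  have hg := h x S hxS
  refine ⟨{p | ∃ E : IntermediateField ℚ Qb, FiniteDimensional ℚ E ∧ p.1 = Ec M E ∧
      p.2.1 = Fc M E ∧ p.2.2.1 = Rc M A E ∧ (p.2.2.2.1 : Set (Om M)) = VcSet M A E ∧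
      Alg.GoodModel (Lc M) p.1 p.2.1 p.2.2.1 p.2.2.2.1 p.2.2.2.2 x S}, ?_, ⟨?_, ?_⟩, ?_⟩
  · rintro p ⟨E, hE, h1, h2, h3, h4, -⟩
    exact ⟨E, hE, h1, h2, h3, h4⟩
  · rintro p ⟨E, hE, h1, h2, h3, h4, h5⟩
    exact h5
  · rintro p ⟨E, hE, h1, h2, h3, h4, h5⟩ T hT
    have hfin : {b : Qb | algebraMap Qb (Om M) b ∈ T}.Finite :=
      T.finite_toSet.preimage (Set.injOn_of_injective (algebraMap Qb (Om M)).injective)
    obtain ⟨E', hE', hle, hT'⟩ := exists_finite_ge E hE _ hfin
    obtain ⟨V', w', hV', hgood'⟩ := hg E' hE'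
    refine ⟨(Ec M E', Fc M E', Rc M A E', V', w'), ⟨E', hE', rfl, rfl, rfl, hV', hgood'⟩,
      ⟨?_, ?_, ?_, ?_⟩, ?_⟩
    · rw [h1]; exact Ec_mono M hle
    · rw [h2]; exact Fc_mono M hle
    · rw [h3]; exact Rc_mono M A hle
    · intro f hf
      have hf' : f ∈ (p.2.2.2.1 : Set (Om M)) := hf
      rw [h4] at hf'
      have := VcSet_mono M A hle hf'
      rw [← hV'] at this
      exact this
    · intro a ha
      obtain ⟨b, rfl⟩ := hT a ha
      exact ⟨b, hT' b ha, rfl⟩
  · intro T
    obtain ⟨E', hE', -, hT'⟩ := exists_finite_ge ⊥ inferInstance (T : Set Qb) T.finite_toSet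
    obtain ⟨V', w', hV', hgood'⟩ := hg E' hE'
    exact ⟨E', V', w', hE', fun a ha => hT' a ha, hV', ⟨E', hE', rfl, rfl, rfl, hV', hgood'⟩⟩

end Fermat.Agent.S18.Mod.H216

end
end
-- ===== PACK-END S18/Mod/H216/Family.lean

-- ===== PACK-BEGIN S18/H456/ModBasic.lean
section


/-!
# S18 / MOD assembly (helper456, backup MOD-ASM): basic facts on the concrete objects

Membership lemmas for `Lc`, `Ec`, `Rc`, `Fc` and the "easy" fields of `Alg.GoodModel`
(`charZero`, `R_le`, `R_total`, `E_le_L`, `E_le_F`, `L_algebraic`, `L_algClosed`, `compositum`).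
-/

set_option autoImplicit false

noncomputable section

namespace Fermat.Agent.S18.H456

open ModularCurve AlgebraicCurve HahnSeries Fermat.Agent.S18 Fermat.Agent.S18.Mod

variable (M : ℕ) (A : ValuationSubring Qb) (E : IntermediateField ℚ Qb)

/-- The constant `c ∈ Q̄` as an element of `Ω`. -/
abbrev cst (c : Qb) : Om M := algebraMap Qb (Om M) c

theorem cst_injective : Function.Injective (cst M) := (algebraMap Qb (Om M)).injective

theorem mem_Lc_iff {f : Om M} : f ∈ Lc M ↔ ∃ c : Qb, cst M c = f := Iff.rfl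

theorem cst_mem_Lc (c : Qb) : cst M c ∈ Lc M := ⟨c, rfl⟩

theorem mem_Ec_iff {f : Om M} : f ∈ Ec M E ↔ ∃ c ∈ E, cst M c = f := by
  unfold Ec
  rw [Subfield.mem_map]
  rfl

theorem cst_mem_Ec {c : Qb} (hc : c ∈ E) : cst M c ∈ Ec M E := (mem_Ec_iff M E).2 ⟨c, hc, rfl⟩

theorem cst_mem_Ec_iff {c : Qb} : cst M c ∈ Ec M E ↔ c ∈ E := by
  refine ⟨fun h => ?_, cst_mem_Ec M E⟩
  obtain ⟨c', hc', h⟩ := (mem_Ec_iff M E).1 h
  rwa [← cst_injective M h]

theorem mem_Rc_iff {f : Om M} : f ∈ Rc M A E ↔ ∃ c, c ∈ A ∧ c ∈ E ∧ cst M c = f := by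
  unfold Rc
  rw [Subring.mem_map]
  constructor
  · rintro ⟨c, hc, rfl⟩
    exact ⟨c, hc.1, hc.2, rfl⟩
  · rintro ⟨c, hA, hE, rfl⟩
    exact ⟨c, ⟨hA, hE⟩, rfl⟩

theorem cst_mem_Rc {c : Qb} (hA : c ∈ A) (hE : c ∈ E) : cst M c ∈ Rc M A E :=
  (mem_Rc_iff M A E).2 ⟨c, hA, hE, rfl⟩

theorem cst_mem_Rc_iff {c : Qb} : cst M c ∈ Rc M A E ↔ c ∈ A ∧ c ∈ E := by
  refine ⟨fun h => ?_, fun h => cst_mem_Rc M A E h.1 h.2⟩
  obtain ⟨c', hA, hE, h⟩ := (mem_Rc_iff M A E).1 h
  rw [← cst_injective M h]
  exact ⟨hA, hE⟩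

/-! ### The easy fields -/

theorem field_charZero : CharZero (Om M) :=
  charZero_of_injective_algebraMap (algebraMap Qb (Om M)).injective

theorem field_R_le : (Rc M A E : Set (Om M)) ⊆ Ec M E := by
  intro f hf
  obtain ⟨c, -, hE, rfl⟩ := (mem_Rc_iff M A E).1 hf
  exact cst_mem_Ec M E hE

theorem field_R_total : ∀ e ∈ Ec M E, e ∈ Rc M A E ∨ e⁻¹ ∈ Rc M A E := by
  intro e he
  obtain ⟨c, hE, rfl⟩ := (mem_Ec_iff M E).1 he
  rcases A.mem_or_inv_mem c with h | h
  · exact Or.inl (cst_mem_Rc M A E h hE)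
  · right
    rw [← map_inv₀]
    exact cst_mem_Rc M A E h (inv_mem hE)

theorem field_E_le_L : Ec M E ≤ Lc M := by
  intro f hf
  obtain ⟨c, -, rfl⟩ := (mem_Ec_iff M E).1 hf
  exact cst_mem_Lc M c

theorem field_E_le_F : Ec M E ≤ Fc M E := by
  intro f hf
  exact Subfield.subset_closure (Or.inl hf)

theorem field_L_algebraic : ∀ a ∈ Lc M, IsAlgebraic (Ec M E) a := by
  intro a ha
  obtain ⟨c, rfl⟩ := (mem_Lc_iff M).1 ha
  have hc : IsAlgebraic ℚ c := (AlgebraicClosure.isAlgebraic ℚ).isAlgebraic c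
  obtain ⟨p, hp0, hp⟩ := hc
  -- the ring hom ℚ → Ec
  let φ : ℚ →+* Ec M E := algebraMap ℚ (Ec M E)
  refine ⟨p.map φ, (Polynomial.map_ne_zero_iff φ.injective).2 hp0, ?_⟩
  rw [Polynomial.aeval_def, Polynomial.eval₂_map]
  have hcomp : (algebraMap (Ec M E) (Om M)).comp φ = (algebraMap Qb (Om M)).comp (algebraMap ℚ Qb) :=
    RingHom.ext_rat _ _
  rw [hcomp, ← Polynomial.hom_eval₂]
  rw [Polynomial.aeval_def] at hp
  rw [hp, map_zero]

theorem field_L_algClosed : IsAlgClosed (Lc M) := by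
  let e : Qb ≃+* Lc M := RingEquiv.ofBijective (algebraMap Qb (Om M)).rangeRestrictField
    ⟨(algebraMap Qb (Om M)).rangeRestrictField.injective, fun ⟨y, c, hc⟩ => ⟨c, Subtype.ext hc⟩⟩
  exact IsAlgClosed.of_ringEquiv Qb (Lc M) e

end Fermat.Agent.S18.H456

end
end
-- ===== PACK-END S18/H456/ModBasic.lean

-- ===== PACK-BEGIN S18/H107/IntTools.lean
section



/-!
# helper107 — S18 / M3-T : integrality toolkit for subrings of a field (Mathlib-only)

All objects are sub-objects of one field `Ω` (as in the frozen interface `Alg/Spec.lean`).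

* `intCl107 T`            : the integral closure of the subring `T` in `Ω`, as a subring.
* `isIntegral_iff_exists_poly107` : `IsIntegral T b ↔ ∃ P : Polynomial Ω` monic with coefficients in `T`,
  `P.eval b = 0`.
* `isIntegral_of_coeffs107` : a root of a monic polynomial with coefficients integral over `T` is
  integral over `T`.
* `exists_pow_mul_isIntegral107` (SCALING): `b` integral over `R'[y]`, `R' ≤ intCl T`,
  `e, y·e ∈ intCl T`  ⟹  `∃ D, b·e^D ∈ intCl T`.
* `mem_of_comaximal107` (GLUING): `z·g₁^k₁, z·g₂^k₂ ∈ B`, `a g₁ + b g₂ = 1` in `B` ⟹ `z ∈ B`.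
-/

set_option autoImplicit false

namespace Fermat.Agent.S18.H107

open Polynomial Fermat.Agent.S18.Alg

variable {Ω : Type*} [Field Ω]

/-- The integral closure of a subring `T` of `Ω` in `Ω`, as a subring of `Ω`. -/
def intCl107 (T : Subring Ω) : Subring Ω := (integralClosure T Ω).toSubring

theorem mem_intCl107 {T : Subring Ω} {b : Ω} : b ∈ intCl107 T ↔ IsIntegral T b := Iff.rfl

theorem le_intCl107 (T : Subring Ω) : T ≤ intCl107 T := fun b hb =>
  mem_intCl107.2 (isIntegral_algebraMap (R := T) (A := Ω) (x := ⟨b, hb⟩))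

theorem isIntegral_iff_exists_poly107 (T : Subring Ω) (b : Ω) :
    IsIntegral T b ↔ ∃ P : Polynomial Ω, P.Monic ∧ (∀ i, P.coeff i ∈ T) ∧ P.eval b = 0 := by
  constructor
  · rintro ⟨p, hp, hpb⟩
    refine ⟨p.map (algebraMap T Ω), hp.map _, fun i => ?_, ?_⟩
    · rw [coeff_map]
      exact (p.coeff i).2
    · rw [eval_map]
      exact hpb
  · rintro ⟨P, hP, hc, hb⟩
    have hl : P ∈ lifts (algebraMap T Ω) := by
      rw [lifts_iff_coeff_lifts]
      intro n
      exact ⟨⟨P.coeff n, hc n⟩, rfl⟩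
    obtain ⟨q, hq, -, hqm⟩ := lifts_and_degree_eq_and_monic hl hP
    refine ⟨q, hqm, ?_⟩
    rw [← eval_map, hq]
    exact hb

theorem isIntegral_of_coeffs107 (T : Subring Ω) (P : Polynomial Ω) (hP : P.Monic)
    (hc : ∀ i, P.coeff i ∈ intCl107 T) (b : Ω) (hb : P.eval b = 0) : b ∈ intCl107 T := by
  have hl : P ∈ lifts (algebraMap (integralClosure T Ω) Ω) := by
    rw [lifts_iff_coeff_lifts]
    intro n
    exact ⟨⟨P.coeff n, hc n⟩, rfl⟩
  obtain ⟨q, hq, -, hqm⟩ := lifts_and_degree_eq_and_monic hl hP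
  have hint : IsIntegral (integralClosure T Ω) b := by
    refine ⟨q, hqm, ?_⟩
    rw [← eval_map, hq]
    exact hb
  exact mem_intCl107.2 (isIntegral_trans (R := T) (A := integralClosure T Ω) b hint)

/-- Integral closedness of `intCl107 T` in polynomial form over another subring. -/
theorem isIntegral_mono107 {T T' : Subring Ω} (h : T ≤ intCl107 T') {b : Ω}
    (hb : IsIntegral T b) : b ∈ intCl107 T' := by
  obtain ⟨P, hP, hc, hPb⟩ := (isIntegral_iff_exists_poly107 T b).1 hb
  exact isIntegral_of_coeffs107 T' P hP (fun i => h (hc i)) b hPb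

theorem intCl107_mono {T T' : Subring Ω} (h : T ≤ intCl107 T') : intCl107 T ≤ intCl107 T' :=
  fun _ hb => isIntegral_mono107 h (mem_intCl107.1 hb)

theorem polyRing_le107 {R B : Subring Ω} {x : Ω} (hR : R ≤ B) (hx : x ∈ B) :
    polyRing R x ≤ B := by
  refine Subring.closure_le.2 ?_
  rintro c (hc | hc)
  · exact hR hc
  · rw [Set.mem_singleton_iff] at hc
    rw [hc]
    exact hx

theorem le_polyRing107 (R : Subring Ω) (x : Ω) : R ≤ polyRing R x := fun _ hc =>
  Subring.subset_closure (Or.inl hc)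

theorem self_mem_polyRing107 (R : Subring Ω) (x : Ω) : x ∈ polyRing R x :=
  Subring.subset_closure (Or.inr rfl)

/-- Elements of `R'[y]` become elements of `B` after multiplication by a high power of `e`,
if `e ∈ B` and `y * e ∈ B`. -/
theorem exists_pow_mul_mem107 {R' B : Subring Ω} {y e : Ω} (hR : R' ≤ B) (he : e ∈ B)
    (hye : y * e ∈ B) {c : Ω} (hc : c ∈ polyRing R' y) :
    ∃ d : ℕ, ∀ d', d ≤ d' → c * e ^ d' ∈ B := by
  induction hc using Subring.closure_induction with
  | mem c hc =>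
    rcases hc with hc | hc
    · exact ⟨0, fun d' _ => B.mul_mem (hR hc) (B.pow_mem he d')⟩
    · rw [Set.mem_singleton_iff] at hc
      subst hc
      refine ⟨1, fun d' hd' => ?_⟩
      obtain ⟨k, rfl⟩ := Nat.exists_eq_add_of_le hd'
      have : c * e ^ (1 + k) = (c * e) * e ^ k := by ring
      rw [this]
      exact B.mul_mem hye (B.pow_mem he k)
  | zero => exact ⟨0, fun d' _ => by rw [zero_mul]; exact B.zero_mem⟩
  | one => exact ⟨0, fun d' _ => by rw [one_mul]; exact B.pow_mem he d'⟩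
  | add a b _ _ ha hb =>
    obtain ⟨da, hda⟩ := ha
    obtain ⟨db, hdb⟩ := hb
    refine ⟨max da db, fun d' hd' => ?_⟩
    rw [add_mul]
    exact B.add_mem (hda d' (le_trans (le_max_left _ _) hd')) (hdb d' (le_trans (le_max_right _ _) hd'))
  | neg a _ ha =>
    obtain ⟨da, hda⟩ := ha
    refine ⟨da, fun d' hd' => ?_⟩
    rw [neg_mul]
    exact B.neg_mem (hda d' hd')
  | mul a b _ _ ha hb =>
    obtain ⟨da, hda⟩ := ha
    obtain ⟨db, hdb⟩ := hb
    refine ⟨da + db, fun d' hd' => ?_⟩
    obtain ⟨k, rfl⟩ := Nat.exists_eq_add_of_le hd'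
    have : a * b * e ^ (da + db + k) = (a * e ^ da) * (b * e ^ (db + k)) := by ring
    rw [this]
    exact B.mul_mem (hda da le_rfl) (hdb (db + k) (Nat.le_add_right _ _))

/-- **SCALING LEMMA.**  If `b` is integral over `R'[y]`, `R' ≤ intCl T` and `e`, `y * e` are
integral over `T`, then `b * e ^ D` is integral over `T` for some `D`. -/
theorem exists_pow_mul_isIntegral107 {R' T : Subring Ω} {y e : Ω} (hR : R' ≤ intCl107 T)
    (he : e ∈ intCl107 T) (hye : y * e ∈ intCl107 T) {b : Ω}
    (hb : IsIntegral (polyRing R' y) b) : ∃ D : ℕ, b * e ^ D ∈ intCl107 T := by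
  obtain ⟨P, hP, hc, hPb⟩ := (isIntegral_iff_exists_poly107 _ b).1 hb
  -- a uniform exponent for all coefficients
  have hex : ∀ i, ∃ d : ℕ, ∀ d', d ≤ d' → P.coeff i * e ^ d' ∈ intCl107 T := fun i =>
    exists_pow_mul_mem107 hR he hye (hc i)
  choose d hd using hex
  obtain ⟨D, hD⟩ : ∃ D : ℕ, ∀ i ∈ Finset.range (P.natDegree + 1), d i ≤ D :=
    ⟨(Finset.range (P.natDegree + 1)).sup d, fun i hi => Finset.le_sup hi⟩
  refine ⟨D, ?_⟩
  refine isIntegral_of_coeffs107 T (scaleRoots P (e ^ D)) ((monic_scaleRoots_iff _).2 hP)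
    (fun i => ?_) (b * e ^ D) ?_
  · rw [coeff_scaleRoots]
    rcases lt_trichotomy i P.natDegree with hi | hi | hi
    · rw [← pow_mul]
      refine hd i _ ?_
      have h1 : d i ≤ D := hD i (Finset.mem_range.2 (by omega))
      have h2 : 1 ≤ P.natDegree - i := by omega
      calc d i ≤ D := h1
        _ = D * 1 := (mul_one D).symm
        _ ≤ D * (P.natDegree - i) := Nat.mul_le_mul_left D h2
    · subst hi
      rw [Nat.sub_self, pow_zero, mul_one]
      have : P.coeff P.natDegree = 1 := hP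
      rw [this]
      exact (intCl107 T).one_mem
    · rw [coeff_eq_zero_of_natDegree_lt hi, zero_mul]
      exact (intCl107 T).zero_mem
  · have h := scaleRoots_eval₂_mul (p := P) (RingHom.id Ω) b (e ^ D)
    rw [eval₂_id, eval₂_id, RingHom.id_apply, hPb, mul_zero] at h
    rw [mul_comm]
    exact h

/-- **GLUING over two comaximal opens.** -/
theorem mem_of_comaximal107 (B : Subring Ω) (z g₁ g₂ a b : Ω) (hg₁ : g₁ ∈ B) (hg₂ : g₂ ∈ B)
    (ha : a ∈ B) (hb : b ∈ B) (hab : a * g₁ + b * g₂ = 1) (k₁ k₂ : ℕ)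
    (h₁ : z * g₁ ^ k₁ ∈ B) (h₂ : z * g₂ ^ k₂ ∈ B) : z ∈ B := by
  have hcop : IsCoprime (⟨g₁, hg₁⟩ : B) ⟨g₂, hg₂⟩ :=
    ⟨⟨a, ha⟩, ⟨b, hb⟩, Subtype.ext hab⟩
  obtain ⟨a', b', hab'⟩ := (hcop.pow (m := k₁) (n := k₂))
  have h := congrArg (Subtype.val) hab'
  simp only [Subring.coe_add, Subring.coe_mul, Subring.coe_pow, Subring.coe_one] at h
  have hz : z = (a' : Ω) * (z * g₁ ^ k₁) + (b' : Ω) * (z * g₂ ^ k₂) := by
    calc z = z * 1 := (mul_one z).symm
      _ = z * ((a' : Ω) * g₁ ^ k₁ + (b' : Ω) * g₂ ^ k₂) := by rw [h]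
      _ = _ := by ring
  rw [hz]
  exact B.add_mem (B.mul_mem a'.2 h₁) (B.mul_mem b'.2 h₂)

end Fermat.Agent.S18.H107

end
-- ===== PACK-END S18/H107/IntTools.lean

-- ===== PACK-BEGIN S18/H107/QepTransfer.lean
section




/-!
# helper107 — S18 / M3-T : transfer of the `q`-expansion principle between coordinates

`Qep107 Fc R V w y` is the field `qep_fin` of the frozen `GoodModel` for the coordinate `y`
(`qep_inf` is `Qep107 Fc R V w y⁻¹`).

`qep_transfer107`: if QEP holds for the charts of `y₁` and `y₂` (application: `j`, `j⁻¹`) and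
`Spec R[x]` is covered by two comaximal opens `D(g₁)`, `D(g₂)` on which `x` is "controlled" by
`y₁` resp. `y₂` (`OpenData107`), then QEP holds for the chart of `x`.
No noetherian / S2 / finiteness hypothesis is used.
-/

set_option autoImplicit false

namespace Fermat.Agent.S18.H107

open Polynomial Fermat.Agent.S18.Alg

variable {Ω : Type*} [Field Ω]

/-- The `q`-expansion principle on the chart of the coordinate `y`
(= `GoodModel.qep_fin` with `x := y`). -/
def Qep107 (Fc : Subfield Ω) (R V : Subring Ω) (w y : Ω) : Prop :=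
  ∀ b ∈ chart Fc R y, b * w⁻¹ ∈ V → b * w⁻¹ ∈ chart Fc R y

/-- The open `D(g) ⊆ Spec R[x]` is controlled by the chart of `y`:
* `e` is a unit-like multiplier: `e ∈ V`, `e` and `x·e` integral over `R[y]`;
* `y ∈ R[x][1/g]` : `y * g ^ k` integral over `R[x]`;
* `e⁻¹ ∈ R[x][1/g]` : `e * f = g ^ k'` with `f` integral over `R[x]`. -/
structure OpenData107 (Fc : Subfield Ω) (R V : Subring Ω) (x y g e : Ω) : Prop where
  g_mem : g ∈ polyRing R x
  e_mem_Fc : e ∈ Fc
  e_mem_V : e ∈ V
  e_int : e ∈ intCl107 (polyRing R y)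
  xe_int : x * e ∈ intCl107 (polyRing R y)
  y_loc : ∃ k : ℕ, y * g ^ k ∈ intCl107 (polyRing R x)
  e_inv : ∃ f ∈ intCl107 (polyRing R x), ∃ k : ℕ, e * f = g ^ k

theorem OpenData107.exists_pow_mul_mem {Fc : Subfield Ω} {R V : Subring Ω} {w x y g e : Ω}
    (o : OpenData107 Fc R V x y g e) (q : Qep107 Fc R V w y) {b : Ω} (hb : b ∈ chart Fc R x)
    (hz : b * w⁻¹ ∈ V) : ∃ K : ℕ, b * w⁻¹ * g ^ K ∈ intCl107 (polyRing R x) := by
  obtain ⟨hbF, hbI⟩ := hb
  -- step 1: `b * e ^ D` is integral over `R[y]`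
  obtain ⟨D, hD⟩ := exists_pow_mul_isIntegral107 (R' := R) (T := polyRing R y) (y := x) (e := e)
    ((le_polyRing107 R y).trans (le_intCl107 _)) o.e_int o.xe_int hbI
  have hchart : b * e ^ D ∈ chart Fc R y := ⟨Fc.mul_mem hbF (Fc.pow_mem o.e_mem_Fc D), hD⟩
  -- step 2/3: QEP for `y`
  have hV : b * e ^ D * w⁻¹ ∈ V := by
    have : b * e ^ D * w⁻¹ = b * w⁻¹ * e ^ D := by ring
    rw [this]
    exact V.mul_mem hz (V.pow_mem o.e_mem_V D)
  have h3 := (q _ hchart hV).2
  -- step 4: back to `R[x]`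
  obtain ⟨k, hk⟩ := o.y_loc
  have hgI : g ∈ intCl107 (polyRing R x) := le_intCl107 _ o.g_mem
  obtain ⟨D', hD'⟩ := exists_pow_mul_isIntegral107 (R' := R) (T := polyRing R x) (y := y)
    (e := g ^ k) ((le_polyRing107 R x).trans (le_intCl107 _)) ((intCl107 _).pow_mem hgI k) hk h3
  -- step 5: remove `e ^ D`
  obtain ⟨f, hf, k', hef⟩ := o.e_inv
  refine ⟨k' * D + k * D', ?_⟩
  have : b * w⁻¹ * g ^ (k' * D + k * D') = (b * e ^ D * w⁻¹ * (g ^ k) ^ D') * f ^ D := by
    rw [pow_add, pow_mul, pow_mul, ← hef]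
    ring
  rw [this]
  exact (intCl107 _).mul_mem hD' ((intCl107 _).pow_mem hf D)

/-- **QEP transfer.** -/
theorem qep_transfer107 {Fc : Subfield Ω} {R V : Subring Ω} {w x y₁ y₂ g₁ g₂ e₁ e₂ a b : Ω}
    (hw : w ∈ Fc) (q₁ : Qep107 Fc R V w y₁) (q₂ : Qep107 Fc R V w y₂)
    (o₁ : OpenData107 Fc R V x y₁ g₁ e₁) (o₂ : OpenData107 Fc R V x y₂ g₂ e₂)
    (ha : a ∈ polyRing R x) (hb : b ∈ polyRing R x) (hab : a * g₁ + b * g₂ = 1) :
    Qep107 Fc R V w x := by
  intro c hc hz
  obtain ⟨K₁, h₁⟩ := o₁.exists_pow_mul_mem q₁ hc hz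
  obtain ⟨K₂, h₂⟩ := o₂.exists_pow_mul_mem q₂ hc hz
  refine ⟨Fc.mul_mem hc.1 (Fc.inv_mem hw), ?_⟩
  exact mem_intCl107.1 (mem_of_comaximal107 (intCl107 (polyRing R x)) (c * w⁻¹) g₁ g₂ a b
    (le_intCl107 _ o₁.g_mem) (le_intCl107 _ o₂.g_mem) (le_intCl107 _ ha) (le_intCl107 _ hb)
    hab K₁ K₂ h₁ h₂)

end Fermat.Agent.S18.H107

end
-- ===== PACK-END S18/H107/QepTransfer.lean

-- ===== PACK-BEGIN S18/H107/PolyInt.lean
section




/-!
# helper107 — S18 / M3-T : explicit monic equations (cubic, quartic) give integrality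
-/

set_option autoImplicit false

namespace Fermat.Agent.S18.H107

open Polynomial Fermat.Agent.S18.Alg

variable {Ω : Type*} [Field Ω]

theorem mem_intCl_of_cubic107 (T : Subring Ω) (b a₂ a₁ a₀ : Ω) (h₂ : a₂ ∈ T) (h₁ : a₁ ∈ T)
    (h₀ : a₀ ∈ T) (h : b ^ 3 + a₂ * b ^ 2 + a₁ * b + a₀ = 0) : b ∈ intCl107 T := by
  rw [mem_intCl107]
  refine ⟨X ^ 3 + (C (⟨a₂, h₂⟩ : T) * X ^ 2 + C (⟨a₁, h₁⟩ : T) * X + C (⟨a₀, h₀⟩ : T)),
    monic_X_pow_add (lt_of_le_of_lt degree_quadratic_le (by norm_num)), ?_⟩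
  simp only [eval₂_add, eval₂_mul, eval₂_pow, eval₂_X, eval₂_C]
  show b ^ 3 + (a₂ * b ^ 2 + a₁ * b + a₀) = 0
  linear_combination h

theorem mem_intCl_of_quartic107 (T : Subring Ω) (b a₃ a₂ a₁ a₀ : Ω) (h₃ : a₃ ∈ T) (h₂ : a₂ ∈ T)
    (h₁ : a₁ ∈ T) (h₀ : a₀ ∈ T) (h : b ^ 4 + a₃ * b ^ 3 + a₂ * b ^ 2 + a₁ * b + a₀ = 0) :
    b ∈ intCl107 T := by
  rw [mem_intCl107]
  refine ⟨X ^ 4 + (C (⟨a₃, h₃⟩ : T) * X ^ 3 + C (⟨a₂, h₂⟩ : T) * X ^ 2 + C (⟨a₁, h₁⟩ : T) * X +
      C (⟨a₀, h₀⟩ : T)),
    monic_X_pow_add (lt_of_le_of_lt degree_cubic_le (by norm_num)), ?_⟩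
  simp only [eval₂_add, eval₂_mul, eval₂_pow, eval₂_X, eval₂_C]
  show b ^ 4 + (a₃ * b ^ 3 + a₂ * b ^ 2 + a₁ * b + a₀) = 0
  linear_combination h

theorem natCast_mem_polyRing107 (R : Subring Ω) (x : Ω) (n : ℕ) : (n : Ω) ∈ polyRing R x :=
  natCast_mem _ n

end Fermat.Agent.S18.H107

end
-- ===== PACK-END S18/H107/PolyInt.lean

-- ===== PACK-BEGIN A2/Mod/H189/ChartChangeAux.lean
section







/-!
# Cell A2 / MOD, GOODRED part G3 (helper189): chart change, auxiliary lemmas (Mathlib only)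

* `isIntegral_of_monic_eq`, `isIntegral_of_unit_eq`, `isIntegral_of_cubic`, `isIntegral_of_quartic`:
  integrality over a subalgebra from an explicit equation with unit leading coefficient;
* `icSub A` : the integral closure of a subalgebra `A ⊆ F`, as an `R`-subalgebra of `F`;
* `GoodOn V w A := QepOn V w A ∧ NormalOn V w A` with `GoodOn.loc`, `GoodOn.glue`, `GoodOn.congr`,
  `GoodOn.of_le_of_le`.
-/

set_option autoImplicit false

namespace Fermat.Agent.A2.Mod.H189

open Polynomial

variable {R : Type*} [CommRing R] {F : Type*} [Field F] [Algebra R F]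

/-- Integrality from a monic equation with coefficients in `A`. -/
theorem isIntegral_of_monic_eq {A : Subalgebra R F} {x : F} (n : ℕ) (c : Fin n → F)
    (hc : ∀ i, c i ∈ A) (h : x ^ n + ∑ i : Fin n, c i * x ^ (i : ℕ) = 0) : IsIntegral A x := by
  refine ⟨X ^ n + ∑ i : Fin n, C (⟨c i, hc i⟩ : A) * X ^ (i : ℕ),
    monic_X_pow_add (degree_sum_fin_lt _), ?_⟩
  rw [eval₂_add, eval₂_pow, eval₂_X, eval₂_finsetSum]
  simp only [eval₂_mul, eval₂_C, eval₂_pow, eval₂_X]
  exact h

/-- Integrality from an equation whose leading coefficient is a unit of `A`. -/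
theorem isIntegral_of_unit_eq {A : Subalgebra R F} {x : F} (n : ℕ) {a v : F}
    (hv : v ∈ A) (hav : v * a = 1) (c : Fin n → F)
    (hc : ∀ i, c i ∈ A) (h : a * x ^ n + ∑ i : Fin n, c i * x ^ (i : ℕ) = 0) :
    IsIntegral A x := by
  refine isIntegral_of_monic_eq n (fun i => v * c i) (fun i => A.mul_mem hv (hc i)) ?_
  have h1 := congrArg (fun z => v * z) h
  simp only [mul_zero, mul_add, ← mul_assoc, hav, one_mul, Finset.mul_sum] at h1
  exact h1

/-- Integrality from a cubic equation with unit leading coefficient. -/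
theorem isIntegral_of_cubic {A : Subalgebra R F} {x a v c₂ c₁ c₀ : F}
    (hv : v ∈ A) (hav : v * a = 1) (h₂ : c₂ ∈ A) (h₁ : c₁ ∈ A) (h₀ : c₀ ∈ A)
    (h : a * x ^ 3 + c₂ * x ^ 2 + c₁ * x + c₀ = 0) : IsIntegral A x := by
  refine isIntegral_of_unit_eq 3 hv hav ![c₀, c₁, c₂] ?_ ?_
  · intro i
    fin_cases i <;> simpa
  · rw [Fin.sum_univ_three]
    simp only [Matrix.cons_val_zero, Matrix.cons_val_one, Matrix.cons_val_two, Matrix.head_cons,
      Matrix.tail_cons, Fin.val_zero, Fin.val_one, Fin.val_two, pow_zero, pow_one, mul_one]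
    linear_combination h

/-- Integrality from a quartic equation with unit leading coefficient. -/
theorem isIntegral_of_quartic {A : Subalgebra R F} {x a v c₃ c₂ c₁ c₀ : F}
    (hv : v ∈ A) (hav : v * a = 1) (h₃ : c₃ ∈ A) (h₂ : c₂ ∈ A) (h₁ : c₁ ∈ A) (h₀ : c₀ ∈ A)
    (h : a * x ^ 4 + c₃ * x ^ 3 + c₂ * x ^ 2 + c₁ * x + c₀ = 0) : IsIntegral A x := by
  refine isIntegral_of_unit_eq 4 hv hav ![c₀, c₁, c₂, c₃] ?_ ?_
  · intro i
    fin_cases i <;> simpa
  · rw [Fin.sum_univ_four]
    simp only [Matrix.cons_val_zero, Matrix.cons_val_one, Matrix.cons_val_two,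
      Matrix.cons_val_three, Matrix.head_cons,
      Matrix.tail_cons, Fin.val_zero, Fin.val_one, Fin.val_two, pow_zero, pow_one, mul_one]
    simp
    linear_combination h

/-- The integral closure of a subalgebra `A ⊆ F`, as an `R`-subalgebra of `F`. -/
def icSub (A : Subalgebra R F) : Subalgebra R F :=
  (integralClosure A F).restrictScalars R

theorem mem_icSub {A : Subalgebra R F} {x : F} : x ∈ icSub A ↔ IsIntegral A x := Iff.rfl

theorem le_icSub (A : Subalgebra R F) : A ≤ icSub A := fun _ ha => isIntegral_of_mem ha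

/-- A subalgebra generated by integral elements is integral. -/
theorem isIntegral_of_mem_adjoin {A : Subalgebra R F} {S : Set F}
    (hS : ∀ x ∈ S, IsIntegral A x) {b : F} (hb : b ∈ Algebra.adjoin R S) : IsIntegral A b :=
  (Algebra.adjoin_le (S := icSub A) hS) hb

/-- Elements of `A[1/s]` are integral over `A'` as soon as `A` and `1/s` are. -/
theorem isIntegral_of_mem_locSub {A A' : Subalgebra R F} {s : F}
    (hA : ∀ a ∈ A, IsIntegral A' a) (hs : IsIntegral A' s⁻¹) {b : F} (hb : b ∈ locSub A s) :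
    IsIntegral A' b :=
  isIntegral_of_mem_adjoin (A := A') (by
    rintro x (hx | hx)
    · exact hA x hx
    · rw [Set.mem_singleton_iff] at hx
      rw [hx]
      exact hs) hb

/-- Both halves of `Mod.GoodRedAt` for the chart of `A`. -/
def GoodOn (V : Subring F) (w : F) (A : Subalgebra R F) : Prop :=
  QepOn V w A ∧ NormalOn V w A

theorem GoodOn.congr {V : Subring F} {w : F} {A A' : Subalgebra R F}
    (h : ∀ a ∈ A, IsIntegral A' a) (h' : ∀ a ∈ A', IsIntegral A a) (hg : GoodOn V w A) :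
    GoodOn V w A' :=
  ⟨hg.1.congr h h', hg.2.congr h h'⟩

theorem GoodOn.of_le_of_le {V : Subring F} {w : F} {A A' : Subalgebra R F}
    (h : A ≤ A') (h' : A' ≤ A) (hg : GoodOn V w A) : GoodOn V w A' :=
  hg.congr (fun _ ha => isIntegral_of_mem (h ha)) (fun _ ha => isIntegral_of_mem (h' ha))

theorem GoodOn.loc {V : Subring F} {w : F} {A : Subalgebra R F} (hg : GoodOn V w A) {s : F}
    (hsA : s ∈ A) (hs0 : s ≠ 0) (hsV : s ∈ V) (hsV' : s⁻¹ ∈ V) : GoodOn V w (locSub A s) :=
  ⟨hg.1.loc hsA hs0 hsV, hg.2.loc hsA hs0 hsV hsV'⟩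

theorem GoodOn.glue {V : Subring F} {w : F} {A : Subalgebra R F} {s₁ s₂ α β : F}
    (hAV : ∀ a ∈ A, a ∈ V)
    (hs₁ : s₁ ∈ A) (hs₂ : s₂ ∈ A) (hα : α ∈ A) (hβ : β ∈ A) (h1 : α * s₁ + β * s₂ = 1)
    (hg₁ : GoodOn V w (locSub A s₁)) (hg₂ : GoodOn V w (locSub A s₂)) : GoodOn V w A :=
  ⟨QepOn.glue hs₁ hs₂ hα hβ h1 hg₁.1 hg₂.1, NormalOn.glue hAV hs₁ hs₂ hα hβ h1 hg₁.2 hg₂.2⟩

/-- A subalgebra generated by elements of `V` lies in `V` (`V ⊇ R` a subring). -/
theorem adjoin_subset_subring {V : Subring F} (hRV : ∀ r : R, algebraMap R F r ∈ V) {S : Set F}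
    (hS : ∀ x ∈ S, x ∈ V) : ∀ a ∈ Algebra.adjoin R S, a ∈ V := by
  intro a ha
  induction ha using Algebra.adjoin_induction with
  | mem x hx => exact hS x hx
  | algebraMap r => exact hRV r
  | add x y _ _ hx hy => exact V.add_mem hx hy
  | mul x y _ _ hx hy => exact V.mul_mem hx hy

end Fermat.Agent.A2.Mod.H189

end
-- ===== PACK-END A2/Mod/H189/ChartChangeAux.lean

-- ===== PACK-BEGIN A2/Mod/H189/ChartChangeT2.lean
section


/-!
# Cell A2 / MOD, GOODRED part G3 (helper189): from the `t₂`-charts to the `j`-charts (`q = 3`)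

Abstract setting (Mathlib only): `F` a field over `R`, `2` a unit of `R`, `t, j ∈ F` with
`j t² = (t + 256)³` (`t` = Hauptmodul of `X₀(2)`), `j ≠ 0`; `V` a subring of `F` containing `R`
in which `t` and `t + 256` are units (the Gauss valuation ring), `w : F`.

* `goodOn_j_of_t2`    : `GoodOn` for the chart of `R[t]` ⟹ `GoodOn` for the chart of `R[j]`
  (`IC(R[j]) = IC(R[t])[1/t]`);
* `goodOn_jinv_of_t2` : `GoodOn` for the charts of `R[t]` and `R[1/t]` ⟹ `GoodOn` for the chart of
  `R[1/j]`  (`IC(R[1/j]) = IC(R[u])`, `u = 1/(t+256)`, glued from `IC(R[t])[1/(t+256)]` and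
  `IC(R[1/t])[1/(1+256/t)]`).
-/

set_option autoImplicit false

namespace Fermat.Agent.A2.Mod.H189

variable {R : Type*} [CommRing R] {F : Type*} [Field F] [Algebra R F]

/-- `R[y] ⊆ F`. -/
abbrev Aof (R : Type*) [CommRing R] {F : Type*} [Field F] [Algebra R F] (y : F) :
    Subalgebra R F := Algebra.adjoin R ({y} : Set F)

theorem self_mem_Aof (y : F) : y ∈ Aof R y := Algebra.subset_adjoin rfl

theorem Aof_le {y : F} {B : Subalgebra R F} (hy : y ∈ B) : Aof R y ≤ B :=
  Algebra.adjoin_le (by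
    intro x hx
    rw [Set.mem_singleton_iff] at hx
    rw [hx]
    exact hy)

theorem ofNat_mem_sub (A : Subalgebra R F) (n : ℕ) [n.AtLeastTwo] : (OfNat.ofNat n : F) ∈ A := by
  have : (OfNat.ofNat n : F) = algebraMap R F (OfNat.ofNat n) := (map_ofNat _ n).symm
  rw [this]
  exact A.algebraMap_mem _

section T2

variable {V : Subring F} {w : F} {t j : F} (i : R)

include i in
theorem t2_facts (hi : (256 : R) * i = 1) (hj : j ≠ 0) (hrel : j * t ^ 2 = (t + 256) ^ 3) :
    (256 : F) * algebraMap R F i = 1 ∧ (256 : F) ≠ 0 ∧ t ≠ 0 ∧ t + 256 ≠ 0 := by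
  have h1 : (256 : F) * algebraMap R F i = 1 := by
    have := congrArg (algebraMap R F) hi
    rwa [map_mul, map_one, map_ofNat] at this
  have h2 : (256 : F) ≠ 0 := fun h => by rw [h, zero_mul] at h1; exact zero_ne_one h1
  have h3 : t ≠ 0 := by
    intro h
    rw [h] at hrel
    simp only [ne_eq, OfNat.ofNat_ne_zero, not_false_eq_true, zero_pow, mul_zero, zero_add] at hrel
    exact pow_ne_zero 3 h2 hrel.symm
  refine ⟨h1, h2, h3, fun h => ?_⟩
  rw [h] at hrel
  simp only [ne_eq, OfNat.ofNat_ne_zero, not_false_eq_true, zero_pow, mul_eq_zero,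
    pow_eq_zero_iff] at hrel
  rcases hrel with h | h
  · exact hj h
  · exact h3 h

include i in
/-- **`t₂ → j`, finite chart.** -/
theorem goodOn_j_of_t2 (hi : (256 : R) * i = 1) (hj : j ≠ 0) (hrel : j * t ^ 2 = (t + 256) ^ 3)
    (htV : t ∈ V) (htV' : t⁻¹ ∈ V) (hg : GoodOn V w (Aof R t)) : GoodOn V w (Aof R j) := by
  obtain ⟨hi', h256, ht0, -⟩ := t2_facts i hi hj hrel
  have hjeq : j = (t + 256) ^ 3 * t⁻¹ ^ 2 := by
    field_simp
    exact hrel
  refine (hg.loc (self_mem_Aof t) ht0 htV htV').congr ?_ ?_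
  · -- `R[t, 1/t]` is integral over `R[j]`
    intro a ha
    refine isIntegral_of_mem_locSub (A' := Aof R j) (fun a ha => ?_) ?_ ha
    · refine isIntegral_of_mem_adjoin (A := Aof R j) (S := {t}) (fun x hx => ?_) ha
      rw [Set.mem_singleton_iff] at hx
      subst hx
      -- `t ^ 3 + (768 - j) t ^ 2 + 196608 t + 16777216 = 0`
      refine isIntegral_of_cubic (a := 1) (v := 1) (c₂ := 768 - j) (c₁ := 196608)
        (c₀ := 16777216) (Subalgebra.one_mem _) (one_mul 1)
        (Subalgebra.sub_mem _ (ofNat_mem_sub _ 768) (self_mem_Aof j))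
        (ofNat_mem_sub _ 196608) (ofNat_mem_sub _ 16777216) ?_
      linear_combination -hrel
    · -- `1 / t`
      refine isIntegral_of_cubic (a := 16777216) (v := algebraMap R F (i ^ 3))
        (c₂ := 196608) (c₁ := 768 - j) (c₀ := 1) (Subalgebra.algebraMap_mem _ _) ?_
        (ofNat_mem_sub _ 196608)
        (Subalgebra.sub_mem _ (ofNat_mem_sub _ 768) (self_mem_Aof j)) (Subalgebra.one_mem _) ?_
      · rw [map_pow]
        have : (16777216 : F) = 256 ^ 3 := by norm_num
        rw [this, ← mul_pow, mul_comm, hi', one_pow]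
      · field_simp
        linear_combination -hrel
  · -- `R[j] ⊆ R[t, 1/t]`
    intro a ha
    refine isIntegral_of_mem (Aof_le (B := locSub (Aof R t) t) ?_ ha)
    rw [hjeq]
    refine Subalgebra.mul_mem _ (Subalgebra.pow_mem _ (Subalgebra.add_mem _
      (le_locSub _ _ (self_mem_Aof t)) (ofNat_mem_sub _ 256)) 3)
      (Subalgebra.pow_mem _ (inv_mem_locSub _ _) 2)

include i in
/-- **`t₂ → j`, chart at infinity.** -/
theorem goodOn_jinv_of_t2 (hi : (256 : R) * i = 1) (hj : j ≠ 0)
    (hrel : j * t ^ 2 = (t + 256) ^ 3) (hRV : ∀ r : R, algebraMap R F r ∈ V)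
    (htV : t ∈ V) (htV' : t⁻¹ ∈ V) (huV : (t + 256)⁻¹ ∈ V)
    (hg : GoodOn V w (Aof R t)) (hg' : GoodOn V w (Aof R t⁻¹)) : GoodOn V w (Aof R j⁻¹) := by
  obtain ⟨hi', h256, ht0, htu0⟩ := t2_facts i hi hj hrel
  have h256V : (256 : F) ∈ V := by
    have := hRV 256
    rwa [map_ofNat] at this
  set u : F := (t + 256)⁻¹ with hu
  have hu0 : u ≠ 0 := inv_ne_zero htu0
  have htu : t * u = 1 - 256 * u := by
    rw [hu]
    field_simp
    ring
  have hjinv : j⁻¹ = (1 - 256 * u) ^ 2 * u := by
    rw [← htu, hu]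
    field_simp
    linear_combination -hrel
  have h1u0 : 1 - 256 * u ≠ 0 := by
    rw [← htu]
    exact mul_ne_zero ht0 hu0
  have h1t0 : 1 + 256 * t⁻¹ ≠ 0 := by
    have : 1 + 256 * t⁻¹ = (t + 256) * t⁻¹ := by field_simp
    rw [this]
    exact mul_ne_zero htu0 (inv_ne_zero ht0)
  have hinv1 : (1 - 256 * u)⁻¹ = 1 + 256 * t⁻¹ := by
    rw [← htu, hu]
    field_simp
  have hinv2 : (1 + 256 * t⁻¹)⁻¹ = 1 - 256 * u := by
    rw [← hinv1, inv_inv]
  -- the chart of `R[u]`
  have hgu : GoodOn V w (Aof R u) := by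
    refine GoodOn.glue (s₁ := u) (s₂ := 1 - 256 * u) (α := 256) (β := 1)
      (adjoin_subset_subring hRV (by
        intro x hx
        rw [Set.mem_singleton_iff] at hx
        rw [hx]
        exact huV))
      (self_mem_Aof u)
      (Subalgebra.sub_mem _ (Subalgebra.one_mem _)
        (Subalgebra.mul_mem _ (ofNat_mem_sub _ 256) (self_mem_Aof u)))
      (ofNat_mem_sub _ 256) (Subalgebra.one_mem _) (by ring) ?_ ?_
    · -- `R[u, 1/u] = R[t, 1/(t+256)]`
      refine (hg.loc (s := t + 256) (Subalgebra.add_mem _ (self_mem_Aof t) (ofNat_mem_sub _ 256))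
        htu0 (V.add_mem htV h256V) huV).of_le_of_le ?_ ?_
      · refine locSub_le (Aof_le ?_) ?_
        · -- `t = 1/u - 256`
          have : t = u⁻¹ - 256 := by rw [hu, inv_inv]; ring
          rw [this]
          exact Subalgebra.sub_mem _ (inv_mem_locSub _ _) (ofNat_mem_sub _ 256)
        · exact le_locSub _ _ (self_mem_Aof u)
      · refine locSub_le (Aof_le ?_) ?_
        · exact inv_mem_locSub _ _
        · rw [hu, inv_inv]
          exact le_locSub _ _ (Subalgebra.add_mem _ (self_mem_Aof t) (ofNat_mem_sub _ 256))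
    · -- `R[u, 1/(1-256u)] = R[1/t, 1/(1+256/t)]`
      refine (hg'.loc (s := 1 + 256 * t⁻¹)
        (Subalgebra.add_mem _ (Subalgebra.one_mem _)
          (Subalgebra.mul_mem _ (ofNat_mem_sub _ 256) (self_mem_Aof t⁻¹)))
        h1t0 (V.add_mem V.one_mem (V.mul_mem h256V htV')) ?_).of_le_of_le ?_ ?_
      · rw [hinv2, ← htu]
        exact V.mul_mem htV huV
      · refine locSub_le (Aof_le ?_) ?_
        · -- `1/t = i ((1 - 256 u)⁻¹ - 1)`
          have : t⁻¹ = algebraMap R F i * ((1 - 256 * u)⁻¹ - 1) := by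
            rw [hinv1]
            linear_combination (-t⁻¹) * hi'
          rw [this]
          exact Subalgebra.mul_mem _ (Subalgebra.algebraMap_mem _ _)
            (Subalgebra.sub_mem _ (inv_mem_locSub _ _) (Subalgebra.one_mem _))
        · rw [hinv2]
          exact le_locSub _ _ (Subalgebra.sub_mem _ (Subalgebra.one_mem _)
            (Subalgebra.mul_mem _ (ofNat_mem_sub _ 256) (self_mem_Aof u)))
      · refine locSub_le (Aof_le ?_) ?_
        · -- `u = (1/t) (1 + 256/t)⁻¹`
          have : u = t⁻¹ * (1 + 256 * t⁻¹)⁻¹ := by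
            rw [hinv2, ← htu]
            field_simp
          rw [this]
          exact Subalgebra.mul_mem _ (le_locSub _ _ (self_mem_Aof t⁻¹)) (inv_mem_locSub _ _)
        · rw [hinv1]
          exact le_locSub _ _ (Subalgebra.add_mem _ (Subalgebra.one_mem _)
            (Subalgebra.mul_mem _ (ofNat_mem_sub _ 256) (self_mem_Aof t⁻¹)))
  -- `IC(R[1/j]) = IC(R[u])`
  refine hgu.congr ?_ ?_
  · intro a ha
    refine isIntegral_of_mem_adjoin (A := Aof R j⁻¹) (S := {u}) (fun x hx => ?_) ha
    rw [Set.mem_singleton_iff] at hx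
    subst hx
    -- `65536 u ^ 3 - 512 u ^ 2 + u - 1/j = 0`
    refine isIntegral_of_cubic (a := 65536) (v := algebraMap R F (i ^ 2))
      (c₂ := -512) (c₁ := 1) (c₀ := -j⁻¹) (Subalgebra.algebraMap_mem _ _) ?_
      (Subalgebra.neg_mem _ (ofNat_mem_sub _ 512)) (Subalgebra.one_mem _)
      (Subalgebra.neg_mem _ (self_mem_Aof j⁻¹)) ?_
    · rw [map_pow]
      have : (65536 : F) = 256 ^ 2 := by norm_num
      rw [this, ← mul_pow, mul_comm, hi', one_pow]
    · rw [hjinv]
      ring
  · intro a ha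
    refine isIntegral_of_mem (Aof_le (B := Aof R u) ?_ ha)
    rw [hjinv]
    exact Subalgebra.mul_mem _ (Subalgebra.pow_mem _ (Subalgebra.sub_mem _ (Subalgebra.one_mem _)
      (Subalgebra.mul_mem _ (ofNat_mem_sub _ 256) (self_mem_Aof u))) 2) (self_mem_Aof u)

end T2

end Fermat.Agent.A2.Mod.H189

end
-- ===== PACK-END A2/Mod/H189/ChartChangeT2.lean

-- ===== PACK-BEGIN S18/H333/Series.lean
section



/-!
# S18 / c3 (helper333): the formal series `E₄`, `Δ`, their `V_p`-images and truncations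
-/

set_option autoImplicit false

namespace Fermat.Agent.S18.H333

open PowerSeries ModularCurve Filter Topology
open scoped PowerSeries.WithPiTopology

/-- formal `E₄` -/
noncomputable def Ez : PowerSeries ℤ := eisenstein4

/-- formal `Δ = q ∏ (1 - q^n)^24` -/
noncomputable def Dz : PowerSeries ℤ := X * etaProd ^ 24

theorem tl_etaProd (n : ℕ) : tl n etaProd = etaLrec n n := by
  rw [← tl_prod_range, tl_ext_iff]
  intro k hk
  have h1 : Tendsto (fun t : Finset ℕ => ∏ i ∈ t, ((1 : PowerSeries ℤ) - X ^ (i + 1)))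
      atTop (𝓝 etaProd) :=
    (PowerSeries.WithPiTopology.multipliable_one_sub_X_pow ℤ).hasProd
  have h2 := ((PowerSeries.WithPiTopology.continuous_coeff ℤ k).tendsto _).comp h1
  rw [nhds_discrete, tendsto_pure] at h2
  obtain ⟨t, ht, htn⟩ := (h2.and (eventually_ge_atTop (Finset.range n))).exists
  simp only [Function.comp_apply] at ht
  rw [← ht]
  have hsplit : ∏ i ∈ t, ((1 : PowerSeries ℤ) - X ^ (i + 1)) =
      (∏ i ∈ t \ Finset.range n, ((1 : PowerSeries ℤ) - X ^ (i + 1))) *
        ∏ i ∈ Finset.range n, ((1 : PowerSeries ℤ) - X ^ (i + 1)) :=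
    (Finset.prod_sdiff htn).symm
  have h3 : tl n (∏ i ∈ t \ Finset.range n, ((1 : PowerSeries ℤ) - X ^ (i + 1))) = tl n 1 := by
    refine tl_prod_of_le n _ fun i hi => ?_
    have := (Finset.mem_sdiff.mp hi).2
    rw [Finset.mem_range] at this
    omega
  have h4 := tl_mul_congr n h3 (rfl : tl n (∏ i ∈ Finset.range n,
    ((1 : PowerSeries ℤ) - X ^ (i + 1))) = _)
  rw [one_mul, ← hsplit] at h4
  exact ((tl_ext_iff n _ _).mp h4 k hk)

theorem tl_Ez (n : ℕ) : tl n Ez =
    (List.range n).map fun k : ℕ => if k = 0 then (1 : ℤ) else 240 * ∑ d ∈ k.divisors, (d : ℤ) ^ 3 := by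
  refine List.map_congr_left fun k _ => ?_
  rw [Ez, eisenstein4, coeff_mk]

theorem tl_Dz (n : ℕ) : tl n Dz = tmul n (tX n) (tpow n (etaLrec n n) 24) := by
  rw [Dz, tl_mul, tl_X, tl_pow, tl_etaProd]

theorem tl_Ez_17 : tl 17 Ez = [1, 240, 2160, 6720, 17520, 30240, 60480, 82560, 140400, 181680,
    272160, 319680, 490560, 527520, 743040, 846720, 1123440] := by
  rw [tl_Ez]; decide +kernel

theorem tl_Dz_17 : tl 17 Dz = [0, 1, -24, 252, -1472, 4830, -6048, -16744, 84480, -113643,
    -115920, 534612, -370944, -577738, 401856, 1217160, 987136] := by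
  rw [tl_Dz]; decide +kernel

end Fermat.Agent.S18.H333

namespace Fermat.Agent.S18.H333

open PowerSeries ModularCurve

/-! ### level 2 -/

/-- `E₄³ Δ Δ₂ - (Δ + 256 Δ₂)³`, `Δ₂ = Δ(q²)` -/
noncomputable def Phi2a : PowerSeries ℤ :=
  Ez ^ 3 * Dz * Vser 2 Dz - (Dz + (256 : ℤ) • Vser 2 Dz) ^ 3

/-- `E₄(q²)³ Δ Δ₂ - (Δ + 16 Δ₂)³` -/
noncomputable def Phi2b : PowerSeries ℤ :=
  Vser 2 Ez ^ 3 * Dz * Vser 2 Dz - (Dz + (16 : ℤ) • Vser 2 Dz) ^ 3

theorem tl_Ez_10 : tl 10 Ez = [1, 240, 2160, 6720, 17520, 30240, 60480, 82560, 140400, 181680] := by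
  rw [tl_Ez]; decide +kernel

theorem tl_Dz_10 : tl 10 Dz = [0, 1, -24, 252, -1472, 4830, -6048, -16744, 84480, -113643] := by
  rw [tl_Dz]; decide +kernel

theorem tl_Phi2a : tl 10 Phi2a = tzero 10 := by
  rw [Phi2a, tl_sub, tl_mul, tl_mul, tl_pow, tl_pow, tl_add, tl_smul, tl_Vser _ _ (by norm_num),
    tl_Dz_10, tl_Ez_10]
  decide +kernel

theorem tl_Phi2b : tl 10 Phi2b = tzero 10 := by
  rw [Phi2b, tl_sub, tl_mul, tl_mul, tl_pow, tl_pow, tl_add, tl_smul, tl_Vser _ _ (by norm_num),
    tl_Vser _ _ (by norm_num), tl_Dz_10, tl_Ez_10]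
  decide +kernel

/-! ### level 3 -/

/-- `Δ² + 196830 Δ Δ₃ + 3^18 Δ₃²` -/
noncomputable def A3a : PowerSeries ℤ :=
  Dz * Dz + (196830 : ℤ) • (Dz * Vser 3 Dz) + (387420489 : ℤ) • (Vser 3 Dz * Vser 3 Dz)

/-- `756 Δ + 19131876 Δ₃` -/
noncomputable def B3a : PowerSeries ℤ := (756 : ℤ) • Dz + (19131876 : ℤ) • Vser 3 Dz

/-- squared form of `(t₃+27)(t₃+243)³ = j t₃³` -/
noncomputable def Phi3a : PowerSeries ℤ :=
  A3a * A3a - (Dz * Vser 3 Dz) * ((Ez ^ 3 - B3a) * (Ez ^ 3 - B3a))

/-- `Δ² + 270 Δ Δ₃ + 729 Δ₃²` -/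
noncomputable def A3b : PowerSeries ℤ :=
  Dz * Dz + (270 : ℤ) • (Dz * Vser 3 Dz) + (729 : ℤ) • (Vser 3 Dz * Vser 3 Dz)

/-- `36 Δ + 756 Δ₃` -/
noncomputable def B3b : PowerSeries ℤ := (36 : ℤ) • Dz + (756 : ℤ) • Vser 3 Dz

/-- squared form of `(t₃+27)(t₃+3)³ = j(q³) t₃` -/
noncomputable def Phi3b : PowerSeries ℤ :=
  A3b * A3b - (Dz * Vser 3 Dz) * ((Vser 3 Ez ^ 3 - B3b) * (Vser 3 Ez ^ 3 - B3b))

theorem tl_Phi3a : tl 17 Phi3a = tzero 17 := by
  rw [Phi3a, A3a, B3a]
  simp only [tl_sub, tl_mul, tl_pow, tl_add, tl_smul, tl_Vser _ _ (show 0 < 3 by norm_num),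
    tl_Dz_17, tl_Ez_17]
  decide +kernel

theorem tl_Phi3b : tl 17 Phi3b = tzero 17 := by
  rw [Phi3b, A3b, B3b]
  simp only [tl_sub, tl_mul, tl_pow, tl_add, tl_smul, tl_Vser _ _ (show 0 < 3 by norm_num),
    tl_Dz_17, tl_Ez_17]
  decide +kernel

end Fermat.Agent.S18.H333

end
-- ===== PACK-END S18/H333/Series.lean

-- ===== PACK-BEGIN S17/H800/DerLocal.lean
section
/-
S17 row, piece G-DIV / DER-1, abstract local core (helper800).

`D` a derivation (additive + Leibniz) of a field `F`, `v` a place of `F/L`, `R ⊆ O_v` a `D`-stable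
subring with `Frac R = F`, `u ∈ R` with `ord_v u > 0` such that every element of `R` of positive
order is `u · a / b` with `a, b ∈ R`, `ord_v b = 0`.  Then

* `ord_v u = 1` (so `O_v` is the localisation of `R` at `m_v ∩ R`), and
* for every `f ≠ 0`:  `D f / f - ord_v f · (D u / u) ∈ O_v`.

Consequences (`ord_le_ord_der`, `ord_sub_one_le_ord_der`): if `D u = 0` then `ord_v (D f) ≥ ord_v f`;
if `D u ∈ O_v` then `ord_v (D f) ≥ ord_v f - 1`, and `D f ∈ O_v` when `ord_v f = 0`.
Proof sketch and use for RIG/DOM: `origin/helper800:coord/S17-DER-helper800.md`.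

The two instances (all hypotheses are elementary properties of the base change `F = L · F1`):

* `GenericSetup v D F1 x` (place of GENERIC type: `ord_v = 0` on `F1ˣ`, `D F1 = 0`, `D L ⊆ L`,
  `F1` algebraic over `K1(x)`, `F = Frac (L · F1)`):
  `GenericSetup.ord_sub_one_le_ord_der`, `GenericSetup.der_mem_of_ord_eq_zero`,
  `GenericSetup.exists_ord_sub_eq_one` (a generic place is unramified over `x`);
* `ConstSetup v D A1 t` (CONSTANT place: `A1` = image of the valuation ring downstairs, `t` a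
  uniformiser downstairs, `A1 = L-constants + t · A1`): `ConstSetup.ord_le_ord_der`.
-/


set_option autoImplicit false
set_option linter.unusedSectionVars false
set_option linter.style.haveILetI false

noncomputable section

open AlgebraicCurve Fermat.Agent.Lib.RR Polynomial

namespace Fermat.Agent.S17.H800

/-- An additive self-map of a commutative ring satisfying the Leibniz rule. -/
structure IsDer {F : Type*} [CommRing F] (D : F →+ F) : Prop where
  leibniz : ∀ f g : F, D (f * g) = f * D g + g * D f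

namespace IsDer

variable {F : Type*} [Field F] {D : F →+ F} (hD : IsDer D)

include hD

theorem map_one : D 1 = 0 := by
  have h := hD.leibniz 1 1
  rw [mul_one, one_mul] at h
  have h2 : D 1 + D 1 = D 1 + 0 := by rw [add_zero]; exact h.symm
  exact add_left_cancel h2

/-- Logarithmic derivative of a product. -/
theorem ld_mul {f g : F} (hf : f ≠ 0) (hg : g ≠ 0) :
    D (f * g) / (f * g) = D f / f + D g / g := by
  rw [hD.leibniz]
  field_simp
  ring

theorem ld_inv {f : F} (hf : f ≠ 0) : D f⁻¹ / f⁻¹ = -(D f / f) := by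
  have h := hD.ld_mul hf (inv_ne_zero hf)
  rw [mul_inv_cancel₀ hf, hD.map_one, zero_div] at h
  rw [eq_neg_iff_add_eq_zero, add_comm]
  exact h.symm

theorem ld_div {f g : F} (hf : f ≠ 0) (hg : g ≠ 0) :
    D (f / g) / (f / g) = D f / f - D g / g := by
  have h : f / g = f * g⁻¹ := div_eq_mul_inv f g
  rw [h, hD.ld_mul hf (inv_ne_zero hg), hD.ld_inv hg, sub_eq_add_neg]

theorem ld_pow {f : F} (hf : f ≠ 0) (n : ℕ) : D (f ^ n) / f ^ n = n * (D f / f) := by
  induction n with
  | zero => simp [hD.map_one]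
  | succ n ih =>
    rw [pow_succ, hD.ld_mul (pow_ne_zero n hf) hf, ih]
    push_cast
    ring

end IsDer

section Local

variable {L F : Type*} [Field L] [Field F] [Algebra L F]

/-- The hypotheses of the abstract local statement. -/
structure DerLocalData (v : Place L F) (D : F →+ F) (R : Subring F) (u : F) : Prop where
  isDer : IsDer D
  le_val : ∀ g ∈ R, g ∈ v.toValuationSubring
  stable : ∀ g ∈ R, D g ∈ R
  frac : ∀ f : F, ∃ g ∈ R, ∃ h ∈ R, h ≠ 0 ∧ f * h = g
  u_mem : u ∈ R
  u_pos : 0 < v.ord u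
  gen : ∀ g ∈ R, 0 < v.ord g → ∃ a ∈ R, ∃ b ∈ R, b ≠ 0 ∧ v.ord b = 0 ∧ g * b = u * a

namespace DerLocalData

variable {v : Place L F} {D : F →+ F} {R : Subring F} {u : F} (H : DerLocalData v D R u)

include H

theorem u_ne_zero : u ≠ 0 := ne_zero_of_ord_ne_zero v H.u_pos.ne'

theorem ord_nonneg {g : F} (hg : g ∈ R) : 0 ≤ v.ord g := ord_nonneg_of_mem v (H.le_val g hg)

/-- Logarithmic derivatives of units of `R` are integral. -/
theorem ld_mem_of_ord_eq_zero {p : F} (hp : p ∈ R) (_hp0 : p ≠ 0) (hord : v.ord p = 0) :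
    D p / p ∈ v.toValuationSubring := by
  rw [div_eq_mul_inv]
  refine mul_mem (H.le_val _ (H.stable p hp)) (mem_of_ord_nonneg v ?_)
  rw [v.ord_inv, hord]
  simp

/-- Factorisation in `R`: `g · b = u ^ k · a` with `a, b` units at `v`. -/
theorem exists_factor (n : ℕ) : ∀ g ∈ R, g ≠ 0 → v.ord g ≤ n →
    ∃ k : ℕ, ∃ a ∈ R, ∃ b ∈ R, a ≠ 0 ∧ b ≠ 0 ∧ v.ord a = 0 ∧ v.ord b = 0 ∧ g * b = u ^ k * a := by
  induction n with
  | zero =>
    intro g hg hg0 hle
    have h0 : v.ord g = 0 := le_antisymm (by simpa using hle) (H.ord_nonneg hg)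
    exact ⟨0, g, hg, 1, R.one_mem, hg0, one_ne_zero, h0, v.ord_one, by simp⟩
  | succ n ih =>
    intro g hg hg0 hle
    rcases (H.ord_nonneg hg).eq_or_lt with h0 | hpos
    · exact ⟨0, g, hg, 1, R.one_mem, hg0, one_ne_zero, h0.symm, v.ord_one, by simp⟩
    · obtain ⟨a, ha, b, hb, hb0, hbord, hab⟩ := H.gen g hg hpos
      have ha0 : a ≠ 0 := by
        rintro rfl
        rw [mul_zero] at hab
        exact (mul_ne_zero hg0 hb0) hab
      have hu0 := H.u_ne_zero
      have h1 : v.ord g = v.ord u + v.ord a := by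
        have := congrArg v.ord hab
        rw [v.ord_mul hg0 hb0, v.ord_mul hu0 ha0, hbord, add_zero] at this
        exact this
      have h2 : v.ord a ≤ n := by
        have := H.u_pos
        push_cast at hle
        omega
      obtain ⟨k, a', ha', b', hb', ha'0, hb'0, ha'ord, hb'ord, hfac⟩ := ih a ha ha0 h2
      refine ⟨k + 1, a', ha', b * b', R.mul_mem hb hb', ha'0, mul_ne_zero hb0 hb'0, ha'ord, ?_, ?_⟩
      · rw [v.ord_mul hb0 hb'0, hbord, hb'ord, add_zero]
      · calc g * (b * b') = (g * b) * b' := by ring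
          _ = u * (a * b') := by rw [hab]; ring
          _ = u ^ (k + 1) * a' := by rw [hfac]; ring

/-- Elements of `R`: order and logarithmic derivative. -/
theorem exists_ord_ld {g : F} (hg : g ∈ R) (hg0 : g ≠ 0) :
    ∃ k : ℕ, v.ord g = k * v.ord u ∧ D g / g - k * (D u / u) ∈ v.toValuationSubring := by
  obtain ⟨k, a, ha, b, hb, ha0, hb0, haord, hbord, hfac⟩ :=
    H.exists_factor (v.ord g).toNat g hg hg0 (by
      rw [Int.toNat_of_nonneg (H.ord_nonneg hg)])
  have hu0 := H.u_ne_zero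
  refine ⟨k, ?_, ?_⟩
  · have := congrArg v.ord hfac
    rw [v.ord_mul hg0 hb0, v.ord_mul (pow_ne_zero k hu0) ha0, hbord, haord, add_zero, add_zero,
      ord_pow] at this
    exact this
  · have h1 : D (g * b) / (g * b) = D (u ^ k * a) / (u ^ k * a) := by rw [hfac]
    rw [H.isDer.ld_mul hg0 hb0, H.isDer.ld_mul (pow_ne_zero k hu0) ha0,
      H.isDer.ld_pow hu0] at h1
    have h2 : D g / g - k * (D u / u) = D a / a - D b / b := by
      rw [sub_eq_sub_iff_add_eq_add, h1]
      ring
    rw [h2]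
    exact sub_mem (H.ld_mem_of_ord_eq_zero ha ha0 haord) (H.ld_mem_of_ord_eq_zero hb hb0 hbord)

/-- All elements of `F`: order and logarithmic derivative. -/
theorem exists_ord_ld' {f : F} (hf : f ≠ 0) :
    ∃ m : ℤ, v.ord f = m * v.ord u ∧ D f / f - m * (D u / u) ∈ v.toValuationSubring := by
  obtain ⟨g, hg, h, hh, hh0, hfh⟩ := H.frac f
  have hg0 : g ≠ 0 := by
    rw [← hfh]
    exact mul_ne_zero hf hh0
  obtain ⟨k, hk, hkld⟩ := H.exists_ord_ld hg hg0
  obtain ⟨l, hl, hlld⟩ := H.exists_ord_ld hh hh0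
  have hfdiv : f = g / h := by
    rw [← hfh, mul_div_cancel_right₀ _ hh0]
  refine ⟨(k : ℤ) - l, ?_, ?_⟩
  · rw [hfdiv, div_eq_mul_inv, v.ord_mul hg0 (inv_ne_zero hh0), v.ord_inv, hk, hl]
    ring
  · rw [hfdiv, H.isDer.ld_div hg0 hh0]
    have : D g / g - D h / h - ((k : ℤ) - (l : ℤ) : ℤ) * (D u / u)
        = (D g / g - k * (D u / u)) - (D h / h - l * (D u / u)) := by
      push_cast
      ring
    rw [this]
    exact sub_mem hkld hlld

/-- `u` is a uniformiser at `v`. -/
theorem ord_u : v.ord u = 1 := by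
  obtain ⟨π, hπ⟩ := IsDiscreteValuationRing.exists_irreducible v.toValuationSubring
  have hπ1 : v.ord (π : F) = 1 := v.ord_coe_irreducible hπ
  have hπ0 : (π : F) ≠ 0 := ne_zero_of_ord_ne_zero v (by rw [hπ1]; exact one_ne_zero)
  obtain ⟨m, hm, -⟩ := H.exists_ord_ld' hπ0
  rw [hπ1] at hm
  have hpos := H.u_pos
  have h1 : v.ord u ∣ 1 := ⟨m, by rw [mul_comm]; exact hm⟩
  exact Int.eq_one_of_dvd_one hpos.le h1

/-- **Abstract DER-1.**  `D f / f - ord_v f · (D u / u) ∈ O_v`. -/
theorem ld_sub_mem {f : F} (hf : f ≠ 0) :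
    D f / f - (v.ord f : ℤ) * (D u / u) ∈ v.toValuationSubring := by
  obtain ⟨m, hm, hmld⟩ := H.exists_ord_ld' hf
  rw [H.ord_u, mul_one] at hm
  rw [hm]
  exact hmld

/-- If `D u = 0` (constant place): `D` does not lower the order. -/
theorem ord_le_ord_der (hDu : D u = 0) {f : F} (hf : f ≠ 0) (hDf : D f ≠ 0) :
    v.ord f ≤ v.ord (D f) := by
  have h := H.ld_sub_mem hf
  rw [hDu, zero_div, mul_zero, sub_zero] at h
  have h1 := ord_nonneg_of_mem v h
  rw [div_eq_mul_inv, v.ord_mul hDf (inv_ne_zero hf), v.ord_inv] at h1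
  omega

/-- If `D u ∈ O_v`: `D` lowers the order by at most one. -/
theorem ord_sub_one_le_ord_der (hDu : D u ∈ v.toValuationSubring) {f : F} (hf : f ≠ 0)
    (hDf : D f ≠ 0) : v.ord f - 1 ≤ v.ord (D f) := by
  have h := H.ld_sub_mem hf
  have hu0 := H.u_ne_zero
  have h2 : (v.ord f : ℤ) * (D u / u) * u ∈ v.toValuationSubring := by
    have : ((v.ord f : ℤ) : F) * (D u / u) * u = ((v.ord f : ℤ) : F) * D u := by
      field_simp
    rw [this]
    exact mul_mem (intCast_mem _ _) hDu
  have h3 : D f / f * u ∈ v.toValuationSubring := by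
    have : D f / f * u = (D f / f - (v.ord f : ℤ) * (D u / u)) * u
        + (v.ord f : ℤ) * (D u / u) * u := by ring
    rw [this]
    exact add_mem (mul_mem h (H.le_val u H.u_mem)) h2
  have h4 := ord_nonneg_of_mem v h3
  rw [v.ord_mul (div_ne_zero hDf hf) hu0, div_eq_mul_inv, v.ord_mul hDf (inv_ne_zero hf),
    v.ord_inv, H.ord_u] at h4
  omega

/-- If `f` is a unit at `v`, then `D f ∈ O_v`. -/
theorem der_mem_of_ord_eq_zero {f : F} (hf : f ≠ 0)
    (hord : v.ord f = 0) : D f ∈ v.toValuationSubring := by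
  have h := H.ld_sub_mem hf
  rw [hord] at h
  simp only [Int.cast_zero, zero_mul, sub_zero] at h
  have hfm : f ∈ v.toValuationSubring := mem_of_ord_nonneg v (by rw [hord])
  have : D f = D f / f * f := by field_simp
  rw [this]
  exact mul_mem h hfm

end DerLocalData

end Local

/-! ### The value map at a place of degree one -/

section Value

variable {L F : Type*} [Field L] [Field F] [Algebra L F]

theorem bijective_algebraMap_residue (v : Place L F) (hv : v.deg = 1) :
    Function.Bijective (algebraMap L v.ResidueField) := by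
  refine ⟨(algebraMap L v.ResidueField).injective, fun y => ?_⟩
  have h1 : (1 : v.ResidueField) ≠ 0 := one_ne_zero
  have hspan := (finrank_eq_one_iff_of_nonzero' (1 : v.ResidueField) h1).mp hv
  obtain ⟨c, hc⟩ := hspan y
  exact ⟨c, by rw [← hc, Algebra.smul_def, mul_one]⟩

/-- The value of a regular function at a place of degree one. -/
def evO (v : Place L F) (hv : v.deg = 1) : v.toValuationSubring →+* L :=
  ((RingEquiv.ofBijective (algebraMap L v.ResidueField)
    (bijective_algebraMap_residue v hv)).symm : v.ResidueField →+* L).comp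
      (IsLocalRing.residue v.toValuationSubring)

theorem evO_algebraMap (v : Place L F) (hv : v.deg = 1) (c : L) :
    evO v hv (algebraMap L v.toValuationSubring c) = c := by
  show (RingEquiv.ofBijective (algebraMap L v.ResidueField)
    (bijective_algebraMap_residue v hv)).symm
      (IsLocalRing.residue v.toValuationSubring (algebraMap L v.toValuationSubring c)) = c
  rw [RingEquiv.symm_apply_eq]
  rfl

theorem evO_eq_zero_iff (v : Place L F) (hv : v.deg = 1) (a : v.toValuationSubring) :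
    evO v hv a = 0 ↔ (a : F) = 0 ∨ 0 < v.ord (a : F) := by
  rw [← mem_maximalIdeal_iff, ← IsLocalRing.residue_eq_zero_iff]
  show (RingEquiv.ofBijective (algebraMap L v.ResidueField)
    (bijective_algebraMap_residue v hv)).symm
      (IsLocalRing.residue v.toValuationSubring a) = 0 ↔ _
  rw [RingEquiv.symm_apply_eq, map_zero]

end Value

/-! ### Elements of positive order, the localisation of a subring at a place -/

section Loc

variable {L F : Type*} [Field L] [Field F] [Algebra L F]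
variable (v : Place L F)

/-- `f` lies in the maximal ideal of `v`. -/
def Pos (f : F) : Prop := f = 0 ∨ 0 < v.ord f

variable {v}

theorem Pos.zero : Pos v (0 : F) := Or.inl rfl

theorem Pos.mem {f : F} (h : Pos v f) : f ∈ v.toValuationSubring := by
  rcases h with rfl | h
  · exact zero_mem _
  · exact mem_of_ord_nonneg v h.le

theorem Pos.add {f g : F} (hf : Pos v f) (hg : Pos v g) : Pos v (f + g) :=
  ord_add_of_le v (n := 1) hf hg

theorem Pos.neg {f : F} (hf : Pos v f) : Pos v (-f) := by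
  rcases hf with rfl | h
  · left; simp
  · right; rwa [ord_neg]

theorem Pos.mul {f g : F} (hf : Pos v f) (hg : g ∈ v.toValuationSubring) : Pos v (f * g) := by
  rcases hf with rfl | h
  · left; simp
  rcases eq_or_ne g 0 with rfl | hg0
  · left; simp
  right
  have hf0 : f ≠ 0 := ne_zero_of_ord_ne_zero v h.ne'
  rw [v.ord_mul hf0 hg0]
  have := ord_nonneg_of_mem v hg
  omega

theorem Pos.sub {f g : F} (hf : Pos v f) (hg : Pos v g) : Pos v (f - g) := by
  rw [sub_eq_add_neg]
  exact hf.add hg.neg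

theorem Pos.eq_zero_of_algebraMap {c : L} (h : Pos v (algebraMap L F c)) : c = 0 := by
  rcases h with h | h
  · exact (_root_.map_eq_zero _).mp h
  · rw [ord_algebraMap] at h
    exact absurd h (lt_irrefl 0)

/-- a nonzero constant plus an element of positive order is a unit at `v` -/
theorem ord_const_add {c : L} (hc : c ≠ 0) {f : F} (hf : Pos v f) :
    algebraMap L F c + f ≠ 0 ∧ v.ord (algebraMap L F c + f) = 0 := by
  have hc' : algebraMap L F c ≠ 0 := (_root_.map_ne_zero _).mpr hc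
  rcases hf with rfl | h
  · rw [add_zero]
    exact ⟨hc', ord_algebraMap v c⟩
  · have hf0 : f ≠ 0 := ne_zero_of_ord_ne_zero v h.ne'
    have h1 : v.ord (algebraMap L F c) < v.ord f := by rw [ord_algebraMap]; exact h
    have h2 := ord_add_eq_of_lt v hc' hf0 h1
    rw [ord_algebraMap] at h2
    refine ⟨fun h0 => ?_, h2⟩
    have : f = -(algebraMap L F c) := by
      rw [eq_neg_iff_add_eq_zero, add_comm]; exact h0
    rw [this, ord_neg, ord_algebraMap] at h
    exact lt_irrefl 0 h

variable (v) (R0 : Subalgebra L F)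

/-- `f` lies in the localisation of `R0` at the elements which are units at `v`. -/
def Loc (f : F) : Prop := ∃ a ∈ R0, ∃ b ∈ R0, b ≠ 0 ∧ v.ord b = 0 ∧ f * b = a

variable {v R0}

theorem Loc.of_mem {f : F} (hf : f ∈ R0) : Loc v R0 f :=
  ⟨f, hf, 1, R0.one_mem, one_ne_zero, v.ord_one, mul_one f⟩

theorem Loc.add {f g : F} (hf : Loc v R0 f) (hg : Loc v R0 g) : Loc v R0 (f + g) := by
  obtain ⟨a, ha, b, hb, hb0, hbo, hab⟩ := hf
  obtain ⟨a', ha', b', hb', hb0', hbo', hab'⟩ := hg
  refine ⟨a * b' + a' * b, R0.add_mem (R0.mul_mem ha hb') (R0.mul_mem ha' hb), b * b',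
    R0.mul_mem hb hb', mul_ne_zero hb0 hb0', ?_, ?_⟩
  · rw [v.ord_mul hb0 hb0', hbo, hbo', add_zero]
  · rw [← hab, ← hab']; ring

theorem Loc.mul {f g : F} (hf : Loc v R0 f) (hg : Loc v R0 g) : Loc v R0 (f * g) := by
  obtain ⟨a, ha, b, hb, hb0, hbo, hab⟩ := hf
  obtain ⟨a', ha', b', hb', hb0', hbo', hab'⟩ := hg
  refine ⟨a * a', R0.mul_mem ha ha', b * b', R0.mul_mem hb hb', mul_ne_zero hb0 hb0', ?_, ?_⟩
  · rw [v.ord_mul hb0 hb0', hbo, hbo', add_zero]
  · rw [← hab, ← hab']; ring

theorem Loc.neg {f : F} (hf : Loc v R0 f) : Loc v R0 (-f) := by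
  obtain ⟨a, ha, b, hb, hb0, hbo, hab⟩ := hf
  exact ⟨-a, R0.neg_mem ha, b, hb, hb0, hbo, by rw [← hab]; ring⟩

theorem Loc.div {f b : F} (hf : Loc v R0 f) (hb : b ∈ R0) (hb0 : b ≠ 0) (hbo : v.ord b = 0) :
    Loc v R0 (f / b) := by
  obtain ⟨a, ha, b', hb', hb0', hbo', hab⟩ := hf
  refine ⟨a, ha, b' * b, R0.mul_mem hb' hb, mul_ne_zero hb0' hb0, ?_, ?_⟩
  · rw [v.ord_mul hb0' hb0, hbo, hbo', add_zero]
  · rw [← hab]; field_simp

theorem Loc.sum {ι : Type*} (s : Finset ι) {f : ι → F} (hf : ∀ i ∈ s, Loc v R0 (f i)) :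
    Loc v R0 (∑ i ∈ s, f i) := by
  classical
  induction s using Finset.induction_on with
  | empty => simpa using Loc.of_mem (v := v) R0.zero_mem
  | insert a s ha ih =>
    rw [Finset.sum_insert ha]
    exact (hf a (Finset.mem_insert_self a s)).add
      (ih fun i hi => hf i (Finset.mem_insert_of_mem hi))

theorem Loc.mem_val (hR0 : ∀ g ∈ R0, g ∈ v.toValuationSubring) {f : F} (hf : Loc v R0 f) :
    f ∈ v.toValuationSubring := by
  obtain ⟨a, ha, b, hb, hb0, hbo, hab⟩ := hf
  have h1 : f = a * b⁻¹ := by rw [← hab]; field_simp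
  rw [h1]
  exact mul_mem (hR0 a ha) (mem_of_ord_nonneg v (by rw [v.ord_inv, hbo]; simp))

theorem ord_unit_add {f g : F} (hf0 : f ≠ 0) (hf : v.ord f = 0) (hg : Pos v g) :
    f + g ≠ 0 ∧ v.ord (f + g) = 0 := by
  rcases hg with rfl | h
  · rw [add_zero]; exact ⟨hf0, hf⟩
  · have hg0 : g ≠ 0 := ne_zero_of_ord_ne_zero v h.ne'
    have h1 : v.ord f < v.ord g := by rw [hf]; exact h
    have h2 := ord_add_eq_of_lt v hf0 hg0 h1
    rw [hf] at h2
    refine ⟨fun h0 => ?_, h2⟩
    have : g = -f := by rw [eq_neg_iff_add_eq_zero, add_comm]; exact h0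
    rw [this, ord_neg, hf] at h
    exact lt_irrefl 0 h

end Loc

/-! ### Congruence to constants modulo `u` -/

section InS

variable {L F : Type*} [Field L] [Field F] [Algebra L F]
variable (v : Place L F) (R0 : Subalgebra L F) (u : F)

/-- `f ≡ c` modulo `u · Loc` for some constant `c ∈ L`. -/
def InS (f : F) : Prop := ∃ c : L, ∃ r, Loc v R0 r ∧ f - algebraMap L F c = u * r

variable {v R0 u}

theorem InS.const (c : L) : InS v R0 u (algebraMap L F c) :=
  ⟨c, 0, Loc.of_mem R0.zero_mem, by simp⟩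

theorem InS.zero : InS v R0 u (0 : F) := by
  simpa using InS.const (v := v) (R0 := R0) (u := u) 0

theorem InS.one : InS v R0 u (1 : F) := by
  simpa using InS.const (v := v) (R0 := R0) (u := u) 1

theorem InS.add {f g : F} (hf : InS v R0 u f) (hg : InS v R0 u g) : InS v R0 u (f + g) := by
  obtain ⟨c, r, hr, h⟩ := hf
  obtain ⟨c', r', hr', h'⟩ := hg
  refine ⟨c + c', r + r', hr.add hr', ?_⟩
  rw [map_add, mul_add, ← h, ← h']
  ring

theorem InS.neg {f : F} (hf : InS v R0 u f) : InS v R0 u (-f) := by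
  obtain ⟨c, r, hr, h⟩ := hf
  refine ⟨-c, -r, hr.neg, ?_⟩
  rw [map_neg, mul_neg, ← h]
  ring

theorem InS.mul (hu : u ∈ R0) {f g : F} (hf : InS v R0 u f) (hg : InS v R0 u g) :
    InS v R0 u (f * g) := by
  obtain ⟨c, r, hr, h⟩ := hf
  obtain ⟨c', r', hr', h'⟩ := hg
  have hc : Loc v R0 (algebraMap L F c) := Loc.of_mem (R0.algebraMap_mem c)
  have hc' : Loc v R0 (algebraMap L F c') := Loc.of_mem (R0.algebraMap_mem c')
  refine ⟨c * c', algebraMap L F c * r' + algebraMap L F c' * r + u * (r * r'),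
    ((hc.mul hr').add (hc'.mul hr)).add ((Loc.of_mem hu).mul (hr.mul hr')), ?_⟩
  have e1 : f = algebraMap L F c + u * r := by rw [← h]; ring
  have e2 : g = algebraMap L F c' + u * r' := by rw [← h']; ring
  rw [e1, e2, map_mul]
  ring

theorem InS.pow (hu : u ∈ R0) {f : F} (hf : InS v R0 u f) (n : ℕ) : InS v R0 u (f ^ n) := by
  induction n with
  | zero => simpa using InS.one (v := v) (R0 := R0) (u := u)
  | succ n ih => rw [pow_succ]; exact ih.mul hu hf

theorem InS.sum {ι : Type*} (s : Finset ι) {f : ι → F} (hf : ∀ i ∈ s, InS v R0 u (f i)) :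
    InS v R0 u (∑ i ∈ s, f i) := by
  classical
  induction s using Finset.induction_on with
  | empty => simpa using InS.zero (v := v) (R0 := R0) (u := u)
  | insert a s ha ih =>
    rw [Finset.sum_insert ha]
    exact (hf a (Finset.mem_insert_self a s)).add
      (ih fun i hi => hf i (Finset.mem_insert_of_mem hi))

theorem InS.loc (hu : u ∈ R0) {f : F} (hf : InS v R0 u f) : Loc v R0 f := by
  obtain ⟨c, r, hr, h⟩ := hf
  have e1 : f = algebraMap L F c + u * r := by rw [← h]; ring
  rw [e1]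
  exact (Loc.of_mem (R0.algebraMap_mem c)).add ((Loc.of_mem hu).mul hr)

/-- The constant of an element of positive order is `0`. -/
theorem InS.exists_mul_of_pos (hR0 : ∀ g ∈ R0, g ∈ v.toValuationSubring) (hupos : Pos v u)
    {f : F} (hf : InS v R0 u f) (hpos : Pos v f) : ∃ r, Loc v R0 r ∧ f = u * r := by
  obtain ⟨c, r, hr, h⟩ := hf
  have h1 : Pos v (algebraMap L F c) := by
    have e : algebraMap L F c = f - u * r := by rw [← h]; ring
    rw [e]
    exact hpos.sub (hupos.mul (hr.mem_val hR0))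
  have hc : c = 0 := h1.eq_zero_of_algebraMap
  refine ⟨r, hr, ?_⟩
  rw [← h, hc, map_zero, sub_zero]

/-- Inverses of units. -/
theorem InS.inv (hR0 : ∀ g ∈ R0, g ∈ v.toValuationSubring) (hupos : Pos v u)
    {f : F} (hf : InS v R0 u f) (hfR : f ∈ R0) (hf0 : f ≠ 0) (hfo : v.ord f = 0) :
    InS v R0 u f⁻¹ := by
  obtain ⟨c, r, hr, h⟩ := hf
  have hc : c ≠ 0 := by
    rintro rfl
    rw [map_zero, sub_zero] at h
    have hp : Pos v f := by rw [h]; exact hupos.mul (hr.mem_val hR0)
    rcases hp with h0 | h0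
    · exact hf0 h0
    · omega
  have hc' : algebraMap L F c ≠ 0 := (_root_.map_ne_zero _).mpr hc
  refine ⟨c⁻¹, -(algebraMap L F c⁻¹ * r) / f,
    (Loc.div ((Loc.of_mem (R0.algebraMap_mem c⁻¹)).mul hr).neg hfR hf0 hfo), ?_⟩
  have e1 : f = algebraMap L F c + u * r := by rw [← h]; ring
  have e2 : u * r = f - algebraMap L F c := h.symm
  rw [map_inv₀]
  field_simp
  rw [e2]
  ring

/-- **Lifting along separable roots.**  If the coefficients of `q` are congruent to constants
modulo `u`, `q h = 0` and `q' h` is a unit at `v`, then `h` is congruent to a constant. -/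
theorem InS.of_root (hR0 : ∀ g ∈ R0, g ∈ v.toValuationSubring) (hv : v.deg = 1)
    (huR : u ∈ R0) (hupos : Pos v u)
    (q : Polynomial R0) (hq : ∀ i, InS v R0 u ((q.coeff i : R0) : F))
    (h : R0) (hroot : q.eval h = 0)
    (hsep0 : ((q.derivative.eval h : R0) : F) ≠ 0)
    (hsep : v.ord ((q.derivative.eval h : R0) : F) = 0) :
    InS v R0 u (h : F) := by
  obtain ⟨c, hc⟩ := exists_const_sub v hv (ord_nonneg_of_mem v (hR0 h h.2))
  have hpos : Pos v ((h : F) - algebraMap L F c) := hc
  set c₀ : R0 := algebraMap L R0 c with hc₀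
  have hc₀F : ((c₀ : R0) : F) = algebraMap L F c := rfl
  set G := q /ₘ (X - C h) with hG
  have hqG : (X - C h) * G = q := by
    have := Polynomial.modByMonic_add_div q (X - C h)
    rwa [Polynomial.modByMonic_X_sub_C_eq_C_eval, hroot, C_0, zero_add] at this
  have hGh : G.eval h = q.derivative.eval h := by
    rw [← hqG, derivative_mul]
    simp
  have e1 : q.eval c₀ = (c₀ - h) * G.eval c₀ := by
    rw [← hqG]
    simp
  obtain ⟨w, hw⟩ : (c₀ - h) ∣ G.eval c₀ - G.eval h := Polynomial.sub_dvd_eval_sub c₀ h G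
  have hposneg : Pos v (((c₀ - h : R0) : R0) : F) := by
    have : (((c₀ - h : R0) : R0) : F) = -((h : F) - algebraMap L F c) := by
      push_cast
      rw [hc₀F]
      ring
    rw [this]
    exact hpos.neg
  have hGc : ((G.eval c₀ : R0) : F) ≠ 0 ∧ v.ord ((G.eval c₀ : R0) : F) = 0 := by
    have e2 : ((G.eval c₀ : R0) : F)
        = ((q.derivative.eval h : R0) : F) + (((c₀ - h : R0) : R0) : F) * (w : F) := by
      rw [← hGh]
      have := congrArg (fun z : R0 => (z : F)) hw
      push_cast at this ⊢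
      rw [← this]
      ring
    rw [e2]
    exact ord_unit_add hsep0 hsep (hposneg.mul (hR0 w w.2))
  have hqc : InS v R0 u ((q.eval c₀ : R0) : F) := by
    rw [Polynomial.eval_eq_sum_range]
    push_cast
    refine InS.sum _ fun i _ => ?_
    exact (hq i).mul huR ((InS.const c).pow huR i)
  have hqcpos : Pos v ((q.eval c₀ : R0) : F) := by
    rw [e1]
    push_cast
    have := hposneg.mul (hR0 _ (G.eval c₀).2)
    push_cast at this
    exact this
  obtain ⟨r, hr, hqr⟩ := hqc.exists_mul_of_pos hR0 hupos hqcpos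
  refine ⟨c, -r / ((G.eval c₀ : R0) : F),
    Loc.div hr.neg (G.eval c₀).2 hGc.1 hGc.2, ?_⟩
  have e3 : ((q.eval c₀ : R0) : F) = (algebraMap L F c - (h : F)) * ((G.eval c₀ : R0) : F) := by
    rw [e1]
    push_cast
    rw [hc₀F]
  rw [e3] at hqr
  have hne := hGc.1
  field_simp
  linear_combination -hqr

end InS

/-! ### The generic case -/

section GenericCase

variable {K1 L F : Type*} [Field K1] [Field L] [Field F] [Algebra K1 L] [Algebra L F]
  [Algebra K1 F] [IsScalarTower K1 L F] [CharZero K1]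

/-- The situation at a place of generic type: `F1 ⊆ F` is the (image of the) function field over
the small constant field `K1 ⊆ L`, the derivation `D` kills `F1` and preserves `L`, the place `v`
of `F / L` is trivial on `F1`, and `F = Frac (L · F1)`. -/
structure GenericSetup (v : Place L F) (D : F →+ F) (F1 : IntermediateField K1 F) (x : F) :
    Prop where
  deg_one : v.deg = 1
  isDer : IsDer D
  der_F1 : ∀ h ∈ F1, D h = 0
  der_const : ∀ c : L, ∃ c' : L, D (algebraMap L F c) = algebraMap L F c'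
  generic : ∀ h ∈ F1, h ≠ 0 → v.ord h = 0
  x_mem : x ∈ F1
  x_nonconst : x ∉ Set.range (algebraMap L F)
  algebraic : ∀ h ∈ F1, IsAlgebraic (IntermediateField.adjoin K1 {x}) h
  frac : ∀ f : F, ∃ g ∈ Algebra.adjoin L (F1 : Set F), ∃ h ∈ Algebra.adjoin L (F1 : Set F),
    h ≠ 0 ∧ f * h = g

namespace GenericSetup

variable {v : Place L F} {D : F →+ F} {F1 : IntermediateField K1 F} {x : F}
  (H : GenericSetup v D F1 x)

include H

theorem F1_mem_val {h : F} (hh : h ∈ F1) : h ∈ v.toValuationSubring := by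
  rcases eq_or_ne h 0 with rfl | h0
  · exact zero_mem _
  · exact mem_of_ord_nonneg v (by rw [H.generic h hh h0])

theorem adjoin_le_val : ∀ g ∈ Algebra.adjoin L (F1 : Set F), g ∈ v.toValuationSubring := by
  intro g hg
  induction hg using Algebra.adjoin_induction with
  | mem h hh => exact H.F1_mem_val hh
  | algebraMap c => exact v.algebraMap_mem' c
  | add f g _ _ hf hg => exact add_mem hf hg
  | mul f g _ _ hf hg => exact mul_mem hf hg

theorem adjoin_stable : ∀ g ∈ Algebra.adjoin L (F1 : Set F),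
    D g ∈ Algebra.adjoin L (F1 : Set F) := by
  intro g hg
  induction hg using Algebra.adjoin_induction with
  | mem h hh =>
    rw [H.der_F1 h hh]
    exact zero_mem _
  | algebraMap c =>
    obtain ⟨c', hc'⟩ := H.der_const c
    rw [hc']
    exact Subalgebra.algebraMap_mem _ c'
  | add f g _ _ hf hg =>
    rw [map_add]
    exact add_mem hf hg
  | mul f g hf' hg' hf hg =>
    rw [H.isDer.leibniz]
    exact add_mem (mul_mem hf' hg) (mul_mem hg' hf)

theorem F1_le_adjoin {h : F} (hh : h ∈ F1) : h ∈ Algebra.adjoin L (F1 : Set F) :=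
  Algebra.subset_adjoin hh

theorem adjoin_simple_le : IntermediateField.adjoin K1 {x} ≤ F1 := by
  rw [IntermediateField.adjoin_le_iff]
  rintro _ rfl
  exact H.x_mem

/-- The value `a = x(P)` and the local parameter `u = x - a`. -/
theorem exists_value : ∃ a : L, Pos v (x - algebraMap L F a) ∧ x - algebraMap L F a ≠ 0 := by
  obtain ⟨a, ha⟩ := exists_const_sub v H.deg_one (ord_nonneg_of_mem v (H.F1_mem_val H.x_mem))
  refine ⟨a, ha, fun h0 => H.x_nonconst ⟨a, ?_⟩⟩
  rw [sub_eq_zero] at h0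
  exact h0.symm

section WithValue

variable {a : L} (ha : Pos v (x - algebraMap L F a))

include ha

theorem u_mem : x - algebraMap L F a ∈ Algebra.adjoin L (F1 : Set F) :=
  sub_mem (H.F1_le_adjoin H.x_mem) (Subalgebra.algebraMap_mem _ a)

theorem inS_x : InS v (Algebra.adjoin L (F1 : Set F)) (x - algebraMap L F a) x :=
  ⟨a, 1, Loc.of_mem (Subalgebra.one_mem _), by ring⟩

/-- Claim A: rational functions of `x` with coefficients in `K1`. -/
theorem inS_of_mem_adjoin_simple {e : F} (he : e ∈ IntermediateField.adjoin K1 {x}) :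
    InS v (Algebra.adjoin L (F1 : Set F)) (x - algebraMap L F a) e := by
  have hu := H.u_mem ha
  induction he using IntermediateField.adjoin_induction with
  | mem y hy =>
    rw [Set.mem_singleton_iff.mp hy]
    exact H.inS_x ha
  | algebraMap k =>
    rw [IsScalarTower.algebraMap_apply K1 L F]
    exact InS.const _
  | add y z _ _ hy hz => exact hy.add hz
  | inv y hy ih =>
    rcases eq_or_ne y 0 with rfl | hy0
    · simpa using InS.zero (v := v) (R0 := Algebra.adjoin L (F1 : Set F))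
        (u := x - algebraMap L F a)
    · have hyF1 : y ∈ F1 := H.adjoin_simple_le hy
      exact ih.inv H.adjoin_le_val ha (H.F1_le_adjoin hyF1) hy0 (H.generic y hyF1 hy0)
  | mul y z _ _ hy hz => exact hy.mul hu hz

/-- (b1): every element of `F1` is congruent to a constant modulo `u`. -/
theorem inS_of_mem_F1 {h : F} (hh : h ∈ F1) :
    InS v (Algebra.adjoin L (F1 : Set F)) (x - algebraMap L F a) h := by
  set E := IntermediateField.adjoin K1 {x} with hE
  set R0 := Algebra.adjoin L (F1 : Set F) with hR0def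
  haveI : CharZero F := charZero_of_injective_algebraMap (algebraMap K1 F).injective
  haveI : CharZero E := charZero_of_injective_algebraMap (algebraMap K1 E).injective
  have hint : IsIntegral E h := (H.algebraic h hh).isIntegral
  set q := minpoly E h with hq
  have hsepq : q.Separable := (minpoly.irreducible hint).separable
  have hER : ∀ e : E, (e : F) ∈ R0 := fun e => H.F1_le_adjoin (H.adjoin_simple_le e.2)
  let ι : E →+* R0 := (algebraMap E F).codRestrict R0 hER
  have hι : ∀ e : E, ((ι e : R0) : F) = (e : F) := fun e => rfl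
  have hcomp : (R0.val : R0 →+* F).comp ι = algebraMap E F := RingHom.ext fun e => rfl
  let h₀ : R0 := ⟨h, H.F1_le_adjoin hh⟩
  have heval : ∀ p : Polynomial E, (((p.map ι).eval h₀ : R0) : F) = aeval h p := by
    intro p
    rw [Polynomial.eval_map]
    have := Polynomial.hom_eval₂ p ι (R0.val : R0 →+* F) h₀
    rw [hcomp] at this
    exact this
  have hroot : (q.map ι).eval h₀ = 0 := by
    apply Subtype.ext
    rw [heval]
    exact minpoly.aeval E h
  have hderiv : (((q.map ι).derivative.eval h₀ : R0) : F) = aeval h q.derivative := by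
    rw [Polynomial.derivative_map, heval]
  have hd0 : aeval h q.derivative ≠ 0 :=
    hsepq.aeval_derivative_ne_zero (minpoly.aeval E h)
  have hdF1 : aeval h q.derivative ∈ F1 := by
    rw [Polynomial.aeval_eq_sum_range]
    refine sum_mem fun i _ => ?_
    rw [Algebra.smul_def]
    exact mul_mem (H.adjoin_simple_le (q.derivative.coeff i).2) (pow_mem hh i)
  refine InS.of_root (v := v) (R0 := R0) H.adjoin_le_val H.deg_one (H.u_mem ha) ha (q.map ι)
    (fun i => ?_) h₀ hroot (by rw [hderiv]; exact hd0)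
    (by rw [hderiv]; exact H.generic _ hdF1 hd0)
  rw [Polynomial.coeff_map, hι]
  exact H.inS_of_mem_adjoin_simple ha (q.coeff i).2

/-- (b2): every element of `L · F1` is congruent to a constant modulo `u`. -/
theorem inS_of_mem_adjoin {g : F} (hg : g ∈ Algebra.adjoin L (F1 : Set F)) :
    InS v (Algebra.adjoin L (F1 : Set F)) (x - algebraMap L F a) g := by
  have hu := H.u_mem ha
  induction hg using Algebra.adjoin_induction with
  | mem h hh => exact H.inS_of_mem_F1 ha hh
  | algebraMap c => exact InS.const c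
  | add f g _ _ hf hg => exact hf.add hg
  | mul f g _ _ hf hg => exact hf.mul hu hg

/-- The hypotheses of the abstract local statement hold at a place of generic type. -/
theorem derLocalData (hu0 : x - algebraMap L F a ≠ 0) :
    DerLocalData v D (Algebra.adjoin L (F1 : Set F)).toSubring (x - algebraMap L F a) where
  isDer := H.isDer
  le_val := H.adjoin_le_val
  stable := H.adjoin_stable
  frac := H.frac
  u_mem := H.u_mem ha
  u_pos := ha.resolve_left hu0
  gen := by
    intro g hg hpos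
    obtain ⟨r, ⟨a', ha', b, hb, hb0, hbo, hab⟩, hgr⟩ :=
      (H.inS_of_mem_adjoin ha hg).exists_mul_of_pos H.adjoin_le_val ha (Or.inr hpos)
    refine ⟨a', ha', b, hb, hb0, hbo, ?_⟩
    rw [hgr, mul_assoc, hab]

end WithValue

/-- **DER-1, generic case.**  At a place of generic type a coefficientwise derivation lowers
the order by at most one, and preserves the units. -/
theorem ord_sub_one_le_ord_der {f : F} (hf : f ≠ 0) (hDf : D f ≠ 0) :
    v.ord f - 1 ≤ v.ord (D f) := by
  obtain ⟨a, ha, hu0⟩ := H.exists_value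
  refine (H.derLocalData ha hu0).ord_sub_one_le_ord_der ?_ hf hDf
  obtain ⟨c', hc'⟩ := H.der_const a
  rw [map_sub, H.der_F1 x H.x_mem, zero_sub, hc']
  exact neg_mem (v.algebraMap_mem' c')

theorem der_mem_of_ord_eq_zero {f : F} (hf : f ≠ 0) (hord : v.ord f = 0) :
    D f ∈ v.toValuationSubring := by
  obtain ⟨a, ha, hu0⟩ := H.exists_value
  exact (H.derLocalData ha hu0).der_mem_of_ord_eq_zero hf hord

/-- By-product: a place of generic type is unramified over every nonconstant `x ∈ F1`. -/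
theorem exists_ord_sub_eq_one : ∃ a : L, v.ord (x - algebraMap L F a) = 1 := by
  obtain ⟨a, ha, hu0⟩ := H.exists_value
  exact ⟨a, (H.derLocalData ha hu0).ord_u⟩

end GenericSetup

end GenericCase

/-! ### The constant case -/

section ConstCase

variable {L F : Type*} [Field L] [Field F] [Algebra L F]

/-- The situation at a constant (`K1`-rational) place `v = bcPl Q`: `A1 ⊆ F` is the image of the
valuation ring of `Q`, `t ∈ A1` the image of a uniformiser at `Q`; every element of `A1` is a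
constant plus a multiple of `t`. -/
structure ConstSetup (v : Place L F) (D : F →+ F) (A1 : Subring F) (t : F) : Prop where
  isDer : IsDer D
  der_A1 : ∀ h ∈ A1, D h = 0
  der_const : ∀ c : L, ∃ c' : L, D (algebraMap L F c) = algebraMap L F c'
  le_val : ∀ h ∈ A1, h ∈ v.toValuationSubring
  t_mem : t ∈ A1
  t_pos : 0 < v.ord t
  decomp : ∀ h ∈ A1, ∃ c : L, ∃ h' ∈ A1, h = algebraMap L F c + t * h'
  frac : ∀ f : F, ∃ g ∈ Algebra.adjoin L (A1 : Set F), ∃ h ∈ Algebra.adjoin L (A1 : Set F),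
    h ≠ 0 ∧ f * h = g

namespace ConstSetup

variable {v : Place L F} {D : F →+ F} {A1 : Subring F} {t : F} (H : ConstSetup v D A1 t)

include H

theorem adjoin_le_val : ∀ g ∈ Algebra.adjoin L (A1 : Set F), g ∈ v.toValuationSubring := by
  intro g hg
  induction hg using Algebra.adjoin_induction with
  | mem h hh => exact H.le_val h hh
  | algebraMap c => exact v.algebraMap_mem' c
  | add f g _ _ hf hg => exact add_mem hf hg
  | mul f g _ _ hf hg => exact mul_mem hf hg

theorem adjoin_stable : ∀ g ∈ Algebra.adjoin L (A1 : Set F),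
    D g ∈ Algebra.adjoin L (A1 : Set F) := by
  intro g hg
  induction hg using Algebra.adjoin_induction with
  | mem h hh =>
    rw [H.der_A1 h hh]
    exact zero_mem _
  | algebraMap c =>
    obtain ⟨c', hc'⟩ := H.der_const c
    rw [hc']
    exact Subalgebra.algebraMap_mem _ c'
  | add f g _ _ hf hg =>
    rw [map_add]
    exact add_mem hf hg
  | mul f g hf' hg' hf hg =>
    rw [H.isDer.leibniz]
    exact add_mem (mul_mem hf' hg) (mul_mem hg' hf)

theorem t_mem_adjoin : t ∈ Algebra.adjoin L (A1 : Set F) := Algebra.subset_adjoin H.t_mem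

/-- (a1): every element of `L · A1` is a constant plus a multiple of `t`. -/
theorem exists_decomp : ∀ g ∈ Algebra.adjoin L (A1 : Set F),
    ∃ c : L, ∃ g' ∈ Algebra.adjoin L (A1 : Set F), g = algebraMap L F c + t * g' := by
  intro g hg
  have ht := H.t_mem_adjoin
  induction hg using Algebra.adjoin_induction with
  | mem h hh =>
    obtain ⟨c, h', hh', e⟩ := H.decomp h hh
    exact ⟨c, h', Algebra.subset_adjoin hh', e⟩
  | algebraMap c => exact ⟨c, 0, zero_mem _, by simp⟩
  | add f g _ _ hf hg =>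
    obtain ⟨c, f', hf', e⟩ := hf
    obtain ⟨c', g', hg', e'⟩ := hg
    exact ⟨c + c', f' + g', add_mem hf' hg', by rw [e, e', map_add]; ring⟩
  | mul f g _ _ hf hg =>
    obtain ⟨c, f', hf', e⟩ := hf
    obtain ⟨c', g', hg', e'⟩ := hg
    refine ⟨c * c', algebraMap L F c * g' + algebraMap L F c' * f' + t * (f' * g'),
      add_mem (add_mem (mul_mem (Subalgebra.algebraMap_mem _ c) hg')
        (mul_mem (Subalgebra.algebraMap_mem _ c') hf')) (mul_mem ht (mul_mem hf' hg')), ?_⟩
    rw [e, e', map_mul]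
    ring

/-- The hypotheses of the abstract local statement hold at a constant place. -/
theorem derLocalData : DerLocalData v D (Algebra.adjoin L (A1 : Set F)).toSubring t where
  isDer := H.isDer
  le_val := H.adjoin_le_val
  stable := H.adjoin_stable
  frac := H.frac
  u_mem := H.t_mem_adjoin
  u_pos := H.t_pos
  gen := by
    intro g hg hpos
    obtain ⟨c, g', hg', e⟩ := H.exists_decomp g hg
    have hc : c = 0 := by
      have h1 : Pos v (algebraMap L F c) := by
        have e' : algebraMap L F c = g - t * g' := by rw [e]; ring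
        rw [e']
        have hg1 : Pos v g := Or.inr hpos
        have ht1 : Pos v t := Or.inr H.t_pos
        exact hg1.sub (ht1.mul (H.adjoin_le_val g' hg'))
      exact h1.eq_zero_of_algebraMap
    refine ⟨g', hg', 1, Subalgebra.one_mem _, one_ne_zero, v.ord_one, ?_⟩
    rw [e, hc, map_zero, zero_add, mul_one]

/-- **DER-1, constant case.**  At a constant place a coefficientwise derivation does not lower
the order. -/
theorem ord_le_ord_der {f : F} (hf : f ≠ 0) (hDf : D f ≠ 0) : v.ord f ≤ v.ord (D f) :=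
  H.derLocalData.ord_le_ord_der (H.der_A1 t H.t_mem) hf hDf

end ConstSetup

end ConstCase

end Fermat.Agent.S17.H800

end
end
-- ===== PACK-END S17/H800/DerLocal.lean

-- ===== PACK-BEGIN S17/H770/DerPlace.lean
section



/-!
# S17 / G-DIV piece DER (helper770): derivations and places (abstract layer)

`F/K` a field extension, `v : Place K F`, `D` a derivation of `F` (over `ℤ`).

* `DIntegral D v` : `D (O_v) ⊆ O_v`;  `DStable D v` : moreover `D (𝔪_v) ⊆ 𝔪_v`.
* `dIntegral_of_approx`, `dStable_of_approx` : both properties can be checked on a subring `R`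
  of which `O_v` is a localisation.
* `ord_le_ord_der` : `D f = 0 ∨ ord_v f - 1 ≤ ord_v (D f)` (logarithmic derivatives have at most
  simple poles);  `ord_le_ord_der_of_dStable` : no pole at all at a `D`-stable place.
* `dStable_of_der_eq_zero` : (characteristic `0`) a zero or pole of a `D`-constant function is a
  `D`-stable place.
* `der_const_eq_zero_of_dStable` : at a `D`-stable place the value of a `D`-constant function is
  a constant of the derivation induced on `K`.
-/

set_option autoImplicit false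

open AlgebraicCurve

namespace Fermat.Agent.S17.H770

open Fermat.Agent.Lib.RR

variable {K F : Type*} [Field K] [Field F] [Algebra K F]

/-- `D` maps the valuation ring of `v` into itself. -/
def DIntegral (D : Derivation ℤ F F) (v : Place K F) : Prop :=
  ∀ f : F, 0 ≤ v.ord f → 0 ≤ v.ord (D f)

/-- `D` maps the valuation ring and the maximal ideal of `v` into themselves. -/
def DStable (D : Derivation ℤ F F) (v : Place K F) : Prop :=
  DIntegral D v ∧ ∀ f : F, 0 < v.ord f → D f = 0 ∨ 0 < v.ord (D f)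

section Approx

variable (D : Derivation ℤ F F) (v : Place K F)

theorem ord_div_eq (v : Place K F) {a b : F} (ha : a ≠ 0) (hb : b ≠ 0) :
    v.ord (a / b) = v.ord a - v.ord b := by
  rw [div_eq_mul_inv, v.ord_mul ha (inv_ne_zero hb), v.ord_inv]
  ring

/-- `D (a / b) ∈ O_v` when `a, b, D a, D b ∈ O_v` and `b` is a unit at `v`. -/
theorem ord_der_div_nonneg {a b : F} (hb0 : v.ord b = 0)
    (ha : 0 ≤ v.ord a) (hDa : 0 ≤ v.ord (D a)) (hDb : 0 ≤ v.ord (D b)) :
    0 ≤ v.ord (D (a / b)) := by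
  have hbi : b⁻¹ ∈ v.toValuationSubring :=
    mem_of_ord_nonneg v (by rw [v.ord_inv, hb0]; simp)
  have hmem : D (a / b) ∈ v.toValuationSubring := by
    rw [Derivation.leibniz_div, smul_eq_mul, smul_eq_mul, smul_eq_mul]
    exact mul_mem (pow_mem hbi 2) (sub_mem
      (mul_mem (mem_of_ord_nonneg v (by rw [hb0])) (mem_of_ord_nonneg v hDa))
      (mul_mem (mem_of_ord_nonneg v ha) (mem_of_ord_nonneg v hDb)))
  exact ord_nonneg_of_mem v hmem

/-- `D` preserves `O_v` as soon as it does so on a set `R` of which `O_v` is a localisation. -/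
theorem dIntegral_of_approx (R : Set F)
    (hR : ∀ a ∈ R, 0 ≤ v.ord a → 0 ≤ v.ord (D a))
    (happ : ∀ f : F, 0 ≤ v.ord f → ∃ a ∈ R, ∃ b ∈ R, b ≠ 0 ∧ v.ord b = 0 ∧ 0 ≤ v.ord a ∧
      f = a / b) :
    DIntegral D v := by
  intro f hf
  obtain ⟨a, haR, b, hbR, hb, hb0, ha, rfl⟩ := happ f hf
  exact ord_der_div_nonneg D v hb0 ha (hR a haR ha) (hR b hbR hb0.ge)

/-- `D` preserves `𝔪_v` as soon as it does so on a set `R` of which `O_v` is a localisation. -/
theorem dStable_of_approx (R : Set F)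
    (hR : ∀ a ∈ R, 0 ≤ v.ord a → 0 ≤ v.ord (D a))
    (hRm : ∀ a ∈ R, 0 < v.ord a → D a = 0 ∨ 0 < v.ord (D a))
    (happ : ∀ f : F, 0 ≤ v.ord f → ∃ a ∈ R, ∃ b ∈ R, b ≠ 0 ∧ v.ord b = 0 ∧ 0 ≤ v.ord a ∧
      f = a / b) :
    DStable D v := by
  refine ⟨dIntegral_of_approx D v R hR happ, fun f hf => ?_⟩
  obtain ⟨a, haR, b, hbR, hb, hb0, ha, rfl⟩ := happ f hf.le
  have ha0 : a ≠ 0 := by
    rintro rfl
    simp at hf
  have hapos : 0 < v.ord a := by
    rw [ord_div_eq v ha0 hb, hb0, sub_zero] at hf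
    exact hf
  by_cases h0 : D (a / b) = 0
  · exact Or.inl h0
  right
  -- D (a/b) = (D a) / b - (a / b) * (D b / b)
  have hbi : v.ord b⁻¹ = 0 := by rw [v.ord_inv, hb0]; simp
  have hDb : 0 ≤ v.ord (D b) := hR b hbR hb0.ge
  have hkey : D (a / b) = D a * b⁻¹ + -(a * (b⁻¹ ^ 2 * D b)) := by
    rw [Derivation.leibniz_div, smul_eq_mul, smul_eq_mul, smul_eq_mul]
    field_simp
    ring
  have h1 : D a * b⁻¹ = 0 ∨ 1 ≤ v.ord (D a * b⁻¹) := by
    rcases hRm a haR hapos with h | h
    · left; rw [h, zero_mul]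
    · right
      have hDa0 : D a ≠ 0 := ne_zero_of_ord_ne_zero v h.ne'
      rw [v.ord_mul hDa0 (inv_ne_zero hb), hbi, add_zero]
      omega
  have h2 : -(a * (b⁻¹ ^ 2 * D b)) = 0 ∨ 1 ≤ v.ord (-(a * (b⁻¹ ^ 2 * D b))) := by
    by_cases hDb0 : D b = 0
    · left; rw [hDb0]; simp
    · right
      rw [ord_neg, v.ord_mul ha0 (mul_ne_zero (pow_ne_zero 2 (inv_ne_zero hb)) hDb0),
        v.ord_mul (pow_ne_zero 2 (inv_ne_zero hb)) hDb0, ord_pow, hbi]
      push_cast
      omega
  have h3 := ord_add_of_le v h1 h2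
  rw [← hkey] at h3
  rcases h3 with h3 | h3
  · exact absurd h3 h0
  · omega

end Approx

section LogDer

variable (D : Derivation ℤ F F) (v : Place K F)

/-- `D (π ^ n) = n π ^ (n-1) D π` for integer exponents. -/
theorem der_zpow (π : F) (hπ : π ≠ 0) (n : ℤ) :
    D (π ^ n) = (n : F) * π ^ (n - 1) * D π := by
  induction n using Int.induction_on with
  | zero => simp
  | succ k ih =>
      have h1 : π ^ ((k : ℤ) + 1) = π ^ (k : ℤ) * π := zpow_add_one₀ hπ _
      rw [h1, Derivation.leibniz, ih, smul_eq_mul, smul_eq_mul, add_sub_cancel_right]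
      have h2 : π ^ (k : ℤ) = π ^ ((k : ℤ) - 1) * π := by
        rw [← zpow_add_one₀ hπ, sub_add_cancel]
      rw [h2]
      push_cast
      ring
  | pred k ih =>
      have h1 : π ^ (-(k : ℤ) - 1) = π ^ (-(k : ℤ)) * π⁻¹ := zpow_sub_one₀ hπ _
      rw [h1, Derivation.leibniz, ih, Derivation.leibniz_inv, smul_eq_mul, smul_eq_mul,
        smul_eq_mul]
      have h2 : π ^ (-(k : ℤ) - 1 - 1) = π ^ (-(k : ℤ)) * π⁻¹ * π⁻¹ := by
        rw [zpow_sub_one₀ hπ, zpow_sub_one₀ hπ]
      have h3 : π ^ (-(k : ℤ) - 1) = π ^ (-(k : ℤ)) * π⁻¹ := zpow_sub_one₀ hπ _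
      rw [h2, h3]
      push_cast
      ring

theorem ord_intCast_mul (v : Place K F) [CharZero F] (n : ℤ) (hn : n ≠ 0) {x : F} (hx : x ≠ 0) :
    v.ord ((n : F) * x) = v.ord x := by
  have h1 : (n : F) = algebraMap K F (n : K) := (map_intCast _ n).symm
  have h2 : (n : F) ≠ 0 := by exact_mod_cast hn
  rw [v.ord_mul h2 hx, h1, ord_algebraMap, zero_add]

/-- `D (u π ^ n) = π ^ (n-1) (π D u + n u D π)`. -/
theorem der_mul_zpow (u π : F) (hπ : π ≠ 0) (n : ℤ) :
    D (u * π ^ n) = π ^ (n - 1) * (π * D u + (n : F) * u * D π) := by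
  rw [Derivation.leibniz, der_zpow D π hπ, smul_eq_mul, smul_eq_mul]
  have h2 : π ^ n = π ^ (n - 1) * π := by
    rw [← zpow_add_one₀ hπ, sub_add_cancel]
  rw [h2]
  ring

/-- Decomposition `f = u π ^ n` with `u` a unit at `v`. -/
theorem exists_unit_mul_zpow' (v : Place K F) {π : F} (hπ : v.ord π = 1) {f : F} (hf : f ≠ 0) :
    ∃ u : F, u ≠ 0 ∧ v.ord u = 0 ∧ f = u * π ^ (v.ord f) := by
  have hπ0 : π ≠ 0 := ne_zero_of_ord_ne_zero v (by rw [hπ]; norm_num)
  refine ⟨f * π ^ (-(v.ord f)), mul_ne_zero hf (zpow_ne_zero _ hπ0), ?_, ?_⟩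
  · rw [v.ord_mul hf (zpow_ne_zero _ hπ0), v.ord_zpow, hπ]
    ring
  · rw [mul_assoc, ← zpow_add₀ hπ0]
    simp

theorem intCast_mem (v : Place K F) (n : ℤ) : (n : F) ∈ v.toValuationSubring := by
  have h1 : (n : F) = algebraMap K F (n : K) := (map_intCast _ n).symm
  rw [h1]
  exact v.algebraMap_mem' _

/-- Logarithmic derivatives have at most simple poles: `ord_v (D f) ≥ ord_v f - 1`. -/
theorem ord_le_ord_der (hD : DIntegral D v) {f : F} (hf : f ≠ 0) :
    D f = 0 ∨ v.ord f - 1 ≤ v.ord (D f) := by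
  by_cases h0 : D f = 0
  · exact Or.inl h0
  right
  obtain ⟨π, hπ⟩ := exists_ord_eq_one v
  have hπ0 : π ≠ 0 := ne_zero_of_ord_ne_zero v (by rw [hπ]; norm_num)
  obtain ⟨u, hu0, hordu, hfu⟩ := exists_unit_mul_zpow' v hπ hf
  have hDu : 0 ≤ v.ord (D u) := hD u hordu.ge
  have hDπ : 0 ≤ v.ord (D π) := hD π (by rw [hπ]; norm_num)
  have hkey : D f = π ^ (v.ord f - 1) * (π * D u + ((v.ord f : ℤ) : F) * u * D π) := by
    conv_lhs => rw [hfu]
    exact der_mul_zpow D u π hπ0 _
  have hin : π * D u + ((v.ord f : ℤ) : F) * u * D π ∈ v.toValuationSubring :=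
    add_mem (mul_mem (mem_of_ord_nonneg v (by rw [hπ]; norm_num))
      (mem_of_ord_nonneg v hDu)) (mul_mem (mul_mem (intCast_mem v _)
      (mem_of_ord_nonneg v hordu.ge)) (mem_of_ord_nonneg v hDπ))
  have hne : π * D u + ((v.ord f : ℤ) : F) * u * D π ≠ 0 := by
    intro h
    rw [h, mul_zero] at hkey
    exact h0 hkey
  have h5 := congrArg v.ord hkey
  rw [v.ord_mul (zpow_ne_zero _ hπ0) hne, v.ord_zpow, hπ] at h5
  have := ord_nonneg_of_mem v hin
  omega

/-- At a `D`-stable place logarithmic derivatives have no pole: `ord_v (D f) ≥ ord_v f`. -/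
theorem ord_le_ord_der_of_dStable (hD : DStable D v) {f : F} (hf : f ≠ 0) :
    D f = 0 ∨ v.ord f ≤ v.ord (D f) := by
  by_cases h0 : D f = 0
  · exact Or.inl h0
  right
  obtain ⟨π, hπ⟩ := exists_ord_eq_one v
  have hπ0 : π ≠ 0 := ne_zero_of_ord_ne_zero v (by rw [hπ]; norm_num)
  obtain ⟨u, hu0, hordu, hfu⟩ := exists_unit_mul_zpow' v hπ hf
  have hDu : 0 ≤ v.ord (D u) := hD.1 u hordu.ge
  have hDπ : D π = 0 ∨ 0 < v.ord (D π) := hD.2 π (by rw [hπ]; norm_num)
  -- D π = π * w with w integral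
  obtain ⟨w, hw, hDπw⟩ : ∃ w : F, w ∈ v.toValuationSubring ∧ D π = π * w := by
    rcases hDπ with h | h
    · exact ⟨0, zero_mem _, by rw [h, mul_zero]⟩
    · refine ⟨D π * π⁻¹, mem_of_ord_nonneg v ?_, by field_simp⟩
      have hDπ0 : D π ≠ 0 := ne_zero_of_ord_ne_zero v h.ne'
      rw [v.ord_mul hDπ0 (inv_ne_zero hπ0), v.ord_inv, hπ]
      omega
  have hkey : D f = π ^ (v.ord f) * (D u + ((v.ord f : ℤ) : F) * u * w) := by
    conv_lhs => rw [hfu]
    rw [der_mul_zpow D u π hπ0, hDπw]
    have h2 : π ^ (v.ord f) = π ^ (v.ord f - 1) * π := by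
      rw [← zpow_add_one₀ hπ0, sub_add_cancel]
    rw [h2]
    ring
  have hin : D u + ((v.ord f : ℤ) : F) * u * w ∈ v.toValuationSubring :=
    add_mem (mem_of_ord_nonneg v hDu) (mul_mem (mul_mem (intCast_mem v _)
      (mem_of_ord_nonneg v hordu.ge)) hw)
  have hne : D u + ((v.ord f : ℤ) : F) * u * w ≠ 0 := by
    intro h
    rw [h, mul_zero] at hkey
    exact h0 hkey
  have h5 := congrArg v.ord hkey
  rw [v.ord_mul (zpow_ne_zero _ hπ0) hne, v.ord_zpow, hπ] at h5
  have := ord_nonneg_of_mem v hin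
  omega

/-- `D`-stability can be checked on one uniformizer. -/
theorem dStable_of_uniformizer (hD : DIntegral D v) {π : F} (hπ : v.ord π = 1)
    (hDπ : D π = 0 ∨ 0 < v.ord (D π)) : DStable D v := by
  refine ⟨hD, fun f hf => ?_⟩
  by_cases h0 : D f = 0
  · exact Or.inl h0
  right
  have hπ0 : π ≠ 0 := ne_zero_of_ord_ne_zero v (by rw [hπ]; norm_num)
  have hf0 : f ≠ 0 := ne_zero_of_ord_ne_zero v hf.ne'
  set g := f * π⁻¹ with hg
  have hg0 : g ≠ 0 := mul_ne_zero hf0 (inv_ne_zero hπ0)
  have hgord : 0 ≤ v.ord g := by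
    rw [hg, v.ord_mul hf0 (inv_ne_zero hπ0), v.ord_inv, hπ]
    omega
  have hfg : f = π * g := by rw [hg]; field_simp
  have hkey : D f = π * D g + g * D π := by
    conv_lhs => rw [hfg]
    rw [Derivation.leibniz, smul_eq_mul, smul_eq_mul]
  have h1 : π * D g = 0 ∨ 1 ≤ v.ord (π * D g) := by
    by_cases hDg : D g = 0
    · left; rw [hDg, mul_zero]
    · right
      rw [v.ord_mul hπ0 hDg, hπ]
      have := hD g hgord
      omega
  have h2 : g * D π = 0 ∨ 1 ≤ v.ord (g * D π) := by
    rcases hDπ with h | h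
    · left; rw [h, mul_zero]
    · right
      have hDπ0 : D π ≠ 0 := ne_zero_of_ord_ne_zero v h.ne'
      rw [v.ord_mul hg0 hDπ0]
      omega
  have h3 := ord_add_of_le v h1 h2
  rw [← hkey] at h3
  rcases h3 with h3 | h3
  · exact absurd h3 h0
  · omega

/-- Characteristic `0`: a zero or pole of a `D`-constant function is a `D`-stable place. -/
theorem dStable_of_der_eq_zero [CharZero F] (hD : DIntegral D v) {f : F} (hDf : D f = 0)
    (hf : v.ord f ≠ 0) : DStable D v := by
  obtain ⟨π, hπ⟩ := exists_ord_eq_one v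
  have hπ0 : π ≠ 0 := ne_zero_of_ord_ne_zero v (by rw [hπ]; norm_num)
  have hf0 : f ≠ 0 := ne_zero_of_ord_ne_zero v hf
  refine dStable_of_uniformizer D v hD hπ ?_
  by_cases hDπ0 : D π = 0
  · exact Or.inl hDπ0
  right
  obtain ⟨u, hu0, hordu, hfu⟩ := exists_unit_mul_zpow' v hπ hf0
  have hDu : 0 ≤ v.ord (D u) := hD u hordu.ge
  have hkey : π ^ (v.ord f - 1) * (π * D u + ((v.ord f : ℤ) : F) * u * D π) = 0 := by
    rw [← der_mul_zpow D u π hπ0, ← hfu, hDf]
  have hkey2 : ((v.ord f : ℤ) : F) * (u * D π) = -(π * D u) := by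
    rcases mul_eq_zero.1 hkey with h | h
    · exact absurd h (zpow_ne_zero _ hπ0)
    · rw [eq_neg_iff_add_eq_zero, ← h]; ring
  have hDu0 : D u ≠ 0 := by
    intro h
    rw [h, mul_zero, neg_zero] at hkey2
    rcases mul_eq_zero.1 hkey2 with h' | h'
    · exact hf (by exact_mod_cast h')
    · rcases mul_eq_zero.1 h' with h'' | h''
      · exact hu0 h''
      · exact hDπ0 h''
  have h4 := congrArg v.ord hkey2
  rw [ord_intCast_mul v _ hf (mul_ne_zero hu0 hDπ0), v.ord_mul hu0 hDπ0, hordu, zero_add,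
    ord_neg, v.ord_mul hπ0 hDu0, hπ] at h4
  omega

/-- At a `D`-stable place the value of a `D`-constant function is a constant of the derivation
`∂` induced by `D` on `K`: if `D f = 0` and `f ≡ c` at `v`, then `∂ c = 0`. -/
theorem der_const_eq_zero_of_dStable (hD : DStable D v) (d : K → K)
    (hd : ∀ c : K, D (algebraMap K F c) = algebraMap K F (d c))
    {f : F} (hDf : D f = 0) {c : K}
    (hc : f - algebraMap K F c = 0 ∨ 0 < v.ord (f - algebraMap K F c)) : d c = 0 := by
  by_contra hdc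
  have h1 : D (f - algebraMap K F c) = -algebraMap K F (d c) := by
    rw [map_sub, hDf, hd, zero_sub]
  have h2 : v.ord (D (f - algebraMap K F c)) = 0 := by
    rw [h1, ord_neg, ord_algebraMap]
  have h3 : D (f - algebraMap K F c) ≠ 0 := by
    rw [h1, neg_ne_zero]
    exact fun h => hdc ((map_eq_zero _).1 h)
  rcases hc with hc | hc
  · rw [hc, map_zero] at h3
    exact h3 rfl
  · rcases hD.2 _ hc with h | h
    · exact h3 h
    · omega

end LogDer

end Fermat.Agent.S17.H770

end
-- ===== PACK-END S17/H770/DerPlace.lean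

-- ===== PACK-BEGIN S17/H200/AutFix.lean
section



/-!
# The fixed field of `Aut(L/k)` for an algebraically closed field `L` of characteristic zero

`mem_range_of_forall_algEquiv_eq`: if `L` is algebraically closed, of characteristic zero, and
`x : L` is fixed by every `k`-automorphism of `L`, then `x ∈ k`.  (No hypothesis on `k`.)

Mathlib + `S29/H32/AutOrbit` (translation of a transcendental element) only.
-/

set_option autoImplicit false

noncomputable section

namespace Fermat.Agent.S17.H200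

open MvPolynomial

variable {k L : Type*} [Field k] [Field L] [Algebra k L]

/-- An element of a purely transcendental extension `k(s)` which is algebraic over `k` lies in
`k`. -/
theorem mem_range_of_isAlgebraic_of_mem_adjoin {s : Set L}
    (hs : AlgebraicIndependent k ((↑) : s → L)) {x : L} (hx : IsAlgebraic k x)
    (hxs : x ∈ IntermediateField.adjoin k s) : x ∈ Set.range (algebraMap k L) := by
  classical
  obtain ⟨r, hr, t, ht, hxrt⟩ := IntermediateField.mem_adjoin_iff_div.mp hxs
  rw [Algebra.adjoin_eq_range] at hr ht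
  obtain ⟨P, hP⟩ := hr
  obtain ⟨Q, hQ'⟩ := ht
  have hP' : aeval ((↑) : s → L) P = r := hP
  have hQ'' : aeval ((↑) : s → L) Q = t := hQ'
  subst hP' hQ''
  clear hP hQ'
  by_cases hQ0 : aeval ((↑) : s → L) Q = 0
  · refine ⟨0, ?_⟩
    rw [hxrt, hQ0, div_zero, map_zero]
  have hQ : Q ≠ 0 := fun h => hQ0 (by rw [h, map_zero])
  -- the field `K' = k(x)` is algebraic over `k`
  let K' := IntermediateField.adjoin k ({x} : Set L)
  have : Algebra.IsAlgebraic k K' := IntermediateField.isAlgebraic_adjoin_simple hx.isIntegral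
  have hind : AlgebraicIndependent K' ((↑) : s → L) := hs.extendScalars K'
  let g : K' := ⟨x, IntermediateField.mem_adjoin_simple_self k x⟩
  let R : MvPolynomial s K' := C g * map (algebraMap k K') Q - map (algebraMap k K') P
  have hR : aeval ((↑) : s → L) R = 0 := by
    have h1 : ∀ T : MvPolynomial s k,
        aeval ((↑) : s → L) (map (algebraMap k K') T) = aeval ((↑) : s → L) T := by
      intro T
      rw [aeval_map_algebraMap]
    simp only [R, map_sub, map_mul, h1, aeval_C]
    have : algebraMap K' L g = x := rfl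
    rw [this, hxrt, div_mul_cancel₀ _ hQ0, sub_self]
  have hR0 : R = 0 := by
    have hinj : Function.Injective (aeval ((↑) : s → L) : MvPolynomial s K' →ₐ[K'] L) := hind
    exact hinj (by rw [hR, map_zero])
  obtain ⟨α, hα⟩ : ∃ α, Q.coeff α ≠ 0 := by
    by_contra hcon
    simp only [not_exists, not_not] at hcon
    exact hQ (MvPolynomial.ext _ _ fun α => by rw [hcon α, coeff_zero])
  have hc := congrArg (coeff α) hR0
  simp only [R, coeff_sub, coeff_C_mul, coeff_map, coeff_zero] at hc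
  have hc' := congrArg (algebraMap K' L) hc
  simp only [map_sub, map_mul, map_zero] at hc'
  have e1 : algebraMap K' L (algebraMap k K' (Q.coeff α)) = algebraMap k L (Q.coeff α) :=
    (IsScalarTower.algebraMap_apply k K' L _).symm
  have e2 : algebraMap K' L (algebraMap k K' (P.coeff α)) = algebraMap k L (P.coeff α) :=
    (IsScalarTower.algebraMap_apply k K' L _).symm
  have e3 : algebraMap K' L g = x := rfl
  rw [e1, e2, e3] at hc'
  have hq : algebraMap k L (Q.coeff α) ≠ 0 := by
    rwa [Ne, map_eq_zero]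
  refine ⟨P.coeff α / Q.coeff α, ?_⟩
  rw [map_div₀]
  field_simp
  linear_combination -hc'

variable [CharZero k] [IsAlgClosed L]

/-- **The fixed field of `Aut(L/k)` is `k`** (`L` algebraically closed, characteristic zero). -/
theorem mem_range_of_forall_algEquiv_eq (x : L) (h : ∀ σ : L ≃ₐ[k] L, σ x = x) :
    x ∈ Set.range (algebraMap k L) := by
  by_cases hx : IsAlgebraic k x
  · obtain ⟨s, hs⟩ := exists_isTranscendenceBasis k L
    let E := IntermediateField.adjoin k s
    have hEalg : Algebra.IsAlgebraic E L := by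
      have h0 := hs.isAlgebraic_field
      rwa [Subtype.range_coe] at h0
    have : CharZero L := charZero_of_injective_algebraMap (algebraMap k L).injective
    have : CharZero E := charZero_of_injective_algebraMap (algebraMap k E).injective
    have : Normal E L := normal_iff.mpr fun y =>
      ⟨(Algebra.IsAlgebraic.isAlgebraic y).isIntegral, IsAlgClosed.splits _⟩
    have : IsGalois E L := ⟨⟩
    have hxE : x ∈ (⊥ : IntermediateField E L) := by
      rw [InfiniteGalois.mem_bot_iff_fixed]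
      intro σ
      exact h (σ.restrictScalars k)
    obtain ⟨e, he⟩ := IntermediateField.mem_bot.mp hxE
    have hxs : x ∈ IntermediateField.adjoin k s := by
      rw [← he]
      exact e.2
    exact mem_range_of_isAlgebraic_of_mem_adjoin hs.1 hx hxs
  · exfalso
    obtain ⟨σ, hσ⟩ := Fermat.Agent.S29.H32.exists_algEquiv_apply_eq_add x hx (1 : k)
    rw [h σ, map_one] at hσ
    exact one_ne_zero (left_eq_add.mp hσ)

end Fermat.Agent.S17.H200

end
end
-- ===== PACK-END S17/H200/AutFix.lean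

-- ===== PACK-BEGIN S37/H99/FrobAt.lean
section


/-!
# S37 (helper99): Frobenius elements exist at EVERY valuation subring of `ℚ̄` over a prime

`Fermat.Agent.S54.exists_frobenius` produces *some* `A`; the same proof works for a given `A`.
Also: two Frobenius elements at `A` differ by an element of the inertia subgroup.
-/

set_option autoImplicit false

namespace Fermat.Agent.S37.H99

open scoped Pointwise
open Fermat.Agent.S54

/-- For every valuation subring `A` of `ℚ̄` over the prime `ℓ` there is a Frobenius element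
at `A`. -/
theorem exists_isFrobeniusAt (ℓ : ℕ) (hℓ : ℓ.Prime)
    (A : ValuationSubring (AlgebraicClosure ℚ)) (hA : A.LiesOverPrime ℓ) :
    ∃ σ : AlgebraicClosure ℚ ≃ₐ[ℚ] AlgebraicClosure ℚ, A.IsFrobeniusAt σ ℓ := by
  have : Algebra.IsAlgebraic ℚ (AlgebraicClosure ℚ) := AlgebraicClosure.isAlgebraic ℚ
  have := primeBelow_isPrime A
  have hℓQ : (ℓ : integralClosure ℤ (AlgebraicClosure ℚ)) ∈ primeBelow A := by
    rw [mem_primeBelow]
    exact hA
  obtain ⟨σ, hσQ', hσF⟩ := exists_frob_integralClosure ℓ hℓ (primeBelow A) hℓQ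
  have hσQ : ∀ x, σ • x ∈ primeBelow A ↔ x ∈ primeBelow A := by
    intro x
    conv_lhs => rw [← hσQ']
    exact Ideal.smul_mem_pointwise_smul_iff
  have key : ∀ τ : AlgebraicClosure ℚ ≃ₐ[ℚ] AlgebraicClosure ℚ,
      (∀ x, τ • x ∈ primeBelow A ↔ x ∈ primeBelow A) → ∀ x ∈ A, τ x ∈ A := by
    intro τ hτ x hx
    obtain ⟨b, s, hb, hs, hsA, hxs⟩ := (mem_valuationSubring_iff A ℓ hℓ hA x).mp hx
    refine (mem_valuationSubring_iff A ℓ hℓ hA (τ x)).mpr
      ⟨τ b, τ s, hb.map τ, hs.map τ, ?_, ?_⟩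
    · exact (hτ ⟨s, hs⟩).not.mpr hsA
    · rw [← map_mul, hxs]
  have hσA : σ ∈ A.decompositionSubgroup ℚ := by
    rw [MulAction.mem_stabilizer_iff]
    ext x
    rw [ValuationSubring.mem_smul_pointwise_iff_exists]
    constructor
    · rintro ⟨s, hs, rfl⟩
      exact key σ hσQ s hs
    · intro hx
      refine ⟨σ⁻¹ • x, key σ⁻¹ ?_ x hx, by simp⟩
      intro y
      rw [← hσQ (σ⁻¹ • y)]
      simp
  refine ⟨σ, hσA, ?_⟩
  intro x
  obtain ⟨a, rfl⟩ := IsLocalRing.residue_surjective x
  obtain ⟨b, s, hb, hs, hsA, hxs⟩ := (mem_valuationSubring_iff A ℓ hℓ hA a).mp a.2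
  have hbA : b ∈ A := isIntegral_mem_valuationSubring A hb
  have hsA' : s ∈ A := isIntegral_mem_valuationSubring A hs
  have hint : ∀ (y : AlgebraicClosure ℚ) (hy : IsIntegral ℤ y),
      (⟨σ, hσA⟩ : A.decompositionSubgroup ℚ) •
        IsLocalRing.residue A ⟨y, isIntegral_mem_valuationSubring A hy⟩ =
      (IsLocalRing.residue A ⟨y, isIntegral_mem_valuationSubring A hy⟩) ^ ℓ := by
    intro y hy
    rw [← IsLocalRing.ResidueField.residue_smul, ← map_pow, ← sub_eq_zero, ← map_sub,
      IsLocalRing.residue_eq_zero_iff, ← ValuationSubring.coe_mem_nonunits_iff]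
    exact hσF ⟨y, hy⟩
  have h1 : IsLocalRing.residue A a * IsLocalRing.residue A ⟨s, hsA'⟩ =
      IsLocalRing.residue A ⟨b, hbA⟩ := by
    rw [← map_mul]
    congr 1
    exact Subtype.ext hxs
  have h2 : IsLocalRing.residue A ⟨s, hsA'⟩ ≠ 0 := by
    rw [Ne, IsLocalRing.residue_eq_zero_iff, ← ValuationSubring.coe_mem_nonunits_iff]
    exact hsA
  have h3 := congrArg (fun z => (⟨σ, hσA⟩ : A.decompositionSubgroup ℚ) • z) h1
  simp only [smul_mul'] at h3
  rw [hint s hs, hint b hb, ← h1, mul_pow] at h3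
  exact mul_right_cancel₀ (pow_ne_zero _ h2) h3

end Fermat.Agent.S37.H99

end
-- ===== PACK-END S37/H99/FrobAt.lean

-- ===== PACK-BEGIN S37/H697/Unique.lean
section



/-!
# S37 (helper697): uniqueness of place reductions from a Riemann bound

`RiemannBound K F` : every divisor class of degree `0` of `F/K` contains a divisor of bounded
`ℓ¹`-norm (a consequence of Riemann's inequality: every class of degree `0` contains `E - g • P₀`
with `E ≥ 0` of degree `g`).

Under a Riemann bound, an additive map on divisors which kills principal divisors and is bounded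
on places vanishes on divisors of degree zero (`eq_zero_of_kills_principal`).  This gives the
uniqueness statement of the Prelude (`IsPlaceReductionAlong.eq_or_const_of_agree`,
`IsPlaceReductionAlong.eq_of_agree`) WITHOUT the divisibility hypothesis `hdiv` on `Pic⁰`.
-/

set_option autoImplicit false

noncomputable section

open HahnSeries IntermediateField AlgebraicCurve ModularCurve

namespace Fermat.Agent.S37.H697

section General

variable (K F : Type*) [Field K] [Field F] [Algebra K F]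

/-- Every divisor of degree `0` is linearly equivalent to a divisor of `ℓ¹`-norm `≤ B`. -/
def RiemannBound : Prop :=
  ∃ B : ℕ, ∀ D : Divisor K F, Divisor.degree D = 0 →
    ∃ E : Divisor K F, l1norm E ≤ B ∧ D - E ∈ Divisor.principal (K := K) (F := F)

variable {K F}

/-- Under a Riemann bound, a bounded additive map on divisors killing principal divisors kills
all divisors of degree zero. -/
theorem eq_zero_of_kills_principal {Y : Type*} (hR : RiemannBound K F)
    (δ : Divisor K F →+ (Y →₀ ℤ))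
    (hprin : ∀ D ∈ Divisor.principal (K := K) (F := F), δ D = 0)
    (C : ℕ) (hC : ∀ P : Place K F, l1norm (δ (Finsupp.single P 1)) ≤ C)
    (D : Divisor K F) (hD : Divisor.degree D = 0) : δ D = 0 := by
  obtain ⟨B, hB⟩ := hR
  refine eq_zero_of_bounded δ (Divisor.principal (K := K) (F := F)) hprin C hC D B ?_
  intro n
  have hn : Divisor.degree (n • D) = 0 := by rw [map_nsmul, hD, smul_zero]
  exact hB (n • D) hn

end General

section Uniqueness

variable {L : Type*} [Field L] [Algebra ℚ L] {A : ValuationSubring L}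
variable {k : Type*} [Field k] {π : A →+* k} {N : ℕ}

/-- Two maps on places which agree (after push-forward) on integral principal divisors agree on
all divisors of degree zero.  No divisibility of `Pic⁰` is needed, only a Riemann bound. -/
theorem mapDomain_eq_of_agree
    {r₁ r₂ : Place L (laurentBaseChange L (modularFunctionFieldFull N)) →
      Place k (modularFunctionFieldFullC k N)}
    (hgen : PrincipalGeneratedByIntegral A π N)
    (hagree : ∀ D ∈ integralPrincipalDivisors A π N,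
      Finsupp.mapDomain r₁ D = Finsupp.mapDomain r₂ D)
    (hR : RiemannBound L (laurentBaseChange L (modularFunctionFieldFull N)))
    (D : Divisor L (laurentBaseChange L (modularFunctionFieldFull N)))
    (hD : Divisor.degree D = 0) :
    Finsupp.mapDomain r₁ D = Finsupp.mapDomain r₂ D := by
  classical
  set δ : Divisor L (laurentBaseChange L (modularFunctionFieldFull N)) →+
      Divisor k (modularFunctionFieldFullC k N) :=
    Finsupp.mapDomain.addMonoidHom r₁ - Finsupp.mapDomain.addMonoidHom r₂ with hδ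
  have hδapp : ∀ D, δ D = Finsupp.mapDomain r₁ D - Finsupp.mapDomain r₂ D := fun D => rfl
  have hδprin : ∀ D ∈ Divisor.principal (K := L)
      (F := laurentBaseChange L (modularFunctionFieldFull N)), δ D = 0 := by
    intro D hD
    have hD' := hgen hD
    clear hD
    induction hD' using AddSubgroup.closure_induction with
    | mem E hE => rw [hδapp, hagree E hE, sub_self]
    | zero => exact map_zero δ
    | add E E' _ _ hE hE' => rw [map_add, hE, hE', add_zero]
    | neg E _ hE => rw [map_neg, hE, neg_zero]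
  have hC : ∀ P : Place L (laurentBaseChange L (modularFunctionFieldFull N)),
      l1norm (δ (Finsupp.single P 1)) ≤ 2 := by
    intro P
    rw [hδapp, Finsupp.mapDomain_single, Finsupp.mapDomain_single]
    refine (l1norm_sub_le _ _).trans ?_
    rw [l1norm_single, l1norm_single]
    simp
  have h0 := eq_zero_of_kills_principal hR δ hδprin 2 hC D hD
  rw [hδapp, sub_eq_zero] at h0
  exact h0

/-- Variant of the Prelude's `IsPlaceReductionAlong.eq_or_const_of_agree` with a Riemann bound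
instead of divisibility of `Pic⁰`. -/
theorem eq_or_const_of_agree
    {r₁ r₂ : Place L (laurentBaseChange L (modularFunctionFieldFull N)) →
      Place k (modularFunctionFieldFullC k N)}
    (hgen : PrincipalGeneratedByIntegral A π N)
    (hagree : ∀ D ∈ integralPrincipalDivisors A π N,
      Finsupp.mapDomain r₁ D = Finsupp.mapDomain r₂ D)
    (hdeg : ∀ P : Place L (laurentBaseChange L (modularFunctionFieldFull N)), P.deg = 1)
    (hR : RiemannBound L (laurentBaseChange L (modularFunctionFieldFull N))) :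
    r₁ = r₂ ∨ ∀ P Q, r₁ P = r₁ Q := by
  classical
  have hconst : ∀ P Q : Place L (laurentBaseChange L (modularFunctionFieldFull N)),
      Finsupp.single (r₁ P) (1 : ℤ) - Finsupp.single (r₂ P) 1 =
        Finsupp.single (r₁ Q) 1 - Finsupp.single (r₂ Q) 1 := by
    intro P Q
    have hPQ : Divisor.degree (Finsupp.single P (1 : ℤ) - Finsupp.single Q 1 :
        Divisor L (laurentBaseChange L (modularFunctionFieldFull N))) = 0 := by
      rw [map_sub, Divisor.degree_single, Divisor.degree_single, hdeg, hdeg, sub_self]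
    have h := mapDomain_eq_of_agree hgen hagree hR _ hPQ
    rw [Finsupp.mapDomain_sub, Finsupp.mapDomain_sub, Finsupp.mapDomain_single,
      Finsupp.mapDomain_single, Finsupp.mapDomain_single, Finsupp.mapDomain_single] at h
    exact sub_eq_sub_iff_sub_eq_sub.mpr h
  rw [or_iff_not_imp_left]
  intro hne
  obtain ⟨P₀, hP₀⟩ : ∃ P₀, r₁ P₀ ≠ r₂ P₀ := by
    by_contra hall
    push Not at hall
    exact hne (funext hall)
  have hr₁const : ∀ Q, r₁ Q = r₁ P₀ := by
    intro Q
    have h := congrArg (fun E => E (r₁ P₀)) (hconst Q P₀)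
    simp only [Finsupp.sub_apply, Finsupp.single_apply, if_neg (Ne.symm hP₀)] at h
    by_contra hQ
    rw [if_neg hQ] at h
    split_ifs at h <;> omega
  exact fun P Q => (hr₁const P).trans (hr₁const Q).symm

/-- Variant of the Prelude's `IsPlaceReductionAlong.eq_of_agree` with a Riemann bound instead of
divisibility of `Pic⁰`. -/
theorem eq_of_agree
    {r₁ r₂ : Place L (laurentBaseChange L (modularFunctionFieldFull N)) →
      Place k (modularFunctionFieldFullC k N)}
    (hgen : PrincipalGeneratedByIntegral A π N)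
    (hagree : ∀ D ∈ integralPrincipalDivisors A π N,
      Finsupp.mapDomain r₁ D = Finsupp.mapDomain r₂ D)
    (hdeg : ∀ P : Place L (laurentBaseChange L (modularFunctionFieldFull N)), P.deg = 1)
    (hprin0 : ∀ D ∈ Divisor.principal (K := L)
      (F := laurentBaseChange L (modularFunctionFieldFull N)), Divisor.degree D = 0)
    (hR : RiemannBound L (laurentBaseChange L (modularFunctionFieldFull N)))
    (hnc : ∃ D ∈ Divisor.principal (K := L)
      (F := laurentBaseChange L (modularFunctionFieldFull N)), Finsupp.mapDomain r₁ D ≠ 0) :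
    r₁ = r₂ := by
  rcases eq_or_const_of_agree hgen hagree hdeg hR with h | hconst
  · exact h
  obtain ⟨D, hDprin, hDne⟩ := hnc
  obtain ⟨P₀⟩ : Nonempty (Place L (laurentBaseChange L (modularFunctionFieldFull N))) := by
    by_contra hempty
    rw [not_nonempty_iff] at hempty
    exact hDne (by rw [Subsingleton.elim D 0, Finsupp.mapDomain_zero])
  exfalso
  apply hDne
  have hmapconst : ∀ D : Divisor L (laurentBaseChange L (modularFunctionFieldFull N)),
      Finsupp.mapDomain r₁ D = Finsupp.single (r₁ P₀) (Divisor.degree D) := by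
    intro D
    induction D using Finsupp.induction with
    | zero => simp
    | single_add P n D _ _ ih =>
      rw [Finsupp.mapDomain_add, ih, Finsupp.mapDomain_single, hconst P P₀, map_add,
        Divisor.degree_single, hdeg, Nat.cast_one, mul_one, ← Finsupp.single_add, add_comm]
  rw [hmapconst D, hprin0 D hDprin, Finsupp.single_zero]

end Uniqueness

end Fermat.Agent.S37.H697

end
end
-- ===== PACK-END S37/H697/Unique.lean

-- ===== PACK-BEGIN S37/H697/Equivariant.lean
section



/-!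
# S37 (helper697): Galois-equivariance of place reductions

Let `r` be a place reduction (`IsPlaceReductionAlong` + `PrincipalGeneratedByIntegral`) and let
`σ` be an automorphism of `L` preserving the valuation ring `A` and inducing the automorphism `φ`
on the residue field.  Then `r (σ • P) = Φ_φ • r P` for every place `P`, where `Φ_φ = coeffSL N φ`
is the coefficientwise action of `φ`.  (Inertia: `φ = id`; Frobenius: `φ = Frob`.)

The proof uses the uniqueness of place reductions under a Riemann bound (`Unique.lean`);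
no explicit description of `r` is needed.
-/

set_option autoImplicit false

noncomputable section

open HahnSeries IntermediateField AlgebraicCurve ModularCurve

namespace Fermat.Agent.S37.H697

variable {L : Type*} [Field L] [Algebra ℚ L] {A : ValuationSubring L}
variable {k : Type*} [Field k] {π : A →+* k} {N : ℕ}

/-- The restriction to `A` of an automorphism of `L` preserving `A`. -/
def restrictHom (σ : L ≃ₐ[ℚ] L) (hσ : ∀ a ∈ A, σ a ∈ A) : A →+* A where
  toFun a := ⟨σ a, hσ a a.2⟩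
  map_one' := Subtype.ext (map_one σ)
  map_mul' a b := Subtype.ext (map_mul σ (a : L) (b : L))
  map_zero' := Subtype.ext (map_zero σ)
  map_add' a b := Subtype.ext (map_add σ (a : L) (b : L))

theorem coeffMap_injective_of_injective {R S : Type*} [CommRing R] [CommRing S] (f : R →+* S)
    (hf : Function.Injective f) : Function.Injective (coeffMap f) := by
  intro x y h
  ext n
  apply hf
  have := congrArg (fun z => z.coeff n) h
  simpa using this

/-- Transport of integral principal divisors by an automorphism preserving `A`. -/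
theorem smul_integral_divisor
    {r : Place L (laurentBaseChange L (modularFunctionFieldFull N)) →
      Place k (modularFunctionFieldFullC k N)}
    (hr : IsPlaceReductionAlong A π N r)
    (σ : L ≃ₐ[ℚ] L) (hσ : ∀ a ∈ A, σ a ∈ A)
    (φ : k ≃+* k) (hφ : ∀ a : A, π ⟨σ a, hσ a a.2⟩ = φ (π a))
    {D : Divisor L (laurentBaseChange L (modularFunctionFieldFull N))}
    (hD : D ∈ integralPrincipalDivisors A π N) :
    Finsupp.mapDomain r (arithmeticGalois (modularFunctionFieldFull N) σ • D)
      = coeffSL N φ • Finsupp.mapDomain r D := by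
  obtain ⟨y, hy, hyk, hne, hDy⟩ := hD
  set g := arithmeticGalois (modularFunctionFieldFull N) σ with hg
  set Φ := coeffSL N φ with hΦ
  -- the transported integral function
  set y' : LaurentSeries A := coeffMap (restrictHom σ hσ) y with hy'def
  have h1 : coeffMap A.subtype y' = coeffMap (σ : L →+* L) (coeffMap A.subtype y) := by
    rw [hy'def, coeffMap_coeffMap, coeffMap_coeffMap]
    exact coeffMap_congr (RingHom.ext fun a => rfl) y
  have hy' : coeffMap A.subtype y' ∈ laurentBaseChange L (modularFunctionFieldFull N) := by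
    rw [h1]; exact coeffMap_mem_laurentBaseChange σ hy
  have h2 : coeffMap π y' = coeffMap (φ : k →+* k) (coeffMap π y) := by
    rw [hy'def, coeffMap_coeffMap, coeffMap_coeffMap]
    exact coeffMap_congr (RingHom.ext fun a => hφ a) y
  have hyk' : coeffMap π y' ∈ modularFunctionFieldFullC k N := by
    rw [h2]; exact coeffMap_mem_fullC N _ hyk
  have hne' : coeffMap π y' ≠ 0 := by
    rw [h2]
    intro h0
    apply hne
    apply coeffMap_injective_of_injective (φ : k →+* k) φ.injective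
    rw [h0, map_zero]
  have hD' : ∀ P, (g • D) P = P.ord (⟨coeffMap A.subtype y', hy'⟩ :
      laurentBaseChange L (modularFunctionFieldFull N)) := by
    intro P
    rw [SemilinearAut.divisor_smul_apply, hDy]
    have h3 := SemilinearAut.ord_smul g (g⁻¹ • P)
      (⟨coeffMap A.subtype y, hy⟩ : laurentBaseChange L (modularFunctionFieldFull N))
    rw [smul_inv_smul] at h3
    have h5 : (g • (⟨coeffMap A.subtype y, hy⟩ :
        laurentBaseChange L (modularFunctionFieldFull N)))
        = ⟨coeffMap A.subtype y', hy'⟩ := Subtype.ext h1.symm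
    rw [← h3, h5]
  have key1 := hr.2 y' hy' hyk' hne' (g • D) hD'
  have key0 := hr.2 y hy hyk hne D hDy
  ext Q
  rw [key1 Q, SemilinearAut.divisor_smul_apply, key0]
  have h4 := SemilinearAut.ord_smul Φ (Φ⁻¹ • Q)
    (⟨coeffMap π y, hyk⟩ : modularFunctionFieldFullC k N)
  rw [smul_inv_smul] at h4
  have h6 : (Φ • (⟨coeffMap π y, hyk⟩ : modularFunctionFieldFullC k N))
      = ⟨coeffMap π y', hyk'⟩ := Subtype.ext h2.symm
  rw [← h4, h6]

/-- **Equivariance of place reductions.** -/
theorem placeReduction_equivariant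
    {r : Place L (laurentBaseChange L (modularFunctionFieldFull N)) →
      Place k (modularFunctionFieldFullC k N)}
    (hr : IsPlaceReductionAlong A π N r) (hgen : PrincipalGeneratedByIntegral A π N)
    (hdeg : ∀ P : Place L (laurentBaseChange L (modularFunctionFieldFull N)), P.deg = 1)
    (hprin0 : ∀ D ∈ Divisor.principal (K := L)
      (F := laurentBaseChange L (modularFunctionFieldFull N)), Divisor.degree D = 0)
    (hR : RiemannBound L (laurentBaseChange L (modularFunctionFieldFull N)))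
    (hnc : ∃ D ∈ Divisor.principal (K := L)
      (F := laurentBaseChange L (modularFunctionFieldFull N)), Finsupp.mapDomain r D ≠ 0)
    (σ : L ≃ₐ[ℚ] L) (hσ : ∀ a ∈ A, σ a ∈ A)
    (φ : k ≃+* k) (hφ : ∀ a : A, π ⟨σ a, hσ a a.2⟩ = φ (π a))
    (P : Place L (laurentBaseChange L (modularFunctionFieldFull N))) :
    r (arithmeticGalois (modularFunctionFieldFull N) σ • P) = coeffSL N φ • r P := by
  set g := arithmeticGalois (modularFunctionFieldFull N) σ with hg
  set Φ := coeffSL N φ with hΦ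
  set r₂ : Place L (laurentBaseChange L (modularFunctionFieldFull N)) →
      Place k (modularFunctionFieldFullC k N) := fun P => Φ⁻¹ • r (g • P) with hr₂
  have hcomp : ∀ D : Divisor L (laurentBaseChange L (modularFunctionFieldFull N)),
      Finsupp.mapDomain r₂ D = Φ⁻¹ • Finsupp.mapDomain r (g • D) := by
    intro D
    have : r₂ = (fun Q => Φ⁻¹ • Q) ∘ r ∘ (fun P => g • P) := rfl
    rw [this, Finsupp.mapDomain_comp, Finsupp.mapDomain_comp]
    rfl
  have hagree : ∀ D ∈ integralPrincipalDivisors A π N,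
      Finsupp.mapDomain r D = Finsupp.mapDomain r₂ D := by
    intro D hD
    rw [hcomp, smul_integral_divisor hr σ hσ φ hφ hD, inv_smul_smul]
  have heq : r = r₂ := eq_of_agree hgen hagree hdeg hprin0 hR hnc
  have hP : r P = Φ⁻¹ • r (g • P) := congrFun heq P
  rw [hP, smul_inv_smul]

/-- Equivariance on divisors. -/
theorem mapDomain_smul
    {r : Place L (laurentBaseChange L (modularFunctionFieldFull N)) →
      Place k (modularFunctionFieldFullC k N)}
    (hr : IsPlaceReductionAlong A π N r) (hgen : PrincipalGeneratedByIntegral A π N)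
    (hdeg : ∀ P : Place L (laurentBaseChange L (modularFunctionFieldFull N)), P.deg = 1)
    (hprin0 : ∀ D ∈ Divisor.principal (K := L)
      (F := laurentBaseChange L (modularFunctionFieldFull N)), Divisor.degree D = 0)
    (hR : RiemannBound L (laurentBaseChange L (modularFunctionFieldFull N)))
    (hnc : ∃ D ∈ Divisor.principal (K := L)
      (F := laurentBaseChange L (modularFunctionFieldFull N)), Finsupp.mapDomain r D ≠ 0)
    (σ : L ≃ₐ[ℚ] L) (hσ : ∀ a ∈ A, σ a ∈ A)
    (φ : k ≃+* k) (hφ : ∀ a : A, π ⟨σ a, hσ a a.2⟩ = φ (π a))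
    (D : Divisor L (laurentBaseChange L (modularFunctionFieldFull N))) :
    Finsupp.mapDomain r (arithmeticGalois (modularFunctionFieldFull N) σ • D)
      = coeffSL N φ • Finsupp.mapDomain r D := by
  induction D using Finsupp.induction with
  | zero => simp
  | single_add P n D _ _ ih =>
    rw [smul_add, Finsupp.mapDomain_add, Finsupp.mapDomain_add, smul_add, ih,
      SemilinearAut.smul_single, Finsupp.mapDomain_single, Finsupp.mapDomain_single,
      SemilinearAut.smul_single,
      placeReduction_equivariant hr hgen hdeg hprin0 hR hnc σ hσ φ hφ P]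

end Fermat.Agent.S37.H697

end
end
-- ===== PACK-END S37/H697/Equivariant.lean

-- ===== PACK-BEGIN S37/H400/KronChar.lean
section
/-
S37 / helper400 — piece KRON, part (K2)–(K5): the Kronecker congruence, formal version.

Notation: `V_p = qExpand R p` (`q ↦ q ^ p`), `secMat p f` the section matrix of `f` (matrix of
multiplication by `f(T)` on `R((T))` over `R((T^p))`), `G_f := (secMat p f).charpoly`
(`= ∏_b (Y - f(ζ^b q^{1/p}))` classically) and `Ψ_f := (Y - V_p f) · G_f`
(`= ∏ over the p+1 conjugates`).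

* `charpoly_secMat_char` : over a domain of characteristic `p`,  `G_f = Y ^ p - frob f`.
* `kronPoly_map_zmod` : for `f ∈ ℤ((q))` (or any `S → ZMod p`),
    `Ψ_f ≡ (Y - f ^ p) (Y ^ p - f)  mod p`.
* `kronPoly_eval_qExpand`, `kronPoly_map_eval` : `Ψ_f (V_p f) = 0` and `(V_p Ψ_f)(f) = 0`.
-/



set_option autoImplicit false

noncomputable section

set_option linter.style.haveILetI false

open ModularCurve Polynomial Matrix

namespace Fermat.Agent.S37.H400

variable {R : Type*} [CommRing R]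

theorem charP_laurentSeries (p : ℕ) [CharP R p] : CharP (LaurentSeries R) p :=
  charP_of_injective_ringHom (f := (HahnSeries.C : R →+* LaurentSeries R))
    HahnSeries.C_injective p

/-- In characteristic `p`, the `p`-th power of the section matrix is scalar. -/
theorem secMat_pow_char (p : ℕ) [Fact p.Prime] [CharP R p] (f : LaurentSeries R) :
    haveI : NeZero p := ⟨(Fact.out : p.Prime).ne_zero⟩
    secMat p f ^ p = Matrix.scalar (Fin p) (coeffMap (frobenius R p) f) := by
  haveI : NeZero p := ⟨(Fact.out : p.Prime).ne_zero⟩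
  show secMat p f ^ p = Matrix.scalar (Fin p) (coeffMap (frobenius R p) f)
  rw [← secMat_pow, laurent_pow_char, secMat_qExpand]

/-- A `p × p` matrix over a domain of characteristic `p` whose `p`-th power is the scalar
`c` has characteristic polynomial `Y ^ p - c`. -/
theorem charpoly_of_pow_eq_scalar {A : Type*} [CommRing A] [IsDomain A] (p : ℕ) [Fact p.Prime]
    [CharP A p] (M : Matrix (Fin p) (Fin p) A) (c : A)
    (hM : M ^ p = Matrix.scalar (Fin p) c) :
    M.charpoly = X ^ p - C c := by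
  haveI : NeZero p := ⟨(Fact.out : p.Prime).ne_zero⟩
  have hcomm : Commute (Matrix.scalar (Fin p) (X : A[X])) (C.mapMatrix M) :=
    Matrix.scalar_commute _ (fun r => Commute.all _ r) _
  have h1 : M.charmatrix = Matrix.scalar (Fin p) (X : A[X]) - C.mapMatrix M := rfl
  have h2 : M.charmatrix ^ p = Matrix.scalar (Fin p) ((X : A[X]) ^ p - C c) := by
    rw [h1, sub_pow_char_of_commute p hcomm, ← map_pow, ← map_pow, hM, map_sub]
    congr 1
    ext i j
    simp [Matrix.scalar_apply, Matrix.diagonal_apply, apply_ite]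
  have h3 : M.charpoly ^ p = ((X : A[X]) ^ p - C c) ^ p := by
    rw [Matrix.charpoly, ← Matrix.det_pow, h2, Matrix.scalar_apply, Matrix.det_diagonal,
      Finset.prod_const, Finset.card_univ, Fintype.card_fin]
  exact frobenius_inj A[X] p h3

/-- **(K2) Kronecker, characteristic `p`.**  Over a domain of characteristic `p`, the
characteristic polynomial of the section matrix of `f` is `Y ^ p - frob f`. -/
theorem charpoly_secMat_char [IsDomain R] (p : ℕ) [Fact p.Prime] [CharP R p]
    (f : LaurentSeries R) :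
    haveI : NeZero p := ⟨(Fact.out : p.Prime).ne_zero⟩
    (secMat p f).charpoly = X ^ p - C (coeffMap (frobenius R p) f) := by
  haveI : NeZero p := ⟨(Fact.out : p.Prime).ne_zero⟩
  haveI := charP_laurentSeries (R := R) p
  exact charpoly_of_pow_eq_scalar p _ _ (secMat_pow_char p f)

theorem coeffMap_frobenius_zmod (p : ℕ) [Fact p.Prime] (f : LaurentSeries (ZMod p)) :
    coeffMap (frobenius (ZMod p) p) f = f := by
  ext k
  simp

/-- Kronecker over `𝔽_p`: `G_f = Y ^ p - f`. -/
theorem charpoly_secMat_zmod (p : ℕ) [Fact p.Prime] (f : LaurentSeries (ZMod p)) :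
    haveI : NeZero p := ⟨(Fact.out : p.Prime).ne_zero⟩
    (secMat p f).charpoly = X ^ p - C f := by
  haveI : NeZero p := ⟨(Fact.out : p.Prime).ne_zero⟩
  have h := charpoly_secMat_char p f
  rwa [coeffMap_frobenius_zmod] at h

/-- The polynomial `Ψ_f(Y) = (Y - f(q^p)) · ∏_b (Y - f(ζ^b q^{1/p}))`, defined without roots of
unity as `(Y - V_p f) · charpoly (secMat p f)`. -/
def kronPoly (p : ℕ) [NeZero p] (f : LaurentSeries R) : (LaurentSeries R)[X] :=
  (X - C (qExpand R p f)) * (secMat p f).charpoly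

theorem kronPoly_monic (p : ℕ) [NeZero p] [Nontrivial R] (f : LaurentSeries R) :
    (kronPoly p f).Monic :=
  (monic_X_sub_C _).mul (Matrix.charpoly_monic _)

theorem kronPoly_natDegree (p : ℕ) [NeZero p] [Nontrivial R] (f : LaurentSeries R) :
    (kronPoly p f).natDegree = p + 1 := by
  rw [kronPoly, Polynomial.Monic.natDegree_mul (monic_X_sub_C _) (Matrix.charpoly_monic _),
    natDegree_X_sub_C, Matrix.charpoly_natDegree_eq_dim, Fintype.card_fin, add_comm]

private theorem coeffMap_qExpand'' {S : Type*} [CommRing S] (φ : R →+* S) (n : ℕ)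
    [NeZero n] (x : LaurentSeries R) : coeffMap φ (qExpand R n x) = qExpand S n (coeffMap φ x) := by
  ext k
  by_cases hk : (n : ℤ) ∣ k
  · obtain ⟨m, rfl⟩ := hk
    rw [coeffMap_coeff, qExpand_coeff_mul, qExpand_coeff_mul, coeffMap_coeff]
  · rw [coeffMap_coeff, qExpand_coeff_of_not_dvd n _ hk, qExpand_coeff_of_not_dvd n _ hk,
      map_zero]

/-- Base change of `Ψ_f` along a coefficient homomorphism. -/
theorem kronPoly_map {S : Type*} [CommRing S] (φ : R →+* S) (p : ℕ) [NeZero p]
    (f : LaurentSeries R) :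
    (kronPoly p f).map (coeffMap φ) = kronPoly p (coeffMap φ f) := by
  rw [kronPoly, kronPoly, Polynomial.map_mul, Polynomial.map_sub, Polynomial.map_X,
    Polynomial.map_C, coeffMap_qExpand'', secMat_coeffMap, Matrix.charpoly_map]

/-- **(K3) Kronecker congruence.**  Over a domain of characteristic `p`,
`Ψ_f = (Y - V_p f) (Y ^ p - frob f)`. -/
theorem kronPoly_char [IsDomain R] (p : ℕ) [Fact p.Prime] [CharP R p] (f : LaurentSeries R) :
    haveI : NeZero p := ⟨(Fact.out : p.Prime).ne_zero⟩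
    kronPoly p f = (X - C (qExpand R p f)) * (X ^ p - C (coeffMap (frobenius R p) f)) := by
  haveI : NeZero p := ⟨(Fact.out : p.Prime).ne_zero⟩
  show kronPoly p f = _
  rw [kronPoly, charpoly_secMat_char]

/-- **(K3') Kronecker congruence over `𝔽_p`**: `Ψ_f = (Y - f ^ p) (Y ^ p - f)`. -/
theorem kronPoly_zmod (p : ℕ) [Fact p.Prime] (f : LaurentSeries (ZMod p)) :
    haveI : NeZero p := ⟨(Fact.out : p.Prime).ne_zero⟩
    kronPoly p f = (X - C (f ^ p)) * (X ^ p - C f) := by
  haveI : NeZero p := ⟨(Fact.out : p.Prime).ne_zero⟩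
  show kronPoly p f = _
  rw [kronPoly_char, laurent_pow_char, coeffMap_frobenius_zmod]

/-- **(K3'') Kronecker congruence, integral form**: for `f` with coefficients in any ring `S`
mapping to `𝔽_p` (e.g. `ℤ`, `ℤ_(p)`), `Ψ_f ≡ (Y - f̄ ^ p)(Y ^ p - f̄)` after reduction. -/
theorem kronPoly_map_zmod {S : Type*} [CommRing S] (p : ℕ) [Fact p.Prime] (φ : S →+* ZMod p)
    (f : LaurentSeries S) :
    haveI : NeZero p := ⟨(Fact.out : p.Prime).ne_zero⟩
    (kronPoly p f).map (coeffMap φ) =
      (X - C ((coeffMap φ f) ^ p)) * (X ^ p - C (coeffMap φ f)) := by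
  haveI : NeZero p := ⟨(Fact.out : p.Prime).ne_zero⟩
  show (kronPoly p f).map (coeffMap φ) = _
  rw [kronPoly_map, kronPoly_zmod]

/-- **(K4a)** `V_p f = f(q^p)` is a root of `Ψ_f`. -/
theorem kronPoly_eval_qExpand (p : ℕ) [NeZero p] (f : LaurentSeries R) :
    (kronPoly p f).eval (qExpand R p f) = 0 := by
  rw [kronPoly, eval_mul, eval_sub, eval_X, eval_C, sub_self, zero_mul]

/-- **(K4b)** `f` is a root of `V_p Ψ_f` (coefficients pushed along `q ↦ q ^ p`). -/
theorem kronPoly_map_eval (p : ℕ) [NeZero p] (f : LaurentSeries R) :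
    ((kronPoly p f).map (qExpand R p)).eval f = 0 := by
  rw [kronPoly, Polynomial.map_mul, eval_mul, secMat_charpoly_eval, mul_zero]

end Fermat.Agent.S37.H400

end

end
-- ===== PACK-END S37/H400/KronChar.lean

-- ===== PACK-BEGIN S37/H400/KronNorm.lean
section
/-
S37 / helper400 — piece KRON, part (K6): the Kronecker NORM, formal version.

`kronNorm p f := V_p f · det (secMat p f)`  (classically `f(q^p) · ∏_b f(ζ^b q^{1/p})`, i.e. the
`q`-expansion of `Nm_α(β f)` once NORM-ID identifies the characteristic polynomial of `β f` over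
`α F_N` with `kronPoly p f`).

* `kronNorm_mul`, `kronNorm_one`, `kronNorm_pow` : multiplicativity.
* `coeffMap_kronNorm` : compatibility with coefficient homomorphisms (reduction `A → k`).
* `det_secMat_char`, `kronNorm_char` : over a domain of characteristic `p`
    `det (secMat p f) = frob f`,  `kronNorm p f = V_p f · frob f`.
* `kronNorm_char_of_frobenius` : if `f = frob g` coefficientwise then
    `kronNorm p f = g ^ p · frob f`  (`= (Φ⁻¹ f)^p · Φ f`, the form used in step (E)).
* `coeffMap_kronNorm_char` : the reduction statement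
    `coeffMap φ (kronNorm p f) = V_p f̄ · frob f̄` for `φ : S → R`, `R` a domain of char. `p`.
* `kronPoly_coeff_zero` : constant term of `kronPoly` is `(-1)^(p+1) · kronNorm`.
-/


set_option autoImplicit false

noncomputable section

set_option linter.style.haveILetI false

open ModularCurve Polynomial Matrix

namespace Fermat.Agent.S37.H400

variable {R : Type*} [CommRing R]

/-- The formal Kronecker norm `V_p f · det (secMat p f)`. -/
def kronNorm (p : ℕ) [NeZero p] (f : LaurentSeries R) : LaurentSeries R :=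
  qExpand R p f * (secMat p f).det

theorem kronNorm_mul (p : ℕ) [NeZero p] (f g : LaurentSeries R) :
    kronNorm p (f * g) = kronNorm p f * kronNorm p g := by
  rw [kronNorm, kronNorm, kronNorm, map_mul, secMat_mul, Matrix.det_mul]
  ring

theorem kronNorm_one (p : ℕ) [NeZero p] : kronNorm p (1 : LaurentSeries R) = 1 := by
  rw [kronNorm, map_one, secMat_one, Matrix.det_one, mul_one]

/-- `kronNorm` as a monoid homomorphism. -/
def kronNormHom (p : ℕ) [NeZero p] : LaurentSeries R →* LaurentSeries R where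
  toFun := kronNorm p
  map_one' := kronNorm_one p
  map_mul' := kronNorm_mul p

theorem kronNormHom_apply (p : ℕ) [NeZero p] (f : LaurentSeries R) :
    kronNormHom p f = kronNorm p f := rfl

theorem kronNorm_pow (p : ℕ) [NeZero p] (f : LaurentSeries R) (n : ℕ) :
    kronNorm p (f ^ n) = kronNorm p f ^ n :=
  map_pow (kronNormHom p) f n

theorem coeffMap_qExpand_h400 {S : Type*} [CommRing S] (φ : R →+* S) (n : ℕ)
    [NeZero n] (x : LaurentSeries R) : coeffMap φ (qExpand R n x) = qExpand S n (coeffMap φ x) := by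
  ext k
  by_cases hk : (n : ℤ) ∣ k
  · obtain ⟨m, rfl⟩ := hk
    rw [coeffMap_coeff, qExpand_coeff_mul, qExpand_coeff_mul, coeffMap_coeff]
  · rw [coeffMap_coeff, qExpand_coeff_of_not_dvd n _ hk, qExpand_coeff_of_not_dvd n _ hk,
      map_zero]

/-- Base change of the Kronecker norm along a coefficient homomorphism. -/
theorem coeffMap_kronNorm {S : Type*} [CommRing S] (φ : R →+* S) (p : ℕ) [NeZero p]
    (f : LaurentSeries R) :
    coeffMap φ (kronNorm p f) = kronNorm p (coeffMap φ f) := by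
  rw [kronNorm, kronNorm, map_mul, coeffMap_qExpand_h400, RingHom.map_det,
    RingHom.mapMatrix_apply, secMat_coeffMap]

/-- Over a domain of characteristic `p`, `det (secMat p f) = frob f`. -/
theorem det_secMat_char [IsDomain R] (p : ℕ) [Fact p.Prime] [CharP R p]
    (f : LaurentSeries R) :
    haveI : NeZero p := ⟨(Fact.out : p.Prime).ne_zero⟩
    (secMat p f).det = coeffMap (frobenius R p) f := by
  haveI : NeZero p := ⟨(Fact.out : p.Prime).ne_zero⟩
  haveI := charP_laurentSeries (R := R) p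
  show (secMat p f).det = coeffMap (frobenius R p) f
  rw [Matrix.det_eq_sign_charpoly_coeff, charpoly_secMat_char, Fintype.card_fin,
    coeff_sub, coeff_X_pow, coeff_C_zero, if_neg (Fact.out : p.Prime).pos.ne, zero_sub]
  rcases (Fact.out : p.Prime).eq_two_or_odd' with h2 | hodd
  · subst h2
    have h2' : (2 : LaurentSeries R) = 0 := by
      have := CharP.cast_eq_zero (LaurentSeries R) 2
      exact_mod_cast this
    have : -(coeffMap (frobenius R 2) f) = coeffMap (frobenius R 2) f := by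
      rw [neg_eq_iff_add_eq_zero, ← two_mul, h2', zero_mul]
    rw [this]
    simp
  · rw [hodd.neg_one_pow]
    ring

/-- Over a domain of characteristic `p`: `kronNorm p f = V_p f · frob f`. -/
theorem kronNorm_char [IsDomain R] (p : ℕ) [Fact p.Prime] [CharP R p] (f : LaurentSeries R) :
    haveI : NeZero p := ⟨(Fact.out : p.Prime).ne_zero⟩
    kronNorm p f = qExpand R p f * coeffMap (frobenius R p) f := by
  haveI : NeZero p := ⟨(Fact.out : p.Prime).ne_zero⟩
  show kronNorm p f = _
  rw [kronNorm, det_secMat_char]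

/-- Over a domain of characteristic `p`, if `f = frob g` coefficientwise (`g = Φ⁻¹ f`), then
`kronNorm p f = g ^ p · frob f = (Φ⁻¹ f) ^ p · Φ f`. -/
theorem kronNorm_char_of_frobenius [IsDomain R] (p : ℕ) [Fact p.Prime] [CharP R p]
    (f g : LaurentSeries R) (hg : coeffMap (frobenius R p) g = f) :
    haveI : NeZero p := ⟨(Fact.out : p.Prime).ne_zero⟩
    kronNorm p f = g ^ p * coeffMap (frobenius R p) f := by
  haveI : NeZero p := ⟨(Fact.out : p.Prime).ne_zero⟩
  show kronNorm p f = _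
  rw [kronNorm_char, laurent_pow_char, hg]

/-- Over `𝔽_p`: `kronNorm p f = f ^ (p + 1)`. -/
theorem kronNorm_zmod (p : ℕ) [Fact p.Prime] (f : LaurentSeries (ZMod p)) :
    haveI : NeZero p := ⟨(Fact.out : p.Prime).ne_zero⟩
    kronNorm p f = f ^ (p + 1) := by
  haveI : NeZero p := ⟨(Fact.out : p.Prime).ne_zero⟩
  show kronNorm p f = _
  rw [kronNorm_char_of_frobenius p f f (coeffMap_frobenius_zmod p f), coeffMap_frobenius_zmod,
    pow_succ]

/-- **Kronecker congruence for norms.**  For `f` with coefficients in `S` and a reduction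
`φ : S → R` to a domain of characteristic `p`, the reduction of the Kronecker norm of `f` is
`V_p f̄ · frob f̄`. -/
theorem coeffMap_kronNorm_char {S : Type*} [CommRing S] [IsDomain R] (p : ℕ) [Fact p.Prime]
    [CharP R p] (φ : S →+* R) (f : LaurentSeries S) :
    haveI : NeZero p := ⟨(Fact.out : p.Prime).ne_zero⟩
    coeffMap φ (kronNorm p f) =
      qExpand R p (coeffMap φ f) * coeffMap (frobenius R p) (coeffMap φ f) := by
  haveI : NeZero p := ⟨(Fact.out : p.Prime).ne_zero⟩
  show coeffMap φ (kronNorm p f) = _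
  rw [coeffMap_kronNorm, kronNorm_char]

/-- The reduction of the Kronecker norm is nonzero as soon as the reduction of `f` is. -/
theorem coeffMap_kronNorm_ne_zero {S : Type*} [CommRing S] [IsDomain R] (p : ℕ) [Fact p.Prime]
    [CharP R p] (φ : S →+* R) (f : LaurentSeries S) (hf : coeffMap φ f ≠ 0) :
    haveI : NeZero p := ⟨(Fact.out : p.Prime).ne_zero⟩
    coeffMap φ (kronNorm p f) ≠ 0 := by
  haveI : NeZero p := ⟨(Fact.out : p.Prime).ne_zero⟩
  show coeffMap φ (kronNorm p f) ≠ 0
  rw [coeffMap_kronNorm_char]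
  refine mul_ne_zero ?_ ?_
  · intro h
    exact hf (qExpand_injective (R := R) (N := p) (by rw [h, map_zero]))
  · intro h
    apply hf
    ext k
    have hk := congrArg (fun x : LaurentSeries R => x.coeff k) h
    simp only [coeffMap_coeff, HahnSeries.coeff_zero] at hk ⊢
    exact frobenius_inj R p (by rw [hk, map_zero])

/-- The constant term of `kronPoly` is `(-1)^(p+1)` times the Kronecker norm. -/
theorem kronPoly_coeff_zero (p : ℕ) [NeZero p] (f : LaurentSeries R) :
    (kronPoly p f).coeff 0 = (-1) ^ (p + 1) * kronNorm p f := by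
  rw [kronPoly, Polynomial.mul_coeff_zero, coeff_sub, coeff_X_zero, coeff_C_zero, zero_sub,
    kronNorm, Matrix.det_eq_sign_charpoly_coeff, Fintype.card_fin, pow_succ]
  have h : ((-1 : LaurentSeries R) ^ p) * (-1) ^ p = 1 := by
    rw [← mul_pow]; simp
  linear_combination (qExpand R p f * (secMat p f).charpoly.coeff 0) * h

end Fermat.Agent.S37.H400

end

end
-- ===== PACK-END S37/H400/KronNorm.lean

-- ===== PACK-BEGIN S18/Integ/Top.lean
section



/-!
# S18 integration — top layer (row-lead helper18)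

`CoreStatement N A m` (frozen hub, `Spec.lean`)  ⟹  `H665.Core N A m`  ⟹ (helper665 Step A) frozen S18,
given `H665.ConstLemma N A` (CONST_Fk).
-/

set_option autoImplicit false

noncomputable section

namespace Fermat.Agent.S18.Integ

open ModularCurve AlgebraicCurve HahnSeries

variable {N : ℕ} {A : ValuationSubring (AlgebraicClosure ℚ)}

theorem isInt_of_good {U : LaurentSeries A} (h : H665.Good A N U) : IsInt A N U :=
  ⟨h.memF, h.memFk, h.ne⟩

/-- Adapter: the frozen hub statement implies helper665's `Core`. -/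
theorem core665_of_coreStatement {m : ℕ} (hm : m ≠ 0) (h : CoreStatement N A m) :
    H665.Core N A m := by
  intro U₁ U₂ h₁ h₂ hred hdiv
  have h₁' : IsInt A N U₁ := isInt_of_good h₁
  have h₂' : IsInt A N U₂ := isInt_of_good h₂
  have e₁ : toF h₁' = h₁.toF := rfl
  have e₂ : toF h₂' = h₂.toF := rfl
  obtain ⟨c, y, hc, hy, hcy⟩ := h U₁ U₂ h₁' h₂' hred (fun v => by
    have := hdiv v
    rw [H665.ord_div' v h₁.toF_ne_zero h₂.toF_ne_zero] at this
    rw [e₁, e₂]
    exact this)
  obtain ⟨c', hc'⟩ := IsAlgClosed.exists_pow_nat_eq c (Nat.pos_of_ne_zero hm)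
  refine ⟨algebraMap (AlgebraicClosure ℚ) (modularFunctionFieldBar N) c' * y, ?_⟩
  rw [e₁, e₂] at hcy
  rw [hcy, mul_pow, ← map_pow, hc', mul_div_assoc, div_self h₂.toF_ne_zero, mul_one]

/-- Frozen S18 from the hub statement and CONST_Fk. -/
theorem s18_of_coreStatement [NeZero N] {ℓ : ℕ} [Fact ℓ.Prime]
    (h : ModularCurve.ReductionInputsModL A N) (m : ℕ) (hm : ¬ ℓ ∣ m)
    (hconst : H665.ConstLemma N A) (hcore : CoreStatement N A m)
    (z : ModularCurve.JZero N) (hmz : m • z = 0)
    (hz : ModularCurve.reductionModL A N z = 0) : z = 0 := by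
  have hm0 : m ≠ 0 := by
    rintro rfl
    exact hm (dvd_zero ℓ)
  exact H665.S18_of_core_frozen_shape (N := N) (A := A) h m hm hconst
    (core665_of_coreStatement hm0 hcore) z hmz hz

end Fermat.Agent.S18.Integ

end
end
-- ===== PACK-END S18/Integ/Top.lean

-- ===== PACK-BEGIN Lib/Haupt/Level.lean
section






/-!
# Level raising `f(τ) ↦ f(dτ)` for level-one modular forms (helper637)

* `res d f` : a level-one form viewed on `Γ₀(d)`;
* `lev d f` : `τ ↦ f (d τ)` as a modular form on `Γ₀(d)`;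
* `qExpansion_lev` : its `q`-expansion is `PowerSeries.expand d` of the `q`-expansion of `f`.
-/

set_option autoImplicit false

open UpperHalfPlane ModularForm CongruenceSubgroup MatrixGroups
open Matrix.SpecialLinearGroup Filter Topology
open scoped Manifold

noncomputable section

namespace Fermat.Agent.Lib.Haupt

open Fermat.Agent.S20.F658

local notation "𝕢" => Function.Periodic.qParam

/-- `Γ₀(d)` as a subgroup of `GL(2, ℝ)`. -/
abbrev G0 (d : ℕ) : Subgroup (GL (Fin 2) ℝ) := (Gamma0 d : Subgroup (GL (Fin 2) ℝ))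

theorem G0_le_SL (d : ℕ) : G0 d ≤ 𝒮ℒ := by
  rintro _ ⟨A, -, rfl⟩
  exact ⟨A, rfl⟩

theorem one_mem_strictPeriods_G0 (d : ℕ) : (1 : ℝ) ∈ (G0 d).strictPeriods :=
  CongruenceSubgroup.one_mem_strictPeriods_Gamma0 d

/-- A level-one modular form, viewed as a modular form on `Γ₀(d)`. -/
def res (d : ℕ) {k : ℤ} (f : ModularForm 𝒮ℒ k) : ModularForm (G0 d) k where
  toFun := f
  slash_action_eq' γ hγ := f.slash_action_eq' γ (G0_le_SL d hγ)
  holo' := f.holo'
  bdd_at_cusps' hc := f.bdd_at_cusps' (hc.mono (G0_le_SL d))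

@[simp] theorem coe_res (d : ℕ) {k : ℤ} (f : ModularForm 𝒮ℒ k) : (res d f : ℍ → ℂ) = f := rfl

open ConjAct Pointwise in
/-- `f ∣[k] diag(d, 1)` as a modular form on `Γ₀(d)`. -/
def levRaw (d : ℕ) [NeZero d] {k : ℤ} (f : ModularForm 𝒮ℒ k) : ModularForm (G0 d) k where
  toFun := (f : ℍ → ℂ) ∣[k] gN d
  slash_action_eq' γ hγ :=
    (ModularForm.translate f (gN d)).slash_action_eq' γ (Gamma0_le_conj d hγ)
  holo' := (ModularForm.translate f (gN d)).holo'
  bdd_at_cusps' hc :=
    (ModularForm.translate f (gN d)).bdd_at_cusps' (hc.mono (Gamma0_le_conj d))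

theorem coe_levRaw (d : ℕ) [NeZero d] {k : ℤ} (f : ModularForm 𝒮ℒ k) :
    (levRaw d f : ℍ → ℂ) = (f : ℍ → ℂ) ∣[k] gN d := rfl

theorem gN_det_pos (d : ℕ) [NeZero d] : 0 < (gN d).det.val := by
  rw [gN_det]
  exact_mod_cast Nat.pos_of_ne_zero (NeZero.ne d)

theorem denom_gN (d : ℕ) [NeZero d] (τ : ℍ) : denom (gN d) τ = 1 := by
  simp [denom, gN_val]

theorem coe_gN_smul (d : ℕ) [NeZero d] (τ : ℍ) : ((gN d • τ : ℍ) : ℂ) = d * (τ : ℂ) := by
  rw [UpperHalfPlane.coe_smul_of_det_pos (gN_det_pos d)]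
  simp [num, denom, gN_val]

theorem levRaw_apply (d : ℕ) [NeZero d] {k : ℤ} (f : ModularForm 𝒮ℒ k) (τ : ℍ) :
    levRaw d f τ = f (gN d • τ) * (d : ℂ) ^ (k - 1) := by
  show ((f : ℍ → ℂ) ∣[k] gN d) τ = _
  rw [ModularForm.slash_apply, denom_gN, one_zpow, mul_one, gN_det]
  have hσ : σ (gN d) = ContinuousAlgEquiv.refl ℝ ℂ := by
    unfold σ
    rw [if_pos (gN_det_pos d)]
  rw [hσ]
  simp

end Fermat.Agent.Lib.Haupt

namespace Fermat.Agent.Lib.Haupt

open Fermat.Agent.S20.F658

local notation "𝕢" => Function.Periodic.qParam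

/-- `τ ↦ f (d τ)` as a modular form on `Γ₀(d)`. -/
def lev (d : ℕ) [NeZero d] {k : ℤ} (f : ModularForm 𝒮ℒ k) : ModularForm (G0 d) k :=
  (((d : ℂ) ^ (k - 1))⁻¹ : ℂ) • levRaw d f

theorem lev_apply (d : ℕ) [NeZero d] {k : ℤ} (f : ModularForm 𝒮ℒ k) (τ : ℍ) :
    lev d f τ = f (gN d • τ) := by
  have hd : ((d : ℂ) ^ (k - 1)) ≠ 0 := zpow_ne_zero _ (by exact_mod_cast NeZero.ne d)
  show (((d : ℂ) ^ (k - 1))⁻¹ • levRaw d f) τ = _
  rw [smul_apply, levRaw_apply, smul_eq_mul]
  field_simp

theorem qParam_gN_smul (d : ℕ) [NeZero d] (τ : ℍ) :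
    𝕢 1 ((gN d • τ : ℍ) : ℂ) = 𝕢 1 (τ : ℂ) ^ d := by
  rw [coe_gN_smul]
  unfold Function.Periodic.qParam
  rw [← Complex.exp_nat_mul]
  congr 1
  ring

theorem hasSum_lev (d : ℕ) [NeZero d] {k : ℤ} (f : ModularForm 𝒮ℒ k) (τ : ℍ) :
    HasSum (fun m : ℕ => (if d ∣ m then (qExpansion 1 f).coeff (m / d) else 0) •
      𝕢 1 (τ : ℂ) ^ m) (lev d f τ) := by
  have hd : 0 < d := Nat.pos_of_ne_zero (NeZero.ne d)
  have h := ModularForm.hasSum_qExpansion (f := f) one_pos one_mem_strictPeriods_SL (gN d • τ)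
  rw [qParam_gN_smul, ← lev_apply] at h
  have hinj : Function.Injective (fun n : ℕ => d * n) := fun a b hab =>
    Nat.eq_of_mul_eq_mul_left hd hab
  rw [← hinj.hasSum_iff]
  · have hfun : ((fun m : ℕ => (if d ∣ m then (qExpansion 1 f).coeff (m / d) else 0) •
        𝕢 1 (τ : ℂ) ^ m) ∘ fun n : ℕ => d * n)
        = fun m : ℕ => (qExpansion 1 f).coeff m * (𝕢 1 (τ : ℂ) ^ d) ^ m := by
      funext n
      simp only [Function.comp_apply, dvd_mul_right, if_true, Nat.mul_div_cancel_left n hd,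
        smul_eq_mul, pow_mul]
    rw [hfun]
    exact h
  · intro m hm
    have : ¬ d ∣ m := fun ⟨c, hc⟩ => hm ⟨c, hc.symm⟩
    simp [this]

end Fermat.Agent.Lib.Haupt

namespace Fermat.Agent.Lib.Haupt

/-- The `q`-expansion of `τ ↦ f (d τ)` is `expand d` of the `q`-expansion of `f`. -/
theorem qExpansion_lev (d : ℕ) [NeZero d] {k : ℤ} (f : ModularForm 𝒮ℒ k) :
    qExpansion 1 (lev d f) = PowerSeries.expand d (NeZero.ne d) (qExpansion 1 f) := by
  ext m
  rw [PowerSeries.coeff_expand]
  exact (ModularFormClass.qExpansion_coeff_unique one_pos (one_mem_strictPeriods_G0 d)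
    (f := lev d f) (hasSum_lev d f) m).symm

theorem qExpansion_res (d : ℕ) {k : ℤ} (f : ModularForm 𝒮ℒ k) :
    qExpansion 1 (res d f) = qExpansion 1 f := rfl

end Fermat.Agent.Lib.Haupt

end
end
-- ===== PACK-END Lib/Haupt/Level.lean

-- ===== PACK-BEGIN S17/H587/FormalB.lean
section



/-!
# S17 / tower H, formal leaves F-B and F-INV                                   (helper587)

For an arbitrary `P : PairingPackage A`:

* `bz P : P.BZStatement`  — `B (Z a) E` is bounded by `C (deg E + 1)` (from `e3`, `bez`);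
* `inv P hBZ : P.InvStatement` — `B` is a class function in the first variable up to
  `C (deg E + 1)` (from `mov2` with `T := E`, `pr_add`, `N_add`, additivity of `deg`).

Also: `m_pos`, `B_add_left` (exact additivity of `B` in the first variable on divisors disjoint
from `E`), `B_Z_eq` (the identity behind F-B).
-/

set_option autoImplicit false

namespace Fermat.Agent.S17.H587

open Fermat.Agent.S17.H500

variable {A : Type} [AddCommGroup A] (P : PairingPackage A)

/-- `m > 0`. -/
theorem m_pos : 0 < P.m := by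
  have h1 := P.one_le_g
  have h2 := P.two_g_le_d
  have h3 := P.four_d_le_m
  omega

/-- `(m : ℝ) > 0`. -/
theorem m_pos_real : (0 : ℝ) < P.m := by
  exact_mod_cast m_pos P

/-- `B` is exactly additive in the first variable on divisors disjoint from `E`. -/
theorem B_add_left (D₁ D₂ E : P.Dv) (h : P.Disj (D₁ + D₂) E) :
    P.B (D₁ + D₂) E = P.B D₁ E + P.B D₂ E := by
  unfold PairingPackage.B
  rw [P.pr_add D₁ D₂ E h, P.N_add, map_add]
  push_cast
  ring

/-- The identity behind F-B. -/
theorem B_Z_eq (a : P.Lin) (E : P.Dv) :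
    P.B (P.Z a) E =
      (P.pr (P.Z a) E - ((P.deg E : ℝ) * P.ht a + P.N E)) -
        ((P.deg E : ℝ) / P.m) * (P.N (P.Z a) - P.m * P.ht a) := by
  have hm : (P.m : ℝ) ≠ 0 := (m_pos_real P).ne'
  unfold PairingPackage.B
  rw [P.deg_Z a]
  field_simp
  ring

/-- **F-B.** -/
theorem bz : P.BZStatement := by
  obtain ⟨C₁, h₁⟩ := P.e3
  obtain ⟨C₂, h₂⟩ := P.bez
  refine ⟨|C₁| + |C₂|, ?_⟩
  intro a E hdisj
  have hm : (0 : ℝ) < P.m := m_pos_real P
  have hm1 : (1 : ℝ) ≤ P.m := by exact_mod_cast m_pos P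
  have hdeg : (0 : ℝ) ≤ P.deg E := Nat.cast_nonneg _
  have hfrac0 : 0 ≤ (P.deg E : ℝ) / P.m := div_nonneg hdeg hm.le
  have hfrac : (P.deg E : ℝ) / P.m ≤ P.deg E := div_le_self hdeg hm1
  have e1 := h₁ a E hdisj
  have e2 := h₂ a
  rw [B_Z_eq]
  have t1 : |P.pr (P.Z a) E - ((P.deg E : ℝ) * P.ht a + P.N E)| ≤ |C₁| * P.deg E :=
    e1.trans (mul_le_mul_of_nonneg_right (le_abs_self C₁) hdeg)
  have t2 : |((P.deg E : ℝ) / P.m) * (P.N (P.Z a) - P.m * P.ht a)| ≤ |C₂| * P.deg E := by
    rw [abs_mul, abs_of_nonneg hfrac0]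
    have e2' : |P.N (P.Z a) - P.m * P.ht a| ≤ |C₂| := e2.trans (le_abs_self C₂)
    calc (P.deg E : ℝ) / P.m * |P.N (P.Z a) - P.m * P.ht a|
        ≤ (P.deg E : ℝ) * |C₂| := mul_le_mul hfrac e2' (abs_nonneg _) hdeg
      _ = |C₂| * P.deg E := mul_comm _ _
  have t3 := abs_sub (P.pr (P.Z a) E - ((P.deg E : ℝ) * P.ht a + P.N E))
    (((P.deg E : ℝ) / P.m) * (P.N (P.Z a) - P.m * P.ht a))
  have hC₁ := abs_nonneg C₁
  have hC₂ := abs_nonneg C₂
  nlinarith

/-- **F-INV.** -/
theorem inv (hBZ : P.BZStatement) : P.InvStatement := by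
  obtain ⟨C, hC⟩ := hBZ
  refine ⟨2 * C, ?_⟩
  intro D₁ D₂ E hdeg hm hcls hd₁ hd₂
  obtain ⟨R, a₁, a₂, hZ₁, hZ₂, hRE⟩ := P.mov2 D₁ D₂ hdeg hm hcls E
  have hd₁R : P.Disj (D₁ + R) E := (P.disj_add_left D₁ R E).2 ⟨hd₁, hRE⟩
  have hd₂R : P.Disj (D₂ + R) E := (P.disj_add_left D₂ R E).2 ⟨hd₂, hRE⟩
  have b₁ := hC a₁ E (by rw [hZ₁]; exact hd₁R)
  have b₂ := hC a₂ E (by rw [hZ₂]; exact hd₂R)
  rw [hZ₁, B_add_left P D₁ R E hd₁R] at b₁
  rw [hZ₂, B_add_left P D₂ R E hd₂R] at b₂
  have key : P.B D₁ E - P.B D₂ E = (P.B D₁ E + P.B R E) - (P.B D₂ E + P.B R E) := by ring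
  rw [key]
  have t := abs_sub (P.B D₁ E + P.B R E) (P.B D₂ E + P.B R E)
  linarith

end Fermat.Agent.S17.H587

end
-- ===== PACK-END S17/H587/FormalB.lean

-- ===== PACK-BEGIN S17/H637/Formal.lean
section



/-!
# S17 / tower H, FORMAL layer (helper637): leaves F-WD and F-QP

Exact statements of `Fermat/Agent/S17/H500/Package.lean` (architect helper500):

* `wd : P.InvStatement → ∃ q, P.WDStatement q`
* `qp : P.BZStatement → P.InvStatement → P.WDStatement q → QPStatement q`

Both are pure bookkeeping with the normalised pairing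
`B D E = pr D E - (deg D / m) N E - (deg E / m) N D`:
`B` is symmetric, additive in each variable on disjoint divisors, and (by `InvStatement`) a class
function up to `O(deg E + 1)`.
-/

set_option autoImplicit false

namespace Fermat.Agent.S17.H637

open Fermat.Agent.S17.H500

variable {A : Type} [AddCommGroup A] (P : PairingPackage A)

/-! ## Basic calculus of `B` -/

theorem m_pos : 0 < P.m := by
  have h1 := P.one_le_g
  have h2 := P.two_g_le_d
  have h3 := P.four_d_le_m
  omega

theorem d_add_le : P.d + 2 * P.g ≤ P.m := by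
  have h3 := P.four_d_le_m
  omega

theorem two_d_add_le : 2 * P.d + 2 * P.g ≤ P.m := by
  have h3 := P.four_d_le_m
  omega

theorem B_symm (D E : P.Dv) : P.B D E = P.B E D := by
  unfold PairingPackage.B
  rw [P.pr_symm D E]
  ring

theorem disj_add_right (D E₁ E₂ : P.Dv) :
    P.Disj D (E₁ + E₂) ↔ P.Disj D E₁ ∧ P.Disj D E₂ := by
  constructor
  · intro h
    have h' := (P.disj_add_left E₁ E₂ D).1 (P.disj_symm _ _ h)
    exact ⟨P.disj_symm _ _ h'.1, P.disj_symm _ _ h'.2⟩
  · rintro ⟨h1, h2⟩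
    exact P.disj_symm _ _
      ((P.disj_add_left E₁ E₂ D).2 ⟨P.disj_symm _ _ h1, P.disj_symm _ _ h2⟩)

theorem B_add_left (D₁ D₂ E : P.Dv) (h1 : P.Disj D₁ E) (h2 : P.Disj D₂ E) :
    P.B (D₁ + D₂) E = P.B D₁ E + P.B D₂ E := by
  unfold PairingPackage.B
  rw [P.pr_add D₁ D₂ E ((P.disj_add_left _ _ _).2 ⟨h1, h2⟩), P.N_add, map_add]
  push_cast
  ring

theorem disj_nsmul_left (n : ℕ) (D E : P.Dv) (h : P.Disj D E) : P.Disj (n • D) E := by
  induction n with
  | zero => rw [zero_nsmul]; exact P.disj_zero E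
  | succ n ih => rw [succ_nsmul]; exact (P.disj_add_left _ _ _).2 ⟨ih, h⟩

theorem B_nsmul_left (n : ℕ) (D E : P.Dv) (h : P.Disj D E) :
    P.B (n • D) E = n * P.B D E := by
  induction n with
  | zero =>
    rw [zero_nsmul]
    unfold PairingPackage.B
    have h0 : P.N (0 : P.Dv) = 0 := by
      have := P.N_add 0 0
      rw [add_zero] at this
      linarith
    have hp : P.pr (0 : P.Dv) E = 0 := by
      have := P.pr_add 0 0 E (by rw [add_zero]; exact P.disj_zero E)
      rw [add_zero] at this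
      linarith
    rw [h0, hp, map_zero]
    simp
  | succ n ih =>
    rw [succ_nsmul, B_add_left P _ _ _ (disj_nsmul_left P n D E h) h, ih]
    push_cast
    ring

/-- `InvStatement` with a nonnegative constant. -/
theorem inv_nonneg (hInv : P.InvStatement) :
    ∃ C : ℝ, 0 ≤ C ∧ ∀ D₁ D₂ E, P.deg D₁ = P.deg D₂ → P.deg D₁ + 2 * P.g ≤ P.m →
      P.cls D₁ = P.cls D₂ → P.Disj D₁ E → P.Disj D₂ E →
      |P.B D₁ E - P.B D₂ E| ≤ C * (P.deg E + 1) := by
  obtain ⟨C, hC⟩ := hInv
  refine ⟨|C|, abs_nonneg C, fun D₁ D₂ E h1 h2 h3 h4 h5 => ?_⟩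
  refine (hC D₁ D₂ E h1 h2 h3 h4 h5).trans ?_
  have : (0 : ℝ) ≤ (P.deg E : ℝ) + 1 := by positivity
  exact mul_le_mul_of_nonneg_right (le_abs_self C) this

/-! ## F-WD -/

/-- Any two pairs of good disjoint representatives of degree `d` of the same class have the same
`B` up to a constant. -/
theorem B_pair_indep (hInv : P.InvStatement) :
    ∃ C : ℝ, 0 ≤ C ∧ ∀ (D D' E E' : P.Dv), P.deg D = P.d → P.deg D' = P.d → P.deg E = P.d →
      P.deg E' = P.d → P.cls D' = P.cls D → P.cls E = P.cls D → P.cls E' = P.cls D →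
      P.Disj D D' → P.Disj E E' → |P.B D D' - P.B E E'| ≤ C := by
  obtain ⟨C, hC0, hC⟩ := inv_nonneg P hInv
  refine ⟨4 * (C * (P.d + 1)), by positivity, ?_⟩
  intro D D' E E' hD hD' hE hE' hcD' hcE hcE' hDD' hEE'
  have hdm := d_add_le P
  -- generic `G` disjoint from `E'`, then `G'` disjoint from `D + G`
  obtain ⟨G, hG, hcG, hGE', -⟩ := P.mov1 (P.cls D) E'
  obtain ⟨G', hG', hcG', hG'T, -⟩ := P.mov1 (P.cls D) (D + G)
  obtain ⟨hG'D, hG'G⟩ := (disj_add_right P _ _ _).1 hG'T
  -- step 1: second variable `D' → G'` (with `E := D`)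
  have s1 : |P.B D' D - P.B G' D| ≤ C * (P.d + 1) := by
    have := hC D' G' D (by rw [hD', hG']) (by rw [hD']; exact hdm) (by rw [hcD', hcG'])
      (P.disj_symm _ _ hDD') hG'D
    rwa [hD] at this
  -- step 2: first variable `D → G` (with `E := G'`)
  have s2 : |P.B D G' - P.B G G'| ≤ C * (P.d + 1) := by
    have := hC D G G' (by rw [hD, hG]) (by rw [hD]; exact hdm) (by rw [hcG])
      (P.disj_symm _ _ hG'D) (P.disj_symm _ _ hG'G)
    rwa [hG'] at this
  -- step 3: second variable `G' → E'` (with `E := G`)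
  have s3 : |P.B G' G - P.B E' G| ≤ C * (P.d + 1) := by
    have := hC G' E' G (by rw [hG', hE']) (by rw [hG']; exact hdm) (by rw [hcG', hcE'])
      hG'G (P.disj_symm _ _ hGE')
    rwa [hG] at this
  -- step 4: first variable `G → E` (with `E := E'`)
  have s4 : |P.B G E' - P.B E E'| ≤ C * (P.d + 1) := by
    have := hC G E E' (by rw [hG, hE]) (by rw [hG]; exact hdm) (by rw [hcG, hcE])
      hGE' hEE'
    rwa [hE'] at this
  rw [B_symm P D' D, B_symm P G' D] at s1
  rw [B_symm P G' G, B_symm P E' G] at s3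
  rw [abs_le] at s1 s2 s3 s4 ⊢
  constructor <;> linarith [s1.1, s1.2, s2.1, s2.2, s3.1, s3.2, s4.1, s4.2]

/-- **Leaf F-WD.** -/
theorem wd (hInv : P.InvStatement) : ∃ q : A → ℝ, P.WDStatement q := by
  obtain ⟨C, hC0, hC⟩ := B_pair_indep P hInv
  -- chosen representatives
  have hex : ∀ x : A, ∃ E E' : P.Dv, P.deg E = P.d ∧ P.deg E' = P.d ∧ P.cls E = x ∧
      P.cls E' = x ∧ P.Disj E E' := by
    intro x
    obtain ⟨E, hE, hcE, -, -⟩ := P.mov1 x 0
    obtain ⟨E', hE', hcE', hE'E, -⟩ := P.mov1 x E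
    exact ⟨E, E', hE, hE', hcE, hcE', P.disj_symm _ _ hE'E⟩
  choose E E' hE hE' hcE hcE' hEE' using hex
  refine ⟨fun x => -(P.B (E x) (E' x)) / 2, C / 2, ?_⟩
  intro x D D' hD hD' hcD hcD' _ _ hDD'
  have h := hC D D' (E x) (E' x) hD hD' (hE x) (hE' x) (by rw [hcD', hcD])
    (by rw [hcE, hcD]) (by rw [hcE', hcD]) hDD' (hEE' x)
  rw [abs_le] at h ⊢
  constructor <;> linarith [h.1, h.2]

/-! ## F-QP -/

/-- `B inf E` is bounded. -/
theorem B_inf_bdd (hBZ : P.BZStatement) :
    ∃ C : ℝ, 0 ≤ C ∧ ∀ E, P.Disj P.inf E → |P.B P.inf E| ≤ C * (P.deg E + 1) := by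
  obtain ⟨C, hC⟩ := hBZ
  refine ⟨|C|, abs_nonneg C, fun E hE => ?_⟩
  have hm : (1 : ℝ) ≤ P.m := by exact_mod_cast m_pos P
  have h1 := hC P.one E (by rw [P.Z_one]; exact disj_nsmul_left P _ _ _ hE)
  rw [P.Z_one, B_nsmul_left P _ _ _ hE, abs_mul, Nat.abs_cast] at h1
  have hdeg : (0 : ℝ) ≤ (P.deg E : ℝ) + 1 := by positivity
  have h2 : C * ((P.deg E : ℝ) + 1) ≤ |C| * ((P.deg E : ℝ) + 1) :=
    mul_le_mul_of_nonneg_right (le_abs_self C) hdeg
  have h3 : |P.B P.inf E| ≤ (P.m : ℝ) * |P.B P.inf E| := by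
    have := abs_nonneg (P.B P.inf E)
    nlinarith
  linarith

/-- `B B0 E` is bounded for `B0` of class `0` and degree `d`. -/
theorem B_zero_bdd (hBZ : P.BZStatement) (hInv : P.InvStatement) :
    ∃ C : ℝ, 0 ≤ C ∧ ∀ B0 E, P.deg B0 = P.d → P.cls B0 = 0 → P.Disj B0 E → P.Disj P.inf E →
      |P.B B0 E| ≤ C * (P.deg E + 1) := by
  obtain ⟨C₁, hC₁0, hC₁⟩ := inv_nonneg P hInv
  obtain ⟨C₂, hC₂0, hC₂⟩ := B_inf_bdd P hBZ
  refine ⟨C₁ + P.d * C₂, by positivity, fun B0 E hB0 hc hd hinf => ?_⟩
  have hdeg : P.deg (P.d • P.inf) = P.d := by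
    rw [map_nsmul, P.deg_inf, smul_eq_mul, mul_one]
  have hcls : P.cls (P.d • P.inf) = 0 := by
    rw [map_nsmul, P.cls_inf, smul_zero]
  have h1 := hC₁ B0 (P.d • P.inf) E (by rw [hB0, hdeg]) (by rw [hB0]; exact d_add_le P)
    (by rw [hc, hcls]) hd (disj_nsmul_left P _ _ _ hinf)
  rw [B_nsmul_left P _ _ _ hinf] at h1
  have h2 := hC₂ E hinf
  have hdeg' : (0 : ℝ) ≤ (P.deg E : ℝ) + 1 := by positivity
  have hd0 : (0 : ℝ) ≤ (P.d : ℝ) := by positivity
  have h3 : |(P.d : ℝ) * P.B P.inf E| ≤ P.d * (C₂ * ((P.deg E : ℝ) + 1)) := by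
    rw [abs_mul, Nat.abs_cast]
    exact mul_le_mul_of_nonneg_left h2 hd0
  rw [abs_le] at h1 h3 ⊢
  constructor <;> nlinarith [h1.1, h1.2, h3.1, h3.2]

/-- Quasi-additivity of `B` in the first variable along the group law:
if `cls D₃ = cls D₁ + cls D₂` (degrees `d`, auxiliary `B0` of class `0`), then
`B D₃ E = B D₁ E + B D₂ E + O(deg E + 1)`. -/
theorem B_class_add (hBZ : P.BZStatement) (hInv : P.InvStatement) :
    ∃ C : ℝ, 0 ≤ C ∧ ∀ D₁ D₂ D₃ B0 E, P.deg D₁ = P.d → P.deg D₂ = P.d → P.deg D₃ = P.d →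
      P.deg B0 = P.d → P.cls B0 = 0 → P.cls D₃ = P.cls D₁ + P.cls D₂ →
      P.Disj D₁ E → P.Disj D₂ E → P.Disj D₃ E → P.Disj B0 E → P.Disj P.inf E →
      |P.B D₃ E - P.B D₁ E - P.B D₂ E| ≤ C * (P.deg E + 1) := by
  obtain ⟨C₁, hC₁0, hC₁⟩ := inv_nonneg P hInv
  obtain ⟨C₂, hC₂0, hC₂⟩ := B_zero_bdd P hBZ hInv
  refine ⟨C₁ + C₂, by positivity, ?_⟩
  intro D₁ D₂ D₃ B0 E h1 h2 h3 h0 hc0 hc d1 d2 d3 d0 dinf
  have hdm := two_d_add_le P
  have hA := hC₁ (D₃ + B0) (D₁ + D₂) E (by rw [map_add, map_add, h1, h2, h3, h0])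
    (by rw [map_add, h3, h0]; omega) (by rw [map_add, map_add, hc0, hc, add_zero])
    ((P.disj_add_left _ _ _).2 ⟨d3, d0⟩) ((P.disj_add_left _ _ _).2 ⟨d1, d2⟩)
  rw [B_add_left P _ _ _ d3 d0, B_add_left P _ _ _ d1 d2] at hA
  have hB := hC₂ B0 E h0 hc0 d0 dinf
  rw [abs_le] at hA hB ⊢
  constructor <;> nlinarith [hA.1, hA.2, hB.1, hB.2]

/-- **Leaf F-QP**: the quasi-parallelogram law. -/
theorem qp (hBZ : P.BZStatement) (hInv : P.InvStatement) (q : A → ℝ) (hq : P.WDStatement q) :
    QPStatement q := by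
  obtain ⟨C, hC0, hC⟩ := B_class_add P hBZ hInv
  obtain ⟨Cq, hCq⟩ := hq
  refine ⟨3 * (C * (P.d + 1)) + 6 * |Cq|, ?_⟩
  intro x y
  -- unprimed representatives
  obtain ⟨Dx, hDx, cDx, -, gDx⟩ := P.mov1 x 0
  obtain ⟨Dy, hDy, cDy, -, gDy⟩ := P.mov1 y 0
  obtain ⟨Ds, hDs, cDs, -, gDs⟩ := P.mov1 (x + y) 0
  obtain ⟨Dm, hDm, cDm, -, gDm⟩ := P.mov1 (x - y) 0
  obtain ⟨B0, hB0, cB0, -, gB0⟩ := P.mov1 (0 : A) 0
  -- primed representatives, disjoint from all unprimed ones
  set T : P.Dv := Dx + Dy + Ds + Dm + B0 with hT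
  have hsplit : ∀ D : P.Dv, P.Disj D T →
      P.Disj D Dx ∧ P.Disj D Dy ∧ P.Disj D Ds ∧ P.Disj D Dm ∧ P.Disj D B0 := by
    intro D h
    rw [hT] at h
    obtain ⟨h, h5⟩ := (disj_add_right P _ _ _).1 h
    obtain ⟨h, h4⟩ := (disj_add_right P _ _ _).1 h
    obtain ⟨h, h3⟩ := (disj_add_right P _ _ _).1 h
    obtain ⟨h1, h2⟩ := (disj_add_right P _ _ _).1 h
    exact ⟨h1, h2, h3, h4, h5⟩
  obtain ⟨Dx', hDx', cDx', tDx', gDx'⟩ := P.mov1 x T
  obtain ⟨Dy', hDy', cDy', tDy', gDy'⟩ := P.mov1 y T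
  obtain ⟨Ds', hDs', cDs', tDs', gDs'⟩ := P.mov1 (x + y) T
  obtain ⟨Dm', hDm', cDm', tDm', gDm'⟩ := P.mov1 (x - y) T
  obtain ⟨B0', hB0', cB0', tB0', gB0'⟩ := P.mov1 (0 : A) T
  obtain ⟨x'x, x'y, x's, x'm, x'0⟩ := hsplit Dx' tDx'
  obtain ⟨y'x, y'y, y's, y'm, y'0⟩ := hsplit Dy' tDy'
  obtain ⟨s'x, s'y, s's, s'm, s'0⟩ := hsplit Ds' tDs'
  obtain ⟨m'x, m'y, m's, m'm, m'0⟩ := hsplit Dm' tDm'
  obtain ⟨b'x, b'y, b's, b'm, b'0⟩ := hsplit B0' tB0'
  have sym := P.disj_symm
  have inf_of : ∀ D, P.Good D → P.Disj P.inf D := fun D h => sym _ _ (P.good_disj_inf D h)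
  -- the four values of `q`
  have qx := hCq x Dx Dx' hDx hDx' cDx cDx' gDx gDx' (sym _ _ x'x)
  have qy := hCq y Dy Dy' hDy hDy' cDy cDy' gDy gDy' (sym _ _ y'y)
  have qs := hCq (x + y) Ds Ds' hDs hDs' cDs cDs' gDs gDs' (sym _ _ s's)
  have qm := hCq (x - y) Dm Dm' hDm hDm' cDm cDm' gDm gDm' (sym _ _ m'm)
  -- expansion of `B Ds Ds'`
  have e1 := hC Dx Dy Ds B0 Ds' hDx hDy hDs hB0 cB0 (by rw [cDs, cDx, cDy])
    (sym _ _ s'x) (sym _ _ s'y) (sym _ _ s's) (sym _ _ s'0) (inf_of _ gDs')
  have e2 := hC Dx' Dy' Ds' B0' Dx hDx' hDy' hDs' hB0' cB0' (by rw [cDs', cDx', cDy'])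
    x'x y'x s'x b'x (inf_of _ gDx)
  have e3 := hC Dx' Dy' Ds' B0' Dy hDx' hDy' hDs' hB0' cB0' (by rw [cDs', cDx', cDy'])
    x'y y'y s'y b'y (inf_of _ gDy)
  -- expansion of `B Dm Dm'` (`Dx ~ Dm + Dy`)
  have e4 := hC Dm Dy Dx B0 Dm' hDm hDy hDx hB0 cB0 (by rw [cDx, cDm, cDy]; abel)
    (sym _ _ m'm) (sym _ _ m'y) (sym _ _ m'x) (sym _ _ m'0) (inf_of _ gDm')
  have e5 := hC Dm' Dy' Dx' B0' Dx hDm' hDy' hDx' hB0' cB0' (by rw [cDx', cDm', cDy']; abel)
    m'x y'x x'x b'x (inf_of _ gDx)
  have e6 := hC Dm' Dy' Dx' B0' Dy hDm' hDy' hDx' hB0' cB0' (by rw [cDx', cDm', cDy']; abel)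
    m'y y'y x'y b'y (inf_of _ gDy)
  rw [hDs'] at e1
  rw [hDx] at e2 e5
  rw [hDy] at e3 e6
  rw [hDm'] at e4
  rw [B_symm P Dx Ds', B_symm P Dy Ds'] at e1
  rw [B_symm P Dx Dm', B_symm P Dy Dm'] at e4
  rw [B_symm P Dx Dx'] at qx
  rw [B_symm P Dy Dy'] at qy
  have hq' : Cq ≤ |Cq| := le_abs_self Cq
  rw [abs_le] at qx qy qs qm e1 e2 e3 e4 e5 e6 ⊢
  constructor <;>
    linarith [qx.1, qx.2, qy.1, qy.2, qs.1, qs.2, qm.1, qm.2, e1.1, e1.2, e2.1, e2.2,
      e3.1, e3.2, e4.1, e4.2, e5.1, e5.2, e6.1, e6.2]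

end Fermat.Agent.S17.H637

end
-- ===== PACK-END S17/H637/Formal.lean

-- ===== PACK-BEGIN S17/H199/Ell.lean
section


/-!
# S17 / tower H, formal leaf F-ELL (helper199)

`theorem ell (P : PairingPackage A) : ∃ l, P.EllStatement l`.

From `gauss`, `e3` (with `E := Rt`), `bez`, `mov1`, `mov2` (with `T := Rt`):

* `L D := pr Rt D - (deg Rt / m) N D` is additive on divisors disjoint from `Rt` (`L_add`);
* `L (Z a) = N Rt + O(1)` uniformly in `a` (`L_Z_bound`);
* hence `L D₁ - L D₂ = O(1)` for linearly equivalent `D₁, D₂` of equal degree `≤ m - 2g`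
  disjoint from `Rt` (`L_class_bound`);
* `K D - ((2g-2)/m) N D = L D + O(deg D)` for good `D` (`K_sub_L_bound`);
* `l x := L (D_x)` for a chosen good representative `D_x` of degree `d`.
-/

set_option autoImplicit false

namespace Fermat.Agent.S17.H199

open Fermat.Agent.S17.H500

variable {A : Type} [AddCommGroup A] (P : PairingPackage A)

theorem m_pos_h199 : 0 < P.m := by
  have h1 := P.one_le_g
  have h2 := P.four_d_le_m
  omega

theorem m_pos_real_h199 : (0 : ℝ) < P.m := by
  exact_mod_cast m_pos_h199 P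

/-- `L` is additive on divisors disjoint from `Rt`. -/
theorem L_add_h199 (D E : P.Dv) (h : P.Disj (D + E) P.Rt) :
    P.L (D + E) = P.L D + P.L E := by
  unfold PairingPackage.L
  rw [P.pr_symm P.Rt (D + E), P.pr_add D E P.Rt h, P.N_add, P.pr_symm D, P.pr_symm E]
  ring

/-- `L (Z a) = N Rt + O(1)`, uniformly in the hyperplane `a`. -/
theorem L_Z_bound_h199 :
    ∃ C : ℝ, ∀ a, P.Disj (P.Z a) P.Rt → |P.L (P.Z a) - P.N P.Rt| ≤ C := by
  obtain ⟨C₁, h₁⟩ := P.e3
  obtain ⟨C₂, h₂⟩ := P.bez
  refine ⟨C₁ * P.deg P.Rt + ((P.deg P.Rt : ℝ) / P.m) * C₂, fun a ha => ?_⟩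
  have e := h₁ a P.Rt ha
  have b := h₂ a
  have hm : (0 : ℝ) < P.m := m_pos_real_h199 P
  have hr : (0 : ℝ) ≤ (P.deg P.Rt : ℝ) / P.m := div_nonneg (Nat.cast_nonneg _) hm.le
  have key : P.L (P.Z a) - P.N P.Rt
      = (P.pr (P.Z a) P.Rt - ((P.deg P.Rt : ℝ) * P.ht a + P.N P.Rt))
        - ((P.deg P.Rt : ℝ) / P.m) * (P.N (P.Z a) - P.m * P.ht a) := by
    unfold PairingPackage.L
    rw [P.pr_symm P.Rt (P.Z a)]
    field_simp
    ring
  rw [key]
  calc |(P.pr (P.Z a) P.Rt - ((P.deg P.Rt : ℝ) * P.ht a + P.N P.Rt))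
        - ((P.deg P.Rt : ℝ) / P.m) * (P.N (P.Z a) - P.m * P.ht a)|
      ≤ |P.pr (P.Z a) P.Rt - ((P.deg P.Rt : ℝ) * P.ht a + P.N P.Rt)|
        + |((P.deg P.Rt : ℝ) / P.m) * (P.N (P.Z a) - P.m * P.ht a)| := abs_sub _ _
    _ = |P.pr (P.Z a) P.Rt - ((P.deg P.Rt : ℝ) * P.ht a + P.N P.Rt)|
        + ((P.deg P.Rt : ℝ) / P.m) * |P.N (P.Z a) - P.m * P.ht a| := by
      rw [abs_mul, abs_of_nonneg hr]
    _ ≤ C₁ * P.deg P.Rt + ((P.deg P.Rt : ℝ) / P.m) * C₂ :=
      add_le_add e (mul_le_mul_of_nonneg_left b hr)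

/-- `L` is a class function up to `O(1)` on divisors disjoint from `Rt` of equal degree
`≤ m - 2g`. -/
theorem L_class_bound_h199 :
    ∃ C : ℝ, ∀ D₁ D₂ : P.Dv, P.deg D₁ = P.deg D₂ → P.deg D₁ + 2 * P.g ≤ P.m →
      P.cls D₁ = P.cls D₂ → P.Disj D₁ P.Rt → P.Disj D₂ P.Rt → |P.L D₁ - P.L D₂| ≤ C := by
  obtain ⟨C, hC⟩ := L_Z_bound_h199 P
  refine ⟨C + C, fun D₁ D₂ hdeg hm hcls h₁ h₂ => ?_⟩
  obtain ⟨R, a₁, a₂, hZ₁, hZ₂, hR⟩ := P.mov2 D₁ D₂ hdeg hm hcls P.Rt
  have hd₁ : P.Disj (D₁ + R) P.Rt := (P.disj_add_left D₁ R P.Rt).mpr ⟨h₁, hR⟩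
  have hd₂ : P.Disj (D₂ + R) P.Rt := (P.disj_add_left D₂ R P.Rt).mpr ⟨h₂, hR⟩
  have e₁ := hC a₁ (by rw [hZ₁]; exact hd₁)
  have e₂ := hC a₂ (by rw [hZ₂]; exact hd₂)
  rw [hZ₁, L_add_h199 P D₁ R hd₁] at e₁
  rw [hZ₂, L_add_h199 P D₂ R hd₂] at e₂
  have key : P.L D₁ - P.L D₂
      = (P.L D₁ + P.L R - P.N P.Rt) - (P.L D₂ + P.L R - P.N P.Rt) := by ring
  rw [key]
  exact (abs_sub _ _).trans (add_le_add e₁ e₂)

/-- (GAUSS) rewritten: `K D - ((2g-2)/m) N D = L D + O(deg D)` for good `D`. -/
theorem K_sub_L_bound_h199 :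
    ∃ C : ℝ, ∀ D : P.Dv, P.Good D →
      |P.L D - (P.K D - ((2 * (P.g : ℝ) - 2) / P.m) * P.N D)| ≤ C * P.deg D := by
  obtain ⟨C, hC⟩ := P.gauss
  refine ⟨C, fun D hD => ?_⟩
  have h := hC D hD
  have hm : (0 : ℝ) < P.m := m_pos_real_h199 P
  have key : P.L D - (P.K D - ((2 * (P.g : ℝ) - 2) / P.m) * P.N D)
      = -(P.K D - (P.pr P.Rt D - (((P.deg P.Rt : ℝ) - (2 * P.g - 2)) / P.m) * P.N D)) := by
    unfold PairingPackage.L
    field_simp
    ring
  rw [key, abs_neg]
  exact h

/-- **F-ELL.** -/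
theorem ell (P : PairingPackage A) : ∃ l : A → ℝ, P.EllStatement l := by
  classical
  -- chosen good representatives of degree `d`
  have hrep : ∀ x : A, ∃ D : P.Dv, P.deg D = P.d ∧ P.cls D = x ∧ P.Disj D P.Rt ∧ P.Good D :=
    fun x => P.mov1 x P.Rt
  choose rep hdeg hcls hdisj hgood using hrep
  obtain ⟨C₁, h₁⟩ := L_class_bound_h199 P
  obtain ⟨C₂, h₂⟩ := K_sub_L_bound_h199 P
  have hnum := P.four_d_le_m
  refine ⟨fun x => P.L (rep x), ⟨C₁ + C₂ * P.d, fun x D hD hx hg => ?_⟩,
    ⟨C₁ + |P.L (rep 0)|, fun x y => ?_⟩⟩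
  · -- `l x = L (rep x) = L D + O(1) = K D - ((2g-2)/m) N D + O(1)`
    have e₁ := h₁ (rep x) D (by rw [hdeg, hD]) (by rw [hdeg]; omega) (by rw [hcls, hx])
      (hdisj x) (P.good_disj_Rt D hg)
    have e₂ := h₂ D hg
    rw [hD] at e₂
    have key : P.L (rep x) - (P.K D - ((2 * (P.g : ℝ) - 2) / P.m) * P.N D)
        = (P.L (rep x) - P.L D) + (P.L D - (P.K D - ((2 * (P.g : ℝ) - 2) / P.m) * P.N D)) := by
      ring
    show |P.L (rep x) - (P.K D - ((2 * (P.g : ℝ) - 2) / P.m) * P.N D)| ≤ C₁ + C₂ * P.d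
    rw [key]
    exact (abs_add_le _ _).trans (add_le_add e₁ e₂)
  · -- quasi-additivity through `rep (x+y) + rep 0 ∼ rep x + rep y`
    have hd₁ : P.Disj (rep (x + y) + rep 0) P.Rt :=
      (P.disj_add_left _ _ _).mpr ⟨hdisj _, hdisj _⟩
    have hd₂ : P.Disj (rep x + rep y) P.Rt :=
      (P.disj_add_left _ _ _).mpr ⟨hdisj _, hdisj _⟩
    have e := h₁ (rep (x + y) + rep 0) (rep x + rep y)
      (by simp only [map_add, hdeg])
      (by simp only [map_add, hdeg]; omega)
      (by simp only [map_add, hcls, add_zero]) hd₁ hd₂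
    rw [L_add_h199 P _ _ hd₁, L_add_h199 P _ _ hd₂] at e
    have key : P.L (rep (x + y)) - P.L (rep x) - P.L (rep y)
        = (P.L (rep (x + y)) + P.L (rep 0) - (P.L (rep x) + P.L (rep y))) - P.L (rep 0) := by
      ring
    show |P.L (rep (x + y)) - P.L (rep x) - P.L (rep y)| ≤ C₁ + |P.L (rep 0)|
    rw [key]
    exact (abs_sub _ _).trans (add_le_add e le_rfl)

end Fermat.Agent.S17.H199

end
-- ===== PACK-END S17/H199/Ell.lean

-- ===== PACK-BEGIN S17/H924/Key.lean
section



/-!
# S17 / tower H, formal leaf F-KEY (helper924)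

`key : P.KeyStatement` — the self-pairing formula
`N D - δ D = -B(D,D₁)/2 - K D / 2 + (1 - d/m) N D + O(1)`.

Proof: `mov2` for `D, D₁` with `T := D + D₁` gives `Z a = D + R`, `Z a₁ = D₁ + R`, `R` disjoint
from `D + D₁`.  `adj (a, D, R)`, `e3 (a₁, E := D)` and `bez (a)`, `bez (a₁)` give
`2 δ D = K D + pr D D₁ + (d/m)(N D - N D₁) + O(1)`.
-/

set_option autoImplicit false

namespace Fermat.Agent.S17.H924

open Fermat.Agent.S17.H500

variable {A : Type} [AddCommGroup A]

theorem m_pos' (P : PairingPackage A) : (0 : ℝ) < P.m := by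
  have h1 := P.one_le_g
  have h2 := P.two_g_le_d
  have h3 := P.four_d_le_m
  have : 0 < P.m := by omega
  exact_mod_cast this

/-- **F-KEY.** -/
theorem key (P : PairingPackage A) : P.KeyStatement := by
  obtain ⟨Ca, hCa⟩ := P.adj
  obtain ⟨Ce, hCe⟩ := P.e3
  obtain ⟨Cb, hCb⟩ := P.bez
  have hm := m_pos' P
  have hdm : (P.d : ℝ) ≤ P.m := by
    have h3 := P.four_d_le_m
    have : P.d ≤ P.m := by omega
    exact_mod_cast this
  have hd0 : (0 : ℝ) ≤ P.d := Nat.cast_nonneg _
  refine ⟨(Ca * P.d + Ce * P.d) / 2 + Cb, ?_⟩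
  intro D D₁ hD hD₁ hcls hG _ hdisj
  -- moving lemma
  have hdeg : P.deg D = P.deg D₁ := by rw [hD, hD₁]
  have hle : P.deg D + 2 * P.g ≤ P.m := by
    have h3 := P.four_d_le_m
    rw [hD]; omega
  obtain ⟨R, a, a₁, hZa, hZa₁, hRT⟩ := P.mov2 D D₁ hdeg hle hcls (D + D₁)
  have hT := (P.disj_add_left D D₁ R).1 (P.disj_symm _ _ hRT)
  have hDR : P.Disj D R := hT.1
  have hD₁R : P.Disj D₁ R := hT.2
  have hRD : P.Disj R D := P.disj_symm _ _ hDR
  have hD₁D : P.Disj D₁ D := P.disj_symm _ _ hdisj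
  -- (ADJ)
  have h1 := hCa a D R hG hZa hDR
  -- (E3) with `a₁`, `E := D`
  have hdisjZ : P.Disj (D₁ + R) D := (P.disj_add_left D₁ R D).2 ⟨hD₁D, hRD⟩
  have h2 := hCe a₁ D (by rw [hZa₁]; exact hdisjZ)
  rw [hZa₁, P.pr_add D₁ R D hdisjZ] at h2
  -- (BEZ)
  have h3 := hCb a
  have h4 := hCb a₁
  rw [hZa, P.N_add] at h3
  rw [hZa₁, P.N_add] at h4
  rw [hD] at h1 h2
  have hCb0 : 0 ≤ Cb := le_trans (abs_nonneg _) h3
  -- notation
  set r : ℝ := (P.d : ℝ) / P.m with hr
  have hrm : r * P.m = P.d := by rw [hr]; field_simp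
  have hr0 : 0 ≤ r := div_nonneg hd0 hm.le
  have hr1 : r ≤ 1 := (div_le_one hm).2 hdm
  set e3 : ℝ := P.N D + P.N R - P.m * P.ht a with he3
  set e4 : ℝ := P.N D₁ + P.N R - P.m * P.ht a₁ with he4
  have hre3 : |r * e3| ≤ Cb := by
    rw [abs_mul, abs_of_nonneg hr0]
    calc r * |e3| ≤ 1 * |e3| := mul_le_mul_of_nonneg_right hr1 (abs_nonneg _)
      _ = |e3| := one_mul _
      _ ≤ Cb := h3
  have hre4 : |r * e4| ≤ Cb := by
    rw [abs_mul, abs_of_nonneg hr0]
    calc r * |e4| ≤ 1 * |e4| := mul_le_mul_of_nonneg_right hr1 (abs_nonneg _)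
      _ = |e4| := one_mul _
      _ ≤ Cb := h4
  -- `d * ht a = r * (N D + N R - e3)` etc.
  have ha : (P.d : ℝ) * P.ht a = r * (P.N D + P.N R) - r * e3 := by
    rw [← hrm, he3]; ring
  have ha₁ : (P.d : ℝ) * P.ht a₁ = r * (P.N D₁ + P.N R) - r * e4 := by
    rw [← hrm, he4]; ring
  rw [ha] at h1
  rw [ha₁] at h2
  have hB : P.B D D₁ = P.pr D₁ D - r * P.N D₁ - r * P.N D := by
    unfold PairingPackage.B
    rw [hD, hD₁, P.pr_symm D D₁]
  rw [hB]
  rw [abs_le] at h1 h2 hre3 hre4 ⊢
  constructor <;> nlinarith [h1.1, h1.2, h2.1, h2.2, hre3.1, hre3.2, hre4.1, hre4.2]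

end Fermat.Agent.S17.H924

end
-- ===== PACK-END S17/H924/Key.lean

-- ===== PACK-BEGIN S37/H100/EvPlace.lean
section




/-!
# S37 / E2 (helper100): evaluation at a place of degree one

For a place `v` of `F/K` of degree one, `evPlace v hv : O_v →+* K` is the residue map
("value of a function at the point `v`").
-/

set_option autoImplicit false

open AlgebraicCurve

namespace Fermat.Agent.S37.H100

variable {K F : Type*} [Field K] [Field F] [Algebra K F]

theorem bijective_algebraMap_residueField (v : Place K F) (hv : v.deg = 1) :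
    Function.Bijective (algebraMap K v.ResidueField) := by
  refine ⟨(algebraMap K v.ResidueField).injective, fun y => ?_⟩
  have h1 : (1 : v.ResidueField) ≠ 0 := one_ne_zero
  have hspan := (finrank_eq_one_iff_of_nonzero' (1 : v.ResidueField) h1).mp hv
  obtain ⟨c, hc⟩ := hspan y
  exact ⟨c, by rw [← hc, Algebra.smul_def, mul_one]⟩

/-- The value at a place of degree one. -/
noncomputable def evPlace (v : Place K F) (hv : v.deg = 1) : v.toValuationSubring →+* K :=
  ((RingEquiv.ofBijective (algebraMap K v.ResidueField)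
    (bijective_algebraMap_residueField v hv)).symm : v.ResidueField →+* K).comp
    (IsLocalRing.residue v.toValuationSubring)

theorem algebraMap_evPlace (v : Place K F) (hv : v.deg = 1) (x : v.toValuationSubring) :
    algebraMap K v.ResidueField (evPlace v hv x) = IsLocalRing.residue v.toValuationSubring x := by
  unfold evPlace
  exact (RingEquiv.ofBijective (algebraMap K v.ResidueField)
    (bijective_algebraMap_residueField v hv)).apply_symm_apply _

@[simp]
theorem evPlace_algebraMap (v : Place K F) (hv : v.deg = 1) (c : K) :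
    evPlace v hv (algebraMap K v.toValuationSubring c) = c := by
  apply (algebraMap K v.ResidueField).injective
  rw [algebraMap_evPlace, IsScalarTower.algebraMap_apply K v.toValuationSubring v.ResidueField]
  rfl

theorem evPlace_eq_zero_iff (v : Place K F) (hv : v.deg = 1) (x : v.toValuationSubring) :
    evPlace v hv x = 0 ↔ x ∈ IsLocalRing.maximalIdeal v.toValuationSubring := by
  rw [← IsLocalRing.residue_eq_zero_iff, ← algebraMap_evPlace v hv x]
  constructor
  · intro h; rw [h, map_zero]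
  · intro h
    exact (algebraMap K v.ResidueField).injective (by rw [h, map_zero])

theorem evPlace_eq_zero_iff_ord (v : Place K F) (hv : v.deg = 1) (x : v.toValuationSubring) :
    evPlace v hv x = 0 ↔ ((x : F) = 0 ∨ 0 < v.ord (x : F)) := by
  rw [evPlace_eq_zero_iff, Fermat.Agent.Lib.RR.mem_maximalIdeal_iff]

theorem sub_algebraMap_evPlace_mem (v : Place K F) (hv : v.deg = 1) (x : v.toValuationSubring) :
    x - algebraMap K v.toValuationSubring (evPlace v hv x)
      ∈ IsLocalRing.maximalIdeal v.toValuationSubring := by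
  rw [← evPlace_eq_zero_iff v hv, map_sub, evPlace_algebraMap, sub_self]

/-- `evPlace` is characterised by congruence modulo the maximal ideal. -/
theorem evPlace_eq_of_sub_mem (v : Place K F) (hv : v.deg = 1) (x : v.toValuationSubring)
    (c : K) (h : ((x : F) - algebraMap K F c = 0 ∨ 0 < v.ord ((x : F) - algebraMap K F c))) :
    evPlace v hv x = c := by
  have h1 : evPlace v hv (x - algebraMap K v.toValuationSubring c) = 0 := by
    rw [evPlace_eq_zero_iff_ord]
    exact h
  rw [map_sub, evPlace_algebraMap, sub_eq_zero] at h1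
  exact h1

end Fermat.Agent.S37.H100

end
-- ===== PACK-END S37/H100/EvPlace.lean

-- ===== PACK-BEGIN S17/H890/Val.lean
section




/-!
# S17 / H / CHOW (helper890): values of functions at places

`IsVal v f b` : the function `f` is regular at the place `v` with value `b ∈ K`
(`f - b = 0` or `ord_v (f - b) > 0`; this is the shape used by `S37.H100.fibre_charpoly`).
`pval v f` : the value (junk value `0` if `f` has no value at `v`).
-/

set_option autoImplicit false

noncomputable section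

namespace Fermat.Agent.S17.H890

open AlgebraicCurve Fermat.Agent.Lib.RR

variable {K F : Type*} [Field K] [Field F] [Algebra K F]

/-- `f` is regular at `v` with value `b`. -/
def IsVal (v : Place K F) (f : F) (b : K) : Prop :=
  f - algebraMap K F b = 0 ∨ 0 < v.ord (f - algebraMap K F b)

theorem isVal_const (v : Place K F) (b : K) : IsVal v (algebraMap K F b) b :=
  Or.inl (sub_self _)

theorem isVal_zero (v : Place K F) : IsVal v (0 : F) 0 := by
  simpa using isVal_const v (0 : K)

theorem isVal_one (v : Place K F) : IsVal v (1 : F) 1 := by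
  simpa using isVal_const v (1 : K)

theorem isVal_zero_iff (v : Place K F) (f : F) : IsVal v f 0 ↔ f = 0 ∨ 0 < v.ord f := by
  unfold IsVal
  rw [map_zero, sub_zero]

theorem isVal_of_ord_pos (v : Place K F) {f : F} (h : 0 < v.ord f) : IsVal v f 0 :=
  (isVal_zero_iff v f).mpr (Or.inr h)

/-- a function with a value is regular -/
theorem IsVal.ord_nonneg {v : Place K F} {f : F} {b : K} (h : IsVal v f b) :
    f = 0 ∨ 0 ≤ v.ord f := by
  have h1 : f - algebraMap K F b = 0 ∨ (0 : ℤ) ≤ v.ord (f - algebraMap K F b) := by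
    rcases h with h | h
    · exact Or.inl h
    · exact Or.inr h.le
  have h2 : algebraMap K F b = 0 ∨ (0 : ℤ) ≤ v.ord (algebraMap K F b) :=
    Or.inr (ord_algebraMap v b).ge
  have h3 := ord_add_of_le v h1 h2
  rwa [sub_add_cancel] at h3

theorem IsVal.mem {v : Place K F} {f : F} {b : K} (h : IsVal v f b) :
    f ∈ v.toValuationSubring := by
  rcases h.ord_nonneg with h0 | h0
  · rw [h0]; exact zero_mem _
  · exact mem_of_ord_nonneg v h0

theorem IsVal.add {v : Place K F} {f g : F} {b c : K} (hf : IsVal v f b) (hg : IsVal v g c) :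
    IsVal v (f + g) (b + c) := by
  unfold IsVal at *
  have h1 : f - algebraMap K F b = 0 ∨ (1 : ℤ) ≤ v.ord (f - algebraMap K F b) := by
    rcases hf with h | h
    · exact Or.inl h
    · exact Or.inr h
  have h2 : g - algebraMap K F c = 0 ∨ (1 : ℤ) ≤ v.ord (g - algebraMap K F c) := by
    rcases hg with h | h
    · exact Or.inl h
    · exact Or.inr h
  have h3 := ord_add_of_le v h1 h2
  have e : f + g - algebraMap K F (b + c) = (f - algebraMap K F b) + (g - algebraMap K F c) := by
    rw [map_add]; ring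
  rw [e]
  rcases h3 with h | h
  · exact Or.inl h
  · exact Or.inr h

theorem IsVal.neg {v : Place K F} {f : F} {b : K} (hf : IsVal v f b) : IsVal v (-f) (-b) := by
  unfold IsVal at *
  have e : -f - algebraMap K F (-b) = -(f - algebraMap K F b) := by
    rw [map_neg]; ring
  rw [e, ord_neg, neg_eq_zero]
  exact hf

theorem IsVal.sub {v : Place K F} {f g : F} {b c : K} (hf : IsVal v f b) (hg : IsVal v g c) :
    IsVal v (f - g) (b - c) := by
  have := hf.add hg.neg
  rwa [← sub_eq_add_neg, ← sub_eq_add_neg] at this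

/-- product of a regular function with a function vanishing at `v` -/
theorem isVal_zero_mul (v : Place K F) {f g : F} (hf : IsVal v f 0) (hg : g = 0 ∨ 0 ≤ v.ord g) :
    IsVal v (f * g) 0 := by
  rw [isVal_zero_iff] at hf ⊢
  rcases eq_or_ne f 0 with rfl | hf0
  · left; simp
  rcases eq_or_ne g 0 with rfl | hg0
  · left; simp
  right
  rw [v.ord_mul hf0 hg0]
  have h1 := hf.resolve_left hf0
  have h2 := hg.resolve_left hg0
  omega

theorem IsVal.mul {v : Place K F} {f g : F} {b c : K} (hf : IsVal v f b) (hg : IsVal v g c) :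
    IsVal v (f * g) (b * c) := by
  have e : f * g = (f - algebraMap K F b) * g + algebraMap K F b * (g - algebraMap K F c)
      + algebraMap K F (b * c) := by
    rw [map_mul]; ring
  have h1 : IsVal v ((f - algebraMap K F b) * g) 0 :=
    isVal_zero_mul v ((isVal_zero_iff v _).mpr hf) hg.ord_nonneg
  have h2 : IsVal v (algebraMap K F b * (g - algebraMap K F c)) 0 := by
    rw [mul_comm]
    exact isVal_zero_mul v ((isVal_zero_iff v _).mpr hg) (Or.inr (ord_algebraMap v b).ge)
  have h3 := (h1.add h2).add (isVal_const v (b * c))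
  rw [← e] at h3
  simpa using h3

theorem IsVal.unique {v : Place K F} {f : F} {b c : K} (hb : IsVal v f b) (hc : IsVal v f c) :
    b = c := by
  by_contra hne
  have h := hb.sub hc
  rw [sub_self] at h
  unfold IsVal at h
  rw [zero_sub, ord_neg, neg_eq_zero] at h
  have hcb : b - c ≠ 0 := sub_ne_zero.mpr hne
  rcases h with h0 | h0
  · exact hcb ((map_eq_zero _).mp h0)
  · rw [ord_algebraMap] at h0
    exact lt_irrefl _ h0

/-- a function with nonzero value is a unit at `v` -/
theorem IsVal.ne_zero {v : Place K F} {f : F} {b : K} (h : IsVal v f b) (hb : b ≠ 0) :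
    f ≠ 0 := by
  rintro rfl
  exact hb (h.unique (isVal_zero v))

theorem IsVal.ord_eq_zero {v : Place K F} {f : F} {b : K} (h : IsVal v f b) (hb : b ≠ 0) :
    v.ord f = 0 := by
  have hf0 := h.ne_zero hb
  have h1 := h.ord_nonneg.resolve_left hf0
  by_contra hne
  have hpos : 0 < v.ord f := lt_of_le_of_ne h1 (Ne.symm hne)
  exact hb (h.unique (isVal_of_ord_pos v hpos))

theorem IsVal.inv {v : Place K F} {f : F} {b : K} (h : IsVal v f b) (hb : b ≠ 0) :
    IsVal v f⁻¹ b⁻¹ := by
  have hf0 := h.ne_zero hb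
  have hord := h.ord_eq_zero hb
  have hbF : algebraMap K F b ≠ 0 := (map_ne_zero _).mpr hb
  have e : f⁻¹ - algebraMap K F b⁻¹ = -(f - algebraMap K F b) * (f⁻¹ * algebraMap K F b⁻¹) := by
    rw [map_inv₀]
    field_simp
    ring
  unfold IsVal
  rw [e]
  have h0 : IsVal v (-(f - algebraMap K F b)) 0 := by
    have := ((isVal_zero_iff v _).mpr h).neg
    simpa using this
  have hreg : f⁻¹ * algebraMap K F b⁻¹ = 0 ∨ 0 ≤ v.ord (f⁻¹ * algebraMap K F b⁻¹) := by
    right
    rw [v.ord_mul (inv_ne_zero hf0) ((map_ne_zero _).mpr (inv_ne_zero hb)), v.ord_inv, hord,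
      ord_algebraMap]
    simp
  exact (isVal_zero_iff v _).mp (isVal_zero_mul v h0 hreg)

theorem IsVal.div {v : Place K F} {f g : F} {b c : K} (hf : IsVal v f b) (hg : IsVal v g c)
    (hc : c ≠ 0) : IsVal v (f / g) (b / c) := by
  rw [div_eq_mul_inv, div_eq_mul_inv]
  exact hf.mul (hg.inv hc)

theorem IsVal.pow {v : Place K F} {f : F} {b : K} (h : IsVal v f b) (n : ℕ) :
    IsVal v (f ^ n) (b ^ n) := by
  induction n with
  | zero => simpa using isVal_one v
  | succ n ih => rw [pow_succ, pow_succ]; exact ih.mul h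

theorem IsVal.zpow {v : Place K F} {f : F} {b : K} (h : IsVal v f b) (hb : b ≠ 0) (n : ℤ) :
    IsVal v (f ^ n) (b ^ n) := by
  cases n with
  | ofNat n => simpa using h.pow n
  | negSucc n =>
    rw [zpow_negSucc, zpow_negSucc]
    exact (h.pow (n + 1)).inv (pow_ne_zero _ hb)

theorem isVal_prod {ι : Type*} (v : Place K F) (s : Finset ι) (f : ι → F) (b : ι → K)
    (h : ∀ i ∈ s, IsVal v (f i) (b i)) : IsVal v (∏ i ∈ s, f i) (∏ i ∈ s, b i) := by
  classical
  induction s using Finset.induction_on with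
  | empty => simpa using isVal_one v
  | insert i s hi ih =>
    rw [Finset.prod_insert hi, Finset.prod_insert hi]
    exact (h i (Finset.mem_insert_self i s)).mul
      (ih fun j hj => h j (Finset.mem_insert_of_mem hj))

/-- at a place of degree one every regular function has a value -/
theorem exists_isVal (v : Place K F) (hv : v.deg = 1) {f : F} (hf : f = 0 ∨ 0 ≤ v.ord f) :
    ∃ b : K, IsVal v f b := by
  rcases eq_or_ne f 0 with rfl | hf0
  · exact ⟨0, isVal_zero v⟩
  · exact exists_const_sub v hv (hf.resolve_left hf0)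

/-- the value of `f` at `v` (junk value `0` if `f` has no value at `v`) -/
def pval (v : Place K F) (f : F) : K :=
  haveI := Classical.propDecidable
  if h : ∃ b, IsVal v f b then h.choose else 0

theorem isVal_pval {v : Place K F} {f : F} (h : ∃ b, IsVal v f b) : IsVal v f (pval v f) := by
  unfold pval
  rw [dif_pos h]
  exact h.choose_spec

theorem IsVal.pval_eq {v : Place K F} {f : F} {b : K} (h : IsVal v f b) : pval v f = b :=
  (isVal_pval ⟨b, h⟩).unique h

theorem isVal_pval_of_ord_nonneg (v : Place K F) (hv : v.deg = 1) {f : F}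
    (hf : f = 0 ∨ 0 ≤ v.ord f) : IsVal v f (pval v f) :=
  isVal_pval (exists_isVal v hv hf)

/-- a unit at `v` has a nonzero value -/
theorem pval_ne_zero_of_ord_eq_zero (v : Place K F) (hv : v.deg = 1) {f : F} (hf0 : f ≠ 0)
    (hf : v.ord f = 0) : pval v f ≠ 0 := by
  intro h0
  have h := isVal_pval_of_ord_nonneg v hv (Or.inr hf.ge)
  rw [h0, isVal_zero_iff] at h
  rcases h with h | h
  · exact hf0 h
  · omega

theorem pval_const (v : Place K F) (b : K) : pval v (algebraMap K F b) = b :=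
  (isVal_const v b).pval_eq

end Fermat.Agent.S17.H890

end
end
-- ===== PACK-END S17/H890/Val.lean

-- ===== PACK-BEGIN S17/H830/AbsFin.lean
section



/-!
# S17 / tower H, piece ABS (helper830), part 2: the finite part of the height via embeddings

`K` a number field, `Ω` an algebraically closed field of characteristic zero, and for every prime
`p` a nonarchimedean absolute value `v p` on `Ω` with `v p p = p⁻¹`.

Main result `prod_embeddings_finprod_iSup_eq` : for an integral tuple `x : ι → 𝓞 K`, `x ≠ 0`,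

  `∏ τ : K →+* Ω, ∏ᶠ p, ⨆ i, v p (τ (x i)) = (absNorm (span (range x)))⁻¹`.

Together with Mathlib's `NumberField.absNorm_mul_finprod_finitePlace_eq_one` this identifies the
finite part of Mathlib's height on `K` with a sum of local terms on `Ω` over all embeddings.
-/

set_option autoImplicit false

noncomputable section

namespace Fermat.Agent.S17.H830

open NumberField

section NF

variable {K : Type*} [Field K]
variable {Ω : Type*} [Field Ω]

/-- Integers of `K` have absolute value `≤ 1` under every embedding. -/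
theorem abv_embedding_le_one {v : AbsoluteValue Ω ℝ} (hv : IsNonarchimedean v)
    (τ : K →+* Ω) (a : 𝓞 K) : v (τ (a : K)) ≤ 1 :=
  abv_le_one_of_isIntegral hv (map_isIntegral_int τ (RingOfIntegers.isIntegral_coe a))

/-- The ideal of integers of absolute value `≤ r` under an embedding. -/
def ballIdeal {v : AbsoluteValue Ω ℝ} (hv : IsNonarchimedean v) (τ : K →+* Ω) (r : ℝ)
    (hr : 0 ≤ r) : Ideal (𝓞 K) where
  carrier := {a | v (τ (a : K)) ≤ r}
  add_mem' := by
    intro a b ha hb
    simp only [Set.mem_ofPred_eq] at ha hb ⊢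
    push_cast
    rw [map_add]
    exact (hv _ _).trans (max_le ha hb)
  zero_mem' := by
    simp only [Set.mem_ofPred_eq, map_zero]
    exact hr
  smul_mem' := by
    intro c a ha
    simp only [Set.mem_ofPred_eq] at ha ⊢
    rw [smul_eq_mul]
    push_cast
    rw [map_mul, map_mul]
    calc v (τ (c : K)) * v (τ (a : K)) ≤ 1 * r :=
          mul_le_mul (abv_embedding_le_one hv τ c) ha (by positivity) zero_le_one
      _ = r := one_mul r

theorem mem_ballIdeal {v : AbsoluteValue Ω ℝ} (hv : IsNonarchimedean v) (τ : K →+* Ω) {r : ℝ}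
    (hr : 0 ≤ r) (a : 𝓞 K) : a ∈ ballIdeal hv τ r hr ↔ v (τ (a : K)) ≤ r := Iff.rfl

theorem ballIdeal_mul_le {v : AbsoluteValue Ω ℝ} (hv : IsNonarchimedean v) (τ : K →+* Ω)
    {r s : ℝ} (hr : 0 ≤ r) (hs : 0 ≤ s) :
    ballIdeal hv τ r hr * ballIdeal hv τ s hs ≤ ballIdeal hv τ (r * s) (mul_nonneg hr hs) := by
  rw [Ideal.mul_le]
  intro a ha b hb
  rw [mem_ballIdeal] at ha hb ⊢
  push_cast
  rw [map_mul, map_mul]
  exact mul_le_mul ha hb (by positivity) hr

theorem pow_le_ballIdeal {v : AbsoluteValue Ω ℝ} (hv : IsNonarchimedean v) (τ : K →+* Ω)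
    {r : ℝ} (hr : 0 ≤ r) (I : Ideal (𝓞 K)) (hI : I ≤ ballIdeal hv τ r hr) (h : ℕ) :
    I ^ h ≤ ballIdeal hv τ (r ^ h) (pow_nonneg hr h) := by
  induction h with
  | zero =>
    intro a _
    rw [mem_ballIdeal, pow_zero]
    exact abv_embedding_le_one hv τ a
  | succ n ih =>
    rw [pow_succ]
    refine (Ideal.mul_mono ih hI).trans ?_
    refine (ballIdeal_mul_le hv τ (pow_nonneg hr n) hr).trans ?_
    intro a ha
    rw [mem_ballIdeal] at ha ⊢
    rwa [pow_succ]

variable {ι : Type*} [Finite ι]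

/-- Key local identity: if `(span (range x)) ^ h = (c)`, then
`(⨆ i, v (τ (x i))) ^ h = v (τ c)`. -/
theorem iSup_abv_pow_eq {v : AbsoluteValue Ω ℝ} (hv : IsNonarchimedean v) (τ : K →+* Ω)
    [Nonempty ι] (x : ι → 𝓞 K) {h : ℕ} {c : 𝓞 K}
    (hc : Ideal.span (Set.range x) ^ h = Ideal.span {c}) :
    (⨆ i, v (τ (x i : K))) ^ h = v (τ (c : K)) := by
  have hbdd : BddAbove (Set.range fun i => v (τ (x i : K))) := Set.finite_range _ |>.bddAbove
  have hN0 : 0 ≤ ⨆ i, v (τ (x i : K)) := Real.iSup_nonneg fun i => by positivity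
  refine le_antisymm ?_ ?_
  · -- `N ^ h ≤ v (τ c)`
    obtain ⟨i₀, hi₀⟩ := exists_eq_ciSup_of_finite (f := fun i => v (τ (x i : K)))
    rw [← hi₀]
    have hmem : x i₀ ^ h ∈ Ideal.span (Set.range x) ^ h :=
      Ideal.pow_mem_pow (Ideal.subset_span (Set.mem_range_self i₀)) h
    rw [hc, Ideal.mem_span_singleton'] at hmem
    obtain ⟨a, ha⟩ := hmem
    have h1 : (v (τ (x i₀ : K))) ^ h = v (τ (a : K)) * v (τ (c : K)) := by
      rw [← map_pow, ← map_pow, ← map_mul, ← map_mul]
      congr 2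
      have := congrArg (fun z : 𝓞 K => (z : K)) ha
      push_cast at this
      exact this.symm
    show v (τ (x i₀ : K)) ^ h ≤ v (τ (c : K))
    rw [h1]
    calc v (τ (a : K)) * v (τ (c : K)) ≤ 1 * v (τ (c : K)) :=
          mul_le_mul_of_nonneg_right (abv_embedding_le_one hv τ a) (by positivity)
      _ = v (τ (c : K)) := one_mul _
  · -- `v (τ c) ≤ N ^ h`
    have hI : Ideal.span (Set.range x) ≤ ballIdeal hv τ (⨆ i, v (τ (x i : K))) hN0 := by
      rw [Ideal.span_le]
      rintro _ ⟨i, rfl⟩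
      exact le_ciSup hbdd i
    have := pow_le_ballIdeal hv τ hN0 _ hI h
    have hcmem : c ∈ Ideal.span (Set.range x) ^ h := by
      rw [hc]; exact Ideal.mem_span_singleton_self c
    exact this hcmem

end NF

section Global

variable {K : Type*} [Field K] [NumberField K]
variable {Ω : Type*} [Field Ω] [CharZero Ω] [IsAlgClosed Ω]

/-- The product of all conjugates of `c` in `Ω` is the norm of `c`. -/
theorem prod_embeddings_eq_norm (c : K) :
    ∏ τ : K →+* Ω, τ c = algebraMap ℚ Ω (Algebra.norm ℚ c) := by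
  rw [Algebra.norm_eq_prod_embeddings ℚ Ω c]
  exact Fintype.prod_equiv (RingHom.equivRatAlgHom K Ω) _ _ (fun τ => rfl)

omit [CharZero Ω] [IsAlgClosed Ω] in
theorem abv_intCast_eq_natAbs (v : AbsoluteValue Ω ℝ) (z : ℤ) :
    v (z : Ω) = v ((z.natAbs : ℕ) : Ω) := by
  rcases Int.natAbs_eq z with h | h
  · conv_lhs => rw [h]
    simp
  · conv_lhs => rw [h]
    simp

/-- The product over all embeddings of the `p`-adic absolute values of an integer `c ≠ 0`
is the `p`-part of the inverse of the absolute norm of `(c)`. -/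
theorem prod_embeddings_abv_eq {v : AbsoluteValue Ω ℝ} (hv : IsNonarchimedean v)
    {p : ℕ} (hp : p.Prime) (hvp : v (p : Ω) = (p : ℝ)⁻¹) {c : 𝓞 K} (hc : c ≠ 0) :
    ∏ τ : K →+* Ω, v (τ (c : K)) =
      ((p : ℝ)⁻¹) ^ ((Ideal.absNorm (Ideal.span {c})).factorization p) := by
  rw [← map_prod, prod_embeddings_eq_norm, ← Algebra.coe_norm_int c]
  have h1 : algebraMap ℚ Ω ((Algebra.norm ℤ c : ℤ) : ℚ) = ((Algebra.norm ℤ c : ℤ) : Ω) := by
    simp
  rw [h1, abv_intCast_eq_natAbs, ← Ideal.absNorm_span_singleton]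
  refine abv_natCast_eq hv hp hvp ?_
  rw [Ne, Ideal.absNorm_eq_zero_iff, Ideal.span_singleton_eq_bot]
  exact hc

/-- For `p` not dividing the norm of `c`, all conjugates of `c` are `p`-adic units. -/
theorem abv_embedding_eq_one_of_not_dvd {v : AbsoluteValue Ω ℝ} (hv : IsNonarchimedean v)
    {p : ℕ} (hp : p.Prime) (hvp : v (p : Ω) = (p : ℝ)⁻¹) {c : 𝓞 K} (hc : c ≠ 0)
    (hdvd : ¬ p ∣ Ideal.absNorm (Ideal.span {c})) (τ : K →+* Ω) : v (τ (c : K)) = 1 := by
  have h := prod_embeddings_abv_eq (K := K) hv hp hvp hc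
  rw [Nat.factorization_eq_zero_of_not_dvd hdvd, pow_zero] at h
  exact eq_one_of_prod_eq_one Finset.univ (fun τ : K →+* Ω => v (τ (c : K)))
    (fun _ _ => by positivity) (fun τ _ => abv_embedding_le_one hv τ c) h τ (Finset.mem_univ τ)

variable (v : Nat.Primes → AbsoluteValue Ω ℝ)

/-- For an integer `c ≠ 0` of `K` and an embedding `τ`, `v p (τ c) = 1` for almost all `p`. -/
theorem hasFiniteMulSupport_abv_embedding (hv : ∀ p, IsNonarchimedean (v p))
    (hvp : ∀ p : Nat.Primes, v p ((p : ℕ) : Ω) = ((p : ℕ) : ℝ)⁻¹) {c : 𝓞 K} (hc : c ≠ 0)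
    (τ : K →+* Ω) : (Function.mulSupport fun p : Nat.Primes => v p (τ (c : K))).Finite := by
  have hn : Ideal.absNorm (Ideal.span {c}) ≠ 0 := by
    rw [Ne, Ideal.absNorm_eq_zero_iff, Ideal.span_singleton_eq_bot]
    exact hc
  have hfin : {p : Nat.Primes | (p : ℕ) ∣ Ideal.absNorm (Ideal.span {c})}.Finite := by
    have h1 : ((Ideal.absNorm (Ideal.span {c})).primeFactors : Set ℕ).Finite :=
      Finset.finite_toSet _
    refine Set.Finite.of_finite_image (f := fun p : Nat.Primes => (p : ℕ)) (h1.subset ?_) ?_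
    · rintro _ ⟨p, hp, rfl⟩
      exact Nat.mem_primeFactors.mpr ⟨p.2, hp, hn⟩
    · intro a _ b _ hab
      exact Subtype.ext hab
  refine hfin.subset ?_
  intro p hp
  simp only [Function.mem_mulSupport, ne_eq] at hp
  by_contra hdvd
  exact hp (abv_embedding_eq_one_of_not_dvd (hv p) p.2 (hvp p) hc hdvd τ)

/-- Product formula for integers of `K`, finite part, in embedding form. -/
theorem prod_embeddings_finprod_abv_eq (hv : ∀ p, IsNonarchimedean (v p))
    (hvp : ∀ p : Nat.Primes, v p ((p : ℕ) : Ω) = ((p : ℕ) : ℝ)⁻¹) {c : 𝓞 K} (hc : c ≠ 0) :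
    ∏ τ : K →+* Ω, ∏ᶠ p : Nat.Primes, v p (τ (c : K)) =
      ((Ideal.absNorm (Ideal.span {c}) : ℕ) : ℝ)⁻¹ := by
  have hn : Ideal.absNorm (Ideal.span {c}) ≠ 0 := by
    rw [Ne, Ideal.absNorm_eq_zero_iff, Ideal.span_singleton_eq_bot]
    exact hc
  rw [prod_finprod_comm Finset.univ (fun (τ : K →+* Ω) (p : Nat.Primes) => v p (τ (c : K)))
    (fun τ _ => hasFiniteMulSupport_abv_embedding v hv hvp hc τ)]
  rw [← finprod_primes_inv_pow_factorization hn]
  refine finprod_congr fun p => ?_
  exact prod_embeddings_abv_eq (hv p) p.2 (hvp p) hc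

omit [CharZero Ω] [IsAlgClosed Ω] in
/-- Some positive power of a nonzero ideal of `𝓞 K` is principal (finiteness of the class
group). -/
theorem exists_pow_eq_span_singleton (I : Ideal (𝓞 K)) (hI : I ≠ ⊥) :
    ∃ h : ℕ, h ≠ 0 ∧ ∃ c : 𝓞 K, c ≠ 0 ∧ I ^ h = Ideal.span {c} := by
  classical
  have hI' : I ∈ nonZeroDivisors (Ideal (𝓞 K)) := mem_nonZeroDivisors_iff_ne_zero.mpr hI
  refine ⟨Fintype.card (ClassGroup (𝓞 K)), Fintype.card_ne_zero, ?_⟩
  have h1 : (ClassGroup.mk0 ⟨I, hI'⟩) ^ Fintype.card (ClassGroup (𝓞 K)) = 1 := pow_card_eq_one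
  rw [← map_pow] at h1
  have hpow : I ^ Fintype.card (ClassGroup (𝓞 K)) ∈ nonZeroDivisors (Ideal (𝓞 K)) :=
    pow_mem hI' _
  have h2 : (⟨I, hI'⟩ : nonZeroDivisors (Ideal (𝓞 K))) ^ Fintype.card (ClassGroup (𝓞 K)) =
      ⟨I ^ Fintype.card (ClassGroup (𝓞 K)), hpow⟩ := Subtype.ext (by simp)
  rw [h2, ClassGroup.mk0_eq_one_iff] at h1
  obtain ⟨c, hc⟩ := h1
  refine ⟨c, ?_, ?_⟩
  · rintro rfl
    have hne : I ^ Fintype.card (ClassGroup (𝓞 K)) ≠ ⊥ := pow_ne_zero _ hI
    apply hne
    rw [hc]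
    simp
  · rw [hc]

variable {ι : Type*} [Finite ι]

/-- For an integral tuple `x ≠ 0` and an embedding `τ`, `⨆ i, v p (τ (x i)) = 1` for almost
all primes `p`. -/
theorem hasFiniteMulSupport_iSup_abv (hv : ∀ p, IsNonarchimedean (v p))
    (hvp : ∀ p : Nat.Primes, v p ((p : ℕ) : Ω) = ((p : ℕ) : ℝ)⁻¹) (x : ι → 𝓞 K) (hx : x ≠ 0)
    (τ : K →+* Ω) :
    Function.HasFiniteMulSupport (fun p : Nat.Primes => ⨆ i, v p (τ (x i : K))) := by
  obtain ⟨i₀, hi₀⟩ := Function.ne_iff.mp hx
  have : Nonempty ι := ⟨i₀⟩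
  have hi₀' : x i₀ ≠ 0 := hi₀
  refine (hasFiniteMulSupport_abv_embedding v hv hvp hi₀' τ).subset ?_
  intro p hp
  simp only [Function.mem_mulSupport, ne_eq] at hp ⊢
  intro h1
  apply hp
  have hbdd : BddAbove (Set.range fun i => v p (τ (x i : K))) := Set.finite_range _ |>.bddAbove
  refine le_antisymm ?_ ?_
  · exact ciSup_le fun i => abv_embedding_le_one (hv p) τ (x i)
  · rw [← h1]
    exact le_ciSup hbdd i₀

/-- **Finite part of the height in embedding form.**  For an integral tuple `x ≠ 0`, the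
product over all embeddings `τ : K →+* Ω` and all primes `p` of `⨆ i, v p (τ (x i))` is the
inverse of the absolute norm of the ideal generated by the `x i`. -/
theorem prod_embeddings_finprod_iSup_eq (hv : ∀ p, IsNonarchimedean (v p))
    (hvp : ∀ p : Nat.Primes, v p ((p : ℕ) : Ω) = ((p : ℕ) : ℝ)⁻¹) (x : ι → 𝓞 K) (hx : x ≠ 0) :
    ∏ τ : K →+* Ω, ∏ᶠ p : Nat.Primes, ⨆ i, v p (τ (x i : K)) =
      ((Ideal.absNorm (Ideal.span (Set.range x)) : ℕ) : ℝ)⁻¹ := by
  obtain ⟨i₀, hi₀⟩ := Function.ne_iff.mp hx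
  have : Nonempty ι := ⟨i₀⟩
  have hI : Ideal.span (Set.range x) ≠ ⊥ := by
    intro h
    apply hi₀
    have : x i₀ ∈ Ideal.span (Set.range x) := Ideal.subset_span (Set.mem_range_self i₀)
    rw [h] at this
    simpa using this
  obtain ⟨h, hh, c, hc0, hc⟩ := exists_pow_eq_span_singleton _ hI
  have key : ∀ (τ : K →+* Ω) (p : Nat.Primes),
      (⨆ i, v p (τ (x i : K))) ^ h = v p (τ (c : K)) :=
    fun τ p => iSup_abv_pow_eq (hv p) τ x hc
  have hnn : ∀ (τ : K →+* Ω) (p : Nat.Primes), 0 ≤ ⨆ i, v p (τ (x i : K)) :=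
    fun τ p => Real.iSup_nonneg fun i => by positivity
  have hA : 0 ≤ ∏ τ : K →+* Ω, ∏ᶠ p : Nat.Primes, ⨆ i, v p (τ (x i : K)) :=
    Finset.prod_nonneg fun τ _ => finprod_nonneg fun p => hnn τ p
  have hB : (0 : ℝ) ≤ ((Ideal.absNorm (Ideal.span (Set.range x)) : ℕ) : ℝ)⁻¹ := by positivity
  refine (pow_left_inj₀ hA hB hh).mp ?_
  rw [← Finset.prod_pow]
  calc ∏ τ : K →+* Ω, (∏ᶠ p : Nat.Primes, ⨆ i, v p (τ (x i : K))) ^ h
      = ∏ τ : K →+* Ω, ∏ᶠ p : Nat.Primes, v p (τ (c : K)) := by
        refine Finset.prod_congr rfl fun τ _ => ?_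
        rw [finprod_pow (hasFiniteMulSupport_iSup_abv v hv hvp x hx τ)]
        exact finprod_congr fun p => key τ p
    _ = ((Ideal.absNorm (Ideal.span {c}) : ℕ) : ℝ)⁻¹ :=
        prod_embeddings_finprod_abv_eq v hv hvp hc0
    _ = (((Ideal.absNorm (Ideal.span (Set.range x)) : ℕ) : ℝ)⁻¹) ^ h := by
        rw [← hc, map_pow, Nat.cast_pow, inv_pow]

end Global

end Fermat.Agent.S17.H830

end
end
-- ===== PACK-END S17/H830/AbsFin.lean

-- ===== PACK-BEGIN S17/H830/AbsGlobal.lean
section



/-!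
# S17 / tower H, piece ABS (helper830), part 3: Mathlib heights as sums of local terms over
embeddings

`Ω` is an algebraically closed field of characteristic zero (in the application `ℚ̄`) with a
system `S : AbsSystem Ω` of absolute values: one embedding `S.inf : Ω →+* ℂ` and, for every prime
`p`, a nonarchimedean absolute value `S.fin p` with `S.fin p p = p⁻¹`.

For a tuple `x : ι → Ω` put
  `S.locInf x = ⨆ i, ‖S.inf (x i)‖`,   `S.locFin p x = ⨆ i, S.fin p (x i)`,
  `S.locMul x = S.locInf x * ∏ᶠ p, S.locFin p x`.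

Main results, for a number field `K` and `y : ι → K`, `y ≠ 0`:

* `mulHeight_eq_prod_locMul` : `Height.mulHeight y = ∏ τ : K →+* Ω, S.locMul (τ ∘ y)`;
* `logHeight_eq_sum_log_locMul` : the logarithmic version;
* `hasFiniteMulSupport_locFin` : `S.locFin p (τ ∘ y) = 1` for almost all `p`;
* `prod_locMul_singleton` : product formula in embedding form.
-/

set_option autoImplicit false

noncomputable section

namespace Fermat.Agent.S17.H830

open NumberField

/-- A system of absolute values on `Ω` extending the standard absolute values of `ℚ`. -/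
structure AbsSystem (Ω : Type*) [Field Ω] where
  /-- the archimedean embedding -/
  inf : Ω →+* ℂ
  /-- the `p`-adic absolute values -/
  fin : Nat.Primes → AbsoluteValue Ω ℝ
  nonarch : ∀ p, IsNonarchimedean (fin p)
  fin_p : ∀ p : Nat.Primes, fin p ((p : ℕ) : Ω) = ((p : ℕ) : ℝ)⁻¹

namespace AbsSystem

variable {Ω : Type*} [Field Ω] (S : AbsSystem Ω) {ι : Type*}

/-- archimedean local factor of a tuple -/
def locInf (x : ι → Ω) : ℝ := ⨆ i, ‖S.inf (x i)‖

/-- `p`-adic local factor of a tuple -/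
def locFin (p : Nat.Primes) (x : ι → Ω) : ℝ := ⨆ i, S.fin p (x i)

/-- the product of all local factors of a tuple -/
def locMul (x : ι → Ω) : ℝ := S.locInf x * ∏ᶠ p : Nat.Primes, S.locFin p x

theorem locInf_nonneg (x : ι → Ω) : 0 ≤ S.locInf x :=
  Real.iSup_nonneg fun _ => norm_nonneg _

theorem locFin_nonneg (p : Nat.Primes) (x : ι → Ω) : 0 ≤ S.locFin p x :=
  Real.iSup_nonneg fun _ => by positivity

theorem locInf_smul [Finite ι] (c : Ω) (x : ι → Ω) :
    S.locInf (fun i => c * x i) = ‖S.inf c‖ * S.locInf x := by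
  unfold locInf
  simp only [map_mul, norm_mul]
  rw [Real.mul_iSup_of_nonneg (norm_nonneg _)]

theorem locFin_smul [Finite ι] (p : Nat.Primes) (c : Ω) (x : ι → Ω) :
    S.locFin p (fun i => c * x i) = S.fin p c * S.locFin p x := by
  unfold locFin
  simp only [map_mul]
  rw [Real.mul_iSup_of_nonneg (by positivity)]

end AbsSystem

section Arch

variable {K : Type*} [Field K] [NumberField K] {ι : Type*}

/-- The archimedean part of Mathlib's height as a product over complex embeddings. -/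
theorem prod_infinitePlace_iSup_eq (x : ι → K) :
    ∏ w : InfinitePlace K, (⨆ i, w (x i)) ^ w.mult = ∏ φ : K →+* ℂ, ⨆ i, ‖φ (x i)‖ := by
  classical
  rw [← Finset.prod_fiberwise Finset.univ (fun φ : K →+* ℂ => InfinitePlace.mk φ)
    (fun φ => ⨆ i, ‖φ (x i)‖)]
  refine Finset.prod_congr rfl fun w _ => ?_
  rw [← InfinitePlace.card_filter_mk_eq w, ← Finset.prod_const]
  refine Finset.prod_congr rfl fun φ hφ => ?_
  have hw : InfinitePlace.mk φ = w := (Finset.mem_filter.mp hφ).2
  simp only [← hw, InfinitePlace.apply]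

variable {Ω : Type*} [Field Ω] [CharZero Ω] [IsAlgClosed Ω]

/-- Composition with an embedding `Ω →+* ℂ` is a bijection between the embeddings of `K` into
`Ω` and into `ℂ`. -/
theorem prod_embeddings_comp (ψ : Ω →+* ℂ) {M : Type*} [CommMonoid M] (g : (K →+* ℂ) → M) :
    ∏ τ : K →+* Ω, g (ψ.comp τ) = ∏ φ : K →+* ℂ, g φ := by
  refine Fintype.prod_bijective (fun τ : K →+* Ω => ψ.comp τ) ?_ _ _ (fun _ => rfl)
  rw [Fintype.bijective_iff_injective_and_card]
  refine ⟨?_, ?_⟩
  · intro τ₁ τ₂ h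
    ext a
    exact ψ.injective (RingHom.congr_fun h a)
  · rw [Embeddings.card K Ω, Embeddings.card K ℂ]

end Arch

section Main

variable {K : Type*} [Field K] [NumberField K]
variable {Ω : Type*} [Field Ω] [CharZero Ω] [IsAlgClosed Ω] (S : AbsSystem Ω)
variable {ι : Type*} [Finite ι]

/-- The height formula for integral tuples. -/
theorem mulHeight_eq_prod_locMul_int (x : ι → 𝓞 K) (hx : x ≠ 0) :
    Height.mulHeight (fun i => (x i : K)) = ∏ τ : K →+* Ω, S.locMul (fun i => τ (x i : K)) := by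
  have hx' : (fun i => (x i : K)) ≠ 0 := by
    intro h
    apply hx
    funext i
    have := congrFun h i
    simpa using this
  rw [NumberField.mulHeight_eq hx']
  have hfin := NumberField.absNorm_mul_finprod_finitePlace_eq_one hx
  have hn : ((Ideal.absNorm (Ideal.span (Set.range x)) : ℕ) : ℝ) ≠ 0 := by
    intro h
    rw [h, zero_mul] at hfin
    exact zero_ne_one hfin
  have hfin' : ∏ᶠ v : FinitePlace K, ⨆ i, v (x i : K) =
      ((Ideal.absNorm (Ideal.span (Set.range x)) : ℕ) : ℝ)⁻¹ :=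
    eq_inv_of_mul_eq_one_right hfin
  rw [hfin', prod_infinitePlace_iSup_eq]
  unfold AbsSystem.locMul
  rw [Finset.prod_mul_distrib]
  congr 1
  · exact (prod_embeddings_comp S.inf (fun φ : K →+* ℂ => ⨆ i, ‖φ (x i : K)‖)).symm
  · exact (prod_embeddings_finprod_iSup_eq S.fin S.nonarch S.fin_p x hx).symm

/-- Product formula for nonzero integers of `K` in embedding form. -/
theorem prod_locMul_singleton_int {b : 𝓞 K} (hb : b ≠ 0) :
    ∏ τ : K →+* Ω, (‖S.inf (τ (b : K))‖ * ∏ᶠ p : Nat.Primes, S.fin p (τ (b : K))) = 1 := by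
  have h := mulHeight_eq_prod_locMul_int S (fun _ : Unit => b)
    (by intro h; exact hb (congrFun h ()))
  rw [Height.mulHeight_eq_one_of_subsingleton] at h
  rw [h]
  refine Finset.prod_congr rfl fun τ _ => ?_
  unfold AbsSystem.locMul AbsSystem.locInf AbsSystem.locFin
  simp only [ciSup_unique]

/-- Clearing denominators of a finite tuple. -/
theorem exists_integral_multiple (y : ι → K) (hy : y ≠ 0) :
    ∃ b : 𝓞 K, b ≠ 0 ∧ ∃ a : ι → 𝓞 K, a ≠ 0 ∧ ∀ i, (a i : K) = (b : K) * y i := by
  obtain ⟨b, hb⟩ := IsLocalization.exist_integer_multiples_of_finite (nonZeroDivisors (𝓞 K)) y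
  have hb0 : (b : 𝓞 K) ≠ 0 := nonZeroDivisors.coe_ne_zero b
  choose a ha using hb
  refine ⟨b, hb0, a, ?_, ?_⟩
  · obtain ⟨i₀, hi₀⟩ := Function.ne_iff.mp hy
    intro h
    have h1 := ha i₀
    rw [h] at h1
    simp only [Pi.zero_apply, map_zero] at h1
    rw [Algebra.smul_def] at h1
    rcases mul_eq_zero.mp h1.symm with h2 | h2
    · apply hb0
      have h3 : (((b : 𝓞 K) : 𝓞 K) : K) = 0 := h2
      exact_mod_cast h3
    · exact hi₀ h2
  · intro i
    have h1 := ha i
    rw [Algebra.smul_def] at h1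
    exact h1

/-- For a tuple `y ≠ 0` over `K` and an embedding `τ`, the `p`-adic local factor of `τ ∘ y` is
`1` for almost all primes `p`. -/
theorem hasFiniteMulSupport_locFin (y : ι → K) (hy : y ≠ 0) (τ : K →+* Ω) :
    Function.HasFiniteMulSupport (fun p : Nat.Primes => S.locFin p (fun i => τ (y i))) := by
  obtain ⟨b, hb0, a, ha0, hab⟩ := exists_integral_multiple y hy
  have h1 := hasFiniteMulSupport_iSup_abv S.fin S.nonarch S.fin_p a ha0 τ
  have h2 := hasFiniteMulSupport_abv_embedding S.fin S.nonarch S.fin_p hb0 τ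
  have hτb : τ (b : K) ≠ 0 := by
    rw [Ne, map_eq_zero]
    exact_mod_cast hb0
  refine (h1.union h2).subset ?_
  intro p hp
  simp only [Function.mem_mulSupport, ne_eq, Set.mem_union] at hp ⊢
  by_contra hcon
  rw [not_or, not_not, not_not] at hcon
  apply hp
  have h3 : (⨆ i, S.fin p (τ (a i : K))) = S.fin p (τ (b : K)) * S.locFin p (fun i => τ (y i)) := by
    rw [← AbsSystem.locFin_smul]
    unfold AbsSystem.locFin
    congr 1
    funext i
    rw [hab i, map_mul]
  rw [hcon.1, hcon.2, one_mul] at h3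
  exact h3.symm

/-- **Mathlib's height on a number field as a product of local terms over all embeddings into
`Ω`.** -/
theorem mulHeight_eq_prod_locMul (y : ι → K) (hy : y ≠ 0) :
    Height.mulHeight y = ∏ τ : K →+* Ω, S.locMul (fun i => τ (y i)) := by
  obtain ⟨b, hb0, a, ha0, hab⟩ := exists_integral_multiple y hy
  have hbK : (b : K) ≠ 0 := by exact_mod_cast hb0
  have h1 : Height.mulHeight y = Height.mulHeight (fun i => (a i : K)) := by
    rw [← Height.mulHeight_smul_eq_mulHeight y hbK]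
    congr 1
    funext i
    rw [hab i]
    rfl
  rw [h1, mulHeight_eq_prod_locMul_int S a ha0]
  have h2 : ∀ τ : K →+* Ω, S.locMul (fun i => τ (a i : K)) =
      (‖S.inf (τ (b : K))‖ * ∏ᶠ p : Nat.Primes, S.fin p (τ (b : K))) *
        S.locMul (fun i => τ (y i)) := by
    intro τ
    have h3 : (fun i => τ (a i : K)) = fun i => τ (b : K) * τ (y i) := by
      funext i
      rw [hab i, map_mul]
    rw [h3]
    unfold AbsSystem.locMul
    rw [AbsSystem.locInf_smul]
    have h4 : (fun p : Nat.Primes => S.locFin p (fun i => τ (b : K) * τ (y i))) =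
        fun p => S.fin p (τ (b : K)) * S.locFin p (fun i => τ (y i)) := by
      funext p
      rw [AbsSystem.locFin_smul]
    rw [h4, finprod_mul_distrib
      (hasFiniteMulSupport_abv_embedding S.fin S.nonarch S.fin_p hb0 τ)
      (hasFiniteMulSupport_locFin S y hy τ)]
    ring
  rw [Finset.prod_congr rfl (fun τ _ => h2 τ), Finset.prod_mul_distrib,
    prod_locMul_singleton_int S hb0, one_mul]

/-- Product formula in embedding form: for `c ≠ 0` in `K`. -/
theorem prod_locMul_singleton {c : K} (hc : c ≠ 0) :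
    ∏ τ : K →+* Ω, (‖S.inf (τ c)‖ * ∏ᶠ p : Nat.Primes, S.fin p (τ c)) = 1 := by
  have h := mulHeight_eq_prod_locMul S (fun _ : Unit => c)
    (by intro h; exact hc (congrFun h ()))
  rw [Height.mulHeight_eq_one_of_subsingleton] at h
  rw [h]
  refine Finset.prod_congr rfl fun τ _ => ?_
  unfold AbsSystem.locMul AbsSystem.locInf AbsSystem.locFin
  simp only [ciSup_unique]

omit [CharZero Ω] [IsAlgClosed Ω] in
theorem AbsSystem.locInf_pos (x : ι → Ω) (hx : x ≠ 0) : 0 < S.locInf x := by
  obtain ⟨i₀, hi₀⟩ := Function.ne_iff.mp hx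
  have hbdd : BddAbove (Set.range fun i => ‖S.inf (x i)‖) := Set.finite_range _ |>.bddAbove
  have h1 : 0 < ‖S.inf (x i₀)‖ := by
    rw [norm_pos_iff, Ne, map_eq_zero]
    exact hi₀
  exact lt_of_lt_of_le h1 (le_ciSup hbdd i₀)

omit [CharZero Ω] [IsAlgClosed Ω] in
theorem AbsSystem.locFin_pos (p : Nat.Primes) (x : ι → Ω) (hx : x ≠ 0) : 0 < S.locFin p x := by
  obtain ⟨i₀, hi₀⟩ := Function.ne_iff.mp hx
  have hbdd : BddAbove (Set.range fun i => S.fin p (x i)) := Set.finite_range _ |>.bddAbove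
  have h1 : 0 < S.fin p (x i₀) := (S.fin p).pos hi₀
  exact lt_of_lt_of_le h1 (le_ciSup hbdd i₀)

omit [CharZero Ω] [IsAlgClosed Ω] in
theorem AbsSystem.finprod_locFin_pos (x : ι → Ω) (hx : x ≠ 0) :
    0 < ∏ᶠ p : Nat.Primes, S.locFin p x :=
  finprod_induction (fun r : ℝ => 0 < r) one_pos (fun _ _ ha hb => mul_pos ha hb)
    (fun p => S.locFin_pos p x hx)

omit [CharZero Ω] [IsAlgClosed Ω] in
theorem AbsSystem.locMul_pos (x : ι → Ω) (hx : x ≠ 0) : 0 < S.locMul x :=
  mul_pos (S.locInf_pos x hx) (S.finprod_locFin_pos x hx)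

/-- the sum of all logarithmic local factors of a tuple -/
def AbsSystem.locLog {ι : Type*} (S : AbsSystem Ω) (x : ι → Ω) : ℝ :=
  Real.log (S.locInf x) + ∑ᶠ p : Nat.Primes, Real.log (S.locFin p x)

omit [NumberField K] [CharZero Ω] [IsAlgClosed Ω] [Finite ι] in
theorem comp_ne_zero (τ : K →+* Ω) {y : ι → K} (hy : y ≠ 0) : (fun i => τ (y i)) ≠ 0 := by
  obtain ⟨i₀, hi₀⟩ := Function.ne_iff.mp hy
  intro h
  have := congrFun h i₀
  simp only [Pi.zero_apply, map_eq_zero] at this
  exact hi₀ this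

omit [CharZero Ω] [IsAlgClosed Ω] in
theorem AbsSystem.log_locMul_eq (x : ι → Ω) (hx : x ≠ 0)
    (hfs : Function.HasFiniteMulSupport (fun p : Nat.Primes => S.locFin p x)) :
    Real.log (S.locMul x) = S.locLog x := by
  unfold AbsSystem.locMul AbsSystem.locLog
  rw [Real.log_mul (S.locInf_pos x hx).ne' (S.finprod_locFin_pos x hx).ne']
  congr 1
  have hfs' : (Function.mulSupport (fun p : Nat.Primes => S.locFin p x)).Finite := hfs
  have hsub : Function.mulSupport (fun p : Nat.Primes => S.locFin p x) ⊆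
      ((Set.Finite.toFinset hfs' : Finset Nat.Primes) : Set Nat.Primes) := by
    intro p hp
    rw [Set.Finite.coe_toFinset]
    exact hp
  have hsub' : Function.support (fun p : Nat.Primes => Real.log (S.locFin p x)) ⊆
      ((Set.Finite.toFinset hfs' : Finset Nat.Primes) : Set Nat.Primes) := by
    intro p hp
    rw [Set.Finite.coe_toFinset]
    simp only [Function.mem_support, ne_eq] at hp
    simp only [Function.mem_mulSupport, ne_eq]
    intro h1
    apply hp
    rw [h1, Real.log_one]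
  rw [finprod_eq_prod_of_mulSupport_subset _ hsub, finsum_eq_sum_of_support_subset _ hsub',
    Real.log_prod]
  intro p _
  exact (S.locFin_pos p x hx).ne'

/-- Logarithmic version of `mulHeight_eq_prod_locMul`. -/
theorem logHeight_eq_sum_log_locMul (y : ι → K) (hy : y ≠ 0) :
    Height.logHeight y = ∑ τ : K →+* Ω, Real.log (S.locMul (fun i => τ (y i))) := by
  rw [Height.logHeight_eq_log_mulHeight, mulHeight_eq_prod_locMul S y hy, Real.log_prod]
  intro τ _
  exact (S.locMul_pos _ (comp_ne_zero τ hy)).ne'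

/-- **Mathlib's logarithmic height as a sum of logarithmic local terms** over all embeddings
`τ : K →+* Ω` and all places of `ℚ`. -/
theorem logHeight_eq_sum_locLog (y : ι → K) (hy : y ≠ 0) :
    Height.logHeight y = ∑ τ : K →+* Ω, S.locLog (fun i => τ (y i)) := by
  rw [logHeight_eq_sum_log_locMul S y hy]
  refine Finset.sum_congr rfl fun τ _ => ?_
  exact S.log_locMul_eq _ (comp_ne_zero τ hy) (hasFiniteMulSupport_locFin S y hy τ)

end Main

end Fermat.Agent.S17.H830

end
end
-- ===== PACK-END S17/H830/AbsGlobal.lean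

-- ===== PACK-BEGIN S15/H111/Count2Top.lean
section
/-
Row S15, node DESC, tower COUNT for `r = 2` (helper111): the abstract Hecke-module form.
Blueprint: `coord/S15-COUNT2-helper111.md`.

Setting: `T` a commutative ring (good Hecke polynomial ring), `𝔪` an ideal (Eisenstein ideal),
`J` a `T`-module (`J₀(p)(ℚ̄)`), `c : J →ₗ[T] J` an involution (complex conjugation),
`E = H2.primaryPart 𝔪 J` (Eisenstein part), `tk J k = J[2^k]`.

* `IsGoodPairing T c k B` : the pairing hypothesis (PAIR_k) on `J[2^k]`.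
* `card_iso`      : (PAIR_k) ⇒ (ISO_k)  `|(c - 1) E[2^k]|² ≤ |E[2^k]|`.
* `card_uoo_sq_le`: (PAIR_k for all k) + `J = 2J` + finiteness ⇒ COUNT-2  `|U∞|² ≤ |E[2]|`,
  `U∞ = uoo 𝔪 c = (c - 1) E[4] ∩ J[2]`.
* `sub_mem_uoo`   : LOC-∞: `c (2y) = 2y`, `c y - y ∈ E` ⇒ `c y - y ∈ U∞`.
-/



set_option autoImplicit false

namespace Fermat.Agent.S15.H111

open Fermat.Agent.S15.H2

variable (T : Type*) [CommRing T] (𝔪 : Ideal T) {J : Type*} [AddCommGroup J] [Module T J]

/-- **(PAIR_k)**: `B` is a pairing on `J[2^k]` with values in `ℤ/2^k`: bi-additive, with trivial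
right kernel, Hecke self-adjoint and anti-invariant under `c`.  (Values outside `J[2^k]` are junk.) -/
structure IsGoodPairing (c : J → J) (k : ℕ) (B : J → J → ZMod (2 ^ k)) : Prop where
  add_left : ∀ x ∈ tk J k, ∀ x' ∈ tk J k, ∀ y ∈ tk J k, B (x + x') y = B x y + B x' y
  add_right : ∀ x ∈ tk J k, ∀ y ∈ tk J k, ∀ y' ∈ tk J k, B x (y + y') = B x y + B x y'
  nondeg : ∀ y ∈ tk J k, (∀ x ∈ tk J k, B x y = 0) → y = 0
  hecke : ∀ (t : T), ∀ x ∈ tk J k, ∀ y ∈ tk J k, B (t • x) y = B x (t • y)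
  conj : ∀ x ∈ tk J k, ∀ y ∈ tk J k, B (c x) (c y) = - B x y

variable {T}

/-- `J[2^k]` as a `T`-submodule. -/
def tkSub (J : Type*) [AddCommGroup J] [Module T J] (k : ℕ) : Submodule T J where
  carrier := {x | 2 ^ k • x = 0}
  zero_mem' := smul_zero _
  add_mem' := fun {a b} ha hb => by
    show 2 ^ k • (a + b) = 0
    rw [smul_add, ha, hb, add_zero]
  smul_mem' := fun t x hx => by
    show 2 ^ k • (t • x) = 0
    rw [smul_comm, hx, smul_zero]

theorem mem_tkSub {k : ℕ} {x : J} : x ∈ tkSub (T := T) J k ↔ 2 ^ k • x = 0 := Iff.rfl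

theorem mem_tkSub_iff {k : ℕ} {x : J} : x ∈ tkSub (T := T) J k ↔ x ∈ tk J k := by
  rw [mem_tkSub, mem_tk]

/-- Membership in the primary part of the submodule `J[2^k]` is membership in the primary part
of `J`. -/
theorem coe_mem_primaryPart_iff {k : ℕ} (x : tkSub (T := T) J k) :
    x ∈ primaryPart 𝔪 (tkSub (T := T) J k) ↔ (x : J) ∈ primaryPart 𝔪 J := by
  constructor
  · rintro ⟨n, hn⟩
    exact ⟨n, fun t ht => by
      have := congrArg (fun e : tkSub (T := T) J k => (e : J)) (hn t ht)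
      simpa using this⟩
  · rintro ⟨n, hn⟩
    exact ⟨n, fun t ht => Subtype.ext (by simpa using hn t ht)⟩

/-- The Eisenstein part as an additive subgroup. -/
abbrev eis (J : Type*) [AddCommGroup J] [Module T J] : AddSubgroup J :=
  (primaryPart 𝔪 J).toAddSubgroup

variable {𝔪}

theorem map_mem_eis (c : J →ₗ[T] J) {x : J} (hx : x ∈ eis 𝔪 J) : c x ∈ eis 𝔪 J := by
  obtain ⟨n, hn⟩ := hx
  exact ⟨n, fun t ht => by rw [← map_smul, hn t ht, map_zero]⟩

theorem map_mem_tk (c : J →+ J) {k : ℕ} {x : J} (hx : x ∈ tk J k) : c x ∈ tk J k := by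
  rw [mem_tk] at hx ⊢
  rw [← map_nsmul, hx, map_zero]

/-- Projection to the Eisenstein part inside `J[2^k]`: for `x ∈ J[2^k]` there is `f ∈ T` such that
`x - f • x ∈ E` and `f • y = 0` for every `y ∈ E ∩ J[2^k]`. -/
theorem exists_eis_projector (k : ℕ) [Finite ↥(tk J k)] :
    ∃ f : T, (∀ x ∈ tk J k, x - f • x ∈ eis 𝔪 J) ∧ ∀ y ∈ eis 𝔪 J, y ∈ tk J k → f • y = 0 := by
  have : Finite ↥(tkSub (T := T) J k) :=
    Finite.of_injective (fun x : tkSub (T := T) J k => (⟨x, mem_tkSub_iff.mp x.2⟩ : ↥(tk J k)))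
      (fun a b h => Subtype.ext (congrArg (fun e : ↥(tk J k) => (e : J)) h))
  obtain ⟨K, f, hs⟩ := exists_isSplit 𝔪 (tkSub (T := T) J k)
  refine ⟨f, fun x hx => ?_, fun y hyE hy => ?_⟩
  · have := hs.sub_smul_mem_primaryPart ⟨x, mem_tkSub_iff.mpr hx⟩
    rw [coe_mem_primaryPart_iff] at this
    simpa using this
  · have h1 : (⟨y, mem_tkSub_iff.mpr hy⟩ : tkSub (T := T) J k) ∈
        primaryPart 𝔪 (tkSub (T := T) J k) := by
      rw [coe_mem_primaryPart_iff]; exact hyE
    have h2 := (hs.mem_primaryPart_iff _).mp h1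
    have := congrArg (fun e : tkSub (T := T) J k => (e : J)) h2
    simpa using this

/-- **(PAIR_k) ⇒ (ISO_k).** -/
theorem card_iso (c : J →ₗ[T] J) (hc : ∀ x, c (c x) = x) (k : ℕ) [Finite ↥(tk J k)]
    (B : J → J → ZMod (2 ^ k)) (hB : IsGoodPairing T c k B) :
    Nat.card ((eis 𝔪 J ⊓ tk J k).map (c.toAddMonoidHom - AddMonoidHom.id J)) ^ 2 ≤
      Nat.card ↥(eis 𝔪 J ⊓ tk J k) := by
  set d : J →+ J := c.toAddMonoidHom - AddMonoidHom.id J with hd
  have hdapp : ∀ x, d x = c x - x := fun x => rfl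
  have hfinE : Finite ↥(eis 𝔪 J ⊓ tk J k) :=
    Finite.of_injective (fun x : ↥(eis 𝔪 J ⊓ tk J k) => (⟨x, x.2.2⟩ : ↥(tk J k)))
      (fun a b h => Subtype.ext (congrArg (fun e : ↥(tk J k) => (e : J)) h))
  have hYE : (eis 𝔪 J ⊓ tk J k).map d ≤ eis 𝔪 J ⊓ tk J k := by
    rintro _ ⟨z, hz, rfl⟩
    have hzE : z ∈ eis 𝔪 J := hz.1
    have hzt : z ∈ tk J k := hz.2
    rw [hdapp]
    exact AddSubgroup.mem_inf.mpr
      ⟨(eis 𝔪 J).sub_mem (map_mem_eis c hzE) hzE,
        (tk J k).sub_mem (map_mem_tk c.toAddMonoidHom hzt) hzt⟩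
  have hYt : ∀ y ∈ (eis 𝔪 J ⊓ tk J k).map d, y ∈ tk J k := fun y hy => (hYE hy).2
  have hEt : ∀ x ∈ eis 𝔪 J ⊓ tk J k, x ∈ tk J k := fun x hx => hx.2
  have hr0 : ∀ x ∈ tk J k, B x 0 = 0 := fun x hx => by
    have := hB.add_right x hx 0 (tk J k).zero_mem 0 (tk J k).zero_mem
    rw [add_zero] at this
    exact left_eq_add.mp this
  obtain ⟨f, hf1, hf2⟩ := exists_eis_projector (T := T) (𝔪 := 𝔪) (J := J) k
  refine card_sq_le_of_isotropic B (eis 𝔪 J ⊓ tk J k) ((eis 𝔪 J ⊓ tk J k).map d) hYE
    (fun x hx x' hx' y hy => hB.add_left x (hEt x hx) x' (hEt x' hx') y (hYt y hy))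
    (fun x hx y hy y' hy' => hB.add_right x (hEt x hx) y (hYt y hy) y' (hYt y' hy'))
    ?_ ?_
  · rintro _ ⟨z, hz, rfl⟩ _ ⟨z', hz', rfl⟩
    rw [hdapp, hdapp]
    exact pairing_sub_sub_eq_zero B (tk J k) c.toAddMonoidHom hc
      (fun x hx => map_mem_tk c.toAddMonoidHom hx) hB.add_left hB.add_right hB.conj z z'
      hz.2 hz'.2
  · intro y hy hzero
    have hyE := hYE hy
    refine hB.nondeg y hyE.2 fun x hx => ?_
    have hfx : f • x ∈ tk J k := by
      rw [mem_tk] at hx ⊢
      rw [smul_comm, hx, smul_zero]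
    have hx'' : x - f • x ∈ eis 𝔪 J ⊓ tk J k :=
      AddSubgroup.mem_inf.mpr ⟨hf1 x hx, (tk J k).sub_mem hx hfx⟩
    have h1 := hzero _ hx''
    have h2 := hB.add_left (x - f • x) hx''.2 (f • x) hfx y hyE.2
    rw [sub_add_cancel, h1, zero_add, hB.hecke f x hx y hyE.2, hf2 y hyE.1 hyE.2, hr0 x hx] at h2
    exact h2

/-- The subgroup `U∞ = (c - 1) E[4] ∩ J[2]`. -/
def uoo (𝔪 : Ideal T) (c : J →ₗ[T] J) : AddSubgroup J :=
  ((eis 𝔪 J ⊓ tk J 2).map (c.toAddMonoidHom - AddMonoidHom.id J)) ⊓ tk J 1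

theorem mem_uoo {c : J →ₗ[T] J} {v : J} :
    v ∈ uoo 𝔪 c ↔ (∃ z ∈ primaryPart 𝔪 J, 4 • z = 0 ∧ c z - z = v) ∧ 2 • v = 0 := by
  rw [uoo, AddSubgroup.mem_inf, mem_tk, pow_one]
  refine and_congr_left fun _ => ?_
  constructor
  · rintro ⟨z, hz, rfl⟩
    have hzE : z ∈ eis 𝔪 J := hz.1
    have hzt : z ∈ tk J 2 := hz.2
    rw [mem_tk] at hzt
    exact ⟨z, hzE, by simpa using hzt, rfl⟩
  · rintro ⟨z, hzE, h4, rfl⟩
    exact ⟨z, AddSubgroup.mem_inf.mpr ⟨hzE, mem_tk.mpr (by simpa using h4)⟩, rfl⟩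

/-- **COUNT-2 (abstract).**  If `J = 2J`, the groups `J[2^k]` are finite and carry good pairings,
then `|U∞|² ≤ |E[2]|`. -/
theorem card_uoo_sq_le (c : J →ₗ[T] J) (hc : ∀ x, c (c x) = x)
    (hdiv : ∀ x : J, ∃ y : J, 2 • y = x) (hfin : ∀ k, Finite ↥(tk J k))
    (hpair : ∀ k, ∃ B : J → J → ZMod (2 ^ k), IsGoodPairing T c k B) :
    Nat.card ↥(uoo 𝔪 c) ^ 2 ≤ Nat.card ↥(eis 𝔪 J ⊓ tk J 1) := by
  refine card_sq_le_of_tower (eis 𝔪 J) c.toAddMonoidHom (fun x hx => map_mem_eis c hx)
    ?_ ?_ ?_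
  · intro k x hxE hx
    obtain ⟨y₀, hy₀⟩ := hdiv x
    have := hfin (k + 1)
    obtain ⟨f, hf1, hf2⟩ := exists_eis_projector (T := T) (𝔪 := 𝔪) (J := J) (k + 1)
    have hy₀t : y₀ ∈ tk J (k + 1) := by
      rw [mem_tk, pow_succ, mul_comm, mul_nsmul, hy₀, hx]
    have hxt : x ∈ tk J (k + 1) := tk_mono (Nat.le_succ k) (mem_tk.mpr hx)
    refine ⟨y₀ - f • y₀, hf1 y₀ hy₀t, ?_⟩
    rw [smul_sub, smul_comm, hy₀, hf2 x hxE hxt, sub_zero]
  · intro k
    have := hfin k
    exact Finite.of_injective (fun x : ↥(eis 𝔪 J ⊓ tk J k) => (⟨x, x.2.2⟩ : ↥(tk J k)))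
      (fun a b h => Subtype.ext (congrArg (fun e : ↥(tk J k) => (e : J)) h))
  · intro k
    have := hfin k
    obtain ⟨B, hB⟩ := hpair k
    exact card_iso c hc k B hB

/-- **LOC-∞ (abstract, Eisenstein form).**  If `c (2 y) = 2 y` and `c y - y` lies in the
Eisenstein part, then `c y - y ∈ U∞`. -/
theorem sub_mem_uoo (c : J →ₗ[T] J) (hc : ∀ x, c (c x) = x)
    (hdiv : ∀ x : J, ∃ y : J, 2 • y = x) [Finite ↥(tk J 2)] (y : J)
    (hy : c (2 • y) = 2 • y) (hyE : c y - y ∈ primaryPart 𝔪 J) :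
    c y - y ∈ uoo 𝔪 c := by
  have h2 : 2 • (c y - y) = 0 := by
    rw [smul_sub, ← map_nsmul, hy, sub_self]
  rw [mem_uoo]
  refine ⟨?_, h2⟩
  obtain ⟨z, hz4, hz⟩ := exists_four_torsion_sub_eq c.toAddMonoidHom hc hdiv y hy
  obtain ⟨f, hf1, hf2⟩ := exists_eis_projector (T := T) (𝔪 := 𝔪) (J := J) 2
  have hzt : z ∈ tk J 2 := mem_tk.mpr (by simpa using hz4)
  have hvt : c y - y ∈ tk J 2 := tk_mono (by omega : 1 ≤ 2) (mem_tk.mpr (by simpa using h2))
  refine ⟨z - f • z, hf1 z hzt, ?_, ?_⟩
  · have := (tk J 2).sub_mem hzt (show f • z ∈ tk J 2 by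
      rw [mem_tk] at hzt ⊢
      rw [smul_comm, hzt, smul_zero])
    rw [mem_tk] at this
    simpa using this
  · have hz' : c z - z = c y - y := hz
    rw [map_sub, map_smul, sub_sub_sub_comm, ← smul_sub, hz', hf2 _ hyE hvt, sub_zero]

end Fermat.Agent.S15.H111

end
-- ===== PACK-END S15/H111/Count2Top.lean

-- ===== PACK-BEGIN S24/H504/Residue.lean
section



/-!
# The residue field of a place over `t = 0` is the (algebraically closed) constant field
-/

set_option autoImplicit false

namespace Fermat.Agent.S24.H504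

open AlgebraicCurve Polynomial

variable {K F : Type*} [Field K] [Field F] [Algebra K F] (v : Place K F)

/-- Membership in the maximal ideal of the valuation ring of `v`. -/
def InMax (f : F) : Prop := f = 0 ∨ 0 < v.ord f

variable {v}

theorem InMax.ord_nonneg {f : F} (h : InMax v f) : 0 ≤ v.ord f := by
  rcases h with rfl | h
  · simp
  · exact h.le

theorem inMax_zero : InMax v (0 : F) := Or.inl rfl

theorem InMax.add {f g : F} (hf : InMax v f) (hg : InMax v g) : InMax v (f + g) :=
  ord_add_pos v hf hg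

theorem InMax.neg {f : F} (hf : InMax v f) : InMax v (-f) := by
  rcases hf with rfl | hf
  · simpa using inMax_zero
  · right; rwa [_root_.Fermat.Agent.S24.H504.ord_neg]

theorem InMax.sub {f g : F} (hf : InMax v f) (hg : InMax v g) : InMax v (f - g) := by
  rw [sub_eq_add_neg]; exact hf.add hg.neg

theorem InMax.mul_right {f g : F} (hf : InMax v f) (hg : 0 ≤ v.ord g) : InMax v (f * g) := by
  rcases hf with rfl | hf
  · left; simp
  rcases eq_or_ne g 0 with rfl | hg0
  · left; simp
  right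
  rw [v.ord_mul (ne_zero_of_ord_ne_zero v hf.ne') hg0]
  omega

theorem InMax.mul_left {f g : F} (hf : InMax v f) (hg : 0 ≤ v.ord g) : InMax v (g * f) := by
  rw [mul_comm]; exact hf.mul_right hg

theorem inMax_sum {ι : Type*} (s : Finset ι) (f : ι → F) (h : ∀ i ∈ s, InMax v (f i)) :
    InMax v (∑ i ∈ s, f i) := by
  classical
  induction s using Finset.induction_on with
  | empty => simpa using inMax_zero
  | insert a s ha ih =>
    rw [Finset.sum_insert ha]
    exact (h a (Finset.mem_insert_self a s)).add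
      (ih fun i hi => h i (Finset.mem_insert_of_mem hi))

theorem inMax_or_of_mul {f g : F} (hf : 0 ≤ v.ord f) (hg : 0 ≤ v.ord g) (h : InMax v (f * g)) :
    InMax v f ∨ InMax v g := by
  rcases eq_or_ne f 0 with rfl | hf0
  · exact Or.inl inMax_zero
  rcases eq_or_ne g 0 with rfl | hg0
  · exact Or.inr inMax_zero
  rcases h with h | h
  · exact absurd h (mul_ne_zero hf0 hg0)
  rw [v.ord_mul hf0 hg0] at h
  by_cases h1 : 0 < v.ord f
  · exact Or.inl (Or.inr h1)
  · exact Or.inr (Or.inr (by omega))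

theorem not_inMax_algebraMap {c : K} (hc : c ≠ 0) : ¬ InMax v (algebraMap K F c) := by
  rintro (h | h)
  · exact hc ((map_eq_zero (algebraMap K F)).mp h)
  · rw [_root_.Fermat.Agent.S24.H504.ord_algebraMap] at h
    exact lt_irrefl _ h

theorem ord_aeval_nonneg {f : F} (hf : 0 ≤ v.ord f) (Q : K[X]) : 0 ≤ v.ord (aeval f Q) := by
  rw [← mem_iff_ord_nonneg'] at *
  rw [aeval_def, eval₂_eq_sum_range]
  refine Subring.sum_mem v.toValuationSubring.toSubring fun i _ => ?_
  exact v.toValuationSubring.mul_mem _ _ (v.algebraMap_mem' _) (pow_mem hf i)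

/-- If a nonzero polynomial over `K` takes a value in the maximal ideal at an integral `f`,
then `f` is congruent to a constant. -/
theorem exists_sub_inMax_of_aeval [IsAlgClosed K] {f : F} (hf : 0 ≤ v.ord f) :
    ∀ (n : ℕ) (Q : K[X]), Q.natDegree = n → Q ≠ 0 → InMax v (aeval f Q) →
      ∃ c : K, InMax v (f - algebraMap K F c) := by
  intro n
  induction n with
  | zero =>
    intro Q hdeg hQ h
    exfalso
    rw [natDegree_eq_zero] at hdeg
    obtain ⟨c, rfl⟩ := hdeg
    rw [aeval_C] at h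
    exact not_inMax_algebraMap (by simpa using hQ) h
  | succ n ih =>
    intro Q hdeg hQ h
    have hdeg' : Q.degree ≠ 0 :=
      (natDegree_pos_iff_degree_pos.mp (by omega)).ne'
    obtain ⟨c, hc⟩ := IsAlgClosed.exists_root Q hdeg'
    obtain ⟨Q₁, hQ₁⟩ := dvd_iff_isRoot.mpr hc
    have hQ₁0 : Q₁ ≠ 0 := by
      rintro rfl
      simp at hQ₁
      exact hQ hQ₁
    have hdeg₁ : Q₁.natDegree = n := by
      have := congrArg natDegree hQ₁
      rw [natDegree_mul (X_sub_C_ne_zero c) hQ₁0, natDegree_X_sub_C, hdeg] at this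
      omega
    have hval : aeval f Q = (f - algebraMap K F c) * aeval f Q₁ := by
      rw [hQ₁, map_mul]
      simp
    rw [hval] at h
    have hfc : 0 ≤ v.ord (f - algebraMap K F c) := by
      rw [← mem_iff_ord_nonneg'] at *
      exact sub_mem hf (v.algebraMap_mem' c)
    rcases inMax_or_of_mul hfc (ord_aeval_nonneg hf Q₁) h with h1 | h1
    · exact ⟨c, h1⟩
    · exact ih Q₁ hdeg₁ hQ₁0 h1

theorem inMax_aeval_sub_coeff_zero {t : F} (ht : 0 < v.ord t) (q : K[X]) :
    InMax v (aeval t q - algebraMap K F (q.coeff 0)) := by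
  have h : q = divX q * X + C (q.coeff 0) := (divX_mul_X_add q).symm
  have h2 : aeval t q - algebraMap K F (q.coeff 0) = t * aeval t (divX q) := by
    conv_lhs => rw [h]
    simp only [map_add, map_mul, aeval_X, aeval_C]
    simp only [coeff_add, coeff_C_zero, mul_coeff_zero, coeff_X_zero, mul_zero, zero_add]
    ring
  rw [h2]
  exact InMax.mul_right (Or.inr ht) (ord_aeval_nonneg ht.le _)

/-- Two-variable relation: a nonzero `P ∈ K[T][Y]` with `P(t, f) = 0` can be normalised so
that `P(0, Y) ≠ 0`. -/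
theorem exists_normalised_relation {t : F} (ht : t ≠ 0) (f : F) (P : K[X][X]) (hP : P ≠ 0)
    (hPf : P.eval₂ (aeval t : K[X] →ₐ[K] F).toRingHom f = 0) :
    ∃ Q : K[X][X], Q.map (constantCoeff : K[X] →+* K) ≠ 0 ∧
      Q.eval₂ (aeval t : K[X] →ₐ[K] F).toRingHom f = 0 := by
  have hX : ¬ IsUnit (C (X : K[X]) : K[X][X]) := by
    rw [isUnit_C]
    exact not_isUnit_X
  obtain ⟨n, Q, hndvd, rfl⟩ := WfDvdMonoid.max_power_factor' hP hX
  refine ⟨Q, ?_, ?_⟩
  · intro h0
    apply hndvd
    rw [C_dvd_iff_dvd_coeff]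
    intro i
    rw [X_dvd_iff]
    have := congrArg (fun p => p.coeff i) h0
    simpa [coeff_map] using this
  · rw [eval₂_mul, eval₂_pow, eval₂_C] at hPf
    simp only [AlgHom.toRingHom_eq_coe, RingHom.coe_coe, aeval_X] at hPf
    rcases mul_eq_zero.mp hPf with h | h
    · exact absurd h (pow_ne_zero n ht)
    · simpa using h

/-- Reduction of a two-variable relation modulo the maximal ideal. -/
theorem inMax_aeval_map_constantCoeff {t f : F} (ht : 0 < v.ord t) (hf : 0 ≤ v.ord f)
    (Q : K[X][X]) (hQf : Q.eval₂ (aeval t : K[X] →ₐ[K] F).toRingHom f = 0) :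
    InMax v (aeval f (Q.map (constantCoeff : K[X] →+* K))) := by
  have h1 : aeval f (Q.map (constantCoeff : K[X] →+* K))
      = Q.eval₂ ((algebraMap K F).comp (constantCoeff : K[X] →+* K)) f := by
    rw [aeval_def, eval₂_map]
  have h2 : aeval f (Q.map (constantCoeff : K[X] →+* K))
      = -(Q.eval₂ (aeval t : K[X] →ₐ[K] F).toRingHom f
          - Q.eval₂ ((algebraMap K F).comp (constantCoeff : K[X] →+* K)) f) := by
    rw [hQf, h1]; ring
  rw [h2]
  apply InMax.neg
  rw [eval₂_eq_sum_range, eval₂_eq_sum_range, ← Finset.sum_sub_distrib]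
  apply inMax_sum
  intro i _
  rw [← sub_mul]
  refine InMax.mul_right ?_ ?_
  · simpa using inMax_aeval_sub_coeff_zero ht (Q.coeff i)
  · rw [ord_pow]
    positivity

open scoped IntermediateField.algebraAdjoinAdjoin in
/-- **Residue field is `K`.**  If `K` is algebraically closed, `F` is algebraic over `K(t)` and
`v` is a place with `v(t) > 0`, every `v`-integral element is congruent to a constant. -/
theorem exists_sub_inMax [IsAlgClosed K] {t : F} (ht : 0 < v.ord t)
    [Algebra.IsAlgebraic (IntermediateField.adjoin K {t}) F] {f : F} (hf : 0 ≤ v.ord f) :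
    ∃ c : K, InMax v (f - algebraMap K F c) := by
  have halg : IsAlgebraic (IntermediateField.adjoin K {t}) f :=
    Algebra.IsAlgebraic.isAlgebraic f
  have halg' : IsAlgebraic (Algebra.adjoin K {t}) f :=
    (IsFractionRing.isAlgebraic_iff (Algebra.adjoin K {t}) (IntermediateField.adjoin K {t})
      F).mpr halg
  obtain ⟨p, hp0, hpf⟩ := halg'
  let φ : K[X] →+* Algebra.adjoin K {t} :=
    ((aeval t : K[X] →ₐ[K] F).codRestrict (Algebra.adjoin K {t})
      (fun q => aeval_mem_adjoin_singleton K t)).toRingHom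
  have hφ : Function.Surjective φ := by
    rintro ⟨a, ha⟩
    have ha' := ha
    rw [Algebra.adjoin_singleton_eq_range_aeval] at ha'
    obtain ⟨q, hq⟩ := ha'
    exact ⟨q, Subtype.ext hq⟩
  obtain ⟨P, hP⟩ := Polynomial.map_surjective φ hφ p
  have hP0 : P ≠ 0 := by
    rintro rfl
    rw [Polynomial.map_zero] at hP
    exact hp0 hP.symm
  have hcomp : (algebraMap (Algebra.adjoin K {t}) F).comp φ
      = (aeval t : K[X] →ₐ[K] F).toRingHom := by
    ext <;> rfl
  have hPf : P.eval₂ (aeval t : K[X] →ₐ[K] F).toRingHom f = 0 := by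
    rw [← hcomp, ← eval₂_map, hP]
    exact hpf
  have ht0 : t ≠ 0 := ne_zero_of_ord_ne_zero v ht.ne'
  obtain ⟨Q, hQ0, hQf⟩ := exists_normalised_relation ht0 f P hP0 hPf
  exact exists_sub_inMax_of_aeval hf _ _ rfl hQ0 (inMax_aeval_map_constantCoeff ht hf Q hQf)

/-- Decomposition `f = c + g` with `c` constant and `g` in the maximal ideal. -/
theorem exists_eq_const_add [IsAlgClosed K] {t : F} (ht : 0 < v.ord t)
    [Algebra.IsAlgebraic (IntermediateField.adjoin K {t}) F] {f : F} (hf : 0 ≤ v.ord f) :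
    ∃ (c : K) (g : F), InMax v g ∧ f = algebraMap K F c + g := by
  obtain ⟨c, hc⟩ := exists_sub_inMax ht hf
  exact ⟨c, f - algebraMap K F c, hc, by ring⟩

/-- Decomposition `f = c + ϖ f₁` for a uniformizer `ϖ`. -/
theorem exists_eq_const_add_mul [IsAlgClosed K] {t : F} (ht : 0 < v.ord t)
    [Algebra.IsAlgebraic (IntermediateField.adjoin K {t}) F] {ϖ : F} (hϖ : v.ord ϖ = 1)
    {f : F} (hf : 0 ≤ v.ord f) :
    ∃ (c : K) (f₁ : F), 0 ≤ v.ord f₁ ∧ f = algebraMap K F c + ϖ * f₁ := by
  obtain ⟨c, g, hg, rfl⟩ := exists_eq_const_add ht hf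
  have hϖ0 : ϖ ≠ 0 := ne_zero_of_ord_ne_zero v (by omega)
  refine ⟨c, g / ϖ, ?_, by field_simp⟩
  rcases hg with rfl | hg
  · simp
  · rw [ord_div v (ne_zero_of_ord_ne_zero v hg.ne') hϖ0]
    omega

theorem inMax_iff_mem_maximalIdeal (f : v.toValuationSubring) :
    InMax v (f : F) ↔ f ∈ IsLocalRing.maximalIdeal v.toValuationSubring := by
  rw [IsLocalRing.mem_maximalIdeal, mem_nonunits_iff]
  constructor
  · rintro (h | h) hu
    · have : f = 0 := Subtype.ext h
      rw [this] at hu
      exact not_isUnit_zero hu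
    · have := v.ord_coe_unit hu.unit
      rw [IsUnit.unit_spec] at this
      omega
  · intro hu
    by_cases h0 : (f : F) = 0
    · exact Or.inl h0
    right
    have h1 : 0 ≤ v.ord (f : F) := (mem_iff_ord_nonneg' v _).mp f.2
    rcases h1.lt_or_eq with h | h
    · exact h
    exfalso
    apply hu
    have hinv : (f : F)⁻¹ ∈ v.toValuationSubring := by
      rw [mem_iff_ord_nonneg', Place.ord_inv]
      omega
    refine IsUnit.of_mul_eq_one (⟨(f : F)⁻¹, hinv⟩ : v.toValuationSubring) ?_
    ext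
    simp [h0]

/-- **Places over `t = 0` have degree one.** -/
theorem deg_eq_one [IsAlgClosed K] {t : F} (ht : 0 < v.ord t)
    [Algebra.IsAlgebraic (IntermediateField.adjoin K {t}) F] : v.deg = 1 := by
  rw [Place.deg, finrank_eq_one_iff']
  refine ⟨1, one_ne_zero, fun w => ?_⟩
  obtain ⟨f, rfl⟩ := IsLocalRing.residue_surjective w
  obtain ⟨c, hc⟩ := exists_sub_inMax ht ((mem_iff_ord_nonneg' v _).mp f.2)
  refine ⟨c, ?_⟩
  rw [Algebra.smul_def, mul_one]
  have hmem : f - algebraMap K v.toValuationSubring c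
      ∈ IsLocalRing.maximalIdeal v.toValuationSubring := by
    rw [← inMax_iff_mem_maximalIdeal]
    simpa using hc
  have := (IsLocalRing.residue_eq_zero_iff _).mpr hmem
  rw [map_sub, sub_eq_zero] at this
  rw [this]
  rfl

end Fermat.Agent.S24.H504

end
-- ===== PACK-END S24/H504/Residue.lean

-- ===== PACK-BEGIN S29/H395/ProdChar.lean
section
/-
S29 / layer M / bridge BR, piece NORM (analytic half, character computation) — helper395.

For a function `h : ℍ → ℂ` which is `c`-automorphic for `Γ₀(N)` (`h (γ τ) = c γ * h τ`), the product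
of its translates by the Prelude Hecke representatives,

  `heckeProd p h τ = ∏ x : ℙ¹(𝔽_p), h (heckeRep p x • τ)`
                 `= h (p τ) * ∏_{j < p} h ((τ + j) / p)`,

is automorphic with multiplier `γ ↦ ∏ x, c (trf γ x)` (helper201's transfer elements).  In
particular for `c γ = ζ ^ χ γ` the multiplier is `ζ ^ (heckeHom χ) γ`: the Hecke operator on
`Hom(Γ₀(N), ℤ/m)` corresponds to `h ↦ heckeProd p h` on `m`-th roots of modular functions.
-/


set_option autoImplicit false

noncomputable section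

open CongruenceSubgroup Matrix.SpecialLinearGroup UpperHalfPlane
open scoped MatrixGroups
open P2MW.S_ModularForm_heckeT_slash_eq_self_of_mem_Gamma0.ModularForm.HeckeSlashInvariance

namespace Fermat.Agent.S29.H395

open Fermat.Agent.S29.H201

variable {N : ℕ} {p : ℕ} [Fact p.Prime]

/-- The product of the translates of `h` by the Hecke representatives
`(p 0; 0 1)`, `(1 j; 0 p)` (`j : ZMod p`). -/
def heckeProd (p : ℕ) [Fact p.Prime] (h : ℍ → ℂ) : ℍ → ℂ :=
  fun τ => ∏ x : OnePoint (ZMod p), h (_root_.P2MW.S_ModularForm_heckeT_slash_eq_self_of_mem_Gamma0.ModularForm.HeckeSlashInvariance.heckeRep p x • τ)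

theorem heckeProd_apply (h : ℍ → ℂ) (τ : ℍ) :
    heckeProd p h τ = ∏ x : OnePoint (ZMod p), h (_root_.P2MW.S_ModularForm_heckeT_slash_eq_self_of_mem_Gamma0.ModularForm.HeckeSlashInvariance.heckeRep p x • τ) := rfl

theorem heckeProd_mul (h h' : ℍ → ℂ) : heckeProd p (h * h') = heckeProd p h * heckeProd p h' := by
  funext τ
  simp only [heckeProd, Pi.mul_apply, Finset.prod_mul_distrib]

theorem heckeProd_one : heckeProd p (1 : ℍ → ℂ) = 1 := by
  funext τ
  simp [heckeProd]

theorem heckeProd_pow (h : ℍ → ℂ) (n : ℕ) : heckeProd p (h ^ n) = heckeProd p h ^ n := by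
  funext τ
  simp only [heckeProd, Pi.pow_apply, Finset.prod_pow]

theorem heckeProd_inv (h : ℍ → ℂ) : heckeProd p (h⁻¹) = (heckeProd p h)⁻¹ := by
  funext τ
  simp only [heckeProd, Pi.inv_apply, Finset.prod_inv_distrib]

theorem heckeProd_div (h h' : ℍ → ℂ) : heckeProd p (h / h') = heckeProd p h / heckeProd p h' := by
  funext τ
  simp only [heckeProd, Pi.div_apply, Finset.prod_div_distrib]

theorem heckeProd_const (a : ℂ) :
    heckeProd p (fun _ => a) = fun _ => a ^ (p + 1) := by
  funext τ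
  simp only [heckeProd, Finset.prod_const, Finset.card_univ]
  congr 1
  rw [show Fintype.card (OnePoint (ZMod p)) = Fintype.card (Option (ZMod p)) from rfl,
    Fintype.card_option, ZMod.card]

/-- the basic translation identity: `heckeRep x • γ • τ = trf γ x • heckeRep (x · γ) • τ`. -/
theorem heckeRep_smul_smul (hpN : ¬ p ∣ N) (γ : Gamma0 N) (x : OnePoint (ZMod p)) (τ : ℍ) :
    _root_.P2MW.S_ModularForm_heckeT_slash_eq_self_of_mem_Gamma0.ModularForm.HeckeSlashInvariance.heckeRep p x • ((γ : SL(2, ℤ)) • τ)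
      = ((trf hpN γ x : Gamma0 N) : SL(2, ℤ)) • (_root_.P2MW.S_ModularForm_heckeT_slash_eq_self_of_mem_Gamma0.ModularForm.HeckeSlashInvariance.heckeRep p (redMatrix p (γ : SL(2, ℤ)) • x) • τ) := by
  show _root_.P2MW.S_ModularForm_heckeT_slash_eq_self_of_mem_Gamma0.ModularForm.HeckeSlashInvariance.heckeRep p x • (mapGL ℝ (γ : SL(2, ℤ)) • τ)
      = mapGL ℝ ((trf hpN γ x : Gamma0 N) : SL(2, ℤ)) •
          (_root_.P2MW.S_ModularForm_heckeT_slash_eq_self_of_mem_Gamma0.ModularForm.HeckeSlashInvariance.heckeRep p (redMatrix p (γ : SL(2, ℤ)) • x) • τ)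
  rw [← mul_smul, ← mul_smul, trf_spec hpN γ x]

/-- **Transfer formula for products.**  If `h (γ τ) = c γ * h τ` for all `γ ∈ Γ₀(N)`, then
`heckeProd p h (γ τ) = (∏ x, c (trf γ x)) * heckeProd p h τ`. -/
theorem heckeProd_smul (hpN : ¬ p ∣ N) {h : ℍ → ℂ} {c : Gamma0 N → ℂ}
    (hc : ∀ (γ : Gamma0 N) (τ : ℍ), h ((γ : SL(2, ℤ)) • τ) = c γ * h τ)
    (γ : Gamma0 N) (τ : ℍ) :
    heckeProd p h ((γ : SL(2, ℤ)) • τ)
      = (∏ x : OnePoint (ZMod p), c (trf hpN γ x)) * heckeProd p h τ := by
  simp only [heckeProd]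
  calc ∏ x : OnePoint (ZMod p), h (_root_.P2MW.S_ModularForm_heckeT_slash_eq_self_of_mem_Gamma0.ModularForm.HeckeSlashInvariance.heckeRep p x • ((γ : SL(2, ℤ)) • τ))
      = ∏ x : OnePoint (ZMod p),
          c (trf hpN γ x) * h (_root_.P2MW.S_ModularForm_heckeT_slash_eq_self_of_mem_Gamma0.ModularForm.HeckeSlashInvariance.heckeRep p (redMatrix p (γ : SL(2, ℤ)) • x) • τ) := by
        refine Finset.prod_congr rfl fun x _ => ?_
        rw [heckeRep_smul_smul hpN γ x τ, hc]
    _ = (∏ x : OnePoint (ZMod p), c (trf hpN γ x)) *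
          ∏ x : OnePoint (ZMod p), h (_root_.P2MW.S_ModularForm_heckeT_slash_eq_self_of_mem_Gamma0.ModularForm.HeckeSlashInvariance.heckeRep p (redMatrix p (γ : SL(2, ℤ)) • x) • τ) :=
        Finset.prod_mul_distrib
    _ = _ := by
        congr 1
        exact Equiv.prod_comp (permOf γ) (fun y => h (_root_.P2MW.S_ModularForm_heckeT_slash_eq_self_of_mem_Gamma0.ModularForm.HeckeSlashInvariance.heckeRep p y • τ))

/-- The same with multiplier `c γ = ζ ^ χ γ` for an additive character `χ : Γ₀(N) → ZMod m` and an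
`m`-th root of unity `ζ`: the multiplier of `heckeProd p h` is `ζ ^ (T_p χ) γ`. -/
theorem heckeProd_smul_of_char (hpN : ¬ p ∣ N) {m : ℕ} [NeZero m] {ζ : ℂ} (hζ : ζ ^ m = 1)
    {h : ℍ → ℂ} (χ : Additive (Gamma0 N) →+ ZMod m)
    (hc : ∀ (γ : Gamma0 N) (τ : ℍ),
      h ((γ : SL(2, ℤ)) • τ) = ζ ^ (χ (Additive.ofMul γ)).val * h τ)
    (γ : Gamma0 N) (τ : ℍ) :
    heckeProd p h ((γ : SL(2, ℤ)) • τ)
      = ζ ^ (heckeHom p hpN (ZMod m) χ (Additive.ofMul γ)).val * heckeProd p h τ := by
  rw [heckeProd_smul hpN (c := fun γ => ζ ^ (χ (Additive.ofMul γ)).val) hc γ τ]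
  congr 1
  rw [Finset.prod_pow_eq_pow_sum, heckeHom_apply]
  -- `ζ ^ a = ζ ^ b` when `a ≡ b mod m`
  have key : ∀ a b : ℕ, (a : ZMod m) = (b : ZMod m) → ζ ^ a = ζ ^ b := by
    intro a b hab
    have hab' : a ≡ b [MOD m] := (ZMod.natCast_eq_natCast_iff a b m).mp hab
    rw [← Nat.div_add_mod a m, ← Nat.div_add_mod b m, pow_add, pow_add, pow_mul, pow_mul, hζ,
      one_pow, one_pow, one_mul, one_mul, hab']
  apply key
  rw [Nat.cast_sum, ZMod.natCast_zmod_val]
  simp only [ZMod.natCast_zmod_val]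

end Fermat.Agent.S29.H395

end

end
-- ===== PACK-END S29/H395/ProdChar.lean

-- ===== PACK-BEGIN S41/Spec/HK.lean
section




/-!
# Row S41, block HK — frozen interface (sub-architect helper761)

Definitions of the operators on `X_n(A) = Hom(Γ₀(n), A)` (Lean: `Additive (Gamma0 n) →+ A`) used by
the cohomological proof of level raising, and the exact statements (`Prop`s) of the Betti relations
between them.  Plan: `coord/S41.md` (origin/helper41) and `coord/S41-HK.md` (origin/helper761).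

* `IsCuspidal φ` : `φ` kills the `γ` with `(tr γ)² = 4` (Prelude `IsParabolicHom`) and the `γ` of
  finite order;
* `incl N q`, `conjDelta N q : Γ₀(N q) →* Γ₀(N)` : the inclusion and
  `γ ↦ δ γ δ⁻¹ = [[a, q b], [c / q, d]]`, `δ = diag(q, 1)`;
* `r₁ N q φ = φ ∘ incl`, `r₂ N q φ = φ ∘ conjDelta` (degeneracy maps `X_N → X_{N q}`);
* `t₁ N q ψ`, `t₂ N q ψ` : Mathlib's transfer along `incl`, `conjDelta` (`X_{N q} → X_N`);
* `T_l` is `Fermat.Agent.S29.H642.heckeTransfer` (on main).

All definitions are hypothesis-free (junk value `0` for the transfer along a map that is not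
injective with finite-index range).
-/

set_option autoImplicit false

namespace Fermat.Agent.S41.Spec

open CongruenceSubgroup Matrix.SpecialLinearGroup ModularCurve.Period
open Fermat.Agent.S29.H642
open scoped MatrixGroups

section Defs

variable {A : Type*} [AddCommGroup A]

/-- Cuspidal classes: homomorphisms `Γ₀(n) → A` vanishing on all `γ` with `(tr γ)² = 4` and on all
`γ` of finite order. -/
def IsCuspidal {n : ℕ} (φ : Additive (Gamma0 n) →+ A) : Prop :=
  IsParabolicHom (Gamma0 n) φ ∧ ∀ γ : Gamma0 n, IsOfFinOrder γ → φ (Additive.ofMul γ) = 0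

theorem gamma0_mul_le (N q : ℕ) : Gamma0 (N * q) ≤ Gamma0 N := by
  intro g hg
  rw [Gamma0_mem, ZMod.intCast_zmod_eq_zero_iff_dvd] at hg ⊢
  exact dvd_trans (by push_cast; exact dvd_mul_right _ _) hg

/-- The inclusion `Γ₀(N q) → Γ₀(N)`. -/
def incl (N q : ℕ) : Gamma0 (N * q) →* Gamma0 N := Subgroup.inclusion (gamma0_mul_le N q)

theorem dvd_of_mem_gamma0_mul {N q : ℕ} (γ : Gamma0 (N * q)) :
    (q : ℤ) ∣ (γ : SL(2, ℤ)) 1 0 ∧ (N : ℤ) ∣ (γ : SL(2, ℤ)) 1 0 / q := by
  have h : ((N * q : ℕ) : ℤ) ∣ (γ : SL(2, ℤ)) 1 0 :=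
    (ZMod.intCast_zmod_eq_zero_iff_dvd _ _).mp (Gamma0_mem.mp γ.2)
  obtain ⟨k, hk⟩ := h
  refine ⟨⟨N * k, by rw [hk]; push_cast; ring⟩, ?_⟩
  rcases eq_or_ne q 0 with rfl | hq
  · simp
  · refine ⟨k, ?_⟩
    rw [hk]
    push_cast
    rw [mul_assoc, mul_comm (q : ℤ) k, ← mul_assoc, Int.mul_ediv_cancel _ (by exact_mod_cast hq)]

/-- The matrix `[[a, q b], [c / q, d]]`. -/
def conjDeltaMatrix (q : ℕ) (γ : SL(2, ℤ)) : Matrix (Fin 2) (Fin 2) ℤ :=
  !![γ 0 0, q * γ 0 1; γ 1 0 / q, γ 1 1]

theorem det_conjDeltaMatrix {q : ℕ} {γ : SL(2, ℤ)} (h : (q : ℤ) ∣ γ 1 0) :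
    (conjDeltaMatrix q γ).det = 1 := by
  have hdet := γ.det_coe
  rw [Matrix.det_fin_two] at hdet
  rw [conjDeltaMatrix, Matrix.det_fin_two_of]
  obtain ⟨k, hk⟩ := h
  rcases eq_or_ne q 0 with rfl | hq
  · simp only [Nat.cast_zero, zero_mul] at hk ⊢
    rw [hk] at hdet
    simpa using hdet
  · have hq' : (q : ℤ) ≠ 0 := by exact_mod_cast hq
    rw [hk, Int.mul_ediv_cancel_left _ hq']
    rw [hk] at hdet
    linear_combination hdet

theorem conjDeltaMatrix_one (q : ℕ) : conjDeltaMatrix q 1 = 1 := by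
  ext i j
  fin_cases i <;> fin_cases j <;> simp [conjDeltaMatrix]

theorem conjDeltaMatrix_mul {q : ℕ} {γ γ' : SL(2, ℤ)} (h : (q : ℤ) ∣ γ 1 0)
    (h' : (q : ℤ) ∣ γ' 1 0) :
    conjDeltaMatrix q (γ * γ') = conjDeltaMatrix q γ * conjDeltaMatrix q γ' := by
  obtain ⟨k, hk⟩ := h
  obtain ⟨k', hk'⟩ := h'
  have e00 : (γ * γ') 0 0 = γ 0 0 * γ' 0 0 + γ 0 1 * γ' 1 0 := by
    simp [Matrix.mul_apply, Fin.sum_univ_two]
  have e01 : (γ * γ') 0 1 = γ 0 0 * γ' 0 1 + γ 0 1 * γ' 1 1 := by
    simp [Matrix.mul_apply, Fin.sum_univ_two]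
  have e10 : (γ * γ') 1 0 = γ 1 0 * γ' 0 0 + γ 1 1 * γ' 1 0 := by
    simp [Matrix.mul_apply, Fin.sum_univ_two]
  have e11 : (γ * γ') 1 1 = γ 1 0 * γ' 0 1 + γ 1 1 * γ' 1 1 := by
    simp [Matrix.mul_apply, Fin.sum_univ_two]
  rcases eq_or_ne q 0 with rfl | hq
  · simp only [Nat.cast_zero, zero_mul] at hk hk'
    ext i j
    fin_cases i <;> fin_cases j <;>
      simp [conjDeltaMatrix, Matrix.mul_apply, Fin.sum_univ_two, e00, e11, hk, hk']
  · have hq' : (q : ℤ) ≠ 0 := by exact_mod_cast hq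
    have hd : ((q : ℤ) * k * γ' 0 0 + γ 1 1 * (q * k')) / q = k * γ' 0 0 + γ 1 1 * k' := by
      rw [show (q : ℤ) * k * γ' 0 0 + γ 1 1 * (q * k') = q * (k * γ' 0 0 + γ 1 1 * k') by ring,
        Int.mul_ediv_cancel_left _ hq']
    ext i j
    fin_cases i <;> fin_cases j <;>
      simp [conjDeltaMatrix, Matrix.mul_apply, Fin.sum_univ_two, e00, e01, e10, e11, hk, hk',
        Int.mul_ediv_cancel_left _ hq', hd] <;> ring

/-- `c_δ : Γ₀(N q) →* Γ₀(N)`, `[[a, b], [c, d]] ↦ [[a, q b], [c / q, d]]`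
(conjugation by `δ = diag(q, 1)`). -/
def conjDelta (N q : ℕ) : Gamma0 (N * q) →* Gamma0 N where
  toFun γ := ⟨⟨conjDeltaMatrix q γ, det_conjDeltaMatrix (dvd_of_mem_gamma0_mul γ).1⟩,
    mem_Gamma0_of_dvd (by simpa [conjDeltaMatrix] using (dvd_of_mem_gamma0_mul γ).2)⟩
  map_one' := by
    apply Subtype.ext
    apply Subtype.ext
    exact conjDeltaMatrix_one q
  map_mul' γ γ' := by
    apply Subtype.ext
    apply Subtype.ext
    exact conjDeltaMatrix_mul (dvd_of_mem_gamma0_mul γ).1 (dvd_of_mem_gamma0_mul γ').1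

/-- Degeneracy map `r₁ : X_N → X_{N q}`, restriction to `Γ₀(N q)`. -/
def r₁ (N q : ℕ) (φ : Additive (Gamma0 N) →+ A) : Additive (Gamma0 (N * q)) →+ A :=
  φ.comp (MonoidHom.toAdditive (incl N q))

/-- Degeneracy map `r₂ : X_N → X_{N q}`, `φ ↦ φ ∘ c_δ`. -/
def r₂ (N q : ℕ) (φ : Additive (Gamma0 N) →+ A) : Additive (Gamma0 (N * q)) →+ A :=
  φ.comp (MonoidHom.toAdditive (conjDelta N q))

/-- The transfer (corestriction) `Hom(H, A) → Hom(G, A)` along a group homomorphism `f : H →* G`
which is injective with range of finite index (Mathlib's `MonoidHom.transfer` for the subgroup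
`f.range`, transported along `H ≃* f.range`); `0` otherwise. -/
noncomputable def transferAlong {H G : Type*} [Group H] [Group G] (f : H →* G)
    (ψ : Additive H →+ A) : Additive G →+ A :=
  open Classical in
  if h : Function.Injective f ∧ f.range.FiniteIndex then
    haveI := h.2
    MonoidHom.toAdditiveLeft (MonoidHom.transfer
      ((AddMonoidHom.toMultiplicativeRight ψ).comp
        (MonoidHom.ofInjective h.1).symm.toMonoidHom))
  else 0

/-- `t₁ : X_{N q} → X_N`, the transfer along `Γ₀(N q) ≤ Γ₀(N)`. -/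
noncomputable def t₁ (N q : ℕ) (ψ : Additive (Gamma0 (N * q)) →+ A) : Additive (Gamma0 N) →+ A :=
  transferAlong (incl N q) ψ

/-- `t₂ : X_{N q} → X_N`, the transfer along `c_δ : Γ₀(N q) → Γ₀(N)`. -/
noncomputable def t₂ (N q : ℕ) (ψ : Additive (Gamma0 (N * q)) →+ A) : Additive (Gamma0 N) →+ A :=
  transferAlong (conjDelta N q) ψ

end Defs

/-! ## Statements of block HK -/

universe u

/-- (HK-0) additivity and naturality in the coefficients of `r₁, r₂, t₁, t₂`. -/
def FunctorialityStatement : Prop :=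
  ∀ (N q : ℕ) (A B : Type u) [AddCommGroup A] [AddCommGroup B] (π : A →+ B),
    (∀ φ φ' : Additive (Gamma0 N) →+ A,
      r₁ N q (φ + φ') = r₁ N q φ + r₁ N q φ' ∧ r₂ N q (φ + φ') = r₂ N q φ + r₂ N q φ') ∧
    (∀ ψ ψ' : Additive (Gamma0 (N * q)) →+ A,
      t₁ N q (ψ + ψ') = t₁ N q ψ + t₁ N q ψ' ∧ t₂ N q (ψ + ψ') = t₂ N q ψ + t₂ N q ψ') ∧
    (∀ φ : Additive (Gamma0 N) →+ A,
      r₁ N q (π.comp φ) = π.comp (r₁ N q φ) ∧ r₂ N q (π.comp φ) = π.comp (r₂ N q φ)) ∧
    (∀ ψ : Additive (Gamma0 (N * q)) →+ A,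
      t₁ N q (π.comp ψ) = π.comp (t₁ N q ψ) ∧ t₂ N q (π.comp ψ) = π.comp (t₂ N q ψ))

/-- (HK-1a) `r₁, r₂` preserve cuspidal classes. -/
def RestrictCuspStatement : Prop :=
  ∀ (N q : ℕ) (A : Type u) [AddCommGroup A] (φ : Additive (Gamma0 N) →+ A),
    IsCuspidal φ → IsCuspidal (r₁ N q φ) ∧ IsCuspidal (r₂ N q φ)

/-- (HK-1b) `t₁, t₂` preserve cuspidal classes. -/
def TransferCuspStatement : Prop :=
  ∀ (N q : ℕ) (A : Type u) [AddCommGroup A] (ψ : Additive (Gamma0 (N * q)) →+ A),
    IsCuspidal ψ → IsCuspidal (t₁ N q ψ) ∧ IsCuspidal (t₂ N q ψ)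

/-- (HK-1c) `T_l` preserves cuspidal classes. -/
def HeckeCuspStatement : Prop :=
  ∀ (N l : ℕ) [Fact l.Prime] (hl : ¬ l ∣ N) (A : Type u) [AddCommGroup A]
    (φ : Additive (Gamma0 N) →+ A), IsCuspidal φ → IsCuspidal (heckeTransfer hl φ)

/-- (HK-2a) `T_l` commutes with `r₁, r₂` (`l ∤ N q`). -/
def HeckeRestrictStatement : Prop :=
  ∀ (N q l : ℕ) [Fact l.Prime] (hl : ¬ l ∣ N) (hl' : ¬ l ∣ N * q) (A : Type u) [AddCommGroup A]
    (φ : Additive (Gamma0 N) →+ A),
    heckeTransfer hl' (r₁ N q φ) = r₁ N q (heckeTransfer hl φ) ∧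
    heckeTransfer hl' (r₂ N q φ) = r₂ N q (heckeTransfer hl φ)

/-- (HK-2b) `T_l` commutes with `t₁, t₂` (`l ∤ N q`, `N q ≠ 0`). -/
def HeckeTransferStatement : Prop :=
  ∀ (N q l : ℕ) [Fact l.Prime] (hl : ¬ l ∣ N) (hl' : ¬ l ∣ N * q), N * q ≠ 0 →
    ∀ (A : Type u) [AddCommGroup A] (ψ : Additive (Gamma0 (N * q)) →+ A),
    heckeTransfer hl (t₁ N q ψ) = t₁ N q (heckeTransfer hl' ψ) ∧
    heckeTransfer hl (t₂ N q ψ) = t₂ N q (heckeTransfer hl' ψ)

/-- (HK-3) `t₁ r₁ = q + 1 = t₂ r₂` (`q` prime, `q ∤ N`, `N ≠ 0`). -/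
def TransferRestrictStatement : Prop :=
  ∀ (N q : ℕ), N ≠ 0 → q.Prime → ¬ q ∣ N → ∀ (A : Type u) [AddCommGroup A]
    (φ : Additive (Gamma0 N) →+ A),
    t₁ N q (r₁ N q φ) = (q + 1) • φ ∧ t₂ N q (r₂ N q φ) = (q + 1) • φ

/-- (HK-4) `t₁ r₂ = T_q = t₂ r₁` (`q` prime, `q ∤ N`, `N ≠ 0`). -/
def TransferRestrictHeckeStatement : Prop :=
  ∀ (N q : ℕ) [Fact q.Prime] (hq : ¬ q ∣ N), N ≠ 0 → ∀ (A : Type u) [AddCommGroup A]
    (φ : Additive (Gamma0 N) →+ A),
    t₁ N q (r₂ N q φ) = heckeTransfer hq φ ∧ t₂ N q (r₁ N q φ) = heckeTransfer hq φ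

/-- (HK-5) the `T_l` commute. -/
def HeckeCommStatement : Prop :=
  ∀ (N l l' : ℕ) [Fact l.Prime] [Fact l'.Prime] (hl : ¬ l ∣ N) (hl' : ¬ l' ∣ N)
    (A : Type u) [AddCommGroup A] (φ : Additive (Gamma0 N) →+ A),
    heckeTransfer hl (heckeTransfer hl' φ) = heckeTransfer hl' (heckeTransfer hl φ)

/-- Block HK. -/
def HKStatement : Prop :=
  FunctorialityStatement.{u} ∧ RestrictCuspStatement.{u} ∧ TransferCuspStatement.{u} ∧
  HeckeCuspStatement.{u} ∧ HeckeRestrictStatement.{u} ∧ HeckeTransferStatement.{u} ∧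
  TransferRestrictStatement.{u} ∧ TransferRestrictHeckeStatement.{u} ∧ HeckeCommStatement.{u}

end Fermat.Agent.S41.Spec

end
-- ===== PACK-END S41/Spec/HK.lean

-- ===== PACK-BEGIN S41/H221/PDHeisCocycle.lean
section



/-!
# S41, block PD, leaf HEIS, part 1 (helper221): Heisenberg cocycles on `SL(2,ℤ)`-sets

`Heis(R) = R³`, `(a, b, c) (a', b', c') = (a + a', b + b', c + c' + a b')`.  A Heisenberg cocycle on an
`SL(2,ℤ)`-set `X` is a triple `a b c : SL(2,ℤ) → X → R` with `C (g h) x = C g (h x) · C h x`, i.e.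
`a, b` additive cocycles and `c (g h) x = c h x + c g (h x) + a g (h x) * b h x`.

* `exists_heisCocycle` : existence with prescribed values on `S` (trivial) and `S T`
  (from the presentation of `SL(2,ℤ)`, `Fermat.Agent.S21.H585.exists_hom_of_sq_cube`).
* `addCocycle_ext`     : additive cocycles are determined by their values on `S`, `S T`.
-/

set_option autoImplicit false

namespace Fermat.Agent.S41.H221

open Matrix ModularGroup
open scoped MatrixGroups

section

variable {X : Type*} [MulAction SL(2, ℤ) X] {R : Type*} [CommRing R]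

/-- The permutation `(x, t) ↦ (g • x, (a x, b x, c x) · t)` of `X × Heis(R)`. -/
def heisPerm (g : SL(2, ℤ)) (a b c : X → R) : Equiv.Perm (X × R × R × R) where
  toFun z := (g • z.1, z.2.1 + a z.1, z.2.2.1 + b z.1, z.2.2.2 + c z.1 + a z.1 * z.2.2.1)
  invFun z := (g⁻¹ • z.1, z.2.1 - a (g⁻¹ • z.1), z.2.2.1 - b (g⁻¹ • z.1),
    z.2.2.2 - c (g⁻¹ • z.1) - a (g⁻¹ • z.1) * (z.2.2.1 - b (g⁻¹ • z.1)))
  left_inv z := by
    rcases z with ⟨x, t₁, t₂, t₃⟩
    simp only [inv_smul_smul]
    refine Prod.ext rfl (Prod.ext ?_ (Prod.ext ?_ ?_)) <;> first | (simp; done) | (simp; ring)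
  right_inv z := by
    rcases z with ⟨x, t₁, t₂, t₃⟩
    simp only [smul_inv_smul]
    refine Prod.ext rfl (Prod.ext ?_ (Prod.ext ?_ ?_)) <;> first | (simp; done) | (simp; ring)

@[simp] lemma heisPerm_apply (g : SL(2, ℤ)) (a b c : X → R) (x : X) (t₁ t₂ t₃ : R) :
    heisPerm g a b c (x, t₁, t₂, t₃) = (g • x, t₁ + a x, t₂ + b x, t₃ + c x + a x * t₂) := rfl

/-- Heisenberg cocycles. -/
structure IsHeisCocycle (a b c : SL(2, ℤ) → X → R) : Prop where
  a_mul : ∀ g h x, a (g * h) x = a h x + a g (h • x)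
  b_mul : ∀ g h x, b (g * h) x = b h x + b g (h • x)
  c_mul : ∀ g h x, c (g * h) x = c h x + c g (h • x) + a g (h • x) * b h x

lemma closure_S_ST_eq_top : Subgroup.closure ({S, S * T} : Set SL(2, ℤ)) = ⊤ := by
  rw [eq_top_iff, ← _root_.SpecialLinearGroup.SL2Z_generators, Subgroup.closure_le]
  rintro x (rfl | rfl)
  · exact Subgroup.subset_closure (by simp)
  · have h1 : S ∈ Subgroup.closure ({S, S * T} : Set SL(2, ℤ)) :=
      Subgroup.subset_closure (by simp)
    have h2 : S * T ∈ Subgroup.closure ({S, S * T} : Set SL(2, ℤ)) :=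
      Subgroup.subset_closure (by simp)
    have h3 := mul_mem (inv_mem h1) h2
    rwa [inv_mul_cancel_left] at h3

lemma S_mul_S_eq_neg_one' : (S * S : SL(2, ℤ)) = -1 := by
  apply Subtype.ext
  rw [Matrix.SpecialLinearGroup.coe_mul, Matrix.SpecialLinearGroup.coe_neg,
    Matrix.SpecialLinearGroup.coe_one, S_mul_S_eq]

lemma ST_cube_eq_neg_one' : ((S * T) * (S * T) * (S * T) : SL(2, ℤ)) = -1 := by
  apply Subtype.ext
  rw [Matrix.SpecialLinearGroup.coe_mul, Matrix.SpecialLinearGroup.coe_mul,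
    Matrix.SpecialLinearGroup.coe_mul, Matrix.SpecialLinearGroup.coe_neg,
    Matrix.SpecialLinearGroup.coe_one, coe_S, coe_T]
  ext i j
  fin_cases i <;> fin_cases j <;> simp [Matrix.mul_apply, Fin.sum_univ_two]

/-- **Existence of Heisenberg cocycles** with prescribed values on `S` (trivial) and `S * T`. -/
theorem exists_heisCocycle (hneg : ∀ x : X, (-1 : SL(2, ℤ)) • x = x) (u v z : X → R)
    (hu : ∀ x, u x + u ((S * T) • x) + u ((S * T) • (S * T) • x) = 0)
    (hv : ∀ x, v x + v ((S * T) • x) + v ((S * T) • (S * T) • x) = 0)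
    (hz : ∀ x, z x + z ((S * T) • x) + z ((S * T) • (S * T) • x) + u ((S * T) • x) * v x
      + u ((S * T) • (S * T) • x) * (v x + v ((S * T) • x)) = 0) :
    ∃ a b c : SL(2, ℤ) → X → R, IsHeisCocycle a b c ∧
      a S = 0 ∧ b S = 0 ∧ c S = 0 ∧ a (S * T) = u ∧ b (S * T) = v ∧ c (S * T) = z := by
  have hs : (heisPerm S (0 : X → R) 0 0 : Equiv.Perm (X × R × R × R)) ^ 2 = 1 := by
    ext ⟨x, t₁, t₂, t₃⟩ : 1
    rw [pow_two, Equiv.Perm.mul_apply, heisPerm_apply, heisPerm_apply, Equiv.Perm.one_apply,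
      ← mul_smul, S_mul_S_eq_neg_one', hneg]
    simp
  have hU : (heisPerm (S * T) u v z : Equiv.Perm (X × R × R × R)) ^ 3 = 1 := by
    ext ⟨x, t₁, t₂, t₃⟩ : 1
    rw [pow_succ, pow_two, Equiv.Perm.mul_apply, Equiv.Perm.mul_apply, heisPerm_apply,
      heisPerm_apply, heisPerm_apply, Equiv.Perm.one_apply]
    have h1 : (S * T) • (S * T) • (S * T) • x = x := by
      rw [smul_smul, smul_smul, ST_cube_eq_neg_one', hneg]
    rw [h1]
    refine Prod.ext rfl (Prod.ext ?_ (Prod.ext ?_ ?_))
    · show t₁ + u x + u ((S * T) • x) + u ((S * T) • (S * T) • x) = t₁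
      linear_combination hu x
    · show t₂ + v x + v ((S * T) • x) + v ((S * T) • (S * T) • x) = t₂
      linear_combination hv x
    · show t₃ + z x + u x * t₂ + z ((S * T) • x) + u ((S * T) • x) * (t₂ + v x)
        + z ((S * T) • (S * T) • x) + u ((S * T) • (S * T) • x) * (t₂ + v x + v ((S * T) • x))
        = t₃
      linear_combination hz x + t₂ * hu x
  obtain ⟨Φ, hΦS, hΦU⟩ := Fermat.Agent.S21.H585.exists_hom_of_sq_cube _ _ hs hU
  -- every `Φ g` has the Heisenberg shape over `g`
  have hP : ∀ g : SL(2, ℤ), ∃ a b c : X → R, ∀ x t₁ t₂ t₃,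
      Φ g (x, t₁, t₂, t₃) = (g • x, t₁ + a x, t₂ + b x, t₃ + c x + a x * t₂) := by
    intro g
    have hg : g ∈ Subgroup.closure ({S, S * T} : Set SL(2, ℤ)) := by
      rw [closure_S_ST_eq_top]; trivial
    induction hg using Subgroup.closure_induction with
    | mem x hx =>
      rcases hx with rfl | rfl
      · exact ⟨0, 0, 0, fun x t₁ t₂ t₃ => by rw [hΦS, heisPerm_apply]⟩
      · exact ⟨u, v, z, fun x t₁ t₂ t₃ => by rw [hΦU, heisPerm_apply]⟩
    | one => exact ⟨0, 0, 0, fun x t₁ t₂ t₃ => by simp⟩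
    | mul g h _ _ hg hh =>
      obtain ⟨a, b, c, hm⟩ := hg
      obtain ⟨a', b', c', hn⟩ := hh
      refine ⟨fun x => a' x + a (h • x), fun x => b' x + b (h • x),
        fun x => c' x + c (h • x) + a (h • x) * b' x, fun x t₁ t₂ t₃ => ?_⟩
      rw [map_mul, Equiv.Perm.mul_apply, hn, hm, mul_smul]
      refine Prod.ext rfl (Prod.ext ?_ (Prod.ext ?_ ?_))
      · show t₁ + a' x + a (h • x) = t₁ + (a' x + a (h • x))
        ring
      · show t₂ + b' x + b (h • x) = t₂ + (b' x + b (h • x))
        ring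
      · show t₃ + c' x + a' x * t₂ + c (h • x) + a (h • x) * (t₂ + b' x) =
          t₃ + (c' x + c (h • x) + a (h • x) * b' x) + (a' x + a (h • x)) * t₂
        ring
    | inv g _ hg =>
      obtain ⟨a, b, c, hm⟩ := hg
      refine ⟨fun x => - a (g⁻¹ • x), fun x => - b (g⁻¹ • x),
        fun x => - c (g⁻¹ • x) + a (g⁻¹ • x) * b (g⁻¹ • x), fun x t₁ t₂ t₃ => ?_⟩
      rw [map_inv, Equiv.Perm.inv_eq_iff_eq, hm, smul_inv_smul]
      refine Prod.ext rfl (Prod.ext ?_ (Prod.ext ?_ ?_))
      · show t₁ = t₁ + -a (g⁻¹ • x) + a (g⁻¹ • x)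
        ring
      · show t₂ = t₂ + -b (g⁻¹ • x) + b (g⁻¹ • x)
        ring
      · show t₃ = t₃ + (-c (g⁻¹ • x) + a (g⁻¹ • x) * b (g⁻¹ • x)) + -a (g⁻¹ • x) * t₂
          + c (g⁻¹ • x) + a (g⁻¹ • x) * (t₂ + -b (g⁻¹ • x))
        ring
  choose a b c habc using hP
  have key : ∀ g h x, (a (g * h) x, b (g * h) x, c (g * h) x) =
      (a h x + a g (h • x), b h x + b g (h • x), c h x + c g (h • x) + a g (h • x) * b h x) := by
    intro g h x
    have h1 := habc (g * h) x 0 0 0
    rw [map_mul, Equiv.Perm.mul_apply, habc h, habc g] at h1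
    have h2 := (congrArg Prod.snd h1).symm
    simpa using h2
  refine ⟨a, b, c, ⟨fun g h x => ?_, fun g h x => ?_, fun g h x => ?_⟩, ?_, ?_, ?_, ?_, ?_, ?_⟩
  · exact congrArg Prod.fst (key g h x)
  · exact congrArg (fun p => p.2.1) (key g h x)
  · exact congrArg (fun p => p.2.2) (key g h x)
  all_goals
    funext x
    first
    | (have h1 := habc S x 0 0 0
       rw [hΦS, heisPerm_apply] at h1
       have h2 := (congrArg Prod.snd h1).symm
       simp only [Prod.mk.injEq] at h2
       simpa using h2.1)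
    | (have h1 := habc S x 0 0 0
       rw [hΦS, heisPerm_apply] at h1
       have h2 := (congrArg Prod.snd h1).symm
       simp only [Prod.mk.injEq] at h2
       simpa using h2.2.1)
    | (have h1 := habc S x 0 0 0
       rw [hΦS, heisPerm_apply] at h1
       have h2 := (congrArg Prod.snd h1).symm
       simp only [Prod.mk.injEq] at h2
       simpa using h2.2.2)
    | (have h1 := habc (S * T) x 0 0 0
       rw [hΦU, heisPerm_apply] at h1
       have h2 := (congrArg Prod.snd h1).symm
       simp only [Prod.mk.injEq] at h2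
       simpa using h2.1)
    | (have h1 := habc (S * T) x 0 0 0
       rw [hΦU, heisPerm_apply] at h1
       have h2 := (congrArg Prod.snd h1).symm
       simp only [Prod.mk.injEq] at h2
       simpa using h2.2.1)
    | (have h1 := habc (S * T) x 0 0 0
       rw [hΦU, heisPerm_apply] at h1
       have h2 := (congrArg Prod.snd h1).symm
       simp only [Prod.mk.injEq] at h2
       simpa using h2.2.2)

end

section Additive

variable {X : Type*} [MulAction SL(2, ℤ) X] {A : Type*} [AddCommGroup A]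

lemma addCocycle_one {f : SL(2, ℤ) → X → A} (hf : ∀ g h x, f (g * h) x = f h x + f g (h • x))
    (x : X) : f 1 x = 0 := by
  have := hf 1 1 x
  rw [one_mul, one_smul] at this
  exact left_eq_add.mp this

lemma addCocycle_inv {f : SL(2, ℤ) → X → A} (hf : ∀ g h x, f (g * h) x = f h x + f g (h • x))
    (g : SL(2, ℤ)) (x : X) : f g⁻¹ x = - f g (g⁻¹ • x) := by
  have := hf g g⁻¹ x
  rw [mul_inv_cancel, addCocycle_one hf] at this
  exact eq_neg_of_add_eq_zero_left this.symm

/-- Additive cocycles are determined by their values on `S` and `S * T`. -/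
theorem addCocycle_ext {f f' : SL(2, ℤ) → X → A}
    (hf : ∀ g h x, f (g * h) x = f h x + f g (h • x))
    (hf' : ∀ g h x, f' (g * h) x = f' h x + f' g (h • x))
    (hS : f S = f' S) (hU : f (S * T) = f' (S * T)) : f = f' := by
  funext g
  have hg : g ∈ Subgroup.closure ({S, S * T} : Set SL(2, ℤ)) := by
    rw [closure_S_ST_eq_top]; trivial
  induction hg using Subgroup.closure_induction with
  | mem x hx =>
    rcases hx with rfl | rfl
    · exact hS
    · exact hU
  | one =>
    funext x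
    rw [addCocycle_one hf, addCocycle_one hf']
  | mul g h _ _ hg hh =>
    funext x
    rw [hf, hf', hg, hh]
  | inv g _ hg =>
    funext x
    rw [addCocycle_inv hf, addCocycle_inv hf', hg]

end Additive

end Fermat.Agent.S41.H221

end
-- ===== PACK-END S41/H221/PDHeisCocycle.lean

-- ===== PACK-BEGIN S15/H215/WpDeriv.lean
section


/-!
# S15, piece MOD-B4 (helper215): derivatives of the Weierstrass `℘`-function off the lattice

Mathlib-only.  For a period pair `L` and `x ∉ L.lattice`: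

* `deriv_derivWeierstrassP_h215` : second derivative `℘₂ = 6 ℘² - g₂ / 2`;
* `deriv_deriv_derivWeierstrassP_h215` : third derivative `℘₃ = 12 ℘ ℘₁`;
* `deriv_deriv_deriv_derivWeierstrassP_h215` : fourth derivative `℘₄ = 120 ℘³ - 18 g₂ ℘ - 12 g₃`;
* `six_mul_sumInvPow_four_h215` : `6 ∑ (l - x)⁻⁴ = 6 ℘(x)² - g₂ / 2`;
* `mul_sumInvPow_six_h215` : `120 ∑ (l - x)⁻⁶ = 120 ℘(x)³ - 18 g₂ ℘(x) - 12 g₃`;
* `isPreconnected_compl_lattice_h215`, `exists_derivWeierstrassP_ne_zero_h215`.

Method: differentiate Mathlib's relation `℘₁² = 4 ℘³ - g₂ ℘ - g₃`, cancel `℘₁` by the identity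
theorem on the connected open set `ℂ \ L`, and read the lattice sums off the Taylor coefficients
of `℘` (`PeriodPair.iteratedDeriv_weierstrassPExcept_self`).
-/

set_option autoImplicit false

namespace Fermat.Agent.S15.H215

open Filter Topology

variable (L : PeriodPair)

theorem countable_lattice_h215 : (L.lattice : Set ℂ).Countable := by
  have : Countable L.lattice := L.latticeEquivProd.toEquiv.countable_iff.mpr inferInstance
  exact Set.countable_coe_iff.mp this

theorem isPreconnected_compl_lattice_h215 : IsPreconnected ((L.lattice : Set ℂ)ᶜ) :=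
  ((countable_lattice_h215 L).isConnected_compl_of_one_lt_rank
    (by simp only [Complex.rank_real_complex, Nat.one_lt_ofNat])).isPreconnected

theorem isOpen_compl_lattice_h215 : IsOpen ((L.lattice : Set ℂ)ᶜ) :=
  L.isClosed_lattice.isOpen_compl

/-- `℘'` is not identically zero off the lattice. -/
theorem exists_derivWeierstrassP_ne_zero_h215 :
    ¬ ∀ z ∈ ((L.lattice : Set ℂ)ᶜ), L.derivWeierstrassP z = 0 := by
  intro h
  have hconst : ∃ a, ∀ x ∈ ((L.lattice : Set ℂ)ᶜ), L.weierstrassP x = a := by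
    refine (isOpen_compl_lattice_h215 L).exists_is_const_of_deriv_eq_zero
      (isPreconnected_compl_lattice_h215 L) L.differentiableOn_weierstrassP ?_
    intro x hx
    rw [L.deriv_weierstrassP]
    exact h x hx
  obtain ⟨a, ha⟩ := hconst
  have hev : L.weierstrassP =ᶠ[𝓝[≠] (0 : ℂ)] fun _ => a := by
    have h1 : ((↑L.lattice \ {(0 : ℂ)})ᶜ : Set ℂ) ∈ 𝓝 (0 : ℂ) :=
      L.compl_lattice_sdiff_singleton_mem_nhds 0
    filter_upwards [mem_nhdsWithin_of_mem_nhds h1, self_mem_nhdsWithin] with z hz hz0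
    apply ha
    intro hzL
    exact hz ⟨hzL, hz0⟩
  have hord := L.order_weierstrassP 0 (zero_mem _)
  classical
  have h2 : (-2 : WithTop ℤ) = ((-2 : ℤ) : WithTop ℤ) := by norm_num
  rw [meromorphicOrderAt_congr hev, meromorphicOrderAt_const, h2] at hord
  split_ifs at hord
  · exact WithTop.top_ne_coe hord
  · have h0 : (0 : WithTop ℤ) = ((0 : ℤ) : WithTop ℤ) := rfl
    rw [h0, WithTop.coe_eq_coe] at hord
    omega

theorem hasDerivAt_wp_h215 (z : ℂ) (hz : z ∉ L.lattice) :
    HasDerivAt L.weierstrassP (L.derivWeierstrassP z) z := by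
  have h := (L.analyticOnNhd_weierstrassP z hz).differentiableAt.hasDerivAt
  rwa [L.deriv_weierstrassP] at h

theorem hasDerivAt_derivWp_h215 (z : ℂ) (hz : z ∉ L.lattice) :
    HasDerivAt L.derivWeierstrassP (deriv L.derivWeierstrassP z) z :=
  (L.analyticOnNhd_derivWeierstrassP z hz).differentiableAt.hasDerivAt

/-- `℘'' = 6 ℘² - g₂ / 2` off the lattice. -/
theorem deriv_derivWeierstrassP_h215 (z : ℂ) (hz : z ∉ L.lattice) :
    deriv L.derivWeierstrassP z = 6 * L.weierstrassP z ^ 2 - L.g₂ / 2 := by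
  have hmul : ∀ w ∈ ((L.lattice : Set ℂ)ᶜ), L.derivWeierstrassP w *
      (deriv L.derivWeierstrassP w - (6 * L.weierstrassP w ^ 2 - L.g₂ / 2)) = 0 := by
    intro w hw
    have hev : (fun z => L.derivWeierstrassP z ^ 2) =ᶠ[𝓝 w]
        fun z => 4 * L.weierstrassP z ^ 3 - L.g₂ * L.weierstrassP z - L.g₃ := by
      filter_upwards [(isOpen_compl_lattice_h215 L).mem_nhds hw] with z hz
      exact L.derivWeierstrassP_sq z hz
    have h1 : HasDerivAt (fun z => L.derivWeierstrassP z ^ 2)
        (2 * L.derivWeierstrassP w ^ 1 * deriv L.derivWeierstrassP w) w := by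
      simpa using (hasDerivAt_derivWp_h215 L w hw).fun_pow 2
    have h2 : HasDerivAt (fun z => 4 * L.weierstrassP z ^ 3 - L.g₂ * L.weierstrassP z - L.g₃)
        (4 * (3 * L.weierstrassP w ^ 2 * L.derivWeierstrassP w) - L.g₂ * L.derivWeierstrassP w)
        w := by
      have := (((hasDerivAt_wp_h215 L w hw).fun_pow 3).const_mul 4).fun_sub
        ((hasDerivAt_wp_h215 L w hw).const_mul L.g₂)
      simpa using this.sub_const L.g₃
    have h3 := (hev.hasDerivAt_iff.mpr h2).unique h1
    linear_combination (-1 / 2 : ℂ) * h3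
  have hA1 : AnalyticOnNhd ℂ L.derivWeierstrassP ((L.lattice : Set ℂ)ᶜ) :=
    L.analyticOnNhd_derivWeierstrassP
  have hA2 : AnalyticOnNhd ℂ (fun w => deriv L.derivWeierstrassP w -
      (6 * L.weierstrassP w ^ 2 - L.g₂ / 2)) ((L.lattice : Set ℂ)ᶜ) := by
    have hd : AnalyticOnNhd ℂ (deriv L.derivWeierstrassP) ((L.lattice : Set ℂ)ᶜ) := hA1.deriv
    have hp : AnalyticOnNhd ℂ L.weierstrassP ((L.lattice : Set ℂ)ᶜ) :=
      L.analyticOnNhd_weierstrassP
    intro w hw
    have := hd w hw
    have := hp w hw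
    fun_prop
  rcases hA1.eq_zero_or_eq_zero_of_mul_eq_zero hA2 hmul (isPreconnected_compl_lattice_h215 L)
    with h | h
  · exact absurd h (exists_derivWeierstrassP_ne_zero_h215 L)
  · have := h z hz
    linear_combination this

/-- `℘''' = 12 ℘ ℘'` off the lattice. -/
theorem deriv_deriv_derivWeierstrassP_h215 (z : ℂ) (hz : z ∉ L.lattice) :
    deriv (deriv L.derivWeierstrassP) z = 12 * L.weierstrassP z * L.derivWeierstrassP z := by
  have hev : deriv L.derivWeierstrassP =ᶠ[𝓝 z] fun w => 6 * L.weierstrassP w ^ 2 - L.g₂ / 2 := by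
    filter_upwards [(isOpen_compl_lattice_h215 L).mem_nhds hz] with w hw
    exact deriv_derivWeierstrassP_h215 L w hw
  have h2 : HasDerivAt (fun w => 6 * L.weierstrassP w ^ 2 - L.g₂ / 2)
      (6 * (2 * L.weierstrassP z ^ 1 * L.derivWeierstrassP z)) z := by
    simpa using (((hasDerivAt_wp_h215 L z hz).fun_pow 2).const_mul 6).sub_const (L.g₂ / 2)
  rw [(hev.hasDerivAt_iff.mpr h2).deriv]
  ring

/-- `℘'''' = 120 ℘³ - 18 g₂ ℘ - 12 g₃` off the lattice. -/
theorem deriv_deriv_deriv_derivWeierstrassP_h215 (z : ℂ) (hz : z ∉ L.lattice) :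
    deriv (deriv (deriv L.derivWeierstrassP)) z =
      120 * L.weierstrassP z ^ 3 - 18 * L.g₂ * L.weierstrassP z - 12 * L.g₃ := by
  have hev : deriv (deriv L.derivWeierstrassP) =ᶠ[𝓝 z]
      fun w => 12 * L.weierstrassP w * L.derivWeierstrassP w := by
    filter_upwards [(isOpen_compl_lattice_h215 L).mem_nhds hz] with w hw
    exact deriv_deriv_derivWeierstrassP_h215 L w hw
  have h2 : HasDerivAt (fun w => 12 * L.weierstrassP w * L.derivWeierstrassP w)
      (12 * L.derivWeierstrassP z * L.derivWeierstrassP z +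
        12 * L.weierstrassP z * deriv L.derivWeierstrassP z) z := by
    simpa using ((hasDerivAt_wp_h215 L z hz).const_mul 12).fun_mul (hasDerivAt_derivWp_h215 L z hz)
  rw [(hev.hasDerivAt_iff.mpr h2).deriv, deriv_derivWeierstrassP_h215 L z hz]
  have h3 := L.derivWeierstrassP_sq z hz
  linear_combination 12 * h3

/-- `6 ∑ (l - x)⁻⁴ = 6 ℘(x)² - g₂ / 2`. -/
theorem six_mul_sumInvPow_four_h215 (x : ℂ) (hx : x ∉ L.lattice) :
    6 * L.sumInvPow x 4 = 6 * L.weierstrassP x ^ 2 - L.g₂ / 2 := by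
  have h := L.iteratedDeriv_weierstrassPExcept_self x (n := 2)
  rw [L.weierstrassPExcept_of_notMem x hx, if_neg (by norm_num)] at h
  have h2 : iteratedDeriv 2 L.weierstrassP x = deriv L.derivWeierstrassP x := by
    rw [iteratedDeriv_succ, iteratedDeriv_one, L.deriv_weierstrassP]
  rw [h2, deriv_derivWeierstrassP_h215 L x hx] at h
  rw [h]
  norm_num [Nat.factorial]

/-- `120 ∑ (l - x)⁻⁶ = 120 ℘(x)³ - 18 g₂ ℘(x) - 12 g₃`. -/
theorem mul_sumInvPow_six_h215 (x : ℂ) (hx : x ∉ L.lattice) :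
    120 * L.sumInvPow x 6 =
      120 * L.weierstrassP x ^ 3 - 18 * L.g₂ * L.weierstrassP x - 12 * L.g₃ := by
  have h := L.iteratedDeriv_weierstrassPExcept_self x (n := 4)
  rw [L.weierstrassPExcept_of_notMem x hx, if_neg (by norm_num)] at h
  have h2 : iteratedDeriv 4 L.weierstrassP x =
      deriv (deriv (deriv L.derivWeierstrassP)) x := by
    rw [iteratedDeriv_succ, iteratedDeriv_succ, iteratedDeriv_succ, iteratedDeriv_one,
      L.deriv_weierstrassP]
  rw [h2, deriv_deriv_deriv_derivWeierstrassP_h215 L x hx] at h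
  rw [h]
  norm_num [Nat.factorial]

end Fermat.Agent.S15.H215

end
-- ===== PACK-END S15/H215/WpDeriv.lean

-- ===== PACK-BEGIN S20/T2_helper423.lean
section
/-
S20 / T2 (helper423): link between Mathlib's lattice Eisenstein sums `PeriodPair.G` and the
normalised level-one Eisenstein series `ModularForm.E`.
-/


set_option autoImplicit false

open UpperHalfPlane ModularForm EisensteinSeries
open scoped MatrixGroups

noncomputable section

namespace Fermat.Agent.S20.T2h423

/-- the period pair `(1, τ)` -/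
def pairOf (τ : ℍ) : PeriodPair where
  ω₁ := 1
  ω₂ := τ
  indep := by
    rw [LinearIndependent.pair_iff]
    intro s t h
    have him := congrArg Complex.im h
    have hre := congrArg Complex.re h
    simp only [Complex.real_smul, Complex.add_im, Complex.mul_im, Complex.ofReal_re,
      Complex.ofReal_im, zero_mul, add_zero,
      UpperHalfPlane.coe_im, UpperHalfPlane.coe_re, zero_add, Complex.zero_im, Complex.add_re,
      Complex.mul_re, mul_one, sub_zero, Complex.zero_re] at him hre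
    have ht : t = 0 := by
      rcases mul_eq_zero.mp him with h' | h'
      · exact h'
      · exact absurd h' τ.im_pos.ne'
    subst ht
    simp only [zero_mul, add_zero] at hre
    exact ⟨hre, rfl⟩

@[simp] lemma pairOf_ω₁ (τ : ℍ) : (pairOf τ).ω₁ = 1 := rfl
@[simp] lemma pairOf_ω₂ (τ : ℍ) : (pairOf τ).ω₂ = τ := rfl

lemma mem_lattice_pairOf {τ : ℍ} {x : ℂ} :
    x ∈ (pairOf τ).lattice ↔ ∃ m n : ℤ, (m : ℂ) * τ + n = x := by
  rw [PeriodPair.mem_lattice]
  constructor
  · rintro ⟨m, n, h⟩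
    exact ⟨n, m, by rw [← h]; simp [add_comm]⟩
  · rintro ⟨m, n, h⟩
    exact ⟨n, m, by rw [← h]; simp [add_comm]⟩

/-- The map `v ↦ v 0 * τ + v 1` from `Fin 2 → ℤ` to the lattice `ℤ + ℤ τ`. -/
def latticeMap (τ : ℍ) (v : Fin 2 → ℤ) : (pairOf τ).lattice :=
  ⟨(v 0 : ℂ) * τ + v 1, mem_lattice_pairOf.mpr ⟨v 0, v 1, rfl⟩⟩

lemma latticeMap_injective (τ : ℍ) : Function.Injective (latticeMap τ) := by
  intro v w h
  have h' : (v 0 : ℂ) * τ + v 1 = (w 0 : ℂ) * τ + w 1 := congrArg Subtype.val h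
  have him := congrArg Complex.im h'
  have hre := congrArg Complex.re h'
  simp only [Complex.add_im, Complex.mul_im, Complex.intCast_re, Complex.intCast_im,
    UpperHalfPlane.coe_im, UpperHalfPlane.coe_re, zero_mul, add_zero, Complex.add_re,
    Complex.mul_re, sub_zero] at him hre
  have h0 : v 0 = w 0 := by
    have := mul_right_cancel₀ τ.im_pos.ne' him
    exact_mod_cast this
  have h1 : v 1 = w 1 := by
    rw [h0] at hre
    have := add_left_cancel hre
    exact_mod_cast this
  funext i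
  fin_cases i
  · exact h0
  · exact h1

lemma latticeMap_surjective (τ : ℍ) : Function.Surjective (latticeMap τ) := by
  rintro ⟨x, hx⟩
  obtain ⟨m, n, h⟩ := mem_lattice_pairOf.mp hx
  refine ⟨![m, n], Subtype.ext ?_⟩
  simpa [latticeMap] using h

/-- The bijection `(Fin 2 → ℤ) ≃ ℤ + ℤ τ`. -/
def latticeEquiv (τ : ℍ) : (Fin 2 → ℤ) ≃ (pairOf τ).lattice :=
  Equiv.ofBijective (latticeMap τ) ⟨latticeMap_injective τ, latticeMap_surjective τ⟩

@[simp] lemma latticeEquiv_apply (τ : ℍ) (v : Fin 2 → ℤ) :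
    ((latticeEquiv τ v : (pairOf τ).lattice) : ℂ) = (v 0 : ℂ) * τ + v 1 := rfl

/-- The lattice sum `G k` of `ℤ + ℤ τ` is the full Eisenstein sum. -/
theorem G_pairOf_eq_tsum_eisSummand (τ : ℍ) (k : ℕ) :
    (pairOf τ).G k = ∑' v : Fin 2 → ℤ, eisSummand k v τ := by
  rw [PeriodPair.G, ← (latticeEquiv τ).tsum_eq]
  refine tsum_congr fun v ↦ ?_
  simp [eisSummand, zpow_neg]

/-- **T2**. `G_k(ℤ + ℤτ) = 2 ζ(k) E_k(τ)` for `k ≥ 3`. -/
theorem G_pairOf (τ : ℍ) {k : ℕ} (hk : 3 ≤ k) :
    (pairOf τ).G k = 2 * riemannZeta k * E hk τ := by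
  rw [G_pairOf_eq_tsum_eisSummand, tsum_eisSummand_eq_riemannZeta_mul_eisensteinSeries hk τ,
    show E hk τ = (1 / 2 : ℂ) • eisensteinSeriesSIF (N := 1) 0 k τ from rfl,
    eisensteinSeriesSIF_apply 0 k τ]
  simp only [smul_eq_mul]
  ring

/-! ### Explicit constants -/

lemma bernoulli'_five : bernoulli' 5 = 0 := by
  have h1 : Nat.choose 5 2 = 10 := by decide
  have h2 : Nat.choose 5 3 = 10 := by decide
  rw [bernoulli'_def]
  norm_num [Finset.sum_range_succ, Finset.sum_range_zero, h1, h2]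

lemma bernoulli'_six : bernoulli' 6 = 1 / 42 := by
  have h1 : Nat.choose 6 2 = 15 := by decide
  have h2 : Nat.choose 6 3 = 20 := by decide
  have h3 : Nat.choose 6 4 = 15 := by decide
  rw [bernoulli'_def]
  norm_num [Finset.sum_range_succ, Finset.sum_range_zero, h1, h2, h3, bernoulli'_five]

lemma riemannZeta_six : riemannZeta 6 = (Real.pi : ℂ) ^ 6 / 945 := by
  have h := riemannZeta_two_mul_nat (k := 3) (by norm_num)
  have hb : bernoulli 6 = 1 / 42 := by
    rw [bernoulli_eq_bernoulli'_of_ne_one (by decide : 6 ≠ 1), bernoulli'_six]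
  norm_num at h
  rw [h, hb]
  norm_num [Nat.factorial]
  ring

/-- `g₂(ℤ + ℤτ) = (4/3) π⁴ E₄(τ)`. -/
theorem g₂_pairOf (τ : ℍ) : (pairOf τ).g₂ = 4 / 3 * (Real.pi : ℂ) ^ 4 * E₄ τ := by
  have h := G_pairOf τ (k := 4) (by norm_num)
  have hz : riemannZeta ((4 : ℕ) : ℂ) = (Real.pi : ℂ) ^ 4 / 90 := by
    simpa using riemannZeta_four
  rw [PeriodPair.g₂, h, hz]
  ring

/-- `g₃(ℤ + ℤτ) = (8/27) π⁶ E₆(τ)`. -/
theorem g₃_pairOf (τ : ℍ) : (pairOf τ).g₃ = 8 / 27 * (Real.pi : ℂ) ^ 6 * E₆ τ := by
  have h := G_pairOf τ (k := 6) (by norm_num)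
  have hz : riemannZeta ((6 : ℕ) : ℂ) = (Real.pi : ℂ) ^ 6 / 945 := by
    simpa using riemannZeta_six
  rw [PeriodPair.g₃, h, hz]
  ring

/-- `g₂³ - 27 g₃² = (2π)¹² Δ(τ)` for the lattice `ℤ + ℤτ`. -/
theorem g₂_cube_sub_g₃_sq_pairOf (τ : ℍ) :
    (pairOf τ).g₂ ^ 3 - 27 * (pairOf τ).g₃ ^ 2 =
      (2 * (Real.pi : ℂ)) ^ 12 * discriminant τ := by
  rw [g₂_pairOf, g₃_pairOf, discriminant_eq_E₄_cube_sub_E₆_sq]
  ring

/-! ### Scaling a lattice -/

/-- The period pair `(c ω₁, c ω₂)` for `c ≠ 0`. -/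
def scalePair (c : ℂ) (hc : c ≠ 0) (L : PeriodPair) : PeriodPair where
  ω₁ := c * L.ω₁
  ω₂ := c * L.ω₂
  indep := by
    have h := L.indep
    rw [LinearIndependent.pair_iff] at h ⊢
    intro s t hst
    refine h s t ?_
    have : c * (s • L.ω₁ + t • L.ω₂) = 0 := by
      rw [← hst]
      simp only [Complex.real_smul]
      ring
    exact (mul_eq_zero.mp this).resolve_left hc

@[simp] lemma scalePair_ω₁ (c : ℂ) (hc : c ≠ 0) (L : PeriodPair) :
    (scalePair c hc L).ω₁ = c * L.ω₁ := rfl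
@[simp] lemma scalePair_ω₂ (c : ℂ) (hc : c ≠ 0) (L : PeriodPair) :
    (scalePair c hc L).ω₂ = c * L.ω₂ := rfl

lemma mem_lattice_scalePair {c : ℂ} (hc : c ≠ 0) {L : PeriodPair} {x : ℂ} :
    x ∈ (scalePair c hc L).lattice ↔ ∃ y ∈ L.lattice, c * y = x := by
  simp only [PeriodPair.mem_lattice, scalePair_ω₁, scalePair_ω₂]
  constructor
  · rintro ⟨m, n, h⟩
    exact ⟨m * L.ω₁ + n * L.ω₂, ⟨m, n, rfl⟩, by rw [← h]; ring⟩
  · rintro ⟨y, ⟨m, n, hy⟩, h⟩
    exact ⟨m, n, by rw [← h, ← hy]; ring⟩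

/-- Multiplication by `c` as a bijection `L ≃ cL`. -/
def scaleEquiv (c : ℂ) (hc : c ≠ 0) (L : PeriodPair) :
    L.lattice ≃ (scalePair c hc L).lattice where
  toFun y := ⟨c * y, (mem_lattice_scalePair hc).mpr ⟨y, y.2, rfl⟩⟩
  invFun x := ⟨c⁻¹ * x, by
    obtain ⟨y, hy, h⟩ := (mem_lattice_scalePair hc).mp x.2
    rw [← h, inv_mul_cancel_left₀ hc]
    exact hy⟩
  left_inv y := Subtype.ext (by simp [inv_mul_cancel_left₀ hc])
  right_inv x := Subtype.ext (by simp [mul_inv_cancel_left₀ hc])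

/-- `G_k(cL) = c⁻ᵏ G_k(L)`. -/
theorem G_scalePair (c : ℂ) (hc : c ≠ 0) (L : PeriodPair) (k : ℕ) :
    (scalePair c hc L).G k = (c ^ k)⁻¹ * L.G k := by
  rw [PeriodPair.G, PeriodPair.G, ← (scaleEquiv c hc L).tsum_eq, ← tsum_mul_left]
  refine tsum_congr fun y ↦ ?_
  simp only [scaleEquiv, Equiv.coe_fn_mk, mul_pow, mul_inv]

theorem g₂_scalePair (c : ℂ) (hc : c ≠ 0) (L : PeriodPair) :
    (scalePair c hc L).g₂ = (c ^ 4)⁻¹ * L.g₂ := by
  rw [PeriodPair.g₂, PeriodPair.g₂, G_scalePair]; ring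

theorem g₃_scalePair (c : ℂ) (hc : c ≠ 0) (L : PeriodPair) :
    (scalePair c hc L).g₃ = (c ^ 6)⁻¹ * L.g₃ := by
  rw [PeriodPair.g₃, PeriodPair.g₃, G_scalePair]; ring

end Fermat.Agent.S20.T2h423

end
end
-- ===== PACK-END S20/T2_helper423.lean

-- ===== PACK-BEGIN S05/AssembleB.lean
section
/-
S05 final assembly, part B (helper665): the slope lemma.
Two integral points `P = (x, y)`, `P' = (x', y')` with
`v (x' - x) < v η` and `v (η' - η) < v η` (`η = 2y + a₁x + a₃`) differ by a point of `E₁`.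
-/


set_option autoImplicit false

namespace Fermat.Agent.S05.Assemble

open WeierstrassCurve WeierstrassCurve.Affine
open Fermat.Agent.S05.SameRed

set_option linter.unusedSectionVars false
set_option linter.unusedVariables false

variable {K : Type*} [Field K] [DecidableEq K]
  {Γ₀ : Type*} [LinearOrderedCommGroupWithZero Γ₀]
variable {W : Affine K} {v : Valuation K Γ₀}

/-- **(B)** the slope lemma. -/
theorem inKer_sub_of_eta (hW : IntegralCoeffs W v) (h2 : v (2 : K) = 1) {x y x' y' : K}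
    (h : W.Nonsingular x y) (h' : W.Nonsingular x' y') (hx : v x ≤ 1) (hx' : v x' ≤ 1)
    (hxx : v (x' - x) < v (2 * y + W.a₁ * x + W.a₃))
    (hηη : v ((2 * y' + W.a₁ * x' + W.a₃) - (2 * y + W.a₁ * x + W.a₃)) <
      v (2 * y + W.a₁ * x + W.a₃)) :
    InKer W v (Point.some x' y' h' - Point.some x y h) := by
  rw [sub_eq_add_neg, Point.neg_some]
  set η : K := 2 * y + W.a₁ * x + W.a₃ with hη
  set η' : K := 2 * y' + W.a₁ * x' + W.a₃ with hη'
  have hnegY : W.negY x y = -y - W.a₁ * x - W.a₃ := rfl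
  have hη0 : η ≠ 0 := by
    intro h0
    rw [h0, map_zero] at hxx
    exact not_lt_zero hxx
  have hvη : 0 < v η := (Valuation.pos_iff v).mpr hη0
  have hv2η : v (2 * η) = v η := by rw [map_mul, h2, one_mul]
  by_cases hxe : x' = x
  · subst hxe
    rcases Affine.Y_eq_of_X_eq h'.1 h.1 rfl with hyy | hyy
    · subst hyy
      rw [Point.add_of_Y_eq rfl (by rw [Affine.negY_negY])]
      exact inKer_zero
    · exfalso
      have : η' - η = -(2 * η) := by
        simp only [hη, hη', hyy, hnegY]; ring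
      rw [this, Valuation.map_neg, hv2η] at hηη
      exact lt_irrefl _ hηη
  · rw [Point.add_of_X_ne hxe, inKer_some]
    apply one_lt_val_addX hW hx' hx
    rw [Affine.slope_of_X_ne hxe]
    have hd0 : x' - x ≠ 0 := sub_ne_zero.mpr hxe
    have hnum : y' - W.negY x y = ((2 * η + (η' - η)) + -(W.a₁ * (x' - x))) / 2 := by
      have h20 : (2 : K) ≠ 0 := by
        intro h0; rw [h0, map_zero] at h2; exact zero_ne_one h2
      rw [hnegY]; simp only [hη, hη']; field_simp; ring
    have hv1 : v (2 * η + (η' - η)) = v η := by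
      rw [v.map_add_eq_of_lt_left (by rw [hv2η]; exact hηη), hv2η]
    have hv2 : v (W.a₁ * (x' - x)) < v η := by
      rw [map_mul]
      exact (mul_le_of_le_one_left' hW.a₁).trans_lt hxx
    have hv3 : v ((2 * η + (η' - η)) + -(W.a₁ * (x' - x))) = v η := by
      rw [v.map_add_eq_of_lt_left (by rw [Valuation.map_neg, hv1]; exact hv2), hv1]
    rw [hnum, map_div₀, map_div₀, hv3, h2, div_one,
      one_lt_div₀ ((Valuation.pos_iff v).mpr hd0)]
    exact hxx

end Fermat.Agent.S05.Assemble

end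
-- ===== PACK-END S05/AssembleB.lean

-- ===== PACK-BEGIN S19/H495/Pivot.lean
section
/-
A3 / S19 — WP-W6alg (helper495): constant-rank linear algebra over a commutative ring.

A matrix `A` over a commutative ring `R` has *constant rank at the pivot `(p, q)`* when the
square block `A[p, q]` has unit determinant and every bordered minor (the block enlarged by one
row and one column) vanishes.  Then `A = A[·, q] * A[p, q]⁻¹ * A[p, ·]`, the kernel and the image
of `A` are free direct summands with explicit bases whose entries are polynomials in the entries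
of `A` divided by the pivot minor, and all of this is stable under arbitrary base change.
-/





set_option linter.unusedSectionVars false
set_option linter.unusedSimpArgs false
set_option linter.style.longLine false

namespace Fermat.Agent.S19.H495

open Matrix

variable {R : Type*} [CommRing R]
variable {m n ι : Type*} [Fintype m] [Fintype n] [Fintype ι] [DecidableEq m] [DecidableEq n]
  [DecidableEq ι]

/-- The bordered minor of `A`: the determinant of the pivot block `A[p, q]` enlarged by the row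
`i` and the column `j`. -/
noncomputable def borderedMinor (A : Matrix m n R) (p : ι → m) (q : ι → n) (i : m) (j : n) : R :=
  (A.submatrix (Sum.elim p (fun _ : Unit => i)) (Sum.elim q (fun _ : Unit => j))).det

/-- `A` has constant rank at the pivot `(p, q)`: the pivot minor is a unit and all bordered minors
vanish. -/
def ConstRankAt (A : Matrix m n R) (p : ι → m) (q : ι → n) : Prop :=
  IsUnit (A.submatrix p q).det ∧ ∀ i j, borderedMinor A p q i j = 0

theorem borderedMinor_eq_fromBlocks (A : Matrix m n R) (p : ι → m) (q : ι → n) (i : m) (j : n) :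
    borderedMinor A p q i j =
      (fromBlocks (A.submatrix p q) (A.submatrix p (fun _ : Unit => j))
        (A.submatrix (fun _ : Unit => i) q) (A.submatrix (fun _ : Unit => i) (fun _ : Unit => j))).det := by
  unfold borderedMinor
  congr 1
  ext (a | a) (b | b) <;> rfl

/-- Schur complement form of the bordered minor. -/
theorem borderedMinor_eq (A : Matrix m n R) (p : ι → m) (q : ι → n) (i : m) (j : n)
    (h : IsUnit (A.submatrix p q).det) :
    borderedMinor A p q i j =
      (A.submatrix p q).det * (A i j - ∑ a, ∑ b, A i (q a) * (A.submatrix p q)⁻¹ a b * A (p b) j) := by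
  rw [borderedMinor_eq_fromBlocks]
  let _ := invertibleOfIsUnitDet _ h
  rw [det_fromBlocks₁₁]
  congr 1
  rw [det_unique (n := Unit)]
  simp only [Matrix.sub_apply, submatrix_apply, Matrix.mul_apply, invOf_eq_nonsing_inv,
    Finset.sum_mul]
  rw [Finset.sum_comm]

section Core

variable (A : Matrix m n R) (p : ι → m) (q : ι → n)

/-- The reduced row echelon matrix `A[p, q]⁻¹ * A[p, ·]` of `A` at the pivot `(p, q)`. -/
noncomputable def echelon : Matrix ι n R := (A.submatrix p q)⁻¹ * A.submatrix p id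

/-- The reduced column echelon matrix `A[·, q] * A[p, q]⁻¹` of `A` at the pivot `(p, q)`. -/
noncomputable def coechelon : Matrix m ι R := A.submatrix id q * (A.submatrix p q)⁻¹

variable {A p q}

theorem ConstRankAt.isUnit_det (h : ConstRankAt A p q) : IsUnit (A.submatrix p q).det := h.1

theorem ConstRankAt.entry_eq (h : ConstRankAt A p q) (i : m) (j : n) :
    A i j = ∑ a, ∑ b, A i (q a) * (A.submatrix p q)⁻¹ a b * A (p b) j := by
  have h1 := borderedMinor_eq A p q i j h.1
  rw [h.2 i j] at h1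
  have h2 := h.1.mul_right_eq_zero.mp h1.symm
  exact sub_eq_zero.mp h2

/-- Rank factorisation of a matrix of constant rank. -/
theorem ConstRankAt.factorization (h : ConstRankAt A p q) :
    A = A.submatrix id q * (A.submatrix p q)⁻¹ * A.submatrix p id := by
  ext i j
  rw [h.entry_eq i j]
  simp only [Matrix.mul_apply, submatrix_apply, id_eq, Finset.sum_mul]
  rw [Finset.sum_comm]

theorem ConstRankAt.eq_mul_echelon (h : ConstRankAt A p q) :
    A = A.submatrix id q * echelon A p q := by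
  rw [echelon, ← Matrix.mul_assoc]; exact h.factorization

theorem ConstRankAt.eq_coechelon_mul (h : ConstRankAt A p q) :
    A = coechelon A p q * A.submatrix p id := h.factorization

theorem echelon_submatrix (h : IsUnit (A.submatrix p q).det) :
    (echelon A p q).submatrix id q = 1 := by
  have : (echelon A p q).submatrix id q = (A.submatrix p q)⁻¹ * A.submatrix p q := by
    ext a b; simp [echelon, Matrix.mul_apply]
  rw [this, nonsing_inv_mul _ h]

theorem coechelon_submatrix (h : IsUnit (A.submatrix p q).det) :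
    (coechelon A p q).submatrix p id = 1 := by
  have : (coechelon A p q).submatrix p id = A.submatrix p q * (A.submatrix p q)⁻¹ := by
    ext a b; simp [coechelon, Matrix.mul_apply]
  rw [this, mul_nonsing_inv _ h]

theorem echelon_apply_pivot (h : IsUnit (A.submatrix p q).det) (a b : ι) :
    echelon A p q a (q b) = if a = b then 1 else 0 := by
  have := congrFun (congrFun (echelon_submatrix h) a) b
  simpa [Matrix.one_apply] using this

theorem coechelon_apply_pivot (h : IsUnit (A.submatrix p q).det) (a b : ι) :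
    coechelon A p q (p a) b = if a = b then 1 else 0 := by
  have := congrFun (congrFun (coechelon_submatrix h) a) b
  simpa [Matrix.one_apply] using this

/-- In a nontrivial ring the column selector of a pivot is injective. -/
theorem injective_of_isUnit_det_right [Nontrivial R] (h : IsUnit (A.submatrix p q).det) :
    Function.Injective q := by
  intro a b hab
  by_contra hne
  have h1 : echelon A p q a (q a) = 1 := by rw [echelon_apply_pivot h, if_pos rfl]
  have h2 : echelon A p q a (q b) = 0 := by rw [echelon_apply_pivot h, if_neg hne]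
  rw [hab, h2] at h1
  exact zero_ne_one h1

/-- In a nontrivial ring the row selector of a pivot is injective. -/
theorem injective_of_isUnit_det_left [Nontrivial R] (h : IsUnit (A.submatrix p q).det) :
    Function.Injective p := by
  intro a b hab
  by_contra hne
  have h1 : coechelon A p q (p a) a = 1 := by rw [coechelon_apply_pivot h, if_pos rfl]
  have h2 : coechelon A p q (p b) a = 0 := by
    rw [coechelon_apply_pivot h, if_neg (Ne.symm hne)]
  rw [hab, h2] at h1
  exact zero_ne_one h1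

/-! ### The kernel -/

theorem submatrix_mulVec_eq (x : n → R) (a : ι) :
    (A.submatrix p id *ᵥ x) a = (A *ᵥ x) (p a) := rfl

theorem ConstRankAt.mulVec_eq_zero_iff_submatrix (h : ConstRankAt A p q) (x : n → R) :
    A *ᵥ x = 0 ↔ A.submatrix p id *ᵥ x = 0 := by
  constructor
  · intro hx
    ext a
    rw [submatrix_mulVec_eq, hx]; rfl
  · intro hx
    rw [h.eq_coechelon_mul, ← Matrix.mulVec_mulVec, hx, Matrix.mulVec_zero]

theorem ConstRankAt.mulVec_eq_zero_iff_echelon (h : ConstRankAt A p q) (x : n → R) :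
    A *ᵥ x = 0 ↔ echelon A p q *ᵥ x = 0 := by
  rw [h.mulVec_eq_zero_iff_submatrix]
  constructor
  · intro hx
    rw [echelon, ← Matrix.mulVec_mulVec, hx, Matrix.mulVec_zero]
  · intro hx
    have : A.submatrix p id = A.submatrix p q * echelon A p q := by
      rw [echelon, ← Matrix.mul_assoc, mul_nonsing_inv _ h.1, Matrix.one_mul]
    rw [this, ← Matrix.mulVec_mulVec, hx, Matrix.mulVec_zero]

variable (A p q)

/-- The projector onto the kernel of `A` along the pivot coordinates:
`kerProj = 1 - S_q * echelon`, where `S_q` is the selection matrix of the pivot columns.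
Its `j`-th column is `e_j - ∑ a, echelon a j • e_{q a}`. -/
noncomputable def kerProj : Matrix n n R :=
  1 - (1 : Matrix n n R).submatrix id q * echelon A p q

/-- The projector onto the image of `A` along the non-pivot coordinates:
`imgProj = coechelon * S_p`, where `S_p` is the selection matrix of the pivot rows. -/
noncomputable def imgProj : Matrix m m R :=
  coechelon A p q * (1 : Matrix m m R).submatrix p id

variable {A p q}

theorem mul_one_submatrix_right {k : Type*} [Fintype k] (B : Matrix k n R) :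
    B * (1 : Matrix n n R).submatrix id q = B.submatrix id q := by
  ext i a
  simp [Matrix.mul_apply, Matrix.one_apply]

theorem one_submatrix_mul_left {k : Type*} [Fintype k] (B : Matrix m k R) :
    (1 : Matrix m m R).submatrix p id * B = B.submatrix p id := by
  ext a j
  simp [Matrix.mul_apply, Matrix.one_apply]

theorem echelon_mul_kerProj (h : IsUnit (A.submatrix p q).det) :
    echelon A p q * kerProj A p q = 0 := by
  rw [kerProj, Matrix.mul_sub, Matrix.mul_one, ← Matrix.mul_assoc, mul_one_submatrix_right,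
    echelon_submatrix h, Matrix.one_mul, sub_self]

theorem ConstRankAt.mul_kerProj (h : ConstRankAt A p q) : A * kerProj A p q = 0 := by
  refine (congrArg (· * kerProj A p q) h.eq_mul_echelon).trans ?_
  rw [Matrix.mul_assoc, echelon_mul_kerProj h.1, Matrix.mul_zero]

theorem kerProj_mul_kerProj (h : IsUnit (A.submatrix p q).det) :
    kerProj A p q * kerProj A p q = kerProj A p q := by
  nth_rewrite 1 [kerProj]
  rw [Matrix.sub_mul, Matrix.one_mul, Matrix.mul_assoc,
    echelon_mul_kerProj h, Matrix.mul_zero, sub_zero]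

theorem kerProj_mulVec_of_echelon (x : n → R) (hx : echelon A p q *ᵥ x = 0) :
    kerProj A p q *ᵥ x = x := by
  rw [kerProj, Matrix.sub_mulVec, Matrix.one_mulVec, ← Matrix.mulVec_mulVec, hx,
    Matrix.mulVec_zero, sub_zero]

theorem ConstRankAt.kerProj_mulVec (h : ConstRankAt A p q) (x : n → R) (hx : A *ᵥ x = 0) :
    kerProj A p q *ᵥ x = x :=
  kerProj_mulVec_of_echelon x ((h.mulVec_eq_zero_iff_echelon x).mp hx)

theorem kerProj_apply (i j : n) :
    kerProj A p q i j = (if i = j then 1 else 0) - ∑ a, (if i = q a then echelon A p q a j else 0) := by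
  simp [kerProj, Matrix.mul_apply, Matrix.one_apply]

/-- The pivot columns of the kernel projector vanish. -/
theorem kerProj_submatrix_pivot (h : IsUnit (A.submatrix p q).det) :
    (kerProj A p q).submatrix id q = 0 := by
  rw [← mul_one_submatrix_right, kerProj, Matrix.sub_mul, Matrix.one_mul, Matrix.mul_assoc,
    mul_one_submatrix_right (q := q) (echelon A p q), echelon_submatrix h, Matrix.mul_one, sub_self]

theorem kerProj_apply_pivot (h : IsUnit (A.submatrix p q).det) (i : n) (a : ι) :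
    kerProj A p q i (q a) = 0 := by
  have := congrFun (congrFun (kerProj_submatrix_pivot h) i) a
  simpa using this

/-- Off the pivot rows, the kernel projector is the identity matrix. -/
theorem kerProj_apply_of_notMem (i j : n) (hi : i ∉ Set.range q) :
    kerProj A p q i j = if i = j then 1 else 0 := by
  rw [kerProj_apply]
  have : ∀ a, (if i = q a then echelon A p q a j else 0) = 0 := by
    intro a
    rw [if_neg]
    rintro rfl
    exact hi ⟨a, rfl⟩
  simp [this]

theorem ConstRankAt.ker_eq_range_kerProj (h : ConstRankAt A p q) :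
    LinearMap.ker A.mulVecLin = LinearMap.range (kerProj A p q).mulVecLin := by
  ext x
  simp only [LinearMap.mem_ker, Matrix.mulVecLin_apply, LinearMap.mem_range]
  constructor
  · intro hx
    exact ⟨x, h.kerProj_mulVec x hx⟩
  · rintro ⟨y, rfl⟩
    rw [Matrix.mulVec_mulVec, h.mul_kerProj, Matrix.zero_mulVec]

/-- Every element of the kernel is the combination of the non-pivot columns of the kernel
projector with its own non-pivot coordinates as coefficients. -/
theorem ConstRankAt.eq_sum_kerProj (h : ConstRankAt A p q) (x : n → R) (hx : A *ᵥ x = 0) (i : n) :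
    x i = ∑ j, kerProj A p q i j * x j := by
  have := congrFun (h.kerProj_mulVec x hx) i
  rw [← this]
  rfl

/-! ### The image -/

theorem ConstRankAt.imgProj_mul (h : ConstRankAt A p q) : imgProj A p q * A = A := by
  rw [imgProj, Matrix.mul_assoc, one_submatrix_mul_left]
  exact h.eq_coechelon_mul.symm

theorem imgProj_mul_imgProj (h : IsUnit (A.submatrix p q).det) :
    imgProj A p q * imgProj A p q = imgProj A p q := by
  rw [imgProj, Matrix.mul_assoc, ← Matrix.mul_assoc ((1 : Matrix m m R).submatrix p id),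
    one_submatrix_mul_left, coechelon_submatrix h, Matrix.one_mul]

theorem ConstRankAt.range_eq_range_submatrix (h : ConstRankAt A p q) :
    LinearMap.range A.mulVecLin = LinearMap.range (A.submatrix id q).mulVecLin := by
  ext y
  simp only [LinearMap.mem_range, Matrix.mulVecLin_apply]
  constructor
  · rintro ⟨x, rfl⟩
    refine ⟨echelon A p q *ᵥ x, ?_⟩
    rw [Matrix.mulVec_mulVec, ← h.eq_mul_echelon]
  · rintro ⟨z, rfl⟩
    refine ⟨(1 : Matrix n n R).submatrix id q *ᵥ z, ?_⟩
    rw [Matrix.mulVec_mulVec, mul_one_submatrix_right]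

theorem ConstRankAt.range_eq_range_imgProj (h : ConstRankAt A p q) :
    LinearMap.range A.mulVecLin = LinearMap.range (imgProj A p q).mulVecLin := by
  ext y
  simp only [LinearMap.mem_range, Matrix.mulVecLin_apply]
  constructor
  · rintro ⟨x, rfl⟩
    refine ⟨A *ᵥ x, ?_⟩
    rw [Matrix.mulVec_mulVec, h.imgProj_mul]
  · rintro ⟨z, rfl⟩
    refine ⟨(1 : Matrix n n R).submatrix id q *ᵥ ((A.submatrix p q)⁻¹ *ᵥ
      ((1 : Matrix m m R).submatrix p id *ᵥ z)), ?_⟩
    rw [Matrix.mulVec_mulVec, Matrix.mulVec_mulVec, Matrix.mulVec_mulVec, imgProj, coechelon,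
      mul_one_submatrix_right, Matrix.mul_assoc]

/-- The pivot columns of a matrix with unit pivot minor are linearly independent: the
coefficients are recovered from the pivot rows. -/
theorem submatrix_mulVec_injective (h : IsUnit (A.submatrix p q).det) :
    Function.Injective (A.submatrix id q).mulVecLin := by
  intro x y hxy
  have h1 : ((A.submatrix p q)⁻¹ * (A.submatrix id q).submatrix p id) *ᵥ x =
      ((A.submatrix p q)⁻¹ * (A.submatrix id q).submatrix p id) *ᵥ y := by
    rw [← Matrix.mulVec_mulVec, ← Matrix.mulVec_mulVec]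
    congr 1
    ext a
    exact congrFun hxy (p a)
  have h2 : (A.submatrix p q)⁻¹ * (A.submatrix id q).submatrix p id = 1 := by
    rw [show (A.submatrix id q).submatrix p id = A.submatrix p q from rfl, nonsing_inv_mul _ h]
  rwa [h2, Matrix.one_mulVec, Matrix.one_mulVec] at h1

end Core

/-! ### Base change -/

section BaseChange

variable {S : Type*} [CommRing S] (f : R →+* S) {A : Matrix m n R} {p : ι → m} {q : ι → n}

theorem map_nonsing_inv (G : Matrix ι ι R) (h : IsUnit G.det) : (G⁻¹).map f = (G.map f)⁻¹ := by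
  symm
  apply Matrix.inv_eq_right_inv
  rw [← Matrix.map_mul, mul_nonsing_inv _ h, Matrix.map_one _ f.map_zero f.map_one]

theorem borderedMinor_map (A : Matrix m n R) (p : ι → m) (q : ι → n) (i : m) (j : n) :
    borderedMinor (A.map f) p q i j = f (borderedMinor A p q i j) := by
  unfold borderedMinor
  rw [RingHom.map_det]
  rfl

theorem det_submatrix_map (A : Matrix m n R) (p : ι → m) (q : ι → n) :
    ((A.map f).submatrix p q).det = f (A.submatrix p q).det := by
  rw [RingHom.map_det]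
  rfl

/-- Constant rank at a pivot is stable under arbitrary base change. -/
theorem ConstRankAt.map (h : ConstRankAt A p q) : ConstRankAt (A.map f) p q := by
  refine ⟨?_, fun i j => ?_⟩
  · rw [det_submatrix_map]; exact h.1.map f
  · rw [borderedMinor_map, h.2 i j, _root_.map_zero]

/-- Constant rank at a pivot descends along a local homomorphism (e.g. the reduction map of a
local ring, or an injective map from a valuation ring... with unit pivot) as soon as the
bordered minors vanish. -/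
theorem ConstRankAt.of_map [IsLocalHom f] (h1 : IsUnit ((A.map f).submatrix p q).det)
    (h2 : ∀ i j, borderedMinor A p q i j = 0) : ConstRankAt A p q := by
  refine ⟨?_, h2⟩
  rw [det_submatrix_map] at h1
  exact isUnit_of_map_unit f _ h1

theorem echelon_map (h : IsUnit (A.submatrix p q).det) :
    echelon (A.map f) p q = (echelon A p q).map f := by
  unfold echelon
  rw [Matrix.map_mul, map_nonsing_inv f _ h]
  rfl

theorem coechelon_map (h : IsUnit (A.submatrix p q).det) :
    coechelon (A.map f) p q = (coechelon A p q).map f := by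
  unfold coechelon
  rw [Matrix.map_mul, map_nonsing_inv f _ h]
  rfl

theorem kerProj_map (h : IsUnit (A.submatrix p q).det) :
    kerProj (A.map f) p q = (kerProj A p q).map f := by
  unfold kerProj
  rw [echelon_map f h]
  ext i j
  simp [Matrix.mul_apply, Matrix.one_apply, apply_ite f]

theorem imgProj_map (h : IsUnit (A.submatrix p q).det) :
    imgProj (A.map f) p q = (imgProj A p q).map f := by
  unfold imgProj
  rw [coechelon_map f h]
  ext i j
  simp [Matrix.mul_apply, Matrix.one_apply, apply_ite f]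

end BaseChange

/-! ### Freeness of kernel and image -/

section Free

variable {A : Matrix m n R} {p : ι → m} {q : ι → n}

open Classical in
/-- Extension by zero of a vector indexed by the non-pivot columns. -/
noncomputable def extendNonPivot (q : ι → n) (y : {j // j ∉ Set.range q} → R) : n → R :=
  fun j => if h : j ∉ Set.range q then y ⟨j, h⟩ else 0

theorem extendNonPivot_apply_of_notMem (y : {j // j ∉ Set.range q} → R) (j : n)
    (h : j ∉ Set.range q) : extendNonPivot q y j = y ⟨j, h⟩ := by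
  unfold extendNonPivot; rw [dif_pos h]

theorem extendNonPivot_apply_pivot (y : {j // j ∉ Set.range q} → R) (a : ι) :
    extendNonPivot q y (q a) = 0 := by
  unfold extendNonPivot; rw [dif_neg]; exact fun h => h ⟨a, rfl⟩

/-- Two vectors with the same non-pivot coordinates have the same image under the kernel
projector. -/
theorem kerProj_mulVec_congr (h : IsUnit (A.submatrix p q).det) (x y : n → R)
    (hxy : ∀ j, j ∉ Set.range q → x j = y j) : kerProj A p q *ᵥ x = kerProj A p q *ᵥ y := by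
  ext i
  simp only [Matrix.mulVec, dotProduct]
  refine Finset.sum_congr rfl fun j _ => ?_
  by_cases hj : j ∈ Set.range q
  · obtain ⟨a, rfl⟩ := hj
    rw [kerProj_apply_pivot h, _root_.MulZeroClass.zero_mul, _root_.MulZeroClass.zero_mul]
  · rw [hxy j hj]

theorem kerProj_mulVec_apply_of_notMem (x : n → R) (i : n) (hi : i ∉ Set.range q) :
    (kerProj A p q *ᵥ x) i = x i := by
  simp only [Matrix.mulVec, dotProduct, kerProj_apply_of_notMem i _ hi]
  simp

/-- The kernel of a matrix of constant rank is free on the non-pivot columns: the coordinates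
of a kernel vector at the non-pivot columns are arbitrary and determine it. -/
noncomputable def ConstRankAt.kerEquiv (h : ConstRankAt A p q) :
    LinearMap.ker A.mulVecLin ≃ₗ[R] ({j // j ∉ Set.range q} → R) where
  toFun x := fun j => x.1 j.1
  map_add' _ _ := rfl
  map_smul' _ _ := rfl
  invFun y := ⟨kerProj A p q *ᵥ extendNonPivot q y, by
    rw [LinearMap.mem_ker, Matrix.mulVecLin_apply, Matrix.mulVec_mulVec, h.mul_kerProj,
      Matrix.zero_mulVec]⟩
  left_inv x := by
    apply Subtype.ext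
    have hx : A *ᵥ x.1 = 0 := x.2
    show kerProj A p q *ᵥ extendNonPivot q (fun j => x.1 j.1) = x.1
    rw [kerProj_mulVec_congr h.1 _ x.1 fun j hj => extendNonPivot_apply_of_notMem _ j hj]
    exact h.kerProj_mulVec x.1 hx
  right_inv y := by
    funext j
    show (kerProj A p q *ᵥ extendNonPivot q y) j.1 = y j
    rw [kerProj_mulVec_apply_of_notMem _ _ j.2, extendNonPivot_apply_of_notMem _ _ j.2]

theorem ConstRankAt.kerEquiv_apply (h : ConstRankAt A p q) (x : LinearMap.ker A.mulVecLin)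
    (j : {j // j ∉ Set.range q}) : h.kerEquiv x j = x.1 j.1 := rfl

theorem ConstRankAt.kerEquiv_symm_apply (h : ConstRankAt A p q)
    (y : {j // j ∉ Set.range q} → R) :
    ((h.kerEquiv.symm y : LinearMap.ker A.mulVecLin) : n → R) =
      kerProj A p q *ᵥ extendNonPivot q y := rfl

/-- The image of a matrix of constant rank is free on the pivot columns. -/
noncomputable def ConstRankAt.rangeEquiv (h : ConstRankAt A p q) :
    (ι → R) ≃ₗ[R] LinearMap.range A.mulVecLin :=
  (LinearEquiv.ofInjective _ (submatrix_mulVec_injective h.1)).trans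
    (LinearEquiv.ofEq _ _ h.range_eq_range_submatrix.symm)

theorem ConstRankAt.rangeEquiv_apply (h : ConstRankAt A p q) (c : ι → R) :
    ((h.rangeEquiv c : LinearMap.range A.mulVecLin) : m → R) = A.submatrix id q *ᵥ c := rfl

/-- The coefficients of an element of the image on the pivot columns are its coordinates at the
pivot rows, transformed by the inverse pivot block. -/
theorem ConstRankAt.rangeEquiv_symm_apply (h : ConstRankAt A p q)
    (y : LinearMap.range A.mulVecLin) :
    h.rangeEquiv.symm y = (A.submatrix p q)⁻¹ *ᵥ (fun a => y.1 (p a)) := by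
  obtain ⟨c, rfl⟩ := h.rangeEquiv.surjective y
  rw [LinearEquiv.symm_apply_apply, h.rangeEquiv_apply]
  have : (fun a => (A.submatrix id q *ᵥ c) (p a)) = A.submatrix p q *ᵥ c := rfl
  rw [this, Matrix.mulVec_mulVec, nonsing_inv_mul _ h.1, Matrix.one_mulVec]

theorem ConstRankAt.free_ker (h : ConstRankAt A p q) :
    Module.Free R (LinearMap.ker A.mulVecLin) :=
  Module.Free.of_equiv h.kerEquiv.symm

theorem ConstRankAt.free_range (h : ConstRankAt A p q) :
    Module.Free R (LinearMap.range A.mulVecLin) :=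
  Module.Free.of_equiv h.rangeEquiv

/-- The image of a matrix of constant rank is a direct summand: it is complemented by the
kernel of the image projector. -/
theorem ConstRankAt.isCompl_range (h : ConstRankAt A p q) :
    IsCompl (LinearMap.range A.mulVecLin) (LinearMap.ker (imgProj A p q).mulVecLin) := by
  rw [h.range_eq_range_imgProj]
  apply LinearMap.IsIdempotentElem.isCompl
  show (imgProj A p q).mulVecLin * (imgProj A p q).mulVecLin = (imgProj A p q).mulVecLin
  rw [Module.End.mul_eq_comp, ← Matrix.mulVecLin_mul, imgProj_mul_imgProj h.1]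

/-- The kernel of a matrix of constant rank is a direct summand: it is complemented by the
kernel of the kernel projector (the span of the pivot coordinate vectors). -/
theorem ConstRankAt.isCompl_ker (h : ConstRankAt A p q) :
    IsCompl (LinearMap.ker A.mulVecLin) (LinearMap.ker (kerProj A p q).mulVecLin) := by
  rw [h.ker_eq_range_kerProj]
  apply LinearMap.IsIdempotentElem.isCompl
  show (kerProj A p q).mulVecLin * (kerProj A p q).mulVecLin = (kerProj A p q).mulVecLin
  rw [Module.End.mul_eq_comp, ← Matrix.mulVecLin_mul, kerProj_mul_kerProj h.1]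

end Free

end Fermat.Agent.S19.H495

end
-- ===== PACK-END S19/H495/Pivot.lean

-- ===== PACK-BEGIN S19/H495/FieldRank.lean
section
/-
A3 / S19 — WP-W6alg (helper495): rank and minors over a field.

* minors of size larger than the rank vanish;
* a matrix of rank `r` has a nonzero `r × r` minor, and has constant rank at that pivot;
* a matrix over a ring mapping injectively to a field has constant rank at a unit pivot as soon
  as the size of the pivot is the rank over the field.
-/



set_option linter.unusedSectionVars false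
set_option linter.unusedSimpArgs false
set_option linter.style.longLine false
set_option linter.style.haveILetI false

namespace Fermat.Agent.S19.H495

open Matrix Module

variable {K : Type*} [Field K]
variable {m n ι : Type*} [Fintype m] [Fintype n] [Fintype ι] [DecidableEq m] [DecidableEq n]
  [DecidableEq ι]

/-- Minors of size larger than the rank vanish. -/
theorem det_submatrix_eq_zero_of_rank_lt (A : Matrix m n K) (p : ι → m) (q : ι → n)
    (h : A.rank < Fintype.card ι) : (A.submatrix p q).det = 0 := by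
  by_contra hne
  have h1 : (A.submatrix p q).rank = Fintype.card ι := Matrix.rank_of_det_ne_zero hne
  have h2 := Matrix.rank_submatrix_le A p q
  omega

/-- If the columns `q` of `A` are linearly independent, some square block on these columns has
nonzero determinant. -/
theorem exists_rows_of_linearIndependent_cols (A : Matrix m n K) (q : ι → n)
    (hq : LinearIndependent K (fun a => A.col (q a))) :
    ∃ p : ι → m, (A.submatrix p q).det ≠ 0 := by
  -- C = A[·, q], an `m × ι` matrix with independent columns, so of rank `card ι`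
  set C : Matrix m ι K := A.submatrix id q with hC
  have hCcol : C.col = fun a => A.col (q a) := rfl
  have hrank : C.rank = Fintype.card ι := by
    rw [← Matrix.rank_transpose]
    apply LinearIndependent.rank_matrix
    rw [Matrix.row_transpose, hCcol]
    exact hq
  -- choose independent rows of C
  obtain ⟨κ, a, ha, hspan, hli⟩ := exists_linearIndependent' K C.row
  have : _root_.Finite κ := _root_.Finite.of_injective a ha
  let _ : Fintype κ := Fintype.ofFinite κ
  have hcard : Fintype.card κ = Fintype.card ι := by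
    rw [← finrank_span_eq_card hli, hspan, ← hrank, Matrix.rank_eq_finrank_span_row]
  let e : ι ≃ κ := (Fintype.equivOfCardEq hcard).symm
  refine ⟨a ∘ e, ?_⟩
  have hG : A.submatrix (a ∘ e) q = (C.submatrix a id).submatrix e id := rfl
  have hrows : LinearIndependent K (A.submatrix (a ∘ e) q).row := by
    have : (A.submatrix (a ∘ e) q).row = (C.row ∘ a) ∘ e := rfl
    rw [this]
    exact hli.comp e e.injective
  have := Matrix.linearIndependent_rows_iff_isUnit.mp hrows
  exact ((Matrix.isUnit_iff_isUnit_det _).mp this).ne_zero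

/-- A matrix of rank `r` over a field has a nonzero `r × r` minor. -/
theorem exists_det_submatrix_ne_zero (A : Matrix m n K) :
    ∃ (p : Fin A.rank → m) (q : Fin A.rank → n), (A.submatrix p q).det ≠ 0 := by
  obtain ⟨κ, a, ha, hspan, hli⟩ := exists_linearIndependent' K A.col
  have : _root_.Finite κ := _root_.Finite.of_injective a ha
  let _ : Fintype κ := Fintype.ofFinite κ
  have hcard : Fintype.card κ = A.rank := by
    rw [← finrank_span_eq_card hli, hspan, Matrix.rank_eq_finrank_span_cols]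
  let e : Fin A.rank ≃ κ := (Fintype.equivFinOfCardEq hcard).symm
  have hq : LinearIndependent K (fun b : Fin A.rank => A.col ((a ∘ e) b)) :=
    hli.comp e e.injective
  obtain ⟨p, hp⟩ := exists_rows_of_linearIndependent_cols A (a ∘ e) hq
  exact ⟨p, a ∘ e, hp⟩

/-- Over a field, a nonzero minor whose size is at least the rank is a pivot of constant rank. -/
theorem constRankAt_of_rank_le (A : Matrix m n K) (p : ι → m) (q : ι → n)
    (hr : A.rank ≤ Fintype.card ι) (hu : (A.submatrix p q).det ≠ 0) : ConstRankAt A p q := by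
  refine ⟨hu.isUnit, fun i j => ?_⟩
  unfold borderedMinor
  apply det_submatrix_eq_zero_of_rank_lt
  simp only [Fintype.card_sum, Fintype.card_unit]
  omega

/-- Every matrix over a field has constant rank at some pivot of size its rank. -/
theorem exists_constRankAt (A : Matrix m n K) :
    ∃ (p : Fin A.rank → m) (q : Fin A.rank → n), ConstRankAt A p q := by
  obtain ⟨p, q, h⟩ := exists_det_submatrix_ne_zero A
  exact ⟨p, q, constRankAt_of_rank_le A p q (by simp) h⟩

/-- The rank of a matrix of constant rank (over a nontrivial commutative ring) is the size of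
the pivot. -/
theorem ConstRankAt.rank_eq {R : Type*} [CommRing R] [Nontrivial R] {A : Matrix m n R}
    {p : ι → m} {q : ι → n} (h : ConstRankAt A p q) : A.rank = Fintype.card ι := by
  unfold Matrix.rank
  rw [← h.rangeEquiv.finrank_eq, Module.finrank_pi]

/-- Over a field, a nonzero minor is a pivot of constant rank iff its size is the rank. -/
theorem constRankAt_iff_rank_eq (A : Matrix m n K) (p : ι → m) (q : ι → n)
    (hu : (A.submatrix p q).det ≠ 0) : ConstRankAt A p q ↔ A.rank = Fintype.card ι :=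
  ⟨fun h => h.rank_eq, fun h => constRankAt_of_rank_le A p q h.le hu⟩

/-- **Generic rank + unit pivot ⇒ constant rank.**  Let `R` be a commutative ring mapping
injectively to a field `K` (e.g. a valuation ring and its fraction field).  If the rank of `A`
over `K` is at most the size of a pivot with unit determinant in `R`, then `A` has constant rank
at this pivot over `R` — hence over every `R`-algebra, in particular over the residue field. -/
theorem constRankAt_of_rank_map_le {R : Type*} [CommRing R] (f : R →+* K)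
    (hf : Function.Injective f) (A : Matrix m n R) (p : ι → m) (q : ι → n)
    (hr : (A.map f).rank ≤ Fintype.card ι) (hu : IsUnit (A.submatrix p q).det) :
    ConstRankAt A p q := by
  refine ⟨hu, fun i j => ?_⟩
  apply hf
  rw [← borderedMinor_map, _root_.map_zero]
  have hK : ConstRankAt (A.map f) p q := by
    apply constRankAt_of_rank_le _ _ _ hr
    rw [det_submatrix_map]
    exact (hu.map f).ne_zero
  exact hK.2 i j

/-- In the situation of `constRankAt_of_rank_map_le`, the rank is the same over every nontrivial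
`R`-algebra `S` (e.g. the residue field): rank is constant. -/
theorem rank_map_eq_of_unit_pivot {R S : Type*} [CommRing R] [CommRing S] [Nontrivial S]
    (f : R →+* K) (hf : Function.Injective f) (g : R →+* S) (A : Matrix m n R) (p : ι → m)
    (q : ι → n) (hr : (A.map f).rank ≤ Fintype.card ι) (hu : IsUnit (A.submatrix p q).det) :
    (A.map g).rank = Fintype.card ι :=
  ((constRankAt_of_rank_map_le f hf A p q hr hu).map g).rank_eq

end Fermat.Agent.S19.H495

end
-- ===== PACK-END S19/H495/FieldRank.lean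

-- ===== PACK-BEGIN A3/H319/LevelGroup.lean
section


/-!
# A3 / LEVEL (helper319), part 2: group theory

`Γ₀(N)` is generated by `Γ₀(N p)` together with `T = [[1,1],[0,1]]` and `U = [[1,0],[N,1]]`
(`p` prime); more precisely, an additive character `c : Γ₀(N) → A` vanishing on `Γ₀(N p)`, with
values in a group `A` without `p`-torsion, vanishes identically.
-/

set_option autoImplicit false

noncomputable section

open CongruenceSubgroup Matrix
open scoped MatrixGroups

namespace Fermat.Agent.A3.H319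

/-- The lower unipotent matrix `[[1,0],[N m,1]]`. -/
def lowerU (N : ℕ) (m : ℤ) : SL(2, ℤ) :=
  ⟨!![1, 0; (N : ℤ) * m, 1], by simp [Matrix.det_fin_two]⟩

@[simp] theorem lowerU_apply_zero_zero (N : ℕ) (m : ℤ) : (lowerU N m) 0 0 = 1 := rfl
@[simp] theorem lowerU_apply_zero_one (N : ℕ) (m : ℤ) : (lowerU N m) 0 1 = 0 := rfl
@[simp] theorem lowerU_apply_one_zero (N : ℕ) (m : ℤ) : (lowerU N m) 1 0 = (N : ℤ) * m := rfl
@[simp] theorem lowerU_apply_one_one (N : ℕ) (m : ℤ) : (lowerU N m) 1 1 = 1 := rfl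

theorem mem_Gamma0_iff_dvd {M : ℕ} {γ : SL(2, ℤ)} : γ ∈ Gamma0 M ↔ (M : ℤ) ∣ γ 1 0 := by
  rw [Gamma0_mem]
  exact ZMod.intCast_zmod_eq_zero_iff_dvd _ _

theorem lowerU_mem (N : ℕ) (m : ℤ) : lowerU N m ∈ Gamma0 N := by
  rw [mem_Gamma0_iff_dvd, lowerU_apply_one_zero]
  exact dvd_mul_right _ _

theorem lowerU_mul_mem (N p : ℕ) (m : ℤ) : lowerU N ((p : ℤ) * m) ∈ Gamma0 (N * p) := by
  rw [mem_Gamma0_iff_dvd, lowerU_apply_one_zero]
  refine ⟨m, ?_⟩
  push_cast
  ring

theorem lowerU_add (N : ℕ) (m m' : ℤ) : lowerU N (m + m') = lowerU N m * lowerU N m' := by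
  apply Subtype.ext
  rw [Matrix.SpecialLinearGroup.coe_mul]
  ext i j
  fin_cases i <;> fin_cases j <;>
    simp [lowerU, Matrix.mul_apply, Fin.sum_univ_two, mul_add]

theorem T_mem_Gamma0 (M : ℕ) : ModularGroup.T ∈ Gamma0 M := by
  rw [mem_Gamma0_iff_dvd]
  simp [ModularGroup.T]

theorem Gamma0_mul_le (N p : ℕ) : Gamma0 (N * p) ≤ Gamma0 N := by
  intro γ hγ
  rw [mem_Gamma0_iff_dvd] at hγ ⊢
  refine dvd_trans ?_ hγ
  exact ⟨(p : ℤ), by push_cast; ring⟩

theorem mul_lowerU_apply_one_zero (N : ℕ) (γ : SL(2, ℤ)) (m : ℤ) :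
    (γ * lowerU N m) 1 0 = γ 1 0 + γ 1 1 * ((N : ℤ) * m) := by
  rw [Matrix.SpecialLinearGroup.coe_mul, Matrix.mul_apply, Fin.sum_univ_two]
  simp

theorem mul_T_apply_one_zero (γ : SL(2, ℤ)) : (γ * ModularGroup.T) 1 0 = γ 1 0 := by
  rw [Matrix.SpecialLinearGroup.coe_mul, Matrix.mul_apply, Fin.sum_univ_two]
  simp [ModularGroup.T]

theorem mul_T_apply_one_one (γ : SL(2, ℤ)) : (γ * ModularGroup.T) 1 1 = γ 1 0 + γ 1 1 := by
  rw [Matrix.SpecialLinearGroup.coe_mul, Matrix.mul_apply, Fin.sum_univ_two]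
  simp [ModularGroup.T]

/-- **Group theory of LEVEL.**  An additive character of `Γ₀(N)` with values in a group
without `p`-torsion (`p` prime) which vanishes on `Γ₀(N p)` is zero. -/
theorem eq_zero_of_forall_mem_Gamma0_mul {N p : ℕ} (hp : p.Prime) {A : Type*} [AddCommGroup A]
    (hA : ∀ a : A, p • a = 0 → a = 0) (c : ↥(Gamma0 N) → A)
    (hadd : ∀ γ γ' : ↥(Gamma0 N), c (γ * γ') = c γ + c γ')
    (hres : ∀ γ : ↥(Gamma0 N), (γ : SL(2, ℤ)) ∈ Gamma0 (N * p) → c γ = 0)
    (γ : ↥(Gamma0 N)) : c γ = 0 := by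
  -- the elements `U_m` and `T` of `Γ₀(N)`
  let u : ℤ → ↥(Gamma0 N) := fun m => ⟨lowerU N m, lowerU_mem N m⟩
  let t : ↥(Gamma0 N) := ⟨ModularGroup.T, T_mem_Gamma0 N⟩
  have hu_add : ∀ m m' : ℤ, u (m + m') = u m * u m' := fun m m' =>
    Subtype.ext (lowerU_add N m m')
  -- `c` vanishes on `T`
  have hcT : c t = 0 := hres t (T_mem_Gamma0 (N * p))
  -- `c` vanishes on the `U_m`
  have hcU : ∀ m : ℤ, c (u m) = 0 := by
    intro m
    let φ : ℤ →+ A := AddMonoidHom.mk' (fun m => c (u m)) (fun m m' => by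
      show c (u (m + m')) = c (u m) + c (u m')
      rw [hu_add, hadd])
    have h1 : φ ((p : ℤ) * m) = 0 := hres (u ((p : ℤ) * m)) (lowerU_mul_mem N p m)
    have h2 : φ ((p : ℤ) * m) = p • φ m := by
      rw [← nsmul_eq_mul, map_nsmul]
    exact hA (φ m) (by rw [← h2, h1])
  -- the case `p ∤ d`
  have key : ∀ γ : ↥(Gamma0 N), ¬ (p : ℤ) ∣ (γ : SL(2, ℤ)) 1 1 → c γ = 0 := by
    intro γ hd
    obtain ⟨c', hc'⟩ := mem_Gamma0_iff_dvd.mp γ.2
    have hcop : IsCoprime ((γ : SL(2, ℤ)) 1 1) (p : ℤ) := by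
      have hpp : Prime (p : ℤ) := Nat.prime_iff_prime_int.mp hp
      exact (IsCoprime.symm ((Prime.coprime_iff_not_dvd hpp).mpr hd))
    obtain ⟨x, y, hxy⟩ := hcop
    -- `m := - c' * x`
    have hmem : ((γ * u (-c' * x) : ↥(Gamma0 N)) : SL(2, ℤ)) ∈ Gamma0 (N * p) := by
      rw [mem_Gamma0_iff_dvd]
      show ((N * p : ℕ) : ℤ) ∣ ((γ : SL(2, ℤ)) * lowerU N (-c' * x)) 1 0
      rw [mul_lowerU_apply_one_zero, hc']
      refine ⟨c' * y, ?_⟩
      push_cast
      linear_combination (-(N : ℤ) * c') * hxy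
    have h1 := hres _ hmem
    rw [hadd, hcU, add_zero] at h1
    exact h1
  by_cases hd : (p : ℤ) ∣ (γ : SL(2, ℤ)) 1 1
  · -- then `p ∤ c`, use `γ T`
    have hdet : (γ : SL(2, ℤ)) 0 0 * (γ : SL(2, ℤ)) 1 1 - (γ : SL(2, ℤ)) 0 1 * (γ : SL(2, ℤ)) 1 0 = 1 := by
      have := (γ : SL(2, ℤ)).2
      rw [Matrix.det_fin_two] at this
      exact this
    have hc : ¬ (p : ℤ) ∣ (γ : SL(2, ℤ)) 1 0 := by
      intro hc
      have h1 : (p : ℤ) ∣ 1 := by
        rw [← hdet]
        exact dvd_sub (dvd_mul_of_dvd_right hd _) (dvd_mul_of_dvd_right hc _)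
      have hpp : Prime (p : ℤ) := Nat.prime_iff_prime_int.mp hp
      exact hpp.not_dvd_one h1
    have h2 : ¬ (p : ℤ) ∣ ((γ * t : ↥(Gamma0 N)) : SL(2, ℤ)) 1 1 := by
      show ¬ (p : ℤ) ∣ ((γ : SL(2, ℤ)) * ModularGroup.T) 1 1
      rw [mul_T_apply_one_one]
      intro h
      exact hc ((dvd_add_left hd).mp h)
    have h3 := key (γ * t) h2
    rw [hadd, hcT, add_zero] at h3
    exact h3
  · exact key γ hd

end Fermat.Agent.A3.H319

end
end
-- ===== PACK-END A3/H319/LevelGroup.lean

-- ===== PACK-BEGIN S17/H140/InertiaFinite.lean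
section


/-!
# S17 / W-HM, part (1), finite level (helper140)

`ramificationIdx_under_eq_one`: let `L/ℚ` be a finite Galois extension, `K` an intermediate field
and `P` a maximal ideal of `𝓞 L`.  If the inertia group of `P` in `Gal(L/ℚ)` fixes `K` pointwise,
then the prime of `𝓞 K` below `P` has ramification index `1` over `ℤ`.

Proof: `e(P | ℤ) = #I(P | ℚ)`, `e(P | 𝓞 K) = #I(P | K) = #(I(P | ℚ) ∩ Gal(L/K)) = #I(P | ℚ)` and
`e` is multiplicative in towers.
-/

set_option autoImplicit false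

namespace Fermat.Agent.S17.H140

open NumberField Ideal

/-- If the inertia group of `P` fixes the intermediate field `K`, then the prime of `K` below `P`
is unramified over `ℤ`. -/
theorem ramificationIdx_under_eq_one (L : Type*) [Field L] [NumberField L] [IsGalois ℚ L]
    (K : IntermediateField ℚ L) (P : Ideal (𝓞 L)) [P.IsMaximal]
    (h : ∀ σ ∈ Ideal.inertia Gal(L/ℚ) P, ∀ a ∈ K, σ a = a) :
    (P.under (𝓞 K)).ramificationIdx ℤ = 1 := by
  classical
  let H : Subgroup Gal(L/ℚ) := fixingSubgroup Gal(L/ℚ) (K : Set L)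
  have h1 : IsGaloisGroup H K L := IsGaloisGroup.intermediateField Gal(L/ℚ) ℚ L K
  have h2 : IsGaloisGroup H (𝓞 K) (𝓞 L) := IsGaloisGroup.of_isFractionRing H (𝓞 K) (𝓞 L) K L
  have h3 := card_inertia_eq_ramificationIdxIn (G := H) (P.under (𝓞 K)) P
  have h4 := card_inertia_eq_ramificationIdxIn (G := Gal(L/ℚ)) (P.under ℤ) P
  have h5 := ramificationIdxIn_eq_ramificationIdx (P.under (𝓞 K)) P H
  have h6 := ramificationIdxIn_eq_ramificationIdx (P.under ℤ) P Gal(L/ℚ)
  have h7 := ramificationIdx_tower (R := ℤ) (P.under (𝓞 K)) P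
  have h8 := AddSubgroup.subgroupOf_inertia P.toAddSubgroup H
  have hle : Ideal.inertia Gal(L/ℚ) P ≤ H := by
    intro σ hσ
    rw [mem_fixingSubgroup_iff]
    intro a ha
    exact h σ hσ a ha
  have hcard : Nat.card (Ideal.inertia H P) = Nat.card (Ideal.inertia Gal(L/ℚ) P) := by
    have : Ideal.inertia H P = (Ideal.inertia Gal(L/ℚ) P).subgroupOf H := h8.symm
    rw [this]
    exact Nat.card_congr (Subgroup.subgroupOfEquivOfLe hle).toEquiv
  have hpos : 0 < P.ramificationIdx (𝓞 K) := Ideal.ramificationIdx_pos P (𝓞 K)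
  have heq : P.ramificationIdx ℤ = P.ramificationIdx (𝓞 K) := by
    rw [← h6, ← h4, ← hcard, h3, h5]
  rw [heq] at h7
  have : (P.under (𝓞 K)).ramificationIdx ℤ * P.ramificationIdx (𝓞 K)
      = 1 * P.ramificationIdx (𝓞 K) := by rw [one_mul]; exact h7.symm
  exact Nat.eq_of_mul_eq_mul_right hpos this

/-- Finite-level criterion: if all inertia groups above `ℓ` in `Gal(L/ℚ)` fix `K`, then
`ℓ ∤ disc K`. -/
theorem not_dvd_discr_of_inertia (L : Type*) [Field L] [NumberField L] [IsGalois ℚ L]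
    (K : IntermediateField ℚ L) (ℓ : ℕ) (hℓ : ℓ.Prime)
    (h : ∀ P : Ideal (𝓞 L), P.IsMaximal → (ℓ : 𝓞 L) ∈ P →
      ∀ σ ∈ Ideal.inertia Gal(L/ℚ) P, ∀ a ∈ K, σ a = a) :
    ¬ (ℓ : ℤ) ∣ NumberField.discr K := by
  have hp : Prime (ℓ : ℤ) := Nat.prime_iff_prime_int.mp hℓ
  rw [NumberField.not_dvd_discr_iff_forall_mem K (𝓞 K) hp]
  intro p hpP hmem
  have hp0 : p ≠ ⊥ := by
    intro h0
    rw [h0, Ideal.mem_bot] at hmem
    have : ((ℓ : ℤ) : 𝓞 K) = 0 := hmem
    have h2 : (ℓ : ℤ) = 0 := by exact_mod_cast this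
    exact hℓ.ne_zero (by exact_mod_cast h2)
  have hpmax : p.IsMaximal := hpP.isMaximal hp0
  obtain ⟨P, hPmax, hPover⟩ := Ideal.exists_maximal_ideal_liesOver_of_isIntegral (S := 𝓞 L) p
  have hℓP : (ℓ : 𝓞 L) ∈ P := by
    have h1 : algebraMap (𝓞 K) (𝓞 L) ((ℓ : ℤ) : 𝓞 K) ∈ P := by
      rw [← Ideal.mem_comap]
      have := hPover.over
      rw [Ideal.under_def] at this
      rw [← this]; exact hmem
    simpa using h1
  have key := ramificationIdx_under_eq_one L K P (h P hPmax hℓP)
  have hunder : P.under (𝓞 K) = p := (hPover.over).symm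
  rw [hunder] at key
  exact Ideal.ramificationIdx_eq_one_iff.mp key

end Fermat.Agent.S17.H140

end
-- ===== PACK-END S17/H140/InertiaFinite.lean

-- ===== PACK-BEGIN A2/IF/H9/InertiaClosed.lean
section





/-!
# A2 / IF (helper9): the inertia group is closed, hence `Gal(L / L^{I_A}) = I_A`

`K ⊆ L` algebraic (Galois for the last statement), `A` a valuation subring of `L`.

* `mem_inertiaSubgroupIn_iff_forall` : `σ ∈ I_A ↔ ∀ x ∈ A, σ x - x ∈ 𝔪_A`
  (stability `σ A = A` is automatic);
* `isClosed_inertiaSubgroupIn` : `I_A` is closed in the Krull topology;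
* `mem_inertiaSubgroupIn_of_fixes_fixedField` : an automorphism fixing the inertia field
  `L^{I_A}` pointwise lies in `I_A` (piece (a) = LemA of IF in its strongest form).
-/

set_option autoImplicit false

open scoped Pointwise

namespace Fermat.Agent.A2.IF.H9

variable {K L : Type*} [Field K] [Field L] [Algebra K L]

section Algebraic

variable [Algebra.IsAlgebraic K L]

/-- every element has finite order under an automorphism of an algebraic extension -/
theorem exists_pow_apply_eq (σ : L ≃ₐ[K] L) (x : L) : ∃ n : ℕ, 0 < n ∧ (σ ^ n) x = x := by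
  classical
  have hint : IsIntegral K x := (Algebra.IsAlgebraic.isAlgebraic x).isIntegral
  have hfin : ((minpoly K x).rootSet L).Finite := Polynomial.rootSet_finite _ _
  have hmem : ∀ n : ℕ, (σ ^ n) x ∈ (minpoly K x).rootSet L := by
    intro n
    rw [Polynomial.mem_rootSet]
    refine ⟨minpoly.ne_zero hint, ?_⟩
    have h1 := Polynomial.aeval_algHom_apply ((σ ^ n : L ≃ₐ[K] L) : L →ₐ[K] L) x (minpoly K x)
    rw [minpoly.aeval, map_zero] at h1
    exact h1
  obtain ⟨i, -, j, -, hij, heq⟩ :=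
    Set.Infinite.exists_ne_map_eq_of_mapsTo (s := (Set.univ : Set ℕ)) Set.infinite_univ
      (fun n _ => hmem n) hfin
  wlog hlt : i < j generalizing i j
  · exact this j i (Ne.symm hij) heq.symm (lt_of_le_of_ne (not_lt.mp hlt) (Ne.symm hij))
  refine ⟨j - i, Nat.sub_pos_of_lt hlt, ?_⟩
  have h1 : (σ ^ i) ((σ ^ (j - i)) x) = (σ ^ i) x := by
    rw [← AlgEquiv.mul_apply, ← pow_add, Nat.add_sub_cancel' hlt.le, heq]
  exact (σ ^ i).injective h1

/-- an automorphism mapping `A` into itself stabilises `A` -/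
theorem smul_eq_of_forall_mem (A : ValuationSubring L) (σ : L ≃ₐ[K] L)
    (h : ∀ x ∈ A, σ x ∈ A) : σ • A = A := by
  have hpow : ∀ (n : ℕ) (x : L), x ∈ A → (σ ^ n) x ∈ A := by
    intro n
    induction n with
    | zero => intro x hx; simpa using hx
    | succ n ih =>
      intro x hx
      rw [pow_succ, AlgEquiv.mul_apply]
      exact ih _ (h x hx)
  ext x
  rw [ValuationSubring.mem_smul_pointwise_iff_exists]
  constructor
  · rintro ⟨y, hy, rfl⟩
    exact h y hy
  · intro hx
    obtain ⟨n, hn, hnx⟩ := exists_pow_apply_eq σ x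
    refine ⟨(σ ^ (n - 1)) x, hpow _ x hx, ?_⟩
    show σ ((σ ^ (n - 1)) x) = x
    rw [← AlgEquiv.mul_apply, ← pow_succ', Nat.sub_add_cancel hn, hnx]

end Algebraic

/-- unfolding membership in `inertiaSubgroupIn` -/
theorem mem_inertiaSubgroupIn_iff_exists (A : ValuationSubring L) (σ : L ≃ₐ[K] L) :
    σ ∈ A.inertiaSubgroupIn K ↔
      ∃ h : σ ∈ A.decompositionSubgroup K,
        (⟨σ, h⟩ : A.decompositionSubgroup K) ∈ A.inertiaSubgroup K := by
  unfold ValuationSubring.inertiaSubgroupIn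
  constructor
  · rintro ⟨τ, hτ, rfl⟩
    exact ⟨τ.2, hτ⟩
  · rintro ⟨h, hσ⟩
    exact ⟨⟨σ, h⟩, hσ, rfl⟩

theorem apply_mem_of_smul_eq {A : ValuationSubring L} {σ : L ≃ₐ[K] L} (hσ : σ • A = A) {t : L}
    (ht : t ∈ A) : σ t ∈ A := by
  have h1 : σ • t ∈ σ • A := ValuationSubring.smul_mem_pointwise_smul σ t A ht
  rw [hσ] at h1
  exact h1

/-- inertia in terms of elements, given stability -/
theorem mem_inertiaSubgroupIn_iff_of_smul_eq (A : ValuationSubring L) (σ : L ≃ₐ[K] L)
    (hσA : σ • A = A) :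
    σ ∈ A.inertiaSubgroupIn K ↔ ∀ x ∈ A, σ x - x ∈ A.nonunits := by
  have hσD : σ ∈ A.decompositionSubgroup K := MulAction.mem_stabilizer_iff.mpr hσA
  have key : ∀ (x : L) (hx : x ∈ A),
      ((⟨σ, hσD⟩ : A.decompositionSubgroup K) • (IsLocalRing.residue A ⟨x, hx⟩)
        = IsLocalRing.residue A ⟨x, hx⟩) ↔ σ x - x ∈ A.nonunits := by
    intro x hx
    rw [← IsLocalRing.ResidueField.residue_smul]
    show Ideal.Quotient.mk _ _ = Ideal.Quotient.mk _ _ ↔ _
    rw [Ideal.Quotient.eq, ← ValuationSubring.coe_mem_nonunits_iff]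
    rfl
  rw [mem_inertiaSubgroupIn_iff_exists]
  constructor
  · rintro ⟨h, hker⟩ x hx
    have h1 : MulSemiringAction.toRingAut (A.decompositionSubgroup K)
        (IsLocalRing.ResidueField A) ⟨σ, h⟩ = 1 := hker
    have h2 : (⟨σ, hσD⟩ : A.decompositionSubgroup K) • (IsLocalRing.residue A ⟨x, hx⟩) =
        IsLocalRing.residue A ⟨x, hx⟩ := by
      have := congrArg (fun f => f (IsLocalRing.residue A ⟨x, hx⟩)) h1
      simpa using this
    exact (key x hx).mp h2
  · intro h
    refine ⟨hσD, ?_⟩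
    rw [ValuationSubring.inertiaSubgroup, MonoidHom.mem_ker]
    ext r
    obtain ⟨a, rfl⟩ := IsLocalRing.residue_surjective r
    exact (key a a.2).mpr (h a a.2)

section Algebraic

variable [Algebra.IsAlgebraic K L]

/-- **inertia in terms of elements** (stability is automatic) -/
theorem mem_inertiaSubgroupIn_iff_forall (A : ValuationSubring L) (σ : L ≃ₐ[K] L) :
    σ ∈ A.inertiaSubgroupIn K ↔ ∀ x ∈ A, σ x - x ∈ A.nonunits := by
  constructor
  · intro h
    have hD : σ • A = A := ((mem_inertiaSubgroupIn_iff_exists A σ).mp h).1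
    exact (mem_inertiaSubgroupIn_iff_of_smul_eq A σ hD).mp h
  · intro h
    have hD : σ • A = A := by
      refine smul_eq_of_forall_mem A σ fun x hx => ?_
      have h1 : σ x - x ∈ A := A.nonunits_le (h x hx)
      have := A.add_mem _ _ h1 hx
      simpa using this
    exact (mem_inertiaSubgroupIn_iff_of_smul_eq A σ hD).mpr h

end Algebraic

section Topology

variable [Algebra.IsAlgebraic K L]

/-- evaluation at `x` is locally constant -/
theorem isOpen_setOf_apply_eq (x y : L) : IsOpen {σ : L ≃ₐ[K] L | σ x = y} := by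
  rw [isOpen_iff_mem_nhds]
  intro g hg
  let E : IntermediateField K L := IntermediateField.adjoin K {x}
  haveI : FiniteDimensional K E :=
    IntermediateField.adjoin.finiteDimensional (Algebra.IsIntegral.isIntegral _)
  have hopen : IsOpen ((g • (E.fixingSubgroup : Set (L ≃ₐ[K] L)))) :=
    (E.fixingSubgroup_isOpen).smul g
  refine Filter.mem_of_superset (hopen.mem_nhds ⟨1, one_mem _, by simp⟩) ?_
  rintro _ ⟨h, hh, rfl⟩
  have hb : h x = x :=
    (IntermediateField.mem_fixingSubgroup_iff E h).mp hh x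
      (IntermediateField.subset_adjoin K _ (Set.mem_singleton _))
  show (g * h) x = y
  rw [AlgEquiv.mul_apply, hb]
  exact hg

theorem isClosed_setOf_apply_mem (x : L) (S : Set L) : IsClosed {σ : L ≃ₐ[K] L | σ x ∈ S} := by
  rw [← isOpen_compl_iff]
  have : {σ : L ≃ₐ[K] L | σ x ∈ S}ᶜ = ⋃ y ∈ Sᶜ, {σ : L ≃ₐ[K] L | σ x = y} := by
    ext σ
    simp
  rw [this]
  exact isOpen_biUnion fun y _ => isOpen_setOf_apply_eq x y

/-- **the inertia group is closed** -/
theorem isClosed_inertiaSubgroupIn (A : ValuationSubring L) :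
    IsClosed ((A.inertiaSubgroupIn K : Subgroup (L ≃ₐ[K] L)) : Set (L ≃ₐ[K] L)) := by
  have : ((A.inertiaSubgroupIn K : Subgroup (L ≃ₐ[K] L)) : Set (L ≃ₐ[K] L))
      = ⋂ x ∈ (A : Set L), {σ : L ≃ₐ[K] L | σ x ∈ {y | y - x ∈ A.nonunits}} := by
    ext σ
    simp only [SetLike.mem_coe, Set.mem_iInter, Set.mem_ofPred_eq]
    exact mem_inertiaSubgroupIn_iff_forall A σ
  rw [this]
  exact isClosed_biInter fun x _ => isClosed_setOf_apply_mem x _

end Topology

section Galois

variable [IsGalois K L]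

/-- **LemA, strong form**: an automorphism fixing the inertia field lies in the inertia group. -/
theorem mem_inertiaSubgroupIn_of_fixes_fixedField (A : ValuationSubring L) (σ : L ≃ₐ[K] L)
    (h : ∀ x ∈ IntermediateField.fixedField (A.inertiaSubgroupIn K), σ x = x) :
    σ ∈ A.inertiaSubgroupIn K := by
  haveI : Algebra.IsAlgebraic K L := inferInstance
  let H : ClosedSubgroup (L ≃ₐ[K] L) :=
    ⟨A.inertiaSubgroupIn K, isClosed_inertiaSubgroupIn A⟩
  have hH := InfiniteGalois.fixingSubgroup_fixedField H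
  have hσ : σ ∈ (IntermediateField.fixedField (H : Subgroup (L ≃ₐ[K] L))).fixingSubgroup := by
    rw [IntermediateField.mem_fixingSubgroup_iff]
    exact h
  rw [hH] at hσ
  exact hσ

end Galois

end Fermat.Agent.A2.IF.H9

end
-- ===== PACK-END A2/IF/H9/InertiaClosed.lean

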