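import Mathlib
import Fermat.Prelude.Def_AlgebraicCurve_DivisorClassGroup
import Mathlib.NumberTheory.ModularForms.EisensteinSeries.QExpansion
import Mathlib.NumberTheory.ModularForms.LevelOne.DimensionFormula
import Fermat.Prelude.Def_ModularCurve_JqCoeff
import Fermat.Prelude.Def_ModularCurve_HeckeModule
import Fermat.Prelude.Thm_ModularCurve_coeffMap_qExpand
import Fermat.Prelude.Def_ModularCurve_X0ModL
import Mathlib.Data.Nat.Squarefree
import Mathlib.Data.Nat.Factorization.Induction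
import Mathlib.SetTheory.Cardinal.NatCard
import Fermat.Prelude.Def_ModularCurve_ArithmeticGalois
import Mathlib.RingTheory.DiscreteValuationRing.Basic
import Mathlib.RingTheory.LocalRing.RingHom.Basic
import Fermat.Prelude.Def_FLTPrelim_Ramification
import Mathlib.GroupTheory.Index
import Mathlib.SetTheory.Cardinal.Finite
import Mathlib.Algebra.Squarefree.Basic
import Fermat.Prelude.Def_ModularForm_HeckeOperator
import Mathlib.FieldTheory.IntermediateField.Adjoin.Algebra
import Mathlib.FieldTheory.IntermediateField.Adjoin.Basic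
import Mathlib.Algebra.MvPolynomial.Funext
import Mathlib.RingTheory.MvPolynomial.Homogeneous
import Mathlib.RingTheory.GradedAlgebra.Homogeneous.Ideal
import Mathlib.Algebra.Polynomial.Roots
import Mathlib.RingTheory.LaurentSeries
import Mathlib.Algebra.Polynomial.AlgebraMap
import Fermat.Prelude.Def_ModularCurve_LaurentCoeff
import Mathlib.RingTheory.Valuation.Basic
import Mathlib.Tactic
import Mathlib.GroupTheory.QuotientGroup.Basic
import Mathlib.Algebra.Group.Subgroup.ZPowers.Basic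
import Mathlib.RingTheory.IntegralClosure.IsIntegralClosure.Basic
import Mathlib.RingTheory.LocalRing.MaximalIdeal.Basic
import Mathlib.RingTheory.Nakayama
import Mathlib.RingTheory.Polynomial.Basic
import Mathlib.Algebra.Polynomial.Taylor
import Mathlib.RingTheory.Finiteness.Basic
import Mathlib.RingTheory.Adjoin.FG
import Mathlib.Algebra.Polynomial.RingDivision
import Mathlib.Algebra.Polynomial.Div
import Fermat.Prelude.Def_ExtCitation_AdmissibleExtension_v2
import Fermat.Agent.Pack.S15.AE0L0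
import Fermat.Agent.Pack.S15.AE0L1
import Fermat.Agent.Pack.S15.AE0L3
import Fermat.Agent.Pack.S15.AE0L2

-- ===== PACK-BEGIN S15/H242/NodalCount.lean
section


/-!
# S15, piece P-LOC (helper242), part 2: counting the nonsingular points of a nodal cubic

Let `W` be a Weierstrass cubic over a finite field `k` with `Δ = 0` and `c₄ ≠ 0` (a nodal cubic).
Then the group `W.Point` of nonsingular points has `#k - 1` or `#k + 1` elements.

Proof: the lines through the singular point `(x₀, y₀)` parametrise the nonsingular affine points: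
`t ↦ (x₀ + g t, y₀ + t * g t)` with `g t = t² + a₁ t - (3 x₀ + a₂)`, for the slopes `t` with
`g t ≠ 0`; and `g` has `0` or `2` roots in `k` since its discriminant `b₂ + 12 x₀` is nonzero
(its square is `c₄`).
-/

set_option autoImplicit false

namespace Fermat.Agent.S15.H242

open WeierstrassCurve WeierstrassCurve.Affine

variable {k : Type*} [Field k] (W : Affine k)

/-- The quadratic whose roots are the slopes of the tangent lines at the singular point
with `x`-coordinate `x₀`. -/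
def nodeQuad (x₀ t : k) : k := t ^ 2 + W.a₁ * t - (3 * x₀ + W.a₂)

variable {W}
variable {x₀ y₀ : k}

/-- The Weierstrass equation in coordinates centred at a singular point. -/
theorem equation_translate (hF : W.Equation x₀ y₀)
    (hFx : W.a₁ * y₀ - (3 * x₀ ^ 2 + 2 * W.a₂ * x₀ + W.a₄) = 0)
    (hFy : 2 * y₀ + W.a₁ * x₀ + W.a₃ = 0) (X Y : k) :
    W.Equation (x₀ + X) (y₀ + Y) ↔ Y ^ 2 + W.a₁ * X * Y - (3 * x₀ + W.a₂) * X ^ 2 = X ^ 3 := by
  rw [Affine.equation_iff] at hF ⊢
  constructor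
  · intro h
    linear_combination h - hF - X * hFx - Y * hFy
  · intro h
    linear_combination h + hF + X * hFx + Y * hFy

/-- The point with slope parameter `t` is a nonsingular point of `W` as soon as `g t ≠ 0`. -/
theorem nonsingular_param (hF : W.Equation x₀ y₀)
    (hFx : W.a₁ * y₀ - (3 * x₀ ^ 2 + 2 * W.a₂ * x₀ + W.a₄) = 0)
    (hFy : 2 * y₀ + W.a₁ * x₀ + W.a₃ = 0) {t : k} (ht : nodeQuad W x₀ t ≠ 0) :
    W.Nonsingular (x₀ + nodeQuad W x₀ t) (y₀ + t * nodeQuad W x₀ t) := by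
  have hE : W.Equation (x₀ + nodeQuad W x₀ t) (y₀ + t * nodeQuad W x₀ t) := by
    rw [equation_translate hF hFx hFy]
    have hg : nodeQuad W x₀ t = t ^ 2 + W.a₁ * t - (3 * x₀ + W.a₂) := rfl
    linear_combination (-(nodeQuad W x₀ t) ^ 2) * hg
  rw [Affine.nonsingular_iff]
  refine ⟨hE, ?_⟩
  by_contra hcon
  push Not at hcon
  obtain ⟨h1, h2⟩ := hcon
  have hE' := (equation_translate hF hFx hFy _ _).mp hE
  have h3 : (nodeQuad W x₀ t) ^ 3 = 0 := by
    linear_combination (-(nodeQuad W x₀ t)) * h1 + (nodeQuad W x₀ t) * hFx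
      - (t * nodeQuad W x₀ t) * h2 + (t * nodeQuad W x₀ t) * hFy + 2 * hE'
  exact ht (pow_eq_zero_iff (by norm_num) |>.mp h3)

/-- Every nonsingular point of `W` is of the form `(x₀ + g t, y₀ + t * g t)` with `g t ≠ 0`. -/
theorem exists_param (hF : W.Equation x₀ y₀)
    (hFx : W.a₁ * y₀ - (3 * x₀ ^ 2 + 2 * W.a₂ * x₀ + W.a₄) = 0)
    (hFy : 2 * y₀ + W.a₁ * x₀ + W.a₃ = 0) {x y : k} (h : W.Nonsingular x y) :
    ∃ t : k, nodeQuad W x₀ t ≠ 0 ∧ x = x₀ + nodeQuad W x₀ t ∧ y = y₀ + t * nodeQuad W x₀ t := by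
  have hE : W.Equation (x₀ + (x - x₀)) (y₀ + (y - y₀)) := by
    have := h.1
    rwa [add_sub_cancel, add_sub_cancel]
  have hE' := (equation_translate hF hFx hFy _ _).mp hE
  have hX : x - x₀ ≠ 0 := by
    intro hX0
    rw [hX0] at hE'
    have hY : y - y₀ = 0 := by
      have : (y - y₀) ^ 2 = 0 := by linear_combination hE'
      exact pow_eq_zero_iff (by norm_num) |>.mp this
    have hx : x = x₀ := sub_eq_zero.mp hX0
    have hy : y = y₀ := sub_eq_zero.mp hY
    subst hx hy
    rw [Affine.nonsingular_iff] at h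
    rcases h.2 with h' | h'
    · exact h' (by linear_combination hFx)
    · exact h' (by linear_combination hFy)
  refine ⟨(y - y₀) / (x - x₀), ?_, ?_, ?_⟩
  all_goals
    have hg : nodeQuad W x₀ ((y - y₀) / (x - x₀)) = x - x₀ := by
      unfold nodeQuad
      field_simp
      linear_combination hE'
  · rw [hg]; exact hX
  · rw [hg]; ring
  · rw [hg]; field_simp; ring

/-- The tangent quadratic has no root or exactly two roots. -/
theorem ncard_roots_nodeQuad (hd : W.b₂ + 12 * x₀ ≠ 0) :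
    {t : k | nodeQuad W x₀ t = 0}.ncard = 0 ∨ {t : k | nodeQuad W x₀ t = 0}.ncard = 2 := by
  by_cases hex : ∃ r, nodeQuad W x₀ r = 0
  · right
    obtain ⟨r, hr⟩ := hex
    have hne : r ≠ -W.a₁ - r := by
      intro h
      apply hd
      have h' : 2 * r + W.a₁ = 0 := by linear_combination h
      simp only [WeierstrassCurve.b₂]
      unfold nodeQuad at hr
      linear_combination (2 * r + W.a₁) * h' - 4 * hr
    have hset : {t : k | nodeQuad W x₀ t = 0} = {r, -W.a₁ - r} := by
      ext t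
      simp only [Set.mem_ofPred_eq, Set.mem_insert_iff, Set.mem_singleton_iff]
      have hfac : nodeQuad W x₀ t = (t - r) * (t - (-W.a₁ - r)) := by
        unfold nodeQuad at hr ⊢
        linear_combination hr
      rw [hfac, mul_eq_zero, sub_eq_zero, sub_eq_zero]
    rw [hset]
    exact Set.ncard_pair hne
  · left
    have : {t : k | nodeQuad W x₀ t = 0} = ∅ := by
      ext t
      simp only [Set.mem_ofPred_eq, Set.mem_empty_iff_false, iff_false]
      exact fun h => hex ⟨t, h⟩
    rw [this, Set.ncard_empty]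

/-- The parametrisation of `W.Point` by `Option {t // g t ≠ 0}`. -/
noncomputable def nodeParam (hF : W.Equation x₀ y₀)
    (hFx : W.a₁ * y₀ - (3 * x₀ ^ 2 + 2 * W.a₂ * x₀ + W.a₄) = 0)
    (hFy : 2 * y₀ + W.a₁ * x₀ + W.a₃ = 0) : Option {t : k // nodeQuad W x₀ t ≠ 0} → W.Point
  | none => 0
  | some t => Point.some _ _ (nonsingular_param hF hFx hFy t.2)

theorem nodeParam_bijective (hF : W.Equation x₀ y₀)
    (hFx : W.a₁ * y₀ - (3 * x₀ ^ 2 + 2 * W.a₂ * x₀ + W.a₄) = 0)
    (hFy : 2 * y₀ + W.a₁ * x₀ + W.a₃ = 0) : Function.Bijective (nodeParam hF hFx hFy) := by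
  constructor
  · rintro (_ | ⟨t, ht⟩) (_ | ⟨t', ht'⟩) h
    · rfl
    · exact absurd h.symm (Point.some_ne_zero _)
    · exact absurd h (Point.some_ne_zero _)
    · simp only [nodeParam, Point.some.injEq] at h
      obtain ⟨h1, h2⟩ := h
      have hg : nodeQuad W x₀ t = nodeQuad W x₀ t' := add_left_cancel h1
      have h3 : t * nodeQuad W x₀ t = t' * nodeQuad W x₀ t := by
        have := add_left_cancel h2
        rwa [← hg] at this
      have : t = t' := mul_right_cancel₀ ht h3
      subst this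
      rfl
  · rintro (_ | ⟨x, y, h⟩)
    · exact ⟨none, rfl⟩
    · obtain ⟨t, ht, hx, hy⟩ := exists_param hF hFx hFy h
      refine ⟨some ⟨t, ht⟩, ?_⟩
      simp only [nodeParam, Point.some.injEq]
      exact ⟨hx.symm, hy.symm⟩

/-- **Point count of a nodal cubic**, given the singular point. -/
theorem natCard_point_of_singular [Finite k] (hF : W.Equation x₀ y₀)
    (hFx : W.a₁ * y₀ - (3 * x₀ ^ 2 + 2 * W.a₂ * x₀ + W.a₄) = 0)
    (hFy : 2 * y₀ + W.a₁ * x₀ + W.a₃ = 0) (hc : W.c₄ ≠ 0) :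
    Nat.card W.Point + 1 = Nat.card k ∨ Nat.card W.Point = Nat.card k + 1 := by
  have hd : W.b₂ + 12 * x₀ ≠ 0 := by
    intro h
    apply hc
    rw [c₄_eq_of_singular W hFx hFy, h]
    ring
  have hcard : Nat.card W.Point = Nat.card {t : k // nodeQuad W x₀ t ≠ 0} + 1 := by
    rw [← Nat.card_eq_of_bijective _ (nodeParam_bijective hF hFx hFy), Finite.card_option]
  have hcompl : {t : k | nodeQuad W x₀ t = 0}.ncard + {t : k | nodeQuad W x₀ t ≠ 0}.ncard
      = Nat.card k := by
    have := Set.ncard_add_ncard_compl {t : k | nodeQuad W x₀ t = 0}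
    rwa [show {t : k | nodeQuad W x₀ t = 0}ᶜ = {t : k | nodeQuad W x₀ t ≠ 0} from rfl] at this
  have hsub : Nat.card {t : k // nodeQuad W x₀ t ≠ 0} = {t : k | nodeQuad W x₀ t ≠ 0}.ncard :=
    Nat.card_coe_set_eq _
  rcases ncard_roots_nodeQuad (W := W) hd with h0 | h2
  · right
    rw [hcard, hsub]
    omega
  · left
    rw [hcard, hsub]
    omega

/-- **Point count of a nodal cubic** over a finite field: `#W.Point = #k - 1` or `#k + 1`. -/
theorem natCard_point_nodal [Finite k] (hc : W.c₄ ≠ 0) (hΔ : W.Δ = 0) :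
    Nat.card W.Point + 1 = Nat.card k ∨ Nat.card W.Point = Nat.card k + 1 :=
  natCard_point_of_singular (sing_F W hc hΔ) (sing_Fx W hc hΔ) (sing_Fy W hc) hc

/-- The order of a point on a nodal cubic over a finite field with `q` elements divides
`q - 1` or `q + 1`. -/
theorem addOrderOf_dvd_of_nodal [DecidableEq k] [Finite k] (hc : W.c₄ ≠ 0) (hΔ : W.Δ = 0) (P : W.Point) :
    addOrderOf P ∣ Nat.card k - 1 ∨ addOrderOf P ∣ Nat.card k + 1 := by
  have h := addOrderOf_dvd_natCard P
  rcases natCard_point_nodal hc hΔ with h1 | h1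
  · left
    have : Nat.card W.Point = Nat.card k - 1 := by omega
    rwa [this] at h
  · right
    rwa [h1] at h

end Fermat.Agent.S15.H242

end
-- ===== PACK-END S15/H242/NodalCount.lean

-- ===== PACK-BEGIN S24/FFPoint.lean
section




/-!
# S24 / FF layer: the point of `P^1` below a place, residue degree one

Embedding-free algebraic core (helper804).
-/

set_option autoImplicit false

namespace Fermat.Agent.S24.FF

open AlgebraicCurve Polynomial IntermediateField

variable {K F : Type*} [Field K] [Field F] [Algebra K F]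

/-- `ord` of a product of a multiset of nonzero elements with `ord = 0` is `0`. -/
theorem ord_multiset_prod_eq_zero (v : Place K F) (s : Multiset F)
    (h : ∀ y ∈ s, y ≠ 0 ∧ v.ord y = 0) : s.prod ≠ 0 ∧ v.ord s.prod = 0 := by
  induction s using Multiset.induction_on with
  | empty => simp
  | cons a s ih =>
    have ha := h a (Multiset.mem_cons_self a s)
    have hs := ih (fun y hy => h y (Multiset.mem_cons_of_mem hy))
    rw [Multiset.prod_cons]
    refine ⟨mul_ne_zero ha.1 hs.1, ?_⟩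
    rw [v.ord_mul ha.1 hs.1, ha.2, hs.2, add_zero]

/-- If `x` is integral at `v` and no `x - a` vanishes at `v`, every nonzero polynomial
expression in `x` is a unit at `v`. -/
theorem ord_aeval_eq_zero [IsAlgClosed K] (v : Place K F) (x : F) (hx : 0 ≤ v.ord x)
    (hno : ∀ a : K, ¬ 0 < v.ord (x - algebraMap K F a)) (p : K[X]) (hp : aeval x p ≠ 0) :
    v.ord (aeval x p) = 0 := by
  have hsplit := IsAlgClosed.splits p
  have hp0 : p ≠ 0 := by
    rintro rfl
    simp at hp
  have hprod := hsplit.eq_prod_roots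
  have hval : aeval x p = algebraMap K F p.leadingCoeff *
      ((p.roots.map fun a => x - algebraMap K F a)).prod := by
    conv_lhs => rw [hprod]
    simp [aeval_def, eval₂_mul, Polynomial.eval₂_multiset_prod, Multiset.map_map, Function.comp_def]
  rw [hval] at hp ⊢
  have hc : algebraMap K F p.leadingCoeff ≠ 0 := left_ne_zero_of_mul hp
  have hr : ((p.roots.map fun a => x - algebraMap K F a)).prod ≠ 0 := right_ne_zero_of_mul hp
  have key := ord_multiset_prod_eq_zero v (p.roots.map fun a => x - algebraMap K F a) (by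
    intro y hy
    obtain ⟨a, -, rfl⟩ := Multiset.mem_map.mp hy
    have hne : x - algebraMap K F a ≠ 0 := by
      intro h0
      apply hr
      rw [Multiset.prod_eq_zero_iff]
      exact h0 ▸ hy
    refine ⟨hne, ?_⟩
    have h1 : 0 ≤ v.ord (x - algebraMap K F a) :=
      ord_nonneg_of_mem v (sub_mem (mem_of_ord_nonneg v hx) (v.algebraMap_mem' a))
    have h2 := hno a
    omega)
  rw [v.ord_mul hc hr, _root_.Fermat.Agent.S24.FF.ord_algebraMap, key.2, add_zero]

/-- **FF4, existence.** If `F` is algebraic over `K(x)` and `x` is integral at the place `v`,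
then `v` lies over a finite point `a` of the `x`-line. -/
theorem exists_ord_sub_pos [IsAlgClosed K] (v : Place K F) (x : F)
    [halg : Algebra.IsAlgebraic K⟮x⟯ F] (hx : 0 ≤ v.ord x) :
    ∃ a : K, 0 < v.ord (x - algebraMap K F a) := by
  by_contra hno
  rw [not_exists] at hno
  apply v.ne_top'
  -- `K(x) ⊆ O_v`
  have hsub : ∀ y ∈ K⟮x⟯, y ∈ v.toValuationSubring := by
    intro y hy
    obtain ⟨r, s, rfl⟩ := (mem_adjoin_simple_iff K y).mp hy
    rcases eq_or_ne (aeval x s) 0 with hs | hs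
    · rw [hs, div_zero]; exact zero_mem _
    rcases eq_or_ne (aeval x r) 0 with hr | hr
    · rw [hr, zero_div]; exact zero_mem _
    apply mem_of_ord_nonneg v
    rw [div_eq_mul_inv, v.ord_mul hr (inv_ne_zero hs), v.ord_inv,
      ord_aeval_eq_zero v x hx hno r hr, ord_aeval_eq_zero v x hx hno s hs]
    simp
  -- hence every element of `F` is integral over `O_v`
  let φ : K⟮x⟯ →+* v.toValuationSubring :=
    { toFun := fun y => ⟨y, hsub y y.2⟩
      map_one' := rfl
      map_mul' := fun _ _ => rfl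
      map_zero' := rfl
      map_add' := fun _ _ => rfl }
  refine SetLike.ext fun f => ⟨fun _ => ValuationSubring.mem_top f, fun _ => ?_⟩
  have hint : IsIntegral K⟮x⟯ f := (halg.isAlgebraic f).isIntegral
  have hint' : IsIntegral v.toValuationSubring f := by
    obtain ⟨p, hpm, hp⟩ := hint
    refine ⟨p.map φ, hpm.map φ, ?_⟩
    rw [← hp, Polynomial.eval₂_map]
    rfl
  obtain ⟨y, hy⟩ := IsIntegrallyClosed.isIntegral_iff.mp hint'
  rw [← hy]
  exact y.2

/-- **FF4, uniqueness.** -/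
theorem ord_sub_pos_unique (v : Place K F) (x : F) {a b : K}
    (ha : 0 < v.ord (x - algebraMap K F a)) (hb : 0 < v.ord (x - algebraMap K F b)) : a = b := by
  by_contra hab
  have hne : algebraMap K F (b - a) ≠ 0 := by
    rw [Ne, map_eq_zero_iff _ (algebraMap K F).injective, sub_eq_zero]
    exact fun h => hab h.symm
  have h0 := _root_.Fermat.Agent.S24.FF.ord_algebraMap v (b - a)
  have hsum : (x - algebraMap K F a) + (-(x - algebraMap K F b)) = algebraMap K F (b - a) := by
    rw [map_sub]; ring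
  have hxa : x - algebraMap K F a ≠ 0 := by
    intro h; rw [h, v.ord_zero] at ha; exact lt_irrefl _ ha
  have hxb : x - algebraMap K F b ≠ 0 := by
    intro h; rw [h, v.ord_zero] at hb; exact lt_irrefl _ hb
  have hneg : v.ord (-(x - algebraMap K F b)) = v.ord (x - algebraMap K F b) := by
    rw [neg_eq_neg_one_mul, v.ord_mul (neg_ne_zero.mpr one_ne_zero) hxb]
    have : v.ord (-1 : F) = 0 := by
      have := _root_.Fermat.Agent.S24.FF.ord_algebraMap v (-1 : K)
      simpa using this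
    rw [this, zero_add]
  have := ord_add_ge v (f := x - algebraMap K F a) (g := -(x - algebraMap K F b))
    (by rw [hsum]; exact hne)
  rw [hsum, h0, hneg] at this
  have := min_le_iff.mp this
  omega

end Fermat.Agent.S24.FF

end
-- ===== PACK-END S24/FFPoint.lean

-- ===== PACK-BEGIN S24/FFFinite.lean
section




/-!
# S24 / FF layer: change of coordinate, residue degree one

Embedding-free algebraic core (helper804).
-/

set_option autoImplicit false

namespace Fermat.Agent.S24.FF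

open AlgebraicCurve Polynomial IntermediateField

variable {K F : Type*} [Field K] [Field F] [Algebra K F]

/-- Exchange: if `F` is finite over `K(x)` and `y` is transcendental, then `F` is finite over
`K(y)`.  (Intrinsic version of Mathlib's `finiteDimensional_of_adjoin_transcendental`.) -/
theorem finiteDimensional_adjoin_of_transcendental {x y : F} (hx : Transcendental K x)
    (hy : Transcendental K y) [hfin : FiniteDimensional K⟮x⟯ F] : FiniteDimensional K⟮y⟯ F := by
  have halg : Algebra.IsAlgebraic K⟮x⟯ F := Algebra.IsAlgebraic.of_finite _ _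
  have hxy : IsAlgebraic K⟮y⟯ x :=
    isAlgebraic_adjoin_iff.mpr
      (IsAlgebraic.adjoin_singleton hx hy (isAlgebraic_adjoin_iff.mp (halg.isAlgebraic y)))
  let Fyx := restrictScalars K K⟮y⟯⟮x⟯
  let Fxy := restrictScalars K K⟮x⟯⟮y⟯
  let : Algebra K⟮y⟯ Fyx := K⟮y⟯⟮x⟯.algebra
  let : Module K⟮y⟯ Fyx := Algebra.toModule
  let : SMul K⟮y⟯ Fyx := Algebra.toSMul
  let : Algebra K⟮x⟯ Fxy := K⟮x⟯⟮y⟯.algebra
  let : Module K⟮x⟯ Fxy := Algebra.toModule
  let : SMul K⟮x⟯ Fxy := Algebra.toSMul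
  have : FiniteDimensional K⟮y⟯ Fyx :=
    adjoin.finiteDimensional (isAlgebraic_iff_isIntegral.mp hxy)
  have : FiniteDimensional Fyx F := by
    unfold Fyx
    rw [adjoin_simple_comm]
    have : IsScalarTower K⟮x⟯ Fxy F := isScalarTower_mid' K⟮x⟯⟮y⟯
    exact .right K⟮x⟯ Fxy F
  have : IsScalarTower K⟮y⟯ Fyx F := isScalarTower_mid' K⟮y⟯⟮x⟯
  exact .trans K⟮y⟯ Fyx F

/-- In an algebraically closed field `K ⊆ F`, an element of `F` algebraic over `K` is a
constant. -/
theorem mem_range_of_isAlgebraic [IsAlgClosed K] {f : F} (hf : IsAlgebraic K f) :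
    f ∈ (algebraMap K F).range := by
  have hint : IsIntegral K f := hf.isIntegral
  exact minpoly.mem_range_of_degree_eq_one K f
    (IsAlgClosed.degree_eq_one_of_irreducible K (minpoly.irreducible hint))

/-- Non-constants are transcendental (for `K` algebraically closed). -/
theorem transcendental_of_not_mem_range [IsAlgClosed K] {f : F}
    (hf : f ∉ (algebraMap K F).range) : Transcendental K f :=
  fun h => hf (mem_range_of_isAlgebraic h)

/-- Every element integral at `v` is congruent to a constant modulo the maximal ideal. -/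
theorem exists_const_sub_mem_nonunits [IsAlgClosed K] (v : Place K F) {x : F}
    (hx : Transcendental K x) [FiniteDimensional K⟮x⟯ F] {f : F}
    (hf : f ∈ v.toValuationSubring) :
    ∃ a : K, f - algebraMap K F a ∈ v.toValuationSubring.nonunits := by
  by_cases hfK : f ∈ (algebraMap K F).range
  · obtain ⟨a, rfl⟩ := hfK
    refine ⟨a, ?_⟩
    rw [sub_self]
    exact (ValuationSubring.mem_nonunits_iff _).mpr (by simp)
  · have hft := transcendental_of_not_mem_range hfK
    have : FiniteDimensional K⟮f⟯ F := finiteDimensional_adjoin_of_transcendental hx hft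
    have halg : Algebra.IsAlgebraic K⟮f⟯ F := Algebra.IsAlgebraic.of_finite _ _
    obtain ⟨a, ha⟩ := exists_ord_sub_pos v f (ord_nonneg_of_mem v hf)
    refine ⟨a, (ord_pos_iff_mem_nonunits v ?_).mp ha⟩
    intro h0
    rw [h0, v.ord_zero] at ha
    exact lt_irrefl _ ha

end Fermat.Agent.S24.FF

namespace Fermat.Agent.S24.FF

open AlgebraicCurve Polynomial IntermediateField

variable {K F : Type*} [Field K] [Field F] [Algebra K F]

/-- **FF2.** Over an algebraically closed constant field every place of a function field of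
one variable has degree one. -/
theorem deg_eq_one [IsAlgClosed K] (v : Place K F) {x : F}
    (hx : Transcendental K x) [FiniteDimensional K⟮x⟯ F] : v.deg = 1 := by
  have hsurj : Function.Surjective (algebraMap K v.ResidueField) := by
    intro c
    obtain ⟨f, rfl⟩ := IsLocalRing.residue_surjective c
    obtain ⟨a, ha⟩ := exists_const_sub_mem_nonunits v hx f.2
    refine ⟨a, ?_⟩
    have hmem : f - algebraMap K v.toValuationSubring a ∈
        IsLocalRing.maximalIdeal v.toValuationSubring := by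
      rw [← ValuationSubring.coe_mem_nonunits_iff]
      exact ha
    have h0 := (IsLocalRing.residue_eq_zero_iff _).mpr hmem
    rw [map_sub, sub_eq_zero] at h0
    rw [h0]
    rfl
  have hbij : Function.Bijective (algebraMap K v.ResidueField) :=
    ⟨(algebraMap K v.ResidueField).injective, hsurj⟩
  show Module.finrank K v.ResidueField = 1
  rw [← Module.finrank_self K]
  exact ((AlgEquiv.ofBijective (Algebra.ofId K v.ResidueField) hbij).toLinearEquiv.finrank_eq).symm

end Fermat.Agent.S24.FF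

end
-- ===== PACK-END S24/FFFinite.lean

-- ===== PACK-BEGIN S24/FFOrdLike.lean
section




/-!
# S24 / FF layer: recognising `Place.ord` from any order-like function

If `N : F → ℤ` is additive on nonzero elements and `O_v = {N ≥ 0}` then `N = N(ϖ) · ord_v`.
(helper804)
-/

set_option autoImplicit false

namespace Fermat.Agent.S24.FF

open AlgebraicCurve

variable {K F : Type*} [Field K] [Field F] [Algebra K F]

section OrdLike

variable (N : F → ℤ) (hmul : ∀ f g : F, f ≠ 0 → g ≠ 0 → N (f * g) = N f + N g)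

include hmul

theorem ordLike_one : N 1 = 0 := by
  have := hmul 1 1 one_ne_zero one_ne_zero
  rw [mul_one] at this
  omega

theorem ordLike_inv {f : F} (hf : f ≠ 0) : N f⁻¹ = -N f := by
  have := hmul f f⁻¹ hf (inv_ne_zero hf)
  rw [mul_inv_cancel₀ hf, ordLike_one N hmul] at this
  omega

theorem ordLike_pow {f : F} (hf : f ≠ 0) (n : ℕ) : N (f ^ n) = n * N f := by
  induction n with
  | zero => simp [ordLike_one N hmul]
  | succ n ih =>
    rw [pow_succ, hmul _ _ (pow_ne_zero n hf) hf, ih]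
    push_cast
    ring

theorem ordLike_zpow {f : F} (hf : f ≠ 0) (n : ℤ) : N (f ^ n) = n * N f := by
  obtain ⟨m, rfl | rfl⟩ := n.eq_nat_or_neg
  · rw [zpow_natCast, ordLike_pow N hmul hf]
  · rw [zpow_neg, zpow_natCast, ordLike_inv N hmul (pow_ne_zero m hf), ordLike_pow N hmul hf]
    ring

/-- An order-like function with valuation ring `O_v` is a multiple of `ord_v`. -/
theorem ordLike_eq_ord_mul (v : Place K F)
    (hmem : ∀ f : F, f ≠ 0 → (f ∈ v.toValuationSubring ↔ 0 ≤ N f))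
    {ϖ : v.toValuationSubring} (hϖ : Irreducible ϖ) {f : F} (hf : f ≠ 0) :
    N f = v.ord f * N (ϖ : F) := by
  have hϖF : (ϖ : F) ≠ 0 := by
    simpa [ne_eq, ZeroMemClass.coe_eq_zero] using hϖ.ne_zero
  obtain ⟨u, hu⟩ := v.exists_unit_mul_zpow hf hϖ
  have hu0 : ((u : v.toValuationSubring) : F) ≠ 0 := by
    simp [ne_eq, ZeroMemClass.coe_eq_zero]
  have hNu : N ((u : v.toValuationSubring) : F) = 0 := by
    have h1 := (hmem _ hu0).mp (u : v.toValuationSubring).2
    have hinv : (((u⁻¹ : v.toValuationSubringˣ) : v.toValuationSubring) : F)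
        = (((u : v.toValuationSubring) : F))⁻¹ := by
      apply eq_inv_of_mul_eq_one_left
      have h := congrArg (fun a : v.toValuationSubring => (a : F)) (Units.inv_mul u)
      exact h
    have h2 := (hmem _ (inv_ne_zero hu0)).mp (by
      rw [← hinv]
      exact ((u⁻¹ : v.toValuationSubringˣ) : v.toValuationSubring).2)
    rw [ordLike_inv N hmul hu0] at h2
    omega
  conv_lhs => rw [hu]
  rw [hmul _ _ hu0 (zpow_ne_zero _ hϖF), hNu, zero_add, ordLike_zpow N hmul hϖF]

/-- Normalised version: if moreover some nonzero element has `N = 1`, then `N = ord_v`. -/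
theorem ordLike_eq_ord (v : Place K F)
    (hmem : ∀ f : F, f ≠ 0 → (f ∈ v.toValuationSubring ↔ 0 ≤ N f))
    {π : F} (hπ0 : π ≠ 0) (hπ : N π = 1) {f : F} (hf : f ≠ 0) :
    N f = v.ord f := by
  obtain ⟨ϖ, hϖ⟩ := IsDiscreteValuationRing.exists_irreducible v.toValuationSubring
  have hϖF : (ϖ : F) ≠ 0 := by
    simpa [ne_eq, ZeroMemClass.coe_eq_zero] using hϖ.ne_zero
  have key := ordLike_eq_ord_mul N hmul v hmem hϖ hπ0
  have hNϖ : 0 ≤ N (ϖ : F) := (hmem _ hϖF).mp ϖ.2
  rw [hπ] at key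
  have hone : N (ϖ : F) = 1 := by
    have h1 : v.ord π * N (ϖ : F) = 1 := key.symm
    rcases Int.eq_one_or_neg_one_of_mul_eq_one' h1 with ⟨_, h⟩ | ⟨_, h⟩
    · exact h
    · omega
  rw [ordLike_eq_ord_mul N hmul v hmem hϖ hf, hone, mul_one]

end OrdLike

end Fermat.Agent.S24.FF

end
-- ===== PACK-END S24/FFOrdLike.lean

-- ===== PACK-BEGIN S24/JFun/QExp.lean
section






/-!
# The `q`-expansion of the analytic `j`-function is the formal `j` of the Prelude

Main results:
* `qExpansion_E₄` : `qExpansion 1 E₄ = ModularCurve.eisenstein4.map (Int.castRingHom ℂ)`;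
* `qExpansion_qj` : `qExpansion 1 (τ ↦ q(τ) * j(τ)) = ModularCurve.jNum.map (Int.castRingHom ℂ)`;
* `hasSum_qj` : `q * j(τ) = ∑ jNum_n q ^ n` for every `τ : ℍ`.
-/

set_option autoImplicit false

namespace Fermat.Agent.S24.JFun

open Filter Topology Complex Metric Function
open UpperHalfPlane hiding I
open ModularForm EisensteinSeries MatrixGroups
open scoped Manifold

local notation "𝕢" => Function.Periodic.qParam

/-- The analytic Euler product `∏ (1 - q ^ (n+1))` as a function of `τ`. -/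
noncomputable def eulerFun : ℍ → ℂ := ofQ (fun q : ℂ => ∏' n : ℕ, (1 - q ^ (n + 1)))

theorem eulerFun_apply (τ : ℍ) :
    eulerFun τ = ∏' n : ℕ, (1 - 𝕢 1 (τ : ℂ) ^ (n + 1)) := rfl

theorem eulerFun_pow_eq_ofQ (k : ℕ) :
    (fun τ => eulerFun τ ^ k) = ofQ (fun q : ℂ => (∏' n : ℕ, (1 - q ^ (n + 1))) ^ k) := rfl

theorem differentiableOn_euler_pow (k : ℕ) :
    DifferentiableOn ℂ (fun q : ℂ => (∏' n : ℕ, (1 - q ^ (n + 1))) ^ k) (ball 0 1) :=
  ModularForm.differentiableOn_tprod_one_sub_pow.fun_pow k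

theorem analyticAt_eulerFun_pow (k : ℕ) :
    AnalyticAt ℂ (cuspFunction 1 (fun τ => eulerFun τ ^ k)) 0 := by
  rw [eulerFun_pow_eq_ofQ]
  exact ofQ_analyticAt (differentiableOn_euler_pow k)

theorem analyticAt_eulerFun : AnalyticAt ℂ (cuspFunction 1 eulerFun) 0 :=
  ofQ_analyticAt ModularForm.differentiableOn_tprod_one_sub_pow

/-- The `q`-expansion of the analytic Euler product is the formal Euler product. -/
theorem qExpansion_eulerFun :
    qExpansion 1 eulerFun = ModularCurve.etaProd.map (Int.castRingHom ℂ) := by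
  ext m
  rw [eulerFun, qExpansion_ofQ_coeff ModularForm.differentiableOn_tprod_one_sub_pow,
    iteratedDeriv_tprod_one_sub_pow, PowerSeries.coeff_map]
  have hm : (m.factorial : ℂ) ≠ 0 := by exact_mod_cast Nat.factorial_ne_zero m
  simp only [eq_intCast]
  field_simp

theorem qExpansion_eulerFun_pow (k : ℕ) :
    qExpansion 1 (fun τ => eulerFun τ ^ k)
      = (ModularCurve.etaProd.map (Int.castRingHom ℂ)) ^ k := by
  induction k with
  | zero =>
    have h : (fun τ : ℍ => eulerFun τ ^ 0) = (1 : ℍ → ℂ) := by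
      funext τ
      simp
    rw [h, _root_.UpperHalfPlane.qExpansion_one, pow_zero]
  | succ k ih =>
    have h : (fun τ : ℍ => eulerFun τ ^ (k + 1)) = (fun τ => eulerFun τ ^ k) * eulerFun := by
      funext τ
      simp [pow_succ]
    rw [h, _root_.UpperHalfPlane.qExpansion_mul (analyticAt_eulerFun_pow k) analyticAt_eulerFun, ih,
      qExpansion_eulerFun, pow_succ]

/-- The discriminant as `q` times the 24-th power of the Euler product. -/
theorem discriminant_eq_q_mul_eulerFun (τ : ℍ) :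
    ModularForm.discriminant τ = 𝕢 1 (τ : ℂ) * eulerFun τ ^ 24 := by
  rw [discriminant_eq_q_prod, eulerFun_apply]
  congr 1
  have hm : Multipliable (fun n : ℕ => (1 - 𝕢 1 (τ : ℂ) ^ (n + 1))) :=
    (ModularForm.multipliableLocallyUniformlyOn_one_sub_pow.multipliable
      (qParam_one_mem_ball τ))
  exact hm.tprod_pow 24

/-- The `q`-expansion of `E₄` is the formal Eisenstein series of the Prelude. -/
theorem qExpansion_E₄ :
    qExpansion 1 E₄ = ModularCurve.eisenstein4.map (Int.castRingHom ℂ) := by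
  ext m
  rw [PowerSeries.coeff_map, ModularCurve.eisenstein4, PowerSeries.coeff_mk]
  have h := E_qExpansion_coeff (k := 4) (by norm_num) ⟨2, rfl⟩ m
  have hE : (qExpansion 1 E₄).coeff m = (qExpansion 1 (E (k := 4) (by norm_num))).coeff m := rfl
  rw [hE, h]
  by_cases hm : m = 0
  · simp [hm]
  · simp only [hm, if_false]
    rw [show bernoulli 4 = -1 / 30 by decide +kernel, ArithmeticFunction.sigma_apply]
    push_cast
    norm_num

theorem analyticAt_E₄ : AnalyticAt ℂ (cuspFunction 1 (E₄ : ℍ → ℂ)) 0 :=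
  ModularFormClass.analyticAt_cuspFunction_zero E₄ one_pos one_mem_strictPeriods_SL

theorem qExpansion_E₄_cube :
    qExpansion 1 (fun τ => E₄ τ ^ 3)
      = (ModularCurve.eisenstein4.map (Int.castRingHom ℂ)) ^ 3 := by
  have h2 : (fun τ : ℍ => E₄ τ ^ 2) = (E₄ : ℍ → ℂ) * (E₄ : ℍ → ℂ) := by
    funext τ
    simp [pow_two]
  have h3 : (fun τ : ℍ => E₄ τ ^ 3) = (fun τ : ℍ => E₄ τ ^ 2) * (E₄ : ℍ → ℂ) := by
    funext τ
    simp [pow_succ]
  have ha2 : AnalyticAt ℂ (cuspFunction 1 (fun τ : ℍ => E₄ τ ^ 2)) 0 := by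
    rw [h2, _root_.UpperHalfPlane.cuspFunction_mul analyticAt_E₄.continuousAt analyticAt_E₄.continuousAt]
    exact analyticAt_E₄.mul analyticAt_E₄
  rw [h3, _root_.UpperHalfPlane.qExpansion_mul ha2 analyticAt_E₄, h2, _root_.UpperHalfPlane.qExpansion_mul analyticAt_E₄ analyticAt_E₄,
    qExpansion_E₄]
  ring

/-- The function `τ ↦ q(τ) * j(τ)`, holomorphic at the cusp. -/
noncomputable def qjFun (τ : ℍ) : ℂ := 𝕢 1 (τ : ℂ) * jFun τ

theorem qjFun_apply (τ : ℍ) : qjFun τ = 𝕢 1 (τ : ℂ) * jFun τ := rfl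

theorem qParam_one_ne_zero (z : ℂ) : 𝕢 1 z ≠ 0 := by
  unfold Function.Periodic.qParam
  exact Complex.exp_ne_zero _

theorem eulerFun_ne_zero (τ : ℍ) : eulerFun τ ≠ 0 := by
  intro h
  have := discriminant_ne_zero τ
  rw [discriminant_eq_q_mul_eulerFun, h] at this
  simp at this

theorem qjFun_mul_eulerFun (τ : ℍ) : qjFun τ * eulerFun τ ^ 24 = E₄ τ ^ 3 := by
  rw [qjFun_apply, ← jFun_mul_discriminant, discriminant_eq_q_mul_eulerFun]
  ring

theorem qjFun_eq (τ : ℍ) : qjFun τ = E₄ τ ^ 3 / eulerFun τ ^ 24 := by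
  rw [← qjFun_mul_eulerFun, mul_div_cancel_right₀ _ (pow_ne_zero _ (eulerFun_ne_zero τ))]

theorem jFun_vadd (τ : ℍ) : jFun ((1 : ℝ) +ᵥ τ) = jFun τ := by
  rw [← UpperHalfPlane.modular_T_smul, jFun_smul]

theorem qjFun_vadd (τ : ℍ) : qjFun ((1 : ℝ) +ᵥ τ) = qjFun τ := by
  rw [qjFun_apply, qjFun_apply, qParam_one_vadd, jFun_vadd]

theorem qjFun_periodic : Periodic (qjFun ∘ ofComplex) ((1 : ℝ) : ℂ) :=
  periodic_comp_ofComplex_of_vadd qjFun_vadd

theorem mdiff_qParam : MDiff (fun τ : ℍ => 𝕢 1 (τ : ℂ)) :=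
  ofQ_mdiff (g := fun q => q) differentiableOn_id

theorem qjFun_mdiff : MDiff qjFun :=
  mdiff_qParam.mul jFun_mdifferentiable

theorem tendsto_eulerFun : Tendsto eulerFun atImInfty (𝓝 1) := by
  have h := ofQ_tendsto ModularForm.differentiableOn_tprod_one_sub_pow
  simpa [eulerFun] using h

theorem E₄_bdd : IsBoundedAtImInfty (fun τ : ℍ => E₄ τ) :=
  ModularFormClass.bdd_at_infty E₄

theorem qjFun_bdd : IsBoundedAtImInfty qjFun := by
  have h1 : IsBoundedAtImInfty (fun τ : ℍ => E₄ τ ^ 3) := by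
    have := (E₄_bdd.mul E₄_bdd).mul E₄_bdd
    refine this.congr' ?_ (EventuallyEq.refl _ _)
    exact Eventually.of_forall fun τ => by simp [pow_succ]
  have h2 : Tendsto (fun τ : ℍ => (eulerFun τ ^ 24)⁻¹) atImInfty (𝓝 1) := by
    have := (tendsto_eulerFun.pow 24).inv₀ (by simp)
    simpa using this
  have h3 : IsBoundedAtImInfty (fun τ : ℍ => (eulerFun τ ^ 24)⁻¹) := h2.isBigO_one ℝ
  have h4 := h1.mul h3
  refine h4.congr' ?_ (EventuallyEq.refl _ _)
  exact Eventually.of_forall fun τ => by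
    simp only [Pi.mul_apply]
    rw [qjFun_eq, div_eq_mul_inv]

theorem analyticAt_qjFun : AnalyticAt ℂ (cuspFunction 1 qjFun) 0 :=
  analyticAt_cuspFunction_zero one_pos qjFun_periodic qjFun_mdiff qjFun_bdd

/-- **Bridge**: the `q`-expansion of `q · j` is the Prelude's formal power series `jNum`. -/
theorem qExpansion_qjFun :
    qExpansion 1 qjFun = ModularCurve.jNum.map (Int.castRingHom ℂ) := by
  have hfun : qjFun * (fun τ => eulerFun τ ^ 24) = fun τ => E₄ τ ^ 3 := by
    funext τ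
    exact qjFun_mul_eulerFun τ
  have h1 : qExpansion 1 qjFun * (ModularCurve.etaProd.map (Int.castRingHom ℂ)) ^ 24
      = (ModularCurve.eisenstein4.map (Int.castRingHom ℂ)) ^ 3 := by
    rw [← qExpansion_eulerFun_pow, ← _root_.UpperHalfPlane.qExpansion_mul analyticAt_qjFun (analyticAt_eulerFun_pow 24),
      hfun, qExpansion_E₄_cube]
  have h2 : ModularCurve.jNum * ModularCurve.etaProd ^ 24 = ModularCurve.eisenstein4 ^ 3 := by
    have h := ModularCurve.dedekindEtaUnit_mul_inv
    rw [ModularCurve.dedekindEtaUnit] at h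
    rw [ModularCurve.jNum, mul_assoc, mul_comm ModularCurve.dedekindEtaUnitInv, h, mul_one]
  have h3 : (ModularCurve.jNum.map (Int.castRingHom ℂ))
      * (ModularCurve.etaProd.map (Int.castRingHom ℂ)) ^ 24
      = (ModularCurve.eisenstein4.map (Int.castRingHom ℂ)) ^ 3 := by
    rw [← map_pow, ← map_pow, ← _root_.map_mul, h2]
  have hne : (ModularCurve.etaProd.map (Int.castRingHom ℂ)) ^ 24 ≠ 0 := by
    apply pow_ne_zero
    intro h0
    have hc := congrArg (PowerSeries.coeff 0) h0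
    rw [PowerSeries.coeff_map, PowerSeries.coeff_zero_eq_constantCoeff,
      ModularCurve.constantCoeff_etaProd] at hc
    simp at hc
  exact mul_right_cancel₀ hne (h1.trans h3.symm)

/-- **Bridge, summation form**: `q · j(τ) = ∑ₙ jNumₙ qⁿ` for every `τ` in the upper half plane. -/
theorem hasSum_qjFun (τ : ℍ) :
    HasSum (fun n : ℕ => ((ModularCurve.jNum.coeff n : ℤ) : ℂ) * 𝕢 1 (τ : ℂ) ^ n)
      (𝕢 1 (τ : ℂ) * jFun τ) := by
  have h := _root_.UpperHalfPlane.hasSum_qExpansion one_pos qjFun_periodic qjFun_mdiff qjFun_bdd τ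
  rw [qExpansion_qjFun, qjFun_apply] at h
  simpa [PowerSeries.coeff_map, smul_eq_mul] using h

end Fermat.Agent.S24.JFun

end
-- ===== PACK-END S24/JFun/QExp.lean

-- ===== PACK-BEGIN S24/JFun/Laurent.lean
section



/-!
# Laurent (ℤ-indexed) form of the bridge `j(τ) = ∑ₙ jq_n qⁿ`

Adapters of `hasSum_qjFun` to the Prelude's Laurent series `ModularCurve.jqModC ℂ`.
-/

set_option autoImplicit false

namespace Fermat.Agent.S24.JFun

open Filter Topology Complex Function
open UpperHalfPlane hiding I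
open ModularForm EisensteinSeries MatrixGroups

local notation "𝕢" => Function.Periodic.qParam

/-- Coefficients of the Prelude's Laurent series `jqModC ℂ` in terms of `jNum`. -/
theorem coeff_jqModC_natCast_sub_one (k : ℕ) :
    (ModularCurve.jqModC ℂ).coeff ((k : ℤ) - 1) = ((ModularCurve.jNum.coeff k : ℤ) : ℂ) := by
  rw [ModularCurve.jqModC, HahnSeries.coeff_single_mul, one_mul,
    show ((k : ℤ) - 1 - (-1)) = (k : ℤ) by ring, HahnSeries.ofPowerSeries_apply_coeff,
    PowerSeries.coeff_map]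
  simp

theorem coeff_jqModC_of_lt {n : ℤ} (hn : n < -1) : (ModularCurve.jqModC ℂ).coeff n = 0 := by
  rw [ModularCurve.jqModC, HahnSeries.coeff_single_mul, one_mul]
  exact ModularCurve.ofPowerSeries_coeff_of_neg _ (by omega)

/-- **Bridge, Laurent form**: `j(τ) = ∑_{n ∈ ℤ} (jqModC ℂ)_n qⁿ` for every `τ : ℍ`. -/
theorem hasSum_jFun (τ : ℍ) :
    HasSum (fun n : ℤ => (ModularCurve.jqModC ℂ).coeff n * 𝕢 1 (τ : ℂ) ^ n) (jFun τ) := by
  have hq : 𝕢 1 (τ : ℂ) ≠ 0 := qParam_one_ne_zero _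
  have hinj : Function.Injective (fun k : ℕ => ((k : ℤ) - 1)) := by
    intro a b hab
    simp only [sub_left_inj, Nat.cast_inj] at hab
    exact hab
  have hsupp : ∀ n : ℤ, n ∉ Set.range (fun k : ℕ => ((k : ℤ) - 1)) →
      (ModularCurve.jqModC ℂ).coeff n * 𝕢 1 (τ : ℂ) ^ n = 0 := by
    intro n hn
    have hlt : n < -1 := by
      by_contra hcon
      have hcon : -1 ≤ n := not_lt.mp hcon
      apply hn
      refine ⟨(n + 1).toNat, ?_⟩
      simp only
      rw [Int.toNat_of_nonneg (by omega)]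
      ring
    rw [coeff_jqModC_of_lt hlt, zero_mul]
  rw [← hinj.hasSum_iff hsupp]
  have h := (hasSum_qjFun τ).mul_left ((𝕢 1 (τ : ℂ))⁻¹)
  rw [← mul_assoc, inv_mul_cancel₀ hq, one_mul] at h
  have hfun : ((fun n : ℤ => (ModularCurve.jqModC ℂ).coeff n * 𝕢 1 (τ : ℂ) ^ n) ∘
      fun k : ℕ => ((k : ℤ) - 1))
      = fun i : ℕ => (𝕢 1 (τ : ℂ))⁻¹ *
          (((ModularCurve.jNum.coeff i : ℤ) : ℂ) * 𝕢 1 (τ : ℂ) ^ i) := by
    funext k
    simp only [comp_apply]
    rw [coeff_jqModC_natCast_sub_one, zpow_sub₀ hq, zpow_natCast, zpow_one]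
    field_simp
  rw [hfun]
  exact h

/-- The same with `q` written out as `exp (2πiτ)`. -/
theorem hasSum_jFun_cexp (τ : ℍ) :
    HasSum (fun n : ℤ => (ModularCurve.jqModC ℂ).coeff n *
      Complex.exp (2 * (Real.pi : ℂ) * _root_.Complex.I * (τ : ℂ)) ^ n) (jFun τ) := by
  have h := hasSum_jFun τ
  have hq : 𝕢 1 (τ : ℂ) = Complex.exp (2 * (Real.pi : ℂ) * _root_.Complex.I * (τ : ℂ)) := by
    simp [Function.Periodic.qParam]
  rw [hq] at h
  exact h

/-- `ℕ`-indexed form with `q` written out as `exp (2πiτ)`. -/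
theorem hasSum_qjFun_cexp (τ : ℍ) :
    HasSum (fun n : ℕ => ((ModularCurve.jNum.coeff n : ℤ) : ℂ) *
      Complex.exp (2 * (Real.pi : ℂ) * _root_.Complex.I * (τ : ℂ)) ^ n)
      (Complex.exp (2 * (Real.pi : ℂ) * _root_.Complex.I * (τ : ℂ)) * jFun τ) := by
  have h := hasSum_qjFun τ
  have hq : 𝕢 1 (τ : ℂ) = Complex.exp (2 * (Real.pi : ℂ) * _root_.Complex.I * (τ : ℂ)) := by
    simp [Function.Periodic.qParam]
  rw [hq] at h
  exact h

end Fermat.Agent.S24.JFun

end
-- ===== PACK-END S24/JFun/Laurent.lean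

-- ===== PACK-BEGIN S24/H864/FF3b.lean
section




/-!
# S24 / ALG / FF1+FF3 (part b): places of a Dedekind domain with fraction field `F`
-/

set_option autoImplicit false

noncomputable section

open AlgebraicCurve IsDedekindDomain

namespace Fermat.Agent.S24.H864

section Dict

variable {K F : Type*} [Field K] [Field F] [Algebra K F]
variable {S : Type*} [CommRing S] [IsDedekindDomain S] [Algebra S F] [IsFractionRing S F]
  [Algebra K S] [IsScalarTower K S F]

/-- `ord` of the place attached to a height one prime is `-log` of the adic valuation. -/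
theorem ord_ofHeightOneSpectrum (w : HeightOneSpectrum S) (x : F) :
    (Place.ofHeightOneSpectrum (K := K) w).ord x = -(WithZero.log (w.valuation F x)) := by
  rcases eq_or_ne x 0 with rfl | hx
  · simp
  set N : F → ℤ := fun y => -(WithZero.log (w.valuation F y)) with hN
  have hmul : ∀ f g : F, f ≠ 0 → g ≠ 0 → N (f * g) = N f + N g := by
    intro f g hf hg
    simp only [hN, map_mul]
    rw [WithZero.log_mul ((Valuation.ne_zero_iff _).mpr hf) ((Valuation.ne_zero_iff _).mpr hg)]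
    ring
  have hmem : ∀ f : F, f ≠ 0 →
      (f ∈ (Place.ofHeightOneSpectrum (K := K) w).toValuationSubring ↔ 0 ≤ N f) := by
    intro f hf
    rw [Place.ofHeightOneSpectrum_toValuationSubring, Valuation.mem_valuationSubring_iff]
    have h0 : w.valuation F f ≠ 0 := (Valuation.ne_zero_iff _).mpr hf
    simp only [hN]
    rw [← WithZero.log_le_log h0 one_ne_zero, WithZero.log_one]
    omega
  obtain ⟨π, hπ⟩ := w.valuation_exists_uniformizer F
  have hπ0 : π ≠ 0 := by
    intro h
    rw [h, map_zero] at hπ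
    exact WithZero.exp_ne_zero.symm hπ
  have hNπ : N π = 1 := by
    simp only [hN, hπ, WithZero.log_exp]
    norm_num
  exact (FF.ordLike_eq_ord N hmul _ hmem hπ0 hNπ hx).symm

/-- On elements of `S`, `ord` is the multiplicity of the prime in the principal ideal. -/
theorem ord_ofHeightOneSpectrum_algebraMap (w : HeightOneSpectrum S) {s : S} (hs : s ≠ 0) :
    (Place.ofHeightOneSpectrum (K := K) w).ord (algebraMap S F s)
      = (multiplicity w.asIdeal (Ideal.span {s}) : ℤ) := by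
  rw [ord_ofHeightOneSpectrum, HeightOneSpectrum.valuation_of_algebraMap,
    HeightOneSpectrum.intValuation_eq_exp_neg_multiplicity w hs, WithZero.log_exp, neg_neg]

theorem ord_ofHeightOneSpectrum_pos_iff (w : HeightOneSpectrum S) {s : S} (hs : s ≠ 0) :
    0 < (Place.ofHeightOneSpectrum (K := K) w).ord (algebraMap S F s) ↔ s ∈ w.asIdeal := by
  rw [← HeightOneSpectrum.valuation_lt_one_iff_mem (K := F), ord_ofHeightOneSpectrum]
  have h0 : w.valuation F (algebraMap S F s) ≠ 0 :=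
    (Valuation.ne_zero_iff _).mpr ((map_ne_zero_iff _ (IsFractionRing.injective S F)).mpr hs)
  rw [← WithZero.log_lt_log h0 one_ne_zero, WithZero.log_one]
  omega

theorem ofHeightOneSpectrum_injective :
    Function.Injective (fun w : HeightOneSpectrum S => Place.ofHeightOneSpectrum (K := K) (F := F) w) := by
  intro w w' h
  simp only at h
  apply HeightOneSpectrum.ext
  ext s
  rcases eq_or_ne s 0 with rfl | hs
  · simp
  · rw [← ord_ofHeightOneSpectrum_pos_iff (K := K) (F := F) w hs,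
      ← ord_ofHeightOneSpectrum_pos_iff (K := K) (F := F) w' hs, h]

/-- The prime of `S` cut out by a place whose valuation ring contains `S`. -/
def primeOfPlace (v : Place K F) (hS : ∀ s : S, algebraMap S F s ∈ v.toValuationSubring) :
    Ideal S :=
  Ideal.comap ((algebraMap S F).codRestrict v.toValuationSubring.toSubring hS)
    (IsLocalRing.maximalIdeal v.toValuationSubring)

instance primeOfPlace_isPrime (v : Place K F)
    (hS : ∀ s : S, algebraMap S F s ∈ v.toValuationSubring) : (primeOfPlace v hS).IsPrime :=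
  Ideal.comap_isPrime _ _

theorem mem_primeOfPlace (v : Place K F)
    (hS : ∀ s : S, algebraMap S F s ∈ v.toValuationSubring) {s : S} (hs : s ≠ 0) :
    s ∈ primeOfPlace v hS ↔ 0 < v.ord (algebraMap S F s) := by
  have hs' : algebraMap S F s ≠ 0 := (map_ne_zero_iff _ (IsFractionRing.injective S F)).mpr hs
  rw [FF.ord_pos_iff_mem_nonunits v hs']
  rw [primeOfPlace, Ideal.mem_comap, IsLocalRing.mem_maximalIdeal, mem_nonunits_iff,
    ValuationSubring.mem_nonunits_iff_exists_mem_maximalIdeal]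
  constructor
  · intro h
    exact ⟨hS s, by rw [IsLocalRing.mem_maximalIdeal, mem_nonunits_iff]; exact h⟩
  · rintro ⟨_, h⟩
    rw [IsLocalRing.mem_maximalIdeal, mem_nonunits_iff] at h
    exact h

/-- **Dictionary, surjectivity.**  A place whose valuation ring contains `S` and which is
positive on some nonzero element of `S` comes from a height one prime of `S`. -/
theorem exists_heightOneSpectrum_of_place (v : Place K F)
    (hS : ∀ s : S, algebraMap S F s ∈ v.toValuationSubring)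
    {s0 : S} (hs0 : s0 ≠ 0) (hpos : 0 < v.ord (algebraMap S F s0)) :
    ∃ w : HeightOneSpectrum S,
      Place.ofHeightOneSpectrum (K := K) w = v ∧ w.asIdeal = primeOfPlace v hS := by
  have hne : primeOfPlace v hS ≠ ⊥ := by
    intro h
    have : s0 ∈ primeOfPlace v hS := (mem_primeOfPlace v hS hs0).mpr hpos
    rw [h, Ideal.mem_bot] at this
    exact hs0 this
  refine ⟨⟨primeOfPlace v hS, inferInstance, hne⟩, ?_, rfl⟩
  set w : HeightOneSpectrum S := ⟨primeOfPlace v hS, inferInstance, hne⟩ with hw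
  apply Place.ext
  rw [Place.ofHeightOneSpectrum_toValuationSubring,
    ← HeightOneSpectrum.valuationSubringAtPrime_eq_valuationSubring]
  refine ValuationSubring.eq_of_le_of_ne_top _ ?_ v.ne_top'
  rintro x ⟨a, s, hs, rfl⟩
  have hsq : s ∉ primeOfPlace v hS := hs
  have hs0' : s ≠ 0 := by
    rintro rfl
    exact hsq (Ideal.zero_mem _)
  have hsF : algebraMap S F s ≠ 0 := (map_ne_zero_iff _ (IsFractionRing.injective S F)).mpr hs0'
  have h1 : ¬ 0 < v.ord (algebraMap S F s) := fun h => hsq ((mem_primeOfPlace v hS hs0').mpr h)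
  have h2 : 0 ≤ v.ord (algebraMap S F s) := (FF.mem_iff_ord_nonneg v).mp (hS s)
  have h3 : v.ord (algebraMap S F s) = 0 := by omega
  have h4 : (algebraMap S F s)⁻¹ ∈ v.toValuationSubring := by
    rw [FF.mem_iff_ord_nonneg, Place.ord_inv, h3]
    simp
  exact mul_mem (hS a) h4

end Dict

end Fermat.Agent.S24.H864

end
end
-- ===== PACK-END S24/H864/FF3b.lean

-- ===== PACK-BEGIN S20/Comb694/Fixed.lean
section


/-!
# Fixed points of `S` and `S * T` on `SL(2,ℤ) ⧸ Gamma0 N`

* `card_fixedBy_S : Nat.card (MulAction.fixedBy (SL(2,ℤ) ⧸ Gamma0 N) S) = nuTwo N`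
* `card_fixedBy_ST : Nat.card (MulAction.fixedBy (SL(2,ℤ) ⧸ Gamma0 N) (S * T)) = nuThree N`
-/

set_option autoImplicit false

namespace Fermat.Agent.S20.Comb694

open Matrix MatrixGroups CongruenceSubgroup

variable (N : ℕ)

/-- From a root of `x² + 1` in `ZMod N` to a fixed point of `S`. -/
noncomputable def rootToFixedS (x : {x : ZMod N // x ^ 2 + 1 = 0}) :
    MulAction.fixedBy (SL(2, ℤ) ⧸ Gamma0 N) ModularGroup.S :=
  ⟨QuotientGroup.mk (colRep (ZMod.cast x.1 : ℤ)), by
    rw [MulAction.mem_fixedBy, S_smul_mk_eq_mk_iff]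
    simp only [colRep_apply_zero_zero, colRep_apply_one_zero, ZMod.intCast_zmod_cast,
      Int.cast_one, one_pow]
    exact x.2⟩

lemma rootToFixedS_bijective : Function.Bijective (rootToFixedS N) := by
  constructor
  · rintro ⟨x, hx⟩ ⟨y, hy⟩ h
    have h' := congrArg Subtype.val h
    simp only [rootToFixedS] at h'
    rw [mk_eq_mk_iff] at h'
    simp only [colRep_apply_zero_zero, colRep_apply_one_zero, ZMod.intCast_zmod_cast,
      Int.cast_one, _root_.mul_one, _root_.one_mul] at h'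
    exact Subtype.ext (sub_eq_zero.mp h')
  · rintro ⟨q, hq⟩
    obtain ⟨g, rfl⟩ := QuotientGroup.mk_surjective q
    rw [MulAction.mem_fixedBy, S_smul_mk_eq_mk_iff] at hq
    have hinv := c_mul_inv_eq_one N g (-((g 1 0 : ℤ) : ZMod N)) (by linear_combination hq)
    set a : ZMod N := ((g 0 0 : ℤ) : ZMod N) with ha
    set c : ZMod N := ((g 1 0 : ℤ) : ZMod N) with hc
    set i : ZMod N := (-c * ((g 1 1 : ℤ) : ZMod N) ^ 2
        - 2 * a * ((g 0 1 : ℤ) : ZMod N) * ((g 1 1 : ℤ) : ZMod N)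
        + ((g 0 1 : ℤ) : ZMod N) ^ 2 * c) with hi
    refine ⟨⟨a * i, ?_⟩, ?_⟩
    · linear_combination (i ^ 2) * hq - (c * i + 1) * hinv
    · apply Subtype.ext
      simp only [rootToFixedS]
      rw [mk_eq_mk_iff]
      simp only [colRep_apply_zero_zero, colRep_apply_one_zero, ZMod.intCast_zmod_cast,
        Int.cast_one, _root_.one_mul]
      linear_combination a * hinv

/-- **(I2)** The number of fixed points of `S` on `SL(2,ℤ) ⧸ Γ₀(N)` is `ν₂(N)`. -/
theorem card_fixedBy_S :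
    Nat.card (MulAction.fixedBy (SL(2, ℤ) ⧸ Gamma0 N) ModularGroup.S) = ModularCurve.nuTwo N := by
  rw [ModularCurve.nuTwo]
  exact (Nat.card_eq_of_bijective _ (rootToFixedS_bijective N)).symm

/-- From a root of `x² + x + 1` in `ZMod N` to a fixed point of `S * T`. -/
noncomputable def rootToFixedST (x : {x : ZMod N // x ^ 2 + x + 1 = 0}) :
    MulAction.fixedBy (SL(2, ℤ) ⧸ Gamma0 N) (ModularGroup.S * ModularGroup.T) :=
  ⟨QuotientGroup.mk (colRep (ZMod.cast x.1 : ℤ)), by
    rw [MulAction.mem_fixedBy, ST_smul_mk_eq_mk_iff]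
    simp only [colRep_apply_zero_zero, colRep_apply_one_zero, ZMod.intCast_zmod_cast,
      Int.cast_one, one_pow, _root_.mul_one]
    exact x.2⟩

lemma rootToFixedST_bijective : Function.Bijective (rootToFixedST N) := by
  constructor
  · rintro ⟨x, hx⟩ ⟨y, hy⟩ h
    have h' := congrArg Subtype.val h
    simp only [rootToFixedST] at h'
    rw [mk_eq_mk_iff] at h'
    simp only [colRep_apply_zero_zero, colRep_apply_one_zero, ZMod.intCast_zmod_cast,
      Int.cast_one, _root_.mul_one, _root_.one_mul] at h'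
    exact Subtype.ext (sub_eq_zero.mp h')
  · rintro ⟨q, hq⟩
    obtain ⟨g, rfl⟩ := QuotientGroup.mk_surjective q
    rw [MulAction.mem_fixedBy, ST_smul_mk_eq_mk_iff] at hq
    have hinv := c_mul_inv_eq_one N g (-((g 0 0 : ℤ) : ZMod N) - ((g 1 0 : ℤ) : ZMod N))
      (by linear_combination hq)
    set a : ZMod N := ((g 0 0 : ℤ) : ZMod N) with ha
    set c : ZMod N := ((g 1 0 : ℤ) : ZMod N) with hc
    set i : ZMod N := ((-a - c) * ((g 1 1 : ℤ) : ZMod N) ^ 2
        - 2 * a * ((g 0 1 : ℤ) : ZMod N) * ((g 1 1 : ℤ) : ZMod N)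
        + ((g 0 1 : ℤ) : ZMod N) ^ 2 * c) with hi
    refine ⟨⟨a * i, ?_⟩, ?_⟩
    · linear_combination (i ^ 2) * hq - (c * i + 1 + a * i) * hinv
    · apply Subtype.ext
      simp only [rootToFixedST]
      rw [mk_eq_mk_iff]
      simp only [colRep_apply_zero_zero, colRep_apply_one_zero, ZMod.intCast_zmod_cast,
        Int.cast_one, _root_.one_mul]
      linear_combination a * hinv

/-- **(I3)** The number of fixed points of `S * T` on `SL(2,ℤ) ⧸ Γ₀(N)` is `ν₃(N)`. -/
theorem card_fixedBy_ST :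
    Nat.card (MulAction.fixedBy (SL(2, ℤ) ⧸ Gamma0 N) (ModularGroup.S * ModularGroup.T))
      = ModularCurve.nuThree N := by
  rw [ModularCurve.nuThree]
  exact (Nat.card_eq_of_bijective _ (rootToFixedST_bijective N)).symm

end Fermat.Agent.S20.Comb694

end
-- ===== PACK-END S20/Comb694/Fixed.lean

-- ===== PACK-BEGIN S29/H571/HeckeGalois.lean
section




/-!
# Galois-equivariance of the Prelude Hecke operators on `JZero N`
(helper571, piece GEQ of the S29 route)

* `heckeOperatorAlong_smul` : `T_ℓ (σ • x) = σ • T_ℓ x` on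
  `Pic0 L (laurentBaseChange L (modularFunctionFieldFull N))`, for every field `L ⊇ ℚ`,
  UNCONDITIONALLY (if the Hecke inputs fail the operator is `0`).
* `heckeOperatorBar_smul` : the same for `heckeOperatorBar N ℓ` on `JZero N`.
* `smulCommClass_heckeModuleBar` :
  `letI := heckeModuleBar N; SMulCommClass Gal(ℚ̄/ℚ) HeckeAlg (JZero N)`,
  i.e. the second hypothesis of the frozen statement S37, unconditionally.
-/

set_option autoImplicit false
set_option linter.style.haveILetI false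

noncomputable section

namespace Fermat.Agent.S29.H571

open AlgebraicCurve ModularCurve

section General

variable {L : Type*} [Field L] [Algebra ℚ L]
variable (N ℓ : ℕ) [NeZero N] [NeZero ℓ]

theorem intertwines_heckeAlphaBar (σ : L ≃ₐ[ℚ] L) :
    SemilinearAut.IntertwinesAlong
      ((heckeAlphaBar L N ℓ : laurentBaseChange L (modularFunctionFieldFull N) →ₐ[L]
        laurentBaseChange L (modularFunctionFieldFull (N * ℓ))) : _ →+* _)
      (arithmeticGalois (modularFunctionFieldFull N) σ)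
      (arithmeticGalois (modularFunctionFieldFull (N * ℓ)) σ) := by
  intro x
  apply Subtype.ext
  rw [coe_arithmeticGalois_smul]
  show coeffMap (σ : L →+* L) ((heckeAlphaBar L N ℓ x : _) : LaurentSeries L) = _
  rw [coe_heckeAlphaBar]
  show _ = ((heckeAlphaBar L N ℓ (arithmeticGalois (modularFunctionFieldFull N) σ • x) : _) :
    LaurentSeries L)
  rw [coe_heckeAlphaBar, coe_arithmeticGalois_smul]

omit [NeZero N] in
theorem intertwines_heckeBetaBar (σ : L ≃ₐ[ℚ] L) :
    SemilinearAut.IntertwinesAlong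
      ((heckeBetaBar L N ℓ : laurentBaseChange L (modularFunctionFieldFull N) →ₐ[L]
        laurentBaseChange L (modularFunctionFieldFull (N * ℓ))) : _ →+* _)
      (arithmeticGalois (modularFunctionFieldFull N) σ)
      (arithmeticGalois (modularFunctionFieldFull (N * ℓ)) σ) := by
  intro x
  apply Subtype.ext
  rw [coe_arithmeticGalois_smul]
  show coeffMap (σ : L →+* L) ((heckeBetaBar L N ℓ x : _) : LaurentSeries L) = _
  rw [coe_heckeBetaBar]
  show _ = ((heckeBetaBar L N ℓ (arithmeticGalois (modularFunctionFieldFull N) σ • x) : _) :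
    LaurentSeries L)
  rw [coe_heckeBetaBar, coe_arithmeticGalois_smul, coeffMap_qExpand]

/-- Galois-equivariance of the Prelude Hecke operator `heckeOperatorAlong L N ℓ`. -/
theorem heckeOperatorAlong_smul (σ : L ≃ₐ[ℚ] L)
    (x : Pic0 L (laurentBaseChange L (modularFunctionFieldFull N))) :
    heckeOperatorAlong L N ℓ (σ • x) = σ • heckeOperatorAlong L N ℓ x := by
  by_cases h : HeckeInputsAlong L N ℓ
  · obtain ⟨hα, hβ, hP, hfin, hFI, hN⟩ := h
    rw [heckeOperatorAlong_eq hα hβ hFI hfin hN, galois_smul_pic0_def, galois_smul_pic0_def]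
    exact pic0_correspondence_smul (heckeBetaBar L N ℓ) (heckeAlphaBar L N ℓ) hβ hα hFI hfin hN
      (intertwines_heckeBetaBar N ℓ σ) (intertwines_heckeAlphaBar N ℓ σ) x
  · rw [heckeOperatorAlong_of_not h]
    simp

end General

section Bar

variable (N : ℕ) [NeZero N]

/-- Galois-equivariance of `heckeOperatorBar N ℓ` on `JZero N`. -/
theorem heckeOperatorBar_smul (ℓ : Nat.Primes)
    (σ : AlgebraicClosure ℚ ≃ₐ[ℚ] AlgebraicClosure ℚ) (x : JZero N) :
    heckeOperatorBar N ℓ (σ • x) = σ • heckeOperatorBar N ℓ x := by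
  haveI : NeZero (ℓ : ℕ) := ⟨ℓ.2.ne_zero⟩
  rw [heckeOperatorBar_apply, heckeOperatorBar_apply]
  exact heckeOperatorAlong_smul N (ℓ : ℕ) σ x

/-- Every element of the Hecke algebra acts Galois-equivariantly (commuting case). -/
theorem heckeEvalBar_smul (h : HeckeOperatorsCommuteBar N) (t : HeckeAlg)
    (σ : AlgebraicClosure ℚ ≃ₐ[ℚ] AlgebraicClosure ℚ) (x : JZero N) :
    heckeEvalBar h t (σ • x) = σ • heckeEvalBar h t x := by
  induction t using MvPolynomial.induction_on generalizing x with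
  | C a =>
    rw [heckeEvalBar_C, Module.End.intCast_apply, Module.End.intCast_apply, smul_comm]
  | add p q hp hq =>
    rw [map_add, LinearMap.add_apply, LinearMap.add_apply, hp, hq, smul_add]
  | mul_X p ℓ hp =>
    rw [map_mul, Module.End.mul_apply, Module.End.mul_apply,
      show (MvPolynomial.X ℓ : HeckeAlg) = heckeGen ℓ from rfl, heckeEvalBar_heckeGen,
      heckeOperatorBar_smul, hp]

/-- The Galois action on `JZero N` commutes with the `HeckeAlg`-module structure
`heckeModuleBar N`, unconditionally.  This is exactly the `SMulCommClass` hypothesis of the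
frozen statement S37. -/
theorem smulCommClass_heckeModuleBar :
    letI := heckeModuleBar N
    SMulCommClass (AlgebraicClosure ℚ ≃ₐ[ℚ] AlgebraicClosure ℚ) HeckeAlg (JZero N) := by
  letI := heckeModuleBar N
  refine ⟨fun σ t x => ?_⟩
  by_cases h : HeckeOperatorsCommuteBar N
  · rw [heckeModuleBar_smul_def h, heckeModuleBar_smul_def h, heckeEvalBar_smul]
  · rw [heckeModuleBar_smul_of_not h, heckeModuleBar_smul_of_not h]
    exact (smul_comm _ σ x).symm

end Bar

end Fermat.Agent.S29.H571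


end
end
-- ===== PACK-END S29/H571/HeckeGalois.lean

-- ===== PACK-BEGIN S28/H88/Theta.lean
section
/-
S28 (Igusa) -- helper88: the derivation `θ = q d/dq` on formal Laurent series
(toolkit for the prime-level step [L2]: `j(q^p) ∉ k(j)`).
-/


set_option autoImplicit false

noncomputable section

open ModularCurve HahnSeries

namespace Fermat.Agent.S28

section ThetaBasic

variable {R : Type*} [CommRing R]

theorem h88_thetaL_add (f g : LaurentSeries R) :
    thetaL R (f + g) = thetaL R f + thetaL R g := by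
  ext n; simp [mul_add]

theorem h88_thetaL_zero : thetaL R (0 : LaurentSeries R) = 0 := by
  ext n; simp

theorem h88_thetaL_neg (f : LaurentSeries R) : thetaL R (-f) = - thetaL R f := by
  ext n; simp

theorem h88_thetaL_sub (f g : LaurentSeries R) :
    thetaL R (f - g) = thetaL R f - thetaL R g := by
  ext n; simp [mul_sub]

theorem h88_thetaL_support_subset (f : LaurentSeries R) :
    (thetaL R f).support ⊆ f.support := by
  intro n hn
  simp only [HahnSeries.mem_support, thetaL_coeff, ne_eq] at hn ⊢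
  intro h; exact hn (by rw [h, mul_zero])

/-- Leibniz rule. -/
theorem h88_thetaL_mul (f g : LaurentSeries R) :
    thetaL R (f * g) = thetaL R f * g + f * thetaL R g := by
  ext n
  rw [HahnSeries.coeff_add, thetaL_coeff, HahnSeries.coeff_mul,
    HahnSeries.coeff_mul_left' f.isPWO_support (h88_thetaL_support_subset f),
    HahnSeries.coeff_mul_right' g.isPWO_support (h88_thetaL_support_subset g),
    Finset.mul_sum, ← Finset.sum_add_distrib]
  refine Finset.sum_congr rfl fun ij hij => ?_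
  rw [Finset.mem_antidiagonal] at hij
  obtain ⟨-, -, h⟩ := hij
  simp only [thetaL_coeff]
  rw [← h]; push_cast; ring

theorem h88_thetaL_single_zero (c : R) : thetaL R (HahnSeries.single (0 : ℤ) c) = 0 := by
  ext n
  rw [thetaL_coeff, HahnSeries.coeff_zero]
  rcases eq_or_ne n 0 with rfl | hn
  · simp
  · rw [HahnSeries.coeff_single_of_ne hn, mul_zero]

theorem h88_thetaL_C (c : R) : thetaL R (HahnSeries.C c : LaurentSeries R) = 0 :=
  h88_thetaL_single_zero c

theorem h88_thetaL_one : thetaL R (1 : LaurentSeries R) = 0 :=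
  h88_thetaL_single_zero 1

theorem h88_thetaL_pow (f : LaurentSeries R) (n : ℕ) :
    thetaL R (f ^ (n + 1)) = ((n + 1 : ℕ) : LaurentSeries R) * f ^ n * thetaL R f := by
  induction n with
  | zero => simp
  | succ n ih =>
    rw [pow_succ, h88_thetaL_mul, ih]
    push_cast
    ring

/-- `θ` commutes with `q ↦ q^p` up to the factor `p`. -/
theorem h88_thetaL_qExpand (p : ℕ) [NeZero p] (f : LaurentSeries R) :
    thetaL R (qExpand R p f) = (p : LaurentSeries R) * qExpand R p (thetaL R f) := by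
  rw [← nsmul_eq_mul]
  ext n
  rw [thetaL_coeff, HahnSeries.coeff_smul]
  by_cases hn : (p : ℤ) ∣ n
  · obtain ⟨m, rfl⟩ := hn
    rw [qExpand_coeff_mul, qExpand_coeff_mul, thetaL_coeff, nsmul_eq_mul]
    push_cast; ring
  · rw [qExpand_coeff_of_not_dvd p _ hn, qExpand_coeff_of_not_dvd p _ hn, mul_zero, smul_zero]

end ThetaBasic

section CoeffMapCompat

variable {R S : Type*} [CommRing R] [CommRing S]

theorem h88_coeffMap_thetaL (f : R →+* S) (x : LaurentSeries R) :
    coeffMap f (thetaL R x) = thetaL S (coeffMap f x) := by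
  ext n
  simp [coeffMap_coeff]

theorem h88_map_map_intCast (f : R →+* S) (P : PowerSeries ℤ) :
    (P.map (Int.castRingHom R)).map f = P.map (Int.castRingHom S) := by
  rw [← RingHom.comp_apply (PowerSeries.map f) (PowerSeries.map (Int.castRingHom R)),
    ← PowerSeries.map_comp, RingHom.ext_int (f.comp (Int.castRingHom R)) (Int.castRingHom S)]

theorem h88_coeffMap_deltaL (f : R →+* S) : coeffMap f (deltaL R) = deltaL S := by
  rw [deltaL, map_mul, coeffMap_single, map_one, coeffMap_ofPowerSeries, h88_map_map_intCast]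
  rfl

theorem h88_coeffMap_deltaInvL (f : R →+* S) : coeffMap f (deltaInvL R) = deltaInvL S := by
  rw [deltaInvL, map_mul, coeffMap_single, map_one, coeffMap_ofPowerSeries, h88_map_map_intCast]
  rfl

theorem h88_coeffMap_unitL (f : R →+* S) (p : ℕ) [NeZero p] :
    coeffMap f (unitL R p) = unitL S p := by
  rw [unitL, map_mul, coeffMap_qExpand, h88_coeffMap_deltaL, h88_coeffMap_deltaInvL]
  rfl

variable (R) in
theorem h88_deltaL_mul_deltaInvL : deltaL R * deltaInvL R = 1 := by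
  rw [deltaL, deltaInvL, mul_mul_mul_comm, HahnSeries.single_mul_single, ← map_mul,
    ← map_mul, dedekindEtaUnit_mul_inv]
  simp

end CoeffMapCompat

end Fermat.Agent.S28

end

end
-- ===== PACK-END S28/H88/Theta.lean

-- ===== PACK-BEGIN S28/H88/PrimeLevel.lean
section
/-
S28 (Igusa) -- helper88: prime-level step [L2]: `j(q^p) ∉ k(j)` for `(p : k) ≠ 0`.
Inputs (explicit hypotheses): the unit polynomial `UnitPolyData p` and the θ-identity
`(θ j)^6 = Δ j^4 (j - 1728)^3` over `ℤ`.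
-/


set_option autoImplicit false

noncomputable section

open ModularCurve HahnSeries

namespace Fermat.Agent.S28

section KeyOrder

variable (k : Type*) [Field k]

/-- The coefficient of `q^{-deg P}` in `P(j)` is the leading coefficient of `P`. -/
theorem h88_coeff_aeval_jqModC (P : Polynomial k) :
    (Polynomial.aeval (jqModC k) P).coeff (-(P.natDegree : ℤ)) = P.leadingCoeff := by
  rw [Polynomial.aeval_eq_sum_range, HahnSeries.coeff_sum,
    Finset.sum_eq_single_of_mem P.natDegree (Finset.self_mem_range_succ _)]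
  · rw [Algebra.smul_def, algebraMap_laurentSeries_eq_single, HahnSeries.coeff_single_zero_mul,
      coeff_jqModC_pow_self, mul_one]; rfl
  · intro i hi hne
    have hlt : i < P.natDegree :=
      lt_of_le_of_ne (Nat.lt_succ_iff.mp (Finset.mem_range.mp hi)) hne
    rw [Algebra.smul_def, algebraMap_laurentSeries_eq_single, HahnSeries.coeff_single_zero_mul,
      coeff_jqModC_pow_of_lt k (by omega), mul_zero]

theorem h88_aeval_jqModC_injective :
    Function.Injective (Polynomial.aeval (jqModC k) : Polynomial k →ₐ[k] LaurentSeries k) := by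
  rw [injective_iff_map_eq_zero]
  intro P hP
  have h := h88_coeff_aeval_jqModC k P
  rw [hP, HahnSeries.coeff_zero] at h
  exact Polynomial.leadingCoeff_eq_zero.mp h.symm

theorem h88_order_aeval_jqModC_le {P : Polynomial k} (hP : P ≠ 0) :
    (Polynomial.aeval (jqModC k) P).order ≤ 0 := by
  have h : (Polynomial.aeval (jqModC k) P).coeff (-(P.natDegree : ℤ)) ≠ 0 := by
    rw [h88_coeff_aeval_jqModC]
    exact Polynomial.leadingCoeff_ne_zero.mpr hP
  have := HahnSeries.order_le_of_coeff_ne_zero h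
  omega

theorem h88_jqModC_mem_jField : jqModC k ∈ jField k :=
  IntermediateField.subset_adjoin k _ (Set.mem_singleton _)

/-- Chain rule: `θ` maps `k(j)` into `k(j) · θ j`. -/
theorem h88_chain_rule {x : LaurentSeries k} (hx : x ∈ jField k) :
    ∃ c ∈ jField k, thetaL k x = c * thetaL k (jqModC k) := by
  unfold jField at hx
  induction hx using IntermediateField.adjoin_induction with
  | mem x hx =>
    rw [Set.mem_singleton_iff] at hx; subst hx
    exact ⟨1, one_mem _, (one_mul _).symm⟩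
  | algebraMap c =>
    refine ⟨0, zero_mem _, ?_⟩
    rw [zero_mul, algebraMap_laurentSeries_eq_single]
    exact h88_thetaL_single_zero c
  | add x y hx hy ihx ihy =>
    obtain ⟨a, ha, hxa⟩ := ihx
    obtain ⟨b, hb, hyb⟩ := ihy
    exact ⟨a + b, add_mem ha hb, by rw [h88_thetaL_add, hxa, hyb, add_mul]⟩
  | inv x hx ih =>
    obtain ⟨a, ha, hxa⟩ := ih
    refine ⟨-a * x⁻¹ * x⁻¹, mul_mem (mul_mem (neg_mem ha) (inv_mem hx)) (inv_mem hx), ?_⟩
    by_cases hx0 : x = 0
    · subst hx0; simp [h88_thetaL_zero]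
    · have h1 : thetaL k (x * x⁻¹) = 0 := by
        rw [mul_inv_cancel₀ hx0]; exact h88_thetaL_one
      rw [h88_thetaL_mul, hxa] at h1
      have h2 : x * thetaL k x⁻¹ = -(a * thetaL k (jqModC k) * x⁻¹) :=
        eq_neg_of_add_eq_zero_right h1
      have h3 : thetaL k x⁻¹ = x⁻¹ * (x * thetaL k x⁻¹) := by
        rw [← mul_assoc, inv_mul_cancel₀ hx0, one_mul]
      rw [h3, h2]; ring
  | mul x y hx hy ihx ihy =>
    obtain ⟨a, ha, hxa⟩ := ihx
    obtain ⟨b, hb, hyb⟩ := ihy
    exact ⟨a * y + x * b, add_mem (mul_mem ha hy) (mul_mem hx hb), by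
      rw [h88_thetaL_mul, hxa, hyb]; ring⟩

end KeyOrder

section DeltaCoeff

variable (R : Type*) [CommRing R]

theorem h88_deltaL_coeff_of_le {m : ℤ} (hm : m ≤ 0) : (deltaL R).coeff m = 0 := by
  rw [deltaL, HahnSeries.coeff_single_mul, ofPowerSeries_coeff_of_neg _ (by omega), mul_zero]

theorem h88_deltaL_coeff_one : (deltaL R).coeff 1 = 1 := by
  rw [deltaL, HahnSeries.coeff_single_mul, sub_self, one_mul]
  have h := HahnSeries.ofPowerSeries_apply_coeff (Γ := ℤ)
    (dedekindEtaUnit.map (Int.castRingHom R)) 0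
  rw [Nat.cast_zero] at h
  rw [h, PowerSeries.coeff_map, PowerSeries.coeff_zero_eq_constantCoeff,
    constantCoeff_dedekindEtaUnit]
  simp

theorem h88_qExpand_deltaL_coeff_of_lt (p : ℕ) [NeZero p] {n : ℤ} (hn : n < p) :
    (qExpand R p (deltaL R)).coeff n = 0 := by
  by_cases hdvd : (p : ℤ) ∣ n
  · obtain ⟨m, rfl⟩ := hdvd
    rw [qExpand_coeff_mul]
    apply h88_deltaL_coeff_of_le
    by_contra hm
    rw [not_le] at hm
    have hp : (0 : ℤ) < p := by exact_mod_cast Nat.pos_of_ne_zero (NeZero.ne p)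
    nlinarith
  · exact qExpand_coeff_of_not_dvd p _ hdvd

end DeltaCoeff

section Transport

variable (k : Type*) [Field k]

theorem h88_coeffMap_comp_evalAt :
    (coeffMap (Int.castRingHom k)).comp (evalAt (jqModC ℤ)) = evalAt (jqModC k) := by
  apply Polynomial.ringHom_ext
  · intro a
    simp [evalAt]
  · simp [evalAt, coeffMap_jqModC]

/-- The θ-identity over `k`, transported from `ℤ`. -/
theorem h88_theta_identity_field
    (hθ : (thetaL ℤ (jqModC ℤ)) ^ 6 = deltaL ℤ * (jqModC ℤ) ^ 4 * (jqModC ℤ - 1728) ^ 3) :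
    (thetaL k (jqModC k)) ^ 6 = deltaL k * (jqModC k) ^ 4 * (jqModC k - 1728) ^ 3 := by
  have h := congrArg (coeffMap (Int.castRingHom k)) hθ
  simpa only [map_pow, map_mul, map_sub, h88_coeffMap_thetaL, coeffMap_jqModC,
    h88_coeffMap_deltaL, map_ofNat] using h

/-- The unit polynomial relation over `k`, transported from `ℤ`. -/
theorem h88_unitPoly_field (p : ℕ) [NeZero p] (W : UnitPolyData p) :
    W.W.eval₂ (evalAt (jqModC k)) ((p : LaurentSeries k) ^ 12 * unitL k p) = 0 := by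
  have h := congrArg (coeffMap (Int.castRingHom k)) W.eval_unit
  rw [Polynomial.hom_eval₂, map_zero, map_mul, map_pow, map_natCast, h88_coeffMap_unitL,
    h88_coeffMap_comp_evalAt] at h
  exact h

end Transport

section RatFuncEmbedding

variable (k : Type*) [Field k]

/-- The embedding `k(X) → k((q))`, `X ↦ j`. -/
def h88_iota : RatFunc k →ₐ[k] LaurentSeries k :=
  RatFunc.liftAlgHom (Polynomial.aeval (jqModC k))
    (nonZeroDivisors_le_comap_nonZeroDivisors_of_injective _ (h88_aeval_jqModC_injective k))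

theorem h88_iota_injective : Function.Injective (h88_iota k) :=
  RatFunc.liftAlgHom_injective _ (h88_aeval_jqModC_injective k)

theorem h88_iota_algebraMap (P : Polynomial k) :
    h88_iota k (algebraMap (Polynomial k) (RatFunc k) P) = Polynomial.aeval (jqModC k) P := by
  have h := RatFunc.liftAlgHom_apply_div (Polynomial.aeval (jqModC k))
    (nonZeroDivisors_le_comap_nonZeroDivisors_of_injective _ (h88_aeval_jqModC_injective k)) P 1
  simpa [h88_iota] using h

theorem h88_jField_le_range : jField k ≤ (h88_iota k).fieldRange := by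
  unfold jField
  rw [IntermediateField.adjoin_le_iff]
  intro x hx
  rw [Set.mem_singleton_iff] at hx
  subst hx
  exact ⟨algebraMap (Polynomial k) (RatFunc k) Polynomial.X,
    (h88_iota_algebraMap k Polynomial.X).trans (Polynomial.aeval_X _)⟩

/-- An element of `k(j)` which is a root of a monic polynomial with coefficients in the
image of `ℤ[j]` is a polynomial in `j`. -/
theorem h88_exists_poly_of_integral {w : LaurentSeries k} (hw : w ∈ jField k)
    (W : Polynomial (Polynomial ℤ)) (hW : W.Monic)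
    (hroot : W.eval₂ (evalAt (jqModC k)) w = 0) :
    ∃ P : Polynomial k, w = Polynomial.aeval (jqModC k) P := by
  obtain ⟨r, hr⟩ := h88_jField_le_range k hw
  let ψ : Polynomial ℤ →+* Polynomial k := Polynomial.mapRingHom (Int.castRingHom k)
  have hcomp : ((h88_iota k).toRingHom.comp (algebraMap (Polynomial k) (RatFunc k))).comp ψ
      = evalAt (jqModC k) := by
    apply Polynomial.ringHom_ext
    · intro a
      simp [ψ, evalAt]
    · show h88_iota k (algebraMap (Polynomial k) (RatFunc k)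
          (Polynomial.map (Int.castRingHom k) Polynomial.X))
        = Polynomial.aeval (jqModC k) Polynomial.X
      rw [Polynomial.map_X, h88_iota_algebraMap, Polynomial.aeval_X]
      exact (Polynomial.aeval_X (R := ℤ) (jqModC k)).symm
  have hint : IsIntegral (Polynomial k) r := by
    refine ⟨W.map ψ, hW.map ψ, ?_⟩
    apply h88_iota_injective k
    rw [map_zero, Polynomial.eval₂_map]
    have h2 := Polynomial.hom_eval₂ W ((algebraMap (Polynomial k) (RatFunc k)).comp ψ)
      (h88_iota k).toRingHom r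
    rw [← RingHom.comp_assoc, hcomp, hr, hroot] at h2
    exact h2
  obtain ⟨P, hP⟩ := IsIntegrallyClosed.isIntegral_iff.mp hint
  refine ⟨P, ?_⟩
  rw [← h88_iota_algebraMap, hP]
  exact hr.symm

end RatFuncEmbedding

section Main

variable (k : Type*) [Field k]

theorem h88_natCast_mem_jField (n : ℕ) : (n : LaurentSeries k) ∈ jField k :=
  natCast_mem _ n

theorem h88_natCast_ne_zero {p : ℕ} (hpk : (p : k) ≠ 0) : (p : LaurentSeries k) ≠ 0 := by
  have h : (p : LaurentSeries k) = algebraMap k (LaurentSeries k) (p : k) :=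
    (map_natCast _ p).symm
  rw [h]
  exact (map_ne_zero (algebraMap k (LaurentSeries k))).mpr hpk

theorem h88_deltaL_ne_zero : deltaL k ≠ 0 := by
  intro h
  have := h88_deltaL_coeff_one k
  rw [h, HahnSeries.coeff_zero] at this
  exact zero_ne_one this

theorem h88_qExpand_jqModC_coeff (p : ℕ) [NeZero p] :
    (qExpand k p (jqModC k)).coeff (-(p : ℤ)) = 1 := by
  have h := qExpand_coeff_mul (R := k) p (jqModC k) (-1)
  rw [coeff_jqModC_neg_one] at h
  rw [← h]
  congr 1
  ring

/-- **[L2]** For `(p : k) ≠ 0`, `p > 1`: `j(q^p) ∉ k(j)`. -/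
theorem h88_jp_not_mem_jField (p : ℕ) [NeZero p] (hpk : (p : k) ≠ 0) (hp1 : 1 < p)
    (W : UnitPolyData p)
    (hθ : (thetaL ℤ (jqModC ℤ)) ^ 6 = deltaL ℤ * (jqModC ℤ) ^ 4 * (jqModC ℤ - 1728) ^ 3) :
    qExpand k p (jqModC k) ∉ jField k := by
  intro hmem
  have hθk := h88_theta_identity_field k hθ
  have hjmem := h88_jqModC_mem_jField k
  have hp0 : (p : LaurentSeries k) ≠ 0 := h88_natCast_ne_zero k hpk
  have hpmem : (p : LaurentSeries k) ∈ jField k := h88_natCast_mem_jField k p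
  have h1728 : (1728 : LaurentSeries k) ∈ jField k := by
    have := h88_natCast_mem_jField k 1728
    rwa [Nat.cast_ofNat] at this
  have hd := h88_deltaL_mul_deltaInvL k
  obtain ⟨c, hc, hcj⟩ := h88_chain_rule k hmem
  have h1 : thetaL k (qExpand k p (jqModC k))
      = (p : LaurentSeries k) * qExpand k p (thetaL k (jqModC k)) :=
    h88_thetaL_qExpand p (jqModC k)
  have hVθ : (qExpand k p (thetaL k (jqModC k))) ^ 6
      = qExpand k p (deltaL k) * (qExpand k p (jqModC k)) ^ 4
        * (qExpand k p (jqModC k) - 1728) ^ 3 := by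
    have h := congrArg (qExpand k p) hθk
    simpa only [map_pow, map_mul, map_sub, map_ofNat] using h
  have h2 : (p : LaurentSeries k) ^ 6 * (qExpand k p (deltaL k) * (qExpand k p (jqModC k)) ^ 4
        * (qExpand k p (jqModC k) - 1728) ^ 3)
      = c ^ 6 * (deltaL k * (jqModC k) ^ 4 * (jqModC k - 1728) ^ 3) := by
    rw [← hVθ, ← hθk, ← mul_pow, ← mul_pow, ← h1, hcj]
  have h3 : (p : LaurentSeries k) ^ 6 * unitL k p * ((qExpand k p (jqModC k)) ^ 4
        * (qExpand k p (jqModC k) - 1728) ^ 3)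
      = c ^ 6 * ((jqModC k) ^ 4 * (jqModC k - 1728) ^ 3) := by
    have h : (p : LaurentSeries k) ^ 6 * (qExpand k p (deltaL k) * (qExpand k p (jqModC k)) ^ 4
              * (qExpand k p (jqModC k) - 1728) ^ 3) * deltaInvL k
        = c ^ 6 * (deltaL k * (jqModC k) ^ 4 * (jqModC k - 1728) ^ 3) * deltaInvL k := by
      rw [h2]
    unfold unitL
    calc _ = (p : LaurentSeries k) ^ 6 * (qExpand k p (deltaL k) * (qExpand k p (jqModC k)) ^ 4
              * (qExpand k p (jqModC k) - 1728) ^ 3) * deltaInvL k := by ring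
      _ = c ^ 6 * (deltaL k * (jqModC k) ^ 4 * (jqModC k - 1728) ^ 3) * deltaInvL k := h
      _ = c ^ 6 * ((jqModC k) ^ 4 * (jqModC k - 1728) ^ 3) * (deltaL k * deltaInvL k) := by ring
      _ = _ := by rw [hd, mul_one]
  have hp_neg : (-(p : ℤ)) ≠ 0 := by
    have : (0 : ℤ) < p := by exact_mod_cast Nat.pos_of_ne_zero (NeZero.ne p)
    omega
  have hVj : qExpand k p (jqModC k) ≠ 0 := by
    intro h
    have := h88_qExpand_jqModC_coeff k p
    rw [h, HahnSeries.coeff_zero] at this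
    exact zero_ne_one this
  have hVj' : qExpand k p (jqModC k) - 1728 ≠ 0 := by
    intro h
    have h4 := h88_qExpand_jqModC_coeff k p
    have h5 : qExpand k p (jqModC k) = ((1728 : ℕ) : LaurentSeries k) := by
      rw [Nat.cast_ofNat]; exact sub_eq_zero.mp h
    have h6 : ((1728 : ℕ) : LaurentSeries k) = HahnSeries.single 0 ((1728 : ℕ) : k) := by
      rw [← algebraMap_laurentSeries_eq_single, map_natCast]
    rw [h5, h6, HahnSeries.coeff_single_of_ne hp_neg] at h4
    exact zero_ne_one h4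
  have hden : (p : LaurentSeries k) ^ 6 * ((qExpand k p (jqModC k)) ^ 4
        * (qExpand k p (jqModC k) - 1728) ^ 3) ≠ 0 :=
    mul_ne_zero (pow_ne_zero _ hp0) (mul_ne_zero (pow_ne_zero _ hVj) (pow_ne_zero _ hVj'))
  have hu : unitL k p ∈ jField k := by
    have h : unitL k p = c ^ 6 * ((jqModC k) ^ 4 * (jqModC k - 1728) ^ 3)
        * ((p : LaurentSeries k) ^ 6 * ((qExpand k p (jqModC k)) ^ 4
          * (qExpand k p (jqModC k) - 1728) ^ 3))⁻¹ := by
      rw [eq_mul_inv_iff_mul_eq₀ hden, ← h3]; ring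
    rw [h]
    exact mul_mem (mul_mem (pow_mem hc 6)
      (mul_mem (pow_mem hjmem 4) (pow_mem (sub_mem hjmem h1728) 3)))
      (inv_mem (mul_mem (pow_mem hpmem 6)
        (mul_mem (pow_mem hmem 4) (pow_mem (sub_mem hmem h1728) 3))))
  have hw : (p : LaurentSeries k) ^ 12 * unitL k p ∈ jField k :=
    mul_mem (pow_mem hpmem 12) hu
  obtain ⟨P, hP⟩ := h88_exists_poly_of_integral k hw W.W W.monic (h88_unitPoly_field k p W)
  -- order contradiction
  have hwΔ : Polynomial.aeval (jqModC k) P * deltaL k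
      = (p : LaurentSeries k) ^ 12 * qExpand k p (deltaL k) := by
    rw [← hP]
    unfold unitL
    calc _ = (p : LaurentSeries k) ^ 12 * qExpand k p (deltaL k) * (deltaL k * deltaInvL k) := by
          ring
      _ = _ := by rw [hd, mul_one]
  have hVΔ : qExpand k p (deltaL k) ≠ 0 := fun h =>
    h88_deltaL_ne_zero k (qExpand_injective p (by rw [h, map_zero]))
  have hrhs : (p : LaurentSeries k) ^ 12 * qExpand k p (deltaL k) ≠ 0 :=
    mul_ne_zero (pow_ne_zero _ hp0) hVΔ
  have hP0 : P ≠ 0 := by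
    intro h
    rw [h, map_zero, zero_mul] at hwΔ
    exact hrhs hwΔ.symm
  have hPj : Polynomial.aeval (jqModC k) P ≠ 0 := fun h =>
    hP0 (h88_aeval_jqModC_injective k (by rw [h, map_zero]))
  have hord : (Polynomial.aeval (jqModC k) P * deltaL k).order ≤ 1 := by
    rw [HahnSeries.order_mul hPj (h88_deltaL_ne_zero k)]
    have ha := h88_order_aeval_jqModC_le k hP0
    have hb : (deltaL k).order ≤ 1 := HahnSeries.order_le_of_coeff_ne_zero (by
      rw [h88_deltaL_coeff_one]; exact one_ne_zero)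
    omega
  have hne : (Polynomial.aeval (jqModC k) P * deltaL k).coeff
      (Polynomial.aeval (jqModC k) P * deltaL k).order ≠ 0 := by
    rw [Ne, HahnSeries.coeff_order_eq_zero]
    exact mul_ne_zero hPj (h88_deltaL_ne_zero k)
  have hlt : (Polynomial.aeval (jqModC k) P * deltaL k).order < (p : ℤ) := by
    have : (1 : ℤ) < p := by exact_mod_cast hp1
    omega
  have hzero : ∀ n : ℤ, n < p →
      ((p : LaurentSeries k) ^ 12 * qExpand k p (deltaL k)).coeff n = 0 := by
    intro n hn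
    rw [← Nat.cast_pow, ← nsmul_eq_mul, HahnSeries.coeff_smul,
      h88_qExpand_deltaL_coeff_of_lt k p hn, smul_zero]
  rw [hwΔ] at hne hlt
  exact hne (hzero _ hlt)

end Main

end Fermat.Agent.S28

end

end
-- ===== PACK-END S28/H88/PrimeLevel.lean

-- ===== PACK-BEGIN S28/H626/RootList.lean
section
/-
S28 helper (helper626): the family `j(ξ tⁿ)` and the root list of the modular polynomial
`Φ_p(j(η t^{np}), X)`.
-/




set_option autoImplicit false

noncomputable section

open ModularCurve HahnSeries Polynomial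

namespace Fermat.Agent.S28.H626

/-! ### Two-variable evaluation -/

section Ev2

variable {A B : Type*} [CommRing A] [CommRing B]

/-- Evaluation of `Φ ∈ ℤ[Y][X]` at `Y = y`, `X = x`. -/
def ev2 (Φ : Polynomial (Polynomial ℤ)) (y x : A) : A :=
  Φ.eval₂ (Polynomial.aeval (R := ℤ) y).toRingHom x

/-- The one-variable polynomial `Φ(y, X)`. -/
def spec (Φ : Polynomial (Polynomial ℤ)) (y : A) : Polynomial A :=
  Φ.map (Polynomial.aeval (R := ℤ) y).toRingHom

theorem eval_spec (Φ : Polynomial (Polynomial ℤ)) (y x : A) :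
    (spec Φ y).eval x = ev2 Φ y x := by
  rw [spec, ev2, Polynomial.eval_map]

theorem comp_aeval_toRingHom (φ : A →+* B) (y : A) :
    φ.comp (Polynomial.aeval (R := ℤ) y).toRingHom =
      (Polynomial.aeval (R := ℤ) (φ y)).toRingHom := by
  apply Polynomial.ringHom_ext
  · intro a
    simp
  · simp

theorem map_ev2 (φ : A →+* B) (Φ : Polynomial (Polynomial ℤ)) (y x : A) :
    φ (ev2 Φ y x) = ev2 Φ (φ y) (φ x) := by
  rw [ev2, ev2, Polynomial.hom_eval₂, comp_aeval_toRingHom]

theorem map_spec (φ : A →+* B) (Φ : Polynomial (Polynomial ℤ)) (y : A) :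
    (spec Φ y).map φ = spec Φ (φ y) := by
  rw [spec, spec, Polynomial.map_map, comp_aeval_toRingHom]

theorem spec_monic {Φ : Polynomial (Polynomial ℤ)} (h : Φ.Monic) (y : A) : (spec Φ y).Monic :=
  h.map _

theorem spec_natDegree [Nontrivial A] {Φ : Polynomial (Polynomial ℤ)} (h : Φ.Monic) (y : A) :
    (spec Φ y).natDegree = Φ.natDegree :=
  h.natDegree_map _

end Ev2

/-- The (explicit-hypothesis form of the) prime-level analytic input: `Φ ∈ ℤ[Y][X]` is monic of
degree `p + 1` in `X` and `Φ(j, j_p) = 0`, `Φ(j_p, j) = 0` in `ℤ((q))`. -/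
structure IsModPoly (p : ℕ) [NeZero p] (Φ : Polynomial (Polynomial ℤ)) : Prop where
  monic : Φ.Monic
  natDegree_eq : Φ.natDegree = p + 1
  eval_jp : ev2 Φ (jqModC ℤ) (qExpand ℤ p (jqModC ℤ)) = 0
  eval_j : ev2 Φ (qExpand ℤ p (jqModC ℤ)) (jqModC ℤ) = 0

/-! ### The family `j(ξ tⁿ)` -/

section JTw

variable (Ω : Type*) [CommRing Ω]

/-- `j(ξ tⁿ)` as a Laurent series in `t`. -/
def jTw (ξ : Ωˣ) (n : ℕ) [NeZero n] : LaurentSeries Ω :=
  qExpand Ω n (_root_.Fermat.Agent.S28.H626.twist ξ (jqModC Ω))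

theorem jTw_one (n : ℕ) [NeZero n] : jTw Ω 1 n = qExpand Ω n (jqModC Ω) := by
  rw [jTw, twist_one_apply]

theorem jTw_coeff_neg (ξ : Ωˣ) (n : ℕ) [NeZero n] :
    (jTw Ω ξ n).coeff (-(n : ℤ)) = ((ξ⁻¹ : Ωˣ) : Ω) := by
  have h : (-(n : ℤ)) = (n : ℤ) * (-1) := by ring
  rw [jTw, h, qExpand_coeff_mul, _root_.Fermat.Agent.S28.H626.twist_coeff, coeff_jqModC_neg_one, mul_one, zpow_neg_one]

theorem jTw_coeff_of_lt (ξ : Ωˣ) (n : ℕ) [NeZero n] {k : ℤ} (hk : k < -(n : ℤ)) :
    (jTw Ω ξ n).coeff k = 0 := by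
  by_cases hn : (n : ℤ) ∣ k
  · obtain ⟨m, rfl⟩ := hn
    have hn0 : (0 : ℤ) < n := by exact_mod_cast Nat.pos_of_ne_zero (NeZero.ne n)
    have hm : m < -1 := by
      by_contra hm
      have hm' := not_lt.mp hm
      nlinarith
    rw [jTw, qExpand_coeff_mul, _root_.Fermat.Agent.S28.H626.twist_coeff, coeff_jqModC_of_lt Ω hm, mul_zero]
  · rw [jTw, qExpand_coeff_of_not_dvd _ _ hn]

variable {Ω}

theorem jTw_inj [Nontrivial Ω] {ξ ξ' : Ωˣ} {n n' : ℕ} [NeZero n] [NeZero n']
    (h : jTw Ω ξ n = jTw Ω ξ' n') : n = n' ∧ ξ = ξ' := by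
  have key : ∀ (ξ ξ' : Ωˣ) (n n' : ℕ) [NeZero n] [NeZero n'],
      jTw Ω ξ n = jTw Ω ξ' n' → ¬ n < n' := by
    intro ξ ξ' n n' _ _ h hlt
    have h1 := jTw_coeff_neg Ω ξ' n'
    rw [← h, jTw_coeff_of_lt Ω ξ n (by exact_mod_cast (neg_lt_neg (Nat.cast_lt.mpr hlt) :
      (-(n' : ℤ)) < -(n : ℤ)))] at h1
    exact (Units.ne_zero _) h1.symm
  have hn : n = n' := le_antisymm (not_lt.mp (key ξ' ξ n' n h.symm)) (not_lt.mp (key ξ ξ' n n' h))
  subst hn
  refine ⟨rfl, ?_⟩
  have h1 := jTw_coeff_neg Ω ξ n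
  rw [h, jTw_coeff_neg] at h1
  exact inv_injective (Units.ext h1).symm

theorem jTw_ne_of_ne [Nontrivial Ω] {ξ ξ' : Ωˣ} {n n' : ℕ} [NeZero n] [NeZero n']
    (h : n ≠ n') : jTw Ω ξ n ≠ jTw Ω ξ' n' := fun he => h (jTw_inj he).1

end JTw

/-! ### Root relations -/

section Roots

variable (Ω : Type*) [CommRing Ω]

/-- the ring hom `ℤ((q)) → Ω((t))`, `q ↦ ξ tⁿ`. -/
def substHom (ξ : Ωˣ) (n : ℕ) [NeZero n] : LaurentSeries ℤ →+* LaurentSeries Ω :=
  (qExpand Ω n).comp ((_root_.Fermat.Agent.S28.H626.twist ξ).comp (coeffMap (Int.castRingHom Ω)))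

theorem substHom_j (ξ : Ωˣ) (n : ℕ) [NeZero n] :
    substHom Ω ξ n (jqModC ℤ) = jTw Ω ξ n := by
  simp only [substHom, RingHom.comp_apply, coeffMap_jqModC, jTw]

theorem substHom_jp (ξ : Ωˣ) (n : ℕ) [NeZero n] (p : ℕ) [NeZero p] :
    substHom Ω ξ n (qExpand ℤ p (jqModC ℤ)) = jTw Ω (ξ ^ p) (n * p) := by
  simp only [substHom, RingHom.comp_apply, coeffMap_qExpand, coeffMap_jqModC, jTw,
    twist_qExpand, qExpand_qExpand]

variable {Ω}

theorem ev2_jTw_root {p : ℕ} [NeZero p] {Φ : Polynomial (Polynomial ℤ)} (hΦ : IsModPoly p Φ)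
    (ξ : Ωˣ) (n : ℕ) [NeZero n] :
    ev2 Φ (jTw Ω (ξ ^ p) (n * p)) (jTw Ω ξ n) = 0 := by
  have h := congrArg (substHom Ω ξ n) hΦ.eval_j
  rwa [map_ev2, substHom_j, substHom_jp, map_zero] at h

theorem ev2_jTw_root' {p : ℕ} [NeZero p] {Φ : Polynomial (Polynomial ℤ)} (hΦ : IsModPoly p Φ)
    (ξ : Ωˣ) (n : ℕ) [NeZero n] :
    ev2 Φ (jTw Ω ξ n) (jTw Ω (ξ ^ p) (n * p)) = 0 := by
  have h := congrArg (substHom Ω ξ n) hΦ.eval_jp
  rwa [map_ev2, substHom_j, substHom_jp, map_zero] at h

theorem jTw_congr (ξ : Ωˣ) {n n' : ℕ} [NeZero n] [NeZero n'] (h : n = n') :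
    jTw Ω ξ n = jTw Ω ξ n' := by
  subst h; rfl

end Roots

/-! ### The root list -/

section RootList

variable {Ω : Type*} [Field Ω]

/-- The multiset of roots of `Φ_p(j(t^{np}), X)`. -/
def rootMultiset (p : ℕ) (ζ : Ωˣ) (n : ℕ) [NeZero n] [NeZero p] : Multiset (LaurentSeries Ω) :=
  jTw Ω 1 (n * p * p) ::ₘ (Multiset.range p).map (fun b => jTw Ω (ζ ^ b) n)

theorem rootMultiset_nodup {p : ℕ} [NeZero p] (hp : 1 < p) {ζ : Ωˣ} (hζ : IsPrimitiveRoot ζ p)
    (n : ℕ) [NeZero n] : (rootMultiset p ζ n).Nodup := by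
  rw [rootMultiset, Multiset.nodup_cons]
  constructor
  · intro h
    rw [Multiset.mem_map] at h
    obtain ⟨b, -, hb⟩ := h
    have h1 : n = n * p * p := (jTw_inj hb).1
    have hn : 0 < n := Nat.pos_of_ne_zero (NeZero.ne n)
    have : n * 1 < n * (p * p) := by
      apply Nat.mul_lt_mul_of_pos_left _ hn
      nlinarith
    rw [mul_one, ← mul_assoc] at this
    omega
  · refine Multiset.Nodup.map_on ?_ (Multiset.nodup_range p)
    intro a ha b hb hab
    rw [Multiset.mem_range] at ha hb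
    exact hζ.pow_inj ha hb (jTw_inj hab).2

theorem rootMultiset_card (p : ℕ) [NeZero p] (ζ : Ωˣ) (n : ℕ) [NeZero n] :
    Multiset.card (rootMultiset p ζ n) = p + 1 := by
  simp [rootMultiset]

theorem mem_rootMultiset {p : ℕ} [NeZero p] {ζ : Ωˣ} {n : ℕ} [NeZero n] {β : LaurentSeries Ω} :
    β ∈ rootMultiset p ζ n ↔ β = jTw Ω 1 (n * p * p) ∨ ∃ b < p, β = jTw Ω (ζ ^ b) n := by
  rw [rootMultiset, Multiset.mem_cons, Multiset.mem_map]
  refine or_congr Iff.rfl ⟨?_, ?_⟩
  · rintro ⟨b, hb, rfl⟩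
    exact ⟨b, Multiset.mem_range.mp hb, rfl⟩
  · rintro ⟨b, hb, rfl⟩
    exact ⟨b, Multiset.mem_range.mpr hb, rfl⟩

/-- **Root list.** `Φ_p(j(t^{np}), X) = (X - j(t^{np²})) ∏_{b<p} (X - j(ζ^b tⁿ))`. -/
theorem roots_spec {p : ℕ} [NeZero p] (hp : 1 < p) {Φ : Polynomial (Polynomial ℤ)}
    (hΦ : IsModPoly p Φ) {ζ : Ωˣ} (hζ : IsPrimitiveRoot ζ p) (n : ℕ) [NeZero n] :
    (spec Φ (jTw Ω 1 (n * p))).roots = rootMultiset p ζ n := by
  have hmonic : (spec Φ (jTw Ω 1 (n * p))).Monic := spec_monic hΦ.monic _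
  have hdeg : (spec Φ (jTw Ω 1 (n * p))).natDegree = p + 1 := by
    rw [spec_natDegree hΦ.monic, hΦ.natDegree_eq]
  have hle : rootMultiset p ζ n ≤ (spec Φ (jTw Ω 1 (n * p))).roots := by
    rw [Multiset.le_iff_subset (rootMultiset_nodup hp hζ n)]
    intro β hβ
    rw [Polynomial.mem_roots hmonic.ne_zero, Polynomial.IsRoot, eval_spec]
    rcases mem_rootMultiset.mp hβ with rfl | ⟨b, -, rfl⟩
    · have := ev2_jTw_root' hΦ (1 : Ωˣ) (n * p)
      rwa [one_pow] at this
    · have := ev2_jTw_root hΦ (ζ ^ b) n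
      rwa [← pow_mul, mul_comm b p, pow_mul, hζ.pow_eq_one, one_pow] at this
  refine (Multiset.eq_of_le_of_card_le hle ?_).symm
  rw [rootMultiset_card, ← hdeg]
  exact Polynomial.card_roots' _

theorem splits_spec {p : ℕ} [NeZero p] (hp : 1 < p) {Φ : Polynomial (Polynomial ℤ)}
    (hΦ : IsModPoly p Φ) {ζ : Ωˣ} (hζ : IsPrimitiveRoot ζ p) (n : ℕ) [NeZero n] :
    (spec Φ (jTw Ω 1 (n * p))).Splits := by
  rw [Polynomial.splits_iff_card_roots, roots_spec hp hΦ hζ, rootMultiset_card,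
    spec_natDegree hΦ.monic, hΦ.natDegree_eq]

end RootList

/-! ### The abstract gcd lemma -/

section AbstractGcd

/-- If `x` is a common root of `P, Q ∈ E[X]`, and over some extension `P` splits with distinct
roots, among which only (the image of) `x` is a root of `Q`, then `x ∈ E`. -/
theorem mem_range_of_unique_common_root {E L Ω' : Type*} [Field E] [Field L] [Algebra E L]
    [Field Ω'] (ι : L →+* Ω') (x : L) (P Q : Polynomial E) (hP0 : P ≠ 0)
    (hPx : Polynomial.aeval x P = 0) (hQx : Polynomial.aeval x Q = 0)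
    (hsplit : (P.map (ι.comp (algebraMap E L))).Splits)
    (hnodup : (P.map (ι.comp (algebraMap E L))).roots.Nodup)
    (huniq : ∀ β ∈ (P.map (ι.comp (algebraMap E L))).roots,
      (Q.map (ι.comp (algebraMap E L))).eval β = 0 → β = ι x) :
    x ∈ (algebraMap E L).range := by
  classical
  set f : E →+* Ω' := ι.comp (algebraMap E L) with hf
  have hint : IsIntegral E x := IsAlgebraic.isIntegral ⟨P, hP0, hPx⟩
  have hμP : minpoly E x ∣ P := minpoly.dvd E x hPx
  have hμQ : minpoly E x ∣ Q := minpoly.dvd E x hQx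
  have hP'0 : P.map f ≠ 0 := (Polynomial.map_ne_zero_iff f.injective).mpr hP0
  have hμ'P : (minpoly E x).map f ∣ P.map f := Polynomial.map_dvd f hμP
  have hμ'Q : (minpoly E x).map f ∣ Q.map f := Polynomial.map_dvd f hμQ
  have hsplit' : ((minpoly E x).map f).Splits := hsplit.of_dvd hP'0 hμ'P
  have hroots_le : ((minpoly E x).map f).roots ≤ (P.map f).roots :=
    Polynomial.roots.le_of_dvd hP'0 hμ'P
  have hnodup' : ((minpoly E x).map f).roots.Nodup := Multiset.nodup_of_le hroots_le hnodup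
  have hμ'0 : (minpoly E x).map f ≠ 0 :=
    (Polynomial.map_ne_zero_iff f.injective).mpr (minpoly.ne_zero hint)
  have hall : ∀ β ∈ ((minpoly E x).map f).roots, β = ι x := by
    intro β hβ
    refine huniq β (Multiset.mem_of_le hroots_le hβ) ?_
    have hβ0 : ((minpoly E x).map f).eval β = 0 := (Polynomial.mem_roots hμ'0).mp hβ
    exact Polynomial.eval_eq_zero_of_dvd_of_eval_eq_zero hμ'Q hβ0
  have hcard : Multiset.card ((minpoly E x).map f).roots ≤ 1 := by
    have hsub : ((minpoly E x).map f).roots ≤ {ι x} := by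
      rw [Multiset.le_iff_subset hnodup']
      intro β hβ
      rw [Multiset.mem_singleton]
      exact hall β hβ
    simpa using Multiset.card_le_card hsub
  have hdeg : (minpoly E x).natDegree ≤ 1 := by
    rw [← Polynomial.natDegree_map f, hsplit'.natDegree_eq_card_roots]
    exact hcard
  have hpos := minpoly.natDegree_pos hint
  exact minpoly.natDegree_eq_one_iff.mp (le_antisymm hdeg hpos)

end AbstractGcd

end Fermat.Agent.S28.H626

end

end
-- ===== PACK-END S28/H626/RootList.lean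

-- ===== PACK-BEGIN S28/H626/Pair.lean
section
/-
S28 helper (helper626): the gcd lemma for the generators `j(q^d)`:
`j(q^{pre}) ∈ k(j(q^{re}), j(q^{pe}))` for distinct primes `p ≠ r` (invertible in `k`).
-/




set_option autoImplicit false

noncomputable section

open ModularCurve HahnSeries Polynomial

namespace Fermat.Agent.S28.H626

section Relations

variable (k : Type*) [Field k]

/-- `j(q^d) ∈ k((q))`. -/
abbrev jd (d : ℕ) [NeZero d] : LaurentSeries k := qExpand k d (jqModC k)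

theorem jd_congr {d d' : ℕ} [NeZero d] [NeZero d'] (h : d = d') : jd k d = jd k d' := by
  subst h; rfl

/-- the ring hom `ℤ((q)) → k((q))`, `q ↦ q^e`. -/
def levelHom (e : ℕ) [NeZero e] : LaurentSeries ℤ →+* LaurentSeries k :=
  (qExpand k e).comp (coeffMap (Int.castRingHom k))

theorem levelHom_j (e : ℕ) [NeZero e] : levelHom k e (jqModC ℤ) = jd k e := by
  simp only [levelHom, RingHom.comp_apply, coeffMap_jqModC]

theorem levelHom_jp (e : ℕ) [NeZero e] (p : ℕ) [NeZero p] :
    levelHom k e (qExpand ℤ p (jqModC ℤ)) = jd k (e * p) := by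
  simp only [levelHom, RingHom.comp_apply, coeffMap_qExpand, coeffMap_jqModC, qExpand_qExpand]

variable {k}

/-- `Φ_p(j(q^e), j(q^{ep})) = 0`. -/
theorem ev2_jd_up {p : ℕ} [NeZero p] {Φ : Polynomial (Polynomial ℤ)} (hΦ : IsModPoly p Φ)
    (e : ℕ) [NeZero e] : ev2 Φ (jd k e) (jd k (e * p)) = 0 := by
  have h := congrArg (levelHom k e) hΦ.eval_jp
  rwa [map_ev2, levelHom_j, levelHom_jp, map_zero] at h

/-- `Φ_p(j(q^{ep}), j(q^e)) = 0`. -/
theorem ev2_jd_down {p : ℕ} [NeZero p] {Φ : Polynomial (Polynomial ℤ)} (hΦ : IsModPoly p Φ)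
    (e : ℕ) [NeZero e] : ev2 Φ (jd k (e * p)) (jd k e) = 0 := by
  have h := congrArg (levelHom k e) hΦ.eval_j
  rwa [map_ev2, levelHom_j, levelHom_jp, map_zero] at h

theorem jd_ne_of_ne {d d' : ℕ} [NeZero d] [NeZero d'] (h : d ≠ d') : jd k d ≠ jd k d' := by
  have h1 : jd k d = jTw k 1 d := (jTw_one k d).symm
  have h2 : jd k d' = jTw k 1 d' := (jTw_one k d').symm
  rw [h1, h2]
  exact jTw_ne_of_ne h

end Relations

section Embedding

variable (k : Type*) [Field k] (Ω : Type*) [Field Ω] [Algebra k Ω]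

/-- The embedding `k((q)) → Ω((t))`, `q ↦ t^m`. -/
def embHom (m : ℕ) [NeZero m] : LaurentSeries k →+* LaurentSeries Ω :=
  (qExpand Ω m).comp (coeffMap (algebraMap k Ω))

theorem embHom_jd (m : ℕ) [NeZero m] (d : ℕ) [NeZero d] :
    embHom k Ω m (jd k d) = jTw Ω 1 (m * d) := by
  simp only [embHom, RingHom.comp_apply, jd, coeffMap_qExpand, coeffMap_jqModC, qExpand_qExpand,
    jTw_one]

end Embedding

section Pair

variable {k : Type*} [Field k]

theorem exists_primitiveRoot_unit (Ω : Type*) [Field Ω] (p : ℕ) [HasEnoughRootsOfUnity Ω p]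
    (hp : p ≠ 0) : ∃ ζ : Ωˣ, IsPrimitiveRoot ζ p := by
  obtain ⟨ζ, hζ⟩ := HasEnoughRootsOfUnity.exists_primitiveRoot Ω p
  obtain ⟨u, hu⟩ := hζ.isUnit hp
  refine ⟨u, ?_⟩
  rw [← IsPrimitiveRoot.coe_units_iff, hu]
  exact hζ

/-- **The gcd lemma.** For distinct primes `p ≠ r` invertible in `k`,
`j(q^{pre})` lies in every subfield of `k((q))` containing `j(q^{re})` and `j(q^{pe})`. -/
theorem jd_mem_of_pair {p r : ℕ} [NeZero p] [NeZero r] (hp : p.Prime) (hr : r.Prime)
    (hpr : p ≠ r) [NeZero (p : k)] [NeZero (r : k)]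
    {Φp Φr : Polynomial (Polynomial ℤ)} (hΦp : IsModPoly p Φp) (hΦr : IsModPoly r Φr)
    (e : ℕ) [NeZero e] (E : IntermediateField k (LaurentSeries k))
    (h1 : jd k (r * e) ∈ E) (h2 : jd k (p * e) ∈ E) : jd k (p * r * e) ∈ E := by
  classical
  obtain ⟨ζp, hζp⟩ := exists_primitiveRoot_unit (AlgebraicClosure k) p hp.ne_zero
  obtain ⟨ζr, hζr⟩ := exists_primitiveRoot_unit (AlgebraicClosure k) r hr.ne_zero
  have hp0 : 0 < p := hp.pos
  have hr0 : 0 < r := hr.pos
  have he0 : 0 < e := Nat.pos_of_ne_zero (NeZero.ne e)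
  -- the two polynomials over `E`
  set y1 : E := ⟨jd k (r * e), h1⟩ with hy1
  set y2 : E := ⟨jd k (p * e), h2⟩ with hy2
  set ι : LaurentSeries k →+* LaurentSeries (AlgebraicClosure k) :=
    embHom k (AlgebraicClosure k) (p * r) with hι
  have hP : ((spec Φp y1).map (ι.comp (algebraMap E (LaurentSeries k)))) =
      spec Φp (jTw (AlgebraicClosure k) 1 (r * r * e * p)) := by
    rw [map_spec]
    congr 1
    show ι (jd k (r * e)) = _
    rw [hι, embHom_jd]
    exact jTw_congr _ (by ring)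
  have hQ : ((spec Φr y2).map (ι.comp (algebraMap E (LaurentSeries k)))) =
      spec Φr (jTw (AlgebraicClosure k) 1 (p * p * e * r)) := by
    rw [map_spec]
    congr 1
    show ι (jd k (p * e)) = _
    rw [hι, embHom_jd]
    exact jTw_congr _ (by ring)
  have hx : ι (jd k (p * r * e)) = jTw (AlgebraicClosure k) 1 (r * r * e * p * p) := by
    rw [hι, embHom_jd]
    exact jTw_congr _ (by ring)
  have hmem : jd k (p * r * e) ∈ (algebraMap E (LaurentSeries k)).range := by
    refine mem_range_of_unique_common_root ι (jd k (p * r * e)) (spec Φp y1) (spec Φr y2)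
      (spec_monic hΦp.monic y1).ne_zero ?_ ?_ ?_ ?_ ?_
    · -- root of P
      rw [Polynomial.aeval_def, Polynomial.eval₂_eq_eval_map, map_spec, eval_spec]
      show ev2 Φp (jd k (r * e)) (jd k (p * r * e)) = 0
      rw [jd_congr k (show p * r * e = r * e * p by ring)]
      exact ev2_jd_up hΦp (r * e)
    · rw [Polynomial.aeval_def, Polynomial.eval₂_eq_eval_map, map_spec, eval_spec]
      show ev2 Φr (jd k (p * e)) (jd k (p * r * e)) = 0
      rw [jd_congr k (show p * r * e = p * e * r by ring)]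
      exact ev2_jd_up hΦr (p * e)
    · rw [hP]
      exact splits_spec hp.one_lt hΦp hζp (r * r * e)
    · rw [hP, roots_spec hp.one_lt hΦp hζp (r * r * e)]
      exact rootMultiset_nodup hp.one_lt hζp _
    · intro β hβ hQβ
      rw [hP, roots_spec hp.one_lt hΦp hζp (r * r * e)] at hβ
      rw [hx]
      rcases mem_rootMultiset.mp hβ with hβ1 | ⟨b, -, hβ1⟩
      · exact hβ1
      · exfalso
        have hβroot : β ∈ (spec Φr (jTw (AlgebraicClosure k) 1 (p * p * e * r))).roots := by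
          rw [Polynomial.mem_roots (spec_monic hΦr.monic _).ne_zero, Polynomial.IsRoot, ← hQ]
          exact hQβ
        rw [roots_spec hr.one_lt hΦr hζr (p * p * e)] at hβroot
        have hne : r * r ≠ p * p := by
          intro h
          exact hpr ((Nat.mul_self_inj.mp h).symm)
        rcases mem_rootMultiset.mp hβroot with hβ2 | ⟨c, -, hβ2⟩
        · have h3 := (jTw_inj (hβ1.symm.trans hβ2)).1
          -- r*r*e = p*p*e*r*r
          have h4 : r * r * e * 1 = r * r * e * (p * p) := by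
            rw [mul_one]; exact h3.trans (by ring)
          have h5 : 1 = p * p := Nat.eq_of_mul_eq_mul_left (by positivity) h4
          have : 1 < p * p := by nlinarith [hp.one_lt]
          omega
        · have h3 := (jTw_inj (hβ1.symm.trans hβ2)).1
          exact hne (Nat.eq_of_mul_eq_mul_right he0 h3)
  obtain ⟨z, hz⟩ := hmem
  rw [← hz]
  exact z.2

end Pair

end Fermat.Agent.S28.H626

end

end
-- ===== PACK-END S28/H626/Pair.lean

-- ===== PACK-BEGIN S28/H325/PolyIndep.lean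
section



/-!
# S28, piece [L-glue], part 1: polynomial independence and change of coefficients

`PolyIndep J v` says that the family `v` admits no nontrivial linear relation with coefficients
polynomials in `J`.  For a field `k` and transcendental `J` this is linear independence over
`k(J)`.  We transfer it along `ℤ → k` (content descent) and `ℤ → ℚ` (clearing denominators).
-/

set_option autoImplicit false

noncomputable section

open ModularCurve HahnSeries Polynomial

namespace Fermat.Agent.S28.H325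

/-- No nontrivial relation `∑ Pᵢ(J) vᵢ = 0` with polynomial coefficients. -/
def PolyIndep {A : Type*} [CommRing A] {n : ℕ} (J : LaurentSeries A)
    (v : Fin n → LaurentSeries A) : Prop :=
  ∀ P : Fin n → A[X], ∑ i, aeval J (P i) * v i = 0 → ∀ i, P i = 0

section Transport

variable {A B : Type*} [CommRing A] [CommRing B]

theorem coeffMap_aeval (f : A →+* B) (J : LaurentSeries A) (P : A[X]) :
    coeffMap f (aeval J P) = aeval (coeffMap f J) (P.map f) := by
  induction P using Polynomial.induction_on' with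
  | add p q hp hq => simp only [map_add, Polynomial.map_add, hp, hq]
  | monomial m a =>
    rw [Polynomial.map_monomial, Polynomial.aeval_monomial, Polynomial.aeval_monomial, map_mul,
      map_pow]
    congr 1
    rw [HahnSeries.algebraMap_apply', HahnSeries.algebraMap_apply', coeffMap_ofPowerSeries]
    congr 1
    ext k
    simp

theorem coeffMap_injective_of_injective (f : A →+* B) (hf : Function.Injective f) :
    Function.Injective (coeffMap f) := by
  intro x y h
  ext m
  apply hf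
  have := congrArg (fun z => z.coeff m) h
  simpa using this

/-- Polynomial independence descends along an injective coefficient map. -/
theorem PolyIndep.of_injective {n : ℕ} (f : A →+* B) (hf : Function.Injective f)
    {J : LaurentSeries A} {v : Fin n → LaurentSeries A}
    (h : PolyIndep (coeffMap f J) (fun i => coeffMap f (v i))) : PolyIndep J v := by
  intro P hP i
  have h1 : ∑ i, aeval (coeffMap f J) ((P i).map f) * coeffMap f (v i) = 0 := by
    have := congrArg (coeffMap f) hP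
    rw [map_sum, map_zero] at this
    rw [← this]
    refine Finset.sum_congr rfl fun i _ => ?_
    rw [map_mul, coeffMap_aeval]
  have h2 := h (fun i => (P i).map f) h1 i
  exact (Polynomial.map_eq_zero_iff hf).mp h2

end Transport

section Transcendence

variable (A : Type*) [CommRing A]

theorem algebraMap_laurent_eq_C (a : A) :
    algebraMap A (LaurentSeries A) a = HahnSeries.C a := by
  rw [HahnSeries.algebraMap_apply']
  have h1 : algebraMap A (PowerSeries A) a = PowerSeries.C a := by simp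
  rw [h1, HahnSeries.ofPowerSeries_C]

theorem laurent_coeff_smul (a : A) (x : LaurentSeries A) (m : ℤ) :
    (@HSMul.hSMul A (LaurentSeries A) (LaurentSeries A)
      (@instHSMul A (LaurentSeries A) (powerSeriesAlgebra ℤ A).toSMul) a x).coeff m
      = a * x.coeff m := by
  rw [Algebra.smul_def, algebraMap_laurent_eq_C, HahnSeries.C_mul_eq_smul]
  exact @HahnSeries.coeff_smul ℤ A _ A _ _ a x m

/-- The coefficient of `q^{-deg P}` in `P(j)` is the leading coefficient of `P`. -/
theorem coeff_aeval_jqModC (P : A[X]) :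
    (aeval (jqModC A) P).coeff (-(P.natDegree : ℤ)) = P.leadingCoeff := by
  rw [Polynomial.aeval_eq_sum_range, HahnSeries.coeff_sum, Finset.sum_range_succ]
  rw [Finset.sum_eq_zero, zero_add]
  · refine (laurent_coeff_smul A _ _ _).trans ?_
    rw [coeff_jqModC_pow_self, mul_one]
    rfl
  · intro m hm
    refine (laurent_coeff_smul A _ _ _).trans ?_
    rw [coeff_jqModC_pow_of_lt, mul_zero]
    have := Finset.mem_range.mp hm
    omega

theorem aeval_jqModC_eq_zero_iff (P : A[X]) : aeval (jqModC A) P = 0 ↔ P = 0 := by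
  refine ⟨fun h => ?_, fun h => by rw [h, map_zero]⟩
  have := coeff_aeval_jqModC A P
  rw [h, HahnSeries.coeff_zero] at this
  exact Polynomial.leadingCoeff_eq_zero.mp this.symm

end Transcendence

section Field

variable {k : Type*} [Field k] {n : ℕ}

/-- Linear independence over `k(J)` implies polynomial independence, for transcendental `J`. -/
theorem polyIndep_of_linearIndependent {J : LaurentSeries k}
    (hJ : ∀ P : k[X], aeval J P = 0 → P = 0) {v : Fin n → LaurentSeries k}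
    (h : LinearIndependent (IntermediateField.adjoin k {J}) v) : PolyIndep J v := by
  intro P hP i
  rw [Fintype.linearIndependent_iff] at h
  have hmem : ∀ i, aeval J (P i) ∈ IntermediateField.adjoin k {J} := fun i =>
    (IntermediateField.mem_adjoin_simple_iff k _).mpr ⟨P i, 1, by simp⟩
  have h1 := h (fun i => ⟨aeval J (P i), hmem i⟩) (by
    rw [← hP]
    exact Finset.sum_congr rfl fun i _ => rfl) i
  exact hJ _ (congrArg Subtype.val h1)

/-- Polynomial independence implies linear independence over `k(J)`. -/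
theorem linearIndependent_of_polyIndep {J : LaurentSeries k} {v : Fin n → LaurentSeries k}
    (h : PolyIndep J v) : LinearIndependent (IntermediateField.adjoin k {J}) v := by
  classical
  rw [Fintype.linearIndependent_iff]
  intro g hg
  have hrs : ∀ i, ∃ r s : k[X], aeval J s ≠ 0 ∧ (g i : LaurentSeries k) * aeval J s = aeval J r := by
    intro i
    obtain ⟨r, s, hrs⟩ := (IntermediateField.mem_adjoin_simple_iff k _).mp (g i).2
    by_cases hs : aeval J s = 0
    · refine ⟨0, 1, by simp, ?_⟩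
      rw [hs, div_zero] at hrs
      simp [hrs]
    · exact ⟨r, s, hs, by rw [hrs, div_mul_cancel₀ _ hs]⟩
  choose r s hs hrs using hrs
  set t : Fin n → k[X] := fun i => r i * ∏ l ∈ Finset.univ.erase i, s l with ht
  have hS : ∀ i, aeval J (t i) = (g i : LaurentSeries k) * aeval J (∏ l, s l) := by
    intro i
    rw [ht]
    simp only [map_mul]
    rw [← hrs i, ← Finset.mul_prod_erase Finset.univ s (Finset.mem_univ i)]
    simp only [map_mul]
    ring
  have hrel : ∑ i, aeval J (t i) * v i = 0 := by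
    have : ∑ i, aeval J (t i) * v i = aeval J (∏ l, s l) * ∑ i, (g i) • v i := by
      rw [Finset.mul_sum]
      refine Finset.sum_congr rfl fun i _ => ?_
      rw [hS i, IntermediateField.smul_def, smul_eq_mul]
      ring
    rw [this, hg, mul_zero]
  have ht0 := h t hrel
  intro i
  have h1 : (g i : LaurentSeries k) * aeval J (∏ l, s l) = 0 := by
    rw [← hS i, ht0 i, map_zero]
  have h2 : aeval J (∏ l, s l) ≠ 0 := by
    rw [map_prod]
    exact Finset.prod_ne_zero_iff.mpr fun l _ => hs l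
  have h3 : (g i : LaurentSeries k) = 0 := (mul_eq_zero.mp h1).resolve_right h2
  exact Subtype.ext h3

end Field

section Integers

variable {n : ℕ}

/-- Clearing denominators: polynomial independence over `ℤ` gives it over `ℚ`. -/
theorem PolyIndep.rat_of_int {J : LaurentSeries ℤ} {Y : Fin n → LaurentSeries ℤ}
    (h : PolyIndep J Y) :
    PolyIndep (coeffMap (Int.castRingHom ℚ) J) (fun i => coeffMap (Int.castRingHom ℚ) (Y i)) := by
  classical
  intro P hP
  have hnorm : ∀ i, ∃ (b : ℤ) (Q : ℤ[X]), b ≠ 0 ∧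
      Q.map (Int.castRingHom ℚ) = Polynomial.C (b : ℚ) * P i := by
    intro i
    obtain ⟨b, hbM, hb⟩ := IsLocalization.integerNormalization_spec (nonZeroDivisors ℤ) (P i)
    refine ⟨b, IsLocalization.integerNormalization (nonZeroDivisors ℤ) (P i),
      nonZeroDivisors.ne_zero hbM, ?_⟩
    rw [algebraMap_int_eq] at hb
    rw [hb, Polynomial.C_mul', Int.cast_smul_eq_zsmul ℚ b (P i)]
  choose b Q hb hQ using hnorm
  set c : Fin n → ℤ := fun i => ∏ l ∈ Finset.univ.erase i, b l with hc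
  set m : ℤ := ∏ l, b l with hm
  have hm0 : (m : ℚ) ≠ 0 := by
    rw [hm]; exact_mod_cast Finset.prod_ne_zero_iff.mpr fun l _ => hb l
  have hcm : ∀ i, c i * b i = m := fun i => by
    rw [hc, hm, mul_comm]
    exact Finset.mul_prod_erase Finset.univ b (Finset.mem_univ i)
  have hQ' : ∀ i, (Polynomial.C (c i) * Q i).map (Int.castRingHom ℚ)
      = Polynomial.C (m : ℚ) * P i := by
    intro i
    rw [Polynomial.map_mul, Polynomial.map_C, hQ i, ← mul_assoc, ← Polynomial.C_mul]
    congr 2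
    rw [eq_intCast, ← hcm i]
    push_cast
    ring
  have hrel : ∑ i, aeval J (Polynomial.C (c i) * Q i) * Y i = 0 := by
    apply coeffMap_injective_of_injective (Int.castRingHom ℚ) Int.cast_injective
    rw [map_sum, map_zero]
    have : ∑ i, coeffMap (Int.castRingHom ℚ) (aeval J (Polynomial.C (c i) * Q i) * Y i)
        = aeval (coeffMap (Int.castRingHom ℚ) J) (Polynomial.C (m : ℚ)) *
          ∑ i, aeval (coeffMap (Int.castRingHom ℚ) J) (P i) *
            coeffMap (Int.castRingHom ℚ) (Y i) := by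
      rw [Finset.mul_sum]
      refine Finset.sum_congr rfl fun i _ => ?_
      rw [map_mul, coeffMap_aeval, hQ' i, map_mul]
      ring
    rw [this, hP, mul_zero]
  have h0 := h _ hrel
  intro i
  have h1 : Polynomial.C (m : ℚ) * P i = 0 := by rw [← hQ' i, h0 i, Polynomial.map_zero]
  exact (mul_eq_zero.mp h1).resolve_left (by simpa using hm0)

/-- Content descent: polynomial independence over a field `k` (after reducing coefficients along
`ℤ → k`) gives polynomial independence over `ℤ`. -/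
theorem PolyIndep.int_of_field {k : Type*} [Field k] {J : LaurentSeries ℤ}
    {Y : Fin n → LaurentSeries ℤ}
    (h : PolyIndep (coeffMap (Int.castRingHom k) J)
      (fun i => coeffMap (Int.castRingHom k) (Y i))) : PolyIndep J Y := by
  classical
  obtain ⟨p, hp⟩ := CharP.exists k
  -- every relation has all coefficients divisible by `p`
  have hdvd : ∀ P : Fin n → ℤ[X], ∑ i, aeval J (P i) * Y i = 0 →
      ∀ i, Polynomial.C (p : ℤ) ∣ P i := by
    intro P hP i
    have h1 : ∑ i, aeval (coeffMap (Int.castRingHom k) J) ((P i).map (Int.castRingHom k)) *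
        coeffMap (Int.castRingHom k) (Y i) = 0 := by
      have := congrArg (coeffMap (Int.castRingHom k)) hP
      rw [map_sum, map_zero] at this
      rw [← this]
      refine Finset.sum_congr rfl fun i _ => ?_
      rw [map_mul, coeffMap_aeval]
    have h2 := h _ h1 i
    rw [Polynomial.C_dvd_iff_dvd_coeff]
    intro d
    have h3 := congrArg (fun q => q.coeff d) h2
    simp only [Polynomial.coeff_map, Polynomial.coeff_zero, eq_intCast] at h3
    exact (CharP.intCast_eq_zero_iff k p _).mp h3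
  rcases Nat.eq_zero_or_pos p with hp0 | hppos
  · intro P hP i
    obtain ⟨R, hR⟩ := hdvd P hP i
    rw [hR, hp0]
    simp
  · have hp2 : 2 ≤ p := by
      rcases (CharP.char_is_prime_or_zero k p) with h | h
      · exact h.two_le
      · omega
    -- all coefficients are divisible by every power of `p`
    have hpow : ∀ e : ℕ, ∀ P : Fin n → ℤ[X], ∑ i, aeval J (P i) * Y i = 0 →
        ∀ i d, (p : ℤ) ^ e ∣ (P i).coeff d := by
      intro e
      induction e with
      | zero => intro P _ i d; simp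
      | succ e ih =>
        intro P hP i d
        have hall := hdvd P hP
        choose R hR using hall
        have hRrel : ∑ i, aeval J (R i) * Y i = 0 := by
          have h1 : ((p : ℤ) : LaurentSeries ℤ) * ∑ i, aeval J (R i) * Y i = 0 := by
            rw [← hP, Finset.mul_sum]
            refine Finset.sum_congr rfl fun i _ => ?_
            rw [hR i, map_mul, Polynomial.aeval_C, mul_assoc]
            simp
          rcases mul_eq_zero.mp h1 with h2 | h2
          · exfalso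
            have h3 : ((p : ℤ) : LaurentSeries ℤ) ≠ 0 := by
              rw [← map_intCast (HahnSeries.C : ℤ →+* LaurentSeries ℤ)]
              intro h4
              have h5 : ((p : ℤ) : ℤ) = 0 :=
                HahnSeries.C_injective (h4.trans (map_zero _).symm)
              simp at h5
              omega
            exact h3 h2
          · exact h2
        have := ih R hRrel i d
        rw [hR i, Polynomial.coeff_C_mul, pow_succ, mul_comm]
        exact mul_dvd_mul_left _ this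
    intro P hP i
    ext d
    rw [Polynomial.coeff_zero]
    set a := (P i).coeff d with ha
    have h1 := hpow a.natAbs P hP i d
    refine Int.eq_zero_of_dvd_of_natAbs_lt_natAbs h1 ?_
    rw [Int.natAbs_pow, Int.natAbs_natCast]
    calc a.natAbs < 2 ^ a.natAbs := Nat.lt_two_pow_self
      _ ≤ p ^ a.natAbs := Nat.pow_le_pow_left hp2 _

end Integers

end Fermat.Agent.S28.H325

end
end
-- ===== PACK-END S28/H325/PolyIndep.lean

-- ===== PACK-BEGIN S28/H325/Glue.lean
section




/-!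
# S28, piece [L-glue], part 2: from degree bounds to `CoreData`

Input: integrality of the `j(q^d)` over `ℤ[j]`, an upper bound `n` for the degree of
`F = ℚ(j(q^d) : d ∣ N)` over `ℚ(j)` and `n` elements of `K'(j(q^d) : d ∣ N)` which are linearly
independent over `K'(j)` (for some field `K' ⊇ K`).  Output: `CoreData N K`.
-/

set_option autoImplicit false

noncomputable section

open ModularCurve HahnSeries Polynomial

namespace Fermat.Agent.S28.H325

/-- reduction of integral `q`-series to a ring `k`. -/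
abbrev castL (k : Type*) [CommRing k] : LaurentSeries ℤ →+* LaurentSeries k :=
  coeffMap (Int.castRingHom k)

theorem castL_jqModC (k : Type*) [CommRing k] : castL k (jqModC ℤ) = jqModC k :=
  coeffMap_jqModC _

theorem castL_comp {k k' : Type*} [CommRing k] [CommRing k'] (φ : k →+* k')
    (x : LaurentSeries ℤ) : coeffMap φ (castL k x) = castL k' x := by
  rw [castL, castL, coeffMap_coeffMap]
  exact coeffMap_congr (RingHom.ext_int _ _) x

theorem castL_image_intDivisorExpansions (k : Type*) [Field k] (N : ℕ) :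
    castL k '' intDivisorExpansions N = divisorExpansionsC k N := by
  ext x
  constructor
  · rintro ⟨y, ⟨d, hd, hdN, rfl⟩, rfl⟩
    exact ⟨d, hd, hdN, by rw [castL, coeffMap_qExpand, coeffMap_jqModC]⟩
  · rintro ⟨d, hd, hdN, rfl⟩
    exact ⟨_, ⟨d, hd, hdN, rfl⟩, by rw [castL, coeffMap_qExpand, coeffMap_jqModC]⟩

/-- `jField k` is `k(j)`. -/
theorem jField_eq (k : Type*) [Field k] : jField k = IntermediateField.adjoin k {jqModC k} := rfl

theorem jqModC_mem_jField (k : Type*) [Field k] : jqModC k ∈ jField k :=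
  IntermediateField.subset_adjoin k _ (Set.mem_singleton _)

/-- The transfer theorem: linear independence over `K'(j)` of the reductions implies linear
independence over `K(j)` (for a subfield `K → K'`) and over `ℚ(j)`. -/
theorem linearIndependent_transfer {K K' : Type*} [Field K] [Field K'] (φ : K →+* K') {n : ℕ}
    (Y : Fin n → LaurentSeries ℤ)
    (h : LinearIndependent (jField K') (fun i => castL K' (Y i))) :
    LinearIndependent (jField K) (fun i => castL K (Y i)) ∧
      LinearIndependent (jField ℚ) (fun i => castL ℚ (Y i)) := by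
  have h1 : PolyIndep (jqModC K') (fun i => castL K' (Y i)) :=
    polyIndep_of_linearIndependent (fun P hP => (aeval_jqModC_eq_zero_iff K' P).mp hP) h
  constructor
  · apply linearIndependent_of_polyIndep
    apply PolyIndep.of_injective φ φ.injective
    rw [coeffMap_jqModC]
    simpa only [castL_comp] using h1
  · have h2 : PolyIndep (jqModC ℤ) Y := by
      apply PolyIndep.int_of_field (k := K')
      rw [coeffMap_jqModC]
      exact h1
    have h3 := PolyIndep.rat_of_int h2
    rw [coeffMap_jqModC] at h3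
    exact linearIndependent_of_polyIndep h3

/-! ### Integrality and the monomial spanning set -/

theorem castL_comp_evalAt (k : Type*) [CommRing k] :
    (castL k).comp (evalAt (jqModC ℤ)) = evalAt (jqModC k) := by
  refine Polynomial.ringHom_ext' (Subsingleton.elim _ _) ?_
  simp [evalAt, castL_jqModC]

/-- `ℤ[X] → k(j)`, `X ↦ j`. -/
def evalJField (k : Type*) [Field k] : Polynomial ℤ →+* jField k :=
  Polynomial.eval₂RingHom (Int.castRingHom (jField k)) ⟨jqModC k, jqModC_mem_jField k⟩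

theorem algebraMap_comp_evalJField (k : Type*) [Field k] :
    (algebraMap (jField k) (LaurentSeries k)).comp (evalJField k) = evalAt (jqModC k) := by
  refine Polynomial.ringHom_ext' (Subsingleton.elim _ _) ?_
  simp [evalAt, evalJField]

theorem isIntegral_jField_of_monic (k : Type*) [Field k] (d : ℕ) [NeZero d]
    (h : ∃ P : Polynomial (Polynomial ℤ), P.Monic ∧
      P.eval₂ (evalAt (jqModC ℤ)) (qExpand ℤ d (jqModC ℤ)) = 0) :
    IsIntegral (jField k) (qExpand k d (jqModC k)) := by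
  obtain ⟨P, hmonic, hP⟩ := h
  refine ⟨P.map (evalJField k), hmonic.map _, ?_⟩
  rw [Polynomial.eval₂_map, algebraMap_comp_evalJField, ← castL_comp_evalAt]
  have := congrArg (castL k) hP
  rw [Polynomial.hom_eval₂, map_zero, castL, coeffMap_qExpand, coeffMap_jqModC] at this
  exact this

/-- Under integrality, `k(j(q^d) : d ∣ N)` is spanned over `k(j)` by the monomials in the
`j(q^d)`. -/
theorem mem_span_monomials_of_mem_full (k : Type*) [Field k] (N : ℕ) [NeZero N]
    (hint : ∀ (d : ℕ) [NeZero d], d ∣ N →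
      ∃ P : Polynomial (Polynomial ℤ), P.Monic ∧
        P.eval₂ (evalAt (jqModC ℤ)) (qExpand ℤ d (jqModC ℤ)) = 0)
    {x : LaurentSeries k} (hx : x ∈ modularFunctionFieldFullC k N) :
    x ∈ Submodule.span (jField k)
      ((Submonoid.closure (divisorExpansionsC k N) : Submonoid (LaurentSeries k)) :
        Set (LaurentSeries k)) := by
  have halg : ∀ y ∈ divisorExpansionsC k N, IsAlgebraic (jField k) y := by
    rintro y ⟨d, hd, hdN, rfl⟩
    exact (isIntegral_jField_of_monic k d (hint d hdN)).isAlgebraic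
  have h1 : x ∈ IntermediateField.adjoin (jField k) (divisorExpansionsC k N) := by
    have h2 : modularFunctionFieldFullC k N ≤
        (IntermediateField.adjoin (jField k) (divisorExpansionsC k N)).restrictScalars k := by
      rw [modularFunctionFieldFullC, IntermediateField.adjoin_le_iff]
      intro y hy
      exact IntermediateField.subset_adjoin (jField k) _ hy
    exact h2 hx
  have h3 := IntermediateField.adjoin_toSubalgebra_of_isAlgebraic halg
  have h4 : x ∈ (IntermediateField.adjoin (jField k) (divisorExpansionsC k N)).toSubalgebra := h1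
  rw [h3] at h4
  have h5 := Algebra.adjoin_eq_span (R := jField k) (s := divisorExpansionsC k N)
  have h6 : x ∈ Subalgebra.toSubmodule (Algebra.adjoin (jField k) (divisorExpansionsC k N)) := h4
  rw [h5] at h6
  exact h6

theorem monomials_subset_full (k : Type*) [Field k] (N : ℕ) :
    ((Submonoid.closure (divisorExpansionsC k N) : Submonoid (LaurentSeries k)) :
        Set (LaurentSeries k)) ⊆ modularFunctionFieldFullC k N := by
  intro x hx
  have : Submonoid.closure (divisorExpansionsC k N) ≤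
      (modularFunctionFieldFullC k N).toSubalgebra.toSubmonoid := by
    rw [Submonoid.closure_le]
    intro y hy
    exact IntermediateField.subset_adjoin k _ hy
  exact this hx

theorem castL_image_closure (k : Type*) [Field k] (N : ℕ) :
    castL k '' ((Submonoid.closure (intDivisorExpansions N) : Submonoid (LaurentSeries ℤ)) :
        Set (LaurentSeries ℤ)) =
      ((Submonoid.closure (divisorExpansionsC k N) : Submonoid (LaurentSeries k)) :
        Set (LaurentSeries k)) := by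
  rw [← castL_image_intDivisorExpansions]
  have := MonoidHom.map_mclosure ((castL k : LaurentSeries ℤ →+* LaurentSeries k) :
    LaurentSeries ℤ →* LaurentSeries k) (intDivisorExpansions N)
  have h2 := congrArg (fun S : Submonoid (LaurentSeries k) => (S : Set (LaurentSeries k))) this
  simp only [Submonoid.coe_map] at h2
  exact h2

/-! ### Extraction of independent monomials -/

open Cardinal in
/-- If `k(j(q^d) : d ∣ N)` contains `n` elements linearly independent over `k(j)`, then there are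
`n` integral monomials in the `j(q^d)` whose reductions are linearly independent over `k(j)`. -/
theorem exists_monomials_linearIndependent (k : Type*) [Field k] (N : ℕ) [NeZero N]
    (hint : ∀ (d : ℕ) [NeZero d], d ∣ N →
      ∃ P : Polynomial (Polynomial ℤ), P.Monic ∧
        P.eval₂ (evalAt (jqModC ℤ)) (qExpand ℤ d (jqModC ℤ)) = 0)
    (n : ℕ)
    (hL : ∃ x : Fin n → LaurentSeries k, (∀ i, x i ∈ modularFunctionFieldFullC k N) ∧
      LinearIndependent (jField k) x) :
    ∃ Y : Fin n → LaurentSeries ℤ,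
      (∀ i, Y i ∈ Submonoid.closure (intDivisorExpansions N)) ∧
      LinearIndependent (jField k) (fun i => castL k (Y i)) := by
  classical
  obtain ⟨x, hxF, hxli⟩ := hL
  set T : Set (LaurentSeries k) :=
    ((Submonoid.closure (divisorExpansionsC k N) : Submonoid (LaurentSeries k)) :
        Set (LaurentSeries k)) with hT
  obtain ⟨b, hbT, hspan, hli⟩ := exists_linearIndependent (jField k) T
  have hxb : ∀ i, x i ∈ Submodule.span (jField k) b := fun i => by
    rw [hspan]
    exact mem_span_monomials_of_mem_full k N hint (hxF i)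
  have hli' : LinearIndependent (jField k)
      (fun i => (⟨x i, hxb i⟩ : Submodule.span (jField k) b)) := by
    apply LinearIndependent.of_comp (Submodule.span (jField k) b).subtype
    exact hxli
  have h1 := hli'.cardinal_lift_le_rank
  have h2 : Module.rank (jField k) (Submodule.span (jField k) b) = #b := rank_span_set hli
  rw [h2] at h1
  obtain ⟨e⟩ := Cardinal.lift_mk_le'.mp h1
  have hmem : ∀ i, ∃ Y : LaurentSeries ℤ,
      Y ∈ Submonoid.closure (intDivisorExpansions N) ∧ castL k Y = (e i : LaurentSeries k) := by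
    intro i
    have h3 : (e i : LaurentSeries k) ∈ T := hbT (e i).2
    rw [hT, ← castL_image_closure] at h3
    obtain ⟨Y, hY, hYe⟩ := h3
    exact ⟨Y, hY, hYe⟩
  choose Y hY hYe using hmem
  refine ⟨Y, hY, ?_⟩
  have h4 : (fun i => castL k (Y i)) = (fun z : b => (z : LaurentSeries k)) ∘ e := by
    funext i
    exact hYe i
  rw [h4]
  exact hli.comp e e.injective

/-! ### Assembly -/

/-- **Glue.** Degree bounds (upper bound `n` over `ℚ`, lower bound `n` over some field `K' ⊇ K`)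
together with integrality of the `j(q^d)` produce `CoreData N K`. -/
theorem coreData_of_bounds (N : ℕ) [NeZero N] (K : Type) [Field K] {K' : Type*} [Field K']
    (φ : K →+* K') (n : ℕ)
    (hint : ∀ (d : ℕ) [NeZero d], d ∣ N →
      ∃ P : Polynomial (Polynomial ℤ), P.Monic ∧
        P.eval₂ (evalAt (jqModC ℤ)) (qExpand ℤ d (jqModC ℤ)) = 0)
    (hU : ∀ (m : ℕ) (x : Fin m → LaurentSeries ℚ), (∀ i, x i ∈ modularFunctionFieldFull N) →
      LinearIndependent (jField ℚ) x → m ≤ n)
    (hL : ∃ x : Fin n → LaurentSeries K', (∀ i, x i ∈ modularFunctionFieldFullC K' N) ∧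
      LinearIndependent (jField K') x) :
    CoreData N K := by
  obtain ⟨Y, hY, hYli⟩ := exists_monomials_linearIndependent K' N hint n hL
  obtain ⟨hK, hQ⟩ := linearIndependent_transfer φ Y hYli
  refine ⟨⟨n, Y, ?_, ?_, hK⟩, fun d _ hd => hint d hd⟩
  · intro i
    have : Submonoid.closure (intDivisorExpansions N) ≤
        (Subring.closure (intDivisorExpansions N)).toSubmonoid := by
      rw [Submonoid.closure_le]
      exact Subring.subset_closure
    exact this (hY i)
  · intro x hx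
    by_contra hxs
    have hYF : ∀ i, castL ℚ (Y i) ∈ modularFunctionFieldFull N := by
      intro i
      have h1 : castL ℚ (Y i) ∈ castL ℚ ''
          ((Submonoid.closure (intDivisorExpansions N) : Submonoid (LaurentSeries ℤ)) :
            Set (LaurentSeries ℤ)) := ⟨Y i, hY i, rfl⟩
      rw [castL_image_closure] at h1
      exact monomials_subset_full ℚ N h1
    have hcons : LinearIndependent (jField ℚ)
        (Fin.cons x (fun i => castL ℚ (Y i)) : Fin (n + 1) → LaurentSeries ℚ) :=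
      linearIndependent_finCons.mpr ⟨hQ, hxs⟩
    have := hU (n + 1) _ (fun i => by
      refine Fin.cases ?_ (fun j => ?_) i
      · simpa using hx
      · simpa using hYF j) hcons
    omega

end Fermat.Agent.S28.H325

end
end
-- ===== PACK-END S28/H325/Glue.lean

-- ===== PACK-BEGIN S28/H807/Conv.lean
section
/-
S28 / helper807 — pointwise convergent Laurent series: ring laws, `V_p`, sections.
-/



set_option autoImplicit false
set_option maxHeartbeats 400000

noncomputable section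

open ModularCurve HahnSeries

namespace Fermat.Agent.S28.H807

/-- The Laurent series `c` converges at the point `z` with sum `A`. -/
def HasLSum (c : LaurentSeries ℂ) (z A : ℂ) : Prop :=
  HasSum (fun n : ℤ => c.coeff n * z ^ n) A

theorem HasLSum.unique {c : LaurentSeries ℂ} {z A B : ℂ} (h1 : HasLSum c z A)
    (h2 : HasLSum c z B) : A = B :=
  HasSum.unique h1 h2

theorem hasLSum_zero (z : ℂ) : HasLSum 0 z 0 := by
  unfold HasLSum
  simpa using (hasSum_zero : HasSum (fun _ : ℤ => (0 : ℂ)) 0)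

theorem hasLSum_single (z : ℂ) (k : ℤ) (a : ℂ) :
    HasLSum (HahnSeries.single k a) z (a * z ^ k) := by
  unfold HasLSum
  have h := hasSum_sum_of_ne_finset_zero (f := fun n : ℤ => (HahnSeries.single k a).coeff n * z ^ n)
    (s := {k}) (L := SummationFilter.unconditional ℤ) (by
      intro b hb
      have hb' : b ≠ k := by simpa using hb
      simp [HahnSeries.coeff_single_of_ne hb'])
  simpa using h

theorem hasLSum_one (z : ℂ) : HasLSum 1 z 1 := by
  have h := hasLSum_single z 0 1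
  simpa using h

theorem hasLSum_C (z : ℂ) (a : ℂ) : HasLSum (HahnSeries.C a) z a := by
  have h := hasLSum_single z 0 a
  simpa using h

theorem HasLSum.add {c d : LaurentSeries ℂ} {z A B : ℂ} (h1 : HasLSum c z A)
    (h2 : HasLSum d z B) : HasLSum (c + d) z (A + B) := by
  unfold HasLSum at *
  have := HasSum.add h1 h2
  simpa [add_mul] using this

theorem HasLSum.neg {c : LaurentSeries ℂ} {z A : ℂ} (h1 : HasLSum c z A) :
    HasLSum (-c) z (-A) := by
  unfold HasLSum at *
  have := HasSum.neg h1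
  simpa using this

theorem HasLSum.sub {c d : LaurentSeries ℂ} {z A B : ℂ} (h1 : HasLSum c z A)
    (h2 : HasLSum d z B) : HasLSum (c - d) z (A - B) := by
  rw [sub_eq_add_neg, sub_eq_add_neg]
  exact h1.add h2.neg

/-- Cauchy product for pointwise convergent Laurent series. -/
theorem HasLSum.mul {c d : LaurentSeries ℂ} {z A B : ℂ} (hz : z ≠ 0) (h1 : HasLSum c z A)
    (h2 : HasLSum d z B) : HasLSum (c * d) z (A * B) := by
  unfold HasLSum at *
  -- the double family is summable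
  have hn1 : Summable (fun n : ℤ => ‖c.coeff n * z ^ n‖) := h1.summable.norm
  have hn2 : Summable (fun n : ℤ => ‖d.coeff n * z ^ n‖) := h2.summable.norm
  have hs : Summable (fun x : ℤ × ℤ => (c.coeff x.1 * z ^ x.1) * (d.coeff x.2 * z ^ x.2)) :=
    summable_mul_of_summable_norm (f := fun n : ℤ => c.coeff n * z ^ n)
      (g := fun n : ℤ => d.coeff n * z ^ n) hn1 hn2
  have hprod : HasSum (fun x : ℤ × ℤ => (c.coeff x.1 * z ^ x.1) * (d.coeff x.2 * z ^ x.2))
      (A * B) := HasSum.mul (f := fun n : ℤ => c.coeff n * z ^ n)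
      (g := fun n : ℤ => d.coeff n * z ^ n) h1 h2 hs
  -- reindex by (n, i) ↦ (i, n - i)
  let e : ℤ × ℤ ≃ ℤ × ℤ :=
    { toFun := fun x => (x.2, x.1 - x.2)
      invFun := fun x => (x.1 + x.2, x.1)
      left_inv := fun x => by simp
      right_inv := fun x => by simp }
  have hprod' : HasSum (fun x : ℤ × ℤ =>
      (c.coeff x.2 * z ^ x.2) * (d.coeff (x.1 - x.2) * z ^ (x.1 - x.2))) (A * B) := by
    have := (e.hasSum_iff (f := fun x : ℤ × ℤ =>
      (c.coeff x.1 * z ^ x.1) * (d.coeff x.2 * z ^ x.2)) (a := A * B)).mpr hprod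
    exact this
  refine HasSum.prod_fiberwise hprod' ?_
  intro n
  -- the fibre over `n` is a finite sum
  set s : Finset ℤ := (Finset.antidiagonal c.isPWO_support d.isPWO_support n).image Prod.fst
    with hs_def
  have hfib := hasSum_sum_of_ne_finset_zero
    (f := fun i : ℤ => (c.coeff i * z ^ i) * (d.coeff (n - i) * z ^ (n - i)))
    (s := s) (L := SummationFilter.unconditional ℤ) (by
      intro i hi
      by_cases hci : c.coeff i = 0
      · simp [hci]
      by_cases hdi : d.coeff (n - i) = 0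
      · simp [hdi]
      exfalso
      apply hi
      rw [hs_def, Finset.mem_image]
      refine ⟨(i, n - i), ?_, rfl⟩
      rw [Finset.mem_antidiagonal]
      exact ⟨hci, hdi, by ring⟩)
  convert hfib using 1
  rw [HahnSeries.coeff_mul, Finset.sum_mul, hs_def, Finset.sum_image]
  · apply Finset.sum_congr rfl
    intro x hx
    rw [Finset.mem_antidiagonal] at hx
    obtain ⟨_, _, hx3⟩ := hx
    have hx2 : x.2 = n - x.1 := by linarith
    rw [← hx2]
    have hzn : z ^ n = z ^ x.1 * z ^ x.2 := by rw [← zpow_add₀ hz, hx3]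
    rw [hzn]; ring
  · intro x hx y hy hxy
    rw [Finset.mem_coe, Finset.mem_antidiagonal] at hx hy
    apply Prod.ext hxy
    have h3 := hx.2.2
    have h4 := hy.2.2
    rw [hxy] at h3
    linarith

theorem HasLSum.pow {c : LaurentSeries ℂ} {z A : ℂ} (hz : z ≠ 0) (h1 : HasLSum c z A)
    (k : ℕ) : HasLSum (c ^ k) z (A ^ k) := by
  induction k with
  | zero => simpa using hasLSum_one z
  | succ k ih => rw [pow_succ, pow_succ]; exact ih.mul hz h1

/-- Substitution `q ↦ q^p`. -/
theorem HasLSum.expand {c : LaurentSeries ℂ} {z A : ℂ} (p : ℕ) [NeZero p]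
    (h : HasLSum c (z ^ p) A) : HasLSum (ModularCurve.qExpand ℂ p c) z A := by
  unfold HasLSum at *
  have hinj : Function.Injective (fun m : ℤ => (p : ℤ) * m) :=
    mul_right_injective₀ (by exact_mod_cast NeZero.ne p)
  refine (hinj.hasSum_iff (f := fun n : ℤ => (ModularCurve.qExpand ℂ p c).coeff n * z ^ n) ?_).mp ?_
  · intro n hn
    have : ¬ (p : ℤ) ∣ n := by
      rintro ⟨m, rfl⟩
      exact hn ⟨m, rfl⟩
    simp [qExpand_coeff_of_not_dvd p c this]
  · convert h using 2 with m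
    simp only [Function.comp_apply, qExpand_coeff_mul]
    congr 1
    rw [zpow_mul, zpow_natCast]

/-- Sections of a convergent series converge. -/
theorem HasLSum.summable_secL {c : LaurentSeries ℂ} {y A : ℂ} (p : ℕ) [NeZero p] (hy : y ≠ 0)
    (h : HasLSum c y A) (r : ℤ) :
    Summable (fun m : ℤ => (secL p r c).coeff m * (y ^ p) ^ m) := by
  unfold HasLSum at h
  have hinj : Function.Injective (fun m : ℤ => (p : ℤ) * m + r) := by
    intro a b hab
    have : (p : ℤ) * a = (p : ℤ) * b := by simpa using hab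
    exact mul_right_injective₀ (by exact_mod_cast NeZero.ne p) this
  have h1 : Summable ((fun n : ℤ => c.coeff n * y ^ n) ∘ fun m : ℤ => (p : ℤ) * m + r) :=
    h.summable.comp_injective hinj
  have h2 := h1.mul_left (y ^ (-r))
  refine h2.congr ?_
  intro m
  simp only [Function.comp_apply, secL_coeff]
  have : y ^ ((p : ℤ) * m + r) = (y ^ p) ^ m * y ^ r := by
    rw [zpow_add₀ hy, zpow_mul, zpow_natCast]
  rw [this, zpow_neg]
  field_simp

/-- Value of the `r`-th section at `y^p`. -/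
def secVal (p : ℕ) [NeZero p] (c : LaurentSeries ℂ) (y : ℂ) (r : ℤ) : ℂ :=
  ∑' m : ℤ, (secL p r c).coeff m * (y ^ p) ^ m

theorem HasLSum.hasLSum_secL {c : LaurentSeries ℂ} {y A : ℂ} (p : ℕ) [NeZero p] (hy : y ≠ 0)
    (h : HasLSum c y A) (r : ℤ) : HasLSum (secL p r c) (y ^ p) (secVal p c y r) :=
  (h.summable_secL p hy r).hasSum

/-- The section values only depend on `y^p`. -/
theorem secVal_congr (p : ℕ) [NeZero p] (c : LaurentSeries ℂ) {y y' : ℂ} (h : y ^ p = y' ^ p)
    (r : ℤ) : secVal p c y r = secVal p c y' r := by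
  unfold secVal
  rw [h]

/-- Regrouping by residues mod `p`: `A · yⁱ = ∑_{i'} y^{i'} · S_{i'-i}(y^p)`. -/
theorem HasLSum.regroup {c : LaurentSeries ℂ} {y A : ℂ} (p : ℕ) [NeZero p] (hy : y ≠ 0)
    (h : HasLSum c y A) (i : Fin p) :
    ∑ i' : Fin p, y ^ (i' : ℕ) * secVal p c y ((i' : ℤ) - (i : ℤ)) = A * y ^ (i : ℕ) := by
  have hp0 : (p : ℤ) ≠ 0 := by exact_mod_cast NeZero.ne p
  -- the shifted family
  have h1 : HasSum (fun n : ℤ => c.coeff (n - i) * y ^ n) (A * y ^ (i : ℕ)) := by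
    have h0 : HasSum (fun n : ℤ => c.coeff n * y ^ n * y ^ (i : ℕ)) (A * y ^ (i : ℕ)) :=
      HasSum.mul_right _ h
    have := ((Equiv.subRight ((i : ℕ) : ℤ)).hasSum_iff
      (f := fun n : ℤ => c.coeff n * y ^ n * y ^ (i : ℕ)) (a := A * y ^ (i : ℕ))).mpr h0
    refine this.congr_fun ?_
    intro n
    simp only [Function.comp_apply, Equiv.subRight_apply]
    have : y ^ n = y ^ (n - (i : ℕ)) * y ^ (i : ℕ) := by
      rw [← zpow_natCast y (i : ℕ), ← zpow_add₀ hy]; congr 1; ring
    rw [this]; ring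
  -- split `n = m * p + i'`
  have h2 : HasSum (fun x : ℤ × Fin p =>
      c.coeff (x.1 * (p : ℤ) + ((x.2 : ℕ) : ℤ) - (i : ℕ)) * y ^ (x.1 * (p : ℤ) + ((x.2 : ℕ) : ℤ)))
      (A * y ^ (i : ℕ)) := by
    have := ((Int.divModEquiv p).symm.hasSum_iff
      (f := fun n : ℤ => c.coeff (n - i) * y ^ n) (a := A * y ^ (i : ℕ))).mpr h1
    refine this.congr_fun ?_
    intro x
    simp only [Function.comp_apply, Int.divModEquiv_symm_apply]
  have h3 : HasSum (fun m : ℤ => ∑ i' : Fin p,
      c.coeff (m * (p : ℤ) + ((i' : ℕ) : ℤ) - (i : ℕ)) * y ^ (m * (p : ℤ) + ((i' : ℕ) : ℤ)))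
      (A * y ^ (i : ℕ)) := by
    refine HasSum.prod_fiberwise h2 ?_
    intro m
    exact hasSum_fintype _
  have h4 : ∀ i' : Fin p, HasSum (fun m : ℤ =>
      c.coeff (m * (p : ℤ) + ((i' : ℕ) : ℤ) - (i : ℕ)) * y ^ (m * (p : ℤ) + ((i' : ℕ) : ℤ)))
      (y ^ (i' : ℕ) * secVal p c y ((i' : ℤ) - (i : ℤ))) := by
    intro i'
    have h5 := (h.hasLSum_secL p hy ((i' : ℤ) - (i : ℤ)))
    unfold HasLSum at h5
    have h6 := h5.mul_left (y ^ (i' : ℕ))
    refine h6.congr_fun ?_
    intro m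
    simp only [secL_coeff]
    have e1 : m * (p : ℤ) + ((i' : ℕ) : ℤ) - ((i : ℕ) : ℤ)
        = (p : ℤ) * m + (((i' : ℕ) : ℤ) - ((i : ℕ) : ℤ)) := by ring
    have e2 : y ^ (m * (p : ℤ) + ((i' : ℕ) : ℤ)) = y ^ (i' : ℕ) * (y ^ p) ^ m := by
      rw [zpow_add₀ hy, zpow_natCast, mul_comm m, zpow_mul, zpow_natCast, mul_comm]
    rw [e1, e2]; ring
  have h7 := hasSum_sum (s := Finset.univ) (fun i' _ => h4 i')
  exact (h7.unique h3)

end Fermat.Agent.S28.H807

end

end
-- ===== PACK-END S28/H807/Conv.lean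

-- ===== PACK-BEGIN S28/H807/Eigen.lean
section
/-
S28 / helper807 — evaluation of the section-matrix characteristic polynomial:
`charpoly (secMat p g)` evaluated at `q = y^p` is `∏_b (X - G_b)`, where `G_b` is the value of
`g` at the `p` distinct `p`-th roots `y_b` of `q`.
-/



set_option autoImplicit false
set_option maxHeartbeats 400000

noncomputable section

open ModularCurve Polynomial Matrix

namespace Fermat.Agent.S28.H807

/-- The subring of Laurent series converging at a nonzero point `z`. -/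
def convSubring (z : ℂ) (hz : z ≠ 0) : Subring (LaurentSeries ℂ) where
  carrier := {c | Summable (fun n : ℤ => c.coeff n * z ^ n)}
  mul_mem' := fun {a b} ha hb =>
    (HasLSum.mul hz (c := a) (d := b) ha.hasSum hb.hasSum).summable
  one_mem' := (hasLSum_one z).summable
  add_mem' := fun {a b} ha hb => (HasLSum.add (c := a) (d := b) ha.hasSum hb.hasSum).summable
  zero_mem' := (hasLSum_zero z).summable
  neg_mem' := fun {a} ha => (HasLSum.neg (c := a) ha.hasSum).summable

theorem mem_convSubring {z : ℂ} {hz : z ≠ 0} {c : LaurentSeries ℂ} :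
    c ∈ convSubring z hz ↔ Summable (fun n : ℤ => c.coeff n * z ^ n) := Iff.rfl

theorem HasLSum.mem_convSubring {z A : ℂ} (hz : z ≠ 0) {c : LaurentSeries ℂ}
    (h : HasLSum c z A) : c ∈ convSubring z hz := h.summable

/-- Evaluation of a Laurent series at a point (junk value if not convergent). -/
def evalL (z : ℂ) (c : LaurentSeries ℂ) : ℂ := ∑' n : ℤ, c.coeff n * z ^ n

theorem HasLSum.evalL_eq {z A : ℂ} {c : LaurentSeries ℂ} (h : HasLSum c z A) :
    evalL z c = A := HasSum.tsum_eq h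

theorem hasLSum_evalL {z : ℂ} {hz : z ≠ 0} {c : LaurentSeries ℂ} (h : c ∈ convSubring z hz) :
    HasLSum c z (evalL z c) := Summable.hasSum h

/-- Evaluation at `z` as a ring homomorphism on the convergent subring. -/
def evalHom (z : ℂ) (hz : z ≠ 0) : convSubring z hz →+* ℂ where
  toFun c := evalL z c.1
  map_one' := (hasLSum_one z).evalL_eq
  map_zero' := (hasLSum_zero z).evalL_eq
  map_add' := fun a b => ((hasLSum_evalL a.2).add (hasLSum_evalL b.2)).evalL_eq
  map_mul' := fun a b => ((hasLSum_evalL a.2).mul hz (hasLSum_evalL b.2)).evalL_eq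

theorem evalHom_apply (z : ℂ) (hz : z ≠ 0) (c : convSubring z hz) :
    evalHom z hz c = evalL z c.1 := rfl

/-- A matrix with a full system of left eigenvectors `(y_b^i)_i` (Vandermonde) has
characteristic polynomial `∏_b (X - G_b)`. -/
theorem charpoly_eq_prod_of_vandermonde {p : ℕ} (M : Matrix (Fin p) (Fin p) ℂ) (y : Fin p → ℂ)
    (hy : Function.Injective y) (G : Fin p → ℂ)
    (h : ∀ b i : Fin p, ∑ i' : Fin p, y b ^ (i' : ℕ) * M i' i = G b * y b ^ (i : ℕ)) :
    M.charpoly = ∏ b : Fin p, (X - C (G b)) := by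
  set W : Matrix (Fin p) (Fin p) ℂ := Matrix.vandermonde y with hW
  have hWM : W * M = Matrix.diagonal G * W := by
    ext b i
    rw [Matrix.mul_apply, Matrix.diagonal_mul]
    simp only [hW, Matrix.vandermonde_apply]
    exact h b i
  have hdet : IsUnit W.det := by
    rw [isUnit_iff_ne_zero]
    exact Matrix.det_vandermonde_ne_zero_iff.mpr hy
  have hWu : IsUnit W := (Matrix.isUnit_iff_isUnit_det W).mpr hdet
  obtain ⟨u, hu⟩ := hWu
  have hM : M = u.val⁻¹ * Matrix.diagonal G * u.val := by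
    have h1 : u.val⁻¹ * (u.val * M) = M := by
      rw [← Matrix.mul_assoc, Matrix.nonsing_inv_mul _ (by rw [hu]; exact hdet), Matrix.one_mul]
    rw [← h1, hu, hWM, Matrix.mul_assoc]
  rw [hM, Matrix.charpoly_units_conj', Matrix.charpoly_diagonal]

/-- **Evaluation of the section charpoly.** -/
theorem hasLSum_coeff_mul_charpoly {p : ℕ} [NeZero p] (g e : LaurentSeries ℂ) (q : ℂ)
    (y : Fin p → ℂ) (hy0 : ∀ b, y b ≠ 0) (hyq : ∀ b, y b ^ p = q) (hy : Function.Injective y)
    (Gv : Fin p → ℂ) (hG : ∀ b, HasLSum g (y b) (Gv b)) (Ev : ℂ) (hE : HasLSum e q Ev) (k : ℕ) :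
    HasLSum (((X - C e) * (secMat p g).charpoly).coeff k) q
      (((X - C Ev) * ∏ b : Fin p, (X - C (Gv b))).coeff k) := by
  have hp : 0 < p := Nat.pos_of_ne_zero (NeZero.ne p)
  set b0 : Fin p := ⟨0, hp⟩
  have hq : q ≠ 0 := by rw [← hyq b0]; exact pow_ne_zero _ (hy0 b0)
  -- entries of the section matrix converge at `q`
  have hent : ∀ i' i : Fin p, secMat p g i' i ∈ convSubring q hq := by
    intro i' i
    have := (hG b0).hasLSum_secL p (hy0 b0) ((i' : ℤ) - (i : ℤ))
    rw [hyq b0] at this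
    exact this.mem_convSubring hq
  set M' : Matrix (Fin p) (Fin p) (convSubring q hq) := fun i' i => ⟨secMat p g i' i, hent i' i⟩
    with hM'
  set e' : convSubring q hq := ⟨e, hE.mem_convSubring hq⟩ with he'
  set Φ' : Polynomial (convSubring q hq) := (X - C e') * M'.charpoly with hΦ'
  have hsub : Φ'.map (convSubring q hq).subtype = (X - C e) * (secMat p g).charpoly := by
    rw [hΦ', Polynomial.map_mul, Polynomial.map_sub, Polynomial.map_X, Polynomial.map_C,
      ← Matrix.charpoly_map]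
    rfl
  -- evaluated matrix
  set Mτ : Matrix (Fin p) (Fin p) ℂ := M'.map (evalHom q hq) with hMτ
  have hMτ_apply : ∀ i' i : Fin p, Mτ i' i = secVal p g (y b0) ((i' : ℤ) - (i : ℤ)) := by
    intro i' i
    simp only [hMτ, Matrix.map_apply, evalHom_apply, hM']
    have := (hG b0).hasLSum_secL p (hy0 b0) ((i' : ℤ) - (i : ℤ))
    rw [hyq b0] at this
    exact this.evalL_eq
  have hchar : Mτ.charpoly = ∏ b : Fin p, (X - C (Gv b)) := by
    apply charpoly_eq_prod_of_vandermonde Mτ y hy Gv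
    intro b i
    have hreg := (hG b).regroup p (hy0 b) i
    rw [← hreg]
    apply Finset.sum_congr rfl
    intro i' _
    rw [hMτ_apply, secVal_congr p g (y := y b) (y' := y b0) (by rw [hyq, hyq])]
  have hev : Φ'.map (evalHom q hq) = (X - C Ev) * ∏ b : Fin p, (X - C (Gv b)) := by
    rw [hΦ', Polynomial.map_mul, Polynomial.map_sub, Polynomial.map_X, Polynomial.map_C,
      ← Matrix.charpoly_map, ← hMτ, hchar]
    congr 3
    exact hE.evalL_eq
  have h1 : ((X - C e) * (secMat p g).charpoly).coeff k = ((Φ'.coeff k : convSubring q hq) :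
      LaurentSeries ℂ) := by
    rw [← hsub, Polynomial.coeff_map]; rfl
  have h2 : ((X - C Ev) * ∏ b : Fin p, (X - C (Gv b))).coeff k = evalHom q hq (Φ'.coeff k) := by
    rw [← hev, Polynomial.coeff_map]
  rw [h1, h2]
  exact hasLSum_evalL (Φ'.coeff k).2

end Fermat.Agent.S28.H807

end

end
-- ===== PACK-END S28/H807/Eigen.lean

-- ===== PACK-BEGIN S20/H872/Index.lean
section





/-!
# `[SL(2, ℤ) : Γ₀(N)] = ψ(N)` (Dedekind psi function)

Route: `[Γ₀(N) : Γ₀(N p)] = p` if `p ∣ N`, `p + 1` otherwise, and induction on the prime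
factorisation.
-/

set_option autoImplicit false

open CongruenceSubgroup Matrix.SpecialLinearGroup
open scoped MatrixGroups

namespace Fermat.Agent.S20.H872

/-! ### Arithmetic of `dedekindPsi` -/

theorem dedekindPsi_mul_prime_of_dvd {N p : ℕ} (hN : N ≠ 0) (hp : p.Prime) (hpN : p ∣ N) :
    ModularCurve.dedekindPsi (N * p) = p * ModularCurve.dedekindPsi N := by
  unfold ModularCurve.dedekindPsi
  have hset : (N * p).divisors.filter Squarefree = N.divisors.filter Squarefree := by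
    ext d
    simp only [Finset.mem_filter, Nat.mem_divisors]
    constructor
    · rintro ⟨⟨hd, _⟩, hsq⟩
      refine ⟨⟨?_, hN⟩, hsq⟩
      have h2 : d ∣ N ^ 2 := by
        rw [pow_two]
        exact hd.trans (mul_dvd_mul_left N hpN)
      exact (hsq.dvd_pow_iff_dvd two_ne_zero).1 h2
    · rintro ⟨⟨hd, _⟩, hsq⟩
      exact ⟨⟨hd.mul_right p, mul_ne_zero hN hp.ne_zero⟩, hsq⟩
  rw [hset, Finset.mul_sum]
  refine Finset.sum_congr rfl fun d hd => ?_
  have hdN : d ∣ N := (Nat.mem_divisors.1 (Finset.mem_filter.1 hd).1).1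
  obtain ⟨e, rfl⟩ := hdN
  have hd0 : 0 < d := Nat.pos_of_ne_zero (by rintro rfl; simp at hN)
  rw [mul_assoc, Nat.mul_div_cancel_left _ hd0, Nat.mul_div_cancel_left _ hd0, mul_comm]

theorem dedekindPsi_mul_prime_of_not_dvd {N p : ℕ} (hN : N ≠ 0) (hp : p.Prime) (hpN : ¬ p ∣ N) :
    ModularCurve.dedekindPsi (N * p) = (p + 1) * ModularCurve.dedekindPsi N := by
  unfold ModularCurve.dedekindPsi
  have hcop : ∀ d, d ∣ N → Nat.Coprime d p := fun d hd =>
    (Nat.Coprime.symm ((Nat.Prime.coprime_iff_not_dvd hp).2 fun h => hpN (h.trans hd)))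
  have hset : (N * p).divisors.filter Squarefree
      = (N.divisors.filter Squarefree) ∪ (N.divisors.filter Squarefree).image (· * p) := by
    ext d
    simp only [Finset.mem_filter, Nat.mem_divisors, Finset.mem_union, Finset.mem_image]
    constructor
    · rintro ⟨⟨hd, _⟩, hsq⟩
      by_cases hpd : p ∣ d
      · right
        obtain ⟨e, rfl⟩ := hpd
        refine ⟨e, ⟨⟨?_, hN⟩, hsq.squarefree_of_dvd (Dvd.intro_left p rfl)⟩, mul_comm e p⟩
        rw [mul_comm p e] at hd
        exact Nat.dvd_of_mul_dvd_mul_right hp.pos hd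
      · left
        refine ⟨⟨?_, hN⟩, hsq⟩
        have : Nat.Coprime d p := (Nat.Coprime.symm ((Nat.Prime.coprime_iff_not_dvd hp).2 hpd))
        exact this.dvd_of_dvd_mul_right hd
    · rintro (⟨⟨hd, _⟩, hsq⟩ | ⟨e, ⟨⟨he, _⟩, hsq⟩, rfl⟩)
      · exact ⟨⟨hd.mul_right p, mul_ne_zero hN hp.ne_zero⟩, hsq⟩
      · refine ⟨⟨mul_dvd_mul_right he p, mul_ne_zero hN hp.ne_zero⟩, ?_⟩
        exact (Nat.squarefree_mul (hcop e he)).2 ⟨hsq, hp.squarefree⟩
  have hdisj : Disjoint (N.divisors.filter Squarefree)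
      ((N.divisors.filter Squarefree).image (· * p)) := by
    rw [Finset.disjoint_left]
    intro d hd hd'
    simp only [Finset.mem_filter, Nat.mem_divisors, Finset.mem_image] at hd hd'
    obtain ⟨e, _, rfl⟩ := hd'
    exact hpN ((Dvd.intro_left e rfl).trans hd.1.1)
  rw [hset, Finset.sum_union hdisj, Finset.sum_image, add_mul, one_mul, Finset.mul_sum]
  · congr 1
    · refine Finset.sum_congr rfl fun d hd => ?_
      have hdN : d ∣ N := (Nat.mem_divisors.1 (Finset.mem_filter.1 hd).1).1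
      obtain ⟨e, rfl⟩ := hdN
      have hd0 : 0 < d := Nat.pos_of_ne_zero (by rintro rfl; simp at hN)
      rw [mul_assoc, Nat.mul_div_cancel_left _ hd0, Nat.mul_div_cancel_left _ hd0, mul_comm]
    · refine Finset.sum_congr rfl fun d hd => ?_
      exact Nat.mul_div_mul_right N d hp.pos
  · intro a _ b _ hab
    exact Nat.eq_of_mul_eq_mul_right hp.pos hab

/-! ### The relative index `[Γ₀(N) : Γ₀(N p)]` -/

theorem Gamma0_mul_le (N p : ℕ) : Gamma0 (N * p) ≤ Gamma0 N := by
  intro g hg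
  rw [Gamma0_mem, ZMod.intCast_zmod_eq_zero_iff_dvd] at hg ⊢
  exact (Dvd.intro _ (by push_cast; rfl)).trans hg

theorem lowerUni_mem_Gamma0 (N : ℕ) (t : ℤ) : lowerUni ((N : ℤ) * t) ∈ Gamma0 N := by
  rw [Gamma0_mem, ZMod.intCast_zmod_eq_zero_iff_dvd]
  exact Dvd.intro _ rfl

/-- Criterion for equality of cosets in `Γ₀(N) ⧸ Γ₀(N p)`. -/
theorem rel_mk_eq_mk_iff (N p : ℕ) (g g' : SL(2, ℤ)) (hg : g ∈ Gamma0 N) (hg' : g' ∈ Gamma0 N) :
    (QuotientGroup.mk (⟨g, hg⟩ : Gamma0 N) :
        Gamma0 N ⧸ (Gamma0 (N * p)).subgroupOf (Gamma0 N)) = QuotientGroup.mk ⟨g', hg'⟩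
      ↔ ((N : ℤ) * (p : ℤ)) ∣ g 0 0 * g' 1 0 - g 1 0 * g' 0 0 := by
  rw [QuotientGroup.eq, Subgroup.mem_subgroupOf]
  have : (((⟨g, hg⟩ : Gamma0 N)⁻¹ * (⟨g', hg'⟩ : Gamma0 N) : Gamma0 N) : SL(2, ℤ))
      = g⁻¹ * g' := rfl
  rw [this, Gamma0_mem, inv_mul_apply_one_zero, ZMod.intCast_zmod_eq_zero_iff_dvd]
  push_cast
  rfl

theorem Gamma0_dvd (N : ℕ) (g : SL(2, ℤ)) (hg : g ∈ Gamma0 N) : (N : ℤ) ∣ g 1 0 := by
  rwa [Gamma0_mem, ZMod.intCast_zmod_eq_zero_iff_dvd] at hg

/-- Criterion in terms of `γ = c / N`. -/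
theorem rel_mk_eq_mk_iff' {N : ℕ} (hN : N ≠ 0) (p : ℕ) (g g' : SL(2, ℤ)) (hg : g ∈ Gamma0 N)
    (hg' : g' ∈ Gamma0 N) (γ γ' : ℤ) (hγ : g 1 0 = N * γ) (hγ' : g' 1 0 = N * γ') :
    (QuotientGroup.mk (⟨g, hg⟩ : Gamma0 N) :
        Gamma0 N ⧸ (Gamma0 (N * p)).subgroupOf (Gamma0 N)) = QuotientGroup.mk ⟨g', hg'⟩
      ↔ (p : ℤ) ∣ g 0 0 * γ' - γ * g' 0 0 := by
  rw [rel_mk_eq_mk_iff, hγ, hγ']
  have : g 0 0 * ((N : ℤ) * γ') - (N : ℤ) * γ * g' 0 0
      = (N : ℤ) * (g 0 0 * γ' - γ * g' 0 0) := by ring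
  rw [this]
  exact mul_dvd_mul_iff_left (by exact_mod_cast hN)

/-- the affine representatives of `Γ₀(N) ⧸ Γ₀(N p)` -/
noncomputable def relPt (N p : ℕ) (t : ZMod p) :
    Gamma0 N ⧸ (Gamma0 (N * p)).subgroupOf (Gamma0 N) :=
  QuotientGroup.mk ⟨lowerUni ((N : ℤ) * (ZMod.cast t : ℤ)), lowerUni_mem_Gamma0 N _⟩

theorem mk_eq_relPt_iff {N : ℕ} (hN : N ≠ 0) (p : ℕ) [NeZero p] (g : SL(2, ℤ))
    (hg : g ∈ Gamma0 N) (γ : ℤ) (hγ : g 1 0 = N * γ) (t : ZMod p) :
    (QuotientGroup.mk (⟨g, hg⟩ : Gamma0 N) :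
        Gamma0 N ⧸ (Gamma0 (N * p)).subgroupOf (Gamma0 N)) = relPt N p t
      ↔ ((g 0 0 : ℤ) : ZMod p) * t = ((γ : ℤ) : ZMod p) := by
  rw [relPt, rel_mk_eq_mk_iff' hN p g _ hg _ γ (ZMod.cast t : ℤ) hγ rfl]
  rw [lowerUni_apply_zero_zero, mul_one, ← ZMod.intCast_zmod_eq_zero_iff_dvd]
  push_cast
  try simp only [ZMod.intCast_cast, ZMod.cast_id', id_eq]
  exact sub_eq_zero

theorem relPt_injective {N : ℕ} (hN : N ≠ 0) (p : ℕ) [NeZero p] :
    Function.Injective (relPt N p) := by
  intro t t' h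
  rw [relPt, mk_eq_relPt_iff hN p _ _ (ZMod.cast t : ℤ) rfl] at h
  simpa using h.symm

/-- If `a = g 0 0` is nonzero mod the prime `p`, the coset of `g` is an affine point. -/
theorem exists_relPt_of_ne_zero {N : ℕ} (hN : N ≠ 0) (p : ℕ) [Fact p.Prime] (g : SL(2, ℤ))
    (hg : g ∈ Gamma0 N) (ha : ((g 0 0 : ℤ) : ZMod p) ≠ 0) :
    ∃ t : ZMod p,
      (QuotientGroup.mk (⟨g, hg⟩ : Gamma0 N) :
        Gamma0 N ⧸ (Gamma0 (N * p)).subgroupOf (Gamma0 N)) = relPt N p t := by
  obtain ⟨γ, hγ⟩ := Gamma0_dvd N g hg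
  refine ⟨((γ : ℤ) : ZMod p) * (((g 0 0 : ℤ) : ZMod p))⁻¹, ?_⟩
  rw [mk_eq_relPt_iff hN p g hg γ hγ]
  field_simp

theorem card_rel_of_dvd {N p : ℕ} (hN : N ≠ 0) (hp : p.Prime) (hpN : p ∣ N) :
    (Gamma0 (N * p)).relIndex (Gamma0 N) = p := by
  have : Fact p.Prime := ⟨hp⟩
  rw [Subgroup.relIndex, Subgroup.index_eq_card]
  have hbij : Function.Bijective (relPt N p) := by
    refine ⟨relPt_injective hN p, fun x => ?_⟩
    induction x using QuotientGroup.induction_on with
    | H k =>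
      obtain ⟨g, hg⟩ := k
      have ha : ((g 0 0 : ℤ) : ZMod p) ≠ 0 := by
        intro h0
        rw [ZMod.intCast_zmod_eq_zero_iff_dvd] at h0
        have hc : (p : ℤ) ∣ g 1 0 := (Int.natCast_dvd_natCast.2 hpN).trans (Gamma0_dvd N g hg)
        have h1 : (p : ℤ) ∣ 1 := by
          rw [← det_rel g]
          exact dvd_sub (h0.mul_right _) (hc.mul_left _)
        have h2 : p ∣ 1 := by exact_mod_cast h1
        exact hp.one_lt.ne' (Nat.dvd_one.1 h2)
      obtain ⟨t, ht⟩ := exists_relPt_of_ne_zero hN p g hg ha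
      exact ⟨t, ht.symm⟩
  rw [← Nat.card_congr (Equiv.ofBijective _ hbij), Nat.card_eq_fintype_card, ZMod.card]

theorem exists_mem_Gamma0_col {N p : ℕ} (hcop : Nat.Coprime p N) :
    ∃ g : SL(2, ℤ), g ∈ Gamma0 N ∧ g 0 0 = p ∧ g 1 0 = N := by
  have h : IsCoprime (p : ℤ) (N : ℤ) := Nat.isCoprime_iff_coprime.2 hcop
  obtain ⟨u, v, huv⟩ := h
  have hdet : (!![(p : ℤ), -v; (N : ℤ), u]).det = 1 := by
    rw [Matrix.det_fin_two_of]; linear_combination huv
  let g : SL(2, ℤ) := ⟨!![(p : ℤ), -v; (N : ℤ), u], hdet⟩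
  refine ⟨g, ?_, rfl, rfl⟩
  rw [Gamma0_mem]
  change (((N : ℤ) : ℤ) : ZMod N) = 0
  simp

theorem card_rel_of_not_dvd {N p : ℕ} (hN : N ≠ 0) (hp : p.Prime) (hpN : ¬ p ∣ N) :
    (Gamma0 (N * p)).relIndex (Gamma0 N) = p + 1 := by
  have : Fact p.Prime := ⟨hp⟩
  rw [Subgroup.relIndex, Subgroup.index_eq_card]
  obtain ⟨g₀, hg₀, hk0, hk1⟩ :=
    exists_mem_Gamma0_col ((Nat.Prime.coprime_iff_not_dvd hp).2 hpN)
  let f : Option (ZMod p) → Gamma0 N ⧸ (Gamma0 (N * p)).subgroupOf (Gamma0 N) := fun o =>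
    o.elim (QuotientGroup.mk ⟨g₀, hg₀⟩) (relPt N p)
  have hinf : ∀ t : ZMod p,
      (QuotientGroup.mk (⟨g₀, hg₀⟩ : Gamma0 N) :
        Gamma0 N ⧸ (Gamma0 (N * p)).subgroupOf (Gamma0 N)) ≠ relPt N p t := by
    intro t h
    rw [mk_eq_relPt_iff hN p g₀ hg₀ 1 (by rw [hk1, mul_one]), hk0] at h
    simp at h
  have hbij : Function.Bijective f := by
    constructor
    · rintro (_ | t) (_ | t') h
      · rfl
      · exact absurd h (hinf t')
      · exact absurd h.symm (hinf t)
      · exact congrArg some (relPt_injective hN p h)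
    · intro x
      induction x using QuotientGroup.induction_on with
      | H k =>
        obtain ⟨g, hg⟩ := k
        by_cases ha : ((g 0 0 : ℤ) : ZMod p) = 0
        · refine ⟨none, ?_⟩
          obtain ⟨γ, hγ⟩ := Gamma0_dvd N g hg
          change (QuotientGroup.mk (⟨g₀, hg₀⟩ : Gamma0 N) :
            Gamma0 N ⧸ (Gamma0 (N * p)).subgroupOf (Gamma0 N)) = _
          rw [rel_mk_eq_mk_iff' hN p g₀ g hg₀ hg 1 γ (by rw [hk1, mul_one]) hγ, hk0]
          rw [ZMod.intCast_zmod_eq_zero_iff_dvd] at ha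
          exact dvd_sub (Dvd.intro _ rfl) (ha.mul_left _)
        · obtain ⟨t, ht⟩ := exists_relPt_of_ne_zero hN p g hg ha
          exact ⟨some t, ht.symm⟩
  rw [← Nat.card_congr (Equiv.ofBijective _ hbij), Nat.card_eq_fintype_card, Fintype.card_option,
    ZMod.card]

/-! ### The index formula -/

theorem Gamma0_one : Gamma0 1 = ⊤ := by
  ext g
  simp only [Gamma0_mem, Subgroup.mem_top, iff_true]
  exact Subsingleton.elim _ _

/-- **I1**: `[SL(2, ℤ) : Γ₀(N)] = ψ(N)`. -/
theorem index_Gamma0 (N : ℕ) (hN : N ≠ 0) : (Gamma0 N).index = ModularCurve.dedekindPsi N := by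
  induction N using induction_on_primes with
  | zero => exact absurd rfl hN
  | one => rw [Gamma0_one, Subgroup.index_top, ModularCurve.dedekindPsi_one]
  | prime_mul p M hp ih =>
    have hM : M ≠ 0 := by rintro rfl; simp at hN
    have ih' := ih hM
    rw [mul_comm p M, ← Subgroup.relIndex_mul_index (Gamma0_mul_le M p), ih']
    by_cases hpM : p ∣ M
    · rw [card_rel_of_dvd hM hp hpM, dedekindPsi_mul_prime_of_dvd hM hp hpM]
    · rw [card_rel_of_not_dvd hM hp hpM, dedekindPsi_mul_prime_of_not_dvd hM hp hpM]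

/-- **I1**, cardinality form. -/
theorem card_quot_Gamma0 (N : ℕ) [NeZero N] :
    Nat.card (SL(2, ℤ) ⧸ Gamma0 N) = ModularCurve.dedekindPsi N := by
  rw [← Subgroup.index_eq_card]
  exact index_Gamma0 N (NeZero.ne N)

end Fermat.Agent.S20.H872

end
-- ===== PACK-END S20/H872/Index.lean

-- ===== PACK-BEGIN S24/Alg/LocOrd.lean
section


/-!
# S24 / ALG-LOC: elementary calculus of `Place.ord`

Membership in the valuation ring, ultrametric inequality and its strict case.
-/

set_option autoImplicit false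

noncomputable section

open AlgebraicCurve

namespace Fermat.Agent.S24.H144

variable {K F : Type*} [Field K] [Field F] [Algebra K F]

theorem loc_ord_nonneg_of_mem (v : Place K F) {f : F} (hf : f ∈ v.toValuationSubring) :
    0 ≤ v.ord f := by
  rcases eq_or_ne f 0 with rfl | hf0
  · simp
  obtain ⟨π, hπ⟩ := IsDiscreteValuationRing.exists_irreducible v.toValuationSubring
  obtain ⟨n, u, hu⟩ :=
    IsDiscreteValuationRing.eq_unit_mul_pow_irreducible
      (x := (⟨f, hf⟩ : v.toValuationSubring)) (by simpa [Subtype.ext_iff] using hf0) hπ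
  have hcoe : f = ((u : v.toValuationSubring) : F) * ((π : F) ^ (n : ℤ)) := by
    have h := congrArg (Subtype.val) hu
    push_cast at h
    rw [zpow_natCast]
    exact h
  rw [hcoe, v.ord_unit_smul_zpow u hπ (n : ℤ)]
  exact Int.natCast_nonneg n

theorem loc_mem_of_ord_nonneg (v : Place K F) {f : F} (h : 0 ≤ v.ord f) :
    f ∈ v.toValuationSubring := by
  rcases eq_or_ne f 0 with rfl | hf
  · exact zero_mem _
  obtain ⟨π, hπ⟩ := IsDiscreteValuationRing.exists_irreducible v.toValuationSubring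
  obtain ⟨u, hu⟩ := v.exists_unit_mul_zpow hf hπ
  rw [hu, show v.ord f = (((v.ord f).toNat : ℕ) : ℤ) from (Int.toNat_of_nonneg h).symm,
    zpow_natCast]
  exact mul_mem (u : v.toValuationSubring).2 (pow_mem (π : v.toValuationSubring).2 _)

/-- `f ∈ O_v ↔ 0 ≤ ord_v f` (valid also for `f = 0` because `ord_v 0 = 0`). -/
theorem loc_mem_iff_ord_nonneg (v : Place K F) (f : F) :
    f ∈ v.toValuationSubring ↔ 0 ≤ v.ord f :=
  ⟨loc_ord_nonneg_of_mem v, loc_mem_of_ord_nonneg v⟩

theorem loc_ord_algebraMap (v : Place K F) (c : K) : v.ord (algebraMap K F c) = 0 := by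
  rcases eq_or_ne c 0 with rfl | hc
  · simp
  have h1 : 0 ≤ v.ord (algebraMap K F c) := loc_ord_nonneg_of_mem v (v.algebraMap_mem' c)
  have h2 : 0 ≤ v.ord (algebraMap K F c⁻¹) := loc_ord_nonneg_of_mem v (v.algebraMap_mem' c⁻¹)
  rw [map_inv₀, v.ord_inv] at h2
  omega

theorem loc_ord_pow (v : Place K F) (f : F) (n : ℕ) : v.ord (f ^ n) = n * v.ord f := by
  have := v.ord_zpow f (n : ℤ)
  rwa [zpow_natCast] at this

theorem loc_ord_neg (v : Place K F) (f : F) : v.ord (-f) = v.ord f := by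
  rcases eq_or_ne f 0 with rfl | hf
  · simp
  have h : (-1 : F) ≠ 0 := by simp
  have h1 : v.ord (-1 : F) = 0 := by
    have h2 := v.ord_mul h h
    rw [neg_one_mul, neg_neg, v.ord_one] at h2
    omega
  rw [← neg_one_mul, v.ord_mul h hf, h1, zero_add]

/-- Ultrametric inequality. -/
theorem loc_ord_add (v : Place K F) {f g : F} (hf : f ≠ 0) (hg : g ≠ 0) (hfg : f + g ≠ 0) :
    min (v.ord f) (v.ord g) ≤ v.ord (f + g) := by
  -- wlog `ord f ≤ ord g`
  wlog h : v.ord f ≤ v.ord g generalizing f g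
  · have := this hg hf (by rwa [add_comm]) (by omega)
    rwa [min_comm, add_comm g f] at this
  rw [min_eq_left h]
  have hq : g * f⁻¹ ∈ v.toValuationSubring := by
    apply loc_mem_of_ord_nonneg
    rw [v.ord_mul hg (inv_ne_zero hf), v.ord_inv]; omega
  have h1 : 1 + g * f⁻¹ ∈ v.toValuationSubring := add_mem (one_mem _) hq
  have h2 : f + g = f * (1 + g * f⁻¹) := by field_simp
  have h3 : (1 + g * f⁻¹) ≠ 0 := by
    intro h0; rw [h0, mul_zero] at h2; exact hfg h2
  rw [h2, v.ord_mul hf h3]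
  have := loc_ord_nonneg_of_mem v h1
  omega

/-- Ultrametric inequality, version with nonnegativity bound (no nonvanishing hypotheses). -/
theorem loc_ord_add_of_le (v : Place K F) {f g : F} {n : ℤ} (hn : n ≤ 0 ∨ f + g ≠ 0)
    (hf : f = 0 ∨ n ≤ v.ord f) (hg : g = 0 ∨ n ≤ v.ord g) : n ≤ v.ord (f + g) := by
  rcases eq_or_ne (f + g) 0 with h0 | h0
  · rw [h0, v.ord_zero]
    rcases hn with hn | hn
    · exact hn
    · exact absurd h0 hn
  rcases eq_or_ne f 0 with rfl | hf0
  · rw [zero_add] at h0 ⊢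
    rcases hg with hg | hg
    · exact absurd hg h0
    · exact hg
  rcases eq_or_ne g 0 with rfl | hg0
  · rw [add_zero]
    rcases hf with hf | hf
    · exact absurd hf hf0
    · exact hf
  have := loc_ord_add v hf0 hg0 h0
  rcases hf with hf | hf
  · exact absurd hf hf0
  rcases hg with hg | hg
  · exact absurd hg hg0
  exact le_trans (le_min hf hg) this

/-- Strict case of the ultrametric inequality. -/
theorem loc_ord_add_eq_of_lt (v : Place K F) {f g : F} (hf : f ≠ 0) (hg : g ≠ 0)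
    (h : v.ord f < v.ord g) : v.ord (f + g) = v.ord f := by
  have hfg : f + g ≠ 0 := by
    intro h0
    have : g = -f := by rw [← sub_eq_zero]; rw [sub_neg_eq_add, add_comm]; exact h0
    rw [this, loc_ord_neg] at h
    exact lt_irrefl _ h
  have h1 := loc_ord_add v hf hg hfg
  rw [min_eq_left h.le] at h1
  -- f = (f + g) + (-g)
  have hng : -g ≠ 0 := neg_ne_zero.mpr hg
  have h2 := loc_ord_add v hfg hng (by simpa using hf)
  rw [add_neg_cancel_right, loc_ord_neg] at h2
  rcases le_total (v.ord (f + g)) (v.ord g) with h3 | h3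
  · rw [min_eq_left h3] at h2; omega
  · rw [min_eq_right h3] at h2; omega

end Fermat.Agent.S24.H144

end
end
-- ===== PACK-END S24/Alg/LocOrd.lean

-- ===== PACK-BEGIN Lib/RR/H80/Res/Almost.lean
section


/-!
# Tate's residue symbol, abstract part 1: commensurability and the ideals `E₁`, `E₂`

`AlmostLE X Y` : `X ⊆ Y + (finite-dimensional)`.
For a subspace `A ⊆ V`: `EE A θ` (`θ A ≲ A`), `E1 A θ` (`θ V ≲ A`), `E2 A θ` (`θ A` finite-dimensional),
`E0 = E1 ∧ E2`.  The trace `fpTr` is additive on `E0` and kills commutators `[δ, g]`, `δ ∈ E0`,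
`g ∈ EE`.
-/

set_option autoImplicit false

noncomputable section

namespace Fermat.Agent.Lib.RR.H80

open LinearMap Module

variable {K V : Type*} [Field K] [AddCommGroup V] [Module K V]

/-- `X ⊆ Y + W` with `W` finite-dimensional. -/
def AlmostLE (X Y : Submodule K V) : Prop :=
  ∃ W : Submodule K V, FiniteDimensional K W ∧ X ≤ Y ⊔ W

theorem AlmostLE.of_le {X Y : Submodule K V} (h : X ≤ Y) : AlmostLE X Y :=
  ⟨⊥, inferInstance, h.trans le_sup_left⟩

theorem AlmostLE.refl (X : Submodule K V) : AlmostLE X X := AlmostLE.of_le le_rfl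

theorem AlmostLE.trans {X Y Z : Submodule K V} (h1 : AlmostLE X Y) (h2 : AlmostLE Y Z) :
    AlmostLE X Z := by
  obtain ⟨W₁, hW₁, h1⟩ := h1
  obtain ⟨W₂, hW₂, h2⟩ := h2
  refine ⟨W₂ ⊔ W₁, inferInstance, h1.trans ?_⟩
  rw [← sup_assoc]
  exact sup_le_sup_right h2 W₁

theorem AlmostLE.mono_left {X X' Y : Submodule K V} (h : X' ≤ X) (h1 : AlmostLE X Y) :
    AlmostLE X' Y :=
  (AlmostLE.of_le h).trans h1

theorem AlmostLE.map {X Y : Submodule K V} (h : AlmostLE X Y) (θ : Module.End K V) :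
    AlmostLE (X.map θ) (Y.map θ) := by
  obtain ⟨W, hW, h⟩ := h
  refine ⟨W.map θ, inferInstance, ?_⟩
  rw [← Submodule.map_sup]
  exact Submodule.map_mono h

theorem AlmostLE.sup {X X' Y : Submodule K V} (h : AlmostLE X Y) (h' : AlmostLE X' Y) :
    AlmostLE (X ⊔ X') Y := by
  obtain ⟨W, hW, h⟩ := h
  obtain ⟨W', hW', h'⟩ := h'
  refine ⟨W ⊔ W', inferInstance, sup_le (h.trans ?_) (h'.trans ?_)⟩
  · exact sup_le_sup_left le_sup_left Y
  · exact sup_le_sup_left le_sup_right Y

theorem AlmostLE.of_finiteDimensional (X Y : Submodule K V) [FiniteDimensional K X] :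
    AlmostLE X Y :=
  ⟨X, inferInstance, le_sup_right⟩

theorem almostLE_bot_iff {X : Submodule K V} : AlmostLE X ⊥ ↔ FiniteDimensional K X := by
  constructor
  · rintro ⟨W, hW, h⟩
    rw [bot_sup_eq] at h
    exact Submodule.finiteDimensional_of_le h
  · intro h
    exact AlmostLE.of_finiteDimensional X ⊥

theorem AlmostLE.finiteDimensional {X : Submodule K V} (h : AlmostLE X ⊥) :
    FiniteDimensional K X := almostLE_bot_iff.mp h

/-- `(Y + W₁) ∩ (Z + W₂) ⊆ (Y ∩ Z) + finite` is not needed; we only use sums. -/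
theorem AlmostLE.add_map {X Y : Submodule K V} {θ φ : Module.End K V}
    (h : AlmostLE (X.map θ) Y) (h' : AlmostLE (X.map φ) Y) : AlmostLE (X.map (θ + φ)) Y := by
  have : X.map (θ + φ) ≤ X.map θ ⊔ X.map φ := by
    rintro _ ⟨x, hx, rfl⟩
    rw [LinearMap.add_apply]
    exact Submodule.add_mem _ (Submodule.mem_sup_left ⟨x, hx, rfl⟩)
      (Submodule.mem_sup_right ⟨x, hx, rfl⟩)
  exact (h.sup h').mono_left this

theorem AlmostLE.neg_map {X Y : Submodule K V} {θ : Module.End K V}
    (h : AlmostLE (X.map θ) Y) : AlmostLE (X.map (-θ)) Y := by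
  have : X.map (-θ) ≤ X.map θ := by
    rintro _ ⟨x, hx, rfl⟩
    rw [LinearMap.neg_apply]
    exact Submodule.neg_mem _ ⟨x, hx, rfl⟩
  exact h.mono_left this

theorem AlmostLE.smul_map {X Y : Submodule K V} {θ : Module.End K V} (c : K)
    (h : AlmostLE (X.map θ) Y) : AlmostLE (X.map (c • θ)) Y := by
  have : X.map (c • θ) ≤ X.map θ := by
    rintro _ ⟨x, hx, rfl⟩
    rw [LinearMap.smul_apply]
    exact Submodule.smul_mem _ c ⟨x, hx, rfl⟩
  exact h.mono_left this

/-! ### The classes `EE`, `E1`, `E2`, `E0` -/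

variable (A : Submodule K V)

/-- `θ A ⊆ A + finite`. -/
def EE (θ : Module.End K V) : Prop := AlmostLE (A.map θ) A

/-- `θ V ⊆ A + finite`. -/
def E1 (θ : Module.End K V) : Prop := AlmostLE (LinearMap.range θ) A

/-- `θ A` is finite-dimensional. -/
def E2 (θ : Module.End K V) : Prop := AlmostLE (A.map θ) ⊥

/-- `E₀ = E₁ ∩ E₂`. -/
def E0 (θ : Module.End K V) : Prop := E1 A θ ∧ E2 A θ

variable {A}

theorem E1.toEE {θ : Module.End K V} (h : E1 A θ) : EE A θ :=
  AlmostLE.mono_left (by rintro _ ⟨x, -, rfl⟩; exact ⟨x, rfl⟩) h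

theorem E2.toEE {θ : Module.End K V} (h : E2 A θ) : EE A θ :=
  AlmostLE.trans h (AlmostLE.of_le bot_le)

theorem E0.toEE {θ : Module.End K V} (h : E0 A θ) : EE A θ := h.1.toEE

theorem EE.one : EE A (1 : Module.End K V) := by
  unfold EE
  rw [show A.map (1 : Module.End K V) = A from Submodule.map_id A]
  exact AlmostLE.refl A

theorem EE.of_map_le {θ : Module.End K V} (h : A.map θ ≤ A) : EE A θ := AlmostLE.of_le h

theorem EE.add {θ φ : Module.End K V} (h : EE A θ) (h' : EE A φ) : EE A (θ + φ) :=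
  AlmostLE.add_map h h'

theorem EE.neg {θ : Module.End K V} (h : EE A θ) : EE A (-θ) := AlmostLE.neg_map h

theorem EE.sub {θ φ : Module.End K V} (h : EE A θ) (h' : EE A φ) : EE A (θ - φ) := by
  rw [sub_eq_add_neg]; exact h.add h'.neg

theorem EE.smul {θ : Module.End K V} (c : K) (h : EE A θ) : EE A (c • θ) := AlmostLE.smul_map c h

theorem map_mul_eq (X : Submodule K V) (θ φ : Module.End K V) :
    X.map (θ * φ) = (X.map φ).map θ := by
  rw [Module.End.mul_eq_comp, Submodule.map_comp]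

theorem range_mul_eq (θ φ : Module.End K V) :
    LinearMap.range (θ * φ) = (LinearMap.range φ).map θ := by
  rw [Module.End.mul_eq_comp, LinearMap.range_comp]

theorem EE.mul {θ φ : Module.End K V} (h : EE A θ) (h' : EE A φ) : EE A (θ * φ) := by
  unfold EE
  rw [map_mul_eq]
  exact (AlmostLE.map h' θ).trans h

theorem E1.add {θ φ : Module.End K V} (h : E1 A θ) (h' : E1 A φ) : E1 A (θ + φ) := by
  unfold E1 at *
  have : LinearMap.range (θ + φ) ≤ LinearMap.range θ ⊔ LinearMap.range φ := by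
    rintro _ ⟨x, rfl⟩
    rw [LinearMap.add_apply]
    exact Submodule.add_mem _ (Submodule.mem_sup_left ⟨x, rfl⟩) (Submodule.mem_sup_right ⟨x, rfl⟩)
  exact (h.sup h').mono_left this

theorem E1.neg {θ : Module.End K V} (h : E1 A θ) : E1 A (-θ) := by
  unfold E1 at *
  have : LinearMap.range (-θ) ≤ LinearMap.range θ := by
    rintro _ ⟨x, rfl⟩
    rw [LinearMap.neg_apply]
    exact Submodule.neg_mem _ ⟨x, rfl⟩
  exact h.mono_left this

theorem E1.sub {θ φ : Module.End K V} (h : E1 A θ) (h' : E1 A φ) : E1 A (θ - φ) := by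
  rw [sub_eq_add_neg]; exact h.add h'.neg

theorem E1.smul {θ : Module.End K V} (c : K) (h : E1 A θ) : E1 A (c • θ) := by
  unfold E1 at *
  have : LinearMap.range (c • θ) ≤ LinearMap.range θ := by
    rintro _ ⟨x, rfl⟩
    rw [LinearMap.smul_apply]
    exact Submodule.smul_mem _ c ⟨x, rfl⟩
  exact h.mono_left this

theorem E1.mul_right {θ : Module.End K V} (h : E1 A θ) (φ : Module.End K V) : E1 A (θ * φ) := by
  unfold E1 at *
  refine h.mono_left ?_
  rintro _ ⟨x, rfl⟩
  exact ⟨φ x, rfl⟩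

theorem E1.mul_left {θ φ : Module.End K V} (h : E1 A θ) (h' : EE A φ) : E1 A (φ * θ) := by
  unfold E1 at *
  rw [range_mul_eq]
  exact (AlmostLE.map h φ).trans h'

theorem E2.add {θ φ : Module.End K V} (h : E2 A θ) (h' : E2 A φ) : E2 A (θ + φ) :=
  AlmostLE.add_map h h'

theorem E2.neg {θ : Module.End K V} (h : E2 A θ) : E2 A (-θ) := AlmostLE.neg_map h

theorem E2.sub {θ φ : Module.End K V} (h : E2 A θ) (h' : E2 A φ) : E2 A (θ - φ) := by
  rw [sub_eq_add_neg]; exact h.add h'.neg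

theorem E2.smul {θ : Module.End K V} (c : K) (h : E2 A θ) : E2 A (c • θ) :=
  AlmostLE.smul_map c h

theorem E2.mul_right {θ φ : Module.End K V} (h : E2 A θ) (h' : EE A φ) : E2 A (θ * φ) := by
  unfold E2 at *
  rw [map_mul_eq]
  exact (AlmostLE.map h' θ).trans h

theorem E2.mul_left {θ : Module.End K V} (h : E2 A θ) (φ : Module.End K V) : E2 A (φ * θ) := by
  unfold E2 at *
  rw [map_mul_eq]
  have := AlmostLE.map h φ
  rwa [Submodule.map_bot] at this

theorem E0.add {θ φ : Module.End K V} (h : E0 A θ) (h' : E0 A φ) : E0 A (θ + φ) :=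
  ⟨h.1.add h'.1, h.2.add h'.2⟩

theorem E0.neg {θ : Module.End K V} (h : E0 A θ) : E0 A (-θ) := ⟨h.1.neg, h.2.neg⟩

theorem E0.sub {θ φ : Module.End K V} (h : E0 A θ) (h' : E0 A φ) : E0 A (θ - φ) :=
  ⟨h.1.sub h'.1, h.2.sub h'.2⟩

theorem E0.smul {θ : Module.End K V} (c : K) (h : E0 A θ) : E0 A (c • θ) :=
  ⟨h.1.smul c, h.2.smul c⟩

theorem E0.mul_right {θ φ : Module.End K V} (h : E0 A θ) (h' : EE A φ) : E0 A (θ * φ) :=
  ⟨h.1.mul_right φ, h.2.mul_right h'⟩

theorem E0.mul_left {θ φ : Module.End K V} (h : E0 A θ) (h' : EE A φ) : E0 A (φ * θ) :=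
  ⟨h.1.mul_left h', h.2.mul_left φ⟩

/-- A product `θ₁ θ₂` with `θ₁ ∈ E₂`, `θ₂ ∈ E₁` has finite rank. -/
theorem finiteDimensional_range_mul {θ₁ θ₂ : Module.End K V} (h1 : E2 A θ₁) (h2 : E1 A θ₂) :
    FiniteDimensional K (LinearMap.range (θ₁ * θ₂)) := by
  rw [range_mul_eq]
  exact ((AlmostLE.map h2 θ₁).trans h1).finiteDimensional

theorem E0.finPot {θ : Module.End K V} (h : E0 A θ) : FinPot θ :=
  ⟨2, by rw [pow_two]; exact finiteDimensional_range_mul h.2 h.1⟩

/-- **Additivity of the trace on `E₀`.** -/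
theorem fpTr_add_of_E0 {θ φ : Module.End K V} (h : E0 A θ) (h' : E0 A φ) :
    fpTr (θ + φ) = fpTr θ + fpTr φ := by
  have f1 := finiteDimensional_range_mul h.2 h.1
  have f2 := finiteDimensional_range_mul h.2 h'.1
  have f3 := finiteDimensional_range_mul h'.2 h.1
  have f4 := finiteDimensional_range_mul h'.2 h'.1
  set W : Submodule K V := LinearMap.range (θ * θ) ⊔ LinearMap.range (θ * φ) ⊔
    LinearMap.range (φ * θ) ⊔ LinearMap.range (φ * φ) with hW
  have hfin : FiniteDimensional K W := by rw [hW]; infer_instance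
  have m1 : LinearMap.range (θ * θ) ≤ W := le_sup_of_le_left (le_sup_of_le_left le_sup_left)
  have m2 : LinearMap.range (θ * φ) ≤ W := le_sup_of_le_left (le_sup_of_le_left le_sup_right)
  have m3 : LinearMap.range (φ * θ) ≤ W := le_sup_of_le_left le_sup_right
  have m4 : LinearMap.range (φ * φ) ≤ W := le_sup_right
  -- images of `W` under `θ`, `φ`
  have key : ∀ (a : Module.End K V), (LinearMap.range (a * θ) ≤ W) →
      (LinearMap.range (a * φ) ≤ W) → ∀ x ∈ W, a x ∈ W := by
    intro a ha1 ha2 x hx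
    have hle : W ≤ LinearMap.range θ ⊔ LinearMap.range φ := by
      rw [hW]
      refine sup_le (sup_le (sup_le ?_ ?_) ?_) ?_
      · rintro _ ⟨y, rfl⟩; exact Submodule.mem_sup_left ⟨θ y, rfl⟩
      · rintro _ ⟨y, rfl⟩; exact Submodule.mem_sup_left ⟨φ y, rfl⟩
      · rintro _ ⟨y, rfl⟩; exact Submodule.mem_sup_right ⟨θ y, rfl⟩
      · rintro _ ⟨y, rfl⟩; exact Submodule.mem_sup_right ⟨φ y, rfl⟩
    obtain ⟨u, ⟨y, rfl⟩, w, ⟨z, rfl⟩, rfl⟩ := Submodule.mem_sup.mp (hle hx)
    rw [map_add]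
    exact Submodule.add_mem _ (ha1 ⟨y, rfl⟩) (ha2 ⟨z, rfl⟩)
  have hθ : ∀ x ∈ W, θ x ∈ W := key θ m1 m2
  have hφ : ∀ x ∈ W, φ x ∈ W := key φ m3 m4
  refine fpTr_add_of_stable θ φ W hθ hφ 2 (by rw [pow_two]; exact m1)
    (by rw [pow_two]; exact m4) ?_
  rw [pow_two]
  rintro _ ⟨x, rfl⟩
  have : ((θ + φ) * (θ + φ)) x = (θ * θ) x + (θ * φ) x + (φ * θ) x + (φ * φ) x := by
    simp only [Module.End.mul_apply, LinearMap.add_apply, map_add]
    abel
  rw [this]
  exact Submodule.add_mem _ (Submodule.add_mem _ (Submodule.add_mem _ (m1 ⟨x, rfl⟩)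
    (m2 ⟨x, rfl⟩)) (m3 ⟨x, rfl⟩)) (m4 ⟨x, rfl⟩)

theorem fpTr_sub_of_E0 {θ φ : Module.End K V} (h : E0 A θ) (h' : E0 A φ) :
    fpTr (θ - φ) = fpTr θ - fpTr φ := by
  rw [sub_eq_add_neg, fpTr_add_of_E0 h h'.neg, fpTr_neg, sub_eq_add_neg]

/-- The trace kills commutators `[δ, g]` with `δ ∈ E₀`, `g ∈ EE`. -/
theorem fpTr_commutator_eq_zero {δ g : Module.End K V} (hδ : E0 A δ) (hg : EE A g) :
    fpTr (δ * g - g * δ) = 0 := by
  rw [fpTr_sub_of_E0 (hδ.mul_right hg) (hδ.mul_left hg)]
  have := fpTr_comp_comm δ g (hδ.mul_right hg).finPot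
  rw [Module.End.mul_eq_comp, Module.End.mul_eq_comp, this, sub_self]

/-- **Independence of the lift.** -/
theorem fpTr_commutator_congr {f₁ f₁' g : Module.End K V} (hδ : E0 A (f₁ - f₁'))
    (hg : EE A g) (h' : E0 A (f₁' * g - g * f₁')) :
    fpTr (f₁ * g - g * f₁) = fpTr (f₁' * g - g * f₁') := by
  have e : f₁ * g - g * f₁ = (f₁' * g - g * f₁') + ((f₁ - f₁') * g - g * (f₁ - f₁')) := by
    noncomm_ring
  rw [e, fpTr_add_of_E0 h' ((hδ.mul_right hg).sub (hδ.mul_left hg)),
    fpTr_commutator_eq_zero hδ hg, add_zero]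

end Fermat.Agent.Lib.RR.H80

end
end
-- ===== PACK-END Lib/RR/H80/Res/Almost.lean

-- ===== PACK-BEGIN Lib/RR/H80/Res/Symbol.lean
section


/-!
# Tate's residue symbol, abstract part 2: the symbol `tsym p f g = Tr [p f, g]`

`p` is a projector onto a subspace `A ⊆ V`, `f`, `g` are commuting endomorphisms with
`f A ≲ A`, `g A ≲ A`.  `tsym p f g` is Tate's `res^V_A (f dg)`.

* `tsym_congr`      : independence of the projector and of `A` up to commensurability;
* `tsym_add_left`, `tsym_smul_left`, `tsym_add_right`, `tsym_smul_right` : bilinearity;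
* `tsym_leibniz`    : `res (f d(gh)) = res (fg dh) + res (fh dg)`;
* `tsym_eq_zero_of_map_le` : `res (f dg) = 0` if `f A ⊆ A` and `g A ⊆ A`;
* `tsym_unif`       : `res (h g⁻¹ dg) = c` if `g A ⊆ A`, `A = g A ⊕ K a₀` and `h ≡ c` on `A / g A`;
* `tsym_eq_zero_of_cocompact` : the abstract residue theorem.
-/

set_option autoImplicit false

noncomputable section

namespace Fermat.Agent.Lib.RR.H80

open LinearMap Module

variable {K V : Type*} [Field K] [AddCommGroup V] [Module K V]

variable {A A' : Submodule K V}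

/-! ### Commensurable subspaces -/

theorem EE.of_almost (h1 : AlmostLE A A') (h2 : AlmostLE A' A) {θ : Module.End K V}
    (h : EE A θ) : EE A' θ :=
  ((AlmostLE.map h2 θ).trans h).trans h1

theorem E1.of_almost (h1 : AlmostLE A A') {θ : Module.End K V} (h : E1 A θ) : E1 A' θ :=
  AlmostLE.trans h h1

theorem E2.of_almost (h2 : AlmostLE A' A) {θ : Module.End K V} (h : E2 A θ) : E2 A' θ :=
  (AlmostLE.map h2 θ).trans h

theorem E0.of_almost (h1 : AlmostLE A A') (h2 : AlmostLE A' A) {θ : Module.End K V}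
    (h : E0 A θ) : E0 A' θ :=
  ⟨h.1.of_almost h1, h.2.of_almost h2⟩

/-! ### Projectors -/

theorem isProj_E1 {p : Module.End K V} (hp : LinearMap.IsProj A p) : E1 A p :=
  AlmostLE.of_le (by rintro _ ⟨x, rfl⟩; exact hp.map_mem x)

/-- If `θ X ≲ A` then `(θ - p θ) X` is finite-dimensional. -/
theorem almostLE_map_sub_proj {p : Module.End K V} (hp : LinearMap.IsProj A p)
    {X : Submodule K V} {θ : Module.End K V} (h : AlmostLE (X.map θ) A) :
    AlmostLE (X.map (θ - p * θ)) ⊥ := by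
  obtain ⟨W, hW, h⟩ := h
  refine ⟨W ⊔ W.map p, inferInstance, ?_⟩
  rw [bot_sup_eq]
  rintro _ ⟨x, hx, rfl⟩
  obtain ⟨a, ha, w, hw, e⟩ := Submodule.mem_sup.mp (h ⟨x, hx, rfl⟩)
  have : (θ - p * θ) x = w - p w := by
    rw [LinearMap.sub_apply, Module.End.mul_apply, ← e, map_add, hp.map_id a ha]
    abel
  rw [this]
  exact Submodule.sub_mem _ (Submodule.mem_sup_left hw) (Submodule.mem_sup_right ⟨w, hw, rfl⟩)

theorem isProj_sub_mul_E2 {p f : Module.End K V} (hp : LinearMap.IsProj A p) (hf : EE A f) :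
    E2 A (f - p * f) :=
  almostLE_map_sub_proj hp hf

theorem isProj_mul_E1 {p : Module.End K V} (hp : LinearMap.IsProj A p) (f : Module.End K V) :
    E1 A (p * f) :=
  (isProj_E1 hp).mul_right f

/-- `f p - p f ∈ E₀` for `f ∈ EE`. -/
theorem isProj_commutator_E0 {p f : Module.End K V} (hp : LinearMap.IsProj A p)
    (hf : EE A f) : E0 A (f * p - p * f) := by
  refine ⟨((isProj_E1 hp).mul_left hf).sub (isProj_mul_E1 hp f), ?_⟩
  have h := isProj_sub_mul_E2 hp hf
  unfold E2 at *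
  refine h.mono_left ?_
  rintro _ ⟨a, ha, rfl⟩
  refine ⟨a, ha, ?_⟩
  simp only [LinearMap.sub_apply, Module.End.mul_apply, hp.map_id a ha]

/-- `p - p' ∈ E₀(A)` for projectors onto commensurable subspaces. -/
theorem isProj_sub_E0 {p p' : Module.End K V} (hp : LinearMap.IsProj A p)
    (hp' : LinearMap.IsProj A' p') (h1 : AlmostLE A A') (h2 : AlmostLE A' A) :
    E0 A (p - p') := by
  refine ⟨(isProj_E1 hp).sub ((isProj_E1 hp').of_almost h2), ?_⟩
  have h : AlmostLE (A.map (1 : Module.End K V)) A' := by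
    rw [show A.map (1 : Module.End K V) = A from Submodule.map_id A]; exact h1
  have h3 := almostLE_map_sub_proj hp' h
  unfold E2
  refine h3.mono_left ?_
  rintro _ ⟨a, ha, rfl⟩
  refine ⟨a, ha, ?_⟩
  simp only [LinearMap.sub_apply, Module.End.mul_apply, Module.End.one_apply, hp.map_id a ha]

/-! ### The symbol -/

/-- Tate's symbol `res^V_A (f dg) = Tr [p f, g]`, `p` a projector onto `A`. -/
def tsym (p f g : Module.End K V) : K := fpTr (p * f * g - g * (p * f))

theorem commutator_E0 {p f g : Module.End K V} (hp : LinearMap.IsProj A p) (hf : EE A f)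
    (hg : EE A g) (hc : f * g = g * f) : E0 A (p * f * g - g * (p * f)) := by
  refine ⟨((isProj_mul_E1 hp f).mul_right g).sub ((isProj_mul_E1 hp f).mul_left hg), ?_⟩
  have e : p * f * g - g * (p * f) = -((f - p * f) * g - g * (f - p * f)) := by
    have : f * g - g * f = 0 := sub_eq_zero.mpr hc
    calc p * f * g - g * (p * f)
        = -((f - p * f) * g - g * (f - p * f)) + (f * g - g * f) := by noncomm_ring
      _ = _ := by rw [this, add_zero]
  rw [e]
  have h := isProj_sub_mul_E2 hp hf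
  exact ((h.mul_right hg).sub (h.mul_left g)).neg

/-- Independence of the projector and of the subspace up to commensurability. -/
theorem tsym_congr {p p' f g : Module.End K V} (hp : LinearMap.IsProj A p)
    (hp' : LinearMap.IsProj A' p') (h1 : AlmostLE A A') (h2 : AlmostLE A' A)
    (hf : EE A f) (hg : EE A g) (hc : f * g = g * f) :
    tsym p f g = tsym p' f g := by
  unfold tsym
  refine fpTr_commutator_congr (A := A) ?_ hg ?_
  · have : p * f - p' * f = (p - p') * f := by noncomm_ring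
    rw [this]
    exact (isProj_sub_E0 hp hp' h1 h2).mul_right hf
  · exact (commutator_E0 hp' (hf.of_almost h1 h2) (hg.of_almost h1 h2) hc).of_almost h2 h1

theorem tsym_add_left {p f f' g : Module.End K V} (hp : LinearMap.IsProj A p)
    (hf : EE A f) (hf' : EE A f') (hg : EE A g) (hc : f * g = g * f) (hc' : f' * g = g * f') :
    tsym p (f + f') g = tsym p f g + tsym p f' g := by
  unfold tsym
  rw [← fpTr_add_of_E0 (commutator_E0 hp hf hg hc) (commutator_E0 hp hf' hg hc')]
  congr 1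
  noncomm_ring

theorem tsym_smul_left (p f g : Module.End K V) (c : K) :
    tsym p (c • f) g = c * tsym p f g := by
  unfold tsym
  rw [← fpTr_smul]
  congr 1
  simp only [mul_smul_comm, smul_mul_assoc, smul_sub]

theorem tsym_add_right {p f g g' : Module.End K V} (hp : LinearMap.IsProj A p)
    (hf : EE A f) (hg : EE A g) (hg' : EE A g') (hc : f * g = g * f) (hc' : f * g' = g' * f) :
    tsym p f (g + g') = tsym p f g + tsym p f g' := by
  unfold tsym
  rw [← fpTr_add_of_E0 (commutator_E0 hp hf hg hc) (commutator_E0 hp hf hg' hc')]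
  congr 1
  noncomm_ring

theorem tsym_smul_right (p f g : Module.End K V) (c : K) :
    tsym p f (c • g) = c * tsym p f g := by
  unfold tsym
  rw [← fpTr_smul]
  congr 1
  simp only [mul_smul_comm, smul_mul_assoc, smul_sub]

/-- **Leibniz rule**: `res (f d(gh)) = res (fg dh) + res (fh dg)`. -/
theorem tsym_leibniz {p f g h : Module.End K V} (hp : LinearMap.IsProj A p)
    (hf : EE A f) (hg : EE A g) (hh : EE A h) (hfg : f * g = g * f) (hfh : f * h = h * f)
    (hgh : g * h = h * g) :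
    tsym p f (g * h) = tsym p (f * g) h + tsym p (f * h) g := by
  have hfgh : (f * g) * h = h * (f * g) := by
    rw [mul_assoc, hgh, ← mul_assoc, hfh, mul_assoc]
  have hfhg : (f * h) * g = g * (f * h) := by
    rw [mul_assoc, ← hgh, ← mul_assoc, hfg, mul_assoc]
  have e0 : E0 A (p * (f * g) * h - h * (p * (f * g))) :=
    commutator_E0 hp (hf.mul hg) hh hfgh
  have e1 : E0 A (p * (f * h) * g - g * (p * (f * h))) :=
    commutator_E0 hp (hf.mul hh) hg hfhg
  -- the second term, with the lift `h p f` of `h f`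
  have hδ : E0 A (h * (p * f) - p * (f * h)) := by
    have : h * (p * f) - p * (f * h) = (h * p - p * h) * f := by
      rw [hfh]; noncomm_ring
    rw [this]
    exact (isProj_commutator_E0 hp hh).mul_right hf
  have e2 := fpTr_commutator_congr (A := A) hδ hg e1
  unfold tsym
  rw [← e2, ← fpTr_add_of_E0 e0 ?_]
  · congr 1
    noncomm_ring
  · -- `[h p f, g] ∈ E₀`
    have : h * (p * f) * g - g * (h * (p * f))
        = (p * (f * h) * g - g * (p * (f * h)))
          + ((h * (p * f) - p * (f * h)) * g - g * (h * (p * f) - p * (f * h))) := by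
      noncomm_ring
    rw [this]
    exact e1.add ((hδ.mul_right hg).sub (hδ.mul_left hg))

/-- `res (f dg) = 0` if `f` and `g` preserve `A`. -/
theorem tsym_eq_zero_of_map_le {p f g : Module.End K V} (hp : LinearMap.IsProj A p)
    (hf : A.map f ≤ A) (hg : A.map g ≤ A) (hc : f * g = g * f) :
    tsym p f g = 0 := by
  unfold tsym
  apply fpTr_eq_zero_of_pow_eq_zero _ 2
  have hrange : ∀ x, (p * f * g - g * (p * f)) x ∈ A := by
    intro x
    simp only [LinearMap.sub_apply, Module.End.mul_apply]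
    exact Submodule.sub_mem _ (hp.map_mem _) (hg ⟨_, hp.map_mem _, rfl⟩)
  have hzero : ∀ a ∈ A, (p * f * g - g * (p * f)) a = 0 := by
    intro a ha
    have hga : g a ∈ A := hg ⟨a, ha, rfl⟩
    have hfa : f a ∈ A := hf ⟨a, ha, rfl⟩
    have hfga : f (g a) ∈ A := hf ⟨_, hga, rfl⟩
    simp only [LinearMap.sub_apply, Module.End.mul_apply]
    rw [hp.map_id _ hfga, hp.map_id _ hfa]
    have := congrArg (fun θ : Module.End K V => θ a) hc
    simp only [Module.End.mul_apply] at this
    rw [this, sub_self]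
  ext x
  rw [pow_two, Module.End.mul_apply, hzero _ (hrange x)]
  rfl

end Fermat.Agent.Lib.RR.H80

end
end
-- ===== PACK-END Lib/RR/H80/Res/Symbol.lean

-- ===== PACK-BEGIN A2/T1/H669/Embed.lean
section



/-!
# WALL A2, piece T1/T2 (helper669): the coefficient embedding `F_E → F̄`

For an intermediate field `E ⊆ ℚ̄` and `F₀ ⊆ ℚ((t))`:

* `iota E F₀ : laurentBaseChange E F₀ →+* laurentBaseChange ℚ̄ F₀` (coefficientwise inclusion);
* `iota_algebraMap`, `iota_arithmeticRingAut` (compatibility with constants and with the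
  coefficientwise Galois action restricted to a stable `E`);
* `exists_iota_eq` : every element of `laurentBaseChange ℚ̄ F₀` is `iota` of an element over any
  intermediate field containing a suitable finite set (finite descent, from `S18.H602`);
* `adjoin_algebraic_eq_top` : `F̄` is generated over `iota F_E` by constants.
-/

set_option autoImplicit false

noncomputable section

namespace Fermat.Agent.A2.T1.H669

open ModularCurve AlgebraicCurve

/-- The field `ℚ̄`. -/
abbrev Qb : Type := AlgebraicClosure ℚ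

variable (E : IntermediateField ℚ _root_.Fermat.Agent.A2.T1.H669.Qb) (F₀ : IntermediateField ℚ (LaurentSeries ℚ))

/-- Coefficientwise inclusion `F_E → F̄`. -/
def iota : ↥(laurentBaseChange E F₀) →+* ↥(laurentBaseChange _root_.Fermat.Agent.A2.T1.H669.Qb F₀) where
  toFun x := ⟨coeffMap (algebraMap E _root_.Fermat.Agent.A2.T1.H669.Qb) (x : LaurentSeries E),
    Fermat.Agent.S18.H602.coeffMap_mem_laurentBaseChange F₀ _ x.2⟩
  map_one' := Subtype.ext (map_one _)
  map_mul' _ _ := Subtype.ext (map_mul _ _ _)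
  map_zero' := Subtype.ext (map_zero _)
  map_add' _ _ := Subtype.ext (map_add _ _ _)

@[simp]
theorem coe_iota (x : ↥(laurentBaseChange E F₀)) :
    ((iota E F₀ x : ↥(laurentBaseChange _root_.Fermat.Agent.A2.T1.H669.Qb F₀)) : LaurentSeries _root_.Fermat.Agent.A2.T1.H669.Qb) =
      coeffMap (algebraMap E _root_.Fermat.Agent.A2.T1.H669.Qb) (x : LaurentSeries E) := rfl

theorem iota_injective : Function.Injective (iota E F₀) := (iota E F₀).injective

theorem iota_ne_zero {x : ↥(laurentBaseChange E F₀)} (hx : x ≠ 0) : iota E F₀ x ≠ 0 :=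
  (map_ne_zero_iff _ (iota_injective E F₀)).2 hx

theorem iota_algebraMap (e : E) :
    iota E F₀ (algebraMap E ↥(laurentBaseChange E F₀) e) =
      algebraMap _root_.Fermat.Agent.A2.T1.H669.Qb ↥(laurentBaseChange _root_.Fermat.Agent.A2.T1.H669.Qb F₀) (algebraMap E _root_.Fermat.Agent.A2.T1.H669.Qb e) :=
  Subtype.ext (Fermat.Agent.S18.H602.coeffMap_algebraMap' (algebraMap E _root_.Fermat.Agent.A2.T1.H669.Qb) e)

/-- Compatibility with the arithmetic action: if `τE` is the restriction of `τ` to `E`. -/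
theorem iota_arithmeticRingAut (τ : _root_.Fermat.Agent.A2.T1.H669.Qb ≃ₐ[ℚ] _root_.Fermat.Agent.A2.T1.H669.Qb) (τE : E ≃ₐ[ℚ] E)
    (hτ : ∀ e : E, ((τE e : E) : _root_.Fermat.Agent.A2.T1.H669.Qb) = τ (e : _root_.Fermat.Agent.A2.T1.H669.Qb)) (x : ↥(laurentBaseChange E F₀)) :
    iota E F₀ (arithmeticRingAut F₀ τE x) = arithmeticRingAut F₀ τ (iota E F₀ x) := by
  apply Subtype.ext
  show coeffMap (algebraMap E _root_.Fermat.Agent.A2.T1.H669.Qb) (coeffMap (τE : E →+* E) (x : LaurentSeries E)) =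
    coeffMap (τ : _root_.Fermat.Agent.A2.T1.H669.Qb →+* _root_.Fermat.Agent.A2.T1.H669.Qb) (coeffMap (algebraMap E _root_.Fermat.Agent.A2.T1.H669.Qb) (x : LaurentSeries E))
  rw [coeffMap_coeffMap, coeffMap_coeffMap]
  exact coeffMap_congr (RingHom.ext fun e => hτ e) _

end Fermat.Agent.A2.T1.H669

end
end
-- ===== PACK-END A2/T1/H669/Embed.lean

-- ===== PACK-BEGIN S18/H845/ConstExt.lean
section



/-!
# S18 / d1(c): extending a discrete valuation ring along a constant-field extension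

`E ⊆ K ⊆ L` fields, `E` perfect, `V ⊆ K` a discrete valuation subring containing `E`, and
`L = K[algebraic constants]` (every element of `L` lies in `K[α]` for some `α` algebraic over
`E`).  Then there is a valuation subring `B` of `L` with `B ∩ K = V` which is again a discrete
valuation ring, and a uniformiser of `V` is a uniformiser of `B` (`e = 1`).
-/

set_option autoImplicit false
set_option linter.unusedSectionVars false

namespace Fermat.Agent.S18.H845

open Polynomial IsLocalRing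

section DVR

variable {L : Type*} [Field L] (B : ValuationSubring L) {ϖ : L} (hϖ0 : ϖ ≠ 0)
  (hϖ : B.valuation ϖ < 1)
  (hval : ∀ f : L, f ≠ 0 → ∃ k : ℤ, B.valuation f = B.valuation ϖ ^ k)

include hϖ in
lemma unif_mem : ϖ ∈ B := (B.valuation_le_one_iff _).mp hϖ.le

include hϖ0 in
lemma val_unif_pos : 0 < B.valuation ϖ := zero_lt_iff.mpr ((Valuation.ne_zero_iff _).mpr hϖ0)

include hϖ0 hϖ hval in
/-- Every nonzero element of `B` is associated to a power of `ϖ`. -/
lemma associated_pow (x : B) (hx : x ≠ 0) :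
    ∃ n : ℕ, Associated ((⟨ϖ, unif_mem B hϖ⟩ : B) ^ n) x := by
  have hxL : (x : L) ≠ 0 := fun h => hx (Subtype.ext h)
  obtain ⟨k, hk⟩ := hval x hxL
  have hpos := val_unif_pos B hϖ0
  have hk0 : 0 ≤ k := by
    have h1 : B.valuation (x : L) ≤ 1 := B.valuation_le_one x
    rw [hk] at h1
    exact (zpow_le_one_iff_right_of_lt_one₀ hpos hϖ).mp h1
  obtain ⟨n, rfl⟩ : ∃ n : ℕ, k = n := ⟨k.toNat, by omega⟩
  refine ⟨n, ?_⟩
  rw [zpow_natCast] at hk
  -- the unit
  have hu : B.valuation ((x : L) / ϖ ^ n) = 1 := by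
    rw [map_div₀, map_pow, hk]
    exact div_self (pow_ne_zero n hpos.ne')
  have huB : (x : L) / ϖ ^ n ∈ B := (B.valuation_le_one_iff _).mp hu.le
  have hunit : IsUnit (⟨(x : L) / ϖ ^ n, huB⟩ : B) := (B.valuation_eq_one_iff _).mpr hu
  obtain ⟨u, hu'⟩ := hunit
  refine ⟨u, ?_⟩
  apply Subtype.ext
  rw [hu']
  show ϖ ^ n * ((x : L) / ϖ ^ n) = x
  field_simp

include hϖ0 hϖ hval in
/-- `ϖ` is irreducible in `B`. -/
lemma irreducible_unif : Irreducible (⟨ϖ, unif_mem B hϖ⟩ : B) := by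
  have hpos := val_unif_pos B hϖ0
  refine ⟨?_, ?_⟩
  · intro hu
    have := (B.valuation_eq_one_iff _).mp hu
    exact absurd this hϖ.ne
  · intro a b hab
    have habL : ϖ = (a : L) * (b : L) := congrArg Subtype.val hab
    have ha0 : (a : L) ≠ 0 := fun h => hϖ0 (by rw [habL, h, zero_mul])
    have hb0 : (b : L) ≠ 0 := fun h => hϖ0 (by rw [habL, h, mul_zero])
    obtain ⟨i, hi⟩ := hval a ha0
    obtain ⟨j, hj⟩ := hval b hb0
    have hi0 : 0 ≤ i := by
      have h1 : B.valuation (a : L) ≤ 1 := B.valuation_le_one a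
      rw [hi] at h1
      exact (zpow_le_one_iff_right_of_lt_one₀ hpos hϖ).mp h1
    have hj0 : 0 ≤ j := by
      have h1 : B.valuation (b : L) ≤ 1 := B.valuation_le_one b
      rw [hj] at h1
      exact (zpow_le_one_iff_right_of_lt_one₀ hpos hϖ).mp h1
    have hsum : i + j = 1 := by
      have h1 : B.valuation ϖ ^ (1 : ℤ) = B.valuation ϖ ^ (i + j) := by
        rw [zpow_add₀ hpos.ne', ← hi, ← hj, ← map_mul, ← habL, zpow_one]
      exact (zpow_right_injective₀ hpos hϖ.ne h1).symm
    rcases (show i = 0 ∨ j = 0 by omega) with h | h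
    · left
      rw [B.valuation_eq_one_iff, hi, h, zpow_zero]
    · right
      rw [B.valuation_eq_one_iff, hj, h, zpow_zero]

include hϖ0 hϖ hval in
/-- `B` is a discrete valuation ring. -/
theorem isDiscreteValuationRing_of_val : IsDiscreteValuationRing B :=
  IsDiscreteValuationRing.ofHasUnitMulPowIrreducibleFactorization
    ⟨⟨ϖ, unif_mem B hϖ⟩, irreducible_unif B hϖ0 hϖ hval,
      fun {x} hx => associated_pow B hϖ0 hϖ hval x hx⟩

end DVR

section Generic

variable {E K L : Type*} [Field E] [Field K] [Field L] [Algebra E K] [Algebra K L] [Algebra E L]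
  [IsScalarTower E K L] [PerfectField E]

/-- Value-group statement for one valuation subring `B` of `L` dominating `V`. -/
theorem val_eq_zpow_of_dominates (V : ValuationSubring K) [IsDiscreteValuationRing V]
    (hEV : ∀ c : E, algebraMap E K c ∈ V)
    (B : ValuationSubring L) (hVB : ∀ x : K, x ∈ V → algebraMap K L x ∈ B)
    {π : V} (hπ : Irreducible π) (hπB : B.valuation (algebraMap K L (π : K)) < 1)
    {α : L} (hα : IsAlgebraic E α) (q : K[X]) (hq : aeval α q ≠ 0) :
    ∃ k : ℤ, B.valuation (aeval α q) = B.valuation (algebraMap K L (π : K)) ^ k := by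
  let _ : Algebra V L := ((algebraMap K L).comp (algebraMap V K)).toAlgebra
  have : IsScalarTower V K L := IsScalarTower.of_algebraMap_eq (fun _ => rfl)
  have hinj : Function.Injective (algebraMap V L) := by
    intro a b hab
    have h1 : algebraMap K L (a : K) = algebraMap K L (b : K) := hab
    exact Subtype.ext ((algebraMap K L).injective h1)
  have hRB : ∀ r : V, algebraMap V L r ∈ B := fun r => hVB r r.2
  -- the polynomial
  let fEV : E →+* V := (algebraMap E K).codRestrict V hEV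
  let p₀ := minpoly E α
  let p : V[X] := p₀.map fEV
  have hp : p.Monic := (minpoly.monic hα.isIntegral).map _
  have hpα : aeval α p = 0 := by
    show Polynomial.eval₂ (algebraMap V L) α (p₀.map fEV) = 0
    rw [Polynomial.eval₂_map]
    have : (algebraMap V L).comp fEV = algebraMap E L := by
      ext c
      show algebraMap K L (algebraMap E K c) = algebraMap E L c
      rw [← IsScalarTower.algebraMap_apply]
    rw [this]
    exact minpoly.aeval E α
  have hsep : (p.map (residue V)).Separable := by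
    rw [Polynomial.map_map]
    exact (PerfectField.separable_of_irreducible (minpoly.irreducible hα.isIntegral)).map
  -- clear denominators
  obtain ⟨b, hbM, hb⟩ := IsLocalization.integerNormalization_spec (nonZeroDivisors V) q
  set g := IsLocalization.integerNormalization (nonZeroDivisors V) q with hg
  have hb0 : (b : V) ≠ 0 := nonZeroDivisors.ne_zero hbM
  have hsm : b • q = C ((b : V) : K) * q := by
    rw [← Polynomial.smul_eq_C_mul]
    rfl
  have hev : aeval α g = algebraMap K L ((b : V) : K) * aeval α q := by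
    have h1 : aeval α (g.map (algebraMap V K)) = aeval α g := Polynomial.aeval_map_algebraMap K α g
    rw [← h1, hb, hsm, map_mul, aeval_C]
  have hbL : algebraMap K L ((b : V) : K) ≠ 0 := by
    intro h
    apply hb0
    have h' : ((b : V) : K) = 0 := (algebraMap K L).injective (by rw [h, map_zero])
    exact Subtype.ext h'
  have hg0 : aeval α g ≠ 0 := by
    rw [hev]
    exact mul_ne_zero hbL hq
  obtain ⟨j, hj⟩ := val_aeval_eq_pow B hRB hπ hπB hp hpα hsep hinj g hg0
  obtain ⟨k, hk⟩ := val_algebraMap_eq_pow B hRB hπ hb0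
  have hπ0 : B.valuation (algebraMap K L (π : K)) ≠ 0 := by
    rw [Valuation.ne_zero_iff]
    intro h
    have h' : (π : K) = 0 := (algebraMap K L).injective (by rw [h, map_zero])
    exact hπ.ne_zero (Subtype.ext h')
  refine ⟨(j : ℤ) - k, ?_⟩
  have e1 : B.valuation (algebraMap K L ((b : V) : K)) * B.valuation (aeval α q) =
      B.valuation (algebraMap K L (π : K)) ^ j := by
    rw [← map_mul, ← hev]
    exact hj
  have e2 : B.valuation (algebraMap K L ((b : V) : K)) =
      B.valuation (algebraMap K L (π : K)) ^ k := hk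
  rw [e2] at e1
  rw [zpow_sub₀ hπ0, zpow_natCast, zpow_natCast, ← e1]
  field_simp


omit [PerfectField E] [Algebra E K] [Algebra E L] [IsScalarTower E K L] in
/-- A valuation subring of `L` dominating the valuation subring `V` of `K`. -/
theorem exists_dominating (V : ValuationSubring K) :
    ∃ B : ValuationSubring L, B.comap (algebraMap K L) = V ∧
      ∀ x : V, ¬ IsUnit x → B.valuation (algebraMap K L (x : K)) < 1 := by
  let f : V →+* L := (algebraMap K L).comp V.subtype
  obtain ⟨B, hB, hloc⟩ := IsLocalRing.exists_factor_valuationRing f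
  have hnon : ∀ x : V, ¬ IsUnit x → B.valuation (algebraMap K L (x : K)) < 1 := by
    intro x hx
    have hx' : ¬ IsUnit (⟨f x, hB x⟩ : B) := fun h => hx (hloc.map_nonunit x h)
    have hmem : (⟨f x, hB x⟩ : B) ∈ maximalIdeal B :=
      (mem_maximalIdeal _).mpr hx'
    exact (B.valuation_lt_one_iff _).mp hmem
  refine ⟨B, ?_, hnon⟩
  ext x
  rw [ValuationSubring.mem_comap]
  constructor
  · intro hxB
    by_contra hxV
    have hx0 : x ≠ 0 := fun h => hxV (h ▸ V.zero_mem)
    have hinv : x⁻¹ ∈ V := (V.mem_or_inv_mem x).resolve_left hxV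
    have hnu : ¬ IsUnit (⟨x⁻¹, hinv⟩ : V) := by
      intro hu
      obtain ⟨u, hu⟩ := hu
      apply hxV
      have : x = ((u⁻¹ : Vˣ) : V) := by
        have h1 : ((u : V) : K) = x⁻¹ := congrArg Subtype.val hu
        have h2 : ((u : V) : K) * ((u⁻¹ : Vˣ) : V) = 1 := by
          exact congrArg Subtype.val (Units.mul_inv u)
        rw [h1] at h2
        field_simp at h2
        exact h2.symm
      rw [this]
      exact Subtype.mem _
    have hlt := hnon ⟨x⁻¹, hinv⟩ hnu
    have hle : B.valuation (algebraMap K L x) ≤ 1 := (B.valuation_le_one_iff _).mpr hxB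
    have hmul : B.valuation (algebraMap K L x⁻¹) * B.valuation (algebraMap K L x) = 1 := by
      rw [← map_mul, ← map_mul, inv_mul_cancel₀ hx0, map_one, map_one]
    have : B.valuation (algebraMap K L x⁻¹) * B.valuation (algebraMap K L x) < 1 :=
      mul_lt_one_of_lt_of_le hlt hle
    exact absurd hmul this.ne
  · intro hxV
    exact hB ⟨x, hxV⟩

/-- If `B` dominates `V` and `L = K[algebraic constants]`, every nonzero element of `L` has
valuation an integral power of the valuation of a uniformiser of `V`. -/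
theorem val_eq_zpow (V : ValuationSubring K) [IsDiscreteValuationRing V]
    (hEV : ∀ c : E, algebraMap E K c ∈ V)
    (hL : ∀ f : L, ∃ α : L, IsAlgebraic E α ∧ f ∈ Algebra.adjoin K {α})
    (B : ValuationSubring L) (hcomap : B.comap (algebraMap K L) = V)
    (hdom : ∀ x : V, ¬ IsUnit x → B.valuation (algebraMap K L (x : K)) < 1)
    {π : V} (hπ : Irreducible π) {f : L} (hf : f ≠ 0) :
    ∃ k : ℤ, B.valuation f = B.valuation (algebraMap K L (π : K)) ^ k := by
  obtain ⟨α, hα, hfα⟩ := hL f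
  rw [Algebra.adjoin_singleton_eq_range_aeval] at hfα
  obtain ⟨q, rfl⟩ := hfα
  have hVB : ∀ x : K, x ∈ V → algebraMap K L x ∈ B := fun x hx => by
    rw [← hcomap] at hx
    exact hx
  exact val_eq_zpow_of_dominates V hEV B hVB hπ (hdom π hπ.not_isUnit) hα q hf

/-- **d1(c), generic form.**  A discrete valuation ring `V` of `K` containing the perfect field
`E` extends to a discrete valuation ring `B` of `L = K(algebraic constants)` with `B ∩ K = V`,
containing all algebraic constants, in which every uniformiser of `V` stays a uniformiser. -/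
theorem exists_dvr_extension (V : ValuationSubring K) [IsDiscreteValuationRing V]
    (hEV : ∀ c : E, algebraMap E K c ∈ V)
    (hgen : IntermediateField.adjoin K {α : L | IsAlgebraic E α} = ⊤) :
    ∃ B : ValuationSubring L, B.comap (algebraMap K L) = V ∧ IsDiscreteValuationRing B ∧
      (∀ α : L, IsAlgebraic E α → α ∈ B) ∧
      (∀ π : V, Irreducible π →
        ∃ h : algebraMap K L (π : K) ∈ B, Irreducible (⟨algebraMap K L (π : K), h⟩ : B)) ∧
      (∀ π : V, Irreducible π → ∀ f : L, f ≠ 0 →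
        ∃ k : ℤ, B.valuation f = B.valuation (algebraMap K L (π : K)) ^ k) := by
  obtain ⟨B, hcomap, hdom⟩ := exists_dominating (L := L) V
  have hL := exists_mem_adjoin_singleton (E := E) (K := K) (L := L) hgen
  have hval : ∀ π : V, Irreducible π → ∀ f : L, f ≠ 0 →
      ∃ k : ℤ, B.valuation f = B.valuation (algebraMap K L (π : K)) ^ k :=
    fun π hπ f hf => val_eq_zpow V hEV hL B hcomap hdom hπ hf
  have hπ0 : ∀ π : V, Irreducible π → algebraMap K L (π : K) ≠ 0 := by
    intro π hπ h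
    have h' : (π : K) = 0 := (algebraMap K L).injective (by rw [h, map_zero])
    exact hπ.ne_zero (Subtype.ext h')
  obtain ⟨π, hπ⟩ := IsDiscreteValuationRing.exists_irreducible V
  refine ⟨B, hcomap,
    isDiscreteValuationRing_of_val B (hπ0 π hπ) (hdom π hπ.not_isUnit) (hval π hπ), ?_, ?_, hval⟩
  · intro α hα
    have hEB : ∀ c : E, algebraMap E L c ∈ B := by
      intro c
      rw [IsScalarTower.algebraMap_apply E K L]
      have : algebraMap E K c ∈ B.comap (algebraMap K L) := by rw [hcomap]; exact hEV c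
      exact this
    exact mem_of_monic_root B hEB (minpoly.monic hα.isIntegral) (minpoly.aeval E α)
  · intro π' hπ'
    exact ⟨unif_mem B (hdom π' hπ'.not_isUnit),
      irreducible_unif B (hπ0 π' hπ') (hdom π' hπ'.not_isUnit) (hval π' hπ')⟩

end Generic


end Fermat.Agent.S18.H845

end
-- ===== PACK-END S18/H845/ConstExt.lean

-- ===== PACK-BEGIN A2/T1/H669/T2.lean
section



/-!
# WALL A2, piece T2 (helper669): divisibility of the divisor descends from `F̄` to `F_E`

`E ⊆ ℚ̄` an intermediate field, `F_E = laurentBaseChange E F₀`, `F̄ = laurentBaseChange ℚ̄ F₀`,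
`iota : F_E → F̄`.  If `y ∈ F_E` and `m ∣ ord_v (iota y)` for every `Place` `v` of `F̄ / ℚ̄`, then
for every discrete valuation subring `V` of `F_E` containing `E` we have `y = u · h ^ m` with `u` a
unit of `V`, i.e. `Spec.DivisibleDiv E m y` (definition unfolded in the statement).

Proof: `S18.H845.exists_dvr_extension` (constant field extensions are unramified) extends `V` to a
discrete valuation subring `B` of `F̄` with the same uniformiser; `B` is a `Place`.
-/

set_option autoImplicit false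
set_option synthInstance.maxHeartbeats 400000
set_option maxHeartbeats 1600000

noncomputable section

namespace Fermat.Agent.A2.T1.H669

open ModularCurve AlgebraicCurve

variable (E : IntermediateField ℚ _root_.Fermat.Agent.A2.T1.H669.Qb) (F₀ : IntermediateField ℚ (LaurentSeries ℚ))

/-- `F̄` as an algebra over `F_E` (via `iota`). -/
@[reducible] def algFEFbar : Algebra ↥(laurentBaseChange E F₀) ↥(laurentBaseChange _root_.Fermat.Agent.A2.T1.H669.Qb F₀) :=
  (iota E F₀).toAlgebra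

theorem towerEFEFbar :
    letI := algFEFbar E F₀
    IsScalarTower E ↥(laurentBaseChange E F₀) ↥(laurentBaseChange _root_.Fermat.Agent.A2.T1.H669.Qb F₀) := by
  letI := algFEFbar E F₀
  exact IsScalarTower.of_algebraMap_eq fun e => (iota_algebraMap E F₀ e).symm

theorem isAlgebraic_const (a : _root_.Fermat.Agent.A2.T1.H669.Qb) :
    IsAlgebraic E (algebraMap _root_.Fermat.Agent.A2.T1.H669.Qb ↥(laurentBaseChange _root_.Fermat.Agent.A2.T1.H669.Qb F₀) a) := by
  have hQ : Algebra.IsAlgebraic ℚ _root_.Fermat.Agent.A2.T1.H669.Qb := AlgebraicClosure.isAlgebraic ℚ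
  have ha : IsAlgebraic E a := (hQ.isAlgebraic a).tower_top E
  exact ha.algebraMap

/-- `F̄` is generated over `F_E` by algebraic constants. -/
theorem adjoin_algebraic_eq_top :
    letI := algFEFbar E F₀
    IntermediateField.adjoin ↥(laurentBaseChange E F₀)
      {α : ↥(laurentBaseChange _root_.Fermat.Agent.A2.T1.H669.Qb F₀) | IsAlgebraic E α} = ⊤ := by
  letI := algFEFbar E F₀
  rw [eq_top_iff]
  rintro ⟨z, hz⟩ -
  have key : ∃ w : ↥(laurentBaseChange _root_.Fermat.Agent.A2.T1.H669.Qb F₀),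
      w ∈ IntermediateField.adjoin ↥(laurentBaseChange E F₀)
        {α : ↥(laurentBaseChange _root_.Fermat.Agent.A2.T1.H669.Qb F₀) | IsAlgebraic E α} ∧
      (w : LaurentSeries _root_.Fermat.Agent.A2.T1.H669.Qb) = z := by
    have hz2 := hz
    rw [mem_laurentBaseChange_iff] at hz2
    induction hz2 using Subfield.closure_induction with
    | mem y hy =>
        rcases hy with ⟨a, rfl⟩ | ⟨z₀, hz₀, rfl⟩
        · exact ⟨algebraMap _root_.Fermat.Agent.A2.T1.H669.Qb ↥(laurentBaseChange _root_.Fermat.Agent.A2.T1.H669.Qb F₀) a,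
            IntermediateField.subset_adjoin _ _ (isAlgebraic_const E F₀ a), rfl⟩
        · refine ⟨algebraMap ↥(laurentBaseChange E F₀) ↥(laurentBaseChange _root_.Fermat.Agent.A2.T1.H669.Qb F₀)
                ⟨coeffEmb E z₀, coeffEmb_mem_laurentBaseChange E hz₀⟩,
            IntermediateField.algebraMap_mem _ _, ?_⟩
          exact Fermat.Agent.S18.H602.coeffMap_coeffEmb' (algebraMap E _root_.Fermat.Agent.A2.T1.H669.Qb) z₀
    | one => exact ⟨1, one_mem _, rfl⟩
    | add x y hx' hy' hx hy =>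
        obtain ⟨w₁, hw₁, rfl⟩ := hx ((mem_laurentBaseChange_iff).2 hx')
        obtain ⟨w₂, hw₂, rfl⟩ := hy ((mem_laurentBaseChange_iff).2 hy')
        exact ⟨w₁ + w₂, add_mem hw₁ hw₂, rfl⟩
    | neg x hx' hx =>
        obtain ⟨w₁, hw₁, rfl⟩ := hx ((mem_laurentBaseChange_iff).2 hx')
        exact ⟨-w₁, neg_mem hw₁, rfl⟩
    | inv x hx' hx =>
        obtain ⟨w₁, hw₁, rfl⟩ := hx ((mem_laurentBaseChange_iff).2 hx')
        exact ⟨w₁⁻¹, inv_mem hw₁, IntermediateField.coe_inv _ _⟩
    | mul x y hx' hy' hx hy =>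
        obtain ⟨w₁, hw₁, rfl⟩ := hx ((mem_laurentBaseChange_iff).2 hx')
        obtain ⟨w₂, hw₂, rfl⟩ := hy ((mem_laurentBaseChange_iff).2 hy')
        exact ⟨w₁ * w₂, mul_mem hw₁ hw₂, rfl⟩
  obtain ⟨w, hw, hwz⟩ := key
  have hwz' : w = ⟨z, hz⟩ := Subtype.ext hwz
  rw [← hwz']
  exact hw

/-- **T2.**  `m ∣ div (iota y)` on `F̄ / ℚ̄` implies `Spec.DivisibleDiv E m y` (unfolded). -/
theorem divisibleDiv_of_ord (m : ℕ) (y : ↥(laurentBaseChange E F₀)) (hy : y ≠ 0)
    (hdiv : ∀ v : Place _root_.Fermat.Agent.A2.T1.H669.Qb ↥(laurentBaseChange _root_.Fermat.Agent.A2.T1.H669.Qb F₀), (m : ℤ) ∣ v.ord (iota E F₀ y)) :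
    ∀ V : ValuationSubring ↥(laurentBaseChange E F₀), IsDiscreteValuationRing V →
      (∀ e : E, algebraMap E ↥(laurentBaseChange E F₀) e ∈ V) →
      ∃ h u : ↥(laurentBaseChange E F₀), h ≠ 0 ∧ u ∈ V ∧ u⁻¹ ∈ V ∧ y = u * h ^ m := by
  intro V hV hEV
  letI := algFEFbar E F₀
  haveI := towerEFEFbar E F₀
  obtain ⟨B, hcomap, hBdvr, hBalg, hBunif, -⟩ :=
    Fermat.Agent.S18.H845.exists_dvr_extension (E := E) (K := ↥(laurentBaseChange E F₀))
      (L := ↥(laurentBaseChange _root_.Fermat.Agent.A2.T1.H669.Qb F₀)) V hEV (adjoin_algebraic_eq_top E F₀)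
  obtain ⟨π, hπ⟩ := IsDiscreteValuationRing.exists_irreducible V
  obtain ⟨hπB, hπirr⟩ := hBunif π hπ
  have hmemV : ∀ x : ↥(laurentBaseChange E F₀), x ∈ V ↔ iota E F₀ x ∈ B := by
    intro x
    rw [← hcomap]
    exact Iff.rfl
  have hπ0 : (π : ↥(laurentBaseChange E F₀)) ≠ 0 := fun h => hπ.ne_zero (Subtype.ext h)
  -- `B` is a place of `F̄ / ℚ̄`
  have hne : B ≠ ⊤ := by
    intro htop
    apply hπirr.not_isUnit
    have hinv : (iota E F₀ (π : ↥(laurentBaseChange E F₀)))⁻¹ ∈ B := by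
      rw [htop]; exact ValuationSubring.mem_top _
    refine IsUnit.of_mul_eq_one (⟨_, hinv⟩ : B) (Subtype.ext ?_)
    exact mul_inv_cancel₀ (iota_ne_zero E F₀ hπ0)
  let v : Place _root_.Fermat.Agent.A2.T1.H669.Qb ↥(laurentBaseChange _root_.Fermat.Agent.A2.T1.H669.Qb F₀) :=
    { toValuationSubring := B
      algebraMap_mem' := fun a => hBalg _ (isAlgebraic_const E F₀ a)
      ne_top' := hne
      isPrincipalIdealRing' := inferInstance }
  obtain ⟨k, hk⟩ := hdiv v
  obtain ⟨u, hu⟩ := v.exists_unit_mul_zpow (iota_ne_zero E F₀ hy)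
    (π := (⟨iota E F₀ (π : ↥(laurentBaseChange E F₀)), hπB⟩ : B)) hπirr
  rw [hk] at hu
  have hu' : iota E F₀ y =
      ((u : B) : ↥(laurentBaseChange _root_.Fermat.Agent.A2.T1.H669.Qb F₀)) *
        (iota E F₀ (π : ↥(laurentBaseChange E F₀))) ^ ((m : ℤ) * k) := hu
  -- the unit over `E`
  set uK : ↥(laurentBaseChange E F₀) :=
    y * ((π : ↥(laurentBaseChange E F₀)) ^ ((m : ℤ) * k))⁻¹ with huK
  have hιuK : iota E F₀ uK = ((u : B) : ↥(laurentBaseChange _root_.Fermat.Agent.A2.T1.H669.Qb F₀)) := by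
    rw [huK, map_mul, map_inv₀, map_zpow₀, hu', mul_assoc,
      mul_inv_cancel₀ (zpow_ne_zero _ (iota_ne_zero E F₀ hπ0)), mul_one]
  refine ⟨(π : ↥(laurentBaseChange E F₀)) ^ k, uK, zpow_ne_zero _ hπ0, ?_, ?_, ?_⟩
  · rw [hmemV, hιuK]; exact (u : B).2
  · rw [hmemV, map_inv₀, hιuK]
    have h1 : ((u⁻¹ : Bˣ) : B) * (u : B) = 1 := by
      rw [← Units.val_mul, inv_mul_cancel, Units.val_one]
    have h2 : (((u⁻¹ : Bˣ) : B) : ↥(laurentBaseChange _root_.Fermat.Agent.A2.T1.H669.Qb F₀)) *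
        ((u : B) : ↥(laurentBaseChange _root_.Fermat.Agent.A2.T1.H669.Qb F₀)) = 1 := congrArg Subtype.val h1
    have h3 : (((u : B) : ↥(laurentBaseChange _root_.Fermat.Agent.A2.T1.H669.Qb F₀)))⁻¹ =
        (((u⁻¹ : Bˣ) : B) : ↥(laurentBaseChange _root_.Fermat.Agent.A2.T1.H669.Qb F₀)) :=
      (eq_inv_of_mul_eq_one_left h2).symm
    rw [h3]; exact ((u⁻¹ : Bˣ) : B).2
  · rw [huK, ← zpow_natCast ((π : ↥(laurentBaseChange E F₀)) ^ k) m, ← zpow_mul,
      mul_comm k (m : ℤ), mul_assoc,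
      inv_mul_cancel₀ (zpow_ne_zero _ hπ0), mul_one]

end Fermat.Agent.A2.T1.H669

end
end
-- ===== PACK-END A2/T1/H669/T2.lean

-- ===== PACK-BEGIN A2/H348/Glue.lean
section



/-!
# A2 / piece E (ALG_ss), part 3: the Kummer idempotent on a two-chart model with reduced fibre

Mathlib-only.  See `exists_kummer_idempotents` at the end of the file.
-/

set_option autoImplicit false
set_option linter.unusedSectionVars false
set_option linter.style.haveILetI false

open Module

namespace Fermat.Agent.A2.H348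

variable {A F F' : Type*} [CommRing A] [Field F] [CommRing F'] [Nontrivial F'] [Algebra A F]
  [Algebra F F'] [Algebra A F'] [IsScalarTower A F F']

/-- integrality over a smaller subalgebra implies integrality over a bigger one. -/
theorem isIntegral_of_le {B O : Subalgebra A F} (hBO : B ≤ O) {c : F'} (hc : IsIntegral B c) :
    IsIntegral O c := by
  letI : Algebra B O := (Subalgebra.inclusion hBO).toRingHom.toAlgebra
  haveI : IsScalarTower B O F' := IsScalarTower.of_algebraMap_eq fun b => rfl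
  exact hc.tower_top

/-- The data attached to the semilocal "Gauss ring" `V` (intersection of the valuation rings of the
generic points of the special fibre). -/
structure GaussData (ϖ : A) (m : ℕ) (u : F) (V : Subalgebra A F) : Prop where
  closed : ∀ f : F, IsIntegral V f → f ∈ V
  ϖ_inv_notMem : (algebraMap A F ϖ)⁻¹ ∉ V
  rad : ∀ t ∈ V, (1 + algebraMap A F ϖ * t)⁻¹ ∈ V
  m_ne : (m : F) ≠ 0
  m_inv : ((m : F))⁻¹ ∈ (⊥ : Subalgebra A F)
  u_one : ∃ t ∈ V, u = 1 + algebraMap A F ϖ * t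

/-- The data attached to one chart `B` of the model. -/
structure ChartData (ϖ : A) (m : ℕ) (u : F) (B V : Subalgebra A F) : Prop where
  le_V : B ≤ V
  closed : ∀ f : F, IsIntegral B f → f ∈ B
  /-- reducedness of the special fibre (`q`-expansion principle): `B ∩ ϖ V = ϖ B`. -/
  qep : ∀ b ∈ B, ∀ t ∈ V, b = algebraMap A F ϖ * t → t ∈ B
  /-- local factorisation `u = ε h ^ m` at every closed point of the special fibre,
  `ε ∈ 1 + ϖ B_𝔪`, `h ∈ 1 + ϖ V`. -/
  loc : ∀ 𝔪 : Ideal B, 𝔪.IsMaximal → algebraMap A B ϖ ∈ 𝔪 →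
    ∃ h : F, (∃ t ∈ V, h = 1 + algebraMap A F ϖ * t) ∧
      ∃ s a : B, s ∉ 𝔪 ∧ u * (s : F) = h ^ m * ((s : F) + algebraMap A F ϖ * (a : F))

section Gauss

variable {ϖ : A} {m : ℕ} {u : F} {V : Subalgebra A F} (hV : GaussData ϖ m u V)

include hV

theorem GaussData.ϖ_ne : algebraMap A F ϖ ≠ 0 := by
  intro h
  apply hV.ϖ_inv_notMem
  rw [h, inv_zero]
  exact V.zero_mem

theorem GaussData.one_add_ne {t : F} (ht : t ∈ V) : 1 + algebraMap A F ϖ * t ≠ 0 := by
  intro h
  apply hV.ϖ_inv_notMem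
  have h1 : algebraMap A F ϖ * (-t) = 1 := by linear_combination -h
  have h2 : (algebraMap A F ϖ)⁻¹ = -t := inv_eq_of_mul_eq_one_right h1
  rw [h2]
  exact V.neg_mem ht

theorem GaussData.m_inv_mem (O : Subalgebra A F) : ((m : F))⁻¹ ∈ O := by
  have := hV.m_inv
  rw [Algebra.mem_bot] at this
  obtain ⟨a, ha⟩ := this
  rw [← ha]
  exact O.algebraMap_mem a

theorem GaussData.u_mem : u ∈ V := by
  obtain ⟨t, ht, rfl⟩ := hV.u_one
  exact V.add_mem V.one_mem (V.mul_mem (V.algebraMap_mem ϖ) ht)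

theorem GaussData.u_ne : u ≠ 0 := by
  obtain ⟨t, ht, rfl⟩ := hV.u_one
  exact hV.one_add_ne ht

theorem GaussData.u_inv_mem : u⁻¹ ∈ V := by
  obtain ⟨t, ht, rfl⟩ := hV.u_one
  exact hV.rad t ht

end Gauss

section Chart

variable {ϖ : A} {m : ℕ} {u : F} {B V : Subalgebra A F}

theorem smul_eq_algebraMap_mul (B : Subalgebra A F) (b : B) (c : F') :
    b • c = algebraMap F F' (b : F) * c := by
  rw [Algebra.smul_def]; rfl

variable (F) in
theorem algebraMap_eq_comp (a : A) : algebraMap A F' a = algebraMap F F' (algebraMap A F a) :=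
  IsScalarTower.algebraMap_apply A F F' a

/-- local package at a closed point of the special fibre. -/
theorem ChartData.exists_local (hV : GaussData ϖ m u V) (hB : ChartData ϖ m u B V)
    {z : F'} (kb : KummerBasis m u z) (𝔪 : Ideal B) [h𝔪 : 𝔪.IsMaximal]
    (hϖ : algebraMap A B ϖ ∈ 𝔪) :
    ∃ (h ε : F) (ζ : F') (_ : KummerBasis m ε ζ),
      h ≠ 0 ∧ z = ζ * algebraMap F F' h ∧ (∃ t ∈ V, h = 1 + algebraMap A F ϖ * t) ∧
      ε ∈ locAt B 𝔪 ∧ ((m : F) * ε)⁻¹ ∈ locAt B 𝔪 ∧ ε ∈ V ∧ ((m : F) * ε)⁻¹ ∈ V ∧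
      (m : F) * ε ≠ 0 := by
  obtain ⟨h, ⟨t, ht, hh⟩, s, a, hs, hus⟩ := hB.loc 𝔪 h𝔪 hϖ
  have hh0 : h ≠ 0 := by rw [hh]; exact hV.one_add_ne ht
  have hs0 : (s : F) ≠ 0 := coe_ne_zero_of_notMem 𝔪 hs
  have hhm0 : h ^ m ≠ 0 := pow_ne_zero _ hh0
  have hhV : h ∈ V := by
    rw [hh]; exact V.add_mem V.one_mem (V.mul_mem (V.algebraMap_mem ϖ) ht)
  have hhinvV : h⁻¹ ∈ V := by rw [hh]; exact hV.rad t ht
  set ε : F := u * (h ^ m)⁻¹ with hε
  have hεs : (s : F) * ε = (s : F) + algebraMap A F ϖ * (a : F) := by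
    rw [hε, ← mul_assoc, mul_comm (s : F) u, hus]
    field_simp
  have hε1 : ε = 1 + algebraMap A F ϖ * ((a : F) * (s : F)⁻¹) := by
    have : ε = ((s : F) * ε) * (s : F)⁻¹ := by field_simp
    rw [this, hεs]
    field_simp
  have hεO : ε ∈ locAt B 𝔪 := by
    refine ⟨s, hs, ?_⟩
    rw [hεs]
    exact B.add_mem s.2 (B.mul_mem (B.algebraMap_mem ϖ) a.2)
  have hasO : (a : F) * (s : F)⁻¹ ∈ locAt B 𝔪 :=
    (locAt B 𝔪).mul_mem (le_locAt 𝔪 a.2) (inv_mem_locAt 𝔪 hs)
  have hεinvO : ε⁻¹ ∈ locAt B 𝔪 := by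
    rw [hε1]
    exact one_add_mul_inv_mem_locAt 𝔪 hϖ hasO
  have hεV : ε ∈ V := V.mul_mem hV.u_mem (by rw [← inv_pow]; exact V.pow_mem hhinvV m)
  have hεinvV : ε⁻¹ ∈ V := by
    rw [hε, mul_inv, inv_inv]
    exact V.mul_mem hV.u_inv_mem (V.pow_mem hhV m)
  have hε0 : ε ≠ 0 := mul_ne_zero hV.u_ne (inv_ne_zero hhm0)
  refine ⟨h, ε, z * algebraMap F F' h⁻¹, kb.scale h hh0, hh0, ?_, ⟨t, ht, hh⟩, hεO, ?_, hεV, ?_,
    mul_ne_zero hV.m_ne hε0⟩
  · rw [mul_assoc, ← map_mul, inv_mul_cancel₀ hh0, map_one, mul_one]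
  · rw [mul_inv]
    exact (locAt B 𝔪).mul_mem (hV.m_inv_mem _) hεinvO
  · rw [mul_inv]
    exact V.mul_mem (hV.m_inv_mem _) hεinvV

/-- **Unmixedness** of `ϖ` on the integral closure of a chart in the Kummer extension:
an element integral over `B` which is `ϖ` times an element integral over `V` is `ϖ` times an
element integral over `B`. -/
theorem ChartData.unmixed (hV : GaussData ϖ m u V) (hB : ChartData ϖ m u B V)
    {z : F'} (kb : KummerBasis m u z) {c c' : F'} (hc : IsIntegral B c) (hc' : IsIntegral V c')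
    (hcc : c = algebraMap A F' ϖ * c') : IsIntegral B c' := by
  have key : c' ∈ (integralClosure B F').toSubmodule := by
    refine mem_of_forall_maximal B _ c' fun 𝔪 h𝔪 => ?_
    by_cases hϖ : algebraMap A B ϖ ∈ 𝔪
    · obtain ⟨h, ε, ζ, kb', -, -, -, hεO, hmεO, hεV, hmεV, hmε0⟩ :=
        hB.exists_local hV kb 𝔪 hϖ
      have hcO : IsIntegral (locAt B 𝔪) c := isIntegral_of_le (le_locAt 𝔪) hc
      have hci : ∀ i, kb'.basis.repr c i ∈ locAt B 𝔪 := fun i =>
        kb'.repr_mem_of_isIntegral _ (locAt_integrallyClosed hB.closed 𝔪) hεO hmεO hmε0 hcO i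
      have hc'i : ∀ i, kb'.basis.repr c' i ∈ V := fun i =>
        kb'.repr_mem_of_isIntegral _ hV.closed hεV hmεV hmε0 hc' i
      have hrel : ∀ i, kb'.basis.repr c i = algebraMap A F ϖ * kb'.basis.repr c' i := by
        intro i
        have : c = (algebraMap A F ϖ) • c' := by
          rw [hcc, Algebra.smul_def, algebraMap_eq_comp F]
        rw [this, map_smul, Finsupp.smul_apply, smul_eq_mul]
      have hc'O : ∀ i, kb'.basis.repr c' i ∈ locAt B 𝔪 := by
        intro i
        obtain ⟨s, hs, hsc⟩ := hci i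
        refine ⟨s, hs, ?_⟩
        refine hB.qep _ hsc ((s : F) * kb'.basis.repr c' i)
          (V.mul_mem (hB.le_V s.2) (hc'i i)) ?_
        rw [hrel i]; ring
      have hc'int : IsIntegral (locAt B 𝔪) c' := kb'.isIntegral_of_repr_mem _ hεO hc'O
      obtain ⟨s, hs, hsint⟩ := exists_smul_isIntegral_of_locAt 𝔪 c' hc'int
      refine ⟨s, hs, ?_⟩
      rw [smul_eq_algebraMap_mul]
      exact hsint
    · refine ⟨algebraMap A B ϖ, hϖ, ?_⟩
      rw [smul_eq_algebraMap_mul]
      have : algebraMap F F' ((algebraMap A B ϖ : B) : F) * c' = c := by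
        rw [hcc]
        congr 1
        exact (algebraMap_eq_comp F ϖ).symm
      rw [this]
      exact hc
  exact key

end Chart

section Idem

/-- The Kummer idempotent `m⁻¹ ∑_{i<m} z^i` (the sheet `z ≡ 1`). -/
noncomputable def kummerE (F : Type*) [Field F] {F' : Type*} [CommRing F'] [Algebra F F']
    (m : ℕ) (z : F') : F' :=
  algebraMap F F' ((m : F)⁻¹) * ∑ i ∈ Finset.range m, z ^ i

variable {ϖ : A} {m : ℕ} {u : F} {B V : Subalgebra A F}

theorem sum_pow_sub_one (z : F') (n : ℕ) :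
    ∑ i ∈ Finset.range n, (z ^ i - 1) =
      (z - 1) * ∑ i ∈ Finset.range n, ∑ j ∈ Finset.range i, z ^ j := by
  rw [Finset.mul_sum]
  refine Finset.sum_congr rfl fun i _ => ?_
  rw [mul_geom_sum]

theorem GaussData.isIntegral_z (hV : GaussData ϖ m u V) {z : F'} (kb : KummerBasis m u z) :
    IsIntegral V z := kb.isIntegral_zeta V hV.u_mem

theorem GaussData.isIntegral_kummerE (hV : GaussData ϖ m u V) {z : F'}
    (kb : KummerBasis m u z) : IsIntegral V (kummerE F m z) :=
  (isIntegral_algebraMap_of_mem' V (hV.m_inv_mem V)).mul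
    (IsIntegral.sum _ fun i _ => (hV.isIntegral_z kb).pow i)

/-- the Kummer idempotent is idempotent modulo `ϖ`. -/
theorem GaussData.kummerE_idem (hV : GaussData ϖ m u V) {z : F'} (kb : KummerBasis m u z) :
    ∃ q : F', IsIntegral V q ∧
      kummerE F m z ^ 2 - kummerE F m z = algebraMap A F' ϖ * q := by
  obtain ⟨t₀, ht₀, hu⟩ := hV.u_one
  set S : F' := ∑ i ∈ Finset.range m, z ^ i with hS
  set Q : F' := ∑ i ∈ Finset.range m, ∑ j ∈ Finset.range i, z ^ j with hQ
  have hz := hV.isIntegral_z kb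
  have hQint : IsIntegral V Q :=
    IsIntegral.sum _ fun i _ => IsIntegral.sum _ fun j _ => hz.pow j
  have h1 : (z - 1) * S = algebraMap A F' ϖ * algebraMap F F' t₀ := by
    rw [hS, mul_geom_sum, kb.pow_eq, hu, map_add, map_one, map_mul, ← algebraMap_eq_comp F]
    ring
  have h2 : S - (m : F') = (z - 1) * Q := by
    rw [hQ, ← sum_pow_sub_one, Finset.sum_sub_distrib, hS]
    simp
  have hm : algebraMap F F' ((m : F)⁻¹) * (m : F') = 1 := by
    rw [← map_natCast (algebraMap F F') m, ← map_mul, inv_mul_cancel₀ hV.m_ne, map_one]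
  refine ⟨algebraMap F F' ((m : F)⁻¹) ^ 2 * (algebraMap F F' t₀ * Q), ?_, ?_⟩
  · exact ((isIntegral_algebraMap_of_mem' V (hV.m_inv_mem V)).pow 2).mul
      ((isIntegral_algebraMap_of_mem' V ht₀).mul hQint)
  · have h3 : kummerE F m z ^ 2 - kummerE F m z
        = algebraMap F F' ((m : F)⁻¹) ^ 2 * (S * (S - (m : F'))) := by
      unfold kummerE
      rw [← hS]
      have : algebraMap F F' ((m : F)⁻¹) * S
          = algebraMap F F' ((m : F)⁻¹) ^ 2 * (S * (m : F')) := by
        rw [pow_two, mul_assoc, mul_comm S, ← mul_assoc (algebraMap F F' ((m : F)⁻¹)) (m : F') S,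
          hm, one_mul]
      rw [mul_sub, mul_sub, ← this]
      ring
    rw [h3, h2, ← mul_assoc S, mul_comm S, h1]
    ring

/-- coordinates of the Kummer idempotent. -/
theorem kummerE_repr {z : F'} (kb : KummerBasis m u z) (i : Fin m) :
    kb.basis.repr (kummerE F m z) i = (m : F)⁻¹ := by
  have : kummerE F m z = ∑ j : Fin m, algebraMap F F' ((fun _ => (m : F)⁻¹) j) * z ^ (j : ℕ) := by
    unfold kummerE
    rw [Finset.mul_sum, Fin.sum_univ_eq_sum_range (fun j => algebraMap F F' ((m : F)⁻¹) * z ^ j) m]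
  rw [this, kb.repr_sum]

/-- coordinates of `1`. -/
theorem one_repr {z : F'} (kb : KummerBasis m u z) (i : Fin m) :
    kb.basis.repr (1 : F') i = if (i : ℕ) = 0 then 1 else 0 := by
  classical
  have : (1 : F') = ∑ j : Fin m,
      algebraMap F F' ((fun j : Fin m => if (j : ℕ) = 0 then (1 : F) else 0) j) * z ^ (j : ℕ) := by
    rw [Finset.sum_eq_single (⟨0, kb.m_pos⟩ : Fin m)]
    · simp
    · intro j _ hj
      have : (j : ℕ) ≠ 0 := fun h => hj (Fin.ext h)
      simp [this]
    · intro h; exact absurd (Finset.mem_univ _) h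
  conv_lhs => rw [this]
  rw [kb.repr_sum]

/-- **Gluing**: the Kummer idempotent is congruent modulo `ϖ` to an element integral over the
chart `B`. -/
theorem ChartData.exists_lift (hV : GaussData ϖ m u V) (hB : ChartData ϖ m u B V)
    {z : F'} (kb : KummerBasis m u z) :
    ∃ e c : F', IsIntegral B e ∧ IsIntegral V c ∧ kummerE F m z = e + algebraMap A F' ϖ * c := by
  let M : Submodule B F' :=
    { carrier := {y | ∃ y₁ y₂ : F', IsIntegral B y₁ ∧ IsIntegral V y₂ ∧
        y = y₁ + algebraMap A F' ϖ * y₂}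
      add_mem' := by
        rintro a b ⟨a₁, a₂, ha₁, ha₂, rfl⟩ ⟨b₁, b₂, hb₁, hb₂, rfl⟩
        exact ⟨a₁ + b₁, a₂ + b₂, ha₁.add hb₁, ha₂.add hb₂, by ring⟩
      zero_mem' := ⟨0, 0, isIntegral_zero, isIntegral_zero, by simp⟩
      smul_mem' := by
        rintro b y ⟨y₁, y₂, hy₁, hy₂, rfl⟩
        refine ⟨algebraMap F F' (b : F) * y₁, algebraMap F F' (b : F) * y₂,
          (isIntegral_algebraMap_of_mem' B b.2).mul hy₁,
          (isIntegral_algebraMap_of_mem' V (hB.le_V b.2)).mul hy₂, ?_⟩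
        rw [smul_eq_algebraMap_mul]
        ring }
  have key : kummerE F m z ∈ M := by
    refine mem_of_forall_maximal B M _ fun 𝔪 h𝔪 => ?_
    by_cases hϖ : algebraMap A B ϖ ∈ 𝔪
    · obtain ⟨h, ε, ζ, kb', hh0, hz, ⟨t, ht, hh⟩, hεO, hmεO, hεV, hmεV, hmε0⟩ :=
        hB.exists_local hV kb 𝔪 hϖ
      have hhV : h ∈ V := by
        rw [hh]; exact V.add_mem V.one_mem (V.mul_mem (V.algebraMap_mem ϖ) ht)
      have hζO : IsIntegral (locAt B 𝔪) ζ := kb'.isIntegral_zeta _ hεO
      have hζV : IsIntegral V ζ := kb'.isIntegral_zeta _ hεV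
      have heO : IsIntegral (locAt B 𝔪) (kummerE F m ζ) :=
        (isIntegral_algebraMap_of_mem' _ (hV.m_inv_mem _)).mul
          (IsIntegral.sum _ fun i _ => hζO.pow i)
      obtain ⟨s, hs, hsint⟩ := exists_smul_isIntegral_of_locAt 𝔪 _ heO
      -- the difference
      set y₂ : F' := algebraMap F F' ((m : F)⁻¹) * ∑ i ∈ Finset.range m,
        ζ ^ i * (algebraMap F F' t * ∑ j ∈ Finset.range i, algebraMap F F' h ^ j) with hy₂
      have hy₂int : IsIntegral V y₂ :=
        (isIntegral_algebraMap_of_mem' V (hV.m_inv_mem V)).mul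
          (IsIntegral.sum _ fun i _ => (hζV.pow i).mul
            ((isIntegral_algebraMap_of_mem' V ht).mul
              (IsIntegral.sum _ fun j _ => (isIntegral_algebraMap_of_mem' V hhV).pow j)))
      have hdiff : kummerE F m z = kummerE F m ζ + algebraMap A F' ϖ * y₂ := by
        unfold kummerE
        rw [hy₂, ← mul_assoc (algebraMap A F' ϖ), mul_comm (algebraMap A F' ϖ),
          mul_assoc _ (algebraMap A F' ϖ), ← mul_add, Finset.mul_sum (a := algebraMap A F' ϖ),
          ← Finset.sum_add_distrib]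
        congr 1
        refine Finset.sum_congr rfl fun i _ => ?_
        have hgeom : algebraMap F F' h ^ i - 1
            = algebraMap A F' ϖ * algebraMap F F' t *
              ∑ j ∈ Finset.range i, algebraMap F F' h ^ j := by
          rw [← mul_geom_sum, hh, map_add, map_one, map_mul, ← algebraMap_eq_comp F]
          ring
        rw [hz, mul_pow]
        have : ζ ^ i * algebraMap F F' h ^ i
            = ζ ^ i + ζ ^ i * (algebraMap F F' h ^ i - 1) := by ring
        rw [this, hgeom]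
        ring
      refine ⟨s, hs, ?_⟩
      refine ⟨algebraMap F F' (s : F) * kummerE F m ζ, algebraMap F F' (s : F) * y₂, hsint,
        (isIntegral_algebraMap_of_mem' V (hB.le_V s.2)).mul hy₂int, ?_⟩
      rw [smul_eq_algebraMap_mul, hdiff]
      ring
    · refine ⟨algebraMap A B ϖ, hϖ, ?_⟩
      refine ⟨0, kummerE F m z, isIntegral_zero, hV.isIntegral_kummerE kb, ?_⟩
      rw [smul_eq_algebraMap_mul, zero_add]
      congr 1
      exact (algebraMap_eq_comp F ϖ).symm
  obtain ⟨e, c, he, hc, hec⟩ := key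
  exact ⟨e, c, he, hc, hec⟩

end Idem

section Main

variable {ϖ : A} {m : ℕ} {u : F} {Bfin Binf Bmid V : Subalgebra A F}

/-- unmixedness on the middle chart `Bmid = Bfin[1/x]`. -/
theorem unmixed_mid (hV : GaussData ϖ m u V) (hfin : ChartData ϖ m u Bfin V)
    (hfm : Bfin ≤ Bmid) (x : Bfin) (hx0 : (x : F) ≠ 0) (hxinv : ((x : F))⁻¹ ∈ Bmid)
    (hloc : ∀ f ∈ Bmid, ∃ K : ℕ, (x : F) ^ K * f ∈ Bfin)
    {z : F'} (kb : KummerBasis m u z) {c c' : F'} (hc : IsIntegral Bmid c)
    (hc' : IsIntegral V c') (hcc : c = algebraMap A F' ϖ * c') : IsIntegral Bmid c' := by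
  obtain ⟨s, ⟨K, hK⟩, hs⟩ := exists_smul_isIntegral_of_subLoc Bfin Bmid hfm (Submonoid.powers x)
    (by
      rintro s ⟨K, rfl⟩
      simpa using pow_ne_zero K hx0)
    (by
      intro f hf
      obtain ⟨K, hK⟩ := hloc f hf
      exact ⟨x ^ K, ⟨K, rfl⟩, by simpa using hK⟩)
    (by
      rintro s ⟨K, rfl⟩
      have : (((x ^ K : Bfin) : F))⁻¹ = ((x : F)⁻¹) ^ K := by simp
      rw [this]
      exact Bmid.pow_mem hxinv K) c hc
  have hsF : (s : F) = (x : F) ^ K := by rw [← hK]; simp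
  have hs0 : (s : F) ≠ 0 := by rw [hsF]; exact pow_ne_zero K hx0
  have h1 : IsIntegral Bfin (algebraMap F F' (s : F) * c') := by
    refine hfin.unmixed hV kb hs ((isIntegral_algebraMap_of_mem' V (hfin.le_V s.2)).mul hc') ?_
    rw [hcc]; ring
  have h2 : IsIntegral Bmid (algebraMap F F' (s : F) * c') := isIntegral_of_le hfm h1
  have hsinv : ((s : F))⁻¹ ∈ Bmid := by
    rw [hsF, ← inv_pow]; exact Bmid.pow_mem hxinv K
  have h3 : c' = algebraMap F F' ((s : F)⁻¹) * (algebraMap F F' (s : F) * c') := by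
    rw [← mul_assoc, ← map_mul, inv_mul_cancel₀ hs0, map_one, one_mul]
  rw [h3]
  exact (isIntegral_algebraMap_of_mem' Bmid hsinv).mul h2

/-- **ALG_ss, lifting form.**  On a two-chart model `(Bfin, Binf, Bmid = Bfin[1/x])` with
semilocal Gauss ring `V` (reduced special fibre: `B ∩ ϖ V = ϖ B`), let `u ∈ 1 + ϖ V` admit at every
closed point `𝔪` of the special fibre of each chart a factorisation `u = ε h ^ m` with
`ε ∈ 1 + ϖ B_𝔪`, `h ∈ 1 + ϖ V`.  Then in the Kummer algebra `F' = F[z]/(z ^ m - u)` the element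
`E = m⁻¹ ∑ z^i` has lifts `e₁`, `e₂` (modulo `ϖ` times `V`-integral elements) which are integral
over the two charts, idempotent modulo `ϖ` in the integral closure of each chart, and congruent
modulo `ϖ` on the overlap. -/
theorem exists_kummer_lifts (hV : GaussData ϖ m u V)
    (hfin : ChartData ϖ m u Bfin V) (hinf : ChartData ϖ m u Binf V)
    (hfm : Bfin ≤ Bmid) (him : Binf ≤ Bmid)
    (x : Bfin) (hx0 : (x : F) ≠ 0) (hxinv : ((x : F))⁻¹ ∈ Bmid)
    (hloc : ∀ f ∈ Bmid, ∃ K : ℕ, (x : F) ^ K * f ∈ Bfin)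
    {z : F'} (kb : KummerBasis m u z) :
    ∃ e₁ e₂ c₁ : F', IsIntegral Bfin e₁ ∧ IsIntegral Binf e₂ ∧ IsIntegral V c₁ ∧
      kummerE F m z = e₁ + algebraMap A F' ϖ * c₁ ∧
      (∃ t : F', IsIntegral Bfin t ∧ e₁ ^ 2 - e₁ = algebraMap A F' ϖ * t) ∧
      (∃ t : F', IsIntegral Binf t ∧ e₂ ^ 2 - e₂ = algebraMap A F' ϖ * t) ∧
      (∃ t : F', IsIntegral Bmid t ∧ e₁ - e₂ = algebraMap A F' ϖ * t) := by
  obtain ⟨e₁, c₁, he₁, hc₁, h1⟩ := hfin.exists_lift hV kb
  obtain ⟨e₂, c₂, he₂, hc₂, h2⟩ := hinf.exists_lift hV kb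
  obtain ⟨q, hq, hidem⟩ := hV.kummerE_idem kb
  have hE := hV.isIntegral_kummerE kb
  have hϖV : IsIntegral V (algebraMap A F' ϖ) := by
    rw [algebraMap_eq_comp F]
    exact isIntegral_algebraMap_of_mem' V (V.algebraMap_mem ϖ)
  set E : F' := kummerE F m z with hEdef
  -- idempotency on a chart
  have idem : ∀ (B : Subalgebra A F) (hB : ChartData ϖ m u B V) (e c : F'),
      IsIntegral B e → IsIntegral V c → E = e + algebraMap A F' ϖ * c →
      ∃ t : F', IsIntegral B t ∧ e ^ 2 - e = algebraMap A F' ϖ * t := by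
    intro B hB e c he hc hEe
    have hrel : e ^ 2 - e = algebraMap A F' ϖ *
        (q - 2 * c * E + algebraMap A F' ϖ * c ^ 2 + c) := by
      have he' : e = E - algebraMap A F' ϖ * c := by rw [hEe]; ring
      have : e ^ 2 - e = (E ^ 2 - E) + algebraMap A F' ϖ *
          (- 2 * c * E + algebraMap A F' ϖ * c ^ 2 + c) := by
        rw [he']; ring
      rw [this, hidem]; ring
    have hint : IsIntegral V (q - 2 * c * E + algebraMap A F' ϖ * c ^ 2 + c) := by
      refine IsIntegral.add (IsIntegral.add (IsIntegral.sub hq ?_) (hϖV.mul (hc.pow 2))) hc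
      have h2int : IsIntegral V (2 : F') := by
        have : (2 : F') = algebraMap F F' (2 : F) := (map_ofNat (algebraMap F F') 2).symm
        rw [this]
        exact isIntegral_algebraMap_of_mem' V (by
          have : (2 : F) = 1 + 1 := by norm_num
          rw [this]; exact V.add_mem V.one_mem V.one_mem)
      exact (h2int.mul hc).mul hE
    exact ⟨_, hB.unmixed hV kb ((he.pow 2).sub he) hint hrel, hrel⟩
  refine ⟨e₁, e₂, c₁, he₁, he₂, hc₁, h1, idem Bfin hfin e₁ c₁ he₁ hc₁ h1,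
    idem Binf hinf e₂ c₂ he₂ hc₂ h2, ?_⟩
  -- compatibility
  have hrel : e₁ - e₂ = algebraMap A F' ϖ * (c₂ - c₁) := by
    have e1 : e₁ = E - algebraMap A F' ϖ * c₁ := by rw [h1]; ring
    have e2 : e₂ = E - algebraMap A F' ϖ * c₂ := by rw [h2]; ring
    rw [e1, e2]; ring
  refine ⟨c₂ - c₁, ?_, hrel⟩
  exact unmixed_mid hV hfin hfm x hx0 hxinv hloc kb
    ((isIntegral_of_le hfm he₁).sub (isIntegral_of_le him he₂)) (hc₂.sub hc₁) hrel

/-- coordinates of `V`-integral elements lie in `V`. -/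
theorem GaussData.repr_mem (hV : GaussData ϖ m u V) {z : F'} (kb : KummerBasis m u z)
    {y : F'} (hy : IsIntegral V y) (i : Fin m) : kb.basis.repr y i ∈ V := by
  have hmεV : ((m : F) * u)⁻¹ ∈ V := by
    rw [mul_inv]; exact V.mul_mem (hV.m_inv_mem V) hV.u_inv_mem
  have hmε0 : (m : F) * u ≠ 0 := mul_ne_zero hV.m_ne hV.u_ne
  exact kb.repr_mem_of_isIntegral V hV.closed hV.u_mem hmεV hmε0 hy i

/-- `m⁻¹` is not divisible by `ϖ` in `V`. -/
theorem GaussData.m_inv_ne (hV : GaussData ϖ m u V) (v : F) (hv : v ∈ V) :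
    (m : F)⁻¹ ≠ algebraMap A F ϖ * v := by
  intro h
  apply hV.ϖ_inv_notMem
  have h1 : algebraMap A F ϖ * ((m : F) * v) = 1 := by
    rw [mul_left_comm, ← h, mul_inv_cancel₀ hV.m_ne]
  rw [inv_eq_of_mul_eq_one_right h1]
  exact V.mul_mem (by
    have : (m : F) = algebraMap A F (m : A) := by simp
    rw [this]; exact V.algebraMap_mem _) hv

theorem smul_repr {z : F'} (kb : KummerBasis m u z) (y : F') (i : Fin m) :
    kb.basis.repr (algebraMap A F' ϖ * y) i = algebraMap A F ϖ * kb.basis.repr y i := by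
  have : algebraMap A F' ϖ * y = (algebraMap A F ϖ) • y := by
    rw [Algebra.smul_def, algebraMap_eq_comp F]
  rw [this, map_smul, Finsupp.smul_apply, smul_eq_mul]

/-- **ALG_ss, idempotent form.**  In the situation of `exists_kummer_lifts`, if `m ≥ 2`, the pair
`(e₁, e₂)` is NOT congruent to `0` or `1` modulo `ϖ`.  (If `F'` is a field with the same constants,
a two-chart Čech connectedness lemma for `F'` then gives a contradiction.) -/
theorem exists_kummer_idempotents (hV : GaussData ϖ m u V)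
    (hfin : ChartData ϖ m u Bfin V) (hinf : ChartData ϖ m u Binf V)
    (hfm : Bfin ≤ Bmid) (him : Binf ≤ Bmid)
    (x : Bfin) (hx0 : (x : F) ≠ 0) (hxinv : ((x : F))⁻¹ ∈ Bmid)
    (hloc : ∀ f ∈ Bmid, ∃ K : ℕ, (x : F) ^ K * f ∈ Bfin)
    (hm2 : 2 ≤ m) {z : F'} (kb : KummerBasis m u z) :
    ∃ e₁ e₂ : F', IsIntegral Bfin e₁ ∧ IsIntegral Binf e₂ ∧
      (∃ t : F', IsIntegral Bfin t ∧ e₁ ^ 2 - e₁ = algebraMap A F' ϖ * t) ∧
      (∃ t : F', IsIntegral Binf t ∧ e₂ ^ 2 - e₂ = algebraMap A F' ϖ * t) ∧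
      (∃ t : F', IsIntegral Bmid t ∧ e₁ - e₂ = algebraMap A F' ϖ * t) ∧
      (¬ ∃ t : F', IsIntegral Bfin t ∧ e₁ = algebraMap A F' ϖ * t) ∧
      (¬ ∃ t : F', IsIntegral Bfin t ∧ 1 - e₁ = algebraMap A F' ϖ * t) := by
  obtain ⟨e₁, e₂, c₁, he₁, he₂, hc₁, h1, hi1, hi2, h12⟩ :=
    exists_kummer_lifts hV hfin hinf hfm him x hx0 hxinv hloc kb
  set E : F' := kummerE F m z with hEdef
  refine ⟨e₁, e₂, he₁, he₂, hi1, hi2, h12, ?_, ?_⟩
  · rintro ⟨t, ht, het⟩
    have hEt : E = algebraMap A F' ϖ * (t + c₁) := by rw [h1, het]; ring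
    have hint : IsIntegral V (t + c₁) := (isIntegral_of_le hfin.le_V ht).add hc₁
    have h0 := kummerE_repr kb ⟨0, by omega⟩
    rw [← hEdef, hEt, smul_repr] at h0
    exact hV.m_inv_ne _ (hV.repr_mem kb hint _) h0.symm
  · rintro ⟨t, ht, het⟩
    have hEt : 1 - E = algebraMap A F' ϖ * (t - c₁) := by
      have : 1 - E = (1 - e₁) - algebraMap A F' ϖ * c₁ := by rw [h1]; ring
      rw [this, het]; ring
    have hint : IsIntegral V (t - c₁) := (isIntegral_of_le hfin.le_V ht).sub hc₁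
    have h0 : kb.basis.repr (1 - E) ⟨1, by omega⟩ = -(m : F)⁻¹ := by
      rw [map_sub, Finsupp.sub_apply, one_repr kb, hEdef, kummerE_repr kb]
      simp
    rw [hEt, smul_repr] at h0
    refine hV.m_inv_ne (-(kb.basis.repr (t - c₁) ⟨1, by omega⟩)) (V.neg_mem (hV.repr_mem kb hint _)) ?_
    rw [mul_neg, h0, neg_neg]

end Main

end Fermat.Agent.A2.H348

end
-- ===== PACK-END A2/H348/Glue.lean

-- ===== PACK-BEGIN A2/H348/Root.lean
section


/-!
# A2 / piece E (ALG_ss), part 4: from the Kummer idempotent to an `m`-th root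

Mathlib-only.

* `isIntegral_map_algHom` : `F`-algebra maps preserve integrality over a subalgebra of `F`.
* `GaussData.mem_range_of_sub_one` (**rigidity**): a root `y₀` of `X ^ m - u` (in any field
  extension `Ω` of `F`) which is `≡ 1` modulo `ϖ` times a `V`-integral element lies in `F`.
* `exists_root_of_connected` (**ALG_ss, abstract final form**): in the situation of
  `exists_kummer_lifts`, if every residue field `F' ⧸ 𝔫` of the Kummer algebra satisfies the
  two-chart connectedness statement, then `u = y ^ m` with `y ∈ F`, `y ∈ 1 + ϖ V`.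
-/

set_option autoImplicit false
set_option linter.unusedSectionVars false
set_option linter.style.haveILetI false

open Module Polynomial

namespace Fermat.Agent.A2.H348

variable {A F : Type*} [CommRing A] [Field F] [Algebra A F]

/-- `F`-algebra maps preserve integrality over a subalgebra of `F`. -/
theorem isIntegral_map_algHom (O : Subalgebra A F) {S T : Type*} [CommRing S] [CommRing T]
    [Algebra F S] [Algebra F T] (f : S →ₐ[F] T) {c : S} (hc : IsIntegral O c) :
    IsIntegral O (f c) := by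
  obtain ⟨P, hP, hPc⟩ := hc
  refine ⟨P, hP, ?_⟩
  have h := congrArg (f : S →+* T) hPc
  rw [map_zero, Polynomial.hom_eval₂] at h
  have h2 : ((f : S →+* T).comp (algebraMap O S)) = algebraMap O T := by
    ext a
    exact f.commutes (a : F)
  rw [h2] at h
  exact h

section Rigid

variable {ϖ : A} {m : ℕ} {u : F} {V : Subalgebra A F}
variable {Ω : Type*} [Field Ω] [Algebra F Ω] [Algebra A Ω] [IsScalarTower A F Ω]

/-- a root of unity `η ≠ 1` of order dividing `m`: `m = (1 - η) * S` with `S` a sum of powers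
of `η`. -/
theorem natCast_eq_one_sub_mul {η : Ω} (hη : η ^ m = 1) (hη1 : η ≠ 1) :
    (m : Ω) = (1 - η) * ∑ i ∈ Finset.range m, ∑ j ∈ Finset.range i, η ^ j := by
  have h0 : ∑ i ∈ Finset.range m, η ^ i = 0 := by
    have h2 : (η - 1) * ∑ k ∈ Finset.range m, η ^ k = 0 := by
      rw [mul_geom_sum, hη, sub_self]
    rcases mul_eq_zero.1 h2 with h3 | h3
    · exact absurd (sub_eq_zero.1 h3) hη1
    · exact h3
  have h1 : ∀ i : ℕ, (1 - η) * ∑ j ∈ Finset.range i, η ^ j = 1 - η ^ i := by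
    intro i
    have := mul_geom_sum η i
    linear_combination -this
  rw [Finset.mul_sum, Finset.sum_congr rfl fun i _ => h1 i, Finset.sum_sub_distrib, h0]
  simp

/-- **Rigidity.**  A root `y₀` of `X ^ m - u` with `y₀ - 1 ∈ ϖ · (V-integral elements)` lies in
`F`. -/
theorem GaussData.mem_range_of_sub_one (hV : GaussData ϖ m u V) [IsAlgClosed Ω]
    {y₀ : Ω} (hy : y₀ ^ m = algebraMap F Ω u) {τ : Ω} (hτ : IsIntegral V τ)
    (h : y₀ - 1 = algebraMap F Ω (algebraMap A F ϖ) * τ) :
    y₀ ∈ Set.range (algebraMap F Ω) := by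
  classical
  have hm0 : m ≠ 0 := by
    rintro rfl
    exact hV.m_ne (by simp)
  have hmpos : 0 < m := Nat.pos_of_ne_zero hm0
  have hu0 : u ≠ 0 := hV.u_ne
  have hϖ0 : algebraMap A F ϖ ≠ 0 := hV.ϖ_ne
  have hϖΩ : algebraMap F Ω (algebraMap A F ϖ) ≠ 0 := (_root_.map_ne_zero _).2 hϖ0
  have hy0 : y₀ ≠ 0 := by
    intro h0
    rw [h0, zero_pow hm0] at hy
    exact hu0 ((map_eq_zero (algebraMap F Ω)).1 hy.symm)
  have hyint : IsIntegral F y₀ := by
    refine IsIntegral.of_pow hmpos ?_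
    rw [hy]; exact isIntegral_algebraMap
  by_contra hnot
  have hdeg : 2 ≤ (minpoly F y₀).natDegree := (minpoly.two_le_natDegree_iff hyint).2 hnot
  set P := minpoly F y₀ with hP
  have hdvd : P ∣ X ^ m - C u := minpoly.dvd F y₀ (by simp [hy])
  have hsep : (P.map (algebraMap F Ω)).Separable :=
    ((separable_X_pow_sub_C u hV.m_ne hu0).of_dvd hdvd).map
  have hnodup := nodup_roots hsep
  have hcard : (P.map (algebraMap F Ω)).roots.card = P.natDegree := by
    rw [IsAlgClosed.card_roots_eq_natDegree, natDegree_map]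
  -- another root
  obtain ⟨y₁, hy₁mem, hy₁ne⟩ : ∃ y₁ ∈ (P.map (algebraMap F Ω)).roots, y₁ ≠ y₀ := by
    by_contra hcon
    simp only [not_exists, not_and, not_not] at hcon
    have hsub : (P.map (algebraMap F Ω)).roots ≤ {y₀} := by
      rw [Multiset.le_iff_subset hnodup]
      intro y hy'
      rw [Multiset.mem_singleton]
      exact hcon y hy'
    have := Multiset.card_le_card hsub
    rw [hcard, Multiset.card_singleton] at this
    omega
  have hPne : P.map (algebraMap F Ω) ≠ 0 :=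
    map_monic_ne_zero (minpoly.monic hyint)
  have hy₁P : aeval y₁ P = 0 := by
    have := (mem_roots hPne).1 hy₁mem
    rwa [IsRoot.def, eval_map, ← aeval_def] at this
  have haeval_of_dvd : ∀ G : F[X], aeval y₀ G = 0 → aeval y₁ G = 0 := by
    intro G hG
    obtain ⟨Q, hQ⟩ := minpoly.dvd F y₀ hG
    rw [hQ, map_mul, hy₁P, zero_mul]
  have hy₁ : y₁ ^ m = algebraMap F Ω u := by
    have := haeval_of_dvd (X ^ m - C u) (by simp [hy])
    simpa [sub_eq_zero] using this
  -- transport of integrality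
  obtain ⟨Q₀, hQ₀m, hQ₀⟩ := hτ
  set ϖ' : F := algebraMap A F ϖ with hϖ'
  set G : F[X] := (Q₀.map (algebraMap V F)).comp (C ϖ'⁻¹ * (X - 1)) with hG
  have hGeval : ∀ y : Ω, aeval y G =
      eval₂ (algebraMap V Ω) (algebraMap F Ω ϖ'⁻¹ * (y - 1)) Q₀ := by
    intro y
    rw [hG, aeval_comp, aeval_def, eval₂_map]
    have : (algebraMap F Ω).comp (algebraMap V F) = algebraMap V Ω := by
      ext a; rfl
    rw [this]
    simp
  have hτeq : algebraMap F Ω ϖ'⁻¹ * (y₀ - 1) = τ := by
    rw [h, ← mul_assoc, ← map_mul, inv_mul_cancel₀ hϖ0, map_one, one_mul]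
  have hG0 : aeval y₀ G = 0 := by rw [hGeval, hτeq]; exact hQ₀
  have hG1 := haeval_of_dvd G hG0
  rw [hGeval] at hG1
  set τ₁ : Ω := algebraMap F Ω ϖ'⁻¹ * (y₁ - 1) with hτ₁
  have hτ₁int : IsIntegral V τ₁ := ⟨Q₀, hQ₀m, hG1⟩
  have hτint : IsIntegral V τ := ⟨Q₀, hQ₀m, hQ₀⟩
  have h1 : y₁ - 1 = algebraMap F Ω ϖ' * τ₁ := by
    rw [hτ₁, ← mul_assoc, ← map_mul, mul_inv_cancel₀ hϖ0, map_one, one_mul]
  -- the root of unity
  set η : Ω := y₁ * y₀⁻¹ with hη
  have hηm : η ^ m = 1 := by
    rw [hη, mul_pow, inv_pow, hy₁, hy, mul_inv_cancel₀]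
    exact (_root_.map_ne_zero _).2 hu0
  have hη1 : η ≠ 1 := by
    intro h1'
    apply hy₁ne
    have : y₁ = η * y₀ := by rw [hη, mul_assoc, inv_mul_cancel₀ hy0, mul_one]
    rw [this, h1', one_mul]
  have hηint : IsIntegral V η := by
    refine IsIntegral.of_pow hmpos ?_
    rw [hηm]; exact isIntegral_one
  have hy0inv : IsIntegral V y₀⁻¹ := by
    refine IsIntegral.of_pow hmpos ?_
    rw [inv_pow, hy, ← map_inv₀]
    exact isIntegral_algebraMap_of_mem' V hV.u_inv_mem
  have hone : 1 - η = algebraMap F Ω ϖ' * ((τ - τ₁) * y₀⁻¹) := by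
    have : 1 - η = (y₀ - y₁) * y₀⁻¹ := by
      rw [hη, sub_mul, mul_inv_cancel₀ hy0]
    rw [this]
    have : y₀ - y₁ = algebraMap F Ω ϖ' * (τ - τ₁) := by
      have e0 : y₀ = 1 + algebraMap F Ω ϖ' * τ := by rw [← h]; ring
      have e1 : y₁ = 1 + algebraMap F Ω ϖ' * τ₁ := by rw [← h1]; ring
      rw [e0, e1]; ring
    rw [this]; ring
  have hmeq := natCast_eq_one_sub_mul hηm hη1
  set S : Ω := ∑ i ∈ Finset.range m, ∑ j ∈ Finset.range i, η ^ j with hS
  have hSint : IsIntegral V S :=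
    IsIntegral.sum _ fun i _ => IsIntegral.sum _ fun j _ => hηint.pow j
  have hT : IsIntegral V ((τ - τ₁) * y₀⁻¹ * S) := ((hτint.sub hτ₁int).mul hy0inv).mul hSint
  have hmT : algebraMap F Ω ((m : F) * ϖ'⁻¹) = (τ - τ₁) * y₀⁻¹ * S := by
    have hm' : algebraMap F Ω (m : F) = (m : Ω) := by simp
    rw [map_mul, hm', hmeq, hone, map_inv₀]
    field_simp
  rw [← hmT] at hT
  have hmem : (m : F) * ϖ'⁻¹ ∈ V :=
    hV.closed _ ((isIntegral_algebraMap_iff (algebraMap F Ω).injective).1 hT)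
  apply hV.ϖ_inv_notMem
  have : ϖ'⁻¹ = (m : F)⁻¹ * ((m : F) * ϖ'⁻¹) := by
    rw [← mul_assoc, inv_mul_cancel₀ hV.m_ne, one_mul]
  rw [this]
  exact V.mul_mem (hV.m_inv_mem V) hmem

end Rigid

section Main

variable {F' : Type*} [CommRing F'] [Nontrivial F'] [Algebra F F'] [Algebra A F']
  [IsScalarTower A F F']
variable {ϖ : A} {m : ℕ} {u : F} {Bfin Binf Bmid V : Subalgebra A F}

/-- The two-chart connectedness statement for an `F`-algebra `L` (in the application: a finite
field extension of `F` with the same constants), in the language of integrality over the charts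
of `F`. -/
def ConnAt (ϖ : A) (Bfin Binf Bmid : Subalgebra A F) (L : Type*) [CommRing L] [Algebra F L] :
    Prop :=
  ∀ e₁ e₂ : L, IsIntegral Bfin e₁ → IsIntegral Binf e₂ →
    (∃ t : L, IsIntegral Bfin t ∧ e₁ ^ 2 - e₁ = algebraMap F L (algebraMap A F ϖ) * t) →
    (∃ t : L, IsIntegral Binf t ∧ e₂ ^ 2 - e₂ = algebraMap F L (algebraMap A F ϖ) * t) →
    (∃ t : L, IsIntegral Bmid t ∧ e₁ - e₂ = algebraMap F L (algebraMap A F ϖ) * t) →
    (∃ t : L, IsIntegral Bfin t ∧ e₁ = algebraMap F L (algebraMap A F ϖ) * t) ∨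
    (∃ t : L, IsIntegral Bfin t ∧ 1 - e₁ = algebraMap F L (algebraMap A F ϖ) * t)

omit [Nontrivial F'] [Algebra A F] [Algebra A F'] [IsScalarTower A F F'] in
theorem kummerE_mul_sub_one (hm : (m : F) ≠ 0) {z : F'} (hz : z ^ m = algebraMap F F' u) :
    algebraMap F F' (m : F) * kummerE F m z * (z - 1) = algebraMap F F' (u - 1) := by
  unfold kummerE
  rw [← mul_assoc, ← map_mul, mul_inv_cancel₀ hm, map_one, one_mul, geom_sum_mul, hz, map_sub,
    map_one]

/-- **ALG_ss, abstract final form.**  On a two-chart model `(Bfin, Binf, Bmid = Bfin[1/x])` with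
semilocal Gauss ring `V` and reduced special fibre, let `u ∈ 1 + ϖ V` admit local factorisations
`u = ε h ^ m` (`ε ∈ 1 + ϖ B_𝔪`, `h ∈ 1 + ϖ V`) at every closed point of the special fibre of both
charts.  If the special fibres of the normalisations of the model in the residue fields of the
Kummer algebra `F' = F[z]/(z ^ m - u)` are connected (`ConnAt`), then `u` is the `m`-th power of an
element of `F` which is `≡ 1` modulo `ϖ V`. -/
theorem exists_root_of_connected (hV : GaussData ϖ m u V)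
    (hfin : ChartData ϖ m u Bfin V) (hinf : ChartData ϖ m u Binf V)
    (hfm : Bfin ≤ Bmid) (him : Binf ≤ Bmid)
    (x : Bfin) (hx0 : (x : F) ≠ 0) (hxinv : ((x : F))⁻¹ ∈ Bmid)
    (hloc : ∀ f ∈ Bmid, ∃ K : ℕ, (x : F) ^ K * f ∈ Bfin)
    {z : F'} (kb : KummerBasis m u z)
    (hconn : ∀ 𝔫 : Ideal F', 𝔫.IsMaximal → ConnAt ϖ Bfin Binf Bmid (F' ⧸ 𝔫)) :
    ∃ y : F, y ^ m = u ∧ ∃ t ∈ V, y = 1 + algebraMap A F ϖ * t := by
  classical
  obtain ⟨e₁, e₂, c₁, he₁, he₂, hc₁, hE, hi1, hi2, h12⟩ :=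
    exists_kummer_lifts hV hfin hinf hfm him x hx0 hxinv hloc kb
  have hm0 : (m : F) ≠ 0 := hV.m_ne
  haveI : NeZero (m : F) := ⟨hm0⟩
  have hmpos : 0 < m := kb.m_pos
  have hϖ0 : algebraMap A F ϖ ≠ 0 := hV.ϖ_ne
  set Ω := AlgebraicClosure F with hΩ
  obtain ⟨ω, hω⟩ := HasEnoughRootsOfUnity.exists_primitiveRoot Ω m
  obtain ⟨r, hr⟩ := IsAlgClosed.exists_pow_nat_eq (algebraMap F Ω u) hmpos
  haveI := kb.finiteDimensional
  haveI : IsArtinianRing F' := IsArtinianRing.of_finite F F'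
  -- the evaluations
  set ev : ℕ → (F' →ₐ[F] Ω) :=
    fun k => kb.evalAt (ω ^ k * r) (KummerBasis.mul_pow_eq hω hr k) with hev
  set ϖ' : F := algebraMap A F ϖ with hϖ'
  have hϖF' : algebraMap A F' ϖ = algebraMap F F' ϖ' := algebraMap_eq_comp F ϖ
  -- the alternative at each evaluation
  have key : ∀ k : ℕ, (∃ τ : Ω, IsIntegral Bfin τ ∧ ev k e₁ = algebraMap F Ω ϖ' * τ) ∨
      (∃ τ : Ω, IsIntegral Bfin τ ∧ 1 - ev k e₁ = algebraMap F Ω ϖ' * τ) := by
    intro k
    set 𝔫 : Ideal F' := RingHom.ker (ev k : F' →+* Ω) with h𝔫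
    haveI : 𝔫.IsPrime := RingHom.ker_isPrime _
    haveI : 𝔫.IsMaximal := inferInstance
    set π : F' →ₐ[F] F' ⧸ 𝔫 := Ideal.Quotient.mkₐ F 𝔫 with hπ
    set ι : F' ⧸ 𝔫 →ₐ[F] Ω := Ideal.Quotient.liftₐ 𝔫 (ev k) (fun a ha => ha) with hι
    have hιπ : ∀ a, ι (π a) = ev k a := fun a => rfl
    have hrel : ∀ a t : F', a = algebraMap A F' ϖ * t →
        π a = algebraMap F (F' ⧸ 𝔫) ϖ' * π t := by
      intro a t h
      rw [h, hϖF', map_mul, AlgHom.commutes]
    have hc := hconn 𝔫 inferInstance (π e₁) (π e₂) (isIntegral_map_algHom Bfin π he₁)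
      (isIntegral_map_algHom Binf π he₂)
      (by
        obtain ⟨t, ht, h⟩ := hi1
        refine ⟨π t, isIntegral_map_algHom Bfin π ht, ?_⟩
        rw [← hrel _ t h, map_sub, map_pow])
      (by
        obtain ⟨t, ht, h⟩ := hi2
        refine ⟨π t, isIntegral_map_algHom Binf π ht, ?_⟩
        rw [← hrel _ t h, map_sub, map_pow])
      (by
        obtain ⟨t, ht, h⟩ := h12
        refine ⟨π t, isIntegral_map_algHom Bmid π ht, ?_⟩
        rw [← hrel _ t h, map_sub])
    rcases hc with ⟨t, ht, h⟩ | ⟨t, ht, h⟩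
    · left
      refine ⟨ι t, isIntegral_map_algHom Bfin ι ht, ?_⟩
      have := congrArg ι h
      rw [hιπ, map_mul, AlgHom.commutes] at this
      exact this
    · right
      refine ⟨ι t, isIntegral_map_algHom Bfin ι ht, ?_⟩
      have := congrArg ι h
      rw [map_sub, map_one, hιπ, map_mul, AlgHom.commutes] at this
      exact this
  by_cases hB : ∃ k : ℕ, ∃ τ : Ω, IsIntegral Bfin τ ∧ 1 - ev k e₁ = algebraMap F Ω ϖ' * τ
  · -- rigidity
    obtain ⟨k, τ, hτ, hk⟩ := hB
    set y₀ : Ω := ω ^ k * r with hy₀def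
    have hy₀ : y₀ ^ m = algebraMap F Ω u := KummerBasis.mul_pow_eq hω hr k
    have hevz : ev k z = y₀ := kb.evalAt_zeta _ _
    have hevE : ev k (kummerE F m z) = ev k e₁ + algebraMap F Ω ϖ' * ev k c₁ := by
      rw [hE, map_add, map_mul, hϖF', AlgHom.commutes]
    have h1E : 1 - ev k (kummerE F m z) = algebraMap F Ω ϖ' * (τ - ev k c₁) := by
      rw [hevE]; linear_combination hk
    obtain ⟨t₀, ht₀, hu⟩ := hV.u_one
    have hmE : algebraMap F Ω (m : F) * ev k (kummerE F m z) * (y₀ - 1) =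
        algebraMap F Ω (u - 1) := by
      have := congrArg (ev k) (kummerE_mul_sub_one (F := F) hm0 kb.pow_eq)
      rw [map_mul, map_mul, map_sub, map_one, hevz, AlgHom.commutes, AlgHom.commutes] at this
      exact this
    have hu' : algebraMap F Ω (u - 1) = algebraMap F Ω ϖ' * algebraMap F Ω t₀ := by
      rw [hu, ← map_mul]; congr 1; ring
    have hmΩ : algebraMap F Ω (m : F) * algebraMap F Ω ((m : F)⁻¹) = 1 := by
      rw [← map_mul, mul_inv_cancel₀ hm0, map_one]
    have hy1 : y₀ - 1 = algebraMap F Ω ϖ' *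
        ((y₀ - 1) * (τ - ev k c₁) + algebraMap F Ω ((m : F)⁻¹) * algebraMap F Ω t₀) := by
      linear_combination (y₀ - 1) * h1E + algebraMap F Ω ((m : F)⁻¹) * hmE +
        algebraMap F Ω ((m : F)⁻¹) * hu' - ((y₀ - 1) * ev k (kummerE F m z)) * hmΩ
    have hy₀int : IsIntegral V y₀ := by
      refine IsIntegral.of_pow hmpos ?_
      rw [hy₀]; exact isIntegral_algebraMap_of_mem' V hV.u_mem
    have hτ' : IsIntegral V
        ((y₀ - 1) * (τ - ev k c₁) + algebraMap F Ω ((m : F)⁻¹) * algebraMap F Ω t₀) := by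
      refine IsIntegral.add (IsIntegral.mul (hy₀int.sub isIntegral_one)
        ((isIntegral_of_le hfin.le_V hτ).sub (isIntegral_map_algHom V (ev k) hc₁))) ?_
      exact (isIntegral_algebraMap_of_mem' V (hV.m_inv_mem V)).mul
        (isIntegral_algebraMap_of_mem' V ht₀)
    obtain ⟨y, hy⟩ := hV.mem_range_of_sub_one hy₀ hτ' hy1
    have hinj := (algebraMap F Ω).injective
    refine ⟨y, ?_, (y - 1) * ϖ'⁻¹, ?_, ?_⟩
    · apply hinj
      rw [map_pow, hy, hy₀]
    · apply hV.closed
      rw [← isIntegral_algebraMap_iff (B := Ω) hinj]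
      have : algebraMap F Ω ((y - 1) * ϖ'⁻¹) =
          (y₀ - 1) * (τ - ev k c₁) + algebraMap F Ω ((m : F)⁻¹) * algebraMap F Ω t₀ := by
        have hϖΩ : algebraMap F Ω ϖ' ≠ 0 := (_root_.map_ne_zero _).2 hϖ0
        apply mul_left_cancel₀ hϖΩ
        rw [← hy1, ← map_mul, mul_comm (y - 1), ← mul_assoc, mul_inv_cancel₀ hϖ0, one_mul,
          map_sub, map_one, hy]
      rw [this]
      exact hτ'
    · rw [mul_comm (y - 1), ← mul_assoc, mul_inv_cancel₀ hϖ0]
      ring
  · -- impossible: all evaluations of `e₁` vanish modulo `ϖ`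
    exfalso
    have hA : ∀ k : ℕ, ∃ τ : Ω, IsIntegral Bfin τ ∧ ev k e₁ = algebraMap F Ω ϖ' * τ :=
      fun k => (key k).resolve_right fun h => hB ⟨k, h⟩
    choose τ hτint hτ using hA
    have hsum := kb.sum_evalAt hω hr e₁ ⟨0, hmpos⟩
    simp only [Nat.sub_zero, hω.pow_eq_one, one_pow, one_mul, pow_zero, mul_one] at hsum
    have hsum' : ∑ k ∈ Finset.range m, ev k e₁ =
        (m : Ω) * algebraMap F Ω (kb.basis.repr e₁ ⟨0, hmpos⟩) := hsum
    rw [Finset.sum_congr rfl fun k _ => hτ k, ← Finset.mul_sum] at hsum'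
    have hmΩ : (m : Ω) = algebraMap F Ω (m : F) := by simp
    have hint : IsIntegral V (algebraMap F Ω ((m : F)⁻¹) * ∑ k ∈ Finset.range m, τ k) :=
      (isIntegral_algebraMap_of_mem' V (hV.m_inv_mem V)).mul
        (IsIntegral.sum _ fun k _ => isIntegral_of_le hfin.le_V (hτint k))
    have heq : algebraMap F Ω (kb.basis.repr e₁ ⟨0, hmpos⟩ * ϖ'⁻¹) =
        algebraMap F Ω ((m : F)⁻¹) * ∑ k ∈ Finset.range m, τ k := by
      have hSumτ : ∑ k ∈ Finset.range m, τ k =
          algebraMap F Ω ϖ'⁻¹ * ((m : Ω) * algebraMap F Ω (kb.basis.repr e₁ ⟨0, hmpos⟩)) := by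
        rw [← hsum', ← mul_assoc, ← map_mul, inv_mul_cancel₀ hϖ0, map_one, one_mul]
      rw [hSumτ, hmΩ]
      simp only [← map_mul]
      congr 1
      field_simp
    rw [← heq] at hint
    have hv : kb.basis.repr e₁ ⟨0, hmpos⟩ * ϖ'⁻¹ ∈ V :=
      hV.closed _ ((isIntegral_algebraMap_iff (algebraMap F Ω).injective).1 hint)
    have h0 := kummerE_repr kb ⟨0, hmpos⟩
    rw [hE, map_add, Finsupp.add_apply, smul_repr] at h0
    refine hV.m_inv_ne (kb.basis.repr e₁ ⟨0, hmpos⟩ * ϖ'⁻¹ + kb.basis.repr c₁ ⟨0, hmpos⟩)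
      (V.add_mem hv (hV.repr_mem kb hc₁ _)) ?_
    rw [← h0, mul_add, mul_comm (kb.basis.repr e₁ ⟨0, hmpos⟩), ← mul_assoc,
      mul_inv_cancel₀ hϖ0, one_mul]

end Main

end Fermat.Agent.A2.H348

end
-- ===== PACK-END A2/H348/Root.lean

-- ===== PACK-BEGIN A2/H609/Branch.lean
section




/-!
# Node purity, part 6: branches

Elementary facts on a discrete valuation ring `D` with a uniformiser `ϖ`, their translation to
a prime `𝔭` of a local ring `R` with `R ⧸ 𝔭` a discrete valuation ring (a "branch"), and the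
length of the chain `(z ^ n) + 𝔞`.  Mathlib only.
-/

set_option autoImplicit false

namespace Fermat.Agent.A2.H609

open Ideal

section DVRFacts

variable {D : Type*} [CommRing D] [IsDomain D]

/-- `ϖ ^ b ≠ ϖ ^ (b + 1) * g` for an irreducible `ϖ`. -/
theorem pow_ne_pow_succ_mul {ϖ : D} (hϖ : Irreducible ϖ) (b : ℕ) (g : D) :
    ϖ ^ b ≠ ϖ ^ (b + 1) * g := by
  intro h
  have h0 : ϖ ^ b ≠ 0 := pow_ne_zero _ hϖ.ne_zero
  have h1 : ϖ ^ b * 1 = ϖ ^ b * (ϖ * g) := by
    rw [mul_one, ← _root_.mul_assoc, ← pow_succ]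
    exact h
  have h2 := mul_left_cancel₀ h0 h1
  exact hϖ.not_isUnit (IsUnit.of_mul_eq_one g h2.symm)

variable [IsDiscreteValuationRing D]

/-- In a discrete valuation ring, a nonzero element associated to an `m`-th power is
`unit * ϖ ^ (m * a)`. -/
theorem exists_eq_unit_mul_pow_mul_of_associated_pow {ϖ : D} (hϖ : Irreducible ϖ) {m : ℕ}
    (hm : m ≠ 0) {v z : D} (hz : z ≠ 0) (h : Associated (v ^ m) z) :
    ∃ (a : ℕ) (ε : Dˣ), z = ε * ϖ ^ (m * a) := by
  have hv : v ≠ 0 := by
    rintro rfl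
    rw [zero_pow hm] at h
    exact hz (by simpa using h.symm.eq_zero_iff.mpr rfl)
  obtain ⟨a, ε₀, hv'⟩ := IsDiscreteValuationRing.eq_unit_mul_pow_irreducible hv hϖ
  obtain ⟨w, hw⟩ := h
  refine ⟨a, ε₀ ^ m * w, ?_⟩
  rw [← hw, hv']
  push_cast
  ring

/-- In a discrete valuation ring, `ϖ ^ (m * a + 1) ∣ z ^ m → ϖ ^ (a + 1) ∣ z`. -/
theorem pow_succ_dvd_of_pow_mul_succ_dvd_pow {ϖ : D} (hϖ : Irreducible ϖ) {m a : ℕ}
    {z : D} (h : ϖ ^ (m * a + 1) ∣ z ^ m) : ϖ ^ (a + 1) ∣ z := by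
  by_cases hz : z = 0
  · rw [hz]
    exact dvd_zero _
  obtain ⟨n, ε, hn⟩ := IsDiscreteValuationRing.eq_unit_mul_pow_irreducible hz hϖ
  have h1 : ϖ ^ (m * a + 1) ∣ ϖ ^ (n * m) := by
    have h2 : z ^ m = (ε ^ m : Dˣ) * ϖ ^ (n * m) := by
      rw [hn]
      push_cast
      ring
    rw [h2] at h
    exact (Units.dvd_mul_left).mp h
  have h3 : m * a + 1 ≤ n * m := (pow_dvd_pow_iff hϖ.ne_zero hϖ.not_isUnit).mp h1
  have h4 : a + 1 ≤ n := by
    rcases Nat.lt_or_ge n (a + 1) with hcon | hcon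
    · have h5 : n ≤ a := Nat.lt_succ_iff.mp hcon
      have h6 : n * m ≤ m * a := by
        rw [_root_.mul_comm n m]
        exact Nat.mul_le_mul_left m h5
      omega
    · exact hcon
  rw [hn]
  exact Dvd.dvd.mul_left (pow_dvd_pow ϖ h4) _

end DVRFacts

section Branch

variable {R : Type*} [CommRing R] [IsLocalRing R]
variable (𝔭 : Ideal R) [𝔭.IsPrime] [IsDiscreteValuationRing (R ⧸ 𝔭)]

/-- Non-units of `R` are divisible by a uniformiser modulo `𝔭`. -/
theorem exists_sub_mul_mem_of_mem_maximalIdeal {x : R}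
    (hx : Irreducible (Ideal.Quotient.mk 𝔭 x)) {s : R} (hs : s ∈ IsLocalRing.maximalIdeal R) :
    ∃ g : R, s - x * g ∈ 𝔭 := by
  have hloc : IsLocalHom (Ideal.Quotient.mk 𝔭) :=
    Function.Surjective.isLocalHom _ Ideal.Quotient.mk_surjective
  have h1 : ¬ IsUnit (Ideal.Quotient.mk 𝔭 s) := by
    intro h
    exact hs (IsLocalHom.map_nonunit s h)
  have h2 : Ideal.Quotient.mk 𝔭 s ∈ IsLocalRing.maximalIdeal (R ⧸ 𝔭) := h1
  rw [hx.maximalIdeal_eq, Ideal.mem_span_singleton] at h2
  obtain ⟨c, hc⟩ := h2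
  obtain ⟨g, rfl⟩ := Ideal.Quotient.mk_surjective c
  refine ⟨g, ?_⟩
  rw [← Ideal.Quotient.eq, hc, _root_.map_mul]

omit [IsLocalRing R] [IsDiscreteValuationRing (R ⧸ 𝔭)] in
/-- `x ^ b ∉ (x ^ (b + 1)) + 𝔭` for a uniformiser `x` modulo `𝔭`. -/
theorem pow_sub_pow_succ_mul_notMem {x : R}
    (hx : Irreducible (Ideal.Quotient.mk 𝔭 x)) (b : ℕ) (g : R) :
    x ^ b - x ^ (b + 1) * g ∉ 𝔭 := by
  intro h
  rw [← Ideal.Quotient.eq, _root_.map_mul, _root_.map_pow, _root_.map_pow] at h
  exact pow_ne_pow_succ_mul hx b _ h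

omit [IsLocalRing R] in
/-- The data `(a, ε)` with `u ≡ ε x ^ (m a)` modulo `𝔭` extracted from (H2). -/
theorem exists_mk_eq_unit_mul_pow {x : R}
    (hx : Irreducible (Ideal.Quotient.mk 𝔭 x)) {m : ℕ} (hm : m ≠ 0) {u : R} (hu : u ∉ 𝔭)
    (H2 : ∃ v : R ⧸ 𝔭, Associated (v ^ m) (Ideal.Quotient.mk 𝔭 u)) :
    ∃ (a : ℕ) (ε : (R ⧸ 𝔭)ˣ),
      Ideal.Quotient.mk 𝔭 u = ε * (Ideal.Quotient.mk 𝔭 x) ^ (m * a) := by
  obtain ⟨v, hv⟩ := H2
  have hu0 : Ideal.Quotient.mk 𝔭 u ≠ 0 := by
    rwa [Ne, Ideal.Quotient.eq_zero_iff_mem]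
  exact exists_eq_unit_mul_pow_mul_of_associated_pow hx hm hu0 hv

omit [IsLocalRing R] [IsDiscreteValuationRing (R ⧸ 𝔭)] [𝔭.IsPrime] in
/-- `x ^ (m a) ∈ (u) + 𝔭` if `u ≡ ε x ^ (m a)` modulo `𝔭`. -/
theorem exists_pow_sub_mul_mem {x u : R} {n : ℕ} {ε : (R ⧸ 𝔭)ˣ}
    (hu : Ideal.Quotient.mk 𝔭 u = ε * (Ideal.Quotient.mk 𝔭 x) ^ n) :
    ∃ e : R, x ^ n - u * e ∈ 𝔭 := by
  obtain ⟨e, he⟩ := Ideal.Quotient.mk_surjective ((ε⁻¹ : (R ⧸ 𝔭)ˣ) : R ⧸ 𝔭)
  refine ⟨e, ?_⟩
  rw [← Ideal.Quotient.eq, _root_.map_mul, _root_.map_pow, he, hu]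
  rw [_root_.mul_comm, ← _root_.mul_assoc, Units.inv_mul, one_mul]

/-- If `u ≡ ε x ^ (m a)` modulo `𝔭`, `f ^ m = u r` and `r` is not a unit, then
`f ∈ (x ^ (a + 1)) + 𝔭`. -/
theorem exists_sub_pow_succ_mul_mem {x : R}
    (hx : Irreducible (Ideal.Quotient.mk 𝔭 x)) {m a : ℕ} {u : R} {ε : (R ⧸ 𝔭)ˣ}
    (hu : Ideal.Quotient.mk 𝔭 u = ε * (Ideal.Quotient.mk 𝔭 x) ^ (m * a))
    {f r : R} (hf : f ^ m = u * r) (hr : r ∈ IsLocalRing.maximalIdeal R) :
    ∃ g : R, f - x ^ (a + 1) * g ∈ 𝔭 := by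
  obtain ⟨c, hc⟩ := exists_sub_mul_mem_of_mem_maximalIdeal 𝔭 hx hr
  rw [← Ideal.Quotient.eq, _root_.map_mul] at hc
  have h0 : (Ideal.Quotient.mk 𝔭 f) ^ m =
      Ideal.Quotient.mk 𝔭 u * Ideal.Quotient.mk 𝔭 r := by
    rw [← _root_.map_pow, hf, _root_.map_mul]
  have h1 : (Ideal.Quotient.mk 𝔭 x) ^ (m * a + 1) ∣ (Ideal.Quotient.mk 𝔭 f) ^ m := by
    rw [h0, hu, hc]
    refine ⟨ε * Ideal.Quotient.mk 𝔭 c, ?_⟩
    ring
  obtain ⟨d, hd⟩ := pow_succ_dvd_of_pow_mul_succ_dvd_pow hx h1
  obtain ⟨g, rfl⟩ := Ideal.Quotient.mk_surjective d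
  refine ⟨g, ?_⟩
  rw [← Ideal.Quotient.eq, hd, _root_.map_mul, _root_.map_pow]

end Branch

section PowChain

variable {R : Type*} [CommRing R]

/-- A nonzero relative quotient has length at least one. -/
theorem one_le_relLen_of_notMem {A B : Ideal R} {z : R} (hz : z ∈ B) (hzA : z ∉ A) :
    1 ≤ relLen A B := by
  rw [relLen, Order.one_le_iff_ne_zero, Ne, Module.length_eq_zero_iff]
  intro hsub
  apply hzA
  have h := hsub.elim (Submodule.Quotient.mk (⟨z, hz⟩ : B) : ↥B ⧸ A.submoduleOf B) 0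
  rw [Submodule.Quotient.mk_eq_zero] at h
  exact h

variable [IsLocalRing R]

/-- The residue field has length one. -/
theorem relLen_maximalIdeal :
    relLen (IsLocalRing.maximalIdeal R) (⊤ : Ideal R) = 1 := by
  rw [relLen_top, Module.length_eq_one_iff, isSimpleModule_iff_isCoatom]
  exact Ideal.isMaximal_def.mp (IsLocalRing.maximalIdeal.isMaximal R)

/-- A cyclic relative quotient killed by the maximal ideal has length at most one. -/
theorem relLen_le_one_of_kill {A B : Ideal R} {z : R} (hz : z ∈ B)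
    (hB : B ≤ Ideal.span {z} ⊔ A)
    (hkill : ∀ s ∈ IsLocalRing.maximalIdeal R, s * z ∈ A) : relLen A B ≤ 1 := by
  rw [← relLen_maximalIdeal (R := R)]
  refine relLen_le_of_map (LinearMap.mulRight R z) (N' := IsLocalRing.maximalIdeal R)
    (N := ⊤) (P' := A) (P := B) ?_ ?_ ?_
  · intro y _
    rw [LinearMap.mulRight_apply]
    exact B.mul_mem_left y hz
  · intro y hy
    rw [LinearMap.mulRight_apply]
    exact hkill y hy
  · intro b hb
    obtain ⟨c, hc, a, ha, rfl⟩ := Submodule.mem_sup.mp (hB hb)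
    obtain ⟨d, rfl⟩ := Ideal.mem_span_singleton'.mp hc
    refine ⟨d, trivial, ?_⟩
    rw [LinearMap.mulRight_apply, add_sub_cancel_left]
    exact ha

/-- One step of the power chain has length one. -/
theorem relLen_pow_step (𝔭 : Ideal R) [𝔭.IsPrime] {z : R}
    (hz : Irreducible (Ideal.Quotient.mk 𝔭 z)) (𝔞 : Ideal R) (h𝔞 : 𝔞 ≤ 𝔭) (n : ℕ)
    (hkill : ∀ s ∈ IsLocalRing.maximalIdeal R, s * z ^ n ∈ Ideal.span {z ^ (n + 1)} ⊔ 𝔞) :
    relLen (Ideal.span {z ^ (n + 1)} ⊔ 𝔞) (Ideal.span {z ^ n} ⊔ 𝔞) = 1 := by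
  have hzB : z ^ n ∈ Ideal.span {z ^ n} ⊔ 𝔞 :=
    Ideal.mem_sup_left (Ideal.mem_span_singleton_self _)
  apply le_antisymm
  · refine relLen_le_one_of_kill hzB ?_ hkill
    refine sup_le le_sup_left ?_
    exact le_sup_of_le_right le_sup_right
  · refine one_le_relLen_of_notMem hzB ?_
    intro hmem
    obtain ⟨c, hc, a, ha, hca⟩ := Submodule.mem_sup.mp hmem
    obtain ⟨g, rfl⟩ := Ideal.mem_span_singleton'.mp hc
    refine pow_sub_pow_succ_mul_notMem 𝔭 hz n g ?_
    have : z ^ n - z ^ (n + 1) * g = a := by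
      rw [← hca]
      ring
    rw [this]
    exact h𝔞 ha

/-- The power chain: `ℓ(((z ^ n₀) + 𝔞) / ((z ^ (n₀ + k)) + 𝔞)) = k`. -/
theorem relLen_pow_chain (𝔭 : Ideal R) [𝔭.IsPrime] {z : R}
    (hz : Irreducible (Ideal.Quotient.mk 𝔭 z)) (𝔞 : Ideal R) (h𝔞 : 𝔞 ≤ 𝔭) (n₀ : ℕ)
    (hkill : ∀ n, n₀ ≤ n → ∀ s ∈ IsLocalRing.maximalIdeal R,
      s * z ^ n ∈ Ideal.span {z ^ (n + 1)} ⊔ 𝔞) (k : ℕ) :
    relLen (Ideal.span {z ^ (n₀ + k)} ⊔ 𝔞) (Ideal.span {z ^ n₀} ⊔ 𝔞) = k := by
  have hmono : ∀ i j : ℕ, i ≤ j → Ideal.span {z ^ j} ⊔ 𝔞 ≤ Ideal.span {z ^ i} ⊔ 𝔞 := by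
    intro i j hij
    refine sup_le_sup_right ?_ _
    rw [Ideal.span_singleton_le_span_singleton]
    exact pow_dvd_pow z hij
  induction k with
  | zero =>
    rw [add_zero, relLen_self]
    rfl
  | succ k ih =>
    rw [relLen_add (hmono (n₀ + k) (n₀ + (k + 1)) (by omega)) (hmono n₀ (n₀ + k) (by omega)), ih,
      ← add_assoc, relLen_pow_step 𝔭 hz 𝔞 h𝔞 (n₀ + k) (hkill _ (by omega))]
    push_cast
    rw [add_comm]

end PowChain

end Fermat.Agent.A2.H609

end
-- ===== PACK-END A2/H609/Branch.lean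

-- ===== PACK-BEGIN A2/H48/TwoExt.lean
section


/-!
# A2 / piece QEP2, part 2 (helper48): no third extension

Mathlib-only.  `K` a field with a rank-one valuation ring `O` with uniformiser `ϖ`; `F / K` a finite
extension of degree `n`; `V₁ ≠ V₂` valuation rings of `F` lying over `O`, both with uniformiser
`ϖ` (`e = 1`); families `b` in `V₁`, `c` in `V₂` whose residues are linearly independent over the
residue field of `O`, with `f₁ + f₂ = n` members altogether.  Then

* `TwoExt.exists_basis` : `V₁ ∩ V₂` is a free `O`-module on `n` generators which form a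
  `K`-basis of `F`;
* `TwoExt.exists_monic_of_mem` : every `u ∈ V₁ ∩ V₂` is integral over `O`
  (so `V₁`, `V₂` are the only extensions of `O`: the fundamental inequality is an equality).
-/

set_option autoImplicit false

namespace Fermat.Agent.A2.H48

open Polynomial

section Closed

variable {F : Type*} [Field F]

/-- A valuation ring is integrally closed (elementwise form, for polynomials over the field). -/
theorem mem_of_monic_root (V : ValuationSubring F) {p : F[X]} (hp : p.Monic)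
    (hc : ∀ i, p.coeff i ∈ V) {g : F} (hg : p.eval g = 0) : g ∈ V := by
  by_contra hgV
  have hv : 1 < V.valuation g := by
    rw [← not_le, V.valuation_le_one_iff]; exact hgV
  have hg0 : g ≠ 0 := by rintro rfl; exact hgV (zero_mem _)
  have hvpos : 0 < V.valuation g := lt_trans zero_lt_one hv
  set d := p.natDegree with hd
  have hsum : p.eval g = g ^ d + ∑ i ∈ Finset.range d, p.coeff i * g ^ i := by
    rw [eval_eq_sum_range, Finset.sum_range_succ, ← hd, hp.coeff_natDegree, one_mul, add_comm]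
  rw [hsum] at hg
  have h1 : g ^ d = -∑ i ∈ Finset.range d, p.coeff i * g ^ i := eq_neg_of_add_eq_zero_left hg
  have h2 : V.valuation (∑ i ∈ Finset.range d, p.coeff i * g ^ i) < V.valuation g ^ d := by
    apply Valuation.map_sum_lt
    · exact pow_ne_zero _ hvpos.ne'
    · intro i hi
      rw [Finset.mem_range] at hi
      rw [map_mul, map_pow]
      calc V.valuation (p.coeff i) * V.valuation g ^ i ≤ 1 * V.valuation g ^ i :=
            mul_le_mul_left ((V.valuation_le_one_iff _).2 (hc i)) _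
        _ = V.valuation g ^ i := one_mul _
        _ < V.valuation g ^ d := pow_lt_pow_right₀ hv hi
  have h3 : V.valuation (g ^ d) = V.valuation g ^ d := map_pow _ _ _
  rw [h1, Valuation.map_neg] at h3
  exact absurd h3 h2.ne

end Closed

section Arch

variable {K F : Type*} [Field K] [Field F] [Algebra K F]

/-- A rank-one condition on `O` propagates to every valuation ring of an algebraic extension
which contains `O`. -/
theorem exists_pow_mul_mem {O : ValuationSubring K} {ϖ : K} (hϖ : ϖ ∈ O)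
    (harch : ∀ a : K, ∃ k : ℕ, ϖ ^ k * a ∈ O)
    (V : ValuationSubring F) (hOV : ∀ a ∈ O, algebraMap K F a ∈ V)
    {f : F} (hf : IsIntegral K f) : ∃ k : ℕ, (algebraMap K F ϖ) ^ k * f ∈ V := by
  classical
  set μ := minpoly K f with hμ
  have hmonic : μ.Monic := minpoly.monic hf
  choose kk hkk using fun i : ℕ => harch (μ.coeff i)
  set k := (∑ i ∈ Finset.range (μ.natDegree + 1), kk i) + 1 with hk
  have hk1 : ∀ i ∈ Finset.range (μ.natDegree + 1), ϖ ^ k * μ.coeff i ∈ O := by
    intro i hi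
    have hle : kk i ≤ k := by
      have := Finset.single_le_sum (f := kk) (fun j _ => Nat.zero_le _) hi
      omega
    obtain ⟨r, hr⟩ := Nat.exists_eq_add_of_le hle
    rw [hr, pow_add, mul_comm (ϖ ^ kk i), mul_assoc]
    exact mul_mem (pow_mem hϖ _) (hkk i)
  refine ⟨k, ?_⟩
  set p := μ.scaleRoots (ϖ ^ k) with hp
  have hpm : p.Monic := (monic_scaleRoots_iff _).2 hmonic
  have hroot : aeval (algebraMap K F (ϖ ^ k) * f) p = 0 :=
    scaleRoots_aeval_eq_zero (minpoly.aeval K f)
  have hcoef : ∀ i, p.coeff i ∈ O := by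
    intro i
    rw [hp, coeff_scaleRoots]
    rcases lt_trichotomy i μ.natDegree with h | h | h
    · obtain ⟨r, hr⟩ := Nat.exists_eq_add_of_lt (Nat.sub_pos_of_lt h)
      have h1 : μ.natDegree - i = r + 1 := by omega
      rw [h1, pow_succ, ← mul_assoc]
      have h2 : ϖ ^ k * μ.coeff i ∈ O := hk1 i (Finset.mem_range.2 (by omega))
      have h3 : μ.coeff i * (ϖ ^ k) ^ r * ϖ ^ k = (ϖ ^ k * μ.coeff i) * (ϖ ^ k) ^ r := by ring
      rw [h3]
      exact mul_mem h2 (pow_mem (pow_mem hϖ _) _)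
    · rw [h, hmonic.coeff_natDegree, Nat.sub_self, pow_zero, mul_one]
      exact one_mem _
    · rw [coeff_eq_zero_of_natDegree_lt h, zero_mul]
      exact zero_mem _
  have hq : (p.map (algebraMap K F)).eval (algebraMap K F (ϖ ^ k) * f) = 0 := by
    rw [eval_map, ← aeval_def]; exact hroot
  have := mem_of_monic_root V (hpm.map (algebraMap K F))
    (fun i => by rw [coeff_map]; exact hOV _ (hcoef i)) hq
  rwa [map_pow] at this

end Arch

section Scale

variable {K : Type*} [Field K]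

/-- Scaling a finite family by its entry of largest valuation. -/
theorem exists_scale_family {ι : Type*} [Fintype ι] (O : ValuationSubring K) (g : ι → K)
    (l : ι) :
    ∃ l₀, O.valuation (g l) ≤ O.valuation (g l₀) ∧
      ∀ l', O.valuation (g l') ≤ O.valuation (g l₀) := by
  obtain ⟨l₀, -, h⟩ := Finset.exists_max_image Finset.univ (fun l => O.valuation (g l))
    ⟨l, Finset.mem_univ l⟩
  exact ⟨l₀, h l (Finset.mem_univ l), fun l' => h l' (Finset.mem_univ l')⟩

theorem mul_inv_mem_of_val_le (O : ValuationSubring K) {x y : K} (hy : y ≠ 0)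
    (h : O.valuation x ≤ O.valuation y) : x * y⁻¹ ∈ O := by
  rw [← O.valuation_le_one_iff, map_mul, map_inv₀,
    mul_inv_le_iff₀ (zero_lt_iff.2 ((Valuation.ne_zero_iff _).2 hy)), one_mul]
  exact h

end Scale

section Main

variable {K F : Type*} [Field K] [Field F] [Algebra K F]

/-- The hypotheses of the "no third extension" theorem. -/
structure TwoExt (O : ValuationSubring K) (V₁ V₂ : ValuationSubring F) (ϖ : K)
    {f₁ f₂ : ℕ} (b : Fin f₁ → F) (c : Fin f₂ → F) : Prop where
  unifO : IsUnif O ϖ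
  unif₁ : IsUnif V₁ (algebraMap K F ϖ)
  unif₂ : IsUnif V₂ (algebraMap K F ϖ)
  le₁ : ∀ a ∈ O, algebraMap K F a ∈ V₁
  le₂ : ∀ a ∈ O, algebraMap K F a ∈ V₂
  ne : V₁ ≠ V₂
  arch : ∀ a : K, ∃ k : ℕ, ϖ ^ k * a ∈ O
  b_mem : ∀ i, b i ∈ V₁
  c_mem : ∀ j, c j ∈ V₂
  b_indep : ∀ a : Fin f₁ → K, (∀ i, a i ∈ O) →
    (∑ i, algebraMap K F (a i) * b i) * (algebraMap K F ϖ)⁻¹ ∈ V₁ → ∀ i, a i * ϖ⁻¹ ∈ O
  c_indep : ∀ a : Fin f₂ → K, (∀ j, a j ∈ O) →
    (∑ j, algebraMap K F (a j) * c j) * (algebraMap K F ϖ)⁻¹ ∈ V₂ → ∀ j, a j * ϖ⁻¹ ∈ O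
  card : f₁ + f₂ = Module.finrank K F

namespace TwoExt

variable {O : ValuationSubring K} {V₁ V₂ : ValuationSubring F} {ϖ : K}
  {f₁ f₂ : ℕ} {b : Fin f₁ → F} {c : Fin f₂ → F}

/-- A good generating family: `m` lies in `V₁ ∩ V₂` and a combination with coefficients in `O`
which is divisible by `ϖ` in both `V₁` and `V₂` has all its coefficients divisible by `ϖ`. -/
def IsGood (O : ValuationSubring K) (V₁ V₂ : ValuationSubring F) (ϖ : K)
    {ι : Type*} [Fintype ι] (m : ι → F) : Prop :=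
  (∀ l, m l ∈ V₁) ∧ (∀ l, m l ∈ V₂) ∧
    ∀ a : ι → K, (∀ l, a l ∈ O) →
      (∑ l, algebraMap K F (a l) * m l) * (algebraMap K F ϖ)⁻¹ ∈ V₁ →
      (∑ l, algebraMap K F (a l) * m l) * (algebraMap K F ϖ)⁻¹ ∈ V₂ → ∀ l, a l * ϖ⁻¹ ∈ O

theorem exists_good [FiniteDimensional K F] (h : TwoExt O V₁ V₂ ϖ b c) :
    ∃ m : Fin f₁ ⊕ Fin f₂ → F, IsGood O V₁ V₂ ϖ m := by
  classical
  set π := algebraMap K F ϖ with hπ
  have hπ0 : π ≠ 0 := h.unif₁.ne_zero
  have hA₁ : ∀ i, ∃ g : F, g ∈ V₁ ∧ (g - b i) * π⁻¹ ∈ V₁ ∧ g * π⁻¹ ∈ V₂ := fun i => by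
    obtain ⟨k, hk⟩ := exists_pow_mul_mem h.unifO.mem h.arch V₂ h.le₂
      (Algebra.IsIntegral.isIntegral (R := K) (b i))
    exact exists_approx h.unif₁ h.unif₂ h.ne (h.b_mem i) hk
  have hA₂ : ∀ j, ∃ g : F, g ∈ V₂ ∧ (g - c j) * π⁻¹ ∈ V₂ ∧ g * π⁻¹ ∈ V₁ := fun j => by
    obtain ⟨k, hk⟩ := exists_pow_mul_mem h.unifO.mem h.arch V₁ h.le₁
      (Algebra.IsIntegral.isIntegral (R := K) (c j))
    exact exists_approx h.unif₂ h.unif₁ (Ne.symm h.ne) (h.c_mem j) hk
  choose g hg1 hg2 hg3 using hA₁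
  choose g' hg'1 hg'2 hg'3 using hA₂
  have hgV₂ : ∀ i, g i ∈ V₂ := fun i => by
    have : g i = g i * π⁻¹ * π := by field_simp
    rw [this]; exact mul_mem (hg3 i) h.unif₂.mem
  have hg'V₁ : ∀ j, g' j ∈ V₁ := fun j => by
    have : g' j = g' j * π⁻¹ * π := by field_simp
    rw [this]; exact mul_mem (hg'3 j) h.unif₁.mem
  refine ⟨Sum.elim g g', ?_, ?_, ?_⟩
  · rintro (i | j)
    · exact hg1 i
    · exact hg'V₁ j
  · rintro (i | j)
    · exact hgV₂ i
    · exact hg'1 j
  · intro a ha hS₁ hS₂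
    have hsplit : (∑ l, algebraMap K F (a l) * Sum.elim g g' l) =
        (∑ i, algebraMap K F (a (Sum.inl i)) * g i) +
          ∑ j, algebraMap K F (a (Sum.inr j)) * g' j := by
      rw [Fintype.sum_sum_type]; simp only [Sum.elim_inl, Sum.elim_inr]
    rw [hsplit] at hS₁ hS₂
    rintro (i | j)
    · refine h.b_indep (fun i => a (Sum.inl i)) (fun i => ha _) ?_ i
      have e1 : (∑ i, algebraMap K F (a (Sum.inl i)) * b i) * π⁻¹ =
          ((∑ i, algebraMap K F (a (Sum.inl i)) * g i) +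
            ∑ j, algebraMap K F (a (Sum.inr j)) * g' j) * π⁻¹
          - ∑ i, algebraMap K F (a (Sum.inl i)) * ((g i - b i) * π⁻¹)
          - ∑ j, algebraMap K F (a (Sum.inr j)) * (g' j * π⁻¹) := by
        have hW : ∑ i, algebraMap K F (a (Sum.inl i)) * ((g i - b i) * π⁻¹) =
            (∑ i, algebraMap K F (a (Sum.inl i)) * g i) * π⁻¹ -
              (∑ i, algebraMap K F (a (Sum.inl i)) * b i) * π⁻¹ := by
          rw [Finset.sum_mul, Finset.sum_mul, ← Finset.sum_sub_distrib]
          exact Finset.sum_congr rfl fun i _ => by ring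
        have hZ : ∑ j, algebraMap K F (a (Sum.inr j)) * (g' j * π⁻¹) =
            (∑ j, algebraMap K F (a (Sum.inr j)) * g' j) * π⁻¹ := by
          rw [Finset.sum_mul]
          exact Finset.sum_congr rfl fun j _ => by ring
        rw [hW, hZ]; ring
      rw [e1]
      refine sub_mem (sub_mem hS₁ (sum_mem fun i _ => mul_mem (h.le₁ _ (ha _)) (hg2 i)))
        (sum_mem fun j _ => mul_mem (h.le₁ _ (ha _)) (hg'3 j))
    · refine h.c_indep (fun j => a (Sum.inr j)) (fun j => ha _) ?_ j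
      have e1 : (∑ j, algebraMap K F (a (Sum.inr j)) * c j) * π⁻¹ =
          ((∑ i, algebraMap K F (a (Sum.inl i)) * g i) +
            ∑ j, algebraMap K F (a (Sum.inr j)) * g' j) * π⁻¹
          - ∑ j, algebraMap K F (a (Sum.inr j)) * ((g' j - c j) * π⁻¹)
          - ∑ i, algebraMap K F (a (Sum.inl i)) * (g i * π⁻¹) := by
        have hW : ∑ j, algebraMap K F (a (Sum.inr j)) * ((g' j - c j) * π⁻¹) =
            (∑ j, algebraMap K F (a (Sum.inr j)) * g' j) * π⁻¹ -
              (∑ j, algebraMap K F (a (Sum.inr j)) * c j) * π⁻¹ := by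
          rw [Finset.sum_mul, Finset.sum_mul, ← Finset.sum_sub_distrib]
          exact Finset.sum_congr rfl fun j _ => by ring
        have hZ : ∑ i, algebraMap K F (a (Sum.inl i)) * (g i * π⁻¹) =
            (∑ i, algebraMap K F (a (Sum.inl i)) * g i) * π⁻¹ := by
          rw [Finset.sum_mul]
          exact Finset.sum_congr rfl fun i _ => by ring
        rw [hW, hZ]; ring
      rw [e1]
      refine sub_mem (sub_mem hS₂ (sum_mem fun j _ => mul_mem (h.le₂ _ (ha _)) (hg'2 j)))
        (sum_mem fun i _ => mul_mem (h.le₂ _ (ha _)) (hg3 i))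

namespace IsGood

variable {ι : Type*} [Fintype ι] {m : ι → F}

theorem linearIndependent (hO : IsUnif O ϖ) (hm : IsGood O V₁ V₂ ϖ m) :
    LinearIndependent K m := by
  classical
  rw [Fintype.linearIndependent_iff]
  intro g hg
  by_contra hne
  rw [not_forall] at hne
  obtain ⟨l, hl⟩ := hne
  obtain ⟨l₀, hl₀, hmax⟩ := exists_scale_family O g l
  have hg0 : g l₀ ≠ 0 := by
    intro h0
    rw [h0, map_zero] at hl₀
    exact (Valuation.ne_zero_iff _).2 hl (le_antisymm hl₀ zero_le)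
  have ha : ∀ l', g l' * (g l₀)⁻¹ ∈ O := fun l' => mul_inv_mem_of_val_le O hg0 (hmax l')
  have hsum : ∑ l', algebraMap K F (g l' * (g l₀)⁻¹) * m l' = 0 := by
    have : ∑ l', algebraMap K F (g l' * (g l₀)⁻¹) * m l' =
        algebraMap K F (g l₀)⁻¹ * ∑ l', g l' • m l' := by
      rw [Finset.mul_sum]
      refine Finset.sum_congr rfl fun l' _ => ?_
      rw [map_mul, Algebra.smul_def]; ring
    rw [this, hg, mul_zero]
  have := hm.2.2 _ ha (by rw [hsum, zero_mul]; exact zero_mem _)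
    (by rw [hsum, zero_mul]; exact zero_mem _) l₀
  rw [mul_inv_cancel₀ hg0, one_mul] at this
  exact hO.inv_not_mem this

/-- The coordinates of an element of `V₁ ∩ V₂` in a good basis lie in `O`. -/
theorem repr_mem (hO : IsUnif O ϖ) (le₁ : ∀ a ∈ O, algebraMap K F a ∈ V₁)
    (le₂ : ∀ a ∈ O, algebraMap K F a ∈ V₂) (hm : IsGood O V₁ V₂ ϖ m)
    (B : Module.Basis ι K F) (hB : ∀ l, B l = m l) {z : F} (hz₁ : z ∈ V₁) (hz₂ : z ∈ V₂)
    (l : ι) : B.repr z l ∈ O := by
  classical
  by_contra hl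
  set g : ι → K := fun l => B.repr z l with hg
  obtain ⟨l₀, hl₀, hmax⟩ := exists_scale_family O g l
  have hv : 1 < O.valuation (g l₀) := by
    refine lt_of_lt_of_le ?_ hl₀
    rw [← not_le, O.valuation_le_one_iff]; exact hl
  have hg0 : g l₀ ≠ 0 := by
    intro h0
    rw [h0, map_zero] at hv
    exact absurd hv (not_lt.2 zero_le)
  have ha : ∀ l', g l' * (g l₀)⁻¹ ∈ O := fun l' => mul_inv_mem_of_val_le O hg0 (hmax l')
  have hz : ∑ l', g l' • m l' = z := by
    have := B.sum_repr z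
    simpa only [hB] using this
  have hsum : ∑ l', algebraMap K F (g l' * (g l₀)⁻¹) * m l' = algebraMap K F (g l₀)⁻¹ * z := by
    rw [← hz, Finset.mul_sum]
    refine Finset.sum_congr rfl fun l' _ => ?_
    rw [map_mul, Algebra.smul_def]; ring
  have hinv : (g l₀)⁻¹ * ϖ⁻¹ ∈ O := by
    rw [hO.mul_inv_mem_iff, map_inv₀]
    exact inv_lt_one_of_one_lt₀ hv
  have hkey : (∑ l', algebraMap K F (g l' * (g l₀)⁻¹) * m l') * (algebraMap K F ϖ)⁻¹ =
      algebraMap K F ((g l₀)⁻¹ * ϖ⁻¹) * z := by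
    rw [hsum, map_mul, map_inv₀, map_inv₀]; ring
  have := hm.2.2 _ ha (by rw [hkey]; exact mul_mem (le₁ _ hinv) hz₁)
    (by rw [hkey]; exact mul_mem (le₂ _ hinv) hz₂) l₀
  rw [mul_inv_cancel₀ hg0, one_mul] at this
  exact hO.inv_not_mem this

/-- Every element of `V₁ ∩ V₂` is integral over `O`. -/
theorem exists_monic (hO : IsUnif O ϖ) (le₁ : ∀ a ∈ O, algebraMap K F a ∈ V₁)
    (le₂ : ∀ a ∈ O, algebraMap K F a ∈ V₂) (hm : IsGood O V₁ V₂ ϖ m)
    (hcard : Fintype.card ι = Module.finrank K F) [FiniteDimensional K F]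
    {u : F} (hu₁ : u ∈ V₁) (hu₂ : u ∈ V₂) :
    ∃ p : K[X], p.Monic ∧ (∀ i, p.coeff i ∈ O) ∧ aeval u p = 0 := by
  classical
  have hpos : 0 < Module.finrank K F := Module.finrank_pos
  have : Nonempty ι := by
    rw [← Fintype.card_pos_iff, hcard]; exact hpos
  set B := basisOfLinearIndependentOfCardEqFinrank (hm.linearIndependent hO) hcard with hBdef
  have hB : ∀ l, B l = m l := fun l => by
    rw [hBdef, coe_basisOfLinearIndependentOfCardEqFinrank]
  let _ : Algebra O F := ((algebraMap K F).comp O.subtype).toAlgebra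
  have hsmul : ∀ (r : O) (x : F), r • x = algebraMap K F (r : K) * x := fun r x => rfl
  set N : Submodule O F := Submodule.span O (Set.range m) with hN
  have hmem : ∀ z : F, z ∈ V₁ → z ∈ V₂ → z ∈ N := by
    intro z hz₁ hz₂
    have hz : z = ∑ l, (⟨B.repr z l, repr_mem hO le₁ le₂ hm B hB hz₁ hz₂ l⟩ : O) • m l := by
      conv_lhs => rw [← B.sum_repr z]
      refine Finset.sum_congr rfl fun l _ => ?_
      rw [hsmul, hB, Algebra.smul_def]
    rw [hz]
    exact Submodule.sum_mem _ fun l _ =>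
      Submodule.smul_mem _ _ (Submodule.subset_span (Set.mem_range_self l))
  have hNV : ∀ n ∈ N, n ∈ V₁ ∧ n ∈ V₂ := by
    intro n hn
    induction hn using Submodule.span_induction with
    | mem x hx =>
        obtain ⟨l, rfl⟩ := hx
        exact ⟨hm.1 l, hm.2.1 l⟩
    | zero => exact ⟨zero_mem _, zero_mem _⟩
    | add x y _ _ hx hy => exact ⟨add_mem hx.1 hy.1, add_mem hx.2 hy.2⟩
    | smul r x _ hx =>
        rw [hsmul]
        exact ⟨mul_mem (le₁ _ r.2) hx.1, mul_mem (le₂ _ r.2) hx.2⟩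
  have hstable : ∀ n ∈ N, u • n ∈ N := by
    intro n hn
    obtain ⟨h1, h2⟩ := hNV n hn
    exact hmem _ (mul_mem hu₁ h1) (mul_mem hu₂ h2)
  have hNne : N ≠ ⊥ := by
    obtain ⟨l⟩ := ‹Nonempty ι›
    intro hbot
    have h1 : m l ∈ N := Submodule.subset_span (Set.mem_range_self l)
    rw [hbot, Submodule.mem_bot] at h1
    exact B.ne_zero l (by rw [hB]; exact h1)
  have hFG : N.FG := Submodule.fg_span (Set.finite_range m)
  have hint : IsIntegral O u := isIntegral_of_smul_mem_submodule N hNne hFG u hstable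
  obtain ⟨p, hp, hpu⟩ := hint
  refine ⟨p.map O.subtype, hp.map _, fun i => ?_, ?_⟩
  · rw [coeff_map]; exact (p.coeff i).2
  · rw [aeval_def, eval₂_map]; exact hpu

end IsGood

/-- **No third extension.**  Under `TwoExt`, every element of `V₁ ∩ V₂` is integral over `O`. -/
theorem exists_monic_of_mem [FiniteDimensional K F] (h : TwoExt O V₁ V₂ ϖ b c)
    {u : F} (hu₁ : u ∈ V₁) (hu₂ : u ∈ V₂) :
    ∃ p : K[X], p.Monic ∧ (∀ i, p.coeff i ∈ O) ∧ aeval u p = 0 := by
  obtain ⟨m, hm⟩ := h.exists_good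
  refine hm.exists_monic h.unifO h.le₁ h.le₂ ?_ hu₁ hu₂
  rw [Fintype.card_sum, Fintype.card_fin, Fintype.card_fin, h.card]

end TwoExt

end Main

end Fermat.Agent.A2.H48

end
-- ===== PACK-END A2/H48/TwoExt.lean

-- ===== PACK-BEGIN A2/H48/Qep2.lean
section


/-!
# A2 / piece QEP2, part 3 (helper48): the `q`-expansion principle for a two-component model

Mathlib-only.  `R` a factorial domain with prime element `ϖ` (in the application a discrete
valuation ring `A ∩ E`), `K = Frac R[X]` (`X ↦ j` or `X ↦ 1/j`), `F / K` finite of degree `n`,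
`V₁ ≠ V₂` valuation rings of `F` which both

* contain `R[X]`, have maximal ideal generated by `ϖ`,
* induce the Gauss valuation on `K` (a polynomial not divisible by `ϖ` is a unit),

together with families `b` in `V₁`, `c` in `V₂` with `f₁ + f₂ = n` members whose residues are
linearly independent over `(R/ϖ)[X]` (`GaussPair`).  Then

* `GaussPair.exists_monic_of_mem` : every element of `V₁ ∩ V₂` is integral over the Gauss
  ring `O = V₁ ∩ K` (no third extension of the Gauss valuation to `F`);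
* `GaussPair.qep2` : **if `u` is integral over `R[X]` and `u/ϖ ∈ V₁ ∩ V₂` then `u/ϖ` is integral
  over `R[X]`**, i.e. for the chart `B` = integral closure of `R[X]` in `F`:
  `B ∩ ϖ (V₁ ∩ V₂) = ϖ B`;
* `GaussPair.reduced` : `u` integral over `R[X]`, `u ^ k / ϖ` integral over `R[X]`, `k ≥ 1`
  `⟹ u/ϖ` integral over `R[X]` (the special fibre `B/ϖB` is reduced).
-/

set_option autoImplicit false
set_option linter.unusedSectionVars false

namespace Fermat.Agent.A2.H48

open Polynomial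

variable {R : Type*} [CommRing R] [IsDomain R] [UniqueFactorizationMonoid R]
variable {K F : Type*} [Field K] [Field F] [Algebra R[X] K] [IsFractionRing R[X] K]
  [Algebra K F] [Algebra R[X] F] [IsScalarTower R[X] K F]

/-- The hypotheses of the two-component `q`-expansion principle. -/
structure GaussPair (ϖ : R) (V₁ V₂ : ValuationSubring F)
    {f₁ f₂ : ℕ} (b : Fin f₁ → F) (c : Fin f₂ → F) : Prop where
  prime : Prime ϖ
  unif₁ : IsUnif V₁ (algebraMap R[X] F (C ϖ))
  unif₂ : IsUnif V₂ (algebraMap R[X] F (C ϖ))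
  poly₁ : ∀ P : R[X], algebraMap R[X] F P ∈ V₁
  poly₂ : ∀ P : R[X], algebraMap R[X] F P ∈ V₂
  gauss₁ : ∀ P : R[X], ¬ C ϖ ∣ P → (algebraMap R[X] F P)⁻¹ ∈ V₁
  gauss₂ : ∀ P : R[X], ¬ C ϖ ∣ P → (algebraMap R[X] F P)⁻¹ ∈ V₂
  ne : V₁ ≠ V₂
  b_mem : ∀ i, b i ∈ V₁
  c_mem : ∀ j, c j ∈ V₂
  b_indep : ∀ a : Fin f₁ → R[X],
    (∑ i, algebraMap R[X] F (a i) * b i) * (algebraMap R[X] F (C ϖ))⁻¹ ∈ V₁ → ∀ i, C ϖ ∣ a i
  c_indep : ∀ a : Fin f₂ → R[X],
    (∑ j, algebraMap R[X] F (a j) * c j) * (algebraMap R[X] F (C ϖ))⁻¹ ∈ V₂ → ∀ j, C ϖ ∣ a j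
  card : f₁ + f₂ = Module.finrank K F

section GaussRing

variable (K)

/-- The Gauss ring `V ∩ K`. -/
def gaussRing (V : ValuationSubring F) : ValuationSubring K := V.comap (algebraMap K F)

variable {K}

theorem mem_gaussRing {V : ValuationSubring F} {a : K} :
    a ∈ gaussRing K V ↔ algebraMap K F a ∈ V := ValuationSubring.mem_comap

variable {ϖ : R} {V : ValuationSubring F}

theorem prime_C (hϖ : Prime ϖ) : Prime (C ϖ : R[X]) := prime_C_iff.2 hϖ

theorem algebraMap_C_ne_zero (hϖ : Prime ϖ) : algebraMap R[X] K (C ϖ) ≠ 0 := by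
  intro h
  have := (IsFractionRing.injective R[X] K) (h.trans (map_zero _).symm)
  exact (prime_C hϖ).ne_zero this

theorem map_eq (P : R[X]) : algebraMap K F (algebraMap R[X] K P) = algebraMap R[X] F P :=
  (IsScalarTower.algebraMap_apply R[X] K F P).symm

/-- Elements of the form `P / Q`, `ϖ ∤ Q`, lie in the Gauss ring. -/
theorem div_mem_gaussRing (hpoly : ∀ P : R[X], algebraMap R[X] F P ∈ V)
    (hgauss : ∀ P : R[X], ¬ C ϖ ∣ P → (algebraMap R[X] F P)⁻¹ ∈ V)
    (P : R[X]) {Q : R[X]} (hQ : ¬ C ϖ ∣ Q) :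
    algebraMap R[X] K P / algebraMap R[X] K Q ∈ gaussRing K V := by
  rw [mem_gaussRing, map_div₀, map_eq, map_eq, div_eq_mul_inv]
  exact mul_mem (hpoly P) (hgauss Q hQ)

/-- Every element of the Gauss ring is of the form `P / Q` with `ϖ ∤ Q`. -/
theorem exists_div_of_mem_gaussRing (hϖ : Prime ϖ) (hunif : IsUnif V (algebraMap R[X] F (C ϖ)))
    (hpoly : ∀ P : R[X], algebraMap R[X] F P ∈ V)
    (hgauss : ∀ P : R[X], ¬ C ϖ ∣ P → (algebraMap R[X] F P)⁻¹ ∈ V)
    {a : K} (ha : a ∈ gaussRing K V) :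
    ∃ P Q : R[X], ¬ C ϖ ∣ Q ∧ a = algebraMap R[X] K P / algebraMap R[X] K Q := by
  obtain ⟨P, Q, hQ, rfl⟩ := IsFractionRing.div_surjective R[X] (K := K) a
  have hQ0 : Q ≠ 0 := nonZeroDivisors.ne_zero hQ
  by_cases hP0 : P = 0
  · refine ⟨0, 1, ?_, ?_⟩
    · intro h
      exact (prime_C hϖ).not_isUnit (isUnit_of_dvd_one h)
    · rw [hP0]; simp
  obtain ⟨k, Q', hQ', hQk⟩ := WfDvdMonoid.max_power_factor' hQ0 (prime_C hϖ).not_isUnit
  obtain ⟨j, P', hP', hPj⟩ := WfDvdMonoid.max_power_factor' hP0 (prime_C hϖ).not_isUnit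
  have hϖK : algebraMap R[X] K (C ϖ) ≠ 0 := algebraMap_C_ne_zero hϖ
  have hQ'0 : algebraMap R[X] K Q' ≠ 0 := by
    intro h
    have := (IsFractionRing.injective R[X] K) (h.trans (map_zero _).symm)
    rw [this] at hQ'
    exact hQ' (dvd_zero _)
  rcases le_or_gt k j with hkj | hkj
  · obtain ⟨r, rfl⟩ := Nat.exists_eq_add_of_le hkj
    refine ⟨C ϖ ^ r * P', Q', hQ', ?_⟩
    rw [hPj, hQk, map_mul, map_mul, map_mul, map_pow, map_pow, map_pow, pow_add]
    field_simp
  · exfalso
    obtain ⟨r, hr⟩ := Nat.exists_eq_add_of_lt hkj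
    have hP'0 : algebraMap R[X] F P' ≠ 0 := by
      intro h
      rw [← map_eq (K := K)] at h
      have h1 := (algebraMap K F).injective (h.trans (map_zero _).symm)
      have := (IsFractionRing.injective R[X] K) (h1.trans (map_zero _).symm)
      rw [this] at hP'
      exact hP' (dvd_zero _)
    have hπ0 : algebraMap R[X] F (C ϖ) ≠ 0 := hunif.ne_zero
    rw [mem_gaussRing, map_div₀, map_eq, map_eq] at ha
    apply hunif.inv_not_mem
    have hQ'F : algebraMap R[X] F Q' ≠ 0 := by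
      rw [← map_eq (K := K)]
      exact (_root_.map_ne_zero _).2 hQ'0
    have e : (algebraMap R[X] F (C ϖ))⁻¹ =
        (algebraMap R[X] F P / algebraMap R[X] F Q) *
          (algebraMap R[X] F (C ϖ ^ r * Q') * (algebraMap R[X] F P')⁻¹) := by
      rw [hPj, hQk, hr, map_mul, map_mul, map_mul, map_pow, map_pow, map_pow]
      field_simp
      ring
    rw [e]
    exact mul_mem ha (mul_mem (hpoly _) (hgauss P' hP'))

theorem isUnif_gaussRing (hunif : IsUnif V (algebraMap R[X] F (C ϖ))) :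
    IsUnif (gaussRing K V) (algebraMap R[X] K (C ϖ)) where
  mem := by rw [mem_gaussRing, map_eq]; exact hunif.mem
  inv_not_mem := by rw [mem_gaussRing, map_inv₀, map_eq]; exact hunif.inv_not_mem
  gen := by
    intro a ha hainv
    rw [mem_gaussRing] at ha hainv ⊢
    rw [map_inv₀] at hainv
    rw [map_mul, map_inv₀, map_eq]
    exact hunif.gen _ ha hainv

theorem arch_gaussRing (hϖ : Prime ϖ) (hpoly : ∀ P : R[X], algebraMap R[X] F P ∈ V)
    (hgauss : ∀ P : R[X], ¬ C ϖ ∣ P → (algebraMap R[X] F P)⁻¹ ∈ V) (a : K) :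
    ∃ k : ℕ, algebraMap R[X] K (C ϖ) ^ k * a ∈ gaussRing K V := by
  obtain ⟨P, Q, hQ, rfl⟩ := IsFractionRing.div_surjective R[X] (K := K) a
  have hQ0 : Q ≠ 0 := nonZeroDivisors.ne_zero hQ
  obtain ⟨k, Q', hQ', hQk⟩ := WfDvdMonoid.max_power_factor' hQ0 (prime_C hϖ).not_isUnit
  refine ⟨k, ?_⟩
  have hϖK : algebraMap R[X] K (C ϖ) ≠ 0 := algebraMap_C_ne_zero hϖ
  have hQ'0 : algebraMap R[X] K Q' ≠ 0 := by
    intro h
    have := (IsFractionRing.injective R[X] K) (h.trans (map_zero _).symm)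
    rw [this] at hQ'
    exact hQ' (dvd_zero _)
  have e : algebraMap R[X] K (C ϖ) ^ k * (algebraMap R[X] K P / algebraMap R[X] K Q) =
      algebraMap R[X] K P / algebraMap R[X] K Q' := by
    rw [hQk, map_mul, map_pow]
    field_simp
  rw [e]
  exact div_mem_gaussRing hpoly hgauss P hQ'

/-- **Gauss intersection**: `P / ϖ ^ k` in the Gauss ring forces `ϖ ^ k ∣ P` in `R[X]`. -/
theorem pow_dvd_of_mem_gaussRing (hunif : IsUnif V (algebraMap R[X] F (C ϖ)))
    (hgauss : ∀ P : R[X], ¬ C ϖ ∣ P → (algebraMap R[X] F P)⁻¹ ∈ V) :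
    ∀ (k : ℕ) (P : R[X]),
      algebraMap R[X] K P * ((algebraMap R[X] K (C ϖ))⁻¹) ^ k ∈ gaussRing K V → C ϖ ^ k ∣ P := by
  have hπ0 : algebraMap R[X] F (C ϖ) ≠ 0 := hunif.ne_zero
  have hϖK : algebraMap R[X] K (C ϖ) ≠ 0 := by
    intro h
    apply hπ0
    rw [← map_eq (K := K), h, map_zero]
  intro k
  induction k with
  | zero => intro P _; simp
  | succ k ih =>
      intro P hP
      have h1 : algebraMap R[X] K P * ((algebraMap R[X] K (C ϖ))⁻¹) ^ k ∈ gaussRing K V := by
        have e : algebraMap R[X] K P * ((algebraMap R[X] K (C ϖ))⁻¹) ^ k =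
            algebraMap R[X] K P * ((algebraMap R[X] K (C ϖ))⁻¹) ^ (k + 1) *
              algebraMap R[X] K (C ϖ) := by
          rw [pow_succ]; field_simp
        rw [e]
        exact mul_mem hP (isUnif_gaussRing hunif).mem
      obtain ⟨P₁, rfl⟩ := ih P h1
      by_cases hdvd : C ϖ ∣ P₁
      · obtain ⟨P₂, rfl⟩ := hdvd
        exact ⟨P₂, by rw [pow_succ]; ring⟩
      · exfalso
        apply hunif.inv_not_mem
        have h2 := hgauss P₁ hdvd
        rw [mem_gaussRing] at hP
        have hP₁0 : algebraMap R[X] F P₁ ≠ 0 := by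
          intro h
          rw [h, inv_zero] at h2
          have h3 : P₁ = 0 := by
            rw [← map_eq (K := K)] at h
            have h4 := (algebraMap K F).injective (h.trans (map_zero _).symm)
            exact (IsFractionRing.injective R[X] K) (h4.trans (map_zero _).symm)
          exact hdvd (h3 ▸ dvd_zero _)
        have e : (algebraMap R[X] F (C ϖ))⁻¹ =
            algebraMap K F (algebraMap R[X] K (C ϖ ^ k * P₁) *
              ((algebraMap R[X] K (C ϖ))⁻¹) ^ (k + 1)) * (algebraMap R[X] F P₁)⁻¹ := by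
          rw [map_mul, map_pow, map_inv₀, map_eq, map_eq, map_mul, map_pow, pow_succ, inv_pow]
          field_simp
        rw [e]
        exact mul_mem hP h2

end GaussRing

section Indep

variable {ϖ : R} {V : ValuationSubring F}

/-- Linear independence of residues over `(R/ϖ)[X]` implies linear independence over the residue
field of the Gauss ring. -/
theorem indep_gaussRing (hϖ : Prime ϖ) (hunif : IsUnif V (algebraMap R[X] F (C ϖ)))
    (hpoly : ∀ P : R[X], algebraMap R[X] F P ∈ V)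
    (hgauss : ∀ P : R[X], ¬ C ϖ ∣ P → (algebraMap R[X] F P)⁻¹ ∈ V)
    {f : ℕ} {b : Fin f → F}
    (hind : ∀ a : Fin f → R[X],
      (∑ i, algebraMap R[X] F (a i) * b i) * (algebraMap R[X] F (C ϖ))⁻¹ ∈ V → ∀ i, C ϖ ∣ a i)
    (a : Fin f → K) (ha : ∀ i, a i ∈ gaussRing K V)
    (hsum : (∑ i, algebraMap K F (a i) * b i) * (algebraMap K F (algebraMap R[X] K (C ϖ)))⁻¹ ∈ V)
    (i : Fin f) : a i * (algebraMap R[X] K (C ϖ))⁻¹ ∈ gaussRing K V := by
  classical
  choose P Q hQ hPQ using fun i => exists_div_of_mem_gaussRing hϖ hunif hpoly hgauss (ha i)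
  have hQ0 : ∀ i, algebraMap R[X] K (Q i) ≠ 0 := by
    intro i h
    have := (IsFractionRing.injective R[X] K) (h.trans (map_zero _).symm)
    exact hQ i (this ▸ dvd_zero _)
  set Qtot : R[X] := ∏ i, Q i with hQtot
  set a' : Fin f → R[X] := fun i => P i * ∏ i' ∈ Finset.univ.erase i, Q i' with ha'
  have hmul : ∀ i, algebraMap R[X] K (a' i) = a i * algebraMap R[X] K Qtot := by
    intro i
    have h1 : Q i * ∏ i' ∈ Finset.univ.erase i, Q i' = Qtot :=
      Finset.mul_prod_erase _ _ (Finset.mem_univ i)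
    rw [ha', ← h1, hPQ i, map_mul, map_mul]
    field_simp [hQ0 i]
  have hsum' : (∑ i, algebraMap R[X] F (a' i) * b i) * (algebraMap R[X] F (C ϖ))⁻¹ ∈ V := by
    have e : (∑ i, algebraMap R[X] F (a' i) * b i) * (algebraMap R[X] F (C ϖ))⁻¹ =
        algebraMap R[X] F Qtot *
          ((∑ i, algebraMap K F (a i) * b i) *
            (algebraMap K F (algebraMap R[X] K (C ϖ)))⁻¹) := by
      rw [map_eq, ← mul_assoc, Finset.mul_sum]
      congr 1
      refine Finset.sum_congr rfl fun i _ => ?_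
      rw [← map_eq (K := K) (a' i), hmul, map_mul, map_eq]
      ring
    rw [e]
    exact mul_mem (hpoly _) hsum
  have hdvd := hind a' hsum' i
  have hdvdP : C ϖ ∣ P i := by
    rcases (prime_C hϖ).dvd_or_dvd hdvd with h | h
    · exact h
    · exfalso
      obtain ⟨i', -, hi'⟩ := ((prime_C hϖ).dvd_finsetProd_iff _).1 h
      exact hQ i' hi'
  obtain ⟨P', hP'⟩ := hdvdP
  have hϖK : algebraMap R[X] K (C ϖ) ≠ 0 := algebraMap_C_ne_zero hϖ
  have e : a i * (algebraMap R[X] K (C ϖ))⁻¹ =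
      algebraMap R[X] K P' / algebraMap R[X] K (Q i) := by
    rw [hPQ i, hP', map_mul]
    field_simp [hQ0 i]
  rw [e]
  exact div_mem_gaussRing hpoly hgauss P' (hQ i)

end Indep

namespace GaussPair

variable {ϖ : R} {V₁ V₂ : ValuationSubring F} {f₁ f₂ : ℕ} {b : Fin f₁ → F} {c : Fin f₂ → F}

theorem gaussRing_eq (h : GaussPair (K := K) ϖ V₁ V₂ b c) : gaussRing K V₁ = gaussRing K V₂ := by
  apply le_antisymm
  · intro a ha
    obtain ⟨P, Q, hQ, rfl⟩ := exists_div_of_mem_gaussRing h.prime h.unif₁ h.poly₁ h.gauss₁ ha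
    exact div_mem_gaussRing h.poly₂ h.gauss₂ P hQ
  · intro a ha
    obtain ⟨P, Q, hQ, rfl⟩ := exists_div_of_mem_gaussRing h.prime h.unif₂ h.poly₂ h.gauss₂ ha
    exact div_mem_gaussRing h.poly₁ h.gauss₁ P hQ

/-- A `GaussPair` gives the data of the "no third extension" theorem over the Gauss ring. -/
theorem twoExt (h : GaussPair (K := K) ϖ V₁ V₂ b c) :
    TwoExt (gaussRing K V₁) V₁ V₂ (algebraMap R[X] K (C ϖ)) b c where
  unifO := isUnif_gaussRing h.unif₁
  unif₁ := by rw [map_eq]; exact h.unif₁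
  unif₂ := by rw [map_eq]; exact h.unif₂
  le₁ := fun a ha => mem_gaussRing.1 ha
  le₂ := fun a ha => mem_gaussRing.1 (h.gaussRing_eq ▸ ha)
  ne := h.ne
  arch := arch_gaussRing h.prime h.poly₁ h.gauss₁
  b_mem := h.b_mem
  c_mem := h.c_mem
  b_indep := fun a ha hsum i =>
    indep_gaussRing h.prime h.unif₁ h.poly₁ h.gauss₁ h.b_indep a ha hsum i
  c_indep := fun a ha hsum j => by
    rw [h.gaussRing_eq]
    exact indep_gaussRing h.prime h.unif₂ h.poly₂ h.gauss₂ h.c_indep a
      (fun j => h.gaussRing_eq ▸ ha j) hsum j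
  card := h.card

/-- **No third extension**: every element of `V₁ ∩ V₂` is integral over the Gauss ring. -/
theorem exists_monic_of_mem [FiniteDimensional K F] (h : GaussPair (K := K) ϖ V₁ V₂ b c)
    {u : F} (hu₁ : u ∈ V₁) (hu₂ : u ∈ V₂) :
    ∃ p : K[X], p.Monic ∧ (∀ i, p.coeff i ∈ gaussRing K V₁) ∧ aeval u p = 0 :=
  h.twoExt.exists_monic_of_mem hu₁ hu₂

/-- Elements of `V₁ ∩ V₂` have their minimal polynomial over `K` with coefficients in the Gauss
ring. -/
theorem minpoly_coeff_mem [FiniteDimensional K F] (h : GaussPair (K := K) ϖ V₁ V₂ b c)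
    {z : F} (hz₁ : z ∈ V₁) (hz₂ : z ∈ V₂) (i : ℕ) :
    (minpoly K z).coeff i ∈ gaussRing K V₁ := by
  classical
  obtain ⟨p, hp, hpc, hpz⟩ := h.exists_monic_of_mem hz₁ hz₂
  let _ : Algebra (gaussRing K V₁) F :=
    ((algebraMap K F).comp (gaussRing K V₁).subtype).toAlgebra
  have : IsScalarTower (gaussRing K V₁) K F := IsScalarTower.of_algebraMap_eq (fun x => rfl)
  have hlift : p ∈ lifts (gaussRing K V₁).subtype := by
    rw [lifts_iff_coeff_lifts]
    intro n
    exact ⟨⟨p.coeff n, hpc n⟩, rfl⟩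
  obtain ⟨q, hq, -, hqm⟩ := lifts_and_natDegree_eq_and_monic hlift hp
  have hzO : IsIntegral (gaussRing K V₁) z := by
    refine ⟨q, hqm, ?_⟩
    have : eval₂ (algebraMap (gaussRing K V₁) F) z q =
        eval₂ (algebraMap K F) z (q.map (gaussRing K V₁).subtype) := by
      rw [eval₂_map]; rfl
    rw [this, hq, ← aeval_def]
    exact hpz
  have hμ := minpoly.isIntegrallyClosed_eq_field_fractions' K hzO
  rw [hμ, coeff_map]
  exact ((minpoly (gaussRing K V₁) z).coeff i).2

/-- **`q`-expansion principle for the two-component model.**  If `u` is integral over `R[X]`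
and `u / ϖ` lies in both `V₁` and `V₂`, then `u / ϖ` is integral over `R[X]`. -/
theorem qep2 [FiniteDimensional K F] (h : GaussPair (K := K) ϖ V₁ V₂ b c) {u : F}
    (hu : IsIntegral R[X] u)
    (h₁ : u * (algebraMap R[X] F (C ϖ))⁻¹ ∈ V₁) (h₂ : u * (algebraMap R[X] F (C ϖ))⁻¹ ∈ V₂) :
    IsIntegral R[X] (u * (algebraMap R[X] F (C ϖ))⁻¹) := by
  classical
  set ϖK := algebraMap R[X] K (C ϖ) with hϖKdef
  have hϖK : ϖK ≠ 0 := algebraMap_C_ne_zero h.prime
  set z := u * (algebraMap R[X] F (C ϖ))⁻¹ with hz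
  have hz_eq : z = algebraMap K F ϖK⁻¹ * u := by
    rw [hz, map_inv₀, map_eq, mul_comm]
  have hu_eq : u = algebraMap K F ϖK * z := by
    rw [hz_eq, ← mul_assoc, ← map_mul, mul_inv_cancel₀ hϖK, map_one, one_mul]
  have huK : IsIntegral K u := Algebra.IsIntegral.isIntegral u
  have hzK : IsIntegral K z := Algebra.IsIntegral.isIntegral z
  have hμu := minpoly.isIntegrallyClosed_eq_field_fractions' K hu
  have hscale : (minpoly K u).scaleRoots ϖK⁻¹ = minpoly K z := by
    apply minpoly.unique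
    · exact (monic_scaleRoots_iff _).2 (minpoly.monic huK)
    · rw [hz_eq]; exact scaleRoots_aeval_eq_zero (minpoly.aeval K u)
    · intro r hr hrz
      rw [degree_scaleRoots]
      have h3 : aeval u (r.scaleRoots ϖK) = 0 := by
        rw [hu_eq]; exact scaleRoots_aeval_eq_zero hrz
      calc (minpoly K u).degree ≤ (r.scaleRoots ϖK).degree :=
            minpoly.min K u ((monic_scaleRoots_iff _).2 hr) h3
        _ = r.degree := degree_scaleRoots _
  have hcoef : ∀ i, (minpoly K z).coeff i ∈ Set.range (algebraMap R[X] K) := by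
    intro i
    have h1 : (minpoly K z).coeff i ∈ gaussRing K V₁ := h.minpoly_coeff_mem h₁ h₂ i
    rw [← hscale, coeff_scaleRoots, hμu, coeff_map] at h1 ⊢
    obtain ⟨P', hP'⟩ := pow_dvd_of_mem_gaussRing h.unif₁ h.gauss₁ _ _ h1
    refine ⟨P', ?_⟩
    rw [hP', map_mul, map_pow, inv_pow, ← hϖKdef]
    field_simp
  obtain ⟨q, hq, -, hqm⟩ :=
    lifts_and_natDegree_eq_and_monic ((lifts_iff_coeff_lifts _).2 hcoef) (minpoly.monic hzK)
  refine ⟨q, hqm, ?_⟩
  have e : eval₂ (algebraMap R[X] F) z q = aeval z (q.map (algebraMap R[X] K)) := by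
    rw [aeval_def, eval₂_map, ← IsScalarTower.algebraMap_eq]
  rw [e, hq]
  exact minpoly.aeval K z

/-- **The special fibre is reduced.**  If `u` is integral over `R[X]` and `u ^ k / ϖ` is integral
over `R[X]` for some `k ≥ 1` then `u / ϖ` is integral over `R[X]`. -/
theorem reduced [FiniteDimensional K F] (h : GaussPair (K := K) ϖ V₁ V₂ b c) {u : F}
    (hu : IsIntegral R[X] u) {k : ℕ}
    (h₁ : u ^ k * (algebraMap R[X] F (C ϖ))⁻¹ ∈ V₁)
    (h₂ : u ^ k * (algebraMap R[X] F (C ϖ))⁻¹ ∈ V₂) :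
    IsIntegral R[X] (u * (algebraMap R[X] F (C ϖ))⁻¹) := by
  have key : ∀ (V : ValuationSubring F), IsUnif V (algebraMap R[X] F (C ϖ)) →
      u ^ k * (algebraMap R[X] F (C ϖ))⁻¹ ∈ V → u * (algebraMap R[X] F (C ϖ))⁻¹ ∈ V := by
    intro V hV hk
    rw [hV.mul_inv_mem_iff] at hk ⊢
    by_contra hcon
    have h1 : 1 ≤ V.valuation u := not_lt.1 hcon
    have h2 : 1 ≤ V.valuation (u ^ k) := by
      rw [map_pow]; exact one_le_pow₀ h1
    exact absurd hk (not_lt.2 h2)
  exact h.qep2 hu (key V₁ h.unif₁ h₁) (key V₂ h.unif₂ h₂)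

end GaussPair

end Fermat.Agent.A2.H48

end
-- ===== PACK-END A2/H48/Qep2.lean

-- ===== PACK-BEGIN A2/T1/H849/Iota.lean
section





/-!
# A2 / T1 (helper849), part 1: the comparison map `ι : F_{N,E} → F̄_N`

`E ⊆ Q̄` an intermediate field, `F₀ ⊆ ℚ((t))` (in the application `modularFunctionFieldFull N`).

* `iota E F₀ : laurentBaseChange E F₀ →+* laurentBaseChange Q̄ F₀` (coefficientwise inclusion),
  injective (`iota_injective`), `iota_algebraMap`.
* `resAut` : the restriction to `E` of an automorphism `τ` of `Q̄` with `τ E ⊆ E`, `τ⁻¹ E ⊆ E`.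
* `iota_arithmeticRingAut` : `ι ∘ (τ|_E) = τ ∘ ι` on function fields.
* `exists_iota_eq` : every `f ∈ laurentBaseChange Q̄ F₀` is `ι y` for some `y` over any
  intermediate field `E` containing a suitable finite set of algebraic numbers.
* `resRE` : the restriction of `τ` in the decomposition group of `P` to `R_E = P ∩ E`.
-/

set_option autoImplicit false

noncomputable section

namespace Fermat.Agent.A2.T1.H849

open ModularCurve AlgebraicCurve HahnSeries IntermediateField

/-- The field `ℚ̄`. -/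
abbrev Qb : Type := AlgebraicClosure ℚ

variable (E : IntermediateField ℚ _root_.Fermat.Agent.A2.T1.H849.Qb) (F₀ : IntermediateField ℚ (LaurentSeries ℚ))

/-- The comparison map `ι : F_E → F̄` (inclusion of coefficients). -/
def iota : laurentBaseChange E F₀ →+* laurentBaseChange _root_.Fermat.Agent.A2.T1.H849.Qb F₀ where
  toFun y := ⟨coeffMap (algebraMap E _root_.Fermat.Agent.A2.T1.H849.Qb) (y : LaurentSeries E),
    Fermat.Agent.S18.H602.coeffMap_mem_laurentBaseChange F₀ (algebraMap E _root_.Fermat.Agent.A2.T1.H849.Qb) y.2⟩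
  map_one' := Subtype.ext (map_one (coeffMap (algebraMap E _root_.Fermat.Agent.A2.T1.H849.Qb)))
  map_mul' _ _ := Subtype.ext (map_mul (coeffMap (algebraMap E _root_.Fermat.Agent.A2.T1.H849.Qb)) _ _)
  map_zero' := Subtype.ext (map_zero (coeffMap (algebraMap E _root_.Fermat.Agent.A2.T1.H849.Qb)))
  map_add' _ _ := Subtype.ext (map_add (coeffMap (algebraMap E _root_.Fermat.Agent.A2.T1.H849.Qb)) _ _)

@[simp]
theorem coe_iota (y : laurentBaseChange E F₀) :
    ((iota E F₀ y : laurentBaseChange _root_.Fermat.Agent.A2.T1.H849.Qb F₀) : LaurentSeries _root_.Fermat.Agent.A2.T1.H849.Qb) =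
      coeffMap (algebraMap E _root_.Fermat.Agent.A2.T1.H849.Qb) (y : LaurentSeries E) := rfl

theorem iota_injective : Function.Injective (iota E F₀) := (iota E F₀).injective

theorem iota_ne_zero {y : laurentBaseChange E F₀} (hy : y ≠ 0) : iota E F₀ y ≠ 0 := by
  intro h
  exact hy (iota_injective E F₀ (h.trans (map_zero _).symm))

theorem iota_algebraMap (e : E) :
    iota E F₀ (algebraMap E (laurentBaseChange E F₀) e) =
      algebraMap _root_.Fermat.Agent.A2.T1.H849.Qb (laurentBaseChange _root_.Fermat.Agent.A2.T1.H849.Qb F₀) (e : _root_.Fermat.Agent.A2.T1.H849.Qb) := by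
  apply Subtype.ext
  show coeffMap (algebraMap E _root_.Fermat.Agent.A2.T1.H849.Qb) (algebraMap E (LaurentSeries E) e) = _
  rw [Fermat.Agent.S18.H602.coeffMap_algebraMap']
  rfl

variable {E}

/-- The restriction to `E` of an automorphism of `ℚ̄` preserving `E`. -/
def resAut (τ : _root_.Fermat.Agent.A2.T1.H849.Qb ≃ₐ[ℚ] _root_.Fermat.Agent.A2.T1.H849.Qb) (h : ∀ e : _root_.Fermat.Agent.A2.T1.H849.Qb, e ∈ E → τ e ∈ E)
    (h' : ∀ e : _root_.Fermat.Agent.A2.T1.H849.Qb, e ∈ E → τ⁻¹ e ∈ E) : E ≃ₐ[ℚ] E :=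
  AlgEquiv.ofBijective
    { toFun := fun e => ⟨τ (e : _root_.Fermat.Agent.A2.T1.H849.Qb), h e e.2⟩
      map_one' := Subtype.ext (map_one τ)
      map_mul' := fun a b => Subtype.ext (map_mul τ (a : _root_.Fermat.Agent.A2.T1.H849.Qb) (b : _root_.Fermat.Agent.A2.T1.H849.Qb))
      map_zero' := Subtype.ext (map_zero τ)
      map_add' := fun a b => Subtype.ext (map_add τ (a : _root_.Fermat.Agent.A2.T1.H849.Qb) (b : _root_.Fermat.Agent.A2.T1.H849.Qb))
      commutes' := fun r => Subtype.ext (τ.commutes r) }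
    ⟨fun _ _ hab => Subtype.ext (τ.injective (congrArg Subtype.val hab)),
      fun b => ⟨⟨τ⁻¹ (b : _root_.Fermat.Agent.A2.T1.H849.Qb), h' b b.2⟩, Subtype.ext (τ.apply_symm_apply (b : _root_.Fermat.Agent.A2.T1.H849.Qb))⟩⟩

@[simp]
theorem coe_resAut (τ : _root_.Fermat.Agent.A2.T1.H849.Qb ≃ₐ[ℚ] _root_.Fermat.Agent.A2.T1.H849.Qb) (h : ∀ e : _root_.Fermat.Agent.A2.T1.H849.Qb, e ∈ E → τ e ∈ E)
    (h' : ∀ e : _root_.Fermat.Agent.A2.T1.H849.Qb, e ∈ E → τ⁻¹ e ∈ E) (e : E) :
    ((resAut τ h h' e : E) : _root_.Fermat.Agent.A2.T1.H849.Qb) = τ (e : _root_.Fermat.Agent.A2.T1.H849.Qb) := rfl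

/-- `ι` intertwines the arithmetic action of `τ_E` on `F_E` with that of `τ` on `F̄`, for any
automorphism `τ_E` of `E` compatible with `τ`. -/
theorem iota_arithmeticRingAut (τ : _root_.Fermat.Agent.A2.T1.H849.Qb ≃ₐ[ℚ] _root_.Fermat.Agent.A2.T1.H849.Qb) (τE : E ≃ₐ[ℚ] E)
    (hτ : ∀ e : E, ((τE e : E) : _root_.Fermat.Agent.A2.T1.H849.Qb) = τ (e : _root_.Fermat.Agent.A2.T1.H849.Qb)) (y : laurentBaseChange E F₀) :
    iota E F₀ (arithmeticRingAut F₀ τE y) = arithmeticRingAut F₀ τ (iota E F₀ y) := by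
  apply Subtype.ext
  show coeffMap (algebraMap E _root_.Fermat.Agent.A2.T1.H849.Qb) (coeffMap (τE : E →+* E) (y : LaurentSeries E)) =
    coeffMap (τ : _root_.Fermat.Agent.A2.T1.H849.Qb →+* _root_.Fermat.Agent.A2.T1.H849.Qb) (coeffMap (algebraMap E _root_.Fermat.Agent.A2.T1.H849.Qb) (y : LaurentSeries E))
  rw [coeffMap_coeffMap, coeffMap_coeffMap]
  exact coeffMap_congr (RingHom.ext fun e => hτ e) _

variable (E)

/-- Descent: every element of `F̄` comes from `F_E` as soon as `E` contains a suitable finite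
set of algebraic numbers. -/
theorem exists_finset_forall_exists_iota_eq (f : laurentBaseChange _root_.Fermat.Agent.A2.T1.H849.Qb F₀) :
    ∃ S : Finset _root_.Fermat.Agent.A2.T1.H849.Qb, ∀ E : IntermediateField ℚ _root_.Fermat.Agent.A2.T1.H849.Qb, (∀ s ∈ S, s ∈ E) →
      ∃ y : laurentBaseChange E F₀, iota E F₀ y = f := by
  obtain ⟨E₀, hfin, hdesc⟩ := Fermat.Agent.S18.H602.exists_finite_descent (F₀ := F₀) f.2
  have hfg : E₀.FG := IntermediateField.essFiniteType_iff.1 inferInstance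
  obtain ⟨S, hS⟩ := hfg
  refine ⟨S, fun E hE => ?_⟩
  have hle : E₀ ≤ E := by
    rw [← hS, IntermediateField.adjoin_le_iff]
    intro s hs
    exact hE s (Finset.mem_coe.1 hs)
  obtain ⟨y, hy, hyf⟩ := hdesc.mono hle
  exact ⟨⟨y, hy⟩, Subtype.ext hyf⟩

end Fermat.Agent.A2.T1.H849

end
end
-- ===== PACK-END A2/T1/H849/Iota.lean

-- ===== PACK-BEGIN S28/H505/LevelOne.lean
section



open UpperHalfPlane ModularForm EisensteinSeries Filter Topology MatrixGroups
  SlashInvariantForm SlashInvariantFormClass ModularFormClass CuspFormClass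
open scoped PowerSeries.WithPiTopology

namespace Fermat.Agent.S28.H505

/-- the modular `j`-function (normalised as `q⁻¹ + 744 + ⋯`) -/
noncomputable def jFun (z : ℍ) : ℂ := E₄ z ^ 3 / ModularForm.discriminant z

/-- formal `E₄` over `ℂ` -/
noncomputable def e4C : PowerSeries ℂ := ModularCurve.eisenstein4.map (Int.castRingHom ℂ)

/-- formal `Δ` over `ℂ` -/
noncomputable def deltaC : PowerSeries ℂ :=
  PowerSeries.X * (ModularCurve.etaProd.map (Int.castRingHom ℂ)) ^ 24

theorem qExpansion_E₄_eq_e4C : qExpansion 1 E₄ = e4C := qExpansion_E₄_eq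

theorem qExpansion_discriminant_eq_deltaC : qExpansion 1 ModularForm.discriminant = deltaC :=
  qExpansion_discriminant_eq

theorem ofPowerSeries_e4C_pow_three :
    (HahnSeries.ofPowerSeries ℤ ℂ e4C) ^ 3 =
      ModularCurve.jqModC ℂ * HahnSeries.ofPowerSeries ℤ ℂ deltaC := by
  have h1 : ModularCurve.jNum * ModularCurve.etaProd ^ 24 = ModularCurve.eisenstein4 ^ 3 := by
    have := ModularCurve.dedekindEtaUnit_mul_inv
    rw [ModularCurve.dedekindEtaUnit] at this
    rw [ModularCurve.jNum, mul_assoc, mul_comm ModularCurve.dedekindEtaUnitInv, this, mul_one]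
  have h2 := congrArg (PowerSeries.map (Int.castRingHom ℂ)) h1
  rw [_root_.map_mul, map_pow, map_pow] at h2
  have h3 : HahnSeries.ofPowerSeries ℤ ℂ deltaC =
      HahnSeries.single (1 : ℤ) (1 : ℂ) *
        HahnSeries.ofPowerSeries ℤ ℂ ((ModularCurve.etaProd.map (Int.castRingHom ℂ)) ^ 24) := by
    rw [deltaC, _root_.map_mul, HahnSeries.ofPowerSeries_X]
  rw [h3, ModularCurve.jqModC, e4C, ← map_pow, ← h2, _root_.map_mul]
  have h4 : HahnSeries.single (-1 : ℤ) (1 : ℂ) * HahnSeries.single (1 : ℤ) (1 : ℂ) = 1 := by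
    rw [HahnSeries.single_mul_single]; simp
  calc _ = (HahnSeries.single (-1 : ℤ) (1 : ℂ) * HahnSeries.single (1 : ℤ) (1 : ℂ)) *
        (HahnSeries.ofPowerSeries ℤ ℂ (ModularCurve.jNum.map (Int.castRingHom ℂ)) *
        HahnSeries.ofPowerSeries ℤ ℂ ((ModularCurve.etaProd.map (Int.castRingHom ℂ)) ^ 24)) := by
          rw [h4, one_mul]
    _ = _ := by ring


theorem algebraMap_laurent_eq_C (c : ℂ) :
    algebraMap ℂ (LaurentSeries ℂ) c = HahnSeries.C c := by
  rw [HahnSeries.algebraMap_apply']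
  simp

theorem aeval_laurent_eq_eval₂ (x : LaurentSeries ℂ) (P : Polynomial ℂ) :
    Polynomial.aeval x P = Polynomial.eval₂ HahnSeries.C x P := by
  rw [Polynomial.aeval_def]
  congr 1
  ext c : 1
  exact algebraMap_laurent_eq_C c

theorem e4C_coeff_zero : e4C.coeff 0 = 1 := by
  rw [← qExpansion_E₄_eq_e4C]
  exact E_qExpansion_coeff_zero (by norm_num) (by decide)

/-- `E₄ ^ n` as a modular form of weight `k = 4 n`. -/
noncomputable def E4pow (n : ℕ) (k : ℤ) (hk : (n : ℤ) * 4 = k) : ModularForm 𝒮ℒ k :=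
  ModularForm.mcast hk (E₄.pow n)

theorem E4pow_apply (n : ℕ) (k : ℤ) (hk : (n : ℤ) * 4 = k) (z : ℍ) :
    E4pow n k hk z = E₄ z ^ n := by
  simp [E4pow]

theorem qExpansion_E4pow (n : ℕ) (k : ℤ) (hk : (n : ℤ) * 4 = k) :
    qExpansion 1 (E4pow n k hk) = e4C ^ n := by
  rw [E4pow, ModularForm.qExpansion_mcast,
    ModularForm.qExpansion_pow one_pos one_mem_strictPeriods_SL, qExpansion_E₄_eq_e4C]

theorem levelOne_structure (m : ℕ) : ∀ (k : ℤ) (_ : k = 12 * m) (F : ModularForm 𝒮ℒ k),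
    ∃ P : Polynomial ℂ, P.natDegree ≤ m ∧
      (∀ z : ℍ, F z = ModularForm.discriminant z ^ m * P.eval (jFun z)) ∧
      (HahnSeries.ofPowerSeries ℤ ℂ (qExpansion 1 F) =
        (HahnSeries.ofPowerSeries ℤ ℂ deltaC) ^ m *
          Polynomial.aeval (ModularCurve.jqModC ℂ) P) := by
  induction m with
  | zero =>
    intro k hk F
    simp only [Nat.cast_zero, mul_zero] at hk
    subst hk
    obtain ⟨c, hc⟩ := levelOne_weight_zero_const F
    refine ⟨Polynomial.C c, by simp, fun z => by simp [hc], ?_⟩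
    have h1 : qExpansion 1 F = PowerSeries.C c := by
      have : (F : ℍ → ℂ) = c • ⇑(1 : ModularForm 𝒮ℒ 0) := by
        rw [hc]; ext z; simp
      rw [this, ModularForm.qExpansion_smul one_pos one_mem_strictPeriods_SL,
        ModularForm.qExpansion_one, PowerSeries.smul_eq_C_mul, mul_one]
    rw [h1, HahnSeries.ofPowerSeries_C, pow_zero, one_mul, Polynomial.aeval_C,
      algebraMap_laurent_eq_C]
  | succ m ih =>
    intro k hk F
    set c₀ : ℂ := (qExpansion 1 F).coeff 0 with hc₀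
    have hk4 : ((3 * (m + 1) : ℕ) : ℤ) * 4 = k := by rw [hk]; push_cast; ring
    set G : ModularForm 𝒮ℒ k := F - c₀ • E4pow (3 * (m + 1)) k hk4 with hG
    have hGq : qExpansion 1 G = qExpansion 1 F - PowerSeries.C c₀ * e4C ^ (3 * (m + 1)) := by
      have h1 : (G : ℍ → ℂ) = ⇑F - ⇑(c₀ • E4pow (3 * (m + 1)) k hk4) := rfl
      rw [h1, ModularForm.qExpansion_sub one_pos one_mem_strictPeriods_SL]
      have h2 : (⇑(c₀ • E4pow (3 * (m + 1)) k hk4) : ℍ → ℂ) = c₀ • ⇑(E4pow (3 * (m + 1)) k hk4) :=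
        rfl
      rw [h2, ModularForm.qExpansion_smul one_pos one_mem_strictPeriods_SL, qExpansion_E4pow,
        PowerSeries.smul_eq_C_mul]
    have hG0 : (qExpansion 1 G).coeff 0 = 0 := by
      rw [hGq, map_sub, PowerSeries.coeff_zero_eq_constantCoeff, _root_.map_mul, map_pow]
      simp only [← PowerSeries.coeff_zero_eq_constantCoeff, e4C_coeff_zero]
      simp [hc₀]
    set H : ModularForm 𝒮ℒ (k - 12) := CuspForm.discriminantEquiv (G.toCuspForm hG0) with hH
    obtain ⟨P, hPdeg, hPval, hPq⟩ := ih (k - 12) (by rw [hk]; push_cast; ring) H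
    have hGH : ∀ z, G z = ModularForm.discriminant z * H z := fun z => by
      rw [hH, discriminant_mul_discriminantEquiv_apply]; rfl
    have hFG : ∀ z, F z = c₀ * E₄ z ^ (3 * (m + 1)) + G z := fun z => by
      have : G z = F z - c₀ * E4pow (3 * (m + 1)) k hk4 z := rfl
      rw [this, E4pow_apply]; ring
    refine ⟨Polynomial.C c₀ * Polynomial.X ^ (m + 1) + P, ?_, ?_, ?_⟩
    · refine (Polynomial.natDegree_add_le _ _).trans (max_le ?_ (hPdeg.trans (Nat.le_succ m)))
      exact Polynomial.natDegree_C_mul_X_pow_le _ _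
    · intro z
      rw [hFG, hGH, hPval, Polynomial.eval_add, Polynomial.eval_mul, Polynomial.eval_C,
        Polynomial.eval_pow, Polynomial.eval_X, jFun]
      have hΔ := discriminant_ne_zero z
      have hJ : ModularForm.discriminant z * (E₄ z ^ 3 / ModularForm.discriminant z) = E₄ z ^ 3 :=
        mul_div_cancel₀ _ hΔ
      have : ModularForm.discriminant z ^ (m + 1) *
          (c₀ * (E₄ z ^ 3 / ModularForm.discriminant z) ^ (m + 1) +
            Polynomial.eval (E₄ z ^ 3 / ModularForm.discriminant z) P) =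
          c₀ * (ModularForm.discriminant z * (E₄ z ^ 3 / ModularForm.discriminant z)) ^ (m + 1) +
          ModularForm.discriminant z * (ModularForm.discriminant z ^ m *
            Polynomial.eval (E₄ z ^ 3 / ModularForm.discriminant z) P) := by ring
      rw [this, hJ, pow_mul]
    · have h1 : qExpansion 1 F = PowerSeries.C c₀ * e4C ^ (3 * (m + 1)) +
          deltaC * qExpansion 1 H := by
        have := ModularForm.qExpansion_eq_qExpansion_discriminant_mul G hG0
        rw [qExpansion_discriminant_eq_deltaC, ← hH, hGq] at this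
        rw [← this]; ring
      rw [h1, map_add, _root_.map_mul, _root_.map_mul, map_pow, hPq, pow_mul, ofPowerSeries_e4C_pow_three,
        HahnSeries.ofPowerSeries_C, map_add, _root_.map_mul, Polynomial.aeval_C, map_pow,
        Polynomial.aeval_X, algebraMap_laurent_eq_C]
      ring

end Fermat.Agent.S28.H505

end
-- ===== PACK-END S28/H505/LevelOne.lean

-- ===== PACK-BEGIN S18/H602/DVR.lean
section



/-!
# S18, piece d1 (continued): `R_E = A ∩ E` is a discrete valuation ring  (owner helper602)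

For a valuation subring `A ⊆ Q̄` lying over a prime `ℓ` (`(ℓ : Q̄) ∈ A.nonunits`, which is the
Prelude's `A.LiesOverPrime ℓ` unfolded) and a finite extension `E/ℚ` inside `Q̄`, the ring
`R_E = A ∩ E` is the localisation of `𝓞 E` at a nonzero prime; in particular it is a
discrete valuation ring.
-/

set_option autoImplicit false

noncomputable section

namespace Fermat.Agent.S18.H602

open ModularCurve AlgebraicCurve HahnSeries IntermediateField IsDedekindDomain

open scoped NumberField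

local notation "Q̄" => AlgebraicClosure ℚ

section DVR

/-- Valuation subrings contain all algebraic integers. -/
theorem mem_of_isIntegral_int {K : Type*} [Field K] (B : ValuationSubring K) {x : K}
    (hx : IsIntegral ℤ x) : x ∈ B := by
  have h : IsIntegral B x := hx.tower_top
  obtain ⟨y, rfl⟩ := (IsIntegrallyClosed.isIntegral_iff (R := B) (K := K)).mp h
  exact y.2

variable (A : ValuationSubring Q̄) (E : IntermediateField ℚ Q̄)

theorem natCast_mem_RE (n : ℕ) : (n : E) ∈ RE A E := natCast_mem _ n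

theorem natCast_not_isUnit_RE {ℓ : ℕ} (hA : (ℓ : Q̄) ∈ A.nonunits) :
    ¬ IsUnit (⟨(ℓ : E), natCast_mem_RE A E ℓ⟩ : RE A E) := by
  intro hu
  have hu' := (toA A E).isUnit_map hu
  rw [ValuationSubring.mem_nonunits_iff_exists_mem_maximalIdeal] at hA
  obtain ⟨hℓA, hmem⟩ := hA
  rw [IsLocalRing.mem_maximalIdeal, mem_nonunits_iff] at hmem
  apply hmem
  convert hu' using 1
  exact Subtype.ext (by simp)

theorem RE_ne_top {ℓ : ℕ} (hℓ : ℓ ≠ 0) (hA : (ℓ : Q̄) ∈ A.nonunits) : RE A E ≠ ⊤ := by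
  intro h
  apply natCast_not_isUnit_RE A E hA
  have hinv : ((ℓ : E)⁻¹ : E) ∈ RE A E := h ▸ ValuationSubring.mem_top _
  have hℓE : (ℓ : E) ≠ 0 := by exact_mod_cast hℓ
  exact isUnit_iff_exists_inv.mpr ⟨⟨_, hinv⟩, Subtype.ext (mul_inv_cancel₀ hℓE)⟩

theorem algebraMap_ringOfIntegers_mem_RE (x : 𝓞 E) : algebraMap (𝓞 E) E x ∈ RE A E :=
  mem_of_isIntegral_int _ (NumberField.RingOfIntegers.isIntegral_coe x)

/-- The inclusion `𝓞 E → R_E`. -/
def ofInt : 𝓞 E →+* RE A E :=
  (algebraMap (𝓞 E) E).codRestrict (RE A E) (algebraMap_ringOfIntegers_mem_RE A E)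

@[simp]
theorem coe_ofInt (x : 𝓞 E) : ((ofInt A E x : RE A E) : E) = algebraMap (𝓞 E) E x := rfl

/-- The prime of `𝓞 E` below the maximal ideal of `R_E`. -/
def primeBelow : Ideal (𝓞 E) := (IsLocalRing.maximalIdeal (RE A E)).comap (ofInt A E)

instance primeBelow_isPrime : (primeBelow A E).IsPrime :=
  Ideal.comap_isPrime (ofInt A E) _

theorem natCast_mem_primeBelow {ℓ : ℕ} (hA : (ℓ : Q̄) ∈ A.nonunits) :
    (ℓ : 𝓞 E) ∈ primeBelow A E := by
  rw [primeBelow, Ideal.mem_comap, IsLocalRing.mem_maximalIdeal, mem_nonunits_iff]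
  convert natCast_not_isUnit_RE A E hA using 2
  exact Subtype.ext (by simp)

theorem primeBelow_ne_bot {ℓ : ℕ} (hℓ : ℓ ≠ 0) (hA : (ℓ : Q̄) ∈ A.nonunits) :
    primeBelow A E ≠ ⊥ := by
  intro h
  have h1 := natCast_mem_primeBelow A E hA
  rw [h, Ideal.mem_bot] at h1
  exact hℓ (by exact_mod_cast h1)

theorem numberField_of_finiteDimensional [FiniteDimensional ℚ E] : NumberField E :=
  NumberField.mk

variable [NumberField E]

/-- The height-one prime of `𝓞 E` cut out by `A`. -/
def primeSpec {ℓ : ℕ} (hℓ : ℓ ≠ 0) (hA : (ℓ : Q̄) ∈ A.nonunits) : HeightOneSpectrum (𝓞 E) :=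
  ⟨primeBelow A E, inferInstance, primeBelow_ne_bot A E hℓ hA⟩

theorem valuationSubringAtPrime_le_RE {ℓ : ℕ} (hℓ : ℓ ≠ 0) (hA : (ℓ : Q̄) ∈ A.nonunits) :
    (primeSpec A E hℓ hA).valuationSubringAtPrime E ≤ RE A E := by
  rintro x ⟨a, s, hs, rfl⟩
  have hs' : IsUnit (ofInt A E s) := by
    by_contra hnu
    exact hs ((IsLocalRing.mem_maximalIdeal _).mpr hnu)
  obtain ⟨b, hb⟩ := isUnit_iff_exists_inv.mp hs'
  have hb' : algebraMap (𝓞 E) E s * (b : E) = 1 := congrArg (fun z : RE A E => (z : E)) hb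
  have hinv : (algebraMap (𝓞 E) E s)⁻¹ = (b : E) := inv_eq_of_mul_eq_one_right hb'
  rw [hinv]
  exact mul_mem (algebraMap_ringOfIntegers_mem_RE A E a) b.2

/-- `R_E = A ∩ E` is the localisation of `𝓞 E` at the prime below `A`. -/
theorem RE_eq_valuationSubringAtPrime {ℓ : ℕ} (hℓ : ℓ ≠ 0) (hA : (ℓ : Q̄) ∈ A.nonunits) :
    (primeSpec A E hℓ hA).valuationSubringAtPrime E = RE A E :=
  ValuationSubring.eq_of_le_of_ne_top _ (valuationSubringAtPrime_le_RE A E hℓ hA)
    (RE_ne_top A E hℓ hA)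

/-- `R_E = A ∩ E` is a discrete valuation ring (`E` a number field, `A` over a prime). -/
theorem isDiscreteValuationRing_RE' {ℓ : ℕ} (hℓ : ℓ ≠ 0) (hA : (ℓ : Q̄) ∈ A.nonunits) :
    IsDiscreteValuationRing ↥(RE A E) := by
  rw [← RE_eq_valuationSubringAtPrime A E hℓ hA]
  exact IsLocalization.AtPrime.isDiscreteValuationRing_of_dedekind_domain (𝓞 E)
    (primeSpec A E hℓ hA).ne_bot _

omit [NumberField E] in
/-- **`R_E = A ∩ E` is a discrete valuation ring** (for `E/ℚ` finite and `A` over a prime). -/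
theorem isDiscreteValuationRing_RE [FiniteDimensional ℚ E] {ℓ : ℕ} (hℓ : ℓ ≠ 0)
    (hA : (ℓ : Q̄) ∈ A.nonunits) : IsDiscreteValuationRing ↥(RE A E) :=
  haveI := numberField_of_finiteDimensional E
  isDiscreteValuationRing_RE' A E hℓ hA

end DVR

end Fermat.Agent.S18.H602

end
end
-- ===== PACK-END S18/H602/DVR.lean

-- ===== PACK-BEGIN S37/H278/Normal.lean
section




/-!
# S37 / S18, piece b2-core (helper278): normality criterion via the discriminant

`o` a DVR with uniformizer `t` and fraction field `K`; `C` a finite free `o`-algebra with basis `b`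
(rank `n`); `L = K ⊗ C` (any localization of `C` at `o \ {0}`).  Let `J = rad(tC)` (equal to the
Jacobson radical of `C`).  If `C / J` is generated by `s` elements as an `o`-module (e.g. `C` has
at most `s` maximal ideals, all with residue field `o / t`) and `t ^ (n - s + 1) ∤ disc(b)`, then
`C` is integrally closed in `L`.

No differents, no completions: the trace form kills `J` modulo `t`, and an integral element
`y = z / t ∉ C` produces one more factor `t` in the Gram determinant of an adapted basis.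
-/

set_option autoImplicit false
set_option linter.style.haveILetI false
set_option linter.unusedSectionVars false

namespace Fermat.Agent.S37.H278

open Module Polynomial

section Basics

variable {o : Type*} [CommRing o] [IsDomain o]
  {C : Type*} [CommRing C] [Algebra o C]

/-- divisibility of the discriminant by `r` does not depend on the basis -/
theorem dvd_discr_of_dvd_discr {ι ι' : Type*} [Fintype ι] [Fintype ι'] [DecidableEq ι]
    [DecidableEq ι'] (b : Basis ι o C) (b' : Basis ι' o C) (r : o)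
    (h : r ∣ Algebra.discr o b') : r ∣ Algebra.discr o b := by
  let e : ι' ≃ ι := b'.indexEquiv b
  let b'' : Basis ι o C := b'.reindex e
  have h1 : Algebra.discr o b'' = Algebra.discr o b' := by
    have := Algebra.discr_reindex o b' e
    rwa [← Basis.coe_reindex] at this
  have h2 : Algebra.discr o b'' = (b.toMatrix b'').det ^ 2 * Algebra.discr o b := by
    rw [← Algebra.discr_of_matrix_vecMul, Basis.toMatrix_map_vecMul]
  have h3 : IsUnit (b.toMatrix b'').det := by
    rw [← LinearMap.toMatrix_id_eq_basis_toMatrix b'' b]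
    exact LinearEquiv.isUnit_det (LinearEquiv.refl o C) b'' b
  rw [← h1, h2] at h
  exact ((h3.pow 2).dvd_mul_left).mp h

end Basics

section Main

variable {o : Type*} [CommRing o] [IsDomain o] [IsDiscreteValuationRing o]
  {K : Type*} [Field K] [Algebra o K] [IsFractionRing o K]
  {C : Type*} [CommRing C] [Algebra o C] [Module.Free o C] [Module.Finite o C]
  {L : Type*} [CommRing L] [Algebra K L] [Algebra o L] [Algebra C L]
  [IsScalarTower o K L] [IsScalarTower o C L]
  [IsLocalization (Algebra.algebraMapSubmonoid C (nonZeroDivisors o)) L]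

omit [IsDiscreteValuationRing o] [Module.Finite o C] in
theorem smul_eq_zero_imp {σ : o} (hσ : σ ≠ 0) {c : C} (h : σ • c = 0) : c = 0 := by
  have hreg : IsSMulRegular C σ :=
    Module.IsTorsionFree.isSMulRegular (IsRegular.of_ne_zero hσ)
  exact hreg (by simpa using h)

omit [IsDiscreteValuationRing o] [Module.Finite o C] in
include o in
theorem algebraMap_injective_of_free (L : Type*) [CommRing L] [Algebra o L] [Algebra C L]
    [IsScalarTower o C L]
    [IsLocalization (Algebra.algebraMapSubmonoid C (nonZeroDivisors o)) L] :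
    Function.Injective (algebraMap C L) := by
  apply IsLocalization.injective L (M := Algebra.algebraMapSubmonoid C (nonZeroDivisors o))
  rintro _ ⟨σ, hσ, rfl⟩
  rw [mem_nonZeroDivisors_iff_right]
  intro c hc
  have hσ0 : σ ≠ 0 := nonZeroDivisors.ne_zero hσ
  apply smul_eq_zero_imp hσ0
  rw [Algebra.smul_def, mul_comm]
  exact hc

omit [IsDiscreteValuationRing o] [Module.Free o C] [Module.Finite o C] in
include o in
theorem exists_smul_mem_range (l : L) :
    ∃ σ : o, σ ≠ 0 ∧ σ • l ∈ (algebraMap C L).range := by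
  obtain ⟨⟨c, ⟨_, σ, hσ, rfl⟩⟩, h⟩ :=
    IsLocalization.surj (Algebra.algebraMapSubmonoid C (nonZeroDivisors o)) l
  refine ⟨σ, nonZeroDivisors.ne_zero hσ, c, ?_⟩
  simp only at h
  rw [← h, ← IsScalarTower.algebraMap_apply, Algebra.smul_def, mul_comm]

include K in
/-- Step A: a minimal counterexample. -/
theorem exists_minimal_counterexample {t : o} (ht : Irreducible t) (x : L) (hx : IsIntegral o x)
    (hxC : x ∉ (algebraMap C L).range) :
    ∃ (y : L) (z : C), IsIntegral o y ∧ y ∉ (algebraMap C L).range ∧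
      algebraMap C L z = t • y ∧
      z ∉ (IsLocalRing.maximalIdeal o • ⊤ : Submodule o C) := by
  classical
  -- some power of t moves x into the range
  have hex : ∃ k : ℕ, t ^ k • x ∈ (algebraMap C L).range := by
    obtain ⟨σ, hσ, c, hc⟩ := exists_smul_mem_range (o := o) (C := C) x
    obtain ⟨n, w, hw⟩ := IsDiscreteValuationRing.eq_unit_mul_pow_irreducible hσ ht
    refine ⟨n, (↑w⁻¹ : o) • c, ?_⟩
    rw [Algebra.smul_def, map_mul, hc, ← IsScalarTower.algebraMap_apply, ← Algebra.smul_def,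
      smul_smul, hw]
    congr 1
    rw [← mul_assoc, Units.inv_mul, one_mul]
  let k := Nat.find hex
  have hk : t ^ k • x ∈ (algebraMap C L).range := Nat.find_spec hex
  have hk0 : k ≠ 0 := by
    intro h0
    rw [h0, pow_zero, one_smul] at hk
    exact hxC hk
  obtain ⟨k', hk'⟩ : ∃ k', k = k' + 1 := ⟨k - 1, by omega⟩
  have hmin : t ^ k' • x ∉ (algebraMap C L).range := by
    have : k' < k := by omega
    exact Nat.find_min hex this
  obtain ⟨z, hz⟩ := hk
  refine ⟨t ^ k' • x, z, ?_, hmin, ?_, ?_⟩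
  · rw [Algebra.smul_def]
    exact (isIntegral_algebraMap).mul hx
  · rw [hz, hk', pow_succ, smul_smul, mul_comm]
  · intro hzmem
    rw [ht.maximalIdeal_eq, Submodule.ideal_span_singleton_smul] at hzmem
    obtain ⟨z', -, hz'⟩ := hzmem
    have hz'' : t • z' = z := hz'
    apply hmin
    refine ⟨z', ?_⟩
    have h1 : t • (algebraMap C L z' - t ^ k' • x) = 0 := by
      rw [smul_sub, smul_smul, ← pow_succ', ← hk', ← hz, ← hz'']
      rw [Algebra.smul_def t z', map_mul, ← IsScalarTower.algebraMap_apply, ← Algebra.smul_def,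
        sub_self]
    have := smul_eq_zero_of_fractionRing K ht.ne_zero h1
    exact sub_eq_zero.mp this

omit [IsDiscreteValuationRing o] [Module.Finite o C] in
include o in
/-- Step A': `z = t y` with `y` integral is nilpotent modulo `t`. -/
theorem exists_pow_eq_smul {t : o} {y : L} {z : C} (hy : IsIntegral o y)
    (hz : algebraMap C L z = t • y) : ∃ (d : ℕ) (c : C), z ^ d = t • c := by
  obtain ⟨p, hp, hpy⟩ := hy
  have hq : eval₂ (algebraMap o L) (algebraMap o L t * y) (p.scaleRoots t) = 0 :=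
    scaleRoots_eval₂_eq_zero (algebraMap o L) hpy
  rw [← Algebra.smul_def, ← hz] at hq
  have hq' : algebraMap C L (eval₂ (algebraMap o C) z (p.scaleRoots t)) = 0 := by
    rw [Polynomial.hom_eval₂, ← IsScalarTower.algebraMap_eq]
    exact hq
  have hq0 : eval₂ (algebraMap o C) z (p.scaleRoots t) = 0 :=
    (algebraMap_injective_of_free (o := o) L) (by rw [hq', map_zero])
  have hmonic : (p.scaleRoots t).Monic := (monic_scaleRoots_iff t).mpr hp
  have hsum := hmonic.as_sum
  rw [natDegree_scaleRoots] at hsum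
  rw [hsum, eval₂_add, eval₂_pow, eval₂_X, eval₂_finsetSum] at hq0
  refine ⟨p.natDegree, -∑ i ∈ Finset.range p.natDegree,
    (p.coeff i * t ^ (p.natDegree - i - 1)) • z ^ i, ?_⟩
  rw [eq_neg_of_add_eq_zero_left hq0, smul_neg, Finset.smul_sum]
  congr 1
  refine Finset.sum_congr rfl fun i hi => ?_
  have hi' : i < p.natDegree := Finset.mem_range.mp hi
  have hpow : t ^ (p.natDegree - i) = t * t ^ (p.natDegree - i - 1) := by
    rw [← pow_succ']
    congr 1
    omega
  rw [eval₂_mul, eval₂_C, eval₂_pow, eval₂_X, coeff_scaleRoots, smul_smul, Algebra.smul_def, hpow]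
  congr 2
  ring

omit [IsDiscreteValuationRing o] [Module.Free o C] [Module.Finite o C] in
theorem mem_radical_span_iff {t : o} (c : C) :
    c ∈ (Ideal.span {algebraMap o C t}).radical ↔ ∃ (k : ℕ) (c' : C), c ^ k = t • c' := by
  constructor
  · rintro ⟨k, hk⟩
    obtain ⟨c', hc'⟩ := Ideal.mem_span_singleton'.mp hk
    exact ⟨k, c', by rw [← hc', Algebra.smul_def, mul_comm]⟩
  · rintro ⟨k, c', hk⟩
    refine ⟨k, Ideal.mem_span_singleton'.mpr ⟨c', ?_⟩⟩
    rw [hk, Algebra.smul_def, mul_comm]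

include K in
/-- **Normality criterion (b2-core).**  `o` a DVR with uniformizer `t`, `C` a finite free
`o`-algebra with basis `b`, `L` its localization at `o \ {0}`.  If `C / rad(tC)` is generated by
`s` elements as `o`-module and `t ^ (n - s + 1) ∤ disc(b)` (`n = #ι`), then every element of `L`
integral over `o` lies in (the image of) `C`. -/
theorem mem_range_of_isIntegral {t : o} (ht : Irreducible t)
    {ι : Type*} [Fintype ι] [DecidableEq ι] (b : Basis ι o C)
    (s : ℕ) (u : Fin s → C)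
    (hu : ((Ideal.span {algebraMap o C t}).radical.restrictScalars o) ⊔
        Submodule.span o (Set.range u) = ⊤)
    (hd : ¬ t ^ (Fintype.card ι - s + 1) ∣ Algebra.discr o b)
    (x : L) (hx : IsIntegral o x) : x ∈ (algebraMap C L).range := by
  classical
  by_contra hxC
  obtain ⟨y, z, hy, hyC, hzy, hzt⟩ := exists_minimal_counterexample (K := K) ht x hx hxC
  set J : Ideal C := (Ideal.span {algebraMap o C t}).radical with hJ
  have hzJ : z ∈ J := (mem_radical_span_iff z).mpr (exists_pow_eq_smul hy hzy)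
  obtain ⟨ι', _, _, b', Z, i₀, hi₀Z, hbi₀, hbZ, hcard⟩ :=
    exists_adapted_basis (J.restrictScalars o) z hzJ hzt s u hu
  -- the lattice generated by `C` and `y`
  let G : Set L := Set.range (fun i => algebraMap C L (b' i)) ∪ {y}
  have hGfin : G.Finite := (Set.finite_range _).union (Set.finite_singleton y)
  have hGint : ∀ g ∈ G, IsIntegral o g := by
    rintro g (⟨i, rfl⟩ | rfl)
    · exact (Algebra.IsIntegral.isIntegral (R := o) (b' i)).map (IsScalarTower.toAlgHom o C L)
    · exact hy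
  have hrange : ∀ c : C, algebraMap C L c ∈ Algebra.adjoin o G := by
    intro c
    have hc : c = ∑ i, (b'.repr c i) • b' i := (b'.sum_repr c).symm
    rw [hc, map_sum]
    refine Subalgebra.sum_mem _ fun i _ => ?_
    rw [Algebra.smul_def, map_mul, ← IsScalarTower.algebraMap_apply, ← Algebra.smul_def]
    exact Subalgebra.smul_mem _
      (Algebra.subset_adjoin (Set.mem_union_left _ (Set.mem_range_self i))) _
  have hspan : ∀ l : L, ∃ σ : o, σ ≠ 0 ∧ σ • l ∈ Algebra.adjoin o G := by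
    intro l
    obtain ⟨σ, hσ, c, hc⟩ := exists_smul_mem_range (o := o) (C := C) l
    exact ⟨σ, hσ, hc ▸ hrange c⟩
  have hR : IsLattice (Algebra.adjoin o G) := isLattice_adjoin hGfin hGint hspan
  let φ : C →ₐ[o] Algebra.adjoin o G :=
    (IsScalarTower.toAlgHom o C L).codRestrict (Algebra.adjoin o G) hrange
  let yR : Algebra.adjoin o G :=
    ⟨y, Algebra.subset_adjoin (Set.mem_union_right _ (Set.mem_singleton y))⟩
  have hφ : ∀ c : C, ((φ c : Algebra.adjoin o G) : L) = algebraMap C L c := fun c => rfl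
  have hφz : φ z = t • yR := Subtype.ext (by
    rw [hφ, hzy]; rfl)
  -- compatibility of traces
  have hτ : ∀ c : C, Algebra.trace o C c = Algebra.trace o (Algebra.adjoin o G) (φ c) := by
    intro c
    apply IsFractionRing.injective o K
    rw [← hR.trace_eq (K := K), hφ,
      ← Algebra.trace_localization o (nonZeroDivisors o) (Rₘ := K) (Sₘ := L)]
  have hE1 : ∀ c ∈ J, t ∣ Algebra.trace o C c := fun c hc => by
    obtain ⟨k, c', hk⟩ := (mem_radical_span_iff c).mp hc
    exact dvd_trace_of_pow_mem ht c k ⟨c', hk⟩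
  have hE2 : ∀ c : C, Algebra.trace o C (z * c) =
      t * Algebra.trace o (Algebra.adjoin o G) (yR * φ c) := by
    intro c
    rw [hτ, map_mul, hφz, smul_mul_assoc, map_smul, smul_eq_mul]
  have hE3 : ∀ c ∈ J, t ∣ Algebra.trace o (Algebra.adjoin o G) (yR * φ c) := by
    intro c hc
    obtain ⟨k, c', hk⟩ := (mem_radical_span_iff c).mp hc
    refine hR.dvd_trace (K := K) ht _ k ⟨yR ^ k * φ c', ?_⟩
    rw [mul_pow, ← map_pow, hk, map_smul, mul_smul_comm]
  -- the Gram matrix of the adapted basis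
  have hdet : t ^ (Z.card + 1) ∣ Algebra.discr o b' := by
    rw [Algebra.discr_def]
    refine pow_card_succ_dvd_det t _ Z i₀ ?_ ?_ ?_
    · intro i hi j
      rw [Algebra.traceMatrix_apply, Algebra.traceForm_apply]
      exact hE1 _ (J.mul_mem_right _ (hbZ i hi))
    · intro i hi
      rw [Algebra.traceMatrix_apply, Algebra.traceForm_apply, hbi₀, mul_comm, hE2, pow_two]
      exact mul_dvd_mul_left t (hE3 _ (hbZ i hi))
    · intro j
      rw [Algebra.traceMatrix_apply, Algebra.traceForm_apply, hbi₀, mul_comm, hE2]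
      exact dvd_mul_right t _
  have hcard' : Fintype.card ι = Fintype.card ι' := Fintype.card_congr (b.indexEquiv b')
  have hfin : t ^ (Fintype.card ι - s + 1) ∣ Algebra.discr o b' :=
    (pow_dvd_pow t (by omega)).trans hdet
  exact hd (dvd_discr_of_dvd_discr b b' _ hfin)

include K in
/-- **Normality criterion**, `IsIntegrallyClosedIn` form. -/
theorem isIntegrallyClosedIn_of_discr {t : o} (ht : Irreducible t)
    {ι : Type*} [Fintype ι] [DecidableEq ι] (b : Basis ι o C)
    (s : ℕ) (u : Fin s → C)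
    (hu : ((Ideal.span {algebraMap o C t}).radical.restrictScalars o) ⊔
        Submodule.span o (Set.range u) = ⊤)
    (hd : ¬ t ^ (Fintype.card ι - s + 1) ∣ Algebra.discr o b) :
    IsIntegrallyClosedIn C L := by
  refine ⟨algebraMap_injective_of_free (o := o) L, fun {x} => ⟨fun hx => ?_, ?_⟩⟩
  · have hx' : IsIntegral o x := isIntegral_trans (R := o) (A := C) x hx
    exact mem_range_of_isIntegral (K := K) ht b s u hu hd x hx'
  · rintro ⟨c, rfl⟩
    exact isIntegral_algebraMap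

omit [Module.Free o C] [Module.Finite o C] in
/-- The discriminant is always divisible by `t ^ (n - s)` when `C / rad(tC)` is generated by
`s` elements (no hypothesis on `L`). -/
theorem pow_dvd_discr [Module.Free o C] [Module.Finite o C] {t : o} (ht : Irreducible t)
    {ι : Type*} [Fintype ι] [DecidableEq ι] (b : Basis ι o C)
    (s : ℕ) (u : Fin s → C)
    (hu : ((Ideal.span {algebraMap o C t}).radical.restrictScalars o) ⊔
        Submodule.span o (Set.range u) = ⊤) :
    t ^ (Fintype.card ι - s) ∣ Algebra.discr o b := by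
  classical
  by_cases hn : Fintype.card ι ≤ s
  · rw [Nat.sub_eq_zero_of_le hn, pow_zero]
    exact one_dvd _
  -- `t • b i₁` is a nonzero element of `rad(tC)`, not in `t 𝔪`... we use `z := t`-free variant:
  -- pick an element of the radical outside `𝔪 C`; it exists since `n > s`.
  set J : Ideal C := (Ideal.span {algebraMap o C t}).radical with hJ
  have hex : ∃ z ∈ J, z ∉ (IsLocalRing.maximalIdeal o • ⊤ : Submodule o C) := by
    by_contra hcon
    -- then `C = 𝔪 C + span u`, so `C` is generated by `s` elements (Nakayama), contradiction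
    have hle : (J.restrictScalars o) ≤ (IsLocalRing.maximalIdeal o • ⊤ : Submodule o C) := by
      intro z hz
      by_contra hz'
      exact hcon ⟨z, hz, hz'⟩
    have htop : (⊤ : Submodule o C) ≤
        Submodule.span o (Set.range u) ⊔ (IsLocalRing.maximalIdeal o • ⊤ : Submodule o C) :=
      calc (⊤ : Submodule o C) = J.restrictScalars o ⊔ Submodule.span o (Set.range u) := hu.symm
        _ ≤ (IsLocalRing.maximalIdeal o • ⊤ : Submodule o C) ⊔ Submodule.span o (Set.range u) :=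
            sup_le_sup_right hle _
        _ = _ := sup_comm _ _
    have hjac : IsLocalRing.maximalIdeal o ≤ Ideal.jacobson ⊥ :=
      (IsLocalRing.jacobson_eq_maximalIdeal ⊥ bot_ne_top).ge
    have hspan : (⊤ : Submodule o C) ≤ Submodule.span o (Set.range u) :=
      Submodule.le_of_le_smul_of_le_jacobson_bot (Module.Finite.fg_top) hjac htop
    have hcardle : Fintype.card ι ≤ s := by
      have h1 : Module.finrank o C = Fintype.card ι := Module.finrank_eq_card_basis b
      have h2 := finrank_span_le_card (R := o) (Set.range u)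
      rw [top_le_iff.mp hspan, finrank_top] at h2
      have h4 : (Set.range u).toFinset.card ≤ s := by
        calc (Set.range u).toFinset.card ≤ (Finset.univ : Finset (Fin s)).card := by
              rw [Set.toFinset_range]
              exact Finset.card_image_le
          _ = s := by simp
      omega
    exact hn hcardle
  obtain ⟨z, hzJ, hzt⟩ := hex
  obtain ⟨ι', _, _, b', Z, i₀, hi₀Z, hbi₀, hbZ, hcard⟩ :=
    exists_adapted_basis (J.restrictScalars o) z hzJ hzt s u hu
  have hE1 : ∀ c ∈ J, t ∣ Algebra.trace o C c := fun c hc => by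
    obtain ⟨k, c', hk⟩ := (mem_radical_span_iff c).mp hc
    exact dvd_trace_of_pow_mem ht c k ⟨c', hk⟩
  have hdet : t ^ Z.card ∣ Algebra.discr o b' := by
    rw [Algebra.discr_def]
    refine pow_card_dvd_det t _ Z ?_
    intro i hi j
    rw [Algebra.traceMatrix_apply, Algebra.traceForm_apply]
    exact hE1 _ (J.mul_mem_right _ (hbZ i hi))
  have hcard' : Fintype.card ι = Fintype.card ι' := Fintype.card_congr (b.indexEquiv b')
  have hfin : t ^ (Fintype.card ι - s) ∣ Algebra.discr o b' :=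
    (pow_dvd_pow t (by omega)).trans hdet
  exact dvd_discr_of_dvd_discr b b' _ hfin

end Main

end Fermat.Agent.S37.H278

end
-- ===== PACK-END S37/H278/Normal.lean

-- ===== PACK-BEGIN S18/B12/H278/Transfer.lean
section


/-!
# b2-SF core over a PID (helper278)

`Λ` a PID, `t` a prime element, `C` a finite free commutative `Λ`-algebra with basis `b`,
`f : C →ₐ[Λ] L` an injective map into a commutative `Λ`-algebra without `Λ`-torsion.
If `C / rad(tC)` is spanned by `s` elements over `Λ` and `t ^ (n - s + 1) ∤ disc(b)`, then every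
`x : L` integral over `Λ` with `g₀ • x ∈ C` for some `g₀ ≠ 0` satisfies `g • x ∈ C` for some
`g ∉ (t)`:  **`C` is integrally closed in `L ∩ (C ⊗ Frac Λ)` locally at `t`**.

Proof: localise at `(t)` and apply the DVR criterion `mem_range_of_isIntegral` of
`Fermat/Agent/S37/H278/Normal.lean`.
-/

set_option autoImplicit false
set_option linter.style.haveILetI false
set_option linter.unusedSectionVars false

namespace Fermat.Agent.S18.B12.H278

open Module Polynomial Fermat.Agent.S37.H278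

section Transfer

variable {Λ : Type*} [CommRing Λ] [IsDomain Λ] [IsPrincipalIdealRing Λ]
  {C : Type*} [CommRing C] [Algebra Λ C]
  {L : Type*} [CommRing L] [Algebra Λ L]

/-- Divisibility by powers of `t` can be tested in the localisation at `(t)`. -/
theorem pow_dvd_of_pow_dvd_algebraMap {t : Λ} (ht : Prime t) (P : Ideal Λ) [P.IsPrime]
    (hP : P = Ideal.span {t})
    (o : Type*) [CommRing o] [Algebra Λ o] [IsLocalization.AtPrime o P] (k : ℕ) (d : Λ)
    (h : algebraMap Λ o t ^ k ∣ algebraMap Λ o d) : t ^ k ∣ d := by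
  obtain ⟨e, he⟩ := h
  obtain ⟨⟨a, g⟩, hag⟩ := IsLocalization.surj P.primeCompl e
  simp only at hag
  have hinj : Function.Injective (algebraMap Λ o) :=
    IsLocalization.injective o (Ideal.primeCompl_le_nonZeroDivisors P)
  have h1 : g.1 * d = t ^ k * a := by
    apply hinj
    rw [map_mul, map_mul, map_pow, he, ← hag]
    ring
  have hg : ¬ t ∣ g.1 := by
    intro hdiv
    exact g.2 (hP.ge (Ideal.mem_span_singleton.mpr hdiv))
  exact ht.pow_dvd_of_dvd_mul_left k hg ⟨a, h1⟩

/-- The image of `t` is a uniformiser of the localisation at `(t)`. -/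
theorem irreducible_algebraMap_of_atPrime {t : Λ} (P : Ideal Λ) [P.IsPrime]
    (hP : P = Ideal.span {t})
    (o : Type*) [CommRing o] [IsDomain o] [IsDiscreteValuationRing o] [Algebra Λ o]
    [IsLocalization.AtPrime o P] : Irreducible (algebraMap Λ o t) := by
  rw [IsDiscreteValuationRing.irreducible_iff_uniformizer,
    ← IsLocalization.AtPrime.map_eq_maximalIdeal P o, hP, Ideal.map_span, Set.image_singleton]

/-- Transfer of the spanning hypothesis to the localisation. -/
theorem sup_eq_top_of_atPrime {t : Λ} (P : Ideal Λ) [P.IsPrime]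
    (o : Type*) [CommRing o] [Algebra Λ o] [IsLocalization.AtPrime o P]
    (C' : Type*) [CommRing C'] [Algebra C C'] [Algebra o C'] [Algebra Λ C']
    [IsScalarTower Λ o C'] [IsScalarTower Λ C C']
    [IsLocalization (Algebra.algebraMapSubmonoid C P.primeCompl) C']
    (s : ℕ) (y : Fin s → C)
    (hy : ∀ x : C, ∃ a : Fin s → Λ,
        x - ∑ i, a i • y i ∈ (Ideal.span {algebraMap Λ C t}).radical) :
    ((Ideal.span {algebraMap o C' (algebraMap Λ o t)}).radical.restrictScalars o) ⊔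
        Submodule.span o (Set.range fun i => algebraMap C C' (y i)) = ⊤ := by
  rw [eq_top_iff]
  intro c' _
  obtain ⟨⟨c, m⟩, hcm⟩ := IsLocalization.surj (Algebra.algebraMapSubmonoid C P.primeCompl) c'
  obtain ⟨g, hg, hgm⟩ := m.2
  simp only at hcm
  -- `algebraMap g` is a unit of `o`
  obtain ⟨v, hv⟩ := (IsLocalization.map_units o (⟨g, hg⟩ : P.primeCompl)).exists_right_inv
  simp only at hv
  have hc' : c' = v • algebraMap C C' c := by
    rw [← hcm, ← hgm, ← IsScalarTower.algebraMap_apply, IsScalarTower.algebraMap_apply Λ o C',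
      Algebra.smul_def, mul_comm c', ← mul_assoc, ← map_mul, mul_comm v, hv, map_one, one_mul]
  rw [hc']
  refine Submodule.smul_mem _ _ ?_
  obtain ⟨a, ha⟩ := hy c
  have h1 : algebraMap C C' c =
      algebraMap C C' (c - ∑ i, a i • y i) + ∑ i, algebraMap Λ o (a i) • algebraMap C C' (y i) := by
    rw [map_sub, map_sum]
    have : ∀ i, algebraMap C C' (a i • y i) = algebraMap Λ o (a i) • algebraMap C C' (y i) := by
      intro i
      rw [Algebra.smul_def, map_mul, Algebra.smul_def, ← IsScalarTower.algebraMap_apply,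
        ← IsScalarTower.algebraMap_apply]
    simp only [this]
    ring
  rw [h1]
  refine Submodule.add_mem_sup ?_ ?_
  · show algebraMap C C' (c - ∑ i, a i • y i) ∈
      (Ideal.span {algebraMap o C' (algebraMap Λ o t)}).radical
    have h2 := Ideal.map_radical_le (algebraMap C C') (Ideal.mem_map_of_mem (algebraMap C C') ha)
    rw [Ideal.map_span, Set.image_singleton, ← IsScalarTower.algebraMap_apply,
      IsScalarTower.algebraMap_apply Λ o C'] at h2
    exact h2
  · refine Submodule.sum_mem _ fun i _ => Submodule.smul_mem _ _ (Submodule.subset_span ⟨i, rfl⟩)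

/-- Main transfer theorem, with abstract localisations `o = Λ_(t)`, `C' = C_(t)`,
`L' = C' ⊗ Frac o`. -/
theorem exists_smul_mem_range_aux {t : Λ} (ht : Prime t) (P : Ideal Λ) [P.IsPrime]
    (hP : P = Ideal.span {t})
    (o : Type*) [CommRing o] [IsDomain o] [IsDiscreteValuationRing o] [Algebra Λ o]
    [IsLocalization.AtPrime o P]
    (C' : Type*) [CommRing C'] [Algebra C C'] [Algebra o C'] [Algebra Λ C']
    [IsScalarTower Λ o C'] [IsScalarTower Λ C C']
    [IsLocalization (Algebra.algebraMapSubmonoid C P.primeCompl) C']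
    (L' : Type*) [CommRing L'] [Algebra o L'] [Algebra C' L']
    [IsScalarTower o C' L']
    [IsLocalization (Algebra.algebraMapSubmonoid C' (nonZeroDivisors o)) L']
    (hL : ∀ (g : Λ) (l : L), g ≠ 0 → g • l = 0 → l = 0)
    (f : C →ₐ[Λ] L) (hf : Function.Injective f)
    {ι : Type*} [Fintype ι] [DecidableEq ι] (b : Basis ι Λ C) (s : ℕ) (y : Fin s → C)
    (hy : ∀ x : C, ∃ a : Fin s → Λ,
        x - ∑ i, a i • y i ∈ (Ideal.span {algebraMap Λ C t}).radical)
    (hd : ¬ t ^ (Fintype.card ι - s + 1) ∣ Algebra.discr Λ b)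
    (x : L) (hx : IsIntegral Λ x) (hx0 : ∃ g₀ : Λ, g₀ ≠ 0 ∧ g₀ • x ∈ f.range) :
    ∃ g : Λ, ¬ t ∣ g ∧ g • x ∈ f.range := by
  classical
  -- `L'` is an algebra over `K = Frac o`
  have hunitK : ∀ z : nonZeroDivisors o, IsUnit (algebraMap o L' z) := by
    intro z
    rw [IsScalarTower.algebraMap_apply o C' L']
    exact IsLocalization.map_units L' (⟨algebraMap o C' z, ⟨z, z.2, rfl⟩⟩ :
      Algebra.algebraMapSubmonoid C' (nonZeroDivisors o))
  letI : Algebra (FractionRing o) L' :=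
    (IsLocalization.lift (M := nonZeroDivisors o) (g := algebraMap o L') hunitK).toAlgebra
  haveI : IsScalarTower o (FractionRing o) L' :=
    IsScalarTower.of_algebraMap_eq (fun z => (IsLocalization.lift_eq hunitK z).symm)
  obtain ⟨g₀, hg₀, c₀, hc₀'⟩ := hx0
  have hc₀ : f c₀ = g₀ • x := hc₀'
  obtain ⟨p, hpm, hpx⟩ := hx
  let b' : Basis ι o C' := b.localizationLocalization o P.primeCompl C'
  haveI : Module.Free o C' := Module.Free.of_basis b'
  haveI : Module.Finite o C' := Module.Finite.of_basis b'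
  haveI : Module.Free Λ C := Module.Free.of_basis b
  have ht' : Irreducible (algebraMap Λ o t) := irreducible_algebraMap_of_atPrime P hP o
  have hu' := sup_eq_top_of_atPrime (t := t) P o C' s y hy
  have hd' : ¬ algebraMap Λ o t ^ (Fintype.card ι - s + 1) ∣ Algebra.discr o b' := by
    rw [Algebra.discr_localizationLocalization Λ P.primeCompl C' b]
    exact fun h => hd (pow_dvd_of_pow_dvd_algebraMap ht P hP o _ _ h)
  -- the maps
  have hinjΛo : Function.Injective (algebraMap Λ o) :=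
    IsLocalization.injective o (Ideal.primeCompl_le_nonZeroDivisors P)
  have hinjC : Function.Injective (algebraMap C C') := by
    apply IsLocalization.injective C' (M := Algebra.algebraMapSubmonoid C P.primeCompl)
    rintro _ ⟨g, hg, rfl⟩
    rw [mem_nonZeroDivisors_iff_right]
    intro c hc
    have hg0 : g ≠ 0 := fun h => hg (h ▸ P.zero_mem)
    apply smul_eq_zero_imp hg0
    rw [Algebra.smul_def, mul_comm]
    exact hc
  have hinjC' : Function.Injective (algebraMap C' L') := algebraMap_injective_of_free (o := o) L'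
  let φ : C →+* L' := (algebraMap C' L').comp (algebraMap C C')
  have hφ : Function.Injective φ := hinjC'.comp hinjC
  let ψ : Λ →+* L' := φ.comp (algebraMap Λ C)
  have hψ : ∀ a, ψ a = algebraMap o L' (algebraMap Λ o a) := by
    intro a
    show algebraMap C' L' (algebraMap C C' (algebraMap Λ C a)) = _
    rw [← IsScalarTower.algebraMap_apply Λ C C', IsScalarTower.algebraMap_apply Λ o C',
      ← IsScalarTower.algebraMap_apply o C' L']
  have hunit : IsUnit (ψ g₀) := by
    have hmem : algebraMap o C' (algebraMap Λ o g₀) ∈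
        Algebra.algebraMapSubmonoid C' (nonZeroDivisors o) :=
      ⟨algebraMap Λ o g₀, mem_nonZeroDivisors_of_ne_zero
        (fun h => hg₀ (hinjΛo (by rw [h, map_zero]))), rfl⟩
    have := IsLocalization.map_units L' (⟨_, hmem⟩ :
      Algebra.algebraMapSubmonoid C' (nonZeroDivisors o))
    rw [hψ, IsScalarTower.algebraMap_apply o C' L']
    exact this
  obtain ⟨w, hw⟩ := hunit.exists_left_inv
  -- the element `x' = c₀ / g₀` of `L'`
  set x' : L' := w * φ c₀ with hx'
  have hgx' : ψ g₀ * x' = φ c₀ := by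
    rw [hx', ← mul_assoc, mul_comm (ψ g₀), hw, one_mul]
  -- `c₀` is a root of the scaled polynomial
  have hq : eval₂ (algebraMap Λ C) c₀ (scaleRoots p g₀) = 0 := by
    apply hf
    rw [map_zero]
    have h1 : f (eval₂ (algebraMap Λ C) c₀ (scaleRoots p g₀)) =
        eval₂ (algebraMap Λ L) (f c₀) (scaleRoots p g₀) := by
      rw [← Polynomial.aeval_def, ← Polynomial.aeval_def, Polynomial.aeval_algHom_apply]
    rw [h1, hc₀, Algebra.smul_def, scaleRoots_eval₂_mul, hpx, mul_zero]
  have hx'int : IsIntegral o x' := by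
    refine ⟨p.map (algebraMap Λ o), hpm.map _, ?_⟩
    rw [eval₂_map]
    have h2 : eval₂ ((algebraMap o L').comp (algebraMap Λ o)) x' p = eval₂ ψ x' p := by
      congr 1
      ext a
      exact (hψ a).symm
    rw [h2]
    have h3 : ψ g₀ ^ p.natDegree * eval₂ ψ x' p = 0 := by
      rw [← scaleRoots_eval₂_mul, hgx']
      have : eval₂ ψ (φ c₀) (scaleRoots p g₀) = φ (eval₂ (algebraMap Λ C) c₀ (scaleRoots p g₀)) := by
        rw [Polynomial.hom_eval₂]
      rw [this, hq, map_zero]
    have hu2 : IsUnit (ψ g₀ ^ p.natDegree) := hunit.pow _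
    exact (hu2.mul_right_eq_zero).mp h3
  -- apply the DVR criterion
  obtain ⟨c', hc'⟩ := mem_range_of_isIntegral (K := FractionRing o) ht' b' s
    (fun i => algebraMap C C' (y i)) hu' hd' x' hx'int
  obtain ⟨⟨c, m⟩, hcm⟩ := IsLocalization.surj (Algebra.algebraMapSubmonoid C P.primeCompl) c'
  obtain ⟨g, hg, hgm⟩ := m.2
  simp only at hcm
  refine ⟨g, fun hdiv => hg (hP.ge (Ideal.mem_span_singleton.mpr hdiv)), c, ?_⟩
  -- `g • c₀ = g₀ • c` in `C`
  have hkey : g • c₀ = g₀ • c := by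
    apply hφ
    have e1 : φ (g • c₀) = ψ g * φ c₀ := by
      rw [Algebra.smul_def, map_mul]; rfl
    have e2 : φ (g₀ • c) = ψ g₀ * φ c := by
      rw [Algebra.smul_def, map_mul]; rfl
    have e3 : φ c = x' * ψ g := by
      show algebraMap C' L' (algebraMap C C' c) = _
      rw [← hcm, map_mul, hc', ← hgm]
      rfl
    rw [e1, e2, e3, ← hgx']
    ring
  show f c = g • x
  have hfin : g₀ • (f c - g • x) = 0 := by
    rw [smul_sub, smul_comm g₀ g x, ← hc₀, ← map_smul, ← map_smul, hkey, sub_self]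
  exact sub_eq_zero.mp (hL g₀ _ hg₀ hfin)

/-- **Normality criterion over a PID, local at a prime `t`.**
`C` finite free `Λ`-algebra with basis `b`, `f : C → L` injective, `L` without `Λ`-torsion.  If
`C / rad(tC)` is spanned by `s` elements and `t ^ (n - s + 1) ∤ disc(b)`, then every `x : L`
integral over `Λ` which is a fraction of an element of `C` lies in `C` locally at `t`. -/
theorem exists_smul_mem_range_of_isIntegral {t : Λ} (ht : Prime t)
    (hL : ∀ (g : Λ) (l : L), g ≠ 0 → g • l = 0 → l = 0)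
    (f : C →ₐ[Λ] L) (hf : Function.Injective f)
    {ι : Type*} [Fintype ι] [DecidableEq ι] (b : Basis ι Λ C) (s : ℕ) (y : Fin s → C)
    (hy : ∀ x : C, ∃ a : Fin s → Λ,
        x - ∑ i, a i • y i ∈ (Ideal.span {algebraMap Λ C t}).radical)
    (hd : ¬ t ^ (Fintype.card ι - s + 1) ∣ Algebra.discr Λ b)
    (x : L) (hx : IsIntegral Λ x) (hx0 : ∃ g₀ : Λ, g₀ ≠ 0 ∧ g₀ • x ∈ f.range) :
    ∃ g : Λ, ¬ t ∣ g ∧ g • x ∈ f.range := by
  haveI hP : (Ideal.span {t} : Ideal Λ).IsPrime := (Ideal.span_singleton_prime ht.ne_zero).mpr ht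
  haveI : IsDiscreteValuationRing (Localization.AtPrime (Ideal.span {t} : Ideal Λ)) :=
    IsLocalization.AtPrime.isDiscreteValuationRing_of_dedekind_domain Λ
      (P := Ideal.span {t}) (by
        rw [Ne, Ideal.span_singleton_eq_bot]; exact ht.ne_zero) _
  exact exists_smul_mem_range_aux ht (Ideal.span {t}) rfl
    (Localization.AtPrime (Ideal.span {t} : Ideal Λ))
    (Localization (Algebra.algebraMapSubmonoid C (Ideal.span {t} : Ideal Λ).primeCompl))
    (Localization (Algebra.algebraMapSubmonoid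
      (Localization (Algebra.algebraMapSubmonoid C (Ideal.span {t} : Ideal Λ).primeCompl))
      (nonZeroDivisors (Localization.AtPrime (Ideal.span {t} : Ideal Λ)))))
    hL f hf b s y hy hd x hx hx0

end Transfer

end Fermat.Agent.S18.B12.H278

end
-- ===== PACK-END S18/B12/H278/Transfer.lean

-- ===== PACK-BEGIN S18/H425/Hsep.lean
section




/-!
# S18 / b2.5 HSEP (helper425): the hypothesis `hsep` of `B2RegularStatement` / `B2Statement`
from elementwise separability of the special fibre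

EXACT STATEMENTS (Mathlib-only):

* `hsep_gen` : `Λ` noetherian integrally closed domain, `w ∈ Λ` prime, `B` integrally closed
  domain, finite and torsion-free over `Λ`, `w` prime in `B`, and
  `∀ b : B, ∃ P : Λ[X], w ∣ P(b) ∧ ¬ w ∣ P'(b)`.  Then
  `∃ x : Fin (finrank Λ B) → B, ¬ w ∣ det (intTrace Λ B (x i * x j))`.
* `hsep_poly` : the case `Λ = R[X]`, `w = C w₀`, `R` a DVR — the hypothesis `hsep` of
  `Fermat.Agent.S18.B12.B2RegularStatement` (origin/helper33 Spec3.lean), verbatim.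
-/

set_option autoImplicit false

noncomputable section

namespace Fermat.Agent.S18.H425

open Polynomial IsLocalRing

universe u v

/-- Compatibility of `aeval` with a commutative square of ring homomorphisms. -/
theorem aeval_map_of_comp_eq {Λ B K F : Type*} [CommRing Λ] [CommRing B] [Algebra Λ B]
    [CommRing K] [CommRing F] [Algebra K F] (g : Λ →+* K) (φ : B →+* F)
    (h : (algebraMap K F).comp g = φ.comp (algebraMap Λ B)) (Q : Λ[X]) (c : B) :
    aeval (φ c) (Q.map g) = φ (aeval c Q) := by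
  rw [aeval_def, eval₂_map, h, aeval_def, hom_eval₂]

theorem hsep_gen (Λ : Type u) [CommRing Λ] [IsDomain Λ] [IsIntegrallyClosed Λ]
    [IsNoetherianRing Λ] (w : Λ) (hw : Prime w)
    (B : Type v) [CommRing B] [IsDomain B] [IsIntegrallyClosed B] [Algebra Λ B]
    [Module.Finite Λ B] [Module.IsTorsionFree Λ B]
    (hwB : Prime (algebraMap Λ B w))
    (hel : ∀ b : B, ∃ P : Λ[X], algebraMap Λ B w ∣ aeval b P ∧
          ¬ algebraMap Λ B w ∣ aeval b (derivative P)) :
    ∃ x : Fin (Module.finrank Λ B) → B,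
        ¬ w ∣ (Matrix.of fun i j => Algebra.intTrace Λ B (x i * x j)).det := by
  classical
  -- the prime `𝔭 = (w)` of `Λ` and the prime `P = (w)` of `B`
  let 𝔭 : Ideal Λ := Ideal.span {w}
  have h𝔭 : 𝔭.IsPrime := (Ideal.span_singleton_prime hw.ne_zero).mpr hw
  let P : Ideal B := Ideal.span {algebraMap Λ B w}
  have hP : P.IsPrime := (Ideal.span_singleton_prime hwB.ne_zero).mpr hwB
  have hPover : P.LiesOver 𝔭 := by
    constructor
    ext s
    rw [Ideal.under_def, Ideal.mem_comap, Ideal.mem_span_singleton, Ideal.mem_span_singleton]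
    exact ⟨fun h => map_dvd (algebraMap Λ B) h, fun h => dvd_of_algebraMap_dvd hw.ne_zero h⟩
  have hP𝔭 : 𝔭.map (algebraMap Λ B) = P := by
    rw [Ideal.map_span, Set.image_singleton]
  -- localisations
  let Λₚ := Localization.AtPrime 𝔭
  let Bₚ := Localization (Algebra.algebraMapSubmonoid B 𝔭.primeCompl)
  let _ : Algebra Λₚ Bₚ := localizationAlgebra 𝔭.primeCompl B
  have : IsScalarTower Λ Λₚ Bₚ := IsScalarTower.of_algebraMap_eq'
    (by rw [RingHom.algebraMap_toAlgebra, IsLocalization.map_comp, ← IsScalarTower.algebraMap_eq])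
  have : IsLocalization (Submonoid.map (algebraMap Λ B) (Ideal.primeCompl 𝔭)) Bₚ :=
    inferInstanceAs (IsLocalization (Algebra.algebraMapSubmonoid B 𝔭.primeCompl) Bₚ)
  have e : Algebra.algebraMapSubmonoid B 𝔭.primeCompl ≤ nonZeroDivisors B :=
    Submonoid.map_le_of_le_comap _ <| 𝔭.primeCompl_le_nonZeroDivisors.trans
      (nonZeroDivisors_le_comap_nonZeroDivisors_of_injective _
        (FaithfulSMul.algebraMap_injective _ _))
  have : IsDomain Bₚ := IsLocalization.isDomain_of_le_nonZeroDivisors _ e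
  have hinjB : Function.Injective (algebraMap Λ B) := FaithfulSMul.algebraMap_injective Λ B
  have hinjp : Function.Injective (algebraMap Λₚ Bₚ) :=
    localizationAlgebra_injective (Rₘ := Λₚ) (Sₘ := Bₚ) hinjB
  have : Module.IsTorsionFree Λₚ Bₚ := Module.isTorsionFree_iff_algebraMap_injective.mpr hinjp
  have : Module.Finite Λₚ Bₚ := .of_isLocalization Λ B 𝔭.primeCompl
  have : IsIntegrallyClosed Bₚ := isIntegrallyClosed_of_isLocalization _ _ e
  have : IsNoetherianRing Λₚ := IsLocalization.isNoetherianRing 𝔭.primeCompl Λₚ inferInstance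
  have hmaxeq : maximalIdeal Λₚ = Ideal.span {algebraMap Λ Λₚ w} := by
    rw [← IsLocalization.AtPrime.map_eq_maximalIdeal 𝔭 Λₚ, Ideal.map_span, Set.image_singleton]
  have : IsPrincipalIdealRing Λₚ := by
    refine ((tfae_of_isNoetherianRing_of_isLocalRing_of_isDomain Λₚ).out 4 0).mp ?_
    rw [hmaxeq]
    exact ⟨⟨_, rfl⟩⟩
  have : Module.Free Λₚ Bₚ := Module.free_of_finite_type_torsion_free'
  -- the ideal `𝔪 Bₚ`
  have hmapeq : Ideal.map (algebraMap Λₚ Bₚ) (maximalIdeal Λₚ) = P.map (algebraMap B Bₚ) := by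
    rw [← IsLocalization.AtPrime.map_eq_maximalIdeal 𝔭 Λₚ, Ideal.map_map,
      ← IsScalarTower.algebraMap_eq, IsScalarTower.algebraMap_eq Λ B Bₚ, ← Ideal.map_map, hP𝔭]
  have hprime : (Ideal.map (algebraMap Λₚ Bₚ) (maximalIdeal Λₚ)).IsPrime := by
    rw [hmapeq]
    exact IsLocalization.AtPrime.isPrime_map_of_liesOver B 𝔭 Bₚ P
  -- the residue field `K̄ = Λₚ/𝔪` and the residue algebra `F̄ = Bₚ/𝔪Bₚ`
  let _ : Field (Λₚ ⧸ maximalIdeal Λₚ) := Ideal.Quotient.field _
  have hmax : (Ideal.map (algebraMap Λₚ Bₚ) (maximalIdeal Λₚ)).IsMaximal := by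
    have hdom : IsDomain (Bₚ ⧸ Ideal.map (algebraMap Λₚ Bₚ) (maximalIdeal Λₚ)) :=
      Ideal.Quotient.isDomain _
    have hfin : Module.Finite (Λₚ ⧸ maximalIdeal Λₚ)
        (Bₚ ⧸ Ideal.map (algebraMap Λₚ Bₚ) (maximalIdeal Λₚ)) :=
      Module.Finite.of_restrictScalars_finite Λₚ _ _
    have hint : Algebra.IsIntegral (Λₚ ⧸ maximalIdeal Λₚ)
        (Bₚ ⧸ Ideal.map (algebraMap Λₚ Bₚ) (maximalIdeal Λₚ)) := Algebra.IsIntegral.of_finite _ _
    exact Ideal.Quotient.maximal_of_isField _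
      (isField_of_isIntegral_of_isField' (Field.toIsField (Λₚ ⧸ maximalIdeal Λₚ)))
  let _ : Field (Bₚ ⧸ Ideal.map (algebraMap Λₚ Bₚ) (maximalIdeal Λₚ)) := Ideal.Quotient.field _
  -- the kernel of `B → F̄`
  have hker : ∀ c : B, Ideal.Quotient.mk (Ideal.map (algebraMap Λₚ Bₚ) (maximalIdeal Λₚ))
      (algebraMap B Bₚ c) = 0 ↔ algebraMap Λ B w ∣ c := by
    intro c
    rw [Ideal.Quotient.eq_zero_iff_mem, hmapeq, ← Ideal.mem_comap, ← Ideal.under_def,
      IsLocalization.under_map_of_isPrime_disjoint (Algebra.algebraMapSubmonoid B 𝔭.primeCompl)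
        Bₚ hP (Ideal.disjoint_primeCompl_of_liesOver P 𝔭), Ideal.mem_span_singleton]
  -- the two maps to the residue objects
  let g : Λ →+* (Λₚ ⧸ maximalIdeal Λₚ) :=
    (Ideal.Quotient.mk (maximalIdeal Λₚ)).comp (algebraMap Λ Λₚ)
  let φ : B →+* (Bₚ ⧸ Ideal.map (algebraMap Λₚ Bₚ) (maximalIdeal Λₚ)) :=
    (Ideal.Quotient.mk _).comp (algebraMap B Bₚ)
  have hsq : (algebraMap (Λₚ ⧸ maximalIdeal Λₚ)
      (Bₚ ⧸ Ideal.map (algebraMap Λₚ Bₚ) (maximalIdeal Λₚ))).comp g =
      φ.comp (algebraMap Λ B) := by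
    ext a
    simp only [g, φ, RingHom.comp_apply]
    rw [Ideal.Quotient.algebraMap_quotient_map_quotient, ← IsScalarTower.algebraMap_apply,
      ← IsScalarTower.algebraMap_apply]
  have hg : ∀ s₀ : Λ, s₀ ∈ 𝔭.primeCompl → g s₀ ≠ 0 := by
    intro s₀ hs₀ h0
    simp only [g, RingHom.comp_apply] at h0
    rw [Ideal.Quotient.eq_zero_iff_mem, IsLocalRing.mem_maximalIdeal, mem_nonunits_iff] at h0
    exact h0 ((IsLocalization.AtPrime.isUnit_to_map_iff Λₚ 𝔭 s₀).mpr hs₀)
  -- elementwise separability of `F̄ / K̄`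
  have hsepel : ∀ y : Bₚ ⧸ Ideal.map (algebraMap Λₚ Bₚ) (maximalIdeal Λₚ),
      IsSeparable (Λₚ ⧸ maximalIdeal Λₚ) y := by
    intro y
    obtain ⟨y, rfl⟩ := Ideal.Quotient.mk_surjective y
    obtain ⟨⟨b, s⟩, hbs⟩ := IsLocalization.surj (Algebra.algebraMapSubmonoid B 𝔭.primeCompl) y
    obtain ⟨s₀, hs₀, hs₀'⟩ := s.2
    obtain ⟨Q, hQ0, hQ1⟩ := hel b
    have hb : IsSeparable (Λₚ ⧸ maximalIdeal Λₚ) (φ b) := by
      apply isSeparable_of_aeval_derivative_ne_zero _ (Q.map g)
      · rw [aeval_map_of_comp_eq g φ hsq]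
        exact (hker _).mpr hQ0
      · rw [derivative_map, aeval_map_of_comp_eq g φ hsq]
        exact fun h => hQ1 ((hker _).mp h)
    have hrel : Ideal.Quotient.mk (Ideal.map (algebraMap Λₚ Bₚ) (maximalIdeal Λₚ)) y *
        algebraMap (Λₚ ⧸ maximalIdeal Λₚ) _ (g s₀) = φ b := by
      have h1 : algebraMap (Λₚ ⧸ maximalIdeal Λₚ)
          (Bₚ ⧸ Ideal.map (algebraMap Λₚ Bₚ) (maximalIdeal Λₚ)) (g s₀) =
          φ (algebraMap Λ B s₀) := by
        have := congrArg (fun f => f s₀) hsq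
        simpa using this
      rw [h1, hs₀']
      simp only [φ, RingHom.comp_apply]
      rw [← map_mul, hbs]
    have hy : Ideal.Quotient.mk (Ideal.map (algebraMap Λₚ Bₚ) (maximalIdeal Λₚ)) y =
        φ b * algebraMap (Λₚ ⧸ maximalIdeal Λₚ) _ (g s₀)⁻¹ := by
      rw [← hrel, mul_assoc, ← map_mul, mul_inv_cancel₀ (hg s₀ hs₀), map_one, mul_one]
    rw [hy]
    exact Field.isSeparable_mul hb (isSeparable_algebraMap _)
  -- rank
  have hrank : Module.finrank Λₚ Bₚ = Module.finrank Λ B := by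
    have h1 : Module.finrank Λₚ Bₚ = Module.finrank Λ Bₚ :=
      IsLocalization.finrank_eq Λₚ 𝔭.primeCompl 𝔭.primeCompl_le_nonZeroDivisors
    have h2 : Module.finrank Λ Bₚ = Module.finrank Λ B :=
      IsLocalizedModule.finrank_eq 𝔭.primeCompl (IsScalarTower.toAlgHom Λ B Bₚ).toLinearMap
        𝔭.primeCompl_le_nonZeroDivisors
    rw [h1, h2]
  let bas : Module.Basis (Fin (Module.finrank Λ B)) Λₚ Bₚ := Module.finBasisOfFinrankEq Λₚ Bₚ hrank
  -- clear denominators
  have hex : ∀ i, ∃ (x : B) (s₀ : Λ), s₀ ∈ 𝔭.primeCompl ∧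
      algebraMap Λ Λₚ s₀ • bas i = algebraMap B Bₚ x := by
    intro i
    obtain ⟨⟨b, s⟩, hbs⟩ :=
      IsLocalization.surj (Algebra.algebraMapSubmonoid B 𝔭.primeCompl) (bas i)
    obtain ⟨s₀, hs₀, hs₀'⟩ := s.2
    refine ⟨b, s₀, hs₀, ?_⟩
    rw [Algebra.smul_def, ← IsScalarTower.algebraMap_apply,
      IsScalarTower.algebraMap_apply Λ B Bₚ, hs₀', mul_comm]
    exact hbs
  choose x s₀ hs₀ hx using hex
  have hunit : ∀ i, IsUnit (algebraMap Λ Λₚ (s₀ i)) := fun i =>
    (IsLocalization.AtPrime.isUnit_to_map_iff Λₚ 𝔭 (s₀ i)).mpr (hs₀ i)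
  let bas' : Module.Basis (Fin (Module.finrank Λ B)) Λₚ Bₚ := bas.isUnitSMul hunit
  have hbas' : ∀ i, bas' i = algebraMap B Bₚ (x i) := fun i => by
    rw [Module.Basis.isUnitSMul_apply, hx]
  have hdiscr : IsUnit (Algebra.discr Λₚ bas') :=
    isUnit_discr_of_isSeparable_quotient bas' hmax hsepel
  refine ⟨x, fun hdvd => ?_⟩
  have hmap : algebraMap Λ Λₚ (Matrix.of fun i j => Algebra.intTrace Λ B (x i * x j)).det =
      Algebra.discr Λₚ bas' := by
    rw [Algebra.discr_def, RingHom.map_det]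
    congr 1
    ext i j
    simp only [RingHom.mapMatrix_apply, Matrix.map_apply, Matrix.of_apply,
      Algebra.traceMatrix_apply, Algebra.traceForm_apply, hbas']
    rw [Algebra.intTrace_eq_of_isLocalization Λ B 𝔭.primeCompl (Aₘ := Λₚ) (Bₘ := Bₚ),
      Algebra.intTrace_eq_trace, map_mul]
  rw [← hmap, IsLocalization.AtPrime.isUnit_to_map_iff Λₚ 𝔭] at hdiscr
  exact hdiscr (Ideal.mem_span_singleton.mpr hdvd)

/-- **HSEP**, in the exact shape of the hypothesis `hsep` of
`Fermat.Agent.S18.B12.B2RegularStatement` / `B2Statement` (origin/helper33). -/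
theorem hsep_poly (R : Type u) [CommRing R] [IsDomain R] [IsDiscreteValuationRing R]
    (w : R) (hw : Irreducible w)
    (B : Type v) [CommRing B] [IsDomain B] [IsIntegrallyClosed B] [Algebra R[X] B]
    [Module.Finite R[X] B] [Module.IsTorsionFree R[X] B]
    (hwB : Prime (algebraMap R[X] B (C w)))
    (hel : ∀ b : B, ∃ P : R[X][X], algebraMap R[X] B (C w) ∣ aeval b P ∧
          ¬ algebraMap R[X] B (C w) ∣ aeval b (derivative P)) :
    ∃ x : Fin (Module.finrank R[X] B) → B,
        ¬ C w ∣ (Matrix.of fun i j => Algebra.intTrace R[X] B (x i * x j)).det := by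
  have hwp : Prime (C w : R[X]) :=
    (Polynomial.prime_C_iff).mpr hw.prime
  exact hsep_gen R[X] (C w) hwp B hwB hel

end Fermat.Agent.S18.H425

end
end
-- ===== PACK-END S18/H425/Hsep.lean

-- ===== PACK-BEGIN S18/H754/HncUnram.lean
section


/-!
# S18 / ALG-FRONT / hNC adapter: `(π)` is radical in the chart `B` when the generic fibre is
unramified over the zeros of `π`

* `isDiscreteValuationRing_atPrime_of_height_one`, `exists_dvd_or_dvd_of_height_one` (N3):
  `B_𝔓` is a valuation ring for a height-one prime `𝔓` of a Noetherian normal domain.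
* `exists_valuationSubring_dominating` (N4): a valuation subring of `Ω ⊇ B` dominating `B_𝔓`.
* `isRadical_span_of_unramified` (N5, main): see the statement.
-/

set_option autoImplicit false

noncomputable section

namespace Fermat.Agent.S18.H754

open IsLocalRing

section HeightOne

variable {B : Type*} [CommRing B] [IsDomain B] [IsNoetherianRing B] [IsIntegrallyClosed B]

/-- Localisation at a height-one prime of a Noetherian normal domain is a DVR. -/
theorem isDiscreteValuationRing_atPrime_of_height_one (𝔭 : Ideal B) [h𝔭 : 𝔭.IsPrime]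
    (h : 𝔭.height = 1) : IsDiscreteValuationRing (Localization.AtPrime 𝔭) := by
  set A := Localization.AtPrime 𝔭 with hA
  haveI : IsNoetherianRing A := IsLocalization.isNoetherianRing 𝔭.primeCompl A inferInstance
  haveI : IsIntegrallyClosed A :=
    isIntegrallyClosed_of_isLocalization A 𝔭.primeCompl 𝔭.primeCompl_le_nonZeroDivisors
  have h𝔭bot : 𝔭 ≠ ⊥ := Ideal.ne_bot_of_height_eq_one h
  have hmax : maximalIdeal A = 𝔭.map (algebraMap B A) :=
    (IsLocalization.AtPrime.map_eq_maximalIdeal 𝔭 A).symm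
  have hinj : Function.Injective (algebraMap B A) :=
    IsLocalization.injective A 𝔭.primeCompl_le_nonZeroDivisors
  have hnf : ¬ IsField A := by
    rw [isField_iff_maximalIdeal_eq]
    intro hbot
    obtain ⟨x, hx, hx0⟩ := Submodule.exists_mem_ne_zero_of_ne_bot h𝔭bot
    have hxmem : algebraMap B A x ∈ maximalIdeal A := by
      rw [hmax]; exact Ideal.mem_map_of_mem _ hx
    rw [hbot, Ideal.mem_bot] at hxmem
    exact hx0 (hinj (by rw [hxmem, map_zero]))
  have huniq : ∀ P : Ideal A, P ≠ ⊥ → P.IsPrime → P = maximalIdeal A := by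
    intro P hP hPprime
    have hP' : (P.comap (algebraMap B A)).IsPrime := Ideal.comap_isPrime _ _
    have hmapcomap : (P.comap (algebraMap B A)).map (algebraMap B A) = P :=
      IsLocalization.map_comap 𝔭.primeCompl A P
    have hle : P.comap (algebraMap B A) ≤ 𝔭 := by
      have hdisj : Disjoint (𝔭.primeCompl : Set B) (P.comap (algebraMap B A) : Set B) :=
        ((IsLocalization.isPrime_iff_isPrime_disjoint 𝔭.primeCompl A P).1 hPprime).2
      intro x hx
      by_contra hx𝔭
      exact Set.disjoint_left.1 hdisj hx𝔭 hx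
    have hne : P.comap (algebraMap B A) ≠ ⊥ := by
      intro h0
      apply hP
      rw [← hmapcomap, h0, Ideal.map_bot]
    have h1 : 𝔭.height ≤ (P.comap (algebraMap B A)).height := by
      rw [h]
      rw [Order.one_le_iff_pos, pos_iff_ne_zero]
      intro h0
      rw [Ideal.height_eq_zero_iff, IsDomain.minimalPrimes_eq_singleton_bot,
        Set.mem_singleton_iff] at h0
      exact hne h0
    have hfin : (P.comap (algebraMap B A)).FiniteHeight := by
      refine ⟨Or.inr ?_⟩
      intro htop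
      have h2 := Ideal.height_mono hle
      rw [htop, h, top_le_iff] at h2
      exact ENat.one_ne_top h2
    have heq : P.comap (algebraMap B A) = 𝔭 := by
      by_contra hne'
      have hlt : P.comap (algebraMap B A) < 𝔭 := lt_of_le_of_ne hle hne'
      have h3 := Ideal.height_strict_mono_of_isPrime hlt
      exact absurd (lt_of_lt_of_le h3 h1) (lt_irrefl _)
    calc P = (P.comap (algebraMap B A)).map (algebraMap B A) := hmapcomap.symm
      _ = 𝔭.map (algebraMap B A) := by rw [heq]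
      _ = maximalIdeal A := hmax.symm
  have htfae := (IsDiscreteValuationRing.TFAE A hnf).out 0 3
  rw [htfae]
  refine ⟨inferInstance, maximalIdeal A, ⟨?_, inferInstance⟩, ?_⟩
  · exact isField_iff_maximalIdeal_eq.not.1 hnf
  · rintro P ⟨hP, hPprime⟩
    exact huniq P hP hPprime

/-- `B_𝔓` is a valuation ring (elementwise). -/
theorem exists_dvd_or_dvd_of_height_one (𝔭 : Ideal B) [h𝔭 : 𝔭.IsPrime] (h : 𝔭.height = 1)
    (a c : B) : ∃ s : B, s ∉ 𝔭 ∧ (c ∣ s * a ∨ a ∣ s * c) := by
  haveI := isDiscreteValuationRing_atPrime_of_height_one 𝔭 h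
  haveI : ValuationRing (Localization.AtPrime 𝔭) :=
    ValuationRing.iff_local_bezout_domain.mpr ⟨inferInstance, inferInstance⟩
  have hinj : Function.Injective (algebraMap B (Localization.AtPrime 𝔭)) :=
    IsLocalization.injective _ 𝔭.primeCompl_le_nonZeroDivisors
  have key : ∀ a c : B, algebraMap B (Localization.AtPrime 𝔭) a ∣
      algebraMap B (Localization.AtPrime 𝔭) c → ∃ s : B, s ∉ 𝔭 ∧ a ∣ s * c := by
    intro a c ⟨r, hr⟩
    obtain ⟨r₁, ⟨s₁, hs₁⟩, rfl⟩ := IsLocalization.exists_mk'_eq 𝔭.primeCompl r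
    refine ⟨s₁, hs₁, r₁, ?_⟩
    apply hinj
    have h1 : IsLocalization.mk' (Localization.AtPrime 𝔭) r₁ ⟨s₁, hs₁⟩ *
        algebraMap B (Localization.AtPrime 𝔭) s₁ = algebraMap B (Localization.AtPrime 𝔭) r₁ :=
      IsLocalization.mk'_spec _ r₁ ⟨s₁, hs₁⟩
    rw [map_mul, map_mul, hr, ← h1]
    ring
  rcases ValuationRing.dvd_total (algebraMap B (Localization.AtPrime 𝔭) a)
      (algebraMap B (Localization.AtPrime 𝔭) c) with h1 | h1
  · obtain ⟨s, hs, hd⟩ := key a c h1
    exact ⟨s, hs, Or.inr hd⟩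
  · obtain ⟨s, hs, hd⟩ := key c a h1
    exact ⟨s, hs, Or.inl hd⟩

end HeightOne

section Dominate

variable {B : Type*} [CommRing B] [IsDomain B]
  {Ω : Type*} [Field Ω] [Algebra B Ω] [FaithfulSMul B Ω]

/-- A valuation subring of `Ω ⊇ B` dominating `B_𝔓`. -/
theorem exists_valuationSubring_dominating (𝔭 : Ideal B) [h𝔭 : 𝔭.IsPrime] :
    ∃ O : ValuationSubring Ω, (∀ b : B, algebraMap B Ω b ∈ O) ∧
      (∀ b : B, b ∉ 𝔭 → (algebraMap B Ω b)⁻¹ ∈ O) ∧
      (∀ b : B, b ∈ 𝔭 → b ≠ 0 → (algebraMap B Ω b)⁻¹ ∉ O) := by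
  classical
  have hinj : Function.Injective (algebraMap B Ω) := FaithfulSMul.algebraMap_injective B Ω
  have hunit : ∀ y : 𝔭.primeCompl, IsUnit (algebraMap B Ω y) := by
    intro y
    rw [isUnit_iff_ne_zero]
    intro h0
    have : (y : B) = 0 := hinj (by rw [h0, map_zero])
    exact y.2 (this ▸ 𝔭.zero_mem)
  let f : Localization.AtPrime 𝔭 →+* Ω := IsLocalization.lift hunit
  have hf : ∀ b : B, f (algebraMap B (Localization.AtPrime 𝔭) b) = algebraMap B Ω b :=
    fun b => IsLocalization.lift_eq hunit b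
  have hfinj : Function.Injective f := by
    rw [IsLocalization.lift_injective_iff]
    intro a b
    rw [(IsLocalization.injective (Localization.AtPrime 𝔭)
      𝔭.primeCompl_le_nonZeroDivisors).eq_iff, hinj.eq_iff]
  let A : LocalSubring Ω := LocalSubring.range f
  obtain ⟨O, hO⟩ := A.exists_le_valuationSubring
  obtain ⟨hle, hloc⟩ := hO
  have hAmem : ∀ r : Localization.AtPrime 𝔭, f r ∈ A.toSubring := fun r => ⟨r, rfl⟩
  have hOmem : ∀ r : Localization.AtPrime 𝔭, f r ∈ O := fun r => hle (hAmem r)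
  refine ⟨O, fun b => ?_, fun b hb => ?_, fun b hb hb0 hinv => ?_⟩
  · rw [← hf b]
    exact hOmem _
  · have h1 : f (IsLocalization.mk' (Localization.AtPrime 𝔭) 1 (⟨b, hb⟩ : 𝔭.primeCompl)) =
        (algebraMap B Ω b)⁻¹ := by
      have hb0 : algebraMap B Ω b ≠ 0 := (hunit ⟨b, hb⟩).ne_zero
      rw [IsLocalization.lift_mk'_spec, map_one]
      exact (mul_inv_cancel₀ hb0).symm
    rw [← h1]
    exact hOmem _
  · -- `algebraMap b` would be a unit of `O`, hence of `A`, hence of `B_𝔓`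
    have hb' : algebraMap B Ω b ≠ 0 := fun h0 => hb0 (hinj (by rw [h0, map_zero]))
    let xA : A.toSubring := ⟨algebraMap B Ω b, by rw [← hf b]; exact hAmem _⟩
    have hu : IsUnit (Subring.inclusion hle xA) := by
      rw [isUnit_iff_exists_inv]
      refine ⟨⟨(algebraMap B Ω b)⁻¹, hinv⟩, ?_⟩
      apply Subtype.ext
      change algebraMap B Ω b * (algebraMap B Ω b)⁻¹ = 1
      exact mul_inv_cancel₀ hb'
    have hu' : IsUnit xA := hloc.map_nonunit xA hu
    obtain ⟨⟨y, r, hr⟩, hy⟩ := isUnit_iff_exists_inv.1 hu'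
    have h2 : algebraMap B Ω b * f r = 1 := by
      have := congrArg Subtype.val hy
      simpa [xA, ← hr] using this
    have h3 : f (algebraMap B (Localization.AtPrime 𝔭) b * r) = f 1 := by
      rw [map_mul, hf, h2, map_one]
    have h4 : algebraMap B (Localization.AtPrime 𝔭) b * r = 1 := hfinj h3
    have h5 : IsUnit (algebraMap B (Localization.AtPrime 𝔭) b) :=
      IsUnit.of_mul_eq_one _ h4
    have h6 := (IsLocalization.AtPrime.isUnit_to_map_iff (Localization.AtPrime 𝔭) 𝔭 b).1 h5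
    exact h6 hb

end Dominate

end Fermat.Agent.S18.H754

end

end
-- ===== PACK-END S18/H754/HncUnram.lean

-- ===== PACK-BEGIN S18/H754/HncMain.lean
section


/-!
# S18 / ALG-FRONT / hNC adapter, main theorem

`B` Noetherian normal domain inside a field `Ω`, `Lc ≤ Ω` a subfield of constants,
`π = lc * ∏_{c ∈ roots} (x - c)` in `Ω` with pairwise distinct `c ∈ Lc ∖ S`, `lc ∈ Lc ∖ {0}`.
Hypotheses:
* `hw`/`hLc`  : some `w ∈ B` lies in no height-one prime containing `π`, and every constant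
  becomes integral over `B` after multiplication by a power of `w` (so `Lc ⊆ O` for every
  valuation ring `O` of `Ω` dominating `B_𝔓`);
* `hunr`     : the `unramified` field of `Alg.GoodModel`, verbatim.
Conclusion: `(π)` is a radical ideal of `B`  (= hypothesis `hNC` of `B12.B2RegularStatement`).
-/

set_option autoImplicit false

noncomputable section

namespace Fermat.Agent.S18.H754

section Main

variable {B : Type*} [CommRing B] [IsDomain B] [IsNoetherianRing B] [IsIntegrallyClosed B]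
  {Ω : Type*} [Field Ω] [Algebra B Ω] [FaithfulSMul B Ω]

omit [IsDomain B] [IsNoetherianRing B] [IsIntegrallyClosed B] [FaithfulSMul B Ω] in
/-- elements integral over `B` lie in every valuation subring containing `B`. -/
theorem mem_valuationSubring_of_isIntegral (O : ValuationSubring Ω)
    (hB : ∀ b : B, algebraMap B Ω b ∈ O) {a : Ω} (ha : IsIntegral B a) : a ∈ O := by
  obtain ⟨P, hP, hPa⟩ := ha
  let g : B →+* O := (algebraMap B Ω).codRestrict O.toSubring hB
  have hint : IsIntegral O a := by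
    refine ⟨P.map g, hP.map g, ?_⟩
    rw [Polynomial.eval₂_map]
    exact hPa
  obtain ⟨y, hy⟩ := IsIntegrallyClosed.isIntegral_iff.1 hint
  rw [← hy]
  exact y.2

/-- **hNC adapter** (abstract form). -/
theorem isRadical_span_of_unramified (Lc : Subfield Ω) (π : B) (hπ : π ≠ 0)
    (w : B) (hw : ∀ 𝔓 : Ideal B, 𝔓.IsPrime → 𝔓.height = 1 → π ∈ 𝔓 → w ∉ 𝔓)
    (hLc : ∀ a ∈ Lc, ∃ n : ℕ, IsIntegral B (algebraMap B Ω w ^ n * a))
    (x : Ω) (S : Finset Ω) (roots : Finset Ω) (hroots : ∀ c ∈ roots, c ∈ Lc ∧ c ∉ S)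
    (lc : Ω) (hlc : lc ∈ Lc) (hlc0 : lc ≠ 0)
    (hfac : algebraMap B Ω π = lc * ∏ c ∈ roots, (x - c))
    (hunr : ∀ O : ValuationSubring Ω, (∀ a ∈ Lc, a ∈ O) → ∀ c ∈ Lc, c ∉ S →
        x - c ∈ O → (x - c)⁻¹ ∉ O → ∀ t ∈ O, t⁻¹ ∉ O → t * (x - c)⁻¹ ∈ O) :
    (Ideal.span {π}).IsRadical := by
  classical
  have hinj : Function.Injective (algebraMap B Ω) := FaithfulSMul.algebraMap_injective B Ω
  refine isRadical_span_singleton_of_local_gen π hπ ?_
  intro 𝔓 h𝔓 hht hπ𝔓 b hb𝔓
  haveI := h𝔓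
  by_cases hb0 : b = 0
  · refine ⟨1, ?_, ?_⟩
    · exact fun h1 => h𝔓.ne_top ((Ideal.eq_top_iff_one _).2 h1)
    · rw [hb0, mul_zero]; exact dvd_zero _
  obtain ⟨O, hBO, hunitO, hnonunitO⟩ := exists_valuationSubring_dominating (Ω := Ω) 𝔓
  set v := O.valuation with hv
  have hvle : ∀ y : Ω, v y ≤ 1 ↔ y ∈ O := fun y => O.valuation_le_one_iff y
  -- valuations of elements of `B`
  have hvB : ∀ b : B, v (algebraMap B Ω b) ≤ 1 := fun b => (hvle _).2 (hBO b)
  have hvunit : ∀ b : B, b ∉ 𝔓 → v (algebraMap B Ω b) = 1 := by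
    intro b hb
    have hb0 : algebraMap B Ω b ≠ 0 := by
      intro h0
      have : b = 0 := hinj (by rw [h0, map_zero])
      exact hb (this ▸ 𝔓.zero_mem)
    have h1 := (hvle _).2 (hunitO b hb)
    rw [map_inv₀] at h1
    have h2 := hvB b
    have hne : v (algebraMap B Ω b) ≠ 0 := (Valuation.ne_zero_iff v).2 hb0
    have h3 : 1 ≤ v (algebraMap B Ω b) := by
      rwa [inv_le_one₀ (zero_lt_iff.2 hne)] at h1
    exact le_antisymm h2 h3
  have hvlt : ∀ b : B, b ∈ 𝔓 → v (algebraMap B Ω b) < 1 := by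
    intro b hb
    by_cases hb0 : b = 0
    · rw [hb0, map_zero, map_zero]; exact zero_lt_one
    have hb0' : algebraMap B Ω b ≠ 0 := fun h0 => hb0 (hinj (by rw [h0, map_zero]))
    have h1 := hnonunitO b hb hb0
    rw [← hvle, map_inv₀, not_le] at h1
    have hne : v (algebraMap B Ω b) ≠ 0 := (Valuation.ne_zero_iff v).2 hb0'
    exact (one_lt_inv₀ (zero_lt_iff.2 hne)).1 h1
  -- constants lie in `O`
  have hLcO : ∀ a ∈ Lc, a ∈ O := by
    intro a ha
    obtain ⟨n, hn⟩ := hLc a ha
    have h1 : algebraMap B Ω w ^ n * a ∈ O := mem_valuationSubring_of_isIntegral O hBO hn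
    have hw𝔓 := hw 𝔓 h𝔓 hht hπ𝔓
    have h2 : v (algebraMap B Ω w ^ n * a) ≤ 1 := (hvle _).2 h1
    rw [map_mul, map_pow, hvunit w hw𝔓, one_pow, one_mul] at h2
    exact (hvle _).1 h2
  have hvLc : ∀ a ∈ Lc, a ≠ 0 → v a = 1 := by
    intro a ha ha0
    have h1 : v a ≤ 1 := (hvle _).2 (hLcO a ha)
    have h2 : v a⁻¹ ≤ 1 := (hvle _).2 (hLcO _ (Lc.inv_mem ha))
    rw [map_inv₀] at h2
    have hne : v a ≠ 0 := (Valuation.ne_zero_iff v).2 ha0
    have h3 : 1 ≤ v a := by rwa [inv_le_one₀ (zero_lt_iff.2 hne)] at h2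
    exact le_antisymm h1 h3
  -- the valuation of `π`
  have hπ0 : algebraMap B Ω π ≠ 0 := fun h0 => hπ (hinj (by rw [h0, map_zero]))
  have hvπ : v (algebraMap B Ω π) < 1 := hvlt π hπ𝔓
  have hprod : v (algebraMap B Ω π) = ∏ c ∈ roots, v (x - c) := by
    rw [hfac, map_mul, hvLc lc hlc hlc0, one_mul, map_prod]
  have hfactor0 : ∀ c ∈ roots, x - c ≠ 0 := by
    intro c hc h0
    apply hπ0
    rw [hfac, Finset.prod_eq_zero hc h0, mul_zero]
  -- `x ∈ O`
  have hxO : v x ≤ 1 := by
    by_contra hx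
    rw [not_le] at hx
    have h1 : ∀ c ∈ roots, 1 ≤ v (x - c) := by
      intro c hc
      have hcv : v c ≤ 1 := (hvle _).2 (hLcO c (hroots c hc).1)
      have : v (x - c) = v x := Valuation.map_sub_eq_of_lt_left v (lt_of_le_of_lt hcv hx)
      rw [this]
      exact hx.le
    have h2 : 1 ≤ ∏ c ∈ roots, v (x - c) := Finset.one_le_prod' h1
    rw [← hprod] at h2
    exact absurd hvπ (not_lt.2 h2)
  have hfle : ∀ c ∈ roots, v (x - c) ≤ 1 := by
    intro c hc
    have hcv : v c ≤ 1 := (hvle _).2 (hLcO c (hroots c hc).1)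
    exact (Valuation.map_sub v x c).trans (max_le hxO hcv)
  -- some factor is a non-unit
  have hex : ∃ c₀ ∈ roots, v (x - c₀) < 1 := by
    by_contra hcon
    have h1 : ∀ c ∈ roots, v (x - c) = 1 := by
      intro c hc
      by_contra hne
      exact hcon ⟨c, hc, lt_of_le_of_ne (hfle c hc) hne⟩
    rw [hprod, Finset.prod_eq_one h1] at hvπ
    exact lt_irrefl _ hvπ
  obtain ⟨c₀, hc₀, hvc₀⟩ := hex
  have hother : ∀ c ∈ roots.erase c₀, v (x - c) = 1 := by
    intro c hc
    rw [Finset.mem_erase] at hc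
    have h1 : x - c = (x - c₀) + (c₀ - c) := by ring
    have h2 : v (c₀ - c) = 1 :=
      hvLc _ (Lc.sub_mem (hroots c₀ hc₀).1 (hroots c hc.2).1) (sub_ne_zero.2 (Ne.symm hc.1))
    rw [h1, Valuation.map_add_eq_of_lt_right v (by rw [h2]; exact hvc₀), h2]
  have hvπ' : v (algebraMap B Ω π) = v (x - c₀) := by
    rw [hprod, ← Finset.mul_prod_erase roots _ hc₀, Finset.prod_eq_one hother, mul_one]
  -- apply `unramified`
  have hkey : ∀ t : Ω, t ≠ 0 → v t < 1 → v t ≤ v (algebraMap B Ω π) := by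
    intro t ht0 hvt
    have hc₀0 := hfactor0 c₀ hc₀
    have hne : v (x - c₀) ≠ 0 := (Valuation.ne_zero_iff v).2 hc₀0
    have hnet : v t ≠ 0 := (Valuation.ne_zero_iff v).2 ht0
    have h1 : (x - c₀)⁻¹ ∉ O := by
      rw [← hvle, map_inv₀, not_le]
      exact (one_lt_inv₀ (zero_lt_iff.2 hne)).2 hvc₀
    have h2 : t⁻¹ ∉ O := by
      rw [← hvle, map_inv₀, not_le]
      exact (one_lt_inv₀ (zero_lt_iff.2 hnet)).2 hvt
    have h3 := hunr O hLcO c₀ (hroots c₀ hc₀).1 (hroots c₀ hc₀).2
      ((hvle _).1 hvc₀.le) h1 t ((hvle _).1 hvt.le) h2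
    rw [← hvle, map_mul, map_inv₀] at h3
    rw [hvπ']
    rwa [← div_eq_mul_inv, div_le_one₀ (zero_lt_iff.2 hne)] at h3
  -- `B_𝔓` is a valuation ring
  have hb0' : algebraMap B Ω b ≠ 0 := fun h0 => hb0 (hinj (by rw [h0, map_zero]))
  obtain ⟨s, hs, hd | hd⟩ := exists_dvd_or_dvd_of_height_one 𝔓 hht b π
  · exact ⟨s, hs, hd⟩
  · obtain ⟨d, hd⟩ := hd
    -- `s π = b d`, so `v d = v π / v b ≥ 1`, so `d ∉ 𝔓`
    have h1 : v (algebraMap B Ω π) = v (algebraMap B Ω b) * v (algebraMap B Ω d) := by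
      have := congrArg (fun y => v (algebraMap B Ω y)) hd
      simp only [map_mul] at this
      rwa [hvunit s hs, one_mul] at this
    have h2 := hkey _ hb0' (hvlt b hb𝔓)
    have hd𝔓 : d ∉ 𝔓 := by
      intro hd𝔓
      have h3 := hvlt d hd𝔓
      have hnb : v (algebraMap B Ω b) ≠ 0 := (Valuation.ne_zero_iff v).2 hb0'
      have h4 : v (algebraMap B Ω b) * v (algebraMap B Ω d) < v (algebraMap B Ω b) * 1 :=
        mul_lt_mul_of_pos_left h3 (zero_lt_iff.2 hnb)
      rw [mul_one, ← h1] at h4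
      exact absurd h2 (not_le.2 h4)
    refine ⟨d, hd𝔓, s, ?_⟩
    rw [mul_comm d b, ← hd, mul_comm]

end Main

end Fermat.Agent.S18.H754

end

end
-- ===== PACK-END S18/H754/HncMain.lean

-- ===== PACK-BEGIN S18/H264/SepModular.lean
section



/-!
# S18 / G-SEP at the modular function field (helper264)

Prelude-level consequences of `SepLaurent.lean`, for a perfect field `k` of characteristic `p`
(no hypothesis on the level `N`, not even `NeZero N`):

* `order_jqModC` : `ord_q (j̄) = -1`;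
* `isSeparable_laurent_jqModC` : every `y ∈ k((q))` algebraic over `k(j̄)` is separable over it;
* `isSeparable_full` : every `y ∈ F_k = modularFunctionFieldFullC k N` algebraic over
  `k(j̄) ⊆ F_k` is separable over `k(j̄)`;
* `algebra_isSeparable_full` : if `F_k` is algebraic (e.g. finite: Sq05 `ModFiniteStatement`)
  over `k(j̄)`, then `F_k / k(j̄)` is separable;
* `exists_bivariate_simple_root_jqModC` : liftable form, `∃ P ∈ k[X][Y]`, `P(j̄, y) = 0`,
  `(∂P/∂Y)(j̄, y) ≠ 0`.
-/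

set_option autoImplicit false

noncomputable section

namespace Fermat.Agent.S18.H264

open ModularCurve IntermediateField Polynomial

section Order

variable (k : Type*) [Field k]

/-- The `q`-order of `j̄ = q⁻¹ + 744 + …` is `-1`. -/
theorem order_jqModC : (jqModC k).order = -1 := by
  have hne : jqModC k ≠ 0 := jqModC_ne_zero_of_nontrivial k
  apply le_antisymm
  · apply HahnSeries.order_le_of_coeff_ne_zero
    rw [coeff_jqModC_neg_one]
    exact one_ne_zero
  · rw [HahnSeries.le_order_iff_forall hne]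
    intro j hj
    exact coeff_jqModC_of_lt k hj

end Order

section Sep

variable (k : Type*) [Field k] [PerfectField k] (p : ℕ) [hp : Fact p.Prime] [CharP k p]

include hp in
/-- Every Laurent series algebraic over `k(j̄)` is separable over `k(j̄)`. -/
theorem isSeparable_laurent_jqModC (y : LaurentSeries k)
    (hy : IsAlgebraic (IntermediateField.adjoin k {jqModC k}) y) :
    IsSeparable (IntermediateField.adjoin k {jqModC k}) y :=
  isSeparable_laurent_of_order_eq_neg_one p (jqModC k) y (order_jqModC k) hy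

include hp in
/-- Liftable form: `∃ P ∈ k[X][Y]` with `P(j̄, y) = 0` and `(∂P/∂Y)(j̄, y) ≠ 0`. -/
theorem exists_bivariate_simple_root_jqModC (y : LaurentSeries k)
    (hy : IsAlgebraic (IntermediateField.adjoin k {jqModC k}) y) :
    ∃ P : Polynomial (Polynomial k),
      P.eval₂ (aeval (jqModC k) : Polynomial k →ₐ[k] LaurentSeries k).toRingHom y = 0 ∧
      (derivative P).eval₂
        (aeval (jqModC k) : Polynomial k →ₐ[k] LaurentSeries k).toRingHom y ≠ 0 :=
  exists_bivariate_simple_root (jqModC k) y (isSeparable_laurent_jqModC k p y hy)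

variable (N : ℕ)

include hp in
/-- Inside `F_k = modularFunctionFieldFullC k N`: every element algebraic over `k(j̄)` is
separable over `k(j̄)`.  (The element `⟨jqModC k, _⟩` is `Sq05.jC k N` unfolded.) -/
theorem isSeparable_full (y : modularFunctionFieldFullC k N)
    (hy : IsAlgebraic
      (IntermediateField.adjoin k
        {(⟨jqModC k, jqModC_mem_full k N⟩ : modularFunctionFieldFullC k N)}) y) :
    IsSeparable
      (IntermediateField.adjoin k
        {(⟨jqModC k, jqModC_mem_full k N⟩ : modularFunctionFieldFullC k N)}) y := by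
  refine isSeparable_of_isAlgebraic_of_addVal p
    ((HahnSeries.addVal ℤ k).comap (algebraMap (modularFunctionFieldFullC k N) (LaurentSeries k)))
    (⟨jqModC k, jqModC_mem_full k N⟩ : modularFunctionFieldFullC k N) (-1) ?_
    (not_prime_dvd_neg_one p hp.out) y hy
  have h : (HahnSeries.addVal ℤ k) (jqModC k) = (((jqModC k).order : ℤ) : WithTop ℤ) :=
    HahnSeries.addVal_apply_of_ne (jqModC_ne_zero_of_nontrivial k)
  rw [order_jqModC] at h
  exact h

include hp in
/-- If `F_k` is algebraic over `k(j̄)` (e.g. finite), then `F_k / k(j̄)` is separable. -/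
theorem algebra_isSeparable_full
    [Algebra.IsAlgebraic
      (IntermediateField.adjoin k
        {(⟨jqModC k, jqModC_mem_full k N⟩ : modularFunctionFieldFullC k N)})
      (modularFunctionFieldFullC k N)] :
    Algebra.IsSeparable
      (IntermediateField.adjoin k
        {(⟨jqModC k, jqModC_mem_full k N⟩ : modularFunctionFieldFullC k N)})
      (modularFunctionFieldFullC k N) :=
  ⟨fun y => isSeparable_full k p N y (Algebra.IsAlgebraic.isAlgebraic y)⟩

end Sep

end Fermat.Agent.S18.H264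

end
end
-- ===== PACK-END S18/H264/SepModular.lean

-- ===== PACK-BEGIN S20/Comb/RelIndex.lean
section





/-!
# Relative index of `Gamma0 (p * M)` in `Gamma0 M`

`(Gamma0 (p * M)).relIndex (Gamma0 M) = p` if `p ∣ M`, and `p + 1` otherwise (`p` prime, `M ≠ 0`).
-/

set_option autoImplicit false

namespace Fermat.Agent.S20.Comb

open Matrix MatrixGroups CongruenceSubgroup

lemma mem_Gamma0_iff_dvd (N : ℕ) (g : SL(2, ℤ)) : g ∈ Gamma0 N ↔ (N : ℤ) ∣ g 1 0 := by
  rw [Gamma0_mem]
  exact ZMod.intCast_zmod_eq_zero_iff_dvd _ _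

lemma Gamma0_mul_le (p M : ℕ) : Gamma0 (p * M) ≤ Gamma0 M := by
  intro g hg
  rw [mem_Gamma0_iff_dvd] at hg ⊢
  refine dvd_trans ?_ hg
  push_cast
  exact dvd_mul_left _ _

/-- The matrix `[[1, 0], [c, 1]]` in `SL(2,ℤ)`. -/
def lowRep (c : ℤ) : SL(2, ℤ) := ⟨!![1, 0; c, 1], by simp [Matrix.det_fin_two]⟩

@[simp] lemma lowRep_apply_zero_zero (c : ℤ) : lowRep c 0 0 = 1 := rfl
@[simp] lemma lowRep_apply_one_zero (c : ℤ) : lowRep c 1 0 = c := rfl

lemma lowRep_mem (M : ℕ) (t : ℤ) : lowRep ((M : ℤ) * t) ∈ Gamma0 M := by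
  rw [mem_Gamma0_iff_dvd, lowRep_apply_one_zero]
  exact dvd_mul_right _ _

/-- Coset criterion for `Gamma0 M ⧸ (Gamma0 (p * M)).subgroupOf (Gamma0 M)`. -/
lemma subMk_eq_iff (p M : ℕ) (hM : M ≠ 0) (g g' : Gamma0 M) (c₁ c₁' : ℤ)
    (hc : (g : SL(2, ℤ)) 1 0 = M * c₁) (hc' : (g' : SL(2, ℤ)) 1 0 = M * c₁') :
    (QuotientGroup.mk g : Gamma0 M ⧸ (Gamma0 (p * M)).subgroupOf (Gamma0 M))
        = QuotientGroup.mk g' ↔
      (p : ℤ) ∣ ((g : SL(2, ℤ)) 0 0 * c₁' - c₁ * (g' : SL(2, ℤ)) 0 0) := by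
  rw [QuotientGroup.eq, Subgroup.mem_subgroupOf, mem_Gamma0_iff_dvd]
  simp only [Subgroup.coe_mul, Subgroup.coe_inv, inv_mul_apply_one_zero, hc, hc']
  have h : (g : SL(2, ℤ)) 0 0 * ((M : ℤ) * c₁') - (M : ℤ) * c₁ * (g' : SL(2, ℤ)) 0 0
      = (M : ℤ) * ((g : SL(2, ℤ)) 0 0 * c₁' - c₁ * (g' : SL(2, ℤ)) 0 0) := by ring
  rw [h]
  push_cast
  rw [mul_comm (p : ℤ) (M : ℤ)]
  exact mul_dvd_mul_iff_left (by exact_mod_cast hM)

/-- For `g ∈ Gamma0 M` with `p ∣ M`, the entry `g 0 0` is nonzero mod `p`. -/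
lemma a_ne_zero_of_dvd (p M : ℕ) (hp : p.Prime) (h : p ∣ M) (g : Gamma0 M) :
    ¬ (p : ℤ) ∣ (g : SL(2, ℤ)) 0 0 := by
  intro ha
  have hg := (mem_Gamma0_iff_dvd M _).mp g.2
  have hpc : (p : ℤ) ∣ (g : SL(2, ℤ)) 1 0 := dvd_trans (by exact_mod_cast h) hg
  have hdet := (g : SL(2, ℤ)).det_coe
  rw [Matrix.det_fin_two] at hdet
  have h1 : (p : ℤ) ∣ 1 := by
    rw [← hdet]
    exact dvd_sub (dvd_mul_of_dvd_left ha _) (dvd_mul_of_dvd_right hpc _)
  have := Int.natCast_dvd_natCast.mp (by simpa using h1 : ((p : ℕ) : ℤ) ∣ ((1 : ℕ) : ℤ))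
  exact hp.one_lt.ne' (Nat.dvd_one.mp this)

/-- The coset representative attached to `t : ZMod p`. -/
noncomputable def relRep (p M : ℕ) (t : ZMod p) :
    Gamma0 M ⧸ (Gamma0 (p * M)).subgroupOf (Gamma0 M) :=
  QuotientGroup.mk ⟨lowRep ((M : ℤ) * (ZMod.cast t : ℤ)), lowRep_mem M _⟩

lemma relRep_injective (p M : ℕ) (hM : M ≠ 0) : Function.Injective (relRep p M) := by
  intro t t' h
  simp only [relRep] at h
  rw [subMk_eq_iff p M hM _ _ (ZMod.cast t : ℤ) (ZMod.cast t' : ℤ) rfl rfl] at h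
  simp only [lowRep_apply_zero_zero, _root_.one_mul, _root_.mul_one] at h
  have := (ZMod.intCast_zmod_eq_zero_iff_dvd _ p).mpr h
  push_cast at this
  exact (sub_eq_zero.mp this).symm

/-- Elements with `p ∤ a` are in the range of `relRep`. -/
lemma mem_range_relRep (p M : ℕ) (hM : M ≠ 0) (hp : p.Prime) (g : Gamma0 M)
    (ha : ¬ (p : ℤ) ∣ (g : SL(2, ℤ)) 0 0) :
    (QuotientGroup.mk g : Gamma0 M ⧸ (Gamma0 (p * M)).subgroupOf (Gamma0 M))
      ∈ Set.range (relRep p M) := by
  haveI : Fact p.Prime := ⟨hp⟩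
  obtain ⟨c₁, hc₁⟩ := (mem_Gamma0_iff_dvd M _).mp g.2
  have ha' : (((g : SL(2, ℤ)) 0 0 : ℤ) : ZMod p) ≠ 0 := by
    rwa [Ne, ZMod.intCast_zmod_eq_zero_iff_dvd]
  refine ⟨(c₁ : ZMod p) * (((g : SL(2, ℤ)) 0 0 : ℤ) : ZMod p)⁻¹, ?_⟩
  simp only [relRep]
  rw [subMk_eq_iff p M hM _ _ _ c₁ rfl hc₁]
  simp only [lowRep_apply_zero_zero, _root_.one_mul]
  rw [← ZMod.intCast_zmod_eq_zero_iff_dvd]
  push_cast
  rw [_root_.mul_assoc, inv_mul_cancel₀ ha', _root_.mul_one, sub_self]

/-- **Relative index, ramified case**: `[Γ₀(M) : Γ₀(pM)] = p` if `p ∣ M`. -/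
theorem relIndex_Gamma0_of_dvd (p M : ℕ) (hM : M ≠ 0) (hp : p.Prime) (h : p ∣ M) :
    (Gamma0 (p * M)).relIndex (Gamma0 M) = p := by
  have hbij : Function.Bijective (relRep p M) := by
    refine ⟨relRep_injective p M hM, ?_⟩
    intro q
    obtain ⟨g, rfl⟩ := QuotientGroup.mk_surjective q
    exact mem_range_relRep p M hM hp g (a_ne_zero_of_dvd p M hp h g)
  rw [Subgroup.relIndex, Subgroup.index, ← Nat.card_eq_of_bijective _ hbij, Nat.card_zmod]

/-- An element of `Gamma0 M` with first column `(p, M)`, for `p ∤ M`. -/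
lemma exists_special (p M : ℕ) (hp : p.Prime) (h : ¬ p ∣ M) :
    ∃ g : Gamma0 M, (g : SL(2, ℤ)) 0 0 = p ∧ (g : SL(2, ℤ)) 1 0 = M := by
  have hcop : IsCoprime (p : ℤ) (M : ℤ) := by
    rw [Int.isCoprime_iff_gcd_eq_one, Int.gcd_natCast_natCast]
    exact (Nat.Prime.coprime_iff_not_dvd hp).mpr h
  obtain ⟨g, hg0, hg1⟩ := IsCoprime.exists_SL2_col hcop 0
  refine ⟨⟨g, ?_⟩, hg0, hg1⟩
  rw [mem_Gamma0_iff_dvd, hg1]

/-- **Relative index, unramified case**: `[Γ₀(M) : Γ₀(pM)] = p + 1` if `p ∤ M`. -/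
theorem relIndex_Gamma0_of_not_dvd (p M : ℕ) (hM : M ≠ 0) (hp : p.Prime) (h : ¬ p ∣ M) :
    (Gamma0 (p * M)).relIndex (Gamma0 M) = p + 1 := by
  haveI : Fact p.Prime := ⟨hp⟩
  obtain ⟨g₀, hg₀0, hg₀1⟩ := exists_special p M hp h
  let f : Option (ZMod p) → Gamma0 M ⧸ (Gamma0 (p * M)).subgroupOf (Gamma0 M) :=
    fun o => o.elim (QuotientGroup.mk g₀) (relRep p M)
  have hne : ∀ t : ZMod p, relRep p M t ≠ QuotientGroup.mk g₀ := by
    intro t ht
    simp only [relRep] at ht
    rw [subMk_eq_iff p M hM _ _ (ZMod.cast t : ℤ) 1 rfl (by rw [hg₀1, _root_.mul_one])] at ht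
    simp only [lowRep_apply_zero_zero, _root_.one_mul, hg₀0] at ht
    have h1 : (p : ℤ) ∣ 1 := by
      have := dvd_add ht (dvd_mul_left (p : ℤ) (ZMod.cast t : ℤ))
      simpa using this
    have := Int.natCast_dvd_natCast.mp (by simpa using h1 : ((p : ℕ) : ℤ) ∣ ((1 : ℕ) : ℤ))
    exact hp.one_lt.ne' (Nat.dvd_one.mp this)
  have hbij : Function.Bijective f := by
    constructor
    · rintro (_ | t) (_ | t') hh
      · rfl
      · exact absurd hh.symm (hne t')
      · exact absurd hh (hne t)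
      · exact congrArg some (relRep_injective p M hM hh)
    · intro q
      obtain ⟨g, rfl⟩ := QuotientGroup.mk_surjective q
      by_cases ha : (p : ℤ) ∣ (g : SL(2, ℤ)) 0 0
      · refine ⟨none, ?_⟩
        obtain ⟨c₁, hc₁⟩ := (mem_Gamma0_iff_dvd M _).mp g.2
        show QuotientGroup.mk g₀ = _
        rw [subMk_eq_iff p M hM _ _ 1 c₁ (by rw [hg₀1, _root_.mul_one]) hc₁, hg₀0]
        exact dvd_sub (dvd_mul_right _ _) (by simpa using ha)
      · obtain ⟨t, ht⟩ := mem_range_relRep p M hM hp g ha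
        exact ⟨some t, ht⟩
  rw [Subgroup.relIndex, Subgroup.index, ← Nat.card_eq_of_bijective _ hbij, Finite.card_option,
    Nat.card_zmod]

end Fermat.Agent.S20.Comb

end
-- ===== PACK-END S20/Comb/RelIndex.lean

-- ===== PACK-BEGIN S20/Comb/Index.lean
section





/-!
# The index of `Gamma0 N` in `SL(2,ℤ)` is the Dedekind psi function

* `index_Gamma0 : (Gamma0 N).index = ModularCurve.dedekindPsi N` (all `N`, including `N = 0`)
* `card_quotient_Gamma0 : Nat.card (SL(2,ℤ) ⧸ Gamma0 N) = ModularCurve.dedekindPsi N`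
-/

set_option autoImplicit false

namespace Fermat.Agent.S20.Comb

open Matrix MatrixGroups CongruenceSubgroup

lemma dedekindPsi_prime_mul_of_dvd (p M : ℕ) (hp : p.Prime) (hM : M ≠ 0) (h : p ∣ M) :
    ModularCurve.dedekindPsi (p * M) = p * ModularCurve.dedekindPsi M := by
  unfold ModularCurve.dedekindPsi
  have hset : (p * M).divisors.filter Squarefree = M.divisors.filter Squarefree := by
    ext d
    simp only [Finset.mem_filter, Nat.mem_divisors]
    constructor
    · rintro ⟨⟨hd, -⟩, hsq⟩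
      refine ⟨⟨?_, hM⟩, hsq⟩
      by_cases hpd : p ∣ d
      · obtain ⟨d', rfl⟩ := hpd
        have hd' : d' ∣ M := (Nat.mul_dvd_mul_iff_left hp.pos).mp hd
        have hcop : Nat.Coprime p d' := by
          rw [Nat.Prime.coprime_iff_not_dvd hp]
          intro hpd'
          have h2 : p * p ∣ p * d' := Nat.mul_dvd_mul_left p hpd'
          have h3 := hsq p h2
          exact hp.one_lt.ne' (Nat.isUnit_iff.mp h3)
        exact Nat.Coprime.mul_dvd_of_dvd_of_dvd hcop h hd'
      · exact Nat.Coprime.dvd_of_dvd_mul_left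
          ((Nat.Prime.coprime_iff_not_dvd hp).mpr hpd).symm hd
    · rintro ⟨⟨hd, -⟩, hsq⟩
      exact ⟨⟨dvd_mul_of_dvd_right hd p, mul_ne_zero hp.ne_zero hM⟩, hsq⟩
  rw [hset, Finset.mul_sum]
  refine Finset.sum_congr rfl fun d hd => ?_
  have hd' : d ∣ M := (Nat.mem_divisors.mp (Finset.mem_filter.mp hd).1).1
  exact Nat.mul_div_assoc p hd'

lemma dedekindPsi_prime_mul_of_not_dvd (p M : ℕ) (hp : p.Prime) (hM : M ≠ 0) (h : ¬ p ∣ M) :
    ModularCurve.dedekindPsi (p * M) = (p + 1) * ModularCurve.dedekindPsi M := by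
  unfold ModularCurve.dedekindPsi
  rw [← Finset.sum_filter_add_sum_filter_not ((p * M).divisors.filter Squarefree) (fun d => p ∣ d)]
  have hset1 : ((p * M).divisors.filter Squarefree).filter (fun d => ¬ p ∣ d)
      = M.divisors.filter Squarefree := by
    ext d
    simp only [Finset.mem_filter, Nat.mem_divisors]
    constructor
    · rintro ⟨⟨⟨hd, -⟩, hsq⟩, hpd⟩
      exact ⟨⟨Nat.Coprime.dvd_of_dvd_mul_left
        ((Nat.Prime.coprime_iff_not_dvd hp).mpr hpd).symm hd, hM⟩, hsq⟩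
    · rintro ⟨⟨hd, -⟩, hsq⟩
      exact ⟨⟨⟨dvd_mul_of_dvd_right hd p, mul_ne_zero hp.ne_zero hM⟩, hsq⟩,
        fun hpd => h (dvd_trans hpd hd)⟩
  have hset2 : ((p * M).divisors.filter Squarefree).filter (fun d => p ∣ d)
      = (M.divisors.filter Squarefree).image (fun d => p * d) := by
    ext d
    simp only [Finset.mem_filter, Nat.mem_divisors, Finset.mem_image]
    constructor
    · rintro ⟨⟨⟨hd, -⟩, hsq⟩, ⟨d', rfl⟩⟩
      exact ⟨d', ⟨⟨(Nat.mul_dvd_mul_iff_left hp.pos).mp hd, hM⟩, hsq.of_mul_right⟩, rfl⟩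
    · rintro ⟨d', ⟨⟨hd', -⟩, hsq'⟩, rfl⟩
      have hcop : Nat.Coprime p d' :=
        (Nat.Prime.coprime_iff_not_dvd hp).mpr fun hpd => h (dvd_trans hpd hd')
      exact ⟨⟨⟨Nat.mul_dvd_mul_left p hd', mul_ne_zero hp.ne_zero hM⟩,
        (Nat.squarefree_mul hcop).mpr ⟨hp.prime.squarefree, hsq'⟩⟩, dvd_mul_right _ _⟩
  rw [hset1, hset2, Finset.sum_image (fun x _ y _ hxy => Nat.eq_of_mul_eq_mul_left hp.pos hxy),
    _root_.add_mul, _root_.one_mul, Finset.mul_sum, add_comm]
  congr 1
  · refine Finset.sum_congr rfl fun d hd => ?_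
    have hd' : d ∣ M := (Nat.mem_divisors.mp (Finset.mem_filter.mp hd).1).1
    exact Nat.mul_div_assoc p hd'
  · refine Finset.sum_congr rfl fun d hd => ?_
    exact Nat.mul_div_mul_left M d hp.pos

lemma Gamma0_one_eq_top : Gamma0 1 = ⊤ := by
  ext g
  simp only [Gamma0_mem, Subgroup.mem_top, iff_true]
  exact Subsingleton.elim _ _

lemma index_Gamma0_zero : (Gamma0 0).index = 0 := by
  rw [Subgroup.index]
  haveI : Infinite (SL(2, ℤ) ⧸ Gamma0 0) := by
    refine Infinite.of_injective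
      (fun t : ℤ => (QuotientGroup.mk (lowRep t) : SL(2, ℤ) ⧸ Gamma0 0)) ?_
    intro t t' h
    simp only at h
    rw [mk_eq_mk_iff] at h
    simp only [lowRep_apply_zero_zero, lowRep_apply_one_zero, Int.cast_one, _root_.one_mul,
      _root_.mul_one] at h
    have h' : ((t' - t : ℤ) : ZMod 0) = 0 := h
    have h'' := (ZMod.intCast_zmod_eq_zero_iff_dvd (t' - t) 0).mp h'
    simp only [Nat.cast_zero, zero_dvd_iff] at h''
    exact (sub_eq_zero.mp h'').symm
  exact Nat.card_eq_zero_of_infinite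

lemma dedekindPsi_zero : ModularCurve.dedekindPsi 0 = 0 := by
  simp [ModularCurve.dedekindPsi]

/-- **(I1)** The index of `Γ₀(N)` in `SL(2,ℤ)` is `ψ(N)` (for `N ≠ 0`). -/
theorem index_Gamma0_of_ne_zero (N : ℕ) (hN : N ≠ 0) :
    (Gamma0 N).index = ModularCurve.dedekindPsi N := by
  induction N using induction_on_primes with
  | zero => exact absurd rfl hN
  | one => rw [ModularCurve.dedekindPsi_one, Gamma0_one_eq_top, Subgroup.index_top]
  | prime_mul p M hp ih =>
    have hM : M ≠ 0 := fun h => hN (by rw [h, _root_.MulZeroClass.mul_zero])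
    rw [← Subgroup.relIndex_mul_index (Gamma0_mul_le p M), ih hM]
    by_cases h : p ∣ M
    · rw [relIndex_Gamma0_of_dvd p M hM hp h, dedekindPsi_prime_mul_of_dvd p M hp hM h]
    · rw [relIndex_Gamma0_of_not_dvd p M hM hp h, dedekindPsi_prime_mul_of_not_dvd p M hp hM h]

/-- **(I1)** The index of `Γ₀(N)` in `SL(2,ℤ)` is `ψ(N)` (all `N`; both sides are `0` for
`N = 0`). -/
theorem index_Gamma0 (N : ℕ) : (Gamma0 N).index = ModularCurve.dedekindPsi N := by
  rcases eq_or_ne N 0 with rfl | hN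
  · rw [index_Gamma0_zero, dedekindPsi_zero]
  · exact index_Gamma0_of_ne_zero N hN

/-- **(I1)** `#(SL(2,ℤ) ⧸ Γ₀(N)) = ψ(N)`. -/
theorem card_quotient_Gamma0 (N : ℕ) :
    Nat.card (SL(2, ℤ) ⧸ Gamma0 N) = ModularCurve.dedekindPsi N :=
  index_Gamma0 N

end Fermat.Agent.S20.Comb

end
-- ===== PACK-END S20/Comb/Index.lean

-- ===== PACK-BEGIN S18/H333/Forms.lean
section




/-!
# S18 / c3 (helper333): level-one forms on `Γ₀(p)` — restriction and `V_p`

* `restr p H` : a level-one modular form `H` viewed on `Γ₀(p)`;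
* `raise p H` : `τ ↦ H (p τ)` as a modular form on `Γ₀(p)`;
* `qExpansion_raise` : the `q`-expansion of `raise p H` is `Vser p (qExpansion H)`.
-/

set_option autoImplicit false
set_option linter.unusedSectionVars false

noncomputable section

namespace Fermat.Agent.S18.H333

open UpperHalfPlane ModularForm CongruenceSubgroup MatrixGroups Matrix.SpecialLinearGroup

variable (p : ℕ) [NeZero p]

theorem det_eq_one' (g : SL(2, ℤ)) : g 0 0 * g 1 1 - g 0 1 * g 1 0 = 1 := by
  have h := g.det_coe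
  rwa [Matrix.det_fin_two] at h

theorem diag_mul_mapGL (g : SL(2, ℤ)) (e : ℤ) (he : g 1 0 = p * e) :
    ∃ g' : SL(2, ℤ), heckeDiagMatrix p * mapGL ℝ g = mapGL ℝ g' * heckeDiagMatrix p := by
  have hp := NeZero.ne p
  have hdet := det_eq_one' g
  obtain ⟨g', hg'⟩ : ∃ g' : SL(2, ℤ),
      (g' : Matrix (Fin 2) (Fin 2) ℤ) = !![g 0 0, p * g 0 1; e, g 1 1] := by
    refine ⟨⟨!![g 0 0, p * g 0 1; e, g 1 1], ?_⟩, rfl⟩
    rw [Matrix.det_fin_two_of]
    linear_combination hdet + (g 0 1) * he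
  refine ⟨g', ?_⟩
  apply Units.ext
  rw [Units.val_mul, Units.val_mul, val_heckeDiagMatrix hp, mapGL_coe_matrix, mapGL_coe_matrix]
  have he' : ((g 1 0 : ℤ) : ℝ) = p * e := by exact_mod_cast he
  ext i j
  fin_cases i <;> fin_cases j <;>
    simp [Matrix.mul_apply, Fin.sum_univ_two, he', hg'] <;> ring

open ConjAct Pointwise in
theorem Gamma0_le_conj_diag :
    (Gamma0 p : Subgroup (GL (Fin 2) ℝ)) ≤
      toConjAct (heckeDiagMatrix p)⁻¹ • (𝒮ℒ : Subgroup (GL (Fin 2) ℝ)) := by
  rintro _ ⟨g, hg, rfl⟩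
  obtain ⟨e, he⟩ : (p : ℤ) ∣ g 1 0 := by
    have hg' : g ∈ Gamma0 p := hg
    rwa [CongruenceSubgroup.Gamma0_mem, ZMod.intCast_zmod_eq_zero_iff_dvd] at hg'
  obtain ⟨g', hg'⟩ := diag_mul_mapGL p g e he
  rw [Subgroup.mem_pointwise_smul_iff_inv_smul_mem, ← toConjAct_inv, inv_inv, toConjAct_smul, hg',
    mul_inv_cancel_right]
  exact ⟨g', rfl⟩

omit [NeZero p] in
theorem Gamma0_le_top : (Gamma0 p : Subgroup (GL (Fin 2) ℝ)) ≤ (𝒮ℒ : Subgroup (GL (Fin 2) ℝ)) := by
  rintro _ ⟨g, -, rfl⟩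
  exact ⟨g, rfl⟩

/-- `H ∣[k] diag(p,1)`, i.e. `τ ↦ p^(k-1) H(p τ)`, as a modular form on `Γ₀(p)`. -/
def raise0 {k : ℤ} (H : ModularForm 𝒮ℒ k) : ModularForm (Gamma0 p) k where
  toFun := (⇑H : ℍ → ℂ) ∣[k] heckeDiagMatrix p
  slash_action_eq' γ hγ :=
    (ModularForm.translate H (heckeDiagMatrix p)).slash_action_eq' γ
      (Gamma0_le_conj_diag p hγ)
  holo' := (ModularForm.translate H (heckeDiagMatrix p)).holo'
  bdd_at_cusps' hc :=
    (ModularForm.translate H (heckeDiagMatrix p)).bdd_at_cusps'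
      (hc.mono (Gamma0_le_conj_diag p))

/-- a level-one form viewed on `Γ₀(p)` -/
def restr {k : ℤ} (H : ModularForm 𝒮ℒ k) : ModularForm (Gamma0 p) k where
  toFun := (⇑H : ℍ → ℂ)
  slash_action_eq' γ hγ := H.slash_action_eq' γ (Gamma0_le_top p hγ)
  holo' := H.holo'
  bdd_at_cusps' hc := H.bdd_at_cusps' (hc.mono (Gamma0_le_top p))

@[simp] theorem coe_restr {k : ℤ} (H : ModularForm 𝒮ℒ k) : (⇑(restr p H) : ℍ → ℂ) = ⇑H := rfl

/-- `τ ↦ H(p τ)` as a modular form on `Γ₀(p)`. -/
def raise {k : ℤ} (H : ModularForm 𝒮ℒ k) : ModularForm (Gamma0 p) k :=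
  ((p : ℂ) ^ (1 - k)) • raise0 p H

theorem raise_apply {k : ℤ} (H : ModularForm 𝒮ℒ k) (τ : ℍ) :
    raise p H τ = H (heckeDiagMatrix p • τ) := by
  have hp' : (p : ℂ) ≠ 0 := by exact_mod_cast NeZero.ne p
  show ((p : ℂ) ^ (1 - k)) • ((⇑H : ℍ → ℂ) ∣[k] heckeDiagMatrix p) τ = _
  rw [slash_heckeDiagMatrix_apply k (NeZero.ne p), smul_eq_mul, ← mul_assoc, ← zpow_add₀ hp']
  simp

theorem one_mem_strictPeriods_Gamma0 :
    (1 : ℝ) ∈ (Gamma0 p : Subgroup (GL (Fin 2) ℝ)).strictPeriods := by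
  simp [CongruenceSubgroup.strictPeriods_Gamma0]

theorem one_mem_strictPeriods_top :
    (1 : ℝ) ∈ (𝒮ℒ : Subgroup (GL (Fin 2) ℝ)).strictPeriods := by
  simp

theorem qParam_diag (τ : ℍ) :
    Function.Periodic.qParam 1 ((heckeDiagMatrix p • τ : ℍ) : ℂ) =
      Function.Periodic.qParam 1 (τ : ℂ) ^ p := by
  rw [coe_heckeDiagMatrix_smul (NeZero.ne p), Function.Periodic.qParam,
    Function.Periodic.qParam, ← Complex.exp_nat_mul]
  congr 1
  push_cast
  ring

theorem qExpansion_raise {k : ℤ} (H : ModularForm 𝒮ℒ k) :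
    qExpansion 1 (raise p H) = Vser p (qExpansion 1 H) := by
  ext n
  symm
  refine ModularFormClass.qExpansion_coeff_unique (h := 1)
    (c := fun n => PowerSeries.coeff n (Vser p (qExpansion 1 H))) one_pos
    (one_mem_strictPeriods_Gamma0 p) (f := raise p H) (fun τ => ?_) n
  rw [raise_apply]
  have h1 := ModularForm.hasSum_qExpansion (f := H) one_pos one_mem_strictPeriods_top
    (heckeDiagMatrix p • τ)
  rw [qParam_diag] at h1
  have hinj : Function.Injective (fun m : ℕ => p * m) :=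
    fun a b hab => Nat.eq_of_mul_eq_mul_left (Nat.pos_of_ne_zero (NeZero.ne p)) hab
  refine (hinj.hasSum_iff ?_).mp ?_
  · intro n hn
    have : ¬ p ∣ n := fun ⟨m, hm⟩ => hn ⟨m, hm.symm⟩
    simp [this]
  · convert h1 using 2 with m
    simp only [Function.comp_apply, coeff_Vser, dvd_mul_right, if_true,
      Nat.mul_div_cancel_left m (Nat.pos_of_ne_zero (NeZero.ne p)), smul_eq_mul, pow_mul]

end Fermat.Agent.S18.H333

end
end
-- ===== PACK-END S18/H333/Forms.lean

-- ===== PACK-BEGIN S18/H845/ConstExtSub.lean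
section


/-!
# S18 / d1(c) in the language of `Alg/Spec.lean` (sub-objects of one field `Ω`)

`Ec ≤ Lc`, `Ec ≤ Fc` subfields of `Ω` (char 0), `Lc` algebraic over `Ec`, `Ω = Fc · Lc`.
Every discrete valuation ring `W` of `Fc` containing `Ec` is `O ∩ Fc` for a valuation subring `O`
of `Ω` containing `Lc`, in which a uniformiser of `W` is still a uniformiser.  Consequently a
divisibility statement `m ∣ ord_O(u)` at all `Lc`-places of `Ω` descends to all `Ec`-places of
`Fc`.
-/

set_option autoImplicit false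
set_option linter.unusedSectionVars false

namespace Fermat.Agent.S18.H845

section Sub

variable {Ω : Type*} [Field Ω] [CharZero Ω]

/-- **d1(c), sub-object form.** -/
theorem exists_valuationSubring_over (Lc Ec Fc : Subfield Ω) (E_le_F : Ec ≤ Fc)
    (L_algebraic : ∀ a ∈ Lc, IsAlgebraic Ec a)
    (compositum : Subfield.closure ((Fc : Set Ω) ∪ Lc) = ⊤)
    (W : ValuationSubring Fc) [IsDiscreteValuationRing W]
    (hEW : ∀ e : Fc, (e : Ω) ∈ Ec → e ∈ W) :
    ∃ O : ValuationSubring Ω, (∀ a ∈ Lc, a ∈ O) ∧ (∀ f : Fc, (f : Ω) ∈ O ↔ f ∈ W) ∧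
      IsDiscreteValuationRing O ∧
      (∀ π : W, Irreducible π → ∀ f : Ω, f ≠ 0 →
        ∃ k : ℤ, O.valuation f = O.valuation ((π : Fc) : Ω) ^ k) ∧
      ∀ π : W, Irreducible π → ((π : Fc) : Ω) ∈ O ∧ (((π : Fc) : Ω))⁻¹ ∉ O ∧
        ∀ t ∈ O, t⁻¹ ∉ O → t * (((π : Fc) : Ω))⁻¹ ∈ O := by
  let _ : Algebra Ec Fc := (Subfield.inclusion E_le_F).toAlgebra
  have : IsScalarTower Ec Fc Ω := IsScalarTower.of_algebraMap_eq (fun _ => rfl)
  have : CharZero Ec := ⟨fun a b h => by
    have h' := congrArg (Subtype.val : Ec → Ω) h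
    exact Nat.cast_injective (R := Ω) (by simpa using h')⟩
  have hEV : ∀ c : Ec, algebraMap Ec Fc c ∈ W := fun c => hEW _ c.2
  have hgen : IntermediateField.adjoin Fc {α : Ω | IsAlgebraic Ec α} = ⊤ := by
    rw [← IntermediateField.toSubfield_injective.eq_iff]
    show Subfield.closure (Set.range (algebraMap Fc Ω) ∪ {α : Ω | IsAlgebraic Ec α}) = ⊤
    rw [eq_top_iff, ← compositum]
    apply Subfield.closure_mono
    rintro x (hx | hx)
    · exact Or.inl ⟨⟨x, hx⟩, rfl⟩
    · exact Or.inr (L_algebraic x hx)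
  obtain ⟨O, hcomap, hdvr, hconst, hirr, hval⟩ :=
    exists_dvr_extension (E := Ec) (K := Fc) (L := Ω) W hEV hgen
  refine ⟨O, fun a ha => hconst a (L_algebraic a ha), ?_, hdvr, hval, ?_⟩
  · intro f
    rw [← hcomap]
    rfl
  · intro π hπ
    obtain ⟨hmem, hirrO⟩ := hirr π hπ
    have hπ0 : ((π : Fc) : Ω) ≠ 0 := by
      intro h
      apply hπ.ne_zero
      apply Subtype.ext
      apply Subtype.ext
      exact h
    have hlt : O.valuation ((π : Fc) : Ω) < 1 := by
      have h1 : ¬ IsUnit (⟨((π : Fc) : Ω), hmem⟩ : O) := hirrO.not_isUnit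
      rw [O.valuation_eq_one_iff] at h1
      exact lt_of_le_of_ne ((O.valuation_le_one_iff _).mpr hmem) h1
    have hpos : 0 < O.valuation ((π : Fc) : Ω) :=
      zero_lt_iff.mpr ((Valuation.ne_zero_iff _).mpr hπ0)
    refine ⟨hmem, ?_, ?_⟩
    · intro hinv
      have h1 : O.valuation (((π : Fc) : Ω))⁻¹ ≤ 1 := (O.valuation_le_one_iff _).mpr hinv
      rw [map_inv₀] at h1
      have h2 : 1 ≤ O.valuation ((π : Fc) : Ω) := by
        rwa [inv_le_one₀ hpos] at h1
      exact absurd hlt (not_lt.mpr h2)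
    · intro t ht htinv
      have ht0 : t ≠ 0 := by
        rintro rfl
        rw [inv_zero] at htinv
        exact htinv O.zero_mem
      obtain ⟨k, hk'⟩ := hval π hπ t ht0
      have hk : O.valuation t = O.valuation ((π : Fc) : Ω) ^ k := hk'
      have htlt : O.valuation t < 1 := by
        have h1 : O.valuation t ≤ 1 := (O.valuation_le_one_iff _).mpr ht
        refine lt_of_le_of_ne h1 ?_
        intro h1'
        apply htinv
        rw [← O.valuation_le_one_iff, map_inv₀, h1', inv_one]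
      rw [hk] at htlt
      have hk1 : 1 ≤ k := by
        have := (zpow_lt_one_iff_right_of_lt_one₀ hpos hlt).mp htlt
        omega
      rw [← O.valuation_le_one_iff, map_mul, map_inv₀, hk]
      have : O.valuation ((π : Fc) : Ω) ^ k * (O.valuation ((π : Fc) : Ω))⁻¹ =
          O.valuation ((π : Fc) : Ω) ^ (k - 1) := by
        rw [zpow_sub₀ hpos.ne', zpow_one, div_eq_mul_inv]
      rw [this]
      exact (zpow_le_one_iff_right_of_lt_one₀ hpos hlt).mpr (by omega)

/-- **Descent of divisibility.**  If `u ∈ Fc` has `m ∣ ord_O(u)` at every valuation subring `O`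
of `Ω` containing `Lc` (in the form used by `Alg.AlgMainStatement`), then `m ∣ ord_W(u)` at every
discrete valuation ring `W` of `Fc` containing `Ec`. -/
theorem exists_pow_unit_of_forall_over (Lc Ec Fc : Subfield Ω) (E_le_F : Ec ≤ Fc)
    (L_algebraic : ∀ a ∈ Lc, IsAlgebraic Ec a)
    (compositum : Subfield.closure ((Fc : Set Ω) ∪ Lc) = ⊤)
    {u : Fc} (hu : u ≠ 0) {m : ℕ}
    (hdiv : ∀ O : ValuationSubring Ω, (∀ a ∈ Lc, a ∈ O) →
      ∃ t : Ω, t ≠ 0 ∧ (u : Ω) * t ^ m ∈ O ∧ ((u : Ω) * t ^ m)⁻¹ ∈ O)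
    (W : ValuationSubring Fc) [IsDiscreteValuationRing W]
    (hEW : ∀ e : Fc, (e : Ω) ∈ Ec → e ∈ W) :
    ∃ s : Fc, s ≠ 0 ∧ u * s ^ m ∈ W ∧ (u * s ^ m)⁻¹ ∈ W := by
  obtain ⟨O, hL, hOW, _, hval, hunif⟩ :=
    exists_valuationSubring_over Lc Ec Fc E_le_F L_algebraic compositum W hEW
  obtain ⟨π, hπ⟩ := IsDiscreteValuationRing.exists_irreducible W
  obtain ⟨hπO, hπinv, _⟩ := hunif π hπ
  have hπ0 : ((π : Fc) : Ω) ≠ 0 := by
    rintro h
    rw [h, inv_zero] at hπinv
    exact hπinv O.zero_mem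
  have hπF0 : (π : Fc) ≠ 0 := fun h => hπ0 (by rw [h]; rfl)
  have hpos : 0 < O.valuation ((π : Fc) : Ω) :=
    zero_lt_iff.mpr ((Valuation.ne_zero_iff _).mpr hπ0)
  have hlt : O.valuation ((π : Fc) : Ω) < 1 := by
    refine lt_of_le_of_ne ((O.valuation_le_one_iff _).mpr hπO) ?_
    intro h1
    apply hπinv
    rw [← O.valuation_le_one_iff, map_inv₀, h1, inv_one]
  obtain ⟨t, ht0, ht1, ht2⟩ := hdiv O hL
  have hunit : O.valuation ((u : Ω) * t ^ m) = 1 := by
    have h1 : O.valuation ((u : Ω) * t ^ m) ≤ 1 := (O.valuation_le_one_iff _).mpr ht1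
    have h2 : O.valuation ((u : Ω) * t ^ m)⁻¹ ≤ 1 := (O.valuation_le_one_iff _).mpr ht2
    rw [map_inv₀] at h2
    have h0 : O.valuation ((u : Ω) * t ^ m) ≠ 0 := by
      rw [Valuation.ne_zero_iff]
      exact mul_ne_zero (fun h => hu (Subtype.ext h)) (pow_ne_zero m ht0)
    have h3 : 1 ≤ O.valuation ((u : Ω) * t ^ m) := by
      rwa [inv_le_one₀ (zero_lt_iff.mpr h0)] at h2
    exact le_antisymm h1 h3
  obtain ⟨k, hk⟩ := hval π hπ t ht0
  -- take `s = π ^ k`
  refine ⟨(π : Fc) ^ k, zpow_ne_zero k hπF0, ?_⟩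
  have hval1 : O.valuation (((u * ((π : Fc) ^ k) ^ m : Fc)) : Ω) = 1 := by
    have e : (((u * ((π : Fc) ^ k) ^ m : Fc)) : Ω) = (u : Ω) * (((π : Fc) : Ω) ^ k) ^ m := by
      push_cast
      rfl
    rw [e, map_mul, map_pow, map_zpow₀, ← hk, ← map_pow, ← map_mul]
    exact hunit
  constructor
  · rw [← hOW, ← O.valuation_le_one_iff]
    exact hval1.le
  · rw [← hOW, ← O.valuation_le_one_iff]
    have e : (((u * ((π : Fc) ^ k) ^ m)⁻¹ : Fc) : Ω) = ((((u * ((π : Fc) ^ k) ^ m : Fc)) : Ω))⁻¹ := by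
      push_cast
      rfl
    rw [e, map_inv₀, hval1, inv_one]

end Sub

end Fermat.Agent.S18.H845

end
-- ===== PACK-END S18/H845/ConstExtSub.lean

-- ===== PACK-BEGIN S18/H214/LocalExist.lean
section




/-!
# S18, route K, piece LE ("local existence"): the input `σ₀, σ₁` of the Kummer endgame

One chart (`exists_sigma`): `B` a noetherian integrally closed domain, `F = Frac B`, `ϖ ∈ B` prime,
special fibre regular (`H754.RegularAlong ϖ`, output of b2), `u ≡ 1 mod ϖ` (`H754.OneModPi`),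
`m ∣ div u` (`H754.DivisibleDivisor B m u`).  Then there is `σ ∈ F` with
`σ ^ m * u ∈ 1 + ϖ B` and `σ ∈ 1 + ϖ B_(ϖ)`.
-/

set_option autoImplicit false

namespace Fermat.Agent.S18.H214

open Fermat.Agent.S18.H754

section LocalRing

variable {B : Type*} [CommRing B] [IsDomain B]

/-- The image of a prime element `ϖ ∈ 𝔪` in the localisation at `𝔪` is prime. -/
theorem prime_algebraMap_atPrime (ϖ : B) (hϖ : Prime ϖ) (𝔪 : Ideal B) [𝔪.IsPrime]
    (hm : ϖ ∈ 𝔪) : Prime (algebraMap B (Localization.AtPrime 𝔪) ϖ) := by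
  have hinj : Function.Injective (algebraMap B (Localization.AtPrime 𝔪)) :=
    IsLocalization.injective (Localization.AtPrime 𝔪) 𝔪.primeCompl_le_nonZeroDivisors
  have h0 : algebraMap B (Localization.AtPrime 𝔪) ϖ ≠ 0 := by
    rw [Ne, ← map_zero (algebraMap B (Localization.AtPrime 𝔪))]
    exact fun h => hϖ.ne_zero (hinj h)
  rw [← Ideal.span_singleton_prime h0]
  have hp : (Ideal.span {ϖ}).IsPrime := (Ideal.span_singleton_prime hϖ.ne_zero).2 hϖ
  have hd : Disjoint (𝔪.primeCompl : Set B) (Ideal.span {ϖ} : Ideal B) := by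
    rw [Set.disjoint_left]
    intro x hx hx'
    exact hx ((Ideal.span_singleton_le_iff_mem 𝔪).2 hm hx')
  have := IsLocalization.isPrime_of_isPrime_disjoint 𝔪.primeCompl (Localization.AtPrime 𝔪)
    (Ideal.span {ϖ}) hp hd
  rwa [Ideal.map_span, Set.image_singleton] at this

/-- Divisibility by `ϖ` descends from the localisation at `𝔪 ∋ ϖ`. -/
theorem dvd_of_algebraMap_dvd_atPrime (ϖ : B) (hϖ : Prime ϖ) (𝔪 : Ideal B) [𝔪.IsPrime]
    (hm : ϖ ∈ 𝔪) (x : B)
    (h : algebraMap B (Localization.AtPrime 𝔪) ϖ ∣ algebraMap B (Localization.AtPrime 𝔪) x) :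
    ϖ ∣ x := by
  have hinj : Function.Injective (algebraMap B (Localization.AtPrime 𝔪)) :=
    IsLocalization.injective (Localization.AtPrime 𝔪) 𝔪.primeCompl_le_nonZeroDivisors
  obtain ⟨y, hy⟩ := h
  obtain ⟨b, r, rfl⟩ := IsLocalization.exists_mk'_eq 𝔪.primeCompl y
  have h1 : algebraMap B (Localization.AtPrime 𝔪) (x * r) =
      algebraMap B (Localization.AtPrime 𝔪) (ϖ * b) := by
    rw [map_mul, map_mul, hy, mul_assoc, IsLocalization.mk'_spec]
  have h2 : x * r = ϖ * b := hinj h1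
  have h3 : ϖ ∣ x * r := ⟨b, h2⟩
  rcases hϖ.dvd_or_dvd h3 with h4 | h4
  · exact h4
  · exact absurd (𝔪.mem_of_dvd h4 hm) r.2

/-- b2 output ⟹ the local ring of the special fibre at a closed point is a principal ideal ring
(a discrete valuation ring or a field). -/
theorem isPrincipalIdealRing_quotient_atPrime [IsNoetherianRing B] (ϖ : B) (hϖ : Prime ϖ)
    (hreg : RegularAlong ϖ) (𝔪 : Ideal B) [h𝔪 : 𝔪.IsMaximal] (hm : ϖ ∈ 𝔪) :
    IsPrincipalIdealRing (Localization.AtPrime 𝔪 ⧸
      Ideal.span {algebraMap B (Localization.AtPrime 𝔪) ϖ}) := by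
  set A := Localization.AtPrime 𝔪 with hA
  set ϖA := algebraMap B A ϖ with hϖA
  have hpr : Prime ϖA := prime_algebraMap_atPrime ϖ hϖ 𝔪 hm
  have hI : (Ideal.span {ϖA}).IsPrime := (Ideal.span_singleton_prime hpr.ne_zero).2 hpr
  have : IsLocalRing (A ⧸ Ideal.span {ϖA}) :=
    IsLocalRing.of_surjective' (Ideal.Quotient.mk (Ideal.span {ϖA})) Ideal.Quotient.mk_surjective
  obtain ⟨t, htm, ht⟩ := hreg 𝔪 h𝔪 hm
  have hϖmax : ϖA ∈ IsLocalRing.maximalIdeal A :=
    (IsLocalization.AtPrime.to_map_mem_maximal_iff A 𝔪 ϖ).2 hm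
  have htmax : algebraMap B A t ∈ IsLocalRing.maximalIdeal A :=
    (IsLocalization.AtPrime.to_map_mem_maximal_iff A 𝔪 t).2 htm
  -- the maximal ideal of the quotient is generated by the image of `t`
  have key : IsLocalRing.maximalIdeal (A ⧸ Ideal.span {ϖA}) =
      Ideal.span {Ideal.Quotient.mk (Ideal.span {ϖA}) (algebraMap B A t)} := by
    apply le_antisymm
    · intro x hx
      obtain ⟨y, rfl⟩ := Ideal.Quotient.mk_surjective x
      have hy : y ∈ IsLocalRing.maximalIdeal A := by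
        rw [IsLocalRing.mem_maximalIdeal, mem_nonunits_iff] at hx ⊢
        exact fun hu => hx (hu.map _)
      obtain ⟨b, r, rfl⟩ := IsLocalization.exists_mk'_eq 𝔪.primeCompl y
      rw [IsLocalization.AtPrime.mk'_mem_maximal_iff A 𝔪] at hy
      obtain ⟨s, hs, hsb⟩ := ht b hy
      obtain ⟨c₁, c₂, hc⟩ := Ideal.mem_span_pair.1 hsb
      have hsu : IsUnit (algebraMap B A s) :=
        (IsLocalization.AtPrime.isUnit_to_map_iff A 𝔪 s).2 hs
      have hru : IsUnit (algebraMap B A r) :=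
        (IsLocalization.AtPrime.isUnit_to_map_iff A 𝔪 r).2 r.2
      obtain ⟨su, hsu'⟩ := hsu
      obtain ⟨ru, hru'⟩ := hru
      have e1 : IsLocalization.mk' A b r * algebraMap B A r = algebraMap B A b :=
        IsLocalization.mk'_spec A b r
      have e2 : algebraMap B A s * algebraMap B A b =
          algebraMap B A c₁ * ϖA + algebraMap B A c₂ * algebraMap B A t := by
        rw [← map_mul, ← hc, map_add, map_mul, map_mul]
      have e3 : IsLocalization.mk' A b r =
          ((su⁻¹ * ru⁻¹ : Aˣ) : A) * algebraMap B A c₁ * ϖA +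
            ((su⁻¹ * ru⁻¹ : Aˣ) : A) * algebraMap B A c₂ * algebraMap B A t := by
        have : IsLocalization.mk' A b r * ((su * ru : Aˣ) : A) =
            algebraMap B A c₁ * ϖA + algebraMap B A c₂ * algebraMap B A t := by
          rw [Units.val_mul, hsu', hru', ← e2, ← e1]; ring
        calc IsLocalization.mk' A b r
            = IsLocalization.mk' A b r * ((su * ru : Aˣ) : A) * ((su⁻¹ * ru⁻¹ : Aˣ) : A) := by
              rw [mul_assoc, ← Units.val_mul]
              have : su * ru * (su⁻¹ * ru⁻¹) = 1 := by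
                rw [mul_comm su⁻¹, mul_assoc, ← mul_assoc ru, mul_inv_cancel, one_mul,
                  mul_inv_cancel]
              rw [this, Units.val_one, mul_one]
          _ = _ := by rw [this]; ring
      refine Ideal.mem_span_singleton'.2
        ⟨Ideal.Quotient.mk (Ideal.span {ϖA}) (((su⁻¹ * ru⁻¹ : Aˣ) : A) * algebraMap B A c₂), ?_⟩
      rw [← map_mul, Ideal.Quotient.eq, Ideal.mem_span_singleton]
      refine ⟨-(((su⁻¹ * ru⁻¹ : Aˣ) : A) * algebraMap B A c₁), ?_⟩
      rw [e3]; ring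
    · rw [Ideal.span_singleton_le_iff_mem, IsLocalRing.mem_maximalIdeal, mem_nonunits_iff]
      intro hu
      obtain ⟨e, he⟩ := hu.exists_right_inv
      obtain ⟨e', rfl⟩ := Ideal.Quotient.mk_surjective e
      have he' : algebraMap B A t * e' - 1 ∈ Ideal.span {ϖA} := by
        rw [← Ideal.Quotient.eq, map_mul, map_one]; exact he
      obtain ⟨d, hd⟩ := Ideal.mem_span_singleton.1 he'
      have h1 : (1 : A) = algebraMap B A t * e' - ϖA * d := by rw [← hd]; ring
      have h2 : (1 : A) ∈ IsLocalRing.maximalIdeal A := by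
        rw [h1]
        exact Ideal.sub_mem _ (Ideal.mul_mem_right _ _ htmax) (Ideal.mul_mem_right _ _ hϖmax)
      exact (Ideal.ne_top_iff_one _).1 (IsLocalRing.maximalIdeal.isMaximal A).ne_top h2
  have hprin : (IsLocalRing.maximalIdeal (A ⧸ Ideal.span {ϖA})).IsPrincipal := ⟨⟨_, key⟩⟩
  exact ((tfae_of_isNoetherianRing_of_isLocalRing_of_isDomain
    (R := A ⧸ Ideal.span {ϖA})).out 0 4).2 hprin

end LocalRing

section LocalData

variable {B : Type*} [CommRing B] [IsDomain B] [IsNoetherianRing B]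
  {F : Type*} [Field F] [Algebra B F] [IsFractionRing B F]

/-- **Local data at a closed point of the special fibre**, written without denominators in `B`:
`u = a / s = (b / r) · (t₁ / t₂) ^ m` with `r ∉ 𝔪`, `t₁ ≡ t₂ ≢ 0 mod ϖ`. -/
theorem exists_local_data (ϖ : B) (hϖ : Prime ϖ) (hreg : RegularAlong ϖ) (m : ℕ) (hm : m ≠ 0)
    (a s : B) (hs : ¬ ϖ ∣ s) (has : ϖ ∣ a - s)
    (u : F) (hu : u * algebraMap B F s = algebraMap B F a)
    (hdiv : DivisibleDivisor B m u)
    (𝔪 : Ideal B) [h𝔪 : 𝔪.IsMaximal] (hm𝔪 : ϖ ∈ 𝔪) :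
    ∃ t₁ t₂ b r : B, r ∉ 𝔪 ∧ ¬ ϖ ∣ t₁ ∧ ¬ ϖ ∣ t₂ ∧ ϖ ∣ t₁ - t₂ ∧
      a * t₂ ^ m * r = b * s * t₁ ^ m := by
  classical
  set A := Localization.AtPrime 𝔪 with hA
  set f := algebraMap B A with hf
  have hinj : Function.Injective f :=
    IsLocalization.injective A 𝔪.primeCompl_le_nonZeroDivisors
  have hinjF : Function.Injective (algebraMap B F) := IsFractionRing.injective B F
  have ha : ¬ ϖ ∣ a := by
    intro h
    apply hs
    have := dvd_sub h has
    rwa [sub_sub_cancel] at this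
  have hpr : Prime (f ϖ) := prime_algebraMap_atPrime ϖ hϖ 𝔪 hm𝔪
  have hI : (Ideal.span {f ϖ}).IsPrime := (Ideal.span_singleton_prime hpr.ne_zero).2 hpr
  have : IsPrincipalIdealRing (A ⧸ Ideal.span {f ϖ}) :=
    isPrincipalIdealRing_quotient_atPrime ϖ hϖ hreg 𝔪 hm𝔪
  have : UniqueFactorizationMonoid A :=
    ufd_of_quotient_isPrincipalIdealRing (f ϖ) hpr.ne_zero hpr.not_isUnit hI
  have hndvd : ∀ x : B, ¬ ϖ ∣ x → ¬ f ϖ ∣ f x := fun x hx h =>
    hx (dvd_of_algebraMap_dvd_atPrime ϖ hϖ 𝔪 hm𝔪 x h)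
  -- the hypothesis of `local_kummer_structure`
  have hloc : ∀ π : A, Prime π → ¬ Associated π (f ϖ) → ∃ a' s' z₁ z₂ : A, ¬ π ∣ a' ∧ ¬ π ∣ s' ∧
      z₁ ≠ 0 ∧ z₂ ≠ 0 ∧ f a * s' * z₂ ^ m = a' * f s * z₁ ^ m := by
    intro π hπ _
    have hπI : (Ideal.span {π}).IsPrime := (Ideal.span_singleton_prime hπ.ne_zero).2 hπ
    set 𝔭 : Ideal B := (Ideal.span {π}).under B with h𝔭
    have h𝔭prime : 𝔭.IsPrime := Ideal.IsPrime.under B (Ideal.span {π})
    have hht : 𝔭.height = 1 := by
      rw [h𝔭, IsLocalization.height_under 𝔪.primeCompl]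
      exact Ideal.height_span_singleton_eq_one_of_mem_nonZeroDivisors
        (mem_nonZeroDivisors_of_ne_zero hπ.ne_zero) hπ.not_isUnit
    obtain ⟨t, a', s', ha', hs', heq⟩ := hdiv 𝔭 h𝔭prime hht
    have hmem : ∀ x : B, x ∉ 𝔭 → ¬ π ∣ f x := by
      intro x hx hd
      apply hx
      rw [h𝔭, Ideal.under_def, Ideal.mem_comap, Ideal.mem_span_singleton]
      exact hd
    obtain ⟨n, d, hd, rfl⟩ := IsFractionRing.div_surjective B t
    have hd0 : d ≠ 0 := nonZeroDivisors.ne_zero hd
    have hdF : algebraMap B F d ≠ 0 := fun h => hd0 (hinjF (by rw [h, map_zero]))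
    have hs0 : s ≠ 0 := fun h => hs (h ▸ dvd_zero ϖ)
    have hsF : algebraMap B F s ≠ 0 := fun h => hs0 (hinjF (by rw [h, map_zero]))
    have ha'0 : a' ≠ 0 := fun h => ha' (h ▸ 𝔭.zero_mem)
    -- the identity in `B`
    have key : a * s' * n ^ m = a' * s * d ^ m := by
      apply hinjF
      simp only [map_mul, map_pow]
      have hu' : u = algebraMap B F a / algebraMap B F s := by
        rw [eq_div_iff hsF]; exact hu
      rw [hu', div_pow] at heq
      field_simp at heq
      linear_combination heq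
    have hn0 : n ≠ 0 := by
      rintro rfl
      rw [zero_pow hm, mul_zero] at key
      have := key.symm
      rcases mul_eq_zero.1 this with h | h
      · rcases mul_eq_zero.1 h with h | h
        · exact ha'0 h
        · exact hs0 h
      · exact hd0 (pow_eq_zero_iff hm |>.1 h)
    refine ⟨f a', f s', f d, f n, hmem a' ha', hmem s' hs', ?_, ?_, ?_⟩
    · exact fun h => hd0 (hinj (by rw [h, map_zero]))
    · exact fun h => hn0 (hinj (by rw [h, map_zero]))
    · rw [← map_pow, ← map_pow, ← map_mul, ← map_mul, ← map_mul, ← map_mul, key]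
  obtain ⟨c, t₁, t₂, ht₁, ht₂, ht₁₂, -, heq⟩ :=
    local_kummer_structure (f ϖ) hpr m hm (f a) (f s) (hndvd a ha) (hndvd s hs)
      (by rw [← map_sub]; exact map_dvd f has) hloc
  -- clear denominators
  obtain ⟨b₁, r₁, rfl⟩ := IsLocalization.exists_mk'_eq 𝔪.primeCompl t₁
  obtain ⟨b₂, r₂, rfl⟩ := IsLocalization.exists_mk'_eq 𝔪.primeCompl t₂
  obtain ⟨bc, rc, hc⟩ := IsLocalization.exists_mk'_eq 𝔪.primeCompl (c : A)
  have e₁ : f (b₁ * r₂) = IsLocalization.mk' A b₁ r₁ * (f r₁ * f r₂) := by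
    rw [map_mul, ← mul_assoc, IsLocalization.mk'_spec]
  have e₂ : f (b₂ * r₁) = IsLocalization.mk' A b₂ r₂ * (f r₁ * f r₂) := by
    rw [map_mul, mul_comm (f r₁), ← mul_assoc, IsLocalization.mk'_spec]
  have ec : (c : A) * f rc = f bc := by rw [← hc, IsLocalization.mk'_spec]
  have hr₁u : IsUnit (f r₁) := (IsLocalization.AtPrime.isUnit_to_map_iff A 𝔪 r₁).2 r₁.2
  have hr₂u : IsUnit (f r₂) := (IsLocalization.AtPrime.isUnit_to_map_iff A 𝔪 r₂).2 r₂.2
  have hru : IsUnit (f r₁ * f r₂) := hr₁u.mul hr₂u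
  refine ⟨b₁ * r₂, b₂ * r₁, bc, rc, rc.2, ?_, ?_, ?_, ?_⟩
  · intro h
    have h1 : f ϖ ∣ IsLocalization.mk' A b₁ r₁ * (f r₁ * f r₂) := by
      rw [← e₁]; exact map_dvd f h
    exact ht₁ ((hru.dvd_mul_right).1 h1)
  · intro h
    have h1 : f ϖ ∣ IsLocalization.mk' A b₂ r₂ * (f r₁ * f r₂) := by
      rw [← e₂]; exact map_dvd f h
    exact ht₂ ((hru.dvd_mul_right).1 h1)
  · apply dvd_of_algebraMap_dvd_atPrime ϖ hϖ 𝔪 hm𝔪
    rw [map_sub]
    show f ϖ ∣ f (b₁ * r₂) - f (b₂ * r₁)
    rw [e₁, e₂, ← sub_mul]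
    exact Dvd.dvd.mul_right ht₁₂ _
  · apply hinj
    rw [map_mul, map_mul, map_mul, map_mul, map_pow, map_pow, e₁, e₂, ← ec]
    have : f a * IsLocalization.mk' A b₂ r₂ ^ m =
        (c : A) * f s * IsLocalization.mk' A b₁ r₁ ^ m := heq
    rw [mul_pow, mul_pow]
    linear_combination (f r₁ * f r₂) ^ m * f rc * this

omit [IsNoetherianRing B] in
/-- Elements `σ` with `σ ^ m * u ∈ B` are closed under addition (`B` integrally closed). -/
theorem exists_add_pow_mul_eq [IsIntegrallyClosed B] (m : ℕ) (hm : m ≠ 0) (u σ₁ σ₂ : F)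
    (b₁ b₂ : B) (h₁ : σ₁ ^ m * u = algebraMap B F b₁) (h₂ : σ₂ ^ m * u = algebraMap B F b₂) :
    ∃ b : B, (σ₁ + σ₂) ^ m * u = algebraMap B F b := by
  classical
  have hterm : ∀ k ∈ Finset.range (m + 1), ∃ c : B,
      σ₁ ^ k * σ₂ ^ (m - k) * u = algebraMap B F c := by
    intro k hk
    have hk' : k ≤ m := Nat.lt_succ_iff.1 (Finset.mem_range.1 hk)
    have hpow : (σ₁ ^ k * σ₂ ^ (m - k) * u) ^ m = algebraMap B F (b₁ ^ k * b₂ ^ (m - k)) := by
      rw [map_mul, map_pow, map_pow, ← h₁, ← h₂]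
      have : u ^ m = u ^ k * u ^ (m - k) := by rw [← pow_add, Nat.add_sub_cancel' hk']
      rw [mul_pow, mul_pow, this]
      ring
    have hint : IsIntegral B (σ₁ ^ k * σ₂ ^ (m - k) * u) :=
      IsIntegral.of_pow (Nat.pos_of_ne_zero hm) (hpow ▸ isIntegral_algebraMap)
    obtain ⟨c, hc⟩ := IsIntegrallyClosed.isIntegral_iff.1 hint
    exact ⟨c, hc.symm⟩
  choose! c hc using hterm
  refine ⟨∑ k ∈ Finset.range (m + 1), c k * (m.choose k : B), ?_⟩
  rw [add_pow, Finset.sum_mul, map_sum]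
  refine Finset.sum_congr rfl fun k hk => ?_
  rw [map_mul, ← hc k hk, map_natCast]
  ring

/-- **LE, one chart.**  There is `σ ∈ F` with `σ ^ m * u ∈ 1 + ϖ B` and `σ ∈ 1 + ϖ B_(ϖ)`. -/
theorem exists_sigma [IsIntegrallyClosed B] (ϖ : B) (hϖ : Prime ϖ) (hreg : RegularAlong ϖ)
    (m : ℕ) (hm : m ≠ 0) (u : F) (hu : OneModPi ϖ u) (hdiv : DivisibleDivisor B m u) :
    ∃ σ : F, (∃ b : B, σ ^ m * u - 1 = algebraMap B F (ϖ * b)) ∧
      ∃ a' s' : B, ¬ ϖ ∣ s' ∧ (σ - 1) * algebraMap B F s' = algebraMap B F (ϖ * a') := by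
  classical
  obtain ⟨a, s, hs, has, hus⟩ := hu
  rw [Ideal.mem_span_singleton] at hs has
  have hinjF : Function.Injective (algebraMap B F) := IsFractionRing.injective B F
  have hs0 : s ≠ 0 := fun h => hs (h ▸ dvd_zero ϖ)
  have hsF : algebraMap B F s ≠ 0 := fun h => hs0 (hinjF (by rw [h, map_zero]))
  -- the ideal of "good" elements
  let Good : B → Prop := fun g => ∃ σ : F, (∃ b : B, σ ^ m * u = algebraMap B F b) ∧
    ∃ a' s' : B, ¬ ϖ ∣ s' ∧ (σ - algebraMap B F g) * algebraMap B F s' = algebraMap B F (ϖ * a')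
  let I : Ideal B :=
    { carrier := {g | Good g}
      zero_mem' := by
        refine ⟨0, ⟨0, by rw [zero_pow hm, zero_mul, map_zero]⟩, 0, 1, hϖ.not_dvd_one, ?_⟩
        simp
      add_mem' := by
        rintro g₁ g₂ ⟨σ₁, ⟨b₁, hb₁⟩, a₁, s₁, hs₁, e₁⟩ ⟨σ₂, ⟨b₂, hb₂⟩, a₂, s₂, hs₂, e₂⟩
        refine ⟨σ₁ + σ₂, exists_add_pow_mul_eq m hm u σ₁ σ₂ b₁ b₂ hb₁ hb₂,
          a₁ * s₂ + a₂ * s₁, s₁ * s₂, ?_, ?_⟩
        · exact fun h => (hϖ.dvd_or_dvd h).elim hs₁ hs₂
        · simp only [map_add, map_mul] at e₁ e₂ ⊢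
          linear_combination algebraMap B F s₂ * e₁ + algebraMap B F s₁ * e₂
      smul_mem' := by
        rintro c g ⟨σ, ⟨b, hb⟩, a', s', hs', e⟩
        refine ⟨algebraMap B F c * σ, ⟨c ^ m * b, ?_⟩, c * a', s', hs', ?_⟩
        · rw [mul_pow, mul_assoc, hb, map_mul, map_pow]
        · simp only [smul_eq_mul, map_mul] at e ⊢
          linear_combination algebraMap B F c * e }
  have hI : ∀ g : B, g ∈ I ↔ Good g := fun g => Iff.rfl
  -- `ϖ ∈ I`
  have hϖI : ϖ ∈ I := by
    obtain ⟨k, rfl⟩ : ∃ k, m = k + 1 := ⟨m - 1, by omega⟩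
    refine ⟨algebraMap B F (ϖ * s), ⟨ϖ ^ (k + 1) * s ^ k * a, ?_⟩, s - 1, 1, hϖ.not_dvd_one, ?_⟩
    · simp only [map_mul, map_pow]
      rw [← hus]; ring
    · simp only [map_mul, map_sub, map_one]; ring
  -- `I` is contained in no maximal ideal
  have htop : I = ⊤ := by
    by_contra hne
    obtain ⟨𝔪, h𝔪, hle⟩ := Ideal.exists_le_maximal I hne
    have hm𝔪 : ϖ ∈ 𝔪 := hle hϖI
    obtain ⟨t₁, t₂, b, r, hr, ht₁, ht₂, ⟨d, hd⟩, heq⟩ :=
      exists_local_data ϖ hϖ hreg m hm a s hs has u hus hdiv 𝔪 hm𝔪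
    apply hr
    apply hle
    have ht₁0 : t₁ ≠ 0 := fun h => ht₁ (h ▸ dvd_zero ϖ)
    have ht₁F : algebraMap B F t₁ ≠ 0 := fun h => ht₁0 (hinjF (by rw [h, map_zero]))
    obtain ⟨k, rfl⟩ : ∃ k, m = k + 1 := ⟨m - 1, by omega⟩
    refine ⟨algebraMap B F r * algebraMap B F t₂ / algebraMap B F t₁,
      ⟨r ^ k * b, ?_⟩, -(r * d), t₁, ht₁, ?_⟩
    · have hu' : u = algebraMap B F a / algebraMap B F s := by
        rw [eq_div_iff hsF]; exact hus
      have heqF := congrArg (algebraMap B F) heq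
      simp only [map_mul, map_pow] at heqF ⊢
      rw [hu', div_pow, div_mul_div_comm, div_eq_iff (mul_ne_zero (pow_ne_zero _ ht₁F) hsF)]
      linear_combination (algebraMap B F r) ^ k * heqF
    · have hdF := congrArg (algebraMap B F) hd
      simp only [map_mul, map_sub, map_neg] at hdF ⊢
      rw [sub_mul, div_mul_cancel₀ _ ht₁F]
      linear_combination (-(algebraMap B F r)) * hdF
  have h1 : (1 : B) ∈ I := by rw [htop]; exact Submodule.mem_top
  obtain ⟨σ, ⟨b, hb⟩, a', s', hs', e⟩ := h1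
  rw [map_one] at e
  refine ⟨σ, ?_, a', s', hs', e⟩
  -- `ϖ ∣ b - 1`
  obtain ⟨a'', ha''⟩ := has
  have key : b * s' ^ m * s = (s' + ϖ * a') ^ m * a := by
    apply hinjF
    simp only [map_mul, map_pow, map_add]
    rw [← hb, ← hus]
    have : algebraMap B F s' + algebraMap B F ϖ * algebraMap B F a' = σ * algebraMap B F s' := by
      rw [map_mul] at e
      linear_combination -e
    rw [this]; ring
  have hdvd1 : ϖ ∣ (s' + ϖ * a') ^ m - s' ^ m := by
    have := sub_dvd_pow_sub_pow (s' + ϖ * a') s' m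
    rw [add_sub_cancel_left] at this
    exact (Dvd.intro _ rfl).trans this
  have hdvd2 : ϖ ∣ (b - 1) * (s' ^ m * s) := by
    obtain ⟨e₁, he₁⟩ := hdvd1
    refine ⟨e₁ * a + s' ^ m * a'', ?_⟩
    linear_combination key + a * he₁ + s' ^ m * ha''
  have hdvd3 : ϖ ∣ b - 1 := by
    rcases hϖ.dvd_or_dvd hdvd2 with h | h
    · exact h
    · rcases hϖ.dvd_or_dvd h with h' | h'
      · exact absurd (hϖ.dvd_of_dvd_pow h') hs'
      · exact absurd h' hs
  obtain ⟨b', hb'⟩ := hdvd3
  refine ⟨b', ?_⟩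
  rw [hb, ← map_one (algebraMap B F), ← map_sub, hb']

end LocalData

section TwoCharts

variable {R : Type*} [CommRing R] {F : Type*} [Field F] [Algebra R F]

/-- In an `m`-root closed subalgebra, `{σ | σ ^ m * u ∈ M}` is closed under addition. -/
theorem add_pow_mul_mem_of_rootClosed (M : Subalgebra R F) (m : ℕ)
    (hrc : ∀ f : F, f ^ m ∈ M → f ∈ M) (u σ₁ σ₂ : F)
    (h₁ : σ₁ ^ m * u ∈ M) (h₂ : σ₂ ^ m * u ∈ M) : (σ₁ + σ₂) ^ m * u ∈ M := by
  classical
  rw [add_pow, Finset.sum_mul]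
  refine M.sum_mem fun k hk => ?_
  have hk' : k ≤ m := Nat.lt_succ_iff.1 (Finset.mem_range.1 hk)
  have hterm : σ₁ ^ k * σ₂ ^ (m - k) * u ∈ M := by
    apply hrc
    have : (σ₁ ^ k * σ₂ ^ (m - k) * u) ^ m = (σ₁ ^ m * u) ^ k * (σ₂ ^ m * u) ^ (m - k) := by
      have hu : u ^ m = u ^ k * u ^ (m - k) := by rw [← pow_add, Nat.add_sub_cancel' hk']
      rw [mul_pow, mul_pow, hu]
      ring
    rw [this]
    exact M.mul_mem (M.pow_mem h₁ _) (M.pow_mem h₂ _)
  have : σ₁ ^ k * σ₂ ^ (m - k) * (m.choose k : F) * u =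
      (m.choose k : F) * (σ₁ ^ k * σ₂ ^ (m - k) * u) := by ring
  rw [this]
  exact M.mul_mem (natCast_mem M _) hterm

/-- **LE, two charts**: exactly the input `σ₀, σ₁, h₀, h₁, h₀₁` of `H394.kummer_endgame`.

Hypotheses per chart `B ∈ {B₀, B₁}` (as a ring `↥B`): noetherian, integrally closed with fraction
field `F`, `w` prime, special fibre regular (b2), `u ≡ 1 mod w`, `m ∣ div u`.
On the overlap `M`: `m`-root closed, and saturated (`hsat`: an element `f` with `w f ∈ M` and
`s₀ s₁ f ∈ M` for some `sᵢ ∈ Bᵢ ∖ w Bᵢ` lies in `M`; this is the `q`-expansion principle on `M`). -/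
theorem local_existence (m : ℕ) (hm : m ≠ 0) (w : R) (u : F) (B₀ B₁ M : Subalgebra R F)
    (h0M : B₀ ≤ M) (h1M : B₁ ≤ M)
    [IsNoetherianRing B₀] [IsIntegrallyClosed B₀] [IsFractionRing B₀ F]
    [IsNoetherianRing B₁] [IsIntegrallyClosed B₁] [IsFractionRing B₁ F]
    (hw₀ : Prime (algebraMap R B₀ w)) (hw₁ : Prime (algebraMap R B₁ w))
    (hreg₀ : RegularAlong (algebraMap R B₀ w)) (hreg₁ : RegularAlong (algebraMap R B₁ w))
    (hu₀ : OneModPi (algebraMap R B₀ w) u) (hu₁ : OneModPi (algebraMap R B₁ w) u)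
    (hdiv₀ : DivisibleDivisor B₀ m u) (hdiv₁ : DivisibleDivisor B₁ m u)
    (hrcM : ∀ f : F, f ^ m ∈ M → f ∈ M)
    (hsat : ∀ f : F, ∀ s₀ : B₀, ¬ algebraMap R B₀ w ∣ s₀ → ∀ s₁ : B₁, ¬ algebraMap R B₁ w ∣ s₁ →
      (s₀ : F) * (s₁ : F) * f ∈ M → algebraMap R F w * f ∈ M → f ∈ M) :
    ∃ σ₀ σ₁ : F, (∃ b ∈ B₀, σ₀ ^ m * u - 1 = algebraMap R F w * b) ∧
      (∃ b ∈ B₁, σ₁ ^ m * u - 1 = algebraMap R F w * b) ∧
      ∃ γ : F, σ₀ - σ₁ = algebraMap R F w * γ ∧ γ ^ m * u ∈ M := by
  classical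
  obtain ⟨σ₀, ⟨b₀, hb₀⟩, a₀, s₀, hs₀, e₀⟩ := exists_sigma _ hw₀ hreg₀ m hm u hu₀ hdiv₀
  obtain ⟨σ₁, ⟨b₁, hb₁⟩, a₁, s₁, hs₁, e₁⟩ := exists_sigma _ hw₁ hreg₁ m hm u hu₁ hdiv₁
  obtain ⟨a, s, hs, -, hus⟩ := hu₀
  rw [Ideal.mem_span_singleton] at hs
  set W : F := algebraMap R F w with hW
  have hW0 : W ≠ 0 := by
    intro h
    apply hw₀.ne_zero
    apply Subtype.ext
    exact h
  have hc₀ : ∀ x : B₀, algebraMap B₀ F x = (x : F) := fun _ => rfl
  have hc₁ : ∀ x : B₁, algebraMap B₁ F x = (x : F) := fun _ => rfl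
  have hwc₀ : ((algebraMap R B₀ w : B₀) : F) = W := rfl
  have hwc₁ : ((algebraMap R B₁ w : B₁) : F) = W := rfl
  simp only [hc₀, Subalgebra.coe_mul, hwc₀] at hb₀ e₀ hus
  simp only [hc₁, Subalgebra.coe_mul, hwc₁] at hb₁ e₁
  refine ⟨σ₀, σ₁, ⟨b₀, b₀.2, hb₀⟩, ⟨b₁, b₁.2, hb₁⟩, (σ₀ - σ₁) / W, ?_, ?_⟩
  · rw [mul_div_cancel₀ _ hW0]
  -- `f := γ ^ m * u`
  set f : F := ((σ₀ - σ₁) / W) ^ m * u with hf
  -- (i) `W ^ m * f ∈ M`
  have hσ₀M : σ₀ ^ m * u ∈ M := by
    have : σ₀ ^ m * u = 1 + W * b₀ := by rw [← hb₀]; ring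
    rw [this]
    exact M.add_mem M.one_mem (M.mul_mem (M.algebraMap_mem w) (h0M b₀.2))
  have hσ₁M : σ₁ ^ m * u ∈ M := by
    have : σ₁ ^ m * u = 1 + W * b₁ := by rw [← hb₁]; ring
    rw [this]
    exact M.add_mem M.one_mem (M.mul_mem (M.algebraMap_mem w) (h1M b₁.2))
  have hnegM : (-σ₁) ^ m * u ∈ M := by
    rcases Nat.even_or_odd m with h | h
    · rwa [h.neg_pow]
    · rw [h.neg_pow, neg_mul]; exact M.neg_mem hσ₁M
  have hi : W ^ m * f ∈ M := by
    have h := add_pow_mul_mem_of_rootClosed M m hrcM u σ₀ (-σ₁) hσ₀M hnegM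
    have : W ^ m * f = (σ₀ + -σ₁) ^ m * u := by
      rw [hf, div_pow, ← sub_eq_add_neg]
      field_simp
    rw [this]; exact h
  -- (ii) `D * f ∈ M`
  set S₀ : B₀ := s₀ ^ m * s with hS₀
  set S₁ : B₁ := s₁ ^ m with hS₁
  have hS₀' : ¬ algebraMap R B₀ w ∣ S₀ := by
    intro h
    rcases hw₀.dvd_or_dvd h with h' | h'
    · exact hs₀ (hw₀.dvd_of_dvd_pow h')
    · exact hs h'
  have hS₁' : ¬ algebraMap R B₁ w ∣ S₁ := fun h => hs₁ (hw₁.dvd_of_dvd_pow h)
  have hii : (S₀ : F) * (S₁ : F) * f ∈ M := by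
    have hγ : (σ₀ - σ₁) / W * ((s₀ : F) * (s₁ : F)) = (a₀ : F) * s₁ - (a₁ : F) * s₀ := by
      field_simp
      linear_combination (s₁ : F) * e₀ - (s₀ : F) * e₁
    have hS₀c : (S₀ : F) = (s₀ : F) ^ m * (s : F) := by
      rw [hS₀, Subalgebra.coe_mul, Subalgebra.coe_pow]
    have hS₁c : (S₁ : F) = (s₁ : F) ^ m := by
      rw [hS₁, Subalgebra.coe_pow]
    have : (S₀ : F) * (S₁ : F) * f = ((a₀ : F) * s₁ - (a₁ : F) * s₀) ^ m * (a : F) := by
      rw [← hγ, ← hus, hf, hS₀c, hS₁c, mul_pow, mul_pow]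
      ring
    rw [this]
    exact M.mul_mem (M.pow_mem (M.sub_mem (M.mul_mem (h0M a₀.2) (h1M s₁.2))
      (M.mul_mem (h1M a₁.2) (h0M s₀.2))) _) (h0M a.2)
  -- (iii) descend
  have hdesc : ∀ k : ℕ, k ≤ m → W ^ (m - k) * f ∈ M := by
    intro k
    induction k with
    | zero => intro _; simpa using hi
    | succ k ih =>
      intro hk
      have h1 := ih (Nat.le_of_succ_le hk)
      apply hsat _ S₀ hS₀' S₁ hS₁'
      · have : (S₀ : F) * (S₁ : F) * (W ^ (m - (k + 1)) * f) =
            W ^ (m - (k + 1)) * ((S₀ : F) * (S₁ : F) * f) := by ring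
        rw [this]
        exact M.mul_mem (M.pow_mem (M.algebraMap_mem w) _) hii
      · have : W * (W ^ (m - (k + 1)) * f) = W ^ (m - k) * f := by
          rw [← mul_assoc, ← pow_succ']
          congr 2
          omega
        rw [this]; exact h1
  have := hdesc m le_rfl
  simpa using this

end TwoCharts

end Fermat.Agent.S18.H214

end
-- ===== PACK-END S18/H214/LocalExist.lean

-- ===== PACK-BEGIN S17/H380/AbsDef.lean
section




namespace Fermat.Agent.S17.H380

open NumberField Height Module IntermediateField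

section RingHom

variable {F F' : Type*} [Field F] [NumberField F] [Field F'] [NumberField F']
variable {ι : Type*} [_root_.Finite ι]

/-- The normalized logarithmic height is invariant under ring homomorphisms of number fields. -/
theorem normalized_logHeight_ringHom (τ : F →+* F') (y : ι → F) :
    (finrank ℚ F' : ℝ)⁻¹ * logHeight (fun i => τ (y i)) = (finrank ℚ F : ℝ)⁻¹ * logHeight y := by
  let _ := τ.toAlgebra
  have h1 : logHeight (fun i => τ (y i)) = finrank F F' * logHeight y :=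
    logHeight_algebraMap (K := F) (L := F') y
  have h2 : finrank ℚ F * finrank F F' = finrank ℚ F' := Module.finrank_mul_finrank ℚ F F'
  have hF : (0 : ℝ) < finrank ℚ F := by exact_mod_cast Module.finrank_pos
  have hF' : (0 : ℝ) < finrank ℚ F' := by exact_mod_cast Module.finrank_pos
  rw [h1, ← h2]
  push_cast
  have hFF' : (0 : ℝ) < finrank F F' := by
    have : (0:ℝ) < (finrank ℚ F : ℝ) * (finrank F F' : ℝ) := by
      rw [← Nat.cast_mul, h2]; exact hF'
    exact (mul_pos_iff_of_pos_left hF).mp this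
  field_simp

end RingHom


section Abs

variable {A : Type*} [Field A] [CharZero A] {ι : Type*}

/-- The subfield generated over `ℚ` by the entries of a tuple. -/
noncomputable def tupleField (x : ι → A) : IntermediateField ℚ A := adjoin ℚ (Set.range x)

/-- The tuple, viewed as a tuple of elements of the field generated by its entries. -/
noncomputable def tupleLift (x : ι → A) : ι → tupleField x :=
  fun i => ⟨x i, subset_adjoin ℚ (Set.range x) ⟨i, rfl⟩⟩

@[simp] theorem tupleLift_coe (x : ι → A) (i : ι) : ((tupleLift x i : tupleField x) : A) = x i := rfl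

variable [_root_.Finite ι]

theorem tupleField_finiteDimensional (x : ι → A) (hx : ∀ i, IsIntegral ℚ (x i)) :
    FiniteDimensional ℚ (tupleField x) :=
  IntermediateField.finiteDimensional_adjoin (by rintro _ ⟨i, rfl⟩; exact hx i)

theorem tupleField_numberField (x : ι → A) (hx : ∀ i, IsIntegral ℚ (x i)) :
    NumberField (tupleField x) :=
  haveI := tupleField_finiteDimensional x hx
  {}

open Classical in
/-- The **absolute logarithmic height** of a tuple of algebraic numbers (elements of a field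
of characteristic zero that are algebraic over `ℚ`; junk value `0` otherwise). -/
noncomputable def absLogHeight (x : ι → A) : ℝ :=
  if hx : ∀ i, IsIntegral ℚ (x i) then
    haveI := tupleField_numberField x hx
    (finrank ℚ (tupleField x) : ℝ)⁻¹ * logHeight (tupleLift x)
  else 0

theorem absLogHeight_def (x : ι → A) (hx : ∀ i, IsIntegral ℚ (x i)) :
    haveI := tupleField_numberField x hx
    absLogHeight x = (finrank ℚ (tupleField x) : ℝ)⁻¹ * logHeight (tupleLift x) := by
  unfold absLogHeight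
  rw [dif_pos hx]

/-- A section of an injective ring homomorphism on a subfield contained in its range. -/
noncomputable def sectionFun {F : Type*} [Field F] (σ : F →+* A) (K : IntermediateField ℚ A)
    (h : ∀ k ∈ K, ∃ a, σ a = k) (k : K) : F := Classical.choose (h k k.2)

theorem sectionFun_spec {F : Type*} [Field F] (σ : F →+* A) (K : IntermediateField ℚ A)
    (h : ∀ k ∈ K, ∃ a, σ a = k) (k : K) : σ (sectionFun σ K h k) = k :=
  Classical.choose_spec (h k k.2)

/-- A section of an injective ring homomorphism on a subfield contained in its range,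
as a ring homomorphism. -/
noncomputable def sectionHom {F : Type*} [Field F] (σ : F →+* A) (K : IntermediateField ℚ A)
    (h : ∀ k ∈ K, ∃ a, σ a = k) : K →+* F where
  toFun := sectionFun σ K h
  map_one' := σ.injective (by rw [sectionFun_spec]; simp)
  map_zero' := σ.injective (by rw [sectionFun_spec]; simp)
  map_mul' a b := σ.injective (by
    rw [map_mul, sectionFun_spec, sectionFun_spec, sectionFun_spec]; simp)
  map_add' a b := σ.injective (by
    rw [map_add, sectionFun_spec, sectionFun_spec, sectionFun_spec]; simp)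

theorem sectionHom_spec {F : Type*} [Field F] (σ : F →+* A) (K : IntermediateField ℚ A)
    (h : ∀ k ∈ K, ∃ a, σ a = k) (k : K) : σ (sectionHom σ K h k) = k :=
  sectionFun_spec σ K h k

theorem isIntegral_ringHom_apply {F : Type*} [Field F] [NumberField F] (σ : F →+* A) (a : F) :
    IsIntegral ℚ (σ a) :=
  (IsIntegral.of_finite ℚ a).map σ.toRatAlgHom

/-- **Well-definedness of the absolute height**: it can be computed in any number field
containing the entries of the tuple. -/
theorem absLogHeight_eq {F : Type*} [Field F] [NumberField F] (σ : F →+* A) (y : ι → F) :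
    absLogHeight (fun i => σ (y i)) = (finrank ℚ F : ℝ)⁻¹ * logHeight y := by
  set x : ι → A := fun i => σ (y i) with hxdef
  have hx : ∀ i, IsIntegral ℚ (x i) := fun i => isIntegral_ringHom_apply σ (y i)
  haveI := tupleField_numberField x hx
  rw [absLogHeight_def x hx]
  have hle : ∀ k ∈ tupleField x, ∃ a, σ a = k := by
    intro k hk
    have h1 : tupleField x ≤ σ.toRatAlgHom.fieldRange := by
      rw [tupleField, adjoin_le_iff]
      rintro _ ⟨i, rfl⟩
      exact ⟨y i, rfl⟩
    obtain ⟨a, ha⟩ := h1 hk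
    exact ⟨a, ha⟩
  let τ := sectionHom σ (tupleField x) hle
  have hτ : (fun i => τ (tupleLift x i)) = y := by
    funext i
    apply σ.injective
    rw [sectionHom_spec]
    rfl
  rw [← normalized_logHeight_ringHom τ (tupleLift x), hτ]

end Abs

end Fermat.Agent.S17.H380

end
-- ===== PACK-END S17/H380/AbsDef.lean

-- ===== PACK-BEGIN S17/H380/AbsBasic.lean
section


set_option linter.unusedSectionVars false
set_option linter.style.haveILetI false

namespace Fermat.Agent.S17.H380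

open NumberField Height Module IntermediateField

section Basic

variable {A : Type*} [Field A] [CharZero A] {ι : Type*} [_root_.Finite ι]

/-- The absolute height can be computed in any number subfield containing the entries. -/
theorem absLogHeight_of_mem (F : IntermediateField ℚ A) [NumberField F] (x : ι → A)
    (hx : ∀ i, x i ∈ F) :
    absLogHeight x = (finrank ℚ F : ℝ)⁻¹ * logHeight (fun i => (⟨x i, hx i⟩ : F)) :=
  absLogHeight_eq (algebraMap F A) (fun i => (⟨x i, hx i⟩ : F))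

theorem absLogHeight_nonneg (x : ι → A) : 0 ≤ absLogHeight x := by
  by_cases hx : ∀ i, IsIntegral ℚ (x i)
  · haveI := tupleField_numberField x hx
    rw [absLogHeight_def x hx]
    have h1 : (0 : ℝ) ≤ (finrank ℚ (tupleField x) : ℝ)⁻¹ := by positivity
    exact mul_nonneg h1 (logHeight_nonneg _)
  · unfold absLogHeight
    rw [dif_neg hx]

theorem absLogHeight_of_not_isIntegral (x : ι → A) (hx : ¬ ∀ i, IsIntegral ℚ (x i)) :
    absLogHeight x = 0 := by
  unfold absLogHeight
  rw [dif_neg hx]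

/-- The absolute height is invariant under ring homomorphisms (in particular under
field automorphisms: **Galois invariance**). -/
theorem absLogHeight_ringHom {B : Type*} [Field B] [CharZero B] (ρ : A →+* B) (x : ι → A) :
    absLogHeight (fun i => ρ (x i)) = absLogHeight x := by
  by_cases hx : ∀ i, IsIntegral ℚ (x i)
  · haveI := tupleField_numberField x hx
    rw [absLogHeight_def x hx]
    exact absLogHeight_eq (ρ.comp (algebraMap (tupleField x) A)) (tupleLift x)
  · rw [absLogHeight_of_not_isIntegral x hx, absLogHeight_of_not_isIntegral]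
    intro h
    apply hx
    intro i
    exact (isIntegral_algHom_iff ρ.toRatAlgHom ρ.injective).mp (h i)

theorem absLogHeight_zero : absLogHeight (0 : ι → A) = 0 := by
  have h := absLogHeight_eq (A := A) (algebraMap ℚ A) (0 : ι → ℚ)
  simp only [Pi.zero_apply, map_zero, logHeight_zero, mul_zero] at h
  exact h

/-- The absolute height is invariant under scaling by a nonzero algebraic number. -/
theorem absLogHeight_smul (x : ι → A) (hx : ∀ i, IsIntegral ℚ (x i)) {c : A} (hc : c ≠ 0)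
    (hci : IsIntegral ℚ c) : absLogHeight (c • x) = absLogHeight x := by
  -- a number field containing `c` and the `x i`
  let u : Option ι → A := fun o => Option.elim o c x
  have hu : ∀ o, IsIntegral ℚ (u o) := by
    rintro (_ | i)
    · exact hci
    · exact hx i
  haveI := tupleField_numberField u hu
  have hxm : ∀ i, x i ∈ tupleField u := fun i => subset_adjoin ℚ _ ⟨some i, rfl⟩
  have hcm : c ∈ tupleField u := subset_adjoin ℚ _ ⟨none, rfl⟩
  have hcx : ∀ i, (c • x) i ∈ tupleField u := fun i => by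
    simpa using (tupleField u).mul_mem hcm (hxm i)
  rw [absLogHeight_of_mem (tupleField u) x hxm, absLogHeight_of_mem (tupleField u) (c • x) hcx]
  congr 1
  have hc' : (⟨c, hcm⟩ : tupleField u) ≠ 0 := by
    intro h
    apply hc
    exact congrArg Subtype.val h
  rw [← logHeight_smul_eq_logHeight (fun i => (⟨x i, hxm i⟩ : tupleField u)) hc']
  congr 1

end Basic

end Fermat.Agent.S17.H380

end
-- ===== PACK-END S17/H380/AbsBasic.lean

-- ===== PACK-BEGIN S17/H740/MultiHomFun.lean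
section






/-!
# Functional multihomogeneity ⟹ formal multihomogeneity (over an infinite field)

* `coeff_aeval_scale` : coefficients of `q (c_s X_s)`;
* `isMultiHom_of_forall_eval` : if `q (c_{s.1} y_s) = (∏ l, c l ^ N) q (y)` for all points `y` and
  all scalings `c` of the slots (an infinite field), then every monomial of `q` has degree `N` in
  each slot (`IsMultiHom q fun _ => N`).
-/

set_option autoImplicit false

noncomputable section

namespace Fermat.Agent.S17.H740

open MvPolynomial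

section Scale

variable {K : Type*} [CommSemiring K] {σ : Type*}

theorem aeval_scale_monomial (c : σ → K) (e : σ →₀ ℕ) (a : K) :
    aeval (fun s => C (c s) * X s) (monomial e a) =
      monomial e ((e.prod fun s k => c s ^ k) * a) := by
  rw [aeval_monomial]
  simp only [Finsupp.prod, mul_pow, Finset.prod_mul_distrib, ← C_pow, ← map_prod]
  rw [algebraMap_eq, ← mul_assoc, ← C_mul, mul_comm a, monomial_eq (a := _ * a)]
  simp [Finsupp.prod]

theorem coeff_aeval_scale (c : σ → K) (q : MvPolynomial σ K) (e : σ →₀ ℕ) :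
    coeff e (aeval (fun s => C (c s) * X s) q) = (e.prod fun s k => c s ^ k) * coeff e q := by
  classical
  induction q using MvPolynomial.induction_on' with
  | monomial e' a =>
    rw [aeval_scale_monomial, coeff_monomial, coeff_monomial]
    split_ifs with h
    · rw [h]
    · rw [mul_zero]
  | add p q hp hq =>
    rw [map_add, coeff_add, coeff_add, hp, hq, mul_add]

theorem eval_aeval_scale (c : σ → K) (q : MvPolynomial σ K) (x : σ → K) :
    eval x (aeval (fun s => C (c s) * X s) q) = eval (fun s => c s * x s) q := by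
  induction q using MvPolynomial.induction_on with
  | C a => simp
  | add p q hp hq => rw [map_add, map_add, map_add, hp, hq]
  | mul_X p s hp => rw [map_mul, map_mul, map_mul, hp, aeval_X, eval_X, map_mul, eval_C, eval_X]

end Scale

section Pow

variable {K : Type*} [Field K] [Infinite K]

theorem eq_of_forall_pow_eq {m n : ℕ} (h : ∀ t : K, t ^ m = t ^ n) : m = n := by
  have h1 : (Polynomial.X ^ m : Polynomial K) = Polynomial.X ^ n :=
    Polynomial.funext (by simpa using h)
  simpa using congrArg Polynomial.natDegree h1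

end Pow

section Main

variable {K : Type*} [Field K] [Infinite K] {α : Type*} [Fintype α] [DecidableEq α]
variable {ι : α → Type*}

/-- **Functional multihomogeneity implies formal multihomogeneity** over an infinite field. -/
theorem isMultiHom_of_forall_eval {N : ℕ} (q : MvPolynomial (Σ a, ι a) K)
    (h : ∀ (y : (a : α) → ι a → K) (c : α → K),
      eval (fun s : Σ a, ι a => c s.1 * y s.1 s.2) q = (∏ l, c l ^ N) * eval (sigmaPt y) q) :
    IsMultiHom q (fun _ => N) := by
  classical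
  intro e he
  funext a
  rw [weight_slotW_apply]
  refine eq_of_forall_pow_eq (K := K) fun t => ?_
  set c : α → K := fun l => if l = a then t else 1 with hc
  have h1 : aeval (fun s : Σ a, ι a => C (c s.1) * X s) q = C (∏ l, c l ^ N) * q := by
    refine MvPolynomial.funext fun x => ?_
    rw [eval_aeval_scale, map_mul, eval_C]
    exact h (fun a i => x ⟨a, i⟩) c
  have h2 := congrArg (coeff e) h1
  rw [coeff_aeval_scale, coeff_C_mul] at h2
  have h3 := mul_right_cancel₀ he h2
  have h4 : (e.prod fun s k => c s.1 ^ k) =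
      t ^ ∑ s ∈ e.support, if s.1 = a then e s else 0 := by
    rw [Finsupp.prod, ← Finset.prod_pow_eq_pow_sum]
    refine Finset.prod_congr rfl fun s _ => ?_
    simp only [hc]
    split_ifs <;> simp
  have h5 : (∏ l, c l ^ N) = t ^ N := by
    simp only [hc, ite_pow, one_pow]
    rw [Finset.prod_ite_eq' Finset.univ a (fun _ => t ^ N)]
    simp
  rw [h4, h5] at h3
  exact h3

end Main

section Span

variable {k : Type*} [Field k] {ι : Type*}

attribute [local instance] MvPolynomial.gradedAlgebra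

/-- The ideal generated by homogeneous polynomials is closed under homogeneous components. -/
theorem homogeneousComponent_mem_span {rel : Set (MvPolynomial ι k)}
    (h : ∀ G ∈ rel, ∃ e : ℕ, G.IsHomogeneous e) {f : MvPolynomial ι k}
    (hf : f ∈ Ideal.span rel) (n : ℕ) : homogeneousComponent n f ∈ Ideal.span rel := by
  have hI : (Ideal.span rel).IsHomogeneous (homogeneousSubmodule ι k) :=
    Ideal.homogeneous_span _ _ (fun G hG => by
      obtain ⟨e, he⟩ := h G hG
      exact ⟨e, he⟩)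
  exact (mem_iff_homogeneousComponent_mem hI f).mp hf n

end Span

end Fermat.Agent.S17.H740

end
end
-- ===== PACK-END S17/H740/MultiHomFun.lean

-- ===== PACK-BEGIN S15/H62/FrobNilpotent.lean
section



/-!
# S15 / DESC piece D3b (helper62): Eichler–Shimura + Frobenius density ⟹ Eisenstein constituents

Abstract glue.  Let `W` be a finite `𝔽_r`-module with an action `ρ` of `G_ℚ` factoring through a
finite extension `E`, and commuting operators `T ℓ` ("Hecke operators") such that for `ℓ ∉ S`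

* `T ℓ - (1 + ℓ)` is nilpotent on `W`  (`W` is supported at the Eisenstein prime `(I, r)`),
* every Frobenius `τ` at `ℓ` satisfies `τ² - T_ℓ τ + ℓ = 0` on `W`  (Eichler–Shimura, row S37),
* `χ(τ) = ℓ`  (`χ` = mod `r` cyclotomic character).

Then, by the Frobenius density theorem (`Lib.Cheb`, Tier 1, on main), for **every** `σ ∈ G_ℚ` the
operator `(σ - 1)(σ - χ(σ))` is nilpotent on `W`; hence (`Constituents.exists_flag`) `W` has a
`G_ℚ`-stable full flag with graded pieces `ℤ/r` and `μ_r`.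
-/

set_option autoImplicit false

namespace Fermat.Agent.S15.H62

open Fermat.Agent.Lib.Cheb.Spec

section Algebra

variable {R : Type*} [Ring R]

/-- `Y` commutes with `∑ X^i C^(n-1-i)` if it commutes with `X` and `C`. -/
theorem commute_geom_sum₂ {Y X C : R} (hX : Commute Y X) (hC : Commute Y C) (n : ℕ) :
    Commute Y (∑ i ∈ Finset.range n, X ^ i * C ^ (n - 1 - i)) :=
  Commute.sum_right _ _ _ fun i _ => (hX.pow_right i).mul_right (hC.pow_right _)

/-- `Y` commutes with `∑ X^i` if it commutes with `X`. -/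
theorem commute_geom_sum {Y X : R} (hX : Commute Y X) (n : ℕ) :
    Commute Y (∑ i ∈ Finset.range n, X ^ i) :=
  Commute.sum_right _ _ _ fun i _ => hX.pow_right i

/-- Algebraic core: if `X² - ((1 + C) + ν) X + C = 0` with `C` central and `ν` nilpotent
commuting with `X`, then `(X^j - 1)(X^j - C^j)` is nilpotent for every `j`. -/
theorem isNilpotent_pow_sub_one_mul {X ν C : R} (hC : ∀ Y : R, Commute Y C)
    (hνX : Commute ν X) (hν : IsNilpotent ν)
    (hrel : X * X - ((1 + C) + ν) * X + C = 0) (j : ℕ) :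
    IsNilpotent ((X ^ j - 1) * (X ^ j - C ^ j)) := by
  have h1 : (X - 1) * (X - C) = ν * X := by
    have e1 : (X - 1) * (X - C) = X * X - ((1 + C) + ν) * X + C + ν * X := by
      have hXC : X * C = C * X := (hC X).eq
      simp only [sub_mul, mul_sub, add_mul, one_mul, hXC]
      abel
    rw [e1, hrel, zero_add]
  set P := ∑ i ∈ Finset.range j, X ^ i with hP
  set Q := ∑ i ∈ Finset.range j, X ^ i * C ^ (j - 1 - i) with hQ
  have hXj1 : X ^ j - 1 = (X - 1) * P := (mul_geom_sum X j).symm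
  have hXjC : X ^ j - C ^ j = (X - C) * Q := ((hC X).mul_geom_sum₂ j).symm
  have hXX : Commute X X := Commute.refl X
  have hPXC : Commute P (X - C) :=
    ((commute_geom_sum hXX j).symm).sub_right ((hC P))
  have e : (X ^ j - 1) * (X ^ j - C ^ j) = (ν * X) * (P * Q) := by
    rw [hXj1, hXjC, ← h1]
    calc (X - 1) * P * ((X - C) * Q) = (X - 1) * (P * (X - C)) * Q := by noncomm_ring
      _ = (X - 1) * ((X - C) * P) * Q := by rw [hPXC.eq]
      _ = (X - 1) * (X - C) * (P * Q) := by noncomm_ring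
  rw [e]
  have hνXnil : IsNilpotent (ν * X) := hνX.isNilpotent_mul_right hν
  have hcomm : Commute (ν * X) (P * Q) := by
    have hνP : Commute ν P := commute_geom_sum hνX j
    have hνQ : Commute ν Q := commute_geom_sum₂ hνX (hC ν) j
    have hXP : Commute X P := commute_geom_sum hXX j
    have hXQ : Commute X Q := commute_geom_sum₂ hXX (hC X) j
    exact (hνP.mul_right hνQ).mul_left (hXP.mul_right hXQ)
  exact hcomm.isNilpotent_mul_right hνXnil

end Algebra

section Galois

variable {r : ℕ} [Fact r.Prime] {W : Type*} [AddCommGroup W] [Module (ZMod r) W]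

/-- **D3b.**  Eichler–Shimura relations at Frobenius elements + Frobenius density theorem ⟹ for
every `σ ∈ G_ℚ` the operator `(σ - 1)(σ - χ(σ))` is nilpotent on `W`. -/
theorem isNilpotent_eisOp_of_frobenius
    (ρ : Representation (ZMod r) GQ W) (χ : GQ →* (ZMod r)ˣ)
    (E : IntermediateField ℚ Qb) (hE : FiniteDimensional ℚ E)
    (hρE : ∀ σ τ : GQ, (∀ x ∈ E, σ x = τ x) → ρ σ = ρ τ)
    (hχE : ∀ σ τ : GQ, (∀ x ∈ E, σ x = τ x) → χ σ = χ τ)
    (S : Finset ℕ) (T : ℕ → Module.End (ZMod r) W)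
    (hTcomm : ∀ ℓ : ℕ, ℓ.Prime → ℓ ∉ S → ∀ σ : GQ, Commute (T ℓ) (ρ σ))
    (hTnil : ∀ ℓ : ℕ, ℓ.Prime → ℓ ∉ S →
      IsNilpotent (T ℓ - (1 + algebraMap (ZMod r) (Module.End (ZMod r) W) (ℓ : ZMod r))))
    (hES : ∀ ℓ : ℕ, ℓ.Prime → ℓ ∉ S → ∀ A : ValuationSubring Qb, A.LiesOverPrime ℓ →
      ∀ τ : GQ, A.IsFrobeniusAt τ ℓ →
        ρ τ * ρ τ - T ℓ * ρ τ + algebraMap (ZMod r) (Module.End (ZMod r) W) (ℓ : ZMod r) = 0)
    (hχF : ∀ ℓ : ℕ, ℓ.Prime → ℓ ∉ S → ∀ A : ValuationSubring Qb, A.LiesOverPrime ℓ →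
      ∀ τ : GQ, A.IsFrobeniusAt τ ℓ → ((χ τ : (ZMod r)ˣ) : ZMod r) = (ℓ : ZMod r))
    (hcheb : FrobeniusDivisionStatement) (σ : GQ) :
    IsNilpotent (eisOp ρ χ σ) := by
  obtain ⟨ℓ, A, τ, k, j, hℓ, hℓS, hA, hτ, -, -, hj⟩ := hcheb E hE σ S
  have hρ : ρ σ = ρ τ ^ j := by
    rw [← map_pow]
    exact hρE σ (τ ^ j) fun x hx => (hj x hx).symm
  have hχ : χ σ = χ τ ^ j := by
    rw [← map_pow]
    exact hχE σ (τ ^ j) fun x hx => (hj x hx).symm
  set C : Module.End (ZMod r) W := algebraMap (ZMod r) (Module.End (ZMod r) W) (ℓ : ZMod r)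
    with hCdef
  have hC : ∀ Y : Module.End (ZMod r) W, Commute Y C := fun Y =>
    (Algebra.commutes (ℓ : ZMod r) Y).symm
  have hrel : ρ τ * ρ τ - ((1 + C) + (T ℓ - (1 + C))) * ρ τ + C = 0 := by
    rw [add_sub_cancel]
    exact hES ℓ hℓ hℓS A hA τ hτ
  have hνX : Commute (T ℓ - (1 + C)) (ρ τ) :=
    (hTcomm ℓ hℓ hℓS τ).sub_left (((Commute.one_left _).add_left (hC (ρ τ)).symm))
  have := isNilpotent_pow_sub_one_mul hC hνX (hTnil ℓ hℓ hℓS) hrel j
  have hval : algebraMap (ZMod r) (Module.End (ZMod r) W) ((χ σ : (ZMod r)ˣ) : ZMod r) = C ^ j := by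
    rw [hχ, Units.val_pow_eq_pow_val, map_pow, hχF ℓ hℓ hℓS A hA τ hτ]
  rw [eisOp, hρ, hval]
  exact this

/-- **D3 (abstract form).**  Under the hypotheses of `isNilpotent_eisOp_of_frobenius`, the finite
Galois module `W` has a `G_ℚ`-stable full flag with graded pieces of type `𝟙` (`ℤ/r`) or `χ`
(`μ_r`). -/
theorem exists_flag_of_frobenius [Finite W]
    (ρ : Representation (ZMod r) GQ W) (χ : GQ →* (ZMod r)ˣ)
    (E : IntermediateField ℚ Qb) (hE : FiniteDimensional ℚ E)
    (hρE : ∀ σ τ : GQ, (∀ x ∈ E, σ x = τ x) → ρ σ = ρ τ)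
    (hχE : ∀ σ τ : GQ, (∀ x ∈ E, σ x = τ x) → χ σ = χ τ)
    (S : Finset ℕ) (T : ℕ → Module.End (ZMod r) W)
    (hTcomm : ∀ ℓ : ℕ, ℓ.Prime → ℓ ∉ S → ∀ σ : GQ, Commute (T ℓ) (ρ σ))
    (hTnil : ∀ ℓ : ℕ, ℓ.Prime → ℓ ∉ S →
      IsNilpotent (T ℓ - (1 + algebraMap (ZMod r) (Module.End (ZMod r) W) (ℓ : ZMod r))))
    (hES : ∀ ℓ : ℕ, ℓ.Prime → ℓ ∉ S → ∀ A : ValuationSubring Qb, A.LiesOverPrime ℓ →
      ∀ τ : GQ, A.IsFrobeniusAt τ ℓ →
        ρ τ * ρ τ - T ℓ * ρ τ + algebraMap (ZMod r) (Module.End (ZMod r) W) (ℓ : ZMod r) = 0)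
    (hχF : ∀ ℓ : ℕ, ℓ.Prime → ℓ ∉ S → ∀ A : ValuationSubring Qb, A.LiesOverPrime ℓ →
      ∀ τ : GQ, A.IsFrobeniusAt τ ℓ → ((χ τ : (ZMod r)ˣ) : ZMod r) = (ℓ : ZMod r))
    (hcheb : FrobeniusDivisionStatement) :
    HasFlagFrom ρ χ ⊥ :=
  exists_flag ρ χ fun σ =>
    isNilpotent_eisOp_of_frobenius ρ χ E hE hρE hχE S T hTcomm hTnil hES hχF hcheb σ

end Galois

end Fermat.Agent.S15.H62

end
-- ===== PACK-END S15/H62/FrobNilpotent.lean

-- ===== PACK-BEGIN Lib/Cheb/H761/ZetaEuler.lean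
section


/-!
# Euler product and prime-ideal sum for the Dedekind zeta function

For a number field `K` and real `s > 1`:
* `zetaI K s = ∑_I N(I)^(-s)` (sum over all ideals; the zero ideal contributes `0`), equal to
  Mathlib's `dedekindZeta K s`;
* `tendsto_prod_zetaI` : `∏_{𝔭 ∈ T} (1 - N𝔭^(-s)) → (zetaI K s)⁻¹`;
* `primeSum K s = ∑_𝔭 N𝔭^(-s)` and `primeSum K s ≤ log (zetaI K s) ≤ primeSum K s + 2 primeSum K (2 s)`;
* `exists_primeSum_bound` : `|primeSum K s - log (1 / (s - 1))| ≤ C` for `1 < s ≤ 2`.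
-/

set_option autoImplicit false

namespace Fermat.Agent.Lib.Cheb.H761

open IsDedekindDomain Filter Topology NumberField Ideal Asymptotics

set_option linter.unusedSectionVars false
set_option linter.unusedVariables false

noncomputable section

variable (K : Type*) [Field K] [NumberField K]

/-- `N(I)^(-s)` -/
def normPow (s : ℝ) (I : Ideal (𝓞 K)) : ℝ := (absNorm I : ℝ) ^ (-s)

lemma normPow_nonneg (s : ℝ) (I : Ideal (𝓞 K)) : 0 ≤ normPow K s I :=
  Real.rpow_nonneg (Nat.cast_nonneg _) _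

lemma normPow_mul (s : ℝ) (I J : Ideal (𝓞 K)) :
    normPow K s (I * J) = normPow K s I * normPow K s J := by
  simp only [normPow, map_mul, Nat.cast_mul]
  exact Real.mul_rpow (Nat.cast_nonneg _) (Nat.cast_nonneg _)

lemma normPow_top (s : ℝ) : normPow K s ⊤ = 1 := by
  simp [normPow]

lemma normPow_bot {s : ℝ} (hs : s ≠ 0) : normPow K s ⊥ = 0 := by
  simp [normPow, Real.zero_rpow (neg_ne_zero.mpr hs)]

/-- number of ideals of norm `n` -/
def idealCount (n : ℕ) : ℕ := Nat.card {I : Ideal (𝓞 K) // absNorm I = n}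

/-- The sum of `N(I)^(-s)` over all ideals of norm `n`. -/
lemma tsum_fiber (s : ℝ) (n : ℕ) :
    ∑' I : {I : Ideal (𝓞 K) // absNorm I = n}, normPow K s I.1 =
      (idealCount K n : ℝ) * (n : ℝ) ^ (-s) := by
  have hfin : Finite {I : Ideal (𝓞 K) // absNorm I = n} :=
    (Ideal.finite_setOfPred_absNorm_eq n).to_subtype
  have : Fintype {I : Ideal (𝓞 K) // absNorm I = n} := Fintype.ofFinite _
  rw [tsum_fintype]
  have : ∀ I : {I : Ideal (𝓞 K) // absNorm I = n}, normPow K s I.1 = (n : ℝ) ^ (-s) := by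
    intro I
    simp only [normPow, I.2]
  simp only [this, Finset.sum_const, Finset.card_univ, nsmul_eq_mul, idealCount,
    Nat.card_eq_fintype_card]

lemma tendsto_sum_idealCount_div :
    Tendsto (fun n : ℕ ↦ (∑ k ∈ Finset.Icc 1 n, (idealCount K k : ℝ)) / (n : ℝ)) atTop
      (𝓝 (dedekindZeta_residue K)) := by
  refine ((Ideal.tendsto_norm_le_div_atTop₀ K).comp tendsto_natCast_atTop_atTop).congr fun n ↦ ?_
  simp only [Function.comp_apply, Nat.cast_le, idealCount, ← Nat.cast_sum]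
  congr
  rw [← add_left_inj 1, ← card_norm_le_eq_card_norm_le_add_one,
    show Finset.Icc 1 n = Finset.Ioc 0 n from Finset.Icc_succ_left_eq_Ioc _ _,
    show 1 = Nat.card {I : Ideal (𝓞 K) // absNorm I = 0} by simp [Ideal.absNorm_eq_zero_iff],
    Finset.sum_Ioc_add_eq_sum_Icc (n.zero_le),
    ← Finset.card_preimage_eq_sum_card_image_eq (fun k _ ↦ finite_setOfPred_absNorm_eq k)]
  simp [Set.coe_eq_subtype]

lemma lseriesSummable_idealCount {s : ℝ} (hs : 1 < s) :
    LSeriesSummable (fun n ↦ ((idealCount K n : ℝ) : ℂ)) (s : ℂ) := by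
  refine LSeriesSummable_of_sum_norm_bigO_and_nonneg ?_ (fun n => Nat.cast_nonneg _) zero_le_one
    (by simpa using hs)
  exact isBigO_atTop_natCast_rpow_of_tendsto_div_rpow
    (by simpa using tendsto_sum_idealCount_div K)

lemma term_eq {s : ℝ} (hs : 1 < s) (n : ℕ) :
    LSeries.term (fun n ↦ ((idealCount K n : ℝ) : ℂ)) (s : ℂ) n =
      (((idealCount K n : ℝ) * (n : ℝ) ^ (-s) : ℝ) : ℂ) := by
  rcases eq_or_ne n 0 with rfl | hn
  · have : (0 : ℝ) ^ (-s) = 0 := Real.zero_rpow (by linarith)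
    simp [this]
  · rw [LSeries.term_of_ne_zero hn, Complex.ofReal_mul,
      Complex.ofReal_cpow (Nat.cast_nonneg n), Complex.ofReal_neg, Complex.cpow_neg]
    simp [div_eq_mul_inv]

/-- the `ℕ`-indexed real series is summable for `s > 1` -/
lemma summable_idealCount {s : ℝ} (hs : 1 < s) :
    Summable (fun n : ℕ ↦ (idealCount K n : ℝ) * (n : ℝ) ^ (-s)) := by
  have h := lseriesSummable_idealCount K hs
  have h2 : Summable (fun n : ℕ ↦ (((idealCount K n : ℝ) * (n : ℝ) ^ (-s) : ℝ) : ℂ)) :=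
    h.congr fun n ↦ term_eq K hs n
  exact Complex.summable_ofReal.mp h2

/-- `N(I)^(-s)` is summable over all ideals, `s > 1`. -/
theorem summable_normPow {s : ℝ} (hs : 1 < s) : Summable (normPow K s) := by
  have key : Summable (fun x : Σ n : ℕ, {I : Ideal (𝓞 K) // absNorm I = n} =>
      normPow K s x.2.1) := by
    rw [summable_sigma_of_nonneg (fun x => normPow_nonneg K s _)]
    refine ⟨fun n => ?_, ?_⟩
    · have hfin : Finite {I : Ideal (𝓞 K) // absNorm I = n} :=
        (Ideal.finite_setOfPred_absNorm_eq n).to_subtype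
      exact Summable.of_finite
    · refine (summable_idealCount K hs).congr fun n => ?_
      exact (tsum_fiber K s n).symm
  exact ((Equiv.sigmaFiberEquiv (fun I : Ideal (𝓞 K) => absNorm I)).summable_iff
    (f := normPow K s)).mp key

/-- the Dedekind zeta function as a sum over ideals -/
def zetaI (s : ℝ) : ℝ := ∑' I : Ideal (𝓞 K), normPow K s I

lemma zetaI_eq_tsum_nat {s : ℝ} (hs : 1 < s) :
    zetaI K s = ∑' n : ℕ, (idealCount K n : ℝ) * (n : ℝ) ^ (-s) := by
  have hsum := summable_normPow K hs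
  have hsum' : Summable (fun x : Σ n : ℕ, {I : Ideal (𝓞 K) // absNorm I = n} =>
      normPow K s x.2.1) :=
    ((Equiv.sigmaFiberEquiv (fun I : Ideal (𝓞 K) => absNorm I)).summable_iff
      (f := normPow K s)).mpr hsum
  calc zetaI K s
      = ∑' x : Σ n : ℕ, {I : Ideal (𝓞 K) // absNorm I = n}, normPow K s x.2.1 :=
        ((Equiv.sigmaFiberEquiv (fun I : Ideal (𝓞 K) => absNorm I)).tsum_eq (normPow K s)).symm
    _ = ∑' n : ℕ, ∑' I : {I : Ideal (𝓞 K) // absNorm I = n}, normPow K s I.1 :=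
        hsum'.tsum_sigma
    _ = _ := tsum_congr fun n => tsum_fiber K s n

theorem dedekindZeta_eq_zetaI {s : ℝ} (hs : 1 < s) :
    dedekindZeta K (s : ℂ) = ((zetaI K s : ℝ) : ℂ) := by
  rw [zetaI_eq_tsum_nat K hs, dedekindZeta, LSeries, Complex.ofReal_tsum]
  refine tsum_congr fun n ↦ ?_
  rw [← term_eq K hs n]
  rcases eq_or_ne n 0 with rfl | hn
  · simp
  · rw [LSeries.term_of_ne_zero hn, LSeries.term_of_ne_zero hn]
    simp [idealCount]

theorem tendsto_sub_one_mul_zetaI :
    Tendsto (fun s : ℝ ↦ (s - 1) * zetaI K s) (𝓝[>] 1) (𝓝 (dedekindZeta_residue K)) := by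
  have h := tendsto_sub_one_mul_dedekindZeta_nhdsGT K
  have h2 : Tendsto (fun s : ℝ ↦ (((s - 1) * zetaI K s : ℝ) : ℂ)) (𝓝[>] 1)
      (𝓝 (dedekindZeta_residue K : ℂ)) := by
    refine h.congr' ?_
    filter_upwards [self_mem_nhdsWithin] with s hs
    rw [dedekindZeta_eq_zetaI K hs]
    push_cast
    ring
  have h3 := (Complex.continuous_re.tendsto _).comp h2
  simpa [Function.comp_def] using h3

/-- the sum over nonzero ideals is `zetaI` -/
lemma tsum_sieveSet_empty {s : ℝ} (hs : 1 < s) :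
    ∑' I : sieveSet (∅ : Set (HeightOneSpectrum (𝓞 K))), normPow K s I = zetaI K s := by
  have hsum := summable_normPow K hs
  have h : sieveSet (∅ : Set (HeightOneSpectrum (𝓞 K))) = ({⊥} : Set (Ideal (𝓞 K)))ᶜ := by
    ext I
    simp [mem_sieveSet_empty]
  rw [tsum_congr_set_coe _ h, zetaI,
    ← (hsum.subtype _).tsum_add_tsum_compl (s := ({⊥} : Set (Ideal (𝓞 K)))) (hsum.subtype _),
    tsum_singleton (⊥ : Ideal (𝓞 K)) (normPow K s), normPow_bot K (by linarith), zero_add]

theorem one_le_zetaI {s : ℝ} (hs : 1 < s) : 1 ≤ zetaI K s := by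
  have hsum := summable_normPow K hs
  have := hsum.sum_le_tsum {⊤} (fun I _ => normPow_nonneg K s I)
  simpa [normPow_top, zetaI] using this

theorem zetaI_pos {s : ℝ} (hs : 1 < s) : 0 < zetaI K s :=
  lt_of_lt_of_le one_pos (one_le_zetaI K hs)

/-- **Euler product** for the Dedekind zeta function. -/
theorem tendsto_prod_zetaI {s : ℝ} (hs : 1 < s) :
    Tendsto (fun T : Finset (HeightOneSpectrum (𝓞 K)) =>
      ∏ 𝔭 ∈ T, (1 - normPow K s 𝔭.asIdeal)) atTop (𝓝 (zetaI K s)⁻¹) := by
  have h := tendsto_prod_one_sub (summable_normPow K hs) (normPow_mul K s) (normPow_top K s)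
  rwa [tsum_sieveSet_empty K hs] at h

/-- the prime ideal sum `∑_𝔭 N𝔭^(-s)` -/
def primeSum (s : ℝ) : ℝ := ∑' 𝔭 : HeightOneSpectrum (𝓞 K), normPow K s 𝔭.asIdeal

lemma asIdeal_injective :
    Function.Injective (fun 𝔭 : HeightOneSpectrum (𝓞 K) => 𝔭.asIdeal) :=
  fun _ _ h => HeightOneSpectrum.ext h

theorem summable_primeSum {s : ℝ} (hs : 1 < s) :
    Summable (fun 𝔭 : HeightOneSpectrum (𝓞 K) => normPow K s 𝔭.asIdeal) :=
  (summable_normPow K hs).comp_injective (asIdeal_injective K)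

lemma two_le_absNorm (𝔭 : HeightOneSpectrum (𝓞 K)) : 2 ≤ absNorm 𝔭.asIdeal := by
  have h0 : absNorm 𝔭.asIdeal ≠ 0 := by
    rw [Ne, Ideal.absNorm_eq_zero_iff]; exact 𝔭.ne_bot
  have h1 : absNorm 𝔭.asIdeal ≠ 1 := by
    rw [Ne, Ideal.absNorm_eq_one_iff]; exact 𝔭.isPrime.ne_top
  omega

lemma normPow_le_half {s : ℝ} (hs : 1 ≤ s) (𝔭 : HeightOneSpectrum (𝓞 K)) :
    normPow K s 𝔭.asIdeal ≤ 1 / 2 := by
  have h2 : (2 : ℝ) ≤ absNorm 𝔭.asIdeal := by exact_mod_cast two_le_absNorm K 𝔭
  have h0 : (0 : ℝ) < absNorm 𝔭.asIdeal := by linarith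
  rw [normPow, Real.rpow_neg h0.le, one_div]
  apply inv_anti₀ (by norm_num)
  calc (2 : ℝ) ≤ absNorm 𝔭.asIdeal := h2
    _ = (absNorm 𝔭.asIdeal : ℝ) ^ (1 : ℝ) := (Real.rpow_one _).symm
    _ ≤ (absNorm 𝔭.asIdeal : ℝ) ^ s := Real.rpow_le_rpow_of_exponent_le (by linarith) hs

lemma normPow_sq (s : ℝ) (I : Ideal (𝓞 K)) : normPow K s I ^ 2 = normPow K (2 * s) I := by
  rw [normPow, normPow, ← Real.rpow_natCast, ← Real.rpow_mul (Nat.cast_nonneg _)]
  congr 1
  push_cast
  ring

/-- `-log (1 - x) ≥ x` and `≤ x + 2 x²` for `0 ≤ x ≤ 1/2`. -/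
lemma neg_log_one_sub_bounds {x : ℝ} (h0 : 0 ≤ x) (h1 : x ≤ 1 / 2) :
    x ≤ -Real.log (1 - x) ∧ -Real.log (1 - x) ≤ x + 2 * x ^ 2 := by
  have hpos : 0 < 1 - x := by linarith
  constructor
  · have := Real.log_le_sub_one_of_pos hpos
    linarith
  · have h := Real.log_le_sub_one_of_pos (inv_pos.mpr hpos)
    rw [Real.log_inv] at h
    have h2 : (1 - x)⁻¹ - 1 ≤ x + 2 * x ^ 2 := by
      rw [sub_le_iff_le_add, inv_le_iff_one_le_mul₀ hpos]
      nlinarith [mul_nonneg h0 h0, mul_nonneg (mul_nonneg h0 h0) h0]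
    linarith

/-- The sum of `log (1 - N𝔭^(-s))` over the primes is `-log ζ_K(s)`. -/
theorem hasSum_log_one_sub {s : ℝ} (hs : 1 < s) :
    HasSum (fun 𝔭 : HeightOneSpectrum (𝓞 K) => Real.log (1 - normPow K s 𝔭.asIdeal))
      (-Real.log (zetaI K s)) := by
  have h := tendsto_prod_zetaI K hs
  have hZ : (zetaI K s)⁻¹ ≠ 0 := inv_ne_zero (zetaI_pos K hs).ne'
  have h2 := (Real.continuousAt_log hZ).tendsto.comp h
  rw [Real.log_inv] at h2
  rw [HasSum]
  refine h2.congr fun T => ?_
  simp only [Function.comp_apply]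
  rw [Real.log_prod]
  intro 𝔭 _
  have := normPow_le_half K hs.le 𝔭
  linarith

/-- `∑_𝔭 N𝔭^(-s) ≤ log ζ_K(s) ≤ ∑_𝔭 N𝔭^(-s) + 2 ∑_𝔭 N𝔭^(-2s)`. -/
theorem primeSum_le_log_zetaI {s : ℝ} (hs : 1 < s) :
    primeSum K s ≤ Real.log (zetaI K s) ∧
      Real.log (zetaI K s) ≤ primeSum K s + 2 * primeSum K (2 * s) := by
  have hlog := (hasSum_log_one_sub K hs).neg
  rw [neg_neg] at hlog
  have hP := (summable_primeSum K hs).hasSum
  have hP2 := (summable_primeSum K (show 1 < 2 * s by linarith)).hasSum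
  constructor
  · refine hasSum_le (fun 𝔭 => ?_) hP hlog
    exact (neg_log_one_sub_bounds (normPow_nonneg K s _) (normPow_le_half K hs.le 𝔭)).1
  · refine hasSum_le (fun 𝔭 => ?_) hlog (hP.add (hP2.mul_left 2))
    have := (neg_log_one_sub_bounds (normPow_nonneg K s _) (normPow_le_half K hs.le 𝔭)).2
    rw [normPow_sq] at this
    exact this

lemma normPow_anti {s t : ℝ} (hst : s ≤ t) (I : Ideal (𝓞 K)) (h0 : 0 < s) :
    normPow K t I ≤ normPow K s I := by
  rcases eq_or_ne I ⊥ with rfl | hI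
  · rw [normPow_bot K h0.ne', normPow_bot K (h0.trans_le hst).ne']
  · have h1 : (1 : ℝ) ≤ absNorm I := by
      have : absNorm I ≠ 0 := by rwa [Ne, Ideal.absNorm_eq_zero_iff]
      exact_mod_cast Nat.one_le_iff_ne_zero.mpr this
    exact Real.rpow_le_rpow_of_exponent_le h1 (by linarith)

theorem zetaI_anti {s t : ℝ} (hs : 1 < s) (hst : s ≤ t) : zetaI K t ≤ zetaI K s :=
  (summable_normPow K (hs.trans_le hst)).tsum_le_tsum
    (fun I => normPow_anti K hst I (by linarith)) (summable_normPow K hs)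

theorem primeSum_nonneg (s : ℝ) : 0 ≤ primeSum K s :=
  tsum_nonneg fun _ => normPow_nonneg K s _

theorem primeSum_anti {s t : ℝ} (hs : 1 < s) (hst : s ≤ t) : primeSum K t ≤ primeSum K s :=
  (summable_primeSum K (hs.trans_le hst)).tsum_le_tsum
    (fun 𝔭 => normPow_anti K hst 𝔭.asIdeal (by linarith)) (summable_primeSum K hs)

/-- `(s - 1) ζ_K(s)` is bounded above and below by positive constants on `(1, 2]`. -/
theorem exists_bounds_sub_one_mul_zetaI :
    ∃ c₁ c₂ : ℝ, 0 < c₁ ∧ c₁ ≤ c₂ ∧ ∀ s : ℝ, 1 < s → s ≤ 2 →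
      c₁ ≤ (s - 1) * zetaI K s ∧ (s - 1) * zetaI K s ≤ c₂ := by
  have hρ := dedekindZeta_residue_pos K
  set ρ := dedekindZeta_residue K with hρdef
  have h := tendsto_sub_one_mul_zetaI K
  have hev : ∀ᶠ s : ℝ in 𝓝[>] 1, ρ / 2 < (s - 1) * zetaI K s ∧ (s - 1) * zetaI K s < 2 * ρ :=
    (h.eventually (lt_mem_nhds (show ρ / 2 < ρ by linarith))).and
      (h.eventually (gt_mem_nhds (show ρ < 2 * ρ by linarith)))
  rw [eventually_nhdsWithin_iff, Metric.eventually_nhds_iff] at hev
  obtain ⟨δ, hδ, hδ2⟩ := hev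
  set δ' := min δ 1 with hδ'
  have hδ'pos : 0 < δ' := lt_min hδ one_pos
  have hδ'le : δ' ≤ δ := min_le_left _ _
  set s₀ : ℝ := 1 + δ' / 2 with hs₀
  have hs₀1 : 1 < s₀ := by rw [hs₀]; linarith
  have hZ₀ := one_le_zetaI K hs₀1
  refine ⟨min (ρ / 2) (δ' / 2), max (2 * ρ) (zetaI K s₀), lt_min (by linarith) (by linarith),
    (min_le_left _ _).trans ((by linarith : ρ / 2 ≤ 2 * ρ).trans (le_max_left _ _)),
    fun s hs1 hs2 => ?_⟩
  rcases lt_or_ge s s₀ with hlt | hge
  · have hd : dist s 1 < δ := by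
      rw [Real.dist_eq, abs_of_pos (by linarith)]
      rw [hs₀] at hlt
      linarith
    have := hδ2 hd hs1
    exact ⟨(min_le_left _ _).trans this.1.le, this.2.le.trans (le_max_left _ _)⟩
  · have h1 := one_le_zetaI K hs1
    have h2 := zetaI_anti K hs₀1 hge
    have hs0 : 0 < s - 1 := by linarith
    constructor
    · calc min (ρ / 2) (δ' / 2) ≤ δ' / 2 := min_le_right _ _
        _ ≤ (s - 1) * 1 := by rw [hs₀] at hge; linarith
        _ ≤ (s - 1) * zetaI K s := by gcongr
    · calc (s - 1) * zetaI K s ≤ 1 * zetaI K s₀ := by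
            apply mul_le_mul (by linarith) h2 (by linarith) (by norm_num)
        _ ≤ max (2 * ρ) (zetaI K s₀) := by rw [one_mul]; exact le_max_right _ _

/-- **The prime ideal sum** `∑_𝔭 N𝔭^(-s)` is `log (1 / (s - 1)) + O(1)` on `(1, 2]`. -/
theorem exists_primeSum_bound :
    ∃ C : ℝ, ∀ s : ℝ, 1 < s → s ≤ 2 → |primeSum K s + Real.log (s - 1)| ≤ C := by
  obtain ⟨c₁, c₂, hc₁, hc₁₂, hb⟩ := exists_bounds_sub_one_mul_zetaI K
  have hc₂ : 0 < c₂ := hc₁.trans_le hc₁₂
  refine ⟨max |Real.log c₁| |Real.log c₂| + 2 * primeSum K 2, fun s hs1 hs2 => ?_⟩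
  obtain ⟨hlo, hhi⟩ := hb s hs1 hs2
  obtain ⟨hP1, hP2⟩ := primeSum_le_log_zetaI K hs1
  have hs0 : 0 < s - 1 := by linarith
  have hZ := zetaI_pos K hs1
  have hlog : Real.log ((s - 1) * zetaI K s) = Real.log (s - 1) + Real.log (zetaI K s) :=
    Real.log_mul hs0.ne' hZ.ne'
  have hl1 : Real.log c₁ ≤ Real.log ((s - 1) * zetaI K s) := Real.log_le_log hc₁ hlo
  have hl2 : Real.log ((s - 1) * zetaI K s) ≤ Real.log c₂ :=
    Real.log_le_log (hc₁.trans_le hlo) hhi
  have hB : primeSum K (2 * s) ≤ primeSum K 2 :=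
    primeSum_anti K (by norm_num) (by linarith)
  have hB0 := primeSum_nonneg K 2
  have hm1 : -max |Real.log c₁| |Real.log c₂| ≤ Real.log c₁ :=
    (neg_le_neg (le_max_left _ _)).trans (neg_abs_le _)
  have hm2 : Real.log c₂ ≤ max |Real.log c₁| |Real.log c₂| :=
    (le_abs_self _).trans (le_max_right _ _)
  rw [abs_le]
  constructor <;> linarith

end

end Fermat.Agent.Lib.Cheb.H761

end
-- ===== PACK-END Lib/Cheb/H761/ZetaEuler.lean

-- ===== PACK-BEGIN S37/H340/KronFrob.lean
section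



/-!
# S37 / R3-K : the Kronecker polynomial in characteristic `ℓ` (helper340)

* `pow_char_eq_qExpand` : in characteristic `ℓ`, `f ^ ℓ = V (f^φ)` where `f^φ` is `f` with
  Frobenius applied to the coefficients (`coeffMap (frobenius R ℓ) f`) and `V = qExpand R ℓ`;
* `kronMat_mul`, `kronMat_qExpand` : the regular representation `f ↦ kronMat ℓ f`;
* `kron_char` : over a domain of characteristic `ℓ`, `kron ℓ f = Y ^ ℓ - C (f^φ)`
  (**Kronecker congruence**).
-/

set_option autoImplicit false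

noncomputable section

namespace Fermat.Agent.S37.H340

open ModularCurve Polynomial Matrix

variable {R : Type*} [CommRing R] (ℓ : ℕ) [NeZero ℓ]

section Frobenius

variable [hℓ : Fact ℓ.Prime] [CharP R ℓ]

omit [NeZero ℓ] in
/-- coefficients of the `ℓ`-th power of a power series in characteristic `ℓ` -/
lemma powerSeries_coeff_pow_char (p : PowerSeries R) (n : ℕ) :
    PowerSeries.coeff n (p ^ ℓ) = if ℓ ∣ n then (PowerSeries.coeff (n / ℓ) p) ^ ℓ else 0 := by
  have h1 : PowerSeries.coeff n (p ^ ℓ) =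
      PowerSeries.coeff n (((PowerSeries.trunc (n + 1) p : R[X]) : PowerSeries R) ^ ℓ) := by
    rw [← PowerSeries.coeff_coe_trunc_of_lt (Nat.lt_succ_self n) (f := p ^ ℓ),
      ← PowerSeries.trunc_trunc_pow, PowerSeries.coeff_coe_trunc_of_lt (Nat.lt_succ_self n)]
  rw [h1, ← Polynomial.coe_pow, Polynomial.coeff_coe, ← Polynomial.map_frobenius_expand,
    Polynomial.coeff_map, Polynomial.coeff_expand hℓ.out.pos, frobenius_def]
  split_ifs with h
  · rw [PowerSeries.coeff_trunc, if_pos]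
    exact lt_of_le_of_lt (Nat.div_le_self n ℓ) (Nat.lt_succ_self n)
  · exact zero_pow hℓ.out.ne_zero

omit [NeZero ℓ] hℓ in
/-- `LaurentSeries R` has characteristic `ℓ`. -/
lemma charP_laurentSeries : CharP (LaurentSeries R) ℓ :=
  charP_of_injective_ringHom (f := (HahnSeries.C : R →+* LaurentSeries R))
    HahnSeries.C_injective ℓ

/-- In characteristic `ℓ`: `f ^ ℓ = V (f^φ)`. -/
theorem pow_char_eq_qExpand (f : LaurentSeries R) :
    f ^ ℓ = qExpand R ℓ (coeffMap (frobenius R ℓ) f) := by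
  have := charP_laurentSeries (R := R) ℓ
  have key : (frobenius (LaurentSeries R) ℓ) =
      (qExpand R ℓ).comp (coeffMap (frobenius R ℓ)) := by
    refine IsLocalization.ringHom_ext (Submonoid.powers (PowerSeries.X : PowerSeries R)) ?_
    ext p : 1
    simp only [RingHom.comp_apply, LaurentSeries.coe_algebraMap, frobenius_def]
    rw [← map_pow, coeffMap_ofPowerSeries]
    ext k
    rw [qExpand_coeff]
    rcases le_or_gt 0 k with hk | hk
    · lift k to ℕ using hk
      rw [HahnSeries.ofPowerSeries_apply_coeff, powerSeries_coeff_pow_char]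
      have hdvd : ((ℓ : ℤ) ∣ (k : ℤ)) ↔ ℓ ∣ k := Int.natCast_dvd_natCast
      by_cases h : ℓ ∣ k
      · rw [if_pos h, if_pos (hdvd.mpr h)]
        have : ((k : ℤ) / (ℓ : ℤ)) = ((k / ℓ : ℕ) : ℤ) := by push_cast; rfl
        rw [this, HahnSeries.ofPowerSeries_apply_coeff, PowerSeries.coeff_map, frobenius_def]
      · rw [if_neg h, if_neg (fun h' => h (hdvd.mp h'))]
    · rw [ofPowerSeries_coeff_of_neg _ hk]
      split_ifs with h
      · rw [ofPowerSeries_coeff_of_neg]
        have hℓpos : (0 : ℤ) < ℓ := by exact_mod_cast hℓ.out.pos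
        exact Int.ediv_neg_of_neg_of_pos hk hℓpos
      · rfl
  have := congrArg (fun φ : LaurentSeries R →+* LaurentSeries R => φ f) key
  simpa [frobenius_def] using this

end Frobenius

section RegularRep

/-- sections of a decomposed series -/
lemma sect_sum (h : Fin ℓ → LaurentSeries R) (k : Fin ℓ) :
    sect ℓ ((k : ℕ) : ℤ)
      (∑ i : Fin ℓ, (qq : LaurentSeries R) ^ (i : ℕ) * qExpand R ℓ (h i)) = h k := by
  have hℓ : (0 : ℤ) < ℓ := by exact_mod_cast Nat.pos_of_ne_zero (NeZero.ne ℓ)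
  ext n
  rw [sect_coeff, HahnSeries.coeff_sum]
  simp only [coeff_qq_pow_mul, qExpand_coeff]
  rw [Finset.sum_eq_single k]
  · have : (ℓ : ℤ) * n + (k : ℕ) - (k : ℕ) = (ℓ : ℤ) * n := by ring
    rw [this, if_pos (dvd_mul_right _ _), Int.mul_ediv_cancel_left _ hℓ.ne']
  · intro i _ hi
    rw [if_neg]
    intro hdvd
    apply hi
    have h1 : (ℓ : ℤ) ∣ ((k : ℕ) : ℤ) - ((i : ℕ) : ℤ) := by
      have h2 : (ℓ : ℤ) * n + (k : ℕ) - (i : ℕ) = (ℓ : ℤ) * n + (((k : ℕ) : ℤ) - (i : ℕ)) := by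
        ring
      rw [h2] at hdvd
      exact (Int.dvd_add_right (dvd_mul_right _ _)).mp hdvd
    have hi1 : ((i : ℕ) : ℤ) < ℓ := by exact_mod_cast i.2
    have hi0 : (0 : ℤ) ≤ ((i : ℕ) : ℤ) := Int.natCast_nonneg _
    have hk1 : ((k : ℕ) : ℤ) < ℓ := by exact_mod_cast k.2
    have hk0 : (0 : ℤ) ≤ ((k : ℕ) : ℤ) := Int.natCast_nonneg _
    obtain ⟨c, hc⟩ := h1
    have hc0 : c = 0 := by
      by_contra hne
      rcases lt_or_gt_of_ne hne with h | h
      · have : (ℓ : ℤ) * c ≤ -ℓ := by nlinarith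
        omega
      · have : (ℓ : ℤ) ≤ (ℓ : ℤ) * c := by nlinarith
        omega
    rw [hc0, mul_zero] at hc
    ext
    omega
  · intro h; exact absurd (Finset.mem_univ _) h

/-- uniqueness of the decomposition -/
lemma decomp_unique {h h' : Fin ℓ → LaurentSeries R}
    (e : ∑ i : Fin ℓ, (qq : LaurentSeries R) ^ (i : ℕ) * qExpand R ℓ (h i) =
      ∑ i : Fin ℓ, (qq : LaurentSeries R) ^ (i : ℕ) * qExpand R ℓ (h' i)) : h = h' := by
  funext k
  rw [← sect_sum ℓ h k, e, sect_sum ℓ h' k]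

/-- `f ↦ kronMat ℓ f` is multiplicative. -/
theorem kronMat_mul (f g : LaurentSeries R) :
    kronMat ℓ (f * g) = kronMat ℓ g * kronMat ℓ f := by
  refine Matrix.ext fun k j => ?_
  have e : ∑ i : Fin ℓ, (qq : LaurentSeries R) ^ (i : ℕ) * qExpand R ℓ (kronMat ℓ (f * g) i j) =
      ∑ i : Fin ℓ, (qq : LaurentSeries R) ^ (i : ℕ) *
        qExpand R ℓ ((kronMat ℓ g * kronMat ℓ f) i j) := by
    rw [← qq_pow_mul_eq_sum, ← mul_assoc, qq_pow_mul_eq_sum ℓ f j, Finset.sum_mul]
    have h1 : ∀ i : Fin ℓ, (qq : LaurentSeries R) ^ (i : ℕ) * qExpand R ℓ (kronMat ℓ f i j) * g =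
        ∑ k' : Fin ℓ, (qq : LaurentSeries R) ^ (k' : ℕ) *
          qExpand R ℓ (kronMat ℓ g k' i * kronMat ℓ f i j) := by
      intro i
      rw [mul_right_comm, qq_pow_mul_eq_sum ℓ g i, Finset.sum_mul]
      refine Finset.sum_congr rfl fun k' _ => ?_
      rw [map_mul]; ring
    simp_rw [h1]
    rw [Finset.sum_comm]
    refine Finset.sum_congr rfl fun k' _ => ?_
    rw [Matrix.mul_apply, map_sum, Finset.mul_sum]
  exact congrFun (decomp_unique ℓ (h := fun i => kronMat ℓ (f * g) i j)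
    (h' := fun i => (kronMat ℓ g * kronMat ℓ f) i j) e) k

theorem kronMat_qExpand (g : LaurentSeries R) :
    kronMat ℓ (qExpand R ℓ g) = Matrix.scalar (Fin ℓ) g := by
  have hℓ : (0 : ℤ) < ℓ := by exact_mod_cast Nat.pos_of_ne_zero (NeZero.ne ℓ)
  ext i j n
  rw [kronMat_apply, sect_coeff, qExpand_coeff, Matrix.scalar_apply, Matrix.diagonal_apply]
  by_cases hij : i = j
  · subst hij
    have : (ℓ : ℤ) * n + (((i : ℕ) : ℤ) - (i : ℕ)) = (ℓ : ℤ) * n := by ring
    rw [this, if_pos (dvd_mul_right _ _), Int.mul_ediv_cancel_left _ hℓ.ne', if_pos rfl]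
  · rw [if_neg hij, if_neg]
    · simp
    · intro hdvd
      apply hij
      have h1 : (ℓ : ℤ) ∣ ((i : ℕ) : ℤ) - ((j : ℕ) : ℤ) :=
        (Int.dvd_add_right (dvd_mul_right _ _)).mp hdvd
      have hi1 : ((i : ℕ) : ℤ) < ℓ := by exact_mod_cast i.2
      have hi0 : (0 : ℤ) ≤ ((i : ℕ) : ℤ) := Int.natCast_nonneg _
      have hj1 : ((j : ℕ) : ℤ) < ℓ := by exact_mod_cast j.2
      have hj0 : (0 : ℤ) ≤ ((j : ℕ) : ℤ) := Int.natCast_nonneg _
      obtain ⟨c, hc⟩ := h1
      have hc0 : c = 0 := by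
        by_contra hne
        rcases lt_or_gt_of_ne hne with h | h
        · have : (ℓ : ℤ) * c ≤ -ℓ := by nlinarith
          omega
        · have : (ℓ : ℤ) ≤ (ℓ : ℤ) * c := by nlinarith
          omega
      rw [hc0, mul_zero] at hc
      ext
      omega

theorem kronMat_one : kronMat ℓ (1 : LaurentSeries R) = 1 := by
  have := kronMat_qExpand ℓ (1 : LaurentSeries R)
  rwa [map_one, map_one] at this

theorem kronMat_pow (f : LaurentSeries R) (n : ℕ) : kronMat ℓ (f ^ n) = kronMat ℓ f ^ n := by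
  induction n with
  | zero => rw [pow_zero, pow_zero, kronMat_one]
  | succ n ih => rw [pow_succ, kronMat_mul, ih, pow_succ']

end RegularRep

section Congruence

variable [hℓ : Fact ℓ.Prime] [CharP R ℓ] [IsDomain R]

/-- **Kronecker congruence**: in characteristic `ℓ`, the Kronecker polynomial of `f` is
`Y ^ ℓ - f^φ`, where `f^φ` is `f` with Frobenius applied to the coefficients. -/
theorem kron_char (f : LaurentSeries R) :
    kron ℓ f = X ^ ℓ - C (coeffMap (frobenius R ℓ) f) := by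
  classical
  have := charP_laurentSeries (R := R) ℓ
  set g := coeffMap (frobenius R ℓ) f with hg
  have hVg : qExpand R ℓ g = f ^ ℓ := (pow_char_eq_qExpand ℓ f).symm
  -- `M ^ ℓ = g • 1`
  have hMpow : kronMat ℓ f ^ ℓ = Matrix.scalar (Fin ℓ) g := by
    rw [← kronMat_pow, pow_char_eq_qExpand, kronMat_qExpand]
  set M' : Matrix (Fin ℓ) (Fin ℓ) (LaurentSeries R) :=
    (qExpand R ℓ).mapMatrix (kronMat ℓ f) with hM'
  have hM'pow : M' ^ ℓ = Matrix.scalar (Fin ℓ) (f ^ ℓ) := by
    rw [hM', ← map_pow, hMpow, ← hVg]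
    ext i j
    simp [Matrix.scalar_apply, Matrix.diagonal_apply, apply_ite]
  have hcomm : Commute M' (Matrix.scalar (Fin ℓ) f) :=
    (Matrix.scalar_commute f (fun r' => Commute.all _ _) M').symm
  have hNpow : (M' - Matrix.scalar (Fin ℓ) f) ^ ℓ = 0 := by
    rw [sub_pow_char_of_commute ℓ hcomm, hM'pow, ← map_pow, sub_self]
  have hnil : IsNilpotent (M' - Matrix.scalar (Fin ℓ) f) := ⟨ℓ, hNpow⟩
  have h1 : (M' - Matrix.scalar (Fin ℓ) f).charpoly = X ^ ℓ := by
    have h := Matrix.isNilpotent_charpoly_sub_pow_of_isNilpotent hnil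
    rw [Fintype.card_fin] at h
    exact sub_eq_zero.mp (IsReduced.eq_zero _ h)
  rw [Matrix.charpoly_sub_scalar] at h1
  have h2 : M'.charpoly = (X - C f) ^ ℓ := by
    have h3 := congrArg (fun P : (LaurentSeries R)[X] => P.comp (X - C f)) h1
    simp only [Polynomial.comp_assoc, Polynomial.add_comp, Polynomial.X_comp,
      Polynomial.C_comp, sub_add_cancel, Polynomial.comp_X, Polynomial.pow_comp] at h3
    exact h3
  have h4 : (kron ℓ f).map (qExpand R ℓ) = (X ^ ℓ - C g : (LaurentSeries R)[X]).map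
      (qExpand R ℓ) := by
    rw [kron, ← Matrix.charpoly_map]
    change M'.charpoly = _
    rw [h2, sub_pow_char, Polynomial.map_sub, Polynomial.map_pow, Polynomial.map_X,
      Polynomial.map_C, hVg, ← C_pow]
  exact Polynomial.map_injective _ (qExpand_injective ℓ) h4

end Congruence

end Fermat.Agent.S37.H340

end
end
-- ===== PACK-END S37/H340/KronFrob.lean

-- ===== PACK-BEGIN S30/H810/QShift.lean
section
/-
S30 / piece ONTO (helper810), part 7: `q_L`-expansions of periodic functions of exponential growth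
and the SHIFT lemma (`τ ↦ τ + a` twists the coefficients by `exp(2πi a n / L)`).
-/




set_option autoImplicit false
set_option linter.unusedSectionVars false

noncomputable section

open UpperHalfPlane HahnSeries Function
open scoped MatrixGroups Manifold Real

namespace Fermat.Agent.S30.H810

open Fermat.Agent.S24 Fermat.Agent.S24.H648 Fermat.Agent.S24.H708

variable {L : ℕ} [NeZero L]

/-- periodicity on `ℍ` gives periodicity of the extension by junk -/
theorem periodic_of_vadd {f : ℍ → ℂ} (hf : ∀ τ : ℍ, f ((L : ℝ) +ᵥ τ) = f τ) :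
    Function.Periodic (f ∘ ofComplex) (L : ℝ) := by
  intro w
  by_cases hw : 0 < Complex.im w
  · have hw' : 0 < Complex.im (w + ((L : ℝ) : ℂ)) := by simpa using hw
    simp only [Function.comp_apply, ofComplex_apply_of_im_pos hw', ofComplex_apply_of_im_pos hw]
    rw [← hf ⟨w, hw⟩]
    congr 1
    apply UpperHalfPlane.ext
    rw [UpperHalfPlane.coe_vadd]
    simp [add_comm]
  · have hw0 : Complex.im w ≤ 0 := not_lt.mp hw
    have hw' : Complex.im (w + ((L : ℝ) : ℂ)) ≤ 0 := by simpa using hw0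
    simp only [Function.comp_apply]
    rw [ofComplex_apply_of_im_nonpos hw', ofComplex_apply_of_im_nonpos hw0]

/-- exponential growth gives a pole of finite order in `q_L` -/
theorem isBounded_mul_qh_pow_of_expGrowth' {f : ℍ → ℂ} (hf : ExpGrowth f) :
    ∃ M : ℕ, IsBoundedAtImInfty (f * qh L ^ M) := by
  obtain ⟨C, m, h⟩ := hf
  refine ⟨L * m, ?_⟩
  rw [UpperHalfPlane.isBoundedAtImInfty_iff]
  refine ⟨C, 1, fun τ hτ => ?_⟩
  have h1 := h τ hτ
  have hL : (L : ℝ) ≠ 0 := Nat.cast_ne_zero.mpr (NeZero.ne L)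
  have hq : ‖qh L τ‖ = Real.exp (-2 * π * τ.im / L) := by
    rw [qh_apply, Function.Periodic.norm_qParam]
    simp
  rw [Pi.mul_apply, Pi.pow_apply, norm_mul, norm_pow, hq, ← Real.exp_nat_mul]
  calc ‖f τ‖ * Real.exp (((L * m : ℕ) : ℝ) * (-2 * π * τ.im / L))
      ≤ C * Real.exp (2 * π * m * τ.im) * Real.exp (((L * m : ℕ) : ℝ) * (-2 * π * τ.im / L)) :=
        mul_le_mul_of_nonneg_right h1 (Real.exp_pos _).le
    _ = C := by
        rw [mul_assoc, ← Real.exp_add]
        have : 2 * π * m * τ.im + ((L * m : ℕ) : ℝ) * (-2 * π * τ.im / L) = 0 := by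
          push_cast
          field_simp
          ring
        rw [this, Real.exp_zero, mul_one]

/-- holomorphic + periodic + exponential growth ⟹ `IsMerInf` -/
theorem isMerInf_of_periodic {f : ℍ → ℂ} (hol : MDiff f)
    (hper : ∀ τ : ℍ, f ((L : ℝ) +ᵥ τ) = f τ) (hg : ExpGrowth f) : IsMerInf L f :=
  ⟨hol, periodic_of_vadd hper, isBounded_mul_qh_pow_of_expGrowth' hg⟩

/-- the twisting unit `exp(2πi a / L)` -/
def shiftUnit (L : ℕ) (a : ℝ) : ℂˣ :=
  Units.mk0 (Complex.exp (2 * π * Complex.I * a / L)) (Complex.exp_ne_zero _)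

theorem qh_vadd (a : ℝ) (τ : ℍ) : qh L (a +ᵥ τ) = (shiftUnit L a : ℂ) * qh L τ := by
  rw [qh_apply, qh_apply, Function.Periodic.qParam, Function.Periodic.qParam, shiftUnit,
    Units.val_mk0, ← Complex.exp_add, UpperHalfPlane.coe_vadd]
  congr 1
  push_cast
  ring

/-- **SHIFT lemma.** -/
theorem hasQExp_vadd {f : ℍ → ℂ} {φ : LaurentSeries ℂ} (hf : HasQExp L f φ) (a : ℝ)
    (hol : MDiff (fun τ : ℍ => f (a +ᵥ τ))) :
    HasQExp L (fun τ : ℍ => f (a +ᵥ τ)) (infTwist (shiftUnit L a) φ) := by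
  refine HasQExp.of_hasSum hol fun τ => ?_
  have h := hf.hasSum (a +ᵥ τ)
  convert h using 1
  funext n
  rw [infTwist_coeff, qh_vadd, mul_zpow, Units.val_zpow_eq_zpow_val]
  ring

/-- If `f (τ + a) = z f τ` then the twisting unit to the order of the expansion is `z`. -/
theorem shiftUnit_zpow_order_eq {f : ℍ → ℂ} {φ : LaurentSeries ℂ} (hf : HasQExp L f φ)
    (hf0 : f ≠ 0) (a : ℝ) (z : ℂ) (hz : ∀ τ : ℍ, f (a +ᵥ τ) = z * f τ) :
    ((shiftUnit L a : ℂˣ) : ℂ) ^ φ.order = z := by
  have hol : MDiff (fun τ : ℍ => f (a +ᵥ τ)) := by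
    have : (fun τ : ℍ => f (a +ᵥ τ)) = (fun _ : ℍ => z) * f := by
      funext τ; exact hz τ
    rw [this]
    exact mdifferentiable_const.mul hf.mdiff
  have h1 := hasQExp_vadd hf a hol
  have h2 : HasQExp L (fun τ : ℍ => f (a +ᵥ τ)) (HahnSeries.C z * φ) := by
    have : (fun τ : ℍ => f (a +ᵥ τ)) = (fun _ : ℍ => z) * f := by
      funext τ; exact hz τ
    rw [this]
    exact (HasQExp.const L z).mul hf
  have h3 := h1.unique h2
  have hφ : φ ≠ 0 := fun h0 => hf0 ((hf.eq_zero_iff).mp h0)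
  have h4 := congrArg HahnSeries.leadingCoeff h3
  rw [infTwist_leadingCoeff, HahnSeries.leadingCoeff_mul] at h4
  have hlc : φ.leadingCoeff ≠ 0 := HahnSeries.leadingCoeff_ne_zero.mpr hφ
  have hz0 : z ≠ 0 := by
    rintro rfl
    apply hφ
    have : infTwist (shiftUnit L a) φ = 0 := by rw [h3]; simp
    exact (infTwist_eq_zero_iff _ _).mp this
  have hCz : (HahnSeries.C z : LaurentSeries ℂ).leadingCoeff = z := by
    rw [HahnSeries.C_apply, HahnSeries.leadingCoeff_of_single]
  rw [hCz, Units.val_zpow_eq_zpow_val, mul_comm] at h4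
  exact mul_right_cancel₀ hlc h4

end Fermat.Agent.S30.H810

end
end
-- ===== PACK-END S30/H810/QShift.lean

-- ===== PACK-BEGIN S21/H585/Cocycle.lean
section


/-!
# Cocycles on `SL(2, ℤ)` with values in functions on an `SL(2, ℤ)`-set

If `-1` acts trivially on `X`, then any `a c : X → A` with `a + a ∘ S = 0` and
`c + c ∘ ST + c ∘ (ST)² = 0` extend to a cocycle `f : SL(2, ℤ) → X → A`
(`f (g * h) x = f h x + f g (h • x)`) with `f S = a`, `f (S * T) = c`.
-/

set_option autoImplicit false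

namespace Fermat.Agent.S21.H585

open Matrix ModularGroup
open scoped MatrixGroups

lemma S_mul_S_eq_neg_one : (S * S : SL(2, ℤ)) = -1 := by
  apply Subtype.ext
  rw [Matrix.SpecialLinearGroup.coe_mul, Matrix.SpecialLinearGroup.coe_neg,
    Matrix.SpecialLinearGroup.coe_one, S_mul_S_eq]

lemma ST_cube_eq_neg_one : ((S * T) * (S * T) * (S * T) : SL(2, ℤ)) = -1 := by
  apply Subtype.ext
  rw [Matrix.SpecialLinearGroup.coe_mul, Matrix.SpecialLinearGroup.coe_mul, coe_S_mul_T,
    Matrix.SpecialLinearGroup.coe_neg, Matrix.SpecialLinearGroup.coe_one]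
  ext i j
  fin_cases i <;> fin_cases j <;> simp [Matrix.mul_apply, Fin.sum_univ_two]

section

variable {G : Type*} [Group G] {X : Type*} [MulAction G X] {A : Type*} [AddCommGroup A]

/-- The permutation `(x, t) ↦ (g • x, t + m x)` of `X × A`. -/
def affPerm (g : G) (m : X → A) : Equiv.Perm (X × A) where
  toFun z := (g • z.1, z.2 + m z.1)
  invFun z := (g⁻¹ • z.1, z.2 - m (g⁻¹ • z.1))
  left_inv z := by
    rcases z with ⟨x, t⟩
    simp
  right_inv z := by
    rcases z with ⟨x, t⟩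
    simp

@[simp] lemma affPerm_apply (g : G) (m : X → A) (x : X) (t : A) :
    affPerm g m (x, t) = (g • x, t + m x) := rfl

/-- Abstract cocycles. -/
def IsCocycle (f : G → X → A) : Prop := ∀ g h x, f (g * h) x = f h x + f g (h • x)

lemma IsCocycle.map_one {f : G → X → A} (hf : IsCocycle f) (x : X) : f 1 x = 0 := by
  have := hf 1 1 x
  rw [one_mul, one_smul] at this
  exact left_eq_add.mp this

lemma IsCocycle.map_inv {f : G → X → A} (hf : IsCocycle f) (g : G) (x : X) :
    f g⁻¹ (g • x) = - f g x := by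
  have := hf g⁻¹ g x
  rw [inv_mul_cancel, hf.map_one] at this
  exact eq_neg_of_add_eq_zero_right this.symm

lemma IsCocycle.map_inv' {f : G → X → A} (hf : IsCocycle f) (g : G) (x : X) :
    f g⁻¹ x = - f g (g⁻¹ • x) := by
  have := hf.map_inv g (g⁻¹ • x)
  rwa [smul_inv_smul] at this

end

/-- **Existence of cocycles on `SL(2, ℤ)`** with prescribed values on `S` and `S * T`. -/
theorem exists_cocycle {X : Type*} [MulAction SL(2, ℤ) X] {A : Type*} [AddCommGroup A]
    (hneg : ∀ x : X, (-1 : SL(2, ℤ)) • x = x) (a c : X → A)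
    (ha : ∀ x, a x + a (S • x) = 0)
    (hc : ∀ x, c x + c ((S * T) • x) + c ((S * T) • (S * T) • x) = 0) :
    ∃ f : SL(2, ℤ) → X → A, IsCocycle f ∧ f S = a ∧ f (S * T) = c := by
  have hs : (affPerm S a : Equiv.Perm (X × A)) ^ 2 = 1 := by
    ext ⟨x, t⟩ : 1
    rw [pow_two, Equiv.Perm.mul_apply, affPerm_apply, affPerm_apply, Equiv.Perm.one_apply,
      ← mul_smul, S_mul_S_eq_neg_one, hneg, add_assoc, ha, add_zero]
  have hu : (affPerm (S * T) c : Equiv.Perm (X × A)) ^ 3 = 1 := by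
    ext ⟨x, t⟩ : 1
    rw [pow_succ, pow_two, Equiv.Perm.mul_apply, Equiv.Perm.mul_apply, affPerm_apply,
      affPerm_apply, affPerm_apply, Equiv.Perm.one_apply]
    have h1 : (S * T) • (S * T) • (S * T) • x = x := by
      rw [smul_smul, smul_smul, ST_cube_eq_neg_one, hneg]
    rw [h1, add_assoc, add_assoc, ← add_assoc (c x), hc, add_zero]
  obtain ⟨Φ, hΦS, hΦU⟩ := exists_hom_of_sq_cube _ _ hs hu
  -- every `Φ g` is affine over `g`
  have hP : ∀ g : SL(2, ℤ), ∃ m : X → A, ∀ x t, Φ g (x, t) = (g • x, t + m x) := by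
    intro g
    have hg : g ∈ Subgroup.closure ({S, S * T} : Set SL(2, ℤ)) := by
      have hle : Subgroup.closure ({S, T} : Set SL(2, ℤ)) ≤
          Subgroup.closure ({S, S * T} : Set SL(2, ℤ)) := by
        rw [Subgroup.closure_le]
        rintro x (rfl | rfl)
        · exact Subgroup.subset_closure (by simp)
        · have h1 : S ∈ Subgroup.closure ({S, S * T} : Set SL(2, ℤ)) :=
            Subgroup.subset_closure (by simp)
          have h2 : S * T ∈ Subgroup.closure ({S, S * T} : Set SL(2, ℤ)) :=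
            Subgroup.subset_closure (by simp)
          have h3 := mul_mem (inv_mem h1) h2
          rwa [inv_mul_cancel_left] at h3
      apply hle
      rw [_root_.SpecialLinearGroup.SL2Z_generators]; trivial
    induction hg using Subgroup.closure_induction with
    | mem x hx =>
      rcases hx with rfl | rfl
      · exact ⟨a, fun x t => by rw [hΦS, affPerm_apply]⟩
      · exact ⟨c, fun x t => by rw [hΦU, affPerm_apply]⟩
    | one => exact ⟨0, fun x t => by simp⟩
    | mul g h _ _ hg hh =>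
      obtain ⟨m, hm⟩ := hg
      obtain ⟨n, hn⟩ := hh
      refine ⟨fun x => n x + m (h • x), fun x t => ?_⟩
      rw [map_mul, Equiv.Perm.mul_apply, hn, hm, mul_smul, add_assoc]
    | inv g _ hg =>
      obtain ⟨m, hm⟩ := hg
      refine ⟨fun x => - m (g⁻¹ • x), fun x t => ?_⟩
      rw [map_inv, Equiv.Perm.inv_eq_iff_eq, hm, smul_inv_smul]
      simp
  choose m hm using hP
  refine ⟨m, ?_, ?_, ?_⟩
  · intro g h x
    have h1 := hm (g * h) x 0
    rw [map_mul, Equiv.Perm.mul_apply, hm h, hm g, zero_add, zero_add] at h1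
    exact (congrArg Prod.snd h1).symm
  · funext x
    have h1 := hm S x 0
    rw [hΦS, affPerm_apply] at h1
    simpa using (congrArg Prod.snd h1).symm
  · funext x
    have h1 := hm (S * T) x 0
    rw [hΦU, affPerm_apply] at h1
    simpa using (congrArg Prod.snd h1).symm

end Fermat.Agent.S21.H585

end
-- ===== PACK-END S21/H585/Cocycle.lean

-- ===== PACK-BEGIN S41/H761/CosetSystem2.lean
section



/-!
# Coset systems, part 2 (helper761, row S41, block HK)

* `transfer_eq_of_le_of_card` : comparison of two coset systems with index sets of the same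
  cardinality;
* `IsCosetSystem.conj` : conjugation of a coset system by an element of the ambient group.
-/

set_option autoImplicit false

namespace Fermat.Agent.S41.H761

namespace IsCosetSystem

variable {𝒢 Γ Γ' : Type*} [Group 𝒢] [Group Γ] [Group Γ']
variable {I J : Type*} {ι : Γ →* 𝒢} {ι' : Γ' →* 𝒢} {ρ : I → 𝒢} {ρ' : J → 𝒢}
variable {A : Type*} [AddCommGroup A]

/-- **Comparison** (cardinality version).  Two coset systems with index sets of the same
cardinality such that every coset of the first is a coset of the second have the same transfer. -/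
theorem transfer_eq_of_le_of_card [Fintype I] [Fintype J] (h : IsCosetSystem ι ι' ρ)
    (h' : IsCosetSystem ι ι' ρ') (hcard : Fintype.card I = Fintype.card J)
    (hle : ∀ i, ∃ (j : J) (g : Γ), ρ i = ι g * ρ' j) (φ : Additive Γ →+ A) :
    h.transfer φ = h'.transfer φ := by
  classical
  choose e β hβ using hle
  have key : ∀ (i : I) (g' : Γ'), h'.act (e i) g' = e (h.act i g') ∧
      h'.coc (e i) g' = (β i)⁻¹ * h.coc i g' * β (h.act i g') := by
    intro i g'
    apply h'.unique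
    have h1 : ρ' (e i) = ι (β i)⁻¹ * ρ i := by
      rw [hβ i, map_inv, inv_mul_cancel_left]
    rw [h1, mul_assoc, h.spec i g', hβ (h.act i g')]
    simp only [map_mul, map_inv, mul_assoc]
  have einj : Function.Injective e := by
    intro i i' hii
    apply h.eq_of_mul i i' (β i * (β i')⁻¹)
    rw [hβ i, hii, map_mul, map_inv, mul_assoc, hβ i', inv_mul_cancel_left]
  have ebij : Function.Bijective e :=
    (Fintype.bijective_iff_injective_and_card e).mpr ⟨einj, hcard⟩
  let E : I ≃ J := Equiv.ofBijective e ebij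
  refine AddMonoidHom.ext fun g' => ?_
  obtain ⟨g, rfl⟩ : ∃ g : Γ', Additive.ofMul g = g' := ⟨Additive.toMul g', rfl⟩
  rw [transfer_apply, transfer_apply, ← Equiv.sum_comp E]
  have hE : ∀ i, E i = e i := fun _ => rfl
  simp only [hE, (key _ g).2, ofMul_mul, ofMul_inv, map_add, map_neg, Finset.sum_add_distrib,
    Finset.sum_neg_distrib]
  have hperm : ∑ i, φ (Additive.ofMul (β (h.act i g))) = ∑ i, φ (Additive.ofMul (β i)) :=
    Equiv.sum_comp (h.actEquiv g) (fun i => φ (Additive.ofMul (β i)))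
  rw [hperm]
  abel

/-- Conjugation of a coset system: if `d * ι g = κ g * d` and `d * ι' g' = κ' g' * d`, then
`i ↦ d * ρ i * d⁻¹` is a coset system for `κ, κ'`. -/
theorem conj (h : IsCosetSystem ι ι' ρ) (d : 𝒢) {κ : Γ →* 𝒢} {κ' : Γ' →* 𝒢}
    (hκ : ∀ g, d * ι g = κ g * d) (hκ' : ∀ g', d * ι' g' = κ' g' * d) :
    IsCosetSystem κ κ' (fun i => d * ρ i * d⁻¹) where
  inj := by
    intro g g' e
    apply h.inj
    have h1 := hκ g
    have h2 := hκ g'
    rw [e, ← h2] at h1
    exact mul_left_cancel h1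
  exists_mul := by
    intro i g'
    refine ⟨h.act i g', h.coc i g', ?_⟩
    have h1 : κ' g' = d * ι' g' * d⁻¹ := by rw [hκ' g', mul_inv_cancel_right]
    have h2 : κ (h.coc i g') = d * ι (h.coc i g') * d⁻¹ := by rw [hκ _, mul_inv_cancel_right]
    rw [h1, h2]
    simp only [mul_assoc, inv_mul_cancel_left]
    rw [← mul_assoc (ρ i), h.spec i g']
    simp only [mul_assoc]
  eq_of_mul := by
    intro i j g e
    apply h.eq_of_mul i j g
    have h2 : κ g = d * ι g * d⁻¹ := by rw [hκ _, mul_inv_cancel_right]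
    rw [h2] at e
    simp only [mul_assoc, inv_mul_cancel_left] at e
    have e2 := mul_left_cancel e
    rw [← mul_assoc] at e2
    exact mul_right_cancel e2

theorem conj_coc (h : IsCosetSystem ι ι' ρ) (d : 𝒢) {κ : Γ →* 𝒢} {κ' : Γ' →* 𝒢}
    (hκ : ∀ g, d * ι g = κ g * d) (hκ' : ∀ g', d * ι' g' = κ' g' * d) (i : I) (g' : Γ') :
    (h.conj d hκ hκ').coc i g' = h.coc i g' := by
  apply (h.conj d hκ hκ').coc_eq (j := h.act i g')
  have h1 : κ' g' = d * ι' g' * d⁻¹ := by rw [hκ' g', mul_inv_cancel_right]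
  have h2 : κ (h.coc i g') = d * ι (h.coc i g') * d⁻¹ := by rw [hκ _, mul_inv_cancel_right]
  rw [h1, h2]
  simp only [mul_assoc, inv_mul_cancel_left]
  rw [← mul_assoc (ρ i), h.spec i g']
  simp only [mul_assoc]

theorem conj_transfer [Fintype I] (h : IsCosetSystem ι ι' ρ) (d : 𝒢) {κ : Γ →* 𝒢}
    {κ' : Γ' →* 𝒢} (hκ : ∀ g, d * ι g = κ g * d) (hκ' : ∀ g', d * ι' g' = κ' g' * d)
    (φ : Additive Γ →+ A) : (h.conj d hκ hκ').transfer φ = h.transfer φ := by
  refine AddMonoidHom.ext fun g' => ?_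
  obtain ⟨g, rfl⟩ : ∃ g : Γ', Additive.ofMul g = g' := ⟨Additive.toMul g', rfl⟩
  rw [transfer_apply, transfer_apply]
  exact Finset.sum_congr rfl fun i _ => by rw [conj_coc h d hκ hκ']

/-- A coset system only depends on the values of the embeddings. -/
theorem congr (h : IsCosetSystem ι ι' ρ) {κ : Γ →* 𝒢} {κ' : Γ' →* 𝒢} (hκ : ∀ g, ι g = κ g)
    (hκ' : ∀ g', ι' g' = κ' g') : IsCosetSystem κ κ' ρ := by
  have e1 : ι = κ := MonoidHom.ext hκ
  have e2 : ι' = κ' := MonoidHom.ext hκ'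
  rw [← e1, ← e2]
  exact h

end IsCosetSystem

end Fermat.Agent.S41.H761

end
-- ===== PACK-END S41/H761/CosetSystem2.lean

-- ===== PACK-BEGIN S41/H683/PDTrCore.lean
section



/-!
# Row S41, block PD, leaf TR — restriction / corestriction of cocycles (helper683)

Mathlib-only cores (plus the Mathlib-only `S41/H761/CosetSystem.lean`) of the four statements
`TransferAlongEquivStatement`, `ManinRepResStatement`, `ManinRepCoresStatement`,
`ManinFormAdjointStatement` of `Spec/PD.lean`, stated WITHOUT the `Spec` definitions so that they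
can be used with either family of interface files (`Spec/Defs.lean` or `Spec/HK.lean`).

* `pushFwd hle m'` : the push-forward of functions along `π : G ⧸ Γ' → G ⧸ Γ` (fibre sums);
* `trfH ι ψ` : verbatim copy of `Spec.trf` (`= Spec.transferAlong`), the transfer along an
  injective homomorphism with finite-index range;
* `trfH_comp_equiv` : TR-4;
* `cocycle_res` : TR-1 (pull-back of cocycles);
* `cocycle_pushFwd`, `trfH_inclusion_apply` : TR-2 (the transfer is the push-forward of cocycles);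
* `parData_pushFwd`, `sum_pullback_mul_eq` : TR-3.
-/

set_option autoImplicit false

namespace Fermat.Agent.S41.H683

open scoped Pointwise

section Fibre

variable {G : Type*} [Group G] {Γ' Γ : Subgroup G}

/-- `π : G ⧸ Γ' → G ⧸ Γ` is equivariant. -/
theorem quotientMapOfLE_smul (hle : Γ' ≤ Γ) (g : G) (x' : G ⧸ Γ') :
    Subgroup.quotientMapOfLE hle (g • x') = g • Subgroup.quotientMapOfLE hle x' := by
  induction x' using QuotientGroup.induction_on with
  | H h => rfl

/-- The push-forward of a function along `π : G ⧸ Γ' → G ⧸ Γ` (sum over the fibres). -/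
noncomputable def pushFwd (hle : Γ' ≤ Γ) {A : Type*} [AddCommMonoid A] (m' : G ⧸ Γ' → A)
    (x : G ⧸ Γ) : A :=
  ∑ᶠ (x' : G ⧸ Γ') (_ : Subgroup.quotientMapOfLE hle x' = x), m' x'

variable {A : Type*} [AddCommGroup A]

theorem pushFwd_eq_sum (hle : Γ' ≤ Γ) [Fintype (G ⧸ Γ')] [DecidableEq (G ⧸ Γ)]
    (m' : G ⧸ Γ' → A) (x : G ⧸ Γ) :
    pushFwd hle m' x =
      ∑ x' : G ⧸ Γ', if Subgroup.quotientMapOfLE hle x' = x then m' x' else 0 := by
  unfold pushFwd
  rw [finsum_eq_sum_of_fintype]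
  refine Finset.sum_congr rfl fun x' _ => ?_
  rw [finsum_eq_if]

/-- The push-forward commutes with the action of `G`. -/
theorem pushFwd_smul (hle : Γ' ≤ Γ) (m' : G ⧸ Γ' → A) (g : G) (x : G ⧸ Γ) :
    pushFwd hle m' (g • x) = pushFwd hle (fun y => m' (g • y)) x := by
  unfold pushFwd
  rw [← finsum_comp_equiv (MulAction.toPerm g : Equiv.Perm (G ⧸ Γ'))]
  refine finsum_congr fun y => ?_
  have hiff : Subgroup.quotientMapOfLE hle ((MulAction.toPerm g : Equiv.Perm (G ⧸ Γ')) y) = g • x ↔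
      Subgroup.quotientMapOfLE hle y = x := by
    rw [MulAction.toPerm_apply, quotientMapOfLE_smul]
    exact smul_left_cancel_iff g
  classical
  rw [finsum_eq_if, finsum_eq_if]
  by_cases h : Subgroup.quotientMapOfLE hle y = x
  · rw [if_pos h, if_pos (hiff.mpr h)]
    rfl
  · rw [if_neg h, if_neg (fun hh => h (hiff.mp hh))]

theorem pushFwd_sub (hle : Γ' ≤ Γ) [Finite (G ⧸ Γ')] (m₁ m₂ : G ⧸ Γ' → A) (x : G ⧸ Γ) :
    pushFwd hle (fun y => m₁ y - m₂ y) x = pushFwd hle m₁ x - pushFwd hle m₂ x := by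
  classical
  let _ := Fintype.ofFinite (G ⧸ Γ')
  rw [pushFwd_eq_sum, pushFwd_eq_sum, pushFwd_eq_sum, ← Finset.sum_sub_distrib]
  refine Finset.sum_congr rfl fun x' _ => ?_
  split_ifs <;> simp

theorem pushFwd_add (hle : Γ' ≤ Γ) [Finite (G ⧸ Γ')] (m₁ m₂ : G ⧸ Γ' → A) (x : G ⧸ Γ) :
    pushFwd hle (fun y => m₁ y + m₂ y) x = pushFwd hle m₁ x + pushFwd hle m₂ x := by
  classical
  let _ := Fintype.ofFinite (G ⧸ Γ')
  rw [pushFwd_eq_sum, pushFwd_eq_sum, pushFwd_eq_sum, ← Finset.sum_add_distrib]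
  refine Finset.sum_congr rfl fun x' _ => ?_
  split_ifs <;> simp

theorem pushFwd_zero (hle : Γ' ≤ Γ) (x : G ⧸ Γ) :
    pushFwd hle (fun _ => (0 : A)) x = 0 := by
  unfold pushFwd
  simp

/-- Projection formula: `∑ₓ m x * (π_* F) x = ∑ₓ' m (π x') * F x'`. -/
theorem sum_mul_pushFwd (hle : Γ' ≤ Γ) {R : Type*} [CommRing R] [Fintype (G ⧸ Γ')]
    [Fintype (G ⧸ Γ)] (m : G ⧸ Γ → R) (F : G ⧸ Γ' → R) :
    ∑ x : G ⧸ Γ, m x * pushFwd hle F x =
      ∑ x' : G ⧸ Γ', m (Subgroup.quotientMapOfLE hle x') * F x' := by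
  classical
  simp only [pushFwd_eq_sum, Finset.mul_sum]
  rw [Finset.sum_comm]
  refine Finset.sum_congr rfl fun x' _ => ?_
  rw [Finset.sum_eq_single (Subgroup.quotientMapOfLE hle x')]
  · rw [if_pos rfl]
  · intro x _ hx
    rw [if_neg (fun h => hx h.symm), mul_zero]
  · intro h
    exact absurd (Finset.mem_univ _) h

end Fibre

section Trf

variable {G H : Type*} [Group G] [Group H] {A : Type*} [AddCommGroup A]

/-- Transfer of `ψ : Additive H →+ A` along an injective `ι : H →* G` with finite-index range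
(`0` otherwise).  Verbatim the definition of `Spec.trf` / `Spec.transferAlong`. -/
noncomputable def trfH (ι : H →* G) (ψ : Additive H →+ A) : Additive G →+ A :=
  open scoped Classical in
  if h : Function.Injective ι ∧ ι.range.FiniteIndex then
    haveI := h.2
    MonoidHom.toAdditiveLeft
      (MonoidHom.transfer
        ((AddMonoidHom.toMultiplicativeRight ψ).comp
          (MonoidHom.ofInjective h.1).symm.toMonoidHom))
  else 0

theorem trfH_def (ι : H →* G) (h : Function.Injective ι ∧ ι.range.FiniteIndex)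
    (ψ : Additive H →+ A) :
    trfH ι ψ = haveI := h.2
      MonoidHom.toAdditiveLeft
        (MonoidHom.transfer
          ((AddMonoidHom.toMultiplicativeRight ψ).comp
            (MonoidHom.ofInjective h.1).symm.toMonoidHom)) := by
  unfold trfH
  rw [dif_pos h]

theorem trfH_of_not (ι : H →* G) (h : ¬ (Function.Injective ι ∧ ι.range.FiniteIndex))
    (ψ : Additive H →+ A) : trfH ι ψ = 0 := by
  unfold trfH
  rw [dif_neg h]

/-- The transfer depends only on the subgroup and on the values of the homomorphism. -/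
theorem transfer_congr_subgroup {B : Type*} [CommGroup B] {H₁ H₂ : Subgroup G} (h : H₁ = H₂)
    [H₁.FiniteIndex] [H₂.FiniteIndex] (φ₁ : H₁ →* B) (φ₂ : H₂ →* B)
    (hφ : ∀ x : H₁, φ₁ x = φ₂ ⟨x, h ▸ x.2⟩) : φ₁.transfer = φ₂.transfer := by
  subst h
  have : φ₁ = φ₂ := MonoidHom.ext fun x => hφ x
  rw [this]

/-- **TR-4**: transfer along `f' ∘ e`, `e` an isomorphism. -/
theorem trfH_comp_equiv {H' : Type*} [Group H'] (e : H ≃* H') (f' : H' →* G)
    (ψ : Additive H →+ A) :
    trfH (f'.comp e.toMonoidHom) ψ =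
      trfH f' (ψ.comp (MonoidHom.toAdditive e.symm.toMonoidHom)) := by
  have hrange : (f'.comp e.toMonoidHom).range = f'.range := by
    ext x
    constructor
    · rintro ⟨y, rfl⟩
      exact ⟨e y, rfl⟩
    · rintro ⟨z, rfl⟩
      exact ⟨e.symm z, by simp⟩
  have hinj : Function.Injective (f'.comp e.toMonoidHom) ↔ Function.Injective f' := by
    constructor
    · intro h a b hab
      have := h (a₁ := e.symm a) (a₂ := e.symm b) (by simpa using hab)
      exact e.symm.injective this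
    · intro h
      exact h.comp e.injective
  by_cases hc : Function.Injective f' ∧ f'.range.FiniteIndex
  · have hc' : Function.Injective (f'.comp e.toMonoidHom) ∧
        (f'.comp e.toMonoidHom).range.FiniteIndex := ⟨hinj.mpr hc.1, by rw [hrange]; exact hc.2⟩
    rw [trfH_def _ hc', trfH_def _ hc]
    have := hc.2
    have := hc'.2
    congr 1
    refine transfer_congr_subgroup hrange _ _ fun x => ?_
    simp only [MonoidHom.coe_comp, Function.comp_apply, MulEquiv.coe_toMonoidHom]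
    -- the two preimages agree
    have h1 : f' (e ((MonoidHom.ofInjective hc'.1).symm x)) = (x : G) := by
      have h0 := MonoidHom.ofInjective_apply hc'.1 (x := (MonoidHom.ofInjective hc'.1).symm x)
      rw [MulEquiv.apply_symm_apply] at h0
      exact h0.symm
    have h2 : f' ((MonoidHom.ofInjective hc.1).symm ⟨x, hrange ▸ x.2⟩) = (x : G) := by
      have h0 := MonoidHom.ofInjective_apply hc.1
        (x := (MonoidHom.ofInjective hc.1).symm ⟨x, hrange ▸ x.2⟩)
      rw [MulEquiv.apply_symm_apply] at h0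
      exact h0.symm
    have h3 : e ((MonoidHom.ofInjective hc'.1).symm x) =
        (MonoidHom.ofInjective hc.1).symm ⟨x, hrange ▸ x.2⟩ := hc.1 (h1.trans h2.symm)
    show ψ (Additive.ofMul ((MonoidHom.ofInjective hc'.1).symm x)) =
      ψ (Additive.ofMul (e.symm ((MonoidHom.ofInjective hc.1).symm ⟨x, hrange ▸ x.2⟩)))
    rw [← h3, MulEquiv.symm_apply_apply]
  · have hc' : ¬ (Function.Injective (f'.comp e.toMonoidHom) ∧
        (f'.comp e.toMonoidHom).range.FiniteIndex) := by
      rintro ⟨h1, h2⟩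
      exact hc ⟨hinj.mp h1, by rw [← hrange]; exact h2⟩
    rw [trfH_of_not _ hc', trfH_of_not _ hc]

end Trf

section Cocycle

variable {G : Type*} [Group G] {Γ' Γ : Subgroup G} {A : Type*} [AddCommGroup A]

/-- **TR-1**: the pull-back of a cocycle along `π : G ⧸ Γ' → G ⧸ Γ` is a cocycle. -/
theorem cocycle_res (hle : Γ' ≤ Γ) (f : G → G ⧸ Γ → A)
    (hf : ∀ (g h : G) (x : G ⧸ Γ), f (g * h) x = f h x + f g (h • x)) :
    ∀ (g h : G) (x : G ⧸ Γ'),
      f (g * h) (Subgroup.quotientMapOfLE hle x) =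
        f h (Subgroup.quotientMapOfLE hle x) + f g (Subgroup.quotientMapOfLE hle (h • x)) := by
  intro g h x
  rw [hf, quotientMapOfLE_smul]

/-- **TR-2a**: the push-forward of a cocycle along `π : G ⧸ Γ' → G ⧸ Γ` is a cocycle. -/
theorem cocycle_pushFwd (hle : Γ' ≤ Γ) [Finite (G ⧸ Γ')] (f' : G → G ⧸ Γ' → A)
    (hf' : ∀ (g h : G) (x : G ⧸ Γ'), f' (g * h) x = f' h x + f' g (h • x)) :
    ∀ (g h : G) (x : G ⧸ Γ),
      pushFwd hle (f' (g * h)) x = pushFwd hle (f' h) x + pushFwd hle (f' g) (h • x) := by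
  intro g h x
  rw [pushFwd_smul, ← pushFwd_add]
  congr 1
  funext y
  exact hf' g h y

/-- Push-forward of a coboundary. -/
theorem pushFwd_cobd (hle : Γ' ≤ Γ) [Finite (G ⧸ Γ')] (m' : G ⧸ Γ' → A) (u : G) (x : G ⧸ Γ) :
    pushFwd hle (fun y => m' (u • y) - m' y) x = pushFwd hle m' (u • x) - pushFwd hle m' x := by
  rw [pushFwd_sub, pushFwd_smul]

/-- **TR-3a**: push-forward of parabolic data. -/
theorem parData_pushFwd (hle : Γ' ≤ Γ) [Finite (G ⧸ Γ')] (t u : G) (m' e' : G ⧸ Γ' → A)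
    (h : ∀ x : G ⧸ Γ', e' (t • x) - e' x = m' (u • x) - m' x) :
    ∀ x : G ⧸ Γ, pushFwd hle e' (t • x) - pushFwd hle e' x =
      pushFwd hle m' (u • x) - pushFwd hle m' x := by
  intro x
  rw [← pushFwd_cobd, ← pushFwd_cobd]
  congr 1
  funext y
  exact h y

/-- **TR-3b**: adjunction for the Manin form. -/
theorem finsum_pullback_mul_eq (hle : Γ' ≤ Γ) [Finite (G ⧸ Γ')] {R : Type*} [CommRing R]
    (s : G) (m : G ⧸ Γ → R) (e' : G ⧸ Γ' → R) :
    ∑ᶠ x' : G ⧸ Γ', m (Subgroup.quotientMapOfLE hle x') * (e' x' - e' (s • x')) =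
      ∑ᶠ x : G ⧸ Γ, m x * (pushFwd hle e' x - pushFwd hle e' (s • x)) := by
  classical
  haveI : Finite (G ⧸ Γ) :=
    Finite.of_surjective (Subgroup.quotientMapOfLE hle) (by
      intro x
      induction x using QuotientGroup.induction_on with
      | H g => exact ⟨(g : G ⧸ Γ'), rfl⟩)
  letI := Fintype.ofFinite (G ⧸ Γ')
  letI := Fintype.ofFinite (G ⧸ Γ)
  rw [finsum_eq_sum_of_fintype, finsum_eq_sum_of_fintype]
  have h1 : ∀ x : G ⧸ Γ, pushFwd hle e' x - pushFwd hle e' (s • x) =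
      pushFwd hle (fun y => e' y - e' (s • y)) x := by
    intro x
    rw [pushFwd_sub, pushFwd_smul]
  simp only [h1]
  rw [sum_mul_pushFwd]

end Cocycle

section Transfer

variable {G : Type*} [Group G] {Γ' Γ : Subgroup G} {A : Type*} [AddCommGroup A]

theorem range_inclusion_finiteIndex (hle : Γ' ≤ Γ) [Γ'.FiniteIndex] :
    (Subgroup.inclusion hle).range.FiniteIndex := by
  rw [Subgroup.inclusion_range]
  infer_instance

/-- The map from the cosets of `Γ'` in `Γ` to the fibre of `π : G ⧸ Γ' → G ⧸ Γ` over the base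
point. -/
noncomputable def fibreMap (hle : Γ' ≤ Γ) (q : Γ ⧸ (Subgroup.inclusion hle).range) : G ⧸ Γ' :=
  (((q.out : Γ) : G) : G ⧸ Γ')

theorem mem_range_inclusion_iff (hle : Γ' ≤ Γ) (γ : Γ) :
    γ ∈ (Subgroup.inclusion hle).range ↔ (γ : G) ∈ Γ' := by
  rw [Subgroup.inclusion_range, Subgroup.mem_subgroupOf]

theorem fibreMap_mk (hle : Γ' ≤ Γ) (γ : Γ) :
    fibreMap hle (γ : Γ ⧸ (Subgroup.inclusion hle).range) = ((γ : G) : G ⧸ Γ') := by
  unfold fibreMap
  rw [QuotientGroup.eq]
  have h1 : ((γ : Γ ⧸ (Subgroup.inclusion hle).range)).out⁻¹ * γ ∈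
      (Subgroup.inclusion hle).range := by
    rw [← QuotientGroup.eq, QuotientGroup.out_eq']
  rw [mem_range_inclusion_iff] at h1
  simpa using h1

theorem quotientMapOfLE_fibreMap (hle : Γ' ≤ Γ) (q : Γ ⧸ (Subgroup.inclusion hle).range) :
    Subgroup.quotientMapOfLE hle (fibreMap hle q) = ((1 : G) : G ⧸ Γ) := by
  unfold fibreMap
  rw [Subgroup.quotientMapOfLE_apply_mk, QuotientGroup.eq, mul_one]
  exact inv_mem (q.out).2

theorem fibreMap_injective (hle : Γ' ≤ Γ) : Function.Injective (fibreMap hle) := by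
  intro q q' h
  induction q using QuotientGroup.induction_on with
  | H γ =>
    induction q' using QuotientGroup.induction_on with
    | H γ' =>
      rw [fibreMap_mk, fibreMap_mk, QuotientGroup.eq] at h
      rw [QuotientGroup.eq, mem_range_inclusion_iff]
      simpa using h

theorem exists_fibreMap_eq (hle : Γ' ≤ Γ) (x' : G ⧸ Γ')
    (hx' : Subgroup.quotientMapOfLE hle x' = ((1 : G) : G ⧸ Γ)) :
    ∃ q, fibreMap hle q = x' := by
  induction x' using QuotientGroup.induction_on with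
  | H g =>
    rw [Subgroup.quotientMapOfLE_apply_mk, QuotientGroup.eq, mul_one] at hx'
    have hg : g ∈ Γ := by simpa using inv_mem hx'
    exact ⟨((⟨g, hg⟩ : Γ) : Γ ⧸ (Subgroup.inclusion hle).range), fibreMap_mk hle ⟨g, hg⟩⟩

theorem fibreMap_smul (hle : Γ' ≤ Γ) (γ : Γ) (q : Γ ⧸ (Subgroup.inclusion hle).range) :
    fibreMap hle (γ • q) = (γ : G) • fibreMap hle q := by
  induction q using QuotientGroup.induction_on with
  | H δ =>
    rw [MulAction.Quotient.smul_mk, fibreMap_mk, fibreMap_mk, smul_eq_mul,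
      MulAction.Quotient.smul_mk, smul_eq_mul, Subgroup.coe_mul]

/-- Sum over the fibre above the base point. -/
theorem sum_fibreMap (hle : Γ' ≤ Γ) [Fintype (G ⧸ Γ')]
    [Fintype (Γ ⧸ (Subgroup.inclusion hle).range)] (F : G ⧸ Γ' → A) :
    ∑ q : Γ ⧸ (Subgroup.inclusion hle).range, F (fibreMap hle q) =
      pushFwd hle F ((1 : G) : G ⧸ Γ) := by
  classical
  rw [pushFwd_eq_sum, ← Finset.sum_filter]
  rw [← Finset.sum_image (f := F) (g := fibreMap hle) (s := Finset.univ)
    (fun a _ b _ h => fibreMap_injective hle h)]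
  refine Finset.sum_congr ?_ fun _ _ => rfl
  ext x'
  simp only [Finset.mem_image, Finset.mem_univ, true_and, Finset.mem_filter]
  constructor
  · rintro ⟨q, rfl⟩
    exact quotientMapOfLE_fibreMap hle q
  · intro h
    exact exists_fibreMap_eq hle x' h

/-- **TR-2b**: on a cocycle class, Mathlib's transfer along `Γ' ≤ Γ` is the push-forward. -/
theorem trfH_inclusion_apply (hle : Γ' ≤ Γ) [Γ'.FiniteIndex] (ψ : Additive Γ' →+ A)
    (f' : G → G ⧸ Γ' → A)
    (hf' : ∀ (g h : G) (x : G ⧸ Γ'), f' (g * h) x = f' h x + f' g (h • x))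
    (hψ : ∀ γ : Γ', ψ (Additive.ofMul γ) = f' (γ : G) ((1 : G) : G ⧸ Γ')) (γ : Γ) :
    trfH (Subgroup.inclusion hle) ψ (Additive.ofMul γ) =
      pushFwd hle (f' (γ : G)) ((1 : G) : G ⧸ Γ) := by
  classical
  have hfin := range_inclusion_finiteIndex hle
  letI := (Subgroup.inclusion hle).range.fintypeQuotientOfFiniteIndex
  letI := Γ'.fintypeQuotientOfFiniteIndex
  have hinj : Function.Injective (Subgroup.inclusion hle) := Subgroup.inclusion_injective hle
  -- basic cocycle identities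
  have hone : ∀ x, f' 1 x = 0 := by
    intro x
    have := hf' 1 1 x
    rw [one_mul, one_smul] at this
    exact left_eq_add.mp this
  have hinv : ∀ (a : G) (x : G ⧸ Γ'), f' a⁻¹ (a • x) = - f' a x := by
    intro a x
    have := hf' a⁻¹ a x
    rw [inv_mul_cancel, hone] at this
    exact eq_neg_of_add_eq_zero_right this.symm
  rw [trfH_def _ ⟨hinj, hfin⟩]
  show Multiplicative.toAdd (MonoidHom.transfer _ γ) = _
  rw [Fermat.Agent.S41.H761.transfer_eq_prod_out, toAdd_prod]
  -- the summands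
  have hterm : ∀ q : Γ ⧸ (Subgroup.inclusion hle).range,
      Multiplicative.toAdd (((AddMonoidHom.toMultiplicativeRight ψ).comp
        (MonoidHom.ofInjective hinj).symm.toMonoidHom)
          ⟨(q.out)⁻¹ * γ * (γ⁻¹ • q).out,
            Fermat.Agent.S41.H761.out_inv_mul_mul_out_mem _ γ q⟩) =
      f' (((γ⁻¹ • q).out : Γ) : G) ((1 : G) : G ⧸ Γ') - f' ((q.out : Γ) : G) ((1 : G) : G ⧸ Γ')
        + f' (γ : G) (fibreMap hle (γ⁻¹ • q)) := by
    intro q
    set x : (Subgroup.inclusion hle).range := ⟨(q.out)⁻¹ * γ * (γ⁻¹ • q).out,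
      Fermat.Agent.S41.H761.out_inv_mul_mul_out_mem _ γ q⟩ with hx
    set γ' : Γ' := (MonoidHom.ofInjective hinj).symm x with hγ'
    have h0 : ((γ' : Γ') : G) = ((q.out : Γ) : G)⁻¹ * (γ : G) * (((γ⁻¹ • q).out : Γ) : G) := by
      have h1 := MonoidHom.ofInjective_apply hinj (x := γ')
      rw [hγ', MulEquiv.apply_symm_apply] at h1
      have h2 := congrArg (Subtype.val : Γ → G) h1
      simp only [Subgroup.coe_inclusion] at h2
      rw [← hγ'] at h2
      rw [← h2, hx]
      simp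
    show ψ (Additive.ofMul γ') = _
    rw [hψ, h0]
    set a : G := ((q.out : Γ) : G) with ha
    set c : G := (((γ⁻¹ • q).out : Γ) : G) with hc
    have hfix : (γ : G) • (c • ((1 : G) : G ⧸ Γ')) = a • ((1 : G) : G ⧸ Γ') := by
      have h3 : (a⁻¹ * (γ : G) * c) • ((1 : G) : G ⧸ Γ') = ((1 : G) : G ⧸ Γ') := by
        rw [← h0, MulAction.Quotient.smul_mk, smul_eq_mul, mul_one, QuotientGroup.eq, mul_one]
        exact inv_mem γ'.2
      rw [mul_smul, mul_smul] at h3
      have h4 := congrArg (fun z => a • z) h3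
      simpa using h4
    have hfm : fibreMap hle (γ⁻¹ • q) = c • ((1 : G) : G ⧸ Γ') := by
      unfold fibreMap
      rw [MulAction.Quotient.smul_mk, smul_eq_mul, mul_one]
    rw [hf', hf', hfix, hinv, hfm]
    abel
  rw [Finset.sum_congr rfl fun q _ => hterm q, Finset.sum_add_distrib, Finset.sum_sub_distrib]
  have hperm1 : ∑ q : Γ ⧸ (Subgroup.inclusion hle).range,
      f' (((γ⁻¹ • q).out : Γ) : G) ((1 : G) : G ⧸ Γ') =
      ∑ q : Γ ⧸ (Subgroup.inclusion hle).range, f' ((q.out : Γ) : G) ((1 : G) : G ⧸ Γ') :=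
    Equiv.sum_comp (MulAction.toPerm γ⁻¹ : Equiv.Perm (Γ ⧸ (Subgroup.inclusion hle).range))
      (fun q => f' ((q.out : Γ) : G) ((1 : G) : G ⧸ Γ'))
  have hperm2 : ∑ q : Γ ⧸ (Subgroup.inclusion hle).range, f' (γ : G) (fibreMap hle (γ⁻¹ • q)) =
      ∑ q : Γ ⧸ (Subgroup.inclusion hle).range, f' (γ : G) (fibreMap hle q) :=
    Equiv.sum_comp (MulAction.toPerm γ⁻¹ : Equiv.Perm (Γ ⧸ (Subgroup.inclusion hle).range))
      (fun q => f' (γ : G) (fibreMap hle q))
  rw [hperm1, hperm2, sub_self, zero_add, sum_fibreMap]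

end Transfer

end Fermat.Agent.S41.H683

end
-- ===== PACK-END S41/H683/PDTrCore.lean

-- ===== PACK-BEGIN S28/H86/PoleTrans.lean
section




/-!
# A Laurent series of nonzero order is transcendental over the coefficient field

For a field `k` and `y : LaurentSeries k` with `y ≠ 0` and `y.order ≠ 0`, the evaluation map
`Polynomial k → LaurentSeries k`, `P ↦ P(y)` is injective; more precisely the order of `P(y)` is
`i₀ • y.order` for the exponent `i₀` of the dominant term.
-/

namespace Fermat.Agent.S28.H86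

open Polynomial

variable {k : Type*} [Field k]

theorem hahn_pow_ne_zero {y : LaurentSeries k} (hy : y ≠ 0) (n : ℕ) : y ^ n ≠ 0 :=
  pow_ne_zero n hy

theorem order_pow_eq {y : LaurentSeries k} (hy : y ≠ 0) (n : ℕ) :
    (y ^ n).order = n • y.order := by
  induction n with
  | zero => simp
  | succ n ih =>
    rw [pow_succ, HahnSeries.order_mul (pow_ne_zero n hy) hy, ih, succ_nsmul]

theorem coeff_algebraMap_mul (c : k) (x : LaurentSeries k) (n : ℤ) :
    (algebraMap k (LaurentSeries k) c * x).coeff n = c * x.coeff n := by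
  rw [ModularCurve.algebraMap_laurentSeries_eq_single, HahnSeries.coeff_single_zero_mul]

/-- The coefficient of `P(y)` at `n` as a finite sum. -/
theorem coeff_aeval_eq_sum (y : LaurentSeries k) (P : k[X]) (n : ℤ) :
    (aeval y P).coeff n = ∑ i ∈ P.support, P.coeff i * (y ^ i).coeff n := by
  rw [aeval_def, eval₂_eq_sum, Polynomial.sum, HahnSeries.coeff_sum]
  refine Finset.sum_congr rfl fun i _ => ?_
  exact coeff_algebraMap_mul _ _ _

/-- If `i₀ ∈ P.support` strictly minimises `i • y.order` over the support, then the coefficient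
of `P(y)` at `i₀ • y.order` is nonzero. -/
theorem coeff_aeval_ne_zero_of_min {y : LaurentSeries k} (hy : y ≠ 0) (P : k[X]) (i₀ : ℕ)
    (hi₀ : i₀ ∈ P.support)
    (hmin : ∀ i ∈ P.support, i ≠ i₀ → i₀ • y.order < i • y.order) :
    (aeval y P).coeff (i₀ • y.order) ≠ 0 := by
  rw [coeff_aeval_eq_sum, Finset.sum_eq_single_of_mem i₀ hi₀]
  · refine mul_ne_zero (Polynomial.mem_support_iff.mp hi₀) ?_
    rw [← order_pow_eq hy, ← HahnSeries.leadingCoeff_eq]
    exact HahnSeries.leadingCoeff_ne_zero.mpr (pow_ne_zero _ hy)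
  · intro i hi hne
    rw [HahnSeries.coeff_eq_zero_of_lt_order, mul_zero]
    rw [order_pow_eq hy]
    exact hmin i hi hne

/-- **Transcendence**: a Laurent series of nonzero order is not a root of a nonzero polynomial
with constant coefficients. -/
theorem aeval_ne_zero_of_order_ne_zero {y : LaurentSeries k} (hy : y ≠ 0) (ho : y.order ≠ 0)
    {P : k[X]} (hP : P ≠ 0) : aeval y P ≠ 0 := by
  have hne : P.support.Nonempty := Polynomial.support_nonempty.mpr hP
  rcases lt_or_gt_of_ne ho with hneg | hpos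
  · -- dominant term: the top degree
    have h := coeff_aeval_ne_zero_of_min hy P (P.support.max' hne) (Finset.max'_mem _ _) (by
      intro i hi hne'
      have hlt : i < P.support.max' hne :=
        lt_of_le_of_ne (Finset.le_max' _ _ hi) hne'
      have h1 : (i : ℤ) < (P.support.max' hne : ℤ) := by exact_mod_cast hlt
      rw [nsmul_eq_mul, nsmul_eq_mul]
      exact mul_lt_mul_of_neg_right h1 hneg)
    intro h0
    rw [h0, HahnSeries.coeff_zero] at h
    exact h rfl
  · have h := coeff_aeval_ne_zero_of_min hy P (P.support.min' hne) (Finset.min'_mem _ _) (by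
      intro i hi hne'
      have hlt : P.support.min' hne < i :=
        lt_of_le_of_ne (Finset.min'_le _ _ hi) (Ne.symm hne')
      have h1 : (P.support.min' hne : ℤ) < (i : ℤ) := by exact_mod_cast hlt
      rw [nsmul_eq_mul, nsmul_eq_mul]
      exact mul_lt_mul_of_pos_right h1 hpos)
    intro h0
    rw [h0, HahnSeries.coeff_zero] at h
    exact h rfl

theorem aeval_injective_of_order_ne_zero {y : LaurentSeries k} (hy : y ≠ 0) (ho : y.order ≠ 0) :
    Function.Injective (aeval y : k[X] →ₐ[k] LaurentSeries k) := by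
  rw [injective_iff_map_eq_zero]
  intro P hP
  by_contra h
  exact aeval_ne_zero_of_order_ne_zero hy ho h hP

/-- For `y` of negative order, the order of `P(y)` is `natDegree P • order y`. -/
theorem order_aeval_of_order_neg {y : LaurentSeries k} (hy : y ≠ 0) (ho : y.order < 0)
    {P : k[X]} (hP : P ≠ 0) : (aeval y P).order ≤ P.natDegree • y.order := by
  have hne : P.support.Nonempty := Polynomial.support_nonempty.mpr hP
  have hdeg : P.natDegree ∈ P.support := Polynomial.natDegree_mem_support_of_nonzero hP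
  have h := coeff_aeval_ne_zero_of_min hy P P.natDegree hdeg (by
    intro i hi hne'
    have hlt : i < P.natDegree :=
      lt_of_le_of_ne (Polynomial.le_natDegree_of_mem_supp i hi) hne'
    have h1 : (i : ℤ) < (P.natDegree : ℤ) := by exact_mod_cast hlt
    rw [nsmul_eq_mul, nsmul_eq_mul]
    exact mul_lt_mul_of_neg_right h1 ho)
  exact HahnSeries.order_le_of_coeff_ne_zero h

/-- For `y` of negative order, `P(y)` has order `≤ 0`. -/
theorem order_aeval_le_zero_of_order_neg {y : LaurentSeries k} (hy : y ≠ 0) (ho : y.order < 0)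
    {P : k[X]} (hP : P ≠ 0) : (aeval y P).order ≤ 0 := by
  refine le_trans (order_aeval_of_order_neg hy ho hP) ?_
  rw [nsmul_eq_mul]
  exact mul_nonpos_of_nonneg_of_nonpos (by positivity) ho.le

end Fermat.Agent.S28.H86

end
-- ===== PACK-END S28/H86/PoleTrans.lean

-- ===== PACK-BEGIN S28/H86/GaussGen.lean
section




/-!
# The Gauss valuation ring of `O((t))` for a general coefficient DVR `O ⊆ E`

`E` a field, `O : Subring E`, `res : O →+* k` onto-ish a field `k` with kernel `(π)`, such that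
every nonzero element of `O` is `π ^ n * y` with `res y ≠ 0` (`UnifData`).

* `inclL O : LaurentSeries O →+* LaurentSeries E`, `redL res : LaurentSeries O →+* LaurentSeries k`
* `gaussRing O res : Subring (LaurentSeries E)` = localisation of `O((t))` at `(π)`
* `gaussRed : gaussRing O res →+* LaurentSeries k`, kernel `= π · gaussRing`
* `gaussFrac O : Subfield (LaurentSeries E)`, the valuation-ring dichotomy, integral closedness.
-/

set_option autoImplicit false
set_option linter.unusedSectionVars false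

noncomputable section

namespace Fermat.Agent.S28.H86

open ModularCurve

/-- Uniformiser data: `ker res = (π)`, `π ≠ 0`, every nonzero element is `π ^ n * (unit mod π)`. -/
structure UnifData {E : Type*} [Field E] (O : Subring E) {k : Type*} [Field k]
    (res : O →+* k) (π : O) : Prop where
  ker : ∀ x : O, res x = 0 ↔ ∃ y : O, x = π * y
  ne_zero : π ≠ 0
  prim : ∀ x : O, x ≠ 0 → ∃ (n : ℕ) (y : O), x = π ^ n * y ∧ res y ≠ 0

section Basic

variable {E : Type*} [Field E] (O : Subring E) {k : Type*} [Field k] (res : O →+* k) {π : O}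

/-- The inclusion `O((t)) → E((t))`. -/
def inclL : LaurentSeries O →+* LaurentSeries E := coeffMap O.subtype

@[simp] theorem inclL_coeff (a : LaurentSeries O) (n : ℤ) :
    (inclL O a).coeff n = (a.coeff n : E) := rfl

theorem inclL_injective : Function.Injective (inclL O) := by
  intro a b h
  ext n
  have := congrArg (fun x => x.coeff n) h
  simpa using this

theorem inclL_ne_zero {a : LaurentSeries O} (ha : a ≠ 0) : inclL O a ≠ 0 :=
  fun h => ha (inclL_injective O (h.trans (map_zero _).symm))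

variable {O} in
/-- Coefficientwise reduction `O((t)) → k((t))`. -/
def redL : LaurentSeries O →+* LaurentSeries k := coeffMap res

@[simp] theorem redL_coeff (a : LaurentSeries O) (n : ℤ) :
    (redL res a).coeff n = res (a.coeff n) := rfl

variable {O res}

theorem res_pi (h : UnifData O res π) : res π = 0 := (h.ker π).mpr ⟨1, (mul_one π).symm⟩

theorem coe_pi_ne_zero (h : UnifData O res π) : (π : E) ≠ 0 :=
  fun h0 => h.ne_zero (Subtype.ext h0)

/-- Division by `π` on `O` (junk value `0` on non-multiples). -/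
def divPi (π : O) : ZeroHom O O where
  toFun x := by
    classical
    exact if h : π ≠ 0 ∧ ∃ y : O, x = π * y then h.2.choose else 0
  map_zero' := by
    classical
    by_cases h : π ≠ 0 ∧ ∃ y : O, (0 : O) = π * y
    · simp only [dif_pos h]
      have := h.2.choose_spec
      rcases mul_eq_zero.mp this.symm with h' | h'
      · exact absurd h' h.1
      · exact h'
    · simp only [dif_neg h]

theorem pi_mul_divPi (h : UnifData O res π) {x : O} (hx : res x = 0) : π * divPi π x = x := by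
  classical
  have h1 : π ≠ 0 ∧ ∃ y : O, x = π * y := ⟨h.ne_zero, (h.ker x).mp hx⟩
  show π * (if h : π ≠ 0 ∧ ∃ y : O, x = π * y then h.2.choose else 0) = x
  rw [dif_pos h1]
  exact h1.2.choose_spec.symm

theorem redL_eq_zero_iff (h : UnifData O res π) (a : LaurentSeries O) :
    redL res a = 0 ↔ ∃ a' : LaurentSeries O, a = HahnSeries.C π * a' := by
  constructor
  · intro h0
    refine ⟨a.map (divPi π), ?_⟩
    ext n
    rw [HahnSeries.C_mul_eq_smul, HahnSeries.coeff_smul, HahnSeries.map_coeff, smul_eq_mul,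
      pi_mul_divPi h]
    have := congrArg (fun x => x.coeff n) h0
    simpa using this
  · rintro ⟨a', rfl⟩
    ext n
    rw [HahnSeries.C_mul_eq_smul, redL_coeff, HahnSeries.coeff_smul, smul_eq_mul, map_mul,
      res_pi h, zero_mul, HahnSeries.coeff_zero]

theorem redL_C_pi (h : UnifData O res π) : redL res (HahnSeries.C π) = 0 :=
  (redL_eq_zero_iff h _).mpr ⟨1, by rw [mul_one]⟩

variable (O) in
/-- The uniformiser as a constant Laurent series over `E`. -/
def piL (π : O) : LaurentSeries E := HahnSeries.C (π : E)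

theorem inclL_C (c : O) : inclL O (HahnSeries.C c) = HahnSeries.C (c : E) := by
  ext n
  by_cases hn : n = 0
  · subst hn; simp [HahnSeries.C_apply]
  · simp [HahnSeries.C_apply, HahnSeries.coeff_single_of_ne hn]

theorem inclL_C_pi : inclL O (HahnSeries.C π) = piL O π := inclL_C π

theorem piL_ne_zero (h : UnifData O res π) : piL O π ≠ 0 := by
  intro h0
  exact coe_pi_ne_zero h (HahnSeries.C_injective (by rw [← piL, h0, map_zero]))

theorem redL_cross {a b c d : LaurentSeries O}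
    (h : inclL O a * inclL O d = inclL O c * inclL O b) :
    redL res a * redL res d = redL res c * redL res b := by
  rw [← map_mul, ← map_mul] at h
  rw [← map_mul, ← map_mul, inclL_injective O h]

end Basic

section Ring

variable {E : Type*} [Field E] (O : Subring E) {k : Type*} [Field k] (res : O →+* k) {π : O}

/-! ### The Gauss valuation ring -/

/-- The Gauss valuation ring: the localisation of `O((t))` at the prime `(π)`, realised inside
`E((t))`. -/
def gaussRing : Subring (LaurentSeries E) where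
  carrier := {x | ∃ a b : LaurentSeries O, redL res b ≠ 0 ∧ x * inclL O b = inclL O a}
  mul_mem' := by
    rintro x y ⟨a, b, hb, hab⟩ ⟨c, d, hd, hcd⟩
    refine ⟨a * c, b * d, ?_, ?_⟩
    · rw [map_mul]; exact mul_ne_zero hb hd
    · rw [map_mul, map_mul, ← hab, ← hcd]; ring
  one_mem' := ⟨1, 1, by simp, by simp⟩
  add_mem' := by
    rintro x y ⟨a, b, hb, hab⟩ ⟨c, d, hd, hcd⟩
    refine ⟨a * d + c * b, b * d, ?_, ?_⟩
    · rw [map_mul]; exact mul_ne_zero hb hd
    · rw [map_add, map_mul, map_mul, map_mul, ← hab, ← hcd]; ring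
  zero_mem' := ⟨0, 1, by simp, by simp⟩
  neg_mem' := by
    rintro x ⟨a, b, hb, hab⟩
    exact ⟨-a, b, hb, by rw [map_neg, ← hab]; ring⟩

variable {O res}

theorem mem_gaussRing_iff {x : LaurentSeries E} :
    x ∈ gaussRing O res ↔ ∃ a b : LaurentSeries O,
      redL res b ≠ 0 ∧ x * inclL O b = inclL O a := Iff.rfl

variable (res) in
theorem inclL_mem_gaussRing (a : LaurentSeries O) : inclL O a ∈ gaussRing O res :=
  ⟨a, 1, by simp, by simp⟩

/-- A chosen numerator. -/
def gaussNum (x : gaussRing O res) : LaurentSeries O := x.2.choose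

/-- A chosen denominator. -/
def gaussDen (x : gaussRing O res) : LaurentSeries O := x.2.choose_spec.choose

theorem redL_gaussDen_ne_zero (x : gaussRing O res) : redL res (gaussDen x) ≠ 0 :=
  x.2.choose_spec.choose_spec.1

theorem gauss_spec (x : gaussRing O res) :
    (x : LaurentSeries E) * inclL O (gaussDen x) = inclL O (gaussNum x) :=
  x.2.choose_spec.choose_spec.2

/-- The reduction map on the Gauss ring, as a function. -/
def gaussRedFun (x : gaussRing O res) : LaurentSeries k :=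
  redL res (gaussNum x) / redL res (gaussDen x)

theorem gaussRedFun_eq (x : gaussRing O res) (a b : LaurentSeries O)
    (hb : redL res b ≠ 0) (h : (x : LaurentSeries E) * inclL O b = inclL O a) :
    gaussRedFun x = redL res a / redL res b := by
  rw [gaussRedFun, div_eq_div_iff (redL_gaussDen_ne_zero x) hb]
  apply redL_cross
  rw [← gauss_spec, ← h]; ring

variable (O res) in
/-- The reduction map `V → k((t))`. -/
def gaussRed : gaussRing O res →+* LaurentSeries k where
  toFun := gaussRedFun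
  map_one' := by
    rw [gaussRedFun_eq 1 1 1 (by simp) (by simp)]
    simp
  map_mul' x y := by
    rw [gaussRedFun_eq (x * y) (gaussNum x * gaussNum y) (gaussDen x * gaussDen y)
      (by rw [map_mul]; exact mul_ne_zero (redL_gaussDen_ne_zero x) (redL_gaussDen_ne_zero y))
      (by rw [map_mul, map_mul, ← gauss_spec, ← gauss_spec, Subring.coe_mul]; ring)]
    rw [map_mul, map_mul, gaussRedFun, gaussRedFun, div_mul_div_comm]
  map_zero' := by
    rw [gaussRedFun_eq 0 0 1 (by simp) (by simp)]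
    simp
  map_add' x y := by
    rw [gaussRedFun_eq (x + y) (gaussNum x * gaussDen y + gaussNum y * gaussDen x)
      (gaussDen x * gaussDen y)
      (by rw [map_mul]; exact mul_ne_zero (redL_gaussDen_ne_zero x) (redL_gaussDen_ne_zero y))
      (by rw [map_add, map_mul, map_mul, map_mul, ← gauss_spec, ← gauss_spec,
            Subring.coe_add]; ring)]
    rw [map_add, map_mul, map_mul, map_mul, gaussRedFun, gaussRedFun,
      div_add_div _ _ (redL_gaussDen_ne_zero x) (redL_gaussDen_ne_zero y)]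
    ring

theorem gaussRed_eq (x : gaussRing O res) (a b : LaurentSeries O)
    (hb : redL res b ≠ 0) (h : (x : LaurentSeries E) * inclL O b = inclL O a) :
    gaussRed O res x = redL res a / redL res b := gaussRedFun_eq x a b hb h

theorem gaussRed_inclL (a : LaurentSeries O) :
    gaussRed O res ⟨inclL O a, inclL_mem_gaussRing res a⟩ = redL res a := by
  rw [gaussRed_eq _ a 1 (by simp) (by simp)]
  simp

theorem piL_mem_gaussRing : piL O π ∈ gaussRing O res := by
  rw [← inclL_C_pi]; exact inclL_mem_gaussRing res _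

theorem gaussRed_piL (h : UnifData O res π) :
    gaussRed O res ⟨piL O π, piL_mem_gaussRing⟩ = 0 := by
  have : (⟨piL O π, piL_mem_gaussRing⟩ : gaussRing O res) =
      ⟨inclL O (HahnSeries.C π), inclL_mem_gaussRing res _⟩ := Subtype.ext inclL_C_pi.symm
  rw [this, gaussRed_inclL, redL_C_pi h]

/-- The kernel of the reduction is generated by `π`. -/
theorem gaussRed_eq_zero_iff (h : UnifData O res π) (x : gaussRing O res) :
    gaussRed O res x = 0 ↔ ∃ y : gaussRing O res, (x : LaurentSeries E) = piL O π * y := by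
  constructor
  · intro h0
    have h1 : redL res (gaussNum x) = 0 := by
      have h2 : redL res (gaussNum x) / redL res (gaussDen x) = 0 := h0
      rcases div_eq_zero_iff.mp h2 with h3 | h3
      · exact h3
      · exact absurd h3 (redL_gaussDen_ne_zero x)
    obtain ⟨a', ha'⟩ := (redL_eq_zero_iff h _).mp h1
    have hspec := gauss_spec x
    rw [ha', map_mul, inclL_C_pi] at hspec
    have hne := piL_ne_zero h
    have hy : (x : LaurentSeries E) * (piL O π)⁻¹ ∈ gaussRing O res := by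
      refine ⟨a', gaussDen x, redL_gaussDen_ne_zero x, ?_⟩
      calc (x : LaurentSeries E) * (piL O π)⁻¹ * inclL O (gaussDen x)
          = ((x : LaurentSeries E) * inclL O (gaussDen x)) * (piL O π)⁻¹ := by ring
        _ = inclL O a' := by rw [hspec]; field_simp
    refine ⟨⟨_, hy⟩, ?_⟩
    show (x : LaurentSeries E) = piL O π * ((x : LaurentSeries E) * (piL O π)⁻¹)
    field_simp
  · rintro ⟨y, hy⟩
    have : x = ⟨piL O π, piL_mem_gaussRing⟩ * y := Subtype.ext hy
    rw [this, map_mul, gaussRed_piL h, zero_mul]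

/-! ### Primitive parts -/

theorem exists_primitive_aux (h : UnifData O res π) (m : ℕ) :
    ∀ (b : LaurentSeries O) (n0 : ℤ) (y : O), b.coeff n0 = π ^ m * y → res y ≠ 0 →
      ∃ (i : ℕ) (b' : LaurentSeries O), b = HahnSeries.C π ^ i * b' ∧ redL res b' ≠ 0 := by
  induction m with
  | zero =>
    intro b n0 y hy hres
    refine ⟨0, b, by simp, ?_⟩
    intro h0
    have := congrArg (fun x => x.coeff n0) h0
    simp only [redL_coeff, HahnSeries.coeff_zero] at this
    rw [hy, pow_zero, one_mul] at this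
    exact hres this
  | succ m ih =>
    intro b n0 y hy hres
    by_cases hb : redL res b = 0
    · obtain ⟨b1, rfl⟩ := (redL_eq_zero_iff h b).mp hb
      rw [HahnSeries.C_mul_eq_smul, HahnSeries.coeff_smul, smul_eq_mul, pow_succ', mul_assoc] at hy
      have h1 : b1.coeff n0 = π ^ m * y := mul_left_cancel₀ h.ne_zero hy
      obtain ⟨i, b', hb', hred⟩ := ih b1 n0 y h1 hres
      refine ⟨i + 1, b', ?_, hred⟩
      rw [hb', pow_succ']
      ring
    · exact ⟨0, b, by simp, hb⟩

theorem exists_primitive (h : UnifData O res π) (b : LaurentSeries O) (hb : b ≠ 0) :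
    ∃ (i : ℕ) (b' : LaurentSeries O), b = HahnSeries.C π ^ i * b' ∧ redL res b' ≠ 0 := by
  obtain ⟨n0, hn0⟩ : ∃ n0, b.coeff n0 ≠ 0 := by
    by_contra h0
    exact hb (HahnSeries.ext (funext fun n => not_not.mp (not_exists.mp h0 n)))
  obtain ⟨m, y, hy, hres⟩ := h.prim _ hn0
  exact exists_primitive_aux h m b n0 y hy hres

/-! ### The fraction field of `O((t))` inside `E((t))` -/

variable (O) in
/-- The fraction field of `O((t))`, realised inside `E((t))`. -/
def gaussFrac : Subfield (LaurentSeries E) where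
  carrier := {x | ∃ a b : LaurentSeries O, b ≠ 0 ∧ x * inclL O b = inclL O a}
  mul_mem' := by
    rintro x y ⟨a, b, hb, hab⟩ ⟨c, d, hd, hcd⟩
    refine ⟨a * c, b * d, mul_ne_zero hb hd, ?_⟩
    rw [map_mul, map_mul, ← hab, ← hcd]; ring
  one_mem' := ⟨1, 1, one_ne_zero, by simp⟩
  add_mem' := by
    rintro x y ⟨a, b, hb, hab⟩ ⟨c, d, hd, hcd⟩
    refine ⟨a * d + c * b, b * d, mul_ne_zero hb hd, ?_⟩
    rw [map_add, map_mul, map_mul, map_mul, ← hab, ← hcd]; ring
  zero_mem' := ⟨0, 1, one_ne_zero, by simp⟩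
  neg_mem' := by
    rintro x ⟨a, b, hb, hab⟩
    exact ⟨-a, b, hb, by rw [map_neg, ← hab]; ring⟩
  inv_mem' := by
    rintro x ⟨a, b, hb, hab⟩
    by_cases hx : x = 0
    · subst hx
      exact ⟨0, 1, one_ne_zero, by simp⟩
    · have hb' : inclL O b ≠ 0 := inclL_ne_zero O hb
      have ha : a ≠ 0 := by
        rintro rfl
        rw [map_zero] at hab
        rcases mul_eq_zero.mp hab with h | h
        · exact hx h
        · exact hb' h
      refine ⟨b, a, ha, ?_⟩
      rw [← hab, ← mul_assoc, inv_mul_cancel₀ hx, one_mul]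

theorem mem_gaussFrac_iff {x : LaurentSeries E} :
    x ∈ gaussFrac O ↔ ∃ a b : LaurentSeries O, b ≠ 0 ∧ x * inclL O b = inclL O a := Iff.rfl

theorem inclL_mem_gaussFrac (a : LaurentSeries O) : inclL O a ∈ gaussFrac O :=
  ⟨a, 1, one_ne_zero, by simp⟩

theorem gaussRing_le_gaussFrac {x : LaurentSeries E} (hx : x ∈ gaussRing O res) :
    x ∈ gaussFrac O := by
  obtain ⟨a, b, hb, hab⟩ := hx
  exact ⟨a, b, fun h => hb (by rw [h, map_zero]), hab⟩

/-- The valuation-ring dichotomy: an element of the fraction field lies in the Gauss ring, or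
it is the inverse of an element of the Gauss ring with vanishing reduction. -/
theorem mem_gaussRing_or_inv (h : UnifData O res π) {x : LaurentSeries E}
    (hx : x ∈ gaussFrac O) :
    x ∈ gaussRing O res ∨
      ∃ y : gaussRing O res, gaussRed O res y = 0 ∧ x * (y : LaurentSeries E) = 1 := by
  obtain ⟨a, b, hb, hab⟩ := hx
  by_cases ha : a = 0
  · left
    subst ha
    rw [map_zero] at hab
    have hb' : inclL O b ≠ 0 := inclL_ne_zero O hb
    rcases mul_eq_zero.mp hab with h | h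
    · rw [h]; exact zero_mem _
    · exact absurd h hb'
  obtain ⟨i, a', rfl, ha'⟩ := exists_primitive h a ha
  obtain ⟨j, b', rfl, hb'⟩ := exists_primitive h b hb
  have hπ := piL_ne_zero h
  have ha'0 : inclL O a' ≠ 0 := by
    intro h0
    apply ha'
    rw [inclL_injective O (h0.trans (map_zero _).symm), map_zero]
  have hb'0 : inclL O b' ≠ 0 := by
    intro h0
    apply hb'
    rw [inclL_injective O (h0.trans (map_zero _).symm), map_zero]
  rw [map_mul, map_mul, map_pow, map_pow, inclL_C_pi] at hab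
  rcases le_or_gt j i with hji | hji
  · left
    refine ⟨HahnSeries.C π ^ (i - j) * a', b', hb', ?_⟩
    rw [map_mul, map_pow, inclL_C_pi]
    have hpow : piL O π ^ i = piL O π ^ j * piL O π ^ (i - j) := by
      rw [← pow_add]; congr 1; omega
    rw [hpow] at hab
    have hk : piL O π ^ j ≠ 0 := pow_ne_zero _ hπ
    apply mul_left_cancel₀ hk
    linear_combination hab
  · right
    have hy : piL O π ^ (j - i) * inclL O b' * (inclL O a')⁻¹ ∈ gaussRing O res := by
      refine ⟨HahnSeries.C π ^ (j - i) * b', a', ha', ?_⟩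
      rw [map_mul, map_pow, inclL_C_pi]
      field_simp
    refine ⟨⟨_, hy⟩, ?_, ?_⟩
    · rw [gaussRed_eq _ (HahnSeries.C π ^ (j - i) * b') a' ha'
        (by rw [map_mul, map_pow, inclL_C_pi]; field_simp)]
      rw [map_mul, map_pow, redL_C_pi h, zero_pow (by omega), zero_mul, zero_div]
    · show x * (piL O π ^ (j - i) * inclL O b' * (inclL O a')⁻¹) = 1
      have hpow : piL O π ^ j = piL O π ^ i * piL O π ^ (j - i) := by
        rw [← pow_add]; congr 1; omega
      rw [hpow] at hab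
      have hi : piL O π ^ i ≠ 0 := pow_ne_zero _ hπ
      have h2 : x * (piL O π ^ (j - i) * inclL O b') = inclL O a' := by
        apply mul_left_cancel₀ hi
        linear_combination hab
      rw [← mul_assoc, ← mul_assoc, mul_assoc x, h2, mul_inv_cancel₀ ha'0]

/-- Elements with nonzero reduction are units of the Gauss ring. -/
theorem inv_mem_gaussRing_of_gaussRed_ne_zero (x : gaussRing O res)
    (hx : gaussRed O res x ≠ 0) : (x : LaurentSeries E)⁻¹ ∈ gaussRing O res := by
  have hnum : redL res (gaussNum x) ≠ 0 := by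
    intro h0
    apply hx
    show redL res (gaussNum x) / redL res (gaussDen x) = 0
    rw [h0, zero_div]
  have hden : inclL O (gaussDen x) ≠ 0 := by
    intro h0
    apply redL_gaussDen_ne_zero x
    rw [inclL_injective O (h0.trans (map_zero _).symm), map_zero]
  have hnum' : inclL O (gaussNum x) ≠ 0 := by
    intro h0
    apply hnum
    rw [inclL_injective O (h0.trans (map_zero _).symm), map_zero]
  have hx0 : (x : LaurentSeries E) ≠ 0 := by
    intro h0
    have := gauss_spec x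
    rw [h0, zero_mul] at this
    exact hnum' this.symm
  refine ⟨gaussDen x, gaussNum x, hnum, ?_⟩
  rw [← gauss_spec x, ← mul_assoc, inv_mul_cancel₀ hx0, one_mul]

/-- `π · V` is a prime ideal of `V` (product form). -/
theorem mem_pi_mul_of_mul_mem (h : UnifData O res π) {x y : LaurentSeries E}
    (hx : x ∈ gaussRing O res) (hy : y ∈ gaussRing O res)
    (hxy : ∃ w ∈ gaussRing O res, x * y = piL O π * w) :
    (∃ w ∈ gaussRing O res, x = piL O π * w) ∨ (∃ w ∈ gaussRing O res, y = piL O π * w) := by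
  obtain ⟨w, hw, hxyw⟩ := hxy
  have h0 : gaussRed O res (⟨x, hx⟩ * ⟨y, hy⟩) = 0 :=
    (gaussRed_eq_zero_iff h _).mpr ⟨⟨w, hw⟩, hxyw⟩
  rw [map_mul] at h0
  rcases mul_eq_zero.mp h0 with h1 | h1
  · left
    obtain ⟨w', hw'⟩ := (gaussRed_eq_zero_iff h _).mp h1
    exact ⟨w', w'.2, hw'⟩
  · right
    obtain ⟨w', hw'⟩ := (gaussRed_eq_zero_iff h _).mp h1
    exact ⟨w', w'.2, hw'⟩

theorem one_notMem_pi_mul (h : UnifData O res π) :
    ¬ ∃ w ∈ gaussRing O res, (1 : LaurentSeries E) = piL O π * w := by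
  rintro ⟨w, hw, h1⟩
  have h0 : gaussRed O res (1 : gaussRing O res) = 0 :=
    (gaussRed_eq_zero_iff h _).mpr ⟨⟨w, hw⟩, h1⟩
  rw [map_one] at h0
  exact one_ne_zero h0

/-- The Gauss ring is integrally closed in the fraction field `gaussFrac`. -/
theorem mem_gaussRing_of_isIntegral (h : UnifData O res π) {x : LaurentSeries E}
    (hxF : x ∈ gaussFrac O) (hx : IsIntegral (gaussRing O res) x) : x ∈ gaussRing O res := by
  rcases mem_gaussRing_or_inv h hxF with h1 | ⟨y, hy0, hxy⟩
  · exact h1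
  exfalso
  have hx0 : x ≠ 0 := by
    rintro rfl
    simp at hxy
  have hyx : (y : LaurentSeries E) = x⁻¹ := by
    apply mul_left_cancel₀ hx0
    rw [hxy, mul_inv_cancel₀ hx0]
  obtain ⟨p, hmonic, hroot⟩ := hx
  let _ : Invertible x := invertibleOfNonzero hx0
  have h1 := Polynomial.eval₂_reverse_mul_pow (algebraMap (gaussRing O res) (LaurentSeries E)) x p
  rw [hroot] at h1
  have h2 : Polynomial.eval₂ (algebraMap (gaussRing O res) (LaurentSeries E)) (⅟x)
      p.reverse = 0 := by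
    rcases mul_eq_zero.mp h1 with h | h
    · exact h
    · exact absurd h (pow_ne_zero _ hx0)
  have h3 : (⅟x : LaurentSeries E) = algebraMap (gaussRing O res) (LaurentSeries E) y := by
    rw [invOf_eq_inv, ← hyx]; rfl
  rw [h3, Polynomial.eval₂_at_apply] at h2
  have h4 : Polynomial.eval y p.reverse = 0 := by
    have hinj : Function.Injective (algebraMap (gaussRing O res) (LaurentSeries E)) :=
      Subtype.val_injective
    exact hinj (by rw [h2, map_zero])
  have h5 := congrArg (gaussRed O res) h4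
  rw [map_zero, ← Polynomial.eval₂_id, Polynomial.hom_eval₂, hy0, Polynomial.eval₂_at_zero,
    RingHom.comp_apply, RingHom.id_apply, Polynomial.coeff_zero_reverse, hmonic.leadingCoeff,
    map_one] at h5
  exact one_ne_zero h5

/-- Integral closedness, for integrality over any ring mapping into the Gauss ring. -/
theorem mem_gaussRing_of_isIntegral' (h : UnifData O res π) {A : Type*} [CommRing A]
    [Algebra A (LaurentSeries E)]
    (hA : ∀ a : A, algebraMap A (LaurentSeries E) a ∈ gaussRing O res)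
    {x : LaurentSeries E} (hxF : x ∈ gaussFrac O) (hx : IsIntegral A x) :
    x ∈ gaussRing O res := by
  apply mem_gaussRing_of_isIntegral h hxF
  let f : A →+* gaussRing O res :=
    (algebraMap A (LaurentSeries E)).codRestrict (gaussRing O res) hA
  exact hx.map_of_comp_eq f (RingHom.id (LaurentSeries E)) (by ext; rfl)

/-! ### Transport along coefficientwise-compatible ring homomorphisms -/

/-- A ring endomorphism `f` of `E((t))` which restricts to `fO` on `O((t))`, where `fO`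
preserves nonvanishing of the reduction, preserves the Gauss ring. -/
theorem map_mem_gaussRing (f : LaurentSeries E →+* LaurentSeries E)
    (fO : LaurentSeries O → LaurentSeries O)
    (hf : ∀ a, f (inclL O a) = inclL O (fO a))
    (hred : ∀ b, redL res b ≠ 0 → redL res (fO b) ≠ 0)
    {x : LaurentSeries E} (hx : x ∈ gaussRing O res) : f x ∈ gaussRing O res := by
  obtain ⟨a, b, hb, hab⟩ := hx
  refine ⟨fO a, fO b, hred b hb, ?_⟩
  rw [← hf, ← hf, ← map_mul, hab]

/-- Same for the fraction field. -/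
theorem map_mem_gaussFrac (f : LaurentSeries E →+* LaurentSeries E)
    (fO : LaurentSeries O → LaurentSeries O)
    (hf : ∀ a, f (inclL O a) = inclL O (fO a))
    {x : LaurentSeries E} (hx : x ∈ gaussFrac O) : f x ∈ gaussFrac O := by
  obtain ⟨a, b, hb, hab⟩ := hx
  have hfb : fO b ≠ 0 := by
    intro h0
    have h1 : f (inclL O b) = 0 := by rw [hf, h0, map_zero]
    exact inclL_ne_zero O hb ((map_eq_zero f).mp h1)
  refine ⟨fO a, fO b, hfb, ?_⟩
  rw [← hf, ← hf, ← map_mul, hab]

/-! ### Twists `t ↦ c t` by units of `O` -/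

/-- Coefficientwise twist on `O((t))`: `a_n ↦ c ^ n * a_n` for a unit `c` of `O`. -/
def twistO (c : Oˣ) (a : LaurentSeries O) : LaurentSeries O where
  coeff n := ((c ^ n : Oˣ) : O) * a.coeff n
  isPWO_support' := a.isPWO_support.mono (by
    intro n hn
    simp only [Function.mem_support, ne_eq] at hn
    simp only [HahnSeries.mem_support, ne_eq]
    intro h0
    exact hn (by rw [h0, mul_zero]))

@[simp] theorem twistO_coeff (c : Oˣ) (a : LaurentSeries O) (n : ℤ) :
    (twistO c a).coeff n = ((c ^ n : Oˣ) : O) * a.coeff n := rfl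

theorem redL_twistO_ne_zero (c : Oˣ) {b : LaurentSeries O} (hb : redL res b ≠ 0) :
    redL res (twistO c b) ≠ 0 := by
  intro h0
  apply hb
  ext n
  have h1 := congrArg (fun x => x.coeff n) h0
  simp only [redL_coeff, twistO_coeff, map_mul, HahnSeries.coeff_zero] at h1 ⊢
  have hu : IsUnit (res ((c ^ n : Oˣ) : O)) := (Units.isUnit _).map res
  exact (hu.mul_right_eq_zero).mp h1

/-- Any ring endomorphism of `E((t))` acting on coefficients by `φ_n ↦ c ^ n φ_n`, for a unit `c`
of `O`, preserves the Gauss ring. -/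
theorem twist_mem_gaussRing (c : Oˣ) (f : LaurentSeries E →+* LaurentSeries E)
    (hf : ∀ (φ : LaurentSeries E) (n : ℤ), (f φ).coeff n = (((c ^ n : Oˣ) : O) : E) * φ.coeff n)
    {x : LaurentSeries E} (hx : x ∈ gaussRing O res) : f x ∈ gaussRing O res := by
  refine map_mem_gaussRing f (twistO c) ?_ (fun b hb => redL_twistO_ne_zero c hb) hx
  intro a
  ext n
  rw [hf]
  simp

theorem twist_mem_gaussFrac (c : Oˣ) (f : LaurentSeries E →+* LaurentSeries E)
    (hf : ∀ (φ : LaurentSeries E) (n : ℤ), (f φ).coeff n = (((c ^ n : Oˣ) : O) : E) * φ.coeff n)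
    {x : LaurentSeries E} (hx : x ∈ gaussFrac O) : f x ∈ gaussFrac O := by
  refine map_mem_gaussFrac f (twistO c) ?_ hx
  intro a
  ext n
  rw [hf]
  simp

/-! ### The Gauss property for polynomials in a series with a pole -/

/-- Evaluation of a polynomial with `O`-coefficients at a Laurent series over `O`. -/
def evO (J : LaurentSeries O) : Polynomial O →+* LaurentSeries O :=
  Polynomial.eval₂RingHom (HahnSeries.C : O →+* LaurentSeries O) J

theorem evO_apply (J : LaurentSeries O) (P : Polynomial O) :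
    evO J P = P.eval₂ (HahnSeries.C : O →+* LaurentSeries O) J := rfl

theorem redL_C (c : O) : redL res (HahnSeries.C c) = HahnSeries.C (res c) := by
  ext n
  by_cases hn : n = 0
  · subst hn; simp [HahnSeries.C_apply]
  · simp [HahnSeries.C_apply, HahnSeries.coeff_single_of_ne hn]

theorem redL_evO (J : LaurentSeries O) (P : Polynomial O) :
    redL res (evO J P) = Polynomial.aeval (redL res J) (P.map res) := by
  rw [evO_apply, Polynomial.hom_eval₂, Polynomial.aeval_def, Polynomial.eval₂_map]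
  congr 1
  ext c : 1
  rw [RingHom.comp_apply, RingHom.comp_apply, redL_C, algebraMap_laurentSeries_eq_single]
  rfl

/-- **Gauss property.** If the reduction of `J` has nonzero order, a polynomial in `J` with
`O`-coefficients whose reduction vanishes is divisible by `π` as a polynomial. -/
theorem exists_eq_C_mul_of_redL_evO_eq_zero (h : UnifData O res π) (J : LaurentSeries O)
    (hJ0 : redL res J ≠ 0) (hJo : (redL res J).order ≠ 0) (P : Polynomial O)
    (hP : redL res (evO J P) = 0) : ∃ P' : Polynomial O, P = Polynomial.C π * P' := by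
  rw [redL_evO] at hP
  have h0 : P.map res = 0 := by
    by_contra hne
    exact aeval_ne_zero_of_order_ne_zero hJ0 hJo hne hP
  have hmem : P ∈ Ideal.map (Polynomial.C : O →+* Polynomial O) (Ideal.span {π}) := by
    rw [Ideal.mem_map_C_iff]
    intro n
    have hn : res (P.coeff n) = 0 := by
      have := congrArg (fun Q => Q.coeff n) h0
      simpa using this
    obtain ⟨y, hy⟩ := (h.ker _).mp hn
    exact Ideal.mem_span_singleton'.mpr ⟨y, by rw [hy, mul_comm]⟩
  rw [Ideal.map_span, Set.image_singleton, Ideal.mem_span_singleton'] at hmem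
  obtain ⟨P', hP'⟩ := hmem
  exact ⟨P', by rw [← hP', mul_comm]⟩

/-- **Gauss property**, in the form used by the abstract core: if `π · w = P(J)` with `w` in
the Gauss ring, then `w = P'(J)` for some polynomial `P'` over `O`. -/
theorem exists_evO_eq_of_pi_mul_eq (h : UnifData O res π) (J : LaurentSeries O)
    (hJ0 : redL res J ≠ 0) (hJo : (redL res J).order ≠ 0) (P : Polynomial O)
    {w : LaurentSeries E} (hw : w ∈ gaussRing O res)
    (heq : piL O π * w = inclL O (evO J P)) : ∃ P' : Polynomial O, w = inclL O (evO J P') := by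
  have hred : redL res (evO J P) = 0 := by
    rw [← gaussRed_inclL (res := res)]
    exact (gaussRed_eq_zero_iff h _).mpr ⟨⟨w, hw⟩, heq.symm⟩
  obtain ⟨P', rfl⟩ := exists_eq_C_mul_of_redL_evO_eq_zero h J hJ0 hJo P hred
  refine ⟨P', ?_⟩
  apply mul_left_cancel₀ (piL_ne_zero h)
  rw [heq, map_mul, map_mul, ← inclL_C_pi]
  congr 2
  rw [evO_apply, Polynomial.eval₂_C]

end Ring

section Transport

variable {E₁ : Type*} [Field E₁] {O₁ : Subring E₁} {k₁ : Type*} [Field k₁] {res₁ : O₁ →+* k₁}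
  {E₂ : Type*} [Field E₂] {O₂ : Subring E₂} {k₂ : Type*} [Field k₂] {res₂ : O₂ →+* k₂}

/-- Transport between two Gauss rings along a ring homomorphism `F : E₁((t)) → E₂((t))` which
restricts to `FO : O₁((t)) → O₂((t))` preserving nonvanishing of the reduction. -/
theorem map_mem_gaussRing₂ (F : LaurentSeries E₁ →+* LaurentSeries E₂)
    (FO : LaurentSeries O₁ → LaurentSeries O₂)
    (hF : ∀ a, F (inclL O₁ a) = inclL O₂ (FO a))
    (hred : ∀ b, redL res₁ b ≠ 0 → redL res₂ (FO b) ≠ 0)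
    {x : LaurentSeries E₁} (hx : x ∈ gaussRing O₁ res₁) : F x ∈ gaussRing O₂ res₂ := by
  obtain ⟨a, b, hb, hab⟩ := hx
  refine ⟨FO a, FO b, hred b hb, ?_⟩
  rw [← hF, ← hF, ← map_mul, hab]

/-- Transport of the fraction fields. -/
theorem map_mem_gaussFrac₂ (F : LaurentSeries E₁ →+* LaurentSeries E₂)
    (FO : LaurentSeries O₁ → LaurentSeries O₂)
    (hF : ∀ a, F (inclL O₁ a) = inclL O₂ (FO a))
    {x : LaurentSeries E₁} (hx : x ∈ gaussFrac O₁) : F x ∈ gaussFrac O₂ := by
  obtain ⟨a, b, hb, hab⟩ := hx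
  have hfb : FO b ≠ 0 := by
    intro h0
    have h1 : F (inclL O₁ b) = 0 := by rw [hF, h0, map_zero]
    exact inclL_ne_zero O₁ hb ((map_eq_zero F).mp h1)
  refine ⟨FO a, FO b, hfb, ?_⟩
  rw [← hF, ← hF, ← map_mul, hab]

/-- Compatibility of the reductions under transport. -/
theorem gaussRed_map₂ (F : LaurentSeries E₁ →+* LaurentSeries E₂)
    (FO : LaurentSeries O₁ → LaurentSeries O₂) (Fk : LaurentSeries k₁ →+* LaurentSeries k₂)
    (hF : ∀ a, F (inclL O₁ a) = inclL O₂ (FO a))
    (hk : ∀ a, redL res₂ (FO a) = Fk (redL res₁ a))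
    (x : gaussRing O₁ res₁) (hFx : F x ∈ gaussRing O₂ res₂) :
    gaussRed O₂ res₂ ⟨F x, hFx⟩ = Fk (gaussRed O₁ res₁ x) := by
  have hb : redL res₂ (FO (gaussDen x)) ≠ 0 := by
    rw [hk]
    exact (map_ne_zero Fk).mpr (redL_gaussDen_ne_zero x)
  rw [gaussRed_eq ⟨F x, hFx⟩ (FO (gaussNum x)) (FO (gaussDen x)) hb
    (by rw [← hF, ← hF, ← map_mul, gauss_spec]), hk, hk]
  show _ = Fk (redL res₁ (gaussNum x) / redL res₁ (gaussDen x))
  rw [map_div₀]

end Transport

end Fermat.Agent.S28.H86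

end
end
-- ===== PACK-END S28/H86/GaussGen.lean

-- ===== PACK-BEGIN S28/Basis.lean
section
/-
S28: the interface `BasisData` between the CORE (any route) and the valuation layer [V]
(helper28).  It is K-free and does not ask the basis elements to lie in `F`.

`BasisData N ℓ` : there are `n` integral q-series `y i ∈ ℤ((q))` which
  (B1) are integral over `ℤ_(ℓ)[j]`,
  (B2) span (a space containing) `F = modularFunctionFieldFull N` over `ℚ(j)`
       -- polynomial form, denominators cleared,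
  (B3) have reductions mod `ℓ` independent over `𝔽_ℓ[j̄]` -- polynomial form.
Route (a) (prime level + tower, `CoreData`) produces it with monomials in the `j(q^d)`;
route (d) (single modular unit `u`, irreducibility criterion) with `y i = u ^ i`.
-/



set_option autoImplicit false
open ModularCurve
noncomputable section

namespace Fermat.Agent.S28

/-- The CORE output consumed by the valuation layer [V]. -/
structure BasisData (N : ℕ) [NeZero N] (ℓ : ℕ) [Fact ℓ.Prime] : Prop where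
  exists_basis : ∃ (n : ℕ) (y : Fin n → LaurentSeries ℤ),
    -- (B1) each `y i` is a root of a polynomial in `X` over `ℤ[j]` whose leading
    -- coefficient is a constant `c` prime to `ℓ`
    (∀ i, ∃ (c : ℕ) (P : Polynomial (Polynomial ℤ)), ¬ ℓ ∣ c ∧
        P.leadingCoeff = Polynomial.C (c : ℤ) ∧
        P.eval₂ (evalAt (jqModC ℤ)) (y i) = 0) ∧
    -- (B2) span over `ℚ(j)`, denominators cleared
    (∀ x ∈ modularFunctionFieldFull N, ∃ (g : Polynomial ℤ) (f : Fin n → Polynomial ℤ),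
        g ≠ 0 ∧ evalAt (jqModC ℚ) g * x =
          ∑ i, evalAt (jqModC ℚ) (f i) * coeffMap (Int.castRingHom ℚ) (y i)) ∧
    -- (B3) independence mod `ℓ` over `𝔽_ℓ[j̄]`
    (∀ f : Fin n → Polynomial (ZMod ℓ),
        ∑ i, Polynomial.aeval (jqModC (ZMod ℓ)) (f i) *
          coeffMap (Int.castRingHom (ZMod ℓ)) (y i) = 0 → ∀ i, f i = 0)

end Fermat.Agent.S28

end
end
-- ===== PACK-END S28/Basis.lean

-- ===== PACK-BEGIN S13/H365/NodeCore.lean
section



/-!
# Core valuation lemmas for the component homomorphism at a node (any residue characteristic)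

Abstract setting: a field `K` with a valuation `v`, a cubic
`(y - γ₁ x) (y - γ₂ x) = x ^ 3 + a x` with `v a < 1`, `a ≠ 0`, `v (γ₁ - γ₂) = 1`.
Three collinear points `(xᵢ, yᵢ)` on the line `y = l x + n` satisfy Vieta's relations.
No hypothesis on `v 2`.
-/

set_option autoImplicit false

namespace Fermat.Agent.S13.H365

variable {K : Type*} [Field K] {Γ₀ : Type*} [LinearOrderedCommGroupWithZero Γ₀]
  {v : Valuation K Γ₀}

/-- The data of three collinear points on the cubic `(y - γ₁ x)(y - γ₂ x) = x³ + a x`. -/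
structure Coll (a γ₁ γ₂ : K) (x₁ y₁ x₂ y₂ x₃ y₃ l n : K) : Prop where
  L1 : y₁ = l * x₁ + n
  L2 : y₂ = l * x₂ + n
  L3 : y₃ = l * x₃ + n
  E1 : (y₁ - γ₁ * x₁) * (y₁ - γ₂ * x₁) = x₁ ^ 3 + a * x₁
  E2 : (y₂ - γ₁ * x₂) * (y₂ - γ₂ * x₂) = x₂ ^ 3 + a * x₂
  E3 : (y₃ - γ₁ * x₃) * (y₃ - γ₂ * x₃) = x₃ ^ 3 + a * x₃
  V1 : x₁ + x₂ + x₃ = (l - γ₁) * (l - γ₂)
  V2 : x₁ * x₂ + x₁ * x₃ + x₂ * x₃ = a - ((l - γ₁) + (l - γ₂)) * n
  V3 : x₁ * x₂ * x₃ = n ^ 2

namespace Coll

variable {a γ₁ γ₂ x₁ y₁ x₂ y₂ x₃ y₃ l n : K}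

lemma swap12 (h : Coll a γ₁ γ₂ x₁ y₁ x₂ y₂ x₃ y₃ l n) : Coll a γ₁ γ₂ x₂ y₂ x₁ y₁ x₃ y₃ l n where
  L1 := h.L2
  L2 := h.L1
  L3 := h.L3
  E1 := h.E2
  E2 := h.E1
  E3 := h.E3
  V1 := by rw [← h.V1]; ring
  V2 := by rw [← h.V2]; ring
  V3 := by rw [← h.V3]; ring

lemma swap23 (h : Coll a γ₁ γ₂ x₁ y₁ x₂ y₂ x₃ y₃ l n) : Coll a γ₁ γ₂ x₁ y₁ x₃ y₃ x₂ y₂ l n where
  L1 := h.L1
  L2 := h.L3
  L3 := h.L2
  E1 := h.E1
  E2 := h.E3
  E3 := h.E2
  V1 := by rw [← h.V1]; ring
  V2 := by rw [← h.V2]; ring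
  V3 := by rw [← h.V3]; ring

lemma swap13 (h : Coll a γ₁ γ₂ x₁ y₁ x₂ y₂ x₃ y₃ l n) : Coll a γ₁ γ₂ x₃ y₃ x₂ y₂ x₁ y₁ l n where
  L1 := h.L3
  L2 := h.L2
  L3 := h.L1
  E1 := h.E3
  E2 := h.E2
  E3 := h.E1
  V1 := by rw [← h.V1]; ring
  V2 := by rw [← h.V2]; ring
  V3 := by rw [← h.V3]; ring

lemma rot (h : Coll a γ₁ γ₂ x₁ y₁ x₂ y₂ x₃ y₃ l n) : Coll a γ₁ γ₂ x₂ y₂ x₃ y₃ x₁ y₁ l n :=
  h.swap12.swap23

lemma rot' (h : Coll a γ₁ γ₂ x₁ y₁ x₂ y₂ x₃ y₃ l n) : Coll a γ₁ γ₂ x₃ y₃ x₁ y₁ x₂ y₂ l n :=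
  h.swap23.swap12

/-- Exchanging the two branches. -/
lemma swapγ (h : Coll a γ₁ γ₂ x₁ y₁ x₂ y₂ x₃ y₃ l n) : Coll a γ₂ γ₁ x₁ y₁ x₂ y₂ x₃ y₃ l n where
  L1 := h.L1
  L2 := h.L2
  L3 := h.L3
  E1 := by rw [mul_comm]; exact h.E1
  E2 := by rw [mul_comm]; exact h.E2
  E3 := by rw [mul_comm]; exact h.E3
  V1 := by rw [h.V1]; ring
  V2 := by rw [h.V2]; ring
  V3 := h.V3

end Coll

variable {a γ₁ γ₂ x₁ y₁ x₂ y₂ x₃ y₃ l n : K}

lemma val_add3_le {a b c : K} {g : Γ₀} (ha : v a ≤ g) (hb : v b ≤ g) (hc : v c ≤ g) :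
    v (a + b + c) ≤ g :=
  Valuation.map_add_le _ (Valuation.map_add_le _ ha hb) hc

lemma val_add3_lt {a b c : K} {g : Γ₀} (ha : v a < g) (hb : v b < g) (hc : v c < g) :
    v (a + b + c) < g :=
  Valuation.map_add_lt _ (Valuation.map_add_lt _ ha hb) hc

lemma val_two_le_one : v (2 : K) ≤ 1 := by
  have : (2 : K) = 1 + 1 := by norm_num
  rw [this]
  exact Valuation.map_add_le _ (le_of_eq (map_one v)) (le_of_eq (map_one v))

lemma val_four_le_one : v (4 : K) ≤ 1 := by
  have : (4 : K) = 2 * 2 := by norm_num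
  rw [this, map_mul]
  exact mul_le_one' val_two_le_one val_two_le_one

lemma Coll.vs_vn (h : Coll a γ₁ γ₂ x₁ y₁ x₂ y₂ x₃ y₃ l n) :
    v ((l - γ₁) + (l - γ₂)) * v n = v (a - (x₁ * x₂ + x₁ * x₃ + x₂ * x₃)) := by
  rw [h.V2]
  have e : a - (a - ((l - γ₁) + (l - γ₂)) * n) = ((l - γ₁) + (l - γ₂)) * n := by ring
  rw [e, map_mul]

lemma Coll.vn_sq (h : Coll a γ₁ γ₂ x₁ y₁ x₂ y₂ x₃ y₃ l n) :
    v n ^ 2 = v x₁ * v x₂ * v x₃ := by
  rw [← map_pow, ← h.V3, map_mul, map_mul]

/-- `v (κ₁ + κ₂) ^ 2 ≤ max 1 (v (κ₁ κ₂))`. -/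
lemma val_sum_sq_le {κ₁ κ₂ : K} {g : Γ₀} (hδ : v (κ₁ - κ₂) = 1) (hg : 1 ≤ g)
    (hp : v (κ₁ * κ₂) ≤ g) : v (κ₁ + κ₂) ^ 2 ≤ g := by
  have e : (κ₁ + κ₂) ^ 2 = (κ₁ - κ₂) ^ 2 + 4 * (κ₁ * κ₂) := by ring
  rw [← map_pow, e]
  apply Valuation.map_add_le
  · rw [map_pow, hδ, one_pow]; exact hg
  · rw [map_mul]
    calc v 4 * v (κ₁ * κ₂) ≤ 1 * g := mul_le_mul' val_four_le_one hp
      _ = g := one_mul _

/-- When all three points are at the node, the slope is congruent to exactly one of `γ₁, γ₂`. -/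
lemma Coll.kappa_dichotomy (h : Coll a γ₁ γ₂ x₁ y₁ x₂ y₂ x₃ y₃ l n)
    (hδ : v (γ₁ - γ₂) = 1)
    (h1 : v x₁ < 1) (h2' : v x₂ < 1) (h3 : v x₃ < 1) :
    (v (l - γ₁) < 1 ∧ v (l - γ₂) = 1) ∨ (v (l - γ₁) = 1 ∧ v (l - γ₂) < 1) := by
  have hprod : v ((l - γ₁) * (l - γ₂)) < 1 := by
    rw [← h.V1]
    exact val_add3_lt h1 h2' h3
  rcases lt_or_ge (v (l - γ₁)) 1 with hk | hk
  · left
    refine ⟨hk, ?_⟩
    have e : l - γ₂ = (l - γ₁) + (γ₁ - γ₂) := by ring
    rw [e, Valuation.map_add_eq_of_lt_right _ (by rw [hδ]; exact hk), hδ]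
  · right
    have hk' : v (l - γ₂) < 1 := by
      by_contra hcon
      rw [not_lt] at hcon
      rw [map_mul] at hprod
      exact absurd (one_le_mul_of_one_le_of_one_le hk hcon) (not_le.mpr hprod)
    refine ⟨?_, hk'⟩
    have e : l - γ₁ = (l - γ₂) - (γ₁ - γ₂) := by ring
    rw [e, Valuation.map_sub_eq_of_lt_right _ (by rw [hδ]; exact hk'), hδ]

/-- If all three points are at the node then `v (κ₁ + κ₂) = 1`. -/
lemma Coll.vs_eq_one (h : Coll a γ₁ γ₂ x₁ y₁ x₂ y₂ x₃ y₃ l n) (hδ : v (γ₁ - γ₂) = 1)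
    (h1 : v x₁ < 1) (h2 : v x₂ < 1) (h3 : v x₃ < 1) : v ((l - γ₁) + (l - γ₂)) = 1 := by
  rcases h.kappa_dichotomy hδ h1 h2 h3 with ⟨hk, hk'⟩ | ⟨hk, hk'⟩
  · rw [Valuation.map_add_eq_of_lt_right _ (by rw [hk']; exact hk), hk']
  · rw [Valuation.map_add_eq_of_lt_left _ (by rw [hk]; exact hk'), hk]

/-- Key inequality: if `x₁` is strictly smaller than `x₂, x₃`, `x₃` is not at the node and
`v a < v x₂ * v x₃`, contradiction. -/
lemma factD (h : Coll a γ₁ γ₂ x₁ y₁ x₂ y₂ x₃ y₃ l n) (hδ : v (γ₁ - γ₂) = 1)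
    (h12 : v x₁ < v x₂) (h13 : v x₁ < v x₃) (h23 : v x₂ ≤ v x₃) (h3 : 1 ≤ v x₃)
    (hμ : v a < v x₂ * v x₃) : False := by
  have hr2 : 0 < v x₂ := lt_of_le_of_lt zero_le h12
  have hr3 : 0 < v x₃ := lt_of_lt_of_le zero_lt_one h3
  have hne : v x₂ * v x₃ ≠ 0 := (mul_pos hr2 hr3).ne'
  have hd1 : v (x₁ * x₂) < v (x₂ * x₃) := by
    rw [map_mul, map_mul, mul_comm (v x₁)]
    exact mul_lt_mul_of_pos_left h13 hr2
  have hd2 : v (x₁ * x₃) < v (x₂ * x₃) := by
    rw [map_mul, map_mul]
    exact mul_lt_mul_of_pos_right h12 hr3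
  have hαβ : v a < v (x₂ * x₃) := by
    rw [map_mul]; exact hμ
  have hln : v ((l - γ₁) + (l - γ₂)) * v n = v x₂ * v x₃ := by
    rw [h.vs_vn, ← map_mul]
    have e : a - (x₁ * x₂ + x₁ * x₃ + x₂ * x₃) = (a - (x₁ * x₂ + x₁ * x₃)) - x₂ * x₃ := by
      ring
    rw [e]
    apply Valuation.map_sub_eq_of_lt_right
    exact Valuation.map_sub_lt _ hαβ (Valuation.map_add_lt _ hd1 hd2)
  have hl2 : v ((l - γ₁) + (l - γ₂)) ^ 2 * v x₁ = v x₂ * v x₃ := by
    have e1 : (v ((l - γ₁) + (l - γ₂)) * v n) ^ 2 = (v x₂ * v x₃) ^ 2 := by rw [hln]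
    rw [mul_pow, h.vn_sq] at e1
    have e2 : (v ((l - γ₁) + (l - γ₂)) ^ 2 * v x₁) * (v x₂ * v x₃) =
        (v x₂ * v x₃) * (v x₂ * v x₃) := by
      rw [← pow_two, ← e1]; simp only [mul_assoc]
    exact mul_right_cancel₀ hne e2
  have hl2le : v ((l - γ₁) + (l - γ₂)) ^ 2 ≤ v x₃ := by
    have hδ' : v ((l - γ₁) - (l - γ₂)) = 1 := by
      have e : (l - γ₁) - (l - γ₂) = -(γ₁ - γ₂) := by ring
      rw [e, Valuation.map_neg, hδ]
    apply val_sum_sq_le hδ' h3
    rw [← h.V1]
    exact val_add3_le h13.le h23 le_rfl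
  have : v ((l - γ₁) + (l - γ₂)) ^ 2 * v x₁ < v x₂ * v x₃ := by
    rcases eq_or_ne (v ((l - γ₁) + (l - γ₂)) ^ 2) 0 with h0 | h0
    · rw [h0, zero_mul]; exact mul_pos hr2 hr3
    · calc v ((l - γ₁) + (l - γ₂)) ^ 2 * v x₁
          < v ((l - γ₁) + (l - γ₂)) ^ 2 * v x₂ :=
            mul_lt_mul_of_pos_left h12 (zero_lt_iff.mpr h0)
        _ ≤ v x₃ * v x₂ := mul_le_mul_left hl2le _
        _ = v x₂ * v x₃ := mul_comm _ _
  exact absurd hl2 this.ne


/-- Exactly one point at the node is impossible. -/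
lemma factC (h : Coll a γ₁ γ₂ x₁ y₁ x₂ y₂ x₃ y₃ l n) (hδ : v (γ₁ - γ₂) = 1) (ha : v a < 1)
    (h1 : v x₁ < 1) (h2' : 1 ≤ v x₂) (h3 : 1 ≤ v x₃) : False := by
  have h23 : 1 ≤ v x₂ * v x₃ := one_le_mul_of_one_le_of_one_le h2' h3
  rcases le_total (v x₂) (v x₃) with h' | h'
  · exact factD h hδ (lt_of_lt_of_le h1 h2') (lt_of_lt_of_le h1 h3) h' h3
      (lt_of_lt_of_le ha h23)
  · exact factD h.swap23 hδ (lt_of_lt_of_le h1 h3) (lt_of_lt_of_le h1 h2') h' h2'
      (lt_of_lt_of_le ha (by rwa [mul_comm]))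

/-- All three points in the `M`-range (`v x ≤ v a`) is impossible. -/
lemma factMMM (h : Coll a γ₁ γ₂ x₁ y₁ x₂ y₂ x₃ y₃ l n) (hδ : v (γ₁ - γ₂) = 1) (ha : v a < 1)
    (ha0 : a ≠ 0)
    (h1 : v x₁ ≤ v a) (h2' : v x₂ ≤ v a) (h3 : v x₃ ≤ v a) : False := by
  have hμ : 0 < v a := by rw [Valuation.pos_iff]; exact ha0
  have hl := h.vs_eq_one hδ (h1.trans_lt ha) (h2'.trans_lt ha) (h3.trans_lt ha)
  have hn : v n < v a := by
    by_contra hcon
    rw [not_lt] at hcon
    have e1 : v a ^ 2 ≤ v n ^ 2 := pow_le_pow_left₀ zero_le hcon 2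
    rw [h.vn_sq] at e1
    have e2 : v x₁ * v x₂ * v x₃ ≤ v a * v a * v a :=
      mul_le_mul' (mul_le_mul' h1 h2') h3
    have e3 : v a * v a * v a < v a ^ 2 := by
      rw [pow_two]
      calc v a * v a * v a < v a * v a * 1 := mul_lt_mul_of_pos_left ha (mul_pos hμ hμ)
        _ = v a * v a := mul_one _
    exact absurd (e1.trans e2) (not_le.mpr e3)
  have hln := h.vs_vn (v := v)
  rw [hl, one_mul] at hln
  have hs : v (x₁ * x₂ + x₁ * x₃ + x₂ * x₃) < v a := by
    have hh : ∀ b c : K, v b ≤ v a → v c ≤ v a → v (b * c) < v a := by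
      intro b c hb hc
      rw [map_mul]
      calc v b * v c ≤ v a * v a := mul_le_mul' hb hc
        _ < v a * 1 := mul_lt_mul_of_pos_left ha hμ
        _ = v a := mul_one _
    exact val_add3_lt (hh _ _ h1 h2') (hh _ _ h1 h3) (hh _ _ h2' h3)
  rw [Valuation.map_sub_eq_of_lt_left _ hs] at hln
  exact absurd hln hn.ne

/-- Two points in the `M`-range and one more at the node is impossible. -/
lemma factMMmid (h : Coll a γ₁ γ₂ x₁ y₁ x₂ y₂ x₃ y₃ l n) (hδ : v (γ₁ - γ₂) = 1)
    (ha : v a < 1) (ha0 : a ≠ 0)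
    (h1 : v x₁ ≤ v a) (h2' : v x₂ ≤ v a) (h3 : v x₃ < 1) : False := by
  have hμ : 0 < v a := by rw [Valuation.pos_iff]; exact ha0
  have hl := h.vs_eq_one hδ (h1.trans_lt ha) (h2'.trans_lt ha) h3
  have hln := h.vs_vn (v := v)
  rw [hl, one_mul] at hln
  have hh : ∀ b c : K, v b ≤ v a → v c < 1 → v (b * c) < v a := by
    intro b c hb hc
    rw [map_mul]
    calc v b * v c ≤ v a * v c := mul_le_mul' hb le_rfl
      _ < v a * 1 := mul_lt_mul_of_pos_left hc hμ
      _ = v a := mul_one _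
  have hs : v (x₁ * x₂ + x₁ * x₃ + x₂ * x₃) < v a :=
    val_add3_lt (hh _ _ h1 (h2'.trans_lt ha)) (hh _ _ h1 h3) (hh _ _ h2' h3)
  rw [Valuation.map_sub_eq_of_lt_left _ hs] at hln
  have e1 := h.vn_sq (v := v)
  rw [hln] at e1
  have e2 : v x₁ * v x₂ * v x₃ < v a ^ 2 := by
    rw [pow_two]
    calc v x₁ * v x₂ * v x₃ ≤ v a * v a * v x₃ := mul_le_mul' (mul_le_mul' h1 h2') le_rfl
      _ < v a * v a * 1 := mul_lt_mul_of_pos_left h3 (mul_pos hμ hμ)
      _ = v a * v a := mul_one _
  exact absurd e1.symm e2.ne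

/-- In the middle range, one of the two branches of the node is chosen. -/
lemma sign_exists {x y : K}
    (hE : (y - γ₁ * x) * (y - γ₂ * x) = x ^ 3 + a * x) (hlo : v a < v x) (hhi : v x < 1) :
    v (y - γ₁ * x) < v x ∨ v (y - γ₂ * x) < v x := by
  have hx : 0 < v x := lt_of_le_of_lt zero_le hlo
  have e : (y - γ₁ * x) * (y - γ₂ * x) = x * (x ^ 2 + a) := by rw [hE]; ring
  have h1 : v (x ^ 2 + a) < v x := by
    apply Valuation.map_add_lt _ _ hlo
    rw [map_pow, pow_two]
    calc v x * v x < v x * 1 := mul_lt_mul_of_pos_left hhi hx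
      _ = v x := mul_one _
  by_contra hcon
  rw [not_or, not_lt, not_lt] at hcon
  have h2 : v x * v x ≤ v ((y - γ₁ * x) * (y - γ₂ * x)) := by
    rw [map_mul]; exact mul_le_mul' hcon.1 hcon.2
  rw [e, map_mul] at h2
  exact absurd h2 (not_le.mpr (mul_lt_mul_of_pos_left h1 hx))

/-- The two branches of the node are exclusive. -/
lemma sign_exclusive {x y : K} (hδ : v (γ₁ - γ₂) = 1) :
    ¬ (v (y - γ₁ * x) < v x ∧ v (y - γ₂ * x) < v x) := by
  rintro ⟨h1, h3⟩
  have e : (γ₁ - γ₂) * x = (y - γ₂ * x) - (y - γ₁ * x) := by ring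
  have h4 : v ((γ₁ - γ₂) * x) < v x := by
    rw [e]; exact Valuation.map_sub_lt _ h3 h1
  rw [map_mul, hδ, one_mul] at h4
  exact lt_irrefl _ h4

/-- A point in the `M`-range has `v (y - γ₁ x) ≤ v a`. -/
lemma val_w_le_of_M {x y : K} (hδ : v (γ₁ - γ₂) = 1) (ha : v a < 1) (ha0 : a ≠ 0)
    (hE : (y - γ₁ * x) * (y - γ₂ * x) = x ^ 3 + a * x) (hx : v x ≤ v a) :
    v (y - γ₁ * x) ≤ v a := by
  have hμ : 0 < v a := by rw [Valuation.pos_iff]; exact ha0
  by_contra hcon
  rw [not_le] at hcon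
  -- then `v (y - γ₂ x) = v (y - γ₁ x) > v a`
  have e : y - γ₂ * x = (y - γ₁ * x) + (γ₁ - γ₂) * x := by ring
  have hsmall : v ((γ₁ - γ₂) * x) < v (y - γ₁ * x) := by
    rw [map_mul, hδ, one_mul]; exact hx.trans_lt hcon
  have h2 : v (y - γ₂ * x) = v (y - γ₁ * x) := by
    rw [e, Valuation.map_add_eq_of_lt_left _ hsmall]
  have h3 : v a * v a < v ((y - γ₁ * x) * (y - γ₂ * x)) := by
    rw [map_mul, h2]
    calc v a * v a < v a * v (y - γ₁ * x) := mul_lt_mul_of_pos_left hcon hμ
      _ < v (y - γ₁ * x) * v (y - γ₁ * x) := mul_lt_mul_of_pos_right hcon (hμ.trans hcon)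
  have e2 : x ^ 3 + a * x = x * (x ^ 2 + a) := by ring
  have h4 : v (x ^ 3 + a * x) ≤ v a * v a := by
    rw [e2, map_mul]
    apply mul_le_mul' hx
    apply Valuation.map_add_le _ _ le_rfl
    rw [map_pow, pow_two]
    calc v x * v x ≤ v a * 1 := mul_le_mul' hx ((hx.trans ha.le))
      _ = v a := mul_one _
  rw [hE] at h3
  exact absurd h4 (not_le.mpr h3)

/-- `M`, mid, mid: the two middle points have `v x₂ * v x₃ = v a`. -/
lemma factA'_val (h : Coll a γ₁ γ₂ x₁ y₁ x₂ y₂ x₃ y₃ l n) (hδ : v (γ₁ - γ₂) = 1)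
    (ha : v a < 1) (ha0 : a ≠ 0)
    (h1 : v x₁ ≤ v a) (h2lo : v a < v x₂) (h2hi : v x₂ < 1) (h3lo : v a < v x₃)
    (h3hi : v x₃ < 1) : v x₂ * v x₃ = v a := by
  have hμ : 0 < v a := by rw [Valuation.pos_iff]; exact ha0
  have hr2 : 0 < v x₂ := hμ.trans h2lo
  have hr3 : 0 < v x₃ := hμ.trans h3lo
  have hl := h.vs_eq_one hδ (h1.trans_lt ha) h2hi h3hi
  have hk1 : v (l - γ₁) ≤ 1 := by
    rcases h.kappa_dichotomy hδ (h1.trans_lt ha) h2hi h3hi with ⟨hk, -⟩ | ⟨hk, -⟩
    · exact hk.le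
    · exact hk.le
  have hw1 : v (y₁ - γ₁ * x₁) ≤ v a := val_w_le_of_M hδ ha ha0 h.E1 h1
  have hn : v n ≤ v a := by
    have e : n = (y₁ - γ₁ * x₁) - (l - γ₁) * x₁ := by rw [h.L1]; ring
    rw [e]
    apply Valuation.map_sub_le _ hw1
    rw [map_mul]
    calc v (l - γ₁) * v x₁ ≤ 1 * v a := mul_le_mul' hk1 h1
      _ = v a := one_mul _
  have h12 : v (x₁ * x₂) < v a := by
    rw [map_mul]
    calc v x₁ * v x₂ ≤ v a * v x₂ := mul_le_mul' h1 le_rfl
      _ < v a * 1 := mul_lt_mul_of_pos_left h2hi hμ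
      _ = v a := mul_one _
  have h13 : v (x₁ * x₃) < v a := by
    rw [map_mul]
    calc v x₁ * v x₃ ≤ v a * v x₃ := mul_le_mul' h1 le_rfl
      _ < v a * 1 := mul_lt_mul_of_pos_left h3hi hμ
      _ = v a := mul_one _
  have hle : v x₂ * v x₃ ≤ v a := by
    have e : x₂ * x₃ = a - ((l - γ₁) + (l - γ₂)) * n - x₁ * x₂ - x₁ * x₃ := by
      rw [← h.V2]; ring
    rw [← map_mul, e]
    apply Valuation.map_sub_le _ (Valuation.map_sub_le _ (Valuation.map_sub_le _ le_rfl _) h12.le)
      h13.le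
    rw [map_mul, hl, one_mul]; exact hn
  rcases hle.lt_or_eq with hlt | heq
  · exfalso
    have hln := h.vs_vn (v := v)
    rw [hl, one_mul] at hln
    have hs : v (x₁ * x₂ + x₁ * x₃ + x₂ * x₃) < v a :=
      val_add3_lt h12 h13 (by rw [map_mul]; exact hlt)
    rw [Valuation.map_sub_eq_of_lt_left _ hs] at hln
    have e1 := h.vn_sq (v := v)
    rw [hln] at e1
    have e2 : v x₁ * v x₂ * v x₃ < v a ^ 2 := by
      rw [pow_two, mul_assoc]
      calc v x₁ * (v x₂ * v x₃) ≤ v a * (v x₂ * v x₃) := mul_le_mul' h1 le_rfl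
        _ < v a * v a := mul_lt_mul_of_pos_left hlt hμ
    exact absurd e1.symm e2.ne
  · exact heq

/-- `M`, mid, mid: the two middle points lie on the same branch. -/
lemma factA'_sign (h : Coll a γ₁ γ₂ x₁ y₁ x₂ y₂ x₃ y₃ l n) (hδ : v (γ₁ - γ₂) = 1)
    (ha : v a < 1) (ha0 : a ≠ 0)
    (h1 : v x₁ ≤ v a) (h2lo : v a < v x₂) (h2hi : v x₂ < 1) (h3lo : v a < v x₃)
    (h3hi : v x₃ < 1)
    (hP2 : v (y₂ - γ₁ * x₂) < v x₂) (hN3 : v (y₃ - γ₂ * x₃) < v x₃) : False := by
  have hr2 : 0 < v x₂ := lt_of_le_of_lt zero_le h2lo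
  have hr3 : 0 < v x₃ := lt_of_le_of_lt zero_le h3lo
  have hk1 : v (l - γ₁) ≤ 1 := by
    rcases h.kappa_dichotomy hδ (h1.trans_lt ha) h2hi h3hi with ⟨hk, -⟩ | ⟨hk, -⟩
    · exact hk.le
    · exact hk.le
  have hw1 : v (y₁ - γ₁ * x₁) ≤ v a := val_w_le_of_M hδ ha ha0 h.E1 h1
  have hn : v n ≤ v a := by
    have e : n = (y₁ - γ₁ * x₁) - (l - γ₁) * x₁ := by rw [h.L1]; ring
    rw [e]
    apply Valuation.map_sub_le _ hw1
    rw [map_mul]
    calc v (l - γ₁) * v x₁ ≤ 1 * v a := mul_le_mul' hk1 h1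
      _ = v a := one_mul _
  have hk : v (l - γ₁) < 1 := by
    have e : (l - γ₁) * x₂ = (y₂ - γ₁ * x₂) - n := by rw [h.L2]; ring
    have : v ((l - γ₁) * x₂) < v x₂ := by
      rw [e]; exact Valuation.map_sub_lt _ hP2 (hn.trans_lt h2lo)
    rw [map_mul] at this
    by_contra hcon
    rw [not_lt] at hcon
    exact absurd (le_mul_of_one_le_left hr2.le hcon) (not_le.mpr this)
  have hk' : v (l - γ₂) < 1 := by
    have e : (l - γ₂) * x₃ = (y₃ - γ₂ * x₃) - n := by rw [h.L3]; ring
    have : v ((l - γ₂) * x₃) < v x₃ := by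
      rw [e]; exact Valuation.map_sub_lt _ hN3 (hn.trans_lt h3lo)
    rw [map_mul] at this
    by_contra hcon
    rw [not_lt] at hcon
    exact absurd (le_mul_of_one_le_left hr3.le hcon) (not_le.mpr this)
  have e : γ₁ - γ₂ = (l - γ₂) - (l - γ₁) := by ring
  have : v (γ₁ - γ₂) < 1 := by rw [e]; exact Valuation.map_sub_lt _ hk' hk
  rw [hδ] at this
  exact lt_irrefl _ this

/-- If `v κ < 1` and `v (κ x + n) < v x` then `v n < v x`. -/
lemma val_n_lt_of_small {κ x n : K} (hκ : v κ < 1) (hx : 0 < v x)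
    (h : v (κ * x + n) < v x) : v n < v x := by
  have e : n = (κ * x + n) - κ * x := by ring
  rw [e]
  apply Valuation.map_sub_lt _ h
  rw [map_mul]
  calc v κ * v x < 1 * v x := mul_lt_mul_of_pos_right hκ hx
    _ = v x := one_mul _

/-- If `v κ = 1` and `v (κ x + n) < v x` then `v n = v x`. -/
lemma val_n_eq_of_unit {κ x n : K} (hκ : v κ = 1)
    (h : v (κ * x + n) < v x) : v n = v x := by
  have e : n = (κ * x + n) - κ * x := by ring
  have hκx : v (κ * x) = v x := by rw [map_mul, hκ, one_mul]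
  rw [e, Valuation.map_sub_eq_of_lt_right _ (by rw [hκx]; exact h), hκx]

/-- mid, mid, mid, all on the same branch: `v x₁ * v x₂ * v x₃ = v a ^ 2`. -/
lemma factA_same (h : Coll a γ₁ γ₂ x₁ y₁ x₂ y₂ x₃ y₃ l n) (hδ : v (γ₁ - γ₂) = 1)
    (h1lo : v a < v x₁) (h1hi : v x₁ < 1)
    (h2lo : v a < v x₂) (h2hi : v x₂ < 1) (h3lo : v a < v x₃) (h3hi : v x₃ < 1)
    (hP1 : v (y₁ - γ₁ * x₁) < v x₁) (hP2 : v (y₂ - γ₁ * x₂) < v x₂)
    (hP3 : v (y₃ - γ₁ * x₃) < v x₃) : v x₁ * v x₂ * v x₃ = v a ^ 2 := by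
  have hr1 : 0 < v x₁ := lt_of_le_of_lt zero_le h1lo
  have hr2 : 0 < v x₂ := lt_of_le_of_lt zero_le h2lo
  have hr3 : 0 < v x₃ := lt_of_le_of_lt zero_le h3lo
  have hl := h.vs_eq_one hδ h1hi h2hi h3hi
  have e1 : y₁ - γ₁ * x₁ = (l - γ₁) * x₁ + n := by rw [h.L1]; ring
  have e2 : y₂ - γ₁ * x₂ = (l - γ₁) * x₂ + n := by rw [h.L2]; ring
  have e3 : y₃ - γ₁ * x₃ = (l - γ₁) * x₃ + n := by rw [h.L3]; ring
  rw [e1] at hP1
  rw [e2] at hP2
  rw [e3] at hP3
  rcases h.kappa_dichotomy hδ h1hi h2hi h3hi with ⟨hk, -⟩ | ⟨hk, -⟩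
  · have hn1 := val_n_lt_of_small hk hr1 hP1
    have hn2 := val_n_lt_of_small hk hr2 hP2
    have hn3 := val_n_lt_of_small hk hr3 hP3
    have hnsq := h.vn_sq (v := v)
    have key : ∀ b c d : Γ₀, 0 < b → 0 < c → v n ^ 2 = b * c * d → v n < d → b * c < v n := by
      intro b c d hb hc hbcd hd
      by_contra hcon
      rw [not_lt] at hcon
      have : v n ^ 2 < b * c * d := by
        rw [pow_two]
        calc v n * v n ≤ b * c * v n := mul_le_mul' hcon le_rfl
          _ < b * c * d := mul_lt_mul_of_pos_left hd (mul_pos hb hc)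
      exact absurd hbcd this.ne
    have k12 : v (x₁ * x₂) < v n := by
      rw [map_mul]; exact key _ _ _ hr1 hr2 hnsq hn3
    have k13 : v (x₁ * x₃) < v n := by
      rw [map_mul]; exact key _ _ _ hr1 hr3 (by rw [hnsq]; exact mul_right_comm _ _ _) hn2
    have k23 : v (x₂ * x₃) < v n := by
      rw [map_mul]
      exact key _ _ _ hr2 hr3 (by rw [hnsq]; exact mul_rotate _ _ _) hn1
    have hs : v (x₁ * x₂ + x₁ * x₃ + x₂ * x₃) < v n := val_add3_lt k12 k13 k23
    have h2ln : v (((l - γ₁) + (l - γ₂)) * n) = v n := by rw [map_mul, hl, one_mul]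
    have : v a = v (((l - γ₁) + (l - γ₂)) * n) := by
      have e : a = (a - ((l - γ₁) + (l - γ₂)) * n) + ((l - γ₁) + (l - γ₂)) * n := by ring
      conv_lhs => rw [e]
      apply Valuation.map_add_eq_of_lt_right
      rw [← h.V2, h2ln]; exact hs
    rw [h2ln] at this
    rw [← hnsq, this]
  · exfalso
    have hn1 := val_n_eq_of_unit hk hP1
    have hn2 := val_n_eq_of_unit hk hP2
    have hn3 := val_n_eq_of_unit hk hP3
    have hnsq := h.vn_sq (v := v)
    rw [← hn1, ← hn2, ← hn3, pow_two] at hnsq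
    have hnpos : 0 < v n := hn1 ▸ hr1
    have : v n * v n * 1 = v n * v n * v n := by rw [mul_one]; exact hnsq
    have := mul_left_cancel₀ (mul_pos hnpos hnpos).ne' this
    rw [← this] at hn1
    exact absurd hn1.symm h1hi.ne

/-- mid, mid, mid, two on one branch and the third on the other: `v x₃ = v x₁ * v x₂`. -/
lemma factA_mixed (h : Coll a γ₁ γ₂ x₁ y₁ x₂ y₂ x₃ y₃ l n) (hδ : v (γ₁ - γ₂) = 1)
    (h1lo : v a < v x₁) (h1hi : v x₁ < 1)
    (h2lo : v a < v x₂) (h2hi : v x₂ < 1) (h3lo : v a < v x₃) (h3hi : v x₃ < 1)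
    (hP1 : v (y₁ - γ₁ * x₁) < v x₁) (hP2 : v (y₂ - γ₁ * x₂) < v x₂)
    (hN3 : v (y₃ - γ₂ * x₃) < v x₃) : v x₃ = v x₁ * v x₂ := by
  have hr1 : 0 < v x₁ := lt_of_le_of_lt zero_le h1lo
  have hr2 : 0 < v x₂ := lt_of_le_of_lt zero_le h2lo
  have hr3 : 0 < v x₃ := lt_of_le_of_lt zero_le h3lo
  have e1 : y₁ - γ₁ * x₁ = (l - γ₁) * x₁ + n := by rw [h.L1]; ring
  have e2 : y₂ - γ₁ * x₂ = (l - γ₁) * x₂ + n := by rw [h.L2]; ring
  have e3 : y₃ - γ₂ * x₃ = (l - γ₂) * x₃ + n := by rw [h.L3]; ring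
  rw [e1] at hP1
  rw [e2] at hP2
  rw [e3] at hN3
  have hnsq := h.vn_sq (v := v)
  rcases h.kappa_dichotomy hδ h1hi h2hi h3hi with ⟨-, hk'⟩ | ⟨hk, hk'⟩
  · have hn3 := val_n_eq_of_unit hk' hN3
    rw [hn3, pow_two] at hnsq
    have : v x₃ * v x₃ = v x₁ * v x₂ * v x₃ := hnsq
    exact mul_right_cancel₀ hr3.ne' this
  · exfalso
    have hn1 := val_n_eq_of_unit hk hP1
    have hn2 := val_n_eq_of_unit hk hP2
    rw [← hn1, ← hn2, pow_two] at hnsq
    have hnpos : 0 < v n := hn1 ▸ hr1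
    have : v n * v n * 1 = v n * v n * v x₃ := by rw [mul_one]; exact hnsq
    have := mul_left_cancel₀ (mul_pos hnpos hnpos).ne' this
    exact absurd this.symm h3hi.ne

/-- Two points at the node with the same valuation `< 1` and third point away from the
node cannot lie on the same branch. -/
lemma factBsign (h : Coll a γ₁ γ₂ x₁ y₁ x₂ y₂ x₃ y₃ l n) (hδ : v (γ₁ - γ₂) = 1)
    (h12 : v x₁ = v x₂) (h1 : v x₁ < 1) (hx1 : x₁ ≠ 0) (h3 : 1 ≤ v x₃)
    (hP1 : v (y₁ - γ₁ * x₁) < v x₁) (hP2 : v (y₂ - γ₁ * x₂) < v x₂) : False := by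
  have hr : 0 < v x₁ := by rw [Valuation.pos_iff]; exact hx1
  set κ := l - γ₁ with hκ
  set θ₁ := y₁ - γ₁ * x₁ with hθ₁
  set θ₂ := y₂ - γ₁ * x₂ with hθ₂
  set δ := -x₁ - x₂ with hδdef
  have hθ₁' : θ₁ = κ * x₁ + n := by rw [hθ₁, h.L1, hκ]; ring
  have hθ₂' : θ₂ = κ * x₂ + n := by rw [hθ₂, h.L2, hκ]; ring
  have hx3 : x₃ = κ ^ 2 + (γ₁ - γ₂) * κ + δ := by
    have := h.V1
    have e : x₃ = (l - γ₁) * (l - γ₂) - x₁ - x₂ := by rw [← this]; ring
    rw [e, hκ, hδdef]; ring
  have hid : θ₁ * θ₂ - κ * (x₁ * θ₂ + x₂ * θ₁) = x₁ * x₂ * ((γ₁ - γ₂) * κ + δ) := by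
    have e3 := h.V3
    rw [hx3] at e3
    have : θ₁ * θ₂ - κ * (x₁ * θ₂ + x₂ * θ₁) = n ^ 2 - κ ^ 2 * (x₁ * x₂) := by
      rw [hθ₁', hθ₂']; ring
    rw [this, ← e3]; ring
  have hδ1 : v δ < 1 := by
    rw [hδdef]
    exact Valuation.map_sub_lt _ (by rw [Valuation.map_neg]; exact h1) (h12 ▸ h1)
  have hκ1 : 1 ≤ v κ := by
    by_contra hcon
    rw [not_le] at hcon
    have hn : v n < v x₁ := by
      have e : n = θ₁ - κ * x₁ := by rw [hθ₁']; ring
      rw [e]
      apply Valuation.map_sub_lt _ hP1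
      rw [map_mul]
      calc v κ * v x₁ < 1 * v x₁ := mul_lt_mul_of_pos_right hcon hr
        _ = v x₁ := one_mul _
    have e1 := h.vn_sq (v := v)
    have e2 : v n ^ 2 < v x₁ * v x₂ * v x₃ := by
      rw [← h12, pow_two]
      calc v n * v n ≤ v n * v x₁ := mul_le_mul' le_rfl hn.le
        _ < v x₁ * v x₁ := mul_lt_mul_of_pos_right hn hr
        _ = v x₁ * v x₁ * 1 := (mul_one _).symm
        _ ≤ v x₁ * v x₁ * v x₃ := mul_le_mul' le_rfl h3
    exact absurd e1 e2.ne
  have hκpos : 0 < v κ := lt_of_lt_of_le zero_lt_one hκ1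
  have hR : v (x₁ * x₂ * ((γ₁ - γ₂) * κ + δ)) = v x₁ * v x₁ * v κ := by
    rw [map_mul, map_mul, ← h12]
    congr 1
    have : v δ < v ((γ₁ - γ₂) * κ) := by
      rw [map_mul, hδ, one_mul]; exact lt_of_lt_of_le hδ1 hκ1
    rw [Valuation.map_add_eq_of_lt_left _ this, map_mul, hδ, one_mul]
  have hL : v (θ₁ * θ₂ - κ * (x₁ * θ₂ + x₂ * θ₁)) < v x₁ * v x₁ * v κ := by
    apply Valuation.map_sub_lt
    · rw [map_mul]
      calc v θ₁ * v θ₂ ≤ v θ₁ * v x₁ := mul_le_mul' le_rfl (h12 ▸ hP2.le)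
        _ < v x₁ * v x₁ := mul_lt_mul_of_pos_right hP1 hr
        _ = v x₁ * v x₁ * 1 := (mul_one _).symm
        _ ≤ v x₁ * v x₁ * v κ := mul_le_mul' le_rfl hκ1
    · rw [map_mul, mul_comm]
      apply mul_lt_mul_of_pos_right _ hκpos
      apply Valuation.map_add_lt
      · rw [map_mul]
        exact mul_lt_mul_of_pos_left (h12 ▸ hP2) hr
      · rw [map_mul, ← h12]
        exact mul_lt_mul_of_pos_left hP1 hr
  rw [hid, hR] at hL
  exact lt_irrefl _ hL

end Fermat.Agent.S13.H365

end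
-- ===== PACK-END S13/H365/NodeCore.lean

-- ===== PACK-BEGIN S05/CompCore.lean
section



/-!
# Core valuation lemmas for the component homomorphism at a node

Abstract setting: a field `K` with a valuation `v`, a cubic `η² = ξ (ξ - α) (ξ - β)`
with `v α < 1 = v β`, `γ² = -β`, `v 2 = 1`.  Three collinear points
`(ξᵢ, ηᵢ)` on the line `η = l ξ + n` satisfy Vieta's relations.
-/

set_option autoImplicit false

namespace Fermat.Agent.S05.Comp

variable {K : Type*} [Field K] {Γ₀ : Type*} [LinearOrderedCommGroupWithZero Γ₀]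
  {v : Valuation K Γ₀}

/-- The data of three collinear points on the cubic `η² = ξ (ξ - α) (ξ - β)`. -/
structure Coll (α β : K) (x₁ y₁ x₂ y₂ x₃ y₃ l n : K) : Prop where
  L1 : y₁ = l * x₁ + n
  L2 : y₂ = l * x₂ + n
  L3 : y₃ = l * x₃ + n
  E1 : y₁ ^ 2 = x₁ * (x₁ - α) * (x₁ - β)
  E2 : y₂ ^ 2 = x₂ * (x₂ - α) * (x₂ - β)
  E3 : y₃ ^ 2 = x₃ * (x₃ - α) * (x₃ - β)
  V1 : x₁ + x₂ + x₃ = l ^ 2 + α + β
  V2 : x₁ * x₂ + x₁ * x₃ + x₂ * x₃ = α * β - 2 * l * n
  V3 : x₁ * x₂ * x₃ = n ^ 2

namespace Coll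

variable {α β x₁ y₁ x₂ y₂ x₃ y₃ l n : K}

lemma swap12 (h : Coll α β x₁ y₁ x₂ y₂ x₃ y₃ l n) : Coll α β x₂ y₂ x₁ y₁ x₃ y₃ l n where
  L1 := h.L2
  L2 := h.L1
  L3 := h.L3
  E1 := h.E2
  E2 := h.E1
  E3 := h.E3
  V1 := by rw [← h.V1]; ring
  V2 := by rw [← h.V2]; ring
  V3 := by rw [← h.V3]; ring

lemma swap23 (h : Coll α β x₁ y₁ x₂ y₂ x₃ y₃ l n) : Coll α β x₁ y₁ x₃ y₃ x₂ y₂ l n where
  L1 := h.L1
  L2 := h.L3
  L3 := h.L2
  E1 := h.E1
  E2 := h.E3
  E3 := h.E2
  V1 := by rw [← h.V1]; ring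
  V2 := by rw [← h.V2]; ring
  V3 := by rw [← h.V3]; ring

lemma swap13 (h : Coll α β x₁ y₁ x₂ y₂ x₃ y₃ l n) : Coll α β x₃ y₃ x₂ y₂ x₁ y₁ l n where
  L1 := h.L3
  L2 := h.L2
  L3 := h.L1
  E1 := h.E3
  E2 := h.E2
  E3 := h.E1
  V1 := by rw [← h.V1]; ring
  V2 := by rw [← h.V2]; ring
  V3 := by rw [← h.V3]; ring

lemma rot (h : Coll α β x₁ y₁ x₂ y₂ x₃ y₃ l n) : Coll α β x₂ y₂ x₃ y₃ x₁ y₁ l n :=
  h.swap12.swap23

lemma rot' (h : Coll α β x₁ y₁ x₂ y₂ x₃ y₃ l n) : Coll α β x₃ y₃ x₁ y₁ x₂ y₂ l n :=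
  h.swap23.swap12

end Coll


variable {α β γ x₁ y₁ x₂ y₂ x₃ y₃ l n : K}

/-- if `a - b = c` and `v c < v a` then `v b = v a`. -/
lemma val_eq_of_sub_lt {a b c : K} (h : a - b = c) (hc : v c < v a) : v b = v a := by
  have e : b = a - c := by rw [← h]; ring
  rw [e]
  exact Valuation.map_sub_eq_of_lt_left v hc

/-- if `a - b = c` and `v a < v c` then `v b = v c`. -/
lemma val_eq_of_sub_gt {a b c : K} (h : a - b = c) (hc : v a < v c) : v b = v c := by
  have e : b = a - c := by rw [← h]; ring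
  rw [e]
  exact Valuation.map_sub_eq_of_lt_right v hc

lemma val_add3_le {a b c : K} {g : Γ₀} (ha : v a ≤ g) (hb : v b ≤ g) (hc : v c ≤ g) :
    v (a + b + c) ≤ g :=
  Valuation.map_add_le _ (Valuation.map_add_le _ ha hb) hc

lemma val_add3_lt {a b c : K} {g : Γ₀} (ha : v a < g) (hb : v b < g) (hc : v c < g) :
    v (a + b + c) < g :=
  Valuation.map_add_lt _ (Valuation.map_add_lt _ ha hb) hc

lemma Coll.vl_vn (h : Coll α β x₁ y₁ x₂ y₂ x₃ y₃ l n) (h2 : v 2 = 1) :
    v l * v n = v (α * β - (x₁ * x₂ + x₁ * x₃ + x₂ * x₃)) := by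
  rw [h.V2]
  have e : α * β - (α * β - 2 * l * n) = 2 * l * n := by ring
  rw [e, map_mul, map_mul, h2, one_mul]

lemma Coll.vn_sq (h : Coll α β x₁ y₁ x₂ y₂ x₃ y₃ l n) :
    v n ^ 2 = v x₁ * v x₂ * v x₃ := by
  rw [← map_pow, ← h.V3, map_mul, map_mul]

lemma Coll.l_sq (h : Coll α β x₁ y₁ x₂ y₂ x₃ y₃ l n) :
    l ^ 2 = x₁ + x₂ + x₃ - α - β := by rw [h.V1]; ring

/-- If all three points are at the node then `v l = 1`. -/
lemma Coll.vl_eq_one (h : Coll α β x₁ y₁ x₂ y₂ x₃ y₃ l n) (hα : v α < 1) (hβ : v β = 1)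
    (h1 : v x₁ < 1) (h2 : v x₂ < 1) (h3 : v x₃ < 1) : v l = 1 := by
  have e : l ^ 2 = (x₁ + x₂ + x₃ - α) - β := by rw [h.V1]; ring
  have h4 : v (x₁ + x₂ + x₃ - α) < v β := by
    rw [hβ]
    exact Valuation.map_sub_lt _ (val_add3_lt h1 h2 h3) hα
  have h5 : v (l ^ 2) = 1 := by
    rw [e, Valuation.map_sub_eq_of_lt_right _ h4, hβ]
  rw [map_pow] at h5
  exact (pow_eq_one_iff_of_nonneg zero_le (by norm_num)).mp h5

/-- Key inequality: if `x₁` is strictly smaller than `x₂, x₃`, `x₃` is not at the node and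
`v α < v x₂ * v x₃`, contradiction. Covers "exactly one point at the node" and
"two at the node with different valuations". -/
lemma factD (h : Coll α β x₁ y₁ x₂ y₂ x₃ y₃ l n) (h2 : v 2 = 1) (hα : v α < 1) (hβ : v β = 1)
    (h12 : v x₁ < v x₂) (h13 : v x₁ < v x₃) (h23 : v x₂ ≤ v x₃) (h3 : 1 ≤ v x₃)
    (hμ : v α < v x₂ * v x₃) : False := by
  have hr2 : 0 < v x₂ := lt_of_le_of_lt zero_le h12
  have hr3 : 0 < v x₃ := lt_of_lt_of_le zero_lt_one h3
  have hne : v x₂ * v x₃ ≠ 0 := (mul_pos hr2 hr3).ne'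
  have hd1 : v (x₁ * x₂) < v (x₂ * x₃) := by
    rw [map_mul, map_mul, mul_comm (v x₁)]
    exact mul_lt_mul_of_pos_left h13 hr2
  have hd2 : v (x₁ * x₃) < v (x₂ * x₃) := by
    rw [map_mul, map_mul]
    exact mul_lt_mul_of_pos_right h12 hr3
  have hαβ : v (α * β) < v (x₂ * x₃) := by
    rw [map_mul, hβ, mul_one, map_mul]; exact hμ
  have hln : v l * v n = v x₂ * v x₃ := by
    rw [h.vl_vn h2, ← map_mul]
    have e : α * β - (x₁ * x₂ + x₁ * x₃ + x₂ * x₃) = (α * β - (x₁ * x₂ + x₁ * x₃)) - x₂ * x₃ := by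
      ring
    rw [e]
    apply Valuation.map_sub_eq_of_lt_right
    exact Valuation.map_sub_lt _ hαβ (Valuation.map_add_lt _ hd1 hd2)
  have hl2 : v l ^ 2 * v x₁ = v x₂ * v x₃ := by
    have e1 : (v l * v n) ^ 2 = (v x₂ * v x₃) ^ 2 := by rw [hln]
    rw [mul_pow, h.vn_sq] at e1
    have e2 : (v l ^ 2 * v x₁) * (v x₂ * v x₃) = (v x₂ * v x₃) * (v x₂ * v x₃) := by
      rw [← pow_two, ← e1]; simp only [mul_assoc]
    exact mul_right_cancel₀ hne e2
  have hl2le : v l ^ 2 ≤ v x₃ := by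
    rw [← map_pow, h.l_sq]
    refine Valuation.map_sub_le _ (Valuation.map_sub_le _ (val_add3_le ?_ h23 le_rfl) ?_) ?_
    · exact h13.le
    · exact hα.le.trans h3
    · rw [hβ]; exact h3
  have : v l ^ 2 * v x₁ < v x₂ * v x₃ := by
    rcases eq_or_ne (v l ^ 2) 0 with h0 | h0
    · rw [h0, zero_mul]; exact mul_pos hr2 hr3
    · calc v l ^ 2 * v x₁ < v l ^ 2 * v x₂ := mul_lt_mul_of_pos_left h12 (zero_lt_iff.mpr h0)
        _ ≤ v x₃ * v x₂ := mul_le_mul_left hl2le _
        _ = v x₂ * v x₃ := mul_comm _ _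
  exact absurd hl2 this.ne

/-- Exactly one point at the node is impossible. -/
lemma factC (h : Coll α β x₁ y₁ x₂ y₂ x₃ y₃ l n) (h2 : v 2 = 1) (hα : v α < 1) (hβ : v β = 1)
    (h1 : v x₁ < 1) (h2' : 1 ≤ v x₂) (h3 : 1 ≤ v x₃) : False := by
  have h23 : 1 ≤ v x₂ * v x₃ := one_le_mul_of_one_le_of_one_le h2' h3
  rcases le_total (v x₂) (v x₃) with h' | h'
  · exact factD h h2 hα hβ (lt_of_lt_of_le h1 h2') (lt_of_lt_of_le h1 h3) h' h3
      (lt_of_lt_of_le hα h23)
  · exact factD h.swap23 h2 hα hβ (lt_of_lt_of_le h1 h3) (lt_of_lt_of_le h1 h2') h' h2'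
      (lt_of_lt_of_le hα (by rwa [mul_comm]))


/-- All three points in the `M`-range (`v x ≤ v α`) is impossible. -/
lemma factMMM (h : Coll α β x₁ y₁ x₂ y₂ x₃ y₃ l n) (h2 : v 2 = 1) (hα : v α < 1)
    (hα0 : α ≠ 0) (hβ : v β = 1)
    (h1 : v x₁ ≤ v α) (h2' : v x₂ ≤ v α) (h3 : v x₃ ≤ v α) : False := by
  have hμ : 0 < v α := by rw [Valuation.pos_iff]; exact hα0
  have hl : v l = 1 := h.vl_eq_one hα hβ (h1.trans_lt hα) (h2'.trans_lt hα) (h3.trans_lt hα)
  -- v n < μ
  have hn : v n < v α := by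
    by_contra hcon
    rw [not_lt] at hcon
    have e1 : v α ^ 2 ≤ v n ^ 2 := pow_le_pow_left₀ zero_le hcon 2
    rw [h.vn_sq] at e1
    have e2 : v x₁ * v x₂ * v x₃ ≤ v α * v α * v α :=
      mul_le_mul' (mul_le_mul' h1 h2') h3
    have e3 : v α * v α * v α < v α ^ 2 := by
      rw [pow_two]
      calc v α * v α * v α < v α * v α * 1 := mul_lt_mul_of_pos_left hα (mul_pos hμ hμ)
        _ = v α * v α := mul_one _
    exact absurd (e1.trans e2) (not_le.mpr e3)
  have hln := h.vl_vn h2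
  rw [hl, one_mul] at hln
  have hs : v (x₁ * x₂ + x₁ * x₃ + x₂ * x₃) < v α := by
    have hh : ∀ a b : K, v a ≤ v α → v b ≤ v α → v (a * b) < v α := by
      intro a b ha hb
      rw [map_mul]
      calc v a * v b ≤ v α * v α := mul_le_mul' ha hb
        _ < v α * 1 := mul_lt_mul_of_pos_left hα hμ
        _ = v α := mul_one _
    exact val_add3_lt (hh _ _ h1 h2') (hh _ _ h1 h3) (hh _ _ h2' h3)
  have hαβ : v (α * β) = v α := by rw [map_mul, hβ, mul_one]
  rw [Valuation.map_sub_eq_of_lt_left _ (by rw [hαβ]; exact hs), hαβ] at hln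
  exact absurd hln hn.ne

/-- Two points in the `M`-range and one in the middle range is impossible. -/
lemma factMMmid (h : Coll α β x₁ y₁ x₂ y₂ x₃ y₃ l n) (h2 : v 2 = 1) (hα : v α < 1)
    (hα0 : α ≠ 0) (hβ : v β = 1)
    (h1 : v x₁ ≤ v α) (h2' : v x₂ ≤ v α) (h3 : v x₃ < 1) : False := by
  have hμ : 0 < v α := by rw [Valuation.pos_iff]; exact hα0
  have hl : v l = 1 := h.vl_eq_one hα hβ (h1.trans_lt hα) (h2'.trans_lt hα) h3
  have hln := h.vl_vn h2
  rw [hl, one_mul] at hln
  have hh : ∀ a b : K, v a ≤ v α → v b < 1 → v (a * b) < v α := by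
    intro a b ha hb
    rw [map_mul]
    calc v a * v b ≤ v α * v b := mul_le_mul' ha le_rfl
      _ < v α * 1 := mul_lt_mul_of_pos_left hb hμ
      _ = v α := mul_one _
  have hs : v (x₁ * x₂ + x₁ * x₃ + x₂ * x₃) < v α :=
    val_add3_lt (hh _ _ h1 (h2'.trans_lt hα)) (hh _ _ h1 h3) (hh _ _ h2' h3)
  have hαβ : v (α * β) = v α := by rw [map_mul, hβ, mul_one]
  rw [Valuation.map_sub_eq_of_lt_left _ (by rw [hαβ]; exact hs), hαβ] at hln
  -- now v n = μ, but v n ^ 2 = r₁ r₂ r₃ < μ²
  have e1 := h.vn_sq (v := v)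
  rw [hln] at e1
  have e2 : v x₁ * v x₂ * v x₃ < v α ^ 2 := by
    rw [pow_two]
    calc v x₁ * v x₂ * v x₃ ≤ v α * v α * v x₃ := mul_le_mul' (mul_le_mul' h1 h2') le_rfl
      _ < v α * v α * 1 := mul_lt_mul_of_pos_left h3 (mul_pos hμ hμ)
      _ = v α * v α := mul_one _
  exact absurd e1.symm e2.ne


/-- In the middle range, one of the two branches of the node is chosen. -/
lemma sign_exists {x y : K} (hα : v α < 1) (hβ : v β = 1) (hγ : γ ^ 2 = -β)
    (hE : y ^ 2 = x * (x - α) * (x - β)) (hlo : v α < v x) (hhi : v x < 1) :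
    v (y - γ * x) < v x ∨ v (y - (-γ) * x) < v x := by
  have hx : 0 < v x := lt_of_le_of_lt zero_le hlo
  have e : (y - γ * x) * (y - (-γ) * x) = x * (x ^ 2 - α * x + α * β) := by
    have : (y - γ * x) * (y - (-γ) * x) = y ^ 2 - γ ^ 2 * x ^ 2 := by ring
    rw [this, hE, hγ]; ring
  have h1 : v (x ^ 2 - α * x + α * β) < v x := by
    apply Valuation.map_add_lt _ (Valuation.map_sub_lt _ _ _)
    · rw [map_mul, hβ, mul_one]; exact hlo
    · rw [map_pow, pow_two]
      calc v x * v x < v x * 1 := mul_lt_mul_of_pos_left hhi hx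
        _ = v x := mul_one _
    · rw [map_mul]
      calc v α * v x < 1 * v x := mul_lt_mul_of_pos_right hα hx
        _ = v x := one_mul _
  by_contra hcon
  rw [not_or, not_lt, not_lt] at hcon
  have h2 : v x * v x ≤ v ((y - γ * x) * (y - (-γ) * x)) := by
    rw [map_mul]; exact mul_le_mul' hcon.1 hcon.2
  rw [e, map_mul] at h2
  exact absurd h2 (not_le.mpr (mul_lt_mul_of_pos_left h1 hx))

/-- In the middle range, the two branches of the node are exclusive. -/
lemma sign_exclusive {x y : K} (h2 : v 2 = 1) (hβ : v β = 1) (hγ : γ ^ 2 = -β) :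
    ¬ (v (y - γ * x) < v x ∧ v (y - (-γ) * x) < v x) := by
  rintro ⟨h1, h3⟩
  have hγ1 : v γ = 1 := by
    have : v (γ ^ 2) = 1 := by rw [hγ, Valuation.map_neg, hβ]
    rw [map_pow] at this
    exact (pow_eq_one_iff_of_nonneg zero_le (by norm_num)).mp this
  have e : 2 * γ * x = (y - (-γ) * x) - (y - γ * x) := by ring
  have h4 : v (2 * γ * x) < v x := by
    rw [e]; exact Valuation.map_sub_lt _ h3 h1
  rw [map_mul, map_mul, h2, hγ1, one_mul, one_mul] at h4
  exact lt_irrefl _ h4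

lemma val_gamma (hβ : v β = 1) (hγ : γ ^ 2 = -β) : v γ = 1 := by
  have : v (γ ^ 2) = 1 := by rw [hγ, Valuation.map_neg, hβ]
  rw [map_pow] at this
  exact (pow_eq_one_iff_of_nonneg zero_le (by norm_num)).mp this

/-- Two points at the node with the same valuation `< 1` and third point away from the
node cannot lie on the same branch. -/
lemma factBsign (h : Coll α β x₁ y₁ x₂ y₂ x₃ y₃ l n) (h2 : v 2 = 1) (hα : v α < 1)
    (hβ : v β = 1) (hγ : γ ^ 2 = -β)
    (h12 : v x₁ = v x₂) (h1 : v x₁ < 1) (hx1 : x₁ ≠ 0) (h3 : 1 ≤ v x₃)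
    (hP1 : v (y₁ - γ * x₁) < v x₁) (hP2 : v (y₂ - γ * x₂) < v x₂) : False := by
  have hr : 0 < v x₁ := by rw [Valuation.pos_iff]; exact hx1
  have hγ1 : v γ = 1 := val_gamma hβ hγ
  set κ := l - γ with hκ
  set θ₁ := y₁ - γ * x₁ with hθ₁
  set θ₂ := y₂ - γ * x₂ with hθ₂
  set δ := α - x₁ - x₂ with hδ
  have hθ₁' : θ₁ = κ * x₁ + n := by rw [hθ₁, h.L1, hκ]; ring
  have hθ₂' : θ₂ = κ * x₂ + n := by rw [hθ₂, h.L2, hκ]; ring
  have hx3 : x₃ = κ ^ 2 + 2 * γ * κ + δ := by
    have := h.V1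
    have e : x₃ = l ^ 2 + α + β - x₁ - x₂ := by rw [← this]; ring
    rw [e, hκ, hδ]
    have : β = -γ ^ 2 := by rw [hγ]; ring
    rw [this]; ring
  have hid : θ₁ * θ₂ - κ * (x₁ * θ₂ + x₂ * θ₁) = x₁ * x₂ * (2 * γ * κ + δ) := by
    have hn1 : n = θ₁ - κ * x₁ := by rw [hθ₁']; ring
    have e3 := h.V3
    rw [hx3] at e3
    have : θ₁ * θ₂ - κ * (x₁ * θ₂ + x₂ * θ₁) = n ^ 2 - κ ^ 2 * (x₁ * x₂) := by
      rw [hθ₁', hθ₂']; ring
    rw [this, ← e3]; ring
  have hδ1 : v δ < 1 := by
    rw [hδ]; exact Valuation.map_sub_lt _ (Valuation.map_sub_lt _ hα h1) (h12 ▸ h1)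
  -- v κ ≥ 1
  have hκ1 : 1 ≤ v κ := by
    by_contra hcon
    rw [not_le] at hcon
    have hn : v n < v x₁ := by
      have e : n = θ₁ - κ * x₁ := by rw [hθ₁']; ring
      rw [e]
      apply Valuation.map_sub_lt _ hP1
      rw [map_mul]
      calc v κ * v x₁ < 1 * v x₁ := mul_lt_mul_of_pos_right hcon hr
        _ = v x₁ := one_mul _
    have e1 := h.vn_sq (v := v)
    have e2 : v n ^ 2 < v x₁ * v x₂ * v x₃ := by
      rw [← h12, pow_two]
      calc v n * v n ≤ v n * v x₁ := mul_le_mul' le_rfl hn.le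
        _ < v x₁ * v x₁ := mul_lt_mul_of_pos_right hn hr
        _ = v x₁ * v x₁ * 1 := (mul_one _).symm
        _ ≤ v x₁ * v x₁ * v x₃ := mul_le_mul' le_rfl h3
    exact absurd e1 e2.ne
  have hκpos : 0 < v κ := lt_of_lt_of_le zero_lt_one hκ1
  have hR : v (x₁ * x₂ * (2 * γ * κ + δ)) = v x₁ * v x₁ * v κ := by
    rw [map_mul, map_mul, ← h12]
    congr 1
    have : v δ < v (2 * γ * κ) := by
      rw [map_mul, map_mul, h2, hγ1, one_mul, one_mul]; exact lt_of_lt_of_le hδ1 hκ1
    rw [Valuation.map_add_eq_of_lt_left _ this, map_mul, map_mul, h2, hγ1, one_mul, one_mul]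
  have hL : v (θ₁ * θ₂ - κ * (x₁ * θ₂ + x₂ * θ₁)) < v x₁ * v x₁ * v κ := by
    apply Valuation.map_sub_lt
    · rw [map_mul]
      calc v θ₁ * v θ₂ ≤ v θ₁ * v x₁ := mul_le_mul' le_rfl (h12 ▸ hP2.le)
        _ < v x₁ * v x₁ := mul_lt_mul_of_pos_right hP1 hr
        _ = v x₁ * v x₁ * 1 := (mul_one _).symm
        _ ≤ v x₁ * v x₁ * v κ := mul_le_mul' le_rfl hκ1
    · rw [map_mul, mul_comm]
      apply mul_lt_mul_of_pos_right _ hκpos
      apply Valuation.map_add_lt
      · rw [map_mul]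
        exact mul_lt_mul_of_pos_left (h12 ▸ hP2) hr
      · rw [map_mul, ← h12]
        exact mul_lt_mul_of_pos_left hP1 hr
  rw [hid, hR] at hL
  exact lt_irrefl _ hL


/-- A point in the `M`-range has `v y ≤ v α`. -/
lemma val_y_le_of_M {x y : K} (hα : v α < 1) (hβ : v β = 1)
    (hE : y ^ 2 = x * (x - α) * (x - β)) (hx : v x ≤ v α) : v y ≤ v α := by
  have h1 : v (y ^ 2) ≤ v α ^ 2 := by
    rw [hE, map_mul, map_mul, pow_two]
    have hb : v (x - β) ≤ 1 := Valuation.map_sub_le _ ((hx.trans hα.le)) hβ.le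
    calc v x * v (x - α) * v (x - β) ≤ v α * v α * 1 :=
          mul_le_mul' (mul_le_mul' hx (Valuation.map_sub_le _ hx le_rfl)) hb
      _ = v α * v α := mul_one _
  rw [map_pow] at h1
  exact (pow_le_pow_iff_left₀ zero_le zero_le (by norm_num)).mp h1

/-- `M`, mid, mid: the two middle points have `v x₂ * v x₃ = v α`. -/
lemma factA'_val (h : Coll α β x₁ y₁ x₂ y₂ x₃ y₃ l n) (h2 : v 2 = 1) (hα : v α < 1)
    (hα0 : α ≠ 0) (hβ : v β = 1)
    (h1 : v x₁ ≤ v α) (h2lo : v α < v x₂) (h2hi : v x₂ < 1) (h3lo : v α < v x₃)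
    (h3hi : v x₃ < 1) : v x₂ * v x₃ = v α := by
  have hμ : 0 < v α := by rw [Valuation.pos_iff]; exact hα0
  have hr2 : 0 < v x₂ := hμ.trans h2lo
  have hr3 : 0 < v x₃ := hμ.trans h3lo
  have hl : v l = 1 := h.vl_eq_one hα hβ (h1.trans_lt hα) h2hi h3hi
  have hy1 : v y₁ ≤ v α := val_y_le_of_M hα hβ h.E1 h1
  have hn : v n ≤ v α := by
    have e : n = y₁ - l * x₁ := by rw [h.L1]; ring
    rw [e]
    apply Valuation.map_sub_le _ hy1
    rw [map_mul, hl, one_mul]; exact h1
  have hαβ : v (α * β) = v α := by rw [map_mul, hβ, mul_one]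
  have h12 : v (x₁ * x₂) < v α := by
    rw [map_mul]
    calc v x₁ * v x₂ ≤ v α * v x₂ := mul_le_mul' h1 le_rfl
      _ < v α * 1 := mul_lt_mul_of_pos_left h2hi hμ
      _ = v α := mul_one _
  have h13 : v (x₁ * x₃) < v α := by
    rw [map_mul]
    calc v x₁ * v x₃ ≤ v α * v x₃ := mul_le_mul' h1 le_rfl
      _ < v α * 1 := mul_lt_mul_of_pos_left h3hi hμ
      _ = v α := mul_one _
  have hle : v x₂ * v x₃ ≤ v α := by
    have e : x₂ * x₃ = α * β - 2 * l * n - x₁ * x₂ - x₁ * x₃ := by rw [← h.V2]; ring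
    rw [← map_mul, e]
    apply Valuation.map_sub_le _ (Valuation.map_sub_le _ (Valuation.map_sub_le _ hαβ.le _) h12.le)
      h13.le
    rw [map_mul, map_mul, h2, hl, one_mul, one_mul]; exact hn
  rcases hle.lt_or_eq with hlt | heq
  · exfalso
    have hln := h.vl_vn h2
    rw [hl, one_mul] at hln
    have hs : v (x₁ * x₂ + x₁ * x₃ + x₂ * x₃) < v α :=
      val_add3_lt h12 h13 (by rw [map_mul]; exact hlt)
    rw [Valuation.map_sub_eq_of_lt_left _ (by rw [hαβ]; exact hs), hαβ] at hln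
    have e1 := h.vn_sq (v := v)
    rw [hln] at e1
    have e2 : v x₁ * v x₂ * v x₃ < v α ^ 2 := by
      rw [pow_two, mul_assoc]
      calc v x₁ * (v x₂ * v x₃) ≤ v α * (v x₂ * v x₃) := mul_le_mul' h1 le_rfl
        _ < v α * v α := mul_lt_mul_of_pos_left hlt hμ
    exact absurd e1.symm e2.ne
  · exact heq

/-- `M`, mid, mid: the two middle points lie on the same branch. -/
lemma factA'_sign (h : Coll α β x₁ y₁ x₂ y₂ x₃ y₃ l n) (h2 : v 2 = 1) (hα : v α < 1)
    (hβ : v β = 1) (hγ : γ ^ 2 = -β)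
    (h1 : v x₁ ≤ v α) (h2lo : v α < v x₂) (h2hi : v x₂ < 1) (h3lo : v α < v x₃)
    (h3hi : v x₃ < 1)
    (hP2 : v (y₂ - γ * x₂) < v x₂) (hN3 : v (y₃ - (-γ) * x₃) < v x₃) : False := by
  have hr2 : 0 < v x₂ := lt_of_le_of_lt zero_le h2lo
  have hr3 : 0 < v x₃ := lt_of_le_of_lt zero_le h3lo
  have hγ1 : v γ = 1 := val_gamma hβ hγ
  have hl : v l = 1 := h.vl_eq_one hα hβ (h1.trans_lt hα) h2hi h3hi
  have hy1 : v y₁ ≤ v α := val_y_le_of_M hα hβ h.E1 h1
  have hn : v n ≤ v α := by
    have e : n = y₁ - l * x₁ := by rw [h.L1]; ring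
    rw [e]
    apply Valuation.map_sub_le _ hy1
    rw [map_mul, hl, one_mul]; exact h1
  have hk : v (l - γ) < 1 := by
    have e : (l - γ) * x₂ = (y₂ - γ * x₂) - n := by rw [h.L2]; ring
    have : v ((l - γ) * x₂) < v x₂ := by
      rw [e]; exact Valuation.map_sub_lt _ hP2 (hn.trans_lt h2lo)
    rw [map_mul] at this
    by_contra hcon
    rw [not_lt] at hcon
    exact absurd (le_mul_of_one_le_left hr2.le hcon) (not_le.mpr this)
  have hk' : v (l + γ) < 1 := by
    have e : (l + γ) * x₃ = (y₃ - (-γ) * x₃) - n := by rw [h.L3]; ring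
    have : v ((l + γ) * x₃) < v x₃ := by
      rw [e]; exact Valuation.map_sub_lt _ hN3 (hn.trans_lt h3lo)
    rw [map_mul] at this
    by_contra hcon
    rw [not_lt] at hcon
    exact absurd (le_mul_of_one_le_left hr3.le hcon) (not_le.mpr this)
  have e : 2 * γ = (l + γ) - (l - γ) := by ring
  have : v (2 * γ) < 1 := by rw [e]; exact Valuation.map_sub_lt _ hk' hk
  rw [map_mul, h2, hγ1, one_mul] at this
  exact lt_irrefl _ this


/-- When all three points are at the node, the slope is congruent to exactly one of `±γ`. -/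
lemma Coll.kappa_dichotomy (h : Coll α β x₁ y₁ x₂ y₂ x₃ y₃ l n) (h2 : v 2 = 1)
    (hα : v α < 1) (hβ : v β = 1) (hγ : γ ^ 2 = -β)
    (h1 : v x₁ < 1) (h2' : v x₂ < 1) (h3 : v x₃ < 1) :
    (v (l - γ) < 1 ∧ v (l - (-γ)) = 1) ∨ (v (l - γ) = 1 ∧ v (l - (-γ)) < 1) := by
  have hγ1 : v γ = 1 := val_gamma hβ hγ
  have h2γ : v (2 * γ) = 1 := by rw [map_mul, h2, hγ1, one_mul]
  have hprod : v ((l - γ) * (l - (-γ))) < 1 := by
    have e : (l - γ) * (l - (-γ)) = x₁ + x₂ + x₃ - α := by
      have : (l - γ) * (l - (-γ)) = l ^ 2 - γ ^ 2 := by ring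
      rw [this, hγ, h.l_sq]; ring
    rw [e]
    exact Valuation.map_sub_lt _ (val_add3_lt h1 h2' h3) hα
  rcases lt_or_ge (v (l - γ)) 1 with hk | hk
  · left
    refine ⟨hk, ?_⟩
    have e : l - (-γ) = (l - γ) + 2 * γ := by ring
    rw [e, Valuation.map_add_eq_of_lt_right _ (by rw [h2γ]; exact hk), h2γ]
  · right
    have hk' : v (l - (-γ)) < 1 := by
      by_contra hcon
      rw [not_lt] at hcon
      rw [map_mul] at hprod
      exact absurd (one_le_mul_of_one_le_of_one_le hk hcon) (not_le.mpr hprod)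
    refine ⟨?_, hk'⟩
    have e : l - γ = (l - (-γ)) - 2 * γ := by ring
    rw [e, Valuation.map_sub_eq_of_lt_right _ (by rw [h2γ]; exact hk'), h2γ]

/-- If `v κ < 1` and `v (κ x + n) < v x` then `v n < v x`. -/
lemma val_n_lt_of_small {κ x n : K} (hκ : v κ < 1) (hx : 0 < v x)
    (h : v (κ * x + n) < v x) : v n < v x := by
  have e : n = (κ * x + n) - κ * x := by ring
  rw [e]
  apply Valuation.map_sub_lt _ h
  rw [map_mul]
  calc v κ * v x < 1 * v x := mul_lt_mul_of_pos_right hκ hx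
    _ = v x := one_mul _

/-- If `v κ = 1` and `v (κ x + n) < v x` then `v n = v x`. -/
lemma val_n_eq_of_unit {κ x n : K} (hκ : v κ = 1)
    (h : v (κ * x + n) < v x) : v n = v x := by
  have e : n = (κ * x + n) - κ * x := by ring
  have hκx : v (κ * x) = v x := by rw [map_mul, hκ, one_mul]
  rw [e, Valuation.map_sub_eq_of_lt_right _ (by rw [hκx]; exact h), hκx]

/-- mid, mid, mid, all on the same branch: `v x₁ * v x₂ * v x₃ = v α ^ 2`. -/
lemma factA_same (h : Coll α β x₁ y₁ x₂ y₂ x₃ y₃ l n) (h2 : v 2 = 1) (hα : v α < 1)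
    (hβ : v β = 1) (hγ : γ ^ 2 = -β)
    (h1lo : v α < v x₁) (h1hi : v x₁ < 1)
    (h2lo : v α < v x₂) (h2hi : v x₂ < 1) (h3lo : v α < v x₃) (h3hi : v x₃ < 1)
    (hP1 : v (y₁ - γ * x₁) < v x₁) (hP2 : v (y₂ - γ * x₂) < v x₂)
    (hP3 : v (y₃ - γ * x₃) < v x₃) : v x₁ * v x₂ * v x₃ = v α ^ 2 := by
  have hr1 : 0 < v x₁ := lt_of_le_of_lt zero_le h1lo
  have hr2 : 0 < v x₂ := lt_of_le_of_lt zero_le h2lo
  have hr3 : 0 < v x₃ := lt_of_le_of_lt zero_le h3lo
  have hl : v l = 1 := h.vl_eq_one hα hβ h1hi h2hi h3hi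
  have e1 : y₁ - γ * x₁ = (l - γ) * x₁ + n := by rw [h.L1]; ring
  have e2 : y₂ - γ * x₂ = (l - γ) * x₂ + n := by rw [h.L2]; ring
  have e3 : y₃ - γ * x₃ = (l - γ) * x₃ + n := by rw [h.L3]; ring
  rw [e1] at hP1
  rw [e2] at hP2
  rw [e3] at hP3
  rcases h.kappa_dichotomy h2 hα hβ hγ h1hi h2hi h3hi with ⟨hk, -⟩ | ⟨hk, -⟩
  · have hn1 := val_n_lt_of_small hk hr1 hP1
    have hn2 := val_n_lt_of_small hk hr2 hP2
    have hn3 := val_n_lt_of_small hk hr3 hP3
    have hnsq := h.vn_sq (v := v)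
    have hnpos : 0 < v n := by
      rcases eq_or_ne (v n) 0 with h0 | h0
      · rw [h0] at hnsq
        exact absurd hnsq.symm (by simpa using (mul_pos (mul_pos hr1 hr2) hr3).ne')
      · exact zero_lt_iff.mpr h0
    -- each pairwise product is < v n
    have key : ∀ a b c : Γ₀, 0 < a → 0 < b → v n ^ 2 = a * b * c → v n < c → a * b < v n := by
      intro a b c ha hb habc hc
      by_contra hcon
      rw [not_lt] at hcon
      have : v n ^ 2 < a * b * c := by
        rw [pow_two]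
        calc v n * v n ≤ a * b * v n := mul_le_mul' hcon le_rfl
          _ < a * b * c := mul_lt_mul_of_pos_left hc (mul_pos ha hb)
      exact absurd habc this.ne
    have k12 : v (x₁ * x₂) < v n := by
      rw [map_mul]; exact key _ _ _ hr1 hr2 hnsq hn3
    have k13 : v (x₁ * x₃) < v n := by
      rw [map_mul]; exact key _ _ _ hr1 hr3 (by rw [hnsq]; exact mul_right_comm _ _ _) hn2
    have k23 : v (x₂ * x₃) < v n := by
      rw [map_mul]
      exact key _ _ _ hr2 hr3 (by rw [hnsq]; exact mul_rotate _ _ _) hn1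
    have hs : v (x₁ * x₂ + x₁ * x₃ + x₂ * x₃) < v n := val_add3_lt k12 k13 k23
    have h2ln : v (2 * l * n) = v n := by rw [map_mul, map_mul, h2, hl, one_mul, one_mul]
    have hαβ : v (α * β) = v α := by rw [map_mul, hβ, mul_one]
    have : v (α * β) = v (2 * l * n) := by
      have e : α * β = (α * β - 2 * l * n) + 2 * l * n := by ring
      rw [e]
      apply Valuation.map_add_eq_of_lt_right
      rw [← h.V2, h2ln]; exact hs
    rw [hαβ, h2ln] at this
    rw [← hnsq, this]
  · exfalso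
    have hn1 := val_n_eq_of_unit hk hP1
    have hn2 := val_n_eq_of_unit hk hP2
    have hn3 := val_n_eq_of_unit hk hP3
    have hnsq := h.vn_sq (v := v)
    rw [← hn1, ← hn2, ← hn3, pow_two] at hnsq
    have hnpos : 0 < v n := hn1 ▸ hr1
    have : v n * v n * 1 = v n * v n * v n := by rw [mul_one]; exact hnsq
    have := mul_left_cancel₀ (mul_pos hnpos hnpos).ne' this
    rw [← this] at hn1
    exact absurd hn1.symm h1hi.ne

/-- mid, mid, mid, two on one branch and the third on the other: `v x₃ = v x₁ * v x₂`. -/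
lemma factA_mixed (h : Coll α β x₁ y₁ x₂ y₂ x₃ y₃ l n) (h2 : v 2 = 1) (hα : v α < 1)
    (hβ : v β = 1) (hγ : γ ^ 2 = -β)
    (h1lo : v α < v x₁) (h1hi : v x₁ < 1)
    (h2lo : v α < v x₂) (h2hi : v x₂ < 1) (h3lo : v α < v x₃) (h3hi : v x₃ < 1)
    (hP1 : v (y₁ - γ * x₁) < v x₁) (hP2 : v (y₂ - γ * x₂) < v x₂)
    (hN3 : v (y₃ - (-γ) * x₃) < v x₃) : v x₃ = v x₁ * v x₂ := by
  have hr1 : 0 < v x₁ := lt_of_le_of_lt zero_le h1lo
  have hr2 : 0 < v x₂ := lt_of_le_of_lt zero_le h2lo
  have hr3 : 0 < v x₃ := lt_of_le_of_lt zero_le h3lo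
  have e1 : y₁ - γ * x₁ = (l - γ) * x₁ + n := by rw [h.L1]; ring
  have e2 : y₂ - γ * x₂ = (l - γ) * x₂ + n := by rw [h.L2]; ring
  have e3 : y₃ - (-γ) * x₃ = (l - (-γ)) * x₃ + n := by rw [h.L3]; ring
  rw [e1] at hP1
  rw [e2] at hP2
  rw [e3] at hN3
  have hnsq := h.vn_sq (v := v)
  rcases h.kappa_dichotomy h2 hα hβ hγ h1hi h2hi h3hi with ⟨-, hk'⟩ | ⟨hk, hk'⟩
  · have hn3 := val_n_eq_of_unit hk' hN3
    rw [hn3, pow_two] at hnsq
    have : v x₃ * v x₃ = v x₁ * v x₂ * v x₃ := hnsq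
    exact mul_right_cancel₀ hr3.ne' this
  · exfalso
    have hn1 := val_n_eq_of_unit hk hP1
    have hn2 := val_n_eq_of_unit hk hP2
    rw [← hn1, ← hn2, pow_two] at hnsq
    have hnpos : 0 < v n := hn1 ▸ hr1
    have : v n * v n * 1 = v n * v n * v x₃ := by rw [mul_one]; exact hnsq
    have := mul_left_cancel₀ (mul_pos hnpos hnpos).ne' this
    exact absurd this.symm h3hi.ne

end Fermat.Agent.S05.Comp

end
-- ===== PACK-END S05/CompCore.lean

-- ===== PACK-BEGIN S05/CompXY.lean
section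




/-!
# The component map on coordinates, and its multiplicativity on collinear triples
-/

set_option autoImplicit false

namespace Fermat.Agent.S05.Comp

variable {K : Type*} [Field K] {Γ₀ : Type*} [LinearOrderedCommGroupWithZero Γ₀]

/-- The unit of `Γ₀` attached to a (possibly zero) element; junk value `1` at `0`. -/
noncomputable def toU (g : Γ₀) : Γ₀ˣ := if h : g = 0 then 1 else Units.mk0 g h

lemma toU_coe {g : Γ₀} (h : g ≠ 0) : ((toU g : Γ₀ˣ) : Γ₀) = g := by
  simp [toU, h]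

lemma toU_mul {a b : Γ₀} (ha : a ≠ 0) (hb : b ≠ 0) : toU (a * b) = toU a * toU b := by
  apply Units.ext
  rw [Units.val_mul, toU_coe ha, toU_coe hb, toU_coe (mul_ne_zero ha hb)]

lemma toU_pow {a : Γ₀} (ha : a ≠ 0) (k : ℕ) : toU (a ^ k) = toU a ^ k := by
  apply Units.ext
  rw [Units.val_pow_eq_pow_val, toU_coe ha, toU_coe (pow_ne_zero k ha)]

lemma toU_one : toU (1 : Γ₀) = 1 := by
  apply Units.ext
  rw [toU_coe one_ne_zero, Units.val_one]

variable (v : Valuation K Γ₀)

/-- The component group `Γ₀ˣ / ⟨v(α)²⟩`. -/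
abbrev CompGroup (α : K) : Type _ := Γ₀ˣ ⧸ Subgroup.zpowers (toU (v α) ^ 2)

/-- The class of an element of `Γ₀` in the component group. -/
noncomputable def cls (α : K) (g : Γ₀) : CompGroup v α := QuotientGroup.mk (toU g)

lemma cls_mul (α : K) {a b : Γ₀} (ha : a ≠ 0) (hb : b ≠ 0) :
    cls v α (a * b) = cls v α a * cls v α b := by
  rw [cls, toU_mul ha hb]; rfl

lemma cls_one (α : K) : cls v α 1 = 1 := by
  rw [cls, toU_one]; rfl

lemma cls_alpha_sq (α : K) (hα0 : α ≠ 0) : cls v α (v α ^ 2) = 1 := by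
  have h0 : v α ≠ 0 := (Valuation.ne_zero_iff v).mpr hα0
  rw [cls, toU_pow h0]
  exact (QuotientGroup.eq_one_iff _).mpr (Subgroup.mem_zpowers _)

lemma cls_alpha_mul_self (α : K) (hα0 : α ≠ 0) : cls v α (v α) * cls v α (v α) = 1 := by
  have h0 : v α ≠ 0 := (Valuation.ne_zero_iff v).mpr hα0
  rw [← cls_mul v α h0 h0, ← pow_two, cls_alpha_sq v α hα0]

lemma cls_alpha_inv (α : K) (hα0 : α ≠ 0) : (cls v α (v α))⁻¹ = cls v α (v α) :=
  inv_eq_of_mul_eq_one_left (cls_alpha_mul_self v α hα0)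

/-- The component of a point with coordinates `(x, y)` on `y² = x (x - α) (x - β)`,
relative to the branch `y ≡ γ x`. -/
noncomputable def compXY (α γ : K) (x y : K) : CompGroup v α :=
  if 1 ≤ v x then 1
  else if v x ≤ v α then cls v α (v α)
  else if v (y - γ * x) < v x then cls v α (v x)
  else (cls v α (v x))⁻¹

variable {v}
variable {α β γ x₁ y₁ x₂ y₂ x₃ y₃ l n : K}

lemma compXY_of_Z {x y : K} (h : 1 ≤ v x) : compXY v α γ x y = 1 := by
  simp [compXY, h]

lemma compXY_of_M {x y : K} (hα : v α < 1) (h : v x ≤ v α) :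
    compXY v α γ x y = cls v α (v α) := by
  have : ¬ 1 ≤ v x := not_le.mpr (h.trans_lt hα)
  simp [compXY, this, h]

lemma compXY_of_P {x y : K} (hlo : v α < v x) (hhi : v x < 1)
    (hP : v (y - γ * x) < v x) : compXY v α γ x y = cls v α (v x) := by
  simp [compXY, not_le.mpr hhi, not_le.mpr hlo, hP]

lemma compXY_of_N {x y : K} (h2 : v 2 = 1) (hβ : v β = 1) (hγ : γ ^ 2 = -β)
    (hlo : v α < v x) (hhi : v x < 1)
    (hN : v (y - (-γ) * x) < v x) : compXY v α γ x y = (cls v α (v x))⁻¹ := by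
  have hP : ¬ v (y - γ * x) < v x := fun hP => sign_exclusive h2 hβ hγ ⟨hP, hN⟩
  simp [compXY, not_le.mpr hhi, not_le.mpr hlo, hP]

/-- The four types of points. -/
lemma compXY_cases {x y : K} (h2 : v 2 = 1) (hα : v α < 1) (hβ : v β = 1) (hγ : γ ^ 2 = -β)
    (hE : y ^ 2 = x * (x - α) * (x - β)) :
    (1 ≤ v x ∧ compXY v α γ x y = 1) ∨
    (v x ≤ v α ∧ compXY v α γ x y = cls v α (v α)) ∨
    (v α < v x ∧ v x < 1 ∧ v (y - γ * x) < v x ∧ compXY v α γ x y = cls v α (v x)) ∨
    (v α < v x ∧ v x < 1 ∧ v (y - (-γ) * x) < v x ∧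
      compXY v α γ x y = (cls v α (v x))⁻¹) := by
  rcases le_or_gt 1 (v x) with hZ | hhi
  · exact Or.inl ⟨hZ, compXY_of_Z hZ⟩
  rcases le_or_gt (v x) (v α) with hM | hlo
  · exact Or.inr (Or.inl ⟨hM, compXY_of_M hα hM⟩)
  rcases sign_exists hα hβ hγ hE hlo hhi with hP | hN
  · exact Or.inr (Or.inr (Or.inl ⟨hlo, hhi, hP, compXY_of_P hlo hhi hP⟩))
  · exact Or.inr (Or.inr (Or.inr ⟨hlo, hhi, hN, compXY_of_N h2 hβ hγ hlo hhi hN⟩))

lemma neg_gamma_sq (hγ : γ ^ 2 = -β) : (-γ) ^ 2 = -β := by rw [neg_sq, hγ]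

/-- Two points at the node, third away: the components cancel. -/
lemma core_two (h : Coll α β x₁ y₁ x₂ y₂ x₃ y₃ l n) (h2 : v 2 = 1) (hα : v α < 1)
    (hα0 : α ≠ 0) (hβ : v β = 1) (hγ : γ ^ 2 = -β)
    (h1 : v x₁ < 1) (h2' : v x₂ < 1) (h3 : 1 ≤ v x₃) :
    compXY v α γ x₁ y₁ * compXY v α γ x₂ y₂ = 1 := by
  have hμ : 0 < v α := by rw [Valuation.pos_iff]; exact hα0
  rcases compXY_cases h2 hα hβ hγ h.E1 with ⟨hZ, -⟩ | ⟨hM1, e1⟩ | ⟨hlo1, hhi1, hP1, e1⟩ |
    ⟨hlo1, hhi1, hN1, e1⟩
  · exact absurd hZ (not_le.mpr h1)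
  · rcases compXY_cases h2 hα hβ hγ h.E2 with ⟨hZ, -⟩ | ⟨hM2, e2⟩ | ⟨hlo2, hhi2, hP2, e2⟩ |
      ⟨hlo2, hhi2, hN2, e2⟩
    · exact absurd hZ (not_le.mpr h2')
    · rw [e1, e2]; exact cls_alpha_mul_self v α hα0
    · exact (factD h h2 hα hβ (hM1.trans_lt hlo2) (h1.trans_le h3) (hhi2.le.trans h3) h3
        (hlo2.trans_le (le_mul_of_one_le_right (hμ.trans hlo2).le h3))).elim
    · exact (factD h h2 hα hβ (hM1.trans_lt hlo2) (h1.trans_le h3) (hhi2.le.trans h3) h3
        (hlo2.trans_le (le_mul_of_one_le_right (hμ.trans hlo2).le h3))).elim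
  all_goals
    rcases compXY_cases h2 hα hβ hγ h.E2 with ⟨hZ, -⟩ | ⟨hM2, e2⟩ | ⟨hlo2, hhi2, hP2, e2⟩ |
      ⟨hlo2, hhi2, hN2, e2⟩
    · exact absurd hZ (not_le.mpr h2')
    · exact (factD h.swap12 h2 hα hβ (hM2.trans_lt hlo1) (h2'.trans_le h3) (hhi1.le.trans h3) h3
        (hlo1.trans_le (le_mul_of_one_le_right (hμ.trans hlo1).le h3))).elim
  all_goals
    have h12 : v x₁ = v x₂ := by
      rcases lt_trichotomy (v x₁) (v x₂) with hlt | heq | hgt
      · exact (factD h h2 hα hβ hlt (h1.trans_le h3) (hhi2.le.trans h3) h3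
          (hlo2.trans_le (le_mul_of_one_le_right (hμ.trans hlo2).le h3))).elim
      · exact heq
      · exact (factD h.swap12 h2 hα hβ hgt (h2'.trans_le h3) (hhi1.le.trans h3) h3
          (hlo1.trans_le (le_mul_of_one_le_right (hμ.trans hlo1).le h3))).elim
    have hx1 : x₁ ≠ 0 := (Valuation.ne_zero_iff v).mp (hμ.trans hlo1).ne'
  · exact (factBsign h h2 hα hβ hγ h12 h1 hx1 h3 hP1 hP2).elim
  · rw [e1, e2, h12]; exact mul_inv_cancel _
  · rw [e1, e2, h12]; exact inv_mul_cancel _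
  · exact (factBsign h h2 hα hβ (neg_gamma_sq hγ) h12 h1 hx1 h3 hN1 hN2).elim


/-- All three points at the node, the first one in the `M`-range. -/
lemma core_three_M (h : Coll α β x₁ y₁ x₂ y₂ x₃ y₃ l n) (h2 : v 2 = 1) (hα : v α < 1)
    (hα0 : α ≠ 0) (hβ : v β = 1) (hγ : γ ^ 2 = -β)
    (h1 : v x₁ ≤ v α) (h2' : v x₂ < 1) (h3 : v x₃ < 1) :
    compXY v α γ x₁ y₁ * compXY v α γ x₂ y₂ * compXY v α γ x₃ y₃ = 1 := by
  have hμ : 0 < v α := by rw [Valuation.pos_iff]; exact hα0
  have e1 : compXY v α γ x₁ y₁ = cls v α (v α) := compXY_of_M hα h1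
  rcases compXY_cases h2 hα hβ hγ h.E2 with ⟨hZ, -⟩ | ⟨hM2, e2⟩ | ⟨hlo2, hhi2, hP2, e2⟩ |
    ⟨hlo2, hhi2, hN2, e2⟩
  · exact absurd hZ (not_le.mpr h2')
  · exact (factMMmid h h2 hα hα0 hβ h1 hM2 h3).elim
  all_goals
    rcases compXY_cases h2 hα hβ hγ h.E3 with ⟨hZ, -⟩ | ⟨hM3, e3⟩ | ⟨hlo3, hhi3, hP3, e3⟩ |
      ⟨hlo3, hhi3, hN3, e3⟩
    · exact absurd hZ (not_le.mpr h3)
    · exact (factMMmid h.swap23 h2 hα hα0 hβ h1 hM3 h2').elim
  all_goals
    have hval := factA'_val h h2 hα hα0 hβ h1 hlo2 hhi2 hlo3 hhi3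
    have hne2 : v x₂ ≠ 0 := (hμ.trans hlo2).ne'
    have hne3 : v x₃ ≠ 0 := (hμ.trans hlo3).ne'
  · rw [e1, e2, e3, mul_assoc, ← cls_mul v α hne2 hne3, hval]
    exact cls_alpha_mul_self v α hα0
  · exact (factA'_sign h h2 hα hβ hγ h1 hlo2 hhi2 hlo3 hhi3 hP2 hN3).elim
  · exact (factA'_sign h h2 hα hβ (neg_gamma_sq hγ) h1 hlo2 hhi2 hlo3 hhi3 hN2
      (by rwa [neg_neg])).elim
  · rw [e1, e2, e3, mul_assoc, ← mul_inv, ← cls_mul v α hne2 hne3, hval]
    exact mul_inv_cancel _

/-- All three points in the middle range. -/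
lemma core_three_mid (h : Coll α β x₁ y₁ x₂ y₂ x₃ y₃ l n) (h2 : v 2 = 1) (hα : v α < 1)
    (hα0 : α ≠ 0) (hβ : v β = 1) (hγ : γ ^ 2 = -β)
    (h1lo : v α < v x₁) (h1hi : v x₁ < 1)
    (h2lo : v α < v x₂) (h2hi : v x₂ < 1) (h3lo : v α < v x₃) (h3hi : v x₃ < 1) :
    compXY v α γ x₁ y₁ * compXY v α γ x₂ y₂ * compXY v α γ x₃ y₃ = 1 := by
  have hμ : 0 < v α := by rw [Valuation.pos_iff]; exact hα0
  have hne1 : v x₁ ≠ 0 := (hμ.trans h1lo).ne'
  have hne2 : v x₂ ≠ 0 := (hμ.trans h2lo).ne'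
  have hne3 : v x₃ ≠ 0 := (hμ.trans h3lo).ne'
  have hγ' := neg_gamma_sq hγ
  rcases sign_exists hα hβ hγ h.E1 h1lo h1hi with hP1 | hN1 <;>
  rcases sign_exists hα hβ hγ h.E2 h2lo h2hi with hP2 | hN2 <;>
  rcases sign_exists hα hβ hγ h.E3 h3lo h3hi with hP3 | hN3
  · -- PPP
    rw [compXY_of_P h1lo h1hi hP1, compXY_of_P h2lo h2hi hP2, compXY_of_P h3lo h3hi hP3,
      ← cls_mul v α hne1 hne2, ← cls_mul v α (mul_ne_zero hne1 hne2) hne3,
      factA_same h h2 hα hβ hγ h1lo h1hi h2lo h2hi h3lo h3hi hP1 hP2 hP3]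
    exact cls_alpha_sq v α hα0
  · -- PPN
    rw [compXY_of_P h1lo h1hi hP1, compXY_of_P h2lo h2hi hP2,
      compXY_of_N h2 hβ hγ h3lo h3hi hN3,
      factA_mixed h h2 hα hβ hγ h1lo h1hi h2lo h2hi h3lo h3hi hP1 hP2 hN3,
      ← cls_mul v α hne1 hne2]
    exact mul_inv_cancel _
  · -- PNP
    rw [compXY_of_P h1lo h1hi hP1, compXY_of_N h2 hβ hγ h2lo h2hi hN2,
      compXY_of_P h3lo h3hi hP3,
      factA_mixed h.swap23 h2 hα hβ hγ h1lo h1hi h3lo h3hi h2lo h2hi hP1 hP3 hN2,
      cls_mul v α hne1 hne3, mul_right_comm]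
    exact mul_inv_cancel _
  · -- PNN
    have := factA_mixed h.rot h2 hα hβ hγ' h2lo h2hi h3lo h3hi h1lo h1hi hN2 hN3
      (by rwa [neg_neg])
    rw [compXY_of_P h1lo h1hi hP1, compXY_of_N h2 hβ hγ h2lo h2hi hN2,
      compXY_of_N h2 hβ hγ h3lo h3hi hN3, this, cls_mul v α hne2 hne3, mul_assoc, ← mul_inv]
    exact mul_inv_cancel _
  · -- NPP
    have := factA_mixed h.rot h2 hα hβ hγ h2lo h2hi h3lo h3hi h1lo h1hi hP2 hP3 hN1
    rw [compXY_of_N h2 hβ hγ h1lo h1hi hN1, compXY_of_P h2lo h2hi hP2,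
      compXY_of_P h3lo h3hi hP3, this, cls_mul v α hne2 hne3, mul_assoc]
    exact inv_mul_cancel _
  · -- NPN
    have := factA_mixed h.swap23 h2 hα hβ hγ' h1lo h1hi h3lo h3hi h2lo h2hi hN1 hN3
      (by rwa [neg_neg])
    rw [compXY_of_N h2 hβ hγ h1lo h1hi hN1, compXY_of_P h2lo h2hi hP2,
      compXY_of_N h2 hβ hγ h3lo h3hi hN3, this, cls_mul v α hne1 hne3, mul_right_comm,
      ← mul_inv]
    exact inv_mul_cancel _
  · -- NNP
    have := factA_mixed h h2 hα hβ hγ' h1lo h1hi h2lo h2hi h3lo h3hi hN1 hN2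
      (by rwa [neg_neg])
    rw [compXY_of_N h2 hβ hγ h1lo h1hi hN1, compXY_of_N h2 hβ hγ h2lo h2hi hN2,
      compXY_of_P h3lo h3hi hP3, this, cls_mul v α hne1 hne2, ← mul_inv]
    exact inv_mul_cancel _
  · -- NNN
    have := factA_same h h2 hα hβ hγ' h1lo h1hi h2lo h2hi h3lo h3hi hN1 hN2 hN3
    rw [compXY_of_N h2 hβ hγ h1lo h1hi hN1, compXY_of_N h2 hβ hγ h2lo h2hi hN2,
      compXY_of_N h2 hβ hγ h3lo h3hi hN3, ← mul_inv, ← mul_inv,
      ← cls_mul v α hne1 hne2, ← cls_mul v α (mul_ne_zero hne1 hne2) hne3, this,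
      cls_alpha_sq v α hα0, inv_one]

/-- **Core theorem**: the components of three collinear points multiply to `1`. -/
theorem compXY_mul (h : Coll α β x₁ y₁ x₂ y₂ x₃ y₃ l n) (h2 : v 2 = 1) (hα : v α < 1)
    (hα0 : α ≠ 0) (hβ : v β = 1) (hγ : γ ^ 2 = -β) :
    compXY v α γ x₁ y₁ * compXY v α γ x₂ y₂ * compXY v α γ x₃ y₃ = 1 := by
  rcases le_or_gt 1 (v x₁) with hZ1 | h1 <;>
  rcases le_or_gt 1 (v x₂) with hZ2 | h2' <;>
  rcases le_or_gt 1 (v x₃) with hZ3 | h3
  · rw [compXY_of_Z hZ1, compXY_of_Z hZ2, compXY_of_Z hZ3]; simp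
  · exact (factC h.swap13 h2 hα hβ h3 hZ2 hZ1).elim
  · exact (factC h.swap12 h2 hα hβ h2' hZ1 hZ3).elim
  · rw [compXY_of_Z hZ1, one_mul]
    exact core_two h.rot h2 hα hα0 hβ hγ h2' h3 hZ1
  · exact (factC h h2 hα hβ h1 hZ2 hZ3).elim
  · rw [compXY_of_Z hZ2, mul_one]
    exact core_two h.swap23 h2 hα hα0 hβ hγ h1 h3 hZ2
  · rw [compXY_of_Z hZ3, mul_one]
    exact core_two h h2 hα hα0 hβ hγ h1 h2' hZ3
  · -- all three at the node
    rcases le_or_gt (v x₁) (v α) with hM1 | hlo1
    · exact core_three_M h h2 hα hα0 hβ hγ hM1 h2' h3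
    rcases le_or_gt (v x₂) (v α) with hM2 | hlo2
    · have := core_three_M h.swap12 h2 hα hα0 hβ hγ hM2 h1 h3
      rw [mul_comm (compXY v α γ x₁ y₁)]; exact this
    rcases le_or_gt (v x₃) (v α) with hM3 | hlo3
    · have := core_three_M h.rot' h2 hα hα0 hβ hγ hM3 h1 h2'
      rw [mul_comm, ← mul_assoc]; exact this
    exact core_three_mid h h2 hα hα0 hβ hγ hlo1 h1 hlo2 h2' hlo3 h3

end Fermat.Agent.S05.Comp

end
-- ===== PACK-END S05/CompXY.lean

-- ===== PACK-BEGIN S12/H651/RootSums.lean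
section


/-!
# S12 / QUOT-Q3 (helper651), part 2: sums over the nontrivial `p`-th roots of unity

For a primitive `p`-th root of unity `ζ` in a field in which `2, 3, 5` are invertible and
`s_k = ζ ^ k / (1 - ζ ^ k) ^ 2`:

  `120 * ∑_{k = 1}^{p - 1} (6 s_k ^ 2 + s_k) = p ^ 4 - 1`        (`root_sum`).

Proof: `s_k = v_k ^ 2 + v_k` with `v_k = 1 / (ζ ^ k - 1)`; the `v_k` are the roots of
`(X + 1) ^ p - X ^ p = p X ^ (p-1) + C(p,2) X ^ (p-2) + …` (`add_one_pow_sub_pow_eq`), so their
elementary symmetric functions are binomial coefficients (`esymm_vRoot`), and Newton's identities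
(`newton_four`, from Mathlib's `MvPolynomial.psum_eq_mul_esymm_sub_sum`) give the power sums.

This is the computation behind "Vélu's quotient of a nodal cubic by `μ_p` multiplies `c₄` by `p⁴`".
Mathlib only.
-/

set_option autoImplicit false

namespace Fermat.Agent.S12.H651

open Finset Polynomial

section Newton

variable {κ : Type*} [CommRing κ]

/-- Newton's identities for the first four power sums of a finite family. -/
theorem newton_four {ι : Type*} [Fintype ι] (f : ι → κ) :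
    (∑ i, f i ^ 1 = (univ.val.map f).esymm 1) ∧
    (∑ i, f i ^ 2 = (univ.val.map f).esymm 1 * ∑ i, f i ^ 1 - 2 * (univ.val.map f).esymm 2) ∧
    (∑ i, f i ^ 3 = (univ.val.map f).esymm 1 * ∑ i, f i ^ 2
        - (univ.val.map f).esymm 2 * ∑ i, f i ^ 1 + 3 * (univ.val.map f).esymm 3) ∧
    (∑ i, f i ^ 4 = (univ.val.map f).esymm 1 * ∑ i, f i ^ 3
        - (univ.val.map f).esymm 2 * ∑ i, f i ^ 2 + (univ.val.map f).esymm 3 * ∑ i, f i ^ 1
        - 4 * (univ.val.map f).esymm 4) := by
  classical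
  have key : ∀ k : ℕ, 0 < k → ∑ i, f i ^ k =
      (-1) ^ (k + 1) * k * (univ.val.map f).esymm k -
      ∑ a ∈ antidiagonal k with a.1 ∈ Set.Ioo 0 k,
        (-1) ^ a.1 * (univ.val.map f).esymm a.1 * ∑ i, f i ^ a.2 := by
    intro k hk
    have h := congrArg (MvPolynomial.aeval (R := ℤ) f)
      (MvPolynomial.psum_eq_mul_esymm_sub_sum ι ℤ k hk)
    simp only [MvPolynomial.psum, map_sum, map_pow, MvPolynomial.aeval_X, map_sub, map_mul,
      map_neg, map_one, map_natCast, MvPolynomial.aeval_esymm_eq_multiset_esymm] at h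
    exact h
  refine ⟨?_, ?_, ?_, ?_⟩
  · rw [key 1 one_pos]
    simp [Finset.sum_filter, Finset.Nat.antidiagonal_succ]
  · rw [key 2 two_pos]
    simp [Finset.sum_filter, Finset.Nat.antidiagonal_succ]
    ring
  · rw [key 3 (by norm_num)]
    simp [Finset.sum_filter, Finset.Nat.antidiagonal_succ]
    ring
  · rw [key 4 (by norm_num)]
    simp [Finset.sum_filter, Finset.Nat.antidiagonal_succ]
    ring

end Newton


section RootPoly

variable {κ : Type*} [Field κ]

/-- `v_k = 1 / (ζ ^ k - 1)`. -/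
noncomputable def vRoot (ζ : κ) (k : ℕ) : κ := (ζ ^ k - 1)⁻¹

lemma vRoot_add_one {ζ : κ} {k : ℕ} (hk : ζ ^ k ≠ 1) : vRoot ζ k + 1 = ζ ^ k * vRoot ζ k := by
  unfold vRoot
  have h : ζ ^ k - 1 ≠ 0 := sub_ne_zero.mpr hk
  field_simp
  ring

lemma vRoot_add_one_pow {ζ : κ} {p k : ℕ} (hζ : ζ ^ p = 1) (hk : ζ ^ k ≠ 1) :
    (vRoot ζ k + 1) ^ p = vRoot ζ k ^ p := by
  rw [vRoot_add_one hk, mul_pow, ← pow_mul, mul_comm k p, pow_mul, hζ, one_pow, one_mul]

/-- `ζ ^ k / (1 - ζ ^ k)² = v_k² + v_k`. -/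
lemma s_eq_vRoot {ζ : κ} {k : ℕ} (hk : ζ ^ k ≠ 1) :
    ζ ^ k / (1 - ζ ^ k) ^ 2 = vRoot ζ k ^ 2 + vRoot ζ k := by
  unfold vRoot
  have h : ζ ^ k - 1 ≠ 0 := sub_ne_zero.mpr hk
  have h' : 1 - ζ ^ k ≠ 0 := sub_ne_zero.mpr (Ne.symm hk)
  field_simp
  ring

variable {ζ : κ} {p : ℕ}

lemma pow_ne_one_of_lt (hζ : IsPrimitiveRoot ζ p) {k : ℕ} (h0 : 0 < k) (hk : k < p) :
    ζ ^ k ≠ 1 := hζ.pow_ne_one_of_pos_of_lt (Nat.pos_iff_ne_zero.mp h0) hk

lemma vRoot_injOn (hζ : IsPrimitiveRoot ζ p) :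
    Function.Injective fun i : Fin (p - 1) => vRoot ζ (i + 1) := by
  intro i j h
  simp only [vRoot] at h
  have h1 : ζ ^ ((i : ℕ) + 1) = ζ ^ ((j : ℕ) + 1) := by
    have := inv_injective h
    exact sub_left_injective this
  have hi : (i : ℕ) + 1 < p := by have := i.2; omega
  have hj : (j : ℕ) + 1 < p := by have := j.2; omega
  have := hζ.pow_inj hi hj h1
  exact Fin.ext (by omega)

/-- The polynomial `(X + 1) ^ p - X ^ p` has the roots `v_k`, `1 ≤ k ≤ p - 1`. -/
theorem add_one_pow_sub_pow_eq (hp : 2 ≤ p) (hζ : IsPrimitiveRoot ζ p) :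
    ((X : κ[X]) + 1) ^ p - X ^ p = C (p : κ) * ∏ i : Fin (p - 1), (X - C (vRoot ζ (i + 1))) := by
  classical
  set G : κ[X] := ∏ i : Fin (p - 1), (X - C (vRoot ζ (i + 1))) with hG
  have hGmonic : G.Monic := monic_prod_of_monic _ _ fun i _ => monic_X_sub_C _
  have hGdeg : G.natDegree = p - 1 := by
    rw [hG, natDegree_prod_of_monic _ _ fun i _ => monic_X_sub_C _]
    simp
  refine eq_of_degree_sub_lt_of_eval_index_eq (v := fun i : Fin (p - 1) => vRoot ζ (i + 1))
    Finset.univ (vRoot_injOn hζ).injOn ?_ ?_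
  · rw [Finset.card_univ, Fintype.card_fin, degree_lt_iff_coeff_zero]
    intro m hm
    rw [coeff_sub, coeff_sub, coeff_C_mul, coeff_X_add_one_pow, coeff_X_pow]
    rcases Nat.lt_or_ge m p with h1 | h1
    · have hm' : m = p - 1 := by omega
      subst hm'
      have : G.coeff (p - 1) = 1 := by
        rw [← hGdeg]; exact hGmonic.coeff_natDegree
      rw [this, if_neg (by omega), Nat.choose_symm_of_eq_add (by omega : p = (p - 1) + 1),
        Nat.choose_one_right]
      ring
    · rw [coeff_eq_zero_of_natDegree_lt (by omega : G.natDegree < m)]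
      rcases Nat.eq_or_lt_of_le h1 with h2 | h2
      · subst h2
        simp
      · rw [if_neg (by omega), Nat.choose_eq_zero_of_lt h2]
        simp
  · intro i _
    have hi : (i : ℕ) + 1 < p := by have := i.2; omega
    have hk := pow_ne_one_of_lt hζ (Nat.succ_pos i) hi
    rw [eval_sub, eval_pow, eval_add, eval_X, eval_one, eval_pow, eval_X,
      vRoot_add_one_pow hζ.pow_eq_one hk, sub_self, eval_mul, eval_C, hG, eval_prod,
      Finset.prod_eq_zero (Finset.mem_univ i) (by simp), mul_zero]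

/-- Vieta: the elementary symmetric functions of the `v_k`. -/
theorem esymm_vRoot (hp : 2 ≤ p) (hζ : IsPrimitiveRoot ζ p) {j : ℕ} (hj : j ≤ p - 1) :
    (p : κ) * (Finset.univ.val.map fun i : Fin (p - 1) => vRoot ζ (i + 1)).esymm j =
      (-1) ^ j * (p.choose (j + 1) : κ) := by
  classical
  have h := add_one_pow_sub_pow_eq hp hζ
  have hprod : (∏ i : Fin (p - 1), (X - C (vRoot ζ (i + 1))) : κ[X]) =
      ((Finset.univ.val.map fun i : Fin (p - 1) => vRoot ζ (i + 1)).map
        fun t => X - C t).prod := by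
    rw [Multiset.map_map]
    rfl
  have hcard : Multiset.card (Finset.univ.val.map fun i : Fin (p - 1) => vRoot ζ (i + 1))
      = p - 1 := by simp
  have hc : (((X : κ[X]) + 1) ^ p - X ^ p).coeff (p - 1 - j) =
      (C (p : κ) * ∏ i : Fin (p - 1), (X - C (vRoot ζ (i + 1)))).coeff (p - 1 - j) := by
    rw [h]
  rw [coeff_sub, coeff_C_mul, coeff_X_add_one_pow, coeff_X_pow, if_neg (by omega), hprod,
    Multiset.prod_X_sub_C_coeff _ (by rw [hcard]; omega), hcard, sub_zero,
    Nat.sub_sub_self hj] at hc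
  have hch : p.choose (p - 1 - j) = p.choose (j + 1) :=
    Nat.choose_symm_of_eq_add (by omega)
  rw [hch] at hc
  have hsq : ((-1 : κ) ^ j) * (-1) ^ j = 1 := by
    rw [← mul_pow]; simp
  calc (p : κ) * (Finset.univ.val.map fun i : Fin (p - 1) => vRoot ζ (i + 1)).esymm j
      = (-1) ^ j * ((p : κ) * ((-1) ^ j *
          (Finset.univ.val.map fun i : Fin (p - 1) => vRoot ζ (i + 1)).esymm j)) := by
        linear_combination (-(p : κ) *
          (Finset.univ.val.map fun i : Fin (p - 1) => vRoot ζ (i + 1)).esymm j) * hsq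
    _ = (-1) ^ j * (p.choose (j + 1) : κ) := by rw [← hc]

end RootPoly


section RootSum

variable {κ : Type*} [Field κ]

lemma choose_cast_identities (p : ℕ) (hp : 5 ≤ p) :
    (2 : κ) * (p.choose 2 : κ) = (p : κ) * (p - 1) ∧
    (6 : κ) * (p.choose 3 : κ) = (p : κ) * (p - 1) * (p - 2) ∧
    (24 : κ) * (p.choose 4 : κ) = (p : κ) * (p - 1) * (p - 2) * (p - 3) ∧
    (120 : κ) * (p.choose 5 : κ) = (p : κ) * (p - 1) * (p - 2) * (p - 3) * (p - 4) := by
  have h2 := Nat.descFactorial_eq_factorial_mul_choose p 2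
  have h3 := Nat.descFactorial_eq_factorial_mul_choose p 3
  have h4 := Nat.descFactorial_eq_factorial_mul_choose p 4
  have h5 := Nat.descFactorial_eq_factorial_mul_choose p 5
  simp only [Nat.descFactorial, Nat.factorial] at h2 h3 h4 h5
  have c2 := congrArg (Nat.cast : ℕ → κ) h2
  have c3 := congrArg (Nat.cast : ℕ → κ) h3
  have c4 := congrArg (Nat.cast : ℕ → κ) h4
  have c5 := congrArg (Nat.cast : ℕ → κ) h5
  push_cast [Nat.cast_sub (by omega : 1 ≤ p), Nat.cast_sub (by omega : 2 ≤ p),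
    Nat.cast_sub (by omega : 3 ≤ p), Nat.cast_sub (by omega : 4 ≤ p)] at c2 c3 c4 c5
  refine ⟨?_, ?_, ?_, ?_⟩
  · linear_combination -c2
  · linear_combination -c3
  · linear_combination -c4
  · linear_combination -c5


variable {ζ : κ} {p : ℕ}

lemma natCast_ne_zero_of_isPrimitiveRoot (hp : 2 ≤ p) (hζ : IsPrimitiveRoot ζ p) :
    (p : κ) ≠ 0 := by
  intro h0
  have h := congrArg (fun q : κ[X] => q.eval 0) (add_one_pow_sub_pow_eq hp hζ)
  simp only [eval_sub, eval_pow, eval_add, eval_X, eval_one, eval_mul, eval_C, h0, zero_mul] at h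
  have hp0 : p ≠ 0 := by omega
  rw [zero_add, one_pow, zero_pow hp0, sub_zero] at h
  exact one_ne_zero h

/-- **The root-of-unity sum.** -/
theorem root_sum (hp : 5 ≤ p) (hζ : IsPrimitiveRoot ζ p)
    (h2 : (2 : κ) ≠ 0) (h3 : (3 : κ) ≠ 0) (h5 : (5 : κ) ≠ 0) :
    120 * ∑ k ∈ Finset.Icc 1 (p - 1),
        (6 * (ζ ^ k / (1 - ζ ^ k) ^ 2) ^ 2 + ζ ^ k / (1 - ζ ^ k) ^ 2) = (p : κ) ^ 4 - 1 := by
  classical
  have hp2 : 2 ≤ p := by omega
  have hpκ := natCast_ne_zero_of_isPrimitiveRoot hp2 hζ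
  -- reindex
  have hre : ∑ k ∈ Finset.Icc 1 (p - 1),
        (6 * (ζ ^ k / (1 - ζ ^ k) ^ 2) ^ 2 + ζ ^ k / (1 - ζ ^ k) ^ 2) =
      ∑ i : Fin (p - 1), (6 * vRoot ζ (i + 1) ^ 4 + 12 * vRoot ζ (i + 1) ^ 3 +
        7 * vRoot ζ (i + 1) ^ 2 + vRoot ζ (i + 1) ^ 1) := by
    rw [Fin.sum_univ_eq_sum_range (fun i => 6 * vRoot ζ (i + 1) ^ 4 + 12 * vRoot ζ (i + 1) ^ 3 +
        7 * vRoot ζ (i + 1) ^ 2 + vRoot ζ (i + 1) ^ 1) (p - 1)]
    refine Finset.sum_nbij' (fun k => k - 1) (fun i => i + 1) ?_ ?_ ?_ ?_ ?_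
    · intro k hk
      rw [Finset.mem_Icc] at hk
      rw [Finset.mem_range]
      omega
    · intro i hi
      rw [Finset.mem_range] at hi
      rw [Finset.mem_Icc]
      omega
    · intro k hk
      rw [Finset.mem_Icc] at hk
      omega
    · intro i _
      omega
    · intro k hk
      rw [Finset.mem_Icc] at hk
      have hk1 : k - 1 + 1 = k := by omega
      rw [hk1, s_eq_vRoot (pow_ne_one_of_lt hζ (by omega) (by omega))]
      ring
  rw [hre]
  simp only [Finset.sum_add_distrib, ← Finset.mul_sum]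
  obtain ⟨n1, n2, n3, n4⟩ := newton_four (fun i : Fin (p - 1) => vRoot ζ (i + 1))
  have e1 := esymm_vRoot hp2 hζ (j := 1) (by omega)
  have e2 := esymm_vRoot hp2 hζ (j := 2) (by omega)
  have e3 := esymm_vRoot hp2 hζ (j := 3) (by omega)
  have e4 := esymm_vRoot hp2 hζ (j := 4) (by omega)
  obtain ⟨c2, c3, c4, c5⟩ := choose_cast_identities (κ := κ) p hp
  set E1 := (Finset.univ.val.map fun i : Fin (p - 1) => vRoot ζ (i + 1)).esymm 1 with hE1
  set E2 := (Finset.univ.val.map fun i : Fin (p - 1) => vRoot ζ (i + 1)).esymm 2 with hE2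
  set E3 := (Finset.univ.val.map fun i : Fin (p - 1) => vRoot ζ (i + 1)).esymm 3 with hE3
  set E4 := (Finset.univ.val.map fun i : Fin (p - 1) => vRoot ζ (i + 1)).esymm 4 with hE4
  set P1 := ∑ i : Fin (p - 1), vRoot ζ (i + 1) ^ 1 with hP1
  set P2 := ∑ i : Fin (p - 1), vRoot ζ (i + 1) ^ 2 with hP2
  set P3 := ∑ i : Fin (p - 1), vRoot ζ (i + 1) ^ 3 with hP3
  set P4 := ∑ i : Fin (p - 1), vRoot ζ (i + 1) ^ 4 with hP4
  have h6 : (6 : κ) ≠ 0 := by
    have : (6 : κ) = 2 * 3 := by norm_num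
    rw [this]; exact mul_ne_zero h2 h3
  have h24 : (24 : κ) ≠ 0 := by
    have : (24 : κ) = 2 * 2 * 2 * 3 := by norm_num
    rw [this]; exact mul_ne_zero (mul_ne_zero (mul_ne_zero h2 h2) h2) h3
  have h120 : (120 : κ) ≠ 0 := by
    have : (120 : κ) = 2 * 2 * 2 * 3 * 5 := by norm_num
    rw [this]; exact mul_ne_zero (mul_ne_zero (mul_ne_zero (mul_ne_zero h2 h2) h2) h3) h5
  have E1v : E1 = -((p : κ) - 1) / 2 := by
    have h : (p : κ) * (2 * E1) = (p : κ) * (-((p : κ) - 1)) := by
      linear_combination 2 * e1 - c2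
    have h' := mul_left_cancel₀ hpκ h
    rw [eq_div_iff h2]
    linear_combination h'
  have E2v : E2 = ((p : κ) - 1) * (p - 2) / 6 := by
    have h : (p : κ) * (6 * E2) = (p : κ) * (((p : κ) - 1) * (p - 2)) := by
      linear_combination 6 * e2 + c3
    have h' := mul_left_cancel₀ hpκ h
    rw [eq_div_iff h6]
    linear_combination h'
  have E3v : E3 = -(((p : κ) - 1) * (p - 2) * (p - 3)) / 24 := by
    have h : (p : κ) * (24 * E3) = (p : κ) * (-(((p : κ) - 1) * (p - 2) * (p - 3))) := by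
      linear_combination 24 * e3 - c4
    have h' := mul_left_cancel₀ hpκ h
    rw [eq_div_iff h24]
    linear_combination h'
  have E4v : E4 = ((p : κ) - 1) * (p - 2) * (p - 3) * (p - 4) / 120 := by
    have h : (p : κ) * (120 * E4) = (p : κ) * (((p : κ) - 1) * (p - 2) * (p - 3) * (p - 4)) := by
      linear_combination 120 * e4 + c5
    have h' := mul_left_cancel₀ hpκ h
    rw [eq_div_iff h120]
    linear_combination h'
  rw [n4, n3, n2, n1, E1v, E2v, E3v, E4v]
  field_simp
  ring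

end RootSum

end Fermat.Agent.S12.H651

end
-- ===== PACK-END S12/H651/RootSums.lean

-- ===== PACK-BEGIN S15/H322/BaseArith.lean
section


/-!
# Row S15 — DESC leaf BASE, part 2 (helper322): Kummer classes of `ℚ`, arithmetic

Blueprint `coord/S15-DESC-blueprint.md` §2, the pieces `ψ_i = ω` and `r = 2`: which rational
numbers have all valuations away from `p` divisible by `r`.  Mathlib only.

* `nat_eq_pow_of_dvd`      : `n ≠ 0`, `r ∣ v_ℓ(n)` for all primes `ℓ` ⟹ `n = m ^ r`.
* `rat_eq_pow_of_dvd`      : `a ≠ 0`, `r ∣ v_ℓ(a)` for all primes `ℓ` ⟹ `a = ± b ^ r`.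
* `rat_eq_zpow_mul_pow`    : `a ≠ 0`, `r ∣ v_ℓ(a)` for all primes `ℓ ≠ p` ⟹
                             `a = ± p ^ v_p(a) · b ^ r`.
* `rat_eq_pow_mul_pow_odd` : `r` odd: `a = p ^ k · b ^ r` with `k < r`.
* `rat_eq_pow_mul_pow_two` : `r = 2`: `a = ε · p ^ k · b ^ 2`, `ε = ±1`, `k ≤ 1`.
* `rat_eq_pow_of_dvd_odd`, `rat_eq_sq_of_dvd_of_pos`, `rat_two_cases` : variants.
* `rat_dichotomy_odd`      : `r` an odd prime, `a₁, a₂` as above: `a₁ = b ^ r` or
                             `a₂ = a₁ ^ m · b ^ r`  (the group of such classes is cyclic of order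
                             dividing `r`, generated by `p`).
-/

set_option autoImplicit false

namespace Fermat.Agent.S15.H322

/-- A natural number all of whose prime valuations are divisible by `r` is an `r`-th power. -/
theorem nat_eq_pow_of_dvd {n r : ℕ} (hn : n ≠ 0)
    (h : ∀ ℓ : ℕ, ℓ.Prime → r ∣ padicValNat ℓ n) : ∃ m : ℕ, m ≠ 0 ∧ n = m ^ r := by
  refine ⟨n.factorization.prod (fun ℓ k => ℓ ^ (k / r)), ?_, ?_⟩
  · rw [Finsupp.prod, Finset.prod_ne_zero_iff]
    intro ℓ hℓ
    rw [Nat.support_factorization] at hℓ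
    exact pow_ne_zero _ (Nat.prime_of_mem_primeFactors hℓ).ne_zero
  · conv_lhs => rw [← Nat.prod_factorization_pow_eq_self hn]
    rw [Finsupp.prod, Finsupp.prod, ← Finset.prod_pow]
    refine Finset.prod_congr rfl (fun ℓ hℓ => ?_)
    rw [Nat.support_factorization] at hℓ
    have hℓp := Nat.prime_of_mem_primeFactors hℓ
    have hd : r ∣ n.factorization ℓ := by
      rw [Nat.factorization_def n hℓp]
      exact h ℓ hℓp
    rw [← pow_mul, Nat.div_mul_cancel hd]

/-- A nonzero rational number all of whose prime valuations are divisible by `r` is, up to sign,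
an `r`-th power. -/
theorem rat_eq_pow_of_dvd {a : ℚ} {r : ℕ} (ha : a ≠ 0)
    (h : ∀ ℓ : ℕ, ℓ.Prime → (r : ℤ) ∣ padicValRat ℓ a) :
    ∃ b : ℚ, b ≠ 0 ∧ (a = b ^ r ∨ a = -b ^ r) := by
  have hnum : a.num ≠ 0 := Rat.num_ne_zero.mpr ha
  have hcop : a.num.natAbs.Coprime a.den := a.reduced
  have key : ∀ ℓ : ℕ, ℓ.Prime → r ∣ padicValNat ℓ a.num.natAbs ∧ r ∣ padicValNat ℓ a.den := by
    intro ℓ hℓ
    have : Fact ℓ.Prime := ⟨hℓ⟩
    have h1 := h ℓ hℓ
    rw [padicValRat_def, padicValInt] at h1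
    by_cases hd : ℓ ∣ a.den
    · have hn : ¬ ℓ ∣ a.num.natAbs := fun hn =>
        hℓ.one_lt.ne' (Nat.eq_one_of_dvd_coprimes hcop hn hd)
      have h0 : padicValNat ℓ a.num.natAbs = 0 := padicValNat.eq_zero_of_not_dvd hn
      rw [h0] at h1 ⊢
      refine ⟨dvd_zero _, ?_⟩
      have h2 : (r : ℤ) ∣ (padicValNat ℓ a.den : ℤ) := by
        have := (dvd_neg (a := (r : ℤ))).mpr h1
        simpa using this
      exact_mod_cast h2
    · have h0 : padicValNat ℓ a.den = 0 := padicValNat.eq_zero_of_not_dvd hd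
      rw [h0] at h1 ⊢
      refine ⟨?_, dvd_zero _⟩
      have h2 : (r : ℤ) ∣ (padicValNat ℓ a.num.natAbs : ℤ) := by simpa using h1
      exact_mod_cast h2
  obtain ⟨m₁, hm₁, e₁⟩ := nat_eq_pow_of_dvd (Int.natAbs_ne_zero.mpr hnum)
    (fun ℓ hℓ => (key ℓ hℓ).1)
  obtain ⟨m₂, hm₂, e₂⟩ := nat_eq_pow_of_dvd a.den_ne_zero (fun ℓ hℓ => (key ℓ hℓ).2)
  refine ⟨(m₁ : ℚ) / m₂, div_ne_zero (by exact_mod_cast hm₁) (by exact_mod_cast hm₂), ?_⟩
  have ha' : a = (a.num : ℚ) / (a.den : ℚ) := (Rat.num_div_den a).symm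
  have hden : (a.den : ℚ) = (m₂ : ℚ) ^ r := by exact_mod_cast e₂
  rcases Int.natAbs_eq a.num with hs | hs
  · left
    have hnumq : (a.num : ℚ) = (m₁ : ℚ) ^ r := by
      rw [hs, e₁]; push_cast; rfl
    rw [div_pow, ← hnumq, ← hden]
    exact ha'
  · right
    have hnumq : (a.num : ℚ) = -(m₁ : ℚ) ^ r := by
      rw [hs, e₁]; push_cast; rfl
    rw [div_pow, ← hden, ← neg_div, ← hnumq]
    exact ha'

/-- A nonzero rational number whose valuations at the primes `ℓ ≠ p` are divisible by `r` is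
`± p ^ v_p(a) · b ^ r`. -/
theorem rat_eq_zpow_mul_pow {a : ℚ} {r p : ℕ} (hp : p.Prime) (ha : a ≠ 0)
    (h : ∀ ℓ : ℕ, ℓ.Prime → ℓ ≠ p → (r : ℤ) ∣ padicValRat ℓ a) :
    ∃ b : ℚ, b ≠ 0 ∧ (a = (p : ℚ) ^ padicValRat p a * b ^ r ∨
      a = -((p : ℚ) ^ padicValRat p a * b ^ r)) := by
  have hp0 : (p : ℚ) ≠ 0 := by exact_mod_cast hp.ne_zero
  have hpk : (p : ℚ) ^ padicValRat p a ≠ 0 := zpow_ne_zero _ hp0
  set c : ℚ := a / (p : ℚ) ^ padicValRat p a with hc
  have hc0 : c ≠ 0 := div_ne_zero ha hpk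
  have hcv : ∀ ℓ : ℕ, ℓ.Prime → (r : ℤ) ∣ padicValRat ℓ c := by
    intro ℓ hℓ
    have : Fact ℓ.Prime := ⟨hℓ⟩
    rw [hc, padicValRat.div ha hpk, padicValRat.zpow]
    by_cases hℓp : ℓ = p
    · subst hℓp
      rw [padicValRat.self hℓ.one_lt, mul_one, sub_self]
      exact dvd_zero _
    · have : Fact p.Prime := ⟨hp⟩
      have h0 : padicValRat ℓ (p : ℚ) = 0 := by
        rw [padicValRat.of_nat, padicValNat_primes hℓp]; rfl
      rw [h0, mul_zero, sub_zero]
      exact h ℓ hℓ hℓp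
  obtain ⟨b, hb, hb'⟩ := rat_eq_pow_of_dvd hc0 hcv
  have hac : a = (p : ℚ) ^ padicValRat p a * c := by
    rw [hc, mul_div_cancel₀ _ hpk]
  refine ⟨b, hb, ?_⟩
  rcases hb' with h1 | h1
  · left; rw [← h1]; exact hac
  · right; rw [← mul_neg, ← h1]; exact hac

/-- `p ^ k` is `p ^ (k mod r)` times an `r`-th power. -/
theorem zpow_eq_pow_mod_mul_pow {p : ℚ} (hp0 : p ≠ 0) {r : ℕ} (hr : r ≠ 0) (k : ℤ) :
    ∃ k' : ℕ, k' < r ∧ (k' : ℤ) = k % (r : ℤ) ∧ p ^ k = p ^ k' * (p ^ (k / (r : ℤ))) ^ r := by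
  have hr0 : (r : ℤ) ≠ 0 := by exact_mod_cast hr
  have hm0 : 0 ≤ k % (r : ℤ) := Int.emod_nonneg k hr0
  have hmr : k % (r : ℤ) < r := Int.emod_lt_of_pos k (by positivity)
  refine ⟨(k % (r : ℤ)).toNat, by omega, Int.toNat_of_nonneg hm0, ?_⟩
  have e : k = ((k % (r : ℤ)).toNat : ℤ) + (k / (r : ℤ)) * r := by
    rw [Int.toNat_of_nonneg hm0]
    have := Int.emod_add_mul_ediv k r
    linarith [mul_comm (r : ℤ) (k / r)]
  conv_lhs => rw [e]
  rw [zpow_add₀ hp0, zpow_natCast, zpow_mul, zpow_natCast]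

/-- `r` odd: `a = p ^ k · b ^ r` with `0 ≤ k < r`. -/
theorem rat_eq_pow_mul_pow_odd {a : ℚ} {r p : ℕ} (hp : p.Prime) (hr : Odd r) (ha : a ≠ 0)
    (h : ∀ ℓ : ℕ, ℓ.Prime → ℓ ≠ p → (r : ℤ) ∣ padicValRat ℓ a) :
    ∃ k : ℕ, k < r ∧ (k : ℤ) = padicValRat p a % (r : ℤ) ∧
      ∃ b : ℚ, b ≠ 0 ∧ a = (p : ℚ) ^ k * b ^ r := by
  have hp0 : (p : ℚ) ≠ 0 := by exact_mod_cast hp.ne_zero
  have hr0 : r ≠ 0 := fun h0 => by rw [h0] at hr; exact Nat.not_odd_zero hr
  obtain ⟨b, hb, hb'⟩ := rat_eq_zpow_mul_pow hp ha h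
  obtain ⟨k, hk, hkmod, hkp⟩ := zpow_eq_pow_mod_mul_pow hp0 hr0 (padicValRat p a)
  have hq0 : (p : ℚ) ^ (padicValRat p a / (r : ℤ)) ≠ 0 := zpow_ne_zero _ hp0
  refine ⟨k, hk, hkmod, ?_⟩
  rcases hb' with h1 | h1
  · refine ⟨(p : ℚ) ^ (padicValRat p a / (r : ℤ)) * b, mul_ne_zero hq0 hb, ?_⟩
    calc a = (p : ℚ) ^ padicValRat p a * b ^ r := h1
      _ = _ := by rw [hkp, mul_pow, mul_assoc]
  · refine ⟨-((p : ℚ) ^ (padicValRat p a / (r : ℤ)) * b), neg_ne_zero.mpr (mul_ne_zero hq0 hb), ?_⟩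
    calc a = -((p : ℚ) ^ padicValRat p a * b ^ r) := h1
      _ = _ := by rw [hkp, hr.neg_pow, mul_pow, mul_assoc, mul_neg]

/-- `r = 2`: `a = ± p ^ k · b ^ 2` with `k ≤ 1`. -/
theorem rat_eq_pow_mul_pow_two {a : ℚ} {p : ℕ} (hp : p.Prime) (ha : a ≠ 0)
    (h : ∀ ℓ : ℕ, ℓ.Prime → ℓ ≠ p → (2 : ℤ) ∣ padicValRat ℓ a) :
    ∃ k : ℕ, k < 2 ∧ (k : ℤ) = padicValRat p a % 2 ∧
      ∃ b : ℚ, b ≠ 0 ∧ (a = (p : ℚ) ^ k * b ^ 2 ∨ a = -((p : ℚ) ^ k * b ^ 2)) := by
  have hp0 : (p : ℚ) ≠ 0 := by exact_mod_cast hp.ne_zero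
  obtain ⟨b, hb, hb'⟩ := rat_eq_zpow_mul_pow (r := 2) hp ha (by exact_mod_cast h)
  obtain ⟨k, hk, hkmod, hkp⟩ := zpow_eq_pow_mod_mul_pow hp0 (two_ne_zero) (padicValRat p a)
  have hq0 : (p : ℚ) ^ (padicValRat p a / ((2 : ℕ) : ℤ)) ≠ 0 := zpow_ne_zero _ hp0
  refine ⟨k, hk, by exact_mod_cast hkmod,
    (p : ℚ) ^ (padicValRat p a / ((2 : ℕ) : ℤ)) * b, mul_ne_zero hq0 hb, ?_⟩
  rcases hb' with h1 | h1
  · left
    calc a = (p : ℚ) ^ padicValRat p a * b ^ 2 := h1
      _ = _ := by rw [hkp, mul_pow, mul_assoc]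
  · right
    calc a = -((p : ℚ) ^ padicValRat p a * b ^ 2) := h1
      _ = _ := by rw [hkp, mul_pow, mul_assoc]

/-- `r` odd, all valuations divisible by `r`: an `r`-th power. -/
theorem rat_eq_pow_of_dvd_odd {a : ℚ} {r : ℕ} (hr : Odd r) (ha : a ≠ 0)
    (h : ∀ ℓ : ℕ, ℓ.Prime → (r : ℤ) ∣ padicValRat ℓ a) : ∃ b : ℚ, b ≠ 0 ∧ a = b ^ r := by
  obtain ⟨b, hb, hb'⟩ := rat_eq_pow_of_dvd ha h
  rcases hb' with h1 | h1
  · exact ⟨b, hb, h1⟩
  · exact ⟨-b, neg_ne_zero.mpr hb, by rw [h1, hr.neg_pow]⟩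

/-- A positive rational number with all valuations even is a square. -/
theorem rat_eq_sq_of_dvd_of_pos {a : ℚ} (ha : 0 < a)
    (h : ∀ ℓ : ℕ, ℓ.Prime → (2 : ℤ) ∣ padicValRat ℓ a) : ∃ b : ℚ, b ≠ 0 ∧ a = b ^ 2 := by
  obtain ⟨b, hb, hb'⟩ := rat_eq_pow_of_dvd (r := 2) ha.ne' (by exact_mod_cast h)
  rcases hb' with h1 | h1
  · exact ⟨b, hb, h1⟩
  · exfalso
    have : 0 < b ^ 2 := by positivity
    linarith

/-- `r = 2`, the four classes `1, -1, p, -p`; positivity excludes the negative ones, an even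
valuation at `p` excludes `± p`. -/
theorem rat_two_cases {a : ℚ} {p : ℕ} (hp : p.Prime) (ha : a ≠ 0)
    (h : ∀ ℓ : ℕ, ℓ.Prime → ℓ ≠ p → (2 : ℤ) ∣ padicValRat ℓ a) :
    ∃ b : ℚ, b ≠ 0 ∧
      ((a = b ^ 2) ∨
        (a = -b ^ 2 ∧ a < 0) ∨
        (a = (p : ℚ) * b ^ 2 ∧ ¬ (2 : ℤ) ∣ padicValRat p a) ∨
        (a = -((p : ℚ) * b ^ 2) ∧ a < 0 ∧ ¬ (2 : ℤ) ∣ padicValRat p a)) := by
  have hp0 : (0 : ℚ) < p := by exact_mod_cast hp.pos
  obtain ⟨k, hk, hkmod, b, hb, hb'⟩ := rat_eq_pow_mul_pow_two hp ha h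
  have hb2 : 0 < b ^ 2 := by positivity
  refine ⟨b, hb, ?_⟩
  have hk01 : k = 0 ∨ k = 1 := by omega
  rcases hk01 with rfl | rfl
  · rcases hb' with h1 | h1
    · left; rw [h1]; ring
    · right; left
      refine ⟨by rw [h1]; ring, ?_⟩
      rw [h1]; simp only [pow_zero, one_mul]; linarith
  · have hodd : ¬ (2 : ℤ) ∣ padicValRat p a := by
      intro hd
      have := Int.emod_eq_zero_of_dvd hd
      rw [this] at hkmod
      norm_num at hkmod
    rcases hb' with h1 | h1
    · right; right; left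
      exact ⟨by rw [h1]; ring, hodd⟩
    · right; right; right
      refine ⟨by rw [h1]; ring, ?_, hodd⟩
      rw [h1]
      have : 0 < (p : ℚ) ^ 1 * b ^ 2 := by positivity
      linarith


/-- **Dimension ≤ 1 (odd `r`).**  For an odd prime `r` and two rational numbers whose valuations at
all primes `ℓ ≠ p` are divisible by `r`: the first is an `r`-th power, or the second is a power of
the first times an `r`-th power. -/
theorem rat_dichotomy_odd {a₁ a₂ : ℚ} {r p : ℕ} (hp : p.Prime) (hr : r.Prime) (hr2 : r ≠ 2)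
    (ha₁ : a₁ ≠ 0) (ha₂ : a₂ ≠ 0)
    (h₁ : ∀ ℓ : ℕ, ℓ.Prime → ℓ ≠ p → (r : ℤ) ∣ padicValRat ℓ a₁)
    (h₂ : ∀ ℓ : ℕ, ℓ.Prime → ℓ ≠ p → (r : ℤ) ∣ padicValRat ℓ a₂) :
    (∃ b : ℚ, b ≠ 0 ∧ a₁ = b ^ r) ∨ ∃ m : ℕ, m < r ∧ ∃ b : ℚ, b ≠ 0 ∧ a₂ = a₁ ^ m * b ^ r := by
  have hodd : Odd r := hr.odd_of_ne_two hr2
  have hp0 : (p : ℚ) ≠ 0 := by exact_mod_cast hp.ne_zero
  obtain ⟨k₁, hk₁, -, b₁, hb₁, e₁⟩ := rat_eq_pow_mul_pow_odd hp hodd ha₁ h₁
  obtain ⟨k₂, hk₂, -, b₂, hb₂, e₂⟩ := rat_eq_pow_mul_pow_odd hp hodd ha₂ h₂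
  by_cases hk0 : k₁ = 0
  · left
    refine ⟨b₁, hb₁, ?_⟩
    rw [e₁, hk0, pow_zero, one_mul]
  · right
    -- `k₁` is invertible modulo `r`: pick `m` with `m k₁ ≡ k₂`
    have : Fact r.Prime := ⟨hr⟩
    have hk₁' : (k₁ : ZMod r) ≠ 0 := by
      intro h0
      rw [ZMod.natCast_eq_zero_iff] at h0
      exact hk0 (Nat.eq_zero_of_dvd_of_lt h0 hk₁)
    set m : ℕ := ((k₂ : ZMod r) * (k₁ : ZMod r)⁻¹).val with hm
    have hmr : m < r := ZMod.val_lt _
    have hcong : ((m * k₁ : ℕ) : ZMod r) = (k₂ : ZMod r) := by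
      rw [Nat.cast_mul, hm, ZMod.natCast_zmod_val, mul_assoc, inv_mul_cancel₀ hk₁', mul_one]
    have hdvd : (r : ℤ) ∣ (k₂ : ℤ) - ((m * k₁ : ℕ) : ℤ) := by
      have := (ZMod.intCast_eq_intCast_iff_dvd_sub ((m * k₁ : ℕ) : ℤ) (k₂ : ℤ) r).mp
        (by push_cast; exact_mod_cast hcong)
      exact this
    obtain ⟨t, ht⟩ := hdvd
    have hb₁m : b₁ ^ m ≠ 0 := pow_ne_zero _ hb₁
    have hpt : (p : ℚ) ^ t ≠ 0 := zpow_ne_zero _ hp0
    refine ⟨m, hmr, (p : ℚ) ^ t * b₂ / b₁ ^ m,
      div_ne_zero (mul_ne_zero hpt hb₂) hb₁m, ?_⟩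
    have hk₂ : ((k₂ : ℕ) : ℤ) = ((m * k₁ : ℕ) : ℤ) + t * r := by
      rw [mul_comm t]; linarith
    have e3 : (p : ℚ) ^ k₂ = ((p : ℚ) ^ k₁) ^ m * ((p : ℚ) ^ t) ^ r := by
      rw [← zpow_natCast (p : ℚ) k₂, hk₂, zpow_add₀ hp0, zpow_natCast, zpow_mul, zpow_natCast,
        ← pow_mul, mul_comm k₁ m]
    calc a₂ = (p : ℚ) ^ k₂ * b₂ ^ r := e₂
      _ = ((p : ℚ) ^ k₁) ^ m * ((p : ℚ) ^ t) ^ r * b₂ ^ r := by rw [e3]
      _ = ((p : ℚ) ^ k₁ * b₁ ^ r) ^ m * ((p : ℚ) ^ t * b₂ / b₁ ^ m) ^ r := by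
          have hbb : (b₁ ^ r) ^ m = (b₁ ^ m) ^ r := by
            rw [← pow_mul, ← pow_mul, mul_comm]
          rw [div_pow, mul_pow, mul_pow, hbb]
          have hne : (b₁ ^ m) ^ r ≠ 0 := pow_ne_zero _ hb₁m
          field_simp
      _ = a₁ ^ m * ((p : ℚ) ^ t * b₂ / b₁ ^ m) ^ r := by rw [← e₁]

end Fermat.Agent.S15.H322

end
-- ===== PACK-END S15/H322/BaseArith.lean

-- ===== PACK-BEGIN S13/H175/MinkowskiInertia.lean
section


set_option autoImplicit false

/-!
# Minkowski: a nontrivial finite Galois extension of `ℚ` has a prime with nontrivial inertia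
-/

open scoped Pointwise

namespace Fermat.Agent.S13.H175

/-- For a Galois number field `F ≠ ℚ` there is a rational prime `q` such that every prime `P`
of the ring of integers of `F` containing `q` has a nontrivial inertia element. -/
theorem exists_inertia_ne_one (F : Type*) [Field F] [NumberField F] [IsGalois ℚ F]
    (hF : 1 < Module.finrank ℚ F) :
    ∃ q : ℕ, q.Prime ∧ ∀ (P : Ideal (integralClosure ℤ F)), P.IsPrime →
      (q : integralClosure ℤ F) ∈ P →
      ∃ τ : F ≃ₐ[ℚ] F, τ ≠ 1 ∧ ∀ x : integralClosure ℤ F, τ • x - x ∈ P := by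
  obtain ⟨q, hq, hram⟩ :=
    NumberField.exists_not_isUnramifiedAt_int_of_isGalois (K := F) (𝒪 := integralClosure ℤ F) hF
  refine ⟨q, hq, fun P hP hqP => ?_⟩
  have hnr := hram P hP hqP
  have := (IsIntegralClosure.algebraMap_injective (integralClosure ℤ F) ℤ F).isDomain
  have := IsIntegralClosure.isDedekindDomain ℤ ℚ F (integralClosure ℤ F)
  have := IsIntegralClosure.isFractionRing_of_finite_extension ℤ ℚ F (integralClosure ℤ F)
  have := IsIntegralClosure.finite ℤ ℚ F (integralClosure ℤ F)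
  have := CharZero.of_module (R := integralClosure ℤ F) F
  have : IsGaloisGroup (F ≃ₐ[ℚ] F) ℤ (integralClosure ℤ F) :=
    IsGaloisGroup.of_isFractionRing (F ≃ₐ[ℚ] F) ℤ (integralClosure ℤ F) ℚ F
  have hcard : Nat.card (P.inertia (F ≃ₐ[ℚ] F)) ≠ 1 := by
    rw [Ideal.card_inertia_eq_ramificationIdxIn (P.under ℤ) P,
      Ideal.ramificationIdxIn_eq_ramificationIdx (P.under ℤ) P (F ≃ₐ[ℚ] F),
      Ne, Ideal.ramificationIdx_eq_one_iff]
    exact hnr
  have hne : P.inertia (F ≃ₐ[ℚ] F) ≠ ⊥ := fun h => hcard (Subgroup.card_eq_one.mpr h)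
  obtain ⟨⟨τ, hτ⟩, hτ1⟩ := (Subgroup.ne_bot_iff_exists_ne_one).mp hne
  refine ⟨τ, fun h => hτ1 (Subtype.ext h), fun x => ?_⟩
  exact hτ x

end Fermat.Agent.S13.H175

end
-- ===== PACK-END S13/H175/MinkowskiInertia.lean

-- ===== PACK-BEGIN S56/H186/TameWild.lean
section



/-!
# S56 / leaf TAME-CYC (helper186), part 2: the kernel of the tame character is "wild"

`L/K` algebraic, `A` a valuation subring of `L`, `τ` in the inertia group of `A` (Prelude form).

* `valuation_pow_apply_sub_lt` : if `v (τ x - x) < v x` then `v (τ ^ j x - x) < v x` for all `j`.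
* `apply_eq_of_pow_apply_eq` : if `τ ^ ℓ` fixes `y`, `ℓ` is a unit of `A`, and the tame character of
  `τ` is trivial at `τ y - y`, then `τ` fixes `y` (trace argument).
* `exists_pow_fixes_of_tame_trivial` : if the tame character of `τ` is trivial on a `τ`-stable
  subfield `E` on which `τ ^ n` is trivial (`n > 0`), and all primes `≠ q` are units of `A`, then
  `τ ^ (q ^ a)` is trivial on `E` for some `a`.
-/

set_option autoImplicit false
set_option linter.unusedSectionVars false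

namespace Fermat.Agent.S56.H186

open Fermat.Agent.A2.H708

variable {K L : Type*} [Field K] [Field L] [Algebra K L] [Algebra.IsAlgebraic K L]
  (A : ValuationSubring L)

theorem pow_succ_apply' (τ : L ≃ₐ[K] L) (j : ℕ) (x : L) : (τ ^ (j + 1)) x = τ ((τ ^ j) x) := by
  rw [pow_succ']; rfl

/-- If `τ` moves `x` by less than `v x`, so does every power of `τ`. -/
theorem valuation_pow_apply_sub_lt {τ : L ≃ₐ[K] L} (hτ : τ ∈ A.decompositionSubgroup K) {x : L}
    (hx : A.valuation (τ x - x) < A.valuation x) (j : ℕ) :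
    A.valuation ((τ ^ j) x - x) < A.valuation x := by
  induction j with
  | zero =>
    have h0 : (τ ^ 0) x - x = 0 := by simp
    rw [h0, map_zero]
    exact lt_of_le_of_lt zero_le hx
  | succ j ih =>
    have h1 : (τ ^ (j + 1)) x - x = τ ((τ ^ j) x - x) + (τ x - x) := by
      rw [pow_succ_apply', map_sub]; ring
    rw [h1]
    refine lt_of_le_of_lt (Valuation.map_add _ _ _) (max_lt ?_ hx)
    rw [valuation_apply_of_mem_decomposition A hτ]
    exact ih

/-- Trace argument: an inertia element `τ` such that `τ ^ ℓ` fixes `y`, with `ℓ` a unit of `A`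
and trivial tame character at `τ y - y`, fixes `y`. -/
theorem apply_eq_of_pow_apply_eq {τ : L ≃ₐ[K] L} (hτ : τ ∈ A.decompositionSubgroup K) {ℓ : ℕ}
    (hℓ : A.valuation (ℓ : L) = 1) {y : L} (hy : (τ ^ ℓ) y = y)
    (htame : τ y - y ≠ 0 →
      A.valuation (τ (τ y - y) - (τ y - y)) < A.valuation (τ y - y)) :
    τ y = y := by
  by_contra hne
  set x := τ y - y with hx
  have hx0 : x ≠ 0 := sub_ne_zero.mpr hne
  have hvx : A.valuation x ≠ 0 := (Valuation.ne_zero_iff _).mpr hx0
  have hlt := htame hx0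
  -- telescoping sum
  have htel : ∀ n : ℕ, ∑ j ∈ Finset.range n, (τ ^ j) x = (τ ^ n) y - y := by
    intro n
    induction n with
    | zero => simp
    | succ n ih =>
      rw [Finset.sum_range_succ, ih, hx, map_sub]
      have : (τ ^ n) (τ y) = (τ ^ (n + 1)) y := by
        rw [pow_succ]; rfl
      rw [this]; ring
  have hsum : ∑ j ∈ Finset.range ℓ, (τ ^ j) x = 0 := by rw [htel, hy, sub_self]
  have hsplit : (ℓ : L) * x = - ∑ j ∈ Finset.range ℓ, ((τ ^ j) x - x) := by
    rw [Finset.sum_sub_distrib, hsum, Finset.sum_const, Finset.card_range, nsmul_eq_mul]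
    ring
  have h1 : A.valuation ((ℓ : L) * x) = A.valuation x := by rw [map_mul, hℓ, one_mul]
  have h2 : A.valuation (∑ j ∈ Finset.range ℓ, ((τ ^ j) x - x)) < A.valuation x :=
    Valuation.map_sum_lt _ hvx (fun j _ => valuation_pow_apply_sub_lt A hτ hlt j)
  rw [hsplit, Valuation.map_neg] at h1
  exact absurd h1 (ne_of_lt h2)

/-- The kernel of the tame character acts through a `q`-group: if the tame character of `τ` is
trivial on a `τ`-stable subfield `E` on which some positive power of `τ` is trivial, and all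
primes different from `q` are units of `A`, then `τ ^ (q ^ a)` is trivial on `E` for some `a`. -/
theorem exists_pow_fixes_of_tame_trivial {τ : L ≃ₐ[K] L} (hτ : τ ∈ A.decompositionSubgroup K)
    (E : IntermediateField K L) (hE : ∀ y ∈ E, τ y ∈ E)
    (htame : ∀ x ∈ E, x ≠ 0 → A.valuation (τ x - x) < A.valuation x)
    {q : ℕ} (hq : q.Prime) (hunit : ∀ ℓ : ℕ, ℓ.Prime → ℓ ≠ q → A.valuation (ℓ : L) = 1)
    {n : ℕ} (hn : n ≠ 0) (hfix : ∀ y ∈ E, (τ ^ n) y = y) :
    ∃ a : ℕ, ∀ y ∈ E, (τ ^ (q ^ a)) y = y := by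
  obtain ⟨a, m, hm, rfl⟩ := Nat.exists_eq_pow_mul_and_not_dvd hn q hq.ne_one
  refine ⟨a, ?_⟩
  -- stability under powers
  have hEpow : ∀ (k : ℕ), ∀ y ∈ E, (τ ^ k) y ∈ E := by
    intro k
    induction k with
    | zero => intro y hy; simpa using hy
    | succ k ih => intro y hy; rw [pow_succ_apply']; exact hE _ (ih y hy)
  -- strong induction on m
  have key : ∀ m : ℕ, m ≠ 0 → ¬ q ∣ m → (∀ y ∈ E, (τ ^ (q ^ a * m)) y = y) →
      ∀ y ∈ E, (τ ^ (q ^ a)) y = y := by
    intro m
    induction m using Nat.strong_induction_on with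
    | _ m ih =>
      intro hm0 hqm hfix
      rcases eq_or_ne m 1 with rfl | hm1
      · simpa using hfix
      obtain ⟨ℓ, hℓ, m', hm'⟩ : ∃ ℓ : ℕ, ℓ.Prime ∧ ℓ ∣ m :=
        ⟨m.minFac, Nat.minFac_prime hm1, Nat.minFac_dvd m⟩
      have hℓq : ℓ ≠ q := by
        rintro rfl
        exact hqm ⟨m', hm'⟩
      have hm'0 : m' ≠ 0 := by
        rintro rfl
        rw [mul_zero] at hm'
        exact hm0 hm'
      have hm'lt : m' < m := by
        have h2 : 2 ≤ ℓ := hℓ.two_le
        have hpos : 0 < m' := Nat.pos_of_ne_zero hm'0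
        calc m' < 2 * m' := by omega
          _ ≤ ℓ * m' := Nat.mul_le_mul_right _ h2
          _ = m := hm'.symm
      have hqm' : ¬ q ∣ m' := fun h => hqm (hm' ▸ Dvd.dvd.mul_left h _)
      apply ih m' hm'lt hm'0 hqm'
      intro y hy
      set σ := τ ^ (q ^ a * m') with hσ
      have hσD : σ ∈ A.decompositionSubgroup K := pow_mem hτ _
      have hσℓ : (σ ^ ℓ) y = y := by
        rw [hσ, ← pow_mul]
        have : q ^ a * m' * ℓ = q ^ a * m := by rw [hm']; ring
        rw [this]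
        exact hfix y hy
      refine apply_eq_of_pow_apply_eq A hσD (hunit _ hℓ hℓq) hσℓ ?_
      intro hx0
      have hxE : σ y - y ∈ E := E.sub_mem (hEpow _ y hy) hy
      exact valuation_pow_apply_sub_lt A hτ (htame _ hxE hx0) _
  have hm0 : m ≠ 0 := by
    rintro rfl
    simp at hn
  exact key m hm0 hm hfix

end Fermat.Agent.S56.H186

end
-- ===== PACK-END S56/H186/TameWild.lean

-- ===== PACK-BEGIN A3/H799/FamRing.lean
section








/-!
# A3 / LOCAL — rings of "algebraic families" on a finite parameter set  (helper799)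

Cell A3 (S19/S32), piece LOCAL of the "coordinates, not schemes" route
(`coord/A3-LOCAL-helper799.md`).  Mathlib only.

`A` is a commutative ring (in the application the valuation ring of `ℚ̄` above `ℓ`), `T` a finite
set (pairs of torsion points in a residue disc), `Λ` an `A`-subalgebra of the ring `T → A` of all
`A`-valued functions on `T` (in the application `Λ = A[z_i(c), z_i(c')]`, the polynomial functions in
the disc coordinates).  Because `Λ` is a subring of a finite product of copies of `A`, every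
statement "over `Λ`" can be checked pointwise; this file proves that `Λ` is nevertheless closed
under all the operations used by Riemann–Roch with parameters:

* `inv_mem`        : pointwise units of `Λ` are units of `Λ`;
* `hensel_mem`     : a function `y : T → 𝔪` that is pointwise a simple root of a polynomial with
                     coefficients in `Λ` lies in `Λ`  (Hensel without completeness);
* `exists_conductor` : if `Λ` separates the points of `T` then `d • (T → A) ⊆ Λ` for some `d ≠ 0`;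
* `limit_mem`      : `Λ` is closed under `x`-adic limits, `x ∈ Λ` pointwise topologically nilpotent.
-/

set_option autoImplicit false

namespace Fermat.Agent.A3.H799

open Polynomial

section Units

variable {A : Type*} [CommRing A] {T : Type*} [Finite T]

/-- The ring of all functions on a finite set is integral over any subalgebra. -/
theorem isIntegral_fun (Λ : Subalgebra A (T → A)) (f : T → A) : IsIntegral Λ f := by
  have h : IsIntegral A f := Algebra.IsIntegral.isIntegral f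
  exact h.tower_top

/-- **Pointwise units are units.**  If `f ∈ Λ` is a unit at every point of the finite set `T`,
its pointwise inverse lies in `Λ`. -/
theorem inv_mem (Λ : Subalgebra A (T → A)) {f g : T → A} (hf : f ∈ Λ) (hfg : f * g = 1) :
    g ∈ Λ := by
  have hint : (algebraMap Λ (T → A)).IsIntegral := fun x => isIntegral_fun Λ x
  have hinj : Function.Injective (algebraMap Λ (T → A)) := Subtype.val_injective
  have := hint.isLocalHom hinj
  have hu : IsUnit (algebraMap Λ (T → A) ⟨f, hf⟩) :=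
    IsUnit.of_mul_eq_one (a := (algebraMap Λ (T → A) ⟨f, hf⟩)) g hfg
  obtain ⟨u, hu'⟩ := (isUnit_of_map_unit (algebraMap Λ (T → A)) _ hu)
  have h1 : f * ((u⁻¹ : Λˣ) : Λ) = 1 := by
    have := congrArg (algebraMap Λ (T → A)) (u.mul_inv)
    rw [_root_.map_mul, _root_.map_one, hu'] at this
    exact this
  have : g = ((u⁻¹ : Λˣ) : Λ) := by
    calc g = g * (f * ((u⁻¹ : Λˣ) : Λ)) := by rw [h1, mul_one]
      _ = (f * g) * ((u⁻¹ : Λˣ) : Λ) := by ring
      _ = ((u⁻¹ : Λˣ) : Λ) := by rw [hfg, one_mul]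
  rw [this]
  exact Subtype.mem _

/-- Version of `inv_mem` with a pointwise hypothesis. -/
theorem exists_inv_mem (Λ : Subalgebra A (T → A)) {f : T → A} (hf : f ∈ Λ)
    (hu : ∀ t, IsUnit (f t)) : ∃ g ∈ Λ, f * g = 1 := by
  choose u hu' using hu
  refine ⟨fun t => ((u t)⁻¹ : Aˣ), ?_, ?_⟩
  · refine inv_mem Λ hf ?_
    funext t
    simp [← hu']
  · funext t
    simp [← hu']

end Units

section Hensel

variable {A : Type*} [CommRing A] [IsLocalRing A] {T : Type*} [Finite T]

/-- The ideal of `Λ` of functions with values in the maximal ideal of `A`. -/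
def radIdeal (Λ : Subalgebra A (T → A)) : Ideal Λ where
  carrier := {f | ∀ t, (f : T → A) t ∈ IsLocalRing.maximalIdeal A}
  add_mem' := fun {f g} hf hg t => by
    simpa using (IsLocalRing.maximalIdeal A).add_mem (hf t) (hg t)
  zero_mem' := fun t => by simp
  smul_mem' := fun c f hf t => by
    simpa using (IsLocalRing.maximalIdeal A).mul_mem_left ((c : T → A) t) (hf t)

omit [Finite T] in
theorem mem_radIdeal {Λ : Subalgebra A (T → A)} {f : Λ} :
    f ∈ radIdeal Λ ↔ ∀ t, (f : T → A) t ∈ IsLocalRing.maximalIdeal A := Iff.rfl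

/-- `radIdeal Λ` is contained in the Jacobson radical of `Λ`. -/
theorem radIdeal_le_jacobson (Λ : Subalgebra A (T → A)) :
    radIdeal Λ ≤ Ideal.jacobson (⊥ : Ideal Λ) := by
  intro x hx
  rw [Ideal.mem_jacobson_bot]
  intro y
  have hu : ∀ t, IsUnit (((x * y + 1 : Λ) : T → A) t) := by
    intro t
    have h1 : ((x * y + 1 : Λ) : T → A) t = (x : T → A) t * (y : T → A) t + 1 := by simp
    rw [h1]
    have hm : (x : T → A) t * (y : T → A) t ∈ IsLocalRing.maximalIdeal A :=
      (IsLocalRing.maximalIdeal A).mul_mem_right _ (hx t)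
    by_contra hnu
    have h2 : (x : T → A) t * (y : T → A) t + 1 ∈ IsLocalRing.maximalIdeal A :=
      (IsLocalRing.mem_maximalIdeal _).mpr hnu
    have h3 : (1 : A) ∈ IsLocalRing.maximalIdeal A := by
      have := (IsLocalRing.maximalIdeal A).sub_mem h2 hm
      simpa using this
    exact (IsLocalRing.maximalIdeal.isMaximal A).ne_top
      ((Ideal.eq_top_iff_one _).mpr h3)
  obtain ⟨g, hg, hfg⟩ := exists_inv_mem Λ (x * y + 1).2 hu
  exact IsUnit.of_mul_eq_one (⟨g, hg⟩ : Λ) (Subtype.ext hfg)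

/-- **Hensel without completeness.**  Let `Λ` be an `A`-algebra of functions on the finite set `T`
(`A` local).  If `y : T → 𝔪_A` is a root of `Φ ∈ Λ[X]` and `Φ'(y)` is a unit at every point,
then `y ∈ Λ`. -/
theorem hensel_mem (Λ : Subalgebra A (T → A)) (Φ : Λ[X]) (y : T → A)
    (hy : ∀ t, y t ∈ IsLocalRing.maximalIdeal A)
    (hroot : aeval y Φ = 0)
    (hder : ∀ t, IsUnit ((aeval y (derivative Φ)) t)) : y ∈ Λ := by
  classical
  -- notation
  set Ψ : Λ[X] := divX Φ with hΨ
  set c : Λ := Φ.coeff 0 with hc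
  have hΦ : Φ = Ψ * X + C c := (divX_mul_X_add Φ).symm
  -- the bigger ring Λ' = Λ[y]
  let Λ' : Subalgebra Λ (T → A) := Algebra.adjoin Λ {y}
  have hΛ' : Λ' = (aeval y : Λ[X] →ₐ[Λ] (T → A)).range :=
    Algebra.adjoin_singleton_eq_range_aeval Λ y
  have hyΛ' : y ∈ Λ' := Algebra.subset_adjoin (Set.mem_singleton y)
  have hΨy : aeval y Ψ ∈ Λ' := by
    rw [hΛ']; exact ⟨Ψ, rfl⟩
  -- the relation Ψ(y) * y = - c
  have hrel : aeval y Ψ * y + algebraMap Λ (T → A) c = 0 := by
    have := hroot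
    rw [hΦ] at this
    simpa using this
  -- Ψ(y) is a pointwise unit
  have hder' : aeval y (derivative Φ) = aeval y (derivative Ψ) * y + aeval y Ψ := by
    conv_lhs => rw [hΦ]
    simp [derivative_mul]
  have hunit : ∀ t, IsUnit ((aeval y Ψ) t) := by
    intro t
    have h1 := hder t
    rw [hder'] at h1
    have hm : (aeval y (derivative Ψ) * y) t ∈ IsLocalRing.maximalIdeal A := by
      simpa using (IsLocalRing.maximalIdeal A).mul_mem_left _ (hy t)
    by_contra hnu
    have h2 : (aeval y Ψ) t ∈ IsLocalRing.maximalIdeal A :=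
      (IsLocalRing.mem_maximalIdeal _).mpr hnu
    have h3 := (IsLocalRing.maximalIdeal A).add_mem hm h2
    exact (IsLocalRing.mem_maximalIdeal _).mp h3 (by simpa using h1)
  -- its inverse lies in Λ'
  obtain ⟨w, hw, hww⟩ := exists_inv_mem (Λ'.restrictScalars A) (f := aeval y Ψ) hΨy hunit
  have hw' : w ∈ Λ' := hw
  -- y = - w * c
  have hyw : y = -(w * algebraMap Λ (T → A) c) := by
    have h1 : aeval y Ψ * y = -algebraMap Λ (T → A) c := eq_neg_of_add_eq_zero_left hrel
    calc y = (aeval y Ψ * w) * y := by rw [hww, one_mul]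
      _ = w * (aeval y Ψ * y) := by ring
      _ = -(w * algebraMap Λ (T → A) c) := by rw [h1]; ring
  -- c lies in the radical ideal
  have hcI : c ∈ radIdeal Λ := by
    intro t
    have h1 : (algebraMap Λ (T → A) c) t = -((aeval y Ψ) t * y t) := by
      have := congrFun hrel t
      simp only [Pi.add_apply, Pi.mul_apply, Pi.zero_apply] at this
      exact eq_neg_of_add_eq_zero_right this
    have h2 : ((c : Λ) : T → A) t = (algebraMap Λ (T → A) c) t := rfl
    rw [h2, h1]
    exact (IsLocalRing.maximalIdeal A).neg_mem ((IsLocalRing.maximalIdeal A).mul_mem_left _ (hy t))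
  -- Nakayama
  have hfg : (Subalgebra.toSubmodule Λ').FG :=
    (isIntegral_fun Λ y).fg_adjoin_singleton
  have hle : Subalgebra.toSubmodule Λ' ≤
      (Subalgebra.toSubmodule (⊥ : Subalgebra Λ (T → A))) ⊔
        (radIdeal Λ) • (Subalgebra.toSubmodule Λ') := by
    intro z hz
    have hz' : z ∈ Λ' := hz
    rw [hΛ'] at hz'
    obtain ⟨p, hpz⟩ := hz'
    have hpz' : aeval y p = z := hpz
    have hp : p = divX p * X + C (p.coeff 0) := (divX_mul_X_add p).symm
    have hpy : aeval y p = algebraMap Λ (T → A) (p.coeff 0) +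
        c • (-(w * aeval y (divX p))) := by
      conv_lhs => rw [hp]
      simp only [_root_.map_add, _root_.map_mul, aeval_X, aeval_C]
      rw [Algebra.smul_def]
      have hyw' : aeval y (divX p) * y =
          aeval y (divX p) * (-(w * algebraMap Λ (T → A) c)) := by rw [← hyw]
      rw [hyw']
      ring
    rw [← hpz', hpy]
    refine Submodule.add_mem_sup ?_ ?_
    · exact Subalgebra.algebraMap_mem _ _
    · refine Submodule.smul_mem_smul hcI ?_
      refine Subalgebra.neg_mem _ (Subalgebra.mul_mem _ hw' ?_)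
      rw [hΛ']; exact ⟨_, rfl⟩
  have hfin := Submodule.le_of_le_smul_of_le_jacobson_bot hfg (radIdeal_le_jacobson Λ) hle
  have hy1 : y ∈ Subalgebra.toSubmodule (⊥ : Subalgebra Λ (T → A)) := hfin hyΛ'
  obtain ⟨l, hl⟩ := Algebra.mem_bot.mp hy1
  rw [← hl]
  exact l.2

end Hensel

end Fermat.Agent.A3.H799

end
-- ===== PACK-END A3/H799/FamRing.lean

-- ===== PACK-BEGIN A3/H799/Disc.lean
section





/-!
# A3 / LOCAL — disc algebras and interpolation  (helper799)

A *disc algebra* over a local ring `A` is the algebraic shadow of "integral functions on an open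
residue disc with parameter `t`": an `A`-algebra `𝒪` with an element `t`, an evaluation
`ev a : 𝒪 →ₐ[A] A` at every `a ∈ 𝔪_A` with `ev a t = a`, and the Taylor property
`f = ev a f + (t - a) * f'`.  (In the application `𝒪 = 𝒪_Q = V ∩ ⋂_{r P = Q} 𝒪_P` is the ring of
functions of Gauss norm `≤ 1` without poles in the residue disc of the point `Q` of the special
fibre; Taylor follows from conservation of zeros.)

Main results (pure algebra):

* `DiscAlg.exists_interp` : Newton/Hermite interpolation, `f = p(t) + ∏ (t - a_i) * h`, `p ∈ A[X]`;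
* `DiscAlg.prod_dvd_of_aeval` : if `p(t) ∈ ∏ (t - a_i) 𝒪` then `∏ (X - a_i) ∣ p` in `A[X]`.
-/

set_option autoImplicit false

namespace Fermat.Agent.A3.H799

open Polynomial

/-- Integral functions on a residue disc with parameter `t` (see the module docstring). -/
structure DiscAlg (A : Type*) [CommRing A] [IsLocalRing A] (𝒪 : Type*) [CommRing 𝒪]
    [Algebra A 𝒪] where
  /-- the parameter -/
  t : 𝒪
  /-- evaluation at the point with parameter value `a` -/
  ev : IsLocalRing.maximalIdeal A → 𝒪 →ₐ[A] A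
  ev_t : ∀ a, ev a t = (a : A)
  taylor : ∀ (a : IsLocalRing.maximalIdeal A) (f : 𝒪),
    ∃ f' : 𝒪, f = algebraMap A 𝒪 (ev a f) + (t - algebraMap A 𝒪 (a : A)) * f'
  nzd : ∀ (a : IsLocalRing.maximalIdeal A) (f : 𝒪), (t - algebraMap A 𝒪 (a : A)) * f = 0 → f = 0

namespace DiscAlg

variable {A : Type*} [CommRing A] [IsLocalRing A] {𝒪 : Type*} [CommRing 𝒪] [Algebra A 𝒪]
variable (D : DiscAlg A 𝒪)

/-- The monic polynomial `∏ (X - a)` attached to a list of points. -/
noncomputable def nodal (l : List (IsLocalRing.maximalIdeal A)) : A[X] :=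
  (l.map fun a => X - C (a : A)).prod

@[simp] theorem nodal_nil : nodal ([] : List (IsLocalRing.maximalIdeal A)) = 1 := by
  simp [nodal]

@[simp] theorem nodal_cons (a : IsLocalRing.maximalIdeal A) (l : List (IsLocalRing.maximalIdeal A)) :
    nodal (a :: l) = (X - C (a : A)) * nodal l := by
  simp [nodal]

theorem nodal_monic (l : List (IsLocalRing.maximalIdeal A)) : (nodal l).Monic := by
  induction l with
  | nil => simp
  | cons a l ih => rw [nodal_cons]; exact (monic_X_sub_C _).mul ih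

theorem nodal_append (l l' : List (IsLocalRing.maximalIdeal A)) :
    nodal (l ++ l') = nodal l * nodal l' := by
  simp [nodal]

theorem nodal_append_singleton (l : List (IsLocalRing.maximalIdeal A))
    (a : IsLocalRing.maximalIdeal A) : nodal (l ++ [a]) = nodal l * (X - C (a : A)) := by
  rw [nodal_append, nodal_cons, nodal_nil, mul_one]

theorem natDegree_nodal (l : List (IsLocalRing.maximalIdeal A)) :
    (nodal l).natDegree = l.length := by
  induction l with
  | nil => simp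
  | cons a l ih =>
    rw [nodal_cons, ((monic_X_sub_C _).natDegree_mul (nodal_monic l)), ih, natDegree_X_sub_C]
    simp [add_comm]

@[simp] theorem ev_aeval (a : IsLocalRing.maximalIdeal A) (p : A[X]) :
    D.ev a (aeval D.t p) = p.eval (a : A) := by
  rw [← Polynomial.aeval_algHom_apply, D.ev_t]
  simp [Polynomial.aeval_def]

theorem aeval_nodal_cons (a : IsLocalRing.maximalIdeal A)
    (l : List (IsLocalRing.maximalIdeal A)) :
    aeval D.t (nodal (a :: l)) = (D.t - algebraMap A 𝒪 (a : A)) * aeval D.t (nodal l) := by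
  simp [nodal_cons]

/-- **Interpolation.**  Every disc function is a polynomial in `t` modulo `∏ (t - a_i)`. -/
theorem exists_interp (l : List (IsLocalRing.maximalIdeal A)) (f : 𝒪) :
    ∃ (p : A[X]) (h : 𝒪), f = aeval D.t p + aeval D.t (nodal l) * h := by
  induction l generalizing f with
  | nil => exact ⟨0, f, by simp⟩
  | cons a l ih =>
    obtain ⟨f', hf'⟩ := D.taylor a f
    obtain ⟨p, h, hp⟩ := ih f'
    refine ⟨C (D.ev a f) + (X - C (a : A)) * p, h, ?_⟩
    rw [D.aeval_nodal_cons]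
    conv_lhs => rw [hf', hp]
    simp only [_root_.map_add, _root_.map_mul, _root_.map_sub, aeval_C, aeval_X]
    ring

/-- If `p(t)` is divisible by `∏ (t - a_i)` in the disc algebra, then `p` is divisible by
`∏ (X - a_i)` as a polynomial. -/
theorem nodal_dvd_of_aeval (l : List (IsLocalRing.maximalIdeal A)) (p : A[X]) (h : 𝒪)
    (hp : aeval D.t p = aeval D.t (nodal l) * h) : nodal l ∣ p := by
  induction l generalizing p h with
  | nil => simp
  | cons a l ih =>
    rw [D.aeval_nodal_cons] at hp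
    have hroot : p.eval (a : A) = 0 := by
      have := congrArg (D.ev a) hp
      rw [D.ev_aeval, _root_.map_mul, _root_.map_mul, _root_.map_sub, D.ev_t] at this
      simpa using this
    have hdiv : (X - C (a : A)) * (p /ₘ (X - C (a : A))) = p :=
      mul_divByMonic_eq_iff_isRoot.mpr hroot
    set p₁ := p /ₘ (X - C (a : A)) with hp₁
    have h1 : aeval D.t p = (D.t - algebraMap A 𝒪 (a : A)) * aeval D.t p₁ := by
      conv_lhs => rw [← hdiv]
      simp
    have h2 : (D.t - algebraMap A 𝒪 (a : A)) * (aeval D.t p₁ - aeval D.t (nodal l) * h) = 0 := by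
      rw [mul_sub, ← h1, hp]; ring
    have h3 := D.nzd a _ h2
    have h4 : aeval D.t p₁ = aeval D.t (nodal l) * h := sub_eq_zero.mp h3
    obtain ⟨q, hq⟩ := ih p₁ h h4
    refine ⟨q, ?_⟩
    rw [nodal_cons, ← hdiv, hq]
    ring

/-- Cancellation of `nodal l` in the disc algebra. -/
theorem nodal_cancel (l : List (IsLocalRing.maximalIdeal A)) (f : 𝒪)
    (h : aeval D.t (nodal l) * f = 0) : f = 0 := by
  induction l with
  | nil => simpa using h
  | cons a l ih =>
    rw [D.aeval_nodal_cons, mul_assoc] at h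
    exact ih (D.nzd a _ h)

end DiscAlg

end Fermat.Agent.A3.H799

end
-- ===== PACK-END A3/H799/Disc.lean

-- ===== PACK-BEGIN A3/H799/Root.lean
section



/-!
# A3 / LOCAL — the root lemma  (helper799)

`A` local ring, `T` finite, `Λ ≤ (T → A)` an `A`-algebra of functions, `𝒪` a disc algebra.
Let `W_τ = Σ_j v_j(τ) f_j ∈ 𝒪` be a family of disc functions with fixed `f_j ∈ 𝒪` and coefficients
`v_j ∈ Λ`.  If, for every `τ`,

  `W_τ = ∏_{y ∈ ys} (t - y(τ)) * (t - c(τ)) * u_τ`,   `u_τ(c(τ))` a unit,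

with known roots `ys ⊆ Λ` (values in `𝔪`), then the remaining root `c : T → 𝔪` lies in `Λ`.
(`root_mem`.)  This is "Weierstrass preparation + Hensel" for algebraic families, with no
completeness and no power series.
-/

set_option autoImplicit false

namespace Fermat.Agent.A3.H799

open Polynomial

section EvAt

variable {A : Type*} [CommRing A] {T : Type*}

/-- Evaluation of a function in `Λ` at a parameter value `τ`. -/
def evAt (Λ : Subalgebra A (T → A)) (τ : T) : Λ →ₐ[A] A :=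
  (Pi.evalAlgHom A (fun _ : T => A) τ).comp Λ.val

@[simp] theorem evAt_apply (Λ : Subalgebra A (T → A)) (τ : T) (x : Λ) :
    evAt Λ τ x = (x : T → A) τ := rfl

theorem ext_evAt {Λ : Subalgebra A (T → A)} {x y : Λ} (h : ∀ τ, evAt Λ τ x = evAt Λ τ y) :
    x = y := Subtype.ext (_root_.funext h)

/-- Polynomials over `Λ` are determined by their specialisations. -/
theorem poly_ext_evAt {Λ : Subalgebra A (T → A)} {P Q : Λ[X]}
    (h : ∀ τ, P.map (evAt Λ τ : Λ →+* A) = Q.map (evAt Λ τ : Λ →+* A)) : P = Q := by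
  ext n : 1
  refine ext_evAt fun τ => ?_
  have := congrArg (fun p => p.coeff n) (h τ)
  simpa using this

/-- Pointwise value of `aeval y P`. -/
theorem aeval_apply_eq (Λ : Subalgebra A (T → A)) (P : Λ[X]) (y : T → A) (τ : T) :
    (aeval y P) τ = (P.map (evAt Λ τ : Λ →+* A)).eval (y τ) := by
  have h1 : (aeval y P) τ = (Pi.evalRingHom (fun _ : T => A) τ) (eval₂ (algebraMap Λ (T → A)) y P) :=
    rfl
  rw [h1, Polynomial.hom_eval₂, eval_map]
  rfl

end EvAt

section Root

variable {A : Type*} [CommRing A] [IsLocalRing A] {T : Type*} [Finite T]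
variable {𝒪 : Type*} [CommRing 𝒪] [Algebra A 𝒪]

/-- The value at `τ` of a `Λ`-point of the disc. -/
def ptAt (Λ : Subalgebra A (T → A)) (τ : T) (y : radIdeal Λ) : IsLocalRing.maximalIdeal A :=
  ⟨((y : Λ) : T → A) τ, y.2 τ⟩

omit [Finite T] in
@[simp] theorem coe_ptAt (Λ : Subalgebra A (T → A)) (τ : T) (y : radIdeal Λ) :
    ((ptAt Λ τ y : IsLocalRing.maximalIdeal A) : A) = ((y : Λ) : T → A) τ := rfl

/-- The monic polynomial `∏ (X - y)` over `Λ` attached to a list of `Λ`-points. -/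
noncomputable def nodalΛ (Λ : Subalgebra A (T → A)) (ys : List (radIdeal Λ)) : Λ[X] :=
  (ys.map fun y => X - C (y : Λ)).prod

omit [Finite T] in
theorem nodalΛ_monic (Λ : Subalgebra A (T → A)) (ys : List (radIdeal Λ)) :
    (nodalΛ Λ ys).Monic := by
  induction ys with
  | nil => simp [nodalΛ]
  | cons a l ih =>
    have : nodalΛ Λ (a :: l) = (X - C (a : Λ)) * nodalΛ Λ l := by simp [nodalΛ]
    rw [this]; exact (monic_X_sub_C _).mul ih

omit [Finite T] in
theorem map_nodalΛ (Λ : Subalgebra A (T → A)) (ys : List (radIdeal Λ)) (τ : T) :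
    (nodalΛ Λ ys).map (evAt Λ τ : Λ →+* A) = DiscAlg.nodal (ys.map (ptAt Λ τ)) := by
  induction ys with
  | nil => simp [nodalΛ]
  | cons a l ih =>
    have h1 : nodalΛ Λ (a :: l) = (X - C (a : Λ)) * nodalΛ Λ l := by simp [nodalΛ]
    rw [h1, Polynomial.map_mul, ih, List.map_cons, DiscAlg.nodal_cons]
    simp

/-- Auxiliary: the list of all nodes `∏_τ (ys(τ) ++ [c τ, c τ])`. -/
private noncomputable def allNodes (Λ : Subalgebra A (T → A)) (ys : List (radIdeal Λ))
    (c : T → IsLocalRing.maximalIdeal A) (ts : List T) : List (IsLocalRing.maximalIdeal A) :=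
  ts.flatMap fun τ => ys.map (ptAt Λ τ) ++ [c τ, c τ]

omit [Finite T] in
private theorem nodal_allNodes_dvd (Λ : Subalgebra A (T → A)) (ys : List (radIdeal Λ))
    (c : T → IsLocalRing.maximalIdeal A) (ts : List T) (τ : T) (hτ : τ ∈ ts) :
    ∃ R : A[X], DiscAlg.nodal (allNodes Λ ys c ts) =
      DiscAlg.nodal (ys.map (ptAt Λ τ) ++ [c τ]) * (X - C ((c τ : IsLocalRing.maximalIdeal A) : A))
        * R := by
  induction ts with
  | nil => simp at hτ
  | cons σ ts ih =>
    have hcons : allNodes Λ ys c (σ :: ts) =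
        (ys.map (ptAt Λ σ) ++ [c σ, c σ]) ++ allNodes Λ ys c ts := by
      simp [allNodes]
    rw [hcons, DiscAlg.nodal_append]
    rcases List.mem_cons.mp hτ with h | h
    · subst h
      refine ⟨DiscAlg.nodal (allNodes Λ ys c ts), ?_⟩
      have : ys.map (ptAt Λ τ) ++ [c τ, c τ] = (ys.map (ptAt Λ τ) ++ [c τ]) ++ [c τ] := by simp
      rw [this, DiscAlg.nodal_append_singleton]
    · obtain ⟨R, hR⟩ := ih h
      refine ⟨DiscAlg.nodal (ys.map (ptAt Λ σ) ++ [c σ, c σ]) * R, ?_⟩
      rw [hR]; ring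

/-- **Root lemma.**  See the module docstring. -/
theorem root_mem (Λ : Subalgebra A (T → A)) (D : DiscAlg A 𝒪) {κ : Type*} [Fintype κ]
    (f : κ → 𝒪) (v : κ → Λ) (ys : List (radIdeal Λ)) (c : T → IsLocalRing.maximalIdeal A)
    (hW : ∀ τ, ∃ u : 𝒪, IsUnit (D.ev (c τ) u) ∧
      ∑ j, ((v j : Λ) : T → A) τ • f j =
        aeval D.t (DiscAlg.nodal (ys.map (ptAt Λ τ))) *
          (D.t - algebraMap A 𝒪 ((c τ : IsLocalRing.maximalIdeal A) : A)) * u) :
    (fun τ => ((c τ : IsLocalRing.maximalIdeal A) : A)) ∈ Λ := by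
  classical
  have : Fintype T := Fintype.ofFinite T
  set ts : List T := (Finset.univ : Finset T).toList with hts
  have hmem : ∀ τ, τ ∈ ts := fun τ => by simp [hts]
  set S := allNodes Λ ys c ts with hS
  -- interpolation of the `f j`
  choose p h hp using fun j => D.exists_interp S (f j)
  -- the polynomial with coefficients in `Λ`
  set Φ : Λ[X] := ∑ j, C (v j) * (p j).map (algebraMap A Λ) with hΦ
  set G : Λ[X] := nodalΛ Λ ys with hG
  have hGm : G.Monic := nodalΛ_monic Λ ys
  set Φ₂ : Λ[X] := Φ /ₘ G with hΦ₂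
  -- pointwise factorisation of `Φ`
  have hΦτ : ∀ τ, Φ.map (evAt Λ τ : Λ →+* A) = ∑ j, C (((v j : Λ) : T → A) τ) * p j := by
    intro τ
    rw [hΦ, Polynomial.map_sum]
    refine Finset.sum_congr rfl fun j _ => ?_
    rw [Polynomial.map_mul, Polynomial.map_C, Polynomial.map_map]
    have : ((evAt Λ τ : Λ →+* A).comp (algebraMap A Λ)) = RingHom.id A := by
      ext a; simp
    rw [this, Polynomial.map_id]
    rfl
  have hfac : ∀ τ, ∃ q : A[X], IsUnit (q.eval ((c τ : IsLocalRing.maximalIdeal A) : A)) ∧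
      Φ.map (evAt Λ τ : Λ →+* A) =
        DiscAlg.nodal (ys.map (ptAt Λ τ)) * ((X - C ((c τ : IsLocalRing.maximalIdeal A) : A)) * q) := by
    intro τ
    obtain ⟨u, hu, hWτ⟩ := hW τ
    obtain ⟨R, hR⟩ := nodal_allNodes_dvd Λ ys c ts τ (hmem τ)
    -- aeval of Φ_τ
    have h1 : aeval D.t (Φ.map (evAt Λ τ : Λ →+* A)) =
        ∑ j, ((v j : Λ) : T → A) τ • f j -
          aeval D.t (DiscAlg.nodal S) * ∑ j, ((v j : Λ) : T → A) τ • h j := by
      rw [hΦτ τ, _root_.map_sum, Finset.mul_sum, ← Finset.sum_sub_distrib]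
      refine Finset.sum_congr rfl fun j _ => ?_
      rw [_root_.map_mul, aeval_C, hp j, Algebra.smul_def, Algebra.smul_def]
      ring
    set u' : 𝒪 := u - (D.t - algebraMap A 𝒪 ((c τ : IsLocalRing.maximalIdeal A) : A)) *
        (aeval D.t R * ∑ j, ((v j : Λ) : T → A) τ • h j) with hu'
    have hR' : aeval D.t (DiscAlg.nodal S) =
        aeval D.t (DiscAlg.nodal (ys.map (ptAt Λ τ))) *
          (D.t - algebraMap A 𝒪 ((c τ : IsLocalRing.maximalIdeal A) : A)) *
          (D.t - algebraMap A 𝒪 ((c τ : IsLocalRing.maximalIdeal A) : A)) * aeval D.t R := by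
      rw [hS, hR, DiscAlg.nodal_append_singleton]
      simp only [_root_.map_mul, _root_.map_sub, aeval_X, aeval_C]
    have h2 : aeval D.t (Φ.map (evAt Λ τ : Λ →+* A)) =
        aeval D.t (DiscAlg.nodal (ys.map (ptAt Λ τ) ++ [c τ])) * u' := by
      rw [h1, hWτ, hR', DiscAlg.nodal_append_singleton, hu']
      simp only [_root_.map_mul, _root_.map_sub, aeval_X, aeval_C]
      ring
    obtain ⟨q, hq⟩ := D.nodal_dvd_of_aeval _ _ _ h2
    refine ⟨q, ?_, ?_⟩
    · -- q(t) = u'
      have h3 : aeval D.t (DiscAlg.nodal (ys.map (ptAt Λ τ) ++ [c τ])) * (aeval D.t q - u') = 0 := by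
        rw [mul_sub, ← h2, hq, _root_.map_mul]; ring
      have h4 : aeval D.t q = u' := sub_eq_zero.mp (D.nodal_cancel _ _ h3)
      have h5 : q.eval ((c τ : IsLocalRing.maximalIdeal A) : A) = D.ev (c τ) u := by
        rw [← D.ev_aeval, h4, hu', _root_.map_sub, _root_.map_mul, _root_.map_sub, D.ev_t]
        simp
      rw [h5]; exact hu
    · rw [hq, DiscAlg.nodal_append_singleton]
      ring
  -- specialisation of Φ₂
  have hΦ₂τ : ∀ τ, ∃ q : A[X], IsUnit (q.eval ((c τ : IsLocalRing.maximalIdeal A) : A)) ∧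
      Φ₂.map (evAt Λ τ : Λ →+* A) = (X - C ((c τ : IsLocalRing.maximalIdeal A) : A)) * q := by
    intro τ
    obtain ⟨q, hq, hfac'⟩ := hfac τ
    refine ⟨q, hq, ?_⟩
    rw [hΦ₂, Polynomial.map_divByMonic _ hGm, hfac', hG, map_nodalΛ]
    exact Polynomial.mul_divByMonic_cancel_left _ (DiscAlg.nodal_monic _)
  -- apply Hensel
  refine hensel_mem Λ Φ₂ _ (fun τ => (c τ).2) ?_ ?_
  · funext τ
    rw [aeval_apply_eq]
    obtain ⟨q, -, hq⟩ := hΦ₂τ τ
    rw [hq]
    simp
  · intro τ
    rw [aeval_apply_eq, ← Polynomial.derivative_map]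
    obtain ⟨q, hqu, hq⟩ := hΦ₂τ τ
    rw [hq]
    simpa [derivative_mul] using hqu

end Root

end Fermat.Agent.A3.H799

end
-- ===== PACK-END A3/H799/Root.lean

-- ===== PACK-BEGIN S19/H439/InertiaLift.lean
section


/-!
# Cell A3 / GR: inertia-invariant lifts of residue constants (helper439)

`V` a valuation subring of a field `K`, `k` its residue field.

* `exists_rootOfUnity_lift`     : if `X ^ n - 1` splits in `K` then every `n`-th root of unity of
                                  `k` is the residue of an `n`-th root of unity of `K` (lying in `V`).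
* `rootOfUnity_eq_of_residue_eq`: if `n` is invertible in `k`, two `n`-th roots of unity of `K` with
                                  the same residue are equal.
* `exists_pow_eq_one_of_isAlgebraic` : a nonzero element of a field of characteristic `ℓ > 0`
                                  which is algebraic over `ZMod ℓ` is a root of unity of order
                                  prime to `ℓ`.
* `isAlgebraic_residue`         : if `K / ℚ` is algebraic and `ℓ ∈ 𝔪_V` then `k` is algebraic over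
                                  `ZMod ℓ`.
* `exists_inertia_fixed_lift`   : (**I_lift_const**) `K` algebraically closed and algebraic over
                                  `ℚ`, `ℓ ∈ 𝔪_V`: every `c ∈ k` has a lift `a ∈ V` which is fixed by
                                  every ring endomorphism `σ` of `K` with `σ b - b ∈ 𝔪_V` for all
                                  `b ∈ V` (in particular by the inertia group of `V`).
-/

set_option autoImplicit false

noncomputable section

open Polynomial IsLocalRing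

namespace Fermat.Agent.S19.H439

variable {K : Type*} [Field K] (V : ValuationSubring K)

/-- A root of unity lies in every valuation subring. -/
theorem mem_of_pow_eq_one {ζ : K} {n : ℕ} (hn : n ≠ 0) (h : ζ ^ n = 1) : ζ ∈ V := by
  rcases V.mem_or_inv_mem ζ with h1 | h1
  · exact h1
  · have : ζ = (ζ⁻¹) ^ (n - 1) := by
      have e : ζ * ζ ^ (n - 1) = 1 := by
        rw [← pow_succ', Nat.sub_add_cancel (Nat.pos_of_ne_zero hn)]
        exact h
      rw [inv_pow]
      exact eq_inv_of_mul_eq_one_left e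
    rw [this]
    exact pow_mem h1 _

/-- Residues of elements of `K` lying in `V`. -/
def resOf (a : K) (ha : a ∈ V) : ResidueField V := residue V ⟨a, ha⟩

theorem resOf_eq_iff {a b : K} (ha : a ∈ V) (hb : b ∈ V) :
    resOf V a ha = resOf V b hb ↔ a - b ∈ V.nonunits := by
  unfold resOf
  rw [← sub_eq_zero, ← map_sub, residue_eq_zero_iff, ← V.coe_mem_nonunits_iff]
  rfl

/-- If `n` is invertible in the residue field, two `n`-th roots of unity with the same residue
are equal. -/
theorem rootOfUnity_eq_of_residue_eq {n : ℕ} (hn : (n : ResidueField V) ≠ 0) {ζ ζ' : K}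
    (hζ : ζ ^ n = 1) (hζ' : ζ' ^ n = 1) (h : ζ - ζ' ∈ V.nonunits) : ζ = ζ' := by
  have hn0 : n ≠ 0 := by
    rintro rfl
    exact hn (by simp)
  have hζ'0 : ζ' ≠ 0 := by
    rintro rfl
    rw [zero_pow hn0] at hζ'
    exact zero_ne_one hζ'
  have hζ'V : ζ' ∈ V := mem_of_pow_eq_one V hn0 hζ'
  have hζV : ζ ∈ V := mem_of_pow_eq_one V hn0 hζ
  -- `u = ζ / ζ'`
  set u : K := ζ / ζ' with hu
  have hun : u ^ n = 1 := by rw [hu, div_pow, hζ, hζ', div_one]
  have huV : u ∈ V := mem_of_pow_eq_one V hn0 hun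
  have hζ'inv : ζ'⁻¹ ∈ V := mem_of_pow_eq_one V hn0 (by rw [inv_pow, hζ', inv_one])
  have hu1 : u - 1 ∈ V.nonunits := by
    have e : u - 1 = (ζ - ζ') * ζ'⁻¹ := by
      rw [hu]; field_simp
    rw [e]
    have hmax : (⟨ζ, hζV⟩ - ⟨ζ', hζ'V⟩ : V) ∈ maximalIdeal V := by
      rw [← V.coe_mem_nonunits_iff]
      exact h
    have hmul := Ideal.mul_mem_right (⟨ζ'⁻¹, hζ'inv⟩ : V) _ hmax
    rw [← V.coe_mem_nonunits_iff] at hmul
    exact hmul
  by_contra hne
  have hune : u ≠ 1 := by
    intro h1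
    apply hne
    rw [hu, div_eq_one_iff_eq hζ'0] at h1
    exact h1
  -- geometric sum
  have hgeom : ∑ i ∈ Finset.range n, u ^ i = 0 := by
    have := mul_neg_geom_sum u n
    rw [hun, sub_self] at this
    rcases mul_eq_zero.mp this with h1 | h1
    · exact absurd (sub_eq_zero.mp h1).symm hune
    · exact h1
  -- reduce
  let uV : V := ⟨u, huV⟩
  have hres : residue V uV = 1 := by
    rw [← sub_eq_zero, ← map_one (residue V), ← map_sub, residue_eq_zero_iff,
      ← V.coe_mem_nonunits_iff]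
    exact hu1
  have hsumV : ∑ i ∈ Finset.range n, uV ^ i = 0 := by
    apply Subtype.ext
    push_cast
    exact hgeom
  have := congrArg (residue V) hsumV
  rw [map_sum, map_zero] at this
  simp only [map_pow, hres, one_pow, Finset.sum_const, Finset.card_range, nsmul_eq_mul,
    mul_one] at this
  exact hn this

/-- If `X ^ n - 1` splits in `K`, every `n`-th root of unity of the residue field is the residue
of an `n`-th root of unity of `K`. -/
theorem exists_rootOfUnity_lift [IsAlgClosed K] {n : ℕ} (hn : n ≠ 0) {c : ResidueField V}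
    (hc : c ^ n = 1) :
    ∃ (ζ : K) (hζ : ζ ∈ V), ζ ^ n = 1 ∧ residue V ⟨ζ, hζ⟩ = c := by
  classical
  -- factor `X ^ n - 1` over `K`
  have hsplit : (X ^ n - 1 : K[X]).Splits := IsAlgClosed.splits _
  have hmonic : (X ^ n - 1 : K[X]).Monic := monic_X_pow_sub_C 1 hn
  have hprod := hsplit.eq_prod_roots_of_monic hmonic
  set s := (X ^ n - 1 : K[X]).roots with hs
  have hroot : ∀ ζ ∈ s, ζ ^ n = 1 := by
    intro ζ hζ
    have := (mem_roots hmonic.ne_zero).mp hζ
    simpa [sub_eq_zero] using this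
  have hmemV : ∀ ζ ∈ s, ζ ∈ V := fun ζ hζ => mem_of_pow_eq_one V hn (hroot ζ hζ)
  -- the multiset of roots, as elements of `V`
  let t : Multiset V := s.pmap (fun ζ h => (⟨ζ, h⟩ : V)) hmemV
  have ht : t.map (fun a : V => (a : K)) = s := by
    simp only [t]
    rw [Multiset.map_pmap, Multiset.pmap_eq_map, Multiset.map_id']
  have hprodV : (X ^ n - 1 : V[X]) = (t.map fun a => X - C a).prod := by
    apply Polynomial.map_injective V.subtype Subtype.val_injective
    rw [Polynomial.map_sub, Polynomial.map_pow, Polynomial.map_X, Polynomial.map_one,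
      Polynomial.map_multiset_prod, Multiset.map_map]
    conv_lhs => rw [hprod]
    rw [← ht, Multiset.map_map]
    congr 1
    apply Multiset.map_congr rfl
    intro a _
    simp
  have hprodk : (X ^ n - 1 : (ResidueField V)[X])
      = (t.map fun a => X - C (residue V a)).prod := by
    have := congrArg (Polynomial.map (residue V)) hprodV
    rw [Polynomial.map_sub, Polynomial.map_pow, Polynomial.map_X, Polynomial.map_one,
      Polynomial.map_multiset_prod, Multiset.map_map] at this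
    rw [this]
    congr 1
    apply Multiset.map_congr rfl
    intro a _
    simp
  have hev : ((t.map fun a => X - C (residue V a)).prod).eval c = 0 := by
    rw [← hprodk]
    simp [hc]
  rw [Polynomial.eval_multiset_prod, Multiset.prod_eq_zero_iff, Multiset.map_map] at hev
  obtain ⟨a, ha, hac⟩ := Multiset.mem_map.mp hev
  simp only [Function.comp_apply, eval_sub, eval_X, eval_C] at hac
  have hat : (a : K) ∈ s := by
    rw [← ht]
    exact Multiset.mem_map_of_mem _ ha
  refine ⟨a, a.2, hroot _ hat, ?_⟩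
  have : residue V a = c := (sub_eq_zero.mp hac).symm
  exact this

/-- A nonzero element of a field of characteristic `ℓ`, algebraic over `ZMod ℓ`, is a root of
unity of order prime to `ℓ`. -/
theorem exists_pow_eq_one_of_isAlgebraic {k : Type*} [Field k] {ℓ : ℕ} [Fact ℓ.Prime]
    [Algebra (ZMod ℓ) k] {c : k} (hc : c ≠ 0) (halg : IsAlgebraic (ZMod ℓ) c) :
    ∃ n : ℕ, n ≠ 0 ∧ (n : k) ≠ 0 ∧ c ^ n = 1 := by
  classical
  let E := IntermediateField.adjoin (ZMod ℓ) {c}
  have : FiniteDimensional (ZMod ℓ) E :=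
    IntermediateField.adjoin.finiteDimensional halg.isIntegral
  have : Finite E := Module.finite_of_finite (ZMod ℓ)
  let _ : Fintype E := Fintype.ofFinite E
  let cE : E := ⟨c, IntermediateField.mem_adjoin_simple_self (ZMod ℓ) c⟩
  have hcE : cE ≠ 0 := fun h => hc (congrArg Subtype.val h)
  have hpow := FiniteField.pow_card_sub_one_eq_one cE hcE
  have hcard0 : ((Fintype.card E : ℕ) : E) = 0 := FiniteField.cast_card_eq_zero E
  have hcard1 : 1 < Fintype.card E := Fintype.one_lt_card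
  refine ⟨Fintype.card E - 1, by omega, ?_, ?_⟩
  · have h1 : ((Fintype.card E - 1 : ℕ) : E) = -1 := by
      rw [Nat.cast_sub hcard1.le, hcard0, Nat.cast_one, zero_sub]
    intro h0
    have h2 : ((Fintype.card E - 1 : ℕ) : k) = algebraMap E k ((Fintype.card E - 1 : ℕ) : E) := by
      rw [map_natCast]
    rw [h2, h1, map_neg, map_one] at h0
    exact one_ne_zero (neg_eq_zero.mp h0)
  · have := congrArg (algebraMap E k) hpow
    rw [map_pow, map_one] at this
    exact this

section Residue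

variable {ℓ : ℕ} [Fact ℓ.Prime]

omit [Fact ℓ.Prime] in
/-- The residue field of a valuation ring containing `ℓ` in its maximal ideal has
characteristic `ℓ`. -/
theorem natCast_residue_eq_zero' (hℓ : (ℓ : K) ∈ V.nonunits) : ((ℓ : ℕ) : ResidueField V) = 0 := by
  have h1 : ((ℓ : V) : K) ∈ V.nonunits := by
    have : ((ℓ : V) : K) = (ℓ : K) := by simp
    rw [this]; exact hℓ
  have h2 : (ℓ : V) ∈ maximalIdeal V := V.coe_mem_nonunits_iff.mp h1
  have h3 := (residue_eq_zero_iff (ℓ : V)).mpr h2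
  rwa [map_natCast] at h3

theorem charP_residueField (hℓ : (ℓ : K) ∈ V.nonunits) : CharP (ResidueField V) ℓ := by
  obtain ⟨p, hp⟩ := CharP.exists (ResidueField V)
  have hdvd : p ∣ ℓ := (CharP.cast_eq_zero_iff (ResidueField V) p ℓ).mp
    (natCast_residue_eq_zero' V hℓ)
  rcases (Nat.dvd_prime (Fact.out : ℓ.Prime)).mp hdvd with h1 | h1
  · subst h1
    exact absurd rfl (CharP.char_ne_one (ResidueField V) 1)
  · subst h1
    exact hp

/-- If `K` is algebraic over `ℚ`, every residue is a root of a polynomial with integer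
coefficients which is nonzero modulo `ℓ`. -/
theorem exists_int_poly_residue [Algebra ℚ K] [Algebra.IsAlgebraic ℚ K] (a : K) (ha : a ∈ V) :
    ∃ q : ℤ[X], q.map (Int.castRingHom (ZMod ℓ)) ≠ 0 ∧
      q.eval₂ (Int.castRingHom (ResidueField V)) (residue V ⟨a, ha⟩) = 0 := by
  have hcz : CharZero K := charZero_of_injective_algebraMap (algebraMap ℚ K).injective
  have halg : IsAlgebraic ℚ a := Algebra.IsAlgebraic.isAlgebraic a
  have halgZ : IsAlgebraic ℤ a := (IsFractionRing.isAlgebraic_iff ℤ ℚ K).mpr halg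
  obtain ⟨p, hp0, hpa⟩ := halgZ
  have hq := Polynomial.aeval_primPart_eq_zero hp0 hpa
  refine ⟨p.primPart, ?_, ?_⟩
  · intro h0
    have hdvd : C (ℓ : ℤ) ∣ p.primPart := by
      rw [Polynomial.C_dvd_iff_dvd_coeff]
      intro i
      have := congrArg (fun r => Polynomial.coeff r i) h0
      simp only [coeff_map, coeff_zero, eq_intCast] at this
      exact (ZMod.intCast_zmod_eq_zero_iff_dvd _ _).mp this
    have hu := (Polynomial.isPrimitive_primPart p) _ hdvd
    have hprime : Prime (ℓ : ℤ) := Nat.prime_iff_prime_int.mp (Fact.out : ℓ.Prime)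
    exact hprime.not_isUnit hu
  · -- evaluate in `V`, then reduce
    have h1 : V.subtype (p.primPart.eval₂ (Int.castRingHom V) (⟨a, ha⟩ : V))
        = p.primPart.eval₂ (Int.castRingHom K) a := by
      rw [Polynomial.hom_eval₂ p.primPart (Int.castRingHom V) V.subtype (⟨a, ha⟩ : V)]
      have e : V.subtype.comp (Int.castRingHom V) = Int.castRingHom K := RingHom.ext_int _ _
      rw [e]
      rfl
    have h2 : p.primPart.eval₂ (Int.castRingHom K) a = 0 := by
      rw [← hq, Polynomial.aeval_def]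
      have e : algebraMap ℤ K = Int.castRingHom K := RingHom.ext_int _ _
      rw [e]
    have hinj : Function.Injective V.subtype := fun x y h => Subtype.ext h
    have h3 : p.primPart.eval₂ (Int.castRingHom V) (⟨a, ha⟩ : V) = 0 :=
      hinj ((h1.trans h2).trans (map_zero V.subtype).symm)
    have h4 := congrArg (residue V) h3
    rw [map_zero, Polynomial.hom_eval₂] at h4
    have e : (residue V).comp (Int.castRingHom V) = Int.castRingHom (ResidueField V) :=
      RingHom.ext_int _ _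
    rw [e] at h4
    exact h4

/-- **Inertia-invariant lifts of residue constants** (`I_lift_const`).  Let `K` be algebraically
closed and algebraic over `ℚ`, `V` a valuation subring with `ℓ ∈ 𝔪_V`.  Every element of the
residue field has a lift `a ∈ V` (namely `0` or a root of unity of order prime to `ℓ`) which is
fixed by every ring endomorphism `σ` of `K` with `σ b ≡ b mod 𝔪_V` for all `b ∈ V`. -/
theorem exists_inertia_fixed_lift [IsAlgClosed K] [Algebra ℚ K] [Algebra.IsAlgebraic ℚ K]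
    (hℓ : (ℓ : K) ∈ V.nonunits) (c : ResidueField V) :
    ∃ (a : K) (ha : a ∈ V), residue V ⟨a, ha⟩ = c ∧
      ∀ σ : K →+* K, (∀ b ∈ V, σ b - b ∈ V.nonunits) → σ a = a := by
  by_cases hc : c = 0
  · refine ⟨0, V.zero_mem, ?_, fun σ _ => map_zero σ⟩
    rw [hc]
    exact map_zero (residue V)
  have hchar := charP_residueField V hℓ
  let _ : Algebra (ZMod ℓ) (ResidueField V) := ZMod.algebra _ ℓ
  obtain ⟨a₀, rfl⟩ := residue_surjective (R := V) c
  obtain ⟨q, hq0, hq⟩ := exists_int_poly_residue (ℓ := ℓ) V (a₀ : K) a₀.2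
  have halg : IsAlgebraic (ZMod ℓ) (residue V a₀) := by
    refine ⟨q.map (Int.castRingHom (ZMod ℓ)), hq0, ?_⟩
    rw [Polynomial.aeval_def, Polynomial.eval₂_map]
    rw [← hq]
    congr 1
    exact RingHom.ext_int _ _
  obtain ⟨n, hn0, hnk, hpow⟩ := exists_pow_eq_one_of_isAlgebraic (ℓ := ℓ) hc halg
  obtain ⟨ζ, hζV, hζn, hζc⟩ := exists_rootOfUnity_lift V hn0 hpow
  refine ⟨ζ, hζV, hζc, fun σ hσ => ?_⟩
  have h1 : (σ ζ) ^ n = 1 := by rw [← map_pow, hζn, map_one]
  exact rootOfUnity_eq_of_residue_eq V hnk h1 hζn (hσ ζ hζV)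

end Residue

end Fermat.Agent.S19.H439

end
end
-- ===== PACK-END S19/H439/InertiaLift.lean

-- ===== PACK-BEGIN S14/H714/Basic.lean
section



/-!
# S14, block GALOIS (helper714): basic facts

* the instances needed to do (infinite) Galois theory on `AlgebraicClosure ℚ` with the
  `Algebra ℚ _` instance used by the Prelude;
* basic properties of `ExtCitation.cycloExp`.
-/

set_option autoImplicit false
set_option linter.style.haveILetI false

namespace Fermat.Agent.S14.H714

open ExtCitation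

/-- The algebraic closure of `ℚ`. -/
abbrev Qb := AlgebraicClosure ℚ
/-- The absolute Galois group of `ℚ`. -/
abbrev G := Qb ≃ₐ[ℚ] Qb

instance instIsAlgebraicQb : Algebra.IsAlgebraic ℚ Qb := AlgebraicClosure.isAlgebraic ℚ

instance instIsAlgClosureQb : IsAlgClosure ℚ Qb := ⟨inferInstance, inferInstance⟩

instance instIsGaloisQb : IsGalois ℚ Qb := inferInstance

variable (p : ℕ) [Fact p.Prime]

/-- The mod `p` cyclotomic character, as an element of `ZMod p`. -/
noncomputable def omega (σ : G) : ZMod p := (cycloExp p σ : ZMod p)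

theorem omega_def (σ : G) : omega p σ = (cycloExp p σ : ZMod p) := rfl

theorem cycloExp_spec (σ : G) {ζ : Qb} (hζ : ζ ^ p = 1) : σ ζ = ζ ^ cycloExp p σ := by
  haveI : NeZero p := ⟨(Fact.out : p.Prime).ne_zero⟩
  have hu : IsUnit ζ := IsUnit.of_pow_eq_one hζ (Fact.out : p.Prime).ne_zero
  obtain ⟨u, rfl⟩ := hu
  have hmem : u ∈ rootsOfUnity p Qb := by
    rw [mem_rootsOfUnity]
    exact Units.ext (by simpa using hζ)
  exact modularCyclotomicCharacter.spec Qb (card_rootsOfUnity_eq_self p)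
    (σ : Qb ≃+* Qb) hmem

theorem omega_eq_unit (σ : G) :
    haveI : NeZero p := ⟨(Fact.out : p.Prime).ne_zero⟩
    omega p σ = ((modularCyclotomicCharacter Qb (card_rootsOfUnity_eq_self p)
      (σ : Qb ≃+* Qb) : (ZMod p)ˣ) : ZMod p) := by
  haveI : NeZero p := ⟨(Fact.out : p.Prime).ne_zero⟩
  unfold omega cycloExp
  exact ZMod.natCast_zmod_val _

theorem omega_mul (σ τ : G) : omega p (σ * τ) = omega p σ * omega p τ := by
  haveI : NeZero p := ⟨(Fact.out : p.Prime).ne_zero⟩
  rw [omega_eq_unit, omega_eq_unit, omega_eq_unit, ← Units.val_mul, ← map_mul]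
  rfl

theorem omega_one : omega p (1 : G) = 1 := by
  haveI : NeZero p := ⟨(Fact.out : p.Prime).ne_zero⟩
  rw [omega_eq_unit]
  have : ((1 : G) : Qb ≃+* Qb) = 1 := rfl
  rw [this, map_one, Units.val_one]

theorem omega_isUnit (σ : G) : IsUnit (omega p σ) := by
  haveI : NeZero p := ⟨(Fact.out : p.Prime).ne_zero⟩
  rw [omega_eq_unit]
  exact Units.isUnit _

theorem omega_ne_zero (σ : G) : omega p σ ≠ 0 := (omega_isUnit p σ).ne_zero

theorem omega_inv (σ : G) : omega p σ⁻¹ = (omega p σ)⁻¹ := by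
  have h : omega p σ⁻¹ * omega p σ = 1 := by
    rw [← omega_mul, inv_mul_cancel, omega_one]
  exact eq_inv_of_mul_eq_one_left h

/-- Powers of a primitive `p`-th root of unity are determined by the exponent mod `p`. -/
theorem pow_eq_pow_iff_of_isPrimitiveRoot {ζ : Qb} (hζ : IsPrimitiveRoot ζ p) (a b : ℕ) :
    ζ ^ a = ζ ^ b ↔ (a : ZMod p) = (b : ZMod p) := by
  have hp : p.Prime := Fact.out
  rw [pow_eq_pow_mod a hζ.pow_eq_one, pow_eq_pow_mod b hζ.pow_eq_one,
    ZMod.natCast_eq_natCast_iff]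
  constructor
  · intro h
    exact hζ.pow_inj (Nat.mod_lt _ hp.pos) (Nat.mod_lt _ hp.pos) h
  · intro h
    rw [h]

theorem pow_eq_pow_of_natCast_eq {ζ : Qb} (hζ : ζ ^ p = 1) {a b : ℕ}
    (h : (a : ZMod p) = (b : ZMod p)) : ζ ^ a = ζ ^ b := by
  rw [pow_eq_pow_mod a hζ, pow_eq_pow_mod b hζ]
  rw [ZMod.natCast_eq_natCast_iff] at h
  rw [h]

/-- `ω σ = 1` iff `σ` fixes one (any) primitive `p`-th root of unity. -/
theorem omega_eq_one_iff (σ : G) {ζ : Qb} (hζ : IsPrimitiveRoot ζ p) :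
    omega p σ = 1 ↔ σ ζ = ζ := by
  rw [cycloExp_spec p σ hζ.pow_eq_one, omega_def]
  conv_lhs => rw [← Nat.cast_one (R := ZMod p)]
  rw [← pow_eq_pow_iff_of_isPrimitiveRoot p hζ, pow_one]

end Fermat.Agent.S14.H714

end
-- ===== PACK-END S14/H714/Basic.lean

-- ===== PACK-BEGIN S14/H714/Val.lean
section


/-!
# S14, block LOCAL (helper714): valuation subrings of `ℚ̄` and primes of `ℤ̄`

Dictionary between a valuation subring `A` of `ℚ̄` lying over a prime `ℓ` and the prime
`primeOf A = 𝔪_A ∩ ℤ̄` of the ring `ℤ̄` of all algebraic integers: `A` is the localisation of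
`ℤ̄` at `primeOf A`.
-/

set_option autoImplicit false
set_option linter.style.haveILetI false
set_option linter.unusedSectionVars false
set_option linter.unusedVariables false

namespace Fermat.Agent.S14.H714

open Polynomial
open scoped Pointwise

/-- The ring of all algebraic integers. -/
noncomputable abbrev Zbar := integralClosure ℤ Qb

instance instIsAlgebraicIntQb : Algebra.IsAlgebraic ℤ Qb :=
  (IsFractionRing.comap_isAlgebraic_iff (A := ℤ) (K := ℚ) (C := Qb)).mpr inferInstance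

theorem coe_smul_Zbar (σ : G) (x : Zbar) : ((σ • x : Zbar) : Qb) = σ (x : Qb) := rfl

/-- Algebraic integers lie in every valuation subring. -/
theorem mem_of_isIntegral (A : ValuationSubring Qb) {x : Qb} (hx : IsIntegral ℤ x) : x ∈ A := by
  have h : IsIntegral A x := hx.tower_top
  obtain ⟨y, hy⟩ := (IsIntegrallyClosed.isIntegral_iff (R := A) (K := Qb)).mp h
  rw [← hy]
  exact y.2

theorem coe_mem (A : ValuationSubring Qb) (b : Zbar) : (b : Qb) ∈ A := mem_of_isIntegral A b.2

theorem nonunits_mul_mem (A : ValuationSubring Qb) {m x : Qb} (hm : m ∈ A.nonunits)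
    (hx : x ∈ A) : m * x ∈ A.nonunits := by
  rw [ValuationSubring.mem_nonunits_iff] at hm ⊢
  rw [map_mul]
  have hx' := (A.valuation_le_one_iff x).mpr hx
  exact mul_lt_one_of_lt_of_le hm hx'

theorem inv_mem_of_not_mem_nonunits (A : ValuationSubring Qb) {s : Qb}
    (hs : s ∉ A.nonunits) : s ≠ 0 ∧ s⁻¹ ∈ A := by
  rw [ValuationSubring.mem_nonunits_iff_or] at hs
  push Not at hs
  exact hs

theorem one_not_mem_nonunits (A : ValuationSubring Qb) : (1 : Qb) ∉ A.nonunits := by
  rw [ValuationSubring.mem_nonunits_iff, map_one]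
  exact lt_irrefl _

theorem nonunits_add_mem (A : ValuationSubring Qb) {x y : Qb} (hx : x ∈ A.nonunits)
    (hy : y ∈ A.nonunits) : x + y ∈ A.nonunits := by
  rw [ValuationSubring.mem_nonunits_iff] at hx hy ⊢
  exact A.valuation.map_add_lt hx hy

theorem nonunits_neg_mem (A : ValuationSubring Qb) {x : Qb} (hx : x ∈ A.nonunits) :
    -x ∈ A.nonunits := by
  rw [ValuationSubring.mem_nonunits_iff] at hx ⊢
  rwa [Valuation.map_neg]

theorem nonunits_sub_mem (A : ValuationSubring Qb) {x y : Qb} (hx : x ∈ A.nonunits)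
    (hy : y ∈ A.nonunits) : x - y ∈ A.nonunits := by
  rw [sub_eq_add_neg]
  exact nonunits_add_mem A hx (nonunits_neg_mem A hy)

theorem mem_of_mem_nonunits (A : ValuationSubring Qb) {x : Qb} (hx : x ∈ A.nonunits) : x ∈ A := by
  rw [ValuationSubring.mem_nonunits_iff] at hx
  exact (A.valuation_le_one_iff x).mp hx.le

/-- The inclusion of the ring of algebraic integers into a valuation subring. -/
noncomputable def inclZ (A : ValuationSubring Qb) : Zbar →+* A where
  toFun b := ⟨(b : Qb), coe_mem A b⟩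
  map_one' := rfl
  map_mul' _ _ := rfl
  map_zero' := rfl
  map_add' _ _ := rfl

/-- The prime of `ℤ̄` cut out by the maximal ideal of the valuation subring `A`. -/
noncomputable def primeOf (A : ValuationSubring Qb) : Ideal Zbar :=
  (IsLocalRing.maximalIdeal A).comap (inclZ A)

instance primeOf_isPrime (A : ValuationSubring Qb) : (primeOf A).IsPrime :=
  Ideal.comap_isPrime _ _

theorem mem_primeOf {A : ValuationSubring Qb} {b : Zbar} :
    b ∈ primeOf A ↔ (b : Qb) ∈ A.nonunits := by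
  rw [primeOf, Ideal.mem_comap, ← ValuationSubring.coe_mem_nonunits_iff]
  rfl

/-- Key induction: if `x ∈ A` is a root of a polynomial over `ℤ̄` with some coefficient
outside `primeOf A`, then `x` is a fraction `b / s` with `b, s ∈ ℤ̄` and `s ∉ primeOf A`. -/
theorem exists_fraction_aux (A : ValuationSubring Qb) {x : Qb} (hx : x ∈ A) :
    ∀ (n : ℕ) (p : Zbar[X]), p.natDegree ≤ n → aeval x p = 0 → (∃ i, p.coeff i ∉ primeOf A) →
      ∃ b s : Zbar, s ∉ primeOf A ∧ x * (s : Qb) = (b : Qb) := by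
  intro n
  induction n with
  | zero =>
    intro p hp h0 ⟨i, hi⟩
    exfalso
    rw [eq_C_of_natDegree_le_zero hp, aeval_C] at h0
    have hc : p.coeff 0 = 0 := by
      have : ((p.coeff 0 : Zbar) : Qb) = 0 := h0
      exact Subtype.ext this
    apply hi
    rw [eq_C_of_natDegree_le_zero hp, coeff_C, hc]
    split_ifs <;> exact zero_mem _
  | succ n ih =>
    intro p hp h0 ⟨i, hi⟩
    by_cases hdeg : p.natDegree ≤ n
    · exact ih p hdeg h0 ⟨i, hi⟩
    have hdeg' : p.natDegree = n + 1 := le_antisymm hp (by omega)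
    have hint : IsIntegral ℤ (p.leadingCoeff • x) :=
      isIntegral_trans _ (isIntegral_leadingCoeff_smul p x h0)
    let y : Zbar := ⟨p.leadingCoeff • x, hint⟩
    have hy : (y : Qb) = (p.leadingCoeff : Qb) * x := rfl
    by_cases ha : p.leadingCoeff ∈ primeOf A
    · -- the leading coefficient is in the prime: lower the degree
      have hyQ : y ∈ primeOf A := by
        rw [mem_primeOf, hy]
        exact nonunits_mul_mem A (mem_primeOf.mp ha) hx
      let q : Zbar[X] := p.eraseLead + C y * X ^ n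
      have hqdeg : q.natDegree ≤ n := by
        refine (natDegree_add_le _ _).trans (max_le ?_ (natDegree_C_mul_X_pow_le _ _))
        have := eraseLead_natDegree_le p
        omega
      have hq0 : aeval x q = 0 := by
        have h1 : aeval x p = aeval x p.eraseLead + (p.leadingCoeff : Qb) * x ^ (n + 1) := by
          conv_lhs => rw [← eraseLead_add_C_mul_X_pow p]
          rw [map_add, map_mul, aeval_C, map_pow, aeval_X, hdeg']
          rfl
        have h2 : aeval x q = aeval x p.eraseLead + (y : Qb) * x ^ n := by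
          simp only [q]
          rw [map_add, map_mul, aeval_C, map_pow, aeval_X]
          rfl
        rw [h2, hy]
        rw [h0] at h1
        rw [h1]
        ring
      have hi' : i ≠ n + 1 := by
        rintro rfl
        apply hi
        rw [← hdeg']
        exact ha
      have hqi : q.coeff i ∉ primeOf A := by
        have hc : q.coeff i = p.coeff i + (if i = n then y else 0) := by
          simp only [q]
          rw [coeff_add, eraseLead_coeff_of_ne i (by rw [hdeg']; exact hi'), coeff_C_mul_X_pow]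
        rw [hc]
        split_ifs with hin
        · intro h
          apply hi
          have := sub_mem h hyQ
          simpa using this
        · simpa using hi
      exact ih q hqdeg hq0 ⟨i, hqi⟩
    · exact ⟨y, p.leadingCoeff, ha, by rw [hy, mul_comm]⟩

/-- An integer prime to `ℓ` is a unit in a valuation subring above `ℓ`. -/
theorem intCast_not_mem_nonunits (A : ValuationSubring Qb) {ℓ : ℕ} (hℓ : ℓ.Prime)
    (hA : (ℓ : Qb) ∈ A.nonunits) {n : ℤ} (hn : ¬ (ℓ : ℤ) ∣ n) : (n : Qb) ∉ A.nonunits := by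
  intro hmem
  have hcop : IsCoprime (ℓ : ℤ) n := (Nat.prime_iff_prime_int.mp hℓ).coprime_iff_not_dvd.mpr hn
  obtain ⟨u, v, huv⟩ := hcop
  apply one_not_mem_nonunits A
  have h1 : ((u * (ℓ : ℤ) + v * n : ℤ) : Qb) = 1 := by
    rw [huv]
    simp
  rw [← h1]
  push_cast
  refine nonunits_add_mem A ?_ ?_
  · rw [mul_comm]
    exact nonunits_mul_mem A hA (intCast_mem A u)
  · rw [mul_comm]
    exact nonunits_mul_mem A hmem (intCast_mem A v)

/-- Every element of a valuation subring `A` of `ℚ̄` above `ℓ` is a fraction `b / s` of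
algebraic integers with `s` a unit of `A`. -/
theorem exists_fraction (A : ValuationSubring Qb) {ℓ : ℕ} (hℓ : ℓ.Prime)
    (hA : (ℓ : Qb) ∈ A.nonunits) {x : Qb} (hx : x ∈ A) :
    ∃ b s : Zbar, s ∉ primeOf A ∧ x * (s : Qb) = (b : Qb) := by
  obtain ⟨p, hp0, hp⟩ := Algebra.IsAlgebraic.isAlgebraic (R := ℤ) x
  have hprim := p.isPrimitive_primPart
  have hroot : aeval x p.primPart = 0 := aeval_primPart_eq_zero hp0 hp
  have hex : ∃ i, ¬ ((ℓ : ℤ) ∣ p.primPart.coeff i) := by
    by_contra hcon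
    push Not at hcon
    have := hprim (ℓ : ℤ) ((C_dvd_iff_dvd_coeff _ _).mpr hcon)
    exact (Nat.prime_iff_prime_int.mp hℓ).not_isUnit this
  obtain ⟨i, hi⟩ := hex
  refine exists_fraction_aux A hx _ (p.primPart.map (algebraMap ℤ Zbar)) le_rfl ?_ ⟨i, ?_⟩
  · rw [aeval_map_algebraMap]
    exact hroot
  · rw [coeff_map, mem_primeOf]
    intro hmem
    have hmem' : ((p.primPart.coeff i : ℤ) : Qb) ∈ A.nonunits := by
      simpa using hmem
    exact intCast_not_mem_nonunits A hℓ hA hi hmem'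

/-- A ring automorphism mapping units (among algebraic integers) of `A` to units of `A'`
maps `A` into `A'`. -/
theorem map_mem_of_forall (A A' : ValuationSubring Qb) {ℓ : ℕ} (hℓ : ℓ.Prime)
    (hA : (ℓ : Qb) ∈ A.nonunits) (τ : G)
    (hτ : ∀ s : Zbar, s ∉ primeOf A → τ • s ∉ primeOf A') {x : Qb} (hx : x ∈ A) :
    τ x ∈ A' := by
  obtain ⟨b, s, hs, hxs⟩ := exists_fraction A hℓ hA hx
  have hτs := hτ s hs
  rw [mem_primeOf, coe_smul_Zbar] at hτs
  obtain ⟨hne, hinv⟩ := inv_mem_of_not_mem_nonunits A' hτs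
  have h1 : τ x * τ (s : Qb) = τ (b : Qb) := by rw [← map_mul, hxs]
  have h2 : τ x = τ (b : Qb) * (τ (s : Qb))⁻¹ := by
    rw [← h1, mul_assoc, mul_inv_cancel₀ hne, mul_one]
  rw [h2]
  exact A'.mul_mem _ _ (coe_mem A' (τ • b)) hinv

/-- If `τ` maps the prime of `A'` onto the prime of `A`, it maps `A'` onto `A`. -/
theorem smul_eq_of_primeOf (A A' : ValuationSubring Qb) {ℓ : ℕ} (hℓ : ℓ.Prime)
    (hA : (ℓ : Qb) ∈ A.nonunits) (hA' : (ℓ : Qb) ∈ A'.nonunits) (τ : G)
    (hτ : ∀ s : Zbar, s ∈ primeOf A' ↔ τ • s ∈ primeOf A) : τ • A' = A := by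
  apply le_antisymm
  · intro x hx
    rw [ValuationSubring.mem_pointwise_smul_iff_inv_smul_mem] at hx
    have h5 := map_mem_of_forall A' A hℓ hA' τ (fun s hs h => hs ((hτ s).mpr h)) hx
    have h6 : τ (τ⁻¹ • x) = x := by
      show τ (τ⁻¹ x) = x
      exact τ.apply_symm_apply x
    rwa [h6] at h5
  · intro x hx
    rw [ValuationSubring.mem_pointwise_smul_iff_inv_smul_mem]
    refine map_mem_of_forall A A' hℓ hA τ⁻¹ (fun s hs h => hs ?_) hx
    have := (hτ (τ⁻¹ • s)).mp h
    rwa [smul_inv_smul] at this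

/-- Conversely a `τ` mapping `A'` onto `A` maps the prime of `A'` onto the prime of `A`. -/
theorem mem_primeOf_smul_iff {A A' : ValuationSubring Qb} {τ : G} (h : τ • A' = A) (s : Zbar) :
    s ∈ primeOf A' ↔ τ • s ∈ primeOf A := by
  rw [mem_primeOf, mem_primeOf, coe_smul_Zbar]
  have key : ∀ x : Qb, x ∈ A' ↔ τ x ∈ A := by
    intro x
    rw [← h, ValuationSubring.mem_pointwise_smul_iff_inv_smul_mem]
    have : τ⁻¹ • τ x = x := by
      show τ⁻¹ (τ x) = x
      exact τ.symm_apply_apply x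
    rw [this]
  rw [ValuationSubring.mem_nonunits_iff_or, ValuationSubring.mem_nonunits_iff_or, key,
    map_inv₀]
  simp

/-- A valuation subring of `ℚ̄` is either everything, or lies over a prime number. -/
theorem eq_top_or_liesOver (A : ValuationSubring Qb) :
    A = ⊤ ∨ ∃ ℓ : ℕ, ℓ.Prime ∧ (ℓ : Qb) ∈ A.nonunits := by
  by_cases h : ∃ ℓ : ℕ, ℓ.Prime ∧ (ℓ : Qb) ∈ A.nonunits
  · exact Or.inr h
  left
  push Not at h
  -- every nonzero natural number is a unit of `A`
  have hnat : ∀ n : ℕ, n ≠ 0 → ((n : Qb))⁻¹ ∈ A := by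
    intro n
    induction n using Nat.recOnMul with
    | zero => intro h0; exact absurd rfl h0
    | one => intro _; simp
    | prime ℓ hℓ =>
      intro _
      exact (inv_mem_of_not_mem_nonunits A (h ℓ hℓ)).2
    | mul a b iha ihb =>
      intro hab
      have ha : a ≠ 0 := left_ne_zero_of_mul hab
      have hb : b ≠ 0 := right_ne_zero_of_mul hab
      rw [Nat.cast_mul, mul_inv]
      exact A.mul_mem _ _ (iha ha) (ihb hb)
  have hrat : ∀ q : ℚ, (algebraMap ℚ Qb q) ∈ A := by
    intro q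
    have hq : algebraMap ℚ Qb q = (q.num : Qb) * ((q.den : Qb))⁻¹ := by
      conv_lhs => rw [← Rat.num_div_den q]
      rw [map_div₀, div_eq_mul_inv]
      simp
    rw [hq]
    exact A.mul_mem _ _ (intCast_mem A _) (hnat q.den q.den_nz)
  rw [eq_top_iff]
  intro x _
  -- `x` is integral over `ℚ ⊆ A`
  have hint : IsIntegral ℚ x := Algebra.IsIntegral.isIntegral x
  obtain ⟨P, hP, hroot⟩ := hint
  have h : IsIntegral A x := by
    refine ⟨P.map (RingHom.codRestrict (algebraMap ℚ Qb) A.toSubring hrat), hP.map _, ?_⟩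
    rw [eval₂_map]
    have : (A.subtype : A →+* Qb).comp (RingHom.codRestrict (algebraMap ℚ Qb) A.toSubring hrat) =
        algebraMap ℚ Qb := rfl
    have h2 : (algebraMap A Qb) = (A.subtype : A →+* Qb) := rfl
    rw [h2, this]
    exact hroot
  obtain ⟨y, hy⟩ := (IsIntegrallyClosed.isIntegral_iff (R := A) (K := Qb)).mp h
  rw [← hy]
  exact y.2

end Fermat.Agent.S14.H714

end
-- ===== PACK-END S14/H714/Val.lean

-- ===== PACK-BEGIN S14/H937/Lift.lean
section



/-!
# Lifting decomposition-group elements along a closed normal subgroup of a profinite group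

Companion of `Fermat.Agent.S13.H175.exists_inertia_lift` (helper175): `G` profinite acting
continuously on a discrete commutative ring `B`, `N` a closed normal subgroup, `Q` a prime of `B`.
If `g₀ ∈ G` stabilises `Q ∩ B^N` then some `σ ∈ g₀ N` stabilises `Q`.
-/

set_option autoImplicit false

open scoped Pointwise

namespace Fermat.Agent.S14.H937

universe u

variable {B : Type*} [CommRing B]
variable {G : Type u} [Group G] [MulSemiringAction G B]
variable [TopologicalSpace G] [CompactSpace G] [TotallyDisconnectedSpace G]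
variable [IsTopologicalGroup G] [TopologicalSpace B] [DiscreteTopology B] [ContinuousSMul G B]

theorem exists_stabilizer_lift (N : Subgroup G) [hn : N.Normal] (hN : IsClosed (N : Set G))
    (Q : Ideal B) [hQ : Q.IsPrime] (g₀ : G)
    (h₀ : ∀ x : B, (∀ n ∈ N, n • x = x) → (g₀ • x ∈ Q ↔ x ∈ Q)) :
    ∃ σ : G, g₀⁻¹ * σ ∈ N ∧ σ • Q = Q := by
  have : CompactSpace N := isCompact_iff_compactSpace.mp hN.isCompact
  have := Fermat.Agent.S13.H175.isInvariant_fixedPoints (B := B) N
  have hunder : (g₀ • Q).under (FixedPoints.subalgebra ℤ B N) =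
      Q.under (FixedPoints.subalgebra ℤ B N) := by
    ext ⟨x, hx⟩
    have hx' : ∀ n ∈ N, n • x = x := fun n hn' => hx ⟨n, hn'⟩
    simp only [Ideal.mem_comap]
    show x ∈ g₀ • Q ↔ x ∈ Q
    rw [Ideal.mem_pointwise_smul_iff_inv_smul_mem]
    have hy : ∀ n ∈ N, n • (g₀⁻¹ • x) = g₀⁻¹ • x :=
      Fermat.Agent.S13.H175.smul_mem_fixedPoints N g₀⁻¹ hx'
    have h1 := h₀ _ hy
    rw [smul_inv_smul] at h1
    exact h1.symm
  obtain ⟨n, hn1⟩ := Algebra.IsInvariant.exists_smul_of_under_eq_of_profinite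
    (A := FixedPoints.subalgebra ℤ B N) (G := N) (g₀ • Q) Q hunder
  refine ⟨(n : G) * g₀, ?_, ?_⟩
  · have h2 := hn.conj_mem _ n.2 g₀⁻¹
    simpa [mul_assoc] using h2
  · rw [mul_smul]
    exact hn1.symm

end Fermat.Agent.S14.H937

end
-- ===== PACK-END S14/H937/Lift.lean

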