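import Fermat.Prelude.Def_FLTPrelim_GaloisRep
import Fermat.Prelude.Def_AlgebraicCurve_CanonicalDivisor
import Mathlib.Analysis.Analytic.Order
import Mathlib.Analysis.Complex.Periodic
import Mathlib.Analysis.Complex.UpperHalfPlane.Basic
import Mathlib.Analysis.Normed.Ring.InfiniteSum
import Mathlib.Analysis.SpecificLimits.Normed
import Mathlib
import Fermat.Prelude.Def_AlgebraicCurve_Correspondence
import Mathlib.GroupTheory.Index
import Mathlib.SetTheory.Cardinal.NatCard
import Mathlib.SetTheory.Cardinal.Finite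
import Mathlib.Data.Nat.Factorization.Induction
import Mathlib.Algebra.Squarefree.Basic
import Mathlib.Data.Nat.Squarefree
import Fermat.Prelude.Def_ModularCurve_X0ModL
import Fermat.Prelude.Def_ModularCurve_X0
import Mathlib.RingTheory.Finiteness.Basic
import Mathlib.LinearAlgebra.Quotient.Basic
import Fermat.Prelude.Def_GaloisRep_Residual
import Fermat.Prelude.Def_AlgebraicCurve_DivisorClassGroup
import Fermat.Prelude.Def_ModularCurve_ReductionModL
import Mathlib.FieldTheory.PrimitiveElement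
import Mathlib.FieldTheory.IsAlgClosed.AlgebraicClosure
import Mathlib.RingTheory.Norm.Transitivity
import Mathlib.Algebra.Polynomial.Lifts
import Fermat.Prelude.Def_GaloisRep_DeformationRingData
import Fermat.Prelude.Def_GaloisRep_DeformationCondition
import Fermat.Prelude.Def_GaloisRep_LocalConditions
import Fermat.Prelude.Def_GaloisRep_StrictOrdinary
import Fermat.Prelude.Def_GaloisRep_Flat
import Fermat.Prelude.Def_ModularCurve_IgusaScheme
import Fermat.Prelude.Def_FLTPrelim_Ramification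
import Fermat.Agent.Pack.S15.AE0L3
import Fermat.Agent.Pack.S15.AE0L1
import Fermat.Agent.Pack.S15.AE0L2
import Fermat.Agent.Pack.S15.AE0L0

-- ===== PACK-BEGIN S05/GoodRed.lean
section



/-!
# S05: inertia fixes torsion points with nonsingular reduction (abstract form)
-/

set_option autoImplicit false
set_option linter.unusedSectionVars false
set_option linter.unusedVariables false

namespace Fermat.Agent.S05.GoodRed

open WeierstrassCurve WeierstrassCurve.Affine Fermat.Agent.S05.SameRed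

section general

variable {K : Type*} [Field K] [DecidableEq K]
  {Γ₀ : Type*} [LinearOrderedCommGroupWithZero Γ₀]
  {W : Affine K} {v : Valuation K Γ₀}

/-- On a curve with integral coefficients, a point with integral `x` has integral `y`. -/
lemma val_y_le_one (hW : IntegralCoeffs W v) {x y : K} (h : W.Equation x y) (hx : v x ≤ 1) :
    v y ≤ 1 := by
  by_contra hy
  rw [not_le] at hy
  have e := (Affine.equation_iff x y).mp h
  have hy0 : 0 < v y := lt_trans zero_lt_one hy
  have h2 : v y < v (y ^ 2) := by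
    rw [map_pow, pow_two]; exact lt_mul_of_one_lt_left hy0 hy
  have h3 : v (W.a₁ * x * y + W.a₃ * y) ≤ v y := by
    have : W.a₁ * x * y + W.a₃ * y = (W.a₁ * x + W.a₃) * y := by ring
    rw [this, map_mul]
    exact mul_le_of_le_one_left' (val_add_le_one (val_mul_le_one hW.a₁ hx) hW.a₃)
  have h4 : v (y ^ 2 + W.a₁ * x * y + W.a₃ * y) = v (y ^ 2) := by
    rw [add_assoc]; exact v.map_add_eq_of_lt_left (h3.trans_lt h2)
  have h5 : v (x ^ 3 + W.a₂ * x ^ 2 + W.a₄ * x + W.a₆) ≤ 1 := by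
    have hx2 : v (x ^ 2) ≤ 1 := by rw [pow_two]; exact val_mul_le_one hx hx
    have hx3 : v (x ^ 3) ≤ 1 := by
      have : x ^ 3 = x ^ 2 * x := by ring
      rw [this]; exact val_mul_le_one hx2 hx
    exact val_add_le_one (val_add_le_one (val_add_le_one hx3 (val_mul_le_one hW.a₂ hx2))
      (val_mul_le_one hW.a₄ hx)) hW.a₆
  rw [e] at h4
  rw [h4] at h5
  exact absurd (hy.trans h2) (not_lt.mpr h5)

/-- The discriminant lies in the ideal generated by `a₃, a₄, a₆`. -/
lemma Δ_eq_a₃_a₄_a₆ {R : Type*} [CommRing R] (W : WeierstrassCurve R) :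
    W.Δ = W.a₃ * (-W.b₂ ^ 2 * (-W.a₁ * W.a₄ + W.a₂ * W.a₃) - 8 * W.b₄ ^ 2 * W.a₁
        - 27 * W.a₃ * W.b₆ + 9 * W.b₂ * W.b₆ * W.a₁)
      + W.a₄ * (W.b₂ ^ 2 * W.a₄ - 16 * W.b₄ ^ 2 + 18 * W.b₂ * W.b₆)
      + W.a₆ * (-W.b₂ ^ 3 - 108 * W.b₆) := by
  simp only [WeierstrassCurve.Δ, WeierstrassCurve.b₂, WeierstrassCurve.b₄, WeierstrassCurve.b₆,
    WeierstrassCurve.b₈]
  ring

/-- If the discriminant is a unit, every integral point has nonsingular reduction. -/
theorem nonsingular_reduction_of_val_Δ (hW : IntegralCoeffs W v) (hΔ : v W.Δ = 1) {x y : K}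
    (h : W.Equation x y) (hx : v x ≤ 1) :
    v (W.a₁ * y - (3 * x ^ 2 + 2 * W.a₂ * x + W.a₄)) = 1 ∨
      v (2 * y + W.a₁ * x + W.a₃) = 1 := by
  have hy : v y ≤ 1 := val_y_le_one hW h hx
  -- work in the subring of integers
  let O : Subring K := v.integer
  have mO : ∀ {t : K}, t ∈ O ↔ v t ≤ 1 := Iff.rfl
  have hxO : x ∈ O := hx
  have hyO : y ∈ O := hy
  have h1O : W.a₁ ∈ O := hW.a₁
  have h2O : W.a₂ ∈ O := hW.a₂
  have h3O : W.a₃ ∈ O := hW.a₃
  have h4O : W.a₄ ∈ O := hW.a₄
  have h6O : W.a₆ ∈ O := hW.a₆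
  have hX : v (W.a₁ * y - (3 * x ^ 2 + 2 * W.a₂ * x + W.a₄)) ≤ 1 := by
    change _ ∈ O
    exact sub_mem (mul_mem h1O hyO) (add_mem (add_mem (mul_mem (ofNat_mem O 3) (pow_mem hxO 2))
      (mul_mem (mul_mem (ofNat_mem O 2) h2O) hxO)) h4O)
  have hY : v (2 * y + W.a₁ * x + W.a₃) ≤ 1 := by
    change _ ∈ O
    exact add_mem (add_mem (mul_mem (ofNat_mem O 2) hyO) (mul_mem h1O hxO)) h3O
  by_contra hcon
  rw [not_or] at hcon
  have hX' : v (W.a₁ * y - (3 * x ^ 2 + 2 * W.a₂ * x + W.a₄)) < 1 := lt_of_le_of_ne hX hcon.1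
  have hY' : v (2 * y + W.a₁ * x + W.a₃) < 1 := lt_of_le_of_ne hY hcon.2
  -- translated curve
  set W' : WeierstrassCurve K := VariableChange.mk 1 x 0 y • W with hW'
  have hΔ' : W'.Δ = W.Δ := by
    rw [hW', variableChange_Δ]; simp
  have ha₁ : W'.a₁ = W.a₁ := by rw [hW', variableChange_a₁]; simp
  have ha₂ : W'.a₂ = W.a₂ + 3 * x := by rw [hW', variableChange_a₂]; simp
  have ha₃ : W'.a₃ = 2 * y + W.a₁ * x + W.a₃ := by rw [hW', variableChange_a₃]; simp; ring
  have ha₄ : W'.a₄ = -(W.a₁ * y - (3 * x ^ 2 + 2 * W.a₂ * x + W.a₄)) := by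
    rw [hW', variableChange_a₄]; simp; ring
  have ha₆ : W'.a₆ = 0 := by
    rw [hW', variableChange_a₆]; simp
    have e := (Affine.equation_iff x y).mp h
    linear_combination -e
  have h1O' : W'.a₁ ∈ O := by rw [ha₁]; exact h1O
  have h2O' : W'.a₂ ∈ O := by rw [ha₂]; exact add_mem h2O (mul_mem (ofNat_mem O 3) hxO)
  have h3O' : W'.a₃ ∈ O := by rw [ha₃]; exact hY
  have h4O' : W'.a₄ ∈ O := by rw [ha₄]; exact neg_mem hX
  have hb₂ : W'.b₂ ∈ O := by
    simp only [WeierstrassCurve.b₂]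
    exact add_mem (pow_mem h1O' 2) (mul_mem (ofNat_mem O 4) h2O')
  have hb₄ : W'.b₄ ∈ O := by
    simp only [WeierstrassCurve.b₄]
    exact add_mem (mul_mem (ofNat_mem O 2) h4O') (mul_mem h1O' h3O')
  have hb₆ : W'.b₆ ∈ O := by
    simp only [WeierstrassCurve.b₆, ha₆]
    exact add_mem (pow_mem h3O' 2) (mul_mem (ofNat_mem O 4) (zero_mem O))
  have hP : (-W'.b₂ ^ 2 * (-W'.a₁ * W'.a₄ + W'.a₂ * W'.a₃) - 8 * W'.b₄ ^ 2 * W'.a₁
        - 27 * W'.a₃ * W'.b₆ + 9 * W'.b₂ * W'.b₆ * W'.a₁) ∈ O := by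
    refine add_mem (sub_mem (sub_mem (mul_mem (neg_mem (pow_mem hb₂ 2))
      (add_mem (mul_mem (neg_mem h1O') h4O') (mul_mem h2O' h3O')))
      (mul_mem (mul_mem (ofNat_mem O 8) (pow_mem hb₄ 2)) h1O'))
      (mul_mem (mul_mem (ofNat_mem O 27) h3O') hb₆))
      (mul_mem (mul_mem (mul_mem (ofNat_mem O 9) hb₂) hb₆) h1O')
  have hQ : (W'.b₂ ^ 2 * W'.a₄ - 16 * W'.b₄ ^ 2 + 18 * W'.b₂ * W'.b₆) ∈ O := by
    refine add_mem (sub_mem (mul_mem (pow_mem hb₂ 2) h4O')
      (mul_mem (ofNat_mem O 16) (pow_mem hb₄ 2)))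
      (mul_mem (mul_mem (ofNat_mem O 18) hb₂) hb₆)
  have hlt : v W'.Δ < 1 := by
    rw [Δ_eq_a₃_a₄_a₆ W', ha₆, zero_mul, add_zero]
    refine val_add_lt_one (val_mul_lt_one_left ?_ hP) (val_mul_lt_one_left ?_ hQ)
    · rw [ha₃]; exact hY'
    · rw [ha₄, Valuation.map_neg]; exact hX'
  rw [hΔ', hΔ] at hlt
  exact lt_irrefl _ hlt

end general

section galois

variable {R S K : Type*} [CommRing R] [CommRing S] [Field K] [DecidableEq K]
  [Algebra R S] [Algebra R K] [Algebra S K] [IsScalarTower R S K]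
  {Γ₀ : Type*} [LinearOrderedCommGroupWithZero Γ₀]
  {W' : Affine R} {v : Valuation K Γ₀}

lemma smul_some (σ : K ≃ₐ[S] K) {x y : K} (h : (W'⁄K).Nonsingular x y) :
    σ • Point.some x y h = Point.some (σ x) (σ y)
      ((W'.baseChange_nonsingular σ.toAlgHom.injective x y).mpr h) :=
  rfl

lemma val_apply_le_one {σ : K ≃ₐ[S] K} (hσ : ∀ t : K, v t ≤ 1 → v (σ t - t) < 1) {t : K}
    (ht : v t ≤ 1) : v (σ t) ≤ 1 := by
  have : σ t = (σ t - t) + t := by ring
  rw [this]
  exact val_add_le_one (hσ t ht).le ht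

/-- **Inertia fixes torsion points with nonsingular reduction.**
`hσ` says that `σ` acts trivially on the residue field; `hC1` says that the kernel of reduction
has no `n`-torsion. -/
theorem smul_eq_self_of_nonsingular_reduction (hW : IntegralCoeffs (W'⁄K) v)
    (σ : K ≃ₐ[S] K) (hσ : ∀ t : K, v t ≤ 1 → v (σ t - t) < 1) (n : ℤ)
    (hC1 : ∀ Q : (W'⁄K).Point, InKer (W'⁄K) v Q → n • Q = 0 → Q = 0)
    {x y : K} (h : (W'⁄K).Nonsingular x y) (hx : v x ≤ 1)
    (hns : v ((W'⁄K).a₁ * y - (3 * x ^ 2 + 2 * (W'⁄K).a₂ * x + (W'⁄K).a₄)) = 1 ∨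
      v (2 * y + (W'⁄K).a₁ * x + (W'⁄K).a₃) = 1)
    (hP : n • Point.some x y h = 0) :
    σ • Point.some x y h = Point.some x y h := by
  have hy : v y ≤ 1 := val_y_le_one hW h.1 hx
  have hker : InKer (W'⁄K) v (Point.some x y h - σ • Point.some x y h) := by
    rw [smul_some]
    refine inKer_sub_of_same_reduction hW h _ hx hy (val_apply_le_one hσ hx)
      (val_apply_le_one hσ hy) ?_ ?_ hns
    · rw [← Valuation.map_neg, neg_sub]; exact hσ x hx
    · rw [← Valuation.map_neg, neg_sub]; exact hσ y hy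
  have hn : n • (Point.some x y h - σ • Point.some x y h) = 0 := by
    rw [smul_sub, ← Point.algEquiv_smul_zsmul, hP, smul_zero, sub_zero]
  have := hC1 _ hker hn
  exact (sub_eq_zero.mp this).symm

/-- **Good reduction case**: if the discriminant is a `v`-unit, `σ` acts trivially on the residue
field and the kernel of reduction has no `n`-torsion, then `σ` fixes every `n`-torsion point. -/
theorem smul_eq_self_of_good_reduction (hW : IntegralCoeffs (W'⁄K) v)
    (hΔ : v (W'⁄K).Δ = 1)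
    (σ : K ≃ₐ[S] K) (hσ : ∀ t : K, v t ≤ 1 → v (σ t - t) < 1) (n : ℤ)
    (hC1 : ∀ Q : (W'⁄K).Point, InKer (W'⁄K) v Q → n • Q = 0 → Q = 0)
    (P : (W'⁄K).Point) (hP : n • P = 0) : σ • P = P := by
  rcases P with _ | ⟨x, y, h⟩
  · exact smul_zero σ
  · have hx : v x ≤ 1 := by
      by_contra hx
      rw [not_le] at hx
      exact Point.some_ne_zero h (hC1 _ ((inKer_some h).mpr hx) hP)
    exact smul_eq_self_of_nonsingular_reduction hW σ hσ n hC1 h hx
      (nonsingular_reduction_of_val_Δ hW hΔ h.1 hx) hP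

end galois

end Fermat.Agent.S05.GoodRed

end
-- ===== PACK-END S05/GoodRed.lean

-- ===== PACK-BEGIN Lib/Red/H290/RedCurve.lean
section




/-!
# Reduction of a Weierstrass curve with integral coefficients (S52 piece A1b, part 2)

`IsRedOf A φ W Wκ`: the coefficients of `W : Affine K` lie in `A` and reduce (under
`rd A φ`) to those of `Wκ : Affine κ`.  We show that the polynomial expressions of the group law
(`negY`, `addX`, `addY`, the equation, the nonsingularity condition) commute with reduction.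
-/

set_option autoImplicit false

namespace Fermat.Agent.Lib.Red.H290

open WeierstrassCurve WeierstrassCurve.Affine
open Fermat.Agent.S05.SameRed (IntegralCoeffs InKer)

variable {K : Type*} [Field K] {κ : Type*} [Field κ]

/-- `Wκ` is the reduction of `W` along `φ : A →+* κ`. -/
structure IsRedOf (A : ValuationSubring K) (φ : A →+* κ) (W : Affine K) (Wκ : Affine κ) :
    Prop where
  m₁ : W.a₁ ∈ A
  m₂ : W.a₂ ∈ A
  m₃ : W.a₃ ∈ A
  m₄ : W.a₄ ∈ A
  m₆ : W.a₆ ∈ A
  a₁ : rd A φ W.a₁ = Wκ.a₁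
  a₂ : rd A φ W.a₂ = Wκ.a₂
  a₃ : rd A φ W.a₃ = Wκ.a₃
  a₄ : rd A φ W.a₄ = Wκ.a₄
  a₆ : rd A φ W.a₆ = Wκ.a₆

variable {A : ValuationSubring K} {φ : A →+* κ} {W : Affine K} {Wκ : Affine κ}

lemma IsRedOf.integralCoeffs (h : IsRedOf A φ W Wκ) : IntegralCoeffs W A.valuation :=
  ⟨val_le_of_mem h.m₁, val_le_of_mem h.m₂, val_le_of_mem h.m₃, val_le_of_mem h.m₄,
    val_le_of_mem h.m₆⟩

/-- The reduction of a curve over `A` itself. -/
lemma isRedOf_map (W₀ : WeierstrassCurve A) :
    IsRedOf A φ (W₀.map (algebraMap A K)).toAffine (W₀.map φ).toAffine where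
  m₁ := W₀.a₁.2
  m₂ := W₀.a₂.2
  m₃ := W₀.a₃.2
  m₄ := W₀.a₄.2
  m₆ := W₀.a₆.2
  a₁ := rd_coe W₀.a₁
  a₂ := rd_coe W₀.a₂
  a₃ := rd_coe W₀.a₃
  a₄ := rd_coe W₀.a₄
  a₆ := rd_coe W₀.a₆

/-- Lifting data: the coefficients as elements of `A`. -/
lemma IsRedOf.exists_lift (h : IsRedOf A φ W Wκ) :
    ∃ c₁ c₂ c₃ c₄ c₆ : A, (c₁ : K) = W.a₁ ∧ (c₂ : K) = W.a₂ ∧ (c₃ : K) = W.a₃ ∧
      (c₄ : K) = W.a₄ ∧ (c₆ : K) = W.a₆ ∧ φ c₁ = Wκ.a₁ ∧ φ c₂ = Wκ.a₂ ∧ φ c₃ = Wκ.a₃ ∧
      φ c₄ = Wκ.a₄ ∧ φ c₆ = Wκ.a₆ :=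
  ⟨⟨_, h.m₁⟩, ⟨_, h.m₂⟩, ⟨_, h.m₃⟩, ⟨_, h.m₄⟩, ⟨_, h.m₆⟩, rfl, rfl, rfl, rfl, rfl,
    by rw [← h.a₁, rd_of_mem h.m₁], by rw [← h.a₂, rd_of_mem h.m₂],
    by rw [← h.a₃, rd_of_mem h.m₃], by rw [← h.a₄, rd_of_mem h.m₄],
    by rw [← h.a₆, rd_of_mem h.m₆]⟩

lemma coe_two : (((2 : A) : K)) = 2 := rfl
lemma coe_three : (((3 : A) : K)) = 3 := rfl

section poly

variable (h : IsRedOf A φ W Wκ)
include h

lemma negY_mem {x y : K} (hx : x ∈ A) (hy : y ∈ A) : W.negY x y ∈ A := by
  simp only [Affine.negY]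
  exact A.sub_mem (A.sub_mem (A.neg_mem _ hy) (A.mul_mem _ _ h.m₁ hx)) h.m₃

lemma rd_negY {x y : K} (hx : x ∈ A) (hy : y ∈ A) :
    rd A φ (W.negY x y) = Wκ.negY (rd A φ x) (rd A φ y) := by
  obtain ⟨c₁, c₂, c₃, c₄, c₆, e₁, e₂, e₃, e₄, e₆, f₁, f₂, f₃, f₄, f₆⟩ := h.exists_lift
  lift x to A using hx
  lift y to A using hy
  simp only [Affine.negY, ← e₁, ← e₃, ← f₁, ← f₃]
  have : (-(y : K) - c₁ * x - c₃) = ((-y - c₁ * x - c₃ : A) : K) := by push_cast; rfl
  rw [this, rd_coe, rd_coe, rd_coe]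
  simp only [map_sub, map_neg, map_mul]

lemma addX_mem {x₁ x₂ ℓ : K} (hx₁ : x₁ ∈ A) (hx₂ : x₂ ∈ A) (hℓ : ℓ ∈ A) :
    W.addX x₁ x₂ ℓ ∈ A := by
  simp only [Affine.addX]
  exact A.sub_mem (A.sub_mem (A.sub_mem (A.add_mem _ _ (pow_mem hℓ 2) (A.mul_mem _ _ h.m₁ hℓ))
    h.m₂) hx₁) hx₂

lemma rd_addX {x₁ x₂ ℓ : K} (hx₁ : x₁ ∈ A) (hx₂ : x₂ ∈ A) (hℓ : ℓ ∈ A) :
    rd A φ (W.addX x₁ x₂ ℓ) = Wκ.addX (rd A φ x₁) (rd A φ x₂) (rd A φ ℓ) := by
  obtain ⟨c₁, c₂, c₃, c₄, c₆, e₁, e₂, e₃, e₄, e₆, f₁, f₂, f₃, f₄, f₆⟩ := h.exists_lift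
  lift x₁ to A using hx₁
  lift x₂ to A using hx₂
  lift ℓ to A using hℓ
  simp only [Affine.addX, ← e₁, ← e₂, ← f₁, ← f₂]
  have : ((ℓ : K) ^ 2 + c₁ * ℓ - c₂ - x₁ - x₂) = ((ℓ ^ 2 + c₁ * ℓ - c₂ - x₁ - x₂ : A) : K) := by
    push_cast; rfl
  rw [this, rd_coe, rd_coe, rd_coe, rd_coe]
  simp only [map_sub, map_add, map_mul, map_pow]

lemma negAddY_mem {x₁ x₂ y₁ ℓ : K} (hx₁ : x₁ ∈ A) (hx₂ : x₂ ∈ A) (hy₁ : y₁ ∈ A) (hℓ : ℓ ∈ A) :
    W.negAddY x₁ x₂ y₁ ℓ ∈ A := by
  simp only [Affine.negAddY]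
  exact A.add_mem _ _ (A.mul_mem _ _ hℓ (A.sub_mem (addX_mem h hx₁ hx₂ hℓ) hx₁)) hy₁

lemma rd_negAddY {x₁ x₂ y₁ ℓ : K} (hx₁ : x₁ ∈ A) (hx₂ : x₂ ∈ A) (hy₁ : y₁ ∈ A) (hℓ : ℓ ∈ A) :
    rd A φ (W.negAddY x₁ x₂ y₁ ℓ) =
      Wκ.negAddY (rd A φ x₁) (rd A φ x₂) (rd A φ y₁) (rd A φ ℓ) := by
  simp only [Affine.negAddY]
  have hX := addX_mem h hx₁ hx₂ hℓ
  rw [rd_add (A.mul_mem _ _ hℓ (A.sub_mem hX hx₁)) hy₁, rd_mul hℓ (A.sub_mem hX hx₁),
    rd_sub hX hx₁, rd_addX h hx₁ hx₂ hℓ]

lemma addY_mem {x₁ x₂ y₁ ℓ : K} (hx₁ : x₁ ∈ A) (hx₂ : x₂ ∈ A) (hy₁ : y₁ ∈ A) (hℓ : ℓ ∈ A) :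
    W.addY x₁ x₂ y₁ ℓ ∈ A := by
  simp only [Affine.addY]
  exact negY_mem h (addX_mem h hx₁ hx₂ hℓ) (negAddY_mem h hx₁ hx₂ hy₁ hℓ)

lemma rd_addY {x₁ x₂ y₁ ℓ : K} (hx₁ : x₁ ∈ A) (hx₂ : x₂ ∈ A) (hy₁ : y₁ ∈ A) (hℓ : ℓ ∈ A) :
    rd A φ (W.addY x₁ x₂ y₁ ℓ) =
      Wκ.addY (rd A φ x₁) (rd A φ x₂) (rd A φ y₁) (rd A φ ℓ) := by
  simp only [Affine.addY]
  rw [rd_negY h (addX_mem h hx₁ hx₂ hℓ) (negAddY_mem h hx₁ hx₂ hy₁ hℓ),
    rd_addX h hx₁ hx₂ hℓ, rd_negAddY h hx₁ hx₂ hy₁ hℓ]

/-- The equation reduces. -/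
lemma rd_equation {x y : K} (hx : x ∈ A) (hy : y ∈ A) (hxy : W.Equation x y) :
    Wκ.Equation (rd A φ x) (rd A φ y) := by
  obtain ⟨c₁, c₂, c₃, c₄, c₆, e₁, e₂, e₃, e₄, e₆, f₁, f₂, f₃, f₄, f₆⟩ := h.exists_lift
  lift x to A using hx
  lift y to A using hy
  rw [Affine.equation_iff] at hxy ⊢
  rw [← e₁, ← e₂, ← e₃, ← e₄, ← e₆] at hxy
  have hA : y ^ 2 + c₁ * x * y + c₃ * y = x ^ 3 + c₂ * x ^ 2 + c₄ * x + c₆ := by
    apply Subtype.ext
    push_cast
    exact hxy
  have := congrArg φ hA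
  simp only [map_add, map_mul, map_pow, f₁, f₂, f₃, f₄, f₆] at this
  rw [rd_coe, rd_coe]
  exact this

/-- The numerator of the tangent slope. -/
lemma rd_slopeNum {x y : K} (hx : x ∈ A) (hy : y ∈ A) :
    3 * x ^ 2 + 2 * W.a₂ * x + W.a₄ - W.a₁ * y ∈ A ∧
    rd A φ (3 * x ^ 2 + 2 * W.a₂ * x + W.a₄ - W.a₁ * y) =
      3 * rd A φ x ^ 2 + 2 * Wκ.a₂ * rd A φ x + Wκ.a₄ - Wκ.a₁ * rd A φ y := by
  obtain ⟨c₁, c₂, c₃, c₄, c₆, e₁, e₂, e₃, e₄, e₆, f₁, f₂, f₃, f₄, f₆⟩ := h.exists_lift
  lift x to A using hx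
  lift y to A using hy
  simp only [← e₁, ← e₂, ← e₄, ← f₁, ← f₂, ← f₄]
  have : (3 * (x : K) ^ 2 + 2 * c₂ * x + c₄ - c₁ * y) =
      ((3 * x ^ 2 + 2 * c₂ * x + c₄ - c₁ * y : A) : K) := by
    push_cast; rw [coe_two, coe_three]
  rw [this, rd_coe, rd_coe, rd_coe]
  refine ⟨Subtype.mem _, ?_⟩
  simp only [map_sub, map_add, map_mul, map_pow, map_ofNat]

end poly

end Fermat.Agent.Lib.Red.H290

end
-- ===== PACK-END Lib/Red/H290/RedCurve.lean

-- ===== PACK-BEGIN S24/H84/OrdDiff.lean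
section




/-!
# Order of `dy` at a place via a Laurent-series embedding (helper84, S24 pieces KD2 + KD4)
-/

set_option autoImplicit false

noncomputable section

open KaehlerDifferential IntermediateField AlgebraicCurve
open scoped IntermediateField.algebraAdjoinAdjoin

namespace Fermat.Agent.S24.H84

variable {K F : Type*} [Field K] [Field F] [Algebra K F]

/-- Constants have order zero at every place. -/
theorem place_ord_algebraMap (v : Place K F) (c : K) : v.ord (algebraMap K F c) = 0 := by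
  rcases eq_or_ne c 0 with rfl | hc
  · simp
  · have hu : IsUnit (algebraMap K v.toValuationSubring c) := (IsUnit.mk0 c hc).map _
    have := v.ord_coe_unit hu.unit
    simpa using this

/-- The (private) uniformizer of the Prelude, exposed. -/
theorem place_exists_uniformizer (v : Place K F) :
    ∃ π : F, v.ord π = 1 ∧ v.dCoord = D K F π :=
  ⟨_, v.ord_coe_irreducible
    (IsDiscreteValuationRing.exists_irreducible v.toValuationSubring).choose_spec, rfl⟩

/-- Over an algebraically closed field, an algebraic element is a constant. -/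
theorem mem_range_algebraMap_of_isAlgebraic [IsAlgClosed K] {f : F} (halg : IsAlgebraic K f) :
    ∃ c : K, algebraMap K F c = f := by
  have hint : IsIntegral K f := halg.isIntegral
  have hq : (minpoly K f).leadingCoeff = 1 := minpoly.monic hint
  have h : (minpoly K f).degree = 1 :=
    IsAlgClosed.degree_eq_one_of_irreducible K (minpoly.irreducible hint)
  have : Polynomial.aeval f (minpoly K f) = 0 := minpoly.aeval K f
  rw [Polynomial.eq_X_add_C_of_degree_eq_one h, hq, Polynomial.C_1, one_mul,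
    Polynomial.aeval_add, Polynomial.aeval_X, Polynomial.aeval_C, add_eq_zero_iff_eq_neg] at this
  exact ⟨-(minpoly K f).coeff 0, by rw [map_neg]; exact this.symm⟩

/-- Over an algebraically closed constant field, a function with nonzero order at some place is
transcendental. -/
theorem place_transcendental_of_ord_ne_zero [IsAlgClosed K] (v : Place K F) {f : F}
    (h : v.ord f ≠ 0) : Transcendental K f := by
  intro halg
  obtain ⟨c, rfl⟩ := mem_range_algebraMap_of_isAlgebraic halg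
  exact h (place_ord_algebraMap v c)

/-- If `F` is finite over `K(j)` then `F` is algebraic over `K(π)` for every transcendental
`π`. -/
theorem isAlgebraic_adjoin_simple_of_transcendental (j : F) [FiniteDimensional K⟮j⟯ F]
    {π : F} (hπ : Transcendental K π) : Algebra.IsAlgebraic K⟮π⟯ F := by
  have hA : Algebra.IsAlgebraic K⟮j⟯ F := Algebra.IsAlgebraic.of_finite _ _
  have hA' : Algebra.IsAlgebraic (Algebra.adjoin K {j}) F :=
    (IsFractionRing.comap_isAlgebraic_iff (A := Algebra.adjoin K {j}) (K := K⟮j⟯)).2 hA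
  have h1 : Algebra.trdeg K F ≤ 1 := by
    simpa using Algebra.IsAlgebraic.trdeg_le_cardinalMk K ({j} : Set F)
  have hind : AlgebraicIndependent K (fun _ : PUnit => π) :=
    algebraicIndependent_unique_type_iff.2 hπ
  have hb : IsTranscendenceBasis K (fun _ : PUnit => π) :=
    hind.isTranscendenceBasis_of_trdeg_le_of_finite (by simpa using h1)
  have := hb.isAlgebraic_field
  have hr : (Set.range fun _ : PUnit => π) = {π} := Set.range_const
  rwa [hr] at this

/-- `DCoordGenerates` for every place of a function field in one variable over an algebraically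
closed field of characteristic zero. -/
theorem place_dCoordGenerates [IsAlgClosed K] [CharZero K] (j : F) [FiniteDimensional K⟮j⟯ F]
    (v : Place K F) : v.DCoordGenerates := by
  obtain ⟨π, hπ, hd⟩ := place_exists_uniformizer v
  have htr : Transcendental K π :=
    place_transcendental_of_ord_ne_zero v (by rw [hπ]; exact one_ne_zero)
  have := isAlgebraic_adjoin_simple_of_transcendental j htr
  exact ⟨by rw [hd]; exact span_D_eq_top π⟩

section Embedding

variable {C : Type*} [Field C]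

/-- Pull-back of `d/dz` along a field embedding `σ : F → C((z))` which is constant on `K`:
there is an additive map `L : Ω[F⁄K] → C((z))`, `σ`-semilinear, with `L (D y) = d(σ y)/dz`. -/
theorem exists_kaehler_to_laurent (σ : F →+* LaurentSeries C) (ι : K →+* C)
    (hσ : ∀ c : K, σ (algebraMap K F c) = HahnSeries.C (ι c)) :
    ∃ L : Ω[F⁄K] →+ LaurentSeries C,
      (∀ (f : F) (ω : Ω[F⁄K]), L (f • ω) = σ f * L ω) ∧
      ∀ y : F, L (D K F y) = laurentD C (σ y) := by
  let : Module F (LaurentSeries C) := Module.compHom _ σ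
  let : Module K (LaurentSeries C) := Module.compHom _ (σ.comp (algebraMap K F))
  have hF : ∀ (f : F) (m : LaurentSeries C), f • m = σ f * m := fun _ _ => rfl
  have hK : ∀ (k : K) (m : LaurentSeries C), k • m = σ (algebraMap K F k) * m := fun _ _ => rfl
  have : IsScalarTower K F (LaurentSeries C) := ⟨fun k f m => by
    rw [hF, hK, hF, Algebra.smul_def, map_mul, mul_assoc]⟩
  let δ : Derivation K F (LaurentSeries C) :=
    { toFun := fun f => laurentD C (σ f)
      map_add' := fun f g => by rw [map_add, map_add]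
      map_smul' := fun k f => by
        rw [RingHom.id_apply, hK, Algebra.smul_def, map_mul, Derivation.leibniz, hσ, laurentD_C,
          smul_zero, add_zero, smul_eq_mul]
      map_one_eq_zero' := by
        show laurentD C (σ 1) = 0
        rw [map_one, Derivation.map_one_eq_zero]
      leibniz' := fun f g => by
        show laurentD C (σ (f * g)) = f • laurentD C (σ g) + g • laurentD C (σ f)
        rw [map_mul, Derivation.leibniz, hF, hF, smul_eq_mul, smul_eq_mul] }
  refine ⟨δ.liftKaehlerDifferential.toAddMonoidHom, fun f ω => ?_, fun y => ?_⟩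
  · show δ.liftKaehlerDifferential (f • ω) = _
    rw [map_smul, hF]
    rfl
  · exact δ.liftKaehlerDifferential_comp_D y

/-- If `σ y` has nonzero order then `dy ≠ 0` in `Ω[F⁄K]` (characteristic zero). -/
theorem D_ne_zero_of_embedding [CharZero C] (σ : F →+* LaurentSeries C) (ι : K →+* C)
    (hσ : ∀ c : K, σ (algebraMap K F c) = HahnSeries.C (ι c))
    {y : F} (hy : (σ y).order ≠ 0) : D K F y ≠ 0 := by
  obtain ⟨L, -, hL2⟩ := exists_kaehler_to_laurent σ ι hσ
  intro h
  have := hL2 y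
  rw [h, map_zero] at this
  exact laurentD_ne_zero hy this.symm

/-- `Ω[F⁄K]` is nontrivial as soon as some `σ y` has nonzero order. -/
theorem nontrivial_kaehler_of_embedding [CharZero C] (σ : F →+* LaurentSeries C) (ι : K →+* C)
    (hσ : ∀ c : K, σ (algebraMap K F c) = HahnSeries.C (ι c))
    {y : F} (hy : (σ y).order ≠ 0) : Nontrivial Ω[F⁄K] :=
  ⟨⟨_, _, D_ne_zero_of_embedding σ ι hσ hy⟩⟩

variable [CharZero C]

/-- **Local formula for the order of a differential.**  If the place `v` is induced by the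
embedding `σ : F → C((z))` with multiplicity `g` (`ord_z ∘ σ = g · ord_v`), then
`g · ord_v(dy) = ord_z (d(σ y)/dz) - (g - 1)`. -/
theorem place_ordDifferential_mul (v : Place K F) [v.DCoordGenerates]
    (σ : F →+* LaurentSeries C) (ι : K →+* C)
    (hσ : ∀ c : K, σ (algebraMap K F c) = HahnSeries.C (ι c))
    (g : ℕ) (hg : 0 < g) (hord : ∀ f : F, f ≠ 0 → (σ f).order = g * v.ord f)
    (y : F) (hy : laurentD C (σ y) ≠ 0) :
    (g : ℤ) * v.ordDifferential (D K F y) = (laurentD C (σ y)).order - (g - 1) := by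
  obtain ⟨π, hπ1, hd⟩ := place_exists_uniformizer v
  obtain ⟨L, hL1, hL2⟩ := exists_kaehler_to_laurent σ ι hσ
  have hc : v.differentialCoeff (D K F y) • v.dCoord = D K F y :=
    v.differentialCoeff_smul_dCoord _
  have h1 : laurentD C (σ y) = σ (v.differentialCoeff (D K F y)) * laurentD C (σ π) := by
    have h := congrArg L hc
    rw [hL1, hd, hL2, hL2] at h
    exact h.symm
  have hπ0 : π ≠ 0 := by rintro rfl; simp at hπ1
  have hπord : (σ π).order = g := by rw [hord π hπ0, hπ1, mul_one]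
  have hgne : (σ π).order ≠ 0 := by rw [hπord]; exact_mod_cast hg.ne'
  have hdπ : (laurentD C (σ π)).order = g - 1 := by rw [laurentD_order hgne, hπord]
  have hc0 : v.differentialCoeff (D K F y) ≠ 0 := by
    intro h; rw [h, map_zero, zero_mul] at h1; exact hy h1
  have hσc : σ (v.differentialCoeff (D K F y)) ≠ 0 := (map_ne_zero σ).2 hc0
  have hdπ0 : laurentD C (σ π) ≠ 0 := laurentD_ne_zero hgne
  rw [Place.ordDifferential, h1, HahnSeries.order_mul hσc hdπ0, hord _ hc0, hdπ]
  ring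

/-- If `ord_v y ≠ 0` then `ord_v (dy) = ord_v y - 1`. -/
theorem place_ordDifferential_D_of_ord_ne_zero (v : Place K F) [v.DCoordGenerates]
    (σ : F →+* LaurentSeries C) (ι : K →+* C)
    (hσ : ∀ c : K, σ (algebraMap K F c) = HahnSeries.C (ι c))
    (g : ℕ) (hg : 0 < g) (hord : ∀ f : F, f ≠ 0 → (σ f).order = g * v.ord f)
    (y : F) (hy : v.ord y ≠ 0) :
    v.ordDifferential (D K F y) = v.ord y - 1 := by
  have hy0 : y ≠ 0 := by rintro rfl; simp at hy
  have hgz : (g : ℤ) ≠ 0 := by exact_mod_cast hg.ne'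
  have ho : (σ y).order ≠ 0 := by
    rw [hord y hy0]; exact mul_ne_zero hgz hy
  have := place_ordDifferential_mul v σ ι hσ g hg hord y (laurentD_ne_zero ho)
  rw [laurentD_order ho, hord y hy0] at this
  have h2 : (g : ℤ) * v.ordDifferential (D K F y) = g * (v.ord y - 1) := by
    rw [this]; ring
  exact mul_left_cancel₀ hgz h2

/-- If `ord_v (y - a) ≠ 0` for a constant `a` then `ord_v (dy) = ord_v (y - a) - 1`. -/
theorem place_ordDifferential_D_of_ord_sub_ne_zero (v : Place K F) [v.DCoordGenerates]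
    (σ : F →+* LaurentSeries C) (ι : K →+* C)
    (hσ : ∀ c : K, σ (algebraMap K F c) = HahnSeries.C (ι c))
    (g : ℕ) (hg : 0 < g) (hord : ∀ f : F, f ≠ 0 → (σ f).order = g * v.ord f)
    (y : F) (a : K) (hy : v.ord (y - algebraMap K F a) ≠ 0) :
    v.ordDifferential (D K F y) = v.ord (y - algebraMap K F a) - 1 := by
  have := place_ordDifferential_D_of_ord_ne_zero v σ ι hσ g hg hord _ hy
  rwa [map_sub, Derivation.map_algebraMap, sub_zero] at this

/-- If `ord_v y⁻¹ ≠ 0` then `ord_v (dy) = - ord_v y⁻¹ - 1`. -/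
theorem place_ordDifferential_D_of_ord_inv_ne_zero (v : Place K F) [v.DCoordGenerates]
    (σ : F →+* LaurentSeries C) (ι : K →+* C)
    (hσ : ∀ c : K, σ (algebraMap K F c) = HahnSeries.C (ι c))
    (g : ℕ) (hg : 0 < g) (hord : ∀ f : F, f ≠ 0 → (σ f).order = g * v.ord f)
    (y : F) (hy : v.ord y⁻¹ ≠ 0) :
    v.ordDifferential (D K F y) = - v.ord y⁻¹ - 1 := by
  have h1 : v.ord y ≠ 0 := by
    rw [v.ord_inv] at hy; exact fun h => hy (by rw [h, neg_zero])
  rw [place_ordDifferential_D_of_ord_ne_zero v σ ι hσ g hg hord y h1, v.ord_inv, neg_neg]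

end Embedding

end Fermat.Agent.S24.H84

end
end
-- ===== PACK-END S24/H84/OrdDiff.lean

-- ===== PACK-BEGIN S24/M7/H47Level1.lean
section



/-!
# S24 / M1 items D3, D4 (helper47): level-one facts about `j = E₄³ / Δ`

* `exists_E₄_cube_eq_mul_discriminant`, `jFun_surjective` : `j : ℍ → ℂ` is surjective
  (if `E₄³ - c Δ` had no zero, its inverse would be a level-one form of weight `-12`).
* `jFun_smul` : `j` is `SL(2, ℤ)`-invariant.
* `E₆_I`, `E₄_rho` : `E₆(i) = 0`, `E₄(ρ) = 0`; `jFun_I`, `jFun_rho`; `S_smul_I`, `ST_smul_rho`.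
* `analyticOrderAt_jFun_sub_*` : the order of `j - j(z₀)` at `z₀` is `3`, `2`, `1` according to
  `E₄ z₀ = 0`, `E₆ z₀ = 0`, neither.

Built on helper140's `Fermat.Agent.S20.L1.Ramanujan` (Ramanujan identities, `jFun`, `D_jFun`).
-/

set_option autoImplicit false

open UpperHalfPlane ModularForm EisensteinSeries Derivative Filter Topology
open scoped MatrixGroups Manifold

noncomputable section

namespace Fermat.Agent.S24.M7.H47

open Fermat.Agent.S20.L1

local notation "Δ" => ModularForm.discriminant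


/-- Function-level transformation law from slash invariance. -/
lemma smul_eq_of_slash_eq {k : ℤ} {F : ℍ → ℂ} {γ : SL(2, ℤ)} (h : F ∣[k] γ = F) (z : ℍ) :
    F (γ • z) = denom γ z ^ k * F z := by
  have h1 := congrFun h z
  rw [SL_slash_apply] at h1
  have hd : denom γ z ≠ 0 := denom_ne_zero _ _
  rw [← h1, mul_comm, mul_assoc, ← zpow_add₀ hd]
  simp

lemma discriminant_smul_eq (γ : SL(2, ℤ)) (z : ℍ) :
    Δ (γ • z) = denom γ z ^ (12 : ℤ) * Δ z :=
  smul_eq_of_slash_eq
    (SlashInvariantFormClass.slash_action_eq CuspForm.discriminant _ ⟨γ, rfl⟩) z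

lemma E₄_smul_eq (γ : SL(2, ℤ)) (z : ℍ) :
    E₄ (γ • z) = denom γ z ^ (4 : ℤ) * E₄ z :=
  smul_eq_of_slash_eq (levelOne_slash_eq E₄ γ) z

lemma E₆_smul_eq (γ : SL(2, ℤ)) (z : ℍ) :
    E₆ (γ • z) = denom γ z ^ (6 : ℤ) * E₆ z :=
  smul_eq_of_slash_eq (levelOne_slash_eq E₆ γ) z

/-- The weight-12 numerator `E₄³ - c Δ` of `j - c`. -/
def jNum (c : ℂ) : ℍ → ℂ := fun z ↦ E₄ z ^ 3 - c * Δ z

lemma mdiff_jNum (c : ℂ) : MDiff (jNum c) := by
  have h : jNum c = (E₄ : ℍ → ℂ) ^ 3 - c • (Δ : ℍ → ℂ) := by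
    funext z; simp [jNum]
  rw [h]
  exact (mdiff_E₄.pow 3).sub (mdiff_discriminant.const_smul _)

lemma jNum_smul (c : ℂ) (γ : SL(2, ℤ)) (z : ℍ) :
    jNum c (γ • z) = denom γ z ^ (12 : ℤ) * jNum c z := by
  have hd : denom γ z ≠ 0 := denom_ne_zero _ _
  simp only [jNum, discriminant_smul_eq, E₄_smul_eq]
  rw [mul_pow, ← zpow_natCast (denom γ z ^ (4:ℤ)) 3, ← zpow_mul]
  norm_num
  ring

lemma tendsto_jNum (c : ℂ) : Tendsto (jNum c) atImInfty (𝓝 1) := by
  have h1 : Tendsto (fun z : ℍ ↦ E₄ z ^ 3) atImInfty (𝓝 (1 ^ 3)) := tendsto_E₄.pow 3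
  have h2 : Tendsto (fun z : ℍ ↦ c * Δ z) atImInfty (𝓝 (c * 0)) :=
    (discriminant_isZeroAtImInfty).const_mul c
  have h3 := h1.sub h2
  simp only [one_pow, mul_zero, sub_zero] at h3
  exact h3

/-- `E₄³ - c Δ` has a zero on `ℍ`, for every `c`. -/
theorem exists_jNum_eq_zero (c : ℂ) : ∃ z : ℍ, jNum c z = 0 := by
  by_contra hne
  replace hne : ∀ z : ℍ, jNum c z ≠ 0 := fun z hz ↦ hne ⟨z, hz⟩
  have hol : MDiff (fun z ↦ (1 : ℂ) / jNum c z) :=
    (mdifferentiable_const (c := (1:ℂ))).div (mdiff_jNum c) hne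
  have inv : ∀ γ : SL(2, ℤ), (fun z ↦ (1 : ℂ) / jNum c z) ∣[(-12 : ℤ)] γ
      = fun z ↦ (1 : ℂ) / jNum c z := by
    intro γ
    funext z
    have hd : denom γ z ≠ 0 := denom_ne_zero _ _
    rw [SL_slash_apply, jNum_smul]
    have := hne z
    simp only [neg_neg]
    field_simp
  have bdd : IsBoundedAtImInfty (fun z ↦ (1 : ℂ) / jNum c z) := by
    have h : Tendsto (fun z ↦ (1 : ℂ) / jNum c z) atImInfty (𝓝 (1 / 1)) :=
      (tendsto_const_nhds).div (tendsto_jNum c) one_ne_zero
    exact h.isBigO_one ℝ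
  have h0 := ModularFormClass.levelOne_neg_weight_eq_zero (by norm_num)
    (mkLevelOne (-12) _ hol inv bdd)
  have h1 := congrFun h0 UpperHalfPlane.I
  simp only [coe_mkLevelOne, Pi.zero_apply, one_div, inv_eq_zero] at h1
  exact hne _ h1

/-- For every `c : ℂ` there is `z ∈ ℍ` with `E₄(z)³ = c Δ(z)`. -/
theorem exists_E₄_cube_eq_mul_discriminant (c : ℂ) : ∃ z : ℍ, E₄ z ^ 3 = c * Δ z := by
  obtain ⟨z, hz⟩ := exists_jNum_eq_zero c
  exact ⟨z, sub_eq_zero.mp hz⟩

/-- **`j` is surjective.** -/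
theorem jFun_surjective : Function.Surjective jFun := by
  intro c
  obtain ⟨z, hz⟩ := exists_E₄_cube_eq_mul_discriminant c
  exact ⟨z, by rw [jFun, hz, mul_div_assoc, div_self (discriminant_ne_zero z), mul_one]⟩

/-- `j` is `SL(2, ℤ)`-invariant. -/
lemma jFun_smul (γ : SL(2, ℤ)) (z : ℍ) : jFun (γ • z) = jFun z := by
  have hd : denom γ z ≠ 0 := denom_ne_zero _ _
  have hΔ := discriminant_ne_zero z
  simp only [jFun, discriminant_smul_eq, E₄_smul_eq]
  rw [mul_pow, ← zpow_natCast (denom γ z ^ (4:ℤ)) 3, ← zpow_mul]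
  norm_num
  field_simp

/-! ### The elliptic points -/

lemma S_smul_I : ModularGroup.S • UpperHalfPlane.I = UpperHalfPlane.I := by
  rw [modular_S_smul]
  ext
  simp [Complex.inv_I]

/-- `E₆(i) = 0`. -/
theorem E₆_I : E₆ UpperHalfPlane.I = 0 := by
  have h := E₆_smul_eq ModularGroup.S UpperHalfPlane.I
  rw [S_smul_I, ModularGroup.denom_S] at h
  have h6 : ((UpperHalfPlane.I : ℍ) : ℂ) ^ (6 : ℤ) = -1 := by
    have : ((UpperHalfPlane.I : ℍ) : ℂ) = Complex.I := rfl
    rw [this]
    norm_cast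
    rw [show (6 : ℕ) = 2 * 3 by norm_num, pow_mul, Complex.I_sq]
    norm_num
  rw [h6] at h
  have : (2 : ℂ) * E₆ UpperHalfPlane.I = 0 := by linear_combination h
  simpa using this

/-- The elliptic point `ρ = e^{2πi/3} = -1/2 + (√3/2) i`. -/
def rho : ℍ := ⟨-1 / 2 + (Real.sqrt 3 / 2 : ℝ) * Complex.I, by simp⟩

lemma coe_rho : (rho : ℂ) = -1 / 2 + (Real.sqrt 3 / 2 : ℝ) * Complex.I := rfl

lemma rho_sq_add : (rho : ℂ) ^ 2 + (rho : ℂ) + 1 = 0 := by
  rw [coe_rho]
  have h3 : ((Real.sqrt 3 : ℝ) : ℂ) ^ 2 = 3 := by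
    norm_cast
    exact Real.sq_sqrt (by norm_num)
  push_cast
  linear_combination (Complex.I ^ 2 / 4) * h3 + (3 / 4 : ℂ) * Complex.I_sq

lemma ST_smul_rho : (ModularGroup.S * ModularGroup.T) • rho = rho := by
  ext
  rw [coe_specialLinearGroup_apply]
  have h := rho_sq_add
  have hne : (rho : ℂ) + 1 ≠ 0 := by
    intro h1
    have : (rho : ℂ) = -1 := by linear_combination h1
    rw [this] at h
    norm_num at h
  simp [ModularGroup.S, ModularGroup.T]
  field_simp
  linear_combination -h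

lemma denom_ST (z : ℍ) : denom (ModularGroup.S * ModularGroup.T : SL(2, ℤ)) z = (z : ℂ) + 1 := by
  rw [ModularGroup.denom_apply]
  simp [ModularGroup.S, ModularGroup.T, Matrix.mul_apply, Fin.sum_univ_two]

lemma denom_ST_rho : denom (ModularGroup.S * ModularGroup.T : SL(2, ℤ)) rho = (rho : ℂ) + 1 :=
  denom_ST rho

/-- `E₄(ρ) = 0`. -/
theorem E₄_rho : E₄ rho = 0 := by
  have h := E₄_smul_eq (ModularGroup.S * ModularGroup.T) rho
  rw [ST_smul_rho, denom_ST_rho] at h
  have hr := rho_sq_add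
  have h4 : ((rho : ℂ) + 1) ^ (4 : ℤ) = -(rho : ℂ) - 1 := by
    norm_cast
    have h2 : ((rho : ℂ) + 1) ^ 2 = (rho : ℂ) := by linear_combination hr
    rw [show (4 : ℕ) = 2 * 2 by norm_num, pow_mul, h2]
    linear_combination hr
  rw [h4] at h
  have hne : (rho : ℂ) + 2 ≠ 0 := by
    intro h1
    have : (rho : ℂ) = -2 := by linear_combination h1
    rw [this] at hr
    norm_num at hr
  have : ((rho : ℂ) + 2) * E₄ rho = 0 := by linear_combination h
  rcases mul_eq_zero.mp this with h' | h'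
  · exact absurd h' hne
  · exact h'

theorem jFun_I : jFun UpperHalfPlane.I = 1728 := (jFun_eq_1728_iff _).mpr E₆_I

theorem jFun_rho : jFun rho = 0 := (jFun_eq_zero_iff _).mpr E₄_rho



/-! ### Local orders of `j` -/

lemma analyticAt_comp_ofComplex {F : ℍ → ℂ} (hF : MDiff F) (z : ℍ) :
    AnalyticAt ℂ (F ∘ ofComplex) (z : ℂ) :=
  (UpperHalfPlane.mdifferentiable_iff.mp hF).analyticAt
    (isOpen_upperHalfPlaneSet.mem_nhds z.im_pos)

lemma deriv_comp_ofComplex_ne_zero {F : ℍ → ℂ} {z : ℍ} (h : D F z ≠ 0) :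
    deriv (F ∘ ofComplex) (z : ℂ) ≠ 0 := by
  intro h0
  apply h
  simp [normalizedDerivOfComplex, h0]

lemma mdiff_inv_discriminant : MDiff (fun z : ℍ ↦ (Δ z)⁻¹) := by
  have := (mdifferentiable_const (c := (1:ℂ))).div mdiff_discriminant discriminant_ne_zero
  have h : (fun z : ℍ ↦ (Δ z)⁻¹) = (fun _ ↦ (1 : ℂ)) / (Δ : ℍ → ℂ) := by
    funext z; simp
  rw [h]
  exact this

lemma analyticOrderAt_inv_discriminant (z : ℍ) :
    analyticOrderAt ((fun z : ℍ ↦ (Δ z)⁻¹) ∘ ofComplex) (z : ℂ) = 0 := by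
  rw [(analyticAt_comp_ofComplex mdiff_inv_discriminant z).analyticOrderAt_eq_zero]
  simp [discriminant_ne_zero]

/-- Zeros of `E₄` have order one. -/
theorem analyticOrderAt_E₄ {z : ℍ} (h : E₄ z = 0) :
    analyticOrderAt ((E₄ : ℍ → ℂ) ∘ ofComplex) (z : ℂ) = 1 :=
  (analyticAt_comp_ofComplex mdiff_E₄ z).analyticOrderAt_eq_one_of_zero_deriv_ne_zero
    (by simpa using h) (deriv_comp_ofComplex_ne_zero (D_E₄_ne_zero h))

/-- Zeros of `E₆` have order one. -/
theorem analyticOrderAt_E₆ {z : ℍ} (h : E₆ z = 0) :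
    analyticOrderAt ((E₆ : ℍ → ℂ) ∘ ofComplex) (z : ℂ) = 1 :=
  (analyticAt_comp_ofComplex mdiff_E₆ z).analyticOrderAt_eq_one_of_zero_deriv_ne_zero
    (by simpa using h) (deriv_comp_ofComplex_ne_zero (D_E₆_ne_zero h))

/-- At a point with `E₄ E₆ ≠ 0` (i.e. `j ≠ 0, 1728`), `j - j(z₀)` vanishes to order `1`. -/
theorem analyticOrderAt_jFun_sub_generic {z₀ : ℍ} (h4 : E₄ z₀ ≠ 0) (h6 : E₆ z₀ ≠ 0) :
    analyticOrderAt (fun w : ℂ ↦ jFun (ofComplex w) - jFun z₀) (z₀ : ℂ) = 1 := by
  have h := (analyticAt_comp_ofComplex mdiff_jFun z₀).analyticOrderAt_sub_eq_one_of_deriv_ne_zero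
    (deriv_comp_ofComplex_ne_zero (D_jFun_ne_zero h4 h6))
  simpa using h

/-- At a zero of `E₆` (i.e. `j = 1728`), `j - j(z₀)` vanishes to order `2`. -/
theorem analyticOrderAt_jFun_sub_of_E₆ {z₀ : ℍ} (h : E₆ z₀ = 0) :
    analyticOrderAt (fun w : ℂ ↦ jFun (ofComplex w) - jFun z₀) (z₀ : ℂ) = 2 := by
  have hfun : (fun w : ℂ ↦ jFun (ofComplex w) - jFun z₀)
      = ((E₆ : ℍ → ℂ) ∘ ofComplex) ^ 2 * ((fun z : ℍ ↦ (Δ z)⁻¹) ∘ ofComplex) := by
    funext w
    rw [(jFun_eq_1728_iff z₀).mpr h]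
    have hΔ := discriminant_ne_zero (ofComplex w)
    have := E₄_cube_sub_E₆_sq (ofComplex w)
    simp only [jFun, Pi.mul_apply, Pi.pow_apply, Function.comp_apply]
    field_simp
    linear_combination this
  rw [hfun, analyticOrderAt_mul ((analyticAt_comp_ofComplex mdiff_E₆ z₀).pow 2)
    (analyticAt_comp_ofComplex mdiff_inv_discriminant z₀),
    analyticOrderAt_pow (analyticAt_comp_ofComplex mdiff_E₆ z₀), analyticOrderAt_E₆ h,
    analyticOrderAt_inv_discriminant]
  rfl

/-- At a zero of `E₄` (i.e. `j = 0`), `j - j(z₀)` vanishes to order `3`. -/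
theorem analyticOrderAt_jFun_sub_of_E₄ {z₀ : ℍ} (h : E₄ z₀ = 0) :
    analyticOrderAt (fun w : ℂ ↦ jFun (ofComplex w) - jFun z₀) (z₀ : ℂ) = 3 := by
  have hfun : (fun w : ℂ ↦ jFun (ofComplex w) - jFun z₀)
      = ((E₄ : ℍ → ℂ) ∘ ofComplex) ^ 3 * ((fun z : ℍ ↦ (Δ z)⁻¹) ∘ ofComplex) := by
    funext w
    rw [(jFun_eq_zero_iff z₀).mpr h]
    simp only [jFun, Pi.mul_apply, Pi.pow_apply, Function.comp_apply, sub_zero, div_eq_mul_inv]
  rw [hfun, analyticOrderAt_mul ((analyticAt_comp_ofComplex mdiff_E₄ z₀).pow 3)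
    (analyticAt_comp_ofComplex mdiff_inv_discriminant z₀),
    analyticOrderAt_pow (analyticAt_comp_ofComplex mdiff_E₄ z₀), analyticOrderAt_E₄ h,
    analyticOrderAt_inv_discriminant]
  rfl

end Fermat.Agent.S24.M7.H47

end
end
-- ===== PACK-END S24/M7/H47Level1.lean

-- ===== PACK-BEGIN S24/Inf/Conv.lean
section






/-!
# S24 / MOD-INF — convergent Laurent expansions at `∞`

`InfExp N f φ` : the Laurent series `φ` converges to `f : ℍ → ℂ` on all of `ℍ` in the
variable `z = exp (2πiτ/N)`.  We prove closure under the ring operations and uniqueness.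
-/

set_option autoImplicit false

noncomputable section

open HahnSeries ModularCurve UpperHalfPlane Complex
open scoped Real

namespace Fermat.Agent.S24

/-- The local parameter `exp (2πiτ/N)` at `∞` (width `N`). -/
def infZ (N : ℕ) (τ : ℍ) : ℂ := Function.Periodic.qParam (N : ℝ) (τ : ℂ)

theorem infZ_def (N : ℕ) (τ : ℍ) : infZ N τ = Complex.exp (2 * π * Complex.I * τ / N) := by
  simp [infZ, Function.Periodic.qParam]

theorem infZ_ne_zero (N : ℕ) (τ : ℍ) : infZ N τ ≠ 0 :=
  Function.Periodic.qParam_ne_zero _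

theorem norm_infZ_lt_one (N : ℕ) [NeZero N] (τ : ℍ) : ‖infZ N τ‖ < 1 :=
  Function.Periodic.norm_qParam_lt_one
    (by exact_mod_cast Nat.pos_of_ne_zero (NeZero.ne N)) τ.im_pos

/-- Every point of the punctured unit disc is a value of `infZ N`. -/
theorem exists_infZ_eq (N : ℕ) [NeZero N] {z : ℂ} (hz : z ≠ 0) (hz1 : ‖z‖ < 1) :
    ∃ τ : ℍ, infZ N τ = z := by
  have hN : (0 : ℝ) < N := by exact_mod_cast Nat.pos_of_ne_zero (NeZero.ne N)
  have him : 0 < (Function.Periodic.invQParam (N : ℝ) z).im := by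
    rw [Function.Periodic.im_invQParam]
    have hlog : Real.log ‖z‖ < 0 := Real.log_neg (norm_pos_iff.mpr hz) hz1
    have : -(N : ℝ) / (2 * π) < 0 := by
      apply div_neg_of_neg_of_pos (by linarith) (by positivity)
    exact mul_pos_of_neg_of_neg this hlog
  exact ⟨⟨_, him⟩, Function.Periodic.qParam_right_inv hN.ne' hz⟩

/-- `φ` converges to `f` on `ℍ` in the variable `z = exp (2πiτ/N)`. -/
def InfExp (N : ℕ) (f : ℍ → ℂ) (φ : LaurentSeries ℂ) : Prop :=
  ∀ τ : ℍ, HasSum (fun n : ℤ => φ.coeff n * infZ N τ ^ n) (f τ)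

/-- Power series version. -/
def InfPExp (N : ℕ) (f : ℍ → ℂ) (ψ : PowerSeries ℂ) : Prop :=
  ∀ τ : ℍ, HasSum (fun n : ℕ => PowerSeries.coeff n ψ * infZ N τ ^ n) (f τ)

section Shift

theorem inf_coeff_single_mul_ofPowerSeries (k : ℤ) (ψ : PowerSeries ℂ) (n : ℕ) :
    (single k (1 : ℂ) * ofPowerSeries ℤ ℂ ψ).coeff ((n : ℤ) + k) = PowerSeries.coeff n ψ := by
  rw [coeff_single_mul, one_mul, add_sub_cancel_right, ofPowerSeries_apply_coeff]

theorem inf_coeff_single_mul_ofPowerSeries_of_lt (k : ℤ) (ψ : PowerSeries ℂ) {m : ℤ}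
    (hm : m < k) : (single k (1 : ℂ) * ofPowerSeries ℤ ℂ ψ).coeff m = 0 := by
  rw [coeff_single_mul, one_mul]
  exact ofPowerSeries_coeff_of_neg _ (by omega)

theorem inf_hasSum_shift_iff (k : ℤ) (ψ : PowerSeries ℂ) {z : ℂ} (hz : z ≠ 0) (s : ℂ) :
    HasSum (fun n : ℤ => (single k (1 : ℂ) * ofPowerSeries ℤ ℂ ψ).coeff n * z ^ n) s ↔
      HasSum (fun n : ℕ => PowerSeries.coeff n ψ * z ^ n) (z ^ (-k) * s) := by
  have hinj : Function.Injective (fun n : ℕ => (n : ℤ) + k) := fun a b h => by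
    simpa using h
  have hrange : ∀ m : ℤ, m ∉ Set.range (fun n : ℕ => (n : ℤ) + k) →
      (single k (1 : ℂ) * ofPowerSeries ℤ ℂ ψ).coeff m * z ^ m = 0 := by
    intro m hm
    have : m < k := by
      by_contra h
      rw [not_lt] at h
      exact hm ⟨(m - k).toNat, by simp [Int.toNat_of_nonneg (sub_nonneg.mpr h)]⟩
    rw [inf_coeff_single_mul_ofPowerSeries_of_lt k ψ this, zero_mul]
  rw [← hinj.hasSum_iff hrange]
  have hfun : ((fun n : ℤ => (single k (1 : ℂ) * ofPowerSeries ℤ ℂ ψ).coeff n * z ^ n) ∘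
      fun n : ℕ => (n : ℤ) + k) = fun n : ℕ => z ^ k * (PowerSeries.coeff n ψ * z ^ n) := by
    funext n
    simp only [Function.comp_apply, inf_coeff_single_mul_ofPowerSeries]
    rw [zpow_add₀ hz, zpow_natCast]
    ring
  rw [hfun]
  constructor
  · intro h
    have := h.mul_left (z ^ (-k))
    have e : (fun n : ℕ => z ^ (-k) * (z ^ k * (PowerSeries.coeff n ψ * z ^ n))) =
        fun n : ℕ => PowerSeries.coeff n ψ * z ^ n := by
      funext n
      rw [← mul_assoc, ← zpow_add₀ hz, neg_add_cancel, zpow_zero, one_mul]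
    rwa [e] at this
  · intro h
    have := h.mul_left (z ^ k)
    rwa [← mul_assoc, ← zpow_add₀ hz, add_neg_cancel, zpow_zero, one_mul] at this

end Shift

section Basic

variable {N : ℕ}

theorem InfExp.powerSeriesPart {f : ℍ → ℂ} {φ : LaurentSeries ℂ} (h : InfExp N f φ) :
    InfPExp N (fun τ => infZ N τ ^ (-φ.order) * f τ) φ.powerSeriesPart := by
  intro τ
  have := h τ
  have h2 : HasSum (fun n : ℤ =>
      (single φ.order (1 : ℂ) * ofPowerSeries ℤ ℂ φ.powerSeriesPart).coeff n * infZ N τ ^ n)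
      (f τ) := by
    rw [LaurentSeries.single_order_mul_powerSeriesPart φ]
    exact this
  exact (inf_hasSum_shift_iff _ _ (infZ_ne_zero N τ) _).mp h2

theorem InfPExp.infExp {g : ℍ → ℂ} {ψ : PowerSeries ℂ} (h : InfPExp N g ψ) (k : ℤ) :
    InfExp N (fun τ => infZ N τ ^ k * g τ) (single k (1 : ℂ) * ofPowerSeries ℤ ℂ ψ) := by
  intro τ
  rw [inf_hasSum_shift_iff _ _ (infZ_ne_zero N τ)]
  have hz := infZ_ne_zero N τ
  rw [← mul_assoc, ← zpow_add₀ hz, neg_add_cancel, zpow_zero, one_mul]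
  exact h τ

theorem InfPExp.mul {g₁ g₂ : ℍ → ℂ} {ψ₁ ψ₂ : PowerSeries ℂ} (h₁ : InfPExp N g₁ ψ₁)
    (h₂ : InfPExp N g₂ ψ₂) : InfPExp N (fun τ => g₁ τ * g₂ τ) (ψ₁ * ψ₂) := by
  intro τ
  have s₁ := (h₁ τ).summable.norm
  have s₂ := (h₂ τ).summable.norm
  have key := summable_norm_sum_mul_antidiagonal_of_summable_norm s₁ s₂
  have hsum := key.of_norm.hasSum
  rw [← tsum_mul_tsum_eq_tsum_sum_antidiagonal_of_summable_norm s₁ s₂, (h₁ τ).tsum_eq,
    (h₂ τ).tsum_eq] at hsum
  have e : (fun n : ℕ => PowerSeries.coeff n (ψ₁ * ψ₂) * infZ N τ ^ n) =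
      fun n => ∑ kl ∈ Finset.HasAntidiagonal.antidiagonal n,
        PowerSeries.coeff kl.1 ψ₁ * infZ N τ ^ kl.1 *
          (PowerSeries.coeff kl.2 ψ₂ * infZ N τ ^ kl.2) := by
    funext n
    rw [PowerSeries.coeff_mul, Finset.sum_mul]
    refine Finset.sum_congr rfl fun p hp => ?_
    have hp' : p.1 + p.2 = n := Finset.HasAntidiagonal.mem_antidiagonal.mp hp
    rw [← hp', _root_.pow_add]
    ring
  show HasSum (fun n : ℕ => PowerSeries.coeff n (ψ₁ * ψ₂) * infZ N τ ^ n) (g₁ τ * g₂ τ)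
  rw [e]
  exact hsum

theorem InfExp.zero : InfExp N (fun _ => 0) 0 := by
  intro τ
  simp [hasSum_zero]

theorem InfExp.const (c : ℂ) : InfExp N (fun _ => c) (HahnSeries.C c) := by
  intro τ
  have h := hasSum_single (f := fun n : ℤ => (HahnSeries.C c : LaurentSeries ℂ).coeff n *
    infZ N τ ^ n) (0 : ℤ) (fun n hn => by
      rw [C_apply, coeff_single_of_ne hn, zero_mul])
  simpa using h

theorem InfExp.one : InfExp N (fun _ => 1) 1 := by
  have := InfExp.const (N := N) 1
  rwa [_root_.map_one] at this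

theorem InfExp.add {f g : ℍ → ℂ} {φ ψ : LaurentSeries ℂ} (hf : InfExp N f φ)
    (hg : InfExp N g ψ) : InfExp N (fun τ => f τ + g τ) (φ + ψ) := by
  intro τ
  have := (hf τ).add (hg τ)
  simpa [add_mul] using this

theorem InfExp.neg {f : ℍ → ℂ} {φ : LaurentSeries ℂ} (hf : InfExp N f φ) :
    InfExp N (fun τ => -f τ) (-φ) := by
  intro τ
  have := (hf τ).neg
  simpa [neg_mul] using this

theorem InfExp.sub {f g : ℍ → ℂ} {φ ψ : LaurentSeries ℂ} (hf : InfExp N f φ)
    (hg : InfExp N g ψ) : InfExp N (fun τ => f τ - g τ) (φ - ψ) := by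
  have := hf.add hg.neg
  simpa [sub_eq_add_neg] using this

theorem InfExp.mul {f g : ℍ → ℂ} {φ ψ : LaurentSeries ℂ} (hf : InfExp N f φ)
    (hg : InfExp N g ψ) : InfExp N (fun τ => f τ * g τ) (φ * ψ) := by
  have h := (hf.powerSeriesPart.mul hg.powerSeriesPart).infExp (φ.order + ψ.order)
  have hφ : φ * ψ = single (φ.order + ψ.order) (1 : ℂ) *
      ofPowerSeries ℤ ℂ (φ.powerSeriesPart * ψ.powerSeriesPart) := by
    conv_lhs => rw [← LaurentSeries.single_order_mul_powerSeriesPart φ,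
      ← LaurentSeries.single_order_mul_powerSeriesPart ψ]
    rw [_root_.map_mul, mul_mul_mul_comm, single_mul_single, one_mul]
  rw [hφ]
  intro τ
  have hz := infZ_ne_zero N τ
  have this : infZ N τ ^ (φ.order + ψ.order) * (infZ N τ ^ (-φ.order) * f τ *
      (infZ N τ ^ (-ψ.order) * g τ)) = f τ * g τ := by
    have e : infZ N τ ^ (φ.order + ψ.order) * (infZ N τ ^ (-φ.order) * f τ *
      (infZ N τ ^ (-ψ.order) * g τ)) =
      (infZ N τ ^ (φ.order + ψ.order) * infZ N τ ^ (-φ.order) * infZ N τ ^ (-ψ.order)) *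
        (f τ * g τ) := by ring
    rw [e, ← zpow_add₀ hz, ← zpow_add₀ hz]
    simp
  have h' := h τ
  simp only [this] at h'
  exact h'

theorem InfExp.congr {f g : ℍ → ℂ} {φ : LaurentSeries ℂ} (hf : InfExp N f φ)
    (h : ∀ τ, f τ = g τ) : InfExp N g φ := by
  intro τ
  rw [← h τ]
  exact hf τ

/-- The function is determined by the expansion. -/
theorem InfExp.fun_unique {f g : ℍ → ℂ} {φ : LaurentSeries ℂ} (hf : InfExp N f φ)
    (hg : InfExp N g φ) : f = g :=
  funext fun τ => (hf τ).unique (hg τ)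

end Basic

end Fermat.Agent.S24

end
end
-- ===== PACK-END S24/Inf/Conv.lean

-- ===== PACK-BEGIN S24/Inf/Unique.lean
section


/-!
# S24 / MOD-INF — uniqueness of convergent Laurent expansions, the expansion ring
-/

set_option autoImplicit false

noncomputable section

open HahnSeries ModularCurve UpperHalfPlane Complex
open scoped Real

namespace Fermat.Agent.S24

/-- A power series converging to `0` on the punctured unit disc has zero constant coefficient. -/
theorem inf_coeff_zero_eq_zero_of_hasSum_zero (a : ℕ → ℂ)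
    (h : ∀ z : ℂ, z ≠ 0 → ‖z‖ < 1 → HasSum (fun n => a n * z ^ n) 0) : a 0 = 0 := by
  have hhalf : HasSum (fun n => a n * ((1 / 2 : ℝ) : ℂ) ^ n) 0 :=
    h _ (by norm_num) (by rw [Complex.norm_real]; norm_num)
  have hs1 : Summable (fun n => ‖a (n + 1)‖ * (1 / 2 : ℝ) ^ n) := by
    have h1 : Summable (fun n => ‖a n * ((1 / 2 : ℝ) : ℂ) ^ n‖) := hhalf.summable.norm
    have h2 := (summable_nat_add_iff 1).mpr h1
    have h3 := h2.mul_left 2
    refine h3.congr fun n => ?_
    rw [_root_.norm_mul, _root_.norm_pow, Complex.norm_real, pow_succ]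
    simp only [Real.norm_eq_abs]
    rw [abs_of_pos (by norm_num : (0 : ℝ) < 1 / 2)]
    ring
  set C : ℝ := ∑' n, ‖a (n + 1)‖ * (1 / 2 : ℝ) ^ n with hC
  have hC0 : 0 ≤ C := tsum_nonneg fun n => by positivity
  have key : ∀ t : ℝ, 0 < t → t ≤ 1 / 2 → ‖a 0‖ ≤ t * C := by
    intro t ht0 ht
    have hz : HasSum (fun n => a n * ((t : ℝ) : ℂ) ^ n) 0 :=
      h _ (by exact_mod_cast ht0.ne') (by
        rw [Complex.norm_real, Real.norm_eq_abs, abs_of_pos ht0]; linarith)
    have hz' := (hasSum_nat_add_iff' 1).mpr hz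
    simp only [Finset.range_one, Finset.sum_singleton, pow_zero, mul_one, zero_sub] at hz'
    have hb : HasSum (fun n => t * (‖a (n + 1)‖ * (1 / 2 : ℝ) ^ n)) (t * C) :=
      hs1.hasSum.mul_left t
    have := hz'.norm_le_of_bounded hb (fun n => by
      rw [_root_.norm_mul, _root_.norm_pow, Complex.norm_real, Real.norm_eq_abs, abs_of_pos ht0, pow_succ]
      have : t ^ n ≤ (1 / 2 : ℝ) ^ n := pow_le_pow_left₀ ht0.le ht n
      have h0 : 0 ≤ ‖a (n + 1)‖ := _root_.norm_nonneg _
      calc ‖a (n + 1)‖ * (t ^ n * t) = t * (‖a (n + 1)‖ * t ^ n) := by ring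
        _ ≤ t * (‖a (n + 1)‖ * (1 / 2 : ℝ) ^ n) := by gcongr)
    rwa [norm_neg] at this
  by_contra hne
  have hpos : 0 < ‖a 0‖ := norm_pos_iff.mpr hne
  set t : ℝ := min (1 / 2) (‖a 0‖ / (2 * (C + 1))) with ht
  have ht0 : 0 < t := lt_min (by norm_num) (by positivity)
  have ht1 : t ≤ 1 / 2 := min_le_left _ _
  have ht2 : t ≤ ‖a 0‖ / (2 * (C + 1)) := min_le_right _ _
  have h1 := key t ht0 ht1
  have h2 : t * C ≤ ‖a 0‖ / (2 * (C + 1)) * C := by gcongr
  have h3 : ‖a 0‖ / (2 * (C + 1)) * C < ‖a 0‖ := by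
    rw [div_mul_eq_mul_div, div_lt_iff₀ (by positivity)]
    nlinarith
  linarith

variable {N : ℕ} [NeZero N]

theorem InfPExp.coeff_zero_eq_zero {ψ : PowerSeries ℂ} (h : InfPExp N (fun _ => 0) ψ) :
    PowerSeries.coeff 0 ψ = 0 := by
  refine inf_coeff_zero_eq_zero_of_hasSum_zero (fun n => PowerSeries.coeff n ψ) ?_
  intro z hz hz1
  obtain ⟨τ, rfl⟩ := exists_infZ_eq N hz hz1
  exact h τ

/-- Uniqueness of the expansion: only the zero series converges to the zero function. -/
theorem InfExp.eq_zero {φ : LaurentSeries ℂ} (h : InfExp N (fun _ => 0) φ) : φ = 0 := by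
  by_contra hφ
  have h1 := h.powerSeriesPart
  simp only [mul_zero] at h1
  have h2 := h1.coeff_zero_eq_zero
  rw [LaurentSeries.powerSeriesPart_coeff] at h2
  simp only [Nat.cast_zero, add_zero] at h2
  exact hφ (coeff_order_eq_zero.mp h2)

theorem InfExp.unique {f : ℍ → ℂ} {φ ψ : LaurentSeries ℂ} (hφ : InfExp N f φ)
    (hψ : InfExp N f ψ) : φ = ψ := by
  have h := hφ.sub hψ
  simp only [sub_self] at h
  exact sub_eq_zero.mp h.eq_zero

theorem InfExp.unique' {f g : ℍ → ℂ} {φ ψ : LaurentSeries ℂ} (hφ : InfExp N f φ)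
    (hψ : InfExp N g ψ) (hfg : ∀ τ, f τ = g τ) : φ = ψ :=
  (hφ.congr hfg).unique hψ

variable (N) in
/-- The ring of functions on `ℍ` admitting a convergent Laurent expansion in
`z = exp (2πiτ/N)` (finitely many negative exponents). -/
def expRing : Subring (ℍ → ℂ) where
  carrier := {f | ∃ φ, InfExp N f φ}
  mul_mem' := by
    rintro f g ⟨φ, hφ⟩ ⟨ψ, hψ⟩
    exact ⟨φ * ψ, hφ.mul hψ⟩
  one_mem' := ⟨1, InfExp.one⟩
  add_mem' := by
    rintro f g ⟨φ, hφ⟩ ⟨ψ, hψ⟩
    exact ⟨φ + ψ, hφ.add hψ⟩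
  zero_mem' := ⟨0, InfExp.zero⟩
  neg_mem' := by
    rintro f ⟨φ, hφ⟩
    exact ⟨-φ, hφ.neg⟩

theorem mem_expRing {f : ℍ → ℂ} : f ∈ expRing N ↔ ∃ φ, InfExp N f φ := Iff.rfl

theorem InfExp.mem_expRing {f : ℍ → ℂ} {φ : LaurentSeries ℂ} (h : InfExp N f φ) :
    f ∈ expRing N := ⟨φ, h⟩

variable (N) in
/-- The expansion at `∞` as a function. -/
def expInfFun (f : expRing N) : LaurentSeries ℂ := Classical.choose f.2

theorem expInfFun_spec (f : expRing N) : InfExp N (f : ℍ → ℂ) (expInfFun N f) :=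
  Classical.choose_spec f.2

theorem InfExp.expInfFun_eq {f : ℍ → ℂ} {φ : LaurentSeries ℂ} (h : InfExp N f φ) :
    expInfFun N ⟨f, h.mem_expRing⟩ = φ :=
  (expInfFun_spec _).unique h

variable (N) in
/-- The expansion at `∞` as a ring homomorphism. -/
def expInf : expRing N →+* LaurentSeries ℂ where
  toFun := expInfFun N
  map_one' := (expInfFun_spec (1 : expRing N)).unique InfExp.one
  map_mul' f g := (expInfFun_spec (f * g)).unique ((expInfFun_spec f).mul (expInfFun_spec g))
  map_zero' := (expInfFun_spec (0 : expRing N)).unique InfExp.zero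
  map_add' f g := (expInfFun_spec (f + g)).unique ((expInfFun_spec f).add (expInfFun_spec g))

theorem expInf_spec (f : expRing N) : InfExp N (f : ℍ → ℂ) (expInf N f) :=
  expInfFun_spec f

theorem InfExp.expInf_eq {f : ℍ → ℂ} {φ : LaurentSeries ℂ} (h : InfExp N f φ) :
    expInf N ⟨f, h.mem_expRing⟩ = φ :=
  h.expInfFun_eq

theorem expInf_injective : Function.Injective (expInf N) := by
  intro f g hfg
  apply Subtype.ext
  have hf := expInf_spec f
  have hg := expInf_spec g
  rw [hfg] at hf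
  exact hf.fun_unique hg

instance expRing_isDomain : IsDomain (expRing N) :=
  Function.Injective.isDomain (expInf N) expInf_injective

end Fermat.Agent.S24

end
end
-- ===== PACK-END S24/Inf/Unique.lean

-- ===== PACK-BEGIN S24/Deg/H648Height.lean
section


/-!
# S24 / M6-AN (helper648): the height lemma and `τ ↦ J (d τ) ∈ goodRing N`

No Hermite normal form is needed: an integer matrix of determinant `d` maps `{im τ ≥ 1}` into
`{im ≤ d · im τ}`.
-/

set_option autoImplicit false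

noncomputable section

open UpperHalfPlane ModularGroup CongruenceSubgroup Polynomial
open scoped MatrixGroups Manifold Modular Real

namespace Fermat.Agent.S24.H648

/-- A nonzero integral linear form in `τ` with `im τ ≥ 1` has absolute value at least `1`. -/
lemma one_le_normSq_int_linear (c e : ℤ) (τ : ℍ) (hτ : 1 ≤ τ.im)
    (h : (c : ℂ) * τ + e ≠ 0) : 1 ≤ Complex.normSq ((c : ℂ) * τ + e) := by
  have hval : Complex.normSq ((c : ℂ) * τ + e) = (c * τ.re + e) ^ 2 + (c * τ.im) ^ 2 := by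
    rw [Complex.normSq_apply]
    simp [pow_two]
  rw [hval]
  by_cases hc : c = 0
  · subst hc
    have he : e ≠ 0 := by
      rintro rfl
      simp at h
    have he1 : (1 : ℝ) ≤ (e : ℝ) ^ 2 := by
      have : (1 : ℤ) ≤ e ^ 2 := by
        have := Int.one_le_abs he
        nlinarith [abs_nonneg e, sq_abs e]
      exact_mod_cast this
    simpa using he1
  · have hc1 : (1 : ℝ) ≤ (c : ℝ) ^ 2 := by
      have : (1 : ℤ) ≤ c ^ 2 := by
        have := Int.one_le_abs hc
        nlinarith [abs_nonneg c, sq_abs c]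
      exact_mod_cast this
    have h1 : (1 : ℝ) ≤ (c * τ.im) ^ 2 := by
      rw [mul_pow]
      have : (1 : ℝ) ≤ τ.im ^ 2 := by nlinarith
      nlinarith
    nlinarith [sq_nonneg ((c : ℝ) * τ.re + e)]

/-- **Height lemma.** -/
lemma im_smul_scale_le (γ g : SL(2, ℤ)) (d : ℕ) (τ w : ℍ)
    (hw : (w : ℂ) = d * ((g • τ : ℍ) : ℂ)) (hτ : 1 ≤ τ.im) :
    (γ • w).im ≤ d * τ.im := by
  have hwim : w.im = d * (g • τ).im := by
    have := congrArg Complex.im hw
    simpa using this
  have hgτ : ((g • τ : ℍ) : ℂ) * denom g τ = num g τ := by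
    have h1 : ((g • τ : ℍ) : ℂ) = num g τ / denom g τ := by
      rw [sl_moeb, coe_smul_of_det_pos (by simp)]
    rw [h1, div_mul_cancel₀ _ (denom_ne_zero _ τ)]
  have hprod : denom γ w * denom g τ
      = ((γ 1 0 * d * g 0 0 + γ 1 1 * g 1 0 : ℤ) : ℂ) * τ
        + ((γ 1 0 * d * g 0 1 + γ 1 1 * g 1 1 : ℤ) : ℂ) := by
    have e1 : denom γ w = (γ 1 0 : ℂ) * w + γ 1 1 := by
      simp [denom]
    have e2 : denom g τ = (g 1 0 : ℂ) * τ + g 1 1 := by
      simp [denom]
    have e3 : num g τ = (g 0 0 : ℂ) * τ + g 0 1 := by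
      simp [num]
    rw [e1, hw, add_mul]
    have : (γ 1 0 : ℂ) * (d * ((g • τ : ℍ) : ℂ)) * denom g τ
        = (γ 1 0 : ℂ) * d * (((g • τ : ℍ) : ℂ) * denom g τ) := by ring
    rw [this, hgτ, e3, e2]
    push_cast
    ring
  have hne : denom γ w * denom g τ ≠ 0 :=
    mul_ne_zero (denom_ne_zero _ w) (denom_ne_zero _ τ)
  have hge : 1 ≤ Complex.normSq (denom γ w * denom g τ) := by
    rw [hprod] at hne ⊢
    exact one_le_normSq_int_linear _ _ τ hτ hne
  rw [ModularGroup.im_smul_eq_div_normSq, hwim, ModularGroup.im_smul_eq_div_normSq]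
  rw [Complex.normSq_mul] at hge
  have h1 : 0 < Complex.normSq (denom g τ) := Complex.normSq_pos.mpr (denom_ne_zero _ τ)
  have h2 : 0 < Complex.normSq (denom γ w) := Complex.normSq_pos.mpr (denom_ne_zero _ w)
  have hd : (0 : ℝ) ≤ d * τ.im := by
    have := τ.im_pos
    positivity
  have hAB : 1 ≤ Complex.normSq (denom g τ) * Complex.normSq (denom γ w) := by
    rw [mul_comm]; exact hge
  calc (d : ℝ) * (τ.im / Complex.normSq (denom g τ)) / Complex.normSq (denom γ w)
      = (d * τ.im) / (Complex.normSq (denom g τ) * Complex.normSq (denom γ w)) := by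
        field_simp
    _ ≤ d * τ.im := div_le_self hd hAB


/-- Points of the fundamental domain have imaginary part `≥ 1/2`. -/
lemma half_le_im_of_mem_fd {τ : ℍ} (h : τ ∈ 𝒟) : 1 / 2 ≤ τ.im := by
  have h1 := ModularGroup.three_le_four_mul_im_sq_of_mem_fd h
  have h2 := τ.im_pos
  nlinarith

section JScale

variable {J : ℍ → ℂ}

/-- Growth of all `SL₂(ℤ)`-translates of `τ ↦ J (d τ)`, from a bound for `J` on the fundamental
domain. -/
lemma expGrowth_J_scale (hJinv : ∀ (γ : SL(2, ℤ)) (τ : ℍ), J (γ • τ) = J τ)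
    (hJfd : ∃ C : ℝ, ∀ τ : ℍ, τ ∈ 𝒟 → ‖J τ‖ ≤ C * Real.exp (2 * π * τ.im))
    (d : ℕ) (s : ℍ → ℍ) (hs : ∀ τ : ℍ, (s τ : ℂ) = d * τ) (g : SL(2, ℤ)) :
    ExpGrowth (fun τ => J (s (g • τ))) := by
  obtain ⟨C, hC⟩ := hJfd
  refine ⟨|C|, d, fun τ hτ => ?_⟩
  obtain ⟨γ, hγ⟩ := ModularGroup.exists_smul_mem_fd (s (g • τ))
  have h1 : J (s (g • τ)) = J (γ • s (g • τ)) := (hJinv γ _).symm
  have h2 := hC _ hγ
  have h3 : (γ • s (g • τ)).im ≤ d * τ.im := im_smul_scale_le γ g d τ _ (hs _) hτ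
  show ‖J (s (g • τ))‖ ≤ _
  rw [h1]
  refine h2.trans ?_
  have h4 : Real.exp (2 * π * (γ • s (g • τ)).im) ≤ Real.exp (2 * π * d * τ.im) := by
    apply Real.exp_le_exp.mpr
    have := Real.pi_pos
    nlinarith
  calc C * Real.exp (2 * π * (γ • s (g • τ)).im)
      ≤ |C| * Real.exp (2 * π * (γ • s (g • τ)).im) := by
        gcongr
        exact le_abs_self C
    _ ≤ |C| * Real.exp (2 * π * d * τ.im) := by gcongr

/-- `τ ↦ J (d τ)` is holomorphic. -/
lemma mdifferentiable_J_scale (hJ : MDifferentiable 𝓘(ℂ) 𝓘(ℂ) J)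
    (d : ℕ) (hd : 0 < d) (s : ℍ → ℍ) (hs : ∀ τ : ℍ, (s τ : ℂ) = d * τ) :
    MDifferentiable 𝓘(ℂ) 𝓘(ℂ) (fun τ => J (s τ)) := by
  rw [UpperHalfPlane.mdifferentiable_iff] at hJ ⊢
  have hmaps : Set.MapsTo (fun z : ℂ => (d : ℂ) * z) {z | 0 < z.im} {z | 0 < z.im} := by
    intro z hz
    simp only [Set.mem_ofPred_eq] at hz ⊢
    have : ((d : ℂ) * z).im = d * z.im := by simp
    rw [this]
    positivity
  have hcomp : DifferentiableOn ℂ ((J ∘ ofComplex) ∘ fun z : ℂ => (d : ℂ) * z) {z | 0 < z.im} :=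
    hJ.comp (by fun_prop) hmaps
  refine hcomp.congr fun z hz => ?_
  simp only [Set.mem_ofPred_eq] at hz
  have hz' : 0 < ((d : ℂ) * z).im := hmaps hz
  simp only [Function.comp_apply]
  congr 1
  apply UpperHalfPlane.ext
  rw [hs, ofComplex_apply_of_im_pos hz, ofComplex_apply_of_im_pos hz']

/-- For `d ∣ N` and `γ ∈ Γ₀(N)` there is `γ' ∈ SL₂(ℤ)` with `d (γ τ) = γ' (d τ)`. -/
lemma exists_smul_scale_eq {N : ℕ} (d : ℕ) (hd : 0 < d) (hdN : d ∣ N) (γ : SL(2, ℤ))
    (hγ : γ ∈ Gamma0 N) :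
    ∃ γ' : SL(2, ℤ), ∀ τ w w' : ℍ, (w : ℂ) = d * τ → (w' : ℂ) = d * ((γ • τ : ℍ) : ℂ) →
      γ' • w = w' := by
  have hN : (N : ℤ) ∣ γ 1 0 := by
    rw [Gamma0_mem] at hγ
    exact (ZMod.intCast_zmod_eq_zero_iff_dvd _ _).mp hγ
  have hdc : (d : ℤ) ∣ γ 1 0 := (Int.natCast_dvd_natCast.mpr hdN).trans hN
  obtain ⟨k, hk⟩ := hdc
  have hdet : γ 0 0 * γ 1 1 - γ 0 1 * γ 1 0 = 1 := by
    have := γ.det_coe
    rw [Matrix.det_fin_two] at this
    exact this
  have hdet' : (!![γ 0 0, γ 0 1 * d; k, γ 1 1] : Matrix (Fin 2) (Fin 2) ℤ).det = 1 := by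
    rw [Matrix.det_fin_two_of]
    rw [hk] at hdet
    linear_combination hdet
  set γ' : SL(2, ℤ) := ⟨!![γ 0 0, γ 0 1 * d; k, γ 1 1], hdet'⟩ with hγ'def
  have e00 : γ' 0 0 = γ 0 0 := rfl
  have e01 : γ' 0 1 = γ 0 1 * d := rfl
  have e10 : γ' 1 0 = k := rfl
  have e11 : γ' 1 1 = γ 1 1 := rfl
  refine ⟨γ', fun τ w w' hw hw' => ?_⟩
  apply UpperHalfPlane.ext
  rw [hw', coe_specialLinearGroup_apply γ τ, coe_specialLinearGroup_apply γ' w, hw, e00, e01,
    e10, e11]
  simp only [algebraMap_int_eq, Int.coe_castRingHom, Complex.ofReal_intCast]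
  have hden : ((γ 1 0 : ℤ) : ℂ) * τ + ((γ 1 1 : ℤ) : ℂ) ≠ 0 := by
    have := denom_ne_zero (γ : GL (Fin 2) ℝ) τ
    simpa [denom] using this
  have hd0 : (d : ℂ) ≠ 0 := by exact_mod_cast hd.ne'
  have hk' : ((γ 1 0 : ℤ) : ℂ) = d * k := by rw [hk]; push_cast; ring
  have hden' : (k : ℂ) * (d * τ) + ((γ 1 1 : ℤ) : ℂ) ≠ 0 := by
    have : (k : ℂ) * (d * τ) + ((γ 1 1 : ℤ) : ℂ) = ((γ 1 0 : ℤ) : ℂ) * τ + ((γ 1 1 : ℤ) : ℂ) := by
      rw [hk']; ring
    rw [this]; exact hden
  rw [div_eq_iff hden', mul_div_assoc', div_mul_eq_mul_div, eq_div_iff hden, hk']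
  push_cast
  ring

variable (N : ℕ)

/-- **`τ ↦ J (d τ)` is a good function of level `N` for `d ∣ N`.** -/
theorem J_scale_mem_goodRing (hJ : MDifferentiable 𝓘(ℂ) 𝓘(ℂ) J)
    (hJinv : ∀ (γ : SL(2, ℤ)) (τ : ℍ), J (γ • τ) = J τ)
    (hJfd : ∃ C : ℝ, ∀ τ : ℍ, τ ∈ 𝒟 → ‖J τ‖ ≤ C * Real.exp (2 * π * τ.im))
    (d : ℕ) (hd : 0 < d) (hdN : d ∣ N) (s : ℍ → ℍ) (hs : ∀ τ : ℍ, (s τ : ℂ) = d * τ) :
    (fun τ => J (s τ)) ∈ goodRing N := by
  refine ⟨mdifferentiable_J_scale hJ d hd s hs, fun γ hγ τ => ?_,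
    fun g => expGrowth_J_scale hJinv hJfd d s hs g⟩
  obtain ⟨γ', hγ'⟩ := exists_smul_scale_eq d hd hdN γ hγ
  show J (s (γ • τ)) = J (s τ)
  rw [← hγ' τ (s τ) (s (γ • τ)) (hs τ) (hs _), hJinv]

end JScale

end Fermat.Agent.S24.H648

end
end
-- ===== PACK-END S24/Deg/H648Height.lean

-- ===== PACK-BEGIN S24/Deg/H648JBound.lean
section


/-!
# S24 / M6-AN (helper648): the concrete `j`-function satisfies the hypotheses of
`J_scale_mem_goodRing`
-/

set_option autoImplicit false

noncomputable section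

open UpperHalfPlane ModularGroup CongruenceSubgroup Polynomial ModularForm Filter Asymptotics
open scoped MatrixGroups Manifold Modular Real

namespace Fermat.Agent.S24.H648

/-- A continuous function on `ℍ` which is `O(exp(2π m im τ))` at `i∞` is bounded by a multiple
of `exp(2π m im τ)` on the whole fundamental domain. -/
lemma exists_bound_fd_of_isBigO_exp {f : ℍ → ℂ} (hf : Continuous f) (m : ℝ)
    (hO : f =O[atImInfty] fun τ : ℍ => Real.exp (2 * π * m * τ.im)) :
    ∃ C : ℝ, ∀ τ : ℍ, τ ∈ 𝒟 → ‖f τ‖ ≤ C * Real.exp (2 * π * m * τ.im) := by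
  obtain ⟨D, hD, hO'⟩ := hO.exists_pos
  rw [IsBigOWith, atImInfty, eventually_comap, eventually_atTop] at hO'
  obtain ⟨y, hy⟩ := hO'
  have hfm : ContinuousOn (fun τ : ℍ => ‖f τ‖ / Real.exp (2 * π * m * τ.im))
      (truncatedFundamentalDomain y) := by
    apply Continuous.continuousOn
    refine hf.norm.div ?_ fun τ => (Real.exp_pos _).ne'
    exact Real.continuous_exp.comp (continuous_const.mul UpperHalfPlane.continuous_im)
  obtain ⟨E, hE⟩ : ∃ E, ∀ τ ∈ truncatedFundamentalDomain y,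
      ‖f τ‖ / Real.exp (2 * π * m * τ.im) ≤ E := by
    obtain ⟨E, hE⟩ := (isCompact_truncatedFundamentalDomain y).exists_bound_of_continuousOn hfm
    refine ⟨E, fun τ hτ => ?_⟩
    have := hE τ hτ
    rwa [Real.norm_of_nonneg (by positivity)] at this
  refine ⟨max D E, fun τ hτ => ?_⟩
  rcases le_total y (im τ) with hτ' | hτ'
  · have := hy _ hτ' τ rfl
    rw [Real.norm_of_nonneg (Real.exp_pos _).le] at this
    exact this.trans (mul_le_mul_of_nonneg_right (le_max_left _ _) (Real.exp_pos _).le)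
  · rw [← div_le_iff₀ (Real.exp_pos _)]
    exact (hE τ ⟨hτ, hτ'⟩).trans (le_max_right _ _)

/-- The analytic `j`-function `E₄³/Δ`. -/
def jFun (τ : ℍ) : ℂ := E₄ τ ^ 3 / ModularForm.discriminant τ

lemma jFun_def (τ : ℍ) : jFun τ = E₄ τ ^ 3 / ModularForm.discriminant τ := rfl

lemma mdifferentiable_jFun : MDifferentiable 𝓘(ℂ) 𝓘(ℂ) jFun := by
  have h4 : MDifferentiable 𝓘(ℂ) 𝓘(ℂ) (E₄ : ℍ → ℂ) := ModularFormClass.holo E₄
  have hΔ : MDifferentiable 𝓘(ℂ) 𝓘(ℂ) (ModularForm.discriminant : ℍ → ℂ) :=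
    ModularFormClass.holo CuspForm.discriminant
  rw [UpperHalfPlane.mdifferentiable_iff] at h4 hΔ ⊢
  have : DifferentiableOn ℂ
      (fun z => ((E₄ : ℍ → ℂ) ∘ ofComplex) z ^ 3 / ((ModularForm.discriminant : ℍ → ℂ) ∘ ofComplex) z)
      {z | 0 < z.im} :=
    (h4.pow 3).div hΔ fun z _ => discriminant_ne_zero _
  exact this

lemma jFun_smul (γ : SL(2, ℤ)) (τ : ℍ) : jFun (γ • τ) = jFun τ := by
  have : SlashInvariantFormClass (ModularForm 𝒮ℒ 4) Γ(1) 4 := Gamma_one_coe_eq_SL ▸ inferInstance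
  have : SlashInvariantFormClass (CuspForm 𝒮ℒ 12) Γ(1) 12 :=
    Gamma_one_coe_eq_SL ▸ inferInstance
  have h4 := SlashInvariantForm.slash_action_eqn_SL'' E₄ (mem_Gamma_one γ) τ
  have h12 := SlashInvariantForm.slash_action_eqn_SL'' CuspForm.discriminant (mem_Gamma_one γ) τ
  have hd : denom γ τ ≠ 0 := denom_ne_zero _ τ
  have hΔ : ModularForm.discriminant τ ≠ 0 := discriminant_ne_zero τ
  have h12' : ModularForm.discriminant (γ • τ) = denom γ τ ^ (12 : ℤ) * ModularForm.discriminant τ :=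
    h12
  rw [jFun_def, jFun_def, h4, h12']
  have e1 : (denom γ τ ^ (4 : ℤ) * E₄ τ) ^ 3 = denom γ τ ^ (12 : ℤ) * E₄ τ ^ 3 := by
    rw [mul_pow, ← zpow_natCast, ← zpow_mul]
    norm_num
  rw [e1, mul_div_mul_left _ _ (zpow_ne_zero _ hd)]

lemma continuous_jFun : Continuous jFun := mdifferentiable_jFun.continuous

lemma jFun_isBigO : jFun =O[atImInfty] fun τ : ℍ => Real.exp (2 * π * (1 : ℝ) * τ.im) := by
  have h4 : IsBoundedAtImInfty (E₄ : ℍ → ℂ) := ModularFormClass.bdd_at_infty E₄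
  have h4' : (fun τ : ℍ => E₄ τ ^ 3) =O[atImInfty] (fun _ : ℍ => (1 : ℝ)) := by
    have h1 : (E₄ : ℍ → ℂ) =O[atImInfty] (fun _ : ℍ => (1 : ℝ)) := h4
    simpa using h1.pow 3
  have hΔ := exp_isBigO_discriminant
  -- `1/Δ = O(exp(2π im))`
  have hinv : (fun τ : ℍ => (ModularForm.discriminant τ)⁻¹)
      =O[atImInfty] fun τ : ℍ => (Real.exp (-2 * π * τ.im))⁻¹ := by
    refine hΔ.inv_rev ?_
    exact Eventually.of_forall fun τ h => absurd h (Real.exp_pos _).ne'
  have hmul := h4'.mul hinv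
  refine (hmul.congr_left fun τ => by rw [jFun_def, div_eq_mul_inv]).congr_right fun τ => ?_
  rw [one_mul, ← Real.exp_neg]
  congr 1
  ring

theorem jFun_bound_fd :
    ∃ C : ℝ, ∀ τ : ℍ, τ ∈ 𝒟 → ‖jFun τ‖ ≤ C * Real.exp (2 * π * τ.im) := by
  obtain ⟨C, hC⟩ := exists_bound_fd_of_isBigO_exp continuous_jFun 1 jFun_isBigO
  exact ⟨C, fun τ hτ => by simpa using hC τ hτ⟩

/-- **`τ ↦ j (d τ)` is a good function of level `N` for `d ∣ N`.** -/
theorem jFun_scale_mem_goodRing (N : ℕ) (d : ℕ) (hd : 0 < d) (hdN : d ∣ N) (s : ℍ → ℍ)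
    (hs : ∀ τ : ℍ, (s τ : ℂ) = d * τ) : (fun τ => jFun (s τ)) ∈ goodRing N :=
  J_scale_mem_goodRing N mdifferentiable_jFun jFun_smul jFun_bound_fd d hd hdN s hs

end Fermat.Agent.S24.H648

end
end
-- ===== PACK-END S24/Deg/H648JBound.lean

-- ===== PACK-BEGIN S37/H818/BaseChange.lean
section
/-
S37 / LEVEL TRANSFER (helper818), part 2: the base-change identity
  `i^* ∘ a_* = a'_* ∘ i₁^*`  on divisors, for a commutative square of function fields

      F  --a-->  F₁
      |i         |i₁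
      v          v
      G  --a'->  G₁

under (1) the norm formulas for `a` and `a'`, (2) norm compatibility
`N_{G₁/G}(i₁ f) = i (N_{F₁/F} f)` (true when `G₁ = G ⊗_F F₁`), and (3) local generators in `F₁`.
-/




set_option autoImplicit false
set_option linter.style.haveILetI false

noncomputable section

namespace Fermat.Agent.S37.H818

open AlgebraicCurve

variable {K F F₁ G G₁ : Type*} [Field K] [Field F] [Field F₁] [Field G] [Field G₁]
  [Algebra K F] [Algebra K F₁] [Algebra K G] [Algebra K G₁]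

/-- Norm compatibility for the square: `N_{G₁/G}(i₁ f) = i (N_{F₁/F} f)`. -/
def NormCompat (a : F →ₐ[K] F₁) (i : F →ₐ[K] G) (a' : G →ₐ[K] G₁) (i₁ : F₁ →ₐ[K] G₁) : Prop :=
  ∀ f : F₁, (letI := algebraAlong a'; Algebra.norm G (i₁ f)) =
    i (letI := algebraAlong a; Algebra.norm F f)

/-- Local generators: every place `w` of `F₁` has a function with nonzero order at `w` and
order zero at all other places in the same fibre of `a`. -/
def HasLocalGenerators (a : F →ₐ[K] F₁) (ha : a.toRingHom.IsIntegral) : Prop :=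
  ∀ w : Place K F₁, ∃ f : F₁, f ≠ 0 ∧ w.ord f ≠ 0 ∧
    ∀ w' : Place K F₁, w' ≠ w → w'.restrictAlong a ha = w.restrictAlong a ha → w'.ord f = 0

section

variable (a : F →ₐ[K] F₁) (i : F →ₐ[K] G) (a' : G →ₐ[K] G₁) (i₁ : F₁ →ₐ[K] G₁)
  (ha : a.toRingHom.IsIntegral) (hi : i.toRingHom.IsIntegral)
  (ha' : a'.toRingHom.IsIntegral) (hi₁ : i₁.toRingHom.IsIntegral)
  (hsq : i₁.comp a = a'.comp i)

include hsq in
/-- The two ways of restricting a place of `G₁` to `F` agree. -/
theorem restrict_square (W : Place K G₁) :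
    (W.restrictAlong a' ha').restrictAlong i hi = (W.restrictAlong i₁ hi₁).restrictAlong a ha := by
  have h1 : (i₁.comp a).toRingHom.IsIntegral := RingHom.IsIntegral.trans _ _ ha hi₁
  have h2 : (a'.comp i).toRingHom.IsIntegral := RingHom.IsIntegral.trans _ _ hi ha'
  rw [← restrictAlong_comp i a' hi ha' h2 W, ← restrictAlong_comp a i₁ ha hi₁ h1 W]
  exact (Place.restrictAlong_congr hsq h1 h2 W).symm

variable [HasPrincipalDivisors K G] [HasPrincipalDivisors K G₁]

/-- The defect of the base-change identity. -/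
def bcDefect : Divisor K F₁ →+ Divisor K G :=
  (Divisor.pullbackAlong i hi).comp (Divisor.pushforwardAlong a ha) -
    (Divisor.pushforwardAlong a' ha').comp (Divisor.pullbackAlong i₁ hi₁)

theorem bcDefect_apply (D : Divisor K F₁) :
    bcDefect a i a' i₁ ha hi ha' hi₁ D =
      Divisor.pullbackAlong i hi (Divisor.pushforwardAlong a ha D) -
        Divisor.pushforwardAlong a' ha' (Divisor.pullbackAlong i₁ hi₁ D) := rfl

include hsq in
/-- Locality: the defect of a place `w` is supported over the place `w|_F`. -/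
theorem bcDefect_single_apply_of_ne (w : Place K F₁) (n : ℤ) (u : Place K G)
    (hu : u.restrictAlong i hi ≠ w.restrictAlong a ha) :
    bcDefect a i a' i₁ ha hi ha' hi₁ (Finsupp.single w n) u = 0 := by
  classical
  rw [bcDefect_apply, Finsupp.sub_apply]
  have h1 : Divisor.pullbackAlong i hi (Divisor.pushforwardAlong a ha (Finsupp.single w n)) u
      = 0 := by
    rw [Divisor.pushforwardAlong_single, Divisor.pullbackAlong_apply,
      Finsupp.single_eq_of_ne hu, mul_zero]
  have h2 : Divisor.pushforwardAlong a' ha'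
      (Divisor.pullbackAlong i₁ hi₁ (Finsupp.single w n)) u = 0 := by
    rw [Divisor.pullbackAlong_single, map_sum, Finset.sum_apply']
    refine Finset.sum_eq_zero fun W hW => ?_
    rw [Divisor.pushforwardAlong_single]
    refine Finsupp.single_eq_of_ne ?_
    intro hWu
    apply hu
    rw [hWu, restrict_square a i a' i₁ ha hi ha' hi₁ hsq W, Place.mem_fiberAlong.mp hW]
  rw [h1, h2, sub_zero]

/-- The defect vanishes on principal divisors, by the norm formulas and norm compatibility. -/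
theorem bcDefect_principal
    (hfin : FiniteAlong K a) (hN : NormFormulaAlong K a hfin)
    (hfin' : FiniteAlong K a') (hN' : NormFormulaAlong K a' hfin')
    (hnorm : NormCompat a i a' i₁)
    {f : F₁} (hf : f ≠ 0) {D : Divisor K F₁} (hD : ∀ w, D w = w.ord f) :
    bcDefect a i a' i₁ ha hi ha' hi₁ D = 0 := by
  rw [bcDefect_apply, sub_eq_zero]
  ext u
  -- left side
  have hL : Divisor.pullbackAlong i hi (Divisor.pushforwardAlong a ha D) u =
      u.ord (i (letI := algebraAlong a; Algebra.norm F f)) := by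
    letI := algebraAlong a
    haveI := isScalarTower_along a
    haveI := isIntegral_along a ha
    haveI : Module.Finite F F₁ := hfin
    have hE : ∀ v : Place K F, Divisor.pushforward F D v = v.ord (Algebra.norm F f) :=
      fun v => hN f hf D hD v
    have : Divisor.pushforwardAlong a ha D = Divisor.pushforward F D := rfl
    rw [this]
    letI := algebraAlong i
    haveI := isScalarTower_along i
    haveI := isIntegral_along i hi
    exact Divisor.pullback_apply_eq_ord (F' := G) hE u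
  -- right side
  have hR : Divisor.pushforwardAlong a' ha' (Divisor.pullbackAlong i₁ hi₁ D) u =
      u.ord (letI := algebraAlong a'; Algebra.norm G (i₁ f)) := by
    have hD' : ∀ W : Place K G₁, Divisor.pullbackAlong i₁ hi₁ D W = W.ord (i₁ f) := by
      intro W
      letI := algebraAlong i₁
      haveI := isScalarTower_along i₁
      haveI := isIntegral_along i₁ hi₁
      exact Divisor.pullback_apply_eq_ord (F' := G₁) hD W
    letI := algebraAlong a'
    haveI := isScalarTower_along a'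
    haveI := isIntegral_along a' ha'
    haveI : Module.Finite G G₁ := hfin'
    have hf' : i₁ f ≠ 0 := by simpa using hf
    exact hN' (i₁ f) hf' _ hD' u
  rw [hL, hR, hnorm f]

variable [HasPrincipalDivisors K F₁]

include hsq in
/-- **Base change identity** `i^* a_* = a'_* i₁^*` on divisors. -/
theorem pullback_pushforward_eq
    (hfin : FiniteAlong K a) (hN : NormFormulaAlong K a hfin)
    (hfin' : FiniteAlong K a') (hN' : NormFormulaAlong K a' hfin')
    (hnorm : NormCompat a i a' i₁) (hLG : HasLocalGenerators a ha) (D : Divisor K F₁) :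
    Divisor.pullbackAlong i hi (Divisor.pushforwardAlong a ha D) =
      Divisor.pushforwardAlong a' ha' (Divisor.pullbackAlong i₁ hi₁ D) := by
  classical
  rw [← sub_eq_zero, ← bcDefect_apply]
  set δ := bcDefect a i a' i₁ ha hi ha' hi₁ with hδ
  -- it suffices to treat single places
  suffices h : ∀ w : Place K F₁, δ (Finsupp.single w 1) = 0 by
    induction D using Finsupp.induction with
    | zero => simp
    | single_add w n D _ _ ih =>
      rw [map_add, ih, add_zero]
      have : Finsupp.single w n = n • Finsupp.single w (1 : ℤ) := by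
        rw [Finsupp.smul_single, smul_eq_mul, mul_one]
      rw [this, map_zsmul, h w, smul_zero]
  intro w₀
  ext u
  rw [Finsupp.zero_apply]
  by_cases hu : u.restrictAlong i hi = w₀.restrictAlong a ha
  swap
  · exact bcDefect_single_apply_of_ne a i a' i₁ ha hi ha' hi₁ hsq w₀ 1 u hu
  obtain ⟨f, hf0, hfw, hfo⟩ := hLG w₀
  obtain ⟨D, hD, -⟩ := HasPrincipalDivisors.exists_divisor (K := K) f hf0
  have h0 : δ D = 0 := bcDefect_principal a i a' i₁ ha hi ha' hi₁ hfin hN hfin' hN' hnorm hf0 hD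
  -- decompose D
  have hsum : δ D u = ∑ w ∈ D.support, δ (Finsupp.single w (D w)) u := by
    conv_lhs => rw [← Finsupp.sum_single D]
    rw [Finsupp.sum, map_sum, Finset.sum_apply']
  have hw₀ : w₀ ∈ D.support := by
    rw [Finsupp.mem_support_iff, hD]
    exact hfw
  rw [Finset.sum_eq_single_of_mem w₀ hw₀] at hsum
  · rw [h0, Finsupp.zero_apply] at hsum
    have : Finsupp.single w₀ (D w₀) = (D w₀) • Finsupp.single w₀ (1 : ℤ) := by
      rw [Finsupp.smul_single, smul_eq_mul, mul_one]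
    rw [this, map_zsmul, Finsupp.smul_apply, smul_eq_mul] at hsum
    have hne : D w₀ ≠ 0 := by rw [hD]; exact hfw
    rcases mul_eq_zero.mp hsum.symm with h | h
    · exact absurd h hne
    · exact h
  · intro w _ hw
    by_cases hwv : w.restrictAlong a ha = w₀.restrictAlong a ha
    · have : D w = 0 := by rw [hD]; exact hfo w hw hwv
      rw [this, Finsupp.single_zero, map_zero, Finsupp.zero_apply]
    · exact bcDefect_single_apply_of_ne a i a' i₁ ha hi ha' hi₁ hsq w (D w) u
        (fun h => hwv (h.symm.trans hu))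

end

end Fermat.Agent.S37.H818

end

end
-- ===== PACK-END S37/H818/BaseChange.lean

-- ===== PACK-BEGIN S37/H818/HeckeComm.lean
section
/-
S37 / LEVEL TRANSFER (helper818), part 3: a correspondence `a_* b^*` commutes with pullback
along a degeneracy map `i`, at the level of divisors and of `Pic0`.

      F  ==a,b==>  F₁
      |i           |i₁
      v            v
      G  ==a',b'=> G₁          i₁ ∘ a = a' ∘ i,   i₁ ∘ b = b' ∘ i.
-/




set_option autoImplicit false
set_option linter.style.haveILetI false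

noncomputable section

namespace Fermat.Agent.S37.H818

open AlgebraicCurve

variable {K F F₁ G G₁ : Type*} [Field K] [Field F] [Field F₁] [Field G] [Field G₁]
  [Algebra K F] [Algebra K F₁] [Algebra K G] [Algebra K G₁]

theorem pullbackAlong_congr [HasPrincipalDivisors K G] {φ φ' : F →ₐ[K] G} (h : φ = φ')
    (hφ : φ.toRingHom.IsIntegral) (hφ' : φ'.toRingHom.IsIntegral) (D : Divisor K F) :
    Divisor.pullbackAlong φ hφ D = Divisor.pullbackAlong φ' hφ' D := by
  subst h
  rfl

section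

variable (a b : F →ₐ[K] F₁) (i : F →ₐ[K] G) (a' b' : G →ₐ[K] G₁) (i₁ : F₁ →ₐ[K] G₁)
  (ha : a.toRingHom.IsIntegral) (hb : b.toRingHom.IsIntegral) (hi : i.toRingHom.IsIntegral)
  (ha' : a'.toRingHom.IsIntegral) (hb' : b'.toRingHom.IsIntegral)
  (hi₁ : i₁.toRingHom.IsIntegral)
  (hsqa : i₁.comp a = a'.comp i) (hsqb : i₁.comp b = b'.comp i)

variable [HasPrincipalDivisors K G] [HasPrincipalDivisors K G₁] [HasPrincipalDivisors K F₁]

include hsqa hsqb hi₁ in
/-- **Hecke/degeneracy commutation on divisors**: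
`i^* (a_* b^* D) = a'_* b'^* (i^* D)`. -/
theorem pullbackAlong_correspondence
    (hfin : FiniteAlong K a) (hN : NormFormulaAlong K a hfin)
    (hfin' : FiniteAlong K a') (hN' : NormFormulaAlong K a' hfin')
    (hnorm : NormCompat a i a' i₁) (hLG : HasLocalGenerators a ha) (D : Divisor K F) :
    Divisor.pullbackAlong i hi (Divisor.correspondence b a hb ha D) =
      Divisor.correspondence b' a' hb' ha' (Divisor.pullbackAlong i hi D) := by
  have h1 : (i₁.comp b).toRingHom.IsIntegral := RingHom.IsIntegral.trans _ _ hb hi₁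
  have h2 : (b'.comp i).toRingHom.IsIntegral := RingHom.IsIntegral.trans _ _ hi hb'
  rw [Divisor.correspondence_apply, Divisor.correspondence_apply,
    pullback_pushforward_eq a i a' i₁ ha hi ha' hi₁ hsqa hfin hN hfin' hN' hnorm hLG,
    ← pullbackAlong_comp b i₁ hb hi₁ h1, ← pullbackAlong_comp i b' hi hb' h2,
    pullbackAlong_congr hsqb h1 h2]

end

/-! ### Pullback on `Pic0` along a homomorphism -/

section PullbackHom

variable [HasPrincipalDivisors K G] (i : F →ₐ[K] G) (hi : i.toRingHom.IsIntegral)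
  (hFI : FundamentalIdentityAlong K i hi)

/-- Pullback of degree-zero divisors along `i`. -/
def pullbackDegZeroAlong :
    Divisor.degZero (K := K) (F := F) →+ Divisor.degZero (K := K) (F := G) :=
  ((Divisor.pullbackAlong i hi).domRestrict (Divisor.degZero (K := K) (F := F))).codRestrict _
    fun D => Divisor.pullbackAlong_mem_degZero i hi hFI D.2

@[simp]
theorem coe_pullbackDegZeroAlong (D : Divisor.degZero (K := K) (F := F)) :
    (pullbackDegZeroAlong i hi hFI D : Divisor K G) =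
      Divisor.pullbackAlong i hi (D : Divisor K F) := rfl

/-- Pullback on `Pic0` along `i` (the map `π^*` of the level transfer). -/
def pullbackPic0Along : Pic0 K F →+ Pic0 K G :=
  QuotientAddGroup.map _ _ (pullbackDegZeroAlong i hi hFI) (by
    rintro ⟨D, hD0⟩ hD
    simp only [AddSubgroup.mem_addSubgroupOf] at hD ⊢
    exact Divisor.isPrincipal_pullbackAlong i hi hD)

theorem pullbackPic0Along_mk (D : Divisor.degZero (K := K) (F := F)) :
    pullbackPic0Along i hi hFI (Pic0.mk D) = Pic0.mk (pullbackDegZeroAlong i hi hFI D) := rfl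

end PullbackHom

section Pic0Comm

variable (a b : F →ₐ[K] F₁) (i : F →ₐ[K] G) (a' b' : G →ₐ[K] G₁) (i₁ : F₁ →ₐ[K] G₁)
  (ha : a.toRingHom.IsIntegral) (hb : b.toRingHom.IsIntegral) (hi : i.toRingHom.IsIntegral)
  (ha' : a'.toRingHom.IsIntegral) (hb' : b'.toRingHom.IsIntegral)
  (hi₁ : i₁.toRingHom.IsIntegral)
  (hsqa : i₁.comp a = a'.comp i) (hsqb : i₁.comp b = b'.comp i)

variable [HasPrincipalDivisors K G] [HasPrincipalDivisors K G₁] [HasPrincipalDivisors K F₁]

include hsqa hsqb hi₁ in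
/-- **Hecke/degeneracy commutation on `Pic0`**: `π^* ∘ T = T' ∘ π^*`, where
`T = a_* b^*` on `Pic0 F`, `T' = a'_* b'^*` on `Pic0 G` and `π^* = i^*`. -/
theorem pullbackPic0Along_correspondence
    (hFIb : FundamentalIdentityAlong K b hb)
    (hfin : FiniteAlong K a) (hN : NormFormulaAlong K a hfin)
    (hFIb' : FundamentalIdentityAlong K b' hb')
    (hfin' : FiniteAlong K a') (hN' : NormFormulaAlong K a' hfin')
    (hFIi : FundamentalIdentityAlong K i hi)
    (hnorm : NormCompat a i a' i₁) (hLG : HasLocalGenerators a ha) (x : Pic0 K F) :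
    pullbackPic0Along i hi hFIi (Pic0.correspondence b a hb ha hFIb hfin hN x) =
      Pic0.correspondence b' a' hb' ha' hFIb' hfin' hN' (pullbackPic0Along i hi hFIi x) := by
  obtain ⟨D, rfl⟩ := Pic0.mk_surjective x
  rw [Pic0.correspondence_mk, pullbackPic0Along_mk, pullbackPic0Along_mk,
    Pic0.correspondence_mk]
  congr 1
  apply Subtype.ext
  simp only [coe_pullbackDegZeroAlong, Pic0.coe_degZeroCorrespondence]
  exact pullbackAlong_correspondence a b i a' b' i₁ ha hb hi ha' hb' hi₁ hsqa hsqb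
    hfin hN hfin' hN' hnorm hLG D

end Pic0Comm

end Fermat.Agent.S37.H818

end

end
-- ===== PACK-END S37/H818/HeckeComm.lean

-- ===== PACK-BEGIN S29/H801/M1Norm.lean
section
/-
S29 / M1 (helper801), part 4: norm compatibility of a commutative square of field extensions

      F  --a-->  F₁
      |i         |i₁
      v          v
      G  --a'->  G₁

from "linear disjointness": `i₁` maps `F`-linearly independent families of `F₁` to `G`-linearly
independent families of `G₁`, and `[G₁ : G] ≤ [F₁ : F]`.  (Generic; Mathlib + Prelude + H818.)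
-/




set_option autoImplicit false
set_option linter.style.haveILetI false

noncomputable section

namespace Fermat.Agent.S29.H801

open AlgebraicCurve Fermat.Agent.S37.H818

section Abstract

variable {F F₁ G G₁ : Type*} [Field F] [Field F₁] [Field G] [Field G₁]
  [Algebra F F₁] [Algebra G G₁]

/-- Norms commute with a map of extensions which sends a basis to a basis. -/
theorem norm_map_of_basis (i : F →+* G) (i₁ : F₁ →+* G₁)
    (hsq : ∀ x : F, i₁ (algebraMap F F₁ x) = algebraMap G G₁ (i x))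
    {ι : Type*} [Fintype ι] [DecidableEq ι] (b : Module.Basis ι F F₁) (b' : Module.Basis ι G G₁)
    (hb : ∀ k, b' k = i₁ (b k)) (f : F₁) :
    Algebra.norm G (i₁ f) = i (Algebra.norm F f) := by
  rw [Algebra.norm_eq_matrix_det b', Algebra.norm_eq_matrix_det b, RingHom.map_det]
  congr 1
  ext j k
  rw [RingHom.mapMatrix_apply, Matrix.map_apply, Algebra.leftMulMatrix_eq_repr_mul,
    Algebra.leftMulMatrix_eq_repr_mul]
  have h1 : f * b k = ∑ m, (b.repr (f * b k) m) • b m := (b.sum_repr (f * b k)).symm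
  have h2 : i₁ f * b' k = ∑ m, (i (b.repr (f * b k) m)) • b' m := by
    rw [hb k, ← map_mul, h1, map_sum]
    refine Finset.sum_congr rfl fun m _ => ?_
    rw [Algebra.smul_def, map_mul, hsq, hb m, Algebra.smul_def]
    congr 2
    rw [← h1]
  rw [h2, map_sum]
  simp only [map_smul, Module.Basis.repr_self, Finsupp.coe_finsetSum, Finsupp.coe_smul,
    Finset.sum_apply, Pi.smul_apply, Finsupp.single_apply, smul_eq_mul, mul_ite, mul_one,
    mul_zero, Finset.sum_ite_eq', Finset.mem_univ, if_true]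

/-- Norm compatibility from preservation of linear independence and a rank bound. -/
theorem norm_map_of_linearIndependent [Module.Finite F F₁] [Module.Finite G G₁]
    (i : F →+* G) (i₁ : F₁ →+* G₁)
    (hsq : ∀ x : F, i₁ (algebraMap F F₁ x) = algebraMap G G₁ (i x))
    (hrk : Module.finrank G G₁ ≤ Module.finrank F F₁)
    (hLD : ∀ (n : ℕ) (b : Fin n → F₁), LinearIndependent F b → LinearIndependent G (i₁ ∘ b))
    (f : F₁) :
    Algebra.norm G (i₁ f) = i (Algebra.norm F f) := by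
  classical
  set n := Module.finrank F F₁ with hn
  let b : Module.Basis (Fin n) F F₁ := Module.finBasis F F₁
  have hli : LinearIndependent G (i₁ ∘ b) := hLD n b b.linearIndependent
  have hcard : Fintype.card (Fin n) = Module.finrank G G₁ := by
    have h1 := hli.fintype_card_le_finrank
    rw [Fintype.card_fin] at h1 ⊢
    omega
  haveI : Nonempty (Fin n) := ⟨⟨0, by rw [hn]; exact Module.finrank_pos⟩⟩
  let b' : Module.Basis (Fin n) G G₁ := basisOfLinearIndependentOfCardEqFinrank hli hcard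
  have hb : ∀ k, b' k = i₁ (b k) := fun k => by
    simp only [b', coe_basisOfLinearIndependentOfCardEqFinrank, Function.comp_apply]
  exact norm_map_of_basis i i₁ hsq b b' hb f

/-- Norm compatibility from a rank bound and generation: the image of `i₁` spans `G₁` over `G`
and `[F₁ : F] ≤ [G₁ : G]`. -/
theorem norm_map_of_span [Module.Finite F F₁] [Module.Finite G G₁]
    (i : F →+* G) (i₁ : F₁ →+* G₁)
    (hsq : ∀ x : F, i₁ (algebraMap F F₁ x) = algebraMap G G₁ (i x))
    (hrk : Module.finrank F F₁ ≤ Module.finrank G G₁)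
    (hspan : Submodule.span G (Set.range i₁) = ⊤) (f : F₁) :
    Algebra.norm G (i₁ f) = i (Algebra.norm F f) := by
  classical
  set n := Module.finrank F F₁ with hn
  let b : Module.Basis (Fin n) F F₁ := Module.finBasis F F₁
  have hsp : ⊤ ≤ Submodule.span G (Set.range (i₁ ∘ b)) := by
    rw [← hspan, Submodule.span_le]
    rintro _ ⟨x, rfl⟩
    have hx : x = ∑ k, b.repr x k • b k := (b.sum_repr x).symm
    rw [hx, map_sum]
    refine Submodule.sum_mem _ fun k _ => ?_
    rw [Algebra.smul_def, map_mul, hsq, ← Algebra.smul_def]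
    exact Submodule.smul_mem _ _ (Submodule.subset_span ⟨k, rfl⟩)
  have hcard : Fintype.card (Fin n) = Module.finrank G G₁ := by
    have h1 : Module.finrank G G₁ ≤ Fintype.card (Fin n) := by
      have h2 := finrank_range_le_card (R := G) (i₁ ∘ b)
      have h3 : Submodule.span G (Set.range (i₁ ∘ b)) = ⊤ := top_le_iff.mp hsp
      rw [Set.finrank, h3, finrank_top] at h2
      exact h2
    rw [Fintype.card_fin] at h1 ⊢
    omega
  let b' : Module.Basis (Fin n) G G₁ := basisOfTopLeSpanOfCardEqFinrank (i₁ ∘ b) hsp hcard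
  have hb : ∀ k, b' k = i₁ (b k) := fun k => by
    simp only [b', coe_basisOfTopLeSpanOfCardEqFinrank, Function.comp_apply]
  exact norm_map_of_basis i i₁ hsq b b' hb f

end Abstract

section Along

variable {K F F₁ G G₁ : Type*} [Field K] [Field F] [Field F₁] [Field G] [Field G₁]
  [Algebra K F] [Algebra K F₁] [Algebra K G] [Algebra K G₁]

/-- **`NormCompat` from linear disjointness.** -/
theorem normCompat_of_linearIndependent
    (a : F →ₐ[K] F₁) (i : F →ₐ[K] G) (a' : G →ₐ[K] G₁) (i₁ : F₁ →ₐ[K] G₁)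
    (hsq : i₁.comp a = a'.comp i)
    (hfin : FiniteAlong K a) (hfin' : FiniteAlong K a')
    (hrk : finrankAlong K a' ≤ finrankAlong K a)
    (hLD : letI := algebraAlong a; letI := algebraAlong a';
      ∀ (n : ℕ) (b : Fin n → F₁), LinearIndependent F b → LinearIndependent G (i₁ ∘ b)) :
    NormCompat a i a' i₁ := by
  intro f
  letI := algebraAlong a
  letI := algebraAlong a'
  haveI : Module.Finite F F₁ := hfin
  haveI : Module.Finite G G₁ := hfin'
  exact norm_map_of_linearIndependent (i : F →+* G) (i₁ : F₁ →+* G₁)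
    (fun x => by
      show i₁ (a x) = a' (i x)
      exact AlgHom.congr_fun hsq x)
    hrk hLD f

/-- **`NormCompat` from generation and a rank bound.** -/
theorem normCompat_of_span
    (a : F →ₐ[K] F₁) (i : F →ₐ[K] G) (a' : G →ₐ[K] G₁) (i₁ : F₁ →ₐ[K] G₁)
    (hsq : i₁.comp a = a'.comp i)
    (hfin : FiniteAlong K a) (hfin' : FiniteAlong K a')
    (hrk : finrankAlong K a ≤ finrankAlong K a')
    (hspan : letI := algebraAlong a';
      Submodule.span G (Set.range i₁) = ⊤) :
    NormCompat a i a' i₁ := by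
  intro f
  letI := algebraAlong a
  letI := algebraAlong a'
  haveI : Module.Finite F F₁ := hfin
  haveI : Module.Finite G G₁ := hfin'
  exact norm_map_of_span (i : F →+* G) (i₁ : F₁ →+* G₁)
    (fun x => by
      show i₁ (a x) = a' (i x)
      exact AlgHom.congr_fun hsq x)
    hrk hspan f

end Along

section Sup

variable {K E : Type*} [Field K] [Field E] [Algebra K E]

/-- If `B` is algebraic over `A`, the compositum `A ⊔ B` is the `A`-span of `B`. -/
theorem mem_span_of_mem_sup (A B : IntermediateField K E)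
    (halg : ∀ x ∈ B, IsAlgebraic A x) {t : E} (ht : t ∈ A ⊔ B) :
    t ∈ Submodule.span A (B : Set E) := by
  have h1 : (IntermediateField.adjoin A (B : Set E)).restrictScalars K = A ⊔ B := by
    rw [IntermediateField.restrictScalars_adjoin_eq_sup, IntermediateField.adjoin_self]
  have h2 : t ∈ IntermediateField.adjoin A (B : Set E) := by
    have h : t ∈ (IntermediateField.adjoin A (B : Set E)).restrictScalars K := by
      rw [h1]; exact ht
    exact h
  have h3 := IntermediateField.adjoin_toSubalgebra_of_isAlgebraic halg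
  have h4 : t ∈ Algebra.adjoin A (B : Set E) := by
    rw [← h3]; exact h2
  have h5 : t ∈ Subalgebra.toSubmodule (Algebra.adjoin A (B : Set E)) := h4
  rw [Algebra.adjoin_eq_span] at h5
  have h6 : ((Submonoid.closure (B : Set E) : Submonoid E) : Set E) = (B : Set E) := by
    have := Submonoid.closure_eq B.toSubalgebra.toSubmonoid
    exact congrArg (fun S : Submonoid E => (S : Set E)) this
  rwa [h6] at h5

end Sup

end Fermat.Agent.S29.H801

end

end
-- ===== PACK-END S29/H801/M1Norm.lean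

-- ===== PACK-BEGIN S20/Comb694/RelIndex.lean
section





/-!
# Relative index of `Gamma0 (p * M)` in `Gamma0 M`

`(Gamma0 (p * M)).relIndex (Gamma0 M) = p` if `p ∣ M`, and `p + 1` otherwise (`p` prime, `M ≠ 0`).
-/

set_option autoImplicit false

namespace Fermat.Agent.S20.Comb694

open Matrix MatrixGroups CongruenceSubgroup

lemma mem_Gamma0_iff_dvd (N : ℕ) (g : SL(2, ℤ)) : g ∈ Gamma0 N ↔ (N : ℤ) ∣ g 1 0 := by
  rw [Gamma0_mem]
  exact ZMod.intCast_zmod_eq_zero_iff_dvd _ _

lemma Gamma0_mul_le (p M : ℕ) : Gamma0 (p * M) ≤ Gamma0 M := by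
  intro g hg
  rw [mem_Gamma0_iff_dvd] at hg ⊢
  refine dvd_trans ?_ hg
  push_cast
  exact dvd_mul_left _ _

/-- The matrix `[[1, 0], [c, 1]]` in `SL(2,ℤ)`. -/
def lowRep (c : ℤ) : SL(2, ℤ) := ⟨!![1, 0; c, 1], by simp [Matrix.det_fin_two]⟩

@[simp] lemma lowRep_apply_zero_zero (c : ℤ) : lowRep c 0 0 = 1 := rfl
@[simp] lemma lowRep_apply_one_zero (c : ℤ) : lowRep c 1 0 = c := rfl

lemma lowRep_mem (M : ℕ) (t : ℤ) : lowRep ((M : ℤ) * t) ∈ Gamma0 M := by
  rw [mem_Gamma0_iff_dvd, lowRep_apply_one_zero]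
  exact dvd_mul_right _ _

/-- Coset criterion for `Gamma0 M ⧸ (Gamma0 (p * M)).subgroupOf (Gamma0 M)`. -/
lemma subMk_eq_iff (p M : ℕ) (hM : M ≠ 0) (g g' : Gamma0 M) (c₁ c₁' : ℤ)
    (hc : (g : SL(2, ℤ)) 1 0 = M * c₁) (hc' : (g' : SL(2, ℤ)) 1 0 = M * c₁') :
    (QuotientGroup.mk g : Gamma0 M ⧸ (Gamma0 (p * M)).subgroupOf (Gamma0 M))
        = QuotientGroup.mk g' ↔
      (p : ℤ) ∣ ((g : SL(2, ℤ)) 0 0 * c₁' - c₁ * (g' : SL(2, ℤ)) 0 0) := by
  rw [QuotientGroup.eq, Subgroup.mem_subgroupOf, mem_Gamma0_iff_dvd]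
  simp only [Subgroup.coe_mul, Subgroup.coe_inv, inv_mul_apply_one_zero, hc, hc']
  have h : (g : SL(2, ℤ)) 0 0 * ((M : ℤ) * c₁') - (M : ℤ) * c₁ * (g' : SL(2, ℤ)) 0 0
      = (M : ℤ) * ((g : SL(2, ℤ)) 0 0 * c₁' - c₁ * (g' : SL(2, ℤ)) 0 0) := by ring
  rw [h]
  push_cast
  rw [mul_comm (p : ℤ) (M : ℤ)]
  exact mul_dvd_mul_iff_left (by exact_mod_cast hM)

/-- For `g ∈ Gamma0 M` with `p ∣ M`, the entry `g 0 0` is nonzero mod `p`. -/
lemma a_ne_zero_of_dvd (p M : ℕ) (hp : p.Prime) (h : p ∣ M) (g : Gamma0 M) :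
    ¬ (p : ℤ) ∣ (g : SL(2, ℤ)) 0 0 := by
  intro ha
  have hg := (mem_Gamma0_iff_dvd M _).mp g.2
  have hpc : (p : ℤ) ∣ (g : SL(2, ℤ)) 1 0 := dvd_trans (by exact_mod_cast h) hg
  have hdet := (g : SL(2, ℤ)).det_coe
  rw [Matrix.det_fin_two] at hdet
  have h1 : (p : ℤ) ∣ 1 := by
    rw [← hdet]
    exact dvd_sub (dvd_mul_of_dvd_left ha _) (dvd_mul_of_dvd_right hpc _)
  have := Int.natCast_dvd_natCast.mp (by simpa using h1 : ((p : ℕ) : ℤ) ∣ ((1 : ℕ) : ℤ))
  exact hp.one_lt.ne' (Nat.dvd_one.mp this)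

/-- The coset representative attached to `t : ZMod p`. -/
noncomputable def relRep (p M : ℕ) (t : ZMod p) :
    Gamma0 M ⧸ (Gamma0 (p * M)).subgroupOf (Gamma0 M) :=
  QuotientGroup.mk ⟨lowRep ((M : ℤ) * (ZMod.cast t : ℤ)), lowRep_mem M _⟩

lemma relRep_injective (p M : ℕ) (hM : M ≠ 0) : Function.Injective (relRep p M) := by
  intro t t' h
  simp only [relRep] at h
  rw [subMk_eq_iff p M hM _ _ (ZMod.cast t : ℤ) (ZMod.cast t' : ℤ) rfl rfl] at h
  simp only [lowRep_apply_zero_zero, _root_.one_mul, _root_.mul_one] at h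
  have := (ZMod.intCast_zmod_eq_zero_iff_dvd _ p).mpr h
  push_cast at this
  exact (sub_eq_zero.mp this).symm

/-- Elements with `p ∤ a` are in the range of `relRep`. -/
lemma mem_range_relRep (p M : ℕ) (hM : M ≠ 0) (hp : p.Prime) (g : Gamma0 M)
    (ha : ¬ (p : ℤ) ∣ (g : SL(2, ℤ)) 0 0) :
    (QuotientGroup.mk g : Gamma0 M ⧸ (Gamma0 (p * M)).subgroupOf (Gamma0 M))
      ∈ Set.range (relRep p M) := by
  haveI : Fact p.Prime := ⟨hp⟩
  obtain ⟨c₁, hc₁⟩ := (mem_Gamma0_iff_dvd M _).mp g.2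
  have ha' : (((g : SL(2, ℤ)) 0 0 : ℤ) : ZMod p) ≠ 0 := by
    rwa [Ne, ZMod.intCast_zmod_eq_zero_iff_dvd]
  refine ⟨(c₁ : ZMod p) * (((g : SL(2, ℤ)) 0 0 : ℤ) : ZMod p)⁻¹, ?_⟩
  simp only [relRep]
  rw [subMk_eq_iff p M hM _ _ _ c₁ rfl hc₁]
  simp only [lowRep_apply_zero_zero, _root_.one_mul]
  rw [← ZMod.intCast_zmod_eq_zero_iff_dvd]
  push_cast
  rw [_root_.mul_assoc, inv_mul_cancel₀ ha', _root_.mul_one, sub_self]

/-- **Relative index, ramified case**: `[Γ₀(M) : Γ₀(pM)] = p` if `p ∣ M`. -/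
theorem relIndex_Gamma0_of_dvd (p M : ℕ) (hM : M ≠ 0) (hp : p.Prime) (h : p ∣ M) :
    (Gamma0 (p * M)).relIndex (Gamma0 M) = p := by
  have hbij : Function.Bijective (relRep p M) := by
    refine ⟨relRep_injective p M hM, ?_⟩
    intro q
    obtain ⟨g, rfl⟩ := QuotientGroup.mk_surjective q
    exact mem_range_relRep p M hM hp g (a_ne_zero_of_dvd p M hp h g)
  rw [Subgroup.relIndex, Subgroup.index, ← Nat.card_eq_of_bijective _ hbij, Nat.card_zmod]

/-- An element of `Gamma0 M` with first column `(p, M)`, for `p ∤ M`. -/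
lemma exists_special (p M : ℕ) (hp : p.Prime) (h : ¬ p ∣ M) :
    ∃ g : Gamma0 M, (g : SL(2, ℤ)) 0 0 = p ∧ (g : SL(2, ℤ)) 1 0 = M := by
  have hcop : IsCoprime (p : ℤ) (M : ℤ) := by
    rw [Int.isCoprime_iff_gcd_eq_one, Int.gcd_natCast_natCast]
    exact (Nat.Prime.coprime_iff_not_dvd hp).mpr h
  obtain ⟨g, hg0, hg1⟩ := IsCoprime.exists_SL2_col hcop 0
  refine ⟨⟨g, ?_⟩, hg0, hg1⟩
  rw [mem_Gamma0_iff_dvd, hg1]

/-- **Relative index, unramified case**: `[Γ₀(M) : Γ₀(pM)] = p + 1` if `p ∤ M`. -/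
theorem relIndex_Gamma0_of_not_dvd (p M : ℕ) (hM : M ≠ 0) (hp : p.Prime) (h : ¬ p ∣ M) :
    (Gamma0 (p * M)).relIndex (Gamma0 M) = p + 1 := by
  haveI : Fact p.Prime := ⟨hp⟩
  obtain ⟨g₀, hg₀0, hg₀1⟩ := exists_special p M hp h
  let f : Option (ZMod p) → Gamma0 M ⧸ (Gamma0 (p * M)).subgroupOf (Gamma0 M) :=
    fun o => o.elim (QuotientGroup.mk g₀) (relRep p M)
  have hne : ∀ t : ZMod p, relRep p M t ≠ QuotientGroup.mk g₀ := by
    intro t ht
    simp only [relRep] at ht
    rw [subMk_eq_iff p M hM _ _ (ZMod.cast t : ℤ) 1 rfl (by rw [hg₀1, _root_.mul_one])] at ht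
    simp only [lowRep_apply_zero_zero, _root_.one_mul, hg₀0] at ht
    have h1 : (p : ℤ) ∣ 1 := by
      have := dvd_add ht (dvd_mul_left (p : ℤ) (ZMod.cast t : ℤ))
      simpa using this
    have := Int.natCast_dvd_natCast.mp (by simpa using h1 : ((p : ℕ) : ℤ) ∣ ((1 : ℕ) : ℤ))
    exact hp.one_lt.ne' (Nat.dvd_one.mp this)
  have hbij : Function.Bijective f := by
    constructor
    · rintro (_ | t) (_ | t') hh
      · rfl
      · exact absurd hh.symm (hne t')
      · exact absurd hh (hne t)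
      · exact congrArg some (relRep_injective p M hM hh)
    · intro q
      obtain ⟨g, rfl⟩ := QuotientGroup.mk_surjective q
      by_cases ha : (p : ℤ) ∣ (g : SL(2, ℤ)) 0 0
      · refine ⟨none, ?_⟩
        obtain ⟨c₁, hc₁⟩ := (mem_Gamma0_iff_dvd M _).mp g.2
        show QuotientGroup.mk g₀ = _
        rw [subMk_eq_iff p M hM _ _ 1 c₁ (by rw [hg₀1, _root_.mul_one]) hc₁, hg₀0]
        exact dvd_sub (dvd_mul_right _ _) (by simpa using ha)
      · obtain ⟨t, ht⟩ := mem_range_relRep p M hM hp g ha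
        exact ⟨some t, ht⟩
  rw [Subgroup.relIndex, Subgroup.index, ← Nat.card_eq_of_bijective _ hbij, Finite.card_option,
    Nat.card_zmod]

end Fermat.Agent.S20.Comb694

end
-- ===== PACK-END S20/Comb694/RelIndex.lean

-- ===== PACK-BEGIN S20/Comb694/Index.lean
section





/-!
# The index of `Gamma0 N` in `SL(2,ℤ)` is the Dedekind psi function

* `index_Gamma0 : (Gamma0 N).index = ModularCurve.dedekindPsi N` (all `N`, including `N = 0`)
* `card_quotient_Gamma0 : Nat.card (SL(2,ℤ) ⧸ Gamma0 N) = ModularCurve.dedekindPsi N`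
-/

set_option autoImplicit false

namespace Fermat.Agent.S20.Comb694

open Matrix MatrixGroups CongruenceSubgroup

lemma dedekindPsi_prime_mul_of_dvd (p M : ℕ) (hp : p.Prime) (hM : M ≠ 0) (h : p ∣ M) :
    ModularCurve.dedekindPsi (p * M) = p * ModularCurve.dedekindPsi M := by
  unfold ModularCurve.dedekindPsi
  have hset : (p * M).divisors.filter Squarefree = M.divisors.filter Squarefree := by
    ext d
    simp only [Finset.mem_filter, Nat.mem_divisors]
    constructor
    · rintro ⟨⟨hd, -⟩, hsq⟩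
      refine ⟨⟨?_, hM⟩, hsq⟩
      by_cases hpd : p ∣ d
      · obtain ⟨d', rfl⟩ := hpd
        have hd' : d' ∣ M := (Nat.mul_dvd_mul_iff_left hp.pos).mp hd
        have hcop : Nat.Coprime p d' := by
          rw [Nat.Prime.coprime_iff_not_dvd hp]
          intro hpd'
          have h2 : p * p ∣ p * d' := Nat.mul_dvd_mul_left p hpd'
          have h3 := hsq p h2
          exact hp.one_lt.ne' (Nat.isUnit_iff.mp h3)
        exact Nat.Coprime.mul_dvd_of_dvd_of_dvd hcop h hd'
      · exact Nat.Coprime.dvd_of_dvd_mul_left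
          ((Nat.Prime.coprime_iff_not_dvd hp).mpr hpd).symm hd
    · rintro ⟨⟨hd, -⟩, hsq⟩
      exact ⟨⟨dvd_mul_of_dvd_right hd p, mul_ne_zero hp.ne_zero hM⟩, hsq⟩
  rw [hset, Finset.mul_sum]
  refine Finset.sum_congr rfl fun d hd => ?_
  have hd' : d ∣ M := (Nat.mem_divisors.mp (Finset.mem_filter.mp hd).1).1
  exact Nat.mul_div_assoc p hd'

lemma dedekindPsi_prime_mul_of_not_dvd (p M : ℕ) (hp : p.Prime) (hM : M ≠ 0) (h : ¬ p ∣ M) :
    ModularCurve.dedekindPsi (p * M) = (p + 1) * ModularCurve.dedekindPsi M := by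
  unfold ModularCurve.dedekindPsi
  rw [← Finset.sum_filter_add_sum_filter_not ((p * M).divisors.filter Squarefree) (fun d => p ∣ d)]
  have hset1 : ((p * M).divisors.filter Squarefree).filter (fun d => ¬ p ∣ d)
      = M.divisors.filter Squarefree := by
    ext d
    simp only [Finset.mem_filter, Nat.mem_divisors]
    constructor
    · rintro ⟨⟨⟨hd, -⟩, hsq⟩, hpd⟩
      exact ⟨⟨Nat.Coprime.dvd_of_dvd_mul_left
        ((Nat.Prime.coprime_iff_not_dvd hp).mpr hpd).symm hd, hM⟩, hsq⟩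
    · rintro ⟨⟨hd, -⟩, hsq⟩
      exact ⟨⟨⟨dvd_mul_of_dvd_right hd p, mul_ne_zero hp.ne_zero hM⟩, hsq⟩,
        fun hpd => h (dvd_trans hpd hd)⟩
  have hset2 : ((p * M).divisors.filter Squarefree).filter (fun d => p ∣ d)
      = (M.divisors.filter Squarefree).image (fun d => p * d) := by
    ext d
    simp only [Finset.mem_filter, Nat.mem_divisors, Finset.mem_image]
    constructor
    · rintro ⟨⟨⟨hd, -⟩, hsq⟩, ⟨d', rfl⟩⟩
      exact ⟨d', ⟨⟨(Nat.mul_dvd_mul_iff_left hp.pos).mp hd, hM⟩, hsq.of_mul_right⟩, rfl⟩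
    · rintro ⟨d', ⟨⟨hd', -⟩, hsq'⟩, rfl⟩
      have hcop : Nat.Coprime p d' :=
        (Nat.Prime.coprime_iff_not_dvd hp).mpr fun hpd => h (dvd_trans hpd hd')
      exact ⟨⟨⟨Nat.mul_dvd_mul_left p hd', mul_ne_zero hp.ne_zero hM⟩,
        (Nat.squarefree_mul hcop).mpr ⟨hp.prime.squarefree, hsq'⟩⟩, dvd_mul_right _ _⟩
  rw [hset1, hset2, Finset.sum_image (fun x _ y _ hxy => Nat.eq_of_mul_eq_mul_left hp.pos hxy),
    _root_.add_mul, _root_.one_mul, Finset.mul_sum, add_comm]
  congr 1
  · refine Finset.sum_congr rfl fun d hd => ?_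
    have hd' : d ∣ M := (Nat.mem_divisors.mp (Finset.mem_filter.mp hd).1).1
    exact Nat.mul_div_assoc p hd'
  · refine Finset.sum_congr rfl fun d hd => ?_
    exact Nat.mul_div_mul_left M d hp.pos

lemma Gamma0_one_eq_top : Gamma0 1 = ⊤ := by
  ext g
  simp only [Gamma0_mem, Subgroup.mem_top, iff_true]
  exact Subsingleton.elim _ _

lemma index_Gamma0_zero : (Gamma0 0).index = 0 := by
  rw [Subgroup.index]
  haveI : Infinite (SL(2, ℤ) ⧸ Gamma0 0) := by
    refine Infinite.of_injective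
      (fun t : ℤ => (QuotientGroup.mk (lowRep t) : SL(2, ℤ) ⧸ Gamma0 0)) ?_
    intro t t' h
    simp only at h
    rw [mk_eq_mk_iff] at h
    simp only [lowRep_apply_zero_zero, lowRep_apply_one_zero, Int.cast_one, _root_.one_mul,
      _root_.mul_one] at h
    have h' : ((t' - t : ℤ) : ZMod 0) = 0 := h
    have h'' := (ZMod.intCast_zmod_eq_zero_iff_dvd (t' - t) 0).mp h'
    simp only [Nat.cast_zero, zero_dvd_iff] at h''
    exact (sub_eq_zero.mp h'').symm
  exact Nat.card_eq_zero_of_infinite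

lemma dedekindPsi_zero : ModularCurve.dedekindPsi 0 = 0 := by
  simp [ModularCurve.dedekindPsi]

/-- **(I1)** The index of `Γ₀(N)` in `SL(2,ℤ)` is `ψ(N)` (for `N ≠ 0`). -/
theorem index_Gamma0_of_ne_zero (N : ℕ) (hN : N ≠ 0) :
    (Gamma0 N).index = ModularCurve.dedekindPsi N := by
  induction N using induction_on_primes with
  | zero => exact absurd rfl hN
  | one => rw [ModularCurve.dedekindPsi_one, Gamma0_one_eq_top, Subgroup.index_top]
  | prime_mul p M hp ih =>
    have hM : M ≠ 0 := fun h => hN (by rw [h, _root_.MulZeroClass.mul_zero])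
    rw [← Subgroup.relIndex_mul_index (Gamma0_mul_le p M), ih hM]
    by_cases h : p ∣ M
    · rw [relIndex_Gamma0_of_dvd p M hM hp h, dedekindPsi_prime_mul_of_dvd p M hp hM h]
    · rw [relIndex_Gamma0_of_not_dvd p M hM hp h, dedekindPsi_prime_mul_of_not_dvd p M hp hM h]

/-- **(I1)** The index of `Γ₀(N)` in `SL(2,ℤ)` is `ψ(N)` (all `N`; both sides are `0` for
`N = 0`). -/
theorem index_Gamma0 (N : ℕ) : (Gamma0 N).index = ModularCurve.dedekindPsi N := by
  rcases eq_or_ne N 0 with rfl | hN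
  · rw [index_Gamma0_zero, dedekindPsi_zero]
  · exact index_Gamma0_of_ne_zero N hN

/-- **(I1)** `#(SL(2,ℤ) ⧸ Γ₀(N)) = ψ(N)`. -/
theorem card_quotient_Gamma0 (N : ℕ) :
    Nat.card (SL(2, ℤ) ⧸ Gamma0 N) = ModularCurve.dedekindPsi N :=
  index_Gamma0 N

end Fermat.Agent.S20.Comb694

end
-- ===== PACK-END S20/Comb694/Index.lean

-- ===== PACK-BEGIN S28/H867/Leaves.lean
section
/-
S28 [L] (helper867): leaf interface for the degree bookkeeping behind `coreData`.
Only definitions and `Prop`-valued leaf statements live here (no proofs needed).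
-/



set_option autoImplicit false

noncomputable section

open ModularCurve HahnSeries IntermediateField

namespace Fermat.Agent.S28.H867

variable (k : Type*) [Field k]

/-- `j(q^p)` as a Laurent series over `k`. -/
abbrev jp (p : ℕ) [NeZero p] : LaurentSeries k := qExpand k p (jqModC k)

/-- `k(j(q^p)) ⊂ k((q))`. -/
def jpField (p : ℕ) [NeZero p] : IntermediateField k (LaurentSeries k) :=
  IntermediateField.adjoin k {jp k p}

/-- `E_M = k(j(q^d) : d ∣ M)`. -/
abbrev EF (M : ℕ) : IntermediateField k (LaurentSeries k) := modularFunctionFieldFullC k M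

/-- `[E_M : k(j)]` (zero if infinite). -/
def degE (M : ℕ) : ℕ := (jField k).relfinrank (EF k M)

/-- The expected degree `ψ(N) = ∏_{p ∣ N} (p + 1) p^{v_p(N) - 1}`. -/
def gFun (N : ℕ) : ℕ := ∏ p ∈ N.primeFactors, (p + 1) * p ^ (N.factorization p - 1)

/-- Leaf [L.I]: `1, j, …, j^{p-1}` are linearly independent over every subfield of
`k((q^p)) = range V_p`. True for every field `k` and every `p ≥ 1`. -/
def LeafI (p : ℕ) [NeZero p] : Prop :=
  ∀ B : IntermediateField k (LaurentSeries k),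
    B ≤ (qExpandAlgHomC k p).fieldRange →
    LinearIndependent B (fun i : Fin p => (jqModC k) ^ (i : ℕ))

/-- Leaf [L.B1]: `j(q^p) ∉ k(j)`. True when `p` is prime and `(p : k) ≠ 0`. -/
def LeafB1 (p : ℕ) [NeZero p] : Prop := jp k p ∉ jField k

/-- Leaf [L.UP]: upper bound in characteristic zero. -/
def LeafUP (N : ℕ) : Prop := ∀ M : ℕ, M ∣ N → degE ℚ M ≤ gFun M

/-- Prime-level degrees: `[k(j, j_p) : k(j)] = p + 1 = [k(j, j_p) : k(j_p)]`. -/
structure PrimeLevel (p : ℕ) [NeZero p] : Prop where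
  deg_j : (jField k).relfinrank (jField k ⊔ jpField k p) = p + 1
  deg_jp : (jpField k p).relfinrank (jField k ⊔ jpField k p) = p + 1

end Fermat.Agent.S28.H867

end

end
-- ===== PACK-END S28/H867/Leaves.lean

-- ===== PACK-BEGIN S28/H867/Degree.lean
section



set_option autoImplicit false
noncomputable section
open ModularCurve HahnSeries IntermediateField

namespace Fermat.Agent.S28.H867

section Generic

variable {k Ω : Type*} [Field k] [Field Ω] [Algebra k Ω]

/-- `[A(S) : A]` as a `relfinrank`. -/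
theorem relfinrank_sup_adjoin (A : IntermediateField k Ω) (S : Set Ω) :
    A.relfinrank (A ⊔ adjoin k S) = Module.finrank A (adjoin A S) := by
  have h : A ≤ A ⊔ adjoin k S := le_sup_left
  rw [relfinrank_eq_finrank_of_le h]
  have : extendScalars h = adjoin A S := by
    apply IntermediateField.restrictScalars_injective k
    rw [extendScalars_restrictScalars, restrictScalars_adjoin_eq_sup]
  rw [this]

theorem relfinrank_sup_adjoin_simple (A : IntermediateField k Ω) {x : Ω} (hx : IsIntegral A x) :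
    A.relfinrank (A ⊔ adjoin k {x}) = (minpoly A x).natDegree := by
  rw [relfinrank_sup_adjoin, adjoin.finrank hx]

theorem relfinrank_sup_adjoin_ne_zero (A : IntermediateField k Ω) {S : Set Ω} (hS : S.Finite)
    (hint : ∀ x ∈ S, IsIntegral A x) : A.relfinrank (A ⊔ adjoin k S) ≠ 0 := by
  rw [relfinrank_sup_adjoin]
  have : Finite S := hS
  have := finiteDimensional_adjoin (K := A) hint
  exact Module.finrank_pos.ne'

theorem relfinrank_ne_zero_of_le {A B C : IntermediateField k Ω} (hAB : A ≤ B) (hBC : B ≤ C)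
    (h : A.relfinrank C ≠ 0) : A.relfinrank B ≠ 0 ∧ B.relfinrank C ≠ 0 := by
  rw [← relfinrank_mul_relfinrank hAB hBC] at h
  exact ⟨left_ne_zero_of_mul h, right_ne_zero_of_mul h⟩

/-- A linearly independent family of size `n` inside `C` bounds `[C : B]` from below
(when finite). -/
theorem le_relfinrank_of_linearIndependent {B C : IntermediateField k Ω} (hBC : B ≤ C)
    (hfin : B.relfinrank C ≠ 0) {n : ℕ} (v : Fin n → Ω) (hv : ∀ i, v i ∈ C)
    (hli : LinearIndependent B v) : n ≤ B.relfinrank C := by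
  rw [relfinrank_eq_finrank_of_le hBC] at hfin ⊢
  have hfd : FiniteDimensional B (extendScalars hBC) :=
    Module.finite_of_finrank_pos (Nat.pos_of_ne_zero hfin)
  let v' : Fin n → extendScalars hBC := fun i => ⟨v i, hv i⟩
  have hli' : LinearIndependent B v' := by
    apply LinearIndependent.of_comp (extendScalars hBC).val.toLinearMap
    exact hli
  simpa using hli'.fintype_card_le_finrank

end Generic

section Basic

variable (k : Type*) [Field k]

theorem jField_le_EF (M : ℕ) : jField k ≤ EF k M := by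
  rw [jField, adjoin_simple_le_iff]
  exact jqModC_mem_full k M

theorem jpField_eq_map (p : ℕ) [NeZero p] :
    jpField k p = (jField k).map (qExpandAlgHomC k p) := by
  rw [jpField, jField, adjoin_map, Set.image_singleton]
  rfl

theorem EF_le_EF_mul (M p : ℕ) [NeZero M] [NeZero p] : EF k M ≤ EF k (M * p) :=
  haveI : NeZero (M * p) := ⟨Nat.mul_ne_zero (NeZero.ne M) (NeZero.ne p)⟩
  full_degeneracyC_le k (Dvd.intro _ rfl)

theorem map_EF_le (M p : ℕ) [NeZero p] :
    (EF k M).map (qExpandAlgHomC k p) ≤ EF k (M * p) :=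
  full_degeneracyC_map_le k M p

/-- Step (b): `[E_{Mp} : k(j)] ≥ p · [E_M : k(j)]`. -/
theorem degE_mul_ge (M p : ℕ) [NeZero p] (hP : PrimeLevel k p) (hI : LeafI k p)
    (hfin : degE k (M * p) ≠ 0) : p * degE k M ≤ degE k (M * p) := by
  set V := qExpandAlgHomC k p with hV
  set A₀ := jField k with hA₀
  set A := jpField k p with hA
  set B := (EF k M).map V with hB
  set C := B ⊔ A₀ with hC
  set E' := EF k (M * p) with hE'
  set P := A₀ ⊔ A with hPdef
  have hAB : A ≤ B := by
    rw [hA, jpField_eq_map, hB]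
    exact IntermediateField.map_mono _ (jField_le_EF k M)
  have hBE : B ≤ E' := map_EF_le k M p
  have hA₀E : A₀ ≤ E' := jField_le_EF k (M * p)
  have hCE : C ≤ E' := sup_le hBE hA₀E
  have hBC : B ≤ C := le_sup_left
  have hPC : P ≤ C := sup_le le_sup_right (hAB.trans hBC)
  have hPE : P ≤ E' := hPC.trans hCE
  have hA₀P : A₀ ≤ P := le_sup_left
  have hAP : A ≤ P := le_sup_right
  -- D_{Mp} = [E' : A]
  have h1 : A₀.relfinrank E' = A.relfinrank E' := by
    rw [← relfinrank_mul_relfinrank hA₀P hPE, ← relfinrank_mul_relfinrank hAP hPE,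
      hP.deg_j, hP.deg_jp]
  have h2 : A.relfinrank E' = A.relfinrank B * (B.relfinrank C * C.relfinrank E') := by
    rw [relfinrank_mul_relfinrank hBC hCE, relfinrank_mul_relfinrank hAB hBE]
  have h3 : A.relfinrank B = degE k M := by
    rw [hA, jpField_eq_map, hB, relfinrank_map_map]
    rfl
  have hfin' : A.relfinrank E' ≠ 0 := by rw [← h1]; exact hfin
  have hBCfin : B.relfinrank C ≠ 0 := by
    rw [h2] at hfin'
    exact left_ne_zero_of_mul (right_ne_zero_of_mul hfin')
  have hCEfin : C.relfinrank E' ≠ 0 := by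
    rw [h2] at hfin'
    exact right_ne_zero_of_mul (right_ne_zero_of_mul hfin')
  have h4 : p ≤ B.relfinrank C := by
    refine le_relfinrank_of_linearIndependent hBC hBCfin _ ?_ (hI B ?_)
    · intro i
      refine pow_mem ?_ _
      exact (le_sup_right : A₀ ≤ C) (mem_adjoin_simple_self k _)
    · rw [hB]
      intro x hx
      obtain ⟨y, -, rfl⟩ := hx
      exact ⟨y, rfl⟩
  show p * degE k M ≤ A₀.relfinrank E'
  rw [h1, h2, h3]
  calc p * degE k M = degE k M * (p * 1) := by ring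
    _ ≤ degE k M * (B.relfinrank C * C.relfinrank E') := by
        apply Nat.mul_le_mul_left
        exact Nat.mul_le_mul h4 (Nat.one_le_iff_ne_zero.mpr hCEfin)

end Basic

end Fermat.Agent.S28.H867

end
end
-- ===== PACK-END S28/H867/Degree.lean

-- ===== PACK-BEGIN S28/H867/GFun.lean
section



set_option autoImplicit false
noncomputable section

namespace Fermat.Agent.S28.H867

section GFun

theorem gFun_one : gFun 1 = 1 := by
  simp [gFun]

theorem gFun_pos (N : ℕ) : 0 < gFun N := by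
  unfold gFun
  apply Finset.prod_pos
  intro p hp
  have hp' := Nat.prime_of_mem_primeFactors hp
  exact Nat.mul_pos (Nat.succ_pos _) (pow_pos hp'.pos _)

theorem gFun_mul_of_dvd {M p : ℕ} (hM : M ≠ 0) (hp : p.Prime) (hpM : p ∣ M) :
    gFun (M * p) = p * gFun M := by
  unfold gFun
  have hpf : (M * p).primeFactors = M.primeFactors := by
    rw [Nat.primeFactors_mul hM hp.ne_zero, hp.primeFactors, Finset.union_eq_left,
      Finset.singleton_subset_iff]
    exact Nat.mem_primeFactors.mpr ⟨hp, hpM, hM⟩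
  have hpmem : p ∈ M.primeFactors := Nat.mem_primeFactors.mpr ⟨hp, hpM, hM⟩
  rw [hpf, ← Finset.mul_prod_erase _ _ hpmem, ← Finset.mul_prod_erase _ _ hpmem]
  have hv : 1 ≤ M.factorization p := (hp.dvd_iff_one_le_factorization hM).mp hpM
  have h1 : (M * p).factorization p = M.factorization p + 1 := by
    rw [Nat.factorization_mul hM hp.ne_zero]
    simp [hp.factorization]
  have h2 : ∀ q ∈ M.primeFactors.erase p, (M * p).factorization q = M.factorization q := by
    intro q hq
    rw [Nat.factorization_mul hM hp.ne_zero]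
    have hqp : q ≠ p := Finset.ne_of_mem_erase hq
    simp [hp.factorization, Finsupp.single_apply, hqp.symm]
  rw [Finset.prod_congr rfl fun q hq => by rw [h2 q hq], h1]
  have h3 : M.factorization p + 1 - 1 = (M.factorization p - 1) + 1 := by omega
  rw [h3, pow_succ]
  ring

theorem gFun_mul_of_not_dvd {M p : ℕ} (hM : M ≠ 0) (hp : p.Prime) (hpM : ¬ p ∣ M) :
    gFun (M * p) = (p + 1) * gFun M := by
  unfold gFun
  have hpnmem : p ∉ M.primeFactors := fun h => hpM (Nat.dvd_of_mem_primeFactors h)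
  have hpf : (M * p).primeFactors = insert p M.primeFactors := by
    rw [Nat.primeFactors_mul hM hp.ne_zero, hp.primeFactors, Finset.union_comm]
    rfl
  rw [hpf, Finset.prod_insert hpnmem]
  have h1 : (M * p).factorization p = 1 := by
    rw [Nat.factorization_mul hM hp.ne_zero]
    simp [hp.factorization, Nat.factorization_eq_zero_of_not_dvd hpM]
  have h2 : ∀ q ∈ M.primeFactors, (M * p).factorization q = M.factorization q := by
    intro q hq
    rw [Nat.factorization_mul hM hp.ne_zero]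
    have hqp : q ≠ p := fun h => hpnmem (h ▸ hq)
    simp [hp.factorization, Finsupp.single_apply, hqp.symm]
  rw [Finset.prod_congr rfl fun q hq => by rw [h2 q hq], h1]
  simp

theorem gFun_prime {p : ℕ} (hp : p.Prime) : gFun p = p + 1 := by
  have := gFun_mul_of_not_dvd (M := 1) one_ne_zero hp (by simpa using hp.one_lt.ne')
  rwa [one_mul, gFun_one, mul_one] at this

end GFun

end Fermat.Agent.S28.H867

end
end
-- ===== PACK-END S28/H867/GFun.lean

-- ===== PACK-BEGIN S28/H867/IntZ.lean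
section



set_option autoImplicit false
noncomputable section
open ModularCurve HahnSeries Polynomial

namespace Fermat.Agent.S28.H867

section IntZ

variable {A : Type*} [CommRing A]

theorem ringHom_comp_evalAt {B : Type*} [CommRing B] (ψ : LaurentSeries A →+* LaurentSeries B)
    (y : LaurentSeries A) : ψ.comp (evalAt y) = evalAt (ψ y) := by
  apply Polynomial.ringHom_ext
  · intro a; simp [evalAt]
  · simp [evalAt]

/-- Integrality is transported by ring homomorphisms. -/
theorem isIntegralElem_map {B : Type*} [CommRing B] (ψ : LaurentSeries A →+* LaurentSeries B)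
    {y x : LaurentSeries A} (h : (evalAt y).IsIntegralElem x) :
    (evalAt (ψ y)).IsIntegralElem (ψ x) := by
  obtain ⟨P, hP, hPx⟩ := h
  refine ⟨P, hP, ?_⟩
  rw [← ringHom_comp_evalAt, ← Polynomial.hom_eval₂, hPx, map_zero]

/-- Transitivity: `y` integral over `ℤ[j]` and `x` integral over `ℤ[y]` imply `x` integral
over `ℤ[j]`. -/
theorem isIntegralElem_trans {j y x : LaurentSeries A} (hy : (evalAt j).IsIntegralElem y)
    (hx : (evalAt y).IsIntegralElem x) : (evalAt j).IsIntegralElem x := by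
  let _ : Algebra (Polynomial ℤ) (LaurentSeries A) := (evalAt j).toAlgebra
  have hy' : IsIntegral (Polynomial ℤ) y := hy
  set C := integralClosure (Polynomial ℤ) (LaurentSeries A) with hC
  have hyC : y ∈ C := hy'
  obtain ⟨P, hP, hPx⟩ := hx
  let φ : Polynomial ℤ →+* C := (Polynomial.aeval (R := ℤ) (⟨y, hyC⟩ : C)).toRingHom
  have hφ : (algebraMap C (LaurentSeries A)).comp φ = evalAt y := by
    apply Polynomial.ringHom_ext
    · intro a; simp [φ, evalAt]
    · simp [φ, evalAt]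
  have hxC : IsIntegral C x := by
    refine ⟨P.map φ, hP.map _, ?_⟩
    rw [Polynomial.eval₂_map, hφ]
    exact hPx
  exact isIntegral_trans (R := Polynomial ℤ) (A := C) x hxC

end IntZ

section Jd

/-- `j(q^d)` is integral over `ℤ[j]`, given modular polynomials at all primes dividing `d`. -/
theorem isIntegralElem_jd (d : ℕ) (hd : d ≠ 0)
    (hΦ : ∀ p : ℕ, p.Prime → p ∣ d → ∀ [NeZero p], Nonempty (ModPolyData p)) :
    (evalAt (jqModC ℤ)).IsIntegralElem (@qExpand ℤ _ d ⟨hd⟩ (jqModC ℤ)) := by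
  induction d using Nat.recOnMul with
  | zero => exact absurd rfl hd
  | one =>
    rw [qExpand_one_apply]
    refine ⟨Polynomial.X - Polynomial.C Polynomial.X, Polynomial.monic_X_sub_C _, ?_⟩
    simp [evalAt]
  | prime p hp =>
    have : NeZero p := ⟨hp.ne_zero⟩
    obtain ⟨D⟩ := hΦ p hp dvd_rfl
    exact ⟨D.Φ, D.monic, D.eval_jp⟩
  | mul a b iha ihb =>
    have ha0 : a ≠ 0 := fun h => hd (by rw [h, zero_mul])
    have hb0 : b ≠ 0 := fun h => hd (by rw [h, mul_zero])
    have : NeZero a := ⟨ha0⟩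
    have : NeZero b := ⟨hb0⟩
    have h1 := iha ha0 fun p hp hpa => hΦ p hp (hpa.mul_right b)
    have h2 := ihb hb0 fun p hp hpb => hΦ p hp (hpb.mul_left a)
    have h3 := isIntegralElem_map (qExpand ℤ a) h2
    rw [qExpand_qExpand] at h3
    exact isIntegralElem_trans h1 h3

/-- The `integral` field of `CoreData`. -/
theorem coreData_integral (N : ℕ) [NeZero N]
    (hΦ : ∀ p : ℕ, p.Prime → p ∣ N → ∀ [NeZero p], Nonempty (ModPolyData p)) :
    ∀ (d : ℕ) [NeZero d], d ∣ N →
      ∃ P : Polynomial (Polynomial ℤ), P.Monic ∧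
        P.eval₂ (evalAt (jqModC ℤ)) (qExpand ℤ d (jqModC ℤ)) = 0 := by
  intro d hd hdN
  exact isIntegralElem_jd d hd.out fun p hp hpd => hΦ p hp (hpd.trans hdN)

end Jd

end Fermat.Agent.S28.H867

end
end
-- ===== PACK-END S28/H867/IntZ.lean

-- ===== PACK-BEGIN S28/H565/EulerProd.lean
section




/-!
# S28 analytic bridge, part 2: the Euler product (helper565)

We show that the formal power series `ModularCurve.etaProd = ∏ (1 - X^(n+1))` of the Prelude
(defined as a `tprod` in the Pi-topology on `ℤ⟦X⟧`) is the Taylor expansion of the analytic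
function `q ↦ ∏' (1 - q^(n+1))` on the unit disc.
-/

set_option autoImplicit false

noncomputable section

open Complex Function Filter Topology
open scoped Real PowerSeries.WithPiTopology

namespace Fermat.Agent.S28.H565

/-- Taylor coefficients at a point are continuous for locally uniform convergence of
holomorphic functions. -/
theorem tendsto_iteratedDeriv_of_tendstoLocallyUniformlyOn {U : Set ℂ} (hU : IsOpen U)
    (k : ℕ) : ∀ {F : ℕ → ℂ → ℂ} {G : ℂ → ℂ}, (∀ n, DifferentiableOn ℂ (F n) U) →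
    TendstoLocallyUniformlyOn F G atTop U → ∀ {z : ℂ}, z ∈ U →
    Tendsto (fun n => iteratedDeriv k (F n) z) atTop (𝓝 (iteratedDeriv k G z)) := by
  induction k with
  | zero =>
    intro F G _ hFG z hz
    simpa [iteratedDeriv_zero] using hFG.tendsto_at hz
  | succ k ih =>
    intro F G hF hFG z hz
    simp only [iteratedDeriv_succ']
    exact ih (F := fun n => deriv (F n)) (G := deriv G) (fun n => (hF n).deriv hU)
      (hFG.deriv (.of_forall hF) hU) hz

/-- Taylor coefficients of a polynomial function. -/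
theorem iteratedDeriv_polynomial_eval_zero (P : Polynomial ℂ) (k : ℕ) :
    iteratedDeriv k (fun q => P.eval q) 0 = (k.factorial : ℂ) * P.coeff k := by
  have h1 : ∀ (k : ℕ) (P : Polynomial ℂ), deriv^[k] (fun q => P.eval q) =
      fun q => ((⇑Polynomial.derivative)^[k] P).eval q := by
    intro k
    induction k with
    | zero => intro P; rfl
    | succ k ih =>
      intro P
      rw [Function.iterate_succ_apply', ih, Function.iterate_succ_apply']
      funext x
      exact Polynomial.deriv _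
  rw [iteratedDeriv_eq_iterate, h1]
  simp only
  rw [← Polynomial.coeff_zero_eq_eval_zero, Polynomial.coeff_iterate_derivative, zero_add,
    Nat.descFactorial_self, nsmul_eq_mul]

/-- The partial Euler products as complex polynomials. -/
def eulerPoly (M : ℕ) : Polynomial ℂ := ∏ n ∈ Finset.range M, (1 - Polynomial.X ^ (n + 1))

theorem eulerPoly_eval (M : ℕ) (q : ℂ) :
    (eulerPoly M).eval q = ∏ n ∈ Finset.range M, (1 - q ^ (n + 1)) := by
  simp [eulerPoly, Polynomial.eval_prod]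

theorem eulerPoly_coeff (M k : ℕ) :
    (eulerPoly M).coeff k =
      ((PowerSeries.coeff k (∏ n ∈ Finset.range M, (1 - PowerSeries.X ^ (n + 1)) :
        PowerSeries ℤ) : ℤ) : ℂ) := by
  have h1 : ((eulerPoly M : Polynomial ℂ) : PowerSeries ℂ) =
      PowerSeries.map (Int.castRingHom ℂ)
        (∏ n ∈ Finset.range M, (1 - PowerSeries.X ^ (n + 1)) : PowerSeries ℤ) := by
    rw [eulerPoly, ← Polynomial.coeToPowerSeries.ringHom_apply, map_prod, map_prod]
    refine Finset.prod_congr rfl fun n _ => ?_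
    simp
  rw [← Polynomial.coeff_coe, h1, PowerSeries.coeff_map]
  rfl

/-- Coefficientwise convergence of the formal partial products to `etaProd`. -/
theorem tendsto_coeff_partial_etaProd (k : ℕ) :
    Tendsto (fun M => ((PowerSeries.coeff k (∏ n ∈ Finset.range M,
      (1 - PowerSeries.X ^ (n + 1)) : PowerSeries ℤ) : ℤ) : ℂ)) atTop
      (𝓝 ((PowerSeries.coeff k ModularCurve.etaProd : ℤ) : ℂ)) := by
  have h1 : HasProd (fun n : ℕ => (1 - PowerSeries.X ^ (n + 1) : PowerSeries ℤ))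
      ModularCurve.etaProd :=
    (PowerSeries.WithPiTopology.multipliable_one_sub_X_pow ℤ).hasProd
  have h2 := h1.tendsto_prod_nat
  have h3 := ((PowerSeries.WithPiTopology.continuous_coeff ℤ k).tendsto _).comp h2
  have h4 : Continuous (fun n : ℤ => (n : ℂ)) := continuous_of_discreteTopology
  exact (h4.tendsto _).comp h3

/-- The Euler function on the unit disc. -/
def eulerFun (q : ℂ) : ℂ := ∏' n : ℕ, (1 - q ^ (n + 1))

theorem differentiableOn_eulerFun : DifferentiableOn ℂ eulerFun (Metric.ball 0 1) :=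
  ModularForm.differentiableOn_tprod_one_sub_pow

theorem tendstoLocallyUniformlyOn_eulerPoly :
    TendstoLocallyUniformlyOn (fun M q => (eulerPoly M).eval q) eulerFun atTop
      (Metric.ball 0 1) := by
  have h := ModularForm.multipliableLocallyUniformlyOn_one_sub_pow.hasProdLocallyUniformlyOn
  have h2 := h.tendstoLocallyUniformlyOn_finsetRange
  refine h2.congr ?_ |>.congr_right ?_
  · intro M q _
    simp [eulerPoly_eval]
  · intro q _
    rfl

/-- The complex version of the formal Euler product. -/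
def etaProdC : PowerSeries ℂ := PowerSeries.map (Int.castRingHom ℂ) ModularCurve.etaProd

theorem taylor_eulerFun (k : ℕ) :
    (k.factorial : ℂ)⁻¹ * iteratedDeriv k eulerFun 0 = PowerSeries.coeff k etaProdC := by
  have h0 : (0 : ℂ) ∈ Metric.ball (0 : ℂ) 1 := Metric.mem_ball_self one_pos
  have h1 := tendsto_iteratedDeriv_of_tendstoLocallyUniformlyOn Metric.isOpen_ball k
    (F := fun M q => (eulerPoly M).eval q) (G := eulerFun)
    (fun M => (Polynomial.differentiable _).differentiableOn)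
    tendstoLocallyUniformlyOn_eulerPoly h0
  have h2 : Tendsto (fun M => (k.factorial : ℂ)⁻¹ * iteratedDeriv k
      (fun q => (eulerPoly M).eval q) 0) atTop
      (𝓝 ((k.factorial : ℂ)⁻¹ * iteratedDeriv k eulerFun 0)) := h1.const_mul _
  have h3 : (fun M => (k.factorial : ℂ)⁻¹ * iteratedDeriv k
      (fun q => (eulerPoly M).eval q) 0) = fun M =>
      ((PowerSeries.coeff k (∏ n ∈ Finset.range M,
      (1 - PowerSeries.X ^ (n + 1)) : PowerSeries ℤ) : ℤ) : ℂ) := by
    funext M
    rw [iteratedDeriv_polynomial_eval_zero, eulerPoly_coeff, ← mul_assoc,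
      inv_mul_cancel₀ (by exact_mod_cast Nat.factorial_ne_zero k), one_mul]
  rw [h3] at h2
  have h4 := tendsto_nhds_unique h2 (tendsto_coeff_partial_etaProd k)
  rw [h4, etaProdC, PowerSeries.coeff_map]
  rfl

/-- **Euler product bridge**: the formal Euler product is the Taylor series of the analytic
Euler product on the unit disc. -/
theorem hasSum_etaProdC {q : ℂ} (hq : ‖q‖ < 1) :
    HasSum (fun k : ℕ => PowerSeries.coeff k etaProdC * q ^ k) (eulerFun q) := by
  have hq' : q ∈ Metric.ball (0 : ℂ) 1 := by simpa using hq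
  have := hasSum_taylorSeries_on_ball differentiableOn_eulerFun hq'
  refine this.congr_fun ?_ |>.mono_left le_rfl
  intro k
  rw [← taylor_eulerFun]
  simp only [sub_zero, smul_eq_mul]
  ring

end Fermat.Agent.S28.H565

end
end
-- ===== PACK-END S28/H565/EulerProd.lean

-- ===== PACK-BEGIN S28/H565/JExp.lean
section





/-!
# S28 analytic bridge, part 3: the `q`-expansions of `Δ`, `E₄` and `j` (helper565)

We identify the analytic `q`-expansions of Mathlib's `Δ`, `E₄` and of `j = E₄³/Δ` with the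
formal series of the Prelude (`ModularCurve.etaProd`, `ModularCurve.eisenstein4`,
`ModularCurve.jqModC ℂ`).
-/

set_option autoImplicit false

noncomputable section

open UpperHalfPlane Complex Function Filter Topology ModularForm
open scoped Real PowerSeries.WithPiTopology MatrixGroups

namespace Fermat.Agent.S28.H565

local notation "𝕢" => Periodic.qParam

/-- The Taylor series at `0` of a function on the unit disc, as a formal power series. -/
def taylorPS (G : ℂ → ℂ) : PowerSeries ℂ :=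
  PowerSeries.mk fun n => (n.factorial : ℂ)⁻¹ * iteratedDeriv n G 0

theorem hasPExp_of_differentiableOn {G : ℂ → ℂ}
    (hG : DifferentiableOn ℂ G (Metric.ball 0 1)) {h : ℝ} (hh : 0 < h) :
    HasPExp h (fun τ => G (𝕢 h τ)) (taylorPS G) := by
  intro τ
  have hq : 𝕢 h τ ∈ Metric.ball (0 : ℂ) 1 := by
    simpa using Periodic.norm_qParam_lt_one hh τ.im_pos
  have := hasSum_taylorSeries_on_ball hG hq
  refine this.congr_fun ?_ |>.mono_left le_rfl
  intro k
  simp only [taylorPS, PowerSeries.coeff_mk, sub_zero, smul_eq_mul]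
  ring

theorem hasPExp_eulerFun {h : ℝ} (hh : 0 < h) :
    HasPExp h (fun τ => eulerFun (𝕢 h τ)) etaProdC :=
  fun τ => hasSum_etaProdC (Periodic.norm_qParam_lt_one hh τ.im_pos)

theorem eulerFun_zero : eulerFun 0 = 1 := by
  simp [eulerFun]

theorem eulerFun_ne_zero {q : ℂ} (hq : ‖q‖ < 1) : eulerFun q ≠ 0 := by
  rcases eq_or_ne q 0 with rfl | hq0
  · rw [eulerFun_zero]; exact one_ne_zero
  · have him := Periodic.im_invQParam_pos_of_norm_lt_one one_pos hq hq0
    have h1 := ModularForm.eta_tprod_ne_zero (z := Periodic.invQParam 1 q) him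
    have h2 : ∀ n : ℕ, ModularForm.eta_q n (Periodic.invQParam 1 q) = q ^ (n + 1) := by
      intro n
      rw [ModularForm.eta_q_eq_pow]
      congr 1
      have := Periodic.qParam_right_inv one_ne_zero hq0
      simpa [Periodic.qParam] using this
    simpa [eulerFun, h2] using h1

theorem discriminant_eq_eulerFun (τ : ℍ) :
    ModularForm.discriminant τ = 𝕢 1 τ * eulerFun (𝕢 1 τ) ^ 24 := by
  rw [ModularForm.discriminant_eq_q_prod]
  have hq : ‖𝕢 1 (τ : ℂ)‖ < 1 := Periodic.norm_qParam_lt_one one_pos τ.im_pos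
  have h2 : ∀ n : ℕ, ModularForm.eta_q n (τ : ℂ) = 𝕢 1 τ ^ (n + 1) := by
    intro n
    rw [ModularForm.eta_q_eq_pow]
    simp [Periodic.qParam]
  simp only [h2]
  rw [(ModularForm.multipliable_one_sub_pow hq).tprod_pow 24]
  rfl

/-- The complex version of the formal series `dedekindEtaUnit = etaProd ^ 24`. -/
theorem map_dedekindEtaUnit :
    PowerSeries.map (Int.castRingHom ℂ) ModularCurve.dedekindEtaUnit = etaProdC ^ 24 := by
  rw [ModularCurve.dedekindEtaUnit, map_pow, etaProdC]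

/-- The complex version of the formal inverse of `etaProd ^ 24`. -/
def etaInvC : PowerSeries ℂ := PowerSeries.map (Int.castRingHom ℂ) ModularCurve.dedekindEtaUnitInv

theorem etaProdC_pow_mul_etaInvC : etaProdC ^ 24 * etaInvC = 1 := by
  rw [← map_dedekindEtaUnit, etaInvC, ← map_mul, ModularCurve.dedekindEtaUnit_mul_inv, map_one]

theorem hasPExp_eulerFun_pow_inv {h : ℝ} (hh : 0 < h) :
    HasPExp h (fun τ => (eulerFun (𝕢 h τ) ^ 24)⁻¹) etaInvC := by
  have hd : DifferentiableOn ℂ (fun q => (eulerFun q ^ 24)⁻¹) (Metric.ball 0 1) := by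
    refine DifferentiableOn.inv (differentiableOn_eulerFun.pow 24) ?_
    intro q hq
    exact pow_ne_zero _ (eulerFun_ne_zero (by simpa using hq))
  have h1 := hasPExp_of_differentiableOn hd hh
  have h2 := (hasPExp_eulerFun hh).pow 24
  have h3 := h1.mul h2
  have h4 : HasPExp h 1 (taylorPS (fun q => (eulerFun q ^ 24)⁻¹) * etaProdC ^ 24) := by
    refine h3.congr fun τ => ?_
    have hne : eulerFun (𝕢 h τ) ^ 24 ≠ 0 :=
      pow_ne_zero _ (eulerFun_ne_zero (Periodic.norm_qParam_lt_one hh τ.im_pos))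
    simp only [Pi.mul_apply, Pi.pow_apply, Pi.one_apply]
    exact inv_mul_cancel₀ hne
  have h5 : HasPExp h 1 1 := by
    have := HasPExp.const (h := h) 1
    rwa [map_one] at this
  have h6 := h4.unique hh h5
  have h7 : taylorPS (fun q => (eulerFun q ^ 24)⁻¹) = etaInvC := by
    calc taylorPS (fun q => (eulerFun q ^ 24)⁻¹)
        = taylorPS (fun q => (eulerFun q ^ 24)⁻¹) * (etaProdC ^ 24 * etaInvC) := by
          rw [etaProdC_pow_mul_etaInvC, mul_one]
      _ = etaInvC := by rw [← mul_assoc, h6, one_mul]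
  rw [← h7]
  exact h1

/-- The formal `q`-expansion of `Δ`, over `ℂ`. -/
def deltaSeriesC : LaurentSeries ℂ :=
  HahnSeries.single (1 : ℤ) (1 : ℂ) * HahnSeries.ofPowerSeries ℤ ℂ (etaProdC ^ 24)

/-- The formal `q`-expansion of `Δ⁻¹`, over `ℂ`. -/
def deltaInvSeriesC : LaurentSeries ℂ :=
  HahnSeries.single (-1 : ℤ) (1 : ℂ) * HahnSeries.ofPowerSeries ℤ ℂ etaInvC

theorem deltaSeriesC_mul_inv : deltaSeriesC * deltaInvSeriesC = 1 := by
  rw [deltaSeriesC, deltaInvSeriesC]
  have h1 : HahnSeries.single (1 : ℤ) (1 : ℂ) * HahnSeries.single (-1 : ℤ) (1 : ℂ) = 1 := by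
    rw [HahnSeries.single_mul_single]
    simp
  have h2 : HahnSeries.ofPowerSeries ℤ ℂ (etaProdC ^ 24) * HahnSeries.ofPowerSeries ℤ ℂ etaInvC
      = 1 := by
    rw [← map_mul, etaProdC_pow_mul_etaInvC, map_one]
  calc HahnSeries.single (1 : ℤ) (1 : ℂ) * HahnSeries.ofPowerSeries ℤ ℂ (etaProdC ^ 24) *
        (HahnSeries.single (-1 : ℤ) (1 : ℂ) * HahnSeries.ofPowerSeries ℤ ℂ etaInvC)
      = (HahnSeries.single (1 : ℤ) (1 : ℂ) * HahnSeries.single (-1 : ℤ) (1 : ℂ)) *
        (HahnSeries.ofPowerSeries ℤ ℂ (etaProdC ^ 24) * HahnSeries.ofPowerSeries ℤ ℂ etaInvC) := by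
          ring
    _ = 1 := by rw [h1, h2, mul_one]

/-- **`q`-expansion of `Δ`**. -/
theorem hasTExp_discriminant : HasTExp 1 ModularForm.discriminant deltaSeriesC := by
  rw [deltaSeriesC, hasTExp_single_mul_iff]
  refine ((hasPExp_eulerFun one_pos).pow 24).congr fun τ => ?_
  have hq : 𝕢 1 (τ : ℂ) ≠ 0 := Periodic.qParam_ne_zero _
  rw [discriminant_eq_eulerFun, zpow_neg, zpow_one]
  simp only [Pi.pow_apply]
  field_simp

/-- **`q`-expansion of `Δ⁻¹`**. -/
theorem hasTExp_discriminant_inv :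
    HasTExp 1 (fun τ => (ModularForm.discriminant τ)⁻¹) deltaInvSeriesC := by
  rw [deltaInvSeriesC, hasTExp_single_mul_iff]
  refine (hasPExp_eulerFun_pow_inv one_pos).congr fun τ => ?_
  have hq : 𝕢 1 (τ : ℂ) ≠ 0 := Periodic.qParam_ne_zero _
  rw [discriminant_eq_eulerFun, neg_neg, zpow_one, mul_inv]
  field_simp

/-- The complex version of the formal Eisenstein series `E₄`. -/
def e4C : PowerSeries ℂ := PowerSeries.map (Int.castRingHom ℂ) ModularCurve.eisenstein4

theorem qExpansion_E₄ : qExpansion 1 E₄ = e4C := by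
  ext m
  rw [EisensteinSeries.E_qExpansion_coeff _ ⟨2, rfl⟩, e4C, PowerSeries.coeff_map,
    ModularCurve.eisenstein4, PowerSeries.coeff_mk]
  by_cases hm : m = 0
  · simp [hm]
  · rw [if_neg hm, if_neg hm, show bernoulli 4 = -1 / 30 by decide +kernel,
      ArithmeticFunction.sigma_apply, eq_intCast]
    push_cast
    ring

/-- **`q`-expansion of `E₄`**. -/
theorem hasPExp_E₄ : HasPExp 1 E₄ e4C := by
  intro τ
  have := ModularForm.hasSum_qExpansion E₄ one_pos one_mem_strictPeriods_SL τ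
  rwa [qExpansion_E₄] at this

/-- The analytic `j`-function `E₄³/Δ`. -/
def jFun (τ : ℍ) : ℂ := E₄ τ ^ 3 / ModularForm.discriminant τ

theorem jqModC_eq : ModularCurve.jqModC ℂ =
    HahnSeries.single (-1 : ℤ) (1 : ℂ) * HahnSeries.ofPowerSeries ℤ ℂ (e4C ^ 3 * etaInvC) := by
  rw [ModularCurve.jqModC, ModularCurve.jNum, map_mul, map_pow, e4C, etaInvC]

/-- **`q`-expansion of `j`**: the analytic `j`-function has the Prelude's formal series
`jqModC ℂ` as its convergent Laurent expansion in `q = exp (2πiτ)`. -/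
theorem hasTExp_jFun : HasTExp 1 jFun (ModularCurve.jqModC ℂ) := by
  rw [jqModC_eq, hasTExp_single_mul_iff]
  refine ((hasPExp_E₄.pow 3).mul (hasPExp_eulerFun_pow_inv one_pos)).congr fun τ => ?_
  have hq : 𝕢 1 (τ : ℂ) ≠ 0 := Periodic.qParam_ne_zero _
  have hE : eulerFun (𝕢 1 τ) ^ 24 ≠ 0 :=
    pow_ne_zero _ (eulerFun_ne_zero (Periodic.norm_qParam_lt_one one_pos τ.im_pos))
  simp only [Pi.mul_apply, Pi.pow_apply, jFun]
  rw [discriminant_eq_eulerFun, neg_neg, zpow_one]
  field_simp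

end Fermat.Agent.S28.H565

end
end
-- ===== PACK-END S28/H565/JExp.lean

-- ===== PACK-BEGIN S28/H685/QLaurent.lean
section



/-!
# S28 helper (helper685): convergent Laurent `q`-series

`HasQLaurent h f φ` : the function `f : ℍ → ℂ` is, at every point `τ`, the sum of the Laurent
series `φ` evaluated at `q = exp (2 π i τ / h)`.
-/

set_option autoImplicit false

namespace Fermat.Agent.S28.H685

open UpperHalfPlane Function Complex Filter HahnSeries
open scoped Topology Manifold

noncomputable section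

local notation "𝕢" => Periodic.qParam

/-- `f` is the sum of the Laurent series `φ` in the parameter `q = exp (2 π i τ / h)`. -/
def HasQLaurent (h : ℝ) (f : ℍ → ℂ) (φ : LaurentSeries ℂ) : Prop :=
  ∀ τ : ℍ, HasSum (fun n : ℤ => φ.coeff n * 𝕢 h τ ^ n) (f τ)

theorem ofPS_coeff_of_neg (A : PowerSeries ℂ) {k : ℤ} (hk : k < 0) :
    (HahnSeries.ofPowerSeries ℤ ℂ A).coeff k = 0 := by
  rw [HahnSeries.ofPowerSeries_apply]
  refine HahnSeries.embDomain_of_notMem_range ?_
  rintro ⟨m, rfl⟩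
  exact absurd hk (not_lt.mpr (Int.natCast_nonneg m))

theorem coeff_single_mul_ofPS (k : ℤ) (A : PowerSeries ℂ) (m : ℕ) :
    (HahnSeries.single k (1 : ℂ) * HahnSeries.ofPowerSeries ℤ ℂ A).coeff (m + k) =
      PowerSeries.coeff m A := by
  rw [HahnSeries.coeff_single_mul, one_mul, add_sub_cancel_right,
    HahnSeries.ofPowerSeries_apply_coeff]

theorem coeff_single_mul_ofPS_of_lt (k : ℤ) (A : PowerSeries ℂ) {n : ℤ} (hn : n < k) :
    (HahnSeries.single k (1 : ℂ) * HahnSeries.ofPowerSeries ℤ ℂ A).coeff n = 0 := by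
  rw [HahnSeries.coeff_single_mul, one_mul]
  exact ofPS_coeff_of_neg A (by omega)

/-- The basic shift lemma relating Laurent expansions and power series expansions. -/
theorem hasQLaurent_single_mul_iff (h : ℝ) (f : ℍ → ℂ) (k : ℤ) (A : PowerSeries ℂ) :
    HasQLaurent h f (HahnSeries.single k (1 : ℂ) * HahnSeries.ofPowerSeries ℤ ℂ A) ↔
      HasQExp h (fun τ => f τ * 𝕢 h τ ^ (-k)) A := by
  have hg : Function.Injective (fun m : ℕ => (m : ℤ) + k) := by
    intro a b hab
    simpa using hab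
  refine forall_congr' fun τ => ?_
  have hq : 𝕢 h τ ≠ 0 := Periodic.qParam_ne_zero _
  set φ := HahnSeries.single k (1 : ℂ) * HahnSeries.ofPowerSeries ℤ ℂ A with hφ
  have h0 : ∀ n ∉ Set.range (fun m : ℕ => (m : ℤ) + k), φ.coeff n * 𝕢 h τ ^ n = 0 := by
    intro n hn
    have hlt : n < k := by
      by_contra hge
      rw [not_lt] at hge
      exact hn ⟨(n - k).toNat, by simp; omega⟩
    rw [hφ, coeff_single_mul_ofPS_of_lt k A hlt, zero_mul]
  rw [← hg.hasSum_iff h0]
  have hfun : ((fun n : ℤ => φ.coeff n * 𝕢 h τ ^ n) ∘ fun m : ℕ => (m : ℤ) + k) =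
      fun m : ℕ => (PowerSeries.coeff m A * 𝕢 h τ ^ m) * 𝕢 h τ ^ k := by
    funext m
    simp only [Function.comp_apply, hφ, coeff_single_mul_ofPS]
    rw [zpow_add₀ hq, zpow_natCast]
    ring
  rw [hfun]
  have hk : 𝕢 h τ ^ k ≠ 0 := zpow_ne_zero _ hq
  have hval : f τ = (f τ * 𝕢 h τ ^ (-k)) * 𝕢 h τ ^ k := by
    rw [mul_assoc, ← zpow_add₀ hq]
    simp
  conv_lhs => rw [hval]
  exact hasSum_mul_right_iff hk

theorem algebraMap_eq_C (c : ℂ) :
    algebraMap ℂ (LaurentSeries ℂ) c = HahnSeries.C c := by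
  have h1 : algebraMap ℂ (PowerSeries ℂ) c = PowerSeries.C c := by
    simp
  rw [HahnSeries.algebraMap_apply', h1, HahnSeries.ofPowerSeries_C]

/-- Every Laurent series is a monomial times a power series. -/
theorem laurent_decomp (φ : LaurentSeries ℂ) :
    φ = HahnSeries.single φ.order (1 : ℂ) * HahnSeries.ofPowerSeries ℤ ℂ φ.powerSeriesPart :=
  (LaurentSeries.single_order_mul_powerSeriesPart φ).symm

namespace HasQLaurent

variable {h : ℝ} {f g : ℍ → ℂ} {φ ψ : LaurentSeries ℂ}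

theorem congr_fun (hf : HasQLaurent h f φ) (hfg : ∀ τ, f τ = g τ) : HasQLaurent h g φ :=
  fun τ => hfg τ ▸ hf τ

theorem congr_series (hf : HasQLaurent h f φ) (hφ : φ = ψ) : HasQLaurent h f ψ := hφ ▸ hf

theorem zero : HasQLaurent h (fun _ => 0) 0 := fun τ => by
  simp [hasSum_zero]

theorem add (hf : HasQLaurent h f φ) (hg : HasQLaurent h g ψ) :
    HasQLaurent h (fun τ => f τ + g τ) (φ + ψ) := fun τ => by
  simpa [add_mul] using (hf τ).add (hg τ)

theorem neg (hf : HasQLaurent h f φ) : HasQLaurent h (fun τ => -f τ) (-φ) := fun τ => by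
  simpa using (hf τ).neg

theorem sub (hf : HasQLaurent h f φ) (hg : HasQLaurent h g ψ) :
    HasQLaurent h (fun τ => f τ - g τ) (φ - ψ) := fun τ => by
  simpa [sub_mul] using (hf τ).sub (hg τ)

theorem const_mul (c : ℂ) (hf : HasQLaurent h f φ) :
    HasQLaurent h (fun τ => c * f τ) (HahnSeries.C c * φ) := fun τ => by
  simpa [mul_assoc] using (hf τ).mul_left c

/-- Power series expansions are Laurent expansions. -/
theorem of_hasQExp {A : PowerSeries ℂ} (hf : HasQExp h f A) :
    HasQLaurent h f (HahnSeries.ofPowerSeries ℤ ℂ A) := by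
  have := (hasQLaurent_single_mul_iff h f 0 A).mpr (by simpa using hf)
  simpa using this

theorem hasQExp_of_ofPowerSeries {A : PowerSeries ℂ}
    (hf : HasQLaurent h f (HahnSeries.ofPowerSeries ℤ ℂ A)) : HasQExp h f A := by
  have h1 : HasQLaurent h f (HahnSeries.single 0 (1 : ℂ) * HahnSeries.ofPowerSeries ℤ ℂ A) := by
    simpa using hf
  simpa using (hasQLaurent_single_mul_iff h f 0 A).mp h1

theorem const (c : ℂ) : HasQLaurent h (fun _ => c) (HahnSeries.C c) := by
  have := of_hasQExp (HasQExp.const (h := h) c)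
  simpa using this

theorem one : HasQLaurent h (fun _ => 1) 1 := by
  have := of_hasQExp (HasQExp.one (h := h))
  simpa using this

/-- The monomial `q ^ k`. -/
theorem single (k : ℤ) : HasQLaurent h (fun τ => 𝕢 h τ ^ k) (HahnSeries.single k (1 : ℂ)) := by
  have h1 : HasQExp h (fun τ => 𝕢 h τ ^ k * 𝕢 h τ ^ (-k)) 1 := by
    refine HasQExp.one.congr_fun fun τ => ?_
    rw [← zpow_add₀ (Periodic.qParam_ne_zero _)]
    simp
  have := (hasQLaurent_single_mul_iff h _ k 1).mpr h1
  simpa using this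

/-- The power series part of a Laurent expansion. -/
theorem hasQExp_powerSeriesPart (hf : HasQLaurent h f φ) :
    HasQExp h (fun τ => f τ * 𝕢 h τ ^ (-φ.order)) φ.powerSeriesPart :=
  (hasQLaurent_single_mul_iff h f φ.order φ.powerSeriesPart).mp
    (hf.congr_series (laurent_decomp φ))

theorem mul (hf : HasQLaurent h f φ) (hg : HasQLaurent h g ψ) :
    HasQLaurent h (fun τ => f τ * g τ) (φ * ψ) := by
  have h1 := hf.hasQExp_powerSeriesPart
  have h2 := hg.hasQExp_powerSeriesPart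
  have h3 := h1.mul h2
  have h4 : HasQExp h (fun τ => (f τ * g τ) * 𝕢 h τ ^ (-(φ.order + ψ.order)))
      (φ.powerSeriesPart * ψ.powerSeriesPart) := by
    refine h3.congr_fun fun τ => ?_
    rw [neg_add, zpow_add₀ (Periodic.qParam_ne_zero _)]
    ring
  have h5 := (hasQLaurent_single_mul_iff h _ (φ.order + ψ.order) _).mpr h4
  refine h5.congr_series ?_
  conv_rhs => rw [laurent_decomp φ, laurent_decomp ψ]
  have hs : HahnSeries.single (φ.order + ψ.order) (1 : ℂ) =
      HahnSeries.single φ.order (1 : ℂ) * HahnSeries.single ψ.order (1 : ℂ) := by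
    rw [HahnSeries.single_mul_single, one_mul]
  rw [map_mul, hs]
  exact mul_mul_mul_comm _ _ _ _

theorem pow (hf : HasQLaurent h f φ) (n : ℕ) : HasQLaurent h (fun τ => f τ ^ n) (φ ^ n) := by
  induction n with
  | zero => simpa using one (h := h)
  | succ n ih => simpa [pow_succ] using ih.mul hf

theorem finset_sum {ι : Type*} (s : Finset ι) (F : ι → ℍ → ℂ) (P : ι → LaurentSeries ℂ)
    (hF : ∀ i ∈ s, HasQLaurent h (F i) (P i)) :
    HasQLaurent h (fun τ => ∑ i ∈ s, F i τ) (∑ i ∈ s, P i) := by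
  classical
  induction s using Finset.induction_on with
  | empty => simpa using zero (h := h)
  | insert a s ha ih =>
    simp only [Finset.sum_insert ha]
    exact (hF a (Finset.mem_insert_self a s)).add
      (ih fun i hi => hF i (Finset.mem_insert_of_mem hi))

theorem finset_prod {ι : Type*} (s : Finset ι) (F : ι → ℍ → ℂ) (P : ι → LaurentSeries ℂ)
    (hF : ∀ i ∈ s, HasQLaurent h (F i) (P i)) :
    HasQLaurent h (fun τ => ∏ i ∈ s, F i τ) (∏ i ∈ s, P i) := by
  classical
  induction s using Finset.induction_on with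
  | empty => simpa using one (h := h)
  | insert a s ha ih =>
    simp only [Finset.prod_insert ha]
    exact (hF a (Finset.mem_insert_self a s)).mul
      (ih fun i hi => hF i (Finset.mem_insert_of_mem hi))

/-- Uniqueness of the Laurent coefficients. -/
theorem eq_zero (hh : 0 < h) (hf : HasQLaurent h (fun _ => 0) φ) : φ = 0 := by
  have h1 := hf.hasQExp_powerSeriesPart
  have h2 : φ.powerSeriesPart = 0 := by
    refine HasQExp.eq_zero hh (h1.congr_fun fun τ => ?_)
    simp
  exact (LaurentSeries.powerSeriesPart_eq_zero φ).mp h2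

theorem unique (hh : 0 < h) (hf : HasQLaurent h f φ) (hg : HasQLaurent h f ψ) : φ = ψ := by
  have h1 : HasQLaurent h (fun _ => 0) (φ - ψ) :=
    (hf.sub hg).congr_fun fun τ => sub_self _
  exact sub_eq_zero.mp (h1.eq_zero hh)

/-- If the function vanishes identically then so does the series; pointwise version. -/
theorem eq_of_forall_eq (hh : 0 < h) (hf : HasQLaurent h f φ) (hg : HasQLaurent h g ψ)
    (hfg : ∀ τ, f τ = g τ) : φ = ψ :=
  (hf.congr_fun hfg).unique hh hg

theorem mdifferentiable (hh : 0 < h) (hf : HasQLaurent h f φ) : MDiff f := by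
  have h1 := (hf.hasQExp_powerSeriesPart).mdifferentiable hh
  have h2 : MDiff (fun τ : ℍ => 𝕢 h τ ^ φ.order) := by
    rw [UpperHalfPlane.mdifferentiable_iff]
    have hd : DifferentiableOn ℂ (fun z : ℂ => 𝕢 h z ^ φ.order) {z | 0 < z.im} := by
      intro z _
      exact ((Periodic.differentiable_qParam (h := h)).differentiableAt.zpow
        (Or.inl (Periodic.qParam_ne_zero _))).differentiableWithinAt
    refine hd.congr fun z hz => ?_
    simp only [Function.comp_apply]
    rw [ofComplex_apply_of_im_pos hz]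
  have h3 : f = fun τ => (f τ * 𝕢 h τ ^ (-φ.order)) * 𝕢 h τ ^ φ.order := by
    funext τ
    rw [mul_assoc, ← zpow_add₀ (Periodic.qParam_ne_zero _)]
    simp
  rw [h3]
  exact h1.mul h2

theorem vadd_period (hh : 0 < h) (hf : HasQLaurent h f φ) (τ : ℍ) (τ' : ℍ)
    (hτ : (τ' : ℂ) = τ + h) : f τ' = f τ := by
  have h1 := (hf.hasQExp_powerSeriesPart).vadd_period hh τ τ' hτ
  have h2 := (HasQExp.X (h := h)).vadd_period hh τ τ' hτ
  beta_reduce at h1 h2
  rw [h2] at h1
  exact mul_right_cancel₀ (zpow_ne_zero _ (Periodic.qParam_ne_zero _)) h1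

/-- Closure under inverses. -/
theorem inv (hh : 0 < h) (hf : HasQLaurent h f φ) (hf0 : ∀ τ, f τ ≠ 0) (hφ : φ ≠ 0) :
    HasQLaurent h (fun τ => (f τ)⁻¹) φ⁻¹ := by
  have h1 := hf.hasQExp_powerSeriesPart
  have hA0 : PowerSeries.coeff 0 φ.powerSeriesPart ≠ 0 := by
    rw [LaurentSeries.powerSeriesPart_coeff]
    simpa using (HahnSeries.coeff_order_eq_zero (x := φ)).not.mpr hφ
  have h2 := h1.inv hh (fun τ => mul_ne_zero (hf0 τ)
    (zpow_ne_zero _ (Periodic.qParam_ne_zero _))) hA0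
  have h3 : HasQExp h (fun τ => (f τ)⁻¹ * 𝕢 h τ ^ (-(-φ.order))) (φ.powerSeriesPart)⁻¹ := by
    refine h2.congr_fun fun τ => ?_
    rw [mul_inv, ← zpow_neg]
  have h4 := (hasQLaurent_single_mul_iff h _ (-φ.order) _).mpr h3
  refine h4.congr_series ?_
  have hA0' : PowerSeries.constantCoeff φ.powerSeriesPart ≠ 0 := by
    rwa [← PowerSeries.coeff_zero_eq_constantCoeff]
  symm
  apply inv_eq_of_mul_eq_one_left
  have hs : HahnSeries.single (-φ.order) (1 : ℂ) * HahnSeries.single φ.order (1 : ℂ) = 1 := by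
    rw [HahnSeries.single_mul_single, one_mul, neg_add_cancel]
    rfl
  calc HahnSeries.single (-φ.order) (1 : ℂ) * HahnSeries.ofPowerSeries ℤ ℂ (φ.powerSeriesPart)⁻¹ * φ
      = HahnSeries.single (-φ.order) (1 : ℂ) * HahnSeries.ofPowerSeries ℤ ℂ (φ.powerSeriesPart)⁻¹ *
        (HahnSeries.single φ.order (1 : ℂ) * HahnSeries.ofPowerSeries ℤ ℂ φ.powerSeriesPart) := by
        rw [← laurent_decomp φ]
    _ = (HahnSeries.single (-φ.order) (1 : ℂ) * HahnSeries.single φ.order (1 : ℂ)) *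
        HahnSeries.ofPowerSeries ℤ ℂ ((φ.powerSeriesPart)⁻¹ * φ.powerSeriesPart) := by
        rw [map_mul]
        exact mul_mul_mul_comm _ _ _ _
    _ = 1 := by
        rw [hs, PowerSeries.inv_mul_cancel _ hA0', map_one, one_mul]

theorem div (hh : 0 < h) (hf : HasQLaurent h f φ) (hg : HasQLaurent h g ψ)
    (hg0 : ∀ τ, g τ ≠ 0) (hψ : ψ ≠ 0) :
    HasQLaurent h (fun τ => f τ / g τ) (φ / ψ) := by
  simpa [div_eq_mul_inv] using hf.mul (hg.inv hh hg0 hψ)

/-- Evaluation of polynomials. -/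
theorem aeval (hf : HasQLaurent h f φ) (P : Polynomial ℂ) :
    HasQLaurent h (fun τ => P.eval (f τ)) (Polynomial.aeval φ P) := by
  induction P using Polynomial.induction_on' with
  | add p q hp hq =>
    simpa using hp.add hq
  | monomial n a =>
    have := (hf.pow n).const_mul a
    refine (this.congr_fun fun τ => ?_).congr_series ?_
    · simp
    · rw [Polynomial.aeval_monomial, algebraMap_eq_C]

/-- Evaluation of multivariate polynomials. -/
theorem mvAeval {σ : Type*} (F : σ → ℍ → ℂ) (Φ : σ → LaurentSeries ℂ)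
    (hF : ∀ i, HasQLaurent h (F i) (Φ i)) (P : MvPolynomial σ ℂ) :
    HasQLaurent h (fun τ => MvPolynomial.eval (fun i => F i τ) P) (MvPolynomial.aeval Φ P) := by
  induction P using MvPolynomial.induction_on with
  | C a =>
    have := (one (h := h)).const_mul a
    refine (this.congr_fun fun τ => ?_).congr_series ?_
    · simp
    · rw [MvPolynomial.aeval_C, algebraMap_eq_C, mul_one]
  | add p q hp hq =>
    simpa using hp.add hq
  | mul_X p i hp =>
    simpa using hp.mul (hF i)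

end HasQLaurent

end

end Fermat.Agent.S28.H685

end
-- ===== PACK-END S28/H685/QLaurent.lean

-- ===== PACK-BEGIN S28/H685/EtaBridge.lean
section




/-!
# S28 helper (helper685): the formal eta product is the Taylor series of the analytic one

The Prelude defines `ModularCurve.etaProd = ∏' n, (1 - X ^ (n + 1))` as a formal product in
`PowerSeries ℤ` (Pi topology).  We show that its coefficients are the Taylor coefficients of the
analytic function `q ↦ ∏' n, (1 - q ^ (n + 1))` on the open unit disc.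
-/

set_option autoImplicit false

namespace Fermat.Agent.S28.H685

open UpperHalfPlane Function Complex Filter
open scoped Topology Manifold PowerSeries.WithPiTopology

noncomputable section

local notation "𝕢" => Periodic.qParam

/-- Iterated derivatives of a locally uniform limit of holomorphic functions. -/
theorem tendstoLocallyUniformlyOn_iteratedDeriv {ι : Type*} {l : Filter ι} {U : Set ℂ}
    (hU : IsOpen U) {F : ι → ℂ → ℂ} {f : ℂ → ℂ} (hF : TendstoLocallyUniformlyOn F f l U)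
    (hd : ∀ᶠ i in l, DifferentiableOn ℂ (F i) U) (k : ℕ) :
    TendstoLocallyUniformlyOn (fun i => iteratedDeriv k (F i)) (iteratedDeriv k f) l U ∧
      ∀ᶠ i in l, DifferentiableOn ℂ (iteratedDeriv k (F i)) U := by
  induction k with
  | zero =>
    simp only [iteratedDeriv_zero]
    exact ⟨hF, hd⟩
  | succ k ih =>
    obtain ⟨h1, h2⟩ := ih
    refine ⟨?_, ?_⟩
    · have := h1.deriv h2 hU
      simpa only [iteratedDeriv_succ, Function.comp_def] using this
    · filter_upwards [h2] with i hi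
      simpa only [iteratedDeriv_succ] using hi.deriv hU

theorem iteratedDeriv_polynomial_eval (P : Polynomial ℂ) (k : ℕ) :
    iteratedDeriv k (fun x => P.eval x) = fun x => (Polynomial.derivative^[k] P).eval x := by
  induction k with
  | zero => simp
  | succ k ih =>
    rw [iteratedDeriv_succ, ih]
    funext x
    rw [Polynomial.deriv, Function.iterate_succ_apply']

theorem iteratedDeriv_polynomial_eval_zero (P : Polynomial ℂ) (k : ℕ) :
    iteratedDeriv k (fun x => P.eval x) 0 = k.factorial * P.coeff k := by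
  rw [iteratedDeriv_polynomial_eval]
  beta_reduce
  rw [← Polynomial.coeff_zero_eq_eval_zero,
    Polynomial.coeff_iterate_derivative, zero_add, Nat.descFactorial_self, nsmul_eq_mul]

/-- The analytic eta product `∏ (1 - q ^ (n + 1))`. -/
def etaC (q : ℂ) : ℂ := ∏' n : ℕ, (1 - q ^ (n + 1))

/-- Partial products of the eta product, as integer polynomials. -/
def etaPartial (s : Finset ℕ) : Polynomial ℤ := ∏ n ∈ s, (1 - Polynomial.X ^ (n + 1))

theorem coe_etaPartial (s : Finset ℕ) :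
    ((etaPartial s : Polynomial ℤ) : PowerSeries ℤ) = ∏ n ∈ s, (1 - PowerSeries.X ^ (n + 1)) := by
  have := map_prod (Polynomial.coeToPowerSeries.ringHom (R := ℤ))
    (fun n : ℕ => (1 - Polynomial.X ^ (n + 1) : Polynomial ℤ)) s
  rw [etaPartial]
  rw [Polynomial.coeToPowerSeries.ringHom_apply] at this
  rw [this]
  refine Finset.prod_congr rfl fun n _ => ?_
  rw [Polynomial.coeToPowerSeries.ringHom_apply]
  simp

theorem eval_etaPartial (s : Finset ℕ) (q : ℂ) :
    ((etaPartial s).map (Int.castRingHom ℂ)).eval q = ∏ n ∈ s, (1 - q ^ (n + 1)) := by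
  simp [etaPartial, Polynomial.map_prod, Polynomial.eval_prod]

theorem tendsto_coeff_etaPartial (k : ℕ) :
    Tendsto (fun s : Finset ℕ => (((etaPartial s).coeff k : ℤ) : ℂ)) atTop
      (𝓝 ((PowerSeries.coeff k ModularCurve.etaProd : ℤ) : ℂ)) := by
  have h1 : HasProd (fun n : ℕ => (1 - PowerSeries.X ^ (n + 1) : PowerSeries ℤ))
      ModularCurve.etaProd :=
    (PowerSeries.WithPiTopology.multipliable_one_sub_X_pow ℤ).hasProd
  have h2 : Tendsto (fun s : Finset ℕ => ∏ n ∈ s, (1 - PowerSeries.X ^ (n + 1) : PowerSeries ℤ))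
      atTop (𝓝 ModularCurve.etaProd) := h1
  have h3 := ((PowerSeries.WithPiTopology.continuous_coeff ℤ k).tendsto _).comp h2
  have h4 : Continuous (fun n : ℤ => (n : ℂ)) := continuous_of_discreteTopology
  have h5 := (h4.tendsto _).comp h3
  refine h5.congr fun s => ?_
  simp only [Function.comp_apply]
  rw [← coe_etaPartial, Polynomial.coeff_coe]

theorem differentiableOn_etaC : DifferentiableOn ℂ etaC (Metric.ball 0 1) :=
  ModularForm.differentiableOn_tprod_one_sub_pow

theorem taylor_etaC (k : ℕ) :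
    (k.factorial : ℂ)⁻¹ * iteratedDeriv k etaC 0 =
      ((PowerSeries.coeff k ModularCurve.etaProd : ℤ) : ℂ) := by
  have hloc : TendstoLocallyUniformlyOn
      (fun (s : Finset ℕ) (q : ℂ) => ∏ n ∈ s, (1 - q ^ (n + 1))) etaC atTop (Metric.ball 0 1) :=
    hasProdLocallyUniformlyOn_iff_tendstoLocallyUniformlyOn.mp
      ModularForm.multipliableLocallyUniformlyOn_one_sub_pow.hasProdLocallyUniformlyOn
  have hd : ∀ᶠ s : Finset ℕ in atTop,
      DifferentiableOn ℂ (fun q : ℂ => ∏ n ∈ s, (1 - q ^ (n + 1))) (Metric.ball 0 1) :=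
    .of_forall fun s => by
      have : DifferentiableOn ℂ (∏ n ∈ s, fun q : ℂ => (1 - q ^ (n + 1))) (Metric.ball 0 1) :=
        DifferentiableOn.finsetProd (fun _ _ => by fun_prop)
      simpa [Finset.prod_fn] using this
  have h1 := (tendstoLocallyUniformlyOn_iteratedDeriv Metric.isOpen_ball hloc hd k).1.tendsto_at
    (Metric.mem_ball_self (one_pos : (0 : ℝ) < 1))
  have h2 : ∀ s : Finset ℕ, iteratedDeriv k (fun q : ℂ => ∏ n ∈ s, (1 - q ^ (n + 1))) 0 =
      k.factorial * (((etaPartial s).coeff k : ℤ) : ℂ) := by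
    intro s
    have := iteratedDeriv_polynomial_eval_zero ((etaPartial s).map (Int.castRingHom ℂ)) k
    simp only [eval_etaPartial, Polynomial.coeff_map, eq_intCast] at this
    exact this
  simp only [h2] at h1
  have h3 := (tendsto_coeff_etaPartial k).const_mul (k.factorial : ℂ)
  have h4 := tendsto_nhds_unique h1 h3
  rw [h4, ← mul_assoc, inv_mul_cancel₀ (by exact_mod_cast k.factorial_ne_zero), one_mul]

/-- The formal eta product with complex coefficients. -/
def etaProdC : PowerSeries ℂ := ModularCurve.etaProd.map (Int.castRingHom ℂ)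

theorem hasSum_etaC {q : ℂ} (hq : ‖q‖ < 1) :
    HasSum (fun n : ℕ => PowerSeries.coeff n etaProdC * q ^ n) (etaC q) := by
  have := Complex.hasSum_taylorSeries_on_ball differentiableOn_etaC
    (z := q) (by simpa using hq)
  simp only [sub_zero, smul_eq_mul] at this
  have hfun : (fun n : ℕ => PowerSeries.coeff n etaProdC * q ^ n) =
      fun n : ℕ => ((n.factorial : ℂ))⁻¹ * (q ^ n * iteratedDeriv n etaC 0) := by
    funext n
    rw [etaProdC, PowerSeries.coeff_map, eq_intCast, ← taylor_etaC]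
    ring
  rw [hfun]
  exact this

/-- The function `τ ↦ ∏ (1 - q ^ (n + 1))` has `q`-expansion the formal eta product. -/
theorem hasQExp_etaC : HasQExp 1 (fun τ => etaC (𝕢 1 τ)) etaProdC :=
  fun τ => hasSum_etaC (Periodic.norm_qParam_lt_one one_pos τ.im_pos)

end

end Fermat.Agent.S28.H685

end
-- ===== PACK-END S28/H685/EtaBridge.lean

-- ===== PACK-BEGIN S28/H685/JPrinciple.lean
section



/-!
# S28 helper (helper685): the `j`-polynomial principle (abstract Hauptmodul form)

A function on `ℍ` which is the sum of a convergent Laurent series in `q = exp (2 π i τ)` with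
finitely many negative exponents and which is invariant under `τ ↦ -1/τ` is a polynomial in any
"Hauptmodul" `j` (an `S`-invariant function with a convergent expansion `q⁻¹ + O(1)`), and the
same identity holds for the formal Laurent series.
-/

set_option autoImplicit false

namespace Fermat.Agent.S28.H685

open UpperHalfPlane Function Complex Filter HahnSeries ModularForm SlashInvariantForm
  ModularFormClass
open scoped Topology Manifold MatrixGroups

noncomputable section

local notation "𝕢" => Periodic.qParam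

/-- Weight-zero slash invariance is invariance. -/
theorem slash_zero_eq_of_invariant (F : ℍ → ℂ) (γ : SL(2, ℤ))
    (hγ : ∀ τ, F (γ • τ) = F τ) : F ∣[(0 : ℤ)] γ = F := by
  ext z
  rw [SL_slash_apply]
  simp only [neg_zero, zpow_zero, mul_one]
  exact hγ z

/-- A holomorphic function, bounded at `i∞` and invariant under `S` and `T`, as a modular form
of weight zero and level one. -/
def levelOneOfInvariant (F : ℍ → ℂ) (hol : MDiff F) (bdd : IsBoundedAtImInfty F)
    (hS : ∀ τ, F (ModularGroup.S • τ) = F τ) (hT : ∀ τ, F (ModularGroup.T • τ) = F τ) :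
    ModularForm 𝒮ℒ 0 where
  toFun := F
  slash_action_eq' A hA := by
    obtain ⟨A, rfl⟩ := hA
    exact slash_action_generators_SL2Z (slash_zero_eq_of_invariant F _ hS)
      (slash_zero_eq_of_invariant F _ hT) A
  holo' := hol
  bdd_at_cusps' hc := by
    rw [Subgroup.IsArithmetic.isCusp_iff_isCusp_SL2Z] at hc
    rw [OnePoint.isBoundedAt_iff_forall_SL2Z hc]
    intro γ _
    rw [slash_action_generators_SL2Z (slash_zero_eq_of_invariant F _ hS)
      (slash_zero_eq_of_invariant F _ hT)]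
    exact bdd

/-- A holomorphic function on `ℍ`, bounded at `i∞` and invariant under `S` and `T`, is
constant. -/
theorem exists_const_of_invariant (F : ℍ → ℂ) (hol : MDiff F) (bdd : IsBoundedAtImInfty F)
    (hS : ∀ τ, F (ModularGroup.S • τ) = F τ) (hT : ∀ τ, F (ModularGroup.T • τ) = F τ) :
    ∃ c : ℂ, ∀ τ, F τ = c := by
  obtain ⟨c, hc⟩ := levelOne_weight_zero_const (levelOneOfInvariant F hol bdd hS hT)
  exact ⟨c, fun τ => congrFun hc τ⟩

/-- Invariance under `T` of a function given by a `q`-series of period one. -/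
theorem HasQLaurent.T_invariant {F : ℍ → ℂ} {φ : LaurentSeries ℂ} (hF : HasQLaurent 1 F φ)
    (τ : ℍ) : F (ModularGroup.T • τ) = F τ := by
  refine hF.vadd_period one_pos τ _ ?_
  rw [UpperHalfPlane.modular_T_smul]
  simp [add_comm]

/-- A Laurent series without negative exponents is a power series. -/
theorem exists_ofPowerSeries_eq (φ : LaurentSeries ℂ) (hφ : ∀ n : ℤ, n < 0 → φ.coeff n = 0) :
    ∃ A : PowerSeries ℂ, HahnSeries.ofPowerSeries ℤ ℂ A = φ := by
  refine ⟨PowerSeries.mk fun n => φ.coeff n, ?_⟩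
  ext n
  rcases lt_or_ge n 0 with hn | hn
  · rw [ofPS_coeff_of_neg _ hn, hφ n hn]
  · lift n to ℕ using hn
    rw [HahnSeries.ofPowerSeries_apply_coeff, PowerSeries.coeff_mk]

/-- The constant case of the principle. -/
theorem exists_const_of_S_invariant (F : ℍ → ℂ) (φ : LaurentSeries ℂ)
    (hφ : ∀ n : ℤ, n < 0 → φ.coeff n = 0) (hF : HasQLaurent 1 F φ)
    (hS : ∀ τ, F (ModularGroup.S • τ) = F τ) :
    ∃ c : ℂ, φ = HahnSeries.C c ∧ ∀ τ, F τ = c := by
  obtain ⟨A, rfl⟩ := exists_ofPowerSeries_eq φ hφ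
  have hA : HasQExp 1 F A := hF.hasQExp_of_ofPowerSeries
  obtain ⟨c, hc⟩ := exists_const_of_invariant F (hA.mdifferentiable one_pos)
    (hA.isBoundedAtImInfty one_pos) hS hF.T_invariant
  refine ⟨c, ?_, hc⟩
  have h1 : HasQLaurent 1 (fun _ => c) (HahnSeries.ofPowerSeries ℤ ℂ A) := hF.congr_fun hc
  exact h1.unique one_pos (HasQLaurent.const c)

/-- Structure of the powers of a series `q⁻¹ (1 + O(q))`. -/
theorem hauptmodul_pow (J : PowerSeries ℂ) (n : ℕ) :
    (HahnSeries.single (-1 : ℤ) (1 : ℂ) * HahnSeries.ofPowerSeries ℤ ℂ J) ^ n =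
      HahnSeries.single (-(n : ℤ)) (1 : ℂ) * HahnSeries.ofPowerSeries ℤ ℂ (J ^ n) := by
  have h : n • (-1 : ℤ) = -(n : ℤ) := by simp
  rw [mul_pow, HahnSeries.single_pow, one_pow, h, ← map_pow]

theorem coeff_hauptmodul_pow_self (J : PowerSeries ℂ) (hJ : PowerSeries.constantCoeff J = 1)
    (n : ℕ) :
    ((HahnSeries.single (-1 : ℤ) (1 : ℂ) * HahnSeries.ofPowerSeries ℤ ℂ J) ^ n).coeff
      (-(n : ℤ)) = 1 := by
  rw [hauptmodul_pow]
  have := coeff_single_mul_ofPS (-(n : ℤ)) (J ^ n) 0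
  simp only [Nat.cast_zero, zero_add] at this
  rw [this, PowerSeries.coeff_zero_eq_constantCoeff, map_pow, hJ, one_pow]

theorem coeff_hauptmodul_pow_of_lt (J : PowerSeries ℂ) (n : ℕ) {k : ℤ} (hk : k < -(n : ℤ)) :
    ((HahnSeries.single (-1 : ℤ) (1 : ℂ) * HahnSeries.ofPowerSeries ℤ ℂ J) ^ n).coeff k = 0 := by
  rw [hauptmodul_pow]
  exact coeff_single_mul_ofPS_of_lt _ _ hk

/-- **The `j`-polynomial principle**, abstract form. -/
theorem exists_polynomial_of_S_invariant_aux
    (jF : ℍ → ℂ) (J : PowerSeries ℂ) (hJ0 : PowerSeries.constantCoeff J = 1)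
    (hj : HasQLaurent 1 jF (HahnSeries.single (-1 : ℤ) (1 : ℂ) * HahnSeries.ofPowerSeries ℤ ℂ J))
    (hjS : ∀ τ, jF (ModularGroup.S • τ) = jF τ) :
    ∀ (m : ℕ) (F : ℍ → ℂ) (φ : LaurentSeries ℂ), (∀ n : ℤ, n < -(m : ℤ) → φ.coeff n = 0) →
      HasQLaurent 1 F φ → (∀ τ, F (ModularGroup.S • τ) = F τ) →
      ∃ P : Polynomial ℂ, P.natDegree ≤ m ∧
        φ = Polynomial.aeval
          (HahnSeries.single (-1 : ℤ) (1 : ℂ) * HahnSeries.ofPowerSeries ℤ ℂ J) P ∧
        ∀ τ, F τ = P.eval (jF τ) := by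
  intro m
  induction m with
  | zero =>
    intro F φ hφ hF hS
    obtain ⟨c, hc, hFc⟩ := exists_const_of_S_invariant F φ (by simpa using hφ) hF hS
    refine ⟨Polynomial.C c, by simp, ?_, fun τ => by simpa using hFc τ⟩
    rw [hc, Polynomial.aeval_C, algebraMap_eq_C]
  | succ m ih =>
    intro F φ hφ hF hS
    set jφ := HahnSeries.single (-1 : ℤ) (1 : ℂ) * HahnSeries.ofPowerSeries ℤ ℂ J with hjφ
    set a := φ.coeff (-((m + 1 : ℕ) : ℤ)) with ha
    have hF' : HasQLaurent 1 (fun τ => F τ - a * jF τ ^ (m + 1))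
        (φ - HahnSeries.C a * jφ ^ (m + 1)) := hF.sub ((hj.pow (m + 1)).const_mul a)
    have hS' : ∀ τ, (fun τ => F τ - a * jF τ ^ (m + 1)) (ModularGroup.S • τ) =
        (fun τ => F τ - a * jF τ ^ (m + 1)) τ := by
      intro τ
      simp only [hS τ, hjS τ]
    have hφ' : ∀ n : ℤ, n < -(m : ℤ) → (φ - HahnSeries.C a * jφ ^ (m + 1)).coeff n = 0 := by
      intro n hn
      rw [HahnSeries.coeff_sub, HahnSeries.C_mul_eq_smul, HahnSeries.coeff_smul, smul_eq_mul]
      rcases lt_or_eq_of_le (show n ≤ -((m + 1 : ℕ) : ℤ) by push_cast; omega) with h1 | h1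
      · rw [hφ n h1, coeff_hauptmodul_pow_of_lt J (m + 1) h1, mul_zero, sub_zero]
      · rw [h1, coeff_hauptmodul_pow_self J hJ0 (m + 1), mul_one, ← ha, sub_self]
    obtain ⟨P, hPdeg, hPφ, hPF⟩ := ih _ _ hφ' hF' hS'
    refine ⟨P + Polynomial.C a * Polynomial.X ^ (m + 1), ?_, ?_, ?_⟩
    · refine (Polynomial.natDegree_add_le _ _).trans (max_le (hPdeg.trans (Nat.le_succ m)) ?_)
      exact (Polynomial.natDegree_C_mul_X_pow_le a (m + 1))
    · rw [map_add, ← hPφ, map_mul, map_pow, Polynomial.aeval_X, Polynomial.aeval_C,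
        algebraMap_eq_C]
      ring
    · intro τ
      have := hPF τ
      simp only [Polynomial.eval_add, Polynomial.eval_mul, Polynomial.eval_C,
        Polynomial.eval_pow, Polynomial.eval_X]
      rw [← this]
      ring

end

end Fermat.Agent.S28.H685

end
-- ===== PACK-END S28/H685/JPrinciple.lean

-- ===== PACK-BEGIN S15/H302/Alg0Abs.lean
section



/-!
# Row S15, node DESC, leaf ALG0 (helper302): the abstract algebra

`J` an abelian group with an action of a monoid `G` and of a commutative ring `T`, the two actions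
commuting; `η i ∈ T` a family ("Eisenstein operators"); `r > 0`.  Put `A = J^G`,
`W_E = {w | r w = 0, every η i nilpotent on w}`, `Y_E = {y | r y ∈ A, σ y - y ∈ W_E}`.

`alg0_descCore_of_selBound`: if `J = r J`, `J[n]` is finite for all `n > 0`, the rational torsion
has bounded exponent and `[Y_E : A + W_E] ≤ |W_E ∩ A|` (finite index), then every `z ∈ A` which is
killed by all `η i` modulo `r A + A_tors` lies in `r A + A_tors`.

Proof.  `X = J[r e']` (`e'` = exponent of the rational torsion) is a finite `T`-module; let `f` be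
the splitting element of `S15.H2.exists_isSplit` at `𝔪 = (η i)`: `f ∈ 𝔪`, `1 - f` projects `X` onto
its `𝔪`-primary part.  `T_E := A_tors ∩ ker f`.  Then
`[Y_E : A + W_E] = [r Y_E : r A ∩ r Y_E] ≥ [T_E : r A ∩ T_E] = [T_E : r T_E] = |T_E[r]| = |W_E ∩ A|`,
so equality holds and `r Y_E ≤ T_E + r A`.  For `z = r y`: `(1 - f) y ∈ Y_E`, so
`z - f z ∈ T_E + r A`, and `f z ∈ r A + A_tors` because `f ∈ (η i)`.
-/

set_option autoImplicit false

namespace Fermat.Agent.S15.H302

section Index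

variable {J : Type*} [AddCommGroup J]

/-- For a finite subgroup `Tg` and a subgroup `R` with `R ∩ Tg = r Tg`:
`[Tg : R ∩ Tg] = |Tg[r]|`. -/
theorem alg0_relIndex_eq_card (Tg R K : AddSubgroup J) (r : ℕ) (hfin : Finite ↥Tg)
    (hR : ∀ t ∈ Tg, t ∈ R ↔ ∃ t' ∈ Tg, r • t' = t)
    (hK : ∀ t, t ∈ K ↔ t ∈ Tg ∧ r • t = 0) :
    R.relIndex Tg = Nat.card ↥K := by
  classical
  let g : ↥Tg →+ ↥Tg := nsmulAddMonoidHom r
  have hg : ∀ t : ↥Tg, ((g t : ↥Tg) : J) = r • (t : J) := fun t => rfl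
  have hrange : R.addSubgroupOf Tg = g.range := by
    ext t
    rw [AddSubgroup.mem_addSubgroupOf, AddMonoidHom.mem_range]
    constructor
    · intro h
      obtain ⟨t', ht', h'⟩ := (hR t.1 t.2).1 h
      exact ⟨⟨t', ht'⟩, Subtype.ext h'⟩
    · rintro ⟨t', rfl⟩
      exact (hR _ (g t').2).2 ⟨t'.1, t'.2, rfl⟩
  have hker : Nat.card ↥g.ker = Nat.card ↥K := by
    refine Nat.card_congr
      { toFun := fun t => ⟨t.1.1, (hK _).2 ⟨t.1.2, ?_⟩⟩
        invFun := fun k => ⟨⟨k.1, ((hK _).1 k.2).1⟩, ?_⟩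
        left_inv := fun t => rfl
        right_inv := fun k => rfl }
    · have := t.2
      rw [AddMonoidHom.mem_ker] at this
      have h2 := congrArg (Subtype.val) this
      simpa [hg] using h2
    · rw [AddMonoidHom.mem_ker]
      apply Subtype.ext
      rw [hg]
      exact ((hK _).1 k.2).2
  rw [AddSubgroup.relIndex, hrange, AddSubgroup.index_range, hker]

/-- If `Tg ≤ M` and `[M : R ∩ M] ≤ [Tg : R ∩ Tg]` (finite), then `M ≤ Tg + R`. -/
theorem alg0_le_sup_of_relIndex_le (R Tg M : AddSubgroup J) (hTM : Tg ≤ M)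
    (h0 : R.relIndex M ≠ 0) (hle : R.relIndex M ≤ R.relIndex Tg) : M ≤ Tg ⊔ R := by
  set N : AddSubgroup J := R ⊓ M with hN
  have hNM : N ≤ M := inf_le_right
  have h1 : N.relIndex M = R.relIndex M := AddSubgroup.inf_relIndex_right R M
  have h2 : N.relIndex (Tg ⊔ N) * (Tg ⊔ N).relIndex M = N.relIndex M :=
    AddSubgroup.relIndex_mul_relIndex N (Tg ⊔ N) M le_sup_right (sup_le hTM hNM)
  have h3 : N.relIndex (Tg ⊔ N) = R.relIndex Tg := by
    rw [AddSubgroup.relIndex_sup_right]
    rw [← AddSubgroup.inf_relIndex_right N Tg, ← AddSubgroup.inf_relIndex_right R Tg]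
    congr 1
    rw [hN, inf_assoc, inf_eq_right.2 hTM]
  rw [h3, h1] at h2
  have h4 : (Tg ⊔ N).relIndex M = 1 := by
    have hpos : 0 < R.relIndex Tg := by
      rcases Nat.eq_zero_or_pos (R.relIndex Tg) with h | h
      · rw [h, zero_mul] at h2
        exact absurd h2.symm h0
      · exact h
    have h5 : R.relIndex Tg * (Tg ⊔ N).relIndex M ≤ R.relIndex Tg * 1 := by
      rw [h2, mul_one]
      exact hle
    have h6 : (Tg ⊔ N).relIndex M ≤ 1 := Nat.le_of_mul_le_mul_left h5 hpos
    have h7 : (Tg ⊔ N).relIndex M ≠ 0 := by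
      intro h
      rw [h, mul_zero] at h2
      exact h0 h2.symm
    omega
  exact (AddSubgroup.relIndex_eq_one.1 h4).trans (sup_le_sup_left inf_le_left Tg)

end Index

section Main

variable {J : Type*} [AddCommGroup J] {G : Type*} [Monoid G] [DistribMulAction G J]
  {T : Type*} [CommRing T] [Module T J]

/-- **ALG0, abstract form**: the descent core from the Selmer bound. -/
theorem alg0_descCore_of_selBound
    (hcomm : ∀ (t : T) (σ : G) (x : J), t • σ • x = σ • t • x)
    {ι : Type*} (η : ι → T) (r : ℕ) (hr : 0 < r)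
    (hdiv : ∀ x : J, ∃ y : J, r • y = x)
    (hfin : ∀ n : ℕ, 0 < n → {x : J | n • x = 0}.Finite)
    (hrtf : ∃ e : ℕ, 0 < e ∧
      ∀ t : J, (∀ σ : G, σ • t = t) → (∃ m : ℕ, 0 < m ∧ m • t = 0) → e • t = 0)
    (A WE YE : AddSubgroup J)
    (hA : ∀ x, x ∈ A ↔ ∀ σ : G, σ • x = x)
    (hWE : ∀ w, w ∈ WE ↔ r • w = 0 ∧ ∀ i, ∃ k : ℕ, η i ^ k • w = 0)
    (hYE : ∀ y, y ∈ YE ↔ (∀ σ : G, σ • (r • y) = r • y) ∧ ∀ σ : G, σ • y - y ∈ WE)
    (hsel : (A ⊔ WE).relIndex YE ≠ 0 ∧ (A ⊔ WE).relIndex YE ≤ Nat.card ↥(WE ⊓ A))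
    (z : J) (hz : ∀ σ : G, σ • z = z)
    (hEis : ∀ i, ∃ w : J, (∀ σ : G, σ • w = w) ∧
      ∃ m : ℕ, 0 < m ∧ m • (η i • z - r • w) = 0) :
    ∃ w : J, (∀ σ : G, σ • w = w) ∧ ∃ m : ℕ, 0 < m ∧ m • (z - r • w) = 0 := by
  classical
  obtain ⟨e', he', hrtf⟩ := hrtf
  set n := r * e' with hn
  have hnpos : 0 < n := Nat.mul_pos hr he'
  -- the finite `T`-module `X = J[n]`
  let X : Submodule T J :=
    { carrier := {x | n • x = 0}
      zero_mem' := smul_zero n
      add_mem' := fun {a b} ha hb => by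
        show n • (a + b) = 0
        rw [smul_add, show n • a = 0 from ha, show n • b = 0 from hb, add_zero]
      smul_mem' := fun t x hx => by
        show n • (t • x) = 0
        rw [smul_comm, show n • x = 0 from hx, smul_zero] }
  have hXfin : Finite ↥X := Set.finite_coe_iff.2 (hfin n hnpos)
  let 𝔪 : Ideal T := Ideal.span (Set.range η)
  obtain ⟨K, f, hsplit⟩ := Fermat.Agent.S15.H2.exists_isSplit 𝔪 ↥X
  have hfm : f ∈ 𝔪 := by
    have := hsplit.pow_mem 1
    simpa using this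
  have hidem : ∀ x : J, n • x = 0 → f • f • x = f • x := fun x hx =>
    congrArg Subtype.val (hsplit.idem ⟨x, hx⟩)
  have hkill : ∀ t ∈ 𝔪 ^ K, ∀ x : J, n • x = 0 → t • (x - f • x) = 0 := fun t ht x hx =>
    congrArg Subtype.val (hsplit.kill t ht ⟨x, hx⟩)
  -- (a) `x - f x` is Eisenstein
  have hEisOf : ∀ x : J, n • x = 0 → ∀ i, ∃ k : ℕ, η i ^ k • (x - f • x) = 0 := fun x hx i =>
    ⟨K, hkill _ (Ideal.pow_mem_pow (Ideal.subset_span (Set.mem_range_self i)) K) x hx⟩
  -- (b) `f` kills the Eisenstein elements of `X`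
  have hfzero : ∀ x : J, n • x = 0 → (∀ i, ∃ k : ℕ, η i ^ k • x = 0) → f • x = 0 := by
    intro x hx h
    have hle : 𝔪 ≤ (Ideal.torsionOf T J x).radical := by
      refine Ideal.span_le.2 ?_
      rintro _ ⟨i, rfl⟩
      obtain ⟨k, hk⟩ := h i
      exact ⟨k, (Ideal.mem_torsionOf_iff _ _).2 hk⟩
    obtain ⟨k, hk⟩ := hle hfm
    have hk' : f ^ k • x = 0 := (Ideal.mem_torsionOf_iff _ _).1 hk
    have h1 : f ^ (k + 1) • x = f • x :=
      congrArg Subtype.val (hsplit.pow_smul ⟨x, hx⟩ (k + 1) (by omega))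
    rw [← h1, pow_succ', mul_smul, hk', smul_zero]
  -- (c) `T` preserves the rational points
  have hTA : ∀ (t : T) (a : J), (∀ σ : G, σ • a = a) → ∀ σ : G, σ • (t • a) = t • a :=
    fun t a ha σ => by rw [← hcomm, ha σ]
  -- torsion facts
  have hW_X : ∀ w : J, r • w = 0 → n • w = 0 := fun w hw => by
    rw [hn, mul_comm, mul_smul, hw, smul_zero]
  have hdivX : ∀ y t : J, r • y = t → e' • t = 0 → n • y = 0 := fun y t hy ht => by
    rw [hn, mul_comm, mul_smul, hy, ht]
  -- `W ∋ w ↦ w - f w ∈ W_E`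
  have hprojW : ∀ w : J, r • w = 0 → w - f • w ∈ WE := fun w hw => by
    rw [hWE]
    refine ⟨?_, hEisOf w (hW_X w hw)⟩
    rw [smul_sub, smul_comm r f w, hw, smul_zero, sub_zero]
  -- `y ↦ y - f y` maps `{y | r y ∈ A}` into `Y_E`
  have hprojY : ∀ y : J, (∀ σ : G, σ • (r • y) = r • y) → y - f • y ∈ YE := fun y hy => by
    rw [hYE]
    refine ⟨fun σ => ?_, fun σ => ?_⟩
    · rw [smul_sub, smul_comm r f y, smul_sub, hy σ, hTA f _ hy σ]
    · have h1 : σ • (y - f • y) - (y - f • y) = (σ • y - y) - f • (σ • y - y) := by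
        rw [smul_sub, smul_sub, hcomm]
        abel
      rw [h1]
      refine hprojW _ ?_
      rw [smul_sub, smul_comm r σ y, hy σ, sub_self]
  -- the Eisenstein rational torsion
  let Tg : AddSubgroup J :=
    { carrier := {t | (∀ σ : G, σ • t = t) ∧ e' • t = 0 ∧ f • t = 0}
      zero_mem' := ⟨fun σ => smul_zero σ, smul_zero _, smul_zero _⟩
      add_mem' := by
        rintro a b ⟨ha, ha', ha''⟩ ⟨hb, hb', hb''⟩
        exact ⟨fun σ => by rw [smul_add, ha σ, hb σ], by rw [smul_add, ha', hb', add_zero],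
          by rw [smul_add, ha'', hb'', add_zero]⟩
      neg_mem' := by
        rintro a ⟨ha, ha', ha''⟩
        exact ⟨fun σ => by rw [smul_neg, ha σ], by rw [smul_neg, ha', neg_zero],
          by rw [smul_neg, ha'', neg_zero]⟩ }
  have hTg : ∀ t : J, t ∈ Tg ↔ (∀ σ : G, σ • t = t) ∧ e' • t = 0 ∧ f • t = 0 := fun _ => Iff.rfl
  have hTgfin : Finite ↥Tg :=
    Set.finite_coe_iff.2 ((hfin e' he').subset fun t ht => ht.2.1)
  let φ : J →+ J := nsmulAddMonoidHom r
  have hφ : ∀ x : J, φ x = r • x := fun _ => rfl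
  set R : AddSubgroup J := A.map φ with hRdef
  have hRmem : ∀ x : J, x ∈ R ↔ ∃ a : J, (∀ σ : G, σ • a = a) ∧ r • a = x := by
    intro x
    rw [hRdef, AddSubgroup.mem_map]
    constructor
    · rintro ⟨a, ha, rfl⟩
      exact ⟨a, (hA a).1 ha, rfl⟩
    · rintro ⟨a, ha, rfl⟩
      exact ⟨a, (hA a).2 ha, rfl⟩
  -- Part I: `[T_E : r A ∩ T_E] = |W_E ∩ A|`
  have hI : R.relIndex Tg = Nat.card ↥(WE ⊓ A) := by
    refine alg0_relIndex_eq_card Tg R (WE ⊓ A) r hTgfin ?_ ?_
    · intro t ht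
      constructor
      · intro htR
        obtain ⟨a, ha, hat⟩ := (hRmem t).1 htR
        have hna : n • a = 0 := hdivX a t hat ht.2.1
        have hea : e' • a = 0 := hrtf a ha ⟨n, hnpos, hna⟩
        refine ⟨a - f • a, ⟨fun σ => by rw [smul_sub, ha σ, hTA f a ha σ], ?_, ?_⟩, ?_⟩
        · rw [smul_sub, smul_comm e' f a, hea, smul_zero, sub_zero]
        · rw [smul_sub, hidem a hna, sub_self]
        · rw [smul_sub, smul_comm r f a, hat, ht.2.2, sub_zero]
      · rintro ⟨t', ht', rfl⟩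
        exact (hRmem _).2 ⟨t', ht'.1, rfl⟩
    · intro w
      rw [AddSubgroup.mem_inf, hWE, hA, hTg]
      constructor
      · rintro ⟨⟨hw, hwE⟩, hwA⟩
        exact ⟨⟨hwA, hrtf w hwA ⟨r, hr, hw⟩, hfzero w (hW_X w hw) hwE⟩, hw⟩
      · rintro ⟨⟨hwA, -, hfw⟩, hw⟩
        refine ⟨⟨hw, ?_⟩, hwA⟩
        have := hEisOf w (hW_X w hw)
        rwa [hfw, sub_zero] at this
  -- `A + W_E ≤ Y_E`
  have hAY : A ≤ YE := fun a ha => by
    rw [hYE]
    have ha' := (hA a).1 ha
    refine ⟨fun σ => by rw [smul_comm σ r a, ha' σ], fun σ => ?_⟩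
    rw [ha' σ, sub_self]
    exact WE.zero_mem
  have hWY : WE ≤ YE := fun w hw => by
    rw [hYE]
    obtain ⟨hw1, hw2⟩ := (hWE w).1 hw
    refine ⟨fun σ => by rw [hw1, smul_zero], fun σ => ?_⟩
    rw [hWE]
    refine ⟨by rw [smul_sub, smul_comm r σ w, hw1, smul_zero, sub_zero], fun i => ?_⟩
    obtain ⟨k, hk⟩ := hw2 i
    exact ⟨k, by rw [smul_sub, hcomm, hk, smul_zero, sub_zero]⟩
  -- (k1) `A + W_E = [r]⁻¹(r A) ∩ Y_E`
  have hk1 : A ⊔ WE = R.comap φ ⊓ YE := by
    apply le_antisymm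
    · refine le_inf (sup_le ?_ ?_) (sup_le hAY hWY)
      · intro a ha
        rw [AddSubgroup.mem_comap, hφ]
        exact (hRmem _).2 ⟨a, (hA a).1 ha, rfl⟩
      · intro w hw
        rw [AddSubgroup.mem_comap, hφ, ((hWE w).1 hw).1]
        exact R.zero_mem
    · intro y hy
      obtain ⟨hy1, hy2⟩ := AddSubgroup.mem_inf.1 hy
      rw [AddSubgroup.mem_comap, hφ] at hy1
      obtain ⟨a, ha, hay⟩ := (hRmem _).1 hy1
      have hy2' := ((hYE y).1 hy2).2
      set w := y - a with hw
      have hrw : r • w = 0 := by rw [hw, smul_sub, hay, sub_self]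
      have hcoc : ∀ σ : G, σ • w - w = σ • y - y := fun σ => by
        rw [hw, smul_sub, ha σ]
        abel
      have hfw : ∀ σ : G, σ • (f • w) = f • w := by
        intro σ
        have h1 : σ • w - w ∈ WE := by rw [hcoc σ]; exact hy2' σ
        obtain ⟨h2, h3⟩ := (hWE _).1 h1
        have h4 := hfzero _ (hW_X _ h2) h3
        rw [smul_sub, sub_eq_zero, hcomm] at h4
        exact h4
      have hsplit' : y = (a + f • w) + (w - f • w) := by
        rw [hw]
        abel
      rw [hsplit']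
      exact AddSubgroup.add_mem _
        (AddSubgroup.mem_sup_left (A.add_mem ((hA a).2 ha) ((hA _).2 hfw)))
        (AddSubgroup.mem_sup_right (hprojW w hrw))
  -- (k2) `T_E ≤ r Y_E`
  have hk2 : Tg ≤ YE.map φ := by
    intro t ht
    obtain ⟨y0, hy0⟩ := hdiv t
    rw [AddSubgroup.mem_map]
    refine ⟨y0 - f • y0, hprojY y0 (fun σ => by rw [hy0, ht.1 σ]), ?_⟩
    rw [hφ, smul_sub, smul_comm r f y0, hy0, ht.2.2, sub_zero]
  -- the count
  have hrel : (A ⊔ WE).relIndex YE = R.relIndex (YE.map φ) := by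
    rw [← AddSubgroup.relIndex_comap, ← AddSubgroup.inf_relIndex_right (R.comap φ) YE, ← hk1]
  have hle : YE.map φ ≤ Tg ⊔ R := by
    refine alg0_le_sup_of_relIndex_le R Tg (YE.map φ) hk2 ?_ ?_
    · rw [← hrel]
      exact hsel.1
    · rw [← hrel, hI]
      exact hsel.2
  -- the submodule `r A + A_tors`
  let C : Submodule T J :=
    { carrier := {x | ∃ w : J, (∀ σ : G, σ • w = w) ∧ ∃ m : ℕ, 0 < m ∧ m • (x - r • w) = 0}
      zero_mem' := ⟨0, fun σ => smul_zero σ, 1, one_pos, by simp⟩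
      add_mem' := by
        rintro a b ⟨w, hw, m, hm, hma⟩ ⟨w', hw', m', hm', hmb⟩
        refine ⟨w + w', fun σ => by rw [smul_add, hw σ, hw' σ], m * m', Nat.mul_pos hm hm', ?_⟩
        have h1 : a + b - r • (w + w') = (a - r • w) + (b - r • w') := by
          rw [smul_add]
          abel
        rw [h1, smul_add, mul_comm m m', mul_smul, hma, smul_zero, mul_comm m' m, mul_smul, hmb,
          smul_zero, add_zero]
      smul_mem' := by
        rintro t x ⟨w, hw, m, hm, hmx⟩
        refine ⟨t • w, hTA t w hw, m, hm, ?_⟩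
        have h1 : t • x - r • t • w = t • (x - r • w) := by
          rw [smul_sub, smul_comm r t w]
        rw [h1, smul_comm m t, hmx, smul_zero] }
  have hC : ∀ x : J, x ∈ C ↔
      ∃ w : J, (∀ σ : G, σ • w = w) ∧ ∃ m : ℕ, 0 < m ∧ m • (x - r • w) = 0 := fun _ => Iff.rfl
  -- `f z ∈ C`
  have hfz : f • z ∈ C := by
    have hle' : 𝔪 ≤ C.comap (LinearMap.toSpanSingleton T J z) := by
      refine Ideal.span_le.2 ?_
      rintro _ ⟨i, rfl⟩
      show (LinearMap.toSpanSingleton T J z) (η i) ∈ C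
      rw [LinearMap.toSpanSingleton_apply]
      exact hEis i
    have := hle' hfm
    rw [Submodule.mem_comap, LinearMap.toSpanSingleton_apply] at this
    exact this
  -- `z - f z ∈ T_E + r A ≤ C`
  obtain ⟨y, hy⟩ := hdiv z
  have hyE : y - f • y ∈ YE := hprojY y (fun σ => by rw [hy, hz σ])
  have h1 : z - f • z ∈ Tg ⊔ R := by
    refine hle ?_
    rw [AddSubgroup.mem_map]
    refine ⟨y - f • y, hyE, ?_⟩
    rw [hφ, smul_sub, smul_comm r f y, hy]
  obtain ⟨t, ht, x, hx, htx⟩ := AddSubgroup.mem_sup.1 h1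
  obtain ⟨a, ha, hax⟩ := (hRmem x).1 hx
  have htC : t ∈ C := (hC t).2 ⟨0, fun σ => smul_zero σ, e', he', by
    rw [smul_zero, sub_zero]
    exact ht.2.1⟩
  have hxC : x ∈ C := (hC x).2 ⟨a, ha, 1, one_pos, by rw [hax, sub_self, smul_zero]⟩
  have hzC : z ∈ C := by
    have h2 : z = (t + x) + f • z := by
      rw [htx]
      abel
    rw [h2]
    exact C.add_mem (C.add_mem htC hxC) hfz
  exact (hC z).1 hzC

end Main

end Fermat.Agent.S15.H302

end
-- ===== PACK-END S15/H302/Alg0Abs.lean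

-- ===== PACK-BEGIN S55/Bridge/Cyclo.lean
section


/-!
# S55 bridge, part B2b: the mod `p` cyclotomic character is unramified outside `p`,
and `M.dualTwist (cycloChar p)` inherits smoothness and unramifiedness from `M`.
-/

set_option autoImplicit false

namespace Fermat.Agent.S55.Bridge

open ExtCitation

section inertia

variable (A : ValuationSubring (AlgebraicClosure ℚ))

/-- Elements of the inertia group act trivially on the residue field. -/
theorem inertia_val_sub_lt_one {σ : AlgebraicClosure ℚ ≃ₐ[ℚ] AlgebraicClosure ℚ}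
    (hσ : σ ∈ A.inertiaSubgroupIn ℚ) (z : AlgebraicClosure ℚ)
    (hz : A.valuation z ≤ 1) : A.valuation (σ z - z) < 1 := by
  obtain ⟨g, hg, rfl⟩ := hσ
  have hzA : z ∈ A := (A.valuation_le_one_iff z).mp hz
  have h1 : MulSemiringAction.toRingAut (A.decompositionSubgroup ℚ)
      (IsLocalRing.ResidueField A) g = 1 := hg
  have h2 : g • (IsLocalRing.residue A ⟨z, hzA⟩) = IsLocalRing.residue A ⟨z, hzA⟩ := by
    have := congrArg (fun f => f (IsLocalRing.residue A ⟨z, hzA⟩)) h1
    simpa using this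
  rw [← IsLocalRing.ResidueField.residue_smul] at h2
  have h3 : (g • (⟨z, hzA⟩ : A)) - ⟨z, hzA⟩ ∈ IsLocalRing.maximalIdeal A := by
    rw [← Ideal.Quotient.eq]
    exact h2
  rw [ValuationSubring.valuation_lt_one_iff] at h3
  exact h3

variable {A}

theorem val_intCast_le_one (n : ℤ) : A.valuation (n : AlgebraicClosure ℚ) ≤ 1 :=
  (A.valuation_le_one_iff _).mpr (intCast_mem A n)

/-- A prime `p ≠ q` is a unit at a place over `q`. -/
theorem val_prime_eq_one {q p : ℕ} (hq : A.LiesOverPrime q) (hqp : q.Prime) (hp : p.Prime)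
    (hne : q ≠ p) : A.valuation (p : AlgebraicClosure ℚ) = 1 := by
  have hq' : A.valuation (q : AlgebraicClosure ℚ) < 1 := (A.mem_nonunits_iff).mp hq
  have hcop : IsCoprime (q : ℤ) (p : ℤ) := by
    rw [Int.isCoprime_iff_gcd_eq_one, Int.gcd_natCast_natCast]
    exact (Nat.coprime_primes hqp hp).2 hne
  obtain ⟨u, w, huw⟩ := hcop
  have h1 : (u : AlgebraicClosure ℚ) * (q : AlgebraicClosure ℚ)
      + (w : AlgebraicClosure ℚ) * (p : AlgebraicClosure ℚ) = 1 := by
    exact_mod_cast congrArg (Int.cast : ℤ → AlgebraicClosure ℚ) huw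
  have hsmall : A.valuation ((u : AlgebraicClosure ℚ) * (q : AlgebraicClosure ℚ)) < 1 := by
    rw [map_mul]
    exact (mul_le_of_le_one_left' (val_intCast_le_one u)).trans_lt hq'
  have hwn : A.valuation ((w : AlgebraicClosure ℚ) * (p : AlgebraicClosure ℚ)) = 1 := by
    have : (w : AlgebraicClosure ℚ) * (p : AlgebraicClosure ℚ)
        = 1 + -((u : AlgebraicClosure ℚ) * (q : AlgebraicClosure ℚ)) := by linear_combination h1
    rw [this, (A.valuation).map_add_eq_of_lt_left
      (by rw [Valuation.map_neg, map_one]; exact hsmall), map_one]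
  rw [map_mul] at hwn
  have hp1 : A.valuation (p : AlgebraicClosure ℚ) ≤ 1 := by
    have := val_intCast_le_one (A := A) (p : ℤ)
    simpa using this
  refine le_antisymm hp1 ?_
  calc (1 : A.ValueGroup)
      = A.valuation (w : AlgebraicClosure ℚ) * A.valuation (p : AlgebraicClosure ℚ) := hwn.symm
    _ ≤ 1 * A.valuation (p : AlgebraicClosure ℚ) := mul_le_mul_left (val_intCast_le_one w) _
    _ = A.valuation (p : AlgebraicClosure ℚ) := one_mul _

/-- A nontrivial `p`-th root of unity `η` has `v (1 - η) = 1` at places where `p` is a unit. -/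
theorem val_one_sub_root_eq_one {p : ℕ} (hpv : A.valuation (p : AlgebraicClosure ℚ) = 1)
    {η : AlgebraicClosure ℚ} (hη : η ^ p = 1) (hη1 : η ≠ 1) (hηA : η ∈ A) :
    A.valuation (1 - η) = 1 := by
  -- work in the ring `A`
  let e : A := ⟨η, hηA⟩
  have hdvd : (1 : A) - e ∣ ((∑ i ∈ Finset.range p, (Polynomial.X : Polynomial A) ^ i).eval 1
      - (∑ i ∈ Finset.range p, (Polynomial.X : Polynomial A) ^ i).eval e) :=
    Polynomial.sub_dvd_eval_sub 1 e _
  have hsum : ∑ i ∈ Finset.range p, η ^ i = 0 := by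
    have h := geom_sum_mul η p
    rw [hη, sub_self] at h
    rcases mul_eq_zero.1 h with h | h
    · exact h
    · exact absurd (sub_eq_zero.1 h) hη1
  have hsumA : ∑ i ∈ Finset.range p, e ^ i = 0 := by
    apply Subtype.ext
    simpa [e] using hsum
  have heval1 : (∑ i ∈ Finset.range p, (Polynomial.X : Polynomial A) ^ i).eval 1 = (p : A) := by
    simp [Polynomial.eval_finsetSum]
  have hevale : (∑ i ∈ Finset.range p, (Polynomial.X : Polynomial A) ^ i).eval e = 0 := by
    simpa [Polynomial.eval_finsetSum] using hsumA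
  rw [heval1, hevale, sub_zero] at hdvd
  obtain ⟨y, hy⟩ := hdvd
  have hy' : (p : AlgebraicClosure ℚ) = (1 - η) * (y : AlgebraicClosure ℚ) := by
    have := congrArg (fun a : A => (a : AlgebraicClosure ℚ)) hy
    simpa [e] using this
  have hle : A.valuation (1 - η) ≤ 1 :=
    (A.valuation_le_one_iff _).mpr (A.sub_mem A.one_mem hηA)
  refine le_antisymm hle ?_
  have hyv : A.valuation (y : AlgebraicClosure ℚ) ≤ 1 := A.valuation_le_one y
  calc (1 : A.ValueGroup) = A.valuation (p : AlgebraicClosure ℚ) := hpv.symm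
    _ = A.valuation (1 - η) * A.valuation (y : AlgebraicClosure ℚ) := by rw [hy', map_mul]
    _ ≤ A.valuation (1 - η) * 1 := mul_le_mul_right hyv _
    _ = A.valuation (1 - η) := mul_one _

/-- Two distinct `p`-th roots of unity stay distinct in the residue field at places where `p`
is a unit. -/
theorem val_sub_roots_eq_one {p : ℕ} (hp0 : p ≠ 0)
    (hpv : A.valuation (p : AlgebraicClosure ℚ) = 1)
    {a b : AlgebraicClosure ℚ} (ha : a ^ p = 1) (hb : b ^ p = 1) (hab : a ≠ b) :
    A.valuation (a - b) = 1 := by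
  have hb0 : b ≠ 0 := by
    rintro rfl
    rw [zero_pow hp0] at hb
    exact zero_ne_one hb
  have hvb : A.valuation b = 1 := by
    have h : (A.valuation b) ^ p = 1 := by rw [← map_pow, hb, map_one]
    exact (pow_eq_one_iff.1 h).resolve_right hp0
  have hva : A.valuation a = 1 := by
    have h : (A.valuation a) ^ p = 1 := by rw [← map_pow, ha, map_one]
    exact (pow_eq_one_iff.1 h).resolve_right hp0
  have hη : (a / b) ^ p = 1 := by rw [div_pow, ha, hb, div_one]
  have hη1 : a / b ≠ 1 := by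
    intro h
    exact hab ((div_eq_one_iff_eq hb0).1 h)
  have hηA : a / b ∈ A := by
    rw [← A.valuation_le_one_iff, map_div₀, hva, hvb, div_one]
  have h1 := val_one_sub_root_eq_one hpv hη hη1 hηA
  have : a - b = -(b * (1 - a / b)) := by
    field_simp
    ring
  rw [this, Valuation.map_neg, map_mul, hvb, h1, one_mul]

end inertia

section cyclo

variable (p : ℕ) [Fact p.Prime]

/-- Defining property of `cycloChar`. -/
theorem cycloChar_spec (σ : AlgebraicClosure ℚ ≃ₐ[ℚ] AlgebraicClosure ℚ)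
    {t : (AlgebraicClosure ℚ)ˣ} (ht : t ∈ rootsOfUnity p (AlgebraicClosure ℚ)) :
    σ (t : AlgebraicClosure ℚ)
      = (t : AlgebraicClosure ℚ) ^ ((cycloChar p σ : (ZMod p)ˣ) : ZMod p).val := by
  haveI : NeZero p := ⟨(Fact.out : p.Prime).ne_zero⟩
  have h := modularCyclotomicCharacter.spec (AlgebraicClosure ℚ) (card_rootsOfUnity_eq_self p)
    (σ : AlgebraicClosure ℚ ≃+* AlgebraicClosure ℚ) ht
  exact h

/-- If `σ` fixes all `p`-th roots of unity then `cycloChar p σ = 1`. -/
theorem cycloChar_eq_one_of_fixes (σ : AlgebraicClosure ℚ ≃ₐ[ℚ] AlgebraicClosure ℚ)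
    (hσ : ∀ t : (AlgebraicClosure ℚ)ˣ, t ∈ rootsOfUnity p (AlgebraicClosure ℚ) →
      σ (t : AlgebraicClosure ℚ) = t) : cycloChar p σ = 1 := by
  haveI : NeZero p := ⟨(Fact.out : p.Prime).ne_zero⟩
  haveI : Fact (1 < p) := ⟨(Fact.out : p.Prime).one_lt⟩
  have h := modularCyclotomicCharacter.unique (AlgebraicClosure ℚ) (card_rootsOfUnity_eq_self p)
    (σ : AlgebraicClosure ℚ ≃+* AlgebraicClosure ℚ) (c := 1)
    (fun t ht => by rw [ZMod.val_one, pow_one]; exact hσ t ht)
  apply Units.ext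
  exact h.symm

/-- `cycloChar p σ = 1` iff `σ` fixes all `p`-th roots of unity. -/
theorem cycloChar_eq_one_iff (σ : AlgebraicClosure ℚ ≃ₐ[ℚ] AlgebraicClosure ℚ) :
    cycloChar p σ = 1 ↔ ∀ t : (AlgebraicClosure ℚ)ˣ, t ∈ rootsOfUnity p (AlgebraicClosure ℚ) →
      σ (t : AlgebraicClosure ℚ) = t := by
  haveI : Fact (1 < p) := ⟨(Fact.out : p.Prime).one_lt⟩
  refine ⟨fun h t ht => ?_, cycloChar_eq_one_of_fixes p σ⟩
  rw [cycloChar_spec p σ ht, h, Units.val_one, ZMod.val_one, pow_one]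

/-- **B2b.** The mod `p` cyclotomic character is unramified at every prime `q ≠ p`. -/
theorem cycloChar_eq_one_of_mem_inertia {q : ℕ} (hq : q.Prime) (hqp : q ≠ p)
    (A : ValuationSubring (AlgebraicClosure ℚ)) (hA : A.LiesOverPrime q)
    (σ : AlgebraicClosure ℚ ≃ₐ[ℚ] AlgebraicClosure ℚ) (hσ : σ ∈ A.inertiaSubgroupIn ℚ) :
    cycloChar p σ = 1 := by
  have hp : p.Prime := Fact.out
  apply cycloChar_eq_one_of_fixes
  intro t ht
  have htp : (t : AlgebraicClosure ℚ) ^ p = 1 := by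
    have := (mem_rootsOfUnity p t).1 ht
    rw [← Units.val_pow_eq_pow_val, this, Units.val_one]
  by_contra hne
  have hpv := val_prime_eq_one (A := A) hA hq hp hqp
  have hσt : (σ (t : AlgebraicClosure ℚ)) ^ p = 1 := by rw [← map_pow, htp, map_one]
  have h1 := val_sub_roots_eq_one (A := A) hp.ne_zero hpv hσt htp hne
  have hvt : A.valuation (t : AlgebraicClosure ℚ) ≤ 1 := by
    have h : (A.valuation (t : AlgebraicClosure ℚ)) ^ p = 1 := by rw [← map_pow, htp, map_one]
    exact ((pow_eq_one_iff.1 h).resolve_right hp.ne_zero).le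
  have h2 := inertia_val_sub_lt_one A hσ t hvt
  rw [h1] at h2
  exact lt_irrefl _ h2

end cyclo

end Fermat.Agent.S55.Bridge

end
-- ===== PACK-END S55/Bridge/Cyclo.lean

-- ===== PACK-BEGIN S55/Bridge/InertiaConj.lean
section


/-!
# S55 bridge: inertia groups of valuation subrings of `ℚ̄` — membership criterion, conjugation,
and normal (Galois) levels unramified outside `S`.
-/

set_option autoImplicit false

namespace Fermat.Agent.S55.Bridge

open IntermediateField
open scoped Pointwise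

attribute [local instance] isAlgebraic_Qbar isGalois_Qbar

section inertia

variable (A : ValuationSubring (AlgebraicClosure ℚ))

/-- Membership in the decomposition group, elementwise. -/
theorem mem_decompositionSubgroup_iff (σ : AlgebraicClosure ℚ ≃ₐ[ℚ] AlgebraicClosure ℚ) :
    σ ∈ A.decompositionSubgroup ℚ ↔ ∀ x, σ x ∈ A ↔ x ∈ A := by
  rw [MulAction.mem_stabilizer_iff]
  constructor
  · intro h x
    have hinv : σ⁻¹ • A = A := by
      conv_lhs => rw [← h]
      rw [inv_smul_smul]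
    have h1 := ValuationSubring.mem_pointwise_smul_iff_inv_smul_mem (S := A)
      (g := σ⁻¹) (x := x)
    rw [hinv, inv_inv] at h1
    rw [h1]
    rfl
  · intro h
    apply SetLike.ext
    intro x
    rw [ValuationSubring.mem_pointwise_smul_iff_inv_smul_mem]
    have h2 := h (σ⁻¹ • x)
    rw [AlgEquiv.smul_def] at h2 ⊢
    rw [← h2]
    have : σ (σ⁻¹ x) = x := by
      show (σ * σ⁻¹) x = x
      rw [mul_inv_cancel]
      rfl
    rw [this]

/-- Membership in the inertia group, elementwise. -/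
theorem mem_inertiaSubgroupIn_iff (σ : AlgebraicClosure ℚ ≃ₐ[ℚ] AlgebraicClosure ℚ) :
    σ ∈ A.inertiaSubgroupIn ℚ ↔
      σ ∈ A.decompositionSubgroup ℚ ∧ ∀ z ∈ A, σ z - z ∈ A.nonunits := by
  constructor
  · intro hσ
    have hD : σ ∈ A.decompositionSubgroup ℚ := by
      obtain ⟨g, -, rfl⟩ := hσ
      exact g.2
    refine ⟨hD, fun z hz => ?_⟩
    rw [ValuationSubring.mem_nonunits_iff]
    exact inertia_val_sub_lt_one A hσ z ((A.valuation_le_one_iff z).2 hz)
  · rintro ⟨hD, h⟩
    refine ⟨⟨σ, hD⟩, ?_, rfl⟩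
    show (⟨σ, hD⟩ : A.decompositionSubgroup ℚ) ∈ MonoidHom.ker
      (MulSemiringAction.toRingAut (A.decompositionSubgroup ℚ) (IsLocalRing.ResidueField A))
    rw [MonoidHom.mem_ker]
    apply RingEquiv.ext
    intro y
    obtain ⟨x, rfl⟩ := IsLocalRing.residue_surjective y
    show (⟨σ, hD⟩ : A.decompositionSubgroup ℚ) • (IsLocalRing.residue A x)
      = IsLocalRing.residue A x
    rw [← IsLocalRing.ResidueField.residue_smul]
    rw [← sub_eq_zero, ← map_sub, IsLocalRing.residue_eq_zero_iff]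
    have h3 := h x.1 x.2
    rw [ValuationSubring.mem_nonunits_iff] at h3
    rw [ValuationSubring.valuation_lt_one_iff]
    exact h3

theorem mem_smul_valuationSubring_iff (b : AlgebraicClosure ℚ ≃ₐ[ℚ] AlgebraicClosure ℚ)
    (x : AlgebraicClosure ℚ) : x ∈ b • A ↔ b⁻¹ x ∈ A := by
  rw [ValuationSubring.mem_pointwise_smul_iff_inv_smul_mem]
  rfl

theorem mem_nonunits_iff_inv_not_mem (x : AlgebraicClosure ℚ) :
    x ∈ A.nonunits ↔ x = 0 ∨ x⁻¹ ∉ A := by
  rw [ValuationSubring.mem_nonunits_iff]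
  rcases eq_or_ne x 0 with rfl | hx
  · simp
  · simp only [hx, false_or]
    rw [← A.valuation_le_one_iff, map_inv₀, not_le]
    have hpos : 0 < A.valuation x := by
      rw [zero_lt_iff]
      exact (A.valuation.ne_zero_iff).2 hx
    rw [one_lt_inv₀ hpos]

theorem mem_nonunits_smul_iff (b : AlgebraicClosure ℚ ≃ₐ[ℚ] AlgebraicClosure ℚ)
    (x : AlgebraicClosure ℚ) : x ∈ (b • A).nonunits ↔ b⁻¹ x ∈ A.nonunits := by
  rw [mem_nonunits_iff_inv_not_mem, mem_nonunits_iff_inv_not_mem, mem_smul_valuationSubring_iff,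
    map_inv₀]
  have : b⁻¹ x = 0 ↔ x = 0 := by
    rw [map_eq_zero_iff _ (b⁻¹).injective]
  rw [this]

theorem liesOverPrime_smul (b : AlgebraicClosure ℚ ≃ₐ[ℚ] AlgebraicClosure ℚ) (q : ℕ)
    (hA : A.LiesOverPrime q) : (b • A).LiesOverPrime q := by
  show (q : AlgebraicClosure ℚ) ∈ (b • A).nonunits
  rw [mem_nonunits_smul_iff, map_natCast]
  exact hA

theorem apply_inv_conj (b σ : AlgebraicClosure ℚ ≃ₐ[ℚ] AlgebraicClosure ℚ)
    (x : AlgebraicClosure ℚ) : b⁻¹ ((b * σ * b⁻¹) x) = σ (b⁻¹ x) := by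
  show (b⁻¹ * (b * σ * b⁻¹)) x = (σ * b⁻¹) x
  congr 1
  group

/-- Conjugation carries the inertia group of `A` to that of `b • A`. -/
theorem conj_mem_inertiaSubgroupIn (b σ : AlgebraicClosure ℚ ≃ₐ[ℚ] AlgebraicClosure ℚ)
    (hσ : σ ∈ A.inertiaSubgroupIn ℚ) : b * σ * b⁻¹ ∈ (b • A).inertiaSubgroupIn ℚ := by
  rw [mem_inertiaSubgroupIn_iff] at hσ ⊢
  obtain ⟨hD, hI⟩ := hσ
  rw [mem_decompositionSubgroup_iff] at hD
  refine ⟨?_, ?_⟩
  · rw [mem_decompositionSubgroup_iff]
    intro x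
    rw [mem_smul_valuationSubring_iff, mem_smul_valuationSubring_iff, apply_inv_conj, hD]
  · intro z hz
    rw [mem_smul_valuationSubring_iff] at hz
    rw [mem_nonunits_smul_iff, map_sub, apply_inv_conj]
    exact hI _ hz

end inertia

section Levels

variable (S : Finset Nat.Primes)

/-- Every finite extension unramified outside `S` is contained in a finite GALOIS extension
unramified outside `S`. -/
theorem exists_galois_level_ge (F : IntermediateField ℚ (AlgebraicClosure ℚ))
    (hF : F.IsUnramifiedOutside S) :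
    ∃ L : IntermediateField ℚ (AlgebraicClosure ℚ),
      L.IsUnramifiedOutside S ∧ IsGalois ℚ L ∧ F ≤ L := by
  haveI := hF.1
  haveI : (F.fixingSubgroup.normalCore).Normal := Subgroup.normalCore_normal _
  -- the normal closure is a finite Galois extension containing `F`
  have hfinN : FiniteDimensional ℚ (IntermediateField.normalClosure ℚ F (AlgebraicClosure ℚ)) :=
    normalClosure.is_finiteDimensional ℚ F (AlgebraicClosure ℚ)
  have hgalN : IsGalois ℚ (IntermediateField.normalClosure ℚ F (AlgebraicClosure ℚ)) :=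
    IsGalois.normalClosure ℚ F (AlgebraicClosure ℚ)
  have hnormal : (IntermediateField.normalClosure ℚ F
      (AlgebraicClosure ℚ)).fixingSubgroup.Normal :=
    (InfiniteGalois.normal_iff_isGalois _).2 hgalN
  have hle : (IntermediateField.normalClosure ℚ F (AlgebraicClosure ℚ)).fixingSubgroup
      ≤ F.fixingSubgroup.normalCore := by
    rw [Subgroup.normal_le_normalCore]
    exact IntermediateField.fixingSubgroup_antitone (IntermediateField.le_normalClosure F)
  obtain ⟨L, hL, hgal, hfix, -⟩ := exists_galois_level_of_subgroup S F.fixingSubgroup.normalCore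
    (IntermediateField.normalClosure ℚ F (AlgebraicClosure ℚ)) hfinN hle
    (by
      intro q hq A hA σ hσ
      rw [Subgroup.normalCore]
      intro b
      have h1 := conj_mem_inertiaSubgroupIn A b σ hσ
      exact hF.2 q hq (b • A) (liesOverPrime_smul A b q hA) h1)
  refine ⟨L, hL, hgal, ?_⟩
  have h2 : L.fixingSubgroup ≤ F.fixingSubgroup := by
    rw [hfix]
    exact Subgroup.normalCore_le _
  rw [← InfiniteGalois.fixedField_fixingSubgroup F, ← InfiniteGalois.fixedField_fixingSubgroup L]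
  exact IntermediateField.fixedField_antitone h2

end Levels

end Fermat.Agent.S55.Bridge

end
-- ===== PACK-END S55/Bridge/InertiaConj.lean

-- ===== PACK-BEGIN S18/H558/CechFG.lean
section




/-!
# S18 / piece b5 (continued): `H¹` of the two-chart cover is finitely generated

`B = B_mid`, `x ∈ B` a unit with inverse `y`, `Bfin ∋ x` finitely generated as a module over
`A[x]`, `Binf ∋ y`, `B = Bfin[1/x]`, and every generator of `Bfin` lies in `x ^ D • Binf`.
Then `B / (Bfin + Binf)` is a finitely generated `A`-module, hence (for noetherian `A`) its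
`w`-power torsion is bounded, which is the hypothesis `hH1` of `cech_idempotent_trivial`.
-/

namespace Fermat.Agent.S18.H558

variable {A B : Type*} [CommRing A] [CommRing B] [Algebra A B]

/-- The two charts together with finitely many explicit elements span `B` over `A`. -/
theorem cech_span_top {ι : Type*} [Finite ι] (x y : B) (hxy : x * y = 1)
    (Bfin Binf : Subalgebra A B) (hx : x ∈ Bfin) (hy : y ∈ Binf)
    (bs : ι → B) (hbs : ∀ i, bs i ∈ Bfin)
    (hgen : ∀ b ∈ Bfin, b ∈ Submodule.span A {z : B | ∃ (j : ℕ) (i : ι), z = x ^ j * bs i})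
    (hloc : ∀ b : B, ∃ K : ℕ, x ^ K * b ∈ Bfin)
    (hinf : ∀ i, ∃ D : ℕ, y ^ D * bs i ∈ Binf) :
    ∃ G : Set B, G.Finite ∧
      Bfin.toSubmodule ⊔ Binf.toSubmodule ⊔ Submodule.span A G = ⊤ := by
  classical
  cases nonempty_fintype ι
  choose Df hDf using hinf
  let D : ℕ := Finset.univ.sup Df
  have hD : ∀ i, Df i ≤ D := fun i => Finset.le_sup (f := Df) (Finset.mem_univ i)
  let G : Set B := (fun p : ι × ℕ => y ^ p.2 * bs p.1) '' ((Finset.univ ×ˢ Finset.range D : Finset (ι × ℕ)) : Set (ι × ℕ))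
  refine ⟨G, (Finset.finite_toSet _).image _, ?_⟩
  set T : Submodule A B := Bfin.toSubmodule ⊔ Binf.toSubmodule ⊔ Submodule.span A G with hT
  have hfinT : ∀ b ∈ Bfin, b ∈ T := fun b hb =>
    Submodule.mem_sup_left (Submodule.mem_sup_left hb)
  have hinfT : ∀ b ∈ Binf, b ∈ T := fun b hb =>
    Submodule.mem_sup_left (Submodule.mem_sup_right hb)
  have hGT : ∀ b ∈ G, b ∈ T := fun b hb =>
    Submodule.mem_sup_right (Submodule.subset_span hb)
  have hyx : ∀ n : ℕ, y ^ n * x ^ n = 1 := fun n => by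
    rw [← mul_pow, mul_comm y x, hxy, one_pow]
  -- the monomials
  have hmono : ∀ (K j : ℕ) (i : ι), y ^ K * (x ^ j * bs i) ∈ T := by
    intro K j i
    rcases le_or_gt K j with hKj | hjK
    · obtain ⟨d, rfl⟩ := Nat.exists_eq_add_of_le hKj
      have : y ^ K * (x ^ (K + d) * bs i) = x ^ d * bs i := by
        rw [pow_add, ← mul_assoc, ← mul_assoc, hyx, one_mul]
      rw [this]
      exact hfinT _ (Bfin.mul_mem (Bfin.pow_mem hx d) (hbs i))
    · obtain ⟨k, rfl⟩ := Nat.exists_eq_add_of_le hjK.le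
      have : y ^ (j + k) * (x ^ j * bs i) = y ^ k * bs i := by
        rw [pow_add, mul_comm (y ^ j) (y ^ k), mul_assoc, ← mul_assoc (y ^ j), hyx, one_mul]
      rw [this]
      rcases le_or_gt (Df i) k with hDk | hkD
      · obtain ⟨d, rfl⟩ := Nat.exists_eq_add_of_le hDk
        have : y ^ (Df i + d) * bs i = y ^ d * (y ^ Df i * bs i) := by
          rw [pow_add]; ring
        rw [this]
        exact hinfT _ (Binf.mul_mem (Binf.pow_mem hy d) (hDf i))
      · apply hGT
        refine ⟨(i, k), ?_, rfl⟩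
        simp only [Finset.coe_product, Finset.coe_univ, Finset.coe_range, Set.mem_prod,
          Set.mem_univ, Set.mem_Iio, true_and]
        exact lt_of_lt_of_le hkD (hD i)
  rw [eq_top_iff]
  rintro b -
  obtain ⟨K, hK⟩ := hloc b
  have hb : b = y ^ K * (x ^ K * b) := by rw [← mul_assoc, hyx, one_mul]
  rw [hb]
  have hspan := hgen _ hK
  refine Submodule.span_induction (p := fun z _ => y ^ K * z ∈ T) ?_ ?_ ?_ ?_ hspan
  · rintro z ⟨j, i, rfl⟩
    exact hmono K j i
  · simp
  · intro u v _ _ hu hv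
    rw [mul_add]
    exact T.add_mem hu hv
  · intro a u _ hu
    rw [mul_smul_comm]
    exact T.smul_mem a hu

/-- Bounded `w`-power torsion of `B / (Bfin + Binf)` from finite generation, for noetherian `A`. -/
theorem cech_h1_bound [IsNoetherianRing A] (w : A) (Bfin Binf : Subalgebra A B)
    (G : Set B) (hG : G.Finite)
    (htop : Bfin.toSubmodule ⊔ Binf.toSubmodule ⊔ Submodule.span A G = ⊤) :
    ∃ c : ℕ, ∀ (n : ℕ) (h : B),
      algebraMap A B w ^ n * h ∈ Bfin.toSubmodule ⊔ Binf.toSubmodule →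
      algebraMap A B w ^ c * h ∈ Bfin.toSubmodule ⊔ Binf.toSubmodule := by
  set S : Submodule A B := Bfin.toSubmodule ⊔ Binf.toSubmodule with hS
  have hfinG : Module.Finite A (Submodule.span A G) := Module.Finite.span_of_finite A hG
  let φ : Submodule.span A G →ₗ[A] B ⧸ S := S.mkQ.comp (Submodule.span A G).subtype
  have hφ : Function.Surjective φ := by
    intro m
    obtain ⟨b, rfl⟩ := S.mkQ_surjective m
    have hb : b ∈ S ⊔ Submodule.span A G := by rw [htop]; trivial
    obtain ⟨s, hs, g, hg, rfl⟩ := Submodule.mem_sup.1 hb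
    refine ⟨⟨g, hg⟩, ?_⟩
    change S.mkQ g = S.mkQ (s + g)
    have hs0 : S.mkQ s = 0 := (Submodule.Quotient.mk_eq_zero S).2 hs
    rw [map_add, hs0, zero_add]
  have hfinQ : Module.Finite A (B ⧸ S) := Module.Finite.of_surjective φ hφ
  obtain ⟨c, hc⟩ := exists_torsion_bound (A := A) (M := B ⧸ S) w
  refine ⟨c, fun n h hn => ?_⟩
  have e : ∀ k : ℕ, algebraMap A B w ^ k * h = w ^ k • h := fun k => by
    rw [Algebra.smul_def, map_pow]
  rw [e] at hn ⊢
  have h1 : w ^ n • (S.mkQ h) = 0 := by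
    rw [← map_smul]
    exact (Submodule.Quotient.mk_eq_zero S).2 hn
  have h2 := hc n _ h1
  rw [← map_smul] at h2
  exact (Submodule.Quotient.mk_eq_zero S).1 h2

/-- **Connectedness of the two-chart model (piece b5).**  Packaged form:
noetherian base `A`, `(w)` prime in `A`, two charts `Bfin ∋ x`, `Binf ∋ x⁻¹` of `B = Bfin[1/x]`
with `Bfin` finite over `A[x]`, `Bfin ∩ Binf = A` and `A / w → Bfin / w` injective.  Then every
compatible pair of idempotents modulo `w` on the two charts is `(0, 0)` or `(1, 1)`. -/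
theorem cech_connected [IsNoetherianRing A] {ι : Type*} [Finite ι] (w : A) (x y : B)
    (hxy : x * y = 1) (Bfin Binf : Subalgebra A B) (hx : x ∈ Bfin) (hy : y ∈ Binf)
    (bs : ι → B) (hbs : ∀ i, bs i ∈ Bfin)
    (hgen : ∀ b ∈ Bfin, b ∈ Submodule.span A {z : B | ∃ (j : ℕ) (i : ι), z = x ^ j * bs i})
    (hloc : ∀ b : B, ∃ K : ℕ, x ^ K * b ∈ Bfin)
    (hinf : ∀ i, ∃ D : ℕ, y ^ D * bs i ∈ Binf)
    (hH0 : ∀ b : B, b ∈ Bfin → b ∈ Binf → ∃ a : A, algebraMap A B a = b)
    (hinj : ∀ a : A, (∃ t ∈ Bfin, algebraMap A B a = algebraMap A B w * t) → w ∣ a)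
    (hprime : ∀ a b : A, w ∣ a * b → w ∣ a ∨ w ∣ b)
    (e₁ e₂ : B) (he₁ : e₁ ∈ Bfin) (he₂ : e₂ ∈ Binf)
    (hi₁ : ∃ t ∈ Bfin, e₁ ^ 2 - e₁ = algebraMap A B w * t)
    (hi₂ : ∃ t ∈ Binf, e₂ ^ 2 - e₂ = algebraMap A B w * t)
    (h₁₂ : ∃ t : B, e₁ - e₂ = algebraMap A B w * t) :
    ((∃ t ∈ Bfin, e₁ = algebraMap A B w * t) ∧ (∃ t ∈ Binf, e₂ = algebraMap A B w * t)) ∨
    ((∃ t ∈ Bfin, 1 - e₁ = algebraMap A B w * t) ∧ (∃ t ∈ Binf, 1 - e₂ = algebraMap A B w * t)) := by
  obtain ⟨G, hG, htop⟩ := cech_span_top x y hxy Bfin Binf hx hy bs hbs hgen hloc hinf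
  obtain ⟨c, hc⟩ := cech_h1_bound w Bfin Binf G hG htop
  exact cech_idempotent_trivial w Bfin Binf c (fun h hh => hc (c + 1) h hh) hH0 hinj hprime
    e₁ e₂ he₁ he₂ hi₁ hi₂ h₁₂

end Fermat.Agent.S18.H558

end
-- ===== PACK-END S18/H558/CechFG.lean

-- ===== PACK-BEGIN S18/H138/CechSub.lean
section


/-!
# S18, Route K, ASM (helper138): two-chart connectedness inside an ambient ring

`H558.cech_connected` is stated with `B_mid` as the ambient ring.  In the assembly the three
charts `Bf, Bi ≤ Bm` are subalgebras of a big field `F'`; this file transports the lemma.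
-/

set_option autoImplicit false
set_option linter.style.haveILetI false

namespace Fermat.Agent.S18.H138

variable {R F : Type*} [CommRing R] [CommRing F] [Algebra R F]

/-- **Two-chart connectedness, subalgebra form.**  `Bf, Bi ≤ Bm` subalgebras of an ambient
`R`-algebra `F`, `x ∈ Bf`, `y ∈ Bi`, `x y = 1`, `Bm = Bf[1/x]`, `Bf` generated over `R[x]` by
finitely many `bs i` with `y ^ D * bs i ∈ Bi`, `Bf ∩ Bi = R`, `R/w → Bf/w` injective, `w` prime.
Then a pair `e₁ ∈ Bf`, `e₂ ∈ Bi` of idempotents modulo `w` (in their charts) which are congruent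
modulo `w Bm` is `(0,0)` or `(1,1)` modulo `w`. -/
theorem cech_connected_sub [IsNoetherianRing R] {ι : Type*} [Finite ι] (w : R) (x y : F)
    (hxy : x * y = 1) (Bf Bi Bm : Subalgebra R F) (hfm : Bf ≤ Bm) (him : Bi ≤ Bm)
    (hx : x ∈ Bf) (hy : y ∈ Bi)
    (bs : ι → F) (hbs : ∀ i, bs i ∈ Bf)
    (hgen : ∀ b ∈ Bf, b ∈ Submodule.span R {z : F | ∃ (j : ℕ) (i : ι), z = x ^ j * bs i})
    (hloc : ∀ b ∈ Bm, ∃ K : ℕ, x ^ K * b ∈ Bf)
    (hinf : ∀ i, ∃ D : ℕ, y ^ D * bs i ∈ Bi)
    (hH0 : ∀ b : F, b ∈ Bf → b ∈ Bi → ∃ a : R, algebraMap R F a = b)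
    (hinj : ∀ a : R, (∃ t ∈ Bf, algebraMap R F a = algebraMap R F w * t) → w ∣ a)
    (hprime : ∀ a b : R, w ∣ a * b → w ∣ a ∨ w ∣ b)
    (e₁ e₂ : F) (he₁ : e₁ ∈ Bf) (he₂ : e₂ ∈ Bi)
    (hi₁ : ∃ t ∈ Bf, e₁ ^ 2 - e₁ = algebraMap R F w * t)
    (hi₂ : ∃ t ∈ Bi, e₂ ^ 2 - e₂ = algebraMap R F w * t)
    (h₁₂ : ∃ t ∈ Bm, e₁ - e₂ = algebraMap R F w * t) :
    ((∃ t ∈ Bf, e₁ = algebraMap R F w * t) ∧ (∃ t ∈ Bi, e₂ = algebraMap R F w * t)) ∨
    ((∃ t ∈ Bf, 1 - e₁ = algebraMap R F w * t) ∧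
      (∃ t ∈ Bi, 1 - e₂ = algebraMap R F w * t)) := by
  classical
  -- the ambient ring is `Bm`
  let ι' : Bm →ₐ[R] F := Bm.val
  have hι' : Function.Injective ι' := Subtype.val_injective
  let Bf' : Subalgebra R Bm := Bf.comap ι'
  let Bi' : Subalgebra R Bm := Bi.comap ι'
  have hxm : x ∈ Bm := hfm hx
  have hym : y ∈ Bm := him hy
  have hwm : ∀ a : R, ((algebraMap R Bm a : Bm) : F) = algebraMap R F a := fun a => rfl
  have key := H558.cech_connected (A := R) (B := Bm) (ι := ι) w ⟨x, hxm⟩ ⟨y, hym⟩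
    (Subtype.ext (by simpa using hxy)) Bf' Bi' (by simpa [Bf', ι'] using hx)
    (by simpa [Bi', ι'] using hy)
    (fun i => ⟨bs i, hfm (hbs i)⟩) (fun i => by simpa [Bf', ι'] using hbs i)
    (by
      intro b hb
      have hb' : (b : F) ∈ Bf := by simpa [Bf', ι'] using hb
      have h1 := hgen _ hb'
      -- transport the span along the injective map `Bm → F`
      have h2 : Submodule.span R {z : F | ∃ (j : ℕ) (i : ι), z = x ^ j * bs i} =
          Submodule.map ι'.toLinearMap (Submodule.span R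
            {z : Bm | ∃ (j : ℕ) (i : ι), z = (⟨x, hxm⟩ : Bm) ^ j * ⟨bs i, hfm (hbs i)⟩}) := by
        rw [Submodule.map_span]
        congr 1
        ext z
        constructor
        · rintro ⟨j, i, rfl⟩
          exact ⟨(⟨x, hxm⟩ : Bm) ^ j * ⟨bs i, hfm (hbs i)⟩, ⟨j, i, rfl⟩, by simp [ι']⟩
        · rintro ⟨z', ⟨j, i, rfl⟩, rfl⟩
          exact ⟨j, i, by simp [ι']⟩
      rw [h2] at h1
      obtain ⟨c, hc, hcb⟩ := h1
      have : c = b := hι' hcb
      rwa [this] at hc)
    (by
      intro b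
      obtain ⟨K, hK⟩ := hloc b b.2
      exact ⟨K, by simpa [Bf', ι'] using hK⟩)
    (by
      intro i
      obtain ⟨D, hD⟩ := hinf i
      exact ⟨D, by simpa [Bi', ι'] using hD⟩)
    (by
      intro b hbf hbi
      obtain ⟨a, ha⟩ := hH0 b (by simpa [Bf', ι'] using hbf) (by simpa [Bi', ι'] using hbi)
      exact ⟨a, Subtype.ext ha⟩)
    (by
      rintro a ⟨t, ht, hat⟩
      refine hinj a ⟨t, by simpa [Bf', ι'] using ht, ?_⟩
      have := congrArg (Subtype.val) hat
      simpa using this)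
    hprime ⟨e₁, hfm he₁⟩ ⟨e₂, him he₂⟩ (by simpa [Bf', ι'] using he₁)
    (by simpa [Bi', ι'] using he₂)
    (by
      obtain ⟨t, ht, h⟩ := hi₁
      exact ⟨⟨t, hfm ht⟩, by simpa [Bf', ι'] using ht, Subtype.ext (by simpa using h)⟩)
    (by
      obtain ⟨t, ht, h⟩ := hi₂
      exact ⟨⟨t, him ht⟩, by simpa [Bi', ι'] using ht, Subtype.ext (by simpa using h)⟩)
    (by
      obtain ⟨t, ht, h⟩ := h₁₂
      exact ⟨⟨t, ht⟩, Subtype.ext (by simpa using h)⟩)
  have conv : ∀ (C : Subalgebra R F) (u : F) (hu : u ∈ Bm),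
      (∃ t ∈ C.comap ι', (⟨u, hu⟩ : Bm) = algebraMap R Bm w * t) →
        ∃ t ∈ C, u = algebraMap R F w * t := by
    rintro C u hu ⟨t, ht, h⟩
    refine ⟨t, by simpa [ι'] using ht, ?_⟩
    have := congrArg Subtype.val h
    simpa using this
  rcases key with ⟨h1, h2⟩ | ⟨h1, h2⟩
  · exact Or.inl ⟨conv Bf e₁ (hfm he₁) h1, conv Bi e₂ (him he₂) h2⟩
  · refine Or.inr ⟨conv Bf (1 - e₁) (Bm.sub_mem Bm.one_mem (hfm he₁)) ?_,
      conv Bi (1 - e₂) (Bm.sub_mem Bm.one_mem (him he₂)) ?_⟩
    · obtain ⟨t, ht, h⟩ := h1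
      exact ⟨t, ht, by rw [← h]; rfl⟩
    · obtain ⟨t, ht, h⟩ := h2
      exact ⟨t, ht, by rw [← h]; rfl⟩

end Fermat.Agent.S18.H138

end
-- ===== PACK-END S18/H138/CechSub.lean

-- ===== PACK-BEGIN A2/H372/Radical.lean
section


/-!
# A2 / MOD M5 (d4) : `p₁ + p₂` is a radical ideal (helper372)

Corollaries of `Fermat.Agent.A2.H372.Transversal` in the exact form of the field
`SSChart.transversal` of `Fermat/Agent/A2/Spec.lean` (row-lead helper13):
`(P₁ ⊔ P₂).IsRadical`.

* `isRadical_of_local` : an ideal `J` such that every maximal ideal `n ⊇ J` is generated by `J`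
  locally at `n` (elementwise form) is radical.
* `KronCong.sup_isRadical` : transversality from the (semilinear) Kronecker congruences, `α` onto
  `B/P₁`, and local generators of the first branch at the crossing points.
* `KronCong.sup_isRadical_of_isDedekindDomain` : the same when the first branch
  `A ⧸ comap α P₁` is a Dedekind domain (= `B_M / w` normal, S18 b2 at level `M`).
-/

set_option autoImplicit false

namespace Fermat.Agent.A2.H372

open Ideal

variable {A B : Type*} [CommRing A] [CommRing B]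

/-- An ideal which, locally at every maximal ideal containing it, is equal to that maximal
ideal, is radical. -/
theorem isRadical_of_local {J : Ideal B}
    (h : ∀ n : Ideal B, n.IsMaximal → J ≤ n → ∀ x ∈ n, ∃ t : B, t ∉ n ∧ t * x ∈ J) :
    J.IsRadical := by
  intro x hx
  -- the conductor `I = (J : x)`
  let I : Ideal B :=
    { carrier := {t | t * x ∈ J}
      add_mem' := fun {a b} ha hb => by
        change (a + b) * x ∈ J
        rw [add_mul]; exact J.add_mem ha hb
      zero_mem' := by simp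
      smul_mem' := fun c a ha => by
        change c * a * x ∈ J
        rw [mul_assoc]; exact J.mul_mem_left c ha }
  have hI : ∀ t, t ∈ I ↔ t * x ∈ J := fun t => Iff.rfl
  by_contra hxJ
  have hne : I ≠ ⊤ := by
    intro htop
    have : (1 : B) ∈ I := by rw [htop]; trivial
    rw [hI, one_mul] at this
    exact hxJ this
  obtain ⟨n, hn, hIn⟩ := Ideal.exists_le_maximal I hne
  have hJI : J ≤ I := fun t ht => (hI t).mpr (J.mul_mem_right x ht)
  have hJn : J ≤ n := hJI.trans hIn
  have hxn : x ∈ n := by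
    obtain ⟨k, hk⟩ := hx
    exact hn.isPrime.mem_of_pow_mem k (hJn hk)
  obtain ⟨t, ht, htx⟩ := h n hn hJn x hxn
  exact ht (hIn ((hI t).mpr htx))

/-- **Transversality** (`SSChart.transversal`): `P₁ + P₂` is radical. -/
theorem KronCong.sup_isRadical {q : ℕ} (hq : 2 ≤ q) {α β : A →+* B} {P₁ P₂ : Ideal B}
    (h : KronCong q α β P₁ P₂) (hα : ∀ b : B, ∃ a : A, b - α a ∈ P₁)
    (huni : ∀ n : Ideal B, n.IsMaximal → P₁ ≤ n → P₂ ≤ n → ∃ a₀ : A, IsBranchUnif α P₁ n a₀) :
    (P₁ ⊔ P₂).IsRadical := by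
  refine isRadical_of_local fun n hn hJn x hx => ?_
  have hP₁ : P₁ ≤ n := le_sup_left.trans hJn
  have hP₂ : P₂ ≤ n := le_sup_right.trans hJn
  obtain ⟨a₀, ha₀⟩ := huni n hn hP₁ hP₂
  have := hn.isPrime
  exact h.mem_sup_of_mem hq hP₁ hP₂ hα ha₀ hx

/-- **Transversality** when the first branch is a Dedekind domain. -/
theorem KronCong.sup_isRadical_of_isDedekindDomain {q : ℕ} (hq : 2 ≤ q) {α β : A →+* B}
    {P₁ P₂ : Ideal B} (h : KronCong q α β P₁ P₂) (hα : ∀ b : B, ∃ a : A, b - α a ∈ P₁)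
    [IsDedekindDomain (A ⧸ Ideal.comap α P₁)] :
    (P₁ ⊔ P₂).IsRadical :=
  h.sup_isRadical hq hα fun n hn hP₁ _ =>
    haveI := hn.isPrime
    exists_isBranchUnif_of_isDedekindDomain α P₁ n hP₁

end Fermat.Agent.A2.H372

end
-- ===== PACK-END A2/H372/Radical.lean

-- ===== PACK-BEGIN A2/H372/NodeLoc.lean
section


/-!
# A2 / NODE-LOC : from the global semistable chart to the local data at a closed point (helper372)

Adapter between MODEL (global statements on a chart `B`: the fields of `SSChart` in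
`Fermat/Agent/A2/Spec.lean`) and the local purity / LP lemmas
(`A2.H609.exists_unit_mul_pow_of_node`, `exists_unit_mul_pow_of_smooth`, `A2.H673`, `A2.H672`),
which live in the local ring `O = B_n` at a closed point `n` of the special fibre.

INPUT (global, on the chart `B`): primes `p₁ p₂` with `p₁ ⊓ p₂ = (w)`, `B ⧸ pᵢ` Dedekind,
`p₁ ⊔ p₂` radical (or the elementwise local generation of `Transversal.lean`), `n` a prime
(maximal) ideal containing `w`.

OUTPUT (local, in `O` with `[IsLocalization.AtPrime O n]`), `Pᵢ := pᵢ O`: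

* node (`p₁ ≤ n`, `p₂ ≤ n`) : `P₁`, `P₂` prime, `P₁ ⊓ P₂ = (w)`, `P₁ ⊔ P₂ = n O`
  (`= maximalIdeal O`), `O ⧸ Pᵢ` discrete valuation rings       — `node_local_data`;
* smooth (`p₁ ≤ n`, `¬ p₂ ≤ n`) : `P₁` prime, `P₁ = (w)`, `O ⧸ P₁` a discrete valuation ring
                                                               — `smooth_local_data`;
* `exists_mul_mem_of_isRadical` : elementwise local generation `t x ∈ J`, `t ∉ n`, for a
  radical ideal `J ≤ n` containing a prime `p` with `B ⧸ p` Dedekind, `J ≠ p`.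
-/

set_option autoImplicit false

namespace Fermat.Agent.A2.H372

open Ideal

variable {B : Type*} [CommRing B]

/-- In a discrete valuation ring, a nonzero proper radical ideal is the maximal ideal. -/
theorem eq_maximalIdeal_of_isRadical_of_dvr {L : Type*} [CommRing L] [IsDomain L]
    [IsDiscreteValuationRing L] {I : Ideal L} (hI : I.IsRadical) (h0 : I ≠ ⊥) (h1 : I ≠ ⊤) :
    I = IsLocalRing.maximalIdeal L := by
  obtain ⟨ϖ, hϖ⟩ := IsDiscreteValuationRing.exists_irreducible L
  obtain ⟨k, hk⟩ := IsDiscreteValuationRing.ideal_eq_span_pow_irreducible h0 hϖ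
  have hk0 : k ≠ 0 := by
    rintro rfl
    apply h1
    rw [hk, pow_zero, Ideal.span_singleton_one]
  have hmem : ϖ ∈ I := hI ⟨k, by rw [hk]; exact Ideal.mem_span_singleton_self _⟩
  refine le_antisymm (IsLocalRing.le_maximalIdeal h1) ?_
  rw [hϖ.maximalIdeal_eq, Ideal.span_le, Set.singleton_subset_iff]
  exact hmem

/-- The image of a prime `n ⊇ p` in `B ⧸ p`. -/
theorem map_mk_isPrime {p n : Ideal B} [n.IsPrime] (hpn : p ≤ n) :
    (n.map (Ideal.Quotient.mk p)).IsPrime :=
  Ideal.map_isPrime_of_surjective Ideal.Quotient.mk_surjective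
    (by rw [Ideal.mk_ker]; exact hpn)

theorem mk_mem_map_mk_iff {p n : Ideal B} (hpn : p ≤ n) (x : B) :
    Ideal.Quotient.mk p x ∈ n.map (Ideal.Quotient.mk p) ↔ x ∈ n := by
  constructor
  · intro h
    obtain ⟨y, hy, hxy⟩ :=
      (Ideal.mem_map_iff_of_surjective _ Ideal.Quotient.mk_surjective).mp h
    have : x - y ∈ p := by
      rw [← Ideal.Quotient.eq]
      exact hxy.symm
    have := n.add_mem (hpn this) hy
    simpa using this
  · exact fun h => Ideal.mem_map_of_mem _ h

theorem map_mk_ne_bot {p n : Ideal B} (hpn : p ≤ n) (hne : p ≠ n) :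
    n.map (Ideal.Quotient.mk p) ≠ ⊥ := by
  intro h
  apply hne
  refine le_antisymm hpn fun x hx => ?_
  have : Ideal.Quotient.mk p x ∈ n.map (Ideal.Quotient.mk p) := Ideal.mem_map_of_mem _ hx
  rw [h, Ideal.mem_bot] at this
  exact Ideal.Quotient.eq_zero_iff_mem.mp this

/-- **Local generation from radicality.**  `p` prime with `B ⧸ p` Dedekind, `J` a radical ideal
with `p ≤ J ≤ n`, `J ≠ p`, `n` prime.  Then `J` generates `n` locally at `n`. -/
theorem exists_mul_mem_of_isRadical {p J n : Ideal B} [p.IsPrime] [n.IsPrime]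
    [IsDedekindDomain (B ⧸ p)] (hpJ : p ≤ J) (hJn : J ≤ n) (hne : ¬ J ≤ p)
    (hJ : J.IsRadical) {x : B} (hx : x ∈ n) : ∃ t : B, t ∉ n ∧ t * x ∈ J := by
  have hpn : p ≤ n := hpJ.trans hJn
  set D := B ⧸ p
  set nb : Ideal D := n.map (Ideal.Quotient.mk p) with hnb
  set Jb : Ideal D := J.map (Ideal.Quotient.mk p) with hJb
  have : nb.IsPrime := map_mk_isPrime hpn
  have hJbn : Jb ≤ nb := Ideal.map_mono hJn
  have hJb0 : Jb ≠ ⊥ := by
    intro h
    apply hne
    intro y hy
    have : Ideal.Quotient.mk p y ∈ Jb := Ideal.mem_map_of_mem _ hy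
    rw [h, Ideal.mem_bot] at this
    exact Ideal.Quotient.eq_zero_iff_mem.mp this
  have hnb0 : nb ≠ ⊥ := fun h => hJb0 (le_bot_iff.mp (h ▸ hJbn))
  have hJbrad : Jb.IsRadical := by
    intro y hy
    obtain ⟨y, rfl⟩ := Ideal.Quotient.mk_surjective y
    obtain ⟨k, hk⟩ := hy
    rw [← map_pow] at hk
    have hk' : y ^ k ∈ J := (mk_mem_map_mk_iff hpJ _).mp hk
    exact Ideal.mem_map_of_mem _ (hJ ⟨k, hk'⟩)
  let L := Localization.AtPrime nb
  have : IsDiscreteValuationRing L :=
    IsLocalization.AtPrime.isDiscreteValuationRing_of_dedekind_domain D hnb0 L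
  have hinj : Function.Injective (algebraMap D L) :=
    IsLocalization.injective L (Ideal.primeCompl_le_nonZeroDivisors nb)
  set I : Ideal L := Jb.map (algebraMap D L) with hI
  have hIrad : I.IsRadical := by
    have := IsLocalization.map_radical nb.primeCompl L Jb
    rw [hJbrad.radical] at this
    rw [Ideal.IsRadical, hI, ← this]
  have hI0 : I ≠ ⊥ := by
    intro h
    apply hJb0
    rw [eq_bot_iff]
    intro y hy
    have : algebraMap D L y ∈ I := Ideal.mem_map_of_mem _ hy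
    rw [h, Ideal.mem_bot] at this
    rw [Ideal.mem_bot]
    exact hinj (by rw [this, map_zero])
  have hI1 : I ≠ ⊤ := by
    rw [hI]
    exact (IsLocalization.map_algebraMap_ne_top_iff_disjoint nb.primeCompl L Jb).mpr
      (Set.disjoint_left.mpr fun y hy hyJ => hy (hJbn hyJ))
  have hImax : I = IsLocalRing.maximalIdeal L :=
    eq_maximalIdeal_of_isRadical_of_dvr hIrad hI0 hI1
  have hxL : algebraMap D L (Ideal.Quotient.mk p x) ∈ I := by
    rw [hImax]
    exact (IsLocalization.AtPrime.to_map_mem_maximal_iff L nb _).mpr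
      (Ideal.mem_map_of_mem _ hx)
  obtain ⟨tb, htb, htx⟩ :=
    (IsLocalization.algebraMap_mem_map_algebraMap_iff nb.primeCompl L Jb _).mp hxL
  obtain ⟨t, rfl⟩ := Ideal.Quotient.mk_surjective tb
  refine ⟨t, fun ht => htb (Ideal.mem_map_of_mem _ ht), ?_⟩
  rw [← map_mul] at htx
  exact (mk_mem_map_mk_iff hpJ _).mp htx

section Local

variable (O : Type*) [CommRing O] [Algebra B O]

/-- The quotient of the local ring `O = B_n` by `p O` is a discrete valuation ring when
`B ⧸ p` is Dedekind and `p < n`. -/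
theorem isDiscreteValuationRing_quotient_map {p n : Ideal B} [p.IsPrime] [n.IsPrime]
    [IsLocalization.AtPrime O n] [IsDedekindDomain (B ⧸ p)] (hpn : p ≤ n) (hne : p ≠ n)
    [(p.map (algebraMap B O)).IsPrime] :
    IsDiscreteValuationRing (O ⧸ p.map (algebraMap B O)) := by
  set nb : Ideal (B ⧸ p) := n.map (Ideal.Quotient.mk p) with hnb
  have : nb.IsPrime := map_mk_isPrime hpn
  have hnb0 : nb ≠ ⊥ := map_mk_ne_bot hpn hne
  have hM : Algebra.algebraMapSubmonoid (B ⧸ p) n.primeCompl = nb.primeCompl := by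
    ext y
    obtain ⟨y, rfl⟩ := Ideal.Quotient.mk_surjective y
    constructor
    · rintro ⟨z, hz, hzy⟩
      intro hy
      have hzy' : Ideal.Quotient.mk p z = Ideal.Quotient.mk p y := hzy
      have hy' : Ideal.Quotient.mk p z ∈ nb := by rw [hzy']; exact hy
      exact hz ((mk_mem_map_mk_iff hpn z).mp hy')
    · intro hy
      exact ⟨y, fun h => hy (Ideal.mem_map_of_mem _ h), rfl⟩
  have h1 : IsLocalization (Algebra.algebraMapSubmonoid (B ⧸ p) n.primeCompl)
      (O ⧸ p.map (algebraMap B O)) := inferInstance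
  have : IsLocalization.AtPrime (O ⧸ p.map (algebraMap B O)) nb := by
    change IsLocalization nb.primeCompl _
    rw [← hM]
    exact h1
  exact IsLocalization.AtPrime.isDiscreteValuationRing_of_dedekind_domain (B ⧸ p) hnb0 _

/-- **NODE-LOC, node case.**  Local data at a crossing point `n ⊇ p₁ + p₂` of a semistable
chart, in the exact shape of the hypotheses of `A2.H609.exists_unit_mul_pow_of_node`. -/
theorem node_local_data {p₁ p₂ n : Ideal B} [p₁.IsPrime] [p₂.IsPrime] [n.IsPrime]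
    [IsLocalization.AtPrime O n] [IsDedekindDomain (B ⧸ p₁)] [IsDedekindDomain (B ⧸ p₂)]
    {w : B} (hinf : p₁ ⊓ p₂ = Ideal.span {w}) (h₁₂ : ¬ p₁ ≤ p₂) (h₂₁ : ¬ p₂ ≤ p₁)
    (htr : (p₁ ⊔ p₂).IsRadical) (h₁ : p₁ ≤ n) (h₂ : p₂ ≤ n) :
    ∃ (_ : (p₁.map (algebraMap B O)).IsPrime) (_ : (p₂.map (algebraMap B O)).IsPrime),
      p₁.map (algebraMap B O) ⊓ p₂.map (algebraMap B O) = Ideal.span {algebraMap B O w} ∧
      p₁.map (algebraMap B O) ⊔ p₂.map (algebraMap B O) = n.map (algebraMap B O) ∧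
      IsDiscreteValuationRing (O ⧸ p₁.map (algebraMap B O)) ∧
      IsDiscreteValuationRing (O ⧸ p₂.map (algebraMap B O)) := by
  have hd₁ : Disjoint (n.primeCompl : Set B) (p₁ : Set B) :=
    Set.disjoint_left.mpr fun y hy hyp => hy (h₁ hyp)
  have hd₂ : Disjoint (n.primeCompl : Set B) (p₂ : Set B) :=
    Set.disjoint_left.mpr fun y hy hyp => hy (h₂ hyp)
  have hP₁ : (p₁.map (algebraMap B O)).IsPrime :=
    IsLocalization.isPrime_of_isPrime_disjoint n.primeCompl O p₁ inferInstance hd₁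
  have hP₂ : (p₂.map (algebraMap B O)).IsPrime :=
    IsLocalization.isPrime_of_isPrime_disjoint n.primeCompl O p₂ inferInstance hd₂
  have hne₁ : p₁ ≠ n := fun h => h₂₁ (h ▸ h₂)
  have hne₂ : p₂ ≠ n := fun h => h₁₂ (h ▸ h₁)
  refine ⟨hP₁, hP₂, ?_, ?_, ?_, ?_⟩
  · rw [← IsLocalization.map_inf n.primeCompl O, hinf, Ideal.map_span, Set.image_singleton]
  · rw [← Ideal.map_sup]
    symm
    refine map_eq_map_of_local O (sup_le h₁ h₂) fun x hx => ?_
    exact exists_mul_mem_of_isRadical (p := p₁) le_sup_left (sup_le h₁ h₂)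
      (fun h => h₂₁ (le_sup_right.trans h)) htr hx
  · exact isDiscreteValuationRing_quotient_map O h₁ hne₁
  · exact isDiscreteValuationRing_quotient_map O h₂ hne₂

/-- **NODE-LOC, smooth case.**  Local data at a point `n` of the first component which is not
on the second one, in the exact shape of `A2.H609.exists_unit_mul_pow_of_smooth`. -/
theorem smooth_local_data {p₁ p₂ n : Ideal B} [p₁.IsPrime] [n.IsPrime]
    [IsLocalization.AtPrime O n] [IsDedekindDomain (B ⧸ p₁)]
    {w : B} (hinf : p₁ ⊓ p₂ = Ideal.span {w}) (h₁ : p₁ ≤ n) (hne : p₁ ≠ n) (h₂ : ¬ p₂ ≤ n) :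
    ∃ (_ : (p₁.map (algebraMap B O)).IsPrime),
      p₁.map (algebraMap B O) = Ideal.span {algebraMap B O w} ∧
      IsDiscreteValuationRing (O ⧸ p₁.map (algebraMap B O)) := by
  have hd₁ : Disjoint (n.primeCompl : Set B) (p₁ : Set B) :=
    Set.disjoint_left.mpr fun y hy hyp => hy (h₁ hyp)
  have hP₁ : (p₁.map (algebraMap B O)).IsPrime :=
    IsLocalization.isPrime_of_isPrime_disjoint n.primeCompl O p₁ inferInstance hd₁
  have htop : p₂.map (algebraMap B O) = ⊤ := by
    obtain ⟨e, he, hen⟩ := SetLike.not_le_iff_exists.mp h₂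
    rw [Ideal.eq_top_iff_one]
    have hu : IsUnit (algebraMap B O e) := IsLocalization.map_units O (⟨e, hen⟩ : n.primeCompl)
    have : algebraMap B O e ∈ p₂.map (algebraMap B O) := Ideal.mem_map_of_mem _ he
    exact (Ideal.eq_top_of_isUnit_mem _ this hu) ▸ Submodule.mem_top
  refine ⟨hP₁, ?_, isDiscreteValuationRing_quotient_map O h₁ hne⟩
  have := IsLocalization.map_inf n.primeCompl O p₁ p₂
  rw [htop, inf_top_eq, hinf, Ideal.map_span, Set.image_singleton] at this
  exact this.symm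

end Local

/-- **NODE-LOC, node case**, for `O = Localization.AtPrime n`, with `IsLocalRing.maximalIdeal`:
verbatim the hypotheses `hinf`, `hsup` and the instances of
`A2.H609.exists_unit_mul_pow_of_node`. -/
theorem node_local_data_atPrime {p₁ p₂ n : Ideal B} [p₁.IsPrime] [p₂.IsPrime] [n.IsPrime]
    [IsDedekindDomain (B ⧸ p₁)] [IsDedekindDomain (B ⧸ p₂)]
    {w : B} (hinf : p₁ ⊓ p₂ = Ideal.span {w}) (h₁₂ : ¬ p₁ ≤ p₂) (h₂₁ : ¬ p₂ ≤ p₁)
    (htr : (p₁ ⊔ p₂).IsRadical) (h₁ : p₁ ≤ n) (h₂ : p₂ ≤ n) :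
    ∃ (_ : (p₁.map (algebraMap B (Localization.AtPrime n))).IsPrime)
      (_ : (p₂.map (algebraMap B (Localization.AtPrime n))).IsPrime),
      p₁.map (algebraMap B (Localization.AtPrime n)) ⊓
          p₂.map (algebraMap B (Localization.AtPrime n)) =
        Ideal.span {algebraMap B (Localization.AtPrime n) w} ∧
      p₁.map (algebraMap B (Localization.AtPrime n)) ⊔
          p₂.map (algebraMap B (Localization.AtPrime n)) =
        IsLocalRing.maximalIdeal (Localization.AtPrime n) ∧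
      IsDiscreteValuationRing
        (Localization.AtPrime n ⧸ p₁.map (algebraMap B (Localization.AtPrime n))) ∧
      IsDiscreteValuationRing
        (Localization.AtPrime n ⧸ p₂.map (algebraMap B (Localization.AtPrime n))) := by
  obtain ⟨hP₁, hP₂, hi, hs, hd₁, hd₂⟩ :=
    node_local_data (Localization.AtPrime n) hinf h₁₂ h₂₁ htr h₁ h₂
  exact ⟨hP₁, hP₂, hi, by rw [hs, Localization.AtPrime.map_eq_maximalIdeal], hd₁, hd₂⟩

end Fermat.Agent.A2.H372

end
-- ===== PACK-END A2/H372/NodeLoc.lean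

-- ===== PACK-BEGIN S28/H988/Purity.lean
section
/-
S28 / [L.UP] upper bound, helper988.
Newton-polygon purity for monic polynomials over `k⸨X⸩` (Mathlib only):
* `IsPure G s`: `G` is monic and its Newton polygon is the single segment of slope `s`.
* `IsPure.isCoprime`: pure polynomials of different slopes are coprime.
* `isPure_of_root`: a monic polynomial of degree `p` with coefficients of order divisible by `p`
  and with a root of order `-1` is pure of slope `-1`.
-/



set_option autoImplicit false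

noncomputable section

open Polynomial

namespace Fermat.Agent.S28.H988

variable {k : Type*} [Field k]

/-- A Laurent series of non-negative order is a power series. -/
theorem mem_range_algebraMap_of_orderTop_nonneg (f : LaurentSeries k) (h : 0 ≤ f.orderTop) :
    f ∈ Set.range (algebraMap (PowerSeries k) (LaurentSeries k)) := by
  refine ⟨PowerSeries.mk fun n => f.coeff n, ?_⟩
  rw [LaurentSeries.coe_algebraMap]
  ext n
  rcases le_or_gt 0 n with hn | hn
  · lift n to ℕ using hn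
    rw [HahnSeries.ofPowerSeries_apply_coeff, PowerSeries.coeff_mk]
  · have h1 : ((HahnSeries.ofPowerSeries ℤ k) (PowerSeries.mk fun n => f.coeff n)).coeff n = 0 := by
      rw [HahnSeries.ofPowerSeries_apply]
      apply HahnSeries.embDomain_of_notMem_range
      rintro ⟨m, hm⟩
      have : (0 : ℤ) ≤ n := by rw [← hm]; exact Int.natCast_nonneg m
      omega
    rw [h1]
    symm
    apply HahnSeries.coeff_eq_zero_of_lt_orderTop
    refine lt_of_lt_of_le ?_ h
    exact_mod_cast hn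

/-- `G` is pure of slope `s`: monic, the coefficient of `X ^ i` has order at least
`(deg G - i) * s`, with equality for `i = 0`. -/
structure IsPure (G : Polynomial (LaurentSeries k)) (s : ℤ) : Prop where
  monic : G.Monic
  le_coeff : ∀ i : ℕ, ((((G.natDegree : ℤ) - i) * s : ℤ) : WithTop ℤ) ≤ (G.coeff i).orderTop
  coeff_zero : (G.coeff 0).orderTop = (((G.natDegree : ℤ) * s : ℤ) : WithTop ℤ)

theorem orderTop_single_one (n : ℤ) :
    (HahnSeries.single n (1 : k)).orderTop = (n : WithTop ℤ) :=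
  HahnSeries.orderTop_single one_ne_zero

theorem single_pow_one (n : ℤ) (m : ℕ) :
    (HahnSeries.single n (1 : k)) ^ m = HahnSeries.single ((m : ℤ) * n) (1 : k) := by
  induction m with
  | zero => simp
  | succ m ih =>
    rw [pow_succ, ih, HahnSeries.single_mul_single, mul_one]
    congr 1
    push_cast
    ring_nf

theorem isUnit_single_one (n : ℤ) : IsUnit (HahnSeries.single n (1 : k)) := by
  refine IsUnit.of_mul_eq_one (HahnSeries.single (-n) (1 : k)) ?_
  rw [HahnSeries.single_mul_single, mul_one, add_neg_cancel]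
  rfl

/-- order of the coefficients of the rescaled polynomial -/
theorem orderTop_coeff_scaleRoots (G : Polynomial (LaurentSeries k)) (t : ℤ) (i : ℕ)
    (hi : i ≤ G.natDegree) :
    ((G.scaleRoots (HahnSeries.single t (1 : k))).coeff i).orderTop =
      (G.coeff i).orderTop + ((((G.natDegree : ℤ) - i) * t : ℤ) : WithTop ℤ) := by
  rw [coeff_scaleRoots, HahnSeries.orderTop_mul, single_pow_one, orderTop_single_one]
  congr 2
  push_cast [Nat.cast_sub hi]
  ring

/-- Pure polynomials of different slopes are coprime (auxiliary ordered version). -/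
theorem IsPure.isCoprime_of_lt {G₁ G₂ : Polynomial (LaurentSeries k)} {s₁ s₂ : ℤ}
    (h₁ : IsPure G₁ s₁) (h₂ : IsPure G₂ s₂) (hs : s₁ < s₂) : IsCoprime G₁ G₂ := by
  set u : LaurentSeries k := HahnSeries.single (-s₁) (1 : k) with hu
  set u' : LaurentSeries k := HahnSeries.single s₁ (1 : k) with hu'
  have huu' : u * u' = 1 := by
    rw [hu, hu', HahnSeries.single_mul_single, mul_one, neg_add_cancel]; rfl
  suffices h : IsCoprime (G₁.scaleRoots u) (G₂.scaleRoots u) by
    have := isCoprime_scaleRoots _ _ u' (isUnit_single_one s₁) h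
    rwa [← scaleRoots_mul, ← scaleRoots_mul, huu', scaleRoots_one, scaleRoots_one] at this
  -- orders of the coefficients
  have o1 : ∀ i, (0 : WithTop ℤ) ≤ ((G₁.scaleRoots u).coeff i).orderTop := by
    intro i
    rcases le_or_gt i G₁.natDegree with hi | hi
    · rw [orderTop_coeff_scaleRoots G₁ (-s₁) i hi]
      have := h₁.le_coeff i
      calc (0 : WithTop ℤ) = (((((G₁.natDegree : ℤ) - i) * s₁ : ℤ)) : WithTop ℤ)
            + ((((G₁.natDegree : ℤ) - i) * (-s₁) : ℤ) : WithTop ℤ) := by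
              rw [← WithTop.coe_add]; norm_cast; ring
        _ ≤ _ := by gcongr
    · rw [coeff_eq_zero_of_natDegree_lt (by rwa [natDegree_scaleRoots]), HahnSeries.orderTop_zero]
      exact le_top
  have o1' : ((G₁.scaleRoots u).coeff 0).orderTop = 0 := by
    rw [orderTop_coeff_scaleRoots G₁ (-s₁) 0 (Nat.zero_le _), h₁.coeff_zero, ← WithTop.coe_add]
    have h0 : ((G₁.natDegree : ℤ) * s₁ + ((G₁.natDegree : ℤ) - ((0 : ℕ) : ℤ)) * (-s₁)) = 0 := by
      push_cast; ring
    rw [h0]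
    rfl
  have o2 : ∀ i, i < G₂.natDegree → (0 : WithTop ℤ) < ((G₂.scaleRoots u).coeff i).orderTop := by
    intro i hi
    rw [orderTop_coeff_scaleRoots G₂ (-s₁) i hi.le]
    have := h₂.le_coeff i
    have hpos : (0 : ℤ) < ((G₂.natDegree : ℤ) - i) * s₂ + ((G₂.natDegree : ℤ) - i) * (-s₁) := by
      have h1 : (0 : ℤ) < (G₂.natDegree : ℤ) - i := by
        have : (i : ℤ) < G₂.natDegree := by exact_mod_cast hi
        linarith
      have h2 : (0 : ℤ) < s₂ - s₁ := by linarith
      nlinarith [mul_pos h1 h2]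
    calc (0 : WithTop ℤ) < (((((G₂.natDegree : ℤ) - i) * s₂
            + ((G₂.natDegree : ℤ) - i) * (-s₁) : ℤ)) : WithTop ℤ) := by exact_mod_cast hpos
      _ = (((((G₂.natDegree : ℤ) - i) * s₂ : ℤ)) : WithTop ℤ)
            + ((((G₂.natDegree : ℤ) - i) * (-s₁) : ℤ) : WithTop ℤ) := by
              rw [← WithTop.coe_add]
      _ ≤ _ := by gcongr
  have o2' : ∀ i, (0 : WithTop ℤ) ≤ ((G₂.scaleRoots u).coeff i).orderTop := by
    intro i
    rcases lt_trichotomy i G₂.natDegree with hi | hi | hi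
    · exact (o2 i hi).le
    · have hm : (G₂.scaleRoots u).Monic := (monic_scaleRoots_iff u).mpr h₂.monic
      have : (G₂.scaleRoots u).coeff i = 1 := by
        rw [hi, ← natDegree_scaleRoots G₂ u]; exact hm.coeff_natDegree
      rw [this, HahnSeries.orderTop_one]
    · rw [coeff_eq_zero_of_natDegree_lt (by rwa [natDegree_scaleRoots]), HahnSeries.orderTop_zero]
      exact le_top
  -- lift to power series
  have l1 : G₁.scaleRoots u ∈ lifts (algebraMap (PowerSeries k) (LaurentSeries k)) :=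
    (lifts_iff_coeff_lifts _).mpr fun i => mem_range_algebraMap_of_orderTop_nonneg _ (o1 i)
  have l2 : G₂.scaleRoots u ∈ lifts (algebraMap (PowerSeries k) (LaurentSeries k)) :=
    (lifts_iff_coeff_lifts _).mpr fun i => mem_range_algebraMap_of_orderTop_nonneg _ (o2' i)
  obtain ⟨g₁, hg₁, hd₁, hm₁⟩ :=
    lifts_and_natDegree_eq_and_monic l1 ((monic_scaleRoots_iff u).mpr h₁.monic)
  obtain ⟨g₂, hg₂, hd₂, hm₂⟩ :=
    lifts_and_natDegree_eq_and_monic l2 ((monic_scaleRoots_iff u).mpr h₂.monic)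
  have key : ∀ (g : Polynomial (PowerSeries k)) (i : ℕ),
      PowerSeries.constantCoeff (g.coeff i) =
        ((g.map (algebraMap (PowerSeries k) (LaurentSeries k))).coeff i).coeff 0 := by
    intro g i
    rw [coeff_map, LaurentSeries.coe_algebraMap]
    have := HahnSeries.ofPowerSeries_apply_coeff (Γ := ℤ) (g.coeff i) 0
    rw [Nat.cast_zero] at this
    rw [this, PowerSeries.coeff_zero_eq_constantCoeff]
  rw [← hg₁, ← hg₂]
  refine isCoprime_map_of_reduction g₁ g₂ hm₁ hm₂ ?_ ?_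
  · rw [key, hg₁]
    exact HahnSeries.coeff_orderTop_ne (by rw [o1']; rfl)
  · intro i hi
    rw [key, hg₂]
    apply HahnSeries.coeff_eq_zero_of_lt_orderTop
    have := o2 i (by rwa [hd₂, natDegree_scaleRoots] at hi)
    exact_mod_cast this

/-- Pure polynomials of different slopes are coprime. -/
theorem IsPure.isCoprime {G₁ G₂ : Polynomial (LaurentSeries k)} {s₁ s₂ : ℤ}
    (h₁ : IsPure G₁ s₁) (h₂ : IsPure G₂ s₂) (hs : s₁ ≠ s₂) : IsCoprime G₁ G₂ := by
  rcases lt_or_gt_of_ne hs with h | h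
  · exact h₁.isCoprime_of_lt h₂ h
  · exact (h₂.isCoprime_of_lt h₁ h).symm

/-- order of a nonzero element as an integer -/
theorem exists_orderTop_eq (f : LaurentSeries k) (hf : f ≠ 0) :
    ∃ m : ℤ, f.orderTop = (m : WithTop ℤ) := by
  have : f.orderTop ≠ ⊤ := HahnSeries.orderTop_ne_top.mpr hf
  obtain ⟨m, hm⟩ := WithTop.ne_top_iff_exists.mp this
  exact ⟨m, hm.symm⟩

theorem orderTop_pow_of_eq (y : LaurentSeries k) (a : ℤ) (hy : y.orderTop = (a : WithTop ℤ))
    (i : ℕ) : (y ^ i).orderTop = (((i : ℤ) * a : ℤ) : WithTop ℤ) := by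
  induction i with
  | zero => simp
  | succ i ih =>
    rw [pow_succ, HahnSeries.orderTop_mul, ih, hy, ← WithTop.coe_add]
    congr 1
    push_cast
    ring

/-- **Purity from a root of order `-1`.** A monic polynomial of degree `p` whose coefficients
have order divisible by `p` and which has a root of order `-1` is pure of slope `-1`. -/
theorem isPure_of_root (p : ℕ) (P : Polynomial (LaurentSeries k)) (hmonic : P.Monic)
    (hdeg : P.natDegree = p)
    (hrange : ∀ i, P.coeff i ≠ 0 → ∃ n : ℤ, (P.coeff i).orderTop = (((p : ℤ) * n : ℤ) : WithTop ℤ))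
    (y : LaurentSeries k) (hy : y.orderTop = ((-1 : ℤ) : WithTop ℤ)) (hroot : P.eval y = 0) :
    IsPure P (-1) := by
  classical
  set a : ℕ → LaurentSeries k := fun i => P.coeff i * y ^ i with ha
  have hsum : ∑ i ∈ Finset.range (p + 1), a i = 0 := by
    rw [← hroot, eval_eq_sum_range, hdeg]
  have hypow : ∀ i : ℕ, (y ^ i).orderTop = ((-(i : ℤ) : ℤ) : WithTop ℤ) := by
    intro i
    rw [orderTop_pow_of_eq y (-1) hy i]
    congr 1
    ring
  have hord : ∀ i, (a i).orderTop = (P.coeff i).orderTop + ((-(i : ℤ) : ℤ) : WithTop ℤ) := by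
    intro i
    rw [ha, HahnSeries.orderTop_mul, hypow]
  have hva : ∀ i, a i ≠ 0 → ∃ n : ℤ, (a i).orderTop = (((p : ℤ) * n - i : ℤ) : WithTop ℤ) := by
    intro i hi
    have hc : P.coeff i ≠ 0 := by
      intro h0
      apply hi
      rw [ha]
      simp only [h0, zero_mul]
    obtain ⟨n, hn⟩ := hrange i hc
    refine ⟨n, ?_⟩
    rw [hord, hn, ← WithTop.coe_add]
    congr 1
  have hap : (a p).orderTop = ((-(p : ℤ) : ℤ) : WithTop ℤ) := by
    have h1 : P.coeff p = 1 := by rw [← hdeg]; exact hmonic.coeff_natDegree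
    rw [ha]
    simp only [h1, one_mul]
    exact hypow p
  -- a minimal index
  obtain ⟨i₀, hi₀, hmin⟩ := Finset.exists_min_image (Finset.range (p + 1))
    (fun i => (a i).orderTop) ⟨p, Finset.mem_range.mpr (Nat.lt_succ_self p)⟩
  have hpmem : p ∈ Finset.range (p + 1) := Finset.mem_range.mpr (Nat.lt_succ_self p)
  have hg_le : (a i₀).orderTop ≤ ((-(p : ℤ) : ℤ) : WithTop ℤ) := by
    rw [← hap]; exact hmin p hpmem
  have hg_ne_top : (a i₀).orderTop ≠ ⊤ := by
    intro h
    rw [h] at hg_le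
    exact absurd hg_le (by simp)
  have hai₀ : a i₀ ≠ 0 := HahnSeries.orderTop_ne_top.mp hg_ne_top
  -- a second index with the same order
  have hex : ∃ i₁ ∈ Finset.range (p + 1), i₁ ≠ i₀ ∧ (a i₁).orderTop = (a i₀).orderTop := by
    by_contra hcon
    push Not at hcon
    have hlt : ∀ i ∈ (Finset.range (p + 1)).erase i₀, (a i₀).orderTop < (a i).orderTop := by
      intro i hi
      have hi' := Finset.mem_erase.mp hi
      exact lt_of_le_of_ne (hmin i hi'.2) (fun h => hcon i hi'.2 hi'.1 h.symm)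
    have h1 := (HahnSeries.addVal ℤ k).map_lt_sum hg_ne_top
      (s := (Finset.range (p + 1)).erase i₀) (f := a) (by
        intro i hi
        rw [HahnSeries.addVal_apply]
        exact hlt i hi)
    have h2 : ∑ i ∈ (Finset.range (p + 1)).erase i₀, a i = - a i₀ := by
      have := Finset.add_sum_erase (Finset.range (p + 1)) a hi₀
      rw [hsum] at this
      exact eq_neg_of_add_eq_zero_right this
    rw [h2, HahnSeries.addVal_apply, HahnSeries.orderTop_neg] at h1
    exact lt_irrefl _ h1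
  obtain ⟨i₁, hi₁, hne, heq⟩ := hex
  have hai₁ : a i₁ ≠ 0 := by
    apply HahnSeries.orderTop_ne_top.mp
    rw [heq]; exact hg_ne_top
  obtain ⟨n₀, hn₀⟩ := hva i₀ hai₀
  obtain ⟨n₁, hn₁⟩ := hva i₁ hai₁
  have hi₀le : i₀ ≤ p := Nat.lt_succ_iff.mp (Finset.mem_range.mp hi₀)
  have hi₁le : i₁ ≤ p := Nat.lt_succ_iff.mp (Finset.mem_range.mp hi₁)
  have hrel : (p : ℤ) * n₁ - i₁ = (p : ℤ) * n₀ - i₀ := by
    have := heq
    rw [hn₀, hn₁] at this
    exact_mod_cast this
  have hcases : (i₀ = 0 ∧ i₁ = p) ∨ (i₀ = p ∧ i₁ = 0) := by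
    have hd : (p : ℤ) * (n₁ - n₀) = (i₁ : ℤ) - i₀ := by linarith
    have h0 : (0 : ℤ) ≤ i₀ := Int.natCast_nonneg _
    have h1 : (0 : ℤ) ≤ i₁ := Int.natCast_nonneg _
    have h0' : (i₀ : ℤ) ≤ p := by exact_mod_cast hi₀le
    have h1' : (i₁ : ℤ) ≤ p := by exact_mod_cast hi₁le
    have hne' : (i₁ : ℤ) ≠ i₀ := by exact_mod_cast hne
    have hp0 : (0 : ℤ) ≤ p := Int.natCast_nonneg _
    rcases lt_trichotomy (n₁ - n₀) 0 with hneg | hzero | hpos
    · have : (p : ℤ) * (n₁ - n₀) ≤ -(p : ℤ) := by nlinarith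
      right
      constructor
      · have : (i₀ : ℤ) = p := by linarith
        exact_mod_cast this
      · have : (i₁ : ℤ) = 0 := by linarith
        exact_mod_cast this
    · rw [hzero, mul_zero] at hd
      exact absurd (by linarith) hne'
    · have : (p : ℤ) ≤ (p : ℤ) * (n₁ - n₀) := by nlinarith
      left
      constructor
      · have : (i₀ : ℤ) = 0 := by linarith
        exact_mod_cast this
      · have : (i₁ : ℤ) = p := by linarith
        exact_mod_cast this
  have hg : (a i₀).orderTop = ((-(p : ℤ) : ℤ) : WithTop ℤ) := by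
    rcases hcases with ⟨_, h⟩ | ⟨h, _⟩
    · rw [← heq, h, hap]
    · rw [h, hap]
  have ha0 : (a 0).orderTop = ((-(p : ℤ) : ℤ) : WithTop ℤ) := by
    rcases hcases with ⟨h, _⟩ | ⟨_, h⟩
    · rw [← h, hg]
    · rw [← h, heq, hg]
  refine ⟨hmonic, ?_, ?_⟩
  · intro i
    rcases le_or_gt i p with hi | hi
    · by_cases hc : P.coeff i = 0
      · rw [hc, HahnSeries.orderTop_zero]; exact le_top
      · obtain ⟨m, hm⟩ := exists_orderTop_eq _ hc
        have h1 : (a i₀).orderTop ≤ (a i).orderTop :=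
          hmin i (Finset.mem_range.mpr (Nat.lt_succ_of_le hi))
        rw [hg, hord, hm, ← WithTop.coe_add] at h1
        have h2 : -(p : ℤ) ≤ m + -(i : ℤ) := by exact_mod_cast h1
        rw [hm, hdeg]
        have h3 : ((p : ℤ) - i) * (-1) ≤ m := by linarith
        exact_mod_cast h3
    · rw [coeff_eq_zero_of_natDegree_lt (by rwa [hdeg]), HahnSeries.orderTop_zero]
      exact le_top
  · have h0 : a 0 = P.coeff 0 := by rw [ha]; simp
    rw [← h0, ha0, hdeg]
    congr 1
    ring

end Fermat.Agent.S28.H988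

end

end
-- ===== PACK-END S28/H988/Purity.lean

-- ===== PACK-BEGIN S28/H988/Gen.lean
section
/-
S28 / [L.UP] upper bound, helper988.
The generation step (zeta-free): for distinct `p ≠ r` with modular relations
`Φ_p`, `Φ_r` and `e ≠ 0`:  `j(q^{epr}) ∈ k(j(q^{er}), j(q^{ep}))`.
-/




set_option autoImplicit false

noncomputable section

open Polynomial ModularCurve

namespace Fermat.Agent.S28.H988

/-! ### Total versions of `qExpand` and `j(q^e)` -/

section Basic

variable (k : Type*) [Field k]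

/-- `q ↦ q^m`, total in `m` (identity for `m = 0`). -/
def Vm (m : ℕ) : LaurentSeries k →+* LaurentSeries k :=
  if h : m = 0 then RingHom.id _ else @qExpand k _ m ⟨h⟩

theorem Vm_eq (m : ℕ) [NeZero m] : Vm k m = qExpand k m := by
  unfold Vm
  rw [dif_neg (NeZero.ne m)]

theorem Vm_of_ne {m : ℕ} (hm : m ≠ 0) : Vm k m = @qExpand k _ m ⟨hm⟩ := by
  unfold Vm
  rw [dif_neg hm]

theorem Vm_one : Vm k 1 = RingHom.id _ := by
  ext1 f
  rw [Vm_eq k 1]
  exact qExpand_one_apply f

theorem Vm_injective (m : ℕ) : Function.Injective (Vm k m) := by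
  by_cases h : m = 0
  · subst h
    unfold Vm
    rw [dif_pos rfl]
    exact fun _ _ h => h
  · rw [Vm_of_ne k h]
    exact @qExpand_injective k _ m ⟨h⟩

theorem Vm_Vm {m n : ℕ} (hm : m ≠ 0) (hn : n ≠ 0) (f : LaurentSeries k) :
    Vm k m (Vm k n f) = Vm k (m * n) f := by
  have : NeZero m := ⟨hm⟩
  have : NeZero n := ⟨hn⟩
  have : NeZero (m * n) := ⟨Nat.mul_ne_zero hm hn⟩
  rw [Vm_eq k m, Vm_eq k n, Vm_eq k (m * n)]
  exact qExpand_qExpand n m f

/-- `j(q^e)`, total in `e`. -/
def jd (e : ℕ) : LaurentSeries k := Vm k e (jqModC k)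

theorem jd_eq (e : ℕ) [NeZero e] : jd k e = qExpand k e (jqModC k) := by
  unfold jd
  rw [Vm_eq]

theorem jd_one : jd k 1 = jqModC k := by
  unfold jd
  rw [Vm_one]
  rfl

theorem Vm_jd {m e : ℕ} (hm : m ≠ 0) (he : e ≠ 0) : Vm k m (jd k e) = jd k (m * e) := by
  unfold jd
  exact Vm_Vm k hm he _

theorem orderTop_Vm {m : ℕ} (hm : m ≠ 0) (f : LaurentSeries k) (a : ℤ)
    (h : f.orderTop = (a : WithTop ℤ)) :
    (Vm k m f).orderTop = (((m : ℤ) * a : ℤ) : WithTop ℤ) := by
  have : NeZero m := ⟨hm⟩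
  rw [Vm_eq k m]
  have hmpos : (0 : ℤ) < m := by exact_mod_cast Nat.pos_of_ne_zero hm
  apply HahnSeries.orderTop_eq_of_le
  · rw [HahnSeries.mem_support, qExpand_coeff_mul]
    exact HahnSeries.coeff_orderTop_ne h
  · intro g hg
    rw [HahnSeries.mem_support] at hg
    by_cases hdvd : (m : ℤ) ∣ g
    · obtain ⟨c, rfl⟩ := hdvd
      rw [qExpand_coeff_mul] at hg
      have : (a : WithTop ℤ) ≤ c := by
        rw [← h]; exact HahnSeries.orderTop_le_of_coeff_ne_zero hg
      have hac : a ≤ c := by exact_mod_cast this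
      exact mul_le_mul_of_nonneg_left hac hmpos.le
    · exact absurd (qExpand_coeff_of_not_dvd m f hdvd) hg

theorem orderTop_jq : (jqModC k).orderTop = ((-1 : ℤ) : WithTop ℤ) := by
  apply HahnSeries.orderTop_eq_of_le
  · rw [HahnSeries.mem_support, coeff_jqModC_neg_one]
    exact one_ne_zero
  · intro g hg
    rw [HahnSeries.mem_support] at hg
    by_contra hlt
    exact hg (coeff_jqModC_of_lt k (not_le.mp hlt))

theorem orderTop_jd {e : ℕ} (he : e ≠ 0) :
    (jd k e).orderTop = ((-(e : ℤ) : ℤ) : WithTop ℤ) := by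
  unfold jd
  rw [orderTop_Vm k he _ (-1) (orderTop_jq k)]
  congr 1
  ring

theorem jd_ne {e e' : ℕ} (he : e ≠ 0) (he' : e' ≠ 0) (h : e ≠ e') : jd k e ≠ jd k e' := by
  intro heq
  have h1 := orderTop_jd k he
  rw [heq, orderTop_jd k he'] at h1
  have : (-(e' : ℤ)) = -(e : ℤ) := by exact_mod_cast h1
  apply h
  have : (e' : ℤ) = e := by linarith
  exact_mod_cast this.symm

/-- `Vm` scales orders of nonzero elements. -/
theorem exists_orderTop_Vm (m : ℕ) (hm : m ≠ 0) (c : LaurentSeries k) (hc : Vm k m c ≠ 0) :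
    ∃ n : ℤ, (Vm k m c).orderTop = (((m : ℤ) * n : ℤ) : WithTop ℤ) := by
  have hc' : c ≠ 0 := by
    rintro rfl
    exact hc (map_zero _)
  obtain ⟨n, hn⟩ := exists_orderTop_eq c hc'
  exact ⟨n, orderTop_Vm k hm c n hn⟩

/-- `Vm` scales slopes. -/
theorem IsPure.map_Vm {G : Polynomial (LaurentSeries k)} {s : ℤ} (h : IsPure G s) {m : ℕ}
    (hm : m ≠ 0) : IsPure (G.map (Vm k m)) ((m : ℤ) * s) := by
  have hdeg : (G.map (Vm k m)).natDegree = G.natDegree :=
    natDegree_map_eq_of_injective (Vm_injective k m) G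
  have hmpos : (0 : ℤ) < m := by exact_mod_cast Nat.pos_of_ne_zero hm
  refine ⟨h.monic.map _, ?_, ?_⟩
  · intro i
    rw [coeff_map, hdeg]
    by_cases hc : G.coeff i = 0
    · rw [hc, map_zero, HahnSeries.orderTop_zero]; exact le_top
    · obtain ⟨n, hn⟩ := exists_orderTop_eq _ hc
      rw [orderTop_Vm k hm _ n hn]
      have := h.le_coeff i
      rw [hn] at this
      have h1 : ((G.natDegree : ℤ) - i) * s ≤ n := by exact_mod_cast this
      have h2 : ((G.natDegree : ℤ) - i) * ((m : ℤ) * s) ≤ (m : ℤ) * n := by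
        have := mul_le_mul_of_nonneg_left h1 hmpos.le
        linarith
      exact_mod_cast h2
  · rw [coeff_map, hdeg, orderTop_Vm k hm _ _ h.coeff_zero]
    congr 1
    ring

end Basic

/-! ### Specialising a two-variable integral polynomial -/

section PhiAt

variable {S T : Type*} [CommRing S] [CommRing T]

/-- `Φ(X, y)` for `Φ ∈ ℤ[Y][X]`. -/
def PhiAt (Φ : Polynomial (Polynomial ℤ)) (y : S) : Polynomial S :=
  Φ.map (eval₂RingHom (Int.castRingHom S) y)

theorem PhiAt_map (Φ : Polynomial (Polynomial ℤ)) (y : S) (σ : S →+* T) :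
    (PhiAt Φ y).map σ = PhiAt Φ (σ y) := by
  unfold PhiAt
  rw [Polynomial.map_map]
  congr 1
  apply Polynomial.ringHom_ext
  · intro a
    simp
  · simp

theorem PhiAt_monic {Φ : Polynomial (Polynomial ℤ)} (hΦ : Φ.Monic) (y : S) :
    (PhiAt Φ y).Monic := hΦ.map _

theorem PhiAt_natDegree [Nontrivial S] {Φ : Polynomial (Polynomial ℤ)} (hΦ : Φ.Monic) (y : S) :
    (PhiAt Φ y).natDegree = Φ.natDegree := hΦ.natDegree_map _

end PhiAt

/-! ### Modular relations and the quotient polynomial -/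

section Rel

variable (k : Type*) [Field k]

/-- The two modular relations of level `p` over the field `k`:
`Φ(j(q^p), j) = 0` and `Φ(j, j(q^p)) = 0`, for a monic `Φ ∈ ℤ[Y][X]` of degree `p + 1`. -/
structure PhiRel (p : ℕ) (Φ : Polynomial (Polynomial ℤ)) : Prop where
  monic : Φ.Monic
  natDegree_eq : Φ.natDegree = p + 1
  root_jp : (PhiAt Φ (jqModC k)).IsRoot (jd k p)
  root_j : (PhiAt Φ (jd k p)).IsRoot (jqModC k)

variable {k} {p : ℕ} {Φ : Polynomial (Polynomial ℤ)}

theorem PhiRel.root1 (h : PhiRel k p Φ) (hp : p ≠ 0) {e : ℕ} (he : e ≠ 0) :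
    (PhiAt Φ (jd k e)).IsRoot (jd k (e * p)) := by
  have := h.root_jp.map (f := Vm k e)
  rwa [PhiAt_map, Vm_jd k he hp] at this

theorem PhiRel.root2 (h : PhiRel k p Φ) (hp : p ≠ 0) {e : ℕ} (he : e ≠ 0) :
    (PhiAt Φ (jd k (e * p))).IsRoot (jd k e) := by
  have := h.root_j.map (f := Vm k e)
  rwa [PhiAt_map, Vm_jd k he hp] at this

variable (k) in
/-- The quotient `Φ(X, j(q^e)) / (X - j(q^{ep}))`. -/
def quot (Φ : Polynomial (Polynomial ℤ)) (p e : ℕ) : Polynomial (LaurentSeries k) :=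
  PhiAt Φ (jd k e) /ₘ (X - C (jd k (e * p)))

theorem quot_map_Vm (Φ : Polynomial (Polynomial ℤ)) (hp : p ≠ 0) {e m : ℕ} (he : e ≠ 0)
    (hm : m ≠ 0) : (quot k Φ p e).map (Vm k m) = quot k Φ p (m * e) := by
  unfold quot
  rw [map_divByMonic _ (monic_X_sub_C _), PhiAt_map, Polynomial.map_sub, map_X, map_C,
    Vm_jd k hm he, Vm_jd k hm (Nat.mul_ne_zero he hp), mul_assoc]

theorem PhiRel.quot_spec (h : PhiRel k p Φ) (hp : p ≠ 0) {e : ℕ} (he : e ≠ 0) :
    (X - C (jd k (e * p))) * quot k Φ p e = PhiAt Φ (jd k e) :=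
  mul_divByMonic_eq_iff_isRoot.mpr (h.root1 hp he)

theorem PhiRel.quot_monic (h : PhiRel k p Φ) (e : ℕ) : (quot k Φ p e).Monic := by
  unfold quot
  have hm : (PhiAt Φ (jd k e)).Monic := PhiAt_monic h.monic _
  have hd : (X - C (jd k (e * p)) : Polynomial (LaurentSeries k)).degree
      ≤ (PhiAt Φ (jd k e)).degree := by
    rw [degree_X_sub_C, degree_eq_natDegree hm.ne_zero, PhiAt_natDegree h.monic, h.natDegree_eq]
    exact_mod_cast Nat.le_add_left 1 p
  rw [Monic, leadingCoeff_divByMonic_of_monic (monic_X_sub_C _) hd]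
  exact hm

theorem PhiRel.quot_natDegree (h : PhiRel k p Φ) (e : ℕ) : (quot k Φ p e).natDegree = p := by
  unfold quot
  rw [natDegree_divByMonic _ (monic_X_sub_C _), natDegree_X_sub_C, PhiAt_natDegree h.monic,
    h.natDegree_eq]
  rfl

theorem PhiRel.isPure_quot_self (h : PhiRel k p Φ) (hp : 1 < p) : IsPure (quot k Φ p p) (-1) := by
  have hp0 : p ≠ 0 := by omega
  have hmap : quot k Φ p p = (quot k Φ p 1).map (Vm k p) := by
    rw [quot_map_Vm Φ hp0 one_ne_zero hp0, mul_one]
  refine isPure_of_root p _ (h.quot_monic p) (h.quot_natDegree p) ?_ (jqModC k) (orderTop_jq k) ?_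
  · intro i hi
    rw [hmap, coeff_map] at hi ⊢
    exact exists_orderTop_Vm k p hp0 _ hi
  · have h1 := h.root2 hp0 one_ne_zero
    rw [one_mul, jd_one] at h1
    have h2 := h.quot_spec hp0 hp0
    rw [IsRoot.def, ← h2, eval_mul, eval_sub, eval_X, eval_C] at h1
    rcases mul_eq_zero.mp h1 with h3 | h3
    · exfalso
      have h4 : jd k 1 = jd k (p * p) := by
        rw [jd_one]; exact sub_eq_zero.mp h3
      refine jd_ne k one_ne_zero (Nat.mul_ne_zero hp0 hp0) ?_ h4
      intro h5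
      have : 1 < p * p := by nlinarith
      omega
    · exact h3

theorem PhiRel.isPure_quot (h : PhiRel k p Φ) (hp : 1 < p) {m : ℕ} (hm : m ≠ 0) :
    IsPure (quot k Φ p (m * p)) (-(m : ℤ)) := by
  have hp0 : p ≠ 0 := by omega
  have := (h.isPure_quot_self hp).map_Vm k hm
  rw [quot_map_Vm Φ hp0 hp0 hm] at this
  have e : (m : ℤ) * (-1) = -(m : ℤ) := by ring
  rwa [e] at this

/-- Coprimality of the two quotient polynomials (zeta-free, via Newton polygons). -/
theorem isCoprime_quot {r : ℕ} {Φr : Polynomial (Polynomial ℤ)}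
    (hΦ : PhiRel k p Φ) (hΦr : PhiRel k r Φr) (hp : 1 < p) (hr : 1 < r) (hpr : p ≠ r)
    {e : ℕ} (he : e ≠ 0) :
    IsCoprime (quot k Φ p (e * r)) (quot k Φr r (e * p)) := by
  have hp0 : p ≠ 0 := by omega
  have hr0 : r ≠ 0 := by omega
  have hpr0 : p * r ≠ 0 := Nat.mul_ne_zero hp0 hr0
  rw [← isCoprime_map (Vm k (p * r))]
  rw [quot_map_Vm Φ hp0 (Nat.mul_ne_zero he hr0) hpr0,
    quot_map_Vm Φr hr0 (Nat.mul_ne_zero he hp0) hpr0]
  have e1 : p * r * (e * r) = (e * r * r) * p := by ring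
  have e2 : p * r * (e * p) = (e * p * p) * r := by ring
  rw [e1, e2]
  have hm1 : e * r * r ≠ 0 := Nat.mul_ne_zero (Nat.mul_ne_zero he hr0) hr0
  have hm2 : e * p * p ≠ 0 := Nat.mul_ne_zero (Nat.mul_ne_zero he hp0) hp0
  refine (hΦ.isPure_quot hp hm1).isCoprime (hΦr.isPure_quot hr hm2) ?_
  intro hcon
  have h1 : ((e * r * r : ℕ) : ℤ) = ((e * p * p : ℕ) : ℤ) := by linarith
  have h2 : e * r * r = e * p * p := by exact_mod_cast h1
  have h3 : r * r = p * p := by
    have : e * (r * r) = e * (p * p) := by rw [← mul_assoc, ← mul_assoc]; exact h2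
    exact Nat.eq_of_mul_eq_mul_left (Nat.pos_of_ne_zero he) this
  have h4 : r = p := by
    rcases lt_trichotomy r p with hlt | heq | hgt
    · exact absurd h3 (ne_of_lt (Nat.mul_lt_mul'' hlt hlt))
    · exact heq
    · exact absurd h3 (ne_of_gt (Nat.mul_lt_mul'' hgt hgt))
  exact hpr h4.symm

/-- **Generation step.** If an intermediate field contains `j(q^{er})` and `j(q^{ep})`
(`p ≠ r`), then it contains `j(q^{epr})`. -/
theorem jd_mem_of_mem {r : ℕ} {Φr : Polynomial (Polynomial ℤ)}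
    (hΦ : PhiRel k p Φ) (hΦr : PhiRel k r Φr) (hp : 1 < p) (hr : 1 < r) (hpr : p ≠ r)
    {e : ℕ} (he : e ≠ 0) (F : IntermediateField k (LaurentSeries k))
    (h1 : jd k (e * r) ∈ F) (h2 : jd k (e * p) ∈ F) : jd k (e * p * r) ∈ F := by
  have hp0 : p ≠ 0 := by omega
  have hr0 : r ≠ 0 := by omega
  have hcomm : e * r * p = e * p * r := Nat.mul_right_comm e r p
  set A : Polynomial F := PhiAt Φ (⟨jd k (e * r), h1⟩ : F) with hA
  set B : Polynomial F := PhiAt Φr (⟨jd k (e * p), h2⟩ : F) with hB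
  have hAmap : A.map (algebraMap F (LaurentSeries k)) = PhiAt Φ (jd k (e * r)) := by
    rw [hA, PhiAt_map]; rfl
  have hBmap : B.map (algebraMap F (LaurentSeries k)) = PhiAt Φr (jd k (e * p)) := by
    rw [hB, PhiAt_map]; rfl
  have hAne : A ≠ 0 := (PhiAt_monic hΦ.monic _).ne_zero
  have hrootA : (A.map (algebraMap F (LaurentSeries k))).IsRoot (jd k (e * p * r)) := by
    rw [hAmap, ← hcomm]
    exact hΦ.root1 hp0 (Nat.mul_ne_zero he hr0)
  have hrootB : (B.map (algebraMap F (LaurentSeries k))).IsRoot (jd k (e * p * r)) := by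
    rw [hBmap]
    exact hΦr.root1 hr0 (Nat.mul_ne_zero he hp0)
  have hcop : IsCoprime ((A.map (algebraMap F (LaurentSeries k))) /ₘ (X - C (jd k (e * p * r))))
      ((B.map (algebraMap F (LaurentSeries k))) /ₘ (X - C (jd k (e * p * r)))) := by
    have := isCoprime_quot hΦ hΦr hp hr hpr he
    unfold quot at this
    rw [hcomm] at this
    rwa [hAmap, hBmap]
  obtain ⟨y, hy⟩ := mem_range_of_common_root A B hAne _ hrootA hrootB hcop
  rw [← hy]
  exact y.2

end Rel

end Fermat.Agent.S28.H988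

end

end
-- ===== PACK-END S28/H988/Gen.lean

-- ===== PACK-BEGIN A2/Mod/H372/Side.lean
section




/-!
# A2 / MODASM S3, generic part (helper372): one side of the Kronecker correspondence

Mathlib + `H48.IsUnif` only.  `V₁ ⊆ F₁`, `V₂ ⊆ F₂` valuation subrings with uniformisers
`ϖ₁`, `ϖ₂`; `φ : F₁ →+* F₂` maps `V₁` into `V₂`, `ϖ₁` to `ϖ₂` and reflects integrality
(`φ x ∈ V₂ → x ∈ V₁`); `A ⊆ V₁` a subring which is "normal modulo `ϖ₁`" in the elementwise form
of `Mod.GoodRedAt.normal`; the residue characteristic of `V₂` is `q`.  (`SideData`.)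

* `SideData.cong` : if `ψ : F₁ →+* F₂` satisfies the semilinear Kronecker congruence
  `ψ a ≡ (φ a') ^ q mod ϖ₂ V₂` on `V₁` (leaf L12) and `A` is integral over `R[y]` with
  `ψ = φ` on `R` and `ψ y ≡ (φ y) ^ q`, then the congruence is solvable inside `A`;
* `SideData.surj` : if `V₂ = φ(V₁) + ϖ₂ V₂` (leaf L11), then every element `b` integral over
  `R[y₂]`, `y₂ ≡ φ a`, is congruent to `φ a`, `a ∈ A`, modulo `ϖ₂ V₂`.
-/

set_option autoImplicit false
set_option linter.style.haveILetI false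

noncomputable section

namespace Fermat.Agent.A2.Mod.H372

open Polynomial

/-! ## Valuation subrings with a uniformiser (elementwise) -/

section Unif

variable {F : Type*} [Field F] {V : ValuationSubring F} {ϖ : F}

theorem mem_of_mul_inv_mem (hu : H48.IsUnif V ϖ) {x : F} (hx : x * ϖ⁻¹ ∈ V) : x ∈ V := by
  have : x = x * ϖ⁻¹ * ϖ := by
    rw [mul_assoc, inv_mul_cancel₀ hu.ne_zero, mul_one]
  rw [this]
  exact V.mul_mem _ _ hx hu.mem

/-- `x ∈ ϖ V` iff the residue class of `x` vanishes. -/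
theorem residue_eq_zero_iff (hu : H48.IsUnif V ϖ) (x : V) :
    IsLocalRing.residue V x = 0 ↔ (x : F) * ϖ⁻¹ ∈ V := by
  rw [IsLocalRing.residue_eq_zero_iff, IsLocalRing.mem_maximalIdeal, mem_nonunits_iff]
  constructor
  · intro hx
    rcases eq_or_ne (x : F) 0 with h0 | h0
    · rw [h0, zero_mul]; exact V.zero_mem
    · refine hu.gen _ x.2 (fun hinv => hx ?_)
      exact isUnit_iff_exists_inv.mpr ⟨⟨_, hinv⟩, Subtype.ext (mul_inv_cancel₀ h0)⟩
  · intro hx hunit
    obtain ⟨y, hy⟩ := isUnit_iff_exists_inv.mp hunit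
    have hy' : (x : F) * (y : F) = 1 := congrArg Subtype.val hy
    apply hu.inv_not_mem
    have : ϖ⁻¹ = (x : F) * ϖ⁻¹ * y := by
      rw [mul_right_comm, hy', one_mul]
    rw [this]
    exact V.mul_mem _ _ hx y.2

theorem residue_eq_iff (hu : H48.IsUnif V ϖ) (x y : V) :
    IsLocalRing.residue V x = IsLocalRing.residue V y ↔ ((x : F) - y) * ϖ⁻¹ ∈ V := by
  rw [← sub_eq_zero, ← map_sub, residue_eq_zero_iff hu]
  rfl

end Unif

/-! ## One side -/

section Side

variable {F₁ F₂ : Type*} [Field F₁] [Field F₂]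

/-- The residue of a ring homomorphism mapping `V₁` into `V₂`. -/
def resHom (V₁ : ValuationSubring F₁) (V₂ : ValuationSubring F₂) (φ : F₁ →+* F₂)
    (hφ : ∀ x ∈ V₁, φ x ∈ V₂) : V₁ →+* IsLocalRing.ResidueField V₂ :=
  (IsLocalRing.residue V₂).comp ((φ.comp V₁.subtype).codRestrict V₂ (fun x => hφ x x.2))

theorem resHom_apply (V₁ : ValuationSubring F₁) (V₂ : ValuationSubring F₂) (φ : F₁ →+* F₂)
    (hφ : ∀ x ∈ V₁, φ x ∈ V₂) (x : V₁) :
    resHom V₁ V₂ φ hφ x = IsLocalRing.residue V₂ ⟨φ x, hφ x x.2⟩ := rfl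

/-- The hypotheses on one side of the correspondence. -/
structure SideData (V₁ : ValuationSubring F₁) (V₂ : ValuationSubring F₂) (ϖ₁ : F₁) (ϖ₂ : F₂)
    (φ : F₁ →+* F₂) (q : ℕ) (A : Subring F₁) : Prop where
  unif₁ : H48.IsUnif V₁ ϖ₁
  unif₂ : H48.IsUnif V₂ ϖ₂
  map_mem : ∀ x ∈ V₁, φ x ∈ V₂
  map_unif : φ ϖ₁ = ϖ₂
  refl : ∀ x, φ x ∈ V₂ → x ∈ V₁
  prime : q.Prime
  q_mem : (q : F₂) * ϖ₂⁻¹ ∈ V₂
  le : ∀ a ∈ A, a ∈ V₁
  normal : ∀ f ∈ V₁, (∃ (n : ℕ) (c : Fin n → F₁), (∀ i, c i ∈ A) ∧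
      (f ^ n + ∑ i : Fin n, c i * f ^ (i : ℕ)) * ϖ₁⁻¹ ∈ V₁) → ∃ b ∈ A, (f - b) * ϖ₁⁻¹ ∈ V₁

namespace SideData

variable {V₁ : ValuationSubring F₁} {V₂ : ValuationSubring F₂} {ϖ₁ : F₁} {ϖ₂ : F₂}
  {φ : F₁ →+* F₂} {q : ℕ} {A : Subring F₁}

/-- The inclusion `A → V₁`. -/
def incl (h : SideData V₁ V₂ ϖ₁ ϖ₂ φ q A) : A →+* V₁ :=
  (A.subtype).codRestrict V₁ (fun a => h.le a a.2)

theorem coe_incl (h : SideData V₁ V₂ ϖ₁ ϖ₂ φ q A) (a : A) : ((h.incl a : V₁) : F₁) = a := rfl

/-- The reduction of `φ`. -/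
def red (h : SideData V₁ V₂ ϖ₁ ϖ₂ φ q A) : V₁ →+* IsLocalRing.ResidueField V₂ :=
  resHom V₁ V₂ φ h.map_mem

theorem red_eq_zero_iff (h : SideData V₁ V₂ ϖ₁ ϖ₂ φ q A) (x : V₁) :
    h.red x = 0 ↔ (x : F₁) * ϖ₁⁻¹ ∈ V₁ := by
  rw [red, resHom_apply, residue_eq_zero_iff h.unif₂]
  have e : φ ((x : F₁) * ϖ₁⁻¹) = φ x * ϖ₂⁻¹ := by rw [map_mul, map_inv₀, h.map_unif]
  constructor
  · intro hx
    exact h.refl _ (by rw [e]; exact hx)
  · intro hx
    have := h.map_mem _ hx
    rwa [e] at this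

theorem red_eq_iff (h : SideData V₁ V₂ ϖ₁ ϖ₂ φ q A) (x y : V₁) :
    h.red x = h.red y ↔ ((x : F₁) - y) * ϖ₁⁻¹ ∈ V₁ := by
  rw [← sub_eq_zero, ← map_sub, h.red_eq_zero_iff]
  rfl

theorem charP (h : SideData V₁ V₂ ϖ₁ ϖ₂ φ q A) : CharP (IsLocalRing.ResidueField V₂) q := by
  rw [CharP.charP_iff_prime_eq_zero h.prime]
  have h1 : ((q : ℕ) : IsLocalRing.ResidueField V₂) = IsLocalRing.residue V₂ ((q : ℕ) : V₂) :=
    (map_natCast (IsLocalRing.residue V₂) q).symm
  rw [h1, residue_eq_zero_iff h.unif₂]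
  exact h.q_mem

/-- `GoodRedAt.normal` in residue form. -/
theorem normal_red (h : SideData V₁ V₂ ϖ₁ ϖ₂ φ q A) (s : V₁)
    (hs : (h.red.comp h.incl).IsIntegralElem (h.red s)) : ∃ a : A, h.red s = h.red (h.incl a) := by
  obtain ⟨p, hp, hps⟩ := hs
  have h0 : h.red (p.eval₂ h.incl s) = 0 := by
    rw [Polynomial.hom_eval₂]
    exact hps
  rw [h.red_eq_zero_iff] at h0
  -- the explicit monic relation
  have hsum : ((p.eval₂ h.incl s : V₁) : F₁) =
      (s : F₁) ^ p.natDegree + ∑ i : Fin p.natDegree, ((p.coeff i : A) : F₁) * (s : F₁) ^ (i : ℕ) := by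
    have h1 : ((p.eval₂ h.incl s : V₁) : F₁) = p.eval₂ (A.subtype) (s : F₁) := by
      have := Polynomial.hom_eval₂ p h.incl V₁.subtype s
      exact this
    rw [h1]
    conv_lhs => rw [hp.as_sum]
    rw [Polynomial.eval₂_add, Polynomial.eval₂_pow, Polynomial.eval₂_X, Polynomial.eval₂_finsetSum,
      Finset.sum_range]
    congr 1
    refine Finset.sum_congr rfl (fun i _ => ?_)
    rw [Polynomial.eval₂_mul, Polynomial.eval₂_C, Polynomial.eval₂_pow, Polynomial.eval₂_X]
    rfl
  rw [hsum] at h0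
  obtain ⟨b, hb, hsb⟩ := h.normal s s.2 ⟨p.natDegree, fun i => ((p.coeff i : A) : F₁),
    fun i => (p.coeff i).2, h0⟩
  refine ⟨⟨b, hb⟩, ?_⟩
  rw [h.red_eq_iff]
  exact hsb

/-- **Kronecker congruence inside the chart.** -/
theorem cong (h : SideData V₁ V₂ ϖ₁ ϖ₂ φ q A) (ψ : F₁ →+* F₂) (hψ : ∀ x ∈ V₁, ψ x ∈ V₂)
    (hK : ∀ a ∈ V₁, ∃ a' ∈ V₁, (ψ a - (φ a') ^ q) * ϖ₂⁻¹ ∈ V₂)
    {R : Type*} [CommRing R] (c : R →+* F₁) (y : F₁)
    (hA : ∀ a ∈ A, (Polynomial.eval₂RingHom c y).IsIntegralElem a)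
    (hcA : ∀ r, c r ∈ A) (hyA : y ∈ A)
    (hc : ∀ r, ψ (c r) = φ (c r)) (hy : (ψ y - (φ y) ^ q) * ϖ₂⁻¹ ∈ V₂) :
    ∀ a ∈ A, ∃ a' ∈ A, (ψ a - (φ a') ^ q) * ϖ₂⁻¹ ∈ V₂ := by
  haveI : Fact q.Prime := ⟨h.prime⟩
  haveI := h.charP
  haveI : ExpChar (IsLocalRing.ResidueField V₂) q := ExpChar.prime h.prime
  set g : V₁ →+* IsLocalRing.ResidueField V₂ := resHom V₁ V₂ ψ hψ with hg
  set cA : R →+* A := c.codRestrict A hcA with hcA'
  set yA : A := ⟨y, hyA⟩ with hyA'
  have hcomp : (A.subtype).comp (Polynomial.eval₂RingHom cA yA) = Polynomial.eval₂RingHom c y := by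
    apply Polynomial.ringHom_ext
    · intro r
      simp [cA]
    · simp [yA]
  have key : ∀ x y' : V₁, g x = (h.red y') ^ q ↔ (ψ x - (φ y') ^ q) * ϖ₂⁻¹ ∈ V₂ := by
    intro x y'
    rw [hg, red, resHom_apply, resHom_apply, ← map_pow, residue_eq_iff h.unif₂]
    rfl
  have main := exists_eq_pow_of_normal q h.red g h.incl h.normal_red
    (fun s => by
      obtain ⟨a', ha', haa'⟩ := hK s s.2
      exact ⟨⟨a', ha'⟩, (key s ⟨a', ha'⟩).mpr haa'⟩)
    cA yA
    (fun a => by
      obtain ⟨p, hp, hpa⟩ := hA a a.2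
      refine ⟨p, hp, Subtype.ext ?_⟩
      have := Polynomial.hom_eval₂ p (Polynomial.eval₂RingHom cA yA) A.subtype a
      rw [hcomp] at this
      rw [ZeroMemClass.coe_zero, ← hpa]
      exact this)
    (fun r => by
      rw [hg, red, resHom_apply, resHom_apply]
      congr 1
      exact Subtype.ext (hc r))
    ((key _ _).mpr hy)
  intro a ha
  obtain ⟨a', ha'⟩ := main ⟨a, ha⟩
  exact ⟨a', a'.2, (key _ _).mp ha'⟩

/-- **Residue degree one on the chart.** -/
theorem surj (h : SideData V₁ V₂ ϖ₁ ϖ₂ φ q A)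
    (hres : ∀ b ∈ V₂, ∃ s ∈ V₁, (b - φ s) * ϖ₂⁻¹ ∈ V₂)
    {R : Type*} [CommRing R] (c : R →+* F₂) (y : F₂)
    (hcV : ∀ r, c r ∈ V₂) (hyV : y ∈ V₂)
    (hc : ∀ r, ∃ a ∈ A, (c r - φ a) * ϖ₂⁻¹ ∈ V₂) (hy : ∃ a ∈ A, (y - φ a) * ϖ₂⁻¹ ∈ V₂) :
    ∀ b : F₂, (Polynomial.eval₂RingHom c y).IsIntegralElem b →
      b ∈ V₂ ∧ ∃ a ∈ A, (b - φ a) * ϖ₂⁻¹ ∈ V₂ := by
  set cV : R →+* V₂ := c.codRestrict V₂ hcV with hcV'
  set yV : V₂ := ⟨y, hyV⟩ with hyV'
  have hcomp : (V₂.subtype).comp (Polynomial.eval₂RingHom cV yV) = Polynomial.eval₂RingHom c y := by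
    apply Polynomial.ringHom_ext
    · intro r
      simp [cV]
    · simp [yV]
  -- the integral closure of `R[y]` in `V₂`
  have hmemV : ∀ b : F₂, (Polynomial.eval₂RingHom c y).IsIntegralElem b → b ∈ V₂ := by
    intro b hb
    have hint : IsIntegral V₂ b := by
      obtain ⟨p, hp, hpb⟩ := hb
      refine ⟨p.map (Polynomial.eval₂RingHom cV yV), hp.map _, ?_⟩
      rw [Polynomial.eval₂_map]
      have : (algebraMap V₂ F₂).comp (Polynomial.eval₂RingHom cV yV) =
          Polynomial.eval₂RingHom c y := hcomp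
      rw [this]
      exact hpb
    obtain ⟨v, hv⟩ := (IsIntegrallyClosed.isIntegral_iff (R := V₂) (K := F₂)).mp hint
    rw [← hv]
    exact v.2
  have key : ∀ (x : V₂) (a : V₁), IsLocalRing.residue V₂ x = h.red a ↔
      ((x : F₂) - φ a) * ϖ₂⁻¹ ∈ V₂ := by
    intro x a
    rw [red, resHom_apply, residue_eq_iff h.unif₂]
  have main := exists_eq_of_normal h.red h.incl h.normal_red (IsLocalRing.residue V₂)
    (fun b => by
      obtain ⟨s, hs, hbs⟩ := hres b b.2
      exact ⟨⟨s, hs⟩, (key b ⟨s, hs⟩).mpr hbs⟩)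
    cV yV
    (fun r => by
      obtain ⟨a, ha, hra⟩ := hc r
      exact ⟨⟨a, ha⟩, (key (cV r) (h.incl ⟨a, ha⟩)).mpr hra⟩)
    (by
      obtain ⟨a, ha, hya⟩ := hy
      exact ⟨⟨a, ha⟩, (key yV (h.incl ⟨a, ha⟩)).mpr hya⟩)
  intro b hb
  have hbV := hmemV b hb
  refine ⟨hbV, ?_⟩
  have hb' : (Polynomial.eval₂RingHom cV yV).IsIntegralElem (⟨b, hbV⟩ : V₂) := by
    obtain ⟨p, hp, hpb⟩ := hb
    refine ⟨p, hp, Subtype.ext ?_⟩
    have := Polynomial.hom_eval₂ p (Polynomial.eval₂RingHom cV yV) V₂.subtype ⟨b, hbV⟩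
    rw [hcomp] at this
    rw [ZeroMemClass.coe_zero, ← hpb]
    exact this
  obtain ⟨a, ha⟩ := main ⟨b, hbV⟩ hb'
  exact ⟨a, a.2, (key ⟨b, hbV⟩ (h.incl a)).mp ha⟩

end SideData

end Side

end Fermat.Agent.A2.Mod.H372

end
end
-- ===== PACK-END A2/Mod/H372/Side.lean

-- ===== PACK-BEGIN A2/Mod/H372/Branch.lean
section




/-!
# A2 / MODASM S3, generic part (helper372): the branches are Dedekind

Mathlib + `A2.H372` only.

* `dimensionLEOne_quotient_of_integral` : `B` integral over `R[y]` (`R` local), `p` a prime of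
  `B` containing the maximal ideal of `R` ⟹ every nonzero prime of `B ⧸ p` is maximal;
* `isDedekindDomain_quotient_of_integral` : if moreover `B` is noetherian and `B ⧸ p` is
  integrally closed, then `B ⧸ p` is a Dedekind domain;
* `exists_isBranchUnif_of_quotient` : local generators of the branch `B ⧸ P` in terms of a
  parametrisation `α : A → B` onto `B ⧸ P`;
* `KronCong.sup_isRadical_of_quotient` : transversality (`SSChart.transversal`) from the
  semilinear Kronecker congruences when the branch `B ⧸ P₁` is Dedekind.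
-/

set_option autoImplicit false
set_option linter.style.haveILetI false

namespace Fermat.Agent.A2.Mod.H372

open Polynomial

section Dim

variable {R B : Type*} [CommRing R] [IsLocalRing R] [CommRing B]

/-- Every nonzero prime of `B ⧸ p` is maximal. -/
theorem dimensionLEOne_quotient_of_integral (c : R →+* B) (y : B)
    (hint : ∀ b : B, (Polynomial.eval₂RingHom c y).IsIntegralElem b)
    (p : Ideal B) [p.IsPrime] (hp : ∀ r ∈ IsLocalRing.maximalIdeal R, c r ∈ p) :
    Ring.DimensionLEOne (B ⧸ p) := by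
  let k := IsLocalRing.ResidueField R
  let ι : k →+* B ⧸ p :=
    Ideal.Quotient.lift (IsLocalRing.maximalIdeal R) ((Ideal.Quotient.mk p).comp c)
      (fun r hr => Ideal.Quotient.eq_zero_iff_mem.mpr (hp r hr))
  let θ : Polynomial k →+* B ⧸ p := Polynomial.eval₂RingHom ι (Ideal.Quotient.mk p y)
  have hθ : θ.IsIntegral := by
    intro z
    obtain ⟨b, rfl⟩ := Ideal.Quotient.mk_surjective z
    have h1 := isIntegralElem_map (Polynomial.eval₂RingHom c y) (Ideal.Quotient.mk p) (hint b)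
    refine isIntegralElem_of_forall_exists _ _ (fun f => ?_) h1
    refine ⟨f.map (IsLocalRing.residue R), ?_⟩
    show Polynomial.eval₂ ι (Ideal.Quotient.mk p y) (f.map (IsLocalRing.residue R)) = _
    rw [Polynomial.eval₂_map, RingHom.comp_apply, Polynomial.coe_eval₂RingHom,
      Polynomial.hom_eval₂]
    rfl
  letI := θ.toAlgebra
  haveI : Algebra.IsIntegral (Polynomial k) (B ⧸ p) := ⟨hθ⟩
  refine ⟨fun {𝔮} h𝔮 hprime => ?_⟩
  have hne : 𝔮.comap (algebraMap (Polynomial k) (B ⧸ p)) ≠ ⊥ := fun h =>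
    h𝔮 (Ideal.eq_bot_of_comap_eq_bot h)
  have hmax : (𝔮.comap (algebraMap (Polynomial k) (B ⧸ p))).IsMaximal :=
    Ring.DimensionLEOne.maximalOfPrime hne (Ideal.comap_isPrime _ _)
  exact Ideal.isMaximal_of_isIntegral_of_isMaximal_comap 𝔮 hmax

/-- The branch `B ⧸ p` is a Dedekind domain. -/
theorem isDedekindDomain_quotient_of_integral [IsNoetherianRing B] (c : R →+* B) (y : B)
    (hint : ∀ b : B, (Polynomial.eval₂RingHom c y).IsIntegralElem b)
    (p : Ideal B) [p.IsPrime] (hp : ∀ r ∈ IsLocalRing.maximalIdeal R, c r ∈ p)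
    [IsIntegrallyClosed (B ⧸ p)] : IsDedekindDomain (B ⧸ p) :=
  { dimensionLEOne_quotient_of_integral c y hint p hp with
    toIsDomain := inferInstance }

end Dim

section Branch

variable {A B : Type*} [CommRing A] [CommRing B]

open Fermat.Agent.A2.H372 in
/-- If the branch `B ⧸ P` is a Dedekind domain and `α` is onto `B ⧸ P`, every prime `n ⊇ P` has
a local generator in the sense of `IsBranchUnif`. -/
theorem exists_isBranchUnif_of_quotient (α : A →+* B) (P n : Ideal B) [n.IsPrime]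
    (hP : P ≤ n) [IsDedekindDomain (B ⧸ P)] (hα : ∀ b : B, ∃ a : A, b - α a ∈ P) :
    ∃ a₀ : A, IsBranchUnif α P n a₀ := by
  let ψ : B ⧸ P →+* B ⧸ n := Ideal.Quotient.factor hP
  let m : Ideal (B ⧸ P) := RingHom.ker ψ
  have : m.IsPrime := RingHom.ker_isPrime ψ
  have hmem : ∀ b : B, Ideal.Quotient.mk P b ∈ m ↔ b ∈ n := by
    intro b
    simp only [m, ψ, RingHom.mem_ker, Ideal.Quotient.factor_mk, Ideal.Quotient.eq_zero_iff_mem]
  have hmk : ∀ z : B ⧸ P, ∃ a : A, z = Ideal.Quotient.mk P (α a) := by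
    intro z
    obtain ⟨b, rfl⟩ := Ideal.Quotient.mk_surjective z
    obtain ⟨a, ha⟩ := hα b
    exact ⟨a, Ideal.Quotient.eq.mpr ha⟩
  obtain ⟨a₀', ha₀', hgen⟩ := H372.exists_local_generator_of_isDedekindDomain _ m
  obtain ⟨a₀, rfl⟩ := hmk a₀'
  refine ⟨a₀, (hmem _).mp ha₀', fun a ha => ?_⟩
  obtain ⟨s', y', hs', hsy'⟩ := hgen _ ((hmem (α a)).mpr ha)
  obtain ⟨s, rfl⟩ := hmk s'
  obtain ⟨y, rfl⟩ := hmk y'
  refine ⟨s, y, fun h => hs' ((hmem _).mpr h), ?_⟩
  have h0 : Ideal.Quotient.mk P (α s * α a - α a₀ * α y) = 0 := by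
    rw [map_sub, map_mul, map_mul, hsy', sub_self]
  exact Ideal.Quotient.eq_zero_iff_mem.mp h0

open Fermat.Agent.A2.H372 in
/-- **Transversality** when the first branch `B ⧸ P₁` is a Dedekind domain. -/
theorem sup_isRadical_of_quotient {q : ℕ} (hq : 2 ≤ q) {α β : A →+* B}
    {P₁ P₂ : Ideal B} (h : KronCong q α β P₁ P₂) (hα : ∀ b : B, ∃ a : A, b - α a ∈ P₁)
    [IsDedekindDomain (B ⧸ P₁)] : (P₁ ⊔ P₂).IsRadical :=
  h.sup_isRadical hq hα fun n hn hP₁ _ =>
    haveI := hn.isPrime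
    exists_isBranchUnif_of_quotient α P₁ n hP₁ hα

end Branch

end Fermat.Agent.A2.Mod.H372

end
-- ===== PACK-END A2/Mod/H372/Branch.lean

-- ===== PACK-BEGIN S18/H438/Front/Gauss.lean
section



/-!
# S18 / ALG-FRONT (helper438), part 2: the chart and the Gauss valuation ring

Setting: `F` a field, `R : Subring F`, `z : F`, `B := chartRing R z` (integral closure of `R[z]`),
`V : ValuationSubring F` ("Gauss valuation ring") and `w ∈ R` with

* `hRV : ∀ r ∈ R, r ∈ V`, `hzV : z ∈ V`,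
* `hwV : w⁻¹ ∉ V`, `hVgen : ∀ f ∈ V, f⁻¹ ∉ V → f * w⁻¹ ∈ V`   (`𝔪_V = w V`),
* `qep : ∀ b ∈ B, b * w⁻¹ ∈ V → b * w⁻¹ ∈ B`                  (`q`-expansion principle).

Results:

* `chartRing_le_valuationSubring` : `B ⊆ V`;
* `prime_chartUnif`               : `ϖ := w` is a prime element of `B`;
* `exists_fraction_of_mem_valuationSubring` : `V = B_(ϖ)`: every `v ∈ V` is `b / t`, `t ∉ ϖ B`;
* `oneModPi_of_sub_one_mem`       : `(u - 1) / w ∈ V` ⟹ `H754.OneModPi ϖ u`.
-/

set_option autoImplicit false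
set_option linter.style.haveILetI false
set_option linter.unusedSectionVars false

noncomputable section

namespace Fermat.Agent.S18.H438

open Polynomial

variable {F : Type*} [Field F] (R : Subring F) (z : F) (V : ValuationSubring F)

/-- `R[z] ⊆ V` as soon as `R ⊆ V` and `z ∈ V`. -/
theorem baseRing_le_valuationSubring (hRV : ∀ r ∈ R, r ∈ V) (hzV : z ∈ V) {f : F}
    (hf : f ∈ baseRing R z) : f ∈ V := by
  obtain ⟨P, rfl⟩ := exists_aeval_eq_of_mem_baseRing R z hf
  rw [Polynomial.aeval_eq_sum_range]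
  refine V.toSubring.sum_mem fun i _ => ?_
  rw [Algebra.smul_def]
  exact mul_mem (hRV _ (P.coeff i).2) (pow_mem hzV i)

/-- An element integral over a subring contained in `V` lies in `V`. -/
theorem mem_valuationSubring_of_isIntegral {A : Type*} [CommRing A] [Algebra A F]
    (hA : ∀ a : A, algebraMap A F a ∈ V) {f : F} (hf : IsIntegral A f) : f ∈ V := by
  -- transport integrality to `V`
  let i : A →+* V := (algebraMap A F).codRestrict V.toSubring hA
  have hi : (algebraMap V F).comp i = algebraMap A F := by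
    ext a; rfl
  have hint : IsIntegral V f := by
    obtain ⟨p, hp, hpf⟩ := hf
    refine ⟨p.map i, hp.map i, ?_⟩
    rw [Polynomial.eval₂_map, hi]
    exact hpf
  obtain ⟨y, hy⟩ := (IsIntegrallyClosed.isIntegral_iff (R := V) (K := F)).1 hint
  rw [← hy]
  exact y.2

/-- The chart is contained in the Gauss valuation ring. -/
theorem chartRing_le_valuationSubring (hRV : ∀ r ∈ R, r ∈ V) (hzV : z ∈ V) {f : F}
    (hf : f ∈ chartRing R z) : f ∈ V :=
  mem_valuationSubring_of_isIntegral V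
    (fun a => baseRing_le_valuationSubring R z V hRV hzV a.2) hf

variable {R z V}

/-- the uniformiser as an element of the chart -/
def chartUnif {w : F} (hwR : w ∈ R) : chartRing R z :=
  algebraMap (baseRing R z) (chartRing R z) ⟨w, coe_mem_baseRing R z ⟨w, hwR⟩⟩

@[simp] theorem coe_chartUnif {w : F} (hwR : w ∈ R) :
    ((chartUnif (z := z) hwR : chartRing R z) : F) = w := rfl

theorem algebraMap_chartUnif {w : F} (hwR : w ∈ R) :
    algebraMap (chartRing R z) F (chartUnif (z := z) hwR) = w := rfl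

/-- divisibility by `ϖ` in the chart, elementwise -/
theorem chartUnif_dvd_iff {w : F} (hwR : w ∈ R) (hw0 : w ≠ 0) (b : chartRing R z) :
    chartUnif (z := z) hwR ∣ b ↔ (b : F) * w⁻¹ ∈ chartRing R z := by
  constructor
  · rintro ⟨c, rfl⟩
    have : ((chartUnif (z := z) hwR * c : chartRing R z) : F) * w⁻¹ = (c : F) := by
      rw [MulMemClass.coe_mul, coe_chartUnif]
      field_simp
    rw [this]
    exact c.2
  · intro h
    refine ⟨⟨(b : F) * w⁻¹, h⟩, Subtype.ext ?_⟩
    rw [MulMemClass.coe_mul, coe_chartUnif]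
    field_simp

section Prime

variable {w : F} (hwR : w ∈ R) (hw0 : w ≠ 0) (hRV : ∀ r ∈ R, r ∈ V) (hzV : z ∈ V)
  (hwV : w⁻¹ ∉ V) (hVgen : ∀ f ∈ V, f⁻¹ ∉ V → f * w⁻¹ ∈ V)
  (qep : ∀ b ∈ chartRing R z, b * w⁻¹ ∈ V → b * w⁻¹ ∈ chartRing R z)

include hw0 hRV hzV hwV hVgen qep

/-- In `V`, an element which is not a unit is divisible by `w`; in particular for `a b ∈ V` with
`a * b ∈ w V` one of them is in `w V`. -/
theorem mem_smul_of_mul_mem {a b : F} (ha : a ∈ V) (hb : b ∈ V) (hab : a * b * w⁻¹ ∈ V) :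
    a * w⁻¹ ∈ V ∨ b * w⁻¹ ∈ V := by
  by_cases ha0 : a = 0
  · left; rw [ha0, zero_mul]; exact V.zero_mem
  by_cases hb0 : b = 0
  · right; rw [hb0, zero_mul]; exact V.zero_mem
  by_cases hau : a⁻¹ ∈ V
  · -- `a` is a unit of `V`
    right
    have : b * w⁻¹ = a⁻¹ * (a * b * w⁻¹) := by field_simp
    rw [this]
    exact mul_mem hau hab
  · left
    exact hVgen a ha hau

/-- **`ϖ` is a prime element of the chart.** -/
theorem prime_chartUnif : Prime (chartUnif (z := z) hwR) := by
  refine ⟨?_, ?_, ?_⟩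
  · intro h
    exact hw0 (congrArg Subtype.val h)
  · rintro ⟨⟨u, v, huv, hvu⟩, hu⟩
    have hv : (v : F) = w⁻¹ := by
      have h1 : (u : F) * (v : F) = 1 := congrArg Subtype.val huv
      have h2 : (u : F) = w := by
        have h3 : u = chartUnif (z := z) hwR := hu
        rw [h3]; rfl
      rw [h2] at h1
      exact eq_inv_of_mul_eq_one_right h1
    exact hwV (hv ▸ chartRing_le_valuationSubring R z V hRV hzV v.2)
  · intro a b hab
    rw [chartUnif_dvd_iff hwR hw0] at hab
    have haV := chartRing_le_valuationSubring R z V hRV hzV a.2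
    have hbV := chartRing_le_valuationSubring R z V hRV hzV b.2
    have habV : (a : F) * (b : F) * w⁻¹ ∈ V := by
      have := chartRing_le_valuationSubring R z V hRV hzV hab
      simpa using this
    rcases mem_smul_of_mul_mem hw0 hRV hzV hwV hVgen qep haV hbV habV with h | h
    · left
      rw [chartUnif_dvd_iff hwR hw0]
      exact qep _ a.2 h
    · right
      rw [chartUnif_dvd_iff hwR hw0]
      exact qep _ b.2 h

end Prime

section Fraction

variable {w : F} (hwR : w ∈ R) (hw0 : w ≠ 0) (hRV : ∀ r ∈ R, r ∈ V) (hzV : z ∈ V)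
  (hwV : w⁻¹ ∉ V) (hVgen : ∀ f ∈ V, f⁻¹ ∉ V → f * w⁻¹ ∈ V)
  (qep : ∀ b ∈ chartRing R z, b * w⁻¹ ∈ V → b * w⁻¹ ∈ chartRing R z)
  [IsFractionRing (chartRing R z) F] [IsNoetherianRing (chartRing R z)]

include hw0 hRV hzV hwV hVgen qep

/-- **`V = B_(ϖ)`.**  Every element of the Gauss valuation ring is a fraction `b / t` of elements
of the chart with `ϖ ∤ t`. -/
theorem exists_fraction_of_mem_valuationSubring {v : F} (hv : v ∈ V) :
    ∃ b t : chartRing R z, ¬ chartUnif (z := z) hwR ∣ t ∧ v * (t : F) = (b : F) := by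
  have hprime := prime_chartUnif hwR hw0 hRV hzV hwV hVgen qep
  obtain ⟨b₀, t₀, ht₀, hbt⟩ := IsFractionRing.div_surjective (A := chartRing R z) v
  have ht₀0 : t₀ ≠ 0 := nonZeroDivisors.ne_zero ht₀
  obtain ⟨n, t, hnt, rfl⟩ := WfDvdMonoid.max_power_factor ht₀0 hprime.irreducible
  -- `v * (ϖ ^ n * t) = b₀`
  have hv0 : v * ((chartUnif (z := z) hwR ^ n * t : chartRing R z) : F) = (b₀ : F) := by
    have hne : algebraMap (chartRing R z) F (chartUnif (z := z) hwR ^ n * t) ≠ 0 := by
      intro h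
      exact ht₀0 ((FaithfulSMul.algebraMap_injective (chartRing R z) F) (by rw [h, map_zero]))
    rw [← hbt]
    exact div_mul_cancel₀ _ hne
  -- strip the powers of `ϖ`
  have key : ∀ (n : ℕ) (b : chartRing R z),
      v * ((chartUnif (z := z) hwR ^ n * t : chartRing R z) : F) = (b : F) →
      ∃ b' : chartRing R z, v * (t : F) = (b' : F) := by
    intro n
    induction n with
    | zero => intro b hb; exact ⟨b, by simpa using hb⟩
    | succ n ih =>
      intro b hb
      -- `b / w = v * ϖ ^ n * t ∈ V`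
      have hbw : (b : F) * w⁻¹ = v * ((chartUnif (z := z) hwR ^ n * t : chartRing R z) : F) := by
        rw [← hb]
        simp only [MulMemClass.coe_mul, SubmonoidClass.coe_pow, coe_chartUnif, pow_succ]
        field_simp
      have hmemV : (b : F) * w⁻¹ ∈ V := by
        rw [hbw]
        exact mul_mem hv (chartRing_le_valuationSubring R z V hRV hzV (Subtype.mem _))
      have hmemB := qep _ b.2 hmemV
      exact ih ⟨(b : F) * w⁻¹, hmemB⟩ hbw.symm
  obtain ⟨b', hb'⟩ := key n b₀ hv0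
  exact ⟨b', t, hnt, hb'⟩

/-- **`OneModPi`**: if `(u - 1) / w ∈ V` then `u = a / s` with `a ≡ s mod ϖ`, `ϖ ∤ s`
(the hypothesis shape of the Kummer pieces `H754`). -/
theorem oneModPi_of_sub_one_mem {u : F} (hu : (u - 1) * w⁻¹ ∈ V) :
    H754.OneModPi (chartUnif (z := z) hwR) u := by
  obtain ⟨b, t, ht, hbt⟩ :=
    exists_fraction_of_mem_valuationSubring hwR hw0 hRV hzV hwV hVgen qep hu
  refine ⟨t + chartUnif (z := z) hwR * b, t, ?_, ?_, ?_⟩
  · rw [Ideal.mem_span_singleton]; exact ht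
  · rw [Ideal.mem_span_singleton]
    exact ⟨b, by ring⟩
  · show u * (t : F) = ((t + chartUnif (z := z) hwR * b : chartRing R z) : F)
    simp only [AddMemClass.coe_add, MulMemClass.coe_mul, coe_chartUnif, ← hbt]
    field_simp
    ring

end Fraction

end Fermat.Agent.S18.H438

end
end
-- ===== PACK-END S18/H438/Front/Gauss.lean

-- ===== PACK-BEGIN S18/H438/Front/Transport.lean
section




/-!
# S18 / ALG-FRONT (helper438), part 4: from `Alg.GoodModel` (sub-objects of `Ω`) to the field `Fc`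

For `G : Alg.GoodModel Lc Ec Fc R V w x S` we define, inside the field `↥Fc`:

* `Rf Fc R : Subring Fc`             (the DVR `R`),
* `Vf G : ValuationSubring Fc`       (the Gauss valuation ring),
* `xf G, wf G : Fc`                  (coordinate, uniformiser),

and prove the hypotheses of `Front/Chart.lean` and `Front/Gauss.lean` for both charts
(`z = xf G` and `z = (xf G)⁻¹`).
-/

set_option autoImplicit false
set_option linter.style.haveILetI false
set_option linter.unusedSectionVars false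

noncomputable section

namespace Fermat.Agent.S18.H438

open Alg Polynomial

variable {Ω : Type*} [Field Ω] {Lc Ec Fc : Subfield Ω} {R V : Subring Ω} {w x : Ω}
  {S : Finset Ω}

/-- `R` as a subring of the field `Fc`. -/
def Rf (Fc : Subfield Ω) (R : Subring Ω) : Subring Fc := R.comap Fc.subtype

theorem mem_Rf {f : Fc} : f ∈ Rf Fc R ↔ (f : Ω) ∈ R := Iff.rfl

namespace GoodModelFront

variable (G : GoodModel Lc Ec Fc R V w x S)

include G in
theorem R_le_Fc {r : Ω} (hr : r ∈ R) : r ∈ Fc := G.E_le_F (G.R_le hr)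

include G in
theorem w_mem_Fc : w ∈ Fc := R_le_Fc G G.w_mem

/-- the coordinate as an element of `Fc` -/
def xf : Fc := ⟨x, G.x_mem⟩

/-- the uniformiser as an element of `Fc` -/
def wf : Fc := ⟨w, w_mem_Fc G⟩

@[simp] theorem coe_xf : ((xf G : Fc) : Ω) = x := rfl
@[simp] theorem coe_wf : ((wf G : Fc) : Ω) = w := rfl

/-- the Gauss valuation ring as a valuation subring of `Fc` -/
def Vf : ValuationSubring Fc :=
  { V.comap Fc.subtype with
    mem_or_inv_mem' := fun f => by
      rcases G.V_total f f.2 with h | h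
      · exact Or.inl h
      · exact Or.inr h }

theorem mem_Vf {f : Fc} : f ∈ Vf G ↔ (f : Ω) ∈ V := Iff.rfl

include G

theorem wf_mem_Rf : wf G ∈ Rf Fc R := G.w_mem

theorem wf_ne_zero : wf G ≠ 0 := fun h => G.w_ne_zero (congrArg Subtype.val h)

theorem wf_inv_not_mem_Rf : (wf G)⁻¹ ∉ Rf Fc R := fun h => G.w_inv_not_mem h

theorem wf_inv_not_mem_Vf : (wf G)⁻¹ ∉ Vf G := fun h => G.w_inv_not_mem_V h

theorem Rf_le_Vf : ∀ r ∈ Rf Fc R, r ∈ Vf G := fun _ hr => G.R_le_V hr

theorem Vf_gen : ∀ f ∈ Vf G, f⁻¹ ∉ Vf G → f * (wf G)⁻¹ ∈ Vf G :=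
  fun f hf hinv => G.V_gen f hf hinv

theorem Rf_disc : ∀ r ∈ Rf Fc R, r ≠ 0 →
    ∃ n : ℕ, r * ((wf G)⁻¹) ^ n ∈ Rf Fc R ∧ (r * ((wf G)⁻¹) ^ n)⁻¹ ∈ Rf Fc R := by
  intro r hr hr0
  have hr0' : (r : Ω) ≠ 0 := fun h => hr0 (Subtype.ext h)
  obtain ⟨n, h1, h2⟩ := G.w_discrete r hr hr0'
  exact ⟨n, h1, h2⟩

/-- **`R` is a discrete valuation ring.** -/
theorem isDiscreteValuationRing_Rf : IsDiscreteValuationRing (Rf Fc R) :=
  isDiscreteValuationRing_of_disc (Rf Fc R) (wf_mem_Rf G) (wf_ne_zero G)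
    (wf_inv_not_mem_Rf G) (Rf_disc G)

theorem irreducible_wf : Irreducible (⟨wf G, wf_mem_Rf G⟩ : Rf Fc R) :=
  irreducible_unif_of_disc (Rf Fc R) (wf_mem_Rf G) (wf_ne_zero G)
    (wf_inv_not_mem_Rf G) (Rf_disc G)

theorem charZero_Fc : CharZero Fc :=
  haveI := G.charZero
  RingHom.charZero Fc.subtype

/-- `x ∈ V` (field `x_mem_V` of the v4 interface). -/
theorem xf_mem_Vf : xf G ∈ Vf G := G.x_mem_V

/-- `x⁻¹ ∈ V` (Gauss). -/
theorem xf_inv_mem_Vf : (xf G)⁻¹ ∈ Vf G := by
  have h := G.gauss (Polynomial.X : Polynomial Ω)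
    (fun i => by
      rw [Polynomial.coeff_X]
      split_ifs
      · exact R.one_mem
      · exact R.zero_mem)
    ⟨1, by simp, by simp [R.one_mem]⟩
  rw [Polynomial.eval_X] at h
  exact h

end GoodModelFront

end Fermat.Agent.S18.H438

end
end
-- ===== PACK-END S18/H438/Front/Transport.lean

-- ===== PACK-BEGIN S18/H438/Front/PolyAlg.lean
section


/-!
# S18 / ALG-FRONT (helper438), part 7: the chart as an `R[X]`-algebra

`B = chartRing R z` (integral closure of `R[z]` in `F`) is an `R[X]`-algebra via `X ↦ z`: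

* `chartPolyHom R z : R[X] →+* chartRing R z`, `chartPolyAlgebra R z` (a `def`, use with `letI`);
* `chartPolyHom_C_eq_chartUnif` : `C w ↦ ϖ`;
* `chartPolyHom_injective`, `chartPoly_finite`, `chartPoly_isTorsionFree`
  (the instance hypotheses of `B12.B2RegularStatement` and of `H425.hsep_poly`).
-/

set_option autoImplicit false
set_option linter.style.haveILetI false
set_option linter.unusedSectionVars false

noncomputable section

namespace Fermat.Agent.S18.H438

open Polynomial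

variable {F : Type*} [Field F] (R : Subring F) (z : F)

/-- `R[X] → R[z]`, `X ↦ z`. -/
def basePolyHom : R[X] →+* baseRing R z :=
  (Polynomial.aeval (⟨z, self_mem_baseRing R z⟩ : baseRing R z)).toRingHom

theorem coe_basePolyHom (P : R[X]) :
    ((basePolyHom R z P : baseRing R z) : F) = Polynomial.aeval z P := by
  have : ((basePolyHom R z P : baseRing R z) : F) =
      (baseRing R z).val (Polynomial.aeval (⟨z, self_mem_baseRing R z⟩ : baseRing R z) P) := rfl
  rw [this, ← Polynomial.aeval_algHom_apply]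
  rfl

theorem basePolyHom_surjective : Function.Surjective (basePolyHom R z) := by
  rintro ⟨a, ha⟩
  obtain ⟨P, hP⟩ := exists_aeval_eq_of_mem_baseRing R z ha
  exact ⟨P, Subtype.ext (by rw [coe_basePolyHom, hP])⟩

/-- `R[X] → B`, `X ↦ z`. -/
def chartPolyHom : R[X] →+* chartRing R z :=
  (algebraMap (baseRing R z) (chartRing R z)).comp (basePolyHom R z)

theorem coe_chartPolyHom (P : R[X]) :
    ((chartPolyHom R z P : chartRing R z) : F) = Polynomial.aeval z P :=
  coe_basePolyHom R z P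

theorem chartPolyHom_C_eq_chartUnif {w : F} (hwR : w ∈ R) :
    chartPolyHom R z (C (⟨w, hwR⟩ : R)) = chartUnif (z := z) hwR := by
  apply Subtype.ext
  rw [coe_chartPolyHom, Polynomial.aeval_C]
  rfl

theorem chartPolyHom_injective (hz : Transcendental R z) :
    Function.Injective (chartPolyHom R z) := by
  intro P Q hPQ
  have h := congrArg (fun b : chartRing R z => (b : F)) hPQ
  simp only [coe_chartPolyHom] at h
  exact (transcendental_iff_injective.1 hz) h

/-- The `R[X]`-algebra structure on the chart (`X ↦ z`). -/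
@[reducible] def chartPolyAlgebra : Algebra R[X] (chartRing R z) := (chartPolyHom R z).toAlgebra

theorem chartPoly_isTorsionFree (hz : Transcendental R z) :
    letI := chartPolyAlgebra R z
    Module.IsTorsionFree R[X] (chartRing R z) := by
  letI := chartPolyAlgebra R z
  refine Module.IsTorsionFree.of_smul_eq_zero (R := R[X]) (M := chartRing R z) fun r m h => ?_
  rw [Algebra.smul_def] at h
  rcases mul_eq_zero.1 h with h | h
  · left
    exact chartPolyHom_injective R z hz (by rw [map_zero]; exact h)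
  · exact Or.inr h

section Instances

attribute [local instance] FractionRing.liftAlgebra

variable [CharZero F] [hfin : FiniteDimensional (FractionRing (baseRing R z)) F]
  [IsDiscreteValuationRing R]

theorem chartPoly_finite (hz : Transcendental R z) :
    letI := chartPolyAlgebra R z
    Module.Finite R[X] (chartRing R z) := by
  letI a1 : Algebra R[X] (baseRing R z) := (basePolyHom R z).toAlgebra
  letI := chartPolyAlgebra R z
  haveI : IsScalarTower R[X] (baseRing R z) (chartRing R z) :=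
    IsScalarTower.of_algebraMap_eq (fun _ => rfl)
  haveI : Module.Finite R[X] (baseRing R z) :=
    Module.Finite.of_surjective (Algebra.linearMap R[X] (baseRing R z))
      (basePolyHom_surjective R z)
  haveI := chartRing_finite R z hz
  exact Module.Finite.trans (baseRing R z) (chartRing R z)

end Instances

end Fermat.Agent.S18.H438

end
end
-- ===== PACK-END S18/H438/Front/PolyAlg.lean

-- ===== PACK-BEGIN S18/H498/CechFinite.lean
section



/-!
# S18, piece b5 (continued): the torsion bound and finiteness of `C / (B₁ + B₂)`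

* `exists_torsion_bound`: in a finite module over a noetherian ring, the `ϖ`-power torsion is
  killed by a fixed power `ϖ ^ c`.
* `finite_cech_quotient`: if `C = B₁[1/x]`, `B₁ ⊆ B₂[x]`, `x⁻¹ ∈ B₂` and `B₁` is a finite
  `R[x]`-module, then `C / (B₁ + B₂)` is a finite `R`-module (this is "H¹ of a projective curve
  over `R` is finite", by hand).
* `idem_trivial_of_cech_finite`: the connectedness statement with these inputs.
-/

set_option autoImplicit false
set_option linter.style.haveILetI false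

namespace Fermat.Agent.S18.H498

section Torsion

variable {R M : Type*} [CommRing R] [IsNoetherianRing R] [AddCommGroup M] [Module R M]
  [Module.Finite R M]

theorem exists_torsion_bound (ϖ : R) :
    ∃ c : ℕ, ∀ (n : ℕ) (m : M), ϖ ^ n • m = 0 → ϖ ^ c • m = 0 := by
  haveI : IsNoetherian R M := isNoetherian_of_isNoetherianRing_of_finite R M
  let T : ℕ →o Submodule R M :=
    { toFun := fun n => LinearMap.ker (LinearMap.lsmul R M (ϖ ^ n))
      monotone' := by
        intro a b hab m hm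
        simp only [LinearMap.mem_ker, LinearMap.lsmul_apply] at hm ⊢
        obtain ⟨k, rfl⟩ := Nat.exists_eq_add_of_le hab
        rw [pow_add, mul_comm, mul_smul, hm, smul_zero] }
  obtain ⟨c, hc⟩ := monotone_stabilizes_iff_noetherian.mpr ‹IsNoetherian R M› T
  have hT : ∀ (n : ℕ) (m : M), m ∈ T n ↔ ϖ ^ n • m = 0 := by
    intro n m
    change m ∈ LinearMap.ker (LinearMap.lsmul R M (ϖ ^ n)) ↔ _
    rw [LinearMap.mem_ker, LinearMap.lsmul_apply]
  refine ⟨c, fun n m hm => ?_⟩
  rcases le_total c n with h | h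
  · have hmem : m ∈ T n := (hT n m).mpr hm
    rw [← hc n h] at hmem
    exact (hT c m).mp hmem
  · obtain ⟨k, rfl⟩ := Nat.exists_eq_add_of_le h
    rw [pow_add, mul_comm, mul_smul, hm, smul_zero]

end Torsion

section Finite

variable {R C : Type*} [CommRing R] [CommRing C] [Algebra R C]

/-- Finiteness of the Čech `H¹` for two charts glued along `x ↦ x⁻¹`. -/
theorem finite_cech_quotient (B₁ B₂ : Subalgebra R C) (x x' : C) (hx : x ∈ B₁) (hx' : x' ∈ B₂)
    (hxx' : x * x' = 1)
    (ι : Type*) [Finite ι] (g : ι → C) (hg : ∀ i, g i ∈ B₁)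
    (hgen : ∀ b ∈ B₁, ∃ P : ι → Polynomial R, b = ∑ᶠ i, Polynomial.aeval x (P i) * g i)
    (hloc : ∀ y : C, ∃ n : ℕ, x ^ n * y ∈ B₁)
    (hinf : ∀ i, ∃ n : ℕ, x' ^ n * g i ∈ B₂) :
    Module.Finite R (C ⧸ (Subalgebra.toSubmodule B₁ ⊔ Subalgebra.toSubmodule B₂)) := by
  classical
  haveI : Fintype ι := Fintype.ofFinite ι
  choose N hN using hinf
  let Nmax : ℕ := Finset.univ.sup N
  have hNmax : ∀ i, ∀ a, Nmax ≤ a → x' ^ a * g i ∈ B₂ := by
    intro i a ha
    have hle : N i ≤ a := le_trans (Finset.le_sup (f := N) (Finset.mem_univ i)) ha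
    obtain ⟨k, rfl⟩ := Nat.exists_eq_add_of_le hle
    rw [pow_add, mul_comm (x' ^ N i), mul_assoc]
    exact B₂.mul_mem (B₂.pow_mem hx' k) (hN i)
  -- the finite generating family
  let W : Submodule R C := Submodule.span R
    (Set.range fun q : ι × Fin Nmax => x' ^ (q.2 : ℕ) * g q.1)
  let S : Submodule R C := Subalgebra.toSubmodule B₁ ⊔ Subalgebra.toSubmodule B₂
  have hkey : ∀ (i : ι) (n j : ℕ), x' ^ n * (x ^ j * g i) ∈ S ⊔ W := by
    intro i n j
    rcases le_total n j with h | h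
    · -- `x^(j-n) g i ∈ B₁`
      obtain ⟨k, rfl⟩ := Nat.exists_eq_add_of_le h
      have : x' ^ n * (x ^ (n + k) * g i) = x ^ k * g i := by
        rw [pow_add, ← mul_assoc, ← mul_assoc, ← mul_pow, mul_comm x' x, hxx', one_pow, one_mul]
      rw [this]
      exact Submodule.mem_sup_left (Submodule.mem_sup_left (B₁.mul_mem (B₁.pow_mem hx k) (hg i)))
    · obtain ⟨k, rfl⟩ := Nat.exists_eq_add_of_le h
      have : x' ^ (j + k) * (x ^ j * g i) = x' ^ k * g i := by
        rw [pow_add, mul_comm (x' ^ j), mul_assoc, ← mul_assoc (x' ^ j), ← mul_pow,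
          mul_comm x' x, hxx', one_pow, one_mul]
      rw [this]
      rcases lt_or_ge k Nmax with hk | hk
      · exact Submodule.mem_sup_right (Submodule.subset_span ⟨(i, ⟨k, hk⟩), rfl⟩)
      · exact Submodule.mem_sup_left (Submodule.mem_sup_right (hNmax i k hk))
  have hpoly : ∀ (i : ι) (n : ℕ) (P : Polynomial R),
      x' ^ n * (Polynomial.aeval x P * g i) ∈ S ⊔ W := by
    intro i n P
    induction P using Polynomial.induction_on' with
    | add P Q hP hQ =>
      rw [map_add, add_mul, mul_add]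
      exact Submodule.add_mem _ hP hQ
    | monomial j a =>
      rw [Polynomial.aeval_monomial, mul_assoc, ← Algebra.smul_def, mul_smul_comm]
      exact Submodule.smul_mem _ _ (hkey i n j)
  have htop : S ⊔ W = ⊤ := by
    rw [eq_top_iff]
    intro y _
    obtain ⟨n, hn⟩ := hloc y
    obtain ⟨P, hP⟩ := hgen _ hn
    have hy : y = x' ^ n * (x ^ n * y) := by
      rw [← mul_assoc, ← mul_pow, mul_comm x' x, hxx', one_pow, one_mul]
    rw [hy, hP, finsum_eq_sum_of_fintype, Finset.mul_sum]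
    exact Submodule.sum_mem _ fun i _ => hpoly i n (P i)
  have hWfg : W.FG := Submodule.fg_span (Set.finite_range _)
  -- `C ⧸ S` is the image of `W`
  have hsurj : Function.Surjective (S.mkQ.comp W.subtype) := by
    intro q
    obtain ⟨y, rfl⟩ := S.mkQ_surjective q
    have hy : y ∈ S ⊔ W := htop ▸ Submodule.mem_top
    obtain ⟨s, hs, w, hw, rfl⟩ := Submodule.mem_sup.mp hy
    refine ⟨⟨w, hw⟩, ?_⟩
    simp only [LinearMap.comp_apply, Submodule.subtype_apply, Submodule.mkQ_apply,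
      Submodule.Quotient.mk_add]
    rw [(Submodule.Quotient.mk_eq_zero S).mpr hs, zero_add]
  haveI : Module.Finite R W := Module.Finite.iff_fg.mpr hWfg
  exact Module.Finite.of_surjective _ hsurj

end Finite

section Main

variable {R C : Type*} [CommRing R] [IsLocalRing R] [IsNoetherianRing R] [CommRing C]
  [Algebra R C]

/-- Connectedness with the finiteness hypothesis on `C / (B₁ + B₂)`. -/
theorem idem_trivial_of_cech_finite (ϖ : R) (B₁ B₂ : Subalgebra R C)
    (hint : ∀ y : C, y ∈ B₁ → y ∈ B₂ → ∃ r : R, algebraMap R C r = y)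
    [Module.Finite R (C ⧸ (Subalgebra.toSubmodule B₁ ⊔ Subalgebra.toSubmodule B₂))]
    (e₁ e₂ : C) (he₁ : e₁ ∈ B₁) (he₂ : e₂ ∈ B₂)
    (h₁ : ∃ a ∈ B₁, e₁ ^ 2 - e₁ = algebraMap R C ϖ * a)
    (h₂ : ∃ a ∈ B₂, e₂ ^ 2 - e₂ = algebraMap R C ϖ * a)
    (h₁₂ : ∃ y : C, e₁ - e₂ = algebraMap R C ϖ * y) :
    (∃ a ∈ B₁, e₁ = algebraMap R C ϖ * a) ∨ (∃ a ∈ B₁, 1 - e₁ = algebraMap R C ϖ * a) := by
  obtain ⟨c, hc⟩ := exists_torsion_bound
    (M := C ⧸ (Subalgebra.toSubmodule B₁ ⊔ Subalgebra.toSubmodule B₂)) ϖ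
  refine idem_trivial_of_cech ϖ B₁ B₂ hint c ?_ e₁ e₂ he₁ he₂ h₁ h₂ h₁₂
  intro n y hy
  have hmem : ∀ k : ℕ, (∃ b₁ ∈ B₁, ∃ b₂ ∈ B₂, algebraMap R C ϖ ^ k * y = b₁ + b₂) ↔
      ϖ ^ k • (Submodule.Quotient.mk y :
        C ⧸ (Subalgebra.toSubmodule B₁ ⊔ Subalgebra.toSubmodule B₂)) = 0 := by
    intro k
    rw [← Submodule.Quotient.mk_smul, Submodule.Quotient.mk_eq_zero, Submodule.mem_sup,
      Algebra.smul_def, map_pow]
    constructor
    · rintro ⟨b₁, hb₁, b₂, hb₂, h⟩
      exact ⟨b₁, hb₁, b₂, hb₂, h.symm⟩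
    · rintro ⟨b₁, hb₁, b₂, hb₂, h⟩
      exact ⟨b₁, hb₁, b₂, hb₂, h.symm⟩
  exact (hmem c).mpr (hc n _ ((hmem n).mp hy))

end Main

end Fermat.Agent.S18.H498

end
-- ===== PACK-END S18/H498/CechFinite.lean

-- ===== PACK-BEGIN S18/H394/KummerEndgame.lean
section




/-!
# S18, Route K, pieces b3+b4 (helper394): the Kummer endgame

Abstract statement (`kummer_endgame_aux`): two charts `B₀, B₁ ⊆ M ⊆ F` over a noetherian local
ring `R`, an element `u ∈ F` of exact order `m` modulo constants and `m`-th powers, and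
"local existence" data `σ₀, σ₁` (`σⱼ ^ m * u ≡ 1 mod w Bⱼ`, `σ₀ ≡ σ₁`) are contradictory.
The proof applies the two-chart connectedness theorem (b5, `H498.idem_trivial_of_cech_finite`)
to the graded Kummer algebra of `Graded.lean`.
-/

set_option autoImplicit false

namespace Fermat.Agent.S18.H394

open Polynomial

section Identities

variable {C : Type*} [CommRing C]

theorem idem_identity (t β ω ν : C) (n : ℕ) (hn : ν * (n : C) = 1) (ht : t ^ n = 1 + ω * β) :
    (ν * ∑ i ∈ Finset.range n, t ^ i) ^ 2 - ν * ∑ i ∈ Finset.range n, t ^ i =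
      ω * (ν ^ 2 * β * ∑ i ∈ Finset.range n, ∑ j ∈ Finset.range i, t ^ j) := by
  set S := ∑ i ∈ Finset.range n, t ^ i with hS
  have h1 : S * (t - 1) = ω * β := by rw [hS, geom_sum_mul, ht]; ring
  have h2 : S * S - (n : C) * S = (∑ i ∈ Finset.range n, ∑ j ∈ Finset.range i, t ^ j) * (ω * β) := by
    have : S * S - (n : C) * S = ∑ i ∈ Finset.range n, (t ^ i - 1) * S := by
      rw [← Finset.sum_mul, Finset.sum_sub_distrib, ← hS]
      simp [sub_mul]
    rw [this, Finset.sum_mul]
    refine Finset.sum_congr rfl fun i _ => ?_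
    rw [← geom_sum_mul, mul_assoc, mul_comm (t - 1) S, h1]
  have h3 : (ν * S) ^ 2 - ν * S = ν ^ 2 * (S * S - (n : C) * S) + ν * (ν * (n : C) - 1) * S := by
    ring
  rw [h3, h2, hn]
  ring

theorem diff_identity (t₀ t₁ : C) (n : ℕ) :
    ∑ i ∈ Finset.range n, t₀ ^ i - ∑ i ∈ Finset.range n, t₁ ^ i =
      (t₀ - t₁) * ∑ i ∈ Finset.range n, ∑ a ∈ Finset.range i, t₀ ^ a * t₁ ^ (i - 1 - a) := by
  rw [← Finset.sum_sub_distrib, Finset.mul_sum]
  refine Finset.sum_congr rfl fun i _ => ?_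
  rw [← geom_sum₂_mul, mul_comm]

end Identities

section Localisation

variable {R F C : Type*} [CommRing R] [Field F] [Algebra R F] [CommRing C] [Algebra F C]
  [Algebra R C] [IsScalarTower R F C]

/-- If `M = B[1/z]` then the Kummer algebra of `M` is the localisation of that of `B`. -/
theorem exists_pow_mul_mem_kummerSub (pb : PowerBasis F C) (u : F)
    (hT : pb.gen ^ pb.dim = algebraMap F C u) (hm0 : 0 < pb.dim)
    (B M : Subalgebra R F) (hB : RootClosed pb.dim B) (hM : RootClosed pb.dim M)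
    (z : F) (hz : z ∈ B) (hloc : ∀ y ∈ M, ∃ n : ℕ, z ^ n * y ∈ B)
    (c : C) (hc : c ∈ kummerSub pb u hT hm0 M hM) :
    ∃ n : ℕ, algebraMap F C z ^ n * c ∈ kummerSub pb u hT hm0 B hB := by
  classical
  have h : ∀ k : Fin pb.dim, ∃ n : ℕ, z ^ n * (co pb k c ^ pb.dim * u ^ (k : ℕ)) ∈ B :=
    fun k => hloc _ (hc k)
  choose N hN using h
  refine ⟨∑ k, N k, fun k => ?_⟩
  rw [← map_pow, co_algebraMap_mul, mem_degSet]
  have hle : N k ≤ (∑ k, N k) * pb.dim := by
    calc N k ≤ ∑ k, N k := Finset.single_le_sum (fun _ _ => Nat.zero_le _) (Finset.mem_univ k)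
      _ ≤ (∑ k, N k) * pb.dim := Nat.le_mul_of_pos_right _ hm0
  obtain ⟨d, hd⟩ := Nat.exists_eq_add_of_le hle
  have : (z ^ (∑ k, N k) * co pb k c) ^ pb.dim * u ^ (k : ℕ)
      = z ^ d * (z ^ N k * (co pb k c ^ pb.dim * u ^ (k : ℕ))) := by
    rw [mul_pow, ← pow_mul, hd, pow_add]
    ring
  rw [this]
  exact B.mul_mem (B.pow_mem hz d) (hN k)

end Localisation

section Main

variable {R F C : Type*} [CommRing R] [IsLocalRing R] [IsNoetherianRing R] [Field F] [Algebra R F]
  [CommRing C] [Algebra F C] [Algebra R C] [IsScalarTower R F C]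

omit [IsLocalRing R] [IsNoetherianRing R] in
/-- The intersection of the two Kummer charts consists of constants. -/
theorem kummerSub_inf (pb : PowerBasis F C) (u : F)
    (hT : pb.gen ^ pb.dim = algebraMap F C u) (hm0 : 0 < pb.dim)
    (B₀ B₁ : Subalgebra R F) (hrc0 : RootClosed pb.dim B₀) (hrc1 : RootClosed pb.dim B₁)
    (hint : ∀ y : F, y ∈ B₀ → y ∈ B₁ → ∃ r : R, algebraMap R F r = y)
    (hord : ∀ i : ℕ, 0 < i → i < pb.dim → ∀ f : F, f ≠ 0 → ∀ r : R,
        f ^ pb.dim * u ^ i ≠ algebraMap R F r)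
    (c : C) (h0 : c ∈ kummerSub pb u hT hm0 B₀ hrc0) (h1 : c ∈ kummerSub pb u hT hm0 B₁ hrc1) :
    ∃ r : R, algebraMap R C r = c := by
  classical
  have hk : ∀ k : Fin pb.dim, (k : ℕ) ≠ 0 → co pb k c = 0 := by
    intro k hk0
    by_contra hne
    obtain ⟨r, hr⟩ := hint _ (h0 k) (h1 k)
    exact hord k (Nat.pos_of_ne_zero hk0) k.2 _ hne r hr.symm
  have h00 : co pb ⟨0, hm0⟩ c ∈ B₀ := mem_of_mem_degSet_zero hrc0 (h0 ⟨0, hm0⟩)
  have h01 : co pb ⟨0, hm0⟩ c ∈ B₁ := mem_of_mem_degSet_zero hrc1 (h1 ⟨0, hm0⟩)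
  obtain ⟨r, hr⟩ := hint _ h00 h01
  refine ⟨r, ?_⟩
  rw [← sum_co pb c, Finset.sum_eq_single (⟨0, hm0⟩ : Fin pb.dim)]
  · rw [← hr, pow_zero, mul_one, ← IsScalarTower.algebraMap_apply]
  · intro k _ hk0
    rw [hk k (fun h => hk0 (Fin.ext h)), map_zero, zero_mul]
  · intro h
    exact absurd (Finset.mem_univ _) h

/-- **Kummer endgame (abstract form).**  See the module docstring. -/
theorem kummer_endgame_aux
    (pb : PowerBasis F C) (u : F) (hT : pb.gen ^ pb.dim = algebraMap F C u)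
    (hm0 : 0 < pb.dim) (hm1 : 1 < pb.dim)
    (ν : R) (hν : ν * (pb.dim : R) = 1)
    (w : R)
    (B₀ B₁ M : Subalgebra R F)
    (hrc0 : RootClosed pb.dim B₀) (hrc1 : RootClosed pb.dim B₁) (hrcM : RootClosed pb.dim M)
    (x : F) (hx0 : x ≠ 0) (hx : x ∈ B₀) (hx' : x⁻¹ ∈ B₁)
    (h0M : B₀ ≤ M) (h1M : B₁ ≤ M)
    (hloc0 : ∀ y ∈ M, ∃ n : ℕ, x ^ n * y ∈ B₀)
    (hloc1 : ∀ y ∈ M, ∃ n : ℕ, x⁻¹ ^ n * y ∈ B₁)
    (hint : ∀ y : F, y ∈ B₀ → y ∈ B₁ → ∃ r : R, algebraMap R F r = y)
    (ι : Type*) [Finite ι] (g : ι → C)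
    (hg : ∀ i, g i ∈ kummerSub pb u hT hm0 B₀ hrc0)
    (hgen : ∀ b ∈ kummerSub pb u hT hm0 B₀ hrc0, ∃ P : ι → Polynomial R,
        b = ∑ᶠ i, Polynomial.aeval (algebraMap F C x) (P i) * g i)
    (hw1 : ∀ b ∈ B₀, algebraMap R F w * b ≠ 1)
    (hord : ∀ i : ℕ, 0 < i → i < pb.dim → ∀ f : F, f ≠ 0 → ∀ r : R,
        f ^ pb.dim * u ^ i ≠ algebraMap R F r)
    (σ₀ σ₁ : F)
    (h₀ : ∃ b ∈ B₀, σ₀ ^ pb.dim * u - 1 = algebraMap R F w * b)
    (h₁ : ∃ b ∈ B₁, σ₁ ^ pb.dim * u - 1 = algebraMap R F w * b)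
    (h₀₁ : ∃ γ : F, σ₀ - σ₁ = algebraMap R F w * γ ∧ γ ^ pb.dim * u ∈ M) : False := by
  classical
  haveI : Fintype ι := Fintype.ofFinite ι
  obtain ⟨b₀, hb₀, hσ₀⟩ := h₀
  obtain ⟨b₁, hb₁, hσ₁⟩ := h₁
  obtain ⟨γ, hγ, hγM⟩ := h₀₁
  -- the three Kummer algebras
  set K0 := kummerSub pb u hT hm0 B₀ hrc0 with hK0
  set K1 := kummerSub pb u hT hm0 B₁ hrc1 with hK1
  set KM := kummerSub pb u hT hm0 M hrcM with hKM
  have hK0M : K0 ≤ KM := kummerSub_mono hT hm0 hrc0 hrcM h0M
  have hK1M : K1 ≤ KM := kummerSub_mono hT hm0 hrc1 hrcM h1M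
  -- basic elements
  have hwC : algebraMap R C w = algebraMap F C (algebraMap R F w) :=
    IsScalarTower.algebraMap_apply R F C w
  have hνC : algebraMap R C ν * ((pb.dim : ℕ) : C) = 1 := by
    rw [← map_natCast (algebraMap R C), ← map_mul, hν, map_one]
  set t₀ : C := algebraMap F C σ₀ * pb.gen with ht₀
  set t₁ : C := algebraMap F C σ₁ * pb.gen with ht₁
  have hσ₀B : σ₀ ∈ degSet B₀ pb.dim u 1 := by
    rw [mem_degSet, pow_one]
    have : σ₀ ^ pb.dim * u = 1 + algebraMap R F w * b₀ := by rw [← hσ₀]; ring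
    rw [this]
    exact B₀.add_mem B₀.one_mem (B₀.mul_mem (B₀.algebraMap_mem w) hb₀)
  have hσ₁B : σ₁ ∈ degSet B₁ pb.dim u 1 := by
    rw [mem_degSet, pow_one]
    have : σ₁ ^ pb.dim * u = 1 + algebraMap R F w * b₁ := by rw [← hσ₁]; ring
    rw [this]
    exact B₁.add_mem B₁.one_mem (B₁.mul_mem (B₁.algebraMap_mem w) hb₁)
  have ht₀K : t₀ ∈ K0 := by
    have := monomial_mem_kummerSub hT hm0 hrc0 hσ₀B
    rwa [pow_one] at this
  have ht₁K : t₁ ∈ K1 := by
    have := monomial_mem_kummerSub hT hm0 hrc1 hσ₁B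
    rwa [pow_one] at this
  have ht₀m : t₀ ^ pb.dim = 1 + algebraMap R C w * algebraMap F C b₀ := by
    rw [ht₀, mul_pow, hT, ← map_pow, ← map_mul, hwC, ← map_mul, ← map_one (algebraMap F C),
      ← map_add]
    congr 1
    rw [← hσ₀]; ring
  have ht₁m : t₁ ^ pb.dim = 1 + algebraMap R C w * algebraMap F C b₁ := by
    rw [ht₁, mul_pow, hT, ← map_pow, ← map_mul, hwC, ← map_mul, ← map_one (algebraMap F C),
      ← map_add]
    congr 1
    rw [← hσ₁]; ring
  set E₀ : C := algebraMap R C ν * ∑ i ∈ Finset.range pb.dim, t₀ ^ i with hE₀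
  set E₁ : C := algebraMap R C ν * ∑ i ∈ Finset.range pb.dim, t₁ ^ i with hE₁
  have hE₀K : E₀ ∈ K0 :=
    K0.mul_mem (K0.algebraMap_mem ν) (K0.sum_mem fun i _ => K0.pow_mem ht₀K i)
  have hE₁K : E₁ ∈ K1 :=
    K1.mul_mem (K1.algebraMap_mem ν) (K1.sum_mem fun i _ => K1.pow_mem ht₁K i)
  -- idempotent mod `w`
  have hid₀ : ∃ a ∈ K0, E₀ ^ 2 - E₀ = algebraMap R C w * a := by
    refine ⟨_, ?_, idem_identity t₀ (algebraMap F C b₀) (algebraMap R C w) (algebraMap R C ν)
      pb.dim hνC ht₀m⟩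
    refine K0.mul_mem (K0.mul_mem (K0.pow_mem (K0.algebraMap_mem ν) 2)
      (algebraMap_mem_kummerSub hT hm0 hrc0 hb₀)) ?_
    exact K0.sum_mem fun i _ => K0.sum_mem fun j _ => K0.pow_mem ht₀K j
  have hid₁ : ∃ a ∈ K1, E₁ ^ 2 - E₁ = algebraMap R C w * a := by
    refine ⟨_, ?_, idem_identity t₁ (algebraMap F C b₁) (algebraMap R C w) (algebraMap R C ν)
      pb.dim hνC ht₁m⟩
    refine K1.mul_mem (K1.mul_mem (K1.pow_mem (K1.algebraMap_mem ν) 2)
      (algebraMap_mem_kummerSub hT hm0 hrc1 hb₁)) ?_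
    exact K1.sum_mem fun i _ => K1.sum_mem fun j _ => K1.pow_mem ht₁K j
  -- compatibility on the overlap
  have hγK : algebraMap F C γ * pb.gen ∈ KM := by
    have hγd : γ ∈ degSet M pb.dim u 1 := by rw [mem_degSet, pow_one]; exact hγM
    have := monomial_mem_kummerSub hT hm0 hrcM hγd
    rwa [pow_one] at this
  have hdiff : ∃ y ∈ KM, E₀ - E₁ = algebraMap R C w * y := by
    refine ⟨algebraMap R C ν * ((algebraMap F C γ * pb.gen) *
      ∑ i ∈ Finset.range pb.dim, ∑ a ∈ Finset.range i, t₀ ^ a * t₁ ^ (i - 1 - a)), ?_, ?_⟩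
    · refine KM.mul_mem (KM.algebraMap_mem ν) (KM.mul_mem hγK ?_)
      exact KM.sum_mem fun i _ => KM.sum_mem fun a _ =>
        KM.mul_mem (KM.pow_mem (hK0M ht₀K) a) (KM.pow_mem (hK1M ht₁K) _)
    · have htt : t₀ - t₁ = algebraMap R C w * (algebraMap F C γ * pb.gen) := by
        rw [ht₀, ht₁, ← sub_mul, ← map_sub, hγ, map_mul, hwC, mul_assoc]
      rw [hE₀, hE₁, ← mul_sub, diff_identity, htt]
      ring
  -- the ambient ring and the charts
  let C0 : Subalgebra R KM := K0.comap KM.val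
  let C1 : Subalgebra R KM := K1.comap KM.val
  have hxK0 : algebraMap F C x ∈ K0 := algebraMap_mem_kummerSub hT hm0 hrc0 hx
  have hxK1 : algebraMap F C x⁻¹ ∈ K1 := algebraMap_mem_kummerSub hT hm0 hrc1 hx'
  let xK : KM := ⟨algebraMap F C x, hK0M hxK0⟩
  let xK' : KM := ⟨algebraMap F C x⁻¹, hK1M hxK1⟩
  have hxx' : xK * xK' = 1 := by
    apply Subtype.ext
    show algebraMap F C x * algebraMap F C x⁻¹ = 1
    rw [← map_mul, mul_inv_cancel₀ hx0, map_one]
  have hlocK : ∀ y : KM, ∃ n : ℕ, xK ^ n * y ∈ C0 := by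
    intro y
    obtain ⟨n, hn⟩ := exists_pow_mul_mem_kummerSub pb u hT hm0 B₀ M hrc0 hrcM x hx hloc0 y y.2
    exact ⟨n, hn⟩
  have hlocK' : ∀ y : KM, ∃ n : ℕ, xK' ^ n * y ∈ C1 := by
    intro y
    obtain ⟨n, hn⟩ := exists_pow_mul_mem_kummerSub pb u hT hm0 B₁ M hrc1 hrcM x⁻¹ hx' hloc1 y y.2
    exact ⟨n, hn⟩
  let gK : ι → KM := fun i => ⟨g i, hK0M (hg i)⟩
  have hgenK : ∀ b ∈ C0, ∃ P : ι → Polynomial R, b = ∑ᶠ i, Polynomial.aeval xK (P i) * gK i := by
    intro b hb
    obtain ⟨P, hP⟩ := hgen (b : C) hb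
    refine ⟨P, Subtype.ext ?_⟩
    rw [hP, finsum_eq_sum_of_fintype, finsum_eq_sum_of_fintype]
    rw [show ((∑ i, Polynomial.aeval xK (P i) * gK i : KM) : C)
        = KM.val (∑ i, Polynomial.aeval xK (P i) * gK i) from rfl, map_sum]
    refine Finset.sum_congr rfl fun i _ => ?_
    rw [map_mul, ← Polynomial.aeval_algHom_apply]
    rfl
  haveI : Module.Finite R (↥KM ⧸ (Subalgebra.toSubmodule C0 ⊔ Subalgebra.toSubmodule C1)) :=
    H498.finite_cech_quotient C0 C1 xK xK' hxK0 hxK1 hxx' ι gK hg hgenK hlocK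
      (fun i => hlocK' (gK i))
  have hintK : ∀ y : KM, y ∈ C0 → y ∈ C1 → ∃ r : R, algebraMap R KM r = y := by
    intro y hy0 hy1
    obtain ⟨r, hr⟩ := kummerSub_inf pb u hT hm0 B₀ B₁ hrc0 hrc1 hint hord (y : C) hy0 hy1
    exact ⟨r, Subtype.ext hr⟩
  let e₀ : KM := ⟨E₀, hK0M hE₀K⟩
  let e₁ : KM := ⟨E₁, hK1M hE₁K⟩
  have h1K : ∃ a ∈ C0, e₀ ^ 2 - e₀ = algebraMap R KM w * a := by
    obtain ⟨a, ha, h⟩ := hid₀
    exact ⟨⟨a, hK0M ha⟩, ha, Subtype.ext h⟩
  have h2K : ∃ a ∈ C1, e₁ ^ 2 - e₁ = algebraMap R KM w * a := by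
    obtain ⟨a, ha, h⟩ := hid₁
    exact ⟨⟨a, hK1M ha⟩, ha, Subtype.ext h⟩
  have h12K : ∃ y : KM, e₀ - e₁ = algebraMap R KM w * y := by
    obtain ⟨y, hy, h⟩ := hdiff
    exact ⟨⟨y, hy⟩, Subtype.ext h⟩
  have hconcl := H498.idem_trivial_of_cech_finite w C0 C1 hintK e₀ e₁ hE₀K hE₁K h1K h2K h12K
  -- the coefficient of `T` in `E₀`
  let k1 : Fin pb.dim := ⟨1, hm1⟩
  have hco1 : co pb k1 (1 : C) = 0 := by
    have h1 : (1 : C) = algebraMap F C 1 * pb.gen ^ (0 * pb.dim + ((⟨0, hm0⟩ : Fin pb.dim) : ℕ)) := by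
      simp
    rw [h1, co_monomial pb hT, if_neg]
    intro h
    have := congrArg Fin.val h
    simp [k1] at this
  have hcoE : co pb k1 E₀ = algebraMap R F ν * σ₀ := by
    have hE : E₀ = ∑ i : Fin pb.dim,
        algebraMap F C (algebraMap R F ν * σ₀ ^ (i : ℕ)) * pb.gen ^ (0 * pb.dim + (i : ℕ)) := by
      rw [hE₀, ← Fin.sum_univ_eq_sum_range (fun i => t₀ ^ i) pb.dim, Finset.mul_sum]
      refine Finset.sum_congr rfl fun i _ => ?_
      rw [ht₀, mul_pow, zero_mul, zero_add, map_mul, map_pow,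
        ← IsScalarTower.algebraMap_apply R F C, mul_assoc]
    rw [hE, map_sum]
    rw [Finset.sum_congr rfl (fun i _ => co_monomial pb hT _ 0 i k1)]
    rw [Finset.sum_ite_eq' Finset.univ k1]
    simp [k1]
  have hfinal : ∀ a₁ : F, a₁ ∈ degSet B₀ pb.dim u 1 → ∀ ε : F, (ε = 1 ∨ ε = -1) →
      algebraMap R F ν * σ₀ = ε * (algebraMap R F w * a₁) → False := by
    intro a₁ ha₁ ε hε h
    rw [mem_degSet, pow_one] at ha₁
    have hνF : algebraMap R F ν * ((pb.dim : ℕ) : F) = 1 := by
      rw [← map_natCast (algebraMap R F), ← map_mul, hν, map_one]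
    have hσ : σ₀ = ((pb.dim : ℕ) : F) * ε * algebraMap R F w * a₁ := by
      calc σ₀ = (algebraMap R F ν * ((pb.dim : ℕ) : F)) * σ₀ := by rw [hνF, one_mul]
        _ = ((pb.dim : ℕ) : F) * (algebraMap R F ν * σ₀) := by ring
        _ = ((pb.dim : ℕ) : F) * ε * algebraMap R F w * a₁ := by rw [h]; ring
    obtain ⟨d, hd⟩ : ∃ d, pb.dim = d + 1 := Nat.exists_eq_succ_of_ne_zero hm0.ne'
    have hεB : ε ∈ B₀ := by
      rcases hε with rfl | rfl
      · exact B₀.one_mem
      · exact B₀.neg_mem B₀.one_mem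
    have hkey : (1 : F) = algebraMap R F w *
        ((((pb.dim : ℕ) : F) * ε) ^ pb.dim * algebraMap R F w ^ d * (a₁ ^ pb.dim * u) - b₀) := by
      have h1 : σ₀ ^ pb.dim * u = algebraMap R F w *
          ((((pb.dim : ℕ) : F) * ε) ^ pb.dim * algebraMap R F w ^ d * (a₁ ^ pb.dim * u)) := by
        conv_lhs => rw [hσ]
        rw [mul_pow, mul_pow]
        conv_lhs => rw [show algebraMap R F w ^ pb.dim = algebraMap R F w ^ d * algebraMap R F w
          from by rw [hd, pow_succ]]
        ring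
      rw [mul_sub, ← h1, ← hσ₀]
      ring
    refine hw1 _ ?_ hkey.symm
    refine B₀.sub_mem (B₀.mul_mem (B₀.mul_mem (B₀.pow_mem (B₀.mul_mem (natCast_mem B₀ _) hεB) _)
      (B₀.pow_mem (B₀.algebraMap_mem w) d)) ha₁) hb₀
  rcases hconcl with ⟨a, ha, hEa⟩ | ⟨a, ha, hEa⟩
  · have hEa' : E₀ = algebraMap R C w * (a : C) := congrArg Subtype.val hEa
    have h := congrArg (co pb k1) hEa'
    rw [hcoE, hwC, co_algebraMap_mul] at h
    exact hfinal (co pb k1 (a : C)) (ha k1) 1 (Or.inl rfl) (by rw [h, one_mul])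
  · have hEa' : 1 - E₀ = algebraMap R C w * (a : C) := congrArg Subtype.val hEa
    have h := congrArg (co pb k1) hEa'
    rw [map_sub, hco1, hcoE, hwC, co_algebraMap_mul, zero_sub] at h
    refine hfinal (co pb k1 (a : C)) (ha k1) (-1) (Or.inr rfl) ?_
    rw [neg_one_mul, ← h, neg_neg]

end Main

end Fermat.Agent.S18.H394

end
-- ===== PACK-END S18/H394/KummerEndgame.lean

-- ===== PACK-BEGIN S24/H84/SubKD.lean
section



/-!
# KD sub-interface statements of helper984's `Alg/Sub.lean`, proved (helper84)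

Exact shapes of `sub_exists_smul_D`, `sub_ordDifferential_smul`, and `sub_ordDifferential_D`
(the latter modulo the local theorem LT2 "every place over `t = 0` is induced by some `σ x`",
taken as an explicit hypothesis).
-/

set_option autoImplicit false

noncomputable section

open AlgebraicCurve KaehlerDifferential

namespace Fermat.Agent.S24.H84

variable {K F : Type*} [Field K] [Field F] [Algebra K F] [IsAlgClosed K] [CharZero K]
variable {C : Type*} [Field C] [CharZero C] {X : Type*}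

omit [IsAlgClosed K] in
/-- KD1: `Ω[F/K]` is spanned by `D j`. -/
theorem kd_exists_smul_D (j : F)
    [FiniteDimensional ↥(IntermediateField.adjoin K {j}) F] (ω : Ω[F⁄K]) :
    ∃ f : F, ω = f • D K F j := by
  have hA : Algebra.IsAlgebraic ↥(IntermediateField.adjoin K {j}) F :=
    Algebra.IsAlgebraic.of_finite _ _
  have hω : ω ∈ Submodule.span F {D K F j} := by rw [span_D_eq_top j]; trivial
  obtain ⟨f, hf⟩ := Submodule.mem_span_singleton.1 hω
  exact ⟨f, hf.symm⟩

/-- KD2: `ordDifferential` is additive in the coefficient. -/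
theorem kd_ordDifferential_smul (j : F)
    [FiniteDimensional ↥(IntermediateField.adjoin K {j}) F] (v : Place K F)
    (f : F) (hf : f ≠ 0) (ω : Ω[F⁄K]) (hω : ω ≠ 0) :
    v.ordDifferential (f • ω) = v.ord f + v.ordDifferential ω := by
  have : v.DCoordGenerates := place_dCoordGenerates j v
  have : Nontrivial Ω[F⁄K] := ⟨⟨ω, 0, hω⟩⟩
  refine v.ordDifferential_smul hf ?_
  intro h
  apply hω
  rw [← v.differentialCoeff_smul_dCoord ω, h, zero_smul]

/-- `differentialCoeff` of a nonzero differential is nonzero. -/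
theorem kd_differentialCoeff_ne_zero (j : F)
    [FiniteDimensional ↥(IntermediateField.adjoin K {j}) F] (v : Place K F)
    (ω : Ω[F⁄K]) (hω : ω ≠ 0) : v.differentialCoeff ω ≠ 0 := by
  have : v.DCoordGenerates := place_dCoordGenerates j v
  intro h
  apply hω
  rw [← v.differentialCoeff_smul_dCoord ω, h, zero_smul]

/-- LT + KD4, with LT2 as an explicit hypothesis: order of `dt` at a zero of `t`. -/
theorem kd_ordDifferential_D_of_induced (t : F)
    [FiniteDimensional ↥(IntermediateField.adjoin K {t}) F]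
    (d : LocalData K F C X t) (v : Place K F) (hv : 0 < v.ord t)
    (hind : ∃ (x : X) (g : ℕ), 0 < g ∧ ∀ f : F, f ≠ 0 → (d.σ x f).order = g * v.ord f) :
    v.ordDifferential (D K F t) = v.ord t - 1 := by
  have : v.DCoordGenerates := place_dCoordGenerates t v
  obtain ⟨x, g, hg, hord⟩ := hind
  exact place_ordDifferential_D_of_ord_ne_zero v (d.σ x) d.ι (d.σ_const x) g hg hord t hv.ne'

/-- Variant: the order of `dj` at a place over `j = a`, resp. over `j = ∞`, from local data at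
`t = j - a`, resp. `t = j⁻¹`. -/
theorem kd_ordDifferential_D_sub (j : F) (a : K)
    [FiniteDimensional ↥(IntermediateField.adjoin K {j}) F]
    (d : LocalData K F C X (j - algebraMap K F a)) (v : Place K F)
    (hv : 0 < v.ord (j - algebraMap K F a))
    (hind : ∃ (x : X) (g : ℕ), 0 < g ∧ ∀ f : F, f ≠ 0 → (d.σ x f).order = g * v.ord f) :
    v.ordDifferential (D K F j) = v.ord (j - algebraMap K F a) - 1 := by
  have : v.DCoordGenerates := place_dCoordGenerates j v
  obtain ⟨x, g, hg, hord⟩ := hind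
  exact place_ordDifferential_D_of_ord_sub_ne_zero v (d.σ x) d.ι (d.σ_const x) g hg hord j a
    hv.ne'

theorem kd_ordDifferential_D_inv (j : F)
    [FiniteDimensional ↥(IntermediateField.adjoin K {j}) F]
    (d : LocalData K F C X j⁻¹) (v : Place K F) (hv : 0 < v.ord j⁻¹)
    (hind : ∃ (x : X) (g : ℕ), 0 < g ∧ ∀ f : F, f ≠ 0 → (d.σ x f).order = g * v.ord f) :
    v.ordDifferential (D K F j) = - v.ord j⁻¹ - 1 := by
  have : v.DCoordGenerates := place_dCoordGenerates j v
  obtain ⟨x, g, hg, hord⟩ := hind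
  exact place_ordDifferential_D_of_ord_inv_ne_zero v (d.σ x) d.ι (d.σ_const x) g hg hord j
    hv.ne'

end Fermat.Agent.S24.H84

end
end
-- ===== PACK-END S24/H84/SubKD.lean

-- ===== PACK-BEGIN S17/H980/SiegelMinors.lean
section


/-!
# Primitive integral representatives (piece MINK of S17 / tower H, helper980)

* `exists_det_submatrix_ne_zero` : over a field, linearly independent rows give a non-vanishing
  maximal minor; `exists_vecMul_eq_zero_of_minors` is the contrapositive.
* `exists_reduce_step` : if a prime divides all maximal minors of an integer matrix, one row can be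
  replaced so that all minors are multiplied by `c / p` with `0 < |c| < p`.
* `exists_primitive` : every integer matrix with a non-vanishing maximal minor has the same
  rational row space as an integer matrix whose maximal minors have gcd `1`.
-/

set_option autoImplicit false

open Matrix

namespace Fermat.Agent.S17.H980

section Field

variable {ι₁ ι : Type*} [Fintype ι₁] [DecidableEq ι₁] [Fintype ι] [DecidableEq ι]
variable {K : Type*} [Field K]

/-- Over a field, a matrix with linearly independent rows has a non-vanishing maximal minor. -/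
theorem exists_det_submatrix_ne_zero (M : Matrix ι₁ ι K) (h : LinearIndependent K M.row) :
    ∃ e : ι₁ ↪ ι, (M.submatrix id e).det ≠ 0 := by
  classical
  have hrank : M.rank = Fintype.card ι₁ := h.rank_matrix
  have hspan : Submodule.span K (Set.range M.col) = ⊤ := by
    apply Submodule.eq_top_of_finrank_eq
    rw [← Matrix.rank_eq_finrank_span_cols, hrank, Module.finrank_fintype_fun_eq_card]
  obtain ⟨κ, a, ha, hsp, hli⟩ := exists_linearIndependent' K M.col
  rw [hspan] at hsp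
  haveI : Finite κ := Finite.of_injective a ha
  letI : Fintype κ := Fintype.ofFinite κ
  have hcard : Fintype.card κ = Fintype.card ι₁ := by
    have := linearIndependent_iff_card_eq_finrank_span.mp hli
    rw [this, Set.finrank, hsp, finrank_top, Module.finrank_fintype_fun_eq_card]
  let ε : ι₁ ≃ κ := Fintype.equivOfCardEq hcard.symm
  refine ⟨⟨a ∘ ε, ha.comp ε.injective⟩, ?_⟩
  have hli' : LinearIndependent K (M.submatrix id (a ∘ ε)).col := by
    have h1 : (M.submatrix id (a ∘ ε)).col = (M.col ∘ a) ∘ ε := by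
      funext j r
      rfl
    rw [h1]
    exact hli.comp ε ε.injective
  have hu := Matrix.linearIndependent_cols_iff_isUnit.mp hli'
  have := (Matrix.isUnit_iff_isUnit_det _).mp hu
  exact this.ne_zero

/-- Over a field, if all maximal minors vanish, the rows are linearly dependent. -/
theorem exists_vecMul_eq_zero_of_minors (M : Matrix ι₁ ι K)
    (h : ∀ e : ι₁ ↪ ι, (M.submatrix id e).det = 0) :
    ∃ c : ι₁ → K, c ≠ 0 ∧ c ᵥ* M = 0 := by
  classical
  have hnli : ¬ LinearIndependent K M.row := by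
    intro hli
    obtain ⟨e, he⟩ := exists_det_submatrix_ne_zero M hli
    exact he (h e)
  rw [Fintype.not_linearIndependent_iff] at hnli
  obtain ⟨c, hc, i, hi⟩ := hnli
  refine ⟨c, fun h0 => hi (by rw [h0]; rfl), ?_⟩
  funext j
  have := congrFun hc j
  simp only [Finset.sum_apply, Pi.smul_apply, smul_eq_mul, Pi.zero_apply] at this
  simp only [Matrix.vecMul, dotProduct, Pi.zero_apply]
  exact this

end Field

section Reduce

variable {ι₁ ι : Type*} [Fintype ι₁] [DecidableEq ι₁] [Fintype ι] [DecidableEq ι]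

/-- **Reduction step.**  If a prime `p` divides all maximal minors of `B₀`, one row of `B₀` can be
replaced by an integral vector such that all maximal minors are multiplied by `c / p`, `0 < |c| < p`,
and the integral kernel does not grow. -/
theorem exists_reduce_step (B₀ : Matrix ι₁ ι ℤ) (p : ℕ) [hp : Fact p.Prime]
    (hdvd : ∀ e : ι₁ ↪ ι, (p : ℤ) ∣ minor B₀ e) :
    ∃ (B₁ : Matrix ι₁ ι ℤ) (c : ℤ), c ≠ 0 ∧ |c| < p ∧
      (∀ e : ι₁ ↪ ι, (p : ℤ) * minor B₁ e = c * minor B₀ e) ∧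
      (∀ a : ι → ℤ, B₁ *ᵥ a = 0 → B₀ *ᵥ a = 0) := by
  classical
  -- reduce mod p
  let f : ℤ →+* ZMod p := Int.castRingHom (ZMod p)
  have hminor : ∀ e : ι₁ ↪ ι, ((B₀.map f).submatrix id e).det = 0 := by
    intro e
    have h1 : (B₀.map f).submatrix id e = (B₀.submatrix id e).map f := rfl
    rw [h1, ← RingHom.mapMatrix_apply, ← RingHom.map_det]
    exact (ZMod.intCast_zmod_eq_zero_iff_dvd _ p).mpr (hdvd e)
  obtain ⟨c, hc0, hc⟩ := exists_vecMul_eq_zero_of_minors (B₀.map f) hminor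
  obtain ⟨r0, hr0⟩ : ∃ r0, c r0 ≠ 0 := by
    by_contra hcon
    exact hc0 (funext fun r => not_not.mp fun h => hcon ⟨r, h⟩)
  let ct : ι₁ → ℤ := fun r => (c r).valMinAbs
  have hct : ∀ r, ((ct r : ℤ) : ZMod p) = c r := fun r => ZMod.coe_valMinAbs (c r)
  have hct0 : ct r0 ≠ 0 := by
    intro h
    apply hr0
    rw [← hct r0, h]; simp
  have hctlt : |ct r0| < p := by
    have h1 : (ct r0).natAbs ≤ p / 2 := ZMod.natAbs_valMinAbs_le (c r0)
    have h2 : p / 2 < p := Nat.div_lt_self hp.out.pos (by norm_num)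
    have h3 : ((ct r0).natAbs : ℤ) < p := by exact_mod_cast lt_of_le_of_lt h1 h2
    rwa [Int.natCast_natAbs] at h3
  -- the combination of rows is divisible by `p`
  have hw : ∀ i, (p : ℤ) ∣ ∑ r, ct r * B₀ r i := by
    intro i
    rw [← ZMod.intCast_zmod_eq_zero_iff_dvd]
    have := congrFun hc i
    simp only [Matrix.vecMul, dotProduct, Matrix.map_apply, Pi.zero_apply] at this
    push_cast
    simp only [hct]
    exact this
  choose w hwe using hw
  refine ⟨B₀.updateRow r0 w, ct r0, hct0, hctlt, ?_, ?_⟩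
  · intro e
    unfold minor
    have h1 : (B₀.updateRow r0 w).submatrix id e = (B₀.submatrix id e).updateRow r0 (w ∘ e) := by
      ext r j
      by_cases hr : r = r0
      · subst hr; simp [Matrix.updateRow_apply]
      · simp [Matrix.updateRow_apply, hr]
    rw [h1, ← Matrix.det_updateRow_smul]
    have h2 : (p : ℤ) • (w ∘ e) = ∑ r, ct r • (B₀.submatrix id e) r := by
      funext j
      simp only [Pi.smul_apply, Function.comp_apply, smul_eq_mul, Finset.sum_apply,
        Matrix.submatrix_apply, id]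
      exact (hwe (e j)).symm
    rw [h2, Matrix.det_updateRow_sum, smul_eq_mul]
  · intro a ha
    funext r
    by_cases hr : r = r0
    · subst hr
      -- `p * (w · a) = ∑ ct r (B₀ r · a)` and all other rows kill `a`
      have hother : ∀ r', r' ≠ r → ∑ i, B₀ r' i * a i = 0 := by
        intro r' hr'
        have := congrFun ha r'
        simp only [Matrix.mulVec, dotProduct, Matrix.updateRow_apply, hr', if_false,
          Pi.zero_apply] at this
        exact this
      have hself : ∑ i, w i * a i = 0 := by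
        have := congrFun ha r
        simp only [Matrix.mulVec, dotProduct, Matrix.updateRow_apply, if_true,
          Pi.zero_apply] at this
        exact this
      have hsum : (p : ℤ) * ∑ i, w i * a i = ∑ r', ct r' * ∑ i, B₀ r' i * a i := by
        rw [Finset.mul_sum]
        simp_rw [Finset.mul_sum]
        rw [Finset.sum_comm]
        apply Finset.sum_congr rfl
        intro i _
        rw [← mul_assoc, ← hwe i, Finset.sum_mul]
        apply Finset.sum_congr rfl
        intro r' _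
        ring
      rw [hself, mul_zero] at hsum
      rw [Finset.sum_eq_single r (fun r' _ hr' => by rw [hother r' hr', mul_zero])
        (fun h => absurd (Finset.mem_univ _) h)] at hsum
      have := (mul_eq_zero.mp hsum.symm).resolve_left hct0
      simp only [Matrix.mulVec, dotProduct, Pi.zero_apply]
      exact this
    · have := congrFun ha r
      simp only [Matrix.mulVec, dotProduct, Matrix.updateRow_apply, hr, if_false,
        Pi.zero_apply] at this
      simp only [Matrix.mulVec, dotProduct, Pi.zero_apply]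
      exact this


/-- The sum of the absolute values of the maximal minors. -/
noncomputable def minorSum (B : Matrix ι₁ ι ℤ) : ℕ := ∑ e : ι₁ ↪ ι, (minor B e).natAbs

theorem minorSum_pos (B : Matrix ι₁ ι ℤ) (hne : ∃ e : ι₁ ↪ ι, minor B e ≠ 0) : 0 < minorSum B := by
  obtain ⟨e, he⟩ := hne
  unfold minorSum
  exact lt_of_lt_of_le (Int.natAbs_pos.mpr he)
    (Finset.single_le_sum (f := fun e => (minor B e).natAbs) (fun _ _ => Nat.zero_le _)
      (Finset.mem_univ e))

/-- **Primitive representative.**  An integer matrix with a non-vanishing maximal minor can be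
replaced by an integer matrix `B₀` with proportional maximal minors of gcd `1` whose integral kernel
is contained in the kernel of `B`. -/
theorem exists_primitive (B : Matrix ι₁ ι ℤ) (hne : ∃ e : ι₁ ↪ ι, minor B e ≠ 0) :
    ∃ (B₀ : Matrix ι₁ ι ℤ) (num den : ℤ), num ≠ 0 ∧ den ≠ 0 ∧
      (∀ e : ι₁ ↪ ι, den * minor B₀ e = num * minor B e) ∧
      (∀ a : ι → ℤ, B₀ *ᵥ a = 0 → B *ᵥ a = 0) ∧
      (Finset.univ : Finset (ι₁ ↪ ι)).gcd (minor B₀) = 1 := by
  classical
  induction hn : minorSum B using Nat.strong_induction_on generalizing B with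
  | _ n ih =>
    by_cases hg : (Finset.univ : Finset (ι₁ ↪ ι)).gcd (minor B) = 1
    · exact ⟨B, 1, 1, one_ne_zero, one_ne_zero, fun e => rfl, fun a ha => ha, hg⟩
    · -- a prime dividing the gcd
      set g := (Finset.univ : Finset (ι₁ ↪ ι)).gcd (minor B) with hgdef
      have hg0 : g ≠ 0 := by
        intro h0
        obtain ⟨e, he⟩ := hne
        exact he ((Finset.gcd_eq_zero_iff.mp h0) e (Finset.mem_univ e))
      have hgnat : g.natAbs ≠ 1 := by
        intro h1
        apply hg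
        have hnn : 0 ≤ g := by
          rw [hgdef, ← Finset.normalize_gcd]
          exact Int.nonneg_of_normalize_eq_self (normalize_idem _)
        have : g = (g.natAbs : ℤ) := (Int.natAbs_of_nonneg hnn).symm
        rw [this, h1]; rfl
      obtain ⟨p, hp, hpg⟩ := Nat.exists_prime_and_dvd hgnat
      haveI : Fact p.Prime := ⟨hp⟩
      have hdvd : ∀ e : ι₁ ↪ ι, (p : ℤ) ∣ minor B e := by
        intro e
        have h1 : (p : ℤ) ∣ g := Int.natCast_dvd.mpr hpg
        exact h1.trans (Finset.gcd_dvd (Finset.mem_univ e))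
      obtain ⟨B₁, c, hc0, hclt, hmin, hker⟩ := exists_reduce_step B p hdvd
      have hne₁ : ∃ e : ι₁ ↪ ι, minor B₁ e ≠ 0 := by
        obtain ⟨e, he⟩ := hne
        refine ⟨e, fun h0 => ?_⟩
        have := hmin e
        rw [h0, mul_zero] at this
        exact (mul_ne_zero hc0 he) this.symm
      have hlt : minorSum B₁ < n := by
        have h1 : p * minorSum B₁ = c.natAbs * minorSum B := by
          unfold minorSum
          rw [Finset.mul_sum, Finset.mul_sum]
          apply Finset.sum_congr rfl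
          intro e _
          have := congrArg Int.natAbs (hmin e)
          rw [Int.natAbs_mul, Int.natAbs_mul, Int.natAbs_natCast] at this
          exact this
        have h2 : c.natAbs < p := by
          have : ((c.natAbs : ℕ) : ℤ) < p := by rw [Int.natCast_natAbs]; exact hclt
          exact_mod_cast this
        have h3 : 0 < minorSum B := minorSum_pos B hne
        rw [← hn]
        have h4 : p * minorSum B₁ < p * minorSum B := by
          rw [h1]
          exact Nat.mul_lt_mul_of_pos_right h2 h3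
        exact lt_of_mul_lt_mul_left h4 (Nat.zero_le _)
      obtain ⟨B₀, num, den, hnum, hden, hprop, hker₀, hgcd⟩ := ih (minorSum B₁) hlt B₁ hne₁ rfl
      refine ⟨B₀, num * c, den * p, mul_ne_zero hnum hc0,
        mul_ne_zero hden (by exact_mod_cast hp.ne_zero), ?_, fun a ha => hker a (hker₀ a ha), hgcd⟩
      intro e
      calc den * p * minor B₀ e = p * (den * minor B₀ e) := by ring
        _ = p * (num * minor B₁ e) := by rw [hprop e]
        _ = num * (p * minor B₁ e) := by ring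
        _ = num * (c * minor B e) := by rw [hmin e]
        _ = num * c * minor B e := by ring

end Reduce

end Fermat.Agent.S17.H980

end
-- ===== PACK-END S17/H980/SiegelMinors.lean

-- ===== PACK-BEGIN S17/H980/SiegelHeight.lean
section


/-!
# Siegel's lemma in Plücker form, height version (piece MINK of S17 / tower H, helper980)

For a rational matrix `B` (`d × n`, `d < n`, `k = n - d`) with a non-vanishing maximal minor there
is a non-zero integer vector `a` with `B a = 0` and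

  `log ‖a‖_∞ ≤ (1 / k) * logHeight (maximal minors of B) + log k`.

`logHeight` is Mathlib's logarithmic Weil height of a tuple (`Height.logHeight`), here the height
of the Plücker point of the row space of `B`; the minors are indexed by `ι₁ ↪ ι`.
-/

set_option autoImplicit false

open Matrix

namespace Fermat.Agent.S17.H980

section Height

variable {ι₁ ι : Type*} [Fintype ι₁] [DecidableEq ι₁] [Fintype ι] [DecidableEq ι]

/-- The maximal minors of a rational matrix (Plücker coordinates of its row space). -/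
noncomputable def minorQ (B : Matrix ι₁ ι ℚ) (e : ι₁ ↪ ι) : ℚ := (B.submatrix id e).det

/-- Clearing denominators. -/
theorem exists_int_matrix (B : Matrix ι₁ ι ℚ) :
    ∃ (N : ℤ) (BZ : Matrix ι₁ ι ℤ), N ≠ 0 ∧ ∀ r i, ((BZ r i : ℤ) : ℚ) = N * B r i := by
  classical
  obtain ⟨b, hb⟩ := IsLocalization.exist_integer_multiples (nonZeroDivisors ℤ)
    (Finset.univ : Finset (ι₁ × ι)) (fun x => B x.1 x.2)
  have hb' : ∀ r i, ∃ z : ℤ, (z : ℚ) = (b : ℤ) * B r i := by
    intro r i
    obtain ⟨z, hz⟩ := hb (r, i) (Finset.mem_univ _)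
    refine ⟨z, ?_⟩
    have h1 : ((z : ℤ) : ℚ) = algebraMap ℤ ℚ z := rfl
    rw [h1, hz]
    simp [Algebra.smul_def]
  choose BZ hBZ using hb'
  exact ⟨b, Matrix.of BZ, nonZeroDivisors.coe_ne_zero b, fun r i => hBZ r i⟩

theorem minor_cast_eq (B : Matrix ι₁ ι ℚ) (N : ℤ) (BZ : Matrix ι₁ ι ℤ)
    (h : ∀ r i, ((BZ r i : ℤ) : ℚ) = N * B r i) (e : ι₁ ↪ ι) :
    ((minor BZ e : ℤ) : ℚ) = (N : ℚ) ^ Fintype.card ι₁ * minorQ B e := by
  unfold minor minorQ
  rw [← Matrix.det_smul]
  have h1 : ((N : ℚ) • B.submatrix id e) = (BZ.submatrix id e).map (Int.castRingHom ℚ) := by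
    ext r j
    simp [h r (e j)]
  rw [h1, ← RingHom.mapMatrix_apply, ← RingHom.map_det]
  rfl

theorem mulVec_cast_eq (B : Matrix ι₁ ι ℚ) (N : ℤ) (BZ : Matrix ι₁ ι ℤ)
    (h : ∀ r i, ((BZ r i : ℤ) : ℚ) = N * B r i) (hN : N ≠ 0) (a : ι → ℤ) (ha : BZ *ᵥ a = 0) :
    B *ᵥ (fun i => (a i : ℚ)) = 0 := by
  funext r
  have h1 := congrFun ha r
  simp only [Matrix.mulVec, dotProduct, Pi.zero_apply] at h1 ⊢
  have h2 : ((∑ i, BZ r i * a i : ℤ) : ℚ) = N * ∑ i, B r i * (a i : ℚ) := by
    push_cast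
    rw [Finset.mul_sum]
    apply Finset.sum_congr rfl
    intro i _
    rw [h r i]; ring
  rw [h1] at h2
  have h3 : (N : ℚ) ≠ 0 := by exact_mod_cast hN
  have := mul_eq_zero.mp h2.symm
  rcases this with h4 | h4
  · exact absurd h4 h3
  · exact h4

/-- For a primitive integer matrix the height of the Plücker point is the logarithm of the
largest maximal minor. -/
theorem logHeight_minorQ_eq (B : Matrix ι₁ ι ℚ) (B₀ : Matrix ι₁ ι ℤ) (lam : ℚ) (hlam : lam ≠ 0)
    (hprop : ∀ e : ι₁ ↪ ι, ((minor B₀ e : ℤ) : ℚ) = lam * minorQ B e)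
    (hne : Nonempty (ι₁ ↪ ι))
    (hgcd : (Finset.univ : Finset (ι₁ ↪ ι)).gcd (minor B₀) = 1) :
    Height.logHeight (minorQ B) = Real.log ((⨆ e : ι₁ ↪ ι, |minor B₀ e| : ℤ) : ℝ) := by
  have h1 := Rat.logHeight_eq_max_abs_of_gcd_eq_one (x := minor B₀) hgcd
  rw [← h1]
  have h2 : ((↑) : ℤ → ℚ) ∘ minor B₀ = lam • minorQ B := by
    funext e
    simp [hprop e]
  rw [h2, Height.logHeight_smul_eq_logHeight _ hlam]

/-- **Siegel's lemma in Plücker form** (height version).  A rational matrix `B` with fewer rows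
than columns and a non-vanishing maximal minor kills a non-zero integer vector `a` with
`log |a i| ≤ (1 / k) * logHeight (maximal minors of B) + log k`, `k = #columns - #rows`. -/
theorem exists_small_kernel_logHeight (B : Matrix ι₁ ι ℚ)
    (hcard : Fintype.card ι₁ < Fintype.card ι) (hne : ∃ e : ι₁ ↪ ι, minorQ B e ≠ 0) :
    ∃ a : ι → ℤ, a ≠ 0 ∧ B *ᵥ (fun i => (a i : ℚ)) = 0 ∧
      ∀ i, Real.log |(a i : ℝ)| ≤
        (1 / ((Fintype.card ι - Fintype.card ι₁ : ℕ) : ℝ)) * Height.logHeight (minorQ B) +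
          Real.log ((Fintype.card ι - Fintype.card ι₁ : ℕ) : ℝ) := by
  classical
  set k := Fintype.card ι - Fintype.card ι₁ with hk
  have hk1 : 1 ≤ k := by omega
  have hkR : (1 : ℝ) ≤ (k : ℝ) := by exact_mod_cast hk1
  have hkpos : (0 : ℝ) < (k : ℝ) := lt_of_lt_of_le one_pos hkR
  obtain ⟨N, BZ, hN, hBZ⟩ := exists_int_matrix B
  have hNQ : (N : ℚ) ≠ 0 := by exact_mod_cast hN
  have hneZ : ∃ e : ι₁ ↪ ι, minor BZ e ≠ 0 := by
    obtain ⟨e, he⟩ := hne
    refine ⟨e, fun h0 => ?_⟩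
    have := minor_cast_eq B N BZ hBZ e
    rw [h0, Int.cast_zero] at this
    exact (mul_ne_zero (pow_ne_zero _ hNQ) he) this.symm
  obtain ⟨B₀, num, den, hnum, hden, hprop, hker, hgcd⟩ := exists_primitive BZ hneZ
  have hnumQ : (num : ℚ) ≠ 0 := by exact_mod_cast hnum
  have hdenQ : (den : ℚ) ≠ 0 := by exact_mod_cast hden
  have hprop' : ∀ e : ι₁ ↪ ι, ((minor B₀ e : ℤ) : ℚ) =
      ((num : ℚ) / den * (N : ℚ) ^ Fintype.card ι₁) * minorQ B e := by
    intro e
    have h1 : ((den * minor B₀ e : ℤ) : ℚ) = ((num * minor BZ e : ℤ) : ℚ) := by rw [hprop e]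
    push_cast at h1
    rw [minor_cast_eq B N BZ hBZ e] at h1
    field_simp
    linear_combination h1
  have hne₀ : ∃ e : ι₁ ↪ ι, minor B₀ e ≠ 0 := by
    obtain ⟨e, he⟩ := hne
    refine ⟨e, fun h0 => ?_⟩
    have := hprop' e
    rw [h0, Int.cast_zero] at this
    exact (mul_ne_zero (mul_ne_zero (div_ne_zero hnumQ hdenQ) (pow_ne_zero _ hNQ)) he) this.symm
  haveI : Nonempty (ι₁ ↪ ι) := ⟨hne₀.choose⟩
  have hheight := logHeight_minorQ_eq B B₀ _
    (mul_ne_zero (div_ne_zero hnumQ hdenQ) (pow_ne_zero _ hNQ)) hprop' ‹_› hgcd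
  -- the largest minor
  set Hz : ℤ := ⨆ e : ι₁ ↪ ι, |minor B₀ e| with hHz
  have hle : ∀ e : ι₁ ↪ ι, |minor B₀ e| ≤ Hz := fun e =>
    le_ciSup (Set.finite_range (fun e : ι₁ ↪ ι => |minor B₀ e|)).bddAbove e
  have hHz1 : 1 ≤ Hz := by
    obtain ⟨e, he⟩ := hne₀
    have : 1 ≤ |minor B₀ e| := Int.one_le_abs he
    exact le_trans this (hle e)
  set H : ℕ := Hz.toNat with hH
  have hHcast : (H : ℤ) = Hz := Int.toNat_of_nonneg (by omega)
  have hH1 : 1 ≤ H := by
    have : (1 : ℤ) ≤ (H : ℤ) := by rw [hHcast]; exact hHz1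
    exact_mod_cast this
  have hHR : (1 : ℝ) ≤ (H : ℝ) := by exact_mod_cast hH1
  have hHzR : ((Hz : ℤ) : ℝ) = (H : ℝ) := by
    rw [← hHcast]; simp
  -- the size of the box
  set x : ℝ := (H : ℝ) ^ ((1 : ℝ) / k) with hx
  have hx0 : 0 ≤ x := Real.rpow_nonneg (by positivity) _
  have hx1 : 1 ≤ x := Real.one_le_rpow hHR (by positivity)
  have hxk : x ^ k = (H : ℝ) := by
    rw [hx, ← Real.rpow_natCast, ← Real.rpow_mul (by positivity)]
    rw [one_div, inv_mul_cancel₀ (ne_of_gt hkpos), Real.rpow_one]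
  set T : ℕ := ⌊x⌋₊ with hT
  have hTle : (T : ℝ) ≤ x := Nat.floor_le hx0
  have hTlt : x < (T : ℝ) + 1 := Nat.lt_floor_add_one x
  have hT1 : 1 ≤ T := Nat.le_floor (by simpa using hx1)
  have hbox : H < (T + 1) ^ k := by
    have h1 : (H : ℝ) < ((T : ℝ) + 1) ^ k := by
      rw [← hxk]
      exact pow_lt_pow_left₀ hTlt hx0 (by omega)
    exact_mod_cast h1
  obtain ⟨a, ha0, hakerB₀, habd⟩ := exists_small_kernel B₀ hcard hne₀ H
    (fun e => by rw [hHcast]; exact hle e) T hbox
  refine ⟨a, ha0, mulVec_cast_eq B N BZ hBZ hN a (hker a hakerB₀), ?_⟩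
  intro i
  rw [hheight, hHzR]
  have hlogH : 0 ≤ Real.log (H : ℝ) := Real.log_nonneg hHR
  have hlogk : 0 ≤ Real.log (k : ℝ) := Real.log_nonneg hkR
  have hlogx : Real.log x = (1 / (k : ℝ)) * Real.log (H : ℝ) := by
    rw [hx, Real.log_rpow (by positivity)]
  by_cases hai : a i = 0
  · rw [hai]
    simp only [Int.cast_zero, abs_zero, Real.log_zero]
    positivity
  · have h1 : (1 : ℝ) ≤ |(a i : ℝ)| := by
      have : (1 : ℤ) ≤ |a i| := Int.one_le_abs hai
      exact_mod_cast this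
    have h2 : |(a i : ℝ)| ≤ (k : ℝ) * T := by
      have := habd i
      have h3 : ((|a i| : ℤ) : ℝ) ≤ (((k : ℕ) : ℤ) * (T : ℤ) : ℤ) := by exact_mod_cast this
      push_cast at h3
      exact h3
    have h4 : |(a i : ℝ)| ≤ (k : ℝ) * x := le_trans h2 (by gcongr)
    calc Real.log |(a i : ℝ)| ≤ Real.log ((k : ℝ) * x) :=
          Real.log_le_log (by linarith) h4
      _ = Real.log (k : ℝ) + Real.log x :=
          Real.log_mul (ne_of_gt hkpos) (by linarith)
      _ = (1 / (k : ℝ)) * Real.log (H : ℝ) + Real.log (k : ℝ) := by rw [hlogx]; ring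

omit [DecidableEq ι] in
/-- The height of a non-zero integer vector is at most the logarithm of its sup-norm. -/
theorem logHeight_intCast_le (a : ι → ℤ) (ha : a ≠ 0) (C : ℝ)
    (h : ∀ i, Real.log |(a i : ℝ)| ≤ C) :
    Height.logHeight (fun i => (a i : ℚ)) ≤ C := by
  classical
  obtain ⟨i₀, hi₀⟩ : ∃ i, a i ≠ 0 := by
    by_contra hcon
    exact ha (funext fun i => not_not.mp fun hi => hcon ⟨i, hi⟩)
  haveI : Nonempty ι := ⟨i₀⟩
  obtain ⟨a', ha', hgcd⟩ := Finset.extract_gcd a (Finset.univ_nonempty (α := ι))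
  set g := (Finset.univ : Finset ι).gcd a with hg
  have hg0 : g ≠ 0 := by
    intro h0
    exact hi₀ ((Finset.gcd_eq_zero_iff.mp h0) i₀ (Finset.mem_univ _))
  have hgQ : (g : ℚ) ≠ 0 := by exact_mod_cast hg0
  have h1 : (fun i => (a i : ℚ)) = (g : ℚ) • (((↑) : ℤ → ℚ) ∘ a') := by
    funext i
    simp [ha' i (Finset.mem_univ _)]
  rw [h1, Height.logHeight_smul_eq_logHeight _ hgQ, Rat.logHeight_eq_max_abs_of_gcd_eq_one hgcd]
  obtain ⟨j, hj⟩ := exists_eq_ciSup_of_finite (f := fun i => |a' i|)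
  rw [← hj]
  have haj : a j = g * a' j := ha' j (Finset.mem_univ _)
  by_cases h0 : a' j = 0
  · rw [h0]
    simp only [abs_zero, Int.cast_zero, Real.log_zero]
    have := h j
    rw [haj, h0] at this
    simpa using this
  · refine le_trans ?_ (h j)
    have h2 : (1 : ℤ) ≤ |a' j| := Int.one_le_abs h0
    have h3 : (1 : ℤ) ≤ |g| := Int.one_le_abs hg0
    have h4 : |a' j| ≤ |a j| := by
      rw [haj, abs_mul]
      nlinarith [abs_nonneg (a' j)]
    have h5 : ((|a' j| : ℤ) : ℝ) ≤ |(a j : ℝ)| := by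
      have : ((|a' j| : ℤ) : ℝ) ≤ ((|a j| : ℤ) : ℝ) := by exact_mod_cast h4
      simpa using this
    apply Real.log_le_log _ h5
    have : (0 : ℤ) < |a' j| := by omega
    exact_mod_cast this

/-- **Siegel's lemma in Plücker form** (projective version): the kernel of `B` contains a non-zero
integer vector `a` with `logHeight a ≤ (1 / k) * logHeight (Plücker point of B) + log k`. -/
theorem exists_kernel_logHeight_le (B : Matrix ι₁ ι ℚ)
    (hcard : Fintype.card ι₁ < Fintype.card ι) (hne : ∃ e : ι₁ ↪ ι, minorQ B e ≠ 0) :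
    ∃ a : ι → ℤ, a ≠ 0 ∧ B *ᵥ (fun i => (a i : ℚ)) = 0 ∧
      Height.logHeight (fun i => (a i : ℚ)) ≤
        (1 / ((Fintype.card ι - Fintype.card ι₁ : ℕ) : ℝ)) * Height.logHeight (minorQ B) +
          Real.log ((Fintype.card ι - Fintype.card ι₁ : ℕ) : ℝ) := by
  obtain ⟨a, ha0, hker, hbd⟩ := exists_small_kernel_logHeight B hcard hne
  exact ⟨a, ha0, hker, logHeight_intCast_le a ha0 _ hbd⟩

end Height

end Fermat.Agent.S17.H980

end
-- ===== PACK-END S17/H980/SiegelHeight.lean

-- ===== PACK-BEGIN S29/H872/Cyclo.lean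
section



/-!
# The mod `p` cyclotomic character at Frobenius elements

For a prime `ℓ ≠ p`, a valuation subring `A` of `ℚ̄` over `ℓ` and a Frobenius element `τ` at `A`
(Prelude: `ValuationSubring.IsFrobeniusAt`), the mod `p` cyclotomic character
`ExtCitation.cycloChar p` takes the value `ℓ` at `τ`.
-/

set_option autoImplicit false

namespace Fermat.Agent.S29.H872

open ExtCitation Fermat.Agent.S55.Bridge

section frob

variable (A : ValuationSubring (AlgebraicClosure ℚ))

/-- A Frobenius element at `A` raises to the `ℓ`-th power modulo the maximal ideal. -/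
theorem frob_val_sub_lt_one {τ : AlgebraicClosure ℚ ≃ₐ[ℚ] AlgebraicClosure ℚ} {ℓ : ℕ}
    (hτ : A.IsFrobeniusAt τ ℓ) (z : AlgebraicClosure ℚ)
    (hz : A.valuation z ≤ 1) : A.valuation (τ z - z ^ ℓ) < 1 := by
  obtain ⟨hd, hfrob⟩ := hτ
  have hzA : z ∈ A := (A.valuation_le_one_iff z).mp hz
  have h2 := hfrob (IsLocalRing.residue A ⟨z, hzA⟩)
  rw [← IsLocalRing.ResidueField.residue_smul, ← map_pow] at h2
  have h3 : ((⟨τ, hd⟩ : A.decompositionSubgroup ℚ) • (⟨z, hzA⟩ : A)) - (⟨z, hzA⟩ : A) ^ ℓ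
      ∈ IsLocalRing.maximalIdeal A := by
    rw [← Ideal.Quotient.eq]
    exact h2
  rw [ValuationSubring.valuation_lt_one_iff] at h3
  exact h3

end frob

variable (p : ℕ) [Fact p.Prime]

/-- A Frobenius element at a place over `ℓ ≠ p` acts on `p`-th roots of unity by `t ↦ t ^ ℓ`. -/
theorem frob_root_eq_pow {ℓ : ℕ} (hℓ : ℓ.Prime) (hℓp : ℓ ≠ p)
    (A : ValuationSubring (AlgebraicClosure ℚ)) (hA : A.LiesOverPrime ℓ)
    (τ : AlgebraicClosure ℚ ≃ₐ[ℚ] AlgebraicClosure ℚ) (hτ : A.IsFrobeniusAt τ ℓ)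
    {t : AlgebraicClosure ℚ} (htp : t ^ p = 1) : τ t = t ^ ℓ := by
  have hp : p.Prime := Fact.out
  by_contra hne
  have hpv := val_prime_eq_one (A := A) hA hℓ hp hℓp
  have hσt : (τ t) ^ p = 1 := by rw [← map_pow, htp, map_one]
  have htl : (t ^ ℓ) ^ p = 1 := by rw [← pow_mul, mul_comm, pow_mul, htp, one_pow]
  have h1 := val_sub_roots_eq_one (A := A) hp.ne_zero hpv hσt htl hne
  have hvt : A.valuation t ≤ 1 := by
    have h : (A.valuation t) ^ p = 1 := by rw [← map_pow, htp, map_one]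
    exact ((pow_eq_one_iff.1 h).resolve_right hp.ne_zero).le
  have h2 := frob_val_sub_lt_one A hτ t hvt
  rw [h1] at h2
  exact lt_irrefl _ h2

/-- **Cyclotomic character at Frobenius.** For `ℓ ≠ p` and a Frobenius element `τ` at a place over
`ℓ`, the mod `p` cyclotomic character of `τ` is `ℓ`. -/
theorem cycloChar_frobenius {ℓ : ℕ} (hℓ : ℓ.Prime) (hℓp : ℓ ≠ p)
    (A : ValuationSubring (AlgebraicClosure ℚ)) (hA : A.LiesOverPrime ℓ)
    (τ : AlgebraicClosure ℚ ≃ₐ[ℚ] AlgebraicClosure ℚ) (hτ : A.IsFrobeniusAt τ ℓ) :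
    ((cycloChar p τ : (ZMod p)ˣ) : ZMod p) = (ℓ : ZMod p) := by
  have hp : p.Prime := Fact.out
  have : NeZero p := ⟨hp.ne_zero⟩
  have : Fact (1 < p) := ⟨hp.one_lt⟩
  have h := modularCyclotomicCharacter.unique (AlgebraicClosure ℚ) (card_rootsOfUnity_eq_self p)
    (τ : AlgebraicClosure ℚ ≃+* AlgebraicClosure ℚ) (c := (ℓ : ZMod p))
    (fun t ht => by
      have htp : (t : AlgebraicClosure ℚ) ^ p = 1 := by
        have := (mem_rootsOfUnity p t).1 ht
        rw [← Units.val_pow_eq_pow_val, this, Units.val_one]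
      have h1 : (τ : AlgebraicClosure ℚ ≃+* AlgebraicClosure ℚ) (t : AlgebraicClosure ℚ)
          = (t : AlgebraicClosure ℚ) ^ ℓ := frob_root_eq_pow p hℓ hℓp A hA τ hτ htp
      rw [h1, ZMod.val_natCast]
      conv_lhs => rw [← Nat.div_add_mod ℓ p, pow_add, pow_mul, htp, one_pow, one_mul])
  exact h.symm

/-- If `σ` fixes every `p`-th root of unity of `ℚ̄`, then `cycloChar p σ = 1` (root form). -/
theorem cycloChar_eq_one_of_fixes_roots (σ : AlgebraicClosure ℚ ≃ₐ[ℚ] AlgebraicClosure ℚ)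
    (hσ : ∀ t : AlgebraicClosure ℚ, t ^ p = 1 → σ t = t) : cycloChar p σ = 1 := by
  apply cycloChar_eq_one_of_fixes
  intro t ht
  apply hσ
  have := (mem_rootsOfUnity p t).1 ht
  rw [← Units.val_pow_eq_pow_val, this, Units.val_one]

end Fermat.Agent.S29.H872

end
-- ===== PACK-END S29/H872/Cyclo.lean

-- ===== PACK-BEGIN Lib/Cheb/H943/Frob.lean
section


/-!
# CHEB piece D: `Spec.FrobStatement` (helper943)

Outside the finite set of prime divisors of the absolute norm of the different ideal of a Galois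
number field `L/ℚ`, every prime `P` of `𝓞 L` has trivial inertia group, an arithmetic Frobenius
`τ`, and decomposition group `zpowers τ`.

Ingredients (all Mathlib): `not_dvd_differentIdeal_iff` (unramified ⇔ not dividing the
different), `AlgHom.IsArithFrobAt.eq_of_isUnramifiedAt` (uniqueness of Frobenius),
`IsArithFrobAt.exists_of_isInvariant` (existence), `Ideal.Quotient.stabilizerHom` and
`FiniteField.bijective_frobeniusAlgEquivOfAlgebraic_pow` (Galois groups of finite fields are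
generated by Frobenius).
-/

set_option autoImplicit false
set_option linter.unusedSectionVars false
set_option linter.style.haveILetI false

open NumberField
open scoped Pointwise

namespace Fermat.Agent.Lib.Cheb.H943

section Bad

attribute [local instance] FractionRing.liftAlgebra

variable (L : Type) [Field L] [NumberField L]

/-- The bad number: the absolute norm of the different ideal (`= |discr L|`). -/
noncomputable def badNat : ℕ := Ideal.absNorm (differentIdeal ℤ (𝓞 L))

lemma badNat_ne_zero : badNat L ≠ 0 := by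
  unfold badNat
  rw [Ne, Ideal.absNorm_eq_zero_iff]
  exact differentIdeal_ne_bot

variable {L}

/-- A rational prime contained in a prime ideal divides its absolute norm. -/
lemma prime_dvd_absNorm {p : ℕ} (hp : p.Prime) {P : Ideal (𝓞 L)} (hP : P.IsPrime)
    (hpP : (p : 𝓞 L) ∈ P) : p ∣ Ideal.absNorm P := by
  by_contra h
  have hcop : Nat.Coprime p (Ideal.absNorm P) := (Nat.Prime.coprime_iff_not_dvd hp).mpr h
  have h1 : ((Nat.gcd p (Ideal.absNorm P) : ℤ) : 𝓞 L) ∈ P := by
    rw [Nat.gcd_eq_gcd_ab]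
    push_cast
    exact P.add_mem (P.mul_mem_right _ hpP) (P.mul_mem_right _ (Ideal.absNorm_mem P))
  rw [hcop] at h1
  simp only [Nat.cast_one, Int.cast_one] at h1
  exact hP.ne_top ((Ideal.eq_top_iff_one P).mpr h1)

/-- Primes not dividing `badNat L` are unramified in `L`. -/
lemma isUnramifiedAt_of_not_dvd_badNat {p : ℕ} (hp : p.Prime) (hpB : ¬ p ∣ badNat L)
    {P : Ideal (𝓞 L)} [hP : P.IsPrime] (hpP : (p : 𝓞 L) ∈ P) :
    Algebra.IsUnramifiedAt ℤ P := by
  rw [← not_dvd_differentIdeal_iff]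
  intro hdvd
  apply hpB
  exact (prime_dvd_absNorm hp hP hpP).trans
    (Ideal.absNorm_dvd_absNorm_of_le (Ideal.le_of_dvd hdvd))

end Bad

variable {L : Type} [Field L] [NumberField L] [IsGalois ℚ L]

lemma faithful_gal : FaithfulSMul (L ≃ₐ[ℚ] L) (𝓞 L) :=
  IsGaloisGroup.faithful ℤ

lemma prime_ne_bot {p : ℕ} (hp : p.Prime) {P : Ideal (𝓞 L)} (hpP : (p : 𝓞 L) ∈ P) : P ≠ ⊥ := by
  rintro rfl
  rw [Ideal.mem_bot] at hpP
  exact hp.ne_zero (by exact_mod_cast hpP)

lemma finite_quot {p : ℕ} (hp : p.Prime) {P : Ideal (𝓞 L)} (hpP : (p : 𝓞 L) ∈ P) :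
    Finite (𝓞 L ⧸ P) :=
  Ideal.finiteQuotientOfFreeOfNeBot P (prime_ne_bot hp hpP)

/-- Existence of an arithmetic Frobenius at every prime above `p`. -/
lemma exists_isArithFrobAt {p : ℕ} (hp : p.Prime) {P : Ideal (𝓞 L)} [hP : P.IsPrime]
    (hpP : (p : 𝓞 L) ∈ P) : ∃ τ : L ≃ₐ[ℚ] L, IsArithFrobAt ℤ τ P := by
  haveI := finite_quot hp hpP
  exact IsArithFrobAt.exists_of_isInvariant ℤ (L ≃ₐ[ℚ] L) P

/-- Inertia is trivial at an unramified prime. -/
lemma inertiaTrivial_of_isUnramifiedAt {p : ℕ} (hp : p.Prime) {P : Ideal (𝓞 L)} [hP : P.IsPrime]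
    (hpP : (p : 𝓞 L) ∈ P) [Algebra.IsUnramifiedAt ℤ P] : Spec.InertiaTrivial L P := by
  intro ι hι
  obtain ⟨τ, hτ⟩ := exists_isArithFrobAt hp hpP
  have hιτ : IsArithFrobAt ℤ (ι * τ) P := by
    intro x
    have h1 := hι (τ • x)
    have h2 := hτ x
    have : (MulSemiringAction.toAlgHom ℤ (𝓞 L) (ι * τ)) x - x ^ Nat.card (ℤ ⧸ P.under ℤ)
        = (ι • (τ • x) - τ • x) + ((MulSemiringAction.toAlgHom ℤ (𝓞 L) τ) x
            - x ^ Nat.card (ℤ ⧸ P.under ℤ)) := by
      simp [mul_smul]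
    rw [this]
    exact P.add_mem h1 h2
  have heq := AlgHom.IsArithFrobAt.eq_of_isUnramifiedAt hιτ hτ
    (by intro x hx; exact mem_nonZeroDivisors_of_ne_zero (by rintro rfl; exact hx P.zero_mem))
  haveI := faithful_gal (L := L)
  have h3 : ι * τ = τ := by
    apply FaithfulSMul.eq_of_smul_eq_smul (α := 𝓞 L)
    intro x
    exact DFunLike.congr_fun heq x
  simpa using h3

attribute [local instance] Ideal.Quotient.field in
/-- If the inertia group is trivial, the decomposition group is generated by any Frobenius. -/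
lemma decomp_eq_zpowers {p : ℕ} (hp : p.Prime) {P : Ideal (𝓞 L)} [hP : P.IsPrime]
    (hpP : (p : 𝓞 L) ∈ P) (hI : Spec.InertiaTrivial L P) {τ : L ≃ₐ[ℚ] L}
    (hτ : IsArithFrobAt ℤ τ P) : Spec.decomp L P = Subgroup.zpowers τ := by
  have hne : P ≠ ⊥ := prime_ne_bot hp hpP
  haveI hmax : P.IsMaximal := Ideal.IsPrime.isMaximal hP hne
  haveI : Finite (𝓞 L ⧸ P) := Ideal.finiteQuotientOfFreeOfNeBot P hne
  haveI hmax' : (P.under ℤ).IsMaximal := Ideal.IsMaximal.under ℤ P
  haveI : Finite (ℤ ⧸ P.under ℤ) := hτ.finite_quotient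
  letI : Fintype (ℤ ⧸ P.under ℤ) := Fintype.ofFinite _
  have hτmem : τ ∈ MulAction.stabilizer (L ≃ₐ[ℚ] L) P := hτ.mem_stabilizer
  apply le_antisymm
  · intro σ hσ
    obtain ⟨n, hn⟩ := (FiniteField.bijective_frobeniusAlgEquivOfAlgebraic_pow
      (ℤ ⧸ P.under ℤ) (𝓞 L ⧸ P)).2
      (Ideal.Quotient.stabilizerHom P (P.under ℤ) (L ≃ₐ[ℚ] L) ⟨σ, hσ⟩)
    have hfrob : Ideal.Quotient.stabilizerHom P (P.under ℤ) (L ≃ₐ[ℚ] L) ⟨τ, hτmem⟩
        = FiniteField.frobeniusAlgEquivOfAlgebraic (ℤ ⧸ P.under ℤ) (𝓞 L ⧸ P) := by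
      ext x
      obtain ⟨y, rfl⟩ := Ideal.Quotient.mk_surjective x
      rw [FiniteField.coe_frobeniusAlgEquivOfAlgebraic]
      simp only [Ideal.Quotient.stabilizerHom_apply]
      rw [← Nat.card_eq_fintype_card]
      exact hτ.mk_apply y
    have hker : Ideal.Quotient.stabilizerHom P (P.under ℤ) (L ≃ₐ[ℚ] L)
        (⟨σ, hσ⟩ * (⟨τ, hτmem⟩ ^ n.1)⁻¹) = 1 := by
      rw [map_mul, map_inv, map_pow, hfrob]
      simp only at hn
      rw [hn, mul_inv_cancel]
    have h1 : σ * (τ ^ n.1)⁻¹ = 1 := by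
      apply hI
      intro x
      have := DFunLike.congr_fun hker (Ideal.Quotient.mk P x)
      simp only [Ideal.Quotient.stabilizerHom_apply, AlgEquiv.one_apply] at this
      rw [Ideal.Quotient.eq] at this
      exact this
    rw [mul_inv_eq_one] at h1
    rw [h1]
    exact Subgroup.pow_mem _ (Subgroup.mem_zpowers τ) _
  · rw [Subgroup.zpowers_le]
    exact hτmem

/-- Piece D with an explicit bad set: all conclusions at every prime not dividing `badNat L`. -/
theorem frob_of_not_dvd_badNat {p : ℕ} (hp : p.Prime) (hpB : ¬ p ∣ badNat L)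
    (P : Ideal (𝓞 L)) (hP : P.IsPrime) (hpP : (p : 𝓞 L) ∈ P) :
    Algebra.IsUnramifiedAt ℤ P ∧ Spec.InertiaTrivial L P ∧
      ∃ τ : L ≃ₐ[ℚ] L, IsArithFrobAt ℤ τ P ∧ Spec.decomp L P = Subgroup.zpowers τ := by
  haveI := hP
  haveI hU : Algebra.IsUnramifiedAt ℤ P := isUnramifiedAt_of_not_dvd_badNat hp hpB hpP
  have hI := inertiaTrivial_of_isUnramifiedAt hp hpP
  obtain ⟨τ, hτ⟩ := exists_isArithFrobAt hp hpP
  exact ⟨hU, hI, τ, hτ, decomp_eq_zpowers hp hpP hI hτ⟩

/-- **Piece D** of row CHEB: `Spec.FrobStatement`. -/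
theorem frobStatement : Spec.FrobStatement := by
  intro L _ _ _
  refine ⟨(badNat L).primeFactors, fun p hp hpB P hP hpP => ?_⟩
  have hpB' : ¬ p ∣ badNat L := fun h =>
    hpB (Nat.mem_primeFactors.mpr ⟨hp, h, badNat_ne_zero L⟩)
  obtain ⟨-, hI, hτ⟩ := frob_of_not_dvd_badNat hp hpB' P hP hpP
  exact ⟨hI, hτ⟩

end Fermat.Agent.Lib.Cheb.H943

end
-- ===== PACK-END Lib/Cheb/H943/Frob.lean

-- ===== PACK-BEGIN Lib/Cheb/H993/Induction.lean
section


/-!
# The subgroup induction (abstract core of piece `M`)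

`v X p ≥ 0` bounded weights indexed by subgroups `X` of a finite group `G` and numbers `p`.
If for every subgroup `H` the prime sum of `∑_{X ≤ H} v X` is `|H| · log (1/(s-1)) + O(1)`, then
for every subgroup `X` the prime sum of `v X` is `ψ(X) · log (1/(s-1)) + O(1)`, where `ψ(X)` is the
number of generators of `X`.  Hence if `X` is cyclic, `v X p > 0` for primes outside any finite set.
-/

set_option autoImplicit false

namespace Fermat.Agent.Lib.Cheb.H993

open scoped Classical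

noncomputable section

variable {G : Type*} [Group G] [Finite G]

/-- Number of generators of the subgroup `X`. -/
def gens (X : Subgroup G) : ℕ := Nat.card {x : G // Subgroup.zpowers x = X}

/-- The subgroups contained in `H`, as a finset. -/
def below (H : Subgroup G) : Finset (Subgroup G) :=
  haveI : Fintype (Subgroup G) := Fintype.ofFinite _
  Finset.univ.filter (· ≤ H)

theorem mem_below {H X : Subgroup G} : X ∈ below H ↔ X ≤ H := by
  unfold below
  simp

theorem card_eq_sum_gens (H : Subgroup G) : Nat.card H = ∑ X ∈ below H, gens X := by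
  have : Fintype G := Fintype.ofFinite _
  have h1 : Nat.card H = (Finset.univ.filter (fun x : G => x ∈ H)).card := by
    rw [Nat.card_eq_fintype_card, Fintype.card_subtype]
  have h2 : ∀ X : Subgroup G, gens X
      = ((Finset.univ.filter (fun x : G => x ∈ H)).filter
          (fun x => Subgroup.zpowers x = X)).card ∨ ¬ X ≤ H := by
    intro X
    by_cases hX : X ≤ H
    · left
      unfold gens
      rw [Nat.card_eq_fintype_card, Fintype.card_subtype]
      congr 1
      ext x
      simp only [Finset.mem_filter, Finset.mem_univ, true_and, iff_and_self]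
      intro hx
      exact hX (hx ▸ Subgroup.mem_zpowers x)
    · right; exact hX
  rw [h1, Finset.card_eq_sum_card_fiberwise (f := fun x : G => Subgroup.zpowers x)
    (t := below H)]
  · refine Finset.sum_congr rfl fun X hX => ?_
    rcases h2 X with h | h
    · exact h.symm
    · exact absurd (mem_below.mp hX) h
  · intro x hx
    simp only [Finset.coe_filter, Finset.mem_univ, true_and, Set.mem_ofPred_eq] at hx
    simp only [Finset.mem_coe]
    exact mem_below.mpr ((Subgroup.zpowers_le).mpr hx)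

theorem self_mem_below (X : Subgroup G) : X ∈ below X := mem_below.mpr le_rfl

theorem card_lt_of_mem_erase {X Y : Subgroup G} (hY : Y ∈ (below X).erase X) :
    Nat.card Y < Nat.card X := by
  rw [Finset.mem_erase, mem_below] at hY
  have hlt : Y < X := lt_of_le_of_ne hY.2 hY.1
  have hss : (Y : Set G) ⊂ (X : Set G) := by
    exact_mod_cast hlt
  have h := Set.ncard_lt_ncard hss (Set.toFinite _)
  rw [← Nat.card_coe_set_eq, ← Nat.card_coe_set_eq] at h
  exact h

/-- The induction: prime sums of `v X` are `gens X · log (1/(s-1)) + O(1)`. -/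
theorem logAsymp_pSum (v : Subgroup G → ℕ → ℝ) (K : ℝ) (h0 : ∀ X p, 0 ≤ v X p)
    (hK : ∀ X p, v X p ≤ K)
    (hW : ∀ H : Subgroup G,
      LogAsymp (pSum (fun p => ∑ X ∈ below H, v X p)) (Nat.card H)) :
    ∀ X : Subgroup G, LogAsymp (pSum (v X)) (gens X) := by
  suffices h : ∀ n : ℕ, ∀ X : Subgroup G, Nat.card X = n → LogAsymp (pSum (v X)) (gens X) from
    fun X => h _ X rfl
  intro n
  induction n using Nat.strong_induction_on with
  | _ n ih =>
    intro X hX
    have hsmall : ∀ Y ∈ (below X).erase X, LogAsymp (pSum (v Y)) (gens Y) := by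
      intro Y hY
      exact ih (Nat.card Y) (hX ▸ card_lt_of_mem_erase hY) Y rfl
    have hsum := LogAsymp.sum ((below X).erase X) hsmall
    have hdiff := (hW X).sub hsum
    have hcoef : ((Nat.card X : ℕ) : ℝ) - ∑ Y ∈ (below X).erase X, ((gens Y : ℕ) : ℝ)
        = (gens X : ℝ) := by
      have h1 := card_eq_sum_gens X
      rw [← Finset.add_sum_erase (below X) _ (self_mem_below X)] at h1
      rw [h1]
      push_cast
      ring
    rw [hcoef] at hdiff
    refine hdiff.congr fun s h1 _ => ?_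
    have hsplit : pSum (fun p => ∑ Y ∈ below X, v Y p) s = ∑ Y ∈ below X, pSum (v Y) s :=
      pSum_finset_sum (below X) h0 hK h1
    rw [hsplit, ← Finset.add_sum_erase (below X) _ (self_mem_below X)]
    ring

/-- Consequence: if `X` has a generator, `v X p > 0` for some `p` outside any finite set. -/
theorem exists_pos_of_gens_pos (v : Subgroup G → ℕ → ℝ) (K : ℝ) (h0 : ∀ X p, 0 ≤ v X p)
    (hK : ∀ X p, v X p ≤ K)
    (hW : ∀ H : Subgroup G,
      LogAsymp (pSum (fun p => ∑ X ∈ below H, v X p)) (Nat.card H))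
    (X : Subgroup G) (hX : 0 < gens X) (S : Finset ℕ) :
    ∃ p : ℕ, p.Prime ∧ p ∉ S ∧ 0 < v X p := by
  by_contra hcon
  have hcon : ∀ p : ℕ, p.Prime → p ∉ S → v X p ≤ 0 := by
    intro p hp hpS
    by_contra h
    exact hcon ⟨p, hp, hpS, not_le.mp h⟩
  have hsupp : ∀ p : Nat.Primes, (p : ℕ) ∉ S → v X p = 0 := fun p hp =>
    le_antisymm (hcon p p.2 hp) (h0 X p)
  have hasym := logAsymp_pSum v K h0 hK hW X
  have hK0 : 0 ≤ K := (h0 X 0).trans (hK X 0)
  obtain ⟨s, h1, -, hs⟩ := hasym.exists_gt (by exact_mod_cast hX) (K * S.card)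
  -- but the prime sum is supported on `S`
  let w : ℕ → ℝ := fun p => if p ∈ S then v X p else 0
  have hw : pSum (v X) s = pSum w s := by
    unfold pSum
    congr 1
    funext p
    by_cases hp : (p : ℕ) ∈ S
    · simp [w, hp]
    · simp [w, hp, hsupp p hp]
  have hle : |pSum w s| ≤ K * S.card := by
    apply abs_pSum_le_of_support S
    · intro p; by_cases hp : p ∈ S <;> simp [w, hp, h0 X p]
    · intro p; by_cases hp : p ∈ S <;> simp [w, hp, hK X p, hK0]
    · intro p hp; simp [w, hp]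
    · exact h1
  rw [hw] at hs
  exact absurd (le_abs_self _ |>.trans hle) (not_le.mpr hs)

end

end Fermat.Agent.Lib.Cheb.H993

end
-- ===== PACK-END Lib/Cheb/H993/Induction.lean

-- ===== PACK-BEGIN S37/H940/PlaceBasic.lean
section




/-!
# S37 / RIM (helper940): basic vocabulary on places

`InMax P f` : `f` lies in the maximal ideal of the place `P` (`f = 0` or `ord_P f > 0`);
closure properties; uniqueness of the value of a function at a place.
Everything is characteristic free.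
-/

set_option autoImplicit false

namespace Fermat.Agent.S37.H940

open AlgebraicCurve
open Fermat.Agent.S24.FF

variable {K F : Type*} [Field K] [Field F] [Algebra K F]

/-- `f` lies in the maximal ideal of the place `P`. -/
def InMax (P : Place K F) (f : F) : Prop := f = 0 ∨ 0 < P.ord f

theorem inMax_zero (P : Place K F) : InMax P (0 : F) := Or.inl rfl

theorem inMax_of_ord_pos {P : Place K F} {f : F} (h : 0 < P.ord f) : InMax P f := Or.inr h

theorem InMax.ord_pos {P : Place K F} {f : F} (h : InMax P f) (hf : f ≠ 0) : 0 < P.ord f :=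
  h.resolve_left hf

theorem InMax.ord_nonneg {P : Place K F} {f : F} (h : InMax P f) : 0 ≤ P.ord f := by
  rcases h with rfl | h
  · simp
  · exact h.le

theorem inMax_iff_mem_nonunits {P : Place K F} {f : F} :
    InMax P f ↔ f ∈ P.toValuationSubring.nonunits := by
  rcases eq_or_ne f 0 with rfl | hf
  · refine ⟨fun _ => ?_, fun _ => inMax_zero P⟩
    rw [ValuationSubring.mem_nonunits_iff_exists_mem_maximalIdeal]
    exact ⟨zero_mem _, Ideal.zero_mem _⟩
  · rw [← ord_pos_iff_mem_nonunits P hf]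
    exact ⟨fun h => h.ord_pos hf, inMax_of_ord_pos⟩

theorem inMax_iff_exists_mem_maximalIdeal {P : Place K F} {f : F} :
    InMax P f ↔ ∃ h : f ∈ P.toValuationSubring,
      (⟨f, h⟩ : P.toValuationSubring) ∈ IsLocalRing.maximalIdeal P.toValuationSubring := by
  rw [inMax_iff_mem_nonunits, ValuationSubring.mem_nonunits_iff_exists_mem_maximalIdeal]

theorem InMax.add {P : Place K F} {f g : F} (hf : InMax P f) (hg : InMax P g) :
    InMax P (f + g) := by
  rw [inMax_iff_exists_mem_maximalIdeal] at hf hg ⊢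
  obtain ⟨hf1, hf2⟩ := hf
  obtain ⟨hg1, hg2⟩ := hg
  exact ⟨add_mem hf1 hg1, Ideal.add_mem _ hf2 hg2⟩

theorem InMax.neg {P : Place K F} {f : F} (hf : InMax P f) : InMax P (-f) := by
  rw [inMax_iff_exists_mem_maximalIdeal] at hf ⊢
  obtain ⟨hf1, hf2⟩ := hf
  exact ⟨neg_mem hf1, Ideal.neg_mem_iff _ |>.mpr hf2⟩

theorem InMax.sub {P : Place K F} {f g : F} (hf : InMax P f) (hg : InMax P g) :
    InMax P (f - g) := by
  rw [sub_eq_add_neg]
  exact hf.add hg.neg

theorem InMax.mul_of_ord_nonneg {P : Place K F} {f g : F} (hf : InMax P f) (hg : 0 ≤ P.ord g) :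
    InMax P (f * g) := by
  rw [inMax_iff_exists_mem_maximalIdeal] at hf ⊢
  obtain ⟨hf1, hf2⟩ := hf
  have hg1 : g ∈ P.toValuationSubring := mem_of_ord_nonneg P hg
  exact ⟨mul_mem hf1 hg1, Ideal.mul_mem_right ⟨g, hg1⟩ _ hf2⟩

theorem InMax.ord_nonneg_mul {P : Place K F} {f g : F} (hg : 0 ≤ P.ord g) (hf : InMax P f) :
    InMax P (g * f) := by
  rw [mul_comm]
  exact hf.mul_of_ord_nonneg hg

theorem InMax.const_mul {P : Place K F} {f : F} (hf : InMax P f) (c : K) :
    InMax P (algebraMap K F c * f) :=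
  hf.ord_nonneg_mul (ord_algebraMap P c).ge

theorem not_inMax_one (P : Place K F) : ¬ InMax P (1 : F) := by
  rintro (h | h)
  · exact one_ne_zero h
  · simp at h

theorem not_inMax_of_ord_eq_zero {P : Place K F} {f : F} (hf : f ≠ 0) (h : P.ord f = 0) :
    ¬ InMax P f := by
  rintro (h0 | h0)
  · exact hf h0
  · omega

theorem inMax_algebraMap_iff {P : Place K F} {c : K} : InMax P (algebraMap K F c) ↔ c = 0 := by
  constructor
  · rintro (h | h)
    · exact (map_eq_zero_iff _ (algebraMap K F).injective).mp h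
    · rw [ord_algebraMap] at h
      exact absurd h (lt_irrefl _)
  · rintro rfl
    rw [map_zero]
    exact inMax_zero P

/-- the value of a function at a place is unique -/
theorem value_unique {P : Place K F} {f : F} {a b : K}
    (ha : InMax P (f - algebraMap K F a)) (hb : InMax P (f - algebraMap K F b)) : a = b := by
  have h := hb.sub ha
  have e : f - algebraMap K F b - (f - algebraMap K F a) = algebraMap K F (a - b) := by
    rw [map_sub]; ring
  rw [e, inMax_algebraMap_iff] at h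
  exact sub_eq_zero.mp h

/-- a function congruent to a constant modulo the maximal ideal is regular -/
theorem ord_nonneg_of_inMax_sub {P : Place K F} {f : F} {a : K}
    (h : InMax P (f - algebraMap K F a)) : 0 ≤ P.ord f := by
  have h1 : f - algebraMap K F a ∈ P.toValuationSubring := mem_of_ord_nonneg P h.ord_nonneg
  have h2 : f = (f - algebraMap K F a) + algebraMap K F a := by ring
  rw [h2]
  exact ord_nonneg_of_mem P (add_mem h1 (P.algebraMap_mem' a))

/-- a function with a nonzero value is a unit at the place -/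
theorem ord_eq_zero_of_inMax_sub {P : Place K F} {f : F} {a : K}
    (h : InMax P (f - algebraMap K F a)) (ha : a ≠ 0) : P.ord f = 0 := by
  have h0 := ord_nonneg_of_inMax_sub h
  by_contra hne
  have hpos : 0 < P.ord f := lt_of_le_of_ne h0 (Ne.symm hne)
  have h1 : InMax P f := inMax_of_ord_pos hpos
  have h2 := h1.sub h
  rw [sub_sub_cancel, inMax_algebraMap_iff] at h2
  exact ha h2

theorem ord_neg (P : Place K F) (f : F) : P.ord (-f) = P.ord f := by
  rcases eq_or_ne f 0 with rfl | hf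
  · simp
  have h1 : P.ord (-1 : F) = 0 := by
    have := ord_algebraMap P (-1 : K)
    simpa using this
  rw [neg_eq_neg_one_mul, P.ord_mul (neg_ne_zero.mpr one_ne_zero) hf, h1, zero_add]

theorem ord_const_mul (P : Place K F) {c : K} (hc : c ≠ 0) (f : F) :
    P.ord (algebraMap K F c * f) = P.ord f := by
  rcases eq_or_ne f 0 with rfl | hf
  · simp
  have hc' : algebraMap K F c ≠ 0 := by
    rwa [Ne, map_eq_zero_iff _ (algebraMap K F).injective]
  rw [P.ord_mul hc' hf, ord_algebraMap, zero_add]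

theorem ord_nonneg_add {P : Place K F} {f g : F} (hf : 0 ≤ P.ord f) (hg : 0 ≤ P.ord g) :
    0 ≤ P.ord (f + g) :=
  ord_nonneg_of_mem P (add_mem (mem_of_ord_nonneg P hf) (mem_of_ord_nonneg P hg))

theorem ord_nonneg_sub {P : Place K F} {f g : F} (hf : 0 ≤ P.ord f) (hg : 0 ≤ P.ord g) :
    0 ≤ P.ord (f - g) :=
  ord_nonneg_of_mem P (sub_mem (mem_of_ord_nonneg P hf) (mem_of_ord_nonneg P hg))

theorem ord_nonneg_mul {P : Place K F} {f g : F} (hf : 0 ≤ P.ord f) (hg : 0 ≤ P.ord g) :
    0 ≤ P.ord (f * g) :=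
  ord_nonneg_of_mem P (mul_mem (mem_of_ord_nonneg P hf) (mem_of_ord_nonneg P hg))

theorem ord_nonneg_const (P : Place K F) (c : K) : 0 ≤ P.ord (algebraMap K F c) :=
  (ord_algebraMap P c).ge

end Fermat.Agent.S37.H940

end
-- ===== PACK-END S37/H940/PlaceBasic.lean

-- ===== PACK-BEGIN S37/H217/NormRed.lean
section


/-!
# Norms commute with reduction (RED-A1), abstract form

`K ⊇ A` valuation subring, `π : A ↠ k`; `F/K`, `F_k/k` field extensions; `O ⊆ F` a valuation
subring containing `A`, with a surjective ring hom `ρ : O ↠ F_k` extending `π`; `t ∈ O` with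
`t̄ = ρ t` transcendental over `k`, and `[F : K(t)] = [F_k : k(t̄)] < ∞`.  Then for `y ∈ O`:

  `N_{F/K(t)} y ∈ O`  and  `ρ (N_{F/K(t)} y) = N_{F_k/k(t̄)} (ρ y)`.

(`norm_red`).  Intermediate results: `ρ` maps `O ∩ K(t)` into `k(t̄)` (`rho_mem_adjoin`),
`O ∩ K = A` (`mem_of_algebraMap_mem`), primitive scaling of polynomials (`exists_primitive`).
-/

namespace Fermat.Agent.S37.H217

open IntermediateField Polynomial

/-- An abstract Gauss reduction context. -/
structure RedCtx {K k : Type*} [Field K] [Field k] (A : ValuationSubring K) (π : A →+* k)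
    (F Fk : Type*) [Field F] [Field Fk] [Algebra K F] [Algebra k Fk] where
  π_surj : Function.Surjective π
  /-- the valuation ring of the function field -/
  O : ValuationSubring F
  /-- reduction of functions -/
  ρ : O →+* Fk
  ρ_surj : Function.Surjective ρ
  const_mem : ∀ a : A, algebraMap K F (a : K) ∈ O
  ρ_const : ∀ a : A, ρ ⟨algebraMap K F (a : K), const_mem a⟩ = algebraMap k Fk (π a)

namespace RedCtx

variable {K k : Type*} [Field K] [Field k] {A : ValuationSubring K} {π : A →+* k}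
  {F Fk : Type*} [Field F] [Field Fk] [Algebra K F] [Algebra k Fk] (G : RedCtx A π F Fk)

include G in
theorem π_eq_zero_iff (a : A) : π a = 0 ↔ a ∈ IsLocalRing.maximalIdeal A := by
  have h := IsLocalRing.eq_maximalIdeal (RingHom.ker_isMaximal_of_surjective π G.π_surj)
  rw [← h, RingHom.mem_ker]

theorem ρ_eq_zero_iff (f : G.O) : G.ρ f = 0 ↔ (f : F) ∈ G.O.nonunits := by
  have h := IsLocalRing.eq_maximalIdeal (RingHom.ker_isMaximal_of_surjective G.ρ G.ρ_surj)
  rw [ValuationSubring.coe_mem_nonunits_iff, ← h, RingHom.mem_ker]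

/-- the inclusion `A → O` -/
def const : A →+* G.O where
  toFun a := ⟨algebraMap K F (a : K), G.const_mem a⟩
  map_one' := Subtype.ext (by simp)
  map_mul' a b := Subtype.ext (by simp)
  map_zero' := Subtype.ext (by simp)
  map_add' a b := Subtype.ext (by simp)

@[simp] theorem coe_const (a : A) : ((G.const a : G.O) : F) = algebraMap K F (a : K) := rfl

theorem ρ_comp_const : G.ρ.comp G.const = (algebraMap k Fk).comp π :=
  RingHom.ext fun a => G.ρ_const a

/-- `O ∩ K = A`. -/
theorem mem_of_algebraMap_mem {c : K} (hc : algebraMap K F c ∈ G.O) : c ∈ A := by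
  by_contra hcA
  have hc0 : c ≠ 0 := fun h => hcA (h ▸ A.zero_mem)
  have hinv : c⁻¹ ∈ A := (A.mem_or_inv_mem c).resolve_left hcA
  have hnon : (⟨c⁻¹, hinv⟩ : A) ∈ IsLocalRing.maximalIdeal A := by
    rw [← ValuationSubring.coe_mem_nonunits_iff]
    exact (A.inv_mem_nonunits_iff).mpr (Or.inr hcA)
  have h1 : G.ρ (G.const ⟨c⁻¹, hinv⟩) = 0 := by
    have := G.ρ_const ⟨c⁻¹, hinv⟩
    rw [(G.π_eq_zero_iff _).mpr hnon, map_zero] at this
    exact this
  have h2 : G.ρ (⟨algebraMap K F c, hc⟩ * G.const ⟨c⁻¹, hinv⟩) = 0 := by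
    rw [map_mul, h1, mul_zero]
  have h3 : (⟨algebraMap K F c, hc⟩ * G.const ⟨c⁻¹, hinv⟩ : G.O) = 1 := by
    apply Subtype.ext
    show algebraMap K F c * algebraMap K F c⁻¹ = 1
    rw [← map_mul, mul_inv_cancel₀ hc0, map_one]
  rw [h3, map_one] at h2
  exact one_ne_zero h2

/-- evaluation at `t ∈ O` of polynomials over `A` -/
def evalO (t : G.O) : A[X] →+* G.O := Polynomial.eval₂RingHom G.const t

theorem coe_evalO (t : G.O) (P : A[X]) :
    ((G.evalO t P : G.O) : F) = aeval (t : F) (P.map (algebraMap A K)) := by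
  have h1 : ((G.evalO t P : G.O) : F) = G.O.subtype (Polynomial.eval₂ G.const t P) := rfl
  rw [h1, Polynomial.hom_eval₂, aeval_def, Polynomial.eval₂_map]
  rfl

theorem ρ_evalO (t : G.O) (P : A[X]) :
    G.ρ (G.evalO t P) = aeval (G.ρ t) (P.map π) := by
  have h1 : G.ρ (G.evalO t P) = G.ρ (Polynomial.eval₂ G.const t P) := rfl
  rw [h1, Polynomial.hom_eval₂, aeval_def, Polynomial.eval₂_map, G.ρ_comp_const]

omit [Field Fk] [Algebra k Fk] [Algebra K F] [Field F] in
/-- Primitive scaling: a nonzero polynomial over `K` is a constant times a polynomial over `A`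
with nonzero reduction. -/
theorem exists_primitive (π : A →+* k) (P : K[X]) (hP : P ≠ 0) :
    ∃ (c : K) (P₁ : A[X]), c ≠ 0 ∧ P = C c * P₁.map (algebraMap A K) ∧ P₁.map π ≠ 0 := by
  classical
  have hsupp : P.support.Nonempty := Polynomial.support_nonempty.mpr hP
  have hc0 : (fun i : P.support => P.coeff i) ≠ 0 := by
    obtain ⟨i, hi⟩ := hsupp
    intro h
    have := congrFun h ⟨i, hi⟩
    exact (Polynomial.mem_support_iff.mp hi) this
  obtain ⟨m, hm0, hm⟩ := exists_scale A (fun i : P.support => P.coeff i) hc0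
  have hcoeff : ∀ i, (C (P.coeff m)⁻¹ * P).coeff i ∈ A := by
    intro i
    rw [coeff_C_mul]
    by_cases hi : i ∈ P.support
    · have := hm ⟨i, hi⟩
      rw [div_eq_inv_mul] at this
      exact this
    · rw [Polynomial.notMem_support_iff.mp hi, mul_zero]
      exact A.zero_mem
  have hl : (C (P.coeff m)⁻¹ * P) ∈ Polynomial.lifts (algebraMap A K) := by
    rw [Polynomial.lifts_iff_coeff_lifts]
    intro i
    exact ⟨⟨_, hcoeff i⟩, rfl⟩
  obtain ⟨P₁, hP₁⟩ := (Polynomial.mem_lifts _).mp hl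
  refine ⟨P.coeff m, P₁, hm0, ?_, ?_⟩
  · rw [hP₁, ← mul_assoc, ← C_mul, mul_inv_cancel₀ hm0, C_1, one_mul]
  · intro h0
    have h1 : (P₁.map π).coeff m = 0 := by rw [h0, coeff_zero]
    rw [coeff_map] at h1
    have h2 : (P₁.coeff m : K) = 1 := by
      have := congrArg (fun Q : K[X] => Q.coeff m) hP₁
      simp only [coeff_map, coeff_C_mul] at this
      rw [inv_mul_cancel₀ hm0] at this
      exact this
    have h3 : P₁.coeff m = 1 := Subtype.ext h2
    rw [h3, map_one] at h1
    exact one_ne_zero h1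

variable {t : F} (ht : t ∈ G.O) (htr : Transcendental k (G.ρ ⟨t, ht⟩))

include htr in
/-- The value at `t` of a polynomial over `A` with nonzero reduction is a unit of `O`. -/
theorem evalO_notMem_nonunits {P : A[X]} (hP : P.map π ≠ 0) :
    ((G.evalO ⟨t, ht⟩ P : G.O) : F) ∉ G.O.nonunits := by
  rw [← G.ρ_eq_zero_iff, G.ρ_evalO]
  intro h
  exact hP (transcendental_iff.mp htr _ h)

include htr in
/-- `ρ` maps `O ∩ K(t)` into `k(t̄)`. -/
theorem rho_mem_adjoin (f : G.O) (hf : (f : F) ∈ K⟮t⟯) : G.ρ f ∈ k⟮G.ρ ⟨t, ht⟩⟯ := by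
  obtain ⟨r, s, hrs⟩ := (mem_adjoin_simple_iff K (f : F)).mp hf
  by_cases hf0 : (f : F) = 0
  · have : f = 0 := Subtype.ext hf0
    rw [this, map_zero]
    exact zero_mem _
  have hr0 : r ≠ 0 := by
    rintro rfl
    rw [map_zero, zero_div] at hrs
    exact hf0 hrs
  have hs0 : s ≠ 0 := by
    rintro rfl
    rw [map_zero, div_zero] at hrs
    exact hf0 hrs
  obtain ⟨cr, r₁, hcr, hr, hr₁⟩ := exists_primitive π r hr0
  obtain ⟨cs, s₁, hcs, hs, hs₁⟩ := exists_primitive π s hs0
  set R₁ : G.O := G.evalO ⟨t, ht⟩ r₁ with hR₁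
  set S₁ : G.O := G.evalO ⟨t, ht⟩ s₁ with hS₁
  have hRu : (R₁ : F) ∉ G.O.nonunits := G.evalO_notMem_nonunits ht htr hr₁
  have hSu : (S₁ : F) ∉ G.O.nonunits := G.evalO_notMem_nonunits ht htr hs₁
  have hRρ : G.ρ R₁ ≠ 0 := fun h => hRu ((G.ρ_eq_zero_iff _).mp h)
  have hSρ : G.ρ S₁ ≠ 0 := fun h => hSu ((G.ρ_eq_zero_iff _).mp h)
  have hR0 : (R₁ : F) ≠ 0 := fun h => hRu (h ▸ G.O.nonunits.zero_mem)
  have hS0 : (S₁ : F) ≠ 0 := fun h => hSu (h ▸ G.O.nonunits.zero_mem)
  -- `f * S₁ = c * R₁` with `c = cr / cs`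
  have hR : aeval t r = algebraMap K F cr * (R₁ : F) := by
    rw [hR₁, G.coe_evalO, hr, map_mul, aeval_C]
  have hS : aeval t s = algebraMap K F cs * (S₁ : F) := by
    rw [hS₁, G.coe_evalO, hs, map_mul, aeval_C]
  have hcs' : algebraMap K F cs ≠ 0 := (_root_.map_ne_zero _).mpr hcs
  have hfc : algebraMap K F (cr / cs) = (f : F) * (S₁ : F) * (R₁ : F)⁻¹ := by
    rw [hrs, hR, hS, map_div₀]
    field_simp
  -- `R₁⁻¹ ∈ O`
  have hRinv : (R₁ : F)⁻¹ ∈ G.O := by
    rcases G.O.mem_or_inv_mem (R₁ : F) with h | h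
    · by_contra hn
      apply hRu
      rw [ValuationSubring.mem_nonunits_iff_or]
      exact Or.inr hn
    · exact h
  have hcO : algebraMap K F (cr / cs) ∈ G.O := by
    rw [hfc]
    exact G.O.mul_mem _ _ (G.O.mul_mem _ _ f.2 S₁.2) hRinv
  have hcA : cr / cs ∈ A := G.mem_of_algebraMap_mem hcO
  -- `f * S₁ = const c * R₁` in `O`
  have hmul : f * S₁ = G.const ⟨cr / cs, hcA⟩ * R₁ := by
    apply Subtype.ext
    show (f : F) * (S₁ : F) = algebraMap K F (cr / cs) * (R₁ : F)
    rw [hfc]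
    field_simp
  have hρ := congrArg G.ρ hmul
  rw [map_mul, map_mul] at hρ
  have hρf : G.ρ f = G.ρ (G.const ⟨cr / cs, hcA⟩) * G.ρ R₁ * (G.ρ S₁)⁻¹ := by
    rw [← hρ]
    field_simp
  rw [hρf]
  have h1 : G.ρ (G.const ⟨cr / cs, hcA⟩) ∈ k⟮G.ρ ⟨t, ht⟩⟯ := by
    have := G.ρ_const ⟨cr / cs, hcA⟩
    have h' : G.ρ (G.const ⟨cr / cs, hcA⟩) = algebraMap k Fk (π ⟨cr / cs, hcA⟩) := this
    rw [h']
    exact IntermediateField.algebraMap_mem _ _
  have h2 : ∀ P : A[X], G.ρ (G.evalO ⟨t, ht⟩ P) ∈ k⟮G.ρ ⟨t, ht⟩⟯ := by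
    intro P
    rw [G.ρ_evalO]
    exact (mem_adjoin_simple_iff k _).mpr ⟨P.map π, 1, by simp⟩
  exact mul_mem (mul_mem h1 (h2 r₁)) (inv_mem (h2 s₁))

/-- `V₀ = O ∩ K(t)`, a valuation subring of `K(t)`. -/
def V₀ (t : F) : ValuationSubring K⟮t⟯ := G.O.comap (algebraMap K⟮t⟯ F)

theorem valExtends (t : F) : ValExtends (G.V₀ t) G.O := fun _ => Iff.rfl

/-- the inclusion `V₀ → O` -/
def incl (t : F) : G.V₀ t →+* G.O where
  toFun a := ⟨algebraMap K⟮t⟯ F (a : K⟮t⟯), a.2⟩
  map_one' := Subtype.ext (by simp)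
  map_mul' a b := Subtype.ext (by simp)
  map_zero' := Subtype.ext (by simp)
  map_add' a b := Subtype.ext (by simp)

@[simp] theorem coe_incl (t : F) (a : G.V₀ t) :
    ((G.incl t a : G.O) : F) = ((a : K⟮t⟯) : F) := rfl

/-- the reduction `ρ₀ : O ∩ K(t) → k(t̄)` -/
def ρ₀ : G.V₀ t →+* k⟮G.ρ ⟨t, ht⟩⟯ :=
  RingHom.codRestrict (G.ρ.comp (G.incl t)) k⟮G.ρ ⟨t, ht⟩⟯
    (fun f => G.rho_mem_adjoin ht htr (G.incl t f) (by rw [coe_incl]; exact (f : K⟮t⟯).2))

theorem coe_ρ₀ (a : G.V₀ t) : ((G.ρ₀ ht htr a : k⟮G.ρ ⟨t, ht⟩⟯) : Fk) = G.ρ (G.incl t a) := rfl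

include htr in
/-- **Norms commute with reduction** (RED-A1). -/
theorem norm_red [FiniteDimensional K⟮t⟯ F] [FiniteDimensional k⟮G.ρ ⟨t, ht⟩⟯ Fk]
    (hfr : Module.finrank K⟮t⟯ F = Module.finrank k⟮G.ρ ⟨t, ht⟩⟯ Fk) (y : G.O) :
    ∃ h : ((Algebra.norm K⟮t⟯ (y : F) : K⟮t⟯) : F) ∈ G.O,
      G.ρ ⟨_, h⟩ = ((Algebra.norm k⟮G.ρ ⟨t, ht⟩⟯ (G.ρ y) : k⟮G.ρ ⟨t, ht⟩⟯) : Fk) := by
  classical
  set b₁ := Module.finBasis k⟮G.ρ ⟨t, ht⟩⟯ Fk with hb₁def
  choose e he using fun i => G.ρ_surj (b₁ i)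
  have hR : ResidIndep (G.V₀ t) G.O (fun i => ((e i : G.O) : F)) := by
    intro c hc hsum
    -- the element `s = ∑ incl (c i) * e i` of `O`
    set s : G.O := ∑ i, G.incl t ⟨c i, hc i⟩ * e i with hs
    have hsF : (s : F) = ∑ i, c i • ((e i : G.O) : F) := by
      rw [hs, ← ValuationSubring.subtype_apply, map_sum]
      refine Finset.sum_congr rfl fun i _ => ?_
      rw [map_mul, Algebra.smul_def]
      rfl
    have hρs : G.ρ s = 0 := by
      rw [G.ρ_eq_zero_iff, hsF]
      exact hsum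
    have hρs' : ∑ i, G.ρ₀ ht htr ⟨c i, hc i⟩ • b₁ i = 0 := by
      rw [← hρs, hs, map_sum]
      refine Finset.sum_congr rfl fun i _ => ?_
      rw [map_mul, he, Algebra.smul_def]
      rfl
    have hzero := Fintype.linearIndependent_iff.mp b₁.linearIndependent _ hρs'
    intro i
    have h1 : G.ρ (G.incl t ⟨c i, hc i⟩) = 0 := by
      have := congrArg (fun z : k⟮G.ρ ⟨t, ht⟩⟯ => (z : Fk)) (hzero i)
      simpa [coe_ρ₀] using this
    rw [G.ρ_eq_zero_iff, coe_incl] at h1
    exact ((G.valExtends t).mem_nonunits_iff (c i)).mp h1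
  have : Nonempty (Fin (Module.finrank k⟮G.ρ ⟨t, ht⟩⟯ Fk)) :=
    ⟨⟨0, Module.finrank_pos⟩⟩
  obtain ⟨b, hb⟩ := exists_basis_of_residIndep hR (by rw [Fintype.card_fin, hfr])
  have hbi : ∀ i, b i = ((e i : G.O) : F) := fun i => congrFun hb i
  have hR' : ResidIndep (G.V₀ t) G.O b := by rw [hb]; exact hR
  have hbO : ∀ i, b i ∈ G.O := fun i => by rw [hbi]; exact (e i).2
  have key := map_norm_eq_norm_map (G.valExtends t) b hR' hbO (G.ρ₀ ht htr) G.ρ
    (fun a => rfl) b₁ (fun i => by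
      have : (⟨b i, hbO i⟩ : G.O) = e i := Subtype.ext (hbi i)
      rw [this, he]) y
  refine ⟨norm_mem (G.valExtends t) b hR' hbO y.2, ?_⟩
  have := congrArg (fun z : k⟮G.ρ ⟨t, ht⟩⟯ => (z : Fk)) key
  exact this

include htr in
/-- **Traces commute with reduction.** -/
theorem trace_red [FiniteDimensional K⟮t⟯ F] [FiniteDimensional k⟮G.ρ ⟨t, ht⟩⟯ Fk]
    (hfr : Module.finrank K⟮t⟯ F = Module.finrank k⟮G.ρ ⟨t, ht⟩⟯ Fk) (y : G.O) :
    ∃ h : ((Algebra.trace K⟮t⟯ F (y : F) : K⟮t⟯) : F) ∈ G.O,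
      G.ρ ⟨_, h⟩ = ((Algebra.trace k⟮G.ρ ⟨t, ht⟩⟯ Fk (G.ρ y) : k⟮G.ρ ⟨t, ht⟩⟯) : Fk) := by
  classical
  set b₁ := Module.finBasis k⟮G.ρ ⟨t, ht⟩⟯ Fk with hb₁def
  choose e he using fun i => G.ρ_surj (b₁ i)
  have hR : ResidIndep (G.V₀ t) G.O (fun i => ((e i : G.O) : F)) := by
    intro c hc hsum
    set s : G.O := ∑ i, G.incl t ⟨c i, hc i⟩ * e i with hs
    have hsF : (s : F) = ∑ i, c i • ((e i : G.O) : F) := by
      rw [hs, ← ValuationSubring.subtype_apply, map_sum]
      refine Finset.sum_congr rfl fun i _ => ?_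
      rw [map_mul, Algebra.smul_def]
      rfl
    have hρs : G.ρ s = 0 := by
      rw [G.ρ_eq_zero_iff, hsF]
      exact hsum
    have hρs' : ∑ i, G.ρ₀ ht htr ⟨c i, hc i⟩ • b₁ i = 0 := by
      rw [← hρs, hs, map_sum]
      refine Finset.sum_congr rfl fun i _ => ?_
      rw [map_mul, he, Algebra.smul_def]
      rfl
    have hzero := Fintype.linearIndependent_iff.mp b₁.linearIndependent _ hρs'
    intro i
    have h1 : G.ρ (G.incl t ⟨c i, hc i⟩) = 0 := by
      have := congrArg (fun z : k⟮G.ρ ⟨t, ht⟩⟯ => (z : Fk)) (hzero i)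
      simpa [coe_ρ₀] using this
    rw [G.ρ_eq_zero_iff, coe_incl] at h1
    exact ((G.valExtends t).mem_nonunits_iff (c i)).mp h1
  have : Nonempty (Fin (Module.finrank k⟮G.ρ ⟨t, ht⟩⟯ Fk)) :=
    ⟨⟨0, Module.finrank_pos⟩⟩
  obtain ⟨b, hb⟩ := exists_basis_of_residIndep hR (by rw [Fintype.card_fin, hfr])
  have hbi : ∀ i, b i = ((e i : G.O) : F) := fun i => congrFun hb i
  have hR' : ResidIndep (G.V₀ t) G.O b := by rw [hb]; exact hR
  have hbO : ∀ i, b i ∈ G.O := fun i => by rw [hbi]; exact (e i).2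
  have key := map_trace_intMatrix_eq_trace_map (G.valExtends t) b hR' hbO (G.ρ₀ ht htr) G.ρ
    (fun a => rfl) b₁ (fun i => by
      have : (⟨b i, hbO i⟩ : G.O) = e i := Subtype.ext (hbi i)
      rw [this, he]) y
  have htr' := trace_eq_trace_intMatrix (G.valExtends t) b hR' hbO y
  have hmem : ((Algebra.trace K⟮t⟯ F (y : F) : K⟮t⟯) : F) ∈ G.O := by
    rw [htr']
    exact ((intMatrix (G.valExtends t) b hR' hbO y).trace).2
  refine ⟨hmem, ?_⟩
  have h2 : (⟨((Algebra.trace K⟮t⟯ F (y : F) : K⟮t⟯) : F), hmem⟩ : G.O) =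
      G.incl t (intMatrix (G.valExtends t) b hR' hbO y).trace := by
    apply Subtype.ext
    rw [coe_incl, ← htr']
  rw [h2, ← key]
  rfl

end RedCtx

end Fermat.Agent.S37.H217

end
-- ===== PACK-END S37/H217/NormRed.lean

-- ===== PACK-BEGIN S37/Red/H759/Passage.lean
section
/-
S37-RED, piece E4(c) "passage R_E → A" for (H3) (helper759).  Mathlib + Prelude only.

`A ⊆ Q̄` a valuation subring, `k = A/𝔪`.  The number fields `E ⊆ Q̄` form a directed family,
`A = ⋃ (A ∩ E)`, `k = ⋃ κ_E` (`κ_E` = image of `A ∩ E` in `k`).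

* `constk A E`  : the constants of `k((q))` coming from `A ∩ E`   (`= κ_E ⊆ k((q))`)
* `constA A E`  : the constants of `Q̄((q))` coming from `A ∩ E`
* `constE E`    : the constants of `Q̄((q))` coming from `E`
* `exists_numberField_k` : `c ∈ F_{N,k}` integral over `k[s]` ⟹ for some number field `E ⊇ E₀`:
      `c ∈ κ_E(j(q^d) : d ∣ N)` and `c` is integral over `κ_E[s]`.
* `exists_numberField_A` : `b ∈ F_N` integral over `A[t]` ⟹ for some number field `E ⊇ E₀`:
      `b ∈ E(j(q^d) : d ∣ N)` and `b` is integral over `(A ∩ E)[t]`.      (`B_A = ⋃ B_{R_E}`)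
* `LiftAtLevel N A E t s` : (H3) at the level of a number field `E` (normality of the special fibre
      of the model over the DVR `A ∩ E`), in `q`-expansion language.
* `lift_of_levels` : (H3) for all number fields ⟹ (H3) over `A`.
-/




set_option autoImplicit false

noncomputable section

namespace Fermat.Agent.S37.Red.H759

open ModularCurve HahnSeries IsLocalRing IntermediateField

/-- `Q̄` -/
abbrev Qbar : Type := AlgebraicClosure ℚ

/-- The index set: number fields inside `Q̄`. -/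
abbrev NumberFieldIn : Type := {E : IntermediateField ℚ Qbar // FiniteDimensional ℚ E}

instance : Nonempty NumberFieldIn :=
  ⟨⟨⊥, inferInstanceAs (FiniteDimensional ℚ (⊥ : IntermediateField ℚ Qbar))⟩⟩

instance : IsDirected NumberFieldIn (· ≤ ·) :=
  ⟨fun E E' => by
    have := E.2
    have := E'.2
    exact ⟨⟨E.1 ⊔ E'.1, IntermediateField.finiteDimensional_sup E.1 E'.1⟩,
      (le_sup_left : E.1 ≤ E.1 ⊔ E'.1), (le_sup_right : E'.1 ≤ E.1 ⊔ E'.1)⟩⟩

/-- every element of `Q̄` lies in a number field -/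
theorem exists_numberField_mem (a : Qbar) : ∃ E : NumberFieldIn, a ∈ E.1 := by
  have halg : Algebra.IsAlgebraic ℚ Qbar := AlgebraicClosure.isAlgebraic ℚ
  have ha : IsIntegral ℚ a := (halg.isAlgebraic a).isIntegral
  exact ⟨⟨ℚ⟮a⟯, IntermediateField.adjoin.finiteDimensional ha⟩,
    IntermediateField.mem_adjoin_simple_self ℚ a⟩

variable (A : ValuationSubring Qbar)

/-- the constants of `k((q))` coming from `A ∩ E` -/
def constk (E : IntermediateField ℚ Qbar) : Set (LaurentSeries (ResidueField A)) :=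
  {c | ∃ a : A, (a : Qbar) ∈ E ∧
    c = algebraMap (ResidueField A) (LaurentSeries (ResidueField A)) (residue A a)}

/-- the constants of `Q̄((q))` coming from `A ∩ E` -/
def constA (E : IntermediateField ℚ Qbar) : Set (LaurentSeries Qbar) :=
  {c | ∃ a : A, (a : Qbar) ∈ E ∧ c = algebraMap Qbar (LaurentSeries Qbar) (a : Qbar)}

/-- the constants of `Q̄((q))` coming from `E` -/
def constE (E : IntermediateField ℚ Qbar) : Set (LaurentSeries Qbar) :=
  {c | ∃ a : Qbar, a ∈ E ∧ c = algebraMap Qbar (LaurentSeries Qbar) a}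

/-- all constants of `Q̄((q))` coming from `A` -/
def constAll : Set (LaurentSeries Qbar) :=
  {c | ∃ a : A, c = algebraMap Qbar (LaurentSeries Qbar) (a : Qbar)}

theorem constk_mono : Monotone fun E : NumberFieldIn => constk A E.1 := by
  rintro E E' h c ⟨a, ha, rfl⟩
  exact ⟨a, h ha, rfl⟩

theorem constA_mono : Monotone fun E : NumberFieldIn => constA A E.1 := by
  rintro E E' h c ⟨a, ha, rfl⟩
  exact ⟨a, h ha, rfl⟩

theorem constE_mono : Monotone fun E : NumberFieldIn => constE E.1 := by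
  rintro E E' h c ⟨a, ha, rfl⟩
  exact ⟨a, h ha, rfl⟩

theorem constA_subset_constAll (E : IntermediateField ℚ Qbar) : constA A E ⊆ constAll A := by
  rintro c ⟨a, -, rfl⟩
  exact ⟨a, rfl⟩

theorem constA_subset_constE (E : IntermediateField ℚ Qbar) : constA A E ⊆ constE E := by
  rintro c ⟨a, ha, rfl⟩
  exact ⟨a, ha, rfl⟩

theorem range_subset_iUnion_constk :
    Set.range (algebraMap (ResidueField A) (LaurentSeries (ResidueField A))) ⊆
      ⋃ E : NumberFieldIn, constk A E.1 := by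
  rintro c ⟨x, rfl⟩
  obtain ⟨a, rfl⟩ := IsLocalRing.residue_surjective x
  obtain ⟨E, hE⟩ := exists_numberField_mem (a : Qbar)
  exact Set.mem_iUnion.mpr ⟨E, a, hE, rfl⟩

theorem constAll_subset_iUnion_constA :
    constAll A ⊆ ⋃ E : NumberFieldIn, constA A E.1 := by
  rintro c ⟨a, rfl⟩
  obtain ⟨E, hE⟩ := exists_numberField_mem (a : Qbar)
  exact Set.mem_iUnion.mpr ⟨E, a, hE, rfl⟩

theorem range_subset_iUnion_constE :
    Set.range (algebraMap Qbar (LaurentSeries Qbar)) ⊆ ⋃ E : NumberFieldIn, constE E.1 := by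
  rintro c ⟨a, rfl⟩
  obtain ⟨E, hE⟩ := exists_numberField_mem a
  exact Set.mem_iUnion.mpr ⟨E, a, hE, rfl⟩

/-- **Finite level in characteristic `ℓ`.**  An element of `F_{N,k}` integral over `k[s]` lies in
`κ_E(j(q^d) : d ∣ N)` and is integral over `κ_E[s]`, for some number field `E ⊇ E₀`. -/
theorem exists_numberField_k (N : ℕ) (s : LaurentSeries (ResidueField A))
    (E₀ : NumberFieldIn) {c : LaurentSeries (ResidueField A)}
    (hc : c ∈ modularFunctionFieldFullC (ResidueField A) N)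
    (hint : IsIntegral (Subring.closure
      (Set.range (algebraMap (ResidueField A) (LaurentSeries (ResidueField A))) ∪ {s})) c) :
    ∃ E : NumberFieldIn, E₀ ≤ E ∧
      c ∈ Subfield.closure (constk A E.1 ∪ divisorExpansionsC (ResidueField A) N) ∧
      IsIntegral (Subring.closure (constk A E.1 ∪ {s})) c :=
  exists_level_ge (fun E : NumberFieldIn => constk A E.1) (constk_mono A)
    (divisorExpansionsC (ResidueField A) N) {s} (range_subset_iUnion_constk A) E₀ hc hint

/-- **Finite level in characteristic `0`** (`B_A = ⋃ B_{R_E}`).  An element of `F_N` integral over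
`A[t]` lies in `E(j(q^d) : d ∣ N)` and is integral over `(A ∩ E)[t]`, for some number field
`E ⊇ E₀`. -/
theorem exists_numberField_A (N : ℕ) (t : LaurentSeries Qbar)
    (E₀ : NumberFieldIn) {b : LaurentSeries Qbar}
    (hb : b ∈ Subfield.closure (Set.range (algebraMap Qbar (LaurentSeries Qbar)) ∪
      divisorExpansionsC Qbar N))
    (hint : IsIntegral (Subring.closure (constAll A ∪ {t})) b) :
    ∃ E : NumberFieldIn, E₀ ≤ E ∧
      b ∈ Subfield.closure (constE E.1 ∪ divisorExpansionsC Qbar N) ∧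
      IsIntegral (Subring.closure (constA A E.1 ∪ {t})) b := by
  obtain ⟨E₁, h₁⟩ := exists_mem_subfield_closure (fun E : NumberFieldIn => constE E.1)
    (directed_of_monotone _ constE_mono) (divisorExpansionsC Qbar N)
    range_subset_iUnion_constE hb
  obtain ⟨E₂, h₂⟩ := exists_isIntegral (fun E : NumberFieldIn => constA A E.1)
    (directed_of_monotone _ (constA_mono A)) {t} (constAll_subset_iUnion_constA A) hint
  obtain ⟨E₃, h₁₃, h₂₃⟩ := exists_ge_ge E₁ E₂
  obtain ⟨E, h₃, h₀⟩ := exists_ge_ge E₃ E₀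
  refine ⟨E, h₀, ?_, ?_⟩
  · exact Subfield.closure_mono
      (Set.union_subset_union_left _ (constE_mono (h₁₃.trans h₃))) h₁
  · exact isIntegral_subring_mono (Subring.closure_mono
      (Set.union_subset_union_left _ (constA_mono A (h₂₃.trans h₃)))) h₂

/-- **(H3) at the level of a number field `E`** (finite chart w.r.t. the coordinate `t`, with
reduction `s`): every element of `κ_E(j(q^d) : d ∣ N)` integral over `κ_E[s]` is the
coefficientwise reduction of a series `U ∈ A((q))` lying in `F_N` and integral over `A[t]`.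
(Producers over the DVR `R = A ∩ E` prove more: `U ∈ R((q))`, `U ∈ E(j(q^d))`, integral over
`R[t]`; see `LiftAtLevel.of_strong`.) -/
def LiftAtLevel (N : ℕ) (E : IntermediateField ℚ Qbar) (t : LaurentSeries Qbar)
    (s : LaurentSeries (ResidueField A)) : Prop :=
  ∀ c : LaurentSeries (ResidueField A),
    c ∈ Subfield.closure (constk A E ∪ divisorExpansionsC (ResidueField A) N) →
    IsIntegral (Subring.closure (constk A E ∪ {s})) c →
    ∃ U : LaurentSeries A, coeffMap A.subtype U ∈ modularFunctionFieldBar N ∧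
      IsIntegral (Subring.closure (constAll A ∪ {t})) (coeffMap A.subtype U) ∧
      coeffMap (residue A) U = c

/-- The strong form of (H3) at level `E` (what the model over the DVR `A ∩ E` gives). -/
def StrongLiftAtLevel (N : ℕ) (E : IntermediateField ℚ Qbar) (t : LaurentSeries Qbar)
    (s : LaurentSeries (ResidueField A)) : Prop :=
  ∀ c : LaurentSeries (ResidueField A),
    c ∈ Subfield.closure (constk A E ∪ divisorExpansionsC (ResidueField A) N) →
    IsIntegral (Subring.closure (constk A E ∪ {s})) c →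
    ∃ U : LaurentSeries A, (∀ n : ℤ, ((U.coeff n : A) : Qbar) ∈ E) ∧
      coeffMap A.subtype U ∈ Subfield.closure (constE E ∪ divisorExpansionsC Qbar N) ∧
      IsIntegral (Subring.closure (constA A E ∪ {t})) (coeffMap A.subtype U) ∧
      coeffMap (residue A) U = c

/-- **Passage `R_E → A` for (H3)**: (H3) at the level of all number fields `E ⊇ E₀` gives (H3)
over `A`: every element of `F_{N,k}` integral over `k[s]` is the coefficientwise reduction of a
series `U ∈ A((q))` lying in `F_N` and integral over `A[t]`. -/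
theorem lift_of_levels (N : ℕ) (t : LaurentSeries Qbar) (s : LaurentSeries (ResidueField A))
    (E₀ : NumberFieldIn) (h : ∀ E : NumberFieldIn, E₀ ≤ E → LiftAtLevel A N E.1 t s)
    {c : LaurentSeries (ResidueField A)}
    (hc : c ∈ modularFunctionFieldFullC (ResidueField A) N)
    (hint : IsIntegral (Subring.closure
      (Set.range (algebraMap (ResidueField A) (LaurentSeries (ResidueField A))) ∪ {s})) c) :
    ∃ U : LaurentSeries A, coeffMap A.subtype U ∈ modularFunctionFieldBar N ∧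
      IsIntegral (Subring.closure (constAll A ∪ {t})) (coeffMap A.subtype U) ∧
      coeffMap (residue A) U = c := by
  obtain ⟨E, hE, hcE, hintE⟩ := exists_numberField_k A N s E₀ hc hint
  exact h E hE c hcE hintE

theorem subfield_closure_constE_le (N : ℕ) (E : IntermediateField ℚ Qbar) :
    Subfield.closure (constE E ∪ divisorExpansionsC Qbar N) ≤
      (modularFunctionFieldFullC Qbar N).toSubfield := by
  rw [Subfield.closure_le]
  rintro x (⟨a, -, rfl⟩ | hx)
  · exact (modularFunctionFieldFullC Qbar N).algebraMap_mem a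
  · exact IntermediateField.subset_adjoin _ _ hx

end Fermat.Agent.S37.Red.H759

end

end
-- ===== PACK-END S37/Red/H759/Passage.lean

-- ===== PACK-BEGIN S37/H340/KronTwist.lean
section


/-!
# S37 / R3-K : twists `q ↦ ζ q` and the product formula (helper340)

* `twHom ℓ ζ hζ : R((q)) →+* R((q))`, `f(q) ↦ f(ζ q)` for `ζ ^ ℓ = 1`
  (coefficientwise `aₙ ↦ ζ ^ (n mod ℓ) aₙ`);
* `twHom_qExpand` : it fixes `R((q^ℓ))`;
* `kron_map_qExpand_eq_prod` : over a domain with a primitive `ℓ`-th root of unity `ζ`,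
  `(kron ℓ f).map V = ∏_{b < ℓ} (Y - f(ζ^b q))`.
-/

set_option autoImplicit false

noncomputable section

namespace Fermat.Agent.S37.H340

open ModularCurve Polynomial Matrix

variable {R : Type*} [CommRing R] (ℓ : ℕ) [NeZero ℓ]

/-- `ζ ^ (k mod ℓ)` for an integer exponent `k`. -/
def zpw (ζ : R) (k : ℤ) : R := ζ ^ (k % (ℓ : ℤ)).toNat

variable {ℓ}

lemma zpw_natCast {ζ : R} (hζ : ζ ^ ℓ = 1) (n : ℕ) : zpw ℓ ζ (n : ℤ) = ζ ^ n := by
  have hℓ : (ℓ : ℤ) ≠ 0 := by exact_mod_cast NeZero.ne ℓ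
  unfold zpw
  have h1 : ((n : ℤ) % (ℓ : ℤ)).toNat = n % ℓ := by
    have : ((n : ℤ) % (ℓ : ℤ)) = ((n % ℓ : ℕ) : ℤ) := by push_cast; rfl
    rw [this, Int.toNat_natCast]
  rw [h1]
  conv_rhs => rw [← Nat.div_add_mod n ℓ, _root_.pow_add, pow_mul, hζ, one_pow, one_mul]

lemma zpw_add {ζ : R} (hζ : ζ ^ ℓ = 1) (i j : ℤ) :
    zpw ℓ ζ (i + j) = zpw ℓ ζ i * zpw ℓ ζ j := by
  have hℓ : (0 : ℤ) < ℓ := by exact_mod_cast Nat.pos_of_ne_zero (NeZero.ne ℓ)
  unfold zpw
  rw [← _root_.pow_add]
  have hi0 := Int.emod_nonneg i hℓ.ne'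
  have hj0 := Int.emod_nonneg j hℓ.ne'
  have hij0 := Int.emod_nonneg (i + j) hℓ.ne'
  -- (i % ℓ + j % ℓ) and (i+j) % ℓ differ by 0 or ℓ
  have key : ((i % ℓ).toNat + (j % ℓ).toNat) % ℓ = ((i + j) % (ℓ : ℤ)).toNat := by
    have : (((i % ℓ).toNat + (j % ℓ).toNat : ℕ) : ℤ) % ℓ = (i + j) % ℓ := by
      push_cast
      rw [Int.toNat_of_nonneg hi0, Int.toNat_of_nonneg hj0, ← Int.add_emod]
    have h2 : ((((i % ℓ).toNat + (j % ℓ).toNat) % ℓ : ℕ) : ℤ) = (i + j) % ℓ := by
      rw [← this]; push_cast; rfl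
    have := congrArg Int.toNat h2
    rwa [Int.toNat_natCast] at this
  rw [← key]
  conv_rhs => rw [← Nat.div_add_mod ((i % ℓ).toNat + (j % ℓ).toNat) ℓ, _root_.pow_add, pow_mul,
    hζ, one_pow, one_mul]

omit [NeZero ℓ] in
lemma zpw_mul_left {ζ : R} (n : ℤ) : zpw ℓ ζ ((ℓ : ℤ) * n) = 1 := by
  unfold zpw
  simp

omit [NeZero ℓ] in
lemma zpw_zero {ζ : R} : zpw ℓ ζ 0 = 1 := by
  unfold zpw
  simp

variable (ℓ)

/-- The twist `f(q) ↦ f(ζ q)` as a function (needs `ζ ^ ℓ = 1` only for good properties). -/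
def tw (ζ : R) (f : LaurentSeries R) : LaurentSeries R :=
  HahnSeries.ofSuppBddBelow (fun n : ℤ => zpw ℓ ζ n * f.coeff n) <| by
    obtain ⟨b, hb⟩ := exists_coeff_eq_zero_of_lt f
    refine ⟨b, fun m hm => ?_⟩
    by_contra hlt
    rw [not_le] at hlt
    exact hm (by simp [hb m hlt])

omit [NeZero ℓ] in
@[simp]
lemma tw_coeff (ζ : R) (f : LaurentSeries R) (n : ℤ) :
    (tw ℓ ζ f).coeff n = zpw ℓ ζ n * f.coeff n := by
  simp [tw]

omit [NeZero ℓ] in
lemma tw_support_subset (ζ : R) (f : LaurentSeries R) : (tw ℓ ζ f).support ⊆ f.support := by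
  intro n hn
  rw [HahnSeries.mem_support] at hn ⊢
  intro h
  exact hn (by simp [h])

variable {ℓ}

omit [NeZero ℓ] in
lemma coeff_mul_of_subsets {x y : LaurentSeries R} {s t : Set ℤ} (hs : s.IsPWO) (ht : t.IsPWO)
    (hxs : x.support ⊆ s) (hyt : y.support ⊆ t) (a : ℤ) :
    (x * y).coeff a = ∑ ij ∈ Finset.antidiagonal hs ht a, x.coeff ij.1 * y.coeff ij.2 := by
  rw [HahnSeries.coeff_mul_left' hs hxs]
  refine Finset.sum_subset (Finset.antidiagonal_mono_right hyt) fun ij hij hnot => ?_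
  have h1 := Finset.mem_antidiagonal.mp hij
  have h2 : ij.2 ∉ y.support := fun h => hnot (Finset.mem_antidiagonal.mpr ⟨h1.1, h, h1.2.2⟩)
  rw [HahnSeries.mem_support, not_not] at h2
  rw [h2, mul_zero]

lemma tw_mul {ζ : R} (hζ : ζ ^ ℓ = 1) (f g : LaurentSeries R) :
    tw ℓ ζ (f * g) = tw ℓ ζ f * tw ℓ ζ g := by
  ext a
  rw [tw_coeff, HahnSeries.coeff_mul,
    coeff_mul_of_subsets f.isPWO_support g.isPWO_support (tw_support_subset ℓ ζ f)
      (tw_support_subset ℓ ζ g), Finset.mul_sum]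
  refine Finset.sum_congr rfl fun ij hij => ?_
  have hsum : ij.1 + ij.2 = a := (Finset.mem_antidiagonal.mp hij).2.2
  rw [tw_coeff, tw_coeff, ← hsum, zpw_add hζ]
  ring

variable (ℓ) in
/-- The twist `f(q) ↦ f(ζ q)` as a ring homomorphism. -/
def twHom (ζ : R) (hζ : ζ ^ ℓ = 1) : LaurentSeries R →+* LaurentSeries R where
  toFun := tw ℓ ζ
  map_one' := by
    ext n
    rw [tw_coeff, HahnSeries.coeff_one]
    split_ifs with h
    · subst h; simp [zpw_zero]
    · simp
  map_mul' := tw_mul hζ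
  map_zero' := by ext n; simp
  map_add' f g := by ext n; simp [mul_add]

@[simp]
lemma twHom_apply {ζ : R} (hζ : ζ ^ ℓ = 1) (f : LaurentSeries R) :
    twHom ℓ ζ hζ f = tw ℓ ζ f := rfl

lemma twHom_coeff {ζ : R} (hζ : ζ ^ ℓ = 1) (f : LaurentSeries R) (n : ℤ) :
    (twHom ℓ ζ hζ f).coeff n = zpw ℓ ζ n * f.coeff n := tw_coeff ℓ ζ f n

/-- The twist fixes `R((q^ℓ))`. -/
lemma tw_qExpand (ζ : R) (g : LaurentSeries R) :
    tw ℓ ζ (qExpand R ℓ g) = qExpand R ℓ g := by
  ext n
  rw [tw_coeff]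
  by_cases h : (ℓ : ℤ) ∣ n
  · obtain ⟨m, rfl⟩ := h
    rw [zpw_mul_left, one_mul]
  · rw [qExpand_coeff_of_not_dvd ℓ g h, mul_zero]

lemma tw_qq_pow {ζ : R} (hζ : ζ ^ ℓ = 1) (n : ℕ) :
    tw ℓ ζ ((qq : LaurentSeries R) ^ n) = HahnSeries.C (ζ ^ n) * (qq : LaurentSeries R) ^ n := by
  ext k
  rw [tw_coeff, qq_pow, HahnSeries.C_mul_eq_smul, HahnSeries.coeff_smul, HahnSeries.coeff_single]
  split_ifs with h
  · subst h; rw [zpw_natCast hζ]; simp
  · simp

omit [NeZero ℓ] in
/-- `tw` by a power of `ζ`. -/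
lemma pow_pow_eq_one {ζ : R} (hζ : ζ ^ ℓ = 1) (b : ℕ) : (ζ ^ b) ^ ℓ = 1 := by
  rw [← pow_mul, mul_comm, pow_mul, hζ, one_pow]

/-- If `P * M = D * P` with `det P ≠ 0` over a domain, then `M` and `D` have the same
characteristic polynomial. -/
lemma charpoly_eq_of_intertwine {S : Type*} [CommRing S] [IsDomain S] {n : Type*} [Fintype n]
    [DecidableEq n] (P M D : Matrix n n S) (hPM : P * M = D * P) (hdet : P.det ≠ 0) :
    M.charpoly = D.charpoly := by
  have hscal : (P.map C) * Matrix.scalar n (X : S[X]) = Matrix.scalar n (X : S[X]) * (P.map C) :=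
    ((Matrix.scalar_commute (X : S[X]) (fun r' => Commute.all _ _)) (P.map C)).eq.symm
  have hmap : (P.map C) * (M.map C) = (D.map C) * (P.map (C : S →+* S[X])) := by
    rw [← Matrix.map_mul, ← Matrix.map_mul, hPM]
  have hchar : (P.map C) * charmatrix M = charmatrix D * (P.map C) := by
    rw [charmatrix, charmatrix, Matrix.mul_sub, Matrix.sub_mul, hscal]
    congr 1
  have hdets := congrArg Matrix.det hchar
  rw [Matrix.det_mul, Matrix.det_mul] at hdets
  have hPC : (P.map (C : S →+* S[X])).det ≠ 0 := by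
    have : (P.map (C : S →+* S[X])).det = C P.det := by
      rw [← RingHom.mapMatrix_apply, ← RingHom.map_det]
    rw [this]
    exact (map_ne_zero_iff _ C_injective).mpr hdet
  rw [mul_comm (charmatrix D).det] at hdets
  exact mul_left_cancel₀ hPC hdets

/-- the nodes `ζ^b q` -/
def node (ζ : R) (b : Fin ℓ) : LaurentSeries R :=
  HahnSeries.C (ζ ^ (b : ℕ)) * (qq : LaurentSeries R)

lemma vandermonde_mul_kronMat {ζ : R} (hζ : ζ ^ ℓ = 1) (f : LaurentSeries R) :
    Matrix.vandermonde (node (ℓ := ℓ) ζ) * (kronMat ℓ f).map (qExpand R ℓ) =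
      Matrix.diagonal (fun b : Fin ℓ => tw ℓ (ζ ^ (b : ℕ)) f) * Matrix.vandermonde (node ζ) := by
  ext b j
  rw [Matrix.mul_apply, Matrix.diagonal_mul]
  simp only [Matrix.vandermonde_apply, Matrix.map_apply, node]
  have hb : (ζ ^ (b : ℕ)) ^ ℓ = 1 := pow_pow_eq_one hζ b
  have h1 := congrArg (tw ℓ (ζ ^ (b : ℕ))) (qq_pow_mul_eq_sum ℓ f j)
  rw [tw_mul hb, tw_qq_pow hb] at h1
  have h2 : tw ℓ (ζ ^ (b : ℕ))
      (∑ i : Fin ℓ, (qq : LaurentSeries R) ^ (i : ℕ) * qExpand R ℓ (kronMat ℓ f i j)) =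
      ∑ i : Fin ℓ, (HahnSeries.C ((ζ ^ (b : ℕ)) ^ (i : ℕ)) * (qq : LaurentSeries R) ^ (i : ℕ))
        * qExpand R ℓ (kronMat ℓ f i j) := by
    rw [← twHom_apply hb, map_sum]
    refine Finset.sum_congr rfl fun i _ => ?_
    rw [map_mul, twHom_apply, twHom_apply, tw_qq_pow hb, tw_qExpand]
  rw [h2] at h1
  simp only [mul_pow, ← map_pow]
  rw [← h1]
  ring_nf

omit [NeZero ℓ] in
lemma node_injective [IsDomain R] {ζ : R} (hζ : IsPrimitiveRoot ζ ℓ) :
    Function.Injective (node (ℓ := ℓ) ζ) := by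
  intro b b' hbb'
  have hq : (qq : LaurentSeries R) ≠ 0 := by
    rw [qq]; exact HahnSeries.single_ne_zero one_ne_zero
  have h1 : HahnSeries.C (ζ ^ (b : ℕ)) = (HahnSeries.C (ζ ^ (b' : ℕ)) : LaurentSeries R) :=
    mul_right_cancel₀ hq hbb'
  have h2 : ζ ^ (b : ℕ) = ζ ^ (b' : ℕ) := HahnSeries.C_injective h1
  exact Fin.ext (hζ.pow_inj b.2 b'.2 h2)

/-- **Product formula**: over a domain containing a primitive `ℓ`-th root of unity `ζ`, the
Kronecker polynomial (with coefficients pushed to `R((q^ℓ))`) is `∏_b (Y - f(ζ^b q))`. -/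
theorem kron_map_qExpand_eq_prod [IsDomain R] {ζ : R} (hζ : IsPrimitiveRoot ζ ℓ)
    (f : LaurentSeries R) :
    (kron ℓ f).map (qExpand R ℓ) =
      ∏ b : Fin ℓ, (X - Polynomial.C (tw ℓ (ζ ^ (b : ℕ)) f)) := by
  classical
  rw [kron, ← Matrix.charpoly_map,
    charpoly_eq_of_intertwine _ _ _ (vandermonde_mul_kronMat hζ.pow_eq_one f)
      (Matrix.det_vandermonde_ne_zero_iff.mpr (node_injective hζ)),
    Matrix.charpoly_diagonal]

end Fermat.Agent.S37.H340

end
end
-- ===== PACK-END S37/H340/KronTwist.lean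

-- ===== PACK-BEGIN S18/H602/BaseChange.lean
section



/-!
# S18, piece d1 (continued): `laurentBaseChange L (modularFunctionFieldFull N)` is
`modularFunctionFieldFullC L N`  (owner helper602)

For every field `L` of characteristic zero, the base change to `L` of the rational function
field `ℚ(j(q^d) : d ∣ N)` is `L(j(q^d) : d ∣ N)`, inside `L((q))`.
-/

set_option autoImplicit false

noncomputable section

namespace Fermat.Agent.S18.H602

open ModularCurve AlgebraicCurve HahnSeries IntermediateField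

section BaseChange

variable (L : Type*) [Field L] [Algebra ℚ L] (N : ℕ)

theorem coeffEmb_qExpand_jq (d : ℕ) [NeZero d] :
    coeffEmb L (qExpand ℚ d jq) = qExpand L d (jqModC L) := by
  have h := coeffMap_jqNModC (algebraMap ℚ L) d
  exact h

theorem coeffEmb_mem_fullC {x : LaurentSeries ℚ} (hx : x ∈ modularFunctionFieldFull N) :
    coeffEmb L x ∈ modularFunctionFieldFullC L N := by
  unfold modularFunctionFieldFull at hx
  induction hx using IntermediateField.adjoin_induction with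
  | mem y hy =>
      obtain ⟨d, hd, hdN, rfl⟩ := hy
      rw [coeffEmb_qExpand_jq]
      exact jqModCd_mem_full L N hdN
  | algebraMap c =>
      have : coeffEmb L (algebraMap ℚ (LaurentSeries ℚ) c) =
          algebraMap L (LaurentSeries L) (algebraMap ℚ L c) := by
        rw [coeffEmb, algebraMap_laurentSeries_eq_single, algebraMap_laurentSeries_eq_single,
          coeffMap_single]
      rw [this]
      exact (modularFunctionFieldFullC L N).algebraMap_mem _
  | add x y _ _ hx hy => simpa using add_mem hx hy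
  | inv x _ hx => simpa using inv_mem hx
  | mul x y _ _ hx hy => simpa using mul_mem hx hy

/-- The base change of `ℚ(j(q^d) : d ∣ N)` to `L` is `L(j(q^d) : d ∣ N)`. -/
theorem laurentBaseChange_full_eq :
    laurentBaseChange L (modularFunctionFieldFull N) = modularFunctionFieldFullC L N := by
  apply le_antisymm
  · rw [laurentBaseChange, IntermediateField.adjoin_le_iff]
    rintro _ ⟨x, hx, rfl⟩
    exact coeffEmb_mem_fullC L N hx
  · rw [modularFunctionFieldFullC, IntermediateField.adjoin_le_iff]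
    rintro _ ⟨d, hd, hdN, rfl⟩
    rw [← coeffEmb_qExpand_jq]
    exact coeffEmb_mem_laurentBaseChange L (jqd_mem_full N hdN)

theorem modularFunctionFieldBar_eq :
    modularFunctionFieldBar N = modularFunctionFieldFullC (AlgebraicClosure ℚ) N :=
  laurentBaseChange_full_eq _ N

end BaseChange

end Fermat.Agent.S18.H602

end
end
-- ===== PACK-END S18/H602/BaseChange.lean

-- ===== PACK-BEGIN S29/H509/TwistedEis.lean
section


/-!
# Twisted Eisenstein series (helper509, S29 piece TES, file 2)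

For a subgroup `Γ ≤ SL(2, ℤ)` and a unitary character `χ : Γ →* ℂˣ` which is trivial on the
upper unipotent elements of `Γ`, the twisted Eisenstein series
`twEis χ k z = ∑_{(c, d) bottom row of γ ∈ Γ} χ(γ)⁻¹ (c z + d) ^ (-k)`
is holomorphic, satisfies `twEis χ k ∣[k] δ = χ δ • twEis χ k` for `δ ∈ Γ`, all its
`SL(2, ℤ)`-translates are bounded at `i∞`, and it is nonzero when `k` is even and `χ` is
trivial on all elements of `Γ` fixing `∞`.
-/

set_option autoImplicit false

namespace Fermat.Agent.S29.H509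

open ModularForm UpperHalfPlane Matrix CongruenceSubgroup EisensteinSeries Filter Topology
open scoped MatrixGroups Manifold

noncomputable section

/-- The bottom row of a matrix in `SL(2, ℤ)`. -/
def botRow (γ : SL(2, ℤ)) : Fin 2 → ℤ := fun j => (γ : Matrix (Fin 2) (Fin 2) ℤ) 1 j

lemma botRow_apply (γ : SL(2, ℤ)) (j : Fin 2) :
    botRow γ j = (γ : Matrix (Fin 2) (Fin 2) ℤ) 1 j := rfl

lemma botRow_one : botRow 1 = ![0, 1] := by
  ext j
  fin_cases j <;> simp [botRow]

lemma botRow_mul (a b : SL(2, ℤ)) :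
    botRow (a * b) = botRow a ᵥ* (b : Matrix (Fin 2) (Fin 2) ℤ) := by
  ext j
  simp [botRow, Matrix.vecMul, dotProduct, Matrix.mul_apply]

lemma botRow_snd_of_fst_eq_zero (γ : SL(2, ℤ)) (h : botRow γ 0 = 0) :
    botRow γ 1 = 1 ∨ botRow γ 1 = -1 := by
  have hdet := γ.det_coe
  rw [Matrix.det_fin_two] at hdet
  simp only [botRow_apply] at h ⊢
  rw [h, mul_zero, sub_zero] at hdet
  rcases Int.eq_one_or_neg_one_of_mul_eq_one' hdet with h1 | h1
  · exact Or.inl h1.2
  · exact Or.inr h1.2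

lemma botRow_eq_of_fst_eq_zero (γ : SL(2, ℤ)) (h : botRow γ 0 = 0) :
    botRow γ = ![0, 1] ∨ botRow γ = ![0, -1] := by
  rcases botRow_snd_of_fst_eq_zero γ h with h1 | h1
  · left
    ext j
    fin_cases j <;> simp [h, h1]
  · right
    ext j
    fin_cases j <;> simp [h, h1]

variable {Γ : Subgroup SL(2, ℤ)}

open Classical in
/-- The weight function attached to a character `χ` of `Γ`: `χ(γ)⁻¹` on the bottom row of
`γ ∈ Γ`, and `0` on vectors which are not bottom rows of elements of `Γ`. -/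
def chiWeight (χ : Γ →* ℂˣ) (v : Fin 2 → ℤ) : ℂ :=
  if h : ∃ γ : Γ, botRow (γ : SL(2, ℤ)) = v then (((χ h.choose)⁻¹ : ℂˣ) : ℂ) else 0

/-- `χ` is trivial on the upper unipotent elements of `Γ`. -/
def TrivOnUnip (χ : Γ →* ℂˣ) : Prop :=
  ∀ γ : Γ, botRow (γ : SL(2, ℤ)) = ![0, 1] → χ γ = 1

/-- `χ` is trivial on the elements of `Γ` fixing `∞`. -/
def TrivOnStabInfty (χ : Γ →* ℂˣ) : Prop :=
  ∀ γ : Γ, botRow (γ : SL(2, ℤ)) 0 = 0 → χ γ = 1

lemma TrivOnStabInfty.trivOnUnip {χ : Γ →* ℂˣ} (h : TrivOnStabInfty χ) : TrivOnUnip χ :=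
  fun γ hγ => h γ (by simp [hγ])

lemma chi_eq_of_botRow_eq {χ : Γ →* ℂˣ} (hχ : TrivOnUnip χ) {γ₁ γ₂ : Γ}
    (h : botRow (γ₁ : SL(2, ℤ)) = botRow (γ₂ : SL(2, ℤ))) : χ γ₁ = χ γ₂ := by
  have h1 : botRow ((γ₁ * γ₂⁻¹ : Γ) : SL(2, ℤ)) = ![0, 1] := by
    rw [Subgroup.coe_mul, botRow_mul, h, ← botRow_mul, Subgroup.coe_inv, mul_inv_cancel,
      botRow_one]
  have := hχ _ h1
  rwa [map_mul, map_inv, mul_inv_eq_one] at this

lemma chiWeight_botRow {χ : Γ →* ℂˣ} (hχ : TrivOnUnip χ) (γ : Γ) :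
    chiWeight χ (botRow (γ : SL(2, ℤ))) = (((χ γ)⁻¹ : ℂˣ) : ℂ) := by
  have hex : ∃ γ' : Γ, botRow (γ' : SL(2, ℤ)) = botRow (γ : SL(2, ℤ)) := ⟨γ, rfl⟩
  unfold chiWeight
  rw [dif_pos hex, chi_eq_of_botRow_eq hχ hex.choose_spec]

lemma chiWeight_of_not_exists (χ : Γ →* ℂˣ) {v : Fin 2 → ℤ}
    (h : ¬ ∃ γ : Γ, botRow (γ : SL(2, ℤ)) = v) : chiWeight χ v = 0 :=
  dif_neg h

lemma norm_chiWeight_le {χ : Γ →* ℂˣ} (hnorm : ∀ γ, ‖(χ γ : ℂ)‖ = 1) (v : Fin 2 → ℤ) :
    ‖chiWeight χ v‖ ≤ 1 := by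
  unfold chiWeight
  split_ifs with h
  · simp [hnorm]
  · simp

lemma chiWeight_vecMul_inv {χ : Γ →* ℂˣ} (hχ : TrivOnUnip χ) (δ : Γ) (v : Fin 2 → ℤ) :
    chiWeight χ (v ᵥ* (((δ : SL(2, ℤ))⁻¹ : SL(2, ℤ)) : Matrix (Fin 2) (Fin 2) ℤ)) =
      (χ δ : ℂ) * chiWeight χ v := by
  by_cases hex : ∃ γ : Γ, botRow (γ : SL(2, ℤ)) = v
  · obtain ⟨γ, rfl⟩ := hex
    have h1 : botRow (γ : SL(2, ℤ)) ᵥ* (((δ : SL(2, ℤ))⁻¹ : SL(2, ℤ)) :
        Matrix (Fin 2) (Fin 2) ℤ) = botRow ((γ * δ⁻¹ : Γ) : SL(2, ℤ)) := by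
      rw [Subgroup.coe_mul, botRow_mul, Subgroup.coe_inv]
    rw [h1, chiWeight_botRow hχ, chiWeight_botRow hχ, map_mul, map_inv]
    simp [mul_comm]
  · rw [chiWeight_of_not_exists χ hex, mul_zero]
    apply chiWeight_of_not_exists
    rintro ⟨γ, hγ⟩
    apply hex
    refine ⟨γ * δ, ?_⟩
    rw [Subgroup.coe_mul, botRow_mul, hγ, Matrix.vecMul_vecMul,
      ← Matrix.SpecialLinearGroup.coe_mul, inv_mul_cancel, Matrix.SpecialLinearGroup.coe_one,
      Matrix.vecMul_one]

/-- The twisted Eisenstein series of weight `k` attached to `χ`. -/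
def twEis (χ : Γ →* ℂˣ) (k : ℤ) : ℍ → ℂ := wEis (chiWeight χ) k

/-- The transformation law of the twisted Eisenstein series. -/
theorem twEis_slash {χ : Γ →* ℂˣ} (hχ : TrivOnUnip χ) (k : ℤ) (δ : Γ) :
    twEis χ k ∣[k] (δ : SL(2, ℤ)) = (χ δ : ℂ) • twEis χ k := by
  unfold twEis
  rw [wEis_slash]
  ext z
  simp only [wEis, Pi.smul_apply, smul_eq_mul, chiWeight_vecMul_inv hχ δ, mul_assoc,
    tsum_mul_left]

/-- The transformation law, pointwise. -/
theorem twEis_smul_apply {χ : Γ →* ℂˣ} (hχ : TrivOnUnip χ) (k : ℤ) (δ : Γ) (z : ℍ) :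
    twEis χ k ((δ : SL(2, ℤ)) • z) = (χ δ : ℂ) * denom (δ : SL(2, ℤ)) z ^ k * twEis χ k z := by
  have h := congrFun (twEis_slash hχ k δ) z
  rw [SL_slash_apply, Pi.smul_apply, smul_eq_mul, _root_.zpow_neg,
    mul_inv_eq_iff_eq_mul₀ (zpow_ne_zero _ <| denom_ne_zero _ z)] at h
  rw [h]
  ring

theorem twEis_mdifferentiable {χ : Γ →* ℂˣ} (hnorm : ∀ γ, ‖(χ γ : ℂ)‖ = 1) {k : ℤ}
    (hk : 3 ≤ k) : MDiff (twEis χ k) :=
  wEis_mdifferentiable (norm_chiWeight_le hnorm) hk

theorem isBoundedAtImInfty_twEis_slash {χ : Γ →* ℂˣ} (hnorm : ∀ γ, ‖(χ γ : ℂ)‖ = 1) {k : ℤ}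
    (hk : 3 ≤ k) (A : SL(2, ℤ)) : IsBoundedAtImInfty (twEis χ k ∣[k] A) :=
  isBoundedAtImInfty_wEis_slash (norm_chiWeight_le hnorm) hk A

lemma chiWeight_zero_one {χ : Γ →* ℂˣ} (hχ : TrivOnUnip χ) : chiWeight χ ![0, 1] = 1 := by
  have h := chiWeight_botRow hχ (1 : Γ)
  rw [Subgroup.coe_one, botRow_one] at h
  rw [h]
  simp

lemma chiWeight_zero_neg_one {χ : Γ →* ℂˣ} (hχ : TrivOnStabInfty χ) :
    chiWeight χ ![0, -1] = 0 ∨ chiWeight χ ![0, -1] = 1 := by
  by_cases hex : ∃ γ : Γ, botRow (γ : SL(2, ℤ)) = ![0, -1]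
  · obtain ⟨γ, hγ⟩ := hex
    right
    rw [← hγ, chiWeight_botRow hχ.trivOnUnip, hχ γ (by simp [hγ])]
    simp
  · exact Or.inl (chiWeight_of_not_exists χ hex)

lemma chiWeight_eq_zero_of_fst_eq_zero (χ : Γ →* ℂˣ) (v : Fin 2 → ℤ) (h0 : v 0 = 0)
    (h1 : v 1 ≠ 1) (h2 : v 1 ≠ -1) : chiWeight χ v = 0 := by
  apply chiWeight_of_not_exists
  rintro ⟨γ, rfl⟩
  rcases botRow_snd_of_fst_eq_zero _ h0 with h | h
  · exact h1 h
  · exact h2 h

/-- The constant term of the twisted Eisenstein series of even weight is `1` or `2`. -/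
lemma wEisConst_chiWeight {χ : Γ →* ℂˣ} (hχ : TrivOnStabInfty χ) {k : ℤ} (hk : Even k) :
    wEisConst (chiWeight χ) k = 1 ∨ wEisConst (chiWeight χ) k = 2 := by
  rw [wEisConst_eq (chiWeight_eq_zero_of_fst_eq_zero χ), chiWeight_zero_one hχ.trivOnUnip]
  have hpow : (-1 : ℂ) ^ (-k) = 1 := Even.neg_one_zpow hk.neg
  rw [hpow, mul_one]
  rcases chiWeight_zero_neg_one hχ with h | h
  · left
    rw [h, add_zero]
  · right
    rw [h]
    norm_num

/-- The twisted Eisenstein series of even weight `k ≥ 3` is not identically zero. -/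
theorem twEis_ne_zero {χ : Γ →* ℂˣ} (hnorm : ∀ γ, ‖(χ γ : ℂ)‖ = 1) (hχ : TrivOnStabInfty χ)
    {k : ℤ} (hk : 3 ≤ k) (heven : Even k) : twEis χ k ≠ 0 := by
  apply wEis_ne_zero_of_const_ne_zero (norm_chiWeight_le hnorm) hk
  rcases wEisConst_chiWeight hχ heven with h | h <;> rw [h] <;> norm_num

end

end Fermat.Agent.S29.H509

end
-- ===== PACK-END S29/H509/TwistedEis.lean

-- ===== PACK-BEGIN S24/Alg/LocBig.lean
section


/-!
# S24 / ALG-LOC: Laurent series of order at least `n`

`LocBig n s` means `s = 0` or `n ≤ ord s`.  For such `s` the coefficient `s.coeff n` behaves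
like a leading coefficient: it is multiplicative.
-/

set_option autoImplicit false

noncomputable section

namespace Fermat.Agent.S24.H144

variable {C : Type*} [Field C]

/-- `s` is zero or has order at least `n`. -/
def LocBig (n : ℤ) (s : LaurentSeries C) : Prop := s = 0 ∨ n ≤ s.order

namespace LocBig

variable {n m : ℤ} {a b : LaurentSeries C}

theorem zero (n : ℤ) : LocBig n (0 : LaurentSeries C) := Or.inl rfl

theorem of_le_order (h : n ≤ a.order) : LocBig n a := Or.inr h

theorem self_order (a : LaurentSeries C) : LocBig a.order a := Or.inr le_rfl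

theorem mono (h : LocBig m a) (hnm : n ≤ m) : LocBig n a := by
  rcases h with h | h
  · exact Or.inl h
  · exact Or.inr (hnm.trans h)

theorem coeff_eq_zero (h : LocBig n a) {k : ℤ} (hk : k < n) : a.coeff k = 0 := by
  rcases h with rfl | h
  · simp
  · exact HahnSeries.coeff_eq_zero_of_lt_order (lt_of_lt_of_le hk h)

theorem neg (h : LocBig n a) : LocBig n (-a) := by
  rcases h with rfl | h
  · simp [zero]
  · exact Or.inr (by rwa [HahnSeries.order_neg])

theorem add (ha : LocBig n a) (hb : LocBig n b) : LocBig n (a + b) := by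
  rcases eq_or_ne (a + b) 0 with h0 | h0
  · exact Or.inl h0
  rcases ha with rfl | ha
  · rwa [zero_add]
  rcases hb with rfl | hb
  · rw [add_zero]; exact Or.inr ha
  exact Or.inr (le_trans (le_min ha hb) (HahnSeries.min_order_le_order_add h0))

theorem sub (ha : LocBig n a) (hb : LocBig n b) : LocBig n (a - b) := by
  rw [sub_eq_add_neg]; exact ha.add hb.neg

theorem mul (ha : LocBig n a) (hb : LocBig m b) : LocBig (n + m) (a * b) := by
  rcases ha with rfl | ha
  · simp [zero]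
  rcases hb with rfl | hb
  · simp [zero]
  rcases eq_or_ne a 0 with rfl | ha0
  · simp [zero]
  rcases eq_or_ne b 0 with rfl | hb0
  · simp [zero]
  refine Or.inr ?_
  rw [HahnSeries.order_mul ha0 hb0]
  omega

theorem pow (ha : LocBig n a) (k : ℕ) : LocBig (k * n) (a ^ k) := by
  induction k with
  | zero =>
    simp only [Nat.cast_zero, zero_mul, pow_zero]
    exact Or.inr (by rw [HahnSeries.order_one])
  | succ k ih =>
    rw [pow_succ]
    have := ih.mul ha
    convert this using 1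
    push_cast; ring

/-- An element which is big of every order is zero. -/
theorem eq_zero_of_forall (h : ∀ k : ℕ, LocBig (k : ℤ) a) : a = 0 := by
  by_contra h0
  rcases h (a.order.toNat + 1) with h1 | h1
  · exact h0 h1
  · have := Int.self_le_toNat a.order
    push_cast at h1
    omega

/-- The coefficient at the bound is multiplicative. -/
theorem coeff_mul (ha : LocBig n a) (hb : LocBig m b) :
    (a * b).coeff (n + m) = a.coeff n * b.coeff m := by
  rcases eq_or_ne a 0 with rfl | ha0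
  · simp
  rcases eq_or_ne b 0 with rfl | hb0
  · simp
  have ha' : n ≤ a.order := ha.resolve_left ha0
  have hb' : m ≤ b.order := hb.resolve_left hb0
  rcases lt_or_eq_of_le ha' with hlt | heq
  · -- `a.coeff n = 0`
    rw [HahnSeries.coeff_eq_zero_of_lt_order hlt, zero_mul]
    have hab : LocBig (a.order + m) (a * b) := (self_order a).mul hb
    exact hab.coeff_eq_zero (by omega)
  rcases lt_or_eq_of_le hb' with hlt | heq'
  · rw [HahnSeries.coeff_eq_zero_of_lt_order hlt, mul_zero]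
    have hab : LocBig (n + b.order) (a * b) := ha.mul (self_order b)
    exact hab.coeff_eq_zero (by omega)
  rw [heq, heq', HahnSeries.coeff_mul_order_add_order, HahnSeries.leadingCoeff_eq,
    HahnSeries.leadingCoeff_eq]

/-- If two series have the same order and the same leading coefficient, their difference has
larger order. -/
theorem sub_of_leadingCoeff_eq (ho : a.order = b.order)
    (hl : a.leadingCoeff = b.leadingCoeff) : LocBig (a.order + 1) (a - b) := by
  rcases eq_or_ne (a - b) 0 with h0 | h0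
  · exact Or.inl h0
  refine Or.inr ?_
  have hbig : LocBig a.order (a - b) := (self_order a).sub (ho ▸ self_order b)
  have h1 : a.order ≤ (a - b).order := hbig.resolve_left h0
  have h2 : (a - b).coeff a.order = 0 := by
    rw [HahnSeries.coeff_sub, ← HahnSeries.leadingCoeff_eq]
    conv_lhs => rw [ho, ← HahnSeries.leadingCoeff_eq, hl]
    exact sub_self _
  have h3 : (a - b).order ≠ a.order := by
    intro h
    have := HahnSeries.coeff_order_eq_zero.not.mpr h0
    rw [h] at this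
    exact this h2
  omega

end LocBig

end Fermat.Agent.S24.H144

end
end
-- ===== PACK-END S24/Alg/LocBig.lean

-- ===== PACK-BEGIN S24/Alg/LocEmb.lean
section






/-!
# S24 / ALG-LOC: a full set of embeddings

Let `F/F₀` be finite separable of degree `n` and let `σ x : F →+* E` (`x : X`, `|X| = n`) be
pairwise distinct ring homomorphisms into a field `E` which agree on `F₀`.  Then the `σ x`
are *all* the `F₀`-embeddings of `F` into an algebraic closure of `E`.  Consequences:

* `loc_minpoly_coeff_mem`: if all `σ x u` lie in a subring `O` of `E`, then so do the images of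
  the coefficients of the minimal polynomial of `u` over `F₀`;
* `loc_norm_eq_prod`: the image of the norm is the product of the conjugates `σ x f`.
-/

set_option autoImplicit false

noncomputable section

open Polynomial

namespace Fermat.Agent.S24.H144

section General

variable {F₀ F Ω : Type*} [Field F₀] [Field F] [Algebra F₀ F] [FiniteDimensional F₀ F]
  [Algebra.IsSeparable F₀ F] [Field Ω] [IsAlgClosed Ω] [Algebra F₀ Ω]
variable {X : Type*} [Finite X]

/-- An injective family of `finrank` many embeddings into an algebraically closed field is the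
family of all embeddings. -/
theorem loc_algHom_bijective (ψ : X → (F →ₐ[F₀] Ω)) (hψ : Function.Injective ψ)
    (hcard : Module.finrank F₀ F = Nat.card X) : Function.Bijective ψ := by
  apply hψ.bijective_of_nat_card_le
  rw [← hcard, ← AlgHom.card F₀ F Ω, Fintype.card_eq_nat_card]

end General

section Emb

variable {F₀ F E : Type*} [Field F₀] [Field F] [Algebra F₀ F] [FiniteDimensional F₀ F]
  [Algebra.IsSeparable F₀ F] [Field E]
variable {X : Type*} [Finite X]

/-- If all conjugates `σ x u` lie in a subring `O ⊆ E`, then the images of the coefficients of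
the minimal polynomial of `u` over `F₀` lie in `O`. -/
theorem loc_minpoly_coeff_mem (σ : X → (F →+* E)) (hinj : Function.Injective σ)
    (hagree : ∀ (x y : X) (c : F₀), σ x (algebraMap F₀ F c) = σ y (algebraMap F₀ F c))
    (hcard : Module.finrank F₀ F = Nat.card X)
    (O : Subring E) (u : F) (hu : ∀ x, σ x u ∈ O) (x₀ : X) (i : ℕ) :
    σ x₀ (algebraMap F₀ F ((minpoly F₀ u).coeff i)) ∈ O := by
  classical
  let φ : F₀ →+* AlgebraicClosure E :=
    (algebraMap E (AlgebraicClosure E)).comp ((σ x₀).comp (algebraMap F₀ F))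
  letI : Algebra F₀ (AlgebraicClosure E) := φ.toAlgebra
  have hφ : ∀ c : F₀, algebraMap F₀ (AlgebraicClosure E) c
      = algebraMap E (AlgebraicClosure E) (σ x₀ (algebraMap F₀ F c)) := fun c => rfl
  let ψ : X → (F →ₐ[F₀] AlgebraicClosure E) := fun x =>
    { ((algebraMap E (AlgebraicClosure E)).comp (σ x)) with
      commutes' := fun c => by
        change algebraMap E (AlgebraicClosure E) (σ x (algebraMap F₀ F c))
          = algebraMap F₀ (AlgebraicClosure E) c
        rw [hφ, hagree x x₀] }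
  have hψ_apply : ∀ x f, ψ x f = algebraMap E (AlgebraicClosure E) (σ x f) := fun _ _ => rfl
  have hψinj : Function.Injective ψ := by
    intro x y hxy
    apply hinj
    ext f
    have h := congrArg (fun τ : F →ₐ[F₀] AlgebraicClosure E => τ f) hxy
    exact (algebraMap E (AlgebraicClosure E)).injective h
  have hbij := loc_algHom_bijective ψ hψinj hcard
  have hint : IsIntegral F₀ u := Algebra.IsIntegral.isIntegral u
  have hmonic : ((minpoly F₀ u).map (algebraMap F₀ (AlgebraicClosure E))).Monic :=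
    (minpoly.monic hint).map _
  have hsplit : ((minpoly F₀ u).map (algebraMap F₀ (AlgebraicClosure E))).Splits :=
    IsAlgClosed.splits _
  let g : O →+* AlgebraicClosure E := (algebraMap E (AlgebraicClosure E)).comp O.subtype
  have hroots : ∀ r ∈ ((minpoly F₀ u).map (algebraMap F₀ (AlgebraicClosure E))).roots,
      r ∈ g.range := by
    intro r hr
    have hr' : r ∈ (minpoly F₀ u).rootSet (AlgebraicClosure E) := by
      rw [Polynomial.rootSet_def, Finset.mem_coe, Multiset.mem_toFinset]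
      exact hr
    rw [← Algebra.IsAlgebraic.range_eval_eq_rootSet_minpoly] at hr'
    obtain ⟨τ, rfl⟩ := hr'
    obtain ⟨x, rfl⟩ := hbij.2 τ
    exact ⟨⟨σ x u, hu x⟩, rfl⟩
  have hlift := hsplit.mem_lift_of_roots_mem_range hmonic g hroots
  obtain ⟨o, ho⟩ := (lifts_iff_coeff_lifts _).mp hlift i
  rw [coeff_map, hφ] at ho
  have h := (algebraMap E (AlgebraicClosure E)).injective ho
  rw [← h]
  exact o.2

/-- The image of the norm is the product of the conjugates. -/
theorem loc_norm_eq_prod [Fintype X] (σ : X → (F →+* E)) (hinj : Function.Injective σ)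
    (hagree : ∀ (x y : X) (c : F₀), σ x (algebraMap F₀ F c) = σ y (algebraMap F₀ F c))
    (hcard : Module.finrank F₀ F = Nat.card X) (f : F) (x₀ : X) :
    σ x₀ (algebraMap F₀ F (Algebra.norm F₀ f)) = ∏ x, σ x f := by
  classical
  let φ : F₀ →+* AlgebraicClosure E :=
    (algebraMap E (AlgebraicClosure E)).comp ((σ x₀).comp (algebraMap F₀ F))
  letI : Algebra F₀ (AlgebraicClosure E) := φ.toAlgebra
  have hφ : ∀ c : F₀, algebraMap F₀ (AlgebraicClosure E) c
      = algebraMap E (AlgebraicClosure E) (σ x₀ (algebraMap F₀ F c)) := fun c => rfl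
  let ψ : X → (F →ₐ[F₀] AlgebraicClosure E) := fun x =>
    { ((algebraMap E (AlgebraicClosure E)).comp (σ x)) with
      commutes' := fun c => by
        change algebraMap E (AlgebraicClosure E) (σ x (algebraMap F₀ F c))
          = algebraMap F₀ (AlgebraicClosure E) c
        rw [hφ, hagree x x₀] }
  have hψ_apply : ∀ x f, ψ x f = algebraMap E (AlgebraicClosure E) (σ x f) := fun _ _ => rfl
  have hψinj : Function.Injective ψ := by
    intro x y hxy
    apply hinj
    ext f
    have h := congrArg (fun τ : F →ₐ[F₀] AlgebraicClosure E => τ f) hxy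
    exact (algebraMap E (AlgebraicClosure E)).injective h
  have hbij := loc_algHom_bijective ψ hψinj hcard
  apply (algebraMap E (AlgebraicClosure E)).injective
  rw [← hφ, Algebra.norm_eq_prod_embeddings F₀ (AlgebraicClosure E) f, map_prod]
  exact (Fintype.prod_bijective ψ hbij _ _ (fun x => hψ_apply x f)).symm

end Emb

end Fermat.Agent.S24.H144

end
end
-- ===== PACK-END S24/Alg/LocEmb.lean

-- ===== PACK-BEGIN S28/H386/Toolkit.lean
section
/-
S28 [L] toolkit (helper386): orders of Laurent series, the twist `q ↦ ξ q`,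
and the fact that `j` has degree `≥ p` over the range of `V_p = qExpand p`.
-/



set_option autoImplicit false

noncomputable section

open ModularCurve HahnSeries Polynomial

namespace Fermat.Agent.S28.H386

variable {k : Type*} [Field k]

/-! ### Orders -/

theorem order_eq_of_coeff {x : LaurentSeries k} {n : ℤ} (h1 : x.coeff n ≠ 0)
    (h2 : ∀ m < n, x.coeff m = 0) : x.order = n := by
  refine le_antisymm (HahnSeries.order_le_of_coeff_ne_zero h1) ?_
  by_contra hlt
  rw [not_le] at hlt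
  have hx : x ≠ 0 := fun h => h1 (by rw [h]; rfl)
  exact (HahnSeries.coeff_order_eq_zero.not.mpr hx) (h2 _ hlt)

theorem jqModC_ne_zero : jqModC k ≠ 0 := jqModC_ne_zero_of_nontrivial k

theorem order_jqModC : (jqModC k).order = -1 :=
  order_eq_of_coeff (by rw [coeff_jqModC_neg_one]; exact one_ne_zero)
    (fun _ hm => coeff_jqModC_of_lt k hm)

theorem order_jqModC_pow (i : ℕ) : ((jqModC k) ^ i).order = -(i : ℤ) := by
  rw [HahnSeries.order_pow, order_jqModC]; simp

theorem qExpand_ne_zero (p : ℕ) [NeZero p] {f : LaurentSeries k} (hf : f ≠ 0) :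
    qExpand k p f ≠ 0 := fun h => hf (qExpand_injective p (by rw [h, map_zero]))

theorem order_qExpand (p : ℕ) [NeZero p] (f : LaurentSeries k) :
    (qExpand k p f).order = (p : ℤ) * f.order := by
  by_cases hf : f = 0
  · simp [hf]
  refine order_eq_of_coeff ?_ ?_
  · rw [qExpand_coeff_mul]; exact HahnSeries.coeff_order_eq_zero.not.mpr hf
  · intro m hm
    by_cases hd : (p : ℤ) ∣ m
    · obtain ⟨c, rfl⟩ := hd
      rw [qExpand_coeff_mul]
      refine HahnSeries.coeff_eq_zero_of_lt_order ?_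
      have hp : (0 : ℤ) < p := by exact_mod_cast Nat.pos_of_ne_zero (NeZero.ne p)
      exact lt_of_mul_lt_mul_left hm hp.le
    · exact qExpand_coeff_of_not_dvd p f hd

/-- The order of an element of the range of `V_p` is divisible by `p`. -/
theorem dvd_order_of_mem_range (p : ℕ) [NeZero p] {x : LaurentSeries k}
    (hx : x ∈ Set.range (qExpand k p)) : (p : ℤ) ∣ x.order := by
  obtain ⟨f, rfl⟩ := hx
  rw [order_qExpand]; exact dvd_mul_right _ _

/-! ### `j` has degree at least `p` over the range of `V_p` -/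

/-- A nonzero polynomial of degree `< p` with coefficients in the range of `V_p` does not
vanish at `j`. -/
theorem eval_jqModC_ne_zero_of_natDegree_lt (p : ℕ) [NeZero p] (P : (LaurentSeries k)[X])
    (hP : P ≠ 0) (hdeg : P.natDegree < p)
    (hcoef : ∀ i, P.coeff i ∈ Set.range (qExpand k p)) :
    P.eval (jqModC k) ≠ 0 := by
  classical
  -- valuation of the `i`-th term
  set v : ℕ → ℤ := fun i => (P.coeff i).order - i with hv
  have hsupp : P.support.Nonempty := by
    rwa [Finset.nonempty_iff_ne_empty, Ne, Polynomial.support_eq_empty]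
  obtain ⟨i₀, hi₀, hmin⟩ := Finset.exists_min_image P.support v hsupp
  have hlt : ∀ i ∈ P.support, i < p := fun i hi =>
    lt_of_le_of_lt (Polynomial.le_natDegree_of_mem_supp i hi) hdeg
  have hinj : ∀ i ∈ P.support, i ≠ i₀ → v i ≠ v i₀ := by
    intro i hi hne heq
    obtain ⟨a, ha⟩ := dvd_order_of_mem_range p (hcoef i)
    obtain ⟨b, hb⟩ := dvd_order_of_mem_range p (hcoef i₀)
    have h1 := hlt i hi
    have h2 := hlt i₀ hi₀
    simp only [hv, ha, hb] at heq
    have h3 : (p : ℤ) * (a - b) = (i : ℤ) - i₀ := by linarith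
    have h4 : (p : ℤ) ∣ (i : ℤ) - i₀ := ⟨a - b, h3.symm⟩
    have h5 : ((i : ℤ) - i₀) = 0 := by
      apply Int.eq_zero_of_abs_lt_dvd h4
      rw [abs_lt]; constructor <;> omega
    exact hne (by omega)
  have hterm : ∀ i ∈ P.support, (P.coeff i * (jqModC k) ^ i).order = v i := by
    intro i hi
    have hc : P.coeff i ≠ 0 := Polynomial.mem_support_iff.mp hi
    rw [HahnSeries.order_mul hc (pow_ne_zero _ jqModC_ne_zero), order_jqModC_pow]
    simp [hv, sub_eq_add_neg]
  intro h0
  have hcoeff : (P.eval (jqModC k)).coeff (v i₀) = 0 := by rw [h0]; rfl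
  rw [Polynomial.eval_eq_sum, Polynomial.sum_def] at hcoeff
  have hsum : (∑ n ∈ P.support, P.coeff n * jqModC k ^ n).coeff (v i₀)
      = ∑ n ∈ P.support, (P.coeff n * jqModC k ^ n).coeff (v i₀) := by
    exact map_sum (HahnSeries.coeff.addMonoidHom (v i₀)) _ _
  rw [hsum, Finset.sum_eq_single_of_mem i₀ hi₀] at hcoeff
  · have hc : P.coeff i₀ ≠ 0 := Polynomial.mem_support_iff.mp hi₀
    have hne : P.coeff i₀ * jqModC k ^ i₀ ≠ 0 :=
      mul_ne_zero hc (pow_ne_zero _ jqModC_ne_zero)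
    rw [← hterm i₀ hi₀] at hcoeff
    exact (HahnSeries.coeff_order_eq_zero.not.mpr hne) hcoeff
  · intro i hi hne
    refine HahnSeries.coeff_eq_zero_of_lt_order ?_
    rw [hterm i hi]
    exact lt_of_le_of_ne (hmin i hi) (Ne.symm (hinj i hi hne))

end Fermat.Agent.S28.H386

end
end
-- ===== PACK-END S28/H386/Toolkit.lean

-- ===== PACK-BEGIN S18/H905/ValChain.lean
section


/-!
# S18 / H905 — valuations on a function field: the chain lemma (Mathlib only, char-free)

`K ⊆ F` fields, `v` a valuation on `F` which is trivial on `K`, `x ∈ F` with `0 < v x < 1`.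

* `exists_val_aeval_eq_pow`  : `v (p(x)) = (v x)^a` for every nonzero polynomial `p ∈ K[X]`;
* `exists_val_eq_zpow_of_mem_adjoin` : the value group of `K(x)` is generated by `v x`;
* `linearIndependent_of_val` : elements whose values lie in pairwise distinct cosets of `(v x)^ℤ`
  are linearly independent over `K(x)`;
* `card_le_finrank_of_val_chain` : a family with pairwise distinct values in `[v x, 1)` has at most
  `[F : K(x)]` members (Stichtenoth, Algebraic function fields and codes, proof of Thm 1.1.6).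
-/

set_option autoImplicit false

open Polynomial IntermediateField

namespace Fermat.Agent.S18.H905

variable {K F : Type*} [Field K] [Field F] [Algebra K F]
variable {Γ : Type*} [LinearOrderedCommGroupWithZero Γ] (v : Valuation F Γ)

/-- A valuation which is trivial on `K` takes values `≤ 1` on `K[x]` when `v x ≤ 1`. -/
theorem val_aeval_le_one (hK : ∀ c : K, v (algebraMap K F c) ≤ 1) {x : F} (hx : v x ≤ 1)
    (p : K[X]) : v (aeval x p) ≤ 1 := by
  induction p using Polynomial.induction_on' with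
  | add p q hp hq =>
    rw [map_add]
    exact v.map_add_le hp hq
  | monomial n a =>
    rw [aeval_monomial, map_mul, map_pow]
    exact mul_le_one' (hK a) (pow_le_one' hx n)

/-- `v (p(x)) = (v x)^a` for a nonzero polynomial `p` over `K`, if `v` is trivial on `K` and
`v x < 1`. -/
theorem exists_val_aeval_eq_pow (hK : ∀ c : K, c ≠ 0 → v (algebraMap K F c) = 1) {x : F}
    (hx : v x < 1) {p : K[X]} (hp : p ≠ 0) : ∃ a : ℕ, v (aeval x p) = v x ^ a := by
  have hK' : ∀ c : K, v (algebraMap K F c) ≤ 1 := by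
    intro c
    rcases eq_or_ne c 0 with rfl | hc
    · simp
    · exact (hK c hc).le
  obtain ⟨q, hpq, hq⟩ := Polynomial.exists_eq_pow_rootMultiplicity_mul_and_not_dvd p hp 0
  refine ⟨p.rootMultiplicity 0, ?_⟩
  have hq0 : q.coeff 0 ≠ 0 := by
    intro h0
    apply hq
    rw [map_zero, sub_zero]
    exact Polynomial.X_dvd_iff.mpr h0
  have hqv : v (aeval x q) = 1 := by
    have hsplit : q = q.divX * X + C (q.coeff 0) := (Polynomial.divX_mul_X_add q).symm
    have h1 : aeval x q = aeval x q.divX * x + algebraMap K F (q.coeff 0) := by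
      conv_lhs => rw [hsplit]
      simp
    rw [h1]
    have h2 : v (aeval x q.divX * x) < 1 := by
      rw [map_mul]
      calc v (aeval x q.divX) * v x ≤ 1 * v x :=
            mul_le_mul_left (val_aeval_le_one v hK' hx.le _) _
        _ = v x := one_mul _
        _ < 1 := hx
    have h3 : v (algebraMap K F (q.coeff 0)) = 1 := hK _ hq0
    rw [v.map_add_eq_of_lt_right (by rw [h3]; exact h2), h3]
  conv_lhs => rw [hpq]
  rw [map_mul, map_pow, map_mul, map_pow, hqv, mul_one]
  simp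

/-- A valuation with values `≤ 1` on `K` is trivial on `K`. -/
theorem val_algebraMap_eq_one_of_le (hK : ∀ c : K, v (algebraMap K F c) ≤ 1) (c : K) (hc : c ≠ 0) :
    v (algebraMap K F c) = 1 := by
  have h1 := hK c
  have h2 := hK c⁻¹
  rw [map_inv₀, map_inv₀] at h2
  have h0 : v (algebraMap K F c) ≠ 0 := (v.ne_zero_iff).mpr (by simpa using hc)
  refine le_antisymm h1 ?_
  rwa [inv_le_one₀ (zero_lt_iff.mpr h0)] at h2

/-- If `v` is trivial on `K` then every nonzero `x` with `v x < 1` is transcendental over `K`. -/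
theorem transcendental_of_val_lt_one (hK : ∀ c : K, c ≠ 0 → v (algebraMap K F c) = 1) {x : F}
    (hx0 : x ≠ 0) (hx : v x < 1) : Transcendental K x := by
  rintro ⟨p, hp, hpx⟩
  obtain ⟨a, ha⟩ := exists_val_aeval_eq_pow v hK hx hp
  rw [hpx, map_zero] at ha
  exact (v.ne_zero_iff).mpr hx0 (pow_eq_zero_iff (n := a + 1) (by omega) |>.mp (by
    rw [pow_succ, ← ha, zero_mul]))

/-- The value group of `K(x)` is generated by `v x`. -/
theorem exists_val_eq_zpow_of_mem_adjoin (hK : ∀ c : K, c ≠ 0 → v (algebraMap K F c) = 1) {x : F}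
    (hx0 : x ≠ 0) (hx : v x < 1) {e : F} (he : e ∈ K⟮x⟯) (he0 : e ≠ 0) :
    ∃ a : ℤ, v e = v x ^ a := by
  obtain ⟨r, s, rfl⟩ := (mem_adjoin_simple_iff K e).mp he
  have hr : aeval x r ≠ 0 := fun h => he0 (by rw [h, zero_div])
  have hs : aeval x s ≠ 0 := fun h => he0 (by rw [h, div_zero])
  have hr0 : r ≠ 0 := fun h => hr (by rw [h, map_zero])
  have hs0 : s ≠ 0 := fun h => hs (by rw [h, map_zero])
  obtain ⟨a, ha⟩ := exists_val_aeval_eq_pow v hK hx hr0
  obtain ⟨b, hb⟩ := exists_val_aeval_eq_pow v hK hx hs0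
  refine ⟨a - b, ?_⟩
  have hvx0 : v x ≠ 0 := (v.ne_zero_iff).mpr hx0
  rw [map_div₀, ha, hb, zpow_sub₀ hvx0, zpow_natCast, zpow_natCast]

/-- Elements whose values lie in pairwise distinct cosets of `(v x)^ℤ` are linearly independent
over `K(x)`. -/
theorem linearIndependent_of_val (hK : ∀ c : K, c ≠ 0 → v (algebraMap K F c) = 1) {x : F}
    (hx0 : x ≠ 0) (hx : v x < 1) {ι : Type*} (y : ι → F) (hy0 : ∀ i, y i ≠ 0)
    (hy : ∀ i j, i ≠ j → ∀ a : ℤ, v (y i) ≠ v x ^ a * v (y j)) :
    LinearIndependent K⟮x⟯ y := by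
  classical
  rw [linearIndependent_iff']
  intro s g hsum
  by_contra hne
  push Not at hne
  obtain ⟨i₀, hi₀s, hi₀⟩ := hne
  -- the nonzero terms
  set s' := s.filter (fun i => g i ≠ 0) with hs'
  have hs'ne : s'.Nonempty := ⟨i₀, Finset.mem_filter.mpr ⟨hi₀s, hi₀⟩⟩
  obtain ⟨j, hjs', hjmax⟩ := Finset.exists_max_image s' (fun i => v ((g i : F) * y i)) hs'ne
  have hjs : j ∈ s := (Finset.mem_filter.mp hjs').1
  have hgj : g j ≠ 0 := (Finset.mem_filter.mp hjs').2
  have hgjF : (g j : F) ≠ 0 := fun h => hgj (Subtype.ext h)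
  have hvx0 : v x ≠ 0 := (v.ne_zero_iff).mpr hx0
  have hlt : ∀ i ∈ s \ {j}, v ((g i : F) * y i) < v ((g j : F) * y j) := by
    intro i hi
    rw [Finset.mem_sdiff, Finset.mem_singleton] at hi
    obtain ⟨his, hij⟩ := hi
    by_cases hgi : g i = 0
    · rw [hgi]
      simp only [ZeroMemClass.coe_zero, zero_mul, map_zero]
      exact zero_lt_iff.mpr ((v.ne_zero_iff).mpr (mul_ne_zero hgjF (hy0 j)))
    · have hgiF : (g i : F) ≠ 0 := fun h => hgi (Subtype.ext h)
      have hle := hjmax i (Finset.mem_filter.mpr ⟨his, hgi⟩)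
      refine lt_of_le_of_ne hle ?_
      intro heq
      obtain ⟨a, ha⟩ := exists_val_eq_zpow_of_mem_adjoin v hK hx0 hx (g i).2 hgiF
      obtain ⟨b, hb⟩ := exists_val_eq_zpow_of_mem_adjoin v hK hx0 hx (g j).2 hgjF
      rw [map_mul, map_mul, ha, hb] at heq
      apply hy i j hij (b - a)
      have hxa : v x ^ a ≠ 0 := zpow_ne_zero _ hvx0
      rw [zpow_sub₀ hvx0]
      field_simp
      rw [mul_comm, heq, mul_comm]
  have hval := v.map_sum_eq_of_lt hjs hlt
  have hsum' : ∑ i ∈ s, (g i : F) * y i = 0 := by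
    have := hsum
    simpa [IntermediateField.smul_def] using this
  rw [hsum', map_zero] at hval
  exact (v.ne_zero_iff).mpr (mul_ne_zero hgjF (hy0 j)) hval.symm

/-- **Chain lemma.** A family with pairwise distinct values in `[v x, 1)` has at most
`[F : K(x)]` members. -/
theorem card_le_finrank_of_val_chain (hK : ∀ c : K, c ≠ 0 → v (algebraMap K F c) = 1) {x : F}
    (hx0 : x ≠ 0) (hx : v x < 1) [FiniteDimensional K⟮x⟯ F] {ι : Type*} [Fintype ι] (y : ι → F)
    (hinj : Function.Injective fun i => v (y i)) (hlo : ∀ i, v x ≤ v (y i))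
    (hhi : ∀ i, v (y i) < 1) : Fintype.card ι ≤ Module.finrank K⟮x⟯ F := by
  have hvx0 : v x ≠ 0 := (v.ne_zero_iff).mpr hx0
  have hy0 : ∀ i, y i ≠ 0 := fun i h => by
    have := hlo i
    rw [h, map_zero] at this
    exact hvx0 (le_antisymm this zero_le)
  have key : ∀ i j, i ≠ j → ∀ a : ℕ, v (y i) ≠ v x ^ a * v (y j) := by
    intro i j hij a h
    rcases Nat.eq_zero_or_pos a with rfl | ha
    · rw [pow_zero, one_mul] at h
      exact hij (hinj h)
    · have h1 : v x ^ a ≤ v x := by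
        calc v x ^ a = v x ^ (a - 1) * v x := by rw [← pow_succ, Nat.sub_add_cancel ha]
          _ ≤ 1 * v x := mul_le_mul_left (pow_le_one' hx.le _) _
          _ = v x := one_mul _
      have h2 : v (y i) < v x := by
        rw [h]
        calc v x ^ a * v (y j) < v x ^ a * 1 := by
              exact mul_lt_mul_of_pos_left (hhi j) (zero_lt_iff.mpr (pow_ne_zero _ hvx0))
          _ = v x ^ a := mul_one _
          _ ≤ v x := h1
      exact absurd (hlo i) (not_le.mpr h2)
  have hli := linearIndependent_of_val v hK hx0 hx y hy0 (by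
    intro i j hij a h
    rcases le_or_gt 0 a with ha | ha
    · obtain ⟨n, rfl⟩ := Int.eq_ofNat_of_zero_le ha
      rw [zpow_natCast] at h
      exact key i j hij n h
    · obtain ⟨n, hn⟩ := Int.eq_ofNat_of_zero_le (show 0 ≤ -a by omega)
      have ha' : a = -(n : ℤ) := by omega
      rw [ha', zpow_neg, zpow_natCast] at h
      apply key j i (Ne.symm hij) n
      rw [h, ← mul_assoc, mul_inv_cancel₀ (pow_ne_zero _ hvx0), one_mul])
  exact hli.fintype_card_le_finrank

end Fermat.Agent.S18.H905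

end
-- ===== PACK-END S18/H905/ValChain.lean

-- ===== PACK-BEGIN S15/H542/ModBSpec.lean
section


/-!
# S15, piece MOD-B (architect helper542): the complex bridge, sub-interface

`VeluModularPairStatement` (see `ModSpec.lean`) is split as follows.

* `VeluMapStatement` (B0): Vélu's curve commutes with field embeddings.
* `IsModularPairMapStatement` (B0'): `IsModularPair` is insensitive to field embeddings.
* `Uniformization E` / `UniformizationStatement` (B2 + B3): every elliptic curve over `ℂ` is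
  `ℂ/Λ`, via `z ↦ (℘(z) - b₂/12, (℘'(z) - a₁ x - a₃)/2)`, an additive surjection with kernel `Λ`.
* `LatticeVeluStatement` (B4): for `Λ' = Λ + ℤ z₀` (`p z₀ ∈ Λ`, `z₀ ∉ Λ`),
  `g₂(Λ') = g₂(Λ) + 10 ∑_{k=1}^{p-1} ℘''(k z₀)`, `g₃(Λ') = g₃(Λ) + (7/6) ∑_{k=1}^{p-1} ℘''''(k z₀)`,
  with `℘'' = 6℘² - g₂/2`, `℘'''' = 120 ℘³ - 18 g₂ ℘ - 12 g₃`.
* `LatticeModularPairStatement` (B5): for such `Λ ⊂ Λ'`, `Δ(Λ') ≠ 0` and
  `(j(Λ), j(Λ'))` is a point of the plane model of `X₀(p)`.
* `VeluModularPairComplexStatement` (B-ℂ): the bridge over `ℂ`.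
-/

set_option autoImplicit false

noncomputable section

open WeierstrassCurve AlgebraicCurve ModularCurve
open scoped WeierstrassCurve.Affine

namespace Fermat.Agent.S15.H542

/-- **B0.**  Vélu's curve commutes with field embeddings. -/
def VeluMapStatement : Prop :=
  ∀ {K L : Type} [Field K] [Field L] [DecidableEq K] [DecidableEq L] [Algebra K L]
    (W : WeierstrassCurve K) (Q : W.toAffine.Point) (p : ℕ),
    veluCurve (W⁄L) (WeierstrassCurve.Affine.Point.map (W' := W) (Algebra.ofId K L) Q) p =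
      (veluCurve W Q p).map (algebraMap K L)

/-- **B0'.**  `IsModularPair` only depends on the pair up to field embeddings. -/
def IsModularPairMapStatement : Prop :=
  ∀ {K L : Type} [Field K] [Field L] [Algebra ℚ K] [Algebra ℚ L] (f : K →+* L)
    (N : ℕ) [NeZero N] (a a' : K),
    IsModularPair N (f a) (f a') ↔ IsModularPair N a a'

/-- The lattice `j`-invariant `1728 g₂³ / (g₂³ - 27 g₃²)`. -/
def latticeJ (L : PeriodPair) : ℂ := 1728 * L.g₂ ^ 3 / (L.g₂ ^ 3 - 27 * L.g₃ ^ 2)

/-- Complex uniformisation data for an elliptic curve over `ℂ`. -/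
structure Uniformization [DecidableEq ℂ] (E : WeierstrassCurve ℂ) where
  /-- the period lattice -/
  L : PeriodPair
  g₂_eq : L.g₂ = E.c₄ / 12
  g₃_eq : L.g₃ = E.c₆ / 216
  /-- the parametrisation -/
  φ : ℂ →+ E.toAffine.Point
  φ_surjective : Function.Surjective φ
  φ_eq_zero_iff : ∀ z : ℂ, φ z = 0 ↔ z ∈ L.lattice
  xOf_φ : ∀ z : ℂ, z ∉ L.lattice → xOf (φ z) = L.weierstrassP z - E.b₂ / 12
  yOf_φ : ∀ z : ℂ, z ∉ L.lattice →
    2 * yOf (φ z) + E.a₁ * xOf (φ z) + E.a₃ = L.derivWeierstrassP z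

/-- **B2 + B3.**  Every elliptic curve over `ℂ` has a uniformisation. -/
def UniformizationStatement : Prop :=
  ∀ [DecidableEq ℂ] (E : WeierstrassCurve ℂ), E.Δ ≠ 0 → Nonempty (Uniformization E)

/-- `Λ' = Λ + ℤ z₀`. -/
def IsSuperLattice (L L' : PeriodPair) (z₀ : ℂ) : Prop :=
  ∀ z : ℂ, z ∈ L'.lattice ↔ ∃ k : ℤ, z - k * z₀ ∈ L.lattice

/-- **B4.**  The lattice form of Vélu's formulas. -/
def LatticeVeluStatement : Prop :=
  ∀ (L : PeriodPair) (p : ℕ) (_hp : p.Prime) (_hp2 : p ≠ 2) (z₀ : ℂ)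
    (_h0 : z₀ ∉ L.lattice) (_hpz : (p : ℂ) * z₀ ∈ L.lattice),
    ∃ L' : PeriodPair, IsSuperLattice L L' z₀ ∧
      L'.g₂ = L.g₂ + 10 * ∑ k ∈ Finset.Icc 1 (p - 1),
        (6 * L.weierstrassP (k * z₀) ^ 2 - L.g₂ / 2) ∧
      L'.g₃ = L.g₃ + 7 / 6 * ∑ k ∈ Finset.Icc 1 (p - 1),
        (120 * L.weierstrassP (k * z₀) ^ 3 - 18 * L.g₂ * L.weierstrassP (k * z₀) - 12 * L.g₃)

/-- **B5.**  Lattices of index `p` give points of the plane model of `X₀(p)`. -/
def LatticeModularPairStatement : Prop :=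
  ∀ (p : ℕ) [NeZero p] (_hp : p.Prime) (L L' : PeriodPair) (z₀ : ℂ)
    (_h0 : z₀ ∉ L.lattice) (_hpz : (p : ℂ) * z₀ ∈ L.lattice) (_hL' : IsSuperLattice L L' z₀),
    L.g₂ ^ 3 - 27 * L.g₃ ^ 2 ≠ 0 ∧ L'.g₂ ^ 3 - 27 * L'.g₃ ^ 2 ≠ 0 ∧
      IsModularPair p (latticeJ L) (latticeJ L')

/-- **B-ℂ.**  The bridge over `ℂ`. -/
def VeluModularPairComplexStatement : Prop :=
  ∀ [DecidableEq ℂ] (p : ℕ) [NeZero p] (_hp : p.Prime) (_hp2 : p ≠ 2)
    (E : WeierstrassCurve ℂ) (_hΔ : E.Δ ≠ 0)
    (Q : E.toAffine.Point) (_hQord : addOrderOf Q = p),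
    (veluCurve E Q p).Δ ≠ 0 ∧ IsModularPair p (jInv E) (jInv (veluCurve E Q p))

end Fermat.Agent.S15.H542

end
end
-- ===== PACK-END S15/H542/ModBSpec.lean

-- ===== PACK-BEGIN S20/JInjective.lean
section
/-
S20 / T3 (helper588): `j` is injective modulo `SL(2,ℤ)`, assuming
* T1: a lattice is determined by `g₂, g₃`;
* T2: `g₂, g₃` of the lattice `ℤ + ℤτ` are (fixed) multiples of `E₄ τ`, `E₆ τ`.
-/


set_option autoImplicit false

open UpperHalfPlane ModularForm MatrixGroups EisensteinSeries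

noncomputable section

namespace Fermat.Agent.S20.JInjective

/-- `1, τ` are `ℝ`-linearly independent for `τ ∈ ℍ`. -/
theorem linearIndependent_one_coe (τ : ℍ) : LinearIndependent ℝ ![(1 : ℂ), (τ : ℂ)] := by
  rw [LinearIndependent.pair_iff]
  intro s t h
  have him := congrArg Complex.im h
  have hre := congrArg Complex.re h
  simp at him hre
  have ht : t = 0 := by
    rcases him with h | h
    · exact h
    · exact absurd h τ.im_ne_zero
  subst ht
  simpa using hre

/-- the period pair `(1, τ)` -/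
def pairOf (τ : ℍ) : PeriodPair where
  ω₁ := 1
  ω₂ := τ
  indep := linearIndependent_one_coe τ

@[simp] lemma pairOf_ω₁ (τ : ℍ) : (pairOf τ).ω₁ = 1 := rfl
@[simp] lemma pairOf_ω₂ (τ : ℍ) : (pairOf τ).ω₂ = τ := rfl

/-- the period pair `(c ω₁, c ω₂)` -/
def scalePair (L : PeriodPair) (c : ℂ) (hc : c ≠ 0) : PeriodPair where
  ω₁ := c * L.ω₁
  ω₂ := c * L.ω₂
  indep := by
    have h := L.indep
    rw [LinearIndependent.pair_iff] at h ⊢
    intro s t hst
    apply h s t
    have : c * (s • L.ω₁ + t • L.ω₂) = 0 := by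
      rw [← hst]
      simp only [Complex.real_smul]
      ring
    rcases mul_eq_zero.mp this with h0 | h0
    · exact absurd h0 hc
    · exact h0

@[simp] lemma scalePair_ω₁ (L : PeriodPair) (c : ℂ) (hc : c ≠ 0) :
    (scalePair L c hc).ω₁ = c * L.ω₁ := rfl
@[simp] lemma scalePair_ω₂ (L : PeriodPair) (c : ℂ) (hc : c ≠ 0) :
    (scalePair L c hc).ω₂ = c * L.ω₂ := rfl

lemma mem_scalePair_lattice (L : PeriodPair) (c : ℂ) (hc : c ≠ 0) (x : ℂ) :
    x ∈ (scalePair L c hc).lattice ↔ c⁻¹ * x ∈ L.lattice := by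
  simp only [PeriodPair.mem_lattice, scalePair_ω₁, scalePair_ω₂]
  constructor
  · rintro ⟨m, n, rfl⟩
    refine ⟨m, n, ?_⟩
    field_simp
  · rintro ⟨m, n, h⟩
    refine ⟨m, n, ?_⟩
    have : x = c * (c⁻¹ * x) := by field_simp
    rw [this, ← h]
    ring

lemma mul_mem_scalePair_lattice (L : PeriodPair) (c : ℂ) (hc : c ≠ 0) (x : ℂ) :
    c * x ∈ (scalePair L c hc).lattice ↔ x ∈ L.lattice := by
  rw [mem_scalePair_lattice]
  rw [inv_mul_cancel_left₀ hc]

/-- multiplication by `c` as an equivalence of lattices -/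
def scaleEquiv (L : PeriodPair) (c : ℂ) (hc : c ≠ 0) :
    L.lattice ≃ (scalePair L c hc).lattice where
  toFun l := ⟨c * l, (mul_mem_scalePair_lattice L c hc _).2 l.2⟩
  invFun l := ⟨c⁻¹ * l, (mem_scalePair_lattice L c hc _).1 l.2⟩
  left_inv l := by
    ext
    simp [inv_mul_cancel_left₀ hc]
  right_inv l := by
    ext
    simp [mul_inv_cancel_left₀ hc]

lemma G_scalePair (L : PeriodPair) (c : ℂ) (hc : c ≠ 0) (n : ℕ) :
    (scalePair L c hc).G n = (c ^ n)⁻¹ * L.G n := by
  unfold PeriodPair.G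
  rw [← (scaleEquiv L c hc).tsum_eq, ← tsum_mul_left]
  congr 1
  ext l
  simp [scaleEquiv, mul_pow, mul_comm]

lemma g₂_scalePair (L : PeriodPair) (c : ℂ) (hc : c ≠ 0) :
    (scalePair L c hc).g₂ = (c ^ 4)⁻¹ * L.g₂ := by
  unfold PeriodPair.g₂
  rw [G_scalePair]
  ring

lemma g₃_scalePair (L : PeriodPair) (c : ℂ) (hc : c ≠ 0) :
    (scalePair L c hc).g₃ = (c ^ 6)⁻¹ * L.g₃ := by
  unfold PeriodPair.g₃
  rw [G_scalePair]
  ring

/-- algebra: from `a³ b'² = a'³ b²` with `a³ ≠ b²`, `a'³ ≠ b'²`, find `μ ≠ 0` with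
`a' = μ⁴ a`, `b' = μ⁶ b`. -/
lemma exists_scale (a b a' b' : ℂ) (hd : a ^ 3 - b ^ 2 ≠ 0) (hd' : a' ^ 3 - b' ^ 2 ≠ 0)
    (h : a ^ 3 * b' ^ 2 = a' ^ 3 * b ^ 2) :
    ∃ μ : ℂ, μ ≠ 0 ∧ a' = μ ^ 4 * a ∧ b' = μ ^ 6 * b := by
  by_cases ha : a = 0
  · subst ha
    have hb : b ≠ 0 := by
      intro hb; apply hd; simp [hb]
    have ha' : a' = 0 := by
      have : a' ^ 3 * b ^ 2 = 0 := by rw [← h]; simp
      rcases mul_eq_zero.mp this with h1 | h1
      · exact pow_eq_zero_iff (by norm_num) |>.mp h1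
      · exact absurd (pow_eq_zero_iff (by norm_num) |>.mp h1) hb
    subst ha'
    have hb' : b' ≠ 0 := by
      intro hb'; apply hd'; simp [hb']
    obtain ⟨μ, hμ⟩ := IsAlgClosed.exists_pow_nat_eq (b' / b) (n := 6) (by norm_num)
    refine ⟨μ, ?_, by simp, ?_⟩
    · rintro rfl
      have : b' / b = 0 := by rw [← hμ]; simp
      exact div_ne_zero hb' hb this
    · rw [hμ]; field_simp
  by_cases hb : b = 0
  · subst hb
    have hb' : b' = 0 := by
      have : a ^ 3 * b' ^ 2 = 0 := by rw [h]; simp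
      rcases mul_eq_zero.mp this with h1 | h1
      · exact absurd (pow_eq_zero_iff (by norm_num) |>.mp h1) ha
      · exact pow_eq_zero_iff (by norm_num) |>.mp h1
    subst hb'
    have ha' : a' ≠ 0 := by
      intro ha'; apply hd'; simp [ha']
    obtain ⟨μ, hμ⟩ := IsAlgClosed.exists_pow_nat_eq (a' / a) (n := 4) (by norm_num)
    refine ⟨μ, ?_, ?_, by simp⟩
    · rintro rfl
      have : a' / a = 0 := by rw [← hμ]; simp
      exact div_ne_zero ha' ha this
    · rw [hμ]; field_simp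
  have ha' : a' ≠ 0 := by
    rintro rfl
    have : a ^ 3 * b' ^ 2 = 0 := by rw [h]; simp
    rcases mul_eq_zero.mp this with h1 | h1
    · exact absurd (pow_eq_zero_iff (by norm_num) |>.mp h1) ha
    · have hb' : b' = 0 := pow_eq_zero_iff (by norm_num) |>.mp h1
      apply hd'; simp [hb']
  have hb' : b' ≠ 0 := by
    rintro rfl
    have : a' ^ 3 * b ^ 2 = 0 := by rw [← h]; simp
    rcases mul_eq_zero.mp this with h1 | h1
    · exact absurd (pow_eq_zero_iff (by norm_num) |>.mp h1) ha'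
    · exact absurd (pow_eq_zero_iff (by norm_num) |>.mp h1) hb
  obtain ⟨μ, hμ⟩ := IsAlgClosed.exists_pow_nat_eq (a * b' / (a' * b)) (n := 2) (by norm_num)
  have hμ0 : μ ≠ 0 := by
    rintro rfl
    have : a * b' / (a' * b) = 0 := by rw [← hμ]; simp
    exact div_ne_zero (mul_ne_zero ha hb') (mul_ne_zero ha' hb) this
  have h4 : μ ^ 4 = a' / a := by
    have : μ ^ 4 = (μ ^ 2) ^ 2 := by ring
    rw [this, hμ]
    field_simp
    exact h
  refine ⟨μ, hμ0, ?_, ?_⟩
  · rw [h4]; field_simp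
  · have : μ ^ 6 = μ ^ 4 * μ ^ 2 := by ring
    rw [this, h4, hμ]
    field_simp

/-- **T3, conditional form.** `j` is injective modulo `SL(2,ℤ)`, assuming that lattices are
determined by `g₂, g₃` (T1) and that `g₂, g₃` of `ℤ + ℤ τ` are fixed multiples of `E₄ τ`, `E₆ τ`. -/
theorem exists_smul_eq_of_j_eq_of
    (T1 : ∀ L L' : PeriodPair, L.g₂ = L'.g₂ → L.g₃ = L'.g₃ → L.lattice = L'.lattice)
    (c₂ c₃ : ℂ) (T2a : ∀ τ : ℍ, (pairOf τ).g₂ = c₂ * E₄ τ)
    (T2b : ∀ τ : ℍ, (pairOf τ).g₃ = c₃ * E₆ τ)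
    (τ τ' : ℍ) (h : E₄ τ ^ 3 * discriminant τ' = E₄ τ' ^ 3 * discriminant τ) :
    ∃ γ : SL(2, ℤ), γ • τ = τ' := by
  -- Step 1: the scaling factor
  have hΔ := discriminant_eq_E₄_cube_sub_E₆_sq τ
  have hΔ' := discriminant_eq_E₄_cube_sub_E₆_sq τ'
  have hne := discriminant_ne_zero τ
  have hne' := discriminant_ne_zero τ'
  have hd : E₄ τ ^ 3 - E₆ τ ^ 2 ≠ 0 := by
    intro h0; apply hne; rw [hΔ, h0]; simp
  have hd' : E₄ τ' ^ 3 - E₆ τ' ^ 2 ≠ 0 := by
    intro h0; apply hne'; rw [hΔ', h0]; simp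
  have hab : E₄ τ ^ 3 * E₆ τ' ^ 2 = E₄ τ' ^ 3 * E₆ τ ^ 2 := by
    rw [hΔ, hΔ'] at h
    linear_combination (-1728 : ℂ) * h
  obtain ⟨μ, hμ0, hμ4, hμ6⟩ := exists_scale _ _ _ _ hd hd' hab
  -- Step 2: equality of lattices
  have hμi : μ⁻¹ ≠ 0 := inv_ne_zero hμ0
  have hlat : (scalePair (pairOf τ) μ⁻¹ hμi).lattice = (pairOf τ').lattice := by
    apply T1
    · rw [g₂_scalePair, T2a, T2a, hμ4]; simp only [inv_pow, inv_inv]; ring
    · rw [g₃_scalePair, T2b, T2b, hμ6]; simp only [inv_pow, inv_inv]; ring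
  have key : ∀ x : ℂ, x ∈ (pairOf τ').lattice ↔ μ * x ∈ (pairOf τ).lattice := by
    intro x
    rw [← hlat, mem_scalePair_lattice, inv_inv]
  -- Step 3: the integer matrix
  obtain ⟨d, c, hdc⟩ := PeriodPair.mem_lattice.mp ((key 1).1 (pairOf τ').ω₁_mem_lattice)
  obtain ⟨b, a, hba⟩ := PeriodPair.mem_lattice.mp ((key τ').1 (pairOf τ').ω₂_mem_lattice)
  have h1 : μ⁻¹ ∈ (pairOf τ').lattice := by
    rw [key, mul_inv_cancel₀ hμ0]; exact (pairOf τ).ω₁_mem_lattice
  have h2 : μ⁻¹ * τ ∈ (pairOf τ').lattice := by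
    rw [key, mul_inv_cancel_left₀ hμ0]; exact (pairOf τ).ω₂_mem_lattice
  obtain ⟨s, r, hsr⟩ := PeriodPair.mem_lattice.mp h1
  obtain ⟨q, p, hqp⟩ := PeriodPair.mem_lattice.mp h2
  simp only [pairOf_ω₁, pairOf_ω₂, mul_one] at hdc hba hsr hqp
  -- Step 4: the matrix is invertible over `ℤ`
  have hind := (pairOf τ).indep
  rw [LinearIndependent.pair_iff] at hind
  simp only [pairOf_ω₁, pairOf_ω₂] at hind
  have e1 : ((s * d + r * b - 1 : ℤ) : ℂ) + ((s * c + r * a : ℤ) : ℂ) * τ = 0 := by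
    have : μ * μ⁻¹ = 1 := mul_inv_cancel₀ hμ0
    rw [← hsr] at this
    push_cast
    linear_combination this + (s : ℂ) * hdc + (r : ℂ) * hba
  have e2 : ((q * d + p * b : ℤ) : ℂ) + ((q * c + p * a - 1 : ℤ) : ℂ) * τ = 0 := by
    have : μ * (μ⁻¹ * τ) = τ := mul_inv_cancel_left₀ hμ0 _
    rw [← hqp] at this
    push_cast
    linear_combination this + (q : ℂ) * hdc + (p : ℂ) * hba
  have f1 := hind ((s * d + r * b - 1 : ℤ) : ℝ) ((s * c + r * a : ℤ) : ℝ)
    (by simpa using e1)
  have f2 := hind ((q * d + p * b : ℤ) : ℝ) ((q * c + p * a - 1 : ℤ) : ℝ)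
    (by simpa using e2)
  have g1 : s * d + r * b - 1 = 0 := by exact_mod_cast f1.1
  have g2 : s * c + r * a = 0 := by exact_mod_cast f1.2
  have g3 : q * d + p * b = 0 := by exact_mod_cast f2.1
  have g4 : q * c + p * a - 1 = 0 := by exact_mod_cast f2.2
  have hunit : (a * d - b * c) * (p * s - q * r) = 1 := by
    linear_combination (q * c + p * a) * g1 + g4 - (q * d + p * b) * g2
  have hpm : a * d - b * c = 1 ∨ a * d - b * c = -1 :=
    Int.isUnit_iff.mp (IsUnit.of_mul_eq_one _ hunit)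
  -- Step 5: the determinant is positive
  have hIm : (a : ℝ) * τ.im = (d + c * τ.re) * τ'.im + c * τ.im * τ'.re := by
    have := congrArg Complex.im hba
    rw [← hdc] at this
    simp at this
    linarith
  have hRe : (b : ℝ) + a * τ.re = (d + c * τ.re) * τ'.re - c * τ.im * τ'.im := by
    have := congrArg Complex.re hba
    rw [← hdc] at this
    simp at this
    linarith
  have hN : 0 < ((d : ℝ) + c * τ.re) ^ 2 + (c * τ.im) ^ 2 := by
    have h0 : 0 < Complex.normSq μ := Complex.normSq_pos.mpr hμ0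
    rw [← hdc] at h0
    simp [Complex.normSq_apply] at h0
    nlinarith [h0]
  have hpos : ((a * d - b * c : ℤ) : ℝ) * τ.im =
      (((d : ℝ) + c * τ.re) ^ 2 + (c * τ.im) ^ 2) * τ'.im := by
    push_cast
    linear_combination (d + c * τ.re) * hIm - (c * τ.im) * hRe
  have hdet : a * d - b * c = 1 := by
    rcases hpm with h1 | h1
    · exact h1
    · exfalso
      rw [h1] at hpos
      have := mul_pos hN τ'.im_pos
      have := τ.im_pos
      push_cast at hpos
      nlinarith
  -- Step 6: the Möbius transformation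
  refine ⟨⟨!![a, b; c, d], by rw [Matrix.det_fin_two_of]; exact hdet⟩, ?_⟩
  apply UpperHalfPlane.ext
  have hγ := coe_specialLinearGroup_apply (R := ℤ)
    (⟨!![a, b; c, d], by rw [Matrix.det_fin_two_of]; exact hdet⟩ : SL(2, ℤ)) τ
  rw [hγ]
  simp only [Matrix.of_apply, Matrix.cons_val_zero,
    Matrix.cons_val_one, Matrix.cons_val', Matrix.cons_val_fin_one, algebraMap_int_eq,
    Int.coe_castRingHom, Complex.ofReal_intCast]
  have hμ' : (c : ℂ) * τ + d = μ := by rw [← hdc]; ring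
  rw [hμ', div_eq_iff hμ0]
  linear_combination hba

/-- **T3, conditional form (Spec-shaped hypotheses).** -/
theorem exists_smul_eq_of_j_eq_of_G
    (T1 : ∀ L L' : PeriodPair, L.g₂ = L'.g₂ → L.g₃ = L'.g₃ → L.lattice = L'.lattice)
    (T2 : ∀ (τ : ℍ) {k : ℕ} (hk : 3 ≤ k), (pairOf τ).G k = 2 * riemannZeta k * E hk τ)
    (τ τ' : ℍ) (h : E₄ τ ^ 3 * discriminant τ' = E₄ τ' ^ 3 * discriminant τ) :
    ∃ γ : SL(2, ℤ), γ • τ = τ' := by
  refine exists_smul_eq_of_j_eq_of T1 (60 * (2 * riemannZeta (4 : ℕ)))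
    (140 * (2 * riemannZeta (6 : ℕ))) ?_ ?_ τ τ' h
  · intro z
    rw [PeriodPair.g₂, T2 z (by norm_num : 3 ≤ 4)]
    ring
  · intro z
    rw [PeriodPair.g₃, T2 z (by norm_num : 3 ≤ 6)]
    ring

end Fermat.Agent.S20.JInjective

end
end
-- ===== PACK-END S20/JInjective.lean

-- ===== PACK-BEGIN S15/H226/WpDeriv.lean
section


/-!
# S15 / MOD-B3 (helper226): derivative of `℘'` and the elliptic Liouville principle

Mathlib-only.  Main results:

* `countable_lattice226`, `isPreconnected_compl_lattice226`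
* `deriv_derivWeierstrassP226` : `deriv ℘' z = 6 ℘ z ^ 2 - g₂ / 2` off the lattice
* `elliptic_const226` : a meromorphic `Λ`-periodic function all of whose orders are `≥ 0`
  is constant on its continuity points.
-/

set_option autoImplicit false

open Filter Topology

noncomputable section

namespace Fermat.Agent.S15.H226

open PeriodPair

theorem countable_lattice226 (L : PeriodPair) : (L.lattice : Set ℂ).Countable := by
  have : Countable L.lattice := L.latticeEquivProd.toEquiv.countable_iff.mpr inferInstance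
  exact Set.countable_coe_iff.mp this

theorem isPreconnected_compl_lattice226 (L : PeriodPair) :
    IsPreconnected ((L.lattice : Set ℂ)ᶜ) := by
  have h : 1 < Module.rank ℝ ℂ := by
    rw [Complex.rank_real_complex]; norm_num
  exact ((countable_lattice226 L).isConnected_compl_of_one_lt_rank h).isPreconnected

theorem hasDerivAt_weierstrassP226 (L : PeriodPair) {z : ℂ} (hz : z ∉ L.lattice) :
    HasDerivAt ℘[L] (℘'[L] z) z := by
  have h := (L.analyticOnNhd_weierstrassP z hz).differentiableAt.hasDerivAt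
  rwa [L.deriv_weierstrassP] at h

theorem hasDerivAt_derivWeierstrassP226 (L : PeriodPair) {z : ℂ} (hz : z ∉ L.lattice) :
    HasDerivAt ℘'[L] (deriv ℘'[L] z) z :=
  (L.analyticOnNhd_derivWeierstrassP z hz).differentiableAt.hasDerivAt

/-- `℘'` does not vanish identically off the lattice. -/
theorem not_forall_derivWeierstrassP_eq_zero226 (L : PeriodPair) :
    ¬ ∀ z ∈ (L.lattice : Set ℂ)ᶜ, ℘'[L] z = 0 := by
  intro h
  have hopen : IsOpen ((L.lattice : Set ℂ)ᶜ) := L.isClosed_lattice.isOpen_compl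
  have hconst : ∀ z ∈ (L.lattice : Set ℂ)ᶜ, ℘[L] z = ℘[L] (L.ω₁ / 2) := by
    intro z hz
    refine hopen.is_const_of_deriv_eq_zero (isPreconnected_compl_lattice226 L)
      L.differentiableOn_weierstrassP ?_ hz L.ω₁_div_two_notMem_lattice
    intro x hx
    rw [L.deriv_weierstrassP]
    exact h x hx
  have hev : ℘[L] =ᶠ[𝓝[≠] (0 : ℂ)] fun _ => ℘[L] (L.ω₁ / 2) := by
    filter_upwards [mem_nhdsWithin_of_mem_nhds (L.compl_lattice_sdiff_singleton_mem_nhds 0),
      self_mem_nhdsWithin] with z hz hz0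
    refine hconst z fun hzL => hz ⟨hzL, hz0⟩
  have h1 : meromorphicOrderAt ℘[L] 0 = meromorphicOrderAt (fun _ : ℂ => ℘[L] (L.ω₁ / 2)) 0 :=
    meromorphicOrderAt_congr hev
  have h2 : (0 : WithTop ℤ) ≤ meromorphicOrderAt (fun _ : ℂ => ℘[L] (L.ω₁ / 2)) 0 :=
    (analyticAt_const).meromorphicOrderAt_nonneg
  rw [← h1, L.order_weierstrassP 0 (zero_mem _)] at h2
  exact absurd h2 (by decide)

/-- `℘'' = 6 ℘² - g₂ / 2` off the lattice. -/
theorem deriv_derivWeierstrassP226 (L : PeriodPair) {z : ℂ} (hz : z ∉ L.lattice) :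
    deriv ℘'[L] z = 6 * ℘[L] z ^ 2 - L.g₂ / 2 := by
  have hopen : IsOpen ((L.lattice : Set ℂ)ᶜ) := L.isClosed_lattice.isOpen_compl
  -- the product relation
  have hprod : ∀ x ∈ (L.lattice : Set ℂ)ᶜ,
      ℘'[L] x * (deriv ℘'[L] x - (6 * ℘[L] x ^ 2 - L.g₂ / 2)) = 0 := by
    intro x hx
    have hP := hasDerivAt_weierstrassP226 L hx
    have hP' := hasDerivAt_derivWeierstrassP226 L hx
    have hL : HasDerivAt (fun y => ℘'[L] y ^ 2) (2 * ℘'[L] x * deriv ℘'[L] x) x := by
      simpa using hP'.fun_pow 2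
    have hR : HasDerivAt (fun y => 4 * ℘[L] y ^ 3 - L.g₂ * ℘[L] y - L.g₃)
        (4 * (3 * ℘[L] x ^ 2 * ℘'[L] x) - L.g₂ * ℘'[L] x) x := by
      have := (((hP.fun_pow 3).const_mul 4).sub (hP.const_mul L.g₂)).sub_const L.g₃
      simpa using this
    have heq : (fun y => ℘'[L] y ^ 2) =ᶠ[𝓝 x]
        fun y => 4 * ℘[L] y ^ 3 - L.g₂ * ℘[L] y - L.g₃ := by
      filter_upwards [hopen.mem_nhds hx] with y hy
      exact L.derivWeierstrassP_sq y hy
    have := (hL.congr_of_eventuallyEq heq.symm).unique hR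
    linear_combination (1 / 2 : ℂ) * this
  have hana1 : AnalyticOnNhd ℂ ℘'[L] (L.lattice : Set ℂ)ᶜ := L.analyticOnNhd_derivWeierstrassP
  have hana2 : AnalyticOnNhd ℂ (fun x => deriv ℘'[L] x - (6 * ℘[L] x ^ 2 - L.g₂ / 2))
      (L.lattice : Set ℂ)ᶜ := by
    intro x hx
    have h1 : AnalyticAt ℂ (deriv ℘'[L]) x := (L.analyticOnNhd_derivWeierstrassP x hx).deriv
    have h2 : AnalyticAt ℂ ℘[L] x := L.analyticOnNhd_weierstrassP x hx
    fun_prop
  rcases AnalyticOnNhd.eq_zero_or_eq_zero_of_mul_eq_zero hana1 hana2 hprod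
    (isPreconnected_compl_lattice226 L) with h | h
  · exact absurd h (not_forall_derivWeierstrassP_eq_zero226 L)
  · exact sub_eq_zero.mp (h z hz)

/-- Two functions continuous at `z` that agree on a punctured neighbourhood agree at `z`. -/
theorem eq_of_eventuallyEq_nhdsNE226 {f g : ℂ → ℂ} {z : ℂ} (hf : ContinuousAt f z)
    (hg : ContinuousAt g z) (h : f =ᶠ[𝓝[≠] z] g) : f z = g z := by
  have h1 : Tendsto f (𝓝[≠] z) (𝓝 (f z)) := hf.tendsto.mono_left nhdsWithin_le_nhds
  have h2 : Tendsto g (𝓝[≠] z) (𝓝 (g z)) := hg.tendsto.mono_left nhdsWithin_le_nhds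
  exact tendsto_nhds_unique (h1.congr' h) h2

/-- Translation of a punctured-neighbourhood equality. -/
theorem eventuallyEq_nhdsNE_comp_add226 {f g : ℂ → ℂ} {z l : ℂ} (h : f =ᶠ[𝓝[≠] (z + l)] g) :
    (fun y => f (y + l)) =ᶠ[𝓝[≠] z] fun y => g (y + l) := by
  rw [Filter.EventuallyEq, eventually_nhdsWithin_iff] at h ⊢
  have ht : Tendsto (fun y : ℂ => y + l) (𝓝 z) (𝓝 (z + l)) :=
    (continuous_id.add continuous_const).continuousAt
  filter_upwards [ht.eventually h] with y hy hyz
  exact hy (by simpa using hyz)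

/-- **Elliptic Liouville principle.**  A meromorphic function on `ℂ`, periodic with respect to
the lattice of `L`, all of whose orders are nonnegative, is constant on its continuity points. -/
theorem elliptic_const226 (L : PeriodPair) {f : ℂ → ℂ} (hf : Meromorphic f)
    (hord : ∀ z, 0 ≤ meromorphicOrderAt f z)
    (hper : ∀ z, ∀ l ∈ L.lattice, f (z + l) = f z) :
    ∃ c, ∀ z, ContinuousAt f z → f z = c := by
  have hfU : MeromorphicOn f Set.univ := fun x _ => hf x
  set g := toMeromorphicNFOn f Set.univ with hg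
  have hgNF : MeromorphicNFOn g Set.univ := meromorphicNFOn_toMeromorphicNFOn f Set.univ
  have hg_eq : ∀ x, g =ᶠ[𝓝[≠] x] f := fun x =>
    hfU.toMeromorphicNFOn_eq_self_on_nhdsNE (Set.mem_univ x)
  have hg_an : ∀ x, AnalyticAt ℂ g x := by
    intro x
    refine (hgNF (Set.mem_univ x)).meromorphicOrderAt_nonneg_iff_analyticAt.mp ?_
    rw [meromorphicOrderAt_congr (hg_eq x)]
    exact hord x
  have hg_diff : Differentiable ℂ g := fun x => (hg_an x).differentiableAt
  have hg_per : ∀ z w, w ∈ L.lattice → g (z + w) = g z := by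
    intro z w hw
    have h1 : (fun y => g (y + w)) =ᶠ[𝓝[≠] z] fun y => f (y + w) :=
      eventuallyEq_nhdsNE_comp_add226 (hg_eq (z + w))
    have h2 : (fun y => f (y + w)) =ᶠ[𝓝[≠] z] g := by
      refine Filter.EventuallyEq.trans ?_ (hg_eq z).symm
      exact Filter.Eventually.of_forall fun y => hper y w hw
    have hc : ContinuousAt (fun y => g (y + w)) z :=
      (hg_diff.continuous.comp (continuous_id.add continuous_const)).continuousAt
    exact eq_of_eventuallyEq_nhdsNE226 hc hg_diff.continuous.continuousAt (h1.trans h2)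
  have hbdd : Bornology.IsBounded (Set.range g) :=
    (IsZLattice.isCompact_range_of_periodic L.lattice g hg_diff.continuous hg_per).isBounded
  refine ⟨g 0, fun z hz => ?_⟩
  have h1 : f z = g z :=
    eq_of_eventuallyEq_nhdsNE226 hz hg_diff.continuous.continuousAt (hg_eq z).symm
  rw [h1]
  exact hg_diff.apply_eq_apply_of_bounded hbdd z 0

end Fermat.Agent.S15.H226

end
end
-- ===== PACK-END S15/H226/WpDeriv.lean

-- ===== PACK-BEGIN S15/H226/WpAdd.lean
section


/-!
# S15 / MOD-B3 U3 (helper226): the addition theorem for the Weierstrass `℘`-function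

Mathlib-only (through `WpDeriv`).  Main results, for `L : PeriodPair`:

* `addRel226_eq_zero` : for `z, w, z + w ∉ Λ`,
  `4 ℘(z+w) (℘ z - ℘ w)² = 4 ℘ z ℘ w (℘ z + ℘ w) - g₂ (℘ z + ℘ w) - 2 g₃ - 2 ℘' z ℘' w`.
* `weierstrassP_add226` : if moreover `℘ z ≠ ℘ w`,
  `℘(z+w) = ((℘' z - ℘' w)/(℘ z - ℘ w))² / 4 - ℘ z - ℘ w`.
-/

set_option autoImplicit false

open Filter Topology

noncomputable section

namespace Fermat.Agent.S15.H226

open PeriodPair

/-- The addition relation, as a function of `z` for fixed `w`.  It vanishes identically on the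
regular locus (`addRel226_eq_zero`). -/
def addRel226 (L : PeriodPair) (w z : ℂ) : ℂ :=
  4 * ℘[L] z * ℘[L] w * (℘[L] z + ℘[L] w) - L.g₂ * (℘[L] z + ℘[L] w) - 2 * L.g₃
    - 2 * ℘'[L] z * ℘'[L] w - 4 * ℘[L] (z + w) * (℘[L] z - ℘[L] w) ^ 2

theorem addRel226_symm (L : PeriodPair) (w z : ℂ) : addRel226 L w z = addRel226 L z w := by
  simp only [addRel226, add_comm w z]
  ring

theorem addRel226_add_coe (L : PeriodPair) (w z : ℂ) (l : ℂ) (hl : l ∈ L.lattice) :
    addRel226 L w (z + l) = addRel226 L w z := by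
  have h1 := L.weierstrassP_add_coe z ⟨l, hl⟩
  have h2 := L.derivWeierstrassP_add_coe z ⟨l, hl⟩
  have h3 := L.weierstrassP_add_coe (z + w) ⟨l, hl⟩
  simp only at h1 h2 h3
  simp only [addRel226, h1, h2, add_right_comm z l w, h3]

theorem addRel226_self (L : PeriodPair) {w : ℂ} (hw : w ∉ L.lattice) : addRel226 L w w = 0 := by
  have h := L.derivWeierstrassP_sq w hw
  simp only [addRel226]
  linear_combination (-2 : ℂ) * h

theorem meromorphic_shift226 (L : PeriodPair) (w : ℂ) : Meromorphic fun z => ℘[L] (z + w) := by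
  intro x
  exact (L.meromorphic_weierstrassP (x + w)).comp_analyticAt (g := fun z => z + w) (by fun_prop)

theorem meromorphic_addRel226 (L : PeriodPair) (w : ℂ) : Meromorphic (addRel226 L w) := by
  have h1 := L.meromorphic_weierstrassP
  have h2 := L.meromorphic_derivWeierstrassP
  have h3 := meromorphic_shift226 L w
  unfold addRel226
  fun_prop

theorem analyticAt_shift226 (L : PeriodPair) {w z : ℂ} (hzw : z + w ∉ L.lattice) :
    AnalyticAt ℂ (fun y => ℘[L] (y + w)) z := by
  have h : AnalyticAt ℂ ℘[L] (z + w) := L.analyticOnNhd_weierstrassP _ hzw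
  exact h.comp_of_eq (g := ℘[L]) (f := fun y => y + w) (by fun_prop) rfl

theorem analyticAt_addRel226 (L : PeriodPair) {w z : ℂ} (hz : z ∉ L.lattice)
    (hzw : z + w ∉ L.lattice) : AnalyticAt ℂ (addRel226 L w) z := by
  have h1 : AnalyticAt ℂ ℘[L] z := L.analyticOnNhd_weierstrassP _ hz
  have h2 : AnalyticAt ℂ ℘'[L] z := L.analyticOnNhd_derivWeierstrassP _ hz
  have h3 := analyticAt_shift226 L hzw
  unfold addRel226
  fun_prop

/-! ### Local expansions at `0` -/

theorem weierstrassPExcept_zero_zero226 (L : PeriodPair) : ℘[L - (0 : ℂ)] 0 = 0 := by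
  simp

/-- The regular part of `℘` at `0` vanishes to second order. -/
theorem exists_sq_factor226 (L : PeriodPair) :
    ∃ e : ℂ → ℂ, AnalyticAt ℂ e 0 ∧ ∀ᶠ z in 𝓝 (0 : ℂ), ℘[L - (0 : ℂ)] z = z ^ 2 * e z := by
  have han : AnalyticAt ℂ ℘[L - (0 : ℂ)] 0 := L.analyticAt_weierstrassPExcept 0
  have h2 : ((2 : ℕ) : ℕ∞) ≤ analyticOrderAt ℘[L - (0 : ℂ)] 0 := by
    rw [natCast_le_analyticOrderAt_iff_iteratedDeriv_eq_zero han]
    intro i hi
    rw [L.iteratedDeriv_weierstrassPExcept_self]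
    interval_cases i
    · simp
    · simp [L.G_eq_zero_of_odd 3 (by decide)]
  obtain ⟨g, hg, hgz⟩ := (natCast_le_analyticOrderAt han).mp h2
  exact ⟨g, hg, by simpa using hgz⟩

theorem weierstrassP_eq_except226 (L : PeriodPair) (z : ℂ) :
    ℘[L] z = ℘[L - (0 : ℂ)] z + 1 / z ^ 2 := by
  have h1 := L.weierstrassPExcept_def (0 : L.lattice) z
  simp only [ZeroMemClass.coe_zero, sub_zero, ne_eq, OfNat.ofNat_ne_zero, not_false_eq_true,
    zero_pow, div_zero, zero_sub] at h1
  rw [h1]; ring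

theorem derivWeierstrassP_eq_except226 (L : PeriodPair) (z : ℂ) :
    ℘'[L] z = ℘'[L - (0 : ℂ)] z - 2 / z ^ 3 := by
  have h2 := L.derivWeierstrassPExcept_def (0 : L.lattice) z
  simp only [ZeroMemClass.coe_zero, sub_zero] at h2
  rw [h2]; ring

theorem iteratedDeriv_succ_of_hasDerivAt226 {f f' : ℂ → ℂ} {z₀ : ℂ} (n : ℕ)
    (h : ∀ᶠ z in 𝓝 z₀, HasDerivAt f (f' z) z) :
    iteratedDeriv (n + 1) f z₀ = iteratedDeriv n f' z₀ := by
  rw [iteratedDeriv_succ']
  apply Filter.EventuallyEq.iteratedDeriv_eq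
  filter_upwards [h] with z hz using hz.deriv

theorem eventually_add_notMem226 (L : PeriodPair) {w z₀ : ℂ} (hw : z₀ + w ∉ L.lattice) :
    ∀ᶠ z in 𝓝 z₀, z + w ∉ L.lattice := by
  have ht : Tendsto (fun y : ℂ => y + w) (𝓝 z₀) (𝓝 (z₀ + w)) :=
    (continuous_id.add continuous_const).continuousAt
  exact ht.eventually (L.isClosed_lattice.isOpen_compl.mem_nhds hw)

/-- Third-order Taylor expansion of `℘` at a point `w` off the lattice. -/
theorem exists_taylor226 (L : PeriodPair) {w : ℂ} (hw : w ∉ L.lattice) :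
    ∃ R : ℂ → ℂ, AnalyticAt ℂ R 0 ∧ ∀ᶠ z in 𝓝 (0 : ℂ),
      ℘[L] (z + w) = ℘[L] w + ℘'[L] w * z + (3 * ℘[L] w ^ 2 - L.g₂ / 4) * z ^ 2
        + 2 * ℘[L] w * ℘'[L] w * z ^ 3 + z ^ 4 * R z := by
  set a := ℘[L] w with ha
  set b := ℘'[L] w with hb
  have hw0 : (0 : ℂ) + w ∉ L.lattice := by simpa using hw
  have hev := eventually_add_notMem226 L hw0
  -- the successive derivatives
  let f₀ : ℂ → ℂ := fun z => ℘[L] (z + w) -
    (a + b * z + (3 * a ^ 2 - L.g₂ / 4) * z ^ 2 + 2 * a * b * z ^ 3)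
  let f₁ : ℂ → ℂ := fun z => ℘'[L] (z + w) -
    (b + 2 * (3 * a ^ 2 - L.g₂ / 4) * z + 6 * a * b * z ^ 2)
  let f₂ : ℂ → ℂ := fun z => (6 * ℘[L] (z + w) ^ 2 - L.g₂ / 2) -
    (2 * (3 * a ^ 2 - L.g₂ / 4) + 12 * a * b * z)
  let f₃ : ℂ → ℂ := fun z => 12 * ℘[L] (z + w) * ℘'[L] (z + w) - 12 * a * b
  have hP : ∀ z, z + w ∉ L.lattice → HasDerivAt (fun y => ℘[L] (y + w)) (℘'[L] (z + w)) z := by
    intro z hz
    exact (hasDerivAt_weierstrassP226 L hz).comp_add_const z w
  have hP' : ∀ z, z + w ∉ L.lattice →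
      HasDerivAt (fun y => ℘'[L] (y + w)) (6 * ℘[L] (z + w) ^ 2 - L.g₂ / 2) z := by
    intro z hz
    have := (hasDerivAt_derivWeierstrassP226 L hz).comp_add_const z w
    rwa [deriv_derivWeierstrassP226 L hz] at this
  have h01 : ∀ᶠ z in 𝓝 (0 : ℂ), HasDerivAt f₀ (f₁ z) z := by
    filter_upwards [hev] with z hz
    have h1 : HasDerivAt (fun y : ℂ => a + b * y + (3 * a ^ 2 - L.g₂ / 4) * y ^ 2
        + 2 * a * b * y ^ 3) (b + 2 * (3 * a ^ 2 - L.g₂ / 4) * z + 6 * a * b * z ^ 2) z := by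
      have hid : HasDerivAt (fun y : ℂ => y) 1 z := hasDerivAt_id z
      have := (((hid.const_mul b).const_add a).fun_add ((hid.fun_pow 2).const_mul
        (3 * a ^ 2 - L.g₂ / 4))).fun_add ((hid.fun_pow 3).const_mul (2 * a * b))
      refine this.congr_deriv ?_
      push_cast
      ring
    exact (hP z hz).sub h1
  have h12 : ∀ᶠ z in 𝓝 (0 : ℂ), HasDerivAt f₁ (f₂ z) z := by
    filter_upwards [hev] with z hz
    have h1 : HasDerivAt (fun y : ℂ => b + 2 * (3 * a ^ 2 - L.g₂ / 4) * y + 6 * a * b * y ^ 2)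
        (2 * (3 * a ^ 2 - L.g₂ / 4) + 12 * a * b * z) z := by
      have hid : HasDerivAt (fun y : ℂ => y) 1 z := hasDerivAt_id z
      have := ((hid.const_mul (2 * (3 * a ^ 2 - L.g₂ / 4))).const_add b).fun_add
        ((hid.fun_pow 2).const_mul (6 * a * b))
      refine this.congr_deriv ?_
      push_cast
      ring
    exact (hP' z hz).sub h1
  have h23 : ∀ᶠ z in 𝓝 (0 : ℂ), HasDerivAt f₂ (f₃ z) z := by
    filter_upwards [hev] with z hz
    have h1 : HasDerivAt (fun y : ℂ => 2 * (3 * a ^ 2 - L.g₂ / 4) + 12 * a * b * y)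
        (12 * a * b) z := by
      have hid : HasDerivAt (fun y : ℂ => y) 1 z := hasDerivAt_id z
      have := (hid.const_mul (12 * a * b)).const_add (2 * (3 * a ^ 2 - L.g₂ / 4))
      simpa using this
    have h2 : HasDerivAt (fun y : ℂ => 6 * ℘[L] (y + w) ^ 2 - L.g₂ / 2)
        (12 * ℘[L] (z + w) * ℘'[L] (z + w)) z := by
      have := (((hP z hz).fun_pow 2).const_mul 6).sub_const (L.g₂ / 2)
      refine this.congr_deriv ?_
      push_cast
      ring
    exact h2.sub h1
  have han : AnalyticAt ℂ f₀ 0 := by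
    have h3 := analyticAt_shift226 L hw0
    show AnalyticAt ℂ (fun z => ℘[L] (z + w) -
      (a + b * z + (3 * a ^ 2 - L.g₂ / 4) * z ^ 2 + 2 * a * b * z ^ 3)) 0
    fun_prop
  have h4 : ((4 : ℕ) : ℕ∞) ≤ analyticOrderAt f₀ 0 := by
    rw [natCast_le_analyticOrderAt_iff_iteratedDeriv_eq_zero han]
    intro i hi
    interval_cases i
    · simp [f₀, ha]
    · rw [iteratedDeriv_succ_of_hasDerivAt226 0 h01]
      simp [f₁, hb]
    · rw [iteratedDeriv_succ_of_hasDerivAt226 1 h01, iteratedDeriv_succ_of_hasDerivAt226 0 h12]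
      simp [f₂, ha]; ring
    · rw [iteratedDeriv_succ_of_hasDerivAt226 2 h01, iteratedDeriv_succ_of_hasDerivAt226 1 h12,
        iteratedDeriv_succ_of_hasDerivAt226 0 h23]
      simp [f₃, ha, hb]
  obtain ⟨g, hg, hgz⟩ := (natCast_le_analyticOrderAt han).mp h4
  refine ⟨g, hg, ?_⟩
  filter_upwards [hgz] with z hz
  simp only [f₀, sub_zero, smul_eq_mul] at hz
  linear_combination hz

/-- The addition relation has a removable singularity at `0`. -/
theorem exists_analytic_at_zero226 (L : PeriodPair) {w : ℂ} (hw : w ∉ L.lattice) :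
    ∃ H : ℂ → ℂ, AnalyticAt ℂ H 0 ∧ addRel226 L w =ᶠ[𝓝[≠] (0 : ℂ)] H := by
  obtain ⟨e, he, hez⟩ := exists_sq_factor226 L
  obtain ⟨R, hR, hRz⟩ := exists_taylor226 L hw
  have hp : AnalyticAt ℂ ℘'[L - (0 : ℂ)] 0 := L.analyticAt_derivWeierstrassPExcept 0
  set a := ℘[L] w with ha
  set b := ℘'[L] w with hb
  refine ⟨fun z => 8 * a * e z + 4 * a * z ^ 4 * e z ^ 2 + (4 * a ^ 2 - L.g₂) * z ^ 2 * e z
      - (L.g₂ * a + 2 * L.g₃) - 2 * b * ℘'[L - (0 : ℂ)] z + 8 * a * (3 * a ^ 2 - L.g₂ / 4)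
      + 8 * a * (2 * a * b) * z
      - 4 * (a + b * z + (3 * a ^ 2 - L.g₂ / 4) * z ^ 2 + 2 * a * b * z ^ 3)
          * (a ^ 2 + 2 * (1 - a * z ^ 2) * e z + z ^ 4 * e z ^ 2)
      - 4 * R z * (1 - 2 * a * z ^ 2 + z ^ 4 * (a ^ 2 + 2 * (1 - a * z ^ 2) * e z
          + z ^ 4 * e z ^ 2)), by fun_prop, ?_⟩
  filter_upwards [hez.filter_mono nhdsWithin_le_nhds, hRz.filter_mono nhdsWithin_le_nhds,
    self_mem_nhdsWithin] with z h1 h2 hz0
  have hz0' : z ≠ 0 := hz0
  have e1 : ℘[L] z = z ^ 2 * e z + 1 / z ^ 2 := by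
    rw [weierstrassP_eq_except226, h1]
  have e2 : ℘'[L] z = ℘'[L - (0 : ℂ)] z - 2 / z ^ 3 := derivWeierstrassP_eq_except226 L z
  simp only [addRel226, e1, e2, h2, ← ha, ← hb]
  field_simp
  ring

theorem weierstrassP_eq_of_add_mem226 (L : PeriodPair) {w z₀ : ℂ} (hz₀ : z₀ + w ∈ L.lattice) :
    ℘[L] z₀ = ℘[L] w := by
  have h := L.weierstrassP_add_coe (-w) ⟨z₀ + w, hz₀⟩
  simp only [neg_add_cancel_comm_assoc, weierstrassP_neg] at h
  exact h

/-- The addition relation has a removable singularity at the points of `-w + Λ`. -/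
theorem exists_analytic_at_pole226 (L : PeriodPair) {w z₀ : ℂ} (hw : w ∉ L.lattice)
    (hz₀ : z₀ + w ∈ L.lattice) :
    ∃ H : ℂ → ℂ, AnalyticAt ℂ H z₀ ∧ addRel226 L w =ᶠ[𝓝[≠] z₀] H := by
  have hz₀' : z₀ ∉ L.lattice := fun h => hw (by simpa using sub_mem hz₀ h)
  have hx : ℘[L] z₀ = ℘[L] w := weierstrassP_eq_of_add_mem226 L hz₀
  set a := ℘[L] w with ha
  set b := ℘'[L] w with hb
  have h1 : AnalyticAt ℂ ℘[L] z₀ := L.analyticOnNhd_weierstrassP _ hz₀'
  have h2 : AnalyticAt ℂ ℘'[L] z₀ := L.analyticOnNhd_derivWeierstrassP _ hz₀'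
  -- `℘ z - a = (z - z₀) u z`
  have hf : AnalyticAt ℂ (fun z => ℘[L] z - a) z₀ := by fun_prop
  have hord : ((1 : ℕ) : ℕ∞) ≤ analyticOrderAt (fun z => ℘[L] z - a) z₀ := by
    rw [natCast_le_analyticOrderAt_iff_iteratedDeriv_eq_zero hf]
    intro i hi
    interval_cases i
    simp [hx]
  obtain ⟨u, hu, huz⟩ := (natCast_le_analyticOrderAt hf).mp hord
  -- the regular part of `℘ (z + w)`
  have h3 : AnalyticAt ℂ (fun z => ℘[L - (z₀ + w)] (z + w)) z₀ := by
    have h : AnalyticAt ℂ ℘[L - (z₀ + w)] (z₀ + w) := L.analyticAt_weierstrassPExcept (z₀ + w)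
    exact h.comp_of_eq (g := ℘[L - (z₀ + w)]) (f := fun y => y + w) (by fun_prop) rfl
  refine ⟨fun z => 4 * ℘[L] z * a * (℘[L] z + a) - L.g₂ * (℘[L] z + a) - 2 * L.g₃
      - 2 * ℘'[L] z * b
      - 4 * ((z - z₀) ^ 2 * (℘[L - (z₀ + w)] (z + w) - 1 / (z₀ + w) ^ 2) + 1) * u z ^ 2,
    by fun_prop, ?_⟩
  filter_upwards [huz.filter_mono nhdsWithin_le_nhds, self_mem_nhdsWithin] with z hz hz0
  have hz0' : z - z₀ ≠ 0 := sub_ne_zero.mpr hz0
  have e3 : ℘[L] (z + w) = ℘[L - (z₀ + w)] (z + w) + (1 / (z - z₀) ^ 2 - 1 / (z₀ + w) ^ 2) := by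
    have := L.weierstrassPExcept_add ⟨z₀ + w, hz₀⟩ (z + w)
    simp only at this
    rw [← this]
    congr 3
    ring
  simp only [pow_one, smul_eq_mul] at hz
  simp only [addRel226, ← ha, ← hb, e3, hz]
  field_simp
  ring

/-- All orders of the addition relation are nonnegative. -/
theorem meromorphicOrderAt_addRel226_nonneg (L : PeriodPair) {w : ℂ} (hw : w ∉ L.lattice)
    (z₀ : ℂ) : 0 ≤ meromorphicOrderAt (addRel226 L w) z₀ := by
  by_cases h0 : z₀ ∈ L.lattice
  · -- reduce to `0` by periodicity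
    have hper : addRel226 L w ∘ (· - z₀) = addRel226 L w := by
      funext z
      have := addRel226_add_coe L w (z - z₀) z₀ h0
      simpa using this.symm
    have h := meromorphicOrderAt_comp_sub_const_eq_meromorphicOrderAt
      (f := addRel226 L w) (c := z₀) (x := z₀)
    rw [hper, sub_self] at h
    rw [h]
    obtain ⟨H, hH, hHz⟩ := exists_analytic_at_zero226 L hw
    exact ((meromorphic_addRel226 L w) 0).meromorphicOrderAt_nonneg_iff.mpr ⟨H, hH, hHz⟩
  · by_cases h1 : z₀ + w ∈ L.lattice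
    · obtain ⟨H, hH, hHz⟩ := exists_analytic_at_pole226 L hw h1
      exact ((meromorphic_addRel226 L w) z₀).meromorphicOrderAt_nonneg_iff.mpr ⟨H, hH, hHz⟩
    · exact (analyticAt_addRel226 L h0 h1).meromorphicOrderAt_nonneg

/-- The addition relation is constant on the regular locus. -/
theorem exists_addRel226_const (L : PeriodPair) {w : ℂ} (hw : w ∉ L.lattice) :
    ∃ c, ∀ z, z ∉ L.lattice → z + w ∉ L.lattice → addRel226 L w z = c := by
  obtain ⟨c, hc⟩ := elliptic_const226 L (meromorphic_addRel226 L w)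
    (meromorphicOrderAt_addRel226_nonneg L hw) (fun z l hl => addRel226_add_coe L w z l hl)
  exact ⟨c, fun z hz hzw => hc z (analyticAt_addRel226 L hz hzw).continuousAt⟩

theorem addRel226_eq_zero_of_two (L : PeriodPair) {w z : ℂ} (hw : w ∉ L.lattice)
    (h2w : w + w ∉ L.lattice) (hz : z ∉ L.lattice) (hzw : z + w ∉ L.lattice) :
    addRel226 L w z = 0 := by
  obtain ⟨c, hc⟩ := exists_addRel226_const L hw
  rw [hc z hz hzw, ← hc w hw h2w]
  exact addRel226_self L hw

/-- **The addition relation** for `℘`: for `z, w, z + w ∉ Λ`,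
`4 ℘(z+w) (℘ z - ℘ w)² = 4 ℘ z ℘ w (℘ z + ℘ w) - g₂ (℘ z + ℘ w) - 2 g₃ - 2 ℘' z ℘' w`. -/
theorem addRel226_eq_zero (L : PeriodPair) {w z : ℂ} (hw : w ∉ L.lattice)
    (hz : z ∉ L.lattice) (hzw : z + w ∉ L.lattice) : addRel226 L w z = 0 := by
  by_cases h2w : w + w ∈ L.lattice
  · -- `w` is a half-period: use the symmetry and the point `w / 2`
    obtain ⟨c, hc⟩ := exists_addRel226_const L hw
    have hv : w / 2 ∉ L.lattice := fun h => hw (by simpa using add_mem h h)
    have hvv : w / 2 + w / 2 ∉ L.lattice := by simpa using hw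
    have hvw : w / 2 + w ∉ L.lattice := by
      intro h
      apply hv
      have := sub_mem h2w h
      have e : w + w - (w / 2 + w) = w / 2 := by ring
      rwa [e] at this
    have hwv : w + w / 2 ∉ L.lattice := by rwa [add_comm]
    rw [hc z hz hzw, ← hc (w / 2) hv hvw, addRel226_symm]
    exact addRel226_eq_zero_of_two L hv hvv hw hwv
  · exact addRel226_eq_zero_of_two L hw h2w hz hzw

/-- The same relation, spelled out. -/
theorem weierstrassP_add_mul226 (L : PeriodPair) {w z : ℂ} (hw : w ∉ L.lattice)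
    (hz : z ∉ L.lattice) (hzw : z + w ∉ L.lattice) :
    4 * ℘[L] (z + w) * (℘[L] z - ℘[L] w) ^ 2 =
      (℘'[L] z - ℘'[L] w) ^ 2 - 4 * (℘[L] z + ℘[L] w) * (℘[L] z - ℘[L] w) ^ 2 := by
  have h := addRel226_eq_zero L hw hz hzw
  have h1 := L.derivWeierstrassP_sq z hz
  have h2 := L.derivWeierstrassP_sq w hw
  simp only [addRel226] at h
  linear_combination -h - h1 - h2

/-- **Addition theorem** for `℘`. -/
theorem weierstrassP_add226 (L : PeriodPair) {w z : ℂ} (hw : w ∉ L.lattice)
    (hz : z ∉ L.lattice) (hzw : z + w ∉ L.lattice) (hne : ℘[L] z ≠ ℘[L] w) :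
    ℘[L] (z + w) =
      ((℘'[L] z - ℘'[L] w) / (℘[L] z - ℘[L] w)) ^ 2 / 4 - ℘[L] z - ℘[L] w := by
  have h := weierstrassP_add_mul226 L hw hz hzw
  have hne' : ℘[L] z - ℘[L] w ≠ 0 := sub_ne_zero.mpr hne
  field_simp
  linear_combination h

/-- Pure algebra behind `derivWeierstrassP_add226`. -/
theorem chord_algebra226 {x y a b g2 g3 s s' : ℂ} (hD : x - a ≠ 0)
    (h1 : y ^ 2 = 4 * x ^ 3 - g2 * x - g3) (h2 : b ^ 2 = 4 * a ^ 3 - g2 * a - g3)
    (hs : s = ((y - b) / (x - a)) ^ 2 / 4 - x - a)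
    (key : s' = 2 * ((y - b) / (x - a)) *
      (((6 * x ^ 2 - g2 / 2) * (x - a) - (y - b) * y) / (x - a) ^ 2) / 4 - y) :
    s' = -((y - b) / (x - a) * (s - x) + y) := by
  have hpoly : 2 * (6 * x ^ 2 - g2 / 2) * (x - a) - (y ^ 2 - b ^ 2)
      - (8 * x + 4 * a) * (x - a) ^ 2 = 0 := by
    linear_combination -h1 + h2
  have e : (2 * ((y - b) / (x - a)) *
      (((6 * x ^ 2 - g2 / 2) * (x - a) - (y - b) * y) / (x - a) ^ 2) / 4 - y)
      - -((y - b) / (x - a) * ((((y - b) / (x - a)) ^ 2 / 4 - x - a) - x) + y)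
      = ((y - b) / (x - a) / (4 * (x - a) ^ 2)) *
        (2 * (6 * x ^ 2 - g2 / 2) * (x - a) - (y ^ 2 - b ^ 2)
          - (8 * x + 4 * a) * (x - a) ^ 2) := by
    field_simp
    ring
  rw [hpoly, mul_zero, sub_eq_zero] at e
  rw [key, hs]
  exact e

/-- **Addition theorem** for `℘'`: the third point of the chord. -/
theorem derivWeierstrassP_add226 (L : PeriodPair) {w z : ℂ} (hw : w ∉ L.lattice)
    (hz : z ∉ L.lattice) (hzw : z + w ∉ L.lattice) (hne : ℘[L] z ≠ ℘[L] w) :
    ℘'[L] (z + w) =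
      -((℘'[L] z - ℘'[L] w) / (℘[L] z - ℘[L] w) * (℘[L] (z + w) - ℘[L] z) + ℘'[L] z) := by
  have hne' : ℘[L] z - ℘[L] w ≠ 0 := sub_ne_zero.mpr hne
  -- the two sides of the addition theorem agree near `z`
  have hcont : ContinuousAt ℘[L] z := (L.analyticOnNhd_weierstrassP z hz).continuousAt
  have hev : (fun y => ℘[L] (y + w)) =ᶠ[𝓝 z]
      fun y => ((℘'[L] y - ℘'[L] w) / (℘[L] y - ℘[L] w)) ^ 2 / 4 - ℘[L] y - ℘[L] w := by
    filter_upwards [L.isClosed_lattice.isOpen_compl.mem_nhds hz, eventually_add_notMem226 L hzw,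
      hcont.eventually_ne hne] with y hy hyw hyne
    exact weierstrassP_add226 L hw hy hyw hyne
  have hP := hasDerivAt_weierstrassP226 L hz
  have hP' := hasDerivAt_derivWeierstrassP226 L hz
  rw [deriv_derivWeierstrassP226 L hz] at hP'
  have hl : HasDerivAt (fun y => (℘'[L] y - ℘'[L] w) / (℘[L] y - ℘[L] w))
      (((6 * ℘[L] z ^ 2 - L.g₂ / 2) * (℘[L] z - ℘[L] w) - (℘'[L] z - ℘'[L] w) * ℘'[L] z)
        / (℘[L] z - ℘[L] w) ^ 2) z :=
    (hP'.sub_const (℘'[L] w)).fun_div (hP.sub_const (℘[L] w)) hne'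
  have hR : HasDerivAt
      (fun y => ((℘'[L] y - ℘'[L] w) / (℘[L] y - ℘[L] w)) ^ 2 / 4 - ℘[L] y - ℘[L] w)
      (2 * ((℘'[L] z - ℘'[L] w) / (℘[L] z - ℘[L] w)) *
        (((6 * ℘[L] z ^ 2 - L.g₂ / 2) * (℘[L] z - ℘[L] w) - (℘'[L] z - ℘'[L] w) * ℘'[L] z)
        / (℘[L] z - ℘[L] w) ^ 2) / 4 - ℘'[L] z) z := by
    have := (((hl.fun_pow 2).div_const 4).fun_sub hP).sub_const (℘[L] w)
    refine this.congr_deriv ?_
    push_cast
    ring
  have hLd : HasDerivAt (fun y => ℘[L] (y + w)) (℘'[L] (z + w)) z :=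
    (hasDerivAt_weierstrassP226 L hzw).comp_add_const z w
  have key := (hLd.congr_of_eventuallyEq hev.symm).unique hR
  exact chord_algebra226 hne' (L.derivWeierstrassP_sq z hz) (L.derivWeierstrassP_sq w hw)
    (weierstrassP_add226 L hw hz hzw hne) key

end Fermat.Agent.S15.H226

end
end
-- ===== PACK-END S15/H226/WpAdd.lean

-- ===== PACK-BEGIN S15/H662/Liouville.lean
section


/-!
# Row S15, piece I1 (helper662): Liouville's theorem for doubly periodic functions

`exists_const_of_periodic_of_removable`: a function `f : ℂ → ℂ` which is periodic with respect to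
the lattice of a `PeriodPair` and which has only removable singularities (near every point it
agrees, on a punctured neighbourhood, with a function analytic at that point) is constant off its
singularities.

Mathlib-only.
-/

set_option autoImplicit false

open Filter Topology

noncomputable section

namespace Fermat.Agent.S15.H662

/-- two functions continuous at `w` which agree on a punctured neighbourhood of `w` agree at `w` -/
theorem eq_of_eventuallyEq_nhdsNE {g₁ g₂ : ℂ → ℂ} {w : ℂ} (h₁ : ContinuousAt g₁ w)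
    (h₂ : ContinuousAt g₂ w) (h : g₁ =ᶠ[𝓝[≠] w] g₂) : g₁ w = g₂ w := by
  have t₁ : Tendsto g₁ (𝓝[≠] w) (𝓝 (g₁ w)) := h₁.tendsto.mono_left nhdsWithin_le_nhds
  have t₂ : Tendsto g₂ (𝓝[≠] w) (𝓝 (g₂ w)) := h₂.tendsto.mono_left nhdsWithin_le_nhds
  exact tendsto_nhds_unique (t₁.congr' h) t₂

/-- **Liouville's theorem for doubly periodic functions** with removable singularities. -/
theorem exists_const_of_periodic_of_removable (L : PeriodPair) (f : ℂ → ℂ)
    (hper : ∀ z : ℂ, ∀ l ∈ L.lattice, f (z + l) = f z)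
    (hrem : ∀ z : ℂ, ∃ g : ℂ → ℂ, AnalyticAt ℂ g z ∧ f =ᶠ[𝓝[≠] z] g) :
    ∃ c : ℂ, ∀ z : ℂ, f =ᶠ[𝓝[≠] z] fun _ => c := by
  classical
  choose g hg hfg using hrem
  -- the regularised function
  set F : ℂ → ℂ := fun z => g z z with hF
  have hFg : ∀ z, F =ᶠ[𝓝 z] g z := by
    intro z
    have h1 : ∀ᶠ w in 𝓝 z, AnalyticAt ℂ (g z) w := (hg z).eventually_analyticAt
    have h2 : ∀ᶠ w in 𝓝 z, w ≠ z → f w = g z w := by
      have := hfg z
      rw [Filter.EventuallyEq, eventually_nhdsWithin_iff] at this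
      exact this
    have h3 : ∀ᶠ w in 𝓝 z, ∀ᶠ v in 𝓝 w, v ≠ z → f v = g z v := h2.eventually_nhds
    filter_upwards [h1, h3] with w hw1 hw3
    by_cases hwz : w = z
    · subst hwz; rfl
    · -- `g w` and `g z` agree on a punctured neighbourhood of `w`
      have hne : ∀ᶠ v in 𝓝 w, v ≠ z := isOpen_ne.mem_nhds hwz
      have h4 : f =ᶠ[𝓝[≠] w] g z := by
        rw [Filter.EventuallyEq, eventually_nhdsWithin_iff]
        filter_upwards [hw3, hne] with v hv hvz _
        exact hv hvz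
      have h5 : g w =ᶠ[𝓝[≠] w] g z := (hfg w).symm.trans h4
      show g w w = g z w
      exact eq_of_eventuallyEq_nhdsNE (hg w).continuousAt hw1.continuousAt h5
  have hFan : ∀ z, AnalyticAt ℂ F z := fun z => (hg z).congr (hFg z).symm
  have hFf : ∀ z, F =ᶠ[𝓝[≠] z] f := fun z =>
    ((hFg z).filter_mono nhdsWithin_le_nhds).trans (hfg z).symm
  have hFdiff : Differentiable ℂ F := fun z => (hFan z).differentiableAt
  have hFper : ∀ z w, w ∈ L.lattice → F (z + w) = F z := by
    intro z w hw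
    -- compare `v ↦ F (v + w)` and `F` near `z`
    have hc1 : ContinuousAt (fun v => F (v + w)) z :=
      (hFdiff.continuous.comp (continuous_id.add continuous_const)).continuousAt
    have hc2 : ContinuousAt F z := hFdiff.continuous.continuousAt
    have hshift : Tendsto (fun v : ℂ => v + w) (𝓝[≠] z) (𝓝[≠] (z + w)) := by
      refine tendsto_nhdsWithin_of_tendsto_nhds_of_eventually_within _ ?_ ?_
      · exact ((continuous_id.add continuous_const).tendsto z).mono_left nhdsWithin_le_nhds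
      · filter_upwards [self_mem_nhdsWithin] with v hv
        simpa using hv
    have h6 : (fun v => F (v + w)) =ᶠ[𝓝[≠] z] fun v => f (v + w) := hshift.eventually (hFf (z + w))
    have h7 : (fun v => F (v + w)) =ᶠ[𝓝[≠] z] F := by
      refine h6.trans (EventuallyEq.trans ?_ (hFf z).symm)
      exact Eventually.of_forall fun v => hper v w hw
    exact eq_of_eventuallyEq_nhdsNE hc1 hc2 h7
  have hbdd : Bornology.IsBounded (Set.range F) :=
    (IsZLattice.isCompact_range_of_periodic L.lattice F hFdiff.continuous hFper).isBounded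
  refine ⟨F 0, fun z => ?_⟩
  refine (hFf z).symm.trans (Eventually.of_forall fun v => ?_)
  exact hFdiff.apply_eq_apply_of_bounded hbdd v 0

/-- Liouville for doubly periodic functions, pointwise form: at points of continuity the value is
the constant. -/
theorem exists_const_of_periodic_of_removable' (L : PeriodPair) (f : ℂ → ℂ)
    (hper : ∀ z : ℂ, ∀ l ∈ L.lattice, f (z + l) = f z)
    (hrem : ∀ z : ℂ, ∃ g : ℂ → ℂ, AnalyticAt ℂ g z ∧ f =ᶠ[𝓝[≠] z] g) :
    ∃ c : ℂ, ∀ z : ℂ, ContinuousAt f z → f z = c := by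
  obtain ⟨c, hc⟩ := exists_const_of_periodic_of_removable L f hper hrem
  exact ⟨c, fun z hz => eq_of_eventuallyEq_nhdsNE hz continuousAt_const (hc z)⟩

end Fermat.Agent.S15.H662

end

end
-- ===== PACK-END S15/H662/Liouville.lean

-- ===== PACK-BEGIN S15/H662/HalfPeriod.lean
section



/-!
# Row S15, piece I1 (helper662): half-period translation formula

For a lattice `L` and a half-period `h` (`h ∉ L`, `2 h ∈ L`), with `e = ℘(h)`:

* `derivWeierstrassP_halfPeriod` : `℘'(h) = 0`;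
* `exists_halfPeriod_translate` : `(℘(z) - e) (℘(z - h) - e) = κ` is constant;
* `removable_weierstrassP_mul` : `℘ · w` has a removable singularity at `0` when `w` is analytic at
  `0` with `w 0 = 0`, `w' 0 = 0`.

Mathlib-only.
-/

set_option autoImplicit false

open Filter Topology
open scoped PeriodPair

noncomputable section

namespace Fermat.Agent.S15.H662

/-- an analytic function vanishing to second order at `0` is `z ^ 2` times an analytic function -/
theorem exists_sq_factor {w : ℂ → ℂ} (hw : AnalyticAt ℂ w 0) (h0 : w 0 = 0)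
    (h1 : deriv w 0 = 0) :
    ∃ w2 : ℂ → ℂ, AnalyticAt ℂ w2 0 ∧ ∀ᶠ z in 𝓝 (0 : ℂ), w z = z ^ 2 * w2 z := by
  have h2 : ((2 : ℕ) : ℕ∞) ≤ analyticOrderAt w 0 := by
    rw [natCast_le_analyticOrderAt_iff_iteratedDeriv_eq_zero hw]
    intro i hi
    interval_cases i
    · simpa using h0
    · simpa using h1
  obtain ⟨g, hg, hgw⟩ := (natCast_le_analyticOrderAt hw).mp h2
  refine ⟨g, hg, ?_⟩
  filter_upwards [hgw] with z hz
  simpa using hz

/-- near `0`, away from `0`, no point lies in the lattice -/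
theorem eventually_nhdsNE_zero_notMem (L : PeriodPair) :
    ∀ᶠ z in 𝓝[≠] (0 : ℂ), z ∉ L.lattice := by
  have h := L.compl_lattice_sdiff_singleton_mem_nhds 0
  filter_upwards [mem_nhdsWithin_of_mem_nhds h, self_mem_nhdsWithin] with z hz hz0
  intro hzL
  exact hz ⟨hzL, hz0⟩

/-- `℘ z = ℘[L - 0] z + 1 / z ^ 2` -/
theorem weierstrassP_eq_except_zero (L : PeriodPair) (z : ℂ) :
    ℘[L] z = ℘[L - (0 : ℂ)] z + 1 / z ^ 2 := by
  have h1 := L.weierstrassPExcept_def (0 : L.lattice) z
  simp only [ZeroMemClass.coe_zero, sub_zero, ne_eq, OfNat.ofNat_ne_zero, not_false_eq_true,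
    zero_pow, div_zero] at h1
  rw [h1]; ring

/-- **Removable singularity.** If `w` is analytic at `0` and vanishes there to second order, then
`℘ · w` has a removable singularity at `0`. -/
theorem removable_weierstrassP_mul (L : PeriodPair) {w : ℂ → ℂ} (hw : AnalyticAt ℂ w 0)
    (h0 : w 0 = 0) (h1 : deriv w 0 = 0) :
    ∃ g : ℂ → ℂ, AnalyticAt ℂ g 0 ∧ (fun z => ℘[L] z * w z) =ᶠ[𝓝[≠] (0 : ℂ)] g := by
  obtain ⟨w2, hw2, hww2⟩ := exists_sq_factor hw h0 h1
  have hA : AnalyticAt ℂ ℘[L - (0 : ℂ)] 0 := L.analyticAt_weierstrassPExcept 0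
  refine ⟨fun z => (℘[L - (0 : ℂ)] z * z ^ 2 + 1) * w2 z, by fun_prop, ?_⟩
  filter_upwards [mem_nhdsWithin_of_mem_nhds hww2, self_mem_nhdsWithin] with z hz hz0
  have hz0' : z ≠ 0 := hz0
  show ℘[L] z * w z = (℘[L - (0 : ℂ)] z * z ^ 2 + 1) * w2 z
  rw [hz, weierstrassP_eq_except_zero]
  field_simp

/-- the difference of the `℘`-functions of two lattices has a removable singularity at `0` -/
theorem removable_weierstrassP_sub (L L' : PeriodPair) :
    ∃ g : ℂ → ℂ, AnalyticAt ℂ g 0 ∧ (fun z => ℘[L] z - ℘[L'] z) =ᶠ[𝓝[≠] (0 : ℂ)] g := by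
  have hA : AnalyticAt ℂ ℘[L - (0 : ℂ)] 0 := L.analyticAt_weierstrassPExcept 0
  have hA' : AnalyticAt ℂ ℘[L' - (0 : ℂ)] 0 := L'.analyticAt_weierstrassPExcept 0
  refine ⟨fun z => ℘[L - (0 : ℂ)] z - ℘[L' - (0 : ℂ)] z, by fun_prop, ?_⟩
  filter_upwards with z
  show ℘[L] z - ℘[L'] z = ℘[L - (0 : ℂ)] z - ℘[L' - (0 : ℂ)] z
  rw [weierstrassP_eq_except_zero L, weierstrassP_eq_except_zero L']
  ring

/-- removable singularities are transported by periods -/
theorem removable_add_period {f : ℂ → ℂ} {t z₀ : ℂ} (hper : ∀ z, f (z + t) = f z)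
    (h : ∃ g : ℂ → ℂ, AnalyticAt ℂ g z₀ ∧ f =ᶠ[𝓝[≠] z₀] g) :
    ∃ g : ℂ → ℂ, AnalyticAt ℂ g (z₀ + t) ∧ f =ᶠ[𝓝[≠] (z₀ + t)] g := by
  obtain ⟨g, hg, hfg⟩ := h
  refine ⟨fun z => g (z - t), ?_, ?_⟩
  · have : AnalyticAt ℂ g ((z₀ + t) - t) := by simpa using hg
    exact this.comp (f := fun z => z - t) (by fun_prop)
  · have hshift : Tendsto (fun v : ℂ => v - t) (𝓝[≠] (z₀ + t)) (𝓝[≠] z₀) := by
      refine tendsto_nhdsWithin_of_tendsto_nhds_of_eventually_within _ ?_ ?_
      · have : Tendsto (fun v : ℂ => v - t) (𝓝 (z₀ + t)) (𝓝 ((z₀ + t) - t)) :=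
          (continuous_id.sub continuous_const).tendsto _
        rw [add_sub_cancel_right] at this
        exact this.mono_left nhdsWithin_le_nhds
      · filter_upwards [self_mem_nhdsWithin] with v hv
        intro hv'
        apply hv
        rw [Set.mem_singleton_iff] at hv' ⊢
        linear_combination hv'
    have := hshift.eventually hfg
    filter_upwards [this] with v hv
    rw [← hv, ← hper (v - t), sub_add_cancel]

/-- an analytic function is its own removable extension -/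
theorem removable_of_analyticAt {f : ℂ → ℂ} {z₀ : ℂ} (h : AnalyticAt ℂ f z₀) :
    ∃ g : ℂ → ℂ, AnalyticAt ℂ g z₀ ∧ f =ᶠ[𝓝[≠] z₀] g :=
  ⟨f, h, EventuallyEq.rfl⟩

/-- sums of functions with removable singularities -/
theorem removable_add {f₁ f₂ : ℂ → ℂ} {z₀ : ℂ}
    (h₁ : ∃ g : ℂ → ℂ, AnalyticAt ℂ g z₀ ∧ f₁ =ᶠ[𝓝[≠] z₀] g)
    (h₂ : ∃ g : ℂ → ℂ, AnalyticAt ℂ g z₀ ∧ f₂ =ᶠ[𝓝[≠] z₀] g) :
    ∃ g : ℂ → ℂ, AnalyticAt ℂ g z₀ ∧ (fun z => f₁ z + f₂ z) =ᶠ[𝓝[≠] z₀] g := by
  obtain ⟨g₁, hg₁, e₁⟩ := h₁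
  obtain ⟨g₂, hg₂, e₂⟩ := h₂
  exact ⟨fun z => g₁ z + g₂ z, hg₁.add hg₂, e₁.add e₂⟩

/-- differences of functions with removable singularities -/
theorem removable_sub {f₁ f₂ : ℂ → ℂ} {z₀ : ℂ}
    (h₁ : ∃ g : ℂ → ℂ, AnalyticAt ℂ g z₀ ∧ f₁ =ᶠ[𝓝[≠] z₀] g)
    (h₂ : ∃ g : ℂ → ℂ, AnalyticAt ℂ g z₀ ∧ f₂ =ᶠ[𝓝[≠] z₀] g) :
    ∃ g : ℂ → ℂ, AnalyticAt ℂ g z₀ ∧ (fun z => f₁ z - f₂ z) =ᶠ[𝓝[≠] z₀] g := by
  obtain ⟨g₁, hg₁, e₁⟩ := h₁
  obtain ⟨g₂, hg₂, e₂⟩ := h₂
  exact ⟨fun z => g₁ z - g₂ z, hg₁.sub hg₂, e₁.sub e₂⟩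

/-- constant multiples of functions with removable singularities -/
theorem removable_const_mul {f : ℂ → ℂ} {z₀ : ℂ} (c : ℂ)
    (h : ∃ g : ℂ → ℂ, AnalyticAt ℂ g z₀ ∧ f =ᶠ[𝓝[≠] z₀] g) :
    ∃ g : ℂ → ℂ, AnalyticAt ℂ g z₀ ∧ (fun z => c * f z) =ᶠ[𝓝[≠] z₀] g := by
  obtain ⟨g, hg, e⟩ := h
  exact ⟨fun z => c * g z, analyticAt_const.mul hg, e.fun_comp (fun x => c * x)⟩

/-- `℘'` vanishes at half-periods -/
theorem derivWeierstrassP_halfPeriod (L : PeriodPair) {h : ℂ} (hh2 : 2 * h ∈ L.lattice) :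
    ℘'[L] h = 0 := by
  have h1 : ℘'[L] (h - 2 * h) = ℘'[L] h := L.derivWeierstrassP_sub_coe h ⟨2 * h, hh2⟩
  have h2 : h - 2 * h = -h := by ring
  rw [h2, L.derivWeierstrassP_neg] at h1
  linear_combination -(1 / 2 : ℂ) * h1

/-- `℘ (z - h) = ℘ (z + h)` for a half-period `h` -/
theorem weierstrassP_sub_halfPeriod (L : PeriodPair) {h : ℂ} (hh2 : 2 * h ∈ L.lattice) (z : ℂ) :
    ℘[L] (z - h) = ℘[L] (z + h) := by
  have h1 : ℘[L] (z - h + 2 * h) = ℘[L] (z - h) := L.weierstrassP_add_coe (z - h) ⟨2 * h, hh2⟩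
  rw [← h1]; congr 1; ring

/-- `℘` is analytic at translates: `z ↦ ℘ (z - h)` is analytic at `z₀` if `z₀ - h ∉ L` -/
theorem analyticAt_weierstrassP_sub (L : PeriodPair) {h z₀ : ℂ} (hz : z₀ - h ∉ L.lattice) :
    AnalyticAt ℂ (fun z => ℘[L] (z - h)) z₀ :=
  (L.analyticOnNhd_weierstrassP (z₀ - h) hz).comp (f := fun z => z - h) (by fun_prop)

/-- **Half-period translation formula**: `(℘(z) - e) (℘(z - h) - e)` is constant, `e = ℘(h)`. -/
theorem exists_halfPeriod_translate (L : PeriodPair) {h : ℂ} (hh : h ∉ L.lattice)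
    (hh2 : 2 * h ∈ L.lattice) :
    ∃ κ : ℂ, ∀ z : ℂ, z ∉ L.lattice → z - h ∉ L.lattice →
      (℘[L] z - ℘[L] h) * (℘[L] (z - h) - ℘[L] h) = κ := by
  set e := ℘[L] h with he
  set f : ℂ → ℂ := fun z => (℘[L] z - e) * (℘[L] (z - h) - e) with hf
  have hnegh : -h ∉ L.lattice := fun hm => hh (by simpa using L.lattice.neg_mem hm)
  have hperL : ∀ z : ℂ, ∀ l ∈ L.lattice, f (z + l) = f z := by
    intro z l hl
    simp only [hf]
    rw [L.weierstrassP_add_coe z ⟨l, hl⟩, show z + l - h = (z - h) + l by ring,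
      L.weierstrassP_add_coe (z - h) ⟨l, hl⟩]
  have hperh : ∀ z : ℂ, f (z + h) = f z := by
    intro z
    simp only [hf]
    rw [add_sub_cancel_right, ← weierstrassP_sub_halfPeriod L hh2 z]
    ring
  -- removable singularity at `0`
  have hrem0 : ∃ g : ℂ → ℂ, AnalyticAt ℂ g 0 ∧ f =ᶠ[𝓝[≠] (0 : ℂ)] g := by
    set w : ℂ → ℂ := fun z => ℘[L] (z - h) - e with hw
    have hwan : AnalyticAt ℂ w 0 :=
      (analyticAt_weierstrassP_sub L (by simpa using hnegh)).sub analyticAt_const
    have hw0 : w 0 = 0 := by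
      simp only [hw, zero_sub, L.weierstrassP_neg, he, sub_self]
    have hw1 : deriv w 0 = 0 := by
      have hd : HasDerivAt (fun z => ℘[L] (z - h)) (℘'[L] (0 - h)) 0 := by
        have h1 : HasDerivAt ℘[L] (deriv ℘[L] (0 - h)) (0 - h) :=
          ((L.analyticOnNhd_weierstrassP (0 - h) (by simpa using hnegh)).differentiableAt).hasDerivAt
        rw [L.deriv_weierstrassP] at h1
        have h2 : HasDerivAt (fun z : ℂ => z - h) 1 0 := (hasDerivAt_id 0).sub_const h
        have h3 := HasDerivAt.comp (0 : ℂ) h1 h2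
        rw [mul_one] at h3
        exact h3
      have hd' : HasDerivAt w (℘'[L] (0 - h)) 0 := hd.sub_const e
      rw [hd'.deriv, zero_sub, L.derivWeierstrassP_neg, derivWeierstrassP_halfPeriod L hh2,
        neg_zero]
    have h1 := removable_weierstrassP_mul L hwan hw0 hw1
    have h2 := removable_const_mul e (removable_of_analyticAt hwan)
    have h3 := removable_sub h1 h2
    obtain ⟨g, hg, hfg⟩ := h3
    refine ⟨g, hg, EventuallyEq.trans (Eventually.of_forall fun z => ?_) hfg⟩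
    simp only [hf, hw]
    ring
  have hrem : ∀ z : ℂ, ∃ g : ℂ → ℂ, AnalyticAt ℂ g z ∧ f =ᶠ[𝓝[≠] z] g := by
    intro z
    by_cases hz : z ∈ L.lattice
    · have := removable_add_period (t := z) (z₀ := 0) (fun v => hperL v z hz) hrem0
      simpa using this
    by_cases hz' : z - h ∈ L.lattice
    · have h1 := removable_add_period (t := z - h) (z₀ := 0) (fun v => hperL v _ hz') hrem0
      have h2 := removable_add_period (t := h) hperh h1
      simpa using h2
    · refine removable_of_analyticAt ?_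
      have h1 : AnalyticAt ℂ ℘[L] z := L.analyticOnNhd_weierstrassP z hz
      have h2 : AnalyticAt ℂ (fun v => ℘[L] (v - h)) z := analyticAt_weierstrassP_sub L hz'
      exact (h1.sub analyticAt_const).mul (h2.sub analyticAt_const)
  obtain ⟨κ, hκ⟩ := exists_const_of_periodic_of_removable' L f hperL hrem
  refine ⟨κ, fun z hz hz' => ?_⟩
  have h1 : AnalyticAt ℂ ℘[L] z := L.analyticOnNhd_weierstrassP z hz
  have h2 : AnalyticAt ℂ (fun v => ℘[L] (v - h)) z := analyticAt_weierstrassP_sub L hz'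
  have hc : ContinuousAt f z := ((h1.sub analyticAt_const).mul (h2.sub analyticAt_const)).continuousAt
  exact hκ z hc

end Fermat.Agent.S15.H662

end

end
-- ===== PACK-END S15/H662/HalfPeriod.lean

-- ===== PACK-BEGIN S56/Defs.lean
section








/-!
# Row S56 (Taylor–Wiles primes) — FROZEN definitions (row-lead helper956)

Everything here is sorry-free.  Pieces import THIS file and prove the `Prop`s of
`Fermat/Agent/S56/Spec.lean` verbatim.  Plan: `coord/S56.md` on `origin/helper956`.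

Conventions.  `k` is the residue field, `ρbar : ResidualGaloisRep k`, `V = ρbar.V`.
Cocycles are plain functions `c : G_ℚ → End_k V`:

* `Z1tw ρbar p`  — twisted trace-zero cocycles = `Z¹(G_ℚ, ad⁰ρ̄(1))`:
  `tr c(σ) = 0`,  `c(στ) = c(σ) + ε(σ) · ρ̄(σ) c(τ) ρ̄(σ)⁻¹`,  `c` factors through a finite level.
  The mod-`p` cyclotomic character is encoded by `IsCycExp p σ a` (`σ μ = μ ^ a` on `μ_p`).
* `B1tw ρbar p`  — the coboundaries `σ ↦ ε(σ) ρ̄(σ) m ρ̄(σ)⁻¹ − m`, `tr m = 0`.
* `LocTrivAt ρbar p q c` — `c` restricted to SOME decomposition group over `q` is a coboundary.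
* `IsTWPrime ρbar p S q` — `q ∉ S` prime, `q ≡ 1 mod p`, every Frobenius over `q` has distinct
  eigenvalues in `k`.
* `ordCond`, `flatCond` — the two deformation conditions of the frozen statement, as functions of
  the auxiliary set `Q`.
-/

set_option autoImplicit false

open Polynomial IsLocalRing

noncomputable section

namespace Fermat.Agent.S56

/-- `ℚ̄`. -/
abbrev Qb : Type := AlgebraicClosure ℚ

/-- `Gal(ℚ̄/ℚ)`. -/
abbrev GQ : Type := AlgebraicClosure ℚ ≃ₐ[ℚ] AlgebraicClosure ℚ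

/-- `a` is an exponent of the action of `σ` on the `p`-th roots of unity. -/
def IsCycExp (p : ℕ) (σ : GQ) (a : ℕ) : Prop :=
  ∀ μ : Qb, μ ^ p = 1 → σ μ = μ ^ a

section Cocycles

variable {k : Type} [Field k] (ρbar : ResidualGaloisRep k) (p : ℕ)

/-- The twisted adjoint action `m ↦ a · ρ̄(σ) m ρ̄(σ)⁻¹` (with `a` a cyclotomic exponent of `σ`). -/
def twAd (σ : GQ) (a : ℕ) (m : Module.End k ρbar.V) : Module.End k ρbar.V :=
  (a : k) • (ρbar.ρ σ * m * ρbar.ρ σ⁻¹)

/-- `c` is a twisted cocycle with values in trace-zero endomorphisms, of finite level. -/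
structure IsTwCocycle (c : GQ → Module.End k ρbar.V) : Prop where
  trace_eq_zero : ∀ σ, LinearMap.trace k ρbar.V (c σ) = 0
  map_mul : ∀ σ τ a, IsCycExp p σ a → c (σ * τ) = c σ + twAd ρbar σ a (c τ)
  level : ∃ L : IntermediateField ℚ Qb, FiniteDimensional ℚ L ∧
    ∀ σ τ : GQ, (∀ x ∈ L, τ x = x) → c (σ * τ) = c σ

/-- `c` is the twisted coboundary of the trace-zero endomorphism `m` on the subgroup `H`. -/
def IsTwCoboundaryOn (H : Subgroup GQ) (c : GQ → Module.End k ρbar.V)
    (m : Module.End k ρbar.V) : Prop :=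
  LinearMap.trace k ρbar.V m = 0 ∧ ∀ σ ∈ H, ∀ a, IsCycExp p σ a → c σ = twAd ρbar σ a m - m

/-- `c` is locally trivial at `q`: on some decomposition group over `q` it is a coboundary. -/
def LocTrivAt (q : ℕ) (c : GQ → Module.End k ρbar.V) : Prop :=
  ∃ P : ValuationSubring Qb, P.LiesOverPrime q ∧
    ∃ m, IsTwCoboundaryOn ρbar p (P.decompositionSubgroup ℚ) c m

/-- `c` is a (global) twisted coboundary. -/
def IsTwCoboundary (c : GQ → Module.End k ρbar.V) : Prop :=
  ∃ m, IsTwCoboundaryOn ρbar p ⊤ c m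

/-- Taylor–Wiles primes (relative to `S`): `q ∉ S`, `q ≡ 1 mod p`, and every Frobenius element
over `q` has distinct eigenvalues in `k`. -/
def IsTWPrime (S : Finset ℕ) (q : ℕ) : Prop :=
  q.Prime ∧ q ∉ S ∧ p ∣ q - 1 ∧
    ∀ P : ValuationSubring Qb, P.LiesOverPrime q → ∀ φ : GQ, P.IsFrobeniusAt φ q →
      ∃ α β : k, α ≠ β ∧ LinearMap.charpoly (ρbar.ρ φ) = (X - C α) * (X - C β)

/-- A *dual Selmer frame*: a finite-dimensional `k`-space `D` of twisted cocycles which contains
no nonzero coboundary. -/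
structure IsDualFrame (D : Submodule k (GQ → Module.End k ρbar.V)) : Prop where
  isTwCocycle : ∀ c ∈ D, IsTwCocycle ρbar p c
  finite : Module.Finite k D
  inj : ∀ c ∈ D, IsTwCoboundary ρbar p c → c = 0

/-- The set `Q` kills the frame `D`: no nonzero `c ∈ D` is locally trivial at all `q ∈ Q`. -/
def Kills (D : Submodule k (GQ → Module.End k ρbar.V)) (Q : Finset ℕ) : Prop :=
  ∀ c ∈ D, (∀ q ∈ Q, LocTrivAt ρbar p q c) → c = 0

end Cocycles

section Conditions

/-- The type of deformation conditions. -/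
abbrev DefCond (𝒪 : Type) [CommRing 𝒪] : Type 1 :=
  ∀ ⦃A : Type⦄ [CommRing A] [IsLocalRing A] [Algebra 𝒪 A], GaloisRepAdic A → Prop

/-- The strict-ordinary condition of the frozen statement, with auxiliary set `Q`. -/
def ordCond (𝒪 : Type) [CommRing 𝒪] (p : ℕ) (Smin Q : Finset ℕ) : DefCond 𝒪 :=
  fun _A _ _ _ ρ =>
    GaloisRep.strictOrdinaryCondition 𝒪 p (Smin ∪ Q) ρ ∧
      ∀ q ∈ Smin, q.Prime → q ≠ p → ρ.IsUnipotentOnInertiaAt q

/-- The flat condition of the frozen statement, with auxiliary set `Q`. -/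
def flatCond (𝒪 : Type) [CommRing 𝒪] (p : ℕ) (Smin Q : Finset ℕ) : DefCond 𝒪 :=
  fun _A _ _ _ ρ =>
    GaloisRep.flatCondition 𝒪 p (Smin ∪ Q) ρ ∧
      ∀ q ∈ Smin, q.Prime → q ≠ p → ρ.IsUnipotentOnInertiaAt q

variable (𝒪 : Type) [CommRing 𝒪] [IsLocalRing 𝒪]

/-- The `𝒪`-algebra structure on the dual numbers `k[ε]` over the residue field (the one of the
Prelude's `TangentFinite` and of `Fermat.Agent.S53.dualAlgebra`). -/
@[reducible] noncomputable def tanAlgebra : Algebra 𝒪 (DualNumber (ResidueField 𝒪)) :=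
  ((algebraMap (ResidueField 𝒪) (DualNumber (ResidueField 𝒪))).comp
    (algebraMap 𝒪 (ResidueField 𝒪))).toAlgebra

/-- The tangent vectors of an `𝒪`-algebra `R`: `𝒪`-algebra homomorphisms `R → k[ε]`. -/
abbrev TanHom (R : Type) [CommRing R] [Algebra 𝒪 R] : Type :=
  @AlgHom 𝒪 R (DualNumber (ResidueField 𝒪)) _ _ _ _ (tanAlgebra 𝒪)

end Conditions

end Fermat.Agent.S56

end

end
-- ===== PACK-END S56/Defs.lean

-- ===== PACK-BEGIN S56/H786/KummerH90.lean
section



/-!
# S56 / LOC-SO, sub-leaf KUMMER-P (helper786), part 2: Hilbert 90 for `μ_p`-valued cocycles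

`D` any subgroup of `G_ℚ`, `ζ` a primitive `p`-th root of unity, `f : G_ℚ → ZMod p` a twisted
cocycle on `D` (`f(στ) = f(σ) + ω(σ) f(τ)`) of finite level.  Then there is `β ≠ 0` in `ℚ̄` with
`σ β = ζ ^ f(σ) · β` for all `σ ∈ D` (`hilbert90`).  Proof: Poincaré series on a finite normal
level, Dedekind independence of characters.
-/

set_option autoImplicit false
set_option linter.style.haveILetI false

namespace Fermat.Agent.S56.H786

open Fermat.Agent.S56

section Zp

variable {p : ℕ}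

/-- `ζ ^ n` for `n : ZMod p`. -/
noncomputable def zp (ζ : Qb) (n : ZMod p) : Qb := ζ ^ n.val

theorem zp_natCast [NeZero p] {ζ : Qb} (h1 : ζ ^ p = 1) (k : ℕ) :
    zp ζ (k : ZMod p) = ζ ^ k := by
  unfold zp
  rw [ZMod.val_natCast]
  exact (pow_eq_pow_mod k h1).symm

theorem zp_add [NeZero p] {ζ : Qb} (h1 : ζ ^ p = 1) (m n : ZMod p) :
    zp ζ (m + n) = zp ζ m * zp ζ n := by
  conv_lhs => rw [← ZMod.natCast_zmod_val m, ← ZMod.natCast_zmod_val n, ← Nat.cast_add]
  rw [zp_natCast h1, pow_add]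
  rfl

theorem zp_natCast_mul [NeZero p] {ζ : Qb} (h1 : ζ ^ p = 1) (a : ℕ) (n : ZMod p) :
    zp ζ ((a : ZMod p) * n) = zp ζ n ^ a := by
  conv_lhs => rw [← ZMod.natCast_zmod_val n, ← Nat.cast_mul]
  rw [zp_natCast h1, mul_comm, pow_mul]
  rfl

theorem zp_zero [NeZero p] (ζ : Qb) : zp ζ (0 : ZMod p) = 1 := by
  unfold zp
  rw [ZMod.val_zero, pow_zero]

theorem zp_ne_zero {ζ : Qb} (h0 : ζ ≠ 0) (n : ZMod p) : zp ζ n ≠ 0 :=
  pow_ne_zero _ h0

theorem zp_pow_self {ζ : Qb} (h1 : ζ ^ p = 1) (n : ZMod p) : zp ζ n ^ p = 1 := by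
  unfold zp
  rw [← pow_mul, mul_comm, pow_mul, h1, one_pow]

theorem zp_neg_mul_self [NeZero p] {ζ : Qb} (h1 : ζ ^ p = 1) (n : ZMod p) :
    zp ζ (-n) * zp ζ n = 1 := by
  rw [← zp_add h1, neg_add_cancel, zp_zero]

theorem zp_injective [NeZero p] {ζ : Qb} (hζ : IsPrimitiveRoot ζ p) :
    Function.Injective (zp (p := p) ζ) := by
  intro m n h
  have := hζ.pow_inj (ZMod.val_lt m) (ZMod.val_lt n) h
  exact ZMod.val_injective p this

theorem exists_zp_eq [NeZero p] {ζ : Qb} (hζ : IsPrimitiveRoot ζ p) {ξ : Qb} (hξ : ξ ^ p = 1) :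
    ∃ n : ZMod p, ξ = zp ζ n := by
  obtain ⟨i, -, hi⟩ := hζ.eq_pow_of_pow_eq_one hξ
  exact ⟨(i : ZMod p), by rw [zp_natCast hζ.pow_eq_one, hi]⟩

theorem apply_zp [NeZero p] {ζ : Qb} (h1 : ζ ^ p = 1) {σ : GQ} {a : ℕ} (hσ : IsCycExp p σ a)
    (n : ZMod p) : σ (zp ζ n) = zp ζ ((a : ZMod p) * n) := by
  rw [zp_natCast_mul h1]
  exact hσ _ (zp_pow_self h1 n)

/-- Every element of `G_ℚ` has a cyclotomic exponent. -/
theorem exists_isCycExp [NeZero p] {ζ : Qb} (hζ : IsPrimitiveRoot ζ p) (σ : GQ) :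
    ∃ a : ℕ, IsCycExp p σ a := by
  have h1 : (σ ζ) ^ p = 1 := by rw [← map_pow, hζ.pow_eq_one, map_one]
  obtain ⟨a, -, ha⟩ := hζ.eq_pow_of_pow_eq_one h1
  refine ⟨a, fun μ hμ => ?_⟩
  obtain ⟨j, -, hj⟩ := hζ.eq_pow_of_pow_eq_one hμ
  rw [← hj, map_pow, ← ha, ← pow_mul, ← pow_mul, mul_comm]

/-- Two cyclotomic exponents of the same element agree modulo `p`. -/
theorem isCycExp_unique [NeZero p] {ζ : Qb} (hζ : IsPrimitiveRoot ζ p) {σ : GQ} {a b : ℕ}
    (ha : IsCycExp p σ a) (hb : IsCycExp p σ b) : (a : ZMod p) = (b : ZMod p) := by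
  have h1 := ha ζ hζ.pow_eq_one
  have h2 := hb ζ hζ.pow_eq_one
  rw [h1] at h2
  apply zp_injective hζ
  rw [zp_natCast hζ.pow_eq_one, zp_natCast hζ.pow_eq_one, h2]

end Zp

section H90

variable {p : ℕ}

/-- **Hilbert 90** for twisted `ZMod p`-valued cocycles of finite level on a subgroup of `G_ℚ`. -/
theorem hilbert90 [NeZero p] {ζ : Qb} (hζ : IsPrimitiveRoot ζ p) (D : Subgroup GQ)
    (f : GQ → ZMod p)
    (hcoc : ∀ σ ∈ D, ∀ τ ∈ D, ∀ a : ℕ, IsCycExp p σ a → f (σ * τ) = f σ + (a : ZMod p) * f τ)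
    (hlev : ∃ L : IntermediateField ℚ Qb, FiniteDimensional ℚ L ∧
      ∀ σ ∈ D, ∀ τ ∈ D, (∀ x ∈ L, τ x = x) → f (σ * τ) = f σ) :
    ∃ β : Qb, β ≠ 0 ∧ ∀ σ ∈ D, σ β = zp ζ (f σ) * β := by
  classical
  have hζ1 : ζ ^ p = 1 := hζ.pow_eq_one
  have hζ0 : ζ ≠ 0 := hζ.ne_zero (NeZero.ne p)
  obtain ⟨L, hL, hlev⟩ := hlev
  let M : IntermediateField ℚ Qb := IntermediateField.normalClosure ℚ L Qb
  haveI : Algebra.IsAlgebraic ℚ Qb := AlgebraicClosure.isAlgebraic ℚ
  haveI : IsAlgClosure ℚ Qb := ⟨inferInstance, inferInstance⟩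
  haveI : Normal ℚ Qb := IsAlgClosure.normal ℚ Qb
  haveI : Normal ℚ M := normalClosure.normal ℚ L Qb
  haveI : FiniteDimensional ℚ M := normalClosure.is_finiteDimensional ℚ L Qb
  have hLM : L ≤ M := IntermediateField.le_normalClosure L
  let r : GQ →* (M ≃ₐ[ℚ] M) := AlgEquiv.restrictNormalHom M
  have hr : ∀ (σ : GQ) (x : M), ((r σ x : M) : Qb) = σ (x : Qb) :=
    fun σ x => AlgEquiv.restrictNormal_commutes σ M x
  let Φ : Subgroup (M ≃ₐ[ℚ] M) := D.map r
  let F : (M ≃ₐ[ℚ] M) → ZMod p := fun g => if h : ∃ σ ∈ D, r σ = g then f h.choose else 0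
  have hF : ∀ σ ∈ D, F (r σ) = f σ := by
    intro σ hσ
    have h : ∃ σ' ∈ D, r σ' = r σ := ⟨σ, hσ, rfl⟩
    simp only [F, dif_pos h]
    obtain ⟨hσ', hrσ'⟩ := h.choose_spec
    have hτD : h.choose⁻¹ * σ ∈ D := D.mul_mem (D.inv_mem hσ') hσ
    have hτfix : ∀ x ∈ L, (h.choose⁻¹ * σ) x = x := by
      intro x hx
      have h1 : σ x = h.choose x := by
        have := congrArg (fun g : M ≃ₐ[ℚ] M => ((g ⟨x, hLM hx⟩ : M) : Qb)) hrσ'
        simp only [hr] at this
        exact this.symm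
      rw [AlgEquiv.mul_apply, h1]
      exact h.choose.symm_apply_apply x
    have := hlev _ hσ' _ hτD hτfix
    rw [mul_inv_cancel_left] at this
    exact this.symm
  let c : (M ≃ₐ[ℚ] M) → Qb := fun g => if g ∈ Φ then zp ζ (-(F g)) else 0
  let β : M → Qb := fun θ => ∑ g : M ≃ₐ[ℚ] M, c g * ((g θ : M) : Qb)
  -- equivariance
  have hc : ∀ σ ∈ D, ∀ g : M ≃ₐ[ℚ] M, σ (c g) = zp ζ (f σ) * c (r σ * g) := by
    intro σ hσ g
    obtain ⟨a, ha⟩ := exists_isCycExp hζ σ
    by_cases hg : g ∈ Φ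
    · obtain ⟨σg, hσg, rfl⟩ := hg
      have hmem : r σ * r σg ∈ Φ := ⟨σ * σg, D.mul_mem hσ hσg, map_mul r σ σg⟩
      have hmem' : r σg ∈ Φ := ⟨σg, hσg, rfl⟩
      simp only [c, if_pos hmem, if_pos hmem']
      rw [← map_mul, hF _ (D.mul_mem hσ hσg), hF _ hσg, hcoc σ hσ σg hσg a ha,
        apply_zp hζ1 ha, ← zp_add hζ1]
      congr 1
      ring
    · have hmem : r σ * g ∉ Φ := by
        intro h
        apply hg
        have h2 : (r σ)⁻¹ ∈ Φ := Φ.inv_mem ⟨σ, hσ, rfl⟩
        have := Φ.mul_mem h2 h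
        rwa [inv_mul_cancel_left] at this
      simp only [c, if_neg hg, if_neg hmem, map_zero, mul_zero]
  have hβ : ∀ σ ∈ D, ∀ θ : M, σ (β θ) = zp ζ (f σ) * β θ := by
    intro σ hσ θ
    simp only [β]
    rw [map_sum, Finset.mul_sum]
    rw [← Equiv.sum_comp (Equiv.mulLeft (r σ))
      (fun g => zp ζ (f σ) * (c g * ((g θ : M) : Qb)))]
    refine Finset.sum_congr rfl fun g _ => ?_
    rw [map_mul, hc σ hσ g, ← hr σ (g θ)]
    simp only [Equiv.coe_mulLeft, AlgEquiv.mul_apply]
    ring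
  -- non-vanishing
  have hne : ∃ θ : M, β θ ≠ 0 := by
    by_contra hall
    push Not at hall
    let m : (M ≃ₐ[ℚ] M) → (M →* Qb) := fun g =>
      ((algebraMap M Qb).comp (g : M →+* M) : M →+* Qb)
    have hm : Function.Injective m := by
      intro g g' h
      ext x
      have := congrArg (fun φ : M →* Qb => φ x) h
      exact this
    have hli : LinearIndependent Qb (fun g : M ≃ₐ[ℚ] M => ((m g : M →* Qb) : M → Qb)) :=
      (linearIndependent_monoidHom M Qb).comp m hm
    have h0 := Fintype.linearIndependent_iff.mp hli c (by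
      funext θ
      have := hall θ
      simp only [β] at this
      simpa [m, Finset.sum_apply, Pi.smul_apply, smul_eq_mul] using this) 1
    have h1 : c 1 = zp ζ (-(F 1)) := by
      simp only [c, if_pos Φ.one_mem]
    rw [h1] at h0
    exact zp_ne_zero hζ0 _ h0
  obtain ⟨θ, hθ⟩ := hne
  exact ⟨β θ, hθ, fun σ hσ => hβ σ hσ θ⟩

end H90

end Fermat.Agent.S56.H786

end
-- ===== PACK-END S56/H786/KummerH90.lean

-- ===== PACK-BEGIN S28/H865Reduction.lean
section
/-
S28 helper (helper865): the REDUCTION MAP (V0).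

* `resZl ℓ : ℤ_(ℓ) →+* 𝔽_ℓ`, the residue map;
* `igV ℓ ⊆ ℚ((q))`, the localisation of `ℤ_(ℓ)((q))` at the prime `(ℓ)` (a discrete valuation
  ring with uniformiser `ℓ`), realised as a subring of `ℚ((q))`;
* `igRed ℓ : igV ℓ →+* 𝔽_ℓ((q))`, reduction of `q`-expansions modulo `ℓ`, with kernel `ℓ · igV ℓ`;
* `igE ℓ ⊆ ℚ((q))`, the fraction field of `igV ℓ`; it contains every `modularFunctionFieldFull N`;
* `igV ℓ` is integrally closed in `igE ℓ`; hence all charts `chartAlg N ℓ S`, `S ⊆ {j, j⁻¹}`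
  are contained in `igV ℓ`, which gives the reduction maps `chartRed`.
-/




set_option autoImplicit false

noncomputable section

namespace Fermat.Agent.S28.H865

open ModularCurve

section Residue

variable (ℓ : ℕ) [Fact ℓ.Prime]

theorem den_ne_zero_zmod (x : ↥(GaloisRep.ratLocalizedAt ℓ)) : ((x.1.den : ℕ) : ZMod ℓ) ≠ 0 := by
  rw [Ne, ZMod.natCast_eq_zero_iff]
  intro h
  have hc : Nat.Coprime x.1.den ℓ := x.2
  exact ((Nat.Prime.coprime_iff_not_dvd (Fact.out : ℓ.Prime)).mp hc.symm) h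

/-- The residue map `ℤ_(ℓ) → 𝔽_ℓ`. -/
def resZl : ↥(GaloisRep.ratLocalizedAt ℓ) →+* ZMod ℓ where
  toFun x := ((x.1 : ℚ) : ZMod ℓ)
  map_one' := by simp
  map_zero' := by simp
  map_mul' x y := by
    show (((x.1 * y.1 : ℚ)) : ZMod ℓ) = _
    exact Rat.cast_mul_of_ne_zero (den_ne_zero_zmod ℓ x) (den_ne_zero_zmod ℓ y)
  map_add' x y := by
    show (((x.1 + y.1 : ℚ)) : ZMod ℓ) = _
    exact Rat.cast_add_of_ne_zero (den_ne_zero_zmod ℓ x) (den_ne_zero_zmod ℓ y)

theorem resZl_apply (x : ↥(GaloisRep.ratLocalizedAt ℓ)) : resZl ℓ x = ((x.1 : ℚ) : ZMod ℓ) := rfl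

/-- The kernel of the residue map is `ℓ · ℤ_(ℓ)`. -/
theorem resZl_eq_zero_iff (x : ↥(GaloisRep.ratLocalizedAt ℓ)) :
    resZl ℓ x = 0 ↔ ∃ y : ↥(GaloisRep.ratLocalizedAt ℓ), x = (ℓ : ↥(GaloisRep.ratLocalizedAt ℓ)) * y := by
  constructor
  · intro h
    rw [resZl_apply, Rat.cast_def, div_eq_zero_iff] at h
    have hnum : ((x.1.num : ℤ) : ZMod ℓ) = 0 := h.resolve_right (den_ne_zero_zmod ℓ x)
    rw [ZMod.intCast_zmod_eq_zero_iff_dvd] at hnum
    obtain ⟨m, hm⟩ := hnum
    have hmem : (Rat.divInt m x.1.den) ∈ GaloisRep.ratLocalizedAt ℓ := by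
      show (Rat.divInt m x.1.den).den.Coprime ℓ
      have hdvd : (Rat.divInt m x.1.den).den ∣ x.1.den := by
        exact_mod_cast Rat.den_dvd m x.1.den
      exact Nat.Coprime.coprime_dvd_left hdvd x.2
    refine ⟨⟨Rat.divInt m x.1.den, hmem⟩, Subtype.ext ?_⟩
    have hd : ((x.1.den : ℕ) : ℚ) ≠ 0 := by exact_mod_cast x.1.den_ne_zero
    show x.1 = (((ℓ : ℕ) : ↥(GaloisRep.ratLocalizedAt ℓ)) : ℚ) * Rat.divInt m x.1.den
    rw [Rat.divInt_eq_div]
    conv_lhs => rw [← Rat.num_div_den x.1, hm]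
    push_cast
    ring
  · rintro ⟨y, rfl⟩
    rw [map_mul, map_natCast, ZMod.natCast_self, zero_mul]

theorem natCast_ne_zero_ratLocalizedAt : ((ℓ : ℕ) : ↥(GaloisRep.ratLocalizedAt ℓ)) ≠ 0 := by
  intro h
  have h2 := congrArg (Subtype.val : ↥(GaloisRep.ratLocalizedAt ℓ) → ℚ) h
  have h3 : ((ℓ : ℕ) : ℚ) = 0 := by simpa using h2
  exact (Fact.out : ℓ.Prime).ne_zero (by exact_mod_cast h3)

theorem padicValRat_nonneg_of_mem (x : ↥(GaloisRep.ratLocalizedAt ℓ)) :
    0 ≤ padicValRat ℓ x.1 := by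
  rw [padicValRat_def]
  have hc : Nat.Coprime x.1.den ℓ := x.2
  have hnd : ¬ ℓ ∣ x.1.den := (Nat.Prime.coprime_iff_not_dvd (Fact.out : ℓ.Prime)).mp hc.symm
  rw [padicValNat.eq_zero_of_not_dvd hnd]
  simp

/-- A nonzero element of `ℤ_(ℓ)` is not divisible by all powers of `ℓ`. -/
theorem exists_not_pow_dvd (r : ↥(GaloisRep.ratLocalizedAt ℓ)) (hr : r ≠ 0) :
    ∃ n : ℕ, ¬ ∃ s : ↥(GaloisRep.ratLocalizedAt ℓ),
      r = ((ℓ : ℕ) : ↥(GaloisRep.ratLocalizedAt ℓ)) ^ n * s := by
  by_contra hcon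
  push Not at hcon
  have hr1 : r.1 ≠ 0 := fun h => hr (Subtype.ext h)
  obtain ⟨s, hs⟩ := hcon ((padicValRat ℓ r.1).toNat + 1)
  have hs0 : s.1 ≠ 0 := by
    intro h
    apply hr
    rw [hs, show s = 0 from Subtype.ext h, mul_zero]
  have hℓ0 : ((ℓ : ℕ) : ℚ) ≠ 0 := by
    exact_mod_cast (Fact.out : ℓ.Prime).ne_zero
  have hval : padicValRat ℓ r.1 =
      (((padicValRat ℓ r.1).toNat + 1 : ℕ) : ℤ) + padicValRat ℓ s.1 := by
    have h1 : r.1 = ((ℓ : ℕ) : ℚ) ^ ((padicValRat ℓ r.1).toNat + 1) * s.1 := by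
      have := congrArg (Subtype.val : ↥(GaloisRep.ratLocalizedAt ℓ) → ℚ) hs
      simpa using this
    conv_lhs => rw [h1]
    rw [padicValRat.mul (pow_ne_zero _ hℓ0) hs0, padicValRat.pow,
      padicValRat.self (Fact.out : ℓ.Prime).one_lt, mul_one]
  have h2 := padicValRat_nonneg_of_mem ℓ s
  have h3 := Int.self_le_toNat (padicValRat ℓ r.1)
  push_cast at hval
  omega

end Residue

section Laurent

variable (ℓ : ℕ) [Fact ℓ.Prime]

/-- Coefficientwise inclusion `ℤ_(ℓ)((q)) → ℚ((q))`. -/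
def toQ : LaurentSeries ↥(GaloisRep.ratLocalizedAt ℓ) →+* LaurentSeries ℚ :=
  coeffMap (GaloisRep.ratLocalizedAt ℓ).subtype

/-- Coefficientwise reduction `ℤ_(ℓ)((q)) → 𝔽_ℓ((q))`. -/
def toRes : LaurentSeries ↥(GaloisRep.ratLocalizedAt ℓ) →+* LaurentSeries (ZMod ℓ) :=
  coeffMap (resZl ℓ)

omit [Fact ℓ.Prime] in
@[simp]
theorem toQ_coeff (a : LaurentSeries ↥(GaloisRep.ratLocalizedAt ℓ)) (k : ℤ) :
    (toQ ℓ a).coeff k = ((a.coeff k : ↥(GaloisRep.ratLocalizedAt ℓ)) : ℚ) := rfl

@[simp]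
theorem toRes_coeff (a : LaurentSeries ↥(GaloisRep.ratLocalizedAt ℓ)) (k : ℤ) :
    (toRes ℓ a).coeff k = resZl ℓ (a.coeff k) := rfl

omit [Fact ℓ.Prime] in
theorem toQ_injective : Function.Injective (toQ ℓ) := by
  intro a b h
  ext k
  have := congrArg (fun z => HahnSeries.coeff z k) h
  exact this

omit [Fact ℓ.Prime] in
theorem toQ_eq_zero_iff (a : LaurentSeries ↥(GaloisRep.ratLocalizedAt ℓ)) :
    toQ ℓ a = 0 ↔ a = 0 :=
  map_eq_zero_iff (toQ ℓ) (toQ_injective ℓ)

theorem natCast_mul_coeff {S : Type*} [CommRing S] (n : ℕ) (a : LaurentSeries S) (k : ℤ) :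
    (((n : ℕ) : LaurentSeries S) * a).coeff k = (n : S) * a.coeff k := by
  rw [← map_natCast (HahnSeries.C : S →+* LaurentSeries S) n, HahnSeries.C_mul_eq_smul,
    HahnSeries.coeff_smul, smul_eq_mul]

/-- Division by `ℓ` on `ℤ_(ℓ)` (junk value `0` on non-multiples). -/
def divL (r : ↥(GaloisRep.ratLocalizedAt ℓ)) : ↥(GaloisRep.ratLocalizedAt ℓ) :=
  if h : resZl ℓ r = 0 then Classical.choose ((resZl_eq_zero_iff ℓ r).mp h) else 0

theorem divL_spec {r : ↥(GaloisRep.ratLocalizedAt ℓ)} (h : resZl ℓ r = 0) :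
    r = ((ℓ : ℕ) : ↥(GaloisRep.ratLocalizedAt ℓ)) * divL ℓ r := by
  rw [divL, dif_pos h]
  exact Classical.choose_spec ((resZl_eq_zero_iff ℓ r).mp h)

theorem divL_zero : divL ℓ 0 = 0 := by
  have h := divL_spec ℓ (r := 0) (map_zero _)
  rcases mul_eq_zero.mp h.symm with h1 | h1
  · exact absurd h1 (natCast_ne_zero_ratLocalizedAt ℓ)
  · exact h1

/-- The kernel of `ℤ_(ℓ)((q)) → 𝔽_ℓ((q))` is generated by `ℓ`. -/
theorem toRes_eq_zero_iff (a : LaurentSeries ↥(GaloisRep.ratLocalizedAt ℓ)) :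
    toRes ℓ a = 0 ↔
      ∃ a' : LaurentSeries ↥(GaloisRep.ratLocalizedAt ℓ),
        a = ((ℓ : ℕ) : LaurentSeries ↥(GaloisRep.ratLocalizedAt ℓ)) * a' := by
  constructor
  · intro h
    refine ⟨a.map (⟨divL ℓ, divL_zero ℓ⟩ : ZeroHom _ _), ?_⟩
    ext k
    rw [natCast_mul_coeff, HahnSeries.map_coeff]
    have hk : resZl ℓ (a.coeff k) = 0 := by
      have := congrArg (fun z => HahnSeries.coeff z k) h
      simpa using this
    exact congrArg Subtype.val (divL_spec ℓ hk)
  · rintro ⟨a', rfl⟩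
    rw [map_mul, map_natCast]
    have : ((ℓ : ℕ) : LaurentSeries (ZMod ℓ)) = 0 := by
      rw [← map_natCast (HahnSeries.C : ZMod ℓ →+* LaurentSeries (ZMod ℓ)) ℓ, ZMod.natCast_self,
        map_zero]
    rw [this, zero_mul]

/-- Every nonzero element of `ℤ_(ℓ)((q))` is `ℓ ^ n` times an element with nonzero reduction. -/
theorem exists_eq_pow_mul (a : LaurentSeries ↥(GaloisRep.ratLocalizedAt ℓ)) (ha : a ≠ 0) :
    ∃ (n : ℕ) (a' : LaurentSeries ↥(GaloisRep.ratLocalizedAt ℓ)),
      a = ((ℓ : ℕ) : LaurentSeries ↥(GaloisRep.ratLocalizedAt ℓ)) ^ n * a' ∧ toRes ℓ a' ≠ 0 := by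
  by_contra hcon
  push Not at hcon
  have hall : ∀ n : ℕ, ∃ a' : LaurentSeries ↥(GaloisRep.ratLocalizedAt ℓ),
      a = ((ℓ : ℕ) : LaurentSeries ↥(GaloisRep.ratLocalizedAt ℓ)) ^ n * a' := by
    intro n
    induction n with
    | zero => exact ⟨a, by simp⟩
    | succ n ih =>
      obtain ⟨a', ha'⟩ := ih
      obtain ⟨a'', ha''⟩ := (toRes_eq_zero_iff ℓ a').mp (hcon n a' ha')
      exact ⟨a'', by rw [ha', ha'']; ring⟩
  obtain ⟨k, hk⟩ : ∃ k, a.coeff k ≠ 0 := by
    by_contra hc
    push Not at hc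
    exact ha (HahnSeries.ext (funext hc))
  obtain ⟨n, hn⟩ := exists_not_pow_dvd ℓ (a.coeff k) hk
  obtain ⟨a', ha'⟩ := hall n
  apply hn
  refine ⟨a'.coeff k, ?_⟩
  conv_lhs => rw [ha']
  rw [← Nat.cast_pow, natCast_mul_coeff, Nat.cast_pow]

end Laurent

section ValuationRing

variable (ℓ : ℕ) [Fact ℓ.Prime]

/-- The localisation of `ℤ_(ℓ)((q))` at the prime `(ℓ)`, as a subring of `ℚ((q))`. -/
def igV : Subring (LaurentSeries ℚ) where
  carrier := {x | ∃ a b : LaurentSeries ↥(GaloisRep.ratLocalizedAt ℓ),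
    toRes ℓ b ≠ 0 ∧ x * toQ ℓ b = toQ ℓ a}
  mul_mem' := by
    rintro x y ⟨a, b, hb, hx⟩ ⟨a', b', hb', hy⟩
    refine ⟨a * a', b * b', ?_, ?_⟩
    · rw [map_mul]; exact mul_ne_zero hb hb'
    · rw [map_mul, map_mul, ← hx, ← hy]; ring
  one_mem' := ⟨1, 1, by simp, by simp⟩
  add_mem' := by
    rintro x y ⟨a, b, hb, hx⟩ ⟨a', b', hb', hy⟩
    refine ⟨a * b' + a' * b, b * b', ?_, ?_⟩
    · rw [map_mul]; exact mul_ne_zero hb hb'
    · rw [map_mul, map_add, map_mul, map_mul, ← hx, ← hy]; ring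
  zero_mem' := ⟨0, 1, by simp, by simp⟩
  neg_mem' := by
    rintro x ⟨a, b, hb, hx⟩
    exact ⟨-a, b, hb, by rw [map_neg, ← hx]; ring⟩

theorem mem_igV_iff {x : LaurentSeries ℚ} :
    x ∈ igV ℓ ↔ ∃ a b : LaurentSeries ↥(GaloisRep.ratLocalizedAt ℓ),
      toRes ℓ b ≠ 0 ∧ x * toQ ℓ b = toQ ℓ a := Iff.rfl

theorem toQ_mem_igV (a : LaurentSeries ↥(GaloisRep.ratLocalizedAt ℓ)) : toQ ℓ a ∈ igV ℓ :=
  ⟨a, 1, by simp, by simp⟩

theorem toRes_ne_zero_imp_ne_zero {b : LaurentSeries ↥(GaloisRep.ratLocalizedAt ℓ)}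
    (hb : toRes ℓ b ≠ 0) : b ≠ 0 := by
  rintro rfl
  exact hb (map_zero _)

theorem toQ_ne_zero_of_toRes_ne_zero {b : LaurentSeries ↥(GaloisRep.ratLocalizedAt ℓ)}
    (hb : toRes ℓ b ≠ 0) : toQ ℓ b ≠ 0 := fun h =>
  toRes_ne_zero_imp_ne_zero ℓ hb ((toQ_eq_zero_iff ℓ b).mp h)

/-- A chosen numerator of an element of `igV`. -/
def igNum (x : igV ℓ) : LaurentSeries ↥(GaloisRep.ratLocalizedAt ℓ) := Classical.choose x.2

/-- A chosen denominator of an element of `igV`. -/
def igDen (x : igV ℓ) : LaurentSeries ↥(GaloisRep.ratLocalizedAt ℓ) :=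
  Classical.choose (Classical.choose_spec x.2)

theorem toRes_igDen_ne_zero (x : igV ℓ) : toRes ℓ (igDen ℓ x) ≠ 0 :=
  (Classical.choose_spec (Classical.choose_spec x.2)).1

theorem mul_toQ_igDen (x : igV ℓ) : x.1 * toQ ℓ (igDen ℓ x) = toQ ℓ (igNum ℓ x) :=
  (Classical.choose_spec (Classical.choose_spec x.2)).2

/-- The underlying function of the reduction map. -/
def igRedFun (x : igV ℓ) : LaurentSeries (ZMod ℓ) :=
  toRes ℓ (igNum ℓ x) / toRes ℓ (igDen ℓ x)

theorem igRedFun_eq (x : igV ℓ) (a b : LaurentSeries ↥(GaloisRep.ratLocalizedAt ℓ))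
    (hb : toRes ℓ b ≠ 0) (h : x.1 * toQ ℓ b = toQ ℓ a) :
    igRedFun ℓ x = toRes ℓ a / toRes ℓ b := by
  rw [igRedFun, div_eq_div_iff (toRes_igDen_ne_zero ℓ x) hb, ← map_mul, ← map_mul]
  congr 1
  apply toQ_injective ℓ
  rw [map_mul, map_mul, ← h, ← mul_toQ_igDen ℓ x]
  ring

/-- **Reduction of `q`-expansions modulo `ℓ`**, `igV ℓ → 𝔽_ℓ((q))`. -/
def igRed : igV ℓ →+* LaurentSeries (ZMod ℓ) where
  toFun := igRedFun ℓ
  map_one' := by
    rw [igRedFun_eq ℓ 1 1 1 (by simp) (by simp)]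
    simp
  map_zero' := by
    rw [igRedFun_eq ℓ 0 0 1 (by simp) (by simp)]
    simp
  map_mul' x y := by
    rw [igRedFun_eq ℓ (x * y) (igNum ℓ x * igNum ℓ y) (igDen ℓ x * igDen ℓ y)
      (by rw [map_mul]; exact mul_ne_zero (toRes_igDen_ne_zero ℓ x) (toRes_igDen_ne_zero ℓ y))
      (by rw [map_mul, map_mul, ← mul_toQ_igDen ℓ x, ← mul_toQ_igDen ℓ y, Subring.coe_mul]; ring)]
    rw [igRedFun, igRedFun, map_mul, map_mul, mul_div_mul_comm]
  map_add' x y := by
    rw [igRedFun_eq ℓ (x + y) (igNum ℓ x * igDen ℓ y + igNum ℓ y * igDen ℓ x)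
      (igDen ℓ x * igDen ℓ y)
      (by rw [map_mul]; exact mul_ne_zero (toRes_igDen_ne_zero ℓ x) (toRes_igDen_ne_zero ℓ y))
      (by rw [map_mul, map_add, map_mul, map_mul, ← mul_toQ_igDen ℓ x, ← mul_toQ_igDen ℓ y,
            Subring.coe_add]; ring)]
    rw [igRedFun, igRedFun, map_mul, map_add, map_mul, map_mul,
      div_add_div _ _ (toRes_igDen_ne_zero ℓ x) (toRes_igDen_ne_zero ℓ y)]
    congr 1
    ring

theorem igRed_eq (x : igV ℓ) (a b : LaurentSeries ↥(GaloisRep.ratLocalizedAt ℓ))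
    (hb : toRes ℓ b ≠ 0) (h : x.1 * toQ ℓ b = toQ ℓ a) :
    igRed ℓ x = toRes ℓ a / toRes ℓ b :=
  igRedFun_eq ℓ x a b hb h

@[simp]
theorem igRed_toQ (a : LaurentSeries ↥(GaloisRep.ratLocalizedAt ℓ)) :
    igRed ℓ ⟨toQ ℓ a, toQ_mem_igV ℓ a⟩ = toRes ℓ a := by
  rw [igRed_eq ℓ _ a 1 (by simp) (by simp)]
  simp

theorem natCast_laurent_zmod_eq_zero : ((ℓ : ℕ) : LaurentSeries (ZMod ℓ)) = 0 := by
  rw [← map_natCast (HahnSeries.C : ZMod ℓ →+* LaurentSeries (ZMod ℓ)) ℓ, ZMod.natCast_self,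
    map_zero]

theorem natCast_laurent_rat_ne_zero : ((ℓ : ℕ) : LaurentSeries ℚ) ≠ 0 := by
  rw [← map_natCast (HahnSeries.C : ℚ →+* LaurentSeries ℚ) ℓ, Ne,
    map_eq_zero_iff _ HahnSeries.C_injective]
  exact_mod_cast (Fact.out : ℓ.Prime).ne_zero

/-- The kernel of the reduction map is `ℓ · igV`. -/
theorem igRed_eq_zero_iff (x : igV ℓ) :
    igRed ℓ x = 0 ↔ ∃ y : igV ℓ, x = ((ℓ : ℕ) : igV ℓ) * y := by
  constructor
  · intro h
    rw [igRed_eq ℓ x _ _ (toRes_igDen_ne_zero ℓ x) (mul_toQ_igDen ℓ x), div_eq_zero_iff] at h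
    have h0 := h.resolve_right (toRes_igDen_ne_zero ℓ x)
    obtain ⟨a', ha'⟩ := (toRes_eq_zero_iff ℓ _).mp h0
    have hℓ := natCast_laurent_rat_ne_zero ℓ
    have hy : x.1 / ((ℓ : ℕ) : LaurentSeries ℚ) ∈ igV ℓ := by
      refine ⟨a', igDen ℓ x, toRes_igDen_ne_zero ℓ x, ?_⟩
      have h1 := mul_toQ_igDen ℓ x
      rw [ha', map_mul, map_natCast] at h1
      field_simp
      rw [h1]
    refine ⟨⟨_, hy⟩, Subtype.ext ?_⟩
    simp only [Subring.coe_mul, Subring.coe_natCast]
    field_simp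
  · rintro ⟨y, rfl⟩
    rw [map_mul, map_natCast, natCast_laurent_zmod_eq_zero, zero_mul]

/-- Elements of `igV` with nonzero reduction are units. -/
theorem inv_mem_igV_of_igRed_ne_zero (x : igV ℓ) (h : igRed ℓ x ≠ 0) : (x.1)⁻¹ ∈ igV ℓ := by
  rw [igRed_eq ℓ x _ _ (toRes_igDen_ne_zero ℓ x) (mul_toQ_igDen ℓ x)] at h
  have hnum : toRes ℓ (igNum ℓ x) ≠ 0 := fun h0 => h (by rw [h0, zero_div])
  refine ⟨igDen ℓ x, igNum ℓ x, hnum, ?_⟩
  have hb := toQ_ne_zero_of_toRes_ne_zero ℓ (toRes_igDen_ne_zero ℓ x)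
  have ha := toQ_ne_zero_of_toRes_ne_zero ℓ hnum
  have h1 := mul_toQ_igDen ℓ x
  have hx : x.1 ≠ 0 := by
    intro hx
    rw [hx, zero_mul] at h1
    exact ha h1.symm
  rw [← h1]
  field_simp

/-- General fact: if `x` is integral over a subring `V` of a field and `x⁻¹ ∈ V`, then `x ∈ V`. -/
theorem mem_of_isIntegral_of_inv_mem {L : Type*} [Field L] (V : Subring L) {x : L}
    (hint : IsIntegral V x) (hinv : x⁻¹ ∈ V) : x ∈ V := by
  obtain ⟨p, hmonic, hp⟩ := hint
  by_cases hx : x = 0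
  · rw [hx]; exact V.zero_mem
  rw [Polynomial.eval₂_eq_sum_range, Finset.sum_range_succ, hmonic.coeff_natDegree, map_one,
    one_mul] at hp
  rcases Nat.eq_zero_or_pos p.natDegree with h0 | hpos
  · rw [h0] at hp
    simp at hp
  obtain ⟨m, hm⟩ : ∃ m, p.natDegree = m + 1 := ⟨p.natDegree - 1, by omega⟩
  rw [hm] at hp
  have hxm : x = -∑ i ∈ Finset.range (m + 1), (algebraMap V L (p.coeff i)) * (x⁻¹) ^ (m - i) := by
    have h1 : x ^ (m + 1) = -∑ i ∈ Finset.range (m + 1), (algebraMap V L (p.coeff i)) * x ^ i :=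
      eq_neg_of_add_eq_zero_right hp
    have h2 : x = x ^ (m + 1) * (x⁻¹) ^ m := by
      rw [pow_succ, mul_assoc, mul_comm x, ← mul_assoc, ← mul_pow, mul_inv_cancel₀ hx, one_pow,
        one_mul]
    conv_lhs => rw [h2, h1]
    rw [neg_mul, Finset.sum_mul]
    congr 1
    refine Finset.sum_congr rfl fun i hi => ?_
    have hi' : i ≤ m := Nat.lt_succ_iff.mp (Finset.mem_range.mp hi)
    rw [mul_assoc]
    congr 1
    obtain ⟨k, rfl⟩ := Nat.exists_eq_add_of_le hi'
    rw [Nat.add_sub_cancel_left, pow_add, ← mul_assoc, ← mul_pow, mul_inv_cancel₀ hx, one_pow,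
      one_mul]
  rw [hxm]
  refine V.neg_mem (V.sum_mem fun i _ => V.mul_mem ?_ (V.pow_mem hinv _))
  exact (p.coeff i).2

/-- The fraction field of `igV ℓ` inside `ℚ((q))`. -/
def igE : IntermediateField ℚ (LaurentSeries ℚ) where
  carrier := {x | ∃ a b : LaurentSeries ↥(GaloisRep.ratLocalizedAt ℓ),
    b ≠ 0 ∧ x * toQ ℓ b = toQ ℓ a}
  mul_mem' := by
    rintro x y ⟨a, b, hb, hx⟩ ⟨a', b', hb', hy⟩
    refine ⟨a * a', b * b', mul_ne_zero hb hb', ?_⟩
    rw [map_mul, map_mul, ← hx, ← hy]; ring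
  one_mem' := ⟨1, 1, one_ne_zero, by simp⟩
  add_mem' := by
    rintro x y ⟨a, b, hb, hx⟩ ⟨a', b', hb', hy⟩
    refine ⟨a * b' + a' * b, b * b', mul_ne_zero hb hb', ?_⟩
    rw [map_mul, map_add, map_mul, map_mul, ← hx, ← hy]; ring
  zero_mem' := ⟨0, 1, one_ne_zero, by simp⟩
  algebraMap_mem' := by
    intro c
    refine ⟨((c.num : ℤ) : LaurentSeries ↥(GaloisRep.ratLocalizedAt ℓ)),
      ((c.den : ℕ) : LaurentSeries ↥(GaloisRep.ratLocalizedAt ℓ)), ?_, ?_⟩
    · intro h
      have h2 := congrArg (toQ ℓ) h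
      rw [map_natCast, map_zero,
        ← map_natCast (HahnSeries.C : ℚ →+* LaurentSeries ℚ) c.den,
        map_eq_zero_iff _ HahnSeries.C_injective] at h2
      exact c.den_ne_zero (by exact_mod_cast h2)
    · rw [map_natCast, map_intCast, algebraMap_apply_eq_single,
        ← map_natCast (HahnSeries.C : ℚ →+* LaurentSeries ℚ) c.den,
        ← map_intCast (HahnSeries.C : ℚ →+* LaurentSeries ℚ) c.num, ← HahnSeries.C_apply,
        ← map_mul, Rat.mul_den_eq_num]
  inv_mem' := by
    rintro x ⟨a, b, hb, hx⟩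
    by_cases hx0 : x = 0
    · rw [hx0, inv_zero]
      exact ⟨0, 1, one_ne_zero, by simp⟩
    have hb' : toQ ℓ b ≠ 0 := fun h => hb ((toQ_eq_zero_iff ℓ b).mp h)
    have ha : a ≠ 0 := by
      rintro rfl
      rw [map_zero] at hx
      exact (mul_ne_zero hx0 hb') hx
    refine ⟨b, a, ha, ?_⟩
    rw [← hx]
    field_simp

omit [Fact ℓ.Prime] in
theorem mem_igE_iff {x : LaurentSeries ℚ} :
    x ∈ igE ℓ ↔ ∃ a b : LaurentSeries ↥(GaloisRep.ratLocalizedAt ℓ),
      b ≠ 0 ∧ x * toQ ℓ b = toQ ℓ a := Iff.rfl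

theorem igV_le_igE {x : LaurentSeries ℚ} (hx : x ∈ igV ℓ) : x ∈ igE ℓ := by
  obtain ⟨a, b, hb, h⟩ := hx
  exact ⟨a, b, toRes_ne_zero_imp_ne_zero ℓ hb, h⟩

theorem toQ_mem_igE (a : LaurentSeries ↥(GaloisRep.ratLocalizedAt ℓ)) : toQ ℓ a ∈ igE ℓ :=
  igV_le_igE ℓ (toQ_mem_igV ℓ a)

/-- **Valuation ring dichotomy.** An element of the fraction field `igE` either lies in `igV`,
or its inverse lies in `ℓ · igV`. -/
theorem mem_igV_or_inv_eq_mul {x : LaurentSeries ℚ} (hx : x ∈ igE ℓ) :
    x ∈ igV ℓ ∨ ∃ y ∈ igV ℓ, x⁻¹ = ((ℓ : ℕ) : LaurentSeries ℚ) * y := by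
  obtain ⟨a, b, hb, h⟩ := hx
  by_cases hx0 : x = 0
  · left
    rw [hx0]
    exact (igV ℓ).zero_mem
  have hbQ : toQ ℓ b ≠ 0 := fun h0 => hb ((toQ_eq_zero_iff ℓ b).mp h0)
  have ha : a ≠ 0 := by
    rintro rfl
    rw [map_zero] at h
    exact (mul_ne_zero hx0 hbQ) h
  obtain ⟨n, a', rfl, ha'⟩ := exists_eq_pow_mul ℓ a ha
  obtain ⟨m, b', rfl, hb'⟩ := exists_eq_pow_mul ℓ b hb
  have hℓ := natCast_laurent_rat_ne_zero ℓ
  have ha'Q := toQ_ne_zero_of_toRes_ne_zero ℓ ha'
  have hb'Q := toQ_ne_zero_of_toRes_ne_zero ℓ hb'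
  simp only [map_mul, map_pow, map_natCast] at h
  rcases le_or_gt m n with hmn | hmn
  · left
    obtain ⟨k, rfl⟩ := Nat.exists_eq_add_of_le hmn
    refine ⟨((ℓ : ℕ) : LaurentSeries ↥(GaloisRep.ratLocalizedAt ℓ)) ^ k * a', b', hb', ?_⟩
    simp only [map_mul, map_pow, map_natCast]
    have hpow : ((ℓ : ℕ) : LaurentSeries ℚ) ^ m ≠ 0 := pow_ne_zero _ hℓ
    apply mul_left_cancel₀ hpow
    rw [← mul_assoc, mul_comm _ x, mul_assoc, h, pow_add]
    ring
  · right
    obtain ⟨k, rfl⟩ := Nat.exists_eq_add_of_lt hmn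
    refine ⟨((ℓ : ℕ) : LaurentSeries ℚ) ^ k * toQ ℓ b' / toQ ℓ a', ?_, ?_⟩
    · refine ⟨((ℓ : ℕ) : LaurentSeries ↥(GaloisRep.ratLocalizedAt ℓ)) ^ k * b', a', ha', ?_⟩
      simp only [map_mul, map_pow, map_natCast]
      field_simp
    · have hpow : ((ℓ : ℕ) : LaurentSeries ℚ) ^ n ≠ 0 := pow_ne_zero _ hℓ
      have hx' : x = toQ ℓ a' / (((ℓ : ℕ) : LaurentSeries ℚ) ^ (k + 1) * toQ ℓ b') := by
        rw [eq_div_iff (mul_ne_zero (pow_ne_zero _ hℓ) hb'Q)]
        apply mul_left_cancel₀ hpow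
        rw [← h, pow_add, pow_add]
        ring
      rw [hx', inv_div, pow_succ]
      field_simp

/-- `igV ℓ` is integrally closed in its fraction field `igE ℓ`. -/
theorem mem_igV_of_isIntegral {x : LaurentSeries ℚ} (hx : x ∈ igE ℓ)
    (hint : IsIntegral (igV ℓ) x) : x ∈ igV ℓ := by
  rcases mem_igV_or_inv_eq_mul ℓ hx with h | ⟨y, hy, hxy⟩
  · exact h
  · refine mem_of_isIntegral_of_inv_mem (igV ℓ) hint ?_
    rw [hxy]
    exact (igV ℓ).mul_mem (natCast_mem _ _) hy

end ValuationRing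

end Fermat.Agent.S28.H865

end
end
-- ===== PACK-END S28/H865Reduction.lean

-- ===== PACK-BEGIN S28/H865Dvr.lean
section
/-
S28 helper (helper865): `ℤ_(ℓ) = GaloisRep.ratLocalizedAt ℓ` is a discrete valuation ring with
uniformiser `ℓ`; in particular it is integrally closed and `ℓ` is a prime element.
-/



set_option autoImplicit false

noncomputable section

namespace Fermat.Agent.S28.H865

variable (ℓ : ℕ) [Fact ℓ.Prime]

theorem span_natCast_eq_ker_resZl :
    Ideal.span {((ℓ : ℕ) : ↥(GaloisRep.ratLocalizedAt ℓ))} = RingHom.ker (resZl ℓ) := by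
  ext x
  rw [RingHom.mem_ker, resZl_eq_zero_iff, Ideal.mem_span_singleton']
  constructor
  · rintro ⟨a, rfl⟩
    exact ⟨a, mul_comm _ _⟩
  · rintro ⟨y, rfl⟩
    exact ⟨y, mul_comm _ _⟩

/-- `ℓ` is a prime element of `ℤ_(ℓ)`. -/
theorem prime_natCast_ratLocalizedAt : Prime ((ℓ : ℕ) : ↥(GaloisRep.ratLocalizedAt ℓ)) := by
  rw [← Ideal.span_singleton_prime (natCast_ne_zero_ratLocalizedAt ℓ), span_natCast_eq_ker_resZl]
  exact RingHom.ker_isPrime _

/-- Elements of `ℤ_(ℓ)` with nonzero residue are units. -/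
theorem isUnit_of_resZl_ne_zero {u : ↥(GaloisRep.ratLocalizedAt ℓ)} (hu : resZl ℓ u ≠ 0) :
    IsUnit u := by
  have hu0 : u.1 ≠ 0 := by
    intro h
    apply hu
    rw [show u = 0 from Subtype.ext h, map_zero]
  have hnum : ((u.1.num : ℤ) : ZMod ℓ) ≠ 0 := by
    intro h
    apply hu
    rw [resZl_apply, Rat.cast_def, h, zero_div]
  have hmem : (u.1)⁻¹ ∈ GaloisRep.ratLocalizedAt ℓ := by
    show ((u.1)⁻¹).den.Coprime ℓ
    rw [Rat.den_inv_of_ne_zero hu0]
    rw [Nat.coprime_comm, Nat.Prime.coprime_iff_not_dvd (Fact.out : ℓ.Prime)]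
    intro hdvd
    apply hnum
    rw [ZMod.intCast_zmod_eq_zero_iff_dvd]
    exact Int.natCast_dvd.mpr hdvd
  exact IsUnit.of_mul_eq_one ⟨(u.1)⁻¹, hmem⟩ (Subtype.ext (mul_inv_cancel₀ hu0))

/-- Every nonzero element of `ℤ_(ℓ)` is a unit times a power of `ℓ`. -/
theorem exists_eq_pow_mul_unit (x : ↥(GaloisRep.ratLocalizedAt ℓ)) (hx : x ≠ 0) :
    ∃ (n : ℕ) (u : ↥(GaloisRep.ratLocalizedAt ℓ)),
      x = ((ℓ : ℕ) : ↥(GaloisRep.ratLocalizedAt ℓ)) ^ n * u ∧ IsUnit u := by
  classical
  by_contra hcon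
  push Not at hcon
  have hall : ∀ n : ℕ, ∃ s : ↥(GaloisRep.ratLocalizedAt ℓ),
      x = ((ℓ : ℕ) : ↥(GaloisRep.ratLocalizedAt ℓ)) ^ n * s := by
    intro n
    induction n with
    | zero => exact ⟨x, by simp⟩
    | succ n ih =>
      obtain ⟨s, hs⟩ := ih
      have hres : resZl ℓ s = 0 := by
        by_contra h
        exact hcon n s hs (isUnit_of_resZl_ne_zero ℓ h)
      obtain ⟨s', hs'⟩ := (resZl_eq_zero_iff ℓ s).mp hres
      exact ⟨s', by rw [hs, hs']; ring⟩
  obtain ⟨n, hn⟩ := exists_not_pow_dvd ℓ x hx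
  exact hn (hall n)

instance isDiscreteValuationRing_ratLocalizedAt :
    IsDiscreteValuationRing ↥(GaloisRep.ratLocalizedAt ℓ) :=
  IsDiscreteValuationRing.ofHasUnitMulPowIrreducibleFactorization
    ⟨((ℓ : ℕ) : ↥(GaloisRep.ratLocalizedAt ℓ)), (prime_natCast_ratLocalizedAt ℓ).irreducible,
      fun {x} hx => by
        obtain ⟨n, u, hxu, hu⟩ := exists_eq_pow_mul_unit ℓ x hx
        refine ⟨n, ?_⟩
        rw [hxu]
        exact ⟨hu.unit, by simp⟩⟩

theorem isIntegrallyClosed_ratLocalizedAt :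
    IsIntegrallyClosed ↥(GaloisRep.ratLocalizedAt ℓ) := inferInstance

theorem isIntegrallyClosed_polynomial_ratLocalizedAt :
    IsIntegrallyClosed (Polynomial ↥(GaloisRep.ratLocalizedAt ℓ)) := inferInstance

theorem prime_C_natCast :
    Prime (Polynomial.C ((ℓ : ℕ) : ↥(GaloisRep.ratLocalizedAt ℓ))) :=
  Polynomial.prime_C_iff.mpr (prime_natCast_ratLocalizedAt ℓ)

end Fermat.Agent.S28.H865

end
end
-- ===== PACK-END S28/H865Dvr.lean

-- ===== PACK-BEGIN S19/H435/Indep.lean
section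
/-
A3 / WP-C (helper435): Galois descent lemmas for lattices of equivariant functions.

* `linearIndependent_Qb_of_int` (F1): `ℤ`-linearly independent Galois-equivariant functions
  `M → Qb` are `Qb`-linearly independent (minimal relation argument, `Qb^Gal = ℚ`).
-/



set_option autoImplicit false

noncomputable section

namespace Fermat.Agent.S19.H435

/-- The algebraic closure of `ℚ` used by the Prelude. -/
abbrev Qb : Type := AlgebraicClosure ℚ

/-- The absolute Galois group, as in the Prelude. -/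
abbrev Gal : Type := _root_.Fermat.Agent.S19.H435.Qb ≃ₐ[ℚ] _root_.Fermat.Agent.S19.H435.Qb

/-- `ℤ_(ℓ)` as in the Prelude. -/
abbrev Zl (ℓ : ℕ) : Type := ↥(GaloisRep.ratLocalizedAt ℓ)

/-- Equivariance of a `Qb`-valued function for a (set-theoretic) Galois action. -/
def IsEquivariantFun {M : Type*} (act : Gal → M → M) (f : M → _root_.Fermat.Agent.S19.H435.Qb) : Prop :=
  ∀ (σ : Gal) (m : M), f (act σ m) = σ (f m)

theorem fixed_mem_range_rat (x : _root_.Fermat.Agent.S19.H435.Qb) (hx : ∀ σ : Gal, σ x = x) :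
    ∃ q : ℚ, algebraMap ℚ _root_.Fermat.Agent.S19.H435.Qb q = x := by
  have h1 : Algebra.IsAlgebraic ℚ _root_.Fermat.Agent.S19.H435.Qb := AlgebraicClosure.isAlgebraic ℚ
  have h2 : IsAlgClosure ℚ _root_.Fermat.Agent.S19.H435.Qb := ⟨inferInstance, inferInstance⟩
  have h3 : IsGalois ℚ _root_.Fermat.Agent.S19.H435.Qb := IsAlgClosure.isGalois ℚ _root_.Fermat.Agent.S19.H435.Qb
  exact (InfiniteGalois.mem_range_algebraMap_iff_fixed (k := ℚ) (K := _root_.Fermat.Agent.S19.H435.Qb) x).mpr hx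

/-- **F1.** `ℤ`-linearly independent equivariant functions are `Qb`-linearly independent. -/
theorem linearIndependent_Qb_of_int {M : Type*} {act : Gal → M → M} {ι : Type*} [Fintype ι]
    (f : ι → M → _root_.Fermat.Agent.S19.H435.Qb) (hf : ∀ i, IsEquivariantFun act (f i)) (hli : LinearIndependent ℤ f) :
    LinearIndependent _root_.Fermat.Agent.S19.H435.Qb f := by
  classical
  rw [Fintype.linearIndependent_iff]
  suffices H : ∀ n : ℕ, ∀ c : ι → _root_.Fermat.Agent.S19.H435.Qb, (Finset.univ.filter (fun i => c i ≠ 0)).card = n →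
      ∑ i, c i • f i = 0 → ∀ i, c i = 0 from fun c hc i => H _ c rfl hc i
  intro n
  induction n using Nat.strong_induction_on with
  | _ n ih =>
    intro c hn hc
    by_contra hne
    push Not at hne
    obtain ⟨i₀, hi₀⟩ := hne
    set c' : ι → _root_.Fermat.Agent.S19.H435.Qb := fun i => c i / c i₀ with hc'
    have hc'0 : ∑ i, c' i • f i = 0 := by
      have : ∑ i, c' i • f i = (c i₀)⁻¹ • ∑ i, c i • f i := by
        rw [Finset.smul_sum]
        refine Finset.sum_congr rfl fun i _ => ?_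
        rw [smul_smul]
        congr 1
        simp only [hc', div_eq_inv_mul]
      rw [this, hc, smul_zero]
    have hc'i₀ : c' i₀ = 1 := div_self hi₀
    have hsupp : ∀ i, c i = 0 → c' i = 0 := fun i hi => by simp [hc', hi]
    have hpt : ∀ m : M, ∑ i, c' i * f i m = 0 := by
      intro m
      have := congrFun hc'0 m
      simpa [Finset.sum_apply] using this
    have hfix : ∀ (σ : Gal) (i : ι), σ (c' i) = c' i := by
      intro σ
      set d : ι → _root_.Fermat.Agent.S19.H435.Qb := fun i => σ (c' i) - c' i with hd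
      have hd0 : ∑ i, d i • f i = 0 := by
        funext m
        simp only [Finset.sum_apply, Pi.smul_apply, smul_eq_mul, Pi.zero_apply, hd, sub_mul,
          Finset.sum_sub_distrib]
        have h2 : ∑ i, σ (c' i) * f i m = 0 := by
          have h3 := congrArg σ (hpt (act σ⁻¹ m))
          rw [map_sum, map_zero] at h3
          rw [← h3]
          refine Finset.sum_congr rfl fun i _ => ?_
          rw [map_mul, hf i σ⁻¹ m]
          congr 1
          exact (AlgEquiv.apply_symm_apply σ (f i m)).symm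
        rw [hpt m, h2, sub_zero]
      have hlt : (Finset.univ.filter (fun i => d i ≠ 0)).card < n := by
        rw [← hn]
        apply Finset.card_lt_card
        rw [Finset.ssubset_iff_of_subset]
        · exact ⟨i₀, by simp [hi₀], by simp [hd, hc'i₀]⟩
        · intro i hi
          simp only [Finset.mem_filter, Finset.mem_univ, true_and] at hi ⊢
          intro hci
          apply hi
          simp [hd, hsupp i hci]
      intro i
      have := ih _ hlt d rfl hd0 i
      exact sub_eq_zero.mp this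
    choose q hq using fun i => fixed_mem_range_rat (c' i) (fun σ => hfix σ i)
    set D : ℕ := ∏ i, (q i).den with hD
    have hDpos : 0 < D := Finset.prod_pos fun i _ => (q i).den_pos
    have hz : ∀ i, ∃ z : ℤ, (z : ℚ) = D * q i := by
      intro i
      have hdvd : (q i).den ∣ D := Finset.dvd_prod_of_mem _ (Finset.mem_univ i)
      obtain ⟨e, he⟩ := hdvd
      refine ⟨(q i).num * e, ?_⟩
      rw [he]
      push_cast
      rw [← Rat.den_mul_eq_num (q i)]
      ring
    choose z hz using hz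
    have hsum : ∑ i, z i • f i = 0 := by
      funext m
      simp only [Finset.sum_apply, Pi.zero_apply, zsmul_eq_mul, Pi.mul_apply, Pi.intCast_apply]
      have h1 : ∀ i, ((z i : ℤ) : _root_.Fermat.Agent.S19.H435.Qb) = (D : _root_.Fermat.Agent.S19.H435.Qb) * c' i := by
        intro i
        rw [← hq i]
        have := congrArg (algebraMap ℚ _root_.Fermat.Agent.S19.H435.Qb) (hz i)
        rw [map_mul, map_intCast, map_natCast] at this
        exact this
      simp only [h1, mul_assoc]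
      rw [← Finset.mul_sum, hpt m, mul_zero]
    have hz0 := (Fintype.linearIndependent_iff.mp hli) z hsum
    have h0 : c' i₀ = 0 := by
      have h1 : (z i₀ : ℚ) = 0 := by rw [hz0 i₀]; simp
      rw [hz] at h1
      have h2 : q i₀ = 0 := by
        rcases mul_eq_zero.mp h1 with h | h
        · exact absurd (by exact_mod_cast h) hDpos.ne'
        · exact h
      rw [← hq i₀, h2, map_zero]
    rw [hc'i₀] at h0
    exact one_ne_zero h0

end Fermat.Agent.S19.H435

end
end
-- ===== PACK-END S19/H435/Indep.lean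

-- ===== PACK-BEGIN S18/Sq05/Spec.lean
section




/-!
# S18 — squad S18/S05 (squad-lead helper5): frozen statements of the squad's pieces

Row plan: `origin/helper18:coord/S18.md` (v2).  This squad owns

* **T2** / **T3**: "a function without zeros and poles is constant" for the modular function
  fields in characteristic `0` and `ℓ` (`ConstStatement`, definitionally equal to
  `Fermat.Agent.S18.H94.ConstOfOrdZero` of the adopted top layer),
* the residue-field facts needed to instantiate T3 at `k = A/𝔪`,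
* **d1** (descent to a number field, see `coord/S18-squad05.md`).

Every statement below is FROZEN.  Proofs go to `Fermat/Agent/S18/H<seat>/…` (own namespace
`Fermat.Agent.S18.H<seat>`), importing Mathlib, Prelude and landed files only.
-/

set_option autoImplicit false

noncomputable section

namespace Fermat.Agent.S18.Sq05

open AlgebraicCurve ModularCurve IntermediateField

/-- A function without zeros and poles (at the discrete valuation rings containing `K`) is a
constant.  Unfolded form of `H94.ConstOfOrdZero K F`. -/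
def ConstStatement (K F : Type*) [Field K] [Field F] [Algebra K F] : Prop :=
  ∀ u : F, u ≠ 0 → (∀ v : Place K F, v.ord u = 0) → ∃ c : K, u = algebraMap K F c

/-- **FF.1 (DISC)**, Mathlib-only, characteristic-free.  A valuation subring of a finite
extension `F/E` whose restriction to `E` is a principal ideal ring is a principal ideal ring.
(Value group index `≤ [F:E]`; no separability, no Krull–Akizuki.) -/
def DiscStatement : Prop :=
  ∀ (E F : Type) [Field E] [Field F] [Algebra E F] [FiniteDimensional E F]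
    (V : ValuationSubring F),
    IsPrincipalIdealRing (V.comap (algebraMap E F)) → IsPrincipalIdealRing V

/-- **FF.2 (EXT)**, characteristic-free.  If `F` is finite over `K(u)`, `u` transcendental, then
`u` has a zero at some place of `F/K`. -/
def ExtStatement : Prop :=
  ∀ (K F : Type) [Field K] [Field F] [Algebra K F] (u : F), Transcendental K u →
    FiniteDimensional K⟮u⟯ F → ∃ v : Place K F, 0 < v.ord u

/-- **FF.3 (CONST, generic)**: `K` algebraically closed, `F` finite over `K(x)`. -/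
def ConstGenericStatement : Prop :=
  ∀ (K F : Type) [Field K] [Field F] [Algebra K F] [IsAlgClosed K] (x : F),
    Transcendental K x → FiniteDimensional K⟮x⟯ F → ConstStatement K F

/-- **RES.1**: the residue field of a valuation subring of an algebraically closed field is
algebraically closed. -/
def ResAlgClosedStatement : Prop :=
  ∀ (L : Type) [Field L] [IsAlgClosed L] (A : ValuationSubring L),
    IsAlgClosed (IsLocalRing.ResidueField A)

/-- **RES.2**: primes different from the residue characteristic are invertible in the residue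
field. -/
def ResCharStatement : Prop :=
  ∀ (L : Type) [Field L] (A : ValuationSubring L) (ℓ p : ℕ), ℓ.Prime → p.Prime →
    A.LiesOverPrime ℓ → p ≠ ℓ → ((p : ℕ) : IsLocalRing.ResidueField A) ≠ 0

/-- The `j`-function as an element of the function field `k(j(q^d) : d ∣ N)`. -/
def jC (k : Type*) [Field k] (N : ℕ) [NeZero N] : modularFunctionFieldFullC k N :=
  ⟨jqModC k, jqModC_mem_full k N⟩

/-- **MOD.1**: `j` is transcendental and `k(j(q^d) : d ∣ N)` is finite over `k(j)`, for every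
field `k` in which the primes dividing `N` are invertible.
(From landed S28: `H626.finiteDimensional_extendScalars`, `H867.hasModPolys`,
`H807.nonempty_modPolyData`.) -/
def ModFiniteStatement : Prop :=
  ∀ (k : Type) [Field k] (N : ℕ) [NeZero N], (∀ p : ℕ, p.Prime → p ∣ N → (p : k) ≠ 0) →
    Transcendental k (jC k N) ∧ FiniteDimensional k⟮jC k N⟯ (modularFunctionFieldFullC k N)

/-- **T3 (generic field)**. -/
def T3GenericStatement : Prop :=
  ∀ (k : Type) [Field k] [IsAlgClosed k] (N : ℕ) [NeZero N],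
    (∀ p : ℕ, p.Prime → p ∣ N → (p : k) ≠ 0) →
    ConstStatement k (modularFunctionFieldFullC k N)

/-- **T3** (as consumed by the top layer): `CONST_Fk` at `k = A/𝔪`. -/
def T3Statement : Prop :=
  ∀ (N : ℕ) [NeZero N] (ℓ : ℕ), ℓ.Prime → ¬ ℓ ∣ N →
    ∀ A : ValuationSubring (AlgebraicClosure ℚ), A.LiesOverPrime ℓ →
      ConstStatement (IsLocalRing.ResidueField A)
        (modularFunctionFieldFullC (IsLocalRing.ResidueField A) N)

/-- **T2**: `CONST_F` in characteristic zero (from landed S24: `open_fundamental_eq`,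
`ModularPackage.finiteDimensional`; or from FF.3 + MOD.1 and
`modularFunctionFieldBar N = modularFunctionFieldFullC ℚ̄ N`). -/
def T2Statement : Prop :=
  ∀ (N : ℕ) [NeZero N],
    ConstStatement (AlgebraicClosure ℚ) (modularFunctionFieldBar N)

/-- **HPD.k (hedge, for route H / `Lib.RR.FF1` in characteristic `ℓ`)**: the product formula,
characteristic-free. -/
def HpdStatement : Prop :=
  ∀ (K F : Type) [Field K] [Field F] [Algebra K F] [IsAlgClosed K] (x : F),
    Transcendental K x → FiniteDimensional K⟮x⟯ F → HasPrincipalDivisors K F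

/-- Assembly of T3 from the pieces (proved here so that the split is known to be sound). -/
theorem t3Generic_of_pieces (hC : ConstGenericStatement) (hM : ModFiniteStatement) :
    T3GenericStatement := by
  intro k _ _ N _ hchar
  obtain ⟨htr, hfin⟩ := hM k N hchar
  exact hC k _ (jC k N) htr hfin

theorem t3_of_pieces (hG : T3GenericStatement) (hA : ResAlgClosedStatement)
    (hR : ResCharStatement) : T3Statement := by
  intro N _ ℓ hℓ hℓN A hAℓ
  have := hA _ A
  refine hG _ N fun p hp hpN => hR _ A ℓ p hℓ hp hAℓ ?_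
  rintro rfl
  exact hℓN hpN

end Fermat.Agent.S18.Sq05

end
end
-- ===== PACK-END S18/Sq05/Spec.lean

-- ===== PACK-BEGIN S18/H213/DetRank.lean
section


/-!
# S18 / b2 — the determinant–rank lemma (helper213)

`O` a domain, `π` a prime element generating a maximal ideal, `κ = O/π`.  If the rows of a square
matrix `H` over `O` reduce into a subspace of `κⁿ` of codimension `≥ r`, then `π ^ r ∣ det H`.
-/

set_option autoImplicit false

set_option linter.unusedSectionVars false

open Module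

namespace Fermat.Agent.S18.H213

attribute [local instance] Ideal.Quotient.field

variable {O : Type*} [CommRing O] [IsDomain O] {π : O}

/-- Reduction of a row vector modulo `π`. -/
def redRow (π : O) {ι : Type*} (v : ι → O) : ι → O ⧸ Ideal.span {π} :=
  fun k => Ideal.Quotient.mk (Ideal.span {π}) (v k)

theorem redRow_add {ι : Type*} (v w : ι → O) : redRow π (v + w) = redRow π v + redRow π w := by
  funext k; simp [redRow]

theorem redRow_smul {ι : Type*} (c : O) (v : ι → O) :
    redRow π (c • v) = Ideal.Quotient.mk (Ideal.span {π}) c • redRow π v := by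
  funext k; simp [redRow]

theorem redRow_sum {ι α : Type*} (s : Finset α) (f : α → ι → O) :
    redRow π (∑ a ∈ s, f a) = ∑ a ∈ s, redRow π (f a) := by
  funext k
  simp only [redRow, Finset.sum_apply, map_sum]

theorem redRow_eq_zero_iff {ι : Type*} (v : ι → O) :
    redRow π v = 0 ↔ ∀ k, π ∣ v k := by
  constructor
  · intro h k
    have := congrFun h k
    simp only [redRow, Pi.zero_apply, Ideal.Quotient.eq_zero_iff_mem,
      Ideal.mem_span_singleton] at this
    exact this
  · intro h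
    funext k
    simp only [redRow, Pi.zero_apply, Ideal.Quotient.eq_zero_iff_mem, Ideal.mem_span_singleton]
    exact h k

/-- **DET–RANK**, subspace form. -/
theorem pow_dvd_det_of_rows_mem (hπ : Prime π) [hmax : (Ideal.span {π}).IsMaximal]
    {ι : Type*} [Fintype ι] [DecidableEq ι] :
    ∀ (r : ℕ) (H : Matrix ι ι O) (U : Submodule (O ⧸ Ideal.span {π}) (ι → O ⧸ Ideal.span {π})),
      finrank (O ⧸ Ideal.span {π}) U + r ≤ Fintype.card ι →
      (∀ j, redRow π (H j) ∈ U) → π ^ r ∣ H.det := by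
  intro r
  induction r with
  | zero => intro H U _ _; simp
  | succ r ih =>
    intro H U hU hH
    -- the rows are linearly dependent mod π
    have hdep : ¬ LinearIndependent (O ⧸ Ideal.span {π})
        (fun j : ι => (⟨redRow π (H j), hH j⟩ : U)) := by
      intro hli
      have := hli.fintype_card_le_finrank
      omega
    rw [Fintype.not_linearIndependent_iff] at hdep
    obtain ⟨g, hg, j0, hj0⟩ := hdep
    -- lift the coefficients
    have hsurj := Ideal.Quotient.mk_surjective (I := Ideal.span {π})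
    choose c hc using fun j => hsurj (g j)
    have hcj0 : ¬ π ∣ c j0 := by
      intro hdiv
      apply hj0
      rw [← hc j0, Ideal.Quotient.eq_zero_iff_mem, Ideal.mem_span_singleton]
      exact hdiv
    -- the combined row vanishes mod π
    have hR : redRow π (∑ j, c j • H j) = 0 := by
      rw [redRow_sum]
      have h1 : ∀ j, redRow π (c j • H j) = g j • redRow π (H j) := fun j => by
        rw [redRow_smul, hc]
      simp only [h1]
      have := congrArg (Subtype.val) hg
      simpa using this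
    rw [redRow_eq_zero_iff] at hR
    choose R' hR' using hR
    have hRR' : (∑ j, c j • H j) = π • R' := by
      funext k
      rw [hR' k]
      simp
    -- determinant identity
    have hdet : c j0 * H.det = π * (H.updateRow j0 R').det := by
      have h1 := Matrix.det_updateRow_sum H j0 c
      rw [hRR', Matrix.det_updateRow_smul] at h1
      rw [h1, smul_eq_mul]
    -- the new matrix has rows in `U ⊔ span {R'}`
    have hrows : ∀ j, redRow π ((H.updateRow j0 R') j) ∈
        U ⊔ Submodule.span (O ⧸ Ideal.span {π}) {redRow π R'} := by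
      intro j
      by_cases hj : j = j0
      · subst hj
        rw [Matrix.updateRow_self]
        exact Submodule.mem_sup_right (Submodule.mem_span_singleton_self _)
      · rw [Matrix.updateRow_ne hj]
        exact Submodule.mem_sup_left (hH j)
    have hfin : finrank (O ⧸ Ideal.span {π})
        ↥(U ⊔ Submodule.span (O ⧸ Ideal.span {π}) {redRow π R'}) + r ≤ Fintype.card ι := by
      have h1 := Submodule.finrank_add_le_finrank_add_finrank U
        (Submodule.span (O ⧸ Ideal.span {π}) {redRow π R'})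
      have h2 : finrank (O ⧸ Ideal.span {π})
          ↥(Submodule.span (O ⧸ Ideal.span {π}) {redRow π R'}) ≤ 1 := by
        have := finrank_span_le_card (R := O ⧸ Ideal.span {π}) ({redRow π R'} : Set _)
        simpa using this
      omega
    have hih := ih (H.updateRow j0 R') _ hfin hrows
    have hdvd : π ^ (r + 1) ∣ c j0 * H.det := by
      rw [hdet, pow_succ']
      exact mul_dvd_mul_left π hih
    exact hπ.pow_dvd_of_dvd_mul_left (r + 1) hcj0 hdvd

/-- **DET–RANK**, quotient form: the rows are killed by a surjection onto a space of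
dimension `≥ r`. -/
theorem pow_dvd_det_of_rows_ker (hπ : Prime π) [hmax : (Ideal.span {π}).IsMaximal]
    {ι : Type*} [Fintype ι] [DecidableEq ι] {Q : Type*} [AddCommGroup Q]
    [Module (O ⧸ Ideal.span {π}) Q]
    (g : (ι → O ⧸ Ideal.span {π}) →ₗ[O ⧸ Ideal.span {π}] Q) (hg : Function.Surjective g)
    (r : ℕ) (hr : r ≤ finrank (O ⧸ Ideal.span {π}) Q) (H : Matrix ι ι O)
    (hH : ∀ j, g (redRow π (H j)) = 0) : π ^ r ∣ H.det := by
  refine pow_dvd_det_of_rows_mem hπ r H (LinearMap.ker g) ?_ (fun j => hH j)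
  have h1 := LinearMap.finrank_range_add_finrank_ker g
  have h2 : finrank (O ⧸ Ideal.span {π}) (LinearMap.range g) = finrank (O ⧸ Ideal.span {π}) Q := by
    rw [LinearMap.range_eq_top.mpr hg]
    exact finrank_top _ _
  have h3 : finrank (O ⧸ Ideal.span {π}) (ι → O ⧸ Ideal.span {π}) = Fintype.card ι := by
    simp
  omega

end Fermat.Agent.S18.H213

end
-- ===== PACK-END S18/H213/DetRank.lean

-- ===== PACK-BEGIN S18/H213/Tame.lean
section



/-!
# S18 / b2.3 — the tame discriminant bound (helper213)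

`O` a PID, `π` a prime element with residue field `κ = O/π` of characteristic zero, `C` a Dedekind
domain, finite and torsion-free over `O`, with `O`-basis `b` (`n` elements).  Then

  `ord_π (disc b) ≤ n - dim_κ (C/πC)_red`,

stated as: `r ≤ dim_κ (C/πC)_red → ¬ π ^ (n - r + 1) ∣ disc b`  (`tame_discr_bound`).

Proof.  For a prime `P ∣ πC`, `πC = P ^ e * Q`, the idempotent of `C/πC` cut out by `Q` has trace
`e f ≠ 0` in `κ`, hence `P ^ e ∤ 𝔇` (Mathlib `not_dvd_differentIdeal_of_intTrace_not_mem`).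
Ideal arithmetic then gives `s ∉ (π)` with `s π C^∨ ⊆ rad(πC)`, i.e. a matrix `H` over `O` with
`H * G = s π • 1` (`G` the Gram matrix of `b`) whose rows reduce into the coordinates of
`rad(πC)/πC`, a subspace of codimension `dim (C/πC)_red`.  The determinant–rank lemma
(`DetRank.lean`) gives `π ^ r ∣ det H`, and `det H * disc b = (s π) ^ n`.
-/

set_option autoImplicit false
set_option linter.style.haveILetI false
set_option linter.unusedSectionVars false

open Module
open scoped nonZeroDivisors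

namespace Fermat.Agent.S18.H213

attribute [local instance] FractionRing.liftAlgebra FractionRing.isScalarTower_liftAlgebra
  Ideal.Quotient.field

/-- The trace of a nonzero idempotent of a finite-dimensional algebra over a field of
characteristic zero is nonzero. -/
theorem trace_idempotent_ne_zero {κ V : Type*} [Field κ] [CharZero κ] [CommRing V] [Algebra κ V]
    [Module.Finite κ V] (x : V) (hx : x * x = x) (hx0 : x ≠ 0) : Algebra.trace κ V x ≠ 0 := by
  rw [Algebra.trace_apply]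
  have hid : IsIdempotentElem (Algebra.lmul κ V x) := by
    show Algebra.lmul κ V x * Algebra.lmul κ V x = Algebra.lmul κ V x
    rw [← map_mul, hx]
  have hproj := LinearMap.IsIdempotentElem.isProj_range _ hid
  rw [hproj.trace]
  have hpos : 0 < finrank κ (LinearMap.range (Algebra.lmul κ V x)) := by
    rw [Module.finrank_pos_iff_exists_ne_zero]
    refine ⟨⟨x, ⟨1, by simp⟩⟩, ?_⟩
    intro h
    exact hx0 (congrArg Subtype.val h)
  exact_mod_cast hpos.ne'

section
variable {O C : Type*} [CommRing O] [IsDomain O] [IsPrincipalIdealRing O]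
    [CommRing C] [IsDedekindDomain C] [Algebra O C] [Module.Finite O C] [IsTorsionFree O C]
    {π : O}

/-- **Tameness** (residue characteristic zero): if `π C = P ^ e * Q` with `P ^ e` and `Q`
comaximal and `P ^ e ≠ ⊤`, then `P ^ e` does not divide the different. -/
theorem not_pow_dvd_differentIdeal (hπ : Prime π) [CharZero (O ⧸ Ideal.span {π})]
    [Algebra.IsSeparable (FractionRing O) (FractionRing C)]
    (Pe Q : Ideal C) (hPQ : Pe * Q = (Ideal.span {π}).map (algebraMap O C))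
    (hcop : Pe ⊔ Q = ⊤) (hPe : Pe ≠ ⊤) : ¬ Pe ∣ differentIdeal O C := by
  have hmax : (Ideal.span {π}).IsMaximal :=
    PrincipalIdealRing.isMaximal_of_irreducible hπ.irreducible
  obtain ⟨a, ha, x, hxQ, hax⟩ := Submodule.mem_sup.mp (hcop ▸ Submodule.mem_top : (1 : C) ∈ Pe ⊔ Q)
  refine not_dvd_differentIdeal_of_intTrace_not_mem O Pe Q hPQ x hxQ ?_
  rw [← Ideal.Quotient.eq_zero_iff_mem, ← Algebra.trace_quotient_eq_of_isDedekindDomain]
  apply trace_idempotent_ne_zero
  · rw [← map_mul, Ideal.Quotient.eq, ← hPQ]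
    have : x * x - x = -(a * x) := by
      have : a = 1 - x := by rw [← hax]; ring
      rw [this]; ring
    rw [this]
    exact neg_mem (Ideal.mul_mem_mul ha hxQ)
  · intro h
    rw [Ideal.Quotient.eq_zero_iff_mem, ← hPQ] at h
    have hxP : x ∈ Pe := (Ideal.mul_le_left : Pe * Q ≤ Pe) h
    apply hPe
    rw [Ideal.eq_top_iff_one, ← hax]
    exact add_mem ha hxP

/-- Key ideal arithmetic. -/
theorem exists_ideal_le_radical (hπ : Prime π) [CharZero (O ⧸ Ideal.span {π})]
    [Algebra.IsSeparable (FractionRing O) (FractionRing C)] :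
    ∃ (I' : Ideal C) (s : O), ¬ π ∣ s ∧ I' ≤ ((Ideal.span {π}).map (algebraMap O C)).radical ∧
      algebraMap O C (s * π) ∈ differentIdeal O C * I' := by
  have hinj : Function.Injective (algebraMap O C) := FaithfulSMul.algebraMap_injective O C
  set pC := (Ideal.span {π}).map (algebraMap O C) with hpC
  set D := differentIdeal O C with hD
  have hD0 : D ≠ ⊥ := differentIdeal_ne_bot
  have hπC : algebraMap O C π ∈ pC := Ideal.mem_map_of_mem _ (Ideal.mem_span_singleton_self π)
  have hpC0 : pC ≠ ⊥ := by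
    intro h
    rw [h, Ideal.mem_bot] at hπC
    exact hπ.ne_zero (hinj (by rw [hπC, map_zero]))
  set a := D ⊔ pC with ha
  have ha0 : a ≠ ⊥ := fun h => hD0 (le_bot_iff.mp (h ▸ le_sup_left))
  obtain ⟨D', hD'⟩ : a ∣ D := Ideal.dvd_iff_le.mpr le_sup_left
  obtain ⟨I', hI'⟩ : a ∣ pC := Ideal.dvd_iff_le.mpr le_sup_right
  have hcop : D' ⊔ I' = ⊤ := by
    have h1 : a * (D' ⊔ I') = a * ⊤ := by
      rw [Ideal.mul_sup, ← hD', ← hI', Ideal.mul_top]
    exact mul_left_cancel₀ ha0 h1
  -- key lemma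
  have key : ∀ P : Ideal C, P.IsPrime → pC ≤ P → I' ≤ P := by
    intro P hP hle
    by_contra hnot
    have hPmax : P.IsMaximal := hP.isMaximal (ne_bot_of_le_ne_bot hpC0 hle)
    obtain ⟨Q, hPQ, hfac⟩ := Ideal.eq_prime_pow_mul_coprime hpC0 P
    set e := Multiset.count P (UniqueFactorizationMonoid.normalizedFactors pC)
    have h1 : P ^ e ⊔ Q = ⊤ := Ideal.pow_sup_eq_top hPQ
    have h2 : P ^ e ≠ ⊤ := by
      intro h
      rw [h, Ideal.top_mul] at hfac
      rw [← hfac, sup_eq_left.mpr hle] at hPQ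
      exact hPmax.ne_top hPQ
    have h3 := not_pow_dvd_differentIdeal hπ (P ^ e) Q hfac.symm h1 h2
    apply h3
    have h4 : P ^ e ∣ a := by
      have hc : IsCoprime (P ^ e) I' := by
        rw [Ideal.isCoprime_iff_sup_eq]
        apply Ideal.pow_sup_eq_top
        by_contra hne
        apply hnot
        have := hPmax.eq_of_le hne le_sup_left
        rw [this]
        exact le_sup_right
      refine hc.dvd_of_dvd_mul_right ?_
      rw [← hI']
      exact ⟨Q, hfac⟩
    exact h4.trans ⟨D', hD'⟩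
  -- the element `s`
  have hs : ∃ s : O, ¬ π ∣ s ∧ algebraMap O C s ∈ D' := by
    by_contra hcon
    push Not at hcon
    have hcomap : Ideal.comap (algebraMap O C) D' ≤ Ideal.span {π} := by
      intro s hs
      rw [Ideal.mem_span_singleton]
      by_contra hdiv
      exact hcon s hdiv hs
    haveI : (Ideal.span {π}).IsPrime := (Ideal.span_singleton_prime hπ.ne_zero).mpr hπ
    obtain ⟨Q, hQD, hQp, hQc⟩ :=
      Ideal.exists_ideal_over_prime_of_isIntegral (Ideal.span {π}) D' hcomap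
    have hle : pC ≤ Q := by
      rw [hpC, Ideal.map_le_iff_le_comap, hQc]
    have := key Q hQp hle
    have htop : (⊤ : Ideal C) ≤ Q := by
      rw [← hcop]
      exact sup_le hQD this
    exact hQp.ne_top (top_le_iff.mp htop)
  obtain ⟨s, hsπ, hsD⟩ := hs
  refine ⟨I', s, hsπ, ?_, ?_⟩
  · rw [Ideal.radical_eq_sInf]
    exact le_sInf fun P hP => key P hP.2 hP.1
  · rw [map_mul, hD', mul_comm a D', mul_assoc, ← hI']
    exact Ideal.mul_mem_mul hsD hπC

/-- Multiples of the trace-dual basis land in the radical of `π C`. -/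
theorem exists_dual_multiple (hπ : Prime π) [CharZero (O ⧸ Ideal.span {π})]
    {ι : Type*} [Fintype ι] [DecidableEq ι] (b : Basis ι O C) :
    ∃ (s : O) (z : ι → C), ¬ π ∣ s ∧
      (∀ j, z j ∈ ((Ideal.span {π}).map (algebraMap O C)).radical) ∧
      ∀ j i, Algebra.trace O C (z j * b i) = if i = j then s * π else 0 := by
  haveI : CharZero O := RingHom.charZero (Ideal.Quotient.mk (Ideal.span {π}))
  let K := FractionRing O
  let L := FractionRing C
  haveI : CharZero K := charZero_of_injective_algebraMap (IsFractionRing.injective O K)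
  haveI : IsLocalization (Algebra.algebraMapSubmonoid C O⁰) L :=
    IsIntegralClosure.isLocalization _ K _ _
  haveI : FiniteDimensional K L := .of_isLocalization O C O⁰
  haveI : Algebra.IsSeparable K L := inferInstance
  obtain ⟨I', s, hsπ, hI', hmem⟩ := exists_ideal_le_radical (C := C) hπ
  let bL : Basis ι K L := b.localizationLocalization K O⁰ L
  have hspan := Submodule.traceDual_span_of_basis O (1 : Submodule C L) bL
    (by rw [Basis.localizationLocalization_span K O⁰ L]; ext; simp)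
  have hz : ∀ j, ∃ z ∈ I', algebraMap C L z =
      algebraMap C L (algebraMap O C (s * π)) * bL.traceDual j := by
    intro j
    have hdual : bL.traceDual j ∈ FractionalIdeal.dual O K (1 : FractionalIdeal C⁰ L) := by
      rw [← FractionalIdeal.mem_coe, FractionalIdeal.coe_dual_one]
      have : bL.traceDual j ∈ (Submodule.traceDual O K (1 : Submodule C L)).restrictScalars O := by
        rw [hspan]; exact Submodule.subset_span ⟨j, rfl⟩
      exact this
    have h1 : algebraMap C L (algebraMap O C (s * π)) ∈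
        ((differentIdeal O C * I' : Ideal C) : FractionalIdeal C⁰ L) :=
      (FractionalIdeal.mem_coeIdeal _).mpr ⟨_, hmem, rfl⟩
    have h2 := FractionalIdeal.mul_mem_mul h1 hdual
    have hne : FractionalIdeal.dual O K (1 : FractionalIdeal C⁰ L) ≠ 0 :=
      FractionalIdeal.dual_ne_zero O K one_ne_zero
    rw [FractionalIdeal.coeIdeal_mul, mul_comm (↑(differentIdeal O C) : FractionalIdeal C⁰ L) _,
      mul_assoc, coeIdeal_differentIdeal O K L C, inv_mul_cancel₀ hne, mul_one] at h2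
    exact (FractionalIdeal.mem_coeIdeal _).mp h2
  choose z hzI hzeq using hz
  refine ⟨s, z, hsπ, fun j => hI' (hzI j), ?_⟩
  intro j i
  apply IsFractionRing.injective O K
  rw [← Algebra.trace_localization O O⁰ (Rₘ := K) (Sₘ := L), map_mul, hzeq, mul_assoc,
    ← Basis.localizationLocalization_apply K O⁰ L b i]
  rw [← IsScalarTower.algebraMap_apply O C L, IsScalarTower.algebraMap_apply O K L,
    ← Algebra.smul_def, map_smul, Basis.trace_traceDual_mul, Algebra.smul_def]
  split_ifs <;> simp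

/-- **Tame discriminant bound.** -/
theorem tame_discr_bound (hπ : Prime π) [CharZero (O ⧸ Ideal.span {π})]
    {ι : Type*} [Fintype ι] [DecidableEq ι] (b : Basis ι O C) (r : ℕ)
    (hr : r ≤ Module.finrank (O ⧸ Ideal.span {π})
      ((C ⧸ (Ideal.span {π}).map (algebraMap O C)) ⧸
        nilradical (C ⧸ (Ideal.span {π}).map (algebraMap O C)))) :
    ¬ π ^ (Fintype.card ι - r + 1) ∣ Algebra.discr O b := by
  have hmax : (Ideal.span {π}).IsMaximal :=
    PrincipalIdealRing.isMaximal_of_irreducible hπ.irreducible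
  obtain ⟨s, z, hsπ, hzJ, hztr⟩ := exists_dual_multiple hπ b
  set pC := (Ideal.span {π}).map (algebraMap O C) with hpC
  -- the coordinate matrix of `z`
  let H : Matrix ι ι O := Matrix.of fun j k => b.repr (z j) k
  have hHz : ∀ j, ∑ k, H j k • b k = z j := fun j => b.sum_repr (z j)
  -- matrix identity
  have hHG : H * Algebra.traceMatrix O b = (s * π) • (1 : Matrix ι ι O) := by
    ext j i
    rw [Matrix.mul_apply]
    simp only [Algebra.traceMatrix_apply, Algebra.traceForm_apply]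
    have h1 : ∑ k, H j k * Algebra.trace O C (b k * b i) = Algebra.trace O C (z j * b i) := by
      rw [← hHz j, Finset.sum_mul, map_sum]
      refine Finset.sum_congr rfl fun k _ => ?_
      rw [smul_mul_assoc, map_smul, smul_eq_mul]
    rw [h1, hztr, Matrix.smul_apply, Matrix.one_apply]
    by_cases hij : j = i
    · subst hij; simp
    · rw [if_neg (Ne.symm hij), if_neg hij]; simp
  have hdet : H.det * Algebra.discr O b = (s * π) ^ Fintype.card ι := by
    rw [Algebra.discr_def, ← Matrix.det_mul, hHG, Matrix.det_smul, Matrix.det_one, mul_one]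
  -- the reduction map
  let κ := O ⧸ Ideal.span {π}
  let V := C ⧸ pC
  let Vred := V ⧸ nilradical V
  let v : ι → Vred := fun k => Ideal.Quotient.mk (nilradical V) (Ideal.Quotient.mk pC (b k))
  let g : (ι → κ) →ₗ[κ] Vred := Fintype.linearCombination κ v
  have hgred : ∀ w : ι → O, g (redRow π w) =
      Ideal.Quotient.mk (nilradical V) (Ideal.Quotient.mk pC (∑ k, w k • b k)) := by
    intro w
    simp only [g, Fintype.linearCombination_apply, redRow, v, map_sum]
    refine Finset.sum_congr rfl fun k _ => ?_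
    rw [Algebra.smul_def, Algebra.smul_def, map_mul, map_mul]
    rfl
  have hgsurj : Function.Surjective g := by
    intro x
    obtain ⟨y, rfl⟩ := Ideal.Quotient.mk_surjective x
    obtain ⟨c, rfl⟩ := Ideal.Quotient.mk_surjective y
    refine ⟨redRow π (fun k => b.repr c k), ?_⟩
    rw [hgred, b.sum_repr]
  have hgH : ∀ j, g (redRow π (H j)) = 0 := by
    intro j
    rw [hgred, hHz, Ideal.Quotient.eq_zero_iff_mem, mem_nilradical]
    obtain ⟨m, hm⟩ := hzJ j
    refine ⟨m, ?_⟩
    rw [← map_pow, Ideal.Quotient.eq_zero_iff_mem]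
    exact hm
  -- DET–RANK
  set n := Fintype.card ι with hn
  have hrank := pow_dvd_det_of_rows_ker hπ g hgsurj (min r n) ((min_le_left _ _).trans hr) H hgH
  intro hdvd
  have h1 : π ^ (min r n) * π ^ (n - r + 1) ∣ (s * π) ^ n := by
    rw [← hdet]
    exact mul_dvd_mul hrank hdvd
  have h2 : min r n + (n - r + 1) = n + 1 := by
    rcases le_total r n with h | h
    · rw [min_eq_left h]; omega
    · rw [min_eq_right h]; omega
  rw [← pow_add, h2, mul_pow, pow_succ, mul_comm (s ^ n)] at h1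
  have h3 : π ∣ s ^ n := (mul_dvd_mul_iff_left (pow_ne_zero n hπ.ne_zero)).mp h1
  exact hsπ (hπ.dvd_of_dvd_pow h3)

end

set_option linter.overlappingInstances false in
/-- **Tame discriminant bound, witness form** (the shape of `B12.TameDiscrStatement`). -/
theorem tame_discr_witness {Λ : Type*} [CommRing Λ] [IsDomain Λ] [IsPrincipalIdealRing Λ]
    [Algebra ℚ Λ] (t : Λ) (ht : Prime t)
    {C₀ : Type*} [CommRing C₀] [IsDomain C₀] [IsDedekindDomain C₀] [Algebra Λ C₀]
    [Module.IsTorsionFree Λ C₀]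
    (n : ℕ) (β : Module.Basis (Fin n) Λ C₀) (r : ℕ) (y : Fin r → C₀)
    (hy : ∀ a : Fin r → Λ,
        (∑ i, a i • y i) ∈ (Ideal.span {algebraMap Λ C₀ t}).radical → ∀ i, t ∣ a i) :
    ¬ t ^ (n - r + 1) ∣ Algebra.discr Λ β := by
  have hmax : (Ideal.span {t}).IsMaximal :=
    PrincipalIdealRing.isMaximal_of_irreducible ht.irreducible
  haveI : Module.Finite Λ C₀ := Module.Finite.of_basis β
  haveI : CharZero (Λ ⧸ Ideal.span {t}) := algebraRat.charZero _
  have hmap : (Ideal.span {t}).map (algebraMap Λ C₀) = Ideal.span {algebraMap Λ C₀ t} := by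
    rw [Ideal.map_span, Set.image_singleton]
  set pC := (Ideal.span {t}).map (algebraMap Λ C₀) with hpC
  have key : r ≤ Module.finrank (Λ ⧸ Ideal.span {t}) ((C₀ ⧸ pC) ⧸ nilradical (C₀ ⧸ pC)) := by
    let v : Fin r → (C₀ ⧸ pC) ⧸ nilradical (C₀ ⧸ pC) :=
      fun i => Ideal.Quotient.mk _ (Ideal.Quotient.mk pC (y i))
    have hli : LinearIndependent (Λ ⧸ Ideal.span {t}) v := by
      rw [Fintype.linearIndependent_iff]
      intro g hg i
      choose a ha using fun i => Ideal.Quotient.mk_surjective (g i)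
      have h1 : ∑ i, g i • v i =
          Ideal.Quotient.mk _ (Ideal.Quotient.mk pC (∑ i, a i • y i)) := by
        simp only [v, map_sum]
        refine Finset.sum_congr rfl fun k _ => ?_
        rw [← ha k, Algebra.smul_def, Algebra.smul_def, map_mul, map_mul]
        rfl
      rw [h1, Ideal.Quotient.eq_zero_iff_mem, mem_nilradical] at hg
      obtain ⟨m, hm⟩ := hg
      rw [← map_pow, Ideal.Quotient.eq_zero_iff_mem] at hm
      have h2 : (∑ i, a i • y i) ∈ (Ideal.span {algebraMap Λ C₀ t}).radical := by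
        rw [← hmap]; exact ⟨m, hm⟩
      have h3 := hy a h2 i
      rw [← ha i, Ideal.Quotient.eq_zero_iff_mem, Ideal.mem_span_singleton]
      exact h3
    simpa using hli.fintype_card_le_finrank
  have := tame_discr_bound ht β r key
  simpa using this

end Fermat.Agent.S18.H213

end
-- ===== PACK-END S18/H213/Tame.lean

-- ===== PACK-BEGIN S37/H159/MGauss.lean
section



/-!
# Theorem M, part 1: the reduction context and the Gauss valuation ring of `K(x)`
(row S37, piece R-b = normality of the special fibre; seat helper159)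

`K ⊇ A` a valuation ring with residue map `π : A ↠ k`; `F` a field which is a `K[X]`-algebra
(`X ↦ x`), `O ⊆ F` a valuation ring with residue map `ρ : O ↠ F_k`, where `F_k` is a
`k[X]`-algebra (`X ↦ x̄`), such that `ρ (P(x)) = P̄(x̄)` for `P ∈ A[X]`.

This file: `ker ρ = 𝔪_O`, `O ∩ K = A`, `O ∩ K[x] = A[x]` (Gauss), the Gauss valuation ring
`V₀ = O ∩ K(x)` of an abstract fraction field `L₀` of `K[X]`, and the induced residue map
`ρ₀ : V₀ → L₀k` (`L₀k` a fraction field of `k[X]`).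
-/

set_option autoImplicit false
set_option linter.unusedSectionVars false

namespace Fermat.Agent.S37.H159

open Polynomial

/-- A reduction context (see the module docstring). -/
structure RedCtx {K : Type*} [Field K] (A : ValuationSubring K) (k : Type*) [Field k]
    (F : Type*) [Field F] [Algebra K[X] F] (Fk : Type*) [Field Fk] [Algebra k[X] Fk] where
  /-- residue map of the constants -/
  π : A →+* k
  π_surj : Function.Surjective π
  /-- the valuation ring of the function field -/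
  O : ValuationSubring F
  /-- reduction of functions -/
  ρ : O →+* Fk
  ρ_surj : Function.Surjective ρ
  mem : ∀ p : A[X], algebraMap K[X] F (p.map A.subtype) ∈ O
  ρ_poly : ∀ p : A[X],
    ρ ⟨algebraMap K[X] F (p.map A.subtype), mem p⟩ = algebraMap k[X] Fk (p.map π)

/-- Scaling a nonzero polynomial over the fraction field of a valuation ring to a polynomial
over the valuation ring with a coefficient equal to `1`. -/
theorem exists_primitive {K : Type*} [Field K] (A : ValuationSubring K) (P : K[X]) (hP : P ≠ 0) :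
    ∃ (lam : K) (P₀ : A[X]) (m : ℕ), lam ≠ 0 ∧ P₀.coeff m = 1 ∧
      P = C lam * P₀.map A.subtype := by
  classical
  have hne : P.support.Nonempty := by
    rw [Finset.nonempty_iff_ne_empty, Ne, Polynomial.support_eq_empty]
    exact hP
  obtain ⟨m, hm, hmax⟩ := Finset.exists_max_image P.support (fun i => A.valuation (P.coeff i)) hne
  have hlam : P.coeff m ≠ 0 := Polynomial.mem_support_iff.mp hm
  have hmem : ∀ i, (P.coeff m)⁻¹ * P.coeff i ∈ A := by
    intro i
    by_cases hi : i ∈ P.support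
    · rw [← ValuationSubring.valuation_le_one_iff, map_mul, map_inv₀]
      have hv : A.valuation (P.coeff m) ≠ 0 := (_root_.map_ne_zero _).mpr hlam
      rw [inv_mul_le_iff₀ (zero_lt_iff.mpr hv), mul_one]
      exact hmax i hi
    · rw [Polynomial.notMem_support_iff.mp hi, mul_zero]
      exact A.zero_mem
  have hl : C (P.coeff m)⁻¹ * P ∈ Polynomial.lifts A.subtype := by
    rw [Polynomial.lifts_iff_coeff_lifts]
    intro i
    rw [coeff_C_mul]
    exact ⟨⟨_, hmem i⟩, rfl⟩
  obtain ⟨P₀, hP₀⟩ := hl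
  refine ⟨P.coeff m, P₀, m, hlam, ?_, ?_⟩
  · apply Subtype.ext
    have := congrArg (fun q => q.coeff m) hP₀
    simp only [coeff_C_mul] at this
    rw [show (P₀.coeff m : K) = (Polynomial.map A.subtype P₀).coeff m by
      rw [coeff_map]; rfl]
    rw [show (Polynomial.map A.subtype P₀) = mapRingHom A.subtype P₀ from rfl, this,
      inv_mul_cancel₀ hlam]
    rfl
  · rw [show (Polynomial.map A.subtype P₀) = mapRingHom A.subtype P₀ from rfl, hP₀, ← mul_assoc,
      ← C_mul, mul_inv_cancel₀ hlam, C_1, one_mul]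

namespace RedCtx

variable {K : Type*} [Field K] {A : ValuationSubring K} {k : Type*} [Field k]
  {F : Type*} [Field F] [Algebra K[X] F] {Fk : Type*} [Field Fk] [Algebra k[X] Fk]
  (G : RedCtx A k F Fk)

theorem ρ_eq_zero_iff (u : G.O) : G.ρ u = 0 ↔ (u : F) ∈ G.O.nonunits := by
  have hmax : (RingHom.ker G.ρ).IsMaximal := RingHom.ker_isMaximal_of_surjective G.ρ G.ρ_surj
  have hker := IsLocalRing.eq_maximalIdeal hmax
  rw [← RingHom.mem_ker, hker, ValuationSubring.mem_nonunits_iff_exists_mem_maximalIdeal]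
  exact ⟨fun h => ⟨u.2, h⟩, fun ⟨_, h⟩ => h⟩

theorem π_eq_zero_iff (a : A) : G.π a = 0 ↔ (a : K) ∈ A.nonunits := by
  have hmax : (RingHom.ker G.π).IsMaximal := RingHom.ker_isMaximal_of_surjective G.π G.π_surj
  have hker := IsLocalRing.eq_maximalIdeal hmax
  rw [← RingHom.mem_ker, hker, ValuationSubring.mem_nonunits_iff_exists_mem_maximalIdeal]
  exact ⟨fun h => ⟨a.2, h⟩, fun ⟨_, h⟩ => h⟩

/-- An element of `O` with nonzero reduction is a unit of `O`. -/
theorem inv_mem_of_ρ_ne_zero (u : G.O) (hu : G.ρ u ≠ 0) : (u : F)⁻¹ ∈ G.O := by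
  have h1 : (u : F) ∉ G.O.nonunits := fun h => hu ((G.ρ_eq_zero_iff u).mpr h)
  rw [ValuationSubring.mem_nonunits_iff, not_lt] at h1
  rw [← ValuationSubring.valuation_le_one_iff, map_inv₀]
  exact inv_le_one_of_one_le₀ h1

theorem ne_zero_of_ρ_ne_zero (u : G.O) (hu : G.ρ u ≠ 0) : (u : F) ≠ 0 := by
  intro h
  apply hu
  have : u = 0 := Subtype.ext h
  rw [this, map_zero]

theorem C_mem (a : A) : algebraMap K[X] F (C (a : K)) ∈ G.O := by
  have := G.mem (C a)
  rwa [Polynomial.map_C] at this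

theorem ρ_C (a : A) : G.ρ ⟨algebraMap K[X] F (C (a : K)), G.C_mem a⟩ =
    algebraMap k[X] Fk (C (G.π a)) := by
  have h := G.ρ_poly (C a)
  have e : (⟨algebraMap K[X] F (C (a : K)), G.C_mem a⟩ : G.O) =
      ⟨algebraMap K[X] F ((C a : A[X]).map A.subtype), G.mem (C a)⟩ :=
    Subtype.ext (congrArg (algebraMap K[X] F)
      (show (C (a : K) : K[X]) = (C a : A[X]).map A.subtype by rw [Polynomial.map_C]; rfl))
  rw [e, h, Polynomial.map_C]

/-- `O ∩ K = A`. -/
theorem C_mem_iff (a : K) : algebraMap K[X] F (C a) ∈ G.O ↔ a ∈ A := by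
  constructor
  · intro h
    by_contra ha
    have ha0 : a ≠ 0 := fun h0 => ha (h0 ▸ A.zero_mem)
    have hinv : a⁻¹ ∈ A.nonunits := (ValuationSubring.inv_mem_nonunits_iff A).mpr (Or.inr ha)
    have hinvA : a⁻¹ ∈ A := A.nonunits_subset hinv
    have h1 : G.π ⟨a⁻¹, hinvA⟩ = 0 := (G.π_eq_zero_iff _).mpr hinv
    have h2 := G.ρ_C ⟨a⁻¹, hinvA⟩
    rw [h1, map_zero, map_zero] at h2
    have h3 := (G.ρ_eq_zero_iff _).mp h2
    rw [ValuationSubring.mem_nonunits_iff] at h3
    have h4 : G.O.valuation (algebraMap K[X] F (C a)) ≤ 1 :=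
      (ValuationSubring.valuation_le_one_iff _ _).mpr h
    have h5 : algebraMap K[X] F (C a) * algebraMap K[X] F (C a⁻¹) = 1 := by
      rw [← map_mul, ← C_mul, mul_inv_cancel₀ ha0, C_1, map_one]
    have h6 : G.O.valuation (algebraMap K[X] F (C a) * algebraMap K[X] F (C a⁻¹)) < 1 := by
      rw [map_mul]
      exact mul_lt_one_of_nonneg_of_lt_one_right h4 zero_le h3
    rw [h5, map_one] at h6
    exact lt_irrefl _ h6
  · intro ha
    exact G.C_mem ⟨a, ha⟩

variable (hinj : Function.Injective (algebraMap k[X] Fk))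

include hinj in
/-- A polynomial over `A` with nonzero reduction is a unit of `O` at `x`. -/
theorem inv_mem_of_map_ne_zero (P₀ : A[X]) (h : P₀.map G.π ≠ 0) :
    (algebraMap K[X] F (P₀.map A.subtype))⁻¹ ∈ G.O := by
  refine G.inv_mem_of_ρ_ne_zero ⟨_, G.mem P₀⟩ ?_
  rw [G.ρ_poly]
  exact fun h0 => h (hinj (by rw [h0, map_zero]))

include hinj in
theorem ne_zero_of_map_ne_zero (P₀ : A[X]) (h : P₀.map G.π ≠ 0) :
    algebraMap K[X] F (P₀.map A.subtype) ≠ 0 := by
  refine G.ne_zero_of_ρ_ne_zero ⟨_, G.mem P₀⟩ ?_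
  rw [G.ρ_poly]
  exact fun h0 => h (hinj (by rw [h0, map_zero]))

theorem map_π_ne_zero_of_coeff_eq_one (P₀ : A[X]) (m : ℕ) (h : P₀.coeff m = 1) :
    P₀.map G.π ≠ 0 := by
  intro h0
  have := congrArg (fun q => q.coeff m) h0
  simp only [coeff_map, h, map_one, coeff_zero] at this
  exact one_ne_zero this

include hinj in
/-- **Gauss**: `O ∩ K[x] = A[x]`. -/
theorem exists_map_eq_of_mem (P : K[X]) (hP : algebraMap K[X] F P ∈ G.O) :
    ∃ P₁ : A[X], P₁.map A.subtype = P := by
  by_cases hP0 : P = 0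
  · exact ⟨0, by rw [hP0, Polynomial.map_zero]⟩
  obtain ⟨lam, P₀, m, hlam, hm, hPeq⟩ := exists_primitive A P hP0
  have hne := G.map_π_ne_zero_of_coeff_eq_one P₀ m hm
  have hinv := G.inv_mem_of_map_ne_zero hinj P₀ hne
  have hne' := G.ne_zero_of_map_ne_zero hinj P₀ hne
  have h1 : algebraMap K[X] F (C lam) =
      algebraMap K[X] F P * (algebraMap K[X] F (P₀.map A.subtype))⁻¹ := by
    rw [hPeq, map_mul, mul_assoc, mul_inv_cancel₀ hne', mul_one]
  have h2 : algebraMap K[X] F (C lam) ∈ G.O := by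
    rw [h1]
    exact G.O.mul_mem _ _ hP hinv
  have h3 : lam ∈ A := (G.C_mem_iff lam).mp h2
  refine ⟨C ⟨lam, h3⟩ * P₀, ?_⟩
  rw [Polynomial.map_mul, Polynomial.map_C, hPeq]
  rfl

section Rational

variable (L₀ : Type*) [Field L₀] [Algebra K[X] L₀] [IsFractionRing K[X] L₀] [Algebra L₀ F]
  [IsScalarTower K[X] L₀ F]
variable (L₀k : Type*) [Field L₀k] [Algebra k[X] L₀k] [IsFractionRing k[X] L₀k] [Algebra L₀k Fk]
  [IsScalarTower k[X] L₀k Fk]

/-- the Gauss valuation ring `O ∩ K(x)` -/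
def V₀ : ValuationSubring L₀ := G.O.comap (algebraMap L₀ F)

theorem mem_V₀ (v : L₀) : v ∈ G.V₀ L₀ ↔ algebraMap L₀ F v ∈ G.O := ValuationSubring.mem_comap

theorem valExtends : H217.ValExtends (G.V₀ L₀) G.O := fun _ => ValuationSubring.mem_comap.symm

include L₀k in
theorem algebraMap_injective_k : Function.Injective (algebraMap k[X] Fk) := by
  rw [IsScalarTower.algebraMap_eq k[X] L₀k Fk]
  exact (algebraMap L₀k Fk).injective.comp (IsFractionRing.injective k[X] L₀k)

include L₀k in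
/-- Normal form of the elements of the Gauss ring: `v = P₁(x) / Q₀(x)` with `P₁, Q₀ ∈ A[X]`,
`Q̄₀ ≠ 0`. -/
theorem exists_normal_form (v : L₀) (hv : algebraMap L₀ F v ∈ G.O) :
    ∃ (P₁ Q₀ : A[X]), Q₀.map G.π ≠ 0 ∧
      v * algebraMap K[X] L₀ (Q₀.map A.subtype) = algebraMap K[X] L₀ (P₁.map A.subtype) := by
  have hinj := algebraMap_injective_k (k := k) (Fk := Fk) L₀k
  obtain ⟨P, Q, hQ, rfl⟩ := IsFractionRing.div_surjective K[X] v
  have hQ0 : Q ≠ 0 := nonZeroDivisors.ne_zero hQ
  obtain ⟨lam, Q₀, m, hlam, hm, hQeq⟩ := exists_primitive A Q hQ0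
  have hne := G.map_π_ne_zero_of_coeff_eq_one Q₀ m hm
  have hQ₀F := G.ne_zero_of_map_ne_zero hinj Q₀ hne
  have hQ₀L : algebraMap K[X] L₀ (Q₀.map A.subtype) ≠ 0 := by
    intro h0
    apply hQ₀F
    rw [IsScalarTower.algebraMap_apply K[X] L₀ F, h0, map_zero]
  have hlamL : algebraMap K[X] L₀ (C lam) ≠ 0 := by
    rw [Ne, map_eq_zero_iff _ (IsFractionRing.injective K[X] L₀), C_eq_zero]
    exact hlam
  have key : algebraMap K[X] L₀ P / algebraMap K[X] L₀ Q *
      algebraMap K[X] L₀ (Q₀.map A.subtype) = algebraMap K[X] L₀ (C lam⁻¹ * P) := by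
    rw [hQeq, map_mul, map_mul]
    have : algebraMap K[X] L₀ (C lam⁻¹) = (algebraMap K[X] L₀ (C lam))⁻¹ := by
      apply eq_inv_of_mul_eq_one_left
      rw [← map_mul, ← C_mul, inv_mul_cancel₀ hlam, C_1, map_one]
    rw [this]
    field_simp
  have hmem : algebraMap K[X] F (C lam⁻¹ * P) ∈ G.O := by
    rw [IsScalarTower.algebraMap_apply K[X] L₀ F, ← key, map_mul,
      ← IsScalarTower.algebraMap_apply K[X] L₀ F]
    exact G.O.mul_mem _ _ hv (G.mem Q₀)
  obtain ⟨P₁, hP₁⟩ := G.exists_map_eq_of_mem hinj _ hmem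
  exact ⟨P₁, Q₀, hne, by rw [key, hP₁]⟩

include L₀ in
theorem exists_ρ_eq (v : L₀) (hv : algebraMap L₀ F v ∈ G.O) :
    G.ρ ⟨algebraMap L₀ F v, hv⟩ ∈ (algebraMap L₀k Fk).range := by
  have hinj := algebraMap_injective_k (k := k) (Fk := Fk) L₀k
  obtain ⟨P₁, Q₀, hne, hvQ⟩ := G.exists_normal_form L₀ L₀k v hv
  have h1 : (⟨algebraMap L₀ F v, hv⟩ : G.O) * ⟨_, G.mem Q₀⟩ = ⟨_, G.mem P₁⟩ := by
    apply Subtype.ext
    show algebraMap L₀ F v * algebraMap K[X] F (Q₀.map A.subtype) =
      algebraMap K[X] F (P₁.map A.subtype)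
    rw [IsScalarTower.algebraMap_apply K[X] L₀ F, IsScalarTower.algebraMap_apply K[X] L₀ F,
      ← map_mul, hvQ]
  have h2 := congrArg G.ρ h1
  rw [map_mul, G.ρ_poly, G.ρ_poly] at h2
  have h3 : algebraMap k[X] Fk (Q₀.map G.π) ≠ 0 := fun h0 => hne (hinj (by rw [h0, map_zero]))
  refine ⟨algebraMap k[X] L₀k (P₁.map G.π) / algebraMap k[X] L₀k (Q₀.map G.π), ?_⟩
  rw [map_div₀, ← IsScalarTower.algebraMap_apply, ← IsScalarTower.algebraMap_apply,
    div_eq_iff h3, h2]

/-- the inclusion `V₀ → O` -/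
def incl : G.V₀ L₀ →+* G.O :=
  (algebraMap L₀ F).restrict (G.V₀ L₀) G.O (fun _ hx => (G.mem_V₀ L₀ _).mp hx)

theorem incl_coe (v : G.V₀ L₀) : ((G.incl L₀ v : G.O) : F) = algebraMap L₀ F v := rfl

/-- the residue map of the Gauss valuation ring -/
noncomputable def ρ₀ : G.V₀ L₀ →+* L₀k :=
  ((RingEquiv.ofBijective (algebraMap L₀k Fk).rangeRestrict
    ⟨(algebraMap L₀k Fk).rangeRestrict.injective,
      (algebraMap L₀k Fk).rangeRestrict_surjective⟩).symm : _ →+* L₀k).comp
    (RingHom.codRestrict (G.ρ.comp (G.incl L₀)) (algebraMap L₀k Fk).range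
      (fun v => G.exists_ρ_eq L₀ L₀k v ((G.mem_V₀ L₀ _).mp v.2)))

theorem algebraMap_ρ₀ (v : G.V₀ L₀) :
    algebraMap L₀k Fk (G.ρ₀ L₀ L₀k v) = G.ρ ⟨algebraMap L₀ F v, (G.mem_V₀ L₀ _).mp v.2⟩ := by
  set e := RingEquiv.ofBijective (algebraMap L₀k Fk).rangeRestrict
    ⟨(algebraMap L₀k Fk).rangeRestrict.injective,
      (algebraMap L₀k Fk).rangeRestrict_surjective⟩ with he
  set y : (algebraMap L₀k Fk).range := RingHom.codRestrict (G.ρ.comp (G.incl L₀))
    (algebraMap L₀k Fk).range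
      (fun v => G.exists_ρ_eq L₀ L₀k v ((G.mem_V₀ L₀ _).mp v.2)) v with hy
  have h1 : G.ρ₀ L₀ L₀k v = e.symm y := rfl
  have h2 : e (e.symm y) = y := e.apply_symm_apply y
  have h3 : ((e (e.symm y) : (algebraMap L₀k Fk).range) : Fk) = algebraMap L₀k Fk (e.symm y) := rfl
  rw [h1, ← h3, h2]
  rfl

/-- `H217`-shaped compatibility of `ρ` and `ρ₀`. -/
theorem ρ_algebraMap (v : G.V₀ L₀) :
    G.ρ ⟨algebraMap L₀ F v, ((G.valExtends L₀) v).mpr v.2⟩ = algebraMap L₀k Fk (G.ρ₀ L₀ L₀k v) :=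
  (G.algebraMap_ρ₀ L₀ L₀k v).symm

theorem ρ₀_eq_zero_iff (v : G.V₀ L₀) : G.ρ₀ L₀ L₀k v = 0 ↔ (v : L₀) ∈ (G.V₀ L₀).nonunits := by
  rw [← (G.valExtends L₀).mem_nonunits_iff, ← G.ρ_eq_zero_iff ⟨_, (G.mem_V₀ L₀ _).mp v.2⟩,
    ← G.algebraMap_ρ₀ L₀ L₀k v]
  exact (map_eq_zero_iff _ (algebraMap L₀k Fk).injective).symm

theorem poly_mem_V₀ (p : A[X]) : algebraMap K[X] L₀ (p.map A.subtype) ∈ G.V₀ L₀ := by
  rw [G.mem_V₀, ← IsScalarTower.algebraMap_apply]
  exact G.mem p

theorem ρ₀_poly (p : A[X]) :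
    G.ρ₀ L₀ L₀k ⟨_, G.poly_mem_V₀ L₀ p⟩ = algebraMap k[X] L₀k (p.map G.π) := by
  apply (algebraMap L₀k Fk).injective
  rw [G.algebraMap_ρ₀, ← IsScalarTower.algebraMap_apply k[X] L₀k Fk, ← G.ρ_poly p]
  congr 1
  apply Subtype.ext
  exact (IsScalarTower.algebraMap_apply K[X] L₀ F _).symm

include L₀k in
/-- **Gauss**: `V₀ ∩ K[x] = A[x]`. -/
theorem exists_map_eq_of_mem_V₀ (P : K[X]) (hP : algebraMap K[X] L₀ P ∈ G.V₀ L₀) :
    ∃ P₁ : A[X], P₁.map A.subtype = P := by
  refine G.exists_map_eq_of_mem (algebraMap_injective_k (k := k) (Fk := Fk) L₀k) P ?_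
  rw [IsScalarTower.algebraMap_apply K[X] L₀ F]
  exact (G.mem_V₀ L₀ _).mp hP

end Rational

end RedCtx

end Fermat.Agent.S37.H159

end
-- ===== PACK-END S37/H159/MGauss.lean

-- ===== PACK-BEGIN S19/H19/Indep.lean
section
/-
A3 / S19, helper19 — piece ORD, part 1: Galois descent for equivariant functions.

`M` a set with an action of `G = Gal(ℚ̄/ℚ)`; functions `f : M → ℚ̄` with
`f (σ m) = σ (f m)` which are linearly independent over `ℚ` are linearly independent over `ℚ̄`.
Also: a `ℚ̄`-subalgebra of `M → ℚ̄` (`M` finite) separating points is everything.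
Mathlib only.
-/


set_option autoImplicit false

noncomputable section

namespace Fermat.Agent.S19.H19

open scoped BigOperators

/-- `ℚ̄`. -/
abbrev Qb : Type := AlgebraicClosure ℚ

/-- The absolute Galois group of `ℚ`. -/
abbrev GalQ : Type := _root_.Fermat.Agent.S19.H19.Qb ≃ₐ[ℚ] _root_.Fermat.Agent.S19.H19.Qb

theorem isGalois_Qb_rat : IsGalois ℚ _root_.Fermat.Agent.S19.H19.Qb := by
  have : Algebra.IsAlgebraic ℚ (AlgebraicClosure ℚ) := AlgebraicClosure.isAlgebraic ℚ
  have : IsAlgClosure ℚ (AlgebraicClosure ℚ) := ⟨inferInstance, inferInstance⟩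
  have : Normal ℚ (AlgebraicClosure ℚ) := IsAlgClosure.normal ℚ (AlgebraicClosure ℚ)
  exact isGalois_iff.mpr ⟨inferInstance, inferInstance⟩

theorem exists_rat_of_fixed (x : _root_.Fermat.Agent.S19.H19.Qb) (hx : ∀ σ : _root_.Fermat.Agent.S19.H19.GalQ, σ x = x) :
    ∃ q : ℚ, algebraMap ℚ _root_.Fermat.Agent.S19.H19.Qb q = x := by
  have := isGalois_Qb_rat
  exact (InfiniteGalois.mem_range_algebraMap_iff_fixed (k := ℚ) (K := _root_.Fermat.Agent.S19.H19.Qb) x).mpr hx

variable {M : Type*} (act : _root_.Fermat.Agent.S19.H19.GalQ → M → M)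

/-- Equivariant functions. -/
def IsEquivariant (f : M → _root_.Fermat.Agent.S19.H19.Qb) : Prop := ∀ (σ : _root_.Fermat.Agent.S19.H19.GalQ) (m : M), f (act σ m) = σ (f m)

variable {act}

/-- **Galois descent of linear relations.**  A `ℚ̄`-linear relation between equivariant functions
which are linearly independent over `ℚ` is trivial. -/
theorem linearIndependent_of_equivariant
    (hone : ∀ m, act 1 m = m)
    (hact : ∀ σ τ m, act σ (act τ m) = act (σ * τ) m)
    {ι : Type*} [Finite ι] (f : ι → M → _root_.Fermat.Agent.S19.H19.Qb) (hf : ∀ i, IsEquivariant act (f i))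
    (hQ : LinearIndependent ℚ f) : LinearIndependent _root_.Fermat.Agent.S19.H19.Qb f := by
  classical
  have := Fintype.ofFinite ι
  rw [Fintype.linearIndependent_iff]
  -- strong induction on the size of the support of a relation
  suffices H : ∀ (n : ℕ) (c : ι → _root_.Fermat.Agent.S19.H19.Qb), (Finset.univ.filter fun i => c i ≠ 0).card = n →
      ∑ i, c i • f i = 0 → ∀ i, c i = 0 from fun c hc i => H _ c rfl hc i
  intro n
  induction n using Nat.strong_induction_on with
  | _ n ih =>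
    intro c hn hc
    by_contra hne
    push Not at hne
    obtain ⟨i₀, hi₀⟩ := hne
    -- normalise `c i₀ = 1`
    set d : ι → _root_.Fermat.Agent.S19.H19.Qb := fun i => c i / c i₀ with hd
    have hd₀ : d i₀ = 1 := div_self hi₀
    have hdsupp : ∀ i, d i ≠ 0 ↔ c i ≠ 0 := fun i => by
      simp only [hd, ne_eq, div_eq_zero_iff, hi₀, or_false]
    have hdrel : ∑ i, d i • f i = 0 := by
      have : ∑ i, d i • f i = (c i₀)⁻¹ • ∑ i, c i • f i := by
        rw [Finset.smul_sum]
        refine Finset.sum_congr rfl fun i _ => ?_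
        rw [smul_smul, hd]
        congr 1
        field_simp
      rw [this, hc, smul_zero]
    -- the conjugate relation
    have hconj : ∀ σ : _root_.Fermat.Agent.S19.H19.GalQ, ∑ i, (σ (d i)) • f i = 0 := by
      intro σ
      funext m
      have h1 := congrFun hdrel (act σ⁻¹ m)
      simp only [Finset.sum_apply, Pi.smul_apply, smul_eq_mul, Pi.zero_apply] at h1 ⊢
      have h2 := congrArg σ h1
      rw [map_sum, map_zero] at h2
      rw [← h2]
      refine Finset.sum_congr rfl fun i _ => ?_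
      rw [map_mul, ← hf i σ (act σ⁻¹ m), hact, mul_inv_cancel, hone]
    -- the difference has smaller support
    have hfix : ∀ (σ : _root_.Fermat.Agent.S19.H19.GalQ) (i : ι), σ (d i) = d i := by
      intro σ
      have hrel : ∑ i, (σ (d i) - d i) • f i = 0 := by
        have : ∑ i, (σ (d i) - d i) • f i = ∑ i, (σ (d i)) • f i - ∑ i, d i • f i := by
          rw [← Finset.sum_sub_distrib]
          refine Finset.sum_congr rfl fun i _ => ?_
          rw [sub_smul]
        rw [this, hconj σ, hdrel, sub_zero]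
      have hsub : (Finset.univ.filter fun i => σ (d i) - d i ≠ 0) ⊂
          (Finset.univ.filter fun i => c i ≠ 0) := by
        rw [Finset.ssubset_iff_of_subset]
        · refine ⟨i₀, by simp [hi₀], ?_⟩
          simp [hd₀]
        · intro i hi
          simp only [Finset.mem_filter, Finset.mem_univ, true_and] at hi ⊢
          rw [← hdsupp]
          intro h0
          apply hi
          rw [h0, map_zero, sub_zero]
      have hlt := Finset.card_lt_card hsub
      rw [hn] at hlt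
      intro i
      have := ih _ hlt (fun i => σ (d i) - d i) rfl hrel i
      exact sub_eq_zero.mp this
    -- so the `d i` are rational
    have hrat : ∀ i, ∃ q : ℚ, algebraMap ℚ _root_.Fermat.Agent.S19.H19.Qb q = d i := fun i =>
      exists_rat_of_fixed (d i) fun σ => hfix σ i
    choose q hq using hrat
    have hqrel : ∑ i, q i • f i = 0 := by
      rw [← hdrel]
      refine Finset.sum_congr rfl fun i _ => ?_
      rw [← hq i]
      funext m
      simp [Algebra.smul_def]
    have h0 := (Fintype.linearIndependent_iff.mp hQ) q hqrel i₀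
    have h1 : d i₀ = 0 := by rw [← hq i₀, h0, map_zero]
    rw [hd₀] at h1
    exact one_ne_zero h1

/-- A `K`-subalgebra of `M → K`, `M` finite, which separates points is everything. -/
theorem subalgebra_eq_top_of_separates {K : Type*} [Field K] {M : Type*} [Finite M]
    (S : Subalgebra K (M → K))
    (hsep : ∀ m m' : M, m ≠ m' → ∃ f ∈ S, f m ≠ f m') : S = ⊤ := by
  classical
  have := Fintype.ofFinite M
  -- indicator functions
  have hind : ∀ m : M, (Pi.single m (1 : K) : M → K) ∈ S := by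
    intro m
    -- for each `m' ≠ m` a function in `S` which is `1` at `m` and `0` at `m'`
    have h1 : ∀ m' : M, ∃ g ∈ S, g m = 1 ∧ (m' ≠ m → g m' = 0) := by
      intro m'
      by_cases h : m' = m
      · exact ⟨1, S.one_mem, rfl, fun h' => absurd h h'⟩
      · obtain ⟨f, hfS, hf⟩ := hsep m m' (Ne.symm h)
        refine ⟨(f m - f m')⁻¹ • (f - algebraMap K (M → K) (f m')), ?_, ?_, ?_⟩
        · exact S.smul_mem (S.sub_mem hfS (S.algebraMap_mem _)) _
        · simp only [Pi.smul_apply, Pi.sub_apply, Pi.algebraMap_apply, Algebra.algebraMap_self,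
            RingHom.id_apply, smul_eq_mul]
          exact inv_mul_cancel₀ (sub_ne_zero.mpr hf)
        · intro _
          simp
    choose g hgS hg1 hg0 using h1
    have hprod : (Pi.single m (1 : K) : M → K) = ∏ m', g m' := by
      funext x
      rw [Finset.prod_apply]
      by_cases hx : x = m
      · subst hx
        rw [Pi.single_eq_same]
        exact (Finset.prod_eq_one (f := fun m' => g m' x) fun m' _ => hg1 m').symm
      · rw [Pi.single_eq_of_ne hx]
        exact (Finset.prod_eq_zero (f := fun m' => g m' x) (Finset.mem_univ x) (hg0 x hx)).symm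
    rw [hprod]
    exact S.prod_mem fun m' _ => hgS m'
  rw [eq_top_iff]
  intro f _
  have hf : f = ∑ m, f m • (Pi.single m (1 : K) : M → K) := by
    funext x
    simp [Finset.sum_apply, Pi.single_apply]
  rw [hf]
  exact S.sum_mem fun m _ => S.smul_mem (hind m) _

end Fermat.Agent.S19.H19

end

end
-- ===== PACK-END S19/H19/Indep.lean

-- ===== PACK-BEGIN S19/H19/Good.lean
section
/-
A3 / S19, helper19 — piece ORD, part 2: "good" algebra maps into function algebras.

An `R`-algebra map `φ : A → (X → K)` (`K` a field) is *good* if `A` has a finite `R`-basis whose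
image is `K`-linearly independent.  Good maps are injective and the external product of two good
maps, `A ⊗[R] B → (X × Y → K)`, is good.  Mathlib only.
-/


set_option autoImplicit false

noncomputable section

namespace Fermat.Agent.S19.H19

open scoped BigOperators TensorProduct

section Pullback

variable (R : Type) [CommSemiring R] (K : Type) [CommSemiring K] [Algebra R K]

/-- Pull back functions along `f`, as an algebra map. -/
def pullback {X Y : Type} (f : X → Y) : (Y → K) →ₐ[R] (X → K) :=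
  AlgHom.pi (fun x => Pi.evalAlgHom R (fun _ => K) (f x))

@[simp] theorem pullback_apply {X Y : Type} (f : X → Y) (g : Y → K) (x : X) :
    pullback R K f g x = g (f x) := rfl

end Pullback

section ProdMap

variable {R : Type} [CommRing R] {K : Type} [Field K] [Algebra R K]
variable {A B : Type} [Semiring A] [Algebra R A] [Semiring B] [Algebra R B]
variable {X Y : Type}

/-- External product of two algebra maps into function algebras. -/
def prodMap (φ : A →ₐ[R] (X → K)) (ψ : B →ₐ[R] (Y → K)) : A ⊗[R] B →ₐ[R] (X × Y → K) :=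
  Algebra.TensorProduct.productMap ((pullback R K Prod.fst).comp φ)
    ((pullback R K Prod.snd).comp ψ)

@[simp] theorem prodMap_tmul (φ : A →ₐ[R] (X → K)) (ψ : B →ₐ[R] (Y → K)) (a : A) (b : B)
    (p : X × Y) : prodMap φ ψ (a ⊗ₜ[R] b) p = φ a p.1 * ψ b p.2 := by
  simp [prodMap, Algebra.TensorProduct.productMap_apply_tmul]

/-- Products of two linearly independent families of functions are linearly independent. -/
theorem linearIndependent_mul {ι κ : Type} [Finite ι] [Finite κ] (f : ι → X → K)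
    (g : κ → Y → K) (hf : LinearIndependent K f) (hg : LinearIndependent K g) :
    LinearIndependent K (fun (p : ι × κ) => fun (q : X × Y) => f p.1 q.1 * g p.2 q.2) := by
  classical
  have := Fintype.ofFinite ι
  have := Fintype.ofFinite κ
  rw [Fintype.linearIndependent_iff] at hf hg ⊢
  intro c hc
  have h1 : ∀ (y : Y) (i : ι), ∑ j, c (i, j) * g j y = 0 := by
    intro y
    apply hf (fun i => ∑ j, c (i, j) * g j y)
    funext x
    have := congrFun hc (x, y)
    simp only [Finset.sum_apply, Pi.smul_apply, smul_eq_mul, Pi.zero_apply] at this ⊢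
    rw [← this, Fintype.sum_prod_type]
    refine Finset.sum_congr rfl fun i _ => ?_
    rw [Finset.sum_mul]
    refine Finset.sum_congr rfl fun j _ => ?_
    ring
  intro p
  obtain ⟨i, j⟩ := p
  apply hg (fun j => c (i, j))
  funext y
  have := h1 y i
  simp only [Finset.sum_apply, Pi.smul_apply, smul_eq_mul, Pi.zero_apply]
  exact this

end ProdMap

section Good

variable {R : Type} [CommRing R] {K : Type} [Field K] [Algebra R K]
variable {A B : Type} [Semiring A] [Algebra R A] [Semiring B] [Algebra R B]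
variable {X Y : Type}

/-- `φ : A → (X → K)` is good if some finite `R`-basis of `A` has `K`-independent image. -/
def Good (φ : A →ₐ[R] (X → K)) : Prop :=
  ∃ (ι : Type) (_ : Finite ι) (b : Module.Basis ι R A), LinearIndependent K (fun i => φ (b i))

theorem Good.injective (hRK : Function.Injective (algebraMap R K)) {φ : A →ₐ[R] (X → K)}
    (h : Good φ) : Function.Injective φ := by
  classical
  obtain ⟨ι, hι, b, hb⟩ := h
  have := Fintype.ofFinite ι
  have key : ∀ x : A, φ x = ∑ i, algebraMap R K (b.repr x i) • φ (b i) := by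
    intro x
    conv_lhs => rw [← b.sum_repr x]
    rw [map_sum]
    refine Finset.sum_congr rfl fun i _ => ?_
    rw [map_smul]
    funext m
    simp [Algebra.smul_def]
  intro x y hxy
  have h2 : ∑ i, (algebraMap R K (b.repr x i) - algebraMap R K (b.repr y i)) • φ (b i) = 0 := by
    simp only [sub_smul, Finset.sum_sub_distrib]
    rw [← key x, ← key y, hxy, sub_self]
  have h3 := (Fintype.linearIndependent_iff.mp hb) _ h2
  apply b.ext_elem
  intro i
  exact hRK (sub_eq_zero.mp (h3 i))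

theorem Good.prod {φ : A →ₐ[R] (X → K)} {ψ : B →ₐ[R] (Y → K)} (hφ : Good φ) (hψ : Good ψ) :
    Good (prodMap φ ψ) := by
  obtain ⟨ι, hι, b, hb⟩ := hφ
  obtain ⟨κ, hκ, c, hc⟩ := hψ
  refine ⟨ι × κ, inferInstance, b.tensorProduct c, ?_⟩
  have := linearIndependent_mul _ _ hb hc
  convert this using 1
  funext p q
  rw [Module.Basis.tensorProduct_apply', prodMap_tmul]

theorem Good.finite {φ : A →ₐ[R] (X → K)} (h : Good φ) : Module.Finite R A := by
  obtain ⟨ι, hι, b, -⟩ := h
  exact Module.Finite.of_basis b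

theorem Good.free {φ : A →ₐ[R] (X → K)} (h : Good φ) : Module.Free R A := by
  obtain ⟨ι, hι, b, -⟩ := h
  exact Module.Free.of_basis b

end Good

end Fermat.Agent.S19.H19

end

end
-- ===== PACK-END S19/H19/Good.lean

-- ===== PACK-BEGIN S19/H19/Order.lean
section
/-
A3 / S19, helper19 — piece ORD, part 3: the Hopf algebra structure on an order of functions.

`M` an abelian group, `K` a field, `R → K` injective, `H ⊂ (M → K)` an `R`-subalgebra which is
"good" (finite free with `K`-independent basis) and closed under `f ↦ f(s+t)` (with values in the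
image of `H ⊗ H`), `f ↦ f 0` (with values in `R`) and `f ↦ f(-t)`.  Then `H` is a commutative,
cocommutative Hopf algebra over `R`.  Mathlib only.
-/


set_option autoImplicit false
set_option linter.unusedSectionVars false
set_option linter.style.haveILetI false

noncomputable section

namespace Fermat.Agent.S19.H19

open scoped BigOperators TensorProduct

variable {R : Type} [CommRing R] {K : Type} [Field K] [Algebra R K]
variable {M : Type} [AddCommGroup M]

/-- An `R`-subalgebra of functions on an abelian group which is a "Hopf order". -/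
structure IsOrder (H : Subalgebra R (M → K)) : Prop where
  alg_inj : Function.Injective (algebraMap R K)
  good : Good H.val
  comul_mem : ∀ f ∈ H, (fun p : M × M => f (p.1 + p.2)) ∈ (prodMap H.val H.val).range
  counit_mem : ∀ f ∈ H, f 0 ∈ (Algebra.ofId R K).range
  anti_mem : ∀ f ∈ H, (fun m => f (-m)) ∈ H

namespace IsOrder

variable {H : Subalgebra R (M → K)} (hH : IsOrder H)

/-- Evaluation `H ⊗ H → (M × M → K)`. -/
abbrev E₂ (H : Subalgebra R (M → K)) : H ⊗[R] H →ₐ[R] (M × M → K) := prodMap H.val H.val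

/-- Evaluation `H ⊗ (H ⊗ H) → (M × (M × M) → K)`. -/
abbrev E₃ (H : Subalgebra R (M → K)) : H ⊗[R] (H ⊗[R] H) →ₐ[R] (M × (M × M) → K) :=
  prodMap H.val (E₂ H)

include hH in
theorem E₂_injective : Function.Injective (E₂ H) := (hH.good.prod hH.good).injective hH.alg_inj

include hH in
theorem E₃_injective : Function.Injective (E₃ H) :=
  (hH.good.prod (hH.good.prod hH.good)).injective hH.alg_inj

/-- `f ↦ ((s,t) ↦ f (s+t))`. -/
def addFun (H : Subalgebra R (M → K)) : H →ₐ[R] (M × M → K) :=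
  (pullback R K (fun p : M × M => p.1 + p.2)).comp H.val

/-- The comultiplication. -/
def comul : H →ₐ[R] H ⊗[R] H :=
  ((AlgEquiv.ofInjective (E₂ H) hH.E₂_injective).symm : (E₂ H).range →ₐ[R] H ⊗[R] H).comp
    ((addFun H).codRestrict (E₂ H).range (fun f => hH.comul_mem f f.2))

theorem E₂_comul (h : H) (p : M × M) : E₂ H (hH.comul h) p = (h : M → K) (p.1 + p.2) := by
  have h1 : E₂ H (hH.comul h) = ((addFun H).codRestrict (E₂ H).range
      (fun f => hH.comul_mem f f.2) h : M × M → K) := by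
    have := (AlgEquiv.ofInjective (E₂ H) hH.E₂_injective).apply_symm_apply
      ((addFun H).codRestrict (E₂ H).range (fun f => hH.comul_mem f f.2) h)
    exact congrArg Subtype.val this
  rw [h1]
  rfl

/-- The counit. -/
def counit : H →ₐ[R] R :=
  ((AlgEquiv.ofInjective (Algebra.ofId R K) hH.alg_inj).symm :
      (Algebra.ofId R K).range →ₐ[R] R).comp
    (((Pi.evalAlgHom R (fun _ : M => K) 0).comp H.val).codRestrict (Algebra.ofId R K).range
      (fun f => hH.counit_mem f f.2))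

theorem algebraMap_counit (h : H) : algebraMap R K (hH.counit h) = (h : M → K) 0 := by
  have := (AlgEquiv.ofInjective (Algebra.ofId R K) hH.alg_inj).apply_symm_apply
      (((Pi.evalAlgHom R (fun _ : M => K) 0).comp H.val).codRestrict (Algebra.ofId R K).range
      (fun f => hH.counit_mem f f.2) h)
  exact congrArg Subtype.val this

/-- The antipode. -/
def antipode : H →ₐ[R] H :=
  ((pullback R K (fun m : M => -m)).comp H.val).codRestrict H (fun f => hH.anti_mem f f.2)

theorem antipode_apply (h : H) (m : M) : (hH.antipode h : M → K) m = (h : M → K) (-m) := rfl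

/-! ### Naturality lemmas -/

theorem E₂_tmul (a b : H) (p : M × M) :
    E₂ H (a ⊗ₜ[R] b) p = (a : M → K) p.1 * (b : M → K) p.2 := by
  simp [E₂]

theorem E₃_tmul (a : H) (y : H ⊗[R] H) (p : M × (M × M)) :
    E₃ H (a ⊗ₜ[R] y) p = (a : M → K) p.1 * E₂ H y p.2 := by
  simp [E₃]

theorem E₃_assoc_tmul (y : H ⊗[R] H) (b : H) (p : M × (M × M)) :
    E₃ H (Algebra.TensorProduct.assoc R R R H H H (y ⊗ₜ[R] b)) p =
      E₂ H y (p.1, p.2.1) * (b : M → K) p.2.2 := by
  induction y using TensorProduct.induction_on with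
  | zero => simp
  | tmul a a' =>
    rw [Algebra.TensorProduct.assoc_tmul, E₃_tmul, E₂_tmul, E₂_tmul, mul_assoc]
  | add x y hx hy =>
    rw [TensorProduct.add_tmul, map_add, map_add, map_add, Pi.add_apply, Pi.add_apply, hx, hy,
      add_mul]

theorem E₃_assoc_map (x : H ⊗[R] H) (p : M × (M × M)) :
    E₃ H (Algebra.TensorProduct.assoc R R R H H H
        (Algebra.TensorProduct.map hH.comul (AlgHom.id R H) x)) p =
      E₂ H x (p.1 + p.2.1, p.2.2) := by
  induction x using TensorProduct.induction_on with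
  | zero => simp
  | tmul a b =>
    rw [Algebra.TensorProduct.map_tmul, E₃_assoc_tmul, hH.E₂_comul, E₂_tmul]
    rfl
  | add x y hx hy =>
    rw [map_add, map_add, map_add, map_add, Pi.add_apply, Pi.add_apply, hx, hy]

theorem E₃_map (x : H ⊗[R] H) (p : M × (M × M)) :
    E₃ H (Algebra.TensorProduct.map (AlgHom.id R H) hH.comul x) p =
      E₂ H x (p.1, p.2.1 + p.2.2) := by
  induction x using TensorProduct.induction_on with
  | zero => simp
  | tmul a b =>
    rw [Algebra.TensorProduct.map_tmul, E₃_tmul, hH.E₂_comul, E₂_tmul]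
    rfl
  | add x y hx hy =>
    rw [map_add, map_add, map_add, Pi.add_apply, Pi.add_apply, hx, hy]

theorem lid_map (x : H ⊗[R] H) (m : M) :
    ((Algebra.TensorProduct.lid R H
        (Algebra.TensorProduct.map hH.counit (AlgHom.id R H) x) : H) : M → K) m =
      E₂ H x (0, m) := by
  induction x using TensorProduct.induction_on with
  | zero => simp
  | tmul a b =>
    rw [Algebra.TensorProduct.map_tmul, Algebra.TensorProduct.lid_tmul, E₂_tmul,
      ← hH.algebraMap_counit]
    simp [Algebra.smul_def]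
  | add x y hx hy =>
    rw [map_add, map_add, map_add]
    simp only [Subalgebra.coe_add, Pi.add_apply]
    rw [hx, hy]

theorem rid_map (x : H ⊗[R] H) (m : M) :
    ((Algebra.TensorProduct.rid R R H
        (Algebra.TensorProduct.map (AlgHom.id R H) hH.counit x) : H) : M → K) m =
      E₂ H x (m, 0) := by
  induction x using TensorProduct.induction_on with
  | zero => simp
  | tmul a b =>
    rw [Algebra.TensorProduct.map_tmul, Algebra.TensorProduct.rid_tmul, E₂_tmul,
      ← hH.algebraMap_counit]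
    simp [Algebra.smul_def, mul_comm]
  | add x y hx hy =>
    rw [map_add, map_add, map_add]
    simp only [Subalgebra.coe_add, Pi.add_apply]
    rw [hx, hy]

theorem E₂_comm (x : H ⊗[R] H) (p : M × M) :
    E₂ H (TensorProduct.comm R H H x) p = E₂ H x (p.2, p.1) := by
  induction x using TensorProduct.induction_on with
  | zero => simp
  | tmul a b =>
    rw [TensorProduct.comm_tmul, E₂_tmul, E₂_tmul, mul_comm]
  | add x y hx hy =>
    rw [map_add, map_add, map_add, Pi.add_apply, Pi.add_apply, hx, hy]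

theorem lift_tmul_apply (f g : H →ₐ[R] H) (x : H ⊗[R] H) (m : M) :
    ((Algebra.TensorProduct.lift f g (fun _ _ => Commute.all _ _) x : H) : M → K) m =
      E₂ H (Algebra.TensorProduct.map f g x) (m, m) := by
  induction x using TensorProduct.induction_on with
  | zero => simp
  | tmul a b =>
    rw [Algebra.TensorProduct.lift_tmul, Algebra.TensorProduct.map_tmul, E₂_tmul]
    rfl
  | add x y hx hy =>
    rw [map_add, map_add, map_add]
    simp only [Subalgebra.coe_add, Pi.add_apply]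
    rw [hx, hy]

theorem E₂_map_antipode_id (x : H ⊗[R] H) (p : M × M) :
    E₂ H (Algebra.TensorProduct.map hH.antipode (AlgHom.id R H) x) p = E₂ H x (-p.1, p.2) := by
  induction x using TensorProduct.induction_on with
  | zero => simp
  | tmul a b =>
    rw [Algebra.TensorProduct.map_tmul, E₂_tmul, E₂_tmul]
    rfl
  | add x y hx hy =>
    rw [map_add, map_add, map_add, Pi.add_apply, Pi.add_apply, hx, hy]

theorem E₂_map_id_antipode (x : H ⊗[R] H) (p : M × M) :
    E₂ H (Algebra.TensorProduct.map (AlgHom.id R H) hH.antipode x) p = E₂ H x (p.1, -p.2) := by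
  induction x using TensorProduct.induction_on with
  | zero => simp
  | tmul a b =>
    rw [Algebra.TensorProduct.map_tmul, E₂_tmul, E₂_tmul]
    rfl
  | add x y hx hy =>
    rw [map_add, map_add, map_add, Pi.add_apply, Pi.add_apply, hx, hy]

/-! ### The structures -/

/-- The bialgebra structure on an order. -/
@[reducible] def bialgebra : Bialgebra R H :=
  Bialgebra.ofAlgHom hH.comul hH.counit
    (by
      refine AlgHom.ext fun h => hH.E₃_injective (funext fun p => ?_)
      refine (hH.E₃_assoc_map (hH.comul h) p).trans ?_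
      refine Eq.trans ?_ (hH.E₃_map (hH.comul h) p).symm
      rw [hH.E₂_comul, hH.E₂_comul, add_assoc])
    (by
      refine AlgHom.ext fun h => (Algebra.TensorProduct.lid R H).injective
        (Subtype.ext (funext fun m => ?_))
      have h1 : (Algebra.TensorProduct.lid R H) ((Algebra.TensorProduct.lid R H).symm h) = h :=
        AlgEquiv.apply_symm_apply _ _
      refine (hH.lid_map (hH.comul h) m).trans ?_
      refine Eq.trans ?_ (congrArg (fun x : H => (x : M → K) m) h1).symm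
      rw [hH.E₂_comul]
      simp only [zero_add])
    (by
      refine AlgHom.ext fun h => (Algebra.TensorProduct.rid R R H).injective
        (Subtype.ext (funext fun m => ?_))
      have h1 : (Algebra.TensorProduct.rid R R H) ((Algebra.TensorProduct.rid R R H).symm h) = h :=
        AlgEquiv.apply_symm_apply _ _
      refine (hH.rid_map (hH.comul h) m).trans ?_
      refine Eq.trans ?_ (congrArg (fun x : H => (x : M → K) m) h1).symm
      rw [hH.E₂_comul]
      simp only [add_zero])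

theorem bialgebra_comul (h : H) :
    letI := hH.bialgebra
    Coalgebra.comul (R := R) h = hH.comul h := rfl

theorem bialgebra_counit (h : H) :
    letI := hH.bialgebra
    Coalgebra.counit (R := R) h = hH.counit h := rfl

/-- The Hopf algebra structure on an order. -/
@[reducible] def hopfAlgebra : HopfAlgebra R H :=
  letI := hH.bialgebra
  HopfAlgebra.ofAlgHom hH.antipode
    (by
      refine AlgHom.ext fun h => Subtype.ext (funext fun m => ?_)
      simp only [AlgHom.comp_apply, Bialgebra.comulAlgHom_apply, Bialgebra.counitAlgHom_apply]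
      rw [lift_tmul_apply, hH.bialgebra_comul, hH.bialgebra_counit, hH.E₂_map_antipode_id,
        hH.E₂_comul]
      simp only [neg_add_cancel]
      rw [← hH.algebraMap_counit]
      rfl)
    (by
      refine AlgHom.ext fun h => Subtype.ext (funext fun m => ?_)
      simp only [AlgHom.comp_apply, Bialgebra.comulAlgHom_apply, Bialgebra.counitAlgHom_apply]
      rw [lift_tmul_apply, hH.bialgebra_comul, hH.bialgebra_counit, hH.E₂_map_id_antipode,
        hH.E₂_comul]
      simp only [add_neg_cancel]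
      rw [← hH.algebraMap_counit]
      rfl)

theorem isCocomm :
    letI := hH.bialgebra
    Coalgebra.IsCocomm R H := by
  let _ := hH.bialgebra
  refine ⟨LinearMap.ext fun h => hH.E₂_injective (funext fun p => ?_)⟩
  simp only [LinearMap.comp_apply, LinearEquiv.coe_coe]
  rw [hH.bialgebra_comul, E₂_comm, hH.E₂_comul, hH.E₂_comul, add_comm]

end IsOrder

end Fermat.Agent.S19.H19

end

end
-- ===== PACK-END S19/H19/Order.lean

-- ===== PACK-BEGIN S19/H679/Star.lean
section


/-!
# Cell A3 (S19), block UNR (helper679) — the semilinear action on functions and the orbit trace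

`Γ` a group acting on a field `Ω` by ring automorphisms and on a set `M` (through a plain map
`act : Γ → M → M` with `act 1 = id`, `act (σ τ) = act σ ∘ act τ`).  On functions `M → Ω` we
use the semilinear action `(σ ⋆ f) m = σ • f (act σ⁻¹ m)`; `f` is *equivariant*
(`f (act σ m) = σ • f m`) iff `σ ⋆ f = f`.

Main result: `orbitTrace_mem` — the orbit-trace lemma used for unramified descent.
-/

set_option autoImplicit false

namespace Fermat.Agent.S19.H679

variable {Γ : Type*} [Group Γ] {Ω : Type*} [Field Ω] [MulSemiringAction Γ Ω] {M : Type*}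

/-- `act` is a group action (as a plain map). -/
structure IsActH679 (act : Γ → M → M) : Prop where
  one : ∀ m, act 1 m = m
  mul : ∀ σ τ m, act (σ * τ) m = act σ (act τ m)

/-- The semilinear action on functions. -/
def starH679 (act : Γ → M → M) (σ : Γ) (f : M → Ω) : M → Ω := fun m => σ • f (act σ⁻¹ m)

theorem starH679_apply (act : Γ → M → M) (σ : Γ) (f : M → Ω) (m : M) :
    starH679 act σ f m = σ • f (act σ⁻¹ m) := rfl

section basics

variable {act : Γ → M → M} (hact : IsActH679 act)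
include hact

theorem IsActH679.inv_act (σ : Γ) (m : M) : act σ⁻¹ (act σ m) = m := by
  rw [← hact.mul, inv_mul_cancel, hact.one]

theorem IsActH679.act_inv (σ : Γ) (m : M) : act σ (act σ⁻¹ m) = m := by
  rw [← hact.mul, mul_inv_cancel, hact.one]

theorem starH679_one (f : M → Ω) : starH679 act (1 : Γ) f = f := by
  funext m
  simp [starH679, hact.one]

theorem starH679_mul (σ τ : Γ) (f : M → Ω) :
    starH679 act (σ * τ) f = starH679 act σ (starH679 act τ f) := by
  funext m
  simp only [starH679, mul_inv_rev, hact.mul, mul_smul]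

theorem starH679_inv_star (σ : Γ) (f : M → Ω) :
    starH679 act σ⁻¹ (starH679 act σ f) = f := by
  rw [← starH679_mul hact, inv_mul_cancel, starH679_one hact]

theorem starH679_star_inv (σ : Γ) (f : M → Ω) :
    starH679 act σ (starH679 act σ⁻¹ f) = f := by
  rw [← starH679_mul hact, mul_inv_cancel, starH679_one hact]

/-- `σ ⋆ f = f` iff `f` intertwines `act σ` and `σ •`. -/
theorem starH679_eq_self_iff (σ : Γ) (f : M → Ω) :
    starH679 act σ f = f ↔ ∀ m, f (act σ m) = σ • f m := by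
  constructor
  · intro h m
    have := congrFun h (act σ m)
    rw [starH679_apply, hact.inv_act] at this
    exact this.symm
  · intro h
    funext m
    rw [starH679_apply, ← h, hact.act_inv]

end basics

/-- The semilinear action as a ring homomorphism of the function ring. -/
def starRingHomH679 (act : Γ → M → M) (σ : Γ) : (M → Ω) →+* (M → Ω) where
  toFun := starH679 act σ
  map_one' := by funext m; simp [starH679]
  map_mul' f g := by funext m; simp [starH679, smul_mul']
  map_zero' := by funext m; simp [starH679]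
  map_add' f g := by funext m; simp [starH679, smul_add]

@[simp] theorem starRingHomH679_apply (act : Γ → M → M) (σ : Γ) (f : M → Ω) :
    starRingHomH679 act σ f = starH679 act σ f := rfl

theorem starH679_smul (act : Γ → M → M) (σ : Γ) (x : Ω) (f : M → Ω) :
    starH679 act σ (x • f) = (σ • x) • starH679 act σ f := by
  funext m
  simp [starH679, smul_mul']

theorem starH679_add (act : Γ → M → M) (σ : Γ) (f g : M → Ω) :
    starH679 act σ (f + g) = starH679 act σ f + starH679 act σ g :=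
  map_add (starRingHomH679 act σ) f g

theorem starH679_sum (act : Γ → M → M) (σ : Γ) {ι : Type*} (s : Finset ι) (F : ι → M → Ω) :
    starH679 act σ (∑ i ∈ s, F i) = ∑ i ∈ s, starH679 act σ (F i) :=
  map_sum (starRingHomH679 act σ) F s

/-- The action on pairs (coefficient tuple, function). -/
def actPairH679 (act : Γ → M → M) {J : Type*} (σ : Γ) (p : (J → Ω) × (M → Ω)) :
    (J → Ω) × (M → Ω) :=
  (fun j => σ • p.1 j, starH679 act σ p.2)

theorem actPairH679_mul {act : Γ → M → M} (hact : IsActH679 act) {J : Type*} (σ τ : Γ)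
    (p : (J → Ω) × (M → Ω)) :
    actPairH679 act (σ * τ) p = actPairH679 act σ (actPairH679 act τ p) := by
  simp only [actPairH679, starH679_mul hact, mul_smul]

theorem actPairH679_one {act : Γ → M → M} (hact : IsActH679 act) {J : Type*}
    (p : (J → Ω) × (M → Ω)) : actPairH679 act (1 : Γ) p = p := by
  simp only [actPairH679, starH679_one hact, one_smul]

section trace

variable {act : Γ → M → M} (hact : IsActH679 act)
variable {A : Type*} [CommRing A] [Algebra A Ω]
variable {J : Type*} [Fintype J]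

/-- The orbit trace with coefficient index `j`. -/
noncomputable def orbitTraceH679 (O : Finset ((J → Ω) × (M → Ω))) (j : J) : M → Ω :=
  ∑ p ∈ O, p.1 j • p.2

include hact in
/-- The orbit trace over a `Γ`-stable finite set is invariant. -/
theorem starH679_orbitTrace (O : Finset ((J → Ω) × (M → Ω)))
    (hO : ∀ σ : Γ, ∀ p ∈ O, actPairH679 act σ p ∈ O) (σ : Γ) (j : J) :
    starH679 act σ (orbitTraceH679 O j) = orbitTraceH679 O j := by
  classical
  unfold orbitTraceH679
  rw [starH679_sum]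
  refine Finset.sum_nbij' (fun p => actPairH679 act σ p) (fun p => actPairH679 act σ⁻¹ p)
    (fun p hp => hO σ p hp) (fun p hp => hO σ⁻¹ p hp) ?_ ?_ ?_
  · intro p _
    rw [← actPairH679_mul hact, inv_mul_cancel, actPairH679_one hact]
  · intro p _
    rw [← actPairH679_mul hact, mul_inv_cancel, actPairH679_one hact]
  · intro p _
    rw [starH679_smul]
    rfl

include hact in
/-- **Orbit-trace lemma.**  See the module docstring of `Descent.lean` for its use. -/
theorem orbitTrace_mem (𝔪 : Ideal A) (Hloc : Submodule A (M → Ω))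
    (c : J → Ω) (a : J → A) (f : M → Ω) (D : Set Γ) (hD1 : (1 : Γ) ∈ D)
    (hfin : (Set.range fun σ : Γ => actPairH679 act σ (c, f)).Finite)
    (h1 : ∀ δ ∈ D, starH679 act δ f ∈ Hloc)
    (h1' : ∀ δ ∈ D, ∀ j, ∃ y : A, algebraMap A Ω y = δ • c j)
    (h2 : ∃ e ∈ 𝔪, ∑ j, algebraMap A Ω (a j) * c j = 1 + algebraMap A Ω e)
    (h3 : ∀ δ ∈ D, actPairH679 act δ (c, f) ≠ (c, f) →
      ∃ e ∈ 𝔪, ∑ j, algebraMap A Ω (a j) * δ • c j = algebraMap A Ω e)
    (h4 : ∀ σ : Γ, (∀ δ ∈ D, actPairH679 act σ (c, f) ≠ actPairH679 act δ (c, f)) →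
      ∀ j, (σ • c j) • starH679 act σ f ∈ 𝔪 • Hloc) :
    f ∈ Submodule.span A {h | h ∈ Hloc ∧ ∀ σ : Γ, starH679 act σ h = h} ⊔ 𝔪 • Hloc := by
  classical
  set O : Finset ((J → Ω) × (M → Ω)) := hfin.toFinset with hOdef
  have hmemO : ∀ p, p ∈ O ↔ ∃ σ : Γ, actPairH679 act σ (c, f) = p := by
    intro p
    rw [hOdef, Set.Finite.mem_toFinset]
    rfl
  have hOstable : ∀ σ : Γ, ∀ p ∈ O, actPairH679 act σ p ∈ O := by
    intro σ p hp
    obtain ⟨τ, rfl⟩ := (hmemO p).1 hp
    exact (hmemO _).2 ⟨σ * τ, actPairH679_mul hact σ τ _⟩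
  have hp0 : (c, f) ∈ O := (hmemO _).2 ⟨1, actPairH679_one hact _⟩
  have hfH : f ∈ Hloc := by
    have := h1 1 hD1
    rwa [starH679_one hact] at this
  have hmH : 𝔪 • Hloc ≤ Hloc := Submodule.smul_le_right
  -- each term of each trace lies in `Hloc`
  have hterm : ∀ p ∈ O, ∀ j, p.1 j • p.2 ∈ Hloc := by
    intro p hp j
    obtain ⟨σ, rfl⟩ := (hmemO p).1 hp
    by_cases hσ : ∃ δ ∈ D, actPairH679 act σ (c, f) = actPairH679 act δ (c, f)
    · obtain ⟨δ, hδ, hδeq⟩ := hσ
      rw [hδeq]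
      obtain ⟨y, hy⟩ := h1' δ hδ j
      show (δ • c j) • starH679 act δ f ∈ Hloc
      rw [← hy, algebraMap_smul]
      exact Hloc.smul_mem y (h1 δ hδ)
    · push_neg at hσ
      exact hmH (h4 σ hσ j)
  have hT : ∀ j, orbitTraceH679 O j ∈ {h | h ∈ Hloc ∧ ∀ σ : Γ, starH679 act σ h = h} := by
    intro j
    refine ⟨?_, fun σ => starH679_orbitTrace hact O hOstable σ j⟩
    exact Submodule.sum_mem _ fun p hp => hterm p hp j
  -- the combination
  have hcomb : ∑ j, a j • orbitTraceH679 O j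
      = ∑ p ∈ O, (∑ j, algebraMap A Ω (a j) * p.1 j) • p.2 := by
    unfold orbitTraceH679
    simp_rw [Finset.smul_sum, Finset.sum_smul]
    rw [Finset.sum_comm]
    refine Finset.sum_congr rfl fun p _ => Finset.sum_congr rfl fun j _ => ?_
    rw [← algebraMap_smul Ω (a j) (p.1 j • p.2), smul_smul]
  have hrest : ∀ p ∈ O.erase (c, f), (∑ j, algebraMap A Ω (a j) * p.1 j) • p.2 ∈ 𝔪 • Hloc := by
    intro p hp
    obtain ⟨hne, hpO⟩ := Finset.mem_erase.1 hp
    obtain ⟨σ, rfl⟩ := (hmemO p).1 hpO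
    by_cases hσ : ∃ δ ∈ D, actPairH679 act σ (c, f) = actPairH679 act δ (c, f)
    · obtain ⟨δ, hδ, hδeq⟩ := hσ
      rw [hδeq] at hne ⊢
      obtain ⟨e, he, hee⟩ := h3 δ hδ hne
      show (∑ j, algebraMap A Ω (a j) * δ • c j) • starH679 act δ f ∈ 𝔪 • Hloc
      rw [hee, algebraMap_smul]
      exact Submodule.smul_mem_smul he (h1 δ hδ)
    · push_neg at hσ
      rw [Finset.sum_smul]
      refine Submodule.sum_mem _ fun j _ => ?_
      rw [← smul_smul, algebraMap_smul]
      exact Submodule.smul_mem _ _ (h4 σ hσ j)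
  obtain ⟨e, he, hee⟩ := h2
  have hsplit : ∑ j, a j • orbitTraceH679 O j
      = f + (e • f + ∑ p ∈ O.erase (c, f), (∑ j, algebraMap A Ω (a j) * p.1 j) • p.2) := by
    rw [hcomb, ← Finset.add_sum_erase O _ hp0]
    show (∑ j, algebraMap A Ω (a j) * c j) • f + _ = _
    rw [hee, add_smul, one_smul, algebraMap_smul, add_assoc]
  have hf : f = ∑ j, a j • orbitTraceH679 O j
      - (e • f + ∑ p ∈ O.erase (c, f), (∑ j, algebraMap A Ω (a j) * p.1 j) • p.2) := by
    rw [hsplit, add_sub_cancel_right]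
  rw [hf, sub_eq_add_neg]
  refine Submodule.add_mem_sup ?_ ?_
  · exact Submodule.sum_mem _ fun j _ => Submodule.smul_mem _ _ (Submodule.subset_span (hT j))
  · refine Submodule.neg_mem _ (Submodule.add_mem _ ?_ ?_)
    · exact Submodule.smul_mem_smul he hfH
    · exact Submodule.sum_mem _ hrest

end trace

end Fermat.Agent.S19.H679

end
-- ===== PACK-END S19/H679/Star.lean

-- ===== PACK-BEGIN S56/Spec.lean
section



/-!
# Row S56 — FROZEN interface statements, layer 0 (row-lead helper956)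

`S56 ⇐ TB(ord) + TB(flat) + P1 + TWP`   (glue: `Fermat/Agent/S56/Glue.lean`, sorry-free)
`TWP ⇐ P3 (TWElement) + Lib/Cheb Tier 1`

* `TangentBoundOrdStatement`, `TangentBoundFlatStatement` (TB): there is a dual Selmer frame `D`
  such that for every set `Q` of Taylor–Wiles primes killing `D`, every universal deformation ring
  `R_Q` has at most `|k|^{|Q|}` tangent vectors `R_Q → k[ε]`.
  (= dictionary tangent space ↪ Selmer group, Greenberg–Wiles formula, local computations.)
* `PowerSeriesSurjStatement` (P1): at most `|k|^r` tangent vectors ⇒ `𝒪⟦X₁..X_r⟧ ↠ R`.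
* `TWElementStatement` (P3): group theory (DDT Lemma 2.48/Thm 2.49): for a nonzero class `c`
  there is `σ` fixing `μ_{p^{n+1}}` with distinct eigenvalues and `c(σ) ∉ (ρ̄(σ) − 1) ad⁰`.
* `TWPrimesStatement` (TWP): `r = dim D` Taylor–Wiles primes `≡ 1 mod p^{n+1}` killing `D`.

All pieces are proved as `theorem xxx : XxxStatement` in `Fermat/Agent/S56/H<seat>/*.lean`.
-/

set_option autoImplicit false

open Polynomial IsLocalRing

noncomputable section

namespace Fermat.Agent.S56

/-- The standing hypotheses of the frozen statement S56. -/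
structure Hyp (𝒪 : Type) [CommRing 𝒪] [IsDomain 𝒪] [IsDiscreteValuationRing 𝒪]
    (p : ℕ) (ρbar : ResidualGaloisRep (ResidueField 𝒪)) (S Smin : Finset ℕ) : Prop where
  hp : p.Prime
  hp2 : p ≠ 2
  hp𝒪 : (p : 𝒪) ∈ maximalIdeal 𝒪
  habs : ρbar.IsAbsolutelyIrreducible
  hdet : (GaloisRepAdic.ofResidualGaloisRep ρbar).DetIsCyclotomic p
  hsplit : ∀ σ : GQ, ∃ α β : ResidueField 𝒪,
    LinearMap.charpoly (ρbar.ρ σ) = (X - C α) * (X - C β)
  hTW : ∀ (K : Type) [Field K] [Algebra (ResidueField 𝒪) K] (G : Subgroup GQ), G.index = 2 →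
    ∀ V : Submodule K (ρbar.baseChange K).V,
      (∀ σ ∈ G, ∀ x ∈ V, (ρbar.baseChange K).ρ σ x ∈ V) → V = ⊥ ∨ V = ⊤
  hpSmin : p ∈ Smin
  hSmin : Smin ⊆ S
  hS : ∀ q ∈ S, q.Prime
  hmin : ∀ q : ℕ, q.Prime → q ≠ p → (q ∈ Smin ↔ ¬ ρbar.IsUnramifiedAt q)

/-- (TB) for a family of deformation conditions indexed by the auxiliary set `Q`. -/
def TangentBound (𝒪 : Type) [CommRing 𝒪] [IsDomain 𝒪] [IsDiscreteValuationRing 𝒪]
    [IsAdicComplete (maximalIdeal 𝒪) 𝒪]
    (p : ℕ) (ρbar : ResidualGaloisRep (ResidueField 𝒪)) (S : Finset ℕ)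
    (cond : Finset ℕ → DefCond 𝒪) : Prop :=
  ∃ D : Submodule (ResidueField 𝒪) (GQ → Module.End (ResidueField 𝒪) ρbar.V),
    IsDualFrame ρbar p D ∧
    ∀ Q : Finset ℕ, (∀ q ∈ Q, IsTWPrime ρbar p S q) → Kills ρbar p D Q →
      ∀ DQ : GaloisRep.DeformationRingData 𝒪 ρbar (cond Q),
        Finite (TanHom 𝒪 DQ.R) ∧
          Nat.card (TanHom 𝒪 DQ.R) ≤ Nat.card (ResidueField 𝒪) ^ Q.card

/-- (TB-ord) tangent bound for the strict-ordinary condition. -/
def TangentBoundOrdStatement : Prop :=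
  ∀ (𝒪 : Type) [CommRing 𝒪] [IsDomain 𝒪] [IsDiscreteValuationRing 𝒪]
    [IsAdicComplete (maximalIdeal 𝒪) 𝒪] [Finite (ResidueField 𝒪)]
    (p : ℕ) (ρbar : ResidualGaloisRep (ResidueField 𝒪)) (S Smin : Finset ℕ),
    Hyp 𝒪 p ρbar S Smin → TangentBound 𝒪 p ρbar S (ordCond 𝒪 p Smin)

/-- (TB-flat) tangent bound for the flat condition. -/
def TangentBoundFlatStatement : Prop :=
  ∀ (𝒪 : Type) [CommRing 𝒪] [IsDomain 𝒪] [IsDiscreteValuationRing 𝒪]
    [IsAdicComplete (maximalIdeal 𝒪) 𝒪] [Finite (ResidueField 𝒪)]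
    (p : ℕ) (ρbar : ResidualGaloisRep (ResidueField 𝒪)) (S Smin : Finset ℕ),
    Hyp 𝒪 p ρbar S Smin → TangentBound 𝒪 p ρbar S (flatCond 𝒪 p Smin)

/-- (P1) commutative algebra: few tangent vectors ⇒ quotient of a power series ring. -/
def PowerSeriesSurjStatement : Prop :=
  ∀ (𝒪 : Type) [CommRing 𝒪] [IsDomain 𝒪] [IsDiscreteValuationRing 𝒪]
    [IsAdicComplete (maximalIdeal 𝒪) 𝒪] [Finite (ResidueField 𝒪)]
    (R : Type) [CommRing R] [IsLocalRing R] [IsNoetherianRing R]
    [IsAdicComplete (maximalIdeal R) R] [Algebra 𝒪 R] [IsLocalHom (algebraMap 𝒪 R)],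
    Function.Surjective (IsLocalRing.residue R ∘ algebraMap 𝒪 R) →
    ∀ r : ℕ, Finite (TanHom 𝒪 R) →
      Nat.card (TanHom 𝒪 R) ≤ Nat.card (ResidueField 𝒪) ^ r →
      ∃ γ : MvPowerSeries (Fin r) 𝒪 →ₐ[𝒪] R, Function.Surjective γ

/-- (TWP) existence of Taylor–Wiles primes killing a dual Selmer frame. -/
def TWPrimesStatement : Prop :=
  ∀ (𝒪 : Type) [CommRing 𝒪] [IsDomain 𝒪] [IsDiscreteValuationRing 𝒪]
    [IsAdicComplete (maximalIdeal 𝒪) 𝒪] [Finite (ResidueField 𝒪)]
    (p : ℕ) (ρbar : ResidualGaloisRep (ResidueField 𝒪)) (S Smin : Finset ℕ),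
    Hyp 𝒪 p ρbar S Smin →
    ∀ D : Submodule (ResidueField 𝒪) (GQ → Module.End (ResidueField 𝒪) ρbar.V),
      IsDualFrame ρbar p D → ∀ n : ℕ,
      ∃ qv : Fin (Module.finrank (ResidueField 𝒪) D) → ℕ, Function.Injective qv ∧
        (∀ i, (qv i).Prime ∧ qv i ∉ S ∧ p ^ (n + 1) ∣ qv i - 1) ∧
        (∀ i, ∀ P : ValuationSubring Qb, P.LiesOverPrime (qv i) →
          ∀ φ : GQ, P.IsFrobeniusAt φ (qv i) →
            ∃ α β : ResidueField 𝒪, α ≠ β ∧
              LinearMap.charpoly (ρbar.ρ φ) = (X - C α) * (X - C β)) ∧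
        Kills ρbar p D (Finset.univ.image qv)

/-- (P3) the Taylor–Wiles element: group theory of `ρ̄` and `ad⁰ρ̄(1)`.
Part 1: for a cocycle which is not a coboundary; part 2: without cocycle. -/
def TWElementStatement : Prop :=
  ∀ (𝒪 : Type) [CommRing 𝒪] [IsDomain 𝒪] [IsDiscreteValuationRing 𝒪]
    [IsAdicComplete (maximalIdeal 𝒪) 𝒪] [Finite (ResidueField 𝒪)]
    (p : ℕ) (ρbar : ResidualGaloisRep (ResidueField 𝒪)) (S Smin : Finset ℕ),
    Hyp 𝒪 p ρbar S Smin →
    (∀ c : GQ → Module.End (ResidueField 𝒪) ρbar.V, IsTwCocycle ρbar p c →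
      ¬ IsTwCoboundary ρbar p c → ∀ n : ℕ,
      ∃ σ : GQ, (∀ μ : Qb, μ ^ p ^ (n + 1) = 1 → σ μ = μ) ∧
        (∃ α β : ResidueField 𝒪, α ≠ β ∧
          LinearMap.charpoly (ρbar.ρ σ) = (X - C α) * (X - C β)) ∧
        ∀ m : Module.End (ResidueField 𝒪) ρbar.V,
          LinearMap.trace (ResidueField 𝒪) ρbar.V m = 0 →
            c σ ≠ ρbar.ρ σ * m * ρbar.ρ σ⁻¹ - m) ∧
    (∀ n : ℕ, ∃ σ : GQ, (∀ μ : Qb, μ ^ p ^ (n + 1) = 1 → σ μ = μ) ∧
        ∃ α β : ResidueField 𝒪, α ≠ β ∧
          LinearMap.charpoly (ρbar.ρ σ) = (X - C α) * (X - C β))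

/-- (TWP-of) Taylor–Wiles primes from the Taylor–Wiles element and Frobenius density. -/
def TWPrimesOfElementStatement : Prop :=
  TWElementStatement → Fermat.Agent.Lib.Cheb.Spec.FrobeniusDivisionStatement → TWPrimesStatement

end Fermat.Agent.S56

end

end
-- ===== PACK-END S56/Spec.lean

-- ===== PACK-BEGIN S14/H894/ValSum.lean
section


/-!
# S14 / H894 : valuation of a sum with pairwise distinct valuations; power expansions
-/

set_option autoImplicit false

namespace Fermat.Agent.S14.H894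

open Polynomial

/-- If the nonzero terms of a finite sum have pairwise distinct valuations, the valuation of the
sum is the maximum of the valuations of the terms. -/
theorem valuation_sum_eq_sup {F Γ ι : Type*} [Field F] [LinearOrderedCommGroupWithZero Γ]
    (v : Valuation F Γ) (s : Finset ι) (f : ι → F)
    (h : ∀ i ∈ s, ∀ j ∈ s, i ≠ j → f i ≠ 0 → v (f i) ≠ v (f j)) :
    v (∑ i ∈ s, f i) = s.sup (fun i => v (f i)) := by
  classical
  induction s using Finset.induction_on with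
  | empty => simp [bot_eq_zero]
  | insert a s ha ih =>
    rw [Finset.sum_insert ha, Finset.sup_insert]
    have ih' := ih (fun i hi j hj => h i (Finset.mem_insert_of_mem hi) j
      (Finset.mem_insert_of_mem hj))
    by_cases hfa : f a = 0
    · rw [hfa, zero_add, map_zero, ih']
      exact (sup_of_le_right zero_le).symm
    · have hne : v (f a) ≠ v (∑ i ∈ s, f i) := by
        rw [ih']
        intro heq
        have hpos : (0 : Γ) < v (f a) := by
          rw [Valuation.pos_iff]; exact hfa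
        rcases s.eq_empty_or_nonempty with hs | hs
        · subst hs
          rw [Finset.sup_empty, bot_eq_zero] at heq
          exact hpos.ne' heq
        · obtain ⟨j, hj, hjs⟩ := Finset.exists_mem_eq_sup s hs (fun i => v (f i))
          rw [hjs] at heq
          refine h a (Finset.mem_insert_self a s) j (Finset.mem_insert_of_mem hj) ?_ hfa heq
          rintro rfl
          exact ha hj
      rw [Valuation.map_add_of_distinct_val v hne, ih']

theorem valuation_sum_le_one_iff {F Γ ι : Type*} [Field F] [LinearOrderedCommGroupWithZero Γ]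
    (v : Valuation F Γ) (s : Finset ι) (f : ι → F)
    (h : ∀ i ∈ s, ∀ j ∈ s, i ≠ j → f i ≠ 0 → v (f i) ≠ v (f j)) :
    v (∑ i ∈ s, f i) ≤ 1 ↔ ∀ i ∈ s, v (f i) ≤ 1 := by
  rw [valuation_sum_eq_sup v s f h, Finset.sup_le_iff]

theorem valuation_sum_lt_one_iff {F Γ ι : Type*} [Field F] [LinearOrderedCommGroupWithZero Γ]
    (v : Valuation F Γ) (s : Finset ι) (f : ι → F)
    (h : ∀ i ∈ s, ∀ j ∈ s, i ≠ j → f i ≠ 0 → v (f i) ≠ v (f j)) :
    v (∑ i ∈ s, f i) < 1 ↔ ∀ i ∈ s, v (f i) < 1 := by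
  rw [valuation_sum_eq_sup v s f h, Finset.sup_lt_iff (by rw [bot_eq_zero]; exact zero_lt_one)]

end Fermat.Agent.S14.H894

end
-- ===== PACK-END S14/H894/ValSum.lean

-- ===== PACK-BEGIN S05/Sq12/Inertia.lean
section



/-!
# Inertia / decomposition group facts for valuation subrings (squad S05/S12, warmups W1 + W2)
-/

set_option autoImplicit false

namespace Fermat.Agent.S05.Sq12

open ValuationSubring
open scoped Pointwise

section Decomp

variable {K L : Type*} [Field K] [Field L] [Algebra K L]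

theorem smul_eq_of_mem_decomp (A : ValuationSubring L) {σ : L ≃ₐ[K] L}
    (hσ : σ ∈ A.decompositionSubgroup K) : σ • A = A := hσ

theorem apply_mem_of_mem_decomp (A : ValuationSubring L) {σ : L ≃ₐ[K] L}
    (hσ : σ ∈ A.decompositionSubgroup K) {x : L} (hx : x ∈ A) : σ x ∈ A := by
  have h : σ • x ∈ σ • A := ValuationSubring.smul_mem_pointwise_smul σ x A hx
  rw [smul_eq_of_mem_decomp A hσ] at h
  exact h

theorem apply_mem_iff_of_mem_decomp (A : ValuationSubring L) {σ : L ≃ₐ[K] L}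
    (hσ : σ ∈ A.decompositionSubgroup K) (x : L) : σ x ∈ A ↔ x ∈ A := by
  constructor
  · intro h
    have hinv : σ⁻¹ ∈ A.decompositionSubgroup K := inv_mem hσ
    have := apply_mem_of_mem_decomp A hinv h
    simpa using this
  · exact apply_mem_of_mem_decomp A hσ

theorem valuation_le_of_mem_decomp (A : ValuationSubring L) {σ : L ≃ₐ[K] L}
    (hσ : σ ∈ A.decompositionSubgroup K) {x y : L}
    (h : A.valuation x ≤ A.valuation y) : A.valuation (σ x) ≤ A.valuation (σ y) := by
  rw [ValuationSubring.valuation_le_iff] at h ⊢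
  obtain ⟨a, ha⟩ := h
  refine ⟨⟨σ a, apply_mem_of_mem_decomp A hσ a.2⟩, ?_⟩
  simp only
  rw [← map_mul, ha]

theorem valuation_le_iff_of_mem_decomp (A : ValuationSubring L) {σ : L ≃ₐ[K] L}
    (hσ : σ ∈ A.decompositionSubgroup K) (x y : L) :
    A.valuation (σ x) ≤ A.valuation (σ y) ↔ A.valuation x ≤ A.valuation y := by
  constructor
  · intro h
    have hinv : σ⁻¹ ∈ A.decompositionSubgroup K := inv_mem hσ
    have := valuation_le_of_mem_decomp A hinv h
    simpa using this
  · exact valuation_le_of_mem_decomp A hσ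

theorem valuation_lt_iff_of_mem_decomp (A : ValuationSubring L) {σ : L ≃ₐ[K] L}
    (hσ : σ ∈ A.decompositionSubgroup K) (x y : L) :
    A.valuation (σ x) < A.valuation (σ y) ↔ A.valuation x < A.valuation y := by
  rw [← not_le, ← not_le, valuation_le_iff_of_mem_decomp A hσ]

/-- Some positive power of `σ` fixes a given algebraic element. -/
theorem exists_pow_apply_eq_self {σ : L ≃ₐ[K] L} {x : L} (hx : IsAlgebraic K x) :
    ∃ n : ℕ, 0 < n ∧ (σ ^ n) x = x := by
  classical
  have hint : IsIntegral K x := hx.isIntegral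
  have hfin : ((minpoly K x).rootSet L).Finite := Polynomial.rootSet_finite _ _
  have hmem : ∀ k : ℕ, (σ ^ k) x ∈ (minpoly K x).rootSet L := by
    intro k
    rw [Polynomial.mem_rootSet]
    refine ⟨minpoly.ne_zero hint, ?_⟩
    have : Polynomial.aeval ((σ ^ k) x) (minpoly K x) = (σ ^ k) (Polynomial.aeval x (minpoly K x)) := by
      exact Polynomial.aeval_algHom_apply ((σ ^ k : L ≃ₐ[K] L) : L →ₐ[K] L) x (minpoly K x)
    rw [this, minpoly.aeval, map_zero]
  obtain ⟨i, j, hij, heq⟩ : ∃ i j : ℕ, i < j ∧ (σ ^ i) x = (σ ^ j) x := by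
    by_contra hcon
    push Not at hcon
    have hinj : Function.Injective (fun k : ℕ => (⟨(σ ^ k) x, hmem k⟩ : (minpoly K x).rootSet L)) := by
      intro a b hab
      simp only [Subtype.mk.injEq] at hab
      rcases lt_trichotomy a b with h | h | h
      · exact absurd hab (hcon a b h)
      · exact h
      · exact absurd hab.symm (hcon b a h)
    have : Finite ((minpoly K x).rootSet L) := hfin.to_subtype
    exact not_injective_infinite_finite _ hinj
  refine ⟨j - i, Nat.sub_pos_of_lt hij, ?_⟩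
  have hpow : σ ^ j = σ ^ i * σ ^ (j - i) := by
    rw [← pow_add]; congr 1; omega
  rw [hpow, AlgEquiv.mul_apply] at heq
  exact ((σ ^ i).injective heq).symm

theorem valuation_apply_eq_of_mem_decomp (A : ValuationSubring L) {σ : L ≃ₐ[K] L}
    (hσ : σ ∈ A.decompositionSubgroup K) {x : L} (hx : IsAlgebraic K x) :
    A.valuation (σ x) = A.valuation x := by
  obtain ⟨n, hn, hfix⟩ := exists_pow_apply_eq_self (σ := σ) hx
  -- monotone chains
  have hup : A.valuation x < A.valuation (σ x) →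
      ∀ k : ℕ, A.valuation x < A.valuation ((σ ^ (k + 1)) x) := by
    intro h k
    induction k with
    | zero => simpa using h
    | succ k ih =>
      have h1 : A.valuation (σ x) < A.valuation (σ ((σ ^ (k + 1)) x)) :=
        (valuation_lt_iff_of_mem_decomp A hσ _ _).2 ih
      have h2 : σ ((σ ^ (k + 1)) x) = (σ ^ (k + 1 + 1)) x := by
        rw [pow_succ' σ (k + 1), AlgEquiv.mul_apply]
      rw [h2] at h1
      exact lt_trans h h1
  have hdown : A.valuation (σ x) < A.valuation x →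
      ∀ k : ℕ, A.valuation ((σ ^ (k + 1)) x) < A.valuation x := by
    intro h k
    induction k with
    | zero => simpa using h
    | succ k ih =>
      have h1 : A.valuation (σ ((σ ^ (k + 1)) x)) < A.valuation (σ x) :=
        (valuation_lt_iff_of_mem_decomp A hσ _ _).2 ih
      have h2 : σ ((σ ^ (k + 1)) x) = (σ ^ (k + 1 + 1)) x := by
        rw [pow_succ' σ (k + 1), AlgEquiv.mul_apply]
      rw [h2] at h1
      exact lt_trans h1 h
  obtain ⟨m, rfl⟩ : ∃ m, n = m + 1 := ⟨n - 1, by omega⟩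
  rcases lt_trichotomy (A.valuation (σ x)) (A.valuation x) with h | h | h
  · have := hdown h m
    rw [hfix] at this
    exact absurd this (lt_irrefl _)
  · exact h
  · have := hup h m
    rw [hfix] at this
    exact absurd this (lt_irrefl _)

theorem mem_decomp_of_mem_inertiaIn (A : ValuationSubring L) {σ : L ≃ₐ[K] L}
    (hσ : σ ∈ A.inertiaSubgroupIn K) : σ ∈ A.decompositionSubgroup K := by
  obtain ⟨τ, _, rfl⟩ := hσ
  exact τ.2

theorem sub_mem_nonunits_of_mem_inertiaIn (A : ValuationSubring L) {σ : L ≃ₐ[K] L}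
    (hσ : σ ∈ A.inertiaSubgroupIn K) {x : L} (hx : x ∈ A) : σ x - x ∈ A.nonunits := by
  obtain ⟨τ, hτ, rfl⟩ := hσ
  have hτ' : MulSemiringAction.toRingAut (A.decompositionSubgroup K)
      (IsLocalRing.ResidueField A) τ = 1 := hτ
  have h1 : τ • (IsLocalRing.residue A ⟨x, hx⟩) = IsLocalRing.residue A ⟨x, hx⟩ := by
    have := congrArg (fun f : RingAut (IsLocalRing.ResidueField A) =>
      f (IsLocalRing.residue A ⟨x, hx⟩)) hτ'
    simpa using this
  rw [← IsLocalRing.ResidueField.residue_smul] at h1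
  have h2 : IsLocalRing.residue A (τ • (⟨x, hx⟩ : A) - ⟨x, hx⟩) = 0 := by
    rw [map_sub, h1, sub_self]
  have h3 : (τ • (⟨x, hx⟩ : A) - ⟨x, hx⟩) ∈ IsLocalRing.maximalIdeal A :=
    (IsLocalRing.residue_eq_zero_iff _).1 h2
  have h4 := (ValuationSubring.coe_mem_nonunits_iff (A := A)).2 h3
  exact h4

end Decomp


section Integers

variable {L : Type*} [Field L] (A : ValuationSubring L)

theorem intCast_mem_vs (n : ℤ) : (n : L) ∈ A := _root_.intCast_mem A n

theorem natCast_mem_vs (n : ℕ) : (n : L) ∈ A := _root_.natCast_mem A n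

theorem valuation_intCast_le_one (n : ℤ) : A.valuation (n : L) ≤ 1 :=
  (A.valuation_le_one_iff _).2 (intCast_mem_vs A n)

theorem valuation_natCast_le_one (n : ℕ) : A.valuation (n : L) ≤ 1 :=
  (A.valuation_le_one_iff _).2 (natCast_mem_vs A n)

theorem valuation_intCast_lt_one_of_dvd {q : ℕ} (hq : A.LiesOverPrime q) {n : ℤ}
    (h : (q : ℤ) ∣ n) : A.valuation (n : L) < 1 := by
  obtain ⟨m, rfl⟩ := h
  have hq' : A.valuation (q : L) < 1 := (A.mem_nonunits_iff).1 hq
  push_cast
  rw [map_mul]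
  calc A.valuation (q : L) * A.valuation (m : L)
      ≤ A.valuation (q : L) * 1 := by
        gcongr
        exact valuation_intCast_le_one A m
    _ = A.valuation (q : L) := mul_one _
    _ < 1 := hq'

theorem valuation_intCast_eq_one_of_not_dvd {q : ℕ} (hqp : q.Prime) (hq : A.LiesOverPrime q)
    {n : ℤ} (h : ¬ (q : ℤ) ∣ n) : A.valuation (n : L) = 1 := by
  have hq' : A.valuation (q : L) < 1 := (A.mem_nonunits_iff).1 hq
  have hcop : IsCoprime (q : ℤ) n := by
    have hprime : Prime (q : ℤ) := Nat.prime_iff_prime_int.1 hqp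
    exact (Prime.coprime_iff_not_dvd hprime).2 h
  obtain ⟨u, v, huv⟩ := hcop
  have hL : (u : L) * (q : L) + (v : L) * (n : L) = 1 := by
    have := congrArg (fun z : ℤ => (z : L)) huv
    push_cast at this
    exact this
  rcases lt_or_eq_of_le (valuation_intCast_le_one A n) with hlt | heq
  · exfalso
    have h1 : A.valuation ((u : L) * (q : L)) < 1 := by
      rw [map_mul]
      calc A.valuation (u : L) * A.valuation (q : L)
          ≤ 1 * A.valuation (q : L) := by
            gcongr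
            exact valuation_intCast_le_one A u
        _ = A.valuation (q : L) := one_mul _
        _ < 1 := hq'
    have h2 : A.valuation ((v : L) * (n : L)) < 1 := by
      rw [map_mul]
      calc A.valuation (v : L) * A.valuation (n : L)
          ≤ 1 * A.valuation (n : L) := by
            gcongr
            exact valuation_intCast_le_one A v
        _ = A.valuation (n : L) := one_mul _
        _ < 1 := hlt
    have h3 : A.valuation ((u : L) * (q : L) + (v : L) * (n : L)) < 1 :=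
      lt_of_le_of_lt (A.valuation.map_add _ _) (max_lt h1 h2)
    rw [hL, map_one] at h3
    exact lt_irrefl _ h3
  · exact heq

theorem valuation_natCast_eq_one_of_not_dvd {q : ℕ} (hqp : q.Prime) (hq : A.LiesOverPrime q)
    {n : ℕ} (h : ¬ q ∣ n) : A.valuation (n : L) = 1 := by
  have := valuation_intCast_eq_one_of_not_dvd A hqp hq (n := (n : ℤ))
    (by rwa [Int.natCast_dvd_natCast])
  simpa using this

theorem valuation_prime_eq_one {q p : ℕ} (hqp : q.Prime) (hq : A.LiesOverPrime q)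
    (hp : p.Prime) (hne : q ≠ p) : A.valuation (p : L) = 1 :=
  valuation_natCast_eq_one_of_not_dvd A hqp hq
    (fun h => hne ((Nat.prime_dvd_prime_iff_eq hqp hp).1 h))

theorem valuation_two_eq_one {q : ℕ} (hqp : q.Prime) (hq : A.LiesOverPrime q)
    (hne : q ≠ 2) : A.valuation (2 : L) = 1 := by
  have := valuation_prime_eq_one A hqp hq Nat.prime_two hne
  simpa using this

end Integers

section Rat

/-- every element of `AlgebraicClosure ℚ` is algebraic over `ℚ` for the algebra structure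
used by the Prelude (`DivisionRing.toRatAlgebra`). -/
theorem isAlgebraic_algebraicClosure_rat (x : AlgebraicClosure ℚ) : IsAlgebraic ℚ x := by
  have h : (AlgebraicClosure.instAlgebra ℚ : Algebra ℚ (AlgebraicClosure ℚ)) =
      DivisionRing.toRatAlgebra := Subsingleton.elim _ _
  have hx : @IsAlgebraic ℚ (AlgebraicClosure ℚ) _ _ (AlgebraicClosure.instAlgebra ℚ) x :=
    @Algebra.IsAlgebraic.isAlgebraic ℚ (AlgebraicClosure ℚ) _ _ (AlgebraicClosure.instAlgebra ℚ)
      (AlgebraicClosure.isAlgebraic ℚ) x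
  rw [h] at hx
  exact hx

variable (A : ValuationSubring (AlgebraicClosure ℚ))
  {σ : AlgebraicClosure ℚ ≃ₐ[ℚ] AlgebraicClosure ℚ}

theorem valuation_apply_eq_of_mem_inertiaIn (hσ : σ ∈ A.inertiaSubgroupIn ℚ)
    (x : AlgebraicClosure ℚ) : A.valuation (σ x) = A.valuation x :=
  valuation_apply_eq_of_mem_decomp A (mem_decomp_of_mem_inertiaIn A hσ)
    (isAlgebraic_algebraicClosure_rat x)

theorem valuation_sub_lt_one_of_mem_inertiaIn (hσ : σ ∈ A.inertiaSubgroupIn ℚ)
    {x : AlgebraicClosure ℚ} (hx : A.valuation x ≤ 1) : A.valuation (σ x - x) < 1 :=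
  (A.mem_nonunits_iff).1
    (sub_mem_nonunits_of_mem_inertiaIn A hσ ((A.valuation_le_one_iff x).1 hx))

theorem apply_ratCast (r : ℚ) : σ (r : AlgebraicClosure ℚ) = r := map_ratCast σ r

theorem apply_intCast (n : ℤ) : σ (n : AlgebraicClosure ℚ) = n := map_intCast σ n

theorem apply_natCast (n : ℕ) : σ (n : AlgebraicClosure ℚ) = n := map_natCast σ n

end Rat

end Fermat.Agent.S05.Sq12

end
-- ===== PACK-END S05/Sq12/Inertia.lean

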