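import Fermat.Prelude.Def_ModularCurve_HeckeOperator
import Fermat.Prelude.Def_FLTPrelim_Ramification
import Fermat.Agent.Pack.S15.AE1L0
import Fermat.Agent.Pack.S15.AE1L2
import Fermat.Agent.Pack.S15.AE0L2
import Fermat.Agent.Pack.S15.AE1L1
import Fermat.Agent.Pack.S15.AE0L1

-- ===== PACK-BEGIN A2/Mod/Spec.lean
section






/-!
# WALL A2 / MOD — frozen CONCRETE leaves (architect: deputy helper994)

Level `N = M * q`, `q` prime, `q ∤ M`.  `P` a valuation subring of `Q̄` over `q`, `E ⊆ Q̄` an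
intermediate field such that `R = R_E = P ∩ E` is a discrete valuation ring with uniformiser `w`
(number field, or a finite extension of the inertia field).  `k = R / w` (automatically perfect).

* `F_N = FE E N = E(j_d : d ∣ N) ⊆ E((t))`, `j_d = j(t^d)`;
* `α = heckeAlphaBar E M q : F_M → F_N` (inclusion), `β = heckeBetaBar E M q` (`t ↦ t^q`, `j_d ↦ j_{dq}`);
* `V∞` = Gauss valuation ring of the `t`-expansion (`H708.gaussInf`, here via the predicate `IsVinf`);
* `W` = Fricke involution of `F_N` over `E` (`j_d ↦ j_{N/d}`), `V₀ := V∞.comap W`;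
* **coordinate `x := j · j_q`** (NOT `j`, NOT `j + j_q`):  `j, j_q` are integral over `ℤ[x]` and
  `1/j, 1/j_q` are integral over `ℤ[1/x]` (leaf `ChartCompat`), hence BOTH `α` and `β` map the
  level-`M` charts for the coordinate `j` (finite chart AND chart at infinity) into the level-`N`
  charts for the coordinate `x`; `x̄ = j̄^(q+1)` on `C∞`, `x̄ = j̄_q^(q+1)` on `C₀`: separable (tame)
  on both components;  `[F_N : E(x)] = 2 ψ(N) = 2 (q+1) ψ(M)`, residue degrees `ψ(N)` and `ψ(N)`.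

Every `def …Statement : Prop` below is ONE leaf: prove `theorem foo : FooStatement` in
`Fermat/Agent/A2/Mod/H<seat>/*.lean` (namespace `Fermat.Agent.A2.Mod.H<seat>`), importing this file.
The abstract pieces on main (H48 QEP2, H492 M4, H372 T-ALG, H168/H132 nodes, H296/H373/H969 normal)
turn the leaves + `GoodRedAt` (level `M`, = output of S18 b2) into helper13's `SSChart`s (MODASM).
-/

set_option autoImplicit false
set_option synthInstance.maxHeartbeats 400000
set_option maxHeartbeats 1600000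

noncomputable section

namespace Fermat.Agent.A2.Mod

open ModularCurve HahnSeries Polynomial

/-- The field `ℚ̄`. -/
abbrev Qb : Type := AlgebraicClosure ℚ

/-! ## Objects -/

section Defs

variable (P : ValuationSubring _root_.Fermat.Agent.A2.Mod.Qb) (E : IntermediateField ℚ _root_.Fermat.Agent.A2.Mod.Qb) (N : ℕ)

/-- `R_E = P ∩ E`. -/
abbrev RE : ValuationSubring E := P.comap (algebraMap E _root_.Fermat.Agent.A2.Mod.Qb)

/-- `F_{N,E} = E(j(t^d) : d ∣ N) ⊆ E((t))`. -/
abbrev FE : IntermediateField E (LaurentSeries E) :=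
  laurentBaseChange E (modularFunctionFieldFull N)

/-- The constant `r ∈ R_E` as an element of `F_{N,E}`. -/
def cE (r : _root_.Fermat.Agent.A2.Mod.RE P E) : _root_.Fermat.Agent.A2.Mod.FE E N := algebraMap E (_root_.Fermat.Agent.A2.Mod.FE E N) (r : E)

/-- The generator `j_d = j(t^d)` of `F_{N,E}`, `d ∣ N`. -/
def jE (d : ℕ) [NeZero d] (hd : d ∣ N) : _root_.Fermat.Agent.A2.Mod.FE E N :=
  ⟨coeffEmb E (qExpand ℚ d jq), coeffEmb_mem_laurentBaseChange E (jqd_mem_full N hd)⟩

/-- Evaluation of a polynomial over `R_E` at an element of `F_{N,E}`. -/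
def ev (x : _root_.Fermat.Agent.A2.Mod.FE E N) (a : Polynomial (_root_.Fermat.Agent.A2.Mod.RE P E)) : _root_.Fermat.Agent.A2.Mod.FE E N :=
  a.eval₂ ((algebraMap E (_root_.Fermat.Agent.A2.Mod.FE E N)).comp (_root_.Fermat.Agent.A2.Mod.RE P E).subtype) x

/-- `V` is the Gauss valuation ring `V∞` of `F_{N,E}` with respect to `R_E`
(`= H708.gaussInf (RE P E) (modularFunctionFieldFull N) _ _`). -/
def IsVinf (V : ValuationSubring (_root_.Fermat.Agent.A2.Mod.FE E N)) : Prop :=
  ∀ f : _root_.Fermat.Agent.A2.Mod.FE E N, f ∈ V ↔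
    H708.IsGaussInt (_root_.Fermat.Agent.A2.Mod.RE P E) (modularFunctionFieldFull N) (f : LaurentSeries E)

/-- `W` is the Fricke involution of `F_{N,E}` over `E`: `j_d ↦ j_{N/d}`. -/
def IsFricke (W : _root_.Fermat.Agent.A2.Mod.FE E N ≃ₐ[E] _root_.Fermat.Agent.A2.Mod.FE E N) : Prop :=
  (∀ (d d' : ℕ) [NeZero d] [NeZero d'] (hd : d ∣ N) (hd' : d' ∣ N), d * d' = N →
    W (jE E N d hd) = jE E N d' hd') ∧ ∀ f, W (W f) = f

/-- `f ∈ w · V`. -/
def InW (V : ValuationSubring (_root_.Fermat.Agent.A2.Mod.FE E N)) (w : _root_.Fermat.Agent.A2.Mod.RE P E) (f : _root_.Fermat.Agent.A2.Mod.FE E N) : Prop :=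
  f * (cE P E N w)⁻¹ ∈ V

/-- Residues of the family `b` are linearly independent over `k[x̄]`, in the elementwise form used
by `H48.GaussPair`: `∑ aᵢ(x) bᵢ ∈ w V ⟹ w ∣ aᵢ` for all `i`. -/
def IndepMod (V : ValuationSubring (_root_.Fermat.Agent.A2.Mod.FE E N)) (w : _root_.Fermat.Agent.A2.Mod.RE P E) (x : _root_.Fermat.Agent.A2.Mod.FE E N) {n : ℕ}
    (b : Fin n → _root_.Fermat.Agent.A2.Mod.FE E N) : Prop :=
  ∀ a : Fin n → Polynomial (_root_.Fermat.Agent.A2.Mod.RE P E),
    InW P E N V w (∑ i, ev P E N x (a i) * b i) → ∀ i, Polynomial.C w ∣ a i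

/-- The chart: elements of `F_{N,E}` integral over `R_E[x]` (as a set; `R_E[x]` = image of `ev`). -/
def chart (x : _root_.Fermat.Agent.A2.Mod.FE E N) : Set (_root_.Fermat.Agent.A2.Mod.FE E N) :=
  {f | ∃ p : Polynomial (Polynomial (_root_.Fermat.Agent.A2.Mod.RE P E)), p.Monic ∧
    p.eval₂ (Polynomial.eval₂RingHom ((algebraMap E (_root_.Fermat.Agent.A2.Mod.FE E N)).comp (_root_.Fermat.Agent.A2.Mod.RE P E).subtype) x) f = 0}

end Defs

/-! ## Standing hypotheses of all leaves -/

/-- The standing hypotheses: `q` prime, `q ∤ M`, `P` over `q`, `R_E` a DVR with uniformiser `w`. -/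
structure Setting (P : ValuationSubring _root_.Fermat.Agent.A2.Mod.Qb) (E : IntermediateField ℚ _root_.Fermat.Agent.A2.Mod.Qb) (M q : ℕ)
    (w : _root_.Fermat.Agent.A2.Mod.RE P E) : Prop where
  q_prime : q.Prime
  q_not_dvd : ¬ q ∣ M
  M_ne_zero : M ≠ 0
  lies_over : P.LiesOverPrime q
  dvr : IsDiscreteValuationRing (_root_.Fermat.Agent.A2.Mod.RE P E)
  unif : Irreducible w

section Leaves

variable (P : ValuationSubring _root_.Fermat.Agent.A2.Mod.Qb) (E : IntermediateField ℚ _root_.Fermat.Agent.A2.Mod.Qb) (M q : ℕ) [NeZero M] [NeZero q]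
  (w : _root_.Fermat.Agent.A2.Mod.RE P E)

/-- The coordinate `x = j · j_q` of level `M * q`. -/
def xE : _root_.Fermat.Agent.A2.Mod.FE E (M * q) :=
  jE E (M * q) 1 (one_dvd _) * jE E (M * q) q (dvd_mul_left q M)

/-- `α : F_M → F_{Mq}`, the inclusion. -/
abbrev αE : _root_.Fermat.Agent.A2.Mod.FE E M →ₐ[E] _root_.Fermat.Agent.A2.Mod.FE E (M * q) := heckeAlphaBar E M q

/-- `β : F_M → F_{Mq}`, `t ↦ t^q`. -/
abbrev βE : _root_.Fermat.Agent.A2.Mod.FE E M →ₐ[E] _root_.Fermat.Agent.A2.Mod.FE E (M * q) := heckeBetaBar E M q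

/-! ### L1  VINF: the Gauss valuation exists at every level (owner: helper708 / helper553) -/

/-- **L1.** The Gauss valuation ring exists (any level `N`):
`H708.gaussInf` + `H708.IntGen (modularFunctionFieldFull N)` + `attainsMax_of_isNoetherianRing`. -/
def VinfExistsStatement : Prop :=
  ∀ N : ℕ, N ≠ 0 → IsDiscreteValuationRing (_root_.Fermat.Agent.A2.Mod.RE P E) →
    ∃ V : ValuationSubring (_root_.Fermat.Agent.A2.Mod.FE E N), IsVinf P E N V

/-- **L2.** `w` is a uniformiser of `V∞`, `V∞ ∩ E = R_E`, and the generators `j_d` are units. -/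
def VinfBasicStatement : Prop :=
  ∀ N : ℕ, N ≠ 0 → IsDiscreteValuationRing (_root_.Fermat.Agent.A2.Mod.RE P E) → Irreducible w →
    ∀ V : ValuationSubring (_root_.Fermat.Agent.A2.Mod.FE E N), IsVinf P E N V →
      H48.IsUnif V (cE P E N w) ∧
      (∀ e : E, algebraMap E (_root_.Fermat.Agent.A2.Mod.FE E N) e ∈ V ↔ e ∈ _root_.Fermat.Agent.A2.Mod.RE P E) ∧
      ∀ (d : ℕ) [NeZero d] (hd : d ∣ N), jE E N d hd ∈ V ∧ (jE E N d hd)⁻¹ ∈ V

/-- **L3.** Gauss property for every "polar" element: if `u ∈ F_N` is the image of an `R`-integral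
series `t^{-a}(c + …)`, `a > 0`, `c` a unit of `R`, then every `p ∈ R[X]` not divisible by `w`
gives a unit `p(u)` of `V∞`.  (Applied to `u = x`, `W x`, and with `V∞ ∋ u⁻¹`.) -/
def VinfGaussStatement : Prop :=
  ∀ N : ℕ, N ≠ 0 → IsDiscreteValuationRing (_root_.Fermat.Agent.A2.Mod.RE P E) → Irreducible w →
    ∀ V : ValuationSubring (_root_.Fermat.Agent.A2.Mod.FE E N), IsVinf P E N V →
    ∀ (u : _root_.Fermat.Agent.A2.Mod.FE E N) (U : LaurentSeries (_root_.Fermat.Agent.A2.Mod.RE P E)) (a : ℕ), 0 < a →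
      (u : LaurentSeries E) = H708.incl (_root_.Fermat.Agent.A2.Mod.RE P E) U →
      (∀ n : ℤ, n < -(a : ℤ) → U.coeff n = 0) → IsUnit (U.coeff (-(a : ℤ))) →
      ∀ p : Polynomial (_root_.Fermat.Agent.A2.Mod.RE P E), ¬ Polynomial.C w ∣ p →
        ev P E N u p ∈ V ∧ (ev P E N u p)⁻¹ ∈ V

/-! ### L4  W: the Fricke involution at level `E` (from H528 `wF`, `wF_rat` over `Q̄`) -/

/-- **L4.** The Fricke involution exists over `E` (restrict `H528.wF` to `E(j_d : d ∣ N)`). -/
def FrickeExistsStatement : Prop :=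
  ∀ N : ℕ, N ≠ 0 → ∃ W : _root_.Fermat.Agent.A2.Mod.FE E N ≃ₐ[E] _root_.Fermat.Agent.A2.Mod.FE E N, IsFricke E N W

/-- **L5.** Compatibility of Fricke involutions of levels `M` and `Mq` with `α`, `β`:
`W_N ∘ α = β ∘ W_M` and `W_N ∘ β = α ∘ W_M`. -/
def FrickeCompatStatement : Prop :=
  ∀ (WM : _root_.Fermat.Agent.A2.Mod.FE E M ≃ₐ[E] _root_.Fermat.Agent.A2.Mod.FE E M) (WN : _root_.Fermat.Agent.A2.Mod.FE E (M * q) ≃ₐ[E] _root_.Fermat.Agent.A2.Mod.FE E (M * q)),
    IsFricke E M WM → IsFricke E (M * q) WN →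
    ∀ f : _root_.Fermat.Agent.A2.Mod.FE E M, WN (αE E M q f) = βE E M q (WM f) ∧ WN (βE E M q f) = αE E M q (WM f)

/-- **L6.** `V₀ := V∞ ∘ W ≠ V∞` at level `Mq` (level-`E` form of `H528.comapW_ne`). -/
def VzeroNeStatement : Prop :=
  Setting P E M q w →
    ∀ (V : ValuationSubring (_root_.Fermat.Agent.A2.Mod.FE E (M * q))) (W : _root_.Fermat.Agent.A2.Mod.FE E (M * q) ≃ₐ[E] _root_.Fermat.Agent.A2.Mod.FE E (M * q)),
      IsVinf P E (M * q) V → IsFricke E (M * q) W →
      V.comap (W : _root_.Fermat.Agent.A2.Mod.FE E (M * q) →+* _root_.Fermat.Agent.A2.Mod.FE E (M * q)) ≠ V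

/-- **L7.** At level `M` (good reduction) the Fricke involution preserves `V∞`
(uniqueness of the extension of the Gauss valuation of `E(j)`: residue degree `ψ(M)` = degree). -/
def FrickeStableStatement : Prop :=
  Setting P E M q w →
    ∀ (V : ValuationSubring (_root_.Fermat.Agent.A2.Mod.FE E M)) (W : _root_.Fermat.Agent.A2.Mod.FE E M ≃ₐ[E] _root_.Fermat.Agent.A2.Mod.FE E M),
      IsVinf P E M V → IsFricke E M W → ∀ f ∈ V, W f ∈ V

/-! ### L8–L10  degrees and residue independence (from `S28.CoreData M k`, on main) -/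

/-- **L8.** `[F_{Mq} : E(x)] = 2 (q+1) ψ(M)`, `x` transcendental over `E`,
and `E` is algebraically closed in `F_{Mq}`. -/
def DegStatement : Prop :=
  q.Prime → ¬ q ∣ M →
    Transcendental E (xE E M q) ∧
    Module.finrank (IntermediateField.adjoin E ({xE E M q} : Set (_root_.Fermat.Agent.A2.Mod.FE E (M * q))))
      (_root_.Fermat.Agent.A2.Mod.FE E (M * q)) = 2 * ((q + 1) * dedekindPsi M) ∧
    ∀ f : _root_.Fermat.Agent.A2.Mod.FE E (M * q), IsAlgebraic E f → f ∈ (algebraMap E (_root_.Fermat.Agent.A2.Mod.FE E (M * q))).range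

/-- **L9.** Residue independence on `C∞`: there are `(q+1) ψ(M)` elements of `α(V∞_M)·j^a`
(`bᵢ = α(yᵢ) j^a`, `yᵢ` the `ψ(M)` monomials of `S28.CoreData M k`, `0 ≤ a ≤ q`) in `V∞`
whose residues are independent over `k[x̄]`, `x̄ = j̄^(q+1)`. -/
def IndInfStatement : Prop :=
  Setting P E M q w →
    ∀ V : ValuationSubring (_root_.Fermat.Agent.A2.Mod.FE E (M * q)), IsVinf P E (M * q) V →
      ∃ b : Fin ((q + 1) * dedekindPsi M) → _root_.Fermat.Agent.A2.Mod.FE E (M * q),
        (∀ i, b i ∈ V) ∧ IndepMod P E (M * q) V w (xE E M q) b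

/-- **L10.** Residue independence on `C₀`: the same for `V₀ = V∞ ∘ W`
(`cᵢ = β(yᵢ') j_q^a`; apply `W` and use L7 at level `M`). -/
def IndZeroStatement : Prop :=
  Setting P E M q w →
    ∀ (V : ValuationSubring (_root_.Fermat.Agent.A2.Mod.FE E (M * q))) (W : _root_.Fermat.Agent.A2.Mod.FE E (M * q) ≃ₐ[E] _root_.Fermat.Agent.A2.Mod.FE E (M * q)),
      IsVinf P E (M * q) V → IsFricke E (M * q) W →
      ∃ c : Fin ((q + 1) * dedekindPsi M) → _root_.Fermat.Agent.A2.Mod.FE E (M * q),
        (∀ i, W (c i) ∈ V) ∧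
        IndepMod P E (M * q) (V.comap (W : _root_.Fermat.Agent.A2.Mod.FE E (M * q) →+* _root_.Fermat.Agent.A2.Mod.FE E (M * q))) w (xE E M q) c

/-! ### L11–L12  residue fields and Kronecker (semilinear form, `k` perfect) -/

/-- **L11.** Residue degree one over level `M` on `C∞`: every element of `V∞` (level `Mq`) is
congruent modulo `w V∞` to `α g`, `g ∈ V∞_M`. -/
def ResInfStatement : Prop :=
  Setting P E M q w →
    ∀ (VM : ValuationSubring (_root_.Fermat.Agent.A2.Mod.FE E M)) (V : ValuationSubring (_root_.Fermat.Agent.A2.Mod.FE E (M * q))),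
      IsVinf P E M VM → IsVinf P E (M * q) V →
      ∀ f ∈ V, ∃ g ∈ VM, InW P E (M * q) V w (f - αE E M q g)

/-- **L12.** Kronecker congruence, semilinear form: for `a ∈ V∞_M` there is `a' ∈ V∞_M`
(`ā' = ā` with coefficients twisted by the inverse Frobenius of `k`) with
`β a ≡ (α a')^q mod w V∞`.  (On `C₀` the swapped congruence follows from L5 and L7.) -/
def KronStatement : Prop :=
  Setting P E M q w →
    ∀ (VM : ValuationSubring (_root_.Fermat.Agent.A2.Mod.FE E M)) (V : ValuationSubring (_root_.Fermat.Agent.A2.Mod.FE E (M * q))),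
      IsVinf P E M VM → IsVinf P E (M * q) V →
      ∀ a ∈ VM, ∃ a' ∈ VM, InW P E (M * q) V w (βE E M q a - (αE E M q a') ^ q)

/-! ### L13  chart compatibility (from `S28.ModPolyData q`, on main) -/

/-- **L13.** `j, j_q` are integral over `ℤ[x]` and `1/j, 1/j_q` are integral over `ℤ[1/x]`,
`x = j j_q` (monicity of `Φ_q` in each variable suffices). -/
def ChartCompatStatement : Prop :=
  q.Prime →
    (jE E (M * q) 1 (one_dvd _) ∈ chart P E (M * q) (xE E M q)) ∧
    (jE E (M * q) q (dvd_mul_left q M) ∈ chart P E (M * q) (xE E M q)) ∧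
    ((jE E (M * q) 1 (one_dvd _))⁻¹ ∈ chart P E (M * q) (xE E M q)⁻¹) ∧
    ((jE E (M * q) q (dvd_mul_left q M))⁻¹ ∈ chart P E (M * q) (xE E M q)⁻¹)

/-! ### L14  inertia acts trivially on both residue fields -/

/-- The restriction to `E` of an automorphism of `Q̄` stabilising `E`. -/
def resE (τ : _root_.Fermat.Agent.A2.Mod.Qb ≃ₐ[ℚ] _root_.Fermat.Agent.A2.Mod.Qb) (hτ : ∀ e : _root_.Fermat.Agent.A2.Mod.Qb, e ∈ E → τ e ∈ E ∧ τ.symm e ∈ E) : E ≃ₐ[ℚ] E :=
  AlgEquiv.ofBijective
    { toFun := fun e => ⟨τ (e : _root_.Fermat.Agent.A2.Mod.Qb), (hτ e e.2).1⟩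
      map_one' := Subtype.ext (map_one τ)
      map_mul' := fun a b => Subtype.ext (map_mul τ (a : _root_.Fermat.Agent.A2.Mod.Qb) (b : _root_.Fermat.Agent.A2.Mod.Qb))
      map_zero' := Subtype.ext (map_zero τ)
      map_add' := fun a b => Subtype.ext (map_add τ (a : _root_.Fermat.Agent.A2.Mod.Qb) (b : _root_.Fermat.Agent.A2.Mod.Qb))
      commutes' := fun r => Subtype.ext (τ.commutes r) }
    ⟨fun a b hab => Subtype.ext (τ.injective (congrArg Subtype.val hab)),
      fun b => ⟨⟨τ.symm (b : _root_.Fermat.Agent.A2.Mod.Qb), (hτ b b.2).2⟩, Subtype.ext (τ.apply_symm_apply (b : _root_.Fermat.Agent.A2.Mod.Qb))⟩⟩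

/-- **L14.** For `τ` in the inertia group of `P` stabilising `E`: `τ` stabilises `V∞` and `V₀`,
acts trivially on both residue fields, and commutes with `W`. -/
def InertiaStatement : Prop :=
  ∀ N : ℕ, N ≠ 0 → IsDiscreteValuationRing (_root_.Fermat.Agent.A2.Mod.RE P E) → Irreducible w →
    ∀ (V : ValuationSubring (_root_.Fermat.Agent.A2.Mod.FE E N)) (W : _root_.Fermat.Agent.A2.Mod.FE E N ≃ₐ[E] _root_.Fermat.Agent.A2.Mod.FE E N),
      IsVinf P E N V → IsFricke E N W →
      ∀ (τ : _root_.Fermat.Agent.A2.Mod.Qb ≃ₐ[ℚ] _root_.Fermat.Agent.A2.Mod.Qb) (hτ : ∀ e : _root_.Fermat.Agent.A2.Mod.Qb, e ∈ E → τ e ∈ E ∧ τ.symm e ∈ E),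
        τ ∈ P.inertiaSubgroupIn ℚ →
        (∀ f : _root_.Fermat.Agent.A2.Mod.FE E N, arithmeticRingAut (modularFunctionFieldFull N) (resE E τ hτ) (W f) =
          W (arithmeticRingAut (modularFunctionFieldFull N) (resE E τ hτ) f)) ∧
        ∀ f ∈ V, InW P E N V w
          (arithmeticRingAut (modularFunctionFieldFull N) (resE E τ hτ) f - f)

/-! ### HYPOTHESIS at level `M` (output of S18 b2 — NOT a leaf of MOD) -/

/-- **Good reduction at level `M`** in the chart of the coordinate `y` (`y = j` and `y = j⁻¹`),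
elementwise: (qep) `B_M ∩ w V∞ = w B_M`; (normal) the image of `B_M` in the residue field of `V∞`
is integrally closed in it, i.e. `B_M / w B_M` is a normal domain with fraction field `κ(V∞)`. -/
structure GoodRedAt (VM : ValuationSubring (_root_.Fermat.Agent.A2.Mod.FE E M)) (y : _root_.Fermat.Agent.A2.Mod.FE E M) : Prop where
  qep : ∀ b ∈ chart P E M y, InW P E M VM w b → b * (cE P E M w)⁻¹ ∈ chart P E M y
  normal : ∀ f ∈ VM,
    (∃ (n : ℕ) (c : Fin n → _root_.Fermat.Agent.A2.Mod.FE E M), (∀ i, c i ∈ chart P E M y) ∧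
      InW P E M VM w (f ^ n + ∑ i : Fin n, c i * f ^ (i : ℕ))) →
    ∃ b ∈ chart P E M y, InW P E M VM w (f - b)

end Leaves

end Fermat.Agent.A2.Mod

end

end
-- ===== PACK-END A2/Mod/Spec.lean

-- ===== PACK-BEGIN A2/Mod/Asm.lean
section



/-!
# WALL A2 / MODASM — sub-assemblies and the top assembly (row-lead helper13)

`Fermat/Agent/A2/Mod/Spec.lean` (deputy helper994) freezes the concrete leaves L1–L14 and the
level-`M` hypothesis `GoodRedAt`.  This file freezes the five SUB-ASSEMBLIES which turn the leaves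
into the fields of `ModSSData` (`ModDefs.lean`), and proves the top assembly
`modSSData_of_parts` (sorry-free).

Objects (level `N = M * q`, coordinate `x = j · j_q`):

* `chartAlg P E N y` : the chart of the coordinate `y` as a subalgebra
  (`Bf = chartAlg x`, `Bi = chartAlg x⁻¹`);
* `IsCut P E N w V B p` : `p = B ∩ w V` (the component of the special fibre of `B` cut out by
  the valuation ring `V`).

Sub-assemblies (each ONE `Prop`; prove `theorem foo : FooStatement P E M q w` in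
`Fermat/Agent/A2/Mod/H<seat>/*.lean`):

* `S1Statement` (two components): for `y ∈ {x, x⁻¹}` there are primes `p∞ = B ∩ w V∞`,
  `p₀ = B ∩ w V₀`, incomparable, with `p∞ ⊓ p₀ = (w)`.
  [H48 `GaussPair.qep2` from L2, L3, L6, L8, L9, L10; incomparability from `H48.exists_approx`.]
* `S2Statement` (components normal): `B ⧸ p∞`, `B ⧸ p₀` are integrally closed.
  [M4: L11, L13, `GoodRedAt`; `B = α(B_M) + p∞`, `B = β(B_M) + p₀` (L5, L7 for the second).
  NOTE: at infinity `B` is integral over `α(B_M)` only MODULO `p∞` (`1/j_q ≡ (1/j)^q`).]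
* `S3Statement` (ordinary double points): `(p∞ ⊔ p₀).IsRadical`.
  [H372 `KronCong.sup_isRadical_of_isDedekindDomain` from L12 (+ L5, L7), S2.]
* `S4Statement` (`SepCoord`, ROUTE G ONLY).
* `StauStatement` (inertia): `τ x = x`, `τ b - b ∈ w B` on both charts.  [L14 + S1.]
-/

set_option autoImplicit false
set_option linter.unusedSectionVars false
set_option synthInstance.maxHeartbeats 400000
set_option maxHeartbeats 1600000

noncomputable section

namespace Fermat.Agent.A2.Mod

open ModularCurve HahnSeries Polynomial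

section Objects

variable (P : ValuationSubring _root_.Fermat.Agent.A2.Mod.Qb) (E : IntermediateField ℚ _root_.Fermat.Agent.A2.Mod.Qb) (N : ℕ)

/-- The chart of the coordinate `y` as a subalgebra of `F_{N,E}`: the integral closure of
`R_E[y]`. -/
def chartAlg (y : _root_.Fermat.Agent.A2.Mod.FE E N) : Subalgebra (_root_.Fermat.Agent.A2.Mod.RE P E) (_root_.Fermat.Agent.A2.Mod.FE E N) :=
  (integralClosure (Algebra.adjoin (_root_.Fermat.Agent.A2.Mod.RE P E) ({y} : Set (_root_.Fermat.Agent.A2.Mod.FE E N))) (_root_.Fermat.Agent.A2.Mod.FE E N)).restrictScalars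
    (_root_.Fermat.Agent.A2.Mod.RE P E)

theorem mem_chartAlg {y f : _root_.Fermat.Agent.A2.Mod.FE E N} :
    f ∈ chartAlg P E N y ↔ IsIntegral (Algebra.adjoin (_root_.Fermat.Agent.A2.Mod.RE P E) ({y} : Set (_root_.Fermat.Agent.A2.Mod.FE E N))) f :=
  Iff.rfl

/-- `p = B ∩ w V`. -/
def IsCut (w : _root_.Fermat.Agent.A2.Mod.RE P E) (V : ValuationSubring (_root_.Fermat.Agent.A2.Mod.FE E N)) (B : Subalgebra (_root_.Fermat.Agent.A2.Mod.RE P E) (_root_.Fermat.Agent.A2.Mod.FE E N))
    (p : Ideal B) : Prop :=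
  ∀ b : B, b ∈ p ↔ InW P E N V w (b : _root_.Fermat.Agent.A2.Mod.FE E N)

end Objects

section SubAssemblies

variable (P : ValuationSubring _root_.Fermat.Agent.A2.Mod.Qb) (E : IntermediateField ℚ _root_.Fermat.Agent.A2.Mod.Qb) (M q : ℕ) [NeZero M] [NeZero q]
  (w : _root_.Fermat.Agent.A2.Mod.RE P E)

/-- `y` is one of the two coordinates `x`, `x⁻¹` of level `M * q`. -/
def IsCoord (y : _root_.Fermat.Agent.A2.Mod.FE E (M * q)) : Prop := y = xE E M q ∨ y = (xE E M q)⁻¹

/-- The level-`M` coordinate attached to a level-`Mq` coordinate: `j` for `x`, `j⁻¹` for `x⁻¹`. -/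
def IsCoordPair (yM : _root_.Fermat.Agent.A2.Mod.FE E M) (y : _root_.Fermat.Agent.A2.Mod.FE E (M * q)) : Prop :=
  (yM = jE E M 1 (one_dvd _) ∧ y = xE E M q) ∨
    (yM = (jE E M 1 (one_dvd _))⁻¹ ∧ y = (xE E M q)⁻¹)

/-- **S1 (two components).** -/
def S1Statement : Prop :=
  Setting P E M q w →
    ∀ (V : ValuationSubring (_root_.Fermat.Agent.A2.Mod.FE E (M * q))) (W : _root_.Fermat.Agent.A2.Mod.FE E (M * q) ≃ₐ[E] _root_.Fermat.Agent.A2.Mod.FE E (M * q)),
      IsVinf P E (M * q) V → IsFricke E (M * q) W →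
      ∀ y : _root_.Fermat.Agent.A2.Mod.FE E (M * q), IsCoord E M q y →
        ∃ p₁ p₂ : Ideal (chartAlg P E (M * q) y),
          IsCut P E (M * q) w V (chartAlg P E (M * q) y) p₁ ∧
          IsCut P E (M * q) w (V.comap (W : _root_.Fermat.Agent.A2.Mod.FE E (M * q) →+* _root_.Fermat.Agent.A2.Mod.FE E (M * q)))
            (chartAlg P E (M * q) y) p₂ ∧
          p₁.IsPrime ∧ p₂.IsPrime ∧ ¬ p₁ ≤ p₂ ∧ ¬ p₂ ≤ p₁ ∧
          p₁ ⊓ p₂ = Ideal.span {algebraMap (_root_.Fermat.Agent.A2.Mod.RE P E) (chartAlg P E (M * q) y) w}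

/-- **S2 (components normal)**, given good reduction at level `M` in the corresponding chart. -/
def S2Statement : Prop :=
  Setting P E M q w →
    ∀ (VM : ValuationSubring (_root_.Fermat.Agent.A2.Mod.FE E M)) (V : ValuationSubring (_root_.Fermat.Agent.A2.Mod.FE E (M * q)))
      (W : _root_.Fermat.Agent.A2.Mod.FE E (M * q) ≃ₐ[E] _root_.Fermat.Agent.A2.Mod.FE E (M * q)),
      IsVinf P E M VM → IsVinf P E (M * q) V → IsFricke E (M * q) W →
      ∀ (yM : _root_.Fermat.Agent.A2.Mod.FE E M) (y : _root_.Fermat.Agent.A2.Mod.FE E (M * q)), IsCoordPair E M q yM y →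
        GoodRedAt P E M w VM yM →
        ∀ p₁ p₂ : Ideal (chartAlg P E (M * q) y),
          IsCut P E (M * q) w V (chartAlg P E (M * q) y) p₁ →
          IsCut P E (M * q) w (V.comap (W : _root_.Fermat.Agent.A2.Mod.FE E (M * q) →+* _root_.Fermat.Agent.A2.Mod.FE E (M * q)))
            (chartAlg P E (M * q) y) p₂ →
          IsIntegrallyClosed (chartAlg P E (M * q) y ⧸ p₁) ∧
          IsIntegrallyClosed (chartAlg P E (M * q) y ⧸ p₂)

/-- **S3 (ordinary double points)**, given good reduction at level `M`. -/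
def S3Statement : Prop :=
  Setting P E M q w →
    ∀ (VM : ValuationSubring (_root_.Fermat.Agent.A2.Mod.FE E M)) (V : ValuationSubring (_root_.Fermat.Agent.A2.Mod.FE E (M * q)))
      (W : _root_.Fermat.Agent.A2.Mod.FE E (M * q) ≃ₐ[E] _root_.Fermat.Agent.A2.Mod.FE E (M * q)),
      IsVinf P E M VM → IsVinf P E (M * q) V → IsFricke E (M * q) W →
      ∀ (yM : _root_.Fermat.Agent.A2.Mod.FE E M) (y : _root_.Fermat.Agent.A2.Mod.FE E (M * q)), IsCoordPair E M q yM y →
        GoodRedAt P E M w VM yM →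
        ∀ p₁ p₂ : Ideal (chartAlg P E (M * q) y),
          IsCut P E (M * q) w V (chartAlg P E (M * q) y) p₁ →
          IsCut P E (M * q) w (V.comap (W : _root_.Fermat.Agent.A2.Mod.FE E (M * q) →+* _root_.Fermat.Agent.A2.Mod.FE E (M * q)))
            (chartAlg P E (M * q) y) p₂ →
          (p₁ ⊔ p₂).IsRadical

/-- **S4 (separating coordinate; route G only).** -/
def S4Statement : Prop :=
  Setting P E M q w →
    ∀ (VM : ValuationSubring (_root_.Fermat.Agent.A2.Mod.FE E M)), IsVinf P E M VM →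
      GoodRedAt P E M w VM (jE E M 1 (one_dvd _)) →
      GoodRedAt P E M w VM (jE E M 1 (one_dvd _))⁻¹ →
      SepCoord (_root_.Fermat.Agent.A2.Mod.RE P E) E (xE E M q) (chartAlg P E (M * q) (xE E M q)) ∧
        SepCoord (_root_.Fermat.Agent.A2.Mod.RE P E) E (xE E M q)⁻¹ (chartAlg P E (M * q) (xE E M q)⁻¹)

/-- **Sτ (inertia acts trivially on the special fibre of both charts).** -/
def StauStatement : Prop :=
  Setting P E M q w →
    ∀ (τ : _root_.Fermat.Agent.A2.Mod.Qb ≃ₐ[ℚ] _root_.Fermat.Agent.A2.Mod.Qb) (τE : E ≃ₐ[ℚ] E), τ ∈ P.inertiaSubgroupIn ℚ →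
      (∀ e : E, ((τE e : E) : _root_.Fermat.Agent.A2.Mod.Qb) = τ (e : _root_.Fermat.Agent.A2.Mod.Qb)) →
      arithmeticRingAut (modularFunctionFieldFull (M * q)) τE (xE E M q) = xE E M q ∧
      ∀ y : _root_.Fermat.Agent.A2.Mod.FE E (M * q), IsCoord E M q y → ∀ b ∈ chartAlg P E (M * q) y,
        ∃ c ∈ chartAlg P E (M * q) y,
          arithmeticRingAut (modularFunctionFieldFull (M * q)) τE b - b =
            algebraMap (_root_.Fermat.Agent.A2.Mod.RE P E) (_root_.Fermat.Agent.A2.Mod.FE E (M * q)) w * c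

end SubAssemblies

section Top

variable (P : ValuationSubring _root_.Fermat.Agent.A2.Mod.Qb) (E : IntermediateField ℚ _root_.Fermat.Agent.A2.Mod.Qb) (M q : ℕ) [NeZero M] [NeZero q]

/-- The level-`M` hypothesis of MODASM (output of S18 b2): good reduction at level `M` in the
two charts of the coordinate `j`. -/
def GoodRedHyp : Prop :=
  ∀ (w : _root_.Fermat.Agent.A2.Mod.RE P E) (VM : ValuationSubring (_root_.Fermat.Agent.A2.Mod.FE E M)), Irreducible w → IsVinf P E M VM →
    GoodRedAt P E M w VM (jE E M 1 (one_dvd _)) ∧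
      GoodRedAt P E M w VM (jE E M 1 (one_dvd _))⁻¹

/-- The semistable chart `SSChart w (chartAlg y)` from S1, S2, S3. -/
theorem nonempty_ssChart (w : _root_.Fermat.Agent.A2.Mod.RE P E) (hS : Setting P E M q w)
    (hS1 : S1Statement P E M q w) (hS2 : S2Statement P E M q w) (hS3 : S3Statement P E M q w)
    (VM : ValuationSubring (_root_.Fermat.Agent.A2.Mod.FE E M)) (V : ValuationSubring (_root_.Fermat.Agent.A2.Mod.FE E (M * q)))
    (W : _root_.Fermat.Agent.A2.Mod.FE E (M * q) ≃ₐ[E] _root_.Fermat.Agent.A2.Mod.FE E (M * q))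
    (hVM : IsVinf P E M VM) (hV : IsVinf P E (M * q) V) (hW : IsFricke E (M * q) W)
    (yM : _root_.Fermat.Agent.A2.Mod.FE E M) (y : _root_.Fermat.Agent.A2.Mod.FE E (M * q)) (hy : IsCoordPair E M q yM y)
    (hgood : GoodRedAt P E M w VM yM) :
    Nonempty (SSChart w (chartAlg P E (M * q) y)) := by
  have hy' : IsCoord E M q y := by
    rcases hy with ⟨-, h⟩ | ⟨-, h⟩
    · exact Or.inl h
    · exact Or.inr h
  obtain ⟨p₁, p₂, hc₁, hc₂, hp₁, hp₂, h₁₂, h₂₁, hinf⟩ := hS1 hS V W hV hW y hy'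
  obtain ⟨hn₁, hn₂⟩ := hS2 hS VM V W hVM hV hW yM y hy hgood p₁ p₂ hc₁ hc₂
  have hrad := hS3 hS VM V W hVM hV hW yM y hy hgood p₁ p₂ hc₁ hc₂
  exact ⟨{ p₁ := p₁
           p₂ := p₂
           prime₁ := hp₁
           prime₂ := hp₂
           ne := fun h => h₁₂ (h ▸ le_refl p₁)
           not_le₁₂ := h₁₂
           not_le₂₁ := h₂₁
           inf_eq := hinf
           normal₁ := hn₁
           normal₂ := hn₂
           transversal := hrad }⟩

theorem dedekindPsi_pos_of_ne_zero (n : ℕ) (hn : n ≠ 0) : 0 < dedekindPsi n := by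
  unfold dedekindPsi
  have h1 : (1 : ℕ) ∈ n.divisors.filter (fun d => Squarefree d) := by
    simp [hn]
  calc 0 < n / 1 := by simpa using Nat.pos_of_ne_zero hn
    _ ≤ _ := Finset.single_le_sum (f := fun d => n / d) (fun _ _ => Nat.zero_le _) h1

/-- **MODASM, top assembly** (level `M * q`): the leaves L1, L4, L8, the sub-assemblies S1–S4,
Sτ and the level-`M` hypothesis `GoodRedHyp` give the semistable model `ModSSData`. -/
theorem modSSData_of_parts (hq : q.Prime) (hqM : ¬ q ∣ M) (hP : P.LiesOverPrime q)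
    (hdvr : IsDiscreteValuationRing (_root_.Fermat.Agent.A2.Mod.RE P E))
    (hVM : ∃ VM : ValuationSubring (_root_.Fermat.Agent.A2.Mod.FE E M), IsVinf P E M VM)
    (hV : ∃ V : ValuationSubring (_root_.Fermat.Agent.A2.Mod.FE E (M * q)), IsVinf P E (M * q) V)
    (hW : ∃ W : _root_.Fermat.Agent.A2.Mod.FE E (M * q) ≃ₐ[E] _root_.Fermat.Agent.A2.Mod.FE E (M * q), IsFricke E (M * q) W)
    (hDeg : DegStatement E M q)
    (hS1 : ∀ w, S1Statement P E M q w) (hS2 : ∀ w, S2Statement P E M q w)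
    (hS3 : ∀ w, S3Statement P E M q w) (hS4 : ∀ w, S4Statement P E M q w)
    (hSτ : ∀ w, StauStatement P E M q w)
    (hgood : GoodRedHyp P E M) :
    Nonempty (ModSSData P E (M * q)) := by
  obtain ⟨VM, hVM⟩ := hVM
  obtain ⟨V, hV⟩ := hV
  obtain ⟨W, hW⟩ := hW
  obtain ⟨hx, hfr, hconst⟩ := hDeg hq hqM
  have hS : ∀ w : _root_.Fermat.Agent.A2.Mod.RE P E, Irreducible w → Setting P E M q w := fun w hw =>
    { q_prime := hq
      q_not_dvd := hqM
      M_ne_zero := NeZero.ne M
      lies_over := hP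
      dvr := hdvr
      unif := hw }
  obtain ⟨w₀, hw₀⟩ := IsDiscreteValuationRing.exists_irreducible (_root_.Fermat.Agent.A2.Mod.RE P E)
  have hpos : 0 < Module.finrank (IntermediateField.adjoin E ({xE E M q} : Set (_root_.Fermat.Agent.A2.Mod.FE E (M * q))))
      (_root_.Fermat.Agent.A2.Mod.FE E (M * q)) := by
    rw [hfr]
    have h1 := dedekindPsi_pos_of_ne_zero M (NeZero.ne M)
    positivity
  have hfin : FiniteDimensional (IntermediateField.adjoin E ({xE E M q} : Set (_root_.Fermat.Agent.A2.Mod.FE E (M * q))))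
      (_root_.Fermat.Agent.A2.Mod.FE E (M * q)) := Module.finite_of_finrank_pos hpos
  have hg₀ := hgood w₀ VM hw₀ hVM
  have hsep := hS4 w₀ (hS w₀ hw₀) VM hVM hg₀.1 hg₀.2
  exact ⟨{ x := xE E M q
           hx := hx
           hfin := hfin
           hconst := hconst
           Bf := chartAlg P E (M * q) (xE E M q)
           Bi := chartAlg P E (M * q) (xE E M q)⁻¹
           hBf := fun _ => Iff.rfl
           hBi := fun _ => Iff.rfl
           cf := fun w hw => nonempty_ssChart P E M q w (hS w hw) (hS1 w) (hS2 w) (hS3 w)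
             VM V W hVM hV hW _ _ (Or.inl ⟨rfl, rfl⟩) (hgood w VM hw hVM).1
           ci := fun w hw => nonempty_ssChart P E M q w (hS w hw) (hS1 w) (hS2 w) (hS3 w)
             VM V W hVM hV hW _ _ (Or.inr ⟨rfl, rfl⟩) (hgood w VM hw hVM).2
           sf := hsep.1
           si := hsep.2
           hτx := fun hE τ hτ => ((hSτ w₀) (hS w₀ hw₀) τ (hE.res τ hτ) hτ (fun _ => rfl)).1
           hτf := fun hE τ hτ w hw b hb =>
             ((hSτ w) (hS w hw) τ (hE.res τ hτ) hτ (fun _ => rfl)).2 _ (Or.inl rfl) b hb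
           hτi := fun hE τ hτ w hw b hb =>
             ((hSτ w) (hS w hw) τ (hE.res τ hτ) hτ (fun _ => rfl)).2 _ (Or.inr rfl) b hb }⟩

/-- **MODASM, top assembly without `SepCoord`** (route S; shape of the hypothesis `hMOD` of
`T1.H849.kummerTarget_of_parts_of` with `SS := SSChart`, `Sep := True`). -/
theorem exists_model_of_parts (hq : q.Prime) (hqM : ¬ q ∣ M) (hP : P.LiesOverPrime q)
    (hdvr : IsDiscreteValuationRing (_root_.Fermat.Agent.A2.Mod.RE P E))
    (hVM : ∃ VM : ValuationSubring (_root_.Fermat.Agent.A2.Mod.FE E M), IsVinf P E M VM)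
    (hV : ∃ V : ValuationSubring (_root_.Fermat.Agent.A2.Mod.FE E (M * q)), IsVinf P E (M * q) V)
    (hW : ∃ W : _root_.Fermat.Agent.A2.Mod.FE E (M * q) ≃ₐ[E] _root_.Fermat.Agent.A2.Mod.FE E (M * q), IsFricke E (M * q) W)
    (hDeg : DegStatement E M q)
    (hS1 : ∀ w, S1Statement P E M q w) (hS2 : ∀ w, S2Statement P E M q w)
    (hS3 : ∀ w, S3Statement P E M q w) (hSτ : ∀ w, StauStatement P E M q w)
    (hgood : GoodRedHyp P E M) :
    ∃ (x : _root_.Fermat.Agent.A2.Mod.FE E (M * q)) (Bf Bi : Subalgebra (_root_.Fermat.Agent.A2.Mod.RE P E) (_root_.Fermat.Agent.A2.Mod.FE E (M * q))),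
      Transcendental E x ∧
      FiniteDimensional (IntermediateField.adjoin E ({x} : Set (_root_.Fermat.Agent.A2.Mod.FE E (M * q)))) (_root_.Fermat.Agent.A2.Mod.FE E (M * q)) ∧
      (∀ f : _root_.Fermat.Agent.A2.Mod.FE E (M * q), IsAlgebraic E f → f ∈ (algebraMap E (_root_.Fermat.Agent.A2.Mod.FE E (M * q))).range) ∧
      (∀ f : _root_.Fermat.Agent.A2.Mod.FE E (M * q), f ∈ Bf ↔
        IsIntegral (Algebra.adjoin (_root_.Fermat.Agent.A2.Mod.RE P E) ({x} : Set (_root_.Fermat.Agent.A2.Mod.FE E (M * q)))) f) ∧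
      (∀ f : _root_.Fermat.Agent.A2.Mod.FE E (M * q), f ∈ Bi ↔
        IsIntegral (Algebra.adjoin (_root_.Fermat.Agent.A2.Mod.RE P E) ({x⁻¹} : Set (_root_.Fermat.Agent.A2.Mod.FE E (M * q)))) f) ∧
      (∀ w : _root_.Fermat.Agent.A2.Mod.RE P E, Irreducible w → Nonempty (SSChart w Bf)) ∧
      (∀ w : _root_.Fermat.Agent.A2.Mod.RE P E, Irreducible w → Nonempty (SSChart w Bi)) ∧
      (∀ τ ∈ P.inertiaSubgroupIn ℚ, ∀ τE : E ≃ₐ[ℚ] E,
        (∀ e : E, ((τE e : E) : _root_.Fermat.Agent.A2.Mod.Qb) = τ (e : _root_.Fermat.Agent.A2.Mod.Qb)) →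
        arithmeticRingAut (modularFunctionFieldFull (M * q)) τE x = x) ∧
      (∀ τ ∈ P.inertiaSubgroupIn ℚ, ∀ τE : E ≃ₐ[ℚ] E,
        (∀ e : E, ((τE e : E) : _root_.Fermat.Agent.A2.Mod.Qb) = τ (e : _root_.Fermat.Agent.A2.Mod.Qb)) →
        ∀ w : _root_.Fermat.Agent.A2.Mod.RE P E, Irreducible w → ∀ b ∈ Bf, ∃ c ∈ Bf,
          arithmeticRingAut (modularFunctionFieldFull (M * q)) τE b - b =
            algebraMap (_root_.Fermat.Agent.A2.Mod.RE P E) (_root_.Fermat.Agent.A2.Mod.FE E (M * q)) w * c) ∧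
      (∀ τ ∈ P.inertiaSubgroupIn ℚ, ∀ τE : E ≃ₐ[ℚ] E,
        (∀ e : E, ((τE e : E) : _root_.Fermat.Agent.A2.Mod.Qb) = τ (e : _root_.Fermat.Agent.A2.Mod.Qb)) →
        ∀ w : _root_.Fermat.Agent.A2.Mod.RE P E, Irreducible w → ∀ b ∈ Bi, ∃ c ∈ Bi,
          arithmeticRingAut (modularFunctionFieldFull (M * q)) τE b - b =
            algebraMap (_root_.Fermat.Agent.A2.Mod.RE P E) (_root_.Fermat.Agent.A2.Mod.FE E (M * q)) w * c) := by
  obtain ⟨VM, hVM⟩ := hVM
  obtain ⟨V, hV⟩ := hV
  obtain ⟨W, hW⟩ := hW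
  obtain ⟨hx, hfr, hconst⟩ := hDeg hq hqM
  have hS : ∀ w : _root_.Fermat.Agent.A2.Mod.RE P E, Irreducible w → Setting P E M q w := fun w hw =>
    { q_prime := hq
      q_not_dvd := hqM
      M_ne_zero := NeZero.ne M
      lies_over := hP
      dvr := hdvr
      unif := hw }
  obtain ⟨w₀, hw₀⟩ := IsDiscreteValuationRing.exists_irreducible (_root_.Fermat.Agent.A2.Mod.RE P E)
  have hpos : 0 < Module.finrank (IntermediateField.adjoin E ({xE E M q} : Set (_root_.Fermat.Agent.A2.Mod.FE E (M * q))))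
      (_root_.Fermat.Agent.A2.Mod.FE E (M * q)) := by
    rw [hfr]
    have h1 := dedekindPsi_pos_of_ne_zero M (NeZero.ne M)
    positivity
  have hfin : FiniteDimensional (IntermediateField.adjoin E ({xE E M q} : Set (_root_.Fermat.Agent.A2.Mod.FE E (M * q))))
      (_root_.Fermat.Agent.A2.Mod.FE E (M * q)) := Module.finite_of_finrank_pos hpos
  refine ⟨xE E M q, chartAlg P E (M * q) (xE E M q), chartAlg P E (M * q) (xE E M q)⁻¹,
    hx, hfin, hconst, fun _ => Iff.rfl, fun _ => Iff.rfl, ?_, ?_, ?_, ?_, ?_⟩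
  · exact fun w hw => nonempty_ssChart P E M q w (hS w hw) (hS1 w) (hS2 w) (hS3 w)
      VM V W hVM hV hW _ _ (Or.inl ⟨rfl, rfl⟩) (hgood w VM hw hVM).1
  · exact fun w hw => nonempty_ssChart P E M q w (hS w hw) (hS1 w) (hS2 w) (hS3 w)
      VM V W hVM hV hW _ _ (Or.inr ⟨rfl, rfl⟩) (hgood w VM hw hVM).2
  · exact fun τ hτ τE hτE => ((hSτ w₀) (hS w₀ hw₀) τ τE hτ hτE).1
  · exact fun τ hτ τE hτE w hw b hb =>
      ((hSτ w) (hS w hw) τ τE hτ hτE).2 _ (Or.inl rfl) b hb
  · exact fun τ hτ τE hτE w hw b hb =>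
      ((hSτ w) (hS w hw) τ τE hτ hτE).2 _ (Or.inr rfl) b hb

end Top

end Fermat.Agent.A2.Mod

end
end
-- ===== PACK-END A2/Mod/Asm.lean

-- ===== PACK-BEGIN A2/Mod/H553/Vinf.lean
section



/-!
# A2 / MOD leaves L1 `VinfExists`, L2 `VinfBasic` (helper553)

Level `E` Gauss valuation `V∞` of `F_{N,E} = E(j_d : d ∣ N)` over `R_E = P ∩ E` (a DVR):

* `VinfE P E N` : the valuation subring (`= H708.gaussInf`), `isVinf_VinfE`, `IsVinf.eq`;
* `mem_of_int`, `inv_mem_of_int` : functions with integral `t`-expansion lie in `V∞`; if a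
  coefficient is `±1` they are units of `V∞`;
* `vinfExists : VinfExistsStatement P E`  (L1);
* `vinfBasic : VinfBasicStatement P E w`  (L2).
-/

set_option autoImplicit false
set_option synthInstance.maxHeartbeats 400000
set_option maxHeartbeats 1600000
set_option linter.unusedSectionVars false
set_option linter.style.haveILetI false

noncomputable section

namespace Fermat.Agent.A2.Mod.H553

open ModularCurve HahnSeries Polynomial
open Fermat.Agent.A2 Fermat.Agent.A2.Mod

variable (P : ValuationSubring _root_.Fermat.Agent.A2.Mod.Qb) (E : IntermediateField ℚ _root_.Fermat.Agent.A2.Mod.Qb)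

/-- the Gauss valuation ring at `∞` of `F_{N,E}` -/
def VinfE (N : ℕ) [IsNoetherianRing ↥(_root_.Fermat.Agent.A2.Mod.RE P E)] : ValuationSubring ↥(_root_.Fermat.Agent.A2.Mod.FE E N) :=
  H708.gaussInf (_root_.Fermat.Agent.A2.Mod.RE P E) (modularFunctionFieldFull N) (H708.intGen_full N)
    (H708.attainsMax_of_isNoetherianRing (_root_.Fermat.Agent.A2.Mod.RE P E) (modularFunctionFieldFull N))

theorem isVinf_VinfE (N : ℕ) [IsNoetherianRing ↥(_root_.Fermat.Agent.A2.Mod.RE P E)] : IsVinf P E N (VinfE P E N) :=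
  fun _ => Iff.rfl

variable {P E}

theorem eq_VinfE_of_isVinf {N : ℕ} [IsNoetherianRing ↥(_root_.Fermat.Agent.A2.Mod.RE P E)] {V : ValuationSubring ↥(_root_.Fermat.Agent.A2.Mod.FE E N)}
    (hV : IsVinf P E N V) : V = VinfE P E N := by
  ext f
  rw [hV f]
  exact ((isVinf_VinfE P E N) f).symm

/-- integral series, in `E((t))` -/
theorem coeffEmb_castQ (g : LaurentSeries ℤ) :
    coeffEmb (↥E) (H708.castQ g) = H708.incl (_root_.Fermat.Agent.A2.Mod.RE P E) (H708.castA (_root_.Fermat.Agent.A2.Mod.RE P E) g) :=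
  (H708.incl_castA (_root_.Fermat.Agent.A2.Mod.RE P E) g).symm

/-- functions with integral `t`-expansion lie in `V∞` -/
theorem mem_of_int {N : ℕ} {V : ValuationSubring ↥(_root_.Fermat.Agent.A2.Mod.FE E N)} (hV : IsVinf P E N V)
    {f : ↥(_root_.Fermat.Agent.A2.Mod.FE E N)} {g : LaurentSeries ℤ}
    (hfg : (f : LaurentSeries ↥E) = coeffEmb (↥E) (H708.castQ g)) : f ∈ V := by
  rw [hV f, hfg, coeffEmb_castQ (P := P)]
  exact H708.IsGaussInt.of_incl _

theorem red_castA_ne_zero {g : LaurentSeries ℤ} {k : ℤ}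
    (hk : g.coeff k = 1 ∨ g.coeff k = -1) :
    H708.red (_root_.Fermat.Agent.A2.Mod.RE P E) (H708.castA (_root_.Fermat.Agent.A2.Mod.RE P E) g) ≠ 0 := by
  rw [H708.red_ne_zero_iff]
  refine ⟨k, ?_⟩
  have h1 : (((H708.castA (_root_.Fermat.Agent.A2.Mod.RE P E) g).coeff k : ↥(_root_.Fermat.Agent.A2.Mod.RE P E)) : ↥E) = ((g.coeff k : ℤ) : ↥E) := by
    show ((((g.coeff k : ℤ) : ↥(_root_.Fermat.Agent.A2.Mod.RE P E))) : ↥E) = _
    simp
  rw [h1]
  rcases hk with hk | hk
  · rw [hk]; simp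
  · rw [hk]; simp

/-- functions with integral `t`-expansion having a coefficient `±1` are units of `V∞` -/
theorem inv_mem_of_int {N : ℕ} {V : ValuationSubring ↥(_root_.Fermat.Agent.A2.Mod.FE E N)} (hV : IsVinf P E N V)
    {f : ↥(_root_.Fermat.Agent.A2.Mod.FE E N)} {g : LaurentSeries ℤ} {k : ℤ}
    (hfg : (f : LaurentSeries ↥E) = coeffEmb (↥E) (H708.castQ g))
    (hk : g.coeff k = 1 ∨ g.coeff k = -1) : f⁻¹ ∈ V := by
  rw [hV f⁻¹]
  have hf : (f : LaurentSeries ↥E) = H708.incl (_root_.Fermat.Agent.A2.Mod.RE P E) (H708.castA (_root_.Fermat.Agent.A2.Mod.RE P E) g) := by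
    rw [hfg, coeffEmb_castQ (P := P)]
  have hred := red_castA_ne_zero (P := P) (E := E) hk
  have hne : H708.incl (_root_.Fermat.Agent.A2.Mod.RE P E) (H708.castA (_root_.Fermat.Agent.A2.Mod.RE P E) g) ≠ 0 :=
    H708.incl_ne_zero _ (H708.ne_zero_of_red_ne_zero _ hred)
  refine ⟨1, H708.castA (_root_.Fermat.Agent.A2.Mod.RE P E) g, hred, ?_, ?_⟩
  · rw [← hf]
    exact f.2
  · rw [IntermediateField.coe_inv, hf, inv_mul_cancel₀ hne, map_one]

/-- the generators `j_d` as integral series -/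
theorem coe_jE (N d : ℕ) [NeZero d] (hd : d ∣ N) :
    ((jE E N d hd : ↥(_root_.Fermat.Agent.A2.Mod.FE E N)) : LaurentSeries ↥E) = coeffEmb (↥E) (H708.castQ (H708.jInt d)) := by
  rw [H708.castQ_jInt]
  rfl

theorem coeff_jInt_top (d : ℕ) [NeZero d] : (H708.jInt d).coeff (-(d : ℤ)) = 1 := by
  have h := coeff_jqModC_pow_self ℤ 1
  rw [H708.jInt, jqNModC,
    show (-(d : ℤ)) = (d : ℤ) * (-((1 : ℕ) : ℤ)) by push_cast; ring, qExpand_coeff_mul]
  simpa using h

variable (P E)

/-- **L1.** -/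
theorem vinfExists : VinfExistsStatement P E := by
  intro N _ hdvr
  haveI := hdvr
  exact ⟨VinfE P E N, isVinf_VinfE P E N⟩

/-- `V∞ ∩ E = R_E`. -/
theorem algebraMap_mem_iff {N : ℕ} [IsNoetherianRing ↥(_root_.Fermat.Agent.A2.Mod.RE P E)] {V : ValuationSubring ↥(_root_.Fermat.Agent.A2.Mod.FE E N)}
    (hV : IsVinf P E N V) (e : ↥E) : algebraMap ↥E ↥(_root_.Fermat.Agent.A2.Mod.FE E N) e ∈ V ↔ e ∈ _root_.Fermat.Agent.A2.Mod.RE P E := by
  rw [eq_VinfE_of_isVinf hV]
  exact H708.algebraMap_mem_gaussInf_iff _ _ e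

/-- every nonzero function is a constant times a unit of `V∞` -/
theorem exists_const_mul_unit {N : ℕ} [IsNoetherianRing ↥(_root_.Fermat.Agent.A2.Mod.RE P E)]
    {V : ValuationSubring ↥(_root_.Fermat.Agent.A2.Mod.FE E N)} (hV : IsVinf P E N V) {f : ↥(_root_.Fermat.Agent.A2.Mod.FE E N)} (hf : f ≠ 0) :
    ∃ c : ↥E, c ≠ 0 ∧ V.valuation (f * (algebraMap ↥E ↥(_root_.Fermat.Agent.A2.Mod.FE E N) c)⁻¹) = 1 := by
  rw [eq_VinfE_of_isVinf hV]
  exact H708.exists_const_mul_unit _ _ hf

/-- **L2.** -/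
theorem vinfBasic (w : _root_.Fermat.Agent.A2.Mod.RE P E) : VinfBasicStatement P E w := by
  intro N _ hdvr hw V hV
  haveI := hdvr
  have hw0 : (w : ↥E) ≠ 0 := by
    intro h0
    exact hw.ne_zero (Subtype.ext h0)
  have hwinv : ((w : ↥E))⁻¹ ∉ _root_.Fermat.Agent.A2.Mod.RE P E := by
    intro hmem
    apply hw.not_isUnit
    refine isUnit_iff_exists_inv.mpr ⟨⟨_, hmem⟩, Subtype.ext ?_⟩
    show (w : ↥E) * ((w : ↥E))⁻¹ = 1
    exact mul_inv_cancel₀ hw0
  refine ⟨⟨?_, ?_, ?_⟩, fun e => algebraMap_mem_iff P E hV e, ?_⟩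
  · exact (algebraMap_mem_iff P E hV _).mpr w.2
  · intro hmem
    have h1 : (cE P E N w)⁻¹ = algebraMap ↥E ↥(_root_.Fermat.Agent.A2.Mod.FE E N) ((w : ↥E))⁻¹ := (map_inv₀ _ _).symm
    rw [h1] at hmem
    exact hwinv ((algebraMap_mem_iff P E hV _).mp hmem)
  · intro f hfV hfinv
    rcases eq_or_ne f 0 with rfl | hf0
    · rw [zero_mul]; exact V.zero_mem
    obtain ⟨c, hc0, hu⟩ := exists_const_mul_unit P E hV hf0
    obtain ⟨u, hu_def⟩ : ∃ u : ↥(_root_.Fermat.Agent.A2.Mod.FE E N), u = f * (algebraMap ↥E ↥(_root_.Fermat.Agent.A2.Mod.FE E N) c)⁻¹ := ⟨_, rfl⟩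
    rw [← hu_def] at hu
    have hcF : algebraMap ↥E ↥(_root_.Fermat.Agent.A2.Mod.FE E N) c ≠ 0 :=
      (map_ne_zero_iff _ (algebraMap ↥E ↥(_root_.Fermat.Agent.A2.Mod.FE E N)).injective).mpr hc0
    have hu0 : u ≠ 0 := by
      rw [hu_def]
      exact mul_ne_zero hf0 (inv_ne_zero hcF)
    have huV : u ∈ V := (V.valuation_le_one_iff _).mp hu.le
    have huinvV : u⁻¹ ∈ V := by
      rw [← V.valuation_le_one_iff, map_inv₀, hu, inv_one]
    have hfu : f = u * algebraMap ↥E ↥(_root_.Fermat.Agent.A2.Mod.FE E N) c := by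
      rw [hu_def, mul_assoc, inv_mul_cancel₀ hcF, mul_one]
    -- `c ∈ R`
    have hcV : algebraMap ↥E ↥(_root_.Fermat.Agent.A2.Mod.FE E N) c ∈ V := by
      have : algebraMap ↥E ↥(_root_.Fermat.Agent.A2.Mod.FE E N) c = u⁻¹ * f := by
        rw [hfu, ← mul_assoc, inv_mul_cancel₀ hu0, one_mul]
      rw [this]
      exact V.mul_mem _ _ huinvV hfV
    have hcR : c ∈ _root_.Fermat.Agent.A2.Mod.RE P E := (algebraMap_mem_iff P E hV c).mp hcV
    -- `c` is not a unit of `R`
    have hcnu : ¬ IsUnit (⟨c, hcR⟩ : ↥(_root_.Fermat.Agent.A2.Mod.RE P E)) := by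
      intro hunit
      obtain ⟨d, hd⟩ := isUnit_iff_exists_inv.mp hunit
      have hd' : c * (d : ↥E) = 1 := congrArg Subtype.val hd
      have hdinv : c⁻¹ = (d : ↥E) := by
        rw [inv_eq_iff_eq_inv]
        exact eq_inv_of_mul_eq_one_left hd'
      apply hfinv
      have : f⁻¹ = u⁻¹ * algebraMap ↥E ↥(_root_.Fermat.Agent.A2.Mod.FE E N) (d : ↥E) := by
        rw [hfu, mul_inv, ← hdinv, map_inv₀]
      rw [this]
      exact V.mul_mem _ _ huinvV ((algebraMap_mem_iff P E hV _).mpr d.2)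
    have hcm : (⟨c, hcR⟩ : ↥(_root_.Fermat.Agent.A2.Mod.RE P E)) ∈ IsLocalRing.maximalIdeal ↥(_root_.Fermat.Agent.A2.Mod.RE P E) :=
      (IsLocalRing.mem_maximalIdeal _).mpr hcnu
    rw [hw.maximalIdeal_eq, Ideal.mem_span_singleton'] at hcm
    obtain ⟨r, hr⟩ := hcm
    have hr' : (r : ↥E) * (w : ↥E) = c := congrArg Subtype.val hr
    have hcwF : cE P E N w ≠ 0 :=
      (map_ne_zero_iff _ (algebraMap ↥E ↥(_root_.Fermat.Agent.A2.Mod.FE E N)).injective).mpr hw0
    have hcr : algebraMap ↥E ↥(_root_.Fermat.Agent.A2.Mod.FE E N) c = algebraMap ↥E ↥(_root_.Fermat.Agent.A2.Mod.FE E N) (r : ↥E) * cE P E N w := by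
      rw [← hr', map_mul]
      rfl
    have : f * (cE P E N w)⁻¹ = u * algebraMap ↥E ↥(_root_.Fermat.Agent.A2.Mod.FE E N) (r : ↥E) := by
      rw [hfu, hcr, mul_assoc, mul_assoc, mul_inv_cancel₀ hcwF, mul_one]
    rw [this]
    exact V.mul_mem _ _ huV ((algebraMap_mem_iff P E hV _).mpr r.2)
  · intro d _ hd
    exact ⟨mem_of_int hV (coe_jE N d hd),
      inv_mem_of_int hV (coe_jE N d hd) (Or.inl (coeff_jInt_top d))⟩

end Fermat.Agent.A2.Mod.H553

end
end
-- ===== PACK-END A2/Mod/H553/Vinf.lean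

-- ===== PACK-BEGIN A2/Mod/H900/L7Core.lean
section



/-!
# A2 / MOD leaf L7 (helper900): Fricke stability of the Gauss valuation, core

`L ⊇ ℚ` a field, `A` a valuation subring of `L`, `k` its residue field, `N` a level with
`S28.CoreData N k` (true when `char k ∤ N`), `F = laurentBaseChange L (F_N)`.

* `exists_decomp` : every `f ≠ 0` of `F` satisfies
  `f · G(j) = c · ∑ᵢ Hᵢ(j) yᵢ` with `G, Hᵢ ∈ A[X]` having a coefficient `1`, `c ∈ Lˣ`,
  `yᵢ ∈ ℤ[j_d : d ∣ N]` the S28 monomials (refined form of `S18.H516.exists_gauss_decomp`);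
* `isGaussInt_iff_of_decomp` : `f` is Gauss-integral iff `c ∈ A`.
-/

set_option autoImplicit false
set_option linter.unusedSectionVars false
set_option synthInstance.maxHeartbeats 400000
set_option maxHeartbeats 1600000

noncomputable section

namespace Fermat.Agent.A2.Mod.H900

open ModularCurve HahnSeries Polynomial IntermediateField Fermat.Agent.S28

section Generic

variable {L : Type} [Field L] [Algebra ℚ L] (A : ValuationSubring L)
variable (N : ℕ) [NeZero N]

/-- the residue map of `A`. -/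
abbrev resA : A →+* IsLocalRing.ResidueField A := IsLocalRing.residue A

/-- integer series in `L((t))`. -/
abbrev castL (L : Type) [Field L] : LaurentSeries ℤ →+* LaurentSeries L :=
  coeffMap (Int.castRingHom L)

/-- **Refined Gauss decomposition** along the S28 basis. -/
theorem exists_decomp (core : CoreData N (IsLocalRing.ResidueField A)) {f : LaurentSeries L}
    (hf : f ∈ laurentBaseChange L (modularFunctionFieldFull N)) (hf0 : f ≠ 0) :
    ∃ (n : ℕ) (y : Fin n → LaurentSeries ℤ) (c : L) (G : A[X]) (H : Fin n → A[X]),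
      (∀ i, y i ∈ Subring.closure (intDivisorExpansions N)) ∧
      LinearIndependent (jField (IsLocalRing.ResidueField A))
        (fun i => coeffMap (Int.castRingHom (IsLocalRing.ResidueField A)) (y i)) ∧
      c ≠ 0 ∧ (∃ m, G.coeff m = 1) ∧ (∃ i m, (H i).coeff m = 1) ∧
      f * S18.H516.evJ (G.map A.subtype) =
        HahnSeries.C c * ∑ i, S18.H516.evJ ((H i).map A.subtype) * castL L (y i) := by
  classical
  obtain ⟨n, y, hy, hspan, hli⟩ := core.exists_basis
  have hS : S18.H516.SpansQ N y := ⟨hy, hspan⟩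
  have hfs := (S18.H516.mem_baseChange_iff_mem_spanL L hS).mp hf
  obtain ⟨G, H, hG, hGH⟩ := S18.H516.exists_cleared L _ hfs
  have hGne : S18.H516.evJ G ≠ 0 := fun h => hG ((S18.H516.evJ_eq_zero_iff L).mp h)
  have hH : ∃ i, H i ≠ 0 := by
    by_contra hcon
    push Not at hcon
    have : S18.H516.evJ G * f = 0 := by
      rw [hGH]
      exact Finset.sum_eq_zero fun i _ => by rw [hcon i, S18.H516.evJ_zero, zero_mul]
    rcases mul_eq_zero.mp this with h | h
    · exact hGne h
    · exact hf0 h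
  obtain ⟨g0, G', hg0, hG', i1, m1, hG1⟩ :=
    S18.H516.exists_scale A (fun _ : Fin 1 => G) ⟨0, hG⟩
  obtain rfl : i1 = 0 := Subsingleton.elim _ _
  obtain ⟨h0, H', hh0, hH', i0, m0, hH1⟩ := S18.H516.exists_scale A H hH
  refine ⟨n, y, h0 * g0⁻¹, G' 0, H', hy, hli, mul_ne_zero hh0 (inv_ne_zero hg0), ⟨m1, hG1⟩,
    ⟨i0, m0, hH1⟩, ?_⟩
  have h1 : ∀ i, S18.H516.evJ ((H' i).map A.subtype) = HahnSeries.C h0⁻¹ * S18.H516.evJ (H i) := by
    intro i
    rw [hH' i, S18.H516.evJ_mul, S18.H516.evJ_C]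
  have h2 : S18.H516.evJ ((G' 0).map A.subtype) = HahnSeries.C g0⁻¹ * S18.H516.evJ G := by
    rw [hG' 0, S18.H516.evJ_mul, S18.H516.evJ_C]
  have h3 : ∑ i, S18.H516.evJ ((H' i).map A.subtype) * castL L (y i) =
      HahnSeries.C h0⁻¹ * (S18.H516.evJ G * f) := by
    rw [hGH, Finset.mul_sum]
    refine Finset.sum_congr rfl fun i _ => ?_
    rw [h1 i]
    ring
  rw [h2, h3, map_mul]
  have hC : HahnSeries.C (Γ := ℤ) h0 * HahnSeries.C h0⁻¹ = 1 := by
    rw [← map_mul, mul_inv_cancel₀ hh0, map_one]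
  calc f * (HahnSeries.C g0⁻¹ * S18.H516.evJ G)
      = (HahnSeries.C (Γ := ℤ) h0 * HahnSeries.C h0⁻¹) *
          (HahnSeries.C g0⁻¹ * (S18.H516.evJ G * f)) := by
        rw [hC]; ring
    _ = HahnSeries.C h0 * HahnSeries.C g0⁻¹ *
          (HahnSeries.C h0⁻¹ * (S18.H516.evJ G * f)) := by ring

/-- In a refined decomposition, `f` is Gauss-integral iff the constant is integral. -/
theorem isGaussInt_iff_of_decomp {n : ℕ} {y : Fin n → LaurentSeries ℤ} {c : L} {G : A[X]}
    {H : Fin n → A[X]} {f : LaurentSeries L}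
    (hli : LinearIndependent (jField (IsLocalRing.ResidueField A))
      (fun i => coeffMap (Int.castRingHom (IsLocalRing.ResidueField A)) (y i)))
    (hG : ∃ m, G.coeff m = 1) (hH : ∃ i m, (H i).coeff m = 1)
    (he : f * S18.H516.evJ (G.map A.subtype) =
      HahnSeries.C c * ∑ i, S18.H516.evJ ((H i).map A.subtype) * castL L (y i)) :
    H708.IsGaussInt A (modularFunctionFieldFull N) f ↔ c ∈ A := by
  classical
  set U₂ : LaurentSeries A := S18.H516.evJ G with hU₂
  set U₁ : LaurentSeries A := ∑ i, S18.H516.evJ (H i) * H708.castA A (y i) with hU₁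
  have hU₂L : H708.incl A U₂ = S18.H516.evJ (G.map A.subtype) := by
    rw [hU₂, H708.incl, S18.H516.coeffMap_evJ]
  have hU₁L : H708.incl A U₁ = ∑ i, S18.H516.evJ ((H i).map A.subtype) * castL L (y i) := by
    rw [hU₁, map_sum]
    refine Finset.sum_congr rfl fun i _ => ?_
    rw [map_mul, H708.incl, S18.H516.coeffMap_evJ, H708.castA, coeffMap_coeffMap,
      show (A.subtype.comp (Int.castRingHom A)) = Int.castRingHom L from RingHom.ext_int _ _]
  have hU₂k : H708.red A U₂ = S18.H516.evJ (G.map (IsLocalRing.residue A)) := by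
    rw [hU₂, H708.red, S18.H516.coeffMap_evJ]
  have hU₁k : H708.red A U₁ = ∑ i, S18.H516.evJ ((H i).map (IsLocalRing.residue A)) *
      coeffMap (Int.castRingHom (IsLocalRing.ResidueField A)) (y i) := by
    rw [hU₁, map_sum]
    refine Finset.sum_congr rfl fun i _ => ?_
    rw [map_mul, H708.red, S18.H516.coeffMap_evJ, H708.castA, coeffMap_coeffMap,
      show ((IsLocalRing.residue A).comp (Int.castRingHom A)) =
        Int.castRingHom (IsLocalRing.ResidueField A) from RingHom.ext_int _ _]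
  have h₂ : H708.red A U₂ ≠ 0 := by
    rw [hU₂k]
    intro h1
    obtain ⟨m1, hG1⟩ := hG
    have h2 := (S18.H516.evJ_eq_zero_iff _).mp h1
    have h3 := congrArg (fun P : (IsLocalRing.ResidueField A)[X] => P.coeff m1) h2
    simp only [Polynomial.coeff_map, Polynomial.coeff_zero, hG1, map_one] at h3
    exact one_ne_zero h3
  have h₁ : H708.red A U₁ ≠ 0 := by
    rw [hU₁k]
    intro h0'
    obtain ⟨i0, m0, hH1⟩ := hH
    have hli' := Fintype.linearIndependent_iff.mp hli
      (fun i => (⟨S18.H516.evJ ((H i).map (IsLocalRing.residue A)),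
        S18.H516.evJ_mem_jField _ _⟩ : jField (IsLocalRing.ResidueField A))) h0' i0
    have h1 : S18.H516.evJ ((H i0).map (IsLocalRing.residue A)) = 0 :=
      congrArg Subtype.val hli'
    have h2 := (S18.H516.evJ_eq_zero_iff _).mp h1
    have h3 := congrArg (fun P : (IsLocalRing.ResidueField A)[X] => P.coeff m0) h2
    simp only [Polynomial.coeff_map, Polynomial.coeff_zero, hH1, map_one] at h3
    exact one_ne_zero h3
  have hm₂ : H708.incl A U₂ ∈ laurentBaseChange L (modularFunctionFieldFull N) := by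
    rw [hU₂L]
    exact S18.H516.jField_le_baseChange L (S18.H516.evJ_mem_jField L _)
  have he' : f * H708.incl A U₂ = H708.cst c * H708.incl A U₁ := by
    rw [hU₂L, hU₁L, he, H708.cst, algebraMap_laurentSeries_eq_single, HahnSeries.C_apply]
  exact H708.isGaussInt_iff_of_normal_form h₁ h₂ hm₂ he'

end Generic

section Fricke

variable {L : Type} [Field L] [Algebra ℚ L] (A : ValuationSubring L)
variable (N : ℕ) [NeZero N]

/-- `F_{N,L}`. -/
abbrev FL (L : Type) [Field L] [Algebra ℚ L] (N : ℕ) : IntermediateField L (LaurentSeries L) :=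
  laurentBaseChange L (modularFunctionFieldFull N)

/-- the generator `j_d` of `F_{N,L}`. -/
def jL (L : Type) [Field L] [Algebra ℚ L] (N : ℕ) (d : ℕ) [NeZero d] (hd : d ∣ N) : FL L N :=
  ⟨coeffEmb L (qExpand ℚ d jq), coeffEmb_mem_laurentBaseChange L (jqd_mem_full N hd)⟩

theorem coe_jL (d : ℕ) [NeZero d] (hd : d ∣ N) :
    ((jL L N d hd : FL L N) : LaurentSeries L) = qExpand L d (jqModC L) := by
  show coeffEmb L (qExpand ℚ d jq) = _
  rw [coeffEmb, coeffMap_qExpand, ← jqModC_rat, coeffMap_jqModC]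

theorem castL_gen (d : ℕ) [NeZero d] :
    castL L (qExpand ℤ d (jqModC ℤ)) = qExpand L d (jqModC L) := by
  rw [castL, coeffMap_qExpand, coeffMap_jqModC]

/-- `W` is a Fricke involution on generators. -/
def FrickeOnGens (W : FL L N ≃ₐ[L] FL L N) : Prop :=
  ∀ (d d' : ℕ) [NeZero d] [NeZero d'] (hd : d ∣ N) (hd' : d' ∣ N), d * d' = N →
    W (jL L N d hd) = jL L N d' hd'

variable {N}

/-- the S28 monomials and their Fricke images are integer series. -/
theorem exists_int_of_closure {W : FL L N ≃ₐ[L] FL L N} (hW : FrickeOnGens N W)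
    {y : LaurentSeries ℤ} (hy : y ∈ Subring.closure (intDivisorExpansions N)) :
    ∃ (g : FL L N) (y' : LaurentSeries ℤ), (g : LaurentSeries L) = castL L y ∧
      ((W g : FL L N) : LaurentSeries L) = castL L y' := by
  induction hy using Subring.closure_induction with
  | mem x hx =>
    obtain ⟨d, hd, hdN, rfl⟩ := hx
    have hN : N ≠ 0 := NeZero.ne N
    have hd0 : N / d ≠ 0 := by
      intro h
      rcases (Nat.div_eq_zero_iff).mp h with h1 | h1
      · exact (NeZero.ne d) h1
      · exact absurd (Nat.le_of_dvd (Nat.pos_of_ne_zero hN) hdN) (not_le.mpr h1)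
    have : NeZero (N / d) := ⟨hd0⟩
    refine ⟨jL L N d hdN, qExpand ℤ (N / d) (jqModC ℤ), ?_, ?_⟩
    · rw [coe_jL, castL_gen]
    · rw [hW d (N / d) hdN (Nat.div_dvd_of_dvd hdN) (Nat.mul_div_cancel' hdN), coe_jL, castL_gen]
  | zero => exact ⟨0, 0, by simp, by simp⟩
  | one => exact ⟨1, 1, by simp, by simp⟩
  | add x y _ _ hx hy =>
    obtain ⟨g, y', h1, h2⟩ := hx
    obtain ⟨g', y'', h1', h2'⟩ := hy
    exact ⟨g + g', y' + y'', by rw [IntermediateField.coe_add, h1, h1', map_add],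
      by rw [map_add, IntermediateField.coe_add, h2, h2', map_add]⟩
  | neg x _ hx =>
    obtain ⟨g, y', h1, h2⟩ := hx
    exact ⟨-g, -y', by rw [IntermediateField.coe_neg, h1, map_neg],
      by rw [map_neg, IntermediateField.coe_neg, h2, map_neg]⟩
  | mul x y _ _ hx hy =>
    obtain ⟨g, y', h1, h2⟩ := hx
    obtain ⟨g', y'', h1', h2'⟩ := hy
    exact ⟨g * g', y' * y'', by rw [IntermediateField.coe_mul, h1, h1', map_mul],
      by rw [map_mul, IntermediateField.coe_mul, h2, h2', map_mul]⟩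

/-- evaluation of a polynomial at `j = j_1` inside `F_{N,L}`: its series is `evJ`. -/
theorem coe_aeval_jL (Q : L[X]) :
    ((aeval (jL L N 1 (one_dvd N)) Q : FL L N) : LaurentSeries L) = S18.H516.evJ Q := by
  have h := Polynomial.aeval_algHom_apply (FL L N).val (jL L N 1 (one_dvd N)) Q
  have h1 : (FL L N).val (jL L N 1 (one_dvd N)) = jqModC L := by
    show ((jL L N 1 (one_dvd N) : FL L N) : LaurentSeries L) = _
    rw [coe_jL, qExpand_one_apply]
  rw [h1] at h
  show (FL L N).val (aeval (jL L N 1 (one_dvd N)) Q) = _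
  rw [← h, S18.H516.aeval_eq_evJ]

/-- evaluation of a polynomial at `j_N` inside `F_{N,L}`: its series is `qExpand N ∘ evJ`. -/
theorem coe_aeval_jL_top (Q : L[X]) :
    ((aeval (jL L N N dvd_rfl) Q : FL L N) : LaurentSeries L) =
      qExpand L N (S18.H516.evJ Q) := by
  have h := Polynomial.aeval_algHom_apply (FL L N).val (jL L N N dvd_rfl) Q
  have h1 : (FL L N).val (jL L N N dvd_rfl) = qExpandAlgHomC L N (jqModC L) := by
    show ((jL L N N dvd_rfl : FL L N) : LaurentSeries L) = _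
    rw [coe_jL, qExpandAlgHomC_apply]
  rw [h1, Polynomial.aeval_algHom_apply] at h
  show (FL L N).val (aeval (jL L N N dvd_rfl) Q) = _
  rw [← h, qExpandAlgHomC_apply, S18.H516.aeval_eq_evJ]

/-- **L7, core form.**  If `W` is an `L`-automorphism of `F_{N,L}` with `W j_d = j_{N/d}` and
`S28.CoreData N k` holds for the residue field `k` of `A`, then `W` preserves Gauss-integrality. -/
theorem frickeStable_core (core : CoreData N (IsLocalRing.ResidueField A))
    {W : FL L N ≃ₐ[L] FL L N} (hW : FrickeOnGens N W) (f : FL L N)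
    (hf : H708.IsGaussInt A (modularFunctionFieldFull N) (f : LaurentSeries L)) :
    H708.IsGaussInt A (modularFunctionFieldFull N) ((W f : FL L N) : LaurentSeries L) := by
  classical
  by_cases hf0 : f = 0
  · rw [hf0, map_zero]
    exact H708.IsGaussInt.zero
  have hf0' : (f : LaurentSeries L) ≠ 0 := fun h => hf0 (Subtype.ext h)
  obtain ⟨n, y, c, G, H, hy, hli, hc, hG, hH, he⟩ := exists_decomp A N core f.2 hf0'
  have hcA : c ∈ A := (isGaussInt_iff_of_decomp A N hli hG hH he).mp hf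
  -- the monomials inside `F`
  have hY : ∀ i, ∃ (g : FL L N) (y' : LaurentSeries ℤ), (g : LaurentSeries L) = castL L (y i) ∧
      ((W g : FL L N) : LaurentSeries L) = castL L y' := fun i => exists_int_of_closure hW (hy i)
  choose Y y' hY1 hY2 using hY
  -- the equation inside `F`
  have heF : f * aeval (jL L N 1 (one_dvd N)) (G.map A.subtype) =
      algebraMap L (FL L N) c *
        ∑ i, aeval (jL L N 1 (one_dvd N)) ((H i).map A.subtype) * Y i := by
    apply Subtype.ext
    rw [IntermediateField.coe_mul, IntermediateField.coe_mul, coe_aeval_jL, he,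
      IntermediateField.coe_sum]
    congr 1
    · show HahnSeries.C c = algebraMap L (LaurentSeries L) c
      rw [algebraMap_laurentSeries_eq_single, HahnSeries.C_apply]
    · refine Finset.sum_congr rfl fun i _ => ?_
      rw [IntermediateField.coe_mul, coe_aeval_jL, hY1 i]
  have hWj : W (jL L N 1 (one_dvd N)) = jL L N N dvd_rfl :=
    hW 1 N (one_dvd N) dvd_rfl (one_mul N)
  have hWaeval : ∀ Q : L[X], W (aeval (jL L N 1 (one_dvd N)) Q) = aeval (jL L N N dvd_rfl) Q := by
    intro Q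
    have := Polynomial.aeval_algHom_apply (W : FL L N →ₐ[L] FL L N) (jL L N 1 (one_dvd N)) Q
    rw [AlgEquiv.coe_toAlgHom, hWj] at this
    exact this.symm
  have heW := congrArg W heF
  rw [map_mul, map_mul, AlgEquiv.commutes, map_sum, hWaeval] at heW
  have heW' : ((W f : FL L N) : LaurentSeries L) *
      qExpand L N (S18.H516.evJ (G.map A.subtype)) =
      HahnSeries.C c * ∑ i, qExpand L N (S18.H516.evJ ((H i).map A.subtype)) * castL L (y' i) := by
    have h := congrArg (fun z : FL L N => (z : LaurentSeries L)) heW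
    simp only [IntermediateField.coe_mul, IntermediateField.coe_sum] at h
    rw [coe_aeval_jL_top] at h
    rw [h]
    congr 1
    · show algebraMap L (LaurentSeries L) c = HahnSeries.C c
      rw [algebraMap_laurentSeries_eq_single, HahnSeries.C_apply]
    · refine Finset.sum_congr rfl fun i _ => ?_
      rw [map_mul, hWaeval, IntermediateField.coe_mul, coe_aeval_jL_top, hY2 i]
  -- the integral model of `W f`
  set U₂ : LaurentSeries A := qExpand A N (S18.H516.evJ G) with hU₂
  set U₁ : LaurentSeries A := H708.cstA A ⟨c, hcA⟩ *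
    ∑ i, qExpand A N (S18.H516.evJ (H i)) * H708.castA A (y' i) with hU₁
  have hU₂L : H708.incl A U₂ = qExpand L N (S18.H516.evJ (G.map A.subtype)) := by
    rw [hU₂, H708.incl, coeffMap_qExpand, S18.H516.coeffMap_evJ]
  have hU₁L : H708.incl A U₁ =
      HahnSeries.C c * ∑ i, qExpand L N (S18.H516.evJ ((H i).map A.subtype)) * castL L (y' i) := by
    rw [hU₁, map_mul, H708.incl_cstA, H708.cst, algebraMap_laurentSeries_eq_single,
      HahnSeries.C_apply, map_sum]
    congr 1
    refine Finset.sum_congr rfl fun i _ => ?_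
    rw [map_mul, H708.incl, coeffMap_qExpand, S18.H516.coeffMap_evJ, H708.castA,
      coeffMap_coeffMap,
      show (A.subtype.comp (Int.castRingHom A)) = Int.castRingHom L from RingHom.ext_int _ _]
  refine ⟨U₁, U₂, ?_, ?_, ?_⟩
  · rw [hU₂, H708.red, coeffMap_qExpand, S18.H516.coeffMap_evJ]
    intro h1
    have h1' : S18.H516.evJ (G.map (IsLocalRing.residue A)) = 0 :=
      qExpand_injective N (by rw [h1, map_zero])
    obtain ⟨m1, hG1⟩ := hG
    have h2 := (S18.H516.evJ_eq_zero_iff _).mp h1'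
    have h3 := congrArg (fun P : (IsLocalRing.ResidueField A)[X] => P.coeff m1) h2
    simp only [Polynomial.coeff_map, Polynomial.coeff_zero, hG1, map_one] at h3
    exact one_ne_zero h3
  · rw [hU₂L, ← coe_aeval_jL_top]
    exact (aeval (jL L N N dvd_rfl) (G.map A.subtype) : FL L N).2
  · rw [hU₂L, hU₁L, heW']

end Fricke

end Fermat.Agent.A2.Mod.H900

end
end
-- ===== PACK-END A2/Mod/H900/L7Core.lean

-- ===== PACK-BEGIN A2/Mod/H549/L14.lean
section



/-!
# A2 / MOD, leaf L14 (Inertia) (helper549)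

`inertia : Mod.InertiaStatement P E w` (statement of `Fermat/Agent/A2/Mod/Spec.lean`, verbatim).

Generic part (any field `L ⊇ ℚ`, any valuation subring `A` of `L`, any `F₀ ⊆ ℚ((t))`):

* `isGaussInt_coeffMap` : `σ f` is Gauss-integral (`H708.IsGaussInt`) if `f` is and `σ A ⊆ A`.
* `isGaussInt_sub_div` : if moreover `σ a - a ∈ 𝔪_A` for all `a ∈ A` and `w` generates `𝔪_A`,
  then `(σ f - f) / w` is Gauss-integral.

Modular part:

* `fricke_comm` : a ring endomorphism `W` of `L(j_d : d ∣ N)` which is the identity on `L` and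
  maps every `j_d` to a `σ`-fixed element commutes with the coefficientwise action of `σ`.

Instantiation at `L = E ⊆ ℚ̄`, `A = P ∩ E`:

* `inertia_core` : leaf L14 with the definitions of `Spec.lean` unfolded (`τE` any restriction of
  `τ` to `E`);
* `inertia` : leaf L14.
-/

set_option autoImplicit false

noncomputable section

namespace Fermat.Agent.A2.Mod.H549

open ModularCurve HahnSeries Fermat.Agent.A2

/-! ## Generic part -/

section generic

variable {L : Type*} [Field L] [Algebra ℚ L] (A : ValuationSubring L)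
  (F₀ : IntermediateField ℚ (LaurentSeries ℚ))

/-- the restriction of `σ` to `A` -/
def resA (σ : L ≃ₐ[ℚ] L) (hσA : ∀ a ∈ A, σ a ∈ A) : A →+* A where
  toFun x := ⟨σ x, hσA x x.2⟩
  map_one' := Subtype.ext (map_one σ)
  map_mul' x y := Subtype.ext (map_mul σ (x : L) (y : L))
  map_zero' := Subtype.ext (map_zero σ)
  map_add' x y := Subtype.ext (map_add σ (x : L) (y : L))

variable {A}

theorem incl_coeffMap_resA (σ : L ≃ₐ[ℚ] L) (hσA : ∀ a ∈ A, σ a ∈ A) (U : LaurentSeries A) :
    H708.incl A (coeffMap (resA A σ hσA) U) = coeffMap (σ : L →+* L) (H708.incl A U) := by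
  rw [H708.incl, coeffMap_coeffMap, coeffMap_coeffMap]
  exact coeffMap_congr (RingHom.ext fun _ => rfl) U

theorem residue_resA (σ : L ≃ₐ[ℚ] L) (hσA : ∀ a ∈ A, σ a ∈ A)
    (hσI : ∀ a ∈ A, σ a - a ∈ A.nonunits) (x : A) :
    IsLocalRing.residue A (resA A σ hσA x) = IsLocalRing.residue A x := by
  rw [← sub_eq_zero, ← map_sub, IsLocalRing.residue_eq_zero_iff,
    ← ValuationSubring.coe_mem_nonunits_iff]
  exact hσI x x.2

theorem red_coeffMap_resA (σ : L ≃ₐ[ℚ] L) (hσA : ∀ a ∈ A, σ a ∈ A)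
    (hσI : ∀ a ∈ A, σ a - a ∈ A.nonunits) (U : LaurentSeries A) :
    H708.red A (coeffMap (resA A σ hσA) U) = H708.red A U := by
  ext n
  simp only [coeffMap_coeff]
  exact residue_resA σ hσA hσI _

theorem red_coeffMap_resA_ne_zero (σ : L ≃ₐ[ℚ] L) (hσA : ∀ a ∈ A, σ a ∈ A)
    {U : LaurentSeries A} (hU : H708.red A U ≠ 0) :
    H708.red A (coeffMap (resA A σ hσA) U) ≠ 0 := by
  obtain ⟨n, hn⟩ := (H708.red_ne_zero_iff A U).mp hU
  refine (H708.red_ne_zero_iff A _).mpr ⟨n, ?_⟩
  have hunit : IsUnit (U.coeff n) := (ValuationSubring.valuation_eq_one_iff A _).mpr hn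
  have h2 : IsUnit (resA A σ hσA (U.coeff n)) := hunit.map (resA A σ hσA)
  rw [coeffMap_coeff]
  exact (ValuationSubring.valuation_eq_one_iff A _).mp h2

omit [Algebra ℚ L] in
/-- dividing an integral series with coefficients in `w A` by `w`. -/
theorem exists_cstA_mul_eq (w : A) (hw0 : w ≠ 0) (U : LaurentSeries A)
    (h : ∀ n, w ∣ U.coeff n) : ∃ U' : LaurentSeries A, H708.cstA A w * U' = U := by
  choose d hd using h
  have hsupp : Function.support d ⊆ U.support := by
    intro n hn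
    rw [Function.mem_support] at hn
    rw [HahnSeries.mem_support, hd n]
    exact mul_ne_zero hw0 hn
  refine ⟨⟨d, U.isPWO_support.mono hsupp⟩, ?_⟩
  apply HahnSeries.ext
  funext n
  rw [H708.cstA, HahnSeries.coeff_single_zero_mul]
  exact (hd n).symm

/-- `σ f` is Gauss-integral if `f` is (`σ` in the decomposition group). -/
theorem isGaussInt_coeffMap (σ : L ≃ₐ[ℚ] L) (hσA : ∀ a ∈ A, σ a ∈ A)
    {f : LaurentSeries L} (hf : H708.IsGaussInt A F₀ f) :
    H708.IsGaussInt A F₀ (coeffMap (σ : L →+* L) f) := by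
  obtain ⟨U₁, U₂, hred, hmem, heq⟩ := hf
  refine ⟨coeffMap (resA A σ hσA) U₁, coeffMap (resA A σ hσA) U₂,
    red_coeffMap_resA_ne_zero σ hσA hred, ?_, ?_⟩
  · rw [incl_coeffMap_resA]
    exact coeffMap_mem_laurentBaseChange σ hmem
  · rw [incl_coeffMap_resA, incl_coeffMap_resA, ← map_mul, heq]

/-- **Inertia acts trivially modulo `w`** on the Gauss-integral elements: `(σ f - f) / w` is
Gauss-integral. -/
theorem isGaussInt_sub_div (σ : L ≃ₐ[ℚ] L) (hσA : ∀ a ∈ A, σ a ∈ A)
    (hσI : ∀ a ∈ A, σ a - a ∈ A.nonunits) (w : A) (hw0 : w ≠ 0)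
    (hw : ∀ a : A, (a : L) ∈ A.nonunits → w ∣ a)
    {f : LaurentSeries L} (hf : H708.IsGaussInt A F₀ f) :
    H708.IsGaussInt A F₀ ((coeffMap (σ : L →+* L) f - f) * (H708.cst (w : L))⁻¹) := by
  obtain ⟨U₁, U₂, hred, hmem, heq⟩ := hf
  have e1 : coeffMap (σ : L →+* L) f * H708.incl A (coeffMap (resA A σ hσA) U₂)
      = H708.incl A (coeffMap (resA A σ hσA) U₁) := by
    rw [incl_coeffMap_resA, incl_coeffMap_resA, ← map_mul, heq]
  have hred3 : H708.red A (coeffMap (resA A σ hσA) U₁ * U₂ - U₁ * coeffMap (resA A σ hσA) U₂)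
      = 0 := by
    rw [map_sub, map_mul, map_mul, red_coeffMap_resA σ hσA hσI, red_coeffMap_resA σ hσA hσI,
      sub_self]
  have hdiv : ∀ n, w ∣
      (coeffMap (resA A σ hσA) U₁ * U₂ - U₁ * coeffMap (resA A σ hσA) U₂).coeff n := by
    intro n
    refine hw _ ?_
    rw [ValuationSubring.mem_nonunits_iff]
    exact (H708.red_eq_zero_iff A _).mp hred3 n
  obtain ⟨U₃, hU₃⟩ := exists_cstA_mul_eq w hw0 _ hdiv
  have hwL : (w : L) ≠ 0 := fun h => hw0 (Subtype.ext h)
  have hcst : H708.cst (w : L) ≠ 0 := H708.cst_ne_zero hwL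
  refine ⟨U₃, U₂ * coeffMap (resA A σ hσA) U₂, ?_, ?_, ?_⟩
  · rw [map_mul]
    exact mul_ne_zero hred (red_coeffMap_resA_ne_zero σ hσA hred)
  · rw [map_mul, incl_coeffMap_resA]
    exact mul_mem hmem (coeffMap_mem_laurentBaseChange σ hmem)
  · have key : H708.cst (w : L) * H708.incl A U₃
        = (coeffMap (σ : L →+* L) f - f) * H708.incl A (U₂ * coeffMap (resA A σ hσA) U₂) := by
      rw [← H708.incl_cstA, ← map_mul, hU₃, map_sub, map_mul, map_mul, map_mul, ← e1, ← heq]
      ring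
    rw [mul_right_comm, ← key, mul_comm (H708.cst (w : L)), mul_assoc,
      mul_inv_cancel₀ hcst, mul_one]

end generic

/-! ## The Fricke involution commutes with the Galois action -/

section fricke

variable {L : Type*} [Field L] [Algebra ℚ L] (N : ℕ)

/-- the generator `j_d` of `L(j_d : d ∣ N)` -/
def jL (L : Type*) [Field L] [Algebra ℚ L] (N : ℕ) (d : ℕ) [NeZero d] (hd : d ∣ N) :
    ↥(laurentBaseChange L (modularFunctionFieldFull N)) :=
  ⟨coeffEmb L (qExpand ℚ d jq), coeffEmb_mem_laurentBaseChange L (jqd_mem_full N hd)⟩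

/-- the coefficientwise action as a ring homomorphism -/
abbrev galHom (σ : L ≃ₐ[ℚ] L) : ↥(laurentBaseChange L (modularFunctionFieldFull N)) →+*
    ↥(laurentBaseChange L (modularFunctionFieldFull N)) :=
  ((arithmeticRingAut (modularFunctionFieldFull N) σ : _ ≃+* _) : _ →+* _)

/-- the subfield of `σ`-fixed elements -/
def fixSub (σ : L ≃ₐ[ℚ] L) : Subfield ↥(laurentBaseChange L (modularFunctionFieldFull N)) :=
  RingHom.eqLocusField (galHom N σ) (RingHom.id _)

theorem mem_fixSub {σ : L ≃ₐ[ℚ] L} {g : ↥(laurentBaseChange L (modularFunctionFieldFull N))} :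
    g ∈ fixSub N σ ↔ arithmeticRingAut (modularFunctionFieldFull N) σ g = g := Iff.rfl

theorem algebraMap_rat_mem_fixSub (σ : L ≃ₐ[ℚ] L) (c : ℚ) :
    algebraMap L ↥(laurentBaseChange L (modularFunctionFieldFull N)) (algebraMap ℚ L c)
      ∈ fixSub N σ := by
  rw [mem_fixSub, arithmeticRingAut_algebraMap, AlgEquiv.commutes]

/-- If `W` maps every generator `j_d` to a `σ`-fixed element, it maps every rational function
to a `σ`-fixed element. -/
theorem fricke_rat_fixed
    (W : ↥(laurentBaseChange L (modularFunctionFieldFull N)) →+*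
      ↥(laurentBaseChange L (modularFunctionFieldFull N)))
    (hWc : ∀ c : L, W (algebraMap L _ c) = algebraMap L _ c)
    (σ : L ≃ₐ[ℚ] L)
    (hW : ∀ (d : ℕ) [NeZero d] (hd : d ∣ N), W (jL L N d hd) ∈ fixSub N σ)
    {z : LaurentSeries ℚ} (hz : z ∈ modularFunctionFieldFull N)
    (g : ↥(laurentBaseChange L (modularFunctionFieldFull N)))
    (hg : (g : LaurentSeries L) = coeffEmb L z) : W g ∈ fixSub N σ := by
  -- the subfield of `ℚ((t))` of all `z` such that `W (coeffEmb z)` is fixed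
  let K' : Subfield (LaurentSeries ℚ) :=
    (((fixSub N σ).comap W).map
      (algebraMap ↥(laurentBaseChange L (modularFunctionFieldFull N)) (LaurentSeries L))).comap
        (coeffEmb L : LaurentSeries ℚ →+* LaurentSeries L)
  have h1 : Set.range (algebraMap ℚ (LaurentSeries ℚ)) ⊆ (K' : Set (LaurentSeries ℚ)) := by
    rintro _ ⟨c, rfl⟩
    refine ⟨algebraMap L ↥(laurentBaseChange L (modularFunctionFieldFull N))
      (algebraMap ℚ L c), ?_, ?_⟩
    · show W _ ∈ fixSub N σ
      rw [hWc]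
      exact algebraMap_rat_mem_fixSub N σ c
    · exact (Fermat.Agent.S18.H602.coeffMap_algebraMap' (algebraMap ℚ L) c).symm
  have h2 : divisorExpansions N ⊆ (K' : Set (LaurentSeries ℚ)) := by
    rintro _ ⟨d, hne, hd, rfl⟩
    haveI := hne
    exact ⟨jL L N d hd, hW d hd, rfl⟩
  have hle : (modularFunctionFieldFull N).toSubfield ≤ K' :=
    IntermediateField.adjoin_le_subfield ℚ _ h1 h2
  obtain ⟨g', hg', hgg'⟩ := hle hz
  have : g' = g := Subtype.ext (hgg'.trans hg.symm)
  rw [← this]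
  exact hg'

/-- **`τ W = W τ`.**  A ring endomorphism `W` of `L(j_d : d ∣ N)` which is the identity on `L` and
maps every generator `j_d` to a `σ`-fixed element commutes with the coefficientwise action of
`σ`. -/
theorem fricke_comm
    (W : ↥(laurentBaseChange L (modularFunctionFieldFull N)) →+*
      ↥(laurentBaseChange L (modularFunctionFieldFull N)))
    (hWc : ∀ c : L, W (algebraMap L _ c) = algebraMap L _ c)
    (σ : L ≃ₐ[ℚ] L)
    (hW : ∀ (d : ℕ) [NeZero d] (hd : d ∣ N), W (jL L N d hd) ∈ fixSub N σ)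
    (f : ↥(laurentBaseChange L (modularFunctionFieldFull N))) :
    arithmeticRingAut (modularFunctionFieldFull N) σ (W f)
      = W (arithmeticRingAut (modularFunctionFieldFull N) σ f) := by
  let S : Subfield ↥(laurentBaseChange L (modularFunctionFieldFull N)) :=
    RingHom.eqLocusField ((galHom N σ).comp W) (W.comp (galHom N σ))
  let K : Subfield (LaurentSeries L) :=
    S.map (algebraMap ↥(laurentBaseChange L (modularFunctionFieldFull N)) (LaurentSeries L))
  have h1 : Set.range (algebraMap L (LaurentSeries L)) ⊆ (K : Set (LaurentSeries L)) := by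
    rintro _ ⟨c, rfl⟩
    refine ⟨algebraMap L ↥(laurentBaseChange L (modularFunctionFieldFull N)) c, ?_, rfl⟩
    show arithmeticRingAut (modularFunctionFieldFull N) σ (W (algebraMap L _ c))
      = W (arithmeticRingAut (modularFunctionFieldFull N) σ (algebraMap L _ c))
    rw [hWc, arithmeticRingAut_algebraMap, hWc]
  have h2 : (⇑(coeffEmb L) '' ((modularFunctionFieldFull N : IntermediateField ℚ
      (LaurentSeries ℚ)) : Set (LaurentSeries ℚ))) ⊆ (K : Set (LaurentSeries L)) := by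
    rintro _ ⟨z, hz, rfl⟩
    refine ⟨⟨coeffEmb L z, coeffEmb_mem_laurentBaseChange L hz⟩, ?_, rfl⟩
    show arithmeticRingAut (modularFunctionFieldFull N) σ (W _)
      = W (arithmeticRingAut (modularFunctionFieldFull N) σ _)
    have e1 := fricke_rat_fixed N W hWc σ hW hz
      ⟨coeffEmb L z, coeffEmb_mem_laurentBaseChange L hz⟩ rfl
    rw [mem_fixSub] at e1
    have e2 : arithmeticRingAut (modularFunctionFieldFull N) σ
        ⟨coeffEmb L z, coeffEmb_mem_laurentBaseChange L hz⟩
        = ⟨coeffEmb L z, coeffEmb_mem_laurentBaseChange L hz⟩ :=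
      Subtype.ext (coeffMap_coeffEmb σ z)
    rw [e1, e2]
  have hle : (laurentBaseChange L (modularFunctionFieldFull N)).toSubfield ≤ K :=
    IntermediateField.adjoin_le_subfield L _ h1 h2
  obtain ⟨g, hg, hgf⟩ := hle f.2
  have : g = f := Subtype.ext hgf
  rw [← this]
  exact hg

end fricke

/-! ## Instantiation at `L = E ⊆ ℚ̄`, `A = P ∩ E` -/

section inst

/-- nonunits of a comap -/
theorem mem_nonunits_comap {K L : Type*} [Field K] [Field L] (A : ValuationSubring L)
    (φ : K →+* L) (x : K) : x ∈ (A.comap φ).nonunits ↔ φ x ∈ A.nonunits := by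
  rw [ValuationSubring.mem_nonunits_iff_or, ValuationSubring.mem_nonunits_iff_or,
    ValuationSubring.mem_comap, map_inv₀, map_eq_zero]

variable (P : ValuationSubring (AlgebraicClosure ℚ))
  (E : IntermediateField ℚ (AlgebraicClosure ℚ))

/-- **Leaf L14 (Inertia)**, with the definitions of `A2/Mod/Spec.lean` unfolded.
`τ` in the inertia group of `P`, `τE` its restriction to `E`, `R = P ∩ E` a DVR with uniformiser
`w`, `V` the Gauss valuation ring of `F_{N,E}`, `W` the Fricke involution: then `τ W = W τ` and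
`(τ f - f) / w ∈ V` for all `f ∈ V`. -/
theorem inertia_core (w : ↥(P.comap (algebraMap ↥E (AlgebraicClosure ℚ)))) (N : ℕ) (hN : N ≠ 0)
    (_hdvr : IsDiscreteValuationRing ↥(P.comap (algebraMap ↥E (AlgebraicClosure ℚ))))
    (hw : Irreducible w)
    (V : ValuationSubring ↥(laurentBaseChange ↥E (modularFunctionFieldFull N)))
    (W : ↥(laurentBaseChange ↥E (modularFunctionFieldFull N)) ≃ₐ[↥E]
      ↥(laurentBaseChange ↥E (modularFunctionFieldFull N)))
    (hV : ∀ f : ↥(laurentBaseChange ↥E (modularFunctionFieldFull N)), f ∈ V ↔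
      H708.IsGaussInt (P.comap (algebraMap ↥E (AlgebraicClosure ℚ)))
        (modularFunctionFieldFull N) (f : LaurentSeries ↥E))
    (hW : ∀ (d d' : ℕ) [NeZero d] [NeZero d'] (hd : d ∣ N) (hd' : d' ∣ N), d * d' = N →
      W (jL ↥E N d hd) = jL ↥E N d' hd')
    (τ : AlgebraicClosure ℚ ≃ₐ[ℚ] AlgebraicClosure ℚ) (τE : ↥E ≃ₐ[ℚ] ↥E)
    (hτE : ∀ e : ↥E, ((τE e : ↥E) : AlgebraicClosure ℚ) = τ (e : AlgebraicClosure ℚ))
    (hτ : τ ∈ P.inertiaSubgroupIn ℚ) :
    (∀ f : ↥(laurentBaseChange ↥E (modularFunctionFieldFull N)),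
      arithmeticRingAut (modularFunctionFieldFull N) τE (W f) =
        W (arithmeticRingAut (modularFunctionFieldFull N) τE f)) ∧
    ∀ f ∈ V, (arithmeticRingAut (modularFunctionFieldFull N) τE f - f) *
      (algebraMap ↥E ↥(laurentBaseChange ↥E (modularFunctionFieldFull N)) (w : ↥E))⁻¹ ∈ V := by
  constructor
  · -- `τ W = W τ`
    refine fricke_comm N (W : _ →+* _) (fun c => W.commutes c) τE ?_
    intro d hne hd
    obtain ⟨d', hd'⟩ := hd
    have hd'0 : d' ≠ 0 := by
      rintro rfl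
      exact hN (by rw [hd', mul_zero])
    haveI : NeZero d' := ⟨hd'0⟩
    have hdN : d ∣ N := ⟨d', hd'⟩
    have hd'N : d' ∣ N := ⟨d, by rw [hd', mul_comm]⟩
    show W (jL ↥E N d hdN) ∈ fixSub N τE
    rw [hW d d' hdN hd'N hd'.symm, mem_fixSub]
    exact Subtype.ext (coeffMap_coeffEmb τE _)
  · -- `τ ≡ id` modulo `w V`
    intro f hf
    have hτD := H708.mem_decomposition_of_mem_inertiaIn P hτ
    have hσA : ∀ a ∈ P.comap (algebraMap ↥E (AlgebraicClosure ℚ)), τE a ∈
        P.comap (algebraMap ↥E (AlgebraicClosure ℚ)) := by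
      intro a ha
      rw [ValuationSubring.mem_comap] at ha ⊢
      have e : algebraMap ↥E (AlgebraicClosure ℚ) (τE a)
          = τ (algebraMap ↥E (AlgebraicClosure ℚ) a) := hτE a
      rw [e]
      exact H708.apply_mem_of_mem_decomposition P hτD ha
    have hσI : ∀ a ∈ P.comap (algebraMap ↥E (AlgebraicClosure ℚ)), τE a - a ∈
        (P.comap (algebraMap ↥E (AlgebraicClosure ℚ))).nonunits := by
      intro a ha
      rw [ValuationSubring.mem_comap] at ha
      rw [mem_nonunits_comap, map_sub]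
      have e : algebraMap ↥E (AlgebraicClosure ℚ) (τE a)
          = τ (algebraMap ↥E (AlgebraicClosure ℚ) a) := hτE a
      rw [e]
      exact H708.sub_mem_nonunits_of_mem_inertiaIn P hτ ha
    have hw0 : w ≠ 0 := hw.ne_zero
    have hwgen : ∀ a : ↥(P.comap (algebraMap ↥E (AlgebraicClosure ℚ))),
        (a : ↥E) ∈ (P.comap (algebraMap ↥E (AlgebraicClosure ℚ))).nonunits → w ∣ a := by
      intro a ha
      rw [ValuationSubring.coe_mem_nonunits_iff, hw.maximalIdeal_eq,
        Ideal.mem_span_singleton] at ha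
      exact ha
    have key := isGaussInt_sub_div (F₀ := modularFunctionFieldFull N) τE hσA hσI w hw0 hwgen
      ((hV f).mp hf)
    exact (hV _).mpr key

end inst

/-- **Leaf L14** (`Mod.InertiaStatement`, verbatim). -/
theorem inertia (P : ValuationSubring Mod.Qb) (E : IntermediateField ℚ Mod.Qb)
    (w : Mod.RE P E) : Mod.InertiaStatement P E w := by
  intro N hN hdvr hw V W hV hW τ hτ hτI
  exact inertia_core P E w N hN hdvr hw V W hV hW.1 τ (Mod.resE E τ hτ) (fun _ => rfl) hτI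

end Fermat.Agent.A2.Mod.H549

end
end
-- ===== PACK-END A2/Mod/H549/L14.lean

-- ===== PACK-BEGIN A2/Mod/H816/L3.lean
section



/-!
# A2 / MOD leaf L3 (helper816): `vinfGauss : VinfGaussStatement P E w`

If `u ∈ F_N` is the image of an `R`-integral series `U = t^{-a}(c + …)`, `a > 0`, `c ∈ Rˣ`, then
for every `p ∈ R[X]` not divisible by the uniformiser `w`, `p(u)` is a unit of the Gauss
valuation ring `V∞`.

Proof: `p(u)` is the image of the integral series `Q = p(U)`; its reduction is `p̄(Ū) ≠ 0`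
(`L3Poly.eval₂_C_ne_zero_of_polar`), so `Q` is primitive, and `p(u) = Q / 1`, `p(u)⁻¹ = 1 / Q`
are Gauss-integral.
-/

set_option autoImplicit false
set_option synthInstance.maxHeartbeats 400000
set_option maxHeartbeats 1600000

noncomputable section

namespace Fermat.Agent.A2.Mod.H816

open ModularCurve HahnSeries Polynomial Fermat.Agent.A2 Fermat.Agent.A2.Mod

variable (P : ValuationSubring _root_.Fermat.Agent.A2.Mod.Qb) (E : IntermediateField ℚ _root_.Fermat.Agent.A2.Mod.Qb)

/-- `coeffMap` commutes with constants. -/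
theorem coeffMap_comp_C {R S : Type*} [CommRing R] [CommRing S] (f : R →+* S) :
    (coeffMap f).comp (HahnSeries.C : R →+* LaurentSeries R) =
      (HahnSeries.C : S →+* LaurentSeries S).comp f := by
  ext r : 1
  show coeffMap f (HahnSeries.single 0 r) = HahnSeries.single 0 (f r)
  exact coeffMap_single f 0 r

/-- The integral series `p(U)`. -/
def polyAt (p : Polynomial (_root_.Fermat.Agent.A2.Mod.RE P E)) (U : LaurentSeries (_root_.Fermat.Agent.A2.Mod.RE P E)) : LaurentSeries (_root_.Fermat.Agent.A2.Mod.RE P E) :=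
  p.eval₂ (HahnSeries.C : _root_.Fermat.Agent.A2.Mod.RE P E →+* LaurentSeries (_root_.Fermat.Agent.A2.Mod.RE P E)) U

theorem incl_polyAt (N : ℕ) (p : Polynomial (_root_.Fermat.Agent.A2.Mod.RE P E)) (U : LaurentSeries (_root_.Fermat.Agent.A2.Mod.RE P E))
    (u : _root_.Fermat.Agent.A2.Mod.FE E N) (hu : (u : LaurentSeries E) = H708.incl (_root_.Fermat.Agent.A2.Mod.RE P E) U) :
    ((ev P E N u p : _root_.Fermat.Agent.A2.Mod.FE E N) : LaurentSeries E) = H708.incl (_root_.Fermat.Agent.A2.Mod.RE P E) (polyAt P E p U) := by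
  unfold ev polyAt
  have h1 : ((p.eval₂ ((algebraMap E (_root_.Fermat.Agent.A2.Mod.FE E N)).comp (_root_.Fermat.Agent.A2.Mod.RE P E).subtype) u : _root_.Fermat.Agent.A2.Mod.FE E N) :
      LaurentSeries E) =
      p.eval₂ (((_root_.Fermat.Agent.A2.Mod.FE E N).val : _root_.Fermat.Agent.A2.Mod.FE E N →+* LaurentSeries E).comp
        ((algebraMap E (_root_.Fermat.Agent.A2.Mod.FE E N)).comp (_root_.Fermat.Agent.A2.Mod.RE P E).subtype)) (u : LaurentSeries E) :=
    Polynomial.hom_eval₂ p _ ((_root_.Fermat.Agent.A2.Mod.FE E N).val : _root_.Fermat.Agent.A2.Mod.FE E N →+* LaurentSeries E) u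
  rw [h1, hu]
  rw [H708.incl, Polynomial.hom_eval₂, coeffMap_comp_C]
  congr 1
  ext r : 1
  show ((algebraMap E (_root_.Fermat.Agent.A2.Mod.FE E N) (r : E) : _root_.Fermat.Agent.A2.Mod.FE E N) : LaurentSeries E) =
    HahnSeries.C ((r : E))
  rw [IntermediateField.coe_algebraMap_apply, algebraMap_laurentSeries_eq_single]
  rfl

theorem red_polyAt (p : Polynomial (_root_.Fermat.Agent.A2.Mod.RE P E)) (U : LaurentSeries (_root_.Fermat.Agent.A2.Mod.RE P E)) :
    H708.red (_root_.Fermat.Agent.A2.Mod.RE P E) (polyAt P E p U) =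
      (p.map (IsLocalRing.residue (_root_.Fermat.Agent.A2.Mod.RE P E))).eval₂
        (HahnSeries.C : IsLocalRing.ResidueField (_root_.Fermat.Agent.A2.Mod.RE P E) →+*
          LaurentSeries (IsLocalRing.ResidueField (_root_.Fermat.Agent.A2.Mod.RE P E))) (H708.red (_root_.Fermat.Agent.A2.Mod.RE P E) U) := by
  unfold polyAt
  rw [H708.red, Polynomial.hom_eval₂, coeffMap_comp_C, Polynomial.eval₂_map]

/-- The reduction of `p` is nonzero if `w ∤ p`. -/
theorem map_residue_ne_zero [IsDiscreteValuationRing (_root_.Fermat.Agent.A2.Mod.RE P E)] {w : _root_.Fermat.Agent.A2.Mod.RE P E} (hw : Irreducible w)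
    {p : Polynomial (_root_.Fermat.Agent.A2.Mod.RE P E)} (hp : ¬ Polynomial.C w ∣ p) :
    p.map (IsLocalRing.residue (_root_.Fermat.Agent.A2.Mod.RE P E)) ≠ 0 := by
  intro h
  apply hp
  rw [Polynomial.C_dvd_iff_dvd_coeff]
  intro i
  have h1 : (p.map (IsLocalRing.residue (_root_.Fermat.Agent.A2.Mod.RE P E))).coeff i = 0 := by rw [h]; simp
  rw [Polynomial.coeff_map, IsLocalRing.residue_eq_zero_iff] at h1
  rw [(IsDiscreteValuationRing.irreducible_iff_uniformizer w).mp hw,
    Ideal.mem_span_singleton] at h1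
  exact h1

/-- **L3.** -/
theorem vinfGauss (w : _root_.Fermat.Agent.A2.Mod.RE P E) : VinfGaussStatement P E w := by
  intro N _hN hdvr hw V hV u U a ha hu h0 hc p hp
  have := hdvr
  set Q := polyAt P E p U with hQ
  have hincl := incl_polyAt P E N p U u hu
  -- `Q` is primitive
  have hred : H708.red (_root_.Fermat.Agent.A2.Mod.RE P E) Q ≠ 0 := by
    rw [hQ, red_polyAt]
    refine eval₂_C_ne_zero_of_polar (a := -(a : ℤ)) (by omega) ?_ ?_
      (map_residue_ne_zero P E hw hp)
    · intro n hn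
      show (IsLocalRing.residue (_root_.Fermat.Agent.A2.Mod.RE P E)) (U.coeff n) = 0
      rw [h0 n hn, map_zero]
    · show (IsLocalRing.residue (_root_.Fermat.Agent.A2.Mod.RE P E)) (U.coeff (-(a : ℤ))) ≠ 0
      rw [Ne, IsLocalRing.residue_eq_zero_iff]
      exact fun hmem => (IsLocalRing.mem_maximalIdeal _).mp hmem hc
  have hQ0 : Q ≠ 0 := H708.ne_zero_of_red_ne_zero _ hred
  have hne : ((ev P E N u p : _root_.Fermat.Agent.A2.Mod.FE E N) : LaurentSeries E) ≠ 0 := by
    rw [hincl]; exact H708.incl_ne_zero _ hQ0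
  have hmemF : H708.incl (_root_.Fermat.Agent.A2.Mod.RE P E) Q ∈ laurentBaseChange E (modularFunctionFieldFull N) := by
    rw [← hincl]; exact (ev P E N u p).2
  constructor
  · rw [hV, hincl]
    exact H708.IsGaussInt.of_incl Q
  · rw [hV]
    refine ⟨1, Q, hred, hmemF, ?_⟩
    have hcoe : (((ev P E N u p)⁻¹ : _root_.Fermat.Agent.A2.Mod.FE E N) : LaurentSeries E) =
        ((ev P E N u p : _root_.Fermat.Agent.A2.Mod.FE E N) : LaurentSeries E)⁻¹ := rfl
    rw [hcoe, ← hincl, map_one]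
    exact inv_mul_cancel₀ hne

end Fermat.Agent.A2.Mod.H816

end

end
-- ===== PACK-END A2/Mod/H816/L3.lean

-- ===== PACK-BEGIN A2/Mod/H96/L12Lift.lean
section



/-!
# A2 / MOD leaf L12 (helper96), part 1: two closure lemmas on `F_k = k(j(t^d) : d ∣ N)`

`A` a valuation subring of a field `L ⊇ ℚ`, `κ` its residue field.

* `exists_lift_of_mem_fullC` : every element of `F_κ ⊆ κ((t))` is a quotient `Ū₁ / Ū₂` of
  reductions of `A`-integral series lying in `F_L = L(j(t^d) : d ∣ N)`, `Ū₂ ≠ 0`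
  (the residue map of the Gauss valuation ring is onto `F_κ`);
* `exists_frob_root_of_mem_fullC` : if `k` has characteristic `q` and surjective Frobenius, then
  every `r ∈ F_k` has a "Frobenius twist" `r' ∈ F_k` with `r' ^ q = r(t^q)`.
-/

set_option autoImplicit false
set_option linter.unusedSectionVars false
set_option linter.style.haveILetI false

noncomputable section

namespace Fermat.Agent.A2.Mod.H96

open ModularCurve HahnSeries

section Lift

variable {L : Type*} [Field L] [Algebra ℚ L] (A : ValuationSubring L)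
variable (N : ℕ) [NeZero N]

theorem incl_castA_jqNModC_mem (d : ℕ) [NeZero d] (hd : d ∣ N) :
    H708.incl A (coeffMap (Int.castRingHom A) (jqNModC ℤ d)) ∈
      laurentBaseChange L (modularFunctionFieldFull N) := by
  rw [H708.incl_castA]
  have h1 : H708.castQ (jqNModC ℤ d) = qExpand ℚ d jq := by
    show coeffMap (Int.castRingHom ℚ) (jqNModC ℤ d) = _
    rw [coeffMap_jqNModC]
    rfl
  rw [h1]
  exact coeffEmb_mem_laurentBaseChange L (jqd_mem_full N hd)

theorem red_castA_jqNModC (d : ℕ) [NeZero d] :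
    H708.red A (coeffMap (Int.castRingHom A) (jqNModC ℤ d)) =
      qExpand (IsLocalRing.ResidueField A) d (jqModC (IsLocalRing.ResidueField A)) := by
  show coeffMap (IsLocalRing.residue A) (coeffMap (Int.castRingHom A) (jqNModC ℤ d)) = _
  rw [coeffMap_coeffMap, coeffMap_jqNModC]
  rfl

/-- **Lifting.** Every element of `F_κ` is a quotient of reductions of integral series of `F_L`. -/
theorem exists_lift_of_mem_fullC {r : LaurentSeries (IsLocalRing.ResidueField A)}
    (hr : r ∈ modularFunctionFieldFullC (IsLocalRing.ResidueField A) N) :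
    ∃ U₁ U₂ : LaurentSeries A,
      H708.incl A U₁ ∈ laurentBaseChange L (modularFunctionFieldFull N) ∧
      H708.incl A U₂ ∈ laurentBaseChange L (modularFunctionFieldFull N) ∧
      H708.red A U₂ ≠ 0 ∧ H708.red A U₁ = r * H708.red A U₂ := by
  unfold modularFunctionFieldFullC at hr
  induction hr using IntermediateField.adjoin_induction with
  | mem x hx =>
    obtain ⟨d, hd, hdN, rfl⟩ := hx
    refine ⟨coeffMap (Int.castRingHom A) (jqNModC ℤ d), 1, incl_castA_jqNModC_mem A N d hdN, ?_,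
      ?_, ?_⟩
    · rw [map_one]; exact one_mem _
    · rw [map_one]; exact one_ne_zero
    · rw [map_one, mul_one, red_castA_jqNModC]
  | algebraMap c =>
    obtain ⟨a, rfl⟩ := IsLocalRing.residue_surjective c
    refine ⟨H708.cstA A a, 1, ?_, ?_, ?_, ?_⟩
    · rw [H708.incl_cstA]
      exact (laurentBaseChange L (modularFunctionFieldFull N)).algebraMap_mem _
    · rw [map_one]; exact one_mem _
    · rw [map_one]; exact one_ne_zero
    · rw [map_one, mul_one, H708.red_cstA, algebraMap_laurentSeries_eq_single]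
  | add x y hx hy ihx ihy =>
    obtain ⟨U₁, U₂, h1, h2, h0, he⟩ := ihx
    obtain ⟨W₁, W₂, g1, g2, g0, ge⟩ := ihy
    refine ⟨U₁ * W₂ + W₁ * U₂, U₂ * W₂, ?_, ?_, ?_, ?_⟩
    · rw [map_add, map_mul, map_mul]
      exact add_mem (mul_mem h1 g2) (mul_mem g1 h2)
    · rw [map_mul]; exact mul_mem h2 g2
    · rw [map_mul]; exact mul_ne_zero h0 g0
    · rw [map_add, map_mul, map_mul, map_mul, he, ge]
      ring
  | inv x hx ihx =>
    obtain ⟨U₁, U₂, h1, h2, h0, he⟩ := ihx
    by_cases hx0 : x = 0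
    · refine ⟨0, 1, ?_, ?_, ?_, ?_⟩
      · rw [map_zero]; exact zero_mem _
      · rw [map_one]; exact one_mem _
      · rw [map_one]; exact one_ne_zero
      · rw [hx0, inv_zero, zero_mul, map_zero]
    · refine ⟨U₂, U₁, h2, h1, ?_, ?_⟩
      · rw [he]; exact mul_ne_zero hx0 h0
      · rw [he, ← mul_assoc, inv_mul_cancel₀ hx0, one_mul]
  | mul x y hx hy ihx ihy =>
    obtain ⟨U₁, U₂, h1, h2, h0, he⟩ := ihx
    obtain ⟨W₁, W₂, g1, g2, g0, ge⟩ := ihy
    refine ⟨U₁ * W₁, U₂ * W₂, ?_, ?_, ?_, ?_⟩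
    · rw [map_mul]; exact mul_mem h1 g1
    · rw [map_mul]; exact mul_mem h2 g2
    · rw [map_mul]; exact mul_ne_zero h0 g0
    · rw [map_mul, map_mul, he, ge]
      ring

end Lift

section Frob

variable (k : Type*) [Field k] (q : ℕ) [NeZero q] (N : ℕ) [NeZero N]

/-- `j(t^d)^q = j(t^{dq})` in characteristic `q` (integer coefficients). -/
theorem jqd_pow_char (hq : q.Prime) [CharP k q] (d : ℕ) [NeZero d] :
    (qExpand k d (jqModC k)) ^ q = qExpand k q (qExpand k d (jqModC k)) := by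
  haveI : Fact q.Prime := ⟨hq⟩
  obtain ⟨g, hg⟩ := H528.exists_frobCong q (jqNModC ℤ d)
  have h := congrArg (coeffMap (Int.castRingHom k)) hg
  rw [map_sub, map_mul, map_pow, coeffMap_qExpand, coeffMap_jqNModC] at h
  have hC : coeffMap (Int.castRingHom k) (HahnSeries.C ((q : ℕ) : ℤ)) = 0 := by
    have h1 : (HahnSeries.C ((q : ℕ) : ℤ) : LaurentSeries ℤ) = HahnSeries.single 0 ((q : ℕ) : ℤ) :=
      rfl
    rw [h1, coeffMap_single]
    have h2 : (Int.castRingHom k) ((q : ℕ) : ℤ) = 0 := by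
      rw [eq_intCast, Int.cast_natCast]
      exact CharP.cast_eq_zero k q
    rw [h2, HahnSeries.single_eq_zero]
  rw [hC, zero_mul, sub_eq_zero] at h
  exact h.symm

/-- **Frobenius twist on `F_k`.** -/
theorem exists_frob_root_of_mem_fullC (hq : q.Prime) [CharP k q]
    (hperf : ∀ c : k, ∃ c' : k, c' ^ q = c) {r : LaurentSeries k}
    (hr : r ∈ modularFunctionFieldFullC k N) :
    ∃ r' ∈ modularFunctionFieldFullC k N, r' ^ q = qExpand k q r := by
  haveI : Fact q.Prime := ⟨hq⟩
  haveI : CharP (LaurentSeries k) q :=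
    charP_of_injective_algebraMap (algebraMap k (LaurentSeries k)).injective q
  have key : ∀ x ∈ IntermediateField.adjoin k (divisorExpansionsC k N),
      ∃ r' ∈ modularFunctionFieldFullC k N, r' ^ q = qExpand k q x := by
    intro x hx
    induction hx using IntermediateField.adjoin_induction with
    | mem x hx =>
      obtain ⟨d, hd, hdN, rfl⟩ := hx
      exact ⟨_, jqModCd_mem_full k N hdN, jqd_pow_char k q hq d⟩
    | algebraMap c =>
      obtain ⟨c', rfl⟩ := hperf c
      refine ⟨algebraMap k (LaurentSeries k) c',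
        (modularFunctionFieldFullC k N).algebraMap_mem _, ?_⟩
      rw [← map_pow, algebraMap_laurentSeries_eq_single, qExpand_single, mul_zero]
    | add x y hx hy ihx ihy =>
      obtain ⟨x', hx', hxe⟩ := ihx
      obtain ⟨y', hy', hye⟩ := ihy
      refine ⟨x' + y', add_mem hx' hy', ?_⟩
      rw [add_pow_char, hxe, hye, map_add]
    | inv x hx ihx =>
      obtain ⟨x', hx', hxe⟩ := ihx
      refine ⟨x'⁻¹, inv_mem hx', ?_⟩
      rw [inv_pow, hxe, map_inv₀]
    | mul x y hx hy ihx ihy =>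
      obtain ⟨x', hx', hxe⟩ := ihx
      obtain ⟨y', hy', hye⟩ := ihy
      refine ⟨x' * y', mul_mem hx' hy', ?_⟩
      rw [mul_pow, hxe, hye, map_mul]
  exact key r hr

end Frob

end Fermat.Agent.A2.Mod.H96

end
end
-- ===== PACK-END A2/Mod/H96/L12Lift.lean

-- ===== PACK-BEGIN A2/Mod/H708/Vinf.lean
section



/-!
# A2 / MOD leaves L1 `VinfExists` and L2 `VinfBasic` (helper708)

Exact shapes of `Fermat/Agent/A2/Mod/Spec.lean` (architect helper994):

* `vinfE P E N : ValuationSubring (FE E N)` — the Gauss valuation ring at `∞` over `R_E = P ∩ E`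
  (`= H708.gaussInf`), for `R_E` noetherian;
* `isVinf_vinfE`, `eq_vinfE_of_isVinf` (the predicate `IsVinf` determines `V`);
* `vinfExists : VinfExistsStatement P E`                                              (L1);
* `vinfBasic : VinfBasicStatement P E w`                                              (L2);
* reusable: `mem_of_isVinf_of_incl`, `inv_mem_of_isVinf_of_incl` (functions with an `R_E`-integral,
  resp. primitive `R_E`-integral, expansion are integral, resp. units),
  `algebraMap_mem_iff_of_isVinf`, `exists_const_mul_unit_of_isVinf`, `red_castA_jInt_ne_zero`.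
-/

set_option autoImplicit false
set_option synthInstance.maxHeartbeats 400000
set_option maxHeartbeats 1600000

noncomputable section

namespace Fermat.Agent.A2.Mod.H708

open ModularCurve HahnSeries Polynomial
open Fermat.Agent.A2

variable (P : ValuationSubring _root_.Fermat.Agent.A2.Mod.Qb) (E : IntermediateField ℚ _root_.Fermat.Agent.A2.Mod.Qb)

/-- The Gauss valuation ring at `∞` of `F_{N,E}` over `R_E` (`R_E` noetherian, e.g. a DVR). -/
def vinfE (N : ℕ) [IsNoetherianRing (_root_.Fermat.Agent.A2.Mod.RE P E)] : ValuationSubring (_root_.Fermat.Agent.A2.Mod.FE E N) :=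
  H708.gaussInf (_root_.Fermat.Agent.A2.Mod.RE P E) (modularFunctionFieldFull N) (H708.intGen_full N)
    (H708.attainsMax_of_isNoetherianRing (_root_.Fermat.Agent.A2.Mod.RE P E) (modularFunctionFieldFull N))

theorem isVinf_vinfE (N : ℕ) [IsNoetherianRing (_root_.Fermat.Agent.A2.Mod.RE P E)] : IsVinf P E N (vinfE P E N) :=
  fun _ => Iff.rfl

variable {P E}

/-- `IsVinf` determines the valuation ring. -/
theorem eq_vinfE_of_isVinf {N : ℕ} [IsNoetherianRing (_root_.Fermat.Agent.A2.Mod.RE P E)] {V : ValuationSubring (_root_.Fermat.Agent.A2.Mod.FE E N)}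
    (hV : IsVinf P E N V) : V = vinfE P E N := by
  ext f
  rw [hV f]
  exact Iff.rfl

/-- functions with an `R_E`-integral expansion lie in `V∞`. -/
theorem mem_of_isVinf_of_incl {N : ℕ} {V : ValuationSubring (_root_.Fermat.Agent.A2.Mod.FE E N)} (hV : IsVinf P E N V)
    {f : _root_.Fermat.Agent.A2.Mod.FE E N} (U : LaurentSeries (_root_.Fermat.Agent.A2.Mod.RE P E))
    (h : (f : LaurentSeries E) = H708.incl (_root_.Fermat.Agent.A2.Mod.RE P E) U) : f ∈ V := by
  rw [hV f, h]
  exact H708.IsGaussInt.of_incl U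

/-- functions with a primitive `R_E`-integral expansion are units of `V∞`. -/
theorem inv_mem_of_isVinf_of_incl {N : ℕ} {V : ValuationSubring (_root_.Fermat.Agent.A2.Mod.FE E N)} (hV : IsVinf P E N V)
    {f : _root_.Fermat.Agent.A2.Mod.FE E N} (U : LaurentSeries (_root_.Fermat.Agent.A2.Mod.RE P E))
    (h : (f : LaurentSeries E) = H708.incl (_root_.Fermat.Agent.A2.Mod.RE P E) U) (hU : H708.red (_root_.Fermat.Agent.A2.Mod.RE P E) U ≠ 0) :
    f⁻¹ ∈ V := by
  rw [hV f⁻¹]
  have hf0 : (f : LaurentSeries E) ≠ 0 := by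
    rw [h]
    exact H708.incl_ne_zero (_root_.Fermat.Agent.A2.Mod.RE P E) (H708.ne_zero_of_red_ne_zero (_root_.Fermat.Agent.A2.Mod.RE P E) hU)
  refine ⟨1, U, hU, h ▸ f.2, ?_⟩
  rw [IntermediateField.coe_inv, ← h, inv_mul_cancel₀ hf0, map_one]

/-- `V∞ ∩ E = R_E`. -/
theorem algebraMap_mem_iff_of_isVinf {N : ℕ} [IsNoetherianRing (_root_.Fermat.Agent.A2.Mod.RE P E)]
    {V : ValuationSubring (_root_.Fermat.Agent.A2.Mod.FE E N)} (hV : IsVinf P E N V) (e : E) :
    algebraMap E (_root_.Fermat.Agent.A2.Mod.FE E N) e ∈ V ↔ e ∈ _root_.Fermat.Agent.A2.Mod.RE P E := by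
  rw [eq_vinfE_of_isVinf hV]
  exact H708.algebraMap_mem_gaussInf_iff _ _ e

/-- value group of `V∞` = value group of `R_E`. -/
theorem exists_const_mul_unit_of_isVinf {N : ℕ} [IsNoetherianRing (_root_.Fermat.Agent.A2.Mod.RE P E)]
    {V : ValuationSubring (_root_.Fermat.Agent.A2.Mod.FE E N)} (hV : IsVinf P E N V) {f : _root_.Fermat.Agent.A2.Mod.FE E N} (hf : f ≠ 0) :
    ∃ c : E, c ≠ 0 ∧ V.valuation (f * (algebraMap E (_root_.Fermat.Agent.A2.Mod.FE E N) c)⁻¹) = 1 := by
  rw [eq_vinfE_of_isVinf hV]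
  exact H708.exists_const_mul_unit _ _ hf

/-- the reduction of `j(t^d)` is nonzero. -/
theorem red_castA_jInt_ne_zero (d : ℕ) [NeZero d] :
    H708.red (_root_.Fermat.Agent.A2.Mod.RE P E) (H708.castA (_root_.Fermat.Agent.A2.Mod.RE P E) (H708.jInt d)) ≠ 0 := by
  have h1 : H708.red (_root_.Fermat.Agent.A2.Mod.RE P E) (H708.castA (_root_.Fermat.Agent.A2.Mod.RE P E) (H708.jInt d))
      = jqNModC (IsLocalRing.ResidueField (_root_.Fermat.Agent.A2.Mod.RE P E)) d := by
    show coeffMap _ (coeffMap _ (jqNModC ℤ d)) = _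
    rw [coeffMap_jqNModC, coeffMap_jqNModC]
  rw [h1]
  intro h0
  have h2 : (jqNModC (IsLocalRing.ResidueField (_root_.Fermat.Agent.A2.Mod.RE P E)) d).coeff ((d : ℤ) * (-1)) = 1 := by
    rw [jqNModC, qExpand_coeff_mul, coeff_jqModC_neg_one]
  rw [h0] at h2
  simp at h2

/-- `j_d` has the `R_E`-integral expansion `j(t^d) ∈ ℤ((t))`. -/
theorem coe_jE_eq (N d : ℕ) [NeZero d] (hd : d ∣ N) :
    ((jE E N d hd : _root_.Fermat.Agent.A2.Mod.FE E N) : LaurentSeries E)
      = H708.incl (_root_.Fermat.Agent.A2.Mod.RE P E) (H708.castA (_root_.Fermat.Agent.A2.Mod.RE P E) (H708.jInt d)) := by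
  rw [H708.incl_castA, H708.castQ_jInt]
  rfl

section L1

variable (P E)

/-- **L1** (`VinfExistsStatement`): the Gauss valuation ring exists at every level. -/
theorem vinfExists : VinfExistsStatement P E := by
  intro N _ hdvr
  have := hdvr
  exact ⟨vinfE P E N, isVinf_vinfE P E N⟩

end L1

section L2

variable (P E) (w : _root_.Fermat.Agent.A2.Mod.RE P E)

/-- **L2** (`VinfBasicStatement`): `w` is a uniformiser of `V∞`, `V∞ ∩ E = R_E`, and the
generators `j_d` are units of `V∞`. -/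
theorem vinfBasic : VinfBasicStatement P E w := by
  intro N _ hdvr hw V hV
  have := hdvr
  have hw0 : (w : E) ≠ 0 := fun h => hw.ne_zero (Subtype.ext h)
  refine ⟨⟨?_, ?_, ?_⟩, fun e => algebraMap_mem_iff_of_isVinf hV e, ?_⟩
  · -- `w ∈ V`
    exact (algebraMap_mem_iff_of_isVinf hV (w : E)).mpr w.2
  · -- `w⁻¹ ∉ V`
    intro h
    have h1 : (cE P E N w)⁻¹ = algebraMap E (_root_.Fermat.Agent.A2.Mod.FE E N) ((w : E)⁻¹) := by
      rw [cE, map_inv₀]
    rw [h1] at h
    have h2 : (w : E)⁻¹ ∈ _root_.Fermat.Agent.A2.Mod.RE P E := (algebraMap_mem_iff_of_isVinf hV _).mp h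
    refine hw.not_isUnit (IsUnit.of_mul_eq_one (⟨(w : E)⁻¹, h2⟩ : _root_.Fermat.Agent.A2.Mod.RE P E) ?_)
    exact Subtype.ext (mul_inv_cancel₀ hw0)
  · -- every non-unit is divisible by `w`
    intro f hf hfinv
    have hf0 : f ≠ 0 := by
      rintro rfl
      exact hfinv (by rw [inv_zero]; exact V.zero_mem)
    obtain ⟨c, hc, hu⟩ := exists_const_mul_unit_of_isVinf hV hf0
    have hcF : algebraMap E (_root_.Fermat.Agent.A2.Mod.FE E N) c ≠ 0 := by
      rw [Ne, map_eq_zero]
      exact hc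
    -- `v(f) = v(c)`
    have hvf : V.valuation f = V.valuation (algebraMap E (_root_.Fermat.Agent.A2.Mod.FE E N) c) := by
      rw [map_mul, map_inv₀] at hu
      have hv0 : V.valuation (algebraMap E (_root_.Fermat.Agent.A2.Mod.FE E N) c) ≠ 0 :=
        (Valuation.ne_zero_iff _).mpr hcF
      calc V.valuation f
          = V.valuation f * (V.valuation (algebraMap E (_root_.Fermat.Agent.A2.Mod.FE E N) c))⁻¹ *
              V.valuation (algebraMap E (_root_.Fermat.Agent.A2.Mod.FE E N) c) := by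
            rw [mul_assoc, inv_mul_cancel₀ hv0, mul_one]
        _ = V.valuation (algebraMap E (_root_.Fermat.Agent.A2.Mod.FE E N) c) := by rw [hu, one_mul]
    have hcV : algebraMap E (_root_.Fermat.Agent.A2.Mod.FE E N) c ∈ V := by
      rw [← ValuationSubring.valuation_le_one_iff, ← hvf, ValuationSubring.valuation_le_one_iff]
      exact hf
    have hcinvV : (algebraMap E (_root_.Fermat.Agent.A2.Mod.FE E N) c)⁻¹ ∉ V := by
      rw [← ValuationSubring.valuation_le_one_iff, map_inv₀, ← hvf, ← map_inv₀,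
        ValuationSubring.valuation_le_one_iff]
      exact hfinv
    have hcR : c ∈ _root_.Fermat.Agent.A2.Mod.RE P E := (algebraMap_mem_iff_of_isVinf hV c).mp hcV
    have hcinvR : c⁻¹ ∉ _root_.Fermat.Agent.A2.Mod.RE P E := by
      intro h
      exact hcinvV (by rw [← map_inv₀]; exact (algebraMap_mem_iff_of_isVinf hV _).mpr h)
    -- `c` is a non-unit of `R_E`, hence divisible by `w`
    have hnu : ¬ IsUnit (⟨c, hcR⟩ : _root_.Fermat.Agent.A2.Mod.RE P E) := by
      intro hunit
      obtain ⟨d, hd⟩ := hunit.exists_right_inv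
      apply hcinvR
      have h3 : c * (d : E) = 1 := congrArg Subtype.val hd
      have h4 : c⁻¹ = (d : E) := inv_eq_of_mul_eq_one_right h3
      rw [h4]
      exact d.2
    have hmem : (⟨c, hcR⟩ : _root_.Fermat.Agent.A2.Mod.RE P E) ∈ IsLocalRing.maximalIdeal (_root_.Fermat.Agent.A2.Mod.RE P E) :=
      (IsLocalRing.mem_maximalIdeal _).mpr hnu
    rw [(IsDiscreteValuationRing.irreducible_iff_uniformizer w).mp hw,
      Ideal.mem_span_singleton] at hmem
    obtain ⟨d, hd⟩ := hmem
    have hcd : c = (w : E) * (d : E) := congrArg Subtype.val hd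
    have hdV : algebraMap E (_root_.Fermat.Agent.A2.Mod.FE E N) (d : E) ∈ V := (algebraMap_mem_iff_of_isVinf hV _).mpr d.2
    have hunitV : f * (algebraMap E (_root_.Fermat.Agent.A2.Mod.FE E N) c)⁻¹ ∈ V := by
      rw [← ValuationSubring.valuation_le_one_iff, hu]
    have hkey : f * (cE P E N w)⁻¹
        = f * (algebraMap E (_root_.Fermat.Agent.A2.Mod.FE E N) c)⁻¹ * algebraMap E (_root_.Fermat.Agent.A2.Mod.FE E N) (d : E) := by
      have hwF : cE P E N w ≠ 0 := by
        rw [cE, Ne, map_eq_zero]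
        exact hw0
      have hcF' : algebraMap E (_root_.Fermat.Agent.A2.Mod.FE E N) c = cE P E N w * algebraMap E (_root_.Fermat.Agent.A2.Mod.FE E N) (d : E) := by
        rw [cE, ← map_mul, hcd]
      have hdF : algebraMap E (_root_.Fermat.Agent.A2.Mod.FE E N) (d : E) ≠ 0 := by
        intro h0
        rw [h0, mul_zero] at hcF'
        exact hcF hcF'
      rw [hcF']
      field_simp
    rw [hkey]
    exact V.mul_mem _ _ hunitV hdV
  · -- the `j_d` are units
    intro d _ hd
    exact ⟨mem_of_isVinf_of_incl hV _ (coe_jE_eq N d hd),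
      inv_mem_of_isVinf_of_incl hV _ (coe_jE_eq N d hd) (red_castA_jInt_ne_zero d)⟩

end L2

end Fermat.Agent.A2.Mod.H708

end
end
-- ===== PACK-END A2/Mod/H708/Vinf.lean

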