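import Fermat.Prelude.Def_GaloisRep_ComplexConjugation
import Mathlib.Analysis.Complex.UpperHalfPlane.MoebiusAction
import Mathlib.NumberTheory.ModularForms.CongruenceSubgroups
import Mathlib
import Fermat.Prelude.Def_ModularCurve_X0ModL
import Fermat.Prelude.Def_ModularCurve_JqCoeff
import Fermat.Prelude.Def_AlgebraicCurve_DivisorClassGroup
import Fermat.Prelude.Thm_ModularForm_sturm_bound_Gamma0
import Fermat.Prelude.Def_EllipticCurve_FrobeniusTrace
import Fermat.Prelude.Def_ModularCurve_LaurentCoeff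
import Fermat.Prelude.Def_FLTPrelim_Modularity
import Fermat.Prelude.Def_ModularCurve_PeriodMap
import Fermat.Prelude.Def_FLTPrelim_ModularRep
import Fermat.Prelude.Def_GaloisRep_Residual
import Fermat.Prelude.Def_FLTPrelim_Ramification
import Fermat.Agent.Pack.S15.AE1L1
import Fermat.Agent.Pack.S15.AE1L3
import Fermat.Agent.Pack.S15.AE0L3
import Fermat.Agent.Pack.S15.AE1L2
import Fermat.Agent.Pack.S15.AE1L0
import Fermat.Agent.Pack.S15.AE0L2
import Fermat.Agent.Pack.S15.AE0L0
import Fermat.Agent.Pack.S15.AE0L1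

-- ===== PACK-BEGIN S15/H975/DescSpec2.lean
section




/-!
# Row S15, node DESC-CORE: FROZEN SKELETON, OFFICIAL ROUTE (row-lead helper975, 21:10Z)

Route of helper208 (no T7) + the REAL place for COUNT (helpers 111/302/591/646/784/886/915):

    SelStatement  <==  FLAG + COUNT + CNT + STEP          (`SelAsmStatement`, pure algebra)

with, for `g ∈ Gal(ℚ̄/ℚ)`,  `cocImage p S r g := (g - 1) Y(W_E)`  (a subgroup of `W_E`), and

* `K  := cocImage p S r complexConjugation`   (the real place),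
* `U₀ := cocImage p S r τ₀`, `τ₀` in the inertia group of a place over `p`,
* COUNT : `|K|² ≤ |W_E|`                      (CONJ + EPS + Manin pairing; odd `r` and `r = 2`),
* CNT   : `|U₀|² ≤ [Y(W_E) : A]`              (`H208.card_tauSub_YE_sq_le` + T6'' + DIV),
* STEP  : the step bounds `StepBound p r K U₀ F' F` for all Eisenstein pieces, for a suitable
          `τ₀` (BASE + G3 + PEU; class field theory of `ℚ`).

The old nodes `LocalStatement`, `LocPStatement`, `T6Statement`, `T7Statement`,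
`CountOddStatement`, `LocR2Statement` of `DescSpec.lean` are the BACKUP route.
-/

set_option autoImplicit false

noncomputable section

namespace Fermat.Agent.S15.H975

open ModularCurve

/-- `(g - 1) Y(W_E)`: the values at `g` of the cocycles of the points of `Y(W_E)`. -/
def cocImage (p : ℕ) [NeZero p] (S : Set ℕ) (r : ℕ) (g : _root_.Fermat.Agent.S15.H975.Gal) : AddSubgroup (JZero p) :=
  (sel p r (eis p S r)).map (Fermat.Agent.S15.H208.tauSub g)

theorem mem_cocImage {p : ℕ} [NeZero p] {S : Set ℕ} {r : ℕ} {g : _root_.Fermat.Agent.S15.H975.Gal} {w : JZero p} :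
    w ∈ cocImage p S r g ↔ ∃ y ∈ sel p r (eis p S r), g • y - y = w :=
  Iff.rfl

theorem cocImage_le (p : ℕ) [NeZero p] (S : Set ℕ) (r : ℕ) (g : _root_.Fermat.Agent.S15.H975.Gal) :
    cocImage p S r g ≤ eis p S r := by
  rintro w ⟨y, hy, rfl⟩
  exact hy.2 g

/-- **SEL**: the Selmer bound for every prime `r ∣ p - 1`. -/
def SelStatement : Prop :=
  ∀ (p : ℕ) [NeZero p], p.Prime → ∀ (S : Finset ℕ) (r : ℕ), r.Prime → r ∣ p - 1 →
    SelBound p (S : Set ℕ) r

/-- **COUNT** (real place, all `r`): `|(c - 1) Y(W_E)|² ≤ |W_E|`. -/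
def CountStatement : Prop :=
  ∀ (p : ℕ) [NeZero p], p.Prime → ∀ (S : Finset ℕ) (r : ℕ), r.Prime → r ∣ p - 1 →
    Nat.card ↥(cocImage p (S : Set ℕ) r complexConjugation) ^ 2 ≤
      Nat.card ↥(eis p (S : Set ℕ) r)

/-- **CNT** (place `p`, route 208): `|(τ₀ - 1) Y(W_E)|² ≤ [Y(W_E) : A]` for every inertia element
`τ₀` at a place over `p`, as soon as the index is finite. -/
def CntStatement : Prop :=
  ∀ (p : ℕ) [NeZero p], p.Prime → ∀ (S : Finset ℕ) (r : ℕ), r.Prime → r ∣ p - 1 →
    ∀ A : ValuationSubring Qb, A.LiesOverPrime p → ∀ τ₀ ∈ A.inertiaSubgroupIn ℚ,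
      (rat p).relIndex (sel p r (eis p (S : Set ℕ) r)) ≠ 0 →
      Nat.card ↥(cocImage p (S : Set ℕ) r τ₀) ^ 2 ≤
        (rat p).relIndex (sel p r (eis p (S : Set ℕ) r))

/-- **STEP** (BASE + G3 + PEU): for a suitable inertia element `τ₀` at `p` every Eisenstein
piece satisfies the step bound relative to `K = (c - 1) Y(W_E)` and `U₀ = (τ₀ - 1) Y(W_E)`. -/
def StepStatement : Prop :=
  ∀ (p : ℕ) [NeZero p], p.Prime → ∀ (S : Finset ℕ) (r : ℕ), r.Prime → r ∣ p - 1 →
    ∃ A : ValuationSubring Qb, A.LiesOverPrime p ∧ ∃ τ₀ ∈ A.inertiaSubgroupIn ℚ,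
      ∀ F' F : AddSubgroup (JZero p), F ≤ eis p (S : Set ℕ) r → IsEisPiece p r F' F →
        StepBound p r (cocImage p (S : Set ℕ) r complexConjugation)
          (cocImage p (S : Set ℕ) r τ₀) F' F

/-- **SEL-ASM** (pure algebra: `H51`/`H842` engine + `H208.selfImproving`). -/
def SelAsmStatement : Prop :=
  FlagStatement → CountStatement → CntStatement → StepStatement → SelStatement

/-- Route 1 (backup): SEL from ENGINE + FLAG + LOCAL. -/
theorem selStatement_of_local (hE : EngineStatement) (hFlag : FlagStatement)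
    (hLoc : LocalStatement) (hFin : FinStatement) : SelStatement := by
  intro p _ hp S r hr hrp
  have hW : Finite ↥(tors p r) := hFin p r hr.pos
  obtain ⟨D, F, hF⟩ := hFlag p hp S r hr hrp
  obtain ⟨K, U, hK, hU, hKU, hstep⟩ := hLoc p hp S r hr hrp
  have hmono : ∀ j, j ≤ D → ∀ i, i ≤ j → F i ≤ F j := by
    intro j
    induction j with
    | zero =>
      intro _ i hi
      rw [Nat.le_zero.mp hi]
    | succ j ih =>
      intro hj i hi
      rcases Nat.lt_or_ge i (j + 1) with h | h
      · exact (ih (Nat.le_of_succ_le hj) i (Nat.lt_succ_iff.mp h)).trans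
          (hF.2.2 j (Nat.lt_of_succ_le hj)).1
      · rw [le_antisymm hi h]
  exact hE p (S : Set ℕ) r hr hW K U hK hU hKU D F hF fun i hi =>
    hstep (F i) (F (i + 1)) (by rw [← hF.2.1]; exact hmono D le_rfl (i + 1) hi) (hF.2.2 i hi)

end Fermat.Agent.S15.H975

end

end
-- ===== PACK-END S15/H975/DescSpec2.lean

-- ===== PACK-BEGIN Lib/RR/Zeros.lean
section



/-!
# RR library, layer L2: the zeros of `x` number at most `[F : K(x)]`  (Stichtenoth 1.3.3)

Proof.  Let `P_1, …, P_r` be distinct zeros of `x`, `e_i = ord_{P_i} x`.  Choose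
uniformizers `t_i` at `P_i` and (approximation) `s_i` with `ord_{P_i} s_i = 0` and
`ord_{P_k} s_i ≥ M` for `k ≠ i`, `M` large.  The `∑ e_i` elements `t_i ^ a * s_i`
(`0 ≤ a < e_i`) are linearly independent over `K(x)`: the order of a nonzero element of `K(x)`
at `P_i` is `n * e_i` with `n` independent of `i`; in a nontrivial relation pick the term with
lexicographically least `(n, a)`; at its place it has strictly smaller order than all others.
-/

set_option autoImplicit false

noncomputable section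

open AlgebraicCurve Polynomial

namespace Fermat.Agent.Lib.RR

variable {K F : Type*} [Field K] [Field F] [Algebra K F]

theorem add_ne_zero_of_ord_lt (v : Place K F) {f g : F}
    (h : v.ord f < v.ord g) : f + g ≠ 0 := by
  intro h0
  have : g = -f := by rw [← sub_eq_zero, sub_neg_eq_add, add_comm]; exact h0
  rw [this, ord_neg] at h
  exact lt_irrefl _ h

theorem aeval_mem (v : Place K F) {x : F} (hx : 0 ≤ v.ord x) (p : K[X]) :
    aeval x p ∈ v.toValuationSubring := by
  induction p using Polynomial.induction_on' with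
  | add p q hp hq => rw [map_add]; exact add_mem hp hq
  | monomial n c =>
    rw [aeval_monomial]
    exact mul_mem (v.algebraMap_mem' c) (pow_mem (mem_of_ord_nonneg v hx) n)

/-- A polynomial in `x` with nonzero constant term is a unit at every zero of `x`. -/
theorem aeval_of_coeff_zero_ne (v : Place K F) {x : F} (hx : 0 < v.ord x) {p : K[X]}
    (hp : p.coeff 0 ≠ 0) : aeval x p ≠ 0 ∧ v.ord (aeval x p) = 0 := by
  have hdecomp : aeval x p = algebraMap K F (p.coeff 0) + aeval x p.divX * x := by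
    conv_lhs => rw [← Polynomial.divX_mul_X_add p]
    simp [add_comm]
  have hc0 : algebraMap K F (p.coeff 0) ≠ 0 := by
    simpa using hp
  have hc : v.ord (algebraMap K F (p.coeff 0)) = 0 := ord_algebraMap v _
  rcases eq_or_ne (aeval x p.divX * x) 0 with h0 | h0
  · rw [hdecomp, h0, add_zero]; exact ⟨hc0, hc⟩
  · have hx0 : x ≠ 0 := right_ne_zero_of_mul h0
    have hr0 : aeval x p.divX ≠ 0 := left_ne_zero_of_mul h0
    have hr : 0 ≤ v.ord (aeval x p.divX) := ord_nonneg_of_mem v (aeval_mem v hx.le _)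
    have hlt : v.ord (algebraMap K F (p.coeff 0)) < v.ord (aeval x p.divX * x) := by
      rw [hc, v.ord_mul hr0 hx0]; omega
    rw [hdecomp]
    exact ⟨add_ne_zero_of_ord_lt v hlt, by rw [ord_add_eq_of_lt v hc0 h0 hlt, hc]⟩

/-- The order of a nonzero polynomial in `x` at a zero of `x`. -/
theorem aeval_ord (v : Place K F) {x : F} (hx : 0 < v.ord x) {p : K[X]} (hp : p ≠ 0) :
    aeval x p ≠ 0 ∧ v.ord (aeval x p) = (p.rootMultiplicity 0 : ℤ) * v.ord x := by
  obtain ⟨q, hq, hq'⟩ := Polynomial.exists_eq_pow_rootMultiplicity_mul_and_not_dvd p hp 0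
  have hq0 : q.coeff 0 ≠ 0 := by
    intro h; apply hq'
    rw [C_0, sub_zero]; exact Polynomial.X_dvd_iff.mpr h
  obtain ⟨h1, h2⟩ := aeval_of_coeff_zero_ne v hx hq0
  have hx0 : x ≠ 0 := ne_zero_of_ord_ne_zero v hx.ne'
  have hval : aeval x p = x ^ (p.rootMultiplicity 0) * aeval x q := by
    conv_lhs => rw [hq]
    simp
  rw [hval]
  refine ⟨mul_ne_zero (pow_ne_zero _ hx0) h1, ?_⟩
  rw [v.ord_mul (pow_ne_zero _ hx0) h1, ord_pow, h2, add_zero]

/-- **Lemma A**: the order of a nonzero element of `K(x)` at a zero `v` of `x` is a multiple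
`n * ord_v x`, with `n` independent of `v`. -/
theorem exists_ord_eq_mul {x : F} (c : IntermediateField.adjoin K {x}) (hc : c ≠ 0) :
    ∃ n : ℤ, ∀ v : Place K F, 0 < v.ord x → v.ord (c : F) = n * v.ord x := by
  obtain ⟨r, s, hrs⟩ := (IntermediateField.mem_adjoin_simple_iff K (c : F)).mp c.2
  have hcF : (c : F) ≠ 0 := by simpa using hc
  have hr : r ≠ 0 := by
    rintro rfl; apply hcF; rw [hrs]; simp
  have hs : s ≠ 0 := by
    rintro rfl; apply hcF; rw [hrs]; simp
  refine ⟨(r.rootMultiplicity 0 : ℤ) - (s.rootMultiplicity 0 : ℤ), fun v hv => ?_⟩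
  obtain ⟨hr1, hr2⟩ := aeval_ord v hv hr
  obtain ⟨hs1, hs2⟩ := aeval_ord v hv hs
  rw [hrs, div_eq_mul_inv, v.ord_mul hr1 (inv_ne_zero hs1), v.ord_inv, hr2, hs2]
  ring


/-- **L2** (zeros): the zeros of `x`, counted with multiplicity, number at most `[F : K(x)]`. -/
theorem sum_ord_le_finrank (hdeg : ∀ v : Place K F, v.deg = 1) (x : F)
    [FiniteDimensional (IntermediateField.adjoin K {x}) F]
    (S : Finset (Place K F)) (hS : ∀ v ∈ S, 0 < v.ord x) :
    ∑ v ∈ S, v.ord x ≤ (Module.finrank (IntermediateField.adjoin K {x}) F : ℤ) := by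
  classical
  have _ := hdeg
  -- multiplicities
  set e : Place K F → ℕ := fun v => (v.ord x).toNat with he
  have he_cast : ∀ v ∈ S, (e v : ℤ) = v.ord x := fun v hv =>
    Int.toNat_of_nonneg (hS v hv).le
  -- uniformizers
  choose t ht using fun v : Place K F => exists_ord_eq_one v
  have ht0 : ∀ v, t v ≠ 0 := fun v => ne_zero_of_ord_ne_zero v (by rw [ht v]; omega)
  -- the bound `M`
  set M : ℕ := ∑ v ∈ S, e v + ∑ v ∈ S, ∑ w ∈ S, e w * (v.ord (t w)).natAbs with hM
  have hMbound : ∀ v ∈ S, ∀ w ∈ S, e v + e w * (v.ord (t w)).natAbs ≤ M := by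
    intro v hv w hw
    have h1 : e v ≤ ∑ v ∈ S, e v := Finset.single_le_sum (fun _ _ => Nat.zero_le _) hv
    have h2 : e w * (v.ord (t w)).natAbs ≤ ∑ w ∈ S, e w * (v.ord (t w)).natAbs :=
      Finset.single_le_sum (f := fun w => e w * (v.ord (t w)).natAbs)
        (fun _ _ => Nat.zero_le _) hw
    have h3 : ∑ w ∈ S, e w * (v.ord (t w)).natAbs
        ≤ ∑ v ∈ S, ∑ w ∈ S, e w * (v.ord (t w)).natAbs :=
      Finset.single_le_sum (f := fun v => ∑ w ∈ S, e w * (v.ord (t w)).natAbs)
        (fun _ _ => Nat.zero_le _) hv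
    omega
  -- approximating units
  choose s hs0 hsv hsw using fun w : Place K F =>
    exists_unit_zeros w (S.erase w) (Finset.notMem_erase w S) M
  -- the family
  let I := Σ v : S, Fin (e v)
  let b : I → F := fun i => t i.1 ^ (i.2 : ℕ) * s i.1
  have hb0 : ∀ i, b i ≠ 0 := fun i => mul_ne_zero (pow_ne_zero _ (ht0 _)) (hs0 _)
  -- orders of the family
  have hb_self : ∀ (i : I) (v : Place K F), v = i.1 → v.ord (b i) = ((i.2 : ℕ) : ℤ) := by
    rintro i v rfl
    show (i.1 : Place K F).ord (t i.1 ^ (i.2 : ℕ) * s i.1) = _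
    rw [Place.ord_mul _ (pow_ne_zero _ (ht0 _)) (hs0 _), ord_pow, ht, hsv]
    simp
  have hb_other : ∀ (i : I) (v : Place K F), v ∈ S → v ≠ i.1 → (e v : ℤ) ≤ v.ord (b i) := by
    intro i v hv hne
    show (e v : ℤ) ≤ v.ord (t i.1 ^ (i.2 : ℕ) * s i.1)
    rw [Place.ord_mul _ (pow_ne_zero _ (ht0 _)) (hs0 _), ord_pow]
    have h1 : (M : ℤ) ≤ v.ord (s i.1) :=
      hsw i.1 v (Finset.mem_erase.mpr ⟨hne, hv⟩)
    have h2 := hMbound v hv i.1 i.1.2
    have h3 : ((i.2 : ℕ) : ℤ) < e i.1 := by exact_mod_cast i.2.2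
    have h4 : -(((v.ord (t i.1)).natAbs : ℕ) : ℤ) ≤ v.ord (t i.1) := by
      rw [Int.natCast_natAbs]; exact neg_abs_le _
    have h5 : -((e i.1 : ℤ) * ((v.ord (t i.1)).natAbs : ℤ)) ≤ ((i.2 : ℕ) : ℤ) * v.ord (t i.1) := by
      have h6 : (0 : ℤ) ≤ ((i.2 : ℕ) : ℤ) := Int.natCast_nonneg _
      have h7 : (0 : ℤ) ≤ ((v.ord (t i.1)).natAbs : ℤ) := Int.natCast_nonneg _
      nlinarith
    have h2' : (e v : ℤ) + (e i.1 : ℤ) * ((v.ord (t i.1)).natAbs : ℤ) ≤ M := by
      exact_mod_cast h2
    omega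
  -- linear independence over `K(x)`
  have hli : LinearIndependent (IntermediateField.adjoin K {x}) b := by
    rw [Fintype.linearIndependent_iff]
    intro g hg
    by_contra hcon
    simp only [not_forall] at hcon
    obtain ⟨j, hj⟩ := hcon
    -- orders of the coefficients
    have hn : ∀ i : I, ∃ n : ℤ, g i ≠ 0 →
        ∀ v : Place K F, 0 < v.ord x → v.ord ((g i : F)) = n * v.ord x := by
      intro i
      by_cases hgi : g i = 0
      · exact ⟨0, fun h => absurd hgi h⟩
      · obtain ⟨n, hn⟩ := exists_ord_eq_mul (g i) hgi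
        exact ⟨n, fun _ => hn⟩
    choose n hn using hn
    set E : ℤ := ∑ v ∈ S, (e v : ℤ) with hE
    have hE_ge : ∀ v ∈ S, (e v : ℤ) ≤ E := fun v hv =>
      Finset.single_le_sum (f := fun v => (e v : ℤ)) (fun _ _ => Int.natCast_nonneg _) hv
    let T : Finset I := Finset.univ.filter fun i => g i ≠ 0
    have hT : T.Nonempty := ⟨j, by simp [T, hj]⟩
    obtain ⟨i₀, hi₀T, hmin⟩ := T.exists_min_image (fun i => n i * E + ((i.2 : ℕ) : ℤ)) hT
    have hgi₀ : g i₀ ≠ 0 := by simpa [T] using hi₀T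
    set v₀ : Place K F := i₀.1.1 with hv₀
    have hv₀S : v₀ ∈ S := i₀.1.2
    have hv₀x : 0 < v₀.ord x := hS v₀ hv₀S
    have ha₀ : ((i₀.2 : ℕ) : ℤ) < e v₀ := by exact_mod_cast i₀.2.2
    have he₀ : (e v₀ : ℤ) = v₀.ord x := he_cast v₀ hv₀S
    let y : I → F := fun i => (g i : F) * b i
    have hy : ∀ i, g i • b i = y i := fun i => by
      show g i • b i = (g i : F) * b i
      rw [Algebra.smul_def]; rfl
    have hgF : ∀ i, g i ≠ 0 → (g i : F) ≠ 0 := fun i h => by simpa using h
    have hy₀ : y i₀ ≠ 0 := mul_ne_zero (hgF i₀ hgi₀) (hb0 i₀)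
    have hord₀ : v₀.ord (y i₀) = n i₀ * v₀.ord x + ((i₀.2 : ℕ) : ℤ) := by
      show v₀.ord ((g i₀ : F) * b i₀) = _
      rw [v₀.ord_mul (hgF i₀ hgi₀) (hb0 i₀), hn i₀ hgi₀ v₀ hv₀x, hb_self i₀ v₀ rfl]
    have hothers : ∀ i ∈ Finset.univ.erase i₀, y i = 0 ∨ v₀.ord (y i₀) < v₀.ord (y i) := by
      intro i hi
      have hne : i ≠ i₀ := Finset.ne_of_mem_erase hi
      by_cases hgi : g i = 0
      · left; show (g i : F) * b i = 0; rw [hgi]; simp
      right
      have hiT : i ∈ T := by simp [T, hgi]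
      have hmin_i := hmin i hiT
      have hai : ((i.2 : ℕ) : ℤ) < e i.1 := by exact_mod_cast i.2.2
      have hai0 : (0 : ℤ) ≤ ((i.2 : ℕ) : ℤ) := Int.natCast_nonneg _
      have ha₀0 : (0 : ℤ) ≤ ((i₀.2 : ℕ) : ℤ) := Int.natCast_nonneg _
      have hEi : (e i.1 : ℤ) ≤ E := hE_ge i.1 i.1.2
      have hE₀ : (e v₀ : ℤ) ≤ E := hE_ge v₀ hv₀S
      -- `n i ≥ n i₀`
      have hnge : n i₀ ≤ n i := by
        by_contra hlt
        have hlt' : n i + 1 ≤ n i₀ := by omega
        have : (n i + 1) * E ≤ n i₀ * E :=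
          mul_le_mul_of_nonneg_right hlt' (by linarith)
        nlinarith
      have hordi : v₀.ord (y i) = n i * v₀.ord x + v₀.ord (b i) := by
        show v₀.ord ((g i : F) * b i) = _
        rw [v₀.ord_mul (hgF i hgi) (hb0 i), hn i hgi v₀ hv₀x]
      rw [hord₀, hordi]
      by_cases hvi : (i.1 : Place K F) = v₀
      · -- same place
        have hbi : v₀.ord (b i) = ((i.2 : ℕ) : ℤ) := hb_self i v₀ hvi.symm
        rw [hbi]
        rcases hnge.lt_or_eq with hlt | heq
        · have hlt' : n i₀ + 1 ≤ n i := by omega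
          have : (n i₀ + 1) * v₀.ord x ≤ n i * v₀.ord x :=
            mul_le_mul_of_nonneg_right hlt' hv₀x.le
          nlinarith
        · have h1 : ((i₀.2 : ℕ) : ℤ) ≤ ((i.2 : ℕ) : ℤ) := by
            rw [heq] at hmin_i; linarith
          have h2 : ((i₀.2 : ℕ) : ℤ) ≠ ((i.2 : ℕ) : ℤ) := by
            intro h
            apply hne
            have h3 : (i.2 : ℕ) = (i₀.2 : ℕ) := by exact_mod_cast h.symm
            have h4 : i.1 = i₀.1 := Subtype.ext hvi
            obtain ⟨iv, ia⟩ := i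
            obtain ⟨jv, ja⟩ := i₀
            simp only at h4 h3
            subst h4
            congr 1
            exact Fin.ext h3
          rw [heq]
          omega
      · -- different place
        have hbi : (e v₀ : ℤ) ≤ v₀.ord (b i) := hb_other i v₀ hv₀S (fun h => hvi h.symm)
        have : n i₀ * v₀.ord x ≤ n i * v₀.ord x :=
          mul_le_mul_of_nonneg_right hnge hv₀x.le
        omega
    have hsum : y i₀ + ∑ i ∈ Finset.univ.erase i₀, y i = 0 := by
      rw [Finset.add_sum_erase _ _ (Finset.mem_univ i₀)]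
      simpa [hy] using hg
    rcases ord_sum_gt v₀ (Finset.univ.erase i₀) y (v₀.ord (y i₀)) hothers with h0 | hgt
    · rw [h0, add_zero] at hsum; exact hy₀ hsum
    · have : ∑ i ∈ Finset.univ.erase i₀, y i = -y i₀ := by
        rw [← sub_eq_zero, sub_neg_eq_add, add_comm]; exact hsum
      rw [this, ord_neg] at hgt
      exact lt_irrefl _ hgt
  have hcard := hli.fintype_card_le_finrank
  have hcardI : Fintype.card I = ∑ v ∈ S, e v := by
    simp only [I, Fintype.card_sigma, Fintype.card_fin]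
    exact Finset.sum_coe_sort S e
  rw [hcardI] at hcard
  have hsum : ∑ v ∈ S, v.ord x = ((∑ v ∈ S, e v : ℕ) : ℤ) := by
    push_cast
    exact Finset.sum_congr rfl fun v hv => (he_cast v hv).symm
  rw [hsum]
  exact_mod_cast hcard


theorem sum_ord_le_finrank_of_eq (hdeg : ∀ v : Place K F, v.deg = 1) (x : F)
    (L : IntermediateField K F) (hL : L = IntermediateField.adjoin K {x})
    [FiniteDimensional L F]
    (S : Finset (Place K F)) (hS : ∀ v ∈ S, 0 < v.ord x) :
    ∑ v ∈ S, v.ord x ≤ (Module.finrank L F : ℤ) := by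
  subst hL
  exact sum_ord_le_finrank hdeg x S hS

theorem adjoin_inv_eq (x : F) :
    IntermediateField.adjoin K {x} = IntermediateField.adjoin K {x⁻¹} := by
  apply le_antisymm
  · rw [IntermediateField.adjoin_simple_le_iff]
    have := inv_mem (IntermediateField.mem_adjoin_simple_self K x⁻¹)
    rwa [inv_inv] at this
  · rw [IntermediateField.adjoin_simple_le_iff]
    exact inv_mem (IntermediateField.mem_adjoin_simple_self K x)

/-- **L2** (poles): the poles of `x`, counted with multiplicity, number at most `[F : K(x)]`. -/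
theorem sum_neg_ord_le_finrank (hdeg : ∀ v : Place K F, v.deg = 1) (x : F)
    [FiniteDimensional (IntermediateField.adjoin K {x}) F]
    (S : Finset (Place K F)) (hS : ∀ v ∈ S, v.ord x < 0) :
    ∑ v ∈ S, -v.ord x ≤ (Module.finrank (IntermediateField.adjoin K {x}) F : ℤ) := by
  have h := sum_ord_le_finrank_of_eq hdeg x⁻¹ (IntermediateField.adjoin K {x})
    (adjoin_inv_eq x) S (fun v hv => by rw [v.ord_inv]; have := hS v hv; omega)
  simpa [Place.ord_inv] using h

end Fermat.Agent.Lib.RR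

end
end
-- ===== PACK-END Lib/RR/Zeros.lean

-- ===== PACK-BEGIN Lib/RR/H409/RiemannOf.lean
section


/-!
# RR library, layer L3.1: Riemann's theorem, with the pole bound (L2) as an explicit hypothesis

`exists_riemann_bound_of`: if for every `x` with `F` finite over `K(x)` the poles of `x`, counted
with multiplicity, number at most `[F : K(x)]`, then `deg D - ℓ(D)` is bounded above.
(Stichtenoth 1.4.17.)
-/

set_option autoImplicit false

noncomputable section

open AlgebraicCurve

namespace Fermat.Agent.Lib.RR.H409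

open Fermat.Agent.Lib.RR

variable {K F : Type*} [Field K] [Field F] [Algebra K F]

/-- The negative part `v ↦ max 0 (-(D v))` of a divisor. -/
def negPartDiv (D : Divisor K F) : Divisor K F :=
  Finsupp.mapRange (fun n : ℤ => max 0 (-n)) (by simp) D

@[simp] theorem negPartDiv_apply (D : Divisor K F) (v : Place K F) :
    negPartDiv D v = max 0 (-(D v)) := by
  simp [negPartDiv]

/-- The positive part `v ↦ max 0 (D v)` of a divisor. -/
def posPartDiv (D : Divisor K F) : Divisor K F :=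
  Finsupp.mapRange (fun n : ℤ => max 0 n) (by simp) D

@[simp] theorem posPartDiv_apply (D : Divisor K F) (v : Place K F) :
    posPartDiv D v = max 0 (D v) := by
  simp [posPartDiv]

theorem negPartDiv_nonneg (D : Divisor K F) : 0 ≤ negPartDiv D := by
  rw [Finsupp.le_def]; intro v; simp

theorem posPartDiv_nonneg (D : Divisor K F) : 0 ≤ posPartDiv D := by
  rw [Finsupp.le_def]; intro v; simp

theorem le_posPartDiv (D : Divisor K F) : D ≤ posPartDiv D := by
  rw [Finsupp.le_def]; intro v; simp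

/-- The `K`-linear independence of the powers of a transcendental element. -/
theorem linearIndependent_pow_of_transcendental {x : F} (hx : Transcendental K x) :
    LinearIndependent K (fun i : ℕ => x ^ i) := by
  have h1 := (Polynomial.basisMonomials K).linearIndependent.map'
    (Polynomial.aeval x).toLinearMap
    (LinearMap.ker_eq_bot.mpr (transcendental_iff_injective.mp hx))
  have h2 : (fun i : ℕ => x ^ i)
      = (Polynomial.aeval x).toLinearMap ∘ (Polynomial.basisMonomials K) := by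
    ext i
    simp [Polynomial.coe_basisMonomials]
  rw [h2]
  exact h1

/-- Key independence: `x ^ i * u j` are `K`-linearly independent. -/
theorem linearIndependent_pow_mul {x : F} (hx : Transcendental K x) {n : ℕ}
    (u : Fin n → F) (hu : LinearIndependent (IntermediateField.adjoin K {x}) u) (l : ℕ) :
    LinearIndependent K (fun p : Fin (l + 1) × Fin n => x ^ (p.1 : ℕ) * u p.2) := by
  let x' : IntermediateField.adjoin K {x} := IntermediateField.AdjoinSimple.gen K x
  have hx' : ∀ i : ℕ, ((x' ^ i : IntermediateField.adjoin K {x}) : F) = x ^ i := by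
    intro i; simp [x']
  have hb : LinearIndependent K (fun i : Fin (l + 1) => x' ^ (i : ℕ)) := by
    have h0 : LinearIndependent K (fun i : ℕ => x' ^ i) := by
      apply LinearIndependent.of_comp
        (IsScalarTower.toAlgHom K (IntermediateField.adjoin K {x}) F).toLinearMap
      have h3 := linearIndependent_pow_of_transcendental (K := K) hx
      have h4 : (⇑(IsScalarTower.toAlgHom K (IntermediateField.adjoin K {x}) F).toLinearMap ∘
          fun i : ℕ => x' ^ i) = fun i : ℕ => x ^ i := by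
        ext i
        simp [x']
      rw [h4]
      exact h3
    exact h0.comp _ Fin.val_injective
  have h := linearIndependent_smul hb hu
  have h5 : (fun p : Fin (l + 1) × Fin n => x ^ (p.1 : ℕ) * u p.2)
      = fun p : Fin (l + 1) × Fin n => x' ^ (p.1 : ℕ) • u p.2 := by
    ext p
    rw [IntermediateField.smul_def, smul_eq_mul, hx']
  rw [h5]
  exact h

section FF1

variable [hFF : FF1 K F]

/-- The pole divisor `(z)_∞` of a nonzero function. -/
def poleDiv (z : F) (hz : z ≠ 0) : Divisor K F := negPartDiv (divOf z hz)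

theorem poleDiv_apply (z : F) (hz : z ≠ 0) (v : Place K F) :
    poleDiv z hz v = max 0 (-(v.ord z)) := by
  simp [poleDiv, divOf_apply]

theorem poleDiv_nonneg (z : F) (hz : z ≠ 0) : 0 ≤ poleDiv (K := K) z hz := negPartDiv_nonneg _

theorem neg_poleDiv_le_ord (z : F) (hz : z ≠ 0) (v : Place K F) :
    -(poleDiv z hz v) ≤ v.ord z := by
  rw [poleDiv_apply]
  have := le_max_right 0 (-(v.ord z))
  omega

/-- The degree of the pole divisor, as the sum of the pole orders. -/
theorem degree_poleDiv_le (z : F) (hz : z ≠ 0) (n : ℤ)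
    (h : ∀ S : Finset (Place K F), (∀ v ∈ S, v.ord z < 0) → ∑ v ∈ S, -v.ord z ≤ n) :
    Divisor.degree (poleDiv (K := K) z hz) ≤ n := by
  rw [degree_eq_sum]
  have hS : ∀ v ∈ (poleDiv (K := K) z hz).support, v.ord z < 0 := by
    intro v hv
    rw [Finsupp.mem_support_iff, poleDiv_apply] at hv
    by_contra hcon
    apply hv
    rw [max_eq_left (by omega)]
  refine le_trans (le_of_eq ?_) (h _ hS)
  refine Finset.sum_congr rfl fun v hv => ?_
  have := hS v hv
  rw [poleDiv_apply, deg_eq_one v, max_eq_right (by omega)]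
  simp

/-- Step 1: the `n (l + 1)` functions `x ^ i * u j` lie in `L(l B + C)`. -/
theorem le_ell_of_basis {x : F} (hx : Transcendental K x) {n : ℕ} (u : Fin n → F)
    (hu : LinearIndependent (IntermediateField.adjoin K {x}) u)
    (B C : Divisor K F) (hB0 : 0 ≤ B) (hB : ∀ v : Place K F, -(B v) ≤ v.ord x)
    (hC : ∀ (j : Fin n) (v : Place K F), -(C v) ≤ v.ord (u j)) (l : ℕ) :
    n * (l + 1) ≤ ell (l • B + C) := by
  classical
  have hx0 : x ≠ 0 := fun h => hx (h ▸ isAlgebraic_zero)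
  have hli := linearIndependent_pow_mul hx u hu l
  have hmem : ∀ p : Fin (l + 1) × Fin n,
      x ^ (p.1 : ℕ) * u p.2 ∈ riemannRochSpace (l • B + C) := by
    intro p
    rw [mem_L_iff]
    intro v
    right
    rw [v.ord_mul (pow_ne_zero _ hx0) (hu.ne_zero p.2), ord_pow]
    have h1 := hB v
    have h2 := hC p.2 v
    have h3 : 0 ≤ B v := by simpa using Finsupp.le_def.mp hB0 v
    have h4 : ((p.1 : ℕ) : ℤ) ≤ (l : ℤ) := by exact_mod_cast Nat.lt_succ_iff.mp p.1.2
    have h5 : (0 : ℤ) ≤ ((p.1 : ℕ) : ℤ) := Nat.cast_nonneg _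
    rw [Finsupp.add_apply, Finsupp.smul_apply, nsmul_eq_mul]
    nlinarith [mul_nonneg h5 (show (0 : ℤ) ≤ v.ord x + B v by omega),
      mul_nonneg (show (0 : ℤ) ≤ (l : ℤ) - ((p.1 : ℕ) : ℤ) by omega) h3]
  have hspan : Submodule.span K
      (Set.range fun p : Fin (l + 1) × Fin n => x ^ (p.1 : ℕ) * u p.2)
        ≤ riemannRochSpace (l • B + C) :=
    Submodule.span_le.mpr (by rintro _ ⟨p, rfl⟩; exact hmem p)
  have h1 := Submodule.finrank_mono hspan
  rw [finrank_span_eq_card hli] at h1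
  simpa [ell, Fintype.card_prod, mul_comm] using h1

/-- **Riemann's theorem**, with the pole bound (layer L2) as an explicit hypothesis. -/
theorem exists_riemann_bound_of
    (hL2 : ∀ (x : F) [FiniteDimensional (IntermediateField.adjoin K {x}) F]
      (S : Finset (Place K F)), (∀ v ∈ S, v.ord x < 0) →
      ∑ v ∈ S, -v.ord x ≤ (Module.finrank (IntermediateField.adjoin K {x}) F : ℤ)) :
    ∃ γ : ℤ, ∀ D : Divisor K F, Divisor.degree D - ell D ≤ γ := by
  classical
  obtain ⟨x, hx, hfin⟩ := hFF.exists_finite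
  have hfin' : FiniteDimensional (IntermediateField.adjoin K {x}) F := hfin
  have hx0 : x ≠ 0 := fun h => hx (h ▸ isAlgebraic_zero)
  obtain ⟨n, hn⟩ : ∃ n : ℕ, n = Module.finrank (IntermediateField.adjoin K {x}) F := ⟨_, rfl⟩
  have hnpos : 0 < n := hn ▸ Module.finrank_pos
  let b := Module.finBasis (IntermediateField.adjoin K {x}) F
  have hu : LinearIndependent (IntermediateField.adjoin K {x}) (fun j => b j) :=
    b.linearIndependent
  let B : Divisor K F := poleDiv x hx0
  let C : Divisor K F := ∑ j, poleDiv (b j) (hu.ne_zero j)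
  have hC0 : 0 ≤ C := Finset.sum_nonneg fun j _ => poleDiv_nonneg _ _
  have hC : ∀ (j : Fin (Module.finrank (IntermediateField.adjoin K {x}) F)) (v : Place K F),
      -(C v) ≤ v.ord (b j) := by
    intro j v
    have h1 : poleDiv (b j) (hu.ne_zero j) ≤ C :=
      Finset.single_le_sum (f := fun j => poleDiv (K := K) (b j) (hu.ne_zero j))
        (fun i _ => poleDiv_nonneg _ _) (Finset.mem_univ j)
    have h2 := Finsupp.le_def.mp h1 v
    have h3 := neg_poleDiv_le_ord (K := K) (b j) (hu.ne_zero j) v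
    omega
  have hdegB : Divisor.degree B ≤ n :=
    degree_poleDiv_le x hx0 n (fun S hS => hn ▸ hL2 x S hS)
  have key : ∀ l : ℕ, (n : ℤ) * (l + 1) - Divisor.degree C ≤ ell (l • B) := by
    intro l
    have h1 := le_ell_of_basis hx (fun j => b j) hu B C (poleDiv_nonneg _ _)
      (neg_poleDiv_le_ord _ _) hC l
    have h2 := degree_sub_ell_mono (D := l • B) (D' := l • B + C) (le_add_of_nonneg_right hC0)
    rw [map_add] at h2
    have h3 : ((Module.finrank (IntermediateField.adjoin K {x}) F * (l + 1) : ℕ) : ℤ)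
        ≤ ell (l • B + C) := by exact_mod_cast h1
    rw [← hn] at h3
    push_cast at h3
    linarith
  have keyB : ∀ l : ℕ, Divisor.degree (l • B) - ell (l • B) ≤ Divisor.degree C - n := by
    intro l
    have h1 := key l
    have h2 : Divisor.degree (l • B) = l * Divisor.degree B := by
      rw [map_nsmul, nsmul_eq_mul]
    have h3 : (l : ℤ) * Divisor.degree B ≤ l * n :=
      mul_le_mul_of_nonneg_left hdegB (Nat.cast_nonneg l)
    rw [h2]
    linarith
  refine ⟨Divisor.degree C - n, fun A => ?_⟩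
  have hA : Divisor.degree A - ell A
      ≤ Divisor.degree (posPartDiv A) - ell (posPartDiv A) :=
    degree_sub_ell_mono (le_posPartDiv A)
  obtain ⟨A₁, hA₁, hA₁0⟩ : ∃ A₁ : Divisor K F, A₁ = posPartDiv A ∧ 0 ≤ A₁ :=
    ⟨_, rfl, posPartDiv_nonneg A⟩
  rw [← hA₁] at hA
  refine hA.trans ?_
  obtain ⟨l, hl⟩ : ∃ l : ℕ, l = (Divisor.degree C + Divisor.degree A₁).toNat := ⟨_, rfl⟩
  have hl1 : Divisor.degree C + Divisor.degree A₁ ≤ l := hl ▸ Int.self_le_toNat _
  have hpos : 0 < ell (l • B - A₁) := by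
    have h1 := degree_sub_ell_mono (D := l • B - A₁) (D' := l • B)
      (sub_le_self _ hA₁0)
    rw [map_sub] at h1
    have h2 := key l
    have h3 : (l : ℤ) + 1 ≤ (n : ℤ) * (l + 1) := by
      have : (1 : ℤ) ≤ n := by exact_mod_cast hnpos
      nlinarith
    have h4 : (0 : ℤ) < ell (l • B - A₁) := by linarith
    exact_mod_cast h4
  obtain ⟨⟨z, hzL⟩, hz⟩ := Module.finrank_pos_iff_exists_ne_zero.mp hpos
  have hz0 : z ≠ 0 := fun h => hz (Subtype.ext h)
  have hD' : A₁ + divOf z⁻¹ (inv_ne_zero hz0) ≤ l • B := by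
    rw [Finsupp.le_def]
    intro v
    have h1 := (mem_L_iff.mp hzL v).resolve_left hz0
    rw [Finsupp.sub_apply, Finsupp.smul_apply, nsmul_eq_mul] at h1
    rw [Finsupp.add_apply, Finsupp.smul_apply, nsmul_eq_mul, divOf_apply, v.ord_inv]
    omega
  have h5 := degree_sub_ell_mono hD'
  rw [map_add, degree_divOf, add_zero, ell_add_divOf] at h5
  exact h5.trans (keyB l)

end FF1

end Fermat.Agent.Lib.RR.H409

end
end
-- ===== PACK-END Lib/RR/H409/RiemannOf.lean

-- ===== PACK-BEGIN Lib/RR/H409/Riemann.lean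
section



/-!
# RR library, layer L3.1: Riemann's theorem (exact skeleton statement)

Obtained from `exists_riemann_bound_of` (file `RiemannOf.lean`, which does not depend on layer
L2) and the pole bound `sum_neg_ord_le_finrank` of layer L2.
-/

set_option autoImplicit false

noncomputable section

open AlgebraicCurve

namespace Fermat.Agent.Lib.RR.H409

open Fermat.Agent.Lib.RR

variable (K F : Type*) [Field K] [Field F] [Algebra K F]

/-- **L3.1** Riemann's theorem: `deg D - ℓ(D)` is bounded above. -/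
theorem exists_riemann_bound [FF1 K F] :
    ∃ γ : ℤ, ∀ D : Divisor K F, Divisor.degree D - ell D ≤ γ :=
  exists_riemann_bound_of fun x _ S hS => sum_neg_ord_le_finrank FF1.deg_eq_one x S hS

end Fermat.Agent.Lib.RR.H409

end
end
-- ===== PACK-END Lib/RR/H409/Riemann.lean

-- ===== PACK-BEGIN S24/Inf/Subst.lean
section


/-!
# S24 / MOD-INF — substitution `τ ↦ (aτ + b)/d` in convergent Laurent expansions
-/

set_option autoImplicit false

noncomputable section

open HahnSeries ModularCurve UpperHalfPlane Complex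
open scoped Real

namespace Fermat.Agent.S24

/-- The map `τ ↦ (aτ + b)/d` of `ℍ` (the identity if `a = 0` or `d = 0`). -/
def infAff (a : ℕ) (b : ℤ) (d : ℕ) (τ : ℍ) : ℍ :=
  if h : 0 < a ∧ 0 < d then
    ⟨((a : ℂ) * τ + b) / d, by
      have ha : (0 : ℝ) < a := by exact_mod_cast h.1
      have hd : (0 : ℝ) < d := by exact_mod_cast h.2
      have e : (((a : ℂ) * τ + b) / d).im = a * τ.im / d := by
        have : ((a : ℂ) * τ + b) / d = (((a : ℝ) : ℂ) * τ + ((b : ℝ) : ℂ)) / ((d : ℝ) : ℂ) := by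
          push_cast; rfl
        rw [this, Complex.div_ofReal_im]
        simp
      rw [e]
      have := τ.im_pos
      positivity⟩
  else τ

theorem infAff_coe {a d : ℕ} (ha : 0 < a) (hd : 0 < d) (b : ℤ) (τ : ℍ) :
    (infAff a b d τ : ℂ) = ((a : ℂ) * τ + b) / d := by
  rw [infAff, dif_pos ⟨ha, hd⟩]

@[simp]
theorem infAff_one_zero_one (τ : ℍ) : infAff 1 0 1 τ = τ := by
  apply UpperHalfPlane.ext
  rw [infAff_coe one_pos one_pos]
  simp

/-- The unit `exp (2πi b/n)` of `ℂ`. -/
def infRoot (b : ℤ) (n : ℕ) : ℂˣ :=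
  Units.mk0 (Complex.exp (2 * π * Complex.I * b / n)) (Complex.exp_ne_zero _)

@[simp]
theorem infRoot_coe (b : ℤ) (n : ℕ) :
    ((infRoot b n : ℂˣ) : ℂ) = Complex.exp (2 * π * Complex.I * b / n) := rfl

theorem infRoot_zpow_coe (b : ℤ) (n : ℕ) (k : ℤ) :
    (((infRoot b n) ^ k : ℂˣ) : ℂ) = Complex.exp (2 * π * Complex.I * b / n) ^ k := by
  rw [Units.val_zpow_eq_zpow_val, infRoot_coe]

theorem infRoot_zero (n : ℕ) : infRoot 0 n = 1 := by
  apply Units.ext
  simp

/-- Key computation: `z_M((aτ+b)/d) = exp(2πi b/(dM)) · z_N(τ)^e` when `e·d·M = a·N`. -/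
theorem infZ_infAff {M N a d e : ℕ} (b : ℤ) (ha : 0 < a) (hd : 0 < d) (hM : 0 < M)
    (hN : 0 < N) (he : e * (d * M) = a * N) (τ : ℍ) :
    infZ M (infAff a b d τ) = (infRoot b (d * M) : ℂ) * infZ N τ ^ e := by
  rw [infZ_def, infZ_def, infAff_coe ha hd, infRoot_coe, ← Complex.exp_nat_mul, ← Complex.exp_add]
  congr 1
  have hd' : (d : ℂ) ≠ 0 := by exact_mod_cast hd.ne'
  have hM' : (M : ℂ) ≠ 0 := by exact_mod_cast hM.ne'
  have hN' : (N : ℂ) ≠ 0 := by exact_mod_cast hN.ne'
  have he' : (e : ℂ) * ((d : ℂ) * M) = a * N := by exact_mod_cast congrArg (Nat.cast : ℕ → ℂ) he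
  push_cast
  field_simp
  linear_combination (-(τ : ℂ)) * he'

/-- **Substitution (general form).** If `z_M(u τ) = c · z_N(τ)^k` then `f ∘ u` has the
expansion `φ(c · z^k)` in `z_N`. -/
theorem InfExp.subst {M N : ℕ} {f : ℍ → ℂ} {φ : LaurentSeries ℂ} (hf : InfExp M f φ)
    (u : ℍ → ℍ) (c : ℂˣ) (k : ℕ) [NeZero k]
    (hu : ∀ τ : ℍ, infZ M (u τ) = (c : ℂ) * infZ N τ ^ k) :
    InfExp N (fun τ => f (u τ)) (qExpand ℂ k (infTwist c φ)) := by
  intro τ
  have h := hf (u τ)
  rw [hu τ] at h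
  have he0 : (k : ℤ) ≠ 0 := by exact_mod_cast NeZero.ne k
  have hinj : Function.Injective (fun n : ℤ => (k : ℤ) * n) :=
    mul_right_injective₀ he0
  have hrange : ∀ m : ℤ, m ∉ Set.range (fun n : ℤ => (k : ℤ) * n) →
      (qExpand ℂ k (infTwist c φ)).coeff m * infZ N τ ^ m = 0 := by
    intro m hm
    rw [qExpand_coeff_of_not_dvd k _ (fun ⟨j, hj⟩ => hm ⟨j, hj.symm⟩), zero_mul]
  rw [← hinj.hasSum_iff hrange]
  convert h using 1
  funext n
  simp only [Function.comp_apply, qExpand_coeff_mul, infTwist_coeff]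
  rw [mul_zpow, ← zpow_natCast (infZ N τ) k, ← zpow_mul, Units.val_zpow_eq_zpow_val]
  ring

/-- **Substitution.** If `φ` converges to `f` in `z_M`, then `f ∘ (τ ↦ (aτ+b)/d)` has the
expansion `φ(u · z_N^e)` in `z_N`, `u = exp(2πi b/(dM))`, `e = aN/(dM)`. -/
theorem InfExp.comp_infAff {M N a d e : ℕ} [NeZero e] (b : ℤ) (ha : 0 < a) (hd : 0 < d)
    (hM : 0 < M) (hN : 0 < N) (he : e * (d * M) = a * N) {f : ℍ → ℂ} {φ : LaurentSeries ℂ}
    (hf : InfExp M f φ) :
    InfExp N (fun τ => f (infAff a b d τ)) (qExpand ℂ e (infTwist (infRoot b (d * M)) φ)) :=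
  hf.subst (infAff a b d) (infRoot b (d * M)) e (infZ_infAff b ha hd hM hN he)

/-- Translation `τ ↦ τ + 1`: the expansion in `z_N` is twisted by `ζ_N = exp(2πi/N)`. -/
theorem InfExp.comp_translate {N : ℕ} [NeZero N] {f : ℍ → ℂ} {φ : LaurentSeries ℂ}
    (hf : InfExp N f φ) (b : ℤ) :
    InfExp N (fun τ => f (infAff 1 b 1 τ)) (infTwist (infRoot b N) φ) := by
  have hN : 0 < N := Nat.pos_of_ne_zero (NeZero.ne N)
  have h := hf.comp_infAff (e := 1) b one_pos one_pos hN hN (by ring)
  rw [qExpand_one_apply, one_mul] at h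
  exact h

end Fermat.Agent.S24

end
end
-- ===== PACK-END S24/Inf/Subst.lean

-- ===== PACK-BEGIN S24/Inf/HNF.lean
section




/-!
# S24 / MOD-INF — Hermite normal form of `diag(d,1)·γ` and its action on `ℍ`
-/

set_option autoImplicit false

noncomputable section

open UpperHalfPlane Complex Matrix
open scoped MatrixGroups

namespace Fermat.Agent.S24

theorem inf_sl_det (γ : SL(2, ℤ)) : γ 0 0 * γ 1 1 - γ 0 1 * γ 1 0 = 1 := by
  have := γ.det_coe
  rw [Matrix.det_fin_two] at this
  exact this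

/-- **Hermite normal form.** For `γ ∈ SL₂(ℤ)` and `d > 0` there are `γ' ∈ SL₂(ℤ)` and an upper
triangular matrix `[[a,b],[0,d']]`, `a d' = d`, with `diag(d,1)·γ = γ'·[[a,b],[0,d']]`
(written entrywise). -/
theorem inf_exists_hnf (d : ℕ) (hd : 0 < d) (γ : SL(2, ℤ)) :
    ∃ (γ' : SL(2, ℤ)) (a d' : ℕ) (b : ℤ), 0 < a ∧ 0 < d' ∧ a * d' = d ∧
      (d : ℤ) * γ 0 0 = γ' 0 0 * a ∧ (d : ℤ) * γ 0 1 = γ' 0 0 * b + γ' 0 1 * d' ∧
      γ 1 0 = γ' 1 0 * a ∧ γ 1 1 = γ' 1 0 * b + γ' 1 1 * d' := by
  have hdet := inf_sl_det γ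
  generalize γ 0 0 = p at hdet ⊢
  generalize γ 0 1 = q at hdet ⊢
  generalize γ 1 0 = r at hdet ⊢
  generalize γ 1 1 = s at hdet ⊢
  have hgpos : 0 < Int.gcd (d : ℤ) r := Int.gcd_pos_of_ne_zero_left _ (by exact_mod_cast hd.ne')
  obtain ⟨d₁, r₁, hcop, hd₁, hr₁⟩ := Int.exists_gcd_one hgpos
  generalize Int.gcd (d : ℤ) r = a at hgpos hd₁ hr₁
  have ha0 : (0 : ℤ) < a := by exact_mod_cast hgpos
  have hd0 : (0 : ℤ) < d := by exact_mod_cast hd
  have hd₁pos : 0 < d₁ := by
    by_contra h
    rw [not_lt] at h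
    have : d₁ * (a : ℤ) ≤ 0 := mul_nonpos_of_nonpos_of_nonneg h ha0.le
    omega
  -- coprimality of the first column
  have hc1 : IsCoprime d₁ r₁ := Int.isCoprime_iff_gcd_eq_one.mpr hcop
  have hc2 : IsCoprime p r₁ := by
    refine ⟨s, -(q * a), ?_⟩
    rw [hr₁] at hdet
    linear_combination hdet
  have hc3 : IsCoprime (d₁ * p) r₁ := hc1.mul_left hc2
  obtain ⟨v, u', hbez⟩ := hc3
  -- `v * (d₁ p) + u' * r₁ = 1`; the new matrix is `[[d₁ p, -u'], [r₁, v]]`
  refine ⟨⟨!![d₁ * p, -u'; r₁, v], by rw [Matrix.det_fin_two_of]; linear_combination hbez⟩,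
    a, d₁.toNat, v * (d : ℤ) * q + u' * s, hgpos, by omega, ?_, ?_, ?_, ?_, ?_⟩
  · have : ((a * d₁.toNat : ℕ) : ℤ) = (d : ℤ) := by
      push_cast
      rw [Int.toNat_of_nonneg hd₁pos.le, hd₁]
      ring
    exact_mod_cast this
  · simp only [Matrix.of_apply, Matrix.cons_val', Matrix.cons_val_zero, Matrix.cons_val_fin_one]
    rw [hd₁]; ring
  · simp only [Matrix.of_apply, Matrix.cons_val', Matrix.cons_val_zero, Matrix.cons_val_one,
      Matrix.cons_val_fin_one, Int.toNat_of_nonneg hd₁pos.le]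
    rw [hr₁] at hdet
    rw [hd₁]
    linear_combination (-(a * d₁ * q) : ℤ) * hbez + (-(d₁ * u') : ℤ) * hdet
  · simp only [Matrix.of_apply, Matrix.cons_val', Matrix.cons_val_zero, Matrix.cons_val_one,
      Matrix.cons_val_fin_one]
    exact hr₁
  · simp only [Matrix.of_apply, Matrix.cons_val', Matrix.cons_val_zero, Matrix.cons_val_one,
      Matrix.cons_val_fin_one, Int.toNat_of_nonneg hd₁pos.le]
    rw [hr₁] at hdet
    rw [hd₁]
    linear_combination (-s : ℤ) * hbez + (v * d₁ : ℤ) * hdet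

theorem inf_sl_denom_ne_zero (γ : SL(2, ℤ)) (τ : ℍ) :
    ((γ 1 0 : ℤ) : ℂ) * τ + ((γ 1 1 : ℤ) : ℂ) ≠ 0 := by
  have h := UpperHalfPlane.denom_ne_zero (γ : GL (Fin 2) ℝ) τ
  simpa [UpperHalfPlane.denom] using h

theorem inf_sl_smul_coe (γ : SL(2, ℤ)) (τ : ℍ) :
    ((γ • τ : ℍ) : ℂ) = (((γ 0 0 : ℤ) : ℂ) * τ + ((γ 0 1 : ℤ) : ℂ)) /
      (((γ 1 0 : ℤ) : ℂ) * τ + ((γ 1 1 : ℤ) : ℂ)) := by
  rw [UpperHalfPlane.coe_specialLinearGroup_apply]
  simp

/-- The matrix identity `diag(d,1)·γ = γ'·[[a,b],[0,d']]` on the level of `ℍ`. -/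
theorem inf_aff_smul_eq {d a d' : ℕ} {b : ℤ} (hd : 0 < d) (ha : 0 < a) (hd' : 0 < d')
    (γ γ' : SL(2, ℤ))
    (h00 : (d : ℤ) * γ 0 0 = γ' 0 0 * a) (h01 : (d : ℤ) * γ 0 1 = γ' 0 0 * b + γ' 0 1 * d')
    (h10 : γ 1 0 = γ' 1 0 * a) (h11 : γ 1 1 = γ' 1 0 * b + γ' 1 1 * d') (τ : ℍ) :
    infAff d 0 1 (γ • τ) = γ' • infAff a b d' τ := by
  apply UpperHalfPlane.ext
  rw [infAff_coe hd one_pos, inf_sl_smul_coe γ' (infAff a b d' τ), infAff_coe ha hd',
    inf_sl_smul_coe γ τ]
  have hden := inf_sl_denom_ne_zero γ τ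
  have hden' := inf_sl_denom_ne_zero γ' (infAff a b d' τ)
  rw [infAff_coe ha hd'] at hden'
  have hd'0 : (d' : ℂ) ≠ 0 := by exact_mod_cast hd'.ne'
  have e00 : (d : ℂ) * ((γ 0 0 : ℤ) : ℂ) = ((γ' 0 0 : ℤ) : ℂ) * a := by exact_mod_cast h00
  have e01 : (d : ℂ) * ((γ 0 1 : ℤ) : ℂ) = ((γ' 0 0 : ℤ) : ℂ) * b + ((γ' 0 1 : ℤ) : ℂ) * d' := by
    exact_mod_cast h01
  have e10 : ((γ 1 0 : ℤ) : ℂ) = ((γ' 1 0 : ℤ) : ℂ) * a := by exact_mod_cast h10
  have e11 : ((γ 1 1 : ℤ) : ℂ) = ((γ' 1 0 : ℤ) : ℂ) * b + ((γ' 1 1 : ℤ) : ℂ) * d' := by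
    exact_mod_cast h11
  have hden'' : ((γ' 1 0 : ℤ) : ℂ) * (((a : ℂ) * τ + b) / d') + ((γ' 1 1 : ℤ) : ℂ) =
      (((γ 1 0 : ℤ) : ℂ) * τ + ((γ 1 1 : ℤ) : ℂ)) / d' := by
    rw [e10, e11]
    field_simp
    ring
  have hnum : ((γ' 0 0 : ℤ) : ℂ) * (((a : ℂ) * τ + b) / d') + ((γ' 0 1 : ℤ) : ℂ) =
      ((d : ℂ) * (((γ 0 0 : ℤ) : ℂ) * τ + ((γ 0 1 : ℤ) : ℂ))) / d' := by
    rw [_root_.mul_add, ← _root_.mul_assoc, e00, e01]
    field_simp
    ring
  rw [hnum, hden'']
  field_simp
  simp

end Fermat.Agent.S24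

end
end
-- ===== PACK-END S24/Inf/HNF.lean

-- ===== PACK-BEGIN S24/Deg/H457_Main.lean
section


/-!
# S24 / DEG-ALG (helper457), part 4: the degree bound for `FF N / Kbar(jF N)`

`finiteDimensional_and_finrank_le`: from the interface hypothesis `Hyp ℂ N n` (relations over `ℂ`)
we get `FiniteDimensional Kbar⟮jF N⟯ (FF N)` and `finrank ≤ n`.
-/

set_option autoImplicit false

noncomputable section

open Polynomial ModularCurve IntermediateField

namespace Fermat.Agent.S24.Deg457

/-- Lemma X: a bivariate relation gives integrality + degree bound over an intermediate field. -/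
theorem isIntegral_and_natDegree_le_of_relation {K M E : Type*} [Field K] [Field M] [Field E]
    [Algebra K M] [Algebra M E] [Algebra K E] [IsScalarTower K M E] (j : M)
    (hj : ∀ t : K[X], t ≠ 0 → aeval j t ≠ 0) (x : E) (Q : K[X][X]) (hQ0 : Q ≠ 0) (n : ℕ)
    (hQn : Q.natDegree ≤ n)
    (hQ : Q.eval₂ ((aeval (algebraMap M E j) : K[X] →ₐ[K] E).toRingHom) x = 0) :
    IsIntegral M x ∧ (minpoly M x).natDegree ≤ n := by
  set φ : K[X] →+* M := (aeval j : K[X] →ₐ[K] M).toRingHom with hφ
  have hφinj : Function.Injective φ := by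
    rw [injective_iff_map_eq_zero]
    intro t ht
    by_contra h0
    exact hj t h0 ht
  have hp0 : Q.map φ ≠ 0 := by
    rw [Ne, Polynomial.map_eq_zero_iff hφinj]
    exact hQ0
  have hcomp : (algebraMap M E).comp φ = (aeval (algebraMap M E j) : K[X] →ₐ[K] E).toRingHom := by
    refine Polynomial.ringHom_ext ?_ ?_
    · intro c
      simp [hφ, ← IsScalarTower.algebraMap_apply]
    · simp [hφ]
  have hroot : aeval x (Q.map φ) = 0 := by
    rw [aeval_def, eval₂_map, hcomp]
    exact hQ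
  have hint : IsIntegral M x := (IsAlgebraic.isIntegral ⟨Q.map φ, hp0, hroot⟩)
  refine ⟨hint, ?_⟩
  have h1 := minpoly.degree_le_of_ne_zero M x hp0 hroot
  have h2 := natDegree_le_natDegree h1
  exact h2.trans ((natDegree_map_le).trans hQn)

/-- an embedding `ℚ̄ → ℂ` -/
def iotaC : Kbar →+* ℂ := by
  haveI : Algebra.IsAlgebraic ℚ (AlgebraicClosure ℚ) := AlgebraicClosure.isAlgebraic ℚ
  exact ((IsAlgClosed.lift : AlgebraicClosure ℚ →ₐ[ℚ] ℂ) : AlgebraicClosure ℚ →+* ℂ)

variable (N : ℕ) [NeZero N]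

theorem coe_jF : ((jF N : FF N) : LaurentSeries Kbar) = JK Kbar := rfl

/-- **Degree bound** (DEG-ALG): from the analytic interface hypothesis over `ℂ`. -/
theorem finiteDimensional_and_finrank_le (n : ℕ) (hyp : Hyp ℂ N n) :
    FiniteDimensional ↥(IntermediateField.adjoin Kbar {jF N}) (FF N) ∧
      Module.finrank ↥(IntermediateField.adjoin Kbar {jF N}) (FF N) ≤ n := by
  refine finiteDimensional_and_finrank_le_of_forall_natDegree_minpoly_le n fun x => ?_
  obtain ⟨Q, hQ0, hQn, hQ⟩ := algDeg_of_mem_field iotaC hyp x.2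
  have hinc : Function.Injective (algebraMap (FF N) (LaurentSeries Kbar)) :=
    (algebraMap (FF N) (LaurentSeries Kbar)).injective
  refine isIntegral_and_natDegree_le_of_relation (K := Kbar)
    (AdjoinSimple.gen Kbar (jF N)) ?_ x Q hQ0 n hQn ?_
  · intro t ht h0
    apply aeval_JK_ne_zero Kbar ht
    have h1 := congrArg (algebraMap ↥(IntermediateField.adjoin Kbar {jF N}) (FF N)) h0
    rw [← aeval_algebraMap_apply, map_zero, AdjoinSimple.algebraMap_gen] at h1
    have h2 := congrArg (algebraMap (FF N) (LaurentSeries Kbar)) h1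
    rw [← aeval_algebraMap_apply, map_zero] at h2
    exact h2
  · apply hinc
    rw [map_zero, Polynomial.hom_eval₂, AdjoinSimple.algebraMap_gen]
    have hcomp : (algebraMap (FF N) (LaurentSeries Kbar)).comp
        ((aeval (jF N) : Kbar[X] →ₐ[Kbar] FF N).toRingHom) = evJ (JK Kbar) := by
      refine Polynomial.ringHom_ext ?_ ?_
      · intro c
        simp [evJ, ← IsScalarTower.algebraMap_apply]
      · simp [evJ]
        rfl
    rw [hcomp]
    exact hQ

end Fermat.Agent.S24.Deg457

end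
end
-- ===== PACK-END S24/Deg/H457_Main.lean

-- ===== PACK-BEGIN S24/Deg/H457_Bridge.lean
section





/-!
# S24 / DEG (helper457), bridge: the formal interface hypothesis `Hyp ℂ N n` from function level

Inputs: helper648 (conjugate product, `exists_charPoly_eval_eq_zero`), helper708 (`HasQExp`),
helper264 (`hasSum_jFun`).  Remaining explicit hypotheses: the polynomiality principle `D5` for
`jFun` and the growth bound of `jFun` on the fundamental domain.
-/

set_option autoImplicit false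

noncomputable section

open UpperHalfPlane ModularGroup CongruenceSubgroup Polynomial ModularCurve
open scoped MatrixGroups Manifold Modular Real

namespace Fermat.Agent.S24.Deg457

open Fermat.Agent.S24.H648 Fermat.Agent.S24.H708 Fermat.Agent.S24.JFun

/-- `τ ↦ d τ` on the upper half plane -/
def scaleH (d : ℕ) [NeZero d] (τ : ℍ) : ℍ :=
  UpperHalfPlane.mk ((d : ℂ) * τ) (by
    have hd : (0 : ℝ) < d := by exact_mod_cast Nat.pos_of_ne_zero (NeZero.ne d)
    have : ((d : ℂ) * (τ : ℂ)).im = d * τ.im := by simp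
    rw [this]
    exact mul_pos hd τ.im_pos)

theorem coe_scaleH (d : ℕ) [NeZero d] (τ : ℍ) : ((scaleH d τ : ℍ) : ℂ) = (d : ℂ) * τ := rfl

theorem coeff_JK_complex (n : ℤ) : (jqModC ℂ).coeff n = algebraMap ℚ ℂ (jq.coeff n) := by
  rw [← JK_eq, JK, coeffEmb_coeff]

/-- the `q`-expansion of `τ ↦ j(dτ)` is `j(q^d)`. -/
theorem hasQExp_jFun_scale (d : ℕ) [NeZero d] :
    HasQExp 1 (fun τ => _root_.Fermat.Agent.S24.JFun.jFun (scaleH d τ)) (coeffEmb ℂ (qExpand ℚ d jq)) := by
  have hd : 0 < d := Nat.pos_of_ne_zero (NeZero.ne d)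
  refine HasQExp.of_hasSum
    (mdifferentiable_J_scale jFun_mdifferentiable d hd (scaleH d) (coe_scaleH d)) ?_
  intro τ
  have h := hasSum_jFun (scaleH d τ)
  have hinj : Function.Injective (fun n : ℤ => (d : ℤ) * n) := by
    intro a b hab
    have hd' : (d : ℤ) ≠ 0 := by exact_mod_cast hd.ne'
    exact mul_left_cancel₀ hd' hab
  have hsupp : ∀ m : ℤ, m ∉ Set.range (fun n : ℤ => (d : ℤ) * n) →
      (coeffEmb ℂ (qExpand ℚ d jq)).coeff m * qh 1 τ ^ m = 0 := by
    intro m hm
    have hndvd : ¬ (d : ℤ) ∣ m := by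
      rintro ⟨k, rfl⟩
      exact hm ⟨k, rfl⟩
    rw [coeffEmb_coeff, qExpand_coeff_of_not_dvd d jq hndvd, map_zero, zero_mul]
  rw [← hinj.hasSum_iff hsupp]
  have hq : Function.Periodic.qParam 1 ((scaleH d τ : ℍ) : ℂ) = qh 1 τ ^ d := by
    rw [qh_apply, coe_scaleH]
    simp only [Function.Periodic.qParam, Nat.cast_one, Complex.ofReal_one, div_one]
    rw [← Complex.exp_nat_mul]
    congr 1
    ring
  have hfun : ((fun m : ℤ => (coeffEmb ℂ (qExpand ℚ d jq)).coeff m * qh 1 τ ^ m) ∘
      fun n : ℤ => (d : ℤ) * n)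
      = fun n : ℤ => (jqModC ℂ).coeff n *
          Function.Periodic.qParam 1 ((scaleH d τ : ℍ) : ℂ) ^ n := by
    funext n
    simp only [Function.comp_apply]
    rw [coeffEmb_coeff, qExpand_coeff_mul, coeff_JK_complex, hq, ← zpow_natCast, ← zpow_mul]
  rw [hfun]
  exact h

variable (N : ℕ) [NeZero N]

/-- every element of `A_ℂ` is the `q`-expansion of a good function. -/
theorem exists_goodRing_hasQExp
    (hJfd : ∃ C : ℝ, ∀ τ : ℍ, τ ∈ 𝒟 → ‖_root_.Fermat.Agent.S24.JFun.jFun τ‖ ≤ C * Real.exp (2 * π * τ.im))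
    {b : LaurentSeries ℂ} (hb : b ∈ AK ℂ N) :
    ∃ f : ℍ → ℂ, f ∈ goodRing N ∧ HasQExp 1 f b := by
  unfold AK at hb
  induction hb using Algebra.adjoin_induction with
  | mem x hx =>
    obtain ⟨y, ⟨d, hd, hdN, rfl⟩, rfl⟩ := hx
    haveI := hd
    refine ⟨fun τ => _root_.Fermat.Agent.S24.JFun.jFun (scaleH d τ), ?_, hasQExp_jFun_scale d⟩
    exact J_scale_mem_goodRing N jFun_mdifferentiable _root_.Fermat.Agent.S24.JFun.jFun_smul hJfd d
      (Nat.pos_of_ne_zero (NeZero.ne d)) hdN (scaleH d) (coe_scaleH d)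
  | algebraMap c =>
    refine ⟨fun _ => c, (goodRing N).algebraMap_mem c, ?_⟩
    have : algebraMap ℂ (LaurentSeries ℂ) c = HahnSeries.C c := by
      rw [algebraMap_laurentSeries_eq_single]; rfl
    rw [this]
    exact HasQExp.const 1 c
  | add x y _ _ hx hy =>
    obtain ⟨f, hf, hfx⟩ := hx
    obtain ⟨g, hg, hgy⟩ := hy
    exact ⟨f + g, (goodRing N).add_mem hf hg, hfx.add hgy⟩
  | mul x y _ _ hx hy =>
    obtain ⟨f, hf, hfx⟩ := hx
    obtain ⟨g, hg, hgy⟩ := hy
    exact ⟨f * g, (goodRing N).mul_mem hf hg, hfx.mul hgy⟩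

theorem hasQExp_jFun : HasQExp 1 _root_.Fermat.Agent.S24.JFun.jFun (JK ℂ) := by
  have h := hasQExp_jFun_scale 1
  rw [qExpand_one_apply] at h
  have hfun : (fun τ => _root_.Fermat.Agent.S24.JFun.jFun (scaleH 1 τ)) = _root_.Fermat.Agent.S24.JFun.jFun := by
    funext τ
    congr 1
    apply UpperHalfPlane.ext
    rw [coe_scaleH]
    simp
  rw [hfun] at h
  exact h

/-- transfer of univariate polynomial expressions in `j` -/
theorem hasQExp_aeval (p : ℂ[X]) :
    HasQExp 1 (fun τ => p.eval (_root_.Fermat.Agent.S24.JFun.jFun τ)) (aeval (JK ℂ) p) := by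
  induction p using Polynomial.induction_on' with
  | add p q hp hq =>
    have := hp.add hq
    rw [map_add]
    convert this using 1
    funext τ
    simp
  | monomial n c =>
    have h1 := (HasQExp.const 1 c).mul (hasQExp_jFun.pow n)
    rw [aeval_monomial]
    have : algebraMap ℂ (LaurentSeries ℂ) c = HahnSeries.C c := by
      rw [algebraMap_laurentSeries_eq_single]; rfl
    rw [this]
    convert h1 using 1
    funext τ
    simp

/-- transfer of bivariate polynomial expressions -/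
theorem hasQExp_eval₂ (P : ℂ[X][X]) {f : ℍ → ℂ} {b : LaurentSeries ℂ} (hf : HasQExp 1 f b) :
    HasQExp 1 (fun τ => (P.map (Polynomial.evalRingHom (_root_.Fermat.Agent.S24.JFun.jFun τ))).eval (f τ))
      (P.eval₂ (evJ (JK ℂ)) b) := by
  induction P using Polynomial.induction_on' with
  | add p q hp hq =>
    have := hp.add hq
    rw [eval₂_add]
    convert this using 1
    funext τ
    simp
  | monomial n p =>
    have h1 := (hasQExp_aeval p).mul (hf.pow n)
    rw [eval₂_monomial, evJ_apply]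
    convert h1 using 1
    funext τ
    simp

/-- **The interface hypothesis over `ℂ`**, from D5 and the growth bound of `j`. -/
theorem hyp_complex
    (hD5 : ∀ F : ℍ → ℂ, MDifferentiable 𝓘(ℂ) 𝓘(ℂ) F →
      (∀ (γ : SL(2, ℤ)) (τ : ℍ), F (γ • τ) = F τ) → ExpGrowth F →
      ∃ p : ℂ[X], ∀ τ, F τ = p.eval (_root_.Fermat.Agent.S24.JFun.jFun τ))
    (hJfd : ∃ C : ℝ, ∀ τ : ℍ, τ ∈ 𝒟 → ‖_root_.Fermat.Agent.S24.JFun.jFun τ‖ ≤ C * Real.exp (2 * π * τ.im)) :
    Hyp ℂ N (Nat.card (XX N)) := by
  intro b hb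
  obtain ⟨f, hf, hfb⟩ := exists_goodRing_hasQExp N hJfd hb
  haveI : Finite (SL(2, ℤ) ⧸ Gamma0 N) := inferInstanceAs (Finite (XX N))
  letI : Fintype (SL(2, ℤ) ⧸ Gamma0 N) := Fintype.ofFinite _
  obtain ⟨P, hPm, hPn, hP⟩ := exists_charPoly_eval_eq_zero (N := N) _root_.Fermat.Agent.S24.JFun.jFun hD5 hf
  refine ⟨P, hPm, ?_, ?_⟩
  · rw [hPn, Nat.card_eq_fintype_card]
  · have h1 := hasQExp_eval₂ P hfb
    rw [h1.eq_zero_iff]
    funext τ
    exact hP τ

end Fermat.Agent.S24.Deg457

end
end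
-- ===== PACK-END S24/Deg/H457_Bridge.lean

-- ===== PACK-BEGIN S24/Deg/H648D5.lean
section


/-!
# S24 / M6-AN (helper648): the polynomiality principle (D5) in `ExpGrowth` form

A holomorphic `SL₂(ℤ)`-invariant function on `ℍ` of at most exponential growth at `i∞` is a
polynomial in `j = E₄³/Δ`.  (The function-level induction follows helper505's
`levelOne_structure`, re-proved here from Mathlib only.)
-/

set_option autoImplicit false

noncomputable section

open UpperHalfPlane ModularGroup CongruenceSubgroup ModularForm Filter Asymptotics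
  SlashInvariantForm SlashInvariantFormClass ModularFormClass CuspFormClass
open scoped MatrixGroups Manifold Modular Real

namespace Fermat.Agent.S24.H648

/-- `E₄ ^ n` as a modular form of weight `k = 4 n`. -/
def E4pow (n : ℕ) (k : ℤ) (hk : (n : ℤ) * 4 = k) : ModularForm 𝒮ℒ k :=
  ModularForm.mcast hk (E₄.pow n)

theorem E4pow_apply (n : ℕ) (k : ℤ) (hk : (n : ℤ) * 4 = k) (z : ℍ) :
    E4pow n k hk z = E₄ z ^ n := by
  simp [E4pow]

theorem qExpansion_E4pow_coeff_zero (n : ℕ) (k : ℤ) (hk : (n : ℤ) * 4 = k) :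
    (qExpansion 1 (E4pow n k hk)).coeff 0 = 1 := by
  have h4 : (qExpansion 1 E₄).coeff 0 = 1 := EisensteinSeries.E_qExpansion_coeff_zero (by norm_num) (by decide)
  rw [E4pow, ModularForm.qExpansion_mcast,
    ModularForm.qExpansion_pow one_pos one_mem_strictPeriods_SL,
    PowerSeries.coeff_zero_eq_constantCoeff, map_pow, ← PowerSeries.coeff_zero_eq_constantCoeff,
    h4, one_pow]

/-- Level one structure theorem, function level: a modular form of weight `12 m` is
`Δ^m · P(j)` with `deg P ≤ m`. -/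
theorem levelOne_poly (m : ℕ) : ∀ (k : ℤ) (_ : k = 12 * m) (F : ModularForm 𝒮ℒ k),
    ∃ P : Polynomial ℂ, P.natDegree ≤ m ∧
      ∀ z : ℍ, F z = ModularForm.discriminant z ^ m * P.eval (jFun z) := by
  induction m with
  | zero =>
    intro k hk F
    simp only [Nat.cast_zero, mul_zero] at hk
    subst hk
    obtain ⟨c, hc⟩ := levelOne_weight_zero_const F
    exact ⟨Polynomial.C c, by simp, fun z => by simp [hc]⟩
  | succ m ih =>
    intro k hk F
    set c₀ : ℂ := (qExpansion 1 F).coeff 0 with hc₀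
    have hk4 : ((3 * (m + 1) : ℕ) : ℤ) * 4 = k := by rw [hk]; push_cast; ring
    set G : ModularForm 𝒮ℒ k := F - c₀ • E4pow (3 * (m + 1)) k hk4 with hG
    have hGq : qExpansion 1 G
        = qExpansion 1 F - c₀ • qExpansion 1 (E4pow (3 * (m + 1)) k hk4) := by
      have h1 : (G : ℍ → ℂ) = ⇑F - ⇑(c₀ • E4pow (3 * (m + 1)) k hk4) := rfl
      rw [h1, ModularForm.qExpansion_sub one_pos one_mem_strictPeriods_SL]
      have h2 : (⇑(c₀ • E4pow (3 * (m + 1)) k hk4) : ℍ → ℂ)
          = c₀ • ⇑(E4pow (3 * (m + 1)) k hk4) := rfl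
      rw [h2, ModularForm.qExpansion_smul one_pos one_mem_strictPeriods_SL]
    have hG0 : (qExpansion 1 G).coeff 0 = 0 := by
      rw [hGq, map_sub, PowerSeries.coeff_smul, qExpansion_E4pow_coeff_zero]
      simp [hc₀]
    set H : ModularForm 𝒮ℒ (k - 12) := CuspForm.discriminantEquiv (G.toCuspForm hG0) with hH
    obtain ⟨P, hPdeg, hPval⟩ := ih (k - 12) (by rw [hk]; push_cast; ring) H
    have hGH : ∀ z, G z = ModularForm.discriminant z * H z := fun z => by
      rw [hH, discriminant_mul_discriminantEquiv_apply]; rfl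
    have hFG : ∀ z, F z = c₀ * E₄ z ^ (3 * (m + 1)) + G z := fun z => by
      have : G z = F z - c₀ * E4pow (3 * (m + 1)) k hk4 z := rfl
      rw [this, E4pow_apply]; ring
    refine ⟨Polynomial.C c₀ * Polynomial.X ^ (m + 1) + P, ?_, ?_⟩
    · refine (Polynomial.natDegree_add_le _ _).trans (max_le ?_ (hPdeg.trans (Nat.le_succ m)))
      exact Polynomial.natDegree_C_mul_X_pow_le _ _
    · intro z
      rw [hFG, hGH, hPval, Polynomial.eval_add, Polynomial.eval_mul, Polynomial.eval_C,
        Polynomial.eval_pow, Polynomial.eval_X, jFun_def]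
      have hΔ := discriminant_ne_zero z
      have hJ : ModularForm.discriminant z * (E₄ z ^ 3 / ModularForm.discriminant z) = E₄ z ^ 3 :=
        mul_div_cancel₀ _ hΔ
      have : ModularForm.discriminant z ^ (m + 1) *
          (c₀ * (E₄ z ^ 3 / ModularForm.discriminant z) ^ (m + 1) +
            Polynomial.eval (E₄ z ^ 3 / ModularForm.discriminant z) P) =
          c₀ * (ModularForm.discriminant z * (E₄ z ^ 3 / ModularForm.discriminant z)) ^ (m + 1) +
          ModularForm.discriminant z * (ModularForm.discriminant z ^ m *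
            Polynomial.eval (E₄ z ^ 3 / ModularForm.discriminant z) P) := by ring
      rw [this, hJ, pow_mul]


lemma discriminant_smul (γ : SL(2, ℤ)) (τ : ℍ) :
    ModularForm.discriminant (γ • τ) = denom γ τ ^ (12 : ℤ) * ModularForm.discriminant τ := by
  have : SlashInvariantFormClass (CuspForm 𝒮ℒ 12) Γ(1) 12 :=
    Gamma_one_coe_eq_SL ▸ inferInstance
  exact SlashInvariantForm.slash_action_eqn_SL'' CuspForm.discriminant (mem_Gamma_one γ) τ

lemma discriminant_pow_mul_slash (m : ℕ) (F : ℍ → ℂ)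
    (inv : ∀ (γ : SL(2, ℤ)) (τ : ℍ), F (γ • τ) = F τ) (γ : SL(2, ℤ)) :
    (fun z => ModularForm.discriminant z ^ m * F z) ∣[(12 * m : ℤ)] γ
      = fun z => ModularForm.discriminant z ^ m * F z := by
  funext z
  rw [ModularForm.SL_slash_apply]
  rw [inv, discriminant_smul, mul_pow, ← zpow_natCast (denom γ z ^ (12 : ℤ)) m, ← zpow_mul]
  have hd : denom γ z ≠ 0 := denom_ne_zero _ z
  have : denom γ z ^ ((12 : ℤ) * m) * ModularForm.discriminant z ^ m * F z
      * denom γ z ^ (-(12 * (m : ℤ)))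
      = (denom γ z ^ ((12 : ℤ) * m) * denom γ z ^ (-(12 * (m : ℤ))))
        * (ModularForm.discriminant z ^ m * F z) := by ring
  rw [this, ← zpow_add₀ hd]
  simp

/-- `Δ^m · F` as a modular form of weight `12 m`. -/
def mfOfInvariant (m : ℕ) (F : ℍ → ℂ) (hol : MDifferentiable 𝓘(ℂ) 𝓘(ℂ) F)
    (inv : ∀ (γ : SL(2, ℤ)) (τ : ℍ), F (γ • τ) = F τ)
    (bdd : IsBoundedAtImInfty (fun z => ModularForm.discriminant z ^ m * F z)) :
    ModularForm 𝒮ℒ (12 * m) where
  toFun := fun z => ModularForm.discriminant z ^ m * F z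
  slash_action_eq' := fun _ ⟨γ, hγ⟩ => hγ ▸ discriminant_pow_mul_slash m F inv γ
  holo' := by
    have hΔ : MDifferentiable 𝓘(ℂ) 𝓘(ℂ) (ModularForm.discriminant : ℍ → ℂ) :=
      ModularFormClass.holo CuspForm.discriminant
    exact (hΔ.pow m).mul hol
  bdd_at_cusps' {c} hc := by
    rw [Subgroup.IsArithmetic.isCusp_iff_isCusp_SL2Z] at hc
    rw [OnePoint.isBoundedAt_iff_forall_SL2Z hc]
    intro γ _
    rw [discriminant_pow_mul_slash m F inv γ]
    exact bdd

lemma mfOfInvariant_apply (m : ℕ) (F : ℍ → ℂ) (hol : MDifferentiable 𝓘(ℂ) 𝓘(ℂ) F)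
    (inv : ∀ (γ : SL(2, ℤ)) (τ : ℍ), F (γ • τ) = F τ)
    (bdd : IsBoundedAtImInfty (fun z => ModularForm.discriminant z ^ m * F z)) (z : ℍ) :
    mfOfInvariant m F hol inv bdd z = ModularForm.discriminant z ^ m * F z := rfl

/-- Polynomiality principle, `IsBoundedAtImInfty` form. -/
theorem exists_polynomial_of_isBoundedAtImInfty (m : ℕ) (F : ℍ → ℂ)
    (hol : MDifferentiable 𝓘(ℂ) 𝓘(ℂ) F)
    (inv : ∀ (γ : SL(2, ℤ)) (τ : ℍ), F (γ • τ) = F τ)
    (bdd : IsBoundedAtImInfty (fun z => ModularForm.discriminant z ^ m * F z)) :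
    ∃ p : Polynomial ℂ, p.natDegree ≤ m ∧ ∀ τ, F τ = p.eval (jFun τ) := by
  obtain ⟨P, hdeg, hP⟩ := levelOne_poly m (12 * m) rfl (mfOfInvariant m F hol inv bdd)
  refine ⟨P, hdeg, fun τ => ?_⟩
  have h := hP τ
  rw [mfOfInvariant_apply] at h
  exact mul_left_cancel₀ (pow_ne_zero m (discriminant_ne_zero τ)) h

lemma ExpGrowth.isBigO {F : ℍ → ℂ} {C : ℝ} {m : ℕ}
    (h : ∀ τ : ℍ, 1 ≤ τ.im → ‖F τ‖ ≤ C * Real.exp (2 * π * m * τ.im)) :
    F =O[atImInfty] fun τ : ℍ => Real.exp (2 * π * m * τ.im) := by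
  refine IsBigO.of_bound C ?_
  rw [atImInfty, eventually_comap, eventually_atTop]
  refine ⟨1, fun y hy τ hτ => ?_⟩
  rw [Real.norm_of_nonneg (Real.exp_pos _).le]
  exact h τ (hτ ▸ hy)

/-- **Polynomiality principle (D5), `ExpGrowth` form.** -/
theorem exists_polynomial_of_expGrowth (F : ℍ → ℂ)
    (hol : MDifferentiable 𝓘(ℂ) 𝓘(ℂ) F)
    (inv : ∀ (γ : SL(2, ℤ)) (τ : ℍ), F (γ • τ) = F τ) (gr : ExpGrowth F) :
    ∃ p : Polynomial ℂ, ∀ τ, F τ = p.eval (jFun τ) := by
  obtain ⟨C, m, h⟩ := gr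
  have hF := ExpGrowth.isBigO h
  have hΔ : (ModularForm.discriminant : ℍ → ℂ)
      =O[atImInfty] fun τ : ℍ => Real.exp (-2 * π * τ.im / 1) :=
    CuspFormClass.exp_decay_atImInfty CuspForm.discriminant one_pos one_mem_strictPeriods_SL
  have hprod := (hΔ.pow m).mul hF
  have bdd : IsBoundedAtImInfty (fun z => ModularForm.discriminant z ^ m * F z) := by
    refine hprod.congr_right fun τ => ?_
    rw [← Real.exp_nat_mul, ← Real.exp_add]
    have : (m : ℝ) * (-2 * π * τ.im / 1) + 2 * π * m * τ.im = 0 := by ring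
    rw [this, Real.exp_zero]
    rfl
  obtain ⟨p, -, hp⟩ := exists_polynomial_of_isBoundedAtImInfty m F hol inv bdd
  exact ⟨p, hp⟩

section final

variable {N : ℕ} [Fintype (SL(2, ℤ) ⧸ Gamma0 N)]

/-- **M6-AN, unconditional.**  For every good function `f` of level `N` the conjugate product
`∏ₓ (Y - f ∘ gₓ⁻¹)` has coefficients in `ℂ[j]`. -/
theorem exists_charPoly_jFun {f : ℍ → ℂ} (hf : f ∈ goodRing N) :
    ∃ P : Polynomial (Polynomial ℂ), P.Monic ∧
      P.natDegree = Fintype.card (SL(2, ℤ) ⧸ Gamma0 N) ∧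
      ∀ τ : ℍ, P.map (Polynomial.evalRingHom (jFun τ)) = charPolyAt N f τ :=
  exists_charPoly jFun exists_polynomial_of_expGrowth hf

/-- **Function-level `HYP(n)`, unconditional.** -/
theorem exists_charPoly_jFun_eval_eq_zero {f : ℍ → ℂ} (hf : f ∈ goodRing N) :
    ∃ P : Polynomial (Polynomial ℂ), P.Monic ∧
      P.natDegree = Fintype.card (SL(2, ℤ) ⧸ Gamma0 N) ∧
      ∀ τ : ℍ, (P.map (Polynomial.evalRingHom (jFun τ))).eval (f τ) = 0 :=
  exists_charPoly_eval_eq_zero jFun exists_polynomial_of_expGrowth hf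

end final

end Fermat.Agent.S24.H648

end
end
-- ===== PACK-END S24/Deg/H648D5.lean

-- ===== PACK-BEGIN S28/H867/Transfer.lean
section



set_option autoImplicit false
noncomputable section
open ModularCurve HahnSeries IntermediateField Polynomial

namespace Fermat.Agent.S28.H867

section Transfer

variable (k : Type*) [Field k]

/-- `coeffMap` commutes with `evalAt`. -/
theorem coeffMap_comp_evalAt (y : LaurentSeries ℤ) :
    (coeffMap (Int.castRingHom k)).comp (evalAt y) = evalAt (coeffMap (Int.castRingHom k) y) := by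
  apply Polynomial.ringHom_ext
  · intro a
    simp [evalAt]
  · simp [evalAt]

/-- `qExpand` commutes with `evalAt`. -/
theorem qExpand_comp_evalAt (p : ℕ) [NeZero p] (y : LaurentSeries k) :
    (qExpand k p).comp (evalAt y) = evalAt (qExpand k p y) := by
  apply Polynomial.ringHom_ext
  · intro a
    simp [evalAt]
  · simp [evalAt]

variable {k} in
theorem eval₂_evalAt_transfer (Φ : Polynomial (Polynomial ℤ)) (y x : LaurentSeries ℤ)
    (h : Φ.eval₂ (evalAt y) x = 0) :
    Φ.eval₂ (evalAt (coeffMap (Int.castRingHom k) y)) (coeffMap (Int.castRingHom k) x) = 0 := by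
  rw [← coeffMap_comp_evalAt, ← Polynomial.hom_eval₂, h, map_zero]

variable {k} in
theorem eval₂_evalAt_qExpand (p : ℕ) [NeZero p] (Φ : Polynomial (Polynomial ℤ))
    (y x : LaurentSeries k) (h : Φ.eval₂ (evalAt y) x = 0) :
    Φ.eval₂ (evalAt (qExpand k p y)) (qExpand k p x) = 0 := by
  rw [← qExpand_comp_evalAt, ← Polynomial.hom_eval₂, h, map_zero]

theorem coeffMap_jp (p : ℕ) [NeZero p] :
    coeffMap (Int.castRingHom k) (qExpand ℤ p (jqModC ℤ)) = jp k p := by
  rw [coeffMap_qExpand, coeffMap_jqModC]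

/-- `Φ_p(j_p, j) = 0` over `k`. -/
theorem modPoly_eval_jp_field {p : ℕ} [NeZero p] (D : ModPolyData p) :
    D.Φ.eval₂ (evalAt (jqModC k)) (jp k p) = 0 := by
  have := eval₂_evalAt_transfer (k := k) D.Φ _ _ D.eval_jp
  rwa [coeffMap_jp, coeffMap_jqModC] at this

/-- `Φ_p(j, j_p) = 0` over `k`. -/
theorem modPoly_eval_j_field {p : ℕ} [NeZero p] (D : ModPolyData p) :
    D.Φ.eval₂ (evalAt (jp k p)) (jqModC k) = 0 := by
  have := eval₂_evalAt_transfer (k := k) D.Φ _ _ D.eval_j
  rwa [coeffMap_jp, coeffMap_jqModC] at this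

end Transfer

section PolyOver

variable {k : Type*} [Field k]

/-- The polynomial `Φ(X, y)` with coefficients in a subfield `A ∋ y`. -/
def polyOver (A : IntermediateField k (LaurentSeries k)) (y : A) (Φ : Polynomial (Polynomial ℤ)) :
    Polynomial A :=
  Φ.map (Polynomial.aeval (R := ℤ) y).toRingHom

theorem polyOver_monic (A : IntermediateField k (LaurentSeries k)) (y : A)
    {Φ : Polynomial (Polynomial ℤ)} (h : Φ.Monic) : (polyOver A y Φ).Monic :=
  h.map _

theorem polyOver_natDegree (A : IntermediateField k (LaurentSeries k)) (y : A)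
    {Φ : Polynomial (Polynomial ℤ)} (h : Φ.Monic) : (polyOver A y Φ).natDegree = Φ.natDegree :=
  h.natDegree_map _

theorem aeval_polyOver (A : IntermediateField k (LaurentSeries k)) (y : A)
    (Φ : Polynomial (Polynomial ℤ)) (x : LaurentSeries k) :
    Polynomial.aeval x (polyOver A y Φ) = Φ.eval₂ (evalAt (y : LaurentSeries k)) x := by
  rw [polyOver, Polynomial.aeval_def, Polynomial.eval₂_map]
  congr 1
  apply Polynomial.ringHom_ext
  · intro a
    simp [evalAt]
  · simp [evalAt]

end PolyOver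

end Fermat.Agent.S28.H867

end
end
-- ===== PACK-END S28/H867/Transfer.lean

-- ===== PACK-BEGIN S28/H867/Prime.lean
section



set_option autoImplicit false
noncomputable section
open ModularCurve HahnSeries IntermediateField Polynomial

namespace Fermat.Agent.S28.H867

section Prime

variable (k : Type*) [Field k]

theorem jq_mem_jField : jqModC k ∈ jField k := mem_adjoin_simple_self k _

theorem jp_mem_jpField (p : ℕ) [NeZero p] : jp k p ∈ jpField k p := mem_adjoin_simple_self k _

theorem jpField_le_fieldRange (p : ℕ) [NeZero p] :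
    jpField k p ≤ (qExpandAlgHomC k p).fieldRange := by
  rw [jpField, adjoin_simple_le_iff]
  exact ⟨jqModC k, rfl⟩

theorem qExpand_injective' (p : ℕ) [NeZero p] : Function.Injective (qExpand k p) :=
  (qExpand k p).injective

/-- natDegree of the minimal polynomial of `j` over a subfield of `range V_p` is `≥ p`. -/
theorem le_natDegree_minpoly {p : ℕ} [NeZero p] (hI : LeafI k p)
    (B : IntermediateField k (LaurentSeries k)) (hB : B ≤ (qExpandAlgHomC k p).fieldRange)
    (hint : IsIntegral B (jqModC k)) : p ≤ (minpoly B (jqModC k)).natDegree := by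
  rw [← relfinrank_sup_adjoin_simple B hint]
  refine le_relfinrank_of_linearIndependent le_sup_left ?_ _ ?_ (hI B hB)
  · rw [relfinrank_sup_adjoin_simple B hint]
    exact (minpoly.natDegree_pos hint).ne'
  · intro i
    exact pow_mem ((le_sup_right : adjoin k {jqModC k} ≤ _) (mem_adjoin_simple_self k _)) _

theorem primeLevel_of_leaves {p : ℕ} [NeZero p] (hp : p.Prime) (D : ModPolyData p)
    (hI : LeafI k p) (hB1 : LeafB1 k p) : PrimeLevel k p := by
  set j := jqModC k with hj
  set A := jpField k p with hA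
  set R := (qExpandAlgHomC k p).fieldRange with hR
  have hAR : A ≤ R := jpField_le_fieldRange k p
  let y : A := ⟨jp k p, jp_mem_jpField k p⟩
  set ΦA := polyOver A y D.Φ with hΦA
  have hΦmonic : ΦA.Monic := polyOver_monic A y D.monic
  have hΦdeg : ΦA.natDegree = p + 1 := by
    rw [hΦA, polyOver_natDegree A y D.monic, D.natDegree_eq]
  have hΦj : Polynomial.aeval j ΦA = 0 := by
    rw [hΦA, aeval_polyOver]; exact modPoly_eval_j_field k D
  have hΦjpp : Polynomial.aeval (qExpand k p (jp k p)) ΦA = 0 := by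
    rw [hΦA, aeval_polyOver]
    exact eval₂_evalAt_qExpand p D.Φ _ _ (modPoly_eval_jp_field k D)
  have hint : IsIntegral A j := ⟨ΦA, hΦmonic, by rwa [Polynomial.aeval_def] at hΦj⟩
  set m := minpoly A j with hm
  have hmdvd : m ∣ ΦA := minpoly.dvd A j hΦj
  have hmmonic : m.Monic := minpoly.monic hint
  have hmle : m.natDegree ≤ p + 1 := by
    rw [← hΦdeg]
    exact Polynomial.natDegree_le_of_dvd hmdvd hΦmonic.ne_zero
  have hmge : p ≤ m.natDegree := le_natDegree_minpoly k hI A hAR hint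
  -- the key step: the degree is not `p`
  have hmne : m.natDegree ≠ p := by
    intro hmp
    obtain ⟨c, hc⟩ := hmdvd
    have hcmonic : c.Monic := hmmonic.of_mul_monic_left (hc ▸ hΦmonic)
    have hcdeg : c.natDegree = 1 := by
      have := congrArg Polynomial.natDegree hc
      rw [hmmonic.natDegree_mul hcmonic, hΦdeg, hmp] at this
      omega
    have hroot : Polynomial.aeval (qExpand k p (jp k p)) m *
        Polynomial.aeval (qExpand k p (jp k p)) c = 0 := by
      rw [← map_mul, ← hc, hΦjpp]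
    rcases mul_eq_zero.mp hroot with h0 | h0
    · -- `j_{p²}` is a root of `m`, but `m` is irreducible of degree `p ≥ 2` over `R`
      set incl : A →+* R := (IntermediateField.inclusion hAR).toRingHom with hincl
      have hcomp : (algebraMap R (LaurentSeries k)).comp incl = algebraMap A (LaurentSeries k) :=
        rfl
      set m' := m.map incl with hm'
      have hm'monic : m'.Monic := hmmonic.map _
      have hm'deg : m'.natDegree = p := by rw [hm', hmmonic.natDegree_map, hmp]
      have hm'eval : ∀ x : LaurentSeries k, Polynomial.aeval x m' = Polynomial.aeval x m := by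
        intro x
        rw [hm', Polynomial.aeval_def, Polynomial.eval₂_map, hcomp, ← Polynomial.aeval_def]
      have hintR : IsIntegral R j := by
        refine ⟨m', hm'monic, ?_⟩
        rw [← Polynomial.aeval_def, hm'eval]
        exact minpoly.aeval A j
      have hdvd : minpoly R j ∣ m' := minpoly.dvd R j (by rw [hm'eval]; exact minpoly.aeval A j)
      have hge : p ≤ (minpoly R j).natDegree := le_natDegree_minpoly k hI R le_rfl hintR
      have heq : m' = minpoly R j :=
        Polynomial.eq_of_monic_of_dvd_of_natDegree_le (minpoly.monic hintR) hm'monic hdvd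
          (by rw [hm'deg]; exact hge)
      have hirr : Irreducible m' := heq ▸ minpoly.irreducible hintR
      let r : R := ⟨qExpand k p (jp k p), ⟨jp k p, rfl⟩⟩
      have hr : m'.IsRoot r := by
        have h1 : Polynomial.aeval (algebraMap R (LaurentSeries k) r) m' = 0 := by
          rw [hm'eval]; exact h0
        rw [Polynomial.aeval_algebraMap_apply] at h1
        have h3 : Polynomial.aeval r m' = 0 :=
          (algebraMap R (LaurentSeries k)).injective (by rw [h1, map_zero])
        simpa [Polynomial.IsRoot] using h3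
      have hdeg1 := Polynomial.degree_eq_one_of_irreducible_of_root hirr hr
      have : m'.natDegree = 1 := Polynomial.natDegree_eq_of_degree_eq_some hdeg1
      have h2 := hp.two_le
      omega
    · -- `j_{p²} ∈ A`, hence `j_p ∈ k(j)`
      have hc' : c = Polynomial.X + Polynomial.C (c.coeff 0) :=
        hcmonic.eq_X_add_C hcdeg
      rw [hc'] at h0
      simp only [map_add, Polynomial.aeval_X, Polynomial.aeval_C] at h0
      have hmem : qExpand k p (jp k p) ∈ A := by
        have : qExpand k p (jp k p) = -(algebraMap A (LaurentSeries k) (c.coeff 0)) :=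
          eq_neg_of_add_eq_zero_left h0
        rw [this]
        exact neg_mem (c.coeff 0).2
      rw [hA, jpField_eq_map] at hmem
      obtain ⟨x, hx, hxe⟩ := hmem
      have : x = jp k p := qExpand_injective' k p hxe
      exact hB1 (this ▸ hx)
  have hmdeg : m.natDegree = p + 1 := by omega
  have hmΦ : ΦA = m :=
    Polynomial.eq_of_monic_of_dvd_of_natDegree_le hmmonic hΦmonic hmdvd (by rw [hΦdeg, hmdeg])
  have hdeg_jp : A.relfinrank (jField k ⊔ A) = p + 1 := by
    rw [sup_comm, jField, relfinrank_sup_adjoin_simple A hint, ← hm, hmdeg]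
  refine ⟨?_, hdeg_jp⟩
  -- transport along `V_p`
  set x := qExpand k p (jp k p) with hx
  have hintx : IsIntegral A x := ⟨ΦA, hΦmonic, by rwa [Polynomial.aeval_def] at hΦjpp⟩
  have hirr : Irreducible ΦA := hmΦ ▸ minpoly.irreducible hint
  have hminx : ΦA = minpoly A x := minpoly.eq_of_irreducible_of_monic hirr hΦjpp hΦmonic
  have h1 : A.relfinrank (A ⊔ adjoin k {x}) = p + 1 := by
    rw [relfinrank_sup_adjoin_simple A hintx, ← hminx, hΦdeg]
  have h2 : A ⊔ adjoin k {x} = (jField k ⊔ jpField k p).map (qExpandAlgHomC k p) := by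
    rw [IntermediateField.map_sup, ← jpField_eq_map, jpField, adjoin_map, Set.image_singleton]
    rfl
  rw [h2, hA, jpField_eq_map, relfinrank_map_map] at h1
  rw [jpField_eq_map]
  exact h1

end Prime

end Fermat.Agent.S28.H867

end
end
-- ===== PACK-END S28/H867/Prime.lean

-- ===== PACK-BEGIN S28/H626/Tower.lean
section
/-
S28 helper (helper626): generation of `k(j(q^d) : d ∣ Mp)` over `k(j(q^d) : d ∣ M)` by a single
element, and the degree bounds `≤ p + 1` (`p ∤ M`), `≤ p` (`p ∣ M`).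
-/




set_option autoImplicit false

noncomputable section

open ModularCurve HahnSeries Polynomial IntermediateField

namespace Fermat.Agent.S28.H626

section Hyp

variable (k : Type*) [Field k]

/-- Hypothesis package for level `N`: every prime `p ∣ N` is invertible in `k` and has a
modular polynomial. -/
def HasModPolys (N : ℕ) : Prop :=
  ∀ p (hp : p.Prime), p ∣ N →
    (p : k) ≠ 0 ∧ ∃ Φ : Polynomial (Polynomial ℤ), @IsModPoly p ⟨hp.ne_zero⟩ Φ

variable {k}

theorem HasModPolys.mono {N M : ℕ} (H : HasModPolys k N) (h : M ∣ N) : HasModPolys k M :=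
  fun p hp hpM => H p hp (hpM.trans h)

end Hyp

section Generation

variable {k : Type*} [Field k]

/-- **Generation.** If an intermediate field `E` contains `j(q^d)` for all `d ∣ M` and
`j(q^{p^{b+1}})` for the exact power `p^b ∥ M`, then it contains `j(q^d)` for all `d ∣ M p`. -/
theorem jd_mem_of_gen {M p : ℕ} (hp : p.Prime) (H : HasModPolys k (M * p))
    (E : IntermediateField k (LaurentSeries k))
    (h1 : ∀ (d : ℕ) [NeZero d], d ∣ M → jd k d ∈ E)
    (h2 : ∀ (b : ℕ) [NeZero (p ^ (b + 1))], p ^ b ∣ M → ¬ p ^ (b + 1) ∣ M →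
      jd k (p ^ (b + 1)) ∈ E) :
    ∀ (d : ℕ) [NeZero d], d ∣ M * p → jd k d ∈ E := by
  intro d
  induction d using Nat.strong_induction_on with
  | _ d ih =>
    intro inst hd
    by_cases hdM : d ∣ M
    · exact h1 d hdM
    have hpd : p ∣ d := by
      by_contra hpd
      have hcop : Nat.Coprime d p := ((Nat.Prime.coprime_iff_not_dvd hp).2 hpd).symm
      exact hdM (hcop.dvd_of_dvd_mul_right hd)
    obtain ⟨g, rfl⟩ := hpd
    have hg0 : g ≠ 0 := by
      rintro rfl
      exact (NeZero.ne (p * 0)) (mul_zero p)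
    have hgM : g ∣ M := by
      rw [mul_comm M p] at hd
      exact Nat.dvd_of_mul_dvd_mul_left hp.pos hd
    have : NeZero p := ⟨hp.ne_zero⟩
    by_cases hg : ∃ r, r.Prime ∧ r ∣ g ∧ r ≠ p
    · obtain ⟨r, hr, ⟨e, rfl⟩, hrp⟩ := hg
      have he0 : e ≠ 0 := by
        rintro rfl
        exact hg0 (mul_zero r)
      have : NeZero r := ⟨hr.ne_zero⟩
      have : NeZero e := ⟨he0⟩
      have hrM : r ∣ M * p := (Dvd.intro e rfl : r ∣ r * e).trans (hgM.trans (Dvd.intro p rfl))
      obtain ⟨hpk, Φp, hΦp⟩ := H p hp (Dvd.intro_left M rfl)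
      obtain ⟨hrk, Φr, hΦr⟩ := H r hr hrM
      have : NeZero (p : k) := ⟨hpk⟩
      have : NeZero (r : k) := ⟨hrk⟩
      have m1 : jd k (r * e) ∈ E := h1 (r * e) hgM
      have m2 : jd k (p * e) ∈ E := by
        refine ih (p * e) ?_ ?_
        · have : e < r * e := by
            have := hr.one_lt
            have he : 0 < e := Nat.pos_of_ne_zero he0
            nlinarith
          exact Nat.mul_lt_mul_of_pos_left this hp.pos
        · refine Dvd.dvd.trans ?_ hd
          exact mul_dvd_mul_left p (Dvd.intro_left r rfl)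
      have := jd_mem_of_pair hp hr hrp.symm hΦp hΦr e E m1 m2
      rwa [jd_congr k (show p * r * e = p * (r * e) by ring)] at this
    · have hg' : ∀ {r : ℕ}, r.Prime → r ∣ g → r = p := by
        intro r hr hrg
        by_contra hne
        exact hg ⟨r, hr, hrg, hne⟩
      have hgp := Nat.eq_prime_pow_of_unique_prime_dvd hg0 hg'
      set b := g.primeFactorsList.length with hb
      have hd' : p * g = p ^ (b + 1) := by rw [pow_succ, mul_comm, ← hgp]
      have : NeZero (p ^ (b + 1)) := ⟨pow_ne_zero _ hp.ne_zero⟩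
      rw [jd_congr k hd']
      refine h2 b ?_ ?_
      · rw [← hgp]; exact hgM
      · rw [← hd']; exact hdM

end Generation

/-! ### Degree of a simple extension, in `relrank` form -/

section Degree

variable {K L : Type*} [Field K] [Field L] [Algebra K L]

/-- If `A ≤ B ≤ A(x)`, `x ∈ B` and `x` is a root of a monic `P ∈ A[X]`, then `[B : A] ≤ deg P`. -/
theorem relrank_le_natDegree (A B : IntermediateField K L) (hAB : A ≤ B)
    (x : L) (P : Polynomial A) (hP : P.Monic) (hx : Polynomial.aeval x P = 0)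
    (hB : B ≤ (IntermediateField.adjoin A {x}).restrictScalars K) (hxB : x ∈ B) :
    IntermediateField.relrank A B ≤ (P.natDegree : Cardinal) := by
  have hint : IsIntegral A x := ⟨P, hP, hx⟩
  have hBeq : B = (IntermediateField.adjoin A {x}).restrictScalars K := by
    refine le_antisymm hB ?_
    rw [IntermediateField.restrictScalars_adjoin_eq_sup]
    refine sup_le hAB ?_
    rw [IntermediateField.adjoin_le_iff]
    intro y hy
    rw [Set.mem_singleton_iff] at hy
    rw [hy]
    exact hxB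
  rw [IntermediateField.relrank_eq_rank_of_le hAB]
  have hext : IntermediateField.extendScalars hAB = IntermediateField.adjoin A {x} := by
    ext y
    rw [IntermediateField.mem_extendScalars, hBeq]
    rfl
  rw [hext]
  have := IntermediateField.adjoin.finiteDimensional hint
  rw [← Module.finrank_eq_rank, IntermediateField.adjoin.finrank hint, Nat.cast_le]
  exact Polynomial.natDegree_le_natDegree (minpoly.degree_le_of_ne_zero A x hP.ne_zero hx)

end Degree

/-! ### The tower steps -/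

section Steps

variable {k : Type*} [Field k]

theorem jd_mem_full (N : ℕ) [NeZero N] (d : ℕ) [NeZero d] (hd : d ∣ N) :
    jd k d ∈ modularFunctionFieldFullC k N :=
  jqModCd_mem_full k N hd

theorem full_le_of_forall_mem (N : ℕ) [NeZero N] (E : IntermediateField k (LaurentSeries k))
    (h : ∀ (d : ℕ) [NeZero d], d ∣ N → jd k d ∈ E) : modularFunctionFieldFullC k N ≤ E := by
  rw [modularFunctionFieldFullC, IntermediateField.adjoin_le_iff]
  rintro x ⟨d, hne, hdvd, rfl⟩
  exact h d hdvd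

theorem jd_one : jd k 1 = jqModC k := qExpand_one_apply _

/-- uniqueness of the exact exponent -/
theorem exact_pow_unique {p M a b : ℕ} (ha : p ^ a ∣ M) (ha' : ¬ p ^ (a + 1) ∣ M)
    (hb : p ^ b ∣ M) (hb' : ¬ p ^ (b + 1) ∣ M) : b = a := by
  rcases lt_trichotomy b a with h | h | h
  · exact absurd ((pow_dvd_pow p (Nat.succ_le_of_lt h)).trans ha) hb'
  · exact h
  · exact absurd ((pow_dvd_pow p (Nat.succ_le_of_lt h)).trans hb) ha'

/-- **Generation, packaged.** `k(j_d : d ∣ Mp) ≤ k(j_d : d ∣ M)(j_{p^{a+1}})` for `p^a ∥ M`. -/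
theorem full_mul_le_adjoin {M p a : ℕ} [NeZero M] [NeZero (M * p)] [NeZero (p ^ (a + 1))]
    (hp : p.Prime) (H : HasModPolys k (M * p))
    (ha : p ^ a ∣ M) (ha' : ¬ p ^ (a + 1) ∣ M) :
    modularFunctionFieldFullC k (M * p) ≤
      (IntermediateField.adjoin (modularFunctionFieldFullC k M)
        {jd k (p ^ (a + 1))}).restrictScalars k := by
  refine full_le_of_forall_mem (M * p) _ ?_
  refine jd_mem_of_gen hp H _ ?_ ?_
  · intro d _ hd
    rw [IntermediateField.mem_restrictScalars]
    exact IntermediateField.algebraMap_mem _ (⟨jd k d, jd_mem_full M d hd⟩ :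
      modularFunctionFieldFullC k M)
  · intro b _ hb hb'
    have hba : b = a := exact_pow_unique ha ha' hb hb'
    subst hba
    rw [IntermediateField.mem_restrictScalars]
    exact IntermediateField.subset_adjoin _ _ (Set.mem_singleton _)

/-- **Step, `p ∤ M`**: `[k(j_d : d ∣ Mp) : k(j_d : d ∣ M)] ≤ p + 1`. -/
theorem relrank_full_step_of_not_dvd {M p : ℕ} [NeZero M] [NeZero (M * p)]
    (hp : p.Prime) (H : HasModPolys k (M * p)) (hpM : ¬ p ∣ M) :
    IntermediateField.relrank (modularFunctionFieldFullC k M)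
      (modularFunctionFieldFullC k (M * p)) ≤ ((p + 1 : ℕ) : Cardinal) := by
  have instp : NeZero p := ⟨hp.ne_zero⟩
  have instp1 : NeZero (p ^ (0 + 1)) := ⟨pow_ne_zero _ hp.ne_zero⟩
  obtain ⟨-, Φ, hΦ⟩ := H p hp (Dvd.intro_left M rfl)
  have hAB : modularFunctionFieldFullC k M ≤ modularFunctionFieldFullC k (M * p) :=
    full_degeneracyC_le k (Dvd.intro p rfl)
  have hj : jqModC k ∈ modularFunctionFieldFullC k M := jqModC_mem_full k M
  have hx : jd k (p ^ (0 + 1)) = jd k p := jd_congr k (by simp)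
  have key := relrank_le_natDegree (modularFunctionFieldFullC k M)
    (modularFunctionFieldFullC k (M * p)) hAB (jd k (p ^ (0 + 1)))
    (spec Φ (⟨jqModC k, hj⟩ : modularFunctionFieldFullC k M)) (spec_monic hΦ.monic _) ?_
    (full_mul_le_adjoin hp H (by simp) (by simpa using hpM)) ?_
  · rwa [spec_natDegree hΦ.monic, hΦ.natDegree_eq] at key
  · rw [Polynomial.aeval_def, Polynomial.eval₂_eq_eval_map, map_spec, eval_spec, hx]
    show ev2 Φ (jqModC k) (jd k p) = 0
    have := ev2_jd_up (k := k) hΦ 1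
    rwa [jd_one, jd_congr k (one_mul p)] at this
  · rw [hx]
    exact jd_mem_full (M * p) p (Dvd.intro_left M rfl)

/-- **Step, `p ∣ M`**: `[k(j_d : d ∣ Mp) : k(j_d : d ∣ M)] ≤ p`. -/
theorem relrank_full_step_of_dvd {M p : ℕ} [NeZero M] [NeZero (M * p)]
    (hp : p.Prime) (H : HasModPolys k (M * p)) (hpM : p ∣ M) :
    IntermediateField.relrank (modularFunctionFieldFullC k M)
      (modularFunctionFieldFullC k (M * p)) ≤ ((p : ℕ) : Cardinal) := by
  classical
  have instp : NeZero p := ⟨hp.ne_zero⟩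
  obtain ⟨-, Φ, hΦ⟩ := H p hp (Dvd.intro_left M rfl)
  -- the exact exponent
  obtain ⟨a, M', hM', hMeq⟩ := Nat.exists_eq_pow_mul_and_not_dvd (NeZero.ne M) p hp.ne_one
  have ha : p ^ a ∣ M := ⟨M', hMeq⟩
  have ha' : ¬ p ^ (a + 1) ∣ M := by
    rintro ⟨c, hc⟩
    apply hM'
    have h3 : p ^ a * M' = p ^ a * (p * c) := by rw [← hMeq, hc, pow_succ]; ring
    exact ⟨c, Nat.eq_of_mul_eq_mul_left (pow_pos hp.pos a) h3⟩
  have ha1 : a ≠ 0 := by
    rintro rfl
    apply hM'
    rw [pow_zero, one_mul] at hMeq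
    rwa [← hMeq]
  obtain ⟨a', rfl⟩ := Nat.exists_eq_succ_of_ne_zero ha1
  have inst1 : NeZero (p ^ (a' + 1 + 1)) := ⟨pow_ne_zero _ hp.ne_zero⟩
  have inst2 : NeZero (p ^ (a' + 1)) := ⟨pow_ne_zero _ hp.ne_zero⟩
  have inst3 : NeZero (p ^ a') := ⟨pow_ne_zero _ hp.ne_zero⟩
  have hAB : modularFunctionFieldFullC k M ≤ modularFunctionFieldFullC k (M * p) :=
    full_degeneracyC_le k (Dvd.intro p rfl)
  have hy : jd k (p ^ (a' + 1)) ∈ modularFunctionFieldFullC k M := jd_mem_full M _ ha
  have hz : jd k (p ^ a') ∈ modularFunctionFieldFullC k M :=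
    jd_mem_full M _ ((pow_dvd_pow p (Nat.le_succ a')).trans ha)
  set y' : modularFunctionFieldFullC k M := ⟨jd k (p ^ (a' + 1)), hy⟩ with hy'
  set z' : modularFunctionFieldFullC k M := ⟨jd k (p ^ a'), hz⟩ with hz'
  set x : LaurentSeries k := jd k (p ^ (a' + 1 + 1)) with hxdef
  -- `z'` is a root of `P₀ = Φ(y', X)`
  have hroot : (spec Φ y').IsRoot z' := by
    rw [Polynomial.IsRoot, eval_spec]
    apply (algebraMap (modularFunctionFieldFullC k M) (LaurentSeries k)).injective
    rw [map_ev2, map_zero]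
    show ev2 Φ (jd k (p ^ (a' + 1))) (jd k (p ^ a')) = 0
    have := ev2_jd_down (k := k) hΦ (p ^ a')
    rwa [jd_congr k (show p ^ a' * p = p ^ (a' + 1) from (pow_succ p a').symm)] at this
  have hfac : (Polynomial.X - Polynomial.C z') * (spec Φ y' /ₘ (Polynomial.X - Polynomial.C z')) = spec Φ y' :=
    Polynomial.mul_divByMonic_eq_iff_isRoot.mpr hroot
  have hmonic0 : (spec Φ y').Monic := spec_monic hΦ.monic _
  have hmonic : (spec Φ y' /ₘ (Polynomial.X - Polynomial.C z')).Monic := by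
    refine Polynomial.Monic.of_mul_monic_left (Polynomial.monic_X_sub_C z') ?_
    rw [hfac]
    exact hmonic0
  have hdeg : (spec Φ y' /ₘ (Polynomial.X - Polynomial.C z')).natDegree = p := by
    rw [Polynomial.natDegree_divByMonic _ (Polynomial.monic_X_sub_C z'),
      spec_natDegree hΦ.monic, hΦ.natDegree_eq, Polynomial.natDegree_X_sub_C]
    rfl
  have hx0 : Polynomial.aeval x (spec Φ y') = 0 := by
    rw [Polynomial.aeval_def, Polynomial.eval₂_eq_eval_map, map_spec, eval_spec]
    show ev2 Φ (jd k (p ^ (a' + 1))) (jd k (p ^ (a' + 1 + 1))) = 0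
    have := ev2_jd_up (k := k) hΦ (p ^ (a' + 1))
    rwa [jd_congr k (show p ^ (a' + 1) * p = p ^ (a' + 1 + 1) from (pow_succ p (a' + 1)).symm)]
      at this
  have hxz : x - jd k (p ^ a') ≠ 0 := by
    rw [sub_ne_zero]
    refine jd_ne_of_ne ?_
    intro h
    have := Nat.pow_right_injective hp.two_le h
    omega
  have hx1 : Polynomial.aeval x (spec Φ y' /ₘ (Polynomial.X - Polynomial.C z')) = 0 := by
    have h := hx0
    rw [← hfac, map_mul, map_sub, Polynomial.aeval_X, Polynomial.aeval_C] at h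
    rcases mul_eq_zero.mp h with h | h
    · exact absurd h hxz
    · exact h
  have key := relrank_le_natDegree (modularFunctionFieldFullC k M)
    (modularFunctionFieldFullC k (M * p)) hAB x
    (spec Φ y' /ₘ (Polynomial.X - Polynomial.C z')) hmonic hx1
    (full_mul_le_adjoin hp H ha ha') ?_
  · rwa [hdeg] at key
  · refine jd_mem_full (M * p) _ ?_
    rw [pow_succ]
    exact mul_dvd_mul_right ha p

end Steps

end Fermat.Agent.S28.H626

end

end
-- ===== PACK-END S28/H626/Tower.lean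

-- ===== PACK-BEGIN S28/H626/Upper.lean
section
/-
S28 helper (helper626): the upper bound `[k(j(q^d) : d ∣ N) : k(j)] ≤ ψ(N)` for every field `k`
in which `N` is invertible, from the prime-level modular polynomials; and its
linear-independence / spanning forms.
-/




set_option autoImplicit false

noncomputable section

open ModularCurve HahnSeries Polynomial IntermediateField

namespace Fermat.Agent.S28.H626

/-! ### Arithmetic of `dedekindPsi` -/

section Psi

theorem psi_mul_prime_of_dvd {N p : ℕ} (hN : N ≠ 0) (hp : p.Prime) (hpN : p ∣ N) :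
    dedekindPsi (N * p) = p * dedekindPsi N := by
  unfold dedekindPsi
  have hset : (N * p).divisors.filter Squarefree = N.divisors.filter Squarefree := by
    ext d
    simp only [Finset.mem_filter, Nat.mem_divisors]
    constructor
    · rintro ⟨⟨hd, _⟩, hsq⟩
      refine ⟨⟨?_, hN⟩, hsq⟩
      have h2 : d ∣ N ^ 2 := by
        rw [pow_two]
        exact hd.trans (mul_dvd_mul_left N hpN)
      exact (hsq.dvd_pow_iff_dvd two_ne_zero).1 h2
    · rintro ⟨⟨hd, _⟩, hsq⟩
      exact ⟨⟨hd.mul_right p, mul_ne_zero hN hp.ne_zero⟩, hsq⟩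
  rw [hset, Finset.mul_sum]
  refine Finset.sum_congr rfl fun d hd => ?_
  have hdN : d ∣ N := (Nat.mem_divisors.1 (Finset.mem_filter.1 hd).1).1
  obtain ⟨e, rfl⟩ := hdN
  have hd0 : 0 < d := Nat.pos_of_ne_zero (by rintro rfl; simp at hN)
  rw [mul_assoc, Nat.mul_div_cancel_left _ hd0, Nat.mul_div_cancel_left _ hd0, mul_comm]

theorem psi_mul_prime_of_not_dvd {N p : ℕ} (hN : N ≠ 0) (hp : p.Prime) (hpN : ¬ p ∣ N) :
    dedekindPsi (N * p) = (p + 1) * dedekindPsi N := by
  unfold dedekindPsi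
  have hcop : ∀ d, d ∣ N → Nat.Coprime d p := fun d hd =>
    (Nat.Coprime.symm ((Nat.Prime.coprime_iff_not_dvd hp).2 fun h => hpN (h.trans hd)))
  have hset : (N * p).divisors.filter Squarefree
      = (N.divisors.filter Squarefree) ∪ (N.divisors.filter Squarefree).image (· * p) := by
    ext d
    simp only [Finset.mem_filter, Nat.mem_divisors, Finset.mem_union, Finset.mem_image]
    constructor
    · rintro ⟨⟨hd, _⟩, hsq⟩
      by_cases hpd : p ∣ d
      · right
        obtain ⟨e, rfl⟩ := hpd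
        refine ⟨e, ⟨⟨?_, hN⟩, hsq.squarefree_of_dvd (Dvd.intro_left p rfl)⟩, mul_comm e p⟩
        rw [mul_comm p e] at hd
        exact Nat.dvd_of_mul_dvd_mul_right hp.pos hd
      · left
        refine ⟨⟨?_, hN⟩, hsq⟩
        have : Nat.Coprime d p := (Nat.Coprime.symm ((Nat.Prime.coprime_iff_not_dvd hp).2 hpd))
        exact this.dvd_of_dvd_mul_right hd
    · rintro (⟨⟨hd, _⟩, hsq⟩ | ⟨e, ⟨⟨he, _⟩, hsq⟩, rfl⟩)
      · exact ⟨⟨hd.mul_right p, mul_ne_zero hN hp.ne_zero⟩, hsq⟩
      · refine ⟨⟨mul_dvd_mul_right he p, mul_ne_zero hN hp.ne_zero⟩, ?_⟩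
        exact (Nat.squarefree_mul (hcop e he)).2 ⟨hsq, hp.squarefree⟩
  have hdisj : Disjoint (N.divisors.filter Squarefree)
      ((N.divisors.filter Squarefree).image (· * p)) := by
    rw [Finset.disjoint_left]
    intro d hd hd'
    simp only [Finset.mem_filter, Nat.mem_divisors, Finset.mem_image] at hd hd'
    obtain ⟨e, _, rfl⟩ := hd'
    exact hpN ((Dvd.intro_left e rfl).trans hd.1.1)
  rw [hset, Finset.sum_union hdisj, Finset.sum_image, add_mul, one_mul, Finset.mul_sum]
  · congr 1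
    · refine Finset.sum_congr rfl fun d hd => ?_
      have hdN : d ∣ N := (Nat.mem_divisors.1 (Finset.mem_filter.1 hd).1).1
      obtain ⟨e, rfl⟩ := hdN
      have hd0 : 0 < d := Nat.pos_of_ne_zero (by rintro rfl; simp at hN)
      rw [mul_assoc, Nat.mul_div_cancel_left _ hd0, Nat.mul_div_cancel_left _ hd0, mul_comm]
    · refine Finset.sum_congr rfl fun d hd => ?_
      exact Nat.mul_div_mul_right N d hp.pos
  · intro a _ b _ hab
    exact Nat.eq_of_mul_eq_mul_right hp.pos hab

end Psi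

/-! ### The upper bound -/

section Upper

variable {k : Type*} [Field k]

theorem full_one_eq : modularFunctionFieldFullC k 1 = IntermediateField.adjoin k {jqModC k} := by
  apply le_antisymm
  · refine full_le_of_forall_mem 1 _ ?_
    intro d _ hd
    have hd1 : d = 1 := Nat.dvd_one.mp hd
    rw [jd_congr k hd1, jd_one]
    exact IntermediateField.subset_adjoin _ _ (Set.mem_singleton _)
  · rw [IntermediateField.adjoin_le_iff]
    intro y hy
    rw [Set.mem_singleton_iff] at hy
    rw [hy]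
    exact jqModC_mem_full k 1

/-- **Upper bound**, `relrank` form (a `Cardinal` inequality, so it includes finiteness). -/
theorem relrank_full_le (N : ℕ) [NeZero N] (H : HasModPolys k N) :
    IntermediateField.relrank (modularFunctionFieldFullC k 1) (modularFunctionFieldFullC k N) ≤
      ((dedekindPsi N : ℕ) : Cardinal) := by
  revert H
  have main : ∀ n : ℕ, ∀ (N : ℕ) [NeZero N], N = n → HasModPolys k N →
      IntermediateField.relrank (modularFunctionFieldFullC k 1) (modularFunctionFieldFullC k N) ≤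
        ((dedekindPsi N : ℕ) : Cardinal) := by
    intro n
    induction n using Nat.strong_induction_on with
    | _ n ih =>
      intro N instN hNn H
      by_cases hN1 : N = 1
      · subst hN1
        rw [IntermediateField.relrank_self, dedekindPsi_one, Nat.cast_one]
      obtain ⟨p, hp, hpN⟩ := Nat.exists_prime_and_dvd hN1
      obtain ⟨M, hM⟩ := hpN
      have hNM : N = M * p := by rw [hM, mul_comm]
      subst hNM
      have hM0 : M ≠ 0 := by
        rintro rfl
        exact (NeZero.ne (0 * p)) (zero_mul p)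
      have instM : NeZero M := ⟨hM0⟩
      have hlt : M < n := by
        rw [← hNn]
        have := hp.one_lt
        have hMpos : 0 < M := Nat.pos_of_ne_zero hM0
        nlinarith
      have IH := ih M hlt M rfl (H.mono (Dvd.intro p rfl))
      have h1 : modularFunctionFieldFullC k 1 ≤ modularFunctionFieldFullC k M :=
        full_degeneracyC_le k (one_dvd M)
      have h2 : modularFunctionFieldFullC k M ≤ modularFunctionFieldFullC k (M * p) :=
        full_degeneracyC_le k (Dvd.intro p rfl)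
      rw [← IntermediateField.relrank_mul_relrank h1 h2]
      by_cases hpM : p ∣ M
      · rw [psi_mul_prime_of_dvd hM0 hp hpM, mul_comm p, Nat.cast_mul]
        exact mul_le_mul' IH (relrank_full_step_of_dvd hp H hpM)
      · rw [psi_mul_prime_of_not_dvd hM0 hp hpM, mul_comm (p + 1), Nat.cast_mul]
        exact mul_le_mul' IH (relrank_full_step_of_not_dvd hp H hpM)
  exact main N N rfl

/-- `k(j) ≤ k(j(q^d) : d ∣ N)`. -/
theorem adjoin_j_le_full (N : ℕ) [NeZero N] :
    IntermediateField.adjoin k {jqModC k} ≤ modularFunctionFieldFullC k N := by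
  rw [IntermediateField.adjoin_le_iff]
  intro y hy
  rw [Set.mem_singleton_iff] at hy
  rw [hy]
  exact jqModC_mem_full k N

/-- **Upper bound** over `k(j) = IntermediateField.adjoin k {j}`. -/
theorem relrank_adjoin_j_full_le (N : ℕ) [NeZero N] (H : HasModPolys k N) :
    IntermediateField.relrank (IntermediateField.adjoin k {jqModC k})
      (modularFunctionFieldFullC k N) ≤ ((dedekindPsi N : ℕ) : Cardinal) := by
  rw [← full_one_eq]
  exact relrank_full_le N H

/-- The function field as a finite-dimensional `k(j)`-vector space: rank bound. -/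
theorem rank_extendScalars_le (N : ℕ) [NeZero N] (H : HasModPolys k N) :
    Module.rank (IntermediateField.adjoin k {jqModC k})
      (IntermediateField.extendScalars (adjoin_j_le_full (k := k) N)) ≤
        ((dedekindPsi N : ℕ) : Cardinal) := by
  rw [← IntermediateField.relrank_eq_rank_of_le]
  exact relrank_adjoin_j_full_le N H

theorem finiteDimensional_extendScalars (N : ℕ) [NeZero N] (H : HasModPolys k N) :
    FiniteDimensional (IntermediateField.adjoin k {jqModC k})
      (IntermediateField.extendScalars (adjoin_j_le_full (k := k) N)) := by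
  rw [FiniteDimensional, ← Module.rank_lt_aleph0_iff]
  exact lt_of_le_of_lt (rank_extendScalars_le N H) (Cardinal.nat_lt_aleph0 _)

theorem finrank_extendScalars_le (N : ℕ) [NeZero N] (H : HasModPolys k N) :
    Module.finrank (IntermediateField.adjoin k {jqModC k})
      (IntermediateField.extendScalars (adjoin_j_le_full (k := k) N)) ≤ dedekindPsi N := by
  have := finiteDimensional_extendScalars N H
  have h := rank_extendScalars_le N H
  rw [← Module.finrank_eq_rank, Nat.cast_le] at h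
  exact h

/-- **Upper bound, linear-independence form.** A family of elements of `k(j(q^d) : d ∣ N)` which
is linearly independent over `k(j)` has at most `ψ(N)` members. -/
theorem card_le_of_linearIndependent (N : ℕ) [NeZero N] (H : HasModPolys k N)
    {ι : Type*} [Fintype ι] (v : ι → LaurentSeries k)
    (hv : ∀ i, v i ∈ modularFunctionFieldFullC k N)
    (hli : LinearIndependent (IntermediateField.adjoin k {jqModC k}) v) :
    Fintype.card ι ≤ dedekindPsi N := by
  have := finiteDimensional_extendScalars N H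
  set B := IntermediateField.extendScalars (adjoin_j_le_full (k := k) N) with hB
  let w : ι → B := fun i => ⟨v i, hv i⟩
  have hw : LinearIndependent (IntermediateField.adjoin k {jqModC k}) w := by
    refine LinearIndependent.of_comp (B.val.toLinearMap) ?_
    exact hli
  exact (hw.fintype_card_le_finrank).trans (finrank_extendScalars_le N H)

/-- **Upper bound, spanning form.** A family of at least `ψ(N)` elements of
`k(j(q^d) : d ∣ N)` which is linearly independent over `k(j)` spans `k(j(q^d) : d ∣ N)`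
over `k(j)`. -/
theorem mem_span_of_linearIndependent (N : ℕ) [NeZero N] (H : HasModPolys k N)
    {ι : Type*} [Fintype ι] (v : ι → LaurentSeries k)
    (hv : ∀ i, v i ∈ modularFunctionFieldFullC k N)
    (hli : LinearIndependent (IntermediateField.adjoin k {jqModC k}) v)
    (hcard : dedekindPsi N ≤ Fintype.card ι)
    {x : LaurentSeries k} (hx : x ∈ modularFunctionFieldFullC k N) :
    x ∈ Submodule.span (IntermediateField.adjoin k {jqModC k}) (Set.range v) := by
  classical
  have := finiteDimensional_extendScalars N H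
  set B := IntermediateField.extendScalars (adjoin_j_le_full (k := k) N) with hB
  let w : ι → B := fun i => ⟨v i, hv i⟩
  have hw : LinearIndependent (IntermediateField.adjoin k {jqModC k}) w := by
    refine LinearIndependent.of_comp (B.val.toLinearMap) ?_
    exact hli
  have hcard' : Fintype.card ι = Module.finrank (IntermediateField.adjoin k {jqModC k}) B :=
    le_antisymm hw.fintype_card_le_finrank ((finrank_extendScalars_le N H).trans hcard)
  have htop : Submodule.span (IntermediateField.adjoin k {jqModC k}) (Set.range w) = ⊤ :=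
    hw.span_eq_top_of_card_eq_finrank' hcard'
  have hxB : (⟨x, hx⟩ : B) ∈ Submodule.span (IntermediateField.adjoin k {jqModC k})
      (Set.range w) := by
    rw [htop]; exact Submodule.mem_top
  have := Submodule.apply_mem_span_image_of_mem_span (B.val.toLinearMap) hxB
  have himg : (B.val.toLinearMap) '' (Set.range w) = Set.range v := by
    ext y
    constructor
    · rintro ⟨_, ⟨i, rfl⟩, rfl⟩
      exact ⟨i, rfl⟩
    · rintro ⟨i, rfl⟩
      exact ⟨w i, ⟨i, rfl⟩, rfl⟩
  rw [himg] at this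
  exact this

end Upper

end Fermat.Agent.S28.H626

end

end
-- ===== PACK-END S28/H626/Upper.lean

-- ===== PACK-BEGIN S28/H565/PolyPrinciple.lean
section






/-!
# S28 analytic bridge, part 4: the polynomial principle (helper565)

A holomorphic function on `ℍ` which is invariant under `SL(2, ℤ)` and has a convergent Laurent
expansion at `∞` (finitely many negative exponents) is a polynomial in `j`; consequently its
expansion is the same polynomial in the formal series `jqModC ℂ`.
-/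

set_option autoImplicit false

noncomputable section

open UpperHalfPlane Complex Function Filter Topology ModularForm
open scoped Real MatrixGroups Manifold

namespace Fermat.Agent.S28.H565

local notation "𝕢" => Periodic.qParam
local notation "Δ" => ModularForm.discriminant

theorem discriminant_slash (γ : SL(2, ℤ)) : (Δ ∣[(12 : ℤ)] γ) = Δ :=
  SlashInvariantForm.slash_action_generators_SL2Z discriminant_S_invariant
    discriminant_T_invariant γ

theorem discriminant_smul (γ : SL(2, ℤ)) (τ : ℍ) :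
    Δ (γ • τ) = ((γ 1 0 : ℂ) * τ + (γ 1 1 : ℂ)) ^ (12 : ℤ) * Δ τ :=
  (slash_action_eq'_iff 12 Δ γ τ).mp (congrFun (discriminant_slash γ) τ)

theorem E₄_smul (γ : SL(2, ℤ)) (τ : ℍ) :
    E₄ (γ • τ) = ((γ 1 0 : ℂ) * τ + (γ 1 1 : ℂ)) ^ (4 : ℤ) * E₄ τ := by
  have h : (⇑E₄ ∣[(4 : ℤ)] γ) = ⇑E₄ :=
    SlashInvariantForm.slash_action_eqn E₄ _ ⟨γ, rfl⟩
  exact (slash_action_eq'_iff 4 E₄ γ τ).mp (congrFun h τ)

theorem denom_ne_zero' (γ : SL(2, ℤ)) (τ : ℍ) : ((γ 1 0 : ℂ) * τ + (γ 1 1 : ℂ)) ≠ 0 := by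
  have := UpperHalfPlane.denom_ne_zero (γ : GL (Fin 2) ℝ) τ
  simpa [UpperHalfPlane.denom] using this

/-- `j` is invariant under `SL(2, ℤ)`. -/
theorem jFun_smul (γ : SL(2, ℤ)) (τ : ℍ) : jFun (γ • τ) = jFun τ := by
  have hd := denom_ne_zero' γ τ
  have hΔ := discriminant_ne_zero τ
  simp only [jFun]
  rw [discriminant_smul, E₄_smul]
  rw [mul_pow, ← zpow_natCast (((γ 1 0 : ℂ) * τ + (γ 1 1 : ℂ)) ^ (4 : ℤ)) 3, ← zpow_mul]
  norm_num
  field_simp

theorem mdifferentiable_discriminant : MDiff Δ := CuspForm.discriminant.holo'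

theorem mdifferentiable_jFun : MDiff jFun := by
  have h1 : MDiff (fun τ => E₄ τ ^ 3) := (ModularFormClass.holo E₄).pow 3
  exact h1.div mdifferentiable_discriminant discriminant_ne_zero

theorem E₄_pow_three (τ : ℍ) : E₄ τ ^ 3 = jFun τ * Δ τ := by
  rw [jFun, div_mul_cancel₀ _ (discriminant_ne_zero τ)]

theorem hasPExp_modularForm {k : ℤ} (G : ModularForm 𝒮ℒ k) :
    HasPExp 1 G (qExpansion 1 G) :=
  fun τ => ModularForm.hasSum_qExpansion G one_pos one_mem_strictPeriods_SL τ

theorem constantCoeff_e4C : PowerSeries.constantCoeff e4C = 1 := by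
  rw [e4C, ← PowerSeries.coeff_zero_eq_constantCoeff, PowerSeries.coeff_map,
    PowerSeries.coeff_zero_eq_constantCoeff, ModularCurve.constantCoeff_eisenstein4]
  simp

/-- Level one modular forms of weight `12 m` are of the form `Q(j) Δ^m` with `deg Q ≤ m`. -/
theorem exists_polynomial_of_modularForm (m : ℕ) : ∀ (k : ℤ), k = 12 * m →
    ∀ G : ModularForm 𝒮ℒ k,
      ∃ Q : Polynomial ℂ, Q.natDegree ≤ m ∧ ∀ τ, G τ = Q.eval (jFun τ) * Δ τ ^ m := by
  induction m with
  | zero =>
    intro k hk G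
    have hk0 : k = 0 := by simpa using hk
    obtain ⟨c, hc⟩ := ModularFormClass.levelOne_weight_zero_const (ModularForm.mcast hk0 G)
    refine ⟨Polynomial.C c, by simp, fun τ => ?_⟩
    have := congrFun hc τ
    simpa using this
  | succ m ih =>
    intro k hk G
    set c : ℂ := PowerSeries.coeff 0 (qExpansion 1 G) with hc
    have hw : ((3 * (m + 1) : ℕ) : ℤ) * 4 = k := by rw [hk]; push_cast; ring
    set E4pow : ModularForm 𝒮ℒ k := ModularForm.mcast hw (E₄.pow (3 * (m + 1))) with hE4pow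
    have hE4pow_apply : ∀ τ, E4pow τ = E₄ τ ^ (3 * (m + 1)) := by
      intro τ
      rw [hE4pow, ModularForm.coe_mcast, ModularForm.coe_pow]
      rfl
    set G₁ : ModularForm 𝒮ℒ k := G - c • E4pow with hG₁
    have hG₁_apply : ∀ τ, G₁ τ = G τ - c * E₄ τ ^ (3 * (m + 1)) := by
      intro τ
      simp [hG₁, hE4pow_apply]
    have hexp1 : HasPExp 1 G₁ (qExpansion 1 G - c • e4C ^ (3 * (m + 1))) := by
      refine ((hasPExp_modularForm G).sub ((hasPExp_E₄.pow (3 * (m + 1))).smul c)).congr ?_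
      intro τ
      simp [hG₁_apply]
    have hq : qExpansion 1 G₁ = qExpansion 1 G - c • e4C ^ (3 * (m + 1)) :=
      (hasPExp_modularForm G₁).unique one_pos hexp1
    have hcusp : PowerSeries.coeff 0 (qExpansion 1 G₁) = 0 := by
      rw [hq, map_sub, PowerSeries.coeff_smul, ← hc]
      simp [constantCoeff_e4C]
    have hw' : k - 12 = 12 * (m : ℤ) := by rw [hk]; push_cast; ring
    obtain ⟨Q', hQ'deg, hQ'⟩ := ih (k - 12) hw' (CuspForm.discriminantEquiv (G₁.toCuspForm hcusp))
    refine ⟨Polynomial.C c * Polynomial.X ^ (m + 1) + Q', ?_, fun τ => ?_⟩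
    · refine (Polynomial.natDegree_add_le _ _).trans (max_le ?_ (hQ'deg.trans (Nat.le_succ m)))
      exact Polynomial.natDegree_C_mul_X_pow_le c (m + 1)
    · have h1 := hQ' τ
      rw [CuspForm.discriminantEquiv_apply, ModularForm.toCuspForm_apply, hG₁_apply] at h1
      have hΔ := discriminant_ne_zero τ
      have h2 : G τ - c * E₄ τ ^ (3 * (m + 1)) = Q'.eval (jFun τ) * Δ τ ^ m * Δ τ := by
        rw [← h1, div_mul_cancel₀ _ hΔ]
      have h3 : E₄ τ ^ (3 * (m + 1)) = (jFun τ * Δ τ) ^ (m + 1) := by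
        rw [pow_mul, E₄_pow_three]
      rw [h3] at h2
      simp only [Polynomial.eval_add, Polynomial.eval_mul, Polynomial.eval_C, Polynomial.eval_pow,
        Polynomial.eval_X]
      linear_combination h2

/-- `q = t^N` for the parameters `q = exp (2πiτ)` and `t = exp (2πiτ/N)`. -/
theorem qParam_one_eq_pow (N : ℕ) (hN : N ≠ 0) (z : ℂ) : 𝕢 1 z = 𝕢 N z ^ N := by
  have h := qParam_mul_pow 1 N hN z 1
  rw [one_mul, mul_one, zpow_one, zpow_natCast] at h
  exact h.symm

theorem isBoundedAtImInfty_mul_discriminant_pow {N : ℕ} [NeZero N] {f : ℍ → ℂ}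
    {φ : LaurentSeries ℂ} (hexp : HasTExp N f φ) (m : ℕ) (hm : 0 ≤ φ.order + N * m) :
    IsBoundedAtImInfty (fun τ => f τ * Δ τ ^ m) := by
  have hN : (0 : ℝ) < N := by exact_mod_cast Nat.pos_of_ne_zero (NeZero.ne N)
  obtain ⟨k, hk⟩ := Int.eq_ofNat_of_zero_le hm
  have b1 := hexp.hasPExp.isBoundedAtImInfty hN
  have b2 := ((HasPExp.X (h := N)).pow k).isBoundedAtImInfty hN
  have b3 := ((hasPExp_eulerFun one_pos).pow (24 * m)).isBoundedAtImInfty one_pos
  have b := (b1.mul b2).mul b3
  have hfun : (fun τ : ℍ => f τ * Δ τ ^ m) =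
      ((fun τ : ℍ => f τ * 𝕢 N τ ^ (-φ.order)) * ((fun τ : ℍ => 𝕢 N τ) ^ k)) *
        ((fun τ : ℍ => eulerFun (𝕢 1 τ)) ^ (24 * m)) := by
    funext τ
    have ht : 𝕢 N (τ : ℂ) ≠ 0 := Periodic.qParam_ne_zero _
    simp only [Pi.mul_apply, Pi.pow_apply]
    rw [discriminant_eq_eulerFun, qParam_one_eq_pow N (NeZero.ne N)]
    have e1 : 𝕢 N (τ : ℂ) ^ (-φ.order) * 𝕢 N (τ : ℂ) ^ k = 𝕢 N (τ : ℂ) ^ (N * m) := by
      rw [← zpow_natCast (𝕢 N (τ : ℂ)) k, ← zpow_add₀ ht, ← hk, ← zpow_natCast]
      congr 1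
      push_cast
      ring
    rw [mul_pow, ← pow_mul]
    linear_combination (-(f τ * eulerFun (𝕢 N (τ : ℂ) ^ N) ^ (24 * m))) * e1
  rw [hfun]
  exact b

/-- **Polynomial principle.** A holomorphic `SL(2, ℤ)`-invariant function on `ℍ` with a
convergent Laurent expansion `φ` in `t = exp (2πiτ/N)` is a polynomial `Q` in `j`, and
`φ = Q (j(t^N))` as formal Laurent series. -/
theorem exists_polynomial_of_invariant {N : ℕ} [NeZero N] {f : ℍ → ℂ} {φ : LaurentSeries ℂ}
    (hf : MDiff f) (hinv : ∀ (γ : SL(2, ℤ)) (τ : ℍ), f (γ • τ) = f τ)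
    (hexp : HasTExp N f φ) :
    ∃ Q : Polynomial ℂ, (∀ τ, f τ = Q.eval (jFun τ)) ∧
      φ = Polynomial.aeval (ModularCurve.qExpand ℂ N (ModularCurve.jqModC ℂ)) Q := by
  have hN : (0 : ℝ) < N := by exact_mod_cast Nat.pos_of_ne_zero (NeZero.ne N)
  set m : ℕ := (-φ.order).toNat with hm
  have hm0 : 0 ≤ φ.order + N * m := by
    have h1 : -φ.order ≤ (m : ℤ) := Int.self_le_toNat _
    have h2 : (1 : ℤ) ≤ N := by exact_mod_cast Nat.pos_of_ne_zero (NeZero.ne N)
    nlinarith [Int.natCast_nonneg m]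
  have hbdd := isBoundedAtImInfty_mul_discriminant_pow hexp m hm0
  have hslash : ∀ γ : SL(2, ℤ),
      ((fun τ => f τ * Δ τ ^ m) ∣[(12 * m : ℤ)] γ) = fun τ => f τ * Δ τ ^ m := by
    intro γ
    funext τ
    rw [slash_action_eq'_iff, hinv, discriminant_smul, mul_pow, ← zpow_natCast
      (((γ 1 0 : ℂ) * τ + (γ 1 1 : ℂ)) ^ (12 : ℤ)) m, ← zpow_mul]
    ring
  let G : ModularForm 𝒮ℒ (12 * m) :=
    { toFun := fun τ => f τ * Δ τ ^ m
      slash_action_eq' := fun _ ⟨γ, hγ⟩ => hγ ▸ hslash γ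
      holo' := hf.mul (mdifferentiable_discriminant.pow m)
      bdd_at_cusps' := fun {c} hc => by
        rw [Subgroup.IsArithmetic.isCusp_iff_isCusp_SL2Z] at hc
        rw [OnePoint.isBoundedAt_iff_forall_SL2Z hc]
        intro γ _
        rw [hslash γ]
        exact hbdd }
  obtain ⟨Q, -, hQ⟩ := exists_polynomial_of_modularForm m _ rfl G
  have hfQ : ∀ τ, f τ = Q.eval (jFun τ) := by
    intro τ
    have h1 : f τ * Δ τ ^ m = Q.eval (jFun τ) * Δ τ ^ m := hQ τ
    exact mul_right_cancel₀ (pow_ne_zero m (discriminant_ne_zero τ)) h1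
  refine ⟨Q, hfQ, ?_⟩
  have h1 : HasTExp N jFun (ModularCurve.qExpand ℂ N (ModularCurve.jqModC ℂ)) :=
    hasTExp_jFun.qExpand_one N
  have h2 := h1.polynomial_aeval Q
  have h3 : HasTExp N f (Polynomial.aeval (ModularCurve.qExpand ℂ N (ModularCurve.jqModC ℂ)) Q) :=
    h2.congr fun τ => (hfQ τ).symm
  exact hexp.unique hN h3

end Fermat.Agent.S28.H565

end
end
-- ===== PACK-END S28/H565/PolyPrinciple.lean

-- ===== PACK-BEGIN S28/H685/JFun.lean
section





/-!
# S28 helper (helper685): the analytic `j`-function and its formal `q`-expansion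

* `jFun τ = E₄ τ ^ 3 / Δ τ`, holomorphic on `ℍ`, invariant under `SL(2, ℤ)`.
* `hasQLaurent_jFun` : `jFun` is the sum of the Prelude's formal series `ModularCurve.jqModC ℂ`
  (the image of `ModularCurve.jq` in `ℂ((q))`).
* `exists_polynomial_of_S_invariant` : **the `j`-polynomial principle**.
* `exists_polynomial_of_S_invariant_of_mem` : integrality of the polynomial.
-/

set_option autoImplicit false

namespace Fermat.Agent.S28.H685

open UpperHalfPlane Function Complex Filter HahnSeries ModularForm SlashInvariantForm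
  ModularFormClass EisensteinSeries
open scoped Topology Manifold MatrixGroups

noncomputable section

local notation "𝕢" => Periodic.qParam

/-- The analytic `j`-function (normalised as `q⁻¹ + 744 + ⋯`). -/
def jFun (τ : ℍ) : ℂ := E₄ τ ^ 3 / ModularForm.discriminant τ

/-- The formal `q`-expansion of `E₄`, with complex coefficients. -/
def eisenstein4C : PowerSeries ℂ := ModularCurve.eisenstein4.map (Int.castRingHom ℂ)

theorem qExpansion_E4_eq : qExpansion 1 E₄ = eisenstein4C := by
  ext m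
  rw [E_qExpansion_coeff _ ⟨2, rfl⟩]
  simp only [eisenstein4C, ModularCurve.eisenstein4, PowerSeries.coeff_map, PowerSeries.coeff_mk]
  split_ifs with h
  · simp
  · rw [show bernoulli 4 = -1 / 30 by decide +kernel, ArithmeticFunction.sigma_apply]
    simp only [eq_intCast]
    push_cast
    norm_num

theorem hasQExp_E4 : HasQExp 1 E₄ eisenstein4C := by
  intro τ
  have := ModularForm.hasSum_qExpansion E₄ one_pos one_mem_strictPeriods_SL τ
  rwa [qExpansion_E4_eq] at this

theorem discriminant_eq_etaC (τ : ℍ) :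
    ModularForm.discriminant τ = 𝕢 1 τ * etaC (𝕢 1 τ) ^ 24 := by
  rw [discriminant_eq_q_prod]
  congr 1
  have hq : ‖𝕢 1 (τ : ℂ)‖ < 1 := Periodic.norm_qParam_lt_one one_pos τ.im_pos
  rw [etaC, ← (multipliable_one_sub_pow hq).tprod_pow]

theorem etaC_qParam_ne_zero (τ : ℍ) : etaC (𝕢 1 τ) ≠ 0 := by
  intro h0
  have := discriminant_ne_zero τ
  rw [discriminant_eq_etaC, h0] at this
  simp at this

/-- The formal series `η^24 / q`, with complex coefficients. -/
def dedekindEtaUnitC : PowerSeries ℂ := ModularCurve.dedekindEtaUnit.map (Int.castRingHom ℂ)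

theorem dedekindEtaUnitC_eq : dedekindEtaUnitC = etaProdC ^ 24 := by
  rw [dedekindEtaUnitC, ModularCurve.dedekindEtaUnit, map_pow, etaProdC]

theorem hasQExp_dedekindEtaUnitC : HasQExp 1 (fun τ => etaC (𝕢 1 τ) ^ 24) dedekindEtaUnitC := by
  rw [dedekindEtaUnitC_eq]
  exact hasQExp_etaC.pow 24

theorem dedekindEtaUnitC_inv :
    dedekindEtaUnitC⁻¹ = ModularCurve.dedekindEtaUnitInv.map (Int.castRingHom ℂ) := by
  have h0 : PowerSeries.constantCoeff dedekindEtaUnitC ≠ 0 := by
    rw [dedekindEtaUnitC, ← PowerSeries.coeff_zero_eq_constantCoeff, PowerSeries.coeff_map,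
      PowerSeries.coeff_zero_eq_constantCoeff, ModularCurve.constantCoeff_dedekindEtaUnit]
    simp
  symm
  rw [PowerSeries.eq_inv_iff_mul_eq_one h0, dedekindEtaUnitC, ← map_mul, mul_comm,
    ModularCurve.dedekindEtaUnit_mul_inv, map_one]

/-- The formal numerator of `j`, with complex coefficients. -/
def jNumC : PowerSeries ℂ := ModularCurve.jNum.map (Int.castRingHom ℂ)

theorem jNumC_eq : jNumC = eisenstein4C ^ 3 * dedekindEtaUnitC⁻¹ := by
  rw [jNumC, ModularCurve.jNum, map_mul, map_pow, dedekindEtaUnitC_inv, eisenstein4C]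

theorem constantCoeff_jNumC : PowerSeries.constantCoeff jNumC = 1 := by
  rw [jNumC, ← PowerSeries.coeff_zero_eq_constantCoeff, PowerSeries.coeff_map,
    PowerSeries.coeff_zero_eq_constantCoeff, ModularCurve.constantCoeff_jNum]
  simp

theorem hasQExp_jNumC : HasQExp 1 (fun τ => E₄ τ ^ 3 * (etaC (𝕢 1 τ) ^ 24)⁻¹) jNumC := by
  rw [jNumC_eq]
  refine (hasQExp_E4.pow 3).mul (hasQExp_dedekindEtaUnitC.inv one_pos
    (fun τ => pow_ne_zero _ (etaC_qParam_ne_zero τ)) ?_)
  rw [dedekindEtaUnitC, PowerSeries.coeff_map, PowerSeries.coeff_zero_eq_constantCoeff,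
    ModularCurve.constantCoeff_dedekindEtaUnit]
  simp

theorem jqModC_eq : ModularCurve.jqModC ℂ =
    HahnSeries.single (-1 : ℤ) (1 : ℂ) * HahnSeries.ofPowerSeries ℤ ℂ jNumC := rfl

/-- **Bridge**: the analytic `j`-function is the sum of the Prelude's formal series `jq`. -/
theorem hasQLaurent_jFun : HasQLaurent 1 jFun (ModularCurve.jqModC ℂ) := by
  rw [jqModC_eq, hasQLaurent_single_mul_iff]
  refine hasQExp_jNumC.congr_fun fun τ => ?_
  have hq : 𝕢 1 (τ : ℂ) ≠ 0 := Periodic.qParam_ne_zero _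
  have hη := etaC_qParam_ne_zero τ
  rw [jFun, discriminant_eq_etaC]
  simp only [neg_neg, zpow_one]
  field_simp

/-- `jFun` in the explicit `HasSum` form, in terms of `ModularCurve.jq`. -/
theorem hasSum_jq (τ : ℍ) :
    HasSum (fun n : ℤ => ((ModularCurve.jq.coeff n : ℚ) : ℂ) * 𝕢 1 τ ^ n) (jFun τ) := by
  have := hasQLaurent_jFun τ
  have hc : ∀ n : ℤ, (ModularCurve.jqModC ℂ).coeff n = ((ModularCurve.jq.coeff n : ℚ) : ℂ) := by
    intro n
    rw [← ModularCurve.jqModC_rat, ← ModularCurve.map_jqModC (algebraMap ℚ ℂ),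
      HahnSeries.map_coeff]
    rfl
  simpa only [hc] using this

theorem jFun_S (τ : ℍ) : jFun (ModularGroup.S • τ) = jFun τ := by
  have hS : ((ModularGroup.S : SL(2, ℤ)) : GL (Fin 2) ℝ) ∈ 𝒮ℒ := ⟨ModularGroup.S, rfl⟩
  have h1 : E₄ (ModularGroup.S • τ) = _ := slash_action_eqn'' E₄ hS τ
  have h2 : CuspForm.discriminant (ModularGroup.S • τ) = _ :=
    slash_action_eqn'' CuspForm.discriminant hS τ
  have hd : denom ((ModularGroup.S : SL(2, ℤ)) : GL (Fin 2) ℝ) τ ≠ 0 := denom_ne_zero _ _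
  have hΔ := discriminant_ne_zero τ
  rw [CuspForm.coe_discriminant] at h2
  rw [jFun, jFun]
  rw [h1, h2]
  rw [div_eq_div_iff (mul_ne_zero (zpow_ne_zero _ hd) hΔ) hΔ]
  rw [mul_pow, ← zpow_natCast, ← zpow_mul]
  norm_num
  ring

theorem jFun_T (τ : ℍ) : jFun (ModularGroup.T • τ) = jFun τ :=
  hasQLaurent_jFun.T_invariant τ

theorem mdifferentiable_jFun : MDiff jFun :=
  hasQLaurent_jFun.mdifferentiable one_pos

/-- **The `j`-polynomial principle.**  A function on `ℍ` which is the sum of a convergent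
Laurent series `φ` in `q = exp (2 π i τ)` with exponents `≥ -m` and which is invariant under
`τ ↦ -1/τ` is a polynomial of degree `≤ m` in `j`; the same identity holds formally. -/
theorem exists_polynomial_of_S_invariant (m : ℕ) (F : ℍ → ℂ) (φ : LaurentSeries ℂ)
    (hφ : ∀ n : ℤ, n < -(m : ℤ) → φ.coeff n = 0) (hF : HasQLaurent 1 F φ)
    (hS : ∀ τ, F (ModularGroup.S • τ) = F τ) :
    ∃ P : Polynomial ℂ, P.natDegree ≤ m ∧ φ = Polynomial.aeval (ModularCurve.jqModC ℂ) P ∧
      ∀ τ, F τ = P.eval (jFun τ) :=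
  exists_polynomial_of_S_invariant_aux jFun jNumC constantCoeff_jNumC hasQLaurent_jFun jFun_S
    m F φ hφ hF hS

/-- Version without an a priori bound on the pole order. -/
theorem exists_polynomial_of_S_invariant' (F : ℍ → ℂ) (φ : LaurentSeries ℂ)
    (hF : HasQLaurent 1 F φ) (hS : ∀ τ, F (ModularGroup.S • τ) = F τ) :
    ∃ P : Polynomial ℂ, φ = Polynomial.aeval (ModularCurve.jqModC ℂ) P ∧
      ∀ τ, F τ = P.eval (jFun τ) := by
  obtain ⟨P, -, h1, h2⟩ := exists_polynomial_of_S_invariant (-φ.order).toNat F φ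
    (fun n hn => HahnSeries.coeff_eq_zero_of_lt_order (by omega)) hF hS
  exact ⟨P, h1, h2⟩

end

end Fermat.Agent.S28.H685

end
-- ===== PACK-END S28/H685/JFun.lean

-- ===== PACK-BEGIN S28/H25/ThetaLaurent.lean
section




/-!
# The `θ`-identity for `j` in `ℤ((q))` (helper25, S28 piece [A-θ])

`(θ j)⁶ = Δ · j⁴ · (j - 1728)³` for `j = jqModC ℤ`, `Δ = q ∏ (1 - qⁿ)²⁴`, `θ = q d/dq`,
under the bridge hypothesis `DeltaBridge`.
-/

set_option autoImplicit false

open ModularCurve HahnSeries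

noncomputable section

namespace Fermat.Agent.S28.H25

/-- `θ = q d/dq` on Laurent series: multiplies the coefficient of `qⁿ` by `n`.
(Same definition as `thetaL` in helper28's skeleton.) -/
def thetaLaurent (R : Type*) [CommRing R] (f : LaurentSeries R) : LaurentSeries R where
  coeff n := (n : R) * f.coeff n
  isPWO_support' := f.isPWO_support.mono fun n hn => by
    simp only [Function.mem_support, ne_eq] at hn ⊢
    intro h
    exact hn (by rw [h, mul_zero])

@[simp] theorem thetaLaurent_coeff (R : Type*) [CommRing R] (f : LaurentSeries R) (n : ℤ) :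
    (thetaLaurent R f).coeff n = (n : R) * f.coeff n := rfl

theorem thetaLaurent_single_neg_one_mul {R : Type*} [CommRing R] (u : PowerSeries R) :
    thetaLaurent R (single (-1 : ℤ) 1 * ofPowerSeries ℤ R u) =
      single (-1 : ℤ) 1 * ofPowerSeries ℤ R (thetaP u - u) := by
  ext n
  rw [thetaLaurent_coeff, coeff_single_mul, coeff_single_mul, one_mul, one_mul, sub_neg_eq_add]
  rcases le_or_gt 0 (n + 1) with hn | hn
  · obtain ⟨m, hm⟩ := Int.eq_ofNat_of_zero_le hn
    rw [hm, ofPowerSeries_apply_coeff, ofPowerSeries_apply_coeff, map_sub, coeff_thetaP]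
    have hn' : (n : R) = (m : R) - 1 := by
      have : n = (m : ℤ) - 1 := by omega
      rw [this]
      push_cast
      ring
    rw [hn']
    ring
  · rw [ofPowerSeries_coeff_of_neg _ hn, ofPowerSeries_coeff_of_neg _ hn, mul_zero]

theorem jNum_map_int : jNum.map (Int.castRingHom ℤ) = jNum := by
  ext n
  simp

theorem jqModC_int_eq : jqModC ℤ = single (-1 : ℤ) 1 * ofPowerSeries ℤ ℤ jNum := by
  rw [jqModC, jNum_map_int]

/-- The formal discriminant `Δ = q ∏ (1 - qⁿ)²⁴` in `ℤ((q))`. -/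
def deltaLaurentInt : LaurentSeries ℤ :=
  single (1 : ℤ) 1 * ofPowerSeries ℤ ℤ dedekindEtaUnit

/-- **θ-identity**: `(θ j)⁶ = Δ · j⁴ · (j - 1728)³` in `ℤ((q))`. -/
theorem theta_identity_laurent (hΔ : DeltaBridge) :
    (thetaLaurent ℤ (jqModC ℤ)) ^ 6 =
      deltaLaurentInt * (jqModC ℤ) ^ 4 * (jqModC ℤ - 1728) ^ 3 := by
  have hP := theta_identity_powerSeries hΔ
  have hst : (single (-1 : ℤ) (1 : ℤ) : LaurentSeries ℤ) * single (1 : ℤ) (1 : ℤ) = 1 := by
    rw [single_mul_single]
    simp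
  have hj' : jqModC ℤ - 1728 =
      single (-1 : ℤ) 1 * ofPowerSeries ℤ ℤ (jNum - 1728 * PowerSeries.X) := by
    rw [jqModC_int_eq, map_sub, map_mul, ofPowerSeries_X, map_ofNat (ofPowerSeries ℤ ℤ) 1728]
    linear_combination (1728 : LaurentSeries ℤ) * hst
  have hP' : (ofPowerSeries ℤ ℤ (thetaP jNum - jNum)) ^ 6 =
      ofPowerSeries ℤ ℤ dedekindEtaUnit * (ofPowerSeries ℤ ℤ jNum) ^ 4 *
        (ofPowerSeries ℤ ℤ (jNum - 1728 * PowerSeries.X)) ^ 3 := by
    rw [← map_pow, hP]
    simp only [map_mul, map_pow]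
  rw [hj', jqModC_int_eq, thetaLaurent_single_neg_one_mul, deltaLaurentInt]
  linear_combination (single (-1 : ℤ) (1 : ℤ) : LaurentSeries ℤ) ^ 6 * hP' -
    (single (-1 : ℤ) (1 : ℤ) : LaurentSeries ℤ) ^ 6 * ofPowerSeries ℤ ℤ dedekindEtaUnit *
      (ofPowerSeries ℤ ℤ jNum) ^ 4 * (ofPowerSeries ℤ ℤ (jNum - 1728 * PowerSeries.X)) ^ 3 * hst

end Fermat.Agent.S28.H25

end
end
-- ===== PACK-END S28/H25/ThetaLaurent.lean

-- ===== PACK-BEGIN S28/H25/Theta.lean
section





/-!
# [A-θ] The `θ`-identity `(θ j)⁶ = Δ · j⁴ · (j - 1728)³` in `ℤ((q))` (helper25)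

Unconditional, in the exact shape of the captain skeleton
(`Fermat.Agent.S28.thetaL`, `Fermat.Agent.S28.deltaL`, Prelude `jqModC`).
-/

set_option autoImplicit false

open UpperHalfPlane hiding I
open ModularCurve HahnSeries

noncomputable section

namespace Fermat.Agent.S28.H25

/-- Bridge B2: `qExpansion 1 Δ = q ∏ (1 - qⁿ)²⁴` (from helper685's eta bridge). -/
theorem deltaBridge : DeltaBridge := by
  have h1 : Fermat.Agent.S28.H685.HasQExp 1 (fun τ => ModularForm.discriminant τ)
      (PowerSeries.X * Fermat.Agent.S28.H685.dedekindEtaUnitC) :=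
    (Fermat.Agent.S28.H685.HasQExp.X.mul
      Fermat.Agent.S28.H685.hasQExp_dedekindEtaUnitC).congr_fun
      (fun τ => (Fermat.Agent.S28.H685.discriminant_eq_etaC τ).symm)
  have h2 : Fermat.Agent.S28.H685.HasQExp 1 (fun τ => ModularForm.discriminant τ)
      (qExpansion 1 ModularForm.discriminant) := by
    intro τ
    exact ModularForm.hasSum_qExpansion (discForm) one_pos
      one_mem_strictPeriods_SL τ
  exact h2.unique one_pos h1

theorem thetaL_eq_thetaLaurent (R : Type*) [CommRing R] (f : LaurentSeries R) :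
    Fermat.Agent.S28.thetaL R f = thetaLaurent R f := rfl

theorem deltaL_int_eq : Fermat.Agent.S28.deltaL ℤ = deltaLaurentInt := by
  have h : dedekindEtaUnit.map (Int.castRingHom ℤ) = dedekindEtaUnit := by
    ext n
    simp
  rw [Fermat.Agent.S28.deltaL, deltaLaurentInt, h]

/-- **[A-θ]** `(θ j)⁶ = Δ · j⁴ · (j - 1728)³` in `ℤ((q))`. -/
theorem theta_identity :
    (Fermat.Agent.S28.thetaL ℤ (jqModC ℤ)) ^ 6 =
      Fermat.Agent.S28.deltaL ℤ * (jqModC ℤ) ^ 4 * (jqModC ℤ - 1728) ^ 3 := by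
  rw [thetaL_eq_thetaLaurent, deltaL_int_eq]
  exact theta_identity_laurent deltaBridge

end Fermat.Agent.S28.H25

end
end
-- ===== PACK-END S28/H25/Theta.lean

-- ===== PACK-BEGIN S28/H685/JIntegral.lean
section




/-!
# S28 helper (helper685): integrality in the `j`-polynomial principle (J4)

If `P(j)` has all its Laurent coefficients in a subring `C₀ ⊆ ℂ`, then so has `P`.
Combined with `exists_polynomial_of_S_invariant` this gives the polynomial principle with
coefficients in `C₀`.  Also the versions for the parameter `q^(1/N)`.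
-/

set_option autoImplicit false

namespace Fermat.Agent.S28.H685

open UpperHalfPlane Function Complex Filter HahnSeries ModularForm
open scoped Topology Manifold MatrixGroups

noncomputable section

local notation "𝕢" => Periodic.qParam

theorem jqModC_pow_eq (n : ℕ) : ModularCurve.jqModC ℂ ^ n =
    HahnSeries.single (-(n : ℤ)) (1 : ℂ) * HahnSeries.ofPowerSeries ℤ ℂ (jNumC ^ n) := by
  rw [jqModC_eq, hauptmodul_pow]

/-- The coefficients of the powers of `j` are integers. -/
theorem coeff_jqModC_pow_mem (C₀ : Subring ℂ) (n : ℕ) (k : ℤ) :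
    (ModularCurve.jqModC ℂ ^ n).coeff k ∈ C₀ := by
  have h : (ModularCurve.jqModC ℂ ^ n).coeff k =
      (((ModularCurve.jqModC ℤ ^ n).coeff k : ℤ) : ℂ) := by
    rw [← ModularCurve.map_jqModC (Int.castRingHom ℂ)]
    have hpow : ((ModularCurve.jqModC ℤ).map (Int.castRingHom ℂ)) ^ n =
        (ModularCurve.jqModC ℤ ^ n).map (Int.castRingHom ℂ) := by
      induction n with
      | zero =>
        ext g
        simp only [pow_zero, HahnSeries.map_coeff, HahnSeries.coeff_one]
        split_ifs <;> simp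
      | succ n ih =>
        rw [pow_succ, pow_succ, ih]
        exact (HahnSeries.map_mul (Int.castRingHom ℂ).toNonUnitalRingHom).symm
    rw [hpow, HahnSeries.map_coeff]
    rfl
  rw [h]
  exact intCast_mem C₀ _

/-- **(J4)** If `P(j)` has all its coefficients in the subring `C₀`, so has `P`. -/
theorem coeff_mem_of_aeval_jqModC (C₀ : Subring ℂ) :
    ∀ (m : ℕ) (P : Polynomial ℂ), P.natDegree ≤ m →
      (∀ k : ℤ, (Polynomial.aeval (ModularCurve.jqModC ℂ) P).coeff k ∈ C₀) →
      ∀ i, P.coeff i ∈ C₀ := by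
  intro m
  induction m with
  | zero =>
    intro P hP hc i
    rw [Polynomial.eq_C_of_natDegree_le_zero hP] at hc ⊢
    have h0 := hc 0
    rw [Polynomial.aeval_C, algebraMap_eq_C] at h0
    have h1 : (HahnSeries.C (P.coeff 0) : LaurentSeries ℂ).coeff 0 = P.coeff 0 := by
      simp
    rw [h1] at h0
    rw [Polynomial.coeff_C]
    split_ifs
    · exact h0
    · exact C₀.zero_mem
  | succ m ih =>
    intro P hP hc i
    set a := P.coeff (m + 1) with ha
    set Q := P - Polynomial.C a * Polynomial.X ^ (m + 1) with hQ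
    have hQdeg : Q.natDegree ≤ m := by
      rw [Polynomial.natDegree_le_iff_coeff_eq_zero]
      intro N hN
      rw [hQ, Polynomial.coeff_sub, Polynomial.coeff_C_mul, Polynomial.coeff_X_pow]
      rcases Nat.lt_or_ge (m + 1) N with h1 | h1
      · rw [Polynomial.coeff_eq_zero_of_natDegree_lt (lt_of_le_of_lt hP h1),
          if_neg (by omega), mul_zero, sub_zero]
      · have : N = m + 1 := by omega
        rw [if_pos this, this, mul_one, sub_self]
    -- the coefficient `a` is the coefficient of `q^{-(m+1)}` in `P(j)`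
    have haeval : Polynomial.aeval (ModularCurve.jqModC ℂ) P =
        Polynomial.aeval (ModularCurve.jqModC ℂ) Q +
          HahnSeries.C a * ModularCurve.jqModC ℂ ^ (m + 1) := by
      rw [hQ, map_sub, map_mul, map_pow, Polynomial.aeval_X, Polynomial.aeval_C,
        algebraMap_eq_C]
      ring
    have hQlow : ∀ k : ℤ, k < -(m : ℤ) →
        (Polynomial.aeval (ModularCurve.jqModC ℂ) Q).coeff k = 0 := by
      intro k hk
      rw [Polynomial.aeval_eq_sum_range' (Nat.lt_succ_of_le hQdeg)]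
      rw [HahnSeries.coeff_sum]
      refine Finset.sum_eq_zero fun n hn => ?_
      have hn' : n ≤ m := Nat.lt_succ_iff.mp (Finset.mem_range.mp hn)
      rw [Algebra.smul_def, algebraMap_eq_C, HahnSeries.C_mul_eq_smul, HahnSeries.coeff_smul,
        jqModC_pow_eq, coeff_single_mul_ofPS_of_lt _ _ (by omega), smul_zero]
    have haC : a ∈ C₀ := by
      have h1 := hc (-((m + 1 : ℕ) : ℤ))
      rw [haeval, HahnSeries.coeff_add, hQlow _ (by push_cast; omega), zero_add,
        HahnSeries.C_mul_eq_smul, HahnSeries.coeff_smul, jqModC_eq,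
        coeff_hauptmodul_pow_self _ constantCoeff_jNumC, smul_eq_mul, mul_one] at h1
      exact h1
    have hQc : ∀ k : ℤ, (Polynomial.aeval (ModularCurve.jqModC ℂ) Q).coeff k ∈ C₀ := by
      intro k
      have h1 := hc k
      rw [haeval, HahnSeries.coeff_add, HahnSeries.C_mul_eq_smul, HahnSeries.coeff_smul,
        smul_eq_mul] at h1
      have h2 : a * (ModularCurve.jqModC ℂ ^ (m + 1)).coeff k ∈ C₀ :=
        C₀.mul_mem haC (coeff_jqModC_pow_mem C₀ _ _)
      have := C₀.sub_mem h1 h2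
      simpa using this
    have hQi := ih Q hQdeg hQc i
    have hPi : P.coeff i = Q.coeff i + (Polynomial.C a * Polynomial.X ^ (m + 1)).coeff i := by
      rw [hQ, Polynomial.coeff_sub]
      ring
    rw [hPi]
    refine C₀.add_mem hQi ?_
    rw [Polynomial.coeff_C_mul, Polynomial.coeff_X_pow]
    split_ifs
    · simpa using haC
    · simp

/-- **The `j`-polynomial principle with coefficients in a subring.** -/
theorem exists_polynomial_of_S_invariant_of_mem (C₀ : Subring ℂ) (F : ℍ → ℂ)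
    (φ : LaurentSeries ℂ) (hφ : ∀ n : ℤ, φ.coeff n ∈ C₀) (hF : HasQLaurent 1 F φ)
    (hS : ∀ τ, F (ModularGroup.S • τ) = F τ) :
    ∃ P : Polynomial ℂ, (∀ i, P.coeff i ∈ C₀) ∧
      φ = Polynomial.aeval (ModularCurve.jqModC ℂ) P ∧ ∀ τ, F τ = P.eval (jFun τ) := by
  obtain ⟨P, h1, h2⟩ := exists_polynomial_of_S_invariant' F φ hF hS
  exact ⟨P, coeff_mem_of_aeval_jqModC C₀ P.natDegree P le_rfl (fun k => h1 ▸ hφ k), h1, h2⟩

end

end Fermat.Agent.S28.H685

end
-- ===== PACK-END S28/H685/JIntegral.lean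

-- ===== PACK-BEGIN S28/H748/Conj.lean
section





/-!
# S28 / H748 — the conjugates of `j(dτ)` and of `Δ(dτ)/Δ(τ)` under `SL(2,ℤ)`

For `d ∣ N` and `γ ∈ SL(2,ℤ)` the functions `τ ↦ j(d·γτ)` and `τ ↦ Δ(d·γτ)/Δ(γτ)` are
`j((aτ+b)/δ)` and `δ⁻¹² Δ((aτ+b)/δ)/Δ(τ)` for the Hermite data `(a,b,δ)` of `(d,γ)`; all of them
have convergent Laurent expansions in `t = exp(2πiτ/N)` with coefficients in `ℤ[ζ_N, 1/N]`.
-/

set_option autoImplicit false

noncomputable section

open UpperHalfPlane HahnSeries ModularCurve Fermat.Agent.S24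
open scoped Real MatrixGroups Manifold

namespace Fermat.Agent.S28.H748

local notation "Δ" => ModularForm.discriminant

/-! ### Laurent series with coefficients in a subring -/

/-- Laurent series all of whose coefficients lie in the subring `S`. -/
def coeffSub (S : Subring ℂ) : Subring (LaurentSeries ℂ) where
  carrier := {φ | ∀ n, φ.coeff n ∈ S}
  zero_mem' := fun n => by simp
  one_mem' := fun n => by
    rw [HahnSeries.coeff_one]
    split_ifs
    · exact S.one_mem
    · exact S.zero_mem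
  add_mem' := fun hx hy n => by
    rw [HahnSeries.coeff_add]
    exact S.add_mem (hx n) (hy n)
  neg_mem' := fun hx n => by
    rw [HahnSeries.coeff_neg]
    exact S.neg_mem (hx n)
  mul_mem' := fun hx hy n => by
    rw [HahnSeries.coeff_mul]
    exact S.sum_mem fun ij _ => S.mul_mem (hx _) (hy _)

theorem mem_coeffSub {S : Subring ℂ} {φ : LaurentSeries ℂ} :
    φ ∈ coeffSub S ↔ ∀ n, φ.coeff n ∈ S := Iff.rfl

theorem qExpand_mem_coeffSub {S : Subring ℂ} (e : ℕ) [NeZero e] {φ : LaurentSeries ℂ}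
    (h : φ ∈ coeffSub S) : qExpand ℂ e φ ∈ coeffSub S := by
  intro n
  by_cases hn : (e : ℤ) ∣ n
  · obtain ⟨k, rfl⟩ := hn
    rw [qExpand_coeff_mul]
    exact h k
  · rw [qExpand_coeff_of_not_dvd e φ hn]
    exact S.zero_mem

theorem infTwist_mem_coeffSub {S : Subring ℂ} (u : ℂˣ) (hu : ∀ k : ℤ, ((u ^ k : ℂˣ) : ℂ) ∈ S)
    {φ : LaurentSeries ℂ} (h : φ ∈ coeffSub S) : infTwist u φ ∈ coeffSub S := by
  intro n
  rw [infTwist_coeff]
  exact S.mul_mem (h n) (hu n)

theorem coeffMap_int_mem_coeffSub (S : Subring ℂ) (x : LaurentSeries ℤ) :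
    coeffMap (Int.castRingHom ℂ) x ∈ coeffSub S := by
  intro n
  rw [coeffMap_coeff]
  exact intCast_mem S _

theorem C_mem_coeffSub {S : Subring ℂ} {c : ℂ} (hc : c ∈ S) :
    (HahnSeries.C c : LaurentSeries ℂ) ∈ coeffSub S := by
  intro n
  rw [HahnSeries.C_apply, HahnSeries.coeff_single]
  split_ifs
  · exact hc
  · exact S.zero_mem

theorem jqModC_mem_coeffSub (S : Subring ℂ) : jqModC ℂ ∈ coeffSub S := by
  rw [← coeffMap_jqModC (Int.castRingHom ℂ)]
  exact coeffMap_int_mem_coeffSub S _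

theorem single_one_mem_coeffSub (S : Subring ℂ) (k : ℤ) :
    (HahnSeries.single k (1 : ℂ) : LaurentSeries ℂ) ∈ coeffSub S := by
  intro n
  rw [HahnSeries.coeff_single]
  split_ifs
  · exact S.one_mem
  · exact S.zero_mem

theorem ofPowerSeries_map_int_mem_coeffSub (S : Subring ℂ) (p : PowerSeries ℤ) :
    HahnSeries.ofPowerSeries ℤ ℂ (PowerSeries.map (Int.castRingHom ℂ) p) ∈ coeffSub S := by
  rw [← coeffMap_ofPowerSeries]
  exact coeffMap_int_mem_coeffSub S _

theorem deltaSeriesC_mem_coeffSub (S : Subring ℂ) : H565.deltaSeriesC ∈ coeffSub S := by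
  rw [H565.deltaSeriesC, H565.etaProdC, ← map_pow]
  exact (coeffSub S).mul_mem (single_one_mem_coeffSub S 1) (ofPowerSeries_map_int_mem_coeffSub S _)

theorem deltaInvSeriesC_mem_coeffSub (S : Subring ℂ) : H565.deltaInvSeriesC ∈ coeffSub S := by
  rw [H565.deltaInvSeriesC, H565.etaInvC]
  exact (coeffSub S).mul_mem (single_one_mem_coeffSub S (-1))
    (ofPowerSeries_map_int_mem_coeffSub S _)

/-! ### The coefficient ring `ℤ[ζ_N, 1/N]` -/

/-- `ℤ[ζ_N, 1/N] ⊂ ℂ`. -/
def coeffRing (N : ℕ) : Subring ℂ :=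
  Subring.closure ({Complex.exp (2 * Real.pi * Complex.I / N), (N : ℂ)⁻¹} : Set ℂ)

theorem zeta_mem_coeffRing (N : ℕ) : Complex.exp (2 * Real.pi * Complex.I / N) ∈ coeffRing N :=
  Subring.subset_closure (by simp)

theorem inv_mem_coeffRing (N : ℕ) : (N : ℂ)⁻¹ ∈ coeffRing N :=
  Subring.subset_closure (by simp)

theorem zeta_pow_self (N : ℕ) [NeZero N] : Complex.exp (2 * Real.pi * Complex.I / N) ^ N = 1 := by
  rw [← Complex.exp_nat_mul]
  have hN : (N : ℂ) ≠ 0 := by exact_mod_cast NeZero.ne N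
  rw [mul_div_cancel₀ _ hN]
  exact Complex.exp_two_pi_mul_I

theorem zeta_zpow_mem_coeffRing (N : ℕ) [NeZero N] (k : ℤ) :
    Complex.exp (2 * Real.pi * Complex.I / N) ^ k ∈ coeffRing N := by
  have hN : (N : ℤ) ≠ 0 := by exact_mod_cast NeZero.ne N
  have h0 : Complex.exp (2 * Real.pi * Complex.I / N) ≠ 0 := Complex.exp_ne_zero _
  have hk : k = (N : ℤ) * (k / N) + k % N := (Int.mul_ediv_add_emod k N).symm
  have hnn : 0 ≤ k % (N : ℤ) := Int.emod_nonneg k hN
  obtain ⟨m, hm⟩ := Int.eq_ofNat_of_zero_le hnn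
  rw [hk, zpow_add₀ h0, zpow_mul, zpow_natCast, zeta_pow_self, one_zpow, one_mul, hm, zpow_natCast]
  exact (coeffRing N).pow_mem (zeta_mem_coeffRing N) m

theorem infRoot_zpow_mem_coeffRing {N δ : ℕ} [NeZero N] (hδ : 0 < δ) (hδN : δ ∣ N) (b k : ℤ) :
    ((infRoot b δ ^ k : ℂˣ) : ℂ) ∈ coeffRing N := by
  obtain ⟨c, rfl⟩ := hδN
  rw [infRoot_zpow_coe]
  have hδ0 : (δ : ℂ) ≠ 0 := by exact_mod_cast hδ.ne'
  have hc0 : (c : ℂ) ≠ 0 := by
    intro h
    have : c = 0 := by exact_mod_cast h
    exact NeZero.ne (δ * c) (by rw [this, mul_zero])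
  have h1 : Complex.exp (2 * Real.pi * Complex.I * b / δ)
      = Complex.exp (2 * Real.pi * Complex.I / ((δ * c : ℕ) : ℂ)) ^ (b * c) := by
    rw [← Complex.exp_int_mul]
    congr 1
    push_cast
    field_simp
  rw [h1, ← zpow_mul]
  exact zeta_zpow_mem_coeffRing (δ * c) _

theorem natCast_inv_mem_coeffRing {N δ : ℕ} [NeZero N] (hδN : δ ∣ N) :
    ((δ : ℂ))⁻¹ ∈ coeffRing N := by
  obtain ⟨c, rfl⟩ := hδN
  have hδ0 : (δ : ℂ) ≠ 0 := by
    intro h
    have : δ = 0 := by exact_mod_cast h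
    exact NeZero.ne (δ * c) (by rw [this, zero_mul])
  have hc0 : (c : ℂ) ≠ 0 := by
    intro h
    have : c = 0 := by exact_mod_cast h
    exact NeZero.ne (δ * c) (by rw [this, mul_zero])
  have h1 : ((δ : ℂ))⁻¹ = (c : ℂ) * (((δ * c : ℕ) : ℂ))⁻¹ := by
    push_cast
    field_simp
  rw [h1]
  exact (coeffRing (δ * c)).mul_mem (natCast_mem (coeffRing (δ * c)) c) (inv_mem_coeffRing _)

/-! ### Level-one expansions in the `InfExp` language -/

theorem infExp_iff_hasTExp {N : ℕ} {f : ℍ → ℂ} {φ : LaurentSeries ℂ} :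
    InfExp N f φ ↔ H565.HasTExp (N : ℝ) f φ := Iff.rfl

theorem infExp_of_hasTExp_one {f : ℍ → ℂ} {φ : LaurentSeries ℂ} (h : H565.HasTExp 1 f φ) :
    InfExp 1 f φ := by
  rw [infExp_iff_hasTExp, Nat.cast_one]
  exact h

theorem infExp_one_jFun : InfExp 1 H565.jFun (jqModC ℂ) :=
  infExp_of_hasTExp_one H565.hasTExp_jFun

theorem infExp_one_delta : InfExp 1 Δ H565.deltaSeriesC :=
  infExp_of_hasTExp_one H565.hasTExp_discriminant

theorem infExp_one_deltaInv : InfExp 1 (fun τ => (Δ τ)⁻¹) H565.deltaInvSeriesC :=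
  infExp_of_hasTExp_one H565.hasTExp_discriminant_inv

theorem infExp_level {N : ℕ} [NeZero N] {f : ℍ → ℂ} {φ : LaurentSeries ℂ} (h : InfExp 1 f φ) :
    InfExp N f (qExpand ℂ N φ) := by
  rw [infExp_iff_hasTExp] at h ⊢
  rw [Nat.cast_one] at h
  exact h.qExpand_one N

theorem InfExp.mdiff748 {N : ℕ} [NeZero N] {f : ℍ → ℂ} {φ : LaurentSeries ℂ} (h : InfExp N f φ) :
    MDiff f :=
  H205.ConvTo.mdiff (N := N) (φ := φ) h

/-! ### The conjugate functions -/

/-- `τ ↦ j((aτ+b)/δ)`. -/
def conjJ (a b δ : ℕ) (τ : ℍ) : ℂ := H565.jFun (infAff a b δ τ)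

/-- `τ ↦ δ⁻¹² Δ((aτ+b)/δ) / Δ(τ)`. -/
def conjU (a b δ : ℕ) (τ : ℍ) : ℂ := ((δ : ℂ)⁻¹) ^ 12 * Δ (infAff a b δ τ) * (Δ τ)⁻¹

theorem exists_infExp_comp_infAff {N a δ : ℕ} (b : ℤ) [NeZero N] (ha : 0 < a) (hδ : 0 < δ)
    (hδN : δ ∣ N) {f : ℍ → ℂ} {φ : LaurentSeries ℂ} (hf : InfExp 1 f φ)
    (hφ : φ ∈ coeffSub (coeffRing N)) :
    ∃ ψ, InfExp N (fun τ => f (infAff a b δ τ)) ψ ∧ ψ ∈ coeffSub (coeffRing N) := by
  obtain ⟨c, hc⟩ := hδN
  have hN : 0 < N := Nat.pos_of_ne_zero (NeZero.ne N)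
  have hcpos : 0 < c := by
    rcases Nat.eq_zero_or_pos c with h | h
    · subst h
      simp at hc
      omega
    · exact h
  haveI : NeZero (a * c) := ⟨(Nat.mul_pos ha hcpos).ne'⟩
  refine ⟨qExpand ℂ (a * c) (infTwist (infRoot b (δ * 1)) φ),
    InfExp.comp_infAff (M := 1) b ha hδ one_pos hN (by rw [hc]; ring) hf, ?_⟩
  apply qExpand_mem_coeffSub
  apply infTwist_mem_coeffSub _ _ hφ
  intro k
  rw [mul_one]
  exact infRoot_zpow_mem_coeffRing hδ ⟨c, hc⟩ b k

theorem exists_infExp_conjJ {N a δ : ℕ} (b : ℕ) [NeZero N] (ha : 0 < a) (hδ : 0 < δ)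
    (hδN : δ ∣ N) :
    ∃ ψ, InfExp N (conjJ a b δ) ψ ∧ ψ ∈ coeffSub (coeffRing N) :=
  exists_infExp_comp_infAff (b : ℤ) ha hδ hδN infExp_one_jFun (jqModC_mem_coeffSub _)

theorem exists_infExp_conjU {N a δ : ℕ} (b : ℕ) [NeZero N] (ha : 0 < a) (hδ : 0 < δ)
    (hδN : δ ∣ N) :
    ∃ ψ, InfExp N (conjU a b δ) ψ ∧ ψ ∈ coeffSub (coeffRing N) := by
  obtain ⟨ψ, hψ, hψm⟩ := exists_infExp_comp_infAff (N := N) (b : ℤ) ha hδ hδN infExp_one_delta
    (deltaSeriesC_mem_coeffSub _)
  have h2 : InfExp N (fun τ => (Δ τ)⁻¹) (qExpand ℂ N H565.deltaInvSeriesC) :=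
    infExp_level infExp_one_deltaInv
  have h3 := ((InfExp.const (N := N) (((δ : ℂ)⁻¹) ^ 12)).mul hψ).mul h2
  refine ⟨_, h3, ?_⟩
  refine (coeffSub _).mul_mem ((coeffSub _).mul_mem (C_mem_coeffSub ?_) hψm)
    (qExpand_mem_coeffSub N (deltaInvSeriesC_mem_coeffSub _))
  exact (coeffRing N).pow_mem (natCast_inv_mem_coeffRing hδN) 12

/-! ### Hermite normal form: the conjugates of `j(dτ)` and `Δ(dτ)/Δ(τ)` -/

open H628 in
theorem hermite_data {d : ℕ} (hd : 0 < d) (γ : SL(2, ℤ)) :
    ∃ γ' : SL(2, ℤ), ∀ τ : ℍ,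
      infAff d 0 1 (γ • τ) = γ' • infAff (hermA d γ) (hermB d γ) (hermD d γ) τ ∧
      ((γ' 1 0 : ℂ) * (infAff (hermA d γ) (hermB d γ) (hermD d γ) τ : ℂ) + (γ' 1 1 : ℂ)) *
          (hermD d γ : ℂ) = (γ 1 0 : ℂ) * τ + (γ 1 1 : ℂ) := by
  obtain ⟨γ', hmat⟩ := hermite_spec hd γ
  refine ⟨γ', fun τ => ?_⟩
  have hA := hermA_pos hd γ
  have hD := hermD_pos hd γ
  set σ := infAff (hermA d γ) (hermB d γ) (hermD d γ) τ with hσdef
  have hσ : (σ : ℂ) = ((hermA d γ : ℂ) * τ + (hermB d γ : ℂ)) / (hermD d γ : ℂ) := by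
    rw [hσdef, infAff_coe hA hD]
    push_cast
    rfl
  have h00 := congrFun (congrFun hmat 0) 0
  have h01 := congrFun (congrFun hmat 0) 1
  have h10 := congrFun (congrFun hmat 1) 0
  have h11 := congrFun (congrFun hmat 1) 1
  simp only [Matrix.mul_apply, Fin.sum_univ_two, Matrix.of_apply, Matrix.cons_val',
    Matrix.cons_val_zero, Matrix.cons_val_one, Matrix.empty_val', Matrix.cons_val_fin_one,
    zero_mul, add_zero, one_mul, zero_add, mul_zero] at h00 h01 h10 h11
  have c00 : (d : ℂ) * (γ 0 0 : ℂ) = (γ' 0 0 : ℂ) * (hermA d γ : ℂ) := by exact_mod_cast h00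
  have c01 : (d : ℂ) * (γ 0 1 : ℂ) =
      (γ' 0 0 : ℂ) * (hermB d γ : ℂ) + (γ' 0 1 : ℂ) * (hermD d γ : ℂ) := by
    exact_mod_cast h01
  have c10 : (γ 1 0 : ℂ) = (γ' 1 0 : ℂ) * (hermA d γ : ℂ) := by exact_mod_cast h10
  have c11 : (γ 1 1 : ℂ) = (γ' 1 0 : ℂ) * (hermB d γ : ℂ) + (γ' 1 1 : ℂ) * (hermD d γ : ℂ) := by
    exact_mod_cast h11
  have hD0 : (hermD d γ : ℂ) ≠ 0 := by exact_mod_cast hD.ne'
  have hden1 := int_lin_ne_zero _ _ (SL2_bottom_ne_zero γ) τ
  have hden2 := int_lin_ne_zero _ _ (SL2_bottom_ne_zero γ') σ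
  have hnum : (γ' 0 0 : ℂ) * σ + (γ' 0 1 : ℂ)
      = (d : ℂ) * ((γ 0 0 : ℂ) * τ + (γ 0 1 : ℂ)) / (hermD d γ : ℂ) := by
    rw [hσ]; field_simp; linear_combination (-(τ : ℂ)) * c00 - c01
  have hdenom : (γ' 1 0 : ℂ) * σ + (γ' 1 1 : ℂ)
      = ((γ 1 0 : ℂ) * τ + (γ 1 1 : ℂ)) / (hermD d γ : ℂ) := by
    rw [hσ]; field_simp; linear_combination (-(τ : ℂ)) * c10 - c11
  constructor
  · apply UpperHalfPlane.ext
    rw [infAff_coe hd one_pos, SL2_coe_smul, SL2_coe_smul, hnum, hdenom]
    simp only [Int.cast_zero, add_zero, Nat.cast_one, div_one]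
    field_simp
  · rw [hdenom]
    field_simp

open H628 in
theorem conjJ_smul {d : ℕ} (hd : 0 < d) (γ : SL(2, ℤ)) (τ : ℍ) :
    conjJ d 0 1 (γ • τ) = conjJ (hermA d γ) (hermB d γ) (hermD d γ) τ := by
  obtain ⟨γ', h⟩ := hermite_data hd γ
  have h1 := (h τ).1
  simp only [conjJ, Nat.cast_zero]
  rw [h1, H565.jFun_smul]

open H628 in
theorem conjU_smul {d : ℕ} (hd : 0 < d) (γ : SL(2, ℤ)) (τ : ℍ) :
    conjU d 0 1 (γ • τ) = conjU (hermA d γ) (hermB d γ) (hermD d γ) τ := by
  obtain ⟨γ', h⟩ := hermite_data hd γ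
  obtain ⟨h1, h2⟩ := h τ
  have hD0 : (hermD d γ : ℂ) ≠ 0 := by exact_mod_cast (hermD_pos hd γ).ne'
  have hden1 := H565.denom_ne_zero' γ τ
  have hΔ := ModularForm.discriminant_ne_zero τ
  simp only [conjU, Nat.cast_zero, Nat.cast_one, inv_one, one_pow, one_mul]
  rw [h1, H565.discriminant_smul γ' _, H565.discriminant_smul γ τ, ← h2]
  rw [← h2] at hden1
  have hx : ((γ' 1 0 : ℂ) *
      (infAff (hermA d γ) (hermB d γ) (hermD d γ) τ : ℂ) + (γ' 1 1 : ℂ)) ≠ 0 :=
    left_ne_zero_of_mul hden1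
  norm_cast
  field_simp

end Fermat.Agent.S28.H748

end

end
-- ===== PACK-END S28/H748/Conj.lean

-- ===== PACK-BEGIN Lib/RR/H383/ValRing.lean
section





/-!
# RR library (helper383): valuation rings of a function field are discrete (any characteristic)

`K` any field, `F / K` a field extension which is finite over `K(y)` for every transcendental `y`
(equivalently for one).  Then every valuation subring `V` of `F` containing `K` is a principal ideal
ring (Stichtenoth, Thm 1.1.6), and every transcendental `t` has a zero: there is a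
`Place K F` with `0 < ord t` (Chevalley's extension theorem, Stichtenoth Cor. 1.1.20).
No separability, no characteristic assumption.

Main statements
* `isPrincipalIdealRing_of_finite`
* `exists_place_ord_pos`, `exists_place_ord_neg`
-/

set_option autoImplicit false

noncomputable section

open AlgebraicCurve Polynomial IntermediateField

namespace Fermat.Agent.Lib.RR.H383

variable {K F : Type*} [Field K] [Field F] [Algebra K F]

section Val

variable (V : ValuationSubring F)

theorem valuation_algebraMap_eq_one (hK : ∀ a : K, algebraMap K F a ∈ V) {a : K} (ha : a ≠ 0) :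
    V.valuation (algebraMap K F a) = 1 := by
  have h1 : V.valuation (algebraMap K F a) ≤ 1 := (V.valuation_le_one_iff _).mpr (hK a)
  have h2 : V.valuation (algebraMap K F a⁻¹) ≤ 1 := (V.valuation_le_one_iff _).mpr (hK a⁻¹)
  have hne : V.valuation (algebraMap K F a) ≠ 0 :=
    (Valuation.ne_zero_iff _).mpr (by simpa using ha)
  rw [map_inv₀, map_inv₀] at h2
  have h3 : 1 ≤ V.valuation (algebraMap K F a) :=
    (inv_le_one₀ (zero_lt_iff.mpr hne)).mp h2
  exact le_antisymm h1 h3

theorem valuation_algebraMap_le_one (hK : ∀ a : K, algebraMap K F a ∈ V) (a : K) :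
    V.valuation (algebraMap K F a) ≤ 1 :=
  (V.valuation_le_one_iff _).mpr (hK a)

/-- A finite sum of terms, the nonzero ones having pairwise distinct valuations and at least one
being nonzero, is nonzero. -/
theorem sum_ne_zero_of_valuation_injOn {ι : Type*} (s : Finset ι) (f : ι → F)
    (hne : ∃ i ∈ s, f i ≠ 0)
    (hinj : ∀ i ∈ s, ∀ j ∈ s, f i ≠ 0 → f j ≠ 0 → V.valuation (f i) = V.valuation (f j) → i = j) :
    ∑ i ∈ s, f i ≠ 0 := by
  classical
  set s' := s.filter (fun i => f i ≠ 0) with hs'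
  have hsum : ∑ i ∈ s, f i = ∑ i ∈ s', f i := by
    rw [hs', Finset.sum_filter]
    refine Finset.sum_congr rfl fun i _ => ?_
    by_cases h : f i = 0
    · simp [h]
    · simp [h]
  have hne' : s'.Nonempty := by
    obtain ⟨i, hi, hfi⟩ := hne
    exact ⟨i, Finset.mem_filter.mpr ⟨hi, hfi⟩⟩
  obtain ⟨i₀, hi₀, hmax⟩ := Finset.exists_max_image s' (fun i => V.valuation (f i)) hne'
  have hi₀' := Finset.mem_filter.mp hi₀
  have hv0 : V.valuation (f i₀) ≠ 0 := (Valuation.ne_zero_iff _).mpr hi₀'.2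
  have hlt : V.valuation (∑ i ∈ s'.erase i₀, f i) < V.valuation (f i₀) := by
    refine Valuation.map_sum_lt _ hv0 fun i hi => ?_
    have hi' := Finset.mem_erase.mp hi
    have hi'' := Finset.mem_filter.mp hi'.2
    refine lt_of_le_of_ne (hmax i hi'.2) fun heq => ?_
    exact hi'.1 (hinj i hi''.1 i₀ hi₀'.1 hi''.2 hi₀'.2 heq)
  rw [hsum, ← Finset.add_sum_erase s' f hi₀]
  intro h0
  have := Valuation.map_add_eq_of_lt_left V.valuation hlt
  rw [h0, map_zero] at this
  exact hv0 this.symm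

/-- The valuation of a nonzero polynomial in a nonzero non-unit `x`, with coefficients in `K`,
is a power of the valuation of `x`. -/
theorem valuation_aeval (hK : ∀ a : K, algebraMap K F a ∈ V) {x : F} (hx0 : x ≠ 0)
    (hx : V.valuation x < 1) {p : K[X]} (hp : p ≠ 0) :
    V.valuation (aeval x p) = V.valuation x ^ p.natTrailingDegree := by
  classical
  have hvx0 : V.valuation x ≠ 0 := (Valuation.ne_zero_iff _).mpr hx0
  have hk : p.natTrailingDegree ∈ p.support :=
    Polynomial.natTrailingDegree_mem_support_of_nonzero hp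
  have hck : p.coeff p.natTrailingDegree ≠ 0 := Polynomial.mem_support_iff.mp hk
  rw [aeval_def, eval₂_eq_sum, Polynomial.sum_def, ← Finset.add_sum_erase _ _ hk]
  have hmain : V.valuation (algebraMap K F (p.coeff p.natTrailingDegree) * x ^ p.natTrailingDegree)
      = V.valuation x ^ p.natTrailingDegree := by
    rw [map_mul, valuation_algebraMap_eq_one V hK hck, one_mul, map_pow]
  have hpow0 : V.valuation x ^ p.natTrailingDegree ≠ 0 := pow_ne_zero _ hvx0
  have hlt : V.valuation (∑ i ∈ p.support.erase p.natTrailingDegree,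
      algebraMap K F (p.coeff i) * x ^ i) < V.valuation x ^ p.natTrailingDegree := by
    refine Valuation.map_sum_lt _ hpow0 fun i hi => ?_
    have hi' := Finset.mem_erase.mp hi
    have hle : p.natTrailingDegree ≤ i := Polynomial.natTrailingDegree_le_of_mem_supp i hi'.2
    have hlt' : p.natTrailingDegree < i := lt_of_le_of_ne hle (Ne.symm hi'.1)
    rw [map_mul, map_pow]
    calc V.valuation (algebraMap K F (p.coeff i)) * V.valuation x ^ i
        ≤ 1 * V.valuation x ^ i :=
          mul_le_mul_left (valuation_algebraMap_le_one V hK _) _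
      _ = V.valuation x ^ i := one_mul _
      _ < V.valuation x ^ p.natTrailingDegree :=
          pow_lt_pow_right_of_lt_one₀ (zero_lt_iff.mpr hvx0) hx hlt'
  rw [Valuation.map_add_eq_of_lt_left V.valuation (by rw [hmain]; exact hlt), hmain]

/-- The valuation of a nonzero element of `K(x)` is an integral power of the valuation of `x`. -/
theorem exists_valuation_eq_zpow (hK : ∀ a : K, algebraMap K F a ∈ V) {x : F} (hx0 : x ≠ 0)
    (hx : V.valuation x < 1) {φ : F} (hφ : φ ∈ K⟮x⟯) (hφ0 : φ ≠ 0) :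
    ∃ m : ℤ, V.valuation φ = V.valuation x ^ m := by
  obtain ⟨r, s, hrs⟩ := (IntermediateField.mem_adjoin_simple_iff K φ).mp hφ
  have hr : aeval x r ≠ 0 := by
    intro h
    rw [hrs, h, zero_div] at hφ0
    exact hφ0 rfl
  have hs : aeval x s ≠ 0 := by
    intro h
    rw [hrs, h, div_zero] at hφ0
    exact hφ0 rfl
  have hr0 : r ≠ 0 := fun h => hr (by rw [h, map_zero])
  have hs0 : s ≠ 0 := fun h => hs (by rw [h, map_zero])
  refine ⟨(r.natTrailingDegree : ℤ) - s.natTrailingDegree, ?_⟩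
  have hvx0 : V.valuation x ≠ 0 := (Valuation.ne_zero_iff _).mpr hx0
  rw [hrs, map_div₀, valuation_aeval V hK hx0 hx hr0, valuation_aeval V hK hx0 hx hs0,
    zpow_sub₀ hvx0, zpow_natCast, zpow_natCast]

/-- No integral power of `γ < 1` lies strictly between `γ` and `1`. -/
theorem zpow_ne_of_lt_of_lt {Γ : Type*} [LinearOrderedCommGroupWithZero Γ] {γ r : Γ}
    (hγ0 : γ ≠ 0) (hγ : γ < 1) (h1 : γ < r) (h2 : r < 1) (m : ℤ) : r ≠ γ ^ m := by
  intro h
  rcases le_or_gt m 0 with hm | hm
  · -- γ^m ≥ 1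
    have : (1 : Γ) ≤ γ ^ m := by
      obtain ⟨n, rfl⟩ : ∃ n : ℕ, m = -n := ⟨(-m).toNat, by omega⟩
      rw [zpow_neg, zpow_natCast]
      exact (one_le_inv₀ (pow_pos (zero_lt_iff.mpr hγ0) n)).mpr (pow_le_one₀ zero_le hγ.le)
    rw [← h] at this
    exact absurd h2 (not_lt.mpr this)
  · -- γ^m ≤ γ
    have : γ ^ m ≤ γ := by
      obtain ⟨n, rfl⟩ : ∃ n : ℕ, m = (n + 1 : ℕ) := ⟨(m - 1).toNat, by omega⟩
      rw [zpow_natCast, pow_succ]
      exact mul_le_of_le_one_left' (pow_le_one₀ zero_le hγ.le)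
    rw [← h] at this
    exact absurd h1 (not_lt.mpr this)

/-- Elements whose valuations increase strictly inside `[v x, 1)` are linearly independent
over `K(x)`. -/
theorem linearIndependent_of_strictMono (hK : ∀ a : K, algebraMap K F a ∈ V) {x : F} (hx0 : x ≠ 0)
    (hx : V.valuation x < 1) {n : ℕ} (y : Fin n → F)
    (hmono : StrictMono fun i => V.valuation (y i))
    (hlow : ∀ i, V.valuation x ≤ V.valuation (y i))
    (hhigh : ∀ i, V.valuation (y i) < 1) :
    LinearIndependent K⟮x⟯ y := by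
  classical
  have hvx0 : V.valuation x ≠ 0 := (Valuation.ne_zero_iff _).mpr hx0
  have hy0 : ∀ i, y i ≠ 0 := fun i h => by
    have := hlow i
    rw [h, map_zero] at this
    exact hvx0 (le_antisymm this zero_le)
  rw [Fintype.linearIndependent_iff]
  intro g hg
  by_contra hcon
  push Not at hcon
  obtain ⟨i₁, hi₁⟩ := hcon
  have hsum : ∑ i ∈ (Finset.univ : Finset (Fin n)), (g i : F) * y i ≠ 0 := by
    refine sum_ne_zero_of_valuation_injOn V Finset.univ (fun i => (g i : F) * y i)
      ⟨i₁, Finset.mem_univ _, mul_ne_zero (by simpa using hi₁) (hy0 i₁)⟩ ?_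
    intro i _ j _ hi hj hij
    by_contra hne
    have hgi : (g i : F) ≠ 0 := left_ne_zero_of_mul hi
    have hgj : (g j : F) ≠ 0 := left_ne_zero_of_mul hj
    obtain ⟨a, ha⟩ := exists_valuation_eq_zpow V hK hx0 hx (g i).2 hgi
    obtain ⟨b, hb⟩ := exists_valuation_eq_zpow V hK hx0 hx (g j).2 hgj
    simp only [map_mul] at hij
    rw [ha, hb] at hij
    have hvi0 : V.valuation (y i) ≠ 0 := (Valuation.ne_zero_iff _).mpr (hy0 i)
    have hvj0 : V.valuation (y j) ≠ 0 := (Valuation.ne_zero_iff _).mpr (hy0 j)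
    -- wlog i < j
    have key : ∀ (i j : Fin n) (a b : ℤ), i < j →
        V.valuation x ^ a * V.valuation (y i) = V.valuation x ^ b * V.valuation (y j) →
        False := by
      intro i j a b hlt h
      have hvi0 : V.valuation (y i) ≠ 0 := (Valuation.ne_zero_iff _).mpr (hy0 i)
      have hvj0 : V.valuation (y j) ≠ 0 := (Valuation.ne_zero_iff _).mpr (hy0 j)
      have hr : V.valuation (y i) * (V.valuation (y j))⁻¹ = V.valuation x ^ (b - a) := by
        rw [zpow_sub₀ hvx0]
        field_simp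
        rw [mul_comm, h, mul_comm]
      have hlt' : V.valuation (y i) < V.valuation (y j) := hmono hlt
      have h2 : V.valuation (y i) * (V.valuation (y j))⁻¹ < 1 := by
        rw [mul_inv_lt_iff₀ (zero_lt_iff.mpr hvj0), one_mul]
        exact hlt'
      have h1 : V.valuation x < V.valuation (y i) * (V.valuation (y j))⁻¹ := by
        rw [lt_mul_inv_iff₀ (zero_lt_iff.mpr hvj0)]
        calc V.valuation x * V.valuation (y j) < V.valuation x * 1 :=
              mul_lt_mul_of_pos_left (hhigh j) (zero_lt_iff.mpr hvx0)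
          _ = V.valuation x := mul_one _
          _ ≤ V.valuation (y i) := hlow i
      exact zpow_ne_of_lt_of_lt hvx0 hx h1 h2 (b - a) hr
    rcases lt_or_gt_of_ne hne with h | h
    · exact key i j a b h hij
    · exact key j i b a h hij.symm
  apply hsum
  have : ∑ i, g i • y i = ∑ i ∈ (Finset.univ : Finset (Fin n)), (g i : F) * y i := by
    refine Finset.sum_congr rfl fun i _ => ?_
    rfl
  rw [← this]
  exact hg

/-- A nonzero non-unit of a valuation ring containing `K` is transcendental over `K`. -/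
theorem transcendental_of_valuation_lt_one (hK : ∀ a : K, algebraMap K F a ∈ V) {x : F}
    (hx0 : x ≠ 0) (hx : V.valuation x < 1) : Transcendental K x := by
  intro halg
  have hint : IsIntegral K x := halg.isIntegral
  have hxV : x ∈ V := (V.valuation_le_one_iff x).mp hx.le
  let S : Subalgebra K F :=
    { V.toSubring with
      algebraMap_mem' := fun a => hK a }
  have hxS : x ∈ S := hxV
  have hinv : x⁻¹ ∈ S := hint.inv_mem hxS
  have hinvV : x⁻¹ ∈ V := hinv
  have h1 : V.valuation x⁻¹ ≤ 1 := (V.valuation_le_one_iff _).mpr hinvV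
  rw [map_inv₀] at h1
  have hvx0 : V.valuation x ≠ 0 := (Valuation.ne_zero_iff _).mpr hx0
  have h2 : 1 ≤ V.valuation x := (inv_le_one₀ (zero_lt_iff.mpr hvx0)).mp h1
  exact absurd hx (not_lt.mpr h2)

/-- **Stichtenoth 1.1.6.** A valuation ring of a function field (containing the constants) is a
principal ideal ring. -/
theorem isPrincipalIdealRing_of_finite (hK : ∀ a : K, algebraMap K F a ∈ V)
    (hfin : ∀ y : F, Transcendental K y → FiniteDimensional K⟮y⟯ F) :
    IsPrincipalIdealRing V := by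
  classical
  have hwf : WfDvdMonoid V := by
    refine ⟨wellFounded_iff_isEmpty_descending_chain.mpr ⟨?_⟩⟩
    rintro ⟨f, hf⟩
    -- y i := f (i + 1), nonzero, with strictly increasing valuations < 1
    have hne : ∀ i, f (i + 1) ≠ 0 := fun i => (hf i).1
    have hstep : ∀ i, V.valuation (f i : F) < V.valuation (f (i + 1) : F) := by
      intro i
      obtain ⟨-, c, hc, hfc⟩ := hf i
      have hc' : V.valuation (c : F) < 1 := by
        rcases V.valuation_lt_one_or_eq_one c with h | h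
        · exact h
        · exact absurd ((V.valuation_eq_one_iff c).mpr h) hc
      have hv0 : V.valuation (f (i + 1) : F) ≠ 0 :=
        (Valuation.ne_zero_iff _).mpr (by simpa using hne i)
      rw [hfc]
      push_cast
      rw [map_mul]
      calc V.valuation (f (i + 1) : F) * V.valuation (c : F)
          < V.valuation (f (i + 1) : F) * 1 :=
            mul_lt_mul_of_pos_left hc' (zero_lt_iff.mpr hv0)
        _ = _ := mul_one _
    have hmonoN : StrictMono fun i : ℕ => V.valuation (f i : F) := strictMono_nat_of_lt_succ hstep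
    have hlt1 : ∀ i, V.valuation (f i : F) < 1 := fun i =>
      lt_of_lt_of_le (hstep i) (V.valuation_le_one _)
    set x : F := (f 1 : F) with hxdef
    have hx0 : x ≠ 0 := fun h => hne 0 (Subtype.ext (by simpa [hxdef] using h))
    have hx : V.valuation x < 1 := hlt1 1
    have hxt : Transcendental K x := transcendental_of_valuation_lt_one V hK hx0 hx
    have := hfin x hxt
    set n := Module.finrank K⟮x⟯ F with hn
    let y : Fin (n + 1) → F := fun i => (f (i + 1) : F)
    have hli : LinearIndependent K⟮x⟯ y := by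
      refine linearIndependent_of_strictMono V hK hx0 hx y ?_ ?_ ?_
      · intro i j hij
        exact hmonoN (by simpa using hij)
      · intro i
        exact hmonoN.monotone (by omega)
      · intro i
        exact hlt1 _
    have := hli.fintype_card_le_finrank
    rw [Fintype.card_fin] at this
    omega
  exact ((IsBezout.TFAE (R := V)).out 3 1).mp hwf

end Val

section Exists

/-- In `K[t]`, `t` transcendental, the ideal generated by `t` is proper. -/
theorem span_ne_top_of_transcendental {t : F} (ht : Transcendental K t) :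
    Ideal.span {(⟨t, Algebra.subset_adjoin (Set.mem_singleton t)⟩ :
      (Algebra.adjoin K {t}).toSubring)} ≠ ⊤ := by
  intro h
  rw [Ideal.span_singleton_eq_top] at h
  obtain ⟨⟨s, hs⟩, hts⟩ := isUnit_iff_exists_inv.mp h
  have hs' : s ∈ Algebra.adjoin K {t} := hs
  rw [Algebra.adjoin_singleton_eq_range_aeval] at hs'
  obtain ⟨p, rfl⟩ := hs'
  have h1 : t * aeval t p = 1 := congrArg Subtype.val hts
  have h2 : aeval t (X * p - 1 : K[X]) = 0 := by
    rw [map_sub, map_mul, aeval_X, map_one, h1, sub_self]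
  have h3 : (X * p - 1 : K[X]) = 0 := by
    by_contra hne
    exact ht ⟨_, hne, h2⟩
  have h4 := congrArg (Polynomial.eval 0) h3
  simp at h4

/-- **Existence of a zero** (Chevalley + discreteness): every transcendental function has a zero
at some place. -/
theorem exists_place_ord_pos (hfin : ∀ y : F, Transcendental K y → FiniteDimensional K⟮y⟯ F)
    {t : F} (ht : Transcendental K t) : ∃ v : Place K F, 0 < v.ord t := by
  classical
  have ht0 : t ≠ 0 := fun h => ht (h ▸ isAlgebraic_zero)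
  obtain ⟨B, hAB, hIB⟩ :=
    Ideal.image_subset_nonunits_valuationSubring _ (span_ne_top_of_transcendental ht)
  have hK : ∀ a : K, algebraMap K F a ∈ B := fun a =>
    hAB (show algebraMap K F a ∈ (Algebra.adjoin K {t}).toSubring from
      (Algebra.adjoin K {t}).algebraMap_mem a)
  have htB : t ∈ B.nonunits := by
    apply hIB
    exact ⟨⟨t, Algebra.subset_adjoin (Set.mem_singleton t)⟩,
      Ideal.subset_span (Set.mem_singleton _), rfl⟩
  have hvt : B.valuation t < 1 := (ValuationSubring.mem_nonunits_iff B).mp htB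
  have htop : B ≠ ⊤ := by
    intro h
    have hinv : t⁻¹ ∈ B := h ▸ ValuationSubring.mem_top _
    have h1 : B.valuation t⁻¹ ≤ 1 := (B.valuation_le_one_iff _).mpr hinv
    rw [map_inv₀] at h1
    have hv0 : B.valuation t ≠ 0 := (Valuation.ne_zero_iff _).mpr ht0
    have h2 : 1 ≤ B.valuation t := (inv_le_one₀ (zero_lt_iff.mpr hv0)).mp h1
    exact absurd hvt (not_lt.mpr h2)
  let v : Place K F :=
    { toValuationSubring := B
      algebraMap_mem' := hK
      ne_top' := htop
      isPrincipalIdealRing' := isPrincipalIdealRing_of_finite B hK hfin }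
  refine ⟨v, ?_⟩
  have htV : t ∈ v.toValuationSubring := (B.valuation_le_one_iff t).mp hvt.le
  have hmem : (⟨t, htV⟩ : v.toValuationSubring) ∈
      IsLocalRing.maximalIdeal v.toValuationSubring :=
    ValuationSubring.coe_mem_nonunits_iff.mp htB
  rcases (Fermat.Agent.Lib.RR.mem_maximalIdeal_iff v _).mp hmem with h | h
  · exact absurd h ht0
  · exact h

/-- **Existence of a pole**: every transcendental function has a pole at some place. -/
theorem exists_place_ord_neg (hfin : ∀ y : F, Transcendental K y → FiniteDimensional K⟮y⟯ F)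
    {t : F} (ht : Transcendental K t) : ∃ v : Place K F, v.ord t < 0 := by
  have ht' : Transcendental K t⁻¹ := fun h => ht (by simpa using h.inv)
  obtain ⟨v, hv⟩ := exists_place_ord_pos hfin ht'
  refine ⟨v, ?_⟩
  rw [v.ord_inv] at hv
  omega

end Exists

end Fermat.Agent.Lib.RR.H383

end
end
-- ===== PACK-END Lib/RR/H383/ValRing.lean

-- ===== PACK-BEGIN Lib/RR/H383/Fundamental.lean
section



/-!
# RR library (helper383): the fundamental equality `deg (x)₀ = deg (x)_∞ = [F : K(x)]`,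
# in any characteristic

`K` algebraically closed, `F / K` finite over `K(x)` for one transcendental `x`.
Following Stichtenoth, *Algebraic function fields and codes*, Thm 1.4.11 (no separability):

* `eq_algebraMap_of_forall_ord_nonneg` : a function without poles is constant;
* `finite_and_ell_le` : `L(D)` is finite-dimensional and `ℓ(D) ≤ deg D + 1` for `D ≥ 0`;
* `finite_setOf_ord_neg`, `finite_setOf_ord_pos`, `finite_setOf_ord_ne_zero`;
* `sum_neg_ord_eq_finrank`, `sum_ord_eq_finrank` : the fundamental equality;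
* `hasPrincipalDivisors_of_finite` : `HasPrincipalDivisors K F`.
-/

set_option autoImplicit false

noncomputable section

open AlgebraicCurve Polynomial IntermediateField

namespace Fermat.Agent.Lib.RR.H383

open Fermat.Agent.Lib.RR

variable {K F : Type*} [Field K] [Field F] [Algebra K F]

/-- `F` is finite over `K(y)` for every transcendental `y` as soon as it is for one. -/
theorem finite_of_finite {x : F} (hx : Transcendental K x) [FiniteDimensional K⟮x⟯ F] :
    ∀ y : F, Transcendental K y → FiniteDimensional K⟮y⟯ F := fun _ hy =>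
  Fermat.Agent.S24.FF.finiteDimensional_adjoin_of_transcendental hx hy

section AlgClosed

variable [IsAlgClosed K]

/-- All places have degree one. -/
theorem deg_eq_one_of_finite {x : F} (hx : Transcendental K x) [FiniteDimensional K⟮x⟯ F]
    (v : Place K F) : v.deg = 1 :=
  Fermat.Agent.S24.FF.deg_eq_one v hx

/-- A function without poles is constant. -/
theorem eq_algebraMap_of_forall_ord_nonneg
    (hfin : ∀ y : F, Transcendental K y → FiniteDimensional K⟮y⟯ F) {f : F}
    (hf : ∀ v : Place K F, 0 ≤ v.ord f) : f ∈ (algebraMap K F).range := by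
  by_contra hcon
  have ht : Transcendental K f := Fermat.Agent.S24.FF.transcendental_of_not_mem_range hcon
  obtain ⟨v, hv⟩ := exists_place_ord_neg hfin ht
  have := hf v
  omega

/-- `L(0) = K`. -/
theorem L_zero_eq (hfin : ∀ y : F, Transcendental K y → FiniteDimensional K⟮y⟯ F) :
    riemannRochSpace (0 : Divisor K F) = LinearMap.range (Algebra.linearMap K F) := by
  ext f
  rw [mem_L_iff]
  constructor
  · intro h
    have hf : ∀ v : Place K F, 0 ≤ v.ord f := by
      intro v
      rcases h v with h0 | h0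
      · rw [h0]; simp
      · simpa using h0
    obtain ⟨c, hc⟩ := eq_algebraMap_of_forall_ord_nonneg hfin hf
    exact ⟨c, hc⟩
  · rintro ⟨c, rfl⟩ v
    right
    rw [Algebra.linearMap_apply, ord_algebraMap]
    simp

theorem finite_L_zero (hfin : ∀ y : F, Transcendental K y → FiniteDimensional K⟮y⟯ F) :
    Module.Finite K (riemannRochSpace (0 : Divisor K F)) := by
  rw [L_zero_eq hfin]
  exact LinearMap.finiteDimensional_range _

theorem ell_zero_le (hfin : ∀ y : F, Transcendental K y → FiniteDimensional K⟮y⟯ F) :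
    ell (0 : Divisor K F) ≤ 1 := by
  unfold ell
  rw [L_zero_eq hfin]
  calc Module.finrank K (LinearMap.range (Algebra.linearMap K F))
      ≤ Module.finrank K K := LinearMap.finrank_range_le _
    _ = 1 := Module.finrank_self K

/-- `ℓ(D) ≤ deg D + 1` for effective `D`. -/
theorem finite_and_ell_le (hfin : ∀ y : F, Transcendental K y → FiniteDimensional K⟮y⟯ F)
    (hdeg : ∀ v : Place K F, v.deg = 1) :
    ∀ (m : ℕ) (D : Divisor K F), 0 ≤ D → Divisor.degree D = m →
      Module.Finite K (riemannRochSpace D) ∧ ell D ≤ m + 1 := by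
  classical
  intro m
  induction m with
  | zero =>
    intro D hD hm
    have hD0 : D = 0 := by
      by_contra hne
      obtain ⟨v, hv⟩ := Finsupp.support_nonempty_iff.mpr hne
      have hDv : D v ≠ 0 := Finsupp.mem_support_iff.mp hv
      have hDv' : 0 < D v := lt_of_le_of_ne (by simpa using Finsupp.le_def.mp hD v) (Ne.symm hDv)
      have h1 : prim v ≤ D := by
        rw [Finsupp.le_def]
        intro w
        by_cases hw : w = v
        · subst hw; simp only [prim_apply_self]; omega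
        · rw [prim_apply_of_ne hw]; simpa using Finsupp.le_def.mp hD w
      have h2 := degree_mono h1
      rw [degree_prim v (hdeg v), hm] at h2
      simp at h2
    subst hD0
    exact ⟨finite_L_zero hfin, by simpa using ell_zero_le hfin⟩
  | succ m ih =>
    intro D hD hm
    have hne : D ≠ 0 := by
      rintro rfl
      simp at hm
      omega
    obtain ⟨v, hv⟩ := Finsupp.support_nonempty_iff.mpr hne
    have hDv : D v ≠ 0 := Finsupp.mem_support_iff.mp hv
    have hDv' : 0 < D v := lt_of_le_of_ne (by simpa using Finsupp.le_def.mp hD v) (Ne.symm hDv)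
    set D' : Divisor K F := D - prim v with hD'
    have hD'0 : 0 ≤ D' := by
      rw [Finsupp.le_def]
      intro w
      by_cases hw : w = v
      · subst hw
        simp only [hD', Finsupp.coe_sub, Pi.sub_apply, prim_apply_self, Finsupp.coe_zero,
          Pi.zero_apply]
        omega
      · simp only [hD', Finsupp.coe_sub, Pi.sub_apply, prim_apply_of_ne hw, Finsupp.coe_zero,
          Pi.zero_apply, sub_zero]
        simpa using Finsupp.le_def.mp hD w
    have hm' : Divisor.degree D' = m := by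
      rw [hD', map_sub, degree_prim v (hdeg v), hm]
      push_cast
      ring
    obtain ⟨h1, h2⟩ := ih D' hD'0 hm'
    have key := L_add_prim_finite v (hdeg v) D'
    have hDD : D' + prim v = D := by rw [hD']; abel
    rw [hDD] at key
    exact ⟨key.1, key.2.trans (by omega)⟩

theorem finite_L_of_nonneg (hfin : ∀ y : F, Transcendental K y → FiniteDimensional K⟮y⟯ F)
    (hdeg : ∀ v : Place K F, v.deg = 1) {D : Divisor K F} (hD : 0 ≤ D) :
    Module.Finite K (riemannRochSpace D) :=
  (_root_.Fermat.Agent.Lib.RR.H383.finite_and_ell_le hfin hdeg (Divisor.degree D).toNat D hD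
    (Int.toNat_of_nonneg (degree_nonneg hD)).symm).1

theorem ell_le_of_nonneg (hfin : ∀ y : F, Transcendental K y → FiniteDimensional K⟮y⟯ F)
    (hdeg : ∀ v : Place K F, v.deg = 1) {D : Divisor K F} (hD : 0 ≤ D) :
    (ell D : ℤ) ≤ Divisor.degree D + 1 := by
  have := (_root_.Fermat.Agent.Lib.RR.H383.finite_and_ell_le hfin hdeg (Divisor.degree D).toNat D hD
    (Int.toNat_of_nonneg (degree_nonneg hD)).symm).2
  have h2 := Int.toNat_of_nonneg (degree_nonneg hD)
  omega

end AlgClosed

/-! ### Finiteness of zeros and poles -/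

theorem finite_setOf_ord_pos' (hdeg : ∀ v : Place K F, v.deg = 1) (x : F)
    [FiniteDimensional K⟮x⟯ F] : {v : Place K F | 0 < v.ord x}.Finite := by
  classical
  by_contra hinf
  obtain ⟨t, hts, htc⟩ :=
    (Set.not_finite.mp hinf).exists_subset_card_eq (Module.finrank K⟮x⟯ F + 1)
  have h1 := sum_ord_le_finrank hdeg x t (fun v hv => hts hv)
  have h2 : (t.card : ℤ) ≤ ∑ v ∈ t, v.ord x := by
    have : ∑ _v ∈ t, (1 : ℤ) ≤ ∑ v ∈ t, v.ord x :=
      Finset.sum_le_sum fun v hv => by
        have : 0 < v.ord x := hts hv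
        omega
    simpa using this
  rw [htc] at h2
  push_cast at h2
  omega

theorem finite_setOf_ord_neg' (hdeg : ∀ v : Place K F, v.deg = 1) (x : F)
    [FiniteDimensional K⟮x⟯ F] : {v : Place K F | v.ord x < 0}.Finite := by
  have h : FiniteDimensional K⟮x⁻¹⟯ F := by
    rw [← adjoin_inv_eq x]
    infer_instance
  refine (finite_setOf_ord_pos' hdeg x⁻¹).subset ?_
  intro v hv
  have hv' : v.ord x < 0 := hv
  show 0 < v.ord x⁻¹
  rw [v.ord_inv]
  omega

section AlgClosed

variable [IsAlgClosed K]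

theorem finite_setOf_ord_neg (hfin : ∀ y : F, Transcendental K y → FiniteDimensional K⟮y⟯ F)
    (hdeg : ∀ v : Place K F, v.deg = 1) (f : F) : {v : Place K F | v.ord f < 0}.Finite := by
  by_cases hf : f ∈ (algebraMap K F).range
  · obtain ⟨c, rfl⟩ := hf
    convert Set.finite_empty (α := Place K F)
    ext v
    simp [ord_algebraMap]
  · have ht : Transcendental K f := Fermat.Agent.S24.FF.transcendental_of_not_mem_range hf
    have := hfin f ht
    exact finite_setOf_ord_neg' hdeg f

theorem finite_setOf_ord_pos (hfin : ∀ y : F, Transcendental K y → FiniteDimensional K⟮y⟯ F)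
    (hdeg : ∀ v : Place K F, v.deg = 1) (f : F) : {v : Place K F | 0 < v.ord f}.Finite := by
  refine (finite_setOf_ord_neg hfin hdeg f⁻¹).subset ?_
  intro v hv
  have hv' : 0 < v.ord f := hv
  show v.ord f⁻¹ < 0
  rw [v.ord_inv]
  omega

theorem finite_setOf_ord_ne_zero (hfin : ∀ y : F, Transcendental K y → FiniteDimensional K⟮y⟯ F)
    (hdeg : ∀ v : Place K F, v.deg = 1) (f : F) : {v : Place K F | v.ord f ≠ 0}.Finite := by
  refine ((finite_setOf_ord_pos hfin hdeg f).union (finite_setOf_ord_neg hfin hdeg f)).subset ?_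
  intro v hv
  have hv' : v.ord f ≠ 0 := hv
  rcases lt_or_gt_of_ne hv' with h | h
  · exact Or.inr h
  · exact Or.inl h

/-- The pole divisor `(f)_∞`. -/
def poleDiv (hfin : ∀ y : F, Transcendental K y → FiniteDimensional K⟮y⟯ F)
    (hdeg : ∀ v : Place K F, v.deg = 1) (f : F) : Divisor K F :=
  Finsupp.ofSupportFinite (fun v => max (-v.ord f) 0) <| by
    refine (finite_setOf_ord_neg hfin hdeg f).subset ?_
    intro v hv
    have hv' : max (-v.ord f) 0 ≠ 0 := hv
    show v.ord f < 0
    by_contra h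
    apply hv'
    rw [max_eq_right]
    omega

theorem poleDiv_apply (hfin : ∀ y : F, Transcendental K y → FiniteDimensional K⟮y⟯ F)
    (hdeg : ∀ v : Place K F, v.deg = 1) (f : F) (v : Place K F) :
    poleDiv hfin hdeg f v = max (-v.ord f) 0 := rfl

theorem poleDiv_nonneg (hfin : ∀ y : F, Transcendental K y → FiniteDimensional K⟮y⟯ F)
    (hdeg : ∀ v : Place K F, v.deg = 1) (f : F) : 0 ≤ poleDiv hfin hdeg f := by
  rw [Finsupp.le_def]
  intro v
  rw [poleDiv_apply]
  simp

theorem poleDiv_support (hfin : ∀ y : F, Transcendental K y → FiniteDimensional K⟮y⟯ F)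
    (hdeg : ∀ v : Place K F, v.deg = 1) (f : F) (S : Finset (Place K F))
    (hS : ∀ v, v ∈ S ↔ v.ord f < 0) : (poleDiv hfin hdeg f).support = S := by
  ext v
  rw [Finsupp.mem_support_iff, poleDiv_apply, hS]
  constructor
  · intro h
    by_contra hcon
    apply h
    rw [max_eq_right]
    omega
  · intro h h0
    have := le_max_left (-v.ord f) 0
    omega

theorem degree_poleDiv (hfin : ∀ y : F, Transcendental K y → FiniteDimensional K⟮y⟯ F)
    (hdeg : ∀ v : Place K F, v.deg = 1) (f : F) (S : Finset (Place K F))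
    (hS : ∀ v, v ∈ S ↔ v.ord f < 0) :
    Divisor.degree (poleDiv hfin hdeg f) = ∑ v ∈ S, -v.ord f := by
  rw [degree_eq_sum, poleDiv_support hfin hdeg f S hS]
  refine Finset.sum_congr rfl fun v hv => ?_
  have hv' : v.ord f < 0 := (hS v).mp hv
  rw [poleDiv_apply, hdeg v, max_eq_left (by omega)]
  simp

omit [IsAlgClosed K] in
omit [IsAlgClosed K] in
/-- Powers of a transcendental element are linearly independent. -/
theorem linearIndependent_pow_of_transcendental {x : F} (hx : Transcendental K x) :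
    LinearIndependent K (fun i : ℕ => x ^ i) := by
  have h1 := (Polynomial.basisMonomials K).linearIndependent.map' (aeval x).toLinearMap
    (LinearMap.ker_eq_bot.mpr (transcendental_iff_injective.mp hx))
  have h2 : (⇑(aeval x).toLinearMap ∘ ⇑(Polynomial.basisMonomials K)) = fun i : ℕ => x ^ i := by
    funext i
    simp [Polynomial.coe_basisMonomials]
  rwa [h2] at h1

/-- **Stichtenoth 1.4.11, lower bound**: `[F : K(x)] ≤ deg (x)_∞`. -/
theorem finrank_le_degree_poleDiv
    (hfin : ∀ y : F, Transcendental K y → FiniteDimensional K⟮y⟯ F)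
    (hdeg : ∀ v : Place K F, v.deg = 1) {x : F} (hx : Transcendental K x)
    [FiniteDimensional K⟮x⟯ F] :
    (Module.finrank K⟮x⟯ F : ℤ) ≤ Divisor.degree (poleDiv hfin hdeg x) := by
  classical
  set n := Module.finrank K⟮x⟯ F with hn
  let b := Module.finBasis K⟮x⟯ F
  set B := poleDiv hfin hdeg x with hB
  let C : Divisor K F := ∑ j : Fin n, poleDiv hfin hdeg (b j)
  have hC0 : 0 ≤ C := Finset.sum_nonneg fun j _ => poleDiv_nonneg hfin hdeg (b j)
  have hCv : ∀ (j : Fin n) (v : Place K F), -C v ≤ v.ord (b j) := by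
    intro j v
    have h1 : poleDiv hfin hdeg (b j) ≤ C :=
      Finset.single_le_sum (f := fun i => poleDiv hfin hdeg (b i))
        (fun i _ => poleDiv_nonneg hfin hdeg (b i)) (Finset.mem_univ j)
    have h2 := Finsupp.le_def.mp h1 v
    rw [poleDiv_apply] at h2
    have := le_max_left (-v.ord (b j)) 0
    omega
  have hx0 : x ≠ 0 := fun h => hx (h ▸ isAlgebraic_zero)
  have key : ∀ l : ℕ, ((l : ℤ) + 1) * n ≤ l * Divisor.degree B + Divisor.degree C + 1 := by
    intro l
    set D : Divisor K F := l • B + C with hD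
    have hD0 : 0 ≤ D := add_nonneg (nsmul_nonneg (poleDiv_nonneg hfin hdeg x) l) hC0
    have hfinD := finite_L_of_nonneg hfin hdeg hD0
    have hell := ell_le_of_nonneg hfin hdeg hD0
    let g : Fin (l + 1) → K⟮x⟯ := fun i => (AdjoinSimple.gen K x) ^ (i : ℕ)
    have hg : LinearIndependent K g := by
      have h1 : LinearIndependent K (fun i : Fin (l + 1) => x ^ (i : ℕ)) :=
        (linearIndependent_pow_of_transcendental hx).comp _ Fin.val_injective
      refine LinearIndependent.of_comp (K⟮x⟯.val.toLinearMap) ?_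
      have h2 : (⇑(K⟮x⟯.val.toLinearMap) ∘ g) = fun i : Fin (l + 1) => x ^ (i : ℕ) := by
        funext i
        simp [g]
      rw [h2]
      exact h1
    have hli : LinearIndependent K (fun p : Fin (l + 1) × Fin n => g p.1 • b p.2) :=
      linearIndependent_smul hg b.linearIndependent
    have hval : ∀ p : Fin (l + 1) × Fin n, g p.1 • b p.2 = x ^ (p.1 : ℕ) * b p.2 := by
      intro p
      rw [IntermediateField.smul_def]
      simp [g]
    have hmem : ∀ p : Fin (l + 1) × Fin n, g p.1 • b p.2 ∈ riemannRochSpace D := by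
      intro p
      rw [hval, mem_L_iff]
      intro v
      right
      have hb0 : b p.2 ≠ 0 := b.ne_zero p.2
      rw [v.ord_mul (pow_ne_zero _ hx0) hb0, ord_pow]
      have hDv : D v = l * B v + C v := by
        simp [hD]
      rw [hDv, hB, poleDiv_apply]
      have h1 := hCv p.2 v
      have hi : ((p.1 : ℕ) : ℤ) ≤ l := by
        have := p.1.2
        omega
      have hi0 : (0 : ℤ) ≤ ((p.1 : ℕ) : ℤ) := Int.natCast_nonneg _
      rcases le_or_gt 0 (v.ord x) with h | h
      · rw [max_eq_right (by omega)]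
        have := mul_nonneg hi0 h
        omega
      · rw [max_eq_left (by omega)]
        have : ((l : ℤ) - (p.1 : ℕ)) * v.ord x ≤ 0 :=
          mul_nonpos_of_nonneg_of_nonpos (by omega) h.le
        nlinarith
    let w : Fin (l + 1) × Fin n → riemannRochSpace D := fun p => ⟨g p.1 • b p.2, hmem p⟩
    have hliw : LinearIndependent K w := by
      refine LinearIndependent.of_comp (riemannRochSpace D).subtype ?_
      exact hli
    have hcard := hliw.fintype_card_le_finrank
    rw [Fintype.card_prod, Fintype.card_fin, Fintype.card_fin] at hcard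
    have hdegD : Divisor.degree D = l * Divisor.degree B + Divisor.degree C := by
      rw [hD, map_add, map_nsmul]
      simp
    unfold ell at hell
    have h3 : (((l + 1) * n : ℕ) : ℤ) ≤ (Module.finrank K (riemannRochSpace D) : ℤ) := by
      exact_mod_cast hcard
    push_cast at h3
    rw [hdegD] at hell
    linarith
  by_contra hlt
  push Not at hlt
  have hB0 : 0 ≤ Divisor.degree B := degree_nonneg (poleDiv_nonneg hfin hdeg x)
  have hCdeg : 0 ≤ Divisor.degree C := degree_nonneg hC0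
  have hk := key ((Divisor.degree C).toNat + 1)
  have hl : (((Divisor.degree C).toNat + 1 : ℕ) : ℤ) = Divisor.degree C + 1 := by
    push_cast
    rw [Int.toNat_of_nonneg hCdeg]
  rw [hl] at hk
  have h4 : (Divisor.degree C + 1) * Divisor.degree B ≤ (Divisor.degree C + 1) * ((n : ℤ) - 1) :=
    mul_le_mul_of_nonneg_left (by omega) (by omega)
  nlinarith

/-- **Fundamental equality at the poles**, any characteristic. -/
theorem sum_neg_ord_eq_finrank
    (hfin : ∀ y : F, Transcendental K y → FiniteDimensional K⟮y⟯ F)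
    (hdeg : ∀ v : Place K F, v.deg = 1) {x : F} (hx : Transcendental K x)
    [FiniteDimensional K⟮x⟯ F] (S : Finset (Place K F)) (hS : ∀ v, v ∈ S ↔ v.ord x < 0) :
    ∑ v ∈ S, -v.ord x = (Module.finrank K⟮x⟯ F : ℤ) := by
  refine le_antisymm (sum_neg_ord_le_finrank hdeg x S fun v hv => (hS v).mp hv) ?_
  rw [← degree_poleDiv hfin hdeg x S hS]
  exact finrank_le_degree_poleDiv hfin hdeg hx

theorem sum_neg_ord_eq_finrank_of_eq
    (hfin : ∀ y : F, Transcendental K y → FiniteDimensional K⟮y⟯ F)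
    (hdeg : ∀ v : Place K F, v.deg = 1) {x : F} (hx : Transcendental K x)
    (L : IntermediateField K F) (hL : L = K⟮x⟯) [FiniteDimensional L F]
    (S : Finset (Place K F)) (hS : ∀ v, v ∈ S ↔ v.ord x < 0) :
    ∑ v ∈ S, -v.ord x = (Module.finrank L F : ℤ) := by
  subst hL
  exact sum_neg_ord_eq_finrank hfin hdeg hx S hS

/-- **Fundamental equality at the zeros**, any characteristic. -/
theorem sum_ord_eq_finrank
    (hfin : ∀ y : F, Transcendental K y → FiniteDimensional K⟮y⟯ F)
    (hdeg : ∀ v : Place K F, v.deg = 1) {x : F} (hx : Transcendental K x)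
    [FiniteDimensional K⟮x⟯ F] (S : Finset (Place K F)) (hS : ∀ v, v ∈ S ↔ 0 < v.ord x) :
    ∑ v ∈ S, v.ord x = (Module.finrank K⟮x⟯ F : ℤ) := by
  have hx' : Transcendental K x⁻¹ := fun h => hx (by simpa using h.inv)
  have h := sum_neg_ord_eq_finrank_of_eq hfin hdeg hx' K⟮x⟯ (adjoin_inv_eq x) S
    (fun v => by rw [hS, v.ord_inv]; omega)
  rw [← h]
  refine Finset.sum_congr rfl fun v _ => ?_
  rw [v.ord_inv, neg_neg]

/-- **Principal divisors have degree zero**, any characteristic. -/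
theorem hasPrincipalDivisors_of_finite {x : F} (hx : Transcendental K x)
    [FiniteDimensional K⟮x⟯ F] : HasPrincipalDivisors K F := by
  classical
  have hfin := finite_of_finite hx
  have hdeg : ∀ v : Place K F, v.deg = 1 := deg_eq_one_of_finite hx
  refine ⟨fun f hf0 => ?_⟩
  by_cases hf : f ∈ (algebraMap K F).range
  · obtain ⟨c, rfl⟩ := hf
    refine ⟨0, fun v => ?_, map_zero _⟩
    rw [ord_algebraMap]
    rfl
  have ht : Transcendental K f := Fermat.Agent.S24.FF.transcendental_of_not_mem_range hf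
  have := hfin f ht
  let D : Divisor K F := Finsupp.ofSupportFinite (fun v => v.ord f)
    (finite_setOf_ord_ne_zero hfin hdeg f)
  have hDv : ∀ v, D v = v.ord f := fun v => rfl
  refine ⟨D, hDv, ?_⟩
  rw [degree_eq_sum]
  have hsupp : ∀ v, v ∈ D.support ↔ v.ord f ≠ 0 := fun v => by
    rw [Finsupp.mem_support_iff, hDv]
  have h1 : ∑ v ∈ D.support, D v * (v.deg : ℤ) = ∑ v ∈ D.support, v.ord f := by
    refine Finset.sum_congr rfl fun v _ => ?_
    rw [hDv, hdeg v]
    simp
  rw [h1, ← Finset.sum_filter_add_sum_filter_not D.support (fun v => 0 < v.ord f)]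
  have hP := sum_ord_eq_finrank hfin hdeg ht (D.support.filter fun v => 0 < v.ord f)
    (fun v => by
      rw [Finset.mem_filter, hsupp]
      constructor
      · exact fun h => h.2
      · exact fun h => ⟨h.ne', h⟩)
  have hN := sum_neg_ord_eq_finrank hfin hdeg ht (D.support.filter fun v => ¬ 0 < v.ord f)
    (fun v => by
      rw [Finset.mem_filter, hsupp]
      constructor
      · rintro ⟨h1, h2⟩
        omega
      · intro h
        exact ⟨h.ne, by omega⟩)
  rw [Finset.sum_neg_distrib] at hN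
  rw [hP]
  linarith

end AlgClosed

end Fermat.Agent.Lib.RR.H383

end
end
-- ===== PACK-END Lib/RR/H383/Fundamental.lean

-- ===== PACK-BEGIN Lib/RR/H653/MemRepartitions.lean
section


/-!
# RR library, piece L4.0: the repartitions are exactly the families with finitely many poles

`repartitions K F` is defined in the Prelude as the `F`-subalgebra of `Place K F → F` generated by
the families with finitely many poles.  Under `HasPrincipalDivisors` (constants have finitely many
poles) this generating set is already a subalgebra.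
-/

set_option autoImplicit false

noncomputable section

open AlgebraicCurve

namespace Fermat.Agent.Lib.RR.H653

variable {K F : Type*} [Field K] [Field F] [Algebra K F]

/-- The poles of a nonzero function are finitely many (from `HasPrincipalDivisors`). -/
theorem finite_poles_const [HasPrincipalDivisors K F] (f : F) :
    {v : Place K F | v.ord f < 0}.Finite := by
  rcases eq_or_ne f 0 with rfl | hf
  · simp
  obtain ⟨D, hD, -⟩ := HasPrincipalDivisors.exists_divisor (K := K) f hf
  refine D.support.finite_toSet.subset fun v hv => ?_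
  rw [Finset.mem_coe, Finsupp.mem_support_iff, hD v]
  exact ne_of_lt hv

/-- Poles of a sum are among the poles of the summands. -/
theorem poles_add_subset (α β : Place K F → F) :
    {v : Place K F | v.ord ((α + β) v) < 0} ⊆
      {v : Place K F | v.ord (α v) < 0} ∪ {v : Place K F | v.ord (β v) < 0} := by
  intro v hv
  simp only [Set.mem_ofPred_eq, Pi.add_apply, Set.mem_union] at hv ⊢
  by_contra hcon
  rw [not_or, not_lt, not_lt] at hcon
  have h := Fermat.Agent.Lib.RR.ord_add_of_le v (n := 0) (Or.inr hcon.1) (Or.inr hcon.2)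
  rcases h with h | h
  · rw [h, v.ord_zero] at hv; exact lt_irrefl _ hv
  · exact absurd hv (not_lt.mpr h)

/-- Poles of a product are among the poles of the factors. -/
theorem poles_mul_subset (α β : Place K F → F) :
    {v : Place K F | v.ord ((α * β) v) < 0} ⊆
      {v : Place K F | v.ord (α v) < 0} ∪ {v : Place K F | v.ord (β v) < 0} := by
  intro v hv
  simp only [Set.mem_ofPred_eq, Pi.mul_apply, Set.mem_union] at hv ⊢
  by_contra hcon
  rw [not_or, not_lt, not_lt] at hcon
  rcases eq_or_ne (α v) 0 with h0 | h0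
  · rw [h0, zero_mul, v.ord_zero] at hv; exact lt_irrefl _ hv
  rcases eq_or_ne (β v) 0 with h1 | h1
  · rw [h1, mul_zero, v.ord_zero] at hv; exact lt_irrefl _ hv
  rw [v.ord_mul h0 h1] at hv
  omega

/-- **L4.0**: the repartitions are exactly the families with finitely many poles. -/
theorem mem_repartitions_iff [HasPrincipalDivisors K F] {α : Place K F → F} :
    α ∈ repartitions K F ↔ {v : Place K F | v.ord (α v) < 0}.Finite := by
  refine ⟨fun h => ?_, mem_repartitions_of_finite_ord⟩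
  unfold repartitions at h
  induction h using Algebra.adjoin_induction with
  | mem x hx =>
    have hx' : {v : Place K F | ¬v.adicValuation (x v) ≤ 1}.Finite := hx
    rwa [show {v : Place K F | ¬v.adicValuation (x v) ≤ 1}
        = {v : Place K F | v.ord (x v) < 0} from
      Set.ext fun v => v.not_adicValuation_le_one_iff] at hx'
  | algebraMap r => exact finite_poles_const r
  | add x y _ _ hx hy => exact (hx.union hy).subset (poles_add_subset x y)
  | mul x y _ _ hx hy => exact (hx.union hy).subset (poles_mul_subset x y)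

end Fermat.Agent.Lib.RR.H653

end
end
-- ===== PACK-END Lib/RR/H653/MemRepartitions.lean

-- ===== PACK-BEGIN Lib/RR/H80/Weil.lean
section


/-!
# RR library, layer L5 (helper80): Weil differentials

`𝔸 = repartitions K F`, `AF D = 𝔸(D) + F`, `Om D = (AF D)^⊥ ⊆ Hom_K(𝔸, K)` the space of Weil
differentials vanishing on `𝔸(D) + F`; `smulD x ω = ω (x • ·)` the action of `F`.

This file: basic API (no Riemann–Roch input).
-/

set_option autoImplicit false

noncomputable section

open AlgebraicCurve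

namespace Fermat.Agent.Lib.RR.H80

open Fermat.Agent.Lib.RR

variable {K F : Type*} [Field K] [Field F] [Algebra K F]

/-- `𝔸(D) + F`. -/
def AF (D : Divisor K F) : Submodule K ↥(repartitions K F) :=
  repartitionsOf D ⊔ principalRepartitions K F

/-- Weil differentials vanishing on `𝔸(D) + F`. -/
def Om (D : Divisor K F) : Submodule K (Module.Dual K ↥(repartitions K F)) :=
  (AF D).dualAnnihilator

theorem mem_Om_iff {D : Divisor K F} {ω : Module.Dual K ↥(repartitions K F)} :
    ω ∈ Om D ↔ (∀ α ∈ repartitionsOf D, ω α = 0) ∧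
      ∀ α ∈ principalRepartitions K F, ω α = 0 := by
  unfold Om AF
  rw [Submodule.dualAnnihilator_sup_eq, Submodule.mem_inf, Submodule.mem_dualAnnihilator,
    Submodule.mem_dualAnnihilator]

/-- `dim Ω(D) = dim H¹(D)` (both sides are `0` in the infinite-dimensional case). -/
theorem finrank_Om (D : Divisor K F) :
    Module.finrank K (Om D) = Module.finrank K (H1 D) := by
  have e : Module.Dual K (H1 D) ≃ₗ[K] Om D :=
    Submodule.dualQuotEquivDualAnnihilator (AF D)
  rw [← e.finrank_eq, Subspace.dual_finrank_eq]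

theorem finite_Om (D : Divisor K F) [Module.Finite K (H1 D)] : Module.Finite K (Om D) := by
  have e : Module.Dual K (H1 D) ≃ₗ[K] Om D :=
    Submodule.dualQuotEquivDualAnnihilator (AF D)
  exact Module.Finite.equiv e

theorem AF_mono {D D' : Divisor K F} (h : D ≤ D') : AF D ≤ AF D' :=
  sup_le_sup_right (repartitionsOf_mono h) _

theorem Om_anti {D D' : Divisor K F} (h : D ≤ D') : Om D' ≤ Om D :=
  Submodule.dualAnnihilator_anti (AF_mono h)

/-- Multiplication by `x ∈ F` on repartitions, as a `K`-linear map. -/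
def mulA (x : F) : ↥(repartitions K F) →ₗ[K] ↥(repartitions K F) :=
  (LinearMap.lsmul F ↥(repartitions K F) x).restrictScalars K

@[simp] theorem mulA_apply (x : F) (α : ↥(repartitions K F)) : mulA (K := K) x α = x • α := rfl

theorem coe_smul_apply (x : F) (α : ↥(repartitions K F)) (v : Place K F) :
    ((x • α : ↥(repartitions K F)) : Place K F → F) v = x * (α : Place K F → F) v := rfl

theorem mulA_mul (x y : F) (α : ↥(repartitions K F)) :
    mulA (K := K) x (mulA y α) = mulA (x * y) α := by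
  simp [mulA_apply, mul_smul]

theorem mulA_one (α : ↥(repartitions K F)) : mulA (K := K) (1 : F) α = α := by
  simp [mulA_apply]

/-- The action of `F` on `Hom_K(𝔸, K)`: `(x ω)(α) = ω (x α)`. -/
def smulD (x : F) (ω : Module.Dual K ↥(repartitions K F)) : Module.Dual K ↥(repartitions K F) :=
  ω.comp (mulA x)

@[simp] theorem smulD_apply (x : F) (ω : Module.Dual K ↥(repartitions K F))
    (α : ↥(repartitions K F)) : smulD x ω α = ω (x • α) := rfl

theorem smulD_smulD (x y : F) (ω : Module.Dual K ↥(repartitions K F)) :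
    smulD x (smulD y ω) = smulD (x * y) ω := by
  ext α
  simp only [smulD_apply]
  rw [← mul_smul, mul_comm]

theorem smulD_one (ω : Module.Dual K ↥(repartitions K F)) : smulD (1 : F) ω = ω := by
  ext α; simp

theorem smulD_zero_left (ω : Module.Dual K ↥(repartitions K F)) : smulD (0 : F) ω = 0 := by
  ext α; simp

theorem smulD_zero_right (x : F) : smulD x (0 : Module.Dual K ↥(repartitions K F)) = 0 := by
  ext α; simp

/-- `x ↦ x ω`, as a `K`-linear map `F → Hom_K(𝔸, K)`. -/
def muMap (ω : Module.Dual K ↥(repartitions K F)) :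
    F →ₗ[K] Module.Dual K ↥(repartitions K F) where
  toFun x := smulD x ω
  map_add' x y := by
    ext α
    simp only [smulD_apply, LinearMap.add_apply, add_smul, map_add]
  map_smul' c x := by
    ext α
    simp only [smulD_apply, RingHom.id_apply, LinearMap.smul_apply]
    rw [smul_assoc, map_smul]

@[simp] theorem muMap_apply (ω : Module.Dual K ↥(repartitions K F)) (x : F) :
    muMap ω x = smulD x ω := rfl

theorem muMap_injective {ω : Module.Dual K ↥(repartitions K F)} (hω : ω ≠ 0) :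
    Function.Injective (muMap ω) := by
  rw [← LinearMap.ker_eq_bot, eq_bot_iff]
  intro x hx
  rw [LinearMap.mem_ker, muMap_apply] at hx
  rw [Submodule.mem_bot]
  by_contra hx0
  apply hω
  have := congrArg (smulD x⁻¹) hx
  rwa [smulD_smulD, inv_mul_cancel₀ hx0, smulD_one, smulD_zero_right] at this

/-! ### Action on `𝔸(D)` and on principal repartitions -/

theorem smul_mem_principal (x : F) {α : ↥(repartitions K F)}
    (hα : α ∈ principalRepartitions K F) : x • α ∈ principalRepartitions K F := by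
  rw [mem_principalRepartitions_iff] at hα ⊢
  obtain ⟨f, hf⟩ := hα
  refine ⟨x * f, ?_⟩
  funext v
  rw [coe_smul_apply, hf]

/-- If `E = div x` then `x • 𝔸(D + E) ⊆ 𝔸(D)`. -/
theorem smul_mem_repartitionsOf {x : F} (hx : x ≠ 0) {D E : Divisor K F}
    (hE : ∀ v : Place K F, E v = v.ord x) {α : ↥(repartitions K F)}
    (hα : α ∈ repartitionsOf (D + E)) : x • α ∈ repartitionsOf D := by
  rw [mem_repartitionsOf_iff] at hα ⊢
  intro v
  rw [coe_smul_apply]
  rcases hα v with h | h
  · left; rw [h, mul_zero]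
  · rcases eq_or_ne ((α : Place K F → F) v) 0 with h0 | h0
    · left; rw [h0, mul_zero]
    right
    rw [v.ord_mul hx h0]
    simp only [Finsupp.coe_add, Pi.add_apply, hE v] at h
    omega

theorem smul_mem_AF {x : F} (hx : x ≠ 0) {D E : Divisor K F}
    (hE : ∀ v : Place K F, E v = v.ord x) {α : ↥(repartitions K F)}
    (hα : α ∈ AF (D + E)) : x • α ∈ AF D := by
  unfold AF at hα ⊢
  rw [Submodule.mem_sup] at hα ⊢
  obtain ⟨β, hβ, γ, hγ, rfl⟩ := hα
  exact ⟨x • β, smul_mem_repartitionsOf hx hE hβ, x • γ, smul_mem_principal x hγ,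
    (smul_add x β γ).symm⟩

/-- If `ω` vanishes on `𝔸(D) + F` and `E = div x`, then `x ω` vanishes on `𝔸(D + E) + F`. -/
theorem smulD_mem_Om {x : F} (hx : x ≠ 0) {D E : Divisor K F}
    (hE : ∀ v : Place K F, E v = v.ord x) {ω : Module.Dual K ↥(repartitions K F)}
    (hω : ω ∈ Om D) : smulD x ω ∈ Om (D + E) := by
  unfold Om at hω ⊢
  rw [Submodule.mem_dualAnnihilator] at hω ⊢
  intro α hα
  rw [smulD_apply]
  exact hω _ (smul_mem_AF hx hE hα)

end Fermat.Agent.Lib.RR.H80

end
end
-- ===== PACK-END Lib/RR/H80/Weil.lean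

-- ===== PACK-BEGIN Lib/RR/H80/OneDim.lean
section


/-!
# RR library, layer L5 (helper80): the Weil differentials form a one-dimensional `F`-space

Inputs from layers L3/L4 are taken as explicit hypotheses:
* `hfin : ∀ D, Module.Finite K (H1 D)`,
* `hrr  : ∀ D, ℓ(D) - dim H¹(D) = deg D + 1 - g`.
-/

set_option autoImplicit false

noncomputable section

open AlgebraicCurve

namespace Fermat.Agent.Lib.RR.H80

open Fermat.Agent.Lib.RR

variable {K F : Type*} [Field K] [Field F] [Algebra K F]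

/-- For `x ∈ L(A + B)`, `x ω ∈ Ω(-B)` whenever `ω ∈ Ω(A)`. -/
theorem smulD_mem_Om_neg [HasPrincipalDivisors K F] {A B : Divisor K F}
    {ω : Module.Dual K ↥(repartitions K F)} (hω : ω ∈ Om A) {x : F}
    (hx : x ∈ riemannRochSpace (A + B)) : smulD x ω ∈ Om (-B) := by
  rcases eq_or_ne x 0 with rfl | hx0
  · rw [smulD_zero_left]; exact Submodule.zero_mem _
  obtain ⟨E, hE, -⟩ := HasPrincipalDivisors.exists_divisor (K := K) x hx0
  have h1 : smulD x ω ∈ Om (A + E) := smulD_mem_Om hx0 hE hω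
  refine Om_anti ?_ h1
  rw [Finsupp.le_def]
  intro v
  have := (mem_L_iff.mp hx v).resolve_left hx0
  simp only [Finsupp.coe_add, Pi.add_apply, Finsupp.coe_neg, Pi.neg_apply, hE v] at this ⊢
  omega

theorem map_muMap_le [HasPrincipalDivisors K F] {A B : Divisor K F}
    {ω : Module.Dual K ↥(repartitions K F)} (hω : ω ∈ Om A) :
    Submodule.map (muMap ω) (riemannRochSpace (A + B)) ≤ Om (-B) := by
  rintro _ ⟨x, hx, rfl⟩
  exact smulD_mem_Om_neg hω hx

theorem finrank_map_muMap {ω : Module.Dual K ↥(repartitions K F)} (hω : ω ≠ 0)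
    (D : Divisor K F) :
    Module.finrank K (Submodule.map (muMap ω) (riemannRochSpace D)) = ell D :=
  (Submodule.equivMapOfInjective (muMap ω) (muMap_injective hω)
    (riemannRochSpace D)).finrank_eq.symm

section Input

variable [FF1 K F] {g : ℤ}

theorem genus_eq_of_rr
    (hrr : ∀ D : Divisor K F,
      (ell D : ℤ) - Module.finrank K (H1 D) = Divisor.degree D + 1 - g) :
    g = Module.finrank K (H1 (0 : Divisor K F)) := by
  have h := hrr 0
  rw [ell_zero, map_zero] at h
  push_cast at h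
  omega

theorem genus_nonneg_of_rr
    (hrr : ∀ D : Divisor K F,
      (ell D : ℤ) - Module.finrank K (H1 D) = Divisor.degree D + 1 - g) : 0 ≤ g := by
  rw [genus_eq_of_rr hrr]
  exact Int.natCast_nonneg _

omit [FF1 K F] in
theorem finrank_Om_eq
    (hrr : ∀ D : Divisor K F,
      (ell D : ℤ) - Module.finrank K (H1 D) = Divisor.degree D + 1 - g) (D : Divisor K F) :
    (Module.finrank K (Om D) : ℤ) = ell D - Divisor.degree D - 1 + g := by
  rw [finrank_Om]
  have := hrr D
  omega

omit [FF1 K F] in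
theorem ell_ge_of_rr
    (hrr : ∀ D : Divisor K F,
      (ell D : ℤ) - Module.finrank K (H1 D) = Divisor.degree D + 1 - g) (D : Divisor K F) :
    Divisor.degree D + 1 - g ≤ ell D := by
  have := hrr D
  have h2 : (0 : ℤ) ≤ Module.finrank K (H1 D) := Int.natCast_nonneg _
  omega

/-- **Existence of a nonzero Weil differential.** -/
theorem exists_ne_zero_mem_Om
    (hrr : ∀ D : Divisor K F,
      (ell D : ℤ) - Module.finrank K (H1 D) = Divisor.degree D + 1 - g) :
    ∃ (A : Divisor K F) (ω : Module.Dual K ↥(repartitions K F)), ω ∈ Om A ∧ ω ≠ 0 := by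
  obtain ⟨P⟩ := (FF1.nonempty_place : Nonempty (Place K F))
  let A : Divisor K F := -(prim P + prim P)
  have hdeg : Divisor.degree A = -2 := by
    simp only [A, map_neg, map_add, degree_prim']; norm_num
  have hell : ell A = 0 := ell_eq_zero_of_degree_neg (by rw [hdeg]; norm_num)
  have hfr := finrank_Om_eq hrr A
  rw [hell, hdeg] at hfr
  have hg := genus_nonneg_of_rr hrr
  have hpos : 0 < Module.finrank K (Om A) := by
    have : (0 : ℤ) < Module.finrank K (Om A) := by rw [hfr]; push_cast; omega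
    exact_mod_cast this
  have : Nontrivial (Om A) := Module.nontrivial_of_finrank_pos hpos
  obtain ⟨ω, hω⟩ := exists_ne (0 : Om A)
  exact ⟨A, ω, ω.2, fun h => hω (Subtype.ext h)⟩

/-- **One-dimensionality**: any Weil differential is an `F`-multiple of a given nonzero one. -/
theorem exists_smulD_eq
    (hfin : ∀ D : Divisor K F, Module.Finite K (H1 D))
    (hrr : ∀ D : Divisor K F,
      (ell D : ℤ) - Module.finrank K (H1 D) = Divisor.degree D + 1 - g)
    {A₁ A₂ : Divisor K F} {ω₁ ω₂ : Module.Dual K ↥(repartitions K F)}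
    (h₁ : ω₁ ∈ Om A₁) (h₁0 : ω₁ ≠ 0) (h₂ : ω₂ ∈ Om A₂) :
    ∃ z : F, ω₂ = smulD z ω₁ := by
  classical
  rcases eq_or_ne ω₂ 0 with rfl | h₂0
  · exact ⟨0, (smulD_zero_left _).symm⟩
  obtain ⟨P⟩ := (FF1.nonempty_place : Nonempty (Place K F))
  -- choose `B = n P` with `n` large
  let N : ℤ := 3 * g - 3 - Divisor.degree A₁ - Divisor.degree A₂
  let n : ℕ := (max N 0 + 1).toNat
  have hn : (n : ℤ) = max N 0 + 1 := Int.toNat_of_nonneg (by positivity)
  have hnN : N < n := by rw [hn]; have := le_max_left N 0; omega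
  have hn1 : (1 : ℤ) ≤ n := by rw [hn]; have := le_max_right N 0; omega
  let B : Divisor K F := n • prim P
  have hdegB : Divisor.degree B = n := by
    simp only [B, map_nsmul, degree_prim']; simp
  let U₁ := Submodule.map (muMap ω₁) (riemannRochSpace (A₁ + B))
  let U₂ := Submodule.map (muMap ω₂) (riemannRochSpace (A₂ + B))
  have hU₁ : U₁ ≤ Om (-B) := map_muMap_le h₁
  have hU₂ : U₂ ≤ Om (-B) := map_muMap_le h₂
  have := hfin (-B)
  have : Module.Finite K (Om (-B)) := finite_Om (-B)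
  have : Module.Finite K U₁ := Submodule.finiteDimensional_of_le hU₁
  have : Module.Finite K U₂ := Submodule.finiteDimensional_of_le hU₂
  have hinter : U₁ ⊓ U₂ ≠ ⊥ := by
    intro hbot
    have hsum := Submodule.finrank_sup_add_finrank_inf_eq U₁ U₂
    rw [hbot, finrank_bot, add_zero] at hsum
    have hle : Module.finrank K ↥(U₁ ⊔ U₂) ≤ Module.finrank K (Om (-B)) :=
      Submodule.finrank_mono (sup_le hU₁ hU₂)
    have e1 : Module.finrank K U₁ = ell (A₁ + B) := finrank_map_muMap h₁0 _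
    have e2 : Module.finrank K U₂ = ell (A₂ + B) := finrank_map_muMap h₂0 _
    have e3 := finrank_Om_eq hrr (-B)
    have hellB : ell (-B) = 0 :=
      ell_eq_zero_of_degree_neg (by rw [map_neg, hdegB]; omega)
    rw [hellB, map_neg, hdegB] at e3
    have g1 := ell_ge_of_rr hrr (A₁ + B)
    have g2 := ell_ge_of_rr hrr (A₂ + B)
    rw [map_add, hdegB] at g1 g2
    have hsumZ : (Module.finrank K ↥(U₁ ⊔ U₂) : ℤ) = ell (A₁ + B) + ell (A₂ + B) := by
      rw [hsum, e1, e2]; push_cast; ring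
    have hleZ : (Module.finrank K ↥(U₁ ⊔ U₂) : ℤ) ≤ Module.finrank K (Om (-B)) := by
      exact_mod_cast hle
    push_cast at e3
    simp only [N] at hnN
    omega
  obtain ⟨η, hη, hη0⟩ := Submodule.exists_mem_ne_zero_of_ne_bot hinter
  obtain ⟨⟨x₁, -, hx₁⟩, ⟨x₂, -, hx₂⟩⟩ := Submodule.mem_inf.mp hη
  rw [muMap_apply] at hx₁ hx₂
  have hx₂0 : x₂ ≠ 0 := by
    rintro rfl
    rw [smulD_zero_left] at hx₂
    exact hη0 hx₂.symm
  refine ⟨x₂⁻¹ * x₁, ?_⟩
  rw [← smulD_smulD, hx₁, ← hx₂, smulD_smulD, inv_mul_cancel₀ hx₂0, smulD_one]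

end Input

end Fermat.Agent.Lib.RR.H80

end
end
-- ===== PACK-END Lib/RR/H80/OneDim.lean

-- ===== PACK-BEGIN Lib/RR/H980/Adele.lean
section
/-
Shared library RR (Riemann–Roch for function fields), helper980:
the adelic layer in the language of the Prelude (`repartitions`, `repartitionsOf`, `H1`).
Sorry-free.
-/



set_option autoImplicit false

noncomputable section

namespace Fermat.Agent.Lib.RR.H980

open AlgebraicCurve Module
open Fermat.Agent.Lib.RR

variable {K F : Type*} [Field K] [Field F] [Algebra K F]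

/-! ### Uniformizers -/

/-- A chosen uniformizer at the place `v`. -/
def unif (v : Place K F) : F := (exists_ord_eq_one v).choose

lemma ord_unif (v : Place K F) : v.ord (unif v) = 1 :=
  (exists_ord_eq_one v).choose_spec

lemma unif_ne_zero (v : Place K F) : unif v ≠ 0 := by
  intro h
  have := ord_unif v
  rw [h, Place.ord_zero] at this
  exact zero_ne_one this

lemma ord_unif_zpow_mul (v : Place K F) (n : ℤ) {f : F} (hf : f ≠ 0) :
    v.ord (unif v ^ n * f) = n + v.ord f := by
  rw [v.ord_mul (zpow_ne_zero _ (unif_ne_zero v)) hf, v.ord_zpow, ord_unif, mul_one]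

/-! ### Elements of `repartitionsOf` -/

lemma val_apply_add (α β : ↥(repartitions K F)) (v : Place K F) :
    ((α + β : ↥(repartitions K F)) : Place K F → F) v =
      (α : Place K F → F) v + (β : Place K F → F) v := rfl

lemma val_apply_smul (c : K) (α : ↥(repartitions K F)) (v : Place K F) :
    ((c • α : ↥(repartitions K F)) : Place K F → F) v =
      algebraMap K F c * (α : Place K F → F) v := by
  show (c • (α : Place K F → F)) v = _
  rw [Pi.smul_apply, Algebra.smul_def]

lemma ord_ge_of_mem {D : Divisor K F} {α : ↥(repartitions K F)} (h : α ∈ repartitionsOf D)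
    (v : Place K F) (hne : (α : Place K F → F) v ≠ 0) :
    -D v ≤ v.ord ((α : Place K F → F) v) :=
  ((mem_repartitionsOf_iff.mp h) v).resolve_left hne

/-! ### The step `A(D) ⊆ A(D + v)` -/

/-- `D + v`. -/
def addPt (D : Divisor K F) (v : Place K F) : Divisor K F := D + prim v

lemma addPt_def (D : Divisor K F) (v : Place K F) : addPt D v = D + prim v := rfl

lemma addPt_apply_self (D : Divisor K F) (v : Place K F) : addPt D v v = D v + 1 := by
  simp [addPt, prim]

lemma addPt_apply_of_ne (D : Divisor K F) {v w : Place K F} (h : w ≠ v) :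
    addPt D v w = D w := by
  simp [addPt, prim, Ne.symm h]

lemma le_addPt (D : Divisor K F) (v : Place K F) : D ≤ addPt D v := by
  rw [Finsupp.le_def]
  intro w
  by_cases h : w = v
  · subst h; rw [addPt_apply_self]; omega
  · rw [addPt_apply_of_ne D h]

lemma repartitionsOf_le_addPt (D : Divisor K F) (v : Place K F) :
    repartitionsOf D ≤ repartitionsOf (addPt D v) :=
  repartitionsOf_mono (le_addPt D v)

lemma degree_addPt (D : Divisor K F) (v : Place K F) :
    Divisor.degree (addPt D v) = Divisor.degree D + v.deg := by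
  rw [addPt, prim, map_add, Divisor.degree_single, one_mul]

/-- The twisted value `π ^ (D v + 1) * α v` is integral at `v` for `α ∈ A(D + v)`. -/
lemma twist_mem (D : Divisor K F) (v : Place K F) {α : ↥(repartitions K F)}
    (h : α ∈ repartitionsOf (addPt D v)) :
    unif v ^ (D v + 1) * (α : Place K F → F) v ∈ v.toValuationSubring := by
  by_cases hne : (α : Place K F → F) v = 0
  · rw [hne, mul_zero]; exact zero_mem _
  · apply mem_of_ord_nonneg
    rw [ord_unif_zpow_mul v _ hne]
    have := ord_ge_of_mem h v hne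
    rw [addPt_apply_self] at this
    omega

/-- The residue map `A(D + v) → k(v)`, `α ↦ (π ^ (D v + 1) * α v) mod 𝔪_v`. -/
def resMap (D : Divisor K F) (v : Place K F) :
    ↥(repartitionsOf (addPt D v)) →ₗ[K] v.ResidueField where
  toFun α := IsLocalRing.residue _
    (⟨unif v ^ (D v + 1) * ((α : ↥(repartitions K F)) : Place K F → F) v,
      twist_mem D v α.2⟩ : v.toValuationSubring)
  map_add' α β := by
    rw [← map_add]
    congr 1
    apply Subtype.ext
    show unif v ^ (D v + 1) * (((α + β : ↥(repartitionsOf (addPt D v))) : ↥(repartitions K F)) :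
      Place K F → F) v = _
    rw [Submodule.coe_add, val_apply_add, mul_add]
    rfl
  map_smul' c α := by
    rw [RingHom.id_apply, Algebra.smul_def,
      IsScalarTower.algebraMap_apply K v.toValuationSubring v.ResidueField]
    show _ = IsLocalRing.residue _ _ * IsLocalRing.residue _ _
    rw [← map_mul]
    congr 1
    apply Subtype.ext
    show unif v ^ (D v + 1) * (((c • α : ↥(repartitionsOf (addPt D v))) : ↥(repartitions K F)) :
      Place K F → F) v = _
    rw [Submodule.coe_smul, val_apply_smul]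
    show _ = algebraMap K F c * (unif v ^ (D v + 1) * _)
    ring

lemma resMap_apply (D : Divisor K F) (v : Place K F) (α : ↥(repartitionsOf (addPt D v))) :
    resMap D v α = IsLocalRing.residue _
      (⟨unif v ^ (D v + 1) * ((α : ↥(repartitions K F)) : Place K F → F) v,
        twist_mem D v α.2⟩ : v.toValuationSubring) := rfl

lemma mem_maximalIdeal_mk_iff (v : Place K F) {x : F} (hx : x ∈ v.toValuationSubring) :
    (⟨x, hx⟩ : v.toValuationSubring) ∈ IsLocalRing.maximalIdeal v.toValuationSubring ↔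
      x = 0 ∨ 0 < v.ord x :=
  Fermat.Agent.Lib.RR.mem_maximalIdeal_iff v ⟨x, hx⟩

lemma ker_resMap (D : Divisor K F) (v : Place K F) :
    LinearMap.ker (resMap D v) =
      (repartitionsOf D).submoduleOf (repartitionsOf (addPt D v)) := by
  ext α
  rw [LinearMap.mem_ker, resMap_apply, IsLocalRing.residue_eq_zero_iff,
    mem_maximalIdeal_mk_iff, mem_submoduleOf_iff, mem_repartitionsOf_iff]
  have hα := mem_repartitionsOf_iff.mp α.2
  constructor
  · intro h w
    by_cases hw : w = v
    · subst hw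
      by_cases hne : ((α : ↥(repartitions K F)) : Place K F → F) w = 0
      · exact Or.inl hne
      · right
        rcases h with h | h
        · exact absurd h (mul_ne_zero (zpow_ne_zero _ (unif_ne_zero w)) hne)
        · rw [ord_unif_zpow_mul w _ hne] at h
          omega
    · have := hα w
      rw [addPt_apply_of_ne D hw] at this
      exact this
  · intro h
    by_cases hne : ((α : ↥(repartitions K F)) : Place K F → F) v = 0
    · left; rw [hne, mul_zero]
    · right
      rw [ord_unif_zpow_mul v _ hne]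
      have := (h v).resolve_left hne
      omega

open Classical in
/-- The repartition supported at the single place `v` with value `x`. -/
def singleRep (v : Place K F) (x : F) : ↥(repartitions K F) :=
  ⟨Pi.single v x, mem_repartitions_of_finite_ord (by
    refine (Set.finite_singleton v).subset fun w hw => ?_
    by_contra hne
    have hne' : w ≠ v := hne
    simp only [Set.mem_ofPred_eq, Pi.single_apply, hne', if_false, Place.ord_zero,
      lt_self_iff_false] at hw)⟩

lemma singleRep_apply_self (v : Place K F) (x : F) :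
    ((singleRep v x : ↥(repartitions K F)) : Place K F → F) v = x := by
  simp [singleRep]

lemma singleRep_apply_of_ne (v : Place K F) (x : F) {w : Place K F} (h : w ≠ v) :
    ((singleRep v x : ↥(repartitions K F)) : Place K F → F) w = 0 := by
  simp [singleRep, h]

lemma singleRep_mem (D : Divisor K F) (v : Place K F) {x : F}
    (hx : x = 0 ∨ -D v ≤ v.ord x) : singleRep v x ∈ repartitionsOf D := by
  rw [mem_repartitionsOf_iff]
  intro w
  by_cases hw : w = v
  · subst hw
    rw [singleRep_apply_self]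
    exact hx
  · left
    exact singleRep_apply_of_ne v x hw

lemma resMap_surjective (D : Divisor K F) (v : Place K F) :
    Function.Surjective (resMap D v) := by
  intro c
  obtain ⟨u, rfl⟩ := IsLocalRing.residue_surjective c
  have hmem : singleRep v (unif v ^ (-(D v + 1)) * (u : F)) ∈ repartitionsOf (addPt D v) := by
    apply singleRep_mem
    by_cases hu : (u : F) = 0
    · left; rw [hu, mul_zero]
    · right
      rw [ord_unif_zpow_mul v _ hu, addPt_apply_self]
      have := ord_nonneg_of_mem v u.2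
      omega
  refine ⟨⟨_, hmem⟩, ?_⟩
  rw [resMap_apply]
  congr 1
  apply Subtype.ext
  show unif v ^ (D v + 1) * ((singleRep v (unif v ^ (-(D v + 1)) * (u : F)) :
    ↥(repartitions K F)) : Place K F → F) v = u
  rw [singleRep_apply_self, ← mul_assoc, ← zpow_add₀ (unif_ne_zero v)]
  simp

/-- `A(D + v) / A(D) ≃ k(v)`. -/
def quoAddPtEquiv (D : Divisor K F) (v : Place K F) :
    Quo (repartitionsOf D) (repartitionsOf (addPt D v)) ≃ₗ[K] v.ResidueField :=
  (Submodule.quotEquivOfEq _ _ (ker_resMap D v).symm).trans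
    ((resMap D v).quotKerEquivOfSurjective (resMap_surjective D v))

lemma idx_addPt (D : Divisor K F) (v : Place K F) :
    idx (repartitionsOf D) (repartitionsOf (addPt D v)) = v.deg :=
  (quoAddPtEquiv D v).finrank_eq

lemma finIdx_addPt (D : Divisor K F) (v : Place K F) [Module.Finite K v.ResidueField] :
    FinIdx (repartitionsOf D) (repartitionsOf (addPt D v)) :=
  Module.Finite.equiv (quoAddPtEquiv D v).symm

/-! ### `dim A(D') / A(D) = deg D' - deg D` -/

section FF1

variable [hFF : FF1 K F]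

lemma finite_residueField (v : Place K F) : Module.Finite K v.ResidueField := by
  have h : Module.finrank K v.ResidueField = 1 := deg_eq_one v
  exact Module.finite_of_finrank_pos (by rw [h]; exact Nat.one_pos)

/-- For `D ≤ D'`, `A(D')/A(D)` has dimension `deg D' - deg D`. -/
theorem finIdx_and_idx_repartitionsOf {D D' : Divisor K F} (h : D ≤ D') :
    FinIdx (repartitionsOf D) (repartitionsOf D') ∧
      (idx (repartitionsOf D) (repartitionsOf D') : ℤ) =
        Divisor.degree D' - Divisor.degree D := by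
  refine induction_ge (P := fun D' => FinIdx (repartitionsOf D) (repartitionsOf D') ∧
      (idx (repartitionsOf D) (repartitionsOf D') : ℤ) =
        Divisor.degree D' - Divisor.degree D) D ?_ ?_ D' h
  · exact ⟨finIdx_self _, by rw [idx_self]; simp⟩
  · intro D'' v hle ⟨hfin, hidx⟩
    have h1 : repartitionsOf D ≤ repartitionsOf D'' := repartitionsOf_mono hle
    have h2 : repartitionsOf D'' ≤ repartitionsOf (D'' + prim v) := repartitionsOf_le_addPt D'' v
    have : Module.Finite K v.ResidueField := finite_residueField v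
    have hfin2 : FinIdx (repartitionsOf D'') (repartitionsOf (D'' + prim v)) :=
      finIdx_addPt D'' v
    have hidx2 : idx (repartitionsOf D'') (repartitionsOf (D'' + prim v)) = 1 := by
      have := idx_addPt D'' v
      rw [deg_eq_one v] at this
      exact this
    have hfin3 := FinIdx.trans h1 h2 hfin hfin2
    refine ⟨hfin3, ?_⟩
    rw [idx_tower h1 h2 hfin3, hidx2, map_add, degree_prim']
    push_cast
    omega

/-! ### `A(D) ∩ F = L(D)` -/

/-- The diagonal embedding `F → 𝔸`, as a `K`-linear map. -/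
def diag : F →ₗ[K] ↥(repartitions K F) :=
  (Algebra.linearMap F ↥(repartitions K F)).restrictScalars K

omit hFF in
lemma diag_apply (f : F) (v : Place K F) :
    ((diag f : ↥(repartitions K F)) : Place K F → F) v = f := by
  show ((algebraMap F ↥(repartitions K F) f : ↥(repartitions K F)) : Place K F → F) v = f
  rw [Subalgebra.coe_algebraMap]
  rfl

lemma diag_injective : Function.Injective (diag (K := K) (F := F)) := by
  intro f g hfg
  obtain ⟨v₀⟩ := hFF.nonempty_place
  have := congrArg (fun α : ↥(repartitions K F) => (α : Place K F → F) v₀) hfg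
  simpa [diag_apply] using this

omit hFF in
lemma range_diag : LinearMap.range (diag (K := K) (F := F)) = principalRepartitions K F := by
  ext α
  rw [mem_principalRepartitions_iff]
  constructor
  · rintro ⟨f, rfl⟩
    exact ⟨f, funext fun v => diag_apply f v⟩
  · rintro ⟨f, hf⟩
    refine ⟨f, Subtype.ext ?_⟩
    rw [hf]
    exact funext fun v => diag_apply f v

omit hFF in
lemma diag_mem_repartitionsOf_iff (D : Divisor K F) (f : F) :
    diag f ∈ repartitionsOf D ↔ f ∈ riemannRochSpace D := by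
  rw [mem_repartitionsOf_iff, mem_L_iff]
  simp only [diag_apply]

omit hFF in
lemma map_diag_L (D : Divisor K F) :
    (riemannRochSpace D).map (diag (K := K) (F := F)) =
      repartitionsOf D ⊓ principalRepartitions K F := by
  ext α
  rw [Submodule.mem_map, Submodule.mem_inf, ← range_diag]
  constructor
  · rintro ⟨f, hf, rfl⟩
    exact ⟨(diag_mem_repartitionsOf_iff D f).mpr hf, ⟨f, rfl⟩⟩
  · rintro ⟨hα, ⟨f, rfl⟩⟩
    exact ⟨f, (diag_mem_repartitionsOf_iff D f).mp hα, rfl⟩

/-- `L(D) ≃ A(D) ∩ F`. -/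
def LEquiv (D : Divisor K F) :
    ↥(riemannRochSpace D) ≃ₗ[K] ↥(repartitionsOf D ⊓ principalRepartitions K F) :=
  (Submodule.equivMapOfInjective diag diag_injective (riemannRochSpace D)).trans
    (LinearEquiv.ofEq _ _ (map_diag_L D))

lemma finrank_inf (D : Divisor K F) :
    finrank K ↥(repartitionsOf D ⊓ principalRepartitions K F) = ell D :=
  (LEquiv D).finrank_eq.symm

instance finite_inf (D : Divisor K F) :
    Module.Finite K ↥(repartitionsOf D ⊓ principalRepartitions K F) :=
  Module.Finite.equiv (LEquiv D)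

lemma idx_inf_eq {D D' : Divisor K F} (h : D ≤ D') :
    (idx (repartitionsOf D ⊓ principalRepartitions K F)
      (repartitionsOf D' ⊓ principalRepartitions K F) : ℤ) = (ell D' : ℤ) - ell D := by
  have h1 : repartitionsOf D ⊓ principalRepartitions K F ≤
      repartitionsOf D' ⊓ principalRepartitions K F :=
    inf_le_inf_right _ (repartitionsOf_mono h)
  have h2 := idx_add_finrank h1
  rw [finrank_inf, finrank_inf] at h2
  omega

/-- `dim (A(D') + F)/(A(D) + F) = (deg D' - ℓ(D')) - (deg D - ℓ(D))` for `D ≤ D'`. -/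
theorem finIdx_and_idx_sup {D D' : Divisor K F} (h : D ≤ D') :
    FinIdx (repartitionsOf D ⊔ principalRepartitions K F)
        (repartitionsOf D' ⊔ principalRepartitions K F) ∧
      (idx (repartitionsOf D ⊔ principalRepartitions K F)
        (repartitionsOf D' ⊔ principalRepartitions K F) : ℤ) =
        (Divisor.degree D' - ell D') - (Divisor.degree D - ell D) := by
  obtain ⟨hfin, hidx⟩ := finIdx_and_idx_repartitionsOf h
  have hle := repartitionsOf_mono h
  refine ⟨FinIdx.sup _ hle hfin, ?_⟩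
  have h1 := idx_sup_add_idx_inf (principalRepartitions K F) hle hfin
  have h2 := idx_inf_eq h
  omega

end FF1

end Fermat.Agent.Lib.RR.H980

end

end
-- ===== PACK-END Lib/RR/H980/Adele.lean

-- ===== PACK-BEGIN S55/Bridge/H594/PrimeBelow.lean
section



/-!
# S55 bridge (helper594): valuation subrings of `ℚ̄` versus primes of `ℤ̄`

For a valuation subring `A` of `ℚ̄` lying over a prime number `q`, the decomposition group of `A`
is the stabiliser of the prime `primeBelow A` of the ring `ℤ̄` of all algebraic integers, and the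
inertia group of `A` is the inertia group of `primeBelow A`.
-/

set_option autoImplicit false

namespace Fermat.Agent.S55.Bridge.H594

open Fermat.Agent.S54 Fermat.Agent.S55.Bridge
open scoped Pointwise

attribute [local instance] isAlgebraic_Qbar isGalois_Qbar

section basic

variable (A : ValuationSubring (AlgebraicClosure ℚ))

/-- Algebraic integers lie in every valuation subring. -/
theorem coe_mem (b : integralClosure ℤ (AlgebraicClosure ℚ)) : (b : AlgebraicClosure ℚ) ∈ A :=
  isIntegral_mem_valuationSubring A b.2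

theorem coe_smul (σ : AlgebraicClosure ℚ ≃ₐ[ℚ] AlgebraicClosure ℚ)
    (b : integralClosure ℤ (AlgebraicClosure ℚ)) :
    ((σ • b : integralClosure ℤ (AlgebraicClosure ℚ)) : AlgebraicClosure ℚ) = σ b := rfl

/-- `σ` stabilises `primeBelow A` iff it preserves membership. -/
theorem smul_primeBelow_eq_iff (σ : AlgebraicClosure ℚ ≃ₐ[ℚ] AlgebraicClosure ℚ) :
    σ • primeBelow A = primeBelow A ↔
      ∀ b : integralClosure ℤ (AlgebraicClosure ℚ), σ • b ∈ primeBelow A ↔ b ∈ primeBelow A := by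
  constructor
  · intro h b
    conv_lhs => rw [← h]
    exact Ideal.smul_mem_pointwise_smul_iff
  · intro h
    ext b
    rw [Ideal.mem_pointwise_smul_iff_inv_smul_mem]
    rw [← h (σ⁻¹ • b), smul_inv_smul]

/-- If `σ` preserves the prime below `A`, it maps `A` into `A`. -/
theorem map_mem_of_smul_primeBelow {q : ℕ} (hq : q.Prime) (hA : A.LiesOverPrime q)
    (τ : AlgebraicClosure ℚ ≃ₐ[ℚ] AlgebraicClosure ℚ)
    (hτ : ∀ b : integralClosure ℤ (AlgebraicClosure ℚ), τ • b ∈ primeBelow A ↔ b ∈ primeBelow A)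
    (x : AlgebraicClosure ℚ) (hx : x ∈ A) : τ x ∈ A := by
  obtain ⟨b, s, hb, hs, hsA, hxs⟩ := (mem_valuationSubring_iff A q hq hA x).mp hx
  refine (mem_valuationSubring_iff A q hq hA (τ x)).mpr
    ⟨τ b, τ s, hb.map τ, hs.map τ, ?_, ?_⟩
  · exact (hτ ⟨s, hs⟩).not.mpr hsA
  · rw [← map_mul, hxs]

/-- The decomposition group of `A` is the stabiliser of the prime of `ℤ̄` below `A`. -/
theorem mem_decompositionSubgroup_iff_smul_primeBelow {q : ℕ} (hq : q.Prime)
    (hA : A.LiesOverPrime q) (σ : AlgebraicClosure ℚ ≃ₐ[ℚ] AlgebraicClosure ℚ) :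
    σ ∈ A.decompositionSubgroup ℚ ↔ σ • primeBelow A = primeBelow A := by
  rw [smul_primeBelow_eq_iff]
  constructor
  · intro hσ b
    have h1 := (mem_decompositionSubgroup_iff A σ).mp hσ
    rw [mem_primeBelow, mem_primeBelow, coe_smul, ValuationSubring.mem_nonunits_iff_or,
      ValuationSubring.mem_nonunits_iff_or, ← map_inv₀, h1, map_eq_zero_iff σ σ.injective]
  · intro hσ
    rw [mem_decompositionSubgroup_iff]
    intro x
    constructor
    · intro hx
      have h2 : ∀ b : integralClosure ℤ (AlgebraicClosure ℚ),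
          σ⁻¹ • b ∈ primeBelow A ↔ b ∈ primeBelow A := by
        intro b
        rw [← hσ (σ⁻¹ • b), smul_inv_smul]
      have := map_mem_of_smul_primeBelow A hq hA σ⁻¹ h2 (σ x) hx
      simpa using this
    · exact map_mem_of_smul_primeBelow A hq hA σ hσ x

/-- An integral element outside the prime below `A` has valuation `1`. -/
theorem valuation_eq_one_of_not_mem_nonunits {s : AlgebraicClosure ℚ} (hs : IsIntegral ℤ s)
    (hsA : s ∉ A.nonunits) : A.valuation s = 1 := by
  have h1 : A.valuation s ≤ 1 :=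
    (A.valuation_le_one_iff _).mpr (isIntegral_mem_valuationSubring A hs)
  rw [ValuationSubring.mem_nonunits_iff, not_lt] at hsA
  exact le_antisymm h1 hsA

/-- The inertia group of `A` is the inertia group of the prime of `ℤ̄` below `A`. -/
theorem mem_inertiaSubgroupIn_iff_primeBelow {q : ℕ} (hq : q.Prime)
    (hA : A.LiesOverPrime q) (σ : AlgebraicClosure ℚ ≃ₐ[ℚ] AlgebraicClosure ℚ) :
    σ ∈ A.inertiaSubgroupIn ℚ ↔
      ∀ b : integralClosure ℤ (AlgebraicClosure ℚ), σ • b - b ∈ primeBelow A := by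
  constructor
  · intro hσ b
    exact ((mem_inertiaSubgroupIn_iff A σ).mp hσ).2 b (coe_mem A b)
  · intro hσ
    have hstab : ∀ b : integralClosure ℤ (AlgebraicClosure ℚ),
        σ • b ∈ primeBelow A ↔ b ∈ primeBelow A := by
      intro b
      constructor
      · intro h
        have := (primeBelow A).sub_mem h (hσ b)
        simpa using this
      · intro h
        have := (primeBelow A).add_mem (hσ b) h
        simpa using this
    have hD : σ ∈ A.decompositionSubgroup ℚ :=
      (mem_decompositionSubgroup_iff_smul_primeBelow A hq hA σ).mpr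
        ((smul_primeBelow_eq_iff A σ).mpr hstab)
    rw [mem_inertiaSubgroupIn_iff]
    refine ⟨hD, fun z hz => ?_⟩
    obtain ⟨b, s, hb, hs, hsA, hzs⟩ := (mem_valuationSubring_iff A q hq hA z).mp hz
    have hs0 : s ≠ 0 := fun h => hsA (h ▸ A.nonunits.zero_mem)
    have hσs0 : σ s ≠ 0 := (map_ne_zero_iff σ σ.injective).mpr hs0
    have hσsA : σ s ∉ A.nonunits := (hstab ⟨s, hs⟩).not.mpr hsA
    have hvs : A.valuation s = 1 := valuation_eq_one_of_not_mem_nonunits A hs hsA
    have hvσs : A.valuation (σ s) = 1 :=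
      valuation_eq_one_of_not_mem_nonunits A (hs.map σ) hσsA
    have hz' : z = b / s := by rw [← hzs]; field_simp
    have hnum : (σ b - b) * s - b * (σ s - s) ∈ A.nonunits := by
      rw [ValuationSubring.mem_nonunits_iff]
      have h1 : A.valuation ((σ b - b) * s) < 1 := by
        rw [map_mul, hvs, mul_one]
        exact (ValuationSubring.mem_nonunits_iff A).mp (hσ ⟨b, hb⟩)
      have h2 : A.valuation (b * (σ s - s)) < 1 := by
        rw [map_mul]
        have hb1 : A.valuation b ≤ 1 :=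
          (A.valuation_le_one_iff _).mpr (isIntegral_mem_valuationSubring A hb)
        have hs1 : A.valuation (σ s - s) < 1 :=
          (ValuationSubring.mem_nonunits_iff A).mp (hσ ⟨s, hs⟩)
        exact mul_lt_one_of_nonneg_of_lt_one_right hb1 zero_le hs1
      exact lt_of_le_of_lt (Valuation.map_sub _ _ _) (max_lt h1 h2)
    have hval : σ z - z = ((σ b - b) * s - b * (σ s - s)) / (s * σ s) := by
      rw [hz', map_div₀]
      field_simp
      ring
    rw [hval, ValuationSubring.mem_nonunits_iff, map_div₀, map_mul, hvs, hvσs, mul_one,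
      div_one]
    exact (ValuationSubring.mem_nonunits_iff A).mp hnum

end basic

end Fermat.Agent.S55.Bridge.H594

end
-- ===== PACK-END S55/Bridge/H594/PrimeBelow.lean

-- ===== PACK-BEGIN S55/Bridge/H594/Lift.lean
section



/-!
# S55 bridge (helper594), piece B14: lifting decomposition and inertia elements

`F ⊂ ℚ̄` a normal intermediate field, `A` a valuation subring of `ℚ̄` over a prime number `q`.

* `exists_decomposition_lift`: every `τ ∈ Gal(F/ℚ)` stabilising the prime of `𝓞_F` below `A`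
  is the restriction of an element of the decomposition group of `A`;
* `exists_inertia_lift`: every `τ ∈ Gal(F/ℚ)` acting trivially on `𝓞_F` modulo the prime below
  `A` is the restriction of an element of the inertia group of `A`.
-/

set_option autoImplicit false
set_option linter.style.haveILetI false

namespace Fermat.Agent.S55.Bridge.H594

open Fermat.Agent.S54 Fermat.Agent.S55.Bridge
open scoped Pointwise

attribute [local instance] isAlgebraic_Qbar isGalois_Qbar

section lift

variable (F : IntermediateField ℚ (AlgebraicClosure ℚ))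

/-- An algebraic integer fixed by `Gal(ℚ̄/F)` lies in `F`. -/
theorem coe_mem_of_forall_fixingSubgroup_smul_eq
    (b : integralClosure ℤ (AlgebraicClosure ℚ))
    (hb : ∀ h : F.fixingSubgroup, h • b = b) : (b : AlgebraicClosure ℚ) ∈ F := by
  have h1 : (b : AlgebraicClosure ℚ) ∈ IntermediateField.fixedField F.fixingSubgroup := by
    intro h
    exact congrArg Subtype.val (hb h)
  rwa [InfiniteGalois.fixedField_fixingSubgroup] at h1

variable [Normal ℚ F]

theorem restrictNormalHom_apply (σ : AlgebraicClosure ℚ ≃ₐ[ℚ] AlgebraicClosure ℚ) (x : F) :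
    ((AlgEquiv.restrictNormalHom F σ x : F) : AlgebraicClosure ℚ) = σ (x : AlgebraicClosure ℚ) :=
  AlgEquiv.restrictNormal_commutes σ F x

theorem restrictNormalHom_eq_one_of_mem_fixingSubgroup
    (h : AlgebraicClosure ℚ ≃ₐ[ℚ] AlgebraicClosure ℚ) (hh : h ∈ F.fixingSubgroup) :
    AlgEquiv.restrictNormalHom F h = 1 := by
  apply AlgEquiv.ext
  intro x
  apply Subtype.ext
  rw [restrictNormalHom_apply]
  exact (IntermediateField.mem_fixingSubgroup_iff F h).mp hh x x.2

variable (A : ValuationSubring (AlgebraicClosure ℚ))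

/-- **B14, decomposition part.**  If `τ ∈ Gal(F/ℚ)` preserves the non-units of `A` among the
integers of `F`, then `τ` lifts to the decomposition group of `A`. -/
theorem exists_decomposition_lift {q : ℕ} (hq : q.Prime) (hA : A.LiesOverPrime q)
    (τ : F ≃ₐ[ℚ] F)
    (hτ : ∀ x : F, IsIntegral ℤ x →
      (((τ x : F) : AlgebraicClosure ℚ) ∈ A.nonunits ↔ (x : AlgebraicClosure ℚ) ∈ A.nonunits)) :
    ∃ σ ∈ A.decompositionSubgroup ℚ, AlgEquiv.restrictNormalHom F σ = τ := by
  letI : TopologicalSpace (integralClosure ℤ (AlgebraicClosure ℚ)) := ⊥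
  haveI : DiscreteTopology (integralClosure ℤ (AlgebraicClosure ℚ)) := ⟨rfl⟩
  haveI := continuousSMul_integralClosure
  haveI := primeBelow_isPrime A
  obtain ⟨τ₀, hτ₀⟩ := AlgEquiv.restrictNormalHom_surjective (F := ℚ) (K₁ := F)
    (AlgebraicClosure ℚ) τ
  haveI : (τ₀ • primeBelow A).IsPrime := by
    rw [Ideal.pointwise_smul_eq_comap]
    exact Ideal.comap_isPrime _ _
  have hPQ : ∀ b : integralClosure ℤ (AlgebraicClosure ℚ),
      (∀ h : F.fixingSubgroup, h • b = b) → (b ∈ primeBelow A ↔ b ∈ τ₀ • primeBelow A) := by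
    intro b hb
    have hbF : (b : AlgebraicClosure ℚ) ∈ F := coe_mem_of_forall_fixingSubgroup_smul_eq F b hb
    rw [Ideal.mem_pointwise_smul_iff_inv_smul_mem, mem_primeBelow, mem_primeBelow, coe_smul]
    -- `x = τ⁻¹ b`
    have hx : IsIntegral ℤ (τ⁻¹ ⟨(b : AlgebraicClosure ℚ), hbF⟩ : F) := by
      have hbint : IsIntegral ℤ (⟨(b : AlgebraicClosure ℚ), hbF⟩ : F) := by
        have := b.2
        exact (isIntegral_algebraMap_iff
          (FaithfulSMul.algebraMap_injective F (AlgebraicClosure ℚ))).mp this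
      exact hbint.map (τ⁻¹ : F ≃ₐ[ℚ] F)
    have h1 := hτ _ hx
    have h2 : τ (τ⁻¹ ⟨(b : AlgebraicClosure ℚ), hbF⟩ : F) = ⟨(b : AlgebraicClosure ℚ), hbF⟩ := by
      show (τ * τ⁻¹) _ = _
      rw [mul_inv_cancel]; rfl
    rw [h2] at h1
    have h3 : ((τ⁻¹ ⟨(b : AlgebraicClosure ℚ), hbF⟩ : F) : AlgebraicClosure ℚ) =
        τ₀⁻¹ (b : AlgebraicClosure ℚ) := by
      rw [← hτ₀, ← map_inv, restrictNormalHom_apply]
    rw [h3] at h1
    exact h1
  obtain ⟨h, hh⟩ := exists_smul_eq_of_forall_fixed_mem_iff (B := integralClosure ℤ (AlgebraicClosure ℚ))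
    F.fixingSubgroup (InfiniteGalois.fixingSubgroup_isClosed F) (τ₀ • primeBelow A)
    (primeBelow A) (fun b hb => (hPQ b hb).symm)
  refine ⟨(h : AlgebraicClosure ℚ ≃ₐ[ℚ] AlgebraicClosure ℚ) * τ₀, ?_, ?_⟩
  · rw [mem_decompositionSubgroup_iff_smul_primeBelow A hq hA, mul_smul, ← hh]
  · rw [map_mul, restrictNormalHom_eq_one_of_mem_fixingSubgroup F h h.2, one_mul, hτ₀]

/-- **B14, inertia part.**  If `τ ∈ Gal(F/ℚ)` acts trivially modulo the non-units of `A` on the
integers of `F`, then `τ` lifts to the inertia group of `A`. -/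
theorem exists_inertia_lift {q : ℕ} (hq : q.Prime) (hA : A.LiesOverPrime q)
    (τ : F ≃ₐ[ℚ] F)
    (hτ : ∀ x : F, IsIntegral ℤ x →
      ((τ x : F) : AlgebraicClosure ℚ) - (x : AlgebraicClosure ℚ) ∈ A.nonunits) :
    ∃ σ ∈ A.inertiaSubgroupIn ℚ, AlgEquiv.restrictNormalHom F σ = τ := by
  letI : TopologicalSpace (integralClosure ℤ (AlgebraicClosure ℚ)) := ⊥
  haveI : DiscreteTopology (integralClosure ℤ (AlgebraicClosure ℚ)) := ⟨rfl⟩
  haveI := continuousSMul_integralClosure
  haveI := primeBelow_isPrime A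
  have hτ' : ∀ x : F, IsIntegral ℤ x →
      (((τ x : F) : AlgebraicClosure ℚ) ∈ A.nonunits ↔
        (x : AlgebraicClosure ℚ) ∈ A.nonunits) := by
    intro x hx
    constructor
    · intro h
      have := A.nonunits.sub_mem h (hτ x hx)
      simpa using this
    · intro h
      have := A.nonunits.add_mem (hτ x hx) h
      simpa using this
  obtain ⟨σ₁, hσ₁D, hσ₁⟩ := exists_decomposition_lift F A hq hA τ hτ'
  have hσ₁P : σ₁ • primeBelow A = primeBelow A :=
    (mem_decompositionSubgroup_iff_smul_primeBelow A hq hA σ₁).mp hσ₁D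
  have hfix : ∀ b : integralClosure ℤ (AlgebraicClosure ℚ),
      (∀ h : F.fixingSubgroup, h • b = b) → σ₁ • b - b ∈ primeBelow A := by
    intro b hb
    have hbF : (b : AlgebraicClosure ℚ) ∈ F := coe_mem_of_forall_fixingSubgroup_smul_eq F b hb
    have hbint : IsIntegral ℤ (⟨(b : AlgebraicClosure ℚ), hbF⟩ : F) :=
      (isIntegral_algebraMap_iff
        (FaithfulSMul.algebraMap_injective F (AlgebraicClosure ℚ))).mp b.2
    have h1 := hτ _ hbint
    rw [← hσ₁, restrictNormalHom_apply] at h1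
    exact h1
  obtain ⟨h, hhP, hh⟩ := exists_stabilizer_congr_of_forall_fixed
    (B := integralClosure ℤ (AlgebraicClosure ℚ)) F.fixingSubgroup
    (InfiniteGalois.fixingSubgroup_isClosed F) (primeBelow A) σ₁ hσ₁P hfix
  have hhP' : ∀ b : integralClosure ℤ (AlgebraicClosure ℚ),
      b ∈ primeBelow A → (h : AlgebraicClosure ℚ ≃ₐ[ℚ] AlgebraicClosure ℚ)⁻¹ • b ∈ primeBelow A := by
    intro b hb
    have := (smul_primeBelow_eq_iff A _).mp hhP
      ((h : AlgebraicClosure ℚ ≃ₐ[ℚ] AlgebraicClosure ℚ)⁻¹ • b)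
    rw [smul_inv_smul] at this
    exact this.mp hb
  refine ⟨(h : AlgebraicClosure ℚ ≃ₐ[ℚ] AlgebraicClosure ℚ)⁻¹ * σ₁, ?_, ?_⟩
  · rw [mem_inertiaSubgroupIn_iff_primeBelow A hq hA]
    intro b
    have h1 : σ₁ • b - (h : AlgebraicClosure ℚ ≃ₐ[ℚ] AlgebraicClosure ℚ) • b ∈ primeBelow A := by
      have := (primeBelow A).neg_mem (hh b)
      simpa using this
    have h2 := hhP' _ h1
    rw [smul_sub, inv_smul_smul] at h2
    rw [mul_smul]
    exact h2
  · rw [map_mul, map_inv, restrictNormalHom_eq_one_of_mem_fixingSubgroup F h h.2, inv_one,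
      one_mul, hσ₁]

end lift

end Fermat.Agent.S55.Bridge.H594

end
-- ===== PACK-END S55/Bridge/H594/Lift.lean

-- ===== PACK-BEGIN S28/H326/Polys.lean
section
/-
S28 / helper326: from the Hecke input to the polynomials
`W = ∏ (X - w i)` and `Φ = ∏ (X - y i)` with coefficients in `ℤ[j(t^p)]`.
-/




set_option autoImplicit false
set_option linter.unusedSectionVars false

noncomputable section

namespace Fermat.Agent.S28.H326

open ModularCurve HahnSeries

/-! ### Series without negative part -/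

/-- Laurent series over `ℂ` without terms of negative degree. -/
def NonNeg : Subring (LaurentSeries ℂ) where
  carrier := {x | ∀ n : ℤ, n < 0 → x.coeff n = 0}
  mul_mem' {x y} hx hy n hn := by
    rw [HahnSeries.coeff_mul]
    refine Finset.sum_eq_zero fun ij hij => ?_
    rw [Finset.mem_antidiagonal] at hij
    rcases lt_or_ge ij.1 0 with h1 | h1
    · rw [hx _ h1, zero_mul]
    · have h2 : ij.2 < 0 := by
        have := hij.2.2
        omega
      rw [hy _ h2, mul_zero]
  one_mem' n hn := by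
    rw [HahnSeries.coeff_one, if_neg hn.ne]
  add_mem' {x y} hx hy n hn := by
    rw [HahnSeries.coeff_add, hx n hn, hy n hn, add_zero]
  zero_mem' n _ := HahnSeries.coeff_zero
  neg_mem' {x} hx n hn := by
    rw [HahnSeries.coeff_neg, hx n hn, neg_zero]

theorem C_mem_NonNeg (c : ℂ) : HahnSeries.C c ∈ NonNeg := fun n hn => by
  show (HahnSeries.single 0 c).coeff n = 0
  exact HahnSeries.coeff_single_of_ne hn.ne

variable (p : ℕ) [NeZero p]

theorem qExpand_mem_NonNeg {x : LaurentSeries ℂ} (hx : x ∈ NonNeg) :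
    qExpand ℂ p x ∈ NonNeg := fun n hn => by
  by_cases h : (p : ℤ) ∣ n
  · obtain ⟨m, rfl⟩ := h
    rw [qExpand_coeff_mul]
    refine hx m ?_
    have hp : (0 : ℤ) < p := by exact_mod_cast Nat.pos_of_ne_zero (NeZero.ne p)
    by_contra hm
    rw [not_lt] at hm
    have := mul_nonneg hp.le hm
    omega
  · exact qExpand_coeff_of_not_dvd p _ h

theorem ofPS_mem_NonNeg (g : PowerSeries ℂ) : ofPS g ∈ NonNeg := fun _ hn => ofPS_coeff_neg g hn

theorem conj_mem_NonNeg (i : Option (Fin p)) (g : PowerSeries ℂ) : conj p i g ∈ NonNeg := by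
  cases i with
  | none => exact qExpand_mem_NonNeg p (qExpand_mem_NonNeg p (ofPS_mem_NonNeg g))
  | some b => exact ofPS_mem_NonNeg _

theorem cBase_mem_NonNeg (g : PowerSeries ℂ) : cBase p g ∈ NonNeg :=
  qExpand_mem_NonNeg p (ofPS_mem_NonNeg g)

/-- An element of `ℚ[j(t^p)]` without negative part is a constant. -/
theorem exists_const_of_mem_Bsub_of_mem_NonNeg {x : LaurentSeries ℂ} (hB : x ∈ Bsub p)
    (hN : x ∈ NonNeg) : ∃ c : ℚ, x = algebraMap ℚ (LaurentSeries ℂ) c := by
  obtain ⟨Q, rfl⟩ := hB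
  rcases Nat.eq_zero_or_pos Q.natDegree with h0 | hpos
  · refine ⟨Q.coeff 0, ?_⟩
    rw [Polynomial.eq_C_of_natDegree_eq_zero h0]
    simp
  · exfalso
    have h1 := aeval_jP_coeff p Q le_rfl
    have hneg : -((p : ℤ) * (Q.natDegree : ℤ)) < 0 := by
      have hp : (0 : ℤ) < p := by exact_mod_cast Nat.pos_of_ne_zero (NeZero.ne p)
      have hd : (0 : ℤ) < Q.natDegree := by exact_mod_cast hpos
      have := mul_pos hp hd
      omega
    have h2 : (Polynomial.aeval (jP p) Q).coeff (-((p : ℤ) * (Q.natDegree : ℤ))) = 0 :=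
      hN _ hneg
    rw [h1] at h2
    have h3 : Q.coeff Q.natDegree = 0 := by exact_mod_cast h2
    have h4 : Q = 0 := Polynomial.leadingCoeff_eq_zero.mp h3
    rw [h4] at hpos
    simp at hpos

/-! ### The unit part of the `w i` -/

/-- the unit `∏ (1 - qⁿ)²⁴` over `ℂ` -/
def UC : PowerSeries ℂ := toC dedekindEtaUnit
/-- its inverse -/
def UinvC : PowerSeries ℂ := toC dedekindEtaUnitInv

theorem DC_eq : DC = PowerSeries.X * UC := by
  rw [DC, DZ, map_mul, PowerSeries.map_X, UC]

theorem UC_mul_UinvC : UC * UinvC = 1 := by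
  rw [UC, UinvC, ← map_mul, dedekindEtaUnit_mul_inv, map_one]

theorem delInv_eq : delInv p = HahnSeries.single (-(p : ℤ)) 1 * cBase p UinvC := by
  rw [delInv, deltaInvZ, map_mul, map_mul, coeffMap_single, qExpand_single, kap_ofPS, cBase,
    RingHom.comp_apply, UinvC, map_one, mul_neg, mul_one]

/-- exponent of the monomial part of `w i` -/
def wExp : Option (Fin p) → ℤ
  | none => (p : ℤ) * p - p
  | some _ => 1 - p

/-- leading constant of `conj i X` -/
def wConst : Option (Fin p) → ℂ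
  | none => 1
  | some b => zeta p ^ (b : ℕ)

/-- degree of `conj i X` -/
def xExp : Option (Fin p) → ℤ
  | none => (p : ℤ) * p
  | some _ => 1

theorem conj_X (i : Option (Fin p)) :
    conj p i PowerSeries.X = HahnSeries.C (wConst p i) * HahnSeries.single (xExp p i) 1 := by
  cases i with
  | none =>
    simp only [conj, cInf, cBase, RingHom.comp_apply, wConst, xExp, map_one, one_mul]
    rw [HahnSeries.ofPowerSeries_X, qExpand_single, qExpand_single, mul_one]
  | some b =>
    simp only [conj, cB, RingHom.comp_apply, wConst, xExp]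
    rw [PowerSeries.rescale_X, map_mul, HahnSeries.ofPowerSeries_C, HahnSeries.ofPowerSeries_X]

theorem wExp_eq (i : Option (Fin p)) : wExp p i = xExp p i - p := by
  cases i <;> simp [wExp, xExp]

/-- the power series part of `w i` -/
def wUnit (i : Option (Fin p)) : LaurentSeries ℂ :=
  scal p i * HahnSeries.C (wConst p i) * conj p i UC * cBase p UinvC

theorem w_eq (i : Option (Fin p)) : w p i = HahnSeries.single (wExp p i) 1 * wUnit p i := by
  have h : HahnSeries.single (wExp p i) (1 : ℂ) =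
      HahnSeries.single (xExp p i) 1 * HahnSeries.single (-(p : ℤ)) 1 := by
    rw [HahnSeries.single_mul_single, wExp_eq, mul_one, sub_eq_add_neg]
  rw [w, wUnit, DC_eq, map_mul, conj_X, delInv_eq, h]
  ring

theorem scal_mem_NonNeg (i : Option (Fin p)) : scal p i ∈ NonNeg := by
  cases i with
  | none => exact Subring.pow_mem _ (natCast_mem _ p) 12
  | some b => exact Subring.one_mem _

theorem wUnit_mem_NonNeg (i : Option (Fin p)) : wUnit p i ∈ NonNeg :=
  Subring.mul_mem _ (Subring.mul_mem _ (Subring.mul_mem _ (scal_mem_NonNeg p i)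
    (C_mem_NonNeg _)) (conj_mem_NonNeg p i UC)) (cBase_mem_NonNeg p UinvC)

theorem prod_single {ι : Type*} (s : Finset ι) (e : ι → ℤ) :
    ∏ i ∈ s, HahnSeries.single (e i) (1 : ℂ) = HahnSeries.single (∑ i ∈ s, e i) 1 := by
  classical
  induction s using Finset.induction_on with
  | empty => simp
  | insert a s ha ih =>
    rw [Finset.prod_insert ha, Finset.sum_insert ha, ih, HahnSeries.single_mul_single, mul_one]

theorem sum_wExp : ∑ i, wExp p i = 0 := by
  rw [Fintype.sum_option]
  simp only [wExp, Finset.sum_const, Finset.card_univ, Fintype.card_fin, nsmul_eq_mul]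
  ring

theorem prod_w_mem_NonNeg : ∏ i, w p i ∈ NonNeg := by
  simp only [w_eq]
  rw [Finset.prod_mul_distrib, prod_single, sum_wExp]
  have : HahnSeries.single (0 : ℤ) (1 : ℂ) = 1 := rfl
  rw [this, one_mul]
  exact Subring.prod_mem _ fun i _ => wUnit_mem_NonNeg p i

/-! ### Nonvanishing -/

theorem toC_injective : Function.Injective toC := by
  intro x y h
  ext n
  have := congrArg (fun z => PowerSeries.coeff n z) h
  simpa using this

theorem conj_injective (i : Option (Fin p)) : Function.Injective (conj p i) := by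
  cases i with
  | none =>
    exact (qExpand_injective p).comp ((qExpand_injective p).comp
      HahnSeries.ofPowerSeries_injective)
  | some b =>
    exact HahnSeries.ofPowerSeries_injective.comp
      (PowerSeries.rescale_injective (pow_ne_zero _ (zeta_ne_zero p)))

theorem DZ_ne_zero : DZ ≠ 0 := by
  intro h
  have h1 : DZ.coeff 1 = 1 := by
    rw [DZ, show (1 : ℕ) = 0 + 1 from rfl, PowerSeries.coeff_succ_X_mul,
      PowerSeries.coeff_zero_eq_constantCoeff, constantCoeff_dedekindEtaUnit]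
  rw [h] at h1
  simp at h1

theorem DC_ne_zero : DC ≠ 0 := fun h => DZ_ne_zero (toC_injective (by rw [← DC, h, map_zero]))

theorem delInv_ne_zero : delInv p ≠ 0 := fun h => by
  have := del_mul_delInv p
  rw [h, mul_zero] at this
  exact zero_ne_one this

theorem scal_ne_zero (i : Option (Fin p)) : scal p i ≠ 0 := by
  cases i with
  | none =>
    refine pow_ne_zero _ fun h => ?_
    have h1 := natCast_mul_coeff p 1 0
    rw [mul_one, h, HahnSeries.coeff_zero, HahnSeries.coeff_one, if_pos rfl, mul_one] at h1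
    exact NeZero.ne p (by exact_mod_cast h1.symm)
  | some b => exact one_ne_zero

theorem w_ne_zero (i : Option (Fin p)) : w p i ≠ 0 := by
  rw [w]
  refine mul_ne_zero (mul_ne_zero (scal_ne_zero p i) ?_) (delInv_ne_zero p)
  rw [Ne, map_eq_zero_iff _ (conj_injective p i)]
  exact DC_ne_zero

/-! ### The polynomial `W` -/

/-- `W = ∏ (X - w i)` over `ℂ((t))` -/
def WPoly : Polynomial (LaurentSeries ℂ) := ∏ i, (Polynomial.X - Polynomial.C (w p i))

theorem WPoly_monic : (WPoly p).Monic :=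
  Polynomial.monic_prod_of_monic _ _ fun _ _ => Polynomial.monic_X_sub_C _

theorem WPoly_natDegree : (WPoly p).natDegree = p + 1 := by
  rw [WPoly, Polynomial.natDegree_prod_of_monic _ _ fun i _ => Polynomial.monic_X_sub_C _]
  simp

theorem WPoly_coeff_mem (h : HeckeInput p) (n : ℕ) : (WPoly p).coeff n ∈ Bsub p :=
  prod_X_sub_C_mem_of_psum_mem (Bsub p) (w p) (fun m _ => sum_w_pow_mem p h m) n

theorem WPoly_eval (i : Option (Fin p)) : (WPoly p).eval (w p i) = 0 := by
  rw [WPoly, Polynomial.eval_prod]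
  exact Finset.prod_eq_zero (Finset.mem_univ i) (by simp)

theorem WPoly_coeff_zero : (WPoly p).coeff 0 = ∏ i, (-(w p i)) := by
  rw [Polynomial.coeff_zero_eq_eval_zero, WPoly, Polynomial.eval_prod]
  simp

theorem exists_WPoly_coeff_zero (h : HeckeInput p) :
    ∃ c : ℚ, c ≠ 0 ∧ (WPoly p).coeff 0 = algebraMap ℚ (LaurentSeries ℂ) c := by
  have hN : (WPoly p).coeff 0 ∈ NonNeg := by
    rw [WPoly_coeff_zero]
    have : ∏ i, (-(w p i)) = (∏ _i : Option (Fin p), (-1 : LaurentSeries ℂ)) * ∏ i, w p i := by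
      rw [← Finset.prod_mul_distrib]
      refine Finset.prod_congr rfl fun i _ => ?_
      ring
    rw [this]
    exact Subring.mul_mem _ (Subring.prod_mem _ fun _ _ => Subring.neg_mem _ (Subring.one_mem _))
      (prod_w_mem_NonNeg p)
  obtain ⟨c, hc⟩ := exists_const_of_mem_Bsub_of_mem_NonNeg p (WPoly_coeff_mem p h 0) hN
  refine ⟨c, ?_, hc⟩
  rintro rfl
  rw [map_zero, WPoly_coeff_zero] at hc
  rw [Finset.prod_eq_zero_iff] at hc
  obtain ⟨i, -, hi⟩ := hc
  exact w_ne_zero p i (neg_eq_zero.mp hi)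

end Fermat.Agent.S28.H326

end
end
-- ===== PACK-END S28/H326/Polys.lean

-- ===== PACK-BEGIN S28/H326/Conj.lean
section
/-
S28 / helper326: the conjugates `y i` of `j(t^(p²))`; power sums; lifting to `ℤ[Y][X]`.
-/



set_option autoImplicit false
set_option linter.unusedSectionVars false

noncomputable section

namespace Fermat.Agent.S28.H326

open ModularCurve HahnSeries

variable (p : ℕ) [NeZero p]

/-! ### The conjugates of `j` -/

/-- `j(t^(p²))` and `j(ζ^b t)` -/
def y : Option (Fin p) → LaurentSeries ℂ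
  | none => qExpand ℂ p (jP p)
  | some b => HahnSeries.C ((zeta p ^ (b : ℕ))⁻¹) * HahnSeries.single (-1 : ℤ) 1 *
      cB p b (toC jNum)

theorem jC_mul_ofPS_DC : jqModC ℂ * ofPS DC = ofPS EC := by
  have := congrArg kap jq_mul_deltaZ
  rwa [map_mul, coeffMap_jqModC, deltaZ, kap_ofPS, kap_ofPS] at this

theorem y_mul_conj (i : Option (Fin p)) : y p i * conj p i DC = conj p i EC := by
  cases i with
  | none =>
    simp only [y, conj, cInf, cBase, RingHom.comp_apply, jP]
    rw [← map_mul, ← map_mul, jC_mul_ofPS_DC]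
  | some b =>
    simp only [y, conj]
    have hE : EC = toC jNum * UC := by
      rw [EC, UC, ← map_mul, jNum_mul_unit]
    rw [DC_eq, hE, map_mul, map_mul]
    have hX : cB p b PowerSeries.X =
        HahnSeries.C (zeta p ^ (b : ℕ)) * HahnSeries.single (1 : ℤ) 1 := by
      rw [cB, RingHom.comp_apply, PowerSeries.rescale_X, map_mul, HahnSeries.ofPowerSeries_C,
        HahnSeries.ofPowerSeries_X]
    rw [hX]
    have h1 : HahnSeries.C ((zeta p ^ (b : ℕ))⁻¹) * HahnSeries.C (zeta p ^ (b : ℕ)) =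
        (1 : LaurentSeries ℂ) := by
      rw [← map_mul, inv_mul_cancel₀ (pow_ne_zero _ (zeta_ne_zero p)), map_one]
    have h2 : HahnSeries.single (-1 : ℤ) (1 : ℂ) * HahnSeries.single (1 : ℤ) 1 = 1 := by
      rw [HahnSeries.single_mul_single]
      simp
    calc HahnSeries.C ((zeta p ^ (b : ℕ))⁻¹) * HahnSeries.single (-1 : ℤ) 1 *
          cB p b (toC jNum) * (HahnSeries.C (zeta p ^ (b : ℕ)) * HahnSeries.single (1 : ℤ) 1 *
            cB p b UC)
        = (HahnSeries.C ((zeta p ^ (b : ℕ))⁻¹) * HahnSeries.C (zeta p ^ (b : ℕ))) *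
            (HahnSeries.single (-1 : ℤ) (1 : ℂ) * HahnSeries.single (1 : ℤ) 1) *
            (cB p b (toC jNum) * cB p b UC) := by ring
      _ = _ := by rw [h1, h2, one_mul, one_mul]

theorem y_mul_w (i : Option (Fin p)) : y p i * w p i = Y p i := by
  rw [w, Y, ← y_mul_conj p i]
  ring

/-! ### Power sums of the `y i` -/

/-- polynomials over `ℂ((t))` with coefficients in `ℚ[j(t^p)]` -/
abbrev BPoly : Subsemiring (Polynomial (LaurentSeries ℂ)) :=
  Polynomial.lifts ((Bsub p).val : (Bsub p) →+* LaurentSeries ℂ)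

theorem mem_BPoly_iff (F : Polynomial (LaurentSeries ℂ)) :
    F ∈ BPoly p ↔ ∀ n, F.coeff n ∈ Bsub p := by
  rw [Polynomial.lifts_iff_coeff_lifts]
  constructor
  · intro h n
    obtain ⟨x, hx⟩ := h n
    rw [← hx]
    exact x.2
  · intro h n
    exact ⟨⟨F.coeff n, h n⟩, rfl⟩

theorem sum_Y_pow_mul_eval_mem (h : HeckeInput p) (a : ℕ) {F : Polynomial (LaurentSeries ℂ)}
    (hF : F ∈ BPoly p) : ∑ i, Y p i ^ a * F.eval (w p i) ∈ Bsub p := by
  have h1 : ∀ i, Y p i ^ a * F.eval (w p i) =
      ∑ r ∈ Finset.range (F.natDegree + 1), F.coeff r * (Y p i ^ a * w p i ^ r) := by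
    intro i
    rw [Polynomial.eval_eq_sum_range, Finset.mul_sum]
    exact Finset.sum_congr rfl fun r _ => by ring
  simp only [h1]
  rw [Finset.sum_comm]
  refine Subalgebra.sum_mem _ fun r _ => ?_
  rw [← Finset.mul_sum]
  obtain ⟨P, hP⟩ := sum_Y_pow_mul_w_pow p h a r
  rw [hP]
  exact Subalgebra.mul_mem _ ((mem_BPoly_iff p F).mp hF r) (theta_mem_Bsub p P)

/-- the polynomial `G` with `w i * G(w i) = 1` -/
theorem exists_inv_poly (h : HeckeInput p) :
    ∃ G : Polynomial (LaurentSeries ℂ), G ∈ BPoly p ∧ ∀ i, w p i * G.eval (w p i) = 1 := by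
  obtain ⟨c, hc0, hc⟩ := exists_WPoly_coeff_zero p h
  refine ⟨Polynomial.C (algebraMap ℚ (LaurentSeries ℂ) (-c⁻¹)) * (WPoly p).divX, ?_, ?_⟩
  · rw [mem_BPoly_iff]
    intro n
    rw [Polynomial.coeff_C_mul, Polynomial.coeff_divX]
    exact Subalgebra.mul_mem _ (Subalgebra.algebraMap_mem _ _) (WPoly_coeff_mem p h _)
  · intro i
    have h1 := WPoly_eval p i
    rw [← Polynomial.divX_mul_X_add (WPoly p), Polynomial.eval_add, Polynomial.eval_mul,
      Polynomial.eval_X, Polynomial.eval_C, hc] at h1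
    rw [Polynomial.eval_mul, Polynomial.eval_C]
    have h2 : (WPoly p).divX.eval (w p i) * w p i = -algebraMap ℚ (LaurentSeries ℂ) c :=
      eq_neg_of_add_eq_zero_left h1
    calc w p i * (algebraMap ℚ (LaurentSeries ℂ) (-c⁻¹) * (WPoly p).divX.eval (w p i))
        = algebraMap ℚ (LaurentSeries ℂ) (-c⁻¹) * ((WPoly p).divX.eval (w p i) * w p i) := by ring
      _ = algebraMap ℚ (LaurentSeries ℂ) (-c⁻¹) * (-algebraMap ℚ (LaurentSeries ℂ) c) := by rw [h2]
      _ = algebraMap ℚ (LaurentSeries ℂ) (-c⁻¹ * -c) := by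
        rw [map_mul, map_neg (algebraMap ℚ (LaurentSeries ℂ)) c]
      _ = 1 := by
        rw [neg_mul_neg, inv_mul_cancel₀ hc0, map_one]

theorem sum_y_pow_mem (h : HeckeInput p) (m : ℕ) : ∑ i, y p i ^ m ∈ Bsub p := by
  obtain ⟨G, hG, hGw⟩ := exists_inv_poly p h
  have h1 : ∀ i, y p i ^ m = Y p i ^ m * (G ^ m).eval (w p i) := by
    intro i
    rw [Polynomial.eval_pow, ← mul_pow, ← y_mul_w, mul_assoc, hGw, mul_one]
  simp only [h1]
  exact sum_Y_pow_mul_eval_mem p h m (Subsemiring.pow_mem _ hG m)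

/-! ### The polynomial `Φ` -/

/-- `Φ = ∏ (X - y i)` over `ℂ((t))` -/
def PhiPoly : Polynomial (LaurentSeries ℂ) := ∏ i, (Polynomial.X - Polynomial.C (y p i))

theorem PhiPoly_monic : (PhiPoly p).Monic :=
  Polynomial.monic_prod_of_monic _ _ fun _ _ => Polynomial.monic_X_sub_C _

theorem PhiPoly_natDegree : (PhiPoly p).natDegree = p + 1 := by
  rw [PhiPoly, Polynomial.natDegree_prod_of_monic _ _ fun i _ => Polynomial.monic_X_sub_C _]
  simp

theorem PhiPoly_coeff_mem (h : HeckeInput p) (n : ℕ) : (PhiPoly p).coeff n ∈ Bsub p :=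
  prod_X_sub_C_mem_of_psum_mem (Bsub p) (y p) (fun m _ => sum_y_pow_mem p h m) n

theorem PhiPoly_eval (i : Option (Fin p)) : (PhiPoly p).eval (y p i) = 0 := by
  rw [PhiPoly, Polynomial.eval_prod]
  exact Finset.prod_eq_zero (Finset.mem_univ i) (by simp)

/-! ### Integrality -/

theorem prod_X_sub_C_coeff_mem_subring (S : Subring (LaurentSeries ℂ)) {ι : Type*} [Fintype ι]
    (z : ι → LaurentSeries ℂ) (hz : ∀ i, z i ∈ S) (n : ℕ) :
    (∏ i, (Polynomial.X - Polynomial.C (z i))).coeff n ∈ S := by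
  have : (∏ i, (Polynomial.X - Polynomial.C (z i))) =
      (∏ i, (Polynomial.X - Polynomial.C (⟨z i, hz i⟩ : S))).map S.subtype := by
    rw [Polynomial.map_prod]
    refine Finset.prod_congr rfl fun i _ => ?_
    simp
  rw [this, Polynomial.coeff_map]
  exact Subtype.property _

theorem C_mem_IntCoeff {c : ℂ} (hc : IsIntegral ℤ c) : HahnSeries.C c ∈ IntCoeff := fun n => by
  show IsIntegral ℤ ((HahnSeries.single 0 c).coeff n)
  rcases eq_or_ne n 0 with rfl | hn
  · rw [HahnSeries.coeff_single_same]; exact hc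
  · rw [HahnSeries.coeff_single_of_ne hn]; exact isIntegral_zero

theorem single_one_mem_IntCoeff (e : ℤ) : HahnSeries.single e (1 : ℂ) ∈ IntCoeff := fun n => by
  rcases eq_or_ne n e with rfl | hn
  · rw [HahnSeries.coeff_single_same]; exact isIntegral_one
  · rw [HahnSeries.coeff_single_of_ne hn]; exact isIntegral_zero

theorem conj_mem_IntCoeff (i : Option (Fin p)) (g : PowerSeries ℤ) :
    conj p i (toC g) ∈ IntCoeff := by
  cases i with
  | none =>
    simp only [conj, cInf, cBase, RingHom.comp_apply]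
    rw [← kap_ofPS]
    exact qExpand_mem_IntCoeff p (qExpand_mem_IntCoeff p (kap_mem_IntCoeff _))
  | some b => exact cB_mem_IntCoeff p b g

theorem scal_mem_IntCoeff (i : Option (Fin p)) : scal p i ∈ IntCoeff := by
  cases i with
  | none => exact Subring.pow_mem _ (natCast_mem _ p) 12
  | some b => exact Subring.one_mem _

theorem w_mem_IntCoeff (i : Option (Fin p)) : w p i ∈ IntCoeff :=
  Subring.mul_mem _ (Subring.mul_mem _ (scal_mem_IntCoeff p i) (conj_mem_IntCoeff p i DZ))
    (delInv_mem_IntCoeff p)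

theorem zeta_pow_inv_isIntegral (b : ℕ) : IsIntegral ℤ ((zeta p ^ b)⁻¹) := by
  have h0 : zeta p ^ (p - 1) * zeta p = 1 := by
    rw [← pow_succ, Nat.sub_add_cancel (Nat.pos_of_ne_zero (NeZero.ne p)), zeta_pow_self]
  have h : (zeta p ^ b)⁻¹ = (zeta p ^ (p - 1)) ^ b := by
    rw [← inv_pow]
    congr 1
    exact (eq_inv_of_mul_eq_one_left h0).symm
  rw [h]
  exact ((zeta_isIntegral p).pow _).pow _

theorem y_mem_IntCoeff (i : Option (Fin p)) : y p i ∈ IntCoeff := by
  cases i with
  | none =>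
    simp only [y]
    have := jP_pow_mem_IntCoeff p 1
    rw [pow_one] at this
    exact qExpand_mem_IntCoeff p this
  | some b =>
    simp only [y]
    exact Subring.mul_mem _ (Subring.mul_mem _ (C_mem_IntCoeff (zeta_pow_inv_isIntegral p b))
      (single_one_mem_IntCoeff _)) (cB_mem_IntCoeff p b jNum)

/-! ### Lifting to `ℤ[Y][X]` -/

theorem exists_lift (F : Polynomial (LaurentSeries ℂ)) (hmonic : F.Monic)
    (hB : ∀ n, F.coeff n ∈ Bsub p) (hI : ∀ n, F.coeff n ∈ IntCoeff) :
    ∃ Φ : Polynomial (Polynomial ℤ), Φ.Monic ∧ Φ.natDegree = F.natDegree ∧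
      Φ.map (theta p) = F := by
  have hl : F ∈ Polynomial.lifts (theta p) := by
    rw [Polynomial.lifts_iff_coeff_lifts]
    intro n
    obtain ⟨Q, hQ⟩ := hB n
    have hQ' : Polynomial.aeval (jP p) Q = F.coeff n := hQ
    obtain ⟨Q', hQ''⟩ := exists_int_poly_of_integral p Q (hQ' ▸ hI n)
    exact ⟨Q', by rw [theta_eq_aeval, hQ'', hQ']⟩
  obtain ⟨Φ, h1, h2, h3⟩ := Polynomial.lifts_and_natDegree_eq_and_monic hl hmonic
  exact ⟨Φ, h3, h2, h1⟩

/-- **The unit polynomial over `ℤ[j]`**. -/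
theorem exists_W (h : HeckeInput p) :
    ∃ W : Polynomial (Polynomial ℤ), W.Monic ∧ W.natDegree = p + 1 ∧
      W.map (theta p) = WPoly p := by
  obtain ⟨W, h1, h2, h3⟩ := exists_lift p (WPoly p) (WPoly_monic p) (WPoly_coeff_mem p h)
    (fun n => prod_X_sub_C_coeff_mem_subring IntCoeff _ (w_mem_IntCoeff p) n)
  exact ⟨W, h1, h2.trans (WPoly_natDegree p), h3⟩

/-- **The modular polynomial over `ℤ[j]`**. -/
theorem exists_Phi (h : HeckeInput p) :
    ∃ Φ : Polynomial (Polynomial ℤ), Φ.Monic ∧ Φ.natDegree = p + 1 ∧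
      Φ.map (theta p) = PhiPoly p := by
  obtain ⟨Φ, h1, h2, h3⟩ := exists_lift p (PhiPoly p) (PhiPoly_monic p) (PhiPoly_coeff_mem p h)
    (fun n => prod_X_sub_C_coeff_mem_subring IntCoeff _ (y_mem_IntCoeff p) n)
  exact ⟨Φ, h1, h2.trans (PhiPoly_natDegree p), h3⟩

end Fermat.Agent.S28.H326

end
end
-- ===== PACK-END S28/H326/Conj.lean

-- ===== PACK-BEGIN A2/H48/Qep2Le.lean
section


/-!
# A2 / piece QEP2, part 4 (helper48): the degree hypothesis as an inequality

In `TwoExt` / `GaussPair` the hypothesis `card : f₁ + f₂ = [F : K]` can be weakened to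
`[F : K] ≤ f₁ + f₂` (the other inequality is automatic: the lifts of the two families are
linearly independent).  This is the form in which the modular side supplies it (upper bound for
the degree of the function field in characteristic `0`, lower bounds for the residue degrees in
characteristic `q`).

* `TwoExtLe`, `TwoExtLe.card`, `TwoExtLe.twoExt`;
* `GaussPairLe`, `GaussPairLe.gaussPair`, hence `GaussPairLe.qep2`, `GaussPairLe.reduced`,
  `GaussPairLe.exists_monic_of_mem`.
-/

set_option autoImplicit false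
set_option linter.unusedSectionVars false

namespace Fermat.Agent.A2.H48

open Polynomial

section Main

variable {K F : Type*} [Field K] [Field F] [Algebra K F]

/-- `TwoExt` with the degree hypothesis weakened to an inequality. -/
structure TwoExtLe (O : ValuationSubring K) (V₁ V₂ : ValuationSubring F) (ϖ : K)
    {f₁ f₂ : ℕ} (b : Fin f₁ → F) (c : Fin f₂ → F) : Prop where
  unifO : IsUnif O ϖ
  unif₁ : IsUnif V₁ (algebraMap K F ϖ)
  unif₂ : IsUnif V₂ (algebraMap K F ϖ)
  le₁ : ∀ a ∈ O, algebraMap K F a ∈ V₁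
  le₂ : ∀ a ∈ O, algebraMap K F a ∈ V₂
  ne : V₁ ≠ V₂
  arch : ∀ a : K, ∃ k : ℕ, ϖ ^ k * a ∈ O
  b_mem : ∀ i, b i ∈ V₁
  c_mem : ∀ j, c j ∈ V₂
  b_indep : ∀ a : Fin f₁ → K, (∀ i, a i ∈ O) →
    (∑ i, algebraMap K F (a i) * b i) * (algebraMap K F ϖ)⁻¹ ∈ V₁ → ∀ i, a i * ϖ⁻¹ ∈ O
  c_indep : ∀ a : Fin f₂ → K, (∀ j, a j ∈ O) →
    (∑ j, algebraMap K F (a j) * c j) * (algebraMap K F ϖ)⁻¹ ∈ V₂ → ∀ j, a j * ϖ⁻¹ ∈ O
  le : Module.finrank K F ≤ f₁ + f₂

namespace TwoExtLe

variable {O : ValuationSubring K} {V₁ V₂ : ValuationSubring F} {ϖ : K}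
  {f₁ f₂ : ℕ} {b : Fin f₁ → F} {c : Fin f₂ → F}

theorem exists_good [FiniteDimensional K F] (h : TwoExtLe O V₁ V₂ ϖ b c) :
    ∃ m : Fin f₁ ⊕ Fin f₂ → F, TwoExt.IsGood O V₁ V₂ ϖ m := by
  classical
  set π := algebraMap K F ϖ with hπ
  have hπ0 : π ≠ 0 := h.unif₁.ne_zero
  have hA₁ : ∀ i, ∃ g : F, g ∈ V₁ ∧ (g - b i) * π⁻¹ ∈ V₁ ∧ g * π⁻¹ ∈ V₂ := fun i => by
    obtain ⟨k, hk⟩ := exists_pow_mul_mem h.unifO.mem h.arch V₂ h.le₂
      (Algebra.IsIntegral.isIntegral (R := K) (b i))
    exact exists_approx h.unif₁ h.unif₂ h.ne (h.b_mem i) hk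
  have hA₂ : ∀ j, ∃ g : F, g ∈ V₂ ∧ (g - c j) * π⁻¹ ∈ V₂ ∧ g * π⁻¹ ∈ V₁ := fun j => by
    obtain ⟨k, hk⟩ := exists_pow_mul_mem h.unifO.mem h.arch V₁ h.le₁
      (Algebra.IsIntegral.isIntegral (R := K) (c j))
    exact exists_approx h.unif₂ h.unif₁ (Ne.symm h.ne) (h.c_mem j) hk
  choose g hg1 hg2 hg3 using hA₁
  choose g' hg'1 hg'2 hg'3 using hA₂
  have hgV₂ : ∀ i, g i ∈ V₂ := fun i => by
    have : g i = g i * π⁻¹ * π := by field_simp
    rw [this]; exact mul_mem (hg3 i) h.unif₂.mem
  have hg'V₁ : ∀ j, g' j ∈ V₁ := fun j => by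
    have : g' j = g' j * π⁻¹ * π := by field_simp
    rw [this]; exact mul_mem (hg'3 j) h.unif₁.mem
  refine ⟨Sum.elim g g', ?_, ?_, ?_⟩
  · rintro (i | j)
    · exact hg1 i
    · exact hg'V₁ j
  · rintro (i | j)
    · exact hgV₂ i
    · exact hg'1 j
  · intro a ha hS₁ hS₂
    have hsplit : (∑ l, algebraMap K F (a l) * Sum.elim g g' l) =
        (∑ i, algebraMap K F (a (Sum.inl i)) * g i) +
          ∑ j, algebraMap K F (a (Sum.inr j)) * g' j := by
      rw [Fintype.sum_sum_type]; simp only [Sum.elim_inl, Sum.elim_inr]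
    rw [hsplit] at hS₁ hS₂
    rintro (i | j)
    · refine h.b_indep (fun i => a (Sum.inl i)) (fun i => ha _) ?_ i
      have e1 : (∑ i, algebraMap K F (a (Sum.inl i)) * b i) * π⁻¹ =
          ((∑ i, algebraMap K F (a (Sum.inl i)) * g i) +
            ∑ j, algebraMap K F (a (Sum.inr j)) * g' j) * π⁻¹
          - ∑ i, algebraMap K F (a (Sum.inl i)) * ((g i - b i) * π⁻¹)
          - ∑ j, algebraMap K F (a (Sum.inr j)) * (g' j * π⁻¹) := by
        have hW : ∑ i, algebraMap K F (a (Sum.inl i)) * ((g i - b i) * π⁻¹) =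
            (∑ i, algebraMap K F (a (Sum.inl i)) * g i) * π⁻¹ -
              (∑ i, algebraMap K F (a (Sum.inl i)) * b i) * π⁻¹ := by
          rw [Finset.sum_mul, Finset.sum_mul, ← Finset.sum_sub_distrib]
          exact Finset.sum_congr rfl fun i _ => by ring
        have hZ : ∑ j, algebraMap K F (a (Sum.inr j)) * (g' j * π⁻¹) =
            (∑ j, algebraMap K F (a (Sum.inr j)) * g' j) * π⁻¹ := by
          rw [Finset.sum_mul]
          exact Finset.sum_congr rfl fun j _ => by ring
        rw [hW, hZ]; ring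
      rw [e1]
      refine sub_mem (sub_mem hS₁ (sum_mem fun i _ => mul_mem (h.le₁ _ (ha _)) (hg2 i)))
        (sum_mem fun j _ => mul_mem (h.le₁ _ (ha _)) (hg'3 j))
    · refine h.c_indep (fun j => a (Sum.inr j)) (fun j => ha _) ?_ j
      have e1 : (∑ j, algebraMap K F (a (Sum.inr j)) * c j) * π⁻¹ =
          ((∑ i, algebraMap K F (a (Sum.inl i)) * g i) +
            ∑ j, algebraMap K F (a (Sum.inr j)) * g' j) * π⁻¹
          - ∑ j, algebraMap K F (a (Sum.inr j)) * ((g' j - c j) * π⁻¹)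
          - ∑ i, algebraMap K F (a (Sum.inl i)) * (g i * π⁻¹) := by
        have hW : ∑ j, algebraMap K F (a (Sum.inr j)) * ((g' j - c j) * π⁻¹) =
            (∑ j, algebraMap K F (a (Sum.inr j)) * g' j) * π⁻¹ -
              (∑ j, algebraMap K F (a (Sum.inr j)) * c j) * π⁻¹ := by
          rw [Finset.sum_mul, Finset.sum_mul, ← Finset.sum_sub_distrib]
          exact Finset.sum_congr rfl fun j _ => by ring
        have hZ : ∑ i, algebraMap K F (a (Sum.inl i)) * (g i * π⁻¹) =
            (∑ i, algebraMap K F (a (Sum.inl i)) * g i) * π⁻¹ := by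
          rw [Finset.sum_mul]
          exact Finset.sum_congr rfl fun i _ => by ring
        rw [hW, hZ]; ring
      rw [e1]
      refine sub_mem (sub_mem hS₂ (sum_mem fun j _ => mul_mem (h.le₂ _ (ha _)) (hg'2 j)))
        (sum_mem fun i _ => mul_mem (h.le₂ _ (ha _)) (hg3 i))

/-- The fundamental inequality is an equality. -/
theorem card [FiniteDimensional K F] (h : TwoExtLe O V₁ V₂ ϖ b c) :
    f₁ + f₂ = Module.finrank K F := by
  obtain ⟨m, hm⟩ := h.exists_good
  have hli := TwoExt.IsGood.linearIndependent h.unifO hm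
  have h1 := hli.fintype_card_le_finrank
  rw [Fintype.card_sum, Fintype.card_fin, Fintype.card_fin] at h1
  exact le_antisymm h1 h.le

theorem twoExt [FiniteDimensional K F] (h : TwoExtLe O V₁ V₂ ϖ b c) :
    TwoExt O V₁ V₂ ϖ b c where
  unifO := h.unifO
  unif₁ := h.unif₁
  unif₂ := h.unif₂
  le₁ := h.le₁
  le₂ := h.le₂
  ne := h.ne
  arch := h.arch
  b_mem := h.b_mem
  c_mem := h.c_mem
  b_indep := h.b_indep
  c_indep := h.c_indep
  card := h.card

end TwoExtLe

end Main

section Gauss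

variable {R : Type*} [CommRing R] [IsDomain R] [UniqueFactorizationMonoid R]
variable {K F : Type*} [Field K] [Field F] [Algebra R[X] K] [IsFractionRing R[X] K]
  [Algebra K F] [Algebra R[X] F] [IsScalarTower R[X] K F]

/-- `GaussPair` with the degree hypothesis weakened to an inequality. -/
structure GaussPairLe (ϖ : R) (V₁ V₂ : ValuationSubring F)
    {f₁ f₂ : ℕ} (b : Fin f₁ → F) (c : Fin f₂ → F) : Prop where
  prime : Prime ϖ
  unif₁ : IsUnif V₁ (algebraMap R[X] F (C ϖ))
  unif₂ : IsUnif V₂ (algebraMap R[X] F (C ϖ))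
  poly₁ : ∀ P : R[X], algebraMap R[X] F P ∈ V₁
  poly₂ : ∀ P : R[X], algebraMap R[X] F P ∈ V₂
  gauss₁ : ∀ P : R[X], ¬ C ϖ ∣ P → (algebraMap R[X] F P)⁻¹ ∈ V₁
  gauss₂ : ∀ P : R[X], ¬ C ϖ ∣ P → (algebraMap R[X] F P)⁻¹ ∈ V₂
  ne : V₁ ≠ V₂
  b_mem : ∀ i, b i ∈ V₁
  c_mem : ∀ j, c j ∈ V₂
  b_indep : ∀ a : Fin f₁ → R[X],
    (∑ i, algebraMap R[X] F (a i) * b i) * (algebraMap R[X] F (C ϖ))⁻¹ ∈ V₁ → ∀ i, C ϖ ∣ a i
  c_indep : ∀ a : Fin f₂ → R[X],
    (∑ j, algebraMap R[X] F (a j) * c j) * (algebraMap R[X] F (C ϖ))⁻¹ ∈ V₂ → ∀ j, C ϖ ∣ a j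
  le : Module.finrank K F ≤ f₁ + f₂

namespace GaussPairLe

variable {ϖ : R} {V₁ V₂ : ValuationSubring F} {f₁ f₂ : ℕ} {b : Fin f₁ → F} {c : Fin f₂ → F}

theorem gaussRing_eq (h : GaussPairLe (K := K) ϖ V₁ V₂ b c) :
    gaussRing K V₁ = gaussRing K V₂ := by
  apply le_antisymm
  · intro a ha
    obtain ⟨P, Q, hQ, rfl⟩ := exists_div_of_mem_gaussRing h.prime h.unif₁ h.poly₁ h.gauss₁ ha
    exact div_mem_gaussRing h.poly₂ h.gauss₂ P hQ
  · intro a ha
    obtain ⟨P, Q, hQ, rfl⟩ := exists_div_of_mem_gaussRing h.prime h.unif₂ h.poly₂ h.gauss₂ ha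
    exact div_mem_gaussRing h.poly₁ h.gauss₁ P hQ

theorem twoExtLe (h : GaussPairLe (K := K) ϖ V₁ V₂ b c) :
    TwoExtLe (gaussRing K V₁) V₁ V₂ (algebraMap R[X] K (C ϖ)) b c where
  unifO := isUnif_gaussRing h.unif₁
  unif₁ := by rw [map_eq]; exact h.unif₁
  unif₂ := by rw [map_eq]; exact h.unif₂
  le₁ := fun a ha => mem_gaussRing.1 ha
  le₂ := fun a ha => mem_gaussRing.1 (h.gaussRing_eq ▸ ha)
  ne := h.ne
  arch := arch_gaussRing h.prime h.poly₁ h.gauss₁
  b_mem := h.b_mem
  c_mem := h.c_mem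
  b_indep := fun a ha hsum i =>
    indep_gaussRing h.prime h.unif₁ h.poly₁ h.gauss₁ h.b_indep a ha hsum i
  c_indep := fun a ha hsum j => by
    rw [h.gaussRing_eq]
    exact indep_gaussRing h.prime h.unif₂ h.poly₂ h.gauss₂ h.c_indep a
      (fun j => h.gaussRing_eq ▸ ha j) hsum j
  le := h.le

/-- The fundamental inequality is an equality: `[F : K] = f₁ + f₂`. -/
theorem card [FiniteDimensional K F] (h : GaussPairLe (K := K) ϖ V₁ V₂ b c) :
    f₁ + f₂ = Module.finrank K F := h.twoExtLe.card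

theorem gaussPair [FiniteDimensional K F] (h : GaussPairLe (K := K) ϖ V₁ V₂ b c) :
    GaussPair (K := K) ϖ V₁ V₂ b c where
  prime := h.prime
  unif₁ := h.unif₁
  unif₂ := h.unif₂
  poly₁ := h.poly₁
  poly₂ := h.poly₂
  gauss₁ := h.gauss₁
  gauss₂ := h.gauss₂
  ne := h.ne
  b_mem := h.b_mem
  c_mem := h.c_mem
  b_indep := h.b_indep
  c_indep := h.c_indep
  card := h.card

/-- **`q`-expansion principle for the two-component model** (inequality form). -/
theorem qep2 [FiniteDimensional K F] (h : GaussPairLe (K := K) ϖ V₁ V₂ b c) {u : F}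
    (hu : IsIntegral R[X] u)
    (h₁ : u * (algebraMap R[X] F (C ϖ))⁻¹ ∈ V₁) (h₂ : u * (algebraMap R[X] F (C ϖ))⁻¹ ∈ V₂) :
    IsIntegral R[X] (u * (algebraMap R[X] F (C ϖ))⁻¹) :=
  h.gaussPair.qep2 hu h₁ h₂

/-- The special fibre is reduced (inequality form). -/
theorem reduced [FiniteDimensional K F] (h : GaussPairLe (K := K) ϖ V₁ V₂ b c) {u : F}
    (hu : IsIntegral R[X] u) {k : ℕ}
    (h₁ : u ^ k * (algebraMap R[X] F (C ϖ))⁻¹ ∈ V₁)
    (h₂ : u ^ k * (algebraMap R[X] F (C ϖ))⁻¹ ∈ V₂) :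
    IsIntegral R[X] (u * (algebraMap R[X] F (C ϖ))⁻¹) :=
  h.gaussPair.reduced hu h₁ h₂

/-- No third extension (inequality form). -/
theorem exists_monic_of_mem [FiniteDimensional K F] (h : GaussPairLe (K := K) ϖ V₁ V₂ b c)
    {u : F} (hu₁ : u ∈ V₁) (hu₂ : u ∈ V₂) :
    ∃ p : K[X], p.Monic ∧ (∀ i, p.coeff i ∈ gaussRing K V₁) ∧ aeval u p = 0 :=
  h.gaussPair.exists_monic_of_mem hu₁ hu₂

end GaussPairLe

end Gauss

end Fermat.Agent.A2.H48

end
-- ===== PACK-END A2/H48/Qep2Le.lean

-- ===== PACK-BEGIN A2/H489/ChartA.lean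
section


/-!
# A2 / MODASM step S1-abs (helper489): the two components of a chart

Setting of `H48.GaussPairLe` (helper48): `R` a factorial domain (application: the discrete
valuation ring `P ∩ E`), `ϖ ∈ R` prime, `K = Frac R[X]`, `F / K` finite, `V₁ ≠ V₂` valuation
subrings of `F` inducing the Gauss valuation on `K`, with residue-independent families of total
size `≥ [F : K]`.  In addition `F` is an `R`-algebra compatibly with `R → R[X] → F`, and
`x := algebraMap R[X] F X` is the coordinate.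

For the chart `B` = integral closure of `R[x]` in `F` (any `Subalgebra R F` with
`f ∈ B ↔ IsIntegral (Algebra.adjoin R {x}) f`):

* `isIntegral_adjoin_iff` : integrality over `Algebra.adjoin R {x}` = integrality over `R[X]`;
* `compIdeal B V hBV` : the ideal `B ∩ 𝔪_V` (`mem_compIdeal`), prime (`compIdeal_isPrime`);
* `GaussPairLe.exists_mem_not_mem` : some element of the chart lies in `𝔪_{V₁}` and is a unit of
  `V₂`;
* `GaussPairLe.compIdeal_inf` : `(B ∩ 𝔪_{V₁}) ⊓ (B ∩ 𝔪_{V₂}) = ϖ B`  (`SSChart.inf_eq`);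
* `GaussPairLe.exists_components` : the fields `p₁ p₂ prime₁ prime₂ ne not_le₁₂ not_le₂₁ inf_eq`
  of `Fermat.Agent.A2.SSChart` (Spec v2), with `p_i` characterised by `b ∈ p_i ↔ b ∈ 𝔪_{V_i}`.
-/

set_option autoImplicit false
set_option linter.style.haveILetI false
set_option linter.unusedSectionVars false

namespace Fermat.Agent.A2.H489

open Polynomial
open Fermat.Agent.A2.H48

section Integral

variable {R F : Type*} [CommRing R] [Field F] [Algebra R[X] F] [Algebra R F]
  [IsScalarTower R R[X] F]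

/-- `R[X] → F` is evaluation at the coordinate `x = algebraMap R[X] F X`. -/
theorem aeval_coord_eq_algebraMap (P : R[X]) :
    aeval (algebraMap R[X] F X) P = algebraMap R[X] F P := by
  have h : (aeval (algebraMap R[X] F X) : R[X] →ₐ[R] F) = IsScalarTower.toAlgHom R R[X] F := by
    apply Polynomial.algHom_ext
    simp
  exact DFunLike.congr_fun h P

/-- the constants: `algebraMap R F r = algebraMap R[X] F (C r)` -/
theorem algebraMap_const_eq (r : R) : algebraMap R F r = algebraMap R[X] F (C r) := by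
  rw [IsScalarTower.algebraMap_apply R R[X] F]
  rfl

/-- Integrality over the subalgebra `R[x] ⊆ F` is integrality over the polynomial ring. -/
theorem isIntegral_adjoin_iff (f : F) :
    IsIntegral (Algebra.adjoin R ({algebraMap R[X] F X} : Set F)) f ↔ IsIntegral R[X] f := by
  have hmem : ∀ P : R[X], algebraMap R[X] F P ∈
      Algebra.adjoin R ({algebraMap R[X] F X} : Set F) := by
    intro P
    have h1 := Polynomial.aeval_mem_adjoin_singleton (p := P) R (algebraMap R[X] F X)
    rwa [aeval_coord_eq_algebraMap] at h1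
  let φ : R[X] →+* Algebra.adjoin R ({algebraMap R[X] F X} : Set F) :=
    (algebraMap R[X] F).codRestrict _ hmem
  have hsurj : Function.Surjective φ := by
    rintro ⟨y, hy⟩
    rw [Algebra.adjoin_singleton_eq_range_aeval] at hy
    obtain ⟨P, hP⟩ := hy
    refine ⟨P, Subtype.ext ?_⟩
    show algebraMap R[X] F P = y
    rw [← hP]
    exact (aeval_coord_eq_algebraMap P).symm
  letI : Algebra R[X] (Algebra.adjoin R ({algebraMap R[X] F X} : Set F)) := φ.toAlgebra
  haveI : IsScalarTower R[X] (Algebra.adjoin R ({algebraMap R[X] F X} : Set F)) F :=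
    IsScalarTower.of_algebraMap_eq (fun _ => rfl)
  constructor
  · intro hf
    haveI : Algebra.IsIntegral R[X] (Algebra.adjoin R ({algebraMap R[X] F X} : Set F)) :=
      ⟨fun y => RingHom.isIntegral_of_surjective φ hsurj y⟩
    exact isIntegral_trans f hf
  · exact fun hf => hf.tower_top

end Integral

section Comp

variable {R F : Type*} [CommRing R] [Field F] [Algebra R F]

theorem nonunits_add_mem {V : ValuationSubring F} {a b : F} (ha : a ∈ V.nonunits)
    (hb : b ∈ V.nonunits) : a + b ∈ V.nonunits := by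
  rw [ValuationSubring.mem_nonunits_iff] at ha hb ⊢
  exact lt_of_le_of_lt (Valuation.map_add _ _ _) (max_lt ha hb)

theorem mem_mul_nonunits {V : ValuationSubring F} {a b : F} (ha : a ∈ V)
    (hb : b ∈ V.nonunits) : a * b ∈ V.nonunits := by
  rw [ValuationSubring.mem_nonunits_iff] at hb ⊢
  rw [map_mul]
  exact Right.mul_lt_one_of_le_of_lt ((ValuationSubring.valuation_le_one_iff V a).mpr ha) hb

/-- The component `B ∩ 𝔪_V` of the chart `B ⊆ V`. -/
def compIdeal (B : Subalgebra R F) (V : ValuationSubring F) (hBV : ∀ b : B, (b : F) ∈ V) :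
    Ideal B where
  carrier := {b | (b : F) ∈ V.nonunits}
  add_mem' := fun {a b} ha hb => by
    show ((a + b : B) : F) ∈ V.nonunits
    rw [Subalgebra.coe_add]
    exact nonunits_add_mem ha hb
  zero_mem' := by
    show ((0 : B) : F) ∈ V.nonunits
    rw [Subalgebra.coe_zero, ValuationSubring.mem_nonunits_iff, map_zero]
    exact zero_lt_one
  smul_mem' := fun c b hb => by
    show ((c • b : B) : F) ∈ V.nonunits
    rw [smul_eq_mul, Subalgebra.coe_mul]
    exact mem_mul_nonunits (hBV c) hb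

theorem mem_compIdeal {B : Subalgebra R F} {V : ValuationSubring F}
    {hBV : ∀ b : B, (b : F) ∈ V} {b : B} :
    b ∈ compIdeal B V hBV ↔ (b : F) ∈ V.nonunits := Iff.rfl

theorem compIdeal_isPrime (B : Subalgebra R F) (V : ValuationSubring F)
    (hBV : ∀ b : B, (b : F) ∈ V) : (compIdeal B V hBV).IsPrime := by
  rw [Ideal.isPrime_iff]
  constructor
  · intro h
    have h1 : (1 : B) ∈ compIdeal B V hBV := by rw [h]; exact Submodule.mem_top
    rw [mem_compIdeal, Subalgebra.coe_one, ValuationSubring.mem_nonunits_iff, map_one] at h1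
    exact lt_irrefl _ h1
  · intro a b hab
    rw [mem_compIdeal, Subalgebra.coe_mul, ValuationSubring.mem_nonunits_iff, map_mul] at hab
    rw [mem_compIdeal, mem_compIdeal, ValuationSubring.mem_nonunits_iff,
      ValuationSubring.mem_nonunits_iff]
    by_contra hcon
    push Not at hcon
    obtain ⟨h1, h2⟩ := hcon
    have ha := (ValuationSubring.valuation_le_one_iff V _).mpr (hBV a)
    have hb := (ValuationSubring.valuation_le_one_iff V _).mpr (hBV b)
    rw [le_antisymm ha h1, le_antisymm hb h2, one_mul] at hab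
    exact lt_irrefl _ hab

end Comp

section Main

variable {R : Type*} [CommRing R] [IsDomain R] [UniqueFactorizationMonoid R]
variable {K F : Type*} [Field K] [Field F] [Algebra R[X] K] [IsFractionRing R[X] K]
  [Algebra K F] [Algebra R[X] F] [IsScalarTower R[X] K F]
variable {ϖ : R} {V₁ V₂ : ValuationSubring F} {f₁ f₂ : ℕ} {b : Fin f₁ → F} {c : Fin f₂ → F}

theorem gaussPairLe_symm (h : GaussPairLe (K := K) ϖ V₁ V₂ b c) :
    GaussPairLe (K := K) ϖ V₂ V₁ c b where
  prime := h.prime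
  unif₁ := h.unif₂
  unif₂ := h.unif₁
  poly₁ := h.poly₂
  poly₂ := h.poly₁
  gauss₁ := h.gauss₂
  gauss₂ := h.gauss₁
  ne := h.ne.symm
  b_mem := h.c_mem
  c_mem := h.b_mem
  b_indep := h.c_indep
  c_indep := h.b_indep
  le := by have := h.le; omega

/-- the chart lies in `V₁` -/
theorem gaussPairLe_mem_of_isIntegral (h : GaussPairLe (K := K) ϖ V₁ V₂ b c) {f : F}
    (hf : IsIntegral R[X] f) : f ∈ V₁ := by
  obtain ⟨p, hp, hpf⟩ := hf
  refine mem_of_monic_root V₁ (p := p.map (algebraMap R[X] F)) (hp.map _)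
    (fun i => by rw [coeff_map]; exact h.poly₁ _) ?_
  rw [eval_map]
  exact hpf

/-- a polynomial prime to `ϖ` is a unit of `V₁` -/
theorem gaussPairLe_valuation_eq_one (h : GaussPairLe (K := K) ϖ V₁ V₂ b c) {T : R[X]}
    (hT : ¬ C ϖ ∣ T) : V₁.valuation (algebraMap R[X] F T) = 1 := by
  have h1 := (ValuationSubring.valuation_le_one_iff V₁ _).mpr (h.poly₁ T)
  have h2 := (ValuationSubring.valuation_le_one_iff V₁ _).mpr (h.gauss₁ T hT)
  rw [map_inv₀] at h2
  have hT0 : algebraMap R[X] F T ≠ 0 := by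
    intro h0
    have hinj : Function.Injective (algebraMap R[X] F) := by
      rw [IsScalarTower.algebraMap_eq R[X] K F]
      exact (algebraMap K F).injective.comp (IsFractionRing.injective R[X] K)
    have hT' : T = 0 := hinj (by rw [h0, map_zero])
    apply hT
    rw [hT']
    exact dvd_zero _
  have hv0 : V₁.valuation (algebraMap R[X] F T) ≠ 0 := (Valuation.ne_zero_iff _).mpr hT0
  exact le_antisymm h1 ((inv_le_one₀ (zero_lt_iff.mpr hv0)).mp h2)

/-- **clearing denominators**: an element of `V₁ ∩ V₂` becomes integral over `R[X]` after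
multiplication by a polynomial prime to `ϖ`. -/
theorem gaussPairLe_exists_scale [FiniteDimensional K F]
    (h : GaussPairLe (K := K) ϖ V₁ V₂ b c) {u : F} (hu₁ : u ∈ V₁) (hu₂ : u ∈ V₂) :
    ∃ T : R[X], ¬ C ϖ ∣ T ∧ IsIntegral R[X] (algebraMap R[X] F T * u) := by
  classical
  obtain ⟨p, hp, hpc, hpu⟩ := h.exists_monic_of_mem hu₁ hu₂
  have hex : ∀ i, ∃ P Q : R[X], ¬ C ϖ ∣ Q ∧
      p.coeff i = algebraMap R[X] K P / algebraMap R[X] K Q :=
    fun i => exists_div_of_mem_gaussRing h.prime h.unif₁ h.poly₁ h.gauss₁ (hpc i)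
  choose P Q hQ hPQ using hex
  set n := p.natDegree with hn
  set T : R[X] := ∏ i ∈ Finset.range n, Q i with hTdef
  have hT : ¬ C ϖ ∣ T := by
    intro hdvd
    obtain ⟨i, -, hi⟩ := (Prime.dvd_finsetProd_iff (prime_C h.prime) _).mp hdvd
    exact hQ i hi
  refine ⟨T, hT, ?_⟩
  set tK := algebraMap R[X] K T with htK
  have hroot : aeval (algebraMap K F tK * u) (p.scaleRoots tK) = 0 :=
    scaleRoots_aeval_eq_zero hpu
  have hmonic : (p.scaleRoots tK).Monic := (monic_scaleRoots_iff _).mpr hp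
  have hcoef : ∀ i, (p.scaleRoots tK).coeff i ∈ Set.range (algebraMap R[X] K) := by
    intro i
    rw [coeff_scaleRoots, ← hn]
    rcases lt_trichotomy i n with hi | hi | hi
    · have hQi0 : algebraMap R[X] K (Q i) ≠ 0 := by
        intro h0
        have : Q i = 0 := (IsFractionRing.injective R[X] K) (by rw [h0, map_zero])
        apply hQ i
        rw [this]
        exact dvd_zero _
      refine ⟨P i * (∏ j ∈ (Finset.range n).erase i, Q j) * T ^ (n - i - 1), ?_⟩
      have hTe : T = Q i * ∏ j ∈ (Finset.range n).erase i, Q j :=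
        (Finset.mul_prod_erase _ _ (Finset.mem_range.mpr hi)).symm
      have hpow : n - i = (n - i - 1) + 1 := by omega
      rw [hPQ i]
      conv_rhs => rw [hpow, pow_succ]
      have htK' : tK = algebraMap R[X] K (Q i) *
          algebraMap R[X] K (∏ j ∈ (Finset.range n).erase i, Q j) := by
        rw [htK, ← map_mul, ← hTe]
      rw [map_mul, map_mul, map_pow, ← htK]
      conv_rhs => rw [mul_comm (tK ^ (n - i - 1)) tK, ← mul_assoc]
      congr 1
      rw [htK']
      field_simp
    · subst hi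
      rw [hn, hp.coeff_natDegree, Nat.sub_self, pow_zero, mul_one]
      exact ⟨1, map_one _⟩
    · rw [coeff_eq_zero_of_natDegree_lt (by rw [← hn]; exact hi), zero_mul]
      exact ⟨0, map_zero _⟩
  obtain ⟨q, hq, -, hqm⟩ :=
    lifts_and_natDegree_eq_and_monic ((lifts_iff_coeff_lifts _).2 hcoef) hmonic
  refine ⟨q, hqm, ?_⟩
  have e : eval₂ (algebraMap R[X] F) (algebraMap R[X] F T * u) q =
      aeval (algebraMap R[X] F T * u) (q.map (algebraMap R[X] K)) := by
    rw [aeval_def, eval₂_map, ← IsScalarTower.algebraMap_eq]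
  rw [e, hq, ← map_eq (K := K)]
  exact hroot

/-- some element of the chart lies in `𝔪_{V₁}` and is a unit of `V₂` -/
theorem gaussPairLe_exists_mem_not_mem [FiniteDimensional K F]
    (h : GaussPairLe (K := K) ϖ V₁ V₂ b c) :
    ∃ g : F, IsIntegral R[X] g ∧ g ∈ V₁.nonunits ∧ g ∉ V₂.nonunits := by
  obtain ⟨c₀, hc0, hc1, hc2⟩ := exists_separating h.unif₁ h.unif₂ h.ne
  have hu1 : V₁.valuation (1 + c₀) = 1 := Valuation.map_one_add_of_lt _ hc1
  have h1c : 1 + c₀ ≠ 0 := by
    intro h0
    rw [h0, map_zero] at hu1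
    exact zero_ne_one hu1
  have hv1 : V₁.valuation (c₀ * (1 + c₀)⁻¹) < 1 := by
    rw [map_mul, map_inv₀, hu1, inv_one, mul_one]
    exact hc1
  have hu_eq : c₀ * (1 + c₀)⁻¹ = (1 + c₀⁻¹)⁻¹ := by
    have h2 : 1 + c₀⁻¹ = (1 + c₀) * c₀⁻¹ := by
      rw [add_mul, one_mul, mul_inv_cancel₀ hc0, add_comm]
    rw [h2, mul_inv, inv_inv, mul_comm]
  have hv2' : V₂.valuation (1 + c₀⁻¹) = 1 := Valuation.map_one_add_of_lt _ hc2
  have hv2 : V₂.valuation (c₀ * (1 + c₀)⁻¹) = 1 := by
    rw [hu_eq, map_inv₀, hv2', inv_one]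
  have hu₁ : c₀ * (1 + c₀)⁻¹ ∈ V₁ := (ValuationSubring.valuation_le_one_iff V₁ _).mp hv1.le
  have hu₂ : c₀ * (1 + c₀)⁻¹ ∈ V₂ := (ValuationSubring.valuation_le_one_iff V₂ _).mp hv2.le
  obtain ⟨T, hT, hint⟩ := gaussPairLe_exists_scale h hu₁ hu₂
  refine ⟨algebraMap R[X] F T * (c₀ * (1 + c₀)⁻¹), hint, ?_, ?_⟩
  · exact mem_mul_nonunits (h.poly₁ T) ((ValuationSubring.mem_nonunits_iff V₁).mpr hv1)
  · intro hmem
    rw [ValuationSubring.mem_nonunits_iff, map_mul, hv2, mul_one,
      gaussPairLe_valuation_eq_one (gaussPairLe_symm h) hT] at hmem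
    exact lt_irrefl _ hmem

variable [Algebra R F] [IsScalarTower R R[X] F]

/-- **`SSChart.inf_eq`**: `(B ∩ 𝔪_{V₁}) ⊓ (B ∩ 𝔪_{V₂}) = ϖ B`. -/
theorem gaussPairLe_compIdeal_inf [FiniteDimensional K F]
    (h : GaussPairLe (K := K) ϖ V₁ V₂ b c) (B : Subalgebra R F)
    (hB : ∀ f : F, f ∈ B ↔ IsIntegral R[X] f)
    (hBV₁ : ∀ b : B, (b : F) ∈ V₁) (hBV₂ : ∀ b : B, (b : F) ∈ V₂) :
    compIdeal B V₁ hBV₁ ⊓ compIdeal B V₂ hBV₂ = Ideal.span {algebraMap R B ϖ} := by
  have hϖF : ((algebraMap R B ϖ : B) : F) = algebraMap R[X] F (C ϖ) :=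
    algebraMap_const_eq ϖ
  have hϖ0 : algebraMap R[X] F (C ϖ) ≠ 0 := h.unif₁.ne_zero
  apply le_antisymm
  · intro y hy
    obtain ⟨hy₁, hy₂⟩ := hy
    rw [SetLike.mem_coe, mem_compIdeal, ValuationSubring.mem_nonunits_iff,
      ← h.unif₁.mul_inv_mem_iff] at hy₁
    rw [SetLike.mem_coe, mem_compIdeal, ValuationSubring.mem_nonunits_iff,
      ← h.unif₂.mul_inv_mem_iff] at hy₂
    have hint := h.qep2 ((hB _).mp y.2) hy₁ hy₂
    rw [Ideal.mem_span_singleton']
    refine ⟨⟨_, (hB _).mpr hint⟩, Subtype.ext ?_⟩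
    rw [Subalgebra.coe_mul, hϖF]
    show (y : F) * (algebraMap R[X] F (C ϖ))⁻¹ * algebraMap R[X] F (C ϖ) = y
    rw [mul_assoc, inv_mul_cancel₀ hϖ0, mul_one]
  · rw [Ideal.span_le, Set.singleton_subset_iff]
    constructor
    · rw [SetLike.mem_coe, mem_compIdeal, hϖF, ValuationSubring.mem_nonunits_iff]
      exact h.unif₁.val_lt_one
    · rw [SetLike.mem_coe, mem_compIdeal, hϖF, ValuationSubring.mem_nonunits_iff]
      exact h.unif₂.val_lt_one

/-- **MODASM S1-abs.**  The fields `p₁ p₂ prime₁ prime₂ ne not_le₁₂ not_le₂₁ inf_eq` of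
`SSChart ϖ B` for the chart `B` = integral closure of `R[x]`, `x = algebraMap R[X] F X`, with the
components characterised by the two valuations. -/
theorem gaussPairLe_exists_components [FiniteDimensional K F]
    (h : GaussPairLe (K := K) ϖ V₁ V₂ b c) (B : Subalgebra R F)
    (hB : ∀ f : F, f ∈ B ↔
      IsIntegral (Algebra.adjoin R ({algebraMap R[X] F X} : Set F)) f) :
    ∃ p₁ p₂ : Ideal B,
      (∀ y : B, y ∈ p₁ ↔ (y : F) ∈ V₁.nonunits) ∧ (∀ y : B, y ∈ p₂ ↔ (y : F) ∈ V₂.nonunits) ∧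
      p₁.IsPrime ∧ p₂.IsPrime ∧ p₁ ≠ p₂ ∧ ¬ p₁ ≤ p₂ ∧ ¬ p₂ ≤ p₁ ∧
      p₁ ⊓ p₂ = Ideal.span {algebraMap R B ϖ} := by
  have hB' : ∀ f : F, f ∈ B ↔ IsIntegral R[X] f := fun f =>
    (hB f).trans (isIntegral_adjoin_iff f)
  have hBV₁ : ∀ y : B, (y : F) ∈ V₁ := fun y =>
    gaussPairLe_mem_of_isIntegral h ((hB' _).mp y.2)
  have hBV₂ : ∀ y : B, (y : F) ∈ V₂ := fun y =>
    gaussPairLe_mem_of_isIntegral (gaussPairLe_symm h) ((hB' _).mp y.2)
  have h12 : ¬ compIdeal B V₁ hBV₁ ≤ compIdeal B V₂ hBV₂ := by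
    intro hle
    obtain ⟨g, hg, hg₁, hg₂⟩ := gaussPairLe_exists_mem_not_mem h
    exact hg₂ (hle (show (⟨g, (hB' g).mpr hg⟩ : B) ∈ compIdeal B V₁ hBV₁ from hg₁))
  have h21 : ¬ compIdeal B V₂ hBV₂ ≤ compIdeal B V₁ hBV₁ := by
    intro hle
    obtain ⟨g, hg, hg₁, hg₂⟩ := gaussPairLe_exists_mem_not_mem (gaussPairLe_symm h)
    exact hg₂ (hle (show (⟨g, (hB' g).mpr hg⟩ : B) ∈ compIdeal B V₂ hBV₂ from hg₁))
  refine ⟨compIdeal B V₁ hBV₁, compIdeal B V₂ hBV₂, fun _ => Iff.rfl, fun _ => Iff.rfl,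
    compIdeal_isPrime B V₁ hBV₁, compIdeal_isPrime B V₂ hBV₂, ?_, h12, h21,
    gaussPairLe_compIdeal_inf h B hB' hBV₁ hBV₂⟩
  intro heq
  exact h12 (le_of_eq heq)

end Main

end Fermat.Agent.A2.H489

end
-- ===== PACK-END A2/H489/ChartA.lean

-- ===== PACK-BEGIN S18/B12/H33/CoreAux.lean
section



/-!
# S18 b2.5 (helper33): auxiliary lemmas for the assembly of `B2CoreAbsStatement`
-/

set_option autoImplicit false

noncomputable section

namespace Fermat.Agent.S18.B12.H33

open Polynomial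

universe u v

section Quot

variable {P : Type u} [CommRing P] (w : P)

/-- `a ∈ (w, p)` iff `mk p ∣ mk a` in `P/(w)`. -/
theorem mem_span_pair_iff_mk_dvd (p a : P) :
    a ∈ Ideal.span {w, p} ↔
      Ideal.Quotient.mk (Ideal.span {w}) p ∣ Ideal.Quotient.mk (Ideal.span {w}) a := by
  constructor
  · intro h
    rw [Ideal.mem_span_pair] at h
    obtain ⟨c, d, rfl⟩ := h
    refine ⟨Ideal.Quotient.mk _ d, ?_⟩
    have hw0 : Ideal.Quotient.mk (Ideal.span {w}) w = 0 :=
      Ideal.Quotient.eq_zero_iff_mem.mpr (Ideal.mem_span_singleton_self w)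
    simp [map_add, map_mul, hw0, mul_comm]
  · rintro ⟨c, hc⟩
    obtain ⟨d, rfl⟩ := Ideal.Quotient.mk_surjective c
    rw [← map_mul, Ideal.Quotient.eq, Ideal.mem_span_singleton] at hc
    obtain ⟨e, he⟩ := hc
    rw [Ideal.mem_span_pair]
    refine ⟨e, d, ?_⟩
    have : a = w * e + p * d := by linear_combination he
    rw [this]; ring

theorem span_pair_eq_comap (p : P) :
    Ideal.span {w, p} = Ideal.comap (Ideal.Quotient.mk (Ideal.span {w}))
      (Ideal.span {Ideal.Quotient.mk (Ideal.span {w}) p}) := by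
  ext a
  rw [mem_span_pair_iff_mk_dvd, Ideal.mem_comap, Ideal.mem_span_singleton]

end Quot

end Fermat.Agent.S18.B12.H33

end
end
-- ===== PACK-END S18/B12/H33/CoreAux.lean

-- ===== PACK-BEGIN S18/B12/H33/Core.lean
section



/-!
# S18 b2.5 (helper33): `B2CoreAbsStatement` from the assembly pieces A0, A2, A2', A3, A4, A5, A5'
-/

set_option autoImplicit false

noncomputable section

namespace Fermat.Agent.S18.B12.H33

open Polynomial

universe u v

section Setup

variable {P : Type u} [CommRing P] [IsDomain P] [UniqueFactorizationMonoid P] [IsNoetherianRing P]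
  {B : Type v} [CommRing B] [IsDomain B] [IsIntegrallyClosed B] [Algebra P B]
  [Module.Finite P B] [Module.IsTorsionFree P B]

/-- Local bases restrict to smaller ideals. -/
theorem IsLocalBasis.mono {𝔪 𝔫 : Ideal P} (h𝔫 : 𝔫 ≤ 𝔪) {n : ℕ} {x : Fin n → B}
    (hx : IsLocalBasis P B 𝔪 n x) : IsLocalBasis P B 𝔫 n x := by
  obtain ⟨hli, g, hg, hsp⟩ := hx
  exact ⟨hli, g, fun h => hg (h𝔫 h), hsp⟩

/-- For a local basis at `𝔪 ∋ π` (prime), `π ∣ ∑ aᵢ xᵢ` in `B` forces `π ∣ aᵢ`. -/
theorem IsLocalBasis.dvd_coeff {𝔪 : Ideal P} {n : ℕ} {x : Fin n → B}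
    (hx : IsLocalBasis P B 𝔪 n x) {π : P} (hπ : Prime π) (hπ𝔪 : π ∈ 𝔪)
    (a : Fin n → P) (h : (∑ i, a i • x i) ∈ Ideal.span {algebraMap P B π}) (i : Fin n) :
    π ∣ a i := by
  obtain ⟨hli, g, hg, hsp⟩ := hx
  rw [Ideal.mem_span_singleton] at h
  obtain ⟨b, hb⟩ := h
  have hgb := hsp b
  rw [Submodule.mem_span_range_iff_exists_fun] at hgb
  obtain ⟨c, hc⟩ := hgb
  -- ∑ (g aᵢ - π cᵢ) xᵢ = 0
  have hrel : ∑ j, (g * a j - π * c j) • x j = 0 := by
    have h1 : ∑ j, (g * a j - π * c j) • x j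
        = g • (∑ j, a j • x j) - π • (∑ j, c j • x j) := by
      rw [Finset.smul_sum, Finset.smul_sum, ← Finset.sum_sub_distrib]
      refine Finset.sum_congr rfl fun j _ => ?_
      rw [sub_smul, mul_smul, mul_smul]
    rw [h1, hc, hb, Algebra.smul_def, Algebra.smul_def, Algebra.smul_def]
    ring
  have hz := Fintype.linearIndependent_iff.mp hli _ hrel i
  have hdvd : π ∣ g * a i := ⟨c i, by linear_combination hz⟩
  rcases hπ.dvd_or_dvd hdvd with h | h
  · exact absurd (Ideal.mem_of_dvd 𝔪 h hπ𝔪) hg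
  · exact h

end Setup

end Fermat.Agent.S18.B12.H33

namespace Fermat.Agent.S18.B12.H33

open Polynomial

universe u v

set_option linter.unusedSectionVars false
set_option linter.unusedVariables false

section Main

variable {P : Type u} [CommRing P] [IsDomain P] (w : P)
  {B : Type v} [CommRing B] [Algebra P B]


/-- Reduction of a radical-membership from `B` to `B/wB`. -/
theorem mk_sub_sum_mem_radical {r : ℕ} (y : Fin r → B) (q : P) (t : (P ⧸ Ideal.span {w}))
    (hqt : Associated (Ideal.Quotient.mk (Ideal.span {w}) q) t)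
    (c : B) (a : Fin r → P)
    (h : c - ∑ i, a i • y i ∈ (Ideal.span {algebraMap P B w, algebraMap P B q}).radical) :
    (Ideal.Quotient.mk ((Ideal.span {w}).map (algebraMap P B)) c : (B ⧸ (Ideal.span {w}).map (algebraMap P B)))
      - ∑ i, (Ideal.Quotient.mk (Ideal.span {w}) (a i)) •
          (Ideal.Quotient.mk ((Ideal.span {w}).map (algebraMap P B)) (y i) : (B ⧸ (Ideal.span {w}).map (algebraMap P B))) ∈
      (Ideal.span {algebraMap (P ⧸ Ideal.span {w}) (B ⧸ (Ideal.span {w}).map (algebraMap P B)) t}).radical := by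
  obtain ⟨k, hk⟩ := h
  refine ⟨k, ?_⟩
  have e1 : (Ideal.Quotient.mk ((Ideal.span {w}).map (algebraMap P B)) c : (B ⧸ (Ideal.span {w}).map (algebraMap P B)))
      - ∑ i, (Ideal.Quotient.mk (Ideal.span {w}) (a i)) •
          (Ideal.Quotient.mk ((Ideal.span {w}).map (algebraMap P B)) (y i) : (B ⧸ (Ideal.span {w}).map (algebraMap P B)))
      = Ideal.Quotient.mk ((Ideal.span {w}).map (algebraMap P B)) (c - ∑ i, a i • y i) := by
    rw [map_sub, map_sum]
    congr 1
  rw [e1, ← map_pow]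
  rw [Ideal.mem_span_pair] at hk
  obtain ⟨c₁, c₂, hc⟩ := hk
  rw [← hc, map_add, map_mul, map_mul]
  have hw0 : Ideal.Quotient.mk ((Ideal.span {w}).map (algebraMap P B)) (algebraMap P B w) = 0 :=
    Ideal.Quotient.eq_zero_iff_mem.mpr
      (Ideal.mem_map_of_mem _ (Ideal.mem_span_singleton_self w))
  rw [hw0, mul_zero, zero_add]
  have hq' : Ideal.Quotient.mk ((Ideal.span {w}).map (algebraMap P B)) (algebraMap P B q)
      = algebraMap (P ⧸ Ideal.span {w}) (B ⧸ (Ideal.span {w}).map (algebraMap P B)) (Ideal.Quotient.mk (Ideal.span {w}) q) := rfl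
  rw [hq']
  obtain ⟨v, hv⟩ := hqt
  rw [Ideal.mem_span_singleton]
  refine Dvd.dvd.mul_left ?_ _
  rw [← hv, map_mul]
  exact ⟨algebraMap (P ⧸ Ideal.span {w}) (B ⧸ (Ideal.span {w}).map (algebraMap P B)) ((v⁻¹ : (P ⧸ Ideal.span {w})ˣ) : (P ⧸ Ideal.span {w})), by
    rw [mul_assoc, ← map_mul, Units.mul_inv, map_one, mul_one]⟩

end Main

end Fermat.Agent.S18.B12.H33

end
end
-- ===== PACK-END S18/B12/H33/Core.lean

-- ===== PACK-BEGIN S18/H438/Front/Transport2.lean
section


/-!
# S18 / ALG-FRONT (helper438), part 5: transport of charts and of the `q`-expansion principle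

* `mem_baseRing_iff`  : `a ∈ R[z] ⊆ Fc`  ↔  `(a : Ω) ∈ Alg.polyRing R z`;
* `mem_chartRing_iff` : `b ∈ chartRing (Rf Fc R) z`  ↔  `(b : Ω) ∈ Alg.chart Fc R z`;
* `transcendental_xf`, `transcendental_xf_inv`;
* `qep_fin`, `qep_inf` in the form used by `Front/Gauss.lean`.
-/

set_option autoImplicit false
set_option linter.style.haveILetI false
set_option linter.unusedSectionVars false

noncomputable section

namespace Fermat.Agent.S18.H438

open Alg Polynomial

variable {Ω : Type*} [Field Ω] {Lc Ec Fc : Subfield Ω} {R V : Subring Ω} {w x : Ω}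
  {S : Finset Ω}

section Generic

variable (Fc R) (z : Fc)

/-- `R[z] ⊆ Fc` maps into `polyRing R z ⊆ Ω`. -/
theorem coe_mem_polyRing_of_mem_baseRing {a : Fc} (ha : a ∈ baseRing (Rf Fc R) z) :
    (a : Ω) ∈ polyRing R (z : Ω) := by
  unfold baseRing at ha
  induction ha using Algebra.adjoin_induction with
  | mem y hy =>
    rw [Set.mem_singleton_iff] at hy
    subst hy
    exact Subring.subset_closure (Or.inr rfl)
  | algebraMap r => exact Subring.subset_closure (Or.inl r.2)
  | add y y' _ _ hy hy' => exact (polyRing R (z : Ω)).add_mem hy hy'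
  | mul y y' _ _ hy hy' => exact (polyRing R (z : Ω)).mul_mem hy hy'

/-- `polyRing R z ⊆ Ω` comes from `R[z] ⊆ Fc`, provided `R ⊆ Fc`. -/
theorem exists_mem_baseRing_of_mem_polyRing (hR : ∀ r ∈ R, r ∈ Fc) {c : Ω}
    (hc : c ∈ polyRing R (z : Ω)) : ∃ a ∈ baseRing (Rf Fc R) z, (a : Ω) = c := by
  have hle : polyRing R (z : Ω) ≤ (baseRing (Rf Fc R) z).toSubring.map Fc.subtype := by
    unfold polyRing
    rw [Subring.closure_le]
    rintro y (hy | hy)
    · refine ⟨⟨y, hR y hy⟩, ?_, rfl⟩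
      exact (baseRing (Rf Fc R) z).algebraMap_mem (⟨⟨y, hR y hy⟩, hy⟩ : Rf Fc R)
    · rw [Set.mem_singleton_iff] at hy
      subst hy
      exact ⟨z, self_mem_baseRing (Rf Fc R) z, rfl⟩
  obtain ⟨a, ha, rfl⟩ := hle hc
  exact ⟨a, ha, rfl⟩

theorem mem_baseRing_iff (hR : ∀ r ∈ R, r ∈ Fc) {a : Fc} :
    a ∈ baseRing (Rf Fc R) z ↔ (a : Ω) ∈ polyRing R (z : Ω) := by
  refine ⟨coe_mem_polyRing_of_mem_baseRing Fc R z, fun h => ?_⟩
  obtain ⟨a', ha', h'⟩ := exists_mem_baseRing_of_mem_polyRing Fc R z hR h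
  rwa [← Subtype.ext h']

/-- the comparison map `R[z] → polyRing R z` -/
def baseToPoly : baseRing (Rf Fc R) z →+* polyRing R (z : Ω) :=
  (Fc.subtype.comp (baseRing (Rf Fc R) z).toSubring.subtype).codRestrict (polyRing R (z : Ω))
    (fun a => coe_mem_polyRing_of_mem_baseRing Fc R z a.2)

theorem coe_baseToPoly (a : baseRing (Rf Fc R) z) :
    ((baseToPoly Fc R z a : polyRing R (z : Ω)) : Ω) = ((a : Fc) : Ω) := rfl

theorem algebraMap_comp_baseToPoly :
    (algebraMap (polyRing R (z : Ω)) Ω).comp (baseToPoly Fc R z) =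
      Fc.subtype.comp (algebraMap (baseRing (Rf Fc R) z) Fc) := rfl

theorem baseToPoly_surjective (hR : ∀ r ∈ R, r ∈ Fc) :
    Function.Surjective (baseToPoly Fc R z) := by
  rintro ⟨c, hc⟩
  obtain ⟨a, ha, h⟩ := exists_mem_baseRing_of_mem_polyRing Fc R z hR hc
  exact ⟨⟨a, ha⟩, Subtype.ext h⟩

/-- integrality over `R[z]` (inside `Fc`) is integrality over `polyRing R z` (inside `Ω`) -/
theorem isIntegral_baseRing_iff (hR : ∀ r ∈ R, r ∈ Fc) {b : Fc} :
    IsIntegral (baseRing (Rf Fc R) z) b ↔ IsIntegral (polyRing R (z : Ω)) (b : Ω) := by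
  constructor
  · intro h
    exact IsIntegral.map_of_comp_eq (baseToPoly Fc R z) Fc.subtype
      (algebraMap_comp_baseToPoly Fc R z) h
  · rintro ⟨q, hq, hqb⟩
    -- lift the monic polynomial along the surjection
    obtain ⟨p, hpq, hpdeg, hpmonic⟩ :=
      Polynomial.lifts_and_degree_eq_and_monic
        ((Polynomial.mem_lifts q).2 (by
          have hsurj := Polynomial.map_surjective (baseToPoly Fc R z)
            (baseToPoly_surjective Fc R z hR)
          exact hsurj q)) hq
    refine ⟨p, hpmonic, ?_⟩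
    have h1 : Fc.subtype (Polynomial.eval₂ (algebraMap (baseRing (Rf Fc R) z) Fc) b p) = 0 := by
      rw [Polynomial.hom_eval₂, ← algebraMap_comp_baseToPoly, ← Polynomial.eval₂_map, hpq]
      exact hqb
    exact Fc.subtype_injective (by rw [h1, map_zero])

theorem mem_chartRing_iff (hR : ∀ r ∈ R, r ∈ Fc) {b : Fc} :
    b ∈ chartRing (Rf Fc R) z ↔ (b : Ω) ∈ chart Fc R (z : Ω) := by
  show IsIntegral (baseRing (Rf Fc R) z) b ↔ _
  rw [isIntegral_baseRing_iff Fc R z hR]
  exact ⟨fun h => ⟨b.2, h⟩, fun h => h.2⟩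

end Generic

namespace GoodModelFront

variable (G : GoodModel Lc Ec Fc R V w x S)

include G

/-- `x` is transcendental over `R`. -/
theorem transcendental_xf : Transcendental (Rf Fc R) (xf G) := by
  rintro ⟨p, hp0, hp⟩
  let i : Rf Fc R →+* Lc :=
    (Fc.subtype.comp (Rf Fc R).subtype).codRestrict Lc.toSubring
      (fun r => G.E_le_L (G.R_le r.2))
  have hi : Function.Injective i := by
    intro a b hab
    apply Subtype.ext
    apply Subtype.ext
    exact congrArg (fun t : Lc => (t : Ω)) hab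
  have hcomp : (algebraMap Lc Ω).comp i = Fc.subtype.comp (algebraMap (Rf Fc R) Fc) := rfl
  apply G.x_transcendental
  refine ⟨p.map i, (Polynomial.map_ne_zero_iff hi).2 hp0, ?_⟩
  rw [Polynomial.aeval_def, Polynomial.eval₂_map, hcomp]
  have h1 := Polynomial.hom_eval₂ p (algebraMap (Rf Fc R) Fc) Fc.subtype (xf G)
  rw [Polynomial.aeval_def] at hp
  rw [hp, map_zero] at h1
  exact h1.symm

theorem transcendental_xf_inv : Transcendental (Rf Fc R) (xf G)⁻¹ :=
  fun h => transcendental_xf G (IsAlgebraic.inv_iff.1 h)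

/-- `qep` on the finite chart, in `Fc`. -/
theorem qep_fin' : ∀ b ∈ chartRing (Rf Fc R) (xf G), b * (wf G)⁻¹ ∈ Vf G →
    b * (wf G)⁻¹ ∈ chartRing (Rf Fc R) (xf G) := by
  intro b hb hbV
  rw [mem_chartRing_iff Fc R _ (fun r hr => R_le_Fc G hr)] at hb ⊢
  exact G.qep_fin _ hb hbV

/-- `qep` on the chart at infinity, in `Fc`. -/
theorem qep_inf' : ∀ b ∈ chartRing (Rf Fc R) (xf G)⁻¹, b * (wf G)⁻¹ ∈ Vf G →
    b * (wf G)⁻¹ ∈ chartRing (Rf Fc R) (xf G)⁻¹ := by
  intro b hb hbV
  rw [mem_chartRing_iff Fc R _ (fun r hr => R_le_Fc G hr)] at hb ⊢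
  exact G.qep_inf _ hb hbV

end GoodModelFront

end Fermat.Agent.S18.H438

end
end
-- ===== PACK-END S18/H438/Front/Transport2.lean

-- ===== PACK-BEGIN S18/H438/Front/Finite.lean
section



/-!
# S18 / ALG-FRONT (helper438), part 6: finiteness and constants

For `G : Alg.GoodModel Lc Ec Fc R V w x S`, inside the field `Fc`:

* `GoodModelFront.isIntegral_Rf_mem_range` : `R` is integrally closed in `Fc`
  (hypothesis `hRF` of `H138.connected_special_fibre`);
* `GoodModelFront.finiteDimensional_baseField` : `Fc` is finite over `H138.baseField R x`;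
* `GoodModelFront.finiteDimensional_fractionRing` / `_inv` : `Fc` is finite over
  `FractionRing (baseRing R z)` for `z = x`, `z = x⁻¹` (hypothesis of `Front/Chart.lean`).
-/

set_option autoImplicit false
set_option linter.style.haveILetI false
set_option linter.unusedSectionVars false

noncomputable section

namespace Fermat.Agent.S18.H438

open Alg Polynomial

/-- Finite-dimensionality from a span statement inside an ambient field. -/
theorem finiteDimensional_of_span_subfield {K F Ω : Type*} [Field K] [Field F] [Field Ω]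
    [Algebra K F] (ι : F →+* Ω) (E' : Subfield Ω)
    (hE' : ∀ c ∈ E', ∃ k : K, ι (algebraMap K F k) = c)
    (s : Finset Ω) (hs : ∀ a ∈ s, ∃ f : F, ι f = a)
    (hspan : ∀ f : F, ι f ∈ Submodule.span E' (s : Set Ω)) :
    FiniteDimensional K F := by
  classical
  choose! g hg using hs
  refine (Module.finite_def (R := K) (M := F)).2 ⟨s.image g, ?_⟩
  rw [eq_top_iff]
  rintro f -
  obtain ⟨c, -, hc⟩ := Submodule.mem_span_finset.1 (hspan f)
  have hk : ∀ a : Ω, ∃ k : K, ι (algebraMap K F k) = (c a : Ω) := fun a => hE' _ (c a).2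
  choose k hk using hk
  have hf : f = ∑ a ∈ s, k a • g a := by
    apply ι.injective
    rw [← hc, map_sum]
    refine Finset.sum_congr rfl fun a ha => ?_
    have h1 : ι (k a • g a) = (c a : Ω) * a := by
      rw [Algebra.smul_def, map_mul, hk, hg a ha]
    rw [h1]
    rfl
  rw [hf]
  refine Submodule.sum_mem _ fun a ha => Submodule.smul_mem _ _ (Submodule.subset_span ?_)
  exact Finset.mem_coe.2 (Finset.mem_image_of_mem g ha)

variable {Ω : Type*} [Field Ω] {Lc Ec Fc : Subfield Ω} {R V : Subring Ω} {w x : Ω}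
  {S : Finset Ω}

namespace GoodModelFront

variable (G : GoodModel Lc Ec Fc R V w x S)

include G

/-- a subfield of `Ω` containing `R` and `x` contains `Ec(x)` -/
theorem ratField_le_of_mem (T : Subfield Ω) (hR : ∀ r ∈ R, r ∈ T) (hx : x ∈ T) :
    ratField Ec x ≤ T := by
  unfold ratField
  rw [Subfield.closure_le]
  rintro e (he | he)
  · rcases G.R_total e he with h | h
    · exact hR _ h
    · have := T.inv_mem (hR _ h)
      rwa [inv_inv] at this
  · rw [Set.mem_singleton_iff] at he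
    rw [he]
    exact hx

/-- **`Fc` is finite over any field `K → Fc` whose image contains `R` and `x`.** -/
theorem finiteDimensional_of_mem {K : Type*} [Field K] [Algebra K Fc]
    (hR : ∀ r : Rf Fc R, ∃ k : K, algebraMap K Fc k = (r : Fc))
    (hx : ∃ k : K, algebraMap K Fc k = xf G) : FiniteDimensional K Fc := by
  obtain ⟨s, hs, hspan⟩ := G.finite
  refine finiteDimensional_of_span_subfield Fc.subtype (ratField Ec x) ?_ s
    (fun a ha => ⟨⟨a, hs ha⟩, rfl⟩) (fun f => hspan f f.2)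
  have hle : ratField Ec x ≤ ((algebraMap K Fc).fieldRange).map Fc.subtype := by
    refine ratField_le_of_mem G _ (fun r hr => ?_) ?_
    · obtain ⟨k, hk⟩ := hR ⟨⟨r, R_le_Fc G hr⟩, hr⟩
      exact ⟨algebraMap K Fc k, ⟨k, rfl⟩, by rw [hk]; rfl⟩
    · obtain ⟨k, hk⟩ := hx
      exact ⟨algebraMap K Fc k, ⟨k, rfl⟩, by rw [hk]; rfl⟩
  intro c hc
  obtain ⟨f, ⟨k, rfl⟩, hf⟩ := hle hc
  exact ⟨k, hf⟩

/-- `Fc` is finite over `H138.baseField R x`. -/
theorem finiteDimensional_baseField :
    FiniteDimensional (H138.baseField (Rf Fc R) (xf G)) Fc :=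
  finiteDimensional_of_mem G
    (fun r => ⟨⟨(r : Fc), Subfield.subset_closure (Or.inl ⟨r, rfl⟩)⟩, rfl⟩)
    ⟨⟨xf G, Subfield.subset_closure (Or.inr rfl)⟩, rfl⟩

/-- `Fc` is finite over `H138.baseField R x⁻¹`. -/
theorem finiteDimensional_baseField_inv :
    FiniteDimensional (H138.baseField (Rf Fc R) (xf G)⁻¹) Fc := by
  rw [H138.baseField_inv]
  exact finiteDimensional_baseField G

section Frac

attribute [local instance] FractionRing.liftAlgebra

/-- `Fc` is finite over `Frac (R[x])`. -/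
theorem finiteDimensional_fractionRing :
    FiniteDimensional (FractionRing (baseRing (Rf Fc R) (xf G))) Fc :=
  finiteDimensional_of_mem G
    (fun r => ⟨algebraMap (baseRing (Rf Fc R) (xf G)) _
        (algebraMap (Rf Fc R) (baseRing (Rf Fc R) (xf G)) r), by
      rw [← IsScalarTower.algebraMap_apply]; rfl⟩)
    ⟨algebraMap (baseRing (Rf Fc R) (xf G)) _ ⟨xf G, self_mem_baseRing _ _⟩, by
      rw [← IsScalarTower.algebraMap_apply]; rfl⟩

/-- `Fc` is finite over `Frac (R[x⁻¹])`. -/
theorem finiteDimensional_fractionRing_inv :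
    FiniteDimensional (FractionRing (baseRing (Rf Fc R) (xf G)⁻¹)) Fc :=
  finiteDimensional_of_mem G
    (fun r => ⟨algebraMap (baseRing (Rf Fc R) (xf G)⁻¹) _
        (algebraMap (Rf Fc R) (baseRing (Rf Fc R) (xf G)⁻¹) r), by
      rw [← IsScalarTower.algebraMap_apply]; rfl⟩)
    ⟨(algebraMap (baseRing (Rf Fc R) (xf G)⁻¹) _ ⟨(xf G)⁻¹, self_mem_baseRing _ _⟩)⁻¹, by
      rw [map_inv₀, ← IsScalarTower.algebraMap_apply]
      show ((xf G)⁻¹)⁻¹ = xf G
      rw [inv_inv]⟩

end Frac

/-- the valuation ring `R` of the field `Ec` -/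
def Re : ValuationSubring Ec :=
  { R.comap Ec.subtype with
    mem_or_inv_mem' := fun e => by
      rcases G.R_total e e.2 with h | h
      · exact Or.inl h
      · exact Or.inr h }

theorem mem_Re {e : Ec} : e ∈ Re G ↔ (e : Ω) ∈ R := Iff.rfl

/-- **`R` is integrally closed in `Fc`.** -/
theorem isIntegral_Rf_mem_range (y : Fc) (hy : IsIntegral (Rf Fc R) y) :
    y ∈ Set.range (algebraMap (Rf Fc R) Fc) := by
  obtain ⟨p, hpm, hp⟩ := hy
  -- `y` is algebraic over `Ec`, hence lies in `Ec`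
  let φ : Rf Fc R →+* Ec :=
    (Fc.subtype.comp (Rf Fc R).subtype).codRestrict Ec.toSubring (fun r => G.R_le r.2)
  have hcomp : (algebraMap Ec Ω).comp φ = Fc.subtype.comp (algebraMap (Rf Fc R) Fc) := rfl
  have hφ : Function.Injective φ := by
    intro a b hab
    apply Subtype.ext
    apply Subtype.ext
    exact congrArg (fun t : Ec => (t : Ω)) hab
  have hyΩ : Polynomial.eval₂ ((algebraMap Ec Ω).comp φ) (y : Ω) p = 0 := by
    rw [hcomp]
    have h1 := Polynomial.hom_eval₂ p (algebraMap (Rf Fc R) Fc) Fc.subtype y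
    rw [hp, map_zero] at h1
    exact h1.symm
  have halg : IsAlgebraic Ec (y : Ω) := by
    refine ⟨p.map φ, (Polynomial.map_ne_zero_iff hφ).2 hpm.ne_zero, ?_⟩
    rw [Polynomial.aeval_def, Polynomial.eval₂_map]
    exact hyΩ
  have hyE : (y : Ω) ∈ Ec := G.E_closed_in_F y y.2 halg
  -- integrality over the valuation ring `Re`
  letI : Algebra (Rf Fc R) Ec := φ.toAlgebra
  have hint : IsIntegral (Rf Fc R) (⟨(y : Ω), hyE⟩ : Ec) := by
    refine ⟨p, hpm, ?_⟩
    apply Ec.subtype_injective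
    rw [Polynomial.hom_eval₂, map_zero]
    exact hyΩ
  have hmem : (⟨(y : Ω), hyE⟩ : Ec) ∈ Re G :=
    mem_valuationSubring_of_isIntegral (Re G) (fun a => a.2) hint
  exact ⟨⟨y, hmem⟩, rfl⟩

end GoodModelFront

end Fermat.Agent.S18.H438

end
end
-- ===== PACK-END S18/H438/Front/Finite.lean

-- ===== PACK-BEGIN S18/H754/HncTyped.lean
section


/-!
# S18 / ALG-FRONT / hNC adapter, typed form

The hypothesis `hNC` of `B12.B2RegularStatement`, from the `unramified` field of `Alg.GoodModel`: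

    hNC_typed : ∀ π : R[X], Prime π → ¬ Associated π (C w) → (∀ c ∈ S, ¬ Associated π (X - C c)) →
        (Ideal.span {algebraMap R[X] B π}).IsRadical

for `R` a DVR of characteristic `0`, `B` a finite torsion-free integrally closed `R[X]`-algebra,
domain, with `C w` prime in `B`, embedded in a field `Ω` with an algebraically closed subfield of
constants `Lc ⊇ R`, algebraic over `R`.
-/

set_option autoImplicit false

noncomputable section

namespace Fermat.Agent.S18.H754

open Polynomial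

section Dvd

variable {A B : Type*} [CommRing A] [IsDomain A] [IsIntegrallyClosed A]
  [CommRing B] [IsDomain B] [Algebra A B] [Module.IsTorsionFree A B] [Algebra.IsIntegral A B]

/-- Divisibility in an integral torsion-free extension domain of an integrally closed domain
descends. -/
theorem dvd_of_algebraMap_dvd {a q : A} (ha : a ≠ 0)
    (h : algebraMap A B a ∣ algebraMap A B q) : a ∣ q := by
  have hinj : Function.Injective (algebraMap A B) := FaithfulSMul.algebraMap_injective A B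
  obtain ⟨b, hb⟩ := h
  have hbint : IsIntegral A b := Algebra.IsIntegral.isIntegral b
  set p : A[X] := C a * X - C q with hp
  have hpb : aeval b p = 0 := by
    rw [hp, map_sub, map_mul, aeval_C, aeval_C, aeval_X, hb, sub_self]
  have hdvd : minpoly A b ∣ p := minpoly.isIntegrallyClosed_dvd hbint hpb
  have hp1 : p.coeff 1 = a := by
    rw [hp]
    simp
  have hp0 : p ≠ 0 := by
    intro h0
    rw [h0, coeff_zero] at hp1
    exact ha hp1.symm
  have hpdeg : p.natDegree ≤ 1 := by
    rw [hp]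
    refine (natDegree_sub_le _ _).trans (max_le ?_ ?_)
    · exact (natDegree_C_mul_X a ha).le
    · rw [natDegree_C]; exact Nat.zero_le _
  have hmdeg : (minpoly A b).natDegree ≤ 1 := (natDegree_le_of_dvd hdvd hp0).trans hpdeg
  have hmpos : 0 < (minpoly A b).natDegree := minpoly.natDegree_pos hbint
  have hm1 : (minpoly A b).natDegree = 1 := le_antisymm hmdeg hmpos
  have hmonic : (minpoly A b).Monic := minpoly.monic hbint
  have hmeq := eq_X_add_C_of_natDegree_le_one hmdeg
  have hlead : (minpoly A b).coeff 1 = 1 := by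
    have := hmonic.coeff_natDegree
    rwa [hm1] at this
  rw [hlead, C_1, one_mul] at hmeq
  have hmb : aeval b (minpoly A b) = 0 := minpoly.aeval A b
  rw [hmeq, map_add, aeval_X, aeval_C] at hmb
  have hb' : b = algebraMap A B (-(minpoly A b).coeff 0) := by
    rw [map_neg]
    exact eq_neg_of_add_eq_zero_left hmb
  refine ⟨-(minpoly A b).coeff 0, ?_⟩
  apply hinj
  rw [map_mul, ← hb', hb]

end Dvd

section Constants

variable {R : Type*} [CommRing R] [IsDomain R] [IsDiscreteValuationRing R]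
  {Ω : Type*} [Field Ω]

/-- An element algebraic over a DVR `R` becomes integral after multiplication by a power of the
uniformiser. -/
theorem exists_pow_mul_isIntegralElem (ι : R →+* Ω) (w : R) (hw : Irreducible w)
    (a : Ω) (ha : ∃ p : R[X], p ≠ 0 ∧ eval₂ ι a p = 0) :
    ∃ n : ℕ, ι.IsIntegralElem (ι w ^ n * a) := by
  letI : Algebra R Ω := ι.toAlgebra
  have halg : IsAlgebraic R a := by
    obtain ⟨p, hp0, hp⟩ := ha
    exact ⟨p, hp0, by rw [aeval_def]; exact hp⟩
  obtain ⟨y, hy0, hy⟩ := halg.exists_integral_multiple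
  obtain ⟨n, u, rfl⟩ := IsDiscreteValuationRing.eq_unit_mul_pow_irreducible hy0 hw
  refine ⟨n, ?_⟩
  have h1 : IsIntegral R ((((u⁻¹ : Rˣ) : R)) • ((u : R) * w ^ n) • a) :=
    IsIntegral.smul _ hy
  have h2 : (((u⁻¹ : Rˣ) : R)) • ((u : R) * w ^ n) • a = ι w ^ n * a := by
    rw [smul_smul, ← mul_assoc, Units.inv_mul, one_mul, Algebra.smul_def, map_pow]
    rfl
  rw [h2] at h1
  exact h1

variable [CharZero R]

/-- Factorisation over the constants of a nonconstant irreducible polynomial over `R`: pairwise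
distinct roots. -/
theorem exists_factorization_of_irreducible (ι : R →+* Ω) (hι : Function.Injective ι)
    (Lc : Subfield Ω) (hLcl : IsAlgClosed Lc) (hRL : ∀ r, ι r ∈ Lc)
    (π : R[X]) (hπ : Irreducible π) (hdeg : π.natDegree ≠ 0) :
    ∃ (roots : Finset Ω) (lc : Ω), lc ∈ Lc ∧ lc ≠ 0 ∧
      (∀ c ∈ roots, c ∈ Lc ∧ eval₂ ι c π = 0) ∧
      ∀ x : Ω, eval₂ ι x π = lc * ∏ c ∈ roots, (x - c) := by
  classical
  haveI := hLcl
  let K := FractionRing R
  have hprim : π.IsPrimitive := hπ.isPrimitive hdeg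
  have hK : Irreducible (π.map (algebraMap R K)) :=
    (hprim.irreducible_iff_irreducible_map_fraction_map).1 hπ
  haveI : CharZero K := charZero_of_injective_algebraMap (IsFractionRing.injective R K)
  have hsepK : (π.map (algebraMap R K)).Separable := hK.separable
  let ιL : R →+* Lc := ι.codRestrict Lc hRL
  have hιL : Function.Injective ιL := by
    intro a b hab
    apply hι
    exact congrArg Subtype.val hab
  let φ : K →+* Lc := IsFractionRing.lift hιL
  have hφ : φ.comp (algebraMap R K) = ιL := by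
    ext r
    exact congrArg Subtype.val (IsFractionRing.lift_algebraMap hιL r)
  set Q : Lc[X] := π.map ιL with hQ
  have hQ' : Q = (π.map (algebraMap R K)).map φ := by
    rw [Polynomial.map_map, hφ]
  have hsepQ : Q.Separable := by
    rw [hQ']
    exact hsepK.map
  have hsplit : Q.Splits := IsAlgClosed.splits Q
  have hQfac := hsplit.eq_prod_roots
  have hnodup : Q.roots.Nodup := nodup_roots hsepQ
  have hQ0 : Q ≠ 0 := by
    rw [hQ]
    exact (Polynomial.map_ne_zero_iff hιL).2 hπ.ne_zero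
  have hsub : (Lc.subtype).comp ιL = ι := by
    ext r
    rfl
  have heval : ∀ x : Ω, eval₂ ι x π = eval₂ Lc.subtype x Q := by
    intro x
    rw [hQ, eval₂_map, hsub]
  refine ⟨Q.roots.toFinset.map ⟨Subtype.val, Subtype.val_injective⟩, (Q.leadingCoeff : Ω),
    Q.leadingCoeff.2, ?_, ?_, ?_⟩
  · intro h0
    have : Q.leadingCoeff = 0 := Subtype.ext h0
    exact hQ0 (leadingCoeff_eq_zero.1 this)
  · intro c hc
    rw [Finset.mem_map] at hc
    obtain ⟨a, ha, rfl⟩ := hc
    rw [Multiset.mem_toFinset] at ha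
    refine ⟨a.2, ?_⟩
    have hroot : Q.eval a = 0 := (mem_roots hQ0).1 ha
    rw [heval]
    change eval₂ Lc.subtype (Lc.subtype a) Q = 0
    rw [eval₂_at_apply, hroot, map_zero]
  · intro x
    rw [heval]
    conv_lhs => rw [hQfac]
    rw [eval₂_mul, eval₂_C, eval₂_multiset_prod, Multiset.map_map, Finset.prod_map,
      Finset.prod_eq_multiset_prod, Multiset.toFinset_val, Multiset.dedup_eq_self.2 hnodup]
    congr 2
    refine Multiset.map_congr rfl fun a _ => ?_
    simp [eval₂_sub, eval₂_X, eval₂_C]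

end Constants

section Typed

variable (R : Type*) [CommRing R] [IsDomain R] [IsDiscreteValuationRing R] [CharZero R]
  (B : Type*) [CommRing B] [IsDomain B] [IsIntegrallyClosed B] [Algebra R[X] B]
  [Module.Finite R[X] B] [Module.IsTorsionFree R[X] B]
  {Ω : Type*} [Field Ω] [Algebra B Ω] [FaithfulSMul B Ω]

/-- **hNC, typed form** = the hypothesis `hNC` of `B12.B2RegularStatement`, from the `unramified`
field of `Alg.GoodModel` (with `x = algebraMap B Ω (algebraMap R[X] B X)`). -/
theorem hNC_typed (w : R) (hw : Irreducible w)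
    (hwB : Prime (algebraMap R[X] B (C w)))
    (Lc : Subfield Ω) (hLcl : IsAlgClosed Lc)
    (hRL : ∀ r : R, algebraMap B Ω (algebraMap R[X] B (C r)) ∈ Lc)
    (hLalg : ∀ a ∈ Lc, ∃ p : R[X], p ≠ 0 ∧
      eval₂ ((algebraMap B Ω).comp ((algebraMap R[X] B).comp C)) a p = 0)
    (S : Finset R) (SΩ : Finset Ω)
    (hS : ∀ c ∈ SΩ, ∃ s ∈ S, algebraMap B Ω (algebraMap R[X] B (C s)) = c)
    (hunr : ∀ O : ValuationSubring Ω, (∀ a ∈ Lc, a ∈ O) → ∀ c ∈ Lc, c ∉ SΩ →
        algebraMap B Ω (algebraMap R[X] B X) - c ∈ O →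
        (algebraMap B Ω (algebraMap R[X] B X) - c)⁻¹ ∉ O →
        ∀ t ∈ O, t⁻¹ ∉ O → t * (algebraMap B Ω (algebraMap R[X] B X) - c)⁻¹ ∈ O) :
    ∀ π : R[X], Prime π → ¬ Associated π (C w) → (∀ c ∈ S, ¬ Associated π (X - C c)) →
        (Ideal.span {algebraMap R[X] B π}).IsRadical := by
  classical
  intro π hπ hπw hπS
  haveI : IsNoetherianRing B := IsNoetherianRing.of_finite R[X] B
  haveI : Algebra.IsIntegral R[X] B := Algebra.IsIntegral.of_finite R[X] B
  have hinjRB : Function.Injective (algebraMap R[X] B) :=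
    FaithfulSMul.algebraMap_injective R[X] B
  have hinjBΩ : Function.Injective (algebraMap B Ω) := FaithfulSMul.algebraMap_injective B Ω
  set ι : R →+* Ω := (algebraMap B Ω).comp ((algebraMap R[X] B).comp C) with hιdef
  have hι : Function.Injective ι := by
    intro a b hab
    exact C_injective (hinjRB (hinjBΩ hab))
  have hwprime : Prime w := hw.prime
  have hCw : Irreducible (C w : R[X]) := (prime_C_iff.2 hwprime).irreducible
  -- `π` is not constant
  have hdeg : π.natDegree ≠ 0 := by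
    intro h0
    obtain ⟨r, hr⟩ : ∃ r : R, π = C r := ⟨π.coeff 0, eq_C_of_natDegree_eq_zero h0⟩
    have hrp : Prime r := by
      rw [hr] at hπ
      exact prime_C_iff.1 hπ
    have hass : Associated r w :=
      IsDiscreteValuationRing.associated_of_irreducible R hrp.irreducible hw
    apply hπw
    rw [hr]
    obtain ⟨u, hu⟩ := hass
    refine ⟨Units.map (C : R →+* R[X]).toMonoidHom u, ?_⟩
    simp only [Units.coe_map, RingHom.toMonoidHom_eq_coe, MonoidHom.coe_coe]
    rw [← map_mul, hu]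
  have hπ'0 : algebraMap R[X] B π ≠ 0 := by
    intro h0
    exact hπ.ne_zero (hinjRB (by rw [h0, map_zero]))
  -- `w` lies in no height-one prime containing `π`
  have hwP : ∀ 𝔓 : Ideal B, 𝔓.IsPrime → 𝔓.height = 1 → algebraMap R[X] B π ∈ 𝔓 →
      algebraMap R[X] B (C w) ∉ 𝔓 := by
    intro 𝔓 h𝔓 hht hπ𝔓 hw𝔓
    haveI := h𝔓
    haveI hwI : (Ideal.span {algebraMap R[X] B (C w)}).IsPrime :=
      (Ideal.span_singleton_prime hwB.ne_zero).2 hwB
    have hle : Ideal.span {algebraMap R[X] B (C w)} ≤ 𝔓 :=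
      (Ideal.span_singleton_le_iff_mem _).2 hw𝔓
    by_cases heq : Ideal.span {algebraMap R[X] B (C w)} = 𝔓
    · rw [← heq, Ideal.mem_span_singleton] at hπ𝔓
      have hCw0 : (C w : R[X]) ≠ 0 := hCw.ne_zero
      have hdvd : (C w : R[X]) ∣ π := dvd_of_algebraMap_dvd (B := B) hCw0 hπ𝔓
      exact hπw (hCw.associated_of_dvd hπ.irreducible hdvd).symm
    · have hlt : Ideal.span {algebraMap R[X] B (C w)} < 𝔓 := lt_of_le_of_ne hle heq
      have hfin : (Ideal.span {algebraMap R[X] B (C w)}).FiniteHeight := by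
        refine ⟨Or.inr ?_⟩
        intro htop
        have h2 := Ideal.height_mono hle
        rw [htop, hht, top_le_iff] at h2
        exact ENat.one_ne_top h2
      have h3 := Ideal.height_strict_mono_of_isPrime hlt
      rw [hht, ENat.lt_one_iff_eq_zero] at h3
      rw [Ideal.height_eq_zero_iff, IsDomain.minimalPrimes_eq_singleton_bot,
        Set.mem_singleton_iff, Ideal.span_singleton_eq_bot] at h3
      exact hwB.ne_zero h3
  -- constants become integral after multiplication by a power of `w`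
  have hLc' : ∀ a ∈ Lc, ∃ n : ℕ,
      IsIntegral B (algebraMap B Ω (algebraMap R[X] B (C w)) ^ n * a) := by
    intro a ha
    obtain ⟨n, P, hP, hPa⟩ := exists_pow_mul_isIntegralElem ι w hw a (hLalg a ha)
    refine ⟨n, P.map ((algebraMap R[X] B).comp C), hP.map _, ?_⟩
    rw [eval₂_map]
    exact hPa
  -- factorisation of `π` over the constants
  obtain ⟨roots, lc, hlc, hlc0, hroots, hfac⟩ :=
    exists_factorization_of_irreducible ι hι Lc hLcl hRL π hπ.irreducible hdeg
  have hcomp : (algebraMap B Ω).comp (algebraMap R[X] B) =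
      eval₂RingHom ι (algebraMap B Ω (algebraMap R[X] B X)) := by
    apply Polynomial.ringHom_ext
    · intro r
      simp [hιdef]
    · simp
  have hfac' : algebraMap B Ω (algebraMap R[X] B π) =
      lc * ∏ c ∈ roots, (algebraMap B Ω (algebraMap R[X] B X) - c) := by
    rw [← hfac]
    have := congrArg (fun f : R[X] →+* Ω => f π) hcomp
    simpa using this
  have hroots' : ∀ c ∈ roots, c ∈ Lc ∧ c ∉ SΩ := by
    intro c hc
    refine ⟨(hroots c hc).1, fun hcS => ?_⟩
    obtain ⟨s, hs, rfl⟩ := hS c hcS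
    have h1 := (hroots _ hc).2
    change eval₂ ι (ι s) π = 0 at h1
    rw [eval₂_at_apply] at h1
    have h2 : π.eval s = 0 := hι (by rw [h1, map_zero])
    have h3 : (X - C s : R[X]) ∣ π := dvd_iff_isRoot.2 h2
    exact hπS s hs ((prime_X_sub_C s).irreducible.associated_of_dvd hπ.irreducible h3).symm
  exact isRadical_span_of_unramified Lc (algebraMap R[X] B π) hπ'0 (algebraMap R[X] B (C w))
    hwP hLc' (algebraMap B Ω (algebraMap R[X] B X)) SΩ roots hroots' lc hlc hlc0 hfac' hunr

end Typed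

end Fermat.Agent.S18.H754

end

end
-- ===== PACK-END S18/H754/HncTyped.lean

-- ===== PACK-BEGIN S18/Mod/H216/IntE.lean
section



/-!
# S18 / MOD (helper216): the ring `intE` of `E`-rational integral series and its two homs

* `toOm : intE M A E →+* Om M`   (injective, image in `Fc M E`),
* `redE : intE M A E →+* κ((q))` (`κ` = residue field of `A`),
* `mem_Vc_iff'` : `f ∈ Vc ↔ ∃ U₁ U₂ : intE, redE U₂ ≠ 0 ∧ f * toOm U₂ = toOm U₁`,
* constants `cInt`, the coordinate `jInt`, and division of a series by a constant (`divC`).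
-/

set_option autoImplicit false
set_option linter.unusedSectionVars false

noncomputable section

namespace Fermat.Agent.S18.Mod.H216

open ModularCurve AlgebraicCurve HahnSeries Fermat.Agent.S18 Fermat.Agent.S18.Mod

variable (M : ℕ) (A : ValuationSubring Qb) (E : IntermediateField ℚ Qb)

/-- `A((q)) → Q̄((q))`. -/
abbrev inclA : LaurentSeries ↥A →+* LaurentSeries Qb := coeffMap A.subtype

/-- `A((q)) → κ((q))`. -/
abbrev redA : LaurentSeries ↥A →+* LaurentSeries (IsLocalRing.ResidueField ↥A) :=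
  coeffMap (IsLocalRing.residue ↥A)

theorem inclA_injective : Function.Injective (inclA A) := H516.incl_injective A

theorem inclA_mem_bar (U : ↥(intE M A E)) :
    inclA A (U : LaurentSeries ↥A) ∈ modularFunctionFieldBar M := by
  obtain ⟨f, -, hfU⟩ := U.2.2
  rw [← hfU]
  exact f.2

/-- The element of `Ω` defined by an integral series. -/
def toOm : ↥(intE M A E) →+* Om M where
  toFun U := ⟨inclA A (U : LaurentSeries ↥A), inclA_mem_bar M A E U⟩
  map_one' := Subtype.ext (by simp)
  map_mul' U W := Subtype.ext (by simp)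
  map_zero' := Subtype.ext (by simp)
  map_add' U W := Subtype.ext (by simp)

@[simp] theorem coe_toOm (U : ↥(intE M A E)) :
    ((toOm M A E U : Om M) : LaurentSeries Qb) = inclA A (U : LaurentSeries ↥A) := rfl

theorem toOm_injective : Function.Injective (toOm M A E) := by
  intro U W h
  apply Subtype.ext
  apply inclA_injective A
  exact congrArg Subtype.val h

theorem toOm_mem_Fc (U : ↥(intE M A E)) : toOm M A E U ∈ Fc M E := by
  obtain ⟨f, hf, hfU⟩ := U.2.2
  have : toOm M A E U = f := Subtype.ext hfU.symm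
  rw [this]
  exact hf

/-- The reduction of an integral series. -/
def redE : ↥(intE M A E) →+* LaurentSeries (IsLocalRing.ResidueField ↥A) :=
  (redA A).comp (intE M A E).subtype

@[simp] theorem redE_apply (U : ↥(intE M A E)) :
    redE M A E U = redA A (U : LaurentSeries ↥A) := rfl

theorem toOm_ne_zero_of_redE {U : ↥(intE M A E)} (h : redE M A E U ≠ 0) :
    toOm M A E U ≠ 0 := by
  intro h0
  apply h
  have : U = 0 := toOm_injective M A E (by rw [h0, map_zero])
  rw [this, map_zero]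

theorem mem_Vc_iff' {f : Om M} :
    f ∈ Vc M A E ↔ ∃ U₁ U₂ : ↥(intE M A E), redE M A E U₂ ≠ 0 ∧
      f * toOm M A E U₂ = toOm M A E U₁ := by
  constructor
  · rintro ⟨-, U₁, U₂, h₁, h₂, hne, heq⟩
    exact ⟨⟨U₁, (mem_intE M A E).mpr h₁⟩, ⟨U₂, (mem_intE M A E).mpr h₂⟩, hne, Subtype.ext heq⟩
  · rintro ⟨U₁, U₂, hne, heq⟩
    have h2 := toOm_ne_zero_of_redE M A E hne
    have hf : f = toOm M A E U₁ * (toOm M A E U₂)⁻¹ := by
      rw [← heq, mul_assoc, mul_inv_cancel₀ h2, mul_one]
    refine ⟨?_, U₁, U₂, (mem_intE M A E).mp U₁.2, (mem_intE M A E).mp U₂.2, hne, ?_⟩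
    · rw [hf]
      exact mul_mem (toOm_mem_Fc M A E U₁) (inv_mem (toOm_mem_Fc M A E U₂))
    · exact congrArg Subtype.val heq

theorem toOm_mem_Vc (U : ↥(intE M A E)) : toOm M A E U ∈ Vc M A E :=
  (mem_Vc_iff' M A E).mpr ⟨U, 1, by rw [map_one]; exact one_ne_zero, by rw [map_one, mul_one]⟩

theorem inv_toOm_mem_Vc {U : ↥(intE M A E)} (h : redE M A E U ≠ 0) :
    (toOm M A E U)⁻¹ ∈ Vc M A E :=
  (mem_Vc_iff' M A E).mpr ⟨1, U, h, by
    rw [map_one, inv_mul_cancel₀ (toOm_ne_zero_of_redE M A E h)]⟩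

/-! ### Constants -/

theorem mem_Ec_iff {r : Om M} : r ∈ Ec M E ↔ ∃ c : Qb, c ∈ E ∧ algebraMap Qb (Om M) c = r := by
  constructor
  · rintro ⟨c, hc, rfl⟩
    exact ⟨c, hc, rfl⟩
  · rintro ⟨c, hc, rfl⟩
    exact ⟨c, hc, rfl⟩

theorem mem_Rc_iff {r : Om M} :
    r ∈ Rc M A E ↔ ∃ c : Qb, c ∈ A ∧ c ∈ E ∧ algebraMap Qb (Om M) c = r := by
  constructor
  · rintro ⟨c, ⟨hcA, hcE⟩, rfl⟩
    exact ⟨c, hcA, hcE, rfl⟩
  · rintro ⟨c, hcA, hcE, rfl⟩
    exact ⟨c, ⟨hcA, hcE⟩, rfl⟩

theorem coe_algebraMap_Om (c : Qb) :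
    ((algebraMap Qb (Om M) c : Om M) : LaurentSeries Qb) = HahnSeries.C c := by
  show algebraMap Qb (LaurentSeries Qb) c = _
  rw [algebraMap_laurentSeries_eq_single, ← HahnSeries.C_apply]

theorem Ec_le_Fc : Ec M E ≤ Fc M E := fun _ h => Subfield.subset_closure (Or.inl h)

theorem Rc_le_Ec : (Rc M A E : Set (Om M)) ⊆ Ec M E := by
  intro r hr
  obtain ⟨c, -, hcE, rfl⟩ := (mem_Rc_iff M A E).mp hr
  exact (mem_Ec_iff M E).mpr ⟨c, hcE, rfl⟩

theorem C_mem_intE {c : Qb} (hcA : c ∈ A) (hcE : c ∈ E) :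
    (HahnSeries.C (⟨c, hcA⟩ : ↥A) : LaurentSeries ↥A) ∈ intE M A E := by
  rw [mem_intE]
  refine ⟨fun n => ?_, algebraMap Qb (Om M) c, Ec_le_Fc M E ((mem_Ec_iff M E).mpr ⟨c, hcE, rfl⟩), ?_⟩
  · rw [HahnSeries.C_apply, HahnSeries.coeff_single]
    split_ifs
    · exact hcE
    · exact zero_mem _
  · rw [coe_algebraMap_Om, H516.coeffMap_C]
    rfl

/-- The constant series of `c ∈ A ∩ E`. -/
def cInt {c : Qb} (hcA : c ∈ A) (hcE : c ∈ E) : ↥(intE M A E) :=
  ⟨HahnSeries.C (⟨c, hcA⟩ : ↥A), C_mem_intE M A E hcA hcE⟩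

theorem toOm_cInt {c : Qb} (hcA : c ∈ A) (hcE : c ∈ E) :
    toOm M A E (cInt M A E hcA hcE) = algebraMap Qb (Om M) c := by
  apply Subtype.ext
  rw [coe_toOm, coe_algebraMap_Om]
  show coeffMap A.subtype (HahnSeries.C (⟨c, hcA⟩ : ↥A)) = _
  rw [H516.coeffMap_C]
  rfl

theorem redE_cInt {c : Qb} (hcA : c ∈ A) (hcE : c ∈ E) :
    redE M A E (cInt M A E hcA hcE) = HahnSeries.C (IsLocalRing.residue ↥A ⟨c, hcA⟩) := by
  show coeffMap (IsLocalRing.residue ↥A) (HahnSeries.C (⟨c, hcA⟩ : ↥A)) = _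
  rw [H516.coeffMap_C]

/-! ### The coordinate `j` -/

theorem coe_jOm : ((jOm M : Om M) : LaurentSeries Qb) = jqModC Qb := by
  show coeffEmb Qb (qExpand ℚ 1 jq) = _
  rw [qExpand_one_apply, H516.coeffEmb_jq]

theorem jOm_mem_Fc : jOm M ∈ Fc M E :=
  Subfield.subset_closure (Or.inr ⟨1, inferInstance, one_dvd M, rfl⟩)

theorem jqModC_mem_intE : (jqModC ↥A : LaurentSeries ↥A) ∈ intE M A E := by
  rw [mem_intE]
  refine ⟨fun n => ?_, jOm M, jOm_mem_Fc M E, ?_⟩
  · have h : ((jqModC ↥A).coeff n : Qb) = (((jqModC ℤ).coeff n : ℤ) : Qb) := by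
      have h1 : jqModC ↥A = coeffMap (Int.castRingHom ↥A) (jqModC ℤ) := (coeffMap_jqModC (Int.castRingHom ↥A)).symm
      rw [h1, coeffMap_coeff]
      simp
    rw [h]
    exact intCast_mem E _
  · rw [coe_jOm, coeffMap_jqModC]

/-- `j` as an integral series. -/
def jInt : ↥(intE M A E) := ⟨jqModC ↥A, jqModC_mem_intE M A E⟩

theorem toOm_jInt : toOm M A E (jInt M A E) = jOm M := by
  apply Subtype.ext
  rw [coe_toOm, coe_jOm]
  show coeffMap A.subtype (jqModC ↥A) = _
  rw [coeffMap_jqModC]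

theorem redE_jInt : redE M A E (jInt M A E) = jqModC (IsLocalRing.ResidueField ↥A) := by
  show coeffMap (IsLocalRing.residue ↥A) (jqModC ↥A) = _
  rw [coeffMap_jqModC]

theorem jOm_mem_Vc : jOm M ∈ Vc M A E := by
  rw [← toOm_jInt M A E]
  exact toOm_mem_Vc M A E _

end Fermat.Agent.S18.Mod.H216

end
end
-- ===== PACK-END S18/Mod/H216/IntE.lean

-- ===== PACK-BEGIN S18/Mod/H216/Eval.lean
section



/-!
# S18 / MOD (helper216): polynomials in `j` over `A ∩ E` — the evaluation dictionary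

`S0 A E = A ∩ E ⊆ Q̄`,  `eRc : S0 ≃+* Rc M A E`,  `resS : S0 →+* κ`,
`Uev : (S0)[X] →+* intE M A E`, `X ↦ j`, with

* `toOm_Uev` : `toOm (Uev p) = evR (Rc M A E) (jOm M) (p.map eRc)`   (value in `Ω`),
* `redE_Uev` : `redE (Uev p) = evJ (p.map resS)`                      (reduction),
* `redE_Uev_ne_zero_iff` : `redE (Uev p) ≠ 0 ↔ p.map resS ≠ 0`.
-/

set_option autoImplicit false
set_option linter.unusedSectionVars false

noncomputable section

namespace Fermat.Agent.S18.Mod.H216

open ModularCurve AlgebraicCurve HahnSeries Polynomial Fermat.Agent.S18 Fermat.Agent.S18.Mod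

variable (M : ℕ) (A : ValuationSubring Qb) (E : IntermediateField ℚ Qb)

/-- `A ∩ E` as a subring of `Q̄`. -/
abbrev S0 : Subring Qb := A.toSubring ⊓ E.toSubfield.toSubring

theorem Rc_eq_map : Rc M A E = (S0 A E).map (algebraMap Qb (Om M)) := rfl

/-- `A ∩ E ≃ Rc`. -/
def eRc : ↥(S0 A E) ≃+* ↥(Rc M A E) :=
  Subring.equivMapOfInjective (S0 A E) (algebraMap Qb (Om M)) (algebraMap Qb (Om M)).injective

@[simp] theorem coe_eRc (c : ↥(S0 A E)) :
    ((eRc M A E c : ↥(Rc M A E)) : Om M) = algebraMap Qb (Om M) (c : Qb) := rfl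

/-- `A ∩ E → A`. -/
def s0ToA : ↥(S0 A E) →+* ↥A := Subring.inclusion (inf_le_left : S0 A E ≤ A.toSubring)

@[simp] theorem coe_s0ToA (c : ↥(S0 A E)) : ((s0ToA A E c : ↥A) : Qb) = (c : Qb) := rfl

/-- The residue map on `A ∩ E`. -/
def resS : ↥(S0 A E) →+* IsLocalRing.ResidueField ↥A :=
  (IsLocalRing.residue ↥A).comp (s0ToA A E)

/-- Constant series. -/
def cS : ↥(S0 A E) →+* ↥(intE M A E) where
  toFun c := cInt M A E c.2.1 c.2.2
  map_one' := Subtype.ext (by simp [cInt]; rfl)
  map_mul' a b := Subtype.ext (by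
    show HahnSeries.C (⟨(a : Qb) * (b : Qb), _⟩ : ↥A) = HahnSeries.C _ * HahnSeries.C _
    rw [← map_mul]
    rfl)
  map_zero' := Subtype.ext (by simp [cInt]; rfl)
  map_add' a b := Subtype.ext (by
    show HahnSeries.C (⟨(a : Qb) + (b : Qb), _⟩ : ↥A) = HahnSeries.C _ + HahnSeries.C _
    rw [← map_add]
    rfl)

theorem toOm_cS (c : ↥(S0 A E)) : toOm M A E (cS M A E c) = algebraMap Qb (Om M) (c : Qb) :=
  toOm_cInt M A E c.2.1 c.2.2

theorem redE_cS (c : ↥(S0 A E)) : redE M A E (cS M A E c) = HahnSeries.C (resS A E c) :=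
  redE_cInt M A E c.2.1 c.2.2

/-- Evaluation at `j` of polynomials over `A ∩ E`, as integral series. -/
def Uev : (↥(S0 A E))[X] →+* ↥(intE M A E) := Polynomial.eval₂RingHom (cS M A E) (jInt M A E)

theorem toOm_Uev (p : (↥(S0 A E))[X]) :
    toOm M A E (Uev M A E p) =
      evR (Rc M A E) (jOm M) (p.map (eRc M A E : ↥(S0 A E) →+* ↥(Rc M A E))) := by
  have h : (toOm M A E).comp (Uev M A E) =
      (evR (Rc M A E) (jOm M)).comp
        (Polynomial.mapRingHom (eRc M A E : ↥(S0 A E) →+* ↥(Rc M A E))) := by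
    apply Polynomial.ringHom_ext
    · intro c
      simp only [RingHom.comp_apply, Uev, Polynomial.coe_eval₂RingHom, Polynomial.eval₂_C,
        Polynomial.coe_mapRingHom, Polynomial.map_C, evR_C]
      rw [toOm_cS]
      rfl
    · simp only [RingHom.comp_apply, Uev, Polynomial.coe_eval₂RingHom, Polynomial.eval₂_X,
        Polynomial.coe_mapRingHom, Polynomial.map_X, evR_X]
      exact toOm_jInt M A E
  exact RingHom.congr_fun h p

theorem redE_Uev (p : (↥(S0 A E))[X]) :
    redE M A E (Uev M A E p) = H516.evJ (p.map (resS A E)) := by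
  have h : (redE M A E).comp (Uev M A E) =
      (Polynomial.eval₂RingHom (HahnSeries.C (Γ := ℤ) (R := IsLocalRing.ResidueField ↥A))
        (jqModC (IsLocalRing.ResidueField ↥A))).comp (Polynomial.mapRingHom (resS A E)) := by
    apply Polynomial.ringHom_ext
    · intro c
      simp only [RingHom.comp_apply, Uev, Polynomial.coe_eval₂RingHom, Polynomial.eval₂_C,
        Polynomial.coe_mapRingHom, Polynomial.map_C]
      exact redE_cS M A E c
    · simp only [RingHom.comp_apply, Uev, Polynomial.coe_eval₂RingHom, Polynomial.eval₂_X,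
        Polynomial.coe_mapRingHom, Polynomial.map_X]
      exact redE_jInt M A E
  exact RingHom.congr_fun h p

theorem redE_Uev_eq_zero_iff (p : (↥(S0 A E))[X]) :
    redE M A E (Uev M A E p) = 0 ↔ p.map (resS A E) = 0 := by
  rw [redE_Uev, H516.evJ_eq_zero_iff]

/-- Every polynomial over `Rc` comes from a polynomial over `A ∩ E`. -/
theorem evR_eq_toOm_Uev (p : (↥(Rc M A E))[X]) :
    evR (Rc M A E) (jOm M) p =
      toOm M A E (Uev M A E (p.map ((eRc M A E).symm : ↥(Rc M A E) →+* ↥(S0 A E)))) := by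
  rw [toOm_Uev, Polynomial.map_map]
  have : ((eRc M A E : ↥(S0 A E) →+* ↥(Rc M A E)).comp
      ((eRc M A E).symm : ↥(Rc M A E) →+* ↥(S0 A E))) = RingHom.id _ := by
    ext c
    simp
  rw [this, Polynomial.map_id]

end Fermat.Agent.S18.Mod.H216

end
end
-- ===== PACK-END S18/Mod/H216/Eval.lean

-- ===== PACK-BEGIN S18/Mod/H216/Asm.lean
section




/-!
# S18 / MOD-ASM (helper216): node_mod from the six PARTS at the concrete objects

Targets for the MOD owners (exact statements; `E` ranges over ALL number fields `E ⊆ Q̄`):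

| part | statement to prove | content |
|---|---|---|
| G-R   | `PartRStatement M A`         | `A ∩ E` is a DVR of `E`, finite residue field (needs `A.LiesOverPrime ℓ`) |
| G-FLD | `PartFldStatement M x`       | constants, `x` transcendental, `[Fc : Ec(x)] < ∞` |
| G-V   | `PartVStatement M A x`       | `Vc M A E` is the Gauss valuation ring (needs S28 `CoreData`, i.e. `ℓ ∤ M`) |
| G-QEP | `PartQepStatement M A x`     | q-expansion principle on the charts `R[x]`, `R[x⁻¹]` |
| G-SEP | `PartSepStatement M A x`     | separability of the residue field of `Vc` over `κ(x̄)` |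
| G-BR  | `PartBrStatement M A x S`    | branch values |

`goodAt_of_parts` : the six statements give `GoodAt M A x S`.
`goodModelStatement_of_parts` : the frozen node `Mod.GoodModelStatement M ℓ A` from the six
statements for `x = j` (`ℓ ≥ 5`) and `GoodAt` for the Hauptmodul coordinates (`ℓ = 2, 3`; M3-T).
-/

set_option autoImplicit false

noncomputable section

namespace Fermat.Agent.S18.Mod.H216

open ModularCurve AlgebraicCurve HahnSeries Fermat.Agent.S18 Fermat.Agent.S18.Mod
open Fermat.Agent.S18.Alg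

/-- **G-R** at the concrete objects. -/
def PartRStatement (M : ℕ) (A : ValuationSubring Qb) : Prop :=
  ∀ E : IntermediateField ℚ Qb, FiniteDimensional ℚ E →
    ∃ w : Om M, PartR (Ec M E) (Rc M A E) w

/-- **G-FLD** at the concrete objects. -/
def PartFldStatement (M : ℕ) (x : Om M) : Prop :=
  ∀ E : IntermediateField ℚ Qb, FiniteDimensional ℚ E →
    PartFld (Lc M) (Ec M E) (Fc M E) x

/-- **G-V** at the concrete objects, for every uniformiser `w`. -/
def PartVStatement (M : ℕ) (A : ValuationSubring Qb) (x : Om M) : Prop :=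
  ∀ E : IntermediateField ℚ Qb, FiniteDimensional ℚ E →
    ∀ w : Om M, PartR (Ec M E) (Rc M A E) w →
      PartV (Fc M E) (Rc M A E) (Vc M A E) w x

/-- **G-QEP** at the concrete objects, for every uniformiser `w`. -/
def PartQepStatement (M : ℕ) (A : ValuationSubring Qb) (x : Om M) : Prop :=
  ∀ E : IntermediateField ℚ Qb, FiniteDimensional ℚ E →
    ∀ w : Om M, PartR (Ec M E) (Rc M A E) w →
      PartQep (Fc M E) (Rc M A E) (Vc M A E) w x

/-- **G-SEP** at the concrete objects, for every uniformiser `w`. -/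
def PartSepStatement (M : ℕ) (A : ValuationSubring Qb) (x : Om M) : Prop :=
  ∀ E : IntermediateField ℚ Qb, FiniteDimensional ℚ E →
    ∀ w : Om M, PartR (Ec M E) (Rc M A E) w →
      PartSep (Rc M A E) (Vc M A E) w x

/-- **G-BR** at the concrete objects. -/
def PartBrStatement (M : ℕ) (A : ValuationSubring Qb) (x : Om M) (S : Finset (Om M)) : Prop :=
  ∀ E : IntermediateField ℚ Qb, FiniteDimensional ℚ E →
    PartBr (Lc M) (Rc M A E) x S

theorem charZero_Om (M : ℕ) : CharZero (Om M) :=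
  charZero_of_injective_algebraMap (algebraMap Qb (Om M)).injective

/-- The six parts give `GoodAt`. -/
theorem goodAt_of_parts {M : ℕ} {A : ValuationSubring Qb} {x : Om M} {S : Finset (Om M)}
    (hR : PartRStatement M A) (hF : PartFldStatement M x) (hV : PartVStatement M A x)
    (hQ : PartQepStatement M A x) (hS : PartSepStatement M A x)
    (hB : PartBrStatement M A x S) : GoodAt M A x S := by
  intro E hE
  obtain ⟨w, hw⟩ := hR E hE
  exact ⟨Vc M A E, w, coe_Vc M A E,
    goodModel_of_parts (charZero_Om M) hw (hF E hE) (hV E hE w hw) (hQ E hE w hw)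
      (hS E hE w hw) (hB E hE)⟩

/-- **MOD assembly**: the frozen node `Mod.GoodModelStatement M ℓ A` from the parts for the
coordinate `j` (used when `ℓ ≥ 5`) and `GoodAt` for the Hauptmodul coordinates (`ℓ = 2, 3`). -/
theorem goodModelStatement_of_parts (M ℓ : ℕ) (A : ValuationSubring Qb)
    (hR : 5 ≤ ℓ → PartRStatement M A)
    (hF : 5 ≤ ℓ → PartFldStatement M (jOm M))
    (hV : 5 ≤ ℓ → PartVStatement M A (jOm M))
    (hQ : 5 ≤ ℓ → PartQepStatement M A (jOm M))
    (hS : 5 ≤ ℓ → PartSepStatement M A (jOm M))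
    (hB : 5 ≤ ℓ → ∀ S : Finset (Om M), (∀ s, s ∈ S ↔ s = 0 ∨ s = 1728) →
      PartBrStatement M A (jOm M) S)
    (ht : ¬ 5 ≤ ℓ → ∀ (x : Om M) (S : Finset (Om M)), IsCoordinate M ℓ x S → GoodAt M A x S) :
    GoodModelStatement M ℓ A := by
  refine goodModelStatement_of_goodAt M ℓ A fun x S hxS => ?_
  by_cases h5 : 5 ≤ ℓ
  · rcases hxS with ⟨-, rfl, hS'⟩ | ⟨h | h, -⟩
    · exact goodAt_of_parts (hR h5) (hF h5) (hV h5) (hQ h5) (hS h5) (hB h5 S hS')
    · omega
    · omega
  · exact ht h5 x S hxS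

end Fermat.Agent.S18.Mod.H216

end
end
-- ===== PACK-END S18/Mod/H216/Asm.lean

-- ===== PACK-BEGIN S18/H107/Base.lean
section






/-!
# helper107 — S18 / M3-T : `BaseModel107` = `GoodModel` without the branch-set fields

`BaseModel107 Lc Ec Fc R V w x` consists of all fields of the frozen `Alg.GoodModel` (v4) except
`S_mem`, `S_distinct`, `S_unit`, `unramified`.  For `x = j` it holds for every `ℓ ∤ M`
(including `ℓ = 2, 3`, where `GoodModel … j {0, 1728}` is FALSE because `0 ≡ 1728`).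

Generic transfer lemmas `j ↦ t` for the easy fields: `transcendental`, `finite`, `separable`,
`t ∈ V` (integral closedness of `V` in `Fc`).
-/

set_option autoImplicit false

namespace Fermat.Agent.S18.H107

open Polynomial Fermat.Agent.S18.Alg

variable {Ω : Type*} [Field Ω]

/-- All fields of `Alg.GoodModel` that do not mention the branch set `S`. -/
structure BaseModel107 (Lc Ec Fc : Subfield Ω) (R V : Subring Ω) (w x : Ω) : Prop where
  charZero : CharZero Ω
  R_le : (R : Set Ω) ⊆ Ec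
  R_total : ∀ e ∈ Ec, e ∈ R ∨ e⁻¹ ∈ R
  w_mem : w ∈ R
  w_ne_zero : w ≠ 0
  w_inv_not_mem : w⁻¹ ∉ R
  w_gen : ∀ r ∈ R, r⁻¹ ∉ R → r * w⁻¹ ∈ R
  w_discrete : ∀ r ∈ R, r ≠ 0 → ∃ n : ℕ, r * (w⁻¹) ^ n ∈ R ∧ (r * (w⁻¹) ^ n)⁻¹ ∈ R
  residue_perfect : ∃ p : ℕ, p.Prime ∧ (p : Ω) * w⁻¹ ∈ R ∧
    ∀ r ∈ R, ∃ s ∈ R, (r - s ^ p) * w⁻¹ ∈ R
  E_le_L : Ec ≤ Lc
  E_le_F : Ec ≤ Fc
  L_algebraic : ∀ a ∈ Lc, IsAlgebraic Ec a
  L_algClosed : IsAlgClosed Lc
  E_closed_in_F : ∀ f ∈ Fc, IsAlgebraic Ec f → f ∈ Ec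
  compositum : Subfield.closure ((Fc : Set Ω) ∪ Lc) = ⊤
  x_mem : x ∈ Fc
  x_transcendental : Transcendental Lc x
  finite : ∃ s : Finset Ω, (s : Set Ω) ⊆ Fc ∧
    ∀ f ∈ Fc, f ∈ Submodule.span (ratField Ec x) (s : Set Ω)
  V_le : (V : Set Ω) ⊆ Fc
  V_total : ∀ f ∈ Fc, f ∈ V ∨ f⁻¹ ∈ V
  R_le_V : R ≤ V
  w_inv_not_mem_V : w⁻¹ ∉ V
  V_gen : ∀ f ∈ V, f⁻¹ ∉ V → f * w⁻¹ ∈ V
  x_mem_V : x ∈ V
  gauss : ∀ P : Polynomial Ω, (∀ i, P.coeff i ∈ R) → (∃ i, P.coeff i ≠ 0 ∧ (P.coeff i)⁻¹ ∈ R) →
    (P.eval x)⁻¹ ∈ V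
  qep_fin : ∀ b ∈ chart Fc R x, b * w⁻¹ ∈ V → b * w⁻¹ ∈ chart Fc R x
  qep_inf : ∀ b ∈ chart Fc R x⁻¹, b * w⁻¹ ∈ V → b * w⁻¹ ∈ chart Fc R x⁻¹
  separable : ∀ f ∈ V, ∃ P : Polynomial Ω, (∀ i, P.coeff i ∈ polyRing R x) ∧
    P.eval f * w⁻¹ ∈ V ∧ (Polynomial.derivative P).eval f ≠ 0 ∧
    ((Polynomial.derivative P).eval f)⁻¹ ∈ V

theorem baseModel_of_goodModel107 {Lc Ec Fc : Subfield Ω} {R V : Subring Ω} {w x : Ω}
    {S : Finset Ω} (h : GoodModel Lc Ec Fc R V w x S) : BaseModel107 Lc Ec Fc R V w x where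
  charZero := h.charZero
  R_le := h.R_le
  R_total := h.R_total
  w_mem := h.w_mem
  w_ne_zero := h.w_ne_zero
  w_inv_not_mem := h.w_inv_not_mem
  w_gen := h.w_gen
  w_discrete := h.w_discrete
  residue_perfect := h.residue_perfect
  E_le_L := h.E_le_L
  E_le_F := h.E_le_F
  L_algebraic := h.L_algebraic
  L_algClosed := h.L_algClosed
  E_closed_in_F := h.E_closed_in_F
  compositum := h.compositum
  x_mem := h.x_mem
  x_transcendental := h.x_transcendental
  finite := h.finite
  V_le := h.V_le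
  V_total := h.V_total
  R_le_V := h.R_le_V
  w_inv_not_mem_V := h.w_inv_not_mem_V
  V_gen := h.V_gen
  x_mem_V := h.x_mem_V
  gauss := h.gauss
  qep_fin := h.qep_fin
  qep_inf := h.qep_inf
  separable := h.separable

theorem BaseModel107.toGoodModel {Lc Ec Fc : Subfield Ω} {R V : Subring Ω} {w x : Ω}
    (h : BaseModel107 Lc Ec Fc R V w x) (S : Finset Ω) (S_mem : ∀ s ∈ S, s ∈ R)
    (S_distinct : ∀ s ∈ S, ∀ t ∈ S, s ≠ t → (s - t)⁻¹ ∈ R)
    (S_unit : ∀ s ∈ S, s ≠ 0 → s⁻¹ ∈ R)
    (unramified : ∀ O : ValuationSubring Ω, (∀ a ∈ Lc, a ∈ O) → ∀ c ∈ Lc, c ∉ S →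
      x - c ∈ O → (x - c)⁻¹ ∉ O → ∀ t ∈ O, t⁻¹ ∉ O → t * (x - c)⁻¹ ∈ O) :
    GoodModel Lc Ec Fc R V w x S where
  charZero := h.charZero
  R_le := h.R_le
  R_total := h.R_total
  w_mem := h.w_mem
  w_ne_zero := h.w_ne_zero
  w_inv_not_mem := h.w_inv_not_mem
  w_gen := h.w_gen
  w_discrete := h.w_discrete
  residue_perfect := h.residue_perfect
  E_le_L := h.E_le_L
  E_le_F := h.E_le_F
  L_algebraic := h.L_algebraic
  L_algClosed := h.L_algClosed
  E_closed_in_F := h.E_closed_in_F
  compositum := h.compositum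
  x_mem := h.x_mem
  x_transcendental := h.x_transcendental
  finite := h.finite
  V_le := h.V_le
  V_total := h.V_total
  R_le_V := h.R_le_V
  w_inv_not_mem_V := h.w_inv_not_mem_V
  V_gen := h.V_gen
  x_mem_V := h.x_mem_V
  gauss := h.gauss
  qep_fin := h.qep_fin
  qep_inf := h.qep_inf
  separable := h.separable
  S_mem := S_mem
  S_distinct := S_distinct
  S_unit := S_unit
  unramified := unramified

/-- A subring `V` that is "total at `b`" contains `b` as soon as `b` is integral over a subring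
of `V` (valuation rings are integrally closed). -/
theorem mem_of_isIntegral_of_total107 (V T : Subring Ω) (hT : T ≤ V) {b : Ω}
    (hb : b ∈ V ∨ b⁻¹ ∈ V) (hint : IsIntegral T b) : b ∈ V := by
  rcases hb with h | h
  · exact h
  obtain ⟨P, hP, hc, hPb⟩ := (isIntegral_iff_exists_poly107 T b).1 hint
  rcases eq_or_ne b 0 with rfl | hb0
  · exact V.zero_mem
  have hn : P.natDegree ≠ 0 := by
    intro h0
    have h1 : P = 1 := by
      have := Polynomial.eq_C_of_natDegree_eq_zero h0
      rw [this, ← h0]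
      have hl : P.coeff P.natDegree = 1 := hP
      rw [hl, map_one]
    rw [h1, eval_one] at hPb
    exact one_ne_zero hPb
  obtain ⟨n, hn'⟩ := Nat.exists_eq_succ_of_ne_zero hn
  rw [eval_eq_sum_range, hn', Finset.sum_range_succ] at hPb
  have hlead : P.coeff (n + 1) = 1 := by
    have : P.coeff P.natDegree = 1 := hP
    rwa [hn'] at this
  rw [hlead, one_mul] at hPb
  -- `b = - ∑ i < n+1, a_i * (b⁻¹) ^ (n - i)`
  have key : b = -∑ i ∈ Finset.range (n + 1), P.coeff i * (b⁻¹) ^ (n - i) := by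
    have h1 : b ^ (n + 1) = -∑ i ∈ Finset.range (n + 1), P.coeff i * b ^ i := by
      linear_combination hPb
    calc b = b ^ (n + 1) * (b⁻¹) ^ n := by
          rw [pow_succ, inv_pow]
          field_simp
      _ = (-∑ i ∈ Finset.range (n + 1), P.coeff i * b ^ i) * (b⁻¹) ^ n := by rw [h1]
      _ = -∑ i ∈ Finset.range (n + 1), P.coeff i * (b⁻¹) ^ (n - i) := by
          rw [neg_mul, Finset.sum_mul]
          congr 1
          refine Finset.sum_congr rfl fun i hi => ?_
          have hi' : i ≤ n := Nat.lt_succ_iff.1 (Finset.mem_range.1 hi)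
          have e : (b⁻¹) ^ n = (b⁻¹) ^ i * (b⁻¹) ^ (n - i) := by
            rw [← pow_add, Nat.add_sub_cancel' hi']
          rw [e, mul_assoc, ← mul_assoc (b ^ i), inv_pow b i,
            mul_inv_cancel₀ (pow_ne_zero _ hb0), one_mul]
  rw [key]
  refine V.neg_mem (V.sum_mem fun i _ => V.mul_mem (hT (hc i)) (V.pow_mem h _))

theorem ratField_le107 {Ec : Subfield Ω} {x y : Ω} (h : x ∈ ratField Ec y) :
    ratField Ec x ≤ ratField Ec y := by
  refine Subfield.closure_le.2 ?_
  rintro c (hc | hc)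
  · exact Subfield.subset_closure (Or.inl hc)
  · rw [Set.mem_singleton_iff] at hc
    rw [hc]
    exact h

theorem self_mem_ratField107 (Ec : Subfield Ω) (x : Ω) : x ∈ ratField Ec x :=
  Subfield.subset_closure (Or.inr rfl)

theorem natCast_mem_ratField107 (Ec : Subfield Ω) (x : Ω) (n : ℕ) [n.AtLeastTwo] :
    (OfNat.ofNat n : Ω) ∈ ratField Ec x := ofNat_mem _ n

/-- Spans over a bigger subfield are bigger. -/
theorem span_mono_subfield107 {K₁ K₂ : Subfield Ω} (h : K₁ ≤ K₂) (s : Set Ω) {f : Ω}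
    (hf : f ∈ Submodule.span K₁ s) : f ∈ Submodule.span K₂ s := by
  induction hf using Submodule.span_induction with
  | mem x hx => exact Submodule.subset_span hx
  | zero => exact Submodule.zero_mem _
  | add x y _ _ hx hy => exact Submodule.add_mem _ hx hy
  | smul a x _ hx =>
    have : a • x = (⟨(a : Ω), h a.2⟩ : K₂) • x := rfl
    rw [this]
    exact Submodule.smul_mem _ _ hx

theorem finite_transfer107 {Ec Fc : Subfield Ω} {j t : Ω} (hj : j ∈ ratField Ec t)
    (h : ∃ s : Finset Ω, (s : Set Ω) ⊆ Fc ∧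
      ∀ f ∈ Fc, f ∈ Submodule.span (ratField Ec j) (s : Set Ω)) :
    ∃ s : Finset Ω, (s : Set Ω) ⊆ Fc ∧
      ∀ f ∈ Fc, f ∈ Submodule.span (ratField Ec t) (s : Set Ω) := by
  obtain ⟨s, hs, hspan⟩ := h
  exact ⟨s, hs, fun f hf => span_mono_subfield107 (ratField_le107 hj) _ (hspan f hf)⟩

/-- `separable` passes from `j` to `t` when `j * e ∈ R[t]` for some `e ∈ R[t]` that is a unit
of `V`. -/
theorem separable_transfer107 {R V : Subring Ω} {w j t e : Ω} (he : e ∈ polyRing R t)
    (hje : j * e ∈ polyRing R t) (heV : e ∈ V) (heV' : e⁻¹ ∈ V) (he0 : e ≠ 0)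
    (h : ∀ f ∈ V, ∃ P : Polynomial Ω, (∀ i, P.coeff i ∈ polyRing R j) ∧
      P.eval f * w⁻¹ ∈ V ∧ (Polynomial.derivative P).eval f ≠ 0 ∧
      ((Polynomial.derivative P).eval f)⁻¹ ∈ V) :
    ∀ f ∈ V, ∃ P : Polynomial Ω, (∀ i, P.coeff i ∈ polyRing R t) ∧
      P.eval f * w⁻¹ ∈ V ∧ (Polynomial.derivative P).eval f ≠ 0 ∧
      ((Polynomial.derivative P).eval f)⁻¹ ∈ V := by
  intro f hf
  obtain ⟨P, hc, hPf, hd0, hdV⟩ := h f hf
  have hex : ∀ i, ∃ d : ℕ, ∀ d', d ≤ d' → P.coeff i * e ^ d' ∈ polyRing R t := fun i =>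
    exists_pow_mul_mem107 (le_polyRing107 R t) he hje (hc i)
  choose d hd using hex
  set D := (Finset.range (P.natDegree + 1)).sup d with hD
  have hDi : ∀ i, P.coeff i * e ^ D ∈ polyRing R t := by
    intro i
    by_cases hi : i ∈ Finset.range (P.natDegree + 1)
    · exact hd i D (Finset.le_sup hi)
    · rw [Finset.mem_range, not_lt] at hi
      rw [coeff_eq_zero_of_natDegree_lt (by omega), zero_mul]
      exact Subring.zero_mem _
  refine ⟨C (e ^ D) * P, fun i => ?_, ?_, ?_, ?_⟩
  · rw [coeff_C_mul, mul_comm]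
    exact hDi i
  · rw [eval_mul, eval_C, mul_assoc]
    exact V.mul_mem (V.pow_mem heV D) hPf
  · rw [derivative_C_mul, eval_mul, eval_C]
    exact mul_ne_zero (pow_ne_zero _ he0) hd0
  · rw [derivative_C_mul, eval_mul, eval_C, mul_inv, ← inv_pow]
    exact V.mul_mem (V.pow_mem heV' D) hdV

end Fermat.Agent.S18.H107

end
-- ===== PACK-END S18/H107/Base.lean

-- ===== PACK-BEGIN S18/H107/T2Qep.lean
section






/-!
# helper107 — S18 / M3-T : QEP for the Hauptmodul `t = t₂` of `X₀(2)` (case `ℓ = 3`)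

Input: the relation `j * t ^ 2 = (t + 256) ^ 3`, `2⁻¹ ∈ R`, QEP for the charts of `j` and `j⁻¹`.
Output: QEP for the charts of `t` and `t⁻¹` (`qep_t2_fin107`, `qep_t2_inf107`).
-/

set_option autoImplicit false

namespace Fermat.Agent.S18.H107

open Polynomial Fermat.Agent.S18.Alg

variable {Ω : Type*} [Field Ω]

/-- The Hauptmodul relation for `X₀(2)` together with the needed side conditions. -/
structure HauptT2107 (Fc : Subfield Ω) (R V : Subring Ω) (j t : Ω) : Prop where
  rel : j * t ^ 2 = (t + 256) ^ 3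
  two_inv : (2 : Ω)⁻¹ ∈ R
  two_ne : (2 : Ω) ≠ 0
  j_ne : j ≠ 0
  t_mem_Fc : t ∈ Fc
  t_mem_V : t ∈ V
  t256_inv_mem_V : (t + 256)⁻¹ ∈ V

namespace HauptT2107

variable {Fc : Subfield Ω} {R V : Subring Ω} {j t : Ω}

theorem c256_ne (h : HauptT2107 Fc R V j t) : (256 : Ω) ≠ 0 := by
  have : (256 : Ω) = 2 ^ 8 := by norm_num
  rw [this]
  exact pow_ne_zero _ h.two_ne

theorem inv256_mem (h : HauptT2107 Fc R V j t) : (256 : Ω)⁻¹ ∈ R := by
  have := R.pow_mem h.two_inv 8
  have e : ((2 : Ω)⁻¹) ^ 8 = (256 : Ω)⁻¹ := by norm_num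
  rwa [e] at this

theorem t_ne (h : HauptT2107 Fc R V j t) : t ≠ 0 := by
  intro ht
  have := h.rel
  rw [ht] at this
  have h256 := h.c256_ne
  have h3 : (256 : Ω) ^ 3 = 0 := by
    have e : ((0 : Ω) + 256) ^ 3 = 256 ^ 3 := by ring
    rw [← e, ← this]
    ring
  exact h256 (pow_eq_zero_iff (by norm_num) |>.1 h3)

theorem t256_ne (h : HauptT2107 Fc R V j t) : t + 256 ≠ 0 := by
  intro ht
  have := h.rel
  rw [ht] at this
  have h0 : j * t ^ 2 = 0 := by rw [this]; ring
  rcases mul_eq_zero.1 h0 with hj | ht0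
  · exact h.j_ne hj
  · exact h.t_ne (pow_eq_zero_iff (by norm_num) |>.1 ht0)

/-- `t` is integral over `R[j]`. -/
theorem t_int (h : HauptT2107 Fc R V j t) : t ∈ intCl107 (polyRing R j) := by
  refine mem_intCl_of_cubic107 _ t (768 - j) 196608 16777216 ?_ (ofNat_mem _ _) (ofNat_mem _ _) ?_
  · exact Subring.sub_mem _ (ofNat_mem _ _) (self_mem_polyRing107 R j)
  · linear_combination -h.rel

/-- `h = t / (t + 256)` is integral over `R[j⁻¹]`. -/
theorem h_int (h : HauptT2107 Fc R V j t) : t * (t + 256)⁻¹ ∈ intCl107 (polyRing R j⁻¹) := by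
  refine mem_intCl_of_cubic107 _ _ (-1) 0 (256 * j⁻¹) ?_ (Subring.zero_mem _) ?_ ?_
  · exact Subring.neg_mem _ (Subring.one_mem _)
  · exact Subring.mul_mem _ (ofNat_mem _ _) (self_mem_polyRing107 R j⁻¹)
  · have hj := h.j_ne
    have ht := h.t256_ne
    field_simp
    linear_combination (-256 : Ω) * h.rel

/-- `t⁻¹` is integral over `R[j]` (uses `2⁻¹ ∈ R`). -/
theorem tinv_int (h : HauptT2107 Fc R V j t) : t⁻¹ ∈ intCl107 (polyRing R j) := by
  have h256 := h.inv256_mem
  have hR := le_polyRing107 R j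
  refine mem_intCl_of_cubic107 _ _ (3 * (256 : Ω)⁻¹) ((768 - j) * ((256 : Ω)⁻¹) ^ 3)
    (((256 : Ω)⁻¹) ^ 3) ?_ ?_ ?_ ?_
  · exact Subring.mul_mem _ (ofNat_mem _ _) (hR h256)
  · exact Subring.mul_mem _ (Subring.sub_mem _ (ofNat_mem _ _) (self_mem_polyRing107 R j))
      (Subring.pow_mem _ (hR h256) 3)
  · exact Subring.pow_mem _ (hR h256) 3
  · have ht := h.t_ne
    have hc := h.c256_ne
    field_simp
    linear_combination -h.rel

theorem open1_fin (h : HauptT2107 Fc R V j t) : OpenData107 Fc R V t j t 1 where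
  g_mem := self_mem_polyRing107 R t
  e_mem_Fc := Fc.one_mem
  e_mem_V := V.one_mem
  e_int := Subring.one_mem _
  xe_int := by rw [mul_one]; exact h.t_int
  y_loc := ⟨2, by
    rw [h.rel]
    exact le_intCl107 _ (Subring.pow_mem _
      (Subring.add_mem _ (self_mem_polyRing107 R t) (ofNat_mem _ _)) 3)⟩
  e_inv := ⟨1, Subring.one_mem _, 0, by simp⟩

theorem open2_fin (h : HauptT2107 Fc R V j t) :
    OpenData107 Fc R V t j⁻¹ (t + 256) (256 * (t + 256)⁻¹) where
  g_mem := Subring.add_mem _ (self_mem_polyRing107 R t) (ofNat_mem _ _)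
  e_mem_Fc := Fc.mul_mem (ofNat_mem _ _)
    (Fc.inv_mem (Fc.add_mem h.t_mem_Fc (ofNat_mem _ _)))
  e_mem_V := V.mul_mem (ofNat_mem _ _) h.t256_inv_mem_V
  e_int := by
    have e : 256 * (t + 256)⁻¹ = 1 - t * (t + 256)⁻¹ := by
      have ht := h.t256_ne
      field_simp
      ring
    rw [e]
    exact Subring.sub_mem _ (Subring.one_mem _) h.h_int
  xe_int := by
    have e : t * (256 * (t + 256)⁻¹) = 256 * (t * (t + 256)⁻¹) := by ring
    rw [e]
    exact Subring.mul_mem _ (ofNat_mem _ _) h.h_int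
  y_loc := ⟨3, by
    have e : j⁻¹ * (t + 256) ^ 3 = t ^ 2 := by
      have hj := h.j_ne
      field_simp
      linear_combination -h.rel
    rw [e]
    exact le_intCl107 _ (Subring.pow_mem _ (self_mem_polyRing107 R t) 2)⟩
  e_inv := ⟨(t + 256) * (256 : Ω)⁻¹,
    le_intCl107 _ (Subring.mul_mem _ (Subring.add_mem _ (self_mem_polyRing107 R t) (ofNat_mem _ _))
      (le_polyRing107 R t h.inv256_mem)), 0, by
    have ht := h.t256_ne
    have hc := h.c256_ne
    field_simp⟩

theorem open1_inf (h : HauptT2107 Fc R V j t) : OpenData107 Fc R V t⁻¹ j t⁻¹ 1 where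
  g_mem := self_mem_polyRing107 R t⁻¹
  e_mem_Fc := Fc.one_mem
  e_mem_V := V.one_mem
  e_int := Subring.one_mem _
  xe_int := by rw [mul_one]; exact h.tinv_int
  y_loc := ⟨1, by
    have e : j * t⁻¹ ^ 1 = (1 + 256 * t⁻¹) ^ 3 := by
      have ht := h.t_ne
      field_simp
      linear_combination h.rel
    rw [e]
    exact le_intCl107 _ (Subring.pow_mem _ (Subring.add_mem _ (Subring.one_mem _)
      (Subring.mul_mem _ (ofNat_mem _ _) (self_mem_polyRing107 R t⁻¹))) 3)⟩
  e_inv := ⟨1, Subring.one_mem _, 0, by simp⟩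

theorem open2_inf (h : HauptT2107 Fc R V j t) :
    OpenData107 Fc R V t⁻¹ j⁻¹ (1 + 256 * t⁻¹) (t * (t + 256)⁻¹) where
  g_mem := Subring.add_mem _ (Subring.one_mem _)
    (Subring.mul_mem _ (ofNat_mem _ _) (self_mem_polyRing107 R t⁻¹))
  e_mem_Fc := Fc.mul_mem h.t_mem_Fc (Fc.inv_mem (Fc.add_mem h.t_mem_Fc (ofNat_mem _ _)))
  e_mem_V := V.mul_mem h.t_mem_V h.t256_inv_mem_V
  e_int := h.h_int
  xe_int := by
    have e : t⁻¹ * (t * (t + 256)⁻¹) = (1 - t * (t + 256)⁻¹) * (256 : Ω)⁻¹ := by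
      have ht := h.t_ne
      have ht' := h.t256_ne
      have hc := h.c256_ne
      field_simp
      ring
    rw [e]
    exact Subring.mul_mem _ (Subring.sub_mem _ (Subring.one_mem _) h.h_int)
      (le_intCl107 _ (le_polyRing107 R j⁻¹ h.inv256_mem))
  y_loc := ⟨3, by
    have e : j⁻¹ * (1 + 256 * t⁻¹) ^ 3 = t⁻¹ := by
      have hj := h.j_ne
      have ht := h.t_ne
      field_simp
      linear_combination -h.rel
    rw [e]
    exact le_intCl107 _ (self_mem_polyRing107 R t⁻¹)⟩
  e_inv := ⟨1 + 256 * t⁻¹, le_intCl107 _ (Subring.add_mem _ (Subring.one_mem _)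
      (Subring.mul_mem _ (ofNat_mem _ _) (self_mem_polyRing107 R t⁻¹))), 0, by
    have ht := h.t_ne
    have ht' := h.t256_ne
    field_simp⟩

/-- **QEP for the chart of `t₂`.** -/
theorem qep_fin (h : HauptT2107 Fc R V j t) {w : Ω} (hw : w ∈ Fc)
    (q₁ : Qep107 Fc R V w j) (q₂ : Qep107 Fc R V w j⁻¹) : Qep107 Fc R V w t := by
  refine qep_transfer107 (a := -(256 : Ω)⁻¹) (b := (256 : Ω)⁻¹) hw q₁ q₂ h.open1_fin h.open2_fin
    (Subring.neg_mem _ (le_polyRing107 R t h.inv256_mem)) (le_polyRing107 R t h.inv256_mem) ?_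
  have hc := h.c256_ne
  field_simp
  ring

/-- **QEP for the chart of `t₂⁻¹`.** -/
theorem qep_inf (h : HauptT2107 Fc R V j t) {w : Ω} (hw : w ∈ Fc)
    (q₁ : Qep107 Fc R V w j) (q₂ : Qep107 Fc R V w j⁻¹) : Qep107 Fc R V w t⁻¹ := by
  refine qep_transfer107 (a := -256) (b := 1) hw q₁ q₂ h.open1_inf h.open2_inf
    (Subring.neg_mem _ (ofNat_mem _ _)) (Subring.one_mem _) ?_
  ring

end HauptT2107

end Fermat.Agent.S18.H107

end
-- ===== PACK-END S18/H107/T2Qep.lean

-- ===== PACK-BEGIN S18/H107/T2Model.lean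
section






/-!
# helper107 — S18 / M3-T : the good model for the coordinate `t₂` (case `ℓ = 3`)

`goodModel_t2_107` : from the `j`-model WITHOUT branch-set fields (`BaseModel107 … j`, true for
every `ℓ ∤ M`), the branch data of the `j`-line in characteristic `0` (`BranchJ107`), the identity
`j t² = (t + 256)³`, `2⁻¹ ∈ R`, `t ∈ Fc ∩ V` and the Gauss property of `t`, we get the frozen
`Alg.GoodModel Lc Ec Fc R V w t S` with `S = {0, -64}`.
-/

set_option autoImplicit false

namespace Fermat.Agent.S18.H107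

open Polynomial Fermat.Agent.S18.Alg

variable {Ω : Type*} [Field Ω]

theorem ne_zero_of_transcendental107 {Lc : Subfield Ω} {j : Ω} (h : Transcendental Lc j) :
    j ≠ 0 := by
  rintro rfl
  exact h isAlgebraic_zero

/-- `gauss` applied to `X + C a`. -/
theorem gauss_X_add_C107 {R V : Subring Ω} {t : Ω}
    (hgauss : ∀ P : Polynomial Ω, (∀ i, P.coeff i ∈ R) →
      (∃ i, P.coeff i ≠ 0 ∧ (P.coeff i)⁻¹ ∈ R) → (P.eval t)⁻¹ ∈ V)
    {a : Ω} (ha : a ∈ R) : (t + a)⁻¹ ∈ V := by
  have := hgauss (X + C a) (fun i => ?_) ⟨1, ?_, ?_⟩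
  · simpa using this
  · rw [coeff_add, coeff_X, coeff_C]
    split_ifs
    · exact R.add_mem R.one_mem ha
    · exact R.add_mem R.one_mem R.zero_mem
    · exact R.add_mem R.zero_mem ha
    · exact R.add_mem R.zero_mem R.zero_mem
  · simp [coeff_X]
  · simp [coeff_X, R.one_mem]

theorem gauss_X107 {R V : Subring Ω} {t : Ω}
    (hgauss : ∀ P : Polynomial Ω, (∀ i, P.coeff i ∈ R) →
      (∃ i, P.coeff i ≠ 0 ∧ (P.coeff i)⁻¹ ∈ R) → (P.eval t)⁻¹ ∈ V) : t⁻¹ ∈ V := by
  have := gauss_X_add_C107 hgauss R.zero_mem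
  rwa [add_zero] at this

theorem goodModel_t2_107 {Lc Ec Fc : Subfield Ω} {R V : Subring Ω} {w j t : Ω} {S : Finset Ω}
    (hb : BaseModel107 Lc Ec Fc R V w j) (hB : BranchJ107 Lc j)
    (hrel : j * t ^ 2 = (t + 256) ^ 3) (htF : t ∈ Fc) (htV : t ∈ V) (h2 : (2 : Ω)⁻¹ ∈ R)
    (hgauss : ∀ P : Polynomial Ω, (∀ i, P.coeff i ∈ R) →
      (∃ i, P.coeff i ≠ 0 ∧ (P.coeff i)⁻¹ ∈ R) → (P.eval t)⁻¹ ∈ V)
    (hS : ∀ s, s ∈ S ↔ s = 0 ∨ s = -64) :
    GoodModel Lc Ec Fc R V w t S := by
  have := hb.charZero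
  have hj0 : j ≠ 0 := ne_zero_of_transcendental107 hb.x_transcendental
  have hH : HauptT2107 Fc R V j t :=
    { rel := hrel
      two_inv := h2
      two_ne := two_ne_zero
      j_ne := hj0
      t_mem_Fc := htF
      t_mem_V := htV
      t256_inv_mem_V := gauss_X_add_C107 hgauss (ofNat_mem R 256) }
  have ht0 : t ≠ 0 := hH.t_ne
  have hwF : w ∈ Fc := hb.E_le_F (hb.R_le hb.w_mem)
  have htinvV : t⁻¹ ∈ V := gauss_X107 hgauss
  have h64 : (64 : Ω)⁻¹ ∈ R := by
    have := R.pow_mem h2 6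
    have e : ((2 : Ω)⁻¹) ^ 6 = (64 : Ω)⁻¹ := by norm_num
    rwa [e] at this
  -- `j ∈ Ec(t)`
  have hjrat : j ∈ ratField Ec t := by
    have e : j = (t + 256) ^ 3 * (t ^ 2)⁻¹ := by
      field_simp
      linear_combination hrel
    rw [e]
    have ht := self_mem_ratField107 Ec t
    exact mul_mem (pow_mem (add_mem ht (ofNat_mem _ 256)) 3) (inv_mem (pow_mem ht 2))
  -- transcendence of `t`
  have htr : Transcendental Lc t := by
    intro halg
    apply hb.x_transcendental
    have e : j = (t + 256) ^ 3 * (t ^ 2)⁻¹ := by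
      field_simp
      linear_combination hrel
    rw [e]
    have h256 : IsAlgebraic Lc (256 : Ω) := by
      have : (256 : Ω) = algebraMap Lc Ω (256 : Lc) := by
        rw [map_ofNat]
      rw [this]
      exact isAlgebraic_algebraMap _
    exact ((halg.add h256).pow 3).mul (halg.pow 2).inv
  refine (show BaseModel107 Lc Ec Fc R V w t from
    { charZero := hb.charZero
      R_le := hb.R_le
      R_total := hb.R_total
      w_mem := hb.w_mem
      w_ne_zero := hb.w_ne_zero
      w_inv_not_mem := hb.w_inv_not_mem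
      w_gen := hb.w_gen
      w_discrete := hb.w_discrete
      residue_perfect := hb.residue_perfect
      E_le_L := hb.E_le_L
      E_le_F := hb.E_le_F
      L_algebraic := hb.L_algebraic
      L_algClosed := hb.L_algClosed
      E_closed_in_F := hb.E_closed_in_F
      compositum := hb.compositum
      x_mem := htF
      x_transcendental := htr
      finite := finite_transfer107 hjrat hb.finite
      V_le := hb.V_le
      V_total := hb.V_total
      R_le_V := hb.R_le_V
      w_inv_not_mem_V := hb.w_inv_not_mem_V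
      V_gen := hb.V_gen
      x_mem_V := htV
      gauss := hgauss
      qep_fin := hH.qep_fin hwF hb.qep_fin hb.qep_inf
      qep_inf := hH.qep_inf hwF hb.qep_fin hb.qep_inf
      separable := separable_transfer107 (e := t ^ 2)
        (Subring.pow_mem _ (self_mem_polyRing107 R t) 2)
        (by
          rw [hrel]
          exact Subring.pow_mem _
            (Subring.add_mem _ (self_mem_polyRing107 R t) (ofNat_mem _ 256)) 3)
        (V.pow_mem htV 2) (by rw [← inv_pow]; exact V.pow_mem htinvV 2) (pow_ne_zero _ ht0)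
        hb.separable }).toGoodModel S ?_ ?_ ?_ ?_
  · intro s hs
    rcases (hS s).1 hs with rfl | rfl
    · exact R.zero_mem
    · exact R.neg_mem (ofNat_mem R 64)
  · intro s hs s' hs' hne
    rcases (hS s).1 hs with rfl | rfl <;> rcases (hS s').1 hs' with rfl | rfl
    · exact absurd rfl hne
    · have e : ((0 : Ω) - -64)⁻¹ = (64 : Ω)⁻¹ := by norm_num
      rw [e]
      exact h64
    · have e : ((-64 : Ω) - 0)⁻¹ = -(64 : Ω)⁻¹ := by
        rw [sub_zero, inv_neg]
      rw [e]
      exact R.neg_mem h64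
    · exact absurd rfl hne
  · intro s hs hs0
    rcases (hS s).1 hs with rfl | rfl
    · exact absurd rfl hs0
    · rw [inv_neg]
      exact R.neg_mem h64
  · intro O hL c hc hcS hz hz'
    have hc0 : c ≠ 0 := fun h => hcS ((hS c).2 (Or.inl h))
    have hc64 : c ≠ -64 := fun h => hcS ((hS c).2 (Or.inr h))
    exact unramified_t2_107 Lc j t hrel hB O hL c hc hc64 hc0 hz hz'

end Fermat.Agent.S18.H107

end
-- ===== PACK-END S18/H107/T2Model.lean

-- ===== PACK-BEGIN S18/H333/Sturm.lean
section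






/-!
# S18 / c3 (helper333): the formal level-2 / level-3 identities via the Sturm bound
-/

set_option autoImplicit false
set_option linter.unusedSectionVars false

noncomputable section

namespace Fermat.Agent.S18.H333

open UpperHalfPlane ModularForm CongruenceSubgroup MatrixGroups EisensteinSeries

/-- coefficient map `ℤ⟦X⟧ → ℂ⟦X⟧` -/
abbrev toCs : PowerSeries ℤ →+* PowerSeries ℂ := PowerSeries.map (Int.castRingHom ℂ)

theorem toCs_injective : Function.Injective toCs := by
  intro f g h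
  ext n
  have := congrArg (PowerSeries.coeff n) h
  simpa using this

theorem toCs_zsmul (c : ℤ) (f : PowerSeries ℤ) : toCs (c • f) = (c : ℂ) • toCs f := by
  ext n
  rw [PowerSeries.coeff_map, map_zsmul, PowerSeries.coeff_smul, PowerSeries.coeff_map]
  simp

theorem toCs_Vser (p : ℕ) (f : PowerSeries ℤ) : toCs (Vser p f) = Vser p (toCs f) :=
  Vser_map _ _ _

/-- `Δ` as a level-one modular form -/
def DeltaMF : ModularForm 𝒮ℒ 12 := CuspForm.toModularFormₗ CuspForm.discriminant

theorem qExpansion_E4 : qExpansion 1 E₄ = toCs Ez :=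
  Fermat.Agent.S28.H505.qExpansion_E₄_eq_e4C

theorem qExpansion_DeltaMF : qExpansion 1 DeltaMF = toCs Dz := by
  have h : qExpansion 1 DeltaMF = Fermat.Agent.S28.H505.deltaC :=
    Fermat.Agent.S28.H505.qExpansion_discriminant_eq_deltaC
  rw [h, Fermat.Agent.S28.H505.deltaC, Dz, map_mul, map_pow, PowerSeries.map_X]

variable (p : ℕ) [NeZero p]

local notation "Γp" => (Gamma0 p : Subgroup (GL (Fin 2) ℝ))

theorem qExp_restr {k : ℤ} (H : ModularForm 𝒮ℒ k) :
    qExpansion 1 (restr p H) = qExpansion 1 H := rfl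

theorem qExp_mul {a b : ℤ} (f : ModularForm Γp a) (g : ModularForm Γp b) :
    qExpansion 1 (f.mul g) = qExpansion 1 f * qExpansion 1 g :=
  ModularForm.qExpansion_mul one_pos (one_mem_strictPeriods_Gamma0 p) f g

theorem qExp_add {a : ℤ} (f g : ModularForm Γp a) :
    qExpansion 1 (⇑(f + g)) = qExpansion 1 f + qExpansion 1 g := by
  rw [FunLike.coe_add]
  exact ModularForm.qExpansion_add one_pos (one_mem_strictPeriods_Gamma0 p) f g

theorem qExp_sub {a : ℤ} (f g : ModularForm Γp a) :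
    qExpansion 1 (⇑(f - g)) = qExpansion 1 f - qExpansion 1 g := by
  rw [FunLike.coe_sub]
  exact ModularForm.qExpansion_sub one_pos (one_mem_strictPeriods_Gamma0 p) f g

theorem qExp_smul {a : ℤ} (c : ℂ) (f : ModularForm Γp a) :
    qExpansion 1 (⇑(c • f)) = c • qExpansion 1 f := by
  rw [FunLike.coe_smul]
  exact ModularForm.qExpansion_smul one_pos (one_mem_strictPeriods_Gamma0 p) c f

theorem qExp_pow {a : ℤ} (f : ModularForm Γp a) (n : ℕ) :
    qExpansion 1 (f.pow n) = qExpansion 1 f ^ n :=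
  ModularForm.qExpansion_pow one_pos (one_mem_strictPeriods_Gamma0 p) f n

/-- the Sturm bound in the form we use: vanishing of `q`-expansion coefficients below `n`
with `k * ψ(p) / 12 < n` forces a form whose `q`-expansion comes from `ℤ⟦X⟧` to vanish. -/
theorem series_eq_zero_of_sturm {k : ℤ} (F : ModularForm Γp k) (Φ : PowerSeries ℤ)
    (hF : qExpansion 1 F = toCs Φ) (n : ℕ)
    (hn : (k * ((Gamma0 p).index : ℤ)).toNat / 12 < n) (hΦ : tl n Φ = tzero n) : Φ = 0 := by
  have hzero : F = 0 := by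
    refine ModularForm.sturm_bound_Gamma0 p F fun m hm => ?_
    rw [hF, PowerSeries.coeff_map, (tl_eq_tzero_iff n Φ).mp hΦ m (lt_of_le_of_lt hm hn), map_zero]
  apply toCs_injective
  rw [map_zero, ← hF, hzero]
  exact qExpansion_zero 1

/-! ### level 2 -/

theorem index_Gamma0_two : (Gamma0 2).index = 3 := by
  rw [Fermat.Agent.S20.Comb.index_Gamma0]
  decide +kernel

theorem index_Gamma0_three : (Gamma0 3).index = 4 := by
  rw [Fermat.Agent.S20.Comb.index_Gamma0]
  decide +kernel

/-- `E₄³` on `Γ₀(p)`, weight 12 -/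
def EcubeF : ModularForm Γp 12 := ((restr p E₄).pow 3).mcast (by norm_num)

/-- `E₄(p·)³` on `Γ₀(p)`, weight 12 -/
def EpcubeF : ModularForm Γp 12 := ((raise p E₄).pow 3).mcast (by norm_num)

/-- `Δ` on `Γ₀(p)` -/
def XF : ModularForm Γp 12 := restr p DeltaMF

/-- `Δ(p·)` on `Γ₀(p)` -/
def YF : ModularForm Γp 12 := raise p DeltaMF

theorem qExp_EcubeF : qExpansion 1 (EcubeF p) = toCs (Ez ^ 3) := by
  rw [EcubeF, ModularForm.qExpansion_mcast, qExp_pow, qExp_restr, qExpansion_E4, map_pow]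

theorem qExp_EpcubeF : qExpansion 1 (EpcubeF p) = toCs (Vser p Ez ^ 3) := by
  rw [EpcubeF, ModularForm.qExpansion_mcast, qExp_pow, qExpansion_raise, qExpansion_E4, map_pow,
    toCs_Vser]

theorem qExp_XF : qExpansion 1 (XF p) = toCs Dz := by
  rw [XF, qExp_restr, qExpansion_DeltaMF]

theorem qExp_YF : qExpansion 1 (YF p) = toCs (Vser p Dz) := by
  rw [YF, qExpansion_raise, qExpansion_DeltaMF, toCs_Vser]

/-- the weight-36 form `E³ X Y - (X + c Y)³` -/
def cubicF (E : ModularForm Γp 12) (c : ℤ) : ModularForm Γp ((12 + 12) + 12) :=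
  ((E.mul (XF p)).mul (YF p)) -
    (((XF p + (c : ℂ) • YF p).mul (XF p + (c : ℂ) • YF p)).mul (XF p + (c : ℂ) • YF p))

theorem qExp_cubicF (E : ModularForm Γp 12) (c : ℤ) (e : PowerSeries ℤ)
    (hE : qExpansion 1 E = toCs e) :
    qExpansion 1 (cubicF p E c) =
      toCs (e * Dz * Vser p Dz - (Dz + c • Vser p Dz) ^ 3) := by
  rw [cubicF, qExp_sub, qExp_mul, qExp_mul, qExp_mul, qExp_mul, qExp_add, qExp_smul, hE, qExp_XF,
    qExp_YF, map_sub, map_mul, map_mul, map_pow, map_add, toCs_zsmul]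
  ring

theorem Phi2a_eq_zero : Phi2a = 0 := by
  refine series_eq_zero_of_sturm 2 (cubicF 2 (EcubeF 2) 256) Phi2a ?_ 10 ?_ tl_Phi2a
  · rw [qExp_cubicF 2 _ 256 _ (qExp_EcubeF 2)]; rfl
  · rw [index_Gamma0_two]; decide

theorem Phi2b_eq_zero : Phi2b = 0 := by
  refine series_eq_zero_of_sturm 2 (cubicF 2 (EpcubeF 2) 16) Phi2b ?_ 10 ?_ tl_Phi2b
  · rw [qExp_cubicF 2 _ 16 _ (qExp_EpcubeF 2)]; rfl
  · rw [index_Gamma0_two]; decide

/-! ### level 3 -/

/-- the weight-48 form `A² - X Y (E - B)²`, `A = X² + c₂ X Y + c₄ Y²`, `B = c₁ X + c₃ Y` -/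
def quarticF (E : ModularForm Γp 12) (c₁ c₂ c₃ c₄ : ℤ) :
    ModularForm Γp ((12 + 12) + (12 + 12)) :=
  (((XF p).mul (XF p) + (c₂ : ℂ) • (XF p).mul (YF p) + (c₄ : ℂ) • (YF p).mul (YF p)).mul
    ((XF p).mul (XF p) + (c₂ : ℂ) • (XF p).mul (YF p) + (c₄ : ℂ) • (YF p).mul (YF p))) -
  ((XF p).mul (YF p)).mul
    ((E - ((c₁ : ℂ) • XF p + (c₃ : ℂ) • YF p)).mul (E - ((c₁ : ℂ) • XF p + (c₃ : ℂ) • YF p)))

theorem qExp_quarticF (E : ModularForm Γp 12) (c₁ c₂ c₃ c₄ : ℤ) (e : PowerSeries ℤ)
    (hE : qExpansion 1 E = toCs e) :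
    qExpansion 1 (quarticF p E c₁ c₂ c₃ c₄) =
      toCs ((Dz * Dz + c₂ • (Dz * Vser p Dz) + c₄ • (Vser p Dz * Vser p Dz)) *
          (Dz * Dz + c₂ • (Dz * Vser p Dz) + c₄ • (Vser p Dz * Vser p Dz)) -
        (Dz * Vser p Dz) * ((e - (c₁ • Dz + c₃ • Vser p Dz)) * (e - (c₁ • Dz + c₃ • Vser p Dz)))) := by
  simp only [quarticF, qExp_sub, qExp_mul, qExp_add, qExp_smul, hE, qExp_XF, qExp_YF, map_sub,
    map_mul, map_add, toCs_zsmul]

theorem Phi3a_eq_zero : Phi3a = 0 := by
  refine series_eq_zero_of_sturm 3 (quarticF 3 (EcubeF 3) 756 196830 19131876 387420489) Phi3a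
    ?_ 17 ?_ tl_Phi3a
  · rw [qExp_quarticF 3 _ _ _ _ _ _ (qExp_EcubeF 3)]; rfl
  · rw [index_Gamma0_three]; decide

theorem Phi3b_eq_zero : Phi3b = 0 := by
  refine series_eq_zero_of_sturm 3 (quarticF 3 (EpcubeF 3) 36 270 756 729) Phi3b
    ?_ 17 ?_ tl_Phi3b
  · rw [qExp_quarticF 3 _ _ _ _ _ _ (qExp_EpcubeF 3)]; rfl
  · rw [index_Gamma0_three]; decide

end Fermat.Agent.S18.H333

end
end
-- ===== PACK-END S18/H333/Sturm.lean

-- ===== PACK-BEGIN Lib/RR/H443/Discrete.lean
section




/-!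
# RR bridge (helper443), part 1: valuation rings of a function field are discrete

Characteristic-free.  Let `F / K` be a field extension such that `F` is finite over `K(x)` for
every transcendental `x`.  Then every valuation subring `O ≠ ⊤` of `F` containing `K` is a
principal ideal ring (Stichtenoth, Thm. 1.1.6), hence defines a `Place K F`.
-/

set_option autoImplicit false

noncomputable section

open AlgebraicCurve Polynomial IntermediateField

namespace Fermat.Agent.Lib.RR.H443

variable {K F : Type*} [Field K] [Field F] [Algebra K F]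

section Valuation

variable {Γ : Type*} [LinearOrderedCommGroupWithZero Γ] (v : Valuation F Γ)

/-- A finite sum whose nonzero terms have pairwise distinct valuations vanishes only if all
terms vanish. -/
theorem eq_zero_of_sum_eq_zero {ι : Type*} (s : Finset ι) (f : ι → F)
    (hinj : ∀ i ∈ s, ∀ j ∈ s, f i ≠ 0 → f j ≠ 0 → v (f i) = v (f j) → i = j)
    (hsum : ∑ i ∈ s, f i = 0) : ∀ i ∈ s, f i = 0 := by
  classical
  by_contra hcon
  push Not at hcon
  obtain ⟨i₁, hi₁, hfi₁⟩ := hcon
  have hne : (s.filter fun i => f i ≠ 0).Nonempty := ⟨i₁, Finset.mem_filter.mpr ⟨hi₁, hfi₁⟩⟩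
  obtain ⟨i₀, hi₀, hmax⟩ := Finset.exists_max_image _ (fun i => v (f i)) hne
  rw [Finset.mem_filter] at hi₀
  have hv0 : v (f i₀) ≠ 0 := (Valuation.ne_zero_iff v).mpr hi₀.2
  have hrest : v (∑ j ∈ s.erase i₀, f j) < v (f i₀) := by
    refine Valuation.map_sum_lt v hv0 fun j hj => ?_
    rw [Finset.mem_erase] at hj
    by_cases hfj : f j = 0
    · rw [hfj, map_zero]
      exact zero_lt_iff.mpr hv0
    · have hle := hmax j (Finset.mem_filter.mpr ⟨hj.2, hfj⟩)
      refine lt_of_le_of_ne hle fun heq => hj.1 ?_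
      exact hinj j hj.2 i₀ hi₀.1 hfj hi₀.2 heq
  have htot : v (∑ j ∈ s, f j) = v (f i₀) := by
    rw [← Finset.add_sum_erase s f hi₀.1]
    exact Valuation.map_add_eq_of_lt_left v hrest
  rw [hsum, map_zero] at htot
  exact hv0 htot.symm

variable (hK : ∀ a : K, a ≠ 0 → v (algebraMap K F a) = 1)

include hK in
theorem v_algebraMap_le_one (a : K) : v (algebraMap K F a) ≤ 1 := by
  rcases eq_or_ne a 0 with rfl | ha
  · simp
  · exact (hK a ha).le

include hK in
theorem v_aeval_le_one {x : F} (hx : v x ≤ 1) (p : K[X]) : v (aeval x p) ≤ 1 := by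
  rw [aeval_eq_sum_range]
  refine Valuation.map_sum_le v fun i _ => ?_
  rw [Algebra.smul_def, map_mul, map_pow]
  exact mul_le_one' (v_algebraMap_le_one v hK _) (pow_le_one' hx i)

include hK in
/-- `v (p(x)) = 1` when `p(0) ≠ 0` and `v x < 1`. -/
theorem v_aeval_eq_one {x : F} (hx : v x < 1) (p : K[X]) (hp : p.coeff 0 ≠ 0) :
    v (aeval x p) = 1 := by
  have hdecomp : aeval x p = algebraMap K F (p.coeff 0) + x * aeval x p.divX := by
    have := congrArg (aeval x) (Polynomial.divX_mul_X_add p)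
    simp only [map_add, map_mul, aeval_X, aeval_C] at this
    rw [← this]
    ring
  rw [hdecomp]
  have h1 : v (x * aeval x p.divX) < v (algebraMap K F (p.coeff 0)) := by
    rw [hK _ hp, map_mul]
    calc v x * v (aeval x p.divX) ≤ v x * 1 :=
          mul_le_mul' le_rfl (v_aeval_le_one v hK hx.le _)
      _ = v x := mul_one _
      _ < 1 := hx
  rw [Valuation.map_add_eq_of_lt_left v h1, hK _ hp]

include hK in
/-- `v (p(x)) = v(x) ^ ord₀ p` for `p ≠ 0`, when `v x < 1`. -/
theorem v_aeval {x : F} (hx : v x < 1) (p : K[X]) (hp : p ≠ 0) :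
    v (aeval x p) = v x ^ p.rootMultiplicity 0 := by
  obtain ⟨q, hq, hndvd⟩ := Polynomial.exists_eq_pow_rootMultiplicity_mul_and_not_dvd p hp 0
  have hq0 : q.coeff 0 ≠ 0 := by
    intro h0
    apply hndvd
    rw [map_zero, sub_zero]
    exact Polynomial.X_dvd_iff.mpr h0
  conv_lhs => rw [hq]
  rw [map_zero, sub_zero, map_mul, map_pow, aeval_X, map_mul, map_pow,
    v_aeval_eq_one v hK hx q hq0, mul_one]

include hK in
/-- **Chain lemma** (Stichtenoth 1.1.6 (a)). -/
theorem chain_le_finrank {x : F} (hx0 : x ≠ 0) (hx : v x < 1) [FiniteDimensional K⟮x⟯ F]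
    {m : ℕ} (y : Fin m → F) (hy1 : ∀ i, v (y i) < 1) (hyx : ∀ i, v x ≤ v (y i))
    (hmono : StrictMono fun i => v (y i)) :
    m ≤ Module.finrank K⟮x⟯ F := by
  classical
  have hvx0 : v x ≠ 0 := (Valuation.ne_zero_iff v).mpr hx0
  have hy0 : ∀ i, y i ≠ 0 := fun i h => by
    have := hyx i
    rw [h, map_zero] at this
    exact hvx0 (le_antisymm this zero_le)
  open scoped IntermediateField.algebraAdjoinAdjoin in
  have hli : LinearIndependent K⟮x⟯ y := by
    rw [← LinearIndependent.iff_fractionRing (R := Algebra.adjoin K {x}) (K := K⟮x⟯)]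
    rw [Fintype.linearIndependent_iff]
    intro c hc i
    -- choose polynomials
    have hex : ∀ j, ∃ p : K[X], aeval x p = (c j : F) := fun j => by
      have : (c j : F) ∈ (aeval x : K[X] →ₐ[K] F).range := by
        rw [← Algebra.adjoin_singleton_eq_range_aeval]
        exact (c j).2
      exact this
    choose p hp using hex
    have hsum : ∑ j ∈ Finset.univ, aeval x (p j) * y j = 0 := by
      rw [← hc]
      refine Finset.sum_congr rfl fun j _ => ?_
      rw [hp j]
      rfl
    have hval : ∀ j, aeval x (p j) * y j ≠ 0 →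
        v (aeval x (p j) * y j) = v x ^ (p j).rootMultiplicity 0 * v (y j) := by
      intro j hj
      have hpj : p j ≠ 0 := by
        rintro h
        rw [h, map_zero, zero_mul] at hj
        exact hj rfl
      rw [map_mul, v_aeval v hK hx (p j) hpj]
    have key := eq_zero_of_sum_eq_zero v Finset.univ (fun j => aeval x (p j) * y j) (by
      intro i _ j _ hi hj heq
      rw [hval i hi, hval j hj] at heq
      -- wlog on the multiplicities
      have aux : ∀ (a b : ℕ) (i j : Fin m), a ≤ b →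
          v x ^ a * v (y i) = v x ^ b * v (y j) → i = j := by
        intro a b i j hab h
        obtain ⟨d, rfl⟩ := Nat.exists_eq_add_of_le hab
        rw [pow_add, mul_assoc] at h
        have hpa : v x ^ a ≠ 0 := pow_ne_zero _ hvx0
        have h' : v (y i) = v x ^ d * v (y j) := mul_left_cancel₀ hpa h
        rcases Nat.eq_zero_or_pos d with rfl | hd
        · rw [pow_zero, one_mul] at h'
          exact hmono.injective h'
        · exfalso
          have h1 : v x ^ d ≤ v x := by
            calc v x ^ d = v x ^ (d - 1 + 1) := by rw [Nat.sub_add_cancel hd]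
              _ = v x ^ (d - 1) * v x := pow_succ _ _
              _ ≤ 1 * v x := mul_le_mul' (pow_le_one' hx.le _) le_rfl
              _ = v x := one_mul _
          have h2 : v x ^ d * v (y j) < v x := by
            calc v x ^ d * v (y j) ≤ v x * v (y j) := mul_le_mul' h1 le_rfl
              _ < v x * 1 := by
                  exact mul_lt_mul_of_pos_left (hy1 j) (zero_lt_iff.mpr hvx0)
              _ = v x := mul_one _
          have h3 := hyx i
          rw [h'] at h3
          exact absurd h2 (not_lt.mpr h3)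
      rcases le_total ((p i).rootMultiplicity 0) ((p j).rootMultiplicity 0) with h | h
      · exact aux _ _ i j h heq
      · exact (aux _ _ j i h heq.symm).symm) hsum
    have hi := key i (Finset.mem_univ i)
    have : aeval x (p i) = 0 := (mul_eq_zero.mp hi).resolve_right (hy0 i)
    apply Subtype.ext
    rw [← hp i, this]
    rfl
  simpa using hli.fintype_card_le_finrank

end Valuation

section ValuationSubring

variable (O : ValuationSubring F)

/-- The valuation of a valuation subring containing `K` is trivial on `Kˣ`. -/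
theorem valuation_algebraMap_eq_one (hK : ∀ a : K, algebraMap K F a ∈ O) (a : K) (ha : a ≠ 0) :
    O.valuation (algebraMap K F a) = 1 := by
  have h1 : O.valuation (algebraMap K F a) ≤ 1 := (O.valuation_le_one_iff _).mpr (hK a)
  have h2 : O.valuation (algebraMap K F a⁻¹) ≤ 1 := (O.valuation_le_one_iff _).mpr (hK a⁻¹)
  have hne : algebraMap K F a ≠ 0 := (map_ne_zero (algebraMap K F)).mpr ha
  have hv0 : O.valuation (algebraMap K F a) ≠ 0 := (Valuation.ne_zero_iff _).mpr hne
  have hprod : O.valuation (algebraMap K F a) * O.valuation (algebraMap K F a⁻¹) = 1 := by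
    rw [← map_mul, ← map_mul, mul_inv_cancel₀ ha, map_one, map_one]
  have h3 : 1 ≤ O.valuation (algebraMap K F a) := by
    by_contra hlt
    rw [not_le] at hlt
    have h4 : O.valuation (algebraMap K F a) * O.valuation (algebraMap K F a⁻¹) < 1 := by
      calc O.valuation (algebraMap K F a) * O.valuation (algebraMap K F a⁻¹)
          ≤ O.valuation (algebraMap K F a) * 1 := mul_le_mul' le_rfl h2
        _ = O.valuation (algebraMap K F a) := mul_one _
        _ < 1 := hlt
    rw [hprod] at h4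
    exact lt_irrefl _ h4
  exact le_antisymm h1 h3

/-- A nonzero nonunit of a valuation subring containing `K` is transcendental over `K`. -/
theorem transcendental_of_valuation_lt_one (hK : ∀ a : K, algebraMap K F a ∈ O) {x : F}
    (hx : O.valuation x < 1) (hx0 : x ≠ 0) : Transcendental K x := by
  intro halg
  have hint : IsIntegral K x := halg.isIntegral
  have hinv : x⁻¹ ∈ Algebra.adjoin K {x} := by
    have h := IntermediateField.adjoin_simple_toSubalgebra_of_isAlgebraic halg
    have hmem' : x⁻¹ ∈ K⟮x⟯ := inv_mem (mem_adjoin_simple_self K x)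
    have hmem : x⁻¹ ∈ (K⟮x⟯).toSubalgebra := hmem'
    rwa [h] at hmem
  have hxO : x ∈ O := (O.valuation_le_one_iff _).mp hx.le
  let S : Subalgebra K F := { O.toSubring with algebraMap_mem' := hK }
  have hle : Algebra.adjoin K {x} ≤ S :=
    Algebra.adjoin_le (Set.singleton_subset_iff.mpr (show x ∈ S from hxO))
  have hinvO : x⁻¹ ∈ O := hle hinv
  have h1 : O.valuation x⁻¹ ≤ 1 := (O.valuation_le_one_iff _).mpr hinvO
  have hv0 : O.valuation x ≠ 0 := (Valuation.ne_zero_iff _).mpr hx0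
  have h2 : O.valuation x * O.valuation x⁻¹ = 1 := by
    rw [← map_mul, mul_inv_cancel₀ hx0, map_one]
  have h3 : O.valuation x * O.valuation x⁻¹ < 1 := by
    calc O.valuation x * O.valuation x⁻¹ ≤ O.valuation x * 1 := mul_le_mul' le_rfl h1
      _ = O.valuation x := mul_one _
      _ < 1 := hx
  rw [h2] at h3
  exact lt_irrefl _ h3

/-- **Stichtenoth 1.1.6**: divisibility is well-founded in a valuation ring of a function
field. -/
theorem wfDvdMonoid_of_finite (hK : ∀ a : K, algebraMap K F a ∈ O)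
    (hfin : ∀ x : F, Transcendental K x → FiniteDimensional K⟮x⟯ F) : WfDvdMonoid O := by
  constructor
  rw [wellFounded_iff_isEmpty_descending_chain]
  refine ⟨fun ⟨f, hf⟩ => ?_⟩
  set v := O.valuation with hv
  have hne : ∀ n, ((f (n + 1) : O) : F) ≠ 0 := fun n h => by
    have := (hf n).1
    exact this (Subtype.ext h)
  have hle1 : ∀ n, v (f n : F) ≤ 1 := fun n => (O.valuation_le_one_iff _).mpr (f n).2
  have hstep : ∀ n, v (f (n + 1) : F) < v (f (n + 2) : F) := by
    intro n
    obtain ⟨-, c, hc, hfc⟩ := hf (n + 1)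
    have hcv : v (c : F) < 1 := by
      have : c ∈ IsLocalRing.maximalIdeal O := by
        rw [IsLocalRing.mem_maximalIdeal, mem_nonunits_iff]
        exact hc
      exact (O.valuation_lt_one_iff c).mp this
    have h0 : v (f (n + 2) : F) ≠ 0 := (Valuation.ne_zero_iff _).mpr (hne (n + 1))
    have : (f (n + 1) : F) = (f (n + 1 + 1) : F) * (c : F) := by
      rw [hfc]; rfl
    rw [this, map_mul]
    calc v (f (n + 1 + 1) : F) * v (c : F) < v (f (n + 1 + 1) : F) * 1 :=
          mul_lt_mul_of_pos_left hcv (zero_lt_iff.mpr h0)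
      _ = v (f (n + 2) : F) := mul_one _
  have hmono : StrictMono fun n : ℕ => v (f (n + 1) : F) := strictMono_nat_of_lt_succ hstep
  have hlt1 : ∀ n, v (f (n + 1) : F) < 1 := fun n => lt_of_lt_of_le (hstep n) (hle1 _)
  set x : F := (f 1 : F) with hx
  have hx0 : x ≠ 0 := hne 0
  have hxt : Transcendental K x := transcendental_of_valuation_lt_one O hK (hlt1 0) hx0
  have := hfin x hxt
  have key := chain_le_finrank v (valuation_algebraMap_eq_one O hK) hx0 (hlt1 0)
    (m := Module.finrank K⟮x⟯ F + 1) (fun i => (f (i.1 + 1) : F)) (fun i => hlt1 _)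
    (fun i => hmono.monotone (Nat.zero_le _)) (fun i j hij => hmono hij)
  omega

/-- A valuation subring `≠ ⊤` of a function field, containing the constants, is a place. -/
def placeOfValuationSubring (hK : ∀ a : K, algebraMap K F a ∈ O) (hO : O ≠ ⊤)
    (hfin : ∀ x : F, Transcendental K x → FiniteDimensional K⟮x⟯ F) : Place K F where
  toValuationSubring := O
  algebraMap_mem' := hK
  ne_top' := hO
  isPrincipalIdealRing' := by
    have h := wfDvdMonoid_of_finite O hK hfin
    exact ((IsBezout.TFAE (R := O)).out 3 1).mp h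

@[simp]
theorem placeOfValuationSubring_toValuationSubring (hK : ∀ a : K, algebraMap K F a ∈ O)
    (hO : O ≠ ⊤) (hfin : ∀ x : F, Transcendental K x → FiniteDimensional K⟮x⟯ F) :
    (placeOfValuationSubring O hK hO hfin).toValuationSubring = O := rfl

end ValuationSubring

section Existence

variable (hfin : ∀ x : F, Transcendental K x → FiniteDimensional K⟮x⟯ F)

include hfin in
/-- Every transcendental element has a zero. -/
theorem exists_place_ord_pos {t : F} (ht : Transcendental K t) :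
    ∃ v : Place K F, 0 < v.ord t := by
  have ht0 : t ≠ 0 := fun h => ht (h ▸ isAlgebraic_zero)
  let A : Subring F := (Algebra.adjoin K {t}).toSubring
  have htA : t ∈ A := Algebra.self_mem_adjoin_singleton K t
  let I : Ideal A := Ideal.span {⟨t, htA⟩}
  have hI : I ≠ ⊤ := by
    intro h
    rw [Ideal.eq_top_iff_one, Ideal.mem_span_singleton'] at h
    obtain ⟨g, hg⟩ := h
    have hgF : (g : F) * t = 1 := congrArg Subtype.val hg
    have hgmem : (g : F) ∈ (aeval t : K[X] →ₐ[K] F).range := by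
      rw [← Algebra.adjoin_singleton_eq_range_aeval]
      exact g.2
    obtain ⟨p, hp⟩ := hgmem
    have hp' : aeval t p = (g : F) := hp
    apply ht
    refine ⟨p * X - 1, ?_, ?_⟩
    · intro h0
      have := congrArg (fun q => Polynomial.coeff q 0) h0
      simp at this
    · simp [hp', hgF]
  obtain ⟨B, hAB, hIB⟩ := Ideal.image_subset_nonunits_valuationSubring I hI
  have hK : ∀ a : K, algebraMap K F a ∈ B := fun a =>
    hAB ((Algebra.adjoin K {t}).algebraMap_mem a)
  have htB : t ∈ B.nonunits := hIB ⟨⟨t, htA⟩, Ideal.subset_span rfl, rfl⟩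
  have htv : B.valuation t < 1 := (B.mem_nonunits_iff).mp htB
  have hB : B ≠ ⊤ := by
    intro h
    have h1 : t⁻¹ ∈ B := h ▸ ValuationSubring.mem_top _
    have h2 : B.valuation t⁻¹ ≤ 1 := (B.valuation_le_one_iff _).mpr h1
    have h3 : B.valuation t * B.valuation t⁻¹ = 1 := by
      rw [← map_mul, mul_inv_cancel₀ ht0, map_one]
    have h4 : B.valuation t * B.valuation t⁻¹ < 1 := by
      calc B.valuation t * B.valuation t⁻¹ ≤ B.valuation t * 1 := mul_le_mul' le_rfl h2
        _ = B.valuation t := mul_one _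
        _ < 1 := htv
    rw [h3] at h4
    exact lt_irrefl _ h4
  refine ⟨placeOfValuationSubring B hK hB hfin, ?_⟩
  set v := placeOfValuationSubring B hK hB hfin with hv
  have hmem : (⟨t, (B.valuation_le_one_iff _).mp htv.le⟩ : v.toValuationSubring) ∈
      IsLocalRing.maximalIdeal v.toValuationSubring :=
    (B.valuation_lt_one_iff _).mpr htv
  rcases (mem_maximalIdeal_iff v _).mp hmem with h | h
  · exact absurd h ht0
  · exact h

include hfin in
/-- Every transcendental element has a pole. -/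
theorem exists_place_ord_neg {t : F} (ht : Transcendental K t) :
    ∃ v : Place K F, v.ord t < 0 := by
  have ht' : Transcendental K t⁻¹ := fun h => ht (by simpa using h.inv)
  obtain ⟨v, hv⟩ := exists_place_ord_pos hfin ht'
  refine ⟨v, ?_⟩
  rw [v.ord_inv] at hv
  omega

end Existence

end Fermat.Agent.Lib.RR.H443

end
end
-- ===== PACK-END Lib/RR/H443/Discrete.lean

-- ===== PACK-BEGIN S37/H700/GaussNorm.lean
section


/-!
# S37 / piece GAUSS (helper700): normal forms

* `exists_normaliser` : among finitely many elements of `L`, not all zero, one divides all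
  the others in the valuation ring `A`.
* `normalize_family`  : a finite family of polynomials over `L`, not all zero, can be scaled
  into `A[X]` such that one member has nonzero reduction.
* `exists_denominator`: every element of the span satisfies `Q(j)·x = ∑ Pᵢ(j)·yᵢ`.
-/

set_option autoImplicit false

noncomputable section

namespace Fermat.Agent.S37.H700

open ModularCurve HahnSeries Polynomial
open Fermat.Agent.S28 (jField intDivisorExpansions)

section Normalise

variable {L : Type*} [Field L] (A : ValuationSubring L)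

theorem exists_normaliser (C : Finset L) (hC : ∃ x ∈ C, x ≠ 0) :
    ∃ x₀ ∈ C, x₀ ≠ 0 ∧ ∀ x ∈ C, x₀⁻¹ * x ∈ A := by
  obtain ⟨x₁, hx₁, hx₁0⟩ := hC
  obtain ⟨x₀, hx₀, hmax⟩ := Finset.exists_max_image C (fun x => A.valuation x) ⟨x₁, hx₁⟩
  have hx₀0 : x₀ ≠ 0 := by
    intro h
    have h1 := hmax x₁ hx₁
    simp only [h, map_zero] at h1
    exact hx₁0 ((map_eq_zero _).mp (le_antisymm h1 zero_le))
  refine ⟨x₀, hx₀, hx₀0, fun x hx => ?_⟩
  rw [← A.valuation_le_one_iff, map_mul, map_inv₀]
  have hv0 : A.valuation x₀ ≠ 0 := (_root_.map_ne_zero _).mpr hx₀0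
  rw [inv_mul_le_iff₀ (lt_of_le_of_ne zero_le hv0.symm), mul_one]
  exact hmax x hx

theorem exists_lift_of_coeff_mem (P : L[X]) (h : ∀ m, P.coeff m ∈ A) :
    ∃ P' : Polynomial A, P'.map A.subtype = P := by
  have : P ∈ Polynomial.lifts A.subtype := by
    rw [Polynomial.lifts_iff_coeff_lifts]
    intro m
    exact ⟨⟨P.coeff m, h m⟩, rfl⟩
  exact (Polynomial.mem_lifts P).mp this

theorem normalize_family {ι : Type*} [Fintype ι] (P : ι → L[X]) (h : ∃ i, P i ≠ 0) :
    ∃ c : L, c ≠ 0 ∧ ∃ P' : ι → Polynomial A,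
      (∀ i, (P' i).map A.subtype = Polynomial.C c * P i) ∧
      ∃ i, (P' i).map (IsLocalRing.residue A) ≠ 0 := by
  classical
  set C : Finset L := Finset.univ.biUnion (fun i => (P i).coeffs) with hCdef
  have hCne : ∃ x ∈ C, x ≠ 0 := by
    obtain ⟨i, hi⟩ := h
    refine ⟨(P i).leadingCoeff, ?_, Polynomial.leadingCoeff_ne_zero.mpr hi⟩
    rw [hCdef, Finset.mem_biUnion]
    exact ⟨i, Finset.mem_univ _, Polynomial.coeff_mem_coeffs (Polynomial.leadingCoeff_ne_zero.mpr hi)⟩
  obtain ⟨x₀, hx₀C, hx₀0, hx₀⟩ := exists_normaliser A C hCne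
  have hcoeff : ∀ i m, x₀⁻¹ * (P i).coeff m ∈ A := by
    intro i m
    by_cases hz : (P i).coeff m = 0
    · rw [hz, mul_zero]; exact A.zero_mem
    · apply hx₀
      rw [hCdef, Finset.mem_biUnion]
      exact ⟨i, Finset.mem_univ _, Polynomial.coeff_mem_coeffs hz⟩
  have hlift : ∀ i, ∃ P' : Polynomial A, P'.map A.subtype = Polynomial.C x₀⁻¹ * P i := by
    intro i
    apply exists_lift_of_coeff_mem
    intro m
    rw [Polynomial.coeff_C_mul]
    exact hcoeff i m
  choose P' hP' using hlift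
  refine ⟨x₀⁻¹, inv_ne_zero hx₀0, P', hP', ?_⟩
  rw [hCdef, Finset.mem_biUnion] at hx₀C
  obtain ⟨i₀, -, hi₀⟩ := hx₀C
  rw [Polynomial.mem_coeffs_iff] at hi₀
  obtain ⟨m₀, -, hm₀⟩ := hi₀
  refine ⟨i₀, fun hzero => ?_⟩
  have h1 : ((P' i₀).coeff m₀ : L) = 1 := by
    have := congrArg (fun p => Polynomial.coeff p m₀) (hP' i₀)
    simp only [Polynomial.coeff_map, Polynomial.coeff_C_mul] at this
    rw [← hm₀, inv_mul_cancel₀ hx₀0] at this
    exact this
  have h2 : (P' i₀).coeff m₀ = 1 := Subtype.ext h1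
  have h3 := congrArg (fun p => Polynomial.coeff p m₀) hzero
  simp only [Polynomial.coeff_map, Polynomial.coeff_zero, h2, map_one] at h3
  exact one_ne_zero h3

end Normalise

section Denominator

variable (L : Type*) [Field L] {n : ℕ} (y : Fin n → LaurentSeries ℤ)

/-- Every element of the `L(j)`-span has a polynomial denominator. -/
theorem exists_denominator {x : LaurentSeries L} (hx : x ∈ spanL L y) :
    ∃ (Q : L[X]) (P : Fin n → L[X]), Q ≠ 0 ∧
      evalJ L Q * x = ∑ i, evalJ L (P i) * coeffMap (Int.castRingHom L) (y i) := by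
  classical
  induction hx using Submodule.span_induction with
  | mem x hx =>
    obtain ⟨i, rfl⟩ := hx
    refine ⟨1, fun j => if j = i then 1 else 0, one_ne_zero, ?_⟩
    rw [evalJ_one, one_mul, Finset.sum_eq_single i]
    · simp [evalJ_one]
    · intro j _ hj
      simp [hj, evalJ_zero]
    · intro h
      exact absurd (Finset.mem_univ i) h
  | zero =>
    exact ⟨1, fun _ => 0, one_ne_zero, by simp [evalJ_zero]⟩
  | add x z _ _ hx hz =>
    obtain ⟨Q₁, P₁, hQ₁, h₁⟩ := hx
    obtain ⟨Q₂, P₂, hQ₂, h₂⟩ := hz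
    refine ⟨Q₁ * Q₂, fun i => Q₂ * P₁ i + Q₁ * P₂ i, mul_ne_zero hQ₁ hQ₂, ?_⟩
    simp only [evalJ_mul, evalJ_add, add_mul, Finset.sum_add_distrib, mul_assoc]
    rw [← Finset.mul_sum, ← Finset.mul_sum, ← h₁, ← h₂]
    ring
  | smul c x _ hx =>
    obtain ⟨Q, P, hQ, h⟩ := hx
    obtain ⟨r, s, hs, hrs⟩ := exists_evalJ_of_mem_jField L c.2
    refine ⟨s * Q, fun i => r * P i, mul_ne_zero hs hQ, ?_⟩
    simp only [evalJ_mul, mul_assoc]
    rw [← Finset.mul_sum, ← h, smul_jField_def, ← hrs]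
    ring

end Denominator

end Fermat.Agent.S37.H700

end
end
-- ===== PACK-END S37/H700/GaussNorm.lean

-- ===== PACK-BEGIN S18/H504/ConstFree.lean
section




/-!
# S18 / T3 generic core (CHAR-FREE): zeros exist, functions without zeros are constant

* `exists_valuationSubring_nonunit` : Chevalley — a transcendental `u` is a non-unit of some
  valuation ring of `F` containing `K`.
* `exists_place_ord_pos` : `u` transcendental, `F` finite over `K(u)` ⟹ `∃ v, 0 < v.ord u`.
* `exists_place_eq` : every nontrivial valuation ring of `F` containing `K` is a `Place`.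
* `constOfOrdZero_of_finite` : `K` algebraically closed, `F` finite over `K(x)`, `x`
  transcendental ⟹ a nonzero function without zeros and poles is constant
  (`= H94.ConstOfOrdZero K F`, unfolded).  No assumption on the characteristic.
-/

set_option autoImplicit false

namespace Fermat.Agent.S18.H504

open AlgebraicCurve IntermediateField Polynomial Fermat.Agent.S24

variable {K F : Type*} [Field K] [Field F] [Algebra K F]

/-- **Chevalley.** A transcendental element is a non-unit in some valuation ring over `K`. -/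
theorem exists_valuationSubring_nonunit {u : F} (hu : Transcendental K u) :
    ∃ O : ValuationSubring F, (∀ a : K, algebraMap K F a ∈ O) ∧ u ∈ O ∧ u⁻¹ ∉ O := by
  set A : Subring F := (Algebra.adjoin K {u}).toSubring with hA
  have huA : u ∈ A := Algebra.self_mem_adjoin_singleton K u
  have hne : Ideal.span {(⟨u, huA⟩ : A)} ≠ ⊤ := by
    intro htop
    rw [Ideal.span_singleton_eq_top] at htop
    obtain ⟨⟨b, hb⟩, hub⟩ := isUnit_iff_exists_inv.mp htop
    have hb' : b ∈ Algebra.adjoin K {u} := hb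
    rw [Algebra.adjoin_singleton_eq_range_aeval] at hb'
    obtain ⟨p, hp⟩ := hb'
    have hmul : u * b = 1 := congrArg Subtype.val hub
    apply hu
    refine ⟨X * p - 1, ?_, ?_⟩
    · intro h0
      have := congrArg (fun q => q.coeff 0) h0
      simp at this
    · have hp' : aeval u p = b := hp
      simp [hp', hmul]
  obtain ⟨O, hAO, hsub⟩ := Ideal.image_subset_nonunits_valuationSubring _ hne
  have hunon : u ∈ O.nonunits := hsub ⟨⟨u, huA⟩, Ideal.subset_span rfl, rfl⟩
  refine ⟨O, fun a => hAO (Subalgebra.algebraMap_mem _ a), ?_, ?_⟩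
  · exact O.nonunits_subset hunon
  · intro hinv
    have h1 : O.valuation u < 1 := (O.mem_nonunits_iff).mp hunon
    have h2 : O.valuation u⁻¹ ≤ 1 := (O.valuation_le_one_iff _).mpr hinv
    rw [map_inv₀] at h2
    have hu0 : O.valuation u ≠ 0 := by
      rw [Valuation.ne_zero_iff]
      rintro rfl
      exact hu (isAlgebraic_zero)
    have := (inv_le_one₀ (zero_lt_iff.mpr hu0)).mp h2
    exact absurd h1 (not_lt.mpr this)

/-- **Zeros exist** (char-free). -/
theorem exists_place_ord_pos {u : F} (hu : Transcendental K u) [FiniteDimensional K⟮u⟯ F] :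
    ∃ v : Place K F, 0 < v.ord u := by
  obtain ⟨O, hK, huO, huO'⟩ := exists_valuationSubring_nonunit hu
  refine ⟨placeOfValuationSubring O hK huO huO', ?_⟩
  set v := placeOfValuationSubring O hK huO huO' with hv
  have h1 : 0 ≤ v.ord u := (S24.H504.mem_iff_ord_nonneg' v u).mp huO
  have h2 : ¬ 0 ≤ v.ord u⁻¹ := fun h => huO' ((S24.H504.mem_iff_ord_nonneg' v u⁻¹).mpr h)
  rw [Place.ord_inv] at h2
  omega

/-- A nonzero non-unit of a valuation ring containing `K` is transcendental over `K`. -/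
theorem transcendental_of_nonunit (O : ValuationSubring F) (hK : ∀ a : K, algebraMap K F a ∈ O)
    {u : F} (hu' : u⁻¹ ∉ O) : Transcendental K u := by
  intro halg
  apply hu'
  have hinv : IsAlgebraic K u⁻¹ := halg.inv
  have hint : IsIntegral K u⁻¹ := hinv.isIntegral
  obtain ⟨p, hpm, hp⟩ := hint
  -- `u⁻¹` is integral over `O`
  let φ : K →+* O := (algebraMap K F).codRestrict O.toSubring hK
  have hint' : IsIntegral O u⁻¹ := by
    refine ⟨p.map φ, hpm.map φ, ?_⟩
    rw [eval₂_map]
    have : (algebraMap O F).comp φ = algebraMap K F := by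
      ext a; rfl
    rw [this]
    exact hp
  obtain ⟨y, hy⟩ := IsIntegrallyClosed.isIntegral_iff.mp hint'
  rw [← hy]
  exact y.2

/-- **Every nontrivial valuation ring of a function field is a place** (char-free). -/
theorem exists_place_eq {x : F} (hx : Transcendental K x) [FiniteDimensional K⟮x⟯ F]
    (O : ValuationSubring F) (hK : ∀ a : K, algebraMap K F a ∈ O) (hO : O ≠ ⊤) :
    ∃ v : Place K F, v.toValuationSubring = O := by
  have hex : ∃ f : F, f ∉ O := by
    by_contra h
    push Not at h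
    exact hO (SetLike.ext fun f => ⟨fun _ => ValuationSubring.mem_top f, fun _ => h f⟩)
  obtain ⟨f, hf⟩ := hex
  have hfi : f⁻¹ ∈ O := (O.mem_or_inv_mem f).resolve_left hf
  have hfi' : (f⁻¹)⁻¹ ∉ O := by rwa [inv_inv]
  have htr : Transcendental K f⁻¹ := transcendental_of_nonunit O hK hfi'
  have : FiniteDimensional K⟮f⁻¹⟯ F := FF.finiteDimensional_adjoin_of_transcendental hx htr
  exact ⟨placeOfValuationSubring O hK hfi hfi', rfl⟩

/-- **CONST, char-free.** Over an algebraically closed constant field, a function without zeros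
is constant. -/
theorem const_of_forall_ord_le_zero_charFree [IsAlgClosed K] {x : F} (hx : Transcendental K x)
    [FiniteDimensional K⟮x⟯ F] (u : F) (h : ∀ v : Place K F, v.ord u ≤ 0) :
    ∃ c : K, u = algebraMap K F c := by
  by_contra hc
  have hnr : u ∉ (algebraMap K F).range := fun ⟨c, hc'⟩ => hc ⟨c, hc'.symm⟩
  have hut : Transcendental K u := FF.transcendental_of_not_mem_range hnr
  have : FiniteDimensional K⟮u⟯ F := FF.finiteDimensional_adjoin_of_transcendental hx hut
  obtain ⟨v, hv⟩ := exists_place_ord_pos hut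
  have := h v
  omega

/-- **T3 generic core** (`= H94.ConstOfOrdZero K F`, unfolded; any characteristic). -/
theorem constOfOrdZero_of_finite [IsAlgClosed K] {x : F} (hx : Transcendental K x)
    [FiniteDimensional K⟮x⟯ F] :
    ∀ u : F, u ≠ 0 → (∀ v : Place K F, v.ord u = 0) → ∃ c : K, u = algebraMap K F c :=
  fun u _ h => const_of_forall_ord_le_zero_charFree hx u fun v => (h v).le

end Fermat.Agent.S18.H504

end
-- ===== PACK-END S18/H504/ConstFree.lean

-- ===== PACK-BEGIN S18/H438/Front/Divisor.lean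
section





/-!
# S18 / ALG-FRONT (helper438), part 8: `H754.DivisibleDivisor` for a chart

* `divisibleDivisor_of_places` (generic, Mathlib + `H754/KummerSpec`): `B` a Noetherian
  integrally closed domain with fraction field `F`, `ϖ ∈ B` prime, `u ≡ 1 mod ϖ`
  (`H754.OneModPi ϖ u`), and at every discrete valuation subring `W ⊇ B[1/ϖ]` of `F` the element
  `u` is a unit times an `m`-th power.  Then `H754.DivisibleDivisor B m u`.
* `GoodModelFront.exists_pow_unit_of_dvr` : the place hypothesis from the divisor hypothesis of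
  `Alg.AlgMainStatement` (over valuation subrings of `Ω` containing `Lc`), via
  `H845.exists_pow_unit_of_forall_over`.
* `GoodModelFront.divisibleDivisor` : `H754.DivisibleDivisor B m u` for ANY realisation `B` of a
  chart of a good model (`B ⊇ R`, `ϖ ↦ w`).
-/

set_option autoImplicit false
set_option linter.style.haveILetI false
set_option linter.unusedSectionVars false

noncomputable section

namespace Fermat.Agent.S18.H438

/-- **`DivisibleDivisor` from the places over `B[1/ϖ]`.** -/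
theorem divisibleDivisor_of_places {B : Type*} [CommRing B] [IsDomain B] [IsNoetherianRing B]
    [IsIntegrallyClosed B] {F : Type*} [Field F] [Algebra B F] [IsFractionRing B F]
    (ϖ : B) (hϖ : Prime ϖ) (u : F) (hu1 : H754.OneModPi ϖ u) (m : ℕ)
    (hplace : ∀ W : ValuationSubring F, IsDiscreteValuationRing W →
      (∀ b : B, algebraMap B F b ∈ W) → (algebraMap B F ϖ)⁻¹ ∈ W →
      ∃ s : F, s ≠ 0 ∧ u * s ^ m ∈ W ∧ (u * s ^ m)⁻¹ ∈ W) :
    H754.DivisibleDivisor B m u := by
  have hinj : Function.Injective (algebraMap B F) := IsFractionRing.injective B F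
  obtain ⟨a₀, s₀, hs₀, has₀, hu₀⟩ := hu1
  have ha₀ : a₀ ∉ Ideal.span {ϖ} := by
    intro ha
    apply hs₀
    have := Ideal.sub_mem _ ha has₀
    simpa using this
  have hu0 : u ≠ 0 := by
    rintro rfl
    rw [zero_mul] at hu₀
    have : a₀ = 0 := hinj (by rw [← hu₀, map_zero])
    exact ha₀ (this ▸ Ideal.zero_mem _)
  intro 𝔭 h𝔭 hht
  haveI := h𝔭
  by_cases hϖ𝔭 : ϖ ∈ 𝔭
  · -- `𝔭 = (ϖ)`
    have hP : (Ideal.span {ϖ} : Ideal B).IsPrime :=
      (Ideal.span_singleton_prime hϖ.ne_zero).2 hϖ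
    have hle : Ideal.span {ϖ} ≤ 𝔭 := (Ideal.span_singleton_le_iff_mem _).2 hϖ𝔭
    have hne : (Ideal.span {ϖ} : Ideal B) ≠ ⊥ := by
      rw [Ne, Ideal.span_singleton_eq_bot]; exact hϖ.ne_zero
    have h1 : 𝔭.height ≤ (Ideal.span {ϖ} : Ideal B).height := by
      rw [hht, Order.one_le_iff_pos, pos_iff_ne_zero, Ne, Ideal.height_eq_zero_iff_eq_bot]
      exact hne
    have heq : Ideal.span {ϖ} = 𝔭 := Ideal.eq_of_le_of_height_le (h := hle) (h_height := h1)
    refine ⟨1, a₀, s₀, ?_, ?_, ?_⟩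
    · rw [← heq]; exact ha₀
    · rw [← heq]; exact hs₀
    · rw [one_pow, mul_one]; exact hu₀
  · -- a horizontal prime: `B_𝔭` is a DVR containing `B[1/ϖ]`
    obtain ⟨W, hW, hmem⟩ := exists_dvr_of_height_one (F := F) 𝔭 hht
    have h1𝔭 : (1 : B) ∉ 𝔭 := fun h => h𝔭.ne_top ((Ideal.eq_top_iff_one _).2 h)
    have hBW : ∀ b : B, algebraMap B F b ∈ W := fun b =>
      (hmem _).2 ⟨b, 1, h1𝔭, by rw [map_one, mul_one]⟩
    have hϖ0 : algebraMap B F ϖ ≠ 0 := fun h => hϖ.ne_zero (hinj (by rw [h, map_zero]))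
    have hϖW : (algebraMap B F ϖ)⁻¹ ∈ W :=
      (hmem _).2 ⟨1, ϖ, hϖ𝔭, by rw [inv_mul_cancel₀ hϖ0, map_one]⟩
    obtain ⟨t, ht0, h1, h2⟩ := hplace W hW hBW hϖW
    obtain ⟨a, s, hs, has⟩ := (hmem _).1 h1
    obtain ⟨a', s', hs', has'⟩ := (hmem _).1 h2
    refine ⟨t, a, s, ?_, hs, has⟩
    intro ha
    have hut : u * t ^ m ≠ 0 := mul_ne_zero hu0 (pow_ne_zero _ ht0)
    have h3 : algebraMap B F (a * a') = algebraMap B F (s * s') := by
      rw [map_mul, map_mul, ← has, ← has']
      field_simp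
    have h4 : a * a' = s * s' := hinj h3
    have h5 : s * s' ∈ 𝔭 := h4 ▸ 𝔭.mul_mem_right _ ha
    rcases h𝔭.mem_or_mem h5 with h | h
    · exact hs h
    · exact hs' h

open Alg

variable {Ω : Type*} [Field Ω] {Lc Ec Fc : Subfield Ω} {R V : Subring Ω} {w x : Ω}
  {S : Finset Ω}

namespace GoodModelFront

variable (G : GoodModel Lc Ec Fc R V w x S)

include G

/-- A valuation subring of `Fc` containing `R` and `w⁻¹` contains `Ec`. -/
theorem ec_mem_of_inv_mem (W : ValuationSubring Fc) (hRW : ∀ r ∈ Rf Fc R, r ∈ W)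
    (hwW : (wf G)⁻¹ ∈ W) : ∀ e : Fc, (e : Ω) ∈ Ec → e ∈ W := by
  intro e he
  rcases G.R_total e he with h1 | h1
  · exact hRW e h1
  · by_cases he0 : e = 0
    · rw [he0]; exact W.zero_mem
    have he0' : (e : Ω) ≠ 0 := fun h => he0 (Subtype.ext h)
    obtain ⟨n, -, hn⟩ := G.w_discrete (e : Ω)⁻¹ h1 (inv_ne_zero he0')
    have hmem : (e⁻¹ * (wf G)⁻¹ ^ n)⁻¹ ∈ W := hRW _ hn
    have hw0 : wf G ≠ 0 := wf_ne_zero G
    have : e = (e⁻¹ * (wf G)⁻¹ ^ n)⁻¹ * (wf G)⁻¹ ^ n := by
      field_simp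
    rw [this]
    exact mul_mem hmem (pow_mem hwW n)

/-- **The place hypothesis** of `divisibleDivisor_of_places` from the divisor hypothesis of
`Alg.AlgMainStatement`. -/
theorem exists_pow_unit_of_dvr {u : Fc} (hu : u ≠ 0) {m : ℕ}
    (hdiv : ∀ O : ValuationSubring Ω, (∀ a ∈ Lc, a ∈ O) →
      ∃ t : Ω, t ≠ 0 ∧ (u : Ω) * t ^ m ∈ O ∧ ((u : Ω) * t ^ m)⁻¹ ∈ O)
    (W : ValuationSubring Fc) (hW : IsDiscreteValuationRing W)
    (hRW : ∀ r ∈ Rf Fc R, r ∈ W) (hwW : (wf G)⁻¹ ∈ W) :
    ∃ s : Fc, s ≠ 0 ∧ u * s ^ m ∈ W ∧ (u * s ^ m)⁻¹ ∈ W := by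
  haveI := G.charZero
  exact H845.exists_pow_unit_of_forall_over Lc Ec Fc G.E_le_F G.L_algebraic G.compositum hu hdiv W
    (ec_mem_of_inv_mem G W hRW hwW)

/-- **`DivisibleDivisor` for any realisation `B` of a chart of a good model.** -/
theorem divisibleDivisor {B : Type*} [CommRing B] [IsDomain B] [IsNoetherianRing B]
    [IsIntegrallyClosed B] [Algebra B Fc] [IsFractionRing B Fc]
    (hRB : ∀ r ∈ Rf Fc R, ∃ b : B, algebraMap B Fc b = r)
    (ϖ : B) (hϖ : Prime ϖ) (hϖw : algebraMap B Fc ϖ = wf G)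
    {u : Fc} (hu1 : H754.OneModPi ϖ u) {m : ℕ}
    (hdiv : ∀ O : ValuationSubring Ω, (∀ a ∈ Lc, a ∈ O) →
      ∃ t : Ω, t ≠ 0 ∧ (u : Ω) * t ^ m ∈ O ∧ ((u : Ω) * t ^ m)⁻¹ ∈ O) :
    H754.DivisibleDivisor B m u := by
  have hinj : Function.Injective (algebraMap B Fc) := IsFractionRing.injective B Fc
  have hu0 : u ≠ 0 := by
    obtain ⟨a₀, s₀, hs₀, has₀, hu₀⟩ := hu1
    rintro rfl
    rw [zero_mul] at hu₀
    have : a₀ = 0 := hinj (by rw [← hu₀, map_zero])
    apply hs₀
    have := Ideal.sub_mem _ (this ▸ Ideal.zero_mem (Ideal.span {ϖ}) : a₀ ∈ Ideal.span {ϖ}) has₀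
    simpa using this
  refine divisibleDivisor_of_places ϖ hϖ u hu1 m fun W hW hBW hϖW => ?_
  refine exists_pow_unit_of_dvr G hu0 hdiv W hW (fun r hr => ?_) (by rwa [hϖw] at hϖW)
  obtain ⟨b, hb⟩ := hRB r hr
  rw [← hb]
  exact hBW b

end GoodModelFront

end Fermat.Agent.S18.H438

end
end
-- ===== PACK-END S18/H438/Front/Divisor.lean

-- ===== PACK-BEGIN Lib/RR/H638/Cech.lean
section



/-!
# Čech formula for the Riemann genus (helper638)

For a function field `F / K` satisfying the standing hypotheses `FF1 K F` of the RR library and two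
disjoint nonempty finite sets of places `Tz`, `Ti` ("zeros" and "poles"), put

* `B₀ = holOff Ti` (functions regular outside `Ti`),
* `B∞ = holOff Tz`,
* `Bm = holOff (Tz ∪ Ti)`.

Then `Bm / (B₀ + B∞)` is finite-dimensional of dimension `g`, the genus in the sense of
Riemann's theorem (`IsRiemannGenus K F g`; for `g = genusR K F` this is `exists_degree_bound` of
the RR library, see `CechGenusR.lean`).
(`H¹` of the structure sheaf computed on the cover `{X ∖ Ti, X ∖ Tz}`).

Main results: `finrank_cech_map`, `finrank_cech_quot`, `genus_le_of_span`, `le_genus_of_indep`,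
and the versions for the zeros and poles of a nonconstant function `x` (`zerosOf`, `polesOf`,
`finrank_cech_of_fun`).
-/

set_option autoImplicit false

noncomputable section

open AlgebraicCurve

namespace Fermat.Agent.Lib.RR.H638

open Fermat.Agent.Lib.RR

variable {K F : Type*} [Field K] [Field F] [Algebra K F]

variable (K F) in
/-- `g` is the genus of `F / K` in the sense of Riemann's theorem:
`ℓ(D) = deg D + 1 - g` for all divisors of sufficiently large degree. -/
def IsRiemannGenus (g : ℕ) : Prop :=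
  ∃ c : ℤ, ∀ D : Divisor K F, c ≤ Divisor.degree D →
    (ell D : ℤ) = Divisor.degree D + 1 - (g : ℤ)

/-- Functions regular outside the set `T` of places. -/
def holOff (T : Set (Place K F)) : Subalgebra K F where
  carrier := {f | ∀ v : Place K F, v ∉ T → 0 ≤ v.ord f}
  mul_mem' := by
    intro f g hf hg v hv
    rw [← mem_iff_ord_nonneg] at *
    exact mul_mem ((mem_iff_ord_nonneg v f).mpr (hf v hv)) ((mem_iff_ord_nonneg v g).mpr (hg v hv))
  add_mem' := by
    intro f g hf hg v hv
    rw [← mem_iff_ord_nonneg] at *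
    exact add_mem ((mem_iff_ord_nonneg v f).mpr (hf v hv)) ((mem_iff_ord_nonneg v g).mpr (hg v hv))
  algebraMap_mem' := by
    intro c v _
    rw [ord_algebraMap]

theorem mem_holOff {T : Set (Place K F)} {f : F} :
    f ∈ holOff T ↔ ∀ v : Place K F, v ∉ T → 0 ≤ v.ord f := Iff.rfl

theorem holOff_mono {T T' : Set (Place K F)} (h : T ⊆ T') : holOff T ≤ holOff T' :=
  fun _ hf v hv => hf v (fun hvT => hv (h hvT))

/-- The reduced divisor `∑_{v ∈ T} v`. -/
def divT (T : Finset (Place K F)) : Divisor K F := ∑ v ∈ T, prim v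

open scoped Classical in
theorem divT_apply (T : Finset (Place K F)) (v : Place K F) :
    divT T v = if v ∈ T then 1 else 0 := by
  unfold divT
  rw [Finsupp.finsetSum_apply]
  by_cases hv : v ∈ T
  · rw [if_pos hv, Finset.sum_eq_single v]
    · exact prim_apply_self v
    · intro w _ hw; exact prim_apply_of_ne (Ne.symm hw)
    · intro h; exact absurd hv h
  · rw [if_neg hv]
    refine Finset.sum_eq_zero fun w hw => prim_apply_of_ne ?_
    rintro rfl; exact hv hw

theorem divT_apply_mem {T : Finset (Place K F)} {v : Place K F} (hv : v ∈ T) : divT T v = 1 := by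
  classical
  rw [divT_apply, if_pos hv]

theorem divT_apply_not_mem {T : Finset (Place K F)} {v : Place K F} (hv : v ∉ T) :
    divT T v = 0 := by
  classical
  rw [divT_apply, if_neg hv]

theorem divT_nonneg (T : Finset (Place K F)) (v : Place K F) : 0 ≤ divT T v := by
  by_cases hv : v ∈ T
  · rw [divT_apply_mem hv]; exact zero_le_one
  · rw [divT_apply_not_mem hv]

theorem degree_divT [FF1 K F] (T : Finset (Place K F)) : Divisor.degree (divT T) = T.card := by
  unfold divT
  rw [map_sum]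
  simp

/-- `L(n T) ⊆ holOff T`. -/
theorem L_le_holOff (T : Finset (Place K F)) (n : ℕ) :
    riemannRochSpace (n • divT T) ≤ Subalgebra.toSubmodule (holOff (T : Set (Place K F))) := by
  intro f hf v hv
  have hv' : v ∉ T := fun h => hv (Finset.mem_coe.mpr h)
  rcases mem_L_iff.mp hf v with h | h
  · rw [h, v.ord_zero]
  · simpa [divT_apply_not_mem hv'] using h

/-- `holOff T = ⋃ₙ L(n T)`. -/
theorem exists_mem_L_of_mem_holOff (T : Finset (Place K F)) {f : F}
    (hf : f ∈ holOff (T : Set (Place K F))) :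
    ∃ n : ℕ, f ∈ riemannRochSpace (n • divT T) := by
  classical
  refine ⟨∑ v ∈ T, (v.ord f).natAbs, ?_⟩
  rw [mem_L_iff]
  intro v
  right
  by_cases hv : v ∈ T
  · have h1 : (v.ord f).natAbs ≤ ∑ w ∈ T, (w.ord f).natAbs :=
      Finset.single_le_sum (f := fun w => (w.ord f).natAbs) (fun _ _ => Nat.zero_le _) hv
    simp only [Finsupp.coe_smul, Pi.smul_apply, divT_apply_mem hv, mul_one, nsmul_eq_mul]
    omega
  · have := hf v (fun h => hv (Finset.mem_coe.mp h))
    simp only [Finsupp.coe_smul, Pi.smul_apply, divT_apply_not_mem hv, nsmul_eq_mul, mul_zero,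
      neg_zero]
    exact this

theorem nsmul_divT_mono (T : Finset (Place K F)) {m n : ℕ} (h : m ≤ n) :
    m • divT T ≤ n • divT T := by
  rw [Finsupp.le_def]
  intro v
  simp only [Finsupp.coe_smul, Pi.smul_apply, nsmul_eq_mul]
  exact mul_le_mul_of_nonneg_right (by exact_mod_cast h) (divT_nonneg T v)

/-! ### The two-chart computation -/

section Cech

variable (Tz Ti : Finset (Place K F))

/-- The divisor `n (Tz + Ti)`. -/
def divM (n : ℕ) : Divisor K F := n • divT Tz + n • divT Ti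

theorem divM_apply (n : ℕ) (v : Place K F) :
    divM Tz Ti n v = n * divT Tz v + n * divT Ti v := by
  simp [divM]

theorem divM_mono {m n : ℕ} (h : m ≤ n) : divM Tz Ti m ≤ divM Tz Ti n :=
  add_le_add (nsmul_divT_mono Tz h) (nsmul_divT_mono Ti h)

theorem nsmul_divT_le_divM_right (n : ℕ) : n • divT Ti ≤ divM Tz Ti n := by
  rw [Finsupp.le_def]; intro v
  have := divT_nonneg Tz v
  rw [divM_apply]
  simp only [Finsupp.coe_smul, Pi.smul_apply, nsmul_eq_mul]
  nlinarith [Nat.cast_nonneg (α := ℤ) n]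

theorem nsmul_divT_le_divM_left (n : ℕ) : n • divT Tz ≤ divM Tz Ti n := by
  rw [Finsupp.le_def]; intro v
  have := divT_nonneg Ti v
  rw [divM_apply]
  simp only [Finsupp.coe_smul, Pi.smul_apply, nsmul_eq_mul]
  nlinarith [Nat.cast_nonneg (α := ℤ) n]

theorem L_sup_le (n : ℕ) :
    riemannRochSpace (n • divT Ti) ⊔ riemannRochSpace (n • divT Tz) ≤
      riemannRochSpace (divM Tz Ti n) :=
  sup_le (L_mono (nsmul_divT_le_divM_right Tz Ti n)) (L_mono (nsmul_divT_le_divM_left Tz Ti n))

theorem LM_le_holOff (n : ℕ) :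
    riemannRochSpace (divM Tz Ti n) ≤
      Subalgebra.toSubmodule (holOff ((Tz : Set (Place K F)) ∪ Ti)) := by
  intro f hf v hv
  have hvz : v ∉ Tz := fun h => hv (Or.inl (Finset.mem_coe.mpr h))
  have hvi : v ∉ Ti := fun h => hv (Or.inr (Finset.mem_coe.mpr h))
  rcases mem_L_iff.mp hf v with h | h
  · rw [h, v.ord_zero]
  · simpa [divM_apply, divT_apply_not_mem hvz, divT_apply_not_mem hvi] using h

theorem exists_mem_LM_of_mem_holOff {f : F}
    (hf : f ∈ holOff ((Tz : Set (Place K F)) ∪ Ti)) :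
    ∃ n : ℕ, f ∈ riemannRochSpace (divM Tz Ti n) := by
  classical
  refine ⟨∑ v ∈ Tz, (v.ord f).natAbs + ∑ v ∈ Ti, (v.ord f).natAbs, ?_⟩
  rw [mem_L_iff]
  intro v
  right
  rw [divM_apply]
  have hz := divT_nonneg Tz v
  have hi := divT_nonneg Ti v
  by_cases hvz : v ∈ Tz
  · have h1 : (v.ord f).natAbs ≤ ∑ w ∈ Tz, (w.ord f).natAbs :=
      Finset.single_le_sum (f := fun w => (w.ord f).natAbs) (fun _ _ => Nat.zero_le _) hvz
    rw [divT_apply_mem hvz]
    push_cast
    have h2 : (0 : ℤ) ≤ ∑ x ∈ Ti, |x.ord f| := Finset.sum_nonneg fun _ _ => abs_nonneg _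
    have h3 : (|v.ord f| : ℤ) ≤ ∑ x ∈ Tz, |x.ord f| :=
      Finset.single_le_sum (f := fun w => |w.ord f|) (fun _ _ => abs_nonneg _) hvz
    have h4 := neg_abs_le (v.ord f)
    have h5 : (0 : ℤ) ≤ (∑ x ∈ Tz, |x.ord f| + ∑ x ∈ Ti, |x.ord f|) * divT Ti v :=
      mul_nonneg (by linarith [abs_nonneg (v.ord f)]) hi
    linarith
  · by_cases hvi : v ∈ Ti
    · rw [divT_apply_mem hvi, divT_apply_not_mem hvz]
      push_cast
      have h2 : (0 : ℤ) ≤ ∑ x ∈ Tz, |x.ord f| := Finset.sum_nonneg fun _ _ => abs_nonneg _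
      have h3 : (|v.ord f| : ℤ) ≤ ∑ x ∈ Ti, |x.ord f| :=
        Finset.single_le_sum (f := fun w => |w.ord f|) (fun _ _ => abs_nonneg _) hvi
      have h4 := neg_abs_le (v.ord f)
      linarith
    · have := hf v (by
        rintro (h | h)
        · exact hvz (Finset.mem_coe.mp h)
        · exact hvi (Finset.mem_coe.mp h))
      rw [divT_apply_not_mem hvz, divT_apply_not_mem hvi]
      simpa using this

/-- `m ≤ ord (f - g)` if `m ≤ 0`, `m ≤ ord f`, `m ≤ ord g` (no nonvanishing needed). -/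
theorem le_ord_sub (v : Place K F) {f g : F} {m : ℤ} (hm : m ≤ 0) (hf : m ≤ v.ord f)
    (hg : m ≤ v.ord g) : m ≤ v.ord (f - g) := by
  have h := ord_add_of_le v (f := f) (g := -g) (n := m) (Or.inr hf)
    (Or.inr (by rw [ord_neg]; exact hg))
  rw [← sub_eq_add_neg] at h
  rcases h with h | h
  · rw [h, v.ord_zero]; exact hm
  · exact h

/-- Key separation: an element of `B₀ + B∞` lying in `L(n(Tz + Ti))` lies in
`L(n Ti) + L(n Tz)`. -/
theorem sup_inf_L_le (hdisj : Disjoint Tz Ti) (n : ℕ) :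
    (Subalgebra.toSubmodule (holOff (Ti : Set (Place K F))) ⊔
        Subalgebra.toSubmodule (holOff (Tz : Set (Place K F)))) ⊓
        riemannRochSpace (divM Tz Ti n) ≤
      riemannRochSpace (n • divT Ti) ⊔ riemannRochSpace (n • divT Tz) := by
  classical
  rintro f ⟨hf1, hf2⟩
  obtain ⟨a, ha, b, hb, rfl⟩ := Submodule.mem_sup.mp hf1
  have ha' : ∀ v : Place K F, v ∉ Ti → 0 ≤ v.ord a := fun v hv =>
    ha v (fun h => hv (Finset.mem_coe.mp h))
  have hb' : ∀ v : Place K F, v ∉ Tz → 0 ≤ v.ord b := fun v hv =>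
    hb v (fun h => hv (Finset.mem_coe.mp h))
  have hab : ∀ v : Place K F, -(divM Tz Ti n v) ≤ v.ord (a + b) := by
    intro v
    rcases mem_L_iff.mp hf2 v with h | h
    · rw [h, v.ord_zero, divM_apply]
      have hz := divT_nonneg Tz v
      have hi := divT_nonneg Ti v
      nlinarith [Nat.cast_nonneg (α := ℤ) n]
    · exact h
  refine Submodule.add_mem_sup ?_ ?_
  · rw [mem_L_iff]; intro v; right
    by_cases hv : v ∈ Ti
    · have hv0 : v ∉ Tz := Finset.disjoint_right.mp hdisj hv
      have h1 := hab v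
      rw [divM_apply, divT_apply_mem hv, divT_apply_not_mem hv0] at h1
      simp only [Finsupp.coe_smul, Pi.smul_apply, nsmul_eq_mul, divT_apply_mem hv, mul_one]
      have h2 := le_ord_sub v (f := a + b) (g := b) (m := -(n : ℤ)) (by omega) (by omega)
        (by have := hb' v hv0; omega)
      simpa using h2
    · have := ha' v hv
      simp only [Finsupp.coe_smul, Pi.smul_apply, nsmul_eq_mul, divT_apply_not_mem hv, mul_zero,
        neg_zero]
      exact this
  · rw [mem_L_iff]; intro v; right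
    by_cases hv : v ∈ Tz
    · have hv0 : v ∉ Ti := Finset.disjoint_left.mp hdisj hv
      have h1 := hab v
      rw [divM_apply, divT_apply_mem hv, divT_apply_not_mem hv0] at h1
      simp only [Finsupp.coe_smul, Pi.smul_apply, nsmul_eq_mul, divT_apply_mem hv, mul_one]
      have h2 := le_ord_sub v (f := a + b) (g := a) (m := -(n : ℤ)) (by omega) (by omega)
        (by have := ha' v hv0; omega)
      simpa using h2
    · have := hb' v hv
      simp only [Finsupp.coe_smul, Pi.smul_apply, nsmul_eq_mul, divT_apply_not_mem hv, mul_zero,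
        neg_zero]
      exact this

theorem sup_inf_L_eq (hdisj : Disjoint Tz Ti) (n : ℕ) :
    (Subalgebra.toSubmodule (holOff (Ti : Set (Place K F))) ⊔
        Subalgebra.toSubmodule (holOff (Tz : Set (Place K F)))) ⊓
        riemannRochSpace (divM Tz Ti n) =
      riemannRochSpace (n • divT Ti) ⊔ riemannRochSpace (n • divT Tz) := by
  apply le_antisymm (sup_inf_L_le Tz Ti hdisj n)
  exact le_inf (sup_le_sup (L_le_holOff Ti n) (L_le_holOff Tz n)) (L_sup_le Tz Ti n)

/-- `L(n Ti) ∩ L(n Tz) = L(0)`. -/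
theorem L_inf_eq (hdisj : Disjoint Tz Ti) (n : ℕ) :
    riemannRochSpace (n • divT Ti) ⊓ riemannRochSpace (n • divT Tz) =
      riemannRochSpace (0 : Divisor K F) := by
  classical
  apply le_antisymm
  · rintro f ⟨h1, h2⟩
    rw [mem_L_iff]
    intro v
    by_cases hv : v ∈ Ti
    · have hv0 : v ∉ Tz := Finset.disjoint_right.mp hdisj hv
      have := mem_L_iff.mp h2 v
      simpa [divT_apply_not_mem hv0] using this
    · have := mem_L_iff.mp h1 v
      simpa [divT_apply_not_mem hv] using this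
  · refine le_inf (L_mono ?_) (L_mono ?_)
    · rw [Finsupp.le_def]; intro v
      have := divT_nonneg Ti v
      simp only [Finsupp.coe_zero, Pi.zero_apply, Finsupp.coe_smul, Pi.smul_apply, nsmul_eq_mul]
      positivity
    · rw [Finsupp.le_def]; intro v
      have := divT_nonneg Tz v
      simp only [Finsupp.coe_zero, Pi.zero_apply, Finsupp.coe_smul, Pi.smul_apply, nsmul_eq_mul]
      positivity

end Cech

/-! ### Dimension count and the main theorem -/

section Main

variable [FF1 K F] (Tz Ti : Finset (Place K F))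

theorem degree_nsmul_divT (T : Finset (Place K F)) (n : ℕ) :
    Divisor.degree (n • divT T) = n * T.card := by
  rw [map_nsmul, degree_divT]; simp

theorem degree_divM (n : ℕ) :
    Divisor.degree (divM Tz Ti n) = n * Tz.card + n * Ti.card := by
  rw [divM, map_add, degree_nsmul_divT, degree_nsmul_divT]

/-- **Čech formula for the genus** (image form): the image of `Bm = holOff (Tz ∪ Ti)` in
`F ⧸ (B₀ + B∞)`, `B₀ = holOff Ti`, `B∞ = holOff Tz`, has dimension `g`. -/
theorem finrank_cech_map {g : ℕ} (hg : IsRiemannGenus K F g)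
    (hdisj : Disjoint Tz Ti) (hz : Tz.Nonempty) (hi : Ti.Nonempty) :
    Module.Finite K ↥((Subalgebra.toSubmodule (holOff ((Tz : Set (Place K F)) ∪ Ti))).map
        (Subalgebra.toSubmodule (holOff (Ti : Set (Place K F))) ⊔
          Subalgebra.toSubmodule (holOff (Tz : Set (Place K F)))).mkQ) ∧
      Module.finrank K ↥((Subalgebra.toSubmodule (holOff ((Tz : Set (Place K F)) ∪ Ti))).map
        (Subalgebra.toSubmodule (holOff (Ti : Set (Place K F))) ⊔
          Subalgebra.toSubmodule (holOff (Tz : Set (Place K F)))).mkQ) = g := by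
  obtain ⟨c, hc⟩ := hg
  have hz1 : 1 ≤ Tz.card := Finset.card_pos.mpr hz
  have hi1 : 1 ≤ Ti.card := Finset.card_pos.mpr hi
  refine finrank_map_mkQ_of_exhaust _ _ (fun n => riemannRochSpace (divM Tz Ti n))
    (fun m n h => L_mono (divM_mono Tz Ti h)) (fun n => inferInstance)
    (fun n => LM_le_holOff Tz Ti n) (fun f hf => exists_mem_LM_of_mem_holOff Tz Ti hf)
    g c.toNat ?_
  intro n hn
  have hcn : c ≤ n := by
    have := Int.self_le_toNat c
    have : ((c.toNat : ℕ) : ℤ) ≤ (n : ℤ) := by exact_mod_cast hn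
    omega
  have hnn : (0 : ℤ) ≤ n := Int.natCast_nonneg n
  have hzc : (n : ℤ) ≤ n * Tz.card := by
    have : (1 : ℤ) ≤ Tz.card := by exact_mod_cast hz1
    nlinarith
  have hic : (n : ℤ) ≤ n * Ti.card := by
    have : (1 : ℤ) ≤ Ti.card := by exact_mod_cast hi1
    nlinarith
  have e1 := hc (n • divT Ti) (by rw [degree_nsmul_divT]; omega)
  have e2 := hc (n • divT Tz) (by rw [degree_nsmul_divT]; omega)
  have e3 := hc (divM Tz Ti n) (by rw [degree_divM]; omega)
  rw [degree_nsmul_divT] at e1 e2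
  rw [degree_divM] at e3
  rw [sup_inf_L_eq Tz Ti hdisj n]
  have h4 := Submodule.finrank_sup_add_finrank_inf_eq (riemannRochSpace (n • divT Ti))
    (riemannRochSpace (n • divT Tz))
  rw [L_inf_eq Tz Ti hdisj n] at h4
  have h5 : Module.finrank K ↥(riemannRochSpace (0 : Divisor K F)) = 1 := ell_zero
  rw [h5] at h4
  unfold ell at e1 e2 e3
  have h6 : (Module.finrank K ↥(riemannRochSpace (n • divT Ti) ⊔ riemannRochSpace (n • divT Tz)) : ℤ)
      + 1 = Module.finrank K ↥(riemannRochSpace (n • divT Ti)) +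
        Module.finrank K ↥(riemannRochSpace (n • divT Tz)) := by exact_mod_cast h4
  have h7 : (Module.finrank K ↥(riemannRochSpace (divM Tz Ti n)) : ℤ) =
      Module.finrank K ↥(riemannRochSpace (n • divT Ti) ⊔ riemannRochSpace (n • divT Tz)) +
        g := by
    rw [e3]; linarith
  exact_mod_cast h7

end Main

/-! ### Packaged form and corollaries -/

section Corollaries

variable (Tz Ti : Finset (Place K F))

/-- `B₀ + B∞`, the sum of the two chart algebras (as a `K`-subspace of `F`). -/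
def cechW : Submodule K F :=
  Subalgebra.toSubmodule (holOff (Ti : Set (Place K F))) ⊔
    Subalgebra.toSubmodule (holOff (Tz : Set (Place K F)))

/-- `Bm`, the functions regular on the intersection of the two charts. -/
def cechM : Submodule K F :=
  Subalgebra.toSubmodule (holOff ((Tz : Set (Place K F)) ∪ Ti))

/-- The Čech `H¹`: the image of `Bm` in `F ⧸ (B₀ + B∞)`. -/
def cechH1 : Submodule K (F ⧸ cechW Tz Ti) := (cechM Tz Ti).map (cechW Tz Ti).mkQ

theorem cechW_le_cechM : cechW Tz Ti ≤ cechM Tz Ti :=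
  sup_le (holOff_mono (fun _ h => Or.inr h)) (holOff_mono (fun _ h => Or.inl h))

variable [FF1 K F]

theorem finite_cechH1 {g : ℕ} (hg : IsRiemannGenus K F g)
    (hdisj : Disjoint Tz Ti) (hz : Tz.Nonempty) (hi : Ti.Nonempty) :
    Module.Finite K ↥(cechH1 Tz Ti) :=
  (finrank_cech_map Tz Ti hg hdisj hz hi).1

/-- **Čech formula for the genus.** -/
theorem finrank_cechH1 {g : ℕ} (hg : IsRiemannGenus K F g)
    (hdisj : Disjoint Tz Ti) (hz : Tz.Nonempty) (hi : Ti.Nonempty) :
    Module.finrank K ↥(cechH1 Tz Ti) = g :=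
  (finrank_cech_map Tz Ti hg hdisj hz hi).2

/-- The quotient `Bm ⧸ (B₀ + B∞)` is isomorphic to the Čech `H¹`. -/
def cechQuotEquiv :
    (↥(cechM Tz Ti) ⧸ (cechW Tz Ti).submoduleOf (cechM Tz Ti)) ≃ₗ[K] ↥(cechH1 Tz Ti) :=
  ((Submodule.quotEquivOfEq _ _ (by
      rw [LinearMap.ker_comp, Submodule.ker_mkQ]; rfl)).trans
    (LinearMap.quotKerEquivRange ((cechW Tz Ti).mkQ.comp (cechM Tz Ti).subtype))).trans
    (LinearEquiv.ofEq _ _ (by
      rw [LinearMap.range_comp, Submodule.range_subtype]; rfl))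

/-- **Čech formula for the genus**, quotient form:
`dim_K Bm ⧸ (B₀ + B∞) = g`. -/
theorem finrank_cech_quot {g : ℕ} (hg : IsRiemannGenus K F g)
    (hdisj : Disjoint Tz Ti) (hz : Tz.Nonempty) (hi : Ti.Nonempty) :
    Module.Finite K (↥(cechM Tz Ti) ⧸ (cechW Tz Ti).submoduleOf (cechM Tz Ti)) ∧
      Module.finrank K (↥(cechM Tz Ti) ⧸ (cechW Tz Ti).submoduleOf (cechM Tz Ti)) = g := by
  have hfin := finite_cechH1 Tz Ti hg hdisj hz hi
  refine ⟨Module.Finite.equiv (cechQuotEquiv Tz Ti).symm, ?_⟩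
  rw [(cechQuotEquiv Tz Ti).finrank_eq]
  exact finrank_cechH1 Tz Ti hg hdisj hz hi

/-- Upper bound for the genus: if `Bm` is spanned by `B₀ + B∞` and a finite family `h`, then
`g ≤ #h`. -/
theorem genus_le_of_span {g : ℕ} (hg : IsRiemannGenus K F g)
    (hdisj : Disjoint Tz Ti) (hz : Tz.Nonempty) (hi : Ti.Nonempty)
    {ι : Type*} [Fintype ι] (h : ι → F)
    (hspan : cechM Tz Ti ≤ Submodule.span K (Set.range h) ⊔ cechW Tz Ti) :
    g ≤ Fintype.card ι := by
  have h1 : cechH1 Tz Ti ≤ (Submodule.span K (Set.range h)).map (cechW Tz Ti).mkQ := by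
    unfold cechH1
    refine (Submodule.map_mono hspan).trans ?_
    rw [Submodule.map_sup]
    rw [Submodule.mkQ_map_self, sup_bot_eq]
  have hfs : Module.Finite K ↥(Submodule.span K (Set.range h)) :=
    FiniteDimensional.span_of_finite K (Set.finite_range h)
  have h2 := Submodule.finrank_mono h1
  rw [finrank_cechH1 Tz Ti hg hdisj hz hi] at h2
  have h3 : Module.finrank K ↥((Submodule.span K (Set.range h)).map (cechW Tz Ti).mkQ) ≤
      Module.finrank K ↥(Submodule.span K (Set.range h)) :=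
    Submodule.finrank_map_le _ _
  have h4 : Module.finrank K ↥(Submodule.span K (Set.range h)) ≤ Fintype.card ι :=
    finrank_range_le_card (R := K) h
  omega

/-- Lower bound for the genus: a finite family in `Bm` which is linearly independent modulo
`B₀ + B∞` has at most `g` elements. -/
theorem le_genus_of_indep {g : ℕ} (hg : IsRiemannGenus K F g)
    (hdisj : Disjoint Tz Ti) (hz : Tz.Nonempty) (hi : Ti.Nonempty)
    {ι : Type*} [Fintype ι] (h : ι → F) (hM : ∀ i, h i ∈ cechM Tz Ti)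
    (hind : LinearIndependent K (fun i => (cechW Tz Ti).mkQ (h i))) :
    Fintype.card ι ≤ g := by
  have hfin := finite_cechH1 Tz Ti hg hdisj hz hi
  let b : ι → ↥(cechH1 Tz Ti) := fun i => ⟨(cechW Tz Ti).mkQ (h i), Submodule.mem_map_of_mem (hM i)⟩
  have hb : LinearIndependent K b := by
    apply LinearIndependent.of_comp (cechH1 Tz Ti).subtype
    exact hind
  have := hb.fintype_card_le_finrank
  rwa [finrank_cechH1 Tz Ti hg hdisj hz hi] at this

/-- Elementary form of the independence hypothesis. -/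
theorem le_genus_of_indep' {g : ℕ} (hg : IsRiemannGenus K F g)
    (hdisj : Disjoint Tz Ti) (hz : Tz.Nonempty) (hi : Ti.Nonempty)
    {ι : Type*} [Fintype ι] (h : ι → F) (hM : ∀ i, h i ∈ cechM Tz Ti)
    (hind : ∀ c : ι → K, ∑ i, c i • h i ∈ cechW Tz Ti → c = 0) :
    Fintype.card ι ≤ g := by
  refine le_genus_of_indep Tz Ti hg hdisj hz hi h hM ?_
  rw [Fintype.linearIndependent_iff]
  intro c hc i
  have h1 : (cechW Tz Ti).mkQ (∑ i, c i • h i) = 0 := by
    rw [map_sum]
    simpa [map_smul] using hc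
  have h2 : ∑ i, c i • h i ∈ cechW Tz Ti := by
    rwa [Submodule.mkQ_apply, Submodule.Quotient.mk_eq_zero] at h1
  exact congrFun (hind c h2) i

end Corollaries

end Fermat.Agent.Lib.RR.H638

end
end
-- ===== PACK-END Lib/RR/H638/Cech.lean

-- ===== PACK-BEGIN S17/H50/AbsNorthcott.lean
section



/-!
# S17 / tower H, piece ABS (4) (helper50): Northcott for the absolute height

On top of the absolute logarithmic height `H380.absLogHeight` of tuples over `ℚ̄`:

* `ah x = absLogHeight ![x, 1]`, `ah_eq`, `ah_rat`, `ah_sub_le`, `ah_mul_le`;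
* `absLogHeight_comp_le` : the height of a sub-tuple is at most the height of the tuple;
* `ah_le_absLogHeight` : `ah (y i) ≤ absLogHeight y` if some coordinate of `y` is `1`;
* `ah_coeff_rootPoly_le` : the coefficients of `∏ (X - a)` have height `≤ (2^n - 1)(log 2 + H)`;
* `finite_rat_ah_le` : Northcott on `ℚ`;
* `northcott_cycle_abs` : **Northcott for Galois-stable cycles**: finitely many Galois-stable
  multisets `S` of points `y : ι → ℚ̄` (normalised by some coordinate `= 1`) with
  `card S ≤ d` and `∑_{y ∈ S} absLogHeight y ≤ B`;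
* `northcott_alg_abs` : finitely many `α ∈ ℚ̄` of degree `≤ d` and `ah α ≤ B`;
* `northcott_point_abs` : finitely many normalised points with coordinates of degree `≤ d` and
  `absLogHeight ≤ B`.
-/

set_option autoImplicit false
set_option linter.unusedSectionVars false
set_option linter.style.haveILetI false

open Polynomial Height NumberField Module IntermediateField
open Fermat.Agent.S17.H380

noncomputable section

namespace Fermat.Agent.S17.H50

section general

variable {A : Type*} [Field A] [CharZero A]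

/-- the absolute logarithmic height of an algebraic number -/
def ah (x : A) : ℝ := absLogHeight ![x, 1]

theorem ah_nonneg (x : A) : 0 ≤ ah x := absLogHeight_nonneg _

/-- `ah` can be computed in any number field mapping to `A` -/
theorem ah_eq {F : Type*} [Field F] [NumberField F] (σ : F →+* A) (y : F) :
    ah (σ y) = (finrank ℚ F : ℝ)⁻¹ * logHeight₁ y := by
  have h := absLogHeight_eq σ ![y, 1]
  rw [logHeight₁_eq_logHeight, ← h]
  unfold ah
  congr 1
  ext i
  fin_cases i <;> simp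

theorem ah_rat (q : ℚ) : ah (algebraMap ℚ A q) = logHeight₁ q := by
  rw [ah_eq (algebraMap ℚ A) q]
  simp

theorem ah_zero : ah (0 : A) = 0 := by
  have := ah_rat (A := A) 0
  simpa using this

theorem ah_one : ah (1 : A) = 0 := by
  have := ah_rat (A := A) 1
  simpa using this

/-- two algebraic numbers lie in a common number field -/
theorem exists_numberField_pair (x y : A) (hx : IsIntegral ℚ x) (hy : IsIntegral ℚ y) :
    ∃ F : IntermediateField ℚ A, NumberField F ∧ x ∈ F ∧ y ∈ F := by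
  refine ⟨tupleField ![x, y], tupleField_numberField _ ?_, ?_, ?_⟩
  · intro i
    fin_cases i
    · simpa using hx
    · simpa using hy
  · exact subset_adjoin ℚ _ ⟨0, rfl⟩
  · exact subset_adjoin ℚ _ ⟨1, rfl⟩

theorem ah_mul_le (x y : A) (hx : IsIntegral ℚ x) (hy : IsIntegral ℚ y) :
    ah (x * y) ≤ ah x + ah y := by
  obtain ⟨F, hF, hxF, hyF⟩ := exists_numberField_pair x y hx hy
  haveI := hF
  have h1 := ah_eq (algebraMap F A) (⟨x, hxF⟩ : F)
  have h2 := ah_eq (algebraMap F A) (⟨y, hyF⟩ : F)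
  have h3 := ah_eq (algebraMap F A) ((⟨x, hxF⟩ : F) * ⟨y, hyF⟩)
  rw [map_mul] at h3
  change ah x = _ at h1
  change ah y = _ at h2
  change ah (x * y) = _ at h3
  rw [h1, h2, h3, ← mul_add]
  have hpos : (0 : ℝ) ≤ (finrank ℚ F : ℝ)⁻¹ := by positivity
  exact mul_le_mul_of_nonneg_left (logHeight₁_mul_le _ _) hpos

theorem ah_sub_le (x y : A) (hx : IsIntegral ℚ x) (hy : IsIntegral ℚ y) :
    ah (x - y) ≤ Real.log 2 + ah x + ah y := by
  obtain ⟨F, hF, hxF, hyF⟩ := exists_numberField_pair x y hx hy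
  haveI := hF
  have h1 := ah_eq (algebraMap F A) (⟨x, hxF⟩ : F)
  have h2 := ah_eq (algebraMap F A) (⟨y, hyF⟩ : F)
  have h3 := ah_eq (algebraMap F A) ((⟨x, hxF⟩ : F) - ⟨y, hyF⟩)
  rw [map_sub] at h3
  change ah x = _ at h1
  change ah y = _ at h2
  change ah (x - y) = _ at h3
  rw [h1, h2, h3]
  have hF0 : (0 : ℝ) < finrank ℚ F := by exact_mod_cast Module.finrank_pos
  have h4 := logHeight₁_sub_le (⟨x, hxF⟩ : F) ⟨y, hyF⟩
  rw [totalWeight_eq_finrank] at h4
  have hpos : (0 : ℝ) ≤ (finrank ℚ F : ℝ)⁻¹ := by positivity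
  have h5 := mul_le_mul_of_nonneg_left h4 hpos
  have h6 : (finrank ℚ F : ℝ)⁻¹ * ((finrank ℚ F : ℝ) * Real.log 2
      + logHeight₁ (⟨x, hxF⟩ : F) + logHeight₁ (⟨y, hyF⟩ : F))
      = Real.log 2 + (finrank ℚ F : ℝ)⁻¹ * logHeight₁ (⟨x, hxF⟩ : F)
        + (finrank ℚ F : ℝ)⁻¹ * logHeight₁ (⟨y, hyF⟩ : F) := by
    field_simp
  rw [h6] at h5
  exact h5

variable {ι ι' : Type*} [Finite ι] [Finite ι']

/-- the absolute height of a sub-tuple is at most the absolute height of the tuple -/
theorem absLogHeight_comp_le (f : ι' → ι) (x : ι → A) (hx : ∀ i, IsIntegral ℚ (x i)) :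
    absLogHeight (x ∘ f) ≤ absLogHeight x := by
  haveI := tupleField_numberField x hx
  rw [absLogHeight_def x hx]
  have h := absLogHeight_eq (algebraMap (tupleField x) A) (tupleLift x ∘ f)
  have h' : (fun i => algebraMap (tupleField x) A ((tupleLift x ∘ f) i)) = x ∘ f := by
    funext i
    rfl
  rw [h'] at h
  rw [h]
  have hpos : (0 : ℝ) ≤ (finrank ℚ (tupleField x) : ℝ)⁻¹ := by positivity
  exact mul_le_mul_of_nonneg_left (logHeight_comp_le f (tupleLift x)) hpos

/-- the height of a coordinate of a normalised point is at most the height of the point -/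
theorem ah_le_absLogHeight (y : ι → A) (hy : ∀ i, IsIntegral ℚ (y i)) (i₀ : ι) (h1 : y i₀ = 1)
    (i : ι) : ah (y i) ≤ absLogHeight y := by
  have h := _root_.Fermat.Agent.S17.H50.absLogHeight_comp_le ![i, i₀] y hy
  have h' : y ∘ ![i, i₀] = ![y i, 1] := by
    funext j
    fin_cases j
    · rfl
    · simpa using h1
  rw [h'] at h
  exact h

/-- **Heights of the coefficients of a polynomial in terms of the heights of its roots**
(crude bound, sufficient for Northcott). -/
theorem ah_coeff_rootPoly_le (s : Multiset A) (hs : ∀ a ∈ s, IsIntegral ℚ a) (H : ℝ)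
    (hH : ∀ a ∈ s, ah a ≤ H) (k : ℕ) :
    IsIntegral ℚ ((rootPoly s).coeff k) ∧
      ah ((rootPoly s).coeff k) ≤ (2 ^ s.card - 1) * (Real.log 2 + H) := by
  induction s using Multiset.induction_on generalizing k with
  | empty =>
    rw [coeff_rootPoly_zero]
    split_ifs
    · exact ⟨isIntegral_one, by simp [ah_one]⟩
    · exact ⟨isIntegral_zero, by simp [ah_zero]⟩
  | cons a s ih =>
    have hs' : ∀ b ∈ s, IsIntegral ℚ b := fun b hb => hs b (Multiset.mem_cons_of_mem hb)
    have hH' : ∀ b ∈ s, ah b ≤ H := fun b hb => hH b (Multiset.mem_cons_of_mem hb)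
    have ha : IsIntegral ℚ a := hs a (Multiset.mem_cons_self a s)
    have haH : ah a ≤ H := hH a (Multiset.mem_cons_self a s)
    have hH0 : 0 ≤ H := (ah_nonneg a).trans haH
    have hlog : 0 ≤ Real.log 2 := Real.log_nonneg (by norm_num)
    have hM0 : (0 : ℝ) ≤ (2 ^ s.card - 1) * (Real.log 2 + H) := by
      refine mul_nonneg ?_ (by linarith)
      have : (1 : ℝ) ≤ 2 ^ s.card := one_le_pow₀ (by norm_num)
      linarith
    rw [coeff_rootPoly_cons, Multiset.card_cons]
    obtain ⟨hi2, hb2⟩ := ih hs' hH' k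
    have hu : IsIntegral ℚ (if k = 0 then (0 : A) else (rootPoly s).coeff (k - 1)) ∧
        ah (if k = 0 then (0 : A) else (rootPoly s).coeff (k - 1))
          ≤ (2 ^ s.card - 1) * (Real.log 2 + H) := by
      split_ifs
      · exact ⟨isIntegral_zero, by rw [ah_zero]; exact hM0⟩
      · exact ih hs' hH' (k - 1)
    obtain ⟨hi1, hb1⟩ := hu
    have hiw : IsIntegral ℚ (a * (rootPoly s).coeff k) := ha.mul hi2
    refine ⟨hi1.sub hiw, ?_⟩
    have h1 := ah_sub_le _ _ hi1 hiw
    have h2 := ah_mul_le _ _ ha hi2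
    have h3 : ((2 : ℝ) ^ (s.card + 1) - 1) * (Real.log 2 + H)
        = Real.log 2 + H + 2 * ((2 ^ s.card - 1) * (Real.log 2 + H)) := by ring
    rw [h3]
    linarith

end general

/-! ### Northcott -/

theorem isIntegral_Qb (x : Qb) : IsIntegral ℚ x :=
  (Algebra.IsAlgebraic.isAlgebraic (R := ℚ) x).isIntegral

/-- **Northcott on `ℚ`** for the absolute height. -/
theorem finite_rat_ah_le (B : ℝ) : {q : ℚ | ah (algebraMap ℚ Qb q) ≤ B}.Finite := by
  have h := finite_setOfPred_logHeight₁_le ℚ B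
  refine h.subset ?_
  intro q hq
  simp only [Set.mem_ofPred_eq] at hq ⊢
  rw [ah_rat] at hq
  exact hq

variable {ι : Type*} [Finite ι]

/-- the naive height of a cycle w.r.t. the absolute height -/
def cycAbs (S : Multiset (ι → Qb)) : ℝ := (S.map fun y => absLogHeight y).sum

theorem cycAbs_nonneg (S : Multiset (ι → Qb)) : 0 ≤ cycAbs S :=
  Multiset.sum_nonneg (by
    intro x hx
    obtain ⟨y, -, rfl⟩ := Multiset.mem_map.1 hx
    exact absLogHeight_nonneg y)

theorem absLogHeight_le_cycAbs (S : Multiset (ι → Qb)) (y : ι → Qb) (hy : y ∈ S) :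
    absLogHeight y ≤ cycAbs S := by
  obtain ⟨T, rfl⟩ := Multiset.exists_cons_of_mem hy
  unfold cycAbs
  rw [Multiset.map_cons, Multiset.sum_cons]
  have := cycAbs_nonneg T
  unfold cycAbs at this
  linarith

theorem cycAbs_add (S T : Multiset (ι → Qb)) : cycAbs (S + T) = cycAbs S + cycAbs T := by
  simp [cycAbs]

/-- **Northcott for Galois-stable cycles** (absolute height): there are only finitely many
Galois-stable multisets `S` of normalised points of `ℚ̄^ι` with `card S ≤ d` and
`∑_{y ∈ S} absLogHeight y ≤ B`. -/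
theorem northcott_cycle_abs (d : ℕ) (B : ℝ) :
    {S : Multiset (ι → Qb) | S.card ≤ d ∧ IsGStable S ∧
      ((∀ y ∈ S, ∃ i, y i = 1) ∧ cycAbs S ≤ B)}.Finite := by
  refine northcott_of_coeff_bound ah finite_rat_ah_le
    (fun S => (∀ y ∈ S, ∃ i, y i = 1) ∧ cycAbs S ≤ B) d
    ((2 ^ d - 1) * (Real.log 2 + max B 0)) ?_
  rintro S hcard - ⟨hnorm, hB⟩ i k
  have hH : ∀ a ∈ S.map (fun y => y i), ah a ≤ max B 0 := by
    intro a ha
    obtain ⟨y, hy, rfl⟩ := Multiset.mem_map.1 ha
    obtain ⟨i₀, hi₀⟩ := hnorm y hy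
    calc ah (y i) ≤ absLogHeight y := ah_le_absLogHeight y (fun j => isIntegral_Qb _) i₀ hi₀ i
      _ ≤ cycAbs S := absLogHeight_le_cycAbs S y hy
      _ ≤ B := hB
      _ ≤ max B 0 := le_max_left _ _
  obtain ⟨-, h⟩ := ah_coeff_rootPoly_le (S.map fun y => y i) (fun a _ => isIntegral_Qb a)
    (max B 0) hH k
  refine h.trans ?_
  rw [Multiset.card_map]
  have hlog : 0 ≤ Real.log 2 := Real.log_nonneg (by norm_num)
  have h0 : 0 ≤ Real.log 2 + max B 0 := add_nonneg hlog (le_max_right _ _)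
  refine mul_le_mul_of_nonneg_right ?_ h0
  have : (2 : ℝ) ^ S.card ≤ 2 ^ d := pow_le_pow_right₀ (by norm_num) hcard
  linarith

/-- Galois conjugates have the same height -/
theorem ah_galois (σ : GQ) (x : Qb) : ah (σ x) = ah x := by
  unfold ah
  have h := absLogHeight_ringHom (σ : Qb →+* Qb) ![x, 1]
  rw [← h]
  congr 1
  ext i
  fin_cases i <;> simp

/-- **Northcott for algebraic numbers of bounded degree.** -/
theorem northcott_alg_abs (d : ℕ) (B : ℝ) :
    {α : Qb | (minpoly ℚ α).natDegree ≤ d ∧ ah α ≤ B}.Finite := by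
  classical
  set M : ℝ := (2 ^ d - 1) * (Real.log 2 + max B 0) with hM
  set T : Set ℚ := {q | ah (algebraMap ℚ Qb q) ≤ M} with hTdef
  have hT : T.Finite := finite_rat_ah_le M
  refine (finite_roots_of_coeff_mem T hT d).subset ?_
  rintro α ⟨hdeg, hB⟩
  have hα : IsIntegral ℚ α := isIntegral_Qb α
  set p : ℚ[X] := minpoly ℚ α with hp
  set P : Qb[X] := p.map (algebraMap ℚ Qb) with hP
  have hPmonic : P.Monic := (minpoly.monic hα).map _
  have hsplit : P.Splits := IsAlgClosed.splits P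
  have hPeq : P = rootPoly P.roots := by
    have := hsplit.eq_prod_roots_of_monic hPmonic
    exact this
  have hPdeg : P.natDegree = p.natDegree := Polynomial.natDegree_map _
  have hcard : P.roots.card ≤ d := by
    have h1 : P.roots.card = P.natDegree := by
      have := congrArg Polynomial.natDegree hPeq
      rw [rootPoly_natDegree] at this
      exact this.symm
    rw [h1, hPdeg]
    exact hdeg
  have hnormal : Normal ℚ Qb := by
    have := isGalois_Qb
    infer_instance
  have hH : ∀ a ∈ P.roots, ah a ≤ max B 0 := by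
    intro a ha
    have hroot : Polynomial.aeval a (minpoly ℚ α) = 0 := by
      have h1 := (Polynomial.mem_roots hPmonic.ne_zero).1 ha
      rw [Polynomial.IsRoot.def, hP, Polynomial.eval_map_algebraMap] at h1
      exact h1
    obtain ⟨σ, hσ⟩ := minpoly.exists_algEquiv_of_root' (K := ℚ) (L := Qb)
      (Algebra.IsAlgebraic.isAlgebraic α) hroot
    rw [← hσ, ah_galois]
    exact hB.trans (le_max_left _ _)
  refine ⟨P, hPmonic.ne_zero, by rw [hPdeg]; exact hdeg, ?_, ?_⟩
  · intro k
    refine ⟨p.coeff k, ?_, by rw [hP, Polynomial.coeff_map]⟩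
    simp only [hTdef, Set.mem_ofPred_eq]
    have hcoef : algebraMap ℚ Qb (p.coeff k) = (rootPoly P.roots).coeff k := by
      rw [← hPeq, hP, Polynomial.coeff_map]
    rw [hcoef]
    obtain ⟨-, h⟩ := ah_coeff_rootPoly_le P.roots (fun a _ => isIntegral_Qb a) (max B 0) hH k
    refine h.trans ?_
    have hlog : 0 ≤ Real.log 2 := Real.log_nonneg (by norm_num)
    have h0 : 0 ≤ Real.log 2 + max B 0 := add_nonneg hlog (le_max_right _ _)
    refine mul_le_mul_of_nonneg_right ?_ h0
    have : (2 : ℝ) ^ P.roots.card ≤ 2 ^ d := pow_le_pow_right₀ (by norm_num) hcard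
    linarith
  · rw [Polynomial.IsRoot.def, hP, Polynomial.eval_map_algebraMap]
    exact minpoly.aeval ℚ α

/-- **Northcott for points of bounded degree**: finitely many normalised points of `ℚ̄^ι` with
coordinates of degree `≤ d` and absolute height `≤ B`. -/
theorem northcott_point_abs (d : ℕ) (B : ℝ) :
    {y : ι → Qb | (∃ i, y i = 1) ∧ (∀ i, (minpoly ℚ (y i)).natDegree ≤ d) ∧
      absLogHeight y ≤ B}.Finite := by
  have h := Set.Finite.pi (t := fun _ : ι => {α : Qb | (minpoly ℚ α).natDegree ≤ d ∧ ah α ≤ B})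
    (fun _ => northcott_alg_abs d B)
  refine h.subset ?_
  rintro y ⟨⟨i₀, hi₀⟩, hdeg, hB⟩
  rw [Set.mem_pi]
  intro i _
  exact ⟨hdeg i, (ah_le_absLogHeight y (fun j => isIntegral_Qb _) i₀ hi₀ i).trans hB⟩

end Fermat.Agent.S17.H50

end
end
-- ===== PACK-END S17/H50/AbsNorthcott.lean

-- ===== PACK-BEGIN S17/H380/AbsEval.lean
section



set_option linter.unusedSectionVars false
set_option linter.style.haveILetI false

namespace Fermat.Agent.S17.H380

open NumberField Height Module IntermediateField MvPolynomial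

section Common

variable {K₀ A : Type*} [Field K₀] [NumberField K₀] [Field A] [CharZero A] [Algebra K₀ A]
variable {ι : Type*} [_root_.Finite ι]

/-- The number field generated inside `A` by the image of a number field `K₀` and the entries
of a tuple of algebraic elements. -/
noncomputable def commonField (K₀ : Type*) [Field K₀] [NumberField K₀] [Algebra K₀ A]
    (x : ι → A) : IntermediateField ℚ A :=
  tupleField x ⊔ (algebraMap K₀ A).toRatAlgHom.fieldRange

theorem commonField_numberField (x : ι → A) (hx : ∀ i, IsIntegral ℚ (x i)) :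
    NumberField (commonField K₀ x) := by
  haveI := tupleField_finiteDimensional x hx
  haveI : FiniteDimensional ℚ (algebraMap K₀ A).toRatAlgHom.fieldRange :=
    (AlgHom.equivFieldRange (algebraMap K₀ A).toRatAlgHom).toLinearEquiv.finiteDimensional
  haveI : FiniteDimensional ℚ (commonField K₀ x) := by
    unfold commonField; infer_instance
  exact {}

theorem mem_commonField (x : ι → A) (i : ι) : x i ∈ commonField K₀ x :=
  (le_sup_left : tupleField x ≤ commonField K₀ x) (subset_adjoin ℚ _ ⟨i, rfl⟩)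

theorem algebraMap_mem_commonField (x : ι → A) (k : K₀) :
    algebraMap K₀ A k ∈ commonField K₀ x :=
  (le_sup_right : (algebraMap K₀ A).toRatAlgHom.fieldRange ≤ commonField K₀ x) ⟨k, rfl⟩

/-- The tuple as a tuple in the common field. -/
noncomputable def commonLift (K₀ : Type*) [Field K₀] [NumberField K₀] [Algebra K₀ A]
    (x : ι → A) : ι → commonField K₀ x := fun i => ⟨x i, mem_commonField x i⟩

/-- The structure map of `K₀` into the common field. -/
noncomputable def commonMap (K₀ : Type*) [Field K₀] [NumberField K₀] [Algebra K₀ A]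
    (x : ι → A) : K₀ →+* commonField K₀ x :=
  (algebraMap K₀ A).codRestrict (commonField K₀ x).toSubfield.toSubring
    (fun k => algebraMap_mem_commonField x k)

theorem commonMap_coe (x : ι → A) (k : K₀) :
    ((commonMap K₀ x k : commonField K₀ x) : A) = algebraMap K₀ A k := rfl

theorem coe_eval_commonLift (x : ι → A) (q : MvPolynomial ι K₀) :
    ((eval (commonLift K₀ x) (_root_.MvPolynomial.map (commonMap K₀ x) q) : commonField K₀ x) : A) = aeval x q := by
  rw [eval_map, aeval_def]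
  have := eval₂_comp_left (algebraMap (commonField K₀ x) A) (commonMap K₀ x) (commonLift K₀ x) q
  exact this

end Common


section Eval

variable {K₀ A : Type*} [Field K₀] [NumberField K₀] [Field A] [CharZero A] [Algebra K₀ A]
variable {ι ι' : Type*} [_root_.Finite ι]

theorem mulHeightBound_nonneg {K : Type*} [Field K] [AdmissibleAbsValues K]
    (p : ι' → MvPolynomial ι K) : 0 ≤ mulHeightBound p := by
  rw [mulHeightBound_eq]
  refine mul_nonneg (Multiset.prod_map_nonneg fun v _ => ?_) (finprod_nonneg fun v => ?_)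
  · exact Real.iSup_nonneg fun j => Finsupp.sum_nonneg fun s _ => v.nonneg _
  · exact Real.iSup_nonneg fun j => le_trans zero_le_one (le_max_right _ _)

theorem log_max_pow_one {B : ℝ} (hB : 0 ≤ B) (d : ℕ) :
    Real.log (max (B ^ d) 1) = d * Real.log (max B 1) := by
  have h : max (B ^ d) 1 = (max B 1) ^ d := by
    rcases le_total B 1 with h1 | h1
    · rw [max_eq_right h1, max_eq_right (pow_le_one₀ hB h1), one_pow]
    · rw [max_eq_left h1, max_eq_left (one_le_pow₀ h1)]
  rw [h, Real.log_pow]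

theorem finrank_commonField (x : ι → A) (hx : ∀ i, IsIntegral ℚ (x i)) :
    haveI := commonField_numberField (K₀ := K₀) x hx
    letI := (commonMap K₀ x).toAlgebra
    (finrank ℚ K₀ : ℝ) * (finrank K₀ (commonField K₀ x) : ℝ)
      = (finrank ℚ (commonField K₀ x) : ℝ) := by
  haveI := commonField_numberField (K₀ := K₀) x hx
  letI := (commonMap K₀ x).toAlgebra
  rw [← Nat.cast_mul, Module.finrank_mul_finrank ℚ K₀ (commonField K₀ x)]

theorem absLogHeight_empty [IsEmpty ι'] (y : ι' → A) : absLogHeight y = 0 := by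
  rw [show y = 0 from Subsingleton.elim _ _]
  exact absLogHeight_zero

/-- **Upper bound for the absolute height of the image under a polynomial map**, with an
explicit constant depending only on the polynomials. -/
theorem absLogHeight_eval_le [_root_.Finite ι'] {N : ℕ} {p : ι' → MvPolynomial ι K₀}
    (hp : ∀ j, (p j).IsHomogeneous N) (x : ι → A) (hx : ∀ i, IsIntegral ℚ (x i)) :
    absLogHeight (fun j => aeval x (p j))
      ≤ (finrank ℚ K₀ : ℝ)⁻¹ * Real.log (max (mulHeightBound p) 1) + N * absLogHeight x := by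
  have hd₀ : (0 : ℝ) < finrank ℚ K₀ := by exact_mod_cast Module.finrank_pos
  rcases isEmpty_or_nonempty ι' with hι' | hι'
  · rw [absLogHeight_empty]
    have h1 : 0 ≤ Real.log (max (mulHeightBound p) 1) := Real.log_nonneg (le_max_right _ _)
    have h2 := absLogHeight_nonneg x
    positivity
  haveI := commonField_numberField (K₀ := K₀) x hx
  letI := (commonMap K₀ x).toAlgebra
  have hM := logHeight_eval_le (K := commonField K₀ x)
    (p := fun j => _root_.MvPolynomial.map (commonMap K₀ x) (p j)) (fun j => (hp j).map _) (commonLift K₀ x)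
  have hB : mulHeightBound (fun j => _root_.MvPolynomial.map (commonMap K₀ x) (p j))
      = mulHeightBound p ^ finrank K₀ (commonField K₀ x) :=
    mulHeightBound_map (K := K₀) (L := commonField K₀ x) p
  have h1 : absLogHeight (fun j => aeval x (p j)) = (finrank ℚ (commonField K₀ x) : ℝ)⁻¹ *
      logHeight (fun j => eval (commonLift K₀ x) (_root_.MvPolynomial.map (commonMap K₀ x) (p j))) := by
    rw [← absLogHeight_eq (algebraMap (commonField K₀ x) A)]
    congr 1
    funext j
    exact (coe_eval_commonLift x (p j)).symm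
  have h2 : absLogHeight x = (finrank ℚ (commonField K₀ x) : ℝ)⁻¹ *
      logHeight (commonLift K₀ x) :=
    absLogHeight_eq (algebraMap (commonField K₀ x) A) (commonLift K₀ x)
  have hD := finrank_commonField (K₀ := K₀) x hx
  have hDpos : (0 : ℝ) < finrank ℚ (commonField K₀ x) := by exact_mod_cast Module.finrank_pos
  have hdpos : (0 : ℝ) < finrank K₀ (commonField K₀ x) := by
    have : (0:ℝ) < (finrank ℚ K₀ : ℝ) * (finrank K₀ (commonField K₀ x) : ℝ) := by
      rw [hD]; exact hDpos
    exact (mul_pos_iff_of_pos_left hd₀).mp this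
  rw [hB, log_max_pow_one (mulHeightBound_nonneg p)] at hM
  rw [h1, h2, ← hD]
  have key : ((finrank ℚ K₀ : ℝ) * (finrank K₀ (commonField K₀ x) : ℝ))⁻¹ *
      ((finrank K₀ (commonField K₀ x) : ℝ) * Real.log (max (mulHeightBound p) 1)
        + N * logHeight (commonLift K₀ x))
      = (finrank ℚ K₀ : ℝ)⁻¹ * Real.log (max (mulHeightBound p) 1) +
        N * (((finrank ℚ K₀ : ℝ) * (finrank K₀ (commonField K₀ x) : ℝ))⁻¹ *
          logHeight (commonLift K₀ x)) := by
    field_simp
  rw [← key]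
  exact mul_le_mul_of_nonneg_left hM (by positivity)


/-- **Lower bound for the absolute height of the image under a polynomial map** in the presence
of a Nullstellensatz certificate (valid at the point `x`), with an explicit constant depending
only on the certificate. -/
theorem absLogHeight_eval_ge [Fintype ι'] {M N : ℕ} {q : ι × ι' → MvPolynomial ι K₀}
    (hq : ∀ a, (q a).IsHomogeneous M) (p : ι' → MvPolynomial ι K₀) {x : ι → A}
    (hx : ∀ i, IsIntegral ℚ (x i))
    (h : ∀ k, ∑ j, aeval x (q (k, j)) * aeval x (p j) = (x k) ^ (M + N)) :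
    -(Real.log (Nat.card ι') + (finrank ℚ K₀ : ℝ)⁻¹ * Real.log (max (mulHeightBound q) 1))
        + N * absLogHeight x
      ≤ absLogHeight (fun j => aeval x (p j)) := by
  have hd₀ : (0 : ℝ) < finrank ℚ K₀ := by exact_mod_cast Module.finrank_pos
  have hlogB : 0 ≤ Real.log (max (mulHeightBound q) 1) := Real.log_nonneg (le_max_right _ _)
  have hlogc : 0 ≤ Real.log (Nat.card ι') := Real.log_natCast_nonneg _
  have hC : 0 ≤ Real.log (Nat.card ι') +
      (finrank ℚ K₀ : ℝ)⁻¹ * Real.log (max (mulHeightBound q) 1) := by positivity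
  rcases isEmpty_or_nonempty ι' with hι' | hι'
  · have hx0 : x = 0 := by
      funext k
      have := h k
      simp only [Finset.univ_eq_empty, Finset.sum_empty] at this
      exact eq_zero_of_pow_eq_zero this.symm
    rw [absLogHeight_empty (fun j => aeval x (p j)), hx0, absLogHeight_zero]
    simp only [mul_zero, add_zero, neg_nonpos]
    exact hC
  rcases isEmpty_or_nonempty ι with hι | hι
  · rw [absLogHeight_empty x]
    have := absLogHeight_nonneg (fun j => aeval x (p j))
    simp only [mul_zero, add_zero]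
    linarith
  haveI := commonField_numberField (K₀ := K₀) x hx
  letI := (commonMap K₀ x).toAlgebra
  have hlift : ∀ k, ∑ j, (_root_.MvPolynomial.map (commonMap K₀ x) (q (k, j))).eval (commonLift K₀ x) *
      (_root_.MvPolynomial.map (commonMap K₀ x) (p j)).eval (commonLift K₀ x) = (commonLift K₀ x k) ^ (M + N) := by
    intro k
    apply Subtype.ext
    have := h k
    simp only [← coe_eval_commonLift] at this
    push_cast
    rw [this]
    rfl
  have hM := logHeight_eval_ge (K := commonField K₀ x)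
    (q := fun a => _root_.MvPolynomial.map (commonMap K₀ x) (q a)) (fun a => (hq a).map _)
    (fun j => _root_.MvPolynomial.map (commonMap K₀ x) (p j)) hlift
  have hB : mulHeightBound (fun a => _root_.MvPolynomial.map (commonMap K₀ x) (q a))
      = mulHeightBound q ^ finrank K₀ (commonField K₀ x) :=
    mulHeightBound_map (K := K₀) (L := commonField K₀ x) q
  have h1 : absLogHeight (fun j => aeval x (p j)) = (finrank ℚ (commonField K₀ x) : ℝ)⁻¹ *
      logHeight (fun j => eval (commonLift K₀ x) (_root_.MvPolynomial.map (commonMap K₀ x) (p j))) := by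
    rw [← absLogHeight_eq (algebraMap (commonField K₀ x) A)]
    congr 1
    funext j
    exact (coe_eval_commonLift x (p j)).symm
  have h2 : absLogHeight x = (finrank ℚ (commonField K₀ x) : ℝ)⁻¹ *
      logHeight (commonLift K₀ x) :=
    absLogHeight_eq (algebraMap (commonField K₀ x) A) (commonLift K₀ x)
  have hD := finrank_commonField (K₀ := K₀) x hx
  have hDpos : (0 : ℝ) < finrank ℚ (commonField K₀ x) := by exact_mod_cast Module.finrank_pos
  have hdpos : (0 : ℝ) < finrank K₀ (commonField K₀ x) := by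
    have : (0:ℝ) < (finrank ℚ K₀ : ℝ) * (finrank K₀ (commonField K₀ x) : ℝ) := by
      rw [hD]; exact hDpos
    exact (mul_pos_iff_of_pos_left hd₀).mp this
  have hcard : (0 : ℝ) < Nat.card ι' := by exact_mod_cast Nat.card_pos
  have hmaxpos : (0 : ℝ) < max (mulHeightBound q ^ finrank K₀ (commonField K₀ x)) 1 :=
    lt_of_lt_of_le zero_lt_one (le_max_right _ _)
  rw [hB, NumberField.totalWeight_eq_finrank, Real.log_mul (pow_pos hcard _).ne' hmaxpos.ne',
    Real.log_pow, log_max_pow_one (mulHeightBound_nonneg q), ← hD] at hM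
  rw [h1, h2, ← hD]
  have key : ((finrank ℚ K₀ : ℝ) * (finrank K₀ (commonField K₀ x) : ℝ))⁻¹ *
      (-(((finrank ℚ K₀ : ℝ) * (finrank K₀ (commonField K₀ x) : ℝ)) * Real.log (Nat.card ι')
          + (finrank K₀ (commonField K₀ x) : ℝ) * Real.log (max (mulHeightBound q) 1))
        + N * logHeight (commonLift K₀ x))
      = -(Real.log (Nat.card ι') +
            (finrank ℚ K₀ : ℝ)⁻¹ * Real.log (max (mulHeightBound q) 1)) +
        N * (((finrank ℚ K₀ : ℝ) * (finrank K₀ (commonField K₀ x) : ℝ))⁻¹ *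
          logHeight (commonLift K₀ x)) := by
    field_simp
  rw [← key]
  refine mul_le_mul_of_nonneg_left ?_ (by positivity)
  exact hM

end Eval

end Fermat.Agent.S17.H380

end
-- ===== PACK-END S17/H380/AbsEval.lean

-- ===== PACK-BEGIN Lib/Cheb/H476/FrobAt.lean
section





/-!
# CHEB piece F6 (bridge), part 1: Frobenius elements at a GIVEN valuation subring of `ℚ̄`

`exists_frobenius_at`: for every valuation subring `A` of `ℚ̄` over a prime number `ℓ` there is
`σ ∈ Gal(ℚ̄/ℚ)` which is a Frobenius element at `A`, and which satisfies `σ x ≡ x ^ ℓ` modulo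
the prime of `ℤ̄` below `A`.

Also: elementwise descriptions of Frobenius elements and of the inertia group.
-/

set_option autoImplicit false

open scoped Pointwise

namespace Fermat.Agent.Lib.Cheb.H476

open Fermat.Agent.Lib.Cheb.Spec

/-- Frobenius elements exist at every valuation subring of `ℚ̄` over a prime number. -/
theorem exists_frobenius_at (ℓ : ℕ) (hℓ : ℓ.Prime) (A : ValuationSubring Qb)
    (hA : A.LiesOverPrime ℓ) :
    ∃ σ : GQ, A.IsFrobeniusAt σ ℓ ∧
      ∀ x : integralClosure ℤ Qb, σ • x - x ^ ℓ ∈ Fermat.Agent.S54.primeBelow A := by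
  have : Algebra.IsAlgebraic ℚ (AlgebraicClosure ℚ) := AlgebraicClosure.isAlgebraic ℚ
  have := Fermat.Agent.S54.primeBelow_isPrime A
  have hℓQ : (ℓ : integralClosure ℤ (AlgebraicClosure ℚ)) ∈ Fermat.Agent.S54.primeBelow A := by
    rw [Fermat.Agent.S54.mem_primeBelow]
    exact hA
  obtain ⟨σ, hσQ', hσF⟩ :=
    Fermat.Agent.S54.exists_frob_integralClosure ℓ hℓ (Fermat.Agent.S54.primeBelow A) hℓQ
  have hσQ : ∀ x, σ • x ∈ Fermat.Agent.S54.primeBelow A ↔
      x ∈ Fermat.Agent.S54.primeBelow A := by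
    intro x
    conv_lhs => rw [← hσQ']
    exact Ideal.smul_mem_pointwise_smul_iff
  have key : ∀ τ : AlgebraicClosure ℚ ≃ₐ[ℚ] AlgebraicClosure ℚ,
      (∀ x, τ • x ∈ Fermat.Agent.S54.primeBelow A ↔ x ∈ Fermat.Agent.S54.primeBelow A) →
      ∀ x ∈ A, τ x ∈ A := by
    intro τ hτ x hx
    obtain ⟨b, s, hb, hs, hsA, hxs⟩ :=
      (Fermat.Agent.S54.mem_valuationSubring_iff A ℓ hℓ hA x).mp hx
    refine (Fermat.Agent.S54.mem_valuationSubring_iff A ℓ hℓ hA (τ x)).mpr
      ⟨τ b, τ s, hb.map τ, hs.map τ, ?_, ?_⟩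
    · exact (hτ ⟨s, hs⟩).not.mpr hsA
    · rw [← map_mul, hxs]
  have hσA : σ ∈ A.decompositionSubgroup ℚ := by
    rw [MulAction.mem_stabilizer_iff]
    ext x
    rw [ValuationSubring.mem_smul_pointwise_iff_exists]
    constructor
    · rintro ⟨s, hs, rfl⟩
      exact key σ hσQ s hs
    · intro hx
      refine ⟨σ⁻¹ • x, key σ⁻¹ ?_ x hx, by simp⟩
      intro y
      rw [← hσQ (σ⁻¹ • y)]
      simp
  refine ⟨σ, ⟨hσA, ?_⟩, hσF⟩
  intro x
  obtain ⟨a, rfl⟩ := IsLocalRing.residue_surjective x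
  obtain ⟨b, s, hb, hs, hsA, hxs⟩ :=
    (Fermat.Agent.S54.mem_valuationSubring_iff A ℓ hℓ hA a).mp a.2
  have hbA : b ∈ A := Fermat.Agent.S54.isIntegral_mem_valuationSubring A hb
  have hsA' : s ∈ A := Fermat.Agent.S54.isIntegral_mem_valuationSubring A hs
  have hint : ∀ (y : AlgebraicClosure ℚ) (hy : IsIntegral ℤ y),
      (⟨σ, hσA⟩ : A.decompositionSubgroup ℚ) •
        IsLocalRing.residue A ⟨y, Fermat.Agent.S54.isIntegral_mem_valuationSubring A hy⟩ =
      (IsLocalRing.residue A ⟨y, Fermat.Agent.S54.isIntegral_mem_valuationSubring A hy⟩) ^ ℓ := by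
    intro y hy
    rw [← IsLocalRing.ResidueField.residue_smul, ← map_pow, ← sub_eq_zero, ← map_sub,
      IsLocalRing.residue_eq_zero_iff, ← ValuationSubring.coe_mem_nonunits_iff]
    exact hσF ⟨y, hy⟩
  have h1 : IsLocalRing.residue A a * IsLocalRing.residue A ⟨s, hsA'⟩ =
      IsLocalRing.residue A ⟨b, hbA⟩ := by
    rw [← map_mul]
    congr 1
    exact Subtype.ext hxs
  have h2 : IsLocalRing.residue A ⟨s, hsA'⟩ ≠ 0 := by
    rw [Ne, IsLocalRing.residue_eq_zero_iff, ← ValuationSubring.coe_mem_nonunits_iff]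
    exact hsA
  have h3 := congrArg (fun z => (⟨σ, hσA⟩ : A.decompositionSubgroup ℚ) • z) h1
  simp only [smul_mul'] at h3
  rw [hint s hs, hint b hb, ← h1, mul_pow] at h3
  exact mul_right_cancel₀ (pow_ne_zero _ h2) h3

/-- Elements of the inertia group move elements of the valuation ring by nonunits. -/
theorem sub_mem_nonunits_of_mem_inertia (A : ValuationSubring Qb) (ι : GQ)
    (hι : ι ∈ A.inertiaSubgroupIn ℚ) (a : Qb) (ha : a ∈ A) : ι a - a ∈ A.nonunits := by
  obtain ⟨ι', hι', rfl⟩ := hι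
  have h1 : ι' • IsLocalRing.residue A ⟨a, ha⟩ = IsLocalRing.residue A ⟨a, ha⟩ := by
    have := congrArg (fun f => f (IsLocalRing.residue A ⟨a, ha⟩)) (MonoidHom.mem_ker.mp hι')
    simpa using this
  rw [← IsLocalRing.ResidueField.residue_smul, ← sub_eq_zero, ← map_sub,
    IsLocalRing.residue_eq_zero_iff, ← ValuationSubring.coe_mem_nonunits_iff] at h1
  exact h1

end Fermat.Agent.Lib.Cheb.H476

end
-- ===== PACK-END Lib/Cheb/H476/FrobAt.lean

-- ===== PACK-BEGIN Lib/Cheb/H476/Core.lean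
section






/-!
# CHEB piece F6 (bridge), part 2: from a prime of a Galois number field inside `ℚ̄`
to a valuation subring of `ℚ̄` with a Frobenius element
-/

set_option autoImplicit false

open NumberField
open scoped Pointwise

namespace Fermat.Agent.Lib.Cheb.H476

open Fermat.Agent.Lib.Cheb.Spec

/-- The inclusion of the ring of integers of a subfield of `ℚ̄` into `ℚ̄`. -/
noncomputable def incl (L : IntermediateField ℚ Qb) : 𝓞 L →+* Qb :=
  (algebraMap L Qb).comp (algebraMap (𝓞 L) L)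

theorem incl_apply (L : IntermediateField ℚ Qb) (x : 𝓞 L) :
    incl L x = ((x : L) : Qb) := rfl

theorem incl_injective (L : IntermediateField ℚ Qb) : Function.Injective (incl L) := by
  intro x y h
  have h1 : ((x : L) : Qb) = ((y : L) : Qb) := h
  exact RingOfIntegers.ext (Subtype.ext h1)

theorem incl_isIntegral (L : IntermediateField ℚ Qb) (x : 𝓞 L) : IsIntegral ℤ (incl L x) := by
  have h1 : IsIntegral ℤ (x : L) := RingOfIntegers.isIntegral_coe x
  exact h1.map (IsScalarTower.toAlgHom ℤ L Qb)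

/-- A valuation subring of `ℚ̄` whose maximal ideal contains a given proper ideal of the ring of
integers of a subfield. -/
theorem exists_valuationSubring_over (L : IntermediateField ℚ Qb) (P : Ideal (𝓞 L))
    (hP : P ≠ ⊤) : ∃ A : ValuationSubring Qb, ∀ x ∈ P, incl L x ∈ A.nonunits := by
  let I : Ideal (incl L).range := P.map (incl L).rangeRestrict
  have hI : I ≠ ⊤ := by
    intro h
    have h1 : (1 : (incl L).range) ∈ I := by rw [h]; trivial
    rw [Ideal.mem_map_iff_of_surjective _ (incl L).rangeRestrict_surjective] at h1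
    obtain ⟨x, hx, hx1⟩ := h1
    have h2 : incl L x = incl L 1 := by
      have := congrArg Subtype.val hx1
      simpa using this
    have h3 : x = 1 := incl_injective L h2
    exact hP ((Ideal.eq_top_iff_one P).mpr (h3 ▸ hx))
  obtain ⟨A, -, hA⟩ := Ideal.image_subset_nonunits_valuationSubring I hI
  refine ⟨A, fun x hx => hA ⟨(incl L).rangeRestrict x, Ideal.mem_map_of_mem _ hx, rfl⟩⟩

/-- The maximal ideal of `A` cuts out exactly `P`. -/
theorem incl_mem_nonunits_iff (L : IntermediateField ℚ Qb) [NumberField L]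
    (A : ValuationSubring Qb) (P : Ideal (𝓞 L)) (hP : P.IsMaximal)
    (hA : ∀ x ∈ P, incl L x ∈ A.nonunits) (x : 𝓞 L) :
    incl L x ∈ A.nonunits ↔ x ∈ P := by
  refine ⟨fun hx => ?_, hA x⟩
  by_contra hxP
  obtain ⟨y, m, hm, hxy⟩ := hP.exists_inv hxP
  have h1 : incl L y * incl L x + incl L m = 1 := by
    rw [← map_mul, ← map_add, hxy, map_one]
  have hy : A.valuation (incl L y) ≤ 1 :=
    (A.valuation_le_one_iff _).mpr
      (Fermat.Agent.S54.isIntegral_mem_valuationSubring A (incl_isIntegral L y))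
  have hx' : A.valuation (incl L x) < 1 := A.mem_nonunits_iff.mp hx
  have hm' : A.valuation (incl L m) < 1 := A.mem_nonunits_iff.mp (hA m hm)
  have h2 : A.valuation (incl L y * incl L x) < 1 := by
    rw [map_mul]
    exact mul_lt_of_le_one_of_lt hy hx'
  have h3 : A.valuation (incl L y * incl L x + incl L m) < 1 :=
    lt_of_le_of_lt (A.valuation.map_add _ _) (max_lt h2 hm')
  rw [h1, map_one] at h3
  exact lt_irrefl _ h3


/-- The prime of `ℤ` below a prime of `𝓞 L` containing the prime number `p` has residue field of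
cardinality `p`. -/
theorem card_quot_under (L : IntermediateField ℚ Qb) [NumberField L] (p : ℕ) (hp : p.Prime)
    (P : Ideal (𝓞 L)) (hP : P.IsPrime) (hpP : (p : 𝓞 L) ∈ P) :
    Nat.card (ℤ ⧸ P.under ℤ) = p := by
  have : Fact p.Prime := ⟨hp⟩
  have hle : Ideal.span {(p : ℤ)} ≤ P.under ℤ := by
    rw [Ideal.span_le, Set.singleton_subset_iff]
    show algebraMap ℤ (𝓞 L) (p : ℤ) ∈ P
    simpa using hpP
  have hne : P.under ℤ ≠ ⊤ := (Ideal.IsPrime.under ℤ P).ne_top
  have heq : Ideal.span {(p : ℤ)} = P.under ℤ :=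
    (Int.ideal_span_isMaximal_of_prime p).eq_of_le hne hle
  rw [← heq, Int.card_ideal_quot]

/-- **Core of the bridge.**  A prime `P` of a Galois number field `L ⊆ ℚ̄` above `p`, with trivial
inertia group and arithmetic Frobenius `τ`, is induced by a valuation subring `A` of `ℚ̄`
over `p` carrying a Frobenius element `φ` which restricts to `τ`; the inertia group of `A` acts
trivially on `L`. -/
theorem exists_frobenius_restrict (L : IntermediateField ℚ Qb) [NumberField L] [IsGalois ℚ L]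
    (p : ℕ) (hp : p.Prime) (P : Ideal (𝓞 L)) (hP : P.IsPrime) (hpP : (p : 𝓞 L) ∈ P)
    (hI : InertiaTrivial L P) (τ : L ≃ₐ[ℚ] L) (hτ : IsArithFrobAt ℤ τ P) :
    ∃ (A : ValuationSubring Qb) (φ : GQ), A.LiesOverPrime p ∧ A.IsFrobeniusAt φ p ∧
      (∀ ι ∈ A.inertiaSubgroupIn ℚ, ∀ x : L, ι (x : Qb) = x) ∧
      (∀ x : L, φ (x : Qb) = (τ x : L)) := by
  have hP0 : P ≠ ⊥ := by
    intro h
    rw [h, Ideal.mem_bot] at hpP
    exact hp.ne_zero (by exact_mod_cast hpP)
  have hPmax : P.IsMaximal := hP.isMaximal hP0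
  obtain ⟨A, hA⟩ := exists_valuationSubring_over L P hP.ne_top
  have hAp : A.LiesOverPrime p := by
    have h := hA _ hpP
    have h' : incl L (p : 𝓞 L) = (p : Qb) := by simp
    rw [h'] at h
    exact h
  obtain ⟨φ, hφ, hφF⟩ := exists_frobenius_at p hp A hAp
  have hmem := incl_mem_nonunits_iff L A P hPmax hA
  have hres : ∀ (g : GQ) (x : L), ((AlgEquiv.restrictNormal g L x : L) : Qb) = g (x : Qb) :=
    fun g x => AlgEquiv.restrictNormal_commutes g L x
  have hcard := card_quot_under L p hp P hP hpP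
  refine ⟨A, φ, hAp, hφ, ?_, ?_⟩
  · intro ι hι x
    have h1 : AlgEquiv.restrictNormal ι L = 1 := by
      apply hI
      intro y
      rw [← hmem]
      have h2 : incl L (AlgEquiv.restrictNormal ι L • y - y) = ι (incl L y) - incl L y := by
        rw [map_sub]
        congr 1
        exact hres ι y
      rw [h2]
      exact sub_mem_nonunits_of_mem_inertia A ι hι _
        (Fermat.Agent.S54.isIntegral_mem_valuationSubring A (incl_isIntegral L y))
    rw [← hres, h1]
    rfl
  · have h1 : IsArithFrobAt ℤ (AlgEquiv.restrictNormal φ L) P := by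
      intro y
      rw [hcard]
      rw [← hmem]
      have h2 : incl L ((MulSemiringAction.toAlgHom ℤ (𝓞 L) (AlgEquiv.restrictNormal φ L)) y
          - y ^ p) = φ (incl L y) - incl L y ^ p := by
        rw [map_sub, map_pow]
        congr 1
        exact hres φ y
      rw [h2]
      exact hφF ⟨incl L y, incl_isIntegral L y⟩
    have h2 := IsArithFrobAt.mul_inv_mem_inertia h1 hτ
    have h3 : AlgEquiv.restrictNormal φ L * τ⁻¹ = 1 := hI _ h2
    have h4 : AlgEquiv.restrictNormal φ L = τ := mul_inv_eq_one.mp h3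
    intro x
    rw [← hres, h4]

end Fermat.Agent.Lib.Cheb.H476

end
-- ===== PACK-END Lib/Cheb/H476/Core.lean

-- ===== PACK-BEGIN S29/Parts.lean
section
/-
S29 row — the REMAINING INPUTS of the final chain, as `Prop`s (row-lead helper269).
`Fermat/Agent/S29/Main.lean` proves  `S29_of_parts : FrobeniusDivisionStatement → RawESStatement →
M4aStatement → M4bStatement → HCohStatement → (frozen S29 statement)`,  sorry-free.
A piece is DONE when it proves one of these `Prop`s verbatim.
-/


set_option autoImplicit false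

noncomputable section

namespace Fermat.Agent.S29

open ModularCurve AlgebraicCurve

/-- EXTERNAL (rows S37/S18): RAW Eichler–Shimura on the `p`-torsion of the Prelude `JZero N`:
inertia at `ℓ ∤ N p` acts trivially and every Frobenius at `ℓ` satisfies `σ² - T_ℓ σ + ℓ = 0`,
`T_ℓ = heckeOperatorBar N ℓ`.  (Implied by `M.ESStatement` of helper30, by `M.RedStatement`, and by
the frozen S37 together with `HeckeOperatorsCommuteBar`.) -/
def RawESStatement : Prop :=
  ∀ (N p : ℕ) [NeZero N], p.Prime → ∀ (ℓ : ℕ) (hℓ : ℓ.Prime), ¬ ℓ ∣ N * p →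
    ∀ A : VQ, A.LiesOverPrime ℓ →
      (∀ σ ∈ A.inertiaSubgroupIn ℚ, ∀ x : JZero N, (p : ℤ) • x = 0 → σ • x = x) ∧
      (∀ σ : GQ, A.IsFrobeniusAt σ ℓ → ∀ x : JZero N, (p : ℤ) • x = 0 →
        σ • σ • x - heckeOperatorBar N ⟨ℓ, hℓ⟩ (σ • x) + (ℓ : ℤ) • x = 0)

/-- PIECE `M4a` (eigensystem occurs in `Hom_par(Γ₀(N), 𝔽_p) ⊗ F`, in coordinates). -/
def M4aStatement : Prop :=
  ∀ (N : ℕ) [NeZero N] (g : CuspForm (CongruenceSubgroup.Gamma0 N) 2),
    g.IsNormalizedEigenform → ∀ (p : ℕ) [Fact p.Prime] (F : Type) [Field F] [IsAlgClosed F]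
    [CharP F p] [Algebra (ZMod p) F] (ψ : integralClosure ℤ ℂ →+* F)
    (a : ℕ → integralClosure ℤ ℂ),
    (∀ ℓ : ℕ, ℓ.Prime → ¬ ℓ ∣ N →
      ((a ℓ : integralClosure ℤ ℂ) : ℂ) = ModularFormClass.qCoeff g ℓ) →
    ∃ (n : ℕ) (w : Fin n → F) (c : Fin n → G0 N → ZMod p),
      LinearIndependent (ZMod p) w ∧ (∀ j, IsParHom (c j)) ∧ (∃ j, c j ≠ 0) ∧
      ∀ ℓ : ℕ, ℓ.Prime → ¬ ℓ ∣ N * p → ∀ γ : G0 N,
        ∑ j, w j * algebraMap (ZMod p) F (heckeCoh N ℓ (c j) γ)
          = ψ (a ℓ) * ∑ j, w j * algebraMap (ZMod p) F (c j γ)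

/-- PIECE `M4b` (the Kummer map / bridge). -/
def M4bStatement : Prop :=
  ∀ (N : ℕ) [NeZero N] (p : ℕ) [Fact p.Prime],
    ∃ κ : (G0 N → ZMod p) → Jp N p,
      (∀ c c', IsParHom c → IsParHom c' → κ (c + c') = κ c + κ c') ∧
      (∀ c, IsParHom c → κ c = 0 → c = 0) ∧
      (∀ ℓ : Nat.Primes, ¬ (ℓ : ℕ) ∣ N * p → ∀ c, IsParHom c →
        κ (heckeCoh N ℓ c) = heckeJp N p ℓ (κ c))

/-- PIECE `HCoh` (the cohomological Hecke operator preserves parabolic characters), for the
coefficient groups `ℤ/p`. -/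
def HCohStatement : Prop :=
  ∀ (N : ℕ) [NeZero N] (p : ℕ) (ℓ : ℕ), ℓ.Prime → ¬ ℓ ∣ N →
    ∀ c : G0 N → ZMod p, IsParHom c → IsParHom (heckeCoh N ℓ c)

end Fermat.Agent.S29

end
end
-- ===== PACK-END S29/Parts.lean

-- ===== PACK-BEGIN S29/H149/HCoh.lean
section


/-!
# S29 layer M, piece `HCoh` (helper149)

For a prime `ℓ ∤ N` the factorisation `α_i γ = γ'_i α_{π(i)}` (`heckeFac`) exists, is unique,
permutes the index set and satisfies the cocycle rule; hence the cohomological Hecke operator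
`heckeCoh` preserves parabolic characters (`IsParHom`): additivity is the transfer computation,
vanishing on parabolic / finite-order elements is the cycle argument (the product of the `γ'_i`
over a cycle of `π` is conjugate to a power of `γ`), done over the orbits of `π` so that it is
valid with torsion coefficients (`A = ZMod p`).

Main results: `isParHom_heckeCoh` (the piece), `HCoh_isFactorSystem`, `HCoh_heckeFac_spec`,
`HCoh_heckeFac_unique`, `HCoh_exists_factor`, `HCoh_factor_unique`, `HCoh_perm`,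
`HCoh_transfer_mul`, `HCoh_transfer_eq_zero`, `HCoh_sum_eq_zero_of_orbits`.
-/

set_option autoImplicit false

namespace Fermat.Agent.S29.H149

open Fermat.Agent.S29
open scoped MatrixGroups

/-! ### A combinatorial lemma: sums over the orbits of a permutation -/

theorem HCoh_sum_eq_zero_of_orbits {ι : Type*} [Fintype ι] [DecidableEq ι] {A : Type*}
    [AddCommMonoid A] (σ : Equiv.Perm ι) (f : ι → A)
    (h : ∀ i : ι, ∀ r : ℕ, 0 < r → (σ ^ r) i = i → ∑ k ∈ Finset.range r, f ((σ ^ k) i) = 0) :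
    ∑ i, f i = 0 := by
  suffices H : ∀ n : ℕ, ∀ s : Finset ι, s.card = n → (∀ i ∈ s, σ i ∈ s) → ∑ i ∈ s, f i = 0 from
    H _ Finset.univ rfl (fun i _ => Finset.mem_univ _)
  intro n
  induction n using Nat.strong_induction_on with
  | _ n ih =>
    intro s hs hinv
    rcases s.eq_empty_or_nonempty with rfl | ⟨i₀, hi₀⟩
    · simp
    · have hpow : ∀ k : ℕ, (σ ^ k) i₀ ∈ s := by
        intro k
        induction k with
        | zero => simpa using hi₀
        | succ k ihk =>
          rw [pow_succ', Equiv.Perm.mul_apply]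
          exact hinv _ ihk
      have hper : i₀ ∈ Function.periodicPts σ := by
        refine Function.mk_mem_periodicPts (orderOf_pos σ) ?_
        show σ^[orderOf σ] i₀ = i₀
        rw [Equiv.Perm.iterate_eq_pow, pow_orderOf_eq_one]
        rfl
      set r := Function.minimalPeriod σ i₀ with hr
      have hrpos : 0 < r := Function.minimalPeriod_pos_of_mem_periodicPts hper
      have hfix : (σ ^ r) i₀ = i₀ := by
        have := Function.isPeriodicPt_minimalPeriod σ i₀
        rw [← Equiv.Perm.iterate_eq_pow]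
        exact this
      set O : Finset ι := (Finset.range r).image (fun k => (σ ^ k) i₀) with hO
      have hOs : O ⊆ s := by
        intro x hx
        rw [hO, Finset.mem_image] at hx
        obtain ⟨k, -, rfl⟩ := hx
        exact hpow k
      have hOne : O.Nonempty :=
        ⟨i₀, Finset.mem_image.mpr ⟨0, Finset.mem_range.mpr hrpos, by simp⟩⟩
      have hsumO : ∑ i ∈ O, f i = 0 := by
        rw [hO, Finset.sum_image]
        · exact h i₀ r hrpos hfix
        · intro a ha b hb hab
          rw [Finset.coe_range, Set.mem_Iio] at ha hb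
          simp only [← Equiv.Perm.iterate_eq_pow] at hab
          exact (Function.iterate_eq_iterate_iff_of_lt_minimalPeriod ha hb).mp hab
      have hinv' : ∀ i ∈ s \ O, σ i ∈ s \ O := by
        intro i hi
        rw [Finset.mem_sdiff] at hi ⊢
        refine ⟨hinv i hi.1, fun hσ => hi.2 ?_⟩
        rw [hO, Finset.mem_image] at hσ
        obtain ⟨k, hk, hk'⟩ := hσ
        rw [Finset.mem_range] at hk
        have key : ∃ m, m < r ∧ (σ ^ (m + 1)) i₀ = σ i := by
          rcases Nat.eq_zero_or_pos k with rfl | hkpos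
          · refine ⟨r - 1, by omega, ?_⟩
            rw [Nat.sub_add_cancel hrpos, hfix, ← hk']
            simp
          · refine ⟨k - 1, by omega, ?_⟩
            rw [Nat.sub_add_cancel hkpos, hk']
        obtain ⟨m, hm, hm'⟩ := key
        rw [pow_succ', Equiv.Perm.mul_apply] at hm'
        have := σ.injective hm'
        rw [hO, Finset.mem_image]
        exact ⟨m, Finset.mem_range.mpr hm, this⟩
      have hcard : (s \ O).card < n := by
        rw [← hs]
        exact Finset.card_lt_card (Finset.sdiff_ssubset hOs hOne)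
      have := ih _ hcard (s \ O) rfl hinv'
      rw [← Finset.sum_sdiff hOs, this, hsumO, add_zero]

/-! ### Abstract factor systems -/

section abstract

variable {Γ : Type*} [Group Γ] {ι : Type*}

/-- A "factor system": `fac γ i = (π_γ i, γ'_i)` with the cocycle rule. -/
structure HCoh_IsFactorSystem (fac : Γ → ι → ι × Γ) : Prop where
  one : ∀ i, fac 1 i = (i, 1)
  mul : ∀ γ δ i, fac (γ * δ) i = ((fac δ (fac γ i).1).1, (fac γ i).2 * (fac δ (fac γ i).1).2)

variable {fac : Γ → ι → ι × Γ}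

/-- The permutation of the index set attached to `γ`. -/
def HCoh_perm (hf : HCoh_IsFactorSystem fac) (γ : Γ) : Equiv.Perm ι where
  toFun i := (fac γ i).1
  invFun i := (fac γ⁻¹ i).1
  left_inv i := by
    have := hf.mul γ γ⁻¹ i
    rw [mul_inv_cancel, hf.one] at this
    exact (congrArg Prod.fst this).symm
  right_inv i := by
    have := hf.mul γ⁻¹ γ i
    rw [inv_mul_cancel, hf.one] at this
    exact (congrArg Prod.fst this).symm

@[simp] theorem HCoh_perm_apply (hf : HCoh_IsFactorSystem fac) (γ : Γ) (i : ι) :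
    HCoh_perm hf γ i = (fac γ i).1 := rfl

theorem HCoh_pow_fst (hf : HCoh_IsFactorSystem fac) (γ : Γ) (n : ℕ) (i : ι) :
    (fac (γ ^ n) i).1 = (HCoh_perm hf γ ^ n) i := by
  induction n with
  | zero => simp [hf.one]
  | succ n ih =>
    rw [pow_succ, hf.mul, pow_succ', Equiv.Perm.mul_apply, ← ih]
    rfl

theorem HCoh_map_one {A : Type*} [AddCommGroup A] {c : Γ → A}
    (hc : ∀ γ δ, c (γ * δ) = c γ + c δ) : c 1 = 0 := by
  have := hc 1 1
  rw [mul_one] at this
  exact (add_eq_left.mp this.symm)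

theorem HCoh_map_pow_snd (hf : HCoh_IsFactorSystem fac) {A : Type*} [AddCommGroup A] {c : Γ → A}
    (hc : ∀ γ δ, c (γ * δ) = c γ + c δ) (γ : Γ) (n : ℕ) (i : ι) :
    c (fac (γ ^ n) i).2 = ∑ k ∈ Finset.range n, c (fac γ ((HCoh_perm hf γ ^ k) i)).2 := by
  induction n with
  | zero => simp [hf.one, HCoh_map_one hc]
  | succ n ih =>
    rw [pow_succ, hf.mul, Finset.sum_range_succ, ← ih, hc, HCoh_pow_fst hf]

theorem HCoh_pow_of_fixed (hf : HCoh_IsFactorSystem fac) (g : Γ) (i : ι) (hi : (fac g i).1 = i)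
    (m : ℕ) : fac (g ^ m) i = (i, (fac g i).2 ^ m) := by
  induction m with
  | zero => simp [hf.one]
  | succ m ih =>
    rw [pow_succ, hf.mul, ih]
    simp only
    rw [hi, pow_succ]

/-- Additivity of the transfer. -/
theorem HCoh_transfer_mul [Fintype ι] (hf : HCoh_IsFactorSystem fac) {A : Type*}
    [AddCommGroup A] {c : Γ → A} (hc : ∀ γ δ, c (γ * δ) = c γ + c δ) (γ δ : Γ) :
    ∑ i, c (fac (γ * δ) i).2 = ∑ i, c (fac γ i).2 + ∑ i, c (fac δ i).2 := by
  simp only [hf.mul, hc, Finset.sum_add_distrib]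
  congr 1
  exact Equiv.sum_comp (HCoh_perm hf γ) (fun j => c (fac δ j).2)

/-- Vanishing of the transfer on a class `Z` of elements stable under "cycle products". -/
theorem HCoh_transfer_eq_zero [Fintype ι] (hf : HCoh_IsFactorSystem fac) {A : Type*}
    [AddCommGroup A] {c : Γ → A} (hc : ∀ γ δ, c (γ * δ) = c γ + c δ) (Z : Γ → Prop)
    (hZ : ∀ γ, Z γ → c γ = 0)
    (hclosed : ∀ γ, Z γ → ∀ r : ℕ, 0 < r → ∀ i, (fac (γ ^ r) i).1 = i → Z (fac (γ ^ r) i).2)
    (γ : Γ) (hγ : Z γ) : ∑ i, c (fac γ i).2 = 0 := by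
  classical
  refine HCoh_sum_eq_zero_of_orbits (HCoh_perm hf γ) (fun i => c (fac γ i).2) ?_
  intro i r hr hfix
  rw [← HCoh_map_pow_snd hf hc]
  refine hZ _ (hclosed γ hγ r hr i ?_)
  rw [HCoh_pow_fst hf]
  exact hfix

/-- Cycle products of elements of finite order have finite order. -/
theorem HCoh_finite_order_closed (hf : HCoh_IsFactorSystem fac) (γ : Γ) (n : ℕ) (hn : γ ^ n = 1)
    (r : ℕ) (i : ι) (hi : (fac (γ ^ r) i).1 = i) : (fac (γ ^ r) i).2 ^ n = 1 := by
  have h1 := HCoh_pow_of_fixed hf (γ ^ r) i hi n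
  rw [← pow_mul, mul_comm, pow_mul, hn, one_pow, hf.one] at h1
  exact (congrArg Prod.snd h1).symm

end abstract

/-! ### Integer matrices of elements of `Γ₀(N)` -/

section mat

variable {N : ℕ}

theorem HCoh_mat_one : (1 : G0 N).mat = 1 := rfl

theorem HCoh_mat_mul (γ γ' : G0 N) : (γ * γ').mat = γ.mat * γ'.mat := rfl

theorem HCoh_mat_pow (γ : G0 N) (n : ℕ) : (γ ^ n).mat = γ.mat ^ n := by
  induction n with
  | zero => simp [HCoh_mat_one]
  | succ n ih => rw [pow_succ, pow_succ, HCoh_mat_mul, ih]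

theorem HCoh_mat_det (γ : G0 N) : γ.mat.det = 1 := (γ : SL(2, ℤ)).2

theorem HCoh_mat_det' (γ : G0 N) : γ.mat 0 0 * γ.mat 1 1 - γ.mat 0 1 * γ.mat 1 0 = 1 := by
  rw [← Matrix.det_fin_two, HCoh_mat_det]

theorem HCoh_mat_injective :
    Function.Injective (G0.mat : G0 N → Matrix (Fin 2) (Fin 2) ℤ) := by
  intro γ γ' h
  apply Subtype.ext
  apply Subtype.ext
  exact h

theorem HCoh_mat_dvd (γ : G0 N) : (N : ℤ) ∣ γ.mat 1 0 := by
  have := CongruenceSubgroup.Gamma0_mem.mp γ.2
  exact (ZMod.intCast_zmod_eq_zero_iff_dvd _ _).mp this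

/-- Build an element of `Γ₀(N)` from an integer matrix. -/
def HCoh_mk (M : Matrix (Fin 2) (Fin 2) ℤ) (hdet : M.det = 1) (hN : (N : ℤ) ∣ M 1 0) : G0 N :=
  ⟨⟨M, hdet⟩, CongruenceSubgroup.Gamma0_mem.mpr ((ZMod.intCast_zmod_eq_zero_iff_dvd _ _).mpr hN)⟩

@[simp] theorem HCoh_mk_mat (M : Matrix (Fin 2) (Fin 2) ℤ) (hdet : M.det = 1)
    (hN : (N : ℤ) ∣ M 1 0) : (HCoh_mk M hdet hN : G0 N).mat = M := rfl

theorem HCoh_heckeRep_det {ℓ : ℕ} (i : Option (Fin ℓ)) : (heckeRep ℓ i).det = ℓ := by
  cases i <;> simp [heckeRep, Matrix.det_fin_two]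

/-- Existence of the factorisation `M = γ' * α_j` for `det M = ℓ`, `N ∣ M₁₀`. -/
theorem HCoh_exists_factor {ℓ : ℕ} (hℓ : ℓ.Prime) (hℓN : ¬ ℓ ∣ N)
    (M : Matrix (Fin 2) (Fin 2) ℤ) (hdet : M.det = ℓ) (hN : (N : ℤ) ∣ M 1 0) :
    ∃ q : Option (Fin ℓ) × G0 N, M = q.2.mat * heckeRep ℓ q.1 := by
  have : Fact ℓ.Prime := ⟨hℓ⟩
  have hd : M 0 0 * M 1 1 - M 0 1 * M 1 0 = ℓ := by rw [← hdet, Matrix.det_fin_two]
  have hℓ0 : (ℓ : ℤ) ≠ 0 := by exact_mod_cast hℓ.ne_zero
  by_cases h0 : (ℓ : ℤ) ∣ M 0 0 ∧ (ℓ : ℤ) ∣ M 1 0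
  · obtain ⟨⟨a', ha'⟩, ⟨c', hc'⟩⟩ := h0
    have hdet' : (!![a', M 0 1; c', M 1 1] : Matrix (Fin 2) (Fin 2) ℤ).det = 1 := by
      rw [Matrix.det_fin_two_of]
      apply mul_left_cancel₀ hℓ0
      rw [ha', hc'] at hd
      linear_combination hd
    have hN' : (N : ℤ) ∣ (!![a', M 0 1; c', M 1 1] : Matrix (Fin 2) (Fin 2) ℤ) 1 0 := by
      have hcop : IsCoprime (N : ℤ) (ℓ : ℤ) := by
        rw [Int.isCoprime_iff_gcd_eq_one, Int.gcd_natCast_natCast]
        exact Nat.Coprime.symm ((Nat.Prime.coprime_iff_not_dvd hℓ).mpr hℓN)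
      have : (N : ℤ) ∣ (ℓ : ℤ) * c' := hc' ▸ hN
      simpa using hcop.dvd_of_dvd_mul_left this
    refine ⟨(none, HCoh_mk _ hdet' hN'), ?_⟩
    ext i j
    fin_cases i <;> fin_cases j <;>
      simp [heckeRep, Matrix.mul_apply, Fin.sum_univ_two, ha', hc', mul_comm]
  · -- find `k` with `M₀₁ ≡ k M₀₀`, `M₁₁ ≡ k M₁₀` mod `ℓ`
    have hdz : ((M 0 0 : ℤ) : ZMod ℓ) * (M 1 1 : ℤ) - (M 0 1 : ℤ) * (M 1 0 : ℤ) = 0 := by
      have := congrArg (Int.cast : ℤ → ZMod ℓ) hd
      push_cast at this
      rw [this]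
      simp
    have hk : ∃ k : ZMod ℓ, ((M 0 1 : ℤ) : ZMod ℓ) = (M 0 0 : ℤ) * k ∧
        ((M 1 1 : ℤ) : ZMod ℓ) = (M 1 0 : ℤ) * k := by
      by_cases ha : ((M 0 0 : ℤ) : ZMod ℓ) = 0
      · have hc : ((M 1 0 : ℤ) : ZMod ℓ) ≠ 0 := by
          intro hc
          exact h0 ⟨(ZMod.intCast_zmod_eq_zero_iff_dvd _ _).mp ha,
            (ZMod.intCast_zmod_eq_zero_iff_dvd _ _).mp hc⟩
        refine ⟨(M 1 1 : ℤ) / (M 1 0 : ℤ), ?_, ?_⟩
        · rw [ha, zero_mul]
          rw [ha, zero_mul, zero_sub, neg_eq_zero] at hdz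
          exact (mul_eq_zero.mp hdz).resolve_right hc
        · field_simp
      · refine ⟨(M 0 1 : ℤ) / (M 0 0 : ℤ), ?_, ?_⟩
        · field_simp
        · field_simp
          linear_combination hdz
    obtain ⟨k, hk1, hk2⟩ := hk
    obtain ⟨kv, hkv, h1, h2⟩ : ∃ kv : ℕ, kv < ℓ ∧ (ℓ : ℤ) ∣ M 0 1 - M 0 0 * (kv : ℤ) ∧
        (ℓ : ℤ) ∣ M 1 1 - M 1 0 * (kv : ℤ) := by
      refine ⟨k.val, ZMod.val_lt k, ?_, ?_⟩
      · rw [← ZMod.intCast_zmod_eq_zero_iff_dvd]
        push_cast
        rw [ZMod.natCast_zmod_val, hk1, sub_self]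
      · rw [← ZMod.intCast_zmod_eq_zero_iff_dvd]
        push_cast
        rw [ZMod.natCast_zmod_val, hk2, sub_self]
    obtain ⟨b', hb'⟩ := h1
    obtain ⟨d', hd'⟩ := h2
    have hdet' : (!![M 0 0, b'; M 1 0, d'] : Matrix (Fin 2) (Fin 2) ℤ).det = 1 := by
      rw [Matrix.det_fin_two_of]
      apply mul_left_cancel₀ hℓ0
      linear_combination hd - M 0 0 * hd' + M 1 0 * hb'
    have hN' : (N : ℤ) ∣ (!![M 0 0, b'; M 1 0, d'] : Matrix (Fin 2) (Fin 2) ℤ) 1 0 := by
      simpa using hN
    refine ⟨(some ⟨kv, hkv⟩, HCoh_mk _ hdet' hN'), ?_⟩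
    ext i j
    fin_cases i <;> fin_cases j
    · simp [heckeRep, Matrix.mul_apply, Fin.sum_univ_two]
    · simp [heckeRep, Matrix.mul_apply, Fin.sum_univ_two]
      linear_combination hb'
    · simp [heckeRep, Matrix.mul_apply, Fin.sum_univ_two]
    · simp [heckeRep, Matrix.mul_apply, Fin.sum_univ_two]
      linear_combination hd'

end mat

section unique

variable {N : ℕ}

theorem HCoh_mul_right_cancel {A : Matrix (Fin 2) (Fin 2) ℤ} (hA : A.det ≠ 0)
    {X Y : Matrix (Fin 2) (Fin 2) ℤ} (h : X * A = Y * A) : X = Y := by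
  have h2 := congrArg (· * A.adjugate) h
  simp only [Matrix.mul_assoc, Matrix.mul_adjugate, Matrix.mul_smul, Matrix.mul_one] at h2
  ext i j
  have h3 := congrFun (congrFun h2 i) j
  simp only [Matrix.smul_apply, smul_eq_mul] at h3
  exact mul_left_cancel₀ hA h3

/-- Uniqueness of the factorisation. -/
theorem HCoh_factor_unique {ℓ : ℕ} (hℓ : ℓ.Prime) {i j : Option (Fin ℓ)} {γ γ' : G0 N}
    (h : γ.mat * heckeRep ℓ i = γ'.mat * heckeRep ℓ j) : i = j ∧ γ = γ' := by
  have hℓ0 : (ℓ : ℤ) ≠ 0 := by exact_mod_cast hℓ.ne_zero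
  have hℓp : Prime (ℓ : ℤ) := Nat.prime_iff_prime_int.mp hℓ
  have hnd : ¬ (ℓ : ℤ) ∣ 1 := fun h1 => hℓp.not_isUnit (isUnit_of_dvd_one h1)
  have hγ := HCoh_mat_det' γ
  have hγ' := HCoh_mat_det' γ'
  have e00 := congrFun (congrFun h 0) 0
  have e01 := congrFun (congrFun h 0) 1
  have e10 := congrFun (congrFun h 1) 0
  have e11 := congrFun (congrFun h 1) 1
  have hij : i = j := by
    rcases i with _ | k <;> rcases j with _ | k'
    · rfl
    · exfalso
      simp [heckeRep, Matrix.mul_apply, Fin.sum_univ_two] at e00 e10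
      apply hnd
      refine ⟨γ.mat 0 0 * γ'.mat 1 1 - γ'.mat 0 1 * γ.mat 1 0, ?_⟩
      rw [← e00, ← e10] at hγ'
      linear_combination -hγ'
    · exfalso
      simp [heckeRep, Matrix.mul_apply, Fin.sum_univ_two] at e00 e10
      apply hnd
      refine ⟨γ'.mat 0 0 * γ.mat 1 1 - γ.mat 0 1 * γ'.mat 1 0, ?_⟩
      rw [e00, e10] at hγ
      linear_combination -hγ
    · simp [heckeRep, Matrix.mul_apply, Fin.sum_univ_two] at e00 e01 e10 e11
      by_contra hne
      have hkk : (k : ℕ) ≠ (k' : ℕ) := fun hk => hne (by rw [Fin.ext hk])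
      have hnd' : ¬ (ℓ : ℤ) ∣ ((k : ℕ) : ℤ) - ((k' : ℕ) : ℤ) := by
        intro hd
        have hlt : |((k : ℕ) : ℤ) - ((k' : ℕ) : ℤ)| < (ℓ : ℤ) := by
          have h1 := k.2
          have h2 := k'.2
          rw [abs_lt]
          constructor <;> omega
        have := Int.eq_zero_of_abs_lt_dvd hd hlt
        apply hkk
        omega
      have ha : (ℓ : ℤ) ∣ γ.mat 0 0 := by
        have : (ℓ : ℤ) ∣ γ.mat 0 0 * (((k : ℕ) : ℤ) - ((k' : ℕ) : ℤ)) := by
          refine ⟨γ'.mat 0 1 - γ.mat 0 1, ?_⟩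
          rw [← e00] at e01
          linear_combination e01
        exact (hℓp.dvd_or_dvd this).resolve_right hnd'
      have hc : (ℓ : ℤ) ∣ γ.mat 1 0 := by
        have : (ℓ : ℤ) ∣ γ.mat 1 0 * (((k : ℕ) : ℤ) - ((k' : ℕ) : ℤ)) := by
          refine ⟨γ'.mat 1 1 - γ.mat 1 1, ?_⟩
          rw [← e10] at e11
          linear_combination e11
        exact (hℓp.dvd_or_dvd this).resolve_right hnd'
      apply hnd
      rw [← hγ]
      exact dvd_sub (Dvd.dvd.mul_right ha _) (Dvd.dvd.mul_left hc _)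
  subst hij
  refine ⟨rfl, HCoh_mat_injective (HCoh_mul_right_cancel ?_ h)⟩
  rw [HCoh_heckeRep_det]
  exact hℓ0

theorem HCoh_exists_isHeckeFactor {ℓ : ℕ} (hℓ : ℓ.Prime) (hℓN : ¬ ℓ ∣ N) (γ : G0 N)
    (i : Option (Fin ℓ)) : ∃ q : Option (Fin ℓ) × G0 N, IsHeckeFactor ℓ γ i q := by
  refine HCoh_exists_factor hℓ hℓN (heckeRep ℓ i * γ.mat) ?_ ?_
  · rw [Matrix.det_mul, HCoh_heckeRep_det, HCoh_mat_det, mul_one]
  · have := HCoh_mat_dvd γ
    rcases i with _ | k
    · simpa [heckeRep, Matrix.mul_apply, Fin.sum_univ_two] using this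
    · simpa [heckeRep, Matrix.mul_apply, Fin.sum_univ_two] using Dvd.dvd.mul_left this _

theorem HCoh_heckeFac_spec {ℓ : ℕ} (hℓ : ℓ.Prime) (hℓN : ¬ ℓ ∣ N) (γ : G0 N)
    (i : Option (Fin ℓ)) : IsHeckeFactor ℓ γ i (heckeFac N ℓ γ i) := by
  unfold heckeFac
  rw [dif_pos (HCoh_exists_isHeckeFactor hℓ hℓN γ i)]
  exact Classical.choose_spec (HCoh_exists_isHeckeFactor hℓ hℓN γ i)

theorem HCoh_heckeFac_unique {ℓ : ℕ} (hℓ : ℓ.Prime) (hℓN : ¬ ℓ ∣ N) {γ : G0 N}
    {i : Option (Fin ℓ)} {q : Option (Fin ℓ) × G0 N} (h : IsHeckeFactor ℓ γ i q) :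
    heckeFac N ℓ γ i = q := by
  have h' := HCoh_heckeFac_spec hℓ hℓN γ i
  unfold IsHeckeFactor at h h'
  obtain ⟨h1, h2⟩ := HCoh_factor_unique hℓ (h'.symm.trans h)
  exact Prod.ext h1 h2

theorem HCoh_isFactorSystem {ℓ : ℕ} (hℓ : ℓ.Prime) (hℓN : ¬ ℓ ∣ N) :
    HCoh_IsFactorSystem (heckeFac N ℓ) where
  one i := by
    apply HCoh_heckeFac_unique hℓ hℓN
    unfold IsHeckeFactor
    simp [HCoh_mat_one]
  mul γ δ i := by
    apply HCoh_heckeFac_unique hℓ hℓN
    have h1 := HCoh_heckeFac_spec hℓ hℓN γ i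
    have h2 := HCoh_heckeFac_spec hℓ hℓN δ (heckeFac N ℓ γ i).1
    unfold IsHeckeFactor at h1 h2 ⊢
    simp only [HCoh_mat_mul]
    rw [← Matrix.mul_assoc, h1, Matrix.mul_assoc, h2, Matrix.mul_assoc]

end unique

/-! ### Traces -/

section trace

theorem HCoh_trace_eq_of_conj {A G D : Matrix (Fin 2) (Fin 2) ℤ} (hA : A.det ≠ 0)
    (h : A * G = D * A) : G.trace = D.trace := by
  have h1 : (A.adjugate * (A * G)).trace = A.det * G.trace := by
    rw [← Matrix.mul_assoc, Matrix.adjugate_mul, Matrix.smul_mul, Matrix.one_mul,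
      Matrix.trace_smul, smul_eq_mul]
  have h2 : (A.adjugate * (D * A)).trace = A.det * D.trace := by
    rw [Matrix.trace_mul_comm, Matrix.mul_assoc, Matrix.mul_adjugate, Matrix.mul_smul,
      Matrix.mul_one, Matrix.trace_smul, smul_eq_mul]
  rw [h, h2] at h1
  exact (mul_left_cancel₀ hA h1).symm

theorem HCoh_sq_eq {G : Matrix (Fin 2) (Fin 2) ℤ} (hdet : G.det = 1) :
    G * G = G.trace • G - 1 := by
  rw [Matrix.det_fin_two] at hdet
  ext i j
  rw [Matrix.sub_apply, Matrix.smul_apply, Matrix.trace_fin_two, Matrix.mul_apply,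
    Fin.sum_univ_two, smul_eq_mul]
  fin_cases i <;> fin_cases j
  · simp only [Fin.zero_eta, Fin.isValue, Matrix.one_apply_eq]
    linear_combination (-1 : ℤ) * hdet
  · simp only [Fin.zero_eta, Fin.isValue, Fin.mk_one, ne_eq, zero_ne_one, not_false_eq_true,
      Matrix.one_apply_ne, sub_zero]
    ring
  · simp only [Fin.mk_one, Fin.isValue, Fin.zero_eta, ne_eq, one_ne_zero, not_false_eq_true,
      Matrix.one_apply_ne, sub_zero]
    ring
  · simp only [Fin.mk_one, Fin.isValue, Matrix.one_apply_eq]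
    linear_combination (-1 : ℤ) * hdet

theorem HCoh_trace_pow_rec {G : Matrix (Fin 2) (Fin 2) ℤ} (hdet : G.det = 1) (n : ℕ) :
    (G ^ (n + 2)).trace = G.trace * (G ^ (n + 1)).trace - (G ^ n).trace := by
  have : G ^ (n + 2) = G.trace • G ^ (n + 1) - G ^ n := by
    rw [pow_add, pow_two, HCoh_sq_eq hdet, mul_sub, mul_one, Matrix.mul_smul, ← pow_succ]
  rw [this, Matrix.trace_sub, Matrix.trace_smul, smul_eq_mul]

theorem HCoh_trace_pow {G : Matrix (Fin 2) (Fin 2) ℤ} (hdet : G.det = 1)
    (ht : G.trace = 2 ∨ G.trace = -2) (r : ℕ) :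
    (G ^ r).trace = 2 ∨ (G ^ r).trace = -2 := by
  have key : ∀ n : ℕ, ((G ^ n).trace = 2 ∨ (G ^ n).trace = -2) ∧
      ((G ^ (n + 1)).trace = G.trace * (G ^ n).trace / 2) := by
    intro n
    induction n with
    | zero =>
      refine ⟨Or.inl (by simp), ?_⟩
      simp
    | succ n ih =>
      obtain ⟨ih1, ih2⟩ := ih
      have hrec := HCoh_trace_pow_rec hdet n
      rcases ht with ht | ht <;> rcases ih1 with ih1 | ih1 <;>
        rw [ht, ih1] at ih2 <;> norm_num at ih2 <;>
        rw [ht, ih1, ih2] at hrec <;> norm_num at hrec <;>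
        rw [ht, ih2, hrec] <;> norm_num
  exact (key r).1

end trace

/-! ### The piece `HCoh` -/

theorem isParHom_heckeCoh {N : ℕ} {ℓ : ℕ} (hℓ : ℓ.Prime) (hℓN : ¬ ℓ ∣ N) {A : Type*}
    [AddCommGroup A] {c : G0 N → A} (hc : IsParHom c) : IsParHom (heckeCoh N ℓ c) := by
  have hf := HCoh_isFactorSystem (N := N) hℓ hℓN
  have hℓ0 : (ℓ : ℤ) ≠ 0 := by exact_mod_cast hℓ.ne_zero
  refine ⟨?_, ?_, ?_⟩
  · intro γ γ'
    exact HCoh_transfer_mul hf hc.map_mul γ γ'
  · intro γ hγ
    refine HCoh_transfer_eq_zero hf hc.map_mul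
      (fun γ : G0 N => γ.mat.trace = 2 ∨ γ.mat.trace = -2) hc.parabolic ?_ γ hγ
    intro γ hγ r _ i hi
    have h1 := HCoh_heckeFac_spec hℓ hℓN (γ ^ r) i
    unfold IsHeckeFactor at h1
    rw [hi] at h1
    have h2 := HCoh_trace_eq_of_conj (by rw [HCoh_heckeRep_det]; exact hℓ0) h1
    show (heckeFac N ℓ (γ ^ r) i).2.mat.trace = 2 ∨ (heckeFac N ℓ (γ ^ r) i).2.mat.trace = -2
    rw [← h2, HCoh_mat_pow]
    exact HCoh_trace_pow (HCoh_mat_det γ) hγ r
  · intro γ n hn hγn
    refine HCoh_transfer_eq_zero hf hc.map_mul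
      (fun γ : G0 N => ∃ n : ℕ, 0 < n ∧ γ ^ n = 1) (fun γ ⟨n, hn, h⟩ => hc.elliptic γ n hn h)
      ?_ γ ⟨n, hn, hγn⟩
    rintro γ ⟨n, hn, hγn⟩ r _ i hi
    exact ⟨n, hn, HCoh_finite_order_closed hf γ n hγn r i hi⟩

end Fermat.Agent.S29.H149

end
-- ===== PACK-END S29/H149/HCoh.lean

-- ===== PACK-BEGIN S24/Alg/LocApprox.lean
section


/-!
# S24 / ALG-LOC: approximation for finitely many places

Distinct places are incomparable; for a place `v` outside a finite set `S` of places there is a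
function with a pole at `v` and zeros at all places of `S`.
-/

set_option autoImplicit false

noncomputable section

open AlgebraicCurve

namespace Fermat.Agent.S24.H144

variable {K F : Type*} [Field K] [Field F] [Algebra K F]

/-- Every place has an element of order `1`. -/
theorem loc_exists_ord_eq_one (v : Place K F) : ∃ h : F, v.ord h = 1 := by
  obtain ⟨π, hπ⟩ := IsDiscreteValuationRing.exists_irreducible v.toValuationSubring
  exact ⟨π, v.ord_coe_irreducible hπ⟩

theorem loc_ne_zero_of_ord_ne_zero (v : Place K F) {f : F} (h : v.ord f ≠ 0) : f ≠ 0 := by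
  rintro rfl; exact h v.ord_zero

/-- The valuation rings of two places are comparable only if the places are equal. -/
theorem loc_eq_of_le {v w : Place K F} (h : v.toValuationSubring ≤ w.toValuationSubring) :
    v = w := by
  apply Place.ext
  refine le_antisymm h ?_
  intro f hf
  by_contra hfv
  have hfw : 0 ≤ w.ord f := loc_ord_nonneg_of_mem w hf
  have hfv' : v.ord f < 0 := by
    by_contra h0
    exact hfv (loc_mem_of_ord_nonneg v (not_lt.mp h0))
  have hf0 : f ≠ 0 := loc_ne_zero_of_ord_ne_zero v hfv'.ne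
  obtain ⟨h1, hh1⟩ := loc_exists_ord_eq_one w
  have hh0 : h1 ≠ 0 := loc_ne_zero_of_ord_ne_zero w (by omega)
  -- choose `r` large
  set r : ℕ := (v.ord h1).toNat + 1 with hr
  have hfr : f ^ r ≠ 0 := pow_ne_zero r hf0
  have hv : v.ord (f ^ r * h1) < 0 := by
    rw [v.ord_mul hfr hh0, loc_ord_pow]
    have : (r : ℤ) * v.ord f ≤ -(r : ℤ) := by nlinarith
    have : v.ord h1 ≤ (v.ord h1).toNat := Int.self_le_toNat _
    have : (r : ℤ) = (v.ord h1).toNat + 1 := by rw [hr]; push_cast; ring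
    omega
  have hmem : (f ^ r * h1)⁻¹ ∈ w.toValuationSubring := by
    apply h
    apply loc_mem_of_ord_nonneg
    rw [v.ord_inv]; omega
  have hw := loc_ord_nonneg_of_mem w hmem
  rw [w.ord_inv, w.ord_mul hfr hh0, loc_ord_pow, hh1] at hw
  have : 0 ≤ (r : ℤ) * w.ord f := mul_nonneg (Int.natCast_nonneg r) hfw
  omega

/-- Two distinct places are separated by a function. -/
theorem loc_exists_sep {v w : Place K F} (hvw : v ≠ w) :
    ∃ c : F, 0 < v.ord c ∧ w.ord c < 0 := by
  have h1 : ¬ v.toValuationSubring ≤ w.toValuationSubring := fun h => hvw (loc_eq_of_le h)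
  have h2 : ¬ w.toValuationSubring ≤ v.toValuationSubring :=
    fun h => hvw (loc_eq_of_le h).symm
  obtain ⟨a, hav, haw⟩ := SetLike.not_le_iff_exists.mp h1
  obtain ⟨b, hbw, hbv⟩ := SetLike.not_le_iff_exists.mp h2
  have hav' : 0 ≤ v.ord a := loc_ord_nonneg_of_mem v hav
  have hbw' : 0 ≤ w.ord b := loc_ord_nonneg_of_mem w hbw
  have haw' : w.ord a < 0 := by
    by_contra h0; exact haw (loc_mem_of_ord_nonneg w (not_lt.mp h0))
  have hbv' : v.ord b < 0 := by
    by_contra h0; exact hbv (loc_mem_of_ord_nonneg v (not_lt.mp h0))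
  have ha0 : a ≠ 0 := loc_ne_zero_of_ord_ne_zero w haw'.ne
  have hb0 : b ≠ 0 := loc_ne_zero_of_ord_ne_zero v hbv'.ne
  refine ⟨a * b⁻¹, ?_, ?_⟩
  · rw [v.ord_mul ha0 (inv_ne_zero hb0), v.ord_inv]; omega
  · rw [w.ord_mul ha0 (inv_ne_zero hb0), w.ord_inv]; omega

/-- **Approximation.** For a place `v` outside a finite set `S` of places there is a function
with a zero at `v` and poles at all places of `S`. -/
theorem loc_exists_zero_poles (v : Place K F) (S : Finset (Place K F)) (hv : v ∉ S) :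
    ∃ g : F, 0 < v.ord g ∧ ∀ w ∈ S, w.ord g < 0 := by
  classical
  induction S using Finset.induction_on with
  | empty =>
    obtain ⟨h, hh⟩ := loc_exists_ord_eq_one v
    exact ⟨h, by omega, by simp⟩
  | insert w₀ S' hw₀ ih =>
    have hv' : v ∉ S' := fun h => hv (Finset.mem_insert_of_mem h)
    have hvw₀ : v ≠ w₀ := fun h => hv (h ▸ Finset.mem_insert_self _ _)
    obtain ⟨g, hgv, hgS⟩ := ih hv'
    obtain ⟨c, hcv, hcw⟩ := loc_exists_sep hvw₀
    have hg0 : g ≠ 0 := loc_ne_zero_of_ord_ne_zero v hgv.ne'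
    have hc0 : c ≠ 0 := loc_ne_zero_of_ord_ne_zero v hcv.ne'
    by_cases hgw : w₀.ord g < 0
    · refine ⟨g, hgv, ?_⟩
      intro w hw
      rcases Finset.mem_insert.mp hw with rfl | hw
      · exact hgw
      · exact hgS w hw
    · have hgw := not_lt.mp hgw
      -- choose `r` large
      set r : ℕ := (∑ w ∈ S', (w.ord c).natAbs) + 1 with hr
      have hrS : ∀ w ∈ S', -(r : ℤ) < w.ord c := by
        intro w hw
        have h1 : (w.ord c).natAbs ≤ ∑ w ∈ S', (w.ord c).natAbs :=
          Finset.single_le_sum (f := fun w : Place K F => (w.ord c).natAbs)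
            (fun _ _ => Nat.zero_le _) hw
        have h2 : (r : ℤ) = ((∑ w ∈ S', (w.ord c).natAbs : ℕ) : ℤ) + 1 := by
          rw [hr]; push_cast; ring
        have h3 : ((w.ord c).natAbs : ℤ) ≤ ((∑ w ∈ S', (w.ord c).natAbs : ℕ) : ℤ) := by
          exact_mod_cast h1
        omega
      have hr1 : 1 ≤ r := by omega
      have hgr0 : g ^ r ≠ 0 := pow_ne_zero r hg0
      have hw₀ : w₀.ord (c + g ^ r) = w₀.ord c := by
        apply loc_ord_add_eq_of_lt w₀ hc0 hgr0
        rw [loc_ord_pow]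
        have : 0 ≤ (r : ℤ) * w₀.ord g := mul_nonneg (Int.natCast_nonneg r) hgw
        omega
      have hsum0 : c + g ^ r ≠ 0 := loc_ne_zero_of_ord_ne_zero w₀ (by rw [hw₀]; omega)
      refine ⟨c + g ^ r, ?_, ?_⟩
      · have h1 := loc_ord_add v hc0 hgr0 hsum0
        rw [loc_ord_pow] at h1
        have h2 : 0 < (r : ℤ) * v.ord g := mul_pos (by exact_mod_cast hr1) hgv
        have h3 : 0 < min (v.ord c) ((r : ℤ) * v.ord g) := lt_min hcv h2
        omega
      · intro w hw
        rcases Finset.mem_insert.mp hw with rfl | hw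
        · rw [hw₀]; exact hcw
        · have h1 : w.ord (g ^ r) < w.ord c := by
            rw [loc_ord_pow]
            have h2 := hgS w hw
            have h3 := hrS w hw
            have h4 : (r : ℤ) * w.ord g ≤ -(r : ℤ) := by nlinarith
            omega
          rw [add_comm, loc_ord_add_eq_of_lt w hgr0 hc0 h1, loc_ord_pow]
          have h2 := hgS w hw
          have : (r : ℤ) * w.ord g < 0 := by
            have hrpos : (0 : ℤ) < r := by exact_mod_cast hr1
            exact mul_neg_of_pos_of_neg hrpos h2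
          exact this

/-- **Approximation**, pole version: for a place `v` outside a finite set `S` of places there is
a function with a pole at `v` and zeros at all places of `S`. -/
theorem loc_exists_pole_zeros (v : Place K F) (S : Finset (Place K F)) (hv : v ∉ S) :
    ∃ u : F, v.ord u < 0 ∧ ∀ w ∈ S, 0 < w.ord u := by
  obtain ⟨g, hg, hgS⟩ := loc_exists_zero_poles v S hv
  refine ⟨g⁻¹, ?_, ?_⟩
  · rw [v.ord_inv]; omega
  · intro w hw
    rw [w.ord_inv]
    have := hgS w hw
    omega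

end Fermat.Agent.S24.H144

end
end
-- ===== PACK-END S24/Alg/LocApprox.lean

-- ===== PACK-BEGIN S24/Alg/LocRat.lean
section



/-!
# S24 / ALG-LOC: valuations on the rational subfield `K(t)`

Any two "valuations" of `F` which are trivial on `K` and positive on `t` are proportional on
`K(t)`: on `K(t)` each of them is a multiple of the `t`-adic order.
-/

set_option autoImplicit false

noncomputable section

open AlgebraicCurve Polynomial IntermediateField

namespace Fermat.Agent.S24.H144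

variable {K F : Type*} [Field K] [Field F] [Algebra K F]

/-- An integer valued discrete valuation (with the convention `w 0 = 0`) which is trivial on
`K` and positive at `t`. -/
structure IsTVal (K : Type*) {F : Type*} [Field K] [Field F] [Algebra K F] (t : F)
    (w : F → ℤ) : Prop where
  map_zero : w 0 = 0
  map_mul : ∀ f g : F, f ≠ 0 → g ≠ 0 → w (f * g) = w f + w g
  map_add : ∀ f g : F, f ≠ 0 → g ≠ 0 → f + g ≠ 0 → min (w f) (w g) ≤ w (f + g)
  map_neg : ∀ f : F, w (-f) = w f
  map_const : ∀ c : K, w (algebraMap K F c) = 0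
  pos : 0 < w t

namespace IsTVal

variable {t : F} {w : F → ℤ}

theorem ne_zero_of_ne (hw : IsTVal K t w) {f : F} (h : w f ≠ 0) : f ≠ 0 := by
  rintro rfl; exact h hw.map_zero

theorem t_ne_zero (hw : IsTVal K t w) : t ≠ 0 := hw.ne_zero_of_ne hw.pos.ne'

theorem map_one (hw : IsTVal K t w) : w 1 = 0 := by
  have := hw.map_const 1
  rwa [_root_.map_one] at this

theorem map_inv (hw : IsTVal K t w) (f : F) : w f⁻¹ = -w f := by
  rcases eq_or_ne f 0 with rfl | hf
  · simp [hw.map_zero]
  have h := hw.map_mul f f⁻¹ hf (inv_ne_zero hf)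
  rw [mul_inv_cancel₀ hf, hw.map_one] at h
  omega

theorem map_div (hw : IsTVal K t w) {f g : F} (hf : f ≠ 0) (hg : g ≠ 0) :
    w (f / g) = w f - w g := by
  rw [div_eq_mul_inv, hw.map_mul f g⁻¹ hf (inv_ne_zero hg), hw.map_inv]; ring

/-- Strict case of the ultrametric inequality. -/
theorem map_add_of_lt (hw : IsTVal K t w) {f g : F} (hf : f ≠ 0) (hg : g ≠ 0)
    (h : w f < w g) : f + g ≠ 0 ∧ w (f + g) = w f := by
  have hfg : f + g ≠ 0 := by
    intro h0
    have : g = -f := by rw [← sub_eq_zero]; rw [sub_neg_eq_add, add_comm]; exact h0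
    rw [this, hw.map_neg] at h
    exact lt_irrefl _ h
  refine ⟨hfg, ?_⟩
  have h1 := hw.map_add f g hf hg hfg
  rw [min_eq_left h.le] at h1
  have hng : -g ≠ 0 := neg_ne_zero.mpr hg
  have h2 := hw.map_add (f + g) (-g) hfg hng (by simpa using hf)
  rw [add_neg_cancel_right, hw.map_neg] at h2
  rcases le_total (w (f + g)) (w g) with h3 | h3
  · rw [min_eq_left h3] at h2; omega
  · rw [min_eq_right h3] at h2; omega

end IsTVal

/-- The order of vanishing of a place at which `t` vanishes is a `t`-valuation. -/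
theorem isTVal_ord (v : Place K F) {t : F} (ht : 0 < v.ord t) : IsTVal K t v.ord where
  map_zero := v.ord_zero
  map_mul := fun _ _ hf hg => v.ord_mul hf hg
  map_add := fun _ _ hf hg hfg => loc_ord_add v hf hg hfg
  map_neg := loc_ord_neg v
  map_const := loc_ord_algebraMap v
  pos := ht

/-- The order of an embedding into Laurent series, constant on `K`, is a `t`-valuation. -/
theorem isTVal_order {C : Type*} [Field C] (σ : F →+* LaurentSeries C) {t : F}
    (hK : ∀ c : K, (σ (algebraMap K F c)).order = 0) (ht : 0 < (σ t).order) :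
    IsTVal K t (fun f => (σ f).order) where
  map_zero := by simp
  map_mul := fun _ _ hf hg => loc_order_map_mul σ hf hg
  map_add := fun _ _ _ _ hfg => loc_order_map_add_le σ hfg
  map_neg := fun f => by simp only [map_neg, HahnSeries.order_neg]
  map_const := hK
  pos := ht

/-- For a nonzero polynomial `p` over `K`, every `t`-valuation of `p(t)` is the same multiple
of the valuation of `t`. -/
theorem loc_exists_mult_aeval (t : F) (p : K[X]) (hp : p ≠ 0) :
    ∃ k : ℕ, (p.coeff 0 = 0 → 0 < k) ∧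
      ∀ w : F → ℤ, IsTVal K t w → aeval t p ≠ 0 ∧ w (aeval t p) = k * w t := by
  induction p using Polynomial.recOnHorner with
  | M0 => exact absurd rfl hp
  | MC p a hp0 ha ih =>
    refine ⟨0, ?_, ?_⟩
    · intro h
      rw [coeff_add, hp0, coeff_C_zero, zero_add] at h
      exact absurd h ha
    · intro w hw
      have haF : algebraMap K F a ≠ 0 := by
        simpa using ha
      rcases eq_or_ne p 0 with rfl | hpne
      · simp only [zero_add, aeval_C]
        exact ⟨haF, by rw [hw.map_const]; simp⟩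
      obtain ⟨k, hk, hkw⟩ := ih hpne
      obtain ⟨hne, hval⟩ := hkw w hw
      have hkpos := hk hp0
      have hlt : w (algebraMap K F a) < w (aeval t p) := by
        rw [hw.map_const, hval]
        exact mul_pos (by exact_mod_cast hkpos) hw.pos
      obtain ⟨h1, h2⟩ := hw.map_add_of_lt haF hne hlt
      rw [map_add, aeval_C, add_comm]
      refine ⟨h1, ?_⟩
      rw [h2, hw.map_const]; simp
  | MX p hpne ih =>
    obtain ⟨k, _, hkw⟩ := ih hpne
    refine ⟨k + 1, fun _ => Nat.succ_pos k, ?_⟩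
    intro w hw
    obtain ⟨hne, hval⟩ := hkw w hw
    rw [map_mul, aeval_X]
    refine ⟨mul_ne_zero hne hw.t_ne_zero, ?_⟩
    rw [hw.map_mul _ _ hne hw.t_ne_zero, hval]
    push_cast; ring

/-- **Valuations on `K(t)`.** For `y ∈ K(t)` there is an integer `n` (the `t`-adic order of `y`)
such that `w y = n * w t` for every `t`-valuation `w`. -/
theorem loc_exists_mult_of_mem_adjoin (t : F) {y : F} (hy : y ∈ K⟮t⟯) :
    ∃ n : ℤ, ∀ w : F → ℤ, IsTVal K t w → w y = n * w t := by
  obtain ⟨r, s, rfl⟩ := (mem_adjoin_simple_iff K y).mp hy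
  rcases eq_or_ne r 0 with rfl | hr
  · exact ⟨0, fun w hw => by simp [hw.map_zero]⟩
  rcases eq_or_ne s 0 with rfl | hs
  · exact ⟨0, fun w hw => by simp [hw.map_zero]⟩
  obtain ⟨kr, _, hkr⟩ := loc_exists_mult_aeval t r hr
  obtain ⟨ks, _, hks⟩ := loc_exists_mult_aeval t s hs
  refine ⟨(kr : ℤ) - ks, fun w hw => ?_⟩
  obtain ⟨hr0, hrv⟩ := hkr w hw
  obtain ⟨hs0, hsv⟩ := hks w hw
  rw [hw.map_div hr0 hs0, hrv, hsv]; ring

/-- Two `t`-valuations are proportional on `K(t)`. -/
theorem loc_tval_proportional (t : F) {y : F} (hy : y ∈ K⟮t⟯) {w₁ w₂ : F → ℤ}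
    (h₁ : IsTVal K t w₁) (h₂ : IsTVal K t w₂) : w₂ t * w₁ y = w₁ t * w₂ y := by
  obtain ⟨n, hn⟩ := loc_exists_mult_of_mem_adjoin (K := K) t hy
  rw [hn w₁ h₁, hn w₂ h₂]; ring

/-- Sign transfer on `K(t)`. -/
theorem loc_tval_nonneg (t : F) {y : F} (hy : y ∈ K⟮t⟯) {w₁ w₂ : F → ℤ}
    (h₁ : IsTVal K t w₁) (h₂ : IsTVal K t w₂) (h : 0 ≤ w₁ y) : 0 ≤ w₂ y := by
  have hprop := loc_tval_proportional t hy h₁ h₂
  have hp1 := h₁.pos
  have hp2 := h₂.pos
  by_contra hneg
  have hneg' : w₂ y < 0 := not_le.mp hneg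
  have h3 : w₁ t * w₂ y < 0 := mul_neg_of_pos_of_neg hp1 hneg'
  have h4 : 0 ≤ w₂ t * w₁ y := mul_nonneg hp2.le h
  omega

end Fermat.Agent.S24.H144

end
end
-- ===== PACK-END S24/Alg/LocRat.lean

-- ===== PACK-BEGIN S24/Alg/LocSurj.lean
section





/-!
# S24 / ALG-LOC, part 2 (LOC2): every place over `t = 0` is induced by an embedding

For local data `L : LocalData K F C X t` with `[F : F₀] = |X|` (`F₀ ⊆ K(t)`), every place `v` of
`F/K` with `ord_v t > 0` is the place cut out by one of the embeddings `L.σ x`.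
-/

set_option autoImplicit false

noncomputable section

open AlgebraicCurve Polynomial IntermediateField

namespace Fermat.Agent.S24.H144

variable {K F : Type*} [Field K] [Field F] [Algebra K F]
variable {C : Type*} [Field C] {X : Type*} {t : F}

theorem loc_order_const (L : LocalData K F C X t) (x : X) (c : K) :
    (L.σ x (algebraMap K F c)).order = 0 := by
  rw [L.σ_const]; exact HahnSeries.order_C

theorem loc_order_t_pos (L : LocalData K F C X t) (x : X) : 0 < (L.σ x t).order := by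
  rw [L.σ_t_order]; exact_mod_cast L.m_pos

theorem loc_isTVal (L : LocalData K F C X t) (x : X) :
    IsTVal K t (fun f => (L.σ x f).order) :=
  isTVal_order (L.σ x) (loc_order_const L x) (loc_order_t_pos L x)

/-- The place of `F` cut out by the embedding `L.σ x`. -/
def locPlace (L : LocalData K F C X t) (x : X) : Place K F :=
  placeOfEmb (L.σ x) (fun c => (loc_order_const L x c).ge)
    ⟨t⁻¹, by rw [loc_order_map_inv]; have := loc_order_t_pos L x; omega⟩

theorem loc_induces_locPlace (L : LocalData K F C X t) (x : X) :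
    Induces (L.σ x) (locPlace L x) :=
  induces_placeOfEmb _ _ _

theorem loc_mem_locPlace (L : LocalData K F C X t) (x : X) (f : F) :
    f ∈ (locPlace L x).toValuationSubring ↔ 0 ≤ (L.σ x f).order :=
  loc_induces_locPlace L x f

/-- All the embeddings `L.σ x` agree on `K(t)`. -/
theorem loc_agree (L : LocalData K F C X t) (x y : X) {c : F} (hc : c ∈ K⟮t⟯) :
    L.σ x c = L.σ y c := by
  induction hc using IntermediateField.adjoin_induction with
  | mem c hc =>
    rw [Set.mem_singleton_iff] at hc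
    rw [hc]; exact L.σ_t_eq x y
  | algebraMap c => rw [L.σ_const, L.σ_const]
  | add a b _ _ iha ihb => rw [map_add, map_add, iha, ihb]
  | inv a _ iha => rw [map_inv₀, map_inv₀, iha]
  | mul a b _ _ iha ihb => rw [map_mul, map_mul, iha, ihb]

/-- The subring of Laurent series of non-negative order. -/
def locPowerSubring (C : Type*) [Field C] : Subring (LaurentSeries C) :=
  (locValSubring (RingHom.id (LaurentSeries C))).toSubring

theorem mem_locPowerSubring {s : LaurentSeries C} : s ∈ locPowerSubring C ↔ 0 ≤ s.order :=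
  Iff.rfl

/-- **Integrality criterion.** If all conjugates `L.σ x u` have non-negative order, then `u` lies
in the valuation ring of every place `v` at which `t` vanishes. -/
theorem loc_mem_of_forall_order_nonneg [CharZero K] [Finite X] (L : LocalData K F C X t)
    (F₀ : IntermediateField K F) (hF₀ : F₀ ≤ K⟮t⟯) [FiniteDimensional F₀ F]
    (hrank : Module.finrank F₀ F = Nat.card X)
    (v : Place K F) (hv : 0 < v.ord t) (u : F) (hu : ∀ x, 0 ≤ (L.σ x u).order) :
    u ∈ v.toValuationSubring := by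
  classical
  -- `X` is nonempty
  have hX : Nonempty X := by
    have hpos : 0 < Module.finrank F₀ F := Module.finrank_pos
    rw [hrank] at hpos
    exact (Nat.card_pos_iff.mp hpos).1
  obtain ⟨x₀⟩ := hX
  have hagree : ∀ (x y : X) (c : F₀), L.σ x (algebraMap F₀ F c) = L.σ y (algebraMap F₀ F c) :=
    fun x y c => loc_agree L x y (hF₀ c.2)
  -- coefficients of the minimal polynomial have non-negative order
  have hcoeff : ∀ i, (algebraMap F₀ F ((minpoly F₀ u).coeff i)) ∈ v.toValuationSubring := by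
    intro i
    have h1 := loc_minpoly_coeff_mem (F₀ := F₀) L.σ L.σ_inj hagree hrank (locPowerSubring C) u
      (fun x => mem_locPowerSubring.mpr (hu x)) x₀ i
    rw [mem_locPowerSubring] at h1
    apply loc_mem_of_ord_nonneg
    exact loc_tval_nonneg (K := K) t (hF₀ ((minpoly F₀ u).coeff i).2) (loc_isTVal L x₀)
      (isTVal_ord v hv) h1
  -- hence `u` is integral over the valuation ring
  have hint : IsIntegral F₀ u := Algebra.IsIntegral.isIntegral u
  have hmonic : ((minpoly F₀ u).map (algebraMap F₀ F)).Monic := (minpoly.monic hint).map _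
  have hlift : (minpoly F₀ u).map (algebraMap F₀ F)
      ∈ Polynomial.lifts (algebraMap v.toValuationSubring F) := by
    rw [lifts_iff_coeff_lifts]
    intro i
    rw [coeff_map]
    exact ⟨⟨_, hcoeff i⟩, rfl⟩
  obtain ⟨q, hq, _, hqm⟩ := lifts_and_degree_eq_and_monic hlift hmonic
  have hroot : eval₂ (algebraMap v.toValuationSubring F) u q = 0 := by
    rw [← eval_map, hq, eval_map, ← aeval_def]
    exact minpoly.aeval F₀ u
  have hintv : IsIntegral v.toValuationSubring u := ⟨q, hqm, hroot⟩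
  obtain ⟨y, hy⟩ := IsIntegrallyClosed.isIntegral_iff.mp hintv
  rw [← hy]; exact y.2

/-- **LOC2.** Every place at which `t` vanishes is induced by one of the embeddings. -/
theorem loc_exists_emb [CharZero K] [Finite X] (L : LocalData K F C X t)
    (F₀ : IntermediateField K F) (hF₀ : F₀ ≤ K⟮t⟯) [FiniteDimensional F₀ F]
    (hrank : Module.finrank F₀ F = Nat.card X)
    (v : Place K F) (hv : 0 < v.ord t) : ∃ x, Induces (L.σ x) v := by
  classical
  by_contra hno
  have hne : ∀ x, v ≠ locPlace L x := by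
    intro x hx
    exact hno ⟨x, hx ▸ loc_induces_locPlace L x⟩
  have : Fintype X := Fintype.ofFinite X
  have hvS : v ∉ Finset.univ.image (locPlace L) := by
    intro h
    obtain ⟨x, _, hx⟩ := Finset.mem_image.mp h
    exact hne x hx.symm
  obtain ⟨u, huv, huS⟩ := loc_exists_pole_zeros v _ hvS
  have hu : ∀ x, 0 ≤ (L.σ x u).order := by
    intro x
    have h1 := huS (locPlace L x) (Finset.mem_image_of_mem _ (Finset.mem_univ x))
    exact (loc_mem_locPlace L x u).mp (loc_mem_of_ord_nonneg _ h1.le)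
  have := loc_ord_nonneg_of_mem v (loc_mem_of_forall_order_nonneg L F₀ hF₀ hrank v hv u hu)
  omega

end Fermat.Agent.S24.H144

end
end
-- ===== PACK-END S24/Alg/LocSurj.lean

-- ===== PACK-BEGIN S29/H152/DescMain.lean
section
/-
S29 / DESC (helper152) — DESCENT `Ω → K` of Kummer classes (piece K3 of the S29 row plan).

Main result `desc_main`: let `K ⊆ Ω` be algebraically closed fields of characteristic `0`,
`F₀ ⊆ ℚ((q))` a field containing a series `j₀` of order `-1` such that `Ω·F₀` has bounded degree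
over `Ω(j₀)`.  If `f ∈ Ω·F₀` has a `p`-th root in `Ω((q))` and the `Aut(Ω/K)`-orbit of the class of
`f` modulo `p`-th powers of `Ω·F₀` is finite, then `f · g ^ p` has coefficients in `K` and lies in
`K·F₀` for some nonzero `g ∈ Ω·F₀`.

No places, no Riemann–Roch, no analysis: the space `W = h·(Ω·F₀) ∩ {integral over Ω[j], pole order
≤ m at the cusps}` is nonzero, stable under the finite-index stabiliser `H` of the class, and the
orders of its nonzero elements are bounded (`descBound_order_le`); its element of maximal order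
with leading coefficient `1` is fixed by `H`, so its coefficients lie in `Ω^H = K`.
-/









set_option autoImplicit false

namespace Fermat.Agent.S29.H152

open ModularCurve Polynomial

variable {K Ω : Type*} [Field K] [Field Ω] [Algebra K Ω]

theorem descMain_smul_eq (c : Ω) (v : LaurentSeries Ω) :
    c • v = algebraMap Ω (LaurentSeries Ω) c * v := by
  rw [algebraMap_laurentSeries_eq_single, HahnSeries.single_zero_mul_eq_smul]

theorem descMain_order_coeffMap {R S : Type*} [CommRing R] [CommRing S] (φ : R →+* S)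
    (hφ : Function.Injective φ) (x : LaurentSeries R) : (coeffMap φ x).order = x.order := by
  by_cases hx : x = 0
  · rw [hx, map_zero, HahnSeries.order_zero, HahnSeries.order_zero]
  have hx' : coeffMap φ x ≠ 0 := by
    intro h
    apply hx
    ext k
    have := congrArg (fun y => HahnSeries.coeff y k) h
    simp only [coeffMap_coeff, HahnSeries.coeff_zero] at this
    rw [HahnSeries.coeff_zero]
    exact hφ (by rw [this, map_zero])
  apply le_antisymm
  · apply HahnSeries.order_le_of_coeff_ne_zero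
    rw [coeffMap_coeff]
    intro h
    exact hx (HahnSeries.coeff_order_eq_zero.mp (hφ (by rw [h, map_zero])))
  · apply HahnSeries.order_le_of_coeff_ne_zero
    intro h
    apply hx'
    apply HahnSeries.coeff_order_eq_zero.mp
    rw [coeffMap_coeff, h, map_zero]

/-! ### The space `W` -/

section W

variable (F : IntermediateField Ω (LaurentSeries Ω)) (j h : LaurentSeries Ω) (m : ℕ)

/-- `W = {v ∈ h·F : v integral over Ω[j], v·j⁻ᵐ integral over Ω[j⁻¹]}`. -/
def descW : Submodule Ω (LaurentSeries Ω) where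
  carrier := {v | (∃ g ∈ F, v = h * g) ∧ IsIntegral (Algebra.adjoin Ω {j}) v ∧
      IsIntegral (Algebra.adjoin Ω {j⁻¹}) (v * j⁻¹ ^ m)}
  zero_mem' := ⟨⟨0, zero_mem _, (mul_zero h).symm⟩, isIntegral_zero, by
    rw [zero_mul]; exact isIntegral_zero⟩
  add_mem' := by
    rintro v w ⟨⟨g, hg, rfl⟩, hv1, hv2⟩ ⟨⟨g', hg', rfl⟩, hw1, hw2⟩
    refine ⟨⟨g + g', add_mem hg hg', (mul_add _ _ _).symm⟩, hv1.add hw1, ?_⟩
    rw [add_mul]
    exact hv2.add hw2
  smul_mem' := by
    rintro c v ⟨⟨g, hg, rfl⟩, hv1, hv2⟩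
    show c • (h * g) ∈ _
    rw [descMain_smul_eq]
    refine ⟨⟨algebraMap Ω _ c * g, mul_mem (F.algebraMap_mem c) hg, by ring⟩, ?_, ?_⟩
    · exact (isIntegral_algebraMap
        (x := (⟨_, Subalgebra.algebraMap_mem _ c⟩ : Algebra.adjoin Ω {j}))).mul hv1
    · rw [mul_assoc]
      exact (isIntegral_algebraMap
        (x := (⟨_, Subalgebra.algebraMap_mem _ c⟩ : Algebra.adjoin Ω {j⁻¹}))).mul hv2

variable {F j h m}

theorem mem_descW {v : LaurentSeries Ω} :
    v ∈ descW F j h m ↔ (∃ g ∈ F, v = h * g) ∧ IsIntegral (Algebra.adjoin Ω {j}) v ∧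
      IsIntegral (Algebra.adjoin Ω {j⁻¹}) (v * j⁻¹ ^ m) := Iff.rfl

end W

/-! ### The main theorem -/

section Main

variable [IsAlgClosed K] [IsAlgClosed Ω] [CharZero Ω] [Algebra ℚ K] [Algebra ℚ Ω]

open scoped IntermediateField.algebraAdjoinAdjoin in
/-- **DESCENT of Kummer classes** from `Ω` to `K`. -/
theorem desc_main (F₀ : IntermediateField ℚ (LaurentSeries ℚ))
    (j₀ : LaurentSeries ℚ) (hj₀ : j₀ ∈ F₀) (hj₀ord : j₀.order = -1) (n : ℕ)
    (hdeg : ∀ u ∈ laurentBaseChange Ω F₀,
      IsIntegral (IntermediateField.adjoin Ω {coeffEmb Ω j₀}) u ∧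
        (minpoly (IntermediateField.adjoin Ω {coeffEmb Ω j₀}) u).natDegree ≤ n)
    (p : ℕ) (hp : 0 < p) (f h : LaurentSeries Ω) (hf : f ∈ laurentBaseChange Ω F₀)
    (hf0 : f ≠ 0) (hh : h ^ p = f) (T : Set (LaurentSeries Ω)) (hT : T.Finite)
    (horb : ∀ σ : Ω ≃ₐ[K] Ω, ∃ t ∈ T, ∃ u ∈ laurentBaseChange Ω F₀, u ≠ 0 ∧
      coeffMap (σ : Ω →+* Ω) f = t * u ^ p) :
    ∃ g ∈ laurentBaseChange Ω F₀, g ≠ 0 ∧
      IsIntegral (Algebra.adjoin Ω {coeffEmb Ω j₀}) (h * g) ∧
      (∃ m : ℕ, IsIntegral (Algebra.adjoin Ω {(coeffEmb Ω j₀)⁻¹}) (h * g * (coeffEmb Ω j₀)⁻¹ ^ m)) ∧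
      (∃ v' : LaurentSeries K, h * g = coeffMap (algebraMap K Ω) v') ∧
      ∃ f' ∈ laurentBaseChange K F₀, f * g ^ p = coeffMap (algebraMap K Ω) f' := by
  classical
  set F := laurentBaseChange Ω F₀ with hFdef
  set j := coeffEmb Ω j₀ with hjdef
  have hjF : j ∈ F := coeffEmb_mem_laurentBaseChange Ω hj₀
  have hj : j.order = -1 := by
    rw [hjdef, coeffEmb, descMain_order_coeffMap _ (algebraMap ℚ Ω).injective, hj₀ord]
  have hj0 : j ≠ 0 := descBound_j_ne_zero hj
  have hh0 : h ≠ 0 := by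
    rintro rfl
    rw [zero_pow hp.ne'] at hh
    exact hf0 hh.symm
  have hFstab : ∀ (σ : Ω ≃ₐ[K] Ω) (x : LaurentSeries Ω), x ∈ F → descSig σ x ∈ F :=
    fun σ x hx => descSig_mem_laurentBaseChange F₀ σ hx
  have hσj : ∀ σ : Ω ≃ₐ[K] Ω, descSig σ j = j := fun σ => descSig_coeffEmb σ j₀
  have hσjinv : ∀ σ : Ω ≃ₐ[K] Ω, descSig σ j⁻¹ = j⁻¹ := fun σ => by
    rw [map_inv₀, hσj]
  have hadjF : ∀ x ∈ Algebra.adjoin Ω {j}, x ∈ F := by
    intro x hx
    have hle : Algebra.adjoin Ω {j} ≤ F.toSubalgebra :=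
      Algebra.adjoin_le (Set.singleton_subset_iff.mpr hjF)
    exact hle hx
  -- the stabiliser
  set H := descStab F hFstab f p with hH
  have hidx : H.index ≠ 0 := descStab_index_ne_zero F hFstab f p T hT horb
  -- a nonzero element of `W`
  obtain ⟨b, hbR, hb0, hbf⟩ : ∃ b ∈ Algebra.adjoin Ω {j}, b ≠ 0 ∧
      IsIntegral (Algebra.adjoin Ω {j}) (b * f) := by
    have halg : IsAlgebraic (Algebra.adjoin Ω {j}) f :=
      (IsFractionRing.isAlgebraic_iff (Algebra.adjoin Ω {j})
        (IntermediateField.adjoin Ω {j}) (LaurentSeries Ω)).mpr (hdeg f hf).1.isAlgebraic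
    obtain ⟨y, hy0, hy⟩ := halg.exists_integral_multiple
    refine ⟨y, y.2, fun h0 => hy0 (Subtype.ext h0), ?_⟩
    rwa [Algebra.smul_def] at hy
  have hbint : IsIntegral (Algebra.adjoin Ω {j}) b :=
    isIntegral_algebraMap (x := (⟨b, hbR⟩ : Algebra.adjoin Ω {j}))
  have hv₀int : IsIntegral (Algebra.adjoin Ω {j}) (h * b) := by
    refine IsIntegral.of_pow hp ?_
    have : (h * b) ^ p = (b * f) * b ^ (p - 1) := by
      rw [mul_pow, hh, mul_comm f, mul_assoc, mul_comm f, ← mul_assoc, ← pow_succ',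
        Nat.sub_add_cancel hp, mul_comm]
    rw [this]
    exact hbf.mul (hbint.pow _)
  obtain ⟨m, hm⟩ := descInt_exists_pow hj hv₀int
  have hv₀W : h * b ∈ descW F j h m := ⟨⟨b, hadjF b hbR, rfl⟩, hv₀int, hm⟩
  have hv₀0 : h * b ≠ 0 := mul_ne_zero hh0 hb0
  -- bounded orders
  have hbound : ∀ v ∈ descW F j h m, v ≠ 0 → v.order ≤ (m : ℤ) * ((n * p : ℕ) : ℤ) := by
    rintro v ⟨⟨g, hg, rfl⟩, hv1, hv2⟩ hv0
    refine descBound_order_le hj m (n * p) hv0 hv1 hv2 ?_
    have hvp : (h * g) ^ p ∈ F := by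
      rw [mul_pow, hh]
      exact mul_mem hf (pow_mem hg p)
    obtain ⟨hint, hdegp⟩ := hdeg _ hvp
    set E := IntermediateField.adjoin Ω {j} with hE
    have hQ0 : minpoly E ((h * g) ^ p) ≠ 0 := minpoly.ne_zero hint
    have hexp0 : Polynomial.expand E p (minpoly E ((h * g) ^ p)) ≠ 0 := by
      rwa [Ne, Polynomial.expand_eq_zero hp]
    have hroot : aeval (h * g) (Polynomial.expand E p (minpoly E ((h * g) ^ p))) = 0 := by
      rw [Polynomial.expand_aeval, minpoly.aeval]
    have h1 := minpoly.degree_le_of_ne_zero E (h * g) hexp0 hroot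
    have h2 := Polynomial.natDegree_le_natDegree h1
    rw [Polynomial.natDegree_expand] at h2
    exact h2.trans (Nat.mul_le_mul_right p hdegp)
  -- stability under `H`
  have hstab : ∀ φ ∈ {φ : Ω →+* Ω | ∃ σ ∈ H, φ = (σ : Ω →+* Ω)}, ∀ v ∈ descW F j h m,
      coeffMap φ v ∈ descW F j h m := by
    rintro φ ⟨σ, ⟨u, hu, hu0, hσ⟩, rfl⟩ v ⟨⟨g, hg, rfl⟩, hv1, hv2⟩
    show descSig σ (h * g) ∈ _
    -- `σ h = h * (ζ u)` with `ζ` a constant
    have hhu0 : h * u ≠ 0 := mul_ne_zero hh0 hu0
    have hζ : (descSig σ h / (h * u)) ^ p = 1 := by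
      rw [div_pow, ← map_pow, hh, hσ, mul_pow, hh]
      exact div_self (mul_ne_zero hf0 (pow_ne_zero _ hu0))
    obtain ⟨c, hc⟩ := descInt_mem_range_of_pow_eq_one (Ω := Ω) hp hζ
    have hσh : descSig σ h = h * (algebraMap Ω _ c * u) := by
      rw [hc, mul_comm (descSig σ h / (h * u)), ← mul_assoc, mul_div_assoc', mul_comm (h * u),
        mul_div_assoc, div_self hhu0, mul_one]
    refine ⟨⟨algebraMap Ω _ c * u * descSig σ g,
      mul_mem (mul_mem (F.algebraMap_mem c) hu) (hFstab σ g hg), ?_⟩, ?_, ?_⟩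
    · rw [map_mul, hσh]
      ring
    · exact descInt_isIntegral_map _ (descSig σ)
        (fun x hx => descInt_map_mem_adjoin (descSig σ) j (hσj σ)
          (fun c => ⟨σ c, descSig_algebraMap σ c⟩) hx) hv1
    · have h3 : descSig σ (h * g) * j⁻¹ ^ m = descSig σ (h * g * j⁻¹ ^ m) := by
        rw [map_mul (descSig σ) (h * g), map_pow, hσjinv]
      rw [h3]
      exact descInt_isIntegral_map _ (descSig σ)
        (fun x hx => descInt_map_mem_adjoin (descSig σ) j⁻¹ (hσjinv σ)
          (fun c => ⟨σ c, descSig_algebraMap σ c⟩) hx) hv2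
  -- the fixed vector
  obtain ⟨v, hvW, hv0, hvfix⟩ :=
    descEchelon_exists_fixed (descW F j h m) ⟨h * b, hv₀W, hv₀0⟩ _ hbound _ hstab
  have hcoeff : ∀ k, v.coeff k ∈ Set.range (algebraMap K Ω) := by
    intro k
    refine descAut_mem_range_of_fixed H hidx (v.coeff k) fun σ hσ => ?_
    have := congrArg (fun y => HahnSeries.coeff y k) (hvfix _ ⟨σ, hσ, rfl⟩)
    simpa using this
  obtain ⟨v', hv'⟩ := descLin_exists_preimage v hcoeff
  obtain ⟨⟨g, hg, hvg⟩, hv1, hv2⟩ := hvW
  have hg0 : g ≠ 0 := by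
    rintro rfl
    rw [mul_zero] at hvg
    exact hv0 hvg
  have hfg : f * g ^ p = coeffMap (algebraMap K Ω) (v' ^ p) := by
    rw [map_pow, hv', hvg, mul_pow, hh]
  refine ⟨g, hg, hg0, hvg ▸ hv1, ⟨m, hvg ▸ hv2⟩, ⟨v', by rw [hv', hvg]⟩, v' ^ p, ?_, hfg⟩
  apply descLin_mem_of_coeffMap_mem (Ω := Ω) F₀
  rw [← hfg]
  exact mul_mem hf (pow_mem hg p)

end Main

end Fermat.Agent.S29.H152

end
-- ===== PACK-END S29/H152/DescMain.lean

-- ===== PACK-BEGIN S24/H504/Fibre.lean
section




/-!
# Embeddings inducing the same place: rigidity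

Two embeddings `σ, τ : F → C((z))` over `K(t)` inducing the same place `v` over `t = 0` and
having the same leading coefficient on a uniformizer are equal.  Hence at most `e = v(t)`
embeddings induce `v`.
-/

set_option autoImplicit false

namespace Fermat.Agent.S24.H504

open AlgebraicCurve

variable {K F : Type*} [Field K] [Field F] [Algebra K F]
variable {C : Type*} [Field C]

theorem le_ot_add {A B : LaurentSeries C} {k : ℤ} (hA : (k : WithTop ℤ) ≤ A.orderTop)
    (hB : (k : WithTop ℤ) ≤ B.orderTop) : (k : WithTop ℤ) ≤ (A + B).orderTop :=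
  le_trans (le_min hA hB) HahnSeries.min_orderTop_le_orderTop_add

theorem le_ot_mul {A B : LaurentSeries C} {k l : ℤ} (hA : (k : WithTop ℤ) ≤ A.orderTop)
    (hB : (l : WithTop ℤ) ≤ B.orderTop) : ((k + l : ℤ) : WithTop ℤ) ≤ (A * B).orderTop := by
  rw [HahnSeries.orderTop_mul]
  push_cast
  exact add_le_add hA hB

theorem le_ot_of_order {A : LaurentSeries C} {k : ℤ} (h : k ≤ A.order) :
    (k : WithTop ℤ) ≤ A.orderTop := by
  rcases eq_or_ne A 0 with rfl | hA
  · simp
  · rw [ls_orderTop_eq_order hA]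
    exact_mod_cast h

theorem ot_le_of_forall {d e : WithTop ℤ} (h : ∀ k : ℤ, (k : WithTop ℤ) ≤ d → (k : WithTop ℤ) ≤ e) :
    d ≤ e := by
  induction d using WithTop.recTopCoe with
  | top =>
    induction e using WithTop.recTopCoe with
    | top => exact le_rfl
    | coe e =>
      have := h (e + 1) le_top
      have h2 : e + 1 ≤ e := by exact_mod_cast this
      omega
  | coe d => exact h d le_rfl

section delta

variable {v : Place K F} {ι : K →+* C} {σ τ : F →+* LaurentSeries C}

/-- Key estimate: the difference `σ - τ` is as small on the whole valuation ring as on a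
uniformizer. -/
theorem orderTop_sub_uniformizer_le [IsAlgClosed K] {t : F} (ht : 0 < v.ord t)
    [Algebra.IsAlgebraic (IntermediateField.adjoin K {t}) F]
    (hσK : ∀ c, σ (algebraMap K F c) = HahnSeries.C (ι c))
    (hτK : ∀ c, τ (algebraMap K F c) = HahnSeries.C (ι c))
    (hσ : Induces σ v) (hτ : Induces τ v)
    {ϖ : F} (hϖ : v.ord ϖ = 1) {f : F} (hf : 0 ≤ v.ord f) :
    (σ ϖ - τ ϖ).orderTop ≤ (σ f - τ f).orderTop := by
  have hσϖ : 0 < (σ ϖ).order := by
    have h1 := (hσ.order_nonneg_iff ϖ).mpr (by omega)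
    have h2 := (hσ.order_eq_zero_iff ϖ).not.mpr (by omega)
    omega
  set μ := (σ ϖ).order with hμ
  -- the inductive statement
  have key : ∀ (N : ℕ) (f : F), 0 ≤ v.ord f → ∀ k : ℤ, k ≤ N * μ →
      (k : WithTop ℤ) ≤ (σ ϖ - τ ϖ).orderTop → (k : WithTop ℤ) ≤ (σ f - τ f).orderTop := by
    intro N
    induction N with
    | zero =>
      intro f hf k hk _
      have h1 : (0 : WithTop ℤ) ≤ (σ f).orderTop :=
        (ls_orderTop_nonneg_iff _).mpr ((hσ.order_nonneg_iff f).mpr hf)
      have h2 : (0 : WithTop ℤ) ≤ (τ f).orderTop :=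
        (ls_orderTop_nonneg_iff _).mpr ((hτ.order_nonneg_iff f).mpr hf)
      have h3 : (0 : WithTop ℤ) ≤ (σ f - τ f).orderTop :=
        le_trans (le_min h1 h2) HahnSeries.min_orderTop_le_orderTop_sub
      have hk0 : k ≤ 0 := by simpa using hk
      exact le_trans (by exact_mod_cast hk0) h3
    | succ N ih =>
      intro f hf k hk hkd
      obtain ⟨c, f₁, hf₁, rfl⟩ := exists_eq_const_add_mul ht hϖ hf
      have hdecomp : σ (algebraMap K F c + ϖ * f₁) - τ (algebraMap K F c + ϖ * f₁)
          = σ ϖ * (σ f₁ - τ f₁) + (σ ϖ - τ ϖ) * τ f₁ := by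
        simp only [map_add, map_mul, hσK, hτK]
        ring
      rw [hdecomp]
      have hτf₁ : ((0 : ℤ) : WithTop ℤ) ≤ (τ f₁).orderTop := by
        have := (ls_orderTop_nonneg_iff _).mpr ((hτ.order_nonneg_iff f₁).mpr hf₁)
        exact_mod_cast this
      have hk1 : ((k - μ : ℤ) : WithTop ℤ) ≤ (σ f₁ - τ f₁).orderTop := by
        apply ih f₁ hf₁ (k - μ)
        · push_cast at hk
          linarith
        · refine le_trans ?_ hkd
          exact_mod_cast (by omega : k - μ ≤ k)
      have hμ' : ((μ : ℤ) : WithTop ℤ) ≤ (σ ϖ).orderTop := le_ot_of_order le_rfl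
      have h1 := le_ot_mul hμ' hk1
      have h2 := le_ot_mul hkd hτf₁
      rw [show μ + (k - μ) = k by ring] at h1
      rw [add_zero] at h2
      exact le_ot_add h1 h2
  apply ot_le_of_forall
  intro k hk
  refine key k.toNat f hf k ?_ hk
  have : k ≤ (k.toNat : ℤ) := Int.self_le_toNat k
  have h0 : (0 : ℤ) ≤ (k.toNat : ℤ) := Nat.cast_nonneg _
  nlinarith [hσϖ]

end delta

/-! ### The geometric-sum factor -/

theorem ls_leadingCoeff_pow (A : LaurentSeries C) (n : ℕ) :
    (A ^ n).leadingCoeff = A.leadingCoeff ^ n := by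
  induction n with
  | zero => simp
  | succ n ih => rw [pow_succ, HahnSeries.leadingCoeff_mul, ih, pow_succ]

theorem ls_ne_zero_of_order_ne_zero {A : LaurentSeries C} (h : A.order ≠ 0) : A ≠ 0 := by
  rintro rfl
  simp at h

theorem ls_coeff_eq_zero_of_lt {A : LaurentSeries C} {k g : ℤ} (hg : g ≤ A.order) (hk : k < g) :
    A.coeff k = 0 :=
  HahnSeries.coeff_eq_zero_of_lt_order (lt_of_lt_of_le hk hg)

/-- A series whose coefficients vanish below `g` and whose `g`-th coefficient is nonzero has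
order `g`. -/
theorem ls_order_eq_of_coeff {A : LaurentSeries C} {g : ℤ} (h0 : ∀ k < g, A.coeff k = 0)
    (hg : A.coeff g ≠ 0) : A ≠ 0 ∧ A.order = g := by
  have hA : A ≠ 0 := by
    rintro rfl
    simp at hg
  refine ⟨hA, le_antisymm (HahnSeries.order_le_of_coeff_ne_zero hg) ?_⟩
  by_contra hlt
  push Not at hlt
  exact (HahnSeries.coeff_order_eq_zero.not.mpr hA) (h0 _ hlt)

theorem order_geom_sum₂ [CharZero C] {A B : LaurentSeries C} (hA : A ≠ 0) (hB : B ≠ 0)
    (hord : A.order = B.order) (hlc : A.leadingCoeff = B.leadingCoeff) {e : ℕ} (he : 0 < e) :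
    (∑ i ∈ Finset.range e, A ^ i * B ^ (e - 1 - i)) ≠ 0 ∧
      (∑ i ∈ Finset.range e, A ^ i * B ^ (e - 1 - i)).order = ((e : ℤ) - 1) * A.order := by
  have hterm : ∀ i ∈ Finset.range e, (A ^ i * B ^ (e - 1 - i)) ≠ 0 ∧
      (A ^ i * B ^ (e - 1 - i)).order = ((e : ℤ) - 1) * A.order ∧
      (A ^ i * B ^ (e - 1 - i)).leadingCoeff = A.leadingCoeff ^ (e - 1) := by
    intro i hi
    have hi' : i < e := Finset.mem_range.mp hi
    refine ⟨mul_ne_zero (pow_ne_zero _ hA) (pow_ne_zero _ hB), ?_, ?_⟩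
    · rw [HahnSeries.order_mul (pow_ne_zero _ hA) (pow_ne_zero _ hB), HahnSeries.order_pow,
        HahnSeries.order_pow, ← hord]
      simp only [nsmul_eq_mul]
      have : ((e - 1 - i : ℕ) : ℤ) = (e : ℤ) - 1 - i := by omega
      rw [this]
      ring
    · rw [HahnSeries.leadingCoeff_mul, ls_leadingCoeff_pow, ls_leadingCoeff_pow, ← hlc,
        ← pow_add]
      congr 1
      omega
  apply ls_order_eq_of_coeff
  · intro k hk
    rw [HahnSeries.coeff_sum]
    apply Finset.sum_eq_zero
    intro i hi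
    exact ls_coeff_eq_zero_of_lt (hterm i hi).2.1.ge hk
  · rw [HahnSeries.coeff_sum]
    have : ∀ i ∈ Finset.range e, (A ^ i * B ^ (e - 1 - i)).coeff (((e : ℤ) - 1) * A.order)
        = A.leadingCoeff ^ (e - 1) := by
      intro i hi
      rw [← (hterm i hi).2.1, ← HahnSeries.leadingCoeff_eq, (hterm i hi).2.2]
    rw [Finset.sum_congr rfl this, Finset.sum_const, Finset.card_range, nsmul_eq_mul]
    refine mul_ne_zero ?_ (pow_ne_zero _ (HahnSeries.leadingCoeff_ne_zero.mpr hA))
    exact_mod_cast he.ne'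

section rigidity

variable {v : Place K F} {ι : K →+* C} {σ τ : F →+* LaurentSeries C}

theorem Induces.order_pos_of_ord_pos (hσ : Induces σ v) {f : F} (hf : 0 < v.ord f) :
    0 < (σ f).order := by
  have h1 := (hσ.order_nonneg_iff f).mpr hf.le
  have h2 := (hσ.order_eq_zero_iff f).not.mpr hf.ne'
  omega

/-- Two embeddings inducing the same place and agreeing at `t` have the same multiplicity. -/
theorem Induces.order_eq_of_eq_at {t : F} (ht : 0 < v.ord t) (hσ : Induces σ v)
    (hτ : Induces τ v) (hst : σ t = τ t) (f : F) : (σ f).order = (τ f).order := by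
  obtain ⟨μσ, _, hμσ⟩ := hσ.exists_mult
  obtain ⟨μτ, _, hμτ⟩ := hτ.exists_mult
  have h1 := hμσ t
  have h2 := hμτ t
  rw [hst, h2] at h1
  have h3 : (μσ : ℤ) = μτ := by
    have := mul_right_cancel₀ ht.ne' h1
    exact this.symm
  rw [hμσ f, hμτ f, h3]

/-- **Rigidity.** Two embeddings over `K(t)` inducing the same place over `t = 0`, with the same
leading coefficient on a uniformizer, are equal. -/
theorem emb_eq_of_leadingCoeff_eq [IsAlgClosed K] [CharZero C] {t : F} (ht : 0 < v.ord t)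
    [Algebra.IsAlgebraic (IntermediateField.adjoin K {t}) F]
    (hσK : ∀ c, σ (algebraMap K F c) = HahnSeries.C (ι c))
    (hτK : ∀ c, τ (algebraMap K F c) = HahnSeries.C (ι c))
    (hσ : Induces σ v) (hτ : Induces τ v) (hst : σ t = τ t)
    {ϖ : F} (hϖ : v.ord ϖ = 1)
    (hlc : (σ ϖ).leadingCoeff = (τ ϖ).leadingCoeff) : σ = τ := by
  have hϖ0 : ϖ ≠ 0 := ne_zero_of_ord_ne_zero v (by omega)
  have ht0 : t ≠ 0 := ne_zero_of_ord_ne_zero v ht.ne'
  have hσϖ0 : σ ϖ ≠ 0 := (map_ne_zero σ).mpr hϖ0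
  have hτϖ0 : τ ϖ ≠ 0 := (map_ne_zero τ).mpr hϖ0
  have hμ : 0 < (σ ϖ).order := hσ.order_pos_of_ord_pos (by omega)
  have hord : (σ ϖ).order = (τ ϖ).order := Induces.order_eq_of_eq_at ht hσ hτ hst ϖ
  -- first show σ ϖ = τ ϖ
  have hD : σ ϖ - τ ϖ = 0 := by
    by_contra hD
    obtain ⟨e, he⟩ : ∃ e : ℕ, v.ord t = e := ⟨(v.ord t).toNat, (Int.toNat_of_nonneg ht.le).symm⟩
    have he0 : 0 < e := by omega
    set u := t / ϖ ^ e with hu
    have hu_ord : v.ord u = 0 := by
      rw [hu, ord_div v ht0 (pow_ne_zero _ hϖ0), ord_pow, hϖ, he]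
      ring
    have hu0 : u ≠ 0 := div_ne_zero ht0 (pow_ne_zero _ hϖ0)
    have htu : t = u * ϖ ^ e := by
      rw [hu]; field_simp
    have hσu : (σ u).order = 0 := (hσ.order_eq_zero_iff u).mpr hu_ord
    obtain ⟨hS0, hSord⟩ := order_geom_sum₂ hσϖ0 hτϖ0 hord hlc he0
    set S := ∑ i ∈ Finset.range e, σ ϖ ^ i * τ ϖ ^ (e - 1 - i) with hS
    have hgeom : S * (σ ϖ - τ ϖ) = σ ϖ ^ e - τ ϖ ^ e := geom_sum₂_mul _ _ _
    have hzero : σ u * S * (σ ϖ - τ ϖ) + (σ u - τ u) * τ ϖ ^ e = 0 := by
      have h1 : σ t - τ t = 0 := by rw [hst, sub_self]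
      rw [htu, map_mul, map_mul, map_pow, map_pow] at h1
      rw [mul_assoc, hgeom]
      linear_combination h1
    have hσu0 : σ u ≠ 0 := (map_ne_zero σ).mpr hu0
    have hX1 : σ u * S * (σ ϖ - τ ϖ) ≠ 0 := mul_ne_zero (mul_ne_zero hσu0 hS0) hD
    have hX1ord : (σ u * S * (σ ϖ - τ ϖ)).orderTop
        = (((e : ℤ) - 1) * (σ ϖ).order + (σ ϖ - τ ϖ).order : ℤ) := by
      rw [ls_orderTop_eq_order hX1, HahnSeries.order_mul (mul_ne_zero hσu0 hS0) hD,
        HahnSeries.order_mul hσu0 hS0, hσu, hSord, zero_add]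
    have hX2 : (((σ ϖ - τ ϖ).order + e * (σ ϖ).order : ℤ) : WithTop ℤ)
        ≤ ((σ u - τ u) * τ ϖ ^ e).orderTop := by
      apply le_ot_mul
      · rw [← ls_orderTop_eq_order hD]
        exact orderTop_sub_uniformizer_le ht hσK hτK hσ hτ hϖ hu_ord.ge
      · apply le_ot_of_order
        rw [HahnSeries.order_pow, ← hord]
        simp
    have hlt : (σ u * S * (σ ϖ - τ ϖ)).orderTop < ((σ u - τ u) * τ ϖ ^ e).orderTop := by
      refine lt_of_lt_of_le ?_ hX2
      rw [hX1ord]
      have : ((e : ℤ) - 1) * (σ ϖ).order + (σ ϖ - τ ϖ).order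
          < (σ ϖ - τ ϖ).order + e * (σ ϖ).order := by linarith
      exact_mod_cast this
    have h3 := HahnSeries.orderTop_add_eq_left hlt
    rw [hzero, HahnSeries.orderTop_zero] at h3
    exact hX1 (HahnSeries.orderTop_eq_top.mp h3.symm)
  -- now σ = τ on the valuation ring, hence everywhere
  have hint : ∀ f : F, 0 ≤ v.ord f → σ f = τ f := by
    intro f hf
    have := orderTop_sub_uniformizer_le ht hσK hτK hσ hτ hϖ hf
    rw [hD, HahnSeries.orderTop_zero, top_le_iff, HahnSeries.orderTop_eq_top, sub_eq_zero] at this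
    exact this
  ext1 f
  rcases le_total 0 (v.ord f) with h | h
  · exact hint f h
  · have h' : 0 ≤ v.ord f⁻¹ := by rw [Place.ord_inv]; omega
    have := hint f⁻¹ h'
    rw [map_inv₀, map_inv₀] at this
    exact inv_injective this

theorem ls_leadingCoeff_C (r : C) : (HahnSeries.C r : LaurentSeries C).leadingCoeff = r := by
  rw [HahnSeries.C_apply, HahnSeries.leadingCoeff_of_single]

theorem ls_orderTop_C {r : C} (hr : r ≠ 0) : (HahnSeries.C r : LaurentSeries C).orderTop = 0 := by
  rw [HahnSeries.C_apply, HahnSeries.orderTop_single hr]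
  rfl

/-- The leading coefficient of `σ t` is a fixed constant times the `e`-th power of the leading
coefficient of `σ ϖ`. -/
theorem exists_const_leadingCoeff [IsAlgClosed K] {t : F} (ht : 0 < v.ord t)
    [Algebra.IsAlgebraic (IntermediateField.adjoin K {t}) F] {ϖ : F} (hϖ : v.ord ϖ = 1)
    (ι : K →+* C) :
    ∃ c : K, c ≠ 0 ∧ ∀ σ : F →+* LaurentSeries C,
      (∀ c, σ (algebraMap K F c) = HahnSeries.C (ι c)) → Induces σ v →
      (σ t).leadingCoeff = ι c * (σ ϖ).leadingCoeff ^ (v.ord t).toNat := by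
  have hϖ0 : ϖ ≠ 0 := ne_zero_of_ord_ne_zero v (by omega)
  have ht0 : t ≠ 0 := ne_zero_of_ord_ne_zero v ht.ne'
  set e := (v.ord t).toNat with he
  have he' : v.ord t = e := (Int.toNat_of_nonneg ht.le).symm
  set u := t / ϖ ^ e with hu
  have hu_ord : v.ord u = 0 := by
    rw [hu, ord_div v ht0 (pow_ne_zero _ hϖ0), ord_pow, hϖ, he']
    ring
  have hu0 : u ≠ 0 := div_ne_zero ht0 (pow_ne_zero _ hϖ0)
  have htu : t = u * ϖ ^ e := by
    rw [hu]; field_simp
  obtain ⟨c, g, hg, hcg⟩ := exists_eq_const_add ht hu_ord.ge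
  have hc : c ≠ 0 := by
    rintro rfl
    rw [map_zero, zero_add] at hcg
    rw [← hcg] at hg
    rcases hg with h | h
    · exact hu0 h
    · omega
  refine ⟨c, hc, fun σ hσK hσ => ?_⟩
  have hιc : ι c ≠ 0 := (map_ne_zero ι).mpr hc
  have hlcu : (σ u).leadingCoeff = ι c := by
    rw [hcg, map_add, hσK]
    rcases hg with rfl | hg
    · rw [map_zero, add_zero, ls_leadingCoeff_C]
    · have hgo : 0 < (σ g).order := hσ.order_pos_of_ord_pos hg
      have hσg0 : σ g ≠ 0 := ls_ne_zero_of_order_ne_zero hgo.ne'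
      have hlt : (HahnSeries.C (ι c) : LaurentSeries C).orderTop < (σ g).orderTop := by
        rw [ls_orderTop_C hιc, ls_orderTop_eq_order hσg0]
        exact_mod_cast hgo
      rw [HahnSeries.leadingCoeff_add_eq_left hlt, ls_leadingCoeff_C]
  conv_lhs => rw [htu]
  rw [map_mul, map_pow, HahnSeries.leadingCoeff_mul, ls_leadingCoeff_pow, hlcu]

/-- **Fibre bound.** At most `e = v(t)` embeddings (over `K(t)`) induce the place `v`. -/
theorem card_induces_le [IsAlgClosed K] [CharZero C] {X : Type*} [Finite X] {t : F}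
    (ht : 0 < v.ord t) [Algebra.IsAlgebraic (IntermediateField.adjoin K {t}) F]
    (ι : K →+* C) (σ : X → (F →+* LaurentSeries C)) (hinj : Function.Injective σ)
    (hK : ∀ x c, σ x (algebraMap K F c) = HahnSeries.C (ι c))
    (hteq : ∀ x y, σ x t = σ y t) :
    Nat.card {x : X // Induces (σ x) v} ≤ (v.ord t).toNat := by
  classical
  obtain ⟨ϖ, hϖ⟩ := exists_ord_eq_one v
  obtain ⟨c, hc, hcσ⟩ := exists_const_leadingCoeff ht hϖ ι
  have hιc : ι c ≠ 0 := (map_ne_zero ι).mpr hc
  have he0 : 0 < (v.ord t).toNat := by omega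
  rcases isEmpty_or_nonempty {x : X // Induces (σ x) v} with hemp | ⟨⟨x₀, hx₀⟩⟩
  · simp
  set a : C := (σ x₀ t).leadingCoeff / ι c with ha
  have hmem : ∀ x : {x : X // Induces (σ x) v},
      (σ x.1 ϖ).leadingCoeff ∈ Polynomial.nthRootsFinset (v.ord t).toNat a := by
    intro x
    rw [Polynomial.mem_nthRootsFinset he0, ha, hteq x₀ x.1, hcσ (σ x.1) (hK x.1) x.2]
    field_simp
  let φ : {x : X // Induces (σ x) v} → Polynomial.nthRootsFinset (v.ord t).toNat a :=
    fun x => ⟨_, hmem x⟩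
  have hφ : Function.Injective φ := by
    intro x y hxy
    have hlc : (σ x.1 ϖ).leadingCoeff = (σ y.1 ϖ).leadingCoeff := congrArg Subtype.val hxy
    have := emb_eq_of_leadingCoeff_eq ht (hK x.1) (hK y.1) x.2 y.2 (hteq x.1 y.1) hϖ hlc
    exact Subtype.ext (hinj this)
  calc Nat.card {x : X // Induces (σ x) v}
      ≤ Nat.card (Polynomial.nthRootsFinset (v.ord t).toNat a) :=
        Nat.card_le_card_of_injective φ hφ
    _ = (Polynomial.nthRootsFinset (v.ord t).toNat a).card := Nat.card_eq_finsetCard _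
    _ ≤ Multiset.card (Polynomial.nthRoots (v.ord t).toNat a) := by
        rw [Polynomial.nthRootsFinset_def]
        exact Multiset.toFinset_card_le _
    _ ≤ (v.ord t).toNat := Polynomial.card_nthRoots _ _

end rigidity

end Fermat.Agent.S24.H504

end
-- ===== PACK-END S24/H504/Fibre.lean

-- ===== PACK-BEGIN S24/H504/FF1.lean
section



/-!
# The fundamental inequality `n ≤ ∑_{v | t} e_v` from local embedding data

Dedekind-free: every embedding `σ x` induces a place over `t = 0`, and at most `e_v = v(t)`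
embeddings induce a given place `v` (rigidity, `card_induces_le`).
-/

set_option autoImplicit false

namespace Fermat.Agent.S24.H504

open AlgebraicCurve

variable {K F : Type*} [Field K] [Field F] [Algebra K F]
variable {C : Type*} [Field C] {X : Type*} {t : F}

theorem LocalData.order_const_nonneg (L : LocalData K F C X t) (x : X) (c : K) :
    0 ≤ (L.σ x (algebraMap K F c)).order := by
  rw [L.σ_const, HahnSeries.order_C]

theorem LocalData.exists_order_ne_zero (L : LocalData K F C X t) (x : X) :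
    ∃ f : F, (L.σ x f).order ≠ 0 :=
  ⟨t, by rw [L.σ_t_order]; exact_mod_cast L.m_pos.ne'⟩

/-- The place of `F/K` induced by the embedding `σ x`. -/
noncomputable def LocalData.placeAt (L : LocalData K F C X t) (x : X) : Place K F :=
  placeOfEmb (L.σ x) (LocalData.order_const_nonneg L x) (LocalData.exists_order_ne_zero L x)

theorem LocalData.induces_placeAt (L : LocalData K F C X t) (x : X) :
    Induces (L.σ x) (LocalData.placeAt L x) :=
  induces_placeOfEmb _ _ _

theorem LocalData.ord_t_pos_of_induces (L : LocalData K F C X t) {x : X} {v : Place K F}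
    (h : Induces (L.σ x) v) : 0 < v.ord t := by
  have hm : 0 < (L.σ x t).order := by rw [L.σ_t_order]; exact_mod_cast L.m_pos
  have h1 := (h.order_nonneg_iff t).mp hm.le
  have h2 := (h.order_eq_zero_iff t).not.mp hm.ne'
  omega

theorem LocalData.placeAt_ord_t_pos (L : LocalData K F C X t) (x : X) :
    0 < (LocalData.placeAt L x).ord t :=
  LocalData.ord_t_pos_of_induces L (LocalData.induces_placeAt L x)

theorem LocalData.placeAt_eq_iff (L : LocalData K F C X t) (x : X) (v : Place K F) :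
    LocalData.placeAt L x = v ↔ Induces (L.σ x) v :=
  ⟨fun h => h ▸ LocalData.induces_placeAt L x,
    fun h => (LocalData.induces_placeAt L x).unique h⟩

/-- **Fibre bound** in `LocalData` language: at most `v(t)` of the embeddings induce `v`. -/
theorem LocalData.card_fibre_le [IsAlgClosed K] [CharZero C] [Finite X]
    [Algebra.IsAlgebraic (IntermediateField.adjoin K {t}) F]
    (L : LocalData K F C X t) (v : Place K F) (hv : 0 < v.ord t) :
    (Nat.card {x : X // Induces (L.σ x) v} : ℤ) ≤ v.ord t := by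
  have := card_induces_le hv L.ι L.σ L.σ_inj L.σ_const L.σ_t_eq
  have h2 : ((v.ord t).toNat : ℤ) = v.ord t := Int.toNat_of_nonneg hv.le
  rw [← h2]
  exact_mod_cast this

/-- **Fundamental inequality (FF1).** `n = #X ≤ ∑_{v over t = 0} v(t)`. -/
theorem LocalData.card_le_sum_ord [IsAlgClosed K] [CharZero C] [Finite X]
    [Algebra.IsAlgebraic (IntermediateField.adjoin K {t}) F]
    (L : LocalData K F C X t) (s : Finset (Place K F)) (hs : ∀ v, v ∈ s ↔ 0 < v.ord t) :
    (Nat.card X : ℤ) ≤ ∑ v ∈ s, v.ord t := by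
  classical
  have := Fintype.ofFinite X
  have hmaps : ∀ x ∈ (Finset.univ : Finset X), LocalData.placeAt L x ∈ s :=
    fun x _ => (hs _).mpr (LocalData.placeAt_ord_t_pos L x)
  have hcard := Finset.card_eq_sum_card_fiberwise hmaps
  rw [Nat.card_eq_fintype_card, ← Finset.card_univ, hcard]
  push_cast
  apply Finset.sum_le_sum
  intro v hv
  have hfib := LocalData.card_fibre_le L v ((hs v).mp hv)
  refine le_trans (le_of_eq ?_) hfib
  congr 1
  rw [Nat.card_eq_fintype_card, Fintype.card_subtype]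
  congr 1
  ext x
  simp only [Finset.mem_filter, Finset.mem_univ, true_and]
  exact LocalData.placeAt_eq_iff L x v

end Fermat.Agent.S24.H504

end
-- ===== PACK-END S24/H504/FF1.lean

-- ===== PACK-BEGIN S29/M4a/Fac.lean
section
/-
S29 / M4a-TOP (helper391) — part 1: the factorisation `heckeFac` of `DefsM.lean` coincides with the
transfer element `H201.trf` of helper201's `Transfer.lean` (Prelude coset representatives).

* `M4aTop_heckeRep_unique` : uniqueness of `t * heckeRep ℓ j` (integer matrices, `det t = 1`).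
* `M4aTop_heckeFac_eq`     : `IsHeckeFactor ℓ γ i q → heckeFac N ℓ γ i = q`.
* `M4aTop_idx`             : the bijection `Option (Fin ℓ) ≃ OnePoint (ZMod ℓ)`.
* `M4aTop_isHeckeFactor_trf`, `M4aTop_heckeFac_eq_trf`, `M4aTop_heckeCoh_eq_sum_trf`.
-/



set_option autoImplicit false

noncomputable section

namespace Fermat.Agent.S29

open CongruenceSubgroup Matrix.SpecialLinearGroup
open scoped MatrixGroups

/-! ### Uniqueness of the factorisation -/

theorem M4aTop_heckeRep_none (ℓ : ℕ) : heckeRep ℓ none = !![(ℓ : ℤ), 0; 0, 1] := rfl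

theorem M4aTop_heckeRep_some (ℓ : ℕ) (b : Fin ℓ) :
    heckeRep ℓ (some b) = !![1, ((b : ℕ) : ℤ); 0, (ℓ : ℤ)] := rfl

theorem M4aTop_det_heckeRep (ℓ : ℕ) (j : Option (Fin ℓ)) : (heckeRep ℓ j).det = (ℓ : ℤ) := by
  cases j with
  | none => rw [M4aTop_heckeRep_none, Matrix.det_fin_two_of]; ring
  | some b => rw [M4aTop_heckeRep_some, Matrix.det_fin_two_of]; ring

/-- Right cancellation of a coset representative. -/
theorem M4aTop_mul_heckeRep_cancel {ℓ : ℕ} (hℓ : ℓ ≠ 0) (j : Option (Fin ℓ))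
    {t t' : Matrix (Fin 2) (Fin 2) ℤ} (h : t * heckeRep ℓ j = t' * heckeRep ℓ j) : t = t' := by
  have h2 := congrArg (fun M => M * (heckeRep ℓ j).adjugate) h
  simp only [Matrix.mul_assoc, Matrix.mul_adjugate, M4aTop_det_heckeRep] at h2
  have hℓ' : (ℓ : ℤ) ≠ 0 := by exact_mod_cast hℓ
  ext a b
  have h3 := congrFun (congrFun h2 a) b
  simp only [Matrix.mul_smul, Matrix.mul_one, Matrix.smul_apply, smul_eq_mul] at h3
  exact mul_left_cancel₀ hℓ' h3

theorem M4aTop_heckeRep_unique {ℓ : ℕ} (hℓ : 2 ≤ ℓ) {t t' : Matrix (Fin 2) (Fin 2) ℤ}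
    (ht : t.det = 1) (ht' : t'.det = 1) {j j' : Option (Fin ℓ)}
    (h : t * heckeRep ℓ j = t' * heckeRep ℓ j') : j = j' ∧ t = t' := by
  have hℓ0 : ℓ ≠ 0 := by omega
  have hj : j = j' := by
    rw [Matrix.det_fin_two] at ht ht'
    have h00 := congrFun (congrFun h 0) 0
    have h01 := congrFun (congrFun h 0) 1
    have h10 := congrFun (congrFun h 1) 0
    have h11 := congrFun (congrFun h 1) 1
    have hnot : ¬ ((ℓ : ℤ) ∣ 1) := by
      intro hd
      have := Int.le_of_dvd one_pos hd
      have : (2 : ℤ) ≤ ℓ := by exact_mod_cast hℓ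
      omega
    cases j with
    | none =>
      cases j' with
      | none => rfl
      | some b' =>
        exfalso
        simp only [M4aTop_heckeRep_none, M4aTop_heckeRep_some, Matrix.mul_apply, Fin.sum_univ_two,
          Matrix.of_apply, Matrix.cons_val_zero, Matrix.cons_val_one, Matrix.cons_val',
          Matrix.cons_val_fin_one] at h00 h10
        -- `t' 0 0 = ℓ * t 0 0`, `t' 1 0 = ℓ * t 1 0`
        apply hnot
        refine ⟨t 0 0 * t' 1 1 - t' 0 1 * t 1 0, ?_⟩
        rw [← ht']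
        have e0 : t' 0 0 = t 0 0 * ℓ := by linarith
        have e1 : t' 1 0 = t 1 0 * ℓ := by linarith
        rw [e0, e1]; ring
    | some b =>
      cases j' with
      | none =>
        exfalso
        simp only [M4aTop_heckeRep_none, M4aTop_heckeRep_some, Matrix.mul_apply, Fin.sum_univ_two,
          Matrix.of_apply, Matrix.cons_val_zero, Matrix.cons_val_one, Matrix.cons_val',
          Matrix.cons_val_fin_one] at h00 h10
        apply hnot
        refine ⟨t' 0 0 * t 1 1 - t 0 1 * t' 1 0, ?_⟩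
        rw [← ht]
        have e0 : t 0 0 = t' 0 0 * ℓ := by linarith
        have e1 : t 1 0 = t' 1 0 * ℓ := by linarith
        rw [e0, e1]; ring
      | some b' =>
        simp only [M4aTop_heckeRep_some, Matrix.mul_apply, Fin.sum_univ_two,
          Matrix.of_apply, Matrix.cons_val_zero, Matrix.cons_val_one, Matrix.cons_val',
          Matrix.cons_val_fin_one] at h00 h01 h10 h11
        have e0 : t 0 0 = t' 0 0 := by linarith
        have e1 : t 1 0 = t' 1 0 := by linarith
        -- `(b - b') = ℓ * (...)`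
        have hd : (ℓ : ℤ) ∣ ((b : ℕ) : ℤ) - ((b' : ℕ) : ℤ) := by
          refine ⟨(t' 0 1 - t 0 1) * t 1 1 - (t' 1 1 - t 1 1) * t 0 1, ?_⟩
          have k0 : t 0 0 * ((b : ℕ) : ℤ) + t 0 1 * ℓ = t 0 0 * ((b' : ℕ) : ℤ) + t' 0 1 * ℓ := by
            rw [← e0] at h01; exact h01
          have k1 : t 1 0 * ((b : ℕ) : ℤ) + t 1 1 * ℓ = t 1 0 * ((b' : ℕ) : ℤ) + t' 1 1 * ℓ := by
            rw [← e1] at h11; exact h11
          have : ((b : ℕ) : ℤ) - ((b' : ℕ) : ℤ)
              = (t 0 0 * t 1 1 - t 0 1 * t 1 0) * (((b : ℕ) : ℤ) - ((b' : ℕ) : ℤ)) := by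
            rw [ht, one_mul]
          rw [this]
          linear_combination t 1 1 * k0 - t 0 1 * k1
        have hb : (b : ℕ) < ℓ := b.2
        have hb' : (b' : ℕ) < ℓ := b'.2
        have : ((b : ℕ) : ℤ) - ((b' : ℕ) : ℤ) = 0 := by
          apply Int.eq_zero_of_abs_lt_dvd hd
          rw [abs_lt]
          constructor <;> omega
        have hbb : (b : ℕ) = (b' : ℕ) := by omega
        rw [Fin.ext hbb]
  subst hj
  exact ⟨rfl, M4aTop_mul_heckeRep_cancel hℓ0 j h⟩

theorem M4aTop_G0_ext {N : ℕ} {γ γ' : G0 N} (h : γ.mat = γ'.mat) : γ = γ' :=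
  Subtype.ext (Subtype.ext h)

theorem M4aTop_det_mat {N : ℕ} (γ : G0 N) : γ.mat.det = 1 := (γ : SL(2, ℤ)).2

theorem M4aTop_isHeckeFactor_unique {N ℓ : ℕ} (hℓ : 2 ≤ ℓ) {γ : G0 N} {i : Option (Fin ℓ)}
    {q q' : Option (Fin ℓ) × G0 N} (hq : IsHeckeFactor ℓ γ i q) (hq' : IsHeckeFactor ℓ γ i q') :
    q = q' := by
  have h : q.2.mat * heckeRep ℓ q.1 = q'.2.mat * heckeRep ℓ q'.1 := by
    rw [← hq, ← hq']
  obtain ⟨h1, h2⟩ := M4aTop_heckeRep_unique hℓ (M4aTop_det_mat q.2) (M4aTop_det_mat q'.2) h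
  exact Prod.ext h1 (M4aTop_G0_ext h2)

theorem M4aTop_heckeFac_spec {N ℓ : ℕ} {γ : G0 N} {i : Option (Fin ℓ)}
    (h : ∃ q : Option (Fin ℓ) × G0 N, IsHeckeFactor ℓ γ i q) :
    IsHeckeFactor ℓ γ i (heckeFac N ℓ γ i) := by
  unfold heckeFac
  rw [dif_pos h]
  exact Classical.choose_spec h

theorem M4aTop_heckeFac_eq {N ℓ : ℕ} (hℓ : 2 ≤ ℓ) {γ : G0 N} {i : Option (Fin ℓ)}
    {q : Option (Fin ℓ) × G0 N} (hq : IsHeckeFactor ℓ γ i q) : heckeFac N ℓ γ i = q :=
  M4aTop_isHeckeFactor_unique hℓ (M4aTop_heckeFac_spec ⟨q, hq⟩) hq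


/-! ### Comparison with the Prelude coset representatives and `H201.trf` -/

/-- The Prelude's coset representative (in `GL₂(ℝ)`, indexed by `ℙ¹(𝔽_ℓ)`). -/
abbrev M4aTop_pRep (ℓ : ℕ) (x : OnePoint (ZMod ℓ)) : GL (Fin 2) ℝ :=
  P2MW.S_ModularForm_heckeT_slash_eq_self_of_mem_Gamma0.ModularForm.HeckeSlashInvariance.heckeRep
    ℓ x

/-- The index bijection `Option (Fin ℓ) ≃ OnePoint (ZMod ℓ)`. -/
def M4aTop_idx (ℓ : ℕ) [NeZero ℓ] : Option (Fin ℓ) ≃ OnePoint (ZMod ℓ) :=
  Equiv.optionCongr (ZMod.finEquiv ℓ).toEquiv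

theorem M4aTop_idx_none (ℓ : ℕ) [NeZero ℓ] : M4aTop_idx ℓ none = OnePoint.infty := rfl

theorem M4aTop_idx_some (ℓ : ℕ) [NeZero ℓ] (b : Fin ℓ) :
    M4aTop_idx ℓ (some b) = OnePoint.some (ZMod.finEquiv ℓ b) := rfl

theorem M4aTop_val_finEquiv (ℓ : ℕ) [NeZero ℓ] (b : Fin ℓ) : (ZMod.finEquiv ℓ b).val = (b : ℕ) := by
  cases ℓ with
  | zero => exact (NeZero.ne 0 rfl).elim
  | succ n => rfl

/-- The Prelude representative is the real image of the integral one. -/
theorem M4aTop_pRep_idx (ℓ : ℕ) [NeZero ℓ] (i : Option (Fin ℓ)) :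
    ((M4aTop_pRep ℓ (M4aTop_idx ℓ i) : GL (Fin 2) ℝ) : Matrix (Fin 2) (Fin 2) ℝ)
      = (heckeRep ℓ i).map (Int.castRingHom ℝ) := by
  have hℓ : ℓ ≠ 0 := NeZero.ne ℓ
  cases i with
  | none =>
    rw [M4aTop_idx_none, M4aTop_heckeRep_none]
    show ((ModularForm.heckeDiagMatrix ℓ : GL (Fin 2) ℝ) : Matrix (Fin 2) (Fin 2) ℝ) = _
    rw [ModularForm.val_heckeDiagMatrix hℓ]
    ext a b
    fin_cases a <;> fin_cases b <;> simp
  | some b =>
    rw [M4aTop_idx_some, M4aTop_heckeRep_some]
    show ((ModularForm.heckeMatrix ℓ (ZMod.finEquiv ℓ b).val : GL (Fin 2) ℝ) :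
      Matrix (Fin 2) (Fin 2) ℝ) = _
    rw [ModularForm.val_heckeMatrix hℓ, M4aTop_val_finEquiv]
    ext a b
    fin_cases a <;> fin_cases b <;> simp

theorem M4aTop_mapGL_coe {N : ℕ} (γ : G0 N) :
    ((mapGL ℝ (γ : SL(2, ℤ)) : GL (Fin 2) ℝ) : Matrix (Fin 2) (Fin 2) ℝ)
      = γ.mat.map (Int.castRingHom ℝ) := rfl

section Trf

variable {N ℓ : ℕ} [Fact ℓ.Prime]

/-- The index permutation induced by `γ`, transported to `Option (Fin ℓ)`. -/
def M4aTop_perm (γ : G0 N) : Equiv.Perm (Option (Fin ℓ)) :=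
  ((M4aTop_idx ℓ).trans (H201.permOf (p := ℓ) γ)).trans (M4aTop_idx ℓ).symm

theorem M4aTop_idx_perm (γ : G0 N) (i : Option (Fin ℓ)) :
    M4aTop_idx ℓ (M4aTop_perm γ i)
      = P2MW.S_ModularForm_heckeT_slash_eq_self_of_mem_Gamma0.ModularForm.HeckeSlashInvariance.redMatrix
          ℓ (γ : SL(2, ℤ)) • M4aTop_idx ℓ i := by
  simp [M4aTop_perm, H201.permOf_apply]

/-- `H201.trf` realises the factorisation of `DefsM.lean`. -/
theorem M4aTop_isHeckeFactor_trf (hℓN : ¬ ℓ ∣ N) (γ : G0 N) (i : Option (Fin ℓ)) :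
    IsHeckeFactor ℓ γ i (M4aTop_perm γ i, H201.trf hℓN γ (M4aTop_idx ℓ i)) := by
  have h := H201.trf_spec hℓN γ (M4aTop_idx ℓ i)
  rw [← M4aTop_idx_perm] at h
  have h2 := congrArg (fun M : GL (Fin 2) ℝ => (M : Matrix (Fin 2) (Fin 2) ℝ)) h
  simp only [Matrix.GeneralLinearGroup.coe_mul] at h2
  have h3 : (heckeRep ℓ i * γ.mat).map (Int.castRingHom ℝ)
      = (G0.mat (H201.trf hℓN γ (M4aTop_idx ℓ i)) * heckeRep ℓ (M4aTop_perm γ i)).map
          (Int.castRingHom ℝ) := by
    rw [Matrix.map_mul, Matrix.map_mul, ← M4aTop_pRep_idx, ← M4aTop_pRep_idx, ← M4aTop_mapGL_coe,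
      ← M4aTop_mapGL_coe]
    exact h2
  exact Matrix.map_injective (RingHom.injective_int (Int.castRingHom ℝ)) h3

theorem M4aTop_heckeFac_eq_trf (hℓN : ¬ ℓ ∣ N) (γ : G0 N) (i : Option (Fin ℓ)) :
    heckeFac N ℓ γ i = (M4aTop_perm γ i, H201.trf hℓN γ (M4aTop_idx ℓ i)) :=
  M4aTop_heckeFac_eq (Fact.out : ℓ.Prime).two_le (M4aTop_isHeckeFactor_trf hℓN γ i)

/-- The cohomological Hecke operator of `DefsM.lean` is helper201's transfer sum. -/
theorem M4aTop_heckeCoh_eq_sum_trf (hℓN : ¬ ℓ ∣ N) {A : Type*} [AddCommMonoid A] (c : G0 N → A)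
    (γ : G0 N) :
    heckeCoh N ℓ c γ = ∑ x : OnePoint (ZMod ℓ), c (H201.trf hℓN γ x) := by
  unfold heckeCoh
  simp only [M4aTop_heckeFac_eq_trf hℓN]
  exact Equiv.sum_comp (M4aTop_idx ℓ) (fun x => c (H201.trf hℓN γ x))

end Trf

end Fermat.Agent.S29

end
end
-- ===== PACK-END S29/M4a/Fac.lean

-- ===== PACK-BEGIN S41/H761/HKSystems.lean
section




/-!
# The coset systems of block HK (helper761, row S41)

* `ιN N : Γ₀(N) →* GL(2, ℝ)`;
* `heckeSystem` : the Hecke representatives `heckeRep p x`, `x ∈ ℙ¹(𝔽_p)`, form a coset system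
  from `Γ₀(N)` to `Γ₀(N)`, whose transfer is `heckeTransfer` (S29/H642);
* `heckeSystem_transitive` : `Γ₀(N)` acts transitively on `ℙ¹(𝔽_p)` (`p ∤ N`).
-/

set_option autoImplicit false

namespace Fermat.Agent.S41.H761

open CongruenceSubgroup Matrix.SpecialLinearGroup ModularForm
open Fermat.Agent.S29.H642 Fermat.Agent.S41.Spec
open P2MW.S_ModularForm_heckeT_slash_eq_self_of_mem_Gamma0.ModularForm.HeckeSlashInvariance
open scoped MatrixGroups

/-- The embedding `Γ₀(N) → GL(2, ℝ)`. -/
noncomputable def ιN (N : ℕ) : Gamma0 N →* GL (Fin 2) ℝ := (mapGL ℝ).comp (Gamma0 N).subtype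

theorem ιN_injective (N : ℕ) : Function.Injective (ιN N) :=
  mapGL_real_injective.comp Subtype.val_injective

theorem ιN_apply {N : ℕ} (g : Gamma0 N) : ιN N g = mapGL ℝ (g : SL(2, ℤ)) := rfl

theorem coe_mapGL_apply (g : SL(2, ℤ)) (i j : Fin 2) :
    ((mapGL ℝ g : GL (Fin 2) ℝ) : Matrix (Fin 2) (Fin 2) ℝ) i j = ((g i j : ℤ) : ℝ) := by
  simp

theorem coe_ιN_apply {N : ℕ} (g : Gamma0 N) (i j : Fin 2) :
    ((ιN N g : GL (Fin 2) ℝ) : Matrix (Fin 2) (Fin 2) ℝ) i j = (((g : SL(2, ℤ)) i j : ℤ) : ℝ) :=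
  coe_mapGL_apply _ i j

/-- Entries of a product in `GL(2, ℝ)`. -/
theorem coe_mul_apply (X Y : GL (Fin 2) ℝ) (i j : Fin 2) :
    ((X * Y : GL (Fin 2) ℝ) : Matrix (Fin 2) (Fin 2) ℝ) i j =
      (X : Matrix (Fin 2) (Fin 2) ℝ) i 0 * (Y : Matrix (Fin 2) (Fin 2) ℝ) 0 j +
      (X : Matrix (Fin 2) (Fin 2) ℝ) i 1 * (Y : Matrix (Fin 2) (Fin 2) ℝ) 1 j := by
  rw [Matrix.GeneralLinearGroup.coe_mul, Matrix.mul_apply, Fin.sum_univ_two]

/-- Equality in `GL(2, ℝ)` from equality of the four entries. -/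
theorem gl_ext {X Y : GL (Fin 2) ℝ}
    (h00 : (X : Matrix (Fin 2) (Fin 2) ℝ) 0 0 = (Y : Matrix (Fin 2) (Fin 2) ℝ) 0 0)
    (h01 : (X : Matrix (Fin 2) (Fin 2) ℝ) 0 1 = (Y : Matrix (Fin 2) (Fin 2) ℝ) 0 1)
    (h10 : (X : Matrix (Fin 2) (Fin 2) ℝ) 1 0 = (Y : Matrix (Fin 2) (Fin 2) ℝ) 1 0)
    (h11 : (X : Matrix (Fin 2) (Fin 2) ℝ) 1 1 = (Y : Matrix (Fin 2) (Fin 2) ℝ) 1 1) : X = Y := by
  apply Units.ext
  ext i j
  fin_cases i <;> fin_cases j
  · exact h00
  · exact h01
  · exact h10
  · exact h11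

section Hecke

variable {p : ℕ} [Fact p.Prime] {N : ℕ}

theorem coe_heckeRep_infty :
    ((heckeRep p OnePoint.infty : GL (Fin 2) ℝ) : Matrix (Fin 2) (Fin 2) ℝ) =
      !![(p : ℝ), 0; 0, 1] := by
  rw [heckeRep_infty, val_heckeDiagMatrix (Fact.out : p.Prime).ne_zero]

theorem coe_heckeRep_coe (j : ZMod p) :
    ((heckeRep p (j : OnePoint (ZMod p)) : GL (Fin 2) ℝ) : Matrix (Fin 2) (Fin 2) ℝ) =
      !![(1 : ℝ), (j.val : ℝ); 0, (p : ℝ)] := by
  rw [heckeRep_coe, val_heckeMatrix (Fact.out : p.Prime).ne_zero]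

/-- The lower left entry of a Hecke representative vanishes, the diagonal is `(1, p)` or `(p, 1)`. -/
theorem heckeRep_entries (x : OnePoint (ZMod p)) :
    ((heckeRep p x : GL (Fin 2) ℝ) : Matrix (Fin 2) (Fin 2) ℝ) 1 0 = 0 := by
  induction x using OnePoint.rec with
  | infty => rw [coe_heckeRep_infty]; simp
  | coe j => rw [coe_heckeRep_coe]; simp

/-- Distinct Hecke representatives lie in distinct left cosets of `SL(2, ℤ)`. -/
theorem heckeRep_eq_of_mul {x y : OnePoint (ZMod p)} {g : SL(2, ℤ)}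
    (e : heckeRep p x = mapGL ℝ g * heckeRep p y) : x = y := by
  have hp : (p : ℝ) ≠ 0 := by exact_mod_cast (Fact.out : p.Prime).ne_zero
  have hp2 : (2 : ℝ) ≤ p := by exact_mod_cast (Fact.out : p.Prime).two_le
  have e00 := congrArg (fun M : GL (Fin 2) ℝ => (M : Matrix (Fin 2) (Fin 2) ℝ) 0 0) e
  have e01 := congrArg (fun M : GL (Fin 2) ℝ => (M : Matrix (Fin 2) (Fin 2) ℝ) 0 1) e
  have e10 := congrArg (fun M : GL (Fin 2) ℝ => (M : Matrix (Fin 2) (Fin 2) ℝ) 1 0) e
  have e11 := congrArg (fun M : GL (Fin 2) ℝ => (M : Matrix (Fin 2) (Fin 2) ℝ) 1 1) e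
  simp only [coe_mul_apply, coe_mapGL_apply] at e00 e01 e10 e11
  induction x using OnePoint.rec with
  | infty =>
    induction y using OnePoint.rec with
    | infty => rfl
    | coe k =>
      exfalso
      simp only [coe_heckeRep_infty, coe_heckeRep_coe, Matrix.of_apply, Matrix.cons_val',
        Matrix.cons_val_zero, Matrix.cons_val_one, Matrix.cons_val_fin_one, mul_one, mul_zero,
        add_zero] at e00 e01 e10 e11
      -- g10 = 0, g11 * p = 1
      have h10 : ((g 1 0 : ℤ) : ℝ) = 0 := e10.symm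
      rw [h10, zero_mul, zero_add] at e11
      have h11 : (g 1 1 : ℤ) * (p : ℤ) = 1 := by exact_mod_cast e11.symm
      have := Int.isUnit_iff.mp (IsUnit.of_mul_eq_one _ (by rw [mul_comm]; exact h11) : IsUnit (p : ℤ))
      have hp2' : (2 : ℤ) ≤ p := by exact_mod_cast (Fact.out : p.Prime).two_le
      omega
  | coe j =>
    induction y using OnePoint.rec with
    | infty =>
      exfalso
      simp only [coe_heckeRep_infty, coe_heckeRep_coe, Matrix.of_apply, Matrix.cons_val',
        Matrix.cons_val_zero, Matrix.cons_val_one, Matrix.cons_val_fin_one, mul_one, mul_zero,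
        add_zero] at e00 e01 e10 e11
      have h00 : (g 0 0 : ℤ) * (p : ℤ) = 1 := by exact_mod_cast e00.symm
      have := Int.isUnit_iff.mp (IsUnit.of_mul_eq_one _ (by rw [mul_comm]; exact h00) : IsUnit (p : ℤ))
      have hp2' : (2 : ℤ) ≤ p := by exact_mod_cast (Fact.out : p.Prime).two_le
      omega
    | coe k =>
      simp only [coe_heckeRep_coe, Matrix.of_apply, Matrix.cons_val',
        Matrix.cons_val_zero, Matrix.cons_val_one, Matrix.cons_val_fin_one, mul_one, mul_zero,
        add_zero] at e00 e01 e10 e11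
      have h00 : ((g 0 0 : ℤ) : ℝ) = 1 := e00.symm
      rw [h00, one_mul] at e01
      have h01 : (j.val : ℤ) = k.val + g 0 1 * p := by
        have : ((j.val : ℤ) : ℝ) = ((k.val + g 0 1 * p : ℤ) : ℝ) := by
          push_cast
          linarith
        exact_mod_cast this
      have hjk : ((j.val : ℤ) : ZMod p) = ((k.val : ℤ) : ZMod p) := by
        rw [h01]
        push_cast
        simp
      simp only [Int.cast_natCast, ZMod.natCast_zmod_val] at hjk
      rw [hjk]

/-- The Hecke representatives form a coset system from `Γ₀(N)` to `Γ₀(N)`. -/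
theorem heckeSystem (hpN : ¬ p ∣ N) : IsCosetSystem (ιN N) (ιN N) (heckeRep p) where
  inj := ιN_injective N
  exists_mul := by
    intro x γ
    refine ⟨hPerm p (γ : SL(2, ℤ)) x, hElt hpN γ x, ?_⟩
    rw [ιN_apply, ιN_apply]
    exact hElt_spec hpN γ x
  eq_of_mul := by
    intro x y g e
    rw [ιN_apply] at e
    exact heckeRep_eq_of_mul e

theorem heckeSystem_spec (hpN : ¬ p ∣ N) (x : OnePoint (ZMod p)) (γ : Gamma0 N) :
    heckeRep p x * ιN N γ = ιN N (hElt hpN γ x) * heckeRep p (hPerm p (γ : SL(2, ℤ)) x) := by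
  rw [ιN_apply, ιN_apply]
  exact hElt_spec hpN γ x

theorem heckeSystem_act (hpN : ¬ p ∣ N) (x : OnePoint (ZMod p)) (γ : Gamma0 N) :
    (heckeSystem hpN).act x γ = hPerm p (γ : SL(2, ℤ)) x :=
  (heckeSystem hpN).act_eq (heckeSystem_spec hpN x γ)

theorem heckeSystem_coc (hpN : ¬ p ∣ N) (x : OnePoint (ZMod p)) (γ : Gamma0 N) :
    (heckeSystem hpN).coc x γ = hElt hpN γ x :=
  (heckeSystem hpN).coc_eq (heckeSystem_spec hpN x γ)

/-- `heckeTransfer` is the transfer of the Hecke coset system. -/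
theorem heckeTransfer_eq_transfer {A : Type*} [AddCommGroup A] (hpN : ¬ p ∣ N)
    (φ : Additive (Gamma0 N) →+ A) : heckeTransfer hpN φ = (heckeSystem hpN).transfer φ := by
  refine AddMonoidHom.ext fun g' => ?_
  obtain ⟨g, rfl⟩ : ∃ g : Gamma0 N, Additive.ofMul g = g' := ⟨Additive.toMul g', rfl⟩
  rw [heckeTransfer_apply, IsCosetSystem.transfer_apply]
  exact Finset.sum_congr rfl fun x _ => by rw [heckeSystem_coc]

/-- Construction of an element of `Γ₀(N)` from its entries. -/
def mkGamma0 (N : ℕ) (a b c d : ℤ) (hdet : a * d - b * c = 1) (hc : (N : ℤ) ∣ c) : Gamma0 N :=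
  ⟨⟨!![a, b; c, d], by rw [Matrix.det_fin_two_of]; exact hdet⟩,
    mem_Gamma0_of_dvd (by simpa using hc)⟩

theorem mkGamma0_apply (N : ℕ) (a b c d : ℤ) (hdet : a * d - b * c = 1) (hc : (N : ℤ) ∣ c) :
    ((mkGamma0 N a b c d hdet hc : Gamma0 N) : SL(2, ℤ)) 0 0 = a ∧
    ((mkGamma0 N a b c d hdet hc : Gamma0 N) : SL(2, ℤ)) 0 1 = b ∧
    ((mkGamma0 N a b c d hdet hc : Gamma0 N) : SL(2, ℤ)) 1 0 = c ∧
    ((mkGamma0 N a b c d hdet hc : Gamma0 N) : SL(2, ℤ)) 1 1 = d := by
  simp [mkGamma0]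

/-- Every point of `ℙ¹(𝔽_p)` is in the orbit of `∞` under `Γ₀(N)` (`p ∤ N`). -/
theorem exists_act_infty (hpN : ¬ p ∣ N) (y : OnePoint (ZMod p)) :
    ∃ γ : Gamma0 N, (heckeSystem hpN).act OnePoint.infty γ = y := by
  induction y using OnePoint.rec with
  | infty => exact ⟨1, (heckeSystem hpN).act_one _⟩
  | coe j =>
    have hcop : IsCoprime (N : ℤ) (p : ℤ) := by
      rw [Int.isCoprime_iff_gcd_eq_one, Int.gcd_natCast_natCast]
      exact (Nat.Coprime.symm ((Fact.out : p.Prime).coprime_iff_not_dvd.mpr hpN))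
    obtain ⟨u, v, huv⟩ := hcop
    -- `u * N + v * p = 1`
    let γ : Gamma0 N := mkGamma0 N 1 ((j.val : ℤ) - u) N (1 + N * ((j.val : ℤ) - u)) (by ring)
      (dvd_refl _)
    let g : Gamma0 N := mkGamma0 N p (-u) N v (by linear_combination huv) (dvd_refl _)
    refine ⟨γ, (heckeSystem hpN).act_eq (g := g) ?_⟩
    obtain ⟨γ00, γ01, γ10, γ11⟩ := mkGamma0_apply N 1 ((j.val : ℤ) - u) N
      (1 + N * ((j.val : ℤ) - u)) (by ring) (dvd_refl _)
    obtain ⟨g00, g01, g10, g11⟩ := mkGamma0_apply N p (-u) N v (by linear_combination huv)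
      (dvd_refl _)
    have huv' : (u : ℝ) * N + v * p = 1 := by exact_mod_cast huv
    apply gl_ext <;>
      simp only [coe_mul_apply, coe_ιN_apply, coe_heckeRep_infty, coe_heckeRep_coe, Matrix.of_apply,
        Matrix.cons_val', Matrix.cons_val_zero, Matrix.cons_val_one, Matrix.cons_val_fin_one,
        γ, g, γ00, γ01, γ10, γ11, g00, g01, g10, g11] <;>
      push_cast
    · ring
    · ring
    · ring
    · linear_combination (-1 : ℝ) * huv'

/-- `Γ₀(N)` acts transitively on `ℙ¹(𝔽_p)` (`p ∤ N`). -/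
theorem heckeSystem_transitive (hpN : ¬ p ∣ N) (y y' : OnePoint (ZMod p)) :
    ∃ γ : Gamma0 N, (heckeSystem hpN).act y γ = y' := by
  obtain ⟨γ, hγ⟩ := exists_act_infty hpN y
  obtain ⟨γ', hγ'⟩ := exists_act_infty hpN y'
  refine ⟨γ⁻¹ * γ', ?_⟩
  have h1 : (heckeSystem hpN).act y γ⁻¹ = OnePoint.infty := by
    rw [← hγ, ← (heckeSystem hpN).act_mul, mul_inv_cancel, (heckeSystem hpN).act_one]
  rw [(heckeSystem hpN).act_mul, h1, hγ']

end Hecke

end Fermat.Agent.S41.H761

end
-- ===== PACK-END S41/H761/HKSystems.lean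

-- ===== PACK-BEGIN S41/H761/HKTransfer.lean
section





/-!
# `transferAlong` as the transfer of a coset system (helper761, row S41, block HK)
-/

set_option autoImplicit false

namespace Fermat.Agent.S41.H761

open CongruenceSubgroup Matrix.SpecialLinearGroup ModularForm
open Fermat.Agent.S29.H642 Fermat.Agent.S41.Spec
open P2MW.S_ModularForm_heckeT_slash_eq_self_of_mem_Gamma0.ModularForm.HeckeSlashInvariance
open scoped MatrixGroups

section General

variable {H' G 𝒢 : Type*} [Group H'] [Group G] [Group 𝒢] {A : Type*} [AddCommGroup A]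

/-- `transferAlong f` is the transfer of the coset system `ofTransfer f`. -/
theorem transferAlong_eq (f : H' →* G) (hf : Function.Injective f) [hfin : f.range.FiniteIndex]
    [Fintype (G ⧸ f.range)] (ι : G →* 𝒢) (hι : Function.Injective ι) (ψ : Additive H' →+ A) :
    transferAlong f ψ = (IsCosetSystem.ofTransfer f hf ι hι).transfer ψ := by
  refine AddMonoidHom.ext fun g' => ?_
  obtain ⟨g, rfl⟩ : ∃ g : G, Additive.ofMul g = g' := ⟨Additive.toMul g', rfl⟩
  rw [IsCosetSystem.transfer_apply]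
  unfold transferAlong
  rw [dif_pos ⟨hf, hfin⟩]
  show Multiplicative.toAdd (MonoidHom.transfer _ g) = _
  rw [transfer_eq_prod_out, toAdd_prod]
  refine Finset.sum_congr (by ext; simp) fun q _ => ?_
  show ψ (Additive.ofMul ((MonoidHom.ofInjective hf).symm _)) = _
  congr 2
  apply hf
  rw [(IsCosetSystem.ofTransfer_act f hf ι hι q g).2]
  exact congrArg Subtype.val ((MonoidHom.ofInjective hf).apply_symm_apply _)

/-- The transfer of a restricted class is the multiplication by the index. -/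
theorem transferAlong_comp (f : H' →* G) (hf : Function.Injective f) [hfin : f.range.FiniteIndex]
    (φ : Additive G →+ A) :
    transferAlong f (φ.comp (MonoidHom.toAdditive f)) = (Nat.card (G ⧸ f.range)) • φ := by
  classical
  let _ : Fintype (G ⧸ f.range) := f.range.fintypeQuotientOfFiniteIndex
  rw [transferAlong_eq f hf (MonoidHom.id G) Function.injective_id]
  refine AddMonoidHom.ext fun g' => ?_
  obtain ⟨g, rfl⟩ : ∃ g : G, Additive.ofMul g = g' := ⟨Additive.toMul g', rfl⟩
  rw [IsCosetSystem.transfer_apply]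
  have h1 : ∀ q : G ⧸ f.range,
      (φ.comp (MonoidHom.toAdditive f))
        (Additive.ofMul ((IsCosetSystem.ofTransfer f hf (MonoidHom.id G)
          Function.injective_id).coc q g)) =
      - φ (Additive.ofMul q.out) + φ (Additive.ofMul g) + φ (Additive.ofMul (g⁻¹ • q).out) := by
    intro q
    show φ (Additive.ofMul (f ((IsCosetSystem.ofTransfer f hf (MonoidHom.id G)
      Function.injective_id).coc q g))) = _
    rw [(IsCosetSystem.ofTransfer_act f hf (MonoidHom.id G) Function.injective_id q g).2]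
    simp only [ofMul_mul, ofMul_inv, map_add, map_neg]
  simp only [h1, Finset.sum_add_distrib, Finset.sum_neg_distrib, Finset.sum_const,
    Finset.card_univ]
  have h2 : ∑ q : G ⧸ f.range, φ (Additive.ofMul (g⁻¹ • q).out) =
      ∑ q : G ⧸ f.range, φ (Additive.ofMul q.out) :=
    Equiv.sum_comp (MulAction.toPerm g⁻¹) (fun q : G ⧸ f.range => φ (Additive.ofMul q.out))
  rw [h2, Nat.card_eq_fintype_card]
  simp only [AddMonoidHom.coe_smul, Pi.smul_apply]
  abel

end General

end Fermat.Agent.S41.H761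

end
-- ===== PACK-END S41/H761/HKTransfer.lean

-- ===== PACK-BEGIN S41/Spec/Occ.lean
section






/-!
# Row S41, block OCC (sub-architect helper341): frozen statement

`OccStatement`: the mod-`p` eigensystem of the level-`N` eigenform `f` of S41 occurs in the cuspidal
classes `C_N(𝔽_p) ⊆ Hom(Γ₀(N), 𝔽_p)`:  there is `x ≠ 0`, cuspidal (`Spec.IsCuspidal` of `Spec/HK.lean`: vanishing on
the elements of trace `±2` and on the elements of finite order), with
* `T_ℓ x = a_ℓ(W) x` for every prime `ℓ ∤ N`, `ℓ ≠ p`, at which `W` is good (this contains `Σ`), and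
* `T_{q'} x = μ x` with `μ² = (q'+1)²` in `𝔽_p` (i.e. `μ = ±(q'+1)`).
`T_ℓ` is the Hecke transfer `Fermat.Agent.S29.H642.heckeTransfer` (on main).

Only `f`, `𝔪`, `hcong`, `hLR` of S41 are used (no `E`, no irreducibility).
-/

set_option autoImplicit false

namespace Fermat.Agent.S41.Spec

open CongruenceSubgroup
open scoped MatrixGroups

/-- **Block OCC.** -/
def OccStatement : Prop :=
  ∀ (W : WeierstrassCurve ℤ) (p N q' : ℕ) [NeZero N] (_hp : p.Prime) (hq' : q'.Prime)
    (hq'N : ¬ q' ∣ N)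
    (f : CuspForm (Gamma0 N) 2) (𝔪 : Ideal (integralClosure ℤ ℂ))
    (_hf : f.IsNormalizedEigenform) (_hmax : 𝔪.IsMaximal) (_hpm : (p : integralClosure ℤ ℂ) ∈ 𝔪)
    (_hcong : ∀ ℓ : ℕ, ℓ.Prime → W.IsGoodPrimeFor ℓ → ¬ ℓ ∣ N → ℓ ≠ p →
      ∃ a : integralClosure ℤ ℂ, (a : ℂ) = ModularFormClass.qCoeff f ℓ ∧
        a - ((W.apOfModel ℓ : ℤ) : integralClosure ℤ ℂ) ∈ 𝔪)
    (_hLR : ∃ a : integralClosure ℤ ℂ, (a : ℂ) = ModularFormClass.qCoeff f q' ∧
      a ^ 2 - ((q' : integralClosure ℤ ℂ) + 1) ^ 2 ∈ 𝔪),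
    ∃ (x : Additive (Gamma0 N) →+ ZMod p) (μ : ZMod p),
      x ≠ 0 ∧ IsCuspidal x ∧
      (∀ (ℓ : ℕ) [Fact ℓ.Prime] (hℓN : ¬ ℓ ∣ N), W.IsGoodPrimeFor ℓ → ℓ ≠ p →
        Fermat.Agent.S29.H642.heckeTransfer hℓN x = ((W.apOfModel ℓ : ℤ) : ZMod p) • x) ∧
      μ ^ 2 = ((q' : ZMod p) + 1) ^ 2 ∧
      (haveI : Fact q'.Prime := ⟨hq'⟩; Fermat.Agent.S29.H642.heckeTransfer hq'N x = μ • x)

end Fermat.Agent.S41.Spec

end
-- ===== PACK-END S41/Spec/Occ.lean

-- ===== PACK-BEGIN S41/Spec/Core.lean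
section




/-!
# Row S41 — blocks IH (final form) and CORE (row-lead helper41)

Built on the definitions of `Spec/HK.lean` (helper761).  (`Spec/Defs.lean` and `Spec/Blocks.lean`
are SUPERSEDED: never import them.)  Top-level blocks of the row and where their statements live:

* HK  : `Spec/HK.lean`  (9 Props)                * OCC : `Spec/Occ.lean`  `OccStatement`
* DS  : `Spec/DS.lean`  `DSStatement`            * NEW : `Spec/New.lean`  `NewStatement`
* PD  : `Spec/PD.lean`  `PDHeckeStatement`, `LiftStatement`, `CuspFreeStatement`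
* IH  : `IharaEigenStatement` (here; = AM + IH' + NE', the CSP-free route of helper744)
* CORE: `RibetCoreStatement` (here; abstract linear algebra)

`Fermat.Agent.S41.Glue` derives S41 from these.
-/

set_option autoImplicit false

open WeierstrassCurve WeierstrassCurve.Affine WeierstrassCurve.Affine.Point
open scoped CongruenceSubgroup MatrixGroups

namespace Fermat.Agent.S41.Spec

open CongruenceSubgroup Fermat.Agent.S29.H642

/-- **IH** (Ihara's lemma for the eigensystem of `E[p]`).  A pair of cuspidal classes mod `p`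
of level `N` in the kernel of `r₁ + r₂`, both eigenvectors of all `T_l` (`l ∤ N q p` good) with
eigenvalues `a_l(W)`, vanishes, provided `E[p]` is irreducible. -/
def IharaEigenStatement : Prop :=
  ∀ (E : WeierstrassCurve ℚ) [E.IsElliptic] (W : WeierstrassCurve ℤ), W.IsIntegralModelOf E →
    ∀ (p N q : ℕ), p.Prime → p ≠ 2 → N ≠ 0 → q.Prime → ¬ q ∣ N → q ≠ p →
      GaloisRepIsIrreducible (K := AlgebraicClosure ℚ) ℚ E p →
      ∀ φ₁ φ₂ : Additive (Gamma0 N) →+ ZMod p, IsCuspidal φ₁ → IsCuspidal φ₂ →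
        r₁ N q φ₁ + r₂ N q φ₂ = 0 →
        (∀ (l : ℕ) [Fact l.Prime] (hl : ¬ l ∣ N), ¬ l ∣ N * q → W.IsGoodPrimeFor l → l ≠ p →
          heckeTransfer hl φ₁ = ((W.apOfModel l : ℤ) : ZMod p) • φ₁ ∧
          heckeTransfer hl φ₂ = ((W.apOfModel l : ℤ) : ZMod p) • φ₂) →
        φ₁ = 0 ∧ φ₂ = 0

/-- **CORE** (Ribet's linear algebra).  `A`, `B` lattices with commuting operators `tA l`, `tB l`
(`l : ι`), equivariant maps `i = i₁ + i₂ : A² → B`, `j = (j₁, j₂) : B → A²` with
`j ∘ i = [[c, T], [T, c]]`, nondegenerate forms mod `p` for which the operators are self-adjoint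
and `j` is adjoint to `i`.  If no nonzero eigenvector mod `p` (eigenvalues `a l`) lies in the
kernel of `i` mod `p` and if some eigenvector `x` mod `p` has `T x = μ x` with `μ² = c²` mod `p`,
then `ker j` contains an eigenvector mod `p` with the eigenvalues `a l`. -/
def RibetCoreStatement : Prop :=
  ∀ (p : ℕ) [Fact p.Prime] (ι : Type) (A B : Type) [AddCommGroup A] [AddCommGroup B]
    [Module.Finite ℤ A] [Module.Free ℤ A] [Module.Finite ℤ B] [Module.Free ℤ B]
    (tA : ι → A →ₗ[ℤ] A) (tB : ι → B →ₗ[ℤ] B) (T : A →ₗ[ℤ] A)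
    (i₁ i₂ : A →ₗ[ℤ] B) (j₁ j₂ : B →ₗ[ℤ] A) (c μ : ℤ) (a : ι → ℤ)
    (βA : A → A → ZMod p) (βB : B → B → ZMod p),
    -- commutation
    (∀ l l' x, tA l (tA l' x) = tA l' (tA l x)) → (∀ l l' y, tB l (tB l' y) = tB l' (tB l y)) →
    (∀ l x, tB l (i₁ x) = i₁ (tA l x)) → (∀ l x, tB l (i₂ x) = i₂ (tA l x)) →
    (∀ l y, tA l (j₁ y) = j₁ (tB l y)) → (∀ l y, tA l (j₂ y) = j₂ (tB l y)) →
    -- `j ∘ i = [[c, T], [T, c]]`
    (∀ x, j₁ (i₁ x) = c • x) → (∀ x, j₂ (i₂ x) = c • x) →
    (∀ x, j₁ (i₂ x) = T x) → (∀ x, j₂ (i₁ x) = T x) →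
    -- duality mod `p`
    (∀ x x' y, βA (x + x') y = βA x y + βA x' y) → (∀ x y y', βA x (y + y') = βA x y + βA x y') →
    (∀ x x' y, βB (x + x') y = βB x y + βB x' y) → (∀ x y y', βB x (y + y') = βB x y + βB x y') →
    (∀ x, (∀ y, βA x y = 0) → ∃ z, x = (p : ℤ) • z) →
    (∀ x, (∀ y, βB x y = 0) → ∃ z, x = (p : ℤ) • z) →
    (∀ l x y, βA (tA l x) y = βA x (tA l y)) → (∀ l x y, βB (tB l x) y = βB x (tB l y)) →
    (∀ x y, βB (i₁ x) y = βA x (j₁ y)) → (∀ x y, βB (i₂ x) y = βA x (j₂ y)) →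
    -- Ihara: no eigenvector mod `p` in the kernel of `i` mod `p`
    (∀ x₁ x₂ : A, (∃ z, i₁ x₁ + i₂ x₂ = (p : ℤ) • z) →
      (∀ l, ∃ z, tA l x₁ - a l • x₁ = (p : ℤ) • z) →
      (∀ l, ∃ z, tA l x₂ - a l • x₂ = (p : ℤ) • z) →
      (∃ z, x₁ = (p : ℤ) • z) ∧ (∃ z, x₂ = (p : ℤ) • z)) →
    -- the level raising congruence
    (∃ x : A, (¬ ∃ z, x = (p : ℤ) • z) ∧ (∃ z, T x - μ • x = (p : ℤ) • z) ∧
      ∀ l, ∃ z, tA l x - a l • x = (p : ℤ) • z) →
    (p : ℤ) ∣ μ ^ 2 - c ^ 2 →
    ∃ y : B, j₁ y = 0 ∧ j₂ y = 0 ∧ (¬ ∃ z, y = (p : ℤ) • z) ∧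
      ∀ l, ∃ z, tB l y - a l • y = (p : ℤ) • z

end Fermat.Agent.S41.Spec

end
-- ===== PACK-END S41/Spec/Core.lean

-- ===== PACK-BEGIN Ribet/H883/Bridge.lean
section
/-
RIBET row, piece R3 (helper883): bridge between the two languages for characters of `Γ₀(N)`:
* `S29.DefsM`: functions `c : G0 N → A` with `IsParHom c`, Hecke operator `heckeCoh N ℓ`;
* `S29.H642`: additive homs `φ : Additive (Gamma0 N) →+ A`, Hecke operator `heckeTransfer`.
-/




set_option autoImplicit false

noncomputable section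

namespace Fermat.Agent.Ribet.H883

open CongruenceSubgroup Matrix.SpecialLinearGroup
open Fermat.Agent.S29
open scoped MatrixGroups

variable {N : ℕ} {A : Type*} [AddCommGroup A]

/-- The function `Γ₀(N) → A` underlying an additive hom. -/
def funOf (φ : Additive (Gamma0 N) →+ A) : G0 N → A := fun γ => φ (Additive.ofMul γ)

@[simp] theorem funOf_apply (φ : Additive (Gamma0 N) →+ A) (γ : G0 N) :
    funOf φ γ = φ (Additive.ofMul γ) := rfl

/-- The additive hom attached to a multiplicative-to-additive function. -/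
def homOf (c : G0 N → A) (hc : ∀ γ γ' : G0 N, c (γ * γ') = c γ + c γ') :
    Additive (Gamma0 N) →+ A where
  toFun γ := c (Additive.toMul γ)
  map_zero' := by
    have h := hc 1 1
    rw [mul_one] at h
    exact left_eq_add.mp h
  map_add' γ δ := hc (Additive.toMul γ) (Additive.toMul δ)

@[simp] theorem homOf_apply (c : G0 N → A) (hc : ∀ γ γ' : G0 N, c (γ * γ') = c γ + c γ')
    (γ : G0 N) : homOf c hc (Additive.ofMul γ) = c γ := rfl

@[simp] theorem funOf_homOf (c : G0 N → A) (hc : ∀ γ γ' : G0 N, c (γ * γ') = c γ + c γ') :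
    funOf (homOf c hc) = c := rfl

theorem funOf_injective : Function.Injective (funOf : (Additive (Gamma0 N) →+ A) → G0 N → A) := by
  intro φ ψ h
  refine AddMonoidHom.ext fun γ => ?_
  exact congrFun h (Additive.toMul γ)

theorem funOf_map_mul (φ : Additive (Gamma0 N) →+ A) (γ γ' : G0 N) :
    funOf φ (γ * γ') = funOf φ γ + funOf φ γ' := by
  simp only [funOf_apply, ofMul_mul, map_add]

section Hecke

variable {ℓ : ℕ} [Fact ℓ.Prime]

/-- The two transfer elements (helper201's `trf`, helper642's `hElt`) agree. -/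
theorem hElt_eq_trf (hℓN : ¬ ℓ ∣ N) (γ : Gamma0 N) (x : OnePoint (ZMod ℓ)) :
    H642.hElt hℓN γ x = H201.trf hℓN γ x :=
  H201.trf_unique hℓN γ _ x (H642.hElt_spec hℓN γ x)

/-- **Bridge.** The Hecke transfer of `S29.H642` is the cohomological Hecke operator of
`S29.DefsM`. -/
theorem funOf_heckeTransfer (hℓN : ¬ ℓ ∣ N) (φ : Additive (Gamma0 N) →+ A) :
    funOf (H642.heckeTransfer hℓN φ) = heckeCoh N ℓ (funOf φ) := by
  funext γ
  rw [funOf_apply, H642.heckeTransfer_apply, M4aTop_heckeCoh_eq_sum_trf hℓN]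
  refine Finset.sum_congr rfl fun x _ => ?_
  rw [hElt_eq_trf]
  rfl

end Hecke

end Fermat.Agent.Ribet.H883

end
end
-- ===== PACK-END Ribet/H883/Bridge.lean

-- ===== PACK-BEGIN S15/H215/LatticeJ.lean
section





/-!
# S15, piece MOD-B2 (helper215): lattices and the `j`-function

* `G_congr_h215`, `g₂_congr_h215`, `g₃_congr_h215` : the lattice invariants only depend on the
  lattice (not on the basis);
* `exists_pairOf_lattice_h215` : every lattice is `c (ℤ + ℤ τ)`, `τ ∈ ℍ`;
* `disc_ne_zero_h215` : `g₂³ - 27 g₃² ≠ 0` for every period pair;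
* `latticeJ_pairOf_h215` : `latticeJ (ℤ + ℤ τ) = E₄(τ)³ / Δ(τ)`;
* `latticeJ_scalePair_h215`, `latticeJ_congr_h215`;
* **B2** `exists_periodPair_h215` : every `(g₂, g₃)` with `g₂³ - 27 g₃² ≠ 0` comes from a lattice.

Inputs (on main): S20 `T2h423` (`g₂_pairOf`, `scalePair`), S20 `JInjective.exists_scale`,
S24 `M7.H47.jFun_surjective`.
-/

set_option autoImplicit false

noncomputable section

open UpperHalfPlane ModularForm EisensteinSeries

namespace Fermat.Agent.S15.H215

open Fermat.Agent.S15.H542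
open Fermat.Agent.S20.T2h423 (pairOf scalePair)

local notation "Δ" => ModularForm.discriminant

/-! ## Independence of the basis -/

theorem G_congr_h215 {L L' : PeriodPair} (h : L.lattice = L'.lattice) (n : ℕ) :
    L.G n = L'.G n := by
  unfold PeriodPair.G
  have h' : (L.lattice : Set ℂ) = (L'.lattice : Set ℂ) := by rw [h]
  exact tsum_congr_set_coe (fun l : ℂ => (l ^ n)⁻¹) h'

theorem g₂_congr_h215 {L L' : PeriodPair} (h : L.lattice = L'.lattice) : L.g₂ = L'.g₂ := by
  unfold PeriodPair.g₂; rw [G_congr_h215 h]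

theorem g₃_congr_h215 {L L' : PeriodPair} (h : L.lattice = L'.lattice) : L.g₃ = L'.g₃ := by
  unfold PeriodPair.g₃; rw [G_congr_h215 h]

theorem latticeJ_congr_h215 {L L' : PeriodPair} (h : L.lattice = L'.lattice) :
    latticeJ L = latticeJ L' := by
  unfold latticeJ; rw [g₂_congr_h215 h, g₃_congr_h215 h]

/-! ## Scaling -/

theorem disc_scalePair_h215 (c : ℂ) (hc : c ≠ 0) (L : PeriodPair) :
    (scalePair c hc L).g₂ ^ 3 - 27 * (scalePair c hc L).g₃ ^ 2 =
      (c ^ 12)⁻¹ * (L.g₂ ^ 3 - 27 * L.g₃ ^ 2) := by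
  rw [Fermat.Agent.S20.T2h423.g₂_scalePair, Fermat.Agent.S20.T2h423.g₃_scalePair]
  field_simp

theorem latticeJ_scalePair_h215 (c : ℂ) (hc : c ≠ 0) (L : PeriodPair) :
    latticeJ (scalePair c hc L) = latticeJ L := by
  unfold latticeJ
  rw [disc_scalePair_h215, Fermat.Agent.S20.T2h423.g₂_scalePair]
  field_simp

/-! ## The lattices `ℤ + ℤ τ` -/

theorem disc_pairOf_ne_zero_h215 (τ : ℍ) :
    (pairOf τ).g₂ ^ 3 - 27 * (pairOf τ).g₃ ^ 2 ≠ 0 := by
  rw [Fermat.Agent.S20.T2h423.g₂_cube_sub_g₃_sq_pairOf]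
  refine mul_ne_zero (pow_ne_zero _ (mul_ne_zero two_ne_zero ?_)) (discriminant_ne_zero τ)
  exact_mod_cast Real.pi_ne_zero

theorem latticeJ_pairOf_h215 (τ : ℍ) : latticeJ (pairOf τ) = E₄ τ ^ 3 / Δ τ := by
  unfold latticeJ
  rw [Fermat.Agent.S20.T2h423.g₂_cube_sub_g₃_sq_pairOf, Fermat.Agent.S20.T2h423.g₂_pairOf]
  have hπ : (Real.pi : ℂ) ≠ 0 := by exact_mod_cast Real.pi_ne_zero
  have hΔ := discriminant_ne_zero τ
  field_simp
  ring

/-- Every lattice is homothetic to some `ℤ + ℤ τ`. -/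
theorem exists_pairOf_lattice_h215 (L : PeriodPair) :
    ∃ (τ : ℍ) (c : ℂ) (hc : c ≠ 0), L.lattice = (scalePair c hc (pairOf τ)).lattice := by
  have hind := L.indep
  rw [LinearIndependent.pair_iff] at hind
  have h1 : L.ω₁ ≠ 0 := by
    intro h
    have := hind 1 0 (by simp [h])
    exact one_ne_zero this.1
  have him : (L.ω₂ / L.ω₁).im ≠ 0 := by
    intro h
    -- `ω₂ = t ω₁` with `t` real
    have ht : L.ω₂ / L.ω₁ = (((L.ω₂ / L.ω₁).re : ℝ) : ℂ) := by
      apply Complex.ext <;> simp [h]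
    have h2 : (-(L.ω₂ / L.ω₁).re) • L.ω₁ + (1 : ℝ) • L.ω₂ = 0 := by
      simp only [Complex.real_smul]
      push_cast
      rw [← ht]
      field_simp
      ring
    exact one_ne_zero (hind _ _ h2).2
  rcases lt_or_gt_of_ne him with hneg | hpos
  · -- `Im (ω₂/ω₁) < 0`: use `τ = - ω₂ / ω₁`
    have hpos' : 0 < (-(L.ω₂ / L.ω₁)).im := by simpa using hneg
    refine ⟨UpperHalfPlane.mk (-(L.ω₂ / L.ω₁)) hpos', L.ω₁, h1, ?_⟩
    show Submodule.span ℤ {L.ω₁, L.ω₂} =
      Submodule.span ℤ {L.ω₁ * 1, L.ω₁ * (-(L.ω₂ / L.ω₁))}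
    have e2 : L.ω₁ * (-(L.ω₂ / L.ω₁)) = -L.ω₂ := by field_simp
    rw [mul_one, e2]
    ext z
    simp only [Submodule.mem_span_pair, zsmul_eq_mul]
    constructor
    · rintro ⟨a, b, rfl⟩
      exact ⟨a, -b, by push_cast; ring⟩
    · rintro ⟨a, b, rfl⟩
      exact ⟨a, -b, by push_cast; ring⟩
  · refine ⟨UpperHalfPlane.mk (L.ω₂ / L.ω₁) hpos, L.ω₁, h1, ?_⟩
    show Submodule.span ℤ {L.ω₁, L.ω₂} =
      Submodule.span ℤ {L.ω₁ * 1, L.ω₁ * (L.ω₂ / L.ω₁)}
    have e2 : L.ω₁ * (L.ω₂ / L.ω₁) = L.ω₂ := by field_simp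
    rw [mul_one, e2]

/-- `g₂³ - 27 g₃² ≠ 0` for every lattice. -/
theorem disc_ne_zero_h215 (L : PeriodPair) : L.g₂ ^ 3 - 27 * L.g₃ ^ 2 ≠ 0 := by
  obtain ⟨τ, c, hc, h⟩ := exists_pairOf_lattice_h215 L
  rw [g₂_congr_h215 h, g₃_congr_h215 h, disc_scalePair_h215]
  exact mul_ne_zero (inv_ne_zero (pow_ne_zero _ hc)) (disc_pairOf_ne_zero_h215 τ)

/-! ## B2 -/

/-- **B2.**  Every pair `(g₂, g₃)` with `g₂³ - 27 g₃² ≠ 0` is the pair of invariants of a lattice. -/
theorem exists_periodPair_h215 (g₂ g₃ : ℂ) (h : g₂ ^ 3 - 27 * g₃ ^ 2 ≠ 0) :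
    ∃ L : PeriodPair, L.g₂ = g₂ ∧ L.g₃ = g₃ := by
  obtain ⟨τ, hτ⟩ := Fermat.Agent.S24.M7.H47.jFun_surjective
    (1728 * g₂ ^ 3 / (g₂ ^ 3 - 27 * g₃ ^ 2))
  have hJ : latticeJ (pairOf τ) = 1728 * g₂ ^ 3 / (g₂ ^ 3 - 27 * g₃ ^ 2) := by
    rw [latticeJ_pairOf_h215]
    exact hτ
  set G₂ := (pairOf τ).g₂ with hG₂
  set G₃ := (pairOf τ).g₃ with hG₃
  have hD : G₂ ^ 3 - 27 * G₃ ^ 2 ≠ 0 := disc_pairOf_ne_zero_h215 τ
  have hcross : G₂ ^ 3 * g₃ ^ 2 = g₂ ^ 3 * G₃ ^ 2 := by
    unfold latticeJ at hJ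
    rw [div_eq_div_iff hD h] at hJ
    linear_combination (-1 / (1728 * 27) : ℂ) * hJ
  have hd1 : (G₂ / 3) ^ 3 - G₃ ^ 2 ≠ 0 := by
    intro h0
    apply hD
    linear_combination (27 : ℂ) * h0
  have hd2 : (g₂ / 3) ^ 3 - g₃ ^ 2 ≠ 0 := by
    intro h0
    apply h
    linear_combination (27 : ℂ) * h0
  obtain ⟨μ, hμ, h4, h6⟩ := Fermat.Agent.S20.JInjective.exists_scale (G₂ / 3) G₃ (g₂ / 3) g₃
    hd1 hd2 (by linear_combination (1 / 27 : ℂ) * hcross)
  refine ⟨scalePair μ⁻¹ (inv_ne_zero hμ) (pairOf τ), ?_, ?_⟩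
  · rw [Fermat.Agent.S20.T2h423.g₂_scalePair, ← hG₂]
    have : g₂ = μ ^ 4 * G₂ := by linear_combination (3 : ℂ) * h4
    rw [this, inv_pow, inv_inv]
  · rw [Fermat.Agent.S20.T2h423.g₃_scalePair, ← hG₃, h6, inv_pow, inv_inv]

end Fermat.Agent.S15.H215

end
end
-- ===== PACK-END S15/H215/LatticeJ.lean

-- ===== PACK-BEGIN S15/H662/Roots.lean
section



/-!
# Row S15, piece I1 (helper662): the half-period values `e₁, e₂, e₃`

* `halfPeriod_const_ne_zero` : the constant `κ` of the half-period translation formula is `≠ 0`;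
* `weierstrassP_ne_of_halfPeriod` : `℘` separates distinct half-periods;
* `e₁ e₂ e₃`, Vieta relations, and `g₂³ - 27 g₃² = 16 ∏ (e_i - e_j)²`.

Mathlib-only.
-/

set_option autoImplicit false

open Filter Topology
open scoped PeriodPair

noncomputable section

namespace Fermat.Agent.S15.H662

/-- the lattice is countable -/
theorem countable_lattice' (L : PeriodPair) : (L.lattice : Set ℂ).Countable := by
  have : Countable L.lattice := L.latticeEquivProd.toEquiv.countable_iff.mpr inferInstance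
  exact Set.countable_coe_iff.mp this

/-- `℘` is not eventually constant near `0` -/
theorem weierstrassP_not_eventually_const (L : PeriodPair) (e : ℂ) :
    ¬ (℘[L] =ᶠ[𝓝[≠] (0 : ℂ)] fun _ => e) := by
  classical
  intro h
  have h1 := meromorphicOrderAt_congr h
  rw [L.order_weierstrassP 0 (zero_mem _), meromorphicOrderAt_const] at h1
  split_ifs at h1
  · exact absurd h1 (by simp)
  · have : ((-2 : ℤ) : WithTop ℤ) = ((0 : ℤ) : WithTop ℤ) := h1
    exact absurd (WithTop.coe_injective this) (by norm_num)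

/-- The constant in the half-period translation formula is nonzero. -/
theorem halfPeriod_const_ne_zero (L : PeriodPair) {h : ℂ} (hh : h ∉ L.lattice)
    (hh2 : 2 * h ∈ L.lattice) {κ : ℂ}
    (hκ : ∀ z : ℂ, z ∉ L.lattice → z - h ∉ L.lattice →
      (℘[L] z - ℘[L] h) * (℘[L] (z - h) - ℘[L] h) = κ) : κ ≠ 0 := by
  intro h0
  subst h0
  set e := ℘[L] h with he
  set S : Set ℂ := (L.lattice : Set ℂ) ∪ (fun z => z + h) '' (L.lattice : Set ℂ) with hS
  have hScount : S.Countable := (countable_lattice' L).union ((countable_lattice' L).image _)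
  have hU : IsPreconnected Sᶜ := by
    refine (Set.Countable.isPathConnected_compl_of_one_lt_rank ?_ hScount).isConnected.isPreconnected
    rw [Complex.rank_real_complex]
    norm_num
  have hmem : ∀ z, z ∈ Sᶜ ↔ z ∉ L.lattice ∧ z - h ∉ L.lattice := by
    intro z
    simp only [hS, Set.mem_compl_iff, Set.mem_union, SetLike.mem_coe, Set.mem_image, not_or]
    constructor
    · rintro ⟨h1, h2⟩
      exact ⟨h1, fun h3 => h2 ⟨z - h, h3, by ring⟩⟩
    · rintro ⟨h1, h2⟩
      refine ⟨h1, ?_⟩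
      rintro ⟨x, hx, rfl⟩
      exact h2 (by simpa using hx)
  have hnegh : -h ∉ L.lattice := fun hm => hh (by simpa using L.lattice.neg_mem hm)
  have han1 : AnalyticOnNhd ℂ (fun z => ℘[L] z - e) Sᶜ := fun z hz =>
    (L.analyticOnNhd_weierstrassP z ((hmem z).mp hz).1).sub analyticAt_const
  have han2 : AnalyticOnNhd ℂ (fun z => ℘[L] (z - h) - e) Sᶜ := fun z hz =>
    (analyticAt_weierstrassP_sub L ((hmem z).mp hz).2).sub analyticAt_const
  have hprod : ∀ z ∈ Sᶜ, (℘[L] z - e) * (℘[L] (z - h) - e) = 0 := fun z hz =>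
    hκ z ((hmem z).mp hz).1 ((hmem z).mp hz).2
  -- in both cases `℘ = e` on `Sᶜ`
  have hconst : ∀ z ∈ Sᶜ, ℘[L] z = e := by
    rcases AnalyticOnNhd.eq_zero_or_eq_zero_of_mul_eq_zero han1 han2 hprod hU with h1 | h1
    · exact fun z hz => sub_eq_zero.mp (h1 z hz)
    · intro z hz
      have hz' : z + h ∈ Sᶜ := by
        rw [hmem] at hz ⊢
        refine ⟨?_, by simpa using hz.1⟩
        intro h3
        apply hz.2
        have : z - h = (z + h) - 2 * h := by ring
        rw [this]
        exact L.lattice.sub_mem h3 hh2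
      have := h1 (z + h) hz'
      simpa [sub_eq_zero] using this
  -- but `℘` is not constant near `0`
  apply weierstrassP_not_eventually_const L e
  have hev1 := eventually_nhdsNE_zero_notMem L
  have hev2 : ∀ᶠ z in 𝓝[≠] (0 : ℂ), z - h ∉ L.lattice := by
    have hopen : IsOpen {z : ℂ | z - h ∉ L.lattice} := by
      have : {z : ℂ | z - h ∉ L.lattice} = (fun z => z - h) ⁻¹' (L.lattice : Set ℂ)ᶜ := rfl
      rw [this]
      exact L.isClosed_lattice.isOpen_compl.preimage (by fun_prop)
    exact mem_nhdsWithin_of_mem_nhds (hopen.mem_nhds (by simpa using hnegh))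
  filter_upwards [hev1, hev2] with z hz1 hz2
  exact hconst z ((hmem z).mpr ⟨hz1, hz2⟩)

/-- the value of `κ`: for half-periods `h, h'` with `h' ∉ L`, `h' - h ∉ L` we get
`κ = (℘ h' - ℘ h) (℘ (h' - h) - ℘ h)`, and in particular `℘ h' ≠ ℘ h`. -/
theorem weierstrassP_ne_of_halfPeriod (L : PeriodPair) {h h' : ℂ} (hh : h ∉ L.lattice)
    (hh2 : 2 * h ∈ L.lattice) (hh' : h' ∉ L.lattice) (hd : h' - h ∉ L.lattice) :
    ℘[L] h' ≠ ℘[L] h := by
  obtain ⟨κ, hκ⟩ := exists_halfPeriod_translate L hh hh2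
  have hne := halfPeriod_const_ne_zero L hh hh2 hκ
  intro heq
  apply hne
  rw [← hκ h' hh' hd, heq, sub_self, zero_mul]

/-! ### The three half-periods -/

/-- `e₁ = ℘(ω₁/2)` -/
def e₁ (L : PeriodPair) : ℂ := ℘[L] (L.ω₁ / 2)
/-- `e₂ = ℘(ω₂/2)` -/
def e₂ (L : PeriodPair) : ℂ := ℘[L] (L.ω₂ / 2)
/-- `e₃ = ℘(ω₁/2 + ω₂/2)` -/
def e₃ (L : PeriodPair) : ℂ := ℘[L] (L.ω₁ / 2 + L.ω₂ / 2)

theorem half_add_half_notMem (L : PeriodPair) : L.ω₁ / 2 + L.ω₂ / 2 ∉ L.lattice := by
  have := (L.mul_ω₁_add_mul_ω₂_mem_lattice (α := 1 / 2) (β := 1 / 2)).not.mpr (by norm_num)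
  have h : L.ω₁ / 2 + L.ω₂ / 2 = ((1 / 2 : ℚ) : ℂ) * L.ω₁ + ((1 / 2 : ℚ) : ℂ) * L.ω₂ := by
    push_cast; ring
  rw [h]; exact this

theorem half_sub_half_notMem (L : PeriodPair) : L.ω₁ / 2 - L.ω₂ / 2 ∉ L.lattice := by
  have := (L.mul_ω₁_add_mul_ω₂_mem_lattice (α := 1 / 2) (β := -1 / 2)).not.mpr (by norm_num)
  have h : L.ω₁ / 2 - L.ω₂ / 2 = ((1 / 2 : ℚ) : ℂ) * L.ω₁ + ((-1 / 2 : ℚ) : ℂ) * L.ω₂ := by
    push_cast; ring
  rw [h]; exact this

theorem two_mul_half₁ (L : PeriodPair) : 2 * (L.ω₁ / 2) ∈ L.lattice := by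
  rw [mul_div_cancel₀ _ (two_ne_zero)]; exact L.ω₁_mem_lattice

theorem two_mul_half₂ (L : PeriodPair) : 2 * (L.ω₂ / 2) ∈ L.lattice := by
  rw [mul_div_cancel₀ _ (two_ne_zero)]; exact L.ω₂_mem_lattice

theorem two_mul_half₃ (L : PeriodPair) : 2 * (L.ω₁ / 2 + L.ω₂ / 2) ∈ L.lattice := by
  have : 2 * (L.ω₁ / 2 + L.ω₂ / 2) = L.ω₁ + L.ω₂ := by ring
  rw [this]; exact L.lattice.add_mem L.ω₁_mem_lattice L.ω₂_mem_lattice

theorem e₁_ne_e₂ (L : PeriodPair) : e₁ L ≠ e₂ L :=
  weierstrassP_ne_of_halfPeriod L L.ω₂_div_two_notMem_lattice (two_mul_half₂ L)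
    L.ω₁_div_two_notMem_lattice (half_sub_half_notMem L)

theorem e₃_ne_e₁ (L : PeriodPair) : e₃ L ≠ e₁ L :=
  weierstrassP_ne_of_halfPeriod L L.ω₁_div_two_notMem_lattice (two_mul_half₁ L)
    (half_add_half_notMem L) (by
      have : L.ω₁ / 2 + L.ω₂ / 2 - L.ω₁ / 2 = L.ω₂ / 2 := by ring
      rw [this]; exact L.ω₂_div_two_notMem_lattice)

theorem e₃_ne_e₂ (L : PeriodPair) : e₃ L ≠ e₂ L :=
  weierstrassP_ne_of_halfPeriod L L.ω₂_div_two_notMem_lattice (two_mul_half₂ L)
    (half_add_half_notMem L) (by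
      have : L.ω₁ / 2 + L.ω₂ / 2 - L.ω₂ / 2 = L.ω₁ / 2 := by ring
      rw [this]; exact L.ω₁_div_two_notMem_lattice)

/-- `℘ h` is a root of the cubic `4 x³ - g₂ x - g₃` for a half-period `h ∉ L` -/
theorem cubic_halfPeriod (L : PeriodPair) {h : ℂ} (hh : h ∉ L.lattice)
    (hh2 : 2 * h ∈ L.lattice) : 4 * ℘[L] h ^ 3 - L.g₂ * ℘[L] h - L.g₃ = 0 := by
  have := L.derivWeierstrassP_sq h hh
  rw [derivWeierstrassP_halfPeriod L hh2] at this
  simpa using this.symm

theorem cubic_e₁ (L : PeriodPair) : 4 * e₁ L ^ 3 - L.g₂ * e₁ L - L.g₃ = 0 :=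
  cubic_halfPeriod L L.ω₁_div_two_notMem_lattice (two_mul_half₁ L)
theorem cubic_e₂ (L : PeriodPair) : 4 * e₂ L ^ 3 - L.g₂ * e₂ L - L.g₃ = 0 :=
  cubic_halfPeriod L L.ω₂_div_two_notMem_lattice (two_mul_half₂ L)
theorem cubic_e₃ (L : PeriodPair) : 4 * e₃ L ^ 3 - L.g₂ * e₃ L - L.g₃ = 0 :=
  cubic_halfPeriod L (half_add_half_notMem L) (two_mul_half₃ L)

/-- Vieta: `e₁ + e₂ + e₃ = 0`. -/
theorem e_sum (L : PeriodPair) : e₁ L + e₂ L + e₃ L = 0 := by
  have h1 := cubic_e₁ L
  have h2 := cubic_e₂ L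
  have h3 := cubic_e₃ L
  have h12 : e₁ L - e₂ L ≠ 0 := sub_ne_zero.mpr (e₁_ne_e₂ L)
  have h31 : e₃ L - e₁ L ≠ 0 := sub_ne_zero.mpr (e₃_ne_e₁ L)
  have h32 : e₃ L - e₂ L ≠ 0 := sub_ne_zero.mpr (e₃_ne_e₂ L)
  -- g₂ = 4 (e₁² + e₁ e₂ + e₂²) = 4 (e₁² + e₁ e₃ + e₃²)
  have a : L.g₂ = 4 * (e₁ L ^ 2 + e₁ L * e₂ L + e₂ L ^ 2) := by
    apply mul_left_cancel₀ h12
    linear_combination h2 - h1
  have b : L.g₂ = 4 * (e₁ L ^ 2 + e₁ L * e₃ L + e₃ L ^ 2) := by
    apply mul_left_cancel₀ h31
    linear_combination h1 - h3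
  apply mul_left_cancel₀ h32
  linear_combination (-1 / 4 : ℂ) * (b - a)

/-- Vieta: `g₂ = -4 (e₁ e₂ + e₁ e₃ + e₂ e₃)`. -/
theorem g₂_eq_e (L : PeriodPair) :
    L.g₂ = -4 * (e₁ L * e₂ L + e₁ L * e₃ L + e₂ L * e₃ L) := by
  have h1 := cubic_e₁ L
  have h2 := cubic_e₂ L
  have h12 : e₁ L - e₂ L ≠ 0 := sub_ne_zero.mpr (e₁_ne_e₂ L)
  have a : L.g₂ = 4 * (e₁ L ^ 2 + e₁ L * e₂ L + e₂ L ^ 2) := by
    apply mul_left_cancel₀ h12
    linear_combination h2 - h1
  have hs := e_sum L
  have h3 : e₃ L = -(e₁ L + e₂ L) := by linear_combination hs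
  rw [a, h3]; ring

/-- Vieta: `g₃ = 4 e₁ e₂ e₃`. -/
theorem g₃_eq_e (L : PeriodPair) : L.g₃ = 4 * e₁ L * e₂ L * e₃ L := by
  have h1 := cubic_e₁ L
  have hg := g₂_eq_e L
  have hs := e_sum L
  have h3 : e₃ L = -(e₁ L + e₂ L) := by linear_combination hs
  rw [hg, h3] at h1
  rw [h3]
  linear_combination -h1

/-- factorisation of the Weierstrass cubic -/
theorem cubic_factor (L : PeriodPair) (x : ℂ) :
    4 * x ^ 3 - L.g₂ * x - L.g₃ = 4 * (x - e₁ L) * (x - e₂ L) * (x - e₃ L) := by
  have hs := e_sum L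
  have h3 : e₃ L = -(e₁ L + e₂ L) := by linear_combination hs
  rw [g₂_eq_e L, g₃_eq_e L, h3]
  ring

/-- the lattice discriminant `g₂³ - 27 g₃²` -/
def latDisc (L : PeriodPair) : ℂ := L.g₂ ^ 3 - 27 * L.g₃ ^ 2

/-- `g₂³ - 27 g₃² = 16 (e₁ - e₂)² (e₁ - e₃)² (e₂ - e₃)²` -/
theorem latDisc_eq_e (L : PeriodPair) :
    latDisc L = 16 * ((e₁ L - e₂ L) * (e₁ L - e₃ L) * (e₂ L - e₃ L)) ^ 2 := by
  have hs := e_sum L
  have h3 : e₃ L = -(e₁ L + e₂ L) := by linear_combination hs
  rw [latDisc, g₂_eq_e L, g₃_eq_e L, h3]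
  ring

theorem latDisc_ne_zero (L : PeriodPair) : latDisc L ≠ 0 := by
  rw [latDisc_eq_e]
  have h12 : e₁ L - e₂ L ≠ 0 := sub_ne_zero.mpr (e₁_ne_e₂ L)
  have h13 : e₁ L - e₃ L ≠ 0 := sub_ne_zero.mpr (e₃_ne_e₁ L).symm
  have h23 : e₂ L - e₃ L ≠ 0 := sub_ne_zero.mpr (e₃_ne_e₂ L).symm
  exact mul_ne_zero (by norm_num) (pow_ne_zero _ (mul_ne_zero (mul_ne_zero h12 h13) h23))

/-- `℘'(z)² = 4 (℘ z - e₁)(℘ z - e₂)(℘ z - e₃)` -/
theorem derivWeierstrassP_sq_factor (L : PeriodPair) {z : ℂ} (hz : z ∉ L.lattice) :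
    ℘'[L] z ^ 2 = 4 * (℘[L] z - e₁ L) * (℘[L] z - e₂ L) * (℘[L] z - e₃ L) := by
  rw [L.derivWeierstrassP_sq z hz, cubic_factor]

end Fermat.Agent.S15.H662

end

end
-- ===== PACK-END S15/H662/Roots.lean

-- ===== PACK-BEGIN S15/H662/SubLattice.lean
section



/-!
# Row S15, piece I1 (helper662): the lattice `L' = L + ℤ ω₁/p`

`divPair L p` is the period pair `(ω₁ / p, ω₂)`; its lattice contains the lattice of `L` with
index `p`.  Membership lemmas for the `p`-division points `k ω₁ / p` and the half-periods.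

Mathlib-only.
-/

set_option autoImplicit false

open Filter Topology
open scoped PeriodPair

noncomputable section

namespace Fermat.Agent.S15.H662

/-- the period pair `(ω₁ / p, ω₂)` -/
def divPair (L : PeriodPair) (p : ℕ) (hp : p ≠ 0) : PeriodPair where
  ω₁ := L.ω₁ / p
  ω₂ := L.ω₂
  indep := by
    have h := L.indep
    rw [LinearIndependent.pair_iff] at h ⊢
    intro s t hst
    have hp' : (p : ℝ) ≠ 0 := by exact_mod_cast hp
    have hpc : (p : ℂ) ≠ 0 := by exact_mod_cast hp
    have key := h (s / p) t (by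
      rw [← hst]
      simp only [Complex.real_smul]
      push_cast
      field_simp)
    refine ⟨?_, key.2⟩
    have := key.1
    rw [div_eq_zero_iff] at this
    exact this.resolve_right hp'

@[simp] lemma divPair_ω₁ (L : PeriodPair) (p : ℕ) (hp : p ≠ 0) :
    (divPair L p hp).ω₁ = L.ω₁ / p := rfl
@[simp] lemma divPair_ω₂ (L : PeriodPair) (p : ℕ) (hp : p ≠ 0) :
    (divPair L p hp).ω₂ = L.ω₂ := rfl

variable (L : PeriodPair) (p : ℕ) (hp : p ≠ 0)

/-- the `p`-division point `ω₁ / p` lies in the big lattice -/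
theorem div_mem_divPair : L.ω₁ / p ∈ (divPair L p hp).lattice :=
  (divPair L p hp).ω₁_mem_lattice

/-- `L ≤ L'` -/
theorem lattice_le_divPair : L.lattice ≤ (divPair L p hp).lattice := by
  have hpc : (p : ℂ) ≠ 0 := by exact_mod_cast hp
  rw [PeriodPair.lattice, Submodule.span_le]
  rintro x (rfl | rfl)
  · have h1 : ((p : ℤ) : ℂ) * (L.ω₁ / p) = L.ω₁ := by
      push_cast; field_simp
    have := (divPair L p hp).lattice.smul_mem (p : ℤ) (div_mem_divPair L p hp)
    rw [zsmul_eq_mul, h1] at this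
    exact this
  · exact (divPair L p hp).ω₂_mem_lattice

/-- integer multiples of `ω₁ / p` lie in `L'` -/
theorem mul_div_mem_divPair (k : ℤ) : (k : ℂ) * (L.ω₁ / p) ∈ (divPair L p hp).lattice := by
  have := (divPair L p hp).lattice.smul_mem k (div_mem_divPair L p hp)
  rwa [zsmul_eq_mul] at this

theorem natMul_div_mem_divPair (k : ℕ) : (k : ℂ) * (L.ω₁ / p) ∈ (divPair L p hp).lattice := by
  have := mul_div_mem_divPair L p hp (k : ℤ)
  simpa using this

/-- rational combinations: membership in `L'` -/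
theorem rat_mem_divPair_iff {α β : ℚ} :
    (α : ℂ) * L.ω₁ + (β : ℂ) * L.ω₂ ∈ (divPair L p hp).lattice ↔
      (α * p).den = 1 ∧ β.den = 1 := by
  have hpc : (p : ℂ) ≠ 0 := by exact_mod_cast hp
  have h := (divPair L p hp).mul_ω₁_add_mul_ω₂_mem_lattice (α := α * p) (β := β)
  rw [← h]
  have : ((α * p : ℚ) : ℂ) * (divPair L p hp).ω₁ + (β : ℂ) * (divPair L p hp).ω₂
      = (α : ℂ) * L.ω₁ + (β : ℂ) * L.ω₂ := by
    simp only [divPair_ω₁, divPair_ω₂]
    push_cast
    field_simp
  rw [this]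

/-- `k / p` is not an integer for `0 < k < p` -/
theorem den_div_ne_one {p k : ℕ} (hk0 : 0 < k) (hkp : k < p) : ((k : ℚ) / p).den ≠ 1 := by
  intro hq
  have hp : p ≠ 0 := by omega
  have hpq : (p : ℚ) ≠ 0 := by exact_mod_cast hp
  obtain ⟨m, hm⟩ : ∃ m : ℤ, ((k : ℚ) / p) = m := ⟨((k : ℚ) / p).num, by
    conv_lhs => rw [← Rat.num_div_den ((k : ℚ) / p), hq]
    simp⟩
  have hkm : (k : ℚ) = m * p := by
    field_simp at hm
    linear_combination hm
  have hkm' : (k : ℤ) = m * p := by exact_mod_cast hkm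
  have hm0 : 0 < m := by
    by_contra hneg
    have hneg' : m ≤ 0 := not_lt.mp hneg
    have : (k : ℤ) ≤ 0 := by
      rw [hkm']
      exact mul_nonpos_of_nonpos_of_nonneg hneg' (by positivity)
    omega
  have : (p : ℤ) ≤ k := by
    rw [hkm']
    nlinarith
  omega

/-- `k ω₁ / p ∉ L` for `0 < k < p` -/
theorem natMul_div_notMem {k : ℕ} (hk0 : 0 < k) (hkp : k < p) :
    (k : ℂ) * (L.ω₁ / p) ∉ L.lattice := by
  have hp : p ≠ 0 := by omega
  have hpc : (p : ℂ) ≠ 0 := by exact_mod_cast hp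
  have h := (L.mul_ω₁_add_mul_ω₂_mem_lattice (α := (k : ℚ) / p) (β := 0)).not.mpr
    (fun h1 => den_div_ne_one hk0 hkp h1.1)
  have e : (k : ℂ) * (L.ω₁ / p) = (((k : ℚ) / p : ℚ) : ℂ) * L.ω₁ + ((0 : ℚ) : ℂ) * L.ω₂ := by
    push_cast
    field_simp
    ring
  rw [e]
  exact h

end Fermat.Agent.S15.H662

end

end
-- ===== PACK-END S15/H662/SubLattice.lean

-- ===== PACK-BEGIN Lib/Cheb/H476/FrobConj.lean
section







/-!
# Frobenius elements at a prime form one conjugacy class modulo inertia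

For a prime number `ℓ`:

* `exists_smul_eq` : `Gal(ℚ̄/ℚ)` acts transitively on the valuation subrings of `ℚ̄` over `ℓ`;
* `isFrobeniusAt_iff`, `mem_inertiaSubgroupIn_iff'` : elementwise descriptions;
* `isFrobeniusAt_conj`, `conj_mem_inertia` : conjugation;
* `mul_inv_mem_inertia_of_isFrobeniusAt` : two Frobenius elements at `A` differ by inertia;
* `exists_conj_of_isFrobeniusAt` : any two Frobenius elements at (possibly different) valuation
  subrings over `ℓ` are conjugate modulo inertia;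
* consequences for homomorphisms: `map_inertia_eq_one_of_liesOver` (unramified at one valuation
  subring over `ℓ` ⇒ unramified at all of them), `charpoly_eq_of_isFrobeniusAt`
  (for `ResidualGaloisRep`, unramified at `ℓ`: the characteristic polynomial of Frobenius at `ℓ`
  is well defined).
-/

set_option autoImplicit false
set_option linter.style.haveILetI false

open scoped Pointwise

namespace Fermat.Agent.Lib.Cheb.H476

open Fermat.Agent.Lib.Cheb.Spec

/-! ### Elementwise descriptions -/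

theorem mem_smul_iff (g : GQ) (A : ValuationSubring Qb) (x : Qb) :
    x ∈ g • A ↔ g⁻¹ x ∈ A := by
  rw [ValuationSubring.mem_pointwise_smul_iff_inv_smul_mem]
  rfl

theorem apply_inv_apply (g : GQ) (x : Qb) : g (g⁻¹ x) = x := by
  show (g * g⁻¹) x = x
  rw [mul_inv_cancel]
  rfl

theorem inv_apply_apply (g : GQ) (x : Qb) : g⁻¹ (g x) = x := by
  show (g⁻¹ * g) x = x
  rw [inv_mul_cancel]
  rfl

theorem mem_nonunits_iff_or (A : ValuationSubring Qb) (x : Qb) :
    x ∈ A.nonunits ↔ x = 0 ∨ x⁻¹ ∉ A :=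
  A.mem_nonunits_iff_or

theorem mem_nonunits_smul_iff (g : GQ) (A : ValuationSubring Qb) (x : Qb) :
    x ∈ (g • A).nonunits ↔ g⁻¹ x ∈ A.nonunits := by
  rw [mem_nonunits_iff_or, mem_nonunits_iff_or, mem_smul_iff, map_inv₀,
    map_eq_zero_iff _ (g⁻¹).injective]

theorem liesOverPrime_smul' (g : GQ) {A : ValuationSubring Qb} {ℓ : ℕ}
    (hA : A.LiesOverPrime ℓ) : (g • A).LiesOverPrime ℓ := by
  show (ℓ : Qb) ∈ (g • A).nonunits
  rw [mem_nonunits_smul_iff, map_natCast]
  exact hA

theorem mem_decomposition_iff (A : ValuationSubring Qb) (σ : GQ) :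
    σ ∈ A.decompositionSubgroup ℚ ↔ ∀ x, σ x ∈ A ↔ x ∈ A := by
  rw [MulAction.mem_stabilizer_iff]
  constructor
  · intro h x
    have h1 : σ x ∈ σ • A ↔ x ∈ A := by
      rw [mem_smul_iff, inv_apply_apply]
    rw [h] at h1
    exact h1
  · intro h
    apply SetLike.ext
    intro x
    rw [mem_smul_iff, ← h (σ⁻¹ x), apply_inv_apply]

/-- Elementwise description of Frobenius elements. -/
theorem isFrobeniusAt_iff (A : ValuationSubring Qb) (σ : GQ) (ℓ : ℕ) :
    A.IsFrobeniusAt σ ℓ ↔
      σ ∈ A.decompositionSubgroup ℚ ∧ ∀ x ∈ A, σ x - x ^ ℓ ∈ A.nonunits := by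
  constructor
  · rintro ⟨hσ, h⟩
    refine ⟨hσ, fun x hx => ?_⟩
    have h1 := h (IsLocalRing.residue A ⟨x, hx⟩)
    rw [← IsLocalRing.ResidueField.residue_smul, ← map_pow, ← sub_eq_zero, ← map_sub,
      IsLocalRing.residue_eq_zero_iff, ← ValuationSubring.coe_mem_nonunits_iff] at h1
    exact h1
  · rintro ⟨hσ, h⟩
    refine ⟨hσ, fun y => ?_⟩
    obtain ⟨a, rfl⟩ := IsLocalRing.residue_surjective y
    rw [← IsLocalRing.ResidueField.residue_smul, ← map_pow, ← sub_eq_zero, ← map_sub,
      IsLocalRing.residue_eq_zero_iff, ← ValuationSubring.coe_mem_nonunits_iff]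
    exact h a.1 a.2

/-- Elementwise description of the inertia group. -/
theorem mem_inertiaSubgroupIn_iff' (A : ValuationSubring Qb) (σ : GQ) :
    σ ∈ A.inertiaSubgroupIn ℚ ↔
      σ ∈ A.decompositionSubgroup ℚ ∧ ∀ x ∈ A, σ x - x ∈ A.nonunits := by
  constructor
  · intro hσ
    have hD : σ ∈ A.decompositionSubgroup ℚ := by
      obtain ⟨g, -, rfl⟩ := hσ
      exact g.2
    exact ⟨hD, fun x hx => sub_mem_nonunits_of_mem_inertia A σ hσ x hx⟩
  · rintro ⟨hD, h⟩
    refine ⟨⟨σ, hD⟩, ?_, rfl⟩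
    show (⟨σ, hD⟩ : A.decompositionSubgroup ℚ) ∈ MonoidHom.ker
      (MulSemiringAction.toRingAut (A.decompositionSubgroup ℚ) (IsLocalRing.ResidueField A))
    rw [MonoidHom.mem_ker]
    apply RingEquiv.ext
    intro y
    obtain ⟨x, rfl⟩ := IsLocalRing.residue_surjective y
    show (⟨σ, hD⟩ : A.decompositionSubgroup ℚ) • (IsLocalRing.residue A x)
      = IsLocalRing.residue A x
    rw [← IsLocalRing.ResidueField.residue_smul, ← sub_eq_zero, ← map_sub,
      IsLocalRing.residue_eq_zero_iff, ← ValuationSubring.coe_mem_nonunits_iff]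
    exact h x.1 x.2

/-! ### Conjugation -/

theorem conj_apply (g σ : GQ) (x : Qb) : (g * σ * g⁻¹) x = g (σ (g⁻¹ x)) := rfl

theorem conj_mem_decomposition (g : GQ) {A : ValuationSubring Qb} {σ : GQ}
    (hσ : σ ∈ A.decompositionSubgroup ℚ) : g * σ * g⁻¹ ∈ (g • A).decompositionSubgroup ℚ := by
  rw [mem_decomposition_iff] at hσ ⊢
  intro x
  rw [mem_smul_iff, mem_smul_iff, conj_apply, inv_apply_apply, hσ]

/-- Conjugation carries Frobenius elements at `A` to Frobenius elements at `g • A`. -/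
theorem isFrobeniusAt_conj (g : GQ) {A : ValuationSubring Qb} {σ : GQ} {ℓ : ℕ}
    (hσ : A.IsFrobeniusAt σ ℓ) : (g • A).IsFrobeniusAt (g * σ * g⁻¹) ℓ := by
  rw [isFrobeniusAt_iff] at hσ ⊢
  refine ⟨conj_mem_decomposition g hσ.1, fun x hx => ?_⟩
  rw [mem_smul_iff] at hx
  rw [mem_nonunits_smul_iff, map_sub, map_pow, conj_apply, inv_apply_apply]
  exact hσ.2 _ hx

/-- Conjugation carries the inertia group of `A` into the inertia group of `g • A`. -/
theorem conj_mem_inertia (g : GQ) {A : ValuationSubring Qb} {σ : GQ}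
    (hσ : σ ∈ A.inertiaSubgroupIn ℚ) : g * σ * g⁻¹ ∈ (g • A).inertiaSubgroupIn ℚ := by
  rw [mem_inertiaSubgroupIn_iff'] at hσ ⊢
  refine ⟨conj_mem_decomposition g hσ.1, fun x hx => ?_⟩
  rw [mem_smul_iff] at hx
  rw [mem_nonunits_smul_iff, map_sub, conj_apply, inv_apply_apply]
  exact hσ.2 _ hx

/-- Two Frobenius elements at the same valuation subring differ by an element of the inertia
group. -/
theorem mul_inv_mem_inertia_of_isFrobeniusAt {A : ValuationSubring Qb} {σ τ : GQ} {ℓ : ℕ}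
    (hσ : A.IsFrobeniusAt σ ℓ) (hτ : A.IsFrobeniusAt τ ℓ) :
    τ * σ⁻¹ ∈ A.inertiaSubgroupIn ℚ := by
  rw [isFrobeniusAt_iff] at hσ hτ
  rw [mem_inertiaSubgroupIn_iff']
  refine ⟨mul_mem hτ.1 (inv_mem hσ.1), fun x hx => ?_⟩
  have hy : σ⁻¹ x ∈ A := ((mem_decomposition_iff A σ⁻¹).mp (inv_mem hσ.1) x).mpr hx
  have h1 := hτ.2 _ hy
  have h2 := hσ.2 _ hy
  rw [apply_inv_apply] at h2
  have h3 : (τ * σ⁻¹) x - x = (τ (σ⁻¹ x) - (σ⁻¹ x) ^ ℓ) - (x - (σ⁻¹ x) ^ ℓ) := by
    rw [AlgEquiv.mul_apply]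
    ring
  rw [h3]
  exact A.nonunits.sub_mem h1 h2

/-! ### Transitivity -/

/-- A valuation subring of `ℚ̄` over `ℓ` is determined by the prime of `ℤ̄` below it. -/
theorem map_mem_of_primeBelow {ℓ : ℕ} (hℓ : ℓ.Prime) {A A' : ValuationSubring Qb}
    (hA : A.LiesOverPrime ℓ) (hA' : A'.LiesOverPrime ℓ) (τ : GQ)
    (h : ∀ x : integralClosure ℤ Qb,
      τ • x ∈ Fermat.Agent.S54.primeBelow A' ↔ x ∈ Fermat.Agent.S54.primeBelow A)
    (x : Qb) (hx : x ∈ A) : τ x ∈ A' := by
  haveI : Algebra.IsAlgebraic ℚ Qb := AlgebraicClosure.isAlgebraic ℚ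
  obtain ⟨b, s, hb, hs, hsA, hxs⟩ := (Fermat.Agent.S54.mem_valuationSubring_iff A ℓ hℓ hA x).mp hx
  refine (Fermat.Agent.S54.mem_valuationSubring_iff A' ℓ hℓ hA' (τ x)).mpr
    ⟨τ b, τ s, hb.map τ, hs.map τ, ?_, ?_⟩
  · exact (h ⟨s, hs⟩).not.mpr hsA
  · rw [← map_mul, hxs]

theorem smul_eq_of_primeBelow {ℓ : ℕ} (hℓ : ℓ.Prime) {A A' : ValuationSubring Qb}
    (hA : A.LiesOverPrime ℓ) (hA' : A'.LiesOverPrime ℓ) (τ : GQ)
    (h : ∀ x : integralClosure ℤ Qb,
      τ • x ∈ Fermat.Agent.S54.primeBelow A' ↔ x ∈ Fermat.Agent.S54.primeBelow A) :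
    τ • A = A' := by
  apply SetLike.ext
  intro x
  rw [mem_smul_iff]
  constructor
  · intro hx
    have := map_mem_of_primeBelow hℓ hA hA' τ h _ hx
    rwa [apply_inv_apply] at this
  · intro hx
    refine map_mem_of_primeBelow hℓ hA' hA τ⁻¹ (fun y => ?_) x hx
    rw [← h (τ⁻¹ • y), smul_inv_smul]

/-- **Transitivity**: `Gal(ℚ̄/ℚ)` acts transitively on the valuation subrings of `ℚ̄` over a
prime number. -/
theorem exists_smul_eq {ℓ : ℕ} (hℓ : ℓ.Prime) {A A' : ValuationSubring Qb}
    (hA : A.LiesOverPrime ℓ) (hA' : A'.LiesOverPrime ℓ) : ∃ g : GQ, g • A = A' := by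
  haveI := Fermat.Agent.S54.isGalois_algebraicClosure_rat
  haveI : Algebra.IsAlgebraic ℚ (AlgebraicClosure ℚ) := AlgebraicClosure.isAlgebraic ℚ
  letI : TopologicalSpace (integralClosure ℤ (AlgebraicClosure ℚ)) := ⊥
  haveI : DiscreteTopology (integralClosure ℤ (AlgebraicClosure ℚ)) := ⟨rfl⟩
  haveI := Fermat.Agent.S54.continuousSMul_integralClosure
  haveI := Fermat.Agent.S54.isInvariant_integralClosure
  haveI := Fermat.Agent.S54.primeBelow_isPrime A
  haveI := Fermat.Agent.S54.primeBelow_isPrime A'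
  have hmax : (Ideal.span {(ℓ : ℤ)}).IsMaximal :=
    PrincipalIdealRing.isMaximal_of_irreducible (Nat.prime_iff_prime_int.mp hℓ).irreducible
  have hunder : ∀ B : ValuationSubring Qb, B.LiesOverPrime ℓ →
      (Fermat.Agent.S54.primeBelow B).under ℤ = Ideal.span {(ℓ : ℤ)} := by
    intro B hB
    haveI := Fermat.Agent.S54.primeBelow_isPrime B
    have hle : Ideal.span {(ℓ : ℤ)} ≤ (Fermat.Agent.S54.primeBelow B).under ℤ := by
      rw [Ideal.span_le, Set.singleton_subset_iff]
      show algebraMap ℤ (integralClosure ℤ (AlgebraicClosure ℚ)) (ℓ : ℤ) ∈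
        Fermat.Agent.S54.primeBelow B
      rw [Fermat.Agent.S54.mem_primeBelow]
      have : ((algebraMap ℤ (integralClosure ℤ (AlgebraicClosure ℚ)) (ℓ : ℤ) :
          integralClosure ℤ (AlgebraicClosure ℚ)) : AlgebraicClosure ℚ) = (ℓ : Qb) := by
        simp
      rw [this]
      exact hB
    have hne : (Fermat.Agent.S54.primeBelow B).under ℤ ≠ ⊤ :=
      (Ideal.IsPrime.under ℤ (Fermat.Agent.S54.primeBelow B)).ne_top
    exact (hmax.eq_of_le hne hle).symm
  obtain ⟨g, hg⟩ := Algebra.IsInvariant.exists_smul_of_under_eq_of_profinite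
    (A := ℤ) (G := GQ) (Fermat.Agent.S54.primeBelow A) (Fermat.Agent.S54.primeBelow A')
    ((hunder A hA).trans (hunder A' hA').symm)
  refine ⟨g, smul_eq_of_primeBelow hℓ hA hA' g fun x => ?_⟩
  rw [hg]
  exact Ideal.smul_mem_pointwise_smul_iff

/-! ### Conjugacy of Frobenius elements -/

/-- **Frobenius elements over `ℓ` are conjugate modulo inertia.** -/
theorem exists_conj_of_isFrobeniusAt {ℓ : ℕ} (hℓ : ℓ.Prime) {A A' : ValuationSubring Qb}
    (hA : A.LiesOverPrime ℓ) (hA' : A'.LiesOverPrime ℓ) {φ φ' : GQ}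
    (hφ : A.IsFrobeniusAt φ ℓ) (hφ' : A'.IsFrobeniusAt φ' ℓ) :
    ∃ g : GQ, g • A = A' ∧ φ' * (g * φ * g⁻¹)⁻¹ ∈ A'.inertiaSubgroupIn ℚ := by
  obtain ⟨g, hg⟩ := exists_smul_eq hℓ hA hA'
  refine ⟨g, hg, ?_⟩
  have h1 := isFrobeniusAt_conj g hφ
  rw [hg] at h1
  exact mul_inv_mem_inertia_of_isFrobeniusAt h1 hφ'

/-- The inertia groups at the valuation subrings over `ℓ` are conjugate. -/
theorem exists_conj_of_mem_inertia {ℓ : ℕ} (hℓ : ℓ.Prime) {A A' : ValuationSubring Qb}
    (hA : A.LiesOverPrime ℓ) (hA' : A'.LiesOverPrime ℓ) {ι' : GQ}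
    (hι' : ι' ∈ A'.inertiaSubgroupIn ℚ) :
    ∃ g : GQ, ∃ ι ∈ A.inertiaSubgroupIn ℚ, ι' = g * ι * g⁻¹ := by
  obtain ⟨g, hg⟩ := exists_smul_eq hℓ hA' hA
  have h1 := conj_mem_inertia g hι'
  rw [hg] at h1
  refine ⟨g⁻¹, _, h1, ?_⟩
  group

/-! ### Consequences for homomorphisms -/

/-- A homomorphism which is trivial on the inertia group at ONE valuation subring over `ℓ` is
trivial on the inertia groups at ALL valuation subrings over `ℓ`. -/
theorem map_inertia_eq_one_of_liesOver {M : Type*} [Monoid M] (ρ : GQ →* M) {ℓ : ℕ}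
    (hℓ : ℓ.Prime) {A A' : ValuationSubring Qb} (hA : A.LiesOverPrime ℓ)
    (hA' : A'.LiesOverPrime ℓ) (h : ∀ ι ∈ A.inertiaSubgroupIn ℚ, ρ ι = 1) :
    ∀ ι ∈ A'.inertiaSubgroupIn ℚ, ρ ι = 1 := by
  intro ι' hι'
  obtain ⟨g, ι, hι, rfl⟩ := exists_conj_of_mem_inertia hℓ hA hA' hι'
  rw [map_mul, map_mul, h ι hι, mul_one, ← map_mul, mul_inv_cancel, map_one]

/-- If `ρ` is trivial on inertia at `ℓ`, the values of `ρ` at any two Frobenius elements over `ℓ`
are conjugate: `ρ φ' * ρ g = ρ g * ρ φ`. -/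
theorem exists_map_conj_of_isFrobeniusAt {M : Type*} [Monoid M] (ρ : GQ →* M) {ℓ : ℕ}
    (hℓ : ℓ.Prime) {A A' : ValuationSubring Qb} (hA : A.LiesOverPrime ℓ)
    (hA' : A'.LiesOverPrime ℓ) (h : ∀ ι ∈ A'.inertiaSubgroupIn ℚ, ρ ι = 1) {φ φ' : GQ}
    (hφ : A.IsFrobeniusAt φ ℓ) (hφ' : A'.IsFrobeniusAt φ' ℓ) :
    ∃ g : GQ, ρ φ' = ρ g * ρ φ * ρ g⁻¹ := by
  obtain ⟨g, -, hg⟩ := exists_conj_of_isFrobeniusAt hℓ hA hA' hφ hφ'
  refine ⟨g, ?_⟩
  have h1 := h _ hg
  have h2 : φ' = (φ' * (g * φ * g⁻¹)⁻¹) * (g * φ * g⁻¹) := by group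
  rw [h2, map_mul, h1, one_mul, map_mul, map_mul]

/-- For a residual representation unramified at `ℓ`, the characteristic polynomial of Frobenius
at `ℓ` does not depend on the choice of the valuation subring over `ℓ` and of the Frobenius
element. -/
theorem charpoly_eq_of_isFrobeniusAt {k : Type} [Field k] (ρ : ResidualGaloisRep k) {ℓ : ℕ}
    (hℓ : ℓ.Prime) (hur : ρ.IsUnramifiedAt ℓ) {A A' : ValuationSubring Qb}
    (hA : A.LiesOverPrime ℓ) (hA' : A'.LiesOverPrime ℓ) {φ φ' : GQ}
    (hφ : A.IsFrobeniusAt φ ℓ) (hφ' : A'.IsFrobeniusAt φ' ℓ) :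
    LinearMap.charpoly (ρ.ρ φ') = LinearMap.charpoly (ρ.ρ φ) := by
  obtain ⟨g, hg⟩ := exists_map_conj_of_isFrobeniusAt ρ.ρ hℓ hA hA' (hur A' hA') hφ hφ'
  have h1 : ρ.ρ g * ρ.ρ g⁻¹ = 1 := by rw [← map_mul, mul_inv_cancel, map_one]
  have h2 : ρ.ρ g⁻¹ * ρ.ρ g = 1 := by rw [← map_mul, inv_mul_cancel, map_one]
  let e : ρ.V ≃ₗ[k] ρ.V :=
    { toLinearMap := ρ.ρ g
      invFun := ρ.ρ g⁻¹
      left_inv := fun x => by
        show (ρ.ρ g⁻¹ * ρ.ρ g) x = x
        rw [h2]; rfl
      right_inv := fun x => by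
        show (ρ.ρ g * ρ.ρ g⁻¹) x = x
        rw [h1]; rfl }
  have h3 : ρ.ρ φ' = e.conj (ρ.ρ φ) := by
    rw [hg]
    rfl
  rw [h3, LinearEquiv.charpoly_conj]

end Fermat.Agent.Lib.Cheb.H476

end
-- ===== PACK-END Lib/Cheb/H476/FrobConj.lean

-- ===== PACK-BEGIN S37/H28/NCGen.lean
section



/-!
# S37 / node_rim, NC producer (helper28), part 1: generic form

`K` a field of characteristic `0`, `F` a field with `[Algebra K[X] F]` (the coordinate is
`x = algebraMap K[X] F X`), finite over `L₀ = Frac K[X]`.  `B_η = integralClosure K[X] F`.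

* `isRadical_span_X_sub_C` : if `F` is unramified over `x = c` (in the valuation-subring shape
  of the field `unramified` of `S18.Alg.GoodModel`), then `(X - C c)` generates a radical ideal
  of `B_η`.  This is the hypothesis `hNC` of `S37.H159.RedCtx.lift_integral` (Theorem M).
* `isIntegralElem_div_of_pow` : the elementwise form.
* `unramified_inv` : the `unramified` shape for the coordinate `x⁻¹`.
-/

set_option autoImplicit false
set_option linter.unusedSectionVars false
set_option linter.style.haveILetI false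

noncomputable section

namespace Fermat.Agent.S37.H28

open Polynomial

section Generic

variable {K : Type*} [Field K] [CharZero K] {F : Type*} [Field F] [Algebra K[X] F]
variable (L₀ : Type*) [Field L₀] [Algebra K[X] L₀] [IsFractionRing K[X] L₀] [Algebra L₀ F]
  [IsScalarTower K[X] L₀ F] [FiniteDimensional L₀ F]

include L₀ in
theorem algebraMap_polynomial_injective : Function.Injective (algebraMap K[X] F) := by
  rw [IsScalarTower.algebraMap_eq K[X] L₀ F]
  exact (algebraMap L₀ F).injective.comp (IsFractionRing.injective K[X] L₀)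

omit [Algebra K[X] F] [Algebra L₀ F] [IsScalarTower K[X] L₀ F] [FiniteDimensional L₀ F] in
theorem charZero_of_fractionRing (K : Type*) [Field K] [CharZero K] (L₀ : Type*) [Field L₀]
    [Algebra K[X] L₀] [IsFractionRing K[X] L₀] : CharZero L₀ := by
  have h : Function.Injective ((algebraMap K[X] L₀).comp (C : K →+* K[X])) :=
    (IsFractionRing.injective K[X] L₀).comp Polynomial.C_injective
  exact charZero_of_injective_ringHom h

include L₀ in
theorem isNoetherianRing_integralClosure : IsNoetherianRing (integralClosure K[X] F) := by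
  haveI : CharZero L₀ := charZero_of_fractionRing K L₀
  exact IsIntegralClosure.isNoetherianRing K[X] L₀ F (integralClosure K[X] F)

include L₀ in
theorem isIntegrallyClosed_integralClosure : IsIntegrallyClosed (integralClosure K[X] F) :=
  integralClosure.isIntegrallyClosedOfFiniteExtension L₀

include L₀ in
/-- **NC, typed form** (= `hNC` of Theorem M): unramified over `x = c` implies that `X - C c`
generates a radical ideal of `B_η`. -/
theorem isRadical_span_X_sub_C (Lc : Subfield F)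
    (hLc : ∀ a ∈ Lc, ∃ a₀ : K, algebraMap K[X] F (C a₀) = a)
    (S : Finset F)
    (hunr : ∀ O : ValuationSubring F, (∀ a ∈ Lc, a ∈ O) → ∀ c ∈ Lc, c ∉ S →
      algebraMap K[X] F X - c ∈ O → (algebraMap K[X] F X - c)⁻¹ ∉ O →
        ∀ t ∈ O, t⁻¹ ∉ O → t * (algebraMap K[X] F X - c)⁻¹ ∈ O)
    (c : K) (hcL : algebraMap K[X] F (C c) ∈ Lc) (hcS : algebraMap K[X] F (C c) ∉ S) :
    (Ideal.span {algebraMap K[X] (integralClosure K[X] F) (X - C c)}).IsRadical := by
  classical
  haveI := isNoetherianRing_integralClosure (K := K) (F := F) L₀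
  haveI := isIntegrallyClosed_integralClosure (K := K) (F := F) L₀
  have hinj := algebraMap_polynomial_injective (K := K) (F := F) L₀
  have hπ : algebraMap K[X] (integralClosure K[X] F) (X - C c) ≠ 0 := by
    intro h0
    have h1 : algebraMap K[X] F (X - C c) = 0 := by
      have := congrArg (algebraMap (integralClosure K[X] F) F) h0
      rwa [← IsScalarTower.algebraMap_apply, map_zero] at this
    have h2 : (X - C c : K[X]) = 0 := hinj (by rw [h1, map_zero])
    exact Polynomial.X_sub_C_ne_zero c h2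
  refine Fermat.Agent.S18.H754.isRadical_span_of_unramified (Ω := F) Lc _ hπ 1 ?_ ?_
    (algebraMap K[X] F X) S {algebraMap K[X] F (C c)} ?_ 1 (one_mem _) one_ne_zero ?_ hunr
  · intro 𝔓 h𝔓 _ _ h1
    exact h𝔓.ne_top ((Ideal.eq_top_iff_one _).2 h1)
  · intro a ha
    obtain ⟨a₀, rfl⟩ := hLc a ha
    refine ⟨0, ?_⟩
    rw [pow_zero, one_mul]
    have : algebraMap K[X] F (C a₀) =
        algebraMap (integralClosure K[X] F) F (algebraMap K[X] (integralClosure K[X] F) (C a₀)) := by
      rw [← IsScalarTower.algebraMap_apply]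
    rw [this]
    exact isIntegral_algebraMap
  · intro c' hc'
    rw [Finset.mem_singleton] at hc'
    subst hc'
    exact ⟨hcL, hcS⟩
  · rw [Finset.prod_singleton, one_mul, ← IsScalarTower.algebraMap_apply, map_sub]

end Generic

end Fermat.Agent.S37.H28

end
end
-- ===== PACK-END S37/H28/NCGen.lean

-- ===== PACK-BEGIN S37/H159/MInt.lean
section




/-!
# Theorem M, part 2: lifted residue bases, saturation, integrality of reductions
(row S37, piece R-b; seat helper159)

In a reduction context `G` with `[F : K(x)] = [F_k : k(x̄)] < ∞`: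

* `exists_resid_basis` : there is a `K(x)`-basis of `F` inside `O` which is residually
  independent (lift of a `k(x̄)`-basis of `F_k`);
* `isIntegralElem_of_mem` (saturation, QEP): an element of `O` integral over `K[x]` is integral
  over `A[x]`;
* `isIntegral_ρ` : its reduction is integral over `k[x̄]`.
-/

set_option autoImplicit false
set_option linter.unusedSectionVars false

namespace Fermat.Agent.S37.H159

open Polynomial

namespace RedCtx

variable {K : Type*} [Field K] {A : ValuationSubring K} {k : Type*} [Field k]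
  {F : Type*} [Field F] [Algebra K[X] F] {Fk : Type*} [Field Fk] [Algebra k[X] Fk]
  (G : RedCtx A k F Fk)

/-- `A[X] → O`, `P ↦ P(x)`. -/
noncomputable def polyO : A[X] →+* G.O :=
  RingHom.codRestrict ((algebraMap K[X] F).comp (mapRingHom A.subtype)) G.O G.mem

theorem polyO_coe (p : A[X]) : ((G.polyO p : G.O) : F) = algebraMap K[X] F (p.map A.subtype) :=
  rfl

theorem ρ_polyO (p : A[X]) : G.ρ (G.polyO p) = algebraMap k[X] Fk (p.map G.π) :=
  G.ρ_poly p

theorem ρ_comp_polyO : G.ρ.comp G.polyO = (algebraMap k[X] Fk).comp (mapRingHom G.π) :=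
  RingHom.ext fun p => G.ρ_polyO p

/-- the structure map `A[X] → F` -/
noncomputable def polyF : A[X] →+* F := (algebraMap K[X] F).comp (mapRingHom A.subtype)

theorem subtype_comp_polyO : G.O.subtype.comp G.polyO = polyF (A := A) (F := F) := rfl

/-- If `f ∈ O` is integral over `A[x]`, then `ρ f` is integral over `k[x̄]`. -/
theorem isIntegral_ρ_of_isIntegralElem (f : G.O)
    (hf : (polyF (A := A) (F := F)).IsIntegralElem (f : F)) : IsIntegral k[X] (G.ρ f) := by
  obtain ⟨μ, hμ, hμf⟩ := hf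
  have h1 : Polynomial.eval₂ G.polyO f μ = 0 := by
    apply Subtype.coe_injective
    have := Polynomial.hom_eval₂ μ G.polyO G.O.subtype f
    rw [subtype_comp_polyO] at this
    exact this.trans hμf
  have h2 := Polynomial.hom_eval₂ μ G.polyO G.ρ f
  rw [h1, map_zero, ρ_comp_polyO] at h2
  refine ⟨μ.map (mapRingHom G.π), hμ.map _, ?_⟩
  rw [Polynomial.eval₂_map]
  exact h2.symm

section Rational

variable (L₀ : Type*) [Field L₀] [Algebra K[X] L₀] [IsFractionRing K[X] L₀] [Algebra L₀ F]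
  [IsScalarTower K[X] L₀ F]
variable (L₀k : Type*) [Field L₀k] [Algebra k[X] L₀k] [IsFractionRing k[X] L₀k] [Algebra L₀k Fk]
  [IsScalarTower k[X] L₀k Fk]

/-- Reduction of a `V₀`-combination of elements of `O`. -/
theorem ρ_sum_smul {ι : Type*} [Fintype ι] (y : ι → F) (hy : ∀ i, y i ∈ G.O)
    (c : ι → L₀) (hc : ∀ i, c i ∈ G.V₀ L₀) (hs : (∑ i, c i • y i) ∈ G.O) :
    G.ρ ⟨∑ i, c i • y i, hs⟩ = ∑ i, G.ρ₀ L₀ L₀k ⟨c i, hc i⟩ • G.ρ ⟨y i, hy i⟩ := by
  have h1 : (⟨∑ i, c i • y i, hs⟩ : G.O) = ∑ i, G.incl L₀ ⟨c i, hc i⟩ * ⟨y i, hy i⟩ := by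
    apply Subtype.ext
    show (∑ i, c i • y i) = G.O.subtype (∑ i, G.incl L₀ ⟨c i, hc i⟩ * ⟨y i, hy i⟩)
    rw [map_sum]
    refine Finset.sum_congr rfl fun i _ => ?_
    rw [Algebra.smul_def]
    rfl
  rw [h1, map_sum]
  refine Finset.sum_congr rfl fun i _ => ?_
  rw [map_mul, Algebra.smul_def, G.algebraMap_ρ₀]
  rfl

/-- Lifts of a linearly independent family are residually independent. -/
theorem residIndep_of_linearIndependent {ι : Type*} [Fintype ι] (y : ι → F)
    (hy : ∀ i, y i ∈ G.O) (hli : LinearIndependent L₀k (fun i => G.ρ ⟨y i, hy i⟩)) :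
    H217.ResidIndep (G.V₀ L₀) G.O y := by
  intro c hc hs i
  have hsO : (∑ i, c i • y i) ∈ G.O := G.O.nonunits_subset hs
  have h1 := G.ρ_sum_smul L₀ L₀k y hy c hc hsO
  have h2 : G.ρ ⟨∑ i, c i • y i, hsO⟩ = 0 := (G.ρ_eq_zero_iff _).mpr hs
  rw [h2] at h1
  have h3 := Fintype.linearIndependent_iff.mp hli _ h1.symm i
  exact (G.ρ₀_eq_zero_iff L₀ L₀k _).mp h3

variable [FiniteDimensional L₀k Fk]

/-- Existence of a residually independent basis of `F / K(x)` in `O`. -/
theorem exists_resid_basis (hdeg : Module.finrank L₀ F = Module.finrank L₀k Fk) :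
    ∃ y : Module.Basis (Fin (Module.finrank L₀k Fk)) L₀ F,
      (∀ i, y i ∈ G.O) ∧ H217.ResidIndep (G.V₀ L₀) G.O y := by
  classical
  set n := Module.finrank L₀k Fk with hn
  have hpos : 0 < n := Module.finrank_pos
  have : Nonempty (Fin n) := ⟨⟨0, hpos⟩⟩
  let bk : Module.Basis (Fin n) L₀k Fk := Module.finBasis L₀k Fk
  choose u hu using fun i => G.ρ_surj (bk i)
  let y : Fin n → F := fun i => (u i : F)
  have hy : ∀ i, y i ∈ G.O := fun i => (u i).2
  have hli : LinearIndependent L₀k (fun i => G.ρ ⟨y i, hy i⟩) := by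
    have : (fun i => G.ρ ⟨y i, hy i⟩) = bk := funext fun i => hu i
    rw [this]
    exact bk.linearIndependent
  have hR := G.residIndep_of_linearIndependent L₀ L₀k y hy hli
  obtain ⟨b, hb⟩ := H217.exists_basis_of_residIndep hR (by rw [Fintype.card_fin, hdeg])
  refine ⟨b, fun i => ?_, ?_⟩
  · rw [hb]; exact hy i
  · rw [hb]; exact hR

variable [FiniteDimensional L₀ F] [Algebra.IsAlgebraic L₀ F]

/-- **Saturation (QEP)**: an element of `O` which is integral over `K[x]` is integral over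
`A[x]`. -/
theorem isIntegralElem_of_mem (hdeg : Module.finrank L₀ F = Module.finrank L₀k Fk)
    (f : F) (hfO : f ∈ G.O) (hf : IsIntegral K[X] f) :
    (polyF (A := A) (F := F)).IsIntegralElem f := by
  classical
  obtain ⟨y, hyO, hR⟩ := G.exists_resid_basis L₀ L₀k hdeg
  have hcoef : ∀ i, algebraMap K[X] L₀ ((minpoly K[X] f).coeff i) ∈ G.V₀ L₀ := fun i =>
    H217.minpoly_coeff_mem_of_isIntegral (G.valExtends L₀) y hR hyO (R := K[X]) ⟨f, hfO⟩ hf i
  have hl : minpoly K[X] f ∈ Polynomial.lifts (mapRingHom A.subtype) := by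
    rw [Polynomial.lifts_iff_coeff_lifts]
    intro i
    obtain ⟨P₁, hP₁⟩ := G.exists_map_eq_of_mem_V₀ L₀ L₀k _ (hcoef i)
    exact ⟨P₁, hP₁⟩
  obtain ⟨μ, hμ, -, hμm⟩ := Polynomial.lifts_and_degree_eq_and_monic hl (minpoly.monic hf)
  refine ⟨μ, hμm, ?_⟩
  have h1 : Polynomial.eval₂ (polyF (A := A) (F := F)) f μ =
      Polynomial.eval₂ (algebraMap K[X] F) f (μ.map (mapRingHom A.subtype)) := by
    rw [Polynomial.eval₂_map]
    rfl
  rw [h1, hμ]
  exact minpoly.aeval K[X] f

/-- The reduction of an element of `O` integral over `K[x]` is integral over `k[x̄]`. -/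
theorem isIntegral_ρ (hdeg : Module.finrank L₀ F = Module.finrank L₀k Fk)
    (f : G.O) (hf : IsIntegral K[X] (f : F)) : IsIntegral k[X] (G.ρ f) :=
  G.isIntegral_ρ_of_isIntegralElem f (G.isIntegralElem_of_mem L₀ L₀k hdeg f f.2 hf)

end Rational

end RedCtx

end Fermat.Agent.S37.H159

end
-- ===== PACK-END S37/H159/MInt.lean

-- ===== PACK-BEGIN S37/H159/MOrder.lean
section



/-!
# Theorem M, part 3: the order `T = ρ(O ∩ B_η)` of the special fibre
(row S37, piece R-b; seat helper159)

`B_η` = integral closure of `K[x]` in `F`, `B = O ∩ B_η`, `T = ρ(B) ⊆ F_k`.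
`T` is a `k[X]`-subalgebra of `F_k`, integral over `k[X]`, with fraction field `F_k`, finite free
of rank `n = [F_k : k(x̄)]` over `k[X]`.
-/

set_option autoImplicit false
set_option linter.unusedSectionVars false
set_option linter.style.haveILetI false

namespace Fermat.Agent.S37.H159

open Polynomial

namespace RedCtx

variable {K : Type*} [Field K] {A : ValuationSubring K} {k : Type*} [Field k]
  {F : Type*} [Field F] [Algebra K[X] F] {Fk : Type*} [Field Fk] [Algebra k[X] Fk]
  (G : RedCtx A k F Fk)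

/-- `B = O ∩ B_η` as a subring of `O`. -/
noncomputable def Bsub : Subring G.O := (integralClosure K[X] F).toSubring.comap G.O.subtype

theorem mem_Bsub (f : G.O) : f ∈ G.Bsub ↔ IsIntegral K[X] (f : F) := Iff.rfl

/-- the order `T = ρ(B)` of the special fibre -/
noncomputable def Tk : Subalgebra k[X] Fk :=
  { (G.Bsub.map G.ρ).toSubsemiring with
    algebraMap_mem' := fun p => by
      obtain ⟨P, rfl⟩ := Polynomial.map_surjective G.π G.π_surj p
      exact ⟨G.polyO P, (isIntegral_algebraMap : IsIntegral K[X] (algebraMap K[X] F _)),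
        G.ρ_polyO P⟩ }

theorem mem_Tk (z : Fk) : z ∈ G.Tk ↔ ∃ f : G.O, IsIntegral K[X] (f : F) ∧ G.ρ f = z :=
  Iff.rfl

theorem ρ_mem_Tk (f : G.O) (hf : IsIntegral K[X] (f : F)) : G.ρ f ∈ G.Tk := ⟨f, hf, rfl⟩

section Rational

variable (L₀ : Type*) [Field L₀] [Algebra K[X] L₀] [IsFractionRing K[X] L₀] [Algebra L₀ F]
  [IsScalarTower K[X] L₀ F] [FiniteDimensional L₀ F]
variable (L₀k : Type*) [Field L₀k] [Algebra k[X] L₀k] [IsFractionRing k[X] L₀k] [Algebra L₀k Fk]
  [IsScalarTower k[X] L₀k Fk] [FiniteDimensional L₀k Fk]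

/-- `T` is contained in the integral closure of `k[x̄]`. -/
theorem Tk_le (hdeg : Module.finrank L₀ F = Module.finrank L₀k Fk) :
    G.Tk ≤ integralClosure k[X] Fk := by
  rintro z ⟨f, hf, rfl⟩
  exact G.isIntegral_ρ L₀ L₀k hdeg f hf

theorem isIntegral_Tk (hdeg : Module.finrank L₀ F = Module.finrank L₀k Fk) :
    Algebra.IsIntegral k[X] G.Tk := by
  refine ⟨fun z => ?_⟩
  have h := G.Tk_le L₀ L₀k hdeg z.2
  exact (isIntegral_algebraMap_iff (A := G.Tk) (B := Fk) (R := k[X])
    Subtype.coe_injective).mp h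

include L₀ L₀k in
/-- Every element of `F_k` is a quotient of two elements of `T`, the denominator being the
image of a nonzero polynomial. -/
theorem exists_eq_div (z : Fk) :
    ∃ (t : G.Tk) (s : k[X]), s ≠ 0 ∧ z * algebraMap k[X] Fk s = t := by
  classical
  have hinj := algebraMap_injective_k (k := k) (Fk := Fk) L₀k
  obtain ⟨g, rfl⟩ := G.ρ_surj z
  have hgint : IsIntegral L₀ (g : F) := Algebra.IsIntegral.isIntegral _
  obtain ⟨⟨P, hPmem⟩, hP⟩ :=
    IsIntegral.exists_multiple_integral_of_isLocalization (nonZeroDivisors K[X]) (g : F) hgint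
  have hP0 : P ≠ 0 := nonZeroDivisors.ne_zero hPmem
  have hP' : IsIntegral K[X] (algebraMap K[X] F P * (g : F)) := by
    have : (⟨P, hPmem⟩ : nonZeroDivisors K[X]) • (g : F) = algebraMap K[X] F P * (g : F) := by
      rw [Submonoid.smul_def, Algebra.smul_def]
    rwa [this] at hP
  obtain ⟨lam, P₀, m, hlam, hm, hPeq⟩ := exists_primitive A P hP0
  have hne := G.map_π_ne_zero_of_coeff_eq_one P₀ m hm
  -- `P₀(x) * g` is integral over `K[x]`
  have hint : IsIntegral K[X] (algebraMap K[X] F (P₀.map A.subtype) * (g : F)) := by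
    have h1 : algebraMap K[X] F (P₀.map A.subtype) * (g : F) =
        algebraMap K[X] F (C lam⁻¹) * (algebraMap K[X] F P * (g : F)) := by
      rw [hPeq, map_mul, ← mul_assoc, ← mul_assoc, ← map_mul, ← C_mul, inv_mul_cancel₀ hlam,
        C_1, map_one, one_mul]
    rw [h1]
    exact isIntegral_algebraMap.mul hP'
  refine ⟨⟨G.ρ (G.polyO P₀ * g), G.ρ_mem_Tk _ hint⟩, P₀.map G.π, hne, ?_⟩
  show G.ρ g * algebraMap k[X] Fk (P₀.map G.π) = G.ρ (G.polyO P₀ * g)
  rw [map_mul, G.ρ_polyO, mul_comm]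

instance instFaithfulSMul_Tk : FaithfulSMul G.Tk Fk :=
  (faithfulSMul_iff_algebraMap_injective _ _).mpr Subtype.coe_injective

include L₀ L₀k in
theorem isFractionRing_Tk : IsFractionRing G.Tk Fk := by
  refine IsFractionRing.of_field (R := G.Tk) Fk fun z => ?_
  have hinj := algebraMap_injective_k (k := k) (Fk := Fk) L₀k
  obtain ⟨t, s, hs, hz⟩ := G.exists_eq_div L₀ L₀k z
  refine ⟨t, algebraMap k[X] G.Tk s, ?_⟩
  have hs' : algebraMap k[X] Fk s ≠ 0 := fun h0 => hs (hinj (by rw [h0, map_zero]))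
  have e : algebraMap G.Tk Fk (algebraMap k[X] G.Tk s) = algebraMap k[X] Fk s := rfl
  rw [e, eq_div_iff hs', hz]
  rfl

variable [Algebra.IsSeparable L₀k Fk]

theorem finite_Tk (hdeg : Module.finrank L₀ F = Module.finrank L₀k Fk) :
    Module.Finite k[X] G.Tk := by
  have hN : IsNoetherian k[X] (integralClosure k[X] Fk) :=
    IsIntegralClosure.isNoetherian k[X] L₀k Fk (integralClosure k[X] Fk)
  have hle := G.Tk_le L₀ L₀k hdeg
  exact Module.Finite.of_injective (Subalgebra.inclusion hle).toLinearMap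
    (Subalgebra.inclusion_injective hle)

include L₀ in
theorem finrank_Tk : Module.finrank k[X] G.Tk = Module.finrank L₀k Fk := by
  haveI := G.isFractionRing_Tk L₀ L₀k
  exact (IsFractionRing.finrank_eq k[X] L₀k G.Tk Fk).symm

include L₀k in
theorem algebraMap_Tk_injective : Function.Injective (algebraMap k[X] G.Tk) := by
  intro p q hpq
  apply algebraMap_injective_k (k := k) (Fk := Fk) L₀k
  exact congrArg (fun z : G.Tk => (z : Fk)) hpq

include L₀k in
theorem isTorsionFree_Tk : Module.IsTorsionFree k[X] G.Tk :=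
  Module.isTorsionFree_iff_algebraMap_injective.mpr (G.algebraMap_Tk_injective L₀k)

/-- A `k[X]`-basis `b` of `T`, together with lifts `y i ∈ B` of the `b i` forming a residually
independent `K(x)`-basis of `F`, and the `k(x̄)`-basis `bk` of `F_k` underlying `b`. -/
theorem exists_basis_Tk (hdeg : Module.finrank L₀ F = Module.finrank L₀k Fk) :
    ∃ (b : Module.Basis (Fin (Module.finrank L₀k Fk)) k[X] G.Tk)
      (y : Module.Basis (Fin (Module.finrank L₀k Fk)) L₀ F)
      (bk : Module.Basis (Fin (Module.finrank L₀k Fk)) L₀k Fk),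
      (∀ i, IsIntegral K[X] (y i)) ∧ H217.ResidIndep (G.V₀ L₀) G.O y ∧
      (∀ i, bk i = (b i : Fk)) ∧ ∃ hyO : ∀ i, y i ∈ G.O, ∀ i, G.ρ ⟨y i, hyO i⟩ = (b i : Fk) := by
  classical
  set n := Module.finrank L₀k Fk with hn
  have hpos : 0 < n := Module.finrank_pos
  have : Nonempty (Fin n) := ⟨⟨0, hpos⟩⟩
  haveI := G.finite_Tk L₀ L₀k hdeg
  haveI := G.isTorsionFree_Tk L₀k
  haveI : Module.Free k[X] G.Tk := inferInstance
  let b : Module.Basis (Fin n) k[X] G.Tk :=
    Module.finBasisOfFinrankEq k[X] G.Tk (G.finrank_Tk L₀ L₀k)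
  -- lifts
  choose u hu using fun i => (G.mem_Tk (b i : Fk)).mp (b i).2
  let y : Fin n → F := fun i => (u i : F)
  have hy : ∀ i, y i ∈ G.O := fun i => (u i).2
  have hρ : ∀ i, G.ρ ⟨y i, hy i⟩ = (b i : Fk) := fun i => (hu i).2
  -- linear independence over `k(x̄)`
  have hli0 : LinearIndependent k[X] (fun i => ((b i : G.Tk) : Fk)) := by
    have h1 := b.linearIndependent
    have h2 := h1.map' (IsScalarTower.toAlgHom k[X] G.Tk Fk).toLinearMap
      (LinearMap.ker_eq_bot.mpr Subtype.coe_injective)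
    exact h2
  have hli : LinearIndependent L₀k (fun i => ((b i : G.Tk) : Fk)) :=
    (LinearIndependent.iff_fractionRing k[X] L₀k).mp hli0
  let bk : Module.Basis (Fin n) L₀k Fk :=
    basisOfLinearIndependentOfCardEqFinrank hli (by rw [Fintype.card_fin])
  have hbk : ∀ i, bk i = (b i : Fk) := fun i => by
    show basisOfLinearIndependentOfCardEqFinrank hli _ i = _
    rw [coe_basisOfLinearIndependentOfCardEqFinrank]
  have hli' : LinearIndependent L₀k (fun i => G.ρ ⟨y i, hy i⟩) := by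
    have : (fun i => G.ρ ⟨y i, hy i⟩) = fun i => ((b i : G.Tk) : Fk) := funext hρ
    rw [this]
    exact hli
  have hR := G.residIndep_of_linearIndependent L₀ L₀k y hy hli'
  obtain ⟨yb, hyb⟩ := H217.exists_basis_of_residIndep hR (by rw [Fintype.card_fin, hdeg])
  refine ⟨b, yb, bk, fun i => ?_, ?_, hbk, fun i => ?_, fun i => ?_⟩
  · rw [hyb]; exact (hu i).1
  · rw [hyb]; exact hR
  · rw [hyb]; exact hy i
  · simp only [hyb]; exact hρ i

end Rational

end RedCtx

end Fermat.Agent.S37.H159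

end
-- ===== PACK-END S37/H159/MOrder.lean

-- ===== PACK-BEGIN S19/Cont.lean
section



/-!
# Cell A3 (S19) — block CONT: the Galois action on the torsion of `J₀(N)` is additive with open
stabilisers.  Uses FINLEVEL of helper571 (S29 route, on main).
-/

set_option autoImplicit false

noncomputable section

namespace Fermat.Agent.S19

open ModularCurve

/-- **CONT** (proved). -/
theorem contStatement : ContStatement := by
  intro N _ ℓ hℓ k
  refine ⟨fun m => ?_, fun σ τ m => ?_, torsAct_add N ℓ k, fun m => ?_⟩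
  · exact Subtype.ext (one_smul GalQ (m : JZero N))
  · exact Subtype.ext (mul_smul σ τ (m : JZero N))
  · have hn : ((ℓ : ℤ) ^ k) ≠ 0 := pow_ne_zero _ (by exact_mod_cast hℓ.out.ne_zero)
    have hx : ((ℓ : ℤ) ^ k) • (m : JZero N) = 0 := by
      have := m.2
      rwa [Submodule.mem_torsionBy_iff] at this
    obtain ⟨L, hL, h⟩ := Fermat.Agent.S29.H571.exists_finiteLevel_of_zsmul_eq_zero
      (modularFunctionFieldFull N) (m : JZero N) hn hx
    exact ⟨L, hL, fun σ hσ => Subtype.ext (h σ hσ)⟩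

end Fermat.Agent.S19

end

end
-- ===== PACK-END S19/Cont.lean

-- ===== PACK-BEGIN S19/Top.lean
section



/-!
# Cell A3 (S19) — top assembly: frozen S19 from the five open blocks

    ORD   : OrdStatement      (pure algebra:  OrderDatum ==> Hopf model)
    FIN   : FinStatement      (torsion finite)
    UNR   : UnrStatement      (pure algebra:  local coordinates ==> global coordinates)
    LOCAL : LocalStatement    (DISC + GR: local coordinates at good levels)
    LEVEL : LevelStatement    (ℓ = 2, 3: conorm embedding into a good level)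

CONT is proved (`contStatement`, from FINLEVEL of helper571).
-/

set_option autoImplicit false

namespace Fermat.Agent.S19

/-- ORDER from the open blocks. -/
theorem orderStatement_of_blocks (hfin : FinStatement) (hunr : UnrStatement)
    (hlocal : LocalStatement) (hlevel : LevelStatement) : OrderStatement :=
  orderStatement_of_good (orderStatementGood_of hfin contStatement hunr hlocal) hlevel

/-- **Top assembly**: frozen S19 from ORD, FIN, UNR, LOCAL, LEVEL. -/
theorem S19_of_five (hord : OrdStatement) (hfin : FinStatement) (hunr : UnrStatement)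
    (hlocal : LocalStatement) (hlevel : LevelStatement)
    (p : ℕ) [NeZero p] (ℓ : ℕ) [Fact ℓ.Prime] (hℓp : ¬ ℓ ∣ p) (k : ℕ) :
    FrozenConclusion p ℓ k :=
  S19_of_blocks hord hfin (orderStatement_of_blocks hfin hunr hlocal hlevel) p ℓ hℓp k

end Fermat.Agent.S19

end
-- ===== PACK-END S19/Top.lean

-- ===== PACK-BEGIN S14/H894/Profinite.lean
section




/-!
# S14 / H894 : profinite lifting for closed subgroups of `Gal(ℚ̄/ℚ)` acting on `ℤ̄`

Two wrappers around Mathlib's `RingTheory/Invariant/Profinite`, specialised to a closed subgroup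
`H` of the absolute Galois group of `ℚ` acting on the ring `ℤ̄` of all algebraic integers, with
the ring of `H`-invariants as base ring (no Galois correspondence needed at this stage).
-/

set_option autoImplicit false
set_option linter.style.haveILetI false

open scoped Pointwise

namespace Fermat.Agent.S14.H894

local notation "Qb" => AlgebraicClosure ℚ
local notation "GQ" => (AlgebraicClosure ℚ ≃ₐ[ℚ] AlgebraicClosure ℚ)
local notation "Zb" => integralClosure ℤ (AlgebraicClosure ℚ)

/-- Transitivity: a closed subgroup `H` of `Gal(ℚ̄/ℚ)` acts transitively on the primes of `ℤ̄`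
having the same intersection with the ring of `H`-invariants. -/
theorem exists_smul_eq_of_closed (H : Subgroup GQ) (hH : IsClosed (H : Set GQ))
    (P Q : Ideal Zb) [P.IsPrime] [Q.IsPrime]
    (hPQ : ∀ y : Zb, (∀ h ∈ H, h • y = y) → (y ∈ P ↔ y ∈ Q)) :
    ∃ g ∈ H, Q = g • P := by
  haveI := Fermat.Agent.S54.isGalois_algebraicClosure_rat
  letI : TopologicalSpace Zb := ⊥
  haveI : DiscreteTopology Zb := ⟨rfl⟩
  haveI := Fermat.Agent.S54.continuousSMul_integralClosure
  haveI : CompactSpace H := isCompact_iff_compactSpace.mp hH.isCompact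
  haveI : TotallyDisconnectedSpace H := Subtype.totallyDisconnectedSpace
  haveI : SMulCommClass H ℤ Zb := ⟨fun g n x => smul_comm (g : GQ) n x⟩
  let A0 := FixedPoints.subalgebra ℤ Zb H
  haveI : SMulCommClass H A0 Zb :=
    ⟨fun g a x => by
      show g • ((a : Zb) * x) = (a : Zb) * g • x
      rw [smul_mul', a.2 g]⟩
  haveI : Algebra.IsInvariant A0 Zb H := ⟨fun b hb => ⟨⟨b, hb⟩, rfl⟩⟩
  have hunder : P.under A0 = Q.under A0 := by
    ext y
    simp only [Ideal.under_def, Ideal.mem_comap]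
    exact hPQ y.1 (fun h hh => y.2 ⟨h, hh⟩)
  obtain ⟨g, hg⟩ :=
    Algebra.IsInvariant.exists_smul_of_under_eq_of_profinite (A := A0) (G := H) P Q hunder
  exact ⟨g.1, g.2, hg⟩

/-- Surjectivity of the stabiliser onto residue automorphisms, in elementwise form: if `σ`
stabilises the prime `Q` of `ℤ̄` and acts trivially modulo `Q` on the `H`-invariants, then some
`g ∈ H` stabilises `Q` and acts on `ℤ̄ / Q` like `σ`. -/
theorem exists_mem_stabilizer_of_closed (H : Subgroup GQ) (hH : IsClosed (H : Set GQ))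
    (Q : Ideal Zb) [Q.IsPrime] (σ : GQ) (hσQ : σ • Q = Q)
    (hσ : ∀ y : Zb, (∀ h ∈ H, h • y = y) → σ • y - y ∈ Q) :
    ∃ g ∈ H, g • Q = Q ∧ ∀ x : Zb, g • x - σ • x ∈ Q := by
  haveI := Fermat.Agent.S54.isGalois_algebraicClosure_rat
  letI : TopologicalSpace Zb := ⊥
  haveI : DiscreteTopology Zb := ⟨rfl⟩
  haveI := Fermat.Agent.S54.continuousSMul_integralClosure
  haveI : CompactSpace H := isCompact_iff_compactSpace.mp hH.isCompact
  haveI : TotallyDisconnectedSpace H := Subtype.totallyDisconnectedSpace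
  haveI : SMulCommClass H ℤ Zb := ⟨fun g n x => smul_comm (g : GQ) n x⟩
  let A0 := FixedPoints.subalgebra ℤ Zb H
  haveI : SMulCommClass H A0 Zb :=
    ⟨fun g a x => by
      show g • ((a : Zb) * x) = (a : Zb) * g • x
      rw [smul_mul', a.2 g]⟩
  haveI : Algebra.IsInvariant A0 Zb H := ⟨fun b hb => ⟨⟨b, hb⟩, rfl⟩⟩
  let P : Ideal A0 := Q.under A0
  haveI : Q.LiesOver P := ⟨rfl⟩
  let eσ : Zb ≃+* Zb := MulSemiringAction.toRingEquiv GQ Zb σ
  have hmap : Q = Q.map (eσ : Zb →+* Zb) := by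
    conv_lhs => rw [← hσQ]
    rfl
  let f : (Zb ⧸ Q) ≃+* (Zb ⧸ Q) := Ideal.quotientEquiv Q Q eσ hmap
  have hf : ∀ x : Zb, f (Ideal.Quotient.mk Q x) = Ideal.Quotient.mk Q (σ • x) := fun x => rfl
  let e : (Zb ⧸ Q) ≃ₐ[A0 ⧸ P] (Zb ⧸ Q) :=
    AlgEquiv.ofRingEquiv (f := f) (by
      intro x
      obtain ⟨a, rfl⟩ := Ideal.Quotient.mk_surjective x
      have h1 : algebraMap (A0 ⧸ P) (Zb ⧸ Q) (Ideal.Quotient.mk P a) =
          Ideal.Quotient.mk Q (a : Zb) :=
        Ideal.Quotient.algebraMap_mk_of_liesOver Q P a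
      rw [h1, hf, Ideal.Quotient.eq]
      exact hσ a.1 (fun h hh => a.2 ⟨h, hh⟩))
  obtain ⟨g, hg⟩ := Ideal.Quotient.stabilizerHom_surjective_of_profinite (G := H) P Q e
  refine ⟨g.1.1, g.1.2, g.2, fun x => ?_⟩
  have h2 := congrArg (fun t => t (Ideal.Quotient.mk Q x)) hg
  simp only [Ideal.Quotient.stabilizerHom_apply] at h2
  rw [← Ideal.Quotient.eq]
  exact h2

end Fermat.Agent.S14.H894

end
-- ===== PACK-END S14/H894/Profinite.lean

-- ===== PACK-BEGIN S14/H894/InertiaMem.lean
section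




/-!
# S14 / H894 : membership criteria for the decomposition / inertia subgroup of a valuation
subring of `ℚ̄`, in terms of the prime of `ℤ̄` below it.
-/

set_option autoImplicit false
set_option linter.style.haveILetI false

open scoped Pointwise

namespace Fermat.Agent.S14.H894

open Fermat.Agent.S54

local notation "Qb" => AlgebraicClosure ℚ
local notation "GQ" => (AlgebraicClosure ℚ ≃ₐ[ℚ] AlgebraicClosure ℚ)
local notation "Zb" => integralClosure ℤ (AlgebraicClosure ℚ)

theorem smul_mem_primeBelow_iff (A : ValuationSubring Qb) (σ : GQ)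
    (hQ : σ • primeBelow A = primeBelow A) (x : Zb) :
    σ • x ∈ primeBelow A ↔ x ∈ primeBelow A := by
  conv_lhs => rw [← hQ]
  exact Ideal.smul_mem_pointwise_smul_iff

theorem map_mem_of_smul_primeBelow (A : ValuationSubring Qb) (ℓ : ℕ) (hℓ : ℓ.Prime)
    (hA : A.LiesOverPrime ℓ) (τ : GQ)
    (hτ : ∀ x : Zb, τ • x ∈ primeBelow A ↔ x ∈ primeBelow A) (x : Qb) (hx : x ∈ A) :
    τ x ∈ A := by
  haveI : Algebra.IsAlgebraic ℚ Qb := AlgebraicClosure.isAlgebraic ℚ
  obtain ⟨b, s, hb, hs, hsA, hxs⟩ := (mem_valuationSubring_iff A ℓ hℓ hA x).mp hx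
  refine (mem_valuationSubring_iff A ℓ hℓ hA (τ x)).mpr
    ⟨τ b, τ s, hb.map τ, hs.map τ, ?_, ?_⟩
  · exact (hτ ⟨s, hs⟩).not.mpr hsA
  · rw [← map_mul, hxs]

/-- An automorphism stabilising the prime of `ℤ̄` below `A` lies in the decomposition group. -/
theorem mem_decompositionSubgroup_of_smul_primeBelow (A : ValuationSubring Qb) (ℓ : ℕ)
    (hℓ : ℓ.Prime) (hA : A.LiesOverPrime ℓ) (σ : GQ)
    (hQ : σ • primeBelow A = primeBelow A) : σ ∈ A.decompositionSubgroup ℚ := by
  have hσQ := smul_mem_primeBelow_iff A σ hQ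
  rw [MulAction.mem_stabilizer_iff]
  ext x
  rw [ValuationSubring.mem_smul_pointwise_iff_exists]
  constructor
  · rintro ⟨s, hs, rfl⟩
    exact map_mem_of_smul_primeBelow A ℓ hℓ hA σ hσQ s hs
  · intro hx
    refine ⟨σ⁻¹ • x, map_mem_of_smul_primeBelow A ℓ hℓ hA σ⁻¹ ?_ x hx, by simp⟩
    intro y
    rw [← hσQ (σ⁻¹ • y)]
    simp

/-- An automorphism stabilising the prime `Q` of `ℤ̄` below `A` and acting trivially on `ℤ̄ / Q`
lies in the inertia group of `A`. -/
theorem mem_inertiaSubgroupIn_of_forall (A : ValuationSubring Qb) (ℓ : ℕ)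
    (hℓ : ℓ.Prime) (hA : A.LiesOverPrime ℓ) (σ : GQ)
    (hQ : σ • primeBelow A = primeBelow A)
    (h : ∀ x : Zb, σ • x - x ∈ primeBelow A) : σ ∈ A.inertiaSubgroupIn ℚ := by
  haveI : Algebra.IsAlgebraic ℚ Qb := AlgebraicClosure.isAlgebraic ℚ
  have hσA := mem_decompositionSubgroup_of_smul_primeBelow A ℓ hℓ hA σ hQ
  have hσQ := smul_mem_primeBelow_iff A σ hQ
  refine ⟨⟨σ, hσA⟩, ?_, rfl⟩
  show (⟨σ, hσA⟩ : A.decompositionSubgroup ℚ) ∈ MonoidHom.ker _
  rw [MonoidHom.mem_ker]
  ext x
  show (⟨σ, hσA⟩ : A.decompositionSubgroup ℚ) • x = x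
  obtain ⟨a, rfl⟩ := IsLocalRing.residue_surjective x
  obtain ⟨b, s, hb, hs, hsA, hxs⟩ := (mem_valuationSubring_iff A ℓ hℓ hA a).mp a.2
  have hbA : b ∈ A := isIntegral_mem_valuationSubring A hb
  have hsA' : s ∈ A := isIntegral_mem_valuationSubring A hs
  have hint : ∀ (y : Qb) (hy : IsIntegral ℤ y),
      (⟨σ, hσA⟩ : A.decompositionSubgroup ℚ) •
        IsLocalRing.residue A ⟨y, isIntegral_mem_valuationSubring A hy⟩ =
      IsLocalRing.residue A ⟨y, isIntegral_mem_valuationSubring A hy⟩ := by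
    intro y hy
    rw [← IsLocalRing.ResidueField.residue_smul, ← sub_eq_zero, ← map_sub,
      IsLocalRing.residue_eq_zero_iff, ← ValuationSubring.coe_mem_nonunits_iff]
    exact h ⟨y, hy⟩
  have h1 : IsLocalRing.residue A a * IsLocalRing.residue A ⟨s, hsA'⟩ =
      IsLocalRing.residue A ⟨b, hbA⟩ := by
    rw [← map_mul]
    congr 1
    exact Subtype.ext hxs
  have h2 : IsLocalRing.residue A ⟨s, hsA'⟩ ≠ 0 := by
    rw [Ne, IsLocalRing.residue_eq_zero_iff, ← ValuationSubring.coe_mem_nonunits_iff]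
    exact hsA
  have h3 := congrArg (fun z => (⟨σ, hσA⟩ : A.decompositionSubgroup ℚ) • z) h1
  simp only [smul_mul'] at h3
  rw [hint s hs, hint b hb, ← h1] at h3
  exact mul_right_cancel₀ h2 h3

end Fermat.Agent.S14.H894

end
-- ===== PACK-END S14/H894/InertiaMem.lean

-- ===== PACK-BEGIN S14/H894/TotRam.lean
section




/-!
# S14 / H894 : inertia surjects onto the embeddings of a totally ramified simple extension

`exists_inertia_eq_on_adjoin` : let `A` be a valuation subring of `ℚ̄` over a prime, `K` an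
intermediate field, `γ` a root of a monic `f ∈ K[X]` of degree `n` such that the valuations
`v(γ)^k`, `0 < k < n`, are not valuations of elements of `K` and all `K`-conjugates of `γ` have
the valuation of `γ`.  Then for every `τ ∈ Gal(ℚ̄/K)` there is `σ` in the inertia group of `A`,
fixing `K` pointwise, with `σ γ = τ γ`.
-/

set_option autoImplicit false
set_option linter.style.haveILetI false

open scoped Pointwise

namespace Fermat.Agent.S14.H894

open Polynomial Fermat.Agent.S54

local notation "Qb" => AlgebraicClosure ℚ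
local notation "GQ" => (AlgebraicClosure ℚ ≃ₐ[ℚ] AlgebraicClosure ℚ)
local notation "Zb" => integralClosure ℤ (AlgebraicClosure ℚ)

/-- The field `K(γ)` as an intermediate field of `ℚ̄/ℚ`. -/
noncomputable def adjoinField (K : IntermediateField ℚ Qb) (γ : Qb) : IntermediateField ℚ Qb :=
  IntermediateField.adjoin ℚ ((K : Set Qb) ∪ {γ})

theorem mem_fixingSubgroup_adjoinField_iff (K : IntermediateField ℚ Qb) (γ : Qb) (σ : GQ) :
    σ ∈ (adjoinField K γ).fixingSubgroup ↔ (∀ x ∈ K, σ x = x) ∧ σ γ = γ := by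
  rw [IntermediateField.mem_fixingSubgroup_iff]
  constructor
  · intro h
    refine ⟨fun x hx => h x ?_, h γ ?_⟩
    · exact IntermediateField.subset_adjoin ℚ _ (Set.mem_union_left _ hx)
    · exact IntermediateField.subset_adjoin ℚ _ (Set.mem_union_right _ rfl)
  · rintro ⟨hK, hγ⟩ x hx
    induction hx using IntermediateField.adjoin_induction with
    | mem x hx =>
      rcases hx with hx | hx
      · exact hK x hx
      · rw [Set.mem_singleton_iff] at hx; rw [hx]; exact hγ
    | algebraMap x => exact σ.commutes x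
    | add x y _ _ hx hy => rw [map_add, hx, hy]
    | inv x _ hx => rw [map_inv₀, hx]
    | mul x y _ _ hx hy => rw [map_mul, hx, hy]

theorem exists_coeffs_of_mem_adjoinField (K : IntermediateField ℚ Qb) (γ : Qb) (f : K[X])
    (hf : f.Monic) (hγ : aeval γ f = 0) (y : Qb) (hy : y ∈ adjoinField K γ) :
    ∃ c : ℕ → Qb, (∀ i, c i ∈ K) ∧ y = ∑ i ∈ Finset.range f.natDegree, c i * γ ^ i := by
  have h1 : adjoinField K γ = (IntermediateField.adjoin K {γ}).restrictScalars ℚ :=
    (IntermediateField.restrictScalars_adjoin ℚ K ({γ} : Set Qb)).symm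
  rw [h1] at hy
  have hy' : y ∈ IntermediateField.adjoin K {γ} := hy
  have halg : IsAlgebraic K γ := ⟨f, hf.ne_zero, hγ⟩
  have hy2 : y ∈ (IntermediateField.adjoin K {γ}).toSubalgebra := hy'
  rw [IntermediateField.adjoin_simple_toSubalgebra_of_isAlgebraic halg,
    Algebra.adjoin_singleton_eq_range_aeval] at hy2
  obtain ⟨q, rfl⟩ := hy2
  have hf1 : f ≠ 1 := by
    rintro rfl
    simp at hγ
  have hdeg : (q %ₘ f).natDegree < f.natDegree := natDegree_modByMonic_lt q hf hf1
  have hq : aeval γ q = aeval γ (q %ₘ f) := by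
    conv_lhs => rw [← modByMonic_add_div q f]
    rw [map_add, map_mul, hγ, zero_mul, add_zero]
  refine ⟨fun i => ((q %ₘ f).coeff i : Qb), fun i => SetLike.coe_mem _, ?_⟩
  show aeval γ q = _
  rw [hq, aeval_eq_sum_range' hdeg]
  refine Finset.sum_congr rfl fun i _ => ?_
  rw [Algebra.smul_def]
  rfl

section main

variable (A : ValuationSubring Qb) (K : IntermediateField ℚ Qb) (γ : Qb) (n : ℕ)

/-- The terms of a `K`-linear combination of powers of a conjugate of `γ` have pairwise
distinct valuations. -/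
theorem distinct_terms
    (hindep : ∀ k : ℕ, 0 < k → k < n → ∀ c ∈ K, A.valuation γ ^ k ≠ A.valuation c)
    (c : ℕ → Qb) (hc : ∀ i, c i ∈ K) (γ' : Qb) (hγ' : A.valuation γ' = A.valuation γ) :
    ∀ i ∈ Finset.range n, ∀ j ∈ Finset.range n, i ≠ j → c i * γ' ^ i ≠ 0 →
      A.valuation (c i * γ' ^ i) ≠ A.valuation (c j * γ' ^ j) := by
  intro i hi j hj hij hne heq
  rw [Finset.mem_range] at hi hj
  rw [map_mul, map_mul, map_pow, map_pow, hγ'] at heq
  have hn2 : 1 < n := by omega
  have hv0 : A.valuation γ ≠ 0 := by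
    have := hindep 1 one_pos hn2 0 K.zero_mem
    simpa using this
  have hci : c i ≠ 0 := left_ne_zero_of_mul hne
  have hvci : A.valuation (c i) ≠ 0 := (Valuation.ne_zero_iff _).mpr hci
  have hcj : c j ≠ 0 := by
    rintro h0
    rw [h0, map_zero, zero_mul] at heq
    exact mul_ne_zero hvci (pow_ne_zero _ hv0) heq
  have hvcj : A.valuation (c j) ≠ 0 := (Valuation.ne_zero_iff _).mpr hcj
  rcases lt_or_gt_of_ne hij with hlt | hlt
  · refine hindep (j - i) (by omega) (by omega) (c i / c j) (K.div_mem (hc i) (hc j)) ?_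
    rw [map_div₀, eq_div_iff hvcj]
    have hpow : A.valuation γ ^ j = A.valuation γ ^ (j - i) * A.valuation γ ^ i := by
      rw [← pow_add]; congr 1; omega
    rw [hpow, ← mul_assoc] at heq
    have h2 := mul_right_cancel₀ (pow_ne_zero i hv0) heq
    rw [h2, mul_comm]
  · refine hindep (i - j) (by omega) (by omega) (c j / c i) (K.div_mem (hc j) (hc i)) ?_
    rw [map_div₀, eq_div_iff hvci]
    have hpow : A.valuation γ ^ i = A.valuation γ ^ (i - j) * A.valuation γ ^ j := by
      rw [← pow_add]; congr 1; omega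
    rw [hpow, ← mul_assoc] at heq
    have h2 := mul_right_cancel₀ (pow_ne_zero j hv0) heq
    rw [← h2, mul_comm]

end main

/-- **Inertia surjects onto the embeddings of a totally ramified simple extension.** -/
theorem exists_inertia_eq_on_adjoin (A : ValuationSubring Qb) (ℓ : ℕ) (hℓ : ℓ.Prime)
    (hA : A.LiesOverPrime ℓ) (K : IntermediateField ℚ Qb) (γ : Qb) (f : K[X]) (hf : f.Monic)
    (hγ : aeval γ f = 0)
    (hindep : ∀ k : ℕ, 0 < k → k < f.natDegree → ∀ c ∈ K, A.valuation γ ^ k ≠ A.valuation c)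
    (hconj : ∀ τ : GQ, (∀ x ∈ K, τ x = x) → A.valuation (τ γ) = A.valuation γ)
    (τ : GQ) (hτ : ∀ x ∈ K, τ x = x) :
    ∃ σ ∈ A.inertiaSubgroupIn ℚ, (∀ x ∈ K, σ x = x) ∧ σ γ = τ γ := by
  haveI := isGalois_algebraicClosure_rat
  set n := f.natDegree with hn
  set L := adjoinField K γ with hL
  set H : Subgroup GQ := L.fixingSubgroup with hH
  have hHclosed : IsClosed (H : Set GQ) := InfiniteGalois.fixingSubgroup_isClosed L
  have hHmem : ∀ σ : GQ, σ ∈ H ↔ (∀ x ∈ K, σ x = x) ∧ σ γ = γ :=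
    mem_fixingSubgroup_adjoinField_iff K γ
  haveI hQprime := primeBelow_isPrime A
  set Q := primeBelow A with hQ
  -- invariants lie in `L`
  have hinv : ∀ y : Zb, (∀ h ∈ H, h • y = y) → (y : Qb) ∈ L := by
    intro y hy
    rw [← InfiniteGalois.fixedField_fixingSubgroup L, IntermediateField.mem_fixedField_iff]
    intro g hg
    exact congrArg Subtype.val (hy g hg)
  -- valuation formula
  have hval : ∀ (σ : GQ), (∀ x ∈ K, σ x = x) → ∀ y ∈ L,
      A.valuation (σ y) = A.valuation y := by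
    intro σ hσ y hy
    obtain ⟨c, hc, rfl⟩ := exists_coeffs_of_mem_adjoinField K γ f hf hγ y hy
    rw [map_sum]
    have h1 : ∀ i ∈ Finset.range n, σ (c i * γ ^ i) = c i * (σ γ) ^ i := by
      intro i _
      rw [map_mul, map_pow, hσ _ (hc i)]
    rw [Finset.sum_congr rfl h1]
    rw [valuation_sum_eq_sup _ _ _ (distinct_terms A K γ n hindep c hc (σ γ) (hconj σ hσ)),
      valuation_sum_eq_sup _ _ _ (distinct_terms A K γ n hindep c hc γ rfl)]
    refine Finset.sup_congr rfl fun i _ => ?_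
    rw [map_mul, map_mul, map_pow, map_pow, hconj σ hσ]
  -- residue formula
  have hres : ∀ (σ : GQ), (∀ x ∈ K, σ x = x) → ∀ y ∈ L, y ∈ A →
      A.valuation (σ y - y) < 1 := by
    intro σ hσ y hy hyA
    obtain ⟨c, hc, rfl⟩ := exists_coeffs_of_mem_adjoinField K γ f hf hγ y hy
    have hdist := distinct_terms A K γ n hindep c hc γ rfl
    have hle : ∀ i ∈ Finset.range n, A.valuation (c i * γ ^ i) ≤ 1 := by
      rw [← valuation_sum_le_one_iff _ _ _ hdist]
      exact (A.valuation_le_one_iff _).mpr hyA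
    have hlt : ∀ i ∈ Finset.range n, 0 < i → A.valuation (c i * γ ^ i) < 1 := by
      intro i hi hi0
      refine lt_of_le_of_ne (hle i hi) ?_
      intro h1
      by_cases hci : c i = 0
      · rw [hci, zero_mul, map_zero] at h1; exact zero_ne_one h1
      · have hvci : A.valuation (c i) ≠ 0 := (Valuation.ne_zero_iff _).mpr hci
        refine hindep i hi0 (Finset.mem_range.mp hi) (c i)⁻¹ (K.inv_mem (hc i)) ?_
        rw [map_inv₀]
        refine eq_inv_of_mul_eq_one_left ?_
        rw [mul_comm, ← map_pow, ← map_mul]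
        exact h1
    rw [map_sum, ← Finset.sum_sub_distrib]
    refine Valuation.map_sum_lt _ one_ne_zero fun i hi => ?_
    by_cases hi0 : i = 0
    · subst hi0
      simp [hσ _ (hc 0)]
    · have hi0' : 0 < i := Nat.pos_of_ne_zero hi0
      have h2 : σ (c i * γ ^ i) = c i * (σ γ) ^ i := by rw [map_mul, map_pow, hσ _ (hc i)]
      have h3 : A.valuation (σ (c i * γ ^ i)) < 1 := by
        rw [h2, map_mul, map_pow, hconj σ hσ, ← map_pow, ← map_mul]
        exact hlt i hi hi0'
      exact lt_of_le_of_lt (Valuation.map_sub _ _ _) (max_lt h3 (hlt i hi hi0'))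
  have hmemQ : ∀ y : Zb, y ∈ Q ↔ A.valuation (y : Qb) < 1 := by
    intro y
    rw [hQ, mem_primeBelow, ValuationSubring.mem_nonunits_iff]
  -- Step 3: move `τ⁻¹ • Q` back to `Q` by an element of `H`
  have hPQ : ∀ y : Zb, (∀ h ∈ H, h • y = y) → (y ∈ Q ↔ y ∈ τ⁻¹ • Q) := by
    intro y hy
    rw [Ideal.mem_inv_pointwise_smul_iff, hmemQ, hmemQ]
    have : ((τ • y : Zb) : Qb) = τ (y : Qb) := rfl
    rw [this, hval τ hτ _ (hinv y hy)]
  obtain ⟨g, hgH, hg⟩ := exists_smul_eq_of_closed H hHclosed Q (τ⁻¹ • Q) hPQ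
  have hgK := (hHmem g).mp hgH
  set σ₁ : GQ := τ * g with hσ₁
  have hσ₁Q : σ₁ • Q = Q := by
    rw [hσ₁, mul_smul, ← hg, smul_inv_smul]
  have hσ₁K : ∀ x ∈ K, σ₁ x = x := by
    intro x hx
    rw [hσ₁, AlgEquiv.mul_apply, hgK.1 x hx, hτ x hx]
  have hσ₁γ : σ₁ γ = τ γ := by
    rw [hσ₁, AlgEquiv.mul_apply, hgK.2]
  -- Step 4: correct the residue action by an element of `H`
  have hσ₁res : ∀ y : Zb, (∀ h ∈ H, h • y = y) → σ₁ • y - y ∈ Q := by
    intro y hy
    rw [hmemQ]
    exact hres σ₁ hσ₁K _ (hinv y hy) (isIntegral_mem_valuationSubring A y.2)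
  obtain ⟨g', hg'H, hg'Q, hg'⟩ := exists_mem_stabilizer_of_closed H hHclosed Q σ₁ hσ₁Q hσ₁res
  have hg'K := (hHmem g').mp hg'H
  have hg'invK : ∀ x ∈ K, g'⁻¹ x = x := by
    intro x hx
    have := hg'K.1 x hx
    calc g'⁻¹ x = g'⁻¹ (g' x) := by rw [this]
      _ = x := by rw [← AlgEquiv.mul_apply, inv_mul_cancel, AlgEquiv.one_apply]
  have hg'invγ : g'⁻¹ γ = γ := by
    calc g'⁻¹ γ = g'⁻¹ (g' γ) := by rw [hg'K.2]
      _ = γ := by rw [← AlgEquiv.mul_apply, inv_mul_cancel, AlgEquiv.one_apply]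
  refine ⟨σ₁ * g'⁻¹, ?_, ?_, ?_⟩
  · refine mem_inertiaSubgroupIn_of_forall A ℓ hℓ hA _ ?_ ?_
    · rw [mul_smul, inv_smul_eq_iff.mpr hg'Q.symm, hσ₁Q]
    · intro x
      have h1 := hg' (g'⁻¹ • x)
      rw [smul_inv_smul] at h1
      rw [mul_smul]
      have h2 : σ₁ • g'⁻¹ • x - x = -(x - σ₁ • g'⁻¹ • x) := by ring
      rw [h2]
      exact Q.neg_mem h1
  · intro x hx
    rw [AlgEquiv.mul_apply, hg'invK x hx, hσ₁K x hx]
  · rw [AlgEquiv.mul_apply, hg'invγ, hσ₁γ]

end Fermat.Agent.S14.H894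

end
-- ===== PACK-END S14/H894/TotRam.lean

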