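import Mathlib
import Fermat.Prelude.Def_AlgebraicCurve_DivisorClassGroup
import Fermat.Prelude.Def_AlgebraicCurve_DivisorPushPull
import Fermat.Prelude.Def_AlgebraicCurve_Correspondence
import Fermat.Prelude.Def_ModularCurve_HeckeModule
import Fermat.Prelude.Def_AlgebraicCurve_Repartitions
import Fermat.Prelude.Def_ModularCurve_ArithmeticGalois
import Fermat.Prelude.Def_ModularCurve_ModularUnit
import Mathlib.RingTheory.AdjoinRoot
import Mathlib.RingTheory.Ideal.KrullsHeightTheorem
import Mathlib.RingTheory.Ideal.MinimalPrime.Noetherian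
import Mathlib.RingTheory.Ideal.BigOperators
import Fermat.Prelude.Def_ModularCurve_X0ModL
import Fermat.Prelude.Def_ModularForm_HeckeOperatorForms
import Fermat.Prelude.Thm_ModularFormClass_qCoeff_heckeT
import Fermat.Statements.S37
import Mathlib.FieldTheory.IsAlgClosed.Basic
import Mathlib.Algebra.Polynomial.Reverse
import Fermat.Prelude.Def_EllipticCurve_FrobeniusTrace
import Fermat.Prelude.Def_GaloisRep_Flat
import Mathlib.RingTheory.Valuation.Basic
import Mathlib.RingTheory.LocalRing.ResidueField.Basic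
import Fermat.Agent.Pack.S15.AE1L1
import Fermat.Agent.Pack.S15.AE1L2
import Fermat.Agent.Pack.S15.AE0L1
import Fermat.Agent.Pack.S15.AE1L0
import Fermat.Agent.Pack.S15.AE1L3
import Fermat.Agent.Pack.S15.AE0L3
import Fermat.Agent.Pack.S15.AE0L2
import Fermat.Agent.Pack.S15.AE0L0

-- ===== PACK-BEGIN Lib/RR/H98/DegreeBoundCore.lean
section


/-!
# RR library, L3.2 (helper98): `ℓ(D) = deg D + 1 - g` for all divisors of large degree

Stichtenoth 1.4.17(b).  Take `D₀` attaining Riemann's bound (`exists_ell_eq`) and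
`c := deg D₀ + g`.  If `deg D ≥ c`, Riemann's inequality gives `ℓ(D - D₀) ≥ 1`, so there is
`z ≠ 0` in `L(D - D₀)`; then `D₀ ≤ D + div z`, hence the bound is attained at `D + div z`
(`ell_eq_of_le`), and `ℓ`, `deg` do not change when adding `div z`.

`ell_eq_of_degree_ge` is the hypothesis-explicit form (any `g` satisfying Riemann's inequality
and attained at some `D₀`); it only needs layer L1 (`Lib/RR/Basic`, on main).  The frozen skeleton
statement `exists_degree_bound` is deduced from it in `H98/DegreeBound.lean`.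
-/

set_option autoImplicit false

noncomputable section

open AlgebraicCurve

namespace Fermat.Agent.Lib.RR.H98

open Fermat.Agent.Lib.RR

variable {K F : Type*} [Field K] [Field F] [Algebra K F]

/-- A nonzero element of `L(D)` exists as soon as `ℓ(D) ≥ 1`. -/
theorem exists_ne_zero_mem_L_of_ell_pos {D : Divisor K F} (h : 0 < ell D) :
    ∃ z : F, z ≠ 0 ∧ z ∈ riemannRochSpace D := by
  have hne : riemannRochSpace D ≠ ⊥ := by
    intro hbot
    unfold ell at h
    rw [hbot, finrank_bot] at h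
    exact lt_irrefl _ h
  obtain ⟨z, hz, hz0⟩ := Submodule.exists_mem_ne_zero_of_ne_bot hne
  exact ⟨z, hz0, hz⟩

/-- If `z ≠ 0` lies in `L(D - D₀)` then `D₀ ≤ D + div z`. -/
theorem le_add_divOf_of_mem_L [FF1 K F] {D D₀ : Divisor K F} {z : F}
    (hz : z ≠ 0) (hmem : z ∈ riemannRochSpace (D - D₀)) : D₀ ≤ D + divOf (K := K) z hz := by
  rw [Finsupp.le_def]
  intro v
  rw [mem_L_iff] at hmem
  rcases hmem v with h0 | h
  · exact absurd h0 hz
  · have h1 : (D + divOf (K := K) z hz : Divisor K F) v = D v + v.ord z := by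
      rw [Finsupp.add_apply, divOf_apply]
    have h2 : (D - D₀) v = D v - D₀ v := Finsupp.sub_apply (g₁ := D) (g₂ := D₀) (a := v)
    rw [h1]
    rw [h2] at h
    omega

/-- Hypothesis-explicit form of L3.2: if `g` satisfies Riemann's inequality
`deg D + 1 - g ≤ ℓ(D)` for all `D`, and `D₀` attains it, then `ℓ(D) = deg D + 1 - g` for all `D`
with `deg D ≥ deg D₀ + g`. -/
theorem ell_eq_of_degree_ge [FF1 K F] (g : ℤ)
    (hR : ∀ D : Divisor K F, Divisor.degree D + 1 - g ≤ ell D)
    {D₀ : Divisor K F} (h₀ : (ell D₀ : ℤ) = Divisor.degree D₀ + 1 - g)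
    {D : Divisor K F} (hD : Divisor.degree D₀ + g ≤ Divisor.degree D) :
    (ell D : ℤ) = Divisor.degree D + 1 - g := by
  -- `ℓ(D - D₀) ≥ 1`
  have h1 := hR (D - D₀)
  rw [map_sub] at h1
  have hpos : 0 < ell (D - D₀) := by
    have : (0 : ℤ) < ell (D - D₀) := by omega
    exact_mod_cast this
  obtain ⟨z, hz, hmem⟩ := exists_ne_zero_mem_L_of_ell_pos hpos
  have hle : D₀ ≤ D + divOf z hz := le_add_divOf_of_mem_L hz hmem
  -- the bound is attained above `D₀`
  have h2 := degree_sub_ell_mono hle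
  have h3 := hR (D + divOf z hz)
  rw [ell_add_divOf] at h2 h3
  rw [map_add, degree_divOf, add_zero] at h2 h3
  have h4 := hR D
  omega

end Fermat.Agent.Lib.RR.H98

end
end
-- ===== PACK-END Lib/RR/H98/DegreeBoundCore.lean

-- ===== PACK-BEGIN S24/FFSum.lean
section





/-!
# S24 / FF layer: zeros of a coordinate function, `∑ ord_v(t) = [F : K(t)]`

Bridge between the Prelude's `Place K F` and the primes of the integral closure of `K[t]`
in `F`, and the fundamental identity.  (helper804)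
-/

set_option autoImplicit false

namespace Fermat.Agent.S24.FF

open AlgebraicCurve Polynomial IntermediateField IsDedekindDomain

open scoped IntermediateField.algebraAdjoinAdjoin

variable {K F : Type*} [Field K] [Field F] [Algebra K F]

variable (K) in
/-- `K[t] ⊆ F`. -/
abbrev coordRing (t : F) : Subalgebra K F := Algebra.adjoin K {t}

variable (K) in
/-- The integral closure of `K[t]` in `F`. -/
abbrev intRing (t : F) : Subalgebra (coordRing K t) F := integralClosure (coordRing K t) F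

variable (K) in
/-- `t` is a coordinate function on the curve with function field `F`: transcendental over `K`
with `F` finite over `K(t)`. -/
class IsCoord (t : F) : Prop where
  transcendental : Transcendental K t
  finite : FiniteDimensional K⟮t⟯ F

variable {t : F}

instance instFiniteOfIsCoord [h : IsCoord K t] : FiniteDimensional K⟮t⟯ F := h.finite

instance instPIDCoordRing [h : IsCoord K t] : IsPrincipalIdealRing (coordRing K t) :=
  IsPrincipalIdealRing.of_surjective
    (algEquivOfTranscendental K t h.transcendental : K[X] →+* coordRing K t)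
    (algEquivOfTranscendental K t h.transcendental).surjective

instance instDedekindIntRing [CharZero K] [IsCoord K t] : IsDedekindDomain (intRing K t) :=
  integralClosure.isDedekindDomain (coordRing K t) K⟮t⟯ F

instance instFractionIntRing [IsCoord K t] : IsFractionRing (intRing K t) F :=
  integralClosure.isFractionRing_of_finite_extension K⟮t⟯ F

instance instFiniteIntRing [CharZero K] [IsCoord K t] :
    Module.Finite (coordRing K t) (intRing K t) :=
  IsIntegralClosure.finite (coordRing K t) K⟮t⟯ F (intRing K t)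

/-- Any transcendental element is a coordinate as soon as one coordinate exists. -/
theorem IsCoord.of_transcendental {x : F} [hx : IsCoord K x] {y : F} (hy : Transcendental K y) :
    IsCoord K y :=
  ⟨hy, finiteDimensional_adjoin_of_transcendental hx.transcendental hy⟩

section placeOfPrime

variable [CharZero K] [IsCoord K t]

variable (K t) in
/-- The place attached to a nonzero prime of the integral closure of `K[t]`. -/
noncomputable def placeOfPrime (q : HeightOneSpectrum (intRing K t)) : Place K F :=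
  Place.ofHeightOneSpectrum (K := K) q

theorem placeOfPrime_toValuationSubring (q : HeightOneSpectrum (intRing K t)) :
    (placeOfPrime K t q).toValuationSubring = (q.valuation F).valuationSubring := rfl

theorem ord_placeOfPrime (q : HeightOneSpectrum (intRing K t)) (f : F) :
    (placeOfPrime K t q).ord f = -WithZero.log (q.valuation F f) := by
  rcases eq_or_ne f 0 with rfl | hf
  · simp
  obtain ⟨π, hπ⟩ := q.valuation_exists_uniformizer F
  have hπ0 : π ≠ 0 := by
    rintro rfl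
    rw [map_zero] at hπ
    exact WithZero.exp_ne_zero hπ.symm
  symm
  refine ordLike_eq_ord (fun f => -WithZero.log (q.valuation F f)) ?_ (placeOfPrime K t q) ?_
    hπ0 ?_ hf
  · intro f g hf hg
    simp only [map_mul]
    rw [WithZero.log_mul ((Valuation.ne_zero_iff _).mpr hf) ((Valuation.ne_zero_iff _).mpr hg)]
    ring
  · intro f hf
    rw [placeOfPrime_toValuationSubring, Valuation.mem_valuationSubring_iff,
      neg_nonneg, WithZero.log_le_iff_le_exp ((Valuation.ne_zero_iff _).mpr hf)]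
    simp
  · simp [hπ]

end placeOfPrime

end Fermat.Agent.S24.FF

end
-- ===== PACK-END S24/FFSum.lean

-- ===== PACK-BEGIN S24/FFDict.lean
section




/-!
# S24 / FF layer: dictionary between places and primes of the integral closure of `K[t]`
(helper804)
-/

set_option autoImplicit false
set_option linter.unusedSectionVars false

namespace Fermat.Agent.S24.FF

open AlgebraicCurve Polynomial IntermediateField IsDedekindDomain

open scoped IntermediateField.algebraAdjoinAdjoin

variable {K F : Type*} [Field K] [Field F] [Algebra K F] {t : F}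

/-- `K[t] ⊆ O_v` when `t` is integral at `v`. -/
theorem mem_of_mem_coordRing (v : Place K F) (ht : 0 ≤ v.ord t) {r : F}
    (hr : r ∈ coordRing K t) : r ∈ v.toValuationSubring := by
  induction hr using Algebra.adjoin_induction with
  | mem x hx =>
    rw [Set.mem_singleton_iff] at hx
    subst hx
    exact mem_of_ord_nonneg v ht
  | algebraMap a => exact v.algebraMap_mem' a
  | add x y _ _ hx hy => exact add_mem hx hy
  | mul x y _ _ hx hy => exact mul_mem hx hy

/-- The integral closure of `K[t]` is contained in `O_v` when `t` is integral at `v`. -/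
theorem mem_of_mem_intRing (v : Place K F) (ht : 0 ≤ v.ord t) {s : F}
    (hs : s ∈ intRing K t) : s ∈ v.toValuationSubring := by
  let φ : coordRing K t →+* v.toValuationSubring :=
    { toFun := fun y => ⟨y, mem_of_mem_coordRing v ht y.2⟩
      map_one' := rfl
      map_mul' := fun _ _ => rfl
      map_zero' := rfl
      map_add' := fun _ _ => rfl }
  obtain ⟨p, hpm, hp⟩ := hs
  have hint' : IsIntegral v.toValuationSubring s := by
    refine ⟨p.map φ, hpm.map φ, ?_⟩
    rw [← hp, Polynomial.eval₂_map]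
    rfl
  obtain ⟨y, hy⟩ := IsIntegrallyClosed.isIntegral_iff.mp hint'
  rw [← hy]
  exact y.2

/-- The inclusion of the integral closure of `K[t]` into `O_v`. -/
def toPlaceRing (v : Place K F) (ht : 0 ≤ v.ord t) : intRing K t →+* v.toValuationSubring where
  toFun s := ⟨s, mem_of_mem_intRing v ht s.2⟩
  map_one' := rfl
  map_mul' _ _ := rfl
  map_zero' := rfl
  map_add' _ _ := rfl

@[simp] theorem coe_toPlaceRing (v : Place K F) (ht : 0 ≤ v.ord t) (s : intRing K t) :
    ((toPlaceRing v ht s : v.toValuationSubring) : F) = (s : F) := rfl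

/-- The center of the place `v` on the integral closure of `K[t]`. -/
def center (v : Place K F) (ht : 0 ≤ v.ord t) : Ideal (intRing K t) :=
  Ideal.comap (toPlaceRing v ht) (IsLocalRing.maximalIdeal v.toValuationSubring)

instance center_isPrime (v : Place K F) (ht : 0 ≤ v.ord t) : (center v ht).IsPrime := by
  unfold center
  infer_instance

theorem mem_center_iff (v : Place K F) (ht : 0 ≤ v.ord t) (s : intRing K t) :
    s ∈ center v ht ↔ (s : F) ∈ v.toValuationSubring.nonunits := by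
  rw [center, Ideal.mem_comap]
  exact ValuationSubring.coe_mem_nonunits_iff.symm

theorem mem_nonunits_valuationSubring_iff {Γ₀ : Type*} [LinearOrderedCommGroupWithZero Γ₀]
    (w : Valuation F Γ₀) (x : F) : x ∈ w.valuationSubring.nonunits ↔ w x < 1 := by
  rw [ValuationSubring.mem_nonunits_iff]
  exact (Valuation.isEquiv_valuation_valuationSubring w).lt_one_iff_lt_one.symm

variable (K t) in
/-- `t` as an element of `K[t]`. -/
def tR : coordRing K t := ⟨t, Algebra.self_mem_adjoin_singleton K t⟩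

variable (K t) in
/-- `t` as an element of the integral closure of `K[t]`. -/
def tS : intRing K t := algebraMap (coordRing K t) (intRing K t) (tR K t)

@[simp] theorem coe_tR : ((tR K t : coordRing K t) : F) = t := rfl

@[simp] theorem coe_tS : ((tS K t : intRing K t) : F) = t := rfl

section withCoord

variable [CharZero K] [IsCoord K t]

theorem center_ne_bot (v : Place K F) (ht : 0 < v.ord t) : center v ht.le ≠ ⊥ := by
  intro h
  have ht0 : t ≠ 0 := by
    rintro rfl
    simp at ht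
  have htS : tS K t ∈ center v ht.le :=
    (mem_center_iff v ht.le _).mpr ((ord_pos_iff_mem_nonunits v ht0).mp ht)
  rw [h, Ideal.mem_bot] at htS
  apply ht0
  have := congrArg (fun s : intRing K t => (s : F)) htS
  simpa using this

/-- The center of `v` as a height-one prime. -/
def centerPrime (v : Place K F) (ht : 0 < v.ord t) : HeightOneSpectrum (intRing K t) :=
  ⟨center v ht.le, inferInstance, center_ne_bot v ht⟩

@[simp] theorem centerPrime_asIdeal (v : Place K F) (ht : 0 < v.ord t) :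
    (centerPrime v ht).asIdeal = center v ht.le := rfl

/-- **Dictionary, surjectivity**: a place at which `t` vanishes is the place of its center. -/
theorem placeOfPrime_centerPrime (v : Place K F) (ht : 0 < v.ord t) :
    placeOfPrime K t (centerPrime v ht) = v := by
  apply Place.ext
  rw [placeOfPrime_toValuationSubring,
    ← HeightOneSpectrum.valuationSubringAtPrime_eq_valuationSubring]
  refine ValuationSubring.eq_of_le_of_ne_top _ ?_ v.ne_top'
  rintro x ⟨a, s, hs, rfl⟩
  have ha : (a : F) ∈ v.toValuationSubring := mem_of_mem_intRing v ht.le a.2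
  have hs' : (s : F) ∉ v.toValuationSubring.nonunits := fun h =>
    hs ((mem_center_iff v ht.le s).mpr h)
  have hsinv : (s : F)⁻¹ ∈ v.toValuationSubring := by
    by_contra hcon
    exact hs' ((ValuationSubring.mem_nonunits_iff_or _).mpr (Or.inr hcon))
  exact mul_mem ha hsinv

theorem ord_t_placeOfPrime_nonneg (q : HeightOneSpectrum (intRing K t)) :
    0 ≤ (placeOfPrime K t q).ord t := by
  apply ord_nonneg_of_mem
  rw [placeOfPrime_toValuationSubring, Valuation.mem_valuationSubring_iff]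
  exact q.valuation_le_one (tS K t)

/-- **Dictionary, injectivity**: the center of the place of `q` is `q`. -/
theorem center_placeOfPrime (q : HeightOneSpectrum (intRing K t)) :
    center (placeOfPrime K t q) (ord_t_placeOfPrime_nonneg q) = q.asIdeal := by
  ext s
  rw [mem_center_iff, placeOfPrime_toValuationSubring, mem_nonunits_valuationSubring_iff]
  exact q.valuation_lt_one_iff_mem s

theorem placeOfPrime_injective :
    Function.Injective (placeOfPrime K t : HeightOneSpectrum (intRing K t) → Place K F) := by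
  intro q q' h
  have h1 := center_placeOfPrime q
  have h2 := center_placeOfPrime q'
  apply HeightOneSpectrum.ext
  rw [← h1, ← h2]
  congr 1

/-- `t` vanishes at the place of `q` iff `t ∈ q`. -/
theorem ord_t_placeOfPrime_pos_iff (ht0 : t ≠ 0) (q : HeightOneSpectrum (intRing K t)) :
    0 < (placeOfPrime K t q).ord t ↔ tS K t ∈ q.asIdeal := by
  rw [ord_pos_iff_mem_nonunits _ ht0, placeOfPrime_toValuationSubring,
    mem_nonunits_valuationSubring_iff]
  exact q.valuation_lt_one_iff_mem (tS K t)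

end withCoord

end Fermat.Agent.S24.FF

end
-- ===== PACK-END S24/FFDict.lean

-- ===== PACK-BEGIN S29/H812/OrdSum.lean
section





/-!
# S29 / H812 — order of a finite sum with a unique strictly minimal term, and local
"indicator" functions at the places of a finite set (from weak approximation).
-/

set_option autoImplicit false

noncomputable section

open AlgebraicCurve WithZero

namespace Fermat.Agent.S29.H812

open Fermat.Agent.S24

variable {K F : Type*} [Field K] [Field F] [Algebra K F] (v : Place K F)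

/-- If one term of a finite sum has strictly smaller order than all other nonzero terms, then the
sum is nonzero and has the order of that term. -/
theorem ord_sum_eq_of_lt {ι : Type*} (s : Finset ι) (f : ι → F) (j : ι) (hj : j ∈ s)
    (hfj : f j ≠ 0) (h : ∀ i ∈ s, i ≠ j → f i = 0 ∨ v.ord (f j) < v.ord (f i)) :
    (∑ i ∈ s, f i) ≠ 0 ∧ v.ord (∑ i ∈ s, f i) = v.ord (f j) := by
  classical
  have key : v.adicValuation (∑ i ∈ s, f i) = v.adicValuation (f j) := by
    apply Valuation.map_sum_eq_of_lt _ hj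
    intro i hi
    rw [Finset.mem_sdiff, Finset.mem_singleton] at hi
    by_cases hi0 : f i = 0
    · rw [hi0, map_zero]
      exact zero_lt_iff.mpr (v.adicValuation_ne_zero hfj)
    · rcases h i hi.1 hi.2 with h0 | hlt
      · exact absurd h0 hi0
      · rw [H504.adicValuation_eq_exp_neg_ord v hi0, H504.adicValuation_eq_exp_neg_ord v hfj,
          exp_lt_exp]
        omega
  have hne : (∑ i ∈ s, f i) ≠ 0 := by
    intro h0
    rw [h0, map_zero] at key
    exact v.adicValuation_ne_zero hfj key.symm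
  refine ⟨hne, ?_⟩
  rw [H504.adicValuation_eq_exp_neg_ord v hne, H504.adicValuation_eq_exp_neg_ord v hfj] at key
  have := WithZero.exp_injective key
  omega

/-- `ord` of a finite sum is at least a common lower bound of the orders of the nonzero terms,
provided the sum is nonzero. -/
theorem le_ord_sum {ι : Type*} (s : Finset ι) (f : ι → F) (m : ℤ)
    (h : ∀ i ∈ s, f i = 0 ∨ m ≤ v.ord (f i)) (hne : (∑ i ∈ s, f i) ≠ 0) :
    m ≤ v.ord (∑ i ∈ s, f i) := by
  classical
  have key : v.adicValuation (∑ i ∈ s, f i) ≤ exp (-m) := by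
    apply Valuation.map_sum_le
    intro i hi
    by_cases hi0 : f i = 0
    · rw [hi0, map_zero]; exact zero_le
    · rcases h i hi with h0 | hle
      · exact absurd h0 hi0
      · rw [H504.adicValuation_eq_exp_neg_ord v hi0, exp_le_exp]
        omega
  rw [H504.adicValuation_eq_exp_neg_ord v hne, exp_le_exp] at key
  omega

/-- Membership version: a finite sum of elements of the valuation ring is in the valuation
ring. -/
theorem ord_one_add_of_neg {f : F} (hf : v.ord f < 0) :
    1 + f ≠ 0 ∧ v.ord (1 + f) = v.ord f := by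
  have hf0 : f ≠ 0 := H117.ne_zero_of_ord_ne_zero v hf.ne
  have h := H117.ord_add_eq_of_lt v (f := f) (g := 1) (by rw [v.ord_one]; exact hf) hf0
  rw [add_comm] at h
  refine ⟨?_, h⟩
  intro h0
  rw [h0, v.ord_zero] at h
  omega

theorem ord_one_add_of_pos {f : F} (hf : 0 < v.ord f) :
    1 + f ≠ 0 ∧ v.ord (1 + f) = 0 := by
  have h := H117.ord_add_eq_of_lt v (f := 1) (g := f) (by rw [v.ord_one]; exact hf) one_ne_zero
  rw [v.ord_one] at h
  refine ⟨?_, h⟩
  intro h0
  have hf1 : f = -1 := by linear_combination h0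
  rw [hf1, H117.ord_neg, v.ord_one] at hf
  exact lt_irrefl _ hf

/-- **Indicator functions.**  For a place `w` and a finite set `s` of other places there is
`ε` with `ε ≡ 1` at `w` (i.e. `ord_w (1 - ε) > 0`, `ord_w ε = 0`) and `ord_{w'} ε > 0`,
`ord_{w'} (1 - ε) = 0` for `w' ∈ s`. -/
theorem exists_indicator (w : Place K F) (s : Finset (Place K F)) (hw : w ∉ s) :
    ∃ ε : F, ε ≠ 0 ∧ 1 - ε ≠ 0 ∧ w.ord ε = 0 ∧ 0 < w.ord (1 - ε) ∧
      ∀ w' ∈ s, 0 < w'.ord ε ∧ w'.ord (1 - ε) = 0 := by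
  obtain ⟨f, hf1, hf2⟩ := H117.exists_ord_neg_forall_pos w s hw
  have hf0 : f ≠ 0 := H117.ne_zero_of_ord_ne_zero w hf1.ne
  obtain ⟨h1, h2⟩ := ord_one_add_of_neg w hf1
  have hinv : (1 + f)⁻¹ ≠ 0 := inv_ne_zero h1
  have hε : 1 - f / (1 + f) = (1 + f)⁻¹ := by field_simp; ring
  refine ⟨f / (1 + f), div_ne_zero hf0 h1, by rw [hε]; exact hinv, ?_, ?_, ?_⟩
  · rw [H117.ord_div w hf0 h1, h2]; ring
  · rw [hε, w.ord_inv, h2]; omega
  · intro w' hw'
    obtain ⟨h3, h4⟩ := ord_one_add_of_pos w' (hf2 w' hw')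
    constructor
    · rw [H117.ord_div w' hf0 h3, h4]; have := hf2 w' hw'; omega
    · rw [hε, w'.ord_inv, h4]; rfl

end Fermat.Agent.S29.H812

end
end
-- ===== PACK-END S29/H812/OrdSum.lean

-- ===== PACK-BEGIN S29/H812/Fiber.lean
section


/-!
# S29 / H812 — the fibre of a place in a finite extension of function fields:
adapted families, the coordinate lemma, linear independence and the fundamental inequality.
-/

set_option autoImplicit false

noncomputable section

open AlgebraicCurve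

namespace Fermat.Agent.S29.H812

open Fermat.Agent.S24

section Single

variable {K F : Type*} [Field K] [Field F] [Algebra K F]

/-- An element with prescribed order `i` at `w` and order at least `B` at the places of `s`. -/
theorem exists_ord_eq_and_ge (w : Place K F) (s : Finset (Place K F)) (hw : w ∉ s) (i B : ℕ) :
    ∃ u : F, u ≠ 0 ∧ w.ord u = i ∧ (∀ w' ∈ s, (B : ℤ) ≤ w'.ord u) := by
  obtain ⟨ε, hε0, -, hε1, -, hε2⟩ := exists_indicator w s hw
  obtain ⟨π, hπ0, hπ1⟩ := H117.exists_ord_eq_one w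
  set T : ℕ := ∑ w' ∈ s, (w'.ord π).natAbs with hT
  set M : ℕ := B + i * T with hM
  have hπi : π ^ i ≠ 0 := pow_ne_zero _ hπ0
  have hεM : ε ^ M ≠ 0 := pow_ne_zero _ hε0
  refine ⟨π ^ i * ε ^ M, mul_ne_zero hπi hεM, ?_, ?_⟩
  · rw [w.ord_mul hπi hεM, H117.ord_pow, H117.ord_pow, hπ1, hε1]; ring
  · intro w' hw'
    rw [w'.ord_mul hπi hεM, H117.ord_pow, H117.ord_pow]
    have h1 : (1 : ℤ) ≤ w'.ord ε := (hε2 w' hw').1
    have h2 : ((w'.ord π).natAbs : ℤ) ≤ (T : ℤ) := by
      have : (w'.ord π).natAbs ≤ T := Finset.single_le_sum (f := fun w' : Place K F =>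
        (w'.ord π).natAbs) (fun _ _ => Nat.zero_le _) hw'
      exact_mod_cast this
    have h3 : -((w'.ord π).natAbs : ℤ) ≤ w'.ord π := by
      omega
    have h4 : (M : ℤ) ≤ (M : ℤ) * w'.ord ε := by
      have hM0 : (0 : ℤ) ≤ (M : ℤ) := Int.natCast_nonneg _
      nlinarith
    have h5 : -((i : ℤ) * (T : ℤ)) ≤ (i : ℤ) * w'.ord π := by
      have hi0 : (0 : ℤ) ≤ (i : ℤ) := Int.natCast_nonneg _
      nlinarith
    have h6 : (M : ℤ) = B + i * T := by rw [hM]; push_cast; ring
    linarith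

/-- A uniformiser at `w` which is a unit at all places of `s`. -/
theorem exists_ord_eq_one_and_zero (w : Place K F) (s : Finset (Place K F)) (hw : w ∉ s) :
    ∃ ϖ : F, ϖ ≠ 0 ∧ w.ord ϖ = 1 ∧ (∀ w' ∈ s, w'.ord ϖ = 0) := by
  obtain ⟨ε, hε0, hε0', hε1, hε1', hε2⟩ := exists_indicator w s hw
  obtain ⟨u, hu0, hu1, hu2⟩ := exists_ord_eq_and_ge w s hw 1 1
  have hsq : (1 - ε) ^ 2 ≠ 0 := pow_ne_zero _ hε0'
  have hlt : w.ord u < w.ord ((1 - ε) ^ 2) := by
    rw [H117.ord_pow, hu1]; push_cast; omega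
  have h1 : w.ord (u + (1 - ε) ^ 2) = w.ord u := H117.ord_add_eq_of_lt w hlt hu0
  have hne : u + (1 - ε) ^ 2 ≠ 0 := by
    intro h0
    rw [h0, w.ord_zero, hu1] at h1
    simp at h1
  refine ⟨u + (1 - ε) ^ 2, hne, by rw [h1, hu1]; rfl, ?_⟩
  intro w' hw'
  have hlt' : w'.ord ((1 - ε) ^ 2) < w'.ord u := by
    rw [H117.ord_pow, (hε2 w' hw').2]
    have := hu2 w' hw'
    push_cast at this ⊢
    omega
  rw [add_comm, H117.ord_add_eq_of_lt w' hlt' hsq, H117.ord_pow, (hε2 w' hw').2]
  ring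

end Single

section Relative

variable {K F F' : Type*} [Field K] [Field F] [Field F']
  [Algebra K F] [Algebra K F'] [Algebra F F'] [IsScalarTower K F F']
  [Algebra.IsIntegral F F']

/-- Order of a scalar multiple at a place above `v`. -/
theorem ord_smul_of_restrict {v : Place K F} {w : Place K F'} (hw : w.restrict F = v)
    {c : F} (hc : c ≠ 0) {u : F'} (hu : u ≠ 0) :
    w.ord (c • u) = (w.ramificationIndex F : ℤ) * v.ord c + w.ord u := by
  rw [Algebra.smul_def, w.ord_mul (by simpa using hc) hu, w.ord_restrict, hw]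

/-- **Coordinate lemma.**  Let `u a` (`a : ι`) be a family adapted to the places `wt a` above `v`:
`ord_{wt a} (u a) = idx a < e(wt a)` and `ord_{w'} (u a) ≥ e(w')` at the other places `w' = wt b`.
For a nonzero coefficient vector `c`, the combination `∑ c a • u a` is nonzero and, at a suitable
place `wt a₀`, has order `e · m + idx a₀` where `m = ord_v (c a₀)` is the minimum of the orders of
the nonzero coefficients. -/
theorem coord_lemma (v : Place K F) {ι : Type*} [Fintype ι] (wt : ι → Place K F') (idx : ι → ℕ)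
    (u : ι → F') (hfib : ∀ a, (wt a).restrict F = v)
    (hidx : ∀ a, idx a < (wt a).ramificationIndex F)
    (hu0 : ∀ a, u a ≠ 0) (hu1 : ∀ a, (wt a).ord (u a) = idx a)
    (hu2 : ∀ a b, wt b ≠ wt a → (((wt b).ramificationIndex F : ℕ) : ℤ) ≤ (wt b).ord (u a))
    (hinj : ∀ a b, wt a = wt b → idx a = idx b → a = b)
    (c : ι → F) (hc : ∃ a, c a ≠ 0) :
    ∃ a₀, c a₀ ≠ 0 ∧ (∀ a, c a ≠ 0 → v.ord (c a₀) ≤ v.ord (c a)) ∧
      (∑ a, c a • u a) ≠ 0 ∧
      (wt a₀).ord (∑ a, c a • u a)
        = ((wt a₀).ramificationIndex F : ℤ) * v.ord (c a₀) + idx a₀ := by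
  classical
  -- first minimisation: the order of the coefficient
  set S : Finset ι := Finset.univ.filter fun a => c a ≠ 0 with hS
  have hSne : S.Nonempty := by
    obtain ⟨a, ha⟩ := hc
    exact ⟨a, by simp [hS, ha]⟩
  obtain ⟨a₁, ha₁S, ha₁min⟩ := Finset.exists_min_image S (fun a => v.ord (c a)) hSne
  -- second minimisation: the index, among the minimal coefficients
  set S' : Finset ι := S.filter fun a => v.ord (c a) = v.ord (c a₁) with hS'
  have hS'ne : S'.Nonempty := ⟨a₁, by simp [hS', ha₁S]⟩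
  obtain ⟨a₀, ha₀S', ha₀min⟩ := Finset.exists_min_image S' idx hS'ne
  have ha₀S : a₀ ∈ S := (Finset.mem_filter.mp ha₀S').1
  have hc₀ : c a₀ ≠ 0 := (Finset.mem_filter.mp ha₀S).2
  have hm₀ : v.ord (c a₀) = v.ord (c a₁) := (Finset.mem_filter.mp ha₀S').2
  have hmin : ∀ a, c a ≠ 0 → v.ord (c a₀) ≤ v.ord (c a) := by
    intro a ha
    rw [hm₀]
    exact ha₁min a (by simp [hS, ha])
  have hepos : 0 < (wt a₀).ramificationIndex F := (wt a₀).ramificationIndex_pos (F := F)
  have hterm₀ : c a₀ • u a₀ ≠ 0 := smul_ne_zero hc₀ (hu0 a₀)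
  have hord₀ : (wt a₀).ord (c a₀ • u a₀)
      = ((wt a₀).ramificationIndex F : ℤ) * v.ord (c a₀) + idx a₀ := by
    rw [ord_smul_of_restrict (hfib a₀) hc₀ (hu0 a₀), hu1]
  have key := ord_sum_eq_of_lt (wt a₀) Finset.univ (fun a => c a • u a) a₀ (Finset.mem_univ _)
    hterm₀ (by
      intro a _ hne
      by_cases hca : c a = 0
      · left; simp [hca]
      right
      rw [hord₀, ord_smul_of_restrict (hfib a₀) hca (hu0 a)]
      have hle := hmin a hca
      have hi₀ := hidx a₀
      have he : (0 : ℤ) < ((wt a₀).ramificationIndex F : ℤ) := by exact_mod_cast hepos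
      by_cases hw : wt a = wt a₀
      · -- same place
        have hua : (wt a₀).ord (u a) = idx a := by rw [← hw, hu1]
        rw [hua]
        rcases eq_or_lt_of_le hle with heq | hlt
        · have haS' : a ∈ S' := by
            simp only [hS', hS, Finset.mem_filter, Finset.mem_univ, true_and]
            exact ⟨hca, by rw [← heq, hm₀]⟩
          have h1 := ha₀min a haS'
          have h2 : idx a ≠ idx a₀ := fun h => hne (hinj a a₀ hw h)
          have h3 : idx a₀ < idx a := lt_of_le_of_ne h1 (Ne.symm h2)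
          rw [← heq]
          have : ((idx a₀ : ℕ) : ℤ) < (idx a : ℤ) := by exact_mod_cast h3
          linarith
        · have h1 : ((wt a₀).ramificationIndex F : ℤ) * (v.ord (c a₀) + 1)
              ≤ ((wt a₀).ramificationIndex F : ℤ) * v.ord (c a) :=
            mul_le_mul_of_nonneg_left (by omega) he.le
          have h2 : ((idx a₀ : ℕ) : ℤ) < ((wt a₀).ramificationIndex F : ℤ) := by
            exact_mod_cast hi₀
          have h3 : (0 : ℤ) ≤ (idx a : ℤ) := Int.natCast_nonneg _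
          nlinarith
      · -- different place
        have hua := hu2 a a₀ (fun h => hw h.symm)
        have h1 : ((wt a₀).ramificationIndex F : ℤ) * v.ord (c a₀)
              ≤ ((wt a₀).ramificationIndex F : ℤ) * v.ord (c a) :=
            mul_le_mul_of_nonneg_left hle he.le
        have h2 : ((idx a₀ : ℕ) : ℤ) < ((wt a₀).ramificationIndex F : ℤ) := by
            exact_mod_cast hi₀
        linarith)
  exact ⟨a₀, hc₀, hmin, key.1, by rw [key.2, hord₀]⟩

end Relative

end Fermat.Agent.S29.H812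

end
end
-- ===== PACK-END S29/H812/Fiber.lean

-- ===== PACK-BEGIN S29/H801/M1Abstract.lean
section
/-
S29 / M1 (helper801), part 2: two correspondences `T₁ = a₁_* b₁^*`, `T₂ = a₂_* b₂^*` on a function
field `F` commute, on divisors and on `Pic0`, as soon as there is a common cover `F₁₂`

            a₁,b₁                 A₂,B₂
      F  =========>  F₁      F₁ =========> F₁₂
            a₂,b₂                 A₁,B₁
      F  =========>  F₂      F₂ =========> F₁₂

with `A₂ ∘ a₁ = A₁ ∘ a₂`, `B₂ ∘ b₁ = B₁ ∘ b₂`, `B₁ ∘ a₂ = A₂ ∘ b₁`, `B₂ ∘ a₁ = A₁ ∘ b₂`, and the two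
mixed squares satisfy base change (helper818's `pullback_pushforward_eq`).
Then `T₁ T₂ = (A₂ a₁)_* (B₁ b₂)^* = (A₁ a₂)_* (B₂ b₁)^* = T₂ T₁`.
-/





set_option autoImplicit false
set_option linter.style.haveILetI false

noncomputable section

namespace Fermat.Agent.S29.H801

open AlgebraicCurve Fermat.Agent.S37.H818

variable {K F F₁ F₂ F₁₂ : Type*} [Field K] [Field F] [Field F₁] [Field F₂] [Field F₁₂]
  [Algebra K F] [Algebra K F₁] [Algebra K F₂] [Algebra K F₁₂]

theorem pushforwardAlong_congr {G G' : Type*} [Field G] [Field G'] [Algebra K G] [Algebra K G']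
    {φ φ' : G →ₐ[K] G'} (h : φ = φ')
    (hφ : φ.toRingHom.IsIntegral) (hφ' : φ'.toRingHom.IsIntegral) (D : Divisor K G') :
    Divisor.pushforwardAlong φ hφ D = Divisor.pushforwardAlong φ' hφ' D := by
  subst h
  rfl

section

variable (a₁ b₁ : F →ₐ[K] F₁) (a₂ b₂ : F →ₐ[K] F₂)
  (A₂ B₂ : F₁ →ₐ[K] F₁₂) (A₁ B₁ : F₂ →ₐ[K] F₁₂)
  (ha₁ : a₁.toRingHom.IsIntegral) (hb₁ : b₁.toRingHom.IsIntegral)
  (ha₂ : a₂.toRingHom.IsIntegral) (hb₂ : b₂.toRingHom.IsIntegral)
  (hA₂ : A₂.toRingHom.IsIntegral) (hB₂ : B₂.toRingHom.IsIntegral)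
  (hA₁ : A₁.toRingHom.IsIntegral) (hB₁ : B₁.toRingHom.IsIntegral)
  (hAA : A₂.comp a₁ = A₁.comp a₂) (hBB : B₂.comp b₁ = B₁.comp b₂)
  (hsq₁ : B₁.comp a₂ = A₂.comp b₁) (hsq₂ : B₂.comp a₁ = A₁.comp b₂)

variable [HasPrincipalDivisors K F₁] [HasPrincipalDivisors K F₂] [HasPrincipalDivisors K F₁₂]

include hsq₁ hB₁ hA₂ in
/-- `T₁ T₂ = (A₂ a₁)_* (B₁ b₂)^*`. -/
theorem correspondence_correspondence_eq
    (hfin₂ : FiniteAlong K a₂) (hN₂ : NormFormulaAlong K a₂ hfin₂)
    (hfinA₂ : FiniteAlong K A₂) (hNA₂ : NormFormulaAlong K A₂ hfinA₂)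
    (hnorm₁ : NormCompat a₂ b₁ A₂ B₁) (hLG₂ : HasLocalGenerators a₂ ha₂)
    (hAa : (A₂.comp a₁).toRingHom.IsIntegral) (hBb : (B₁.comp b₂).toRingHom.IsIntegral)
    (D : Divisor K F) :
    Divisor.correspondence b₁ a₁ hb₁ ha₁ (Divisor.correspondence b₂ a₂ hb₂ ha₂ D) =
      Divisor.pushforwardAlong (A₂.comp a₁) hAa (Divisor.pullbackAlong (B₁.comp b₂) hBb D) := by
  rw [Divisor.correspondence_apply, Divisor.correspondence_apply,
    pullback_pushforward_eq a₂ b₁ A₂ B₁ ha₂ hb₁ hA₂ hB₁ hsq₁ hfin₂ hN₂ hfinA₂ hNA₂ hnorm₁ hLG₂,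
    ← pushforwardAlong_comp a₁ A₂ ha₁ hA₂ hAa, ← pullbackAlong_comp b₂ B₁ hb₂ hB₁ hBb]

include hAA hBB hsq₁ hsq₂ hA₁ hA₂ hB₁ hB₂ in
/-- **Commutation of two correspondences on divisors.** -/
theorem correspondence_comm
    (hfin₁ : FiniteAlong K a₁) (hN₁ : NormFormulaAlong K a₁ hfin₁)
    (hfin₂ : FiniteAlong K a₂) (hN₂ : NormFormulaAlong K a₂ hfin₂)
    (hfinA₁ : FiniteAlong K A₁) (hNA₁ : NormFormulaAlong K A₁ hfinA₁)
    (hfinA₂ : FiniteAlong K A₂) (hNA₂ : NormFormulaAlong K A₂ hfinA₂)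
    (hnorm₁ : NormCompat a₂ b₁ A₂ B₁) (hnorm₂ : NormCompat a₁ b₂ A₁ B₂)
    (hLG₁ : HasLocalGenerators a₁ ha₁) (hLG₂ : HasLocalGenerators a₂ ha₂)
    (D : Divisor K F) :
    Divisor.correspondence b₁ a₁ hb₁ ha₁ (Divisor.correspondence b₂ a₂ hb₂ ha₂ D) =
      Divisor.correspondence b₂ a₂ hb₂ ha₂ (Divisor.correspondence b₁ a₁ hb₁ ha₁ D) := by
  have hAa : (A₂.comp a₁).toRingHom.IsIntegral := RingHom.IsIntegral.trans _ _ ha₁ hA₂
  have hAa' : (A₁.comp a₂).toRingHom.IsIntegral := RingHom.IsIntegral.trans _ _ ha₂ hA₁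
  have hBb : (B₁.comp b₂).toRingHom.IsIntegral := RingHom.IsIntegral.trans _ _ hb₂ hB₁
  have hBb' : (B₂.comp b₁).toRingHom.IsIntegral := RingHom.IsIntegral.trans _ _ hb₁ hB₂
  rw [correspondence_correspondence_eq a₁ b₁ a₂ b₂ A₂ B₁ ha₁ hb₁ ha₂ hb₂ hA₂ hB₁ hsq₁
      hfin₂ hN₂ hfinA₂ hNA₂ hnorm₁ hLG₂ hAa hBb D,
    correspondence_correspondence_eq a₂ b₂ a₁ b₁ A₁ B₂ ha₂ hb₂ ha₁ hb₁ hA₁ hB₂ hsq₂
      hfin₁ hN₁ hfinA₁ hNA₁ hnorm₂ hLG₁ hAa' hBb' D,
    pushforwardAlong_congr hAA hAa hAa', pullbackAlong_congr hBB.symm hBb hBb']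

include hAA hBB hsq₁ hsq₂ hA₁ hA₂ hB₁ hB₂ in
/-- **Commutation of two correspondences on `Pic0`.** -/
theorem pic0_correspondence_comm
    (hFI₁ : FundamentalIdentityAlong K b₁ hb₁) (hFI₂ : FundamentalIdentityAlong K b₂ hb₂)
    (hfin₁ : FiniteAlong K a₁) (hN₁ : NormFormulaAlong K a₁ hfin₁)
    (hfin₂ : FiniteAlong K a₂) (hN₂ : NormFormulaAlong K a₂ hfin₂)
    (hfinA₁ : FiniteAlong K A₁) (hNA₁ : NormFormulaAlong K A₁ hfinA₁)
    (hfinA₂ : FiniteAlong K A₂) (hNA₂ : NormFormulaAlong K A₂ hfinA₂)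
    (hnorm₁ : NormCompat a₂ b₁ A₂ B₁) (hnorm₂ : NormCompat a₁ b₂ A₁ B₂)
    (hLG₁ : HasLocalGenerators a₁ ha₁) (hLG₂ : HasLocalGenerators a₂ ha₂)
    (x : Pic0 K F) :
    Pic0.correspondence b₁ a₁ hb₁ ha₁ hFI₁ hfin₁ hN₁
        (Pic0.correspondence b₂ a₂ hb₂ ha₂ hFI₂ hfin₂ hN₂ x) =
      Pic0.correspondence b₂ a₂ hb₂ ha₂ hFI₂ hfin₂ hN₂
        (Pic0.correspondence b₁ a₁ hb₁ ha₁ hFI₁ hfin₁ hN₁ x) := by
  obtain ⟨D, rfl⟩ := Pic0.mk_surjective x
  rw [Pic0.correspondence_mk, Pic0.correspondence_mk, Pic0.correspondence_mk,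
    Pic0.correspondence_mk]
  congr 1
  apply Subtype.ext
  simp only [Pic0.coe_degZeroCorrespondence]
  exact correspondence_comm a₁ b₁ a₂ b₂ A₂ B₂ A₁ B₁ ha₁ hb₁ ha₂ hb₂ hA₂ hB₂ hA₁ hB₁ hAA hBB
    hsq₁ hsq₂ hfin₁ hN₁ hfin₂ hN₂ hfinA₁ hNA₁ hfinA₂ hNA₂ hnorm₁ hnorm₂ hLG₁ hLG₂ D

end

end Fermat.Agent.S29.H801

end

end
-- ===== PACK-END S29/H801/M1Abstract.lean

-- ===== PACK-BEGIN S29/H801/M1Modular.lean
section
/-
S29 / M1 (helper801), part 3: the Prelude Hecke operators `heckeOperatorAlong L N ℓ` commute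
(`HeckeOperatorsCommuteBar N` for `L = ℚ̄`), from

* `hi`  : the Prelude's `HeckeInputsAlong` at all levels (piece HI),
* `lg`  : local generators along the degeneracy maps `α` (weak approximation),
* `nc`  : norm compatibility of the mixed squares (`F_{Nℓℓ'} = F_{Nℓ} ⊗_{F_N} F_{Nℓ'}`).

No places ↔ points dictionary is used.
-/




set_option autoImplicit false
set_option linter.style.haveILetI false

noncomputable section

namespace Fermat.Agent.S29.H801

open AlgebraicCurve ModularCurve Fermat.Agent.S37.H818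

variable (L : Type*) [Field L] [Algebra ℚ L]

/-- The function field of level `N` over `L` (as a type). -/
abbrev FB (N : ℕ) [NeZero N] : Type _ := ↥(laurentBaseChange L (modularFunctionFieldFull N))

section Retarget

variable (M ℓ M' : ℕ) [NeZero M] [NeZero ℓ] [NeZero M']

/-- `heckeAlphaBar L M ℓ` with codomain level renamed along `M * ℓ = M'`. -/
def alphaTo (h : M * ℓ = M') : _root_.Fermat.Agent.S29.H801.FB L M →ₐ[L] _root_.Fermat.Agent.S29.H801.FB L M' := by
  subst h
  exact heckeAlphaBar L M ℓ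

/-- `heckeBetaBar L M ℓ` with codomain level renamed along `M * ℓ = M'`. -/
def betaTo (h : M * ℓ = M') : _root_.Fermat.Agent.S29.H801.FB L M →ₐ[L] _root_.Fermat.Agent.S29.H801.FB L M' := by
  subst h
  exact heckeBetaBar L M ℓ

variable {M ℓ M'}

@[simp] theorem coe_alphaTo (h : M * ℓ = M') (x : _root_.Fermat.Agent.S29.H801.FB L M) :
    ((alphaTo L M ℓ M' h x : _root_.Fermat.Agent.S29.H801.FB L M') : LaurentSeries L) = (x : LaurentSeries L) := by
  subst h
  exact coe_heckeAlphaBar M ℓ x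

@[simp] theorem coe_betaTo (h : M * ℓ = M') (x : _root_.Fermat.Agent.S29.H801.FB L M) :
    ((betaTo L M ℓ M' h x : _root_.Fermat.Agent.S29.H801.FB L M') : LaurentSeries L) = qExpand L ℓ (x : LaurentSeries L) := by
  subst h
  exact coe_heckeBetaBar M ℓ x

theorem alphaTo_rfl : alphaTo L M ℓ (M * ℓ) rfl = heckeAlphaBar L M ℓ := rfl

theorem betaTo_rfl : betaTo L M ℓ (M * ℓ) rfl = heckeBetaBar L M ℓ := rfl

theorem alphaTo_integral (h : M * ℓ = M') (hα : HeckeAlphaBarIntegral L M ℓ) :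
    (alphaTo L M ℓ M' h).toRingHom.IsIntegral := by
  subst h
  exact hα

theorem betaTo_integral (h : M * ℓ = M') (hβ : HeckeBetaBarIntegral L M ℓ) :
    (betaTo L M ℓ M' h).toRingHom.IsIntegral := by
  subst h
  exact hβ

theorem alphaTo_finite (h : M * ℓ = M') (hfin : FiniteAlong L (heckeAlphaBar L M ℓ)) :
    FiniteAlong L (alphaTo L M ℓ M' h) := by
  subst h
  exact hfin

theorem alphaTo_normFormula (h : M * ℓ = M') (hfin : FiniteAlong L (heckeAlphaBar L M ℓ))
    (hN : NormFormulaAlong L (heckeAlphaBar L M ℓ) hfin) :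
    NormFormulaAlong L (alphaTo L M ℓ M' h) (alphaTo_finite L h hfin) := by
  subst h
  exact hN

theorem hasPrincipalDivisors_of_eq (h : M * ℓ = M')
    (hP : HasPrincipalDivisors L (_root_.Fermat.Agent.S29.H801.FB L (M * ℓ))) : HasPrincipalDivisors L (_root_.Fermat.Agent.S29.H801.FB L M') := by
  subst h
  exact hP

end Retarget

/-- The inputs of the commutation theorem. -/
structure M1Inputs : Prop where
  /-- piece `HI` at all levels -/
  hi : ∀ (M ℓ : ℕ) [NeZero M] [NeZero ℓ], ℓ.Prime → HeckeInputsAlong L M ℓ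
  /-- local generators along `α` -/
  lg : ∀ (M ℓ : ℕ) [NeZero M] [NeZero ℓ], ℓ.Prime → ∀ hα : HeckeAlphaBarIntegral L M ℓ,
    HasLocalGenerators (heckeAlphaBar L M ℓ) hα
  /-- norm compatibility of the mixed square
  `F_N --α_{ℓ'}--> F_{Nℓ'}`, `F_N --β_ℓ--> F_{Nℓ}`, `F_{Nℓ} --α_{ℓ'}--> F_{Nℓℓ'}`,
  `F_{Nℓ'} --β_ℓ--> F_{Nℓℓ'}`. -/
  nc : ∀ (N ℓ ℓ' : ℕ) [NeZero N] [NeZero ℓ] [NeZero ℓ'], ℓ.Prime → ℓ'.Prime → ℓ ≠ ℓ' →
    NormCompat (heckeAlphaBar L N ℓ') (heckeBetaBar L N ℓ) (heckeAlphaBar L (N * ℓ) ℓ')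
      (betaTo L (N * ℓ') ℓ (N * ℓ * ℓ') (Nat.mul_right_comm N ℓ' ℓ))

variable {L}

theorem M1Inputs.nc' (H : M1Inputs L) (N ℓ ℓ' M' : ℕ) [NeZero N] [NeZero ℓ] [NeZero ℓ']
    [NeZero M'] (hℓ : ℓ.Prime) (hℓ' : ℓ'.Prime) (hne : ℓ ≠ ℓ')
    (h₁ : N * ℓ * ℓ' = M') (h₂ : N * ℓ' * ℓ = M') :
    NormCompat (heckeAlphaBar L N ℓ') (heckeBetaBar L N ℓ) (alphaTo L (N * ℓ) ℓ' M' h₁)
      (betaTo L (N * ℓ') ℓ M' h₂) := by
  subst h₁
  exact H.nc N ℓ ℓ' hℓ hℓ' hne

section Relations

variable (N ℓ ℓ' : ℕ) [NeZero N] [NeZero ℓ] [NeZero ℓ']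

theorem rel_AA :
    (heckeAlphaBar L (N * ℓ) ℓ').comp (heckeAlphaBar L N ℓ) =
      (alphaTo L (N * ℓ') ℓ (N * ℓ * ℓ') (Nat.mul_right_comm N ℓ' ℓ)).comp
        (heckeAlphaBar L N ℓ') := by
  refine AlgHom.ext fun x => Subtype.ext ?_
  simp only [AlgHom.comp_apply, coe_heckeAlphaBar, coe_alphaTo]

theorem rel_BB :
    (heckeBetaBar L (N * ℓ) ℓ').comp (heckeBetaBar L N ℓ) =
      (betaTo L (N * ℓ') ℓ (N * ℓ * ℓ') (Nat.mul_right_comm N ℓ' ℓ)).comp
        (heckeBetaBar L N ℓ') := by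
  refine AlgHom.ext fun x => Subtype.ext ?_
  simp only [AlgHom.comp_apply, coe_heckeBetaBar, coe_betaTo]
  rw [qExpand_qExpand, qExpand_qExpand]
  exact qExpand_congr (mul_comm ℓ' ℓ) _

theorem rel_sq₁ :
    (betaTo L (N * ℓ') ℓ (N * ℓ * ℓ') (Nat.mul_right_comm N ℓ' ℓ)).comp (heckeAlphaBar L N ℓ') =
      (heckeAlphaBar L (N * ℓ) ℓ').comp (heckeBetaBar L N ℓ) := by
  refine AlgHom.ext fun x => Subtype.ext ?_
  simp only [AlgHom.comp_apply, coe_heckeAlphaBar, coe_heckeBetaBar, coe_betaTo]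

theorem rel_sq₂ :
    (heckeBetaBar L (N * ℓ) ℓ').comp (heckeAlphaBar L N ℓ) =
      (alphaTo L (N * ℓ') ℓ (N * ℓ * ℓ') (Nat.mul_right_comm N ℓ' ℓ)).comp
        (heckeBetaBar L N ℓ') := by
  refine AlgHom.ext fun x => Subtype.ext ?_
  simp only [AlgHom.comp_apply, coe_heckeAlphaBar, coe_heckeBetaBar, coe_alphaTo]

end Relations

/-- **Commutation of the Prelude Hecke operators** `heckeOperatorAlong L N ℓ` for two
distinct primes. -/
theorem heckeOperatorAlong_comm_of_ne (H : M1Inputs L) (N ℓ ℓ' : ℕ) [NeZero N] [NeZero ℓ]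
    [NeZero ℓ'] (hℓ : ℓ.Prime) (hℓ' : ℓ'.Prime) (hne : ℓ ≠ ℓ')
    (x : Pic0 L (laurentBaseChange L (modularFunctionFieldFull N))) :
    heckeOperatorAlong L N ℓ (heckeOperatorAlong L N ℓ' x) =
      heckeOperatorAlong L N ℓ' (heckeOperatorAlong L N ℓ x) := by
  obtain ⟨hα₁, hβ₁, hP₁, hfin₁, hFI₁, hN₁⟩ := H.hi N ℓ hℓ
  obtain ⟨hα₂, hβ₂, hP₂, hfin₂, hFI₂, hN₂⟩ := H.hi N ℓ' hℓ'
  obtain ⟨hαA₂, hβB₂, hP₁₂, hfinA₂, hFIB₂, hNA₂⟩ := H.hi (N * ℓ) ℓ' hℓ'
  obtain ⟨hαA₁, hβB₁, hP₂₁, hfinA₁, hFIB₁, hNA₁⟩ := H.hi (N * ℓ') ℓ hℓ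
  rw [heckeOperatorAlong_eq hα₁ hβ₁ hFI₁ hfin₁ hN₁, heckeOperatorAlong_eq hα₂ hβ₂ hFI₂ hfin₂ hN₂]
  have hc : N * ℓ' * ℓ = N * ℓ * ℓ' := Nat.mul_right_comm N ℓ' ℓ
  exact pic0_correspondence_comm
    (heckeAlphaBar L N ℓ) (heckeBetaBar L N ℓ) (heckeAlphaBar L N ℓ') (heckeBetaBar L N ℓ')
    (heckeAlphaBar L (N * ℓ) ℓ') (heckeBetaBar L (N * ℓ) ℓ')
    (alphaTo L (N * ℓ') ℓ (N * ℓ * ℓ') hc) (betaTo L (N * ℓ') ℓ (N * ℓ * ℓ') hc)
    hα₁ hβ₁ hα₂ hβ₂ hαA₂ hβB₂ (alphaTo_integral L hc hαA₁) (betaTo_integral L hc hβB₁)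
    (rel_AA N ℓ ℓ') (rel_BB N ℓ ℓ') (rel_sq₁ N ℓ ℓ') (rel_sq₂ N ℓ ℓ')
    hFI₁ hFI₂ hfin₁ hN₁ hfin₂ hN₂
    (alphaTo_finite L hc hfinA₁) (alphaTo_normFormula L hc hfinA₁ hNA₁) hfinA₂ hNA₂
    (H.nc N ℓ ℓ' hℓ hℓ' hne)
    (H.nc' N ℓ' ℓ (N * ℓ * ℓ') hℓ' hℓ hne.symm hc rfl)
    (H.lg N ℓ hℓ hα₁) (H.lg N ℓ' hℓ' hα₂) x

/-- **Piece M1**: `HeckeOperatorsCommuteBar N` from the inputs over `ℚ̄`. -/
theorem heckeOperatorsCommuteBar_of_inputs (H : M1Inputs (AlgebraicClosure ℚ)) (N : ℕ)
    [NeZero N] : HeckeOperatorsCommuteBar N := by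
  intro ℓ ℓ'
  by_cases hne : (ℓ : ℕ) = ℓ'
  · have : ℓ = ℓ' := Subtype.ext hne
    subst this
    rfl
  · haveI : NeZero (ℓ : ℕ) := ⟨ℓ.2.ne_zero⟩
    haveI : NeZero (ℓ' : ℕ) := ⟨ℓ'.2.ne_zero⟩
    ext x
    simp only [Module.End.mul_apply, heckeOperatorBar_apply]
    exact heckeOperatorAlong_comm_of_ne H N ℓ ℓ' ℓ.2 ℓ'.2 hne x

end Fermat.Agent.S29.H801

end

end
-- ===== PACK-END S29/H801/M1Modular.lean

-- ===== PACK-BEGIN S20/Comb694/OrbitCounts.lean
section




/-!
# Orbit counts of `S` and `S * T` on `SL(2,ℤ) ⧸ Gamma0 N`, and the genus identity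

* `two_mul_card_orbits_S : 2 * #(Q / ⟨S⟩) = ψ(N) + ν₂(N)`
* `three_mul_card_orbits_ST : 3 * #(Q / ⟨S * T⟩) = ψ(N) + 2 * ν₃(N)`
* `genusFormula_eq_of_card_orbits_T` : the Euler-characteristic identity
  `genusFormula N = 1 + (μ - o₂ - o₃ - o∞) / 2`.
-/

set_option autoImplicit false

namespace Fermat.Agent.S20.Comb694

open Matrix MatrixGroups CongruenceSubgroup MulAction Subgroup

/-- `-1` acts trivially on `SL(2,ℤ) ⧸ Γ₀(N)`. -/
lemma neg_one_smul_quotient (N : ℕ) (q : SL(2, ℤ) ⧸ Gamma0 N) : (-1 : SL(2, ℤ)) • q = q := by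
  obtain ⟨g, rfl⟩ := QuotientGroup.mk_surjective q
  rw [smul_mk_eq_mk_iff]
  have h : ∀ i j, ((-1 : SL(2, ℤ)) * g) i j = - g i j := by
    intro i j
    rw [_root_.neg_mul, _root_.one_mul, Matrix.SpecialLinearGroup.coe_neg, Matrix.neg_apply]
  rw [h, h]
  push_cast
  ring

lemma S_pow_two : ModularGroup.S ^ 2 = (-1 : SL(2, ℤ)) := by
  apply Subtype.ext
  rw [pow_two, Matrix.SpecialLinearGroup.coe_mul, ModularGroup.coe_S,
    Matrix.SpecialLinearGroup.coe_neg, Matrix.SpecialLinearGroup.coe_one]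
  ext i j
  fin_cases i <;> fin_cases j <;> simp [Matrix.mul_apply, Fin.sum_univ_two]

lemma ST_pow_three : (ModularGroup.S * ModularGroup.T) ^ 3 = (-1 : SL(2, ℤ)) := by
  apply Subtype.ext
  rw [pow_succ, pow_two, Matrix.SpecialLinearGroup.coe_mul, Matrix.SpecialLinearGroup.coe_mul,
    coe_S_mul_T, Matrix.SpecialLinearGroup.coe_neg, Matrix.SpecialLinearGroup.coe_one]
  ext i j
  fin_cases i <;> fin_cases j <;> simp [Matrix.mul_apply, Fin.sum_univ_two]

/-- `2 * #(S-orbits) = ψ(N) + ν₂(N)`. -/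
theorem two_mul_card_orbits_S (N : ℕ) [NeZero N] :
    2 * Nat.card (orbitRel.Quotient (zpowers ModularGroup.S) (SL(2, ℤ) ⧸ Gamma0 N))
      = ModularCurve.dedekindPsi N + ModularCurve.nuTwo N := by
  have h := prime_mul_card_orbits (X := SL(2, ℤ) ⧸ Gamma0 N) ModularGroup.S 2 Nat.prime_two
    (fun x => by rw [S_pow_two]; exact neg_one_smul_quotient N x)
  rw [card_quotient_Gamma0, card_fixedBy_S] at h
  exact h.trans (by norm_num)

/-- `3 * #(ST-orbits) = ψ(N) + 2 * ν₃(N)`. -/
theorem three_mul_card_orbits_ST (N : ℕ) [NeZero N] :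
    3 * Nat.card (orbitRel.Quotient (zpowers (ModularGroup.S * ModularGroup.T))
        (SL(2, ℤ) ⧸ Gamma0 N))
      = ModularCurve.dedekindPsi N + 2 * ModularCurve.nuThree N := by
  have h := prime_mul_card_orbits (X := SL(2, ℤ) ⧸ Gamma0 N)
    (ModularGroup.S * ModularGroup.T) 3 Nat.prime_three
    (fun x => by rw [ST_pow_three]; exact neg_one_smul_quotient N x)
  rw [card_quotient_Gamma0, card_fixedBy_ST] at h
  exact h.trans (by norm_num)

/-- The Euler-characteristic identity: with `μ = #Q`, `o₂`, `o₃`, `o∞` the numbers of orbits of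
`S`, `S * T`, `T` on `Q = SL(2,ℤ) ⧸ Γ₀(N)`, one has `genusFormula N = 1 + (μ - o₂ - o₃ - o∞) / 2`,
provided `o∞ = cuspCount N`. -/
theorem genusFormula_eq_of_card_orbits_T (N : ℕ) [NeZero N]
    (hT : Nat.card (orbitRel.Quotient (zpowers ModularGroup.T) (SL(2, ℤ) ⧸ Gamma0 N))
      = ModularCurve.cuspCount N) :
    ModularCurve.genusFormula N
      = 1 + ((Nat.card (SL(2, ℤ) ⧸ Gamma0 N) : ℚ)
          - (Nat.card (orbitRel.Quotient (zpowers ModularGroup.S) (SL(2, ℤ) ⧸ Gamma0 N)) : ℚ)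
          - (Nat.card (orbitRel.Quotient (zpowers (ModularGroup.S * ModularGroup.T))
              (SL(2, ℤ) ⧸ Gamma0 N)) : ℚ)
          - (Nat.card (orbitRel.Quotient (zpowers ModularGroup.T)
              (SL(2, ℤ) ⧸ Gamma0 N)) : ℚ)) / 2 := by
  have h2 := two_mul_card_orbits_S N
  have h3 := three_mul_card_orbits_ST N
  have h2' := congrArg (Nat.cast : ℕ → ℚ) h2
  have h3' := congrArg (Nat.cast : ℕ → ℚ) h3
  push_cast at h2' h3'
  rw [hT, card_quotient_Gamma0, ModularCurve.genusFormula]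
  linear_combination (1 / 4 : ℚ) * h2' + (1 / 6 : ℚ) * h3'

/-- Orbit-count form used by dimension bounds: `μ + 2 - o₂ - o₃ - o∞ = 2 * genusFormula N`. -/
theorem two_mul_genusFormula_of_card_orbits_T (N : ℕ) [NeZero N]
    (hT : Nat.card (orbitRel.Quotient (zpowers ModularGroup.T) (SL(2, ℤ) ⧸ Gamma0 N))
      = ModularCurve.cuspCount N) :
    2 * ModularCurve.genusFormula N
      + (Nat.card (orbitRel.Quotient (zpowers ModularGroup.S) (SL(2, ℤ) ⧸ Gamma0 N)) : ℚ)
      + (Nat.card (orbitRel.Quotient (zpowers (ModularGroup.S * ModularGroup.T))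
          (SL(2, ℤ) ⧸ Gamma0 N)) : ℚ)
      + (Nat.card (orbitRel.Quotient (zpowers ModularGroup.T) (SL(2, ℤ) ⧸ Gamma0 N)) : ℚ)
      = (Nat.card (SL(2, ℤ) ⧸ Gamma0 N) : ℚ) + 2 := by
  rw [genusFormula_eq_of_card_orbits_T N hT]
  ring

end Fermat.Agent.S20.Comb694

end
-- ===== PACK-END S20/Comb694/OrbitCounts.lean

-- ===== PACK-BEGIN S24/Count/H324Interface.lean
section




/-!
# S24 — COUNT interface, exact frozen shapes (helper324)

The four COUNT interface theorems of `Fermat/Agent/S24/Count.lean` (skeleton of helper984),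
proved in the exact shapes `numOrbits (permOf N g)`, assembled from

* `Fermat.Agent.S20.Comb694` (helper694): index of `Γ₀(N)`, fixed points and orbit counts of
  `S` and `S * T`;
* `Fermat.Agent.S20.CuspCount360` (helper360): orbits of `T`.

The only new ingredient is the bridge between orbits of the cyclic group generated by the
permutation `MulAction.toPerm g` and orbits of the cyclic group generated by `g`.
-/

set_option autoImplicit false

noncomputable section

open ModularCurve MulAction Subgroup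
open scoped MatrixGroups

namespace Fermat.Agent.S24.H324

section Bridge

variable {G X : Type*} [Group G] [MulAction G X]

/-- The orbit relation of `⟨toPerm g⟩ ≤ Perm X` is the orbit relation of `⟨g⟩ ≤ G`. -/
theorem orbitRel_zpowers_toPerm (g : G) :
    orbitRel (zpowers (MulAction.toPerm g : Equiv.Perm X)) X = orbitRel (zpowers g) X := by
  ext x y
  simp only [orbitRel_apply]
  constructor
  · rintro ⟨⟨π, hπ⟩, rfl⟩
    obtain ⟨k, rfl⟩ := Subgroup.mem_zpowers_iff.mp hπ
    refine ⟨⟨g ^ k, zpow_mem_zpowers g k⟩, ?_⟩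
    have h : (MulAction.toPerm g : Equiv.Perm X) ^ k = MulAction.toPerm (g ^ k) :=
      (map_zpow (MulAction.toPermHom G X) g k).symm
    change g ^ k • y = ((MulAction.toPerm g : Equiv.Perm X) ^ k) y
    rw [h]
    rfl
  · rintro ⟨⟨h, hh⟩, rfl⟩
    obtain ⟨k, rfl⟩ := Subgroup.mem_zpowers_iff.mp hh
    refine ⟨⟨(MulAction.toPerm g : Equiv.Perm X) ^ k, zpow_mem_zpowers _ k⟩, ?_⟩
    have h : (MulAction.toPerm g : Equiv.Perm X) ^ k = MulAction.toPerm (g ^ k) :=
      (map_zpow (MulAction.toPermHom G X) g k).symm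
    change ((MulAction.toPerm g : Equiv.Perm X) ^ k) y = g ^ k • y
    rw [h]
    rfl

/-- `numOrbits (toPerm g)` is the number of orbits of the cyclic group generated by `g`. -/
theorem numOrbits_toPerm (g : G) :
    numOrbits (MulAction.toPerm g : Equiv.Perm X)
      = Nat.card (orbitRel.Quotient (zpowers g) X) := by
  unfold numOrbits
  refine Nat.card_congr (Quotient.congr (Equiv.refl X) ?_)
  intro x y
  have h := orbitRel_zpowers_toPerm (X := X) g
  exact iff_of_eq (congrArg (fun s : Setoid X => s x y) h)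

/-- `numOrbits` only depends on the cyclic group generated by the permutation. -/
theorem numOrbits_congr_zpowers {π π' : Equiv.Perm X} (h : zpowers π = zpowers π') :
    numOrbits π = numOrbits π' := by
  unfold numOrbits
  rw [h]

/-- A permutation and its inverse have the same number of orbits. -/
theorem numOrbits_inv (π : Equiv.Perm X) : numOrbits π⁻¹ = numOrbits π :=
  numOrbits_congr_zpowers zpowers_inv

/-- `g⁻¹` and `g` have the same number of orbits. -/
theorem numOrbits_toPerm_inv (g : G) :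
    numOrbits (MulAction.toPerm g⁻¹ : Equiv.Perm X)
      = numOrbits (MulAction.toPerm g : Equiv.Perm X) := by
  have h : (MulAction.toPerm g⁻¹ : Equiv.Perm X) = (MulAction.toPerm g : Equiv.Perm X)⁻¹ :=
    map_inv (MulAction.toPermHom G X) g
  rw [h, numOrbits_inv]

/-- Conjugate elements have the same number of orbits. -/
theorem numOrbits_toPerm_conj (g h : G) :
    numOrbits (MulAction.toPerm (h * g * h⁻¹) : Equiv.Perm X)
      = numOrbits (MulAction.toPerm g : Equiv.Perm X) := by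
  rw [numOrbits_toPerm, numOrbits_toPerm]
  refine Nat.card_congr (Quotient.congr (MulAction.toPerm h⁻¹) ?_)
  intro x y
  change x ∈ MulAction.orbit (zpowers (h * g * h⁻¹)) y ↔
    (h⁻¹ • x) ∈ MulAction.orbit (zpowers g) (h⁻¹ • y)
  constructor
  · rintro ⟨⟨u, hu⟩, rfl⟩
    obtain ⟨k, rfl⟩ := Subgroup.mem_zpowers_iff.mp hu
    refine ⟨⟨g ^ k, zpow_mem_zpowers g k⟩, ?_⟩
    change g ^ k • h⁻¹ • y = h⁻¹ • ((h * g * h⁻¹) ^ k • y)
    have : (h * g * h⁻¹) ^ k = h * g ^ k * h⁻¹ := by
      rw [← conj_zpow]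
    rw [this, smul_smul, smul_smul]
    congr 1
    group
  · rintro ⟨⟨u, hu⟩, hxy⟩
    obtain ⟨k, rfl⟩ := Subgroup.mem_zpowers_iff.mp hu
    refine ⟨⟨(h * g * h⁻¹) ^ k, zpow_mem_zpowers _ k⟩, ?_⟩
    change (h * g * h⁻¹) ^ k • y = x
    have hxy' : g ^ k • h⁻¹ • y = h⁻¹ • x := hxy
    have : (h * g * h⁻¹) ^ k = h * g ^ k * h⁻¹ := by
      rw [← conj_zpow]
    rw [this, mul_smul, mul_smul, hxy', smul_inv_smul]

end Bridge

variable (N : ℕ)

theorem numOrbits_permOf (g : SL(2, ℤ)) :
    numOrbits (permOf N g)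
      = Nat.card (orbitRel.Quotient (zpowers g) (SL(2, ℤ) ⧸ CongruenceSubgroup.Gamma0 N)) :=
  numOrbits_toPerm g

theorem card_XX : Nat.card (XX N) = dedekindPsi N :=
  Fermat.Agent.S20.Comb694.card_quotient_Gamma0 N

theorem numOrbits_permOf_inv (g : SL(2, ℤ)) :
    numOrbits (permOf N g⁻¹) = numOrbits (permOf N g) :=
  numOrbits_toPerm_inv g

theorem numOrbits_permOf_conj (g h : SL(2, ℤ)) :
    numOrbits (permOf N (h * g * h⁻¹)) = numOrbits (permOf N g) :=
  numOrbits_toPerm_conj g h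

variable [NeZero N]

theorem two_mul_numOrbits_S :
    2 * numOrbits (permOf N ModularGroup.S) = dedekindPsi N + nuTwo N := by
  rw [numOrbits_permOf]
  exact Fermat.Agent.S20.Comb694.two_mul_card_orbits_S N

theorem three_mul_numOrbits_ST :
    3 * numOrbits (permOf N (ModularGroup.S * ModularGroup.T))
      = dedekindPsi N + 2 * nuThree N := by
  rw [numOrbits_permOf]
  exact Fermat.Agent.S20.Comb694.three_mul_card_orbits_ST N

theorem numOrbits_T : numOrbits (permOf N ModularGroup.T) = cuspCount N := by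
  rw [numOrbits_permOf]
  exact Fermat.Agent.S20.CuspCount360.card_orbits_T N

end Fermat.Agent.S24.H324

end
end
-- ===== PACK-END S24/Count/H324Interface.lean

-- ===== PACK-BEGIN Lib/RR/H623/WeakApprox.lean
section




/-!
# Shared library RR (helper623): the weak approximation theorem for places

Prelude language (`AlgebraicCurve.Place`).  For finitely many places `v ∈ s`, targets `x v : F`
and orders `r v : ℤ` there is `z : F` with `ord_v (z - x v) = r v` for all `v ∈ s`
(Stichtenoth, Thm. 1.3.1).  No hypothesis on `K`, `F`.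

* `Big v r f` : `f = 0 ∨ r ≤ ord_v f` with its calculus
* `exists_near_one`, `exists_approx`, `weak_approximation`, `weak_approximation_ge`
-/

set_option autoImplicit false

noncomputable section

namespace Fermat.Agent.Lib.RR.H623

open AlgebraicCurve Fermat.Agent.S24.H117

variable {K F : Type*} [Field K] [Field F] [Algebra K F]

/-- `f = 0` or `r ≤ ord_v f`. -/
def Big (v : Place K F) (r : ℤ) (f : F) : Prop := f = 0 ∨ r ≤ v.ord f

namespace Big

variable {v : Place K F} {r s : ℤ} {f g : F}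

theorem zero (v : Place K F) (r : ℤ) : Big v r (0 : F) := Or.inl rfl

theorem of_le (hf : r ≤ v.ord f) : Big v r f := Or.inr hf

theorem le_ord (h : Big v r f) (hf : f ≠ 0) : r ≤ v.ord f := h.resolve_left hf

theorem mono (h : Big v r f) (hsr : s ≤ r) : Big v s f := by
  rcases h with h | h
  · exact Or.inl h
  · exact Or.inr (hsr.trans h)

theorem neg (h : Big v r f) : Big v r (-f) := by
  rcases h with h | h
  · exact Or.inl (by rw [h, neg_zero])
  · exact Or.inr (by rwa [_root_.Fermat.Agent.S24.H117.ord_neg])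

theorem add (hf : Big v r f) (hg : Big v r g) : Big v r (f + g) := by
  rcases eq_or_ne (f + g) 0 with h0 | h0
  · exact Or.inl h0
  rcases hf with rfl | hf
  · rwa [zero_add]
  rcases hg with rfl | hg
  · rw [add_zero]; exact Or.inr hf
  exact Or.inr ((le_min hf hg).trans (ord_add_ge v h0))

theorem sub (hf : Big v r f) (hg : Big v r g) : Big v r (f - g) := by
  rw [sub_eq_add_neg]; exact hf.add hg.neg

theorem mul (hf : Big v r f) (hg : Big v s g) : Big v (r + s) (f * g) := by
  rcases hf with rfl | hf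
  · exact Or.inl (zero_mul _)
  rcases hg with rfl | hg
  · exact Or.inl (mul_zero _)
  rcases eq_or_ne f 0 with rfl | hf0
  · exact Or.inl (zero_mul _)
  rcases eq_or_ne g 0 with rfl | hg0
  · exact Or.inl (mul_zero _)
  refine Or.inr ?_
  rw [v.ord_mul hf0 hg0]
  omega

theorem sum {ι : Type*} (t : Finset ι) (φ : ι → F) (h : ∀ i ∈ t, Big v r (φ i)) :
    Big v r (∑ i ∈ t, φ i) := by
  classical
  induction t using Finset.induction_on with
  | empty => simp [zero]
  | insert a t ha ih =>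
    rw [Finset.sum_insert ha]
    exact (h a (Finset.mem_insert_self _ _)).add
      (ih fun i hi => h i (Finset.mem_insert_of_mem hi))

theorem self (v : Place K F) (f : F) : Big v (v.ord f) f := Or.inr le_rfl

end Big

theorem big_iff_adicValuation_le {v : Place K F} {r : ℤ} {f : F} :
    Big v r f ↔ v.adicValuation f ≤ WithZero.exp (-r) := by
  rw [Place.adicValuation_le_exp_iff, neg_neg]
  rfl

/-- **Step 2**: an element close to `1` at `v` and close to `0` at the places of `s`. -/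
theorem exists_near_one (v : Place K F) (s : Finset (Place K F)) (hv : v ∉ s) (r : ℤ) :
    ∃ w : F, Big v r (w - 1) ∧ ∀ w' ∈ s, Big w' r w := by
  obtain ⟨u, hu1, hu2⟩ := exists_ord_pos_forall_neg v s hv
  obtain ⟨n, hn1, hnr⟩ : ∃ n : ℕ, 1 ≤ n ∧ r ≤ (n : ℤ) :=
    ⟨r.toNat + 1, by omega, by have := Int.self_le_toNat r; push_cast; omega⟩
  have hn1' : (1 : ℤ) ≤ n := by exact_mod_cast hn1
  have hu0 : u ≠ 0 := _root_.Fermat.Agent.S24.H117.ne_zero_of_ord_ne_zero v hu1.ne'
  set t : F := u ^ n with ht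
  have ht0 : t ≠ 0 := pow_ne_zero _ hu0
  have hvt : (n : ℤ) ≤ v.ord t := by
    rw [ht, _root_.Fermat.Agent.S24.H117.ord_pow]
    nlinarith
  have h1t : v.ord (1 + t) = 0 := by
    have := _root_.Fermat.Agent.S24.H117.ord_add_eq_of_lt v (f := (1 : F)) (g := t) (by rw [v.ord_one]; omega) one_ne_zero
    rw [this, v.ord_one]
  have hne : (1 : F) + t ≠ 0 := by
    intro h0
    have ht1 : t = -1 := eq_neg_of_add_eq_zero_right h0
    have : v.ord t = 0 := by rw [ht1, _root_.Fermat.Agent.S24.H117.ord_neg, v.ord_one]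
    omega
  refine ⟨(1 + t)⁻¹, ?_, ?_⟩
  · have hw : (1 + t)⁻¹ - 1 = -(t / (1 + t)) := by
      field_simp
      ring
    rw [hw]
    apply Big.neg
    apply Big.of_le
    rw [ord_div v ht0 hne, h1t]
    omega
  · intro w' hw'
    have hw't : w'.ord t ≤ -(n : ℤ) := by
      rw [ht, _root_.Fermat.Agent.S24.H117.ord_pow]
      have := hu2 w' hw'
      nlinarith
    have h1 : w'.ord (t + 1) = w'.ord t :=
      _root_.Fermat.Agent.S24.H117.ord_add_eq_of_lt w' (by rw [w'.ord_one]; omega) ht0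
    apply Big.of_le
    rw [w'.ord_inv, add_comm, h1]
    omega

/-- **Step 3**: simultaneous approximation of arbitrary targets to arbitrary precision. -/
theorem exists_approx (s : Finset (Place K F)) (y : Place K F → F) (r : ℤ) :
    ∃ z : F, ∀ v ∈ s, Big v r (z - y v) := by
  classical
  -- a uniform lower bound for the orders of the targets
  set M : ℤ := ∑ v ∈ s, ∑ v' ∈ s, |v.ord (y v')| with hM
  have hMbound : ∀ v ∈ s, ∀ v' ∈ s, Big v (-M) (y v') := by
    intro v hv v' hv'
    apply Big.of_le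
    have h1 : |v.ord (y v')| ≤ ∑ v'' ∈ s, |v.ord (y v'')| :=
      Finset.single_le_sum (f := fun v'' => |v.ord (y v'')|) (fun _ _ => abs_nonneg _) hv'
    have h2 : ∑ v'' ∈ s, |v.ord (y v'')| ≤ M :=
      Finset.single_le_sum (f := fun v₀ : Place K F => ∑ v'' ∈ s, |v₀.ord (y v'')|)
        (fun _ _ => Finset.sum_nonneg fun _ _ => abs_nonneg _) hv
    have h3 := neg_abs_le (v.ord (y v'))
    omega
  have hex : ∀ v : Place K F, ∃ w : F, Big v (r + M) (w - 1) ∧
      ∀ w' ∈ s.erase v, Big w' (r + M) w :=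
    fun v => exists_near_one v (s.erase v) (Finset.notMem_erase v s) (r + M)
  choose w hw1 hw2 using hex
  refine ⟨∑ v' ∈ s, y v' * w v', fun v hv => ?_⟩
  have hsplit : ∑ v' ∈ s, y v' * w v' - y v =
      y v * (w v - 1) + ∑ v' ∈ s.erase v, y v' * w v' := by
    rw [← Finset.add_sum_erase s _ hv]
    ring
  rw [hsplit]
  refine Big.add ?_ (Big.sum _ _ fun v' hv' => ?_)
  · have := (hMbound v hv v hv).mul (hw1 v)
    exact this.mono (by omega)
  · have hv's : v' ∈ s := Finset.mem_of_mem_erase hv'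
    have hvv' : v ∈ s.erase v' :=
      Finset.mem_erase.mpr ⟨(Finset.ne_of_mem_erase hv').symm, hv⟩
    have := (hMbound v hv v' hv's).mul (hw2 v' v hvv')
    exact this.mono (by omega)

theorem exists_ord_eq' (v : Place K F) (n : ℤ) : ∃ c : F, c ≠ 0 ∧ v.ord c = n := by
  obtain ⟨π, hπ0, hπ1⟩ := _root_.Fermat.Agent.S24.H117.exists_ord_eq_one v
  refine ⟨π ^ n, zpow_ne_zero _ hπ0, ?_⟩
  rw [v.ord_zpow, hπ1, mul_one]

/-- **Weak approximation theorem**, exact orders. -/
theorem weak_approximation (s : Finset (Place K F)) (x : Place K F → F) (r : Place K F → ℤ) :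
    ∃ z : F, ∀ v ∈ s, z - x v ≠ 0 ∧ v.ord (z - x v) = r v := by
  classical
  choose c hc0 hc using fun v : Place K F => exists_ord_eq' v (r v)
  set R : ℤ := ∑ v ∈ s, |r v| + 1 with hR
  have hRbound : ∀ v ∈ s, r v < R := by
    intro v hv
    have h1 : |r v| ≤ ∑ v' ∈ s, |r v'| :=
      Finset.single_le_sum (f := fun v' => |r v'|) (fun _ _ => abs_nonneg _) hv
    have h2 := le_abs_self (r v)
    omega
  obtain ⟨z, hz⟩ := exists_approx s (fun v => x v + c v) R
  refine ⟨z, fun v hv => ?_⟩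
  have hdecomp : z - x v = c v + (z - (x v + c v)) := by ring
  have hlt : ∀ e : F, Big v R e → v.ord (c v + e) = v.ord (c v) := by
    intro e he
    rcases eq_or_ne e 0 with rfl | he0
    · rw [add_zero]
    · exact _root_.Fermat.Agent.S24.H117.ord_add_eq_of_lt v (by have := he.le_ord he0; have := hRbound v hv; rw [hc v]; omega)
        (hc0 v)
  have hord : v.ord (z - x v) = r v := by
    rw [hdecomp, hlt _ (hz v hv), hc v]
  refine ⟨?_, hord⟩
  intro h0
  rcases hz v hv with h | h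
  · have : z - x v = c v := by rw [hdecomp, h, add_zero]
    exact hc0 v (this ▸ h0)
  · have h1 : z - (x v + c v) = -(c v) := by
      have : z - (x v + c v) = (z - x v) - c v := by ring
      rw [this, h0, zero_sub]
    rw [h1, _root_.Fermat.Agent.S24.H117.ord_neg, hc v] at h
    have := hRbound v hv
    omega

/-- **Weak approximation theorem**, `≥` form. -/
theorem weak_approximation_ge (s : Finset (Place K F)) (x : Place K F → F)
    (r : Place K F → ℤ) : ∃ z : F, ∀ v ∈ s, Big v (r v) (z - x v) := by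
  obtain ⟨z, hz⟩ := weak_approximation s x r
  exact ⟨z, fun v hv => Big.of_le (hz v hv).2.ge⟩

end Fermat.Agent.Lib.RR.H623

end
end
-- ===== PACK-END Lib/RR/H623/WeakApprox.lean

-- ===== PACK-BEGIN S29/H801/M1LG.lean
section
/-
S29 / M1 (helper801), part 6: local generators along any integral map of function fields,
from the weak approximation theorem of the shared library RR (helper623).
-/




set_option autoImplicit false
set_option linter.style.haveILetI false

noncomputable section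

namespace Fermat.Agent.S29.H801

open AlgebraicCurve Fermat.Agent.S37.H818

variable {K F F₁ : Type*} [Field K] [Field F] [Field F₁] [Algebra K F] [Algebra K F₁]

/-- **Local generators** exist along every integral map (fibres are finite as soon as the
target has principal divisors): weak approximation on the fibre. -/
theorem hasLocalGenerators_of_hasPrincipalDivisors [HasPrincipalDivisors K F₁]
    (a : F →ₐ[K] F₁) (ha : a.toRingHom.IsIntegral) : HasLocalGenerators a ha := by
  classical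
  intro w
  obtain ⟨z, hz⟩ := Fermat.Agent.Lib.RR.H623.weak_approximation
    (Place.fiberAlong a ha (w.restrictAlong a ha)) (fun _ => (0 : F₁))
    (fun v => if v = w then 1 else 0)
  have hw : w ∈ Place.fiberAlong a ha (w.restrictAlong a ha) := Place.mem_fiberAlong.mpr rfl
  refine ⟨z, ?_, ?_, ?_⟩
  · have := (hz w hw).1
    simpa using this
  · have := (hz w hw).2
    simp only [sub_zero, if_true] at this
    rw [this]
    exact one_ne_zero
  · intro w' hne hres
    have := (hz w' (Place.mem_fiberAlong.mpr hres)).2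
    simpa [hne] using this

end Fermat.Agent.S29.H801

end

end
-- ===== PACK-END S29/H801/M1LG.lean

-- ===== PACK-BEGIN S15/H362/CuspDefs.lean
section




/-!
# S15 / piece CUSP (architect helper362): definitions

* `cuspInfty N` : the place `∞` of `ℚ̄(X₀(N))`, cut out by the `q`-adic order on `ℚ̄((q))`.
* `jBar N`, `jLevelBar N` : the functions `j(q)`, `j(q^N)` as elements of the function field.

Everything in this file is sorry-free.
-/

set_option autoImplicit false

noncomputable section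

open AlgebraicCurve ModularCurve HahnSeries

namespace Fermat.Agent.S15.H362

/-- The base field `ℚ̄`. -/
abbrev Qb : Type := AlgebraicClosure ℚ

/-- The function field of `X₀(N)` over `ℚ̄`, as a type. -/
abbrev FB (N : ℕ) : Type := ↥(modularFunctionFieldBar N)

/-- The tautological embedding `ℚ̄(X₀(N)) → ℚ̄((q))`. -/
def inclQ (N : ℕ) : FB N →+* LaurentSeries Qb :=
  (modularFunctionFieldBar N).val.toRingHom

@[simp] theorem inclQ_apply (N : ℕ) (f : FB N) : inclQ N f = (f : LaurentSeries Qb) := rfl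

/-- `j(q)` as an element of `ℚ̄(X₀(N))`. -/
def jBar (N : ℕ) [NeZero N] : FB N :=
  ⟨coeffEmb Qb jq,
    coeffEmb_mem_laurentBaseChange Qb (modularFunctionField_le_full N (jq_mem N))⟩

/-- `j(q^N)` as an element of `ℚ̄(X₀(N))`. -/
def jLevelBar (N : ℕ) [NeZero N] : FB N :=
  ⟨coeffEmb Qb (qExpand ℚ N jq),
    coeffEmb_mem_laurentBaseChange Qb (modularFunctionField_le_full N (jqN_mem N))⟩

@[simp] theorem coe_jBar (N : ℕ) [NeZero N] :
    ((jBar N : FB N) : LaurentSeries Qb) = coeffEmb Qb jq := rfl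

@[simp] theorem coe_jLevelBar (N : ℕ) [NeZero N] :
    ((jLevelBar N : FB N) : LaurentSeries Qb) = coeffEmb Qb (qExpand ℚ N jq) := rfl

theorem coeffEmb_jq_coeff_neg_one : (coeffEmb Qb jq).coeff (-1) = 1 := by
  rw [coeffEmb_coeff, coeff_jq_neg_one, map_one]

theorem coeffEmb_jq_ne_zero : coeffEmb Qb jq ≠ 0 := fun h => by
  have := coeffEmb_jq_coeff_neg_one
  rw [h] at this
  simp at this

theorem order_coeffEmb_jq : (coeffEmb Qb jq).order = -1 := by
  refine le_antisymm (HahnSeries.order_le_of_coeff_ne_zero ?_) ?_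
  · rw [coeffEmb_jq_coeff_neg_one]; exact one_ne_zero
  · by_contra hlt
    rw [not_le] at hlt
    apply coeffEmb_jq_ne_zero
    rw [← HahnSeries.coeff_order_eq_zero, coeffEmb_coeff, coeff_jq_of_lt (by omega), map_zero]

theorem order_algebraMap_nonneg (N : ℕ) (c : Qb) :
    0 ≤ (inclQ N (algebraMap Qb (FB N) c)).order := by
  have h : inclQ N (algebraMap Qb (FB N) c) = algebraMap Qb (LaurentSeries Qb) c := rfl
  rw [h, algebraMap_laurentSeries_eq_single]
  by_cases hc : c = 0
  · simp [hc]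
  · rw [HahnSeries.order_single hc]

/-- **The cusp `∞`**: the place of `ℚ̄(X₀(N))` cut out by the `q`-adic order. -/
def cuspInfty (N : ℕ) [NeZero N] : Place Qb (FB N) :=
  Fermat.Agent.S24.H144.placeOfEmb (K := Qb) (inclQ N) (order_algebraMap_nonneg N)
    ⟨jBar N, by rw [inclQ_apply, coe_jBar, order_coeffEmb_jq]; norm_num⟩

theorem mem_cuspInfty_iff (N : ℕ) [NeZero N] (f : FB N) :
    f ∈ (cuspInfty N).toValuationSubring ↔ 0 ≤ (f : LaurentSeries Qb).order :=
  Iff.rfl

/-- The modular unit `Δ(q)/Δ(q^p)` with coefficients in `ℚ̄`. -/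
def unitSeriesBar (p : ℕ) [NeZero p] : LaurentSeries Qb := coeffEmb Qb (modularUnitSeries p)

end Fermat.Agent.S15.H362

end
end
-- ===== PACK-END S15/H362/CuspDefs.lean

-- ===== PACK-BEGIN S28/H807/Points.lean
section
/-
S28 / helper807 — the points `(τ+b)/p` and `pτ` of the upper half plane, the nome `q(τ)`,
and `q`-expansions of functions on `ℍ`.
-/



set_option autoImplicit false
set_option maxHeartbeats 400000

noncomputable section

open ModularCurve Polynomial Matrix UpperHalfPlane Complex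

namespace Fermat.Agent.S28.H807

/-- The nome `q(τ) = exp(2πiτ)`. -/
def nome (τ : ℍ) : ℂ := Complex.exp (2 * Real.pi * Complex.I * (τ : ℂ))

theorem nome_ne_zero (τ : ℍ) : nome τ ≠ 0 := Complex.exp_ne_zero _

theorem nome_eq_qParam (τ : ℍ) : nome τ = Function.Periodic.qParam 1 (τ : ℂ) := by
  simp [nome, Function.Periodic.qParam]

/-- `f` has the (everywhere convergent) `q`-expansion `c`. -/
def HasQExp (c : LaurentSeries ℂ) (F : ℍ → ℂ) : Prop :=
  ∀ τ : ℍ, HasLSum c (nome τ) (F τ)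

theorem hasQExp_iff (c : LaurentSeries ℂ) (F : ℍ → ℂ) :
    HasQExp c F ↔ ∀ τ : ℍ, HasSum (fun n : ℤ => c.coeff n *
      (Function.Periodic.qParam 1 (τ : ℂ)) ^ n) (F τ) := by
  unfold HasQExp HasLSum
  simp only [nome_eq_qParam]

/-- The point `(τ + b)/p`. -/
def divShift (p : ℕ) [NeZero p] (b : ℤ) (τ : ℍ) : ℍ :=
  ⟨((τ : ℂ) + (b : ℂ)) / (p : ℂ), by
    have hp : (0 : ℝ) < (p : ℝ) := by exact_mod_cast Nat.pos_of_ne_zero (NeZero.ne p)
    have h1 : (((τ : ℂ) + (b : ℂ)) / (p : ℂ)).im = (τ : ℂ).im / (p : ℝ) := by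
      rw [show ((p : ℂ)) = ((p : ℝ) : ℂ) by push_cast; rfl, Complex.div_ofReal_im]
      simp
    rw [h1]
    exact div_pos τ.im_pos hp⟩

/-- The point `pτ`. -/
def mulNat (p : ℕ) [NeZero p] (τ : ℍ) : ℍ :=
  ⟨(p : ℂ) * (τ : ℂ), by
    have hp : (0 : ℝ) < (p : ℝ) := by exact_mod_cast Nat.pos_of_ne_zero (NeZero.ne p)
    have h1 : ((p : ℂ) * (τ : ℂ)).im = (p : ℝ) * (τ : ℂ).im := by
      rw [show ((p : ℂ)) = ((p : ℝ) : ℂ) by push_cast; rfl, Complex.im_ofReal_mul]
    rw [h1]
    exact mul_pos hp τ.im_pos⟩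

@[simp] theorem coe_divShift (p : ℕ) [NeZero p] (b : ℤ) (τ : ℍ) :
    ((divShift p b τ : ℍ) : ℂ) = ((τ : ℂ) + (b : ℂ)) / (p : ℂ) := rfl

@[simp] theorem coe_mulNat (p : ℕ) [NeZero p] (τ : ℍ) :
    ((mulNat p τ : ℍ) : ℂ) = (p : ℂ) * (τ : ℂ) := rfl

theorem nome_mulNat (p : ℕ) [NeZero p] (τ : ℍ) : nome (mulNat p τ) = nome τ ^ p := by
  unfold nome
  rw [← Complex.exp_nat_mul, coe_mulNat]
  congr 1; ring

theorem nome_divShift_pow (p : ℕ) [NeZero p] (b : ℤ) (τ : ℍ) :
    nome (divShift p b τ) ^ p = nome τ := by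
  have hp : (p : ℂ) ≠ 0 := by exact_mod_cast NeZero.ne p
  unfold nome
  rw [← Complex.exp_nat_mul, coe_divShift]
  have : (p : ℂ) * (2 * Real.pi * Complex.I * (((τ : ℂ) + (b : ℂ)) / (p : ℂ)))
      = 2 * Real.pi * Complex.I * (τ : ℂ) + (b : ℂ) * (2 * Real.pi * Complex.I) := by
    field_simp
  rw [this, Complex.exp_add, Complex.exp_int_mul_two_pi_mul_I, mul_one]

theorem nome_divShift_injective (p : ℕ) [NeZero p] (τ : ℍ) :
    Function.Injective (fun b : Fin p => nome (divShift p ((b : ℕ) : ℤ) τ)) := by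
  have hp : (p : ℂ) ≠ 0 := by exact_mod_cast NeZero.ne p
  intro b b' h
  simp only [nome] at h
  rw [Complex.exp_eq_exp_iff_exists_int] at h
  obtain ⟨n, hn⟩ := h
  simp only [coe_divShift] at hn
  have hpi : (2 * Real.pi * Complex.I : ℂ) ≠ 0 := by
    simp [Real.pi_ne_zero]
  have h1 : ((τ : ℂ) + ((b : ℕ) : ℤ)) / (p : ℂ) = ((τ : ℂ) + ((b' : ℕ) : ℤ)) / (p : ℂ) + n := by
    have := hn
    have h2 : 2 * Real.pi * Complex.I * (((τ : ℂ) + ((b : ℕ) : ℤ)) / (p : ℂ))
        = 2 * Real.pi * Complex.I * (((τ : ℂ) + ((b' : ℕ) : ℤ)) / (p : ℂ) + n) := by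
      rw [this]; ring
    exact mul_left_cancel₀ hpi h2
  have h3 : (((b : ℕ) : ℤ) : ℂ) = (((b' : ℕ) : ℤ) : ℂ) + (n : ℂ) * (p : ℂ) := by
    field_simp at h1
    linear_combination h1
  have h4 : ((b : ℕ) : ℤ) = ((b' : ℕ) : ℤ) + n * (p : ℤ) := by exact_mod_cast h3
  have hb := b.2
  have hb' := b'.2
  have hn0 : n = 0 := by
    by_contra hne
    rcases lt_or_gt_of_ne hne with hlt | hgt
    · have : n ≤ -1 := by omega
      have : n * (p : ℤ) ≤ -1 * (p : ℤ) := by
        apply mul_le_mul_of_nonneg_right this; positivity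
      omega
    · have : 1 ≤ n := by omega
      have : 1 * (p : ℤ) ≤ n * (p : ℤ) := by
        apply mul_le_mul_of_nonneg_right this; positivity
      omega
  rw [hn0] at h4
  apply Fin.ext
  omega

/-- **Generic analytic theorem**: the coefficients of `(X - e)·charpoly(secMat p g)` have
convergent `q`-expansions, with values the coefficients of
`(X - E(τ)) ∏_b (X - G((τ+b)/p))`. -/
theorem hasQExp_coeff_mul_charpoly (p : ℕ) [NeZero p] (g e : LaurentSeries ℂ) (G E : ℍ → ℂ)
    (hG : HasQExp g G) (hE : HasQExp e E) (k : ℕ) :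
    HasQExp (((X - C e) * (secMat p g).charpoly).coeff k)
      (fun τ => ((X - C (E τ)) *
        ∏ b : Fin p, (X - C (G (divShift p ((b : ℕ) : ℤ) τ)))).coeff k) := by
  intro τ
  exact hasLSum_coeff_mul_charpoly g e (nome τ)
    (fun b : Fin p => nome (divShift p ((b : ℕ) : ℤ) τ))
    (fun b => nome_ne_zero _) (fun b => nome_divShift_pow p _ τ)
    (nome_divShift_injective p τ)
    (fun b => G (divShift p ((b : ℕ) : ℤ) τ)) (fun b => hG _) (E τ) (hE τ) k

/-- `q`-expansion of `τ ↦ F(pτ)`. -/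
theorem HasQExp.mulNat {c : LaurentSeries ℂ} {F : ℍ → ℂ} (h : HasQExp c F) (p : ℕ) [NeZero p] :
    HasQExp (ModularCurve.qExpand ℂ p c) (fun τ => F (mulNat p τ)) := by
  intro τ
  apply HasLSum.expand
  rw [← nome_mulNat]
  exact h _

theorem HasQExp.mul {c d : LaurentSeries ℂ} {F G : ℍ → ℂ} (h1 : HasQExp c F)
    (h2 : HasQExp d G) : HasQExp (c * d) (fun τ => F τ * G τ) :=
  fun τ => (h1 τ).mul (nome_ne_zero τ) (h2 τ)

theorem HasQExp.add {c d : LaurentSeries ℂ} {F G : ℍ → ℂ} (h1 : HasQExp c F)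
    (h2 : HasQExp d G) : HasQExp (c + d) (fun τ => F τ + G τ) :=
  fun τ => (h1 τ).add (h2 τ)

theorem hasQExp_C (a : ℂ) : HasQExp (HahnSeries.C a) (fun _ => a) :=
  fun _ => hasLSum_C _ a

theorem HasQExp.unique {c : LaurentSeries ℂ} {F G : ℍ → ℂ} (h1 : HasQExp c F)
    (h2 : HasQExp c G) : F = G :=
  funext fun τ => (h1 τ).unique (h2 τ)

end Fermat.Agent.S28.H807

end

end
-- ===== PACK-END S28/H807/Points.lean

-- ===== PACK-BEGIN S28/H807/SAction.lean
section
/-
S28 / helper807 — the action of `S : τ ↦ -1/τ` on the `p+1` conjugates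
`{E(τ)} ∪ {G((τ+b)/p) : b < p}`: abstract permutation lemma + the point identities in `ℍ`.
-/



set_option autoImplicit false
set_option maxHeartbeats 400000

noncomputable section

open ModularCurve Polynomial Matrix UpperHalfPlane Complex
open scoped MatrixGroups

namespace Fermat.Agent.S28.H807

section Perm

variable (p : ℕ) [Fact p.Prime]

/-- `b ↦ -1/b` on nonzero residues, on representatives in `Fin p`. -/
def negInvFin (b : Fin p) : Fin p :=
  ⟨(-((b : ℕ) : ZMod p)⁻¹).val, ZMod.val_lt _⟩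

theorem negInvFin_cast (b : Fin p) :
    (((negInvFin p b : Fin p) : ℕ) : ZMod p) = -((b : ℕ) : ZMod p)⁻¹ := by
  simp [negInvFin]

theorem cast_ne_zero_of_ne_zero {b : Fin p} (hb : (b : ℕ) ≠ 0) : (((b : ℕ) : ZMod p)) ≠ 0 := by
  intro h
  rw [ZMod.natCast_eq_zero_iff] at h
  have := Nat.le_of_dvd (Nat.pos_of_ne_zero hb) h
  exact absurd b.2 (not_lt.mpr this)

theorem negInvFin_ne_zero {b : Fin p} (hb : (b : ℕ) ≠ 0) : ((negInvFin p b : Fin p) : ℕ) ≠ 0 := by
  intro h
  have h1 := negInvFin_cast p b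
  rw [h] at h1
  simp only [Nat.cast_zero] at h1
  have h2 : (((b : ℕ) : ZMod p))⁻¹ = 0 := by
    have := h1.symm
    rwa [neg_eq_zero] at this
  rw [inv_eq_zero] at h2
  exact cast_ne_zero_of_ne_zero p hb h2

theorem negInvFin_negInvFin {b : Fin p} (_hb : (b : ℕ) ≠ 0) :
    negInvFin p (negInvFin p b) = b := by
  apply Fin.ext
  show (-(((negInvFin p b : Fin p) : ℕ) : ZMod p)⁻¹).val = (b : ℕ)
  rw [negInvFin_cast, inv_neg, neg_neg, inv_inv, ZMod.val_natCast_of_lt b.2]

theorem dvd_mul_negInvFin_add_one {b : Fin p} (hb : (b : ℕ) ≠ 0) :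
    (p : ℤ) ∣ ((b : ℕ) : ℤ) * (((negInvFin p b : Fin p) : ℕ) : ℤ) + 1 := by
  have h1 : ((((b : ℕ) : ℤ) * (((negInvFin p b : Fin p) : ℕ) : ℤ) + 1 : ℤ) : ZMod p) = 0 := by
    push_cast
    rw [negInvFin_cast, mul_neg, mul_inv_cancel₀ (cast_ne_zero_of_ne_zero p hb)]
    ring
  exact (ZMod.intCast_zmod_eq_zero_iff_dvd _ p).mp h1

/-- The permutation of `P¹(𝔽_p) = Option (Fin p)` induced by `S`. -/
def sPermFun : Option (Fin p) → Option (Fin p)
  | none => some ⟨0, (Fact.out : p.Prime).pos⟩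
  | some b => if (b : ℕ) = 0 then none else some (negInvFin p b)

theorem sPermFun_involutive : Function.Involutive (sPermFun p) := by
  intro i
  cases i with
  | none => simp [sPermFun]
  | some b =>
    by_cases hb : (b : ℕ) = 0
    · simp only [sPermFun, hb, if_true]
      congr 1
      exact Fin.ext hb.symm
    · simp only [sPermFun, hb, if_false, negInvFin_ne_zero p hb]
      rw [negInvFin_negInvFin p hb]

/-- **Abstract `S`-invariance**: if the conjugates at `τ'` are obtained from those at `τ` by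
the permutation `sPermFun`, the two products agree. -/
theorem prod_conj_eq_of_perm (E E' : ℂ) (G G' : Fin p → ℂ)
    (ha : E' = G ⟨0, (Fact.out : p.Prime).pos⟩)
    (hb : G' ⟨0, (Fact.out : p.Prime).pos⟩ = E)
    (hc : ∀ b : Fin p, (b : ℕ) ≠ 0 → G' b = G (negInvFin p b)) :
    (X - C E') * ∏ b : Fin p, (X - C (G' b)) = (X - C E) * ∏ b : Fin p, (X - C (G b)) := by
  set f : Option (Fin p) → ℂ := fun i => Option.elim i E G with hf
  set f' : Option (Fin p) → ℂ := fun i => Option.elim i E' G' with hf'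
  have h1 : (X - C E) * ∏ b : Fin p, (X - C (G b)) = ∏ i : Option (Fin p), (X - C (f i)) := by
    rw [Fintype.prod_option]; rfl
  have h2 : (X - C E') * ∏ b : Fin p, (X - C (G' b)) = ∏ i : Option (Fin p), (X - C (f' i)) := by
    rw [Fintype.prod_option]; rfl
  have h3 : ∀ i, f' i = f (sPermFun p i) := by
    intro i
    cases i with
    | none => simp [hf, hf', sPermFun, ha]
    | some b =>
      by_cases hb0 : (b : ℕ) = 0
      · have hb1 : b = ⟨0, (Fact.out : p.Prime).pos⟩ := Fin.ext hb0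
        subst hb1
        show G' ⟨0, (Fact.out : p.Prime).pos⟩ = f (sPermFun p (some ⟨0, (Fact.out : p.Prime).pos⟩))
        rw [hb]
        simp [hf, sPermFun]
      · simp [hf, hf', sPermFun, hb0, hc b hb0]
  rw [h1, h2]
  rw [← Equiv.prod_comp ((sPermFun_involutive p).toPerm _) (fun i => (X - C (f i)))]
  apply Finset.prod_congr rfl
  intro i _
  rw [h3 i]
  rfl

end Perm

section PointIdentities

variable (p : ℕ) [NeZero p]

theorem mulNat_S_smul (τ : ℍ) :
    mulNat p (ModularGroup.S • τ) = ModularGroup.S • divShift p 0 τ := by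
  have hp : (p : ℂ) ≠ 0 := by exact_mod_cast NeZero.ne p
  have hτ : (τ : ℂ) ≠ 0 := ne_zero τ
  apply UpperHalfPlane.ext
  rw [modular_S_smul, modular_S_smul]
  simp only [coe_mulNat, coe_divShift, Int.cast_zero, add_zero]
  field_simp

theorem divShift_zero_S_smul (τ : ℍ) :
    divShift p 0 (ModularGroup.S • τ) = ModularGroup.S • mulNat p τ := by
  have hp : (p : ℂ) ≠ 0 := by exact_mod_cast NeZero.ne p
  have hτ : (τ : ℂ) ≠ 0 := ne_zero τ
  apply UpperHalfPlane.ext
  rw [modular_S_smul, modular_S_smul]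
  simp only [coe_mulNat, coe_divShift, Int.cast_zero, add_zero]
  field_simp

theorem mulNat_divShift (b : ℤ) (τ : ℍ) :
    mulNat p (divShift p b τ) = ModularGroup.T ^ b • τ := by
  have hp : (p : ℂ) ≠ 0 := by exact_mod_cast NeZero.ne p
  apply UpperHalfPlane.ext
  rw [modular_T_zpow_smul]
  simp only [coe_mulNat, coe_divShift, UpperHalfPlane.coe_vadd]
  field_simp
  push_cast
  ring

/-- The matrix `[[B, -k], [p, -B']]` with `B B' + 1 = p k`. -/
def conjMat (B B' k : ℤ) (h : B * B' + 1 = (p : ℤ) * k) : SL(2, ℤ) :=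
  ⟨!![B, -k; (p : ℤ), -B'], by
    rw [Matrix.det_fin_two_of]
    linarith⟩

theorem conjMat_smul (B B' k : ℤ) (h : B * B' + 1 = (p : ℤ) * k) (τ : ℍ) :
    conjMat p B B' k h • divShift p B' τ = divShift p B (ModularGroup.S • τ) := by
  have hp : (p : ℂ) ≠ 0 := by exact_mod_cast NeZero.ne p
  have hτ : (τ : ℂ) ≠ 0 := ne_zero τ
  have hk : (B : ℂ) * (B' : ℂ) + 1 = (p : ℂ) * (k : ℂ) := by exact_mod_cast h
  apply UpperHalfPlane.ext
  rw [coe_specialLinearGroup_apply, modular_S_smul]
  simp only [coe_divShift, conjMat]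
  simp only [Matrix.of_apply, Matrix.cons_val',
    Matrix.cons_val_zero, Matrix.cons_val_one, Matrix.cons_val_fin_one, algebraMap_int_eq,
    eq_intCast, Int.cast_neg, Int.cast_natCast, Complex.ofReal_intCast, Complex.ofReal_neg,
    Complex.ofReal_natCast]
  have hden : (p : ℂ) * (((τ : ℂ) + (B' : ℂ)) / (p : ℂ)) + -(B' : ℂ) = (τ : ℂ) := by
    field_simp; ring
  rw [hden]
  field_simp
  linear_combination hk

theorem denom_conjMat (B B' k : ℤ) (h : B * B' + 1 = (p : ℤ) * k) (τ : ℍ) :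
    denom (conjMat p B B' k h) (divShift p B' τ) = (τ : ℂ) := by
  have hp : (p : ℂ) ≠ 0 := by exact_mod_cast NeZero.ne p
  rw [ModularGroup.denom_apply]
  simp only [coe_divShift, conjMat]
  simp only [Matrix.of_apply, Matrix.cons_val',
    Matrix.cons_val_zero, Matrix.cons_val_one, Matrix.cons_val_fin_one]
  push_cast
  field_simp
  ring

end PointIdentities

end Fermat.Agent.S28.H807

end

end
-- ===== PACK-END S28/H807/SAction.lean

-- ===== PACK-BEGIN A2/T1/H669/T1Core.lean
section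


/-!
# WALL A2, piece T1, core (helper669): from finite levels to `F̄`

`kummerTarget_of_levels` : the Kummer form of the wall (`Spec.KummerTarget`, unfolded) follows from
the corresponding statement at ONE suitable level `E ⊆ ℚ̄` for each finite set of constants:

  for every finite `S ⊆ ℚ̄` there are an intermediate field `E ⊇ S`, an automorphism `τE` of `E`
  which is the restriction of `τ`, such that for every `y ∈ F_E^×` with `DivisibleDiv E m y`
  (unfolded: `y = u · h^m` at every discrete valuation subring of `F_E` containing `E`) the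
  element `(τE - 1)² y` is an `m`-th power in `F_E`.

This file imports only files which are on main (Prelude, `S18.H602`, `S18.H845`); the
instantiation from ALG / MOD / IF of `origin/helper13:Fermat/Agent/A2/Skel.lean` is `T1.lean`.
-/

set_option autoImplicit false
set_option synthInstance.maxHeartbeats 400000
set_option maxHeartbeats 1600000

noncomputable section

namespace Fermat.Agent.A2.T1.H669

open ModularCurve AlgebraicCurve

/-- A finite-dimensional intermediate field is contained in every intermediate field containing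
a suitable finite set. -/
theorem exists_finset_le (E₀ : IntermediateField ℚ _root_.Fermat.Agent.A2.T1.H669.Qb) [FiniteDimensional ℚ E₀] :
    ∃ S : Finset _root_.Fermat.Agent.A2.T1.H669.Qb, ∀ E : IntermediateField ℚ _root_.Fermat.Agent.A2.T1.H669.Qb, (∀ s ∈ S, s ∈ E) → E₀ ≤ E := by
  classical
  let b := Module.finBasis ℚ E₀
  refine ⟨Finset.univ.image fun i => ((b i : E₀) : _root_.Fermat.Agent.A2.T1.H669.Qb), fun E hE x hx => ?_⟩
  have hx' : (⟨x, hx⟩ : E₀) = ∑ i, (b.repr ⟨x, hx⟩ i) • b i := (b.sum_repr ⟨x, hx⟩).symm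
  have hcoe : x = ((∑ i, (b.repr ⟨x, hx⟩ i) • b i : E₀) : _root_.Fermat.Agent.A2.T1.H669.Qb) :=
    congrArg (fun z : E₀ => (z : _root_.Fermat.Agent.A2.T1.H669.Qb)) hx'
  rw [hcoe, IntermediateField.coe_sum]
  refine sum_mem fun i _ => ?_
  have hi : ((b i : E₀) : _root_.Fermat.Agent.A2.T1.H669.Qb) ∈ E := hE _ (Finset.mem_image.2 ⟨i, Finset.mem_univ i, rfl⟩)
  rw [IntermediateField.coe_smul, Algebra.smul_def]
  exact mul_mem (E.algebraMap_mem _) hi

/-- Every element of `F̄` comes from `F_E` for every intermediate field `E` containing a suitable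
finite set of constants. -/
theorem exists_finset_descent (F₀ : IntermediateField ℚ (LaurentSeries ℚ))
    (f : ↥(laurentBaseChange _root_.Fermat.Agent.A2.T1.H669.Qb F₀)) :
    ∃ S : Finset _root_.Fermat.Agent.A2.T1.H669.Qb, ∀ E : IntermediateField ℚ _root_.Fermat.Agent.A2.T1.H669.Qb, (∀ s ∈ S, s ∈ E) →
      ∃ y : ↥(laurentBaseChange E F₀), iota E F₀ y = f := by
  obtain ⟨E₀, hE₀fin, y₀, hy₀mem, hy₀⟩ :=
    Fermat.Agent.S18.H602.exists_finite_descent (F₀ := F₀) f.2
  haveI := hE₀fin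
  obtain ⟨S, hS⟩ := exists_finset_le E₀
  refine ⟨S, fun E hSE => ?_⟩
  obtain ⟨y₁, hy₁mem, hy₁⟩ :=
    Fermat.Agent.S18.H602.DescendsTo.mono (hS E hSE)
      (⟨y₀, hy₀mem, hy₀⟩ : Fermat.Agent.S18.H602.DescendsTo F₀ E₀ (f : LaurentSeries _root_.Fermat.Agent.A2.T1.H669.Qb))
  exact ⟨⟨y₁, hy₁mem⟩, Subtype.ext hy₁⟩

/-- **T1, core.**  One `τ`: the Kummer statement on `F̄` from the Kummer statement at suitable
finite levels. -/
theorem kummer_of_levels (F₀ : IntermediateField ℚ (LaurentSeries ℚ)) (m : ℕ)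
    (τ : _root_.Fermat.Agent.A2.T1.H669.Qb ≃ₐ[ℚ] _root_.Fermat.Agent.A2.T1.H669.Qb)
    (hlevel : ∀ S : Finset _root_.Fermat.Agent.A2.T1.H669.Qb, ∃ E : IntermediateField ℚ _root_.Fermat.Agent.A2.T1.H669.Qb, (∀ s ∈ S, s ∈ E) ∧
      ∃ τE : E ≃ₐ[ℚ] E, (∀ e : E, ((τE e : E) : _root_.Fermat.Agent.A2.T1.H669.Qb) = τ (e : _root_.Fermat.Agent.A2.T1.H669.Qb)) ∧
        ∀ y : ↥(laurentBaseChange E F₀), y ≠ 0 →
          (∀ V : ValuationSubring ↥(laurentBaseChange E F₀), IsDiscreteValuationRing V →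
            (∀ e : E, algebraMap E ↥(laurentBaseChange E F₀) e ∈ V) →
            ∃ h u : ↥(laurentBaseChange E F₀), h ≠ 0 ∧ u ∈ V ∧ u⁻¹ ∈ V ∧ y = u * h ^ m) →
          ∃ h : ↥(laurentBaseChange E F₀), h ≠ 0 ∧
            arithmeticRingAut F₀ τE (arithmeticRingAut F₀ τE y) * y =
              h ^ m * (arithmeticRingAut F₀ τE y) ^ 2)
    (f : ↥(laurentBaseChange _root_.Fermat.Agent.A2.T1.H669.Qb F₀)) (hf : f ≠ 0)
    (hdiv : ∀ v : Place _root_.Fermat.Agent.A2.T1.H669.Qb ↥(laurentBaseChange _root_.Fermat.Agent.A2.T1.H669.Qb F₀), (m : ℤ) ∣ v.ord f) :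
    ∃ h : ↥(laurentBaseChange _root_.Fermat.Agent.A2.T1.H669.Qb F₀), h ≠ 0 ∧
      arithmeticRingAut F₀ τ (arithmeticRingAut F₀ τ f) * f =
        h ^ m * (arithmeticRingAut F₀ τ f) ^ 2 := by
  obtain ⟨S, hS⟩ := exists_finset_descent F₀ f
  obtain ⟨E, hSE, τE, hτE, hE⟩ := hlevel S
  obtain ⟨y, hιy⟩ := hS E hSE
  have hy0 : y ≠ 0 := by
    rintro h0
    apply hf
    rw [← hιy, h0, map_zero]
  obtain ⟨h, hh0, hh⟩ := hE y hy0
    (divisibleDiv_of_ord E F₀ m y hy0 (fun v => by rw [hιy]; exact hdiv v))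
  refine ⟨iota E F₀ h, iota_ne_zero E _ hh0, ?_⟩
  have := congrArg (iota E F₀) hh
  rw [map_mul, map_mul, map_pow, map_pow,
    iota_arithmeticRingAut E F₀ τ τE hτE,
    iota_arithmeticRingAut E F₀ τ τE hτE, hιy] at this
  exact this

end Fermat.Agent.A2.T1.H669

end
end
-- ===== PACK-END A2/T1/H669/T1Core.lean

-- ===== PACK-BEGIN A2/T1/H669/T1.lean
section





/-!
# WALL A2, piece T1 (helper669): assembly `ALG + MOD + IF ⇒ KummerTarget`

`t1 : T1Statement` (interface v2 of `Fermat/Agent/A2/{Spec,ModDefs}.lean`, helper13):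
`AlgSSStatement → IFStatement → ModSSStatement → KummerTarget N q m`.

Proof: descend `f` to a finite level `E₀` (`S18.H602.exists_finite_descent`), enlarge to a good
level `E` (IF), translate `m ∣ div f` on `F̄` into `DivisibleDiv E m y` (T2), apply ALG to the
semistable model (MOD) with `τ := arithmeticRingAut (res τ)`, push the result to `F̄` by `iota`.
-/

set_option autoImplicit false
set_option synthInstance.maxHeartbeats 400000
set_option maxHeartbeats 1600000

noncomputable section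

namespace Fermat.Agent.A2.T1.H669

open ModularCurve AlgebraicCurve Fermat.Agent.A2

/-- The restriction of an element of the decomposition group to `R_E`. -/
def resR {P : ValuationSubring _root_.Fermat.Agent.A2.T1.H669.Qb} {E : IntermediateField ℚ _root_.Fermat.Agent.A2.T1.H669.Qb} (hE : GoodField P E)
    (τ : _root_.Fermat.Agent.A2.T1.H669.Qb ≃ₐ[ℚ] _root_.Fermat.Agent.A2.T1.H669.Qb) (hτ : τ ∈ P.inertiaSubgroupIn ℚ) : ↥(RE P E) ≃+* ↥(RE P E) where
  toFun r := ⟨hE.res τ hτ (r : E), by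
    have hd := Fermat.Agent.A2.H708.mem_decomposition_of_mem_inertiaIn P hτ
    show ((hE.res τ hτ (r : E) : E) : _root_.Fermat.Agent.A2.T1.H669.Qb) ∈ P
    exact Fermat.Agent.A2.H708.apply_mem_of_mem_decomposition P hd r.2⟩
  invFun r := ⟨(hE.res τ hτ).symm (r : E), by
    have hd := Fermat.Agent.A2.H708.mem_decomposition_of_mem_inertiaIn P hτ
    show (((hE.res τ hτ).symm (r : E) : E) : _root_.Fermat.Agent.A2.T1.H669.Qb) ∈ P
    have h1 : τ (((hE.res τ hτ).symm (r : E) : E) : _root_.Fermat.Agent.A2.T1.H669.Qb) = ((r : E) : _root_.Fermat.Agent.A2.T1.H669.Qb) := by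
      have := (hE.res τ hτ).apply_symm_apply (r : E)
      exact congrArg (fun z : E => (z : _root_.Fermat.Agent.A2.T1.H669.Qb)) this
    refine Fermat.Agent.A2.H708.mem_of_apply_mem_of_mem_decomposition P hd ?_
    rw [h1]; exact r.2⟩
  left_inv r := Subtype.ext ((hE.res τ hτ).symm_apply_apply (r : E))
  right_inv r := Subtype.ext ((hE.res τ hτ).apply_symm_apply (r : E))
  map_mul' a b := Subtype.ext (map_mul (hE.res τ hτ) (a : E) (b : E))
  map_add' a b := Subtype.ext (map_add (hE.res τ hτ) (a : E) (b : E))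

theorem natCast_mem_maximalIdeal_RE {P : ValuationSubring _root_.Fermat.Agent.A2.T1.H669.Qb} (E : IntermediateField ℚ _root_.Fermat.Agent.A2.T1.H669.Qb)
    {q : ℕ} (hP : P.LiesOverPrime q) :
    ((q : ℕ) : ↥(RE P E)) ∈ IsLocalRing.maximalIdeal ↥(RE P E) := by
  rw [IsLocalRing.mem_maximalIdeal, mem_nonunits_iff]
  intro hu
  obtain ⟨u, hu⟩ := hu
  have h1 : ((q : ℕ) : ↥(RE P E)) * ((u⁻¹ : (↥(RE P E))ˣ) : ↥(RE P E)) = 1 := by
    rw [← hu]; exact u.mul_inv
  have h2 : ((q : ℕ) : _root_.Fermat.Agent.A2.T1.H669.Qb) * (((((u⁻¹ : (↥(RE P E))ˣ) : ↥(RE P E)) : E) : _root_.Fermat.Agent.A2.T1.H669.Qb)) = 1 := by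
    have := congrArg (fun z : ↥(RE P E) => (((z : E)) : _root_.Fermat.Agent.A2.T1.H669.Qb)) h1
    simpa using this
  have hmem : (((((u⁻¹ : (↥(RE P E))ˣ) : ↥(RE P E)) : E) : _root_.Fermat.Agent.A2.T1.H669.Qb)) ∈ P :=
    ((u⁻¹ : (↥(RE P E))ˣ) : ↥(RE P E)).2
  have hq0 : ((q : ℕ) : _root_.Fermat.Agent.A2.T1.H669.Qb) ≠ 0 := left_ne_zero_of_mul_eq_one h2
  have hval : P.valuation ((q : ℕ) : _root_.Fermat.Agent.A2.T1.H669.Qb) < 1 :=
    (ValuationSubring.mem_nonunits_iff P).1 hP
  have hval2 : P.valuation (((((u⁻¹ : (↥(RE P E))ˣ) : ↥(RE P E)) : E) : _root_.Fermat.Agent.A2.T1.H669.Qb)) ≤ 1 :=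
    (ValuationSubring.valuation_le_one_iff P _).2 hmem
  have : P.valuation (1 : _root_.Fermat.Agent.A2.T1.H669.Qb) < 1 := by
    rw [← h2, map_mul]
    calc P.valuation ((q : ℕ) : _root_.Fermat.Agent.A2.T1.H669.Qb) * P.valuation _
        ≤ P.valuation ((q : ℕ) : _root_.Fermat.Agent.A2.T1.H669.Qb) * 1 := by gcongr
      _ < 1 := by rwa [mul_one]
  rw [map_one] at this
  exact lt_irrefl _ this

/-- Iterates of the restriction of `τ` to a stable level. -/
theorem coe_res_iterate {P : ValuationSubring _root_.Fermat.Agent.A2.T1.H669.Qb} {E : IntermediateField ℚ _root_.Fermat.Agent.A2.T1.H669.Qb}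
    (hE : GoodField P E) (τ : _root_.Fermat.Agent.A2.T1.H669.Qb ≃ₐ[ℚ] _root_.Fermat.Agent.A2.T1.H669.Qb) (hτ : τ ∈ P.inertiaSubgroupIn ℚ) (k : ℕ) (e : E) :
    (((⇑(hE.res τ hτ))^[k] e : E) : _root_.Fermat.Agent.A2.T1.H669.Qb) = (⇑τ)^[k] (e : _root_.Fermat.Agent.A2.T1.H669.Qb) := by
  induction k with
  | zero => rfl
  | succ k ih =>
      rw [Function.iterate_succ_apply', Function.iterate_succ_apply', ← ih]
      rfl

/-- Coefficients of the iterates of the arithmetic action. -/
theorem coeff_arithmeticRingAut_iterate (F₀ : IntermediateField ℚ (LaurentSeries ℚ))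
    {E : IntermediateField ℚ _root_.Fermat.Agent.A2.T1.H669.Qb} (σ : E ≃ₐ[ℚ] E) (k : ℕ) (f : ↥(laurentBaseChange E F₀))
    (n : ℤ) :
    (((⇑(arithmeticRingAut F₀ σ))^[k] f : ↥(laurentBaseChange E F₀)) :
        LaurentSeries E).coeff n = (⇑σ)^[k] ((f : LaurentSeries E).coeff n) := by
  induction k with
  | zero => rfl
  | succ k ih =>
      rw [Function.iterate_succ_apply', Function.iterate_succ_apply', ← ih]
      rfl

/-- The arithmetic action of an inertia element on a good level has finite order. -/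
theorem finite_order_arithmeticRingAut (F₀ : IntermediateField ℚ (LaurentSeries ℚ))
    {P : ValuationSubring _root_.Fermat.Agent.A2.T1.H669.Qb} {E : IntermediateField ℚ _root_.Fermat.Agent.A2.T1.H669.Qb}
    (hE : GoodField P E) (τ : _root_.Fermat.Agent.A2.T1.H669.Qb ≃ₐ[ℚ] _root_.Fermat.Agent.A2.T1.H669.Qb) (hτ : τ ∈ P.inertiaSubgroupIn ℚ) :
    ∃ r : ℕ, 0 < r ∧ ∀ f : ↥(laurentBaseChange E F₀),
      (⇑(arithmeticRingAut F₀ (hE.res τ hτ)))^[r] f = f := by
  obtain ⟨r, hr0, hr⟩ := hE.finite_order τ hτ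
  refine ⟨r, hr0, fun f => Subtype.ext (HahnSeries.ext (funext fun n => ?_))⟩
  rw [coeff_arithmeticRingAut_iterate]
  apply Subtype.ext
  rw [coe_res_iterate]
  exact hr _ (SetLike.coe_mem _)

/-- **T1** (interface v2): `ALG + IF + MOD ⟹ KummerTarget`. -/
theorem t1 : T1Statement := by
  intro hALG hIF hMOD N q m hq hqN hq2 hN hm hqm P hP τ hτ f hf hdiv
  refine kummer_of_levels (modularFunctionFieldFull N) m τ (fun S => ?_) f hf hdiv
  -- a good level containing `S`
  obtain ⟨E, hSE, hE⟩ := hIF q hq P hP S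
  refine ⟨E, hSE, hE.res τ hτ, fun e => rfl, fun y hy0 hdd => ?_⟩
  -- the model
  obtain ⟨D⟩ := hMOD P E N q hq hqN hq2 hN hP hE
  haveI : IsDiscreteValuationRing ↥(RE P E) := hE.dvr
  haveI : HenselianLocalRing ↥(RE P E) := hE.henselian
  haveI : IsAlgClosed (IsLocalRing.ResidueField ↥(RE P E)) := hE.algClosed
  obtain ⟨w, hw⟩ := IsDiscreteValuationRing.exists_irreducible ↥(RE P E)
  obtain ⟨cf⟩ := D.cf w hw
  obtain ⟨ci⟩ := D.ci w hw
  -- ALG
  have hconcl : AlgSSConclusion E m
      (arithmeticRingAut (modularFunctionFieldFull N) (hE.res τ hτ)) :=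
    hALG (R := ↥(RE P E)) (E := E) (F := ↥(FE E N)) w hw q m hq
      (natCast_mem_maximalIdeal_RE E hP) hm hqm D.x D.hx D.hfin D.hconst D.Bf D.Bi D.hBf D.hBi
      cf ci D.sf D.si
      (arithmeticRingAut (modularFunctionFieldFull N) (hE.res τ hτ))
      (hE.res τ hτ).toRingEquiv (resR hE τ hτ)
      (fun e => arithmeticRingAut_algebraMap (modularFunctionFieldFull N) (hE.res τ hτ) e)
      (fun r => rfl)
      (D.hτx hE τ hτ)
      (finite_order_arithmeticRingAut (modularFunctionFieldFull N) hE τ hτ)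
      (D.hτf hE τ hτ w hw) (D.hτi hE τ hτ w hw)
  exact hconcl y hy0 hdd

end Fermat.Agent.A2.T1.H669

end
end
-- ===== PACK-END A2/T1/H669/T1.lean

-- ===== PACK-BEGIN S18/H138/Connected.lean
section



/-!
# S18, Route K, ASM (helper138): the special fibre of the `x`-line model is connected

Setting: `R` a noetherian domain with `R[X]` integrally closed (e.g. a DVR), `w ∈ R` a prime
element, `F` a field of characteristic `0` containing `R`, `x ∈ F` transcendental over `R`,
`F` finite over the subfield `baseField R x` generated by `R` and `x`, and `R` integrally closed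
in `F` (i.e. `Frac R` is algebraically closed in `F` and `R` is normal).

`B_fin = chart R {x}`, `B_inf = chart R {x⁻¹}`, `B_mid = chart R {x, x⁻¹}` are the integral
closures of `R[x]`, `R[x⁻¹]`, `R[x, x⁻¹]` in `F`.

**Theorem** (`connected_special_fibre`).  If `e₁ ∈ B_fin`, `e₂ ∈ B_inf` are idempotent modulo
`w` (in their charts) and `e₁ ≡ e₂ mod w B_mid`, then `(e₁, e₂) ≡ (0, 0)` or `(1, 1)` modulo `w`.

This is the statement "`H⁰(X_k, O) = k`" for the normal model `X = Spec B_fin ∪ Spec B_inf`,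
proved by the two-chart Čech argument of `H558.cech_connected` (`H¹(X, O)` is a finitely
generated `R`-module).
-/

set_option autoImplicit false
set_option linter.style.haveILetI false

namespace Fermat.Agent.S18.H138

open Polynomial

variable {R : Type*} [CommRing R] {F : Type*} [Field F] [Algebra R F]

/-- Elements of the base field integral over an integrally closed subalgebra with that
fraction field lie in the subalgebra. -/
theorem mem_of_isIntegral_of_mem (A : Subalgebra R F) [IsIntegrallyClosed A] (K : Subfield F)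
    (hAK : ∀ a ∈ A, a ∈ K) (hfrac : ∀ z ∈ K, ∃ a ∈ A, ∃ b ∈ A, z = a / b)
    {z : F} (hzK : z ∈ K) (hz : IsIntegral A z) : z ∈ A := by
  have h := minpoly_coeff_mem A K hAK hfrac hz 0
  have h2 : minpoly K z = X - C (⟨z, hzK⟩ : K) :=
    minpoly.eq_X_sub_C_of_algebraMap_inj (⟨z, hzK⟩ : K) (algebraMap K F).injective
  rw [h2] at h
  simp only [coeff_sub, coeff_X_zero, coeff_C_zero, zero_sub] at h
  have : -(-z) ∈ A := A.neg_mem h
  simpa using this

/-- `R / w → B_fin / w` is injective. -/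
theorem dvd_of_algebraMap_eq_mul [IsIntegrallyClosed R[X]]
    (hinjR : Function.Injective (algebraMap R F)) {x : F} (hx : Transcendental R x)
    (w a : R) {t : F} (ht : t ∈ chart R ({x} : Set F))
    (h : algebraMap R F a = algebraMap R F w * t) : w ∣ a := by
  by_cases hw : w = 0
  · subst hw
    rw [map_zero, zero_mul] at h
    have : a = 0 := hinjR (by rw [h, map_zero])
    rw [this]
  have hwF : algebraMap R F w ≠ 0 := fun h0 => hw (hinjR (by rw [h0, map_zero]))
  haveI := isIntegrallyClosed_adjoin_singleton (R := R) hx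
  have htK : t ∈ baseField R x := by
    have : t = algebraMap R F a / algebraMap R F w := by
      rw [h, mul_div_cancel_left₀ _ hwF]
    rw [this]
    exact (baseField R x).div_mem (Subfield.subset_closure (Or.inl ⟨a, rfl⟩))
      (Subfield.subset_closure (Or.inl ⟨w, rfl⟩))
  have htA : t ∈ Algebra.adjoin R ({x} : Set F) :=
    mem_of_isIntegral_of_mem _ (baseField R x) (fun a ha => adjoin_le_baseField x ha)
      (fun z hz => exists_div_of_mem_baseField x hz) htK ht
  obtain ⟨P, rfl⟩ := mem_adjoin_singleton_iff.1 htA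
  have h3 : aeval x (C a - C w * P) = 0 := by
    rw [map_sub, map_mul, aeval_C, aeval_C, h, sub_self]
  have h4 := (transcendental_iff.1 hx) _ h3
  have h5 : C a = C w * P := sub_eq_zero.1 h4
  refine ⟨P.coeff 0, ?_⟩
  have := congrArg (fun p : R[X] => p.coeff 0) h5
  simpa using this

section Finite

variable [IsNoetherianRing R] [IsIntegrallyClosed R[X]] [CharZero F]

/-- `B_fin` is generated as an `R`-module by finitely many families `x ^ j * bs i`. -/
theorem exists_finite_gens {x : F} (hx : Transcendental R x)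
    [FiniteDimensional (baseField R x) F] :
    ∃ (n : ℕ) (bs : Fin n → F), (∀ i, bs i ∈ chart R ({x} : Set F)) ∧
      ∀ b ∈ chart R ({x} : Set F),
        b ∈ Submodule.span R {z : F | ∃ (j : ℕ) (i : Fin n), z = x ^ j * bs i} := by
  classical
  set A : Subalgebra R F := Algebra.adjoin R ({x} : Set F) with hA
  set K : Subfield F := baseField R x with hK
  haveI := isIntegrallyClosed_adjoin_singleton (R := R) hx
  haveI := isNoetherianRing_adjoin_singleton (R := R) hx
  let φ : A →+* K :=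
    { toFun := fun a => ⟨a, adjoin_le_baseField x a.2⟩
      map_one' := rfl
      map_mul' := fun _ _ => rfl
      map_zero' := rfl
      map_add' := fun _ _ => rfl }
  letI : Algebra A K := φ.toAlgebra
  haveI : IsScalarTower A K F := IsScalarTower.of_algebraMap_eq (fun _ => rfl)
  have hinj : Function.Injective (algebraMap A K) := by
    intro a b hab
    have : (a : F) = b := congrArg (fun t : K => (t : F)) hab
    exact Subtype.ext this
  haveI : FaithfulSMul A K := (faithfulSMul_iff_algebraMap_injective A K).2 hinj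
  haveI : IsFractionRing A K := by
    refine IsFractionRing.of_field A K (fun z => ?_)
    obtain ⟨a, ha, b, hb, h⟩ := exists_div_of_mem_baseField (R := R) x z.2
    exact ⟨⟨a, ha⟩, ⟨b, hb⟩, Subtype.ext h⟩
  haveI : CharZero K := (algebraMap K F).charZero
  haveI : Module.Finite A (integralClosure A F) :=
    IsIntegralClosure.finite A K F (integralClosure A F)
  obtain ⟨n, s, hs⟩ := Module.Finite.exists_fin (R := A) (M := integralClosure A F)
  refine ⟨n, fun i => (s i : F), fun i => (s i).2, ?_⟩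
  intro b hb
  set T : Submodule R F :=
    Submodule.span R {z : F | ∃ (j : ℕ) (i : Fin n), z = x ^ j * (s i : F)} with hT
  -- `T` is stable under multiplication by `x`, hence by `A`
  have hxT : ∀ z ∈ T, x * z ∈ T := by
    intro z hz
    induction hz using Submodule.span_induction with
    | mem z hz =>
      obtain ⟨j, i, rfl⟩ := hz
      exact Submodule.subset_span ⟨j + 1, i, by ring⟩
    | zero => simp
    | add y z _ _ hy hz => rw [mul_add]; exact T.add_mem hy hz
    | smul r z _ hz => rw [mul_smul_comm]; exact T.smul_mem r hz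
  have hAT : ∀ a ∈ A, ∀ z ∈ T, a * z ∈ T := by
    intro a ha
    induction ha using Algebra.adjoin_induction with
    | mem y hy =>
      rw [Set.mem_singleton_iff] at hy
      subst hy
      exact hxT
    | algebraMap r =>
      intro z hz
      rw [← Algebra.smul_def]
      exact T.smul_mem r hz
    | add y z _ _ hy hz =>
      intro u hu
      rw [add_mul]
      exact T.add_mem (hy u hu) (hz u hu)
    | mul y z _ _ hy hz =>
      intro u hu
      rw [mul_assoc]
      exact hy _ (hz u hu)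
  have hb' : (⟨b, hb⟩ : integralClosure A F) ∈ Submodule.span A (Set.range s) := by
    rw [hs]; trivial
  have key : ∀ c : integralClosure A F, c ∈ Submodule.span A (Set.range s) → (c : F) ∈ T := by
    intro c hc
    induction hc using Submodule.span_induction with
    | mem c hc =>
      obtain ⟨i, rfl⟩ := hc
      exact Submodule.subset_span ⟨0, i, by simp⟩
    | zero => simp
    | add y z _ _ hy hz => exact T.add_mem hy hz
    | smul a z _ hz => exact hAT a a.2 _ hz
  exact key _ hb'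

/-- **Connectedness of the special fibre of the normal `x`-line model.** -/
theorem connected_special_fibre
    (hinjR : Function.Injective (algebraMap R F))
    (hRF : ∀ y : F, IsIntegral R y → y ∈ Set.range (algebraMap R F))
    {x : F} (hx : Transcendental R x) [FiniteDimensional (baseField R x) F]
    (w : R) (hw : Prime w)
    (e₁ e₂ : F) (he₁ : e₁ ∈ chart R ({x} : Set F)) (he₂ : e₂ ∈ chart R ({x⁻¹} : Set F))
    (hi₁ : ∃ t ∈ chart R ({x} : Set F), e₁ ^ 2 - e₁ = algebraMap R F w * t)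
    (hi₂ : ∃ t ∈ chart R ({x⁻¹} : Set F), e₂ ^ 2 - e₂ = algebraMap R F w * t)
    (h₁₂ : ∃ t ∈ chart R ({x, x⁻¹} : Set F), e₁ - e₂ = algebraMap R F w * t) :
    ((∃ t ∈ chart R ({x} : Set F), e₁ = algebraMap R F w * t) ∧
      (∃ t ∈ chart R ({x⁻¹} : Set F), e₂ = algebraMap R F w * t)) ∨
    ((∃ t ∈ chart R ({x} : Set F), 1 - e₁ = algebraMap R F w * t) ∧
      (∃ t ∈ chart R ({x⁻¹} : Set F), 1 - e₂ = algebraMap R F w * t)) := by
  have hx0 : x ≠ 0 := ne_zero_of_transcendental hx
  obtain ⟨n, bs, hbs, hgen⟩ := exists_finite_gens (R := R) hx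
  exact cech_connected_sub (ι := Fin n) w x x⁻¹ (mul_inv_cancel₀ hx0)
    (chart R {x}) (chart R {x⁻¹}) (chart R {x, x⁻¹})
    (chart_mono (by simp)) (chart_mono (by simp))
    (mem_chart_of_mem rfl) (mem_chart_of_mem rfl) bs hbs hgen
    (fun b hb => exists_pow_mul_mem_chart hx0 hb)
    (fun i => exists_inv_pow_mul_mem_chart hx0 (hbs i))
    (fun b hbf hbi => by
      obtain ⟨a, ha⟩ := hRF b (isIntegral_of_mem_chart_inter hx hbf hbi)
      exact ⟨a, ha⟩)
    (fun a ⟨t, ht, h⟩ => dvd_of_algebraMap_eq_mul hinjR hx w a ht h)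
    (fun a b h => hw.dvd_or_dvd h)
    e₁ e₂ he₁ he₂ hi₁ hi₂ h₁₂

end Finite

end Fermat.Agent.S18.H138

end
-- ===== PACK-END S18/H138/Connected.lean

-- ===== PACK-BEGIN S18/H394/ChartInst.lean
section



/-!
# S18, Route K (helper394): instances for the charts `H138.chart R {x}`

For `R` noetherian with `R[X]` integrally closed, `F` of characteristic `0`, `x ∈ F` transcendental
over `R` and `F` finite over `baseField R x`: the chart `B = chart R {x}` (integral closure of
`R[x]` in `F`), as a type, is a noetherian integrally closed domain with fraction field `F`.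
-/

set_option autoImplicit false
set_option linter.style.haveILetI false

namespace Fermat.Agent.S18.H394

open Polynomial
open Fermat.Agent.S18.H138 (chart baseField)

section ChartInst

variable {R : Type*} [CommRing R] {F : Type*} [Field F] [Algebra R F]
variable [IsNoetherianRing R] [IsIntegrallyClosed R[X]] [CharZero F]

theorem chart_instances {x : F} (hx : Transcendental R x)
    [FiniteDimensional (baseField R x) F] :
    IsNoetherianRing (chart R ({x} : Set F)) ∧ IsIntegrallyClosed (chart R ({x} : Set F)) ∧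
      IsFractionRing (chart R ({x} : Set F)) F := by
  classical
  set A : Subalgebra R F := Algebra.adjoin R ({x} : Set F) with hA
  set K : Subfield F := baseField R x with hK
  haveI := H138.isIntegrallyClosed_adjoin_singleton (R := R) hx
  haveI := H138.isNoetherianRing_adjoin_singleton (R := R) hx
  let φ : A →+* K :=
    { toFun := fun a => ⟨a, H138.adjoin_le_baseField x a.2⟩
      map_one' := rfl
      map_mul' := fun _ _ => rfl
      map_zero' := rfl
      map_add' := fun _ _ => rfl }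
  letI : Algebra A K := φ.toAlgebra
  haveI : IsScalarTower A K F := IsScalarTower.of_algebraMap_eq (fun _ => rfl)
  have hinj : Function.Injective (algebraMap A K) := by
    intro a b hab
    have : (a : F) = b := congrArg (fun t : K => (t : F)) hab
    exact Subtype.ext this
  haveI : FaithfulSMul A K := (faithfulSMul_iff_algebraMap_injective A K).2 hinj
  haveI : IsFractionRing A K := by
    refine IsFractionRing.of_field A K (fun z => ?_)
    obtain ⟨a, ha, b, hb, h⟩ := H138.exists_div_of_mem_baseField (R := R) x z.2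
    exact ⟨⟨a, ha⟩, ⟨b, hb⟩, Subtype.ext h⟩
  haveI : CharZero K := (algebraMap K F).charZero
  have h1 : IsNoetherianRing (integralClosure A F) := integralClosure.isNoetherianRing (K := K) F
  have h2 : IsIntegrallyClosed (integralClosure A F) :=
    integralClosure.isIntegrallyClosedOfFiniteExtension K
  have h3 : IsFractionRing (integralClosure A F) F :=
    integralClosure.isFractionRing_of_finite_extension K F
  exact ⟨h1, h2, h3⟩

end ChartInst

end Fermat.Agent.S18.H394

end
-- ===== PACK-END S18/H394/ChartInst.lean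

-- ===== PACK-BEGIN A2/H729/Glue.lean
section


/-!
# A2, piece ALG_ss (helper729), version A: gluing a generic idempotent

Setting of `S18.H138.connected_special_fibre`: `R` a noetherian domain with `R[X]` integrally
closed (a DVR), `w ∈ R` prime, `F` a field of characteristic `0`, `x ∈ F` transcendental, `F`
finite over `baseField R x`, `R` integrally closed in `F`.  The charts are the integral closures of
`R[x]`, `R[x⁻¹]`, `R[x, x⁻¹]` in `F`.

`O` is the *Gauss ring*: a subalgebra of `F` containing the charts (in the application the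
intersection of the valuation rings of `F` over the Gauss valuations of the special fibre), with
the `q`-expansion principle `chart ∩ w O = w chart` for the three charts (the special fibre is
reduced).  `e₀ ∈ O` is idempotent modulo `w O` (an idempotent of the total ring of fractions of
the special fibre).

**Theorem** (`generic_idempotent_trivial`).  If `e₀` is *locally regular* at every closed point
of the special fibre of both charts (for every maximal ideal `𝔫 ∋ w` of the chart there is a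
denominator `s ∉ 𝔫` with `s e₀ ≡` an element of the chart modulo `w O`), then `e₀ ≡ 0` or
`e₀ ≡ 1` modulo `w O`.

No normality of the special fibre is used: only reducedness (the three `qep` hypotheses).
-/

set_option autoImplicit false

namespace Fermat.Agent.A2.H729

open Fermat.Agent.S18.H138

variable {R : Type*} [CommRing R] {F : Type*} [Field F] [Algebra R F]

/-- `z ∈ w O`. -/
def InW (O : Subalgebra R F) (w : R) (z : F) : Prop :=
  ∃ t ∈ O, z = algebraMap R F w * t

theorem InW.add {O : Subalgebra R F} {w : R} {a b : F} (ha : InW O w a) (hb : InW O w b) :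
    InW O w (a + b) := by
  obtain ⟨s, hs, rfl⟩ := ha
  obtain ⟨t, ht, rfl⟩ := hb
  exact ⟨s + t, O.add_mem hs ht, by ring⟩

theorem InW.neg {O : Subalgebra R F} {w : R} {a : F} (ha : InW O w a) : InW O w (-a) := by
  obtain ⟨s, hs, rfl⟩ := ha
  exact ⟨-s, O.neg_mem hs, by ring⟩

theorem InW.sub {O : Subalgebra R F} {w : R} {a b : F} (ha : InW O w a) (hb : InW O w b) :
    InW O w (a - b) := by
  rw [sub_eq_add_neg]
  exact ha.add hb.neg

theorem InW.mul_left {O : Subalgebra R F} {w : R} {a : F} (ha : InW O w a) {c : F}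
    (hc : c ∈ O) : InW O w (c * a) := by
  obtain ⟨s, hs, rfl⟩ := ha
  exact ⟨c * s, O.mul_mem hc hs, by ring⟩

theorem InW.mul_right {O : Subalgebra R F} {w : R} {a : F} (ha : InW O w a) {c : F}
    (hc : c ∈ O) : InW O w (a * c) := by
  rw [mul_comm]
  exact ha.mul_left hc

theorem InW.zero (O : Subalgebra R F) (w : R) : InW O w 0 :=
  ⟨0, O.zero_mem, by ring⟩

theorem InW.of_mul {O : Subalgebra R F} (w : R) {t : F} (ht : t ∈ O) :
    InW O w (algebraMap R F w * t) :=
  ⟨t, ht, rfl⟩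

theorem InW.mem {O : Subalgebra R F} {w : R} {a : F} (ha : InW O w a) : a ∈ O := by
  obtain ⟨s, hs, rfl⟩ := ha
  exact O.mul_mem (O.algebraMap_mem w) hs

theorem InW.sum {O : Subalgebra R F} {w : R} {ι : Type*} (s : Finset ι) (f : ι → F)
    (h : ∀ i ∈ s, InW O w (f i)) : InW O w (∑ i ∈ s, f i) := by
  classical
  induction s using Finset.induction_on with
  | empty => simpa using InW.zero O w
  | insert a s ha ih =>
    rw [Finset.sum_insert ha]
    exact (h a (Finset.mem_insert_self a s)).add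
      (ih fun i hi => h i (Finset.mem_insert_of_mem hi))

/-- The *regularity ideal* of `e₀` on the chart `C`: the denominators `s ∈ C` such that
`s e₀` is congruent modulo `w O` to an element of `C`. -/
def regIdeal (C O : Subalgebra R F) (hCO : C ≤ O) (w : R) (e₀ : F) : Ideal C where
  carrier := {s | ∃ e ∈ C, InW O w ((s : F) * e₀ - e)}
  add_mem' := by
    rintro a b ⟨e, he, h⟩ ⟨e', he', h'⟩
    refine ⟨e + e', C.add_mem he he', ?_⟩
    have : ((a + b : C) : F) * e₀ - (e + e') = ((a : F) * e₀ - e) + ((b : F) * e₀ - e') := by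
      push_cast; ring
    rw [this]
    exact h.add h'
  zero_mem' := ⟨0, C.zero_mem, by simpa using InW.zero O w⟩
  smul_mem' := by
    rintro c a ⟨e, he, h⟩
    refine ⟨c * e, C.mul_mem c.2 he, ?_⟩
    have : ((c • a : C) : F) * e₀ - c * e = (c : F) * ((a : F) * e₀ - e) := by
      rw [smul_eq_mul]; push_cast; ring
    rw [this]
    exact h.mul_left (hCO c.2)

theorem mem_regIdeal {C O : Subalgebra R F} {hCO : C ≤ O} {w : R} {e₀ : F} {s : C} :
    s ∈ regIdeal C O hCO w e₀ ↔ ∃ e ∈ C, InW O w ((s : F) * e₀ - e) := Iff.rfl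

/-- If `e₀ ∈ O` is locally regular at all maximal ideals of `C` containing `w`, it is congruent
modulo `w O` to an element of `C`. -/
theorem exists_chart_rep {C O : Subalgebra R F} (hCO : C ≤ O) (w : R) {e₀ : F} (he₀ : e₀ ∈ O)
    (hloc : ∀ 𝔫 : Ideal C, 𝔫.IsMaximal → algebraMap R C w ∈ 𝔫 →
      ∃ s : C, s ∉ 𝔫 ∧ ∃ e ∈ C, InW O w ((s : F) * e₀ - e)) :
    ∃ e ∈ C, InW O w (e₀ - e) := by
  have hw : algebraMap R C w ∈ regIdeal C O hCO w e₀ := by
    refine ⟨0, C.zero_mem, ?_⟩
    rw [sub_zero]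
    exact ⟨e₀, he₀, rfl⟩
  have htop : regIdeal C O hCO w e₀ = ⊤ := by
    by_contra hne
    obtain ⟨𝔫, h𝔫, hle⟩ := Ideal.exists_le_maximal _ hne
    obtain ⟨s, hs, e, he, h⟩ := hloc 𝔫 h𝔫 (hle hw)
    exact hs (hle ⟨e, he, h⟩)
  have h1 : (1 : C) ∈ regIdeal C O hCO w e₀ := by rw [htop]; trivial
  obtain ⟨e, he, h⟩ := h1
  refine ⟨e, he, ?_⟩
  simpa using h

section Main

variable [IsNoetherianRing R] [IsIntegrallyClosed (Polynomial R)] [CharZero F]

/-- **ALG_ss, version A.**  A generic idempotent of a reduced special fibre which is locally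
regular at every closed point of both charts is `0` or `1`. -/
theorem generic_idempotent_trivial
    (hinjR : Function.Injective (algebraMap R F))
    (hRF : ∀ y : F, IsIntegral R y → y ∈ Set.range (algebraMap R F))
    {x : F} (hx : Transcendental R x) [FiniteDimensional (baseField R x) F]
    (w : R) (hw : Prime w)
    (O : Subalgebra R F)
    (hfin : chart R ({x} : Set F) ≤ O) (hinf : chart R ({x⁻¹} : Set F) ≤ O)
    (qep_fin : ∀ b ∈ chart R ({x} : Set F), InW O w b →
      ∃ t ∈ chart R ({x} : Set F), b = algebraMap R F w * t)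
    (qep_inf : ∀ b ∈ chart R ({x⁻¹} : Set F), InW O w b →
      ∃ t ∈ chart R ({x⁻¹} : Set F), b = algebraMap R F w * t)
    (qep_mid : ∀ b ∈ chart R ({x, x⁻¹} : Set F), InW O w b →
      ∃ t ∈ chart R ({x, x⁻¹} : Set F), b = algebraMap R F w * t)
    {e₀ : F} (he₀ : e₀ ∈ O) (hidem : InW O w (e₀ ^ 2 - e₀))
    (hloc_fin : ∀ 𝔫 : Ideal (chart R ({x} : Set F)), 𝔫.IsMaximal →
      algebraMap R (chart R ({x} : Set F)) w ∈ 𝔫 →
      ∃ s : chart R ({x} : Set F), s ∉ 𝔫 ∧
        ∃ e ∈ chart R ({x} : Set F), InW O w ((s : F) * e₀ - e))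
    (hloc_inf : ∀ 𝔫 : Ideal (chart R ({x⁻¹} : Set F)), 𝔫.IsMaximal →
      algebraMap R (chart R ({x⁻¹} : Set F)) w ∈ 𝔫 →
      ∃ s : chart R ({x⁻¹} : Set F), s ∉ 𝔫 ∧
        ∃ e ∈ chart R ({x⁻¹} : Set F), InW O w ((s : F) * e₀ - e)) :
    InW O w e₀ ∨ InW O w (1 - e₀) := by
  obtain ⟨e₁, he₁, h₁⟩ := exists_chart_rep hfin w he₀ hloc_fin
  obtain ⟨e₂, he₂, h₂⟩ := exists_chart_rep hinf w he₀ hloc_inf
  have he₁O : e₁ ∈ O := hfin he₁
  have he₂O : e₂ ∈ O := hinf he₂
  -- `e₁` is idempotent modulo `w` in the finite chart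
  have hi₁ : ∃ t ∈ chart R ({x} : Set F), e₁ ^ 2 - e₁ = algebraMap R F w * t := by
    refine qep_fin _ (Subalgebra.sub_mem _ (Subalgebra.pow_mem _ he₁ 2) he₁) ?_
    have : e₁ ^ 2 - e₁ = (e₀ ^ 2 - e₀) - (e₀ - e₁) * (e₀ + e₁ - 1) := by ring
    rw [this]
    exact hidem.sub (h₁.mul_right
      (O.sub_mem (O.add_mem he₀ he₁O) O.one_mem))
  have hi₂ : ∃ t ∈ chart R ({x⁻¹} : Set F), e₂ ^ 2 - e₂ = algebraMap R F w * t := by
    refine qep_inf _ (Subalgebra.sub_mem _ (Subalgebra.pow_mem _ he₂ 2) he₂) ?_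
    have : e₂ ^ 2 - e₂ = (e₀ ^ 2 - e₀) - (e₀ - e₂) * (e₀ + e₂ - 1) := by ring
    rw [this]
    exact hidem.sub (h₂.mul_right
      (O.sub_mem (O.add_mem he₀ he₂O) O.one_mem))
  have h₁₂ : ∃ t ∈ chart R ({x, x⁻¹} : Set F), e₁ - e₂ = algebraMap R F w * t := by
    refine qep_mid _ (Subalgebra.sub_mem _ (chart_mono (by simp) he₁)
      (chart_mono (by simp) he₂)) ?_
    have : e₁ - e₂ = (e₀ - e₂) - (e₀ - e₁) := by ring
    rw [this]
    exact h₂.sub h₁
  rcases connected_special_fibre hinjR hRF hx w hw e₁ e₂ he₁ he₂ hi₁ hi₂ h₁₂ with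
    ⟨⟨t, ht, h⟩, _⟩ | ⟨⟨t, ht, h⟩, _⟩
  · left
    have : e₀ = (e₀ - e₁) + e₁ := by ring
    rw [this]
    exact h₁.add ⟨t, hfin ht, h⟩
  · right
    have : 1 - e₀ = (1 - e₁) - (e₀ - e₁) := by ring
    rw [this]
    exact InW.sub ⟨t, hfin ht, h⟩ h₁

end Main

end Fermat.Agent.A2.H729

end
-- ===== PACK-END A2/H729/Glue.lean

-- ===== PACK-BEGIN A2/H348/Conn.lean
section



/-!
# A2 / piece E (ALG_ss), part 5: the connectedness input from S18 (`H138.connected_special_fibre`)

`R` a noetherian domain with `R[X]` integrally closed, `F ⊇ R` a field of characteristic `0`,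
`x ∈ F` transcendental over `R`, `F` finite over `Frac R (x)`.  For every finite field extension
`L / F` in which `R` is integrally closed (constants do not grow), the special fibre of the
normalisation of the `x`-line model in `L` is connected: `ConnAt w B_fin B_inf B_mid L`
(`conn_of_const`).
-/

set_option autoImplicit false
set_option linter.unusedSectionVars false
set_option linter.style.haveILetI false

open Polynomial

namespace Fermat.Agent.A2.H348

open Fermat.Agent.S18.H138 (chart baseField)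

section Adapter

variable {R F L : Type*} [CommRing R] [Field F] [Field L] [Algebra R F] [Algebra F L]
  [Algebra R L] [IsScalarTower R F L]

/-- integrality over a subalgebra `T ⊆ F` and over its image in `L`. -/
theorem isIntegral_map_iff (T : Subalgebra R F) (e : L) :
    IsIntegral (T.map (IsScalarTower.toAlgHom R F L)) e ↔ IsIntegral T e := by
  have hinj : Function.Injective (IsScalarTower.toAlgHom R F L) := (algebraMap F L).injective
  set ψ := Subalgebra.equivMapOfInjective T (IsScalarTower.toAlgHom R F L) hinj with hψ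
  constructor
  · intro h
    have := IsIntegral.map_of_comp_eq (R := T.map (IsScalarTower.toAlgHom R F L)) (S := L)
      (T := T) (U := L) (ψ.symm : _ →+* _) (RingHom.id L) (by
        ext a
        obtain ⟨b, rfl⟩ := ψ.surjective a
        simp only [RingHom.coe_comp, Function.comp_apply, RingHom.coe_coe,
          AlgEquiv.symm_apply_apply, RingHom.id_apply]
        rfl) h
    simpa using this
  · intro h
    have := IsIntegral.map_of_comp_eq (R := T) (S := L)
      (T := T.map (IsScalarTower.toAlgHom R F L)) (U := L) (ψ : _ →+* _) (RingHom.id L) (by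
        ext a
        rfl) h
    simpa using this

/-- integrality over a chart of `F` is integrality over the generating subalgebra. -/
theorem isIntegral_chart_iff (S : Set F) (e : L) :
    IsIntegral (chart R S) e ↔ IsIntegral (Algebra.adjoin R S) e := by
  constructor
  · intro h
    -- transitivity
    set T := Algebra.adjoin R S with hT
    have h1 : IsIntegral (integralClosure T F) e := by
      have := IsIntegral.map_of_comp_eq (R := chart R S) (S := L)
        (T := integralClosure T F) (U := L)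
        (RingHom.id _ : (integralClosure T F) →+* (integralClosure T F)) (RingHom.id L) (by
          ext a
          rfl) h
      simpa using this
    exact isIntegral_trans (R := T) (A := integralClosure T F) e h1
  · intro h
    exact _root_.Fermat.Agent.A2.H348.isIntegral_of_le (Fermat.Agent.S18.H138.adjoin_le_chart S) h

/-- membership in a chart of `L` in terms of integrality over the chart of `F`. -/
theorem mem_chart_image_iff (S : Set F) (e : L) :
    e ∈ chart R ((algebraMap F L) '' S) ↔ IsIntegral (chart R S) e := by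
  rw [isIntegral_chart_iff, ← isIntegral_map_iff, AlgHom.map_adjoin]
  rfl

end Adapter

section Conn

variable {R F L : Type*} [CommRing R] [Field F] [Field L] [Algebra R F] [Algebra F L]
  [Algebra R L] [IsScalarTower R F L]

/-- `L` is finite over the base field of the `x`-line. -/
theorem finiteDimensional_baseField [FiniteDimensional F L] (x : F)
    [FiniteDimensional (baseField R x) F] :
    FiniteDimensional (baseField R (algebraMap F L x)) L := by
  set K := baseField R x with hK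
  set K' := baseField R (algebraMap F L x) with hK'
  have hle : K ≤ K'.comap (algebraMap F L) := by
    refine Subfield.closure_le.2 ?_
    rintro y (⟨r, rfl⟩ | hy)
    · show algebraMap F L (algebraMap R F r) ∈ K'
      rw [← IsScalarTower.algebraMap_apply]
      exact Subfield.subset_closure (Or.inl ⟨r, rfl⟩)
    · rw [Set.mem_singleton_iff] at hy
      subst hy
      exact Subfield.subset_closure (Or.inr rfl)
  haveI : Module.Finite K L := Module.Finite.trans F L
  let φ : K →+* K' :=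
    { toFun := fun a => ⟨algebraMap F L a, hle a.2⟩
      map_one' := Subtype.ext (map_one _)
      map_mul' := fun a b => Subtype.ext (map_mul _ _ _)
      map_zero' := Subtype.ext (map_zero _)
      map_add' := fun a b => Subtype.ext (map_add _ _ _) }
  letI : Algebra K K' := φ.toAlgebra
  haveI : IsScalarTower K K' L := IsScalarTower.of_algebraMap_eq fun _ => rfl
  exact Module.Finite.of_restrictScalars_finite K K' L

variable [IsNoetherianRing R] [IsIntegrallyClosed R[X]] [CharZero F]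

/-- **Connectedness of the special fibre** of the normalisation of the `x`-line model in a
finite extension `L / F` with the same constants, in the language of `ConnAt`. -/
theorem conn_of_const [FiniteDimensional F L] (hinjR : Function.Injective (algebraMap R F))
    {x : F} (hx : Transcendental R x) [FiniteDimensional (baseField R x) F]
    (w : R) (hw : Prime w)
    (hRL : ∀ y : L, IsIntegral R y → y ∈ Set.range (algebraMap R L)) :
    ConnAt w (chart R ({x} : Set F)) (chart R ({x⁻¹} : Set F)) (chart R ({x, x⁻¹} : Set F)) L := by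
  intro e₁ e₂ he₁ he₂ hi1 hi2 h12
  haveI := finiteDimensional_baseField (R := R) (L := L) x
  haveI : CharZero L := charZero_of_injective_algebraMap (algebraMap F L).injective
  set x' : L := algebraMap F L x with hx'def
  have hx' : Transcendental R x' :=
    (transcendental_algebraMap_iff (algebraMap F L).injective).2 hx
  have hinjL : Function.Injective (algebraMap R L) := by
    rw [IsScalarTower.algebraMap_eq R F L]
    exact (algebraMap F L).injective.comp hinjR
  have himg1 : (algebraMap F L) '' ({x} : Set F) = {x'} := Set.image_singleton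
  have himg2 : (algebraMap F L) '' ({x⁻¹} : Set F) = {x'⁻¹} := by
    rw [Set.image_singleton, map_inv₀]
  have himg3 : (algebraMap F L) '' ({x, x⁻¹} : Set F) = {x', x'⁻¹} := by
    rw [Set.image_pair, map_inv₀]
  have hw' : algebraMap F L (algebraMap R F w) = algebraMap R L w :=
    (IsScalarTower.algebraMap_apply R F L w).symm
  have m1 : ∀ e : L, e ∈ chart R ({x'} : Set L) ↔ IsIntegral (chart R ({x} : Set F)) e :=
    fun e => by rw [← himg1]; exact mem_chart_image_iff _ e
  have m2 : ∀ e : L, e ∈ chart R ({x'⁻¹} : Set L) ↔ IsIntegral (chart R ({x⁻¹} : Set F)) e :=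
    fun e => by rw [← himg2]; exact mem_chart_image_iff _ e
  have m3 : ∀ e : L, e ∈ chart R ({x', x'⁻¹} : Set L) ↔
      IsIntegral (chart R ({x, x⁻¹} : Set F)) e :=
    fun e => by rw [← himg3]; exact mem_chart_image_iff _ e
  rw [hw'] at hi1 hi2 h12 ⊢
  have := Fermat.Agent.S18.H138.connected_special_fibre hinjL hRL hx' w hw e₁ e₂
    ((m1 e₁).2 he₁) ((m2 e₂).2 he₂)
    (by obtain ⟨t, ht, h⟩ := hi1; exact ⟨t, (m1 t).2 ht, h⟩)
    (by obtain ⟨t, ht, h⟩ := hi2; exact ⟨t, (m2 t).2 ht, h⟩)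
    (by obtain ⟨t, ht, h⟩ := h12; exact ⟨t, (m3 t).2 ht, h⟩)
  rcases this with ⟨⟨t, ht, h⟩, -⟩ | ⟨⟨t, ht, h⟩, -⟩
  · left
    exact ⟨t, (m1 t).1 ht, h⟩
  · right
    exact ⟨t, (m1 t).1 ht, h⟩

end Conn

end Fermat.Agent.A2.H348

end
-- ===== PACK-END A2/H348/Conn.lean

-- ===== PACK-BEGIN A2/H552/HConst.lean
section



/-!
# A2 / ALG, route S: the hypothesis `hconst` of `A2.H348.exists_pow_eq_of_local_factorisation`
over a Henselian base (helper552)

`R` a Henselian discrete valuation ring with algebraically closed residue field, uniformiser `w`,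
`E = Frac R` of characteristic zero, `m` invertible in the residue field; `F ⊇ R` a field with a
valuation subring `V ⊇ R` with uniformiser `w` and `F = V[1/w]` (the Gauss valuation ring `V∞`),
`u = 1 + w t` with `t ∈ V`.

`hconst_of_henselian` : constants do not grow in the residue fields of the Kummer algebra
`F[X]/(X ^ m - u)` — VERBATIM the hypothesis `hconst` of
`Fermat.Agent.A2.H348.exists_pow_eq_of_local_factorisation`.
-/

set_option autoImplicit false

namespace Fermat.Agent.A2.H552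

open Polynomial IsLocalRing

section HConst

variable {R E F : Type*} [CommRing R] [IsDomain R] [IsDiscreteValuationRing R]
  [HenselianLocalRing R] [IsAlgClosed (ResidueField R)]
  [Field E] [CharZero E] [Algebra R E] [IsFractionRing R E]
  [Field F] [Algebra R F] [Algebra E F] [IsScalarTower R E F]

variable (E) in
include E in
/-- **`hconst` over a Henselian base.** -/
theorem hconst_of_henselian (w : R) (hw : Irreducible w) (V : ValuationSubring F)
    (hRV : ∀ r : R, algebraMap R F r ∈ V)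
    (hwV : (algebraMap R F w)⁻¹ ∉ V)
    (hVgen : ∀ a ∈ V, a⁻¹ ∉ V → a * (algebraMap R F w)⁻¹ ∈ V)
    (hdisc : ∀ c : F, ∃ k : ℕ, algebraMap R F w ^ k * c ∈ V)
    (m : ℕ) (hm : (m : ResidueField R) ≠ 0)
    (t : F) (ht : t ∈ V) (u : F) (hu : u = 1 + algebraMap R F w * t) :
    ∀ 𝔫 : Ideal (AdjoinRoot (X ^ m - C u)), 𝔫.IsMaximal →
      ∀ y : AdjoinRoot (X ^ m - C u) ⧸ 𝔫, IsIntegral R y →
        y ∈ Set.range (algebraMap R (AdjoinRoot (X ^ m - C u) ⧸ 𝔫)) := by
  intro 𝔫 h𝔫 y hy
  let _ : Field (AdjoinRoot (X ^ m - C u) ⧸ 𝔫) := Ideal.Quotient.field 𝔫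
  have : IsScalarTower R E (AdjoinRoot (X ^ m - C u) ⧸ 𝔫) :=
    IsScalarTower.of_algebraMap_eq fun r => by
      change Ideal.Quotient.mk 𝔫 (AdjoinRoot.of _ (algebraMap R F r)) =
        Ideal.Quotient.mk 𝔫 (AdjoinRoot.of _ (algebraMap E F (algebraMap R E r)))
      rw [← IsScalarTower.algebraMap_apply R E F]
  have : IsScalarTower R F (AdjoinRoot (X ^ m - C u) ⧸ 𝔫) :=
    IsScalarTower.of_algebraMap_eq fun r => rfl
  set z : AdjoinRoot (X ^ m - C u) ⧸ 𝔫 := Ideal.Quotient.mk 𝔫 (AdjoinRoot.root _) with hzdef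
  have hz : z ^ m = algebraMap F (AdjoinRoot (X ^ m - C u) ⧸ 𝔫) (1 + algebraMap R F w * t) := by
    rw [← hu]
    have h := AdjoinRoot.eval₂_root (X ^ m - C u : F[X])
    rw [eval₂_sub, eval₂_pow, eval₂_X, eval₂_C, sub_eq_zero] at h
    rw [hzdef, ← _root_.map_pow, h]
    rfl
  have hgen : ∀ b : AdjoinRoot (X ^ m - C u) ⧸ 𝔫,
      b ∈ Algebra.adjoin F ({z} : Set (AdjoinRoot (X ^ m - C u) ⧸ 𝔫)) := by
    intro b
    obtain ⟨a, rfl⟩ := Ideal.Quotient.mk_surjective b
    have ha : a ∈ Algebra.adjoin F ({AdjoinRoot.root (X ^ m - C u)} : Set (AdjoinRoot _)) := by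
      rw [AdjoinRoot.adjoinRoot_eq_top]
      exact Algebra.mem_top
    have := Algebra.adjoin_image F (Ideal.Quotient.mkₐ F 𝔫)
      ({AdjoinRoot.root (X ^ m - C u)} : Set (AdjoinRoot _))
    rw [Set.image_singleton] at this
    rw [hzdef]
    change Ideal.Quotient.mkₐ F 𝔫 a ∈ Algebra.adjoin F {Ideal.Quotient.mkₐ F 𝔫 (AdjoinRoot.root _)}
    rw [this]
    exact ⟨a, ha, rfl⟩
  exact kummer_isIntegral_mem_range E w hw V hRV hwV hVgen hdisc m hm t ht z hz hgen y hy

end HConst

end Fermat.Agent.A2.H552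

end
-- ===== PACK-END A2/H552/HConst.lean

-- ===== PACK-BEGIN A2/H609/Generator.lean
section





/-!
# Node purity, part 5: a simultaneous local generator of the root ideal

`R` noetherian local integrally closed domain, `u ≠ 0`, `π ∈ 𝔪`, `V(u, π) = {𝔪}`.
If `m ∣ ord_𝔓 (u)` at every prime `𝔓 ∋ u`, `𝔓 ∌ π` (hypothesis `H1`), then there are `t r : R` with
`t ^ m = u * r` and `π ^ k ∈ (u, r)`.  Mathlib only.
-/

set_option autoImplicit false

namespace Fermat.Agent.A2.H609

open Ideal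

variable {R : Type*} [CommRing R] [IsDomain R] [IsIntegrallyClosed R]

/-- `S_𝔓 = {f | f ^ m ∈ (u) * 𝔓}`: the elements of the root ideal that do not generate it
at `𝔓`. -/
def nonGenIdeal (u : R) (m : ℕ) (hm : m ≠ 0) (𝔓 : Ideal R) [𝔓.IsPrime] : Ideal R where
  carrier := {f | f ^ m ∈ Ideal.span {u} * 𝔓}
  add_mem' := by
    intro f g hf hg
    show (f + g) ^ m ∈ Ideal.span {u} * 𝔓
    have hf' : f ^ m ∈ Ideal.span {u} * 𝔓 := hf
    have hg' : g ^ m ∈ Ideal.span {u} * 𝔓 := hg
    obtain ⟨x, hx, hfx⟩ := Ideal.mem_span_singleton_mul.mp hf'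
    obtain ⟨y, hy, hgy⟩ := Ideal.mem_span_singleton_mul.mp hg'
    by_cases hu0 : u = 0
    · subst hu0
      have h0 : f ^ m = 0 := by rw [← hfx, zero_mul]
      have h1 : g ^ m = 0 := by rw [← hgy, zero_mul]
      have hf0 : f = 0 := pow_eq_zero_iff hm |>.mp h0
      have hg0 : g = 0 := pow_eq_zero_iff hm |>.mp h1
      rw [hf0, hg0, add_zero, zero_pow hm]
      exact Ideal.zero_mem _
    rw [add_pow]
    refine Ideal.sum_mem _ fun i hi => ?_
    have hi' : i ≤ m := Nat.lt_succ_iff.mp (Finset.mem_range.mp hi)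
    refine Ideal.mul_mem_right _ _ ?_
    -- `f^i g^(m-i) = u z` with `z ∈ 𝔓`
    obtain ⟨z, hz⟩ : u ∣ f ^ i * g ^ (m - i) :=
      dvd_pow_mul_pow hm (Dvd.intro x hfx) (Dvd.intro y hgy) hi'
    have hzm : z ^ m = x ^ i * y ^ (m - i) := by
      have h1 : (u * z) ^ m = u ^ m * (x ^ i * y ^ (m - i)) := by
        rw [← hz]
        have : (f ^ i * g ^ (m - i)) ^ m = (f ^ m) ^ i * (g ^ m) ^ (m - i) := by ring
        rw [this, ← hfx, ← hgy, mul_pow, mul_pow]
        have hum : u ^ m = u ^ i * u ^ (m - i) := by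
          rw [← pow_add, Nat.add_sub_cancel' hi']
        rw [hum]; ring
      rw [mul_pow] at h1
      exact mul_left_cancel₀ (pow_ne_zero m hu0) h1
    have hzP : z ∈ 𝔓 := by
      apply Ideal.IsPrime.mem_of_pow_mem (inferInstance : 𝔓.IsPrime) m
      rw [hzm]
      by_cases hi0 : i = 0
      · subst hi0
        rw [pow_zero, one_mul, Nat.sub_zero]
        exact Ideal.pow_mem_of_mem _ hy m (Nat.pos_of_ne_zero hm)
      · exact Ideal.mul_mem_right _ _ (Ideal.pow_mem_of_mem _ hx i (Nat.pos_of_ne_zero hi0))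
    rw [hz]
    exact Ideal.mul_mem_mul (Ideal.mem_span_singleton_self u) hzP
  zero_mem' := by
    show (0 : R) ^ m ∈ Ideal.span {u} * 𝔓
    rw [zero_pow hm]
    exact Ideal.zero_mem _
  smul_mem' := by
    intro c f hf
    show (c • f) ^ m ∈ Ideal.span {u} * 𝔓
    rw [_root_.smul_eq_mul, mul_pow]
    exact Ideal.mul_mem_left _ _ hf

theorem mem_nonGenIdeal {u : R} {m : ℕ} {hm : m ≠ 0} {𝔓 : Ideal R} [𝔓.IsPrime] {f : R} :
    f ∈ nonGenIdeal u m hm 𝔓 ↔ f ^ m ∈ Ideal.span {u} * 𝔓 := Iff.rfl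

/-- If `f ^ m = u * r` then `f ∈ S_𝔓 ↔ r ∈ 𝔓`. -/
theorem mem_nonGenIdeal_iff_of_eq {u : R} (hu0 : u ≠ 0) {m : ℕ} {hm : m ≠ 0} {𝔓 : Ideal R}
    [𝔓.IsPrime] {f r : R} (hf : f ^ m = u * r) : f ∈ nonGenIdeal u m hm 𝔓 ↔ r ∈ 𝔓 := by
  rw [mem_nonGenIdeal, Ideal.mem_span_singleton_mul]
  constructor
  · rintro ⟨z, hz, hzf⟩
    rw [hf] at hzf
    rwa [← mul_left_cancel₀ hu0 hzf]
  · intro hr
    exact ⟨r, hr, hf.symm⟩

variable [IsNoetherianRing R] [IsLocalRing R]

omit [IsIntegrallyClosed R] in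
/-- Dimension argument: in a local ring in which `𝔪` is the only prime containing `u` and `π`,
there is no chain `u ∈ 𝔓 < 𝔔` of primes with `π ∉ 𝔔`. -/
theorem not_lt_of_mem_of_not_mem {u π : R} (hu0 : u ≠ 0)
    (hπ : π ∈ IsLocalRing.maximalIdeal R)
    (huπ : ∀ 𝔮 : Ideal R, 𝔮.IsPrime → u ∈ 𝔮 → π ∈ 𝔮 → 𝔮 = IsLocalRing.maximalIdeal R)
    {𝔓 𝔔 : Ideal R} [h𝔓 : 𝔓.IsPrime] [h𝔔 : 𝔔.IsPrime] (hu : u ∈ 𝔓) (hπ𝔔 : π ∉ 𝔔) (hlt : 𝔓 < 𝔔) :
    False := by
  classical
  have hbot : (⊥ : Ideal R) < 𝔓 := by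
    rw [bot_lt_iff_ne_bot]
    intro h
    rw [h, Ideal.mem_bot] at hu
    exact hu0 hu
  have h𝔔𝔪 : 𝔔 < IsLocalRing.maximalIdeal R := by
    refine lt_of_le_of_ne (IsLocalRing.le_maximalIdeal h𝔔.ne_top) ?_
    intro h
    rw [h] at hπ𝔔
    exact hπ𝔔 hπ
  have hmin : IsLocalRing.maximalIdeal R ∈ (Ideal.span (({u, π} : Finset R) : Set R)).minimalPrimes := by
    refine ⟨⟨inferInstance, ?_⟩, ?_⟩
    · rw [Ideal.span_le]
      intro x hx
      simp only [Finset.coe_insert, Finset.coe_singleton, Set.mem_insert_iff,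
        Set.mem_singleton_iff] at hx
      rcases hx with rfl | rfl
      · exact (IsLocalRing.le_maximalIdeal h𝔓.ne_top) hu
      · exact hπ
    · rintro 𝔮 ⟨h𝔮, h𝔮le⟩ _
      have h1 : u ∈ 𝔮 := h𝔮le (Ideal.subset_span (by simp))
      have h2 : π ∈ 𝔮 := h𝔮le (Ideal.subset_span (by simp))
      exact (huπ 𝔮 h𝔮 h1 h2).ge
  have hle : (IsLocalRing.maximalIdeal R).height ≤ (({u, π} : Finset R)).card :=
    Ideal.height_le_card_of_mem_minimalPrimes_span_finset hmin
  have hcard : ((({u, π} : Finset R)).card : ℕ∞) ≤ 2 := by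
    exact_mod_cast Finset.card_le_two
  have h1 : (⊥ : Ideal R).height + 1 ≤ 𝔓.height :=
    Ideal.height_add_one_le_of_lt_of_isPrime hbot
  have h2 : 𝔓.height + 1 ≤ 𝔔.height := Ideal.height_add_one_le_of_lt_of_isPrime hlt
  have h3 : 𝔔.height + 1 ≤ (IsLocalRing.maximalIdeal R).height :=
    Ideal.height_add_one_le_of_lt_of_isPrime h𝔔𝔪
  have h4 : (3 : ℕ∞) ≤ (IsLocalRing.maximalIdeal R).height := by
    calc (3 : ℕ∞) = 0 + 1 + 1 + 1 := by norm_num
      _ ≤ (⊥ : Ideal R).height + 1 + 1 + 1 := by gcongr; exact zero_le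
      _ ≤ 𝔓.height + 1 + 1 := by gcongr
      _ ≤ 𝔔.height + 1 := by gcongr
      _ ≤ _ := h3
  have h5 : (3 : ℕ∞) ≤ 2 := h4.trans (hle.trans hcard)
  exact absurd h5 (by norm_num)

/-- Existence of a simultaneous local generator. -/
theorem exists_generator {u π : R} {m : ℕ} (hm : m ≠ 0) (hu0 : u ≠ 0)
    (hπ : π ∈ IsLocalRing.maximalIdeal R)
    (huπ : ∀ 𝔮 : Ideal R, 𝔮.IsPrime → u ∈ 𝔮 → π ∈ 𝔮 → 𝔮 = IsLocalRing.maximalIdeal R)
    (H1 : ∀ 𝔓 : Ideal R, 𝔓.IsPrime → u ∈ 𝔓 → π ∉ 𝔓 → ∃ f r : R, r ∉ 𝔓 ∧ f ^ m = u * r) :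
    ∃ t r : R, ∃ k : ℕ, t ^ m = u * r ∧ π ^ k ∈ Ideal.span {u, r} := by
  classical
  have hfinite : (Ideal.span {u}).minimalPrimes.Finite :=
    Ideal.finite_minimalPrimes_of_isNoetherianRing R _
  set s : Finset (Ideal R) := hfinite.toFinset.filter (fun 𝔓 => π ∉ 𝔓) with hs
  have hs_mem : ∀ 𝔓, 𝔓 ∈ s ↔ 𝔓 ∈ (Ideal.span {u}).minimalPrimes ∧ π ∉ 𝔓 := by
    intro 𝔓
    rw [hs, Finset.mem_filter, Set.Finite.mem_toFinset]
  have hs_prime : ∀ 𝔓 ∈ s, 𝔓.IsPrime := fun 𝔓 h𝔓 => ((hs_mem 𝔓).mp h𝔓).1.1.1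
  have hs_u : ∀ 𝔓 ∈ s, u ∈ 𝔓 := fun 𝔓 h𝔓 =>
    ((hs_mem 𝔓).mp h𝔓).1.1.2 (Ideal.mem_span_singleton_self u)
  -- local generators
  have hex : ∀ 𝔓 : Ideal R, ∃ f r : R, 𝔓 ∈ s → (r ∉ 𝔓 ∧ f ^ m = u * r) := by
    intro 𝔓
    by_cases h𝔓 : 𝔓 ∈ s
    · obtain ⟨f, r, hr, hf⟩ := H1 𝔓 (hs_prime 𝔓 h𝔓) (hs_u 𝔓 h𝔓) ((hs_mem 𝔓).mp h𝔓).2
      exact ⟨f, r, fun _ => ⟨hr, hf⟩⟩
    · exact ⟨0, 0, fun h => absurd h h𝔓⟩
  choose f r hfr using hex
  -- separating elements
  have hexe : ∀ 𝔓 : Ideal R, ∃ e : R, 𝔓 ∈ s → (e ∉ 𝔓 ∧ ∀ 𝔔 ∈ s, 𝔔 ≠ 𝔓 → e ∈ 𝔔) := by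
    intro 𝔓
    by_cases h𝔓 : 𝔓 ∈ s
    · have := hs_prime 𝔓 h𝔓
      have hnle : ¬ (∏ 𝔔 ∈ s.erase 𝔓, 𝔔) ≤ 𝔓 := by
        intro hle
        obtain ⟨𝔔, h𝔔, h𝔔le⟩ := (Ideal.IsPrime.prod_le (hs_prime 𝔓 h𝔓)).mp hle
        have h𝔔s : 𝔔 ∈ s := Finset.mem_of_mem_erase h𝔔
        have h𝔔ne : 𝔔 ≠ 𝔓 := Finset.ne_of_mem_erase h𝔔
        have hmin𝔓 := ((hs_mem 𝔓).mp h𝔓).1
        have hmin𝔔 := ((hs_mem 𝔔).mp h𝔔s).1
        exact h𝔔ne (le_antisymm h𝔔le (hmin𝔓.2 hmin𝔔.1 h𝔔le))
      obtain ⟨e, he, he'⟩ := SetLike.not_le_iff_exists.mp hnle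
      refine ⟨e, fun _ => ⟨he', fun 𝔔 h𝔔 hne => ?_⟩⟩
      have : (∏ 𝔔' ∈ s.erase 𝔓, 𝔔') ≤ 𝔔 :=
        Ideal.prod_le_inf.trans (Finset.inf_le (Finset.mem_erase.mpr ⟨hne, h𝔔⟩))
      exact this he
    · exact ⟨0, fun h => absurd h h𝔓⟩
  choose e he using hexe
  set t : R := ∑ 𝔓 ∈ s, e 𝔓 * f 𝔓 with ht
  -- `t ∈ I_1`
  have hterm : ∀ 𝔓 ∈ s, e 𝔓 * f 𝔓 ∈ rootIdeal u m hm 1 := by
    intro 𝔓 h𝔓
    refine Ideal.mul_mem_left _ _ ?_
    rw [mem_rootIdeal, pow_one, (hfr 𝔓 h𝔓).2]
    exact Dvd.intro _ rfl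
  have htI : t ∈ rootIdeal u m hm 1 := Ideal.sum_mem _ hterm
  obtain ⟨r₀, hr₀⟩ : u ∣ t ^ m := by
    have := htI
    rwa [mem_rootIdeal, pow_one] at this
  -- `r₀ ∉ 𝔓` for `𝔓 ∈ s`
  have hr₀s : ∀ 𝔓 ∈ s, r₀ ∉ 𝔓 := by
    intro 𝔓 h𝔓 hr𝔓
    have := hs_prime 𝔓 h𝔓
    have h1 : t ∈ nonGenIdeal u m hm 𝔓 := (mem_nonGenIdeal_iff_of_eq hu0 hr₀).mpr hr𝔓
    have h2 : ∀ 𝔔 ∈ s.erase 𝔓, e 𝔔 * f 𝔔 ∈ nonGenIdeal u m hm 𝔓 := by
      intro 𝔔 h𝔔
      have h𝔔s : 𝔔 ∈ s := Finset.mem_of_mem_erase h𝔔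
      have h𝔔ne : 𝔔 ≠ 𝔓 := Finset.ne_of_mem_erase h𝔔
      have hmem : e 𝔔 ∈ 𝔓 := (he 𝔔 h𝔔s).2 𝔓 h𝔓 (Ne.symm h𝔔ne)
      have hpow : (e 𝔔 * f 𝔔) ^ m = u * (e 𝔔 ^ m * r 𝔔) := by
        rw [mul_pow, (hfr 𝔔 h𝔔s).2]; ring
      exact (mem_nonGenIdeal_iff_of_eq hu0 hpow).mpr
        (Ideal.mul_mem_right _ _ (Ideal.pow_mem_of_mem _ hmem m (Nat.pos_of_ne_zero hm)))
    have h3 : e 𝔓 * f 𝔓 ∈ nonGenIdeal u m hm 𝔓 := by
      have hsum : t = e 𝔓 * f 𝔓 + ∑ 𝔔 ∈ s.erase 𝔓, e 𝔔 * f 𝔔 := by
        rw [ht, ← Finset.add_sum_erase s _ h𝔓]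
      have : e 𝔓 * f 𝔓 = t - ∑ 𝔔 ∈ s.erase 𝔓, e 𝔔 * f 𝔔 := by rw [hsum]; ring
      rw [this]
      exact Ideal.sub_mem _ h1 (Ideal.sum_mem _ h2)
    have hpow : (e 𝔓 * f 𝔓) ^ m = u * (e 𝔓 ^ m * r 𝔓) := by
      rw [mul_pow, (hfr 𝔓 h𝔓).2]; ring
    have h4 : e 𝔓 ^ m * r 𝔓 ∈ 𝔓 := (mem_nonGenIdeal_iff_of_eq hu0 hpow).mp h3
    rcases Ideal.IsPrime.mem_or_mem (hs_prime 𝔓 h𝔓) h4 with h | h
    · exact (he 𝔓 h𝔓).1 (Ideal.IsPrime.mem_of_pow_mem (hs_prime 𝔓 h𝔓) m h)
    · exact (hfr 𝔓 h𝔓).1 h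
  -- `π ∈ √(u, r₀)`
  have hrad : π ∈ (Ideal.span {u, r₀}).radical := by
    rw [Ideal.radical_eq_sInf, Ideal.mem_sInf]
    rintro 𝔔 ⟨h𝔔le, h𝔔⟩
    by_contra hπ𝔔
    have hu𝔔 : u ∈ 𝔔 := h𝔔le (Ideal.subset_span (by simp))
    have hr𝔔 : r₀ ∈ 𝔔 := h𝔔le (Ideal.subset_span (by simp))
    have hle : Ideal.span {u} ≤ 𝔔 := by
      rw [Ideal.span_le, Set.singleton_subset_iff]
      exact hu𝔔
    obtain ⟨𝔓, h𝔓min, h𝔓le⟩ := Ideal.exists_minimalPrimes_le hle
    have hπ𝔓 : π ∉ 𝔓 := fun h => hπ𝔔 (h𝔓le h)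
    have h𝔓s : 𝔓 ∈ s := (hs_mem 𝔓).mpr ⟨h𝔓min, hπ𝔓⟩
    have := hs_prime 𝔓 h𝔓s
    have hne : 𝔓 ≠ 𝔔 := by
      intro h
      rw [← h] at hr𝔔
      exact hr₀s 𝔓 h𝔓s hr𝔔
    exact not_lt_of_mem_of_not_mem hu0 hπ huπ (hs_u 𝔓 h𝔓s) hπ𝔔 (lt_of_le_of_ne h𝔓le hne)
  obtain ⟨k, hk⟩ := hrad
  exact ⟨t, r₀, k, hr₀, hk⟩

end Fermat.Agent.A2.H609

end
-- ===== PACK-END A2/H609/Generator.lean

-- ===== PACK-BEGIN A2/H609/Purity.lean
section



/-!
# Node purity, part 7: the abstract purity criterion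

`R` a noetherian local integrally closed domain, `π ∈ 𝔪`, `u` regular modulo `π`, `(u, π)`
`𝔪`-primary, (H1) `m ∣ ord_𝔓 u` at the horizontal primes.  If an ideal `J' ∋ π` contains every
`f` with `f ^ m = u r`, `r ∈ 𝔪`, and `ℓ(R/(u, π)) < m ℓ(R/J')`, then `u = ε f ^ m`.
Mathlib only.
-/

set_option autoImplicit false

namespace Fermat.Agent.A2.H609

open Ideal

variable {R : Type*} [CommRing R] [IsDomain R] [IsIntegrallyClosed R] [IsNoetherianRing R]
  [IsLocalRing R]

/-- The abstract purity criterion (length count). -/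
theorem exists_unit_mul_pow_of_relLen {u π : R} {m : ℕ} (hm : m ≠ 0) (hu0 : u ≠ 0)
    (hπ0 : π ≠ 0) (hπ : π ∈ IsLocalRing.maximalIdeal R)
    (hreg : ∀ x : R, π ∣ u * x → π ∣ x)
    (huπ : ∀ 𝔮 : Ideal R, 𝔮.IsPrime → u ∈ 𝔮 → π ∈ 𝔮 → 𝔮 = IsLocalRing.maximalIdeal R)
    (H1 : ∀ 𝔓 : Ideal R, 𝔓.IsPrime → u ∈ 𝔓 → π ∉ 𝔓 → ∃ f r : R, r ∉ 𝔓 ∧ f ^ m = u * r)
    (J' : Ideal R) (hπJ : π ∈ J')
    (hJ' : ∀ f r : R, f ^ m = u * r → r ∈ IsLocalRing.maximalIdeal R → f ∈ J')
    (B : ℕ) (hB : (B : ℕ∞) ≤ relLen J' (⊤ : Ideal R))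
    (hlt : relLen (Ideal.span {u, π}) (⊤ : Ideal R) < (m : ℕ∞) * B) :
    ∃ (f : R) (ε : Rˣ), u = ε * f ^ m := by
  by_contra hcon
  have hall : ∀ f r : R, f ^ m = u * r → r ∈ IsLocalRing.maximalIdeal R := by
    intro f r hfr
    by_contra hr
    have hr' : IsUnit r := by
      by_contra h
      exact hr ((IsLocalRing.mem_maximalIdeal r).mpr h)
    obtain ⟨ε, rfl⟩ := hr'
    apply hcon
    refine ⟨f, ε⁻¹, ?_⟩
    rw [hfr, _root_.mul_comm u, ← _root_.mul_assoc, Units.inv_mul, one_mul]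
  have hI : rootIdeal u m hm 1 ⊔ Ideal.span {π} ≤ J' := by
    refine sup_le ?_ ?_
    · intro f hf
      rw [mem_rootIdeal, pow_one] at hf
      obtain ⟨r, hr⟩ := hf
      exact hJ' f r hr (hall f r hr)
    · rw [Ideal.span_singleton_le_iff_mem]
      exact hπJ
  have h1 : (B : ℕ∞) ≤ relLen (rootIdeal u m hm 1 ⊔ Ideal.span {π}) (⊤ : Ideal R) :=
    hB.trans (relLen_mono_left hI le_top)
  obtain ⟨t, r, k, ht, hk⟩ := exists_generator hm hu0 hπ huπ H1
  have hfin : relLen (Ideal.span {u, π}) (⊤ : Ideal R) ≠ ⊤ := by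
    intro h
    rw [h] at hlt
    exact not_top_lt hlt
  have h2 := relLen_span_pair_eq_nsmul (hm := hm) hu0 hπ0 hreg ht hk hfin
  rw [h2, nsmul_eq_mul] at hlt
  exact absurd (mul_le_mul_right h1 (m : ℕ∞)) (not_le.mpr hlt)

end Fermat.Agent.A2.H609

end
-- ===== PACK-END A2/H609/Purity.lean

-- ===== PACK-BEGIN S18/H754/KummerTransfer.lean
section


/-!
# S18 / Route K / étale Kummer cover: transfer between `B` and its localisation `R = B_𝔪`
-/

set_option autoImplicit false

noncomputable section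

namespace Fermat.Agent.S18.H754

open Polynomial IsLocalRing

section Transfer

variable {B : Type*} [CommRing B] [IsDomain B]
  (𝔪 : Ideal B) [h𝔪 : 𝔪.IsPrime]
  (R : Type*) [CommRing R] [Algebra B R] [IsLocalization.AtPrime R 𝔪]

include h𝔪 in
lemma algebraMap_loc_injective : Function.Injective (algebraMap B R) :=
  IsLocalization.injective R 𝔪.primeCompl_le_nonZeroDivisors

lemma disjoint_primeCompl_span {ϖ : B} (hϖ𝔪 : ϖ ∈ 𝔪) :
    Disjoint (𝔪.primeCompl : Set B) (Ideal.span {ϖ} : Ideal B) := by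
  rw [Set.disjoint_left]
  intro x hx hx'
  apply hx
  have h : Ideal.span {ϖ} ≤ 𝔪 := (Ideal.span_singleton_le_iff_mem _).2 hϖ𝔪
  exact h hx'

lemma span_map_singleton (ϖ : B) :
    Ideal.span {algebraMap B R ϖ} = Ideal.map (algebraMap B R) (Ideal.span {ϖ}) := by
  rw [Ideal.map_span, Set.image_singleton]

lemma prime_algebraMap_loc {ϖ : B} (hϖ : Prime ϖ) (hϖ𝔪 : ϖ ∈ 𝔪) :
    Prime (algebraMap B R ϖ) := by
  have h0 : algebraMap B R ϖ ≠ 0 := by
    intro h
    exact hϖ.ne_zero (algebraMap_loc_injective 𝔪 R (by rw [h, map_zero]))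
  rw [← Ideal.span_singleton_prime h0, span_map_singleton]
  exact IsLocalization.isPrime_of_isPrime_disjoint 𝔪.primeCompl R _
    ((Ideal.span_singleton_prime hϖ.ne_zero).2 hϖ) (disjoint_primeCompl_span 𝔪 hϖ𝔪)

lemma not_dvd_algebraMap_loc {ϖ : B} (hϖ : Prime ϖ) (hϖ𝔪 : ϖ ∈ 𝔪) {x : B}
    (hx : x ∉ Ideal.span {ϖ}) : algebraMap B R x ∉ Ideal.span {algebraMap B R ϖ} := by
  intro h
  apply hx
  rw [span_map_singleton] at h
  have := IsLocalization.comap_map_of_isPrime_disjoint 𝔪.primeCompl R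
    ((Ideal.span_singleton_prime hϖ.ne_zero).2 hϖ) (disjoint_primeCompl_span 𝔪 hϖ𝔪)
  rw [← this]
  exact h

lemma maximalIdeal_loc_eq_span_pair [IsLocalRing R] {ϖ t : B} (hϖ𝔪 : ϖ ∈ 𝔪) (ht𝔪 : t ∈ 𝔪)
    (h : ∀ a ∈ 𝔪, ∃ s : B, s ∉ 𝔪 ∧ s * a ∈ Ideal.span {ϖ, t}) :
    maximalIdeal R = Ideal.span {algebraMap B R ϖ, algebraMap B R t} := by
  rw [← IsLocalization.AtPrime.map_eq_maximalIdeal 𝔪 R]
  have hspan : Ideal.span {algebraMap B R ϖ, algebraMap B R t} =
      Ideal.map (algebraMap B R) (Ideal.span {ϖ, t}) := by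
    rw [Ideal.map_span, Set.image_pair]
  apply le_antisymm
  · rw [Ideal.map_le_iff_le_comap]
    intro a ha
    obtain ⟨s, hs, hsa⟩ := h a ha
    rw [Ideal.mem_comap, hspan]
    have h1 : algebraMap B R (s * a) ∈ Ideal.map (algebraMap B R) (Ideal.span {ϖ, t}) :=
      Ideal.mem_map_of_mem _ hsa
    rw [map_mul] at h1
    have hu : IsUnit (algebraMap B R s) := IsLocalization.map_units R (⟨s, hs⟩ : 𝔪.primeCompl)
    exact (Ideal.unit_mul_mem_iff_mem _ hu).1 h1
  · rw [Ideal.span_le]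
    intro x hx
    rcases hx with rfl | hx
    · exact Ideal.mem_map_of_mem _ hϖ𝔪
    · rw [Set.mem_singleton_iff] at hx
      subst hx
      exact Ideal.mem_map_of_mem _ ht𝔪

section Field

variable {F : Type*} [Field F] [Algebra B F] [Algebra R F] [IsScalarTower B R F]

lemma oneModPi_loc {ϖ : B} (hϖ : Prime ϖ) (hϖ𝔪 : ϖ ∈ 𝔪) {u : F} (h : OneModPi ϖ u) :
    OneModPi (algebraMap B R ϖ) u := by
  obtain ⟨a, s, hs, has, hu⟩ := h
  refine ⟨algebraMap B R a, algebraMap B R s, not_dvd_algebraMap_loc 𝔪 R hϖ hϖ𝔪 hs, ?_, ?_⟩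
  · rw [← map_sub, span_map_singleton]
    exact Ideal.mem_map_of_mem _ has
  · rw [← IsScalarTower.algebraMap_apply, ← IsScalarTower.algebraMap_apply]
    exact hu

include 𝔪 in
lemma locallyPow_of_divisibleDivisor [IsDomain R] [IsNoetherianRing R] {p : ℕ} {u : F}
    (h : DivisibleDivisor B p u) (π : R) (hπ : Prime π) : LocallyPow R p u π := by
  haveI hP : (Ideal.span {π}).IsPrime := (Ideal.span_singleton_prime hπ.ne_zero).2 hπ
  have hht : (Ideal.span {π} : Ideal R).height = 1 := by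
    apply le_antisymm
    · refine Ideal.height_le_one_of_isPrincipal_of_mem_minimalPrimes (Ideal.span {π}) _ ?_
      rw [Ideal.minimalPrimes_eq_subsingleton_self]
      exact Set.mem_singleton _
    · rw [Order.one_le_iff_pos, pos_iff_ne_zero]
      intro h0
      rw [Ideal.height_eq_zero_iff, IsDomain.minimalPrimes_eq_singleton_bot] at h0
      rw [Set.mem_singleton_iff, Ideal.span_singleton_eq_bot] at h0
      exact hπ.ne_zero h0
  have hht' : ((Ideal.span {π} : Ideal R).under B).height = 1 := by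
    rw [IsLocalization.height_comap 𝔪.primeCompl, hht]
  obtain ⟨t, a, s, ha, hs, hu⟩ := h ((Ideal.span {π} : Ideal R).under B) inferInstance hht'
  refine ⟨t, algebraMap B R a, algebraMap B R s, ?_, ?_, ?_⟩
  · intro hd
    apply ha
    rw [Ideal.under_def, Ideal.mem_comap, Ideal.mem_span_singleton]
    exact hd
  · intro hd
    apply hs
    rw [Ideal.under_def, Ideal.mem_comap, Ideal.mem_span_singleton]
    exact hd
  · rw [← IsScalarTower.algebraMap_apply, ← IsScalarTower.algebraMap_apply]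
    exact hu

end Field

section Int

variable {F' : Type*} [Field F'] [Algebra B F'] [Algebra R F'] [IsScalarTower B R F']

/-- an element integral over `R = B_𝔪` has a multiple by some `m ∉ 𝔪` integral over `B`. -/
lemma exists_notMem_isIntegral_mul {c : F'} (hc : IsIntegral R c) :
    ∃ m : B, m ∉ 𝔪 ∧ IsIntegral B (algebraMap B F' m * c) := by
  obtain ⟨⟨m, hm⟩, h⟩ := IsIntegral.exists_multiple_integral_of_isLocalization 𝔪.primeCompl c hc
  refine ⟨m, hm, ?_⟩
  rw [← Algebra.smul_def]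
  exact h

/-- `ϖ O'`-membership over `R = B_𝔪` gives `ϖ O'`-membership over `B` (same `O'`). -/
lemma inPiO_of_loc {ϖ : B} (hϖ : Prime ϖ) (hϖ𝔪 : ϖ ∈ 𝔪) {y : F'}
    (h : InPiO (algebraMap B R ϖ) y) : InPiO ϖ y := by
  obtain ⟨s', hs', c, hc, hsc⟩ := h
  obtain ⟨m, hm, hmc⟩ := exists_notMem_isIntegral_mul 𝔪 R hc
  obtain ⟨s₁, ⟨s₂, hs₂⟩, hs⟩ := IsLocalization.exists_mk'_eq 𝔪.primeCompl s'
  have hs12 : s' * algebraMap B R s₂ = algebraMap B R s₁ := by
    rw [← hs]
    exact IsLocalization.mk'_spec R s₁ ⟨s₂, hs₂⟩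
  have hπ' := prime_algebraMap_loc 𝔪 R hϖ hϖ𝔪
  have hs₁ : s₁ ∉ Ideal.span {ϖ} := by
    intro h1
    have h2 : algebraMap B R s₁ ∈ Ideal.span {algebraMap B R ϖ} := by
      rw [span_map_singleton]
      exact Ideal.mem_map_of_mem _ h1
    rw [← hs12, Ideal.mem_span_singleton] at h2
    rw [Ideal.mem_span_singleton] at hs'
    rcases hπ'.dvd_or_dvd h2 with h3 | h3
    · exact hs' h3
    · have hu : IsUnit (algebraMap B R s₂) :=
        IsLocalization.map_units R (⟨s₂, hs₂⟩ : 𝔪.primeCompl)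
      exact hπ'.not_unit (isUnit_of_dvd_unit h3 hu)
  have hm' : m ∉ Ideal.span {ϖ} := by
    intro h1
    apply hm
    have h : Ideal.span {ϖ} ≤ 𝔪 := (Ideal.span_singleton_le_iff_mem _).2 hϖ𝔪
    exact h h1
  refine ⟨s₁ * m, ?_, algebraMap B F' s₂ * (algebraMap B F' m * c),
    isIntegral_algebraMap.mul hmc, ?_⟩
  · intro h1
    rw [Ideal.mem_span_singleton] at h1 hs₁ hm'
    rcases hϖ.dvd_or_dvd h1 with h2 | h2
    · exact hs₁ h2
    · exact hm' h2
  · have e1 : algebraMap B F' s₁ = algebraMap R F' s' * algebraMap B F' s₂ := by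
      rw [IsScalarTower.algebraMap_apply B R F' s₁, ← hs12, map_mul,
        ← IsScalarTower.algebraMap_apply]
    have e2 : algebraMap R F' (algebraMap B R ϖ) = algebraMap B F' ϖ :=
      (IsScalarTower.algebraMap_apply B R F' ϖ).symm
    rw [e2] at hsc
    rw [map_mul, e1]
    calc algebraMap R F' s' * algebraMap B F' s₂ * algebraMap B F' m * y
        = algebraMap B F' s₂ * algebraMap B F' m * (algebraMap R F' s' * y) := by ring
      _ = algebraMap B F' s₂ * algebraMap B F' m * (algebraMap B F' ϖ * c) := by rw [hsc]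
      _ = algebraMap B F' ϖ * (algebraMap B F' s₂ * (algebraMap B F' m * c)) := by ring

/-- `ϖ O'`-membership over `B` gives `ϖ O'`-membership over `R = B_𝔪`. -/
lemma inPiO_to_loc {ϖ : B} (hϖ : Prime ϖ) (hϖ𝔪 : ϖ ∈ 𝔪) {y : F'}
    (h : InPiO ϖ y) : InPiO (algebraMap B R ϖ) y := by
  obtain ⟨s, hs, c, hc, hsc⟩ := h
  refine ⟨algebraMap B R s, not_dvd_algebraMap_loc 𝔪 R hϖ hϖ𝔪 hs, c, hc.tower_top, ?_⟩
  rw [← IsScalarTower.algebraMap_apply, ← IsScalarTower.algebraMap_apply]
  exact hsc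

end Int

end Transfer

end Fermat.Agent.S18.H754

end

end
-- ===== PACK-END S18/H754/KummerTransfer.lean

-- ===== PACK-BEGIN A2/Alg/H754/SmoothAbs.lean
section





/-!
# A2 / ALG / P-S (helper754): purity at a smooth point of the special fibre, abstract form

`B` a Noetherian integrally closed domain with fraction field `F`, `ϖ ≠ 0` with
`(ϖ) = p ⊓ p'` (two incomparable primes), `B / p` Dedekind, `n` a maximal ideal with `p ≤ n`,
`¬ p' ≤ n`.  If `u ∈ Fˣ` has divisor divisible by `m` at every height-one prime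
(`S18.H754.DivisibleDivisor`) and is a unit at `p`, then there is `d ∈ Fˣ` with `u d ^ m` a unit
at `n` and `d` a unit at `p` and at `p'`.

Proof: `B_n` is a Noetherian local domain, `ϖ` is prime in `B_n` and `𝔪 B_n = (ϖ, t)`, so `B_n`
is a UFD (`S18.H754.ufd_of_regular_pair`) and `u = ε s ^ (-m)` (`S18.H754.exists_unit_mul_pow`).
Then `s` is a unit at `p`, and `s = υ ϖ ^ j` at `p'`; correct by `g ^ (-j)`, `g := g₀ ^ 2 + ϖ`,
`g₀ ∈ p' ∖ n`.
-/

set_option autoImplicit false
set_option linter.style.haveILetI false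

noncomputable section

namespace Fermat.Agent.A2.Alg.H754

open IsLocalRing
open Fermat.Agent.S18.H754 (DivisibleDivisor LocallyPow)

variable {B F : Type*} [CommRing B] [IsDomain B] [Field F] [Algebra B F] [IsFractionRing B F]

section Components

omit [IsDomain B] in
/-- local generation of `p` by `ϖ` away from `p'`. -/
lemma exists_mul_eq_of_mem (ϖ : B) (p p' : Ideal B) (hinf : p ⊓ p' = Ideal.span {ϖ}) {g b : B}
    (hg : g ∈ p') (hb : b ∈ p) : ∃ c : B, g * b = ϖ * c := by
  have h : g * b ∈ p ⊓ p' := ⟨p.mul_mem_left g hb, p'.mul_mem_right b hg⟩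
  rw [hinf, Ideal.mem_span_singleton] at h
  exact h

omit [IsDomain B] in
lemma mem_minimalPrimes_of_inf (ϖ : B) (p p' : Ideal B) [hp : p.IsPrime]
    (hinf : p ⊓ p' = Ideal.span {ϖ}) (h21 : ¬ p' ≤ p) :
    p ∈ (Ideal.span {ϖ}).minimalPrimes := by
  refine ⟨⟨hp, ?_⟩, ?_⟩
  · rw [← hinf]
    exact inf_le_left
  · rintro q ⟨hq, hle⟩ hqp
    have h1 : p * p' ≤ q := le_trans Ideal.mul_le_inf (hinf ▸ hle)
    rcases (Ideal.IsPrime.mul_le hq).1 h1 with h | h
    · exact h
    · exact absurd (le_trans h hqp) h21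

lemma height_eq_one_of_inf [IsNoetherianRing B] (ϖ : B) (hϖ : ϖ ≠ 0) (p p' : Ideal B)
    [hp : p.IsPrime] (hinf : p ⊓ p' = Ideal.span {ϖ}) (h21 : ¬ p' ≤ p) : p.height = 1 := by
  apply le_antisymm
  · exact Ideal.height_le_one_of_isPrincipal_of_mem_minimalPrimes (Ideal.span {ϖ}) p
      (mem_minimalPrimes_of_inf ϖ p p' hinf h21)
  · rw [Order.one_le_iff_pos, pos_iff_ne_zero, Ne, Ideal.height_eq_zero_iff_eq_bot]
    intro h0
    have : ϖ ∈ p := by
      have : ϖ ∈ p ⊓ p' := hinf ▸ Ideal.mem_span_singleton_self ϖ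
      exact this.1
    rw [h0, Ideal.mem_bot] at this
    exact hϖ this

end Components

section Unif

variable [IsNoetherianRing B] [IsIntegrallyClosed B]

/-- At a height-one prime `𝔮` whose localisation has uniformiser `ϖ`, every nonzero element of
`F` is a unit at `𝔮` times an integer power of `ϖ`. -/
theorem exists_zpow_locU (𝔮 : Ideal B) [h𝔮 : 𝔮.IsPrime] (h : 𝔮.height = 1) (ϖ : B) (hϖ0 : ϖ ≠ 0)
    (hϖ : ϖ ∈ 𝔮) (hgen : ∀ a ∈ 𝔮, ∃ g : B, g ∉ 𝔮 ∧ ∃ c : B, g * a = ϖ * c) {f : F}
    (hf : f ≠ 0) :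
    ∃ (j : ℤ) (υ : F), LocU 𝔮 υ ∧ f = υ * (algebraMap B F ϖ) ^ j := by
  obtain ⟨W, hdvr, hW⟩ := Fermat.Agent.S18.H438.exists_dvr_of_height_one (F := F) 𝔮 h
  haveI := hdvr
  have h1𝔮 : (1 : B) ∉ 𝔮 := fun h1 => h𝔮.ne_top ((Ideal.eq_top_iff_one _).2 h1)
  have hinj : Function.Injective (algebraMap B F) := IsFractionRing.injective B F
  have hϖF : algebraMap B F ϖ ≠ 0 := fun h0 => hϖ0 (hinj (by rw [h0, map_zero]))
  have hϖW : algebraMap B F ϖ ∈ W := (hW _).2 ⟨ϖ, 1, h1𝔮, by rw [map_one, mul_one]⟩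
  -- units of `W`
  have hunit : ∀ x : W, IsUnit x ↔ LocU 𝔮 (x : F) := by
    intro x
    constructor
    · intro hx
      obtain ⟨y, hy⟩ := isUnit_iff_exists_inv.1 hx
      have hxy : (x : F) * (y : F) = 1 := by
        have := congrArg (Subtype.val) hy
        simpa using this
      have hx0 : (x : F) ≠ 0 := left_ne_zero_of_mul_eq_one hxy
      rw [locU_iff_of_valuationSubring 𝔮 W hW hx0]
      refine ⟨x.2, ?_⟩
      rw [inv_eq_of_mul_eq_one_right hxy]
      exact y.2
    · intro hx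
      have hx0 := hx.ne_zero
      obtain ⟨-, h2⟩ := (locU_iff_of_valuationSubring 𝔮 W hW hx0).1 hx
      exact isUnit_iff_exists_inv.2 ⟨⟨(x : F)⁻¹, h2⟩, Subtype.ext (mul_inv_cancel₀ hx0)⟩
  have hirr : Irreducible (⟨algebraMap B F ϖ, hϖW⟩ : W) := by
    rw [IsDiscreteValuationRing.irreducible_iff_uniformizer]
    ext x
    rw [IsLocalRing.mem_maximalIdeal, mem_nonunits_iff, Ideal.mem_span_singleton]
    constructor
    · intro hx
      obtain ⟨a, s, hs, has⟩ := (hW x).1 x.2
      have ha : a ∈ 𝔮 := by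
        by_contra ha
        exact hx ((hunit x).2 ⟨a, s, ha, hs, has⟩)
      obtain ⟨g, hg, c, hc⟩ := hgen a ha
      have hgs : g * s ∉ 𝔮 := fun hgs => (h𝔮.mem_or_mem hgs).elim hg hs
      have hgsF : algebraMap B F (g * s) ≠ 0 := LocU.algebraMap_ne_zero hgs
      have hy : algebraMap B F c * (algebraMap B F (g * s))⁻¹ ∈ W :=
        (hW _).2 ⟨c, g * s, hgs, by rw [mul_assoc, inv_mul_cancel₀ hgsF, mul_one]⟩
      refine ⟨⟨_, hy⟩, Subtype.ext ?_⟩
      change (x : F) = algebraMap B F ϖ * (algebraMap B F c * (algebraMap B F (g * s))⁻¹)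
      have e : (x : F) * algebraMap B F (g * s) = algebraMap B F ϖ * algebraMap B F c := by
        rw [map_mul, mul_comm (algebraMap B F g), ← mul_assoc, has, ← map_mul, ← map_mul,
          mul_comm a g, hc]
      rw [← mul_assoc, ← e, mul_assoc, mul_inv_cancel₀ hgsF, mul_one]
    · rintro ⟨y, rfl⟩ hu
      have hu' : IsUnit (⟨algebraMap B F ϖ, hϖW⟩ : W) := isUnit_of_mul_isUnit_left hu
      obtain ⟨a, b, ha, hb, hab⟩ := (hunit _).1 hu'
      apply ha
      have : a = ϖ * b := hinj (by rw [map_mul]; exact hab.symm)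
      rw [this]
      exact 𝔮.mul_mem_right b hϖ
  have key : ∀ x : W, x ≠ 0 →
      ∃ (j : ℕ) (υ : F), LocU 𝔮 υ ∧ (x : F) = υ * (algebraMap B F ϖ) ^ j := by
    intro x hx
    obtain ⟨j, υ, hxυ⟩ := IsDiscreteValuationRing.eq_unit_mul_pow_irreducible hx hirr
    refine ⟨j, ((υ : W) : F), (hunit _).1 υ.isUnit, ?_⟩
    rw [hxυ]
    rfl
  rcases W.mem_or_inv_mem f with hfW | hfW
  · obtain ⟨j, υ, hυ, e⟩ := key ⟨f, hfW⟩ (fun h0 => hf (congrArg Subtype.val h0))
    exact ⟨j, υ, hυ, by rw [zpow_natCast]; exact e⟩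
  · obtain ⟨j, υ, hυ, e⟩ := key ⟨f⁻¹, hfW⟩
      (fun h0 => inv_ne_zero hf (congrArg Subtype.val h0))
    refine ⟨-j, υ⁻¹, hυ.inv, ?_⟩
    have e' : f⁻¹ = υ * algebraMap B F ϖ ^ j := e
    rw [zpow_neg, zpow_natCast, ← mul_inv, ← e', inv_inv]

end Unif

section Main

variable [IsNoetherianRing B] [IsIntegrallyClosed B]

/-- **Purity at a smooth point, abstract form.** -/
theorem pure_smooth_abs (ϖ : B) (hϖ : ϖ ≠ 0) (p p' : Ideal B) [hp : p.IsPrime]
    [hp' : p'.IsPrime] (hinf : p ⊓ p' = Ideal.span {ϖ}) (h12 : ¬ p ≤ p') (h21 : ¬ p' ≤ p)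
    (hD : IsDedekindDomain (B ⧸ p))
    (n : Ideal B) (hn : n.IsMaximal) (hpn : p ≤ n) (hp'n : ¬ p' ≤ n)
    (m : ℕ) (hm : 0 < m) (u : F) (hu : u ≠ 0)
    (hdiv : DivisibleDivisor B m u) (hup : LocU p u) :
    ∃ d : F, d ≠ 0 ∧ LocU n (u * d ^ m) ∧ LocU p d ∧ LocU p' d := by
  classical
  haveI hnp : n.IsPrime := hn.isPrime
  have h1n : (1 : B) ∉ n := fun h1 => hnp.ne_top ((Ideal.eq_top_iff_one _).2 h1)
  have hinj : Function.Injective (algebraMap B F) := IsFractionRing.injective B F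
  obtain ⟨g₀, hg₀p', hg₀n⟩ := SetLike.not_le_iff_exists.1 hp'n
  obtain ⟨h₀, hh₀p, hh₀p'⟩ := SetLike.not_le_iff_exists.1 h12
  have hϖpp : ϖ ∈ p ⊓ p' := hinf ▸ Ideal.mem_span_singleton_self ϖ
  have hϖp : ϖ ∈ p := hϖpp.1
  have hϖp' : ϖ ∈ p' := hϖpp.2
  have hϖn : ϖ ∈ n := hpn hϖp
  have hϖF : algebraMap B F ϖ ≠ 0 := fun h0 => hϖ (hinj (by rw [h0, map_zero]))
  -- local generator of `n` modulo `p`
  obtain ⟨t, htn, hreg⟩ : ∃ t ∈ n, ∀ a ∈ n, ∃ s : B, s ∉ n ∧ s * a ∈ Ideal.span {ϖ, t} := by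
    haveI := hD
    have hsurj : Function.Surjective (Ideal.Quotient.mk p) := Ideal.Quotient.mk_surjective
    have hM : (n.map (Ideal.Quotient.mk p)).IsMaximal := by
      haveI := hn
      exact Ideal.IsMaximal.map_of_surjective_of_ker_le hsurj (by rw [Ideal.mk_ker]; exact hpn)
    obtain ⟨tb, htb, sb, hsb, hall⟩ :=
      Fermat.Agent.S18.B12.H84.exists_local_generator (n.map (Ideal.Quotient.mk p)) hM
    obtain ⟨t, rfl⟩ := hsurj tb
    obtain ⟨s, rfl⟩ := hsurj sb
    have hmem : ∀ b : B, Ideal.Quotient.mk p b ∈ n.map (Ideal.Quotient.mk p) ↔ b ∈ n := by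
      intro b
      rw [← Ideal.mem_comap, Ideal.comap_map_of_surjective _ hsurj, ← RingHom.ker_eq_comap_bot,
        Ideal.mk_ker, sup_eq_left.2 hpn]
    have hsn : s ∉ n := fun h => hsb ((hmem s).2 h)
    refine ⟨t, (hmem t).1 htb, fun a ha => ⟨g₀ * s, ?_, ?_⟩⟩
    · exact fun h => (hnp.mem_or_mem h).elim hg₀n hsn
    · have h1 := hall _ ((hmem a).2 ha)
      rw [Ideal.mem_span_singleton'] at h1
      obtain ⟨cb, hcb⟩ := h1
      obtain ⟨c, rfl⟩ := hsurj cb
      have hd : s * a - c * t ∈ p := by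
        rw [← Ideal.Quotient.eq, map_mul, map_mul]
        exact hcb.symm
      obtain ⟨e, he⟩ := exists_mul_eq_of_mem ϖ p p' hinf hg₀p' hd
      rw [Ideal.mem_span_pair]
      refine ⟨e, g₀ * c, ?_⟩
      linear_combination (-1 : B) * he
  -- the local ring `A = B_n ⊆ F`
  let A : Subalgebra B F :=
    Localization.subalgebra.ofField F n.primeCompl n.primeCompl_le_nonZeroDivisors
  haveI : IsLocalization.AtPrime A n := (inferInstance : IsLocalization n.primeCompl A)
  haveI : IsLocalRing A := IsLocalization.AtPrime.isLocalRing A n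
  haveI : IsNoetherianRing A := IsLocalization.isNoetherianRing n.primeCompl A inferInstance
  have hmapp : Ideal.span {algebraMap B A ϖ} = Ideal.map (algebraMap B A) p := by
    apply le_antisymm
    · rw [Ideal.span_singleton_le_iff_mem]
      exact Ideal.mem_map_of_mem _ hϖp
    · rw [Ideal.map_le_iff_le_comap]
      intro b hb
      obtain ⟨c, hc⟩ := exists_mul_eq_of_mem ϖ p p' hinf hg₀p' hb
      rw [Ideal.mem_comap]
      have hu : IsUnit (algebraMap B A g₀) :=
        IsLocalization.map_units A (⟨g₀, hg₀n⟩ : n.primeCompl)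
      have h2 : algebraMap B A g₀ * algebraMap B A b ∈ Ideal.span {algebraMap B A ϖ} := by
        rw [← map_mul, hc, map_mul]
        exact Ideal.mul_mem_right _ _ (Ideal.mem_span_singleton_self _)
      exact (Ideal.unit_mul_mem_iff_mem _ hu).1 h2
  have hprime : Prime (algebraMap B A ϖ) := by
    have h0 : algebraMap B A ϖ ≠ 0 := fun h =>
      hϖ (IsLocalization.injective A n.primeCompl_le_nonZeroDivisors (by rw [h, map_zero]))
    rw [← Ideal.span_singleton_prime h0, hmapp]
    refine IsLocalization.isPrime_of_isPrime_disjoint n.primeCompl A p hp ?_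
    rw [Set.disjoint_left]
    intro x hx hx'
    exact hx (hpn hx')
  have hmax : maximalIdeal A = Ideal.span {algebraMap B A ϖ, algebraMap B A t} :=
    Fermat.Agent.S18.H754.maximalIdeal_loc_eq_span_pair n A hϖn htn hreg
  haveI : UniqueFactorizationMonoid A :=
    Fermat.Agent.S18.H754.ufd_of_regular_pair _ _ hprime hmax
  obtain ⟨s, hs0, ε, hε⟩ := Fermat.Agent.S18.H754.exists_unit_mul_pow (R := A) m hm u hu
    (fun π hπ => Fermat.Agent.S18.H754.locallyPow_of_divisibleDivisor n A hdiv π hπ)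
  -- `u * s ^ m` is a unit at `n`
  have hUn : LocU n (u * s ^ m) := by
    have hne : u * s ^ m ≠ 0 := mul_ne_zero hu (pow_ne_zero _ hs0)
    refine locU_of_frac_of_inv_frac n hne ?_ ?_
    · rw [hε]
      exact (Fermat.Agent.S18.H438.mem_ofField_primeCompl_iff n _).1 (ε : A).2
    · have e : (u * s ^ m)⁻¹ = algebraMap A F ((ε⁻¹ : Aˣ) : A) := by
        rw [hε]
        apply inv_eq_of_mul_eq_one_left
        rw [← map_mul, Units.inv_mul, map_one]
      rw [e]
      exact (Fermat.Agent.S18.H438.mem_ofField_primeCompl_iff n _).1 ((ε⁻¹ : Aˣ) : A).2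
  -- `s` is a unit at `p`
  have hhtp : p.height = 1 := height_eq_one_of_inf ϖ hϖ p p' hinf h21
  have hhtp' : p'.height = 1 :=
    height_eq_one_of_inf ϖ hϖ p' p (by rw [inf_comm]; exact hinf) h12
  have hsp : LocU p s := by
    obtain ⟨W, -, hW⟩ := Fermat.Agent.S18.H438.exists_dvr_of_height_one (F := F) p hhtp
    refine locU_of_pow p W hW hm ?_
    have h1 : LocU p (s ^ m * u) := by
      rw [mul_comm]
      exact hUn.mono hpn
    exact h1.of_mul_left hup
  -- `s` at `p'`
  have hgen' : ∀ a ∈ p', ∃ g : B, g ∉ p' ∧ ∃ c : B, g * a = ϖ * c := by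
    intro a ha
    refine ⟨h₀, hh₀p', ?_⟩
    obtain ⟨c, hc⟩ := exists_mul_eq_of_mem ϖ p p' hinf ha hh₀p
    exact ⟨c, by rw [mul_comm, hc]⟩
  obtain ⟨j, υ, hυ, hsυ⟩ := exists_zpow_locU p' hhtp' ϖ hϖ hϖp' hgen' hs0
  -- the correcting element
  have hgn : g₀ ^ 2 + ϖ ∉ n := by
    intro h
    have h2 : g₀ ^ 2 ∈ n := by
      have := n.sub_mem h hϖn
      rwa [add_sub_cancel_right] at this
    exact hg₀n (hnp.mem_of_pow_mem 2 h2)
  have hgp' : LocU p' (algebraMap B F (g₀ ^ 2 + ϖ) * (algebraMap B F ϖ)⁻¹) := by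
    obtain ⟨c, hc⟩ := exists_mul_eq_of_mem ϖ p p' hinf hg₀p' hh₀p
    have hh2 : h₀ ^ 2 ∉ p' := fun h => hh₀p' (hp'.mem_of_pow_mem 2 h)
    refine ⟨ϖ * c ^ 2 + h₀ ^ 2, h₀ ^ 2, ?_, hh2, ?_⟩
    · intro h
      apply hh2
      have := p'.sub_mem h (p'.mul_mem_right (c ^ 2) hϖp')
      rwa [add_sub_cancel_left] at this
    · have key : (g₀ ^ 2 + ϖ) * h₀ ^ 2 = ϖ * (ϖ * c ^ 2 + h₀ ^ 2) := by
        linear_combination (g₀ * h₀ + ϖ * c) * hc
      rw [mul_right_comm, ← map_mul, key, map_mul, mul_right_comm, mul_inv_cancel₀ hϖF, one_mul]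
  have hGn : LocU n (algebraMap B F (g₀ ^ 2 + ϖ)) := LocU.of_notMem hgn h1n
  have hG0 : algebraMap B F (g₀ ^ 2 + ϖ) ≠ 0 := hGn.ne_zero
  refine ⟨s * (algebraMap B F (g₀ ^ 2 + ϖ)) ^ (-j), mul_ne_zero hs0 (zpow_ne_zero _ hG0), ?_, ?_,
    ?_⟩
  · have e : u * (s * (algebraMap B F (g₀ ^ 2 + ϖ)) ^ (-j)) ^ m =
        (u * s ^ m) * ((algebraMap B F (g₀ ^ 2 + ϖ)) ^ (-j)) ^ m := by
      rw [mul_pow, mul_assoc]
    rw [e]
    exact hUn.mul ((hGn.zpow (-j)).pow m)
  · exact hsp.mul ((hGn.mono hpn).zpow (-j))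
  · have e : s * (algebraMap B F (g₀ ^ 2 + ϖ)) ^ (-j) =
        υ * (algebraMap B F (g₀ ^ 2 + ϖ) * (algebraMap B F ϖ)⁻¹) ^ (-j) := by
      rw [hsυ, mul_zpow, inv_zpow', neg_neg]
      ring
    rw [e]
    exact hυ.mul (hgp'.zpow (-j))

end Main

end Fermat.Agent.A2.Alg.H754

end

end
-- ===== PACK-END A2/Alg/H754/SmoothAbs.lean

-- ===== PACK-BEGIN S28/H988/Tower.lean
section
/-
S28 / [L.UP] upper bound, helper988.
The tower step over ANY field `k`:  `E_{Mp} = E_M(j(q^{p^{a+1}}))` and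
`[E_{Mp} : E_M] ≤ p + 1` (`p ∤ M`), `≤ p` (`p ∣ M`), where `E_N = k(j(q^d) : d ∣ N)`.
Input: the modular relations `PhiRel k r (Φ r)` for the primes `r ∣ M p`.
-/




set_option autoImplicit false

noncomputable section

open Polynomial ModularCurve

namespace Fermat.Agent.S28.H988

variable (k : Type*) [Field k]

/-! ### The fields `E_N` -/

theorem jd_mem_full {N d : ℕ} (hN : N ≠ 0) (hd : d ∣ N) :
    jd k d ∈ modularFunctionFieldFullC k N := by
  have hd0 : d ≠ 0 := fun h => hN (by rw [h] at hd; exact Nat.eq_zero_of_zero_dvd hd)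
  have : NeZero d := ⟨hd0⟩
  rw [jd_eq k d]
  exact jqModCd_mem_full k N hd

theorem full_le_iff {N : ℕ} (hN : N ≠ 0) (F : IntermediateField k (LaurentSeries k)) :
    modularFunctionFieldFullC k N ≤ F ↔ ∀ d, d ∣ N → jd k d ∈ F := by
  constructor
  · intro h d hd
    exact h (jd_mem_full k hN hd)
  · intro h
    rw [modularFunctionFieldFullC, IntermediateField.adjoin_le_iff]
    rintro x ⟨d, hne, hdvd, rfl⟩
    have := h d hdvd
    rwa [jd_eq k d] at this

theorem full_mono {M N : ℕ} (hN : N ≠ 0) (h : M ∣ N) :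
    modularFunctionFieldFullC k M ≤ modularFunctionFieldFullC k N := by
  have hM : M ≠ 0 := fun h0 => hN (by rw [h0] at h; exact Nat.eq_zero_of_zero_dvd h)
  rw [full_le_iff k hM]
  intro d hd
  exact jd_mem_full k hN (hd.trans h)

/-! ### Generation -/

variable {k}

/-- **Generation.** If `F ⊇ E_M` contains `j(q^{p^b})` for all `p^b ∣ M p`, then `F ⊇ E_{Mp}`. -/
theorem jd_mem_of_dvd_mul (Φ : ℕ → Polynomial (Polynomial ℤ)) {M p : ℕ} (hM : M ≠ 0)
    (hp : p.Prime) (hΦ : ∀ r, r.Prime → r ∣ M * p → PhiRel k r (Φ r))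
    (F : IntermediateField k (LaurentSeries k)) (hF : ∀ d, d ∣ M → jd k d ∈ F)
    (hpow : ∀ b, p ^ b ∣ M * p → jd k (p ^ b) ∈ F) :
    ∀ d, d ∣ M * p → jd k d ∈ F := by
  intro d
  induction d using Nat.strong_induction_on with
  | _ d ih =>
    intro hd
    have hMp : M * p ≠ 0 := Nat.mul_ne_zero hM hp.ne_zero
    have hd0 : d ≠ 0 := fun h => hMp (by rw [h] at hd; exact Nat.eq_zero_of_zero_dvd hd)
    by_cases hdM : d ∣ M
    · exact hF d hdM
    have hpd : p ∣ d := by
      by_contra hnp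
      have hcop : Nat.Coprime d p := (Nat.Coprime.symm ((Nat.Prime.coprime_iff_not_dvd hp).mpr hnp))
      exact hdM (hcop.dvd_of_dvd_mul_right hd)
    by_cases hex : ∃ r, r.Prime ∧ r ∣ d ∧ r ≠ p
    · obtain ⟨r, hr, hrd, hrp⟩ := hex
      have hcop : Nat.Coprime p r := (Nat.coprime_primes hp hr).mpr (Ne.symm hrp)
      have hprd : p * r ∣ d := hcop.mul_dvd_of_dvd_of_dvd hpd hrd
      obtain ⟨e, he⟩ := hprd
      have hde : d = e * p * r := by rw [he]; ring
      have he0 : e ≠ 0 := by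
        rintro rfl
        apply hd0
        rw [hde]; simp
      have h1 : jd k (e * r) ∈ F := by
        apply hF
        have : e * r * p ∣ M * p := by
          rw [show e * r * p = d by rw [hde]; ring]; exact hd
        exact (Nat.mul_dvd_mul_iff_right hp.pos).mp this
      have h2 : jd k (e * p) ∈ F := by
        apply ih (e * p)
        · rw [hde]
          have : 1 < r := hr.one_lt
          have hpos : 0 < e * p := Nat.pos_of_ne_zero (Nat.mul_ne_zero he0 hp.ne_zero)
          nlinarith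
        · exact (Dvd.intro r hde.symm).trans hd
      rw [hde]
      exact jd_mem_of_mem (hΦ p hp (Dvd.intro_left M rfl)) (hΦ r hr (hrd.trans hd))
        hp.one_lt hr.one_lt (Ne.symm hrp) he0 F h1 h2
    · push Not at hex
      have hdpow : d = p ^ d.primeFactorsList.length :=
        Nat.eq_prime_pow_of_unique_prime_dvd hd0 (fun {r} hr hrd => hex r hr hrd)
      rw [hdpow]
      apply hpow
      rw [← hdpow]
      exact hd

/-! ### The top generator and its polynomial -/

/-- The exponent of the top `p`-power: `p ^ (topExp M p) ∣ M * p` exactly. -/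
def topExp (M p : ℕ) : ℕ := M.factorization p + 1

theorem pow_dvd_mul_iff {M p : ℕ} (hM : M ≠ 0) (hp : p.Prime) (b : ℕ) :
    p ^ b ∣ M * p ↔ b ≤ topExp M p := by
  have hMp : M * p ≠ 0 := Nat.mul_ne_zero hM hp.ne_zero
  rw [hp.pow_dvd_iff_le_factorization hMp, Nat.factorization_mul hM hp.ne_zero]
  simp only [Finsupp.coe_add, Pi.add_apply, hp.factorization_self, topExp]

theorem pow_dvd_iff' {M p : ℕ} (hM : M ≠ 0) (hp : p.Prime) (b : ℕ) :
    p ^ b ∣ M ↔ b + 1 ≤ topExp M p := by
  rw [hp.pow_dvd_iff_le_factorization hM, topExp]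
  omega

variable (k) in
/-- The top generator `j(q^{p^{a+1}})`, `a = v_p(M)`. -/
def topGen (M p : ℕ) : LaurentSeries k := jd k (p ^ topExp M p)

theorem topGen_mem {M p : ℕ} (hM : M ≠ 0) (hp : p.Prime) :
    topGen k M p ∈ modularFunctionFieldFullC k (M * p) :=
  jd_mem_full k (Nat.mul_ne_zero hM hp.ne_zero) ((pow_dvd_mul_iff hM hp _).mpr le_rfl)

/-- **Generation, packaged**: `E_{Mp} = E_M(topGen)`. -/
theorem full_mul_eq (Φ : ℕ → Polynomial (Polynomial ℤ)) {M p : ℕ} (hM : M ≠ 0)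
    (hp : p.Prime) (hΦ : ∀ r, r.Prime → r ∣ M * p → PhiRel k r (Φ r)) :
    modularFunctionFieldFullC k (M * p) =
      (IntermediateField.adjoin (modularFunctionFieldFullC k M) {topGen k M p}).restrictScalars k := by
  have hMp : M * p ≠ 0 := Nat.mul_ne_zero hM hp.ne_zero
  set L' := IntermediateField.adjoin (modularFunctionFieldFullC k M) {topGen k M p} with hL'
  have hsub : ∀ x ∈ modularFunctionFieldFullC k M, x ∈ L'.restrictScalars k := by
    intro x hx
    rw [IntermediateField.mem_restrictScalars]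
    exact L'.algebraMap_mem ⟨x, hx⟩
  have htop : topGen k M p ∈ L'.restrictScalars k := by
    rw [IntermediateField.mem_restrictScalars]
    exact IntermediateField.mem_adjoin_simple_self _ _
  apply le_antisymm
  · rw [full_le_iff k hMp]
    refine jd_mem_of_dvd_mul Φ hM hp hΦ _ (fun d hd => hsub _ (jd_mem_full k hM hd)) ?_
    intro b hb
    rw [pow_dvd_mul_iff hM hp] at hb
    rcases Nat.lt_or_ge b (topExp M p) with hlt | hge
    · exact hsub _ (jd_mem_full k hM ((pow_dvd_iff' hM hp b).mpr hlt))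
    · have : b = topExp M p := le_antisymm hb hge
      rw [this]
      exact htop
  · intro x hx
    rw [IntermediateField.mem_restrictScalars] at hx
    have hle : L' ≤ IntermediateField.extendScalars
        (full_mono k hMp (Dvd.intro p rfl) :
          modularFunctionFieldFullC k M ≤ modularFunctionFieldFullC k (M * p)) := by
      rw [hL', IntermediateField.adjoin_le_iff]
      rintro y hy
      rw [Set.mem_singleton_iff] at hy
      rw [hy]
      exact (IntermediateField.mem_extendScalars _).mpr (topGen_mem hM hp)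
    exact (IntermediateField.mem_extendScalars _).mp (hle hx)

/-! ### The degree of the top generator -/

/-- `topGen` is a root of a monic polynomial over `E_M` of degree `p + 1`, and of degree `p`
if `p ∣ M`. -/
theorem exists_monic_root_topGen (Φ : Polynomial (Polynomial ℤ)) {M p : ℕ} (hM : M ≠ 0)
    (hp : p.Prime) (hΦ : PhiRel k p Φ) :
    ∃ Q : Polynomial (modularFunctionFieldFullC k M), Q.Monic ∧
      Q.natDegree = (if p ∣ M then p else p + 1) ∧ aeval (topGen k M p) Q = 0 := by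
  set E := modularFunctionFieldFullC k M with hE
  have hp0 : p ≠ 0 := hp.ne_zero
  by_cases hpM : p ∣ M
  · rw [if_pos hpM]
    -- `a ≥ 1`
    obtain ⟨a, ha⟩ : ∃ a, topExp M p = a + 2 := by
      have h1 : 1 + 1 ≤ topExp M p := (pow_dvd_iff' hM hp 1).mp (by rwa [pow_one])
      exact ⟨topExp M p - 2, by omega⟩
    have hmemy : jd k (p ^ (a + 1)) ∈ E :=
      jd_mem_full k hM ((pow_dvd_iff' hM hp (a + 1)).mpr (by omega))
    have hmemc : jd k (p ^ a) ∈ E :=
      jd_mem_full k hM ((pow_dvd_iff' hM hp a).mpr (by omega))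
    set y : E := ⟨jd k (p ^ (a + 1)), hmemy⟩ with hy
    set c : E := ⟨jd k (p ^ a), hmemc⟩ with hc
    set A : Polynomial E := PhiAt Φ y with hA
    have hAmap : A.map (algebraMap E (LaurentSeries k)) = PhiAt Φ (jd k (p ^ (a + 1))) := by
      rw [hA, PhiAt_map]; rfl
    have hpa0 : p ^ a ≠ 0 := pow_ne_zero _ hp0
    have hpa1 : p ^ (a + 1) ≠ 0 := pow_ne_zero _ hp0
    have hrootc : A.IsRoot c := by
      have h1 : (A.map (algebraMap E (LaurentSeries k))).IsRoot
          (algebraMap E (LaurentSeries k) c) := by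
        rw [hAmap]
        have := hΦ.root2 hp0 hpa0
        rwa [← pow_succ] at this
      exact IsRoot.of_map h1 (algebraMap E (LaurentSeries k)).injective
    have hAeq : (X - C c) * (A /ₘ (X - C c)) = A := mul_divByMonic_eq_iff_isRoot.mpr hrootc
    have hAmonic : A.Monic := PhiAt_monic hΦ.monic _
    have hAdeg : A.natDegree = p + 1 := by rw [hA, PhiAt_natDegree hΦ.monic, hΦ.natDegree_eq]
    refine ⟨A /ₘ (X - C c), ?_, ?_, ?_⟩
    · have hd : (X - C c : Polynomial E).degree ≤ A.degree := by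
        rw [degree_X_sub_C, degree_eq_natDegree hAmonic.ne_zero, hAdeg]
        exact_mod_cast Nat.le_add_left 1 p
      rw [Monic, leadingCoeff_divByMonic_of_monic (monic_X_sub_C _) hd]
      exact hAmonic
    · rw [natDegree_divByMonic _ (monic_X_sub_C _), natDegree_X_sub_C, hAdeg]
      rfl
    · have hrootA : aeval (topGen k M p) A = 0 := by
        rw [aeval_def, eval₂_eq_eval_map, hAmap]
        have := hΦ.root1 hp0 hpa1
        rw [← pow_succ] at this
        unfold topGen
        rw [ha]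
        exact this
      rw [← hAeq, map_mul, map_sub, aeval_X, aeval_C] at hrootA
      rcases mul_eq_zero.mp hrootA with h | h
      · exfalso
        have h' : topGen k M p = jd k (p ^ a) := sub_eq_zero.mp h
        unfold topGen at h'
        rw [ha] at h'
        refine jd_ne k (pow_ne_zero _ hp0) hpa0 ?_ h'
        intro hcon
        have := Nat.pow_right_injective hp.two_le hcon
        omega
      · exact h
  · rw [if_neg hpM]
    have htop : topExp M p = 1 := by
      unfold topExp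
      rw [Nat.factorization_eq_zero_of_not_dvd hpM]
    have hmemy : jd k 1 ∈ E := jd_mem_full k hM (one_dvd M)
    set y : E := ⟨jd k 1, hmemy⟩ with hy
    set A : Polynomial E := PhiAt Φ y with hA
    have hAmap : A.map (algebraMap E (LaurentSeries k)) = PhiAt Φ (jd k 1) := by
      rw [hA, PhiAt_map]; rfl
    refine ⟨A, PhiAt_monic hΦ.monic _, ?_, ?_⟩
    · rw [hA, PhiAt_natDegree hΦ.monic, hΦ.natDegree_eq]
    · rw [aeval_def, eval₂_eq_eval_map, hAmap]
      have := hΦ.root1 hp0 one_ne_zero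
      rw [one_mul] at this
      unfold topGen
      rw [htop, pow_one]
      exact this

/-- **Tower step.** `0 < [E_{Mp} : E_M] ≤ p + 1`, and `≤ p` if `p ∣ M`. -/
theorem relfinrank_step (Φ : ℕ → Polynomial (Polynomial ℤ)) {M p : ℕ} (hM : M ≠ 0)
    (hp : p.Prime) (hΦ : ∀ r, r.Prime → r ∣ M * p → PhiRel k r (Φ r)) :
    0 < IntermediateField.relfinrank (modularFunctionFieldFullC k M)
        (modularFunctionFieldFullC k (M * p)) ∧
    IntermediateField.relfinrank (modularFunctionFieldFullC k M)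
        (modularFunctionFieldFullC k (M * p)) ≤ (if p ∣ M then p else p + 1) := by
  have hMp : M * p ≠ 0 := Nat.mul_ne_zero hM hp.ne_zero
  have hle : modularFunctionFieldFullC k M ≤ modularFunctionFieldFullC k (M * p) :=
    full_mono k hMp (Dvd.intro p rfl)
  obtain ⟨Q, hQm, hQd, hQr⟩ :=
    exists_monic_root_topGen (Φ p) hM hp (hΦ p hp (Dvd.intro_left M rfl))
  have hint : IsIntegral (modularFunctionFieldFullC k M) (topGen k M p) := ⟨Q, hQm, by
    rwa [← aeval_def]⟩
  have heq : IntermediateField.extendScalars hle =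
      IntermediateField.adjoin (modularFunctionFieldFullC k M) {topGen k M p} := by
    ext x
    rw [IntermediateField.mem_extendScalars, full_mul_eq Φ hM hp hΦ,
      IntermediateField.mem_restrictScalars]
  rw [IntermediateField.relfinrank_eq_finrank_of_le hle, heq,
    IntermediateField.adjoin.finrank hint]
  refine ⟨minpoly.natDegree_pos hint, ?_⟩
  rw [← hQd]
  exact natDegree_le_of_dvd (minpoly.dvd _ _ hQr) hQm.ne_zero

end Fermat.Agent.S28.H988

end

end
-- ===== PACK-END S28/H988/Tower.lean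

-- ===== PACK-BEGIN S28/H988/Upper.lean
section
/-
S28 / [L.UP] upper bound, helper988.
`[E_N : k(j)] ≤ ψ(N)` over ANY field `k`, from the modular relations at the primes dividing `N`;
adapter from the captain's `ModPolyData`.
-/






set_option autoImplicit false

noncomputable section

open Polynomial ModularCurve

namespace Fermat.Agent.S28.H988

variable (k : Type*) [Field k]

/-- Adapter: the captain's `ModPolyData p` gives the relations over every field. -/
theorem phiRel_of_modPolyData (p : ℕ) [NeZero p] (D : Fermat.Agent.S28.ModPolyData p) :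
    PhiRel k p D.Φ := by
  set c : LaurentSeries ℤ →+* LaurentSeries k := coeffMap (Int.castRingHom k) with hc
  have hcj : c (jqModC ℤ) = jqModC k := coeffMap_jqModC _
  have hcjp : c (qExpand ℤ p (jqModC ℤ)) = jd k p := by
    rw [hc, coeffMap_qExpand, coeffMap_jqModC, jd_eq]
  have hcomp : ∀ y : LaurentSeries ℤ,
      c.comp (Fermat.Agent.S28.evalAt y) = eval₂RingHom (Int.castRingHom (LaurentSeries k)) (c y) := by
    intro y
    apply Polynomial.ringHom_ext
    · intro a
      simp [Fermat.Agent.S28.evalAt]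
    · simp [Fermat.Agent.S28.evalAt]
  refine ⟨D.monic, D.natDegree_eq, ?_, ?_⟩
  · have := congrArg c D.eval_jp
    rw [map_zero, Polynomial.hom_eval₂, hcomp, hcj, hcjp, eval₂_eq_eval_map] at this
    exact this
  · have := congrArg c D.eval_j
    rw [map_zero, Polynomial.hom_eval₂, hcomp, hcj, hcjp, eval₂_eq_eval_map] at this
    exact this

theorem full_one : modularFunctionFieldFullC k 1 = IntermediateField.adjoin k {jqModC k} := by
  apply le_antisymm
  · rw [full_le_iff k one_ne_zero]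
    intro d hd
    rw [Nat.dvd_one.mp hd, jd_one]
    exact IntermediateField.mem_adjoin_simple_self k _
  · rw [IntermediateField.adjoin_le_iff]
    rintro x hx
    rw [Set.mem_singleton_iff] at hx
    rw [hx]
    exact jqModC_mem_full k 1

variable {k}

/-- **Upper bound.** `0 < [E_N : E_1] ≤ ψ(N)`. -/
theorem relfinrank_full_le (Φ : ℕ → Polynomial (Polynomial ℤ)) (N : ℕ) (hN : N ≠ 0)
    (hΦ : ∀ r, r.Prime → r ∣ N → PhiRel k r (Φ r)) :
    0 < IntermediateField.relfinrank (modularFunctionFieldFullC k 1)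
        (modularFunctionFieldFullC k N) ∧
    IntermediateField.relfinrank (modularFunctionFieldFullC k 1)
        (modularFunctionFieldFullC k N) ≤ dedekindPsi N := by
  induction N using induction_on_primes with
  | zero => exact absurd rfl hN
  | one =>
    rw [IntermediateField.relfinrank_self, dedekindPsi_one]
    exact ⟨Nat.one_pos, le_rfl⟩
  | prime_mul p M hp ih =>
    have hM : M ≠ 0 := by rintro rfl; simp at hN
    rw [mul_comm p M] at hΦ ⊢
    have ih' := ih hM (fun r hr hrM => hΦ r hr (hrM.trans (Dvd.intro p rfl)))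
    have hstep := relfinrank_step Φ hM hp hΦ
    have hMp : M * p ≠ 0 := Nat.mul_ne_zero hM hp.ne_zero
    have h1 : modularFunctionFieldFullC k 1 ≤ modularFunctionFieldFullC k M :=
      full_mono k hM (one_dvd M)
    have h2 : modularFunctionFieldFullC k M ≤ modularFunctionFieldFullC k (M * p) :=
      full_mono k hMp (Dvd.intro p rfl)
    rw [← IntermediateField.relfinrank_mul_relfinrank h1 h2]
    refine ⟨Nat.mul_pos ih'.1 hstep.1, ?_⟩
    by_cases hpM : p ∣ M
    · rw [if_pos hpM] at hstep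
      rw [Fermat.Agent.S20.H872.dedekindPsi_mul_prime_of_dvd hM hp hpM, mul_comm]
      exact Nat.mul_le_mul hstep.2 ih'.2
    · rw [if_neg hpM] at hstep
      rw [Fermat.Agent.S20.H872.dedekindPsi_mul_prime_of_not_dvd hM hp hpM, mul_comm]
      exact Nat.mul_le_mul hstep.2 ih'.2

/-- **Upper bound**, existential form of the hypothesis. -/
theorem relfinrank_full_le' (N : ℕ) (hN : N ≠ 0)
    (hΦ : ∀ r : ℕ, r.Prime → r ∣ N → ∃ Φ : Polynomial (Polynomial ℤ), PhiRel k r Φ) :
    0 < IntermediateField.relfinrank (modularFunctionFieldFullC k 1)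
        (modularFunctionFieldFullC k N) ∧
    IntermediateField.relfinrank (modularFunctionFieldFullC k 1)
        (modularFunctionFieldFullC k N) ≤ dedekindPsi N := by
  classical
  set Φ : ℕ → Polynomial (Polynomial ℤ) := fun r =>
    if h : r.Prime ∧ r ∣ N then (hΦ r h.1 h.2).choose else 0 with hΦdef
  refine relfinrank_full_le Φ N hN ?_
  intro r hr hrN
  have hΦr : Φ r = (hΦ r hr hrN).choose := by
    rw [hΦdef]
    simp only
    rw [dif_pos ⟨hr, hrN⟩]
  rw [hΦr]
  exact (hΦ r hr hrN).choose_spec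

/-- **Upper bound from the captain's interface**, over any field `k`:
`0 < [k(j(q^d) : d ∣ N) : k(j)] ≤ ψ(N)`. -/
theorem relfinrank_jField_full_le (N : ℕ) (hN : N ≠ 0)
    (hΦ : ∀ (r : ℕ) (hr : r.Prime), r ∣ N →
      Nonempty (@Fermat.Agent.S28.ModPolyData r ⟨hr.ne_zero⟩)) :
    0 < IntermediateField.relfinrank (Fermat.Agent.S28.jField k)
        (modularFunctionFieldFullC k N) ∧
    IntermediateField.relfinrank (Fermat.Agent.S28.jField k)
        (modularFunctionFieldFullC k N) ≤ dedekindPsi N := by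
  have hj : Fermat.Agent.S28.jField k = modularFunctionFieldFullC k 1 := (full_one k).symm
  rw [hj]
  refine relfinrank_full_le' N hN ?_
  intro r hr hrN
  have : NeZero r := ⟨hr.ne_zero⟩
  obtain ⟨D⟩ := hΦ r hr hrN
  exact ⟨D.Φ, phiRel_of_modPolyData k r D⟩

/-- The same over `ℚ`, for the Prelude's `modularFunctionFieldFull`. -/
theorem relfinrank_jField_modularFunctionFieldFull_le (N : ℕ) (hN : N ≠ 0)
    (hΦ : ∀ (r : ℕ) (hr : r.Prime), r ∣ N →
      Nonempty (@Fermat.Agent.S28.ModPolyData r ⟨hr.ne_zero⟩)) :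
    0 < IntermediateField.relfinrank (Fermat.Agent.S28.jField ℚ) (modularFunctionFieldFull N) ∧
    IntermediateField.relfinrank (Fermat.Agent.S28.jField ℚ) (modularFunctionFieldFull N)
      ≤ dedekindPsi N :=
  relfinrank_jField_full_le (k := ℚ) N hN hΦ

end Fermat.Agent.S28.H988

end

end
-- ===== PACK-END S28/H988/Upper.lean

-- ===== PACK-BEGIN S28/H326/Hecke.lean
section
/-
S28 / helper326: the analytic input `HeckeInput p` from the Prelude Hecke operator `T_p`
on level-one modular forms and the level-one structure theorem (helper505).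
-/






set_option autoImplicit false
set_option linter.unusedSectionVars false

noncomputable section

namespace Fermat.Agent.S28.H326

open ModularCurve HahnSeries UpperHalfPlane ModularForm MatrixGroups

/-! ### `T_p` on level one forms -/

theorem gamma0_one_coe :
    ((CongruenceSubgroup.Gamma0 1 : Subgroup SL(2, ℤ)) : Subgroup (GL (Fin 2) ℝ)) = 𝒮ℒ := by
  have h : CongruenceSubgroup.Gamma0 1 = ⊤ := by
    ext g
    simp [CongruenceSubgroup.Gamma0_mem, Subsingleton.elim (_ : ZMod 1) 0]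
  rw [h, MonoidHom.range_eq_map]

/-- `T_p f` as a level one modular form. -/
def heckeForm (k : ℤ) {p : ℕ} (hp : p.Prime) (f : ModularForm 𝒮ℒ k) : ModularForm 𝒮ℒ k where
  toFun := ModularForm.heckeT k p ⇑f
  slash_action_eq' := fun γ hγ =>
    ModularForm.heckeT_slash_eq_self_of_mem_Gamma0 (N := 1) k hp
      (by rw [Nat.dvd_one]; exact hp.one_lt.ne')
      (fun γ' hγ' => SlashInvariantFormClass.slash_action_eq f γ' (gamma0_one_coe ▸ hγ'))
      γ (gamma0_one_coe.symm ▸ hγ)
  holo' := ModularForm.mdifferentiable_heckeT (ModularFormClass.holo f) k p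
  bdd_at_cusps' := fun hc => ModularFormClass.isBoundedAt_heckeT f p hc

theorem coe_heckeForm (k : ℤ) {p : ℕ} (hp : p.Prime) (f : ModularForm 𝒮ℒ k) :
    ⇑(heckeForm k hp f) = ModularForm.heckeT k p ⇑f := rfl

theorem qExpansion_heckeForm_coeff (k : ℤ) {p : ℕ} (hp : p.Prime) (f : ModularForm 𝒮ℒ k)
    (n : ℕ) :
    (qExpansion 1 (heckeForm k hp f)).coeff n =
      (qExpansion 1 f).coeff (n * p) +
        if p ∣ n then (p : ℂ) ^ (k - 1) * (qExpansion 1 f).coeff (n / p) else 0 := by
  have := ModularFormClass.qCoeff_heckeT f one_mem_strictPeriods_SL hp.ne_zero n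
  simpa [ModularFormClass.qCoeff, coe_heckeForm, ModularForm.coeffHeckeT] using this

/-! ### The forms `E₄^{3a} Δ^r` -/

/-- `Δ` as a modular form -/
def deltaForm : ModularForm 𝒮ℒ 12 := CuspForm.toModularFormₗ CuspForm.discriminant

theorem qExpansion_deltaForm : qExpansion 1 deltaForm = H505.deltaC :=
  H505.qExpansion_discriminant_eq_deltaC

/-- `E₄^{3a} Δ^r` -/
def monoE4Delta (a r : ℕ) (k : ℤ) (hk : ((3 * a : ℕ) : ℤ) * 4 + ((r : ℕ) : ℤ) * 12 = k) :
    ModularForm 𝒮ℒ k :=
  ModularForm.mcast hk ((E₄.pow (3 * a)).mul (deltaForm.pow r))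

theorem toC_EZ : toC EZ = H505.e4C ^ 3 := by
  rw [EZ, map_pow, H505.e4C]

theorem toC_DZ : toC DZ = H505.deltaC := by
  rw [DZ, map_mul, PowerSeries.map_X, H505.deltaC, dedekindEtaUnit, map_pow]

theorem qExpansion_monoE4Delta (a r : ℕ) (k : ℤ)
    (hk : ((3 * a : ℕ) : ℤ) * 4 + ((r : ℕ) : ℤ) * 12 = k) :
    qExpansion 1 (monoE4Delta a r k hk) = toC (EZ ^ a * DZ ^ r) := by
  rw [monoE4Delta, ModularForm.qExpansion_mcast,
    ModularForm.qExpansion_mul one_pos one_mem_strictPeriods_SL,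
    ModularForm.qExpansion_pow one_pos one_mem_strictPeriods_SL,
    ModularForm.qExpansion_pow one_pos one_mem_strictPeriods_SL,
    H505.qExpansion_E₄_eq_e4C, qExpansion_deltaForm, map_mul, map_pow, map_pow, toC_EZ, toC_DZ,
    ← pow_mul]

/-! ### Integrality by leading terms, over `ℂ` -/

theorem C_mul_coeff (c : ℂ) (x : LaurentSeries ℂ) (n : ℤ) :
    (HahnSeries.C c * x).coeff n = c * x.coeff n := by
  rw [HahnSeries.C_mul_eq_smul, HahnSeries.coeff_smul, smul_eq_mul]

theorem aeval_jC_coeff (Q : Polynomial ℂ) {n : ℕ} (hn : Q.natDegree ≤ n) :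
    (Polynomial.aeval (jqModC ℂ) Q).coeff (-(n : ℤ)) = Q.coeff n := by
  rw [H505.aeval_laurent_eq_eval₂, Polynomial.eval₂_eq_sum_range' _ (Nat.lt_succ_of_le hn),
    HahnSeries.coeff_sum, Finset.sum_range_succ]
  rw [Finset.sum_eq_zero, zero_add, C_mul_coeff, coeff_jqModC_pow_self, mul_one]
  intro i hi
  rw [C_mul_coeff, coeff_jqModC_pow_of_lt ℂ (by have := Finset.mem_range.mp hi; omega),
    mul_zero]

theorem exists_int_poly_of_kap (Q : Polynomial ℂ) (x : LaurentSeries ℤ)
    (h : Polynomial.aeval (jqModC ℂ) Q = kap x) :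
    ∃ Q' : Polynomial ℤ, Polynomial.aeval (jqModC ℤ) Q' = x := by
  suffices H : ∀ d : ℕ, ∀ (Q : Polynomial ℂ) (x : LaurentSeries ℤ), Q.natDegree < d →
      Polynomial.aeval (jqModC ℂ) Q = kap x →
        ∃ Q' : Polynomial ℤ, Polynomial.aeval (jqModC ℤ) Q' = x from
    H (Q.natDegree + 1) Q x (Nat.lt_succ_self _) h
  intro d
  induction d with
  | zero => intro Q x hQ; omega
  | succ d ih =>
    intro Q x hQ hx
    have hle : Q.natDegree ≤ d := Nat.lt_succ_iff.mp hQ
    have hlead := aeval_jC_coeff Q hle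
    rw [hx, coeffMap_coeff] at hlead
    set m : ℤ := x.coeff (-(d : ℤ)) with hm
    set Q1 : Polynomial ℂ := Q - Polynomial.C (Q.coeff d) * Polynomial.X ^ d with hQ1
    have hx1 : Polynomial.aeval (jqModC ℂ) Q1 = kap (x - (m : LaurentSeries ℤ) * jqModC ℤ ^ d) := by
      rw [hQ1, map_sub, map_mul, Polynomial.aeval_C, map_pow, Polynomial.aeval_X, hx, map_sub,
        map_mul, map_pow, coeffMap_jqModC, ← hlead]
      congr 2
      rw [H505.algebraMap_laurent_eq_C, map_intCast]
      simp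
    by_cases h0 : Q1 = 0
    · refine ⟨Polynomial.C m * Polynomial.X ^ d, ?_⟩
      rw [h0, map_zero] at hx1
      have h1 : x - (m : LaurentSeries ℤ) * jqModC ℤ ^ d = 0 :=
        kap_injective (by rw [← hx1, map_zero])
      rw [map_mul, Polynomial.aeval_C, map_pow, Polynomial.aeval_X]
      rw [sub_eq_zero] at h1
      rw [h1]
      simp
    · have hdeg : Q1.natDegree < d := by
        have h1 : Q1.natDegree ≤ d := by
          refine (Polynomial.natDegree_sub_le _ _).trans (max_le hle ?_)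
          exact Polynomial.natDegree_C_mul_X_pow_le _ _
        rcases Nat.lt_or_ge Q1.natDegree d with h2 | h2
        · exact h2
        · have h3 : Q1.natDegree = d := le_antisymm h1 h2
          have h4 : Q1.coeff d = 0 := by simp [hQ1]
          have h5 : Q1.leadingCoeff = 0 := by rw [Polynomial.leadingCoeff, h3, h4]
          exact absurd (Polynomial.leadingCoeff_eq_zero.mp h5) h0
      obtain ⟨Q', hQ'⟩ := ih Q1 _ hdeg hx1
      refine ⟨Q' + Polynomial.C m * Polynomial.X ^ d, ?_⟩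
      rw [map_add, hQ', map_mul, Polynomial.aeval_C, map_pow, Polynomial.aeval_X]
      simp

/-! ### The Hecke input -/

theorem kap_heckeL_eq_gen (p : ℕ) [NeZero p] (hp : p.Prime) (φ : PowerSeries ℤ) (k' : ℕ) (k : ℤ)
    (hk' : k = (k' : ℤ)) (F : ModularForm 𝒮ℒ k) (hF : qExpansion 1 F = toC φ) :
    kap (heckeL p k' φ) =
      (p : LaurentSeries ℂ) * ofPS (qExpansion 1 (heckeForm k hp F)) := by
  have hp0 : (p : ℂ) ≠ 0 := Nat.cast_ne_zero.mpr hp.ne_zero
  ext n
  rw [heckeL]
  simp only [map_add, map_mul, map_pow, map_natCast, coeffMap_qExpand, kap_ofPS, toC_UpZ]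
  rw [HahnSeries.coeff_add, ← Nat.cast_pow, natCast_mul_coeff, natCast_mul_coeff,
    natCast_mul_coeff]
  rcases lt_or_ge n 0 with hn | hn
  · rw [ofPS_coeff_neg _ hn, ofPS_coeff_neg _ hn, mul_zero, add_zero]
    have := cBase_coeff_neg p (toC φ) hn
    rw [cBase, RingHom.comp_apply] at this
    rw [this, mul_zero]
  · lift n to ℕ using hn
    rw [ofPS_coeff_nat, ofPS_coeff_nat, qExpansion_heckeForm_coeff, hF, coeff_Up]
    by_cases hdvd : p ∣ n
    · obtain ⟨m, rfl⟩ := hdvd
      rw [if_pos (dvd_mul_right p m)]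
      have h1 : ((p * m : ℕ) : ℤ) = (p : ℤ) * m := by push_cast; ring
      rw [h1, qExpand_coeff_mul, ofPS_coeff_nat, Nat.mul_div_cancel_left m hp.pos]
      have h2 : (p : ℂ) * (p : ℂ) ^ (k - 1) = ((p ^ k' : ℕ) : ℂ) := by
        rw [hk', ← zpow_one_add₀ hp0]
        push_cast
        rw [show (1 : ℤ) + ((k' : ℤ) - 1) = (k' : ℤ) by ring, zpow_natCast]
      rw [mul_add, ← mul_assoc, h2]
      ring
    · rw [if_neg hdvd, add_zero]
      have h1 : ¬ (p : ℤ) ∣ (n : ℤ) := by exact_mod_cast hdvd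
      rw [qExpand_coeff_of_not_dvd p _ h1, mul_zero, zero_add]

theorem kap_heckeL_eq (p : ℕ) [NeZero p] (hp : p.Prime) (a r : ℕ) (k : ℤ)
    (hk : ((3 * a : ℕ) : ℤ) * 4 + ((r : ℕ) : ℤ) * 12 = k) :
    kap (heckeL p (12 * (a + r)) (EZ ^ a * DZ ^ r)) =
      (p : LaurentSeries ℂ) *
        ofPS (qExpansion 1 (heckeForm k hp (monoE4Delta a r k hk))) :=
  kap_heckeL_eq_gen p hp _ _ k (by rw [← hk]; push_cast; ring) _ (qExpansion_monoE4Delta a r k hk)

/-- **The Hecke input holds.** -/
theorem heckeInput (p : ℕ) [NeZero p] (hp : p.Prime) : HeckeInput p := by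
  intro a r
  have hk : ((3 * a : ℕ) : ℤ) * 4 + ((r : ℕ) : ℤ) * 12 = (12 * ((a + r : ℕ) : ℤ)) := by
    push_cast; ring
  obtain ⟨P, -, -, hP⟩ := H505.levelOne_structure (a + r) _ rfl
    (heckeForm _ hp (monoE4Delta a r _ hk))
  have h1 := kap_heckeL_eq p hp a r _ hk
  rw [hP] at h1
  have hD : HahnSeries.ofPowerSeries ℤ ℂ H505.deltaC = kap deltaZ := by
    rw [deltaZ, kap_ofPS, toC_DZ]
  have h2 : Polynomial.aeval (jqModC ℂ) (Polynomial.C (p : ℂ) * P) =
      kap (heckeL p (12 * (a + r)) (EZ ^ a * DZ ^ r) * deltaInvZ ^ (a + r)) := by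
    have h3 : kap deltaZ * kap deltaInvZ = 1 := by
      rw [← map_mul, deltaZ_mul_deltaInvZ, map_one]
    have h4 : (p : LaurentSeries ℂ) = HahnSeries.C (p : ℂ) := by simp
    have h5 : kap (heckeL p (12 * (a + r)) (EZ ^ a * DZ ^ r) * deltaInvZ ^ (a + r)) =
        kap (heckeL p (12 * (a + r)) (EZ ^ a * DZ ^ r)) * kap deltaInvZ ^ (a + r) := by
      rw [map_mul, map_pow]
    have h6 : Polynomial.aeval (jqModC ℂ) (Polynomial.C (p : ℂ) * P) =
        HahnSeries.C (p : ℂ) * Polynomial.aeval (jqModC ℂ) P := by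
      rw [map_mul, Polynomial.aeval_C, H505.algebraMap_laurent_eq_C]
    rw [h5, h6, h1, hD, h4]
    calc HahnSeries.C (p : ℂ) * Polynomial.aeval (jqModC ℂ) P
        = HahnSeries.C (p : ℂ) * Polynomial.aeval (jqModC ℂ) P *
            (kap deltaZ * kap deltaInvZ) ^ (a + r) := by rw [h3, one_pow, mul_one]
      _ = _ := by rw [mul_pow]; ring
  obtain ⟨Q', hQ'⟩ := exists_int_poly_of_kap _ _ h2
  refine ⟨Q', ?_⟩
  rw [hQ', mul_assoc, ← mul_pow, mul_comm deltaInvZ, deltaZ_mul_deltaInvZ, one_pow, mul_one]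

end Fermat.Agent.S28.H326

end
end
-- ===== PACK-END S28/H326/Hecke.lean

-- ===== PACK-BEGIN S18/H576/Objects.lean
section


/-!
# S18 / MOD-ASM (helper576): basic facts about the concrete objects of `Mod/Defs.lean`
-/

set_option autoImplicit false

noncomputable section

namespace Fermat.Agent.S18.H576

open ModularCurve AlgebraicCurve HahnSeries Fermat.Agent.S18 Fermat.Agent.S18.Mod

variable {M : ℕ} {A : ValuationSubring Qb} {E : IntermediateField ℚ Qb}

/-- The inclusion of the constants. -/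
abbrev iota (M : ℕ) : Qb →+* Om M := algebraMap Qb (Om M)

theorem iota_injective (M : ℕ) : Function.Injective (iota M) :=
  (algebraMap Qb (Om M)).injective

theorem coe_iota (a : Qb) :
    ((iota M a : Om M) : LaurentSeries Qb) = algebraMap Qb (LaurentSeries Qb) a := rfl

theorem coe_iota_single (a : Qb) :
    ((iota M a : Om M) : LaurentSeries Qb) = HahnSeries.single 0 a := by
  rw [coe_iota, algebraMap_laurentSeries_eq_single]

theorem mem_Lc_iff {y : Om M} : y ∈ Lc M ↔ ∃ a : Qb, iota M a = y := by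
  unfold Lc
  exact RingHom.mem_fieldRange

theorem mem_Ec_iff {y : Om M} : y ∈ Ec M E ↔ ∃ a : Qb, a ∈ E ∧ iota M a = y := by
  unfold Ec
  rw [Subfield.mem_map]
  constructor
  · rintro ⟨a, ha, rfl⟩
    exact ⟨a, ha, rfl⟩
  · rintro ⟨a, ha, rfl⟩
    exact ⟨a, ha, rfl⟩

theorem mem_Rc_iff {y : Om M} : y ∈ Rc M A E ↔ ∃ a : Qb, a ∈ A ∧ a ∈ E ∧ iota M a = y := by
  unfold Rc
  rw [Subring.mem_map]
  constructor
  · rintro ⟨a, ha, rfl⟩
    rw [Subring.mem_inf] at ha
    exact ⟨a, ha.1, ha.2, rfl⟩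
  · rintro ⟨a, haA, haE, rfl⟩
    exact ⟨a, Subring.mem_inf.mpr ⟨haA, haE⟩, rfl⟩

theorem iota_mem_Lc (a : Qb) : iota M a ∈ Lc M := mem_Lc_iff.mpr ⟨a, rfl⟩

theorem iota_mem_Ec {a : Qb} (ha : a ∈ E) : iota M a ∈ Ec M E := mem_Ec_iff.mpr ⟨a, ha, rfl⟩

theorem iota_mem_Rc {a : Qb} (haA : a ∈ A) (haE : a ∈ E) : iota M a ∈ Rc M A E :=
  mem_Rc_iff.mpr ⟨a, haA, haE, rfl⟩

theorem iota_mem_Ec_iff {a : Qb} : iota M a ∈ Ec M E ↔ a ∈ E := by
  constructor
  · intro h
    obtain ⟨b, hb, hab⟩ := mem_Ec_iff.mp h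
    rwa [← iota_injective M hab]
  · exact iota_mem_Ec

theorem iota_mem_Rc_iff {a : Qb} : iota M a ∈ Rc M A E ↔ a ∈ A ∧ a ∈ E := by
  constructor
  · intro h
    obtain ⟨b, hbA, hbE, hab⟩ := mem_Rc_iff.mp h
    rw [← iota_injective M hab]
    exact ⟨hbA, hbE⟩
  · exact fun h => iota_mem_Rc h.1 h.2

theorem Rc_subset_Ec : (Rc M A E : Set (Om M)) ⊆ Ec M E := by
  intro y hy
  obtain ⟨a, -, haE, rfl⟩ := mem_Rc_iff.mp hy
  exact iota_mem_Ec haE

theorem Ec_le_Lc : Ec M E ≤ Lc M := by
  intro y hy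
  obtain ⟨a, -, rfl⟩ := mem_Ec_iff.mp hy
  exact iota_mem_Lc a

theorem Ec_le_Fc : Ec M E ≤ Fc M E := by
  intro y hy
  exact Subfield.subset_closure (Or.inl hy)

theorem Rc_total : ∀ e ∈ Ec M E, e ∈ Rc M A E ∨ e⁻¹ ∈ Rc M A E := by
  intro e he
  obtain ⟨a, haE, rfl⟩ := mem_Ec_iff.mp he
  rcases A.mem_or_inv_mem a with h | h
  · exact Or.inl (iota_mem_Rc h haE)
  · right
    rw [← map_inv₀]
    exact iota_mem_Rc h (inv_mem haE)

instance charZero_Om (M : ℕ) : CharZero (Om M) :=
  charZero_of_injective_algebraMap (iota_injective M)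

theorem isAlgebraic_Ec_of_mem_Lc : ∀ a ∈ Lc M, IsAlgebraic (Ec M E) a := by
  intro a ha
  obtain ⟨b, rfl⟩ := mem_Lc_iff.mp ha
  have hb : IsAlgebraic ℚ b := (AlgebraicClosure.isAlgebraic ℚ).isAlgebraic b
  have h1 : IsAlgebraic ℚ (iota M b) := hb.algebraMap
  exact h1.tower_top (Ec M E)

theorem isAlgClosed_Lc (M : ℕ) : IsAlgClosed (Lc M) := by
  have e : Qb ≃+* (Lc M) := RingEquiv.ofBijective (iota M).rangeRestrictField
    ⟨fun a b h => iota_injective M (congrArg Subtype.val h),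
      fun ⟨y, hy⟩ => by
        obtain ⟨a, rfl⟩ := mem_Lc_iff.mp hy
        exact ⟨a, rfl⟩⟩
  exact IsAlgClosed.of_ringEquiv Qb (Lc M) e

end Fermat.Agent.S18.H576

end
end
-- ===== PACK-END S18/H576/Objects.lean

-- ===== PACK-BEGIN S18/H576/Coeff.lean
section


/-!
# S18 / MOD-ASM (helper576): coefficients of `Fc`, `E_closed_in_F`, `compositum`
-/

set_option autoImplicit false

noncomputable section

namespace Fermat.Agent.S18.H576

open ModularCurve AlgebraicCurve HahnSeries Fermat.Agent.S18 Fermat.Agent.S18.Mod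

variable {M : ℕ} {A : ValuationSubring Qb} {E : IntermediateField ℚ Qb}

/-- The coercion `Ω → Q̄((q))` as a ring homomorphism. -/
abbrev valOm (M : ℕ) : Om M →+* LaurentSeries Qb := (modularFunctionFieldBar M).val.toRingHom

theorem valOm_apply (y : Om M) : valOm M y = (y : LaurentSeries Qb) := rfl

theorem valOm_injective (M : ℕ) : Function.Injective (valOm M) := Subtype.val_injective

/-- Laurent series over `Q̄` all of whose coefficients lie in `E`. -/
def coeffSub (E : IntermediateField ℚ Qb) : Subfield (LaurentSeries Qb) :=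
  (coeffMap (algebraMap E Qb)).fieldRange

theorem mem_coeffSub_iff {f : LaurentSeries Qb} :
    f ∈ coeffSub E ↔ ∀ n : ℤ, f.coeff n ∈ E := by
  constructor
  · rintro ⟨g, rfl⟩ n
    rw [coeffMap_coeff]
    exact (g.coeff n).2
  · intro h
    refine ⟨⟨fun n => ⟨f.coeff n, h n⟩, ?_⟩, ?_⟩
    · refine f.isPWO_support.mono ?_
      intro n hn
      simp only [Function.mem_support, ne_eq] at hn ⊢
      intro h0
      exact hn (Subtype.ext h0)
    · ext n
      rfl

theorem coe_mem_coeffSub_of_mem_Fc {f : Om M} (hf : f ∈ Fc M E) :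
    (f : LaurentSeries Qb) ∈ coeffSub E := by
  have hle : Fc M E ≤ (coeffSub E).comap (valOm M) := by
    unfold Fc
    rw [Subfield.closure_le]
    rintro y (hy | hy)
    · obtain ⟨a, ha, rfl⟩ := mem_Ec_iff.mp hy
      show (iota M a : LaurentSeries Qb) ∈ coeffSub E
      rw [coe_iota_single, mem_coeffSub_iff]
      intro n
      by_cases hn : n = 0
      · subst hn
        rw [HahnSeries.coeff_single_same]
        exact ha
      · rw [HahnSeries.coeff_single_of_ne hn]
        exact zero_mem E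
    · obtain ⟨d, hd, hdM, rfl⟩ := hy
      show (jd M d hdM : LaurentSeries Qb) ∈ coeffSub E
      rw [mem_coeffSub_iff]
      intro n
      show (coeffEmb Qb (qExpand ℚ d jq)).coeff n ∈ E
      rw [coeffEmb_coeff]
      exact E.algebraMap_mem _
  exact hle hf

theorem coeff_mem_of_mem_Fc {f : Om M} (hf : f ∈ Fc M E) (n : ℤ) :
    (f : LaurentSeries Qb).coeff n ∈ E :=
  mem_coeffSub_iff.mp (coe_mem_coeffSub_of_mem_Fc hf) n

/-- A constant lying in `Fc` lies in `Ec`. -/
theorem mem_E_of_iota_mem_Fc {c : Qb} (h : iota M c ∈ Fc M E) : c ∈ E := by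
  have := coeff_mem_of_mem_Fc h 0
  rwa [coe_iota_single, HahnSeries.coeff_single_same] at this

/-- An element of `Ω` algebraic over `Q̄` is a constant. -/
theorem exists_iota_eq_of_isAlgebraic {f : Om M} (hf : IsAlgebraic Qb f) :
    ∃ c : Qb, iota M c = f := by
  have hint : IsIntegral Qb f := hf.isIntegral
  refine ⟨-(minpoly Qb f).coeff 0, ?_⟩
  have hq : (minpoly Qb f).leadingCoeff = 1 := minpoly.monic hint
  have h : (minpoly Qb f).degree = 1 :=
    IsAlgClosed.degree_eq_one_of_irreducible Qb (minpoly.irreducible hint)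
  have : Polynomial.aeval f (minpoly Qb f) = 0 := minpoly.aeval Qb f
  rw [Polynomial.eq_X_add_C_of_degree_eq_one h, hq, Polynomial.C_1, one_mul,
    Polynomial.aeval_add, Polynomial.aeval_X, Polynomial.aeval_C,
    add_eq_zero_iff_eq_neg] at this
  exact (map_neg (algebraMap Qb (Om M)) ((minpoly Qb f).coeff 0)).symm ▸ this.symm

theorem isAlgebraic_rat_of_mem_Ec {e : Om M} (he : e ∈ Ec M E) : IsAlgebraic ℚ e := by
  obtain ⟨a, -, rfl⟩ := mem_Ec_iff.mp he
  exact ((AlgebraicClosure.isAlgebraic ℚ).isAlgebraic a).algebraMap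

theorem E_closed_in_F : ∀ f ∈ Fc M E, IsAlgebraic (Ec M E) f → f ∈ Ec M E := by
  intro f hf halg
  haveI : Algebra.IsAlgebraic ℚ (Ec M E) := by
    refine ⟨fun e => ?_⟩
    have h := isAlgebraic_rat_of_mem_Ec e.2
    exact (isAlgebraic_algebraMap_iff (A := Om M) (algebraMap (Ec M E) (Om M)).injective).mp h
  have h1 : IsAlgebraic ℚ f := halg.restrictScalars ℚ
  have h2 : IsAlgebraic Qb f := h1.tower_top Qb
  obtain ⟨c, rfl⟩ := exists_iota_eq_of_isAlgebraic h2
  exact iota_mem_Ec (mem_E_of_iota_mem_Fc hf)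

/-- The image of `ℚ(j_d : d ∣ M)` in `Q̄((q))` lies in (the image of) `Fc`. -/
theorem coeffEmb_mem_map_Fc {z : LaurentSeries ℚ} (hz : z ∈ modularFunctionFieldFull M) :
    coeffEmb Qb z ∈ (Fc M E).map (valOm M) := by
  have hle : (modularFunctionFieldFull M).toSubfield ≤
      ((Fc M E).map (valOm M)).comap (coeffEmb Qb) := by
    unfold modularFunctionFieldFull
    rw [IntermediateField.adjoin_toSubfield, Subfield.closure_le]
    rintro y (⟨r, rfl⟩ | ⟨d, hd, hdM, rfl⟩)
    · show coeffEmb Qb (algebraMap ℚ (LaurentSeries ℚ) r) ∈ (Fc M E).map (valOm M)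
      refine ⟨iota M (algebraMap ℚ Qb r), Ec_le_Fc (iota_mem_Ec (E.algebraMap_mem r)), ?_⟩
      rw [valOm_apply, coe_iota_single, algebraMap_laurentSeries_eq_single, coeffEmb, coeffMap_single]
    · exact ⟨jd M d hdM, Subfield.subset_closure (Or.inr ⟨d, hd, hdM, rfl⟩), rfl⟩
  exact hle hz

theorem exists_mem_Fc_of_mem_full {z : LaurentSeries ℚ} (hz : z ∈ modularFunctionFieldFull M) :
    ∃ f ∈ Fc M E, (f : LaurentSeries Qb) = coeffEmb Qb z := by
  obtain ⟨f, hf, hfz⟩ := coeffEmb_mem_map_Fc (E := E) hz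
  exact ⟨f, hf, hfz⟩

theorem compositum_eq_top : Subfield.closure ((Fc M E : Set (Om M)) ∪ Lc M) = ⊤ := by
  rw [eq_top_iff]
  rintro y -
  set T : Subfield (Om M) := Subfield.closure ((Fc M E : Set (Om M)) ∪ Lc M) with hT
  have hle : (modularFunctionFieldBar M).toSubfield ≤ T.map (valOm M) := by
    show (laurentBaseChange Qb (modularFunctionFieldFull M)).toSubfield ≤ _
    unfold laurentBaseChange
    rw [IntermediateField.adjoin_toSubfield, Subfield.closure_le]
    rintro z (⟨a, rfl⟩ | ⟨z0, hz0, rfl⟩)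
    · exact ⟨iota M a, Subfield.subset_closure (Or.inr (iota_mem_Lc a)), rfl⟩
    · obtain ⟨f, hf, hfz⟩ := exists_mem_Fc_of_mem_full (E := E) hz0
      exact ⟨f, Subfield.subset_closure (Or.inl hf), hfz⟩
  obtain ⟨t, ht, hty⟩ := hle y.2
  have : t = y := valOm_injective M hty
  exact this ▸ ht

theorem fieldFacts (M : ℕ) (A : ValuationSubring Qb) (E : IntermediateField ℚ Qb) :
    FieldFacts M A E where
  R_le := Rc_subset_Ec
  R_total := Rc_total
  E_le_L := Ec_le_Lc
  E_le_F := Ec_le_Fc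
  L_algebraic := isAlgebraic_Ec_of_mem_Lc
  L_algClosed := isAlgClosed_Lc M
  E_closed_in_F := E_closed_in_F
  compositum := compositum_eq_top

end Fermat.Agent.S18.H576

end
end
-- ===== PACK-END S18/H576/Coeff.lean

-- ===== PACK-BEGIN S18/B12/H444/GenericDiscr.lean
section




/-!
# S18 / b2.5 / A5 (helper444): the generic-fibre discriminant bound

Frozen statement: `GenericDiscrStatement` of `Fermat/Agent/S18/B12/Spec2.lean` (helper33);
exact-shape theorem `genericDiscr : GenericDiscrStatement` in `GenericDiscrSpec.lean`.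

Main theorem here (abstract over the localisations `Λ = P[1/w]`, `C₀ = B[1/w]`):

    theorem genericDiscr_abs  -- P int. closed noetherian domain, B normal finite torsion-free / P,
        (w : P) (hw0 : w ≠ 0) Λ C₀ [IsLocalization (powers w) Λ]
        [IsLocalization (algebraMapSubmonoid B (powers w)) C₀] [IsPrincipalIdealRing Λ] [Algebra ℚ Λ]
        (π : P) (hπ : Prime π) (hπw : ¬ π ∣ w) (n) (x : Fin n → B) (hli : LinearIndependent P x)
        (g : P) (hgπ : ¬ π ∣ g) (hg : ∀ b, g • b ∈ span P (range x)) (r) (y : Fin r → B)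
        (hy : ∀ a, ∑ i, a i • y i ∈ (span {algebraMap P B π}).radical → ∀ i, π ∣ a i) :
        ¬ π ^ (n - r + 1) ∣ (Matrix.of fun i j => Algebra.intTrace P B (x i * x j)).det

Proof: `C₀` is a Dedekind domain, free of rank `n` over the PID `Λ`; the integral trace localises
(`Algebra.intTrace_eq_of_isLocalization`); the base-change matrix `U` from a `Λ`-basis `β` of `C₀`
to `x` has `t ∤ det U` (`t` = image of `π`), so `t^k ∣ disc(x) = det U² · disc β` forces
`t^k ∣ disc β`, contradicting helper274's tame bound `H274.tameDiscr`.  The independence of `y`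
modulo `rad(t C₀)` descends from `B` by clearing denominators and the regular-sequence lemma
`dvd_of_mul_eq_mul` (A0-type, via helper203's `isIntegral_of_isIntegral_mul`).
-/

set_option autoImplicit false

noncomputable section

namespace Fermat.Agent.S18.B12.H444

open Polynomial Module Matrix

universe u v

section RegSeq

variable {P : Type u} [CommRing P] [IsDomain P] [IsIntegrallyClosed P]
  {B : Type v} [CommRing B] [IsDomain B] [IsIntegrallyClosed B] [Algebra P B]
  [Algebra.IsIntegral P B] [Module.IsTorsionFree P B]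

/-- Regular sequence (A0-type): `π` prime in `P`, `π ∤ u`, `u z ∈ π B` implies `z ∈ π B`. -/
theorem dvd_of_mul_eq_mul {π u : P} (hπ : Prime π) (hu : ¬ π ∣ u) {z b : B}
    (h : algebraMap P B u * z = algebraMap P B π * b) :
    ∃ b'' : B, z = algebraMap P B π * b'' := by
  let K := FractionRing P
  let F := FractionRing B
  letI : Algebra K F := FractionRing.liftAlgebra P F
  haveI : IsScalarTower P K F := FractionRing.isScalarTower_liftAlgebra P F
  have hinjPB : Function.Injective (algebraMap P B) := FaithfulSMul.algebraMap_injective P B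
  have hπB : algebraMap P B π ≠ 0 := (map_ne_zero_iff _ hinjPB).mpr hπ.ne_zero
  have hπF : algebraMap P F π ≠ 0 := by
    rw [IsScalarTower.algebraMap_apply P B F]
    exact (map_ne_zero_iff _ (IsFractionRing.injective B F)).mpr hπB
  set ζ : F := (algebraMap P F π)⁻¹ * algebraMap B F z with hζ
  have h1 : algebraMap P F π * ζ = algebraMap B F z := by
    rw [hζ, mul_inv_cancel_left₀ hπF]
  have h2 : algebraMap P F u * ζ = algebraMap B F b := by
    have h' := congrArg (algebraMap B F) h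
    rw [map_mul, map_mul, ← IsScalarTower.algebraMap_apply P B F,
      ← IsScalarTower.algebraMap_apply P B F] at h'
    rw [hζ, mul_left_comm, h', inv_mul_cancel_left₀ hπF]
  have hint : IsIntegral P ζ := by
    refine Fermat.Agent.S18.H203.isIntegral_of_isIntegral_mul K hπ hu ?_ ?_
    · rw [h1]
      exact (Algebra.IsIntegral.isIntegral (R := P) z).map (IsScalarTower.toAlgHom P B F)
    · rw [h2]
      exact (Algebra.IsIntegral.isIntegral (R := P) b).map (IsScalarTower.toAlgHom P B F)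
  have hintB : IsIntegral B ζ := hint.tower_top
  obtain ⟨b'', hb''⟩ := (IsIntegrallyClosed.isIntegral_iff (R := B) (K := F)).mp hintB
  refine ⟨b'', ?_⟩
  apply IsFractionRing.injective B F
  rw [map_mul, hb'', ← h1, IsScalarTower.algebraMap_apply P B F]

end RegSeq

section Loc

theorem powers_le_nonZeroDivisors' {P : Type u} [CommRing P] [IsDomain P] (w : P) (hw0 : w ≠ 0) :
    Submonoid.powers w ≤ nonZeroDivisors P := by
  rintro a ⟨k, rfl⟩
  exact mem_nonZeroDivisors_of_ne_zero (pow_ne_zero k hw0)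

theorem map_powers_le_nonZeroDivisors' {P : Type u} [CommRing P] [IsDomain P]
    (B : Type v) [CommRing B] [IsDomain B] [Algebra P B] [Module.IsTorsionFree P B]
    (w : P) (hw0 : w ≠ 0) :
    Algebra.algebraMapSubmonoid B (Submonoid.powers w) ≤ nonZeroDivisors B := by
  rintro a ⟨b, ⟨k, rfl⟩, rfl⟩
  refine mem_nonZeroDivisors_of_ne_zero ?_
  exact (map_ne_zero_iff _ (FaithfulSMul.algebraMap_injective P B)).mpr (pow_ne_zero k hw0)

theorem isDomain_loc {P : Type u} [CommRing P] [IsDomain P]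
    (B : Type v) [CommRing B] [IsDomain B] [Algebra P B] [Module.IsTorsionFree P B]
    (w : P) (C₀ : Type v) [CommRing C₀] [Algebra B C₀]
    [IsLocalization (Algebra.algebraMapSubmonoid B (Submonoid.powers w)) C₀]
    (hw0 : w ≠ 0) : IsDomain C₀ :=
  IsLocalization.isDomain_of_le_nonZeroDivisors _ (map_powers_le_nonZeroDivisors' B w hw0)

theorem injective_algebraMap_loc {P : Type u} [CommRing P] [IsDomain P]
    (B : Type v) [CommRing B] [IsDomain B] [Algebra P B] [Module.IsTorsionFree P B]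
    (w : P)
    (Λ : Type u) [CommRing Λ] [Algebra P Λ] [IsLocalization (Submonoid.powers w) Λ]
    (C₀ : Type v) [CommRing C₀] [Algebra B C₀] [Algebra Λ C₀] [Algebra P C₀]
    [IsScalarTower P Λ C₀] [IsScalarTower P B C₀]
    [IsLocalization (Algebra.algebraMapSubmonoid B (Submonoid.powers w)) C₀]
    (hw0 : w ≠ 0) : Function.Injective (algebraMap Λ C₀) := by
  have hBC : Function.Injective (algebraMap B C₀) :=
    IsLocalization.injective C₀ (map_powers_le_nonZeroDivisors' B w hw0)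
  have hPB : Function.Injective (algebraMap P B) := FaithfulSMul.algebraMap_injective P B
  rw [injective_iff_map_eq_zero]
  intro a ha
  obtain ⟨⟨p, s⟩, hps⟩ := IsLocalization.surj (Submonoid.powers w) a
  simp only at hps
  have h1 : algebraMap Λ C₀ (algebraMap P Λ p) = 0 := by
    rw [← hps, map_mul, ha, zero_mul]
  rw [← IsScalarTower.algebraMap_apply, IsScalarTower.algebraMap_apply P B C₀] at h1
  have h2 : p = 0 := by
    have := (map_eq_zero_iff _ hBC).mp h1
    exact (map_eq_zero_iff _ hPB).mp this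
  rw [h2, map_zero] at hps
  have hu : IsUnit (algebraMap P Λ s) := IsLocalization.map_units Λ s
  exact (hu.mul_left_eq_zero).mp hps

theorem isDedekindDomain_loc {P : Type u} [CommRing P] [IsDomain P] [IsNoetherianRing P]
    (B : Type v) [CommRing B] [IsDomain B] [IsIntegrallyClosed B] [Algebra P B]
    [Module.Finite P B] [Module.IsTorsionFree P B]
    (w : P)
    (Λ : Type u) [CommRing Λ] [Algebra P Λ] [IsLocalization (Submonoid.powers w) Λ]
    (C₀ : Type v) [CommRing C₀] [Algebra B C₀] [Algebra Λ C₀] [Algebra P C₀]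
    [IsScalarTower P Λ C₀] [IsScalarTower P B C₀]
    [IsLocalization (Algebra.algebraMapSubmonoid B (Submonoid.powers w)) C₀]
    [IsDomain Λ] [IsPrincipalIdealRing Λ] (hw0 : w ≠ 0) :
    IsDedekindDomain C₀ := by
  have : IsDomain C₀ := isDomain_loc B w C₀ hw0
  have : IsNoetherianRing B := IsNoetherianRing.of_finite P B
  have : IsNoetherianRing C₀ :=
    IsLocalization.isNoetherianRing (Algebra.algebraMapSubmonoid B (Submonoid.powers w)) C₀
      inferInstance
  have : IsIntegrallyClosed C₀ :=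
    isIntegrallyClosed_of_isLocalization C₀ _ (map_powers_le_nonZeroDivisors' B w hw0)
  have : Module.Finite Λ C₀ := Module.Finite.of_isLocalization P B (Submonoid.powers w)
  have : Algebra.IsIntegral Λ C₀ := Algebra.IsIntegral.of_finite Λ C₀
  have : Ring.DimensionLEOne C₀ := Ring.DimensionLEOne.of_isIntegral Λ C₀
  exact { }

end Loc

section Abstract

variable {P : Type u} [CommRing P] [IsDomain P]
  (w : P)
  (Λ : Type u) [CommRing Λ] [Algebra P Λ] [IsLocalization (Submonoid.powers w) Λ]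

include w in
omit [IsDomain P] in
theorem not_dvd_pow_of_not_dvd {π : P} (hπ : Prime π) (hπw : ¬ π ∣ w) (k : ℕ) : ¬ π ∣ w ^ k :=
  fun h => hπw (hπ.dvd_of_dvd_pow h)

omit [IsDomain P] in
theorem disjoint_powers {π : P} (hπ : Prime π) (hπw : ¬ π ∣ w) :
    Disjoint (Submonoid.powers w : Set P) (Ideal.span {π} : Ideal P) := by
  rw [Set.disjoint_left]
  rintro a ⟨k, rfl⟩ ha
  exact not_dvd_pow_of_not_dvd w hπ hπw k (Ideal.mem_span_singleton.mp ha)

theorem prime_map {π : P} (hπ : Prime π) (hπw : ¬ π ∣ w) (hw0 : w ≠ 0) :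
    Prime (algebraMap P Λ π) := by
  have hinj : Function.Injective (algebraMap P Λ) :=
    IsLocalization.injective Λ (powers_le_nonZeroDivisors' w hw0)
  have h0 : algebraMap P Λ π ≠ 0 := (map_ne_zero_iff _ hinj).mpr hπ.ne_zero
  rw [← Ideal.span_singleton_prime h0]
  have := IsLocalization.isPrime_of_isPrime_disjoint (Submonoid.powers w) Λ (Ideal.span {π})
    ((Ideal.span_singleton_prime hπ.ne_zero).mpr hπ) (disjoint_powers w hπ hπw)
  rwa [Ideal.map_span, Set.image_singleton] at this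

omit [IsDomain P] in
theorem dvd_of_map_dvd {π : P} (hπ : Prime π) (hπw : ¬ π ∣ w) {a : P}
    (h : algebraMap P Λ π ∣ algebraMap P Λ a) : π ∣ a := by
  have h1 := IsLocalization.under_map_of_isPrime_disjoint (Submonoid.powers w) Λ
    ((Ideal.span_singleton_prime hπ.ne_zero).mpr hπ) (disjoint_powers w hπ hπw)
  have h2 : a ∈ (Ideal.map (algebraMap P Λ) (Ideal.span {π})).under P := by
    rw [Ideal.under_def, Ideal.mem_comap, Ideal.map_span, Set.image_singleton]
    exact Ideal.mem_span_singleton.mpr h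
  rw [h1] at h2
  exact Ideal.mem_span_singleton.mp h2

end Abstract
section Loc2

/-- The trace of `B[1/w]` over `P[1/w]` restricts to the integral trace of `B` over `P`. -/
theorem map_intTrace_eq_trace {P : Type u} [CommRing P] [IsDomain P] [IsIntegrallyClosed P]
    (B : Type v) [CommRing B] [IsDomain B] [IsIntegrallyClosed B] [Algebra P B]
    [Module.Finite P B] [Module.IsTorsionFree P B]
    (w : P)
    (Λ : Type u) [CommRing Λ] [Algebra P Λ] [IsLocalization (Submonoid.powers w) Λ]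
    (C₀ : Type v) [CommRing C₀] [Algebra B C₀] [Algebra Λ C₀] [Algebra P C₀]
    [IsScalarTower P Λ C₀] [IsScalarTower P B C₀]
    [IsLocalization (Algebra.algebraMapSubmonoid B (Submonoid.powers w)) C₀]
    [IsDomain Λ] [IsPrincipalIdealRing Λ] (hw0 : w ≠ 0) (b : B) :
    algebraMap P Λ (Algebra.intTrace P B b) = Algebra.trace Λ C₀ (algebraMap B C₀ b) := by
  have : IsDomain C₀ := isDomain_loc B w C₀ hw0
  have : IsIntegrallyClosed C₀ :=
    isIntegrallyClosed_of_isLocalization C₀ _ (map_powers_le_nonZeroDivisors' B w hw0)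
  have : Module.Finite Λ C₀ := Module.Finite.of_isLocalization P B (Submonoid.powers w)
  have : Module.IsTorsionFree Λ C₀ :=
    isTorsionFree_iff_algebraMap_injective.mpr (injective_algebraMap_loc B w Λ C₀ hw0)
  have : Module.Free Λ C₀ := Module.free_of_finite_type_torsion_free'
  rw [Algebra.intTrace_eq_of_isLocalization P B (Submonoid.powers w) (Aₘ := Λ) (Bₘ := C₀) b,
    Algebra.intTrace_eq_trace]

/-- Radical membership descends from `B[1/w]` to `B` (regular sequence `π, w`). -/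
theorem mem_radical_of_map_mem_radical {P : Type u} [CommRing P] [IsDomain P]
    [IsIntegrallyClosed P]
    (B : Type v) [CommRing B] [IsDomain B] [IsIntegrallyClosed B] [Algebra P B]
    [Module.Finite P B] [Module.IsTorsionFree P B]
    (w : P)
    (Λ : Type u) [CommRing Λ] [Algebra P Λ]
    (C₀ : Type v) [CommRing C₀] [Algebra B C₀] [Algebra Λ C₀] [Algebra P C₀]
    [IsScalarTower P Λ C₀] [IsScalarTower P B C₀]
    [IsLocalization (Algebra.algebraMapSubmonoid B (Submonoid.powers w)) C₀]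
    (hw0 : w ≠ 0) {π : P} (hπ : Prime π) (hπw : ¬ π ∣ w) {z : B}
    (h : algebraMap B C₀ z ∈ (Ideal.span {algebraMap Λ C₀ (algebraMap P Λ π)}).radical) :
    z ∈ (Ideal.span {algebraMap P B π}).radical := by
  have hBC : Function.Injective (algebraMap B C₀) :=
    IsLocalization.injective C₀ (map_powers_le_nonZeroDivisors' B w hw0)
  obtain ⟨N, hN⟩ := h
  obtain ⟨c, hc⟩ := Ideal.mem_span_singleton'.mp hN
  obtain ⟨⟨b, s⟩, hbs⟩ :=
    IsLocalization.surj (Algebra.algebraMapSubmonoid B (Submonoid.powers w)) c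
  simp only at hbs
  obtain ⟨s', ⟨k, rfl⟩, hs'⟩ := s.2
  have hs'' : (s : B) = algebraMap P B (w ^ k) := hs'.symm
  have e1 : algebraMap Λ C₀ (algebraMap P Λ π) = algebraMap B C₀ (algebraMap P B π) := by
    rw [← IsScalarTower.algebraMap_apply, ← IsScalarTower.algebraMap_apply]
  have key : algebraMap P B (w ^ k) * z ^ N = algebraMap P B π * b := by
    apply hBC
    rw [map_mul, map_mul, map_pow (algebraMap B C₀) z N, ← hc, e1, ← hbs, hs'']
    ring
  have hnd : ¬ π ∣ w ^ k := fun h => hπw (hπ.dvd_of_dvd_pow h)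
  obtain ⟨b'', hb''⟩ := dvd_of_mul_eq_mul hπ hnd key
  refine ⟨N, Ideal.mem_span_singleton'.mpr ⟨b'', ?_⟩⟩
  rw [hb'', mul_comm]

/-- A local spanning family stays spanning (up to `g`) after inverting `w`. -/
theorem smul_mem_span_loc {P : Type u} [CommRing P]
    (B : Type v) [CommRing B] [Algebra P B]
    (w : P)
    (Λ : Type u) [CommRing Λ] [Algebra P Λ] [IsLocalization (Submonoid.powers w) Λ]
    (C₀ : Type v) [CommRing C₀] [Algebra B C₀] [Algebra Λ C₀] [Algebra P C₀]
    [IsScalarTower P Λ C₀] [IsScalarTower P B C₀]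
    [IsLocalization (Algebra.algebraMapSubmonoid B (Submonoid.powers w)) C₀]
    {n : ℕ} (x : Fin n → B) (g : P)
    (hg : ∀ b : B, g • b ∈ Submodule.span P (Set.range x)) (c : C₀) :
    algebraMap P Λ g • c ∈ Submodule.span Λ (Set.range (algebraMap B C₀ ∘ x)) := by
  obtain ⟨⟨b, s⟩, hbs⟩ :=
    IsLocalization.surj (Algebra.algebraMapSubmonoid B (Submonoid.powers w)) c
  simp only at hbs
  obtain ⟨s', ⟨k, rfl⟩, hs'⟩ := s.2
  have hs'' : (s : B) = algebraMap P B (w ^ k) := hs'.symm
  have hu : IsUnit (algebraMap P Λ (w ^ k)) :=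
    IsLocalization.map_units Λ (⟨w ^ k, k, rfl⟩ : Submonoid.powers w)
  obtain ⟨v, hv⟩ := hu.exists_left_inv
  -- `c = v • ι b`
  have hc : c = v • algebraMap B C₀ b := by
    rw [← hbs, hs'', ← IsScalarTower.algebraMap_apply P B C₀,
      IsScalarTower.algebraMap_apply P Λ C₀, Algebra.smul_def, ← mul_assoc, mul_comm _ c,
      mul_assoc, ← map_mul, hv, map_one, mul_one]
  -- `ι (g • b)` lies in the span
  have h1 : algebraMap B C₀ (g • b) ∈ Submodule.span Λ (Set.range (algebraMap B C₀ ∘ x)) := by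
    have h2 := hg b
    have h3 : (IsScalarTower.toAlgHom P B C₀).toLinearMap (g • b) ∈
        Submodule.map (IsScalarTower.toAlgHom P B C₀).toLinearMap
          (Submodule.span P (Set.range x)) := Submodule.mem_map_of_mem h2
    rw [Submodule.map_span, ← Set.range_comp] at h3
    have h4 : Submodule.span P (Set.range ((IsScalarTower.toAlgHom P B C₀).toLinearMap ∘ x)) ≤
        (Submodule.span Λ (Set.range (algebraMap B C₀ ∘ x))).restrictScalars P :=
      Submodule.span_le_restrictScalars P Λ _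
    exact h4 h3
  have h5 : algebraMap P Λ g • c = v • algebraMap B C₀ (g • b) := by
    rw [hc, Algebra.smul_def g b, map_mul, ← IsScalarTower.algebraMap_apply P B C₀,
      IsScalarTower.algebraMap_apply P Λ C₀, ← Algebra.smul_def, smul_comm]
  rw [h5]
  exact Submodule.smul_mem _ _ h1

end Loc2

section Main

/-- **A5, abstract form.**  `Λ = P[1/w]` a PID containing `ℚ`, `C₀ = B[1/w]`. -/
theorem genericDiscr_abs {P : Type u} [CommRing P] [IsDomain P] [IsIntegrallyClosed P]
    [IsNoetherianRing P]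
    (B : Type v) [CommRing B] [IsDomain B] [IsIntegrallyClosed B] [Algebra P B]
    [Module.Finite P B] [Module.IsTorsionFree P B]
    (w : P) (hw0 : w ≠ 0)
    (Λ : Type u) [CommRing Λ] [Algebra P Λ] [IsLocalization (Submonoid.powers w) Λ]
    (C₀ : Type v) [CommRing C₀] [Algebra B C₀] [Algebra Λ C₀] [Algebra P C₀]
    [IsScalarTower P Λ C₀] [IsScalarTower P B C₀]
    [IsLocalization (Algebra.algebraMapSubmonoid B (Submonoid.powers w)) C₀]
    [IsDomain Λ] [IsPrincipalIdealRing Λ] [Algebra ℚ Λ]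
    (π : P) (hπ : Prime π) (hπw : ¬ π ∣ w)
    (n : ℕ) (x : Fin n → B) (hli : LinearIndependent P x)
    (g : P) (hgπ : ¬ π ∣ g) (hg : ∀ b : B, g • b ∈ Submodule.span P (Set.range x))
    (r : ℕ) (y : Fin r → B)
    (hy : ∀ a : Fin r → P,
      (∑ i, a i • y i) ∈ (Ideal.span {algebraMap P B π}).radical → ∀ i, π ∣ a i) :
    ¬ π ^ (n - r + 1) ∣ (Matrix.of fun i j => Algebra.intTrace P B (x i * x j)).det := by
  classical
  have hD : IsDedekindDomain C₀ := isDedekindDomain_loc B w Λ C₀ hw0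
  have : Module.Finite Λ C₀ := Module.Finite.of_isLocalization P B (Submonoid.powers w)
  have hinjΛ := injective_algebraMap_loc B w Λ C₀ hw0
  have : Module.IsTorsionFree Λ C₀ := isTorsionFree_iff_algebraMap_injective.mpr hinjΛ
  have : Module.Free Λ C₀ := Module.free_of_finite_type_torsion_free'
  have hinjP : Function.Injective (algebraMap P Λ) :=
    IsLocalization.injective Λ (powers_le_nonZeroDivisors' w hw0)
  set t := algebraMap P Λ π with ht_def
  have ht : Prime t := prime_map w Λ hπ hπw hw0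
  set x' : Fin n → C₀ := algebraMap B C₀ ∘ x with hx'
  have hli' : LinearIndependent Λ x' :=
    hli.localization_localization (Rₛ := Λ) (Submonoid.powers w) C₀
  have hg0 : algebraMap P Λ g ≠ 0 := by
    intro h
    apply hgπ
    have : g = 0 := hinjP (by rw [h, map_zero])
    rw [this]
    exact dvd_zero π
  have hspan : ∀ c : C₀, algebraMap P Λ g • c ∈ Submodule.span Λ (Set.range x') :=
    fun c => smul_mem_span_loc B w Λ C₀ x g hg c
  -- rank
  have hn : Module.finrank Λ C₀ = n := by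
    apply le_antisymm
    · let φ : C₀ →ₗ[Λ] Submodule.span Λ (Set.range x') :=
        LinearMap.codRestrict _ (algebraMap P Λ g • LinearMap.id) hspan
      have hφ : Function.Injective φ := by
        intro c c' hcc
        have h1 : algebraMap P Λ g • c = algebraMap P Λ g • c' := congrArg Subtype.val hcc
        exact smul_right_injective C₀ hg0 h1
      calc Module.finrank Λ C₀
          ≤ Module.finrank Λ (Submodule.span Λ (Set.range x')) :=
            LinearMap.finrank_le_finrank_of_injective hφ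
        _ ≤ Fintype.card (Fin n) := finrank_range_le_card x'
        _ = n := Fintype.card_fin n
    · have := hli'.fintype_card_le_finrank
      simpa using this
  let β : Module.Basis (Fin n) Λ C₀ := Module.finBasisOfFinrankEq Λ C₀ hn
  let U : Matrix (Fin n) (Fin n) Λ := fun i j => β.repr (x' i) j
  have hU : x' = (U.map (algebraMap Λ C₀)) *ᵥ β := by
    ext i
    simp only [Matrix.mulVec, dotProduct]
    calc x' i = ∑ j, β.repr (x' i) j • β j := (β.sum_repr (x' i)).symm
      _ = _ := Finset.sum_congr rfl (fun j _ => by rw [Matrix.map_apply, Algebra.smul_def])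
  have hV : ∀ j, ∃ c : Fin n → Λ, ∑ i, c i • x' i = algebraMap P Λ g • β j := fun j =>
    (Submodule.mem_span_range_iff_exists_fun Λ).mp (hspan (β j))
  choose V hVeq using hV
  have hVU : (Matrix.of V) * U = algebraMap P Λ g • (1 : Matrix (Fin n) (Fin n) Λ) := by
    ext j l
    have h1 := congrArg (fun z => β.repr z l) (hVeq j)
    simp only [map_sum, map_smul, Finsupp.coe_finsetSum, Finsupp.coe_smul, Finset.sum_apply,
      Pi.smul_apply, smul_eq_mul, Module.Basis.repr_self] at h1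
    rw [Matrix.mul_apply, Matrix.smul_apply, Matrix.one_apply, smul_eq_mul]
    simp only [Matrix.of_apply, U]
    rw [h1, Finsupp.single_apply]
  have hdetU : ¬ t ∣ U.det := by
    intro hdvd
    have h1 : (Matrix.of V).det * U.det = (algebraMap P Λ g) ^ n := by
      rw [← Matrix.det_mul, hVU, Matrix.det_smul, Matrix.det_one, mul_one, Fintype.card_fin]
    have h2 : t ∣ algebraMap P Λ g ^ n := h1 ▸ Dvd.dvd.mul_left hdvd _
    have h3 : t ∣ algebraMap P Λ g := ht.dvd_of_dvd_pow h2
    exact hgπ (dvd_of_map_dvd w Λ hπ hπw h3)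
  have hdisc : algebraMap P Λ ((Matrix.of fun i j => Algebra.intTrace P B (x i * x j)).det)
      = U.det ^ 2 * Algebra.discr Λ β := by
    rw [← Algebra.discr_of_matrix_mulVec, ← hU, Algebra.discr_def, RingHom.map_det]
    congr 1
    ext i j
    simp only [RingHom.mapMatrix_apply, Matrix.map_apply, Matrix.of_apply,
      Algebra.traceMatrix_apply, Algebra.traceForm_apply, hx', Function.comp_apply]
    rw [map_intTrace_eq_trace B w Λ C₀ hw0, map_mul]
  have hy' : ∀ a : Fin r → Λ,
      (∑ i, a i • (algebraMap B C₀ ∘ y) i) ∈ (Ideal.span {algebraMap Λ C₀ t}).radical →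
        ∀ i, t ∣ a i := by
    intro a ha i
    obtain ⟨s, hs⟩ := IsLocalization.exist_integer_multiples_of_finite (Submonoid.powers w) a
    choose a' ha' using hs
    have hz : algebraMap B C₀ (∑ i, a' i • y i) =
        algebraMap Λ C₀ (algebraMap P Λ (s : P)) * ∑ i, a i • (algebraMap B C₀ ∘ y) i := by
      rw [map_sum, Finset.mul_sum]
      refine Finset.sum_congr rfl fun i _ => ?_
      rw [Algebra.smul_def (a' i) (y i), map_mul, ← IsScalarTower.algebraMap_apply P B C₀,
        IsScalarTower.algebraMap_apply P Λ C₀, ha' i, Algebra.smul_def, map_mul,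
        Algebra.smul_def, Function.comp_apply]
      ring
    have hmem : algebraMap B C₀ (∑ i, a' i • y i) ∈
        (Ideal.span {algebraMap Λ C₀ (algebraMap P Λ π)}).radical := by
      rw [hz]
      exact Ideal.mul_mem_left _ _ ha
    have h1 : π ∣ a' i :=
      hy a' (mem_radical_of_map_mem_radical B w Λ C₀ hw0 hπ hπw hmem) i
    have h2 : t ∣ algebraMap P Λ (a' i) := map_dvd (algebraMap P Λ) h1
    rw [ha' i, Algebra.smul_def] at h2
    exact ((IsLocalization.map_units Λ s).dvd_mul_left).mp h2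
  have htame := Fermat.Agent.S18.H274.tameDiscr Λ t ht C₀ n β r (algebraMap B C₀ ∘ y) hy'
  intro hdvd
  apply htame
  have h4 : t ^ (n - r + 1) ∣ U.det ^ 2 * Algebra.discr Λ β := by
    rw [← hdisc, ht_def, ← map_pow]
    exact map_dvd (algebraMap P Λ) hdvd
  exact ht.pow_dvd_of_dvd_mul_left _ (fun h => hdetU (ht.dvd_of_dvd_pow h)) h4

end Main

end Fermat.Agent.S18.B12.H444

end
end
-- ===== PACK-END S18/B12/H444/GenericDiscr.lean

-- ===== PACK-BEGIN S18/B12/H444/GenericDiscrSpec.lean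
section




/-!
# S18 / b2.5 / A5 (helper444): `GenericDiscrStatement` in the exact frozen shape

`theorem genericDiscr : GenericDiscrStatement` (frozen in `B12/Spec2.lean`, squad-lead helper33),
from `genericDiscr_abs` (`GenericDiscr.lean`) with `Λ := Localization.Away w`,
`C₀ := Localization (algebraMapSubmonoid B (powers w))` and helper274's tame discriminant bound
(`H274.tameDiscr`, on main).
-/

set_option autoImplicit false

noncomputable section

namespace Fermat.Agent.S18.B12.H444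

open Polynomial Module

universe u v

/-- A commutative ring in which all positive integers are units is a `ℚ`-algebra. -/
def ratAlgebraOfUnits (Λ : Type u) [CommRing Λ] (h : ∀ m : ℕ, m ≠ 0 → IsUnit ((m : ℕ) : Λ)) :
    Algebra ℚ Λ :=
  RingHom.toAlgebra
    (IsLocalization.lift (M := nonZeroDivisors ℤ) (S := ℚ) (g := Int.castRingHom Λ)
      (fun y => by
        have hy : (y : ℤ) ≠ 0 := nonZeroDivisors.coe_ne_zero y
        have hn : (y : ℤ).natAbs ≠ 0 := Int.natAbs_ne_zero.mpr hy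
        have hu := h _ hn
        rcases Int.natAbs_eq (y : ℤ) with h1 | h1
        · have : Int.castRingHom Λ (y : ℤ) = (((y : ℤ).natAbs : ℕ) : Λ) := by
            conv_lhs => rw [h1]
            simp
          rw [this]; exact hu
        · have : Int.castRingHom Λ (y : ℤ) = -(((y : ℤ).natAbs : ℕ) : Λ) := by
            conv_lhs => rw [h1]
            simp
          rw [this]; exact hu.neg))

theorem not_dvd_of_not_associated {P : Type u} [CommRing P] [IsDomain P] {π w : P}
    (hπ : Prime π) (hw : Prime w) (h : ¬ Associated π w) : ¬ π ∣ w := by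
  rintro ⟨c, hc⟩
  rcases hw.irreducible.isUnit_or_isUnit hc with h1 | h1
  · exact hπ.not_isUnit h1
  · exact h ⟨h1.unit, by simp [hc]⟩

/-- **A5** in the exact frozen shape of `B12/Spec2.lean`. -/
theorem genericDiscr : GenericDiscrStatement.{u, v} := by
  intro P _ _ _ _ w hw hPID hunits B _ _ _ _ _ _ π hπ hπw n x hx r y hy
  obtain ⟨hli, g, hgπ, hg⟩ := hx
  have hw0 : w ≠ 0 := hw.ne_zero
  let Λ := Localization.Away w
  let C₀ := Localization (Algebra.algebraMapSubmonoid B (Submonoid.powers w))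
  letI : Algebra Λ C₀ := localizationAlgebra (Submonoid.powers w) B
  haveI : IsScalarTower P Λ C₀ := IsScalarTower.of_algebraMap_eq'
    (by rw [RingHom.algebraMap_toAlgebra, IsLocalization.map_comp, ← IsScalarTower.algebraMap_eq])
  haveI : IsDomain Λ := IsLocalization.isDomain_localization (powers_le_nonZeroDivisors' w hw0)
  haveI : IsPrincipalIdealRing Λ := hPID
  letI : Algebra ℚ Λ := ratAlgebraOfUnits Λ (fun m hm => by
    have := hunits m hm
    rwa [map_natCast] at this)
  unfold intDiscr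
  exact genericDiscr_abs B w hw0 Λ C₀ π hπ (not_dvd_of_not_associated hπ hw hπw) n x hli g
    (fun h => hgπ (Ideal.mem_span_singleton.mpr h)) hg r y hy

end Fermat.Agent.S18.B12.H444

end
end
-- ===== PACK-END S18/B12/H444/GenericDiscrSpec.lean

-- ===== PACK-BEGIN S18/B12/H278/SF.lean
section


/-!
# b2-SF and b2-SF' (helper278): proofs of the frozen statements `SFIdemStatement` and
`SFLatticeStatement` of `Fermat/Agent/S18/B12/Spec.lean`.

Both are instances of `exists_smul_mem_range_of_isIntegral` (`Transfer.lean`), which is the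
localisation at `(t)` of the DVR normality criterion `mem_range_of_isIntegral`
(`Fermat/Agent/S37/H278/Normal.lean`).
-/

set_option autoImplicit false
set_option linter.style.haveILetI false
set_option linter.unusedSectionVars false

namespace Fermat.Agent.S18.B12.H278

open Module Polynomial Fermat.Agent.S37.H278

universe u v

/-- An idempotent is integral. -/
theorem isIntegral_of_mul_self_eq {Λ : Type*} [CommRing Λ] [Nontrivial Λ] {L : Type*} [CommRing L] [Algebra Λ L]
    {ε : L} (hε : ε * ε = ε) : IsIntegral Λ ε := by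
  refine ⟨X ^ 2 - X, ?_, ?_⟩
  · apply monic_X_pow_sub
    rw [degree_X]
    norm_num
  · simp [pow_two, hε]

/-- **b2-SF'** (= frozen statement `SFIdemStatement` of `B12/Spec.lean`, unfolded). -/
theorem sfIdem :
  ∀ (Λ : Type u) [CommRing Λ] [IsDomain Λ] [IsPrincipalIdealRing Λ] (t : Λ) (_ : Prime t)
    (L : Type v) [CommRing L] [Algebra Λ L] [Module.IsTorsionFree Λ L] (C : Subalgebra Λ L)
    (n : ℕ) (b : Module.Basis (Fin n) Λ C)
    (s : ℕ) (y : Fin s → C)
    (_ : ∀ x : C, ∃ a : Fin s → Λ,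
        x - ∑ i, a i • y i ∈ (Ideal.span {algebraMap Λ C t}).radical),
    Algebra.discr Λ b ≠ 0 → ¬ t ^ (n - s + 1) ∣ Algebra.discr Λ b →
    ∀ ε : L, ε * ε = ε → (∃ g₀ : Λ, g₀ ≠ 0 ∧ g₀ • ε ∈ C) → ∃ g : Λ, ¬ t ∣ g ∧ g • ε ∈ C := by
  intro Λ _ _ _ t ht L _ _ _ C n b s y hy _ hd ε hε hε0
  have hL : ∀ (g : Λ) (l : L), g ≠ 0 → g • l = 0 → l = 0 := by
    intro g l hg h
    have hreg : IsSMulRegular L g := Module.IsTorsionFree.isSMulRegular (IsRegular.of_ne_zero hg)
    exact hreg (by simpa using h)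
  have hx0 : ∃ g₀ : Λ, g₀ ≠ 0 ∧ g₀ • ε ∈ (C.val : C →ₐ[Λ] L).range := by
    obtain ⟨g₀, h0, h1⟩ := hε0
    exact ⟨g₀, h0, ⟨⟨_, h1⟩, rfl⟩⟩
  obtain ⟨g, hg, c, hc⟩ := exists_smul_mem_range_of_isIntegral ht hL C.val
    Subtype.val_injective b s y hy (by simpa using hd) ε (isIntegral_of_mul_self_eq hε) hx0
  refine ⟨g, hg, ?_⟩
  have hc' : (c : L) = g • ε := hc
  rw [← hc']
  exact c.2

/-- An injective linear map between free modules of the same finite rank over a domain has
torsion cokernel: `d • N ⊆ range f` for some `d ≠ 0` (`d` = determinant). -/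
theorem exists_smul_mem_range_of_injective {Λ : Type*} [CommRing Λ] [IsDomain Λ]
    {M N : Type*} [AddCommGroup M] [AddCommGroup N] [Module Λ M] [Module Λ N]
    {ι : Type*} [Fintype ι] [DecidableEq ι] (b : Basis ι Λ M) (bt : Basis ι Λ N)
    (f : M →ₗ[Λ] N) (hf : Function.Injective f) :
    ∃ d : Λ, d ≠ 0 ∧ ∀ z : N, d • z ∈ LinearMap.range f := by
  classical
  set A := LinearMap.toMatrix b bt f with hA
  have hdet : A.det ≠ 0 := by
    intro h0
    obtain ⟨v, hv, hAv⟩ := Matrix.exists_mulVec_eq_zero_iff.mpr h0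
    have h1 : f (b.equivFun.symm v) = 0 := by
      apply bt.equivFun.injective
      rw [map_zero]
      have := LinearMap.toMatrix_mulVec_repr b bt f (b.equivFun.symm v)
      rw [← hA] at this
      have hv' : ⇑(b.repr (b.equivFun.symm v)) = v := by
        rw [← Basis.equivFun_apply, LinearEquiv.apply_symm_apply]
      rw [hv', hAv] at this
      funext i
      have := congrFun this i
      simpa using this.symm
    have h2 : b.equivFun.symm v = 0 := hf (by rw [h1, map_zero])
    apply hv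
    have := congrArg b.equivFun h2
    rw [LinearEquiv.apply_symm_apply, map_zero] at this
    exact this
  refine ⟨A.det, hdet, fun z => ⟨Matrix.toLin bt b A.adjugate z, ?_⟩⟩
  have h3 : f ∘ₗ Matrix.toLin bt b A.adjugate = A.det • LinearMap.id := by
    conv_lhs => rw [← Matrix.toLin_toMatrix b bt f, ← hA]
    rw [← Matrix.toLin_mul, Matrix.mul_adjugate, map_smul, Matrix.toLin_one]
  have := LinearMap.congr_fun h3 z
  simpa using this

/-- **b2-SF** (= frozen statement `SFLatticeStatement` of `B12/Spec.lean`, unfolded). -/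
theorem sfLattice :
  ∀ (Λ : Type u) [CommRing Λ] [IsDomain Λ] [IsPrincipalIdealRing Λ] (t : Λ) (_ : Prime t)
    (L : Type v) [CommRing L] [Algebra Λ L] (C Ct : Subalgebra Λ L) (_ : C ≤ Ct)
    (n : ℕ) (b : Module.Basis (Fin n) Λ C) (_ : Module.Basis (Fin n) Λ Ct)
    (s : ℕ) (y : Fin s → C)
    (_ : ∀ x : C, ∃ a : Fin s → Λ,
        x - ∑ i, a i • y i ∈ (Ideal.span {algebraMap Λ C t}).radical),
    Algebra.discr Λ b ≠ 0 → ¬ t ^ (n - s + 1) ∣ Algebra.discr Λ b →
    ∀ x ∈ Ct, ∃ g : Λ, ¬ t ∣ g ∧ g • x ∈ C := by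
  intro Λ _ _ _ t ht L _ _ C Ct hle n b bt s y hy _ hd x hx
  haveI : Module.Free Λ Ct := Module.Free.of_basis bt
  have hL : ∀ (g : Λ) (l : Ct), g ≠ 0 → g • l = 0 → l = 0 := by
    intro g l hg h
    exact smul_eq_zero_imp hg h
  have hf : Function.Injective (Subalgebra.inclusion hle) := Subalgebra.inclusion_injective hle
  haveI : Module.Finite Λ Ct := Module.Finite.of_basis bt
  have hxint : IsIntegral Λ (⟨x, hx⟩ : Ct) := Algebra.IsIntegral.isIntegral _
  obtain ⟨d, hd0, hdr⟩ := exists_smul_mem_range_of_injective b bt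
    (Subalgebra.inclusion hle).toLinearMap hf
  have hx0 : ∃ g₀ : Λ, g₀ ≠ 0 ∧ g₀ • (⟨x, hx⟩ : Ct) ∈ (Subalgebra.inclusion hle).range := by
    obtain ⟨c, hc⟩ := hdr ⟨x, hx⟩
    exact ⟨d, hd0, c, hc⟩
  obtain ⟨g, hg, c, hc⟩ := exists_smul_mem_range_of_isIntegral ht hL (Subalgebra.inclusion hle)
    hf b s y hy (by simpa using hd) ⟨x, hx⟩ hxint hx0
  refine ⟨g, hg, ?_⟩
  have hc' : ((Subalgebra.inclusion hle c : Ct) : L) = g • x := congrArg Subtype.val hc
  rw [← hc']
  exact c.2

end Fermat.Agent.S18.B12.H278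

end
-- ===== PACK-END S18/B12/H278/SF.lean

-- ===== PACK-BEGIN S18/B12/H84/Stmt.lean
section





/-!
# S18 / b2.5 / A8 + A9 (helper84): the `Spec3`-typed statements

* `a9 : RegularAlongOfDedekindStatement`
* `a8_of_sfLattice : SFLatticeStatement → IntClosedOfDiscrStatement`
* `a8 : IntClosedOfDiscrStatement` (unconditional, with Theorem L = `H278.sfLattice` on main)
-/

set_option autoImplicit false

namespace Fermat.Agent.S18.B12.H84

universe u v

/-- **A9**, exact frozen shape. -/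
theorem a9 : B12.RegularAlongOfDedekindStatement.{u} :=
  fun B _ ϖ hD 𝔪 h𝔪 hϖ => regularAlongOfDedekind B ϖ hD 𝔪 h𝔪 hϖ

/-- **A8** from Theorem L, exact frozen shapes. -/
theorem a8_of_sfLattice (hSF : B12.SFLatticeStatement.{u, v}) :
    B12.IntClosedOfDiscrStatement.{u, v} :=
  fun Λ _ _ _ C _ _ _ n b hdisc hbound =>
    intClosedOfDiscr_of_sfLattice hSF Λ C n b hdisc hbound

/-- **A8**, exact frozen shape, unconditional (Theorem L from `H278.sfLattice`). -/
theorem a8 : B12.IntClosedOfDiscrStatement.{u, v} :=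
  a8_of_sfLattice H278.sfLattice.{u, v}

end Fermat.Agent.S18.B12.H84

end
-- ===== PACK-END S18/B12/H84/Stmt.lean

-- ===== PACK-BEGIN S18/H456/ModFields.lean
section


/-!
# S18 / MOD assembly (helper456): the fields `compositum`, `E_closed_in_F`, `x_mem`,
`x_transcendental` of `Alg.GoodModel` for the concrete objects
-/

set_option autoImplicit false

noncomputable section

namespace Fermat.Agent.S18.H456

open ModularCurve AlgebraicCurve HahnSeries Fermat.Agent.S18 Fermat.Agent.S18.Mod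

/-! ### Algebraic Laurent series are constant -/

section LaurentConst

variable {K : Type*} [Field K]

/-- A Laurent series over a field `K` which is algebraic over `K` is constant. -/
theorem laurent_const_of_isAlgebraic (f : LaurentSeries K) (hf : IsAlgebraic K f) :
    ∃ c : K, f = algebraMap K (LaurentSeries K) c := by
  have key : ∀ g : LaurentSeries K, IsAlgebraic K g →
      ∃ y : PowerSeries K, algebraMap (PowerSeries K) (LaurentSeries K) y = g := by
    intro g hg
    obtain ⟨p, hpm, hp⟩ := hg.isIntegral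
    have h2 : IsIntegral (PowerSeries K) g := by
      refine ⟨p.map (PowerSeries.C (R := K)), hpm.map _, ?_⟩
      rw [Polynomial.eval₂_map]
      exact hp
    exact IsIntegrallyClosed.isIntegral_iff.mp h2
  obtain ⟨y, hy⟩ := key f hf
  set c₀ := PowerSeries.constantCoeff y with hc₀
  by_cases hg : y - PowerSeries.C c₀ = 0
  · refine ⟨c₀, ?_⟩
    rw [← hy, sub_eq_zero.mp hg]
    rfl
  · exfalso
    have hg' : algebraMap (PowerSeries K) (LaurentSeries K) (y - PowerSeries.C c₀) ≠ 0 := by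
      intro h
      exact hg ((injective_iff_map_eq_zero _).1
        (IsFractionRing.injective (PowerSeries K) (LaurentSeries K)) _ h)
    have halg : IsAlgebraic K (algebraMap (PowerSeries K) (LaurentSeries K)
        (y - PowerSeries.C c₀)) := by
      rw [map_sub, hy]
      refine hf.sub ?_
      have : algebraMap (PowerSeries K) (LaurentSeries K) (PowerSeries.C c₀) =
          algebraMap K (LaurentSeries K) c₀ := rfl
      rw [this]
      exact isAlgebraic_algebraMap c₀
    obtain ⟨z, hz⟩ := key _ halg.inv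
    have h1 : algebraMap (PowerSeries K) (LaurentSeries K) ((y - PowerSeries.C c₀) * z) =
        algebraMap (PowerSeries K) (LaurentSeries K) 1 := by
      rw [map_mul, hz, map_one, mul_inv_cancel₀ hg']
    have h2 := IsFractionRing.injective (PowerSeries K) (LaurentSeries K) h1
    have h3 := congrArg (PowerSeries.constantCoeff (R := K)) h2
    rw [map_mul, map_sub, PowerSeries.constantCoeff_C, ← hc₀, sub_self, zero_mul, map_one] at h3
    exact zero_ne_one h3

end LaurentConst

variable (M : ℕ) (A : ValuationSubring Qb) (E : IntermediateField ℚ Qb)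

/-! ### Coefficients of elements of `Fc` lie in `E` -/

/-- The subfield of `Q̄((q))` of series with coefficients in `E`. -/
def coeffField : Subfield (LaurentSeries Qb) :=
  (coeffMap (algebraMap E Qb)).fieldRange

theorem mem_coeffField_iff {g : LaurentSeries Qb} :
    g ∈ coeffField E ↔ ∃ h : LaurentSeries E, coeffMap (algebraMap E Qb) h = g := Iff.rfl

theorem coeff_mem_of_mem_coeffField {g : LaurentSeries Qb} (hg : g ∈ coeffField E) (n : ℤ) :
    g.coeff n ∈ E := by
  obtain ⟨h, rfl⟩ := hg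
  rw [coeffMap_coeff]
  exact (h.coeff n).2

theorem val_cst (c : Qb) : ((cst M c : Om M) : LaurentSeries Qb) =
    HahnSeries.single 0 c := by
  show algebraMap Qb (LaurentSeries Qb) c = _
  exact algebraMap_laurentSeries_eq_single Qb c

theorem coeffEmb_mem_coeffField (z : LaurentSeries ℚ) : coeffEmb Qb z ∈ coeffField E := by
  refine ⟨coeffMap (algebraMap ℚ E) z, ?_⟩
  rw [coeffMap_coeffMap, coeffEmb]
  exact coeffMap_congr (RingHom.ext_rat _ _) z

theorem val_mem_coeffField {f : Om M} (hf : f ∈ Fc M E) :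
    (f : LaurentSeries Qb) ∈ coeffField E := by
  unfold Fc at hf
  induction hf using Subfield.closure_induction with
  | mem y hy =>
      rcases hy with hy | hy
      · obtain ⟨c, hc, rfl⟩ := (mem_Ec_iff M E).1 hy
        rw [val_cst]
        exact ⟨HahnSeries.single 0 ⟨c, hc⟩, by rw [coeffMap_single]; rfl⟩
      · obtain ⟨d, hd, hdM, rfl⟩ := hy
        exact coeffEmb_mem_coeffField E _
  | one => exact one_mem _
  | add x y _ _ hx hy => exact add_mem hx hy
  | neg x _ hx => exact neg_mem hx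
  | inv x _ hx =>
      show ((x⁻¹ : Om M) : LaurentSeries Qb) ∈ _
      rw [show ((x⁻¹ : Om M) : LaurentSeries Qb) = (x : LaurentSeries Qb)⁻¹ from rfl]
      exact inv_mem hx
  | mul x y _ _ hx hy => exact mul_mem hx hy

theorem coeff_mem_of_mem_Fc {f : Om M} (hf : f ∈ Fc M E) (n : ℤ) :
    (f : LaurentSeries Qb).coeff n ∈ E :=
  coeff_mem_of_mem_coeffField E (val_mem_coeffField M E hf) n

/-! ### Elements of `ℚ(j_d)` lie in `Fc` -/

theorem ratCast_mem_Fc (c : ℚ) : cst M (algebraMap ℚ Qb c) ∈ Fc M E :=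
  field_E_le_F M E (cst_mem_Ec M E (E.algebraMap_mem c))

/-- The image of `z ∈ ℚ(j_d : d ∣ M)` in `Ω`. -/
def ofFull [NeZero M] (z : LaurentSeries ℚ) (hz : z ∈ modularFunctionFieldFull M) : Om M :=
  ⟨coeffEmb Qb z, coeffEmb_mem_laurentBaseChange Qb hz⟩

theorem ofFull_mem_Fc [NeZero M] (z : LaurentSeries ℚ) (hz : z ∈ modularFunctionFieldFull M) :
    ofFull M z hz ∈ Fc M E := by
  have hz' := hz
  unfold modularFunctionFieldFull at hz'
  -- induction over the adjoin, keeping track of membership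
  have key : ∀ y (hy : y ∈ IntermediateField.adjoin ℚ (divisorExpansions M)),
      ∃ h : y ∈ modularFunctionFieldFull M, ofFull M y h ∈ Fc M E := by
    intro y hy
    induction hy using IntermediateField.adjoin_induction with
    | mem y hy =>
        obtain ⟨d, hd, hdM, rfl⟩ := hy
        refine ⟨jqd_mem_full M hdM, ?_⟩
        exact Subfield.subset_closure (Or.inr ⟨d, hd, hdM, rfl⟩)
    | algebraMap c =>
        refine ⟨(modularFunctionFieldFull M).algebraMap_mem c, ?_⟩
        have : ofFull M (algebraMap ℚ (LaurentSeries ℚ) c)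
            ((modularFunctionFieldFull M).algebraMap_mem c) = cst M (algebraMap ℚ Qb c) := by
          apply Subtype.ext
          show coeffEmb Qb (algebraMap ℚ (LaurentSeries ℚ) c) = _
          rw [val_cst, coeffEmb, algebraMap_laurentSeries_eq_single, coeffMap_single]
        rw [this]
        exact ratCast_mem_Fc M E c
    | add x y _ _ hx hy =>
        obtain ⟨hx1, hx2⟩ := hx
        obtain ⟨hy1, hy2⟩ := hy
        refine ⟨add_mem hx1 hy1, ?_⟩
        have : ofFull M (x + y) (add_mem hx1 hy1) = ofFull M x hx1 + ofFull M y hy1 :=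
          Subtype.ext (map_add (coeffEmb Qb) x y)
        rw [this]
        exact add_mem hx2 hy2
    | inv x _ hx =>
        obtain ⟨hx1, hx2⟩ := hx
        refine ⟨inv_mem hx1, ?_⟩
        have : ofFull M x⁻¹ (inv_mem hx1) = (ofFull M x hx1)⁻¹ :=
          Subtype.ext (map_inv₀ (coeffEmb Qb) x)
        rw [this]
        exact inv_mem hx2
    | mul x y _ _ hx hy =>
        obtain ⟨hx1, hx2⟩ := hx
        obtain ⟨hy1, hy2⟩ := hy
        refine ⟨mul_mem hx1 hy1, ?_⟩
        have : ofFull M (x * y) (mul_mem hx1 hy1) = ofFull M x hx1 * ofFull M y hy1 :=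
          Subtype.ext (map_mul (coeffEmb Qb) x y)
        rw [this]
        exact mul_mem hx2 hy2
  obtain ⟨_, h⟩ := key z hz'
  exact h

/-! ### `compositum` -/

theorem field_compositum [NeZero M] :
    Subfield.closure ((Fc M E : Set (Om M)) ∪ Lc M) = ⊤ := by
  rw [eq_top_iff]
  rintro ⟨f, hf⟩ -
  set T : Subfield (Om M) := Subfield.closure ((Fc M E : Set (Om M)) ∪ Lc M) with hT
  let val : Om M →+* LaurentSeries Qb := (modularFunctionFieldBar M).val.toRingHom
  have hle : Subfield.closure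
        (Set.range (algebraMap Qb (LaurentSeries Qb)) ∪
          (⇑(coeffEmb Qb) '' (modularFunctionFieldFull M : Set (LaurentSeries ℚ)))) ≤
      T.map val := by
    rw [Subfield.closure_le]
    rintro y (⟨c, rfl⟩ | ⟨z, hz, rfl⟩)
    · exact ⟨cst M c, Subfield.subset_closure (Or.inr (cst_mem_Lc M c)), rfl⟩
    · exact ⟨ofFull M z hz, Subfield.subset_closure (Or.inl (ofFull_mem_Fc M E z hz)), rfl⟩
  obtain ⟨t, ht, htf⟩ := hle (mem_laurentBaseChange_iff.1 hf)
  have : t = ⟨f, hf⟩ := Subtype.ext htf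
  rw [← this]
  exact ht

end Fermat.Agent.S18.H456

end
end
-- ===== PACK-END S18/H456/ModFields.lean

-- ===== PACK-BEGIN S18/H456/ModCoord.lean
section


/-!
# S18 / MOD assembly (helper456): `E_closed_in_F`, `x_mem`, `x_transcendental`
-/

set_option autoImplicit false

noncomputable section

namespace Fermat.Agent.S18.H456

open ModularCurve AlgebraicCurve HahnSeries Fermat.Agent.S18 Fermat.Agent.S18.Mod

variable (M : ℕ) (A : ValuationSubring Qb) (E : IntermediateField ℚ Qb)

/-- `Q̄ ≃ Lc`. -/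
def LcEquiv : Qb ≃+* Lc M :=
  RingEquiv.ofBijective (algebraMap Qb (Om M)).rangeRestrictField
    ⟨(algebraMap Qb (Om M)).rangeRestrictField.injective, fun ⟨_, c, hc⟩ => ⟨c, Subtype.ext hc⟩⟩

theorem cst_LcEquiv_symm (y : Lc M) : cst M ((LcEquiv M).symm y) = (y : Om M) := by
  have h := (LcEquiv M).apply_symm_apply y
  exact congrArg Subtype.val h

/-- An element of `Ω` which is algebraic over a field of constants is constant. -/
theorem exists_cst_of_isAlgebraic (K₀ : Subfield (Om M)) (hK : K₀ ≤ Lc M) (f : Om M)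
    (hf : IsAlgebraic K₀ f) : ∃ c : Qb, f = cst M c := by
  obtain ⟨p, hp0, hp⟩ := hf
  let ψ : K₀ →+* Qb := ((LcEquiv M).symm : Lc M →+* Qb).comp (Subfield.inclusion hK)
  have hψ : ∀ y : K₀, cst M (ψ y) = (y : Om M) := fun y =>
    cst_LcEquiv_symm M (Subfield.inclusion hK y)
  let val : Om M →+* LaurentSeries Qb := (modularFunctionFieldBar M).val.toRingHom
  have hcomp : val.comp (algebraMap K₀ (Om M)) =
      (algebraMap Qb (LaurentSeries Qb)).comp ψ := by
    ext1 y
    show ((algebraMap K₀ (Om M) y : Om M) : LaurentSeries Qb) =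
      algebraMap Qb (LaurentSeries Qb) (ψ y)
    have : (algebraMap K₀ (Om M) y : Om M) = cst M (ψ y) := (hψ y).symm
    rw [this]
    rfl
  have halg : IsAlgebraic Qb (f : LaurentSeries Qb) := by
    refine ⟨p.map ψ, (Polynomial.map_ne_zero_iff ψ.injective).2 hp0, ?_⟩
    rw [Polynomial.aeval_def, Polynomial.eval₂_map, ← hcomp]
    have h := Polynomial.hom_eval₂ p (algebraMap K₀ (Om M)) val f
    rw [Polynomial.aeval_def] at hp
    rw [hp, map_zero] at h
    exact h.symm
  obtain ⟨c, hc⟩ := laurent_const_of_isAlgebraic _ halg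
  exact ⟨c, Subtype.ext hc⟩

theorem field_E_closed_in_F : ∀ f ∈ Fc M E, IsAlgebraic (Ec M E) f → f ∈ Ec M E := by
  intro f hf halg
  obtain ⟨c, rfl⟩ := exists_cst_of_isAlgebraic M (Ec M E) (field_E_le_L M E) f halg
  have h := coeff_mem_of_mem_Fc M E hf 0
  rw [val_cst, HahnSeries.coeff_single_same] at h
  exact cst_mem_Ec M E h

/-! ### The coordinate -/

/-- The data of an integral `q`-expansion `q⁻¹ + …` of the coordinate. -/
def HasIntExp [NeZero M] (x : Om M) : Prop :=
  ∃ X : LaurentSeries ℤ, X.coeff (-1) = 1 ∧ (∀ k : ℤ, k < -1 → X.coeff k = 0) ∧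
     (x : LaurentSeries Qb) = coeffMap (Int.castRingHom Qb) X ∧
     coeffMap (Int.castRingHom ℚ) X ∈ modularFunctionFieldFull M

theorem val_jOm [NeZero M] : ((jOm M : Om M) : LaurentSeries Qb) = jqModC Qb := by
  show coeffEmb Qb (qExpand ℚ 1 jq) = _
  rw [qExpand_one_apply]
  exact coeffMap_jqModC (algebraMap ℚ Qb)

theorem hasIntExp_jOm [NeZero M] : HasIntExp M (jOm M) := by
  refine ⟨jqModC ℤ, coeff_jqModC_neg_one ℤ, fun k hk => coeff_jqModC_of_lt ℤ hk, ?_, ?_⟩
  · rw [val_jOm, coeffMap_jqModC]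
  · rw [coeffMap_jqModC]
    exact modularFunctionField_le_full M (jq_mem M)

theorem hasIntExp_of_isCoordinate [NeZero M] {ℓ : ℕ} {x : Om M} {S : Finset (Om M)}
    (hx : IsCoordinate M ℓ x S) : HasIntExp M x := by
  rcases hx with ⟨-, rfl, -⟩ | ⟨-, h⟩
  · exact hasIntExp_jOm M
  · exact h

theorem coeff_neg_one_of_hasIntExp [NeZero M] {x : Om M} (hx : HasIntExp M x) :
    (x : LaurentSeries Qb).coeff (-1) = 1 := by
  obtain ⟨X, h1, -, h3, -⟩ := hx
  rw [h3, coeffMap_coeff, h1, map_one]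

theorem coeff_of_lt_of_hasIntExp [NeZero M] {x : Om M} (hx : HasIntExp M x) {k : ℤ}
    (hk : k < -1) : (x : LaurentSeries Qb).coeff k = 0 := by
  obtain ⟨X, -, h2, h3, -⟩ := hx
  rw [h3, coeffMap_coeff, h2 k hk, map_zero]

theorem mem_Fc_of_hasIntExp [NeZero M] {x : Om M} (hx : HasIntExp M x) : x ∈ Fc M E := by
  obtain ⟨X, -, -, h3, h4⟩ := hx
  have : x = ofFull M _ h4 := by
    apply Subtype.ext
    rw [h3]
    show _ = coeffEmb Qb (coeffMap (Int.castRingHom ℚ) X)
    rw [coeffEmb, coeffMap_coeffMap]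
    exact coeffMap_congr (RingHom.ext_int _ _) X
  rw [this]
  exact ofFull_mem_Fc M E _ h4

theorem transcendental_of_hasIntExp [NeZero M] {x : Om M} (hx : HasIntExp M x) :
    Transcendental (Lc M) x := by
  intro halg
  obtain ⟨c, hc⟩ := exists_cst_of_isAlgebraic M (Lc M) le_rfl x halg
  have h := coeff_neg_one_of_hasIntExp M hx
  rw [hc, val_cst, HahnSeries.coeff_single_of_ne (by decide)] at h
  exact zero_ne_one h

theorem field_x_mem [NeZero M] {ℓ : ℕ} {x : Om M} {S : Finset (Om M)}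
    (hx : IsCoordinate M ℓ x S) : x ∈ Fc M E :=
  mem_Fc_of_hasIntExp M E (hasIntExp_of_isCoordinate M hx)

theorem field_x_transcendental [NeZero M] {ℓ : ℕ} {x : Om M} {S : Finset (Om M)}
    (hx : IsCoordinate M ℓ x S) : Transcendental (Lc M) x :=
  transcendental_of_hasIntExp M (hasIntExp_of_isCoordinate M hx)

end Fermat.Agent.S18.H456

end
end
-- ===== PACK-END S18/H456/ModCoord.lean

-- ===== PACK-BEGIN A2/Mod/H189/ChartChangeT3.lean
section


/-!
# Cell A2 / MOD, GOODRED part G3 (helper189): from the `t₃`-charts to the `j`-charts (`q = 2`)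

Abstract setting (Mathlib only): `F` a field over `R`, `3` a unit of `R`, `t, j ∈ F` with
`j t³ = (t + 27)(t + 243)³` (`t` = Hauptmodul of `X₀(3)`), `j ≠ 0`; `V` a subring of `F`
containing `R` in which `t`, `t + 27`, `t + 243` are units (the Gauss valuation ring), `w : F`.

* `goodOn_j_of_t3`    : `GoodOn` for the chart of `R[t]` ⟹ `GoodOn` for the chart of `R[j]`;
* `goodOn_jinv_of_t3` : `GoodOn` for the charts of `R[t]` and `R[1/t]` ⟹ `GoodOn` for the chart of
  `R[1/j]`  (`IC(R[1/j]) = IC(R[u₁, u₂])`, `u₁ = 1/(t+27)`, `u₂ = 1/(t+243)`, glued from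
  `IC(R[t])[1/((t+27)(t+243))]` and `IC(R[1/t])[1/((1+27/t)(1+243/t))]`).
-/

set_option autoImplicit false

namespace Fermat.Agent.A2.Mod.H189

variable {R : Type*} [CommRing R] {F : Type*} [Field F] [Algebra R F]

section T3

variable {V : Subring F} {w : F} {t j : F} (i : R)

include i in
theorem t3_facts (hi : (3 : R) * i = 1) (hj : j ≠ 0)
    (hrel : j * t ^ 3 = (t + 27) * (t + 243) ^ 3) :
    (3 : F) * algebraMap R F i = 1 ∧ (3 : F) ≠ 0 ∧ t ≠ 0 ∧ t + 27 ≠ 0 ∧ t + 243 ≠ 0 := by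
  have h1 : (3 : F) * algebraMap R F i = 1 := by
    have := congrArg (algebraMap R F) hi
    rwa [map_mul, map_one, map_ofNat] at this
  have h2 : (3 : F) ≠ 0 := fun h => by rw [h, zero_mul] at h1; exact zero_ne_one h1
  have h27 : (27 : F) ≠ 0 := by
    have : (27 : F) = 3 ^ 3 := by norm_num
    rw [this]
    exact pow_ne_zero 3 h2
  have h243 : (243 : F) ≠ 0 := by
    have : (243 : F) = 3 ^ 5 := by norm_num
    rw [this]
    exact pow_ne_zero 5 h2
  have h3 : t ≠ 0 := by
    intro h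
    rw [h] at hrel
    simp only [ne_eq, OfNat.ofNat_ne_zero, not_false_eq_true, zero_pow, mul_zero, zero_add] at hrel
    exact mul_ne_zero h27 (pow_ne_zero 3 h243) hrel.symm
  have hjt : j * t ^ 3 ≠ 0 := mul_ne_zero hj (pow_ne_zero 3 h3)
  refine ⟨h1, h2, h3, fun h => hjt ?_, fun h => hjt ?_⟩
  · rw [hrel, h, zero_mul]
  · rw [hrel, h]
    simp

include i in
/-- **`t₃ → j`, finite chart.** -/
theorem goodOn_j_of_t3 (hi : (3 : R) * i = 1) (hj : j ≠ 0)
    (hrel : j * t ^ 3 = (t + 27) * (t + 243) ^ 3)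
    (htV : t ∈ V) (htV' : t⁻¹ ∈ V) (hg : GoodOn V w (Aof R t)) : GoodOn V w (Aof R j) := by
  obtain ⟨hi', h3, ht0, -, -⟩ := t3_facts i hi hj hrel
  have hjeq : j = (t + 27) * (t + 243) ^ 3 * t⁻¹ ^ 3 := by
    field_simp
    exact hrel
  refine (hg.loc (self_mem_Aof t) ht0 htV htV').congr ?_ ?_
  · intro a ha
    refine isIntegral_of_mem_locSub (A' := Aof R j) (fun a ha => ?_) ?_ ha
    · refine isIntegral_of_mem_adjoin (A := Aof R j) (S := {t}) (fun x hx => ?_) ha
      rw [Set.mem_singleton_iff] at hx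
      subst hx
      refine isIntegral_of_quartic (a := 1) (v := 1) (c₃ := 756 - j) (c₂ := 196830)
        (c₁ := 19131876) (c₀ := 387420489) (Subalgebra.one_mem _) (one_mul 1)
        (Subalgebra.sub_mem _ (ofNat_mem_sub _ 756) (self_mem_Aof j))
        (ofNat_mem_sub _ 196830) (ofNat_mem_sub _ 19131876) (ofNat_mem_sub _ 387420489) ?_
      linear_combination -hrel
    · refine isIntegral_of_quartic (a := 387420489) (v := algebraMap R F (i ^ 18))
        (c₃ := 19131876) (c₂ := 196830) (c₁ := 756 - j) (c₀ := 1)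
        (Subalgebra.algebraMap_mem _ _) ?_
        (ofNat_mem_sub _ 19131876) (ofNat_mem_sub _ 196830)
        (Subalgebra.sub_mem _ (ofNat_mem_sub _ 756) (self_mem_Aof j)) (Subalgebra.one_mem _) ?_
      · rw [map_pow]
        have : (387420489 : F) = 3 ^ 18 := by norm_num
        rw [this, ← mul_pow, mul_comm, hi', one_pow]
      · field_simp
        linear_combination -hrel
  · intro a ha
    refine isIntegral_of_mem (Aof_le (B := locSub (Aof R t) t) ?_ ha)
    rw [hjeq]
    refine Subalgebra.mul_mem _ (Subalgebra.mul_mem _ (Subalgebra.add_mem _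
        (le_locSub _ _ (self_mem_Aof t)) (ofNat_mem_sub _ 27))
      (Subalgebra.pow_mem _ (Subalgebra.add_mem _
        (le_locSub _ _ (self_mem_Aof t)) (ofNat_mem_sub _ 243)) 3))
      (Subalgebra.pow_mem _ (inv_mem_locSub _ _) 3)

include i in
/-- **`t₃ → j`, chart at infinity.** -/
theorem goodOn_jinv_of_t3 (hi : (3 : R) * i = 1) (hj : j ≠ 0)
    (hrel : j * t ^ 3 = (t + 27) * (t + 243) ^ 3) (hRV : ∀ r : R, algebraMap R F r ∈ V)
    (htV : t ∈ V) (htV' : t⁻¹ ∈ V) (hu₁V : (t + 27)⁻¹ ∈ V) (hu₂V : (t + 243)⁻¹ ∈ V)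
    (hg : GoodOn V w (Aof R t)) (hg' : GoodOn V w (Aof R t⁻¹)) : GoodOn V w (Aof R j⁻¹) := by
  obtain ⟨hi', h3, ht0, ht27, ht243⟩ := t3_facts i hi hj hrel
  have hi27 : (27 : F) * algebraMap R F (i ^ 3) = 1 := by
    rw [map_pow]
    have : (27 : F) = 3 ^ 3 := by norm_num
    rw [this, ← mul_pow, hi', one_pow]
  have h27V : (27 : F) ∈ V := by
    have := hRV 27
    rwa [map_ofNat] at this
  have h243V : (243 : F) ∈ V := by
    have := hRV 243
    rwa [map_ofNat] at this
  set u₁ : F := (t + 27)⁻¹ with hu₁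
  set u₂ : F := (t + 243)⁻¹ with hu₂
  have hu₁0 : u₁ ≠ 0 := inv_ne_zero ht27
  have hu₂0 : u₂ ≠ 0 := inv_ne_zero ht243
  have htu₁ : t * u₁ = 1 - 27 * u₁ := by
    rw [hu₁]
    field_simp
    ring
  have htu₂ : t * u₂ = 1 - 243 * u₂ := by
    rw [hu₂]
    field_simp
    ring
  have hjinv : j⁻¹ = (1 - 243 * u₂) ^ 2 * (1 - 27 * u₁) * u₂ := by
    rw [← htu₁, ← htu₂, hu₁, hu₂]
    field_simp
    linear_combination -hrel
  have h1u₁0 : 1 - 27 * u₁ ≠ 0 := by
    rw [← htu₁]
    exact mul_ne_zero ht0 hu₁0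
  have h1u₂0 : 1 - 243 * u₂ ≠ 0 := by
    rw [← htu₂]
    exact mul_ne_zero ht0 hu₂0
  have hinv1 : (1 - 27 * u₁)⁻¹ = 1 + 27 * t⁻¹ := by
    rw [← htu₁, hu₁]
    field_simp
  have hinv2 : (1 - 243 * u₂)⁻¹ = 1 + 243 * t⁻¹ := by
    rw [← htu₂, hu₂]
    field_simp
  -- the two denominators
  set D : F := (t + 27) * (t + 243) with hD
  set D' : F := (1 + 27 * t⁻¹) * (1 + 243 * t⁻¹) with hD'
  have hD0 : D ≠ 0 := mul_ne_zero ht27 ht243
  have hDinv : D⁻¹ = u₁ * u₂ := by rw [hD, mul_inv]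
  have hD'inv : D'⁻¹ = (1 - 27 * u₁) * (1 - 243 * u₂) := by
    rw [hD', mul_inv, ← hinv1, ← hinv2, inv_inv, inv_inv]
  have hD'0 : D' ≠ 0 := by
    intro h
    rw [h, inv_zero] at hD'inv
    exact mul_ne_zero h1u₁0 h1u₂0 hD'inv.symm
  -- the chart of `R[u₁, u₂]`
  set A' : Subalgebra R F := Algebra.adjoin R ({u₁, u₂} : Set F) with hA'
  have hu₁A : u₁ ∈ A' := Algebra.subset_adjoin (Set.mem_insert _ _)
  have hu₂A : u₂ ∈ A' := Algebra.subset_adjoin (Set.mem_insert_of_mem _ rfl)
  have hA'le : ∀ {B : Subalgebra R F}, u₁ ∈ B → u₂ ∈ B → A' ≤ B := by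
    intro B h1 h2
    refine Algebra.adjoin_le ?_
    rintro x (hx | hx)
    · rw [hx]; exact h1
    · rw [Set.mem_singleton_iff] at hx
      rw [hx]; exact h2
  have hgA : GoodOn V w A' := by
    refine GoodOn.glue (s₁ := u₁) (s₂ := 1 - 27 * u₁) (α := 27) (β := 1)
      (adjoin_subset_subring hRV (by
        rintro x (hx | hx)
        · rw [hx]; exact hu₁V
        · rw [Set.mem_singleton_iff] at hx
          rw [hx]; exact hu₂V))
      hu₁A
      (Subalgebra.sub_mem _ (Subalgebra.one_mem _)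
        (Subalgebra.mul_mem _ (ofNat_mem_sub _ 27) hu₁A))
      (ofNat_mem_sub _ 27) (Subalgebra.one_mem _) (by ring) ?_ ?_
    · -- `R[u₁, u₂, 1/u₁] = R[t, 1/D]`
      refine (hg.loc (s := D) (Subalgebra.mul_mem _
          (Subalgebra.add_mem _ (self_mem_Aof t) (ofNat_mem_sub _ 27))
          (Subalgebra.add_mem _ (self_mem_Aof t) (ofNat_mem_sub _ 243)))
        hD0 (V.mul_mem (V.add_mem htV h27V) (V.add_mem htV h243V)) ?_).of_le_of_le ?_ ?_
      · rw [hDinv]
        exact V.mul_mem hu₁V hu₂V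
      · refine locSub_le (Aof_le ?_) ?_
        · have : t = u₁⁻¹ - 27 := by rw [hu₁, inv_inv]; ring
          rw [this]
          exact Subalgebra.sub_mem _ (inv_mem_locSub _ _) (ofNat_mem_sub _ 27)
        · rw [hDinv]
          exact le_locSub _ _ (Subalgebra.mul_mem _ hu₁A hu₂A)
      · refine locSub_le (hA'le ?_ ?_) ?_
        · have : u₁ = (t + 243) * D⁻¹ := by
            rw [hD, hu₁]
            field_simp
          rw [this]
          exact Subalgebra.mul_mem _ (le_locSub _ _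
            (Subalgebra.add_mem _ (self_mem_Aof t) (ofNat_mem_sub _ 243))) (inv_mem_locSub _ _)
        · have : u₂ = (t + 27) * D⁻¹ := by
            rw [hD, hu₂]
            field_simp
          rw [this]
          exact Subalgebra.mul_mem _ (le_locSub _ _
            (Subalgebra.add_mem _ (self_mem_Aof t) (ofNat_mem_sub _ 27))) (inv_mem_locSub _ _)
        · rw [hu₁, inv_inv]
          exact le_locSub _ _ (Subalgebra.add_mem _ (self_mem_Aof t) (ofNat_mem_sub _ 27))
    · -- `R[u₁, u₂, 1/(1 - 27 u₁)] = R[1/t, 1/D']`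
      refine (hg'.loc (s := D') (Subalgebra.mul_mem _
          (Subalgebra.add_mem _ (Subalgebra.one_mem _)
            (Subalgebra.mul_mem _ (ofNat_mem_sub _ 27) (self_mem_Aof t⁻¹)))
          (Subalgebra.add_mem _ (Subalgebra.one_mem _)
            (Subalgebra.mul_mem _ (ofNat_mem_sub _ 243) (self_mem_Aof t⁻¹))))
        hD'0 (V.mul_mem (V.add_mem V.one_mem (V.mul_mem h27V htV'))
          (V.add_mem V.one_mem (V.mul_mem h243V htV'))) ?_).of_le_of_le ?_ ?_
      · rw [hD'inv, ← htu₁, ← htu₂]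
        exact V.mul_mem (V.mul_mem htV hu₁V) (V.mul_mem htV hu₂V)
      · refine locSub_le (Aof_le ?_) ?_
        · have : t⁻¹ = algebraMap R F (i ^ 3) * ((1 - 27 * u₁)⁻¹ - 1) := by
            rw [hinv1]
            linear_combination (-t⁻¹) * hi27
          rw [this]
          exact Subalgebra.mul_mem _ (Subalgebra.algebraMap_mem _ _)
            (Subalgebra.sub_mem _ (inv_mem_locSub _ _) (Subalgebra.one_mem _))
        · rw [hD'inv]
          exact le_locSub _ _ (Subalgebra.mul_mem _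
            (Subalgebra.sub_mem _ (Subalgebra.one_mem _)
              (Subalgebra.mul_mem _ (ofNat_mem_sub _ 27) hu₁A))
            (Subalgebra.sub_mem _ (Subalgebra.one_mem _)
              (Subalgebra.mul_mem _ (ofNat_mem_sub _ 243) hu₂A)))
      · refine locSub_le (hA'le ?_ ?_) ?_
        · have : u₁ = t⁻¹ * (1 + 243 * t⁻¹) * D'⁻¹ := by
            rw [hD', hu₁]
            field_simp
          rw [this]
          exact Subalgebra.mul_mem _ (le_locSub _ _ (Subalgebra.mul_mem _ (self_mem_Aof t⁻¹)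
            (Subalgebra.add_mem _ (Subalgebra.one_mem _)
              (Subalgebra.mul_mem _ (ofNat_mem_sub _ 243) (self_mem_Aof t⁻¹)))))
            (inv_mem_locSub _ _)
        · have : u₂ = t⁻¹ * (1 + 27 * t⁻¹) * D'⁻¹ := by
            rw [hD', hu₂]
            field_simp
          rw [this]
          exact Subalgebra.mul_mem _ (le_locSub _ _ (Subalgebra.mul_mem _ (self_mem_Aof t⁻¹)
            (Subalgebra.add_mem _ (Subalgebra.one_mem _)
              (Subalgebra.mul_mem _ (ofNat_mem_sub _ 27) (self_mem_Aof t⁻¹)))))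
            (inv_mem_locSub _ _)
        · rw [hinv1]
          exact le_locSub _ _ (Subalgebra.add_mem _ (Subalgebra.one_mem _)
            (Subalgebra.mul_mem _ (ofNat_mem_sub _ 27) (self_mem_Aof t⁻¹)))
  -- `IC(R[1/j]) = IC(R[u₁, u₂])`
  refine hgA.congr ?_ ?_
  · intro a ha
    refine isIntegral_of_mem_adjoin (A := Aof R j⁻¹) (S := {u₁, u₂}) (fun x hx => ?_) ha
    rcases hx with hx | hx
    · rw [hx]
      -- `(1 - 27 u₁)³ u₁ = (1/j) (1 + 216 u₁)³`
      have hrel₁ : (1 - 27 * u₁) ^ 3 * u₁ = j⁻¹ * (1 + 216 * u₁) ^ 3 := by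
        rw [hjinv, hu₁, hu₂]
        field_simp
        ring
      refine isIntegral_of_quartic (a := -19683) (v := algebraMap R F (-(i ^ 9)))
        (c₃ := 2187 - 10077696 * j⁻¹) (c₂ := -81 - 139968 * j⁻¹) (c₁ := 1 - 648 * j⁻¹)
        (c₀ := -j⁻¹) (Subalgebra.algebraMap_mem _ _) ?_ ?_ ?_ ?_ ?_ ?_
      · rw [map_neg, map_pow]
        have : (-19683 : F) = -(3 ^ 9) := by norm_num
        rw [this, neg_mul_neg, ← mul_pow, mul_comm, hi', one_pow]
      · exact Subalgebra.sub_mem _ (ofNat_mem_sub _ 2187)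
          (Subalgebra.mul_mem _ (ofNat_mem_sub _ 10077696) (self_mem_Aof j⁻¹))
      · exact Subalgebra.sub_mem _ (Subalgebra.neg_mem _ (ofNat_mem_sub _ 81))
          (Subalgebra.mul_mem _ (ofNat_mem_sub _ 139968) (self_mem_Aof j⁻¹))
      · exact Subalgebra.sub_mem _ (Subalgebra.one_mem _)
          (Subalgebra.mul_mem _ (ofNat_mem_sub _ 648) (self_mem_Aof j⁻¹))
      · exact Subalgebra.neg_mem _ (self_mem_Aof j⁻¹)
      · linear_combination hrel₁
    · rw [Set.mem_singleton_iff] at hx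
      rw [hx]
      -- `(1 - 243 u₂)³ u₂ = (1/j) (1 - 216 u₂)`
      have hrel₂ : (1 - 243 * u₂) ^ 3 * u₂ = j⁻¹ * (1 - 216 * u₂) := by
        rw [hjinv, hu₁, hu₂]
        field_simp
        ring
      refine isIntegral_of_quartic (a := -14348907) (v := algebraMap R F (-(i ^ 15)))
        (c₃ := 177147) (c₂ := -729) (c₁ := 1 + 216 * j⁻¹)
        (c₀ := -j⁻¹) (Subalgebra.algebraMap_mem _ _) ?_ ?_ ?_ ?_ ?_ ?_
      · rw [map_neg, map_pow]
        have : (-14348907 : F) = -(3 ^ 15) := by norm_num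
        rw [this, neg_mul_neg, ← mul_pow, mul_comm, hi', one_pow]
      · exact ofNat_mem_sub _ 177147
      · exact Subalgebra.neg_mem _ (ofNat_mem_sub _ 729)
      · exact Subalgebra.add_mem _ (Subalgebra.one_mem _)
          (Subalgebra.mul_mem _ (ofNat_mem_sub _ 216) (self_mem_Aof j⁻¹))
      · exact Subalgebra.neg_mem _ (self_mem_Aof j⁻¹)
      · linear_combination hrel₂
  · intro a ha
    refine isIntegral_of_mem (Aof_le (B := A') ?_ ha)
    rw [hjinv]
    exact Subalgebra.mul_mem _ (Subalgebra.mul_mem _ (Subalgebra.pow_mem _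
      (Subalgebra.sub_mem _ (Subalgebra.one_mem _)
        (Subalgebra.mul_mem _ (ofNat_mem_sub _ 243) hu₂A)) 2)
      (Subalgebra.sub_mem _ (Subalgebra.one_mem _)
        (Subalgebra.mul_mem _ (ofNat_mem_sub _ 27) hu₁A))) hu₂A

end T3

end Fermat.Agent.A2.Mod.H189

end
-- ===== PACK-END A2/Mod/H189/ChartChangeT3.lean

-- ===== PACK-BEGIN S17/H20/RatField.lean
section




/-!
# S17 / G-DIV (helper20): evaluation at places and functions defined over a subfield (for TRANS)

Setting: `L` an uncountable algebraically closed field of characteristic zero,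
`F_L = laurentBaseChange L F₀`, `K₁ ⊆ L` a countable subfield.

* `evAt P hP : O_P →+* L` : evaluation at a place of degree one.
* `ratField F₀ K₁` : the subfield of `F_L` generated by the constants of `K₁` and by the image of
  `F₀` ("functions defined over `K₁`"); it is fixed pointwise by every `σ ∈ Aut(L/K₁)`.
The transitivity statement itself (`stmtTRANS`) is in `TransStmt.lean`.
-/

set_option autoImplicit false
set_option linter.style.haveILetI false

noncomputable section

open AlgebraicCurve ModularCurve Cardinal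
open scoped Pointwise

namespace Fermat.Agent.S17.H20

section Eval

variable {K F : Type*} [Field K] [Field F] [Algebra K F]

theorem bijective_algebraMap_residueField (P : Place K F) (hP : P.deg = 1) :
    Function.Bijective (algebraMap K P.ResidueField) := by
  refine ⟨(algebraMap K P.ResidueField).injective, fun x => ?_⟩
  have h1 : (1 : P.ResidueField) ≠ 0 := one_ne_zero
  have hspan := (finrank_eq_one_iff_of_nonzero' (1 : P.ResidueField) h1).mp hP
  obtain ⟨c, hc⟩ := hspan x
  refine ⟨c, ?_⟩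
  rw [← hc, Algebra.smul_def, mul_one]

/-- Evaluation at a place of degree one. -/
def evAt (P : Place K F) (hP : P.deg = 1) : P.toValuationSubring →+* K :=
  ((RingEquiv.ofBijective (algebraMap K P.ResidueField)
    (bijective_algebraMap_residueField P hP)).symm : P.ResidueField →+* K).comp
    (IsLocalRing.residue P.toValuationSubring)

theorem algebraMap_evAt (P : Place K F) (hP : P.deg = 1) (x : P.toValuationSubring) :
    algebraMap K P.ResidueField (evAt P hP x) = IsLocalRing.residue P.toValuationSubring x := by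
  unfold evAt
  simp only [RingHom.coe_comp, RingHom.coe_coe, Function.comp_apply]
  exact (RingEquiv.ofBijective (algebraMap K P.ResidueField)
    (bijective_algebraMap_residueField P hP)).apply_symm_apply _

theorem evAt_algebraMap (P : Place K F) (hP : P.deg = 1) (c : K) :
    evAt P hP (algebraMap K P.toValuationSubring c) = c := by
  apply (algebraMap K P.ResidueField).injective
  rw [algebraMap_evAt]
  rfl

theorem evAt_eq_zero_iff (P : Place K F) (hP : P.deg = 1) (x : P.toValuationSubring) :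
    evAt P hP x = 0 ↔ x ∈ IsLocalRing.maximalIdeal P.toValuationSubring := by
  rw [← IsLocalRing.residue_eq_zero_iff, ← algebraMap_evAt P hP x]
  constructor
  · intro h; rw [h, map_zero]
  · intro h
    exact (algebraMap K P.ResidueField).injective (by rw [h, map_zero])

theorem evAt_ne_zero_of_ord_eq_zero (P : Place K F) (hP : P.deg = 1)
    (x : P.toValuationSubring) (hx0 : (x : F) ≠ 0) (hx : P.ord (x : F) = 0) :
    evAt P hP x ≠ 0 := by
  rw [ne_eq, evAt_eq_zero_iff, Fermat.Agent.Lib.RR.mem_maximalIdeal_iff]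
  rintro (h | h)
  · exact hx0 h
  · omega

end Eval

end Fermat.Agent.S17.H20

namespace Fermat.Agent.S17.H20

section RatField

variable {L : Type*} [Field L] [Algebra ℚ L]
variable (F₀ : IntermediateField ℚ (LaurentSeries ℚ))

/-- Generators of the field of functions defined over `K₁`: constants of `K₁` and the image of
`F₀`. -/
def ratGen (K₁ : Subfield L) : Set (laurentBaseChange L F₀) :=
  (algebraMap L (laurentBaseChange L F₀)) '' (K₁ : Set L) ∪
    {x | ∃ y ∈ F₀, (x : LaurentSeries L) = coeffEmb L y}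

/-- The subfield of `F_L` of functions defined over `K₁`. -/
def ratField (K₁ : Subfield L) : Subfield (laurentBaseChange L F₀) :=
  Subfield.closure (ratGen F₀ K₁)

theorem algebraMap_mem_ratField (K₁ : Subfield L) {c : L} (hc : c ∈ K₁) :
    algebraMap L (laurentBaseChange L F₀) c ∈ ratField F₀ K₁ :=
  Subfield.subset_closure (Or.inl ⟨c, hc, rfl⟩)

theorem coeffEmb_mem_ratField (K₁ : Subfield L) {y : LaurentSeries ℚ} (hy : y ∈ F₀) :
    (⟨coeffEmb L y, coeffEmb_mem_laurentBaseChange L hy⟩ : laurentBaseChange L F₀)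
      ∈ ratField F₀ K₁ :=
  Subfield.subset_closure (Or.inr ⟨y, hy, rfl⟩)

/-- `ratField` is countable when `K₁` and `F₀` are. -/
theorem countable_ratField (K₁ : Subfield L) (hK₁ : (K₁ : Set L).Countable)
    (hF₀ : (F₀ : Set (LaurentSeries ℚ)).Countable) :
    #(ratField F₀ K₁) ≤ ℵ₀ := by
  have hgen : (ratGen F₀ K₁).Countable := by
    refine Set.Countable.union (hK₁.image _) ?_
    have hsub : {x : laurentBaseChange L F₀ | ∃ y ∈ F₀, (x : LaurentSeries L) = coeffEmb L y}
        ⊆ Set.range (fun y : F₀ => (⟨coeffEmb L (y : LaurentSeries ℚ),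
            coeffEmb_mem_laurentBaseChange L y.2⟩ : laurentBaseChange L F₀)) := by
      rintro x ⟨y, hy, hxy⟩
      exact ⟨⟨y, hy⟩, Subtype.ext hxy.symm⟩
    haveI : Countable F₀ := hF₀.to_subtype
    exact (Set.countable_range _).mono hsub
  refine (Subfield.cardinalMk_closure_le_max _).trans ?_
  exact max_le (Cardinal.mk_le_aleph0_iff.mpr hgen.to_subtype) le_rfl

/-- Automorphisms of `L` fixing `K₁` pointwise fix `ratField F₀ K₁` pointwise. -/
theorem smul_eq_of_mem_ratField (K₁ : Subfield L) (σ : L ≃ₐ[ℚ] L) (hσ : ∀ c ∈ K₁, σ c = c)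
    {a : laurentBaseChange L F₀} (ha : a ∈ ratField F₀ K₁) :
    arithmeticGalois F₀ σ • a = a := by
  induction ha using Subfield.closure_induction with
  | mem x hx =>
    rcases hx with ⟨c, hc, rfl⟩ | ⟨y, hy, hxy⟩
    · rw [SemilinearAut.smul_algebraMap]
      show algebraMap L _ (σ.toRingEquiv c) = _
      congr 1
      exact hσ c hc
    · apply Subtype.ext
      rw [coe_arithmeticGalois_smul, hxy]
      exact coeffMap_coeffEmb σ y
  | one => exact smul_one _
  | add x y _ _ hx hy => rw [smul_add, hx, hy]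
  | neg x _ hx => rw [smul_neg, hx]
  | inv x _ hx => rw [smul_inv'', hx]
  | mul x y _ _ hx hy => rw [smul_mul', hx, hy]

end RatField

end Fermat.Agent.S17.H20


end
end
-- ===== PACK-END S17/H20/RatField.lean

-- ===== PACK-BEGIN S37/H99/Formal.lean
section



/-!
# S37 (helper99): formal reduction R1

`SpecializationExists N p J` follows from the existence, for every prime `ℓ ∤ N * p` and every
valuation subring `A` over `ℓ`, of an additive "reduction map" `red : J →+ Y` (into ANY additive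
group, no Hecke structure on `Y`) with four pointwise properties.  The quotient `J'`, the map `sp`
and the Frobenius `F` of `IsSpecialization` are then constructed formally.
-/

set_option autoImplicit false

noncomputable section

namespace Fermat.Agent.S37.H99

open ModularCurve ValuationSubring

section Abstract

variable {K L : Type*} [Field K] [Field L] [Algebra K L]
variable (p : ℕ) (J : Type) [AddCommGroup J] [Module HeckeAlg J]
  [DistribMulAction (L ≃ₐ[K] L) J] [SMulCommClass (L ≃ₐ[K] L) HeckeAlg J]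

/-- The four pointwise properties of a reduction map at `(A, ℓ)`. -/
structure IsRed (A : ValuationSubring L) (ℓ : ℕ) (hℓ : ℓ.Prime) {Y : Type*} [AddCommGroup Y]
    (red : J →+ Y) : Prop where
  inertia : ∀ τ ∈ A.inertiaSubgroupIn K, ∀ x : J, red (τ • x) = red x
  frob_ker : ∀ σ : L ≃ₐ[K] L, A.IsFrobeniusAt σ ℓ → ∀ x : J, red x = 0 → red (σ • x) = 0
  inj_torsion : ∀ x : J, (∃ n : ℕ, p ^ n • x = 0) → red x = 0 → x = 0
  relation : ∀ σ : L ≃ₐ[K] L, A.IsFrobeniusAt σ ℓ → ∀ x : J,
    red (σ • σ • x - heckeGen ⟨ℓ, hℓ⟩ • (σ • x) + ℓ • x) = 0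

variable {p J}

/-- The largest Hecke submodule contained in the kernel of `red`. -/
def redKer {Y : Type*} [AddCommGroup Y] (red : J →+ Y) : Submodule HeckeAlg J where
  carrier := {x | ∀ t : HeckeAlg, red (t • x) = 0}
  zero_mem' := fun t => by simp
  add_mem' := by
    intro x y hx hy t
    rw [smul_add, map_add, hx t, hy t, add_zero]
  smul_mem' := by
    intro c x hx t
    rw [← mul_smul]
    exact hx (t * c)

theorem mem_redKer {Y : Type*} [AddCommGroup Y] (red : J →+ Y) (x : J) :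
    x ∈ redKer red ↔ ∀ t : HeckeAlg, red (t • x) = 0 := Iff.rfl

/-- two Frobenius elements at `A` differ by inertia -/
theorem inv_mul_mem_inertiaSubgroupIn {A : ValuationSubring L} {ℓ : ℕ} {σ₀ σ : L ≃ₐ[K] L}
    (h₀ : A.IsFrobeniusAt σ₀ ℓ) (h : A.IsFrobeniusAt σ ℓ) :
    σ₀⁻¹ * σ ∈ A.inertiaSubgroupIn K := by
  have hσ₀ := h₀.mem_decompositionSubgroup
  have hσ := h.mem_decompositionSubgroup
  let d₀ : A.decompositionSubgroup K := ⟨σ₀, hσ₀⟩
  let d : A.decompositionSubgroup K := ⟨σ, hσ⟩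
  refine ⟨d₀⁻¹ * d, ?_, rfl⟩
  refine MonoidHom.mem_ker.mpr ?_
  ext x
  show (d₀⁻¹ * d) • x = x
  rw [mul_smul]
  have h1 : d • x = x ^ ℓ := h.smul_residue_eq x
  have h2 : d₀ • x = x ^ ℓ := h₀.smul_residue_eq x
  rw [h1, ← h2, inv_smul_smul]

variable (p) in
/-- **R1 at one place.** -/
theorem exists_specialization_of_isRed (A : ValuationSubring L) (ℓ : ℕ) (hℓ : ℓ.Prime)
    (hfrob : ∃ σ₀ : L ≃ₐ[K] L, A.IsFrobeniusAt σ₀ ℓ)
    {Y : Type*} [AddCommGroup Y] (red : J →+ Y) (hred : IsRed (K := K) p J A ℓ hℓ red) :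
    ∃ (J' : Type) (_ : AddCommGroup J') (_ : Module HeckeAlg J') (sp : J →+ J')
      (F : J' →+ J'),
      IsSpecialization (K := K) p J J' A ℓ sp F ∧ SpecialFibreRelation J' ℓ hℓ F := by
  obtain ⟨σ₀, hσ₀⟩ := hfrob
  let M : Submodule HeckeAlg J := redKer red
  -- commutation of Galois with Hecke
  have hcomm : ∀ (g : L ≃ₐ[K] L) (t : HeckeAlg) (x : J), t • (g • x) = g • (t • x) :=
    fun g t x => (smul_comm g t x).symm
  -- Frobenius elements preserve `M`
  have hFM : ∀ σ : L ≃ₐ[K] L, A.IsFrobeniusAt σ ℓ → ∀ x ∈ M, σ • x ∈ M := by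
    intro σ hσ x hx t
    rw [hcomm]
    exact hred.frob_ker σ hσ _ (hx t)
  -- inertia acts trivially modulo `M`
  have hIM : ∀ τ ∈ A.inertiaSubgroupIn K, ∀ x : J, τ • x - x ∈ M := by
    intro τ hτ x t
    rw [smul_sub, map_sub, hcomm, hred.inertia τ hτ, sub_self]
  -- the additive endomorphism `x ↦ σ₀ • x` of `J`
  let φ : J →+ J := DistribSMul.toAddMonoidHom J σ₀
  have hφ : ∀ x, φ x = σ₀ • x := fun _ => rfl
  -- the induced map on the quotient
  let F : (J ⧸ M) →+ (J ⧸ M) :=
    QuotientAddGroup.map M.toAddSubgroup M.toAddSubgroup φ (by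
      intro x hx
      exact hFM σ₀ hσ₀ x hx)
  have hF : ∀ x : J, F (Submodule.Quotient.mk x) = Submodule.Quotient.mk (σ₀ • x) := fun _ => rfl
  let sp : J →+ (J ⧸ M) := (Submodule.mkQ M).toAddMonoidHom
  have hsp : ∀ x : J, sp x = Submodule.Quotient.mk x := fun _ => rfl
  refine ⟨J ⧸ M, inferInstance, inferInstance, sp, F, ⟨?_, ?_, ?_, ?_⟩, ?_⟩
  · -- hecke_comm
    intro T x
    rfl
  · -- inertia_comm
    intro τ hτ x
    rw [hsp, hsp, Submodule.Quotient.eq]
    exact hIM τ hτ x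
  · -- frobenius_comm
    intro σ hσ x
    rw [hsp, hsp, hF, Submodule.Quotient.eq]
    have hτ := inv_mul_mem_inertiaSubgroupIn hσ₀ hσ
    have h1 : σ • x - σ₀ • x = σ₀ • ((σ₀⁻¹ * σ) • x - x) := by
      rw [smul_sub, ← mul_smul, mul_inv_cancel_left]
    rw [h1]
    exact hFM σ₀ hσ₀ _ (hIM _ hτ x)
  · -- injective_torsion
    intro x hx hx0
    rw [hsp, Submodule.Quotient.mk_eq_zero] at hx0
    have := hx0 1
    rw [one_smul] at this
    exact hred.inj_torsion x hx this
  · -- special fibre relation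
    intro y
    obtain ⟨x, rfl⟩ := Submodule.Quotient.mk_surjective M y
    rw [hF, hF]
    have h2 : (Submodule.Quotient.mk (σ₀ • σ₀ • x) : J ⧸ M)
        - heckeGen ⟨ℓ, hℓ⟩ • (Submodule.Quotient.mk (σ₀ • x) : J ⧸ M)
        + ℓ • (Submodule.Quotient.mk x : J ⧸ M)
        = Submodule.Quotient.mk (σ₀ • σ₀ • x - heckeGen ⟨ℓ, hℓ⟩ • (σ₀ • x) + ℓ • x) := by
      rfl
    rw [h2, Submodule.Quotient.mk_eq_zero]
    intro t
    have h3 : t • (σ₀ • σ₀ • x - heckeGen ⟨ℓ, hℓ⟩ • (σ₀ • x) + ℓ • x)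
        = σ₀ • σ₀ • (t • x) - heckeGen ⟨ℓ, hℓ⟩ • (σ₀ • (t • x)) + ℓ • (t • x) := by
      rw [smul_add, smul_sub, hcomm, hcomm, smul_comm t (heckeGen ⟨ℓ, hℓ⟩), hcomm,
        smul_comm t ℓ]
    rw [h3]
    exact hred.relation σ₀ hσ₀ (t • x)

end Abstract

section Rat

variable (N p : ℕ) (J : Type) [AddCommGroup J] [Module HeckeAlg J]
  [DistribMulAction (AlgebraicClosure ℚ ≃ₐ[ℚ] AlgebraicClosure ℚ) J]
  [SMulCommClass (AlgebraicClosure ℚ ≃ₐ[ℚ] AlgebraicClosure ℚ) HeckeAlg J]

/-- **R1.**  Over `ℚ`, `SpecializationExists` follows from the existence of reduction maps. -/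
theorem specializationExists_of_isRed
    (H : ∀ ℓ : ℕ, (hℓ : ℓ.Prime) → ¬ ℓ ∣ N * p →
      ∀ A : ValuationSubring (AlgebraicClosure ℚ), A.LiesOverPrime ℓ →
        ∃ (Y : Type) (_ : AddCommGroup Y) (red : J →+ Y),
          IsRed (K := ℚ) p J A ℓ hℓ red) :
    SpecializationExists (K := ℚ) (L := AlgebraicClosure ℚ) N p J := by
  intro ℓ hℓ hdvd A hA
  obtain ⟨Y, _, red, hred⟩ := H ℓ hℓ hdvd A hA
  exact exists_specialization_of_isRed p A ℓ hℓ (exists_isFrobeniusAt ℓ hℓ A hA) red hred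

end Rat

end Fermat.Agent.S37.H99

end
end
-- ===== PACK-END S37/H99/Formal.lean

-- ===== PACK-BEGIN S17/H980/MinkAdapter.lean
section


/-!
# Adapter for Siegel's lemma: from points over `Q̄` to a rational form (S17 / tower H, helper980)

Situation of route (H-D), positivity step: `v : Matrix ι₁ ι L` has the (linearly independent)
coordinate vectors `x(P_i)` of the points of a Galois-stable reduced divisor `D` as rows
(`L = Q̄`), and `Λ ⊆ ℚ^ι` is the space of rational linear forms vanishing at all `P_i`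
(`Λ = L(m∞ - D)(ℚ)`), known to have dimension `≥ n - d` (Riemann–Roch + Galois descent).

* `exists_rat_matrix_of_annihilator` : there is a RATIONAL matrix `B` with `ker B = Λ` whose maximal
  minors are a common non-zero multiple of the maximal minors of `v` (no Plücker duality needed).
* `exists_mem_logHeight_le` : hence `Λ` contains a non-zero integer vector `a` with
  `logHeight a ≤ (1/k) * absH (maximal minors of v) + log k`, `k = n - d`, for ANY function `absH`
  on tuples over `L` which is invariant under scaling and restricts to `Height.logHeight` on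
  rational tuples (e.g. an absolute logarithmic height on `Q̄`).
-/

set_option autoImplicit false

open Matrix

namespace Fermat.Agent.S17.H980

section Adapter

variable {ι₁ ι κ : Type*} [Fintype ι₁] [DecidableEq ι₁] [Fintype ι] [DecidableEq ι]
  [Fintype κ] [DecidableEq κ]
variable {K : Type*} [Field K]

omit [Fintype ι] [DecidableEq ι] in
/-- A matrix with a non-vanishing maximal minor has linearly independent rows. -/
theorem linearIndependent_row_of_det_submatrix_ne_zero (M : Matrix ι₁ ι K) (e : ι₁ ↪ ι)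
    (h : (M.submatrix id e).det ≠ 0) : LinearIndependent K M.row := by
  have h1 : LinearIndependent K (M.submatrix id e).row :=
    Matrix.linearIndependent_rows_iff_isUnit.mpr
      ((Matrix.isUnit_iff_isUnit_det _).mpr h.isUnit)
  have h2 : (M.submatrix id e).row = (LinearMap.funLeft K K e) ∘ M.row := by
    ext i j
    rfl
  rw [h2] at h1
  exact h1.of_comp _

omit [DecidableEq ι₁] [DecidableEq ι] in
/-- Rank–nullity for a matrix with independent rows. -/
theorem finrank_ker_mulVecLin_add (M : Matrix ι₁ ι K) (h : LinearIndependent K M.row) :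
    Module.finrank K (LinearMap.ker M.mulVecLin) + Fintype.card ι₁ = Fintype.card ι := by
  have h1 := LinearMap.finrank_range_add_finrank_ker M.mulVecLin
  have h2 : Module.finrank K (LinearMap.range M.mulVecLin) = Fintype.card ι₁ := h.rank_matrix
  rw [h2, Module.finrank_fintype_fun_eq_card] at h1
  omega

omit [DecidableEq ι₁] [DecidableEq ι] [DecidableEq κ] in
/-- A basis of the kernel of a matrix with independent rows, as a matrix. -/
theorem exists_kernel_matrix (A : Matrix κ ι K) (hA : LinearIndependent K A.row)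
    (hcard : Fintype.card κ + Fintype.card ι₁ = Fintype.card ι) :
    ∃ B : Matrix ι₁ ι K, LinearIndependent K B.row ∧ ∀ i, A *ᵥ (B i) = 0 := by
  have h1 := finrank_ker_mulVecLin_add A hA
  have h2 : Module.finrank K (LinearMap.ker A.mulVecLin) = Fintype.card ι₁ := by omega
  let b := (Module.finBasisOfFinrankEq K (LinearMap.ker A.mulVecLin) h2).reindex
    (Fintype.equivFinOfCardEq rfl).symm
  refine ⟨fun i => (b i : ι → K), ?_, ?_⟩
  · have : LinearIndependent K (fun i => (b i : ι → K)) :=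
      b.linearIndependent.map' (LinearMap.ker A.mulVecLin).subtype
        (Submodule.ker_subtype _)
    exact this
  · intro i
    have := (b i).2
    rwa [LinearMap.mem_ker] at this

/-- **Rational model of the row space.**  `v` has independent rows over `L ⊇ ℚ`; `Λ ⊆ ℚ^ι` is a
rational subspace of dimension `≥ n - d` annihilated by the rows of `v`.  Then there is a rational
matrix `B` of the same shape with `ker B = Λ` whose maximal minors are `c` times those of `v`. -/
theorem exists_rat_matrix_of_annihilator {L : Type*} [Field L] [Algebra ℚ L]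
    (v : Matrix ι₁ ι L) (hv : LinearIndependent L v.row)
    (Λ : Submodule ℚ (ι → ℚ))
    (hΛ : ∀ a ∈ Λ, v *ᵥ (fun j => algebraMap ℚ L (a j)) = 0)
    (hdim : Fintype.card ι ≤ Module.finrank ℚ Λ + Fintype.card ι₁) :
    ∃ (B : Matrix ι₁ ι ℚ) (c : L), c ≠ 0 ∧
      (∀ e : ι₁ ↪ ι, algebraMap ℚ L (minorQ B e) = c * (v.submatrix id e).det) ∧
      (∃ e : ι₁ ↪ ι, minorQ B e ≠ 0) ∧
      (∀ a : ι → ℚ, B *ᵥ a = 0 ↔ a ∈ Λ) := by
  classical
  set k := Module.finrank ℚ Λ with hk
  let bΛ := Module.finBasis ℚ Λ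
  let A : Matrix (Fin k) ι ℚ := fun j => (bΛ j : ι → ℚ)
  have hA : LinearIndependent ℚ A.row :=
    bΛ.linearIndependent.map' Λ.subtype (Submodule.ker_subtype _)
  let AL : Matrix (Fin k) ι L := A.map (algebraMap ℚ L)
  obtain ⟨f, hf⟩ := exists_det_submatrix_ne_zero A hA
  have hALdet : (AL.submatrix id f).det ≠ 0 := by
    have h1 : AL.submatrix id f = (algebraMap ℚ L).mapMatrix (A.submatrix id f) := rfl
    rw [h1, ← RingHom.map_det]
    exact (map_ne_zero (algebraMap ℚ L)).mpr hf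
  have hAL : LinearIndependent L AL.row :=
    linearIndependent_row_of_det_submatrix_ne_zero AL f hALdet
  have hALv : ∀ j, v *ᵥ (AL j) = 0 := fun j => hΛ _ (bΛ j).2
  -- dimension count
  have hkd : k + Fintype.card ι₁ ≤ Fintype.card ι := by
    have h1 := finrank_ker_mulVecLin_add v hv
    have h2 : k ≤ Module.finrank L (LinearMap.ker v.mulVecLin) := by
      have hli : LinearIndependent L (fun j : Fin k =>
          (⟨AL j, by rw [LinearMap.mem_ker]; exact hALv j⟩ : LinearMap.ker v.mulVecLin)) := by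
        apply LinearIndependent.of_comp (LinearMap.ker v.mulVecLin).subtype
        exact hAL
      have := hli.fintype_card_le_finrank
      simpa using this
    omega
  have hkd' : k + Fintype.card ι₁ = Fintype.card ι := by omega
  obtain ⟨B, hB, hAB⟩ := exists_kernel_matrix (ι₁ := ι₁) A hA
    (by rw [Fintype.card_fin]; exact hkd')
  obtain ⟨e₀, he₀⟩ := exists_det_submatrix_ne_zero B hB
  -- `Λ ≤ ker B`
  have hΛspan : Λ = Submodule.span ℚ (Set.range A.row) := by
    have h := congrArg (Submodule.map Λ.subtype) bΛ.span_eq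
    rw [Submodule.map_span, Submodule.map_top, Submodule.range_subtype, ← Set.range_comp] at h
    exact h.symm
  have hdot : ∀ i j, B i ⬝ᵥ A j = 0 := by
    intro i j
    have := congrFun (hAB i) j
    rw [dotProduct_comm]
    exact this
  have hle : Λ ≤ LinearMap.ker B.mulVecLin := by
    rw [hΛspan, Submodule.span_le]
    rintro _ ⟨j, rfl⟩
    rw [SetLike.mem_coe, LinearMap.mem_ker]
    ext i
    exact hdot i j
  have hkerB : LinearMap.ker B.mulVecLin = Λ := by
    symm
    apply Submodule.eq_of_le_of_finrank_eq hle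
    have h1 := finrank_ker_mulVecLin_add B hB
    omega
  -- the rows of `v` span the kernel of `AL`
  let BL : Matrix ι₁ ι L := B.map (algebraMap ℚ L)
  have hvAL : ∀ i, AL *ᵥ (v i) = 0 := by
    intro i
    ext j
    have := congrFun (hALv j) i
    simp only [mulVec, Pi.zero_apply] at this ⊢
    rw [dotProduct_comm]
    exact this
  have hBLAL : ∀ i, AL *ᵥ (BL i) = 0 := by
    intro i
    ext j
    have := hdot i j
    rw [dotProduct_comm] at this
    have h2 := congrArg (algebraMap ℚ L) this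
    simp only [dotProduct, map_sum, map_mul, map_zero] at h2
    simpa [mulVec, dotProduct, AL, BL] using h2
  have hspan : Submodule.span L (Set.range v.row) = LinearMap.ker AL.mulVecLin := by
    apply Submodule.eq_of_le_of_finrank_eq
    · rw [Submodule.span_le]
      rintro _ ⟨i, rfl⟩
      rw [SetLike.mem_coe, LinearMap.mem_ker]
      exact hvAL i
    · have h1 := finrank_ker_mulVecLin_add AL hAL
      have h2 : Module.finrank L (Submodule.span L (Set.range v.row)) = Fintype.card ι₁ :=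
        finrank_span_eq_card hv
      simp only [Fintype.card_fin] at h1
      omega
  have hM : ∀ i, ∃ c : ι₁ → L, ∑ j, c j • v.row j = BL i := by
    intro i
    have h1 : BL i ∈ Submodule.span L (Set.range v.row) := by
      rw [hspan, LinearMap.mem_ker]
      exact hBLAL i
    exact (Submodule.mem_span_range_iff_exists_fun L).mp h1
  choose M hMspec using hM
  have hBLM : BL = (Matrix.of M) * v := by
    ext i l
    have := congrFun (hMspec i) l
    simp only [Finset.sum_apply, Pi.smul_apply, smul_eq_mul] at this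
    rw [← this]
    simp [Matrix.mul_apply, Matrix.row]
  have hminor : ∀ e : ι₁ ↪ ι,
      algebraMap ℚ L (minorQ B e) = (Matrix.of M).det * (v.submatrix id e).det := by
    intro e
    have h1 : algebraMap ℚ L (minorQ B e) = (BL.submatrix id e).det := by
      unfold minorQ
      rw [RingHom.map_det]
      rfl
    have h2 : BL.submatrix id e = (Matrix.of M) * (v.submatrix id e) := by
      rw [hBLM]
      ext i j
      simp [Matrix.mul_apply]
    rw [h1, h2, Matrix.det_mul]
  refine ⟨B, (Matrix.of M).det, ?_, hminor, ⟨e₀, he₀⟩, ?_⟩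
  · intro h0
    have := hminor e₀
    rw [h0, zero_mul] at this
    exact he₀ ((map_eq_zero (algebraMap ℚ L)).mp this)
  · intro a
    rw [← hkerB, LinearMap.mem_ker]
    rfl

/-- **Siegel's lemma for a Galois-stable point configuration**, weakest form of the height
hypothesis: `habs` says that `absH` of the Plücker vector of `v` may be computed from any rational
tuple proportional to it. -/
theorem exists_mem_logHeight_le_of_proportional {L : Type*} [Field L] [Algebra ℚ L]
    (v : Matrix ι₁ ι L) (hv : LinearIndependent L v.row)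
    (Λ : Submodule ℚ (ι → ℚ))
    (hΛ : ∀ a ∈ Λ, v *ᵥ (fun j => algebraMap ℚ L (a j)) = 0)
    (hdim : Fintype.card ι ≤ Module.finrank ℚ Λ + Fintype.card ι₁)
    (hcard : Fintype.card ι₁ < Fintype.card ι)
    (H : ℝ)
    (habs : ∀ (c : L) (w : (ι₁ ↪ ι) → ℚ), c ≠ 0 →
      (∀ e, algebraMap ℚ L (w e) = c * (v.submatrix id e).det) → Height.logHeight w = H) :
    ∃ a : ι → ℤ, a ≠ 0 ∧ (fun i => (a i : ℚ)) ∈ Λ ∧
      Height.logHeight (fun i => (a i : ℚ)) ≤
        (1 / ((Fintype.card ι - Fintype.card ι₁ : ℕ) : ℝ)) * H +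
          Real.log ((Fintype.card ι - Fintype.card ι₁ : ℕ) : ℝ) := by
  obtain ⟨B, c, hc, hminor, hne, hker⟩ := exists_rat_matrix_of_annihilator v hv Λ hΛ hdim
  obtain ⟨a, ha0, hBa, hle⟩ := exists_kernel_logHeight_le B hcard hne
  refine ⟨a, ha0, (hker _).mp hBa, ?_⟩
  rw [← habs c (minorQ B) hc hminor]
  exact hle

/-- **Siegel's lemma for a Galois-stable point configuration.**  `absH` is any function on tuples
over `L` (an absolute logarithmic height) which is invariant under scaling and restricts to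
`Height.logHeight` on rational tuples.  Then the rational space `Λ` of linear forms vanishing on
the rows of `v` contains a non-zero integer vector of height at most
`(1/k) * absH (Plücker vector of v) + log k`, `k = n - d`. -/
theorem exists_mem_logHeight_le {L : Type*} [Field L] [Algebra ℚ L]
    (v : Matrix ι₁ ι L) (hv : LinearIndependent L v.row)
    (Λ : Submodule ℚ (ι → ℚ))
    (hΛ : ∀ a ∈ Λ, v *ᵥ (fun j => algebraMap ℚ L (a j)) = 0)
    (hdim : Fintype.card ι ≤ Module.finrank ℚ Λ + Fintype.card ι₁)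
    (hcard : Fintype.card ι₁ < Fintype.card ι)
    (absH : ((ι₁ ↪ ι) → L) → ℝ)
    (habs_smul : ∀ (c : L) (w : (ι₁ ↪ ι) → L), c ≠ 0 → absH (c • w) = absH w)
    (habs_rat : ∀ w : (ι₁ ↪ ι) → ℚ,
      absH (fun e => algebraMap ℚ L (w e)) = Height.logHeight w) :
    ∃ a : ι → ℤ, a ≠ 0 ∧ (fun i => (a i : ℚ)) ∈ Λ ∧
      Height.logHeight (fun i => (a i : ℚ)) ≤
        (1 / ((Fintype.card ι - Fintype.card ι₁ : ℕ) : ℝ)) *
            absH (fun e => (v.submatrix id e).det) +
          Real.log ((Fintype.card ι - Fintype.card ι₁ : ℕ) : ℝ) := by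
  apply exists_mem_logHeight_le_of_proportional v hv Λ hΛ hdim hcard
  intro c w hc hw
  rw [← habs_rat w, ← habs_smul c (fun e => (v.submatrix id e).det) hc]
  congr 1
  ext e
  rw [hw e]
  rfl

end Adapter

end Fermat.Agent.S17.H980

end
-- ===== PACK-END S17/H980/MinkAdapter.lean

-- ===== PACK-BEGIN S24/H324/RatOrd.lean
section




/-!
# S24 / ALG (helper324) — orders of elements of `K(j)` at the places of `F`; the divisor of a
rational function on `ℙ¹` has degree zero

For `r ∈ K(j)`, `r ≠ 0` (`K` algebraically closed) there are integers `ν a` (`a : K`, almost all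
zero) and `νinf` with `νinf + ∑ ν a = 0` such that for every place `v` of `F`:
`v.ord r = ν a * v.ord (j - a)` if `v` lies over `a`, and `v.ord r = νinf * v.ord j⁻¹` if `v` is a
pole of `j`.
-/

set_option autoImplicit false

noncomputable section

open AlgebraicCurve Polynomial IntermediateField
open Fermat.Agent.S24.H117

namespace Fermat.Agent.S24.H324

variable {K F : Type*} [Field K] [Field F] [Algebra K F]

/-- Order of `P(j)` at a place over `j = a`. -/
theorem ord_aeval_at (v : Place K F) (j : F) (a : K)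
    (hv : 0 < v.ord (j - algebraMap K F a)) (P : K[X]) (hP : P ≠ 0) :
    aeval j P ≠ 0 ∧
      v.ord (aeval j P) = (P.rootMultiplicity a : ℤ) * v.ord (j - algebraMap K F a) := by
  have hcomp : P.comp (X + C a) ≠ 0 := fun h => hP (comp_X_add_C_eq_zero_iff.mp h)
  have h := ord_aeval_eq v hv (P.comp (X + C a)) hcomp
  have he : aeval (j - algebraMap K F a) (P.comp (X + C a)) = aeval j P := by
    rw [aeval_comp]
    congr 1
    simp
  rw [he, ← rootMultiplicity_eq_rootMultiplicity] at h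
  exact h

/-- Order of `P(j)` at a pole of `j`. -/
theorem ord_aeval_at_inf (v : Place K F) (j : F) (hv : v.ord j < 0) (P : K[X]) (hP : P ≠ 0) :
    aeval j P ≠ 0 ∧ v.ord (aeval j P) = (P.natDegree : ℤ) * v.ord j := by
  have hj0 : j ≠ 0 := ne_zero_of_ord_ne_zero v hv.ne
  have hinv : 0 < v.ord j⁻¹ := by rw [v.ord_inv]; omega
  letI : Invertible j := invertibleOfNonzero hj0
  have hrev := eval₂_reverse_mul_pow (algebraMap K F) j P
  rw [invOf_eq_inv] at hrev
  have hq : P.reverse.coeff 0 ≠ 0 := by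
    rw [coeff_zero_reverse]
    exact leadingCoeff_ne_zero.mpr hP
  have hrev0 : P.reverse ≠ 0 := fun h => hq (by rw [h, coeff_zero])
  have h1 := ord_aeval_of_coeff_zero_ne v hinv P.reverse hq
  have h2 := (ord_aeval_eq v hinv P.reverse hrev0).1
  have he : aeval j P = aeval j⁻¹ P.reverse * j ^ P.natDegree := hrev.symm
  refine ⟨?_, ?_⟩
  · rw [he]
    exact mul_ne_zero h2 (pow_ne_zero _ hj0)
  · rw [he, v.ord_mul h2 (pow_ne_zero _ hj0), h1, ord_pow, zero_add]

/-- Sum of the root multiplicities over any finite set containing the roots. -/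
theorem sum_rootMultiplicity [IsAlgClosed K] [DecidableEq K] (P : K[X]) (T : Finset K)
    (hT : ∀ a ∈ P.roots, a ∈ T) :
    ∑ a ∈ T, (P.rootMultiplicity a : ℤ) = P.natDegree := by
  have h := Multiset.sum_count_eq_card hT
  rw [IsAlgClosed.card_roots_eq_natDegree] at h
  simp only [count_roots] at h
  exact_mod_cast h

/-- **The divisor of a rational function on `ℙ¹`**, read on the places of `F`. -/
theorem exists_pointOrd [IsAlgClosed K] (j r : F) (hr : r ∈ K⟮j⟯) (hr0 : r ≠ 0) :
    ∃ (ν : K → ℤ) (νinf : ℤ) (T : Finset K), (∀ a, a ∉ T → ν a = 0) ∧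
      νinf + ∑ a ∈ T, ν a = 0 ∧
      (∀ (v : Place K F) (a : K), 0 < v.ord (j - algebraMap K F a) →
        v.ord r = ν a * v.ord (j - algebraMap K F a)) ∧
      (∀ v : Place K F, 0 < v.ord j⁻¹ → v.ord r = νinf * v.ord j⁻¹) := by
  classical
  obtain ⟨P, Q, rfl⟩ := (mem_adjoin_simple_iff K r).mp hr
  have hP0 : aeval j P ≠ 0 := fun h => hr0 (by rw [h, zero_div])
  have hQ0 : aeval j Q ≠ 0 := fun h => hr0 (by rw [h, div_zero])
  have hP : P ≠ 0 := fun h => hP0 (by rw [h, map_zero])
  have hQ : Q ≠ 0 := fun h => hQ0 (by rw [h, map_zero])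
  refine ⟨fun a => (P.rootMultiplicity a : ℤ) - Q.rootMultiplicity a,
    (Q.natDegree : ℤ) - P.natDegree, P.roots.toFinset ∪ Q.roots.toFinset, ?_, ?_, ?_, ?_⟩
  · intro a ha
    have haP : ¬ P.IsRoot a := fun h =>
      ha (Finset.mem_union_left _ (Multiset.mem_toFinset.mpr ((mem_roots hP).mpr h)))
    have haQ : ¬ Q.IsRoot a := fun h =>
      ha (Finset.mem_union_right _ (Multiset.mem_toFinset.mpr ((mem_roots hQ).mpr h)))
    simp only [rootMultiplicity_eq_zero haP, rootMultiplicity_eq_zero haQ]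
    simp
  · rw [Finset.sum_sub_distrib,
      sum_rootMultiplicity P _ (fun a ha => Finset.mem_union_left _ (Multiset.mem_toFinset.mpr ha)),
      sum_rootMultiplicity Q _
        (fun a ha => Finset.mem_union_right _ (Multiset.mem_toFinset.mpr ha))]
    ring
  · intro v a hv
    obtain ⟨-, h1⟩ := ord_aeval_at v j a hv P hP
    obtain ⟨-, h2⟩ := ord_aeval_at v j a hv Q hQ
    rw [ord_div v hP0 hQ0, h1, h2]
    ring
  · intro v hv
    have hj : v.ord j < 0 := by
      rw [v.ord_inv] at hv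
      omega
    obtain ⟨-, h1⟩ := ord_aeval_at_inf v j hj P hP
    obtain ⟨-, h2⟩ := ord_aeval_at_inf v j hj Q hQ
    rw [ord_div v hP0 hQ0, h1, h2, v.ord_inv]
    ring

end Fermat.Agent.S24.H324

end
end
-- ===== PACK-END S24/H324/RatOrd.lean

-- ===== PACK-BEGIN S37/H940/Core.lean
section




/-!
# S37 / RIM (helper940): the place reduction map, fibre-local core

Abstract setting.  `K ⊇ A` a valued field with residue map `π : A → k`;  `F / K` and `F_k / k`
function fields (Prelude `Place`);  `V ⊆ F` a subring ("Gauss valuation ring") with a ring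
homomorphism `ρ : V → F_k` extending `π`, such that every `u ∈ V` with `ρ u ≠ 0` is a unit of `V`.

A *fibre* is a set `𝔉` of places of `F` ("the tube") and a finite set `𝔊` of places of `F_k`
such that
* `FC`  (conservation of number in the fibre): `∑_{P ∈ 𝔉} ord_P u = ∑_{Q ∈ 𝔊} ord_Q (ρ u)`
  for every `u ∈ V` with `ρ u ≠ 0`;
* `LP`  (smoothness 1): every `Q ∈ 𝔊` has a local parameter which lifts to an element of `V`
  regular on `𝔉`, and is a unit at the other points of `𝔊`;
* `SEP` (smoothness 2): some element of `V`, regular on `𝔉`, has a reduction separating `𝔊`.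

Main result `Fibre.exists_red`: there is a surjective map `r : 𝔉 → 𝔊`, compatible with values
(`(ρ b)(r P) = π (b(P))`), with the conservation law
`∑_{P ∈ 𝔉, r P = Q} ord_P u = ord_Q (ρ u)` for every `u ∈ V` with `ρ u ≠ 0`.

No Zariski main theorem, no unique factorisation, no completions: only `FC`, used for the
functions `1 - b/c`, `b - b(P)` and for the local parameters.
-/

set_option autoImplicit false

noncomputable section

namespace Fermat.Agent.S37.H940

open AlgebraicCurve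
open Fermat.Agent.S24.FF

/-- The abstract reduction context. -/
structure Ctx (K F k Fk : Type*) [Field K] [Field F] [Algebra K F] [Field k] [Field Fk]
    [Algebra k Fk] where
  /-- the valuation ring of the base field -/
  A : ValuationSubring K
  /-- the residue map -/
  π : A →+* k
  π_surj : Function.Surjective π
  π_eq_zero : ∀ a : A, π a = 0 ↔ ¬ IsUnit a
  /-- the ring of functions with a reduction -/
  V : Subring F
  /-- the reduction map -/
  ρ : V →+* Fk
  A_mem : ∀ a : A, algebraMap K F (a : K) ∈ V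
  ρ_A : ∀ a : A, ρ ⟨algebraMap K F (a : K), A_mem a⟩ = algebraMap k Fk (π a)
  inv_mem : ∀ u : V, ρ u ≠ 0 → ((u : F))⁻¹ ∈ V

variable {K F k Fk : Type*} [Field K] [Field F] [Algebra K F] [Field k] [Field Fk]
  [Algebra k Fk]

namespace Ctx

variable (C : Ctx K F k Fk)

/-- a constant of `A` as an element of `V` -/
def const (a : C.A) : C.V := ⟨algebraMap K F (a : K), C.A_mem a⟩

@[simp] theorem coe_const (a : C.A) : ((C.const a : C.V) : F) = algebraMap K F (a : K) := rfl

@[simp] theorem ρ_const (a : C.A) : C.ρ (C.const a) = algebraMap k Fk (C.π a) := C.ρ_A a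

theorem ne_zero_of_ρ_ne_zero {u : C.V} (h : C.ρ u ≠ 0) : (u : F) ≠ 0 := by
  intro h0
  apply h
  have : u = 0 := Subtype.ext h0
  rw [this, map_zero]

/-- the inverse of an element with nonzero reduction -/
def inv (u : C.V) (h : C.ρ u ≠ 0) : C.V := ⟨((u : F))⁻¹, C.inv_mem u h⟩

@[simp] theorem coe_inv (u : C.V) (h : C.ρ u ≠ 0) : ((C.inv u h : C.V) : F) = ((u : F))⁻¹ := rfl

theorem mul_inv (u : C.V) (h : C.ρ u ≠ 0) : u * C.inv u h = 1 := by
  apply Subtype.ext
  simp [mul_inv_cancel₀ (C.ne_zero_of_ρ_ne_zero h)]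

theorem ρ_inv (u : C.V) (h : C.ρ u ≠ 0) : C.ρ (C.inv u h) = (C.ρ u)⁻¹ := by
  have := congrArg C.ρ (C.mul_inv u h)
  rw [map_mul, map_one] at this
  exact eq_inv_of_mul_eq_one_right this

theorem ρ_inv_ne_zero (u : C.V) (h : C.ρ u ≠ 0) : C.ρ (C.inv u h) ≠ 0 := by
  rw [C.ρ_inv u h]
  exact inv_ne_zero h

/-- an element of `K` outside `A` has its inverse in the maximal ideal of `A` -/
theorem exists_inv_of_not_mem {c : K} (hc : c ∉ C.A) :
    ∃ a : C.A, (a : K) = c⁻¹ ∧ C.π a = 0 := by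
  have hinv : c⁻¹ ∈ C.A := (C.A.mem_or_inv_mem c).resolve_left hc
  refine ⟨⟨c⁻¹, hinv⟩, rfl, ?_⟩
  rw [C.π_eq_zero]
  intro hu
  apply hc
  obtain ⟨b, hb⟩ := isUnit_iff_exists_inv.mp hu
  have hb' : c⁻¹ * (b : K) = 1 := by
    have := congrArg (fun x : C.A => (x : K)) hb
    simpa using this
  have hc0 : c ≠ 0 := by
    rintro rfl
    exact hc (zero_mem _)
  have : (b : K) = c := by
    field_simp at hb'
    exact hb'
  rw [← this]
  exact b.2

end Ctx

/-- A fibre of the reduction: a tube `𝔉` of places of `F` over a finite set `𝔊` of places of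
`F_k`, with conservation of number and smoothness. -/
structure Fibre (C : Ctx K F k Fk) where
  /-- the tube -/
  𝔉 : Set (Place K F)
  /-- the points of the special fibre -/
  𝔊 : Finset (Place k Fk)
  ne : 𝔊.Nonempty
  res : ∀ P ∈ 𝔉, ∀ f : F, 0 ≤ P.ord f → ∃ c : K, InMax P (f - algebraMap K F c)
  fin : ∀ u : F, u ≠ 0 → {P | P ∈ 𝔉 ∧ P.ord u ≠ 0}.Finite
  FC : ∀ u : C.V, C.ρ u ≠ 0 → ∑ᶠ P ∈ 𝔉, P.ord (u : F) = ∑ Q ∈ 𝔊, Q.ord (C.ρ u)
  LP : ∀ Q ∈ 𝔊, ∃ t : C.V, (∀ P ∈ 𝔉, 0 ≤ P.ord (t : F)) ∧ Q.ord (C.ρ t) = 1 ∧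
    ∀ Q' ∈ 𝔊, Q' ≠ Q → Q'.ord (C.ρ t) = 0
  SEP : ∃ s : C.V, (∀ P ∈ 𝔉, 0 ≤ P.ord (s : F)) ∧
    ∀ Q ∈ 𝔊, ∀ Q' ∈ 𝔊, ∀ a : k, InMax Q (C.ρ s - algebraMap k Fk a) →
      InMax Q' (C.ρ s - algebraMap k Fk a) → Q = Q'

namespace Fibre

variable {C : Ctx K F k Fk} (Φ : Fibre C)

/-- the sum over the tube as a finite sum -/
theorem finsum_eq_sum (u : F) (hu : u ≠ 0) :
    ∑ᶠ P ∈ Φ.𝔉, P.ord u = ∑ P ∈ (Φ.fin u hu).toFinset, P.ord u := by
  rw [finsum_mem_eq_sum_of_inter_support_eq]
  ext P
  simp only [Set.mem_inter_iff, Function.mem_support, ne_eq, Set.Finite.coe_toFinset]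
  constructor
  · rintro ⟨h1, h2⟩
    exact ⟨⟨h1, h2⟩, h2⟩
  · rintro ⟨⟨h1, h2⟩, -⟩
    exact ⟨h1, h2⟩

/-- if `u` is regular on the tube and vanishes at `P`, the sum over the tube is positive -/
theorem finsum_pos {u : F} (hu : u ≠ 0) (hreg : ∀ P ∈ Φ.𝔉, 0 ≤ P.ord u) {P : Place K F}
    (hP : P ∈ Φ.𝔉) (hpos : 0 < P.ord u) : 0 < ∑ᶠ P ∈ Φ.𝔉, P.ord u := by
  rw [Φ.finsum_eq_sum u hu]
  have hmem : P ∈ (Φ.fin u hu).toFinset := by
    rw [Set.Finite.mem_toFinset]
    exact ⟨hP, hpos.ne'⟩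
  refine lt_of_lt_of_le hpos
    (Finset.single_le_sum (f := fun P : Place K F => P.ord u) (fun Q hQ => ?_) hmem)
  rw [Set.Finite.mem_toFinset] at hQ
  exact hreg Q hQ.1

/-- if `u` is regular on the tube and the sum over the tube is `≤ ord_P u`,
then `u` has no zero on the tube besides `P` -/
theorem ord_eq_zero_of_finsum_le {u : F} (hu : u ≠ 0) (hreg : ∀ P ∈ Φ.𝔉, 0 ≤ P.ord u)
    {P : Place K F} (hP : P ∈ Φ.𝔉) (hle : ∑ᶠ P ∈ Φ.𝔉, P.ord u ≤ P.ord u)
    {P' : Place K F} (hP' : P' ∈ Φ.𝔉) (hne : P' ≠ P) : P'.ord u = 0 := by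
  classical
  by_contra h0
  have hpos : 0 < P'.ord u := lt_of_le_of_ne (hreg P' hP') (Ne.symm h0)
  rw [Φ.finsum_eq_sum u hu] at hle
  have hmem' : P' ∈ (Φ.fin u hu).toFinset := by
    rw [Set.Finite.mem_toFinset]
    exact ⟨hP', h0⟩
  have hnn : ∀ Q ∈ (Φ.fin u hu).toFinset, 0 ≤ Q.ord u := fun Q hQ => by
    rw [Set.Finite.mem_toFinset] at hQ
    exact hreg Q hQ.1
  by_cases hPm : P ∈ (Φ.fin u hu).toFinset
  · have h2 : P.ord u + P'.ord u ≤ ∑ Q ∈ (Φ.fin u hu).toFinset, Q.ord u := by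
      have hsub : ({P, P'} : Finset (Place K F)) ⊆ (Φ.fin u hu).toFinset := by
        intro Q hQ
        rw [Finset.mem_insert, Finset.mem_singleton] at hQ
        rcases hQ with rfl | rfl
        · exact hPm
        · exact hmem'
      have := Finset.sum_le_sum_of_subset_of_nonneg (f := fun Q : Place K F => Q.ord u) hsub
        (fun Q hQ _ => hnn Q hQ)
      rwa [Finset.sum_pair (Ne.symm hne)] at this
    omega
  · have hP0 : P.ord u = 0 := by
      by_contra h
      exact hPm (by rw [Set.Finite.mem_toFinset]; exact ⟨hP, h⟩)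
    have := Finset.single_le_sum (f := fun Q : Place K F => Q.ord u) hnn hmem'
    omega

/-- **value lemma, integrality**: the value at a point of the tube of a function of `V`
regular on the tube lies in `A`. -/
theorem value_mem (b : C.V) (hreg : ∀ P ∈ Φ.𝔉, 0 ≤ P.ord (b : F)) {P : Place K F}
    (hP : P ∈ Φ.𝔉) {c : K} (hc : InMax P ((b : F) - algebraMap K F c)) : c ∈ C.A := by
  by_contra hcA
  obtain ⟨a, ha, hπ⟩ := C.exists_inv_of_not_mem hcA
  have hc0 : c ≠ 0 := by
    rintro rfl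
    exact hcA (zero_mem _)
  -- `u = 1 - b / c`
  set u : C.V := 1 - C.const a * b with hu
  have hρ : C.ρ u = 1 := by
    rw [hu, map_sub, map_one, map_mul, C.ρ_const, hπ, map_zero, zero_mul, sub_zero]
  have hρ0 : C.ρ u ≠ 0 := by rw [hρ]; exact one_ne_zero
  have hu0 : (u : F) ≠ 0 := C.ne_zero_of_ρ_ne_zero hρ0
  have hcoe : (u : F) = 1 - algebraMap K F c⁻¹ * (b : F) := by
    rw [hu, ← ha]
    rfl
  have hureg : ∀ P ∈ Φ.𝔉, 0 ≤ P.ord (u : F) := by
    intro P hP
    rw [hcoe]
    refine ord_nonneg_sub (by simp) (ord_nonneg_mul (ord_nonneg_const P _) (hreg P hP))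
  have hmax : InMax P (u : F) := by
    have e : (u : F) = algebraMap K F (-c⁻¹) * ((b : F) - algebraMap K F c) := by
      have h1 : algebraMap K F c⁻¹ * algebraMap K F c = 1 := by
        rw [← map_mul, inv_mul_cancel₀ hc0, map_one]
      rw [hcoe, map_neg]
      linear_combination (-1 : F) * h1
    rw [e]
    exact hc.const_mul _
  have hpos := Φ.finsum_pos hu0 hureg hP (hmax.ord_pos hu0)
  rw [Φ.FC u hρ0, hρ] at hpos
  simp at hpos

/-- the value of a function regular on the tube, as an element of `A` -/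
theorem exists_value (b : C.V) (hreg : ∀ P ∈ Φ.𝔉, 0 ≤ P.ord (b : F)) {P : Place K F}
    (hP : P ∈ Φ.𝔉) : ∃ c : C.A, InMax P ((b : F) - algebraMap K F (c : K)) := by
  obtain ⟨c, hc⟩ := Φ.res P hP b (hreg P hP)
  exact ⟨⟨c, Φ.value_mem b hreg hP hc⟩, hc⟩

/-- **zeros specialise to zeros**: if `b` has the value `c` at `P`, then `ρ b` has the value
`π c` at some point of `𝔊`. -/
theorem exists_point (b : C.V) (hreg : ∀ P ∈ Φ.𝔉, 0 ≤ P.ord (b : F)) {P : Place K F}
    (hP : P ∈ Φ.𝔉) {c : C.A} (hc : InMax P ((b : F) - algebraMap K F (c : K))) :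
    ∃ Q ∈ Φ.𝔊, InMax Q (C.ρ b - algebraMap k Fk (C.π c)) := by
  set u : C.V := b - C.const c with hu
  have hρ : C.ρ u = C.ρ b - algebraMap k Fk (C.π c) := by
    rw [hu, map_sub, C.ρ_const]
  rw [← hρ]
  by_cases h0 : C.ρ u = 0
  · obtain ⟨Q, hQ⟩ := Φ.ne
    exact ⟨Q, hQ, by rw [h0]; exact inMax_zero Q⟩
  · have hu0 : (u : F) ≠ 0 := C.ne_zero_of_ρ_ne_zero h0
    have hcoe : (u : F) = (b : F) - algebraMap K F (c : K) := by
      rw [hu]
      rfl
    have hureg : ∀ P ∈ Φ.𝔉, 0 ≤ P.ord (u : F) := fun P hP => by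
      rw [hcoe]
      exact ord_nonneg_sub (hreg P hP) (ord_nonneg_const P _)
    have hpos := Φ.finsum_pos hu0 hureg hP (by rw [hcoe]; exact hc.ord_pos (hcoe ▸ hu0))
    rw [Φ.FC u h0] at hpos
    obtain ⟨Q, hQ, hQpos⟩ := Finset.exists_lt_of_sum_lt (f := fun _ => (0 : ℤ))
      (g := fun Q : Place k Fk => Q.ord (C.ρ u)) (s := Φ.𝔊) (by simpa using hpos)
    exact ⟨Q, hQ, inMax_of_ord_pos hQpos⟩

/-! ### The reduction map on the tube -/

/-- the separating function -/
def sepFun : C.V := Φ.SEP.choose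

theorem sepFun_reg : ∀ P ∈ Φ.𝔉, 0 ≤ P.ord (Φ.sepFun : F) := Φ.SEP.choose_spec.1

theorem sepFun_sep : ∀ Q ∈ Φ.𝔊, ∀ Q' ∈ Φ.𝔊, ∀ a : k,
    InMax Q (C.ρ Φ.sepFun - algebraMap k Fk a) →
      InMax Q' (C.ρ Φ.sepFun - algebraMap k Fk a) → Q = Q' :=
  Φ.SEP.choose_spec.2

/-- the value of the separating function at a point of the tube -/
def sepValue {P : Place K F} (hP : P ∈ Φ.𝔉) : C.A :=
  (Φ.exists_value Φ.sepFun Φ.sepFun_reg hP).choose

theorem sepValue_spec {P : Place K F} (hP : P ∈ Φ.𝔉) :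
    InMax P ((Φ.sepFun : F) - algebraMap K F (Φ.sepValue hP : K)) :=
  (Φ.exists_value Φ.sepFun Φ.sepFun_reg hP).choose_spec

theorem exists_red_point {P : Place K F} (hP : P ∈ Φ.𝔉) :
    ∃ Q ∈ Φ.𝔊, InMax Q (C.ρ Φ.sepFun - algebraMap k Fk (C.π (Φ.sepValue hP))) :=
  Φ.exists_point Φ.sepFun Φ.sepFun_reg hP (Φ.sepValue_spec hP)

open Classical in
/-- **The reduction map** of the fibre (junk outside the tube). -/
def red (P : Place K F) : Place k Fk :=
  if hP : P ∈ Φ.𝔉 then (Φ.exists_red_point hP).choose else Φ.ne.choose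

theorem red_mem (P : Place K F) : Φ.red P ∈ Φ.𝔊 := by
  unfold red
  split_ifs with hP
  · exact (Φ.exists_red_point hP).choose_spec.1
  · exact Φ.ne.choose_spec

theorem red_sepFun {P : Place K F} (hP : P ∈ Φ.𝔉) :
    InMax (Φ.red P) (C.ρ Φ.sepFun - algebraMap k Fk (C.π (Φ.sepValue hP))) := by
  unfold red
  rw [dif_pos hP]
  exact (Φ.exists_red_point hP).choose_spec.2

/-- **value compatibility**: `(ρ b)(r P) = π (b(P))` for `b ∈ V` regular on the tube. -/
theorem red_value [Infinite k] (b : C.V) (hreg : ∀ P ∈ Φ.𝔉, 0 ≤ P.ord (b : F))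
    {P : Place K F} (hP : P ∈ Φ.𝔉) {c : C.A}
    (hc : InMax P ((b : F) - algebraMap K F (c : K))) :
    InMax (Φ.red P) (C.ρ b - algebraMap k Fk (C.π c)) := by
  classical
  set s := Φ.sepFun with hs
  set cs := Φ.sepValue hP with hcs
  have hsP := Φ.sepValue_spec hP
  -- for every `a : k` a point `Q_a` where `(ρ s - π cs) + a (ρ b - π c)` vanishes
  have key : ∀ a : k, ∃ Q ∈ Φ.𝔊,
      InMax Q ((C.ρ s - algebraMap k Fk (C.π cs)) +
        algebraMap k Fk a * (C.ρ b - algebraMap k Fk (C.π c))) := by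
    intro a
    obtain ⟨l, hl⟩ := C.π_surj a
    have hreg' : ∀ P ∈ Φ.𝔉, 0 ≤ P.ord ((s + C.const l * b : C.V) : F) := fun P hP =>
      ord_nonneg_add (Φ.sepFun_reg P hP) (ord_nonneg_mul (ord_nonneg_const P _) (hreg P hP))
    have hval : InMax P (((s + C.const l * b : C.V) : F) -
        algebraMap K F ((cs + l * c : C.A) : K)) := by
      have e : ((s + C.const l * b : C.V) : F) - algebraMap K F ((cs + l * c : C.A) : K)
          = ((s : F) - algebraMap K F (cs : K)) +
            algebraMap K F (l : K) * ((b : F) - algebraMap K F (c : K)) := by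
        have h1 : ((s + C.const l * b : C.V) : F)
            = (s : F) + algebraMap K F (l : K) * (b : F) := rfl
        have h2 : ((cs + l * c : C.A) : K) = (cs : K) + (l : K) * (c : K) := rfl
        rw [h1, h2, map_add, map_mul]
        ring
      rw [e]
      exact hsP.add (hc.const_mul _)
    obtain ⟨Q, hQ, hQm⟩ := Φ.exists_point _ hreg' hP hval
    refine ⟨Q, hQ, ?_⟩
    have e : C.ρ (s + C.const l * b) - algebraMap k Fk (C.π (cs + l * c))
        = (C.ρ s - algebraMap k Fk (C.π cs)) +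
          algebraMap k Fk a * (C.ρ b - algebraMap k Fk (C.π c)) := by
      rw [map_add, map_mul, C.ρ_const, map_add, map_mul, hl, map_add, map_mul]
      ring
    rw [← e]
    exact hQm
  choose Qf hQf hQm using key
  -- pigeonhole
  let f : k → Φ.𝔊 := fun a => ⟨Qf a, hQf a⟩
  obtain ⟨a₁, a₂, hne, heq⟩ := Finite.exists_ne_map_eq_of_infinite f
  have heq' : Qf a₁ = Qf a₂ := congrArg Subtype.val heq
  have h1 := hQm a₁
  have h2 := hQm a₂
  rw [← heq'] at h2
  set g := C.ρ b - algebraMap k Fk (C.π c) with hg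
  set h := C.ρ s - algebraMap k Fk (C.π cs) with hh
  have h3 : InMax (Qf a₁) (algebraMap k Fk (a₁ - a₂) * g) := by
    have := h1.sub h2
    have e : h + algebraMap k Fk a₁ * g - (h + algebraMap k Fk a₂ * g)
        = algebraMap k Fk (a₁ - a₂) * g := by
      rw [map_sub]; ring
    rwa [e] at this
  have hg' : InMax (Qf a₁) g := by
    have := h3.const_mul (a₁ - a₂)⁻¹
    have e : algebraMap k Fk (a₁ - a₂)⁻¹ * (algebraMap k Fk (a₁ - a₂) * g) = g := by
      rw [← mul_assoc, ← map_mul, inv_mul_cancel₀ (sub_ne_zero.mpr hne), map_one, one_mul]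
    rwa [e] at this
  have hh' : InMax (Qf a₁) h := by
    have := h1.sub (hg'.const_mul a₁)
    rwa [add_sub_cancel_right] at this
  have hQ : Qf a₁ = Φ.red P :=
    Φ.sepFun_sep _ (hQf a₁) _ (Φ.red_mem P) _ hh' (Φ.red_sepFun hP)
  rw [← hQ]
  exact hg'

/-- the reduction of a function of `V` regular on the tube is regular at `r P` -/
theorem ord_ρ_nonneg_red [Infinite k] (b : C.V) (hreg : ∀ P ∈ Φ.𝔉, 0 ≤ P.ord (b : F))
    {P : Place K F} (hP : P ∈ Φ.𝔉) : 0 ≤ (Φ.red P).ord (C.ρ b) := by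
  obtain ⟨c, hc⟩ := Φ.exists_value b hreg hP
  exact ord_nonneg_of_inMax_sub (Φ.red_value b hreg hP hc)

/-- **local parameters**: at every point `P` of the tube there is `t ∈ V` with a simple zero
at `P`, no other zero on the tube, whose reduction has a simple zero at `r P` and no other
zero on `𝔊`. -/
theorem exists_localParam [Infinite k] {P : Place K F} (hP : P ∈ Φ.𝔉) :
    ∃ t : C.V, C.ρ t ≠ 0 ∧ (∀ P' ∈ Φ.𝔉, 0 ≤ P'.ord (t : F)) ∧ P.ord (t : F) = 1 ∧
      (∀ P' ∈ Φ.𝔉, P' ≠ P → P'.ord (t : F) = 0) ∧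
      (Φ.red P).ord (C.ρ t) = 1 ∧ ∀ Q' ∈ Φ.𝔊, Q' ≠ Φ.red P → Q'.ord (C.ρ t) = 0 := by
  classical
  obtain ⟨t₀, hreg₀, hQ₀, hQ'₀⟩ := Φ.LP (Φ.red P) (Φ.red_mem P)
  obtain ⟨c₀, hc₀⟩ := Φ.exists_value t₀ hreg₀ hP
  have hρ₀ : C.ρ t₀ ≠ 0 := by
    intro h
    rw [h] at hQ₀
    simp at hQ₀
  -- the value of `t₀` at `P` lies in the maximal ideal
  have hπ : C.π c₀ = 0 := by
    have h1 := Φ.red_value t₀ hreg₀ hP hc₀
    have h2 : InMax (Φ.red P) (C.ρ t₀) := inMax_of_ord_pos (by omega)
    have h3 := h2.sub h1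
    rw [sub_sub_cancel, inMax_algebraMap_iff] at h3
    exact h3
  set t : C.V := t₀ - C.const c₀ with ht
  have hρ : C.ρ t = C.ρ t₀ := by
    rw [ht, map_sub, C.ρ_const, hπ, map_zero, sub_zero]
  have hρ0 : C.ρ t ≠ 0 := by rwa [hρ]
  have ht0 : (t : F) ≠ 0 := C.ne_zero_of_ρ_ne_zero hρ0
  have hcoe : (t : F) = (t₀ : F) - algebraMap K F (c₀ : K) := by
    rw [ht]
    rfl
  have hreg : ∀ P' ∈ Φ.𝔉, 0 ≤ P'.ord (t : F) := fun P' hP' => by
    rw [hcoe]
    exact ord_nonneg_sub (hreg₀ P' hP') (ord_nonneg_const P' _)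
  have hpos : 0 < P.ord (t : F) := by
    rw [hcoe]
    exact hc₀.ord_pos (hcoe ▸ ht0)
  have hsum : ∑ᶠ P' ∈ Φ.𝔉, P'.ord (t : F) = 1 := by
    rw [Φ.FC t hρ0, hρ, Finset.sum_eq_single_of_mem (Φ.red P) (Φ.red_mem P)
      (fun Q' hQ' hne => hQ'₀ Q' hQ' hne), hQ₀]
  have hle : P.ord (t : F) ≤ 1 := by
    rw [← hsum, Φ.finsum_eq_sum _ ht0]
    have hmem : P ∈ (Φ.fin _ ht0).toFinset := by
      rw [Set.Finite.mem_toFinset]
      exact ⟨hP, hpos.ne'⟩
    refine Finset.single_le_sum (f := fun P' : Place K F => P'.ord (t : F)) (fun Q hQ => ?_) hmem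
    rw [Set.Finite.mem_toFinset] at hQ
    exact hreg Q hQ.1
  have hone : P.ord (t : F) = 1 := by omega
  refine ⟨t, hρ0, hreg, hone, fun P' hP' hne => ?_, by rw [hρ]; exact hQ₀,
    fun Q' hQ' hne => by rw [hρ]; exact hQ'₀ Q' hQ' hne⟩
  exact Φ.ord_eq_zero_of_finsum_le ht0 hreg hP (by rw [hsum, hone]) hP' hne

/-- **surjectivity** of the reduction map: every point of `𝔊` lifts to the tube. -/
theorem red_surj [Infinite k] {Q : Place k Fk} (hQ : Q ∈ Φ.𝔊) : ∃ P ∈ Φ.𝔉, Φ.red P = Q := by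
  classical
  obtain ⟨t, hreg, hQ1, hQ'⟩ := Φ.LP Q hQ
  have hρ0 : C.ρ t ≠ 0 := by
    intro h
    rw [h] at hQ1
    simp at hQ1
  have ht0 : (t : F) ≠ 0 := C.ne_zero_of_ρ_ne_zero hρ0
  have hsum : ∑ᶠ P' ∈ Φ.𝔉, P'.ord (t : F) = 1 := by
    rw [Φ.FC t hρ0, Finset.sum_eq_single_of_mem Q hQ (fun Q' hQ'' hne => hQ' Q' hQ'' hne), hQ1]
  rw [Φ.finsum_eq_sum _ ht0] at hsum
  obtain ⟨P, hPm, hPpos⟩ := Finset.exists_lt_of_sum_lt (f := fun _ => (0 : ℤ))
    (g := fun P : Place K F => P.ord (t : F)) (s := (Φ.fin _ ht0).toFinset)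
    (by simp [hsum])
  rw [Set.Finite.mem_toFinset] at hPm
  refine ⟨P, hPm.1, ?_⟩
  have hval : InMax P ((t : F) - algebraMap K F ((0 : C.A) : K)) := by
    simpa using inMax_of_ord_pos hPpos
  have h1 := Φ.red_value t hreg hPm.1 hval
  rw [map_zero, map_zero, sub_zero] at h1
  by_contra hne
  have h2 := hQ' (Φ.red P) (Φ.red_mem P) hne
  exact not_inMax_of_ord_eq_zero hρ0 h2 h1

/-- **regularity transfer**: the reduction of a function of `V` regular on the tube is
regular on `𝔊`. -/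
theorem ord_ρ_nonneg [Infinite k] (b : C.V) (hreg : ∀ P ∈ Φ.𝔉, 0 ≤ P.ord (b : F))
    {Q : Place k Fk} (hQ : Q ∈ Φ.𝔊) : 0 ≤ Q.ord (C.ρ b) := by
  obtain ⟨P, hP, rfl⟩ := Φ.red_surj hQ
  exact Φ.ord_ρ_nonneg_red b hreg hP

/-! ### Conservation of number, point by point -/

end Fibre

namespace Ctx

variable (C : Ctx K F k Fk)

theorem isUnit_of_ρ_ne_zero {u : C.V} (h : C.ρ u ≠ 0) : IsUnit u :=
  ⟨⟨u, C.inv u h, C.mul_inv u h, by rw [mul_comm]; exact C.mul_inv u h⟩, rfl⟩

theorem ρ_ne_zero_of_isUnit {u : C.V} (h : IsUnit u) : C.ρ u ≠ 0 :=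
  (h.map C.ρ).ne_zero

theorem ρ_unit_ne_zero (w : C.Vˣ) : C.ρ (w : C.V) ≠ 0 := C.ρ_ne_zero_of_isUnit w.isUnit

theorem coe_unit_ne_zero (w : C.Vˣ) : ((w : C.V) : F) ≠ 0 :=
  C.ne_zero_of_ρ_ne_zero (C.ρ_unit_ne_zero w)

theorem coe_unit_inv (w : C.Vˣ) : (((w⁻¹ : C.Vˣ) : C.V) : F) = (((w : C.V) : F))⁻¹ := by
  have h := congrArg (fun x : C.V => (x : F)) (Units.mul_inv w)
  simp only [Subring.coe_mul, Subring.coe_one] at h
  exact eq_inv_of_mul_eq_one_right h

theorem coe_unit_mul (w w' : C.Vˣ) :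
    (((w * w' : C.Vˣ) : C.V) : F) = ((w : C.V) : F) * ((w' : C.V) : F) := rfl

theorem ρ_unit_inv (w : C.Vˣ) : C.ρ ((w⁻¹ : C.Vˣ) : C.V) = (C.ρ (w : C.V))⁻¹ := by
  have h := congrArg C.ρ (Units.mul_inv w)
  rw [map_mul, map_one] at h
  exact eq_inv_of_mul_eq_one_right h

theorem coe_unit_zpow (w : C.Vˣ) (n : ℤ) :
    (((w ^ n : C.Vˣ) : C.V) : F) = (((w : C.V) : F)) ^ n := by
  induction n using Int.induction_on with
  | zero => simp
  | succ n ih =>
    rw [zpow_add_one, C.coe_unit_mul, ih, zpow_add_one₀ (C.coe_unit_ne_zero w)]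
  | pred n ih =>
    rw [zpow_sub_one, C.coe_unit_mul, ih, C.coe_unit_inv, zpow_sub_one₀ (C.coe_unit_ne_zero w)]

theorem ρ_unit_zpow (w : C.Vˣ) (n : ℤ) :
    C.ρ ((w ^ n : C.Vˣ) : C.V) = (C.ρ (w : C.V)) ^ n := by
  induction n using Int.induction_on with
  | zero => simp
  | succ n ih =>
    rw [zpow_add_one, Units.val_mul, map_mul, ih, zpow_add_one₀ (C.ρ_unit_ne_zero w)]
  | pred n ih =>
    rw [zpow_sub_one, Units.val_mul, map_mul, ih, C.ρ_unit_inv,
      zpow_sub_one₀ (C.ρ_unit_ne_zero w)]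

end Ctx

namespace Fibre

variable {C : Ctx K F k Fk} (Φ : Fibre C)

/-- a unit of `V` without zeros and poles on the tube reduces to a unit at every point of `𝔊` -/
theorem ord_ρ_unit_eq_zero [Infinite k] (w : C.Vˣ)
    (h : ∀ P ∈ Φ.𝔉, P.ord ((w : C.V) : F) = 0) {Q : Place k Fk} (hQ : Q ∈ Φ.𝔊) :
    Q.ord (C.ρ (w : C.V)) = 0 := by
  have h1 := Φ.ord_ρ_nonneg (w : C.V) (fun P hP => (h P hP).ge) hQ
  have h2 := Φ.ord_ρ_nonneg ((w⁻¹ : C.Vˣ) : C.V) (fun P hP => by
    rw [C.coe_unit_inv, P.ord_inv, h P hP]; simp) hQ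
  rw [C.ρ_unit_inv, Q.ord_inv] at h2
  omega

open Classical in
/-- conservation of number for units, by induction on the zeros and poles in the tube -/
theorem ord_ρ_unit_eq_sum [Infinite k] (T : Finset (Place K F)) :
    (∀ P ∈ T, P ∈ Φ.𝔉) → ∀ w : C.Vˣ, (∀ P ∈ Φ.𝔉, P.ord ((w : C.V) : F) ≠ 0 → P ∈ T) →
      ∀ Q ∈ Φ.𝔊, Q.ord (C.ρ (w : C.V)) = ∑ P ∈ T with Φ.red P = Q, P.ord ((w : C.V) : F) := by
  induction T using Finset.induction_on with
  | empty =>
    intro _ w hw Q hQ
    rw [Finset.filter_empty, Finset.sum_empty]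
    refine Φ.ord_ρ_unit_eq_zero w (fun P hP => ?_) hQ
    by_contra h
    exact absurd (hw P hP h) (Finset.notMem_empty P)
  | insert P₀ T hP₀ ih =>
    intro hT w hw Q hQ
    have hP₀𝔉 : P₀ ∈ Φ.𝔉 := hT P₀ (Finset.mem_insert_self _ _)
    have hT' : ∀ P ∈ T, P ∈ Φ.𝔉 := fun P hP => hT P (Finset.mem_insert_of_mem hP)
    obtain ⟨t, hρt, -, ht1, ht0, hQ1, hQ0⟩ := Φ.exists_localParam hP₀𝔉
    set τ : C.Vˣ := (C.isUnit_of_ρ_ne_zero hρt).unit with hτ
    have hτc : (τ : C.V) = t := IsUnit.unit_spec _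
    set n : ℤ := P₀.ord ((w : C.V) : F) with hn
    set w' : C.Vˣ := w * τ ^ (-n) with hw'
    have hw0 : ((w : C.V) : F) ≠ 0 := C.coe_unit_ne_zero w
    have hτ0 : ((τ : C.V) : F) ≠ 0 := C.coe_unit_ne_zero τ
    -- orders of `w'` on the tube
    have hord : ∀ P : Place K F, P.ord ((w' : C.V) : F)
        = P.ord ((w : C.V) : F) - n * P.ord ((τ : C.V) : F) := by
      intro P
      rw [hw', C.coe_unit_mul, C.coe_unit_zpow, P.ord_mul hw0 (zpow_ne_zero _ hτ0), P.ord_zpow]
      ring
    have hordQ : ∀ Q : Place k Fk, Q.ord (C.ρ (w' : C.V))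
        = Q.ord (C.ρ (w : C.V)) - n * Q.ord (C.ρ (τ : C.V)) := by
      intro Q
      rw [hw', Units.val_mul, map_mul, C.ρ_unit_zpow,
        Q.ord_mul (C.ρ_unit_ne_zero w) (zpow_ne_zero _ (C.ρ_unit_ne_zero τ)), Q.ord_zpow]
      ring
    have hw'T : ∀ P ∈ Φ.𝔉, P.ord ((w' : C.V) : F) ≠ 0 → P ∈ T := by
      intro P hP hne
      rw [hord P] at hne
      by_cases hPP : P = P₀
      · subst hPP
        rw [hτc, ht1] at hne
        simp [hn] at hne
      · rw [hτc, ht0 P hP hPP, mul_zero, sub_zero] at hne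
        have := hw P hP hne
        rw [Finset.mem_insert] at this
        exact this.resolve_left hPP
    have key := ih hT' w' hw'T Q hQ
    rw [hordQ Q] at key
    have hsum : ∑ P ∈ T with Φ.red P = Q, P.ord ((w' : C.V) : F)
        = ∑ P ∈ T with Φ.red P = Q, P.ord ((w : C.V) : F) := by
      refine Finset.sum_congr rfl fun P hP => ?_
      rw [Finset.mem_filter] at hP
      have hPP : P ≠ P₀ := fun h => hP₀ (h ▸ hP.1)
      rw [hord P, hτc, ht0 P (hT' P hP.1) hPP, mul_zero, sub_zero]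
    rw [hsum] at key
    rw [Finset.filter_insert]
    split_ifs with hred
    · rw [Finset.sum_insert (fun h => hP₀ (Finset.mem_filter.mp h).1)]
      rw [hτc, ← hred, hQ1] at key
      rw [← hn]
      rw [← hred]
      omega
    · rw [hτc, hQ0 Q hQ (fun h => hred h.symm)] at key
      omega

open Classical in
/-- **Conservation of number, point by point.**  For `u ∈ V` with `ρ u ≠ 0` and `Q ∈ 𝔊`:
`∑_{P ∈ 𝔉, r P = Q} ord_P u = ord_Q (ρ u)`. -/
theorem finsum_red_eq [Infinite k] (u : C.V) (hu : C.ρ u ≠ 0) {Q : Place k Fk} (hQ : Q ∈ Φ.𝔊) :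
    ∑ᶠ P ∈ {P | P ∈ Φ.𝔉 ∧ Φ.red P = Q}, P.ord (u : F) = Q.ord (C.ρ u) := by
  have hu0 : (u : F) ≠ 0 := C.ne_zero_of_ρ_ne_zero hu
  set T := (Φ.fin (u : F) hu0).toFinset with hT
  have hTmem : ∀ P, P ∈ T ↔ P ∈ Φ.𝔉 ∧ P.ord (u : F) ≠ 0 := fun P => by
    rw [hT, Set.Finite.mem_toFinset]
    exact Iff.rfl
  have key := Φ.ord_ρ_unit_eq_sum T (fun P hP => ((hTmem P).mp hP).1)
    (C.isUnit_of_ρ_ne_zero hu).unit (fun P hP hne => (hTmem P).mpr ⟨hP, by
      rwa [IsUnit.unit_spec] at hne⟩) Q hQ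
  rw [IsUnit.unit_spec] at key
  rw [key]
  apply finsum_mem_eq_sum_of_inter_support_eq
  ext P
  simp only [Set.mem_inter_iff, Function.mem_support, ne_eq, Finset.coe_filter]
  constructor
  · rintro ⟨⟨h1, h2⟩, h3⟩
    exact ⟨⟨(hTmem P).mpr ⟨h1, h3⟩, h2⟩, h3⟩
  · rintro ⟨⟨h1, h2⟩, h3⟩
    exact ⟨⟨((hTmem P).mp h1).1, h2⟩, h3⟩

/-- **Main theorem of the fibre-local core.** -/
theorem exists_red [Infinite k] :
    ∃ r : Place K F → Place k Fk,
      (∀ P, r P ∈ Φ.𝔊) ∧
      (∀ Q ∈ Φ.𝔊, ∃ P ∈ Φ.𝔉, r P = Q) ∧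
      (∀ b : C.V, (∀ P ∈ Φ.𝔉, 0 ≤ P.ord (b : F)) → ∀ P ∈ Φ.𝔉, ∀ c : C.A,
        InMax P ((b : F) - algebraMap K F (c : K)) →
          InMax (r P) (C.ρ b - algebraMap k Fk (C.π c))) ∧
      (∀ u : C.V, C.ρ u ≠ 0 → ∀ Q ∈ Φ.𝔊,
        ∑ᶠ P ∈ {P | P ∈ Φ.𝔉 ∧ r P = Q}, P.ord (u : F) = Q.ord (C.ρ u)) :=
  ⟨Φ.red, Φ.red_mem, fun _ hQ => Φ.red_surj hQ,
    fun b hreg _ hP _ hc => Φ.red_value b hreg hP hc,
    fun u hu _ hQ => Φ.finsum_red_eq u hu hQ⟩

end Fibre

end Fermat.Agent.S37.H940

end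
end
-- ===== PACK-END S37/H940/Core.lean

-- ===== PACK-BEGIN S37/H940/Assembly.lean
section




/-!
# S37 / RIM (helper940): assembling the fibres into a global place reduction map

If the places of `F` and of `F_k` are partitioned into fibres `(𝔉 i, 𝔊 i)` each satisfying the
hypotheses of the fibre-local core, the fibre-local reduction maps glue to a map
`r : Place K F → Place k F_k` such that, for every `u ∈ V` with `ρ u ≠ 0` and every divisor `D`
with `D = div u`,  `r_* D = div (ρ u)`  — the shape of clause (ii) of the Prelude's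
`ModularCurve.IsPlaceReductionAlong`.  Degrees are preserved as soon as residue fields are trivial.
-/

set_option autoImplicit false

noncomputable section

namespace Fermat.Agent.S37.H940

open AlgebraicCurve
open Fermat.Agent.S24.FF

variable {K F k Fk : Type*} [Field K] [Field F] [Algebra K F] [Field k] [Field Fk]
  [Algebra k Fk]

/-- `Finsupp.mapDomain` evaluated at a point, as a sum over the support. -/
theorem mapDomain_apply_eq_sum {α β : Type*} [DecidableEq β] (r : α → β) (D : α →₀ ℤ) (Q : β) :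
    Finsupp.mapDomain r D Q = ∑ P ∈ D.support, if r P = Q then D P else 0 := by
  rw [Finsupp.mapDomain, Finsupp.sum_apply, Finsupp.sum]
  refine Finset.sum_congr rfl fun P _ => ?_
  rw [Finsupp.single_apply]

/-- a place all of whose regular functions have a value in `K` has degree one -/
theorem deg_eq_one_of_res (P : Place K F)
    (h : ∀ f : F, 0 ≤ P.ord f → ∃ c : K, InMax P (f - algebraMap K F c)) : P.deg = 1 := by
  unfold Place.deg
  rw [finrank_eq_one_iff_of_nonzero' (1 : P.ResidueField) one_ne_zero]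
  intro w
  obtain ⟨f, rfl⟩ := IsLocalRing.residue_surjective (R := P.toValuationSubring) w
  obtain ⟨c, hc⟩ := h (f : F) (ord_nonneg_of_mem P f.2)
  refine ⟨c, ?_⟩
  rw [Algebra.smul_def, mul_one]
  rw [inMax_iff_exists_mem_maximalIdeal] at hc
  obtain ⟨hmem, hmax⟩ := hc
  have e : (⟨(f : F) - algebraMap K F c, hmem⟩ : P.toValuationSubring)
      = f - algebraMap K P.toValuationSubring c := by
    apply Subtype.ext
    rfl
  rw [e, ← IsLocalRing.residue_eq_zero_iff, map_sub, sub_eq_zero] at hmax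
  rw [hmax]
  rfl

/-- A partition of the places of `F` and of `F_k` into fibres. -/
structure Atlas (C : Ctx K F k Fk) (ι : Type*) where
  /-- the fibres -/
  Φ : ι → Fibre C
  cover : ∀ P : Place K F, ∃ i, P ∈ (Φ i).𝔉
  disj : ∀ i j, ∀ P : Place K F, P ∈ (Φ i).𝔉 → P ∈ (Φ j).𝔉 → i = j
  cover' : ∀ Q : Place k Fk, ∃ i, Q ∈ (Φ i).𝔊
  disj' : ∀ i j, ∀ Q : Place k Fk, Q ∈ (Φ i).𝔊 → Q ∈ (Φ j).𝔊 → i = j

namespace Atlas

variable {C : Ctx K F k Fk} {ι : Type*} (𝔄 : Atlas C ι)

/-- the index of the fibre of a place of `F` -/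
def idx (P : Place K F) : ι := (𝔄.cover P).choose

theorem mem_idx (P : Place K F) : P ∈ (𝔄.Φ (𝔄.idx P)).𝔉 := (𝔄.cover P).choose_spec

theorem idx_eq {P : Place K F} {i : ι} (h : P ∈ (𝔄.Φ i).𝔉) : 𝔄.idx P = i :=
  𝔄.disj _ _ P (𝔄.mem_idx P) h

/-- **The global reduction map.** -/
def red (P : Place K F) : Place k Fk := (𝔄.Φ (𝔄.idx P)).red P

theorem red_eq {P : Place K F} {i : ι} (h : P ∈ (𝔄.Φ i).𝔉) : 𝔄.red P = (𝔄.Φ i).red P := by
  unfold red
  rw [𝔄.idx_eq h]

theorem red_mem {P : Place K F} {i : ι} (h : P ∈ (𝔄.Φ i).𝔉) : 𝔄.red P ∈ (𝔄.Φ i).𝔊 := by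
  rw [𝔄.red_eq h]
  exact (𝔄.Φ i).red_mem P

theorem mem_of_red_mem {P : Place K F} {i : ι} (h : 𝔄.red P ∈ (𝔄.Φ i).𝔊) :
    P ∈ (𝔄.Φ i).𝔉 := by
  have h1 := 𝔄.red_mem (𝔄.mem_idx P)
  have := 𝔄.disj' _ _ _ h1 h
  rw [← this]
  exact 𝔄.mem_idx P

theorem red_surj [Infinite k] (Q : Place k Fk) : ∃ P, 𝔄.red P = Q := by
  obtain ⟨i, hi⟩ := 𝔄.cover' Q
  obtain ⟨P, hP, hPQ⟩ := (𝔄.Φ i).red_surj hi
  exact ⟨P, by rw [𝔄.red_eq hP, hPQ]⟩

/-- value compatibility of the global reduction map -/
theorem red_value [Infinite k] {i : ι} (b : C.V)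
    (hreg : ∀ P ∈ (𝔄.Φ i).𝔉, 0 ≤ P.ord (b : F)) {P : Place K F} (hP : P ∈ (𝔄.Φ i).𝔉)
    {c : C.A} (hc : InMax P ((b : F) - algebraMap K F (c : K))) :
    InMax (𝔄.red P) (C.ρ b - algebraMap k Fk (C.π c)) := by
  rw [𝔄.red_eq hP]
  exact (𝔄.Φ i).red_value b hreg hP hc

open Classical in
/-- **Specialisation of principal divisors** (clause (ii) of `IsPlaceReductionAlong`):
`r_* div u = div (ρ u)` for every `u ∈ V` with `ρ u ≠ 0`. -/
theorem mapDomain_red [Infinite k] (u : C.V) (hu : C.ρ u ≠ 0) (D : Divisor K F)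
    (hD : ∀ P, D P = P.ord (u : F)) (Q : Place k Fk) :
    Finsupp.mapDomain 𝔄.red D Q = Q.ord (C.ρ u) := by
  obtain ⟨i, hi⟩ := 𝔄.cover' Q
  rw [← (𝔄.Φ i).finsum_red_eq u hu hi, mapDomain_apply_eq_sum]
  symm
  rw [← Finset.sum_filter]
  have hsum : ∑ P ∈ D.support with 𝔄.red P = Q, D P
      = ∑ P ∈ D.support with 𝔄.red P = Q, P.ord (u : F) :=
    Finset.sum_congr rfl fun P _ => hD P
  rw [hsum]
  apply finsum_mem_eq_sum_of_inter_support_eq
  ext P
  simp only [Set.mem_inter_iff, Function.mem_support, ne_eq, Finset.coe_filter,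
    Finsupp.mem_support_iff]
  constructor
  · rintro ⟨⟨h1, h2⟩, h3⟩
    refine ⟨⟨?_, ?_⟩, h3⟩
    · rw [hD P]; exact h3
    · rw [𝔄.red_eq h1]; exact h2
  · rintro ⟨⟨h1, h2⟩, h3⟩
    have hP : P ∈ (𝔄.Φ i).𝔉 := 𝔄.mem_of_red_mem (by rw [h2]; exact hi)
    refine ⟨⟨hP, ?_⟩, h3⟩
    rw [← 𝔄.red_eq hP]; exact h2

/-- **Existence of the place reduction map** from an atlas of fibres. -/
theorem exists_red [Infinite k] (𝔄 : Atlas C ι)
    (hresK : ∀ (P : Place K F) (f : F), 0 ≤ P.ord f → ∃ c : K, InMax P (f - algebraMap K F c))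
    (hresk : ∀ (Q : Place k Fk) (g : Fk), 0 ≤ Q.ord g →
      ∃ a : k, InMax Q (g - algebraMap k Fk a)) :
    ∃ r : Place K F → Place k Fk,
      (∀ P, (r P).deg = P.deg) ∧
      (∀ u : C.V, C.ρ u ≠ 0 → ∀ D : Divisor K F, (∀ P, D P = P.ord (u : F)) →
        ∀ Q, Finsupp.mapDomain r D Q = Q.ord (C.ρ u)) :=
  ⟨𝔄.red, fun P => by
      rw [deg_eq_one_of_res P (hresK P), deg_eq_one_of_res (𝔄.red P) (hresk _)],
    fun u hu D hD Q => 𝔄.mapDomain_red u hu D hD Q⟩

end Atlas

end Fermat.Agent.S37.H940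

end
end
-- ===== PACK-END S37/H940/Assembly.lean

-- ===== PACK-BEGIN S37/H818/GaloisEquiv.lean
section
/-
S37 / LEVEL TRANSFER (helper818), part 7: pullback of divisors / `Pic0` classes along `i`
commutes with intertwined semilinear automorphisms (Galois equivariance of `π^*`).
-/




set_option autoImplicit false
set_option linter.style.haveILetI false

noncomputable section

namespace Fermat.Agent.S37.H818

open AlgebraicCurve
open scoped Pointwise

variable {K F G : Type*} [Field K] [Field F] [Field G] [Algebra K F] [Algebra K G]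

section

variable (i : F →ₐ[K] G) (hi : i.toRingHom.IsIntegral)
  {g : SemilinearAut K F} {g' : SemilinearAut K G}
  (h : SemilinearAut.IntertwinesAlong (i : F →+* G) g g')

theorem mem_restrictAlong_iff (W : Place K G) (x : F) :
    x ∈ (W.restrictAlong i hi).toValuationSubring ↔ i x ∈ W.toValuationSubring := Iff.rfl

include h in
theorem restrictAlong_smul (W : Place K G) :
    (g' • W).restrictAlong i hi = g • (W.restrictAlong i hi) := by
  apply Place.ext
  ext x
  rw [mem_restrictAlong_iff, SemilinearAut.smul_toValuationSubring,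
    SemilinearAut.smul_toValuationSubring,
    ValuationSubring.mem_pointwise_smul_iff_inv_smul_mem,
    ValuationSubring.mem_pointwise_smul_iff_inv_smul_mem, mem_restrictAlong_iff]
  have := h.inv x
  simp only [RingHom.coe_coe] at this
  rw [this]

include h hi in
theorem ramificationIndexAlong_smul (W : Place K G) :
    Place.ramificationIndexAlong i (g' • W) = Place.ramificationIndexAlong i W := by
  obtain ⟨f, -, hf⟩ := exists_ord_eq_one (W.restrictAlong i hi)
  have h1 := Place.ord_restrictAlong i hi W f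
  rw [hf, mul_one] at h1
  have h2 := Place.ord_restrictAlong i hi (g' • W) (g • f)
  rw [restrictAlong_smul i hi h W, SemilinearAut.ord_smul, hf, mul_one] at h2
  have h3 : i (g • f) = g' • (i f) := by
    have := h f
    simp only [RingHom.coe_coe] at this
    exact this.symm
  rw [h3, SemilinearAut.ord_smul, h1] at h2
  exact_mod_cast h2.symm

variable [HasPrincipalDivisors K G]

include h in
/-- Pullback of divisors is equivariant. -/
theorem pullbackAlong_smul (D : Divisor K F) :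
    Divisor.pullbackAlong i hi (g • D) = g' • Divisor.pullbackAlong i hi D := by
  ext W
  rw [Divisor.pullbackAlong_apply, SemilinearAut.divisor_smul_apply,
    SemilinearAut.divisor_smul_apply, Divisor.pullbackAlong_apply,
    restrictAlong_smul i hi h.inv W, ramificationIndexAlong_smul i hi h.inv W]

include h in
/-- `π^*` is equivariant on `Pic0`. -/
theorem pullbackPic0Along_smul (hFI : FundamentalIdentityAlong K i hi) (x : Pic0 K F) :
    pullbackPic0Along i hi hFI (g • x) = g' • pullbackPic0Along i hi hFI x := by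
  obtain ⟨D, rfl⟩ := Pic0.mk_surjective x
  rw [SemilinearAut.pic0_smul_mk, pullbackPic0Along_mk, pullbackPic0Along_mk,
    SemilinearAut.pic0_smul_mk]
  congr 1
  apply Subtype.ext
  simp only [coe_pullbackDegZeroAlong, SemilinearAut.coe_degZeroSMulHom]
  exact pullbackAlong_smul i hi h D

end

end Fermat.Agent.S37.H818

end

end
-- ===== PACK-END S37/H818/GaloisEquiv.lean

-- ===== PACK-BEGIN S37/H940/Frac.lean
section




/-!
# S37 / RIM (helper940): the reduction context of fractions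

Given a subring `O ⊆ F` ("integral functions") with a ring homomorphism `ρ₀ : O → F_k`
extending the residue map `π : A → k`, the ring `V` of fractions `a / b` (`a, b ∈ O`,
`ρ₀ b ≠ 0`) carries the reduction map `ρ (a / b) = ρ₀ a / ρ₀ b`, and `(A, π, V, ρ)` is a
reduction context in the sense of `Core.lean`.
-/

set_option autoImplicit false

noncomputable section

namespace Fermat.Agent.S37.H940

open AlgebraicCurve

variable {K F k Fk : Type*} [Field K] [Field F] [Algebra K F] [Field k] [Field Fk]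
  [Algebra k Fk]

/-- Input data for the context of fractions. -/
structure FracData (K F k Fk : Type*) [Field K] [Field F] [Algebra K F] [Field k] [Field Fk]
    [Algebra k Fk] where
  /-- the valuation ring of the base field -/
  A : ValuationSubring K
  /-- the residue map -/
  π : A →+* k
  π_surj : Function.Surjective π
  π_eq_zero : ∀ a : A, π a = 0 ↔ ¬ IsUnit a
  /-- the integral functions -/
  O : Subring F
  /-- the reduction of integral functions -/
  ρ₀ : O →+* Fk
  A_mem : ∀ a : A, algebraMap K F (a : K) ∈ O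
  ρ₀_A : ∀ a : A, ρ₀ ⟨algebraMap K F (a : K), A_mem a⟩ = algebraMap k Fk (π a)

namespace FracData

variable (𝔇 : FracData K F k Fk)

/-- `f` is a fraction `a / b` with `a, b` integral and `ρ₀ b ≠ 0`. -/
def IsFrac (f : F) : Prop := ∃ a b : 𝔇.O, 𝔇.ρ₀ b ≠ 0 ∧ f * (b : F) = (a : F)

theorem coe_ne_zero {b : 𝔇.O} (hb : 𝔇.ρ₀ b ≠ 0) : (b : F) ≠ 0 := by
  intro h
  apply hb
  have : b = 0 := Subtype.ext h
  rw [this, map_zero]

theorem isFrac_of_mem (a : 𝔇.O) : 𝔇.IsFrac (a : F) :=
  ⟨a, 1, by rw [map_one]; exact one_ne_zero, by simp⟩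

theorem IsFrac.add {f g : F} (hf : 𝔇.IsFrac f) (hg : 𝔇.IsFrac g) : 𝔇.IsFrac (f + g) := by
  obtain ⟨a, b, hb, hab⟩ := hf
  obtain ⟨c, d, hd, hcd⟩ := hg
  refine ⟨a * d + c * b, b * d, by rw [map_mul]; exact mul_ne_zero hb hd, ?_⟩
  push_cast
  rw [← hab, ← hcd]
  ring

theorem IsFrac.mul {f g : F} (hf : 𝔇.IsFrac f) (hg : 𝔇.IsFrac g) : 𝔇.IsFrac (f * g) := by
  obtain ⟨a, b, hb, hab⟩ := hf
  obtain ⟨c, d, hd, hcd⟩ := hg
  refine ⟨a * c, b * d, by rw [map_mul]; exact mul_ne_zero hb hd, ?_⟩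
  push_cast
  rw [← hab, ← hcd]
  ring

theorem IsFrac.neg {f : F} (hf : 𝔇.IsFrac f) : 𝔇.IsFrac (-f) := by
  obtain ⟨a, b, hb, hab⟩ := hf
  refine ⟨-a, b, hb, ?_⟩
  push_cast
  rw [← hab]
  ring

/-- the ring of fractions -/
def V : Subring F where
  carrier := {f | 𝔇.IsFrac f}
  mul_mem' := fun hf hg => hf.mul 𝔇 hg
  one_mem' := by
    have := 𝔇.isFrac_of_mem 1
    simpa using this
  add_mem' := fun hf hg => hf.add 𝔇 hg
  zero_mem' := by
    have := 𝔇.isFrac_of_mem 0
    simpa using this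
  neg_mem' := fun hf => hf.neg 𝔇

theorem mem_V {f : F} : f ∈ 𝔇.V ↔ 𝔇.IsFrac f := Iff.rfl

/-- numerator of a fraction -/
def num (f : 𝔇.V) : 𝔇.O := (f.2 : 𝔇.IsFrac f).choose

/-- denominator of a fraction -/
def den (f : 𝔇.V) : 𝔇.O := (f.2 : 𝔇.IsFrac f).choose_spec.choose

theorem ρ₀_den_ne_zero (f : 𝔇.V) : 𝔇.ρ₀ (𝔇.den f) ≠ 0 :=
  (f.2 : 𝔇.IsFrac f).choose_spec.choose_spec.1

theorem mul_den (f : 𝔇.V) : (f : F) * (𝔇.den f : F) = (𝔇.num f : F) :=
  (f.2 : 𝔇.IsFrac f).choose_spec.choose_spec.2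

/-- the reduction of a fraction, as a function -/
def ρfun (f : 𝔇.V) : Fk := 𝔇.ρ₀ (𝔇.num f) / 𝔇.ρ₀ (𝔇.den f)

/-- the reduction of a fraction does not depend on the representation -/
theorem ρfun_eq (f : 𝔇.V) {a b : 𝔇.O} (hb : 𝔇.ρ₀ b ≠ 0) (hab : (f : F) * (b : F) = (a : F)) :
    𝔇.ρfun f = 𝔇.ρ₀ a / 𝔇.ρ₀ b := by
  unfold ρfun
  rw [div_eq_div_iff (𝔇.ρ₀_den_ne_zero f) hb, ← map_mul, ← map_mul]
  congr 1
  apply Subtype.ext
  push_cast
  rw [← 𝔇.mul_den f, ← hab]
  ring

/-- the reduction map on fractions -/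
def ρ : 𝔇.V →+* Fk where
  toFun := 𝔇.ρfun
  map_one' := by
    rw [𝔇.ρfun_eq 1 (a := 1) (b := 1) (by rw [map_one]; exact one_ne_zero) (by simp)]
    simp
  map_mul' f g := by
    rw [𝔇.ρfun_eq (f * g) (a := 𝔇.num f * 𝔇.num g) (b := 𝔇.den f * 𝔇.den g)
      (by rw [map_mul]; exact mul_ne_zero (𝔇.ρ₀_den_ne_zero f) (𝔇.ρ₀_den_ne_zero g))
      (by push_cast; rw [← 𝔇.mul_den f, ← 𝔇.mul_den g]; ring)]
    unfold ρfun
    rw [map_mul, map_mul, mul_div_mul_comm]
  map_zero' := by
    rw [𝔇.ρfun_eq 0 (a := 0) (b := 1) (by rw [map_one]; exact one_ne_zero) (by simp)]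
    simp
  map_add' f g := by
    rw [𝔇.ρfun_eq (f + g) (a := 𝔇.num f * 𝔇.den g + 𝔇.num g * 𝔇.den f)
      (b := 𝔇.den f * 𝔇.den g)
      (by rw [map_mul]; exact mul_ne_zero (𝔇.ρ₀_den_ne_zero f) (𝔇.ρ₀_den_ne_zero g))
      (by push_cast; rw [← 𝔇.mul_den f, ← 𝔇.mul_den g]; ring)]
    unfold ρfun
    rw [map_add, map_mul, map_mul, map_mul, div_add_div _ _ (𝔇.ρ₀_den_ne_zero f)
      (𝔇.ρ₀_den_ne_zero g)]
    ring

theorem ρ_apply (f : 𝔇.V) {a b : 𝔇.O} (hb : 𝔇.ρ₀ b ≠ 0) (hab : (f : F) * (b : F) = (a : F)) :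
    𝔇.ρ f = 𝔇.ρ₀ a / 𝔇.ρ₀ b :=
  𝔇.ρfun_eq f hb hab

/-- integral functions as fractions -/
def ofO (a : 𝔇.O) : 𝔇.V := ⟨(a : F), 𝔇.isFrac_of_mem a⟩

@[simp] theorem coe_ofO (a : 𝔇.O) : ((𝔇.ofO a : 𝔇.V) : F) = (a : F) := rfl

@[simp] theorem ρ_ofO (a : 𝔇.O) : 𝔇.ρ (𝔇.ofO a) = 𝔇.ρ₀ a := by
  rw [𝔇.ρ_apply (𝔇.ofO a) (a := a) (b := 1) (by rw [map_one]; exact one_ne_zero) (by simp)]
  simp

/-- **The reduction context of fractions.** -/
def ctx : Ctx K F k Fk where
  A := 𝔇.A
  π := 𝔇.π
  π_surj := 𝔇.π_surj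
  π_eq_zero := 𝔇.π_eq_zero
  V := 𝔇.V
  ρ := 𝔇.ρ
  A_mem a := 𝔇.isFrac_of_mem ⟨_, 𝔇.A_mem a⟩
  ρ_A a := by
    have := 𝔇.ρ_ofO ⟨_, 𝔇.A_mem a⟩
    rw [𝔇.ρ₀_A] at this
    exact this
  inv_mem u hu := by
    have hnum : 𝔇.ρ₀ (𝔇.num u) ≠ 0 := by
      intro h
      apply hu
      show 𝔇.ρfun u = 0
      unfold ρfun
      rw [h, zero_div]
    refine ⟨𝔇.den u, 𝔇.num u, hnum, ?_⟩
    have hu0 : (u : F) ≠ 0 := by
      intro h
      apply 𝔇.coe_ne_zero hnum
      rw [← 𝔇.mul_den u, h, zero_mul]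
    rw [← 𝔇.mul_den u]
    field_simp

@[simp] theorem ctx_V : 𝔇.ctx.V = 𝔇.V := rfl

@[simp] theorem ctx_ρ : 𝔇.ctx.ρ = 𝔇.ρ := rfl

@[simp] theorem ctx_A : 𝔇.ctx.A = 𝔇.A := rfl

@[simp] theorem ctx_π : 𝔇.ctx.π = 𝔇.π := rfl

end FracData

end Fermat.Agent.S37.H940

end
end
-- ===== PACK-END S37/H940/Frac.lean

-- ===== PACK-BEGIN S29/H509/TwistedMF.lean
section


/-!
# Twisted Eisenstein series: modular forms and twisted quotients (helper509, S29 piece TES, file 3)

For a finite index subgroup `Γ ≤ SL(2, ℤ)` and a character `χ : Γ →* ℂˣ` with `χ ^ p = 1`,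
trivial on the stabiliser of `∞` in `Γ`:

* `twEisPowMF` : the `p`-th power of the twisted Eisenstein series as a `ModularForm Γ (k * p)`;
* `twEisOneMF` : the untwisted Eisenstein series of `Γ` as a `ModularForm Γ k`;
* `exists_twisted_pair` : the summary statement used downstream.
-/

set_option autoImplicit false

namespace Fermat.Agent.S29.H509

open ModularForm UpperHalfPlane Matrix CongruenceSubgroup EisensteinSeries Filter Topology
open scoped MatrixGroups Manifold

noncomputable section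

/-- Slash action on powers. -/
lemma pow_slash_SL2 (f : ℍ → ℂ) (k : ℤ) (n : ℕ) (A : SL(2, ℤ)) :
    (f ^ n) ∣[k * n] A = (f ∣[k] A) ^ n := by
  ext z
  simp only [SL_slash_apply, Pi.pow_apply, mul_pow]
  congr 1
  rw [← zpow_natCast, ← _root_.zpow_mul, neg_mul]

lemma isBoundedAtImInfty_pow {f : ℍ → ℂ} (hf : IsBoundedAtImInfty f) (n : ℕ) :
    IsBoundedAtImInfty (f ^ n) := by
  induction n with
  | zero =>
    simp only [pow_zero]
    exact Filter.const_boundedAtFilter _ (1 : ℂ)
  | succ n ih =>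
    rw [pow_succ]
    exact Filter.BoundedAtFilter.mul ih hf

lemma norm_eq_one_of_pow_eq_one' {u : ℂˣ} {p : ℕ} (hp : p ≠ 0) (h : u ^ p = 1) :
    ‖(u : ℂ)‖ = 1 := by
  have h1 : (u : ℂ) ^ p = 1 := by
    have := congrArg (fun x : ℂˣ => (x : ℂ)) h
    simpa using this
  exact Complex.norm_eq_one_of_pow_eq_one h1 hp

variable {Γ : Subgroup SL(2, ℤ)}

/-- The `p`-th power of the twisted Eisenstein series is slash invariant under `Γ`. -/
lemma twEis_pow_slash {χ : Γ →* ℂˣ} (hχ : TrivOnUnip χ) {p : ℕ} (hχp : ∀ γ, χ γ ^ p = 1)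
    (k : ℤ) (δ : Γ) :
    (twEis χ k ^ p) ∣[k * p] (δ : SL(2, ℤ)) = twEis χ k ^ p := by
  rw [pow_slash_SL2, twEis_slash hχ]
  ext z
  simp only [Pi.pow_apply, Pi.smul_apply, smul_eq_mul, mul_pow]
  have h1 : (χ δ : ℂ) ^ p = 1 := by
    have := congrArg (fun x : ℂˣ => (x : ℂ)) (hχp δ)
    simpa using this
  rw [h1, one_mul]

/-- The `p`-th power of the twisted Eisenstein series, as a modular form of weight `k * p`. -/
def twEisPowMF [Γ.FiniteIndex] (χ : Γ →* ℂˣ) (hχ : TrivOnUnip χ) {p : ℕ} (hp : p ≠ 0)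
    (hχp : ∀ γ, χ γ ^ p = 1) {k : ℤ} (hk : 3 ≤ k) :
    ModularForm (Γ : Subgroup (GL (Fin 2) ℝ)) (k * p) where
  toFun := twEis χ k ^ p
  slash_action_eq' A hA := by
    obtain ⟨A, hA, rfl⟩ := hA
    exact twEis_pow_slash hχ hχp k ⟨A, hA⟩
  holo' := (twEis_mdifferentiable (fun γ => norm_eq_one_of_pow_eq_one' hp (hχp γ)) hk).pow p
  bdd_at_cusps' {c} hc := by
    rw [Subgroup.IsArithmetic.isCusp_iff_isCusp_SL2Z] at hc
    rw [OnePoint.isBoundedAt_iff_forall_SL2Z hc]
    intro γ _
    rw [pow_slash_SL2]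
    exact isBoundedAtImInfty_pow
      (isBoundedAtImInfty_twEis_slash (fun γ => norm_eq_one_of_pow_eq_one' hp (hχp γ)) hk γ) p

@[simp] lemma twEisPowMF_apply [Γ.FiniteIndex] (χ : Γ →* ℂˣ) (hχ : TrivOnUnip χ) {p : ℕ}
    (hp : p ≠ 0) (hχp : ∀ γ, χ γ ^ p = 1) {k : ℤ} (hk : 3 ≤ k) (z : ℍ) :
    twEisPowMF χ hχ hp hχp hk z = twEis χ k z ^ p := rfl

lemma twEisPowMF_ne_zero [Γ.FiniteIndex] (χ : Γ →* ℂˣ) (hχ : TrivOnStabInfty χ) {p : ℕ}
    (hp : p ≠ 0) (hχp : ∀ γ, χ γ ^ p = 1) {k : ℤ} (hk : 3 ≤ k) (heven : Even k) :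
    twEisPowMF χ hχ.trivOnUnip hp hχp hk ≠ 0 := by
  intro h0
  have hne := twEis_ne_zero (fun γ => norm_eq_one_of_pow_eq_one' hp (hχp γ)) hχ hk heven
  apply hne
  funext z
  have h1 : twEisPowMF χ hχ.trivOnUnip hp hχp hk z = 0 := by rw [h0]; rfl
  rw [twEisPowMF_apply] at h1
  exact pow_eq_zero_iff hp |>.mp h1

/-- Summary: existence of the twisted Eisenstein series with all the properties used downstream.
For a character `χ` of `Γ` of order dividing `p`, trivial on the stabiliser of `∞`, and every even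
weight `k ≥ 4` there is a nonzero holomorphic `E : ℍ → ℂ` with `E ∣[k] δ = χ δ • E` on `Γ`, all
of whose `SL(2, ℤ)`-translates are bounded at `i∞`, and such that `E ^ p` is a modular form of
weight `k * p` on `Γ`. -/
theorem exists_twisted_eisenstein [Γ.FiniteIndex] (χ : Γ →* ℂˣ) (hχ : TrivOnStabInfty χ)
    {p : ℕ} (hp : p ≠ 0) (hχp : ∀ γ, χ γ ^ p = 1) {k : ℤ} (hk : 3 ≤ k) (heven : Even k) :
    ∃ (E : ℍ → ℂ) (F : ModularForm (Γ : Subgroup (GL (Fin 2) ℝ)) (k * p)),
      MDiff E ∧ E ≠ 0 ∧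
      (∀ δ : Γ, E ∣[k] (δ : SL(2, ℤ)) = (χ δ : ℂ) • E) ∧
      (∀ (δ : Γ) (z : ℍ), E ((δ : SL(2, ℤ)) • z) =
        (χ δ : ℂ) * denom (δ : SL(2, ℤ)) z ^ k * E z) ∧
      (∀ A : SL(2, ℤ), IsBoundedAtImInfty (E ∣[k] A)) ∧
      (∀ z, F z = E z ^ p) ∧ F ≠ 0 :=
  ⟨twEis χ k, twEisPowMF χ hχ.trivOnUnip hp hχp hk,
    twEis_mdifferentiable (fun γ => norm_eq_one_of_pow_eq_one' hp (hχp γ)) hk,
    twEis_ne_zero (fun γ => norm_eq_one_of_pow_eq_one' hp (hχp γ)) hχ hk heven,
    twEis_slash hχ.trivOnUnip k,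
    twEis_smul_apply hχ.trivOnUnip k,
    isBoundedAtImInfty_twEis_slash (fun γ => norm_eq_one_of_pow_eq_one' hp (hχp γ)) hk,
    fun _ => rfl,
    twEisPowMF_ne_zero χ hχ hp hχp hk heven⟩

end

end Fermat.Agent.S29.H509

end
-- ===== PACK-END S29/H509/TwistedMF.lean

-- ===== PACK-BEGIN S24/Alg/LocUniq.lean
section




/-!
# S24 / ALG-LOC: local uniqueness of embeddings

Two embeddings `σ τ : F → C((z))` inducing the same place `v` (with residue field `K`), agreeing
on `K` and on some `t` with `ord_v t > 0`, and having the same leading coefficient on a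
uniformizer, are equal.  No completion, no Hensel.
-/

set_option autoImplicit false

noncomputable section

open AlgebraicCurve

namespace Fermat.Agent.S24.H144

variable {K F : Type*} [Field K] [Field F] [Algebra K F] {C : Type*} [Field C]

/-- The residue field of `v` is `K`: every element of the valuation ring is congruent to a
constant modulo the maximal ideal. -/
def ResidueTrivial (v : Place K F) : Prop :=
  ∀ f ∈ v.toValuationSubring, ∃ a : K, f = algebraMap K F a ∨ 0 < v.ord (f - algebraMap K F a)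

/-- First step of the `π`-adic expansion. -/
theorem loc_exists_expand {v : Place K F} (hres : ResidueTrivial v) {π : F} (hπ : v.ord π = 1)
    {f : F} (hf : f ∈ v.toValuationSubring) :
    ∃ a : K, ∃ f₁ ∈ v.toValuationSubring, f = algebraMap K F a + π * f₁ := by
  have hπ0 : π ≠ 0 := by rintro rfl; simp at hπ
  obtain ⟨a, h | h⟩ := hres f hf
  · exact ⟨a, 0, zero_mem _, by rw [h]; simp⟩
  · have h0 : f - algebraMap K F a ≠ 0 := by
      intro h0; rw [h0, v.ord_zero] at h; exact lt_irrefl _ h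
    refine ⟨a, (f - algebraMap K F a) * π⁻¹, ?_, ?_⟩
    · apply loc_mem_of_ord_nonneg
      rw [v.ord_mul h0 (inv_ne_zero hπ0), v.ord_inv, hπ]; omega
    · field_simp; ring

theorem loc_sub_mul (σ τ : F →+* LaurentSeries C) (f h : F) :
    σ (f * h) - τ (f * h) = (σ f - τ f) * σ h + τ f * (σ h - τ h) := by
  rw [map_mul, map_mul]; ring

/-- Main induction: if `σ π - τ π` has order at least `d`, so has `σ f - τ f` for every `f` in
the valuation ring (up to any bound `r`). -/
theorem loc_sub_big {v : Place K F} (hres : ResidueTrivial v) {π : F} (hπ : v.ord π = 1)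
    (ι : K →+* C) (σ τ : F →+* LaurentSeries C)
    (hσK : ∀ c, σ (algebraMap K F c) = HahnSeries.C (ι c))
    (hτK : ∀ c, τ (algebraMap K F c) = HahnSeries.C (ι c))
    (hσ : Induces σ v) (hτ : Induces τ v)
    (d : ℤ) (hd : LocBig d (σ π - τ π)) :
    ∀ r : ℕ, ∀ f ∈ v.toValuationSubring, LocBig (min d r) (σ f - τ f) := by
  obtain ⟨gτ, hgτ, hτord⟩ := loc_exists_mult v τ hτ
  have hτπ : LocBig 1 (τ π) := by
    refine LocBig.of_le_order ?_
    rw [hτord, hπ, mul_one]; exact_mod_cast hgτ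
  intro r
  induction r with
  | zero =>
    intro f hf
    have h1 : LocBig 0 (σ f) := LocBig.of_le_order ((hσ f).mp hf)
    have h2 : LocBig 0 (τ f) := LocBig.of_le_order ((hτ f).mp hf)
    exact (h1.sub h2).mono (by simp)
  | succ r ih =>
    intro f hf
    obtain ⟨a, f₁, hf₁, rfl⟩ := loc_exists_expand hres hπ hf
    have h1 : σ (algebraMap K F a + π * f₁) - τ (algebraMap K F a + π * f₁)
        = (σ π - τ π) * σ f₁ + τ π * (σ f₁ - τ f₁) := by
      rw [map_add, map_add, hσK, hτK, ← loc_sub_mul]; ring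
    rw [h1]
    have h2 : LocBig 0 (σ f₁) := LocBig.of_le_order ((hσ f₁).mp hf₁)
    have h3 : LocBig (d + 0) ((σ π - τ π) * σ f₁) := hd.mul h2
    have h4 : LocBig (1 + min d r) (τ π * (σ f₁ - τ f₁)) := hτπ.mul (ih f₁ hf₁)
    refine (h3.mono ?_).add (h4.mono ?_)
    · simp
    · push_cast
      rcases le_total d (r : ℤ) with h | h
      · rw [min_eq_left h, min_eq_left (by omega)]; omega
      · rw [min_eq_right h]; exact le_trans (min_le_right _ _) (by omega)

/-- If `σ π = τ π` then `σ = τ`. -/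
theorem loc_emb_eq_of_uniformizer_eq {v : Place K F} (hres : ResidueTrivial v) {π : F}
    (hπ : v.ord π = 1) (ι : K →+* C) (σ τ : F →+* LaurentSeries C)
    (hσK : ∀ c, σ (algebraMap K F c) = HahnSeries.C (ι c))
    (hτK : ∀ c, τ (algebraMap K F c) = HahnSeries.C (ι c))
    (hσ : Induces σ v) (hτ : Induces τ v) (h : σ π = τ π) : σ = τ := by
  have key : ∀ f ∈ v.toValuationSubring, σ f = τ f := by
    intro f hf
    rw [← sub_eq_zero]
    apply LocBig.eq_zero_of_forall
    intro k
    have := loc_sub_big hres hπ ι σ τ hσK hτK hσ hτ k (by rw [h, sub_self]; exact LocBig.zero _)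
      k f hf
    rwa [min_self] at this
  ext1 f
  rcases v.toValuationSubring.mem_or_inv_mem f with hf | hf
  · exact key f hf
  · have := key f⁻¹ hf
    rw [map_inv₀, map_inv₀] at this
    exact inv_injective this

/-- The coefficient at the bound of a power. -/
theorem LocBig.coeff_pow {n : ℤ} {a : LaurentSeries C} (ha : LocBig n a) (k : ℕ) :
    (a ^ k).coeff (k * n) = (a.coeff n) ^ k := by
  induction k with
  | zero => simp [HahnSeries.coeff_one]
  | succ k ih =>
    have h := (ha.pow k).coeff_mul ha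
    rw [pow_succ, pow_succ, ← ih, ← h]
    congr 1
    push_cast; ring

/-- Expansion of `a ^ (k+1) - b ^ (k+1)` to first order in `a - b`. -/
theorem loc_pow_sub_pow_big {g d : ℤ} {a b : LaurentSeries C} (ha : LocBig g a)
    (hb : LocBig g b) (hab : a.coeff g = b.coeff g) (hd : LocBig d (a - b)) (k : ℕ) :
    LocBig (d + k * g) (a ^ (k + 1) - b ^ (k + 1)) ∧
      (a ^ (k + 1) - b ^ (k + 1)).coeff (d + k * g)
        = (k + 1) * (a.coeff g) ^ k * (a - b).coeff d := by
  induction k with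
  | zero => simpa using hd
  | succ k ih =>
    obtain ⟨ih1, ih2⟩ := ih
    have hid : a ^ (k + 1 + 1) - b ^ (k + 1 + 1)
        = (a - b) * a ^ (k + 1) + b * (a ^ (k + 1) - b ^ (k + 1)) := by ring
    have h1 : LocBig (d + ((k + 1 : ℕ) : ℤ) * g) ((a - b) * a ^ (k + 1)) := hd.mul (ha.pow (k + 1))
    have h2 : LocBig (g + (d + k * g)) (b * (a ^ (k + 1) - b ^ (k + 1))) := hb.mul ih1
    have hidx : g + (d + (k : ℤ) * g) = d + ((k + 1 : ℕ) : ℤ) * g := by push_cast; ring
    rw [hidx] at h2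
    have c1 : ((a - b) * a ^ (k + 1)).coeff (d + ((k + 1 : ℕ) : ℤ) * g)
        = (a - b).coeff d * (a.coeff g) ^ (k + 1) := by
      rw [hd.coeff_mul (ha.pow (k + 1)), ha.coeff_pow]
    have c2 : (b * (a ^ (k + 1) - b ^ (k + 1))).coeff (d + ((k + 1 : ℕ) : ℤ) * g)
        = b.coeff g * ((k + 1) * (a.coeff g) ^ k * (a - b).coeff d) := by
      rw [← hidx, hb.coeff_mul ih1, ih2]
    refine ⟨by rw [hid]; exact h1.add h2, ?_⟩
    rw [hid, HahnSeries.coeff_add, c1, c2, ← hab]
    push_cast; ring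

/-- **Local uniqueness.** Two embeddings inducing the same place, agreeing on `K` and on `t`
(`ord_v t > 0`), with the same leading coefficient at a uniformizer, are equal. -/
theorem loc_emb_eq_of_leadingCoeff_eq [CharZero C] {v : Place K F} (hres : ResidueTrivial v)
    {t : F} (ht : 0 < v.ord t) {π : F} (hπ : v.ord π = 1)
    (ι : K →+* C) (σ τ : F →+* LaurentSeries C)
    (hσK : ∀ c, σ (algebraMap K F c) = HahnSeries.C (ι c))
    (hτK : ∀ c, τ (algebraMap K F c) = HahnSeries.C (ι c))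
    (hσ : Induces σ v) (hτ : Induces τ v) (hσt : σ t = τ t)
    (hlc : (σ π).leadingCoeff = (τ π).leadingCoeff) : σ = τ := by
  apply loc_emb_eq_of_uniformizer_eq hres hπ ι σ τ hσK hτK hσ hτ
  by_contra hne
  have hδ : σ π - τ π ≠ 0 := sub_ne_zero.mpr hne
  have hπ0 : π ≠ 0 := by rintro rfl; simp at hπ
  have ht0 : t ≠ 0 := by rintro rfl; simp at ht
  obtain ⟨gσ, hgσ, hσord⟩ := loc_exists_mult v σ hσ
  obtain ⟨gτ, hgτ, hτord⟩ := loc_exists_mult v τ hτ
  -- the two multiplicities agree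
  have hg : gσ = gτ := by
    have h1 := hσord t
    rw [hσt, hτord t] at h1
    have h2 : (gτ : ℤ) = gσ := mul_right_cancel₀ ht.ne' h1
    exact_mod_cast h2.symm
  subst hg
  set g : ℤ := (gσ : ℤ) with hgdef
  have hgpos : 0 < g := Int.natCast_pos.mpr hgσ
  have hoσ : (σ π).order = g := by rw [hσord, hπ, mul_one]
  have hoτ : (τ π).order = g := by rw [hτord, hπ, mul_one]
  have hbσ : LocBig g (σ π) := LocBig.of_le_order hoσ.ge
  have hbτ : LocBig g (τ π) := LocBig.of_le_order hoτ.ge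
  have hcoef : (σ π).coeff g = (τ π).coeff g := by
    rw [← hoσ, ← HahnSeries.leadingCoeff_eq, hlc, HahnSeries.leadingCoeff_eq, hoτ, hoσ]
  have ha0 : (σ π).coeff g ≠ 0 := by
    rw [← hoσ]
    exact HahnSeries.coeff_order_eq_zero.not.mpr ((map_ne_zero σ).mpr hπ0)
  -- the difference `δ`
  set d : ℤ := (σ π - τ π).order with hddef
  have hdbig : LocBig d (σ π - τ π) := LocBig.self_order _
  have hdge : g + 1 ≤ d := by
    have := LocBig.sub_of_leadingCoeff_eq (hoσ.trans hoτ.symm) hlc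
    rw [hoσ] at this
    exact this.resolve_left hδ
  have hc0 : (σ π - τ π).coeff d ≠ 0 := HahnSeries.coeff_order_eq_zero.not.mpr hδ
  -- the exponent
  obtain ⟨k, hk⟩ : ∃ k : ℕ, v.ord t = (k : ℤ) + 1 := ⟨(v.ord t - 1).toNat, by omega⟩
  -- the unit part of `t`
  set u : F := t * (π ^ (k + 1))⁻¹ with hu
  have hpk : π ^ (k + 1) ≠ 0 := pow_ne_zero _ hπ0
  have hu0 : u ≠ 0 := mul_ne_zero ht0 (inv_ne_zero hpk)
  have hut : t = u * π ^ (k + 1) := by rw [hu]; field_simp
  have hordu : v.ord u = 0 := by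
    rw [hu, v.ord_mul ht0 (inv_ne_zero hpk), v.ord_inv, loc_ord_pow, hπ, hk]
    push_cast; ring
  have humem : u ∈ v.toValuationSubring := loc_mem_of_ord_nonneg v hordu.ge
  have hτu : (τ u).order = 0 := by rw [hτord, hordu, mul_zero]
  have hτu0 : (τ u).coeff 0 ≠ 0 := by
    rw [← hτu]
    exact HahnSeries.coeff_order_eq_zero.not.mpr ((map_ne_zero τ).mpr hu0)
  -- `σ u - τ u` has order at least `d`
  have hΔu : LocBig d (σ u - τ u) := by
    have := loc_sub_big hres hπ ι σ τ hσK hτK hσ hτ d hdbig d.toNat u humem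
    rwa [Int.toNat_of_nonneg (by omega), min_self] at this
  -- expand `0 = σ t - τ t`
  have hzero : (σ u - τ u) * σ (π ^ (k + 1)) + τ u * (σ (π ^ (k + 1)) - τ (π ^ (k + 1))) = 0 := by
    rw [← loc_sub_mul, ← hut, hσt, sub_self]
  obtain ⟨hD1, hD2⟩ := loc_pow_sub_pow_big hbσ hbτ hcoef hdbig k
  have hcoeff := congrArg (fun s : LaurentSeries C => s.coeff (d + k * g)) hzero
  simp only [HahnSeries.coeff_add, HahnSeries.coeff_zero] at hcoeff
  -- first term vanishes
  have hfirst : ((σ u - τ u) * σ (π ^ (k + 1))).coeff (d + k * g) = 0 := by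
    have hb : LocBig (d + ((k + 1 : ℕ) : ℤ) * g) ((σ u - τ u) * σ (π ^ (k + 1))) := by
      rw [map_pow]
      exact hΔu.mul (hbσ.pow (k + 1))
    apply hb.coeff_eq_zero
    push_cast
    nlinarith
  -- second term does not
  have hsecond : (τ u * (σ (π ^ (k + 1)) - τ (π ^ (k + 1)))).coeff (d + k * g)
      = (τ u).coeff 0 * ((k + 1) * ((σ π).coeff g) ^ k * (σ π - τ π).coeff d) := by
    have hτu' : LocBig 0 (τ u) := LocBig.of_le_order hτu.ge
    rw [map_pow, map_pow]
    have := hτu'.coeff_mul hD1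
    rw [zero_add] at this
    rw [this, hD2]
  rw [hfirst, hsecond, zero_add] at hcoeff
  have hk1 : ((k : C) + 1) ≠ 0 := by exact_mod_cast Nat.succ_ne_zero k
  exact (mul_ne_zero hτu0 (mul_ne_zero (mul_ne_zero hk1 (pow_ne_zero k ha0)) hc0)) hcoeff

end Fermat.Agent.S24.H144

end
end
-- ===== PACK-END S24/Alg/LocUniq.lean

-- ===== PACK-BEGIN S41/H105/TransferAlongComp.lean
section



/-!
# `transferAlong f (φ ∘ f) = [G : f(H)] • φ` (helper105, row S41, block HK, leaf TR)
-/

set_option autoImplicit false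

namespace Fermat.Agent.S41.H105

open Fermat.Agent.S41.Spec

/-- The transfer along an injective `f : H →* G` with range of finite index of `φ ∘ f` is
`[G : f(H)] • φ`. -/
theorem transferAlong_comp {H G : Type*} [Group H] [Group G] {A : Type*} [AddCommGroup A]
    (f : H →* G) (hf : Function.Injective f) (hfi : f.range.FiniteIndex)
    (φ : Additive G →+ A) :
    transferAlong f (φ.comp (MonoidHom.toAdditive f)) = f.range.index • φ := by
  classical
  have h : Function.Injective f ∧ f.range.FiniteIndex := ⟨hf, hfi⟩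
  unfold transferAlong
  rw [dif_pos h]
  have hcomp : (AddMonoidHom.toMultiplicativeRight (φ.comp (MonoidHom.toAdditive f))).comp
      (MonoidHom.ofInjective h.1).symm.toMonoidHom
      = (AddMonoidHom.toMultiplicativeRight φ).comp f.range.subtype := by
    ext x
    obtain ⟨y, hy⟩ := x.2
    have hx : x = MonoidHom.ofInjective h.1 y := Subtype.ext hy.symm
    rw [hx]
    simp [AddMonoidHom.coe_toMultiplicativeRight, MonoidHom.ofInjective_apply]
  refine DFunLike.ext _ _ fun g => ?_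
  rw [hcomp]
  rw [MonoidHom.coe_toAdditiveLeft, Function.comp_apply, Function.comp_apply,
    transfer_comp_subtype]
  simp [AddMonoidHom.coe_toMultiplicativeRight]

end Fermat.Agent.S41.H105

end
-- ===== PACK-END S41/H105/TransferAlongComp.lean

-- ===== PACK-BEGIN S41/H105/TransferRestrict.lean
section




/-!
# Row S41, block HK, leaf TR: `t₁ r₁ = q + 1 = t₂ r₂` (helper105)

`transferRestrict : Spec.TransferRestrictStatement`.
-/

set_option autoImplicit false

namespace Fermat.Agent.S41.H105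

open CongruenceSubgroup Matrix.SpecialLinearGroup
open Fermat.Agent.S41.Spec
open scoped MatrixGroups

theorem incl_injective (N q : ℕ) : Function.Injective (incl N q) :=
  Subgroup.inclusion_injective _

theorem range_incl (N q : ℕ) :
    (incl N q).range = (Gamma0 (N * q)).subgroupOf (Gamma0 N) := by
  ext h
  rw [MonoidHom.mem_range, Subgroup.mem_subgroupOf]
  constructor
  · rintro ⟨γ, rfl⟩
    exact γ.2
  · intro hh
    exact ⟨⟨h, hh⟩, rfl⟩

theorem index_range_incl {N q : ℕ} (hN : N ≠ 0) (hq : q.Prime) (hqN : ¬ q ∣ N) :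
    (incl N q).range.index = q + 1 := by
  rw [range_incl, Nat.mul_comm N q]
  exact Fermat.Agent.S20.Comb.relIndex_Gamma0_of_not_dvd q N hN hq hqN

theorem mem_range_incl_iff {N q : ℕ} (hq : q.Prime) (hqN : ¬ q ∣ N) (h : Gamma0 N) :
    h ∈ (incl N q).range ↔ (q : ℤ) ∣ (h : SL(2, ℤ)) 1 0 := by
  rw [range_incl, Subgroup.mem_subgroupOf, Fermat.Agent.S20.Comb.mem_Gamma0_iff_dvd]
  have hN : (N : ℤ) ∣ (h : SL(2, ℤ)) 1 0 :=
    (Fermat.Agent.S20.Comb.mem_Gamma0_iff_dvd N _).mp h.2
  have hcop : IsCoprime (N : ℤ) (q : ℤ) := by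
    rw [Int.isCoprime_iff_gcd_eq_one, Int.gcd_natCast_natCast]
    exact ((Nat.Prime.coprime_iff_not_dvd hq).mpr hqN).symm
  push_cast
  constructor
  · intro hh
    exact dvd_trans (dvd_mul_left _ _) hh
  · intro hh
    exact hcop.mul_dvd hN hh

theorem conjDelta_coe_apply (N q : ℕ) (γ : Gamma0 (N * q)) :
    (((conjDelta N q γ : Gamma0 N) : SL(2, ℤ)) : Matrix (Fin 2) (Fin 2) ℤ)
      = conjDeltaMatrix q (γ : SL(2, ℤ)) := rfl

theorem conjDelta_injective (N : ℕ) {q : ℕ} (hq : q ≠ 0) :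
    Function.Injective (conjDelta N q) := by
  intro γ γ' h
  have hq' : (q : ℤ) ≠ 0 := by exact_mod_cast hq
  have hm : conjDeltaMatrix q (γ : SL(2, ℤ)) = conjDeltaMatrix q (γ' : SL(2, ℤ)) := by
    rw [← conjDelta_coe_apply, ← conjDelta_coe_apply, h]
  obtain ⟨k, hk⟩ := (dvd_of_mem_gamma0_mul γ).1
  obtain ⟨k', hk'⟩ := (dvd_of_mem_gamma0_mul γ').1
  have h00 := congrFun (congrFun hm 0) 0
  have h01 := congrFun (congrFun hm 0) 1
  have h10 := congrFun (congrFun hm 1) 0
  have h11 := congrFun (congrFun hm 1) 1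
  simp only [conjDeltaMatrix, Matrix.of_apply, Matrix.cons_val_zero, Matrix.cons_val_one,
    Matrix.cons_val', Matrix.cons_val_fin_one] at h00 h01 h10 h11
  rw [hk, hk', Int.mul_ediv_cancel_left _ hq', Int.mul_ediv_cancel_left _ hq'] at h10
  have h01' := mul_left_cancel₀ hq' h01
  apply Subtype.ext
  apply Subtype.ext
  ext i j
  fin_cases i <;> fin_cases j
  · exact h00
  · exact h01'
  · show (γ : SL(2, ℤ)) 1 0 = (γ' : SL(2, ℤ)) 1 0
    rw [hk, hk', h10]
  · exact h11

theorem mem_range_conjDelta_iff (N : ℕ) {q : ℕ} (hq : q ≠ 0) (h : Gamma0 N) :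
    h ∈ (conjDelta N q).range ↔ (q : ℤ) ∣ (h : SL(2, ℤ)) 0 1 := by
  have hq' : (q : ℤ) ≠ 0 := by exact_mod_cast hq
  rw [MonoidHom.mem_range]
  constructor
  · rintro ⟨γ, rfl⟩
    show (q : ℤ) ∣ conjDeltaMatrix q (γ : SL(2, ℤ)) 0 1
    simp [conjDeltaMatrix]
  · rintro ⟨b, hb⟩
    obtain ⟨c, hc⟩ := (Fermat.Agent.S20.Comb.mem_Gamma0_iff_dvd N _).mp h.2
    have hdet := (h : SL(2, ℤ)).det_coe
    rw [Matrix.det_fin_two] at hdet
    let M : Matrix (Fin 2) (Fin 2) ℤ :=
      !![(h : SL(2, ℤ)) 0 0, b; q * (h : SL(2, ℤ)) 1 0, (h : SL(2, ℤ)) 1 1]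
    have hMdet : M.det = 1 := by
      rw [Matrix.det_fin_two_of]
      rw [hb] at hdet
      linear_combination hdet
    let g : SL(2, ℤ) := ⟨M, hMdet⟩
    have hg : g ∈ Gamma0 (N * q) := by
      rw [Fermat.Agent.S20.Comb.mem_Gamma0_iff_dvd]
      show ((N * q : ℕ) : ℤ) ∣ q * (h : SL(2, ℤ)) 1 0
      rw [hc]
      push_cast
      exact ⟨c, by ring⟩
    refine ⟨⟨g, hg⟩, ?_⟩
    apply Subtype.ext
    apply Subtype.ext
    rw [conjDelta_coe_apply]
    ext i j
    fin_cases i <;> fin_cases j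
    · rfl
    · show (q : ℤ) * b = (h : SL(2, ℤ)) 0 1
      rw [hb]
    · show (q : ℤ) * (h : SL(2, ℤ)) 1 0 / q = (h : SL(2, ℤ)) 1 0
      exact Int.mul_ediv_cancel_left _ hq'
    · rfl

/-- `range conjDelta` is the conjugate of `range incl` by an element `g₀ ∈ Γ₀(N)` with first
column `(q, N)`. -/
theorem range_conjDelta_eq_map {N q : ℕ} (hq : q.Prime) (hqN : ¬ q ∣ N) :
    ∃ g₀ : Gamma0 N, (conjDelta N q).range
      = (incl N q).range.map (MulAut.conj g₀).toMonoidHom := by
  obtain ⟨g₀, hg00, hg10⟩ := Fermat.Agent.S20.Comb.exists_special q N hq hqN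
  refine ⟨g₀, ?_⟩
  ext h
  rw [mem_range_conjDelta_iff N hq.ne_zero, Subgroup.mem_map_equiv, mem_range_incl_iff hq hqN]
  have hcop : IsCoprime (q : ℤ) (N : ℤ) := by
    rw [Int.isCoprime_iff_gcd_eq_one, Int.gcd_natCast_natCast]
    exact (Nat.Prime.coprime_iff_not_dvd hq).mpr hqN
  have hentry : (((MulAut.conj g₀).symm h : Gamma0 N) : SL(2, ℤ)) 1 0
      = (q : ℤ) * ((h : SL(2, ℤ)) 1 0 * q + (h : SL(2, ℤ)) 1 1 * N - N * (h : SL(2, ℤ)) 0 0)
        - (N : ℤ) * N * (h : SL(2, ℤ)) 0 1 := by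
    have e : (((MulAut.conj g₀).symm h : Gamma0 N) : SL(2, ℤ))
        = (g₀ : SL(2, ℤ))⁻¹ * ((h : SL(2, ℤ)) * (g₀ : SL(2, ℤ))) := by
      simp [MulAut.conj_symm_apply, mul_assoc]
    rw [e, Fermat.Agent.S20.Comb.inv_mul_apply_one_zero]
    have e00 : ((h : SL(2, ℤ)) * (g₀ : SL(2, ℤ))) 0 0
        = (h : SL(2, ℤ)) 0 0 * q + (h : SL(2, ℤ)) 0 1 * N := by
      simp [Matrix.mul_apply, Fin.sum_univ_two, hg00, hg10]
    have e10 : ((h : SL(2, ℤ)) * (g₀ : SL(2, ℤ))) 1 0
        = (h : SL(2, ℤ)) 1 0 * q + (h : SL(2, ℤ)) 1 1 * N := by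
      simp [Matrix.mul_apply, Fin.sum_univ_two, hg00, hg10]
    rw [e00, e10, hg00, hg10]
    ring
  rw [hentry]
  constructor
  · intro hb
    exact dvd_sub (dvd_mul_right _ _) (dvd_mul_of_dvd_right hb _)
  · intro hh
    have h1 : (q : ℤ) ∣ (N : ℤ) * N * (h : SL(2, ℤ)) 0 1 := by
      have := dvd_sub (dvd_mul_right (q : ℤ)
        ((h : SL(2, ℤ)) 1 0 * q + (h : SL(2, ℤ)) 1 1 * N - N * (h : SL(2, ℤ)) 0 0)) hh
      simpa using this
    exact (hcop.mul_right hcop).dvd_of_dvd_mul_left h1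

theorem index_range_conjDelta {N q : ℕ} (hN : N ≠ 0) (hq : q.Prime) (hqN : ¬ q ∣ N) :
    (conjDelta N q).range.index = q + 1 := by
  obtain ⟨g₀, hg₀⟩ := range_conjDelta_eq_map hq hqN
  rw [hg₀]
  exact (Subgroup.index_map_equiv _ (MulAut.conj g₀)).trans (index_range_incl hN hq hqN)

universe u

/-- **Leaf TR of block HK**: `t₁ r₁ = q + 1 = t₂ r₂`. -/
theorem transferRestrict : TransferRestrictStatement.{u} := by
  intro N q hN hq hqN A _ φ
  have hi₁ : (incl N q).range.index = q + 1 := index_range_incl hN hq hqN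
  have hi₂ : (conjDelta N q).range.index = q + 1 := index_range_conjDelta hN hq hqN
  have hf₁ : (incl N q).range.FiniteIndex := ⟨by rw [hi₁]; exact Nat.succ_ne_zero q⟩
  have hf₂ : (conjDelta N q).range.FiniteIndex := ⟨by rw [hi₂]; exact Nat.succ_ne_zero q⟩
  constructor
  · show transferAlong (incl N q) (φ.comp (MonoidHom.toAdditive (incl N q))) = (q + 1) • φ
    rw [transferAlong_comp (incl N q) (incl_injective N q) hf₁ φ, hi₁]
  · show transferAlong (conjDelta N q) (φ.comp (MonoidHom.toAdditive (conjDelta N q)))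
      = (q + 1) • φ
    rw [transferAlong_comp (conjDelta N q) (conjDelta_injective N hq.ne_zero) hf₂ φ, hi₂]

end Fermat.Agent.S41.H105

end
-- ===== PACK-END S41/H105/TransferRestrict.lean

-- ===== PACK-BEGIN S18/H725/RedBasic.lean
section


/-!
# S18 endgame (helper725), part 1: abstract constant reductions of function fields

`Reduction K F k Fk`: a valuation subring `R` of `F` with residue field `Fk` (via `ρ`), whose value
group is that of `K ∩ R`, together with a map `r` on places such that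
`r_* div(y) = div(ρ y)` for every unit `y` of `R`.
-/

set_option autoImplicit false

noncomputable section

open AlgebraicCurve

namespace Fermat.Agent.S18.H725

open Fermat.Agent.Lib.RR

/-- An abstract "constant reduction" of the function field `F/K` to `Fk/k`. -/
structure Reduction (K F k Fk : Type*) [Field K] [Field F] [Algebra K F] [Field k] [Field Fk]
    [Algebra k Fk] where
  /-- the valuation ring of the constant reduction -/
  R : ValuationSubring F
  /-- the residue map -/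
  ρ : R →+* Fk
  ρ_surj : Function.Surjective ρ
  /-- the kernel of `ρ` is the maximal ideal -/
  isUnit_of_ρ_ne_zero : ∀ y : R, ρ y ≠ 0 → IsUnit y
  /-- constants reduce to constants -/
  const : ∀ (c : K) (hc : algebraMap K F c ∈ R), ∃ c' : k, ρ ⟨algebraMap K F c, hc⟩ = algebraMap k Fk c'
  /-- the value group of `R` is that of `K ∩ R` -/
  scale : ∀ f : F, f ≠ 0 → ∃ c : K, c ≠ 0 ∧ ∃ h : algebraMap K F c * f ∈ R,
    ρ ⟨algebraMap K F c * f, h⟩ ≠ 0
  /-- the specialisation map on places -/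
  r : Place K F → Place k Fk
  /-- compatibility of divisors of units with reduction -/
  red : ∀ y : R, ρ y ≠ 0 → ∀ D : Divisor K F, (∀ P, D P = P.ord (y : F)) →
    ∀ Q, Finsupp.mapDomain r D Q = Q.ord (ρ y)

variable {K F k Fk : Type*} [Field K] [Field F] [Algebra K F] [Field k] [Field Fk] [Algebra k Fk]

/-- Evaluation of `mapDomain` at a point as a filtered sum. -/
theorem mapDomain_apply_eq_sum {α β : Type*} [DecidableEq β] (r : α → β) (D : α →₀ ℤ) (Q : β) :
    Finsupp.mapDomain r D Q = ∑ P ∈ D.support, if r P = Q then D P else 0 := by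
  rw [Finsupp.mapDomain, Finsupp.sum, Finsupp.finsetSum_apply]
  refine Finset.sum_congr rfl fun P _ => ?_
  rw [Finsupp.single_apply]

theorem mapDomain_nonneg {α β : Type*} (r : α → β) (D : α →₀ ℤ) {Q : β}
    (hD : ∀ P, r P = Q → 0 ≤ D P) : 0 ≤ Finsupp.mapDomain r D Q := by
  classical
  rw [mapDomain_apply_eq_sum]
  refine Finset.sum_nonneg fun P _ => ?_
  split_ifs with h
  · exact hD P h
  · exact le_refl _

theorem mapDomain_pos {α β : Type*} (r : α → β) (D : α →₀ ℤ) {Q : β}
    (hD : ∀ P, r P = Q → 0 ≤ D P) {P₀ : α} (hP₀ : r P₀ = Q) (h₀ : 0 < D P₀) :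
    0 < Finsupp.mapDomain r D Q := by
  classical
  rw [mapDomain_apply_eq_sum]
  have hnn : ∀ P' ∈ D.support, (0 : ℤ) ≤ if r P' = Q then D P' else 0 := fun P' _ => by
    split_ifs with h
    · exact hD P' h
    · exact le_refl _
  have hmem : P₀ ∈ D.support := Finsupp.mem_support_iff.mpr (ne_of_gt h₀)
  have h1 := Finset.single_le_sum hnn hmem
  rw [if_pos hP₀] at h1
  omega

/-- If a divisor which is effective over `Q` has `r_* E (Q) = 0` then no point of `E` lies
over `Q`. -/
theorem eq_zero_of_mapDomain_eq_zero {α β : Type*} (r : α → β) (D : α →₀ ℤ) {Q : β}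
    (hD : ∀ P, r P = Q → 0 ≤ D P)
    (h : Finsupp.mapDomain r D Q = 0) {P : α} (hP : r P = Q) : D P = 0 := by
  by_contra hne
  have := mapDomain_pos r D hD hP (lt_of_le_of_ne (hD P hP) (Ne.symm hne))
  omega

/-- If a divisor which is effective over `Q` has `r_* E (Q) = 1` and a point `P₀` over `Q`
in its support, then `P₀` has multiplicity one and is the only point of `E` over `Q`. -/
theorem unique_of_mapDomain_eq_one {α β : Type*} (r : α → β) (D : α →₀ ℤ) {Q : β}
    (hD : ∀ P, r P = Q → 0 ≤ D P) (h : Finsupp.mapDomain r D Q = 1)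
    {P₀ : α} (hP₀ : r P₀ = Q) (h₀ : 0 < D P₀) :
    D P₀ = 1 ∧ ∀ P, r P = Q → P ≠ P₀ → D P = 0 := by
  classical
  rw [mapDomain_apply_eq_sum] at h
  have hnn : ∀ P' ∈ D.support, (0 : ℤ) ≤ if r P' = Q then D P' else 0 := fun P' _ => by
    split_ifs with h
    · exact hD P' h
    · exact le_refl _
  have hmem₀ : P₀ ∈ D.support := Finsupp.mem_support_iff.mpr (ne_of_gt h₀)
  have hsplit := Finset.add_sum_erase D.support (fun P => if r P = Q then D P else 0) hmem₀
  simp only [if_pos hP₀] at hsplit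
  have hrest : 0 ≤ ∑ P ∈ D.support.erase P₀, (if r P = Q then D P else 0) :=
    Finset.sum_nonneg fun P hP => hnn P (Finset.mem_of_mem_erase hP)
  have h1 : D P₀ = 1 := by omega
  have h0 : ∑ P ∈ D.support.erase P₀, (if r P = Q then D P else 0) = 0 := by omega
  refine ⟨h1, fun P hP hne => ?_⟩
  by_contra hDP
  have hmem : P ∈ D.support.erase P₀ :=
    Finset.mem_erase.mpr ⟨hne, Finsupp.mem_support_iff.mpr hDP⟩
  have := (Finset.sum_eq_zero_iff_of_nonneg (fun P' hP' =>
    hnn P' (Finset.mem_of_mem_erase hP'))).mp h0 P hmem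
  rw [if_pos hP] at this
  exact hDP this

/-- If a divisor which is effective over `Q` has `r_* E (Q) = 1` then exactly one point of `E`
lies over `Q`, with multiplicity one. -/
theorem exists_unique_of_mapDomain_eq_one {α β : Type*} (r : α → β) (D : α →₀ ℤ) {Q : β}
    (hD : ∀ P, r P = Q → 0 ≤ D P) (h : Finsupp.mapDomain r D Q = 1) :
    ∃ P₁, r P₁ = Q ∧ D P₁ = 1 ∧ ∀ P, r P = Q → P ≠ P₁ → D P = 0 := by
  classical
  have hex : ∃ P₁, r P₁ = Q ∧ D P₁ ≠ 0 := by
    by_contra hcon
    push Not at hcon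
    have h' := h
    rw [mapDomain_apply_eq_sum] at h'
    have : ∑ P ∈ D.support, (if r P = Q then D P else 0) = 0 :=
      Finset.sum_eq_zero fun P _ => by
        split_ifs with hr
        · exact hcon P hr
        · rfl
    omega
  obtain ⟨P₁, hrP₁, hne⟩ := hex
  have hpos : 0 < D P₁ := lt_of_le_of_ne (hD P₁ hrP₁) (Ne.symm hne)
  obtain ⟨h1, h2⟩ := unique_of_mapDomain_eq_one r D hD h hrP₁ hpos
  exact ⟨P₁, hrP₁, h1, h2⟩

namespace Reduction

variable (Φ : Reduction K F k Fk)

theorem ρ_ne_zero_of_isUnit {y : Φ.R} (hy : IsUnit y) : Φ.ρ y ≠ 0 :=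
  (hy.map Φ.ρ).ne_zero

theorem ρ_eq_zero_iff {y : Φ.R} : Φ.ρ y = 0 ↔ ¬ IsUnit y :=
  ⟨fun h hu => Φ.ρ_ne_zero_of_isUnit hu h, fun h => by
    by_contra hne; exact h (Φ.isUnit_of_ρ_ne_zero y hne)⟩

theorem coe_ne_zero {y : Φ.R} (hy : Φ.ρ y ≠ 0) : (y : F) ≠ 0 := by
  intro h
  apply hy
  have : y = 0 := Subtype.ext h
  rw [this, map_zero]

/-- The inverse of a unit of `R`, as an element of `R`. -/
theorem inv_mem {y : Φ.R} (hy : Φ.ρ y ≠ 0) : (y : F)⁻¹ ∈ Φ.R := by
  obtain ⟨u, hu⟩ := Φ.isUnit_of_ρ_ne_zero y hy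
  have h1 : ((u⁻¹ : Φ.Rˣ) : Φ.R) * y = 1 := by rw [← hu]; exact Units.inv_mul u
  have h2 : (((u⁻¹ : Φ.Rˣ) : Φ.R) : F) * (y : F) = 1 := by
    have := congrArg (Subtype.val) h1
    simpa using this
  have h3 : (y : F)⁻¹ = (((u⁻¹ : Φ.Rˣ) : Φ.R) : F) := by
    rw [eq_comm, ← mul_eq_one_iff_eq_inv₀ (Φ.coe_ne_zero hy)]
    exact h2
  rw [h3]
  exact Subtype.mem _

theorem mul_inv_eq_one {y : Φ.R} (hy : Φ.ρ y ≠ 0) :
    y * ⟨(y : F)⁻¹, Φ.inv_mem hy⟩ = (1 : Φ.R) :=
  Subtype.ext (by simpa using mul_inv_cancel₀ (Φ.coe_ne_zero hy))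

theorem ρ_inv {y : Φ.R} (hy : Φ.ρ y ≠ 0) : Φ.ρ ⟨(y : F)⁻¹, Φ.inv_mem hy⟩ = (Φ.ρ y)⁻¹ := by
  have h1 : Φ.ρ y * Φ.ρ ⟨(y : F)⁻¹, Φ.inv_mem hy⟩ = 1 := by
    rw [← map_mul, Φ.mul_inv_eq_one hy, map_one]
  exact eq_inv_of_mul_eq_one_right h1

/-- An element of `F` not in `R` has its inverse in `R`, reducing to `0`. -/
theorem inv_mem_of_not_mem {f : F} (hf : f ∉ Φ.R) :
    ∃ h : f⁻¹ ∈ Φ.R, Φ.ρ ⟨f⁻¹, h⟩ = 0 := by
  have h := (Φ.R.mem_or_inv_mem f).resolve_left hf
  refine ⟨h, ?_⟩
  by_contra hne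
  apply hf
  have := Φ.inv_mem (y := ⟨f⁻¹, h⟩) hne
  simpa using this

/-! ### Consequences of `red` -/

section Red

variable [HasPrincipalDivisors K F]

/-- The divisor of a nonzero function. -/
theorem exists_div {f : F} (hf : f ≠ 0) :
    ∃ D : Divisor K F, (∀ P, D P = P.ord f) ∧ Divisor.degree D = 0 :=
  HasPrincipalDivisors.exists_divisor (K := K) f hf

theorem ord_ρ_nonneg {y : Φ.R} (hy : Φ.ρ y ≠ 0) {Q : Place k Fk}
    (h : ∀ P, Φ.r P = Q → 0 ≤ P.ord (y : F)) : 0 ≤ Q.ord (Φ.ρ y) := by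
  obtain ⟨D, hD, -⟩ := exists_div (K := K) (Φ.coe_ne_zero hy)
  rw [← Φ.red y hy D hD Q]
  exact mapDomain_nonneg Φ.r D fun P hP => by rw [hD]; exact h P hP

theorem ord_ρ_pos {y : Φ.R} (hy : Φ.ρ y ≠ 0) {Q : Place k Fk}
    (h : ∀ P, Φ.r P = Q → 0 ≤ P.ord (y : F)) {P₀ : Place K F} (hP₀ : Φ.r P₀ = Q)
    (h₀ : 0 < P₀.ord (y : F)) : 0 < Q.ord (Φ.ρ y) := by
  obtain ⟨D, hD, -⟩ := exists_div (K := K) (Φ.coe_ne_zero hy)
  rw [← Φ.red y hy D hD Q]
  exact mapDomain_pos Φ.r D (fun P hP => by rw [hD]; exact h P hP) hP₀ (by rw [hD]; exact h₀)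

theorem ord_unique {y : Φ.R} (hy : Φ.ρ y ≠ 0) {Q : Place k Fk} (hQ : Q.ord (Φ.ρ y) = 1)
    (h : ∀ P, Φ.r P = Q → 0 ≤ P.ord (y : F)) {P₀ : Place K F} (hP₀ : Φ.r P₀ = Q)
    (h₀ : 0 < P₀.ord (y : F)) :
    P₀.ord (y : F) = 1 ∧ ∀ P, Φ.r P = Q → P ≠ P₀ → P.ord (y : F) = 0 := by
  obtain ⟨D, hD, -⟩ := exists_div (K := K) (Φ.coe_ne_zero hy)
  have h1 := Φ.red y hy D hD Q
  rw [hQ] at h1
  have := unique_of_mapDomain_eq_one Φ.r D (fun P hP => by rw [hD]; exact h P hP) h1 hP₀
    (by rw [hD]; exact h₀)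
  simpa only [hD] using this

end Red

end Reduction

end Fermat.Agent.S18.H725

end
end
-- ===== PACK-END S18/H725/RedBasic.lean

-- ===== PACK-BEGIN S18/H725/Value.lean
section


/-!
# S18 endgame (helper725), part 2: the value lemma
-/

set_option autoImplicit false

noncomputable section

open AlgebraicCurve

namespace Fermat.Agent.S18.H725

open Fermat.Agent.Lib.RR

variable {K F k Fk : Type*} [Field K] [Field F] [Algebra K F] [Field k] [Field Fk] [Algebra k Fk]

/-- `0 ≤ ord (f - g)` if `0 ≤ ord f` and `0 ≤ ord g`. -/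
theorem ord_sub_nonneg (v : Place K F) {f g : F} (hf : 0 ≤ v.ord f) (hg : 0 ≤ v.ord g) :
    0 ≤ v.ord (f - g) := by
  have := sub_mem (mem_of_ord_nonneg v hf) (mem_of_ord_nonneg v hg)
  exact ord_nonneg_of_mem v this

theorem ord_add_nonneg (v : Place K F) {f g : F} (hf : 0 ≤ v.ord f) (hg : 0 ≤ v.ord g) :
    0 ≤ v.ord (f + g) := by
  have := add_mem (mem_of_ord_nonneg v hf) (mem_of_ord_nonneg v hg)
  exact ord_nonneg_of_mem v this

theorem ord_mul_nonneg (v : Place K F) {f g : F} (hf : 0 ≤ v.ord f) (hg : 0 ≤ v.ord g) :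
    0 ≤ v.ord (f * g) := by
  have := mul_mem (mem_of_ord_nonneg v hf) (mem_of_ord_nonneg v hg)
  exact ord_nonneg_of_mem v this

/-- `ord (c * f) = ord f` for a nonzero constant `c`. -/
theorem ord_const_mul (v : Place K F) {c : K} (hc : c ≠ 0) (f : F) :
    v.ord (algebraMap K F c * f) = v.ord f := by
  rcases eq_or_ne f 0 with rfl | hf
  · simp
  rw [v.ord_mul ((map_ne_zero _).mpr hc) hf, ord_algebraMap, zero_add]

theorem ord_mul_const (v : Place K F) {c : K} (hc : c ≠ 0) (f : F) :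
    v.ord (f * algebraMap K F c) = v.ord f := by
  rw [mul_comm, ord_const_mul v hc]

/-- the order of a difference with a term of positive order -/
theorem ord_eq_zero_of_sub_pos (v : Place K F) {f : F} {c : K} (hc : c ≠ 0)
    (h : f - algebraMap K F c = 0 ∨ 0 < v.ord (f - algebraMap K F c)) : v.ord f = 0 := by
  rcases h with h | h
  · rw [sub_eq_zero] at h
    rw [h, ord_algebraMap]
  · have hne : f - algebraMap K F c ≠ 0 := ne_zero_of_ord_ne_zero v (ne_of_gt h)
    have hcne : algebraMap K F c ≠ 0 := (map_ne_zero _).mpr hc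
    have := ord_add_eq_of_lt v hcne hne (by rw [ord_algebraMap]; exact h)
    rw [add_sub_cancel, ord_algebraMap] at this
    exact this

namespace Reduction

variable (Φ : Reduction K F k Fk) [HasPrincipalDivisors K F]

/-- **Value lemma.** If `x ∈ R` has no pole over `Q` and `x - c` vanishes at a place `P` over
`Q`, then `c ∈ R` and `ρ x - ρ c` vanishes at `Q`. -/
theorem value_lemma {x : Φ.R} {Q : Place k Fk} {P : Place K F} (hP : Φ.r P = Q)
    (hreg : ∀ P', Φ.r P' = Q → 0 ≤ P'.ord (x : F)) {c : K}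
    (hc : (x : F) - algebraMap K F c = 0 ∨ 0 < P.ord ((x : F) - algebraMap K F c)) :
    ∃ h : algebraMap K F c ∈ Φ.R,
      Φ.ρ x - Φ.ρ ⟨algebraMap K F c, h⟩ = 0 ∨
        0 < Q.ord (Φ.ρ x - Φ.ρ ⟨algebraMap K F c, h⟩) := by
  by_cases hmem : algebraMap K F c ∈ Φ.R
  · refine ⟨hmem, ?_⟩
    set y : Φ.R := x - ⟨algebraMap K F c, hmem⟩ with hy
    have hycoe : (y : F) = (x : F) - algebraMap K F c := rfl
    rw [← map_sub]
    by_cases hρ : Φ.ρ y = 0
    · exact Or.inl hρ
    · right
      have hyne : (y : F) ≠ 0 := Φ.coe_ne_zero hρ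
      refine Φ.ord_ρ_pos hρ (fun P' hP' => ?_) hP ?_
      · rw [hycoe]
        exact ord_sub_nonneg P' (hreg P' hP') (by rw [ord_algebraMap])
      · rw [hycoe]
        rw [hycoe] at hyne
        exact hc.resolve_left hyne
  · exfalso
    obtain ⟨hinv, hρinv⟩ := Φ.inv_mem_of_not_mem hmem
    have hc0 : c ≠ 0 := by
      rintro rfl
      apply hmem
      rw [map_zero]
      exact zero_mem _
    set ci : Φ.R := ⟨(algebraMap K F c)⁻¹, hinv⟩ with hci
    set y : Φ.R := 1 - ci * x with hy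
    have hycoe : (y : F) = 1 - (algebraMap K F c)⁻¹ * (x : F) := rfl
    have hρy : Φ.ρ y = 1 := by
      rw [hy, map_sub, map_one, map_mul, hρinv, zero_mul, sub_zero]
    have hρy0 : Φ.ρ y ≠ 0 := by rw [hρy]; exact one_ne_zero
    have hyne : (y : F) ≠ 0 := Φ.coe_ne_zero hρy0
    have hcF : algebraMap K F c ≠ 0 := (map_ne_zero _).mpr hc0
    have hfac : (y : F) = -((algebraMap K F c)⁻¹ * ((x : F) - algebraMap K F c)) := by
      rw [hycoe]; field_simp; ring
    have hxc : (x : F) - algebraMap K F c ≠ 0 := by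
      intro h0
      rw [hfac, h0, mul_zero, neg_zero] at hyne
      exact hyne rfl
    have hpos : 0 < P.ord (y : F) := by
      rw [hfac, ord_neg, ← map_inv₀, ord_const_mul P (inv_ne_zero hc0)]
      exact hc.resolve_left hxc
    have hnn : ∀ P', Φ.r P' = Q → 0 ≤ P'.ord (y : F) := by
      intro P' hP'
      rw [hycoe]
      refine ord_sub_nonneg P' (by rw [P'.ord_one]) ?_
      rw [← map_inv₀, ord_const_mul P' (inv_ne_zero hc0)]
      exact hreg P' hP'
    have := Φ.ord_ρ_pos hρy0 hnn hP hpos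
    rw [hρy, Q.ord_one] at this
    exact lt_irrefl _ this

/-- **Value lemma, vanishing form.** If moreover `ρ x` vanishes at `Q`, then `ρ c = 0`. -/
theorem value_lemma_zero {x : Φ.R} {Q : Place k Fk} {P : Place K F} (hP : Φ.r P = Q)
    (hreg : ∀ P', Φ.r P' = Q → 0 ≤ P'.ord (x : F)) (hQ : 0 < Q.ord (Φ.ρ x)) {c : K}
    (hc : (x : F) - algebraMap K F c = 0 ∨ 0 < P.ord ((x : F) - algebraMap K F c)) :
    ∃ h : algebraMap K F c ∈ Φ.R, Φ.ρ ⟨algebraMap K F c, h⟩ = 0 := by
  obtain ⟨h, hval⟩ := Φ.value_lemma hP hreg hc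
  refine ⟨h, ?_⟩
  obtain ⟨c', hc'⟩ := Φ.const c h
  by_contra hne
  have hc'0 : c' ≠ 0 := by
    rintro rfl
    rw [map_zero] at hc'
    exact hne hc'
  rw [hc'] at hval
  have hρx : Φ.ρ x ≠ 0 := ne_zero_of_ord_ne_zero Q (ne_of_gt hQ)
  have hord : Q.ord (Φ.ρ x - algebraMap k Fk c') = 0 := by
    have hcne : -algebraMap k Fk c' ≠ 0 := neg_ne_zero.mpr ((map_ne_zero _).mpr hc'0)
    have := ord_add_eq_of_lt Q hcne hρx (by rw [ord_neg, ord_algebraMap]; exact hQ)
    rw [ord_neg, ord_algebraMap, add_comm, ← sub_eq_add_neg] at this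
    exact this
  rcases hval with h0 | hpos
  · rw [sub_eq_zero] at h0
    rw [h0, ord_algebraMap] at hQ
    exact lt_irrefl _ hQ
  · omega

end Reduction

end Fermat.Agent.S18.H725

end
end
-- ===== PACK-END S18/H725/Value.lean

-- ===== PACK-BEGIN S28/H508/CoreToBasis.lean
section
/-
S28 (Igusa) -- helper508: adapter `CoreData N (ZMod ℓ) → BasisData N ℓ`
(captain interfaces `Fermat/Agent/S28/Defs.lean`, `Fermat/Agent/S28/Basis.lean`).
-/



set_option autoImplicit false

noncomputable section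

open ModularCurve HahnSeries Polynomial

namespace Fermat.Agent.S28.H508

/-- Elements of `ℤ[j(q^d) : d ∣ N]` are integral over `ℤ[j]` as soon as the generators are. -/
theorem isIntegralElem_of_mem_closure (N : ℕ)
    (hint : ∀ (d : ℕ) [NeZero d], d ∣ N →
      ∃ P : Polynomial (Polynomial ℤ), P.Monic ∧
        P.eval₂ (evalAt (jqModC ℤ)) (qExpand ℤ d (jqModC ℤ)) = 0)
    {y : LaurentSeries ℤ} (hy : y ∈ Subring.closure (intDivisorExpansions N)) :
    (evalAt (jqModC ℤ)).IsIntegralElem y := by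
  induction hy using Subring.closure_induction with
  | mem x hx =>
    obtain ⟨d, hd, hdN, rfl⟩ := hx
    exact hint d hdN
  | zero => exact (evalAt (jqModC ℤ)).isIntegralElem_zero
  | one => exact (evalAt (jqModC ℤ)).isIntegralElem_one
  | add x y _ _ hx hy => exact RingHom.IsIntegralElem.add _ hx hy
  | neg x _ hx => exact RingHom.IsIntegralElem.neg _ hx
  | mul x y _ _ hx hy => exact RingHom.IsIntegralElem.mul _ hx hy

theorem evalAt_C (a : ℤ) : evalAt (jqModC ℚ) (C a) = (a : LaurentSeries ℚ) := by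
  simp [evalAt]

/-- Every element of `ℚ(j)` is a quotient of two integer polynomials in `j`. -/
theorem exists_int_fraction {c : LaurentSeries ℚ} (hc : c ∈ jField ℚ) :
    ∃ f g : Polynomial ℤ, evalAt (jqModC ℚ) g ≠ 0 ∧
      evalAt (jqModC ℚ) g * c = evalAt (jqModC ℚ) f := by
  unfold jField at hc
  induction hc using IntermediateField.adjoin_induction with
  | mem x hx =>
    rw [Set.mem_singleton_iff] at hx
    subst hx
    refine ⟨X, 1, ?_, ?_⟩
    · rw [map_one]; exact one_ne_zero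
    · rw [map_one, one_mul]
      simp [evalAt]
  | algebraMap r =>
    refine ⟨C r.num, C (r.den : ℤ), ?_, ?_⟩
    · rw [evalAt_C, Int.cast_natCast, ← map_natCast (HahnSeries.C (Γ := ℤ) (R := ℚ))]
      exact (map_ne_zero_iff _ HahnSeries.C_injective).mpr (by exact_mod_cast r.den_ne_zero)
    · rw [evalAt_C, evalAt_C]
      have h : ((r.den : ℚ)) * r = (r.num : ℚ) := by
        rw [mul_comm]; exact Rat.mul_den_eq_num r
      have h2 := congrArg (algebraMap ℚ (LaurentSeries ℚ)) h
      rw [map_mul, map_natCast, map_intCast] at h2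
      exact_mod_cast h2
  | add x y _ _ hx hy =>
    obtain ⟨f₁, g₁, hg₁, h₁⟩ := hx
    obtain ⟨f₂, g₂, hg₂, h₂⟩ := hy
    refine ⟨f₁ * g₂ + f₂ * g₁, g₁ * g₂, ?_, ?_⟩
    · rw [map_mul]; exact mul_ne_zero hg₁ hg₂
    · rw [map_mul, map_add, map_mul, map_mul, ← h₁, ← h₂]; ring
  | inv x _ hx =>
    obtain ⟨f, g, hg, h⟩ := hx
    by_cases hf : evalAt (jqModC ℚ) f = 0
    · have hx0 : x = 0 := by
        rw [hf] at h
        exact (mul_eq_zero.mp h).resolve_left hg
      refine ⟨0, 1, ?_, ?_⟩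
      · rw [map_one]; exact one_ne_zero
      · rw [hx0, inv_zero, mul_zero, map_zero]
    · refine ⟨g, f, hf, ?_⟩
      have hx0 : x ≠ 0 := by
        rintro rfl
        rw [mul_zero] at h
        exact hf h.symm
      rw [← h]
      field_simp
  | mul x y _ _ hx hy =>
    obtain ⟨f₁, g₁, hg₁, h₁⟩ := hx
    obtain ⟨f₂, g₂, hg₂, h₂⟩ := hy
    refine ⟨f₁ * f₂, g₁ * g₂, ?_, ?_⟩
    · rw [map_mul]; exact mul_ne_zero hg₁ hg₂
    · rw [map_mul, map_mul, ← h₁, ← h₂]; ring

/-- Clearing denominators in a `ℚ(j)`-linear combination. -/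
theorem exists_cleared_of_mem_span {n : ℕ} (v : Fin n → LaurentSeries ℚ) {x : LaurentSeries ℚ}
    (hx : x ∈ Submodule.span (jField ℚ) (Set.range v)) :
    ∃ (g : Polynomial ℤ) (f : Fin n → Polynomial ℤ), g ≠ 0 ∧
      evalAt (jqModC ℚ) g * x = ∑ i, evalAt (jqModC ℚ) (f i) * v i := by
  obtain ⟨c, rfl⟩ := (Submodule.mem_span_range_iff_exists_fun (jField ℚ)).mp hx
  have hc : ∀ i, ∃ f g : Polynomial ℤ, evalAt (jqModC ℚ) g ≠ 0 ∧
      evalAt (jqModC ℚ) g * (c i : LaurentSeries ℚ) = evalAt (jqModC ℚ) f :=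
    fun i => exists_int_fraction (c i).2
  choose f g hg hfg using hc
  refine ⟨∏ i, g i, fun i => f i * ∏ k ∈ Finset.univ.erase i, g k, ?_, ?_⟩
  · intro h0
    have : evalAt (jqModC ℚ) (∏ i, g i) = 0 := by rw [h0, map_zero]
    rw [map_prod] at this
    obtain ⟨i, -, hi⟩ := Finset.prod_eq_zero_iff.mp this
    exact hg i hi
  · rw [Finset.mul_sum]
    refine Finset.sum_congr rfl fun i _ => ?_
    rw [← Finset.mul_prod_erase Finset.univ g (Finset.mem_univ i), map_mul, map_mul,
      IntermediateField.smul_def, smul_eq_mul, ← hfg i]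
    ring

/-- The adapter: the field-theoretic core output `CoreData` (over `𝔽_ℓ`) gives the K-free
interface `BasisData` consumed by the valuation layer. -/
theorem basisData_of_coreData (N : ℕ) [NeZero N] (ℓ : ℕ) [Fact ℓ.Prime]
    (h : CoreData N (ZMod ℓ)) : BasisData N ℓ := by
  obtain ⟨n, y, hy, hspan, hind⟩ := h.exists_basis
  refine ⟨n, y, ?_, ?_, ?_⟩
  · intro i
    obtain ⟨P, hP, hPy⟩ := isIntegralElem_of_mem_closure N h.integral (hy i)
    refine ⟨1, P, ?_, ?_, hPy⟩
    · exact (Nat.Prime.one_lt (Fact.out : ℓ.Prime)).ne' ∘ Nat.dvd_one.mp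
    · rw [hP.leadingCoeff]; simp
  · intro x hx
    exact exists_cleared_of_mem_span _ (hspan x hx)
  · intro f hf
    have hmem : ∀ i, Polynomial.aeval (jqModC (ZMod ℓ)) (f i) ∈ jField (ZMod ℓ) := fun i =>
      IntermediateField.algebra_adjoin_le_adjoin _ _ (Polynomial.aeval_mem_adjoin_singleton _ _)
    have h0 := Fintype.linearIndependent_iff.mp hind
      (fun i => ⟨Polynomial.aeval (jqModC (ZMod ℓ)) (f i), hmem i⟩) (by
        simpa [IntermediateField.smul_def] using hf)
    intro i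
    have hi := congrArg Subtype.val (h0 i)
    simp only [ZeroMemClass.coe_zero] at hi
    exact h88_aeval_jqModC_injective (ZMod ℓ) (by rw [hi, map_zero])

end Fermat.Agent.S28.H508

end
end
-- ===== PACK-END S28/H508/CoreToBasis.lean

-- ===== PACK-BEGIN S18/H905/PlaceExists.lean
section





/-!
# S18 / H905 — existence of places, char-free (T2/T3 generic core)

`K ⊆ F` fields such that `F` is finite over `K(x)` for every transcendental `x`
(function field of one variable).  No hypothesis on the characteristic, no separability,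
`K` arbitrary.

* `isPrincipalIdealRing_of_finite` : every valuation subring of `F` containing `K` is a PID
  (Stichtenoth Thm 1.1.6);
* `exists_place_ord_pos` : every transcendental `u` has a zero: a `Place` `v` with `0 < v.ord u`
  (Chevalley + the previous item);
* `exists_place_ord_neg` : every transcendental `u` has a pole;
* `constOfOrdZero_of_finite` : for `K` algebraically closed, a function without zeros and poles is
  constant (shape of `H94.ConstOfOrdZero`).
-/

set_option autoImplicit false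

open AlgebraicCurve IntermediateField Polynomial

namespace Fermat.Agent.S18.H905

variable {K F : Type*} [Field K] [Field F] [Algebra K F]

/-- The valuation of a valuation subring containing `K` is trivial on `K`. -/
theorem valuation_algebraMap_eq_one (O : ValuationSubring F)
    (hK : ∀ c : K, algebraMap K F c ∈ O) (c : K) (hc : c ≠ 0) :
    O.valuation (algebraMap K F c) = 1 := by
  have h1 : O.valuation (algebraMap K F c) ≤ 1 := (O.valuation_le_one_iff _).mpr (hK c)
  have h2 : O.valuation (algebraMap K F c⁻¹) ≤ 1 := (O.valuation_le_one_iff _).mpr (hK c⁻¹)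
  rw [map_inv₀, map_inv₀] at h2
  have h0 : O.valuation (algebraMap K F c) ≠ 0 :=
    (O.valuation.ne_zero_iff).mpr (by simpa using hc)
  refine le_antisymm h1 ?_
  rwa [inv_le_one₀ (zero_lt_iff.mpr h0)] at h2

/-- Nonzero nonunits of a valuation subring containing `K` are transcendental over `K`. -/
theorem transcendental_of_mem_nonunits (O : ValuationSubring F)
    (hK : ∀ c : K, algebraMap K F c ∈ O) {x : F} (hx0 : x ≠ 0) (hx : x ∈ O.nonunits) :
    Transcendental K x := by
  rintro ⟨p, hp, hpx⟩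
  have hlt : O.valuation x < 1 := (O.mem_nonunits_iff).mp hx
  obtain ⟨a, ha⟩ := exists_val_aeval_eq_pow O.valuation (valuation_algebraMap_eq_one O hK) hlt hp
  rw [hpx, map_zero] at ha
  exact (O.valuation.ne_zero_iff).mpr hx0 (pow_eq_zero_iff (n := a + 1) (by omega) |>.mp (by
    rw [pow_succ, ← ha, zero_mul]))

/-- **Stichtenoth 1.1.6 (ACC part).** In a function field, a valuation subring containing the
constants has well-founded strict divisibility. -/
theorem wfDvdMonoid_of_finite (O : ValuationSubring F) (hK : ∀ c : K, algebraMap K F c ∈ O)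
    (hfin : ∀ x : F, Transcendental K x → FiniteDimensional K⟮x⟯ F) : WfDvdMonoid O := by
  refine ⟨wellFounded_iff_isEmpty_descending_chain.mpr ⟨?_⟩⟩
  rintro ⟨f, hf⟩
  set v := O.valuation with hv
  -- strict monotonicity of the values
  have hstep : ∀ n, v (f n : F) < v (f (n + 1) : F) := by
    intro n
    obtain ⟨hne, c, hc, hfc⟩ := hf n
    have hcv : v (c : F) < 1 := by
      rcases O.valuation_lt_one_or_eq_one c with h | h
      · exact h
      · exact absurd ((O.valuation_eq_one_iff c).mpr h) hc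
    have hne' : v (f (n + 1) : F) ≠ 0 :=
      (v.ne_zero_iff).mpr (fun h => hne (Subtype.ext h))
    have : (f n : F) = (f (n + 1) : F) * (c : F) := by
      rw [hfc]; rfl
    rw [this, map_mul]
    calc v (f (n + 1) : F) * v (c : F) < v (f (n + 1) : F) * 1 :=
          mul_lt_mul_of_pos_left hcv (zero_lt_iff.mpr hne')
      _ = v (f (n + 1) : F) := mul_one _
  have hmono : StrictMono fun n => v (f n : F) := strictMono_nat_of_lt_succ hstep
  have hle1 : ∀ n, v (f n : F) ≤ 1 := fun n => (O.valuation_le_one_iff _).mpr (f n).2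
  have hlt1 : ∀ n, v (f n : F) < 1 := fun n => lt_of_lt_of_le (hstep n) (hle1 (n + 1))
  -- the base point `x = f 1`
  have hx0 : (f 1 : F) ≠ 0 := fun h => (hf 0).1 (Subtype.ext h)
  have hxn : (f 1 : F) ∈ O.nonunits := (O.mem_nonunits_iff).mpr (hlt1 1)
  have htr : Transcendental K (f 1 : F) := transcendental_of_mem_nonunits O hK hx0 hxn
  have := hfin _ htr
  set d := Module.finrank K⟮(f 1 : F)⟯ F with hd
  have hcard := card_le_finrank_of_val_chain v (valuation_algebraMap_eq_one O hK) hx0 (hlt1 1)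
    (fun i : Fin (d + 1) => (f (i.1 + 1) : F))
    (fun i j hij => by
      have := hmono.injective hij
      exact Fin.ext (by omega))
    (fun i => hmono.monotone (by omega))
    (fun i => hlt1 _)
  rw [Fintype.card_fin] at hcard
  omega

/-- **Stichtenoth 1.1.6.** In a function field, every valuation subring containing the constants
is a principal ideal ring. -/
theorem isPrincipalIdealRing_of_finite (O : ValuationSubring F)
    (hK : ∀ c : K, algebraMap K F c ∈ O)
    (hfin : ∀ x : F, Transcendental K x → FiniteDimensional K⟮x⟯ F) :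
    IsPrincipalIdealRing O :=
  ((IsBezout.TFAE (R := O)).out 3 1).mp (wfDvdMonoid_of_finite O hK hfin)

/-- A valuation subring containing `K` in which a given nonzero element is a nonunit yields a
place. -/
def placeOfValuationSubring (O : ValuationSubring F) (hK : ∀ c : K, algebraMap K F c ∈ O)
    (hfin : ∀ x : F, Transcendental K x → FiniteDimensional K⟮x⟯ F)
    {u : F} (hu0 : u ≠ 0) (hu : u ∈ O.nonunits) : Place K F where
  toValuationSubring := O
  algebraMap_mem' := hK
  ne_top' := by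
    rintro rfl
    have h1 : (⊤ : ValuationSubring F).valuation u < 1 :=
      ((⊤ : ValuationSubring F).mem_nonunits_iff).mp hu
    have h2 : u⁻¹ ∈ (⊤ : ValuationSubring F) := ValuationSubring.mem_top _
    have h3 := ((⊤ : ValuationSubring F).valuation_le_one_iff _).mpr h2
    rw [map_inv₀] at h3
    have h0 : (⊤ : ValuationSubring F).valuation u ≠ 0 :=
      (Valuation.ne_zero_iff _).mpr hu0
    rw [inv_le_one₀ (zero_lt_iff.mpr h0)] at h3
    exact absurd h1 (not_lt.mpr h3)
  isPrincipalIdealRing' := isPrincipalIdealRing_of_finite O hK hfin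

/-- **Existence of zeros.** In a function field every transcendental element has a zero. -/
theorem exists_place_ord_pos
    (hfin : ∀ x : F, Transcendental K x → FiniteDimensional K⟮x⟯ F)
    (u : F) (hu : Transcendental K u) : ∃ v : Place K F, 0 < v.ord u := by
  have hu0 : u ≠ 0 := by
    rintro rfl
    exact hu ⟨X, X_ne_zero, by simp⟩
  -- the subring `K[u]` and its ideal `(u)`
  let A : Subring F := (Algebra.adjoin K {u}).toSubring
  have huA : u ∈ A := Algebra.self_mem_adjoin_singleton K u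
  let I : Ideal A := Ideal.span {⟨u, huA⟩}
  have hI : I ≠ ⊤ := by
    intro h
    rw [Ideal.span_singleton_eq_top] at h
    obtain ⟨⟨w, hw⟩, hw1⟩ := isUnit_iff_exists_inv.mp h
    have hw' : w ∈ Algebra.adjoin K {u} := hw
    rw [Algebra.adjoin_singleton_eq_range_aeval] at hw'
    obtain ⟨p, rfl⟩ := hw'
    have h1 : u * aeval u p = 1 := congrArg Subtype.val hw1
    apply hu
    refine ⟨X * p - 1, ?_, by simp [h1]⟩
    intro h0
    have := congrArg (fun q : K[X] => q.coeff 0) h0
    simp at this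
  obtain ⟨O, hAO, hIO⟩ := Ideal.image_subset_nonunits_valuationSubring I hI
  have hK : ∀ c : K, algebraMap K F c ∈ O := fun c =>
    hAO ((Algebra.adjoin K {u}).algebraMap_mem c)
  have huO : u ∈ O.nonunits :=
    hIO ⟨⟨u, huA⟩, Ideal.subset_span rfl, rfl⟩
  refine ⟨placeOfValuationSubring O hK hfin hu0 huO, ?_⟩
  exact (Fermat.Agent.S24.FF.ord_pos_iff_mem_nonunits _ hu0).mpr huO

/-- **Existence of poles.** In a function field every transcendental element has a pole. -/
theorem exists_place_ord_neg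
    (hfin : ∀ x : F, Transcendental K x → FiniteDimensional K⟮x⟯ F)
    (u : F) (hu : Transcendental K u) : ∃ v : Place K F, v.ord u < 0 := by
  have hinv : Transcendental K u⁻¹ := by
    intro h
    exact hu (by simpa using h.inv)
  obtain ⟨v, hv⟩ := exists_place_ord_pos hfin u⁻¹ hinv
  refine ⟨v, ?_⟩
  rw [v.ord_inv] at hv
  omega

/-- Finiteness over `K(x)` for one transcendental `x` gives it for all. -/
theorem finite_of_finite {x : F} (hx : Transcendental K x) [FiniteDimensional K⟮x⟯ F] :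
    ∀ y : F, Transcendental K y → FiniteDimensional K⟮y⟯ F := fun _ hy =>
  Fermat.Agent.S24.FF.finiteDimensional_adjoin_of_transcendental hx hy

/-- **CONST (char-free).** Over an algebraically closed constant field, a function without zeros
and poles is constant. -/
theorem constOfOrdZero_of_finite [IsAlgClosed K] {x : F} (hx : Transcendental K x)
    [FiniteDimensional K⟮x⟯ F] (u : F) (_hu0 : u ≠ 0) (hu : ∀ v : Place K F, v.ord u = 0) :
    ∃ c : K, u = algebraMap K F c := by
  by_contra hne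
  have hur : u ∉ (algebraMap K F).range := fun ⟨c, hc⟩ => hne ⟨c, hc.symm⟩
  have htr := Fermat.Agent.S24.FF.transcendental_of_not_mem_range hur
  obtain ⟨v, hv⟩ := exists_place_ord_pos (finite_of_finite hx) u htr
  rw [hu v] at hv
  exact lt_irrefl _ hv

end Fermat.Agent.S18.H905

end
-- ===== PACK-END S18/H905/PlaceExists.lean

-- ===== PACK-BEGIN S37/H518/OrdGE.lean
section



/-!
# S37 / RIM (helper518): "vanishing to order at least `n`" at a place

`OrdGE v n f` means `f = 0 ∨ n ≤ v.ord f`.  This removes the junk value `ord 0 = 0` from all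
ultrametric arguments.  Built on helper504's `PlaceOrd` / `Residue` API (on main).
-/

set_option autoImplicit false

namespace Fermat.Agent.S37.H518

open AlgebraicCurve Fermat.Agent.S24.H504

variable {K F : Type*} [Field K] [Field F] [Algebra K F] (v : Place K F)

/-- `f` vanishes to order at least `n` at `v` (and `0` vanishes to every order). -/
def OrdGE (n : ℤ) (f : F) : Prop := f = 0 ∨ n ≤ v.ord f

variable {v}

theorem ordGE_zero_right (n : ℤ) : OrdGE v n (0 : F) := Or.inl rfl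

theorem OrdGE.mono {m n : ℤ} {f : F} (h : OrdGE v n f) (hmn : m ≤ n) : OrdGE v m f := by
  rcases h with rfl | h
  · exact ordGE_zero_right m
  · exact Or.inr (hmn.trans h)

theorem ordGE_of_ord {n : ℤ} {f : F} (h : n ≤ v.ord f) : OrdGE v n f := Or.inr h

theorem OrdGE.le_ord {n : ℤ} {f : F} (h : OrdGE v n f) (hf : f ≠ 0) : n ≤ v.ord f :=
  h.resolve_left hf

theorem ordGE_zero_iff {f : F} : OrdGE v 0 f ↔ 0 ≤ v.ord f := by
  constructor
  · rintro (rfl | h)
    · simp
    · exact h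
  · exact fun h => Or.inr h

theorem ordGE_one_iff {f : F} : OrdGE v 1 f ↔ InMax v f := by
  unfold OrdGE InMax
  constructor
  · rintro (h | h)
    · exact Or.inl h
    · exact Or.inr (by omega)
  · rintro (h | h)
    · exact Or.inl h
    · exact Or.inr (by omega)

theorem OrdGE.add {n : ℤ} {f g : F} (hf : OrdGE v n f) (hg : OrdGE v n g) :
    OrdGE v n (f + g) := by
  rcases eq_or_ne f 0 with rfl | hf0
  · rwa [zero_add]
  rcases eq_or_ne g 0 with rfl | hg0
  · rwa [add_zero]
  by_cases h0 : f + g = 0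
  · exact Or.inl h0
  exact Or.inr ((le_min (hf.resolve_left hf0) (hg.resolve_left hg0)).trans
    (ord_add_ge v hf0 hg0 h0))

theorem OrdGE.neg {n : ℤ} {f : F} (hf : OrdGE v n f) : OrdGE v n (-f) := by
  rcases hf with rfl | hf
  · simpa using ordGE_zero_right (v := v) n
  · exact Or.inr (by rwa [ord_neg])

theorem OrdGE.sub {n : ℤ} {f g : F} (hf : OrdGE v n f) (hg : OrdGE v n g) :
    OrdGE v n (f - g) := by
  rw [sub_eq_add_neg]
  exact hf.add hg.neg

theorem OrdGE.mul {m n : ℤ} {f g : F} (hf : OrdGE v m f) (hg : OrdGE v n g) :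
    OrdGE v (m + n) (f * g) := by
  rcases hf with rfl | hf
  · left; simp
  rcases hg with rfl | hg
  · left; simp
  rcases eq_or_ne f 0 with rfl | hf0
  · left; simp
  rcases eq_or_ne g 0 with rfl | hg0
  · left; simp
  right
  rw [v.ord_mul hf0 hg0]
  omega

theorem OrdGE.mul_left {n : ℤ} {f g : F} (hg : OrdGE v n g) (hf : OrdGE v 0 f) :
    OrdGE v n (f * g) := by
  simpa using hf.mul hg

theorem OrdGE.mul_right {n : ℤ} {f g : F} (hf : OrdGE v n f) (hg : OrdGE v 0 g) :
    OrdGE v n (f * g) := by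
  simpa using hf.mul hg

theorem ordGE_algebraMap (c : K) : OrdGE v 0 (algebraMap K F c) :=
  Or.inr (by rw [ord_algebraMap])

theorem OrdGE.const_mul {n : ℤ} {f : F} (hf : OrdGE v n f) (c : K) :
    OrdGE v n (algebraMap K F c * f) :=
  hf.mul_left (ordGE_algebraMap c)

theorem OrdGE.smul {n : ℤ} {f : F} (hf : OrdGE v n f) (c : K) : OrdGE v n (c • f) := by
  rw [Algebra.smul_def]
  exact hf.const_mul c

theorem ordGE_one_right : OrdGE v 0 (1 : F) := Or.inr (by simp)

theorem OrdGE.pow {n : ℤ} {f : F} (hf : OrdGE v n f) (k : ℕ) : OrdGE v (k * n) (f ^ k) := by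
  induction k with
  | zero => simpa using ordGE_one_right (v := v)
  | succ k ih =>
    rw [pow_succ]
    have := ih.mul hf
    convert this using 1
    push_cast
    ring

theorem ordGE_sum {ι : Type*} (s : Finset ι) {n : ℤ} (f : ι → F)
    (h : ∀ i ∈ s, OrdGE v n (f i)) : OrdGE v n (∑ i ∈ s, f i) := by
  classical
  induction s using Finset.induction_on with
  | empty => simpa using ordGE_zero_right (v := v) n
  | insert a s ha ih =>
    rw [Finset.sum_insert ha]
    exact (h a (Finset.mem_insert_self a s)).add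
      (ih fun i hi => h i (Finset.mem_insert_of_mem hi))

theorem ordGE_prod_nonneg {ι : Type*} (s : Finset ι) (f : ι → F)
    (h : ∀ i ∈ s, OrdGE v 0 (f i)) : OrdGE v 0 (∏ i ∈ s, f i) := by
  classical
  induction s using Finset.induction_on with
  | empty => simpa using ordGE_one_right (v := v)
  | insert a s ha ih =>
    rw [Finset.prod_insert ha]
    exact (h a (Finset.mem_insert_self a s)).mul_right
      (ih fun i hi => h i (Finset.mem_insert_of_mem hi))

theorem not_ordGE_of_ord_lt {n : ℤ} {f : F} (hf : f ≠ 0) (h : v.ord f < n) : ¬ OrdGE v n f := by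
  rintro (h0 | h1)
  · exact hf h0
  · omega

/-- Leading-term principle: a nonzero `f` plus something of strictly larger order has the
order of `f`. -/
theorem ord_add_of_ordGE {f g : F} (hf : f ≠ 0) (hg : OrdGE v (v.ord f + 1) g) :
    f + g ≠ 0 ∧ v.ord (f + g) = v.ord f := by
  rcases hg with rfl | hg
  · simpa using hf
  rcases eq_or_ne g 0 with rfl | hg0
  · simpa using hf
  have hlt : v.ord f < v.ord g := by omega
  have h := ord_add_eq_of_lt v hf hg0 hlt
  refine ⟨?_, h⟩
  intro h0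
  have : g = -f := by linear_combination h0
  rw [this, ord_neg] at hlt
  exact lt_irrefl _ hlt

theorem OrdGE.div {m n : ℤ} {f g : F} (hf : OrdGE v m f) (hg0 : g ≠ 0) (hg : v.ord g = n) :
    OrdGE v (m - n) (f / g) := by
  rcases hf with rfl | hf
  · left; simp
  rcases eq_or_ne f 0 with rfl | hf0
  · left; simp
  right
  rw [ord_div v hf0 hg0]
  omega

/-- The value of a function at a place is unique. -/
theorem value_unique {f : F} {c c' : K} (h : InMax v (f - algebraMap K F c))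
    (h' : InMax v (f - algebraMap K F c')) : c = c' := by
  by_contra hne
  have h1 : InMax v (algebraMap K F (c' - c)) := by
    have := h.sub h'
    have e : f - algebraMap K F c - (f - algebraMap K F c') = algebraMap K F (c' - c) := by
      rw [map_sub]; ring
    rwa [e] at this
  exact not_inMax_algebraMap (sub_ne_zero.mpr (Ne.symm hne)) h1

theorem inMax_of_ordGE {n : ℤ} {f : F} (hn : 1 ≤ n) (h : OrdGE v n f) : InMax v f :=
  ordGE_one_iff.mp (h.mono hn)

theorem InMax.ordGE {f : F} (h : InMax v f) : OrdGE v 1 f := ordGE_one_iff.mpr h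

theorem InMax.ordGE_zero {f : F} (h : InMax v f) : OrdGE v 0 f :=
  (InMax.ordGE h).mono (by norm_num)

/-- A unit (order `0`, nonzero) is not in the maximal ideal. -/
theorem not_inMax_of_ord_eq_zero {f : F} (hf : f ≠ 0) (h : v.ord f = 0) : ¬ InMax v f := by
  rintro (h0 | h1)
  · exact hf h0
  · omega

end Fermat.Agent.S37.H518

end
-- ===== PACK-END S37/H518/OrdGE.lean

-- ===== PACK-BEGIN S37/H518/Ineq.lean
section


/-!
# S37 / RIM (helper518): zeros can only merge under reduction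

Abstract setting.  `A` is a valuation ring of a field `L` with residue map `π : A → k`,
`F / L` and `Fk / k` are fields ("function fields" of the generic and the special fibre),
`V` is an `A`-algebra of "integral functions" with ring homs `ι : V → F` (generic fibre) and
`ρ : V → Fk` (reduction).  `B ⊆ V` is a chart algebra, `Q` a place of `Fk` centred on the chart at
which the special fibre is normal, and `P i` finitely many distinct places of `F` centred on the
chart, reducing to `Q`.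

Main result `LocalChart.sum_ord_le`:  for `y ∈ B` with `ρ y ≠ 0`,
`∑ i, ord_{P i} (ι y) ≤ ord_Q (ρ y)`.

Proof: `M = B / J`, `J = {z ∈ B | ord_{P i} z ≥ ord_{P i} y}` is a finitely generated `A`-module
(`B` is finite over `A[x]`); `M / 𝔪 M` is spanned by `ord_Q (ρ y)` elements (jets at `Q`), hence so
is `M` (Nakayama); but `M ⊗ L` contains `∑ ord_{P i} y` independent elements.
-/

set_option autoImplicit false

namespace Fermat.Agent.S37.H518

open AlgebraicCurve Fermat.Agent.S24.H504 Polynomial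

variable {L : Type*} [Field L] {A : ValuationSubring L} {k : Type*} [Field k]
variable {F : Type*} [Field F] [Algebra L F] {Fk : Type*} [Field Fk] [Algebra k Fk]
variable {V : Type*} [CommRing V] [Algebra A V]

/-- A reduction structure: integral functions `V` with generic fibre `ι` and reduction `ρ`. -/
structure RedStr (π : A →+* k) (ι : V →+* F) (ρ : V →+* Fk) : Prop where
  pi_surj : Function.Surjective π
  iota_alg : ∀ a : A, ι (algebraMap A V a) = algebraMap L F (a : L)
  rho_alg : ∀ a : A, ρ (algebraMap A V a) = algebraMap k Fk (π a)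

namespace RedStr

variable {π : A →+* k} {ι : V →+* F} {ρ : V →+* Fk} (h : RedStr π ι ρ)
include h

theorem iota_smul (a : A) (z : V) : ι (a • z) = algebraMap L F (a : L) * ι z := by
  rw [Algebra.smul_def, map_mul, h.iota_alg]

theorem rho_smul (a : A) (z : V) : ρ (a • z) = algebraMap k Fk (π a) * ρ z := by
  rw [Algebra.smul_def, map_mul, h.rho_alg]

theorem ker_pi_eq : RingHom.ker π = IsLocalRing.maximalIdeal A :=
  IsLocalRing.eq_maximalIdeal (RingHom.ker_isMaximal_of_surjective π h.pi_surj)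

theorem pi_eq_zero_iff (a : A) : π a = 0 ↔ a ∈ IsLocalRing.maximalIdeal A := by
  rw [← h.ker_pi_eq, RingHom.mem_ker]

theorem isUnit_of_pi_ne_zero {a : A} (ha : π a ≠ 0) : IsUnit a := by
  rw [← IsLocalRing.notMem_maximalIdeal, ← h.pi_eq_zero_iff]
  exact ha

end RedStr

/-- Local chart data at a place `Q` of the special fibre, together with finitely many places
`P i` of the generic fibre reducing to `Q`. -/
structure LocalChart (π : A →+* k) (ι : V →+* F) (ρ : V →+* Fk) (B : Subalgebra A V)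
    (Q : Place k Fk) {I : Type*} (P : I → Place L F) : Prop extends RedStr π ι ρ where
  /-- q-expansion principle: the kernel of reduction on the chart is `𝔪 B` -/
  ker : ∀ b ∈ B, ρ b = 0 → ∃ μ : A, π μ = 0 ∧ ∃ b' ∈ B, b = μ • b'
  /-- `Q` is centred on the chart -/
  Q_int : ∀ b ∈ B, 0 ≤ Q.ord (ρ b)
  /-- normality of the special fibre at `Q`: the local ring of `Q` is the localisation of `ρ B` -/
  Q_loc : ∀ f : Fk, 0 ≤ Q.ord f → ∃ a ∈ B, ∃ s ∈ B, ¬ InMax Q (ρ s) ∧ f * ρ s = ρ a
  /-- `Q` is a rational place -/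
  Q_val : ∀ f : Fk, 0 ≤ Q.ord f → ∃ c : k, InMax Q (f - algebraMap k Fk c)
  P_inj : Function.Injective P
  /-- the `P i` are centred on the chart -/
  P_int : ∀ i, ∀ b ∈ B, 0 ≤ (P i).ord (ι b)
  /-- values of chart functions at `P i` are integral -/
  P_val : ∀ i, ∀ b ∈ B, ∃ c : A, InMax (P i) (ι b - algebraMap L F (c : L))
  /-- `P i` reduces to `Q` -/
  P_red : ∀ i, ∀ b ∈ B, ∀ c : A, InMax (P i) (ι b - algebraMap L F (c : L)) →
    InMax Q (ρ b - algebraMap k Fk (π c))
  /-- normality of the generic fibre at `P i`: local uniformisers in the chart -/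
  P_unif : ∀ i, ∃ w ∈ B, (P i).ord (ι w) = 1
  /-- the chart separates the `P i` -/
  P_sep : ∀ i j, i ≠ j → ∃ s ∈ B, ¬ InMax (P i) (ι s) ∧ InMax (P j) (ι s)

namespace LocalChart

variable {π : A →+* k} {ι : V →+* F} {ρ : V →+* Fk} {B : Subalgebra A V}
  {Q : Place k Fk} {I : Type*} {P : I → Place L F}

/-- The `A`-submodule (and `B`-ideal) of chart functions vanishing to order `≥ m i` at `P i`. -/
def J (h : LocalChart π ι ρ B Q P) (m : I → ℕ) : Submodule A V where
  carrier := {z | z ∈ B ∧ ∀ i, OrdGE (P i) (m i) (ι z)}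
  add_mem' := by
    rintro a b ⟨ha, ha'⟩ ⟨hb, hb'⟩
    refine ⟨B.add_mem ha hb, fun i => ?_⟩
    rw [map_add]
    exact (ha' i).add (hb' i)
  zero_mem' := ⟨B.zero_mem, fun i => by rw [map_zero]; exact ordGE_zero_right _⟩
  smul_mem' := by
    rintro c z ⟨hz, hz'⟩
    refine ⟨B.smul_mem hz c, fun i => ?_⟩
    rw [h.iota_smul]
    exact (hz' i).const_mul _

theorem sub_algebraMap_mem {u : V} (hu : u ∈ B) (c : A) : u - algebraMap A V c ∈ B :=
  B.sub_mem hu (B.algebraMap_mem c)

variable (h : LocalChart π ι ρ B Q P) (m : I → ℕ)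
include h

theorem mem_J {z : V} : z ∈ h.J m ↔ z ∈ B ∧ ∀ i, OrdGE (P i) (m i) (ι z) := Iff.rfl

theorem J_le : h.J m ≤ Subalgebra.toSubmodule B := fun _ hz => hz.1

theorem mul_mem_J {b z : V} (hb : b ∈ B) (hz : z ∈ h.J m) : b * z ∈ h.J m := by
  refine ⟨B.mul_mem hb hz.1, fun i => ?_⟩
  rw [map_mul]
  exact (hz.2 i).mul_left (ordGE_zero_iff.mpr (h.P_int i b hb))

theorem mul_mem_J' {b z : V} (hb : b ∈ B) (hz : z ∈ h.J m) : z * b ∈ h.J m := by
  rw [mul_comm]; exact h.mul_mem_J m hb hz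

theorem iota_sub_algebraMap (u : V) (c : A) :
    ι (u - algebraMap A V c) = ι u - algebraMap L F (c : L) := by
  rw [map_sub, h.iota_alg]

theorem rho_sub_algebraMap (u : V) (c : A) :
    ρ (u - algebraMap A V c) = ρ u - algebraMap k Fk (π c) := by
  rw [map_sub, h.rho_alg]

/-- For `u ∈ B` with values `c i` at `P i`, the product `∏ (u - c i) ^ m i` lies in `J`. -/
theorem prod_mem_J [Fintype I] [DecidableEq I] {u : V} (hu : u ∈ B) (c : I → A)
    (hc : ∀ i, InMax (P i) (ι u - algebraMap L F (c i : L))) :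
    ∏ i, (u - algebraMap A V (c i)) ^ m i ∈ h.J m := by
  refine ⟨B.prod_mem fun i _ => B.pow_mem (sub_algebraMap_mem hu (c i)) _, fun j => ?_⟩
  rw [← Finset.mul_prod_erase Finset.univ _ (Finset.mem_univ j), map_mul, map_pow,
    h.iota_sub_algebraMap]
  have h1 : OrdGE (P j) (m j) ((ι u - algebraMap L F (c j : L)) ^ m j) := by
    simpa using (InMax.ordGE (hc j)).pow (m j)
  refine h1.mul_right ?_
  rw [map_prod]
  refine ordGE_prod_nonneg _ _ fun i _ => ?_
  rw [map_pow]
  have := (ordGE_zero_iff.mpr (h.P_int j _ (sub_algebraMap_mem hu (c i)))).pow (m i)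
  simpa using this

omit h in
theorem ne_zero_and_ord_eq_zero_of_not_inMax {K' F' : Type*} [Field K'] [Field F'] [Algebra K' F']
    {v : Place K' F'} {g : F'} (hg : 0 ≤ v.ord g) (hn : ¬ InMax v g) : g ≠ 0 ∧ v.ord g = 0 := by
  have h0 : g ≠ 0 := fun h0 => hn (Or.inl h0)
  refine ⟨h0, ?_⟩
  by_contra hne
  exact hn (Or.inr (lt_of_le_of_ne hg (Ne.symm hne)))

/-- Chart functions `e j` whose reductions have order exactly `j` at `Q`. -/
theorem exists_jet_basis :
    ∃ e : ℕ → V, ∀ j, e j ∈ B ∧ ρ (e j) ≠ 0 ∧ Q.ord (ρ (e j)) = j := by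
  obtain ⟨ϖ, hϖ⟩ := exists_ord_eq_one Q
  have hϖ0 : ϖ ≠ 0 := ne_zero_of_ord_ne_zero Q (by rw [hϖ]; norm_num)
  have key : ∀ j : ℕ, ∃ a : V, a ∈ B ∧ ρ a ≠ 0 ∧ Q.ord (ρ a) = j := by
    intro j
    have hj : Q.ord (ϖ ^ j) = j := by rw [ord_pow, hϖ, mul_one]
    obtain ⟨a, ha, s, hs, hsn, hfs⟩ := h.Q_loc (ϖ ^ j) (by rw [hj]; positivity)
    obtain ⟨hs0, hsord⟩ := ne_zero_and_ord_eq_zero_of_not_inMax (h.Q_int s hs) hsn
    refine ⟨a, ha, ?_, ?_⟩
    · rw [← hfs]
      exact mul_ne_zero (pow_ne_zero _ hϖ0) hs0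
    · rw [← hfs, Q.ord_mul (pow_ne_zero _ hϖ0) hs0, hj, hsord, add_zero]
  choose e he using key
  exact ⟨e, he⟩

/-- Successive approximation at `Q` by the jet basis. -/
theorem exists_approx (e : ℕ → V) (he : ∀ j, e j ∈ B ∧ ρ (e j) ≠ 0 ∧ Q.ord (ρ (e j)) = j)
    {z : V} (hz : z ∈ B) (n : ℕ) :
    ∃ c : ℕ → A, OrdGE Q n (ρ z - ∑ j ∈ Finset.range n, algebraMap k Fk (π (c j)) * ρ (e j)) := by
  induction n with
  | zero =>
    refine ⟨fun _ => 0, ?_⟩
    simpa using ordGE_zero_iff.mpr (h.Q_int z hz)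
  | succ n ih =>
    obtain ⟨c, hc⟩ := ih
    set r := ρ z - ∑ j ∈ Finset.range n, algebraMap k Fk (π (c j)) * ρ (e j) with hr
    have hf : OrdGE Q 0 (r / ρ (e n)) := by
      have := hc.div (he n).2.1 (he n).2.2
      simpa using this
    obtain ⟨γ, hγ⟩ := h.Q_val _ (ordGE_zero_iff.mp hf)
    obtain ⟨cn, rfl⟩ := h.pi_surj γ
    refine ⟨Function.update c n cn, ?_⟩
    rw [Finset.sum_range_succ]
    have e1 : ∑ j ∈ Finset.range n, algebraMap k Fk (π (Function.update c n cn j)) * ρ (e j)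
        = ∑ j ∈ Finset.range n, algebraMap k Fk (π (c j)) * ρ (e j) := by
      refine Finset.sum_congr rfl fun j hj => ?_
      rw [Function.update_of_ne (Finset.mem_range.mp hj).ne]
    rw [e1, Function.update_self]
    have e2 : ρ z - (∑ j ∈ Finset.range n, algebraMap k Fk (π (c j)) * ρ (e j)
        + algebraMap k Fk (π cn) * ρ (e n))
        = ρ (e n) * (r / ρ (e n) - algebraMap k Fk (π cn)) := by
      rw [hr]
      field_simp [(he n).2.1]
      ring
    rw [e2]
    have h1 : OrdGE Q n (ρ (e n)) := ordGE_of_ord (by rw [(he n).2.2])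
    have := h1.mul (InMax.ordGE hγ)
    simpa using this

omit h in
theorem aeval_mem_of_mem {s : V} (hs : s ∈ B) (p : A[X]) : aeval s p ∈ B := by
  have := (aeval (⟨s, hs⟩ : B) p).2
  rwa [← Subalgebra.aeval_coe] at this

/-- Key step on the special fibre: every chart function is, modulo `J + 𝔪 B`, an
`A`-combination of the first `b = ord_Q (ρ y)` jet functions. -/
theorem exists_decomp [Fintype I] (e : ℕ → V)
    (he : ∀ j, e j ∈ B ∧ ρ (e j) ≠ 0 ∧ Q.ord (ρ (e j)) = j)
    {y : V} (hy : y ∈ B) (hy0 : ρ y ≠ 0) (hm : ∀ i, (m i : ℤ) = (P i).ord (ι y))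
    (b : ℕ) (hb : (b : ℤ) = Q.ord (ρ y)) {z : V} (hz : z ∈ B) :
    ∃ c : ℕ → A, ∃ u ∈ h.J m, ∃ μ : A, π μ = 0 ∧ ∃ b' ∈ B,
      z = ∑ j ∈ Finset.range b, c j • e j + u + μ • b' := by
  classical
  have hyJ : y ∈ h.J m := ⟨hy, fun i => Or.inr (by rw [hm])⟩
  obtain ⟨c, hc⟩ := h.exists_approx e he hz b
  set z' := z - ∑ j ∈ Finset.range b, c j • e j with hz'
  have hz'B : z' ∈ B :=
    B.sub_mem hz (B.sum_mem fun j _ => B.smul_mem (he j).1 _)
  have hρz' : ρ z' = ρ z - ∑ j ∈ Finset.range b, algebraMap k Fk (π (c j)) * ρ (e j) := by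
    rw [hz', map_sub, map_sum]
    congr 1
    exact Finset.sum_congr rfl fun j _ => h.rho_smul _ _
  rw [← hρz'] at hc
  have hf : OrdGE Q 0 (ρ z' / ρ y) := by
    have := hc.div hy0 hb.symm
    simpa using this
  obtain ⟨a', ha', s, hs, hsn, hfs⟩ := h.Q_loc _ (ordGE_zero_iff.mp hf)
  have hprod : ρ (z' * s - y * a') = 0 := by
    rw [map_sub, map_mul, map_mul, ← hfs]
    field_simp
    ring
  obtain ⟨μ, hμ, b'', hb'', hker⟩ := h.ker _ (B.sub_mem (B.mul_mem hz'B hs) (B.mul_mem hy ha')) hprod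
  -- values of `s` at the `P i`
  choose cs hcs using fun i => h.P_val i s hs
  have hunit : ∀ i, IsUnit (cs i) := by
    intro i
    refine h.isUnit_of_pi_ne_zero fun h0 => hsn ?_
    have := h.P_red i s hs (cs i) (hcs i)
    rwa [h0, map_zero, sub_zero] at this
  set G : A[X] := ∏ i, (X - C (cs i)) ^ m i with hG
  have hGs : aeval s G = ∏ i, (s - algebraMap A V (cs i)) ^ m i := by
    rw [hG, map_prod]
    refine Finset.prod_congr rfl fun i _ => ?_
    rw [map_pow, map_sub, aeval_X, aeval_C]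
  have hgJ : aeval s G ∈ h.J m := by
    rw [hGs]
    exact h.prod_mem_J m hs cs hcs
  have hu0 : IsUnit (G.coeff 0) := by
    rw [coeff_zero_eq_eval_zero, hG, eval_prod]
    refine IsUnit.prod_univ_iff.mpr fun i => ?_  
    rw [eval_pow, eval_sub, eval_X, eval_C, zero_sub]
    exact (hunit i).neg.pow _
  obtain ⟨v0, hv0⟩ := hu0.exists_left_inv
  set q := aeval s G.divX with hq
  have hqB : q ∈ B := aeval_mem_of_mem hs _
  have hsplit : q * s + algebraMap A V (G.coeff 0) = aeval s G := by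
    have := congrArg (aeval s) (divX_mul_X_add G)
    rwa [map_add, map_mul, aeval_X, aeval_C] at this
  -- `u₀ • z' ∈ J + 𝔪 B`
  have hkey : G.coeff 0 • z' = (z' * aeval s G - q * (y * a')) + (-μ) • (q * b'') := by
    have h1 : z' * s = y * a' + algebraMap A V μ * b'' := by
      rw [← Algebra.smul_def, ← hker]; ring
    rw [Algebra.smul_def, Algebra.smul_def, map_neg]
    linear_combination z' * hsplit - q * h1
  have hu1 : z' * aeval s G - q * (y * a') ∈ h.J m := by
    refine (h.J m).sub_mem (h.mul_mem_J m hz'B hgJ) (h.mul_mem_J m hqB ?_)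
    exact h.mul_mem_J' m ha' hyJ
  refine ⟨c, v0 • (z' * aeval s G - q * (y * a')), (h.J m).smul_mem _ hu1, v0 * (-μ), ?_,
    q * b'', B.mul_mem hqB hb'', ?_⟩
  · rw [map_mul, map_neg, hμ, neg_zero, mul_zero]
  · have h3 : z' = v0 • (G.coeff 0 • z') := by
      rw [smul_smul, hv0, one_smul]
    have h4 : z = ∑ j ∈ Finset.range b, c j • e j + z' := by rw [hz']; ring
    have h5 : z' = v0 • (z' * aeval s G - q * (y * a')) + (v0 * -μ) • (q * b'') := by
      conv_lhs => rw [h3, hkey]
      rw [smul_add, smul_smul]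
    rw [add_assoc, ← h5]
    exact h4

/-- Nakayama: the chart is spanned, modulo `J`, by the first `b = ord_Q (ρ y)` jet functions. -/
theorem exists_span [Fintype I] (e : ℕ → V)
    (he : ∀ j, e j ∈ B ∧ ρ (e j) ≠ 0 ∧ Q.ord (ρ (e j)) = j)
    {y : V} (hy : y ∈ B) (hy0 : ρ y ≠ 0) (hm : ∀ i, (m i : ℤ) = (P i).ord (ι y))
    (b : ℕ) (hb : (b : ℤ) = Q.ord (ρ y))
    {x : V} (hx : x ∈ B)
    (hfin : ∀ g : A[X], g.Monic → ∃ (r : ℕ) (e' : Fin r → V), (∀ j, e' j ∈ B) ∧
      ∀ z ∈ B, ∃ α : Fin r → A, ∃ z' ∈ B, z = ∑ j, α j • e' j + aeval x g * z')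
    {z : V} (hz : z ∈ B) :
    ∃ α : Fin b → A, z - ∑ j, α j • e j ∈ h.J m := by
  classical
  choose cx hcx using fun i => h.P_val i x hx
  set g : A[X] := ∏ i, (X - C (cx i)) ^ m i with hg
  have hmonic : g.Monic :=
    monic_prod_of_monic _ _ fun i _ => (monic_X_sub_C (cx i)).pow _
  have hgx : aeval x g = ∏ i, (x - algebraMap A V (cx i)) ^ m i := by
    rw [hg, map_prod]
    refine Finset.prod_congr rfl fun i _ => ?_
    rw [map_pow, map_sub, aeval_X, aeval_C]
  have hgJ : aeval x g ∈ h.J m := by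
    rw [hgx]
    exact h.prod_mem_J m hx cx hcx
  obtain ⟨r, e', he', hgen⟩ := hfin g hmonic
  set mk := (h.J m).mkQ with hmk
  set T : Submodule A (V ⧸ h.J m) := (Subalgebra.toSubmodule B).map mk with hT
  set N : Submodule A (V ⧸ h.J m) := Submodule.span A (Set.range fun j : Fin b => mk (e j))
    with hN
  have hmkJ : ∀ u ∈ h.J m, mk u = 0 := fun u hu => by
    rw [hmk, Submodule.mkQ_apply, Submodule.Quotient.mk_eq_zero]
    exact hu
  have hTeq : T = Submodule.span A (Set.range fun j : Fin r => mk (e' j)) := by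
    apply le_antisymm
    · rintro _ ⟨w, hw, rfl⟩
      obtain ⟨α, w', hw', rfl⟩ := hgen w hw
      rw [map_add, map_sum, hmkJ _ (h.mul_mem_J' m hw' hgJ), add_zero]
      refine Submodule.sum_mem _ fun j _ => ?_
      rw [map_smul]
      exact Submodule.smul_mem _ _ (Submodule.subset_span ⟨j, rfl⟩)
    · rw [Submodule.span_le]
      rintro _ ⟨j, rfl⟩
      exact ⟨e' j, he' j, rfl⟩
  have hTfg : T.FG := by
    rw [hTeq]
    exact Submodule.fg_span (Set.finite_range _)
  have hle : T ≤ N ⊔ IsLocalRing.maximalIdeal A • T := by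
    rintro _ ⟨w, hw, rfl⟩
    obtain ⟨c, u, hu, μ, hμ, w', hw', rfl⟩ := h.exists_decomp m e he hy hy0 hm b hb hw
    rw [map_add, map_add, hmkJ u hu, add_zero, map_sum, map_smul]
    refine Submodule.add_mem_sup ?_ ?_
    · rw [Finset.sum_range]
      refine Submodule.sum_mem _ fun j _ => ?_
      rw [map_smul]
      exact Submodule.smul_mem _ _ (Submodule.subset_span ⟨j, rfl⟩)
    · exact Submodule.smul_mem_smul ((h.pi_eq_zero_iff μ).mp hμ) ⟨w', hw', rfl⟩
  have hTN : T ≤ N :=
    Submodule.le_of_le_smul_of_le_jacobson_bot hTfg (IsLocalRing.maximalIdeal_le_jacobson _) hle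
  have hzN : mk z ∈ N := hTN ⟨z, hz, rfl⟩
  rw [hN, Submodule.mem_span_range_iff_exists_fun] at hzN
  obtain ⟨α, hα⟩ := hzN
  refine ⟨α, ?_⟩
  rw [← Submodule.Quotient.mk_eq_zero, ← Submodule.mkQ_apply, ← hmk, map_sub, map_sum, ← hα,
    sub_eq_zero]
  exact Finset.sum_congr rfl fun j _ => (map_smul _ _ _).symm

omit h in
theorem prod_ne_zero_ord_zero {K' F' : Type*} [Field K'] [Field F'] [Algebra K' F']
    (v : Place K' F') {ι' : Type*} (s : Finset ι') (f : ι' → F')
    (hf : ∀ i ∈ s, f i ≠ 0 ∧ v.ord (f i) = 0) :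
    (∏ i ∈ s, f i) ≠ 0 ∧ v.ord (∏ i ∈ s, f i) = 0 := by
  classical
  induction s using Finset.induction_on with
  | empty => simp
  | insert a s ha ih =>
    rw [Finset.prod_insert ha]
    obtain ⟨h1, h2⟩ := hf a (Finset.mem_insert_self a s)
    obtain ⟨h3, h4⟩ := ih fun i hi => hf i (Finset.mem_insert_of_mem hi)
    exact ⟨mul_ne_zero h1 h3, by rw [v.ord_mul h1 h3, h2, h4, add_zero]⟩

/-- Independent chart functions: `w ⟨i, e⟩` has order exactly `e` at `P i` and order `≥ m j` at
`P j`, `j ≠ i`. -/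
theorem exists_indep [Fintype I] :
    ∃ w : (Σ i, Fin (m i)) → V, (∀ p, w p ∈ B) ∧
      (∀ p, ι (w p) ≠ 0 ∧ (P p.1).ord (ι (w p)) = (p.2 : ℕ)) ∧
      ∀ p j, j ≠ p.1 → OrdGE (P j) (m j) (ι (w p)) := by
  classical
  choose wu hwuB hwu1 using h.P_unif
  have sep : ∀ i j, ∃ s ∈ B, i ≠ j → (¬ InMax (P i) (ι s) ∧ InMax (P j) (ι s)) := by
    intro i j
    by_cases hij : i = j
    · exact ⟨1, B.one_mem, fun h' => absurd hij h'⟩
    · obtain ⟨s, hs, h1⟩ := h.P_sep i j hij
      exact ⟨s, hs, fun _ => h1⟩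
  choose ss hssB hss using sep
  set uu : I → V := fun i => ∏ j ∈ Finset.univ.erase i, (ss i j) ^ m j with huu
  have huuB : ∀ i, uu i ∈ B := fun i => B.prod_mem fun j _ => B.pow_mem (hssB i j) _
  have huu0 : ∀ i, ι (uu i) ≠ 0 ∧ (P i).ord (ι (uu i)) = 0 := by
    intro i
    rw [huu, map_prod]
    refine prod_ne_zero_ord_zero (P i) _ _ fun j hj => ?_
    have hji : i ≠ j := fun e => (Finset.ne_of_mem_erase hj) e.symm
    obtain ⟨h1, h2⟩ := ne_zero_and_ord_eq_zero_of_not_inMax (h.P_int i _ (hssB i j)) (hss i j hji).1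
    rw [map_pow]
    exact ⟨pow_ne_zero _ h1, by rw [ord_pow, h2, mul_zero]⟩
  have hwu0 : ∀ i, ι (wu i) ≠ 0 := fun i =>
    ne_zero_of_ord_ne_zero (P i) (by rw [hwu1]; norm_num)
  refine ⟨fun p => uu p.1 * (wu p.1) ^ (p.2 : ℕ), fun p => B.mul_mem (huuB _) (B.pow_mem (hwuB _) _),
    fun p => ?_, fun p j hj => ?_⟩
  · rw [map_mul, map_pow]
    refine ⟨mul_ne_zero (huu0 _).1 (pow_ne_zero _ (hwu0 _)), ?_⟩
    rw [(P p.1).ord_mul (huu0 _).1 (pow_ne_zero _ (hwu0 _)), (huu0 _).2, ord_pow, hwu1]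
    ring
  · rw [map_mul, map_pow]
    have hjmem : j ∈ Finset.univ.erase p.1 := Finset.mem_erase.mpr ⟨hj, Finset.mem_univ _⟩
    have h1 : OrdGE (P j) (m j) (ι (uu p.1)) := by
      have e1 : uu p.1 = (ss p.1 j) ^ m j *
          ∏ i ∈ (Finset.univ.erase p.1).erase j, (ss p.1 i) ^ m i :=
        (Finset.mul_prod_erase _ _ hjmem).symm
      rw [e1, map_mul, map_pow]
      have h2 : OrdGE (P j) (m j) (ι (ss p.1 j) ^ m j) := by
        simpa using (InMax.ordGE (hss p.1 j (Ne.symm hj)).2).pow (m j)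
      refine h2.mul_right ?_
      rw [map_prod]
      refine ordGE_prod_nonneg _ _ fun i _ => ?_
      rw [map_pow]
      simpa using (ordGE_zero_iff.mpr (h.P_int j _ (hssB p.1 i))).pow (m i)
    refine h1.mul_right ?_
    simpa using (ordGE_zero_iff.mpr (h.P_int j _ (hwuB p.1))).pow (p.2 : ℕ)

/-- **Zeros can only merge under reduction.**  For a chart function `y` with nonzero reduction,
the total order of vanishing of `y` at finitely many distinct places `P i` reducing to `Q` is at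
most the order of vanishing of the reduction of `y` at `Q`. -/
theorem sum_ord_le [Fintype I] {y : V} (hy : y ∈ B) (hy0 : ρ y ≠ 0) {x : V} (hx : x ∈ B)
    (hfin : ∀ g : A[X], g.Monic → ∃ (r : ℕ) (e' : Fin r → V), (∀ j, e' j ∈ B) ∧
      ∀ z ∈ B, ∃ α : Fin r → A, ∃ z' ∈ B, z = ∑ j, α j • e' j + aeval x g * z') :
    ∑ i, (P i).ord (ι y) ≤ Q.ord (ρ y) := by
  classical
  have hPy : ∀ i, 0 ≤ (P i).ord (ι y) := fun i => h.P_int i y hy
  have hQy : 0 ≤ Q.ord (ρ y) := h.Q_int y hy
  set m : I → ℕ := fun i => ((P i).ord (ι y)).toNat with hmdef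
  have hm : ∀ i, (m i : ℤ) = (P i).ord (ι y) := fun i => Int.toNat_of_nonneg (hPy i)
  set b : ℕ := (Q.ord (ρ y)).toNat with hbdef
  have hb : (b : ℤ) = Q.ord (ρ y) := Int.toNat_of_nonneg hQy
  obtain ⟨e, he⟩ := h.exists_jet_basis
  obtain ⟨w, hwB, hw1, hw2⟩ := h.exists_indep m
  choose α hα using fun p => h.exists_span m e he hy hy0 hm b hb hx hfin (hwB p)
  by_contra hlt
  rw [not_le] at hlt
  have hcard : b < Fintype.card (Σ i, Fin (m i)) := by
    rw [Fintype.card_sigma]
    simp only [Fintype.card_fin]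
    have : ((b : ℕ) : ℤ) < ((∑ i, m i : ℕ) : ℤ) := by
      rw [hb]
      push_cast
      simp only [hm]
      exact hlt
    exact_mod_cast this
  -- linear dependence of the coefficient vectors
  have hdep : ¬ LinearIndependent L
      (fun p : (Σ i, Fin (m i)) => fun j : Fin b => ((α p j : A) : L)) := by
    intro hli
    have := hli.fintype_card_le_finrank
    rw [Module.finrank_fintype_fun_eq_card, Fintype.card_fin] at this
    omega
  rw [Fintype.not_linearIndependent_iff] at hdep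
  obtain ⟨g, hg0, p₁, hp₁⟩ := hdep
  obtain ⟨d, hd⟩ := IsLocalization.exist_integer_multiples (nonZeroDivisors A) Finset.univ g
  have hd' : ∀ p, ∃ c : A, (c : L) = ((d : A) : L) * g p := by
    intro p
    obtain ⟨c, hc⟩ := hd p (Finset.mem_univ p)
    refine ⟨c, ?_⟩
    rw [Submonoid.smul_def, Algebra.smul_def] at hc
    exact hc
  choose cc hcc using hd'
  have hd0 : ((d : A) : L) ≠ 0 := by
    have := nonZeroDivisors.coe_ne_zero d
    simp only [ne_eq, ZeroMemClass.coe_eq_zero]
    exact this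
  have hrel : ∀ j, ∑ p, cc p * α p j = 0 := by
    intro j
    apply Subtype.coe_injective
    have h1 := congrFun hg0 j
    simp only [Finset.sum_apply, Pi.smul_apply, smul_eq_mul, Pi.zero_apply] at h1
    push_cast
    simp only [hcc, mul_assoc]
    rw [← Finset.mul_sum, h1, mul_zero]
  -- the resulting element of `J`
  have hWJ : ∑ p, cc p • w p ∈ h.J m := by
    have e1 : ∑ p, cc p • w p = ∑ p, cc p • (w p - ∑ j, α p j • e j) := by
      rw [← sub_eq_zero, ← Finset.sum_sub_distrib]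
      simp only [← smul_sub, sub_sub_cancel, Finset.smul_sum, smul_smul]
      rw [Finset.sum_comm]
      refine Finset.sum_eq_zero fun j _ => ?_
      rw [← Finset.sum_smul, hrel, zero_smul]
    rw [e1]
    exact Submodule.sum_mem _ fun p _ => Submodule.smul_mem _ _ (hα p)
  -- contradiction with independence
  obtain ⟨i₀, e₁⟩ := p₁
  have hcc1 : cc ⟨i₀, e₁⟩ ≠ 0 := by
    intro h0
    have := hcc ⟨i₀, e₁⟩
    rw [h0] at this
    simp only [ZeroMemClass.coe_zero] at this
    exact (mul_ne_zero hd0 hp₁) this.symm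
  set S : Finset (Fin (m i₀)) := Finset.univ.filter fun e' => cc ⟨i₀, e'⟩ ≠ 0 with hS
  have hSne : S.Nonempty := ⟨e₁, by simp [hS, hcc1]⟩
  set e₀ := S.min' hSne with he₀
  have he₀S : e₀ ∈ S := Finset.min'_mem S hSne
  have hcc0 : cc ⟨i₀, e₀⟩ ≠ 0 := by
    have := he₀S
    simp only [hS, Finset.mem_filter, Finset.mem_univ, true_and] at this
    exact this
  have hmin : ∀ e' : Fin (m i₀), e' < e₀ → cc ⟨i₀, e'⟩ = 0 := by
    intro e' hlt'
    by_contra hne
    have : e' ∈ S := by simp [hS, hne]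
    exact absurd (Finset.min'_le S e' this) (not_le.mpr hlt')
  have hιW : ι (∑ p, cc p • w p) = ∑ p, algebraMap L F (cc p : L) * ι (w p) := by
    rw [map_sum]
    exact Finset.sum_congr rfl fun p _ => h.iota_smul _ _
  set T₀ := algebraMap L F (cc ⟨i₀, e₀⟩ : L) * ι (w ⟨i₀, e₀⟩) with hT₀
  have hccL : algebraMap L F (cc ⟨i₀, e₀⟩ : L) ≠ 0 := by
    rw [Ne, map_eq_zero]
    simpa using hcc0
  have hT₀ne : T₀ ≠ 0 := mul_ne_zero hccL (hw1 ⟨i₀, e₀⟩).1
  have hT₀ord : (P i₀).ord T₀ = (e₀ : ℕ) := by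
    rw [hT₀, (P i₀).ord_mul hccL (hw1 ⟨i₀, e₀⟩).1, ord_algebraMap, zero_add]
    exact (hw1 ⟨i₀, e₀⟩).2
  have hsplit : ∑ p, algebraMap L F (cc p : L) * ι (w p) =
      T₀ + ∑ p ∈ Finset.univ.erase (⟨i₀, e₀⟩ : Σ i, Fin (m i)),
        algebraMap L F (cc p : L) * ι (w p) :=
    (Finset.add_sum_erase _ _ (Finset.mem_univ _)).symm
  have hR : OrdGE (P i₀) ((P i₀).ord T₀ + 1)
      (∑ p ∈ Finset.univ.erase (⟨i₀, e₀⟩ : Σ i, Fin (m i)),
        algebraMap L F (cc p : L) * ι (w p)) := by
    rw [hT₀ord]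
    refine ordGE_sum _ _ fun p hp => ?_
    have hpne : p ≠ ⟨i₀, e₀⟩ := Finset.ne_of_mem_erase hp
    obtain ⟨i, e'⟩ := p
    by_cases hi : i = i₀
    · subst hi
      have hne' : e' ≠ e₀ := fun h' => hpne (by rw [h'])
      rcases lt_or_gt_of_ne hne' with hlt' | hgt'
      · rw [hmin e' hlt']
        simp only [ZeroMemClass.coe_zero, map_zero, zero_mul]
        exact ordGE_zero_right _
      · refine OrdGE.const_mul ?_ _
        refine ordGE_of_ord ?_
        rw [(hw1 ⟨i, e'⟩).2]
        have : (e₀ : ℕ) < (e' : ℕ) := hgt'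
        exact_mod_cast this
    · refine OrdGE.const_mul ?_ _
      refine (hw2 ⟨i, e'⟩ i₀ (Ne.symm hi)).mono ?_
      have : (e₀ : ℕ) < m i₀ := e₀.2
      exact_mod_cast this
  obtain ⟨hne, hord⟩ := ord_add_of_ordGE hT₀ne hR
  have hJi := hWJ.2 i₀
  rw [hιW, hsplit] at hJi
  have := hJi.le_ord hne
  rw [hord, hT₀ord] at this
  have h2 : (e₀ : ℕ) < m i₀ := e₀.2
  have : (m i₀ : ℤ) ≤ ((e₀ : ℕ) : ℤ) := this
  omega

end LocalChart

end Fermat.Agent.S37.H518

end
-- ===== PACK-END S37/H518/Ineq.lean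

-- ===== PACK-BEGIN S15/H226/WpInj.lean
section


/-!
# S15 / MOD-B3 (helper226): `℘ z = ℘ w ↔ z ≡ ± w mod Λ`

Mathlib-only (through `WpAdd`).  Consequence of the addition relation.
-/

set_option autoImplicit false

open Filter Topology

noncomputable section

namespace Fermat.Agent.S15.H226

open PeriodPair

theorem eventually_nhdsNE_add_notMem226 (L : PeriodPair) (c z₀ : ℂ) :
    ∀ᶠ u in 𝓝[≠] z₀, u + c ∉ L.lattice := by
  have ht : Tendsto (fun y : ℂ => y + c) (𝓝 z₀) (𝓝 (z₀ + c)) :=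
    (continuous_id.add continuous_const).continuousAt
  have h1 := ht.eventually (L.compl_lattice_sdiff_singleton_mem_nhds (z₀ + c))
  rw [eventually_nhdsWithin_iff]
  filter_upwards [h1] with u hu hne hmem
  exact hu ⟨hmem, fun h' => hne (by simpa using h')⟩

theorem meromorphicOrderAt_shift226 (L : PeriodPair) {c z₀ : ℂ} (h : z₀ + c ∈ L.lattice) :
    meromorphicOrderAt (fun u => ℘[L] (u + c)) z₀ = -2 := by
  have := meromorphicOrderAt_comp_add_const_eq_meromorphicOrderAt
    (f := ℘[L]) (c := c) (x := z₀)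
  rw [L.order_weierstrassP _ h] at this
  exact this

/-- If `℘ z = ℘ w` and `z + w ∉ Λ` then `℘' z = ℘' w`. -/
theorem derivWeierstrassP_eq_of_eq226 (L : PeriodPair) {z w : ℂ} (hz : z ∉ L.lattice)
    (hw : w ∉ L.lattice) (hzw : z + w ∉ L.lattice) (h : ℘[L] z = ℘[L] w) :
    ℘'[L] z = ℘'[L] w := by
  have h0 := addRel226_eq_zero L hw hz hzw
  have h1 := L.derivWeierstrassP_sq z hz
  have h2 := L.derivWeierstrassP_sq w hw
  simp only [addRel226, h] at h0
  rw [h] at h1
  have hsq : (℘'[L] z - ℘'[L] w) ^ 2 = 0 := by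
    linear_combination h0 + h1 + h2
  exact sub_eq_zero.mp ((pow_eq_zero_iff (two_ne_zero)).mp hsq)

/-- **Injectivity of `℘` modulo `± 1` and the lattice.** -/
theorem weierstrassP_eq_iff226 (L : PeriodPair) {z w : ℂ} (hz : z ∉ L.lattice)
    (hw : w ∉ L.lattice) :
    ℘[L] z = ℘[L] w ↔ z - w ∈ L.lattice ∨ z + w ∈ L.lattice := by
  constructor
  swap
  · rintro (h | h)
    · have := L.weierstrassP_add_coe w ⟨z - w, h⟩
      simpa using this
    · exact weierstrassP_eq_of_add_mem226 L h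
  intro hx
  by_contra hcon
  rw [not_or] at hcon
  obtain ⟨hzw', hzw⟩ := hcon
  -- Step 1: `℘' z = ℘' w`
  have hy : ℘'[L] z = ℘'[L] w := derivWeierstrassP_eq_of_eq226 L hz hw hzw hx
  -- Step 2: the product relation on the regular locus
  set S : Set ℂ := (L.lattice : Set ℂ) ∪ ((fun u : ℂ => u + z) ⁻¹' (L.lattice : Set ℂ))
    ∪ ((fun u : ℂ => u + w) ⁻¹' (L.lattice : Set ℂ)) with hS
  have hSclosed : IsClosed S := by
    refine (L.isClosed_lattice.union ?_).union ?_
    · exact L.isClosed_lattice.preimage (by fun_prop)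
    · exact L.isClosed_lattice.preimage (by fun_prop)
  have hScount : S.Countable := by
    refine ((countable_lattice226 L).union ?_).union ?_
    · exact (countable_lattice226 L).preimage (add_left_injective z)
    · exact (countable_lattice226 L).preimage (add_left_injective w)
  have hconn : IsPreconnected Sᶜ := by
    have h : 1 < Module.rank ℝ ℂ := by
      rw [Complex.rank_real_complex]; norm_num
    exact (hScount.isConnected_compl_of_one_lt_rank h).isPreconnected
  have hmemS : ∀ u, u ∈ Sᶜ ↔ u ∉ L.lattice ∧ u + z ∉ L.lattice ∧ u + w ∉ L.lattice := by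
    intro u
    simp only [hS, Set.mem_compl_iff, Set.mem_union, Set.mem_preimage, SetLike.mem_coe, not_or]
    tauto
  have hprod : ∀ u ∈ Sᶜ, (℘[L] (u + z) - ℘[L] (u + w)) * (℘[L] u - ℘[L] w) ^ 2 = 0 := by
    intro u hu
    obtain ⟨hu0, huz, huw⟩ := (hmemS u).mp hu
    have e1 := weierstrassP_add_mul226 L hz hu0 huz
    have e2 := weierstrassP_add_mul226 L hw hu0 huw
    rw [hx, hy] at e1
    linear_combination (1 / 4 : ℂ) * e1 - (1 / 4 : ℂ) * e2
  have han1 : AnalyticOnNhd ℂ (fun u => ℘[L] (u + z) - ℘[L] (u + w)) Sᶜ := by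
    intro u hu
    obtain ⟨hu0, huz, huw⟩ := (hmemS u).mp hu
    have h1 := analyticAt_shift226 L huz
    have h2 := analyticAt_shift226 L huw
    fun_prop
  have han2 : AnalyticOnNhd ℂ (fun u => (℘[L] u - ℘[L] w) ^ 2) Sᶜ := by
    intro u hu
    obtain ⟨hu0, huz, huw⟩ := (hmemS u).mp hu
    have h1 : AnalyticAt ℂ ℘[L] u := L.analyticOnNhd_weierstrassP _ hu0
    fun_prop
  rcases AnalyticOnNhd.eq_zero_or_eq_zero_of_mul_eq_zero han1 han2 hprod hconn with hA | hB
  · -- Case A: `℘ (u + z) = ℘ (u + w)` near `-z`, contradiction with the pole at `u = -z`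
    have hz0 : -z + z ∈ L.lattice := by simp
    have hzL : -z ∉ L.lattice := fun h => hz (by simpa using neg_mem h)
    have hwz : -z + w ∉ L.lattice := fun h => hzw' (by
      have := neg_mem h
      simpa [sub_eq_add_neg, add_comm] using this)
    have hev : (fun u => ℘[L] (u + z)) =ᶠ[𝓝[≠] (-z)] fun u => ℘[L] (u + w) := by
      filter_upwards [eventually_nhdsNE_add_notMem226 L z (-z),
        mem_nhdsWithin_of_mem_nhds (L.isClosed_lattice.isOpen_compl.mem_nhds hzL),
        mem_nhdsWithin_of_mem_nhds (eventually_add_notMem226 L hwz)] with u h1 h2 h3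
      exact sub_eq_zero.mp (hA u ((hmemS u).mpr ⟨h2, h1, h3⟩))
    have h1 := meromorphicOrderAt_congr hev
    rw [meromorphicOrderAt_shift226 L hz0] at h1
    have h2 := (analyticAt_shift226 L hwz).meromorphicOrderAt_nonneg
    rw [← h1] at h2
    exact absurd h2 (by decide)
  · -- Case B: `℘ = ℘ w` near `0`, contradiction with the pole at `0`
    have hz' : (0 : ℂ) + z ∉ L.lattice := by simpa using hz
    have hw' : (0 : ℂ) + w ∉ L.lattice := by simpa using hw
    have hev : ℘[L] =ᶠ[𝓝[≠] (0 : ℂ)] fun _ => ℘[L] w := by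
      filter_upwards [eventually_nhdsNE_add_notMem226 L 0 0,
        mem_nhdsWithin_of_mem_nhds (eventually_add_notMem226 L hz'),
        mem_nhdsWithin_of_mem_nhds (eventually_add_notMem226 L hw')] with u h1 h2 h3
      have := hB u ((hmemS u).mpr ⟨by simpa using h1, h2, h3⟩)
      exact sub_eq_zero.mp ((pow_eq_zero_iff (two_ne_zero)).mp this)
    have h1 := meromorphicOrderAt_congr hev
    rw [L.order_weierstrassP 0 (zero_mem _)] at h1
    have h2 : (0 : WithTop ℤ) ≤ meromorphicOrderAt (fun _ : ℂ => ℘[L] w) 0 :=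
      (analyticAt_const).meromorphicOrderAt_nonneg
    rw [← h1] at h2
    exact absurd h2 (by decide)

end Fermat.Agent.S15.H226

end
end
-- ===== PACK-END S15/H226/WpInj.lean

-- ===== PACK-BEGIN S15/H902/LatticeExists.lean
section




/-!
# S15 / MOD-B2 (helper902): a lattice with prescribed invariants

`exists_periodPair_g₂_g₃` : for `g₂³ - 27 g₃² ≠ 0` there is a `PeriodPair` `L` with
`L.g₂ = g₂` and `L.g₃ = g₃`.

Proof: `j : ℍ → ℂ` is surjective (`S24.M7.H47.jFun_surjective`, on main), the invariants of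
`ℤ + ℤ τ` are `(4/3) π⁴ E₄ τ`, `(8/27) π⁶ E₆ τ` (`S20.T2h423`, on main), and scaling.
-/

set_option autoImplicit false

open UpperHalfPlane ModularForm EisensteinSeries

noncomputable section

namespace Fermat.Agent.S15.H902

open Fermat.Agent.S20.T2h423 Fermat.Agent.S24.M7.H47 Fermat.Agent.S20.L1

/-- algebra: from `a³ b'² = a'³ b²` with `a³ ≠ 27 b²`, `a'³ ≠ 27 b'²`, find `μ ≠ 0` with
`a' = μ⁴ a`, `b' = μ⁶ b`. -/
theorem exists_scale_h902 (a b a' b' : ℂ) (hd : a ^ 3 - 27 * b ^ 2 ≠ 0)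
    (hd' : a' ^ 3 - 27 * b' ^ 2 ≠ 0) (h : a ^ 3 * b' ^ 2 = a' ^ 3 * b ^ 2) :
    ∃ μ : ℂ, μ ≠ 0 ∧ a' = μ ^ 4 * a ∧ b' = μ ^ 6 * b := by
  by_cases ha : a = 0
  · subst ha
    have hb : b ≠ 0 := by
      intro hb; apply hd; simp [hb]
    have ha' : a' = 0 := by
      have : a' ^ 3 * b ^ 2 = 0 := by rw [← h]; simp
      rcases mul_eq_zero.mp this with h1 | h1
      · exact pow_eq_zero_iff (by norm_num) |>.mp h1
      · exact absurd (pow_eq_zero_iff (by norm_num) |>.mp h1) hb
    subst ha'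
    have hb' : b' ≠ 0 := by
      intro hb'; apply hd'; simp [hb']
    obtain ⟨μ, hμ⟩ := IsAlgClosed.exists_pow_nat_eq (b' / b) (n := 6) (by norm_num)
    refine ⟨μ, ?_, by simp, ?_⟩
    · rintro rfl
      have : b' / b = 0 := by rw [← hμ]; simp
      exact div_ne_zero hb' hb this
    · rw [hμ]; field_simp
  by_cases hb : b = 0
  · subst hb
    have hb' : b' = 0 := by
      have : a ^ 3 * b' ^ 2 = 0 := by rw [h]; simp
      rcases mul_eq_zero.mp this with h1 | h1
      · exact absurd (pow_eq_zero_iff (by norm_num) |>.mp h1) ha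
      · exact pow_eq_zero_iff (by norm_num) |>.mp h1
    subst hb'
    have ha' : a' ≠ 0 := by
      intro ha'; apply hd'; simp [ha']
    obtain ⟨μ, hμ⟩ := IsAlgClosed.exists_pow_nat_eq (a' / a) (n := 4) (by norm_num)
    refine ⟨μ, ?_, ?_, by simp⟩
    · rintro rfl
      have : a' / a = 0 := by rw [← hμ]; simp
      exact div_ne_zero ha' ha this
    · rw [hμ]; field_simp
  have ha' : a' ≠ 0 := by
    rintro rfl
    have : a ^ 3 * b' ^ 2 = 0 := by rw [h]; simp
    rcases mul_eq_zero.mp this with h1 | h1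
    · exact absurd (pow_eq_zero_iff (by norm_num) |>.mp h1) ha
    · have hb' : b' = 0 := pow_eq_zero_iff (by norm_num) |>.mp h1
      apply hd'; simp [hb']
  have hb' : b' ≠ 0 := by
    rintro rfl
    have : a' ^ 3 * b ^ 2 = 0 := by rw [← h]; simp
    rcases mul_eq_zero.mp this with h1 | h1
    · exact absurd (pow_eq_zero_iff (by norm_num) |>.mp h1) ha'
    · exact absurd (pow_eq_zero_iff (by norm_num) |>.mp h1) hb
  obtain ⟨μ, hμ⟩ := IsAlgClosed.exists_pow_nat_eq (a * b' / (a' * b)) (n := 2) (by norm_num)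
  have hμ0 : μ ≠ 0 := by
    rintro rfl
    have : a * b' / (a' * b) = 0 := by rw [← hμ]; simp
    exact div_ne_zero (mul_ne_zero ha hb') (mul_ne_zero ha' hb) this
  have h4 : μ ^ 4 = a' / a := by
    have : μ ^ 4 = (μ ^ 2) ^ 2 := by ring
    rw [this, hμ]
    field_simp
    exact h
  refine ⟨μ, hμ0, ?_, ?_⟩
  · rw [h4]; field_simp
  · have : μ ^ 6 = μ ^ 4 * μ ^ 2 := by ring
    rw [this, h4, hμ]
    field_simp

/-- the discriminant of the lattice `ℤ + ℤ τ` is not zero -/
theorem g₂_cube_sub_g₃_sq_pairOf_ne_zero (τ : ℍ) :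
    (pairOf τ).g₂ ^ 3 - 27 * (pairOf τ).g₃ ^ 2 ≠ 0 := by
  rw [g₂_cube_sub_g₃_sq_pairOf]
  refine mul_ne_zero (pow_ne_zero _ (mul_ne_zero two_ne_zero ?_)) (discriminant_ne_zero τ)
  exact_mod_cast Real.pi_ne_zero

/-- `j(τ) (g₂³ - 27 g₃²) = 1728 g₂³` for the lattice `ℤ + ℤ τ`. -/
theorem jFun_mul_pairOf (τ : ℍ) :
    jFun τ * ((pairOf τ).g₂ ^ 3 - 27 * (pairOf τ).g₃ ^ 2) = 1728 * (pairOf τ).g₂ ^ 3 := by
  rw [g₂_cube_sub_g₃_sq_pairOf, g₂_pairOf, jFun]
  have hΔ := discriminant_ne_zero τ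
  field_simp
  ring

/-- **MOD-B2.** A lattice with prescribed invariants `g₂, g₃`, `g₂³ - 27 g₃² ≠ 0`. -/
theorem exists_periodPair_g₂_g₃ (g2 g3 : ℂ) (h : g2 ^ 3 - 27 * g3 ^ 2 ≠ 0) :
    ∃ L : PeriodPair, L.g₂ = g2 ∧ L.g₃ = g3 := by
  obtain ⟨τ, hτ⟩ := jFun_surjective (1728 * g2 ^ 3 / (g2 ^ 3 - 27 * g3 ^ 2))
  have h0 := g₂_cube_sub_g₃_sq_pairOf_ne_zero τ
  have hj := jFun_mul_pairOf τ
  rw [hτ] at hj
  set a := (pairOf τ).g₂ with ha
  set b := (pairOf τ).g₃ with hb
  have hrel : a ^ 3 * g3 ^ 2 = g2 ^ 3 * b ^ 2 := by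
    field_simp at hj
    linear_combination (1 / 27 : ℂ) * hj
  obtain ⟨μ, hμ0, h2, h3⟩ := exists_scale_h902 a b g2 g3 h0 h hrel
  refine ⟨scalePair μ⁻¹ (inv_ne_zero hμ0) (pairOf τ), ?_, ?_⟩
  · rw [g₂_scalePair, h2, inv_pow, inv_inv]
  · rw [g₃_scalePair, h3, inv_pow, inv_inv]

end Fermat.Agent.S15.H902

end

end
-- ===== PACK-END S15/H902/LatticeExists.lean

-- ===== PACK-BEGIN S15/H902/Uniformization.lean
section




/-!
# S15 / MOD-B3 assembly (helper902): complex uniformisation of elliptic curves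

`uniformization : H542.UniformizationStatement` : every Weierstrass curve `E` over `ℂ` with
`Δ ≠ 0` is `ℂ/Λ`, via `z ↦ (℘(z) - b₂/12, (℘'(z) - a₁ x - a₃)/2)`.

Inputs (on main): the lattice with prescribed invariants (`LatticeExists`, B2), the addition
theorem for `℘`, `℘'` and `℘ z = ℘ w ↔ z ≡ ± w` (helper226, `H226/WpAdd`, `H226/WpInj`).
The non-generic cases of the group law are obtained by the translation trick
`Φ(2z) = Φ(z + t) + Φ(z - t)`; no duplication formula is used.
-/

set_option autoImplicit false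

open Filter Topology

noncomputable section

namespace Fermat.Agent.S15.H902

open PeriodPair WeierstrassCurve Fermat.Agent.S15.H226 Fermat.Agent.S15.H542

/-! ### Elementary lattice facts -/

theorem neg_notMem_h902 (L : PeriodPair) {z : ℂ} (hz : z ∉ L.lattice) : -z ∉ L.lattice :=
  fun h => hz (by simpa using neg_mem h)

theorem add_mem_iff_h902 (L : PeriodPair) {z l : ℂ} (hl : l ∈ L.lattice) :
    z + l ∈ L.lattice ↔ z ∈ L.lattice :=
  ⟨fun h => by simpa using sub_mem h hl, fun h => add_mem h hl⟩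

theorem weierstrassP_add_mem_h902 (L : PeriodPair) (z : ℂ) {l : ℂ} (hl : l ∈ L.lattice) :
    ℘[L] (z + l) = ℘[L] z :=
  L.weierstrassP_add_coe z ⟨l, hl⟩

theorem derivWeierstrassP_add_mem_h902 (L : PeriodPair) (z : ℂ) {l : ℂ} (hl : l ∈ L.lattice) :
    ℘'[L] (z + l) = ℘'[L] z :=
  L.derivWeierstrassP_add_coe z ⟨l, hl⟩

/-! ### `℘` takes every value -/

/-- **U2.** `℘ - c` has a zero off the lattice. -/
theorem exists_weierstrassP_eq_h902 (L : PeriodPair) (c : ℂ) :
    ∃ z, z ∉ L.lattice ∧ ℘[L] z = c := by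
  by_contra hcon
  push Not at hcon
  have hmer : Meromorphic fun z => (℘[L] z - c)⁻¹ := by
    have := L.meromorphic_weierstrassP
    fun_prop
  have hord : ∀ z, 0 ≤ meromorphicOrderAt (fun z => (℘[L] z - c)⁻¹) z := by
    intro z
    by_cases hz : z ∈ L.lattice
    · have h1 : meromorphicOrderAt (fun z => ℘[L] z - c) z = -2 := by
        have hP := L.order_weierstrassP z hz
        have hcm : MeromorphicAt (fun _ : ℂ => -c) z :=
          (analyticAt_const (𝕜 := ℂ) (v := -c) (x := z)).meromorphicAt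
        have hc : (0 : WithTop ℤ) ≤ meromorphicOrderAt (fun _ : ℂ => -c) z :=
          (analyticAt_const (𝕜 := ℂ) (v := -c) (x := z)).meromorphicOrderAt_nonneg
        have hlt : meromorphicOrderAt ℘[L] z < meromorphicOrderAt (fun _ : ℂ => -c) z := by
          rw [hP]
          exact lt_of_lt_of_le (by decide) hc
        have := meromorphicOrderAt_add_eq_left_of_lt (f₁ := ℘[L]) (f₂ := fun _ : ℂ => -c)
          hcm hlt
        rw [hP] at this
        rw [← this]
        rfl
      have h2 := meromorphicOrderAt_inv (f := fun z => ℘[L] z - c) (x := z)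
      have h3 : meromorphicOrderAt (fun z => (℘[L] z - c)⁻¹) z = 2 := by
        have : (fun z => (℘[L] z - c)⁻¹) = (fun z => ℘[L] z - c)⁻¹ := rfl
        rw [this, h2, h1]
        rfl
      rw [h3]
      decide
    · have han : AnalyticAt ℂ (fun z => (℘[L] z - c)⁻¹) z := by
        have h1 : AnalyticAt ℂ ℘[L] z := L.analyticOnNhd_weierstrassP z hz
        have h2 : ℘[L] z - c ≠ 0 := sub_ne_zero.mpr (hcon z hz)
        fun_prop (disch := exact h2)
      exact han.meromorphicOrderAt_nonneg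
  have hper : ∀ z, ∀ l ∈ L.lattice, (fun z => (℘[L] z - c)⁻¹) (z + l) =
      (fun z => (℘[L] z - c)⁻¹) z := by
    intro z l hl
    simp only [weierstrassP_add_mem_h902 L z hl]
  obtain ⟨k, hk⟩ := elliptic_const226 L hmer hord hper
  -- `℘` is constant off the lattice
  have hconst : ∀ z, z ∉ L.lattice → ℘[L] z = c + k⁻¹ := by
    intro z hz
    have hcont : ContinuousAt (fun z => (℘[L] z - c)⁻¹) z := by
      have h1 : ContinuousAt ℘[L] z := (L.analyticOnNhd_weierstrassP z hz).continuousAt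
      have h2 : ℘[L] z - c ≠ 0 := sub_ne_zero.mpr (hcon z hz)
      exact (h1.sub continuousAt_const).inv₀ h2
    have h : (℘[L] z - c)⁻¹ = k := hk z hcont
    rw [← h, inv_inv]
    ring
  refine not_forall_derivWeierstrassP_eq_zero226 L fun z hz => ?_
  have hz' : z ∉ L.lattice := hz
  have h1 := hasDerivAt_weierstrassP226 L hz'
  have h2 : HasDerivAt ℘[L] 0 z := by
    refine (hasDerivAt_const z (c + k⁻¹)).congr_of_eventuallyEq ?_
    filter_upwards [L.isClosed_lattice.isOpen_compl.mem_nhds hz'] with y hy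
    exact hconst y hy
  exact h1.unique h2

/-! ### The parametrisation -/

section Param

variable (E : WeierstrassCurve ℂ) (L : PeriodPair)

/-- the `x`-coordinate of the point with parameter `z` -/
def uX (z : ℂ) : ℂ := ℘[L] z - E.b₂ / 12

/-- the `y`-coordinate of the point with parameter `z` -/
def uY (z : ℂ) : ℂ := (℘'[L] z - E.a₁ * uX E L z - E.a₃) / 2

theorem two_uY (z : ℂ) : 2 * uY E L z + E.a₁ * uX E L z + E.a₃ = ℘'[L] z := by
  simp only [uY]; ring

variable {E L}

theorem equation_u (h2 : L.g₂ = E.c₄ / 12) (h3 : L.g₃ = E.c₆ / 216) {z : ℂ}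
    (hz : z ∉ L.lattice) : E.toAffine.Equation (uX E L z) (uY E L z) := by
  rw [WeierstrassCurve.Affine.equation_iff]
  have h := L.derivWeierstrassP_sq z hz
  rw [h2, h3] at h
  simp only [uY, uX, WeierstrassCurve.c₄, WeierstrassCurve.c₆, WeierstrassCurve.b₂,
    WeierstrassCurve.b₄, WeierstrassCurve.b₆] at h ⊢
  linear_combination (1 / 4 : ℂ) * h

theorem nonsingular_u (hΔ : E.Δ ≠ 0) (h2 : L.g₂ = E.c₄ / 12) (h3 : L.g₃ = E.c₆ / 216) {z : ℂ}
    (hz : z ∉ L.lattice) : E.toAffine.Nonsingular (uX E L z) (uY E L z) :=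
  (WeierstrassCurve.Affine.equation_iff_nonsingular_of_Δ_ne_zero hΔ).mp (equation_u h2 h3 hz)

open Classical in
/-- the point with parameter `z` -/
def uPt (hΔ : E.Δ ≠ 0) (h2 : L.g₂ = E.c₄ / 12) (h3 : L.g₃ = E.c₆ / 216) (z : ℂ) :
    E.toAffine.Point :=
  if hz : z ∈ L.lattice then 0 else .some _ _ (nonsingular_u hΔ h2 h3 hz)

variable (hΔ : E.Δ ≠ 0) (h2 : L.g₂ = E.c₄ / 12) (h3 : L.g₃ = E.c₆ / 216)

theorem uPt_of_mem {z : ℂ} (hz : z ∈ L.lattice) : uPt hΔ h2 h3 z = 0 := by
  simp only [uPt, dif_pos hz]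

theorem uPt_of_notMem {z : ℂ} (hz : z ∉ L.lattice) :
    uPt hΔ h2 h3 z = .some _ _ (nonsingular_u hΔ h2 h3 hz) := by
  simp only [uPt, dif_neg hz]

theorem uPt_eq_zero_iff (z : ℂ) : uPt hΔ h2 h3 z = 0 ↔ z ∈ L.lattice := by
  constructor
  · intro h
    by_contra hz
    rw [uPt_of_notMem hΔ h2 h3 hz] at h
    exact WeierstrassCurve.Affine.Point.some_ne_zero _ h
  · exact uPt_of_mem hΔ h2 h3

/-- two points with the same coordinates are equal -/
theorem some_eq_some_h902 {x y x' y' : ℂ} (h : E.toAffine.Nonsingular x y)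
    (h' : E.toAffine.Nonsingular x' y') (hx : x = x') (hy : y = y') :
    (WeierstrassCurve.Affine.Point.some x y h : E.toAffine.Point) =
      WeierstrassCurve.Affine.Point.some x' y' h' := by
  subst hx; subst hy; rfl

theorem uPt_add_mem (z : ℂ) {l : ℂ} (hl : l ∈ L.lattice) :
    uPt hΔ h2 h3 (z + l) = uPt hΔ h2 h3 z := by
  by_cases hz : z ∈ L.lattice
  · rw [uPt_of_mem hΔ h2 h3 hz, uPt_of_mem hΔ h2 h3 (add_mem hz hl)]
  · have hzl : z + l ∉ L.lattice := fun h => hz ((add_mem_iff_h902 L hl).mp h)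
    rw [uPt_of_notMem hΔ h2 h3 hz, uPt_of_notMem hΔ h2 h3 hzl]
    refine some_eq_some_h902 _ _ ?_ ?_
    · simp only [uX, weierstrassP_add_mem_h902 L z hl]
    · simp only [uY, uX, weierstrassP_add_mem_h902 L z hl, derivWeierstrassP_add_mem_h902 L z hl]

theorem uPt_neg (z : ℂ) : uPt hΔ h2 h3 (-z) = -uPt hΔ h2 h3 z := by
  by_cases hz : z ∈ L.lattice
  · rw [uPt_of_mem hΔ h2 h3 hz, uPt_of_mem hΔ h2 h3 (neg_mem hz)]
    rfl
  · rw [uPt_of_notMem hΔ h2 h3 hz, uPt_of_notMem hΔ h2 h3 (neg_notMem_h902 L hz),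
      WeierstrassCurve.Affine.Point.neg_some]
    refine some_eq_some_h902 _ _ ?_ ?_
    · simp only [uX, L.weierstrassP_neg]
    · simp only [uY, uX, L.weierstrassP_neg, L.derivWeierstrassP_neg,
        WeierstrassCurve.Affine.negY]
      ring

variable [DecidableEq ℂ]

/-- the generic case of the addition theorem, in the group of points -/
theorem uPt_add_generic {z w : ℂ} (hz : z ∉ L.lattice) (hw : w ∉ L.lattice)
    (hzw : z + w ∉ L.lattice) (hne : ℘[L] z ≠ ℘[L] w) :
    uPt hΔ h2 h3 (z + w) = uPt hΔ h2 h3 z + uPt hΔ h2 h3 w := by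
  have hx : uX E L z ≠ uX E L w := by
    simp only [uX]
    intro h
    exact hne (by linear_combination h)
  rw [uPt_of_notMem hΔ h2 h3 hz, uPt_of_notMem hΔ h2 h3 hw, uPt_of_notMem hΔ h2 h3 hzw,
    WeierstrassCurve.Affine.Point.add_of_X_ne hx]
  have hP := weierstrassP_add226 L hw hz hzw hne
  have hP' := derivWeierstrassP_add226 L hw hz hzw hne
  have hne' : ℘[L] z - ℘[L] w ≠ 0 := sub_ne_zero.mpr hne
  have hlam' : (℘'[L] z - ℘'[L] w) / (℘[L] z - ℘[L] w) * (℘[L] z - ℘[L] w) =
      ℘'[L] z - ℘'[L] w := div_mul_cancel₀ _ hne'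
  have hsl : E.toAffine.slope (uX E L z) (uX E L w) (uY E L z) (uY E L w) =
      ((℘'[L] z - ℘'[L] w) / (℘[L] z - ℘[L] w) - E.a₁) / 2 := by
    rw [WeierstrassCurve.Affine.slope_of_X_ne hx,
      div_eq_div_iff (sub_ne_zero.mpr hx) two_ne_zero]
    simp only [uY, uX]
    linear_combination (-1 : ℂ) * hlam'
  set lam := (℘'[L] z - ℘'[L] w) / (℘[L] z - ℘[L] w) with hlam
  have hX : uX E L (z + w) =
      E.toAffine.addX (uX E L z) (uX E L w)
        (E.toAffine.slope (uX E L z) (uX E L w) (uY E L z) (uY E L w)) := by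
    rw [hsl]
    simp only [WeierstrassCurve.Affine.addX, uX, hP, WeierstrassCurve.b₂]
    ring
  refine some_eq_some_h902 _ _ hX ?_
  rw [WeierstrassCurve.Affine.addY, WeierstrassCurve.Affine.negAddY,
    WeierstrassCurve.Affine.negY, ← hX, hsl]
  simp only [uY, hP']
  simp only [uX]
  ring

/-- doubling, by the translation trick -/
theorem uPt_two {z : ℂ} (h2z : z + z ∉ L.lattice) :
    uPt hΔ h2 h3 (z + z) = uPt hΔ h2 h3 z + uPt hΔ h2 h3 z := by
  have hz : z ∉ L.lattice := fun h => h2z (add_mem h h)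
  -- a generic translation `t`
  obtain ⟨t, ht2, hzt, hzt'⟩ : ∃ t : ℂ, t + t ∉ L.lattice ∧ z + t ∉ L.lattice ∧
      z - t ∉ L.lattice := by
    by_cases h : z + z / 2 ∈ L.lattice
    · refine ⟨z / 3, ?_, ?_, ?_⟩
      · intro h'
        apply h2z
        have := add_mem (add_mem h' h') h'
        convert this using 1
        ring
      · intro h'
        apply hz
        have h4 : z + z + (z + z) ∈ L.lattice := by
          have := add_mem (add_mem h' h') h'
          convert this using 1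
          ring
        have h3z : z + z + z ∈ L.lattice := by
          have := add_mem h h
          convert this using 1
          ring
        have := sub_mem h4 h3z
        convert this using 1
        ring
      · intro h'
        apply h2z
        have := add_mem (add_mem h' h') h'
        convert this using 1
        ring
    · refine ⟨z / 2, ?_, h, ?_⟩
      · intro h'
        apply hz
        convert h' using 1
        ring
      · intro h'
        apply hz
        have := add_mem h' h'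
        convert this using 1
        ring
  have ht : t ∉ L.lattice := fun h => ht2 (add_mem h h)
  have hnt : -t ∉ L.lattice := neg_notMem_h902 L ht
  have hzt'' : z + -t ∉ L.lattice := by rwa [← sub_eq_add_neg]
  -- `℘ z ≠ ℘ t`
  have hne1 : ℘[L] z ≠ ℘[L] t := by
    intro h
    rcases (weierstrassP_eq_iff226 L hz ht).mp h with h' | h'
    · exact hzt' h'
    · exact hzt h'
  have hne2 : ℘[L] z ≠ ℘[L] (-t) := by rwa [L.weierstrassP_neg]
  -- `℘ (z + t) ≠ ℘ (z - t)`
  have hne3 : ℘[L] (z + t) ≠ ℘[L] (z + -t) := by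
    intro h
    rcases (weierstrassP_eq_iff226 L hzt hzt'').mp h with h' | h'
    · apply ht2
      convert h' using 1
      ring
    · apply h2z
      convert h' using 1
      ring
  have hsum : z + t + (z + -t) = z + z := by ring
  have e1 := uPt_add_generic hΔ h2 h3 hzt hzt'' (by rwa [hsum]) hne3
  have e2 := uPt_add_generic hΔ h2 h3 hz ht hzt hne1
  have e3 := uPt_add_generic hΔ h2 h3 hz hnt hzt'' hne2
  rw [hsum] at e1
  rw [e1, e2, e3, uPt_neg]
  abel

/-- **the parametrisation is additive** -/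
theorem uPt_add (z w : ℂ) :
    uPt hΔ h2 h3 (z + w) = uPt hΔ h2 h3 z + uPt hΔ h2 h3 w := by
  by_cases hz : z ∈ L.lattice
  · rw [add_comm z w, uPt_add_mem hΔ h2 h3 w hz, uPt_of_mem hΔ h2 h3 hz, zero_add]
  by_cases hw : w ∈ L.lattice
  · rw [uPt_add_mem hΔ h2 h3 z hw, uPt_of_mem hΔ h2 h3 hw, add_zero]
  by_cases hzw : z + w ∈ L.lattice
  · have e : w = -z + (z + w) := by ring
    have hw' : uPt hΔ h2 h3 w = -uPt hΔ h2 h3 z := by
      conv_lhs => rw [e]
      rw [uPt_add_mem hΔ h2 h3 (-z) hzw, uPt_neg]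
    rw [uPt_of_mem hΔ h2 h3 hzw, hw', add_neg_cancel]
  by_cases hne : ℘[L] z = ℘[L] w
  · rcases (weierstrassP_eq_iff226 L hz hw).mp hne with h | h
    · -- `w = z - l`
      have hl : -(z - w) ∈ L.lattice := neg_mem h
      have e : w = z + -(z - w) := by ring
      have e' : z + w = z + z + -(z - w) := by ring
      have h2z : z + z ∉ L.lattice := by
        intro h'
        apply hzw
        rw [e']
        exact add_mem h' hl
      have hw' : uPt hΔ h2 h3 w = uPt hΔ h2 h3 z := by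
        conv_lhs => rw [e]
        exact uPt_add_mem hΔ h2 h3 z hl
      rw [hw', e', uPt_add_mem hΔ h2 h3 (z + z) hl]
      exact uPt_two hΔ h2 h3 h2z
    · exact absurd h hzw
  · exact uPt_add_generic hΔ h2 h3 hz hw hzw hne

/-- the parametrisation as a homomorphism -/
def uHom : ℂ →+ E.toAffine.Point :=
  AddMonoidHom.mk' (uPt hΔ h2 h3) (uPt_add hΔ h2 h3)

theorem uHom_apply (z : ℂ) : uHom hΔ h2 h3 z = uPt hΔ h2 h3 z := rfl

theorem uHom_surjective : Function.Surjective (uHom hΔ h2 h3) := by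
  intro P
  rcases P with _ | ⟨x, y, hxy⟩
  · exact ⟨0, by rw [uHom_apply, uPt_of_mem hΔ h2 h3 (zero_mem _)]; rfl⟩
  · obtain ⟨z, hz, hzx⟩ := exists_weierstrassP_eq_h902 L (x + E.b₂ / 12)
    have hX : uX E L z = x := by simp only [uX, hzx]; ring
    have heq := (WeierstrassCurve.Affine.equation_iff _ _).mp hxy.1
    have heq' := (WeierstrassCurve.Affine.equation_iff _ _).mp (equation_u h2 h3 hz)
    rw [hX] at heq'
    have hy : (uY E L z - y) * (uY E L z - E.toAffine.negY x y) = 0 := by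
      simp only [WeierstrassCurve.Affine.negY]
      linear_combination heq' - heq
    rcases mul_eq_zero.mp hy with h | h
    · refine ⟨z, ?_⟩
      rw [uHom_apply, uPt_of_notMem hΔ h2 h3 hz]
      exact some_eq_some_h902 _ _ hX (sub_eq_zero.mp h)
    · refine ⟨-z, ?_⟩
      rw [uHom_apply, uPt_neg, uPt_of_notMem hΔ h2 h3 hz,
        WeierstrassCurve.Affine.Point.neg_some]
      refine some_eq_some_h902 _ _ hX ?_
      rw [sub_eq_zero.mp h, hX]
      simp only [WeierstrassCurve.Affine.negY]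
      ring

end Param

/-- **MOD-B2 + B3.**  Every elliptic curve over `ℂ` has a uniformisation. -/
theorem uniformization : UniformizationStatement := by
  intro _ E hΔ
  have hd : (E.c₄ / 12) ^ 3 - 27 * (E.c₆ / 216) ^ 2 ≠ 0 := by
    have h := E.c_relation
    intro h0
    apply hΔ
    linear_combination (1 : ℂ) * h0 + (1 / 1728 : ℂ) * h
  obtain ⟨L, h2, h3⟩ := exists_periodPair_g₂_g₃ (E.c₄ / 12) (E.c₆ / 216) hd
  refine ⟨⟨L, h2, h3, uHom hΔ h2 h3, uHom_surjective hΔ h2 h3, ?_, ?_, ?_⟩⟩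
  · intro z
    rw [uHom_apply]
    exact uPt_eq_zero_iff hΔ h2 h3 z
  · intro z hz
    rw [uHom_apply, uPt_of_notMem hΔ h2 h3 hz]
    rfl
  · intro z hz
    rw [uHom_apply, uPt_of_notMem hΔ h2 h3 hz]
    show 2 * uY E L z + E.a₁ * uX E L z + E.a₃ = ℘'[L] z
    exact two_uY E L z

end Fermat.Agent.S15.H902

end

end
-- ===== PACK-END S15/H902/Uniformization.lean

-- ===== PACK-BEGIN S05/AssembleCore.lean
section
/-
S05 final assembly, core (helper665): the abstract Galois argument.
-/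


set_option autoImplicit false

namespace Fermat.Agent.S05.Assemble

open WeierstrassCurve WeierstrassCurve.Affine
open Fermat.Agent.S05.SameRed

set_option linter.unusedSectionVars false
set_option linter.unusedVariables false

variable {K : Type*} [Field K] [DecidableEq K]
  {Γ₀ : Type*} [LinearOrderedCommGroupWithZero Γ₀]
variable {W : Affine K} {v : Valuation K Γ₀}

/-- The roots of the 2-division cubic `4x³ + b₂x² + 2b₄x + b₆ = 4 (x - r₁)(x - r₂)(x - r₃)`. -/
structure Roots (W : Affine K) (r₁ r₂ r₃ : K) : Prop where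
  b₂ : W.b₂ = -4 * (r₁ + r₂ + r₃)
  b₄ : 2 * W.b₄ = 4 * (r₁ * r₂ + r₁ * r₃ + r₂ * r₃)
  b₆ : W.b₆ = -4 * (r₁ * r₂ * r₃)

lemma Roots.swap₁₂ {r₁ r₂ r₃ : K} (h : Roots W r₁ r₂ r₃) : Roots W r₂ r₁ r₃ :=
  ⟨by rw [h.b₂]; ring, by rw [h.b₄]; ring, by rw [h.b₆]; ring⟩

lemma Roots.swap₁₃ {r₁ r₂ r₃ : K} (h : Roots W r₁ r₂ r₃) : Roots W r₃ r₂ r₁ :=
  ⟨by rw [h.b₂]; ring, by rw [h.b₄]; ring, by rw [h.b₆]; ring⟩

lemma Roots.eta_sq {r₁ r₂ r₃ : K} (hr : Roots W r₁ r₂ r₃) {x y : K} (h : W.Equation x y) :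
    (2 * y + W.a₁ * x + W.a₃) ^ 2 = 4 * ((x - r₁) * (x - r₂) * (x - r₃)) := by
  have e := (Affine.equation_iff x y).mp h
  have hb₂ := hr.b₂
  have hb₄ := hr.b₄
  have hb₆ := hr.b₆
  simp only [WeierstrassCurve.b₂, WeierstrassCurve.b₄, WeierstrassCurve.b₆] at hb₂ hb₄ hb₆
  linear_combination 4 * e + x ^ 2 * hb₂ + x * hb₄ + hb₆

lemma Roots.four_WX {r₁ r₂ r₃ : K} (hr : Roots W r₁ r₂ r₃) (x y : K) :
    4 * (W.a₁ * y - (3 * x ^ 2 + 2 * W.a₂ * x + W.a₄)) =
      2 * W.a₁ * (2 * y + W.a₁ * x + W.a₃) -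
        4 * ((x - r₂) * (x - r₃) + (x - r₁) * (x - r₃) + (x - r₁) * (x - r₂)) := by
  have hb₂ := hr.b₂
  have hb₄ := hr.b₄
  simp only [WeierstrassCurve.b₂, WeierstrassCurve.b₄] at hb₂ hb₄
  linear_combination (-2 * x) * hb₂ - hb₄

lemma val_four (h2 : v (2 : K) = 1) : v (4 : K) = 1 := by
  have : (4 : K) = 2 * 2 := by norm_num
  rw [this, map_mul, h2, one_mul]

lemma val_eq_one_of_sub_lt' {a b : K} (hab : v (a - b) < 1) (hb : v b = 1) : v a = 1 := by
  have : a = b + (a - b) := by ring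
  rw [this, v.map_add_eq_of_lt_left (by rw [hb]; exact hab), hb]

/-- If `x ≡ r₁` and `r₁` is a simple root modulo the maximal ideal, then `W_X` is a unit at a
point with `η` in the maximal ideal. -/
lemma Roots.val_WX_eq_one {r₁ r₂ r₃ : K} (hr : Roots W r₁ r₂ r₃) (hW : IntegralCoeffs W v)
    (h2 : v (2 : K) = 1) {x y : K} (hx : v x ≤ 1) (hr₁ : v r₁ ≤ 1) (hr₂ : v r₂ ≤ 1)
    (hr₃ : v r₃ ≤ 1)
    (hη : v (2 * y + W.a₁ * x + W.a₃) < 1) (h1 : v (x - r₁) < 1) (h12 : v (r₁ - r₂) = 1)
    (h13 : v (r₁ - r₃) = 1) :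
    v (W.a₁ * y - (3 * x ^ 2 + 2 * W.a₂ * x + W.a₄)) = 1 := by
  have h4 := val_four (v := v) h2
  have key := hr.four_WX x y
  have hx2 : v (x - r₂) = 1 := by
    apply val_eq_one_of_sub_lt' (b := r₁ - r₂) _ h12
    have : x - r₂ - (r₁ - r₂) = x - r₁ := by ring
    rw [this]; exact h1
  have hx3 : v (x - r₃) = 1 := by
    apply val_eq_one_of_sub_lt' (b := r₁ - r₃) _ h13
    have : x - r₃ - (r₁ - r₃) = x - r₁ := by ring
    rw [this]; exact h1
  have hmain : v ((x - r₂) * (x - r₃)) = 1 := by rw [map_mul, hx2, hx3, one_mul]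
  have hsmall : v ((x - r₁) * (x - r₃) + (x - r₁) * (x - r₂)) < 1 := by
    apply val_add_lt_one
    · exact val_mul_lt_one_left h1 hx3.le
    · exact val_mul_lt_one_left h1 hx2.le
  have hF : v ((x - r₂) * (x - r₃) + (x - r₁) * (x - r₃) + (x - r₁) * (x - r₂)) = 1 := by
    rw [add_assoc, v.map_add_eq_of_lt_left (by rw [hmain]; exact hsmall), hmain]
  have h4F : v (4 * ((x - r₂) * (x - r₃) + (x - r₁) * (x - r₃) + (x - r₁) * (x - r₂))) = 1 := by
    rw [map_mul, h4, hF, one_mul]
  have hsm2 : v (2 * W.a₁ * (2 * y + W.a₁ * x + W.a₃)) < 1 := by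
    apply val_mul_lt_one_right _ hη
    rw [map_mul, h2, one_mul]; exact hW.a₁
  have : v (4 * (W.a₁ * y - (3 * x ^ 2 + 2 * W.a₂ * x + W.a₄))) = 1 := by
    rw [key, sub_eq_add_neg, add_comm,
      v.map_add_eq_of_lt_left (by rw [Valuation.map_neg, h4F]; exact hsm2),
      Valuation.map_neg, h4F]
  rwa [map_mul, h4, one_mul] at this

/-- If `x` is integral and `(x, y)` is on an integral curve then `y` is integral. -/
lemma val_y_le_one (hW : IntegralCoeffs W v) {x y : K} (h : W.Equation x y) (hx : v x ≤ 1) :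
    v y ≤ 1 := by
  by_contra hy
  rw [not_le] at hy
  rw [equation_iff] at h
  have hy2 : y ^ 2 = x ^ 3 + W.a₂ * x ^ 2 + W.a₄ * x + W.a₆ - W.a₁ * x * y - W.a₃ * y := by
    linear_combination h
  have hvy2 : v (y ^ 2) = v y ^ 2 := map_pow v y 2
  have h0 : (0 : Γ₀) < v y := lt_trans zero_lt_one hy
  have hlt : v y < v y ^ 2 := by
    rw [pow_two]; exact lt_mul_of_one_lt_left h0 hy
  have h1y : (1 : Γ₀) ≤ v y := hy.le
  have hle : v (x ^ 3 + W.a₂ * x ^ 2 + W.a₄ * x + W.a₆ - W.a₁ * x * y - W.a₃ * y) ≤ v y := by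
    have hx3 : v (x ^ 3) ≤ 1 := by rw [map_pow]; exact pow_le_one' hx 3
    have hx2' : v (x ^ 2) ≤ 1 := by rw [map_pow]; exact pow_le_one' hx 2
    have hx2 : v (W.a₂ * x ^ 2) ≤ 1 := val_mul_le_one hW.a₂ hx2'
    have hx1 : v (W.a₄ * x) ≤ 1 := val_mul_le_one hW.a₄ hx
    have hxy : v (W.a₁ * x * y) ≤ v y := by
      rw [map_mul]; exact mul_le_of_le_one_left' (val_mul_le_one hW.a₁ hx)
    have hy1 : v (W.a₃ * y) ≤ v y := by
      rw [map_mul]; exact mul_le_of_le_one_left' hW.a₃
    refine (v.map_sub _ _).trans (max_le ((v.map_sub _ _).trans (max_le ?_ hxy)) hy1)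
    refine (v.map_add _ _).trans (max_le ((v.map_add _ _).trans (max_le ?_ (hx1.trans h1y)))
      (hW.a₆.trans h1y))
    exact (v.map_add _ _).trans (max_le (hx3.trans h1y) (hx2.trans h1y))
  rw [← hy2, hvy2] at hle
  exact absurd hle (not_le.mpr hlt)

lemma val_eta_le_one (hW : IntegralCoeffs W v) (h2 : v (2 : K) = 1) {x y : K}
    (hx : v x ≤ 1) (hy : v y ≤ 1) : v (2 * y + W.a₁ * x + W.a₃) ≤ 1 :=
  val_add_le_one (val_add_le_one (val_mul_le_one h2.le hy) (val_mul_le_one hW.a₁ hx)) hW.a₃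

/-- (C1b) in hypothesis form. -/
def KerTorsionFree (W : Affine K) (v : Valuation K Γ₀) (n : ℕ) : Prop :=
  ∀ P : W.Point, InKer W v P → n • P = 0 → P = 0

/-- A torsion point is integral. -/
lemma val_x_le_one_of_torsion {n : ℕ} (hC1 : KerTorsionFree W v n) {x y : K}
    (h : W.Nonsingular x y) (hP : n • Point.some x y h = 0) : v x ≤ 1 := by
  by_contra hx
  rw [not_le] at hx
  exact Point.some_ne_zero h (hC1 _ hx hP)

/-- For an odd torsion point with nonsingular reduction, `η` is a unit. -/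
lemma val_eta_eq_one_of_torsion (hW : IntegralCoeffs W v) (h2 : v (2 : K) = 1) {n : ℕ}
    (hn : Odd n) (hC1 : KerTorsionFree W v n) {x y : K}
    (h : W.Nonsingular x y) (hP : n • Point.some x y h = 0)
    (hNR : v (2 * y + W.a₁ * x + W.a₃) < 1 →
      v (W.a₁ * y - (3 * x ^ 2 + 2 * W.a₂ * x + W.a₄)) = 1) :
    v (2 * y + W.a₁ * x + W.a₃) = 1 := by
  have hx : v x ≤ 1 := val_x_le_one_of_torsion hC1 h hP
  have hy : v y ≤ 1 := val_y_le_one hW h.1 hx
  have hle := val_eta_le_one hW h2 hx hy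
  rcases hle.lt_or_eq with hlt | heq
  swap
  · exact heq
  exfalso
  have hX := hNR hlt
  have hneg : W.Nonsingular x (W.negY x y) := (Affine.nonsingular_neg ..).mpr h
  have hnegY : W.negY x y = -y - W.a₁ * x - W.a₃ := rfl
  have hyn : v (W.negY x y) ≤ 1 := by
    rw [hnegY]
    exact val_sub_le_one (val_sub_le_one (by rwa [Valuation.map_neg])
      (val_mul_le_one hW.a₁ hx)) hW.a₃
  have hker := inKer_sub_of_same_reduction hW h hneg hx hy hx hyn (by simp)
    (by
      have : y - W.negY x y = 2 * y + W.a₁ * x + W.a₃ := by rw [hnegY]; ring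
      rw [this]; exact hlt) (Or.inl hX)
  rw [← Point.neg_some h, sub_neg_eq_add] at hker
  have h2P : n • (Point.some x y h + Point.some x y h) = 0 := by
    rw [smul_add, hP, add_zero]
  have hzero := hC1 _ hker h2P
  obtain ⟨k, hk⟩ := hn
  have : Point.some x y h = 0 := by
    have h3 : n • Point.some x y h = k • (Point.some x y h + Point.some x y h) +
        Point.some x y h := by
      rw [hk, add_smul, one_smul, mul_comm, mul_smul, two_smul]
    rw [hP, hzero, smul_zero, zero_add] at h3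
    exact h3.symm
  exact Point.some_ne_zero h this

/-- The core Galois argument: if `x - e` and `η` are both "`c` times integral", with `c`, `e`
fixed by `σ` and `η / c` a unit, then the torsion point `(x, y)` is fixed. -/
theorem fixed_of_scaled (hW : IntegralCoeffs W v) (h2 : v (2 : K) = 1)
    (σ : K →+* K) (hres : ∀ z, v z ≤ 1 → v (σ z - z) < 1)
    (hσ₁ : σ W.a₁ = W.a₁) (hσ₃ : σ W.a₃ = W.a₃)
    (τ : W.Point →+ W.Point)
    (hτ : ∀ (x y : K) (h : W.Nonsingular x y),
      ∃ h' : W.Nonsingular (σ x) (σ y), τ (Point.some x y h) = Point.some (σ x) (σ y) h')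
    {n : ℕ} (hC1 : KerTorsionFree W v n) {x y : K}
    (h : W.Nonsingular x y) (hP : n • Point.some x y h = 0)
    {c e : K} (hc : σ c = c) (he : σ e = e)
    (hηc : v (2 * y + W.a₁ * x + W.a₃) = v c) (hxc : v (x - e) ≤ v c) :
    τ (Point.some x y h) = Point.some x y h := by
  have hx : v x ≤ 1 := val_x_le_one_of_torsion hC1 h hP
  have hy : v y ≤ 1 := val_y_le_one hW h.1 hx
  obtain ⟨h', hτP⟩ := hτ x y h
  set η : K := 2 * y + W.a₁ * x + W.a₃ with hη
  have hx' : v (σ x) ≤ 1 := by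
    have : σ x = x + (σ x - x) := by ring
    rw [this]; exact val_add_le_one hx (hres x hx).le
  by_cases hc0 : c = 0
  · -- then `η = 0`, so `P` is 2-torsion; also `x = e` is fixed, and `y` is determined by `x`
    rw [hc0, map_zero] at hηc hxc
    have hη0 : η = 0 := (map_eq_zero v).mp hηc
    have hxe : x = e := sub_eq_zero.mp ((map_eq_zero v).mp (le_antisymm hxc zero_le))
    have h20 : (2 : K) ≠ 0 := by
      intro h0; rw [h0, map_zero] at h2; exact zero_ne_one h2
    have hσx : σ x = x := by rw [hxe, he]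
    have hyeq : y = -(W.a₁ * x + W.a₃) / 2 := by
      field_simp
      linear_combination hη0
    have hσy : σ y = y := by
      have : σ y = -(σ W.a₁ * σ x + σ W.a₃) / σ 2 := by
        conv_lhs => rw [hyeq]
        simp only [map_div₀, map_neg, map_add, map_mul]
      rw [this, hσ₁, hσ₃, hσx, map_ofNat, ← hyeq]
    rw [hτP]
    congr 1
  have hvc : 0 < v c := (Valuation.pos_iff v).mpr hc0
  -- `x = e + c ε`, `η = c θ`
  set ε : K := (x - e) / c with hε
  set θ : K := η / c with hθ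
  have hεv : v ε ≤ 1 := by
    rw [hε, map_div₀]; exact (div_le_one₀ hvc).mpr hxc
  have hθv : v θ ≤ 1 := by
    rw [hθ, map_div₀, hηc, div_self hvc.ne']
  have hxε : x = e + c * ε := by rw [hε]; field_simp; ring
  have hηθ : η = c * θ := by rw [hθ]; field_simp
  have hσxx : σ x - x = c * (σ ε - ε) := by
    conv_lhs => rw [hxε]
    simp only [map_add, map_mul, hc, he]; ring
  have hση : (2 * σ y + W.a₁ * σ x + W.a₃) = σ η := by
    simp only [hη, map_add, map_mul, hσ₁, hσ₃, map_ofNat]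
  have hσηη : σ η - η = c * (σ θ - θ) := by
    conv_lhs => rw [hηθ]
    simp only [map_mul, hc]; ring
  have hlt1 : v (σ x - x) < v η := by
    rw [hσxx, map_mul, hηc]
    exact mul_lt_of_lt_one_right hvc (hres ε hεv)
  have hlt2 : v ((2 * σ y + W.a₁ * σ x + W.a₃) - η) < v η := by
    rw [hση, hσηη, map_mul, hηc]
    exact mul_lt_of_lt_one_right hvc (hres θ hθv)
  have hker := inKer_sub_of_eta hW h2 h h' hx hx' hlt1 hlt2
  have htors : n • (Point.some (σ x) (σ y) h' - Point.some x y h) = 0 := by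
    rw [smul_sub, hP, sub_zero, ← hτP, ← map_nsmul, hP, map_zero]
  have := hC1 _ hker htors
  rw [hτP]
  exact sub_eq_zero.mp this

end Fermat.Agent.S05.Assemble

end
-- ===== PACK-END S05/AssembleCore.lean

-- ===== PACK-BEGIN S12/H651/NodalGm.lean
section


/-!
# S12 / QUOT-Q3 (helper651), part 1: the multiplicative parametrisation of a split nodal cubic

Let `W` be a Weierstrass cubic over a field `k` with a singular point `(x₀, y₀)` whose two tangent
slopes `α ≠ β` lie in `k` (`SplitNode W`).  Then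

  `u(P) = ((y - y₀) - α (x - x₀)) / ((y - y₀) - β (x - x₀))`,  `u(0) = 1`,

is an injective homomorphism from the group `W.Point` of nonsingular points to `kˣ`
(`nodeU_add`, `nodeU_ne_zero`, `nodeU_eq_one_iff`), and
`x(P) = x₀ + (α - β)² u / (1 - u)²` (`x_eq_of_nodeU`).

Mathlib + the slope parametrisation `exists_param` of `S15.H242.NodalCount`.
-/

set_option autoImplicit false

namespace Fermat.Agent.S12.H651

open WeierstrassCurve WeierstrassCurve.Affine
open Fermat.Agent.S15.H242 (nodeQuad exists_param)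

variable {k : Type*} [Field k]

/-- A split node of a Weierstrass cubic: the singular point `(x₀, y₀)` and the two distinct
tangent slopes `α`, `β` at it. -/
structure SplitNode (W : Affine k) where
  /-- `x`-coordinate of the node -/
  x₀ : k
  /-- `y`-coordinate of the node -/
  y₀ : k
  /-- first tangent slope -/
  α : k
  /-- second tangent slope -/
  β : k
  hF : W.Equation x₀ y₀
  hFx : W.a₁ * y₀ - (3 * x₀ ^ 2 + 2 * W.a₂ * x₀ + W.a₄) = 0
  hFy : 2 * y₀ + W.a₁ * x₀ + W.a₃ = 0
  hsum : α + β = -W.a₁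
  hprod : α * β = -(3 * x₀ + W.a₂)
  hne : α ≠ β

namespace SplitNode

variable {W : Affine k} (N : SplitNode W)

lemma a₁_eq : W.a₁ = -(N.α + N.β) := by rw [N.hsum]; ring

lemma a₂_eq : W.a₂ = -(N.α * N.β) - 3 * N.x₀ := by rw [N.hprod]; ring

lemma a₃_eq : W.a₃ = -2 * N.y₀ + (N.α + N.β) * N.x₀ := by
  have h := N.hFy
  rw [N.a₁_eq] at h
  linear_combination h

lemma a₄_eq : W.a₄ = -(N.α + N.β) * N.y₀ + 3 * N.x₀ ^ 2 + 2 * (N.α * N.β) * N.x₀ := by
  have h := N.hFx
  rw [N.a₁_eq, N.a₂_eq] at h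
  linear_combination -h

lemma nodeQuad_eq (t : k) : nodeQuad W N.x₀ t = (t - N.α) * (t - N.β) := by
  unfold nodeQuad
  rw [N.a₁_eq, N.a₂_eq]
  ring

/-- `c₄ = (α - β)⁴`. -/
lemma c₄_eq : W.c₄ = ((N.α - N.β) ^ 2) ^ 2 := by
  rw [Fermat.Agent.S15.H242.c₄_eq_of_singular W N.hFx N.hFy]
  simp only [WeierstrassCurve.b₂]
  rw [N.a₁_eq, N.a₂_eq]
  ring

/-- The slope parametrisation of the nonsingular points. -/
lemma param {x y : k} (h : W.Nonsingular x y) :
    ∃ t : k, t ≠ N.α ∧ t ≠ N.β ∧ x = N.x₀ + (t - N.α) * (t - N.β) ∧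
      y = N.y₀ + t * ((t - N.α) * (t - N.β)) := by
  obtain ⟨t, ht, hx, hy⟩ := exists_param N.hF N.hFx N.hFy h
  rw [N.nodeQuad_eq] at ht hx hy
  refine ⟨t, ?_, ?_, hx, hy⟩
  · rintro rfl
    exact ht (by ring)
  · rintro rfl
    exact ht (by ring)

/-- Numerator of `u`. -/
def uNum (x y : k) : k := (y - N.y₀) - N.α * (x - N.x₀)

/-- Denominator of `u`. -/
def uDen (x y : k) : k := (y - N.y₀) - N.β * (x - N.x₀)

lemma uNum_param (t : k) :
    N.uNum (N.x₀ + (t - N.α) * (t - N.β)) (N.y₀ + t * ((t - N.α) * (t - N.β))) =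
      (t - N.α) ^ 2 * (t - N.β) := by
  unfold uNum; ring

lemma uDen_param (t : k) :
    N.uDen (N.x₀ + (t - N.α) * (t - N.β)) (N.y₀ + t * ((t - N.α) * (t - N.β))) =
      (t - N.α) * (t - N.β) ^ 2 := by
  unfold uDen; ring

lemma uNum_ne_zero {x y : k} (h : W.Nonsingular x y) : N.uNum x y ≠ 0 := by
  obtain ⟨t, hα, hβ, rfl, rfl⟩ := N.param h
  rw [N.uNum_param]
  exact mul_ne_zero (pow_ne_zero _ (sub_ne_zero.mpr hα)) (sub_ne_zero.mpr hβ)

lemma uDen_ne_zero {x y : k} (h : W.Nonsingular x y) : N.uDen x y ≠ 0 := by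
  obtain ⟨t, hα, hβ, rfl, rfl⟩ := N.param h
  rw [N.uDen_param]
  exact mul_ne_zero (sub_ne_zero.mpr hα) (pow_ne_zero _ (sub_ne_zero.mpr hβ))

/-- The multiplicative coordinate of a point of the nodal cubic. -/
def nodeU : W.Point → k
  | .zero => 1
  | .some x y _ => N.uNum x y / N.uDen x y

@[simp] lemma nodeU_zero : N.nodeU (0 : W.Point) = 1 := rfl

lemma nodeU_some {x y : k} (h : W.Nonsingular x y) :
    N.nodeU (Point.some x y h) = N.uNum x y / N.uDen x y := rfl

lemma nodeU_ne_zero (P : W.Point) : N.nodeU P ≠ 0 := by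
  rcases P with _ | ⟨x, y, h⟩
  · exact one_ne_zero
  · rw [nodeU_some]
    exact div_ne_zero (N.uNum_ne_zero h) (N.uDen_ne_zero h)

lemma nodeU_some_ne_one {x y : k} (h : W.Nonsingular x y) : N.nodeU (Point.some x y h) ≠ 1 := by
  obtain ⟨t, hα, hβ, rfl, rfl⟩ := N.param h
  rw [nodeU_some, N.uNum_param, N.uDen_param]
  intro hu
  have hα' := sub_ne_zero.mpr hα
  have hβ' := sub_ne_zero.mpr hβ
  rw [div_eq_one_iff_eq (mul_ne_zero hα' (pow_ne_zero _ hβ'))] at hu
  have h1 : (t - N.α) * (t - N.β) * (N.β - N.α) = 0 := by linear_combination hu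
  rcases mul_eq_zero.mp h1 with h2 | h2
  · exact (mul_ne_zero hα' hβ') h2
  · exact N.hne (sub_eq_zero.mp h2).symm

lemma nodeU_eq_one_iff (P : W.Point) : N.nodeU P = 1 ↔ P = 0 := by
  rcases P with _ | ⟨x, y, h⟩
  · exact ⟨fun _ => rfl, fun _ => rfl⟩
  · exact ⟨fun hu => absurd hu (N.nodeU_some_ne_one h), fun h0 => absurd h0 (Point.some_ne_zero _)⟩

/-- The `x`-coordinate in terms of `u`. -/
lemma x_eq_of_nodeU {x y : k} (h : W.Nonsingular x y) :
    x = N.x₀ + (N.α - N.β) ^ 2 * N.nodeU (Point.some x y h) /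
      (1 - N.nodeU (Point.some x y h)) ^ 2 := by
  have hne := N.nodeU_some_ne_one h
  obtain ⟨t, hα, hβ, rfl, rfl⟩ := N.param h
  rw [nodeU_some, N.uNum_param, N.uDen_param] at hne ⊢
  have hα' := sub_ne_zero.mpr hα
  have hβ' := sub_ne_zero.mpr hβ
  have hαβ : N.α - N.β ≠ 0 := sub_ne_zero.mpr N.hne
  have hu : (t - N.α) ^ 2 * (t - N.β) / ((t - N.α) * (t - N.β) ^ 2) = (t - N.α) / (t - N.β) := by
    field_simp
  rw [hu]
  have h1 : 1 - (t - N.α) / (t - N.β) = (N.α - N.β) / (t - N.β) := by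
    field_simp; ring
  rw [h1]
  field_simp

lemma uNum_negY (x y : k) : N.uNum x (W.negY x y) = -N.uDen x y := by
  unfold uNum uDen
  simp only [Affine.negY]
  rw [N.a₁_eq, N.a₃_eq]
  ring

lemma uDen_negY (x y : k) : N.uDen x (W.negY x y) = -N.uNum x y := by
  unfold uNum uDen
  simp only [Affine.negY]
  rw [N.a₁_eq, N.a₃_eq]
  ring

/-- The key identity behind the multiplicativity of `u`: `L` is the slope of the chord (or
tangent) through the points with slope parameters `t₁`, `t₂`. -/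
lemma key_add (t₁ t₂ L : k) (hs : t₁ + t₂ - N.α - N.β ≠ 0)
    (hL : L * (t₁ + t₂ - N.α - N.β) =
      t₁ ^ 2 + t₁ * t₂ + t₂ ^ 2 - (N.α + N.β) * (t₁ + t₂) + N.α * N.β) :
    N.uNum
        (W.addX (N.x₀ + (t₁ - N.α) * (t₁ - N.β)) (N.x₀ + (t₂ - N.α) * (t₂ - N.β)) L)
        (W.addY (N.x₀ + (t₁ - N.α) * (t₁ - N.β)) (N.x₀ + (t₂ - N.α) * (t₂ - N.β))
          (N.y₀ + t₁ * ((t₁ - N.α) * (t₁ - N.β))) L) *
      ((t₁ - N.β) * (t₂ - N.β)) =
    N.uDen
        (W.addX (N.x₀ + (t₁ - N.α) * (t₁ - N.β)) (N.x₀ + (t₂ - N.α) * (t₂ - N.β)) L)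
        (W.addY (N.x₀ + (t₁ - N.α) * (t₁ - N.β)) (N.x₀ + (t₂ - N.α) * (t₂ - N.β))
          (N.y₀ + t₁ * ((t₁ - N.α) * (t₁ - N.β))) L) *
      ((t₁ - N.α) * (t₂ - N.α)) := by
  have hLe : L = (t₁ ^ 2 + t₁ * t₂ + t₂ ^ 2 - (N.α + N.β) * (t₁ + t₂) + N.α * N.β) /
      (t₁ + t₂ - N.α - N.β) := by
    rw [eq_div_iff hs]; exact hL
  unfold uNum uDen
  simp only [Affine.addY, Affine.negAddY, Affine.negY, Affine.addX]
  rw [N.a₁_eq, N.a₂_eq, N.a₃_eq, hLe]
  field_simp
  ring

/-- The slope of the chord or tangent, in terms of the slope parameters. -/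
lemma slope_param [DecidableEq k] {t₁ t₂ : k} (h₁α : t₁ ≠ N.α) (h₁β : t₁ ≠ N.β)
    (h₂α : t₂ ≠ N.α) (h₂β : t₂ ≠ N.β)
    (hxy : ¬(N.x₀ + (t₁ - N.α) * (t₁ - N.β) = N.x₀ + (t₂ - N.α) * (t₂ - N.β) ∧
      N.y₀ + t₁ * ((t₁ - N.α) * (t₁ - N.β)) =
        W.negY (N.x₀ + (t₂ - N.α) * (t₂ - N.β)) (N.y₀ + t₂ * ((t₂ - N.α) * (t₂ - N.β))))) :
    t₁ + t₂ - N.α - N.β ≠ 0 ∧
    W.slope (N.x₀ + (t₁ - N.α) * (t₁ - N.β)) (N.x₀ + (t₂ - N.α) * (t₂ - N.β))
        (N.y₀ + t₁ * ((t₁ - N.α) * (t₁ - N.β))) (N.y₀ + t₂ * ((t₂ - N.α) * (t₂ - N.β))) *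
      (t₁ + t₂ - N.α - N.β) =
      t₁ ^ 2 + t₁ * t₂ + t₂ ^ 2 - (N.α + N.β) * (t₁ + t₂) + N.α * N.β := by
  have h₁α' := sub_ne_zero.mpr h₁α
  have h₁β' := sub_ne_zero.mpr h₁β
  have h₂α' := sub_ne_zero.mpr h₂α
  have h₂β' := sub_ne_zero.mpr h₂β
  by_cases hx : N.x₀ + (t₁ - N.α) * (t₁ - N.β) = N.x₀ + (t₂ - N.α) * (t₂ - N.β)
  · -- tangent case
    have hy : N.y₀ + t₁ * ((t₁ - N.α) * (t₁ - N.β)) ≠
        W.negY (N.x₀ + (t₂ - N.α) * (t₂ - N.β)) (N.y₀ + t₂ * ((t₂ - N.α) * (t₂ - N.β))) :=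
      fun hy => hxy ⟨hx, hy⟩
    have hg : (t₁ - N.α) * (t₁ - N.β) = (t₂ - N.α) * (t₂ - N.β) := add_left_cancel hx
    -- `t₁ = t₂`
    have hfac : (t₁ - t₂) * (t₁ + t₂ - N.α - N.β) = 0 := by linear_combination hg
    have hs : t₁ + t₂ - N.α - N.β ≠ 0 := by
      intro hs
      apply hy
      simp only [Affine.negY]
      rw [N.a₁_eq, N.a₃_eq]
      linear_combination t₁ * hg + (t₂ - N.α) * (t₂ - N.β) * hs
    have ht : t₁ = t₂ := by
      rcases mul_eq_zero.mp hfac with h | h
      · exact sub_eq_zero.mp h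
      · exact absurd h hs
    subst ht
    refine ⟨hs, ?_⟩
    rw [Affine.slope_of_Y_ne rfl hy]
    have e2 : t₁ + t₁ - N.α - N.β = 2 * t₁ - N.α - N.β := by ring
    rw [e2] at hs ⊢
    have hden : N.y₀ + t₁ * ((t₁ - N.α) * (t₁ - N.β)) -
        W.negY (N.x₀ + (t₁ - N.α) * (t₁ - N.β)) (N.y₀ + t₁ * ((t₁ - N.α) * (t₁ - N.β))) =
        (t₁ - N.α) * (t₁ - N.β) * (2 * t₁ - N.α - N.β) := by
      simp only [Affine.negY]
      rw [N.a₁_eq, N.a₃_eq]
      ring
    have hnum : 3 * (N.x₀ + (t₁ - N.α) * (t₁ - N.β)) ^ 2 +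
        2 * W.a₂ * (N.x₀ + (t₁ - N.α) * (t₁ - N.β)) + W.a₄ -
        W.a₁ * (N.y₀ + t₁ * ((t₁ - N.α) * (t₁ - N.β))) =
        (t₁ - N.α) * (t₁ - N.β) *
          (t₁ ^ 2 + t₁ * t₁ + t₁ ^ 2 - (N.α + N.β) * (t₁ + t₁) + N.α * N.β) := by
      rw [N.a₁_eq, N.a₂_eq, N.a₄_eq]
      ring
    rw [hden, hnum, mul_div_mul_left _ _ (mul_ne_zero h₁α' h₁β'), div_mul_cancel₀ _ hs]
  · -- chord case
    have hg : (t₁ - N.α) * (t₁ - N.β) - (t₂ - N.α) * (t₂ - N.β) ≠ 0 := by
      intro h
      exact hx (by linear_combination h)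
    have hfac : (t₁ - N.α) * (t₁ - N.β) - (t₂ - N.α) * (t₂ - N.β) =
        (t₁ - t₂) * (t₁ + t₂ - N.α - N.β) := by ring
    rw [hfac] at hg
    have ht : t₁ - t₂ ≠ 0 := left_ne_zero_of_mul hg
    have hs : t₁ + t₂ - N.α - N.β ≠ 0 := right_ne_zero_of_mul hg
    refine ⟨hs, ?_⟩
    rw [Affine.slope_of_X_ne hx]
    have hden : N.x₀ + (t₁ - N.α) * (t₁ - N.β) - (N.x₀ + (t₂ - N.α) * (t₂ - N.β)) =
        (t₁ - t₂) * (t₁ + t₂ - N.α - N.β) := by ring
    rw [hden]
    field_simp
    ring

/-- **`u` is multiplicative.** -/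
theorem nodeU_add [DecidableEq k] (P Q : W.Point) :
    N.nodeU (P + Q) = N.nodeU P * N.nodeU Q := by
  rcases P with _ | ⟨x₁, y₁, h₁⟩
  · change N.nodeU (0 + Q) = N.nodeU 0 * N.nodeU Q
    rw [zero_add, nodeU_zero, one_mul]
  rcases Q with _ | ⟨x₂, y₂, h₂⟩
  · change N.nodeU (_ + 0) = N.nodeU _ * N.nodeU 0
    rw [add_zero, nodeU_zero, mul_one]
  by_cases hxy : x₁ = x₂ ∧ y₁ = W.negY x₂ y₂
  · rw [Point.add_of_Y_eq hxy.1 hxy.2, nodeU_zero, nodeU_some, nodeU_some]
    obtain ⟨hx, hy⟩ := hxy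
    subst hx hy
    rw [N.uNum_negY, N.uDen_negY]
    have hn := N.uNum_ne_zero h₂
    have hd := N.uDen_ne_zero h₂
    field_simp
  · rw [Point.add_some hxy, nodeU_some, nodeU_some, nodeU_some]
    have h₃ := Affine.nonsingular_add h₁ h₂ hxy
    have hd₃ := N.uDen_ne_zero h₃
    obtain ⟨t₁, h₁α, h₁β, rfl, rfl⟩ := N.param h₁
    obtain ⟨t₂, h₂α, h₂β, rfl, rfl⟩ := N.param h₂
    obtain ⟨hs, hL⟩ := N.slope_param h₁α h₁β h₂α h₂β hxy
    have hkey := N.key_add t₁ t₂ _ hs hL
    rw [N.uNum_param, N.uDen_param, N.uNum_param, N.uDen_param]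
    have h₁α' := sub_ne_zero.mpr h₁α
    have h₁β' := sub_ne_zero.mpr h₁β
    have h₂α' := sub_ne_zero.mpr h₂α
    have h₂β' := sub_ne_zero.mpr h₂β
    rw [div_eq_iff hd₃]
    have e : (t₁ - N.α) ^ 2 * (t₁ - N.β) / ((t₁ - N.α) * (t₁ - N.β) ^ 2) *
        ((t₂ - N.α) ^ 2 * (t₂ - N.β) / ((t₂ - N.α) * (t₂ - N.β) ^ 2)) =
        ((t₁ - N.α) * (t₂ - N.α)) / ((t₁ - N.β) * (t₂ - N.β)) := by
      field_simp
    rw [e, div_mul_eq_mul_div, eq_div_iff (mul_ne_zero h₁β' h₂β')]
    linear_combination hkey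

theorem nodeU_nsmul [DecidableEq k] (n : ℕ) (P : W.Point) :
    N.nodeU (n • P) = N.nodeU P ^ n := by
  induction n with
  | zero => simp
  | succ n ih => rw [succ_nsmul, nodeU_add, ih, pow_succ]

theorem nodeU_injective [DecidableEq k] : Function.Injective N.nodeU := by
  intro P Q h
  have h1 : N.nodeU (P - Q) = 1 := by
    have h2 : N.nodeU (P - Q) * N.nodeU Q = N.nodeU P := by
      rw [← nodeU_add, sub_add_cancel]
    rw [h] at h2
    exact mul_right_cancel₀ (N.nodeU_ne_zero Q) (by rw [h2, one_mul])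
  exact sub_eq_zero.mp ((N.nodeU_eq_one_iff _).mp h1)

end SplitNode

end Fermat.Agent.S12.H651

end
-- ===== PACK-END S12/H651/NodalGm.lean

-- ===== PACK-BEGIN S12/H651/NodalVelu.lean
section




/-!
# S12 / QUOT-Q3 (helper651), part 3: Vélu's quotient of a nodal cubic by `μ_p`

`W` a Weierstrass cubic over a field `k` with a split node, `Q` a nonsingular point of exact order
`p` (a prime `> 5`).  Then Vélu's curve `H542.veluCurve W Q p` (helper542's definition) has

  `c₄(W') = p⁴ · c₄(W)`                       (`c₄_veluCurve_of_splitNode`).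

Also general facts on Vélu's sums for any Weierstrass cubic:
`c₄_veluCurve : c₄(W') = c₄(W) + 240 t`  and  `two_mul_veluT : 2 t = ∑_{k=1}^{p-1} t₁(x(kQ))`.
-/

set_option autoImplicit false

namespace Fermat.Agent.S12.H651

open WeierstrassCurve WeierstrassCurve.Affine
open Fermat.Agent.S15.H542 (xOf yOf veluT1 veluU1 veluT veluW veluCurve)

variable {k : Type*} [Field k] [DecidableEq k]

section General

variable (W : WeierstrassCurve k)

omit [DecidableEq k] in
lemma xOf_neg (P : W.toAffine.Point) : xOf (-P) = xOf P := by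
  rcases P with _ | ⟨x, y, h⟩
  · rfl
  · rw [Point.neg_some]; rfl

/-- `c₄` of Vélu's curve. -/
theorem c₄_veluCurve (Q : W.toAffine.Point) (p : ℕ) :
    (veluCurve W Q p).c₄ = W.c₄ + 240 * veluT W Q p := by
  simp only [WeierstrassCurve.c₄, WeierstrassCurve.b₂, WeierstrassCurve.b₄, veluCurve]
  ring

/-- The half sum defining Vélu's `t`, doubled, is the sum over all nonzero multiples. -/
theorem two_mul_veluT {Q : W.toAffine.Point} {p : ℕ} (hodd : Odd p) (hQ : p • Q = 0) :
    2 * veluT W Q p = ∑ j ∈ Finset.Icc 1 (p - 1), veluT1 W (xOf (j • Q)) := by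
  obtain ⟨m, rfl⟩ := hodd
  have hm : (2 * m + 1 - 1) / 2 = m := by omega
  unfold veluT
  rw [hm]
  have e1 : Finset.Icc 1 (2 * m + 1 - 1) = Finset.Ico 1 (2 * m + 1) := by
    ext j; simp only [Finset.mem_Icc, Finset.mem_Ico]; omega
  have e2 : Finset.Icc 1 m = Finset.Ico 1 (m + 1) := by
    ext j; simp only [Finset.mem_Icc, Finset.mem_Ico]; omega
  rw [e1, e2, ← Finset.sum_Ico_consecutive _ (by omega : 1 ≤ m + 1) (by omega : m + 1 ≤ 2 * m + 1)]
  have hrefl := Finset.sum_Ico_reflect (fun j => veluT1 W (xOf (j • Q))) 1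
    (by omega : m + 1 ≤ 2 * m + 1 + 1)
  have e3 : 2 * m + 1 + 1 - (m + 1) = m + 1 := by omega
  have e4 : 2 * m + 1 + 1 - 1 = 2 * m + 1 := by omega
  rw [e3, e4] at hrefl
  rw [← hrefl, two_mul]
  congr 1
  refine Finset.sum_congr rfl fun j hj => ?_
  rw [Finset.mem_Ico] at hj
  have hle : j ≤ 2 * m + 1 := by omega
  have : (2 * m + 1 - j) • Q = -(j • Q) := by
    rw [sub_nsmul Q hle, hQ, zero_add]
  rw [this, xOf_neg]

end General

section Nodal

variable {W : WeierstrassCurve k} (N : SplitNode W.toAffine)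

omit [DecidableEq k] in
/-- Vélu's `t₁` in coordinates centred at the node. -/
lemma veluT1_eq (x : k) :
    veluT1 W x = 6 * (x - N.x₀) ^ 2 + (N.α - N.β) ^ 2 * (x - N.x₀) := by
  unfold veluT1
  simp only [WeierstrassCurve.b₂, WeierstrassCurve.b₄]
  have h1 := N.a₁_eq
  have h2 := N.a₂_eq
  have h3 := N.a₃_eq
  have h4 := N.a₄_eq
  simp only [WeierstrassCurve.toAffine] at h1 h2 h3 h4
  rw [h1, h2, h3, h4]
  ring

omit [DecidableEq k] in
/-- Vélu's `t₁` at a nonzero point, in terms of the multiplicative coordinate. -/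
lemma veluT1_xOf {P : W.toAffine.Point} (hP : P ≠ 0) :
    veluT1 W (xOf P) = ((N.α - N.β) ^ 2) ^ 2 *
      (6 * (N.nodeU P / (1 - N.nodeU P) ^ 2) ^ 2 + N.nodeU P / (1 - N.nodeU P) ^ 2) := by
  rcases P with _ | ⟨x, y, h⟩
  · exact absurd rfl hP
  · have hx := N.x_eq_of_nodeU h
    have hx' : x - N.x₀ = (N.α - N.β) ^ 2 *
        (N.nodeU (Point.some x y h) / (1 - N.nodeU (Point.some x y h)) ^ 2) := by
      rw [mul_div_assoc] at hx
      linear_combination hx
    change veluT1 W x = _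
    rw [veluT1_eq N, hx']
    ring

omit [DecidableEq k] in
/-- `240 ∣ p⁴ - 1` for a prime `p > 5`, in the form needed in characteristic `2, 3, 5`. -/
lemma pow_four_eq_one_of_thirty_eq_zero {p : ℕ} (hp : p.Prime) (hp5 : 5 < p)
    (h30 : (30 : k) = 0) : (p : k) ^ 4 = 1 := by
  have h2 : ¬ 2 ∣ p := fun h => by
    have := (Nat.prime_dvd_prime_iff_eq Nat.prime_two hp).mp h; omega
  have h3 : ¬ 3 ∣ p := fun h => by
    have := (Nat.prime_dvd_prime_iff_eq Nat.prime_three hp).mp h; omega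
  have h5 : ¬ 5 ∣ p := fun h => by
    have := (Nat.prime_dvd_prime_iff_eq Nat.prime_five hp).mp h; omega
  have key : ∀ r : ℕ, r < 30 → ¬ 2 ∣ r → ¬ 3 ∣ r → ¬ 5 ∣ r → r ^ 4 % 30 = 1 := by decide
  have hr := key (p % 30) (Nat.mod_lt _ (by norm_num))
    (fun h => h2 ((Nat.dvd_mod_iff (by norm_num : 2 ∣ 30)).mp h))
    (fun h => h3 ((Nat.dvd_mod_iff (by norm_num : 3 ∣ 30)).mp h))
    (fun h => h5 ((Nat.dvd_mod_iff (by norm_num : 5 ∣ 30)).mp h))
  have hmod : p ^ 4 % 30 = 1 := by
    rw [Nat.pow_mod, hr]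
  have hdecomp : p ^ 4 = 30 * (p ^ 4 / 30) + 1 := by
    have := Nat.div_add_mod (p ^ 4) 30
    omega
  have hc := congrArg (Nat.cast : ℕ → k) hdecomp
  push_cast at hc
  rw [hc, h30, zero_mul, zero_add]

/-- In characteristic `2`, `3`, `5` Vélu's curve has `c₄' = c₄ = p⁴ c₄` (any cubic). -/
theorem c₄_veluCurve_of_thirty_eq_zero (W : WeierstrassCurve k) {p : ℕ} (hp : p.Prime)
    (hp5 : 5 < p) (Q : W.toAffine.Point) (h30 : (30 : k) = 0) :
    (veluCurve W Q p).c₄ = (p : k) ^ 4 * W.c₄ := by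
  rw [c₄_veluCurve]
  have h240 : (240 : k) = 0 := by
    have : (240 : k) = 8 * 30 := by norm_num
    rw [this, h30, mul_zero]
  rw [h240, zero_mul, add_zero, pow_four_eq_one_of_thirty_eq_zero hp hp5 h30, one_mul]

/-- **Vélu's quotient of a split nodal cubic by a subgroup of prime order `p > 5` multiplies `c₄`
by `p⁴`.** -/
theorem c₄_veluCurve_of_splitNode (N : SplitNode W.toAffine) {p : ℕ} (hp : p.Prime)
    (hp5 : 5 < p) {Q : W.toAffine.Point} (hQ : addOrderOf Q = p) :
    (veluCurve W Q p).c₄ = (p : k) ^ 4 * W.c₄ := by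
  by_cases h30 : (30 : k) = 0
  · exact c₄_veluCurve_of_thirty_eq_zero W hp hp5 Q h30
  · rw [c₄_veluCurve]
    have h2 : (2 : k) ≠ 0 := fun h => h30 (by
      have : (30 : k) = 2 * 15 := by norm_num
      rw [this, h, zero_mul])
    have h3 : (3 : k) ≠ 0 := fun h => h30 (by
      have : (30 : k) = 3 * 10 := by norm_num
      rw [this, h, zero_mul])
    have h5 : (5 : k) ≠ 0 := fun h => h30 (by
      have : (30 : k) = 5 * 6 := by norm_num
      rw [this, h, zero_mul])
    have hpQ : p • Q = 0 := by rw [← hQ]; exact addOrderOf_nsmul_eq_zero Q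
    have hodd : Odd p := hp.odd_of_ne_two (by omega)
    have hQ0 : Q ≠ 0 := by
      rintro rfl
      rw [addOrderOf_zero] at hQ
      exact hp.one_lt.ne hQ
    -- `u` is a primitive `p`-th root of unity
    have hu1 : N.nodeU Q ^ p = 1 := by rw [← N.nodeU_nsmul, hpQ, SplitNode.nodeU_zero]
    have hune : N.nodeU Q ≠ 1 := fun h => hQ0 ((N.nodeU_eq_one_iff Q).mp h)
    have hprim : IsPrimitiveRoot (N.nodeU Q) p := by
      have hord : orderOf (N.nodeU Q) ∣ p := orderOf_dvd_of_pow_eq_one hu1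
      rcases (Nat.dvd_prime hp).mp hord with h | h
      · exact absurd (orderOf_eq_one_iff.mp h) hune
      · rw [← h]; exact IsPrimitiveRoot.orderOf _
    have hsum := root_sum (by omega : 5 ≤ p) hprim h2 h3 h5
    have h2t := two_mul_veluT W hodd hpQ
    have hterm : ∀ j ∈ Finset.Icc 1 (p - 1), veluT1 W (xOf (j • Q)) =
        ((N.α - N.β) ^ 2) ^ 2 * (6 * (N.nodeU Q ^ j / (1 - N.nodeU Q ^ j) ^ 2) ^ 2 +
          N.nodeU Q ^ j / (1 - N.nodeU Q ^ j) ^ 2) := by
      intro j hj
      rw [Finset.mem_Icc] at hj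
      have hj0 : j • Q ≠ 0 := by
        intro h0
        have hd : addOrderOf Q ∣ j := addOrderOf_dvd_of_nsmul_eq_zero h0
        rw [hQ] at hd
        have := Nat.le_of_dvd (by omega) hd
        omega
      rw [veluT1_xOf N hj0, N.nodeU_nsmul]
    rw [Finset.sum_congr rfl hterm, ← Finset.mul_sum] at h2t
    have hc4 : W.c₄ = ((N.α - N.β) ^ 2) ^ 2 := N.c₄_eq
    rw [hc4]
    linear_combination 120 * h2t + ((N.α - N.β) ^ 2) ^ 2 * hsum

omit [DecidableEq k] in
/-- A split node from a square root of the discriminant `b₂ + 12 x₀` of the tangent cone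
(characteristic `≠ 2`). -/
noncomputable def SplitNode.ofSqrt (hc : W.c₄ ≠ 0) (hΔ : W.Δ = 0) (h2 : (2 : k) ≠ 0) {d : k}
    (hd : d ^ 2 = W.b₂ + 12 * Fermat.Agent.S15.H242.singX W.toAffine) :
    SplitNode W.toAffine where
  x₀ := Fermat.Agent.S15.H242.singX W.toAffine
  y₀ := Fermat.Agent.S15.H242.singY W.toAffine
  α := (-W.a₁ + d) / 2
  β := (-W.a₁ - d) / 2
  hF := Fermat.Agent.S15.H242.sing_F W.toAffine hc hΔ
  hFx := Fermat.Agent.S15.H242.sing_Fx W.toAffine hc hΔ
  hFy := Fermat.Agent.S15.H242.sing_Fy W.toAffine hc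
  hsum := by
    show (-W.a₁ + d) / 2 + (-W.a₁ - d) / 2 = -W.a₁
    field_simp
    ring
  hprod := by
    show (-W.a₁ + d) / 2 * ((-W.a₁ - d) / 2) =
      -(3 * Fermat.Agent.S15.H242.singX W.toAffine + W.a₂)
    have hb : W.b₂ = W.a₁ ^ 2 + 4 * W.a₂ := rfl
    rw [hb] at hd
    field_simp
    linear_combination -hd
  hne := by
    intro h
    have hd0 : d = 0 := by
      have h' : (-W.a₁ + d) = (-W.a₁ - d) := by
        have := congrArg (fun z => z * 2) h
        simpa [div_mul_cancel₀ _ h2] using this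
      have h'' : 2 * d = 0 := by linear_combination h'
      rcases mul_eq_zero.mp h'' with h3 | h3
      · exact absurd h3 h2
      · exact h3
    apply hc
    have hc4 := Fermat.Agent.S15.H242.c₄_eq_of_singular W.toAffine
      (Fermat.Agent.S15.H242.sing_Fx W.toAffine hc hΔ)
      (Fermat.Agent.S15.H242.sing_Fy W.toAffine hc)
    rw [hd0] at hd
    rw [hc4]
    have : W.toAffine.b₂ = W.b₂ := rfl
    rw [this, ← hd]
    ring

/-- **Vélu's quotient of a nodal cubic (`Δ = 0`, `c₄ ≠ 0`) by a subgroup of prime order `p > 5`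
multiplies `c₄` by `p⁴`**, provided the tangent slopes at the node are rational over `k`. -/
theorem c₄_veluCurve_of_nodal (hc : W.c₄ ≠ 0) (hΔ : W.Δ = 0)
    (hsq : ∃ d : k, d ^ 2 = W.b₂ + 12 * Fermat.Agent.S15.H242.singX W.toAffine)
    {p : ℕ} (hp : p.Prime) (hp5 : 5 < p) {Q : W.toAffine.Point} (hQ : addOrderOf Q = p) :
    (veluCurve W Q p).c₄ = (p : k) ^ 4 * W.c₄ := by
  by_cases h30 : (30 : k) = 0
  · exact c₄_veluCurve_of_thirty_eq_zero W hp hp5 Q h30
  · have h2 : (2 : k) ≠ 0 := fun h => h30 (by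
      have : (30 : k) = 2 * 15 := by norm_num
      rw [this, h, zero_mul])
    obtain ⟨d, hd⟩ := hsq
    exact c₄_veluCurve_of_splitNode (SplitNode.ofSqrt hc hΔ h2 hd) hp hp5 hQ

end Nodal

end Fermat.Agent.S12.H651

end
-- ===== PACK-END S12/H651/NodalVelu.lean

-- ===== PACK-BEGIN S56/H186/TameCyclic.lean
section






/-!
# S56 / leaf TAME-CYC (helper186), part 3: structure of tame inertia

`L` an algebraically closed algebraic extension of `ℚ` (e.g. `AlgebraicClosure ℚ`), `A` a valuation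
subring of `L` lying over the prime `q`, `I = A.inertiaSubgroupIn ℚ` (Prelude form).
`π : Gal(L/ℚ) →* Γ` a monoid hom factoring through a finite level such that every `π σ`, `σ ∈ I`,
is killed by a power of `p`, `p` prime to `q`.  Then

* `exists_generator_inertia_image` : `∃ τ₀ ∈ I, ∀ σ ∈ I, ∃ j, π σ = π τ₀ ^ j`  (the image of inertia
  is cyclic);
* `map_frobenius_conj_inertia` : `π (φ σ φ⁻¹) = π σ ^ q` for every Frobenius `φ` at `A`
  (Prelude `IsFrobeniusAt φ q`) and `σ ∈ I`.
-/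

set_option autoImplicit false
set_option linter.unusedSectionVars false
set_option linter.style.haveILetI false

namespace Fermat.Agent.S56.H186

open Fermat.Agent.A2.H708

section General

variable {K L : Type*} [Field K] [Field L] [Algebra K L] [Algebra.IsAlgebraic K L]
  (A : ValuationSubring L)

/-- The tame character at `c` as a homomorphism on the inertia group. -/
noncomputable def tameAt (c : Lˣ) :
    ↥(A.inertiaSubgroupIn K) →* (IsLocalRing.ResidueField A)ˣ where
  toFun σ := tameHom A σ.2 c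
  map_one' := tameHom_eq_one_of_fixed A _ c rfl
  map_mul' σ τ := tameHom_mul A σ.2 τ.2 c

theorem tameAt_apply (c : Lˣ) (σ : ↥(A.inertiaSubgroupIn K)) :
    tameAt A c σ = tameHom A σ.2 c := rfl

/-- The underlying residue class of the tame character. -/
theorem coe_tameHom {τ : L ≃ₐ[K] L} (hτ : τ ∈ A.inertiaSubgroupIn K) (c : Lˣ)
    (h : τ (c : L) / c ∈ A) :
    ((tameHom A hτ c : (IsLocalRing.ResidueField A)ˣ) : IsLocalRing.ResidueField A) =
      IsLocalRing.residue A ⟨τ (c : L) / c, h⟩ := by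
  show ((A.unitGroupToResidueFieldUnits
    (ratioHom A (mem_decomposition_of_mem_inertiaIn A hτ) c) :
      (IsLocalRing.ResidueField A)ˣ) : IsLocalRing.ResidueField A) = _
  rw [ValuationSubring.coe_unitGroupToResidueFieldUnits_apply]
  show IsLocalRing.residue A _ = _
  congr 1
  apply Subtype.ext
  rw [ValuationSubring.coe_unitGroupMulEquiv_apply, coe_ratioHom]

theorem apply_div_mem {τ : L ≃ₐ[K] L} (hτ : τ ∈ A.decompositionSubgroup K) (c : Lˣ) :
    τ (c : L) / c ∈ A := by
  rw [← A.valuation_le_one_iff]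
  exact (valuation_apply_div_self A hτ c.ne_zero).le

/-- The inertia group (Prelude form) is stable under conjugation by the decomposition group. -/
theorem conj_mem_inertiaIn {φ σ : L ≃ₐ[K] L} (hφ : φ ∈ A.decompositionSubgroup K)
    (hσ : σ ∈ A.inertiaSubgroupIn K) : φ * σ * φ⁻¹ ∈ A.inertiaSubgroupIn K := by
  obtain ⟨g, hg, rfl⟩ := hσ
  refine ⟨⟨φ, hφ⟩ * g * ⟨φ, hφ⟩⁻¹, ?_, rfl⟩
  have hn : (A.inertiaSubgroup K).Normal := MonoidHom.normal_ker _
  exact hn.conj_mem g hg ⟨φ, hφ⟩

/-- Frobenius raises residue classes to the `q`-th power. -/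
theorem residue_apply_of_isFrobeniusAt {φ : L ≃ₐ[K] L} {q : ℕ} (hφ : A.IsFrobeniusAt φ q)
    {u : L} (hu : u ∈ A) (hφu : φ u ∈ A) :
    IsLocalRing.residue A ⟨φ u, hφu⟩ = IsLocalRing.residue A ⟨u, hu⟩ ^ q := by
  have h := hφ.smul_residue_eq (IsLocalRing.residue A ⟨u, hu⟩)
  rw [← IsLocalRing.ResidueField.residue_smul] at h
  rw [← h]
  rfl

/-- The tame character of a Frobenius conjugate. -/
theorem tameHom_frobenius_conj {φ σ : L ≃ₐ[K] L} {q : ℕ} (hφ : A.IsFrobeniusAt φ q)
    (hσ : σ ∈ A.inertiaSubgroupIn K) (c : Lˣ) :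
    tameHom A (conj_mem_inertiaIn A hφ.mem_decompositionSubgroup hσ) c = tameHom A hσ c ^ q := by
  have hφD := hφ.mem_decompositionSubgroup
  have hφiD : φ⁻¹ ∈ A.decompositionSubgroup K := inv_mem hφD
  set c' : Lˣ := Units.map ((φ⁻¹ : L ≃ₐ[K] L) : L →* L) c with hc'
  have hc'val : ((c' : Lˣ) : L) = φ⁻¹ (c : L) := rfl
  have hvc' : A.valuation ((c' : Lˣ) : L) = A.valuation (c : L) := by
    rw [hc'val]; exact valuation_apply_of_mem_decomposition A hφiD _
  have hσD := mem_decomposition_of_mem_inertiaIn A hσ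
  have hu : σ (c' : L) / c' ∈ A := apply_div_mem A hσD c'
  have hφc' : φ ((c' : Lˣ) : L) = c := by
    rw [hc'val]
    show (φ * φ⁻¹) (c : L) = c
    rw [mul_inv_cancel]; rfl
  have hratio : (φ * σ * φ⁻¹) (c : L) / c = φ (σ (c' : L) / c') := by
    rw [map_div₀, hφc']
    rfl
  have hmem : (φ * σ * φ⁻¹) (c : L) / c ∈ A :=
    apply_div_mem A (mul_mem (mul_mem hφD hσD) hφiD) c
  have hφu : φ (σ (c' : L) / c') ∈ A := hratio ▸ hmem
  apply Units.ext
  rw [coe_tameHom A _ c hmem, Units.val_pow_eq_pow_val,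
    ← tameHom_eq_of_valuation_eq A hσ c' c hvc', coe_tameHom A hσ c' hu,
    ← residue_apply_of_isFrobeniusAt A hφ hu hφu]
  congr 1
  exact Subtype.ext hratio

/-- The value group hypothesis: `K` is "discretely valued with uniformizer `q`" inside `A`. -/
def IsTameBase (q : ℕ) : Prop :=
  q.Prime ∧ (q : L) ≠ 0 ∧
    (∀ a : K, a ≠ 0 → ∃ m : ℤ, A.valuation (algebraMap K L a) = A.valuation (q : L) ^ m) ∧
    ∀ ℓ : ℕ, ℓ.Prime → ℓ ≠ q → A.valuation (ℓ : L) = 1

variable [IsAlgClosed L] {q : ℕ}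

theorem normal_of_isAlgClosed_h186 : Normal K L :=
  haveI : IsAlgClosure K L := ⟨inferInstance, inferInstance⟩
  IsAlgClosure.normal K L

/-- For a finite level `E` there is a root `c` of `q` such that every inertia element with
trivial tame character at `c` acts on `E` through a `q`-group. -/
theorem exists_tame_root (hq : IsTameBase (K := K) A q) (E : IntermediateField K L)
    [FiniteDimensional K E] :
    ∃ (N : ℕ) (c : Lˣ), 0 < N ∧ (c : L) ^ N = (q : L) ∧
      ∀ (σ : L ≃ₐ[K] L) (hσ : σ ∈ A.inertiaSubgroupIn K), tameHom A hσ c = 1 →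
        ∃ a : ℕ, ∀ x ∈ E, (σ ^ (q ^ a)) x = x := by
  obtain ⟨hqp, hq0, hKval, hunit⟩ := hq
  haveI : Normal K L := normal_of_isAlgClosed_h186
  set E' : IntermediateField K L := IntermediateField.normalClosure K E L with hE'def
  haveI : Normal K E' := normalClosure.normal K E L
  haveI : FiniteDimensional K E' := normalClosure.is_finiteDimensional K E L
  set d := Module.finrank K E' with hd
  obtain ⟨c, hc⟩ := IsAlgClosed.exists_pow_nat_eq (q : L) (Nat.factorial_pos d)
  have hc0 : c ≠ 0 := by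
    rintro rfl
    rw [zero_pow (Nat.factorial_pos d).ne'] at hc
    exact hq0 hc.symm
  refine ⟨d.factorial, Units.mk0 c hc0, Nat.factorial_pos d, hc, ?_⟩
  intro σ hσ h1
  have hσD := mem_decomposition_of_mem_inertiaIn A hσ
  have hstab : ∀ y ∈ E', σ y ∈ E' := by
    intro y hy
    have := AlgEquiv.restrictNormalHom_apply E' σ ⟨y, hy⟩
    rw [← this]
    exact Subtype.mem _
  have htame : ∀ x ∈ E', x ≠ 0 → A.valuation (σ x - x) < A.valuation x := by
    intro x hx hx0
    have hint : IsIntegral K x := Algebra.IsIntegral.isIntegral x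
    have hdeg : (minpoly K x).natDegree ≤ d := by
      have h1 := IntermediateField.minpoly_eq (⟨x, hx⟩ : E')
      have h2 := minpoly.natDegree_le (A := K) (⟨x, hx⟩ : E')
      rw [h1] at h2
      exact h2
    obtain ⟨m, hm⟩ := exists_valuation_eq_zpow_root_of A hKval
      (fun n hn0 hnd => Nat.dvd_factorial hn0 hnd) hc hx0 hint hdeg
    have hval : A.valuation ((Units.mk0 x hx0 : Lˣ) : L) =
        A.valuation (((Units.mk0 c hc0) ^ m : Lˣ) : L) := by
      rw [Units.val_mk0, hm, Units.val_zpow_eq_zpow_val, map_zpow₀, Units.val_mk0]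
    have h2 := tameHom_eq_of_valuation_eq A hσ _ _ hval
    rw [map_zpow, h1, one_zpow] at h2
    exact (tameHom_eq_one_iff A hσ (Units.mk0 x hx0)).mp h2
  haveI : Finite (E' ≃ₐ[K] E') := inferInstance
  set n := orderOf (AlgEquiv.restrictNormalHom E' σ) with hn
  have hn0 : n ≠ 0 := (orderOf_pos _).ne'
  have hfix : ∀ y ∈ E', (σ ^ n) y = y := by
    intro y hy
    have h3 := AlgEquiv.restrictNormalHom_apply E' (σ ^ n) ⟨y, hy⟩
    rw [map_pow, hn, pow_orderOf_eq_one] at h3
    exact h3.symm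
  obtain ⟨a, ha⟩ := exists_pow_fixes_of_tame_trivial A hσD E' hstab htame hqp hunit hn0 hfix
  exact ⟨a, fun x hx => ha x (IntermediateField.le_normalClosure E hx)⟩

variable {Γ : Type*} [Monoid Γ] (π : (L ≃ₐ[K] L) →* Γ)

/-- The kernel of a suitable tame character is killed by `π`. -/
theorem exists_tame_root_map (hq : IsTameBase (K := K) A q)
    (hlevel : ∃ E : IntermediateField K L, FiniteDimensional K E ∧
      ∀ σ : L ≃ₐ[K] L, (∀ x ∈ E, σ x = x) → π σ = 1)
    {p : ℕ} (hpq : Nat.Coprime p q)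
    (hp : ∀ σ ∈ A.inertiaSubgroupIn K, ∃ a : ℕ, π σ ^ (p ^ a) = 1) :
    ∃ (N : ℕ) (c : Lˣ), 0 < N ∧ (c : L) ^ N = (q : L) ∧
      ∀ (σ : L ≃ₐ[K] L) (hσ : σ ∈ A.inertiaSubgroupIn K), tameHom A hσ c = 1 → π σ = 1 := by
  obtain ⟨E, hEfin, hE⟩ := hlevel
  haveI := hEfin
  obtain ⟨N, c, hN, hc, hker⟩ := exists_tame_root A hq E
  refine ⟨N, c, hN, hc, fun σ hσ h1 => ?_⟩
  obtain ⟨a, ha⟩ := hker σ hσ h1
  obtain ⟨b, hb⟩ := hp σ hσ
  have h2 : π σ ^ (q ^ a) = 1 := by
    rw [← map_pow]
    exact hE _ ha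
  have hcop : Nat.gcd (p ^ b) (q ^ a) = 1 := Nat.Coprime.pow b a hpq
  have := pow_gcd_eq_one.mpr ⟨hb, h2⟩
  rwa [hcop, pow_one] at this

/-- **Tame inertia is cyclic on `p`-power images** (`p` prime to the residue characteristic `q`):
the image under `π` of the inertia group is generated by one element.  General base field. -/
theorem exists_generator_inertia_image_of (hq : IsTameBase (K := K) A q)
    (hlevel : ∃ E : IntermediateField K L, FiniteDimensional K E ∧
      ∀ σ : L ≃ₐ[K] L, (∀ x ∈ E, σ x = x) → π σ = 1)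
    {p : ℕ} (hpq : Nat.Coprime p q)
    (hp : ∀ σ ∈ A.inertiaSubgroupIn K, ∃ a : ℕ, π σ ^ (p ^ a) = 1) :
    ∃ τ₀ ∈ A.inertiaSubgroupIn K, ∀ σ ∈ A.inertiaSubgroupIn K, ∃ j : ℕ, π σ = π τ₀ ^ j := by
  obtain ⟨N, c, hN, hc, hker⟩ := exists_tame_root_map A π hq hlevel hpq hp
  have hqp := hq.1
  haveI : NeZero N := ⟨hN.ne'⟩
  set Θ := tameAt (K := K) A c with hΘ
  set H : Subgroup (IsLocalRing.ResidueField A)ˣ := Θ.range with hH
  have hHle : H ≤ rootsOfUnity N (IsLocalRing.ResidueField A) := by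
    rintro _ ⟨σ, rfl⟩
    rw [mem_rootsOfUnity]
    exact tameHom_pow_eq_one A σ.2 c N (q : K) 1 (map_one _) (by rw [hc]; simp)
  haveI : Finite H :=
    Finite.of_injective (Subgroup.inclusion hHle) (Subgroup.inclusion_injective hHle)
  haveI : IsCyclic H := isCyclic_subgroup_units H
  obtain ⟨g, hg⟩ := IsCyclic.exists_generator (α := H)
  obtain ⟨τ₀, hτ₀⟩ := g.2
  refine ⟨τ₀.1, τ₀.2, fun σ hσ => ?_⟩
  obtain ⟨k, hk⟩ := Subgroup.mem_zpowers_iff.mp (hg ⟨Θ ⟨σ, hσ⟩, ⟨_, rfl⟩⟩)
  have hk' : Θ τ₀ ^ k = Θ ⟨σ, hσ⟩ := by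
    have := congrArg (Subtype.val) hk
    rw [Subgroup.coe_zpow] at this
    rw [hτ₀]
    exact this
  -- the difference lies in the kernel
  set δ : ↥(A.inertiaSubgroupIn K) := ⟨σ, hσ⟩ * (τ₀ ^ k)⁻¹ with hδ
  have hδ1 : Θ δ = 1 := by
    rw [hδ, map_mul, map_inv, map_zpow, hk', mul_inv_cancel]
  have hπδ : π δ.1 = 1 := hker δ.1 δ.2 hδ1
  have hσeq : σ = δ.1 * (τ₀.1 ^ k) := by
    rw [hδ]
    simp
  -- pass to units to handle the integer exponent
  set u : Γˣ := π.toHomUnits τ₀.1 with hu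
  obtain ⟨b, hb⟩ := hp τ₀.1 τ₀.2
  have hufin : IsOfFinOrder u := by
    rw [isOfFinOrder_iff_pow_eq_one]
    refine ⟨p ^ b, Nat.pos_of_ne_zero ?_, ?_⟩
    · intro h0
      have hp0 : p = 0 := by
        by_contra hne
        exact (pow_ne_zero b hne) h0
      subst hp0
      rw [Nat.coprime_zero_left] at hpq
      exact hqp.ne_one hpq
    · apply Units.ext
      rw [Units.val_pow_eq_pow_val, hu, MonoidHom.coe_toHomUnits, hb, Units.val_one]
  have hopos : 0 < orderOf u := hufin.orderOf_pos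
  refine ⟨(k % (orderOf u : ℤ)).toNat, ?_⟩
  have h1 : π (τ₀.1 ^ k) = ((u ^ k : Γˣ) : Γ) := by
    rw [hu, ← map_zpow, MonoidHom.coe_toHomUnits]
  have h2 : (u ^ k : Γˣ) = u ^ (k % (orderOf u : ℤ)).toNat := by
    rw [← zpow_mod_orderOf, ← zpow_natCast,
      Int.toNat_of_nonneg (Int.emod_nonneg _ (by exact_mod_cast hopos.ne'))]
  rw [hσeq, map_mul, hπδ, one_mul, h1, h2, Units.val_pow_eq_pow_val, hu,
    MonoidHom.coe_toHomUnits]

/-- **Frobenius acts on tame inertia by the `q`-th power.**  General base field. -/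
theorem map_frobenius_conj_inertia_of (hq : IsTameBase (K := K) A q)
    (hlevel : ∃ E : IntermediateField K L, FiniteDimensional K E ∧
      ∀ σ : L ≃ₐ[K] L, (∀ x ∈ E, σ x = x) → π σ = 1)
    {p : ℕ} (hpq : Nat.Coprime p q)
    (hp : ∀ σ ∈ A.inertiaSubgroupIn K, ∃ a : ℕ, π σ ^ (p ^ a) = 1)
    {φ : L ≃ₐ[K] L} (hφ : A.IsFrobeniusAt φ q) {σ : L ≃ₐ[K] L}
    (hσ : σ ∈ A.inertiaSubgroupIn K) :
    π (φ * σ * φ⁻¹) = π σ ^ q := by
  obtain ⟨N, c, hN, hc, hker⟩ := exists_tame_root_map A π hq hlevel hpq hp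
  have hconj := conj_mem_inertiaIn A hφ.mem_decompositionSubgroup hσ
  set σ' : ↥(A.inertiaSubgroupIn K) := ⟨σ, hσ⟩ with hσ'
  set κ : ↥(A.inertiaSubgroupIn K) := ⟨φ * σ * φ⁻¹, hconj⟩ with hκ
  have h1 : tameAt (K := K) A c κ = tameAt (K := K) A c σ' ^ q :=
    tameHom_frobenius_conj A hφ hσ c
  set δ : ↥(A.inertiaSubgroupIn K) := κ * (σ' ^ q)⁻¹ with hδ
  have hδ1 : tameAt (K := K) A c δ = 1 := by
    rw [hδ, map_mul, map_inv, map_pow, h1, mul_inv_cancel]
  have hπδ : π δ.1 = 1 := hker δ.1 δ.2 hδ1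
  have heq : φ * σ * φ⁻¹ = δ.1 * σ ^ q := by
    rw [hδ]
    simp [hκ, hσ']
  rw [heq, map_mul, hπδ, one_mul, map_pow]

end General

section Rat

variable {L : Type*} [Field L] [Algebra ℚ L] [Algebra.IsAlgebraic ℚ L] [IsAlgClosed L]
  (A : ValuationSubring L) {q : ℕ}

theorem isTameBase_rat (hq : A.LiesOverPrime q) (hqp : q.Prime) : IsTameBase (K := ℚ) A q := by
  haveI : CharZero L := charZero_of_injective_ringHom (algebraMap ℚ L).injective
  exact ⟨hqp, Nat.cast_ne_zero.mpr hqp.ne_zero,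
    fun a ha => exists_valuation_rat_eq_zpow A hq hqp ha,
    fun ℓ hℓ hne =>
      valuation_natCast_eq_one_of_coprime A hq ((Nat.coprime_primes hℓ hqp).mpr hne)⟩

variable {Γ : Type*} [Monoid Γ] (π : (L ≃ₐ[ℚ] L) →* Γ)

/-- **Tame inertia is cyclic on `p`-power images**: `A` over the prime `q`, `p` prime to `q`,
`π` of finite level with `π σ` killed by a power of `p` for every `σ` in the inertia group.
Then the image under `π` of the inertia group is generated by one element. -/
theorem exists_generator_inertia_image (hq : A.LiesOverPrime q) (hqp : q.Prime)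
    (hlevel : ∃ E : IntermediateField ℚ L, FiniteDimensional ℚ E ∧
      ∀ σ : L ≃ₐ[ℚ] L, (∀ x ∈ E, σ x = x) → π σ = 1)
    {p : ℕ} (hpq : Nat.Coprime p q)
    (hp : ∀ σ ∈ A.inertiaSubgroupIn ℚ, ∃ a : ℕ, π σ ^ (p ^ a) = 1) :
    ∃ τ₀ ∈ A.inertiaSubgroupIn ℚ, ∀ σ ∈ A.inertiaSubgroupIn ℚ, ∃ j : ℕ, π σ = π τ₀ ^ j :=
  exists_generator_inertia_image_of A π (isTameBase_rat A hq hqp) hlevel hpq hp

/-- **Frobenius acts on tame inertia by the `q`-th power.** -/
theorem map_frobenius_conj_inertia (hq : A.LiesOverPrime q) (hqp : q.Prime)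
    (hlevel : ∃ E : IntermediateField ℚ L, FiniteDimensional ℚ E ∧
      ∀ σ : L ≃ₐ[ℚ] L, (∀ x ∈ E, σ x = x) → π σ = 1)
    {p : ℕ} (hpq : Nat.Coprime p q)
    (hp : ∀ σ ∈ A.inertiaSubgroupIn ℚ, ∃ a : ℕ, π σ ^ (p ^ a) = 1)
    {φ : L ≃ₐ[ℚ] L} (hφ : A.IsFrobeniusAt φ q) {σ : L ≃ₐ[ℚ] L}
    (hσ : σ ∈ A.inertiaSubgroupIn ℚ) :
    π (φ * σ * φ⁻¹) = π σ ^ q :=
  map_frobenius_conj_inertia_of A π (isTameBase_rat A hq hqp) hlevel hpq hp hφ hσ

end Rat

end Fermat.Agent.S56.H186

end
-- ===== PACK-END S56/H186/TameCyclic.lean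

-- ===== PACK-BEGIN S19/H435/Lattice.lean
section
/-
A3 / WP-C (helper435): Hopf lattices of equivariant functions (helper135's `HopfLattice`),
bases, and the descent lemma `Zb·Λ ∩ {equivariant} = Λ`.
-/





set_option autoImplicit false
set_option linter.style.haveILetI false

noncomputable section

namespace Fermat.Agent.S19.H435

/-- A *Hopf lattice* on a `Gal`-set-with-addition `M`: a `ℤ_(ℓ)`-subalgebra of functions
`M → Qb`, finitely generated as a module, consisting of equivariant functions, separating the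
points of `M`, and closed under the comultiplication `f ↦ ((x, y) ↦ f (x + y))`. -/
structure IsHopfLattice (ℓ : ℕ) {M : Type*} [AddCommGroup M] (act : Gal → M → M)
    (Λ : Subalgebra (Zl ℓ) (M → _root_.Fermat.Agent.S19.H435.Qb)) : Prop where
  fg : (Subalgebra.toSubmodule Λ).FG
  equivariant : ∀ f ∈ Λ, IsEquivariantFun act f
  separates : ∀ m n : M, m ≠ n → ∃ f ∈ Λ, f m ≠ f n
  comul_mem : ∀ f ∈ Λ, ∃ (n : ℕ) (a b : Fin n → M → _root_.Fermat.Agent.S19.H435.Qb), (∀ k, a k ∈ Λ) ∧ (∀ k, b k ∈ Λ) ∧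
    ∀ x y : M, f (x + y) = ∑ k, a k x * b k y

section Zl

variable (ℓ : ℕ)

theorem algebraMap_Zl_Qb_injective : Function.Injective (algebraMap (Zl ℓ) _root_.Fermat.Agent.S19.H435.Qb) := by
  intro a b h
  have h1 : algebraMap ℚ _root_.Fermat.Agent.S19.H435.Qb (a : ℚ) = algebraMap ℚ _root_.Fermat.Agent.S19.H435.Qb (b : ℚ) := h
  exact Subtype.ext ((algebraMap ℚ _root_.Fermat.Agent.S19.H435.Qb).injective h1)

instance faithfulSMul_Zl_Qb : FaithfulSMul (Zl ℓ) _root_.Fermat.Agent.S19.H435.Qb :=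
  (faithfulSMul_iff_algebraMap_injective (Zl ℓ) _root_.Fermat.Agent.S19.H435.Qb).mpr (algebraMap_Zl_Qb_injective ℓ)

instance isTorsionFree_Zl_Qb : Module.IsTorsionFree (Zl ℓ) _root_.Fermat.Agent.S19.H435.Qb := by
  refine Module.IsTorsionFree.of_smul_eq_zero fun r m h => ?_
  rw [Algebra.smul_def, mul_eq_zero] at h
  rcases h with h | h
  · left
    exact algebraMap_Zl_Qb_injective ℓ (by rw [h, map_zero])
  · exact Or.inr h

theorem isFractionRing_Zl : IsFractionRing (Zl ℓ) ℚ := by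
  refine IsFractionRing.of_field (Zl ℓ) ℚ fun z => ?_
  refine ⟨⟨(z.num : ℚ), intCast_mem _ _⟩, ⟨(z.den : ℚ), natCast_mem _ _⟩, ?_⟩
  show z = (z.num : ℚ) / (z.den : ℚ)
  exact (Rat.num_div_den z).symm

/-- A Galois-fixed element of `Qb` which is integral over `ℤ_(ℓ)` lies in `ℤ_(ℓ)`. -/
theorem exists_Zl_of_fixed_of_isIntegral [Fact ℓ.Prime] (x : _root_.Fermat.Agent.S19.H435.Qb) (hx : ∀ σ : Gal, σ x = x)
    (hint : IsIntegral (Zl ℓ) x) : ∃ r : Zl ℓ, algebraMap (Zl ℓ) _root_.Fermat.Agent.S19.H435.Qb r = x := by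
  obtain ⟨q, rfl⟩ := fixed_mem_range_rat x hx
  have hq : IsIntegral (Zl ℓ) q :=
    (isIntegral_algebraMap_iff (algebraMap ℚ _root_.Fermat.Agent.S19.H435.Qb).injective).mp hint
  haveI := isFractionRing_Zl ℓ
  obtain ⟨r, hr⟩ := IsIntegrallyClosed.isIntegral_iff.mp hq
  exact ⟨r, by rw [← hr]; rfl⟩

end Zl

variable {ℓ : ℕ} {M : Type*} [AddCommGroup M] {act : Gal → M → M}
  {Λ : Subalgebra (Zl ℓ) (M → _root_.Fermat.Agent.S19.H435.Qb)}

namespace IsHopfLattice

/-- Values of elements of a Hopf lattice are integral over `ℤ_(ℓ)`. -/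
theorem isIntegral_apply (hΛ : IsHopfLattice ℓ act Λ) {f : M → _root_.Fermat.Agent.S19.H435.Qb} (hf : f ∈ Λ) (m : M) :
    IsIntegral (Zl ℓ) (f m) :=
  (IsIntegral.of_mem_of_fg Λ hΛ.fg f hf).map (Pi.evalAlgHom (Zl ℓ) (fun _ : M => _root_.Fermat.Agent.S19.H435.Qb) m)

/-- A Hopf lattice has an `ℤ_(ℓ)`-basis, which is `Qb`-linearly independent. -/
theorem exists_basis [Fact ℓ.Prime] (hΛ : IsHopfLattice ℓ act Λ) :
    ∃ (n : ℕ) (e : Fin n → M → _root_.Fermat.Agent.S19.H435.Qb), (∀ i, e i ∈ Λ) ∧ LinearIndependent (Zl ℓ) e ∧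
      LinearIndependent _root_.Fermat.Agent.S19.H435.Qb e ∧ ∀ f ∈ Λ, ∃ c : Fin n → Zl ℓ, f = ∑ i, c i • e i := by
  haveI : Module.Finite (Zl ℓ) (Subalgebra.toSubmodule Λ) := Module.Finite.iff_fg.mpr hΛ.fg
  haveI : Module.Free (Zl ℓ) (Subalgebra.toSubmodule Λ) :=
    Module.free_of_finite_type_torsion_free'
  let b := Module.finBasis (Zl ℓ) (Subalgebra.toSubmodule Λ)
  have hli : LinearIndependent (Zl ℓ) (fun i => ((b i : Subalgebra.toSubmodule Λ) : M → _root_.Fermat.Agent.S19.H435.Qb)) :=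
    b.linearIndependent.map' (Subalgebra.toSubmodule Λ).subtype (Submodule.ker_subtype _)
  refine ⟨_, fun i => ((b i : Subalgebra.toSubmodule Λ) : M → _root_.Fermat.Agent.S19.H435.Qb), fun i => (b i).2, hli, ?_, ?_⟩
  · exact linearIndependent_Qb_of_int (act := act) _ (fun i => hΛ.equivariant _ (b i).2)
      (LinearIndependent.restrict_scalars' ℤ hli)
  · intro f hf
    refine ⟨fun i => b.repr ⟨f, hf⟩ i, ?_⟩
    have := congrArg (Subalgebra.toSubmodule Λ).subtype (b.sum_repr ⟨f, hf⟩)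
    rw [map_sum] at this
    simpa using this.symm

/-- **Descent.** An equivariant function in the `Zb`-span of a Hopf lattice lies in the lattice
(`Zb` = integral closure of `ℤ_(ℓ)` in `Qb`). -/
theorem mem_of_mem_span_of_equivariant [Fact ℓ.Prime] (hΛ : IsHopfLattice ℓ act Λ)
    {u : M → _root_.Fermat.Agent.S19.H435.Qb}
    (hu : u ∈ Submodule.span (integralClosure (Zl ℓ) _root_.Fermat.Agent.S19.H435.Qb) (Λ : Set (M → _root_.Fermat.Agent.S19.H435.Qb)))
    (heq : IsEquivariantFun act u) : u ∈ Λ := by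
  obtain ⟨n, e, he, -, hliQ, hexp⟩ := hΛ.exists_basis
  -- coordinates with integral coefficients
  have hcoord : ∀ v ∈ Submodule.span (integralClosure (Zl ℓ) _root_.Fermat.Agent.S19.H435.Qb) (Λ : Set (M → _root_.Fermat.Agent.S19.H435.Qb)),
      ∃ W : Fin n → _root_.Fermat.Agent.S19.H435.Qb, (∀ i, IsIntegral (Zl ℓ) (W i)) ∧ v = ∑ i, W i • e i := by
    intro v hv
    induction hv using Submodule.span_induction with
    | mem f hf =>
      obtain ⟨c, hc⟩ := hexp f hf
      refine ⟨fun i => algebraMap (Zl ℓ) _root_.Fermat.Agent.S19.H435.Qb (c i), fun i => isIntegral_algebraMap, ?_⟩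
      rw [hc]
      refine Finset.sum_congr rfl fun i _ => ?_
      rw [algebraMap_smul]
    | zero => exact ⟨0, fun i => isIntegral_zero, by simp⟩
    | add x y _ _ hx hy =>
      obtain ⟨W, hW, rfl⟩ := hx
      obtain ⟨W', hW', rfl⟩ := hy
      refine ⟨W + W', fun i => (hW i).add (hW' i), ?_⟩
      simp [add_smul, Finset.sum_add_distrib]
    | smul z x _ hx =>
      obtain ⟨W, hW, rfl⟩ := hx
      refine ⟨fun i => (z : _root_.Fermat.Agent.S19.H435.Qb) * W i, fun i => z.2.mul (hW i), ?_⟩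
      show (z : _root_.Fermat.Agent.S19.H435.Qb) • (∑ i, W i • e i) = _
      rw [Finset.smul_sum]
      refine Finset.sum_congr rfl fun i _ => ?_
      rw [smul_smul]
  obtain ⟨W, hW, rfl⟩ := hcoord u hu
  have hpt : ∀ m : M, (∑ i, W i • e i) m = ∑ i, W i * e i m := by
    intro m
    simp [Finset.sum_apply]
  have hfix : ∀ (σ : Gal) (i : Fin n), σ (W i) = W i := by
    intro σ
    have h0 : ∑ i, (σ (W i) - W i) • e i = 0 := by
      funext m
      simp only [Finset.sum_apply, Pi.smul_apply, smul_eq_mul, Pi.zero_apply, sub_mul,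
        Finset.sum_sub_distrib]
      have h1 := heq σ⁻¹ m
      rw [hpt, hpt] at h1
      have h2 := congrArg σ h1
      rw [map_sum] at h2
      have h3 : σ (σ⁻¹ (∑ i, W i * e i m)) = ∑ i, W i * e i m :=
        AlgEquiv.apply_symm_apply σ _
      rw [h3] at h2
      rw [← h2, sub_eq_zero]
      refine Finset.sum_congr rfl fun i _ => ?_
      rw [map_mul, hΛ.equivariant _ (he i) σ⁻¹ m]
      congr 1
      exact (AlgEquiv.apply_symm_apply σ (e i m)).symm
    intro i
    have := (Fintype.linearIndependent_iff.mp hliQ) _ h0 i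
    exact sub_eq_zero.mp this
  choose r hr using fun i =>
    exists_Zl_of_fixed_of_isIntegral ℓ (W i) (fun σ => hfix σ i) (hW i)
  have : ∑ i, W i • e i = ∑ i, r i • e i := by
    refine Finset.sum_congr rfl fun i _ => ?_
    rw [← hr i, algebraMap_smul]
  rw [this]
  exact Subalgebra.sum_mem _ fun i _ => Subalgebra.smul_mem _ (he i) _

end IsHopfLattice

end Fermat.Agent.S19.H435

end
end
-- ===== PACK-END S19/H435/Lattice.lean

-- ===== PACK-BEGIN S19/H435/Quot.lean
section
/-
A3 / WP-C piece F (helper435): quotients of Hopf lattices.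

For a surjective additive map `π : M →+ M''` compatible with the Galois actions, the functions
`g : M'' → Qb` with `g ∘ π ∈ Λ` form a Hopf lattice on `M''`.  No Cartier duality is used:
* the invariant sublattice is saturated, hence a direct summand (`exists_retraction`);
* `Δ`-closedness follows from `Qb`-independence of a basis (F1);
* separation of cosets uses norms `m ↦ ∏_{k ∈ ker π} h (m + k)` and Neumann's covering lemma.
-/





set_option autoImplicit false
set_option linter.style.haveILetI false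

noncomputable section

namespace Fermat.Agent.S19.H435

/-- A saturated submodule of a finite module over a PID is a direct summand. -/
theorem exists_retraction {R V : Type*} [CommRing R] [IsDomain R] [IsPrincipalIdealRing R]
    [AddCommGroup V] [Module R V] [Module.Finite R V] (N : Submodule R V)
    (hsat : ∀ (r : R) (v : V), r ≠ 0 → r • v ∈ N → v ∈ N) :
    ∃ ρ : V →ₗ[R] V, (∀ v, ρ v ∈ N) ∧ ∀ v ∈ N, ρ v = v := by
  haveI : Module.IsTorsionFree R (V ⧸ N) := by
    refine Module.IsTorsionFree.of_smul_eq_zero fun r m h => ?_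
    obtain ⟨v, rfl⟩ := N.mkQ_surjective m
    by_cases hr : r = 0
    · exact Or.inl hr
    · right
      rw [← map_smul, Submodule.mkQ_apply, Submodule.Quotient.mk_eq_zero] at h
      rw [Submodule.mkQ_apply, Submodule.Quotient.mk_eq_zero]
      exact hsat r v hr h
  haveI : Module.Free R (V ⧸ N) := Module.free_of_finite_type_torsion_free'
  obtain ⟨s, hs⟩ := Module.projective_lifting_property N.mkQ LinearMap.id N.mkQ_surjective
  refine ⟨LinearMap.id - s ∘ₗ N.mkQ, ?_, ?_⟩
  · intro v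
    rw [← Submodule.Quotient.mk_eq_zero]
    have h1 := LinearMap.congr_fun hs (N.mkQ v)
    simp only [LinearMap.comp_apply, LinearMap.id_apply, Submodule.mkQ_apply] at h1
    simp only [LinearMap.sub_apply, LinearMap.id_apply, LinearMap.comp_apply,
      Submodule.mkQ_apply, Submodule.Quotient.mk_sub, h1, sub_self]
  · intro v hv
    have h1 : N.mkQ v = 0 := by
      rw [Submodule.mkQ_apply, Submodule.Quotient.mk_eq_zero]
      exact hv
    simp only [LinearMap.sub_apply, LinearMap.id_apply, LinearMap.comp_apply, h1, map_zero,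
      sub_zero]

variable {ℓ : ℕ} {M : Type*} [AddCommGroup M] {act : Gal → M → M}
  {Λ : Subalgebra (Zl ℓ) (M → _root_.Fermat.Agent.S19.H435.Qb)}

namespace IsHopfLattice

theorem act_add (hΛ : IsHopfLattice ℓ act Λ) (σ : Gal) (x y : M) :
    act σ (x + y) = act σ x + act σ y := by
  by_contra hne
  obtain ⟨f, hf, hfne⟩ := hΛ.separates _ _ hne
  apply hfne
  obtain ⟨n, a, b, ha, hb, hab⟩ := hΛ.comul_mem f hf
  rw [hΛ.equivariant f hf σ, hab, hab, map_sum]
  refine Finset.sum_congr rfl fun k _ => ?_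
  rw [map_mul, hΛ.equivariant _ (ha k) σ, hΛ.equivariant _ (hb k) σ]

theorem act_zero (hΛ : IsHopfLattice ℓ act Λ) (σ : Gal) : act σ 0 = 0 := by
  have h := hΛ.act_add σ 0 0
  rw [add_zero] at h
  exact left_eq_add.mp h

theorem act_inv_act (hΛ : IsHopfLattice ℓ act Λ) (σ : Gal) (m : M) :
    act σ⁻¹ (act σ m) = m := by
  by_contra hne
  obtain ⟨f, hf, hfne⟩ := hΛ.separates _ _ hne
  apply hfne
  rw [hΛ.equivariant f hf σ⁻¹, hΛ.equivariant f hf σ]
  exact AlgEquiv.symm_apply_apply σ (f m)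

theorem act_act_inv (hΛ : IsHopfLattice ℓ act Λ) (σ : Gal) (m : M) :
    act σ (act σ⁻¹ m) = m := by
  have := hΛ.act_inv_act σ⁻¹ m
  rwa [inv_inv] at this

end IsHopfLattice

/-- `f` factors through `π`. -/
def IsInvFun {M'' : Type*} (π : M → M'') (f : M → _root_.Fermat.Agent.S19.H435.Qb) : Prop :=
  ∀ x y : M, π x = π y → f x = f y

omit [AddCommGroup M] in
theorem sum_smul_apply' {n : ℕ} (c : Fin n → Zl ℓ) (g : Fin n → M → _root_.Fermat.Agent.S19.H435.Qb) (x : M) :
    (∑ i, c i • g i) x = ∑ i, algebraMap (Zl ℓ) _root_.Fermat.Agent.S19.H435.Qb (c i) * g i x := by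
  simp [Finset.sum_apply, Algebra.smul_def]

namespace IsHopfLattice

/-- **F3.** The comultiplication of an invariant element of a Hopf lattice can be written with
invariant elements of the lattice. -/
theorem comul_inv [Fact ℓ.Prime] (hΛ : IsHopfLattice ℓ act Λ) {M'' : Type*} [AddCommGroup M'']
    (π : M →+ M'') {f : M → _root_.Fermat.Agent.S19.H435.Qb} (hf : f ∈ Λ) (hinv : IsInvFun π f) :
    ∃ (n : ℕ) (a b : Fin n → M → _root_.Fermat.Agent.S19.H435.Qb), (∀ k, a k ∈ Λ ∧ IsInvFun π (a k)) ∧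
      (∀ k, b k ∈ Λ ∧ IsInvFun π (b k)) ∧ ∀ x y : M, f (x + y) = ∑ k, a k x * b k y := by
  classical
  obtain ⟨n, e, he, -, hliQ, hexp⟩ := hΛ.exists_basis
  obtain ⟨p, a, b, ha, hb, hab⟩ := hΛ.comul_mem f hf
  choose β hβ using fun k => hexp (b k) (hb k)
  -- Step 1
  set u : Fin n → M → _root_.Fermat.Agent.S19.H435.Qb := fun j => ∑ k, β k j • a k with hu
  have hu_mem : ∀ j, u j ∈ Λ := fun j =>
    Subalgebra.sum_mem _ fun k _ => Subalgebra.smul_mem _ (ha k) _
  have hu_apply : ∀ j x, u j x = ∑ k, algebraMap (Zl ℓ) _root_.Fermat.Agent.S19.H435.Qb (β k j) * a k x := by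
    intro j x
    simp [hu, Finset.sum_apply, Algebra.smul_def]
  have hfu : ∀ x y, f (x + y) = ∑ j, u j x * e j y := by
    intro x y
    rw [hab]
    simp only [hu_apply, Finset.sum_mul]
    rw [Finset.sum_comm]
    refine Finset.sum_congr rfl fun k _ => ?_
    conv_lhs => rw [hβ k, sum_smul_apply', Finset.mul_sum]
    refine Finset.sum_congr rfl fun j _ => ?_
    ring
  have key : ∀ (d : Fin n → _root_.Fermat.Agent.S19.H435.Qb), (∀ y, ∑ j, d j * e j y = 0) → ∀ j, d j = 0 := by
    intro d hd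
    refine Fintype.linearIndependent_iff.mp hliQ d ?_
    funext y
    simpa [Finset.sum_apply] using hd y
  have hu_inv : ∀ j, IsInvFun π (u j) := by
    intro j x x' hxx'
    have h0 : ∀ y, ∑ j, (u j x - u j x') * e j y = 0 := by
      intro y
      simp only [sub_mul, Finset.sum_sub_distrib]
      rw [← hfu, ← hfu, sub_eq_zero]
      exact hinv _ _ (by rw [map_add, map_add, hxx'])
    exact sub_eq_zero.mp (key _ h0 j)
  -- Step 2
  choose γ hγ using fun j => hexp (u j) (hu_mem j)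
  -- Step 3
  set w : Fin n → M → _root_.Fermat.Agent.S19.H435.Qb := fun i => ∑ j, γ j i • e j with hw
  have hw_mem : ∀ i, w i ∈ Λ := fun i =>
    Subalgebra.sum_mem _ fun j _ => Subalgebra.smul_mem _ (he j) _
  have hw_apply : ∀ i y, w i y = ∑ j, algebraMap (Zl ℓ) _root_.Fermat.Agent.S19.H435.Qb (γ j i) * e j y := by
    intro i y
    simp [hw, Finset.sum_apply, Algebra.smul_def]
  have hfw : ∀ x y, f (x + y) = ∑ i, e i x * w i y := by
    intro x y
    rw [hfu]
    simp only [hw_apply, Finset.mul_sum]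
    rw [Finset.sum_comm]
    refine Finset.sum_congr rfl fun j _ => ?_
    conv_lhs => rw [hγ j, sum_smul_apply', Finset.sum_mul]
    refine Finset.sum_congr rfl fun i _ => ?_
    ring
  have hw_inv : ∀ i, IsInvFun π (w i) := by
    intro i y y' hyy'
    have h0 : ∀ x, ∑ i, (w i y - w i y') * e i x = 0 := by
      intro x
      simp only [sub_mul, Finset.sum_sub_distrib]
      have h1 := hfw x y
      have h2 := hfw x y'
      have h3 : f (x + y) = f (x + y') := hinv _ _ (by rw [map_add, map_add, hyy'])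
      rw [sub_eq_zero]
      calc ∑ i, w i y * e i x = f (x + y) := by
            rw [h1]; exact Finset.sum_congr rfl fun i _ => mul_comm _ _
        _ = f (x + y') := h3
        _ = ∑ i, w i y' * e i x := by
            rw [h2]; exact Finset.sum_congr rfl fun i _ => mul_comm _ _
    exact sub_eq_zero.mp (key _ h0 i)
  -- Step 4: the retraction
  haveI : Module.Finite (Zl ℓ) (Subalgebra.toSubmodule Λ) := Module.Finite.iff_fg.mpr hΛ.fg
  let N : Submodule (Zl ℓ) (Subalgebra.toSubmodule Λ) :=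
    { carrier := {v | IsInvFun π (v : M → _root_.Fermat.Agent.S19.H435.Qb)}
      add_mem' := by
        intro v v' hv hv' x y hxy
        show (v : M → _root_.Fermat.Agent.S19.H435.Qb) x + (v' : M → _root_.Fermat.Agent.S19.H435.Qb) x = (v : M → _root_.Fermat.Agent.S19.H435.Qb) y + (v' : M → _root_.Fermat.Agent.S19.H435.Qb) y
        rw [hv x y hxy, hv' x y hxy]
      zero_mem' := fun x y _ => rfl
      smul_mem' := by
        intro r v hv x y hxy
        show r • (v : M → _root_.Fermat.Agent.S19.H435.Qb) x = r • (v : M → _root_.Fermat.Agent.S19.H435.Qb) y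
        rw [hv x y hxy] }
  have hsat : ∀ (r : Zl ℓ) (v : Subalgebra.toSubmodule Λ), r ≠ 0 → r • v ∈ N → v ∈ N := by
    intro r v hr hv x y hxy
    have h1 : r • (v : M → _root_.Fermat.Agent.S19.H435.Qb) x = r • (v : M → _root_.Fermat.Agent.S19.H435.Qb) y := hv x y hxy
    rw [Algebra.smul_def, Algebra.smul_def] at h1
    have h2 : algebraMap (Zl ℓ) _root_.Fermat.Agent.S19.H435.Qb r ≠ 0 := fun h =>
      hr (algebraMap_Zl_Qb_injective ℓ (by rw [h, map_zero]))
    exact mul_left_cancel₀ h2 h1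
  obtain ⟨ρ, hρN, hρid⟩ := exists_retraction N hsat
  let E : Fin n → Subalgebra.toSubmodule Λ := fun i => ⟨e i, he i⟩
  have hρu : ∀ j x, u j x = ∑ i, algebraMap (Zl ℓ) _root_.Fermat.Agent.S19.H435.Qb (γ j i) * ((ρ (E i) : Subalgebra.toSubmodule Λ) : M → _root_.Fermat.Agent.S19.H435.Qb) x := by
    intro j x
    have h1 : (⟨u j, hu_mem j⟩ : Subalgebra.toSubmodule Λ) = ∑ i, γ j i • E i := by
      apply Subtype.ext
      rw [Submodule.coe_sum]
      exact hγ j
    calc u j x = ((ρ ⟨u j, hu_mem j⟩ : Subalgebra.toSubmodule Λ) : M → _root_.Fermat.Agent.S19.H435.Qb) x := by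
          rw [hρid _ (hu_inv j)]
      _ = ((∑ i, γ j i • ρ (E i) : Subalgebra.toSubmodule Λ) : M → _root_.Fermat.Agent.S19.H435.Qb) x := by
          rw [h1, map_sum]
          simp only [map_smul]
      _ = (∑ i, γ j i • ((ρ (E i) : Subalgebra.toSubmodule Λ) : M → _root_.Fermat.Agent.S19.H435.Qb)) x := by
          rw [Submodule.coe_sum]
          rfl
      _ = _ := sum_smul_apply' _ _ x
  refine ⟨n, fun i => ((ρ (E i) : Subalgebra.toSubmodule Λ) : M → _root_.Fermat.Agent.S19.H435.Qb), w,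
    fun i => ⟨(ρ (E i)).2, hρN (E i)⟩, fun i => ⟨hw_mem i, hw_inv i⟩, ?_⟩
  intro x y
  rw [hfu]
  simp only [hρu, hw_apply, Finset.sum_mul, Finset.mul_sum]
  rw [Finset.sum_comm]
  refine Finset.sum_congr rfl fun i _ => Finset.sum_congr rfl fun j _ => ?_
  ring

/-- Translates of lattice elements lie in the `Zb`-span of the lattice. -/
theorem translate_mem_span (hΛ : IsHopfLattice ℓ act Λ) {h : M → _root_.Fermat.Agent.S19.H435.Qb} (hh : h ∈ Λ) (k : M) :
    (fun m => h (m + k)) ∈
      Submodule.span (integralClosure (Zl ℓ) _root_.Fermat.Agent.S19.H435.Qb) (Λ : Set (M → _root_.Fermat.Agent.S19.H435.Qb)) := by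
  obtain ⟨n, a, b, ha, hb, hab⟩ := hΛ.comul_mem h hh
  have : (fun m => h (m + k)) =
      ∑ j, (⟨b j k, hΛ.isIntegral_apply (hb j) k⟩ : integralClosure (Zl ℓ) _root_.Fermat.Agent.S19.H435.Qb) • a j := by
    funext m
    rw [hab, Finset.sum_apply]
    refine Finset.sum_congr rfl fun j _ => ?_
    show a j m * b j k = b j k * a j m
    exact mul_comm _ _
  rw [this]
  exact Submodule.sum_mem _ fun j _ => Submodule.smul_mem _ _ (Submodule.subset_span (ha j))

omit [AddCommGroup M] in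
theorem span_eq_adjoin (Λ : Subalgebra (Zl ℓ) (M → _root_.Fermat.Agent.S19.H435.Qb)) :
    Submodule.span (integralClosure (Zl ℓ) _root_.Fermat.Agent.S19.H435.Qb) (Λ : Set (M → _root_.Fermat.Agent.S19.H435.Qb)) =
      Subalgebra.toSubmodule (Algebra.adjoin (integralClosure (Zl ℓ) _root_.Fermat.Agent.S19.H435.Qb) (Λ : Set (M → _root_.Fermat.Agent.S19.H435.Qb))) := by
  rw [Algebra.adjoin_eq_span]
  congr 1
  have : (Λ : Set (M → _root_.Fermat.Agent.S19.H435.Qb)) = ((Λ.toSubmonoid : Submonoid (M → _root_.Fermat.Agent.S19.H435.Qb)) : Set (M → _root_.Fermat.Agent.S19.H435.Qb)) := rfl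
  rw [this, Submonoid.closure_eq]

section Norm

variable [Fintype M] [DecidableEq M] {M'' : Type*} [AddCommGroup M''] [DecidableEq M'']

/-- The kernel of `π` as a finset. -/
def kerFinset (π : M →+ M'') : Finset M := Finset.univ.filter (fun k => π k = 0)

omit [DecidableEq M] in
theorem mem_kerFinset (π : M →+ M'') (k : M) : k ∈ kerFinset π ↔ π k = 0 := by
  simp [kerFinset]

/-- The norm of a function along the fibres of `π`. -/
def normFun (π : M →+ M'') (h : M → _root_.Fermat.Agent.S19.H435.Qb) : M → _root_.Fermat.Agent.S19.H435.Qb := fun m => ∏ k ∈ kerFinset π, h (m + k)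

omit [DecidableEq M] in
theorem normFun_inv (π : M →+ M'') (h : M → _root_.Fermat.Agent.S19.H435.Qb) : IsInvFun π (normFun π h) := by
  intro x x' hxx'
  unfold normFun
  have hk₀ : π (x' - x) = 0 := by rw [map_sub, hxx', sub_self]
  refine Finset.prod_nbij' (fun k => k - (x' - x)) (fun k => k + (x' - x)) ?_ ?_ ?_ ?_ ?_
  · intro k hk
    rw [mem_kerFinset] at hk ⊢
    rw [map_sub, hk, hk₀, sub_zero]
  · intro k hk
    rw [mem_kerFinset] at hk ⊢
    rw [map_add, hk, hk₀, add_zero]
  · intro k _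
    abel
  · intro k _
    abel
  · intro k _
    congr 1
    abel

omit [DecidableEq M] in
theorem normFun_mem [Fact ℓ.Prime] (hΛ : IsHopfLattice ℓ act Λ) (π : M →+ M'')
    (act'' : Gal → M'' → M'') (hcompat : ∀ σ m, act'' σ (π m) = π (act σ m))
    {h : M → _root_.Fermat.Agent.S19.H435.Qb} (hh : h ∈ Λ) : normFun π h ∈ Λ := by
  have hstab : ∀ (σ : Gal) (k : M), k ∈ kerFinset π → act σ k ∈ kerFinset π := by
    intro σ k hk
    rw [mem_kerFinset] at hk ⊢
    rw [← hcompat, hk, ← map_zero π, hcompat, hΛ.act_zero, map_zero]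
  apply hΛ.mem_of_mem_span_of_equivariant
  · rw [span_eq_adjoin]
    have : normFun π h = ∏ k ∈ kerFinset π, (fun m => h (m + k)) := by
      funext m
      simp [normFun, Finset.prod_apply]
    rw [this]
    refine Subalgebra.prod_mem _ fun k _ => ?_
    have := hΛ.translate_mem_span hh k
    rw [span_eq_adjoin] at this
    exact this
  · intro σ m
    unfold normFun
    rw [map_prod]
    refine Finset.prod_nbij' (fun k => act σ⁻¹ k) (fun k => act σ k) ?_ ?_ ?_ ?_ ?_
    · intro k hk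
      exact hstab σ⁻¹ k hk
    · intro k hk
      exact hstab σ k hk
    · intro k _
      exact hΛ.act_act_inv σ k
    · intro k _
      exact hΛ.act_inv_act σ k
    · intro k _
      rw [← hΛ.equivariant h hh σ, hΛ.act_add, hΛ.act_act_inv]

end Norm

/-- **F4.** Invariant elements of a Hopf lattice separate the fibres of `π`. -/
theorem exists_inv_separating [Fact ℓ.Prime] [Finite M] (hΛ : IsHopfLattice ℓ act Λ)
    {M'' : Type*} [AddCommGroup M''] (π : M →+ M'')
    (act'' : Gal → M'' → M'') (hcompat : ∀ σ m, act'' σ (π m) = π (act σ m))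
    (x y : M) (hxy : π x ≠ π y) : ∃ f ∈ Λ, IsInvFun π f ∧ f x ≠ f y := by
  classical
  haveI : Fintype M := Fintype.ofFinite M
  by_contra hcon
  push Not at hcon
  -- Step a
  have stepa : ∀ h ∈ Λ, ∃ k ∈ kerFinset π, h x = h (y + k) := by
    intro h hh
    let P : Polynomial _root_.Fermat.Agent.S19.H435.Qb := ∏ k ∈ kerFinset π, (Polynomial.C (h (x + k)) - Polynomial.X)
    let Q : Polynomial _root_.Fermat.Agent.S19.H435.Qb := ∏ k ∈ kerFinset π, (Polynomial.C (h (y + k)) - Polynomial.X)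
    have hevalP : ∀ z : _root_.Fermat.Agent.S19.H435.Qb, Polynomial.eval z P = ∏ k ∈ kerFinset π, (h (x + k) - z) := by
      intro z
      simp [P, Polynomial.eval_prod]
    have hevalQ : ∀ z : _root_.Fermat.Agent.S19.H435.Qb, Polynomial.eval z Q = ∏ k ∈ kerFinset π, (h (y + k) - z) := by
      intro z
      simp [Q, Polynomial.eval_prod]
    have hPQ : P = Q := by
      apply Polynomial.eq_of_infinite_eval_eq
      refine Set.infinite_of_injective_forall_mem (f := fun n : ℤ => (n : _root_.Fermat.Agent.S19.H435.Qb))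
        Int.cast_injective fun c => ?_
      show Polynomial.eval (c : _root_.Fermat.Agent.S19.H435.Qb) P = Polynomial.eval (c : _root_.Fermat.Agent.S19.H435.Qb) Q
      rw [hevalP, hevalQ]
      have hmem : h - algebraMap (Zl ℓ) (M → _root_.Fermat.Agent.S19.H435.Qb) (c : Zl ℓ) ∈ Λ :=
        Subalgebra.sub_mem _ hh (Subalgebra.algebraMap_mem _ _)
      have := hcon _ (hΛ.normFun_mem π act'' hcompat hmem) (normFun_inv π _)
      have hpt : ∀ m : M, (h - algebraMap (Zl ℓ) (M → _root_.Fermat.Agent.S19.H435.Qb) (c : Zl ℓ)) m = h m - (c : _root_.Fermat.Agent.S19.H435.Qb) := by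
        intro m
        rw [Pi.sub_apply, Pi.algebraMap_apply, map_intCast]
      simpa [normFun, hpt] using this
    have h0 : Polynomial.eval (h x) P = 0 := by
      rw [hevalP]
      refine Finset.prod_eq_zero (i := 0) ((mem_kerFinset π 0).mpr (map_zero π)) ?_
      rw [add_zero, sub_self]
    rw [hPQ, hevalQ, Finset.prod_eq_zero_iff] at h0
    obtain ⟨k, hk, hk0⟩ := h0
    exact ⟨k, hk, (sub_eq_zero.mp hk0).symm⟩
  -- Step b
  let φ : M → (Subalgebra.toSubmodule Λ) →ₗ[Zl ℓ] _root_.Fermat.Agent.S19.H435.Qb := fun k =>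
    ((LinearMap.proj x : (M → _root_.Fermat.Agent.S19.H435.Qb) →ₗ[Zl ℓ] _root_.Fermat.Agent.S19.H435.Qb) -
      (LinearMap.proj (y + k) : (M → _root_.Fermat.Agent.S19.H435.Qb) →ₗ[Zl ℓ] _root_.Fermat.Agent.S19.H435.Qb)) ∘ₗ (Subalgebra.toSubmodule Λ).subtype
  have hφ : ∀ k (v : Subalgebra.toSubmodule Λ), φ k v = (v : M → _root_.Fermat.Agent.S19.H435.Qb) x - (v : M → _root_.Fermat.Agent.S19.H435.Qb) (y + k) :=
    fun k v => rfl
  let pk : M → Submodule (Zl ℓ) (Subalgebra.toSubmodule Λ) := fun k => LinearMap.ker (φ k)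
  have hcover : ⋃ k ∈ kerFinset π, ((pk k : Submodule (Zl ℓ) (Subalgebra.toSubmodule Λ)) :
      Set (Subalgebra.toSubmodule Λ)) = Set.univ := by
    rw [Set.eq_univ_iff_forall]
    intro v
    obtain ⟨k, hk, hvk⟩ := stepa v.1 v.2
    simp only [Set.mem_iUnion]
    refine ⟨k, hk, ?_⟩
    show φ k v = 0
    rw [hφ, sub_eq_zero]
    exact hvk
  obtain ⟨k, hk, hfi⟩ := Submodule.exists_finiteIndex_of_cover hcover
  have hxk : x ≠ y + k := by
    intro h
    apply hxy
    rw [h, map_add, (mem_kerFinset π k).mp hk, add_zero]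
  obtain ⟨h₀, hh₀, hne⟩ := hΛ.separates _ _ hxk
  haveI : (pk k).toAddSubgroup.FiniteIndex := hfi
  haveI : Finite ((Subalgebra.toSubmodule Λ) ⧸ (pk k).toAddSubgroup) :=
    AddSubgroup.finite_quotient_of_finiteIndex
  let v₀ : Subalgebra.toSubmodule Λ := ⟨h₀, hh₀⟩
  have hinj : Function.Injective
      (fun n : ℕ => (QuotientAddGroup.mk (n • v₀) :
        (Subalgebra.toSubmodule Λ) ⧸ (pk k).toAddSubgroup)) := by
    intro n n' hnn'
    have h1 := QuotientAddGroup.eq.mp hnn'
    have h2 : φ k (-(n • v₀) + n' • v₀) = 0 := h1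
    rw [map_add, map_neg, map_nsmul, map_nsmul, hφ] at h2
    have h3 : h₀ x - h₀ (y + k) ≠ 0 := sub_ne_zero.mpr hne
    have h4 : ((n' : _root_.Fermat.Agent.S19.H435.Qb) - (n : _root_.Fermat.Agent.S19.H435.Qb)) * (h₀ x - h₀ (y + k)) = 0 := by
      have : (v₀ : M → _root_.Fermat.Agent.S19.H435.Qb) = h₀ := rfl
      rw [this] at h2
      rw [← h2]
      simp only [nsmul_eq_mul]
      ring
    rcases mul_eq_zero.mp h4 with h | h
    · have : (n' : _root_.Fermat.Agent.S19.H435.Qb) = (n : _root_.Fermat.Agent.S19.H435.Qb) := sub_eq_zero.mp h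
      exact (Nat.cast_injective this).symm
    · exact absurd h h3
  haveI : Finite ℕ := Finite.of_injective _ hinj
  exact not_finite ℕ

end IsHopfLattice

/-- Precomposition with `π`, as a `ℤ_(ℓ)`-algebra homomorphism. -/
def precompAlgHom (ℓ : ℕ) {M M'' : Type*} (π : M → M'') : (M'' → _root_.Fermat.Agent.S19.H435.Qb) →ₐ[Zl ℓ] (M → _root_.Fermat.Agent.S19.H435.Qb) where
  toFun g := g ∘ π
  map_one' := rfl
  map_mul' _ _ := rfl
  map_zero' := rfl
  map_add' _ _ := rfl
  commutes' _ := rfl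

@[simp]
theorem precompAlgHom_apply (ℓ : ℕ) {M M'' : Type*} (π : M → M'') (g : M'' → _root_.Fermat.Agent.S19.H435.Qb) (m : M) :
    precompAlgHom ℓ π g m = g (π m) := rfl

namespace IsHopfLattice

/-- **Piece F (quotients).** If `Λ` is a Hopf lattice on `M` and `π : M →+ M''` is a surjective
additive map compatible with the Galois actions, then the functions `g` on `M''` with
`g ∘ π ∈ Λ` form a Hopf lattice on `M''`. -/
theorem quotient [Fact ℓ.Prime] [Finite M] (hΛ : IsHopfLattice ℓ act Λ)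
    {M'' : Type*} [AddCommGroup M''] (π : M →+ M'') (hπ : Function.Surjective π)
    (act'' : Gal → M'' → M'') (hcompat : ∀ σ m, act'' σ (π m) = π (act σ m)) :
    IsHopfLattice ℓ act'' (Λ.comap (precompAlgHom ℓ π)) := by
  have hdesc : ∀ f : M → _root_.Fermat.Agent.S19.H435.Qb, IsInvFun π f → (f ∘ Function.surjInv hπ) ∘ π = f := by
    intro f hf
    funext m
    exact hf _ _ (Function.surjInv_eq hπ (π m))
  refine ⟨?_, ?_, ?_, ?_⟩
  · have hinj : Function.Injective (precompAlgHom ℓ π).toLinearMap := by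
      intro g g' h
      funext m''
      obtain ⟨m, rfl⟩ := hπ m''
      exact congrFun h m
    apply Submodule.fg_of_fg_map_injective (precompAlgHom ℓ π).toLinearMap hinj
    apply Submodule.FG.of_le hΛ.fg
    rintro _ ⟨g, hg, rfl⟩
    exact hg
  · intro g hg σ m''
    obtain ⟨m, rfl⟩ := hπ m''
    rw [hcompat]
    exact hΛ.equivariant _ hg σ m
  · intro m'' n'' hne
    obtain ⟨x, rfl⟩ := hπ m''
    obtain ⟨y, rfl⟩ := hπ n''
    obtain ⟨f, hf, hfinv, hfne⟩ := hΛ.exists_inv_separating π act'' hcompat x y hne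
    refine ⟨f ∘ Function.surjInv hπ, ?_, ?_⟩
    · show (f ∘ Function.surjInv hπ) ∘ π ∈ Λ
      rw [hdesc f hfinv]
      exact hf
    · have h1 := congrFun (hdesc f hfinv) x
      have h2 := congrFun (hdesc f hfinv) y
      simp only [Function.comp_apply] at h1 h2 ⊢
      rw [h1, h2]
      exact hfne
  · intro g hg
    have hginv : IsInvFun π (g ∘ π) := fun x y hxy => by
      simp only [Function.comp_apply, hxy]
    obtain ⟨n, a, b, ha, hb, hab⟩ := hΛ.comul_inv π (f := g ∘ π) hg hginv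
    refine ⟨n, fun k => a k ∘ Function.surjInv hπ, fun k => b k ∘ Function.surjInv hπ,
      fun k => ?_, fun k => ?_, ?_⟩
    · show (a k ∘ Function.surjInv hπ) ∘ π ∈ Λ
      rw [hdesc _ (ha k).2]
      exact (ha k).1
    · show (b k ∘ Function.surjInv hπ) ∘ π ∈ Λ
      rw [hdesc _ (hb k).2]
      exact (hb k).1
    · intro x'' y''
      obtain ⟨x, rfl⟩ := hπ x''
      obtain ⟨y, rfl⟩ := hπ y''
      have h1 := hab x y
      simp only [Function.comp_apply, map_add] at h1
      rw [h1]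
      refine Finset.sum_congr rfl fun k _ => ?_
      have h2 := congrFun (hdesc _ (ha k).2) x
      have h3 := congrFun (hdesc _ (hb k).2) y
      simp only [Function.comp_apply] at h2 h3 ⊢
      rw [h2, h3]

end IsHopfLattice

end Fermat.Agent.S19.H435

end
end
-- ===== PACK-END S19/H435/Quot.lean

-- ===== PACK-BEGIN A3/H75/DiscValue.lean
section


/-!
# A3 / LOCAL / DISC (helper75): values of functions at places, and sums of orders over a fibre

Language: the Prelude's `AlgebraicCurve.Place`, Lib/RR's `FF1`.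

* `HasVal P f b` : `f` is regular at the place `P` with value `b ∈ K` (the same predicate as
  `S37.Core.HasValue`, restated here to keep the import closure small);
* calculus: `HasVal.unique`, `.add`, `.mul`, `.sub`, `.neg`, `hasVal_algebraMap`,
  `exists_hasVal` (places of degree one);
* `mapDomain_apply_eq_sum` : `(r_* D)(Q) = ∑_{P ∈ supp D, r P = Q} D(P)`;
* `ord_le_mapDomain` : a nonnegative term is bounded by the sum.
-/

set_option autoImplicit false

noncomputable section

namespace Fermat.Agent.A3.H75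

open AlgebraicCurve Fermat.Agent.Lib.RR

section Nonunits

variable {F : Type*} [Field F] (V : ValuationSubring F)

theorem nonunits_add {x y : F} (hx : x ∈ V.nonunits) (hy : y ∈ V.nonunits) :
    x + y ∈ V.nonunits := by
  rw [ValuationSubring.mem_nonunits_iff] at hx hy ⊢
  exact V.valuation.map_add_lt hx hy

theorem nonunits_neg {x : F} (hx : x ∈ V.nonunits) : -x ∈ V.nonunits := by
  rw [ValuationSubring.mem_nonunits_iff] at hx ⊢
  rwa [Valuation.map_neg]

theorem nonunits_sub {x y : F} (hx : x ∈ V.nonunits) (hy : y ∈ V.nonunits) :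
    x - y ∈ V.nonunits := by
  rw [sub_eq_add_neg]
  exact nonunits_add V hx (nonunits_neg V hy)

theorem nonunits_mul {m x : F} (hm : m ∈ V.nonunits) (hx : x ∈ V) : m * x ∈ V.nonunits := by
  rw [ValuationSubring.mem_nonunits_iff] at hm ⊢
  rw [map_mul]
  have hx' := (V.valuation_le_one_iff x).mpr hx
  exact mul_lt_one_of_lt_of_le hm hx'

theorem nonunits_mul' {m x : F} (hx : x ∈ V) (hm : m ∈ V.nonunits) : x * m ∈ V.nonunits := by
  rw [mul_comm]
  exact nonunits_mul V hm hx

theorem mem_of_mem_nonunits {x : F} (hx : x ∈ V.nonunits) : x ∈ V := by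
  rw [ValuationSubring.mem_nonunits_iff] at hx
  exact (V.valuation_le_one_iff x).mp hx.le

theorem zero_mem_nonunits : (0 : F) ∈ V.nonunits := by
  rw [ValuationSubring.mem_nonunits_iff, map_zero]
  exact zero_lt_one

theorem one_not_mem_nonunits : (1 : F) ∉ V.nonunits := by
  rw [ValuationSubring.mem_nonunits_iff, map_one]
  exact lt_irrefl _

theorem inv_mem_of_not_mem_nonunits {x : F} (hx : x ∉ V.nonunits) : x ≠ 0 ∧ x⁻¹ ∈ V := by
  rw [ValuationSubring.mem_nonunits_iff_or] at hx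
  push Not at hx
  exact hx

theorem not_mem_nonunits_of_inv_mem {x : F} (hx0 : x ≠ 0) (hx : x⁻¹ ∈ V) : x ∉ V.nonunits := by
  rw [ValuationSubring.mem_nonunits_iff_or]
  push Not
  exact ⟨hx0, hx⟩

/-- an element outside the valuation ring has its inverse in the maximal ideal -/
theorem inv_mem_nonunits_of_not_mem {x : F} (hx : x ∉ V) : x⁻¹ ∈ V.nonunits := by
  rw [ValuationSubring.mem_nonunits_iff_or, inv_inv]
  exact Or.inr hx

end Nonunits

variable {K : Type*} [Field K] {F : Type*} [Field F] [Algebra K F]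

/-- nonzero constants are units at every place -/
theorem algebraMap_not_mem_nonunits (P : Place K F) {c : K} (hc : c ≠ 0) :
    algebraMap K F c ∉ P.toValuationSubring.nonunits := by
  apply not_mem_nonunits_of_inv_mem
  · exact (map_ne_zero _).mpr hc
  · rw [← map_inv₀]
    exact P.algebraMap_mem' _

theorem mem_nonunits_iff_ord (P : Place K F) (x : F) :
    x ∈ P.toValuationSubring.nonunits ↔ x = 0 ∨ 0 < P.ord x := by
  constructor
  · intro hx
    have hmem : x ∈ P.toValuationSubring := mem_of_mem_nonunits _ hx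
    have h1 : (⟨x, hmem⟩ : P.toValuationSubring) ∈
        IsLocalRing.maximalIdeal P.toValuationSubring := by
      rw [IsLocalRing.mem_maximalIdeal]
      exact (ValuationSubring.coe_mem_nonunits_iff (A := P.toValuationSubring)).mp hx
    exact (mem_maximalIdeal_iff P _).mp h1
  · rintro (rfl | h)
    · exact zero_mem_nonunits _
    · have hmem : x ∈ P.toValuationSubring := mem_of_ord_nonneg P h.le
      have h1 : (⟨x, hmem⟩ : P.toValuationSubring) ∈
          IsLocalRing.maximalIdeal P.toValuationSubring :=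
        (mem_maximalIdeal_iff P _).mpr (Or.inr h)
      rw [IsLocalRing.mem_maximalIdeal] at h1
      exact (ValuationSubring.coe_mem_nonunits_iff (A := P.toValuationSubring)).mpr h1

/-- `f` is regular at the place `P` with value `b`. -/
def HasVal (P : Place K F) (f : F) (b : K) : Prop :=
  f - algebraMap K F b ∈ P.toValuationSubring.nonunits

namespace HasVal

variable {P : Place K F} {f g : F} {b c : K}

theorem mem (h : HasVal P f b) : f ∈ P.toValuationSubring := by
  have h1 := mem_of_mem_nonunits _ h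
  have h2 := P.toValuationSubring.add_mem _ _ h1 (P.algebraMap_mem' b)
  simpa using h2

theorem unique (h : HasVal P f b) (h' : HasVal P f c) : b = c := by
  by_contra hne
  have h1 : algebraMap K F (c - b) ∈ P.toValuationSubring.nonunits := by
    have := nonunits_sub _ h h'
    rw [map_sub]
    have e : f - algebraMap K F b - (f - algebraMap K F c) =
        algebraMap K F c - algebraMap K F b := by ring
    rwa [e] at this
  exact algebraMap_not_mem_nonunits P (sub_ne_zero.mpr (Ne.symm hne)) h1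

theorem add (h : HasVal P f b) (h' : HasVal P g c) : HasVal P (f + g) (b + c) := by
  unfold HasVal at h h' ⊢
  have := nonunits_add _ h h'
  rw [map_add]
  have e : f + g - (algebraMap K F b + algebraMap K F c) =
      f - algebraMap K F b + (g - algebraMap K F c) := by ring
  rwa [e]

theorem neg (h : HasVal P f b) : HasVal P (-f) (-b) := by
  unfold HasVal at h ⊢
  have := nonunits_neg _ h
  rw [map_neg]
  have e : -f - -algebraMap K F b = -(f - algebraMap K F b) := by ring
  rwa [e]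

theorem sub (h : HasVal P f b) (h' : HasVal P g c) : HasVal P (f - g) (b - c) := by
  rw [sub_eq_add_neg, sub_eq_add_neg]
  exact h.add h'.neg

theorem mul (h : HasVal P f b) (h' : HasVal P g c) : HasVal P (f * g) (b * c) := by
  have hg := h'.mem
  unfold HasVal at h h' ⊢
  rw [map_mul]
  have e : f * g - algebraMap K F b * algebraMap K F c =
      (f - algebraMap K F b) * g + algebraMap K F b * (g - algebraMap K F c) := by ring
  rw [e]
  exact nonunits_add _ (nonunits_mul _ h hg) (nonunits_mul' _ (P.algebraMap_mem' b) h')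

end HasVal

theorem hasVal_algebraMap (P : Place K F) (b : K) : HasVal P (algebraMap K F b) b := by
  unfold HasVal
  rw [sub_self]
  exact zero_mem_nonunits _

theorem hasVal_zero (P : Place K F) : HasVal P (0 : F) 0 := by
  have := hasVal_algebraMap P (0 : K)
  rwa [map_zero] at this

theorem hasVal_one (P : Place K F) : HasVal P (1 : F) 1 := by
  have := hasVal_algebraMap P (1 : K)
  rwa [map_one] at this

/-- at a place of degree one every regular function has a value -/
theorem exists_hasVal (P : Place K F) (hP : P.deg = 1) {f : F} (hf : f ∈ P.toValuationSubring) :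
    ∃ b : K, HasVal P f b := by
  obtain ⟨c, hc⟩ := exists_const_sub P hP (ord_nonneg_of_mem P hf)
  exact ⟨c, (mem_nonunits_iff_ord P _).mpr hc⟩

theorem hasVal_zero_iff (P : Place K F) (f : F) : HasVal P f 0 ↔ f = 0 ∨ 0 < P.ord f := by
  unfold HasVal
  rw [map_zero, sub_zero]
  exact mem_nonunits_iff_ord P f

section Sum

variable {k : Type*} [Field k] {Fk : Type*} [Field Fk] [Algebra k Fk]

open Classical in
theorem mapDomain_apply_eq_sum (r : Place K F → Place k Fk) (D : Divisor K F)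
    (Q : Place k Fk) :
    Finsupp.mapDomain r D Q = ∑ P ∈ D.support.filter (fun P => r P = Q), D P := by
  rw [Finsupp.mapDomain, Finsupp.sum, Finsupp.finsetSum_apply, Finset.sum_filter]
  refine Finset.sum_congr rfl fun P _ => ?_
  rw [Finsupp.single_apply]

/-- If `D ≥ 0` on the fibre of `r` over `Q`, every coefficient on the fibre is bounded by the
coefficient of `r_* D` at `Q`. -/
theorem apply_le_mapDomain (r : Place K F → Place k Fk) (D : Divisor K F) (Q : Place k Fk)
    (hD : ∀ P, r P = Q → 0 ≤ D P) (P₀ : Place K F) (hP₀ : r P₀ = Q) :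
    D P₀ ≤ Finsupp.mapDomain r D Q := by
  classical
  rw [mapDomain_apply_eq_sum]
  by_cases h : P₀ ∈ D.support
  · have hmem : P₀ ∈ D.support.filter (fun P => r P = Q) := Finset.mem_filter.mpr ⟨h, hP₀⟩
    exact Finset.single_le_sum (f := fun P => D P)
      (fun P hP => hD P (Finset.mem_filter.mp hP).2) hmem
  · rw [Finsupp.notMem_support_iff.mp h]
    exact Finset.sum_nonneg fun P hP => hD P (Finset.mem_filter.mp hP).2

/-- Two distinct points of the fibre: the sum of their coefficients is bounded by the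
coefficient of `r_* D` at `Q`. -/
theorem apply_add_apply_le_mapDomain (r : Place K F → Place k Fk) (D : Divisor K F)
    (Q : Place k Fk) (hD : ∀ P, r P = Q → 0 ≤ D P) (P₀ P₁ : Place K F) (hne : P₀ ≠ P₁)
    (hP₀ : r P₀ = Q) (hP₁ : r P₁ = Q) :
    D P₀ + D P₁ ≤ Finsupp.mapDomain r D Q := by
  classical
  rw [mapDomain_apply_eq_sum]
  set s := D.support.filter (fun P => r P = Q) with hs
  have hnn : ∀ P ∈ s, 0 ≤ D P := fun P hP => hD P (Finset.mem_filter.mp hP).2
  have key : ∀ t : Finset (Place K F), t ⊆ {P₀, P₁} → (∀ P ∈ t, r P = Q) →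
      ∑ P ∈ t, D P ≤ ∑ P ∈ s, D P := by
    intro t _ htQ
    have h1 : ∑ P ∈ t, D P = ∑ P ∈ t.filter (fun P => P ∈ D.support), D P := by
      rw [Finset.sum_filter]
      refine Finset.sum_congr rfl fun P _ => ?_
      split_ifs with h
      · rfl
      · exact Finsupp.notMem_support_iff.mp h
    rw [h1]
    refine Finset.sum_le_sum_of_subset_of_nonneg ?_ fun P hP _ => hnn P hP
    intro P hP
    rw [Finset.mem_filter] at hP
    exact Finset.mem_filter.mpr ⟨hP.2, htQ P hP.1⟩
  have h2 := key {P₀, P₁} (Finset.Subset.refl _) (by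
    intro P hP
    rw [Finset.mem_insert, Finset.mem_singleton] at hP
    rcases hP with rfl | rfl
    · exact hP₀
    · exact hP₁)
  rwa [Finset.sum_pair hne] at h2

/-- If the coefficient of `r_* D` at `Q` is positive, some point of the fibre has a positive
coefficient. -/
theorem exists_pos_of_mapDomain_pos (r : Place K F → Place k Fk) (D : Divisor K F)
    (Q : Place k Fk) (h : 0 < Finsupp.mapDomain r D Q) : ∃ P, r P = Q ∧ 0 < D P := by
  classical
  rw [mapDomain_apply_eq_sum] at h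
  obtain ⟨P, hP, hpos⟩ := Finset.exists_lt_of_sum_lt (f := fun _ => (0 : ℤ)) (g := fun P => D P)
    (by simpa using h)
  exact ⟨P, (Finset.mem_filter.mp hP).2, hpos⟩

end Sum

end Fermat.Agent.A3.H75

end
end
-- ===== PACK-END A3/H75/DiscValue.lean

-- ===== PACK-BEGIN S19/H495/Saturated.lean
section
/-
A3 / S19 — WP-W6alg (helper495): saturated sublattices over a valuation ring, in the language
"field `K` with a valuation `v`; integral means `v x ≤ 1`".

* `chart B p = B * B[p, ·]⁻¹`: the affine Grassmannian chart of the column space of `B` at the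
  rows `p`; its entries are the ratios of maximal minors (affine Plücker coordinates)
  `det B[p with a ↦ i] / det B[p]`  (`chart_apply`).
* `exists_integral_chart`: choosing the maximal minor of largest valuation gives a chart with
  integral entries (the "unit pivot").
* `exists_integral_basis_matrix`: every subspace `W ⊆ Kⁿ` of dimension `d` is the column space of
  an integral `n × d` matrix containing the identity block; hence `W ∩ Oⁿ` is the free
  `O`-module on its columns (`integral_iff_of_submatrix_eq_one`) — a saturated sublattice, and a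
  direct summand of `Oⁿ`.
* `exists_constRankAt_of_rank_eq_residue_rank`: over a local ring `O ⊆ K`, a matrix whose generic
  rank equals its residual rank has constant rank at a unit pivot.
-/




set_option linter.unusedSectionVars false
set_option linter.unusedSimpArgs false
set_option linter.style.longLine false
set_option linter.style.haveILetI false

namespace Fermat.Agent.S19.H495

open Matrix Module

variable {K : Type*} [Field K]
variable {m n ι : Type*} [Fintype m] [Fintype n] [Fintype ι] [DecidableEq m] [DecidableEq n]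
  [DecidableEq ι]

/-- The affine chart of the column space of `B` at the rows `p`: the matrix `B * B[p, ·]⁻¹`,
which has the same column space as `B` and the identity block at the rows `p` (when
`det B[p, ·] ≠ 0`). -/
noncomputable def chart (B : Matrix n ι K) (p : ι → n) : Matrix n ι K :=
  B * (B.submatrix p id)⁻¹

theorem chart_eq_coechelon (B : Matrix n ι K) (p : ι → n) : chart B p = coechelon B p id := rfl

theorem chart_submatrix (B : Matrix n ι K) (p : ι → n) (h : (B.submatrix p id).det ≠ 0) :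
    (chart B p).submatrix p id = 1 :=
  coechelon_submatrix (A := B) (p := p) (q := id) h.isUnit

theorem chart_mul_submatrix (B : Matrix n ι K) (p : ι → n) (h : (B.submatrix p id).det ≠ 0) :
    chart B p * B.submatrix p id = B := by
  rw [chart, Matrix.mul_assoc, nonsing_inv_mul _ h.isUnit, Matrix.mul_one]

theorem submatrix_update_eq_updateRow (B : Matrix n ι K) (p : ι → n) (a : ι) (i : n) :
    B.submatrix (Function.update p a i) id = (B.submatrix p id).updateRow a (B i) := by
  ext b c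
  by_cases hb : b = a
  · subst hb; simp
  · simp [Matrix.updateRow_ne hb, Function.update_of_ne hb]

/-- **Cramer's rule for charts**: the entries of the chart are ratios of maximal minors. -/
theorem det_mul_chart_apply (B : Matrix n ι K) (p : ι → n) (h : (B.submatrix p id).det ≠ 0)
    (i : n) (a : ι) :
    (B.submatrix p id).det * chart B p i a = (B.submatrix (Function.update p a i) id).det := by
  have h1 := congrFun (Matrix.det_smul_inv_vecMul_eq_cramer_transpose (B.submatrix p id) (B i)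
    h.isUnit) a
  rw [Matrix.cramer_transpose_apply, ← submatrix_update_eq_updateRow] at h1
  rw [← h1]
  simp only [Pi.smul_apply, smul_eq_mul, chart, Matrix.mul_apply, Matrix.vecMul, dotProduct]

theorem chart_apply (B : Matrix n ι K) (p : ι → n) (h : (B.submatrix p id).det ≠ 0)
    (i : n) (a : ι) :
    chart B p i a = (B.submatrix (Function.update p a i) id).det / (B.submatrix p id).det := by
  rw [← det_mul_chart_apply B p h, mul_div_cancel_left₀ _ h]

/-- The column space of a chart is the column space of the matrix. -/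
theorem range_chart (B : Matrix n ι K) (p : ι → n) (h : (B.submatrix p id).det ≠ 0) :
    LinearMap.range (chart B p).mulVecLin = LinearMap.range B.mulVecLin := by
  apply le_antisymm
  · rintro _ ⟨c, rfl⟩
    refine ⟨(B.submatrix p id)⁻¹ *ᵥ c, ?_⟩
    simp only [Matrix.mulVecLin_apply, Matrix.mulVec_mulVec, chart]
  · rintro _ ⟨c, rfl⟩
    refine ⟨B.submatrix p id *ᵥ c, ?_⟩
    simp only [Matrix.mulVecLin_apply, Matrix.mulVec_mulVec, chart_mul_submatrix B p h]

section Valuation

variable {Γ₀ : Type*} [LinearOrderedCommGroupWithZero Γ₀] (v : Valuation K Γ₀)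

/-- **Unit pivot.**  If some maximal minor of `B` is nonzero, the maximal minor of largest
valuation gives a chart all of whose entries are integral. -/
theorem exists_integral_chart (B : Matrix n ι K) (h : ∃ p : ι → n, (B.submatrix p id).det ≠ 0) :
    ∃ p : ι → n, (B.submatrix p id).det ≠ 0 ∧ ∀ i a, v (chart B p i a) ≤ 1 := by
  obtain ⟨p₀, hp₀⟩ := h
  haveI : Nonempty (ι → n) := ⟨p₀⟩
  obtain ⟨p, hp⟩ := Finite.exists_max (fun p : ι → n => v (B.submatrix p id).det)
  have hpne : (B.submatrix p id).det ≠ 0 := by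
    intro h0
    have := hp p₀
    simp only [h0, _root_.map_zero] at this
    exact hp₀ ((map_eq_zero v).mp (le_antisymm this zero_le))
  refine ⟨p, hpne, fun i a => ?_⟩
  rw [chart_apply B p hpne, map_div₀]
  have hv : v (B.submatrix p id).det ≠ 0 := (Valuation.ne_zero_iff v).mpr hpne
  rw [div_le_iff₀ (zero_lt_iff.mpr hv), _root_.one_mul]
  exact hp _

/-- Integral combinations of integral vectors are integral. -/
theorem integral_mulVec {k : Type*} [Fintype k] (B : Matrix n k K) (hB : ∀ i a, v (B i a) ≤ 1)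
    (c : k → K) (hc : ∀ a, v (c a) ≤ 1) (i : n) : v ((B *ᵥ c) i) ≤ 1 := by
  simp only [Matrix.mulVec, dotProduct]
  apply Valuation.map_sum_le
  intro a _
  rw [_root_.map_mul]
  exact mul_le_one' (hB i a) (hc a)

/-- **Saturation.**  If `B` contains the identity block at the rows `p`, then a combination of
the columns of `B` is integral iff its coefficients are; the coefficients are the coordinates at
the rows `p`. -/
theorem coeff_eq_of_submatrix_eq_one (B : Matrix n ι K) (p : ι → n)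
    (hB : B.submatrix p id = 1) (c : ι → K) (a : ι) : c a = (B *ᵥ c) (p a) := by
  have : (B *ᵥ c) (p a) = (B.submatrix p id *ᵥ c) a := rfl
  rw [this, hB, Matrix.one_mulVec]

theorem integral_iff_of_submatrix_eq_one (B : Matrix n ι K) (p : ι → n)
    (hint : ∀ i a, v (B i a) ≤ 1) (hB : B.submatrix p id = 1) (c : ι → K) :
    (∀ i, v ((B *ᵥ c) i) ≤ 1) ↔ ∀ a, v (c a) ≤ 1 := by
  constructor
  · intro h a
    rw [coeff_eq_of_submatrix_eq_one B p hB c a]
    exact h _
  · intro h i
    exact integral_mulVec v B hint c h i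

/-- **Saturated sublattices over a valuation ring are free direct summands with a unit pivot.**
Every subspace `W ⊆ Kⁿ` is the column space of an integral matrix `B` containing an identity
block; consequently `W ∩ Oⁿ = B · O^d` (see `integral_iff_of_submatrix_eq_one`). -/
theorem exists_integral_basis_matrix (W : Submodule K (n → K)) :
    ∃ (B : Matrix n (Fin (finrank K W)) K) (p : Fin (finrank K W) → n),
      (∀ i a, v (B i a) ≤ 1) ∧ B.submatrix p id = 1 ∧ LinearMap.range B.mulVecLin = W := by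
  let b : Basis (Fin (finrank K W)) K W := Module.finBasis K W
  let B₀ : Matrix n (Fin (finrank K W)) K := Matrix.of fun i a => (b a : n → K) i
  have hcol : B₀.col = fun a => (b a : n → K) := rfl
  have hli : LinearIndependent K (fun a => B₀.col (id a)) := by
    show LinearIndependent K B₀.col
    rw [hcol]
    exact b.linearIndependent.map' W.subtype (Submodule.ker_subtype W)
  obtain ⟨p₀, hp₀⟩ := exists_rows_of_linearIndependent_cols B₀ id hli
  obtain ⟨p, hp, hint⟩ := exists_integral_chart v B₀ ⟨p₀, hp₀⟩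
  refine ⟨chart B₀ p, p, hint, chart_submatrix B₀ p hp, ?_⟩
  rw [range_chart B₀ p hp, Matrix.range_mulVecLin, hcol]
  have : Set.range (fun a => (b a : n → K)) = W.subtype '' Set.range b := by
    rw [← Set.range_comp]; rfl
  rw [this, Submodule.span_image, b.span_eq, Submodule.map_top, Submodule.range_subtype]

end Valuation

/-! ### Local rings: generic rank = residual rank ⇒ constant rank at a unit pivot -/

section Local

variable {O : Type*} [CommRing O] [IsLocalRing O]

/-- Let `O` be a local ring mapping injectively to the field `K`.  If a matrix over `O` has the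
same rank `r` over `K` and over the residue field of `O`, then it has constant rank at some
`r × r` pivot: a unit minor exists and all larger minors vanish.  Consequently (see
`ConstRankAt.kerEquiv`, `ConstRankAt.rangeEquiv`, `ConstRankAt.map`) the kernel and image over `O`
are free direct summands commuting with every base change. -/
theorem exists_constRankAt_of_rank_eq_residue_rank (f : O →+* K) (hf : Function.Injective f)
    (A : Matrix m n O) (r : ℕ) (hK : (A.map f).rank ≤ r)
    (hk : (A.map (IsLocalRing.residue O)).rank = r) :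
    ∃ (p : Fin r → m) (q : Fin r → n), ConstRankAt A p q := by
  subst hk
  obtain ⟨p, q, hpq⟩ := exists_det_submatrix_ne_zero (A.map (IsLocalRing.residue O))
  refine ⟨p, q, constRankAt_of_rank_map_le f hf A p q (by simpa using hK) ?_⟩
  rw [det_submatrix_map] at hpq
  exact (IsLocalRing.residue_ne_zero_iff_isUnit _).mp hpq

/-- Converse: constant rank at a pivot forces generic rank = residual rank = size of the pivot. -/
theorem ConstRankAt.rank_map_eq {R S : Type*} [CommRing R] [CommRing S] [Nontrivial S]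
    (g : R →+* S) {A : Matrix m n R} {p : ι → m} {q : ι → n} (h : ConstRankAt A p q) :
    (A.map g).rank = Fintype.card ι :=
  (h.map g).rank_eq

end Local

end Fermat.Agent.S19.H495

end
-- ===== PACK-END S19/H495/Saturated.lean

-- ===== PACK-BEGIN S19/H19/Points.lean
section
/-
A3 / S19, helper19 — piece ORD, part 4: the points of an order of functions.

For an order `H ⊂ (M → K)` (`M` finite) separating points, the `R`-algebra maps `H → K` are
exactly the evaluations at the points of `M`, convolution is addition, and semilinear twists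
correspond to the action on `M`.  Final packaging `exists_hopf_of_isOrder`.  Mathlib only.
-/



set_option autoImplicit false
set_option linter.unusedSectionVars false
set_option linter.style.haveILetI false

noncomputable section

namespace Fermat.Agent.S19.H19

open scoped BigOperators TensorProduct

variable {R : Type} [CommRing R] {K : Type} [Field K] [Algebra R K]
variable {M : Type} [AddCommGroup M]

namespace IsOrder

variable {H : Subalgebra R (M → K)} (hH : IsOrder H)

/-- Evaluation at a point, as an algebra map `H → K`. -/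
def evPt (H : Subalgebra R (M → K)) (m : M) : H →ₐ[R] K :=
  (Pi.evalAlgHom R (fun _ : M => K) m).comp H.val

@[simp] theorem evPt_apply (m : M) (h : H) : evPt H m h = (h : M → K) m := rfl

theorem evPt_injective (hsep : ∀ m m' : M, m ≠ m' → ∃ f ∈ H, f m ≠ f m') :
    Function.Injective (evPt H) := by
  intro m m' hmm
  by_contra hne
  obtain ⟨f, hf, hfm⟩ := hsep m m' hne
  exact hfm (congrArg (fun χ : H →ₐ[R] K => χ ⟨f, hf⟩) hmm)

include hH in
/-- The `K`-span of a separating order is everything. -/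
theorem span_eq_top [Finite M] (hsep : ∀ m m' : M, m ≠ m' → ∃ f ∈ H, f m ≠ f m') :
    Submodule.span K (H : Set (M → K)) = ⊤ := by
  have h1 : Algebra.adjoin K (H : Set (M → K)) = ⊤ := by
    apply subalgebra_eq_top_of_separates
    intro m m' hne
    obtain ⟨f, hf, hfm⟩ := hsep m m' hne
    exact ⟨f, Algebra.subset_adjoin hf, hfm⟩
  have h2 := Algebra.adjoin_eq_span K (H : Set (M → K))
  have h3 : Submonoid.closure (H : Set (M → K)) = H.toSubmonoid :=
    Submonoid.closure_eq H.toSubmonoid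
  rw [h3, h1] at h2
  rw [eq_top_iff]
  intro x _
  have : x ∈ Subalgebra.toSubmodule (⊤ : Subalgebra K (M → K)) := by simp
  rw [h2] at this
  exact this

include hH in
theorem evPt_surjective [Finite M] (hsep : ∀ m m' : M, m ≠ m' → ∃ f ∈ H, f m ≠ f m') :
    Function.Surjective (evPt H) := by
  classical
  have := Fintype.ofFinite M
  intro χ
  obtain ⟨ι, hι, b, hb⟩ := hH.good
  have := Fintype.ofFinite ι
  -- expansion of elements of `H`
  have key : ∀ x : H, (x : M → K) = ∑ i, algebraMap R K (b.repr x i) • ((b i : H) : M → K) := by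
    intro x
    change H.val x = _
    conv_lhs => rw [← b.sum_repr x]
    rw [map_sum]
    refine Finset.sum_congr rfl fun i _ => ?_
    rw [map_smul]
    funext m
    simp [Algebra.smul_def]
  have keyχ : ∀ x : H, χ x = ∑ i, algebraMap R K (b.repr x i) * χ (b i) := by
    intro x
    conv_lhs => rw [← b.sum_repr x]
    rw [map_sum]
    refine Finset.sum_congr rfl fun i _ => ?_
    rw [map_smul, Algebra.smul_def]
  have hspan : ⊤ ≤ Submodule.span K (Set.range fun i => H.val (b i)) := by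
    rw [← hH.span_eq_top hsep]
    apply Submodule.span_le.mpr
    intro x hx
    have := key ⟨x, hx⟩
    simp only at this
    rw [SetLike.mem_coe, this]
    exact Submodule.sum_mem _ fun i _ =>
      Submodule.smul_mem _ _ (Submodule.subset_span ⟨i, rfl⟩)
  let B : Module.Basis ι K (M → K) := Module.Basis.mk hb hspan
  have hB : ∀ i, B i = ((b i : H) : M → K) := fun i => by
    simp [B]
  let χ' : (M → K) →ₗ[K] K := B.constr K (fun i => χ (b i))
  have hχ'B : ∀ i, χ' (B i) = χ (b i) := fun i => by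
    simp [χ']
  have hχ' : ∀ x : H, χ' (x : M → K) = χ x := by
    intro x
    rw [key x, keyχ x, map_sum]
    refine Finset.sum_congr rfl fun i _ => ?_
    rw [map_smul, ← hB, hχ'B, smul_eq_mul]
  -- multiplicativity
  have hmul1 : ∀ j, χ' ∘ₗ LinearMap.mulRight K (B j) = LinearMap.mulRight K (χ' (B j)) ∘ₗ χ' := by
    intro j
    apply B.ext
    intro i
    simp only [LinearMap.comp_apply, LinearMap.mulRight_apply]
    rw [hB, hB]
    have : ((b i : H) : M → K) * ((b j : H) : M → K) = ((b i * b j : H) : M → K) := rfl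
    rw [this, hχ', hχ', hχ', map_mul]
  have hmul2 : ∀ f : M → K, χ' ∘ₗ LinearMap.mulLeft K f = LinearMap.mulLeft K (χ' f) ∘ₗ χ' := by
    intro f
    apply B.ext
    intro j
    simp only [LinearMap.comp_apply, LinearMap.mulLeft_apply]
    have := congrArg (fun L : (M → K) →ₗ[K] K => L f) (hmul1 j)
    simpa only [LinearMap.comp_apply, LinearMap.mulRight_apply] using this
  have hmul : ∀ f g : M → K, χ' (f * g) = χ' f * χ' g := by
    intro f g
    have := congrArg (fun L : (M → K) →ₗ[K] K => L g) (hmul2 f)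
    simpa only [LinearMap.comp_apply, LinearMap.mulLeft_apply] using this
  have hone : χ' 1 = 1 := by
    have := hχ' 1
    rw [map_one] at this
    exact this
  -- find the point
  have hsum : ∑ m : M, χ' (Pi.single m (1 : K)) = 1 := by
    have h1 : (∑ m : M, Pi.single m (1 : K)) = (1 : M → K) := by
      funext x
      simp [Finset.sum_apply, Pi.single_apply]
    rw [← map_sum, h1, hone]
  have hex : ∃ m : M, χ' (Pi.single m (1 : K)) ≠ 0 := by
    by_contra hcon
    push Not at hcon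
    rw [Finset.sum_eq_zero fun m _ => hcon m] at hsum
    exact zero_ne_one hsum
  obtain ⟨m, hm⟩ := hex
  refine ⟨m, ?_⟩
  apply AlgHom.ext
  intro x
  rw [evPt_apply, ← hχ']
  have h1 : (x : M → K) * Pi.single m (1 : K) = ((x : M → K) m) • Pi.single m (1 : K) := by
    funext y
    by_cases hy : y = m
    · subst hy; simp
    · simp [Pi.single_eq_of_ne hy]
  have h2 := hmul (x : M → K) (Pi.single m (1 : K))
  rw [h1, map_smul, smul_eq_mul] at h2
  exact (mul_right_cancel₀ hm h2)

theorem lift_evPt (s t : M) (x : H ⊗[R] H) :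
    Algebra.TensorProduct.lift (evPt H s) (evPt H t) (fun _ _ => Commute.all _ _) x =
      E₂ H x (s, t) := by
  induction x using TensorProduct.induction_on with
  | zero => simp
  | tmul a b =>
    rw [Algebra.TensorProduct.lift_tmul, E₂_tmul]
    rfl
  | add x y hx hy =>
    rw [map_add, map_add, Pi.add_apply, hx, hy]

theorem evPt_add (s t : M) :
    letI := hH.hopfAlgebra
    (WithConv.toConv (evPt H s) * WithConv.toConv (evPt H t) : WithConv (H →ₐ[R] K)) =
      WithConv.toConv (evPt H (s + t)) := by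
  letI := hH.hopfAlgebra
  apply WithConv.ext
  apply AlgHom.ext
  intro h
  have := AlgHom.convMul_apply (WithConv.toConv (evPt H s)) (WithConv.toConv (evPt H t)) h
  refine this.trans ?_
  rw [lift_evPt]
  exact hH.E₂_comul h (s, t)

end IsOrder

/-- **Piece ORD.**  A separating Hopf order of functions on a finite abelian group `M` is a
finite flat commutative cocommutative Hopf algebra over `R` whose `K`-points are `M`. -/
theorem exists_hopf_of_isOrder [Finite M] {H : Subalgebra R (M → K)} (hH : IsOrder H)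
    (hsep : ∀ m m' : M, m ≠ m' → ∃ f ∈ H, f m ≠ f m') :
    ∃ (H' : Type) (_ : CommRing H') (_ : HopfAlgebra R H'),
      Module.Finite R H' ∧ Module.Flat R H' ∧ Coalgebra.IsCocomm R H' ∧
      ∃ e : WithConv (H' →ₐ[R] K) ≃ M, (∀ f g, e (f * g) = e f + e g) ∧
        ∀ (τ : K → K) (a : M → M), (∀ h ∈ H, ∀ m, h (a m) = τ (h m)) →
          ∀ f g : WithConv (H' →ₐ[R] K), (∀ h : H', g h = τ (f h)) → e g = a (e f) := by
  have hbij : Function.Bijective (fun m : M => WithConv.toConv (IsOrder.evPt H m)) := by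
    constructor
    · intro m m' hmm
      exact IsOrder.evPt_injective hsep (congrArg WithConv.ofConv hmm)
    · intro χ
      obtain ⟨m, hm⟩ := hH.evPt_surjective hsep χ.ofConv
      exact ⟨m, by simp only [hm, WithConv.toConv_ofConv]⟩
  refine ⟨H, H.toCommRing, hH.hopfAlgebra, hH.good.finite, ?_, hH.isCocomm,
    (Equiv.ofBijective _ hbij).symm, ?_, ?_⟩
  · haveI := hH.good.free
    infer_instance
  · intro f g
    rw [Equiv.symm_apply_eq]
    have h1 := hH.evPt_add ((Equiv.ofBijective _ hbij).symm f) ((Equiv.ofBijective _ hbij).symm g)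
    have hf : WithConv.toConv (IsOrder.evPt H ((Equiv.ofBijective _ hbij).symm f)) = f :=
      (Equiv.ofBijective _ hbij).apply_symm_apply f
    have hg : WithConv.toConv (IsOrder.evPt H ((Equiv.ofBijective _ hbij).symm g)) = g :=
      (Equiv.ofBijective _ hbij).apply_symm_apply g
    rw [hf, hg] at h1
    exact h1
  · intro τ a ha f g hfg
    rw [Equiv.symm_apply_eq]
    have hf : WithConv.toConv (IsOrder.evPt H ((Equiv.ofBijective _ hbij).symm f)) = f :=
      (Equiv.ofBijective _ hbij).apply_symm_apply f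
    apply WithConv.ext
    apply AlgHom.ext
    intro h
    have h1 : g.ofConv h = τ (f.ofConv h) := hfg h
    rw [h1]
    have h2 : f.ofConv h = (h : M → K) ((Equiv.ofBijective _ hbij).symm f) := by
      conv_lhs => rw [← hf]
      rfl
    rw [h2, ← ha h h.2]
    rfl

end Fermat.Agent.S19.H19

end

end
-- ===== PACK-END S19/H19/Points.lean

-- ===== PACK-BEGIN S19/H19/Anti.lean
section
/-
A3 / S19, helper19 — piece ORD, part 5: the antipode is automatic on a finite group.
Mathlib only.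
-/


set_option autoImplicit false
set_option linter.unusedSectionVars false

noncomputable section

namespace Fermat.Agent.S19.H19

open scoped BigOperators TensorProduct

variable {R : Type} [CommRing R] {K : Type} [Field K] [Algebra R K]
variable {M : Type} [AddCommGroup M]

theorem nsmul_mem_of_comul_mem (H : Subalgebra R (M → K))
    (hcomul : ∀ f ∈ H, (fun p : M × M => f (p.1 + p.2)) ∈ (prodMap H.val H.val).range)
    (hcounit : ∀ f ∈ H, f 0 ∈ (Algebra.ofId R K).range) (k : ℕ) :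
    ∀ f ∈ H, (fun m : M => f (k • m)) ∈ H := by
  induction k with
  | zero =>
    intro f hf
    obtain ⟨r, hr⟩ := hcounit f hf
    have : (fun m : M => f (0 • m)) = algebraMap R (M → K) r := by
      funext m
      rw [zero_smul, ← hr]
      rfl
    rw [this]
    exact H.algebraMap_mem r
  | succ k ih =>
    intro f hf
    obtain ⟨x, hx⟩ := hcomul f hf
    replace hx : prodMap H.val H.val x = fun p : M × M => f (p.1 + p.2) := hx
    have key : ∀ y : H ⊗[R] H, (fun m : M => prodMap H.val H.val y (k • m, m)) ∈ H := by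
      intro y
      induction y using TensorProduct.induction_on with
      | zero =>
        simp only [map_zero, Pi.zero_apply]
        exact H.zero_mem
      | tmul a b =>
        have h1 : (fun m : M => prodMap H.val H.val (a ⊗ₜ[R] b) (k • m, m)) =
            (fun m : M => (a : M → K) (k • m)) * (b : M → K) := by
          funext m
          rw [prodMap_tmul]
          rfl
        rw [h1]
        exact H.mul_mem (ih _ a.2) b.2
      | add y z hy hz =>
        have h1 : (fun m : M => prodMap H.val H.val (y + z) (k • m, m)) =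
            (fun m : M => prodMap H.val H.val y (k • m, m)) +
              (fun m : M => prodMap H.val H.val z (k • m, m)) := by
          funext m
          rw [map_add]
          rfl
        rw [h1]
        exact H.add_mem hy hz
    have h2 : (fun m : M => f ((k + 1) • m)) = fun m : M => prodMap H.val H.val x (k • m, m) := by
      funext m
      rw [hx, succ_nsmul]
    rw [h2]
    exact key x

theorem neg_mem_of_comul_mem [Finite M] (H : Subalgebra R (M → K))
    (hcomul : ∀ f ∈ H, (fun p : M × M => f (p.1 + p.2)) ∈ (prodMap H.val H.val).range)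
    (hcounit : ∀ f ∈ H, f 0 ∈ (Algebra.ofId R K).range) :
    ∀ f ∈ H, (fun m : M => f (-m)) ∈ H := by
  intro f hf
  have hpos : 0 < Nat.card M := Nat.card_pos
  have h1 : ∀ m : M, -m = (Nat.card M - 1) • m := by
    intro m
    have h2 : (Nat.card M - 1) • m + m = 0 := by
      rw [← succ_nsmul, Nat.sub_add_cancel hpos]
      exact card_nsmul_eq_zero'
    exact (eq_neg_of_add_eq_zero_left h2).symm
  have h3 : (fun m : M => f (-m)) = fun m : M => f ((Nat.card M - 1) • m) := by
    funext m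
    rw [h1]
  rw [h3]
  exact nsmul_mem_of_comul_mem H hcomul hcounit _ f hf

end Fermat.Agent.S19.H19

end

end
-- ===== PACK-END S19/H19/Anti.lean

-- ===== PACK-BEGIN S19/H19/Equivariant.lean
section
/-
A3 / S19, helper19 — piece ORD, part 6: Galois-equivariant orders over a subring of `ℚ`.

`R ⊂ ℚ` a principal ideal ring which is integrally closed in `ℚ`; `M` a finite abelian group with
an action of `G_ℚ` fixing `0`; `H ⊂ (M → ℚ̄)` a finitely generated `R`-subalgebra of equivariant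
functions, separating points, with `f(s+t) ∈ im (H ⊗ H)`.  Then `H` is a finite flat commutative
cocommutative Hopf algebra over `R` with `H(ℚ̄) = M`, Galois-equivariantly.  Mathlib only.
-/



set_option autoImplicit false
set_option linter.unusedSectionVars false
set_option linter.style.haveILetI false

noncomputable section

namespace Fermat.Agent.S19.H19

open scoped BigOperators TensorProduct

variable (R : Subring ℚ)

theorem algebraMap_subring_injective : Function.Injective (algebraMap R _root_.Fermat.Agent.S19.H19.Qb) := by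
  have h1 : (algebraMap R _root_.Fermat.Agent.S19.H19.Qb : R → _root_.Fermat.Agent.S19.H19.Qb) = (algebraMap ℚ _root_.Fermat.Agent.S19.H19.Qb) ∘ (Subtype.val : R → ℚ) := by
    funext x
    rfl
  rw [h1]
  exact (algebraMap ℚ _root_.Fermat.Agent.S19.H19.Qb).injective.comp Subtype.val_injective

theorem mem_range_of_fixed_of_isIntegral (hR : ∀ q : ℚ, IsIntegral R q → q ∈ R) (x : _root_.Fermat.Agent.S19.H19.Qb)
    (hfix : ∀ σ : _root_.Fermat.Agent.S19.H19.GalQ, σ x = x) (hint : IsIntegral R x) : x ∈ (Algebra.ofId R _root_.Fermat.Agent.S19.H19.Qb).range := by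
  obtain ⟨q, hq⟩ := exists_rat_of_fixed x hfix
  have h1 : IsIntegral R q := by
    rw [← hq] at hint
    exact (isIntegral_algebraMap_iff (algebraMap ℚ _root_.Fermat.Agent.S19.H19.Qb).injective).mp hint
  exact ⟨⟨q, hR q h1⟩, hq⟩

variable {M : Type}

section Good

variable {act : _root_.Fermat.Agent.S19.H19.GalQ → M → M}

theorem isTorsionFree_subalgebra (H : Subalgebra R (M → _root_.Fermat.Agent.S19.H19.Qb)) : Module.IsTorsionFree R H := by
  rw [Module.isTorsionFree_iff_smul_eq_zero]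
  intro r f hrf
  by_cases hr : r = 0
  · exact Or.inl hr
  · right
    apply Subtype.ext
    funext m
    have h1 : (r • (f : M → _root_.Fermat.Agent.S19.H19.Qb)) m = 0 := by
      have := congrArg (fun g : H => (g : M → _root_.Fermat.Agent.S19.H19.Qb) m) hrf
      exact this
    rw [Pi.smul_apply, Algebra.smul_def, mul_eq_zero] at h1
    rcases h1 with h1 | h1
    · exact absurd (algebraMap_subring_injective R (h1.trans (map_zero _).symm)) hr
    · exact h1

theorem good_of_equivariant [IsPrincipalIdealRing R]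
    (hone : ∀ m, act 1 m = m) (hact : ∀ σ τ m, act σ (act τ m) = act (σ * τ) m)
    (H : Subalgebra R (M → _root_.Fermat.Agent.S19.H19.Qb)) (hequiv : ∀ f ∈ H, IsEquivariant act f)
    (hfg : (Subalgebra.toSubmodule H).FG) : Good H.val := by
  haveI : Module.Finite R H := Module.Finite.iff_fg.mpr hfg
  haveI : Module.IsTorsionFree R H := isTorsionFree_subalgebra R H
  haveI : Module.Free R H := Module.free_of_finite_type_torsion_free'
  let b := Module.Free.chooseBasis R H
  refine ⟨Module.Free.ChooseBasisIndex R H, inferInstance, b, ?_⟩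
  apply linearIndependent_of_equivariant hone hact
  · intro i
    exact hequiv _ (b i).2
  · -- `ℚ`-linear independence
    have h1 : LinearIndependent R (fun i => H.val (b i)) :=
      b.linearIndependent.map' H.val.toLinearMap (LinearMap.ker_eq_bot.mpr Subtype.val_injective)
    have h2 : LinearIndependent ℤ (fun i => H.val (b i)) := by
      refine LinearIndependent.restrict_scalars (K := R) ?_ h1
      intro x y hxy
      simp only [zsmul_eq_mul, mul_one] at hxy
      exact_mod_cast hxy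
    exact LinearIndependent.localization ℚ (nonZeroDivisors ℤ) h2

end Good

section Main

variable [AddCommGroup M] [Finite M] {act : _root_.Fermat.Agent.S19.H19.GalQ → M → M}

theorem counit_mem_of_equivariant (hR : ∀ q : ℚ, IsIntegral R q → q ∈ R)
    (hzero : ∀ σ, act σ 0 = 0)
    (H : Subalgebra R (M → _root_.Fermat.Agent.S19.H19.Qb)) (hequiv : ∀ f ∈ H, IsEquivariant act f)
    (hfg : (Subalgebra.toSubmodule H).FG) :
    ∀ f ∈ H, f 0 ∈ (Algebra.ofId R _root_.Fermat.Agent.S19.H19.Qb).range := by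
  intro f hf
  haveI : Module.Finite R H := Module.Finite.iff_fg.mpr hfg
  apply mem_range_of_fixed_of_isIntegral R hR
  · intro σ
    rw [← hequiv f hf σ 0, hzero]
  · have h1 : IsIntegral R (⟨f, hf⟩ : H) := Algebra.IsIntegral.isIntegral _
    exact h1.map (IsOrder.evPt H 0)

/-- A finitely generated, equivariant subalgebra closed under `f ↦ f(s+t)` is an order. -/
theorem isOrder_of_equivariant [IsPrincipalIdealRing R]
    (hR : ∀ q : ℚ, IsIntegral R q → q ∈ R)
    (hone : ∀ m, act 1 m = m) (hact : ∀ σ τ m, act σ (act τ m) = act (σ * τ) m)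
    (hzero : ∀ σ, act σ 0 = 0)
    (H : Subalgebra R (M → _root_.Fermat.Agent.S19.H19.Qb)) (hequiv : ∀ f ∈ H, IsEquivariant act f)
    (hfg : (Subalgebra.toSubmodule H).FG)
    (hcomul : ∀ f ∈ H, (fun p : M × M => f (p.1 + p.2)) ∈ (prodMap H.val H.val).range) :
    IsOrder H where
  alg_inj := algebraMap_subring_injective R
  good := good_of_equivariant R hone hact H hequiv hfg
  comul_mem := hcomul
  counit_mem := counit_mem_of_equivariant R hR hzero H hequiv hfg
  anti_mem := neg_mem_of_comul_mem H hcomul (counit_mem_of_equivariant R hR hzero H hequiv hfg)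

/-- **Piece ORD, Galois form.** -/
theorem exists_hopf_of_equivariant_order [IsPrincipalIdealRing R]
    (hR : ∀ q : ℚ, IsIntegral R q → q ∈ R)
    (hone : ∀ m, act 1 m = m) (hact : ∀ σ τ m, act σ (act τ m) = act (σ * τ) m)
    (hzero : ∀ σ, act σ 0 = 0)
    (H : Subalgebra R (M → _root_.Fermat.Agent.S19.H19.Qb)) (hequiv : ∀ f ∈ H, IsEquivariant act f)
    (hfg : (Subalgebra.toSubmodule H).FG)
    (hsep : ∀ m m' : M, m ≠ m' → ∃ f ∈ H, f m ≠ f m')
    (hcomul : ∀ f ∈ H, (fun p : M × M => f (p.1 + p.2)) ∈ (prodMap H.val H.val).range) :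
    ∃ (H' : Type) (_ : CommRing H') (_ : HopfAlgebra R H'),
      Module.Finite R H' ∧ Module.Flat R H' ∧ Coalgebra.IsCocomm R H' ∧
      ∃ e : WithConv (H' →ₐ[R] _root_.Fermat.Agent.S19.H19.Qb) ≃ M, (∀ f g, e (f * g) = e f + e g) ∧
        ∀ (σ : _root_.Fermat.Agent.S19.H19.GalQ) (f g : WithConv (H' →ₐ[R] _root_.Fermat.Agent.S19.H19.Qb)),
          (∀ h : H', g h = σ (f h)) → e g = act σ (e f) := by
  obtain ⟨H', i1, i2, h1, h2, h3, e, he1, he2⟩ := exists_hopf_of_isOrder
    (isOrder_of_equivariant R hR hone hact hzero H hequiv hfg hcomul) hsep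
  exact ⟨H', i1, i2, h1, h2, h3, e, he1, fun σ f g hfg =>
    he2 σ (act σ) (fun h hh m => hequiv h hh σ m) f g hfg⟩

end Main

end Fermat.Agent.S19.H19

end

end
-- ===== PACK-END S19/H19/Equivariant.lean

-- ===== PACK-BEGIN S14/H937/GalLift.lean
section



/-!
# S14, LOCAL-I / LOCAL-D (helper937): lifting from `Gal(M/K)` to `Gal(ℚ̄/K)`

`K ⊆ M ⊆ ℚ̄`, `M/K` finite Galois, `A` a valuation subring of `ℚ̄`.  An element of the inertia
(resp. decomposition) group of the prime of `𝓞 M` below `A` lifts to an element of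
`Gal(ℚ̄/K)` acting trivially modulo (resp. stabilising) the prime of `ℤ̄` below `A`.
-/

set_option autoImplicit false
set_option linter.style.haveILetI false

open NumberField
open scoped Pointwise

namespace Fermat.Agent.S14.H937

theorem isGalois_Qb_over (K : IntermediateField ℚ Qb) : IsGalois K Qb :=
  haveI := Fermat.Agent.S54.isGalois_algebraicClosure_rat
  IsGalois.tower_top_of_isGalois ℚ K Qb

/-- `Gal(ℚ̄/K)` acts continuously on the discrete ring of all algebraic integers. -/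
theorem continuousSMul_over (K : IntermediateField ℚ Qb) :
    letI : TopologicalSpace (integralClosure ℤ Qb) := ⊥
    ContinuousSMul (Qb ≃ₐ[K] Qb) (integralClosure ℤ Qb) := by
  letI : TopologicalSpace (integralClosure ℤ Qb) := ⊥
  haveI : DiscreteTopology (integralClosure ℤ Qb) := ⟨rfl⟩
  haveI := isGalois_Qb_over K
  refine ⟨?_⟩
  rw [continuous_prod_of_discrete_right]
  intro b
  rw [continuous_discrete_rng]
  intro c
  rw [isOpen_iff_mem_nhds]
  intro g hg
  let E : IntermediateField K Qb := IntermediateField.adjoin K {(b : Qb)}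
  haveI : FiniteDimensional K E :=
    IntermediateField.adjoin.finiteDimensional (Algebra.IsIntegral.isIntegral _)
  have hopen : IsOpen ((g • (E.fixingSubgroup : Set (Qb ≃ₐ[K] Qb)))) :=
    (E.fixingSubgroup_isOpen).smul g
  refine Filter.mem_of_superset (hopen.mem_nhds ⟨1, one_mem _, by simp⟩) ?_
  rintro _ ⟨h, hh, rfl⟩
  simp only [Set.mem_preimage, Set.mem_singleton_iff] at hg ⊢
  rw [← hg]
  apply Subtype.ext
  have hb : h (b : Qb) = b := by
    have := (IntermediateField.mem_fixingSubgroup_iff E h).mp hh b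
      (IntermediateField.subset_adjoin K _ (Set.mem_singleton _))
    exact this
  show (g * h) (b : Qb) = g (b : Qb)
  rw [AlgEquiv.mul_apply, hb]

section

variable (K : IntermediateField ℚ Qb)
variable (M : IntermediateField K Qb) [FiniteDimensional K M] [IsGalois K M]
variable (A : ValuationSubring Qb)

omit [FiniteDimensional K M] [IsGalois K M] in
/-- An algebraic integer fixed by `Gal(ℚ̄/M)` comes from `𝓞 M`. -/
theorem exists_integer_of_fixed (x : integralClosure ℤ Qb)
    (hx : ∀ n ∈ (M.fixingSubgroup : Subgroup (Qb ≃ₐ[K] Qb)), n • x = x) :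
    ∃ y : 𝓞 M, toZbar M y = x := by
  haveI := isGalois_Qb_over K
  have hxM : (x : Qb) ∈ M := by
    rw [← InfiniteGalois.fixedField_fixingSubgroup M, IntermediateField.mem_fixedField_iff]
    intro f hf
    exact congrArg Subtype.val (hx f hf)
  have hxint : IsIntegral ℤ (⟨(x : Qb), hxM⟩ : M) := by
    have h1 : IsIntegral ℤ (x : Qb) := x.2
    exact (isIntegral_algebraMap_iff (A := M) (B := Qb)
      (FaithfulSMul.algebraMap_injective M Qb)).mp h1
  exact ⟨⟨⟨(x : Qb), hxM⟩, hxint⟩, Subtype.ext rfl⟩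

theorem exists_lift_inertia (τ : M ≃ₐ[K] M) (hτ : ∀ x : 𝓞 M, τ • x - x ∈ primeOf M A) :
    ∃ σ : Qb ≃ₐ[K] Qb, (∀ x : M, σ (x : Qb) = ((τ x : M) : Qb)) ∧
      ∀ x : Qb, IsIntegral ℤ x → σ x - x ∈ A.nonunits := by
  haveI := isGalois_Qb_over K
  haveI hQ := Fermat.Agent.S54.primeBelow_isPrime A
  obtain ⟨g₀, hg₀⟩ := AlgEquiv.restrictNormalHom_surjective (F := K) (K₁ := M) Qb τ
  have hg₀M : ∀ x : M, g₀ (x : Qb) = ((τ x : M) : Qb) := by
    intro x
    rw [← hg₀]
    exact (AlgEquiv.restrictNormal_commutes g₀ M x).symm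
  have h₀ : ∀ x : integralClosure ℤ Qb,
      (∀ n ∈ (M.fixingSubgroup : Subgroup (Qb ≃ₐ[K] Qb)), n • x = x) →
        g₀ • x - x ∈ Fermat.Agent.S54.primeBelow A := by
    intro x hx
    obtain ⟨y, rfl⟩ := exists_integer_of_fixed K M x hx
    have h2 := hτ y
    rw [mem_primeOf] at h2
    rw [Fermat.Agent.S54.mem_primeBelow]
    have h4 : ((g₀ • toZbar M y - toZbar M y : integralClosure ℤ Qb) : Qb) =
        g₀ ((y : M) : Qb) - ((y : M) : Qb) := rfl
    rw [h4, hg₀M]
    exact h2
  letI : TopologicalSpace (integralClosure ℤ Qb) := ⊥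
  haveI : DiscreteTopology (integralClosure ℤ Qb) := ⟨rfl⟩
  haveI := continuousSMul_over K
  have hclosed : IsClosed ((M.fixingSubgroup : Subgroup (Qb ≃ₐ[K] Qb)) : Set (Qb ≃ₐ[K] Qb)) :=
    IntermediateField.fixingSubgroup_isClosed M
  obtain ⟨σ, hσN, hσ⟩ := Fermat.Agent.S13.H175.exists_inertia_lift
    (G := Qb ≃ₐ[K] Qb) (M.fixingSubgroup) hclosed (Fermat.Agent.S54.primeBelow A) g₀ h₀
  refine ⟨σ, fun x => ?_, fun x hx => hσ ⟨x, hx⟩⟩
  have h1 := (IntermediateField.mem_fixingSubgroup_iff M _).mp hσN x x.2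
  rw [AlgEquiv.mul_apply] at h1
  have h2 : σ (x : Qb) = g₀ (x : Qb) := by
    have := congrArg g₀ h1
    simpa using this
  rw [h2, hg₀M]

theorem exists_lift_decomp (τ : M ≃ₐ[K] M)
    (hτ : ∀ x : 𝓞 M, τ • x ∈ primeOf M A ↔ x ∈ primeOf M A) :
    ∃ σ : Qb ≃ₐ[K] Qb, (∀ x : M, σ (x : Qb) = ((τ x : M) : Qb)) ∧
      ∀ x : Qb, IsIntegral ℤ x → (σ x ∈ A.nonunits ↔ x ∈ A.nonunits) := by
  haveI := isGalois_Qb_over K
  haveI hQ := Fermat.Agent.S54.primeBelow_isPrime A
  obtain ⟨g₀, hg₀⟩ := AlgEquiv.restrictNormalHom_surjective (F := K) (K₁ := M) Qb τ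
  have hg₀M : ∀ x : M, g₀ (x : Qb) = ((τ x : M) : Qb) := by
    intro x
    rw [← hg₀]
    exact (AlgEquiv.restrictNormal_commutes g₀ M x).symm
  have h₀ : ∀ x : integralClosure ℤ Qb,
      (∀ n ∈ (M.fixingSubgroup : Subgroup (Qb ≃ₐ[K] Qb)), n • x = x) →
        (g₀ • x ∈ Fermat.Agent.S54.primeBelow A ↔ x ∈ Fermat.Agent.S54.primeBelow A) := by
    intro x hx
    obtain ⟨y, rfl⟩ := exists_integer_of_fixed K M x hx
    have h2 := hτ y
    rw [mem_primeOf, mem_primeOf] at h2
    rw [Fermat.Agent.S54.mem_primeBelow, Fermat.Agent.S54.mem_primeBelow]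
    have h4 : ((g₀ • toZbar M y : integralClosure ℤ Qb) : Qb) = g₀ ((y : M) : Qb) := rfl
    rw [h4, hg₀M]
    exact h2
  letI : TopologicalSpace (integralClosure ℤ Qb) := ⊥
  haveI : DiscreteTopology (integralClosure ℤ Qb) := ⟨rfl⟩
  haveI := continuousSMul_over K
  have hclosed : IsClosed ((M.fixingSubgroup : Subgroup (Qb ≃ₐ[K] Qb)) : Set (Qb ≃ₐ[K] Qb)) :=
    IntermediateField.fixingSubgroup_isClosed M
  obtain ⟨σ, hσN, hσ⟩ := exists_stabilizer_lift
    (G := Qb ≃ₐ[K] Qb) (M.fixingSubgroup) hclosed (Fermat.Agent.S54.primeBelow A) g₀ h₀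
  refine ⟨σ, fun x => ?_, fun x hx => ?_⟩
  · have h1 := (IntermediateField.mem_fixingSubgroup_iff M _).mp hσN x x.2
    rw [AlgEquiv.mul_apply] at h1
    have h2 : σ (x : Qb) = g₀ (x : Qb) := by
      have := congrArg g₀ h1
      simpa using this
    rw [h2, hg₀M]
  · have h2 : (σ • (⟨x, hx⟩ : integralClosure ℤ Qb)) ∈ Fermat.Agent.S54.primeBelow A ↔
        (⟨x, hx⟩ : integralClosure ℤ Qb) ∈ Fermat.Agent.S54.primeBelow A := by
      conv_lhs => rw [← hσ]
      exact Ideal.smul_mem_pointwise_smul_iff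
    exact h2

end

end Fermat.Agent.S14.H937

end
-- ===== PACK-END S14/H937/GalLift.lean

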