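import Mathlib
import Fermat.Prelude.Def_ModularCurve_ArithmeticGalois
import Fermat.Prelude.Def_FLTPrelim_Ramification
import Fermat.Prelude.Def_ModularCurve_HeckeModule
import Fermat.Prelude.Def_EllipticCurve_FrobeniusTrace
import Mathlib.NumberTheory.ModularForms.CuspFormSubmodule
import Mathlib.NumberTheory.Height.MvPolynomial
import Fermat.Prelude.Thm_ModularCurve_coeffMap_qExpand
import Fermat.Prelude.Def_AlgebraicCurve_Correspondence
import Fermat.Prelude.Def_ModularCurve_ReductionModL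
import Fermat.Prelude.Def_ModularCurve_PeriodMap
import Fermat.Prelude.Def_ModularCurve_PeriodHomPair
import Fermat.Prelude.Def_ModularForm_HeckeOperatorForms
import Fermat.Prelude.Def_FreyPackage_LevelRaising
import Mathlib.AlgebraicGeometry.EllipticCurve.Affine.Point
import Mathlib.FieldTheory.IsAlgClosed.Basic
import Mathlib.LinearAlgebra.Matrix.NonsingularInverse
import Mathlib.LinearAlgebra.Matrix.Determinant.Basic
import Mathlib.RingTheory.LocalRing.ResidueField.Basic
import Fermat.Agent.Pack.S15.AE1L3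
import Fermat.Agent.Pack.S15.AE0L3
import Fermat.Agent.Pack.S15.AE0L2
import Fermat.Agent.Pack.S15.AE1L1
import Fermat.Agent.Pack.S15.AE1L0
import Fermat.Agent.Pack.S15.AE0L0
import Fermat.Agent.Pack.S15.AE1L2
import Fermat.Agent.Pack.S15.AE0L1

-- ===== PACK-BEGIN Lib/Red/H290/RedSlope.lean
section


/-!
# The slope reduces (S52 piece A1b, part 3)

If `P = (x₁, y₁)`, `Q = (x₂, y₂)` are integral points of `W` whose reductions `P̄`, `Q̄` satisfy
`P̄ ≠ -Q̄`, then the slope of the line through `P` and `Q` (tangent if `P = Q`) is integral and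
reduces to the slope of the line through `P̄`, `Q̄`.
-/

set_option autoImplicit false

namespace Fermat.Agent.Lib.Red.H290

open WeierstrassCurve WeierstrassCurve.Affine

variable {K : Type*} [Field K] [DecidableEq K] {κ : Type*} [Field κ] [DecidableEq κ]
variable {A : ValuationSubring K} {φ : A →+* κ} {W : Affine K} {Wκ : Affine κ}

omit [DecidableEq κ] in
/-- `y`-integrality of integral points. -/
lemma y_mem_of_x_mem (h : IsRedOf A φ W Wκ) {x y : K} (hxy : W.Equation x y) (hx : x ∈ A) :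
    y ∈ A :=
  mem_of_val_le (Fermat.Agent.S05.GoodRed.val_y_le_one h.integralCoeffs hxy (val_le_of_mem hx))

omit [DecidableEq K] [DecidableEq κ] in
/-- The secant numerator `g` with `(y₁ - y₂) (y₁ - negY x₂ y₂) = (x₁ - x₂) g`. -/
lemma secant_key {x₁ y₁ x₂ y₂ : K} (e₁ : W.Equation x₁ y₁) (e₂ : W.Equation x₂ y₂) :
    (y₁ - y₂) * (y₁ - W.negY x₂ y₂) =
      (x₁ - x₂) * (x₁ ^ 2 + x₁ * x₂ + x₂ ^ 2 + W.a₂ * (x₁ + x₂) + W.a₄ - W.a₁ * y₁) := by
  rw [Affine.equation_iff] at e₁ e₂
  simp only [Affine.negY]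
  linear_combination e₁ - e₂

omit [DecidableEq K] [DecidableEq κ] in
lemma rd_secantNum (h : IsRedOf A φ W Wκ) {x₁ y₁ x₂ : K} (hx₁ : x₁ ∈ A) (hy₁ : y₁ ∈ A)
    (hx₂ : x₂ ∈ A) :
    x₁ ^ 2 + x₁ * x₂ + x₂ ^ 2 + W.a₂ * (x₁ + x₂) + W.a₄ - W.a₁ * y₁ ∈ A ∧
    rd A φ (x₁ ^ 2 + x₁ * x₂ + x₂ ^ 2 + W.a₂ * (x₁ + x₂) + W.a₄ - W.a₁ * y₁) =
      rd A φ x₁ ^ 2 + rd A φ x₁ * rd A φ x₂ + rd A φ x₂ ^ 2 +
        Wκ.a₂ * (rd A φ x₁ + rd A φ x₂) + Wκ.a₄ - Wκ.a₁ * rd A φ y₁ := by
  obtain ⟨c₁, c₂, c₃, c₄, c₆, e₁, e₂, e₃, e₄, e₆, f₁, f₂, f₃, f₄, f₆⟩ := h.exists_lift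
  lift x₁ to A using hx₁
  lift y₁ to A using hy₁
  lift x₂ to A using hx₂
  simp only [← e₁, ← e₂, ← e₄, ← f₁, ← f₂, ← f₄]
  have : ((x₁ : K) ^ 2 + x₁ * x₂ + x₂ ^ 2 + c₂ * (x₁ + x₂) + c₄ - c₁ * y₁) =
      ((x₁ ^ 2 + x₁ * x₂ + x₂ ^ 2 + c₂ * (x₁ + x₂) + c₄ - c₁ * y₁ : A) : K) := by
    push_cast; rfl
  rw [this, rd_coe, rd_coe, rd_coe, rd_coe]
  refine ⟨Subtype.mem _, ?_⟩
  simp only [map_sub, map_add, map_mul, map_pow]

/-- **The slope reduces.** -/
theorem slope_mem_and_rd (h : IsRedOf A φ W Wκ) (hφ : KerMax A φ) {x₁ y₁ x₂ y₂ : K}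
    (hx₁ : x₁ ∈ A) (hx₂ : x₂ ∈ A) (e₁ : W.Equation x₁ y₁) (e₂ : W.Equation x₂ y₂)
    (hne : ¬(rd A φ x₁ = rd A φ x₂ ∧ rd A φ y₁ = Wκ.negY (rd A φ x₂) (rd A φ y₂))) :
    W.slope x₁ x₂ y₁ y₂ ∈ A ∧
      rd A φ (W.slope x₁ x₂ y₁ y₂) =
        Wκ.slope (rd A φ x₁) (rd A φ x₂) (rd A φ y₁) (rd A φ y₂) := by
  have hy₁ : y₁ ∈ A := y_mem_of_x_mem h e₁ hx₁
  have hy₂ : y₂ ∈ A := y_mem_of_x_mem h e₂ hx₂
  by_cases hxb : rd A φ x₁ = rd A φ x₂
  · -- same reduced `x`
    have hyb : rd A φ y₁ ≠ Wκ.negY (rd A φ x₂) (rd A φ y₂) := fun hy => hne ⟨hxb, hy⟩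
    have eb₁ := rd_equation h hx₁ hy₁ e₁
    have eb₂ := rd_equation h hx₂ hy₂ e₂
    have hyy : rd A φ y₁ = rd A φ y₂ := Affine.Y_eq_of_Y_ne eb₁ eb₂ hxb hyb
    -- the unit denominator
    have hnA : y₁ - W.negY x₂ y₂ ∈ A := A.sub_mem hy₁ (negY_mem h hx₂ hy₂)
    have hnrd : rd A φ (y₁ - W.negY x₂ y₂) =
        rd A φ y₁ - Wκ.negY (rd A φ x₁) (rd A φ y₁) := by
      rw [rd_sub hy₁ (negY_mem h hx₂ hy₂), rd_negY h hx₂ hy₂, ← hxb, ← hyy]
    have hnne : rd A φ (y₁ - W.negY x₂ y₂) ≠ 0 := by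
      rw [rd_sub hy₁ (negY_mem h hx₂ hy₂), rd_negY h hx₂ hy₂]
      exact sub_ne_zero.mpr hyb
    have hnv : A.valuation (y₁ - W.negY x₂ y₂) = 1 := (rd_ne_zero_iff hφ hnA).mp hnne
    have hn0 : y₁ - W.negY x₂ y₂ ≠ 0 := by
      intro h0; rw [h0, map_zero] at hnv; exact zero_ne_one hnv
    rw [Affine.slope_of_Y_ne hxb hyb]
    by_cases hxx : x₁ = x₂
    · subst hxx
      have hyK : y₁ ≠ W.negY x₁ y₂ := by
        intro hy
        apply hyb
        rw [hy, rd_negY h hx₁ hy₂]
      have hy12 : y₁ = y₂ := Affine.Y_eq_of_Y_ne e₁ e₂ rfl hyK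
      subst hy12
      rw [Affine.slope_of_Y_ne rfl hyK]
      obtain ⟨hgA, hgrd⟩ := rd_slopeNum h hx₁ hy₁
      refine ⟨div_mem_of_val_eq_one hgA hnv, ?_⟩
      rw [rd_div hgA hnv, hgrd, hnrd]
    · rw [Affine.slope_of_X_ne hxx]
      obtain ⟨hgA, hgrd⟩ := rd_secantNum h hx₁ hy₁ hx₂
      have key := secant_key e₁ e₂
      have hd0 : x₁ - x₂ ≠ 0 := sub_ne_zero.mpr hxx
      have hsl : (y₁ - y₂) / (x₁ - x₂) =
          (x₁ ^ 2 + x₁ * x₂ + x₂ ^ 2 + W.a₂ * (x₁ + x₂) + W.a₄ - W.a₁ * y₁) /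
            (y₁ - W.negY x₂ y₂) := by
        rw [div_eq_div_iff hd0 hn0, key]; ring
      rw [hsl]
      refine ⟨div_mem_of_val_eq_one hgA hnv, ?_⟩
      rw [rd_div hgA hnv, hgrd, hnrd, ← hxb]
      congr 1
      ring
  · -- distinct reduced `x`
    have hdA : x₁ - x₂ ∈ A := A.sub_mem hx₁ hx₂
    have hdne : rd A φ (x₁ - x₂) ≠ 0 := by
      rw [rd_sub hx₁ hx₂]; exact sub_ne_zero.mpr hxb
    have hdv : A.valuation (x₁ - x₂) = 1 := (rd_ne_zero_iff hφ hdA).mp hdne
    have hxx : x₁ ≠ x₂ := by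
      rintro rfl; exact hxb rfl
    rw [Affine.slope_of_X_ne hxx, Affine.slope_of_X_ne hxb]
    refine ⟨div_mem_of_val_eq_one (A.sub_mem hy₁ hy₂) hdv, ?_⟩
    rw [rd_div (A.sub_mem hy₁ hy₂) hdv, rd_sub hy₁ hy₂, rd_sub hx₁ hx₂]

end Fermat.Agent.Lib.Red.H290

end
-- ===== PACK-END Lib/Red/H290/RedSlope.lean

-- ===== PACK-BEGIN Lib/Red/H290/RedKer.lean
section




/-!
# The kernel of reduction is a subgroup (S52 piece A1b, part 4)

For any valuation `v` on `K` and any Weierstrass curve `W` over `K` with `v`-integral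
coefficients (no hypothesis on the discriminant, no hypothesis on the residue characteristic),
`E₁ = {O} ∪ {(x, y) : 1 < v x}` (`Fermat.Agent.S05.SameRed.InKer`) is closed under negation and
addition.
-/

set_option autoImplicit false

namespace Fermat.Agent.Lib.Red.H290

open WeierstrassCurve WeierstrassCurve.Affine
open Fermat.Agent.S05.SameRed
open Fermat.Agent.S05 (XId.add_sub_some XId.add_self_some)

variable {K : Type*} [Field K] {Γ₀ : Type*} [LinearOrderedCommGroupWithZero Γ₀]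
  {v : Valuation K Γ₀}

/-- Roots of `z² - σ z + π` with `σ, π` in the maximal ideal lie in the maximal ideal. -/
lemma val_lt_one_of_sum_prod {z w : K} (hs : v (z + w) < 1) (hp : v (z * w) < 1) : v z < 1 := by
  by_contra hz
  have hz1 : 1 ≤ v z := not_lt.mp hz
  have hz0 : 0 < v z := lt_of_lt_of_le zero_lt_one hz1
  have e : z ^ 2 = (z + w) * z + -(z * w) := by ring
  have h1 : v ((z + w) * z) < v z := by
    rw [map_mul]
    calc v (z + w) * v z < 1 * v z := mul_lt_mul_of_pos_right hs hz0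
      _ = v z := one_mul _
  have h2 : v (-(z * w)) < v z := by
    rw [Valuation.map_neg]; exact lt_of_lt_of_le hp hz1
  have h3 : v (z ^ 2) < v z := by
    rw [e]; exact v.map_add_lt h1 h2
  have h4 : v z ≤ v (z ^ 2) := by
    rw [map_pow, pow_two]
    exact le_mul_of_one_le_right' hz1
  exact absurd (lt_of_le_of_lt h4 h3) (lt_irrefl _)

lemma val_inv_lt_one {x : K} (hx : 1 < v x) : v x⁻¹ < 1 := by
  rw [map_inv₀]; exact inv_lt_one_of_one_lt₀ hx

lemma ne_zero_of_one_lt_val {x : K} (hx : 1 < v x) : x ≠ 0 := by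
  rintro rfl
  rw [map_zero] at hx
  exact not_lt_zero hx

lemma one_lt_val_of_inv_lt_one {x : K} (hx0 : x ≠ 0) (hx : v x⁻¹ < 1) : 1 < v x := by
  rw [map_inv₀] at hx
  have hpos : 0 < v x := (Valuation.pos_iff v).mpr hx0
  exact (inv_lt_one₀ hpos).mp hx

variable [DecidableEq K] {W : Affine K}

omit [DecidableEq K] in
lemma inKer_neg {P : W.Point} (hP : InKer W v P) : InKer W v (-P) := by
  rcases P with _ | ⟨x, y, hxy⟩
  · exact hP
  · exact hP

omit [DecidableEq K] in
private lemma v_b (hW : IntegralCoeffs W v) :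
    v W.b₂ ≤ 1 ∧ v W.b₄ ≤ 1 ∧ v W.b₆ ≤ 1 ∧ v W.b₈ ≤ 1 :=
  have h := Fermat.Agent.S05.C1b.isIntegralAt_of_integralCoeffs hW
  ⟨Fermat.Agent.S05.FG.v_b₂ h, Fermat.Agent.S05.FG.v_b₄ h, Fermat.Agent.S05.FG.v_b₆ h,
    Fermat.Agent.S05.FG.v_b₈ h⟩

/-- Chord case of the subgroup property. -/
lemma one_lt_val_of_sum_prod (hW : IntegralCoeffs W v) {x₁ x₂ x₃ x₄ : K} (hx₁ : 1 < v x₁)
    (hx₂ : 1 < v x₂)
    (hsum : (x₁ - x₂) ^ 2 * (x₃ + x₄) = Fermat.Agent.S05.XId.sumNum W x₁ x₂)
    (hprod : (x₁ - x₂) ^ 2 * (x₃ * x₄) = Fermat.Agent.S05.XId.prodNum W x₁ x₂) :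
    1 < v x₃ := by
  obtain ⟨hb2, hb4, hb6, hb8⟩ := v_b hW
  have h10 := ne_zero_of_one_lt_val hx₁
  have h20 := ne_zero_of_one_lt_val hx₂
  have hsv : v x₁⁻¹ < 1 := val_inv_lt_one hx₁
  have htv : v x₂⁻¹ < 1 := val_inv_lt_one hx₂
  obtain ⟨s, hs0, rfl⟩ : ∃ s : K, s ≠ 0 ∧ x₁ = s⁻¹ := ⟨x₁⁻¹, inv_ne_zero h10, (inv_inv _).symm⟩
  obtain ⟨t, ht0, rfl⟩ : ∃ t : K, t ≠ 0 ∧ x₂ = t⁻¹ := ⟨x₂⁻¹, inv_ne_zero h20, (inv_inv _).symm⟩
  rw [inv_inv] at hsv htv
  have h2 : v (2 : K) ≤ 1 := by
    have := val_natCast_le_one (v := v) 2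
    simpa using this
  have hst : v (s * t) < 1 := val_mul_lt_one_left hsv htv.le
  have hspt : v (s + t) < 1 := val_add_lt_one hsv htv
  set V : K := 1 - W.b₄ * (s * t) - W.b₆ * ((s * t) * (s + t)) - W.b₈ * (s * t) ^ 2 with hV
  set U : K := 2 * (s + t) + W.b₂ * (s * t) + W.b₄ * ((s * t) * (s + t)) + W.b₆ * (s * t) ^ 2
    with hU
  have hUv : v U < 1 := by
    refine val_add_lt_one (val_add_lt_one (val_add_lt_one ?_ ?_) ?_) ?_
    · exact val_mul_lt_one_right h2 hspt
    · exact val_mul_lt_one_right hb2 hst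
    · exact val_mul_lt_one_right hb4 (val_mul_lt_one_left hst hspt.le)
    · exact val_mul_lt_one_right hb6 (by rw [pow_two]; exact val_mul_lt_one_left hst hst.le)
  have hVv : v V = 1 := by
    have hrest : v (V - 1) < 1 := by
      have : V - 1 = -(W.b₄ * (s * t)) + -(W.b₆ * ((s * t) * (s + t))) +
          -(W.b₈ * (s * t) ^ 2) := by
        simp only [hV]; ring
      rw [this]
      refine val_add_lt_one (val_add_lt_one ?_ ?_) ?_
      · rw [Valuation.map_neg]; exact val_mul_lt_one_right hb4 hst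
      · rw [Valuation.map_neg]
        exact val_mul_lt_one_right hb6 (val_mul_lt_one_left hst hspt.le)
      · rw [Valuation.map_neg]
        exact val_mul_lt_one_right hb8 (by rw [pow_two]; exact val_mul_lt_one_left hst hst.le)
    have : V = 1 + (V - 1) := by ring
    rw [this, v.map_add_eq_of_lt_left (by rwa [map_one]), map_one]
  have hV0 : V ≠ 0 := by
    intro h0; rw [h0, map_zero] at hVv; exact zero_ne_one hVv
  -- the two identities in terms of `s`, `t`
  have hD : (s⁻¹ - t⁻¹) ^ 2 * (s * t) ^ 2 = (t - s) ^ 2 := by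
    field_simp
  have hU' : Fermat.Agent.S05.XId.sumNum W s⁻¹ t⁻¹ * (s * t) ^ 2 = U := by
    simp only [Fermat.Agent.S05.XId.sumNum, hU]
    field_simp
    ring
  have hV' : Fermat.Agent.S05.XId.prodNum W s⁻¹ t⁻¹ * (s * t) ^ 2 = V := by
    simp only [Fermat.Agent.S05.XId.prodNum, hV]
    field_simp
    ring
  have e1 : (t - s) ^ 2 * (x₃ + x₄) = U := by
    linear_combination (s * t) ^ 2 * hsum - (x₃ + x₄) * hD + hU'
  have e2 : (t - s) ^ 2 * (x₃ * x₄) = V := by
    linear_combination (s * t) ^ 2 * hprod - (x₃ * x₄) * hD + hV'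
  have hts : v (t - s) < 1 := by
    have : t - s = t + -s := by ring
    rw [this]; exact val_add_lt_one htv (by rwa [Valuation.map_neg])
  have h34 : x₃ * x₄ ≠ 0 := by
    intro h0; rw [h0, mul_zero] at e2; exact hV0 e2.symm
  have h30 : x₃ ≠ 0 := left_ne_zero_of_mul h34
  have h40 : x₄ ≠ 0 := right_ne_zero_of_mul h34
  have hts0 : (t - s) ^ 2 ≠ 0 := by
    intro h0; rw [h0, zero_mul] at e2; exact hV0 e2.symm
  -- `z = 1/x₃`, `w = 1/x₄`
  have hzw : x₃⁻¹ * x₄⁻¹ = (t - s) ^ 2 / V := by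
    rw [eq_div_iff hV0, ← e2]; field_simp
  have hzpw : x₃⁻¹ + x₄⁻¹ = U / V := by
    rw [eq_div_iff hV0, ← e1, ← e2]; field_simp; ring
  have hp : v (x₃⁻¹ * x₄⁻¹) < 1 := by
    rw [hzw, map_div₀, hVv, div_one, map_pow, pow_two]
    exact lt_of_le_of_lt (mul_le_of_le_one_right' hts.le) hts
  have hsm : v (x₃⁻¹ + x₄⁻¹) < 1 := by
    rw [hzpw, map_div₀, hVv, div_one]; exact hUv
  exact one_lt_val_of_inv_lt_one h30 (val_lt_one_of_sum_prod hsm hp)

/-- Tangent case of the subgroup property. -/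
lemma one_lt_val_of_dbl (hW : IntegralCoeffs W v) {x x' : K} (hx : 1 < v x)
    (hdbl : x' * Fermat.Agent.S05.XId.dblDen W x = Fermat.Agent.S05.XId.dblNum W x) :
    1 < v x' := by
  obtain ⟨hb2, hb4, hb6, hb8⟩ := v_b hW
  have h0 := ne_zero_of_one_lt_val hx
  have hsv : v x⁻¹ < 1 := val_inv_lt_one hx
  obtain ⟨s, hs0, rfl⟩ : ∃ s : K, s ≠ 0 ∧ x = s⁻¹ := ⟨x⁻¹, inv_ne_zero h0, (inv_inv _).symm⟩
  rw [inv_inv] at hsv
  have h2 : v (2 : K) ≤ 1 := by
    have := val_natCast_le_one (v := v) 2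
    simpa using this
  have h4 : v (4 : K) ≤ 1 := by
    have := val_natCast_le_one (v := v) 4
    simpa using this
  have hsn : ∀ n : ℕ, 0 < n → v (s ^ n) < 1 := by
    intro n hn
    rw [map_pow]
    exact pow_lt_one₀ zero_le hsv hn.ne'
  set V : K := 1 - W.b₄ * s ^ 2 - 2 * W.b₆ * s ^ 3 - W.b₈ * s ^ 4 with hV
  set U : K := 4 * s + W.b₂ * s ^ 2 + 2 * W.b₄ * s ^ 3 + W.b₆ * s ^ 4 with hU
  have hUv : v U < 1 := by
    refine val_add_lt_one (val_add_lt_one (val_add_lt_one ?_ ?_) ?_) ?_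
    · exact val_mul_lt_one_right h4 hsv
    · exact val_mul_lt_one_right hb2 (hsn 2 (by norm_num))
    · exact val_mul_lt_one_right (val_mul_le_one h2 hb4) (hsn 3 (by norm_num))
    · exact val_mul_lt_one_right hb6 (hsn 4 (by norm_num))
  have hVv : v V = 1 := by
    have hrest : v (V - 1) < 1 := by
      have : V - 1 = -(W.b₄ * s ^ 2) + -(2 * W.b₆ * s ^ 3) + -(W.b₈ * s ^ 4) := by
        simp only [hV]; ring
      rw [this]
      refine val_add_lt_one (val_add_lt_one ?_ ?_) ?_
      · rw [Valuation.map_neg]; exact val_mul_lt_one_right hb4 (hsn 2 (by norm_num))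
      · rw [Valuation.map_neg]
        exact val_mul_lt_one_right (val_mul_le_one h2 hb6) (hsn 3 (by norm_num))
      · rw [Valuation.map_neg]; exact val_mul_lt_one_right hb8 (hsn 4 (by norm_num))
    have : V = 1 + (V - 1) := by ring
    rw [this, v.map_add_eq_of_lt_left (by rwa [map_one]), map_one]
  have hV0 : V ≠ 0 := by
    intro h0; rw [h0, map_zero] at hVv; exact zero_ne_one hVv
  have e : x' * U = V := by
    have e2 : Fermat.Agent.S05.XId.dblDen W s⁻¹ * s ^ 4 = U := by
      simp only [Fermat.Agent.S05.XId.dblDen, hU]; field_simp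
    have e3 : Fermat.Agent.S05.XId.dblNum W s⁻¹ * s ^ 4 = V := by
      simp only [Fermat.Agent.S05.XId.dblNum, hV]; field_simp
    rw [← e2, ← e3, ← hdbl]; ring
  have hx'0 : x' ≠ 0 := by
    intro h0; rw [h0, zero_mul] at e; exact hV0 e.symm
  have hU0 : U ≠ 0 := by
    intro h0; rw [h0, mul_zero] at e; exact hV0 e.symm
  apply one_lt_val_of_inv_lt_one hx'0
  have : x'⁻¹ = U / V := by
    rw [eq_div_iff hV0, ← e]; field_simp
  rw [this, map_div₀, hVv, div_one]
  exact hUv

/-- **`E₁` is closed under addition** (any valuation, any characteristic). -/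
theorem inKer_add (hW : IntegralCoeffs W v) {P Q : W.Point} (hP : InKer W v P)
    (hQ : InKer W v Q) : InKer W v (P + Q) := by
  rcases P with _ | ⟨x₁, y₁, h₁⟩
  · have : (Point.zero : W.Point) + Q = Q := zero_add Q
    rw [this]; exact hQ
  rcases Q with _ | ⟨x₂, y₂, h₂⟩
  · have : Point.some x₁ y₁ h₁ + (Point.zero : W.Point) = Point.some x₁ y₁ h₁ := add_zero _
    rw [this]; exact hP
  have hx₁ : 1 < v x₁ := hP
  have hx₂ : 1 < v x₂ := hQ
  by_cases hxx : x₁ = x₂
  · by_cases hyy : y₁ = W.negY x₂ y₂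
    · rw [Point.add_of_Y_eq hxx hyy]; exact inKer_zero
    · have hy12 : y₁ = y₂ := Affine.Y_eq_of_Y_ne h₁.1 h₂.1 hxx hyy
      subst hxx; subst hy12
      obtain ⟨x', y', h', hadd, hdbl, -⟩ := XId.add_self_some h₁ hyy
      rw [hadd]
      exact one_lt_val_of_dbl hW hx₁ hdbl
  · obtain ⟨x₃, y₃, x₄, y₄, h₃, h₄, hadd, -, hsum, hprod⟩ := XId.add_sub_some h₁ h₂ hxx
    rw [hadd]
    exact one_lt_val_of_sum_prod hW hx₁ hx₂ hsum hprod

theorem inKer_sub (hW : IntegralCoeffs W v) {P Q : W.Point} (hP : InKer W v P)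
    (hQ : InKer W v Q) : InKer W v (P - Q) := by
  rw [sub_eq_add_neg]; exact inKer_add hW hP (inKer_neg hQ)

end Fermat.Agent.Lib.Red.H290

end
-- ===== PACK-END Lib/Red/H290/RedKer.lean

-- ===== PACK-BEGIN Lib/Red/H290/RedHom.lean
section



/-!
# The reduction homomorphism for good reduction (row S52, piece GR = A1b; part 5)

`A : ValuationSubring K`, `φ : A →+* κ` with kernel the maximal ideal, `W` a Weierstrass curve
over `K` with coefficients in `A` reducing to `Wκ` with `Wκ.Δ ≠ 0`.  Then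

* `red : W.Point → Wκ.Point`, `(x, y) ↦ (φ x, φ y)` on integral points, `↦ 0` on `E₁`;
* `red_add` : `red` is additive; `redHom` is the bundled `AddMonoidHom`;
* `red_eq_zero_iff` : the kernel of `red` is `E₁` (`InKer`);
* `red_injOn_torsion` : `red` is injective on points killed by an integer `n` that is a unit
  of `A`.
-/

set_option autoImplicit false

namespace Fermat.Agent.Lib.Red.H290

open WeierstrassCurve WeierstrassCurve.Affine
open Fermat.Agent.S05.SameRed (IntegralCoeffs InKer inKer_zero inKer_some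
  inKer_sub_of_same_reduction)

variable {K : Type*} [Field K] [DecidableEq K] {κ : Type*} [Field κ] [DecidableEq κ]
variable {A : ValuationSubring K} {φ : A →+* κ} {W : Affine K} {Wκ : Affine κ}

omit [DecidableEq κ] in
/-- With good reduction, the reduction of an integral point is a nonsingular point. -/
lemma rd_nonsingular (h : IsRedOf A φ W Wκ) (hΔ : Wκ.Δ ≠ 0) {x y : K} (hx : x ∈ A)
    (hxy : W.Equation x y) : Wκ.Nonsingular (rd A φ x) (rd A φ y) :=
  (Affine.equation_iff_nonsingular_of_Δ_ne_zero hΔ).mp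
    (rd_equation h hx (y_mem_of_x_mem h hxy hx) hxy)

/-- The reduction map on points. -/
noncomputable def red (h : IsRedOf A φ W Wκ) (hΔ : Wκ.Δ ≠ 0) : W.Point → Wκ.Point
  | .zero => 0
  | .some x y hxy =>
    open Classical in
    if hx : x ∈ A then Point.some (rd A φ x) (rd A φ y) (rd_nonsingular h hΔ hx hxy.1) else 0

section

variable (h : IsRedOf A φ W Wκ) (hΔ : Wκ.Δ ≠ 0)

omit [DecidableEq κ] in
@[simp] lemma red_zero : red h hΔ 0 = 0 := rfl

omit [DecidableEq κ] in
lemma red_some_of_mem {x y : K} (hxy : W.Nonsingular x y) (hx : x ∈ A) :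
    red h hΔ (Point.some x y hxy) =
      Point.some (rd A φ x) (rd A φ y) (rd_nonsingular h hΔ hx hxy.1) := by
  simp only [red, hx, dite_true]

omit [DecidableEq κ] in
lemma red_some_of_not_mem {x y : K} (hxy : W.Nonsingular x y) (hx : x ∉ A) :
    red h hΔ (Point.some x y hxy) = 0 := by
  simp only [red, hx, dite_false]

omit [DecidableEq K] [DecidableEq κ] in
lemma not_mem_iff_one_lt {x : K} : x ∉ A ↔ 1 < A.valuation x := by
  rw [← A.valuation_le_one_iff, not_le]

omit [DecidableEq κ] in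
/-- The kernel of reduction is `E₁`. -/
theorem red_eq_zero_iff (P : W.Point) : red h hΔ P = 0 ↔ InKer W A.valuation P := by
  rcases P with _ | ⟨x, y, hxy⟩
  · exact ⟨fun _ => trivial, fun _ => rfl⟩
  · by_cases hx : x ∈ A
    · rw [red_some_of_mem h hΔ hxy hx]
      constructor
      · intro h0; exact absurd h0 (Point.some_ne_zero _)
      · intro hk
        exact absurd hx (not_mem_iff_one_lt.mpr hk)
    · rw [red_some_of_not_mem h hΔ hxy hx]
      exact ⟨fun _ => not_mem_iff_one_lt.mp hx, fun _ => rfl⟩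

theorem red_neg (P : W.Point) : red h hΔ (-P) = -red h hΔ P := by
  rcases P with _ | ⟨x, y, hxy⟩
  · rfl
  · rw [Point.neg_some]
    by_cases hx : x ∈ A
    · rw [red_some_of_mem h hΔ _ hx, red_some_of_mem h hΔ hxy hx, Point.neg_some]
      have hy := y_mem_of_x_mem h hxy.1 hx
      congr 1
      exact rd_negY h hx hy
    · rw [red_some_of_not_mem h hΔ _ hx, red_some_of_not_mem h hΔ hxy hx, neg_zero]

end

section add

variable (h : IsRedOf A φ W Wκ) (hφ : KerMax A φ) (hΔ : Wκ.Δ ≠ 0)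
include hφ

/-- Additivity on integral points. -/
theorem red_add_of_mem {x₁ y₁ x₂ y₂ : K} (h₁ : W.Nonsingular x₁ y₁) (h₂ : W.Nonsingular x₂ y₂)
    (hx₁ : x₁ ∈ A) (hx₂ : x₂ ∈ A) :
    red h hΔ (Point.some x₁ y₁ h₁ + Point.some x₂ y₂ h₂) =
      red h hΔ (Point.some x₁ y₁ h₁) + red h hΔ (Point.some x₂ y₂ h₂) := by
  have hy₁ : y₁ ∈ A := y_mem_of_x_mem h h₁.1 hx₁
  have hy₂ : y₂ ∈ A := y_mem_of_x_mem h h₂.1 hx₂
  rw [red_some_of_mem h hΔ h₁ hx₁, red_some_of_mem h hΔ h₂ hx₂]
  by_cases hb : rd A φ x₁ = rd A φ x₂ ∧ rd A φ y₁ = Wκ.negY (rd A φ x₂) (rd A φ y₂)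
  · -- the reductions are opposite: the sum lies in `E₁`
    rw [Point.add_of_Y_eq hb.1 hb.2, red_eq_zero_iff]
    have h₂' : W.Nonsingular x₂ (W.negY x₂ y₂) := (Affine.nonsingular_neg ..).mpr h₂
    have hn₂ : W.negY x₂ y₂ ∈ A := negY_mem h hx₂ hy₂
    have hx : A.valuation (x₁ - x₂) < 1 := (rd_eq_iff hφ hx₁ hx₂).mp hb.1
    have hy : A.valuation (y₁ - W.negY x₂ y₂) < 1 := by
      rw [← rd_eq_iff hφ hy₁ hn₂, rd_negY h hx₂ hy₂]; exact hb.2
    have hns : A.valuation (W.a₁ * y₁ - (3 * x₁ ^ 2 + 2 * W.a₂ * x₁ + W.a₄)) = 1 ∨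
        A.valuation (2 * y₁ + W.a₁ * x₁ + W.a₃) = 1 := by
      have hN := rd_nonsingular h hΔ hx₁ h₁.1
      rw [Affine.nonsingular_iff'] at hN
      rcases hN.2 with hN | hN
      · left
        obtain ⟨hgA, hgrd⟩ := rd_slopeNum h hx₁ hy₁
        have hm : W.a₁ * y₁ - (3 * x₁ ^ 2 + 2 * W.a₂ * x₁ + W.a₄) ∈ A := by
          have : W.a₁ * y₁ - (3 * x₁ ^ 2 + 2 * W.a₂ * x₁ + W.a₄) =
              -(3 * x₁ ^ 2 + 2 * W.a₂ * x₁ + W.a₄ - W.a₁ * y₁) := by ring
          rw [this]; exact A.neg_mem _ hgA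
        refine (rd_ne_zero_iff hφ hm).mp ?_
        have : W.a₁ * y₁ - (3 * x₁ ^ 2 + 2 * W.a₂ * x₁ + W.a₄) =
            -(3 * x₁ ^ 2 + 2 * W.a₂ * x₁ + W.a₄ - W.a₁ * y₁) := by ring
        rw [this, rd_neg hgA, hgrd]
        intro h0
        apply hN
        linear_combination h0
      · right
        have hm : 2 * y₁ + W.a₁ * x₁ + W.a₃ ∈ A := by
          have : 2 * y₁ + W.a₁ * x₁ + W.a₃ = y₁ - W.negY x₁ y₁ := by
            simp only [Affine.negY]; ring
          rw [this]; exact A.sub_mem hy₁ (negY_mem h hx₁ hy₁)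
        refine (rd_ne_zero_iff hφ hm).mp ?_
        have : 2 * y₁ + W.a₁ * x₁ + W.a₃ = y₁ - W.negY x₁ y₁ := by
          simp only [Affine.negY]; ring
        rw [this, rd_sub hy₁ (negY_mem h hx₁ hy₁), rd_negY h hx₁ hy₁]
        intro h0
        apply hN
        simp only [Affine.negY] at h0
        linear_combination h0
    have key := inKer_sub_of_same_reduction h.integralCoeffs h₁ h₂' (val_le_of_mem hx₁)
      (val_le_of_mem hy₁) (val_le_of_mem hx₂) (val_le_of_mem hn₂) hx hy hns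
    have e : Point.some x₁ y₁ h₁ - Point.some x₂ (W.negY x₂ y₂) h₂' =
        Point.some x₁ y₁ h₁ + Point.some x₂ y₂ h₂ := by
      rw [sub_eq_add_neg, Point.neg_some]
      congr 2
      exact Affine.negY_negY ..
    rwa [e] at key
  · -- generic case: the slope reduces
    have hK : ¬(x₁ = x₂ ∧ y₁ = W.negY x₂ y₂) := by
      rintro ⟨rfl, rfl⟩
      exact hb ⟨rfl, rd_negY h hx₂ hy₂⟩
    obtain ⟨hℓA, hℓrd⟩ := slope_mem_and_rd h hφ hx₁ hx₂ h₁.1 h₂.1 hb
    rw [Point.add_some hK, Point.add_some hb,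
      red_some_of_mem h hΔ _ (addX_mem h hx₁ hx₂ hℓA)]
    congr 1
    · rw [rd_addX h hx₁ hx₂ hℓA, hℓrd]
    · rw [rd_addY h hx₁ hx₂ hy₁ hℓA, hℓrd]

/-- Additivity when the first point lies in `E₁` and the second is integral. -/
theorem red_add_of_inKer_of_mem {P : W.Point} (hP : InKer W A.valuation P) {x₂ y₂ : K}
    (h₂ : W.Nonsingular x₂ y₂) (hx₂ : x₂ ∈ A) :
    red h hΔ (P + Point.some x₂ y₂ h₂) = red h hΔ (Point.some x₂ y₂ h₂) := by
  have hQ : ¬ InKer W A.valuation (Point.some x₂ y₂ h₂) := fun hk =>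
    absurd hx₂ (not_mem_iff_one_lt.mpr hk)
  -- `R = P + Q` is not in `E₁`
  have hR : ¬ InKer W A.valuation (P + Point.some x₂ y₂ h₂) := by
    intro hk
    apply hQ
    have := inKer_sub h.integralCoeffs hk hP
    rwa [add_sub_cancel_left] at this
  rcases hPQ : P + Point.some x₂ y₂ h₂ with _ | ⟨x₃, y₃, h₃⟩
  · rw [hPQ] at hR; exact absurd trivial hR
  · rw [hPQ] at hR
    have hx₃ : x₃ ∈ A := by
      by_contra hx; exact hR (not_mem_iff_one_lt.mp hx)
    -- `red (R - Q) = red R - red Q` and `R - Q = P ∈ E₁`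
    have h₂' : W.Nonsingular x₂ (W.negY x₂ y₂) := (Affine.nonsingular_neg ..).mpr h₂
    have hadd := red_add_of_mem h hφ hΔ h₃ h₂' hx₃ hx₂
    have e : Point.some x₃ y₃ h₃ + Point.some x₂ (W.negY x₂ y₂) h₂' = P := by
      rw [← hPQ, ← Point.neg_some h₂, add_neg_cancel_right]
    rw [e, (red_eq_zero_iff h hΔ P).mpr hP, ← Point.neg_some h₂, red_neg] at hadd
    exact (add_neg_eq_zero.mp hadd.symm)

/-- **The reduction map is additive.** -/
theorem red_add (P Q : W.Point) : red h hΔ (P + Q) = red h hΔ P + red h hΔ Q := by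
  rcases hP : P with _ | ⟨x₁, y₁, h₁⟩
  · have : (Point.zero : W.Point) + Q = Q := zero_add Q
    rw [this]
    exact (zero_add _).symm
  rcases hQ : Q with _ | ⟨x₂, y₂, h₂⟩
  · have : Point.some x₁ y₁ h₁ + (Point.zero : W.Point) = Point.some x₁ y₁ h₁ := add_zero _
    rw [this]
    exact (add_zero _).symm
  by_cases hx₁ : x₁ ∈ A
  · by_cases hx₂ : x₂ ∈ A
    · exact red_add_of_mem h hφ hΔ h₁ h₂ hx₁ hx₂
    · have hk : InKer W A.valuation (Point.some x₂ y₂ h₂) := not_mem_iff_one_lt.mp hx₂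
      rw [add_comm, red_add_of_inKer_of_mem h hφ hΔ hk h₁ hx₁,
        (red_eq_zero_iff h hΔ _).mpr hk, add_zero]
  · have hk₁ : InKer W A.valuation (Point.some x₁ y₁ h₁) := not_mem_iff_one_lt.mp hx₁
    by_cases hx₂ : x₂ ∈ A
    · rw [red_add_of_inKer_of_mem h hφ hΔ hk₁ h₂ hx₂,
        (red_eq_zero_iff h hΔ _).mpr hk₁, zero_add]
    · have hk₂ : InKer W A.valuation (Point.some x₂ y₂ h₂) := not_mem_iff_one_lt.mp hx₂
      rw [(red_eq_zero_iff h hΔ _).mpr hk₁, (red_eq_zero_iff h hΔ _).mpr hk₂,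
        (red_eq_zero_iff h hΔ _).mpr (inKer_add h.integralCoeffs hk₁ hk₂), add_zero]

/-- The reduction homomorphism. -/
noncomputable def redHom : W.Point →+ Wκ.Point where
  toFun := red h hΔ
  map_zero' := rfl
  map_add' := red_add h hφ hΔ

@[simp] lemma redHom_apply (P : W.Point) : redHom h hφ hΔ P = red h hΔ P := rfl

omit [DecidableEq κ] hφ in
/-- The reduction map is injective on `n`-torsion for `n` a unit of `A`. -/
theorem eq_zero_of_red_eq_zero_of_nsmul (n : ℕ) (hn : A.valuation (n : K) = 1) (P : W.Point)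
    (hP : n • P = 0) (hr : red h hΔ P = 0) : P = 0 :=
  Fermat.Agent.S05.C1b.eq_zero_of_inKer_of_nsmul_eq_zero h.integralCoeffs n hn P
    ((red_eq_zero_iff h hΔ P).mp hr) hP

theorem eq_of_red_eq_of_nsmul (n : ℕ) (hn : A.valuation (n : K) = 1) (P Q : W.Point)
    (hP : n • P = 0) (hQ : n • Q = 0) (hr : red h hΔ P = red h hΔ Q) : P = Q := by
  have h1 : red h hΔ (P - Q) = 0 := by
    have := (redHom h hφ hΔ).map_sub P Q
    simp only [redHom_apply] at this
    rw [this, hr, sub_self]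
  have h2 : n • (P - Q) = 0 := by rw [smul_sub, hP, hQ, sub_zero]
  exact sub_eq_zero.mp (eq_zero_of_red_eq_zero_of_nsmul h hΔ n hn _ h2 h1)

end add

end Fermat.Agent.Lib.Red.H290

end
-- ===== PACK-END Lib/Red/H290/RedHom.lean

-- ===== PACK-BEGIN S24/H117/Integral.lean
section




/-!
# S24 / H117 — integrality at all places over `t = 0` from the embeddings

Key lemma for LT2: if `F / E` (`E ⊆ K(t)`) has degree `#X` and `L : LocalData K F C X t`, then an
element `f : F` whose images under all the embeddings `L.σ x` have non-negative order has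
non-negative order at **every** place `v` of `F` with `0 < v.ord t`.
-/

set_option autoImplicit false
set_option linter.style.haveILetI false

noncomputable section

open AlgebraicCurve Polynomial IntermediateField

namespace Fermat.Agent.S24.H117

variable {K F : Type*} [Field K] [Field F] [Algebra K F]
variable {C : Type*} [Field C] {X : Type*}
variable {t : F} (L : LocalData K F C X t)

theorem σ_aeval_eq (x y : X) (p : K[X]) : L.σ x (aeval t p) = L.σ y (aeval t p) := by
  rw [aeval_eq_sum_range]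
  simp only [map_sum, Algebra.smul_def, map_mul, map_pow, L.σ_const, L.σ_t_eq x y]

/-- All the embeddings of a `LocalData` agree on `K(t)`. -/
theorem σ_eq_of_mem_adjoin (x y : X) {e : F} (he : e ∈ K⟮t⟯) : L.σ x e = L.σ y e := by
  obtain ⟨r, s, rfl⟩ := (mem_adjoin_simple_iff K e).mp he
  rw [map_div₀, map_div₀, σ_aeval_eq L x y r, σ_aeval_eq L x y s]

variable [CharZero K]

/-- **Integrality lemma.** -/
theorem ord_nonneg_of_forall_order_nonneg
    (E : IntermediateField K F) (hE : E ≤ K⟮t⟯) [FiniteDimensional E F]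
    (hrank : Module.finrank E F = Nat.card X)
    (f : F) (hf : ∀ x, 0 ≤ ((L.σ x) f).order)
    (v : Place K F) (hv : 0 < v.ord t) : 0 ≤ v.ord f := by
  classical
  have hXne : Nonempty X := by
    have h0 : 0 < Nat.card X := hrank ▸ Module.finrank_pos
    exact (Nat.card_pos_iff.mp h0).1
  obtain ⟨x₀⟩ := hXne
  have : CharZero E := charZero_of_injective_algebraMap (algebraMap K E).injective
  let σ₀ : E →+* LaurentSeries C := (L.σ x₀).comp (algebraMap E F)
  letI algELS : Algebra E (LaurentSeries C) := σ₀.toAlgebra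
  -- the embeddings as `E`-algebra homomorphisms into the algebraic closure
  let τ : X → (F →ₐ[E] AlgebraicClosure (LaurentSeries C)) := fun x =>
    { toRingHom := (algebraMap (LaurentSeries C) (AlgebraicClosure (LaurentSeries C))).comp (L.σ x)
      commutes' := fun e => by
        show algebraMap (LaurentSeries C) (AlgebraicClosure (LaurentSeries C)) (L.σ x (e : F))
          = algebraMap (LaurentSeries C) (AlgebraicClosure (LaurentSeries C)) (L.σ x₀ (e : F))
        rw [σ_eq_of_mem_adjoin L x x₀ (hE e.2)] }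
  have hτapply : ∀ x g, τ x g
      = algebraMap (LaurentSeries C) (AlgebraicClosure (LaurentSeries C)) (L.σ x g) :=
    fun _ _ => rfl
  have hτinj : Function.Injective τ := by
    intro x y hxy
    apply L.σ_inj
    ext g : 1
    have := DFunLike.congr_fun hxy g
    rw [hτapply, hτapply] at this
    exact (algebraMap (LaurentSeries C) (AlgebraicClosure (LaurentSeries C))).injective this
  have hcard : Nat.card (F →ₐ[E] AlgebraicClosure (LaurentSeries C)) = Nat.card X := by
    rw [← hrank, ← Fintype.card_eq_nat_card]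
    exact AlgHom.card E F (AlgebraicClosure (LaurentSeries C))
  have hτsurj : Function.Surjective τ :=
    ((Nat.bijective_iff_injective_and_card τ).mpr ⟨hτinj, hcard.symm⟩).2
  -- the minimal polynomial of `f`
  have hfint : IsIntegral E f := Algebra.IsIntegral.isIntegral f
  have hPmonic : (minpoly E f).Monic := minpoly.monic hfint
  -- coefficients of the minimal polynomial are integral at `x₀`
  have hcoeff : ∀ i, 0 ≤ ((L.σ x₀) (((minpoly E f).coeff i : E) : F)).order := by
    intro i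
    have hint : IsIntegral (OL C)
        (((minpoly E f).map (algebraMap E (AlgebraicClosure (LaurentSeries C)))).coeff i) := by
      refine Polynomial.isIntegral_coeff_of_factors _ ?_ (IsAlgClosed.splits _) ?_ i
      · rw [(hPmonic.map _).leadingCoeff]
        exact isIntegral_one
      · intro r hr
        have hr' : r ∈ (minpoly E f).rootSet (AlgebraicClosure (LaurentSeries C)) := by
          rw [mem_rootSet']
          refine ⟨(hPmonic.map _).ne_zero, ?_⟩
          rw [IsRoot, eval_map_algebraMap] at hr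
          exact hr
        rw [← Algebra.IsAlgebraic.range_eval_eq_rootSet_minpoly] at hr'
        obtain ⟨ψ, rfl⟩ := hr'
        obtain ⟨x, rfl⟩ := hτsurj ψ
        show IsIntegral (OL C) (τ x f)
        rw [hτapply]
        have : algebraMap (LaurentSeries C) (AlgebraicClosure (LaurentSeries C)) (L.σ x f)
            = algebraMap (OL C) (AlgebraicClosure (LaurentSeries C)) ⟨L.σ x f, hf x⟩ := rfl
        rw [this]
        exact isIntegral_algebraMap
    rw [coeff_map] at hint
    have h2 : IsIntegral (OL C) (σ₀ ((minpoly E f).coeff i)) := by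
      have : algebraMap E (AlgebraicClosure (LaurentSeries C)) ((minpoly E f).coeff i)
          = algebraMap (LaurentSeries C) (AlgebraicClosure (LaurentSeries C))
            (σ₀ ((minpoly E f).coeff i)) := rfl
      rw [this] at hint
      exact (isIntegral_algebraMap_iff
        (algebraMap (LaurentSeries C) (AlgebraicClosure (LaurentSeries C))).injective).mp hint
    obtain ⟨y, hy⟩ := IsIntegrallyClosed.isIntegral_iff.mp h2
    have : σ₀ ((minpoly E f).coeff i) ∈ OL C := hy ▸ y.2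
    exact this
  -- transfer to `v`
  have hcoeffv : ∀ i, (((minpoly E f).coeff i : E) : F) ∈ v.toValuationSubring := fun i =>
    mem_of_ord_nonneg v (ord_nonneg_of_mem_adjoin (hE ((minpoly E f).coeff i).2) hv
      (ord_t_pos L x₀) ((ord_placeOf_nonneg_iff L x₀ _).mpr (hcoeff i)))
  -- `f` is integral over `O_v`
  have hint : IsIntegral v.toValuationSubring f := by
    have hlifts : (minpoly E f).map (algebraMap E F)
        ∈ Polynomial.lifts (algebraMap v.toValuationSubring F) := by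
      rw [lifts_iff_coeff_lifts]
      intro n
      rw [coeff_map]
      exact ⟨⟨_, hcoeffv n⟩, rfl⟩
    obtain ⟨q, hq, -, hqm⟩ := lifts_and_natDegree_eq_and_monic hlifts (hPmonic.map _)
    refine ⟨q, hqm, ?_⟩
    rw [← eval_map, hq, eval_map_algebraMap]
    exact minpoly.aeval E f
  obtain ⟨y, hy⟩ := IsIntegrallyClosed.isIntegral_iff.mp hint
  exact ord_nonneg_of_mem v (hy ▸ y.2)

end Fermat.Agent.S24.H117

end
end
-- ===== PACK-END S24/H117/Integral.lean

-- ===== PACK-BEGIN S24/H117/LocalThm.lean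
section




/-!
# S24 / H117 — the local theorem (LT2, LT3)

For `L : LocalData K F C X t` with `[F : E] = #X` (`E ⊆ K(t)`):

* `exists_placeOf_eq` (LT2): every place `v` of `F/K` with `0 < v.ord t` is induced by one of
  the embeddings `L.σ x`;
* `localThm` (LT3): if moreover `#X ≤ ∑_{v | t} v.ord t`, then the places over `t = 0`
  correspond bijectively to the cycles of `L.perm`, and `v.ord t` is the length of the cycle.
-/

set_option autoImplicit false
set_option linter.style.haveILetI false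

noncomputable section

open AlgebraicCurve IntermediateField

namespace Fermat.Agent.S24.H117

variable {K F : Type*} [Field K] [Field F] [Algebra K F] [CharZero K]
variable {C : Type*} [Field C] {X : Type*} [Finite X]
variable {t : F} (L : LocalData K F C X t)

omit [CharZero K] [Finite X] in
theorem order_leadingCoeff_iterate (x : X) (f : F) (i : ℕ) :
    (L.σ ((L.perm ^ i) x) f).order = (L.σ x f).order ∧
      (L.σ ((L.perm ^ i) x) f).leadingCoeff
        = (L.ζ ^ (L.σ x f).order) ^ i * (L.σ x f).leadingCoeff := by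
  induction i with
  | zero => simp
  | succ n ih =>
    rw [pow_succ', Equiv.Perm.mul_apply]
    refine ⟨by rw [L.σ_perm_order, ih.1], ?_⟩
    rw [L.σ_perm_leadingCoeff, ih.1, ih.2, pow_succ]
    ring

omit [CharZero K] [Finite X] in
/-- The ramification index `e = ord_v t` divides every period of `x` under `perm`. -/
theorem ord_t_dvd_of_pow_apply_eq (x : X) (i : ℕ) (hi : (L.perm ^ i) x = x) :
    (placeOf L x).ord t ∣ (i : ℤ) := by
  obtain ⟨π, hπ0, hπ⟩ := exists_ord_eq_one (placeOf L x)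
  have hord : (L.σ x π).order = mult L x := by rw [order_eq, hπ, mul_one]
  have hlc : (L.σ x π).leadingCoeff ≠ 0 :=
    HahnSeries.leadingCoeff_ne_zero.mpr ((map_ne_zero (L.σ x)).mpr hπ0)
  have h := (order_leadingCoeff_iterate L x π i).2
  rw [hi, hord, zpow_natCast] at h
  have h1 : (L.ζ ^ mult L x) ^ i = 1 := by
    have : (L.ζ ^ mult L x) ^ i * (L.σ x π).leadingCoeff = 1 * (L.σ x π).leadingCoeff := by
      rw [one_mul]; exact h.symm
    exact mul_right_cancel₀ hlc this
  rw [← pow_mul] at h1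
  have h2 : L.m ∣ mult L x * i := (L.hζ.pow_eq_one_iff_dvd _).mp h1
  have h3 : ((mult L x : ℤ) * (placeOf L x).ord t) ∣ (mult L x : ℤ) * i := by
    rw [mult_mul_ord_t]
    exact_mod_cast h2
  have hk : (mult L x : ℤ) ≠ 0 := by exact_mod_cast (mult_pos L x).ne'
  exact (mul_dvd_mul_iff_left hk).mp h3

variable (E : IntermediateField K F) (hE : E ≤ K⟮t⟯) [FiniteDimensional E F]
  (hrank : Module.finrank E F = Nat.card X)

include hE hrank in
/-- **LT2.** Every place over `t = 0` is induced by one of the embeddings. -/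
theorem exists_placeOf_eq (v : Place K F) (hv : 0 < v.ord t) : ∃ x, placeOf L x = v := by
  classical
  by_contra hcon
  push Not at hcon
  haveI : Fintype X := Fintype.ofFinite X
  have hvs : v ∉ Finset.univ.image (placeOf L) := by
    intro h
    obtain ⟨x, -, hx⟩ := Finset.mem_image.mp h
    exact hcon x hx
  obtain ⟨f, hf1, hf2⟩ := exists_ord_neg_forall_pos v _ hvs
  have hf3 : ∀ x, 0 ≤ ((L.σ x) f).order := fun x =>
    (ord_placeOf_nonneg_iff L x f).mp
      (hf2 _ (Finset.mem_image_of_mem _ (Finset.mem_univ x))).le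
  have := ord_nonneg_of_forall_order_nonneg L E hE hrank f hf3 v hv
  omega

include hE hrank in
theorem mem_image_placeOf_iff [Fintype X] [DecidableEq (Place K F)] (v : Place K F) :
    v ∈ Finset.univ.image (placeOf L) ↔ 0 < v.ord t := by
  constructor
  · intro h
    obtain ⟨x, -, rfl⟩ := Finset.mem_image.mp h
    exact ord_t_pos L x
  · intro h
    obtain ⟨x, rfl⟩ := exists_placeOf_eq L E hE hrank v h
    exact Finset.mem_image_of_mem _ (Finset.mem_univ x)

include L hE hrank in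
/-- The set of places over `t = 0` is finite. -/
theorem finite_places_over : {v : Place K F | 0 < v.ord t}.Finite := by
  classical
  haveI : Fintype X := Fintype.ofFinite X
  refine (Finset.univ.image (placeOf L)).finite_toSet.subset ?_
  intro v hv
  exact (mem_image_placeOf_iff L E hE hrank v).mpr hv

include hE hrank in
/-- **LT3 (local theorem).**  Assume the fundamental inequality `#X ≤ ∑_{v | t} ord_v t`.
Then the places over `t = 0` are in bijection with the cycles of `perm`, the ramification index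
of the place induced by `x` is the length of the cycle through `x`, and
`∑_{v | t} ord_v t = #X`. -/
theorem localThm (s : Finset (Place K F)) (hs : ∀ v, v ∈ s ↔ 0 < v.ord t)
    (hsum : (Nat.card X : ℤ) ≤ ∑ v ∈ s, v.ord t) :
    s.card = numOrbits L.perm ∧
      (∀ x, (Nat.card (MulAction.orbit (Subgroup.zpowers L.perm) x) : ℤ) = (placeOf L x).ord t) ∧
      (∑ v ∈ s, v.ord t = Nat.card X) := by
  classical
  haveI : Fintype X := Fintype.ofFinite X
  have hs' : s = Finset.univ.image (placeOf L) := by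
    ext v
    rw [hs, mem_image_placeOf_iff L E hE hrank]
  subst hs'
  have hcast : ∀ v ∈ Finset.univ.image (placeOf L), (((v.ord t).toNat : ℕ) : ℤ) = v.ord t := by
    intro v hv
    exact Int.toNat_of_nonneg ((hs v).mp hv).le
  have hsumNat : Fintype.card X ≤ ∑ v ∈ Finset.univ.image (placeOf L), (v.ord t).toNat := by
    have : (Nat.card X : ℤ) ≤ ((∑ v ∈ Finset.univ.image (placeOf L), (v.ord t).toNat : ℕ) : ℤ) := by
      rw [Nat.cast_sum, Finset.sum_congr rfl hcast]
      exact hsum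
    rw [Nat.card_eq_fintype_card] at this
    exact_mod_cast this
  obtain ⟨h1, h2, h3⟩ := orbit_count_squeeze L.perm (placeOf L) (fun v => (v.ord t).toNat)
    (placeOf_perm L)
    (fun x i hi => by
      have := ord_t_dvd_of_pow_apply_eq L x i hi
      have hpos := ord_t_pos L x
      exact Int.natCast_dvd_natCast.mp (by rwa [Int.toNat_of_nonneg hpos.le]))
    hsumNat
  refine ⟨by rw [numOrbits, h1], fun x => ?_, ?_⟩
  · rw [h2 x]
    exact Int.toNat_of_nonneg (ord_t_pos L x).le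
  · have : ((∑ v ∈ Finset.univ.image (placeOf L), (v.ord t).toNat : ℕ) : ℤ) = Fintype.card X := by
      exact_mod_cast h3
    rw [Nat.cast_sum, Finset.sum_congr rfl hcast] at this
    rw [this, Nat.card_eq_fintype_card]

end Fermat.Agent.S24.H117

end
end
-- ===== PACK-END S24/H117/LocalThm.lean

-- ===== PACK-BEGIN S24/Mod/H997Local.lean
section


/-!
# S24 / MOD — construction of `LocalData` from an abstract expansion with rotation data
-/

set_option autoImplicit false

noncomputable section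

open ModularCurve HahnSeries UpperHalfPlane
open scoped MatrixGroups

namespace Fermat.Agent.S24.H997

/-! ### The "rotation relation" on Laurent series -/

/-- `b` has the same order as `a`, and leading coefficient `ζ ^ order * (leading coeff of a)`. -/
def RotRel (ζ : ℂ) (a b : LaurentSeries ℂ) : Prop :=
  b.order = a.order ∧ b.leadingCoeff = ζ ^ a.order * a.leadingCoeff

namespace RotRel

variable {ζ : ℂ} {a b a' b' : LaurentSeries ℂ}

theorem zero : RotRel ζ 0 0 := ⟨rfl, by simp⟩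

theorem eq_zero_iff (h : RotRel ζ a b) (hζ : ζ ≠ 0) : b = 0 ↔ a = 0 := by
  rw [← leadingCoeff_eq_zero (x := b), ← leadingCoeff_eq_zero (x := a), h.2]
  simp [zpow_ne_zero _ hζ]

theorem mul (hζ : ζ ≠ 0) (h : RotRel ζ a b) (h' : RotRel ζ a' b') :
    RotRel ζ (a * a') (b * b') := by
  by_cases ha : a = 0
  · have hb : b = 0 := (h.eq_zero_iff hζ).mpr ha
    simp only [ha, hb, zero_mul]; exact zero
  by_cases ha' : a' = 0
  · have hb' : b' = 0 := (h'.eq_zero_iff hζ).mpr ha'
    simp only [ha', hb', mul_zero]; exact zero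
  have hb : b ≠ 0 := fun hb => ha ((h.eq_zero_iff hζ).mp hb)
  have hb' : b' ≠ 0 := fun hb' => ha' ((h'.eq_zero_iff hζ).mp hb')
  have hab : a.leadingCoeff * a'.leadingCoeff ≠ 0 :=
    mul_ne_zero (leadingCoeff_ne_zero.mpr ha) (leadingCoeff_ne_zero.mpr ha')
  have hbb : b.leadingCoeff * b'.leadingCoeff ≠ 0 :=
    mul_ne_zero (leadingCoeff_ne_zero.mpr hb) (leadingCoeff_ne_zero.mpr hb')
  refine ⟨?_, ?_⟩
  · rw [order_mul_of_ne_zero hab, order_mul_of_ne_zero hbb, h.1, h'.1]
  · rw [leadingCoeff_mul, leadingCoeff_mul, order_mul_of_ne_zero hab, h.2, h'.2, zpow_add₀ hζ]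
    ring

theorem one : RotRel ζ 1 1 := ⟨rfl, by simp⟩

theorem order_inv' {x : LaurentSeries ℂ} (hx : x ≠ 0) : x⁻¹.order = -x.order := by
  have hxi : x⁻¹ ≠ 0 := inv_ne_zero hx
  have h : x.leadingCoeff * x⁻¹.leadingCoeff ≠ 0 :=
    mul_ne_zero (leadingCoeff_ne_zero.mpr hx) (leadingCoeff_ne_zero.mpr hxi)
  have := order_mul_of_ne_zero h
  rw [mul_inv_cancel₀ hx, order_one] at this
  omega

theorem leadingCoeff_inv' {x : LaurentSeries ℂ} (hx : x ≠ 0) :
    x⁻¹.leadingCoeff = (x.leadingCoeff)⁻¹ := by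
  have := leadingCoeff_mul x x⁻¹
  rw [mul_inv_cancel₀ hx, leadingCoeff_one] at this
  exact eq_inv_of_mul_eq_one_right this.symm

theorem inv (hζ : ζ ≠ 0) (h : RotRel ζ a b) : RotRel ζ a⁻¹ b⁻¹ := by
  by_cases ha : a = 0
  · have hb : b = 0 := (h.eq_zero_iff hζ).mpr ha
    simp only [ha, hb, inv_zero]; exact zero
  have hb : b ≠ 0 := fun hb => ha ((h.eq_zero_iff hζ).mp hb)
  refine ⟨?_, ?_⟩
  · rw [order_inv' hb, order_inv' ha, h.1]
  · rw [leadingCoeff_inv' hb, leadingCoeff_inv' ha, order_inv' ha, h.2, mul_inv, zpow_neg]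

theorem div (hζ : ζ ≠ 0) (h : RotRel ζ a b) (h' : RotRel ζ a' b') :
    RotRel ζ (a / a') (b / b') := by
  rw [div_eq_mul_inv, div_eq_mul_inv]
  exact h.mul hζ (h'.inv hζ)

end RotRel

variable {N : ℕ} [NeZero N]

/-- An abstract injective expansion ring hom on `Hol`. -/
structure Expansion (B : HolBase N) where
  E : B.Hol →+* LaurentSeries ℂ
  inj : Function.Injective E
  const : ∀ c : ℂ, E (B.constH c) = HahnSeries.C c

/-- Rotation data for an expansion: precomposition with `ε` rotates the local coordinate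
by the primitive `m`-th root of unity `ζ` (to first order). -/
structure RotData (B : HolBase N) (X : Expansion B) (ε : SL(2, ℤ)) where
  m : ℕ
  m_pos : 0 < m
  ζ : ℂ
  hζ : IsPrimitiveRoot ζ m
  rot : ∀ h : B.Hol, RotRel ζ (X.E h) (X.E (B.compH ε h))

namespace HolBase

variable (B : HolBase N) (X : Expansion B)

/-- the ring hom `R_N → ℂ((z))`, `r ↦ E (e r ∘ g⁻¹)` -/
def sG (g : SL(2, ℤ)) : RN N →+* LaurentSeries ℂ :=
  X.E.comp ((B.compH g⁻¹).comp B.bridge)

theorem sG_apply (g : SL(2, ℤ)) (r : RN N) :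
    B.sG X g r = X.E (B.compH g⁻¹ (B.bridge r)) := rfl

theorem sG_injective (g : SL(2, ℤ)) : Function.Injective (B.sG X g) :=
  X.inj.comp ((B.compH_injective g⁻¹).comp B.bridge_injective)

/-- the embedding `FF N → ℂ((z))` attached to `g` -/
def sigmaG (g : SL(2, ℤ)) : FF N →+* LaurentSeries ℂ :=
  liftF (B.sG X g) (B.sG_injective X g)

theorem sigmaG_inclRN (g : SL(2, ℤ)) (r : RN N) :
    B.sigmaG X g (inclRN N r) = X.E (B.compH g⁻¹ (B.bridge r)) :=
  liftF_inclRN _ _ r

theorem sigmaG_algebraMap (g : SL(2, ℤ)) (c : Kbar) :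
    B.sigmaG X g (algebraMap Kbar (FF N) c) = HahnSeries.C (ιK c) := by
  rw [sigmaG, liftF_algebraMap, sG_apply, bridge_algebraMap, compH_constH, X.const]

theorem sigmaG_jF (g : SL(2, ℤ)) :
    B.sigmaG X g (jF N) = X.E (B.JH 1 (one_dvd N)) := by
  rw [← inclRN_jR_one, sigmaG_inclRN, bridge_jR, compH_JH_one]

theorem sG_mul_of_mem (g : SL(2, ℤ)) {δ : SL(2, ℤ)} (hδ : δ ∈ CongruenceSubgroup.Gamma0 N) :
    B.sG X (g * δ) = B.sG X g := by
  ext1 r
  rw [sG_apply, sG_apply, mul_inv_rev, compH_mul,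
    B.compH_bridge_of_mem (inv_mem hδ)]

theorem sigmaG_mul_of_mem (g : SL(2, ℤ)) {δ : SL(2, ℤ)}
    (hδ : δ ∈ CongruenceSubgroup.Gamma0 N) : B.sigmaG X (g * δ) = B.sigmaG X g := by
  unfold sigmaG
  congr 1
  exact B.sG_mul_of_mem X g hδ

theorem sigmaG_eq_of_mk_eq {g g' : SL(2, ℤ)}
    (h : (g : XX N) = (g' : XX N)) : B.sigmaG X g = B.sigmaG X g' := by
  have hmem : g⁻¹ * g' ∈ CongruenceSubgroup.Gamma0 N := QuotientGroup.eq.mp h
  have := B.sigmaG_mul_of_mem X g hmem
  rw [mul_inv_cancel_left] at this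
  exact this.symm

/-- the embedding attached to a coset -/
def sigmaX (x : XX N) : FF N →+* LaurentSeries ℂ := B.sigmaG X (Quotient.out x)

theorem sigmaX_mk (g : SL(2, ℤ)) : B.sigmaX X (g : XX N) = B.sigmaG X g :=
  B.sigmaG_eq_of_mk_eq X (QuotientGroup.out_eq' _)

theorem sigmaX_injective : Function.Injective (B.sigmaX X) := by
  intro x y hxy
  obtain ⟨g, rfl⟩ := QuotientGroup.mk_surjective x
  obtain ⟨g', rfl⟩ := QuotientGroup.mk_surjective y
  rw [sigmaX_mk, sigmaX_mk] at hxy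
  have h1 := congrArg (fun s => s (inclRN N (jR N N dvd_rfl))) hxy
  simp only [sigmaG_inclRN, bridge_jR] at h1
  have h2 := X.inj h1
  apply QuotientGroup.eq.mpr
  apply B.J_distinct
  intro τ
  have h3 := congrArg (fun h : B.Hol => (h : ℍ → ℂ) (g' • τ)) h2
  simp only [compH_apply] at h3
  rw [← mul_smul, ← mul_smul, inv_mul_cancel, one_smul] at h3
  exact h3

theorem rotRel_sigmaG (ε : SL(2, ℤ)) (R : RotData B X ε) (g : SL(2, ℤ)) (f : FF N) :
    RotRel R.ζ (B.sigmaG X g f) (B.sigmaG X (ε⁻¹ * g) f) := by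
  have hζ : R.ζ ≠ 0 := R.hζ.ne_zero R.m_pos.ne'
  obtain ⟨r, t, -, rfl⟩ := exists_div_inclRN N f
  rw [map_div₀, map_div₀]
  have key : ∀ r : RN N, RotRel R.ζ (B.sigmaG X g (inclRN N r))
      (B.sigmaG X (ε⁻¹ * g) (inclRN N r)) := by
    intro r
    rw [sigmaG_inclRN, sigmaG_inclRN, mul_inv_rev, inv_inv, compH_mul]
    exact R.rot _
  exact (key r).div hζ (key t)

/-- `LocalData` from an expansion with rotation data. -/
def mkLocalData (ε : SL(2, ℤ)) (R : RotData B X ε) (t : FF N) (u : LaurentSeries ℂ)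
    (ht : ∀ g : SL(2, ℤ), B.sigmaG X g t = u) (hu : u.order = (R.m : ℤ)) :
    LocalData Kbar (FF N) ℂ (XX N) t where
  m := R.m
  m_pos := R.m_pos
  ζ := R.ζ
  hζ := R.hζ
  ι := ιK
  perm := permOf N ε⁻¹
  σ := B.sigmaX X
  σ_inj := B.sigmaX_injective X
  σ_const x c := B.sigmaG_algebraMap X _ c
  σ_t_eq x y := by
    show B.sigmaG X _ t = B.sigmaG X _ t
    rw [ht, ht]
  σ_t_order x := by
    show (B.sigmaG X _ t).order = _
    rw [ht, hu]
  σ_perm_order x f := by
    obtain ⟨g, rfl⟩ := QuotientGroup.mk_surjective x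
    have h : permOf N ε⁻¹ (g : XX N) = ((ε⁻¹ * g : SL(2, ℤ)) : XX N) := rfl
    rw [h, sigmaX_mk, sigmaX_mk]
    exact (B.rotRel_sigmaG X ε R g f).1
  σ_perm_leadingCoeff x f := by
    obtain ⟨g, rfl⟩ := QuotientGroup.mk_surjective x
    have h : permOf N ε⁻¹ (g : XX N) = ((ε⁻¹ * g : SL(2, ℤ)) : XX N) := rfl
    rw [h, sigmaX_mk, sigmaX_mk]
    exact (B.rotRel_sigmaG X ε R g f).2

@[simp] theorem mkLocalData_perm (ε : SL(2, ℤ)) (R : RotData B X ε) (t : FF N)
    (u : LaurentSeries ℂ) (ht : ∀ g : SL(2, ℤ), B.sigmaG X g t = u)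
    (hu : u.order = (R.m : ℤ)) :
    (B.mkLocalData X ε R t u ht hu).perm = permOf N ε⁻¹ := rfl

end HolBase

end Fermat.Agent.S24.H997

end
end
-- ===== PACK-END S24/Mod/H997Local.lean

-- ===== PACK-BEGIN S24/Mod/H997Core.lean
section


/-!
# S24 / MOD — the analytic interface `AnalyticCore N` and the assembly of the modular package

`AnalyticCore N` is the complete list of analytic facts needed (besides the degree bound
`[FF N : ℚ̄(j)] ≤ |SL₂(ℤ)/Γ₀(N)|`) to produce all the `LocalData` of helper984's interface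
`ModularPackage N`.
-/

set_option autoImplicit false

noncomputable section

open ModularCurve HahnSeries UpperHalfPlane
open scoped MatrixGroups

namespace Fermat.Agent.S24.H997

variable {N : ℕ} [NeZero N]

/-- Local data at a point of `ℍ` lying over `a = J(τ₀)`: an expansion (Taylor expansion at `τ₀`),
rotation data for the stabilising element `ε`, and the order of vanishing of `J - a`. -/
structure PointData (B : HolBase N) (a : ℂ) (ε : SL(2, ℤ)) where
  X : Expansion B
  R : RotData B X ε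
  order_J : (X.E (B.JH 1 (one_dvd N) - B.constH a)).order = (R.m : ℤ)

/-- **The analytic interface.** -/
structure AnalyticCore (N : ℕ) [NeZero N] extends HolBase N where
  /-- generic points: `J - a` has a simple zero at some `τ₀` -/
  generic : ∀ a : ℂ, a ≠ 0 → a ≠ 1728 → PointData toHolBase a 1

  /-- the point `i` over `1728`, rotation by `S` -/
  at1728 : PointData toHolBase 1728 ModularGroup.S
  /-- the point `ρ` over `0`, rotation by `S * T` -/
  at0 : PointData toHolBase 0 (ModularGroup.S * ModularGroup.T)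
  /-- the cusp `∞`: `qexp (h ∘ T)` is `qexp h` with `z` replaced by `ζ z` -/
  infζ : ℂ
  inf_hζ : IsPrimitiveRoot infζ N
  inf_shift : ∀ (h : Hol) (n : ℤ),
    (qexp (toHolBase.compH ModularGroup.T h)).coeff n = infζ ^ n * (qexp h).coeff n

namespace HolBase

variable (B : HolBase N)

/-- the expansion at `∞` -/
def qexpExpansion : Expansion B := ⟨B.qexp, B.qexp_injective, B.qexp_const⟩

theorem qexp_J_one_coeff (k : ℤ) :
    (B.qexp (B.JH 1 (one_dvd N))).coeff k
      = if (N : ℤ) ∣ k then ((jq.coeff (k / (N : ℤ)) : ℚ) : ℂ) else 0 := by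
  have := B.qexp_J 1 (one_dvd N) k
  simpa [JH] using this

theorem qexp_J_one_ne_zero : B.qexp (B.JH 1 (one_dvd N)) ≠ 0 := by
  apply ne_zero_of_coeff_ne_zero (g := -(N : ℤ))
  rw [qexp_J_one_coeff, if_pos (dvd_neg.mpr dvd_rfl)]
  have hN : (N : ℤ) ≠ 0 := by exact_mod_cast NeZero.ne N
  rw [Int.neg_ediv_of_dvd dvd_rfl, Int.ediv_self hN, coeff_jq_neg_one]
  simp

theorem order_qexp_J_one : (B.qexp (B.JH 1 (one_dvd N))).order = -(N : ℤ) := by
  have hN : (N : ℤ) ≠ 0 := by exact_mod_cast NeZero.ne N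
  have hNpos : (0 : ℤ) < N := by exact_mod_cast Nat.pos_of_ne_zero (NeZero.ne N)
  apply le_antisymm
  · apply order_le_of_coeff_ne_zero
    rw [qexp_J_one_coeff, if_pos (dvd_neg.mpr dvd_rfl)]
    rw [Int.neg_ediv_of_dvd dvd_rfl, Int.ediv_self hN, coeff_jq_neg_one]
    simp
  · by_contra hlt
    replace hlt := lt_of_not_ge hlt
    have h0 := coeff_order_eq_zero.not.mpr B.qexp_J_one_ne_zero
    apply h0
    rw [qexp_J_one_coeff]
    split_ifs with hdvd
    · obtain ⟨m, hm⟩ := hdvd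
      rw [hm, Int.mul_ediv_cancel_left _ hN]
      have : m < -1 := by
        rw [hm] at hlt
        by_contra hge
        replace hge := le_of_not_gt hge
        have : (N : ℤ) * m ≥ N * (-1) := mul_le_mul_of_nonneg_left hge hNpos.le
        linarith
      rw [coeff_jq_of_lt this]
      simp
    · rfl

end HolBase

/-- Rotation data from a coefficientwise statement `coeff_n (E (h ∘ ε)) = ζ^n coeff_n (E h)`. -/
def RotData.ofCoeff (B : HolBase N) (X : Expansion B) (ε : SL(2, ℤ)) (m : ℕ) (m_pos : 0 < m)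
    (ζ : ℂ) (hζ : IsPrimitiveRoot ζ m)
    (h : ∀ (f : B.Hol) (n : ℤ), (X.E (B.compH ε f)).coeff n = ζ ^ n * (X.E f).coeff n) :
    RotData B X ε where
  m := m
  m_pos := m_pos
  ζ := ζ
  hζ := hζ
  rot f := by
    have hζ0 : ζ ≠ 0 := hζ.ne_zero m_pos.ne'
    by_cases hf : X.E f = 0
    · have : X.E (B.compH ε f) = 0 := by
        ext n; rw [h, hf]; simp
      rw [hf, this]; exact RotRel.zero
    · have hf' : X.E (B.compH ε f) ≠ 0 := by
        intro h0
        apply hf
        ext n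
        have := congrArg (fun s => s.coeff n) h0
        simp only [h, coeff_zero, mul_eq_zero, zpow_ne_zero n hζ0, false_or] at this
        simpa using this
      have hord : (X.E (B.compH ε f)).order = (X.E f).order := by
        apply le_antisymm
        · apply order_le_of_coeff_ne_zero
          rw [h]
          exact mul_ne_zero (zpow_ne_zero _ hζ0) (coeff_order_eq_zero.not.mpr hf)
        · apply order_le_of_coeff_ne_zero
          have := coeff_order_eq_zero.not.mpr hf'
          rw [h] at this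
          exact right_ne_zero_of_mul this
      refine ⟨hord, ?_⟩
      rw [leadingCoeff_eq, leadingCoeff_eq, hord, h]

theorem numOrbits_inv {X : Type*} (π : Equiv.Perm X) : numOrbits π⁻¹ = numOrbits π := by
  unfold numOrbits
  rw [Subgroup.zpowers_inv]

theorem permOf_inv (N : ℕ) [NeZero N] (g : SL(2, ℤ)) : permOf N g⁻¹ = (permOf N g)⁻¹ := by
  ext x
  simp [permOf]

theorem permOf_one (N : ℕ) [NeZero N] : permOf N 1 = 1 := by
  ext x
  simp [permOf]

namespace AnalyticCore

variable (A : AnalyticCore N)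

/-- rotation data at the cusp -/
def infRot : RotData A.toHolBase A.toHolBase.qexpExpansion ModularGroup.T :=
  RotData.ofCoeff A.toHolBase A.toHolBase.qexpExpansion ModularGroup.T N
    (Nat.pos_of_ne_zero (NeZero.ne N)) A.infζ A.inf_hζ A.inf_shift

/-- the local data at `∞` -/
def dataInf : LocalData Kbar (FF N) ℂ (XX N) (jF N)⁻¹ :=
  A.toHolBase.mkLocalData A.toHolBase.qexpExpansion ModularGroup.T A.infRot (jF N)⁻¹
    (A.qexp (A.toHolBase.JH 1 (one_dvd N)))⁻¹
    (fun g => by rw [map_inv₀, HolBase.sigmaG_jF]; rfl)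
    (by
      rw [RotRel.order_inv' A.toHolBase.qexp_J_one_ne_zero, A.toHolBase.order_qexp_J_one, neg_neg]
      rfl)

theorem sigmaG_sub {a : Kbar} {ε : SL(2, ℤ)} (P : PointData A.toHolBase (ιK a) ε)
    (g : SL(2, ℤ)) :
    A.toHolBase.sigmaG P.X g (jF N - algebraMap Kbar (FF N) a)
      = P.X.E (A.toHolBase.JH 1 (one_dvd N) - A.toHolBase.constH (ιK a)) := by
  rw [map_sub, HolBase.sigmaG_jF, HolBase.sigmaG_algebraMap, map_sub, P.X.const]

/-- the local data attached to point data over `a` -/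
def dataOfPoint {a : Kbar} {ε : SL(2, ℤ)} (P : PointData A.toHolBase (ιK a) ε) :
    LocalData Kbar (FF N) ℂ (XX N) (jF N - algebraMap Kbar (FF N) a) :=
  A.toHolBase.mkLocalData P.X ε P.R _ _ (fun g => A.sigmaG_sub P g) P.order_J

/-- all the embeddings `σ_x` agree on `ℚ̄(j)` -/
theorem sigmaX_eq_on_adjoin (X : Expansion A.toHolBase) (x y : XX N) {f : FF N}
    (hf : f ∈ IntermediateField.adjoin Kbar {jF N}) :
    A.toHolBase.sigmaX X x f = A.toHolBase.sigmaX X y f := by
  induction hf using IntermediateField.adjoin_induction with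
  | mem z hz =>
      rw [Set.mem_singleton_iff] at hz
      subst hz
      show A.toHolBase.sigmaG X _ (jF N) = A.toHolBase.sigmaG X _ (jF N)
      rw [HolBase.sigmaG_jF, HolBase.sigmaG_jF]
  | algebraMap c =>
      show A.toHolBase.sigmaG X _ _ = A.toHolBase.sigmaG X _ _
      rw [HolBase.sigmaG_algebraMap, HolBase.sigmaG_algebraMap]
  | add z w _ _ hz hw => rw [map_add, map_add, hz, hw]
  | inv z _ hz => rw [map_inv₀, map_inv₀, hz]
  | mul z w _ _ hz hw => rw [map_mul, map_mul, hz, hw]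

/-- lower bound for the degree: `|SL₂(ℤ)/Γ₀(N)| ≤ [FF N : ℚ̄(j)]`. -/
theorem card_le_finrank (A : AnalyticCore N)
    [FiniteDimensional ↥(IntermediateField.adjoin Kbar {jF N}) (FF N)] :
    Nat.card (XX N) ≤ Module.finrank ↥(IntermediateField.adjoin Kbar {jF N}) (FF N) := by
  classical
  set E := IntermediateField.adjoin Kbar {jF N} with hE
  let X := A.toHolBase.qexpExpansion
  let x0 : XX N := ((1 : SL(2, ℤ)) : XX N)
  let ψ : ↥E →+* LaurentSeries ℂ := (A.toHolBase.sigmaX X x0).comp (algebraMap ↥E (FF N))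
  letI : Algebra ↥E (LaurentSeries ℂ) := ψ.toAlgebra
  let a : XX N → (FF N →ₐ[↥E] LaurentSeries ℂ) := fun x =>
    { A.toHolBase.sigmaX X x with
      commutes' := fun y => A.sigmaX_eq_on_adjoin X x x0 y.2 }
  have ha : Function.Injective a := by
    intro x y hxy
    apply A.toHolBase.sigmaX_injective X
    refine RingHom.ext fun f => ?_
    exact congrArg (fun φ : FF N →ₐ[↥E] LaurentSeries ℂ => φ f) hxy
  haveI : Module.Free ↥E (FF N) := Module.Free.of_divisionRing ↥E (FF N)
  haveI : Module.Finite ↥E (FF N) := ‹FiniteDimensional ↥E (FF N)›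
  haveI : Finite (FF N →ₐ[↥E] LaurentSeries ℂ) := Finite.algHom ↥E (FF N) (LaurentSeries ℂ)
  calc Nat.card (XX N) ≤ Nat.card (FF N →ₐ[↥E] LaurentSeries ℂ) :=
        Nat.card_le_card_of_injective a ha
    _ ≤ Module.finrank ↥E (FF N) := card_algHom_le_finrank ↥E (FF N) (LaurentSeries ℂ)

/-- the local data over a finite point `a : ℚ̄` -/
def dataFin (a : Kbar) : LocalData Kbar (FF N) ℂ (XX N) (jF N - algebraMap Kbar (FF N) a) :=
  letI := Classical.propDecidable
  if h0 : a = 0 then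
    A.dataOfPoint (a := a) (ε := ModularGroup.S * ModularGroup.T)
      (by rw [h0, map_zero]; exact A.at0)
  else if h1 : a = 1728 then
    A.dataOfPoint (a := a) (ε := ModularGroup.S)
      (by
        have : ιK a = 1728 := by rw [h1]; exact map_ofNat ιK 1728
        rw [this]; exact A.at1728)
  else
    A.dataOfPoint (a := a) (ε := 1)
      (A.generic (ιK a)
        (fun h => h0 (ιK_injective (by rw [h, map_zero])))
        (fun h => h1 (ιK_injective (by rw [h]; exact (map_ofNat ιK 1728).symm))))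

theorem dataFin_perm_generic (a : Kbar) (h0 : a ≠ 0) (h1 : a ≠ 1728) :
    (A.dataFin a).perm = 1 := by
  unfold dataFin
  rw [dif_neg h0, dif_neg h1]
  show permOf N 1⁻¹ = 1
  rw [inv_one, permOf_one]

theorem dataFin_zero_perm :
    numOrbits (A.dataFin 0).perm = numOrbits (permOf N (ModularGroup.S * ModularGroup.T)) := by
  unfold dataFin
  rw [dif_pos rfl]
  show numOrbits (permOf N (ModularGroup.S * ModularGroup.T)⁻¹) = _
  rw [permOf_inv, numOrbits_inv]

theorem dataFin_1728_perm :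
    numOrbits (A.dataFin 1728).perm = numOrbits (permOf N ModularGroup.S) := by
  have h0 : (1728 : Kbar) ≠ 0 := by norm_num
  unfold dataFin
  rw [dif_neg h0, dif_pos rfl]
  show numOrbits (permOf N ModularGroup.S⁻¹) = _
  rw [permOf_inv, numOrbits_inv]

theorem dataInf_perm :
    numOrbits A.dataInf.perm = numOrbits (permOf N ModularGroup.T) := by
  show numOrbits (permOf N ModularGroup.T⁻¹) = _
  rw [permOf_inv, numOrbits_inv]

/-- **Assembly.**  All fields of helper984's `ModularPackage N` from the analytic core and the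
degree bound. -/
theorem modularPackage_fields (A : AnalyticCore N)
    (hfd : FiniteDimensional ↥(IntermediateField.adjoin Kbar {jF N}) (FF N))
    (hle : Module.finrank ↥(IntermediateField.adjoin Kbar {jF N}) (FF N) ≤ Nat.card (XX N)) :
    ∃ (dataFin : ∀ a : Kbar, LocalData Kbar (FF N) ℂ (XX N) (jF N - algebraMap Kbar (FF N) a))
      (dataInf : LocalData Kbar (FF N) ℂ (XX N) (jF N)⁻¹),
      Module.finrank ↥(IntermediateField.adjoin Kbar {jF N}) (FF N) = Nat.card (XX N) ∧
      (∀ a : Kbar, a ≠ 0 → a ≠ 1728 → (dataFin a).perm = 1) ∧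
      numOrbits (dataFin 0).perm = numOrbits (permOf N (ModularGroup.S * ModularGroup.T)) ∧
      numOrbits (dataFin 1728).perm = numOrbits (permOf N ModularGroup.S) ∧
      numOrbits dataInf.perm = numOrbits (permOf N ModularGroup.T) :=
  ⟨A.dataFin, A.dataInf, le_antisymm hle A.card_le_finrank, A.dataFin_perm_generic,
    A.dataFin_zero_perm, A.dataFin_1728_perm, A.dataInf_perm⟩

end AnalyticCore

end Fermat.Agent.S24.H997

end
end
-- ===== PACK-END S24/Mod/H997Core.lean

-- ===== PACK-BEGIN S24/H624/SL2Z.lean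
section


/-!
# `SL(2, ℤ)` acting on holomorphic functions; divisibility of orders at elliptic points
-/

set_option autoImplicit false

namespace Fermat.Agent.S24.H624

open UpperHalfPlane Complex
open scoped Manifold Topology MatrixGroups

theorem det_coe_SL_pos (γ : SL(2, ℤ)) : 0 < ((γ : GL (Fin 2) ℝ).det.val : ℝ) := by
  simp

theorem det_coe_SL (γ : SL(2, ℤ)) : ((γ : GL (Fin 2) ℝ).det.val : ℝ) = 1 := by
  simp

/-- Precomposition with `γ ∈ SL(2, ℤ)` as an algebra endomorphism of `holoRing`. -/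
noncomputable def precompSL (γ : SL(2, ℤ)) : holoRing →ₐ[ℂ] holoRing where
  toFun f := ⟨fun τ => (f : ℍ → ℂ) (γ • τ), mdiff_comp_smul (det_coe_SL_pos γ) f.2⟩
  map_one' := rfl
  map_mul' _ _ := rfl
  map_zero' := rfl
  map_add' _ _ := rfl
  commutes' _ := rfl

@[simp]
theorem precompSL_apply (γ : SL(2, ℤ)) (f : holoRing) (τ : ℍ) :
    (precompSL γ f : ℍ → ℂ) τ = (f : ℍ → ℂ) (γ • τ) := rfl

theorem precompSL_one (f : holoRing) : precompSL 1 f = f := by
  ext τ
  simp

theorem precompSL_mul (γ δ : SL(2, ℤ)) (f : holoRing) :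
    precompSL (γ * δ) f = precompSL δ (precompSL γ f) := by
  ext τ
  simp [mul_smul]

/-- Left action of `SL(2, ℤ)` on holomorphic functions: `(γ • f) τ = f (γ⁻¹ • τ)`. -/
noncomputable instance instMulSemiringActionHoloRing : MulSemiringAction SL(2, ℤ) holoRing where
  smul γ f := precompSL γ⁻¹ f
  one_smul f := by
    show precompSL (1 : SL(2, ℤ))⁻¹ f = f
    rw [inv_one, precompSL_one]
  mul_smul γ δ f := by
    show precompSL (γ * δ)⁻¹ f = precompSL γ⁻¹ (precompSL δ⁻¹ f)
    rw [mul_inv_rev, precompSL_mul]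
  smul_zero γ := map_zero _
  smul_add γ f g := map_add _ f g
  smul_one γ := map_one _
  smul_mul γ f g := map_mul _ f g

theorem smul_holoRing_apply (γ : SL(2, ℤ)) (f : holoRing) (τ : ℍ) :
    ((γ • f : holoRing) : ℍ → ℂ) τ = (f : ℍ → ℂ) (γ⁻¹ • τ) := rfl

theorem smul_holoRing_def (γ : SL(2, ℤ)) (f : holoRing) : γ • f = precompSL γ⁻¹ f := rfl

instance instSMulCommClassHoloRing : SMulCommClass SL(2, ℤ) ℂ holoRing where
  smul_comm γ c f := by
    ext τ
    rfl

theorem ordAt_precompSL (γ : SL(2, ℤ)) (f : holoRing) (τ : ℍ) :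
    ordAt τ (precompSL γ f : ℍ → ℂ) = ordAt (γ • τ) (f : ℍ → ℂ) :=
  ordAt_comp_smul (det_coe_SL_pos γ) (f : ℍ → ℂ) τ

theorem ordAt_smul_holoRing (γ : SL(2, ℤ)) (f : holoRing) (τ : ℍ) :
    ordAt (γ • τ) ((γ • f : holoRing) : ℍ → ℂ) = ordAt τ (f : ℍ → ℂ) := by
  rw [smul_holoRing_def, ordAt_precompSL, inv_smul_smul]

/-- Rotation lemma for `SL(2, ℤ)`: if `γ` fixes `τ` and `f ≠ 0` is `γ`-invariant of order `n`
at `τ`, then `(c τ + d) ^ (2 n) = 1`. -/
theorem denom_pow_eq_one {γ : SL(2, ℤ)} {f : ℍ → ℂ} (hf : MDiff f) (hf0 : f ≠ 0) {τ : ℍ}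
    (hτ : γ • τ = τ) (hinv : ∀ z : ℍ, f (γ • z) = f z) :
    denom (γ : GL (Fin 2) ℝ) (τ : ℂ) ^ (2 * (ordAt τ f).toNat) = 1 := by
  have h := rotation_lemma (g := (γ : GL (Fin 2) ℝ)) (det_coe_SL_pos γ) hf hf0 hτ hinv
  rw [det_coe_SL γ] at h
  have hd : denom (γ : GL (Fin 2) ℝ) (τ : ℂ) ≠ 0 := denom_ne_zero _ τ
  rw [Complex.ofReal_one, div_pow, one_pow, ← pow_mul] at h
  have h2 := (div_eq_one_iff_eq (pow_ne_zero _ hd)).mp h
  exact h2.symm

/-- The quadratic relation satisfied by `λ = c τ + d` at a fixed point: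
`λ ^ 2 - (a + d) λ + 1 = 0`. -/
theorem denom_sq_eq_of_fixed {γ : SL(2, ℤ)} {τ : ℍ} (hτ : γ • τ = τ) :
    denom (γ : GL (Fin 2) ℝ) (τ : ℂ) ^ 2
      = (((γ 0 0 + γ 1 1 : ℤ) : ℂ)) * denom (γ : GL (Fin 2) ℝ) (τ : ℂ) - 1 := by
  have hd : denom (γ : GL (Fin 2) ℝ) (τ : ℂ) ≠ 0 := denom_ne_zero _ τ
  have h1 : ((γ • τ : ℍ) : ℂ) = num (γ : GL (Fin 2) ℝ) τ / denom (γ : GL (Fin 2) ℝ) τ :=
    coe_smul_of_det_pos (det_coe_SL_pos γ) τ
  rw [hτ] at h1
  have h2 : (τ : ℂ) * denom (γ : GL (Fin 2) ℝ) τ = num (γ : GL (Fin 2) ℝ) τ :=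
    (eq_div_iff hd).mp h1
  have hdet : ((γ 0 0 : ℤ) : ℂ) * ((γ 1 1 : ℤ) : ℂ) - ((γ 0 1 : ℤ) : ℂ) * ((γ 1 0 : ℤ) : ℂ) = 1 := by
    have := γ.det_coe
    rw [Matrix.det_fin_two] at this
    exact_mod_cast this
  have hnum : num (γ : GL (Fin 2) ℝ) (τ : ℂ) = ((γ 0 0 : ℤ) : ℂ) * τ + ((γ 0 1 : ℤ) : ℂ) := by
    simp [num]
  have hden : denom (γ : GL (Fin 2) ℝ) (τ : ℂ) = ((γ 1 0 : ℤ) : ℂ) * τ + ((γ 1 1 : ℤ) : ℂ) := by
    simp [denom]
  rw [hnum, hden] at h2
  rw [hden]
  push_cast
  linear_combination (((γ 1 0 : ℤ) : ℂ)) * h2 - hdet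

/-- At a fixed point of an element of trace `0`, invariant functions vanish to even order. -/
theorem even_ordAt_of_trace_zero {γ : SL(2, ℤ)} {f : ℍ → ℂ} (hf : MDiff f) (hf0 : f ≠ 0)
    {τ : ℍ} (hτ : γ • τ = τ) (htr : γ 0 0 + γ 1 1 = 0) (hinv : ∀ z : ℍ, f (γ • z) = f z) :
    Even (ordAt τ f).toNat := by
  have h1 := denom_pow_eq_one hf hf0 hτ hinv
  have h2 := denom_sq_eq_of_fixed hτ
  rw [htr] at h2
  simp only [Int.cast_zero, zero_mul, zero_sub] at h2
  rw [pow_mul, h2] at h1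
  by_contra hodd
  rw [Nat.not_even_iff_odd] at hodd
  rw [hodd.neg_one_pow] at h1
  norm_num at h1

theorem three_dvd_of_root {μ : ℂ} (hμ : μ ^ 2 + μ + 1 = 0) {n : ℕ} (hn : μ ^ n = 1) : 3 ∣ n := by
  have h3 : μ ^ 3 = 1 := by linear_combination (μ - 1) * hμ
  have hμ1 : μ ≠ 1 := by
    rintro rfl
    norm_num at hμ
  have hμ2 : μ ^ 2 ≠ 1 := by
    intro h
    have : μ = -2 := by linear_combination hμ - h
    rw [this] at h
    norm_num at h
  have hdiv : μ ^ n = μ ^ (n % 3) := by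
    conv_lhs => rw [← Nat.div_add_mod n 3, pow_add, pow_mul, h3, one_pow, one_mul]
  rw [hdiv] at hn
  have hlt : n % 3 < 3 := Nat.mod_lt _ (by norm_num)
  interval_cases h : n % 3
  · exact Nat.dvd_of_mod_eq_zero h
  · rw [pow_one] at hn; exact absurd hn hμ1
  · exact absurd hn hμ2

/-- At a fixed point of an element of trace `±1`, invariant functions vanish to order divisible
by `3`. -/
theorem three_dvd_ordAt_of_trace {γ : SL(2, ℤ)} {f : ℍ → ℂ} (hf : MDiff f) (hf0 : f ≠ 0)
    {τ : ℍ} (hτ : γ • τ = τ) (htr : γ 0 0 + γ 1 1 = 1 ∨ γ 0 0 + γ 1 1 = -1)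
    (hinv : ∀ z : ℍ, f (γ • z) = f z) :
    3 ∣ (ordAt τ f).toNat := by
  have h1 := denom_pow_eq_one hf hf0 hτ hinv
  have h2 := denom_sq_eq_of_fixed hτ
  rw [pow_mul] at h1
  set lam := denom (γ : GL (Fin 2) ℝ) (τ : ℂ) with hlam
  refine three_dvd_of_root (μ := lam ^ 2) ?_ h1
  rcases htr with htr | htr
  · rw [htr] at h2
    simp only [Int.cast_one, one_mul] at h2
    linear_combination (lam ^ 2 + lam + 1) * h2
  · rw [htr] at h2
    simp only [Int.cast_neg, Int.cast_one, neg_mul, one_mul] at h2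
    linear_combination (lam ^ 2 - lam + 1) * h2

end Fermat.Agent.S24.H624

end
-- ===== PACK-END S24/H624/SL2Z.lean

-- ===== PACK-BEGIN S24/H624/Germ.lean
section


/-!
# Taylor coefficients of germs; leading coefficient under Möbius transformations
-/

set_option autoImplicit false

namespace Fermat.Agent.S24.H624

open UpperHalfPlane Complex
open scoped Manifold Topology MatrixGroups

/-- `n`-th Taylor coefficient at `z₀` of a function `ℂ → ℂ`. -/
noncomputable def germCoeff (z₀ : ℂ) (F : ℂ → ℂ) (n : ℕ) : ℂ :=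
  iteratedDeriv n F z₀ / (n.factorial : ℂ)

theorem taylorCoeff_eq_germCoeff (τ : ℍ) (f : ℍ → ℂ) (n : ℕ) :
    taylorCoeff τ f n = germCoeff (τ : ℂ) (f ∘ ofComplex) n := rfl

theorem germCoeff_congr {F G : ℂ → ℂ} {z₀ : ℂ} (h : F =ᶠ[𝓝 z₀] G) (n : ℕ) :
    germCoeff z₀ F n = germCoeff z₀ G n := by
  unfold germCoeff
  rw [h.iteratedDeriv_eq]

theorem germCoeff_zero_idx (z₀ : ℂ) (F : ℂ → ℂ) : germCoeff z₀ F 0 = F z₀ := by
  simp [germCoeff]

theorem germCoeff_mul {F G : ℂ → ℂ} {z₀ : ℂ} (hF : AnalyticAt ℂ F z₀) (hG : AnalyticAt ℂ G z₀)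
    (n : ℕ) :
    germCoeff z₀ (F * G) n
      = ∑ p ∈ Finset.HasAntidiagonal.antidiagonal n, germCoeff z₀ F p.1 * germCoeff z₀ G p.2 := by
  unfold germCoeff
  have hF' : ContDiffAt ℂ n F z₀ := hF.contDiffAt.of_le (by exact_mod_cast le_top)
  have hG' : ContDiffAt ℂ n G z₀ := hG.contDiffAt.of_le (by exact_mod_cast le_top)
  rw [iteratedDeriv_mul hF' hG',
    Finset.Nat.sum_antidiagonal_eq_sum_range_succ
      (fun i j => iteratedDeriv i F z₀ / (i.factorial : ℂ)
        * (iteratedDeriv j G z₀ / (j.factorial : ℂ))) n,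
    Finset.sum_div]
  refine Finset.sum_congr rfl fun i hi => ?_
  have hi' : i ≤ n := Nat.lt_succ_iff.mp (Finset.mem_range.mp hi)
  have h1 : (n.choose i : ℂ)
      = (n.factorial : ℂ) / ((i.factorial : ℂ) * ((n - i).factorial : ℂ)) := by
    rw [Nat.choose_eq_factorial_div_factorial hi']
    rw [Nat.cast_div (Nat.factorial_mul_factorial_dvd_factorial hi')
      (by exact_mod_cast (Nat.mul_pos (Nat.factorial_pos _) (Nat.factorial_pos _)).ne')]
    push_cast
    rfl
  rw [h1]
  have hn : (n.factorial : ℂ) ≠ 0 := by exact_mod_cast (Nat.factorial_pos n).ne'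
  have hi0 : (i.factorial : ℂ) ≠ 0 := by exact_mod_cast (Nat.factorial_pos i).ne'
  have hni : ((n - i).factorial : ℂ) ≠ 0 := by exact_mod_cast (Nat.factorial_pos (n - i)).ne'
  field_simp

theorem germCoeff_sub_id (z₀ : ℂ) (n : ℕ) :
    germCoeff z₀ (fun z => z - z₀) n = if n = 1 then 1 else 0 := by
  unfold germCoeff
  rcases n with _ | _ | n
  · simp
  · have h : deriv (fun z : ℂ => z - z₀) = fun _ => (1 : ℂ) := by
      funext z
      simp
    rw [iteratedDeriv_succ', h]
    simp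
  · have h : deriv (fun z : ℂ => z - z₀) = fun _ => (1 : ℂ) := by
      funext z
      simp
    rw [iteratedDeriv_succ', h, iteratedDeriv_succ']
    simp

theorem germCoeff_sub_mul {G : ℂ → ℂ} {z₀ : ℂ} (hG : AnalyticAt ℂ G z₀) (n : ℕ) :
    germCoeff z₀ (fun z => (z - z₀) * G z) (n + 1) = germCoeff z₀ G n := by
  have hF : AnalyticAt ℂ (fun z : ℂ => z - z₀) z₀ := by fun_prop
  have := germCoeff_mul hF hG (n + 1)
  rw [show (fun z => (z - z₀) * G z) = (fun z : ℂ => z - z₀) * G from rfl, this]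
  rw [Finset.sum_eq_single (1, n)]
  · rw [germCoeff_sub_id]
    simp
  · rintro ⟨i, j⟩ hij hne
    rw [germCoeff_sub_id]
    have hsum : i + j = n + 1 := by simpa using hij
    have hi : i ≠ 1 := by
      rintro rfl
      apply hne
      have : j = n := by omega
      rw [this]
    simp [hi]
  · intro h
    exfalso
    apply h
    simp
    omega

theorem germCoeff_pow_mul {G : ℂ → ℂ} {z₀ : ℂ} (hG : AnalyticAt ℂ G z₀) (n : ℕ) :
    germCoeff z₀ (fun z => (z - z₀) ^ n * G z) n = G z₀ := by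
  induction n generalizing G with
  | zero => simp [germCoeff_zero_idx]
  | succ n ih =>
    have hG' : AnalyticAt ℂ (fun z => (z - z₀) ^ n * G z) z₀ := by fun_prop
    have h1 : (fun z => (z - z₀) ^ (n + 1) * G z)
        = fun z => (z - z₀) * ((z - z₀) ^ n * G z) := by
      funext z
      ring
    rw [h1, germCoeff_sub_mul hG', ih hG]

/-- Leading Taylor coefficient via a local factorisation. -/
theorem germCoeff_of_eventuallyEq {F u : ℂ → ℂ} {z₀ : ℂ} (hu : AnalyticAt ℂ u z₀) {n : ℕ}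
    (h : ∀ᶠ z in 𝓝 z₀, F z = (z - z₀) ^ n * u z) : germCoeff z₀ F n = u z₀ := by
  rw [germCoeff_congr (G := fun z => (z - z₀) ^ n * u z) h, germCoeff_pow_mul hu]

/-- **Leading coefficient form of the rotation lemma.**  If `f` has order `n` at `g • τ`, the
`n`-th Taylor coefficient of `f ∘ g` at `τ` is `(g'(τ)) ^ n` times that of `f` at `g • τ`. -/
theorem taylorCoeff_comp_smul {g : GL (Fin 2) ℝ} (hg : 0 < g.det.val) {f : ℍ → ℂ} (hf : MDiff f)
    (τ : ℍ) {n : ℕ} (hn : ordAt (g • τ) f = n) :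
    taylorCoeff τ (fun z : ℍ => f (g • z)) n
      = (((g.det.val : ℝ) : ℂ) / denom g (τ : ℂ) ^ 2) ^ n * taylorCoeff (g • τ) f n := by
  have hord : analyticOrderAt (f ∘ ofComplex) ((g • τ : ℍ) : ℂ) = (n : ℕ∞) := by
    rw [← ordAt_def, hn]
  obtain ⟨u, hu, -, hfu⟩ :=
    ((analyticAt_of_mdiff hf (g • τ)).analyticOrderAt_eq_natCast).mp hord
  have hd : denom g (τ : ℂ) ≠ 0 := denom_ne_zero g τ
  have hmτ : moeb g (τ : ℂ) = ((g • τ : ℍ) : ℂ) := moeb_coe hg τ
  have hman : AnalyticAt ℂ (moeb g) (τ : ℂ) := analyticAt_moeb g hd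
  have hmcont : ContinuousAt (moeb g) (τ : ℂ) := hman.continuousAt
  set c : ℂ := ((g.det.val : ℝ) : ℂ) with hc
  -- right-hand side: value of u at g τ
  have hR : taylorCoeff (g • τ) f n = u ((g • τ : ℍ) : ℂ) := by
    rw [taylorCoeff_eq_germCoeff]
    refine germCoeff_of_eventuallyEq hu ?_
    filter_upwards [hfu] with z hz
    rw [hz, smul_eq_mul]
  -- left-hand side
  have h2 : ∀ᶠ z in 𝓝 (τ : ℂ), (f ∘ ofComplex) (moeb g z)
      = (moeb g z - ((g • τ : ℍ) : ℂ)) ^ n • u (moeb g z) := by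
    have : Filter.Tendsto (moeb g) (𝓝 (τ : ℂ)) (𝓝 ((g • τ : ℍ) : ℂ)) := by
      have := hmcont.tendsto
      rwa [hmτ] at this
    exact this.eventually hfu
  have h3 : ∀ᶠ z in 𝓝 (τ : ℂ), denom g z ≠ 0 :=
    (hasDerivAt_denom g _).continuousAt.eventually_ne hd
  have hden_an : AnalyticAt ℂ (fun z => denom g z * denom g (τ : ℂ)) (τ : ℂ) := by
    have : (fun z => denom g z * denom g (τ : ℂ))
        = fun w : ℂ => (((g 1 0 : ℝ) : ℂ) * w + ((g 1 1 : ℝ) : ℂ)) * denom g (τ : ℂ) := by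
      funext w; simp [denom]
    rw [this]
    fun_prop
  have hU : AnalyticAt ℂ (fun z => (c / (denom g z * denom g (τ : ℂ))) ^ n * u (moeb g z))
      (τ : ℂ) := by
    have h1 : AnalyticAt ℂ (fun z => c / (denom g z * denom g (τ : ℂ))) (τ : ℂ) :=
      analyticAt_const.div hden_an (mul_ne_zero hd hd)
    have h2' : AnalyticAt ℂ (fun z => u (moeb g z)) (τ : ℂ) := by
      have : AnalyticAt ℂ u (moeb g (τ : ℂ)) := by rw [hmτ]; exact hu
      exact AnalyticAt.fun_comp this hman
    exact (h1.pow n).mul h2'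
  have hL : taylorCoeff τ (fun z : ℍ => f (g • z)) n
      = (c / (denom g (τ : ℂ) * denom g (τ : ℂ))) ^ n * u (moeb g (τ : ℂ)) := by
    rw [taylorCoeff_eq_germCoeff]
    refine germCoeff_of_eventuallyEq (u := fun z => (c / (denom g z * denom g (τ : ℂ))) ^ n
      * u (moeb g z)) hU ?_
    filter_upwards [eventuallyEq_comp_smul hg f τ, h2, h3] with z e1 e2 e3
    rw [e1]
    simp only [Function.comp_apply] at e2 ⊢
    rw [e2, ← hmτ, moeb_sub_moeb g e3 hd, smul_eq_mul, ← mul_assoc, ← mul_pow]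
    congr 2
    ring
  rw [hL, hR, hmτ, sq]

/-- `SL(2, ℤ)` version for the left action `(γ • f) τ = f (γ⁻¹ • τ)`. -/
theorem taylorCoeff_smul_holoRing (γ : SL(2, ℤ)) (f : holoRing) (τ : ℍ) {n : ℕ}
    (hn : ordAt (γ⁻¹ • τ) (f : ℍ → ℂ) = n) :
    taylorCoeff τ ((γ • f : holoRing) : ℍ → ℂ) n
      = (1 / denom ((γ⁻¹ : SL(2, ℤ)) : GL (Fin 2) ℝ) (τ : ℂ) ^ 2) ^ n
        * taylorCoeff (γ⁻¹ • τ) (f : ℍ → ℂ) n := by
  have h := taylorCoeff_comp_smul (g := ((γ⁻¹ : SL(2, ℤ)) : GL (Fin 2) ℝ))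
    (det_coe_SL_pos γ⁻¹) f.2 τ (n := n) hn
  rw [det_coe_SL, Complex.ofReal_one] at h
  exact h

end Fermat.Agent.S24.H624

end
-- ===== PACK-END S24/H624/Germ.lean

-- ===== PACK-BEGIN S24/H864/FF3c.lean
section


/-!
# S24 / ALG / FF1+FF3 (part c): the fundamental identity, abstract form

`R ⊆ S` Dedekind domains, `S` finite over `R`, `F = Frac S`, `p = (τ)` a maximal ideal of `R`
with residue field `K` (algebraically closed).  Then the places `v` of `F/K` with `0 < v(τ)`
(assumed to contain `R` in their valuation ring) correspond to the primes of `S` over `p`, and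
`∑_v v(τ) = rank_R S`.
-/

set_option autoImplicit false

noncomputable section

open AlgebraicCurve IsDedekindDomain

namespace Fermat.Agent.S24.H864

/-- universe-polymorphic version of `IsAlgClosed.of_ringEquiv` -/
theorem isAlgClosed_of_ringEquiv {k : Type*} {k' : Type*} [Field k] [Field k'] [IsAlgClosed k]
    (e : k ≃+* k') : IsAlgClosed k' := by
  apply IsAlgClosed.of_exists_root
  intro p hmp hp
  have hpe : (p.map e.symm.toRingHom).degree ≠ 0 := by
    rw [Polynomial.degree_map]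
    exact ne_of_gt (Polynomial.degree_pos_of_irreducible hp)
  rcases IsAlgClosed.exists_root (k := k) (p.map e.symm.toRingHom) hpe with ⟨x, hx⟩
  use e x
  rw [Polynomial.IsRoot] at hx
  apply e.symm.injective
  rw [map_zero, ← hx]
  clear hx hpe hp hmp
  induction p using Polynomial.induction_on <;> simp_all

section Rel

variable {K F : Type*} [Field K] [Field F] [Algebra K F]
variable {S : Type*} [CommRing S] [IsDedekindDomain S] [Algebra S F] [IsFractionRing S F]
  [Algebra K S] [IsScalarTower K S F]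
variable {R : Type*} [CommRing R] [IsDomain R] [Algebra R S] [Algebra R F] [IsScalarTower R S F]
  [Module.Finite R S]

omit [IsDedekindDomain S] [IsFractionRing S F] [Algebra K S] [IsScalarTower K S F] [IsDomain R] in
/-- valuation rings are integrally closed: `S ⊆ O_v` as soon as `R ⊆ O_v`. -/
theorem algebraMap_mem_of_base (v : Place K F)
    (hR : ∀ r : R, algebraMap R F r ∈ v.toValuationSubring) (s : S) :
    algebraMap S F s ∈ v.toValuationSubring := by
  have hint : IsIntegral R s := Algebra.IsIntegral.isIntegral s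
  obtain ⟨P, hP, hPs⟩ := hint
  set φ : R →+* v.toValuationSubring :=
    (algebraMap R F).codRestrict v.toValuationSubring.toSubring hR with hφ
  have hcomp : (algebraMap v.toValuationSubring F).comp φ = algebraMap R F := by
    ext r; rfl
  have h1 : IsIntegral v.toValuationSubring (algebraMap S F s) := by
    refine ⟨P.map φ, hP.map φ, ?_⟩
    rw [Polynomial.eval₂_map, hcomp]
    have h2 := congrArg (algebraMap S F) hPs
    rw [map_zero, Polynomial.hom_eval₂, ← IsScalarTower.algebraMap_eq] at h2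
    exact h2
  obtain ⟨y, hy⟩ := IsIntegrallyClosed.isIntegral_iff.mp h1
  rw [← hy]
  exact y.2

variable (p : Ideal R) [hpmax : p.IsMaximal] (τ : R)

omit [IsFractionRing S F] [Algebra K S] [IsScalarTower K S F] [Algebra R F] [IsScalarTower R S F]
  [Module.Finite R S] [IsDedekindDomain S] [IsDomain R] hpmax in
theorem algebraMap_mem_of_primesOver (hp : p = Ideal.span {τ}) (q : p.primesOver S) :
    algebraMap R S τ ∈ q.1 := by
  have h1 : τ ∈ p := by rw [hp]; exact Ideal.mem_span_singleton_self τ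
  have h2 := q.1.over_def p
  rw [h2] at h1
  exact h1

omit [IsFractionRing S F] [Algebra K S] [IsScalarTower K S F] [Algebra R F] [IsScalarTower R S F]
  [Module.Finite R S] [IsDedekindDomain S] [IsDomain R] hpmax in
theorem primesOver_ne_bot (hp : p = Ideal.span {τ}) (hτ : τ ≠ 0)
    (hinj : Function.Injective (algebraMap R S)) (q : p.primesOver S) : q.1 ≠ ⊥ := by
  intro h
  have h1 := algebraMap_mem_of_primesOver p τ hp q
  rw [h, Ideal.mem_bot] at h1
  exact hτ (hinj (by rw [h1, map_zero]))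

/-- the height one prime attached to a prime over `p` -/
def wOf (hp : p = Ideal.span {τ}) (hτ : τ ≠ 0)
    (hinj : Function.Injective (algebraMap R S)) (q : p.primesOver S) : HeightOneSpectrum S :=
  ⟨q.1, q.2.1, primesOver_ne_bot p τ hp hτ hinj q⟩

omit hpmax [Module.Finite R S] in
theorem ord_wOf (hp : p = Ideal.span {τ}) (hτ : τ ≠ 0)
    (hinj : Function.Injective (algebraMap R S)) (q : p.primesOver S) :
    (Place.ofHeightOneSpectrum (K := K) (F := F) (wOf p τ hp hτ hinj q)).ord (algebraMap R F τ)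
      = (q.1.ramificationIdx R : ℤ) := by
  have hτ' : algebraMap R S τ ≠ 0 := fun h => hτ (hinj (by rw [h, map_zero]))
  rw [IsScalarTower.algebraMap_apply R S F, ord_ofHeightOneSpectrum_algebraMap _ hτ']
  have hmap : p.map (algebraMap R S) = Ideal.span {algebraMap R S τ} := by
    rw [hp, Ideal.map_span, Set.image_singleton]
  have hne : p.map (algebraMap R S) ≠ ⊥ := by
    rw [hmap, Ne, Ideal.span_singleton_eq_bot]
    exact hτ'
  rw [Ideal.IsDedekindDomain.ramificationIdx_eq_multiplicity p q.1 hne, hmap]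
  rfl

section Inertia

variable [IsAlgClosed K] [Algebra K R] [IsScalarTower K R S]

omit [IsFractionRing S F] [Algebra K S] [IsScalarTower K S F] [Algebra R F] [IsScalarTower R S F]
  [IsDedekindDomain S] [IsDomain R] [Algebra K F] [IsScalarTower K R S] in
/-- residue field `K` algebraically closed ⟹ all inertia degrees are `1`. -/
theorem inertiaDeg_eq_one (hres : ∀ r : R, ∃ c : K, r - algebraMap K R c ∈ p)
    (q : p.primesOver S) : q.1.inertiaDeg R = 1 := by
  haveI : q.1.IsMaximal := Ideal.primesOver.isMaximal q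
  rw [Ideal.inertiaDeg_eq_of_isMaximal p q.1]
  letI : Field (R ⧸ p) := Ideal.Quotient.field p
  letI : Field (S ⧸ q.1) := Ideal.Quotient.field q.1
  -- `K ≃ R ⧸ p`
  let f : K →+* R ⧸ p := (Ideal.Quotient.mk p).comp (algebraMap K R)
  have hf : Function.Bijective f := by
    refine ⟨f.injective, fun y => ?_⟩
    obtain ⟨r, rfl⟩ := Ideal.Quotient.mk_surjective y
    obtain ⟨c, hc⟩ := hres r
    refine ⟨c, ?_⟩
    show Ideal.Quotient.mk p (algebraMap K R c) = Ideal.Quotient.mk p r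
    rw [eq_comm, Ideal.Quotient.eq]
    exact hc
  haveI : IsAlgClosed (R ⧸ p) := isAlgClosed_of_ringEquiv (RingEquiv.ofBijective f hf)
  haveI : Algebra.IsIntegral (R ⧸ p) (S ⧸ q.1) := inferInstance
  have hbij : Function.Bijective (algebraMap (R ⧸ p) (S ⧸ q.1)) :=
    IsAlgClosed.algebraMap_bijective_of_isIntegral
  have htop : (⊥ : Subalgebra (R ⧸ p) (S ⧸ q.1)) = ⊤ :=
    (Algebra.surjective_algebraMap_iff.mp hbij.2).symm
  exact Subalgebra.bot_eq_top_iff_finrank_eq_one.mp htop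

end Inertia

section Main

variable [IsAlgClosed K] [Algebra K R] [IsScalarTower K R S] [Module.Flat R S]

/-- **Fundamental identity, abstract form.** -/
theorem fundamental_identity_abstract
    (hp : p = Ideal.span {τ}) (hτ : τ ≠ 0) (hinj : Function.Injective (algebraMap R S))
    (hres : ∀ r : R, ∃ c : K, r - algebraMap K R c ∈ p)
    (hR : ∀ v : Place K F, 0 < v.ord (algebraMap R F τ) →
      ∀ r : R, algebraMap R F r ∈ v.toValuationSubring)
    (s : Finset (Place K F)) (hs : ∀ v, v ∈ s ↔ 0 < v.ord (algebraMap R F τ)) :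
    ∑ v ∈ s, v.ord (algebraMap R F τ) = (Module.finrank R S : ℤ) := by
  classical
  haveI : Fintype (p.primesOver S) := (Algebra.QuasiFinite.finite_primesOver p).fintype
  have hsum := Ideal.sum_ramification_inertia_eq_finrank p S
  have hτ' : algebraMap R S τ ≠ 0 := fun h => hτ (hinj (by rw [h, map_zero]))
  set g : p.primesOver S → Place K F :=
    fun q => Place.ofHeightOneSpectrum (K := K) (wOf p τ hp hτ hinj q) with hg
  have hg_inj : Function.Injective g := by
    intro q q' h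
    have h1 : wOf p τ hp hτ hinj q = wOf p τ hp hτ hinj q' :=
      ofHeightOneSpectrum_injective (K := K) (F := F) h
    exact Subtype.ext (congrArg HeightOneSpectrum.asIdeal h1)
  have hg_ord : ∀ q, (g q).ord (algebraMap R F τ) = (q.1.ramificationIdx R : ℤ) :=
    fun q => ord_wOf p τ hp hτ hinj q
  have himg : Finset.univ.image g = s := by
    ext v
    rw [Finset.mem_image, hs]
    constructor
    · rintro ⟨q, -, rfl⟩
      rw [hg_ord]
      exact_mod_cast Ideal.ramificationIdx_pos q.1 R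
    · intro hv
      have hS := algebraMap_mem_of_base (S := S) v (hR v hv)
      have hv' : 0 < v.ord (algebraMap S F (algebraMap R S τ)) := by
        rwa [← IsScalarTower.algebraMap_apply R S F]
      obtain ⟨w, hw, hwq⟩ := exists_heightOneSpectrum_of_place v hS hτ' hv'
      have hle : p ≤ w.asIdeal.under R := by
        rw [hp, Ideal.span_singleton_le_iff_mem, Ideal.under_def, Ideal.mem_comap, hwq]
        exact (mem_primeOfPlace v hS hτ').mpr hv'
      have hne : w.asIdeal.under R ≠ ⊤ := (Ideal.IsPrime.under R w.asIdeal).ne_top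
      have hq : w.asIdeal ∈ p.primesOver S := ⟨w.isPrime, ⟨hpmax.eq_of_le hne hle⟩⟩
      refine ⟨⟨w.asIdeal, hq⟩, Finset.mem_univ _, ?_⟩
      rw [← hw]
      show Place.ofHeightOneSpectrum (K := K) (wOf p τ hp hτ hinj ⟨w.asIdeal, hq⟩) = _
      congr 1
  rw [← himg, Finset.sum_image (fun a _ b _ h => hg_inj h)]
  simp_rw [hg_ord]
  rw [← hsum]
  push_cast
  refine Finset.sum_congr rfl fun q _ => ?_
  rw [inertiaDeg_eq_one p hres q, Nat.cast_one, mul_one]

end Main

end Rel

end Fermat.Agent.S24.H864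

end
end
-- ===== PACK-END S24/H864/FF3c.lean

-- ===== PACK-BEGIN S24/H864/FF3d.lean
section



/-!
# S24 / ALG / FF1+FF3 (part d): the fundamental identity `∑_{v(t)>0} v(t) = [F : K(t)]`
-/

set_option autoImplicit false

noncomputable section

open AlgebraicCurve IntermediateField IsDedekindDomain
open scoped IntermediateField.algebraAdjoinAdjoin

namespace Fermat.Agent.S24.H864

variable {K F : Type*} [Field K] [Field F] [Algebra K F]

section Inst

variable (K) (t : F)

theorem polyRing_isPrincipalIdealRing (ht : Transcendental K t) :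
    IsPrincipalIdealRing (polyRing K t) :=
  IsPrincipalIdealRing.of_surjective (polyEquiv K t ht).toAlgHom.toRingHom
    (polyEquiv K t ht).surjective

theorem tR_ne_zero (ht : Transcendental K t) : tR K t ≠ 0 := by
  intro h
  have h1 : t = 0 := congrArg Subtype.val h
  rw [h1] at ht
  exact ht (isAlgebraic_zero)

theorem tR_prime (ht : Transcendental K t) : Prime (tR K t) := by
  rw [← polyEquiv_X K t ht]
  exact (MulEquiv.prime_iff (polyEquiv K t ht).toMulEquiv).mpr Polynomial.prime_X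

theorem exists_sub_mem_span_tR (ht : Transcendental K t) (r : polyRing K t) :
    ∃ c : K, r - algebraMap K (polyRing K t) c ∈ Ideal.span {tR K t} := by
  obtain ⟨P, rfl⟩ := (polyEquiv K t ht).surjective r
  refine ⟨P.coeff 0, ?_⟩
  rw [Ideal.mem_span_singleton']
  refine ⟨polyEquiv K t ht P.divX, ?_⟩
  rw [← polyEquiv_X K t ht, ← map_mul, ← AlgEquiv.commutes (polyEquiv K t ht), ← map_sub]
  congr 1
  conv_rhs => rw [← Polynomial.divX_mul_X_add P]
  simp [Polynomial.algebraMap_eq]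

theorem coe_mem_valuationSubring_of_ord_nonneg (v : Place K F) (hv : 0 ≤ v.ord t)
    (r : polyRing K t) : (r : F) ∈ v.toValuationSubring := by
  obtain ⟨r, hr⟩ := r
  show r ∈ v.toValuationSubring
  induction hr using Algebra.adjoin_induction with
  | mem x hx =>
      rw [Set.mem_singleton_iff] at hx
      rw [hx]
      exact (FF.mem_iff_ord_nonneg v).mpr hv
  | algebraMap c => exact v.algebraMap_mem' c
  | add x y _ _ hx hy => exact add_mem hx hy
  | mul x y _ _ hx hy => exact mul_mem hx hy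

end Inst

section Main

variable [IsAlgClosed K] [CharZero K]

/-- **Fundamental identity (FF1).**  For `t` transcendental over `K` with `F / K(t)` finite,
the zeros of `t`, counted with multiplicity, are `[F : K(t)]` in number. -/
theorem fundamental_identity (t : F) (ht : Transcendental K t)
    [FiniteDimensional ↥(IntermediateField.adjoin K {t}) F]
    (s : Finset (Place K F)) (hs : ∀ v : Place K F, v ∈ s ↔ 0 < v.ord t) :
    ∑ v ∈ s, v.ord t = (Module.finrank ↥(IntermediateField.adjoin K {t}) F : ℤ) := by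
  haveI : IsPrincipalIdealRing (polyRing K t) := polyRing_isPrincipalIdealRing K t ht
  haveI : IsScalarTower (polyRing K t) (integralClosure (polyRing K t) F) F :=
    Subalgebra.isScalarTower_mid _
  haveI : IsFractionRing (integralClosure (polyRing K t) F) F :=
    integralClosure.isFractionRing_of_finite_extension K⟮t⟯ F
  haveI : IsDedekindDomain (integralClosure (polyRing K t) F) :=
    IsIntegralClosure.isDedekindDomain (polyRing K t) K⟮t⟯ F (integralClosure (polyRing K t) F)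
  haveI : Module.Finite (polyRing K t) (integralClosure (polyRing K t) F) :=
    IsIntegralClosure.finite (polyRing K t) K⟮t⟯ F (integralClosure (polyRing K t) F)
  have hfin : Module.finrank K⟮t⟯ F
      = Module.finrank (polyRing K t) (integralClosure (polyRing K t) F) :=
    IsFractionRing.finrank_eq (polyRing K t) K⟮t⟯ (integralClosure (polyRing K t) F) F
  have hprime : (Ideal.span {tR K t}).IsPrime :=
    (Ideal.span_singleton_prime (tR_ne_zero K t ht)).mpr (tR_prime K t ht)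
  have hne : Ideal.span {tR K t} ≠ ⊥ := by
    rw [Ne, Ideal.span_singleton_eq_bot]
    exact tR_ne_zero K t ht
  haveI hmax : (Ideal.span {tR K t}).IsMaximal := hprime.isMaximal hne
  have hinj : Function.Injective
      (algebraMap (polyRing K t) (integralClosure (polyRing K t) F)) := by
    intro a b hab
    have := congrArg (algebraMap (integralClosure (polyRing K t) F) F) hab
    rw [← IsScalarTower.algebraMap_apply, ← IsScalarTower.algebraMap_apply] at this
    exact Subtype.ext this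
  rw [hfin]
  exact fundamental_identity_abstract (K := K) (F := F)
    (S := integralClosure (polyRing K t) F) (R := polyRing K t)
    (Ideal.span {tR K t}) (tR K t) rfl (tR_ne_zero K t ht) hinj
    (exists_sub_mem_span_tR K t ht)
    (fun v hv r => coe_mem_valuationSubring_of_ord_nonneg K t v hv.le r) s hs

end Main

end Fermat.Agent.S24.H864

end
end
-- ===== PACK-END S24/H864/FF3d.lean

-- ===== PACK-BEGIN S15/H466/SelAsm.lean
section




/-!
# S15 / DESC — SEL-BOUND on route 208, in the language of the frozen skeleton (helper466)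

`H975.DescSpec` asks (node LOCAL) for subgroups `K, U ≤ W_E` with `|K| |U| ≤ |W_E|`; on
helper208's route (`coord/S15-LOCp-helper208.md`: no T7) the subgroup `U₀ = (τ₀ - 1) Y_E` is only
known to satisfy `|U₀|² ≤ [Y_E : A]`.  This file is the consumer:

* `selBound_of_cnt`  : flag + `|K|² ≤ |W_E|` + step bounds w.r.t. `(K, U)` + (CNT) `|U|² ≤ [Y_E : A]`
                       ⟹ `H975.SelBound p S r`                (pure algebra);
* `cnt_ramSub`       : (CNT) for `U = ramSub p S r τ₀ = (τ₀ - 1) Y_E` from (DIV), (PROJ), (T6''),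
                       finiteness                              (instance of `H208.card_tauSub_YE_sq_le`);
* `selBound_route208`: the two together;
* `Local208Statement`, `descCoreTarget_route208` : the skeleton top for route 208
  (replaces `H975.LocalStatement` + `H975.EngineStatement`; T6, T7, LOCP are not used).
-/

set_option autoImplicit false
set_option linter.unusedSectionVars false

noncomputable section

namespace Fermat.Agent.S15.H466

open ModularCurve Fermat.Agent.S15.H975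
open Fermat.Agent.S15.H842.Engine (cocSub)

section Dict

variable (p : ℕ) [NeZero p]

/-! The Prelude `SMul` instance of `Gal` on `JZero p` is not syntactically the one of its
`DistribMulAction`: the usual lemmas are restated once. -/

theorem gal_smul_zero_h466 (σ : _root_.Fermat.Agent.S15.H975.Gal) : σ • (0 : JZero p) = 0 := smul_zero (A := JZero p) σ

theorem gal_smul_add_h466 (σ : _root_.Fermat.Agent.S15.H975.Gal) (x y : JZero p) : σ • (x + y) = σ • x + σ • y :=
  smul_add (A := JZero p) σ x y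

theorem gal_smul_sub_h466 (σ : _root_.Fermat.Agent.S15.H975.Gal) (x y : JZero p) : σ • (x - y) = σ • x - σ • y :=
  smul_sub (A := JZero p) σ x y

theorem gal_smul_neg_h466 (σ : _root_.Fermat.Agent.S15.H975.Gal) (x : JZero p) : σ • (-x) = -(σ • x) :=
  smul_neg (A := JZero p) σ x

theorem gal_smul_nsmul_h466 (σ : _root_.Fermat.Agent.S15.H975.Gal) (r : ℕ) (y : JZero p) : σ • (r • y) = r • (σ • y) :=
  map_nsmul (DistribSMul.toAddMonoidHom (JZero p) σ) r y

theorem gal_smul_zsmul_h466 (σ : _root_.Fermat.Agent.S15.H975.Gal) (r : ℤ) (y : JZero p) : σ • (r • y) = r • (σ • y) :=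
  map_zsmul (DistribSMul.toAddMonoidHom (JZero p) σ) r y

theorem rat_eq_cocSub : rat p = cocSub _root_.Fermat.Agent.S15.H975.Gal (⊥ : AddSubgroup (JZero p)) := by
  ext x
  rw [Fermat.Agent.S15.H842.Engine.mem_cocSub_bot]
  exact Iff.rfl

theorem rat_eq_fixedPoints : rat p = FixedPoints.addSubgroup _root_.Fermat.Agent.S15.H975.Gal (JZero p) := by
  ext x
  exact Iff.rfl

theorem eis_le_tors (S : Set ℕ) (r : ℕ) : eis p S r ≤ tors p r := fun _ hw => hw.1

theorem sel_eq_cocSub (r : ℕ) (F : AddSubgroup (JZero p)) (hF : F ≤ tors p r) :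
    _root_.Fermat.Agent.S15.H975.sel p r F = cocSub _root_.Fermat.Agent.S15.H975.Gal F := by
  ext y
  constructor
  · intro h σ
    exact h.2 σ
  · intro h
    refine ⟨fun σ => ?_, fun σ => h σ⟩
    have h1 : r • (σ • y - y) = 0 := hF (h σ)
    have h2 : σ • (r • y) - r • y = r • (σ • y - y) := by
      rw [nsmul_sub, gal_smul_nsmul_h466]
    exact sub_eq_zero.1 (h2.trans h1)

theorem isStable_iff (F : AddSubgroup (JZero p)) :
    H975.IsStable p F ↔ Fermat.Agent.S15.H842.Engine.IsStable _root_.Fermat.Agent.S15.H975.Gal F :=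
  ⟨fun h σ f hf => h σ f hf, fun h σ f hf => h σ f hf⟩

end Dict

section Main

variable (p : ℕ) [NeZero p]

/-- monotonicity of a flag -/
theorem flag_le {S : Set ℕ} {r D : ℕ} {F : ℕ → AddSubgroup (JZero p)} (hF : IsFlag p S r D F)
    (j : ℕ) (hj : j ≤ D) : F j ≤ eis p S r := by
  have hle' : ∀ n, j + n ≤ D → F j ≤ F (j + n) := by
    intro n
    induction n with
    | zero => intro _; exact le_rfl
    | succ n ihn =>
      intro hn
      exact (ihn (by omega)).trans (hF.2.2 (j + n) (by omega)).1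
  have := hle' (D - j) (by omega)
  rw [Nat.add_sub_cancel' hj, hF.2.1] at this
  exact this

/-- **SEL-BOUND from step bounds and (CNT)** (pure algebra, route 208).  No bound
`|K| |U| ≤ |W_E|` is required. -/
theorem selBound_of_cnt (S : Set ℕ) (r : ℕ) (hr : r.Prime)
    (D : ℕ) (F : ℕ → AddSubgroup (JZero p)) (hF : IsFlag p S r D F)
    (K U : AddSubgroup (JZero p)) (hK : K ≤ eis p S r) (hU : U ≤ eis p S r)
    (hKc : Nat.card ↥K ^ 2 ≤ Nat.card ↥(eis p S r))
    (hstep : ∀ i, i < D → StepBound p r K U (F i) (F (i + 1)))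
    (hCNT : (rat p).relIndex (_root_.Fermat.Agent.S15.H975.sel p r (eis p S r)) ≠ 0 →
      Nat.card ↥U ^ 2 ≤ (rat p).relIndex (_root_.Fermat.Agent.S15.H975.sel p r (eis p S r))) :
    SelBound p S r := by
  classical
  have hFD : F D = eis p S r := hF.2.1
  have hFt : ∀ j, j ≤ D → F j ≤ tors p r := fun j hj =>
    (flag_le p hF j hj).trans (eis_le_tors p S r)
  have hst : ∀ i, i ≤ D → Fermat.Agent.S15.H842.Engine.IsStable _root_.Fermat.Agent.S15.H975.Gal (F i) := by
    intro i hi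
    rcases Nat.eq_zero_or_pos i with h | h
    · rw [h, hF.1]
      exact Fermat.Agent.S15.H842.Engine.isStable_bot
    · obtain ⟨j, rfl⟩ : ∃ j, i = j + 1 := ⟨i - 1, by omega⟩
      exact (isStable_iff p _).1 (hF.2.2 j (by omega)).2.2.1
  have hsel : ∀ i, i < D → selIndex p r (F i) (F (i + 1)) =
      Fermat.Agent.S15.H842.Engine.sel _root_.Fermat.Agent.S15.H975.Gal F i := by
    intro i hi
    unfold selIndex Fermat.Agent.S15.H842.Engine.sel
    rw [sel_eq_cocSub p r (F i) (hFt i hi.le), sel_eq_cocSub p r (F (i + 1)) (hFt (i + 1) hi)]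
  have hfix : ∀ i, i < D → fixIndex p r (F i) (F (i + 1)) =
      Fermat.Agent.S15.H842.Engine.pG _root_.Fermat.Agent.S15.H975.Gal F i := by
    intro i hi
    unfold fixIndex Fermat.Agent.S15.H842.Engine.pG
    rw [sel_eq_cocSub p r (F i) (hFt i hi.le)]
  have hmain := selBound_abs (Γ := _root_.Fermat.Agent.S15.H975.Gal) r hr F D hF.1 (fun i hi => (hF.2.2 i hi).1) hst
    (fun i hi => (hF.2.2 i hi).2.2.2.1) K U (hFD ▸ hK) (hFD ▸ hU) (hFD ▸ hKc)
    (fun i hi => by
      obtain ⟨h0, h1, h2, h3, h4⟩ := hstep i hi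
      rw [hsel i hi] at h0 h1 h2 h3 h4
      rw [hfix i hi] at h1 h2 h3 h4
      refine ⟨h0, ?_⟩
      by_cases hk : F (i + 1) ⊓ K ≤ F i <;> by_cases hu : F (i + 1) ⊓ U ≤ F i
      · rw [jmp_eq_zero hk, jmp_eq_zero hu]
        simpa using h1 hk hu
      · rw [jmp_eq_zero hk, jmp_eq_one hu]
        have := h2 hk hu
        simp only [Nat.sub_zero, pow_one]
        rw [mul_comm]
        exact Nat.mul_le_mul_left r this
      · rw [jmp_eq_one hk, jmp_eq_zero hu]
        simpa using h3 hk hu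
      · rw [jmp_eq_one hk, jmp_eq_one hu]
        simpa using h4 hk hu)
    (by
      rw [hFD, ← rat_eq_cocSub, ← sel_eq_cocSub p r (eis p S r) (eis_le_tors p S r)]
      exact hCNT)
  rw [hFD, ← rat_eq_cocSub, ← sel_eq_cocSub p r (eis p S r) (eis_le_tors p S r)] at hmain
  exact hmain

/-- The Eisenstein part of `J₀(p)[r^∞]`. -/
def eisInf (S : Set ℕ) (r : ℕ) : AddSubgroup (JZero p) where
  carrier := {w | (∃ k : ℕ, r ^ k • w = 0) ∧ IsEis p S w}
  zero_mem' := ⟨⟨0, smul_zero _⟩, isEis_zero p S⟩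
  add_mem' := by
    rintro a b ⟨⟨k, hk⟩, ha⟩ ⟨⟨l, hl⟩, hb⟩
    refine ⟨⟨k + l, ?_⟩, ha.add p hb⟩
    have h1 : r ^ (k + l) • a = 0 := by
      rw [add_comm, pow_add, mul_smul, hk, smul_zero]
    have h2 : r ^ (k + l) • b = 0 := by
      rw [pow_add, mul_smul, hl, smul_zero]
    rw [nsmul_add, h1, h2, add_zero]
  neg_mem' := by
    rintro a ⟨⟨k, hk⟩, ha⟩
    exact ⟨⟨k, by rw [neg_nsmul, hk, neg_zero]⟩, ha.neg p⟩

/-- `U₀ = (τ₀ - 1) Y_E`, the ramification subgroup of route 208. -/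
def ramSub (S : Set ℕ) (r : ℕ) (τ₀ : _root_.Fermat.Agent.S15.H975.Gal) : AddSubgroup (JZero p) :=
  (_root_.Fermat.Agent.S15.H975.sel p r (eis p S r)).map (Fermat.Agent.S15.H208.tauSub τ₀)

theorem mem_ramSub {S : Set ℕ} {r : ℕ} {τ₀ : _root_.Fermat.Agent.S15.H975.Gal} {u : JZero p} :
    u ∈ ramSub p S r τ₀ ↔ ∃ y ∈ _root_.Fermat.Agent.S15.H975.sel p r (eis p S r), τ₀ • y - y = u := Iff.rfl

theorem ramSub_le (S : Set ℕ) (r : ℕ) (τ₀ : _root_.Fermat.Agent.S15.H975.Gal) : ramSub p S r τ₀ ≤ eis p S r := by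
  rintro u ⟨y, hy, rfl⟩
  exact hy.2 τ₀

theorem sub_mem_ramSub {S : Set ℕ} {r : ℕ} (τ₀ : _root_.Fermat.Agent.S15.H975.Gal) {y : JZero p}
    (hy : y ∈ _root_.Fermat.Agent.S15.H975.sel p r (eis p S r)) : τ₀ • y - y ∈ ramSub p S r τ₀ :=
  ⟨y, hy, rfl⟩

theorem YE_eisInf_eq_sel (S : Set ℕ) (r : ℕ) :
    Fermat.Agent.S15.H208.YE _root_.Fermat.Agent.S15.H975.Gal r (eisInf p S r) = _root_.Fermat.Agent.S15.H975.sel p r (eis p S r) := by
  ext y
  constructor
  · rintro ⟨h1, h2⟩
    have h1' : ∀ σ : _root_.Fermat.Agent.S15.H975.Gal, σ • (r • y) = r • y := h1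
    have h2' : ∀ σ : _root_.Fermat.Agent.S15.H975.Gal, σ • y - y ∈ eisInf p S r := h2
    refine ⟨h1', fun σ => ⟨?_, (h2' σ).2⟩⟩
    have h3 : σ • (r • y) - r • y = r • (σ • y - y) := by
      rw [nsmul_sub, gal_smul_nsmul_h466]
    rw [← h3, h1' σ, sub_self]
  · rintro ⟨h1, h2⟩
    exact ⟨h1, fun σ => ⟨⟨1, by rw [pow_one]; exact (h2 σ).1⟩, (h2 σ).2⟩⟩

/-- Galois-stability of `eisInf` from the Galois-equivariance of the Hecke operators. -/
theorem eisInf_stable (S : Set ℕ) (r : ℕ)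
    (hTG : ∀ (ℓ : Nat.Primes) (σ : _root_.Fermat.Agent.S15.H975.Gal) (x : JZero p),
      heckeOperatorBar p ℓ (σ • x) = σ • heckeOperatorBar p ℓ x)
    (σ : _root_.Fermat.Agent.S15.H975.Gal) (x : JZero p) (hx : x ∈ eisInf p S r) : σ • x ∈ eisInf p S r := by
  obtain ⟨⟨k, hk⟩, hE⟩ := hx
  refine ⟨⟨k, by rw [← gal_smul_nsmul_h466, hk, gal_smul_zero_h466]⟩, fun ℓ h1 h2 => ?_⟩
  obtain ⟨n, hn⟩ := hE ℓ h1 h2
  refine ⟨n, ?_⟩
  have heta : ∀ z : JZero p, eta p ℓ (σ • z) = σ • eta p ℓ z := by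
    intro z
    unfold eta
    simp only [LinearMap.sub_apply, LinearMap.smul_apply, Module.End.one_apply]
    rw [hTG, gal_smul_sub_h466, gal_smul_zsmul_h466]
  have hpow : ∀ (m : ℕ) (z : JZero p), (eta p ℓ ^ m) (σ • z) = σ • (eta p ℓ ^ m) z := by
    intro m
    induction m with
    | zero => intro z; simp
    | succ m ih =>
      intro z
      rw [pow_succ, Module.End.mul_apply, heta, ih, Module.End.mul_apply]
  rw [hpow, hn, gal_smul_zero_h466]

/-- **(CNT) for `U₀ = (τ₀ - 1) Y_E`**: `|U₀|² ≤ [Y_E : A]` (instance of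
`H208.card_tauSub_YE_sq_le` for `M = eisInf p S r`). -/
theorem cnt_ramSub (S : Set ℕ) (r : ℕ) (τ₀ : _root_.Fermat.Agent.S15.H975.Gal)
    (hTG : ∀ (ℓ : Nat.Primes) (σ : _root_.Fermat.Agent.S15.H975.Gal) (x : JZero p),
      heckeOperatorBar p ℓ (σ • x) = σ • heckeOperatorBar p ℓ x)
    (hDIV : ∀ x : JZero p, ∃ y : JZero p, r • y = x)
    (hPROJ : ∀ k : ℕ, ∃ e : JZero p →+ JZero p, (∀ (σ : _root_.Fermat.Agent.S15.H975.Gal) (x : JZero p), e (σ • x) = σ • e x) ∧
      (∀ x ∈ eisInf p S r, r ^ k • x = 0 → e x = x) ∧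
      (∀ x : JZero p, r ^ k • x = 0 → e x ∈ eisInf p S r))
    (hT6 : ∀ k : ℕ, Fermat.Agent.S15.H208.T6ppAt p (r ^ k) τ₀)
    (hfinA : Finite ↥(rat p ⊓ eisInf p S r))
    (hfinY : (rat p).relIndex (_root_.Fermat.Agent.S15.H975.sel p r (eis p S r)) ≠ 0) :
    Nat.card ↥(ramSub p S r τ₀) ^ 2 ≤ (rat p).relIndex (_root_.Fermat.Agent.S15.H975.sel p r (eis p S r)) := by
  have hMt : ∀ x ∈ eisInf p S r, ∃ k : ℕ, r ^ k • x = 0 := fun x hx => hx.1
  have hMG : ∀ (σ : _root_.Fermat.Agent.S15.H975.Gal), ∀ x ∈ eisInf p S r, σ • x ∈ eisInf p S r :=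
    fun σ x hx => eisInf_stable p S r hTG σ x hx
  have hdiv := Fermat.Agent.S15.H208.hullE_divisible (G := _root_.Fermat.Agent.S15.H975.Gal) r (eisInf p S r) hDIV hPROJ
  have hT : ∀ h ∈ Fermat.Agent.S15.H208.hullE _root_.Fermat.Agent.S15.H975.Gal r (eisInf p S r),
      τ₀ • (τ₀ • h - h) - (τ₀ • h - h) = 0 := by
    rintro h ⟨⟨k, hk⟩, -⟩
    have h1 := hT6 k h hk
    have h2 : τ₀ • (τ₀ • h - h) - (τ₀ • h - h) = τ₀ • (τ₀ • h) + h - 2 • (τ₀ • h) := by
      rw [gal_smul_sub_h466, two_nsmul]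
      abel
    rw [h2, h1, sub_self]
  have hfinA' : Finite ↥(FixedPoints.addSubgroup _root_.Fermat.Agent.S15.H975.Gal (JZero p) ⊓ eisInf p S r) := by
    rw [← rat_eq_fixedPoints]
    exact hfinA
  have hfinY' : (FixedPoints.addSubgroup _root_.Fermat.Agent.S15.H975.Gal (JZero p)).relIndex
      (Fermat.Agent.S15.H208.YE _root_.Fermat.Agent.S15.H975.Gal r (eisInf p S r)) ≠ 0 := by
    rw [← rat_eq_fixedPoints, YE_eisInf_eq_sel]
    exact hfinY
  have h := Fermat.Agent.S15.H208.card_tauSub_YE_sq_le (G := _root_.Fermat.Agent.S15.H975.Gal) r (eisInf p S r) τ₀ hMt hMG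
    hdiv hT hfinA' hfinY'
  rw [← rat_eq_fixedPoints, YE_eisInf_eq_sel] at h
  exact h

/-- **SEL-BOUND on route 208.** -/
theorem selBound_route208 (S : Set ℕ) (r : ℕ) (hr : r.Prime)
    (hTG : ∀ (ℓ : Nat.Primes) (σ : _root_.Fermat.Agent.S15.H975.Gal) (x : JZero p),
      heckeOperatorBar p ℓ (σ • x) = σ • heckeOperatorBar p ℓ x)
    (hDIV : ∀ x : JZero p, ∃ y : JZero p, r • y = x)
    (hPROJ : ∀ k : ℕ, ∃ e : JZero p →+ JZero p, (∀ (σ : _root_.Fermat.Agent.S15.H975.Gal) (x : JZero p), e (σ • x) = σ • e x) ∧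
      (∀ x ∈ eisInf p S r, r ^ k • x = 0 → e x = x) ∧
      (∀ x : JZero p, r ^ k • x = 0 → e x ∈ eisInf p S r))
    (hfinA : Finite ↥(rat p ⊓ eisInf p S r))
    (D : ℕ) (F : ℕ → AddSubgroup (JZero p)) (hF : IsFlag p S r D F)
    (K : AddSubgroup (JZero p)) (hK : K ≤ eis p S r)
    (hKc : Nat.card ↥K ^ 2 ≤ Nat.card ↥(eis p S r))
    (τ₀ : _root_.Fermat.Agent.S15.H975.Gal) (hT6 : ∀ k : ℕ, Fermat.Agent.S15.H208.T6ppAt p (r ^ k) τ₀)
    (hstep : ∀ i, i < D → StepBound p r K (ramSub p S r τ₀) (F i) (F (i + 1))) :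
    SelBound p S r :=
  selBound_of_cnt p S r hr D F hF K (ramSub p S r τ₀) hK (ramSub_le p S r τ₀) hKc hstep
    (cnt_ramSub p S r τ₀ hTG hDIV hPROJ hT6 hfinA)

end Main

/-! ## The skeleton top on route 208 -/

/-- **HECKE-GAL** (on main: `S29.H571`): the Hecke operators commute with the Galois action. -/
def HeckeGalStatement : Prop :=
  ∀ (p : ℕ) [NeZero p] (ℓ : Nat.Primes) (σ : _root_.Fermat.Agent.S15.H975.Gal) (x : JZero p),
    heckeOperatorBar p ℓ (σ • x) = σ • heckeOperatorBar p ℓ x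

/-- **PROJ**: for every `k` a Galois-equivariant endomorphism of `J₀(p)` which is the identity
on the Eisenstein part of `J₀(p)[r^k]` and maps `J₀(p)[r^k]` into the Eisenstein part of
`J₀(p)[r^∞]` (a polynomial in the Hecke operators; pure algebra from FIN + commutativity). -/
def ProjStatement : Prop :=
  ∀ (p : ℕ) [NeZero p], p.Prime → ∀ (S : Finset ℕ) (r : ℕ), r.Prime → ∀ k : ℕ,
    ∃ e : JZero p →+ JZero p, (∀ (σ : _root_.Fermat.Agent.S15.H975.Gal) (x : JZero p), e (σ • x) = σ • e x) ∧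
      (∀ x ∈ eisInf p (S : Set ℕ) r, r ^ k • x = 0 → e x = x) ∧
      (∀ x : JZero p, r ^ k • x = 0 → e x ∈ eisInf p (S : Set ℕ) r)

/-- **T6''** at level `p`, inertia at `p`, all moduli `r^k` (`H208.T6ppStatement`;
owner helper608). -/
def T6ppAllStatement : Prop :=
  ∀ (p : ℕ) [NeZero p], p.Prime → ∀ r : ℕ, r.Prime → r ∣ p - 1 → ∀ k : ℕ,
    Fermat.Agent.S15.H208.T6ppStatement p p (r ^ k)

/-- **LOCAL on route 208** (replaces `H975.LocalStatement`): an inertia element `τ₀` at `p` and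
a subgroup `K ≤ W_E` with `|K|² ≤ |W_E|` such that every Eisenstein piece satisfies the step bound
relative to `K` and `U₀ = (τ₀ - 1) Y_E`.  NO bound on `|U₀|` is asked.
(`K = W_E^{cc = -1}` for `r` odd, `K = W_E ∩ (cc - 1) J[4]` for `r = 2`; `τ₀` non-trivial on the
degree-`r` subfield of `ℚ(ζ_p)` and on `p^{1/r}`.) -/
def Local208Statement : Prop :=
  ∀ (p : ℕ) [NeZero p], p.Prime → ∀ (S : Finset ℕ) (r : ℕ), r.Prime → r ∣ p - 1 →
    ∃ (A : ValuationSubring Qb) (τ₀ : _root_.Fermat.Agent.S15.H975.Gal) (K : AddSubgroup (JZero p)),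
      A.LiesOverPrime p ∧ τ₀ ∈ A.inertiaSubgroupIn ℚ ∧
      K ≤ eis p (S : Set ℕ) r ∧ Nat.card ↥K ^ 2 ≤ Nat.card ↥(eis p (S : Set ℕ) r) ∧
      ∀ F' F : AddSubgroup (JZero p), F ≤ eis p (S : Set ℕ) r → IsEisPiece p r F' F →
        StepBound p r K (ramSub p (S : Set ℕ) r τ₀) F' F

/-- **SEL-BOUND on route 208 from the nodes.** -/
theorem selBound_of_nodes208 (hDiv : DivStatement) (hFin : FinStatement) (hRtf : RtfStatement)
    (hFlag : FlagStatement) (hLoc : Local208Statement) (hT6 : T6ppAllStatement)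
    (hTG : HeckeGalStatement) (hProj : ProjStatement)
    (p : ℕ) [NeZero p] (hp : p.Prime) (S : Finset ℕ) (r : ℕ) (hr : r.Prime) (hrp : r ∣ p - 1) :
    SelBound p (S : Set ℕ) r := by
  obtain ⟨D, F, hF⟩ := hFlag p hp S r hr hrp
  obtain ⟨A, τ₀, K, hA, hτ, hK, hKc, hstep⟩ := hLoc p hp S r hr hrp
  obtain ⟨e, he, hexp⟩ := hRtf p hp
  have hfinA : Finite ↥(rat p ⊓ eisInf p (S : Set ℕ) r) := by
    have : Finite ↥(tors p e) := hFin p e he
    refine Finite.of_injective
      (fun x : ↥(rat p ⊓ eisInf p (S : Set ℕ) r) => (⟨x.1, ?_⟩ : ↥(tors p e))) ?_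
    · obtain ⟨k, hk⟩ := x.2.2.1
      exact hexp x.1 x.2.1 ⟨r ^ k, pow_pos hr.pos k, hk⟩
    · intro a b hab
      exact Subtype.ext (congrArg (fun z : ↥(tors p e) => (z : JZero p)) hab)
  exact selBound_route208 p (S : Set ℕ) r hr (hTG p) (hDiv p hp r hr) (hProj p hp S r hr) hfinA
    D F hF K hK hKc τ₀ (fun k => hT6 p hp r hr hrp k A hA τ₀ hτ)
    (fun i hi => hstep (F i) (F (i + 1)) (flag_le p hF (i + 1) hi) (hF.2.2 i hi))

/-- **The descent core on route 208** (assembly; `DescCoreTarget = H302.DescCoreAt`). -/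
theorem descCoreTarget_route208 (hA : Alg0Statement) (hDiv : DivStatement) (hFin : FinStatement)
    (hRtf : RtfStatement) (hFlag : FlagStatement) (hLoc : Local208Statement)
    (hT6 : T6ppAllStatement) (hTG : HeckeGalStatement) (hProj : ProjStatement)
    (p : ℕ) [NeZero p] (hp : p.Prime) (S : Finset ℕ) (r : ℕ) (hr : r.Prime) (hrp : r ∣ p - 1) :
    DescCoreTarget p (S : Set ℕ) r :=
  hA p (S : Set ℕ) r hp hr (hDiv p hp r hr) (fun n hn => hFin p n hn) (hRtf p hp)
    (selBound_of_nodes208 hDiv hFin hRtf hFlag hLoc hT6 hTG hProj p hp S r hr hrp)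

end Fermat.Agent.S15.H466

end
end
-- ===== PACK-END S15/H466/SelAsm.lean

-- ===== PACK-BEGIN Lib/RR/H742/AdelesCore.lean
section


/-!
# RR library, layer L4 (core, hypothesis-explicit): repartitions and `H¹(D)`

Everything here depends only on layer L1 (`Basic.lean`).  The input from Riemann's theorem is
taken as explicit hypotheses `hg` (Riemann's inequality with constant `g`) and `h₀` (the bound is
attained at `D₀`).
-/

set_option autoImplicit false

noncomputable section

open AlgebraicCurve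

namespace Fermat.Agent.Lib.RR.H742

open Fermat.Agent.Lib.RR

variable {K F : Type*} [Field K] [Field F] [Algebra K F]

/-! ### L4.0 : repartitions = families with finitely many poles -/

theorem finite_poles [HasPrincipalDivisors K F] (f : F) :
    {v : Place K F | v.ord f < 0}.Finite := by
  rcases eq_or_ne f 0 with rfl | hf
  · simp
  obtain ⟨D, hD, -⟩ := HasPrincipalDivisors.exists_divisor (K := K) f hf
  refine D.support.finite_toSet.subset fun v hv => ?_
  simp only [Set.mem_ofPred_eq] at hv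
  rw [Finset.mem_coe, Finsupp.mem_support_iff, hD v]
  omega

theorem ord_add_nonneg (v : Place K F) {a b : F} (ha : 0 ≤ v.ord a) (hb : 0 ≤ v.ord b) :
    0 ≤ v.ord (a + b) :=
  ord_nonneg_of_mem v (add_mem (mem_of_ord_nonneg v ha) (mem_of_ord_nonneg v hb))

theorem ord_mul_nonneg (v : Place K F) {a b : F} (ha : 0 ≤ v.ord a) (hb : 0 ≤ v.ord b) :
    0 ≤ v.ord (a * b) :=
  ord_nonneg_of_mem v (mul_mem (mem_of_ord_nonneg v ha) (mem_of_ord_nonneg v hb))

theorem finite_poles_of_mem_repartitions [HasPrincipalDivisors K F] {α : Place K F → F}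
    (hα : α ∈ repartitions K F) : {v : Place K F | v.ord (α v) < 0}.Finite := by
  unfold repartitions at hα
  induction hα using Algebra.adjoin_induction with
  | mem x hx =>
    have : {v : Place K F | v.ord (x v) < 0} = {v : Place K F | ¬v.adicValuation (x v) ≤ 1} :=
      Set.ext fun v => (v.not_adicValuation_le_one_iff).symm
    rw [this]; exact hx
  | algebraMap f => exact finite_poles f
  | add x y _ _ hx hy =>
    refine (hx.union hy).subset fun v hv => ?_
    simp only [Set.mem_ofPred_eq, Pi.add_apply, Set.mem_union] at hv ⊢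
    by_contra hcon
    push Not at hcon
    have := ord_add_nonneg v hcon.1 hcon.2
    omega
  | mul x y _ _ hx hy =>
    refine (hx.union hy).subset fun v hv => ?_
    simp only [Set.mem_ofPred_eq, Pi.mul_apply, Set.mem_union] at hv ⊢
    by_contra hcon
    push Not at hcon
    have := ord_mul_nonneg v hcon.1 hcon.2
    omega

/-- **L4.0** -/
theorem mem_repartitions_iff' [HasPrincipalDivisors K F] {α : Place K F → F} :
    α ∈ repartitions K F ↔ {v : Place K F | v.ord (α v) < 0}.Finite :=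
  ⟨finite_poles_of_mem_repartitions, mem_repartitions_of_finite_ord⟩

/-! ### Single-place repartitions -/

/-- The repartition which is `x` at `v` and `0` elsewhere. -/
def single (v : Place K F) (x : F) : ↥(repartitions K F) :=
  ⟨fun w => by classical exact if w = v then x else 0,
    mem_repartitions_of_finite_ord <| (Set.finite_singleton v).subset fun w hw => by
      classical
      simp only [Set.mem_ofPred_eq] at hw
      by_contra hne
      rw [Set.mem_singleton_iff] at hne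
      simp [hne] at hw⟩

@[simp] theorem single_apply_self (v : Place K F) (x : F) :
    (single v x : Place K F → F) v = x := by
  simp [single]

theorem single_apply_of_ne {v w : Place K F} (h : w ≠ v) (x : F) :
    (single v x : Place K F → F) w = 0 := by
  simp [single, h]

/-- The principal repartition of `f`. -/
def iota (f : F) : ↥(repartitions K F) := algebraMap F ↥(repartitions K F) f

@[simp] theorem iota_apply (f : F) (v : Place K F) :
    (iota (K := K) f : Place K F → F) v = f := rfl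

theorem iota_mem_principal (f : F) : iota (K := K) f ∈ principalRepartitions K F :=
  mem_principalRepartitions_iff.mpr ⟨f, rfl⟩

theorem iota_mem_repartitionsOf_iff {D : Divisor K F} {f : F} :
    iota (K := K) f ∈ repartitionsOf D ↔ f ∈ riemannRochSpace D := by
  rw [mem_repartitionsOf_iff, mem_riemannRochSpace_iff]
  rfl

@[simp] theorem coe_smul_apply (c : K) (α : ↥(repartitions K F)) (v : Place K F) :
    ((c • α : ↥(repartitions K F)) : Place K F → F) v =
      algebraMap K F c * (α : Place K F → F) v := by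
  show c • ((α : Place K F → F) v) = _
  rw [Algebra.smul_def]

@[simp] theorem coe_sub_apply (α β : ↥(repartitions K F)) (v : Place K F) :
    ((α - β : ↥(repartitions K F)) : Place K F → F) v =
      (α : Place K F → F) v - (β : Place K F → F) v := rfl

@[simp] theorem coe_add_apply (α β : ↥(repartitions K F)) (v : Place K F) :
    ((α + β : ↥(repartitions K F)) : Place K F → F) v =
      (α : Place K F → F) v + (β : Place K F → F) v := rfl

/-! ### One step -/

/-- One step for repartitions: `𝔸(D + P) ⊆ 𝔸(D) + K α₀` whenever `α₀` has order exactly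
`-(D P + 1)` at `P`. -/
theorem repartitionsOf_add_prim_le (v : Place K F) (hv : v.deg = 1) (D : Divisor K F)
    {α₀ : ↥(repartitions K F)} (hα₀ : α₀ ∈ repartitionsOf (D + prim v))
    (h0 : (α₀ : Place K F → F) v ≠ 0) (hord : v.ord ((α₀ : Place K F → F) v) = -(D v + 1)) :
    repartitionsOf (D + prim v) ≤ repartitionsOf D ⊔ Submodule.span K {α₀} := by
  intro α hα
  have hg : 0 ≤ v.ord ((α : Place K F → F) v * ((α₀ : Place K F → F) v)⁻¹) := by
    rcases eq_or_ne ((α : Place K F → F) v) 0 with h | h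
    · simp [h]
    · have h1 := ((mem_repartitionsOf_iff.mp hα) v).resolve_left h
      simp only [Finsupp.coe_add, Pi.add_apply, prim_apply_self] at h1
      rw [v.ord_mul h (inv_ne_zero h0), v.ord_inv, hord]
      omega
  obtain ⟨c, hc⟩ := exists_const_sub v hv hg
  have hdecomp : α = (α - c • α₀) + c • α₀ := by abel
  rw [hdecomp]
  refine Submodule.add_mem _ (Submodule.mem_sup_left ?_)
    (Submodule.mem_sup_right (Submodule.smul_mem _ _ (Submodule.mem_span_singleton_self _)))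
  have hmem' : α - c • α₀ ∈ repartitionsOf (D + prim v) :=
    Submodule.sub_mem _ hα (Submodule.smul_mem _ _ hα₀)
  rw [mem_repartitionsOf_iff]
  intro w
  by_cases hw : w = v
  · subst hw
    have hfac : ((α - c • α₀ : ↥(repartitions K F)) : Place K F → F) w =
        ((α : Place K F → F) w * ((α₀ : Place K F → F) w)⁻¹ - algebraMap K F c) *
          (α₀ : Place K F → F) w := by
      rw [coe_sub_apply, coe_smul_apply]
      field_simp
    rcases hc with hc | hc
    · left; rw [hfac, hc, zero_mul]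
    · rcases eq_or_ne (((α - c • α₀ : ↥(repartitions K F)) : Place K F → F) w) 0 with h0' | h0'
      · exact Or.inl h0'
      right
      have hne : (α : Place K F → F) w * ((α₀ : Place K F → F) w)⁻¹ - algebraMap K F c ≠ 0 := by
        intro h; rw [hfac, h, zero_mul] at h0'; exact h0' rfl
      rw [hfac, w.ord_mul hne h0, hord]
      omega
  · have h2 := mem_repartitionsOf_iff.mp hmem' w
    simpa [prim_apply_of_ne hw] using h2

/-- A repartition in `𝔸(D + P)` of exact order `-(D P + 1)` at `P`. -/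
theorem exists_alpha0 (v : Place K F) (D : Divisor K F) :
    ∃ α₀ : ↥(repartitions K F), α₀ ∈ repartitionsOf (D + prim v) ∧
      (α₀ : Place K F → F) v ≠ 0 ∧ v.ord ((α₀ : Place K F → F) v) = -(D v + 1) := by
  obtain ⟨t, ht⟩ := exists_ord_eq_one v
  have ht0 : t ≠ 0 := ne_zero_of_ord_ne_zero v (by omega)
  refine ⟨single v (t ^ (-(D v + 1))), ?_, ?_, ?_⟩
  · rw [mem_repartitionsOf_iff]
    intro w
    by_cases hw : w = v
    · subst hw
      right
      rw [single_apply_self, w.ord_zpow, ht]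
      simp
    · left; exact single_apply_of_ne hw _
  · rw [single_apply_self]; exact zpow_ne_zero _ ht0
  · rw [single_apply_self, v.ord_zpow, ht, mul_one]

/-- `𝔸(D) + F`. -/
abbrev SS (D : Divisor K F) : Submodule K ↥(repartitions K F) :=
  repartitionsOf D ⊔ principalRepartitions K F

theorem SS_mono {D D' : Divisor K F} (h : D ≤ D') : SS D ≤ SS D' :=
  sup_le_sup_right (repartitionsOf_mono h) _

theorem not_mem_repartitionsOf_of_ord (v : Place K F) (D : Divisor K F)
    {α₀ : ↥(repartitions K F)} (h0 : (α₀ : Place K F → F) v ≠ 0)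
    (hord : v.ord ((α₀ : Place K F → F) v) = -(D v + 1)) : α₀ ∉ repartitionsOf D := by
  intro h
  have := ((mem_repartitionsOf_iff.mp h) v).resolve_left h0
  omega

theorem mem_SS_iff {D : Divisor K F} {α : ↥(repartitions K F)} :
    α ∈ SS D ↔ ∃ f : F, α - iota f ∈ repartitionsOf D := by
  constructor
  · intro h
    obtain ⟨β, hβ, γ, hγ, rfl⟩ := Submodule.mem_sup.mp h
    obtain ⟨f, hf⟩ := mem_principalRepartitions_iff.mp hγ
    refine ⟨f, ?_⟩
    have : γ = iota f := Subtype.ext hf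
    rw [this, add_sub_cancel_right]
    exact hβ
  · rintro ⟨f, hf⟩
    have : α = (α - iota f) + iota f := by abel
    rw [this]
    exact Submodule.add_mem _ (Submodule.mem_sup_left hf)
      (Submodule.mem_sup_right (iota_mem_principal f))

section FF1

variable [hFF : FF1 K F]

/-- Case A of the step: if `ℓ` jumps, `𝔸(D + P) + F = 𝔸(D) + F`. -/
theorem SS_add_prim_of_ell (D : Divisor K F) (v : Place K F)
    (h : ell (D + prim v) = ell D + 1) : SS (D + prim v) = SS D := by
  apply le_antisymm _ (SS_mono (le_add_of_nonneg_right (by simp [prim])))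
  have hle : riemannRochSpace D ≤ riemannRochSpace (D + prim v) :=
    L_mono (le_add_of_nonneg_right (by simp [prim]))
  have hne : ¬ riemannRochSpace (D + prim v) ≤ riemannRochSpace D := by
    intro hcon
    have := Submodule.finrank_mono hcon
    unfold ell at h
    omega
  obtain ⟨f, hf, hf'⟩ := SetLike.not_le_iff_exists.mp hne
  have hf0 : f ≠ 0 := fun h => hf' (h ▸ Submodule.zero_mem _)
  have hord : v.ord f = -(D v + 1) := by
    have h1 := (mem_L_iff.mp hf v).resolve_left hf0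
    simp only [Finsupp.coe_add, Pi.add_apply, prim_apply_self] at h1
    by_contra hne'
    apply hf'
    rw [mem_L_iff]
    intro w
    right
    by_cases hw : w = v
    · subst hw; omega
    · have h2 := (mem_L_iff.mp hf w).resolve_left hf0
      simpa [prim_apply_of_ne hw] using h2
  have hstep := repartitionsOf_add_prim_le v (deg_eq_one v) D
    (α₀ := iota f) (iota_mem_repartitionsOf_iff.mpr hf) (by simpa using hf0)
    (by simpa using hord)
  refine sup_le (hstep.trans (sup_le le_sup_left ?_)) le_sup_right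
  rw [Submodule.span_singleton_le_iff_mem]
  exact Submodule.mem_sup_right (iota_mem_principal f)

/-- Case B of the step: if `ℓ` does not jump, `α₀ ∉ 𝔸(D) + F`. -/
theorem not_mem_SS_of_ell (D : Divisor K F) (v : Place K F)
    (h : ell (D + prim v) = ell D) {α₀ : ↥(repartitions K F)}
    (hα₀ : α₀ ∈ repartitionsOf (D + prim v))
    (h0 : (α₀ : Place K F → F) v ≠ 0) (hord : v.ord ((α₀ : Place K F → F) v) = -(D v + 1)) :
    α₀ ∉ SS D := by
  intro hmem
  obtain ⟨f, hf⟩ := mem_SS_iff.mp hmem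
  have hle : riemannRochSpace D ≤ riemannRochSpace (D + prim v) :=
    L_mono (le_add_of_nonneg_right (by simp [prim]))
  have heq : riemannRochSpace D = riemannRochSpace (D + prim v) :=
    Submodule.eq_of_le_of_finrank_eq hle h.symm
  have hf' : α₀ - iota f ∈ repartitionsOf (D + prim v) :=
    repartitionsOf_mono (le_add_of_nonneg_right (by simp [prim])) hf
  have hif : iota (K := K) f ∈ repartitionsOf (D + prim v) := by
    have := Submodule.sub_mem _ hα₀ hf'
    rwa [sub_sub_cancel] at this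
  have hfL : f ∈ riemannRochSpace D := by
    rw [heq]; exact iota_mem_repartitionsOf_iff.mp hif
  have : α₀ ∈ repartitionsOf D := by
    have := Submodule.add_mem _ hf (iota_mem_repartitionsOf_iff.mpr hfL)
    rwa [sub_add_cancel] at this
  exact not_mem_repartitionsOf_of_ord v D h0 hord this

theorem SS_add_prim_eq_sup (D : Divisor K F) (v : Place K F) {α₀ : ↥(repartitions K F)}
    (hα₀ : α₀ ∈ repartitionsOf (D + prim v))
    (h0 : (α₀ : Place K F → F) v ≠ 0) (hord : v.ord ((α₀ : Place K F → F) v) = -(D v + 1)) :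
    SS (D + prim v) = SS D ⊔ Submodule.span K {α₀} := by
  apply le_antisymm
  · refine sup_le ((repartitionsOf_add_prim_le v (deg_eq_one v) D hα₀ h0 hord).trans ?_) ?_
    · exact sup_le (le_sup_left.trans le_sup_left) le_sup_right
    · exact le_sup_right.trans le_sup_left
  · refine sup_le (SS_mono (le_add_of_nonneg_right (by simp [prim]))) ?_
    rw [Submodule.span_singleton_le_iff_mem]
    exact Submodule.mem_sup_left hα₀

/-- Linear algebra: extending a complement by one vector. -/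
theorem ext_step {A : Type*} [AddCommGroup A] [Module K A] (S W : Submodule K A)
    [Module.Finite K W] (hd : Disjoint S W) {a : A} (ha : a ∉ S ⊔ W) :
    Disjoint S (W ⊔ Submodule.span K {a}) ∧ Module.Finite K ↥(W ⊔ Submodule.span K {a}) ∧
      Module.finrank K ↥(W ⊔ Submodule.span K {a}) = Module.finrank K W + 1 := by
  have haW : a ∉ W := fun h => ha (Submodule.mem_sup_right h)
  have ha0 : a ≠ 0 := fun h => haW (h ▸ Submodule.zero_mem _)
  refine ⟨?_, inferInstance, ?_⟩
  · rw [Submodule.disjoint_def]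
    intro x hxS hx
    obtain ⟨w, hw, y, hy, rfl⟩ := Submodule.mem_sup.mp hx
    obtain ⟨c, rfl⟩ := Submodule.mem_span_singleton.mp hy
    by_cases hc : c = 0
    · subst hc
      rw [zero_smul, add_zero] at hxS ⊢
      exact (Submodule.disjoint_def.mp hd) w hxS hw
    · exfalso
      apply ha
      have : a = c⁻¹ • (w + c • a) + (-(c⁻¹ • w)) := by
        rw [smul_add, smul_smul, inv_mul_cancel₀ hc, one_smul]; abel
      rw [this]
      exact Submodule.add_mem _ (Submodule.mem_sup_left (Submodule.smul_mem _ _ hxS))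
        (Submodule.mem_sup_right (Submodule.neg_mem _ (Submodule.smul_mem _ _ hw)))
  · have h1 := Submodule.finrank_sup_add_finrank_inf_eq W (Submodule.span K {a})
    have h2 : W ⊓ Submodule.span K {a} = ⊥ := by
      rw [← disjoint_iff, Submodule.disjoint_span_singleton]
      intro h; exact absurd h haW
    rw [h2, finrank_bot, add_zero, finrank_span_singleton ha0] at h1
    exact h1

/-- For `D ≤ D'`, the space `𝔸(D') + F` is the direct sum of `𝔸(D) + F` and a finite-dimensional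
space of dimension `(deg D' - ℓ(D')) - (deg D - ℓ(D))`. -/
theorem exists_compl_of_le (D : Divisor K F) : ∀ D' : Divisor K F, D ≤ D' →
    ∃ W : Submodule K ↥(repartitions K F), Module.Finite K W ∧ Disjoint (SS D) W ∧
      SS D ⊔ W = SS D' ∧
      (Module.finrank K W : ℤ) =
        (Divisor.degree D' - ell D') - (Divisor.degree D - ell D) := by
  refine induction_ge D ?_ ?_
  · exact ⟨⊥, inferInstance, disjoint_bot_right, sup_bot_eq _, by simp⟩
  · rintro D'' v - ⟨W, hfin, hdisj, hsup, hrank⟩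
    have h1 := ell_add_prim_le D'' v
    have h2 : ell D'' ≤ ell (D'' + prim v) :=
      ell_mono (le_add_of_nonneg_right (by simp [prim]))
    have hdeg : Divisor.degree (D'' + prim v) = Divisor.degree D'' + 1 := by
      rw [map_add, degree_prim']
    by_cases hA : ell (D'' + prim v) = ell D'' + 1
    · refine ⟨W, hfin, hdisj, ?_, ?_⟩
      · rw [hsup, SS_add_prim_of_ell D'' v hA]
      · rw [hrank, hdeg, hA]; push_cast; ring
    · have hB : ell (D'' + prim v) = ell D'' := by omega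
      obtain ⟨α₀, hα₀, h0, hord⟩ := exists_alpha0 v D''
      have hnot : α₀ ∉ SS D ⊔ W := by
        rw [hsup]; exact not_mem_SS_of_ell D'' v hB hα₀ h0 hord
      obtain ⟨hd', hfin', hrank'⟩ := ext_step (SS D) W hdisj hnot
      refine ⟨W ⊔ Submodule.span K {α₀}, hfin', hd', ?_, ?_⟩
      · rw [← sup_assoc, hsup, SS_add_prim_eq_sup D'' v hα₀ h0 hord]
      · rw [hrank', hdeg, hB]; push_cast; rw [hrank]; ring

/-- Every repartition lies in some `𝔸(E)`. -/
theorem exists_mem_repartitionsOf (α : ↥(repartitions K F)) :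
    ∃ E : Divisor K F, α ∈ repartitionsOf E := by
  classical
  have hfin := finite_poles_of_mem_repartitions α.2
  let E : Divisor K F := Finsupp.ofSupportFinite
    (fun v => if v.ord ((α : Place K F → F) v) < 0 then -v.ord ((α : Place K F → F) v) else 0)
    (hfin.subset fun v hv => by
      simp only [Function.mem_support, ne_eq, ite_eq_right_iff, not_forall] at hv
      exact hv.1)
  refine ⟨E, mem_repartitionsOf_iff.mpr fun v => Or.inr ?_⟩
  show -(if v.ord ((α : Place K F → F) v) < 0 then -v.ord ((α : Place K F → F) v) else 0) ≤ _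
  split_ifs with h
  · omega
  · omega

/-- If Riemann's bound is attained at `D₀` then `𝔸 = 𝔸(D₀) + F`. -/
theorem SS_eq_top_of_attained (g : ℤ)
    (hg : ∀ D : Divisor K F, Divisor.degree D + 1 - g ≤ ell D) {D₀ : Divisor K F}
    (h₀ : (ell D₀ : ℤ) = Divisor.degree D₀ + 1 - g) : SS D₀ = ⊤ := by
  rw [eq_top_iff]
  intro α _
  obtain ⟨E, hE⟩ := exists_mem_repartitionsOf α
  obtain ⟨W, hfin, -, hsup, hrank⟩ := exists_compl_of_le D₀ (D₀ ⊔ E) le_sup_left
  have h1 := hg (D₀ ⊔ E)
  have h2 : Module.finrank K W = 0 := by omega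
  have h3 : W = ⊥ := Submodule.finrank_eq_zero.mp h2
  rw [h3, sup_bot_eq] at hsup
  rw [hsup]
  exact Submodule.mem_sup_left (repartitionsOf_mono le_sup_right hE)

/-- **L4.1 + L4.2, hypothesis-explicit**: `H¹(D)` is finite-dimensional and
`ℓ(D) - dim H¹(D) = deg D + 1 - g`, where `g` is the constant of Riemann's inequality,
attained at some `D₀`. -/
theorem H1_core (g : ℤ)
    (hg : ∀ D : Divisor K F, Divisor.degree D + 1 - g ≤ ell D) {D₀ : Divisor K F}
    (h₀ : (ell D₀ : ℤ) = Divisor.degree D₀ + 1 - g) (D : Divisor K F) :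
    Module.Finite K (H1 D) ∧
      (ell D : ℤ) - Module.finrank K (H1 D) = Divisor.degree D + 1 - g := by
  have hmono := degree_sub_ell_mono (le_sup_right : D₀ ≤ D ⊔ D₀)
  have h1 := hg (D ⊔ D₀)
  have hatt : (ell (D ⊔ D₀) : ℤ) = Divisor.degree (D ⊔ D₀) + 1 - g := by omega
  have htop := SS_eq_top_of_attained g hg hatt
  obtain ⟨W, hfin, hdisj, hsup, hrank⟩ := exists_compl_of_le D (D ⊔ D₀) le_sup_left
  rw [htop] at hsup
  have hcompl : IsCompl (SS D) W := ⟨hdisj, codisjoint_iff.mpr hsup⟩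
  let e : (↥(repartitions K F) ⧸ SS D) ≃ₗ[K] W := Submodule.quotientEquivOfIsCompl _ _ hcompl
  have hfinH : Module.Finite K (H1 D) := Module.Finite.equiv e.symm
  refine ⟨hfinH, ?_⟩
  have hr : Module.finrank K (H1 D) = Module.finrank K W := e.finrank_eq
  rw [hr, hrank]
  omega

end FF1

end Fermat.Agent.Lib.RR.H742

end
end
-- ===== PACK-END Lib/RR/H742/AdelesCore.lean

-- ===== PACK-BEGIN Lib/RR/H80/Res/Symbol2.lean
section


/-!
# Tate's residue symbol, abstract part 3

* `tsym_unif` : `res (h g⁻¹ dg) = c` if `g A ⊆ A`, `A = g A ⊕ K a₀` and `h ≡ c` on `A / g A`;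
* `exists_isProj` : every subspace is the image of a projector;
* `tsym_eq_zero_of_cocompact` : the abstract residue theorem: if `f`, `g` preserve a subspace `B`
  with `A ∩ B` finite-dimensional and `A + B` of finite codimension, then `res^V_A (f dg) = 0`.
-/

set_option autoImplicit false

noncomputable section

namespace Fermat.Agent.Lib.RR.H80

open LinearMap Module

variable {K V : Type*} [Field K] [AddCommGroup V] [Module K V]

variable {A B : Submodule K V}

theorem isProj_projection {p q : Submodule K V} (h : IsCompl p q) :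
    LinearMap.IsProj p (p.projection q h) :=
  ⟨fun x => Submodule.projection_apply_mem h x,
    fun _ hx => Submodule.projection_apply_of_mem_left h hx⟩

theorem exists_isProj (A : Submodule K V) : ∃ p : Module.End K V, LinearMap.IsProj A p := by
  obtain ⟨q, hq⟩ := Submodule.exists_isCompl A
  exact ⟨A.projection q hq, isProj_projection hq⟩

theorem isProj_one_sub {p q : Submodule K V} (h : IsCompl p q) :
    LinearMap.IsProj q ((1 : Module.End K V) - p.projection q h) := by
  have key : (1 : Module.End K V) - p.projection q h = q.projection p h.symm := by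
    have := Submodule.projection_add_projection_eq_id h
    exact (eq_sub_of_add_eq' this).symm
  rw [key]
  exact isProj_projection h.symm

/-- `res (h g⁻¹ dg) = c`. -/
theorem tsym_unif {p g gi h : Module.End K V} (hp : LinearMap.IsProj A p)
    (hg2 : gi * g = 1) (hgh : h * gi = gi * h)
    (hgA : A.map g ≤ A) (hhA : A.map h ≤ A) (c : K)
    (hc : ∀ a ∈ A, h a - c • a ∈ A.map g)
    (a₀ : V) (ha₀ : a₀ ∈ A) (ha₀' : a₀ ∉ A.map g)
    (hspan : ∀ a ∈ A, ∃ k : K, a - k • a₀ ∈ A.map g) :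
    tsym p (h * gi) g = c := by
  unfold tsym
  set q : Module.End K V := g * p * gi with hq
  have e : p * (h * gi) * g - g * (p * (h * gi)) = (p - q) * h := by
    have e1 : p * (h * gi) * g = p * h := by
      rw [mul_assoc, mul_assoc, hg2, mul_one]
    have e2 : g * (p * (h * gi)) = q * h := by
      rw [hq, hgh]; noncomm_ring
    rw [e1, e2, sub_mul]
  rw [e]
  set θ : Module.End K V := (p - q) * h with hθ
  -- basic facts on `q`
  have hq_mem : ∀ x, q x ∈ A.map g := fun x => ⟨p (gi x), hp.map_mem _, rfl⟩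
  have hq_id : ∀ y ∈ A.map g, q y = y := by
    rintro _ ⟨a, ha, rfl⟩
    simp only [hq, Module.End.mul_apply]
    have : gi (g a) = a := by
      have := congrArg (fun φ : Module.End K V => φ a) hg2
      simpa using this
    rw [this, hp.map_id a ha]
  set c₀ : V := a₀ - q a₀ with hc₀
  have hc₀A : c₀ ∈ A := Submodule.sub_mem _ ha₀ (hgA (hq_mem a₀))
  have hc₀ne : c₀ ≠ 0 := by
    intro h0
    apply ha₀'
    have : a₀ = q a₀ := sub_eq_zero.mp h0
    rw [this]
    exact hq_mem a₀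
  have hqc₀ : q c₀ = 0 := by
    rw [hc₀, map_sub, hq_id _ (hq_mem a₀), sub_self]
  -- `(1 - q) a ∈ K c₀` for `a ∈ A`
  have hline : ∀ a ∈ A, ∃ k : K, a - q a = k • c₀ := by
    intro a ha
    obtain ⟨k, hk⟩ := hspan a ha
    refine ⟨k, ?_⟩
    have h1 : q (a - k • a₀) = a - k • a₀ := hq_id _ hk
    rw [map_sub, map_smul] at h1
    rw [hc₀, smul_sub]
    have : a - q a = k • a₀ - k • q a₀ + ((a - k • a₀) - (q a - k • q a₀)) := by abel
    rw [this, h1, sub_self, add_zero]
  have hθA : ∀ a ∈ A, ∃ k : K, θ a = k • c₀ := by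
    intro a ha
    have hha : h a ∈ A := hhA ⟨a, ha, rfl⟩
    obtain ⟨k, hk⟩ := hline (h a) hha
    refine ⟨k, ?_⟩
    rw [hθ, Module.End.mul_apply, LinearMap.sub_apply, hp.map_id _ hha, hk]
  have hθmem : ∀ x, θ x ∈ A := by
    intro x
    rw [hθ, Module.End.mul_apply, LinearMap.sub_apply]
    exact Submodule.sub_mem _ (hp.map_mem _) (hgA (hq_mem _))
  have hθc₀ : θ c₀ = c • c₀ := by
    have hh : h c₀ ∈ A := hhA ⟨c₀, hc₀A, rfl⟩
    rw [hθ, Module.End.mul_apply, LinearMap.sub_apply, hp.map_id _ hh]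
    have h1 := hq_id _ (hc c₀ hc₀A)
    rw [map_sub, map_smul, hqc₀, smul_zero, sub_zero] at h1
    rw [h1]
    abel
  -- the line `C = K c₀`
  set C : Submodule K V := K ∙ c₀ with hC
  have hCst : ∀ x ∈ C, θ x ∈ C := by
    intro x hx
    obtain ⟨k, rfl⟩ := Submodule.mem_span_singleton.mp hx
    rw [map_smul, hθc₀]
    exact Submodule.smul_mem _ _ (Submodule.smul_mem _ _ (Submodule.mem_span_singleton_self c₀))
  have hpow : LinearMap.range (θ ^ 2) ≤ C := by
    rintro _ ⟨x, rfl⟩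
    rw [pow_two, Module.End.mul_apply]
    obtain ⟨k, hk⟩ := hθA (θ x) (hθmem x)
    rw [hk]
    exact Submodule.smul_mem _ _ (Submodule.mem_span_singleton_self c₀)
  rw [fpTr_eq_trace_restrict θ C hCst 2 hpow]
  have hres : θ.restrict hCst = c • (1 : Module.End K C) := by
    ext ⟨x, hx⟩
    obtain ⟨k, rfl⟩ := Submodule.mem_span_singleton.mp hx
    show θ (k • c₀) = c • (k • c₀)
    rw [map_smul, hθc₀, smul_comm]
  rw [hres, map_smul, LinearMap.trace_one, hC, finrank_span_singleton hc₀ne]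
  simp

/-- Complementary projectors give opposite symbols. -/
theorem tsym_one_sub {p f g : Module.End K V} (hc : f * g = g * f) :
    tsym (1 - p) f g = -tsym p f g := by
  unfold tsym
  rw [← fpTr_neg]
  congr 1
  have : f * g - g * f = 0 := sub_eq_zero.mpr hc
  calc (1 - p) * f * g - g * ((1 - p) * f)
      = -(p * f * g - g * (p * f)) + (f * g - g * f) := by noncomm_ring
    _ = _ := by rw [this, add_zero]

/-- **The abstract residue theorem.** -/
theorem tsym_eq_zero_of_cocompact {p f g : Module.End K V} (hp : LinearMap.IsProj A p)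
    (hf : EE A f) (hg : EE A g) (hc : f * g = g * f)
    (hfB : B.map f ≤ B) (hgB : B.map g ≤ B)
    (hinf : FiniteDimensional K ↥(A ⊓ B))
    (hsup : ∃ C : Submodule K V, FiniteDimensional K C ∧ A ⊔ B ⊔ C = ⊤) :
    tsym p f g = 0 := by
  obtain ⟨C, hCfin, hC⟩ := hsup
  -- `A' ⊆ A` with `A' ∩ B = 0`, `A = A' + (A ∩ B)`
  obtain ⟨D, hD⟩ := Submodule.exists_isCompl (A ⊓ B)
  set A' : Submodule K V := A ⊓ D with hA'
  have hA'le : A' ≤ A := inf_le_left
  have hA'B : A' ⊓ B = ⊥ := by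
    rw [hA', inf_right_comm]
    exact hD.inf_eq_bot
  have hAle : A ≤ A' ⊔ (A ⊓ B) := by
    intro a ha
    have htop : a ∈ (A ⊓ B) ⊔ D := by rw [hD.sup_eq_top]; trivial
    obtain ⟨x, hx, d, hd, rfl⟩ := Submodule.mem_sup.mp htop
    have hdA : d ∈ A := by
      have := Submodule.sub_mem _ ha hx.1
      simpa using this
    exact Submodule.add_mem _ (Submodule.mem_sup_right hx) (Submodule.mem_sup_left ⟨hdA, hd⟩)
  have hAA' : AlmostLE A A' := ⟨A ⊓ B, hinf, hAle⟩
  have hA'A : AlmostLE A' A := AlmostLE.of_le hA'le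
  -- `M = A' + B = A + B`
  set M : Submodule K V := A' ⊔ B with hM
  have hMC : M ⊔ C = ⊤ := by
    rw [eq_top_iff, ← hC]
    refine sup_le (sup_le (hAle.trans ?_) (le_sup_of_le_left le_sup_right)) le_sup_right
    exact le_sup_of_le_left (sup_le le_sup_left (inf_le_right.trans le_sup_right))
  -- `C' ⊆ C` with `M ∩ C' = 0`, `M + C' = V`
  obtain ⟨D', hD'⟩ := Submodule.exists_isCompl (M ⊓ C)
  set C' : Submodule K V := C ⊓ D' with hC'
  have hC'fin : FiniteDimensional K C' := Submodule.finiteDimensional_of_le inf_le_left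
  have hMC' : M ⊓ C' = ⊥ := by
    rw [hC', ← inf_assoc]
    exact hD'.inf_eq_bot
  have hCle : C ≤ M ⊔ C' := by
    intro x hx
    have htop : x ∈ (M ⊓ C) ⊔ D' := by rw [hD'.sup_eq_top]; trivial
    obtain ⟨y, hy, d, hd, rfl⟩ := Submodule.mem_sup.mp htop
    have hdC : d ∈ C := by
      have := Submodule.sub_mem _ hx hy.2
      simpa using this
    exact Submodule.add_mem _ (Submodule.mem_sup_left hy.1) (Submodule.mem_sup_right ⟨hdC, hd⟩)
  set B' : Submodule K V := B ⊔ C' with hB'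
  have hcompl : IsCompl A' B' := by
    constructor
    · rw [disjoint_iff, eq_bot_iff]
      rintro x ⟨hxA, hxB⟩
      obtain ⟨b, hb, c', hc', rfl⟩ := Submodule.mem_sup.mp hxB
      have h1 : c' ∈ M ⊓ C' := by
        refine ⟨?_, hc'⟩
        have : c' = (b + c') - b := by abel
        rw [this]
        exact Submodule.sub_mem _ (Submodule.mem_sup_left hxA) (Submodule.mem_sup_right hb)
      rw [hMC', Submodule.mem_bot] at h1
      subst h1
      rw [add_zero] at hxA ⊢
      have h2 : b ∈ A' ⊓ B := ⟨hxA, hb⟩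
      rw [hA'B] at h2
      exact h2
    · rw [codisjoint_iff, eq_top_iff, ← hMC]
      refine sup_le ?_ (hCle.trans ?_)
      · exact sup_le le_sup_left (le_sup_of_le_right le_sup_left)
      · exact sup_le (sup_le le_sup_left (le_sup_of_le_right le_sup_left))
          (le_sup_of_le_right le_sup_right)
  have hBB' : AlmostLE B B' := AlmostLE.of_le le_sup_left
  have hB'B : AlmostLE B' B := ⟨C', hC'fin, le_rfl⟩
  obtain ⟨pB, hpB⟩ := exists_isProj B
  have hfB' : EE B f := EE.of_map_le hfB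
  have hgB' : EE B g := EE.of_map_le hgB
  -- chain of equalities
  have s1 : tsym p f g = tsym (A'.projection B' hcompl) f g :=
    tsym_congr hp (isProj_projection hcompl) hAA' hA'A hf hg hc
  have s2 : tsym (1 - A'.projection B' hcompl) f g = -tsym (A'.projection B' hcompl) f g :=
    tsym_one_sub hc
  have s3 : tsym (1 - A'.projection B' hcompl) f g = tsym pB f g :=
    tsym_congr (isProj_one_sub hcompl) hpB hB'B hBB' (hfB'.of_almost hBB' hB'B)
      (hgB'.of_almost hBB' hB'B) hc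
  have s4 : tsym pB f g = 0 := tsym_eq_zero_of_map_le hpB hfB hgB hc
  rw [s1, ← neg_neg (tsym (A'.projection B' hcompl) f g), ← s2, s3, s4, neg_zero]

end Fermat.Agent.Lib.RR.H80

end
end
-- ===== PACK-END Lib/RR/H80/Res/Symbol2.lean

-- ===== PACK-BEGIN Lib/RR/H80/Res/Idem.lean
section


/-!
# Tate's residue symbol, abstract part 4: localisation at an idempotent

If `e` is an idempotent preserving `A` and `f = e f`, the symbol `tsym p f g` with respect to `A`
can be computed with respect to the corner `e A` (projector `e p e`).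
-/

set_option autoImplicit false

noncomputable section

namespace Fermat.Agent.Lib.RR.H80

open LinearMap Module

variable {K V : Type*} [Field K] [AddCommGroup V] [Module K V]
variable {A : Submodule K V}

theorem isProj_block {p e : Module.End K V} (hp : LinearMap.IsProj A p) (he : e * e = e)
    (heA : A.map e ≤ A) :
    LinearMap.IsProj A (e * p * e + (1 - e) * p * (1 - e)) := by
  have heA' : ∀ a ∈ A, e a ∈ A := fun a ha => heA (Submodule.mem_map_of_mem ha)
  have he' : ∀ x, e (e x) = e x := fun x => by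
    rw [← Module.End.mul_apply, he]
  constructor
  · intro x
    simp only [LinearMap.add_apply, Module.End.mul_apply, LinearMap.sub_apply,
      Module.End.one_apply]
    refine A.add_mem (heA' _ (hp.map_mem _)) ?_
    exact A.sub_mem (hp.map_mem _) (heA' _ (hp.map_mem _))
  · intro x hx
    simp only [LinearMap.add_apply, Module.End.mul_apply, LinearMap.sub_apply,
      Module.End.one_apply]
    rw [hp.map_id _ (heA' x hx), he', hp.map_id _ (A.sub_mem hx (heA' x hx)), map_sub, he']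
    abel

theorem isProj_corner {p e : Module.End K V} (hp : LinearMap.IsProj A p) (he : e * e = e)
    (heA : A.map e ≤ A) :
    LinearMap.IsProj (A.map e) (e * p * e) := by
  have heA' : ∀ a ∈ A, e a ∈ A := fun a ha => heA (Submodule.mem_map_of_mem ha)
  have he' : ∀ x, e (e x) = e x := fun x => by
    rw [← Module.End.mul_apply, he]
  constructor
  · intro x
    simp only [Module.End.mul_apply]
    exact Submodule.mem_map_of_mem (hp.map_mem _)
  · rintro _ ⟨a, ha, rfl⟩
    simp only [Module.End.mul_apply]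
    rw [he', hp.map_id _ (heA' a ha), he']

theorem tsym_corner {p e f g : Module.End K V} (hp : LinearMap.IsProj A p) (he : e * e = e)
    (heA : A.map e ≤ A) (hf : EE A f) (hg : EE A g) (hc : f * g = g * f) (hef : e * f = f) :
    tsym p f g = tsym (e * p * e) f g := by
  rw [tsym_congr hp (isProj_block hp he heA) (AlmostLE.refl A) (AlmostLE.refl A) hf hg hc]
  have key : (e * p * e + (1 - e) * p * (1 - e)) * f = e * p * e * f := by
    have h0 : (1 - e) * f = 0 := by
      rw [sub_mul, one_mul, hef, sub_self]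
    rw [add_mul, mul_assoc ((1 - e) * p), h0, mul_zero, add_zero]
  unfold tsym
  rw [key]

/-- The symbol vanishes if `f = e f` for an idempotent `e` preserving `A`, and `f`, `g` preserve
the corner `e A`. -/
theorem tsym_eq_zero_of_corner {p e f g : Module.End K V} (hp : LinearMap.IsProj A p)
    (he : e * e = e) (heA : A.map e ≤ A) (hf : EE A f) (hg : EE A g) (hc : f * g = g * f)
    (hef : e * f = f) (hfA : (A.map e).map f ≤ A.map e) (hgA : (A.map e).map g ≤ A.map e) :
    tsym p f g = 0 := by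
  rw [tsym_corner hp he heA hf hg hc hef]
  exact tsym_eq_zero_of_map_le (isProj_corner hp he heA) hfA hgA hc

end Fermat.Agent.Lib.RR.H80

end
end
-- ===== PACK-END Lib/RR/H80/Res/Idem.lean

-- ===== PACK-BEGIN A2/T0/H669/T0.lean
section




/-!
# WALL A2, piece T0 (helper669): Kummer form of the wall ⇒ the wall

Interface of `origin/helper13:Fermat/Agent/A2/{Spec,Skel}.lean` (`target_of_kummerTarget`), stated
here with the two definitions `KummerTarget`, `Target` of `Spec.lean` UNFOLDED (so that this file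
only imports files which are on main).  `Spec.act N τ` is by definition
`arithmeticRingAut (modularFunctionFieldFull N) τ`.

* `a2Kummer_of_kummer`          : one `τ`; pointwise Kummer statement ⇒ `H129.A2Kummer N m τ`
                                  (the hypothesis consumed by `H909` / TRANSFER).
* `unipotent_of_kummer`         : one `τ`; pointwise Kummer statement ⇒ `τ•τ•x + x = 2•τ•x`.
* `target_of_kummerTarget`      : `KummerTarget N q m → Target N q m` (both unfolded), VERBATIM the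
                                  statement T0 of `Skel.lean` after `unfold KummerTarget Target act`.
* `a2Kummer_of_kummerTarget`    : `KummerTarget N q m → ∀ P | q, ∀ τ ∈ I_P, H129.A2Kummer N m τ`.
-/

set_option autoImplicit false

noncomputable section

namespace Fermat.Agent.A2.T0.H669

open ModularCurve AlgebraicCurve

/-- The pointwise Kummer statement for one `τ` (body of `Spec.KummerTarget`). -/
def KummerAt (N m : ℕ) (τ : AlgebraicClosure ℚ ≃ₐ[ℚ] AlgebraicClosure ℚ) : Prop :=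
  ∀ f : modularFunctionFieldBar N, f ≠ 0 →
    (∀ v : Place (AlgebraicClosure ℚ) (modularFunctionFieldBar N), (m : ℤ) ∣ v.ord f) →
    ∃ h : modularFunctionFieldBar N, h ≠ 0 ∧
      arithmeticRingAut (modularFunctionFieldFull N) τ
          (arithmeticRingAut (modularFunctionFieldFull N) τ f) * f =
        h ^ m * (arithmeticRingAut (modularFunctionFieldFull N) τ f) ^ 2

/-- `(τ-1)² f = τ²f · f / (τ f)²` in the notation of `H129`. -/
theorem tauSubOne_tauSubOne_eq {F : Type*} [Field F] (τ : F ≃+* F) {f : F} (hf : f ≠ 0) :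
    H129.tauSubOne τ (H129.tauSubOne τ f) = τ (τ f) * f * ((τ f) ^ 2)⁻¹ := by
  have hτf : τ f ≠ 0 := (map_ne_zero_iff τ τ.injective).2 hf
  unfold H129.tauSubOne
  rw [map_mul, map_inv₀, mul_inv, inv_inv]
  field_simp

/-- One `τ`: the pointwise Kummer statement gives `H129.A2Kummer`. -/
theorem a2Kummer_of_kummer (N m : ℕ) (τ : AlgebraicClosure ℚ ≃ₐ[ℚ] AlgebraicClosure ℚ)
    (h : KummerAt N m τ) : H129.A2Kummer N m τ := by
  intro f hf hdiv
  obtain ⟨y, _, hy⟩ := h f hf hdiv
  refine ⟨y, 1, one_ne_zero, ?_⟩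
  rw [toRingAut_arithmeticGalois, tauSubOne_tauSubOne_eq _ hf, hy, map_one, one_mul]
  have hτf : arithmeticRingAut (modularFunctionFieldFull N) τ f ≠ 0 :=
    (map_ne_zero_iff _ (arithmeticRingAut (modularFunctionFieldFull N) τ).injective).2 hf
  field_simp

/-- One `τ`: the pointwise Kummer statement gives `(τ - 1)² = 0` on `J₀(N)[m]`. -/
theorem unipotent_of_kummer (N m : ℕ) (hm : 0 < m)
    (τ : AlgebraicClosure ℚ ≃ₐ[ℚ] AlgebraicClosure ℚ) (h : KummerAt N m τ)
    (x : JZero N) (hx : m • x = 0) :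
    τ • (τ • x) + x = 2 • (τ • x) := by
  have h1 := H129.unipotent_JZero_of_kummer N m hm.ne' τ (a2Kummer_of_kummer N m τ h) x hx
  rw [smul_sub] at h1
  rw [two_nsmul]
  have h2 : τ • (τ • x) = τ • x - x + τ • x := by
    rw [← h1]; abel
  rw [h2]; abel

/-- **T0** (`target_of_kummerTarget` of `Skel.lean`, definitions unfolded). -/
theorem target_of_kummerTarget (N q m : ℕ) (hm : 0 < m)
    (h : ∀ P : ValuationSubring (AlgebraicClosure ℚ), P.LiesOverPrime q →
      ∀ τ ∈ P.inertiaSubgroupIn ℚ, ∀ f : modularFunctionFieldBar N, f ≠ 0 →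
        (∀ v : Place (AlgebraicClosure ℚ) (modularFunctionFieldBar N), (m : ℤ) ∣ v.ord f) →
        ∃ h : modularFunctionFieldBar N, h ≠ 0 ∧
          arithmeticRingAut (modularFunctionFieldFull N) τ
              (arithmeticRingAut (modularFunctionFieldFull N) τ f) * f =
            h ^ m * (arithmeticRingAut (modularFunctionFieldFull N) τ f) ^ 2) :
    ∀ P : ValuationSubring (AlgebraicClosure ℚ), P.LiesOverPrime q →
      ∀ τ ∈ P.inertiaSubgroupIn ℚ, ∀ x : JZero N, m • x = 0 →
        τ • (τ • x) + x = 2 • (τ • x) :=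
  fun P hP τ hτ x hx => unipotent_of_kummer N m hm τ (h P hP τ hτ) x hx

/-- **T0'** : the form consumed by `H909` (TRANSFER): `H129.A2Kummer` for every inertia
element at `q`. -/
theorem a2Kummer_of_kummerTarget (N q m : ℕ)
    (h : ∀ P : ValuationSubring (AlgebraicClosure ℚ), P.LiesOverPrime q →
      ∀ τ ∈ P.inertiaSubgroupIn ℚ, ∀ f : modularFunctionFieldBar N, f ≠ 0 →
        (∀ v : Place (AlgebraicClosure ℚ) (modularFunctionFieldBar N), (m : ℤ) ∣ v.ord f) →
        ∃ h : modularFunctionFieldBar N, h ≠ 0 ∧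
          arithmeticRingAut (modularFunctionFieldFull N) τ
              (arithmeticRingAut (modularFunctionFieldFull N) τ f) * f =
            h ^ m * (arithmeticRingAut (modularFunctionFieldFull N) τ f) ^ 2) :
    ∀ P : ValuationSubring (AlgebraicClosure ℚ), P.LiesOverPrime q →
      ∀ τ ∈ P.inertiaSubgroupIn ℚ, H129.A2Kummer N m τ :=
  fun P hP τ hτ => a2Kummer_of_kummer N m τ (h P hP τ hτ)

end Fermat.Agent.A2.T0.H669

end
end
-- ===== PACK-END A2/T0/H669/T0.lean

-- ===== PACK-BEGIN A2/H489/TwoExtD.lean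
section


/-!
# A2 / M1-abs, part D (helper489): the theorem `TwoExt`

`A` a discrete valuation ring with fraction field `K`, `L/K` finite separable,
`V₁ ≠ V₂` valuation subrings of `L` over `A`, with families `u₁ : Fin f₁ → V₁`,
`u₂ : Fin f₂ → V₂` whose residues are linearly independent over the residue field of `A`, and
`[L : K] ≤ f₁ + f₂`.  Then

* `twoExt_only`        : `V₁`, `V₂` are the only valuation subrings of `L` over `A`;
* `twoExt_uniformizer` : a uniformiser of `A` is a uniformiser of `V₁` and `V₂` (`e = 1`);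
* `twoExt_integral`    : `x` is integral over `A` iff `x ∈ V₁ ∩ V₂`;
* `twoExt_span`        : the residues of `u₁` (`u₂`) span the residue field of `V₁` (`V₂`).
-/

set_option autoImplicit false

namespace Fermat.Agent.A2.H489

open IsDedekindDomain IsLocalRing WithZero

section Val

variable {S F : Type*} [CommRing S] [IsDedekindDomain S] [Field F] [Algebra S F]
  [IsFractionRing S F]

theorem valuation_eq_exp_neg_one (v : HeightOneSpectrum S) {w : S} (hw : w ∈ v.asIdeal)
    (hw2 : w ∉ v.asIdeal ^ 2) : v.valuation F (algebraMap S F w) = exp (-1 : ℤ) := by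
  have hw0 : w ≠ 0 := by
    rintro rfl
    exact hw2 (Ideal.zero_mem _)
  rw [HeightOneSpectrum.valuation_of_algebraMap]
  have h1 : v.intValuation w < 1 := (v.intValuation_lt_one_iff_mem w).mpr hw
  have h2 : ¬ v.intValuation w ≤ exp (-((2 : ℕ) : ℤ)) := fun h =>
    hw2 ((v.intValuation_le_pow_iff_mem w 2).mp h)
  rw [v.intValuation_if_neg hw0] at h1 h2 ⊢
  rw [← exp_zero, exp_lt_exp] at h1
  rw [exp_le_exp] at h2
  congr 1
  push_cast at h2
  omega

theorem mul_inv_mem_of_lt_one (v : HeightOneSpectrum S) {w : S} (hw : w ∈ v.asIdeal)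
    (hw2 : w ∉ v.asIdeal ^ 2) {x : F} (hx : v.valuation F x < 1) :
    v.valuation F (x * (algebraMap S F w)⁻¹) ≤ 1 := by
  have hv := valuation_eq_exp_neg_one (F := F) v hw hw2
  rw [map_mul, map_inv₀, hv]
  have h1 : x = 0 ∨ x ≠ 0 := eq_or_ne x 0
  rcases h1 with rfl | hx0
  · simp
  have hne : v.valuation F x ≠ 0 := (Valuation.ne_zero_iff _).mpr hx0
  have h3 : v.valuation F x ≤ exp (-1 : ℤ) := by
    rw [← lt_mul_exp_iff_le (by simp)]
    rw [← exp_add]
    simpa using hx
  calc v.valuation F x * (exp (-1 : ℤ))⁻¹ ≤ exp (-1 : ℤ) * (exp (-1 : ℤ))⁻¹ :=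
        mul_le_mul_left h3 _
    _ = 1 := mul_inv_cancel₀ (by simp)

theorem mem_nonunits_valuationSubring_iff (v : HeightOneSpectrum S) (x : F) :
    x ∈ (v.valuation F).valuationSubring.nonunits ↔ v.valuation F x < 1 := by
  rw [ValuationSubring.mem_nonunits_iff_or]
  rcases eq_or_ne x 0 with rfl | hx
  · simp
  · have hne : v.valuation F x ≠ 0 := (Valuation.ne_zero_iff _).mpr hx
    rw [Valuation.mem_valuationSubring_iff, map_inv₀, not_le]
    constructor
    · rintro (h | h)
      · exact absurd h hx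
      · exact (one_lt_inv₀ (zero_lt_iff.mpr hne)).mp h
    · intro h
      exact Or.inr ((one_lt_inv₀ (zero_lt_iff.mpr hne)).mpr h)

end Val

section Main

variable (K : Type*) {A L : Type*} [CommRing A] [IsDomain A] [IsDiscreteValuationRing A]
  [Field K] [Algebra A K] [IsFractionRing A K]
  [Field L] [Algebra K L] [Algebra A L] [IsScalarTower A K L]
  [FiniteDimensional K L] [Algebra.IsSeparable K L]

/-- Hypotheses of `TwoExt`. -/
structure TwoExtHyp (K A : Type*) {L : Type*} [CommRing A] [IsDomain A]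
    [IsDiscreteValuationRing A] [Field K] [Algebra A K]
    [Field L] [Algebra K L] [Algebra A L]
    (V₁ V₂ : ValuationSubring L) {f₁ f₂ : ℕ} (u₁ : Fin f₁ → L) (u₂ : Fin f₂ → L) : Prop where
  over₁ : IsOver A V₁
  over₂ : IsOver A V₂
  ne : V₁ ≠ V₂
  deg : Module.finrank K L ≤ f₁ + f₂
  mem₁ : ∀ i, u₁ i ∈ V₁
  mem₂ : ∀ i, u₂ i ∈ V₂
  indep₁ : ∀ a : Fin f₁ → A, (∑ i, algebraMap A L (a i) * u₁ i) ∈ V₁.nonunits →
    ∀ i, a i ∈ maximalIdeal A
  indep₂ : ∀ a : Fin f₂ → A, (∑ i, algebraMap A L (a i) * u₂ i) ∈ V₂.nonunits →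
    ∀ i, a i ∈ maximalIdeal A

variable {K} {V₁ V₂ : ValuationSubring L} {f₁ f₂ : ℕ} {u₁ : Fin f₁ → L} {u₂ : Fin f₂ → L}

omit [IsFractionRing A K] [IsScalarTower A K L] [FiniteDimensional K L]
  [Algebra.IsSeparable K L] in
theorem TwoExtHyp.symm (h : TwoExtHyp K A V₁ V₂ u₁ u₂) : TwoExtHyp K A V₂ V₁ u₂ u₁ where
  over₁ := h.over₂
  over₂ := h.over₁
  ne := h.ne.symm
  deg := by have := h.deg; omega
  mem₁ := h.mem₂
  mem₂ := h.mem₁
  indep₁ := h.indep₂
  indep₂ := h.indep₁

theorem TwoExtHyp.core (h : TwoExtHyp K A V₁ V₂ u₁ u₂) :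
    (∀ P : Ideal (integralClosure A L), P.IsPrime → P.LiesOver (maximalIdeal A) →
        P = center V₁ h.over₁.mem_integralClosure ∨
        P = center V₂ h.over₂.mem_integralClosure) ∧
      Ideal.ramificationIdx' (maximalIdeal A) (center V₁ h.over₁.mem_integralClosure) = 1 ∧
      Ideal.ramificationIdx' (maximalIdeal A) (center V₂ h.over₂.mem_integralClosure) = 1 ∧
      Ideal.inertiaDeg' (maximalIdeal A) (center V₁ h.over₁.mem_integralClosure) = f₁ ∧
      Ideal.inertiaDeg' (maximalIdeal A) (center V₂ h.over₂.mem_integralClosure) = f₂ :=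
  twoExt_core K h.over₁ h.over₂ h.ne h.deg
    (h.over₁.le_inertiaDeg K u₁ h.mem₁ h.indep₁) (h.over₂.le_inertiaDeg K u₂ h.mem₂ h.indep₂)

/-- **TwoExt (1)**: `V₁` and `V₂` are the only valuation subrings of `L` over `A`. -/
theorem TwoExtHyp.only (h : TwoExtHyp K A V₁ V₂ u₁ u₂) {V : ValuationSubring L}
    (hV : IsOver A V) : V = V₁ ∨ V = V₂ := by
  have hD : IsDedekindDomain (integralClosure A L) := integralClosure.isDedekindDomain A K L
  have hFr : IsFractionRing (integralClosure A L) L :=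
    integralClosure.isFractionRing_of_finite_extension K L
  rcases h.core.1 (center V hV.mem_integralClosure) inferInstance hV.center_liesOver with h1 | h1
  · exact Or.inl (eq_of_center_eq V V₁ hV.mem_integralClosure h.over₁.mem_integralClosure
      (hV.ne_top K) (h.over₁.ne_top K) h1)
  · exact Or.inr (eq_of_center_eq V V₂ hV.mem_integralClosure h.over₂.mem_integralClosure
      (hV.ne_top K) (h.over₂.ne_top K) h1)

include K in
/-- `e = 1` in valuation form. -/
theorem IsOver.mul_inv_mem_of_ramificationIdx_eq_one {V : ValuationSubring L} (hV : IsOver A V)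
    (he : Ideal.ramificationIdx' (maximalIdeal A) (center V hV.mem_integralClosure) = 1)
    {w : A} (hw : Irreducible w) {x : L} (hx : x ∈ V.nonunits) :
    x * (algebraMap A L w)⁻¹ ∈ V := by
  have hD : IsDedekindDomain (integralClosure A L) := integralClosure.isDedekindDomain A K L
  have hFr : IsFractionRing (integralClosure A L) L :=
    integralClosure.isFractionRing_of_finite_extension K L
  have hne : V ≠ ⊤ := hV.ne_top K
  set v := centerSpec V hV.mem_integralClosure hne with hvdef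
  have hVv : V = (v.valuation L).valuationSubring :=
    eq_valuationSubring_centerSpec V hV.mem_integralClosure hne
  have hwmax : w ∈ maximalIdeal A := by
    rw [IsLocalRing.mem_maximalIdeal, _root_.mem_nonunits_iff]
    exact hw.not_isUnit
  have hw1 : algebraMap A (integralClosure A L) w ∈ v.asIdeal := by
    show algebraMap A (integralClosure A L) w ∈ center V hV.mem_integralClosure
    rw [mem_center_iff, ← IsScalarTower.algebraMap_apply]
    exact hV.nonunit w hwmax
  have hmap : Ideal.map (algebraMap A (integralClosure A L)) (maximalIdeal A)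
      = Ideal.span {algebraMap A (integralClosure A L) w} := by
    rw [hw.maximalIdeal_eq, Ideal.map_span, Set.image_singleton]
  have hle : Ideal.map (algebraMap A (integralClosure A L)) (maximalIdeal A)
      ≤ center V hV.mem_integralClosure := by
    rw [hmap, Ideal.span_singleton_le_iff_mem]
    exact hw1
  have hw2 : algebraMap A (integralClosure A L) w ∉ v.asIdeal ^ 2 := by
    intro hmem
    have h2 : Ideal.map (algebraMap A (integralClosure A L)) (maximalIdeal A)
        ≤ center V hV.mem_integralClosure ^ 2 := by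
      rw [hmap, Ideal.span_singleton_le_iff_mem]
      exact hmem
    exact ((Ideal.ramificationIdx'_ne_one_iff hle).mpr h2) he
  have hx' : v.valuation L x < 1 := by
    rw [← mem_nonunits_valuationSubring_iff, ← hVv]
    exact hx
  have key := mul_inv_mem_of_lt_one (F := L) v hw1 hw2 hx'
  rw [← IsScalarTower.algebraMap_apply] at key
  rw [hVv]
  exact key

/-- **TwoExt (2)**: a uniformiser of `A` is a uniformiser of `V₁`. -/
theorem TwoExtHyp.uniformizer₁ (h : TwoExtHyp K A V₁ V₂ u₁ u₂) {w : A} (hw : Irreducible w)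
    {x : L} (hx : x ∈ V₁.nonunits) : x * (algebraMap A L w)⁻¹ ∈ V₁ :=
  h.over₁.mul_inv_mem_of_ramificationIdx_eq_one (K := K) h.core.2.1 hw hx

/-- **TwoExt (2')**: a uniformiser of `A` is a uniformiser of `V₂`. -/
theorem TwoExtHyp.uniformizer₂ (h : TwoExtHyp K A V₁ V₂ u₁ u₂) {w : A} (hw : Irreducible w)
    {x : L} (hx : x ∈ V₂.nonunits) : x * (algebraMap A L w)⁻¹ ∈ V₂ :=
  h.over₂.mul_inv_mem_of_ramificationIdx_eq_one (K := K) h.core.2.2.1 hw hx

/-- **TwoExt (3)**: the integral closure of `A` in `L` is `V₁ ∩ V₂`. -/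
theorem TwoExtHyp.isIntegral_iff (h : TwoExtHyp K A V₁ V₂ u₁ u₂) (x : L) :
    IsIntegral A x ↔ x ∈ V₁ ∧ x ∈ V₂ := by
  constructor
  · intro hx
    exact ⟨h.over₁.integral_mem hx, h.over₂.integral_mem hx⟩
  · rintro ⟨hx₁, hx₂⟩
    have hD : IsDedekindDomain (integralClosure A L) := integralClosure.isDedekindDomain A K L
    have hFr : IsFractionRing (integralClosure A L) L :=
      integralClosure.isFractionRing_of_finite_extension K L
    have hint : Algebra.IsIntegral A (integralClosure A L) :=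
      IsIntegralClosure.isIntegral_algebra A L
    have key : ∀ v : HeightOneSpectrum (integralClosure A L), v.valuation L x ≤ 1 := by
      intro v
      have hmax : (v.asIdeal.comap (algebraMap A (integralClosure A L))).IsMaximal :=
        Ideal.isMaximal_comap_of_isIntegral_of_isMaximal v.asIdeal
      have hlo : v.asIdeal.LiesOver (maximalIdeal A) :=
        ⟨(IsLocalRing.eq_maximalIdeal hmax).symm⟩
      rcases h.core.1 v.asIdeal v.isPrime hlo with h1 | h1
      · have := eq_valuationSubring_of_center V₁ h.over₁.mem_integralClosure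
          (h.over₁.ne_top K) v h1
        rw [this] at hx₁
        exact hx₁
      · have := eq_valuationSubring_of_center V₂ h.over₂.mem_integralClosure
          (h.over₂.ne_top K) v h1
        rw [this] at hx₂
        exact hx₂
    obtain ⟨c, hc⟩ := HeightOneSpectrum.mem_integers_of_valuation_le_one L x key
    rw [← hc]
    exact c.2

include K in
/-- spanning of the residue field by an independent family of the right size -/
theorem IsOver.exists_sub_sum_mem_nonunits {V : ValuationSubring L} (hV : IsOver A V) {f : ℕ}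
    (hf : Ideal.inertiaDeg' (maximalIdeal A) (center V hV.mem_integralClosure) = f)
    (u : Fin f → L) (hu : ∀ i, u i ∈ V)
    (hind : ∀ a : Fin f → A, (∑ i, algebraMap A L (a i) * u i) ∈ V.nonunits →
      ∀ i, a i ∈ maximalIdeal A) {x : L} (hx : x ∈ V) :
    ∃ a : Fin f → A, x - ∑ i, algebraMap A L (a i) * u i ∈ V.nonunits := by
  have hlo := hV.center_liesOver
  have hfin : Module.Finite A (integralClosure A L) := IsIntegralClosure.finite A K L _
  rw [Ideal.inertiaDeg'_algebraMap] at hf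
  choose s hs using fun i => hV.exists_sub_mem_nonunits K (hu i)
  have hli := hV.linearIndependent_mk u s hs hind
  have hcard : Fintype.card (Fin f)
      = Module.finrank (A ⧸ maximalIdeal A)
          (integralClosure A L ⧸ center V hV.mem_integralClosure) := by
    rw [hf, Fintype.card_fin]
  let _ : Field (A ⧸ maximalIdeal A) := Ideal.Quotient.field (maximalIdeal A)
  have hspan := LinearIndependent.span_eq_top_of_card_eq_finrank' (K := A ⧸ maximalIdeal A)
    hli hcard
  obtain ⟨t, ht⟩ := hV.exists_sub_mem_nonunits K hx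
  have hmem : Ideal.Quotient.mk (center V hV.mem_integralClosure) t ∈
      Submodule.span (A ⧸ maximalIdeal A)
        (Set.range fun i => Ideal.Quotient.mk (center V hV.mem_integralClosure) (s i)) := by
    rw [hspan]
    exact Submodule.mem_top
  rw [Submodule.mem_span_range_iff_exists_fun] at hmem
  obtain ⟨c, hc⟩ := hmem
  choose a ha using fun i => Ideal.Quotient.mk_surjective (c i)
  refine ⟨a, ?_⟩
  have h1 : ∀ i, c i • Ideal.Quotient.mk (center V hV.mem_integralClosure) (s i)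
      = Ideal.Quotient.mk (center V hV.mem_integralClosure)
          (algebraMap A (integralClosure A L) (a i) * s i) := by
    intro i
    rw [Algebra.smul_def, ← ha i, Ideal.Quotient.algebraMap_mk_of_liesOver, map_mul]
  simp only [h1] at hc
  rw [← map_sum, Ideal.Quotient.eq, mem_center_iff] at hc
  have h2 : x - ∑ i, algebraMap A L (a i) * u i
      = (x - algebraMap (integralClosure A L) L t)
        - algebraMap (integralClosure A L) L
            (∑ i, algebraMap A (integralClosure A L) (a i) * s i - t)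
        - ∑ i, algebraMap A L (a i) * (u i - algebraMap (integralClosure A L) L (s i)) := by
    rw [map_sub, map_sum]
    have h3 : ∀ i, algebraMap (integralClosure A L) L
        (algebraMap A (integralClosure A L) (a i) * s i)
        = algebraMap A L (a i) * algebraMap (integralClosure A L) L (s i) := by
      intro i
      rw [map_mul, ← IsScalarTower.algebraMap_apply]
    simp only [h3, mul_sub, Finset.sum_sub_distrib]
    ring
  rw [h2]
  refine sub_mem (sub_mem ht hc) (sum_mem fun i _ => ?_)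
  exact mul_mem_nonunits (hV.mem _) (hs i)

/-- **TwoExt (4)**: the residues of `u₁` span the residue field of `V₁`. -/
theorem TwoExtHyp.span₁ (h : TwoExtHyp K A V₁ V₂ u₁ u₂) {x : L} (hx : x ∈ V₁) :
    ∃ a : Fin f₁ → A, x - ∑ i, algebraMap A L (a i) * u₁ i ∈ V₁.nonunits :=
  h.over₁.exists_sub_sum_mem_nonunits (K := K) h.core.2.2.2.1 u₁ h.mem₁ h.indep₁ hx

/-- **TwoExt (4')**: the residues of `u₂` span the residue field of `V₂`. -/
theorem TwoExtHyp.span₂ (h : TwoExtHyp K A V₁ V₂ u₁ u₂) {x : L} (hx : x ∈ V₂) :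
    ∃ a : Fin f₂ → A, x - ∑ i, algebraMap A L (a i) * u₂ i ∈ V₂.nonunits :=
  h.over₂.exists_sub_sum_mem_nonunits (K := K) h.core.2.2.2.2 u₂ h.mem₂ h.indep₂ hx

end Main

end Fermat.Agent.A2.H489

end
-- ===== PACK-END A2/H489/TwoExtD.lean

-- ===== PACK-BEGIN A2/H489/GaussFrameA.lean
section


/-!
# A2 / M1mod-FRAME part A (helper489): Gauss normal form over a discrete valuation ring

`R` a discrete valuation ring, `E = Frac R`, `L ⊇ E` a field, `x ∈ L`.

* `exists_eq_pow_mul_prim` : a nonzero `p ∈ R[X]` is `w ^ n` times a primitive polynomial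
  (primitive := nonzero modulo the maximal ideal);
* `exists_normal_form_adjoin` : every element `a ∈ E(x)` satisfies
  `a · Q(x) = c · P(x)` with `c ∈ E` and `P, Q ∈ R[X]` primitive;
* `IsGaussOver R V x` : the valuation subring `V` of `L` contains `R`, `x`, its maximal ideal
  contains `𝔪_R`, and `P(x)` is a unit of `V` for every primitive `P ∈ R[X]`
  (i.e. `V` induces the Gauss valuation on `E(x)`);
* `IsGaussOver.mem_iff`, `IsGaussOver.mem_nonunits_iff` : `V ∩ E(x)` and `𝔪_V ∩ E(x)` in terms of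
  normal forms (independent of `V`).
-/

set_option autoImplicit false

namespace Fermat.Agent.A2.H489

open IsLocalRing Polynomial IntermediateField

section Prim

variable {R : Type*} [CommRing R] [IsDomain R] [IsDiscreteValuationRing R]

omit [IsDomain R] [IsDiscreteValuationRing R] in
/-- primitive polynomials over a local ring: nonzero modulo the maximal ideal -/
theorem map_residue_eq_zero_iff [IsLocalRing R] (P : R[X]) :
    P.map (residue R) = 0 ↔ ∀ i, P.coeff i ∈ maximalIdeal R := by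
  constructor
  · intro h i
    have := congrArg (fun p => p.coeff i) h
    simp only [coeff_map, coeff_zero] at this
    exact (residue_eq_zero_iff _).mp this
  · intro h
    ext i
    simp only [coeff_map, coeff_zero]
    exact (residue_eq_zero_iff _).mpr (h i)

theorem exists_eq_C_mul_of_map_residue_eq_zero {w : R} (hw : Irreducible w) {P : R[X]}
    (h : P.map (residue R) = 0) : ∃ P' : R[X], P = C w * P' := by
  have h1 : C w ∣ P := by
    rw [C_dvd_iff_dvd_coeff]
    intro i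
    have := (map_residue_eq_zero_iff P).mp h i
    rw [hw.maximalIdeal_eq, Ideal.mem_span_singleton] at this
    exact this
  exact h1

/-- A nonzero polynomial over a DVR is a power of the uniformiser times a primitive polynomial. -/
theorem exists_eq_pow_mul_prim {w : R} (hw : Irreducible w) {p : R[X]} (hp : p ≠ 0) :
    ∃ (n : ℕ) (P : R[X]), p = C (w ^ n) * P ∧ P.map (residue R) ≠ 0 := by
  classical
  let _ : StrongNormalizationMonoid R := UniqueFactorizationMonoid.strongNormalizationMonoid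
  let _ : NormalizedGCDMonoid R := UniqueFactorizationMonoid.toNormalizedGCDMonoid R
  have hc : p.content ≠ 0 := fun h => hp (content_eq_zero_iff.mp h)
  obtain ⟨n, hn⟩ := IsDiscreteValuationRing.associated_pow_irreducible hc hw
  obtain ⟨u, hu⟩ := hn.symm
  -- `w ^ n * u = content`
  refine ⟨n, C (u : R) * p.primPart, ?_, ?_⟩
  · conv_lhs => rw [p.eq_C_content_mul_primPart]
    rw [← mul_assoc, ← C_mul, hu]
  · intro h
    rw [Polynomial.map_mul, map_C] at h
    have hu' : (C (residue R (u : R)) : (ResidueField R)[X]) ≠ 0 := by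
      rw [Ne, C_eq_zero, residue_eq_zero_iff]
      intro hmem
      exact (IsLocalRing.mem_maximalIdeal _).mp hmem u.isUnit
    rcases mul_eq_zero.mp h with h1 | h1
    · exact hu' h1
    · obtain ⟨P', hP'⟩ := exists_eq_C_mul_of_map_residue_eq_zero hw h1
      have hprim := p.isPrimitive_primPart
      have := hprim w ⟨P', hP'⟩
      exact hw.not_isUnit this

end Prim

section NormalForm

variable {R E L : Type*} [CommRing R] [IsDomain R] [IsDiscreteValuationRing R]
  [Field E] [Algebra R E] [IsFractionRing R E]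
  [Field L] [Algebra E L] [Algebra R L] [IsScalarTower R E L]

omit [IsDiscreteValuationRing R] in
/-- clearing denominators -/
theorem exists_aeval_eq_of_polynomial (x : L) {p : E[X]} (hp : p ≠ 0) :
    ∃ (d : R) (P : R[X]), d ≠ 0 ∧ P ≠ 0 ∧ algebraMap R L d * aeval x p = aeval x P := by
  obtain ⟨b, hbM, hb⟩ := IsLocalization.integerNormalization_spec (nonZeroDivisors R) p
  refine ⟨b, IsLocalization.integerNormalization (nonZeroDivisors R) p,
    nonZeroDivisors.ne_zero hbM, ?_, ?_⟩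
  · rw [Ne, IsFractionRing.integerNormalization_eq_zero_iff]
    exact hp
  · have h1 := congrArg (aeval x) hb
    rw [aeval_map_algebraMap] at h1
    rw [h1, ← Algebra.smul_def]
    have h2 : (b • p : E[X]) = C (algebraMap R E b) * p := by
      rw [Algebra.smul_def]
      rfl
    rw [h2, map_mul, aeval_C, ← IsScalarTower.algebraMap_apply R E L, Algebra.smul_def]

omit [IsDiscreteValuationRing R] in
theorem algebraMap_RL_ne_zero (E : Type*) {R L : Type*} [CommRing R] [IsDomain R]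
    [Field E] [Algebra R E] [IsFractionRing R E]
    [Field L] [Algebra E L] [Algebra R L] [IsScalarTower R E L]
    {d : R} (hd : d ≠ 0) : algebraMap R L d ≠ 0 := by
  rw [IsScalarTower.algebraMap_apply R E L]
  intro h
  have h1 : algebraMap R E d = 0 := (algebraMap E L).injective (by rw [h, map_zero])
  exact hd ((IsFractionRing.injective R E) (by rw [h1, map_zero]))

/-- **Gauss normal form** in `E(x)`: `a · Q(x) = c · P(x)` with `P`, `Q` primitive. -/
theorem exists_normal_form_adjoin {w : R} (hw : Irreducible w) (x : L) {a : L}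
    (ha : a ∈ E⟮x⟯) (ha0 : a ≠ 0) :
    ∃ (c : E) (P Q : R[X]), c ≠ 0 ∧ P.map (residue R) ≠ 0 ∧ Q.map (residue R) ≠ 0 ∧
      a * aeval x Q = algebraMap E L c * aeval x P := by
  obtain ⟨r, s, hrs⟩ := (mem_adjoin_simple_iff E a).mp ha
  have hs0 : aeval x s ≠ 0 := by
    intro h
    rw [h, div_zero] at hrs
    exact ha0 hrs
  have hr0 : aeval x r ≠ 0 := by
    intro h
    rw [h, zero_div] at hrs
    exact ha0 hrs
  have hs : s ≠ 0 := by
    rintro rfl
    exact hs0 (map_zero _)
  have hr : r ≠ 0 := by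
    rintro rfl
    exact hr0 (map_zero _)
  obtain ⟨dr, R', hdr, hR', eR⟩ := exists_aeval_eq_of_polynomial (R := R) x hr
  obtain ⟨ds, S', hds, hS', eS⟩ := exists_aeval_eq_of_polynomial (R := R) x hs
  obtain ⟨n, R₀, hR₀, hR₀p⟩ := exists_eq_pow_mul_prim hw hR'
  obtain ⟨m, S₀, hS₀, hS₀p⟩ := exists_eq_pow_mul_prim hw hS'
  have hw0 : algebraMap R L w ≠ 0 := algebraMap_RL_ne_zero E hw.ne_zero
  have hwE : algebraMap R E w ≠ 0 := fun h =>
    hw.ne_zero ((IsFractionRing.injective R E) (by rw [h, map_zero]))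
  have hdrE : algebraMap R E dr ≠ 0 := fun h =>
    hdr ((IsFractionRing.injective R E) (by rw [h, map_zero]))
  have hdsE : algebraMap R E ds ≠ 0 := fun h =>
    hds ((IsFractionRing.injective R E) (by rw [h, map_zero]))
  refine ⟨algebraMap R E ds * algebraMap R E w ^ n / (algebraMap R E dr * algebraMap R E w ^ m),
    R₀, S₀, ?_, hR₀p, hS₀p, ?_⟩
  · exact div_ne_zero (mul_ne_zero hdsE (pow_ne_zero _ hwE))
      (mul_ne_zero hdrE (pow_ne_zero _ hwE))
  · rw [hR₀, map_mul, aeval_C, map_pow] at eR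
    rw [hS₀, map_mul, aeval_C, map_pow] at eS
    have hdrL : algebraMap R L dr ≠ 0 := algebraMap_RL_ne_zero E hdr
    have hdsL : algebraMap R L ds ≠ 0 := algebraMap_RL_ne_zero E hds
    have e1 : a * aeval x s = aeval x r := by
      rw [hrs, div_mul_cancel₀ _ hs0]
    rw [map_div₀, map_mul, map_mul, map_pow, map_pow, ← IsScalarTower.algebraMap_apply R E L,
      ← IsScalarTower.algebraMap_apply R E L, ← IsScalarTower.algebraMap_apply R E L]
    rw [div_mul_eq_mul_div, eq_div_iff (mul_ne_zero hdrL (pow_ne_zero _ hw0))]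
    have e2 : algebraMap R L dr * (algebraMap R L w ^ m * aeval x S₀) * a
        = algebraMap R L dr * (algebraMap R L ds * aeval x r) := by
      rw [← eS, ← e1]; ring
    calc a * aeval x S₀ * (algebraMap R L dr * algebraMap R L w ^ m)
        = algebraMap R L dr * (algebraMap R L w ^ m * aeval x S₀) * a := by ring
      _ = algebraMap R L dr * (algebraMap R L ds * aeval x r) := e2
      _ = algebraMap R L ds * (algebraMap R L dr * aeval x r) := by ring
      _ = algebraMap R L ds * (algebraMap R L w ^ n * aeval x R₀) := by rw [eR]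
      _ = algebraMap R L ds * algebraMap R L w ^ n * aeval x R₀ := by ring

end NormalForm

section Gauss

/-- `V` induces the Gauss valuation on `E(x)` (with respect to the local ring `R`): it lies over
`R`, contains `x`, and `P(x)` is a unit of `V` for every primitive polynomial `P ∈ R[X]`. -/
structure IsGaussOver (R : Type*) {L : Type*} [CommRing R] [IsLocalRing R] [Field L]
    [Algebra R L] (V : ValuationSubring L) (x : L) : Prop where
  isOver : IsOver R V
  mem : x ∈ V
  prim : ∀ P : R[X], aeval x P ∈ V.nonunits → P.map (residue R) = 0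

variable {R E L : Type*} [CommRing R] [IsDomain R] [IsDiscreteValuationRing R]
  [Field E] [Algebra R E] [IsFractionRing R E]
  [Field L] [Algebra E L] [Algebra R L] [IsScalarTower R E L]
  {V : ValuationSubring L} {x : L}

omit [IsDomain R] [IsDiscreteValuationRing R] in
theorem IsOver.aeval_mem [IsLocalRing R] (h : IsOver R V) (hx : x ∈ V) (P : R[X]) :
    aeval x P ∈ V := by
  rw [aeval_def, eval₂_eq_sum, Polynomial.sum]
  exact sum_mem fun i _ => mul_mem (h.mem _) (pow_mem hx _)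

omit [IsDomain R] [IsDiscreteValuationRing R] in
theorem IsGaussOver.aeval_mem [IsLocalRing R] (h : IsGaussOver R V x) (P : R[X]) :
    aeval x P ∈ V :=
  h.isOver.aeval_mem h.mem P

omit [IsDomain R] [IsDiscreteValuationRing R] in
theorem IsGaussOver.inv_aeval_mem [IsLocalRing R] (h : IsGaussOver R V x) {P : R[X]}
    (hP : P.map (residue R) ≠ 0) : (aeval x P)⁻¹ ∈ V := by
  have h1 := h.aeval_mem P
  have h2 : aeval x P ∉ V.nonunits := fun hn => hP (h.prim P hn)
  rw [ValuationSubring.mem_nonunits_iff, not_lt] at h2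
  rw [← ValuationSubring.valuation_le_one_iff, map_inv₀]
  have h3 := (ValuationSubring.valuation_le_one_iff V _).mpr h1
  have h4 : V.valuation (aeval x P) = 1 := le_antisymm h3 h2
  rw [h4, inv_one]

omit [IsDomain R] [IsDiscreteValuationRing R] in
theorem IsGaussOver.aeval_ne_zero [IsLocalRing R] (h : IsGaussOver R V x) {P : R[X]}
    (hP : P.map (residue R) ≠ 0) : aeval x P ≠ 0 := by
  intro h0
  apply hP
  apply h.prim
  rw [h0, ValuationSubring.mem_nonunits_iff, map_zero]
  exact zero_lt_one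

omit [IsDomain R] [IsDiscreteValuationRing R] in
theorem IsGaussOver.aeval_mem_nonunits [IsLocalRing R] (h : IsGaussOver R V x) {P : R[X]}
    (hP : P.map (residue R) = 0) : aeval x P ∈ V.nonunits := by
  rw [aeval_def, eval₂_eq_sum, Polynomial.sum, ValuationSubring.mem_nonunits_iff]
  refine Valuation.map_sum_lt _ one_ne_zero fun i _ => ?_
  rw [← ValuationSubring.mem_nonunits_iff, mul_comm]
  exact mul_mem_nonunits (pow_mem h.mem _)
    (h.isOver.nonunit _ ((map_residue_eq_zero_iff P).mp hP i))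

/-- `V ∩ E = R`. -/
theorem IsOver.const_mem_iff (hV : IsOver R V) (c : E) :
    algebraMap E L c ∈ V ↔ ∃ r : R, algebraMap R E r = c := by
  constructor
  · intro hc
    rcases ValuationRing.isInteger_or_isInteger R c with ⟨r, hr⟩ | ⟨r, hr⟩
    · exact ⟨r, hr⟩
    · by_cases hc0 : c = 0
      · exact ⟨0, by rw [map_zero, hc0]⟩
      by_cases hu : IsUnit r
      · obtain ⟨u, rfl⟩ := hu
        refine ⟨(↑u⁻¹ : R), ?_⟩
        have h1 : algebraMap R E (↑u⁻¹ : R) * algebraMap R E (u : R) = 1 := by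
          rw [← map_mul, Units.inv_mul, map_one]
        have hr' : algebraMap R E (u : R) = c⁻¹ := hr
        rw [hr'] at h1
        field_simp at h1
        exact h1
      · exfalso
        have hm : r ∈ maximalIdeal R := (IsLocalRing.mem_maximalIdeal r).mpr hu
        have h1 := hV.nonunit r hm
        have hr' : algebraMap R E r = c⁻¹ := hr
        rw [IsScalarTower.algebraMap_apply R E L, hr', map_inv₀] at h1
        have h2 := mul_mem_nonunits hc h1
        have hc0' : algebraMap E L c ≠ 0 := by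
          rw [Ne, map_eq_zero]
          exact hc0
        rw [mul_inv_cancel₀ hc0', ValuationSubring.mem_nonunits_iff, map_one] at h2
        exact lt_irrefl _ h2
  · rintro ⟨r, rfl⟩
    rw [← IsScalarTower.algebraMap_apply]
    exact hV.mem r

/-- `𝔪_V ∩ E = 𝔪_R`. -/
theorem IsOver.const_mem_nonunits_iff (hV : IsOver R V) (c : E) :
    algebraMap E L c ∈ V.nonunits ↔ ∃ r ∈ maximalIdeal R, algebraMap R E r = c := by
  constructor
  · intro hc
    obtain ⟨r, rfl⟩ := (hV.const_mem_iff c).mp (ValuationSubring.nonunits_subset hc)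
    rw [← IsScalarTower.algebraMap_apply] at hc
    exact ⟨r, (hV.mem_nonunits_iff r).mp hc, rfl⟩
  · rintro ⟨r, hr, rfl⟩
    rw [← IsScalarTower.algebraMap_apply]
    exact hV.nonunit r hr

/-- `V ∩ E(x)` in terms of Gauss normal forms. -/
theorem IsGaussOver.mem_iff (h : IsGaussOver R V x) {a : L} (ha : a ∈ E⟮x⟯) :
    a ∈ V ↔ ∃ P Q : R[X], Q.map (residue R) ≠ 0 ∧ a * aeval x Q = aeval x P := by
  constructor
  · intro haV
    by_cases ha0 : a = 0
    · exact ⟨0, 1, by rw [Polynomial.map_one]; exact one_ne_zero, by rw [ha0, zero_mul, map_zero]⟩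
    obtain ⟨w, hw⟩ := IsDiscreteValuationRing.exists_irreducible R
    obtain ⟨c, P, Q, -, hP, hQ, e⟩ := exists_normal_form_adjoin (E := E) hw x ha ha0
    have hc : algebraMap E L c ∈ V := by
      have h1 : algebraMap E L c = a * aeval x Q * (aeval x P)⁻¹ := by
        rw [e, mul_assoc, mul_inv_cancel₀ (h.aeval_ne_zero hP), mul_one]
      rw [h1]
      exact mul_mem (mul_mem haV (h.aeval_mem Q)) (h.inv_aeval_mem hP)
    obtain ⟨r, rfl⟩ := (h.isOver.const_mem_iff c).mp hc
    refine ⟨C r * P, Q, hQ, ?_⟩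
    rw [e, map_mul, aeval_C, ← IsScalarTower.algebraMap_apply]
  · rintro ⟨P, Q, hQ, e⟩
    have h1 : a = aeval x P * (aeval x Q)⁻¹ := by
      rw [← e, mul_assoc, mul_inv_cancel₀ (h.aeval_ne_zero hQ), mul_one]
    rw [h1]
    exact mul_mem (h.aeval_mem P) (h.inv_aeval_mem hQ)

/-- `𝔪_V ∩ E(x)` in terms of Gauss normal forms. -/
theorem IsGaussOver.mem_nonunits_iff (h : IsGaussOver R V x) {a : L} (ha : a ∈ E⟮x⟯) :
    a ∈ V.nonunits ↔ ∃ P Q : R[X], Q.map (residue R) ≠ 0 ∧ P.map (residue R) = 0 ∧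
      a * aeval x Q = aeval x P := by
  constructor
  · intro haV
    by_cases ha0 : a = 0
    · exact ⟨0, 1, by rw [Polynomial.map_one]; exact one_ne_zero, Polynomial.map_zero _,
        by rw [ha0, zero_mul, map_zero]⟩
    obtain ⟨w, hw⟩ := IsDiscreteValuationRing.exists_irreducible R
    obtain ⟨c, P, Q, -, hP, hQ, e⟩ := exists_normal_form_adjoin (E := E) hw x ha ha0
    have hc : algebraMap E L c ∈ V.nonunits := by
      have h1 : algebraMap E L c = aeval x Q * (aeval x P)⁻¹ * a := by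
        rw [mul_comm _ a, ← mul_assoc, e, mul_assoc, mul_inv_cancel₀ (h.aeval_ne_zero hP),
          mul_one]
      rw [h1]
      exact mul_mem_nonunits (mul_mem (h.aeval_mem Q) (h.inv_aeval_mem hP)) haV
    obtain ⟨r, hr, rfl⟩ := (h.isOver.const_mem_nonunits_iff c).mp hc
    refine ⟨C r * P, Q, hQ, ?_, ?_⟩
    · rw [Polynomial.map_mul, map_C, (residue_eq_zero_iff r).mpr hr, C_0, zero_mul]
    · rw [e, map_mul, aeval_C, ← IsScalarTower.algebraMap_apply]
  · rintro ⟨P, Q, hQ, hP, e⟩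
    have h1 : a = (aeval x Q)⁻¹ * aeval x P := by
      rw [← e, mul_comm a, ← mul_assoc, inv_mul_cancel₀ (h.aeval_ne_zero hQ), one_mul]
    rw [h1]
    exact mul_mem_nonunits (h.inv_aeval_mem hQ) (h.aeval_mem_nonunits hP)

/-- Two valuation subrings inducing the Gauss valuation agree on `E(x)`. -/
theorem IsGaussOver.mem_iff_mem {V' : ValuationSubring L} (h : IsGaussOver R V x)
    (h' : IsGaussOver R V' x) {a : L} (ha : a ∈ E⟮x⟯) : a ∈ V ↔ a ∈ V' := by
  rw [h.mem_iff (E := E) ha, h'.mem_iff (E := E) ha]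

theorem IsGaussOver.mem_nonunits_iff_mem {V' : ValuationSubring L} (h : IsGaussOver R V x)
    (h' : IsGaussOver R V' x) {a : L} (ha : a ∈ E⟮x⟯) : a ∈ V.nonunits ↔ a ∈ V'.nonunits := by
  rw [h.mem_nonunits_iff (E := E) ha, h'.mem_nonunits_iff (E := E) ha]

end Gauss

end Fermat.Agent.A2.H489

end
-- ===== PACK-END A2/H489/GaussFrameA.lean

-- ===== PACK-BEGIN S28/H88/Degree.lean
section
/-
S28 (Igusa) -- helper88: [L.I] `1, j, …, j^{p-1}` are independent over `k((q^p))`, and
[L.B2] the degree of `j(q^p)` over `k(j)` is `p + 1`.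
-/


set_option autoImplicit false

noncomputable section

open ModularCurve HahnSeries

namespace Fermat.Agent.S28

section Independence

variable (k : Type*) [Field k]

theorem h88_order_qExpand (p : ℕ) [NeZero p] {x : LaurentSeries k} (hx : x ≠ 0) :
    (qExpand k p x).order = (p : ℤ) * x.order := by
  have hVx : qExpand k p x ≠ 0 := fun h => hx (qExpand_injective p (by rw [h, map_zero]))
  apply le_antisymm
  · apply HahnSeries.order_le_of_coeff_ne_zero
    rw [qExpand_coeff_mul]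
    exact HahnSeries.coeff_order_eq_zero.not.mpr hx
  · have h := HahnSeries.coeff_order_eq_zero.not.mpr hVx
    by_cases hdvd : (p : ℤ) ∣ (qExpand k p x).order
    · obtain ⟨m, hm⟩ := hdvd
      have h' : (qExpand k p x).coeff ((p : ℤ) * m) ≠ 0 := by rw [← hm]; exact h
      rw [qExpand_coeff_mul] at h'
      have h2 := HahnSeries.order_le_of_coeff_ne_zero h'
      rw [hm]
      exact mul_le_mul_of_nonneg_left h2 (by positivity)
    · exact absurd (qExpand_coeff_of_not_dvd p x hdvd) h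

theorem h88_order_jqModC : (jqModC k).order = -1 := by
  have hne : jqModC k ≠ 0 := jqModC_ne_zero_of_nontrivial k
  apply le_antisymm
  · exact HahnSeries.order_le_of_coeff_ne_zero (by rw [coeff_jqModC_neg_one]; exact one_ne_zero)
  · by_contra h
    rw [not_le] at h
    have h0 := coeff_jqModC_of_lt k (by omega : (jqModC k).order < -1)
    exact (HahnSeries.coeff_order_eq_zero.not.mpr hne) h0

/-- **[L.I]**, elementary form: `1, j, …, j^{p-1}` are linearly independent over the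
image of `q ↦ q^p`. -/
theorem h88_linIndep_core (p : ℕ) [NeZero p] (c : ℕ → LaurentSeries k)
    (h : ∑ i ∈ Finset.range p, qExpand k p (c i) * (jqModC k) ^ i = 0) :
    ∀ i ∈ Finset.range p, c i = 0 := by
  classical
  by_contra hcon
  rw [not_forall] at hcon
  obtain ⟨i₁, hcon⟩ := hcon
  rw [Classical.not_imp] at hcon
  obtain ⟨hi₁, hci₁⟩ := hcon
  have hj0 : jqModC k ≠ 0 := jqModC_ne_zero_of_nontrivial k
  have hS : ((Finset.range p).filter (fun i => c i ≠ 0)).Nonempty :=
    ⟨i₁, Finset.mem_filter.mpr ⟨hi₁, hci₁⟩⟩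
  obtain ⟨i₀, hi₀S, hmin⟩ := Finset.exists_min_image _
    (fun i => (qExpand k p (c i) * (jqModC k) ^ i).order) hS
  have hi₀ := Finset.mem_filter.mp hi₀S
  have hV : ∀ i, c i ≠ 0 → qExpand k p (c i) ≠ 0 := fun i hci h0 =>
    hci (qExpand_injective p (by rw [h0, map_zero]))
  have hord : ∀ i, c i ≠ 0 →
      (qExpand k p (c i) * (jqModC k) ^ i).order = (p : ℤ) * (c i).order - i := by
    intro i hci
    rw [HahnSeries.order_mul (hV i hci) (pow_ne_zero _ hj0), HahnSeries.order_pow,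
      h88_order_qExpand k p hci, h88_order_jqModC]
    simp
    ring
  have hne : ∀ i, c i ≠ 0 → qExpand k p (c i) * (jqModC k) ^ i ≠ 0 := fun i hci =>
    mul_ne_zero (hV i hci) (pow_ne_zero _ hj0)
  have hcoeff : (∑ i ∈ Finset.range p, qExpand k p (c i) * (jqModC k) ^ i).coeff
      (qExpand k p (c i₀) * (jqModC k) ^ i₀).order = 0 := by
    rw [h, HahnSeries.coeff_zero]
  rw [HahnSeries.coeff_sum, Finset.sum_eq_single_of_mem i₀ hi₀.1] at hcoeff
  · exact (HahnSeries.coeff_order_eq_zero.not.mpr (hne i₀ hi₀.2)) hcoeff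
  · intro i hi hii₀
    by_cases hci : c i = 0
    · rw [hci, map_zero, zero_mul, HahnSeries.coeff_zero]
    · apply HahnSeries.coeff_eq_zero_of_lt_order
      have h1 := hmin i (Finset.mem_filter.mpr ⟨hi, hci⟩)
      rw [hord i hci, hord i₀ hi₀.2] at h1 ⊢
      rcases lt_or_eq_of_le h1 with h2 | h2
      · exact h2
      · exfalso
        have hip := Finset.mem_range.mp hi
        have hi₀p := Finset.mem_range.mp hi₀.1
        have hdvd : (p : ℤ) ∣ (i₀ : ℤ) - i := ⟨(c i₀).order - (c i).order, by linarith⟩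
        have h0 := Int.eq_zero_of_abs_lt_dvd hdvd (by rw [abs_lt]; constructor <;> omega)
        omega

/-- **[L.I]**, polynomial form: no nonzero polynomial of degree `< p` over `k((q^p))`
vanishes at `j`. -/
theorem h88_aeval_ne_zero_of_natDegree_lt (p : ℕ) [NeZero p]
    (Q : Polynomial (qExpandAlgHomC k p).fieldRange) (hQ : Q ≠ 0) (hdeg : Q.natDegree < p) :
    Polynomial.aeval (jqModC k) Q ≠ 0 := by
  intro h
  rw [Polynomial.aeval_eq_sum_range' hdeg] at h
  have hc : ∀ i, ∃ y, qExpand k p y = (Q.coeff i : LaurentSeries k) := fun i =>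
    AlgHom.mem_fieldRange.mp (Q.coeff i).2
  choose c hc using hc
  have h' : ∑ i ∈ Finset.range p, qExpand k p (c i) * (jqModC k) ^ i = 0 := by
    rw [← h]
    refine Finset.sum_congr rfl fun i _ => ?_
    rw [hc, Algebra.smul_def]
    rfl
  have h0 := h88_linIndep_core k p c h'
  apply hQ
  refine Polynomial.ext fun i => ?_
  by_cases hi : i < p
  · have h1 : (Q.coeff i : LaurentSeries k) = 0 := by
      rw [← hc, h0 i (Finset.mem_range.mpr hi), map_zero]
    rw [Polynomial.coeff_zero]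
    exact ZeroMemClass.coe_eq_zero.mp h1
  · rw [Polynomial.coeff_eq_zero_of_natDegree_lt (by omega), Polynomial.coeff_zero]

/-- **[L.I]**, `LinearIndependent` form. -/
theorem h88_linearIndependent_pow (p : ℕ) [NeZero p] :
    LinearIndependent (qExpandAlgHomC k p).fieldRange
      (fun i : Fin p => (jqModC k) ^ (i : ℕ)) := by
  rw [Fintype.linearIndependent_iff]
  intro g hg i
  have hc : ∀ i : Fin p, ∃ y, qExpand k p y = (g i : LaurentSeries k) := fun i =>
    AlgHom.mem_fieldRange.mp (g i).2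
  choose c hc using hc
  have h' : ∑ n ∈ Finset.range p,
      qExpand k p (if h : n < p then c ⟨n, h⟩ else 0) * (jqModC k) ^ n = 0 := by
    rw [Finset.sum_range, ← hg]
    refine Finset.sum_congr rfl fun i _ => ?_
    rw [dif_pos i.2, Fin.eta, hc, Algebra.smul_def]
    rfl
  have h0 := h88_linIndep_core k p _ h' i (Finset.mem_range.mpr i.2)
  rw [dif_pos i.2, Fin.eta] at h0
  have h1 : (g i : LaurentSeries k) = 0 := by rw [← hc, h0, map_zero]
  exact ZeroMemClass.coe_eq_zero.mp h1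

end Independence

section Degree

variable (k : Type*) [Field k] (p : ℕ) [NeZero p]

theorem h88_comp_evalAt {A A' : Type*} [CommRing A] [CommRing A']
    (g : LaurentSeries A →+* LaurentSeries A') (y : LaurentSeries A) :
    g.comp (evalAt y) = evalAt (g y) := by
  apply Polynomial.ringHom_ext
  · intro a
    simp [evalAt]
  · simp [evalAt]

/-- `Φ(j_p, j) = 0` over `k`. -/
theorem h88_modPoly_eval_jp (Φ : ModPolyData p) :
    Φ.Φ.eval₂ (evalAt (jqModC k)) (qExpand k p (jqModC k)) = 0 := by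
  have h := congrArg (coeffMap (Int.castRingHom k)) Φ.eval_jp
  rw [Polynomial.hom_eval₂, map_zero, h88_comp_evalAt, coeffMap_qExpand, coeffMap_jqModC] at h
  exact h

/-- `Φ(j, j_p) = 0` over `k`. -/
theorem h88_modPoly_eval_j (Φ : ModPolyData p) :
    Φ.Φ.eval₂ (evalAt (qExpand k p (jqModC k))) (jqModC k) = 0 := by
  have h := congrArg (coeffMap (Int.castRingHom k)) Φ.eval_j
  rw [Polynomial.hom_eval₂, map_zero, h88_comp_evalAt, coeffMap_qExpand, coeffMap_jqModC] at h
  exact h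

/-- `Φ(j_{p²}, j_p) = 0` over `k`. -/
theorem h88_modPoly_eval_jpp (Φ : ModPolyData p) :
    Φ.Φ.eval₂ (evalAt (qExpand k p (jqModC k)))
      (qExpand k p (qExpand k p (jqModC k))) = 0 := by
  have h := congrArg (qExpand k p) (h88_modPoly_eval_jp k p Φ)
  rw [Polynomial.hom_eval₂, map_zero, h88_comp_evalAt] at h
  exact h

/-- Specialisation `ℤ[Y] → E`, `Y ↦ y`, for an intermediate field `E ∋ y`. -/
def h88_evalSub (E : IntermediateField k (LaurentSeries k)) {y : LaurentSeries k}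
    (hy : y ∈ E) : Polynomial ℤ →+* E :=
  (Polynomial.aeval (R := ℤ) (⟨y, hy⟩ : E)).toRingHom

theorem h88_algebraMap_comp_evalSub (E : IntermediateField k (LaurentSeries k))
    {y : LaurentSeries k} (hy : y ∈ E) :
    (algebraMap E (LaurentSeries k)).comp (h88_evalSub k E hy) = evalAt y := by
  apply Polynomial.ringHom_ext
  · intro a
    simp [evalAt, h88_evalSub]
  · simp [evalAt, h88_evalSub]

theorem h88_aeval_map_evalSub (E : IntermediateField k (LaurentSeries k))
    {y : LaurentSeries k} (hy : y ∈ E) (Φ : Polynomial (Polynomial ℤ))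
    (x : LaurentSeries k) :
    Polynomial.aeval x (Φ.map (h88_evalSub k E hy)) = Φ.eval₂ (evalAt y) x := by
  rw [Polynomial.aeval_def, Polynomial.eval₂_map, h88_algebraMap_comp_evalSub]

theorem h88_jp_mem_map :
    qExpand k p (jqModC k) ∈ (jField k).map (qExpandAlgHomC k p) :=
  (IntermediateField.mem_map (jField k)).mpr ⟨jqModC k, h88_jqModC_mem_jField k, rfl⟩

theorem h88_map_le_fieldRange :
    (jField k).map (qExpandAlgHomC k p) ≤ (qExpandAlgHomC k p).fieldRange := by
  intro x hx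
  obtain ⟨y, -, hy⟩ := (IntermediateField.mem_map (jField k)).mp hx
  exact AlgHom.mem_fieldRange.mpr ⟨y, hy⟩

theorem h88_jqModC_ne_qExpand (hp1 : 1 < p) (y : LaurentSeries k) :
    jqModC k ≠ qExpand k p y := by
  intro h
  have h1 := coeff_jqModC_neg_one k
  rw [h, qExpand_coeff_of_not_dvd p y] at h1
  · exact zero_ne_one h1
  · intro hdvd
    have h2 : (p : ℤ) ∣ 1 := (dvd_neg).mp hdvd
    have h3 := Int.le_of_dvd (by norm_num) h2
    have h4 : (1 : ℤ) < p := by exact_mod_cast hp1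
    omega

/-- The modular polynomial specialised at `Y = j_p`, over `K₁ = k(j_p) = V_p(k(j))`. -/
def h88_Phi1 (Φ : ModPolyData p) :
    Polynomial ((jField k).map (qExpandAlgHomC k p)) :=
  Φ.Φ.map (h88_evalSub k _ (h88_jp_mem_map k p))

/-- The modular polynomial specialised at `Y = j`, over `k(j)`. -/
def h88_Phi0 (Φ : ModPolyData p) : Polynomial (jField k) :=
  Φ.Φ.map (h88_evalSub k _ (h88_jqModC_mem_jField k))

theorem h88_Phi1_monic (Φ : ModPolyData p) : (h88_Phi1 k p Φ).Monic := Φ.monic.map _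

theorem h88_Phi0_monic (Φ : ModPolyData p) : (h88_Phi0 k p Φ).Monic := Φ.monic.map _

theorem h88_Phi1_natDegree (Φ : ModPolyData p) : (h88_Phi1 k p Φ).natDegree = p + 1 := by
  rw [h88_Phi1, Φ.monic.natDegree_map, Φ.natDegree_eq]

theorem h88_Phi0_natDegree (Φ : ModPolyData p) : (h88_Phi0 k p Φ).natDegree = p + 1 := by
  rw [h88_Phi0, Φ.monic.natDegree_map, Φ.natDegree_eq]

theorem h88_Phi1_aeval_j (Φ : ModPolyData p) :
    Polynomial.aeval (jqModC k) (h88_Phi1 k p Φ) = 0 := by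
  rw [h88_Phi1, h88_aeval_map_evalSub]
  exact h88_modPoly_eval_j k p Φ

theorem h88_Phi1_aeval_jpp (Φ : ModPolyData p) :
    Polynomial.aeval (qExpand k p (qExpand k p (jqModC k))) (h88_Phi1 k p Φ) = 0 := by
  rw [h88_Phi1, h88_aeval_map_evalSub]
  exact h88_modPoly_eval_jpp k p Φ

theorem h88_Phi0_aeval_jp (Φ : ModPolyData p) :
    Polynomial.aeval (qExpand k p (jqModC k)) (h88_Phi0 k p Φ) = 0 := by
  rw [h88_Phi0, h88_aeval_map_evalSub]
  exact h88_modPoly_eval_jp k p Φ

theorem h88_isIntegral_j_K1 (Φ : ModPolyData p) :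
    IsIntegral ((jField k).map (qExpandAlgHomC k p)) (jqModC k) :=
  ⟨h88_Phi1 k p Φ, h88_Phi1_monic k p Φ, h88_Phi1_aeval_j k p Φ⟩

theorem h88_isIntegral_jp (Φ : ModPolyData p) :
    IsIntegral (jField k) (qExpand k p (jqModC k)) :=
  ⟨h88_Phi0 k p Φ, h88_Phi0_monic k p Φ, h88_Phi0_aeval_jp k p Φ⟩

/-- Key step: a polynomial over `K₁ ⊆ k((q^p))` vanishing at `j` is zero or has degree `≥ p`. -/
theorem h88_le_natDegree_of_aeval_j_eq_zero
    (Q : Polynomial ((jField k).map (qExpandAlgHomC k p))) (hQ : Q ≠ 0)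
    (h : Polynomial.aeval (jqModC k) Q = 0) : p ≤ Q.natDegree := by
  by_contra hlt
  rw [not_le] at hlt
  let incl : ((jField k).map (qExpandAlgHomC k p)) →+* (qExpandAlgHomC k p).fieldRange :=
    (IntermediateField.inclusion (h88_map_le_fieldRange k p)).toRingHom
  have hinj : Function.Injective incl :=
    (IntermediateField.inclusion (h88_map_le_fieldRange k p)).toRingHom.injective
  have h1 : Q.map incl ≠ 0 := (Polynomial.map_ne_zero_iff hinj).mpr hQ
  have h2 : (Q.map incl).natDegree < p := by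
    rw [Polynomial.natDegree_map_eq_of_injective hinj]; exact hlt
  apply h88_aeval_ne_zero_of_natDegree_lt k p (Q.map incl) h1 h2
  rw [Polynomial.aeval_def, Polynomial.eval₂_map]
  exact h

/-- **[L.B2], first half**: the minimal polynomial of `j` over `K₁ = k(j_p)` is `Φ_p(X, j_p)`,
of degree `p + 1`. -/
theorem h88_minpoly_j_eq_Phi1 (hpk : (p : k) ≠ 0) (hp1 : 1 < p) (Φ : ModPolyData p)
    (W : UnitPolyData p)
    (hθ : (thetaL ℤ (jqModC ℤ)) ^ 6 = deltaL ℤ * (jqModC ℤ) ^ 4 * (jqModC ℤ - 1728) ^ 3) :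
    minpoly ((jField k).map (qExpandAlgHomC k p)) (jqModC k) = h88_Phi1 k p Φ := by
  have hint := h88_isIntegral_j_K1 k p Φ
  have hm_monic := minpoly.monic hint
  have hm_dvd : minpoly ((jField k).map (qExpandAlgHomC k p)) (jqModC k) ∣ h88_Phi1 k p Φ :=
    minpoly.dvd _ _ (h88_Phi1_aeval_j k p Φ)
  have hm_ge := h88_le_natDegree_of_aeval_j_eq_zero k p _ hm_monic.ne_zero (minpoly.aeval _ _)
  have hm_le : (minpoly ((jField k).map (qExpandAlgHomC k p)) (jqModC k)).natDegree ≤ p + 1 := by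
    rw [← h88_Phi1_natDegree k p Φ]
    exact Polynomial.natDegree_le_of_dvd hm_dvd (h88_Phi1_monic k p Φ).ne_zero
  have hm_eq : (minpoly ((jField k).map (qExpandAlgHomC k p)) (jqModC k)).natDegree = p + 1 := by
    by_contra hne
    have hmp : (minpoly ((jField k).map (qExpandAlgHomC k p)) (jqModC k)).natDegree = p := by
      omega
    obtain ⟨R, hR⟩ := hm_dvd
    have hRmonic : R.Monic := hm_monic.of_mul_monic_left (hR ▸ h88_Phi1_monic k p Φ)
    have hRdeg : R.natDegree = 1 := by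
      have h := congrArg Polynomial.natDegree hR
      rw [hm_monic.natDegree_mul hRmonic, h88_Phi1_natDegree, hmp] at h
      omega
    have hR' : R = Polynomial.X + Polynomial.C (R.coeff 0) := hRmonic.eq_X_add_C hRdeg
    have h1 : Polynomial.aeval (qExpand k p (qExpand k p (jqModC k)))
          (minpoly ((jField k).map (qExpandAlgHomC k p)) (jqModC k))
        * Polynomial.aeval (qExpand k p (qExpand k p (jqModC k))) R = 0 := by
      rw [← map_mul, ← hR]
      exact h88_Phi1_aeval_jpp k p Φ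
    rcases mul_eq_zero.mp h1 with h2 | h2
    · -- `m` has the root `j_{p²} ∈ k((q^p))`: split off a linear factor over `k((q^p))`
      let incl : ((jField k).map (qExpandAlgHomC k p)) →+* (qExpandAlgHomC k p).fieldRange :=
        (IntermediateField.inclusion (h88_map_le_fieldRange k p)).toRingHom
      have hinj : Function.Injective incl :=
        (IntermediateField.inclusion (h88_map_le_fieldRange k p)).toRingHom.injective
      let b₂ : (qExpandAlgHomC k p).fieldRange :=
        ⟨qExpand k p (qExpand k p (jqModC k)),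
          AlgHom.mem_fieldRange.mpr ⟨qExpand k p (jqModC k), rfl⟩⟩
      have hroot : ((minpoly ((jField k).map (qExpandAlgHomC k p)) (jqModC k)).map incl).IsRoot
          b₂ := by
        rw [Polynomial.IsRoot.def]
        apply (algebraMap (qExpandAlgHomC k p).fieldRange (LaurentSeries k)).injective
        rw [map_zero, Polynomial.eval_map, Polynomial.hom_eval₂]
        exact h2
      obtain ⟨M', hM'⟩ := Polynomial.dvd_iff_isRoot.mpr hroot
      have hmapne : (minpoly ((jField k).map (qExpandAlgHomC k p)) (jqModC k)).map incl ≠ 0 :=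
        (Polynomial.map_ne_zero_iff hinj).mpr hm_monic.ne_zero
      have hM'ne : M' ≠ 0 := by
        intro h0
        rw [h0, mul_zero] at hM'
        exact hmapne hM'
      have hM'deg : M'.natDegree < p := by
        have h := congrArg Polynomial.natDegree hM'
        rw [Polynomial.natDegree_map_eq_of_injective hinj, hmp,
          Polynomial.natDegree_mul (Polynomial.X_sub_C_ne_zero b₂) hM'ne,
          Polynomial.natDegree_X_sub_C] at h
        omega
      apply h88_aeval_ne_zero_of_natDegree_lt k p M' hM'ne hM'deg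
      have h3 : Polynomial.aeval (jqModC k)
          ((minpoly ((jField k).map (qExpandAlgHomC k p)) (jqModC k)).map incl) = 0 := by
        rw [Polynomial.aeval_def, Polynomial.eval₂_map]
        exact minpoly.aeval _ _
      rw [hM', map_mul, map_sub, Polynomial.aeval_X, Polynomial.aeval_C] at h3
      rcases mul_eq_zero.mp h3 with h4 | h4
      · exact absurd (sub_eq_zero.mp h4) (h88_jqModC_ne_qExpand k p hp1 _)
      · exact h4
    · -- `j_{p²} ∈ K₁ = V_p(k(j))`, hence `j_p ∈ k(j)`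
      rw [hR', map_add, Polynomial.aeval_X, Polynomial.aeval_C] at h2
      have h3 : qExpand k p (qExpand k p (jqModC k))
          ∈ (jField k).map (qExpandAlgHomC k p) := by
        have h4 : qExpand k p (qExpand k p (jqModC k))
            = -(algebraMap ((jField k).map (qExpandAlgHomC k p)) (LaurentSeries k)
                (R.coeff 0)) := eq_neg_of_add_eq_zero_left h2
        rw [h4]
        exact neg_mem (R.coeff 0).2
      obtain ⟨r, hr, hVr⟩ := (IntermediateField.mem_map (jField k)).mp h3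
      have hr' : r = qExpand k p (jqModC k) := qExpand_injective p hVr
      exact h88_jp_not_mem_jField k p hpk hp1 W hθ (hr' ▸ hr)
  exact (Polynomial.eq_of_monic_of_dvd_of_natDegree_le hm_monic (h88_Phi1_monic k p Φ) hm_dvd
    (by rw [h88_Phi1_natDegree, hm_eq])).symm

theorem h88_irreducible_Phi1 (hpk : (p : k) ≠ 0) (hp1 : 1 < p) (Φ : ModPolyData p)
    (W : UnitPolyData p)
    (hθ : (thetaL ℤ (jqModC ℤ)) ^ 6 = deltaL ℤ * (jqModC ℤ) ^ 4 * (jqModC ℤ - 1728) ^ 3) :
    Irreducible (h88_Phi1 k p Φ) := by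
  rw [← h88_minpoly_j_eq_Phi1 k p hpk hp1 Φ W hθ]
  exact minpoly.irreducible (h88_isIntegral_j_K1 k p Φ)

theorem h88_natDegree_minpoly_j (hpk : (p : k) ≠ 0) (hp1 : 1 < p) (Φ : ModPolyData p)
    (W : UnitPolyData p)
    (hθ : (thetaL ℤ (jqModC ℤ)) ^ 6 = deltaL ℤ * (jqModC ℤ) ^ 4 * (jqModC ℤ - 1728) ^ 3) :
    (minpoly ((jField k).map (qExpandAlgHomC k p)) (jqModC k)).natDegree = p + 1 := by
  rw [h88_minpoly_j_eq_Phi1 k p hpk hp1 Φ W hθ, h88_Phi1_natDegree]

/-- **[L.B2]**: the minimal polynomial of `j(q^p)` over `k(j)` has degree `p + 1`. -/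
theorem h88_natDegree_minpoly_jp (hpk : (p : k) ≠ 0) (hp1 : 1 < p) (Φ : ModPolyData p)
    (W : UnitPolyData p)
    (hθ : (thetaL ℤ (jqModC ℤ)) ^ 6 = deltaL ℤ * (jqModC ℤ) ^ 4 * (jqModC ℤ - 1728) ^ 3) :
    (minpoly (jField k) (qExpand k p (jqModC k))).natDegree = p + 1 := by
  have hint := h88_isIntegral_jp k p Φ
  have hm_monic := minpoly.monic hint
  apply le_antisymm
  · rw [← h88_Phi0_natDegree k p Φ]
    exact Polynomial.natDegree_le_of_dvd (minpoly.dvd _ _ (h88_Phi0_aeval_jp k p Φ))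
      (h88_Phi0_monic k p Φ).ne_zero
  · -- transport the minimal polynomial through `V_p`
    let e : (jField k) →+* ((jField k).map (qExpandAlgHomC k p)) :=
      ((jField k).equivMap (qExpandAlgHomC k p)).toAlgHom.toRingHom
    have hcomp : (algebraMap ((jField k).map (qExpandAlgHomC k p)) (LaurentSeries k)).comp e
        = (qExpand k p).comp (algebraMap (jField k) (LaurentSeries k)) := by
      ext x
      rfl
    have hQ : Polynomial.aeval (qExpand k p (qExpand k p (jqModC k)))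
        ((minpoly (jField k) (qExpand k p (jqModC k))).map e) = 0 := by
      rw [Polynomial.aeval_def, Polynomial.eval₂_map, hcomp, ← Polynomial.hom_eval₂,
        ← Polynomial.aeval_def, minpoly.aeval, map_zero]
    have hirr := h88_irreducible_Phi1 k p hpk hp1 Φ W hθ
    have hmin := minpoly.eq_of_irreducible_of_monic hirr (h88_Phi1_aeval_jpp k p Φ)
      (h88_Phi1_monic k p Φ)
    have hdvd := minpoly.dvd _ _ hQ
    rw [← hmin] at hdvd
    have h1 := Polynomial.natDegree_le_of_dvd hdvd ((hm_monic.map e).ne_zero)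
    rw [h88_Phi1_natDegree, hm_monic.natDegree_map] at h1
    exact h1

end Degree

end Fermat.Agent.S28

end

end
-- ===== PACK-END S28/H88/Degree.lean

-- ===== PACK-BEGIN S28/H88/Kronecker.lean
section
/-
S28-derived shared brick -- helper88: Frobenius on Laurent series in characteristic `p`
(`f ^ p = V_p (f^{(p)})`) and the Kronecker congruence for the modular polynomial:
`Φ_p(X, Y) ≡ (X^p - Y)(X - Y^p) mod p`, derived formally from `ModPolyData p`.
-/


set_option autoImplicit false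

noncomputable section

open ModularCurve HahnSeries

namespace Fermat.Agent.S28

section Frobenius

variable (k : Type*) [Field k] (p : ℕ) [hp : Fact p.Prime] [CharP k p] [NeZero p]

omit hp [NeZero p] in
theorem h88_charP_laurent : CharP (LaurentSeries k) p :=
  charP_of_injective_ringHom (f := (HahnSeries.C : k →+* LaurentSeries k))
    HahnSeries.C_injective p

omit hp [CharP k p] in
/-- If all coefficients of `x` below `N` vanish, all coefficients of `x ^ p` below `p * N`
vanish. -/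
theorem h88_coeff_pow_eq_zero {x : LaurentSeries k} {N : ℤ} (hx : ∀ i < N, x.coeff i = 0)
    {n : ℤ} (hn : n < (p : ℤ) * N) : (x ^ p).coeff n = 0 := by
  by_cases hx0 : x = 0
  · rw [hx0, zero_pow (NeZero.ne p), HahnSeries.coeff_zero]
  · apply HahnSeries.coeff_eq_zero_of_lt_order
    rw [HahnSeries.order_pow, nsmul_eq_mul]
    have h1 : N ≤ x.order := by
      by_contra hlt
      rw [not_le] at hlt
      exact (HahnSeries.coeff_order_eq_zero.not.mpr hx0) (hx _ hlt)
    have hp0 : (0 : ℤ) ≤ (p : ℤ) := by positivity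
    have h2 : (p : ℤ) * N ≤ (p : ℤ) * x.order := mul_le_mul_of_nonneg_left h1 hp0
    exact lt_of_lt_of_le hn h2

/-- **Frobenius on Laurent series** in characteristic `p`: `f ^ p = V_p (f^{(p)})`, where
`f^{(p)}` raises every coefficient to the `p`-th power. -/
theorem h88_pow_char_eq_qExpand (f : LaurentSeries k) :
    f ^ p = qExpand k p (coeffMap (frobenius k p) f) := by
  have : CharP (LaurentSeries k) p := h88_charP_laurent k p
  have hp1 : (1 : ℤ) ≤ p := by exact_mod_cast Nat.pos_of_ne_zero (NeZero.ne p)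
  ext n
  -- cut `f` at `N`
  obtain ⟨N, hN⟩ : ∃ N : ℤ, n < (p : ℤ) * N := by
    refine ⟨|n| + 1, ?_⟩
    have h1 : n ≤ |n| := le_abs_self n
    have h2 : (0 : ℤ) ≤ |n| := abs_nonneg n
    nlinarith
  set A : LaurentSeries k :=
    ∑ i ∈ Finset.Ico f.order N, HahnSeries.single i (f.coeff i) with hA
  have hAcoeff : ∀ i, A.coeff i = if i ∈ Finset.Ico f.order N then f.coeff i else 0 := by
    intro i
    rw [hA, HahnSeries.coeff_sum]
    by_cases hi : i ∈ Finset.Ico f.order N
    · rw [if_pos hi, Finset.sum_eq_single_of_mem i hi, HahnSeries.coeff_single_same]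
      intro i' _ hne
      exact HahnSeries.coeff_single_of_ne (Ne.symm hne)
    · rw [if_neg hi]
      apply Finset.sum_eq_zero
      intro i' hi'
      apply HahnSeries.coeff_single_of_ne
      rintro rfl
      exact hi hi'
  have hB : ∀ i < N, (f - A).coeff i = 0 := by
    intro i hi
    rw [HahnSeries.coeff_sub, hAcoeff]
    by_cases hio : f.order ≤ i
    · rw [if_pos (Finset.mem_Ico.mpr ⟨hio, hi⟩), sub_self]
    · rw [if_neg (fun h => hio (Finset.mem_Ico.mp h).1), sub_zero]
      exact HahnSeries.coeff_eq_zero_of_lt_order (not_le.mp hio)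
  have hsplit : f ^ p = A ^ p + (f - A) ^ p := by
    rw [← add_pow_char, add_sub_cancel]
  have hApow : A ^ p = ∑ i ∈ Finset.Ico f.order N,
      HahnSeries.single ((p : ℤ) * i) (f.coeff i ^ p) := by
    rw [hA, sum_pow_char]
    refine Finset.sum_congr rfl fun i _ => ?_
    rw [HahnSeries.single_pow, nsmul_eq_mul]
  rw [hsplit, HahnSeries.coeff_add, h88_coeff_pow_eq_zero k p hB hN, add_zero, hApow,
    HahnSeries.coeff_sum]
  by_cases hdvd : (p : ℤ) ∣ n
  · obtain ⟨i₀, rfl⟩ := hdvd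
    rw [qExpand_coeff_mul, coeffMap_coeff, frobenius_def]
    have hi₀N : i₀ < N := by
      by_contra hge
      rw [not_lt] at hge
      have : (p : ℤ) * N ≤ (p : ℤ) * i₀ := mul_le_mul_of_nonneg_left hge (by positivity)
      omega
    have hpne : (p : ℤ) ≠ 0 := by exact_mod_cast NeZero.ne p
    by_cases hio : f.order ≤ i₀
    · rw [Finset.sum_eq_single_of_mem i₀ (Finset.mem_Ico.mpr ⟨hio, hi₀N⟩),
        HahnSeries.coeff_single_same]
      intro i' _ hne
      apply HahnSeries.coeff_single_of_ne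
      intro h
      exact hne (mul_left_cancel₀ hpne h).symm
    · rw [HahnSeries.coeff_eq_zero_of_lt_order (not_le.mp hio), zero_pow (NeZero.ne p)]
      apply Finset.sum_eq_zero
      intro i' hi'
      apply HahnSeries.coeff_single_of_ne
      intro h
      have h1 : i₀ = i' := mul_left_cancel₀ hpne h
      exact hio (h1 ▸ (Finset.mem_Ico.mp hi').1)
  · rw [qExpand_coeff_of_not_dvd p _ hdvd]
    apply Finset.sum_eq_zero
    intro i' _
    apply HahnSeries.coeff_single_of_ne
    rintro rfl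
    exact hdvd ⟨i', rfl⟩

end Frobenius

section FrobeniusZMod

variable (p : ℕ) [hp : Fact p.Prime] [NeZero p]

/-- Over `𝔽_p`: `V_p f = f ^ p`. -/
theorem h88_qExpand_zmod (f : LaurentSeries (ZMod p)) :
    qExpand (ZMod p) p f = f ^ p := by
  rw [h88_pow_char_eq_qExpand (ZMod p) p f]
  congr 1
  ext n
  rw [coeffMap_coeff, frobenius_def, ZMod.pow_card]

end FrobeniusZMod

section Kronecker

open Polynomial

variable (p : ℕ) [hp : Fact p.Prime] [NeZero p]

/-- The modular polynomial reduced mod `p`, in `𝔽_p[Y][X]`. -/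
def h88_PhiBar (Φ : ModPolyData p) : Polynomial (Polynomial (ZMod p)) :=
  Φ.Φ.map (Polynomial.mapRingHom (Int.castRingHom (ZMod p)))

theorem h88_PhiBar_monic (Φ : ModPolyData p) : (h88_PhiBar p Φ).Monic := Φ.monic.map _

theorem h88_PhiBar_natDegree (Φ : ModPolyData p) : (h88_PhiBar p Φ).natDegree = p + 1 := by
  rw [h88_PhiBar, Φ.monic.natDegree_map, Φ.natDegree_eq]

theorem h88_aeval_comp_mapRingHom (k : Type*) [Field k] (y : LaurentSeries k) :
    ((Polynomial.aeval (R := k) y).toRingHom).comp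
        (Polynomial.mapRingHom (Int.castRingHom k)) = evalAt y := by
  apply Polynomial.ringHom_ext
  · intro a
    simp [evalAt]
  · simp [evalAt]

/-- `Ψ(j^p, j) = 0` where `Ψ = Φ mod p`. -/
theorem h88_PhiBar_eval_jp (Φ : ModPolyData p) :
    (h88_PhiBar p Φ).eval₂ (Polynomial.aeval (R := ZMod p) (jqModC (ZMod p))).toRingHom
      ((jqModC (ZMod p)) ^ p) = 0 := by
  rw [h88_PhiBar, Polynomial.eval₂_map, h88_aeval_comp_mapRingHom, ← h88_qExpand_zmod]
  exact h88_modPoly_eval_jp (ZMod p) p Φ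

/-- `Ψ(j, j^p) = 0` where `Ψ = Φ mod p`. -/
theorem h88_PhiBar_eval_j (Φ : ModPolyData p) :
    (h88_PhiBar p Φ).eval₂ (Polynomial.aeval (R := ZMod p) ((jqModC (ZMod p)) ^ p)).toRingHom
      (jqModC (ZMod p)) = 0 := by
  rw [h88_PhiBar, Polynomial.eval₂_map, h88_aeval_comp_mapRingHom, ← h88_qExpand_zmod]
  exact h88_modPoly_eval_j (ZMod p) p Φ

/-- `Ψ(Y^p, Y) = 0` as a polynomial identity. -/
theorem h88_PhiBar_eval_X_pow (Φ : ModPolyData p) :
    (h88_PhiBar p Φ).eval ((Polynomial.X : Polynomial (ZMod p)) ^ p) = 0 := by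
  apply h88_aeval_jqModC_injective (ZMod p)
  rw [map_zero]
  have h := Polynomial.hom_eval₂ (h88_PhiBar p Φ) (RingHom.id (Polynomial (ZMod p)))
    (Polynomial.aeval (R := ZMod p) (jqModC (ZMod p))).toRingHom
    ((Polynomial.X : Polynomial (ZMod p)) ^ p)
  rw [Polynomial.eval₂_id, RingHom.comp_id] at h
  have h2 : (Polynomial.aeval (R := ZMod p) (jqModC (ZMod p))).toRingHom
      ((Polynomial.X : Polynomial (ZMod p)) ^ p) = (jqModC (ZMod p)) ^ p := by
    simp
  rw [h2, h88_PhiBar_eval_jp] at h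
  exact h

theorem h88_aeval_pow_eq_qExpand (c : Polynomial (ZMod p)) :
    Polynomial.aeval ((jqModC (ZMod p)) ^ p) c
      = qExpand (ZMod p) p (Polynomial.aeval (jqModC (ZMod p)) c) := by
  rw [← h88_qExpand_zmod]
  exact Polynomial.aeval_algHom_apply (qExpandAlgHomC (ZMod p) p) (jqModC (ZMod p)) c

/-- A polynomial `R ∈ 𝔽_p[Y][X]` of `X`-degree `< p` with `R(j, j^p) = 0` vanishes. -/
theorem h88_eq_zero_of_eval_j_pow (R : Polynomial (Polynomial (ZMod p)))
    (hdeg : R.natDegree < p)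
    (h : R.eval₂ (Polynomial.aeval (R := ZMod p) ((jqModC (ZMod p)) ^ p)).toRingHom
      (jqModC (ZMod p)) = 0) : R = 0 := by
  rw [Polynomial.eval₂_eq_sum_range' _ hdeg] at h
  have h' : ∑ i ∈ Finset.range p,
      qExpand (ZMod p) p (Polynomial.aeval (jqModC (ZMod p)) (R.coeff i))
        * (jqModC (ZMod p)) ^ i = 0 := by
    rw [← h]
    refine Finset.sum_congr rfl fun i _ => ?_
    rw [← h88_aeval_pow_eq_qExpand]
    rfl
  have h0 := h88_linIndep_core (ZMod p) p
    (fun i => Polynomial.aeval (jqModC (ZMod p)) (R.coeff i)) h'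
  refine Polynomial.ext fun i => ?_
  rw [Polynomial.coeff_zero]
  by_cases hi : i < p
  · apply h88_aeval_jqModC_injective (ZMod p)
    rw [map_zero]
    exact h0 i (Finset.mem_range.mpr hi)
  · exact Polynomial.coeff_eq_zero_of_natDegree_lt (by omega)

/-- **Kronecker congruence**: `Φ_p(X, Y) ≡ (X^p - Y)(X - Y^p) mod p`. -/
theorem h88_kronecker (Φ : ModPolyData p) :
    h88_PhiBar p Φ =
      ((Polynomial.X : Polynomial (Polynomial (ZMod p))) ^ p
          - Polynomial.C (Polynomial.X : Polynomial (ZMod p)))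
        * (Polynomial.X - Polynomial.C ((Polynomial.X : Polynomial (ZMod p)) ^ p)) := by
  have hp0 : p ≠ 0 := NeZero.ne p
  have hp2 : 2 ≤ p := hp.out.two_le
  obtain ⟨D, hD⟩ : ∃ D : Polynomial (Polynomial (ZMod p)),
      D = (Polynomial.X : Polynomial (Polynomial (ZMod p))) ^ p
        - Polynomial.C (Polynomial.X : Polynomial (ZMod p)) := ⟨_, rfl⟩
  rw [← hD]
  have hDmonic : D.Monic := by rw [hD]; exact Polynomial.monic_X_pow_sub_C _ hp0
  have hDdeg : D.natDegree = p := by rw [hD]; exact Polynomial.natDegree_X_pow_sub_C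
  have hD1 : D ≠ 1 := by
    intro h1
    have := congrArg Polynomial.natDegree h1
    rw [hDdeg, Polynomial.natDegree_one] at this
    exact hp0 this
  have hdiv := Polynomial.modByMonic_add_div (h88_PhiBar p Φ) D
  -- the remainder vanishes
  have hRdeg : (h88_PhiBar p Φ %ₘ D).natDegree < p := by
    have := Polynomial.natDegree_modByMonic_lt (h88_PhiBar p Φ) hDmonic hD1
    rwa [hDdeg] at this
  have hevD : D.eval₂ (Polynomial.aeval (R := ZMod p) ((jqModC (ZMod p)) ^ p)).toRingHom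
      (jqModC (ZMod p)) = 0 := by
    rw [hD, Polynomial.eval₂_sub, Polynomial.eval₂_pow, Polynomial.eval₂_X, Polynomial.eval₂_C]
    simp
  have hevR : (h88_PhiBar p Φ %ₘ D).eval₂
      (Polynomial.aeval (R := ZMod p) ((jqModC (ZMod p)) ^ p)).toRingHom
      (jqModC (ZMod p)) = 0 := by
    have h := h88_PhiBar_eval_j p Φ
    rw [← hdiv, Polynomial.eval₂_add, Polynomial.eval₂_mul, hevD, zero_mul, add_zero] at h
    exact h
  have hR0 : h88_PhiBar p Φ %ₘ D = 0 := h88_eq_zero_of_eval_j_pow p _ hRdeg hevR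
  rw [hR0, zero_add] at hdiv
  -- the quotient is monic of degree one
  have hmon : (D * (h88_PhiBar p Φ /ₘ D)).Monic := by
    rw [hdiv]; exact h88_PhiBar_monic p Φ
  have hQmonic : (h88_PhiBar p Φ /ₘ D).Monic := hDmonic.of_mul_monic_left hmon
  have hQdeg : (h88_PhiBar p Φ /ₘ D).natDegree = 1 := by
    have h := congrArg Polynomial.natDegree hdiv
    rw [hDmonic.natDegree_mul hQmonic, hDdeg, h88_PhiBar_natDegree] at h
    omega
  have hQ := hQmonic.eq_X_add_C hQdeg
  -- evaluate at `X = Y ^ p`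
  have hev := h88_PhiBar_eval_X_pow p Φ
  have hDev : D.eval ((Polynomial.X : Polynomial (ZMod p)) ^ p)
      = ((Polynomial.X : Polynomial (ZMod p)) ^ p) ^ p - Polynomial.X := by
    rw [hD, Polynomial.eval_sub, Polynomial.eval_pow, Polynomial.eval_X, Polynomial.eval_C]
  have hQev : (h88_PhiBar p Φ /ₘ D).eval ((Polynomial.X : Polynomial (ZMod p)) ^ p)
      = (Polynomial.X : Polynomial (ZMod p)) ^ p + (h88_PhiBar p Φ /ₘ D).coeff 0 := by
    conv_lhs => rw [hQ, Polynomial.eval_add, Polynomial.eval_X, Polynomial.eval_C]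
  rw [← hdiv, Polynomial.eval_mul, hDev, hQev] at hev
  have hne : ((Polynomial.X : Polynomial (ZMod p)) ^ p) ^ p - Polynomial.X ≠ 0 := by
    intro h0
    have h1 := congrArg (fun q => Polynomial.coeff q 1) h0
    simp only [Polynomial.coeff_sub, Polynomial.coeff_X_one, Polynomial.coeff_zero] at h1
    rw [← pow_mul, Polynomial.coeff_X_pow, if_neg (by nlinarith), zero_sub] at h1
    exact one_ne_zero (neg_eq_zero.mp h1)
  have hc : (h88_PhiBar p Φ /ₘ D).coeff 0 = -((Polynomial.X : Polynomial (ZMod p)) ^ p) := by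
    rcases mul_eq_zero.mp hev with h | h
    · exact absurd h hne
    · exact eq_neg_of_add_eq_zero_right h
  rw [← hdiv]
  conv_lhs => rw [hQ, hc, Polynomial.C_neg, ← sub_eq_add_neg]

/-- Kronecker congruence over any commutative ring `k` of characteristic `p`. -/
theorem h88_kronecker_charP (k : Type*) [CommRing k] [CharP k p] (Φ : ModPolyData p) :
    Φ.Φ.map (Polynomial.mapRingHom (Int.castRingHom k)) =
      ((Polynomial.X : Polynomial (Polynomial k)) ^ p
          - Polynomial.C (Polynomial.X : Polynomial k))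
        * (Polynomial.X - Polynomial.C ((Polynomial.X : Polynomial k) ^ p)) := by
  have h := congrArg (Polynomial.map (Polynomial.mapRingHom (ZMod.castHom (dvd_refl p) k)))
    (h88_kronecker p Φ)
  rw [h88_PhiBar, Polynomial.map_map] at h
  have hcomp : (Polynomial.mapRingHom (ZMod.castHom (dvd_refl p) k)).comp
      (Polynomial.mapRingHom (Int.castRingHom (ZMod p)))
      = Polynomial.mapRingHom (Int.castRingHom k) := by
    apply Polynomial.ringHom_ext
    · intro a
      simp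
    · simp
  rw [hcomp] at h
  rw [h]
  simp

/-- Kronecker congruence over `ℤ`: `Φ_p = (X^p - Y)(X - Y^p) + p · Θ`. -/
theorem h88_kronecker_int (Φ : ModPolyData p) :
    ∃ Θ : Polynomial (Polynomial ℤ), Φ.Φ =
      ((Polynomial.X : Polynomial (Polynomial ℤ)) ^ p
          - Polynomial.C (Polynomial.X : Polynomial ℤ))
        * (Polynomial.X - Polynomial.C ((Polynomial.X : Polynomial ℤ) ^ p))
        + Polynomial.C (Polynomial.C (p : ℤ)) * Θ := by
  set G : Polynomial (Polynomial ℤ) := Φ.Φ -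
      ((Polynomial.X : Polynomial (Polynomial ℤ)) ^ p
          - Polynomial.C (Polynomial.X : Polynomial ℤ))
        * (Polynomial.X - Polynomial.C ((Polynomial.X : Polynomial ℤ) ^ p)) with hG
  have hG0 : G.map (Polynomial.mapRingHom (Int.castRingHom (ZMod p))) = 0 := by
    rw [hG, Polynomial.map_sub]
    have h := h88_kronecker p Φ
    rw [h88_PhiBar] at h
    rw [h]
    simp
  have hdvd : ∀ i j, (p : ℤ) ∣ (G.coeff i).coeff j := by
    intro i j
    have h1 := congrArg (fun q => (Polynomial.coeff q i).coeff j) hG0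
    simp only [Polynomial.coeff_map, Polynomial.coe_mapRingHom, Polynomial.coeff_zero] at h1
    exact (ZMod.intCast_zmod_eq_zero_iff_dvd _ p).mp h1
  have hdvd2 : Polynomial.C (Polynomial.C (p : ℤ)) ∣ G := by
    rw [Polynomial.C_dvd_iff_dvd_coeff]
    intro i
    rw [Polynomial.C_dvd_iff_dvd_coeff]
    intro j
    exact hdvd i j
  obtain ⟨Θ, hΘ⟩ := hdvd2
  exact ⟨Θ, by rw [← hΘ, hG]; ring⟩

end Kronecker

end Fermat.Agent.S28

end

end
-- ===== PACK-END S28/H88/Kronecker.lean

-- ===== PACK-BEGIN S18/H203/LiftBasis.lean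
section


/-!
# S18 / b1 (helper203): lifting a basis of the special fibre — local freeness along `w = 0`

`S` a Noetherian integrally closed domain, `w ∈ S` prime, `S̄ = S ⧸ (w)`, `B` the integral
closure of `S` in a finite extension `F` of `K = Frac S`, finite over `S`, `B̄ = B ⧸ (w) B`.
Let `b : ι → B` be a finite family whose reduction is an `S̄`-basis of `B̄`.  Then

* `exists_smul_mem_span` : there is `r ∈ S`, `r ≡ 1 mod w`, with `r • B ⊆ span_S b`
  (Nakayama), i.e. `b` generates `B` over the localisation `S[1/r]`;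
* `linearIndependent_lift` : `b` is linearly independent over `S`;
* `basisOfLift` : the image of `b` in `F` is a `K`-basis of `F`; in particular
  `card ι = [F : K]` (`card_eq_finrank`).

So `B` is free with basis `b` over the semi-local ring `(1 + w S)⁻¹ S`, in particular over the
local rings of `S` at all primes containing `w`: "B is locally free of rank `[F : K]` along the
special fibre".
-/

set_option autoImplicit false

namespace Fermat.Agent.S18.H203

open Ideal

section

variable {S B : Type*} [CommRing S] [CommRing B] [Algebra S B]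

/-- The reduction map `B → B ⧸ (w) B`. -/
abbrev redB (w : S) : B →+* B ⧸ (Ideal.span {w}).map (algebraMap S B) :=
  Ideal.Quotient.mk _

/-- The reduction map `S → S ⧸ (w)`. -/
abbrev redS (w : S) : S →+* S ⧸ Ideal.span {w} :=
  Ideal.Quotient.mk _

theorem redB_smul (w : S) (s : S) (β : B) :
    redB w (s • β) = redS w s • redB (S := S) w β := by
  rw [Ideal.Quotient.mk_smul_mk_quotient_map_quotient, Algebra.smul_def]

theorem redB_eq_zero_iff (w : S) (β : B) :
    redB (S := S) w β = 0 ↔ algebraMap S B w ∣ β := by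
  rw [Ideal.Quotient.eq_zero_iff_mem, mem_map_span_singleton_iff]

theorem redS_eq_zero_iff (w : S) (s : S) : redS w s = 0 ↔ w ∣ s := by
  rw [Ideal.Quotient.eq_zero_iff_mem, Ideal.mem_span_singleton]

variable {ι : Type*} [Fintype ι]

/-- Every element of `B` is congruent mod `w` to an `S`-combination of the lifts. -/
theorem exists_sum_add_mul (w : S) (b : ι → B)
    (hspan : Submodule.span (S ⧸ Ideal.span {w}) (Set.range fun i => redB (S := S) w (b i)) = ⊤)
    (β : B) : ∃ (c : ι → S) (β' : B), β = ∑ i, c i • b i + algebraMap S B w * β' := by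
  have hβ : redB (S := S) w β ∈
      Submodule.span (S ⧸ Ideal.span {w}) (Set.range fun i => redB (S := S) w (b i)) := by
    rw [hspan]; exact Submodule.mem_top
  obtain ⟨cb, hcb⟩ := (Submodule.mem_span_range_iff_exists_fun _).mp hβ
  choose c hc using fun i => Ideal.Quotient.mk_surjective (cb i)
  have h1 : redB (S := S) w (β - ∑ i, c i • b i) = 0 := by
    rw [map_sub, map_sum, ← hcb, sub_eq_zero]
    refine Finset.sum_congr rfl fun i _ => ?_
    rw [redB_smul, hc i]
  rw [redB_eq_zero_iff] at h1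
  obtain ⟨β', hβ'⟩ := h1
  exact ⟨c, β', by rw [← hβ']; ring⟩

/-- **Nakayama**: a single `r ≡ 1 mod w` with `r • B ⊆ span_S b`. -/
theorem exists_smul_mem_span [Module.Finite S B] (w : S) (b : ι → B)
    (hspan : Submodule.span (S ⧸ Ideal.span {w}) (Set.range fun i => redB (S := S) w (b i)) = ⊤) :
    ∃ r : S, r - 1 ∈ Ideal.span {w} ∧
      ∀ β : B, r • β ∈ Submodule.span S (Set.range b) := by
  set N : Submodule S B := Submodule.span S (Set.range b) with hN
  have hfg : (⊤ : Submodule S (B ⧸ N)).FG := Module.finite_def.mp inferInstance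
  have hle : (⊤ : Submodule S (B ⧸ N)) ≤ Ideal.span {w} • ⊤ := by
    intro x _
    obtain ⟨β, rfl⟩ := N.mkQ_surjective x
    obtain ⟨c, β', hβ⟩ := exists_sum_add_mul w b hspan β
    have h1 : N.mkQ β = w • N.mkQ β' := by
      rw [hβ, map_add, ← map_smul, Algebra.smul_def]
      have h2 : N.mkQ (∑ i, c i • b i) = 0 := by
        rw [Submodule.mkQ_apply, Submodule.Quotient.mk_eq_zero]
        exact Submodule.sum_mem _ fun i _ =>
          Submodule.smul_mem _ _ (Submodule.subset_span ⟨i, rfl⟩)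
      rw [h2, zero_add]
    rw [h1]
    exact Submodule.smul_mem_smul (Ideal.mem_span_singleton_self w) Submodule.mem_top
  obtain ⟨r, hr1, hr⟩ :=
    Submodule.exists_sub_one_mem_and_smul_eq_zero_of_fg_of_le_smul (Ideal.span {w}) ⊤ hfg hle
  refine ⟨r, hr1, fun β => ?_⟩
  have h3 := hr (N.mkQ β) Submodule.mem_top
  rw [← map_smul, Submodule.mkQ_apply, Submodule.Quotient.mk_eq_zero] at h3
  exact h3

end

section Indep

variable {S B : Type*} [CommRing S] [IsDomain S] [IsNoetherianRing S]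
  [CommRing B] [Algebra S B] [Module.IsTorsionFree S B]
  {ι : Type*} [Fintype ι]

/-- In a Noetherian domain, an element divisible by all powers of a prime element is zero. -/
theorem eq_zero_of_forall_pow_dvd {w : S} (hw : Prime w) {a : S} (h : ∀ k : ℕ, w ^ k ∣ a) :
    a = 0 := by
  by_contra ha
  have hfin : FiniteMultiplicity w a := FiniteMultiplicity.of_not_isUnit hw.not_isUnit ha
  obtain ⟨n, hn⟩ := hfin
  exact hn (h (n + 1))

/-- **Linear independence of the lifts.** -/
theorem linearIndependent_lift {w : S} (hw : Prime w) (b : ι → B)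
    (hli : LinearIndependent (S ⧸ Ideal.span {w}) fun i => redB (S := S) w (b i)) :
    LinearIndependent S b := by
  rw [Fintype.linearIndependent_iff]
  intro a ha
  -- all coefficients are divisible by all powers of `w`
  have key : ∀ k : ℕ, ∀ a : ι → S, ∑ i, a i • b i = 0 → ∀ i, w ^ k ∣ a i := by
    intro k
    induction k with
    | zero => intro a _ i; simp
    | succ k ih =>
      intro a ha i
      have h1 := ih a ha
      choose a' ha' using h1
      have h2 : ∑ i, a' i • b i = 0 := by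
        have h3 : w ^ k • ∑ i, a' i • b i = 0 := by
          rw [Finset.smul_sum, ← ha]
          refine Finset.sum_congr rfl fun i _ => ?_
          rw [smul_smul, ← ha' i]
        exact (smul_eq_zero_iff_right (pow_ne_zero k hw.ne_zero)).mp h3
      have h4 : ∑ i, redS w (a' i) • redB (S := S) w (b i) = 0 := by
        have := congrArg (redB (S := S) w) h2
        rw [map_sum, map_zero] at this
        rw [← this]
        refine Finset.sum_congr rfl fun i _ => ?_
        rw [redB_smul]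
      have h5 := Fintype.linearIndependent_iff.mp hli _ h4 i
      rw [redS_eq_zero_iff] at h5
      obtain ⟨c, hc⟩ := h5
      exact ⟨c, by rw [ha' i, hc, pow_succ]; ring⟩
  intro i
  exact eq_zero_of_forall_pow_dvd hw fun k => key k a ha i

end Indep

end Fermat.Agent.S18.H203

end
-- ===== PACK-END S18/H203/LiftBasis.lean

-- ===== PACK-BEGIN S18/H203/KBasis.lean
section


/-!
# S18 / b1 (helper203): the lifted family is a basis of the generic fibre

Same setting as `LiftBasis.lean`; moreover `F / K` is algebraic.  If the reductions of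
`b : ι → B` form an `S̄`-basis of `B̄ = B ⧸ (w) B` then the images of the `b i` in `F` form a
`K`-basis of `F` (`basisOfLift`), so `card ι = [F : K]` (`card_eq_finrank`).
-/

set_option autoImplicit false

namespace Fermat.Agent.S18.H203

open Ideal

section

variable {S B : Type*} [CommRing S] [IsDomain S] [CommRing B] [Algebra S B]

/-- The integral closure in a field is torsion-free over the base. -/
theorem isTorsionFree_of_isIntegralClosure (K F : Type*) [Field K] [Algebra S K]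
    [IsFractionRing S K] [Field F] [Algebra K F] [Algebra S F] [IsScalarTower S K F]
    [Algebra B F] [IsScalarTower S B F] [IsIntegralClosure B S F] :
    Module.IsTorsionFree S B := by
  have hinjSF : Function.Injective (algebraMap S F) := by
    rw [IsScalarTower.algebraMap_eq S K F]
    exact (algebraMap K F).injective.comp (IsFractionRing.injective S K)
  have h1 : Module.IsTorsionFree S F := Module.isTorsionFree_iff_algebraMap_injective.mpr hinjSF
  exact Function.Injective.moduleIsTorsionFree (algebraMap B F)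
    (IsIntegralClosure.algebraMap_injective B S F) fun r m => by
      rw [Algebra.smul_def, map_mul, ← IsScalarTower.algebraMap_apply, Algebra.smul_def]

variable [IsNoetherianRing S] {ι : Type*} [Fintype ι]

/-- The lifts are linearly independent over `K` in `F`. -/
theorem linearIndependent_map_lift (K F : Type*) [Field K] [Algebra S K]
    [IsFractionRing S K] [Field F] [Algebra K F] [Algebra S F] [IsScalarTower S K F]
    [Algebra B F] [IsScalarTower S B F] [IsIntegralClosure B S F]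
    {w : S} (hw : Prime w) (b : ι → B)
    (hli : LinearIndependent (S ⧸ Ideal.span {w}) fun i => redB (S := S) w (b i)) :
    LinearIndependent K fun i => algebraMap B F (b i) := by
  have htf : Module.IsTorsionFree S B := isTorsionFree_of_isIntegralClosure K F
  have h1 : LinearIndependent S b := linearIndependent_lift hw b hli
  have h2 : LinearIndependent S fun i => algebraMap B F (b i) := by
    have := h1.map' (IsScalarTower.toAlgHom S B F).toLinearMap
      (LinearMap.ker_eq_bot.mpr (IsIntegralClosure.algebraMap_injective B S F))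
    exact this
  exact (LinearIndependent.iff_fractionRing S K).mp h2

omit [IsNoetherianRing S] in
/-- The lifts span `F` over `K`. -/
theorem span_map_lift_eq_top (K F : Type*) [Field K] [Algebra S K]
    [IsFractionRing S K] [Field F] [Algebra K F] [Algebra S F] [IsScalarTower S K F]
    [Algebra B F] [IsScalarTower S B F] [IsIntegralClosure B S F]
    [Module.Finite S B] [Algebra.IsAlgebraic K F]
    (w : S) (hw1 : ¬ IsUnit w) (b : ι → B)
    (hspan : Submodule.span (S ⧸ Ideal.span {w}) (Set.range fun i => redB (S := S) w (b i)) = ⊤) :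
    Submodule.span K (Set.range fun i => algebraMap B F (b i)) = ⊤ := by
  obtain ⟨r, hr1, hr⟩ := exists_smul_mem_span w b hspan
  have hinjSK : Function.Injective (algebraMap S K) := IsFractionRing.injective S K
  have hr0 : r ≠ 0 := by
    rintro rfl
    rw [zero_sub, neg_mem_iff, Ideal.mem_span_singleton] at hr1
    exact hw1 (isUnit_of_dvd_one hr1)
  rw [eq_top_iff]
  intro f _
  -- `f` has an integral multiple
  have hf : IsAlgebraic S f := by
    have := Algebra.IsAlgebraic.isAlgebraic (R := K) f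
    exact (IsFractionRing.isAlgebraic_iff S K F).mpr this
  obtain ⟨y, hy0, hy⟩ := hf.exists_integral_multiple
  obtain ⟨β, hβ⟩ := (IsIntegralClosure.isIntegral_iff (A := B)).mp hy
  -- `r • β ∈ span_S b`
  have h1 := hr β
  have h2 : algebraMap B F (r • β) ∈
      Submodule.span K (Set.range fun i => algebraMap B F (b i)) := by
    have h3 : (IsScalarTower.toAlgHom S B F).toLinearMap (r • β) ∈
        Submodule.map (IsScalarTower.toAlgHom S B F).toLinearMap
          (Submodule.span S (Set.range b)) := Submodule.mem_map_of_mem h1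
    rw [Submodule.map_span, ← Set.range_comp] at h3
    have h4 : Submodule.span S (Set.range ((IsScalarTower.toAlgHom S B F).toLinearMap ∘ b)) ≤
        (Submodule.span K (Set.range fun i => algebraMap B F (b i))).restrictScalars S := by
      rw [Submodule.span_le]
      rintro _ ⟨i, rfl⟩
      exact Submodule.subset_span ⟨i, rfl⟩
    exact h4 h3
  have h5 : algebraMap B F (r • β) = (algebraMap S K (r * y)) • f := by
    rw [Algebra.smul_def r β, map_mul, hβ, ← IsScalarTower.algebraMap_apply,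
      Algebra.smul_def y f, Algebra.smul_def, ← IsScalarTower.algebraMap_apply, map_mul]
    ring
  rw [h5] at h2
  have h6 : algebraMap S K (r * y) ≠ 0 := by
    simpa using (map_ne_zero_iff _ hinjSK).mpr (mul_ne_zero hr0 hy0)
  have h7 := Submodule.smul_mem _ (algebraMap S K (r * y))⁻¹ h2
  rwa [smul_smul, inv_mul_cancel₀ h6, one_smul] at h7

/-- **The lifted basis of the generic fibre.** -/
noncomputable def basisOfLift (K F : Type*) [Field K] [Algebra S K]
    [IsFractionRing S K] [Field F] [Algebra K F] [Algebra S F] [IsScalarTower S K F]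
    [Algebra B F] [IsScalarTower S B F] [IsIntegralClosure B S F]
    [Module.Finite S B] [Algebra.IsAlgebraic K F]
    {w : S} (hw : Prime w) (b : ι → B)
    (hli : LinearIndependent (S ⧸ Ideal.span {w}) fun i => redB (S := S) w (b i))
    (hspan : Submodule.span (S ⧸ Ideal.span {w}) (Set.range fun i => redB (S := S) w (b i)) = ⊤) :
    Module.Basis ι K F :=
  Module.Basis.mk (linearIndependent_map_lift K F hw b hli)
    (span_map_lift_eq_top K F w hw.not_isUnit b hspan).ge

@[simp]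
theorem basisOfLift_apply (K F : Type*) [Field K] [Algebra S K]
    [IsFractionRing S K] [Field F] [Algebra K F] [Algebra S F] [IsScalarTower S K F]
    [Algebra B F] [IsScalarTower S B F] [IsIntegralClosure B S F]
    [Module.Finite S B] [Algebra.IsAlgebraic K F]
    {w : S} (hw : Prime w) (b : ι → B)
    (hli : LinearIndependent (S ⧸ Ideal.span {w}) fun i => redB (S := S) w (b i))
    (hspan : Submodule.span (S ⧸ Ideal.span {w}) (Set.range fun i => redB (S := S) w (b i)) = ⊤)
    (i : ι) : basisOfLift K F hw b hli hspan i = algebraMap B F (b i) := by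
  simp [basisOfLift]

/-- The rank of the special fibre is the degree of the generic fibre. -/
theorem card_eq_finrank (K F : Type*) [Field K] [Algebra S K]
    [IsFractionRing S K] [Field F] [Algebra K F] [Algebra S F] [IsScalarTower S K F]
    [Algebra B F] [IsScalarTower S B F] [IsIntegralClosure B S F]
    [Module.Finite S B] [Algebra.IsAlgebraic K F]
    {w : S} (hw : Prime w) (b : ι → B)
    (hli : LinearIndependent (S ⧸ Ideal.span {w}) fun i => redB (S := S) w (b i))
    (hspan : Submodule.span (S ⧸ Ideal.span {w}) (Set.range fun i => redB (S := S) w (b i)) = ⊤) :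
    Fintype.card ι = Module.finrank K F :=
  (Module.finrank_eq_card_basis (basisOfLift K F hw b hli hspan)).symm

end

end Fermat.Agent.S18.H203

end
-- ===== PACK-END S18/H203/KBasis.lean

-- ===== PACK-BEGIN S18/B12/H203/RedBasisAbs.lean
section






/-!
# S18 / b2.5, piece A5': reduced basis at a prime `s` with `P/(s)` a PID (`RedBasisAbsStatement`)

Adapter: `H693.exists_redBasis` applied to `B/sB` over `P/(s)`, which is finite and torsion-free
(`H203.isTorsionFree_quotient`, `H203.finite_quotient`).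
-/

set_option autoImplicit false

noncomputable section

namespace Fermat.Agent.S18.B12.H203

open Fermat.Agent.S18.H203

universe u v

/-- Nilpotency in `B/sB` is membership in `rad (sB)`. -/
theorem isNilpotent_redB_iff {P : Type*} {B : Type*} [CommRing P] [CommRing B] [Algebra P B]
    (s : P) (b : B) :
    IsNilpotent (redB (S := P) s b) ↔ b ∈ (Ideal.span {algebraMap P B s}).radical := by
  rw [← map_span_singleton_eq]
  constructor
  · rintro ⟨k, hk⟩
    rw [← map_pow, Ideal.Quotient.eq_zero_iff_mem] at hk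
    exact ⟨k, hk⟩
  · rintro ⟨k, hk⟩
    refine ⟨k, ?_⟩
    rw [← map_pow, Ideal.Quotient.eq_zero_iff_mem]
    exact hk

/-- **A5' (reduced basis at a prime `s` with `P/(s)` a PID).** -/
theorem redBasisAbs.{u₁, v₁} : RedBasisAbsStatement.{u₁, v₁} := by
  intro P _ _ _ B _ _ _ _ _ _ s hs hpid
  let _ : Algebra (FractionRing P) (FractionRing B) := FractionRing.liftAlgebra P _
  have : IsScalarTower P (FractionRing P) (FractionRing B) :=
    FractionRing.isScalarTower_liftAlgebra P (FractionRing B)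
  have : IsIntegralClosure B P (FractionRing B) :=
    IsIntegralClosure.of_isIntegrallyClosed _ _ _
  have hprime : (Ideal.span {s}).IsPrime := (Ideal.span_singleton_prime hs.ne_zero).mpr hs
  have hdom : IsDomain (P ⧸ Ideal.span {s}) := Ideal.Quotient.isDomain _
  have htf : Module.IsTorsionFree (P ⧸ Ideal.span {s})
      (B ⧸ (Ideal.span {s}).map (algebraMap P B)) :=
    isTorsionFree_quotient (B := B) (FractionRing P) (FractionRing B) hs
  have hfin : Module.Finite (P ⧸ Ideal.span {s})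
      (B ⧸ (Ideal.span {s}).map (algebraMap P B)) := finite_quotient (B := B) (Ideal.span {s})
  obtain ⟨r, yb, h1, h2⟩ := Fermat.Agent.S18.B12.H693.exists_redBasis (P ⧸ Ideal.span {s})
    (B ⧸ (Ideal.span {s}).map (algebraMap P B))
  choose y hy using fun i => Ideal.Quotient.mk_surjective (yb i)
  have hsum : ∀ a : Fin r → P,
      redB (S := P) s (∑ i, a i • y i) = ∑ i, redS s (a i) • yb i := by
    intro a
    rw [map_sum]
    refine Finset.sum_congr rfl fun i _ => ?_
    rw [redB_smul, ← hy i]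
  refine ⟨r, y, ?_, ?_⟩
  · intro a ha i
    have h3 : IsNilpotent (∑ i, redS s (a i) • yb i) := by
      rw [← hsum]
      exact (isNilpotent_redB_iff s _).mpr ha
    have h4 := congrFun (h1 _ h3) i
    exact (redS_eq_zero_iff s (a i)).mp h4
  · intro b
    obtain ⟨ab, hab⟩ := h2 (redB (S := P) s b)
    choose a ha using fun i => Ideal.Quotient.mk_surjective (ab i)
    refine ⟨a, ?_⟩
    rw [← isNilpotent_redB_iff, map_sub, hsum]
    have : (fun i => redS s (a i)) = ab := funext ha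
    simp only [this] at *
    have hfun : (∑ i, redS s (a i) • yb i) = ∑ i, ab i • yb i :=
      Finset.sum_congr rfl fun i _ => by rw [← ha i]
    rw [hfun]
    exact hab

end Fermat.Agent.S18.B12.H203

end
end
-- ===== PACK-END S18/B12/H203/RedBasisAbs.lean

-- ===== PACK-BEGIN S20/Comb/OrbitCounts.lean
section




/-!
# Orbit counts of `S` and `S * T` on `SL(2,ℤ) ⧸ Gamma0 N`, and the genus identity

* `two_mul_card_orbits_S : 2 * #(Q / ⟨S⟩) = ψ(N) + ν₂(N)`
* `three_mul_card_orbits_ST : 3 * #(Q / ⟨S * T⟩) = ψ(N) + 2 * ν₃(N)`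
* `genusFormula_eq_of_card_orbits_T` : the Euler-characteristic identity
  `genusFormula N = 1 + (μ - o₂ - o₃ - o∞) / 2`.
-/

set_option autoImplicit false

namespace Fermat.Agent.S20.Comb

open Matrix MatrixGroups CongruenceSubgroup MulAction Subgroup

/-- `-1` acts trivially on `SL(2,ℤ) ⧸ Γ₀(N)`. -/
lemma neg_one_smul_quotient (N : ℕ) (q : SL(2, ℤ) ⧸ Gamma0 N) : (-1 : SL(2, ℤ)) • q = q := by
  obtain ⟨g, rfl⟩ := QuotientGroup.mk_surjective q
  rw [smul_mk_eq_mk_iff]
  have h : ∀ i j, ((-1 : SL(2, ℤ)) * g) i j = - g i j := by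
    intro i j
    rw [_root_.neg_mul, _root_.one_mul, Matrix.SpecialLinearGroup.coe_neg, Matrix.neg_apply]
  rw [h, h]
  push_cast
  ring

lemma S_pow_two : ModularGroup.S ^ 2 = (-1 : SL(2, ℤ)) := by
  apply Subtype.ext
  rw [pow_two, Matrix.SpecialLinearGroup.coe_mul, ModularGroup.coe_S,
    Matrix.SpecialLinearGroup.coe_neg, Matrix.SpecialLinearGroup.coe_one]
  ext i j
  fin_cases i <;> fin_cases j <;> simp [Matrix.mul_apply, Fin.sum_univ_two]

lemma ST_pow_three : (ModularGroup.S * ModularGroup.T) ^ 3 = (-1 : SL(2, ℤ)) := by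
  apply Subtype.ext
  rw [pow_succ, pow_two, Matrix.SpecialLinearGroup.coe_mul, Matrix.SpecialLinearGroup.coe_mul,
    coe_S_mul_T, Matrix.SpecialLinearGroup.coe_neg, Matrix.SpecialLinearGroup.coe_one]
  ext i j
  fin_cases i <;> fin_cases j <;> simp [Matrix.mul_apply, Fin.sum_univ_two]

/-- `2 * #(S-orbits) = ψ(N) + ν₂(N)`. -/
theorem two_mul_card_orbits_S (N : ℕ) [NeZero N] :
    2 * Nat.card (orbitRel.Quotient (zpowers ModularGroup.S) (SL(2, ℤ) ⧸ Gamma0 N))
      = ModularCurve.dedekindPsi N + ModularCurve.nuTwo N := by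
  have h := prime_mul_card_orbits (X := SL(2, ℤ) ⧸ Gamma0 N) ModularGroup.S 2 Nat.prime_two
    (fun x => by rw [S_pow_two]; exact neg_one_smul_quotient N x)
  rw [card_quotient_Gamma0, card_fixedBy_S] at h
  exact h.trans (by norm_num)

/-- `3 * #(ST-orbits) = ψ(N) + 2 * ν₃(N)`. -/
theorem three_mul_card_orbits_ST (N : ℕ) [NeZero N] :
    3 * Nat.card (orbitRel.Quotient (zpowers (ModularGroup.S * ModularGroup.T))
        (SL(2, ℤ) ⧸ Gamma0 N))
      = ModularCurve.dedekindPsi N + 2 * ModularCurve.nuThree N := by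
  have h := prime_mul_card_orbits (X := SL(2, ℤ) ⧸ Gamma0 N)
    (ModularGroup.S * ModularGroup.T) 3 Nat.prime_three
    (fun x => by rw [ST_pow_three]; exact neg_one_smul_quotient N x)
  rw [card_quotient_Gamma0, card_fixedBy_ST] at h
  exact h.trans (by norm_num)

/-- The Euler-characteristic identity: with `μ = #Q`, `o₂`, `o₃`, `o∞` the numbers of orbits of
`S`, `S * T`, `T` on `Q = SL(2,ℤ) ⧸ Γ₀(N)`, one has `genusFormula N = 1 + (μ - o₂ - o₃ - o∞) / 2`,
provided `o∞ = cuspCount N`. -/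
theorem genusFormula_eq_of_card_orbits_T (N : ℕ) [NeZero N]
    (hT : Nat.card (orbitRel.Quotient (zpowers ModularGroup.T) (SL(2, ℤ) ⧸ Gamma0 N))
      = ModularCurve.cuspCount N) :
    ModularCurve.genusFormula N
      = 1 + ((Nat.card (SL(2, ℤ) ⧸ Gamma0 N) : ℚ)
          - (Nat.card (orbitRel.Quotient (zpowers ModularGroup.S) (SL(2, ℤ) ⧸ Gamma0 N)) : ℚ)
          - (Nat.card (orbitRel.Quotient (zpowers (ModularGroup.S * ModularGroup.T))
              (SL(2, ℤ) ⧸ Gamma0 N)) : ℚ)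
          - (Nat.card (orbitRel.Quotient (zpowers ModularGroup.T)
              (SL(2, ℤ) ⧸ Gamma0 N)) : ℚ)) / 2 := by
  have h2 := two_mul_card_orbits_S N
  have h3 := three_mul_card_orbits_ST N
  have h2' := congrArg (Nat.cast : ℕ → ℚ) h2
  have h3' := congrArg (Nat.cast : ℕ → ℚ) h3
  push_cast at h2' h3'
  rw [hT, card_quotient_Gamma0, ModularCurve.genusFormula]
  linear_combination (1 / 4 : ℚ) * h2' + (1 / 6 : ℚ) * h3'

/-- Orbit-count form used by dimension bounds: `μ + 2 - o₂ - o₃ - o∞ = 2 * genusFormula N`. -/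
theorem two_mul_genusFormula_of_card_orbits_T (N : ℕ) [NeZero N]
    (hT : Nat.card (orbitRel.Quotient (zpowers ModularGroup.T) (SL(2, ℤ) ⧸ Gamma0 N))
      = ModularCurve.cuspCount N) :
    2 * ModularCurve.genusFormula N
      + (Nat.card (orbitRel.Quotient (zpowers ModularGroup.S) (SL(2, ℤ) ⧸ Gamma0 N)) : ℚ)
      + (Nat.card (orbitRel.Quotient (zpowers (ModularGroup.S * ModularGroup.T))
          (SL(2, ℤ) ⧸ Gamma0 N)) : ℚ)
      + (Nat.card (orbitRel.Quotient (zpowers ModularGroup.T) (SL(2, ℤ) ⧸ Gamma0 N)) : ℚ)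
      = (Nat.card (SL(2, ℤ) ⧸ Gamma0 N) : ℚ) + 2 := by
  rw [genusFormula_eq_of_card_orbits_T N hT]
  ring

end Fermat.Agent.S20.Comb

end
-- ===== PACK-END S20/Comb/OrbitCounts.lean

-- ===== PACK-BEGIN S18/H107/T3Qep.lean
section






/-!
# helper107 — S18 / M3-T : QEP for the Hauptmodul `t = t₃` of `X₀(3)` (case `ℓ = 2`)

Input: the relation `j * t ^ 3 = (t + 27) * (t + 243) ^ 3`, `3⁻¹ ∈ R`, QEP for the charts of `j`
and `j⁻¹`.  Output: QEP for the charts of `t` and `t⁻¹`.
-/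

set_option autoImplicit false

namespace Fermat.Agent.S18.H107

open Polynomial Fermat.Agent.S18.Alg

variable {Ω : Type*} [Field Ω]

/-- The Hauptmodul relation for `X₀(3)` together with the needed side conditions. -/
structure HauptT3107 (Fc : Subfield Ω) (R V : Subring Ω) (j t : Ω) : Prop where
  rel : j * t ^ 3 = (t + 27) * (t + 243) ^ 3
  three_inv : (3 : Ω)⁻¹ ∈ R
  three_ne : (3 : Ω) ≠ 0
  j_ne : j ≠ 0
  t_mem_Fc : t ∈ Fc
  t_mem_V : t ∈ V
  t27_inv_mem_V : (t + 27)⁻¹ ∈ V

namespace HauptT3107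

variable {Fc : Subfield Ω} {R V : Subring Ω} {j t : Ω}

theorem c27_ne (h : HauptT3107 Fc R V j t) : (27 : Ω) ≠ 0 := by
  have : (27 : Ω) = 3 ^ 3 := by norm_num
  rw [this]
  exact pow_ne_zero _ h.three_ne

theorem c243_ne (h : HauptT3107 Fc R V j t) : (243 : Ω) ≠ 0 := by
  have : (243 : Ω) = 3 ^ 5 := by norm_num
  rw [this]
  exact pow_ne_zero _ h.three_ne

theorem c6561_ne (h : HauptT3107 Fc R V j t) : (6561 : Ω) ≠ 0 := by
  have : (6561 : Ω) = 3 ^ 8 := by norm_num
  rw [this]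
  exact pow_ne_zero _ h.three_ne

theorem cBig_ne (h : HauptT3107 Fc R V j t) : (387420489 : Ω) ≠ 0 := by
  have : (387420489 : Ω) = 3 ^ 18 := by norm_num
  rw [this]
  exact pow_ne_zero _ h.three_ne

theorem inv27_mem (h : HauptT3107 Fc R V j t) : (27 : Ω)⁻¹ ∈ R := by
  have := R.pow_mem h.three_inv 3
  have e : ((3 : Ω)⁻¹) ^ 3 = (27 : Ω)⁻¹ := by norm_num
  rwa [e] at this

theorem inv6561_mem (h : HauptT3107 Fc R V j t) : (6561 : Ω)⁻¹ ∈ R := by
  have := R.pow_mem h.three_inv 8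
  have e : ((3 : Ω)⁻¹) ^ 8 = (6561 : Ω)⁻¹ := by norm_num
  rwa [e] at this

theorem invBig_mem (h : HauptT3107 Fc R V j t) : (387420489 : Ω)⁻¹ ∈ R := by
  have := R.pow_mem h.three_inv 18
  have e : ((3 : Ω)⁻¹) ^ 18 = (387420489 : Ω)⁻¹ := by norm_num
  rwa [e] at this

theorem t_ne (h : HauptT3107 Fc R V j t) : t ≠ 0 := by
  intro ht
  have := h.rel
  rw [ht] at this
  have h0 : (27 : Ω) * 243 ^ 3 = 0 := by
    have e : ((0 : Ω) + 27) * (0 + 243) ^ 3 = 27 * 243 ^ 3 := by ring
    rw [← e, ← this]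
    ring
  rcases mul_eq_zero.1 h0 with h1 | h1
  · exact h.c27_ne h1
  · exact h.c243_ne (pow_eq_zero_iff (by norm_num) |>.1 h1)

theorem t27_ne (h : HauptT3107 Fc R V j t) : t + 27 ≠ 0 := by
  intro ht
  have := h.rel
  rw [ht] at this
  have h0 : j * t ^ 3 = 0 := by rw [this]; ring
  rcases mul_eq_zero.1 h0 with hj | ht0
  · exact h.j_ne hj
  · exact h.t_ne (pow_eq_zero_iff (by norm_num) |>.1 ht0)

theorem t243_ne (h : HauptT3107 Fc R V j t) : t + 243 ≠ 0 := by
  intro ht
  have := h.rel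
  rw [ht] at this
  have h0 : j * t ^ 3 = 0 := by rw [this]; ring
  rcases mul_eq_zero.1 h0 with hj | ht0
  · exact h.j_ne hj
  · exact h.t_ne (pow_eq_zero_iff (by norm_num) |>.1 ht0)

/-- `t` is integral over `R[j]`. -/
theorem t_int (h : HauptT3107 Fc R V j t) : t ∈ intCl107 (polyRing R j) := by
  refine mem_intCl_of_quartic107 _ t (756 - j) 196830 19131876 387420489 ?_ (ofNat_mem _ _)
    (ofNat_mem _ _) (ofNat_mem _ _) ?_
  · exact Subring.sub_mem _ (ofNat_mem _ _) (self_mem_polyRing107 R j)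
  · linear_combination -h.rel

/-- `h₁ = t / (t + 27)` is integral over `R[j⁻¹]`. -/
theorem h_int (h : HauptT3107 Fc R V j t) : t * (t + 27)⁻¹ ∈ intCl107 (polyRing R j⁻¹) := by
  have hj' := self_mem_polyRing107 R j⁻¹
  refine mem_intCl_of_quartic107 _ _ (-1 - 13824 * j⁻¹) (46656 * j⁻¹) (-(52488 * j⁻¹))
    (19683 * j⁻¹) ?_ ?_ ?_ ?_ ?_
  · exact Subring.sub_mem _ (Subring.neg_mem _ (Subring.one_mem _))
      (Subring.mul_mem _ (ofNat_mem _ _) hj')
  · exact Subring.mul_mem _ (ofNat_mem _ _) hj'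
  · exact Subring.neg_mem _ (Subring.mul_mem _ (ofNat_mem _ _) hj')
  · exact Subring.mul_mem _ (ofNat_mem _ _) hj'
  · have hj := h.j_ne
    have ht := h.t27_ne
    field_simp
    linear_combination (-27 : Ω) * h.rel

/-- `t⁻¹` is integral over `R[j]` (uses `3⁻¹ ∈ R`). -/
theorem tinv_int (h : HauptT3107 Fc R V j t) : t⁻¹ ∈ intCl107 (polyRing R j) := by
  have hB := le_polyRing107 R j h.invBig_mem
  refine mem_intCl_of_quartic107 _ _ (19131876 * (387420489 : Ω)⁻¹) (196830 * (387420489 : Ω)⁻¹)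
    ((756 - j) * (387420489 : Ω)⁻¹) ((387420489 : Ω)⁻¹) ?_ ?_ ?_ hB ?_
  · exact Subring.mul_mem _ (ofNat_mem _ _) hB
  · exact Subring.mul_mem _ (ofNat_mem _ _) hB
  · exact Subring.mul_mem _ (Subring.sub_mem _ (ofNat_mem _ _) (self_mem_polyRing107 R j)) hB
  · have ht := h.t_ne
    have hc := h.cBig_ne
    field_simp
    linear_combination -h.rel

theorem open1_fin (h : HauptT3107 Fc R V j t) : OpenData107 Fc R V t j t 1 where
  g_mem := self_mem_polyRing107 R t
  e_mem_Fc := Fc.one_mem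
  e_mem_V := V.one_mem
  e_int := Subring.one_mem _
  xe_int := by rw [mul_one]; exact h.t_int
  y_loc := ⟨3, by
    rw [h.rel]
    have ht := self_mem_polyRing107 R t
    exact le_intCl107 _ (Subring.mul_mem _ (Subring.add_mem _ ht (ofNat_mem _ _))
      (Subring.pow_mem _ (Subring.add_mem _ ht (ofNat_mem _ _)) 3))⟩
  e_inv := ⟨1, Subring.one_mem _, 0, by simp⟩

theorem open2_fin (h : HauptT3107 Fc R V j t) :
    OpenData107 Fc R V t j⁻¹ ((t + 27) * (t + 243)) (27 * (t + 27)⁻¹) where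
  g_mem := by
    have ht := self_mem_polyRing107 R t
    exact Subring.mul_mem _ (Subring.add_mem _ ht (ofNat_mem _ _))
      (Subring.add_mem _ ht (ofNat_mem _ _))
  e_mem_Fc := Fc.mul_mem (ofNat_mem _ _)
    (Fc.inv_mem (Fc.add_mem h.t_mem_Fc (ofNat_mem _ _)))
  e_mem_V := V.mul_mem (ofNat_mem _ _) h.t27_inv_mem_V
  e_int := by
    have e : 27 * (t + 27)⁻¹ = 1 - t * (t + 27)⁻¹ := by
      have ht := h.t27_ne
      field_simp
      ring
    rw [e]
    exact Subring.sub_mem _ (Subring.one_mem _) h.h_int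
  xe_int := by
    have e : t * (27 * (t + 27)⁻¹) = 27 * (t * (t + 27)⁻¹) := by ring
    rw [e]
    exact Subring.mul_mem _ (ofNat_mem _ _) h.h_int
  y_loc := ⟨3, by
    have e : j⁻¹ * ((t + 27) * (t + 243)) ^ 3 = t ^ 3 * (t + 27) ^ 2 := by
      have hj := h.j_ne
      field_simp
      linear_combination (-(t + 27) ^ 2) * h.rel
    rw [e]
    have ht := self_mem_polyRing107 R t
    exact le_intCl107 _ (Subring.mul_mem _ (Subring.pow_mem _ ht 3)
      (Subring.pow_mem _ (Subring.add_mem _ ht (ofNat_mem _ _)) 2))⟩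
  e_inv := ⟨(t + 27) * (27 : Ω)⁻¹,
    le_intCl107 _ (Subring.mul_mem _ (Subring.add_mem _ (self_mem_polyRing107 R t) (ofNat_mem _ _))
      (le_polyRing107 R t h.inv27_mem)), 0, by
    have ht := h.t27_ne
    have hc := h.c27_ne
    field_simp⟩

theorem open1_inf (h : HauptT3107 Fc R V j t) : OpenData107 Fc R V t⁻¹ j t⁻¹ 1 where
  g_mem := self_mem_polyRing107 R t⁻¹
  e_mem_Fc := Fc.one_mem
  e_mem_V := V.one_mem
  e_int := Subring.one_mem _
  xe_int := by rw [mul_one]; exact h.tinv_int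
  y_loc := ⟨1, by
    have e : j * t⁻¹ ^ 1 = (1 + 27 * t⁻¹) * (1 + 243 * t⁻¹) ^ 3 := by
      have ht := h.t_ne
      field_simp
      linear_combination h.rel
    rw [e]
    have hs := self_mem_polyRing107 R t⁻¹
    exact le_intCl107 _ (Subring.mul_mem _
      (Subring.add_mem _ (Subring.one_mem _) (Subring.mul_mem _ (ofNat_mem _ _) hs))
      (Subring.pow_mem _ (Subring.add_mem _ (Subring.one_mem _)
        (Subring.mul_mem _ (ofNat_mem _ _) hs)) 3))⟩
  e_inv := ⟨1, Subring.one_mem _, 0, by simp⟩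

theorem open2_inf (h : HauptT3107 Fc R V j t) :
    OpenData107 Fc R V t⁻¹ j⁻¹ ((1 + 27 * t⁻¹) * (1 + 243 * t⁻¹)) (t * (t + 27)⁻¹) where
  g_mem := by
    have hs := self_mem_polyRing107 R t⁻¹
    exact Subring.mul_mem _
      (Subring.add_mem _ (Subring.one_mem _) (Subring.mul_mem _ (ofNat_mem _ _) hs))
      (Subring.add_mem _ (Subring.one_mem _) (Subring.mul_mem _ (ofNat_mem _ _) hs))
  e_mem_Fc := Fc.mul_mem h.t_mem_Fc (Fc.inv_mem (Fc.add_mem h.t_mem_Fc (ofNat_mem _ _)))
  e_mem_V := V.mul_mem h.t_mem_V h.t27_inv_mem_V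
  e_int := h.h_int
  xe_int := by
    have e : t⁻¹ * (t * (t + 27)⁻¹) = (1 - t * (t + 27)⁻¹) * (27 : Ω)⁻¹ := by
      have ht := h.t_ne
      have ht' := h.t27_ne
      have hc := h.c27_ne
      field_simp
      ring
    rw [e]
    exact Subring.mul_mem _ (Subring.sub_mem _ (Subring.one_mem _) h.h_int)
      (le_intCl107 _ (le_polyRing107 R j⁻¹ h.inv27_mem))
  y_loc := ⟨3, by
    have e : j⁻¹ * ((1 + 27 * t⁻¹) * (1 + 243 * t⁻¹)) ^ 3 = t⁻¹ * (1 + 27 * t⁻¹) ^ 2 := by
      have hj := h.j_ne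
      have ht := h.t_ne
      field_simp
      linear_combination (-(t + 27) ^ 2) * h.rel
    rw [e]
    have hs := self_mem_polyRing107 R t⁻¹
    exact le_intCl107 _ (Subring.mul_mem _ hs (Subring.pow_mem _
      (Subring.add_mem _ (Subring.one_mem _) (Subring.mul_mem _ (ofNat_mem _ _) hs)) 2))⟩
  e_inv := ⟨1 + 27 * t⁻¹, le_intCl107 _ (Subring.add_mem _ (Subring.one_mem _)
      (Subring.mul_mem _ (ofNat_mem _ _) (self_mem_polyRing107 R t⁻¹))), 0, by
    have ht := h.t_ne
    have ht' := h.t27_ne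
    field_simp⟩

/-- **QEP for the chart of `t₃`.** -/
theorem qep_fin (h : HauptT3107 Fc R V j t) {w : Ω} (hw : w ∈ Fc)
    (q₁ : Qep107 Fc R V w j) (q₂ : Qep107 Fc R V w j⁻¹) : Qep107 Fc R V w t := by
  have h6 := le_polyRing107 R t h.inv6561_mem
  refine qep_transfer107 (a := -((t + 270) * (6561 : Ω)⁻¹)) (b := (6561 : Ω)⁻¹) hw q₁ q₂
    h.open1_fin h.open2_fin
    (Subring.neg_mem _ (Subring.mul_mem _
      (Subring.add_mem _ (self_mem_polyRing107 R t) (ofNat_mem _ _)) h6)) h6 ?_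
  have hc := h.c6561_ne
  field_simp
  ring

/-- **QEP for the chart of `t₃⁻¹`.** -/
theorem qep_inf (h : HauptT3107 Fc R V j t) {w : Ω} (hw : w ∈ Fc)
    (q₁ : Qep107 Fc R V w j) (q₂ : Qep107 Fc R V w j⁻¹) : Qep107 Fc R V w t⁻¹ := by
  refine qep_transfer107 (a := -(270 + 6561 * t⁻¹)) (b := 1) hw q₁ q₂ h.open1_inf h.open2_inf
    (Subring.neg_mem _ (Subring.add_mem _ (ofNat_mem _ _)
      (Subring.mul_mem _ (ofNat_mem _ _) (self_mem_polyRing107 R t⁻¹)))) (Subring.one_mem _) ?_
  ring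

end HauptT3107

end Fermat.Agent.S18.H107

end
-- ===== PACK-END S18/H107/T3Qep.lean

-- ===== PACK-BEGIN S37/H697/Relation.lean
section



/-!
# S37 (helper697): the Eichler–Shimura relation on divisors, from the Kronecker congruence for norms

`r` a place reduction, `Tdiv = heckeDivBar = pushforwardAlong α ∘ pullbackAlong β` the Hecke
correspondence on divisors, `Φ = coeffSL N φ` (`φ` an automorphism of the residue field — the
Frobenius in the application).  If for every integral `y` the norm `Nm_α (β y)` is integral with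
reduction `(Φ⁻¹ ȳ) ^ ℓ * Φ ȳ` (`KroneckerNorm`), then

  `r_* (Tdiv D) = Φ • r_* D + ℓ • Φ⁻¹ • r_* D`    for every divisor `D` of degree `0`.

No pointwise description of `Tdiv` or of `r` is used: the difference of the two sides kills
principal divisors and is bounded, hence vanishes in degree zero by the Riemann bound.
-/

set_option autoImplicit false
set_option linter.style.haveILetI false

noncomputable section

open HahnSeries IntermediateField AlgebraicCurve ModularCurve

namespace Fermat.Agent.S37.H697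

section AlongLemmas

variable {K F F' : Type*} [Field K] [Field F] [Field F'] [Algebra K F] [Algebra K F']

/-- The norm along an algebra homomorphism `φ : F → F'`. -/
def normAlong (φ : F →ₐ[K] F') : F' → F :=
  letI := algebraAlong φ
  Algebra.norm F

theorem pullbackAlong_apply_eq_ord [HasPrincipalDivisors K F'] (φ : F →ₐ[K] F')
    (hφ : φ.toRingHom.IsIntegral) {f : F} {D : Divisor K F}
    (hD : ∀ v : Place K F, D v = v.ord f) (w : Place K F') :
    Divisor.pullbackAlong φ hφ D w = w.ord (φ f) := by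
  letI := algebraAlong φ
  haveI := isScalarTower_along φ
  haveI := isIntegral_along φ hφ
  exact Divisor.pullback_apply_eq_ord hD w

theorem pushforwardAlong_apply_eq_ord (φ : F →ₐ[K] F') (hφ : φ.toRingHom.IsIntegral)
    (hfin : FiniteAlong K φ) (hN : NormFormulaAlong K φ hfin) {f : F'} (hf : f ≠ 0)
    {D : Divisor K F'} (hD : ∀ w : Place K F', D w = w.ord f) (v : Place K F) :
    Divisor.pushforwardAlong φ hφ D v = v.ord (normAlong φ f) := by
  letI := algebraAlong φ
  haveI := isScalarTower_along φ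
  haveI := isIntegral_along φ hφ
  haveI : Module.Finite F F' := hfin
  exact hN f hf D hD v

theorem normAlong_ne_zero (φ : F →ₐ[K] F') (hfin : FiniteAlong K φ) {f : F'} (hf : f ≠ 0) :
    normAlong φ f ≠ 0 := by
  letI := algebraAlong φ
  haveI : Module.Finite F F' := hfin
  exact Algebra.norm_ne_zero_iff.mpr hf

end AlongLemmas

section Relation

variable {L : Type*} [Field L] [Algebra ℚ L] {A : ValuationSubring L}
variable {k : Type*} [Field k] {π : A →+* k} {N ℓ : ℕ} [NeZero N] [NeZero ℓ]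

/-- **Kronecker congruence for norms** (hypothesis of the relation): for every integral `y` with
nonzero reduction `ȳ`, the norm of `β y = y(q^ℓ)` along `α` is integral, with reduction
`(Φ⁻¹ ȳ) ^ ℓ * Φ ȳ`. -/
def KroneckerNorm (A : ValuationSubring L) (π : A →+* k) (N ℓ : ℕ) [NeZero N] [NeZero ℓ]
    (φ : k ≃+* k) : Prop :=
  ∀ (y : LaurentSeries A)
    (hy : coeffMap A.subtype y ∈ laurentBaseChange L (modularFunctionFieldFull N)),
    coeffMap π y ∈ modularFunctionFieldFullC k N → coeffMap π y ≠ 0 →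
    ∃ (z : LaurentSeries A)
      (hz : coeffMap A.subtype z ∈ laurentBaseChange L (modularFunctionFieldFull N)),
      normAlong (heckeAlphaBar L N ℓ) (heckeBetaBar L N ℓ ⟨coeffMap A.subtype y, hy⟩)
          = ⟨coeffMap A.subtype z, hz⟩ ∧
        coeffMap π z = (coeffMap (φ.symm : k →+* k) (coeffMap π y)) ^ ℓ
          * coeffMap (φ : k →+* k) (coeffMap π y)

variable (hα : HeckeAlphaBarIntegral L N ℓ) (hβ : HeckeBetaBarIntegral L N ℓ)
variable [HasPrincipalDivisors L (laurentBaseChange L (modularFunctionFieldFull (N * ℓ)))]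

/-- The relation on integral principal divisors. -/
theorem relation_integral
    {r : Place L (laurentBaseChange L (modularFunctionFieldFull N)) →
      Place k (modularFunctionFieldFullC k N)}
    (hr : IsPlaceReductionAlong A π N r)
    (hfin : FiniteAlong L (heckeAlphaBar L N ℓ))
    (hN : NormFormulaAlong L (heckeAlphaBar L N ℓ) hfin)
    (φ : k ≃+* k) (hK : KroneckerNorm A π N ℓ φ)
    {D : Divisor L (laurentBaseChange L (modularFunctionFieldFull N))}
    (hD : D ∈ integralPrincipalDivisors A π N) :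
    Finsupp.mapDomain r (heckeDivBar hα hβ D)
      = coeffSL N φ • Finsupp.mapDomain r D
        + ℓ • ((coeffSL N φ)⁻¹ • Finsupp.mapDomain r D) := by
  obtain ⟨y, hy, hyk, hne, hDy⟩ := hD
  set Φ := coeffSL N φ with hΦ
  obtain ⟨z, hz, hnorm, hzred⟩ := hK y hy hyk hne
  -- the reduction of `y`
  set ybar : modularFunctionFieldFullC k N := ⟨coeffMap π y, hyk⟩ with hybar
  have hybar0 : ybar ≠ 0 := fun h => hne (congrArg Subtype.val h)
  have hΦy0 : Φ • ybar ≠ 0 := by simpa using hybar0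
  have hΦiy0 : Φ⁻¹ • ybar ≠ 0 := by simpa using hybar0
  -- the reduction of `z`
  have hzk_eq : coeffMap π z = (((Φ⁻¹ • ybar) ^ ℓ * (Φ • ybar) :
      modularFunctionFieldFullC k N) : LaurentSeries k) := by
    rw [hzred]
    rfl
  have hzk : coeffMap π z ∈ modularFunctionFieldFullC k N := by
    rw [hzk_eq]; exact Subtype.property _
  have hzbar : (⟨coeffMap π z, hzk⟩ : modularFunctionFieldFullC k N)
      = (Φ⁻¹ • ybar) ^ ℓ * (Φ • ybar) := Subtype.ext hzk_eq
  have hzne : coeffMap π z ≠ 0 := by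
    intro h0
    have : ((Φ⁻¹ • ybar) ^ ℓ * (Φ • ybar) : modularFunctionFieldFullC k N) = 0 := by
      rw [← hzbar]; exact Subtype.ext h0
    exact mul_ne_zero (pow_ne_zero _ hΦiy0) hΦy0 this
  -- the divisor `Tdiv D` is the divisor of the norm
  have hy0 : (⟨coeffMap A.subtype y, hy⟩ : laurentBaseChange L (modularFunctionFieldFull N)) ≠ 0 := by
    intro h0
    apply hne
    have h1 : coeffMap A.subtype y = 0 := congrArg Subtype.val h0
    have h2 : y = 0 := by
      apply coeffMap_injective_of_injective A.subtype Subtype.val_injective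
      rw [h1, map_zero]
    rw [h2, map_zero]
  have hβy0 : heckeBetaBar L N ℓ ⟨coeffMap A.subtype y, hy⟩ ≠ 0 := by
    simpa using hy0
  have hT : ∀ P, (heckeDivBar hα hβ D) P
      = P.ord (⟨coeffMap A.subtype z, hz⟩ : laurentBaseChange L (modularFunctionFieldFull N)) := by
    intro P
    show Divisor.pushforwardAlong (heckeAlphaBar L N ℓ) hα
      (Divisor.pullbackAlong (heckeBetaBar L N ℓ) hβ D) P = _
    rw [pushforwardAlong_apply_eq_ord (heckeAlphaBar L N ℓ) hα hfin hN hβy0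
        (fun w => pullbackAlong_apply_eq_ord (heckeBetaBar L N ℓ) hβ hDy w) P, hnorm]
  have key1 := hr.2 z hz hzk hzne (heckeDivBar hα hβ D) hT
  have key0 := hr.2 y hy hyk hne D hDy
  ext Q
  rw [key1 Q, Finsupp.add_apply, Finsupp.smul_apply, SemilinearAut.divisor_smul_apply,
    SemilinearAut.divisor_smul_apply, inv_inv, key0, key0, hzbar,
    Place.ord_mul _ (pow_ne_zero _ hΦiy0) hΦy0]
  have h1 : Q.ord ((Φ⁻¹ • ybar) ^ ℓ) = ℓ * Q.ord (Φ⁻¹ • ybar) := by
    have := Q.ord_zpow (Φ⁻¹ • ybar) (ℓ : ℤ)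
    rwa [zpow_natCast] at this
  have h2 : Q.ord (Φ⁻¹ • ybar) = (Φ • Q).ord ybar := by
    have := SemilinearAut.ord_smul Φ⁻¹ (Φ • Q) ybar
    rwa [inv_smul_smul] at this
  have h3 : Q.ord (Φ • ybar) = (Φ⁻¹ • Q).ord ybar := by
    have := SemilinearAut.ord_smul Φ (Φ⁻¹ • Q) ybar
    rwa [smul_inv_smul] at this
  rw [h1, h2, h3, nsmul_eq_mul]
  ring

/-- **Eichler–Shimura relation on divisors of degree zero.** -/
theorem relation_divisor
    {r : Place L (laurentBaseChange L (modularFunctionFieldFull N)) →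
      Place k (modularFunctionFieldFullC k N)}
    (hr : IsPlaceReductionAlong A π N r) (hgen : PrincipalGeneratedByIntegral A π N)
    (hR : RiemannBound L (laurentBaseChange L (modularFunctionFieldFull N)))
    (hfin : FiniteAlong L (heckeAlphaBar L N ℓ))
    (hN : NormFormulaAlong L (heckeAlphaBar L N ℓ) hfin)
    (φ : k ≃+* k) (hK : KroneckerNorm A π N ℓ φ)
    (C : ℕ) (hC : ∀ P : Place L (laurentBaseChange L (modularFunctionFieldFull N)),
      l1norm (heckeDivBar hα hβ (Finsupp.single P 1)) ≤ C)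
    (D : Divisor L (laurentBaseChange L (modularFunctionFieldFull N)))
    (hD : Divisor.degree D = 0) :
    Finsupp.mapDomain r (heckeDivBar hα hβ D)
      = coeffSL N φ • Finsupp.mapDomain r D
        + ℓ • ((coeffSL N φ)⁻¹ • Finsupp.mapDomain r D) := by
  classical
  set Φ := coeffSL N φ with hΦ
  set T := heckeDivBar (L := L) hα hβ with hTdef
  set δ : Divisor L (laurentBaseChange L (modularFunctionFieldFull N)) →+
      Divisor k (modularFunctionFieldFullC k N) :=
    (Finsupp.mapDomain.addMonoidHom r).comp T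
      - (DistribSMul.toAddMonoidHom (Divisor k (modularFunctionFieldFullC k N)) Φ
          + ℓ • DistribSMul.toAddMonoidHom (Divisor k (modularFunctionFieldFullC k N)) Φ⁻¹).comp
        (Finsupp.mapDomain.addMonoidHom r) with hδ
  have hδapp : ∀ E, δ E = Finsupp.mapDomain r (T E)
      - (Φ • Finsupp.mapDomain r E + ℓ • (Φ⁻¹ • Finsupp.mapDomain r E)) := fun E => rfl
  have hδprin : ∀ E ∈ Divisor.principal (K := L)
      (F := laurentBaseChange L (modularFunctionFieldFull N)), δ E = 0 := by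
    intro E hE
    have hE' := hgen hE
    clear hE
    induction hE' using AddSubgroup.closure_induction with
    | mem E hE => rw [hδapp, relation_integral hα hβ hr hfin hN φ hK hE, sub_self]
    | zero => exact map_zero δ
    | add E E' _ _ hE hE' => rw [map_add, hE, hE', add_zero]
    | neg E _ hE => rw [map_neg, hE, neg_zero]
  have hl1map : ∀ (E : Divisor L (laurentBaseChange L (modularFunctionFieldFull N))),
      l1norm (Finsupp.mapDomain r E) ≤ l1norm E := by
    intro E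
    induction E using Finsupp.induction with
    | zero => simp
    | single_add P n E hP hn ih =>
      rw [Finsupp.mapDomain_add, Finsupp.mapDomain_single]
      refine (l1norm_add_le _ _).trans ?_
      have : l1norm (Finsupp.single P n + E) = n.natAbs + l1norm E := by
        unfold l1norm
        rw [Finsupp.sum_add_index_of_disjoint]
        · simp
        · rw [Finset.disjoint_left]
          intro x hx hx'
          have : x = P := by
            have := Finsupp.support_single_subset hx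
            simpa using this
          exact hP (this ▸ hx')
      rw [this, l1norm_single]
      exact Nat.add_le_add_left ih _
  have hδC : ∀ P : Place L (laurentBaseChange L (modularFunctionFieldFull N)),
      l1norm (δ (Finsupp.single P 1)) ≤ C + (1 + ℓ) := by
    intro P
    rw [hδapp]
    refine (l1norm_sub_le _ _).trans (Nat.add_le_add ((hl1map _).trans (hC P)) ?_)
    rw [Finsupp.mapDomain_single, SemilinearAut.smul_single, SemilinearAut.smul_single,
      Finsupp.smul_single]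
    refine (l1norm_add_le _ _).trans ?_
    rw [l1norm_single, l1norm_single]
    simp
  have h0 := eq_zero_of_kills_principal hR δ hδprin _ hδC D hD
  rw [hδapp, sub_eq_zero] at h0
  exact h0

end Relation

end Fermat.Agent.S37.H697

end
end
-- ===== PACK-END S37/H697/Relation.lean

-- ===== PACK-BEGIN S29/H222/ESKSpec.lean
section
/-
S29 / helper222 — piece ESK: the Eichler–Shimura input of layer M ("ES raw": inertia acts trivially
on `J₀(N)(ℚ̄)[m]`, Frobenius satisfies `σ² - T_ℓ σ + ℓ = 0` on `J₀(N)(ℚ̄)[m]`) DIRECTLY from the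
S18 hub `CoreStatement N A m`, WITHOUT S37 (no special fibre, no place reduction map, no `J'`, no
commutativity of Hecke operators).

This file: the interface (definitions + the two target statements as `Prop`s).
-/





set_option autoImplicit false

noncomputable section

namespace Fermat.Agent.S29.H222

open ModularCurve AlgebraicCurve HahnSeries
open Fermat.Agent.S18 (Qb IsInt toF CoreStatement)

/-- The absolute Galois group of `ℚ`. -/
abbrev GQ' : Type := Qb ≃ₐ[ℚ] Qb

/-- The norm along `α : F_N → F_{Nℓ}` (inclusion) of `β y` (`β = q ↦ q^ℓ`): the function whose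
divisor is `T_ℓ (div y)` for the Prelude Hecke correspondence. -/
def heckeNorm (N ℓ : ℕ) [NeZero N] [NeZero ℓ] (y : modularFunctionFieldBar N) :
    modularFunctionFieldBar N :=
  letI := algebraAlong (heckeAlphaBar Qb N ℓ)
  Algebra.norm (modularFunctionFieldBar N) (heckeBetaBar Qb N ℓ y)

/-- **NORM-ID** (piece NKI of the S37 row): the norm along `α` of `β y` has `q`-expansion the
formal Kronecker norm `V_ℓ y · det (secMat ℓ y)` (`Fermat.Agent.S37.H400.kronNorm`, on main). -/
def NormId (N ℓ : ℕ) [NeZero N] [NeZero ℓ] : Prop :=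
  ∀ y : modularFunctionFieldBar N,
    ((heckeNorm N ℓ y : modularFunctionFieldBar N) : LaurentSeries Qb)
      = Fermat.Agent.S37.H400.kronNorm ℓ (y : LaurentSeries Qb)

/-- Target (U): inertia at `A` acts trivially on the `m`-torsion of `J₀(N)(ℚ̄)`. -/
def InertiaTrivialOn (N : ℕ) (A : ValuationSubring Qb) (m : ℕ) : Prop :=
  ∀ τ ∈ A.inertiaSubgroupIn ℚ, ∀ x : JZero N, (m : ℤ) • x = 0 → τ • x = x

/-- Target (F): every Frobenius element at `A` satisfies the Eichler–Shimura relation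
`σ² - T_ℓ σ + ℓ = 0` on the `m`-torsion of `J₀(N)(ℚ̄)` (`T_ℓ` = the RAW Prelude operator). -/
def FrobQuadraticOn (N : ℕ) [NeZero N] (ℓ : ℕ) (hℓ : ℓ.Prime) (A : ValuationSubring Qb)
    (m : ℕ) : Prop :=
  ∀ σ : GQ', A.IsFrobeniusAt σ ℓ → ∀ x : JZero N, (m : ℤ) • x = 0 →
    σ • σ • x - heckeOperatorBar N ⟨ℓ, hℓ⟩ (σ • x) + (ℓ : ℤ) • x = 0

/-- The statement of piece ESK-U. -/
def ESKInertiaStatement : Prop :=
  ∀ (N : ℕ) [NeZero N] (m : ℕ), m ≠ 0 → ∀ A : ValuationSubring Qb,
    CoreStatement N A m → PrincipalGeneratedByIntegral A (IsLocalRing.residue A) N →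
      InertiaTrivialOn N A m

/-- The statement of piece ESK-F. -/
def ESKFrobStatement : Prop :=
  ∀ (N : ℕ) [NeZero N] (ℓ : ℕ) (hℓ : ℓ.Prime) (m : ℕ), m ≠ 0 → ∀ A : ValuationSubring Qb,
    A.LiesOverPrime ℓ →
    CoreStatement N A m → PrincipalGeneratedByIntegral A (IsLocalRing.residue A) N →
    (haveI : NeZero ℓ := ⟨hℓ.ne_zero⟩; HeckeInputsAlong Qb N ℓ) →
    (haveI : NeZero ℓ := ⟨hℓ.ne_zero⟩; NormId N ℓ) →
      FrobQuadraticOn N ℓ hℓ A m

end Fermat.Agent.S29.H222

end
end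
-- ===== PACK-END S29/H222/ESKSpec.lean

-- ===== PACK-BEGIN Lib/Haupt/Analytic.lean
section





/-!
# `q`-expansions of `E₄`, `Δ` and their level-raised versions (helper637)
-/

set_option autoImplicit false

open UpperHalfPlane ModularForm CongruenceSubgroup MatrixGroups
open Matrix.SpecialLinearGroup Filter Topology
open scoped Manifold

noncomputable section

namespace Fermat.Agent.Lib.Haupt

open Fermat.Agent.S24.JFun

local notation "𝕢" => Function.Periodic.qParam

/-- The discriminant as a level-one modular form. -/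
def DeltaMF : ModularForm 𝒮ℒ 12 := CuspForm.toModularFormₗ CuspForm.discriminant

theorem coe_DeltaMF : (DeltaMF : ℍ → ℂ) = ModularForm.discriminant := rfl

theorem analyticAt_qParam : AnalyticAt ℂ (cuspFunction 1 (fun τ : ℍ => 𝕢 1 (τ : ℂ))) 0 :=
  ofQ_analyticAt (g := fun q => q) differentiableOn_id

theorem qExpansion_qParam : qExpansion 1 (fun τ : ℍ => 𝕢 1 (τ : ℂ)) = PowerSeries.X := by
  ext m
  rw [PowerSeries.coeff_X]
  refine qExpansion_coeff_unique_fun (c := fun m => if m = 1 then 1 else 0) analyticAt_qParam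
    (fun τ => ?_) m
  have h := hasSum_ite_eq (1 : ℕ) (𝕢 1 (τ : ℂ))
  have hfun : (fun m : ℕ => (if m = 1 then (1 : ℂ) else 0) • 𝕢 1 (τ : ℂ) ^ m)
      = fun m : ℕ => if m = 1 then 𝕢 1 (τ : ℂ) else 0 := by
    funext m
    split_ifs with hm
    · rw [hm, pow_one, one_smul]
    · rw [zero_smul]
  rw [hfun]
  exact h

theorem qExpansion_DeltaMF :
    qExpansion 1 DeltaMF = DeltaZ.map (Int.castRingHom ℂ) := by
  have hfun : (DeltaMF : ℍ → ℂ) = (fun τ : ℍ => 𝕢 1 (τ : ℂ)) * (fun τ => eulerFun τ ^ 24) := by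
    funext τ
    rw [coe_DeltaMF]
    exact discriminant_eq_q_mul_eulerFun τ
  rw [hfun, qExpansion_mul analyticAt_qParam (analyticAt_eulerFun_pow 24), qExpansion_qParam,
    qExpansion_eulerFun_pow, DeltaZ, map_mul, map_pow, PowerSeries.map_X]

theorem qExpansion_E4 :
    qExpansion 1 (E₄ : ModularForm 𝒮ℒ 4) = ModularCurve.eisenstein4.map (Int.castRingHom ℂ) :=
  qExpansion_E₄

end Fermat.Agent.Lib.Haupt

end
end
-- ===== PACK-END Lib/Haupt/Analytic.lean

-- ===== PACK-BEGIN S18/H394/KummerMain.lean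
section




/-!
# S18, Route K, pieces b3+b4 (helper394): the Kummer endgame, user-facing form

`kummer_endgame`: two charts `B₀ ∋ x`, `B₁ ∋ x⁻¹` of a "curve over `R`" inside a field `F`
(`M = B₀[1/x] = B₁[x]`, `B₀ ∩ B₁ = R`, `B₀` finite over `R[x]`, all three `m`-root closed), `m`
invertible in `R`, `m ≥ 2`.  Then there is NO `u ∈ Fˣ` such that
* `u` has exact order `m` modulo constants and `m`-th powers (`hord`), and
* `u` is "congruent to an `m`-th power modulo `w`" on both charts, compatibly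
  (`σ₀ ^ m * u ≡ 1 mod w B₀`, `σ₁ ^ m * u ≡ 1 mod w B₁`, `σ₀ ≡ σ₁ mod w`, in the graded sense),
where `w ∈ R` is not a unit of `B₀`.

No Kummer field, no integral closure, no discriminant: the proof applies the two-chart
connectedness theorem (b5) to the graded algebra `⨁ᵢ {f | f ^ m * u ^ i ∈ B} Tⁱ ⊆ F[T]/(T^m - u)`.
-/

set_option autoImplicit false

namespace Fermat.Agent.S18.H394

open Polynomial

variable {R F : Type*} [CommRing R] [IsLocalRing R] [IsNoetherianRing R] [Field F] [Algebra R F]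

/-- **Kummer endgame** (pieces b3+b4+b5 of Route K in one statement). -/
theorem kummer_endgame
    (m : ℕ) (hm : 2 ≤ m) (ν : R) (hν : ν * (m : R) = 1)
    (w : R) (u : F) (hu : u ≠ 0)
    (B₀ B₁ M : Subalgebra R F)
    (hrc0 : RootClosed m B₀) (hrc1 : RootClosed m B₁) (hrcM : RootClosed m M)
    (x : F) (hx0 : x ≠ 0) (hx : x ∈ B₀) (hx' : x⁻¹ ∈ B₁)
    (h0M : B₀ ≤ M) (h1M : B₁ ≤ M)
    (hloc0 : ∀ y ∈ M, ∃ n : ℕ, x ^ n * y ∈ B₀)
    (hloc1 : ∀ y ∈ M, ∃ n : ℕ, x⁻¹ ^ n * y ∈ B₁)
    (hint : ∀ y : F, y ∈ B₀ → y ∈ B₁ → ∃ r : R, algebraMap R F r = y)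
    (hfin : ∃ s : Finset F, ∀ b ∈ B₀, ∃ P : F → Polynomial R,
      b = ∑ β ∈ s, Polynomial.aeval x (P β) * β)
    (hden : ∃ d ∈ B₀, d ≠ 0 ∧ d * u⁻¹ ∈ B₀)
    (hw1 : ∀ b ∈ B₀, algebraMap R F w * b ≠ 1)
    (hord : ∀ i : ℕ, 0 < i → i < m → ∀ f : F, f ≠ 0 → ∀ r : R,
        f ^ m * u ^ i ≠ algebraMap R F r)
    (σ₀ σ₁ : F)
    (h₀ : ∃ b ∈ B₀, σ₀ ^ m * u - 1 = algebraMap R F w * b)
    (h₁ : ∃ b ∈ B₁, σ₁ ^ m * u - 1 = algebraMap R F w * b)
    (h₀₁ : ∃ γ : F, σ₀ - σ₁ = algebraMap R F w * γ ∧ γ ^ m * u ∈ M) : False := by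
  classical
  have hm0 : m ≠ 0 := by omega
  have hp : (X ^ m - C u : F[X]).Monic := monic_X_pow_sub_C u hm0
  set pb := AdjoinRoot.powerBasis' hp with hpb
  have hdim : pb.dim = m := by
    rw [hpb, AdjoinRoot.powerBasis'_dim]
    exact natDegree_X_pow_sub_C
  have hT : pb.gen ^ pb.dim = algebraMap F (AdjoinRoot (X ^ m - C u : F[X])) u := by
    rw [hdim, hpb, AdjoinRoot.powerBasis'_gen]
    have := AdjoinRoot.eval₂_root (X ^ m - C u : F[X])
    simp only [eval₂_sub, eval₂_pow, eval₂_X, eval₂_C] at this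
    rw [sub_eq_zero] at this
    rw [this]
    rfl
  have hd0 : 0 < pb.dim := by omega
  have hd1 : 1 < pb.dim := by omega
  have hrc0' : RootClosed pb.dim B₀ := by rw [hdim]; exact hrc0
  have hrc1' : RootClosed pb.dim B₁ := by rw [hdim]; exact hrc1
  have hrcM' : RootClosed pb.dim M := by rw [hdim]; exact hrcM
  obtain ⟨S, hS, hgen⟩ := kummerSub_fg pb u hu hT hd0 B₀ hrc0' x hx hfin hden
  refine kummer_endgame_aux pb u hT hd0 hd1 ν (by rw [hdim]; exact hν) w B₀ B₁ M hrc0' hrc1' hrcM'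
    x hx0 hx hx' h0M h1M hloc0 hloc1 hint (↥S) (fun c => (c : AdjoinRoot (X ^ m - C u : F[X])))
    (fun c => hS c c.2) ?_ hw1 (by rw [hdim]; exact hord) σ₀ σ₁ (by rw [hdim]; exact h₀)
    (by rw [hdim]; exact h₁) (by rw [hdim]; exact h₀₁)
  intro b hb
  obtain ⟨P, hP⟩ := hgen b hb
  refine ⟨fun c => P c, ?_⟩
  rw [finsum_eq_sum_of_fintype, hP]
  exact (Finset.sum_coe_sort S (fun c => Polynomial.aeval (algebraMap F _ x) (P c) * c)).symm

end Fermat.Agent.S18.H394

end
-- ===== PACK-END S18/H394/KummerMain.lean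

-- ===== PACK-BEGIN S17/H380/AbsSegre.lean
section



set_option linter.unusedSectionVars false
set_option linter.style.haveILetI false

namespace Fermat.Agent.S17.H380

open NumberField Height Module IntermediateField

section Two

variable {A : Type*} [Field A] [CharZero A] {ι ι' : Type*} [_root_.Finite ι] [_root_.Finite ι']

/-- The number field generated by the entries of two tuples. -/
noncomputable def pairField (x : ι → A) (y : ι' → A) : IntermediateField ℚ A :=
  tupleField (Sum.elim x y)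

theorem pairField_numberField (x : ι → A) (y : ι' → A) (hx : ∀ i, IsIntegral ℚ (x i))
    (hy : ∀ j, IsIntegral ℚ (y j)) : NumberField (pairField x y) :=
  tupleField_numberField _ (by rintro (i | j); exacts [hx i, hy j])

theorem mem_pairField_left (x : ι → A) (y : ι' → A) (i : ι) : x i ∈ pairField x y :=
  subset_adjoin ℚ _ ⟨Sum.inl i, rfl⟩

theorem mem_pairField_right (x : ι → A) (y : ι' → A) (j : ι') : y j ∈ pairField x y :=
  subset_adjoin ℚ _ ⟨Sum.inr j, rfl⟩

/-- **Segre formula** for absolute heights: the height of the multiplication table of two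
nonzero tuples is the sum of their heights. -/
theorem absLogHeight_fun_mul_eq {x : ι → A} {y : ι' → A} (hx : ∀ i, IsIntegral ℚ (x i))
    (hy : ∀ j, IsIntegral ℚ (y j)) (hx0 : x ≠ 0) (hy0 : y ≠ 0) :
    absLogHeight (fun a : ι × ι' => x a.1 * y a.2) = absLogHeight x + absLogHeight y := by
  haveI := pairField_numberField x y hx hy
  set F := pairField x y
  have hxm := mem_pairField_left x y
  have hym := mem_pairField_right x y
  rw [absLogHeight_of_mem F x hxm, absLogHeight_of_mem F y hym,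
    absLogHeight_of_mem F (fun a : ι × ι' => x a.1 * y a.2)
      (fun a => F.mul_mem (hxm a.1) (hym a.2)), ← mul_add]
  congr 1
  have hx0' : (fun i => (⟨x i, hxm i⟩ : F)) ≠ 0 := by
    obtain ⟨i, hi⟩ := Function.ne_iff.mp hx0
    exact Function.ne_iff.mpr ⟨i, fun h => hi (congrArg Subtype.val h)⟩
  have hy0' : (fun j => (⟨y j, hym j⟩ : F)) ≠ 0 := by
    obtain ⟨j, hj⟩ := Function.ne_iff.mp hy0
    exact Function.ne_iff.mpr ⟨j, fun h => hj (congrArg Subtype.val h)⟩
  rw [← logHeight_fun_mul_eq hx0' hy0']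
  rfl

/-- Absolute heights do not increase when passing to a subtuple (or reindexing). -/
theorem absLogHeight_comp_le (f : ι → ι') (y : ι' → A) (hy : ∀ j, IsIntegral ℚ (y j)) :
    absLogHeight (y ∘ f) ≤ absLogHeight y := by
  haveI := tupleField_numberField y hy
  have hym : ∀ j, y j ∈ tupleField y := fun j => subset_adjoin ℚ _ ⟨j, rfl⟩
  rw [absLogHeight_of_mem (tupleField y) y hym,
    absLogHeight_of_mem (tupleField y) (y ∘ f) (fun i => hym (f i))]
  refine mul_le_mul_of_nonneg_left ?_ (by positivity)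
  exact logHeight_comp_le f (fun j => (⟨y j, hym j⟩ : tupleField y))

/-- Absolute heights are invariant under reindexing. -/
theorem absLogHeight_comp_equiv (e : ι ≃ ι') (y : ι' → A) :
    absLogHeight (y ∘ e) = absLogHeight y := by
  by_cases hy : ∀ j, IsIntegral ℚ (y j)
  · haveI := tupleField_numberField y hy
    have hym : ∀ j, y j ∈ tupleField y := fun j => subset_adjoin ℚ _ ⟨j, rfl⟩
    rw [absLogHeight_of_mem (tupleField y) y hym,
      absLogHeight_of_mem (tupleField y) (y ∘ e) (fun i => hym (e i))]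
    congr 1
    exact logHeight_comp_equiv e (fun j => (⟨y j, hym j⟩ : tupleField y))
  · rw [absLogHeight_of_not_isIntegral y hy, absLogHeight_of_not_isIntegral]
    intro h
    apply hy
    intro j
    have := h (e.symm j)
    simpa using this

/-- **Linear maps**: the absolute height of `M x` is at most
`log #ι + absLogHeight M + absLogHeight x`. -/
theorem absLogHeight_linearMap_apply_le [Fintype ι] (M : ι' × ι → A) (x : ι → A)
    (hM : ∀ a, IsIntegral ℚ (M a)) (hx : ∀ i, IsIntegral ℚ (x i)) :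
    absLogHeight (fun j => ∑ i, M (j, i) * x i)
      ≤ Real.log (Nat.card ι) + absLogHeight M + absLogHeight x := by
  haveI := pairField_numberField M x hM hx
  set F := pairField M x
  have hMm := mem_pairField_left M x
  have hxm := mem_pairField_right M x
  have hval : ∀ j, (∑ i, M (j, i) * x i) ∈ F := fun j =>
    F.sum_mem (fun i _ => F.mul_mem (hMm (j, i)) (hxm i))
  rw [absLogHeight_of_mem F M hMm, absLogHeight_of_mem F x hxm,
    absLogHeight_of_mem F _ hval]
  have h := logHeight_linearMap_apply_le (fun a => (⟨M a, hMm a⟩ : F))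
    (fun i => (⟨x i, hxm i⟩ : F))
  have hD : (0 : ℝ) < finrank ℚ F := by exact_mod_cast Module.finrank_pos
  rw [NumberField.totalWeight_eq_finrank] at h
  have heq : (fun j => (⟨∑ i, M (j, i) * x i, hval j⟩ : F))
      = fun j => ∑ i, (⟨M (j, i), hMm (j, i)⟩ : F) * (⟨x i, hxm i⟩ : F) := by
    funext j
    apply Subtype.ext
    push_cast
    rfl
  rw [heq]
  have key : Real.log (Nat.card ι) + (finrank ℚ F : ℝ)⁻¹ * logHeight (fun a => (⟨M a, hMm a⟩ : F))
      + (finrank ℚ F : ℝ)⁻¹ * logHeight (fun i => (⟨x i, hxm i⟩ : F))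
      = (finrank ℚ F : ℝ)⁻¹ * ((finrank ℚ F : ℝ) * Real.log (Nat.card ι)
          + logHeight (fun a => (⟨M a, hMm a⟩ : F)) + logHeight (fun i => (⟨x i, hxm i⟩ : F))) := by
    field_simp
  rw [key]
  exact mul_le_mul_of_nonneg_left h (by positivity)

end Two


section Many

universe u v

variable {A : Type*} [Field A] [CharZero A]
variable {α : Type u} [Fintype α] {ι : α → Type v} [∀ a, _root_.Finite (ι a)]

/-- **Segre formula** for absolute heights, finite families: the height of the multiplication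
table of a finite family of nonzero tuples is the sum of their heights. -/
theorem absLogHeight_fun_prod_eq {x : (a : α) → ι a → A} (hx : ∀ a i, IsIntegral ℚ (x a i))
    (hx0 : ∀ a, x a ≠ 0) :
    absLogHeight (fun I : (a : α) → ι a => ∏ a, x a (I a)) = ∑ a, absLogHeight (x a) := by
  classical
  let u : (Σ a, ι a) → A := fun s => x s.1 s.2
  have hu : ∀ s, IsIntegral ℚ (u s) := fun s => hx s.1 s.2
  haveI := tupleField_numberField u hu
  set F := tupleField u
  have hm : ∀ a i, x a i ∈ F := fun a i => subset_adjoin ℚ _ ⟨⟨a, i⟩, rfl⟩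
  have hval : ∀ I : (a : α) → ι a, (∏ a, x a (I a)) ∈ F := fun I =>
    F.prod_mem (fun a _ => hm a (I a))
  rw [absLogHeight_of_mem F _ hval,
    Finset.sum_congr rfl (fun a _ => absLogHeight_of_mem F (x a) (hm a)), ← Finset.mul_sum]
  congr 1
  have hx0' : ∀ a, (fun i => (⟨x a i, hm a i⟩ : F)) ≠ 0 := by
    intro a
    obtain ⟨i, hi⟩ := Function.ne_iff.mp (hx0 a)
    exact Function.ne_iff.mpr ⟨i, fun h => hi (congrArg Subtype.val h)⟩
  rw [← logHeight_fun_prod_eq (x := fun a i => (⟨x a i, hm a i⟩ : F)) hx0']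
  congr 1
  funext I
  apply Subtype.ext
  push_cast
  rfl

end Many

end Fermat.Agent.S17.H380

end
-- ===== PACK-END S17/H380/AbsSegre.lean

-- ===== PACK-BEGIN S17/H380/LocalGlobal.lean
section



set_option linter.unusedSectionVars false
set_option linter.style.haveILetI false

namespace Fermat.Agent.S17.H380

open NumberField Height Module IntermediateField Fermat.Agent.S17.H830

section LG

variable {Ω : Type*} [Field Ω] [CharZero Ω] [IsAlgClosed Ω] [Algebra.IsAlgebraic ℚ Ω]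
variable (S : AbsSystem Ω)

/-- Every embedding of a subfield of `Ω` into `Ω` extends to a ring endomorphism of `Ω`. -/
theorem exists_ringHom_extension (F : IntermediateField ℚ Ω) (τ : F →+* Ω) :
    ∃ σ : Ω →+* Ω, ∀ x : F, σ x = τ x := by
  obtain ⟨φ, hφ⟩ := IntermediateField.exists_algHom_of_splits (F := ℚ) (E := Ω) (K := Ω)
    (fun s => ⟨Algebra.IsIntegral.isIntegral s, IsAlgClosed.splits _⟩) (L := F) τ.toRatAlgHom
  refine ⟨φ, fun x => ?_⟩
  have := DFunLike.congr_fun hφ x
  exact this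

/-- a chosen extension -/
noncomputable def extHom (F : IntermediateField ℚ Ω) (τ : F →+* Ω) : Ω →+* Ω :=
  (exists_ringHom_extension F τ).choose

theorem extHom_apply (F : IntermediateField ℚ Ω) (τ : F →+* Ω) (x : F) :
    extHom F τ x = τ x := (exists_ringHom_extension F τ).choose_spec x

variable {ι : Type*} [Finite ι]

/-- The absolute height as an average over embeddings of sums of local terms. -/
theorem absLogHeight_eq_sum_locLog (F : IntermediateField ℚ Ω) [NumberField F] (y : ι → Ω)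
    (hy : y ≠ 0) (hmem : ∀ i, y i ∈ F) :
    absLogHeight y = (finrank ℚ F : ℝ)⁻¹ *
      ∑ τ : F →+* Ω, S.locLog (fun i => extHom F τ (y i)) := by
  rw [absLogHeight_of_mem F y hmem]
  congr 1
  have hy' : (fun i => (⟨y i, hmem i⟩ : F)) ≠ 0 := by
    obtain ⟨i, hi⟩ := Function.ne_iff.mp hy
    exact Function.ne_iff.mpr ⟨i, fun h => hi (congrArg Subtype.val h)⟩
  rw [logHeight_eq_sum_locLog S _ hy']
  refine Finset.sum_congr rfl fun τ _ => ?_
  congr 1
  funext i
  exact (extHom_apply F τ ⟨y i, hmem i⟩).symm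


/-! ### From uniform local bounds to global bounds for absolute heights -/

omit [CharZero Ω] [IsAlgClosed Ω] [Algebra.IsAlgebraic ℚ Ω] in
theorem abs_log_eq_log_max_add (v : AbsoluteValue Ω ℝ) {t : Ω} (ht : t ≠ 0) :
    |Real.log (v t)| = Real.log (⨆ i, v ((![t, 1] : Fin 2 → Ω) i)) +
      Real.log (⨆ i, v ((![t⁻¹, 1] : Fin 2 → Ω) i)) := by
  have hpos : 0 < v t := v.pos ht
  have h1 : (⨆ i, v ((![t, 1] : Fin 2 → Ω) i)) = max (v t) 1 := by
    refine le_antisymm (ciSup_le fun i => ?_) (max_le ?_ ?_)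
    · fin_cases i <;> simp
    · exact Finite.le_ciSup_of_le (0 : Fin 2) (by simp)
    · exact Finite.le_ciSup_of_le (1 : Fin 2) (by simp)
  have h2 : (⨆ i, v ((![t⁻¹, 1] : Fin 2 → Ω) i)) = max (v t)⁻¹ 1 := by
    refine le_antisymm (ciSup_le fun i => ?_) (max_le ?_ ?_)
    · fin_cases i <;> simp
    · exact Finite.le_ciSup_of_le (0 : Fin 2) (by simp)
    · exact Finite.le_ciSup_of_le (1 : Fin 2) (by simp)
  rw [h1, h2]
  rcases le_total (v t) 1 with h | h
  · have hinv : 1 ≤ (v t)⁻¹ := (one_le_inv₀ hpos).mpr h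
    rw [max_eq_right h, max_eq_left hinv, Real.log_one, zero_add, Real.log_inv,
      abs_of_nonpos (Real.log_nonpos hpos.le h)]
  · have hinv : (v t)⁻¹ ≤ 1 := inv_le_one_of_one_le₀ h
    rw [max_eq_left h, max_eq_right hinv, Real.log_one, add_zero,
      abs_of_nonneg (Real.log_nonneg h)]

/-- The archimedean absolute value of the system, twisted by a ring endomorphism. -/
noncomputable def twInf (σ : Ω →+* Ω) : AbsoluteValue Ω ℝ :=
  (NormedField.toAbsoluteValue ℂ).comp (f := S.inf.comp σ) (RingHom.injective _)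

/-- The `p`-adic absolute value of the system, twisted by a ring endomorphism. -/
noncomputable def twFin (σ : Ω →+* Ω) (p : Nat.Primes) : AbsoluteValue Ω ℝ :=
  (S.fin p).comp (f := σ) σ.injective

omit [CharZero Ω] [IsAlgClosed Ω] [Algebra.IsAlgebraic ℚ Ω] in
theorem twInf_apply (σ : Ω →+* Ω) (x : Ω) : twInf S σ x = ‖S.inf (σ x)‖ := rfl

omit [CharZero Ω] [IsAlgClosed Ω] [Algebra.IsAlgebraic ℚ Ω] in
theorem twFin_apply (σ : Ω →+* Ω) (p : Nat.Primes) (x : Ω) : twFin S σ p x = S.fin p (σ x) := rfl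

omit [CharZero Ω] [IsAlgClosed Ω] [Algebra.IsAlgebraic ℚ Ω] in
theorem twFin_isNonarchimedean (σ : Ω →+* Ω) (p : Nat.Primes) :
    IsNonarchimedean (twFin S σ p) := by
  intro x y
  simp only [twFin_apply, map_add]
  exact S.nonarch p _ _

/-- The class of absolute values for which local bounds are assumed: nonarchimedean ones and
those induced by a complex embedding (same as `HWall.IsGoodAbs`). -/
def IsGoodAbsV (v : AbsoluteValue Ω ℝ) : Prop :=
  IsNonarchimedean v ∨ ∃ φ : Ω →+* ℂ, ∀ c : Ω, v c = ‖φ c‖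

open Classical in
/-- The shape of the local constants (same as `HWall.bnd`). -/
noncomputable def bndV (v : AbsoluteValue Ω ℝ) (T : Finset Ω) (N : ℝ) : ℝ :=
  (if IsNonarchimedean v then 0 else N) + ∑ c ∈ T, |Real.log (v c)|

omit [CharZero Ω] [IsAlgClosed Ω] [Algebra.IsAlgebraic ℚ Ω] in
/-- `locLog` of a twisted tuple as a finite sum of local terms. -/
theorem locLog_comp_eq (σ : Ω →+* Ω) (P₀ : Finset Nat.Primes) {ι' : Type*} (z : ι' → Ω)
    (hz : ∀ p ∉ P₀, S.locFin p (fun i => σ (z i)) = 1) :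
    S.locLog (fun i => σ (z i)) = Real.log (⨆ i, twInf S σ (z i)) +
      ∑ p ∈ P₀, Real.log (⨆ i, twFin S σ p (z i)) := by
  unfold AbsSystem.locLog
  congr 1
  rw [finsum_eq_sum_of_support_subset]
  · rfl
  · intro p hp
    by_contra hcon
    simp only [Function.mem_support, ne_eq] at hp
    apply hp
    rw [hz p (by simpa using hcon), Real.log_one]

section PerSigma

variable {κ : Type*} [Fintype κ] {ι : κ → Type*} [∀ k, Finite (ι k)]

omit [CharZero Ω] [IsAlgClosed Ω] [Algebra.IsAlgebraic ℚ Ω] in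
/-- The local-to-global estimate for one extension `σ`. -/
theorem abs_sum_locLog_le (σ : Ω →+* Ω) (y : (k : κ) → ι k → Ω) (c : κ → ℝ) (T : Finset Ω)
    (hT : ∀ t ∈ T, t ≠ 0) (N : ℝ) (P₀ : Finset Nat.Primes)
    (hP : ∀ k, ∀ p ∉ P₀, S.locFin p (fun i => σ (y k i)) = 1)
    (hPT : ∀ t ∈ T, ∀ p ∉ P₀, S.fin p (σ t) = 1)
    (hloc : ∀ v : AbsoluteValue Ω ℝ, IsGoodAbsV v →
      |∑ k, c k * Real.log (⨆ i, v (y k i))| ≤ bndV v T N) :
    |∑ k, c k * S.locLog (fun i => σ (y k i))| ≤
      max N 0 + ∑ t ∈ T, (S.locLog (fun i => σ ((![t, 1] : Fin 2 → Ω) i)) +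
        S.locLog (fun i => σ ((![t⁻¹, 1] : Fin 2 → Ω) i))) := by
  classical
  have hT1 : ∀ t ∈ T, ∀ p ∉ P₀, S.locFin p (fun i => σ ((![t, 1] : Fin 2 → Ω) i)) = 1 := by
    intro t ht p hp
    unfold AbsSystem.locFin
    refine le_antisymm (ciSup_le fun i => ?_) (Finite.le_ciSup_of_le (1 : Fin 2) (by simp))
    fin_cases i
    · simp [hPT t ht p hp]
    · simp
  have hT2 : ∀ t ∈ T, ∀ p ∉ P₀, S.locFin p (fun i => σ ((![t⁻¹, 1] : Fin 2 → Ω) i)) = 1 := by
    intro t ht p hp
    unfold AbsSystem.locFin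
    refine le_antisymm (ciSup_le fun i => ?_) (Finite.le_ciSup_of_le (1 : Fin 2) (by simp))
    fin_cases i
    · simp [hPT t ht p hp]
    · simp
  -- left hand side
  have hL : ∑ k, c k * S.locLog (fun i => σ (y k i)) =
      ∑ k, c k * Real.log (⨆ i, twInf S σ (y k i)) +
        ∑ p ∈ P₀, ∑ k, c k * Real.log (⨆ i, twFin S σ p (y k i)) := by
    rw [Finset.sum_comm, ← Finset.sum_add_distrib]
    refine Finset.sum_congr rfl fun k _ => ?_
    rw [locLog_comp_eq S σ P₀ (y k) (hP k), mul_add, Finset.mul_sum]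
  -- right hand side
  have hR : ∑ t ∈ T, (S.locLog (fun i => σ ((![t, 1] : Fin 2 → Ω) i)) +
        S.locLog (fun i => σ ((![t⁻¹, 1] : Fin 2 → Ω) i))) =
      ∑ t ∈ T, |Real.log (twInf S σ t)| + ∑ p ∈ P₀, ∑ t ∈ T, |Real.log (twFin S σ p t)| := by
    rw [Finset.sum_comm, ← Finset.sum_add_distrib]
    refine Finset.sum_congr rfl fun t ht => ?_
    rw [locLog_comp_eq S σ P₀ _ (hT1 t ht), locLog_comp_eq S σ P₀ _ (hT2 t ht),
      abs_log_eq_log_max_add _ (hT t ht),
      Finset.sum_congr rfl (fun p _ => abs_log_eq_log_max_add (twFin S σ p) (hT t ht)),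
      Finset.sum_add_distrib]
    ring
  rw [hL, hR]
  -- the local bounds
  have hinf : |∑ k, c k * Real.log (⨆ i, twInf S σ (y k i))| ≤
      max N 0 + ∑ t ∈ T, |Real.log (twInf S σ t)| := by
    refine (hloc (twInf S σ) (Or.inr ⟨S.inf.comp σ, fun _ => rfl⟩)).trans ?_
    unfold bndV
    gcongr
    split_ifs
    · exact le_max_right _ _
    · exact le_max_left _ _
  have hfin : ∀ p ∈ P₀, |∑ k, c k * Real.log (⨆ i, twFin S σ p (y k i))| ≤
      ∑ t ∈ T, |Real.log (twFin S σ p t)| := by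
    intro p _
    refine (hloc (twFin S σ p) (Or.inl (twFin_isNonarchimedean S σ p))).trans ?_
    unfold bndV
    rw [if_pos (twFin_isNonarchimedean S σ p), zero_add]
  calc |∑ k, c k * Real.log (⨆ i, twInf S σ (y k i)) +
        ∑ p ∈ P₀, ∑ k, c k * Real.log (⨆ i, twFin S σ p (y k i))|
      ≤ |∑ k, c k * Real.log (⨆ i, twInf S σ (y k i))| +
        |∑ p ∈ P₀, ∑ k, c k * Real.log (⨆ i, twFin S σ p (y k i))| := abs_add_le _ _
    _ ≤ (max N 0 + ∑ t ∈ T, |Real.log (twInf S σ t)|) +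
        ∑ p ∈ P₀, ∑ t ∈ T, |Real.log (twFin S σ p t)| := by
      refine add_le_add hinf ?_
      exact (Finset.abs_sum_le_sum_abs _ _).trans (Finset.sum_le_sum hfin)
    _ = max N 0 + (∑ t ∈ T, |Real.log (twInf S σ t)| +
        ∑ p ∈ P₀, ∑ t ∈ T, |Real.log (twFin S σ p t)|) := by ring

end PerSigma


section Global

variable {κ : Type*} [Fintype κ] {ι : κ → Type*} [∀ k, Finite (ι k)]

omit [CharZero Ω] [IsAlgClosed Ω] [Algebra.IsAlgebraic ℚ Ω] in
theorem vec_one_ne_zero (t : Ω) : (![t, 1] : Fin 2 → Ω) ≠ 0 :=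
  Function.ne_iff.mpr ⟨1, by simp⟩

include S in
/-- **Local-to-global principle for absolute heights.**  Let `y k` be finitely many nonzero
tuples over `Ω = ℚ̄` and `c k` real coefficients.  If the local expression
`∑ k, c k * log (sup_i v (y k i))` is bounded by `[v archimedean] * N + ∑_{t ∈ T} |log v t|`
for EVERY absolute value `v` of `Ω` which is nonarchimedean or induced by a complex embedding,
then `|∑ k, c k * absLogHeight (y k)| ≤ max N 0 + ∑_{t ∈ T} (h(t) + h(t⁻¹))`. -/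
theorem abs_sum_absLogHeight_le (y : (k : κ) → ι k → Ω) (hy : ∀ k, y k ≠ 0) (c : κ → ℝ)
    (T : Finset Ω) (hT : ∀ t ∈ T, t ≠ 0) (N : ℝ)
    (hloc : ∀ v : AbsoluteValue Ω ℝ, IsGoodAbsV v →
      |∑ k, c k * Real.log (⨆ i, v (y k i))| ≤ bndV v T N) :
    |∑ k, c k * absLogHeight (y k)| ≤
      max N 0 + ∑ t ∈ T, (absLogHeight (![t, 1] : Fin 2 → Ω) +
        absLogHeight (![t⁻¹, 1] : Fin 2 → Ω)) := by
  classical
  -- a number field containing everything
  let u : ((Σ k, ι k) ⊕ T) → Ω := Sum.elim (fun s => y s.1 s.2) (fun t => t.1)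
  have hu : ∀ j, IsIntegral ℚ (u j) := fun j => Algebra.IsIntegral.isIntegral _
  haveI := tupleField_numberField u hu
  set F := tupleField u with hF
  have hmy : ∀ k i, y k i ∈ F := fun k i => subset_adjoin ℚ _ ⟨Sum.inl ⟨k, i⟩, rfl⟩
  have hmt : ∀ t ∈ T, t ∈ F := fun t ht => subset_adjoin ℚ _ ⟨Sum.inr ⟨t, ht⟩, rfl⟩
  have hm1 : ∀ t ∈ T, ∀ i, (![t, 1] : Fin 2 → Ω) i ∈ F := by
    intro t ht i
    fin_cases i
    · exact hmt t ht
    · exact F.one_mem
  have hm2 : ∀ t ∈ T, ∀ i, (![t⁻¹, 1] : Fin 2 → Ω) i ∈ F := by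
    intro t ht i
    fin_cases i
    · exact F.inv_mem (hmt t ht)
    · exact F.one_mem
  have hD : (0 : ℝ) < finrank ℚ F := by exact_mod_cast Module.finrank_pos
  -- heights as averages
  have hyk : ∀ k, absLogHeight (y k) = (finrank ℚ F : ℝ)⁻¹ *
      ∑ τ : F →+* Ω, S.locLog (fun i => extHom F τ (y k i)) :=
    fun k => absLogHeight_eq_sum_locLog S F (y k) (hy k) (hmy k)
  have ht1 : ∀ t ∈ T, absLogHeight (![t, 1] : Fin 2 → Ω) = (finrank ℚ F : ℝ)⁻¹ *
      ∑ τ : F →+* Ω, S.locLog (fun i => extHom F τ ((![t, 1] : Fin 2 → Ω) i)) :=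
    fun t ht => absLogHeight_eq_sum_locLog S F _ (vec_one_ne_zero t) (hm1 t ht)
  have ht2 : ∀ t ∈ T, absLogHeight (![t⁻¹, 1] : Fin 2 → Ω) = (finrank ℚ F : ℝ)⁻¹ *
      ∑ τ : F →+* Ω, S.locLog (fun i => extHom F τ ((![t⁻¹, 1] : Fin 2 → Ω) i)) :=
    fun t ht => absLogHeight_eq_sum_locLog S F _ (vec_one_ne_zero t⁻¹) (hm2 t ht)
  -- the estimate for each embedding
  have hτ : ∀ τ : F →+* Ω, |∑ k, c k * S.locLog (fun i => extHom F τ (y k i))| ≤
      max N 0 + ∑ t ∈ T, (S.locLog (fun i => extHom F τ ((![t, 1] : Fin 2 → Ω) i)) +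
        S.locLog (fun i => extHom F τ ((![t⁻¹, 1] : Fin 2 → Ω) i))) := by
    intro τ
    -- finite set of primes
    have hfy : ∀ k, (Function.mulSupport
        (fun p : Nat.Primes => S.locFin p (fun i => extHom F τ (y k i)))).Finite := by
      intro k
      have hy' : (fun i => (⟨y k i, hmy k i⟩ : F)) ≠ 0 := by
        obtain ⟨i, hi⟩ := Function.ne_iff.mp (hy k)
        exact Function.ne_iff.mpr ⟨i, fun h => hi (congrArg Subtype.val h)⟩
      have := hasFiniteMulSupport_locFin S (fun i => (⟨y k i, hmy k i⟩ : F)) hy' τ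
      have heq : (fun i => τ (⟨y k i, hmy k i⟩ : F)) = fun i => extHom F τ (y k i) := by
        funext i
        exact (extHom_apply F τ ⟨y k i, hmy k i⟩).symm
      rw [heq] at this
      exact this
    have hft : ∀ t : T, (Function.mulSupport
        (fun p : Nat.Primes => S.fin p (extHom F τ t.1))).Finite := by
      intro t
      have ht0 : (fun _ : Unit => (⟨t.1, hmt t.1 t.2⟩ : F)) ≠ 0 := by
        intro h
        have := congrFun h ()
        exact hT t.1 t.2 (congrArg Subtype.val this)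
      have := hasFiniteMulSupport_locFin S (fun _ : Unit => (⟨t.1, hmt t.1 t.2⟩ : F)) ht0 τ
      have heq : (fun p : Nat.Primes => S.locFin p (fun _ : Unit => τ (⟨t.1, hmt t.1 t.2⟩ : F)))
          = fun p : Nat.Primes => S.fin p (extHom F τ t.1) := by
        funext p
        unfold AbsSystem.locFin
        rw [ciSup_const, extHom_apply F τ ⟨t.1, hmt t.1 t.2⟩]
      rw [heq] at this
      exact this
    let P₀ : Finset Nat.Primes :=
      (Finset.univ.biUnion fun k => (hfy k).toFinset) ∪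
        (Finset.univ.biUnion fun t : T => (hft t).toFinset)
    refine abs_sum_locLog_le S (extHom F τ) y c T hT N P₀ ?_ ?_ hloc
    · intro k p hp
      by_contra hne
      apply hp
      refine Finset.mem_union_left _ (Finset.mem_biUnion.mpr ⟨k, Finset.mem_univ _, ?_⟩)
      rw [Set.Finite.mem_toFinset]
      exact hne
    · intro t ht p hp
      by_contra hne
      apply hp
      refine Finset.mem_union_right _ (Finset.mem_biUnion.mpr ⟨⟨t, ht⟩, Finset.mem_univ _, ?_⟩)
      rw [Set.Finite.mem_toFinset]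
      exact hne
  -- assemble
  have hcard : (Fintype.card (F →+* Ω) : ℝ) = finrank ℚ F := by
    exact_mod_cast NumberField.Embeddings.card F Ω
  have hLHS : ∑ k, c k * absLogHeight (y k) = (finrank ℚ F : ℝ)⁻¹ *
      ∑ τ : F →+* Ω, ∑ k, c k * S.locLog (fun i => extHom F τ (y k i)) := by
    rw [Finset.sum_comm, Finset.mul_sum]
    refine Finset.sum_congr rfl fun k _ => ?_
    rw [hyk k, Finset.mul_sum, Finset.mul_sum, Finset.mul_sum]
    refine Finset.sum_congr rfl fun τ _ => ?_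
    ring
  have hRHS : max N 0 + ∑ t ∈ T, (absLogHeight (![t, 1] : Fin 2 → Ω) +
        absLogHeight (![t⁻¹, 1] : Fin 2 → Ω)) = (finrank ℚ F : ℝ)⁻¹ *
      ∑ τ : F →+* Ω, (max N 0 +
        ∑ t ∈ T, (S.locLog (fun i => extHom F τ ((![t, 1] : Fin 2 → Ω) i)) +
          S.locLog (fun i => extHom F τ ((![t⁻¹, 1] : Fin 2 → Ω) i)))) := by
    have e1 : ∑ τ : F →+* Ω, (max N 0 +
        ∑ t ∈ T, (S.locLog (fun i => extHom F τ ((![t, 1] : Fin 2 → Ω) i)) +
          S.locLog (fun i => extHom F τ ((![t⁻¹, 1] : Fin 2 → Ω) i)))) =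
        (finrank ℚ F : ℝ) * max N 0 + ∑ t ∈ T, ∑ τ : F →+* Ω,
          (S.locLog (fun i => extHom F τ ((![t, 1] : Fin 2 → Ω) i)) +
            S.locLog (fun i => extHom F τ ((![t⁻¹, 1] : Fin 2 → Ω) i))) := by
      rw [Finset.sum_add_distrib, Finset.sum_const, Finset.card_univ, nsmul_eq_mul, hcard,
        Finset.sum_comm]
    rw [e1, mul_add, ← mul_assoc, inv_mul_cancel₀ hD.ne', one_mul, Finset.mul_sum]
    congr 1
    refine Finset.sum_congr rfl fun t ht => ?_
    rw [ht1 t ht, ht2 t ht, ← mul_add, ← Finset.sum_add_distrib]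
  rw [hLHS, hRHS, abs_mul, abs_of_pos (inv_pos.mpr hD)]
  refine mul_le_mul_of_nonneg_left ?_ (inv_pos.mpr hD).le
  exact (Finset.abs_sum_le_sum_abs _ _).trans (Finset.sum_le_sum fun τ _ => hτ τ)

end Global

end LG

end Fermat.Agent.S17.H380

end
-- ===== PACK-END S17/H380/LocalGlobal.lean

-- ===== PACK-BEGIN Lib/Cheb/H761/PrimeSum.lean
section



/-!
# Piece Z of the shared library CHEB: `Spec.PrimeSumStatement`

`∑_p c_F(p) p^(-s) = log (1 / (s - 1)) + O(1)` on `(1, 2]`, where `c_F(p)` is the number of prime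
ideals of `𝓞 F` of norm `p`.
-/

set_option autoImplicit false
set_option linter.unusedSectionVars false
set_option linter.unusedVariables false

namespace Fermat.Agent.Lib.Cheb.H761

open IsDedekindDomain Filter Topology NumberField Ideal

noncomputable section

variable (F : Type*) [Field F] [NumberField F]

/-- At most `[F : ℚ]` primes of `𝓞 F` contain a given rational prime. -/
lemma card_le_of_natCast_mem {p : ℕ} (hp : p.Prime) (T : Finset (HeightOneSpectrum (𝓞 F)))
    (hT : ∀ 𝔭 ∈ T, (p : 𝓞 F) ∈ 𝔭.asIdeal) : T.card ≤ Module.finrank ℤ (𝓞 F) := by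
  classical
  have hdvd : ∀ 𝔭 ∈ T, 𝔭.asIdeal ∣ span {(p : 𝓞 F)} := fun 𝔭 h𝔭 =>
    Ideal.dvd_iff_le.mpr ((span_singleton_le_iff_mem _).mpr (hT 𝔭 h𝔭))
  have hprod : ∏ 𝔭 ∈ T, 𝔭.asIdeal ∣ span {(p : 𝓞 F)} := by
    have := Finset.prod_primes_dvd (s := T.image (fun 𝔭 => 𝔭.asIdeal)) (span {(p : 𝓞 F)})
      (by
        intro a ha
        obtain ⟨𝔭, -, rfl⟩ := Finset.mem_image.mp ha
        exact 𝔭.prime)
      (by
        intro a ha
        obtain ⟨𝔭, h𝔭, rfl⟩ := Finset.mem_image.mp ha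
        exact hdvd 𝔭 h𝔭)
    rwa [Finset.prod_image (fun x _ y _ h => HeightOneSpectrum.ext h)] at this
  have hnorm := Ideal.absNorm_dvd_absNorm_of_le (Ideal.dvd_iff_le.mp hprod)
  rw [Ideal.absNorm_span_natCast, map_prod] at hnorm
  have hle : ∀ 𝔭 ∈ T, p ≤ absNorm 𝔭.asIdeal := by
    intro 𝔭 h𝔭
    have h1 := Ideal.absNorm_dvd_absNorm_of_le (Ideal.dvd_iff_le.mp (hdvd 𝔭 h𝔭))
    rw [Ideal.absNorm_span_natCast] at h1
    obtain ⟨k, -, hk⟩ := (Nat.dvd_prime_pow hp).mp h1
    have hk0 : k ≠ 0 := by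
      rintro rfl
      rw [pow_zero, Ideal.absNorm_eq_one_iff] at hk
      exact 𝔭.isPrime.ne_top hk
    rw [hk]
    exact Nat.le_self_pow hk0 p
  have h2 : p ^ T.card ≤ ∏ 𝔭 ∈ T, absNorm 𝔭.asIdeal := by
    rw [← Finset.prod_const]
    exact Finset.prod_le_prod' hle
  have h3 : ∏ 𝔭 ∈ T, absNorm 𝔭.asIdeal ≤ p ^ Module.finrank ℤ (𝓞 F) :=
    Nat.le_of_dvd (pow_pos hp.pos _) hnorm
  exact (Nat.pow_le_pow_iff_right hp.one_lt).mp (h2.trans h3)

/-- the rational prime below a prime ideal -/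
def primeBelow (𝔭 : HeightOneSpectrum (𝓞 F)) : ℕ :=
  haveI := 𝔭.isMaximal
  (Ideal.exists_prime_and_absNorm_eq_pow 𝔭.asIdeal).choose

lemma primeBelow_spec (𝔭 : HeightOneSpectrum (𝓞 F)) :
    ∃ n, 0 < n ∧ (primeBelow F 𝔭 : 𝓞 F) ∈ 𝔭.asIdeal ∧ (primeBelow F 𝔭).Prime ∧
      absNorm 𝔭.asIdeal = primeBelow F 𝔭 ^ n :=
  haveI := 𝔭.isMaximal
  (Ideal.exists_prime_and_absNorm_eq_pow 𝔭.asIdeal).choose_spec

/-- For a prime of non-prime norm, `N𝔭 ≥ p²`. -/
lemma sq_primeBelow_le (𝔭 : HeightOneSpectrum (𝓞 F)) (h : ¬ (absNorm 𝔭.asIdeal).Prime) :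
    primeBelow F 𝔭 ^ 2 ≤ absNorm 𝔭.asIdeal := by
  obtain ⟨n, hn, -, hp, hN⟩ := primeBelow_spec F 𝔭
  have hn2 : 2 ≤ n := by
    by_contra hlt
    have : n = 1 := by omega
    rw [this, pow_one] at hN
    exact h (hN ▸ hp)
  rw [hN]
  exact Nat.pow_le_pow_right hp.pos hn2

/-- the primes of non-prime norm -/
def highPrimes : Set (HeightOneSpectrum (𝓞 F)) := {𝔭 | ¬ (absNorm 𝔭.asIdeal).Prime}

/-- the constant bounding the contribution of the primes of degree `≥ 2` -/
def highBound : ℝ := (Module.finrank ℤ (𝓞 F) : ℝ) * ∑' n : ℕ, ((n : ℝ) ^ 2)⁻¹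

lemma summable_inv_sq : Summable (fun n : ℕ => ((n : ℝ) ^ 2)⁻¹) := by
  have := (Real.summable_nat_pow_inv (p := 2)).mpr (by norm_num)
  exact this

lemma sum_highPrimes_le {s : ℝ} (hs : 1 ≤ s) (T : Finset (HeightOneSpectrum (𝓞 F)))
    (hT : ∀ 𝔭 ∈ T, ¬ (absNorm 𝔭.asIdeal).Prime) :
    ∑ 𝔭 ∈ T, normPow F s 𝔭.asIdeal ≤ highBound F := by
  classical
  have h1 : ∀ 𝔭 ∈ T, normPow F s 𝔭.asIdeal ≤ (((primeBelow F 𝔭 : ℕ) : ℝ) ^ 2)⁻¹ := by
    intro 𝔭 h𝔭
    have hsq := sq_primeBelow_le F 𝔭 (hT 𝔭 h𝔭)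
    obtain ⟨n, hn, -, hp, hN⟩ := primeBelow_spec F 𝔭
    have hpos : (0 : ℝ) < (primeBelow F 𝔭 : ℝ) ^ 2 := by
      have : (0 : ℝ) < primeBelow F 𝔭 := by exact_mod_cast hp.pos
      positivity
    have hle : ((primeBelow F 𝔭 : ℝ)) ^ 2 ≤ (absNorm 𝔭.asIdeal : ℝ) := by exact_mod_cast hsq
    have h1N : (1 : ℝ) ≤ absNorm 𝔭.asIdeal := by
      have : (1 : ℝ) ≤ (primeBelow F 𝔭 : ℝ) ^ 2 := by
        have : (1 : ℝ) ≤ primeBelow F 𝔭 := by exact_mod_cast hp.one_lt.le
        nlinarith
      linarith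
    calc normPow F s 𝔭.asIdeal ≤ normPow F 1 𝔭.asIdeal :=
          normPow_anti F hs 𝔭.asIdeal one_pos
      _ = (absNorm 𝔭.asIdeal : ℝ)⁻¹ := by
          rw [normPow, Real.rpow_neg_one]
      _ ≤ (((primeBelow F 𝔭 : ℕ) : ℝ) ^ 2)⁻¹ := inv_anti₀ hpos hle
  calc ∑ 𝔭 ∈ T, normPow F s 𝔭.asIdeal
      ≤ ∑ 𝔭 ∈ T, (((primeBelow F 𝔭 : ℕ) : ℝ) ^ 2)⁻¹ := Finset.sum_le_sum h1
    _ = ∑ p ∈ T.image (primeBelow F),
          ∑ 𝔭 ∈ T.filter (fun 𝔭 => primeBelow F 𝔭 = p), (((primeBelow F 𝔭 : ℕ) : ℝ) ^ 2)⁻¹ := by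
        rw [Finset.sum_fiberwise_of_maps_to (fun 𝔭 h𝔭 => Finset.mem_image_of_mem _ h𝔭)]
    _ ≤ ∑ p ∈ T.image (primeBelow F), (Module.finrank ℤ (𝓞 F) : ℝ) * ((p : ℝ) ^ 2)⁻¹ := by
        refine Finset.sum_le_sum fun p hp => ?_
        obtain ⟨𝔮, h𝔮, rfl⟩ := Finset.mem_image.mp hp
        have hcard : (T.filter (fun 𝔭 => primeBelow F 𝔭 = primeBelow F 𝔮)).card ≤
            Module.finrank ℤ (𝓞 F) := by
          obtain ⟨n, -, -, hpr, -⟩ := primeBelow_spec F 𝔮
          refine card_le_of_natCast_mem F hpr _ fun 𝔭 h𝔭 => ?_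
          obtain ⟨-, h⟩ := Finset.mem_filter.mp h𝔭
          obtain ⟨m, -, hmem, -, -⟩ := primeBelow_spec F 𝔭
          rwa [h] at hmem
        calc ∑ 𝔭 ∈ T.filter (fun 𝔭 => primeBelow F 𝔭 = primeBelow F 𝔮),
              (((primeBelow F 𝔭 : ℕ) : ℝ) ^ 2)⁻¹
            = ∑ 𝔭 ∈ T.filter (fun 𝔭 => primeBelow F 𝔭 = primeBelow F 𝔮),
              (((primeBelow F 𝔮 : ℕ) : ℝ) ^ 2)⁻¹ := by
              refine Finset.sum_congr rfl fun 𝔭 h𝔭 => ?_
              rw [(Finset.mem_filter.mp h𝔭).2]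
          _ = ((T.filter (fun 𝔭 => primeBelow F 𝔭 = primeBelow F 𝔮)).card : ℝ) *
              (((primeBelow F 𝔮 : ℕ) : ℝ) ^ 2)⁻¹ := by
              rw [Finset.sum_const, nsmul_eq_mul]
          _ ≤ (Module.finrank ℤ (𝓞 F) : ℝ) * (((primeBelow F 𝔮 : ℕ) : ℝ) ^ 2)⁻¹ := by
              gcongr
    _ = (Module.finrank ℤ (𝓞 F) : ℝ) * ∑ p ∈ T.image (primeBelow F), ((p : ℝ) ^ 2)⁻¹ := by
        rw [Finset.mul_sum]
    _ ≤ highBound F := by
        rw [highBound]
        gcongr
        exact summable_inv_sq.sum_le_tsum _ (fun n _ => by positivity)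

lemma highBound_nonneg : 0 ≤ highBound F := by
  rw [highBound]
  have : 0 ≤ ∑' n : ℕ, ((n : ℝ) ^ 2)⁻¹ := tsum_nonneg fun n => by positivity
  positivity

/-- The primes of degree `≥ 2` contribute at most `highBound F`. -/
theorem tsum_highPrimes_le {s : ℝ} (hs : 1 < s) :
    ∑' 𝔭 : highPrimes F, normPow F s 𝔭.1.asIdeal ≤ highBound F := by
  classical
  have hsum : Summable (fun 𝔭 : highPrimes F => normPow F s 𝔭.1.asIdeal) :=
    (summable_primeSum F hs).subtype _
  refine hsum.tsum_le_of_sum_le fun T => ?_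
  have := sum_highPrimes_le F hs.le (T.image Subtype.val) (by
    intro 𝔭 h𝔭
    obtain ⟨x, -, rfl⟩ := Finset.mem_image.mp h𝔭
    exact x.2)
  rwa [Finset.sum_image (fun x _ y _ h => Subtype.ext h)] at this

/-- the primes of prime norm -/
def lowPrimes : Set (HeightOneSpectrum (𝓞 F)) := {𝔭 | (absNorm 𝔭.asIdeal).Prime}

/-- the norm map on primes of prime norm -/
def lowNorm (𝔭 : lowPrimes F) : Nat.Primes := ⟨absNorm 𝔭.1.asIdeal, 𝔭.2⟩

/-- the fibre of `lowNorm` is the set counted by `Spec.primeCount` -/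
def fibreEquiv (p : Nat.Primes) :
    {𝔭 : lowPrimes F // lowNorm F 𝔭 = p} ≃
      {𝔮 : Ideal (𝓞 F) // 𝔮.IsPrime ∧ Ideal.absNorm 𝔮 = (p : ℕ)} where
  toFun x := ⟨x.1.1.asIdeal, x.1.1.isPrime, congrArg Subtype.val x.2⟩
  invFun 𝔮 := ⟨⟨⟨𝔮.1, 𝔮.2.1, by
      rintro h
      have := 𝔮.2.2
      rw [h, Ideal.absNorm_bot] at this
      exact p.2.ne_zero this.symm⟩, by
      show (absNorm 𝔮.1).Prime
      rw [𝔮.2.2]; exact p.2⟩, Subtype.ext 𝔮.2.2⟩
  left_inv x := by
    apply Subtype.ext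
    apply Subtype.ext
    apply HeightOneSpectrum.ext
    rfl
  right_inv 𝔮 := by
    apply Subtype.ext
    rfl

end

noncomputable section Final

variable (F : Type) [Field F] [NumberField F]

lemma finite_fibre (p : Nat.Primes) : Finite {𝔭 : lowPrimes F // lowNorm F 𝔭 = p} := by
  have hfin : Finite {𝔮 : Ideal (𝓞 F) // 𝔮.IsPrime ∧ Ideal.absNorm 𝔮 = (p : ℕ)} :=
    ((Ideal.finite_setOfPred_absNorm_eq (S := 𝓞 F) (p : ℕ)).subset
      (fun 𝔮 h𝔮 => h𝔮.2)).to_subtype
  exact Finite.of_equiv _ (fibreEquiv F p).symm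

lemma card_fibre (p : Nat.Primes) :
    Nat.card {𝔭 : lowPrimes F // lowNorm F 𝔭 = p} = Spec.primeCount F p :=
  Nat.card_congr (fibreEquiv F p)

lemma tsum_fibre (s : ℝ) (p : Nat.Primes) :
    ∑' x : {𝔭 : lowPrimes F // lowNorm F 𝔭 = p}, normPow F s x.1.1.asIdeal =
      (Spec.primeCount F p : ℝ) * ((p : ℕ) : ℝ) ^ (-s) := by
  have := finite_fibre F p
  have : Fintype {𝔭 : lowPrimes F // lowNorm F 𝔭 = p} := Fintype.ofFinite _
  rw [tsum_fintype]
  have h : ∀ x : {𝔭 : lowPrimes F // lowNorm F 𝔭 = p},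
      normPow F s x.1.1.asIdeal = ((p : ℕ) : ℝ) ^ (-s) := by
    intro x
    have := congrArg Subtype.val x.2
    simp only [lowNorm] at this
    simp only [normPow, this]
  simp only [h, Finset.sum_const, Finset.card_univ, nsmul_eq_mul, ← card_fibre F p,
    Nat.card_eq_fintype_card]

/-- The sum over the primes of prime norm, indexed by the rational primes. -/
theorem tsum_lowPrimes_eq {s : ℝ} (hs : 1 < s) :
    ∑' 𝔭 : lowPrimes F, normPow F s 𝔭.1.asIdeal =
      ∑' p : Nat.Primes, (Spec.primeCount F p : ℝ) * ((p : ℕ) : ℝ) ^ (-s) := by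
  have hsum : Summable (fun 𝔭 : lowPrimes F => normPow F s 𝔭.1.asIdeal) :=
    (summable_primeSum F hs).subtype _
  have hsum' : Summable (fun y : Σ p : Nat.Primes, {𝔭 : lowPrimes F // lowNorm F 𝔭 = p} =>
      normPow F s y.2.1.1.asIdeal) :=
    ((Equiv.sigmaFiberEquiv (lowNorm F)).summable_iff
      (f := fun 𝔭 : lowPrimes F => normPow F s 𝔭.1.asIdeal)).mpr hsum
  calc ∑' 𝔭 : lowPrimes F, normPow F s 𝔭.1.asIdeal
      = ∑' y : Σ p : Nat.Primes, {𝔭 : lowPrimes F // lowNorm F 𝔭 = p},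
          normPow F s y.2.1.1.asIdeal :=
        ((Equiv.sigmaFiberEquiv (lowNorm F)).tsum_eq
          (fun 𝔭 : lowPrimes F => normPow F s 𝔭.1.asIdeal)).symm
    _ = ∑' p : Nat.Primes, ∑' x : {𝔭 : lowPrimes F // lowNorm F 𝔭 = p},
          normPow F s x.1.1.asIdeal := hsum'.tsum_sigma
    _ = _ := tsum_congr fun p => tsum_fibre F s p

/-- **Piece Z**: `Spec.PrimeSumStatement`. -/
theorem primeSum_statement : Spec.PrimeSumStatement := by
  intro F _ _
  obtain ⟨C, hC⟩ := exists_primeSum_bound F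
  refine ⟨C + highBound F, fun s hs1 hs2 => ?_⟩
  have h1 := hC s hs1 hs2
  have hsum := summable_primeSum F hs1
  have hsplit : primeSum F s =
      (∑' 𝔭 : lowPrimes F, normPow F s 𝔭.1.asIdeal) +
        ∑' 𝔭 : highPrimes F, normPow F s 𝔭.1.asIdeal := by
    have hc : highPrimes F = (lowPrimes F)ᶜ := rfl
    rw [primeSum, hc]
    exact ((hsum.subtype _).tsum_add_tsum_compl (hsum.subtype _)).symm
  have hhigh := tsum_highPrimes_le F hs1
  have hhigh0 : 0 ≤ ∑' 𝔭 : highPrimes F, normPow F s 𝔭.1.asIdeal :=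
    tsum_nonneg fun _ => normPow_nonneg F s _
  have hlog : Real.log (1 / (s - 1)) = -Real.log (s - 1) := by
    rw [one_div, Real.log_inv]
  rw [← tsum_lowPrimes_eq F hs1, hlog]
  rw [abs_le] at h1 ⊢
  rw [hsplit] at h1
  constructor <;> linarith [h1.1, h1.2]

end Final

end Fermat.Agent.Lib.Cheb.H761

end
-- ===== PACK-END Lib/Cheb/H761/PrimeSum.lean

-- ===== PACK-BEGIN Lib/Cheb/H761/PrimeCountBound.lean
section


/-!
# Piece B0 of the shared library CHEB: `Spec.PrimeCountBoundStatement`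

There are at most `[F : ℚ]` prime ideals of `𝓞 F` of any given norm.
-/

set_option autoImplicit false

namespace Fermat.Agent.Lib.Cheb.H761

open IsDedekindDomain NumberField Ideal

/-- A nonzero prime ideal of norm `n` contains the least prime factor of `n`. -/
lemma minFac_mem_of_absNorm_eq {F : Type} [Field F] [NumberField F]
    (𝔭 : HeightOneSpectrum (𝓞 F)) : ((absNorm 𝔭.asIdeal).minFac : 𝓞 F) ∈ 𝔭.asIdeal := by
  have := 𝔭.isMaximal
  obtain ⟨p, n, hn, hmem, hp, hN⟩ := Ideal.exists_prime_and_absNorm_eq_pow 𝔭.asIdeal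
  rw [hN, hp.pow_minFac hn.ne']
  exact hmem

/-- **Piece B0**: `Spec.PrimeCountBoundStatement`. -/
theorem primeCountBound_statement : Spec.PrimeCountBoundStatement := by
  classical
  intro F _ _ p
  rw [Spec.primeCount]
  have hfinset : {𝔮 : Ideal (𝓞 F) | 𝔮.IsPrime ∧ Ideal.absNorm 𝔮 = p}.Finite :=
    (Ideal.finite_setOfPred_absNorm_eq (S := 𝓞 F) p).subset (fun 𝔮 h𝔮 => h𝔮.2)
  have hd : 1 ≤ Module.finrank ℚ F := Module.finrank_pos
  rcases Nat.eq_zero_or_pos p with rfl | hp0
  · -- only the zero ideal has norm `0`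
    have hsub : Subsingleton {𝔮 : Ideal (𝓞 F) // 𝔮.IsPrime ∧ Ideal.absNorm 𝔮 = 0} := by
      refine ⟨fun a b => Subtype.ext ?_⟩
      rw [Ideal.absNorm_eq_zero_iff.mp a.2.2, Ideal.absNorm_eq_zero_iff.mp b.2.2]
    exact (Finite.card_le_one_iff_subsingleton.mpr hsub).trans hd
  · have hfin : Finite {𝔮 : Ideal (𝓞 F) // 𝔮.IsPrime ∧ Ideal.absNorm 𝔮 = p} :=
      hfinset.to_subtype
    have : Fintype {𝔮 : Ideal (𝓞 F) // 𝔮.IsPrime ∧ Ideal.absNorm 𝔮 = p} := Fintype.ofFinite _
    rw [Nat.card_eq_fintype_card]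
    by_cases hne : Nonempty {𝔮 : Ideal (𝓞 F) // 𝔮.IsPrime ∧ Ideal.absNorm 𝔮 = p}
    · -- every such prime contains `p.minFac`, which is prime
      let ι : {𝔮 : Ideal (𝓞 F) // 𝔮.IsPrime ∧ Ideal.absNorm 𝔮 = p} → HeightOneSpectrum (𝓞 F) :=
        fun 𝔮 => ⟨𝔮.1, 𝔮.2.1, by
          rintro h
          have := 𝔮.2.2
          rw [h, Ideal.absNorm_bot] at this
          omega⟩
      have hι : Function.Injective ι := by
        intro a b h
        apply Subtype.ext
        exact congrArg HeightOneSpectrum.asIdeal h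
      have hp1 : p ≠ 1 := by
        rintro rfl
        obtain ⟨𝔮⟩ := hne
        exact 𝔮.2.1.ne_top (Ideal.absNorm_eq_one_iff.mp 𝔮.2.2)
      have hprime : p.minFac.Prime := Nat.minFac_prime hp1
      have hcard := card_le_of_natCast_mem F hprime (Finset.univ.image ι) (by
        intro 𝔭 h𝔭
        obtain ⟨𝔮, -, rfl⟩ := Finset.mem_image.mp h𝔭
        have := minFac_mem_of_absNorm_eq (ι 𝔮)
        have hN : absNorm (ι 𝔮).asIdeal = p := 𝔮.2.2
        rwa [hN] at this)
      rw [Finset.card_image_of_injective _ hι, Finset.card_univ,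
        NumberField.RingOfIntegers.rank] at hcard
      exact hcard
    · rw [not_nonempty_iff] at hne
      rw [Fintype.card_eq_zero]
      exact Nat.zero_le _

end Fermat.Agent.Lib.Cheb.H761

end
-- ===== PACK-END Lib/Cheb/H761/PrimeCountBound.lean

-- ===== PACK-BEGIN Lib/Cheb/H993/Glue.lean
section



/-!
# Piece `M` of CHEB: the finite-level Frobenius density theorem from `Z`, `B0`, `A`, `D`

`frobFinite : PrimeSumStatement → PrimeCountBoundStatement → CountStatement → FrobStatement →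
  FrobFiniteStatement`.
-/

set_option autoImplicit false

namespace Fermat.Agent.Lib.Cheb.H993

open NumberField
open scoped Pointwise Classical
open Fermat.Agent.Lib.Cheb

noncomputable section

variable (L : Type) [Field L] [NumberField L]

/-- The primes of `𝓞 L` above `p` whose decomposition group is exactly `X`. -/
def primesEq (X : Subgroup (L ≃ₐ[ℚ] L)) (p : ℕ) : Set (Ideal (𝓞 L)) :=
  {P | P.IsPrime ∧ (p : 𝓞 L) ∈ P ∧ Spec.decomp L P = X}

/-- `|D_P|`. -/
def dcard (P : Ideal (𝓞 L)) : ℕ := Nat.card (Spec.decomp L P)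

theorem finite_above {p : ℕ} (hp : p ≠ 0) : {P : Ideal (𝓞 L) | (p : 𝓞 L) ∈ P}.Finite := by
  refine (Ideal.finite_setOfPred_absNorm_le (S := 𝓞 L) (p ^ Module.finrank ℤ (𝓞 L))).subset ?_
  intro P hP
  have hle : Ideal.span {(p : 𝓞 L)} ≤ P := (Ideal.span_singleton_le_iff_mem P).mpr hP
  have hdvd := Ideal.absNorm_dvd_absNorm_of_le hle
  rw [Ideal.absNorm_span_natCast] at hdvd
  exact Nat.le_of_dvd (pow_pos (Nat.pos_of_ne_zero hp) _) hdvd

theorem finite_primesEq (X : Subgroup (L ≃ₐ[ℚ] L)) {p : ℕ} (hp : p ≠ 0) :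
    (primesEq L X p).Finite :=
  (finite_above L hp).subset fun _ h => h.2.1

theorem finite_primesLe (H : Subgroup (L ≃ₐ[ℚ] L)) {p : ℕ} (hp : p ≠ 0) :
    (Spec.primesLe L H p).Finite :=
  (finite_above L hp).subset fun _ h => h.2.1

/-- The weight of the subgroup `X` at `p`. -/
def wt (X : Subgroup (L ≃ₐ[ℚ] L)) (p : ℕ) : ℕ := ∑ᶠ P ∈ primesEq L X p, dcard L P

theorem decompWeight_eq (H : Subgroup (L ≃ₐ[ℚ] L)) (p : ℕ) :
    Spec.decompWeight L H p = ∑ᶠ P ∈ Spec.primesLe L H p, dcard L P := by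
  unfold Spec.decompWeight dcard
  exact finsum_set_coe_eq_finsum_mem (s := Spec.primesLe L H p)
    (f := fun P => Nat.card (Spec.decomp L P))

variable [IsGalois ℚ L]

theorem primesLe_eq_iUnion (H : Subgroup (L ≃ₐ[ℚ] L)) (p : ℕ) :
    Spec.primesLe L H p = ⋃ X ∈ (below H : Set (Subgroup (L ≃ₐ[ℚ] L))), primesEq L X p := by
  ext P
  simp only [Spec.primesLe, primesEq, Set.mem_iUnion, Finset.mem_coe, mem_below,
    Set.mem_ofPred_eq, exists_prop]
  constructor
  · rintro ⟨h1, h2, h3⟩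
    exact ⟨_, h3, h1, h2, rfl⟩
  · rintro ⟨X, hX, h1, h2, h3⟩
    exact ⟨h1, h2, h3 ▸ hX⟩

theorem decompWeight_eq_sum (H : Subgroup (L ≃ₐ[ℚ] L)) {p : ℕ} (hp : p ≠ 0) :
    Spec.decompWeight L H p = ∑ X ∈ below H, wt L X p := by
  rw [decompWeight_eq, primesLe_eq_iUnion, finsum_mem_biUnion]
  · exact finsum_mem_coe_finset (fun X => ∑ᶠ P ∈ primesEq L X p, dcard L P) (below H)
  · intro X _ Y _ hXY
    rw [Function.onFun, Set.disjoint_left]
    intro P hPX hPY
    exact hXY (hPX.2.2.symm.trans hPY.2.2)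
  · exact (below H).finite_toSet
  · intro X _
    exact finite_primesEq L X hp

theorem exists_of_wt_pos {X : Subgroup (L ≃ₐ[ℚ] L)} {p : ℕ} (h : 0 < wt L X p) :
    ∃ P : Ideal (𝓞 L), P.IsPrime ∧ (p : 𝓞 L) ∈ P ∧ Spec.decomp L P = X := by
  by_contra hcon
  have hempty : primesEq L X p = ∅ := by
    ext P
    simp only [primesEq, Set.mem_ofPred_eq, Set.mem_empty_iff_false, iff_false]
    exact fun hP => hcon ⟨P, hP⟩
  unfold wt at h
  rw [hempty] at h
  simp at h

theorem wt_le_decompWeight_top (X : Subgroup (L ≃ₐ[ℚ] L)) {p : ℕ} (hp : p ≠ 0) :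
    wt L X p ≤ Spec.decompWeight L ⊤ p := by
  rw [decompWeight_eq_sum L ⊤ hp]
  exact Finset.single_le_sum (f := fun X => wt L X p) (fun _ _ => Nat.zero_le _)
    (mem_below.mpr le_top)

/-- **Piece M.** -/
theorem frobFinite (hZ : Spec.PrimeSumStatement) (hB0 : Spec.PrimeCountBoundStatement)
    (hA : Spec.CountStatement) (hD : Spec.FrobStatement) : Spec.FrobFiniteStatement := by
  intro L _ _ _ σ S
  haveI : Fintype (Subgroup (L ≃ₐ[ℚ] L)) := Fintype.ofFinite _
  -- bad primes
  choose BA hBA using fun H : Subgroup (L ≃ₐ[ℚ] L) => hA L H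
  obtain ⟨BD, hBD⟩ := hD L
  let Bad : Finset ℕ := Finset.univ.biUnion BA
  have hBad : ∀ (H : Subgroup (L ≃ₐ[ℚ] L)) (p : ℕ), p ∉ Bad → p ∉ BA H := by
    intro H p hp hpH
    exact hp (Finset.mem_biUnion.mpr ⟨H, Finset.mem_univ _, hpH⟩)
  -- weights
  let v : Subgroup (L ≃ₐ[ℚ] L) → ℕ → ℝ := fun X p =>
    if p.Prime ∧ p ∉ Bad then (wt L X p : ℝ) else 0
  let K : ℝ := (Module.finrank ℚ (IntermediateField.fixedField (⊤ : Subgroup (L ≃ₐ[ℚ] L))) : ℝ) *
    (Nat.card (⊤ : Subgroup (L ≃ₐ[ℚ] L)) : ℝ)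
  have hv0 : ∀ X p, 0 ≤ v X p := by
    intro X p
    simp only [v]
    split_ifs
    · exact Nat.cast_nonneg _
    · exact le_rfl
  have hK0 : 0 ≤ K := by positivity
  have hvK : ∀ X p, v X p ≤ K := by
    intro X p
    simp only [v]
    split_ifs with h
    · have h1 := wt_le_decompWeight_top L X h.1.ne_zero
      have h2 := hBA ⊤ p h.1 (hBad ⊤ p h.2)
      have h3 := hB0 (IntermediateField.fixedField (⊤ : Subgroup (L ≃ₐ[ℚ] L))) p
      have h4 : wt L X p ≤ Module.finrank ℚ (IntermediateField.fixedField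
          (⊤ : Subgroup (L ≃ₐ[ℚ] L))) * Nat.card (⊤ : Subgroup (L ≃ₐ[ℚ] L)) := by
        rw [← h2] at h1
        exact h1.trans (Nat.mul_le_mul_right _ h3)
      simp only [K]
      exact_mod_cast h4
    · exact hK0
  -- the hypothesis of the induction
  have hW : ∀ H : Subgroup (L ≃ₐ[ℚ] L),
      LogAsymp (pSum (fun p => ∑ X ∈ below H, v X p)) (Nat.card H) := by
    intro H
    set F := IntermediateField.fixedField H with hF
    obtain ⟨C, hC⟩ := hZ F
    -- full prime sum of `primeCount F`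
    have h1 : LogAsymp (pSum (fun p => (Spec.primeCount F p : ℝ))) 1 := by
      refine ⟨C, fun s hs1 hs2 => ?_⟩
      rw [one_mul]
      exact hC s hs1 hs2
    -- the part supported on the bad primes
    let b : ℕ → ℝ := fun p => if p ∈ Bad then (Spec.primeCount F p : ℝ) else 0
    have hb0 : ∀ p, 0 ≤ b p := fun p => by
      simp only [b]; split_ifs
      · exact Nat.cast_nonneg _
      · exact le_rfl
    have hbK : ∀ p, b p ≤ (Module.finrank ℚ F : ℝ) := fun p => by
      simp only [b]; split_ifs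
      · exact_mod_cast hB0 F p
      · exact Nat.cast_nonneg _
    have h2 : LogAsymp (pSum b) 0 :=
      LogAsymp.zero_of_bounded (K := (Module.finrank ℚ F : ℝ) * Bad.card) fun s hs1 _ =>
        abs_pSum_le_of_support Bad hb0 hbK (fun p hp => by simp [b, hp]) hs1
    have h3 := (h1.sub h2).const_mul (Nat.card H : ℝ)
    rw [sub_zero, mul_one] at h3
    refine h3.congr fun s hs1 _ => ?_
    -- pointwise identity of the coefficients at primes
    have hc0 : ∀ p, 0 ≤ (Spec.primeCount F p : ℝ) := fun p => Nat.cast_nonneg _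
    have hcK : ∀ p, (Spec.primeCount F p : ℝ) ≤ (Module.finrank ℚ F : ℝ) := fun p => by
      exact_mod_cast hB0 F p
    have hs1' := summable_pSum hc0 hcK hs1
    have hs2' := summable_pSum hb0 hbK hs1
    unfold pSum
    rw [← Summable.tsum_sub hs1' hs2', ← tsum_mul_left]
    congr 1
    funext p
    by_cases hp : (p : ℕ) ∈ Bad
    · have hv : ∀ X, v X p = 0 := fun X => by simp [v, hp]
      simp [hv, b, hp]
    · have hv : ∀ X, v X p = (wt L X p : ℝ) := fun X => by simp [v, hp, p.2]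
      have h5 := decompWeight_eq_sum L H p.2.ne_zero
      have h6 := hBA H p p.2 (hBad H p hp)
      simp only [hv, b, hp, if_false, sub_zero]
      rw [← Nat.cast_sum, ← h5, ← h6]
      push_cast
      ring
  -- apply the induction to `X = zpowers σ`
  have hgens : 0 < gens (Subgroup.zpowers σ) := by
    unfold gens
    haveI : Nonempty {x : L ≃ₐ[ℚ] L // Subgroup.zpowers x = Subgroup.zpowers σ} := ⟨⟨σ, rfl⟩⟩
    exact Nat.card_pos
  obtain ⟨p, hp, hpS, hpos⟩ :=
    exists_pos_of_gens_pos v K hv0 hvK hW (Subgroup.zpowers σ) hgens (S ∪ Bad ∪ BD)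
  have hpS' : p ∉ S := fun h => hpS (Finset.mem_union_left _ (Finset.mem_union_left _ h))
  have hpBad : p ∉ Bad := fun h => hpS (Finset.mem_union_left _ (Finset.mem_union_right _ h))
  have hpBD : p ∉ BD := fun h => hpS (Finset.mem_union_right _ h)
  have hwt : 0 < wt L (Subgroup.zpowers σ) p := by
    have : v (Subgroup.zpowers σ) p = (wt L (Subgroup.zpowers σ) p : ℝ) := by
      simp [v, hp, hpBad]
    rw [this] at hpos
    exact_mod_cast hpos
  obtain ⟨P, hP, hpP, hdec⟩ := exists_of_wt_pos L hwt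
  obtain ⟨hin, τ, hτ, hτd⟩ := hBD p hp hpBD P hP hpP
  exact ⟨p, P, τ, hp, hpS', hP, hpP, hin, hτ, hτd.symm.trans hdec⟩

end

end Fermat.Agent.Lib.Cheb.H993

end
-- ===== PACK-END Lib/Cheb/H993/Glue.lean

-- ===== PACK-BEGIN S37/Red/H160/DatumBasic.lean
section




/-!
# S37-RED (helper160): basic facts on a reduction datum `G : Datum A π F Fk`

* `ker_π`, `ρ_eq_zero_iff` : kernels of `π` and `ρ` are the maximal ideals;
* `inv_mem` : elements of `O` with nonzero reduction are units of `O`;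
* `mem_of_algebraMap_mem` : `O ∩ K = A`;
* `aeval_mem`, `ρ_aeval` : polynomials over `A` in `t ∈ O` lie in `O`, and reduce coefficientwise;
* `valAt_iff_ord_pos`, `valAt_unique` : on helper40's `ValAt`.
-/

set_option autoImplicit false

noncomputable section

namespace Fermat.Agent.S37.Red.H160

open AlgebraicCurve Polynomial IntermediateField
open Fermat.Agent.S37.Red

universe u

section Datum

variable {K k F Fk : Type u} [Field K] [Field k] [Field F] [Field Fk]
  [Algebra K F] [Algebra k Fk] {A : ValuationSubring K} {π : A →+* k} (G : Datum A π F Fk)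

include G in
theorem ker_π (a : A) : π a = 0 ↔ a ∈ IsLocalRing.maximalIdeal A := by
  have hmax := RingHom.ker_isMaximal_of_surjective π G.π_surj
  rw [← IsLocalRing.eq_maximalIdeal hmax, RingHom.mem_ker]

theorem ρ_eq_zero_iff (f : G.O) : G.ρ f = 0 ↔ f ∈ IsLocalRing.maximalIdeal G.O := by
  have hmax := RingHom.ker_isMaximal_of_surjective G.ρ G.ρ_surj
  rw [← IsLocalRing.eq_maximalIdeal hmax, RingHom.mem_ker]

theorem isUnit_of_ρ_ne_zero {f : G.O} (h : G.ρ f ≠ 0) : IsUnit f := by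
  by_contra hu
  exact h ((ρ_eq_zero_iff G f).mpr ((IsLocalRing.mem_maximalIdeal f).mpr hu))

theorem inv_mem {y : F} (hy : y ∈ G.O) (h : G.ρ ⟨y, hy⟩ ≠ 0) : y⁻¹ ∈ G.O := by
  obtain ⟨u, hu⟩ := isUnit_of_ρ_ne_zero G h
  have h1 : ((u⁻¹ : G.Oˣ) : G.O) * ⟨y, hy⟩ = 1 := by rw [← hu]; simp
  have h2 : (((u⁻¹ : G.Oˣ) : G.O) : F) * y = 1 := by
    have := congrArg Subtype.val h1
    simpa using this
  have hy0 : y ≠ 0 := by
    rintro rfl
    rw [mul_zero] at h2
    exact zero_ne_one h2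
  have h3 : y⁻¹ = (((u⁻¹ : G.Oˣ) : G.O) : F) := by
    field_simp
    rw [mul_comm]
    exact h2.symm
  rw [h3]
  exact ((u⁻¹ : G.Oˣ) : G.O).2

theorem ρ_inv {y : F} (hy : y ∈ G.O) (h : G.ρ ⟨y, hy⟩ ≠ 0) :
    G.ρ ⟨y⁻¹, inv_mem G hy h⟩ = (G.ρ ⟨y, hy⟩)⁻¹ := by
  have hy0 : y ≠ 0 := by
    rintro rfl
    apply h
    have : (⟨0, hy⟩ : G.O) = 0 := rfl
    rw [this, map_zero]
  have h1 : (⟨y⁻¹, inv_mem G hy h⟩ : G.O) * ⟨y, hy⟩ = 1 := by
    apply Subtype.ext
    simp [hy0]
  have h2 := congrArg G.ρ h1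
  rw [map_mul, map_one] at h2
  exact eq_inv_of_mul_eq_one_left h2

/-- `O ∩ K = A`. -/
theorem mem_of_algebraMap_mem {u : K} (h : algebraMap K F u ∈ G.O) : u ∈ A := by
  by_contra hu
  have hinv : u⁻¹ ∈ A := (A.mem_or_inv_mem u).resolve_left hu
  have hu0 : u ≠ 0 := by
    rintro rfl
    exact hu A.zero_mem
  have hker : π ⟨u⁻¹, hinv⟩ = 0 := by
    rw [ker_π G, IsLocalRing.mem_maximalIdeal, mem_nonunits_iff]
    rintro ⟨w, hw⟩
    apply hu
    have h1 : ((w⁻¹ : Aˣ) : A) * ⟨u⁻¹, hinv⟩ = 1 := by rw [← hw]; simp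
    have h2 : (((w⁻¹ : Aˣ) : A) : K) * u⁻¹ = 1 := by
      have := congrArg Subtype.val h1
      simpa using this
    have h3 : (((w⁻¹ : Aˣ) : A) : K) = u := by
      field_simp at h2
      exact h2
    rw [← h3]
    exact ((w⁻¹ : Aˣ) : A).2
  have h1 := G.ρ_const ⟨u⁻¹, hinv⟩
  rw [hker, map_zero] at h1
  have h2 : (⟨algebraMap K F u, h⟩ : G.O) * ⟨algebraMap K F (u⁻¹), G.const_mem ⟨u⁻¹, hinv⟩⟩ = 1 := by
    apply Subtype.ext
    simp [hu0]
  have h3 := congrArg G.ρ h2
  rw [map_mul, h1, mul_zero, map_one] at h3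
  exact zero_ne_one h3

/-- The inclusion `A → O`. -/
def constHom : A →+* G.O where
  toFun a := ⟨algebraMap K F (a : K), G.const_mem a⟩
  map_one' := by apply Subtype.ext; simp
  map_mul' a b := by apply Subtype.ext; simp
  map_zero' := by apply Subtype.ext; simp
  map_add' a b := by apply Subtype.ext; simp

theorem ρ_comp_constHom : G.ρ.comp (constHom G) = (algebraMap k Fk).comp π := by
  ext a
  exact G.ρ_const a

theorem coe_eval₂_constHom {t : F} (ht : t ∈ G.O) (p : A[X]) :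
    ((eval₂ (constHom G) ⟨t, ht⟩ p : G.O) : F) = aeval t (p.map A.subtype) := by
  have h := hom_eval₂ p (constHom G) G.O.subtype ⟨t, ht⟩
  rw [aeval_def, eval₂_map]
  exact h

theorem aeval_mem {t : F} (ht : t ∈ G.O) (p : A[X]) : aeval t (p.map A.subtype) ∈ G.O := by
  rw [← coe_eval₂_constHom G ht p]
  exact (eval₂ (constHom G) ⟨t, ht⟩ p).2

theorem ρ_aeval {t : F} (ht : t ∈ G.O) (p : A[X]) :
    G.ρ ⟨aeval t (p.map A.subtype), aeval_mem G ht p⟩ = aeval (G.ρ ⟨t, ht⟩) (p.map π) := by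
  have h1 : (⟨aeval t (p.map A.subtype), aeval_mem G ht p⟩ : G.O)
      = eval₂ (constHom G) ⟨t, ht⟩ p := Subtype.ext (coe_eval₂_constHom G ht p).symm
  rw [h1, hom_eval₂, ρ_comp_constHom, aeval_def, eval₂_map]

theorem red_of_mem {f : F} (hf : f ∈ G.O) : G.red f = G.ρ ⟨f, hf⟩ := by
  simp [Datum.red, hf]

/-- A coordinate with transcendental reduction is transcendental. -/
theorem transcendental_of_red [IsAlgClosed K] {t : F} (ht : t ∈ G.O)
    (htb : Transcendental k (G.red t)) : Transcendental K t := by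
  intro halg
  obtain ⟨u, hu⟩ := Fermat.Agent.S24.FF.mem_range_of_isAlgebraic halg
  apply htb
  have hu' : algebraMap K F u = t := hu
  have huO : algebraMap K F u ∈ G.O := hu' ▸ ht
  have huA := mem_of_algebraMap_mem G huO
  have h1 := G.ρ_const ⟨u, huA⟩
  have h2 : G.red t = algebraMap k Fk (π ⟨u, huA⟩) := by
    rw [red_of_mem G ht, ← h1]
    congr 1
    exact Subtype.ext hu'.symm
  rw [h2]
  exact isAlgebraic_algebraMap _

end Datum

section ValAt

variable {K F : Type u} [Field K] [Field F] [Algebra K F]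

theorem valAt_iff_mem_nonunits (P : Place K F) (f : F) (a : K) :
    ValAt P f a ↔ f - algebraMap K F a ∈ P.toValuationSubring.nonunits :=
  (ValuationSubring.mem_nonunits_iff _).symm

theorem valAt_iff_ord_pos (P : Place K F) {f : F} {a : K} (h : f - algebraMap K F a ≠ 0) :
    ValAt P f a ↔ 0 < P.ord (f - algebraMap K F a) := by
  rw [valAt_iff_mem_nonunits, Fermat.Agent.S24.FF.ord_pos_iff_mem_nonunits P h]

theorem valAt_unique (P : Place K F) {f : F} {a a' : K} (h : ValAt P f a) (h' : ValAt P f a') :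
    a = a' := by
  by_contra hne
  rw [valAt_iff_mem_nonunits] at h h'
  have h1 : algebraMap K F (a - a') ∈ P.toValuationSubring.nonunits := by
    have h2 : algebraMap K F (a - a') = (f - algebraMap K F a') - (f - algebraMap K F a) := by
      rw [map_sub]; ring
    rw [h2, ValuationSubring.mem_nonunits_iff] at *
    calc P.toValuationSubring.valuation ((f - algebraMap K F a') - (f - algebraMap K F a))
        ≤ max (P.toValuationSubring.valuation (f - algebraMap K F a'))
            (P.toValuationSubring.valuation (f - algebraMap K F a)) :=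
          Valuation.map_sub _ _ _
      _ < 1 := max_lt h' h
  have hne' : algebraMap K F (a - a') ≠ 0 := by
    rw [Ne, map_eq_zero, sub_eq_zero]
    exact hne
  have h3 := (Fermat.Agent.S24.FF.ord_pos_iff_mem_nonunits P hne').mpr h1
  rw [Fermat.Agent.S24.FF.ord_algebraMap] at h3
  exact lt_irrefl _ h3

end ValAt

end Fermat.Agent.S37.Red.H160

end
end
-- ===== PACK-END S37/Red/H160/DatumBasic.lean

-- ===== PACK-BEGIN S37/H217/Sat.lean
section



/-!
# Saturation (H4') from the degree equality (H1), abstract form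

Setting of `NormRed.lean` (`G : RedCtx A π F Fk`, `t ∈ O`, `t̄` transcendental over `k`,
`[F : K(t)] = [F_k : k(t̄)] < ∞`).  Then every `f ∈ O` which is integral over `K[t]` is integral
over `A[t]` (`isIntegral_polyRing_of_isIntegral`): **the integral closure of `A[t]` in `F` is
`O ∩` (integral closure of `K[t]`)**.  No noetherian/discreteness hypothesis on `A`.

Also: `transcendental_of_rho` (`t` is transcendental over `K`), `coeff_mem_of_aeval_mem`
(`O ∩ K[t] = A[t]`), `exists_residBasis` (the lifted residue basis).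
-/

namespace Fermat.Agent.S37.H217

open IntermediateField Polynomial

open scoped IntermediateField.algebraAdjoinAdjoin

namespace RedCtx

variable {K k : Type*} [Field K] [Field k] {A : ValuationSubring K} {π : A →+* k}
  {F Fk : Type*} [Field F] [Field Fk] [Algebra K F] [Algebra k Fk] (G : RedCtx A π F Fk)

variable {t : F} (ht : t ∈ G.O) (htr : Transcendental k (G.ρ ⟨t, ht⟩))

include htr in
/-- `O ∩ K[t] = A[t]`: a polynomial over `K` whose value at `t` lies in `O` has coefficients in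
`A`. -/
theorem coeff_mem_of_aeval_mem (P : K[X]) (hP : aeval t P ∈ G.O) (i : ℕ) : P.coeff i ∈ A := by
  by_cases hP0 : P = 0
  · rw [hP0, coeff_zero]; exact A.zero_mem
  obtain ⟨c, P₁, hc, hPc, hP₁⟩ := exists_primitive π P hP0
  set R₁ : G.O := G.evalO ⟨t, ht⟩ P₁ with hR₁
  have hRu : (R₁ : F) ∉ G.O.nonunits := G.evalO_notMem_nonunits ht htr hP₁
  have hR0 : (R₁ : F) ≠ 0 := fun h => hRu (h ▸ G.O.nonunits.zero_mem)
  have hRinv : (R₁ : F)⁻¹ ∈ G.O := by
    rcases G.O.mem_or_inv_mem (R₁ : F) with h | h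
    · by_contra hn
      apply hRu
      rw [ValuationSubring.mem_nonunits_iff_or]
      exact Or.inr hn
    · exact h
  have hval : aeval t P = algebraMap K F c * (R₁ : F) := by
    rw [hR₁, G.coe_evalO, hPc, map_mul, aeval_C]
  have hcO : algebraMap K F c ∈ G.O := by
    have : algebraMap K F c = aeval t P * (R₁ : F)⁻¹ := by
      rw [hval]; field_simp
    rw [this]
    exact G.O.mul_mem _ _ hP hRinv
  have hcA : c ∈ A := G.mem_of_algebraMap_mem hcO
  rw [hPc, coeff_C_mul, coeff_map]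
  exact A.mul_mem _ _ hcA (P₁.coeff i).2

include htr in
/-- `t` is transcendental over `K`. -/
theorem transcendental_of_rho : Transcendental K t := by
  rw [transcendental_iff]
  intro P hP
  by_contra hP0
  obtain ⟨c, P₁, hc, hPc, hP₁⟩ := exists_primitive π P hP0
  have hRu := G.evalO_notMem_nonunits ht htr hP₁
  apply hRu
  rw [G.coe_evalO]
  have h1 : aeval t P = algebraMap K F c * aeval t (P₁.map (algebraMap A K)) := by
    conv_lhs => rw [hPc]
    rw [map_mul, aeval_C]
  rw [hP] at h1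
  have h2 : aeval t (P₁.map (algebraMap A K)) = 0 := by
    rcases mul_eq_zero.mp h1.symm with h | h
    · exact absurd ((_root_.map_eq_zero _).mp h) hc
    · exact h
  rw [h2]
  exact G.O.nonunits.zero_mem

include htr in
/-- The lifted residue basis. -/
theorem exists_residBasis [FiniteDimensional K⟮t⟯ F] [FiniteDimensional k⟮G.ρ ⟨t, ht⟩⟯ Fk]
    (hfr : Module.finrank K⟮t⟯ F = Module.finrank k⟮G.ρ ⟨t, ht⟩⟯ Fk) :
    ∃ b : Module.Basis (Fin (Module.finrank k⟮G.ρ ⟨t, ht⟩⟯ Fk)) K⟮t⟯ F,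
      ResidIndep (G.V₀ t) G.O b ∧ ∀ i, b i ∈ G.O := by
  classical
  set b₁ := Module.finBasis k⟮G.ρ ⟨t, ht⟩⟯ Fk with hb₁def
  choose e he using fun i => G.ρ_surj (b₁ i)
  have hR : ResidIndep (G.V₀ t) G.O (fun i => ((e i : G.O) : F)) := by
    intro c hc hsum
    set s : G.O := ∑ i, G.incl t ⟨c i, hc i⟩ * e i with hs
    have hsF : (s : F) = ∑ i, c i • ((e i : G.O) : F) := by
      rw [hs, ← ValuationSubring.subtype_apply, map_sum]
      refine Finset.sum_congr rfl fun i _ => ?_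
      rw [map_mul, Algebra.smul_def]
      rfl
    have hρs : G.ρ s = 0 := by
      rw [G.ρ_eq_zero_iff, hsF]
      exact hsum
    have hρs' : ∑ i, G.ρ₀ ht htr ⟨c i, hc i⟩ • b₁ i = 0 := by
      rw [← hρs, hs, map_sum]
      refine Finset.sum_congr rfl fun i _ => ?_
      rw [map_mul, he, Algebra.smul_def]
      rfl
    have hzero := Fintype.linearIndependent_iff.mp b₁.linearIndependent _ hρs'
    intro i
    have h1 : G.ρ (G.incl t ⟨c i, hc i⟩) = 0 := by
      have := congrArg (fun z : k⟮G.ρ ⟨t, ht⟩⟯ => (z : Fk)) (hzero i)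
      simpa [coe_ρ₀] using this
    rw [G.ρ_eq_zero_iff, coe_incl] at h1
    exact ((G.valExtends t).mem_nonunits_iff (c i)).mp h1
  have : Nonempty (Fin (Module.finrank k⟮G.ρ ⟨t, ht⟩⟯ Fk)) :=
    ⟨⟨0, Module.finrank_pos⟩⟩
  obtain ⟨b, hb⟩ := exists_basis_of_residIndep hR (by rw [Fintype.card_fin, hfr])
  have hbi : ∀ i, b i = ((e i : G.O) : F) := fun i => congrFun hb i
  refine ⟨b, by rw [hb]; exact hR, fun i => by rw [hbi]; exact (e i).2⟩

/-- `A[t] ⊆ F` (the subring generated by the image of `A` and `t`). -/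
def polyRing (_G : RedCtx A π F Fk) (t : F) : Subring F :=
  A.toSubring.map (algebraMap K F) ⊔ Subring.closure {t}

theorem aeval_mem_polyRing (t : F) (P : K[X]) (hP : ∀ i, P.coeff i ∈ A) :
    aeval t P ∈ G.polyRing t := by
  rw [aeval_eq_sum_range]
  refine Subring.sum_mem _ fun i _ => ?_
  rw [Algebra.smul_def]
  refine Subring.mul_mem _ ?_ ?_
  · exact (le_sup_left : _ ≤ G.polyRing t) (Subring.mem_map.mpr ⟨_, hP i, rfl⟩)
  · exact Subring.pow_mem _
      ((le_sup_right : _ ≤ G.polyRing t) (Subring.subset_closure rfl)) _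

include htr in
/-- **Saturation (H4')**: an element of `O` integral over `K[t]` is integral over `A[t]`. -/
theorem isIntegral_polyRing_of_isIntegral [FiniteDimensional K⟮t⟯ F]
    [FiniteDimensional k⟮G.ρ ⟨t, ht⟩⟯ Fk]
    (hfr : Module.finrank K⟮t⟯ F = Module.finrank k⟮G.ρ ⟨t, ht⟩⟯ Fk)
    {f : F} (hfO : f ∈ G.O) (hf : IsIntegral (Algebra.adjoin K {t}) f) :
    IsIntegral (G.polyRing t) f := by
  classical
  have httr : Transcendental K t := G.transcendental_of_rho ht htr
  obtain ⟨b, hbR, hbO⟩ := G.exists_residBasis ht htr hfr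
  have : IsIntegrallyClosed (Algebra.adjoin K {t}) :=
    IsIntegrallyClosed.of_equiv (algEquivOfTranscendental K t httr).toRingEquiv
  have hmin : minpoly K⟮t⟯ f = (minpoly (Algebra.adjoin K {t}) f).map
      (algebraMap (Algebra.adjoin K {t}) K⟮t⟯) :=
    minpoly.isIntegrallyClosed_eq_field_fractions' K⟮t⟯ hf
  set q := minpoly (Algebra.adjoin K {t}) f with hq
  -- the coefficients of `q` lie in `A[t]`
  have hcoeff : ∀ i, ((q.coeff i : Algebra.adjoin K {t}) : F) ∈ G.polyRing t := by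
    intro i
    have h1 := minpoly_coeff_mem (G.valExtends t) b hbR hbO ⟨f, hfO⟩ i
    have h1' : (minpoly K⟮t⟯ f).coeff i ∈ G.V₀ t := h1
    rw [hmin, coeff_map] at h1'
    have h2 : ((q.coeff i : Algebra.adjoin K {t}) : F) ∈ G.O := h1'
    have h3 : ((q.coeff i : Algebra.adjoin K {t}) : F) ∈ (aeval (R := K) t).range := by
      rw [← Algebra.adjoin_singleton_eq_range_aeval]
      exact (q.coeff i).2
    obtain ⟨P, hP⟩ := h3
    have hP' : aeval t P = ((q.coeff i : Algebra.adjoin K {t}) : F) := hP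
    rw [← hP']
    rw [← hP'] at h2
    exact G.aeval_mem_polyRing t P (G.coeff_mem_of_aeval_mem ht htr P h2)
  -- lift `q` to a monic polynomial over `A[t]`
  set Q : F[X] := q.map (algebraMap (Algebra.adjoin K {t}) F) with hQ
  have hQmon : Q.Monic := (minpoly.monic hf).map _
  have hl : Q ∈ Polynomial.lifts (algebraMap (G.polyRing t) F) := by
    rw [Polynomial.lifts_iff_coeff_lifts]
    intro i
    refine ⟨⟨_, hcoeff i⟩, ?_⟩
    rw [hQ, coeff_map]
    rfl
  obtain ⟨q', hq', -, hq'm⟩ := Polynomial.lifts_and_degree_eq_and_monic hl hQmon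
  refine ⟨q', hq'm, ?_⟩
  have h4 : Polynomial.eval₂ (algebraMap (G.polyRing t) F) f q' = Polynomial.eval f Q := by
    rw [← hq', Polynomial.eval_map]
  rw [h4, hQ, Polynomial.eval_map]
  exact minpoly.aeval (Algebra.adjoin K {t}) f

end RedCtx

end Fermat.Agent.S37.H217

end
-- ===== PACK-END S37/H217/Sat.lean

-- ===== PACK-BEGIN S37/Red/H217/Sat.lean
section



/-!
# S37-RED, (H4') saturation is a CONSEQUENCE of (H1)  (helper217)

For a reduction datum `G : Red.Datum A π F Fk` (helper40's `Red/Spec.lean`), the two saturation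
fields `sat_fin`, `sat_inf` of `Datum.Good` follow from the degree equality
`[F : K(x)] = [F_k : k(x̄)] < ∞` alone (`sat_fin_of_finrank_eq`, `sat_inf_of_finrank_eq`);
`good_of` assembles `G.Good` from (H1) and (H3).  No noetherian hypothesis, no descent.
-/

set_option autoImplicit false

namespace Fermat.Agent.S37.Red.H217

open AlgebraicCurve IntermediateField Fermat.Agent.S37.H217

universe u

variable {K k : Type u} [Field K] [Field k] {A : ValuationSubring K} {π : A →+* k}
  {F Fk : Type u} [Field F] [Field Fk] [Algebra K F] [Algebra k Fk]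

/-- the abstract Gauss context underlying a datum -/
def toRedCtx (G : Datum A π F Fk) : RedCtx A π F Fk where
  π_surj := G.π_surj
  O := G.O
  ρ := G.ρ
  ρ_surj := G.ρ_surj
  const_mem := G.const_mem
  ρ_const := G.ρ_const

theorem mem_chart_iff (G : Datum A π F Fk) (t f : F) :
    f ∈ G.chart t ↔ IsIntegral (G.polyRing t) f := Iff.rfl

theorem mem_chartK_iff (G : Datum A π F Fk) (t f : F) :
    f ∈ G.chartK t ↔ IsIntegral (Algebra.adjoin K {t}) f := Iff.rfl

/-- saturation for an arbitrary coordinate `t ∈ O` with transcendental reduction and equal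
degrees -/
theorem sat_of_finrank_eq (G : Datum A π F Fk) {t : F} (ht : t ∈ G.O)
    (htr : Transcendental k (G.ρ ⟨t, ht⟩))
    [FiniteDimensional K⟮t⟯ F] [hk : FiniteDimensional k⟮G.ρ ⟨t, ht⟩⟯ Fk]
    (hfr : Module.finrank K⟮t⟯ F = Module.finrank k⟮G.ρ ⟨t, ht⟩⟯ Fk) :
    ∀ f ∈ G.O, f ∈ G.chartK t → f ∈ G.chart t := by
  intro f hfO hf
  rw [mem_chart_iff]
  rw [mem_chartK_iff] at hf
  have hk' : FiniteDimensional k⟮(toRedCtx G).ρ ⟨t, ht⟩⟯ Fk := hk
  exact (toRedCtx G).isIntegral_polyRing_of_isIntegral ht htr hfr hfO hf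

/-- **(H4') at the finite chart from (H1).** -/
theorem sat_fin_of_finrank_eq (G : Datum A π F Fk)
    [FiniteDimensional K⟮G.x⟯ F] [hk : FiniteDimensional k⟮G.xk⟯ Fk]
    (hfr : Module.finrank K⟮G.x⟯ F = Module.finrank k⟮G.xk⟯ Fk) :
    ∀ f ∈ G.O, f ∈ G.chartK G.x → f ∈ G.chart G.x := by
  have hk' : FiniteDimensional k⟮G.ρ ⟨G.x, G.x_mem⟩⟯ Fk := hk
  exact sat_of_finrank_eq G G.x_mem G.xk_transc hfr

theorem adjoin_inv_eq' {K F : Type*} [Field K] [Field F] [Algebra K F] (f : F) :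
    K⟮f⁻¹⟯ = K⟮f⟯ := by
  apply le_antisymm
  · rw [adjoin_simple_le_iff]
    exact inv_mem (mem_adjoin_simple_self K f)
  · rw [adjoin_simple_le_iff]
    have := inv_mem (mem_adjoin_simple_self K f⁻¹)
    rwa [inv_inv] at this

theorem xk_ne_zero (G : Datum A π F Fk) : G.xk ≠ 0 := by
  intro h
  have := G.xk_transc
  rw [show G.ρ ⟨G.x, G.x_mem⟩ = 0 from h] at this
  exact this (isAlgebraic_zero)

theorem x_inv_mem (G : Datum A π F Fk) : G.x⁻¹ ∈ G.O := by
  rcases G.O.mem_or_inv_mem G.x with h | h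
  · by_contra hn
    have hnon : G.x ∈ G.O.nonunits := by
      rw [ValuationSubring.mem_nonunits_iff_or]
      exact Or.inr hn
    have := ((toRedCtx G).ρ_eq_zero_iff ⟨G.x, G.x_mem⟩).mpr hnon
    exact xk_ne_zero G this
  · exact h

theorem ρ_x_inv (G : Datum A π F Fk) : G.ρ ⟨G.x⁻¹, x_inv_mem G⟩ = G.xk⁻¹ := by
  have hx0 : G.x ≠ 0 := by
    intro h
    apply xk_ne_zero G
    have : (⟨G.x, G.x_mem⟩ : G.O) = 0 := Subtype.ext h
    show G.ρ ⟨G.x, G.x_mem⟩ = 0
    rw [this, map_zero]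
  have h1 : (⟨G.x⁻¹, x_inv_mem G⟩ : G.O) * ⟨G.x, G.x_mem⟩ = 1 :=
    Subtype.ext (inv_mul_cancel₀ hx0)
  have h2 := congrArg G.ρ h1
  rw [map_mul, map_one] at h2
  exact eq_inv_of_mul_eq_one_left h2

/-- **(H4') at the chart at infinity from (H1).** -/
theorem sat_inf_of_finrank_eq (G : Datum A π F Fk)
    [hfin : FiniteDimensional K⟮G.x⟯ F] [hfink : FiniteDimensional k⟮G.xk⟯ Fk]
    (hfr : Module.finrank K⟮G.x⟯ F = Module.finrank k⟮G.xk⟯ Fk) :
    ∀ f ∈ G.O, f ∈ G.chartK G.x⁻¹ → f ∈ G.chart G.x⁻¹ := by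
  have hρ := ρ_x_inv G
  have htr : Transcendental k (G.ρ ⟨G.x⁻¹, x_inv_mem G⟩) := by
    rw [hρ]
    intro h
    apply G.xk_transc
    have := h.inv
    rwa [inv_inv] at this
  have : FiniteDimensional K⟮G.x⁻¹⟯ F := by
    rw [adjoin_inv_eq']; exact hfin
  have : FiniteDimensional k⟮G.ρ ⟨G.x⁻¹, x_inv_mem G⟩⟯ Fk := by
    rw [hρ, adjoin_inv_eq']; exact hfink
  have hfr' : Module.finrank K⟮G.x⁻¹⟯ F =
      Module.finrank k⟮G.ρ ⟨G.x⁻¹, x_inv_mem G⟩⟯ Fk := by
    rw [hρ, adjoin_inv_eq', adjoin_inv_eq']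
    exact hfr
  exact sat_of_finrank_eq G (x_inv_mem G) htr hfr'

/-- `G.Good` from (H1) and (H3) alone. -/
theorem good_of (G : Datum A π F Fk)
    (finite : FiniteDimensional K⟮G.x⟯ F) (finite_k : FiniteDimensional k⟮G.xk⟯ Fk)
    (sep_k : Algebra.IsSeparable k⟮G.xk⟯ Fk)
    (finrank_eq : Module.finrank K⟮G.x⟯ F = Module.finrank k⟮G.xk⟯ Fk)
    (lift_fin : ∀ c ∈ G.chartk G.xk, ∃ b ∈ G.chart G.x, ∃ hb : b ∈ G.O, G.ρ ⟨b, hb⟩ = c)
    (lift_inf : ∀ c ∈ G.chartk G.xk⁻¹, ∃ b ∈ G.chart G.x⁻¹, ∃ hb : b ∈ G.O, G.ρ ⟨b, hb⟩ = c) :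
    G.Good where
  finite := finite
  finite_k := finite_k
  sep_k := sep_k
  finrank_eq := finrank_eq
  lift_fin := lift_fin
  lift_inf := lift_inf
  sat_fin := sat_fin_of_finrank_eq G finrank_eq
  sat_inf := sat_inf_of_finrank_eq G finrank_eq

end Fermat.Agent.S37.Red.H217

end
-- ===== PACK-END S37/Red/H217/Sat.lean

-- ===== PACK-BEGIN S37/Red/H759/PassageDatum.lean
section
/-
S37-RED, piece E4(c) "passage R_E → A" for (H3), in the language of helper40's `Red/Spec.lean`
(helper759).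

* `lift_chart_of_levels` : for a reduction datum `G` on `(F_N, F_{N,k})` satisfying the `link`
  property of `Red.ModDatum`, (H3) at the level of all number fields `E ⊇ E₀`
  (`H759.LiftAtLevel`, `q`-expansion language) implies
      `∀ c ∈ G.chartk s, ∃ b ∈ G.chart t, ∃ hb : b ∈ G.O, G.ρ ⟨b, hb⟩ = c`.
* `lift_fin_of_levels`, `lift_inf_of_levels` : the fields `lift_fin`, `lift_inf` of `G.Good`.
-/




set_option autoImplicit false
set_option synthInstance.maxHeartbeats 400000

noncomputable section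

namespace Fermat.Agent.S37.Red.H759

open ModularCurve HahnSeries IsLocalRing IntermediateField

section Transfer

variable {R Ω : Type*} [CommRing R] [CommRing Ω]

/-- integrality is preserved by ring homomorphisms (subring form) -/
theorem isIntegral_map_subring (φ : R →+* Ω) (B : Subring R) {c : R} (hc : IsIntegral B c) :
    IsIntegral (B.map φ) (φ c) := by
  rw [isIntegral_subring_iff] at hc ⊢
  obtain ⟨P, hP, hcoeff, hPc⟩ := hc
  refine ⟨P.map φ, hP.map φ, fun i => ?_, ?_⟩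
  · rw [Polynomial.coeff_map]
    exact Subring.mem_map.mpr ⟨P.coeff i, hcoeff i, rfl⟩
  · rw [Polynomial.eval_map, Polynomial.eval₂_hom, hPc, map_zero]

/-- integrality is reflected by injective ring homomorphisms (subring form) -/
theorem isIntegral_of_map_subring (φ : R →+* Ω) (hφ : Function.Injective φ) (B : Subring R)
    {c : R} (hc : IsIntegral (B.map φ) (φ c)) : IsIntegral B c := by
  classical
  rw [isIntegral_subring_iff] at hc ⊢
  obtain ⟨P, hP, hcoeff, hPc⟩ := hc
  have hex : ∀ i, ∃ r : R, r ∈ B ∧ φ r = P.coeff i := fun i => Subring.mem_map.mp (hcoeff i)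
  choose g hgB hg using hex
  let Q : Polynomial R := Polynomial.X ^ P.natDegree +
    ∑ i ∈ Finset.range P.natDegree, Polynomial.C (g i) * Polynomial.X ^ i
  have hQmap : Q.map φ = P := by
    simp only [Q, Polynomial.map_add, Polynomial.map_pow, Polynomial.map_X,
      Polynomial.map_sum, Polynomial.map_mul, Polynomial.map_C, hg]
    exact (hP.as_sum).symm
  have hQmonic : Q.Monic := by
    apply Polynomial.monic_X_pow_add
    refine lt_of_le_of_lt (Polynomial.degree_sum_le _ _) ?_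
    rw [Finset.sup_lt_iff (WithBot.bot_lt_coe _)]
    intro i hi
    refine lt_of_le_of_lt (Polynomial.degree_C_mul_X_pow_le i (g i)) ?_
    exact_mod_cast Finset.mem_range.mp hi
  refine ⟨Q, hQmonic, fun i => ?_, ?_⟩
  · simp only [Q, Polynomial.coeff_add, Polynomial.coeff_X_pow, Polynomial.finsetSum_coeff,
      Polynomial.coeff_C_mul]
    refine add_mem ?_ (sum_mem fun j _ => ?_)
    · split_ifs
      · exact one_mem _
      · exact zero_mem _
    · split_ifs
      · simpa using hgB j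
      · simp
  · apply hφ
    rw [map_zero, ← Polynomial.eval₂_hom, ← Polynomial.eval_map, hQmap, hPc]

end Transfer

section Datum

variable {N : ℕ} {A : ValuationSubring Qbar}
  (G : Datum A (residue A) (modularFunctionFieldBar N)
    (modularFunctionFieldFullC (ResidueField A) N))

/-- the `link` property of `Red.ModDatum`, for a raw datum -/
def Link : Prop :=
  ∀ (y : LaurentSeries A) (hy : coeffMap A.subtype y ∈ modularFunctionFieldBar N)
    (hyk : coeffMap (residue A) y ∈ modularFunctionFieldFullC (ResidueField A) N),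
    coeffMap (residue A) y ≠ 0 →
    ∃ h : (⟨coeffMap A.subtype y, hy⟩ : modularFunctionFieldBar N) ∈ G.O,
      G.ρ ⟨⟨coeffMap A.subtype y, hy⟩, h⟩ = ⟨coeffMap (residue A) y, hyk⟩

/-- `c ∈ G.chartk s` in `q`-expansion language -/
theorem isIntegral_coe_of_mem_chartk {s c : modularFunctionFieldFullC (ResidueField A) N}
    (hc : c ∈ G.chartk s) :
    IsIntegral (Subring.closure
      (Set.range (algebraMap (ResidueField A) (LaurentSeries (ResidueField A))) ∪
        {(s : LaurentSeries (ResidueField A))})) (c : LaurentSeries (ResidueField A)) := by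
  have h1 : IsIntegral (Algebra.adjoin (ResidueField A) {s}) c := hc
  rw [isIntegral_subalgebra_iff, Algebra.adjoin_eq_ring_closure] at h1
  have h2 := isIntegral_map_subring
    (algebraMap (modularFunctionFieldFullC (ResidueField A) N)
      (LaurentSeries (ResidueField A))) _ h1
  refine isIntegral_subring_mono ?_ h2
  rw [Subring.map_le_iff_le_comap, Subring.closure_le]
  rintro x (⟨a, rfl⟩ | hx)
  · exact Subring.subset_closure (Or.inl ⟨a, rfl⟩)
  · rw [Set.mem_singleton_iff] at hx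
    subst hx
    exact Subring.subset_closure (Or.inr rfl)

/-- `b ∈ G.chart t` from `q`-expansion language -/
theorem mem_chart_of_isIntegral_coe {t b : modularFunctionFieldBar N}
    (hb : IsIntegral (Subring.closure (constAll A ∪ {(t : LaurentSeries Qbar)}))
      (b : LaurentSeries Qbar)) : b ∈ G.chart t := by
  show IsIntegral (G.polyRing t) b
  refine isIntegral_of_map_subring
    (algebraMap (modularFunctionFieldBar N) (LaurentSeries Qbar))
    (algebraMap (modularFunctionFieldBar N) (LaurentSeries Qbar)).injective _ ?_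
  refine isIntegral_subring_mono ?_ hb
  rw [Subring.closure_le]
  rintro x (⟨a, rfl⟩ | hx)
  · refine Subring.mem_map.mpr ⟨algebraMap Qbar (modularFunctionFieldBar N) (a : Qbar), ?_, rfl⟩
    exact (le_sup_left : G.constRing ≤ G.polyRing t)
      (Subring.mem_map.mpr ⟨(a : Qbar), a.2, rfl⟩)
  · rw [Set.mem_singleton_iff] at hx
    subst hx
    exact Subring.mem_map.mpr ⟨t, (le_sup_right : Subring.closure {t} ≤ G.polyRing t)
      (Subring.subset_closure rfl), rfl⟩

/-- **Passage `R_E → A` for (H3), datum form.** -/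
theorem lift_chart_of_levels (hlink : Link G)
    (t : modularFunctionFieldBar N) (s : modularFunctionFieldFullC (ResidueField A) N)
    (E₀ : NumberFieldIn)
    (h : ∀ E : NumberFieldIn, E₀ ≤ E →
      LiftAtLevel A N E.1 (t : LaurentSeries Qbar) (s : LaurentSeries (ResidueField A))) :
    ∀ c ∈ G.chartk s, ∃ b ∈ G.chart t, ∃ hb : b ∈ G.O, G.ρ ⟨b, hb⟩ = c := by
  intro c hc
  rcases eq_or_ne c 0 with rfl | hc0
  · exact ⟨0, zero_mem _, zero_mem _, map_zero G.ρ⟩
  obtain ⟨U, hU, hUint, hUc⟩ := lift_of_levels A N _ _ E₀ h c.2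
    (isIntegral_coe_of_mem_chartk G hc)
  have hyk : coeffMap (residue A) U ∈ modularFunctionFieldFullC (ResidueField A) N := by
    rw [hUc]; exact c.2
  have hne : coeffMap (residue A) U ≠ 0 := by
    rw [hUc]
    exact fun h0 => hc0 (Subtype.ext h0)
  obtain ⟨hO, hρ⟩ := hlink U hU hyk hne
  refine ⟨⟨coeffMap A.subtype U, hU⟩, mem_chart_of_isIntegral_coe G hUint, hO, ?_⟩
  rw [hρ]
  exact Subtype.ext hUc

/-- field `lift_fin` of `G.Good` from (H3) at all number-field levels -/
theorem lift_fin_of_levels (hlink : Link G) (E₀ : NumberFieldIn)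
    (h : ∀ E : NumberFieldIn, E₀ ≤ E →
      LiftAtLevel A N E.1 (G.x : LaurentSeries Qbar) (G.xk : LaurentSeries (ResidueField A))) :
    ∀ c ∈ G.chartk G.xk, ∃ b ∈ G.chart G.x, ∃ hb : b ∈ G.O, G.ρ ⟨b, hb⟩ = c :=
  lift_chart_of_levels G hlink G.x G.xk E₀ h

/-- field `lift_inf` of `G.Good` from (H3) at all number-field levels (chart at infinity) -/
theorem lift_inf_of_levels (hlink : Link G) (E₀ : NumberFieldIn)
    (h : ∀ E : NumberFieldIn, E₀ ≤ E →
      LiftAtLevel A N E.1 ((G.x : LaurentSeries Qbar))⁻¹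
        ((G.xk : LaurentSeries (ResidueField A)))⁻¹) :
    ∀ c ∈ G.chartk G.xk⁻¹, ∃ b ∈ G.chart G.x⁻¹, ∃ hb : b ∈ G.O, G.ρ ⟨b, hb⟩ = c :=
  lift_chart_of_levels G hlink G.x⁻¹ G.xk⁻¹ E₀ (by simpa using h)

end Datum

end Fermat.Agent.S37.Red.H759

end

end
-- ===== PACK-END S37/Red/H759/PassageDatum.lean

-- ===== PACK-BEGIN S37/H697/KronDet.lean
section




/-!
# S37 (helper697): the formal Kronecker norm `V_ℓ f · det (kronMat ℓ f)`

On top of helper340's formal Kronecker polynomial (`H340.kron`):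

* `knorm ℓ f := V_ℓ f · det (kronMat ℓ f)`, compatible with coefficient homomorphisms;
* `qExpand_kdet_eq_prod` : `V_ℓ (det (kronMat ℓ f)) = ∏_{b<ℓ} f(ζ^b q)` over a domain with a
  primitive `ℓ`-th root of unity `ζ`;
* `kdet_char` : `det (kronMat ℓ f) = f^φ` (coefficientwise Frobenius) in characteristic `ℓ`;
* `knorm_char_equiv` : in characteristic `ℓ`, for an automorphism `φ` of the coefficient field
  with `φ x = x ^ ℓ`:  `knorm ℓ f = (Φ⁻¹ f) ^ ℓ · Φ f`.
-/

set_option autoImplicit false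

noncomputable section

namespace Fermat.Agent.S37.H697

open ModularCurve HahnSeries Polynomial Matrix

variable {R : Type*} [CommRing R] (ℓ : ℕ) [NeZero ℓ]

/-- The determinant of the section matrix of `f`. -/
def kdet (f : LaurentSeries R) : LaurentSeries R := (H340.kronMat ℓ f).det

/-- The formal Kronecker norm `f(q^ℓ) · det (kronMat ℓ f)`. -/
def knorm (f : LaurentSeries R) : LaurentSeries R := qExpand R ℓ f * kdet ℓ f

theorem kdet_coeffMap {S : Type*} [CommRing S] (g : R →+* S) (f : LaurentSeries R) :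
    kdet ℓ (coeffMap g f) = coeffMap g (kdet ℓ f) := by
  rw [kdet, kdet, H340.kronMat_map, RingHom.map_det]
  rfl

theorem knorm_coeffMap {S : Type*} [CommRing S] (g : R →+* S) (f : LaurentSeries R) :
    knorm ℓ (coeffMap g f) = coeffMap g (knorm ℓ f) := by
  rw [knorm, knorm, map_mul, kdet_coeffMap, coeffMap_qExpand]

theorem kdet_eq_coeff_zero (f : LaurentSeries R) :
    kdet ℓ f = (-1) ^ ℓ * (H340.kron ℓ f).coeff 0 := by
  rw [kdet, H340.kron, Matrix.det_eq_sign_charpoly_coeff, Fintype.card_fin]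

/-- **Product formula** for the determinant. -/
theorem qExpand_kdet_eq_prod [IsDomain R] {ζ : R} (hζ : IsPrimitiveRoot ζ ℓ)
    (f : LaurentSeries R) :
    qExpand R ℓ (kdet ℓ f) = ∏ b : Fin ℓ, H340.tw ℓ (ζ ^ (b : ℕ)) f := by
  have h := congrArg (fun P : (LaurentSeries R)[X] => P.coeff 0)
    (H340.kron_map_qExpand_eq_prod hζ f)
  simp only [Polynomial.coeff_map] at h
  rw [kdet_eq_coeff_zero, map_mul, map_pow, map_neg, map_one, h,
    Polynomial.coeff_zero_eq_eval_zero, Polynomial.eval_prod]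
  simp only [Polynomial.eval_sub, Polynomial.eval_X, Polynomial.eval_C, zero_sub]
  rw [Finset.prod_neg, Finset.card_univ, Fintype.card_fin, ← mul_assoc, ← mul_pow]
  simp

section CharL

variable [hℓ : Fact ℓ.Prime] [CharP R ℓ] [IsDomain R]

/-- In characteristic `ℓ`: `det (kronMat ℓ f) = f^φ`. -/
theorem kdet_char (f : LaurentSeries R) :
    kdet ℓ f = coeffMap (frobenius R ℓ) f := by
  have := H340.charP_laurentSeries (R := R) ℓ
  rw [kdet_eq_coeff_zero, H340.kron_char, Polynomial.coeff_sub, Polynomial.coeff_X_pow,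
    Polynomial.coeff_C_zero, if_neg hℓ.out.pos.ne, zero_sub]
  rcases hℓ.out.eq_two_or_odd' with h2 | hodd
  · have h2' : (2 : LaurentSeries R) = 0 := by
      have := CharP.cast_eq_zero (LaurentSeries R) ℓ
      rw [h2] at this
      exact_mod_cast this
    have hneg : -(coeffMap (frobenius R ℓ) f) = coeffMap (frobenius R ℓ) f := by
      rw [neg_eq_iff_add_eq_zero, ← two_mul, h2', zero_mul]
    have h1 : (-1 : LaurentSeries R) ^ ℓ = 1 := by rw [h2]; simp
    rw [hneg, h1, one_mul]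
  · rw [hodd.neg_one_pow]
    ring

/-- In characteristic `ℓ`: `knorm ℓ f = f(q^ℓ) · f^φ`. -/
theorem knorm_char (f : LaurentSeries R) :
    knorm ℓ f = qExpand R ℓ f * coeffMap (frobenius R ℓ) f := by
  rw [knorm, kdet_char]

/-- In characteristic `ℓ`, for an automorphism `φ` of `R` with `φ x = x ^ ℓ`:
`knorm ℓ f = (Φ⁻¹ f) ^ ℓ · Φ f`. -/
theorem knorm_char_equiv (φ : R ≃+* R) (hφ : ∀ x, φ x = x ^ ℓ) (f : LaurentSeries R) :
    knorm ℓ f = (coeffMap (φ.symm : R →+* R) f) ^ ℓ * coeffMap (φ : R →+* R) f := by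
  have hfrob : (φ : R →+* R) = frobenius R ℓ := RingHom.ext fun x => by
    rw [RingEquiv.coe_toRingHom, hφ, frobenius_def]
  rw [knorm_char, H340.pow_char_eq_qExpand, coeffMap_coeffMap, hfrob]
  congr 2
  rw [← hfrob]
  have : ((φ : R →+* R).comp (φ.symm : R →+* R)) = RingHom.id R :=
    RingHom.ext fun x => φ.apply_symm_apply x
  rw [this, coeffMap_id]

end CharL

end Fermat.Agent.S37.H697

end
end
-- ===== PACK-END S37/H697/KronDet.lean

-- ===== PACK-BEGIN S37/H818/NormCompat.lean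
section
/-
S37 / LEVEL TRANSFER (helper818), part 5: norm compatibility for a square

      F  --a-->  F₁
      |i         |i₁
      v          v
      G  --a'->  G₁

with `[F₁ : F] = [G₁ : G]` and `G₁ = G · i₁(F₁)`:  `N_{G₁/G}(i₁ f) = i (N_{F₁/F} f)`.
-/




set_option autoImplicit false
set_option linter.style.haveILetI false

noncomputable section

namespace Fermat.Agent.S37.H818

open AlgebraicCurve

section Abstract

variable {F F₁ G G₁ : Type*} [Field F] [Field F₁] [Field G] [Field G₁]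
  [Algebra F F₁] [Algebra G G₁] (i : F →+* G) (i₁ : F₁ →+* G₁)
  (hsq : ∀ x : F, i₁ (algebraMap F F₁ x) = algebraMap G G₁ (i x))

include hsq in
theorem map_smul_square (c : F) (x : F₁) : i₁ (c • x) = i c • i₁ x := by
  rw [Algebra.smul_def, Algebra.smul_def, map_mul, hsq]

include hsq in
/-- The image of a basis spans a subspace closed under multiplication containing `i₁(F₁)`. -/
theorem span_image_basis_eq_top {n : ℕ} (e : Module.Basis (Fin n) F F₁)
    (hgen : Algebra.adjoin G (Set.range i₁) = ⊤) :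
    Submodule.span G (Set.range fun j => i₁ (e j)) = ⊤ := by
  set S : Submodule G G₁ := Submodule.span G (Set.range fun j => i₁ (e j)) with hS
  have hgenS : ∀ f : F₁, i₁ f ∈ S := by
    intro f
    have hf : f = ∑ j, e.repr f j • e j := (e.sum_repr f).symm
    rw [hf, map_sum]
    refine Submodule.sum_mem _ fun j _ => ?_
    rw [map_smul_square i i₁ hsq]
    exact Submodule.smul_mem _ _ (Submodule.subset_span ⟨j, rfl⟩)
  have hmul : ∀ x ∈ S, ∀ y ∈ S, x * y ∈ S := by
    intro x hx y hy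
    induction hx using Submodule.span_induction with
    | mem x hx =>
      obtain ⟨j, rfl⟩ := hx
      induction hy using Submodule.span_induction with
      | mem y hy =>
        obtain ⟨k, rfl⟩ := hy
        simp only
        rw [← map_mul]
        exact hgenS _
      | zero => rw [mul_zero]; exact S.zero_mem
      | add y z _ _ hy hz => rw [mul_add]; exact S.add_mem hy hz
      | smul c y _ hy => rw [mul_smul_comm]; exact S.smul_mem c hy
    | zero => rw [zero_mul]; exact S.zero_mem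
    | add x z _ _ hx hz => rw [add_mul]; exact S.add_mem hx hz
    | smul c x _ hx => rw [smul_mul_assoc]; exact S.smul_mem c hx
  rw [eq_top_iff]
  intro x _
  have hx : x ∈ Algebra.adjoin G (Set.range i₁) := by rw [hgen]; exact Algebra.mem_top
  induction hx using Algebra.adjoin_induction with
  | mem y hy =>
    obtain ⟨f, rfl⟩ := hy
    exact hgenS f
  | algebraMap g =>
    have h1 : (1 : G₁) ∈ S := by
      have := hgenS 1
      rwa [map_one] at this
    have : algebraMap G G₁ g = g • (1 : G₁) := by rw [Algebra.smul_def, mul_one]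
    rw [this]
    exact S.smul_mem g h1
  | add y z _ _ hy hz => exact S.add_mem (hy trivial) (hz trivial)
  | mul y z _ _ hy hz => exact hmul _ (hy trivial) _ (hz trivial)

include hsq in
/-- Norm compatibility, abstract form. -/
theorem norm_square [Module.Finite F F₁] [Module.Finite G G₁]
    (hdeg : Module.finrank G G₁ = Module.finrank F F₁)
    (hgen : Algebra.adjoin G (Set.range i₁) = ⊤) (f : F₁) :
    Algebra.norm G (i₁ f) = i (Algebra.norm F f) := by
  classical
  set n := Module.finrank F F₁ with hn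
  let e : Module.Basis (Fin n) F F₁ := Module.finBasis F F₁
  have hspan := span_image_basis_eq_top i i₁ hsq e hgen
  have hcard : Fintype.card (Fin n) = Module.finrank G G₁ := by
    rw [Fintype.card_fin, hdeg]
  let e' : Module.Basis (Fin n) G G₁ :=
    basisOfTopLeSpanOfCardEqFinrank (fun j => i₁ (e j)) hspan.ge hcard
  have he' : ∀ j, e' j = i₁ (e j) := fun j => by
    simp [e', coe_basisOfTopLeSpanOfCardEqFinrank]
  rw [Algebra.norm_eq_matrix_det e' (i₁ f), Algebra.norm_eq_matrix_det e f, RingHom.map_det]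
  congr 1
  ext k j
  rw [RingHom.mapMatrix_apply, Matrix.map_apply, Algebra.leftMulMatrix_eq_repr_mul,
    Algebra.leftMulMatrix_eq_repr_mul, he']
  have hprod : i₁ f * i₁ (e j) = ∑ k, i (e.repr (f * e j) k) • e' k := by
    rw [← map_mul]
    conv_lhs => rw [← e.sum_repr (f * e j)]
    rw [map_sum]
    refine Finset.sum_congr rfl fun k _ => ?_
    rw [map_smul_square i i₁ hsq, he']
  rw [hprod, e'.repr_sum_self]

end Abstract

section Along

variable {K F F₁ G G₁ : Type*} [Field K] [Field F] [Field F₁] [Field G] [Field G₁]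
  [Algebra K F] [Algebra K F₁] [Algebra K G] [Algebra K G₁]

/-- `NormCompat` from equality of degrees and generation `G₁ = a'(G)[i₁(F₁)]`. -/
theorem normCompat_of_finrank_eq (a : F →ₐ[K] F₁) (i : F →ₐ[K] G) (a' : G →ₐ[K] G₁)
    (i₁ : F₁ →ₐ[K] G₁) (hsq : i₁.comp a = a'.comp i)
    (hfin : FiniteAlong K a) (hfin' : FiniteAlong K a')
    (hdeg : finrankAlong K a' = finrankAlong K a)
    (hgen : (letI := algebraAlong a'; Algebra.adjoin G (Set.range i₁)) = ⊤) :
    NormCompat a i a' i₁ := by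
  intro f
  letI := algebraAlong a
  letI := algebraAlong a'
  haveI : Module.Finite F F₁ := hfin
  haveI : Module.Finite G G₁ := hfin'
  refine norm_square (i : F →+* G) (i₁ : F₁ →+* G₁) (fun x => ?_) hdeg ?_ f
  · exact congrArg (fun φ : F →ₐ[K] G₁ => φ x) hsq
  · exact hgen

end Along

end Fermat.Agent.S37.H818

end

end
-- ===== PACK-END S37/H818/NormCompat.lean

-- ===== PACK-BEGIN S37/H818/PushPull.lean
section
/-
S37 / LEVEL TRANSFER (helper818), part 6: `i_* i^* = [G : F]` on divisors, from the norm formula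
alone; consequences: `SumRamificationInertia`, `FundamentalIdentityAlong`, and
`π^* x = 0 → [G:F] • x = 0` on `Pic0`.
-/




set_option autoImplicit false
set_option linter.style.haveILetI false

noncomputable section

namespace Fermat.Agent.S37.H818

open AlgebraicCurve

variable {K F G : Type*} [Field K] [Field F] [Field G] [Algebra K F] [Algebra K G]

section

variable (i : F →ₐ[K] G) (hi : i.toRingHom.IsIntegral)
variable [HasPrincipalDivisors K G]

/-- The defect of `i_* i^* = d`. -/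
def ppDefect : Divisor K F →+ Divisor K F :=
  (Divisor.pushforwardAlong i hi).comp (Divisor.pullbackAlong i hi) -
    (finrankAlong K i : ℤ) • AddMonoidHom.id (Divisor K F)

theorem ppDefect_apply (D : Divisor K F) :
    ppDefect i hi D =
      Divisor.pushforwardAlong i hi (Divisor.pullbackAlong i hi D) - (finrankAlong K i : ℤ) • D :=
  rfl

theorem ppDefect_single_apply_of_ne (v : Place K F) (n : ℤ) (u : Place K F) (hu : u ≠ v) :
    ppDefect i hi (Finsupp.single v n) u = 0 := by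
  classical
  rw [ppDefect_apply, Finsupp.sub_apply, Finsupp.smul_apply, Finsupp.single_eq_of_ne hu,
    smul_zero, sub_zero, Divisor.pullbackAlong_single, map_sum, Finset.sum_apply']
  refine Finset.sum_eq_zero fun W hW => ?_
  rw [Divisor.pushforwardAlong_single]
  refine Finsupp.single_eq_of_ne ?_
  rw [Place.mem_fiberAlong.mp hW]
  exact hu

theorem ppDefect_principal (hfin : FiniteAlong K i) (hN : NormFormulaAlong K i hfin)
    {f : F} (hf : f ≠ 0) {D : Divisor K F} (hD : ∀ v, D v = v.ord f) :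
    ppDefect i hi D = 0 := by
  rw [ppDefect_apply, sub_eq_zero]
  ext u
  have hD' : ∀ W : Place K G, Divisor.pullbackAlong i hi D W = W.ord (i f) := by
    intro W
    letI := algebraAlong i
    haveI := isScalarTower_along i
    haveI := isIntegral_along i hi
    exact Divisor.pullback_apply_eq_ord (F' := G) hD W
  have h1 : Divisor.pushforwardAlong i hi (Divisor.pullbackAlong i hi D) u =
      u.ord (f ^ finrankAlong K i) := by
    letI := algebraAlong i
    haveI := isScalarTower_along i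
    haveI := isIntegral_along i hi
    haveI : Module.Finite F G := hfin
    have hf' : i f ≠ 0 := by simpa using hf
    have := hN (i f) hf' _ hD' u
    rw [show Divisor.pushforwardAlong i hi (Divisor.pullbackAlong i hi D) =
      Divisor.pushforward F (Divisor.pullbackAlong i hi D) from rfl, this]
    have hnorm : Algebra.norm F (i f) = f ^ Module.finrank F G :=
      Algebra.norm_algebraMap (S := G) f
    rw [hnorm]
    rfl
  rw [h1, Finsupp.smul_apply, hD, smul_eq_mul]
  have := u.ord_zpow f (finrankAlong K i : ℤ)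
  rwa [zpow_natCast] at this

variable [HasPrincipalDivisors K F]

/-- `i_* i^* = [G : F]` on divisors. -/
theorem pushforward_pullback_eq (hfin : FiniteAlong K i) (hN : NormFormulaAlong K i hfin)
    (D : Divisor K F) :
    Divisor.pushforwardAlong i hi (Divisor.pullbackAlong i hi D) = (finrankAlong K i : ℤ) • D := by
  classical
  rw [← sub_eq_zero, ← ppDefect_apply]
  set δ := ppDefect i hi with hδ
  suffices h : ∀ w : Place K F, δ (Finsupp.single w 1) = 0 by
    induction D using Finsupp.induction with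
    | zero => simp
    | single_add w n D _ _ ih =>
      rw [map_add, ih, add_zero]
      have : Finsupp.single w n = n • Finsupp.single w (1 : ℤ) := by
        rw [Finsupp.smul_single, smul_eq_mul, mul_one]
      rw [this, map_zsmul, h w, smul_zero]
  intro w₀
  ext u
  rw [Finsupp.zero_apply]
  by_cases hu : u = w₀
  swap
  · exact ppDefect_single_apply_of_ne i hi w₀ 1 u hu
  subst hu
  obtain ⟨f, hf0, hfu⟩ := exists_ord_eq_one u
  obtain ⟨D, hD, -⟩ := HasPrincipalDivisors.exists_divisor (K := K) f hf0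
  have h0 : δ D = 0 := ppDefect_principal i hi hfin hN hf0 hD
  have hsum : δ D u = ∑ w ∈ D.support, δ (Finsupp.single w (D w)) u := by
    conv_lhs => rw [← Finsupp.sum_single D]
    rw [Finsupp.sum, map_sum, Finset.sum_apply']
  have hu₀ : u ∈ D.support := by
    rw [Finsupp.mem_support_iff, hD, hfu]
    exact one_ne_zero
  rw [Finset.sum_eq_single_of_mem u hu₀ (fun w _ hw =>
    ppDefect_single_apply_of_ne i hi w (D w) u (Ne.symm hw)), h0, Finsupp.zero_apply, hD,
    hfu] at hsum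
  exact hsum.symm

/-- The fundamental identity `∑ e f = n` follows from the norm formula. -/
theorem fundamentalIdentityAlong_of_normFormula (hfin : FiniteAlong K i)
    (hN : NormFormulaAlong K i hfin) : FundamentalIdentityAlong K i hi := by
  classical
  letI := algebraAlong i
  haveI := isScalarTower_along i
  haveI := isIntegral_along i hi
  refine ⟨fun v => ?_⟩
  have h := congrArg Divisor.degree (pushforward_pullback_eq i hi hfin hN (Finsupp.single v 1))
  rw [Divisor.degree_pushforwardAlong, map_zsmul, Divisor.degree_single, one_mul,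
    show Divisor.pullbackAlong i hi (Finsupp.single v 1) =
      Divisor.pullback G (Finsupp.single v 1) from rfl,
    Divisor.pullback_single, map_sum] at h
  simp only [Divisor.degree_single, one_mul, smul_eq_mul] at h
  rw [h]
  rfl

/-- `π^* x = 0` implies `[G : F] • x = 0`. -/
theorem nsmul_eq_zero_of_pullbackPic0Along_eq_zero (hfin : FiniteAlong K i)
    (hN : NormFormulaAlong K i hfin) (hFI : FundamentalIdentityAlong K i hi)
    (x : Pic0 K F) (hx : pullbackPic0Along i hi hFI x = 0) :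
    (finrankAlong K i) • x = 0 := by
  obtain ⟨D, rfl⟩ := Pic0.mk_surjective x
  rw [pullbackPic0Along_mk] at hx
  have hprin : Divisor.IsPrincipal (Divisor.pullbackAlong i hi (D : Divisor K F)) := by
    have := (QuotientAddGroup.eq_zero_iff _).mp hx
    rw [AddSubgroup.mem_addSubgroupOf] at this
    exact this
  have hpush := Divisor.isPrincipal_pushforwardAlong i hi hfin hN hprin
  rw [pushforward_pullback_eq i hi hfin hN] at hpush
  have : (finrankAlong K i) • (Pic0.mk D) = Pic0.mk ((finrankAlong K i) • D) := rfl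
  rw [this]
  refine (QuotientAddGroup.eq_zero_iff _).mpr ?_
  rw [AddSubgroup.mem_addSubgroupOf]
  have hcoe : (((finrankAlong K i) • D : Divisor.degZero (K := K) (F := F)) : Divisor K F) =
      (finrankAlong K i : ℤ) • (D : Divisor K F) := by
    rw [AddSubgroupClass.coe_nsmul, natCast_zsmul]
  rw [hcoe]
  exact hpush

end

end Fermat.Agent.S37.H818

end

end
-- ===== PACK-END S37/H818/PushPull.lean

-- ===== PACK-BEGIN S37/H280/IntQ.lean
section







/-!
# S37 / INT-Q (helper280): integral elements of `ℚ̄(X₀(N))` have `A`-integral `q`-expansions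

`A` a valuation subring of `ℚ̄` over a prime `ℓ`.  If `f ∈ F = modularFunctionFieldBar N ⊆ ℚ̄((q))`
is integral over the ring of `A`-integral `q`-series lying in `F` (e.g. over `A[j]`, `A[j⁻¹]`,
`A[t₂]`, …), then `f` itself is an `A`-integral `q`-series: `f = coeffMap A.subtype y`,
`y ∈ A((q))`.  UNCONDITIONAL (no completion, no Weierstrass preparation, no hypothesis).

Proof.
1. (`isIntegrallyClosed_laurentSeries`) For a principal ideal domain `R`, `R⟦X⟧` is a UFD
   (Mathlib), hence integrally closed, hence so is its localisation `R((X))`.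
2. (`exists_coeffMap_eq_of_isIntegral`) Hence a fraction `a / b` of elements of `R((q))` inside
   `E((q))` (`E ⊇ R` a field) which is integral over `R((q))` lies in `R((q))`.
3. (`laurentBaseChange_le_fracSubfield`) every element of `E(j(q^d) : d ∣ N)` is such a fraction
   (the generators have integer coefficients), for `R` a valuation subring of `E`.
4. (`intQ`) descent to a number field `E ⊆ ℚ̄` (helper602's `S18/H602`): `f` and the finitely many
   coefficients of an integrality equation are defined over `E`; `R = A ∩ E` is a DVR.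
-/

set_option autoImplicit false
set_option linter.style.haveILetI false
set_option linter.unusedSectionVars false

noncomputable section

namespace Fermat.Agent.S37.H280.IntQ

open ModularCurve HahnSeries IntermediateField Polynomial
open Fermat.Agent.S18.H602

local notation "Q̄" => AlgebraicClosure ℚ

/-! ## 1. `R((X))` is integrally closed for a PID `R` -/

section Normal

variable (R : Type*) [CommRing R] [IsDomain R] [IsPrincipalIdealRing R]

/-- Laurent series over a principal ideal domain form an integrally closed domain. -/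
theorem isIntegrallyClosed_laurentSeries : IsIntegrallyClosed (LaurentSeries R) := by
  haveI : IsIntegrallyClosed (PowerSeries R) := UniqueFactorizationMonoid.instIsIntegrallyClosed
  exact isIntegrallyClosed_of_isLocalization (R := PowerSeries R) (S := LaurentSeries R)
    (Submonoid.powers (PowerSeries.X : PowerSeries R))
    (powers_le_nonZeroDivisors_of_noZeroDivisors PowerSeries.X_ne_zero)

end Normal

section Frac

variable {R E : Type*} [CommRing R] [IsDomain R] [Field E] (φ : R →+* E)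

/-- A fraction of two elements of `R((q))` inside `E((q))` which is integral over `R((q))`
lies in `R((q))`, for `R` a principal ideal domain. -/
theorem exists_coeffMap_eq_of_isIntegral [IsPrincipalIdealRing R] (hφ : Function.Injective φ)
    (f : LaurentSeries E) (a b : LaurentSeries R) (hb : b ≠ 0)
    (hab : f * coeffMap φ b = coeffMap φ a)
    (p : Polynomial (LaurentSeries R)) (hp : p.Monic) (hpf : p.eval₂ (coeffMap φ) f = 0) :
    ∃ y : LaurentSeries R, coeffMap φ y = f := by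
  haveI := isIntegrallyClosed_laurentSeries R
  have hinj : Function.Injective (coeffMap φ) := coeffMap_injective φ hφ
  letI : Algebra (LaurentSeries R) (LaurentSeries E) := (coeffMap φ).toAlgebra
  have halg : ∀ x : LaurentSeries R, algebraMap (LaurentSeries R) (LaurentSeries E) x
      = coeffMap φ x := fun _ => rfl
  haveI : FaithfulSMul (LaurentSeries R) (LaurentSeries E) :=
    (faithfulSMul_iff_algebraMap_injective _ _).mpr hinj
  let K' := FractionRing (LaurentSeries R)
  let ψ : K' →ₐ[LaurentSeries R] LaurentSeries E :=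
    IsFractionRing.liftAlgHom (K := K') (g := Algebra.ofId (LaurentSeries R) (LaurentSeries E))
      (by exact hinj)
  have hψ : Function.Injective ψ := ψ.toRingHom.injective
  have hb' : algebraMap (LaurentSeries R) K' b ≠ 0 := by
    rw [Ne, map_eq_zero_iff _ (IsFractionRing.injective (LaurentSeries R) K')]
    exact hb
  have hbE : coeffMap φ b ≠ 0 := by
    rw [Ne, map_eq_zero_iff _ hinj]
    exact hb
  set x' : K' := algebraMap (LaurentSeries R) K' a / algebraMap (LaurentSeries R) K' b with hx'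
  have hψx : ψ x' = f := by
    rw [hx', map_div₀, AlgHom.commutes, AlgHom.commutes, halg, halg, ← hab,
      mul_div_assoc, div_self hbE, mul_one]
  have hint : IsIntegral (LaurentSeries R) x' := by
    rw [← isIntegral_algHom_iff ψ hψ, hψx]
    exact ⟨p, hp, hpf⟩
  obtain ⟨y, hy⟩ := IsIntegrallyClosed.isIntegral_iff.mp hint
  refine ⟨y, ?_⟩
  rw [← hψx, ← hy, AlgHom.commutes]
  rfl

variable (hφ : Function.Injective φ)

/-- The subfield of `E((q))` of fractions of elements of `R((q))`. -/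
def fracSubfield (hφ : Function.Injective φ) : Subfield (LaurentSeries E) where
  carrier := {x | ∃ a b : LaurentSeries R, b ≠ 0 ∧ x * coeffMap φ b = coeffMap φ a}
  mul_mem' := by
    rintro x x' ⟨a, b, hb, h⟩ ⟨a', b', hb', h'⟩
    refine ⟨a * a', b * b', mul_ne_zero hb hb', ?_⟩
    rw [map_mul, map_mul, ← h, ← h']
    ring
  one_mem' := ⟨1, 1, one_ne_zero, by simp⟩
  add_mem' := by
    rintro x x' ⟨a, b, hb, h⟩ ⟨a', b', hb', h'⟩
    refine ⟨a * b' + a' * b, b * b', mul_ne_zero hb hb', ?_⟩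
    rw [map_add, map_mul, map_mul, map_mul, ← h, ← h']
    ring
  zero_mem' := ⟨0, 1, one_ne_zero, by simp⟩
  neg_mem' := by
    rintro x ⟨a, b, hb, h⟩
    exact ⟨-a, b, hb, by rw [map_neg, ← h]; ring⟩
  inv_mem' := by
    rintro x ⟨a, b, hb, h⟩
    have hinj : Function.Injective (coeffMap φ) := coeffMap_injective φ hφ
    by_cases ha : a = 0
    · refine ⟨0, 1, one_ne_zero, ?_⟩
      have hbE : coeffMap φ b ≠ 0 := by
        rw [Ne, map_eq_zero_iff _ hinj]; exact hb
      have hx0 : x = 0 := by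
        rw [ha, map_zero] at h
        exact (mul_eq_zero.mp h).resolve_right hbE
      simp [hx0]
    · refine ⟨b, a, ha, ?_⟩
      have haE : coeffMap φ a ≠ 0 := by
        rw [Ne, map_eq_zero_iff _ hinj]; exact ha
      have hx0 : x ≠ 0 := by
        rintro rfl
        rw [zero_mul] at h
        exact haE h.symm
      rw [← h]
      field_simp

theorem mem_fracSubfield {x : LaurentSeries E} :
    x ∈ fracSubfield φ hφ ↔
      ∃ a b : LaurentSeries R, b ≠ 0 ∧ x * coeffMap φ b = coeffMap φ a := Iff.rfl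

theorem coeffMap_mem_fracSubfield (a : LaurentSeries R) : coeffMap φ a ∈ fracSubfield φ hφ :=
  ⟨a, 1, one_ne_zero, by simp⟩

end Frac

/-! ## 3. Elements of `E(j(q^d) : d ∣ N)` are fractions of integral series -/

section BaseChange

variable {E : Type*} [Field E] [Algebra ℚ E] (R : ValuationSubring E) (N : ℕ) [NeZero N]

theorem single_mem_fracSubfield (c : E) :
    (HahnSeries.single (0 : ℤ) c : LaurentSeries E) ∈
      fracSubfield R.subtype Subtype.val_injective := by
  rcases R.mem_or_inv_mem c with hc | hc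
  · have := coeffMap_mem_fracSubfield R.subtype Subtype.val_injective
      (HahnSeries.single (0 : ℤ) (⟨c, hc⟩ : R))
    rwa [coeffMap_single] at this
  · by_cases hc0 : c = 0
    · rw [hc0, HahnSeries.single_eq_zero]
      exact zero_mem _
    have h1 := coeffMap_mem_fracSubfield R.subtype Subtype.val_injective
      (HahnSeries.single (0 : ℤ) (⟨c⁻¹, hc⟩ : R))
    rw [coeffMap_single] at h1
    have h2 := inv_mem h1
    have h3 : ((HahnSeries.single (0 : ℤ) (c⁻¹ : E) : LaurentSeries E))⁻¹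
        = HahnSeries.single (0 : ℤ) c := by
      apply inv_eq_of_mul_eq_one_left
      rw [HahnSeries.single_mul_single, add_zero, mul_inv_cancel₀ hc0]
      rfl
    change ((HahnSeries.single (0 : ℤ) (c⁻¹ : E) : LaurentSeries E))⁻¹ ∈ _ at h2
    rwa [h3] at h2

/-- Every element of `E(j(q^d) : d ∣ N)` is a fraction of two series over the valuation
subring `R` of `E`. -/
theorem laurentBaseChange_le_fracSubfield :
    (laurentBaseChange E (modularFunctionFieldFull N)).toSubfield ≤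
      fracSubfield R.subtype Subtype.val_injective := by
  intro x hx
  have hx' : x ∈ laurentBaseChange E (modularFunctionFieldFull N) := hx
  rw [mem_laurentBaseChange_iff] at hx'
  refine Subfield.closure_le.mpr ?_ hx'
  rintro y (⟨c, rfl⟩ | ⟨z, hz, rfl⟩)
  · rw [algebraMap_laurentSeries_eq_single]
    exact single_mem_fracSubfield R c
  · -- `z ∈ ℚ(j(q^d))`
    have hz' : z ∈ (fracSubfield R.subtype Subtype.val_injective).comap (coeffEmb E) := by
      have hz2 : z ∈ Subfield.closure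
          (Set.range (algebraMap ℚ (LaurentSeries ℚ)) ∪ divisorExpansions N) := hz
      refine Subfield.closure_le.mpr ?_ hz2
      rintro w (⟨c, rfl⟩ | ⟨d, hd, hdN, rfl⟩)
      · rw [SetLike.mem_coe, Subfield.mem_comap]
        have : coeffEmb E (algebraMap ℚ (LaurentSeries ℚ) c)
            = HahnSeries.single (0 : ℤ) (algebraMap ℚ E c) := by
          rw [coeffEmb, algebraMap_laurentSeries_eq_single, coeffMap_single]
        rw [this]
        exact single_mem_fracSubfield R _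
      · rw [SetLike.mem_coe, Subfield.mem_comap]
        haveI := hd
        rw [coeffEmb_qExpand_jq]
        have h1 : qExpand E d (jqModC E) = coeffMap R.subtype (jqNModC R d) := by
          rw [coeffMap_jqNModC]
          rfl
        rw [h1]
        exact coeffMap_mem_fracSubfield _ _ _
    exact hz'

end BaseChange

/-! ## 4. Descent and the main statement -/

section Main

variable (A : ValuationSubring Q̄)

/-- Finitely many elements of `laurentBaseChange Q̄ F₀` are defined over a common finite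
extension of `ℚ`. -/
theorem exists_finite_descent_finset {F₀ : IntermediateField ℚ (LaurentSeries ℚ)}
    {ι : Type*} (s : Finset ι) (x : ι → LaurentSeries Q̄)
    (hx : ∀ i ∈ s, x i ∈ laurentBaseChange Q̄ F₀) :
    ∃ E : IntermediateField ℚ Q̄, FiniteDimensional ℚ E ∧ ∀ i ∈ s, DescendsTo F₀ E (x i) := by
  classical
  induction s using Finset.induction_on with
  | empty => exact ⟨⊥, inferInstance, fun i hi => by simp at hi⟩
  | insert a s ha ih =>
    obtain ⟨E₁, hE₁, h₁⟩ := ih fun i hi => hx i (Finset.mem_insert_of_mem hi)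
    obtain ⟨E₂, hE₂, h₂⟩ := exists_finite_descent (hx a (Finset.mem_insert_self a s))
    refine ⟨E₁ ⊔ E₂, IntermediateField.finiteDimensional_sup E₁ E₂, fun i hi => ?_⟩
    rcases Finset.mem_insert.mp hi with rfl | hi
    · exact h₂.mono le_sup_right
    · exact (h₁ i hi).mono le_sup_left

/-- **INT-Q.**  Let `A` be a valuation subring of `ℚ̄` over `ℓ`.  An element `f` of
`ℚ̄(X₀(N)) ⊆ ℚ̄((q))` which is a root of a monic polynomial whose coefficients are `A`-integral
`q`-series lying in `ℚ̄(X₀(N))` is itself an `A`-integral `q`-series. -/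
theorem intQ {ℓ : ℕ} (hℓ : ℓ ≠ 0) (hA : A.LiesOverPrime ℓ) (N : ℕ) [NeZero N]
    (f : LaurentSeries Q̄) (hf : f ∈ modularFunctionFieldBar N)
    (p : Polynomial (LaurentSeries A)) (hp : p.Monic)
    (hcoef : ∀ i, coeffMap A.subtype (p.coeff i) ∈ modularFunctionFieldBar N)
    (hpf : p.eval₂ (coeffMap A.subtype) f = 0) :
    ∃ y : LaurentSeries A, coeffMap A.subtype y = f := by
  classical
  -- a common field of definition
  obtain ⟨E, hE, hdesc⟩ := exists_finite_descent_finset
    (F₀ := modularFunctionFieldFull N) (Finset.univ : Finset (Option (Fin (p.natDegree + 1))))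
    (fun o => match o with
      | none => f
      | some i => coeffMap A.subtype (p.coeff i))
    (fun o _ => by
      cases o with
      | none => exact hf
      | some i => exact hcoef i)
  have hfE : DescendsTo (modularFunctionFieldFull N) E f := hdesc none (Finset.mem_univ _)
  have hcE : ∀ i : ℕ, ∃ V : LaurentSeries (RE A E), coeffMap (toA A E) V = p.coeff i := by
    intro i
    by_cases hi : i < p.natDegree + 1
    · have h := hdesc (some ⟨i, hi⟩) (Finset.mem_univ _)
      obtain ⟨V, -, hV⟩ := exists_series_descent (p.coeff i) h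
      exact ⟨V, hV⟩
    · refine ⟨0, ?_⟩
      rw [map_zero, Polynomial.coeff_eq_zero_of_natDegree_lt (by omega)]
  -- the DVR
  haveI : IsDiscreteValuationRing (RE A E) := isDiscreteValuationRing_RE A E hℓ hA
  -- lift the polynomial
  have hlift : p ∈ Polynomial.lifts (coeffMap (toA A E)) := by
    rw [Polynomial.lifts_iff_coeff_lifts]
    intro i
    obtain ⟨V, hV⟩ := hcE i
    exact ⟨V, hV⟩
  obtain ⟨pE, hpE, -, hpEm⟩ := Polynomial.lifts_and_natDegree_eq_and_monic hlift hp
  obtain ⟨fE, hfEmem, hfEf⟩ := hfE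
  have hinjE : Function.Injective (coeffMap (algebraMap E Q̄)) :=
    coeffMap_injective _ (algebraMap E Q̄).injective
  -- the integrality equation over `R_E((q))`
  have heq : pE.eval₂ (coeffMap (RE A E).subtype) fE = 0 := by
    apply hinjE
    rw [map_zero, Polynomial.hom_eval₂, hfEf]
    have hcomp : (coeffMap (algebraMap E Q̄)).comp (coeffMap (RE A E).subtype)
        = (coeffMap A.subtype).comp (coeffMap (toA A E)) := by
      ext V : 1
      simp only [RingHom.comp_apply]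
      rw [coeffMap_coeffMap, coeffMap_coeffMap, subtype_comp_toA]
    rw [hcomp, ← Polynomial.eval₂_map, hpE]
    exact hpf
  -- `fE` is a fraction
  obtain ⟨a, b, hb, hab⟩ := laurentBaseChange_le_fracSubfield (RE A E) N hfEmem
  obtain ⟨yE, hyE⟩ := exists_coeffMap_eq_of_isIntegral (RE A E).subtype Subtype.val_injective
    fE a b hb hab pE hpEm heq
  refine ⟨coeffMap (toA A E) yE, ?_⟩
  rw [coeffMap_coeffMap, subtype_comp_toA, ← coeffMap_coeffMap, hyE, hfEf]

end Main

end Fermat.Agent.S37.H280.IntQ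

end
end
-- ===== PACK-END S37/H280/IntQ.lean

-- ===== PACK-BEGIN S29/H942/MeroRootUnique.lean
section


/-!
# Uniqueness of meromorphic `p`-th roots up to a root of unity
-/

set_option autoImplicit false

noncomputable section

open Filter Topology Set Complex MeromorphicOn Function

namespace Fermat.Agent.S29.H942

/-- `h` is a `p`-th root of `f` on `V`, in normal form: `h` is meromorphic in normal form on `V`
and `h ^ p = f` on a punctured neighbourhood of every point of `V`. -/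
def IsNFRootOn (h f : ℂ → ℂ) (V : Set ℂ) (p : ℕ) : Prop :=
  MeromorphicNFOn h V ∧ ∀ x ∈ V, (h ^ p) =ᶠ[𝓝[≠] x] f

lemma IsNFRootOn.mono {h f : ℂ → ℂ} {V W : Set ℂ} {p : ℕ} (hh : IsNFRootOn h f V p)
    (hWV : W ⊆ V) : IsNFRootOn h f W p :=
  ⟨fun _ hz => hh.1 (hWV hz), fun x hx => hh.2 x (hWV hx)⟩

/-- Equality on a codiscrete subset of an open set gives equality on punctured neighbourhoods. -/
lemma eventuallyEq_nhdsNE_of_codiscreteWithin {f g : ℂ → ℂ} {V : Set ℂ} (hV : IsOpen V)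
    (h : f =ᶠ[codiscreteWithin V] g) {x : ℂ} (hx : x ∈ V) : f =ᶠ[𝓝[≠] x] g := by
  have h1 := (mem_codiscreteWithin_iff_forall_mem_nhdsNE.1 h) x hx
  have h2 : V ∈ 𝓝[≠] x := mem_nhdsWithin_of_mem_nhds (hV.mem_nhds hx)
  filter_upwards [h1, h2] with y hy hyV
  rcases hy with hy | hy
  · exact hy
  · exact absurd hyV hy

/-- From a meromorphic root to a root in normal form. -/
lemma isNFRootOn_toMeromorphicNFOn {h f : ℂ → ℂ} {V : Set ℂ} (hV : IsOpen V) {p : ℕ}
    (hh : MeromorphicOn h V) (hpow : (h ^ p) =ᶠ[codiscreteWithin V] f) :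
    IsNFRootOn (toMeromorphicNFOn h V) f V p := by
  refine ⟨meromorphicNFOn_toMeromorphicNFOn h V, fun x hx => ?_⟩
  have h1 := hh.toMeromorphicNFOn_eq_self_on_nhdsNE hx
  have h2 := eventuallyEq_nhdsNE_of_codiscreteWithin hV hpow hx
  filter_upwards [h1, h2] with y hy1 hy2
  simp only [Pi.pow_apply] at hy2 ⊢
  rw [hy1, hy2]

/-- The order of a root is finite if the order of the function is finite. -/
lemma IsNFRootOn.order_ne_top {h f : ℂ → ℂ} {V : Set ℂ} {p : ℕ} (hp : p ≠ 0)
    (hh : IsNFRootOn h f V p) {x : ℂ} (hx : x ∈ V) (hf : meromorphicOrderAt f x ≠ ⊤) :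
    meromorphicOrderAt h x ≠ ⊤ := by
  intro htop
  apply hf
  rw [← meromorphicOrderAt_congr (hh.2 x hx), meromorphicOrderAt_pow (hh.1 hx).meromorphicAt,
    htop]
  exact WithTop.mul_top (by exact_mod_cast hp)

/-- A root of a function of finite order does not vanish on a punctured neighbourhood. -/
lemma IsNFRootOn.eventually_ne_zero {h f : ℂ → ℂ} {V : Set ℂ} {p : ℕ} (hp : p ≠ 0)
    (hh : IsNFRootOn h f V p) {x : ℂ} (hx : x ∈ V) (hf : meromorphicOrderAt f x ≠ ⊤) :
    ∀ᶠ y in 𝓝[≠] x, h y ≠ 0 :=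
  (meromorphicOrderAt_ne_top_iff_eventually_ne_zero (hh.1 hx).meromorphicAt).1
    (hh.order_ne_top hp hx hf)

/-- A function in normal form whose `p`-th power is `1` on a punctured neighbourhood of `x` is
analytic at `x` and its `p`-th power is `1` at `x`. -/
lemma analyticAt_of_nf_pow_eq_one {q : ℂ → ℂ} {x : ℂ} {p : ℕ} (hp : p ≠ 0)
    (hq : MeromorphicNFAt q x) (hpow : (q ^ p) =ᶠ[𝓝[≠] x] (fun _ => (1 : ℂ))) :
    AnalyticAt ℂ q x ∧ q x ^ p = 1 := by
  have h1 : meromorphicOrderAt (q ^ p) x = 0 := by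
    rw [meromorphicOrderAt_congr hpow]
    have : AnalyticAt ℂ (fun _ : ℂ => (1 : ℂ)) x := analyticAt_const
    rw [this.meromorphicOrderAt_eq]
    simp [analyticOrderAt_eq_zero]
  rw [meromorphicOrderAt_pow hq.meromorphicAt] at h1
  have h2 : meromorphicOrderAt q x = 0 := by
    have hne : meromorphicOrderAt q x ≠ ⊤ := by
      intro h3
      rw [h3, WithTop.mul_top (by exact_mod_cast hp)] at h1
      exact absurd h1 (by simp)
    obtain ⟨n, hn⟩ := WithTop.ne_top_iff_exists.1 hne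
    rw [← hn] at h1 ⊢
    have h4 : (((p : ℤ) * n : ℤ) : WithTop ℤ) = 0 := by
      rw [← h1]
      push_cast
      rfl
    have h5 : (p : ℤ) * n = 0 := by exact_mod_cast h4
    have h6 : n = 0 := by
      rcases mul_eq_zero.1 h5 with h | h
      · exact absurd (by exact_mod_cast h) hp
      · exact h
    rw [h6]
    rfl
  have hA : AnalyticAt ℂ q x := hq.meromorphicOrderAt_nonneg_iff_analyticAt.1 (le_of_eq h2.symm)
  refine ⟨hA, ?_⟩
  have hc : ContinuousAt (q ^ p) x := (hA.pow p).continuousAt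
  have hc1 : ContinuousAt (fun _ : ℂ => (1 : ℂ)) x := continuousAt_const
  have := (hc.eventuallyEq_nhds_iff_eventuallyEq_nhdsNE hc1).1 hpow
  exact this.self_of_nhds

/-- **Uniqueness.** Two roots in normal form of the same function (of finite order everywhere)
on a preconnected open set differ by a `p`-th root of unity. -/
theorem IsNFRootOn.exists_eq_mul {h₁ h₂ f : ℂ → ℂ} {V : Set ℂ} {p : ℕ} (hp : p ≠ 0)
    (hV : IsOpen V) (hVc : IsPreconnected V) (hf : ∀ x ∈ V, meromorphicOrderAt f x ≠ ⊤)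
    (hh₁ : IsNFRootOn h₁ f V p) (hh₂ : IsNFRootOn h₂ f V p) :
    ∃ ζ : ℂ, ζ ^ p = 1 ∧ ∀ x ∈ V, h₂ x = ζ * h₁ x := by
  have hm₁ : MeromorphicOn h₁ V := hh₁.1.meromorphicOn
  have hm₂ : MeromorphicOn h₂ V := hh₂.1.meromorphicOn
  have hmq : MeromorphicOn (h₂ / h₁) V := hm₂.div hm₁
  set q := toMeromorphicNFOn (h₂ / h₁) V with hq
  have hqNF : MeromorphicNFOn q V := meromorphicNFOn_toMeromorphicNFOn _ _
  -- `q = h₂ / h₁` on punctured neighbourhoods
  have hq1 : ∀ x ∈ V, q =ᶠ[𝓝[≠] x] (h₂ / h₁) := fun x hx =>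
    hmq.toMeromorphicNFOn_eq_self_on_nhdsNE hx
  -- `q ^ p = 1` on punctured neighbourhoods
  have hq2 : ∀ x ∈ V, (q ^ p) =ᶠ[𝓝[≠] x] (fun _ => (1 : ℂ)) := by
    intro x hx
    filter_upwards [hq1 x hx, hh₁.2 x hx, hh₂.2 x hx, hh₁.eventually_ne_zero hp hx (hf x hx)]
      with y hy1 hy2 hy3 hy4
    simp only [Pi.pow_apply, Pi.div_apply] at hy1 hy2 hy3 ⊢
    rw [hy1, div_pow, hy2, hy3, div_self]
    rw [← hy2]
    exact pow_ne_zero p hy4
  have hq3 : ∀ x ∈ V, AnalyticAt ℂ q x ∧ q x ^ p = 1 := fun x hx =>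
    analyticAt_of_nf_pow_eq_one hp (hqNF hx) (hq2 x hx)
  -- `q` is constant
  have hqc : ContinuousOn q V := fun x hx => (hq3 x hx).1.continuousAt.continuousWithinAt
  have hT : IsDiscrete {t : ℂ | t ^ p = 1} := by
    have hfin : {t : ℂ | t ^ p = 1}.Finite := by
      refine Set.Finite.subset (Polynomial.nthRootsFinset p (1 : ℂ)).finite_toSet ?_
      intro t ht
      simp only [Finset.mem_coe]
      exact (Polynomial.mem_nthRootsFinset (Nat.pos_of_ne_zero hp) _).2 ht
    exact hfin.isDiscrete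
  obtain ⟨ζ, hζ, hqζ⟩ := hVc.eqOn_const_of_mapsTo hT hqc (fun x hx => (hq3 x hx).2)
    ⟨1, by simp⟩
  have hζ0 : ζ ≠ 0 := by
    intro h0
    have hζ' : ζ ^ p = 1 := hζ
    rw [h0, zero_pow hp] at hζ'
    exact zero_ne_one hζ'
  refine ⟨ζ, hζ, fun x hx => ?_⟩
  -- both sides are in normal form at `x` and agree on a punctured neighbourhood
  have hNF2 : MeromorphicNFAt h₂ x := hh₂.1 hx
  have hNF1 : MeromorphicNFAt ((fun _ : ℂ => ζ) • h₁) x :=
    (hh₁.1 hx).smul_analytic analyticAt_const hζ0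
  have hVn : V ∈ 𝓝[≠] x := mem_nhdsWithin_of_mem_nhds (hV.mem_nhds hx)
  have heq : h₂ =ᶠ[𝓝[≠] x] ((fun _ : ℂ => ζ) • h₁) := by
    filter_upwards [hq1 x hx, hh₁.eventually_ne_zero hp hx (hf x hx), hVn] with y hy1 hy2 hyV
    have h3 : q y = ζ := hqζ hyV
    simp only [Pi.div_apply] at hy1
    simp only [Pi.smul_apply', smul_eq_mul]
    rw [← h3, hy1, div_mul_cancel₀ _ hy2]
  have := (hNF2.eventuallyEq_nhdsNE_iff_eventuallyEq_nhds hNF1).1 heq
  simpa using this.self_of_nhds

end Fermat.Agent.S29.H942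

end
end
-- ===== PACK-END S29/H942/MeroRootUnique.lean

-- ===== PACK-BEGIN S29/H942/MeroRootGlue.lean
section


/-!
# Gluing meromorphic `p`-th roots along an exhaustion by simply connected open sets
-/

set_option autoImplicit false

noncomputable section

open Filter Topology Set Complex MeromorphicOn Function

namespace Fermat.Agent.S29.H942

/-- Existence of a root in normal form on a simply connected open set on which `f` has finitely
many zeros and poles. -/
theorem exists_isNFRootOn_of_finite {f : ℂ → ℂ} {U : Set ℂ}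
    (hUc : IsSimplyConnected U) (hU : IsOpen U) (hf : MeromorphicOn f U)
    (h₂f : ∀ x ∈ U, meromorphicOrderAt f x ≠ ⊤) (h₃f : (divisor f U).support.Finite)
    {p : ℕ} (hp : p ≠ 0) (hdiv : ∀ x ∈ U, (p : ℤ) ∣ (meromorphicOrderAt f x).untop₀) :
    ∃ h : ℂ → ℂ, IsNFRootOn h f U p := by
  have hdiv' : ∀ z, (p : ℤ) ∣ divisor f U z := by
    intro z
    by_cases hz : z ∈ U
    · rw [divisor_apply hf hz]
      exact hdiv z hz
    · have : divisor f U z = 0 := by
        rw [divisor_def]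
        simp [hz]
      rw [this]
      exact dvd_zero _
  obtain ⟨h, hh, hpow⟩ := exists_meromorphicOn_pow_eq_of_finite hUc hU hf
    (fun u => h₂f u u.2) h₃f hp hdiv'
  exact ⟨_, isNFRootOn_toMeromorphicNFOn hU hh hpow⟩

/-- Multiplying a root by a root of unity gives a root. -/
lemma IsNFRootOn.const_mul {h f : ℂ → ℂ} {V : Set ℂ} {p : ℕ} (hh : IsNFRootOn h f V p)
    {ζ : ℂ} (hζ : ζ ^ p = 1) (hζ0 : ζ ≠ 0) : IsNFRootOn (fun z => ζ * h z) f V p := by
  refine ⟨fun x hx => ?_, fun x hx => ?_⟩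
  · have := (hh.1 hx).smul_analytic (g := fun _ : ℂ => ζ) analyticAt_const hζ0
    exact this
  · filter_upwards [hh.2 x hx] with y hy
    simp only [Pi.pow_apply] at hy ⊢
    rw [mul_pow, hζ, one_mul, hy]

/-- A root (of a function of finite order) on a nonempty open set is non-zero somewhere. -/
lemma IsNFRootOn.exists_ne_zero {h f : ℂ → ℂ} {V : Set ℂ} {p : ℕ} (hp : p ≠ 0)
    (hh : IsNFRootOn h f V p) (hV : IsOpen V) (hne : V.Nonempty)
    (hf : ∀ x ∈ V, meromorphicOrderAt f x ≠ ⊤) : ∃ y ∈ V, h y ≠ 0 := by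
  obtain ⟨x, hx⟩ := hne
  have h1 := hh.eventually_ne_zero hp hx (hf x hx)
  have h2 : V ∈ 𝓝[≠] x := mem_nhdsWithin_of_mem_nhds (hV.mem_nhds hx)
  obtain ⟨y, hy1, hy2⟩ := (h1.and h2).exists
  exact ⟨y, hy2, hy1⟩

/-- **Gluing.** -/
theorem exists_isNFRootOn_iUnion {f : ℂ → ℂ} {p : ℕ} (hp : p ≠ 0) (V : ℕ → Set ℂ)
    (hVo : ∀ n, IsOpen (V n)) (hVsc : ∀ n, IsSimplyConnected (V n)) (hmono : Monotone V)
    (hf : ∀ n, MeromorphicOn f (V n)) (hford : ∀ n, ∀ x ∈ V n, meromorphicOrderAt f x ≠ ⊤)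
    (hfin : ∀ n, (divisor f (V n)).support.Finite)
    (hdiv : ∀ n, ∀ x ∈ V n, (p : ℤ) ∣ (meromorphicOrderAt f x).untop₀) :
    ∃ h : ℂ → ℂ, IsNFRootOn h f (⋃ n, V n) p := by
  classical
  -- roots on each `V n`
  have h1 : ∀ n, ∃ h : ℂ → ℂ, IsNFRootOn h f (V n) p := fun n =>
    exists_isNFRootOn_of_finite (hVsc n) (hVo n) (hf n) (hford n) (hfin n) hp (hdiv n)
  choose H hH using h1
  have hpc : ∀ n, IsPreconnected (V n) := fun n =>
    (hVsc n).isPathConnected.isConnected.isPreconnected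
  have hV0 : ∀ n, V 0 ⊆ V n := fun n => hmono (Nat.zero_le n)
  -- normalisation against `H 0` on `V 0`
  have h2 : ∀ n, ∃ ζ : ℂ, ζ ^ p = 1 ∧ ∀ x ∈ V 0, H n x = ζ * H 0 x := fun n =>
    IsNFRootOn.exists_eq_mul hp (hVo 0) (hpc 0) (hford 0) (hH 0) ((hH n).mono (hV0 n))
  choose ζ hζ hζH using h2
  have hζ0 : ∀ n, ζ n ≠ 0 := by
    intro n h0
    have := hζ n
    rw [h0, zero_pow hp] at this
    exact zero_ne_one this
  set H' : ℕ → ℂ → ℂ := fun n z => (ζ n)⁻¹ * H n z with hH'def
  have hH' : ∀ n, IsNFRootOn (H' n) f (V n) p := fun n =>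
    (hH n).const_mul (by rw [inv_pow, hζ n, inv_one]) (inv_ne_zero (hζ0 n))
  have hH'0 : ∀ n, ∀ x ∈ V 0, H' n x = H 0 x := by
    intro n x hx
    simp only [hH'def]
    rw [hζH n x hx, ← mul_assoc, inv_mul_cancel₀ (hζ0 n), one_mul]
  obtain ⟨y₀, hy₀V, hy₀⟩ := (hH 0).exists_ne_zero hp (hVo 0) (hVsc 0).nonempty (hford 0)
  -- compatibility
  have h3 : ∀ n m, n ≤ m → ∀ x ∈ V n, H' m x = H' n x := by
    intro n m hnm x hx
    obtain ⟨ξ, -, hξH⟩ := IsNFRootOn.exists_eq_mul hp (hVo n) (hpc n) (hford n) (hH' n)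
      ((hH' m).mono (hmono hnm))
    have h4 := hξH y₀ (hV0 n hy₀V)
    rw [hH'0 m y₀ hy₀V, hH'0 n y₀ hy₀V] at h4
    have h5 : ξ = 1 := by
      have : (ξ - 1) * H 0 y₀ = 0 := by rw [sub_mul, one_mul, ← h4, sub_self]
      rcases mul_eq_zero.1 this with h | h
      · exact sub_eq_zero.1 h
      · exact absurd h hy₀
    rw [hξH x hx, h5, one_mul]
  -- the glued function
  set idx : ℂ → ℕ := fun z => if hz : ∃ n, z ∈ V n then Nat.find hz else 0 with hidx
  set h : ℂ → ℂ := fun z => H' (idx z) z with hh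
  have h6 : ∀ m, ∀ x ∈ V m, h x = H' m x := by
    intro m x hx
    have hex : ∃ n, x ∈ V n := ⟨m, hx⟩
    have hi : idx x = Nat.find hex := by simp only [hidx, dif_pos hex]
    have hle : idx x ≤ m := by rw [hi]; exact Nat.find_min' hex hx
    have hmem : x ∈ V (idx x) := by rw [hi]; exact Nat.find_spec hex
    exact (h3 (idx x) m hle x hmem).symm
  refine ⟨h, fun x hx => ?_, fun x hx => ?_⟩
  · obtain ⟨m, hm⟩ := mem_iUnion.1 hx
    have heq : h =ᶠ[𝓝 x] H' m := by
      filter_upwards [(hVo m).mem_nhds hm] with y hy using h6 m y hy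
    exact (meromorphicNFAt_congr heq).2 ((hH' m).1 hm)
  · obtain ⟨m, hm⟩ := mem_iUnion.1 hx
    have hVn : V m ∈ 𝓝[≠] x := mem_nhdsWithin_of_mem_nhds ((hVo m).mem_nhds hm)
    filter_upwards [(hH' m).2 x hm, hVn] with y hy hyV
    simp only [Pi.pow_apply] at hy ⊢
    rw [h6 m y hyV, hy]

end Fermat.Agent.S29.H942

end
end
-- ===== PACK-END S29/H942/MeroRootGlue.lean

-- ===== PACK-BEGIN S41/Spec/PD.lean
section




/-!
# Row S41, blocks PD and LIFT — frozen interface (sub-architect helper221)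

Plan and proofs on paper: `coord/S41-PD.md` (origin/helper221).  Row plan: `coord/S41.md` (origin/helper41).

v3 (19:15Z) = v1 verbatim: built on `Spec/HK.lean` (AUTHORITATIVE, row-lead note 18:53Z).  v2 (19:02Z-19:15Z, based on
the superseded `Spec/Defs.lean`/`Spec/Blocks.lean`) is withdrawn; its leaves were definitionally the same except
`trf = transferAlong`, `cdelta = conjDelta`.  Never import `Spec/Defs.lean` or `Spec/Blocks.lean`.

## Top level (what CORE / GLUE consume)

* `PDStatement`      : for every field `F` a family of forms `B n` on `Hom(Γ₀(n), F)` which on the cuspidal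
  classes (`IsCuspidal` of `Spec/HK.lean`) is bilinear, skew-symmetric, NONDEGENERATE, and satisfies
  `B (N q) (r_i x) y = B N x (t_i y)` (`i = 1, 2`; `q` prime, `q ∤ N`, `N ≠ 0`).
* `PDHeckeStatement` : the same plus `B n (T_l x) y = B n x (T_l y)` (follows from PD and HK-1, HK-4).
* `LiftStatement`    : every cuspidal class mod `p` lifts to a cuspidal class with coefficients `ℤ`.
* `CuspFreeStatement`: the cuspidal classes with coefficients `ℤ` form a finite free `ℤ`-module.

## The Manin model (conventions)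

`Γ ≤ SL(2,ℤ)` of finite index with `-1 ∈ Γ`, `X = SL(2,ℤ) ⧸ Γ` (LEFT cosets, left action), functions
`m : X → A`, `(m|g)(x) = m (g • x)`.  `S, T` are Mathlib's `ModularGroup.S, T`; `U := S * T` (`S² = U³ = -1`,
`T = S⁻¹ U`).  Cocycles are as in `Fermat.Agent.S21.H585` (on main): `f (g * h) x = f h x + f g (h • x)`.

* `IsManinRep Γ φ m`  : `φ = ` restriction to `Γ`, evaluated at the base point, of the cocycle `f` with
  `f S = 0`, `f U = m|U - m`  (then `f T = f U`).
* `IsParData Γ m e`   : `e|T - e = m|U - m`  (`⇔ φ` parabolic).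
* `maninForm Γ m e'   = ∑ₓ m x * (e' x - e' (S • x))`,   `maninPairing Γ φ ψ` := `maninForm Γ m e'` for
  representatives (`Classical.choose`).
* β-FORMULA (the invariance principle): if `ζ (γ γ') = ζ γ + ζ γ' + φ γ * ψ γ'`, `ζ = 0` on torsion, then
  `∑_{cusps c} ζ (γ_c) = - maninPairing Γ φ ψ`, `γ_c = h⁻¹ T ^ w h` the positive primitive parabolic
  generators.  Conjugation by `δ = diag(q, 1)` preserves "positive primitive parabolic".
-/

set_option autoImplicit false

namespace Fermat.Agent.S41.Spec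

open CongruenceSubgroup Matrix.SpecialLinearGroup ModularCurve.Period ModularGroup
open Fermat.Agent.S29.H642
open scoped MatrixGroups

universe u

/-! ## 1. Top-level statements -/

/-- Cuspidal classes on an arbitrary subgroup `Γ ≤ SL(2,ℤ)` (for `Γ = Γ₀(n)` this is `IsCuspidal`). -/
def IsCuspidalOn {A : Type*} [AddCommGroup A] (Γ : Subgroup SL(2, ℤ)) (φ : Additive Γ →+ A) : Prop :=
  IsParabolicHom Γ φ ∧ ∀ γ : Γ, IsOfFinOrder γ → φ (Additive.ofMul γ) = 0

theorem isCuspidal_iff_isCuspidalOn {A : Type*} [AddCommGroup A] {n : ℕ}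
    (φ : Additive (Gamma0 n) →+ A) : IsCuspidal φ ↔ IsCuspidalOn (Gamma0 n) φ := Iff.rfl

/-- `B` is a Poincaré-duality family: bilinear, skew-symmetric and nondegenerate on the cuspidal classes of
every level `n ≠ 0`, with `r_i` left adjoint to `t_i`. -/
def IsPDFamily (F : Type u) [Field F]
    (B : ∀ n : ℕ, (Additive (Gamma0 n) →+ F) → (Additive (Gamma0 n) →+ F) → F) : Prop :=
  (∀ n : ℕ, n ≠ 0 → ∀ x x' y : Additive (Gamma0 n) →+ F, IsCuspidal x → IsCuspidal x' → IsCuspidal y →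
      B n (x + x') y = B n x y + B n x' y) ∧
  (∀ n : ℕ, n ≠ 0 → ∀ (c : F) (x y : Additive (Gamma0 n) →+ F), IsCuspidal x → IsCuspidal y →
      B n (c • x) y = c * B n x y) ∧
  (∀ n : ℕ, n ≠ 0 → ∀ x y : Additive (Gamma0 n) →+ F, IsCuspidal x → IsCuspidal y →
      B n y x = - B n x y) ∧
  (∀ n : ℕ, n ≠ 0 → ∀ x : Additive (Gamma0 n) →+ F, IsCuspidal x →
      (∀ y : Additive (Gamma0 n) →+ F, IsCuspidal y → B n x y = 0) → x = 0) ∧
  (∀ N q : ℕ, N ≠ 0 → q.Prime → ¬ q ∣ N →
    ∀ (x : Additive (Gamma0 N) →+ F) (y : Additive (Gamma0 (N * q)) →+ F),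
      IsCuspidal x → IsCuspidal y →
      B (N * q) (r₁ N q x) y = B N x (t₁ N q y) ∧ B (N * q) (r₂ N q x) y = B N x (t₂ N q y))

/-- `T_l` (`l ∤ n`) is self-adjoint for `B n` on cuspidal classes. -/
def IsHeckeSelfAdjoint (F : Type u) [Field F]
    (B : ∀ n : ℕ, (Additive (Gamma0 n) →+ F) → (Additive (Gamma0 n) →+ F) → F) : Prop :=
  ∀ (n l : ℕ) [Fact l.Prime] (hl : ¬ l ∣ n), n ≠ 0 →
    ∀ x y : Additive (Gamma0 n) →+ F, IsCuspidal x → IsCuspidal y →
      B n (heckeTransfer hl x) y = B n x (heckeTransfer hl y)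

/-- **Block PD.** -/
def PDStatement : Prop :=
  ∀ (F : Type u) [Field F],
    ∃ B : ∀ n : ℕ, (Additive (Gamma0 n) →+ F) → (Additive (Gamma0 n) →+ F) → F, IsPDFamily F B

/-- **Block PD with Hecke operators** (`= PD + HK-1a + HK-4`:
`B(T_l x, y) = B(t₁ r₂ x, y) = -B(y, t₁ r₂ x) = -B(r₁ y, r₂ x) = B(r₂ x, r₁ y) = B(x, t₂ r₁ y)`). -/
def PDHeckeStatement : Prop :=
  ∀ (F : Type u) [Field F],
    ∃ B : ∀ n : ℕ, (Additive (Gamma0 n) →+ F) → (Additive (Gamma0 n) →+ F) → F,
      IsPDFamily F B ∧ IsHeckeSelfAdjoint F B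

/-- (PD-HECKE) leaf: pure bookkeeping. -/
def PDHeckeOfPDStatement : Prop :=
  RestrictCuspStatement.{u} → TransferRestrictHeckeStatement.{u} →
    ∀ (F : Type u) [Field F]
      (B : ∀ n : ℕ, (Additive (Gamma0 n) →+ F) → (Additive (Gamma0 n) →+ F) → F),
      IsPDFamily F B → IsHeckeSelfAdjoint F B

/-- **Block LIFT** (a): cuspidal classes mod `p` lift to `ℤ`. -/
def LiftStatement : Prop :=
  ∀ (n p : ℕ), n ≠ 0 → ∀ xbar : Additive (Gamma0 n) →+ ZMod p, IsCuspidal xbar →
    ∃ x : Additive (Gamma0 n) →+ ℤ, IsCuspidal x ∧ (Int.castAddHom (ZMod p)).comp x = xbar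

/-- The submodule of cuspidal classes. -/
def cuspidalSubmodule (R : Type*) [Semiring R] (n : ℕ) (A : Type*) [AddCommGroup A] [Module R A] :
    Submodule R (Additive (Gamma0 n) →+ A) where
  carrier := {φ | IsCuspidal φ}
  zero_mem' := ⟨fun _ _ => rfl, fun _ _ => rfl⟩
  add_mem' := by
    intro φ ψ hφ hψ
    refine ⟨fun γ hγ => ?_, fun γ hγ => ?_⟩
    · show φ (Additive.ofMul γ) + ψ (Additive.ofMul γ) = 0
      rw [hφ.1 γ hγ, hψ.1 γ hγ, add_zero]
    · show φ (Additive.ofMul γ) + ψ (Additive.ofMul γ) = 0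
      rw [hφ.2 γ hγ, hψ.2 γ hγ, add_zero]
  smul_mem' := by
    intro c φ hφ
    refine ⟨fun γ hγ => ?_, fun γ hγ => ?_⟩
    · show c • φ (Additive.ofMul γ) = 0
      rw [hφ.1 γ hγ, smul_zero]
    · show c • φ (Additive.ofMul γ) = 0
      rw [hφ.2 γ hγ, smul_zero]

theorem mem_cuspidalSubmodule {R : Type*} [Semiring R] {n : ℕ} {A : Type*} [AddCommGroup A]
    [Module R A] {φ : Additive (Gamma0 n) →+ A} :
    φ ∈ cuspidalSubmodule R n A ↔ IsCuspidal φ := Iff.rfl

/-- **Block LIFT** (b): `C_n(ℤ)` is a finite free `ℤ`-module. -/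
def CuspFreeStatement : Prop :=
  ∀ n : ℕ, n ≠ 0 → Module.Finite ℤ (cuspidalSubmodule ℤ n ℤ) ∧ Module.Free ℤ (cuspidalSubmodule ℤ n ℤ)

/-! ## 2. The Manin model: definitions -/

section ManinDefs

variable (Γ : Subgroup SL(2, ℤ)) {A : Type*} [AddCommGroup A]

/-- `f` is the normalised cocycle of the Manin symbol `m`: `f S = 0`, `f (S T) = m|ST - m`. -/
def IsManinCocycle (f : SL(2, ℤ) → SL(2, ℤ) ⧸ Γ → A) (m : SL(2, ℤ) ⧸ Γ → A) : Prop :=
  (∀ (g h : SL(2, ℤ)) (x : SL(2, ℤ) ⧸ Γ), f (g * h) x = f h x + f g (h • x)) ∧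
  (∀ x : SL(2, ℤ) ⧸ Γ, f S x = 0) ∧
  ∀ x : SL(2, ℤ) ⧸ Γ, f (S * T) x = m ((S * T) • x) - m x

/-- The class `φ ∈ Hom(Γ, A)` is represented by the Manin symbol `m : X → A`. -/
def IsManinRep (φ : Additive Γ →+ A) (m : SL(2, ℤ) ⧸ Γ → A) : Prop :=
  ∃ f : SL(2, ℤ) → SL(2, ℤ) ⧸ Γ → A, IsManinCocycle Γ f m ∧
    ∀ γ : Γ, φ (Additive.ofMul γ) = f (γ : SL(2, ℤ)) ((1 : SL(2, ℤ)) : SL(2, ℤ) ⧸ Γ)

/-- Parabolic data: `e|T - e = m|ST - m`. -/
def IsParData (m e : SL(2, ℤ) ⧸ Γ → A) : Prop :=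
  ∀ x : SL(2, ℤ) ⧸ Γ, e (T • x) - e x = m ((S * T) • x) - m x

/-- `m ∈ M^S + M^{ST}`. -/
def IsInvariantSum (m : SL(2, ℤ) ⧸ Γ → A) : Prop :=
  ∃ n₁ n₂ : SL(2, ℤ) ⧸ Γ → A, (∀ x, n₁ (S • x) = n₁ x) ∧ (∀ x, n₂ ((S * T) • x) = n₂ x) ∧
    m = n₁ + n₂

variable {R : Type*} [CommRing R]

/-- The Manin form `∑ₓ m x * (e' x - e' (S • x))`. -/
noncomputable def maninForm (m e' : SL(2, ℤ) ⧸ Γ → R) : R :=
  ∑ᶠ x : SL(2, ℤ) ⧸ Γ, m x * (e' x - e' (S • x))

theorem maninForm_eq_sum [Fintype (SL(2, ℤ) ⧸ Γ)] (m e' : SL(2, ℤ) ⧸ Γ → R) :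
    maninForm Γ m e' = ∑ x : SL(2, ℤ) ⧸ Γ, m x * (e' x - e' (S • x)) :=
  finsum_eq_sum_of_fintype _

/-- The pairing on `Hom(Γ, R)` (meaningful on cuspidal classes). -/
noncomputable def maninPairing (φ ψ : Additive Γ →+ R) : R :=
  open Classical in
  if h : ∃ m m' e' : SL(2, ℤ) ⧸ Γ → R, IsManinRep Γ φ m ∧ IsManinRep Γ ψ m' ∧ IsParData Γ m' e' then
    maninForm Γ h.choose h.choose_spec.choose_spec.choose
  else 0

/-- Heisenberg lifts of `(φ, ψ)`: `(φ, ψ, ζ) : Γ → Heis(R)` is a homomorphism, trivial on torsion. -/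
def IsHeisLift (φ ψ : Additive Γ →+ R) (ζ : Γ → R) : Prop :=
  (∀ γ γ' : Γ, ζ (γ * γ') = ζ γ + ζ γ' + φ (Additive.ofMul γ) * ψ (Additive.ofMul γ')) ∧
  ∀ γ : Γ, IsOfFinOrder γ → ζ γ = 0

/-- A system of representatives of the `T`-orbits on `X`: `X = ⨆ᵢ {T^j hᵢ Γ : j < wᵢ}` (disjoint),
`γᵢ = hᵢ⁻¹ T^{wᵢ} hᵢ ∈ Γ`. -/
def IsTOrbitSystem {ι : Type} (γ : ι → Γ) (h : ι → SL(2, ℤ)) (w : ι → ℕ) : Prop :=
  (∀ i, 0 < w i) ∧
  (∀ i, ((γ i : Γ) : SL(2, ℤ)) = (h i)⁻¹ * T ^ (w i) * h i) ∧
  ∀ x : SL(2, ℤ) ⧸ Γ, ∃! p : (Σ i, Fin (w i)),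
    x = ((T ^ (p.2 : ℕ) * h p.1 : SL(2, ℤ)) : SL(2, ℤ) ⧸ Γ)

end ManinDefs

/-- Positive parabolic elements: `tr = 2`, `≠ 1`, upper right entry `≥ 0`, lower left entry `≤ 0`
(`= h⁻¹ T^k h` with `k > 0`). -/
def IsPosParabolic (g : SL(2, ℤ)) : Prop :=
  g ≠ 1 ∧ (g : Matrix (Fin 2) (Fin 2) ℤ).trace = 2 ∧ 0 ≤ g 0 1 ∧ g 1 0 ≤ 0

/-- Primitive positive parabolic elements of `Γ`. -/
def IsPrimPosParabolic (Γ : Subgroup SL(2, ℤ)) (γ : Γ) : Prop :=
  IsPosParabolic (γ : SL(2, ℤ)) ∧
    ∀ (γ' : Γ) (k : ℕ), IsPosParabolic (γ' : SL(2, ℤ)) → γ' ^ k = γ → k = 1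

/-- A system of representatives of the `Γ`-conjugacy classes of primitive positive parabolic elements
(`↔` cusps of `Γ`). -/
def IsCuspSystem (Γ : Subgroup SL(2, ℤ)) {ι : Type} (γ : ι → Γ) : Prop :=
  (∀ i, IsPrimPosParabolic Γ (γ i)) ∧
  ∀ γ' : Γ, IsPrimPosParabolic Γ γ' → ∃! i, ∃ g : Γ, g * γ i * g⁻¹ = γ'

/-- `c_δ` with values in `SL(2,ℤ)`. -/
def conjDeltaSL (N q : ℕ) : Gamma0 (N * q) →* SL(2, ℤ) :=
  (Gamma0 N).subtype.comp (conjDelta N q)

/-- `Γ' = δ Γ₀(N q) δ⁻¹ = Γ₀(N) ∩ Γ⁰(q)`. -/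
def gamma0Delta (N q : ℕ) : Subgroup SL(2, ℤ) := (conjDeltaSL N q).range

/-- `c_δ : Γ₀(N q) → Γ'`. -/
def conjDeltaR (N q : ℕ) : Gamma0 (N * q) →* gamma0Delta N q := (conjDeltaSL N q).rangeRestrict

theorem gamma0Delta_le (N q : ℕ) : gamma0Delta N q ≤ Gamma0 N := by
  rintro _ ⟨γ, rfl⟩
  exact (conjDelta N q γ).2

/-! ## 3. Leaves -/

/-! ### LINALG (pure linear algebra on a finite set with two permutations) -/

/-- (LA-1) `((σ-1)M ∩ (υ-1)M)^⊥ ⊆ M^σ + M^υ`. -/
def ManinPerpStatement : Prop :=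
  ∀ (X : Type) [Fintype X] (σ υ : Equiv.Perm X) (F : Type u) [Field F] (m : X → F),
    (∀ s a b : X → F, (∀ x, s x = a (σ x) - a x) → (∀ x, s x = b (υ x) - b x) →
      ∑ x, m x * s x = 0) →
    ∃ n₁ n₂ : X → F, (∀ x, n₁ (σ x) = n₁ x) ∧ (∀ x, n₂ (υ x) = n₂ x) ∧ m = n₁ + n₂

/-- (LA-2) skew-symmetry of the Manin form on parabolic data; `τ = σ⁻¹ υ`, `σ² = 1`. -/
def ManinSkewStatement : Prop :=
  ∀ (X : Type) [Fintype X] (σ υ τ : Equiv.Perm X), (∀ x, σ (σ x) = x) → (∀ x, σ (τ x) = υ x) →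
    ∀ (R : Type u) [CommRing R] (m e m' e' : X → R),
      (∀ x, e (τ x) - e x = m (υ x) - m x) → (∀ x, e' (τ x) - e' x = m' (υ x) - m' x) →
      ∑ x, m' x * (e x - e (σ x)) = - ∑ x, m x * (e' x - e' (σ x))

/-- (LA-3) every `s ∈ (σ-1)M ∩ (υ-1)M` comes from parabolic data. -/
def ManinParDataOfStatement : Prop :=
  ∀ (X : Type) (σ υ τ : Equiv.Perm X), (∀ x, σ (σ x) = x) → (∀ x, σ (τ x) = υ x) →
    ∀ (A : Type u) [AddCommGroup A] (s a b : X → A),
      (∀ x, s x = a (σ x) - a x) → (∀ x, s x = b (υ x) - b x) →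
      ∃ m e : X → A, (∀ x, e (τ x) - e x = m (υ x) - m x) ∧ ∀ x, e (σ x) - e x = s x

/-- (LA-4) lifting parabolic data from `ℤ/p` to `ℤ` (transitive action). -/
def ParDataLiftStatement : Prop :=
  ∀ (Γ : Subgroup SL(2, ℤ)) [Γ.FiniteIndex] (p : ℕ) (mbar ebar : SL(2, ℤ) ⧸ Γ → ZMod p),
    IsParData Γ mbar ebar →
    ∃ m e : SL(2, ℤ) ⧸ Γ → ℤ, IsParData Γ m e ∧ (∀ x, ((m x : ℤ) : ZMod p) = mbar x) ∧
      ∀ x, ((e x : ℤ) : ZMod p) = ebar x

/-! ### TORS (finite order elements of `SL(2,ℤ)`) -/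

/-- (TORS) every element of finite order is conjugate to `± 1, ± S, ± ST, ± (ST)²`. -/
def TorsionClassStatement : Prop :=
  ∀ g : SL(2, ℤ), IsOfFinOrder g →
    ∃ h : SL(2, ℤ), h * g * h⁻¹ = 1 ∨ h * g * h⁻¹ = -1 ∨ h * g * h⁻¹ = S ∨ h * g * h⁻¹ = -S ∨
      h * g * h⁻¹ = S * T ∨ h * g * h⁻¹ = -(S * T) ∨ h * g * h⁻¹ = (S * T) ^ 2 ∨
      h * g * h⁻¹ = -(S * T) ^ 2

/-! ### DICT (dictionary `Hom(Γ, A)` ↔ Manin symbols) -/

/-- (D1) every torsion-trivial class has a Manin representative (Shapiro + normalisation). -/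
def ManinRepExistsStatement : Prop :=
  ∀ (Γ : Subgroup SL(2, ℤ)) [Γ.FiniteIndex], (-1 : SL(2, ℤ)) ∈ Γ →
    ∀ (A : Type u) [AddCommGroup A] (φ : Additive Γ →+ A),
      (∀ γ : Γ, IsOfFinOrder γ → φ (Additive.ofMul γ) = 0) → ∃ m, IsManinRep Γ φ m

/-- (D2) a Manin symbol representing `0` lies in `M^S + M^{ST}`. -/
def ManinRepZeroStatement : Prop :=
  ∀ (Γ : Subgroup SL(2, ℤ)) [Γ.FiniteIndex], (-1 : SL(2, ℤ)) ∈ Γ →
    ∀ (A : Type u) [AddCommGroup A] (m : SL(2, ℤ) ⧸ Γ → A),
      IsManinRep Γ (0 : Additive Γ →+ A) m → IsInvariantSum Γ m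

/-- (D2') a Manin symbol in `M^S + M^{ST}` represents only `0`. -/
def ManinRepInvariantStatement : Prop :=
  ∀ (Γ : Subgroup SL(2, ℤ)) [Γ.FiniteIndex], (-1 : SL(2, ℤ)) ∈ Γ →
    ∀ (A : Type u) [AddCommGroup A] (φ : Additive Γ →+ A) (m : SL(2, ℤ) ⧸ Γ → A),
      IsManinRep Γ φ m → IsInvariantSum Γ m → φ = 0

/-- (D2'') linearity and naturality of `IsManinRep`. -/
def ManinRepLinearStatement : Prop :=
  ∀ (Γ : Subgroup SL(2, ℤ)) (A B : Type u) [AddCommGroup A] [AddCommGroup B] (π : A →+ B)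
    (φ φ' : Additive Γ →+ A) (m m' : SL(2, ℤ) ⧸ Γ → A),
      IsManinRep Γ φ m → IsManinRep Γ φ' m' →
      IsManinRep Γ (φ + φ') (m + m') ∧ IsManinRep Γ (φ - φ') (m - m') ∧
      IsManinRep Γ (π.comp φ) (fun x => π (m x))

/-- (D3) every Manin symbol represents a class (uses the presentation of `SL(2,ℤ)`:
`Fermat.Agent.S21.H585.exists_cocycle`, on main). -/
def ManinRepRealizeStatement : Prop :=
  ∀ (Γ : Subgroup SL(2, ℤ)) [Γ.FiniteIndex], (-1 : SL(2, ℤ)) ∈ Γ →
    ∀ (A : Type u) [AddCommGroup A] (m : SL(2, ℤ) ⧸ Γ → A), ∃ φ : Additive Γ →+ A, IsManinRep Γ φ m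

/-- (D3') represented classes are torsion-trivial (uses TORS). -/
def ManinRepTorsionStatement : Prop :=
  ∀ (Γ : Subgroup SL(2, ℤ)) [Γ.FiniteIndex], (-1 : SL(2, ℤ)) ∈ Γ →
    ∀ (A : Type u) [AddCommGroup A] (φ : Additive Γ →+ A) (m : SL(2, ℤ) ⧸ Γ → A),
      IsManinRep Γ φ m → ∀ γ : Γ, IsOfFinOrder γ → φ (Additive.ofMul γ) = 0

/-- (D4) `φ` is parabolic iff `m` admits parabolic data. -/
def ManinRepParabolicStatement : Prop :=
  ∀ (Γ : Subgroup SL(2, ℤ)) [Γ.FiniteIndex], (-1 : SL(2, ℤ)) ∈ Γ →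
    ∀ (A : Type u) [AddCommGroup A] (φ : Additive Γ →+ A) (m : SL(2, ℤ) ⧸ Γ → A),
      IsManinRep Γ φ m → (IsParabolicHom Γ φ ↔ ∃ e, IsParData Γ m e)

/-! ### TRANSFER (restriction / corestriction in the Manin model) -/

/-- (TR-1) restriction is pull-back of Manin symbols. -/
def ManinRepResStatement : Prop :=
  ∀ (Γ' Γ : Subgroup SL(2, ℤ)) (hle : Γ' ≤ Γ) (A : Type u) [AddCommGroup A]
    (φ : Additive Γ →+ A) (m : SL(2, ℤ) ⧸ Γ → A), IsManinRep Γ φ m →
    IsManinRep Γ' (φ.comp (MonoidHom.toAdditive (Subgroup.inclusion hle)))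
      (fun x' => m (Subgroup.quotientMapOfLE hle x'))

/-- (TR-2) the transfer is push-forward of Manin symbols. -/
def ManinRepCoresStatement : Prop :=
  ∀ (Γ' Γ : Subgroup SL(2, ℤ)) [Γ'.FiniteIndex] (hle : Γ' ≤ Γ) (A : Type u) [AddCommGroup A]
    (ψ : Additive Γ' →+ A) (m' : SL(2, ℤ) ⧸ Γ' → A), IsManinRep Γ' ψ m' →
    IsManinRep Γ (transferAlong (Subgroup.inclusion hle) ψ)
      (fun x => ∑ᶠ (x' : SL(2, ℤ) ⧸ Γ') (_ : Subgroup.quotientMapOfLE hle x' = x), m' x')

/-- (TR-3) push-forward of parabolic data, and the adjunction for the Manin form. -/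
def ManinFormAdjointStatement : Prop :=
  ∀ (Γ' Γ : Subgroup SL(2, ℤ)) [Γ'.FiniteIndex] (hle : Γ' ≤ Γ) (R : Type u) [CommRing R]
    (m : SL(2, ℤ) ⧸ Γ → R) (m' e' : SL(2, ℤ) ⧸ Γ' → R), IsParData Γ' m' e' →
    IsParData Γ
      (fun x => ∑ᶠ (x' : SL(2, ℤ) ⧸ Γ') (_ : Subgroup.quotientMapOfLE hle x' = x), m' x')
      (fun x => ∑ᶠ (x' : SL(2, ℤ) ⧸ Γ') (_ : Subgroup.quotientMapOfLE hle x' = x), e' x') ∧
    maninForm Γ' (fun x' => m (Subgroup.quotientMapOfLE hle x')) e' =
      maninForm Γ m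
        (fun x => ∑ᶠ (x' : SL(2, ℤ) ⧸ Γ') (_ : Subgroup.quotientMapOfLE hle x' = x), e' x')

/-- (TR-4) transfer along `f' ∘ e`, `e` an isomorphism. -/
def TransferAlongEquivStatement : Prop :=
  ∀ (H H' G : Type) [Group H] [Group H'] [Group G] (e : H ≃* H') (f' : H' →* G)
    (A : Type u) [AddCommGroup A] (ψ : Additive H →+ A),
    transferAlong (f'.comp e.toMonoidHom) ψ =
      transferAlong f' (ψ.comp (MonoidHom.toAdditive e.symm.toMonoidHom))

/-! ### HEIS (Heisenberg lifts and the β-formula) -/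

/-- (HEIS) existence of a Heisenberg lift for which the β-formula holds on every `T`-orbit system
(uses `exists_hom_of_sq_cube` with values in `Perm (X × Heis R)`, and TORS). -/
def HeisLiftStatement : Prop :=
  ∀ (Γ : Subgroup SL(2, ℤ)) [Γ.FiniteIndex], (-1 : SL(2, ℤ)) ∈ Γ →
    ∀ (R : Type u) [CommRing R] (φ ψ : Additive Γ →+ R) (m m' e e' : SL(2, ℤ) ⧸ Γ → R),
      IsManinRep Γ φ m → IsManinRep Γ ψ m' → IsParData Γ m e → IsParData Γ m' e' →
      ∃ ζ : Γ → R, IsHeisLift Γ φ ψ ζ ∧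
        ∀ (ι : Type) [Fintype ι] (γ : ι → Γ) (h : ι → SL(2, ℤ)) (w : ι → ℕ),
          IsTOrbitSystem Γ γ h w → ∑ i, ζ (γ i) = - maninForm Γ m e'

/-- (HEIS-U) a torsion-trivial homomorphism sums to `0` over a `T`-orbit system. -/
def CuspSumZeroStatement : Prop :=
  ∀ (Γ : Subgroup SL(2, ℤ)) [Γ.FiniteIndex], (-1 : SL(2, ℤ)) ∈ Γ →
    ∀ (A : Type u) [AddCommGroup A] (χ : Additive Γ →+ A),
      (∀ γ : Γ, IsOfFinOrder γ → χ (Additive.ofMul γ) = 0) →
      ∀ (ι : Type) [Fintype ι] (γ : ι → Γ) (h : ι → SL(2, ℤ)) (w : ι → ℕ),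
        IsTOrbitSystem Γ γ h w → ∑ i, χ (Additive.ofMul (γ i)) = 0

/-! ### CUSP (cusps = conjugacy classes of primitive positive parabolic elements) -/

/-- (CUSP-1) `T`-orbit systems exist. -/
def TOrbitSystemExistsStatement : Prop :=
  ∀ (Γ : Subgroup SL(2, ℤ)) [Γ.FiniteIndex],
    ∃ (ι : Type) (_ : Fintype ι) (γ : ι → Γ) (h : ι → SL(2, ℤ)) (w : ι → ℕ), IsTOrbitSystem Γ γ h w

/-- (CUSP-2) a `T`-orbit system is a cusp system. -/
def TOrbitCuspStatement : Prop :=
  ∀ (Γ : Subgroup SL(2, ℤ)) [Γ.FiniteIndex], (-1 : SL(2, ℤ)) ∈ Γ →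
    ∀ (ι : Type) (γ : ι → Γ) (h : ι → SL(2, ℤ)) (w : ι → ℕ),
      IsTOrbitSystem Γ γ h w → IsCuspSystem Γ γ

/-- (CUSP-3) sums of class functions over two cusp systems agree. -/
def CuspSumIndepStatement : Prop :=
  ∀ (Γ : Subgroup SL(2, ℤ)) (A : Type u) [AddCommGroup A] (ζ : Γ → A),
    (∀ g γ : Γ, IsPosParabolic (γ : SL(2, ℤ)) → ζ (g * γ * g⁻¹) = ζ γ) →
    ∀ (ι ι' : Type) [Fintype ι] [Fintype ι'] (γ : ι → Γ) (γ' : ι' → Γ),
      IsCuspSystem Γ γ → IsCuspSystem Γ γ' → ∑ i, ζ (γ i) = ∑ i, ζ (γ' i)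

/-- (CUSP-4) `c_δ` maps cusp systems of `Γ₀(N q)` to cusp systems of `Γ' = δ Γ₀(N q) δ⁻¹`. -/
def CuspSystemConjDeltaStatement : Prop :=
  ∀ (N q : ℕ), N ≠ 0 → q ≠ 0 → ∀ (ι : Type) (γ : ι → Gamma0 (N * q)),
    IsCuspSystem (Gamma0 (N * q)) γ → IsCuspSystem (gamma0Delta N q) (fun i => conjDeltaR N q (γ i))

/-! ## 4. Assembly statements (general `Γ`) -/

/-- (A1) the pairing is computed by any representatives. -/
def ManinPairingEqStatement : Prop :=
  ∀ (Γ : Subgroup SL(2, ℤ)) [Γ.FiniteIndex], (-1 : SL(2, ℤ)) ∈ Γ →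
    ∀ (R : Type u) [CommRing R] (φ ψ : Additive Γ →+ R) (m m' e' : SL(2, ℤ) ⧸ Γ → R),
      IsParabolicHom Γ φ → IsManinRep Γ φ m → IsManinRep Γ ψ m' → IsParData Γ m' e' →
      maninPairing Γ φ ψ = maninForm Γ m e'

/-- (A2) the pairing is bilinear, skew-symmetric and nondegenerate on cuspidal classes. -/
def ManinPairingPDStatement : Prop :=
  ∀ (Γ : Subgroup SL(2, ℤ)) [Γ.FiniteIndex], (-1 : SL(2, ℤ)) ∈ Γ → ∀ (F : Type u) [Field F],
    (∀ x x' y : Additive Γ →+ F, IsCuspidalOn Γ x → IsCuspidalOn Γ x' → IsCuspidalOn Γ y →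
      maninPairing Γ (x + x') y = maninPairing Γ x y + maninPairing Γ x' y) ∧
    (∀ (c : F) (x y : Additive Γ →+ F), IsCuspidalOn Γ x → IsCuspidalOn Γ y →
      maninPairing Γ (c • x) y = c * maninPairing Γ x y) ∧
    (∀ x y : Additive Γ →+ F, IsCuspidalOn Γ x → IsCuspidalOn Γ y →
      maninPairing Γ y x = - maninPairing Γ x y) ∧
    (∀ x : Additive Γ →+ F, IsCuspidalOn Γ x →
      (∀ y : Additive Γ →+ F, IsCuspidalOn Γ y → maninPairing Γ x y = 0) → x = 0)

/-- (A3) restriction is left adjoint to the transfer. -/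
def ManinPairingResCoresStatement : Prop :=
  ∀ (Γ' Γ : Subgroup SL(2, ℤ)) [Γ'.FiniteIndex] [Γ.FiniteIndex] (hle : Γ' ≤ Γ),
    (-1 : SL(2, ℤ)) ∈ Γ' → ∀ (F : Type u) [Field F]
    (x : Additive Γ →+ F) (y : Additive Γ' →+ F), IsCuspidalOn Γ x → IsCuspidalOn Γ' y →
      maninPairing Γ' (x.comp (MonoidHom.toAdditive (Subgroup.inclusion hle))) y =
        maninPairing Γ x (transferAlong (Subgroup.inclusion hle) y)

/-- (A4) **β-formula**: for ANY Heisenberg lift and ANY cusp system. -/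
def ManinPairingBetaStatement : Prop :=
  ∀ (Γ : Subgroup SL(2, ℤ)) [Γ.FiniteIndex], (-1 : SL(2, ℤ)) ∈ Γ → ∀ (F : Type u) [Field F]
    (φ ψ : Additive Γ →+ F) (ζ : Γ → F), IsCuspidalOn Γ φ → IsCuspidalOn Γ ψ → IsHeisLift Γ φ ψ ζ →
    ∀ (ι : Type) [Fintype ι] (γ : ι → Γ), IsCuspSystem Γ γ →
      ∑ i, ζ (γ i) = - maninPairing Γ φ ψ

/-- (A5) `c_δ` is an isometry `(C(Γ'), B_Γ') → (C(Γ₀(N q)), B_{N q})`. -/
def ManinPairingConjDeltaStatement : Prop :=
  ∀ (N q : ℕ), N ≠ 0 → q.Prime → ¬ q ∣ N → ∀ (F : Type u) [Field F]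
    (φ ψ : Additive (gamma0Delta N q) →+ F),
    IsCuspidalOn (gamma0Delta N q) φ → IsCuspidalOn (gamma0Delta N q) ψ →
      maninPairing (Gamma0 (N * q)) (φ.comp (MonoidHom.toAdditive (conjDeltaR N q)))
        (ψ.comp (MonoidHom.toAdditive (conjDeltaR N q))) = maninPairing (gamma0Delta N q) φ ψ

end Fermat.Agent.S41.Spec

end
-- ===== PACK-END S41/Spec/PD.lean

-- ===== PACK-BEGIN S41/H221/PDAsm1.lean
section



/-!
# S41, block PD — assembly, part 1 (helper221): the Manin pairing on a general `Γ`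

From the leaves of `Spec/PD.lean` (taken as hypotheses):
* `maninPairingEq`       : `Spec.ManinPairingEqStatement`        (A1) from D2, D2'', D4, LA-2;
* `maninPairingPD`       : `Spec.ManinPairingPDStatement`        (A2) from A1, D1, D2', D2'', D3, D3', D4, LA-1, LA-2, LA-3;
* `maninPairingResCores` : `Spec.ManinPairingResCoresStatement`  (A3) from A1, D1, D4, TR-1, TR-2, TR-3.
-/

set_option autoImplicit false

namespace Fermat.Agent.S41.H221

open CongruenceSubgroup Matrix.SpecialLinearGroup ModularCurve.Period ModularGroup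
open Fermat.Agent.S41.Spec
open scoped MatrixGroups

universe u

section Basic

variable {Γ : Subgroup SL(2, ℤ)}

theorem S_smul_S_smul (hneg : (-1 : SL(2, ℤ)) ∈ Γ) (x : SL(2, ℤ) ⧸ Γ) : S • S • x = x := by
  induction x using QuotientGroup.induction_on with
  | H g =>
    rw [smul_smul, MulAction.Quotient.smul_mk, smul_eq_mul, QuotientGroup.eq]
    have h1 : (S * S : SL(2, ℤ)) = -1 := by
      apply Subtype.ext
      rw [Matrix.SpecialLinearGroup.coe_mul, Matrix.SpecialLinearGroup.coe_neg,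
        Matrix.SpecialLinearGroup.coe_one, S_mul_S_eq]
    have h2 : ((S * S : SL(2, ℤ)) * g)⁻¹ * g = -1 := by
      rw [h1]
      have h3 : ((-1 : SL(2, ℤ)) * g) = g * (-1) := by simp
      rw [h3, _root_.mul_inv_rev, mul_assoc, inv_mul_cancel, mul_one]
      rw [inv_eq_iff_eq_inv, eq_inv_iff_mul_eq_one]; simp
    rw [h2]; exact hneg

theorem S_smul_T_smul (x : SL(2, ℤ) ⧸ Γ) : S • T • x = (S * T) • x := (mul_smul S T x).symm

theorem S_smul_ST_smul (hneg : (-1 : SL(2, ℤ)) ∈ Γ) (x : SL(2, ℤ) ⧸ Γ) :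
    S • (S * T) • x = T • x := by
  rw [mul_smul, S_smul_S_smul hneg]

variable {R : Type*} [CommRing R]

theorem maninForm_add_left [Finite (SL(2, ℤ) ⧸ Γ)] (m₁ m₂ e' : SL(2, ℤ) ⧸ Γ → R) :
    maninForm Γ (m₁ + m₂) e' = maninForm Γ m₁ e' + maninForm Γ m₂ e' := by
  have : Fintype (SL(2, ℤ) ⧸ Γ) := Fintype.ofFinite _
  rw [maninForm_eq_sum, maninForm_eq_sum, maninForm_eq_sum, ← Finset.sum_add_distrib]
  refine Finset.sum_congr rfl fun x _ => ?_
  simp only [Pi.add_apply]; ring

theorem maninForm_sub_left [Finite (SL(2, ℤ) ⧸ Γ)] (m₁ m₂ e' : SL(2, ℤ) ⧸ Γ → R) :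
    maninForm Γ (m₁ - m₂) e' = maninForm Γ m₁ e' - maninForm Γ m₂ e' := by
  have : Fintype (SL(2, ℤ) ⧸ Γ) := Fintype.ofFinite _
  rw [maninForm_eq_sum, maninForm_eq_sum, maninForm_eq_sum, ← Finset.sum_sub_distrib]
  refine Finset.sum_congr rfl fun x _ => ?_
  simp only [Pi.sub_apply]; ring

theorem maninForm_mul_left [Finite (SL(2, ℤ) ⧸ Γ)] (c : R) (m e' : SL(2, ℤ) ⧸ Γ → R) :
    maninForm Γ (fun x => c * m x) e' = c * maninForm Γ m e' := by
  have : Fintype (SL(2, ℤ) ⧸ Γ) := Fintype.ofFinite _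
  rw [maninForm_eq_sum, maninForm_eq_sum, Finset.mul_sum]
  refine Finset.sum_congr rfl fun x _ => ?_
  ring

/-- `M^S + M^{ST}` is orthogonal to `e' - e'|S` for parabolic data `(m', e')`. -/
theorem maninForm_invariantSum [Finite (SL(2, ℤ) ⧸ Γ)] (hneg : (-1 : SL(2, ℤ)) ∈ Γ)
    (n m' e' : SL(2, ℤ) ⧸ Γ → R) (hn : IsInvariantSum Γ n) (hp : IsParData Γ m' e') :
    maninForm Γ n e' = 0 := by
  have : Fintype (SL(2, ℤ) ⧸ Γ) := Fintype.ofFinite _
  obtain ⟨n₁, n₂, h1, h2, rfl⟩ := hn
  rw [maninForm_add_left]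
  have e1 : maninForm Γ n₁ e' = 0 := by
    rw [maninForm_eq_sum]
    have : ∑ x : SL(2, ℤ) ⧸ Γ, n₁ x * e' (S • x) = ∑ x : SL(2, ℤ) ⧸ Γ, n₁ x * e' x := by
      rw [← Equiv.sum_comp (MulAction.toPerm (S : SL(2, ℤ))) (fun x => n₁ x * e' x)]
      refine Finset.sum_congr rfl fun x _ => ?_
      simp only [MulAction.toPerm_apply]
      rw [h1]
    simp only [mul_sub, Finset.sum_sub_distrib, this, sub_self]
  have e2 : maninForm Γ n₂ e' = 0 := by
    rw [maninForm_eq_sum]
    -- `e' x - e' (S x) = k x - k (U x)` with `k x = m' x - e' (S x)`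
    have hk : ∀ x : SL(2, ℤ) ⧸ Γ, e' x - e' (S • x) =
        (m' x - e' (S • x)) - (m' ((S * T) • x) - e' (S • (S * T) • x)) := by
      intro x
      have := hp x
      rw [S_smul_ST_smul hneg]
      linear_combination -this
    have : ∑ x : SL(2, ℤ) ⧸ Γ, n₂ x * (m' ((S * T) • x) - e' (S • (S * T) • x)) =
        ∑ x : SL(2, ℤ) ⧸ Γ, n₂ x * (m' x - e' (S • x)) := by
      rw [← Equiv.sum_comp (MulAction.toPerm (S * T : SL(2, ℤ)))
        (fun x => n₂ x * (m' x - e' (S • x)))]
      refine Finset.sum_congr rfl fun x _ => ?_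
      simp only [MulAction.toPerm_apply]
      rw [h2]
    calc ∑ x : SL(2, ℤ) ⧸ Γ, n₂ x * (e' x - e' (S • x))
        = ∑ x : SL(2, ℤ) ⧸ Γ, (n₂ x * (m' x - e' (S • x)) -
            n₂ x * (m' ((S * T) • x) - e' (S • (S * T) • x))) := by
          refine Finset.sum_congr rfl fun x _ => ?_
          rw [hk x]; ring
      _ = 0 := by rw [Finset.sum_sub_distrib, this, sub_self]
  rw [e1, e2, add_zero]

/-- LA-2 on `X = SL(2,ℤ) ⧸ Γ`. -/
theorem maninForm_skew (hskew : ManinSkewStatement.{u}) [Finite (SL(2, ℤ) ⧸ Γ)]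
    (hneg : (-1 : SL(2, ℤ)) ∈ Γ) {R : Type u} [CommRing R]
    (m e m' e' : SL(2, ℤ) ⧸ Γ → R) (hp : IsParData Γ m e) (hp' : IsParData Γ m' e') :
    maninForm Γ m' e = - maninForm Γ m e' := by
  have : Fintype (SL(2, ℤ) ⧸ Γ) := Fintype.ofFinite _
  rw [maninForm_eq_sum, maninForm_eq_sum]
  exact hskew (SL(2, ℤ) ⧸ Γ) (MulAction.toPerm (S : SL(2, ℤ)))
    (MulAction.toPerm (S * T : SL(2, ℤ))) (MulAction.toPerm (T : SL(2, ℤ)))
    (fun x => S_smul_S_smul hneg x) (fun x => S_smul_T_smul x) R m e m' e' hp hp'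

end Basic

/-! ## A1 -/

theorem maninPairingEq (hD2 : ManinRepZeroStatement.{u}) (hLin : ManinRepLinearStatement.{u})
    (hD4 : ManinRepParabolicStatement.{u}) (hskew : ManinSkewStatement.{u}) :
    ManinPairingEqStatement.{u} := by
  intro Γ _ hneg R _ φ ψ m m' e' hφ hm hm' hp'
  have hex : ∃ m m' e' : SL(2, ℤ) ⧸ Γ → R,
      IsManinRep Γ φ m ∧ IsManinRep Γ ψ m' ∧ IsParData Γ m' e' := ⟨m, m', e', hm, hm', hp'⟩
  rw [maninPairing, dif_pos hex]
  obtain ⟨hm₀, hm'₀, hp'₀⟩ := hex.choose_spec.choose_spec.choose_spec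
  set m₀ := hex.choose
  set m'₀ := hex.choose_spec.choose
  set e'₀ := hex.choose_spec.choose_spec.choose
  obtain ⟨e, hp⟩ := (hD4 Γ hneg R φ m hm).1 hφ
  -- differences are invariant sums
  have hd : IsInvariantSum Γ (m₀ - m) := by
    have h1 := (hLin Γ R R (AddMonoidHom.id R) φ φ m₀ m hm₀ hm).2.1
    rw [sub_self] at h1
    exact hD2 Γ hneg R _ h1
  have hd' : IsInvariantSum Γ (m'₀ - m') := by
    have h1 := (hLin Γ R R (AddMonoidHom.id R) ψ ψ m'₀ m' hm'₀ hm').2.1
    rw [sub_self] at h1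
    exact hD2 Γ hneg R _ h1
  have s1 : maninForm Γ m₀ e'₀ = maninForm Γ m e'₀ := by
    have := maninForm_invariantSum hneg (m₀ - m) m'₀ e'₀ hd hp'₀
    rw [maninForm_sub_left] at this
    exact sub_eq_zero.mp this
  have s2 : maninForm Γ m'₀ e = maninForm Γ m' e := by
    have := maninForm_invariantSum hneg (m'₀ - m') m e hd' hp
    rw [maninForm_sub_left] at this
    exact sub_eq_zero.mp this
  have s3 := maninForm_skew hskew hneg m e m'₀ e'₀ hp hp'₀
  have s4 := maninForm_skew hskew hneg m e m' e' hp hp'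
  rw [s1]
  have : maninForm Γ m e'₀ = - maninForm Γ m'₀ e := by rw [s3, neg_neg]
  rw [this, s2, s4, neg_neg]

/-! ## A2 -/

theorem isManinRep_smul (hLin : ManinRepLinearStatement.{u}) {Γ : Subgroup SL(2, ℤ)}
    {F : Type u} [Field F] (c : F) (φ : Additive Γ →+ F) (m : SL(2, ℤ) ⧸ Γ → F)
    (hm : IsManinRep Γ φ m) : IsManinRep Γ (c • φ) (fun x => c * m x) := by
  have h := (hLin Γ F F (AddMonoidHom.mulLeft c) φ φ m m hm hm).2.2
  have e1 : (AddMonoidHom.mulLeft c).comp φ = c • φ := by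
    ext γ
    simp
  rw [e1] at h
  exact h

theorem maninPairingPD (hA1 : ManinPairingEqStatement.{u}) (hD1 : ManinRepExistsStatement.{u})
    (hD2' : ManinRepInvariantStatement.{u}) (hLin : ManinRepLinearStatement.{u})
    (hD3 : ManinRepRealizeStatement.{u}) (hD3' : ManinRepTorsionStatement.{u})
    (hD4 : ManinRepParabolicStatement.{u}) (hperp : ManinPerpStatement.{u})
    (hskew : ManinSkewStatement.{u}) (hpar : ManinParDataOfStatement.{u}) :
    ManinPairingPDStatement.{u} := by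
  intro Γ _ hneg F _
  have : Fintype (SL(2, ℤ) ⧸ Γ) := Fintype.ofFinite _
  -- representatives of cuspidal classes
  have hrep : ∀ x : Additive Γ →+ F, IsCuspidalOn Γ x →
      ∃ m e : SL(2, ℤ) ⧸ Γ → F, IsManinRep Γ x m ∧ IsParData Γ m e := by
    intro x hx
    obtain ⟨m, hm⟩ := hD1 Γ hneg F x hx.2
    obtain ⟨e, he⟩ := (hD4 Γ hneg F x m hm).1 hx.1
    exact ⟨m, e, hm, he⟩
  refine ⟨?_, ?_, ?_, ?_⟩
  · intro x x' y hx hx' hy
    obtain ⟨m, e, hm, he⟩ := hrep x hx
    obtain ⟨m', e', hm', he'⟩ := hrep x' hx'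
    obtain ⟨n, f, hn, hf⟩ := hrep y hy
    have hadd := (hLin Γ F F (AddMonoidHom.id F) x x' m m' hm hm').1
    have hparadd : IsParabolicHom Γ (x + x') := by
      intro γ hγ
      show x (Additive.ofMul γ) + x' (Additive.ofMul γ) = 0
      rw [hx.1 γ hγ, hx'.1 γ hγ, add_zero]
    rw [hA1 Γ hneg F (x + x') y (m + m') n f hparadd hadd hn hf,
      hA1 Γ hneg F x y m n f hx.1 hm hn hf, hA1 Γ hneg F x' y m' n f hx'.1 hm' hn hf,
      maninForm_add_left]
  · intro c x y hx hy
    obtain ⟨m, e, hm, he⟩ := hrep x hx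
    obtain ⟨n, f, hn, hf⟩ := hrep y hy
    have hsm := isManinRep_smul hLin c x m hm
    have hparsm : IsParabolicHom Γ (c • x) := by
      intro γ hγ
      show c • x (Additive.ofMul γ) = 0
      rw [hx.1 γ hγ, smul_zero]
    rw [hA1 Γ hneg F (c • x) y _ n f hparsm hsm hn hf, hA1 Γ hneg F x y m n f hx.1 hm hn hf,
      maninForm_mul_left]
  · intro x y hx hy
    obtain ⟨m, e, hm, he⟩ := hrep x hx
    obtain ⟨n, f, hn, hf⟩ := hrep y hy
    rw [hA1 Γ hneg F y x n m e hy.1 hn hm he, hA1 Γ hneg F x y m n f hx.1 hm hn hf]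
    exact maninForm_skew hskew hneg m e n f he hf
  · intro x hx hxy
    obtain ⟨m, e, hm, he⟩ := hrep x hx
    apply hD2' Γ hneg F x m hm
    apply hperp (SL(2, ℤ) ⧸ Γ) (MulAction.toPerm (S : SL(2, ℤ)))
      (MulAction.toPerm (S * T : SL(2, ℤ))) F m
    intro s a b hsa hsb
    obtain ⟨m', e', hp', hs'⟩ := hpar (SL(2, ℤ) ⧸ Γ) (MulAction.toPerm (S : SL(2, ℤ)))
      (MulAction.toPerm (S * T : SL(2, ℤ))) (MulAction.toPerm (T : SL(2, ℤ)))
      (fun x => S_smul_S_smul hneg x) (fun x => S_smul_T_smul x) F s a b hsa hsb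
    obtain ⟨ψ, hψ⟩ := hD3 Γ hneg F m'
    have hψc : IsCuspidalOn Γ ψ :=
      ⟨(hD4 Γ hneg F ψ m' hψ).2 ⟨e', hp'⟩, hD3' Γ hneg F ψ m' hψ⟩
    have h0 := hxy ψ hψc
    rw [hA1 Γ hneg F x ψ m m' e' hx.1 hm hψ hp', maninForm_eq_sum] at h0
    have : ∑ x : SL(2, ℤ) ⧸ Γ, m x * s x = - ∑ x : SL(2, ℤ) ⧸ Γ, m x * (e' x - e' (S • x)) := by
      rw [← Finset.sum_neg_distrib]
      refine Finset.sum_congr rfl fun x _ => ?_
      have := hs' x
      simp only [MulAction.toPerm_apply] at this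
      rw [← this]; ring
    rw [this, h0, neg_zero]

/-! ## A3 -/

theorem isCuspidalOn_res {Γ' Γ : Subgroup SL(2, ℤ)} (hle : Γ' ≤ Γ) {A : Type*} [AddCommGroup A]
    (x : Additive Γ →+ A) (hx : IsCuspidalOn Γ x) :
    IsCuspidalOn Γ' (x.comp (MonoidHom.toAdditive (Subgroup.inclusion hle))) := by
  refine ⟨fun γ hγ => ?_, fun γ hγ => ?_⟩
  · exact hx.1 (Subgroup.inclusion hle γ) hγ
  · exact hx.2 (Subgroup.inclusion hle γ) ((Subgroup.inclusion hle).isOfFinOrder hγ)

theorem maninPairingResCores (hA1 : ManinPairingEqStatement.{u})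
    (hD1 : ManinRepExistsStatement.{u}) (hD4 : ManinRepParabolicStatement.{u})
    (hRes : ManinRepResStatement.{u}) (hCores : ManinRepCoresStatement.{u})
    (hAdj : ManinFormAdjointStatement.{u}) :
    ManinPairingResCoresStatement.{u} := by
  intro Γ' Γ _ _ hle hneg' F _ x y hx hy
  have hneg : (-1 : SL(2, ℤ)) ∈ Γ := hle hneg'
  obtain ⟨m, hm⟩ := hD1 Γ hneg F x hx.2
  obtain ⟨m', hm'⟩ := hD1 Γ' hneg' F y hy.2
  obtain ⟨e', he'⟩ := (hD4 Γ' hneg' F y m' hm').1 hy.1
  have hres := hRes Γ' Γ hle F x m hm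
  have hcores := hCores Γ' Γ hle F y m' hm'
  obtain ⟨hpd, hadj⟩ := hAdj Γ' Γ hle F m m' e' he'
  rw [hA1 Γ' hneg' F _ y _ m' e' (isCuspidalOn_res hle x hx).1 hres hm' he',
    hA1 Γ hneg F x _ m _ _ hx.1 hm hcores hpd]
  exact hadj

end Fermat.Agent.S41.H221

end
-- ===== PACK-END S41/H221/PDAsm1.lean

-- ===== PACK-BEGIN S41/H221/PDMisc.lean
section



/-!
# S41, block PD — small facts about `Γ₀(n)` and `Γ' = δ Γ₀(N q) δ⁻¹` (helper221)
-/

set_option autoImplicit false

namespace Fermat.Agent.S41.H221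

open CongruenceSubgroup Matrix.SpecialLinearGroup ModularCurve.Period ModularGroup
open Fermat.Agent.S41.Spec Fermat.Agent.S29.H642
open scoped MatrixGroups

theorem neg_one_mem_gamma0 (n : ℕ) : (-1 : SL(2, ℤ)) ∈ Gamma0 n := by
  rw [Gamma0_mem]
  simp

theorem finiteIndex_gamma0 {n : ℕ} (hn : n ≠ 0) : (Gamma0 n).FiniteIndex := by
  have : NeZero n := ⟨hn⟩
  infer_instance

theorem coe_conjDelta (N q : ℕ) (γ : Gamma0 (N * q)) :
    (((conjDelta N q γ : Gamma0 N) : SL(2, ℤ)) : Matrix (Fin 2) (Fin 2) ℤ) =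
      conjDeltaMatrix q (γ : SL(2, ℤ)) := rfl

theorem coe_conjDeltaR (N q : ℕ) (γ : Gamma0 (N * q)) :
    (((conjDeltaR N q γ : gamma0Delta N q) : SL(2, ℤ)) : Matrix (Fin 2) (Fin 2) ℤ) =
      conjDeltaMatrix q (γ : SL(2, ℤ)) := rfl

theorem trace_conjDeltaR (N q : ℕ) (γ : Gamma0 (N * q)) :
    (((conjDeltaR N q γ : gamma0Delta N q) : SL(2, ℤ)) : Matrix (Fin 2) (Fin 2) ℤ).trace =
      (((γ : Gamma0 (N * q)) : SL(2, ℤ)) : Matrix (Fin 2) (Fin 2) ℤ).trace := by
  rw [coe_conjDeltaR, Matrix.trace_fin_two, Matrix.trace_fin_two]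
  simp [conjDeltaMatrix]

theorem conjDeltaR_injective (N q : ℕ) (hq : q ≠ 0) : Function.Injective (conjDeltaR N q) := by
  intro γ γ' h
  have h1 : conjDeltaMatrix q (γ : SL(2, ℤ)) = conjDeltaMatrix q (γ' : SL(2, ℤ)) := by
    rw [← coe_conjDeltaR, ← coe_conjDeltaR, h]
  have hq' : (q : ℤ) ≠ 0 := by exact_mod_cast hq
  obtain ⟨k, hk⟩ := (dvd_of_mem_gamma0_mul γ).1
  obtain ⟨k', hk'⟩ := (dvd_of_mem_gamma0_mul γ').1
  have e00 := congrFun (congrFun h1 0) 0
  have e01 := congrFun (congrFun h1 0) 1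
  have e10 := congrFun (congrFun h1 1) 0
  have e11 := congrFun (congrFun h1 1) 1
  simp only [conjDeltaMatrix, Matrix.of_apply, Matrix.cons_val', Matrix.cons_val_zero,
    Matrix.cons_val_one, Matrix.cons_val_fin_one] at e00 e01 e10 e11
  rw [hk, hk', Int.mul_ediv_cancel_left _ hq', Int.mul_ediv_cancel_left _ hq'] at e10
  apply Subtype.ext
  apply Subtype.ext
  ext i j
  fin_cases i <;> fin_cases j
  · exact e00
  · exact mul_left_cancel₀ hq' e01
  · show (γ : SL(2, ℤ)) 1 0 = (γ' : SL(2, ℤ)) 1 0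
    rw [hk, hk', e10]
  · exact e11

theorem conjDeltaR_surjective (N q : ℕ) : Function.Surjective (conjDeltaR N q) :=
  MonoidHom.rangeRestrict_surjective _

/-- `c_δ : Γ₀(N q) ≃* Γ'`. -/
noncomputable def conjDeltaEquiv (N q : ℕ) (hq : q ≠ 0) : Gamma0 (N * q) ≃* gamma0Delta N q :=
  MulEquiv.ofBijective (conjDeltaR N q) ⟨conjDeltaR_injective N q hq, conjDeltaR_surjective N q⟩

theorem conjDeltaEquiv_apply (N q : ℕ) (hq : q ≠ 0) (γ : Gamma0 (N * q)) :
    conjDeltaEquiv N q hq γ = conjDeltaR N q γ := rfl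

theorem inclusion_comp_conjDeltaR (N q : ℕ) :
    (Subgroup.inclusion (gamma0Delta_le N q)).comp (conjDeltaR N q) = conjDelta N q := by
  ext γ : 1
  apply Subtype.ext
  rfl

theorem neg_one_mem_gamma0Delta (N q : ℕ) : (-1 : SL(2, ℤ)) ∈ gamma0Delta N q := by
  refine ⟨⟨-1, neg_one_mem_gamma0 (N * q)⟩, ?_⟩
  apply Subtype.ext
  show conjDeltaMatrix q (-1 : SL(2, ℤ)) = ((-1 : SL(2, ℤ)) : Matrix (Fin 2) (Fin 2) ℤ)
  ext i j
  fin_cases i <;> fin_cases j <;> simp [conjDeltaMatrix]

theorem gamma_le_gamma0Delta (N q : ℕ) (hq : q ≠ 0) : Gamma (N * q) ≤ gamma0Delta N q := by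
  intro g hg
  rw [Gamma_mem] at hg
  obtain ⟨h00, h01, h10, h11⟩ := hg
  have hq' : (q : ℤ) ≠ 0 := by exact_mod_cast hq
  have d01 : ((N * q : ℕ) : ℤ) ∣ g 0 1 := (ZMod.intCast_zmod_eq_zero_iff_dvd _ _).mp h01
  have d10 : ((N * q : ℕ) : ℤ) ∣ g 1 0 := (ZMod.intCast_zmod_eq_zero_iff_dvd _ _).mp h10
  obtain ⟨b, hb⟩ : (q : ℤ) ∣ g 0 1 := dvd_trans ⟨N, by push_cast; ring⟩ d01
  have hdet : g 0 0 * g 1 1 - g 0 1 * g 1 0 = 1 := by
    have := g.det_coe
    rwa [Matrix.det_fin_two] at this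
  -- the preimage `[[a, b/q], [q c, d]]`
  let M : Matrix (Fin 2) (Fin 2) ℤ := !![g 0 0, b; q * g 1 0, g 1 1]
  have hM : M.det = 1 := by
    rw [Matrix.det_fin_two_of]
    rw [hb] at hdet
    linear_combination hdet
  have hmem : (⟨M, hM⟩ : SL(2, ℤ)) ∈ Gamma0 (N * q) := by
    apply mem_Gamma0_of_dvd
    show ((N * q : ℕ) : ℤ) ∣ M 1 0
    simp only [M, Matrix.of_apply, Matrix.cons_val', Matrix.cons_val_zero, Matrix.cons_val_one,
      Matrix.cons_val_fin_one]
    exact Dvd.dvd.mul_left d10 _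
  refine ⟨⟨⟨M, hM⟩, hmem⟩, ?_⟩
  apply Subtype.ext
  show conjDeltaMatrix q (⟨M, hM⟩ : SL(2, ℤ)) = (g : Matrix (Fin 2) (Fin 2) ℤ)
  ext i j
  fin_cases i <;> fin_cases j
  · simp [conjDeltaMatrix, M]
  · simp [conjDeltaMatrix, M, hb]
  · simp [conjDeltaMatrix, M, Int.mul_ediv_cancel_left _ hq']
  · simp [conjDeltaMatrix, M]

theorem finiteIndex_gamma0Delta {N q : ℕ} (hN : N ≠ 0) (hq : q ≠ 0) :
    (gamma0Delta N q).FiniteIndex := by
  have : NeZero (N * q) := ⟨Nat.mul_ne_zero hN hq⟩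
  exact Subgroup.finiteIndex_of_le (gamma_le_gamma0Delta N q hq)

end Fermat.Agent.S41.H221

end
-- ===== PACK-END S41/H221/PDMisc.lean

-- ===== PACK-BEGIN S41/H281/PDLinAlg.lean
section



/-!
# S41 / block PD, leaves LA-1, LA-2, LA-3 (helper281): linear algebra of the Manin model

* `maninSkew : Spec.ManinSkewStatement` (LA-2): skew-symmetry of the Manin form on parabolic data.
  With `b = m - e ∘ σ` the summand of `⟨m', e - e∘σ⟩ + ⟨m, e' - e'∘σ⟩` is
  `-[(b b')∘υ - b b'] - [(e e')∘σ - e e']`.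
* `maninParDataOf : Spec.ManinParDataOfStatement` (LA-3): `e := a`, `m := b + a ∘ σ`.
* `maninPerp : Spec.ManinPerpStatement` (LA-1): `((σ-1)M ∩ (υ-1)M)^⊥ ⊆ M^σ + M^υ` for the dot product
  (`(M^π)^⊥ = (π-1)M` by dimension count, `(U₁ ⊔ U₂)^⊥ = U₁^⊥ ⊓ U₂^⊥`, `W^⊥⊥ = W`).
* `parDataLift : Spec.ParDataLiftStatement` (LA-4): lifting parabolic data from `ℤ/p` to `ℤ`.
  `D(m, e) := (m|ST - m) - (e|T - e)` maps `M_ℤ × M_ℤ` onto `M₀ = {f | ∑ f = 0}`: its image contains
  `f|g - f` for `g = ST, T`, hence for all `g ∈ ⟨ST, T⟩ = SL(2, ℤ)`, hence `δ_y - δ_x` for all `x, y`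
  (the action on `X = SL(2, ℤ) ⧸ Γ` is transitive).  Lift `(m̄, ē)` arbitrarily to `(m₁, e₁)`; then
  `D(m₁, e₁) = p f` with `∑ f = 0`, so `f = D(m₂, e₂)`, and `(m₁ - p m₂, e₁ - p e₂)` is parabolic data.
-/

set_option autoImplicit false

namespace Fermat.Agent.S41.H281

open Fermat.Agent.S41.Spec ModularGroup Matrix.SpecialLinearGroup
open scoped MatrixGroups

universe u

/-! ## LA-2 -/

/-- (LA-2) skew-symmetry of the Manin form on parabolic data. -/
theorem maninSkew : ManinSkewStatement.{u} := by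
  intro X _ σ υ τ hσ hτ R _ m e m' e' h h'
  have hστ : ∀ x, σ (υ x) = τ x := fun x => by rw [← hτ x, hσ]
  have key : ∀ x, m' x * (e x - e (σ x)) + m x * (e' x - e' (σ x)) =
      -((m (υ x) - e (σ (υ x))) * (m' (υ x) - e' (σ (υ x))) - (m x - e (σ x)) * (m' x - e' (σ x)))
        - (e (σ x) * e' (σ x) - e x * e' x) := by
    intro x
    rw [hστ x]
    linear_combination -(m' (υ x) - e' (τ x)) * h x - (m x - e x) * h' x
  rw [eq_neg_iff_add_eq_zero, ← Finset.sum_add_distrib]
  simp only [key]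
  rw [Finset.sum_sub_distrib, Finset.sum_neg_distrib, Finset.sum_sub_distrib,
    Finset.sum_sub_distrib,
    Equiv.sum_comp υ (fun x => (m x - e (σ x)) * (m' x - e' (σ x))),
    Equiv.sum_comp σ (fun x => e x * e' x)]
  simp

/-! ## LA-3 -/

/-- (LA-3) every `s ∈ (σ-1)M ∩ (υ-1)M` comes from parabolic data. -/
theorem maninParDataOf : ManinParDataOfStatement.{u} := by
  intro X σ υ τ hσ hτ A _ s a b hsa hsb
  have hστ : ∀ x, σ (υ x) = τ x := fun x => by rw [← hτ x, hσ]
  refine ⟨fun x => b x + a (σ x), a, fun x => ?_, fun x => (hsa x).symm⟩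
  simp only
  rw [hστ x]
  have h1 := hsa x
  have h2 := hsb x
  have h3 : b (υ x) - b x = a (σ x) - a x := by rw [← h1, h2]
  have h4 : b (υ x) = a (σ x) - a x + b x := by rw [← h3]; abel
  rw [h4]
  abel


/-! ## LA-1 -/

section Perp

variable {X : Type} [Fintype X] {F : Type u} [Field F]

/-- The dot product on `X → F` as a bilinear form. -/
noncomputable def dotForm (X : Type) [Fintype X] (F : Type u) [Field F] :
    LinearMap.BilinForm F (X → F) :=
  LinearMap.mk₂ F (fun f g => ∑ x, f x * g x)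
    (fun f f' g => by simp only [Pi.add_apply, add_mul, Finset.sum_add_distrib])
    (fun c f g => by simp only [Pi.smul_apply, smul_eq_mul, Finset.mul_sum, mul_assoc])
    (fun f g g' => by simp only [Pi.add_apply, mul_add, Finset.sum_add_distrib])
    (fun c f g => by
      simp only [Pi.smul_apply, smul_eq_mul, Finset.mul_sum]
      exact Finset.sum_congr rfl fun x _ => by ring)

theorem dotForm_apply (f g : X → F) : dotForm X F f g = ∑ x, f x * g x := rfl

theorem dotForm_isSymm : (dotForm X F).IsSymm := by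
  refine ⟨fun f g => ?_⟩
  simp only [dotForm_apply]
  exact Finset.sum_congr rfl fun x _ => mul_comm _ _

theorem dotForm_nondegenerate : (dotForm X F).Nondegenerate := by
  classical
  have hleft : ∀ f : X → F, (∀ g, dotForm X F f g = 0) → f = 0 := by
    intro f hf
    funext x
    have := hf (Pi.single x 1)
    rw [dotForm_apply] at this
    simpa [Pi.single_apply] using this
  refine ⟨hleft, fun g hg => hleft g fun f => ?_⟩
  rw [← dotForm_isSymm.eq]
  exact hg f

/-- The operator `f ↦ f ∘ π - f`. -/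
noncomputable def permSub (F : Type u) [Field F] (π : Equiv.Perm X) : (X → F) →ₗ[F] (X → F) :=
  LinearMap.funLeft F F π - LinearMap.id

omit [Fintype X] in
theorem permSub_apply (π : Equiv.Perm X) (f : X → F) (x : X) :
    permSub F π f x = f (π x) - f x := rfl

omit [Fintype X] in
theorem mem_ker_permSub (π : Equiv.Perm X) (f : X → F) :
    f ∈ LinearMap.ker (permSub F π) ↔ ∀ x, f (π x) = f x := by
  rw [LinearMap.mem_ker]
  constructor
  · intro h x
    have := congrFun h x
    rw [permSub_apply] at this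
    exact sub_eq_zero.mp this
  · intro h
    funext x
    rw [permSub_apply, h x, sub_self]
    rfl

omit [Fintype X] in
theorem mem_range_permSub (π : Equiv.Perm X) (s : X → F) :
    s ∈ LinearMap.range (permSub F π) ↔ ∃ a : X → F, ∀ x, s x = a (π x) - a x := by
  rw [LinearMap.mem_range]
  constructor
  · rintro ⟨a, rfl⟩
    exact ⟨a, fun x => rfl⟩
  · rintro ⟨a, ha⟩
    exact ⟨a, funext fun x => (ha x).symm⟩

/-- The orthogonal complement of the `π`-invariant functions is the image of `π - 1`. -/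
theorem orthogonal_ker_permSub (π : Equiv.Perm X) :
    (dotForm X F).orthogonal (LinearMap.ker (permSub F π)) = LinearMap.range (permSub F π) := by
  symm
  apply Submodule.eq_of_le_of_finrank_le
  · intro s hs
    obtain ⟨a, ha⟩ := (mem_range_permSub π s).mp hs
    rw [LinearMap.BilinForm.mem_orthogonal_iff]
    intro n hn
    rw [mem_ker_permSub] at hn
    rw [dotForm_apply]
    have h1 : ∀ x, n x * s x = n (π x) * a (π x) - n x * a x := by
      intro x
      rw [ha x, hn x]
      ring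
    simp only [h1]
    rw [Finset.sum_sub_distrib, Equiv.sum_comp π (fun x => n x * a x), sub_self]
  · rw [LinearMap.BilinForm.finrank_orthogonal dotForm_nondegenerate]
    have := LinearMap.finrank_range_add_finrank_ker (permSub F π)
    omega

omit [Fintype X] in
theorem orthogonal_sup_eq (B : LinearMap.BilinForm F (X → F)) (U₁ U₂ : Submodule F (X → F)) :
    B.orthogonal (U₁ ⊔ U₂) = B.orthogonal U₁ ⊓ B.orthogonal U₂ := by
  apply le_antisymm
  · exact le_inf (LinearMap.BilinForm.orthogonal_le le_sup_left)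
      (LinearMap.BilinForm.orthogonal_le le_sup_right)
  · rintro m ⟨h1, h2⟩
    rw [SetLike.mem_coe, LinearMap.BilinForm.mem_orthogonal_iff] at h1 h2
    rw [LinearMap.BilinForm.mem_orthogonal_iff]
    intro n hn
    obtain ⟨n₁, hn₁, n₂, hn₂, rfl⟩ := Submodule.mem_sup.mp hn
    rw [map_add, LinearMap.add_apply, h1 n₁ hn₁, h2 n₂ hn₂, add_zero]

end Perp

/-- (LA-1) `((σ-1)M ∩ (υ-1)M)^⊥ ⊆ M^σ + M^υ`. -/
theorem maninPerp : ManinPerpStatement.{u} := by
  intro X _ σ υ F _ m hm
  have h1 : m ∈ (dotForm X F).orthogonal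
      (LinearMap.range (permSub F σ) ⊓ LinearMap.range (permSub F υ)) := by
    rw [LinearMap.BilinForm.mem_orthogonal_iff]
    rintro s ⟨hs1, hs2⟩
    obtain ⟨a, ha⟩ := (mem_range_permSub σ s).mp hs1
    obtain ⟨b, hb⟩ := (mem_range_permSub υ s).mp hs2
    rw [dotForm_isSymm.eq, dotForm_apply]
    exact hm s a b ha hb
  rw [← orthogonal_ker_permSub, ← orthogonal_ker_permSub, ← orthogonal_sup_eq,
    LinearMap.BilinForm.orthogonal_orthogonal dotForm_nondegenerate dotForm_isSymm.isRefl] at h1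
  obtain ⟨n₁, hn₁, n₂, hn₂, h⟩ := Submodule.mem_sup.mp h1
  exact ⟨n₁, n₂, (mem_ker_permSub σ n₁).mp hn₁, (mem_ker_permSub υ n₂).mp hn₂, h.symm⟩

/-! ## LA-4 -/

section Image

variable {G : Type*} [Group G]

/-- The image of `D(m, e) = (m|u - m) - (e|t - e)`. -/
def imD (u t : G) (X : Type*) [MulAction G X] : AddSubgroup (X → ℤ) where
  carrier := {f | ∃ m e : X → ℤ, ∀ x, f x = (m (u • x) - m x) - (e (t • x) - e x)}
  zero_mem' := ⟨0, 0, fun x => by simp⟩
  add_mem' := by
    rintro f f' ⟨m, e, h⟩ ⟨m', e', h'⟩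
    refine ⟨m + m', e + e', fun x => ?_⟩
    simp only [Pi.add_apply, h x, h' x]
    ring
  neg_mem' := by
    rintro f ⟨m, e, h⟩
    refine ⟨-m, -e, fun x => ?_⟩
    simp only [Pi.neg_apply, h x]
    ring

theorem mem_imD {X : Type*} [MulAction G X] {u t : G} {f : X → ℤ} :
    f ∈ imD u t X ↔ ∃ m e : X → ℤ, ∀ x, f x = (m (u • x) - m x) - (e (t • x) - e x) := Iff.rfl

/-- The subgroup of all `g` such that `f|g - f` lies in the image of `D` for every `f`. -/
def stabD (u t : G) (X : Type*) [MulAction G X] : Subgroup G where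
  carrier := {g | ∀ f : X → ℤ, (fun x => f (g • x) - f x) ∈ imD u t X}
  one_mem' := fun f => by
    convert zero_mem (imD u t X) using 1
    funext x
    simp
  mul_mem' := by
    intro g h hg hh f
    have h1 := hh (fun y => f (g • y))
    have h2 := hg f
    have := add_mem h1 h2
    convert this using 1
    funext x
    simp only [Pi.add_apply, mul_smul]
    ring
  inv_mem' := by
    intro g hg f
    have h1 := neg_mem (hg (fun y => f (g⁻¹ • y)))
    convert h1 using 1
    funext x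
    simp only [Pi.neg_apply, inv_smul_smul]
    ring

theorem mem_stabD {X : Type*} [MulAction G X] {u t g : G} :
    g ∈ stabD u t X ↔ ∀ f : X → ℤ, (fun x => f (g • x) - f x) ∈ imD u t X := Iff.rfl

theorem left_mem_stabD {X : Type*} [MulAction G X] (u t : G) : u ∈ stabD u t X := fun f =>
  ⟨f, 0, fun x => by simp⟩

theorem right_mem_stabD {X : Type*} [MulAction G X] (u t : G) : t ∈ stabD u t X := fun f =>
  ⟨0, -f, fun x => by simp only [Pi.zero_apply, Pi.neg_apply]; ring⟩

/-- If `u, t` generate `G` and `G` acts transitively on the finite set `X`, then every function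
with sum `0` is in the image of `D`. -/
theorem mem_imD_of_sum_eq_zero {X : Type*} [MulAction G X] [Fintype X]
    [MulAction.IsPretransitive G X] (u t : G)
    (hgen : stabD u t X = ⊤) (f : X → ℤ) (hf : ∑ x, f x = 0) : f ∈ imD u t X := by
  classical
  rcases isEmpty_or_nonempty X with hX | ⟨⟨x₀⟩⟩
  · have : f = 0 := funext fun x => (hX.false x).elim
    rw [this]
    exact zero_mem _
  -- `δ_y - δ_{x₀}` is in the image
  have hδ : ∀ y : X, (fun x => (Pi.single y (1 : ℤ) : X → ℤ) x - (Pi.single x₀ (1 : ℤ) : X → ℤ) x)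
      ∈ imD u t X := by
    intro y
    obtain ⟨g, hg⟩ := MulAction.exists_smul_eq G y x₀
    have hg' : g ∈ stabD u t X := by rw [hgen]; exact Subgroup.mem_top g
    have := hg' (Pi.single x₀ (1 : ℤ))
    convert this using 1
    funext x
    congr 1
    simp only [Pi.single_apply]
    have : g • x = x₀ ↔ x = y := by
      constructor
      · intro h
        rw [← hg] at h
        exact smul_left_cancel g h
      · rintro rfl
        exact hg
    simp only [this]
  have hdecomp : f = ∑ y, f y • (fun x => (Pi.single y (1 : ℤ) : X → ℤ) x -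
      (Pi.single x₀ (1 : ℤ) : X → ℤ) x) := by
    funext x
    simp only [Finset.sum_apply, Pi.smul_apply, smul_eq_mul, mul_sub, Finset.sum_sub_distrib,
      Pi.single_apply, mul_ite, mul_one, mul_zero, Finset.sum_ite_eq, Finset.mem_univ, if_true]
    by_cases hx : x = x₀
    · simp [hx, hf]
    · simp [hx]
  rw [hdecomp]
  exact sum_mem fun y _ => zsmul_mem (hδ y) _

end Image

/-- `ST` and `T` generate `SL(2, ℤ)`. -/
theorem stabD_eq_top (X : Type*) [MulAction SL(2, ℤ) X] :
    stabD (S * T) T X = ⊤ := by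
  rw [eq_top_iff, ← SpecialLinearGroup.SL2Z_generators, Subgroup.closure_le]
  rintro g (rfl | rfl)
  · have h1 : (S * T) ∈ stabD (S * T) T X := left_mem_stabD _ _
    have h2 : T ∈ stabD (S * T) T X := right_mem_stabD _ _
    have := mul_mem h1 (inv_mem h2)
    rwa [mul_inv_cancel_right] at this
  · exact right_mem_stabD _ _

/-- (LA-4) lifting parabolic data from `ℤ/p` to `ℤ`. -/
theorem parDataLift : ParDataLiftStatement := by
  intro Γ _ p mbar ebar hpar
  classical
  let _ : Fintype (SL(2, ℤ) ⧸ Γ) := Fintype.ofFinite _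
  -- arbitrary lifts
  let m₁ : SL(2, ℤ) ⧸ Γ → ℤ := fun x => (mbar x).cast
  let e₁ : SL(2, ℤ) ⧸ Γ → ℤ := fun x => (ebar x).cast
  have hm₁ : ∀ x, ((m₁ x : ℤ) : ZMod p) = mbar x := fun x => ZMod.intCast_zmod_cast _
  have he₁ : ∀ x, ((e₁ x : ℤ) : ZMod p) = ebar x := fun x => ZMod.intCast_zmod_cast _
  let D₁ : SL(2, ℤ) ⧸ Γ → ℤ := fun x => (m₁ ((S * T) • x) - m₁ x) - (e₁ (T • x) - e₁ x)
  have hD₁ : ∀ x, (p : ℤ) ∣ D₁ x := by
    intro x
    rw [← ZMod.intCast_zmod_eq_zero_iff_dvd]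
    simp only [D₁]
    push_cast
    rw [hm₁, hm₁, he₁, he₁, hpar x, sub_self]
  have hsum : ∑ x, D₁ x = 0 := by
    simp only [D₁]
    rw [Finset.sum_sub_distrib, Finset.sum_sub_distrib, Finset.sum_sub_distrib]
    have h1 : ∑ x : SL(2, ℤ) ⧸ Γ, m₁ ((S * T) • x) = ∑ x, m₁ x :=
      Equiv.sum_comp (MulAction.toPerm (S * T)) m₁
    have h2 : ∑ x : SL(2, ℤ) ⧸ Γ, e₁ (T • x) = ∑ x, e₁ x :=
      Equiv.sum_comp (MulAction.toPerm T) e₁
    rw [h1, h2, sub_self, sub_self, sub_self]
  rcases eq_or_ne p 0 with hp | hp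
  · -- `p = 0`: the lift is already parabolic data
    refine ⟨m₁, e₁, fun x => ?_, hm₁, he₁⟩
    have := hD₁ x
    rw [hp, Nat.cast_zero, zero_dvd_iff] at this
    simp only [D₁] at this
    linarith
  · choose f hf using hD₁
    have hp' : (p : ℤ) ≠ 0 := by exact_mod_cast hp
    have hfsum : ∑ x, f x = 0 := by
      have : (p : ℤ) * ∑ x, f x = 0 := by
        rw [Finset.mul_sum, ← hsum]
        exact Finset.sum_congr rfl fun x _ => (hf x).symm
      exact (mul_eq_zero.mp this).resolve_left hp'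
    obtain ⟨m₂, e₂, h₂⟩ := mem_imD.mp
      (mem_imD_of_sum_eq_zero (S * T) T (stabD_eq_top _) f hfsum)
    refine ⟨fun x => m₁ x - p * m₂ x, fun x => e₁ x - p * e₂ x, fun x => ?_, fun x => ?_,
      fun x => ?_⟩
    · have h3 : (m₁ ((S * T) • x) - m₁ x) - (e₁ (T • x) - e₁ x) = (p : ℤ) * f x := hf x
      have h4 := h₂ x
      show (e₁ (T • x) - p * e₂ (T • x)) - (e₁ x - p * e₂ x) =
        (m₁ ((S * T) • x) - p * m₂ ((S * T) • x)) - (m₁ x - p * m₂ x)
      linear_combination -h3 - (p : ℤ) * h4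
    · push_cast
      rw [hm₁]
      simp
    · push_cast
      rw [he₁]
      simp

end Fermat.Agent.S41.H281

end
-- ===== PACK-END S41/H281/PDLinAlg.lean

-- ===== PACK-BEGIN S21/H585/LowerBound.lean
section





/-!
# Lower bound for the dimension of the space of parabolic homomorphisms

For a finite index subgroup `Γ ≤ SL(2, ℤ)` containing `-1`, `X = SL(2, ℤ) ⧸ Γ` and any field `K`:
`#X + 2 ≤ dim Hom_par(Γ, K) + #(⟨S⟩\X) + #(⟨ST⟩\X) + #(⟨T⟩\X)`.
-/

set_option autoImplicit false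

namespace Fermat.Agent.S21.H585

open Matrix ModularGroup ModularCurve.Period
open scoped MatrixGroups

section Quot

variable (Γ : Subgroup SL(2, ℤ))

/-- The base point of `SL(2, ℤ) ⧸ Γ`. -/
def basePt : SL(2, ℤ) ⧸ Γ := ((1 : SL(2, ℤ)) : SL(2, ℤ) ⧸ Γ)

lemma smul_basePt_eq (g : SL(2, ℤ)) : g • basePt Γ = (g : SL(2, ℤ) ⧸ Γ) := by
  rw [basePt, MulAction.Quotient.smul_mk, smul_eq_mul, mul_one]

lemma smul_basePt_of_mem {γ : SL(2, ℤ)} (hγ : γ ∈ Γ) : γ • basePt Γ = basePt Γ := by
  rw [smul_basePt_eq, basePt, QuotientGroup.eq, mul_one]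
  exact inv_mem hγ

lemma out_smul_basePt (x : SL(2, ℤ) ⧸ Γ) : (Quotient.out x : SL(2, ℤ)) • basePt Γ = x := by
  rw [smul_basePt_eq, QuotientGroup.out_eq']

variable {Γ}

lemma neg_one_smul_quot (hneg : (-1 : SL(2, ℤ)) ∈ Γ) (x : SL(2, ℤ) ⧸ Γ) :
    (-1 : SL(2, ℤ)) • x = x := by
  induction x using QuotientGroup.induction_on with
  | H h =>
    rw [MulAction.Quotient.smul_mk, smul_eq_mul, QuotientGroup.eq]
    have : ((-1 : SL(2, ℤ)) * h)⁻¹ * h = -1 := by
      rw [_root_.mul_inv_rev, mul_assoc]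
      have h1 : (-1 : SL(2, ℤ))⁻¹ * h = h * (-1) := by
        have h2 : (-1 : SL(2, ℤ))⁻¹ = -1 := by
          rw [inv_eq_iff_eq_inv, eq_inv_iff_mul_eq_one]; simp
        rw [h2]; simp
      rw [h1, ← mul_assoc, inv_mul_cancel, one_mul]
    rw [this]; exact hneg

variable (Γ)

lemma sec_mem (g : SL(2, ℤ)) (x : SL(2, ℤ) ⧸ Γ) :
    (Quotient.out (g • x) : SL(2, ℤ))⁻¹ * g * Quotient.out x ∈ Γ := by
  rw [mul_assoc, ← QuotientGroup.eq, QuotientGroup.out_eq']
  conv_lhs => rw [← QuotientGroup.out_eq' x]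
  rw [MulAction.Quotient.smul_mk, smul_eq_mul]

end Quot


section Hom

variable (Γ : Subgroup SL(2, ℤ)) {A : Type*} [AddCommGroup A]

/-- The homomorphism `Γ → A` attached to a cocycle. -/
def homOfCocycle (f : SL(2, ℤ) → (SL(2, ℤ) ⧸ Γ) → A) (hf : IsCocycle f) : Additive Γ →+ A where
  toFun γ := f ((Additive.toMul γ : Γ) : SL(2, ℤ)) (basePt Γ)
  map_zero' := hf.map_one _
  map_add' γ δ := by
    show f (((Additive.toMul γ * Additive.toMul δ : Γ)) : SL(2, ℤ)) _ = _
    rw [Subgroup.coe_mul, hf, smul_basePt_of_mem Γ (Additive.toMul δ).2, add_comm]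

@[simp] lemma homOfCocycle_apply (f : SL(2, ℤ) → (SL(2, ℤ) ⧸ Γ) → A) (hf : IsCocycle f) (γ : Γ) :
    homOfCocycle Γ f hf (Additive.ofMul γ) = f (γ : SL(2, ℤ)) (basePt Γ) := rfl

variable {Γ}

lemma IsCocycle.zpow_of_cobd {X : Type*} [MulAction SL(2, ℤ) X] {f : SL(2, ℤ) → X → A}
    (hf : IsCocycle f) (g : SL(2, ℤ)) (h : X → A) (hg : ∀ x, f g x = h (g • x) - h x) (k : ℤ)
    (x : X) : f (g ^ k) x = h (g ^ k • x) - h x := by
  induction k using Int.induction_on generalizing x with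
  | zero => simp [hf.map_one]
  | succ n ih =>
    rw [_root_.zpow_add_one, hf, hg, ih, mul_smul]
    abel
  | pred n ih =>
    rw [_root_.zpow_sub_one, hf, ih, hf.map_inv', hg, smul_inv_smul, mul_smul]
    abel

lemma IsCocycle.conj_apply {f : SL(2, ℤ) → (SL(2, ℤ) ⧸ Γ) → A} (hf : IsCocycle f)
    (g t : SL(2, ℤ)) (hfix : (g * t * g⁻¹) • basePt Γ = basePt Γ) :
    f (g * t * g⁻¹) (basePt Γ) = f t (g⁻¹ • basePt Γ) := by
  have h1 : t • g⁻¹ • basePt Γ = g⁻¹ • basePt Γ := by
    calc t • g⁻¹ • basePt Γ = g⁻¹ • (g * t * g⁻¹) • basePt Γ := by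
          simp only [mul_smul, inv_smul_smul]
      _ = g⁻¹ • basePt Γ := by rw [hfix]
  have h2 := hf.map_inv g (g⁻¹ • basePt Γ)
  rw [smul_inv_smul] at h2
  rw [mul_assoc, hf, hf, mul_smul, h1, h2]
  abel

end Hom


section Construct

variable (Γ : Subgroup SL(2, ℤ)) {A : Type*} [AddCommGroup A]

/-- The cocycle induced by a homomorphism `ψ : Γ → A` (w.r.t. the section `Quotient.out`). -/
noncomputable def indc (ψ : Additive Γ →+ A) (g : SL(2, ℤ)) (x : SL(2, ℤ) ⧸ Γ) : A :=
  ψ (Additive.ofMul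
    (⟨(Quotient.out (g • x) : SL(2, ℤ))⁻¹ * g * Quotient.out x, sec_mem Γ g x⟩ : Γ))

variable {Γ}

lemma IsCocycle.eq_indc_add {f : SL(2, ℤ) → (SL(2, ℤ) ⧸ Γ) → A} (hf : IsCocycle f)
    (g : SL(2, ℤ)) (x : SL(2, ℤ) ⧸ Γ) :
    f g x = indc Γ (homOfCocycle Γ f hf) g x
      + f (Quotient.out (g • x)) (basePt Γ) - f (Quotient.out x) (basePt Γ) := by
  rw [indc, homOfCocycle_apply]
  show f g x = f ((Quotient.out (g • x) : SL(2, ℤ))⁻¹ * g * Quotient.out x) (basePt Γ) + _ - _
  rw [mul_assoc, hf, hf, out_smul_basePt, mul_smul, out_smul_basePt]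
  have h2 := hf.map_inv (Quotient.out (g • x)) (basePt Γ)
  rw [out_smul_basePt] at h2
  rw [h2]
  abel

theorem exists_parabolicHom_of_osum (hneg : (-1 : SL(2, ℤ)) ∈ Γ) (K : Type*) [Field K]
    [Fintype (SL(2, ℤ) ⧸ Γ)] (a c : (SL(2, ℤ) ⧸ Γ) → K)
    (ha : osum K S a = 0) (hc : osum K (S * T) c = 0) (hT : osum K T (c - a) = 0) :
    ∃ (ψ : Additive Γ →+ K) (n : (SL(2, ℤ) ⧸ Γ) → K), IsParabolicHom Γ ψ ∧
      (∀ x, a x = indc Γ ψ S x + (n (S • x) - n x)) ∧
      (∀ x, c x = indc Γ ψ (S * T) x + (n ((S * T) • x) - n x)) := by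
  have hn := neg_one_smul_quot hneg
  -- pointwise relations
  obtain ⟨ea, hea⟩ := exists_cobd_of_osum_eq_zero K S ha
  obtain ⟨ec, hec⟩ := exists_cobd_of_osum_eq_zero K (S * T) hc
  have ha' : ∀ x, a x + a (S • x) = 0 := by
    intro x
    rw [hea, hea, smul_smul, S_mul_S_eq_neg_one, hn]
    ring
  have hc' : ∀ x, c x + c ((S * T) • x) + c ((S * T) • (S * T) • x) = 0 := by
    intro x
    have h1 : (S * T) • (S * T) • (S * T) • x = x := by
      rw [smul_smul, smul_smul, ST_cube_eq_neg_one, hn]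
    rw [hec, hec, hec, h1]
    ring
  obtain ⟨f, hf, hfS, hfU⟩ := exists_cocycle hn a c ha' hc'
  -- `f (-1) = 0`
  have hfneg : ∀ x, f (-1) x = 0 := by
    intro x
    rw [← S_mul_S_eq_neg_one, hf, hfS]
    exact ha' x
  -- `f T`
  have hfT : ∀ x, f T x = c x - a (T • x) := by
    intro x
    have h1 : T = S⁻¹ * (S * T) := by rw [inv_mul_cancel_left]
    have h2 : S⁻¹ • (S * T) • x = T • x := by rw [smul_smul, inv_mul_cancel_left]
    conv_lhs => rw [h1]
    rw [hf, hf.map_inv', hfU, hfS, h2]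
    ring
  have hosT : osum K T (f T) = 0 := by
    have h1 : f T = c - fun x => a (T • x) := by
      funext x; rw [hfT]; rfl
    rw [h1, map_sub, osum_comp_smul, ← map_sub]
    exact hT
  obtain ⟨eT, heT⟩ := exists_cobd_of_osum_eq_zero K T hosT
  have hzpow := hf.zpow_of_cobd T eT heT
  refine ⟨homOfCocycle Γ f hf, fun x => f (Quotient.out x) (basePt Γ), ?_, ?_, ?_⟩
  · -- parabolic
    intro γ hγ
    rw [homOfCocycle_apply]
    have key : ∀ (g : SL(2, ℤ)) (k : ℤ), (g * T ^ k * g⁻¹) • basePt Γ = basePt Γ →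
        f (g * T ^ k * g⁻¹) (basePt Γ) = 0 := by
      intro g k hfix
      rw [hf.conj_apply g (T ^ k) hfix, hzpow]
      have h1 : T ^ k • g⁻¹ • basePt Γ = g⁻¹ • basePt Γ := by
        calc T ^ k • g⁻¹ • basePt Γ = g⁻¹ • (g * T ^ k * g⁻¹) • basePt Γ := by
              simp only [mul_smul, inv_smul_smul]
          _ = g⁻¹ • basePt Γ := by rw [hfix]
      rw [h1, sub_self]
    obtain ⟨g, k, h | h⟩ := exists_conj_T_zpow (γ : SL(2, ℤ)) hγ
    · rw [h]
      apply key
      rw [← h]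
      exact smul_basePt_of_mem Γ γ.2
    · have h1 : (γ : SL(2, ℤ)) = (-1) * (g * T ^ k * g⁻¹) := by
        rw [h]; simp
      have h2 : (g * T ^ k * g⁻¹) • basePt Γ = basePt Γ := by
        have h3 : g * T ^ k * g⁻¹ = (-1) * (γ : SL(2, ℤ)) := by
          rw [h]; simp
        rw [h3, mul_smul, smul_basePt_of_mem Γ γ.2, hn]
      rw [h1, hf, hfneg, add_zero]
      exact key g k h2
  · intro x
    have := hf.eq_indc_add S x
    rw [hfS] at this
    rw [this]; ring
  · intro x
    have := hf.eq_indc_add (S * T) x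
    rw [hfU] at this
    rw [this]; ring

end Construct


section Finite

/-- `Hom(H, K)` is finite dimensional for a finitely generated group `H`. -/
lemma finite_addMonoidHom_of_fg (H : Type*) [Group H] [Group.FG H] (K : Type*) [Field K] :
    Module.Finite K (Additive H →+ K) := by
  obtain ⟨s, hs⟩ := Group.fg_def.mp (inferInstance : Group.FG H)
  let L : (Additive H →+ K) →ₗ[K] (s → K) :=
    { toFun := fun φ x => φ (Additive.ofMul (x : H))
      map_add' := fun _ _ => rfl
      map_smul' := fun _ _ => rfl }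
  have hL : Function.Injective L := by
    rw [← LinearMap.ker_eq_bot, LinearMap.ker_eq_bot']
    intro φ hφ
    have h0 : ∀ x ∈ s, φ (Additive.ofMul x) = 0 := fun x hx => congrFun hφ ⟨x, hx⟩
    have key : ∀ h : H, φ (Additive.ofMul h) = 0 := by
      intro h
      have hg : h ∈ Subgroup.closure (s : Set H) := by rw [hs]; trivial
      induction hg using Subgroup.closure_induction with
      | mem x hx => exact h0 x hx
      | one => exact map_zero φ
      | mul x y _ _ hx hy =>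
        rw [ofMul_mul, map_add, hx, hy, add_zero]
      | inv x _ hx =>
        rw [ofMul_inv, map_neg, hx, neg_zero]
    exact AddMonoidHom.ext fun g => key (Additive.toMul g)
  exact Module.Finite.of_injective L hL

instance groupFG_SL2Z : Group.FG SL(2, ℤ) :=
  Group.fg_iff.mpr ⟨{S, T}, _root_.SpecialLinearGroup.SL2Z_generators, Set.toFinite _⟩

lemma finite_parabolicHoms (Γ : Subgroup SL(2, ℤ)) [Γ.FiniteIndex] (K : Type*) [Field K] :
    Module.Finite K (parabolicHoms K Γ K) := by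
  have : Group.FG Γ := Subgroup.fg_of_index_ne_zero Γ
  have := finite_addMonoidHom_of_fg Γ K
  infer_instance

end Finite


section Count

variable (K : Type*) [Field K] (X : Type*) [MulAction SL(2, ℤ) X] [Fintype X]

/-- The sum functional. -/
def sumL (ι : Type*) [Fintype ι] : (ι → K) →ₗ[K] K where
  toFun z := ∑ i, z i
  map_add' z z' := by simp [Finset.sum_add_distrib]
  map_smul' t z := by simp [Finset.mul_sum]

@[simp] lemma sumL_apply (ι : Type*) [Fintype ι] (z : ι → K) : sumL K ι z = ∑ i, z i := rfl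

/-- The constraint map `(a, c) ↦ (orbit sums of a, of c, of c - a)`. -/
noncomputable def lamL : ((X → K) × (X → K)) →ₗ[K]
    ((Orb S X → K) × (Orb (S * T) X → K) × (Orb T X → K)) :=
  ((osum K S).comp (LinearMap.fst K _ _)).prod
    (((osum K (S * T)).comp (LinearMap.snd K _ _)).prod
      ((osum K T).comp (LinearMap.snd K _ _ - LinearMap.fst K _ _)))

lemma lamL_apply (a c : X → K) :
    lamL K X (a, c) = (osum K S a, osum K (S * T) c, osum K T (c - a)) := rfl

lemma mem_ker_lamL (a c : X → K) :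
    (a, c) ∈ LinearMap.ker (lamL K X) ↔
      osum K S a = 0 ∧ osum K (S * T) c = 0 ∧ osum K T (c - a) = 0 := by
  rw [LinearMap.mem_ker, lamL_apply, Prod.mk_eq_zero, Prod.mk_eq_zero]

variable [Fintype (Orb S X)] [Fintype (Orb (S * T) X)] [Fintype (Orb T X)]

/-- The linear relation between the constraints. -/
noncomputable def epsL :
    ((Orb S X → K) × (Orb (S * T) X → K) × (Orb T X → K)) →ₗ[K] K :=
  (sumL K _).comp ((LinearMap.snd K _ _).comp (LinearMap.snd K _ _))
    - (sumL K _).comp ((LinearMap.fst K _ _).comp (LinearMap.snd K _ _))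
    + (sumL K _).comp (LinearMap.fst K _ _)

omit [Fintype X] in
lemma epsL_apply (p : Orb S X → K) (q : Orb (S * T) X → K) (z : Orb T X → K) :
    epsL K X (p, q, z) = ∑ i, z i - ∑ i, q i + ∑ i, p i := rfl

lemma range_lamL_le_ker_epsL : LinearMap.range (lamL K X) ≤ LinearMap.ker (epsL K X) := by
  rintro _ ⟨⟨a, c⟩, rfl⟩
  rw [LinearMap.mem_ker, lamL_apply, epsL_apply, sum_osum, sum_osum, sum_osum]
  simp only [Pi.sub_apply, Finset.sum_sub_distrib]
  ring

omit [Fintype X] in
lemma epsL_surjective [Nonempty X] : Function.Surjective (epsL K X) := by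
  classical
  obtain ⟨x⟩ := (inferInstance : Nonempty X)
  intro t
  refine ⟨(0, 0, Pi.single (orbMk T x) t), ?_⟩
  rw [epsL_apply]
  simp

lemma finrank_ker_epsL [Nonempty X] :
    Module.finrank K (LinearMap.ker (epsL K X)) + 1 =
      Nat.card (Orb S X) + Nat.card (Orb (S * T) X) + Nat.card (Orb T X) := by
  have h := LinearMap.finrank_range_add_finrank_ker (epsL K X)
  rw [LinearMap.range_eq_top.mpr (epsL_surjective K X), finrank_top, Module.finrank_self,
    Module.finrank_prod, Module.finrank_prod, finrank_orb_fun, finrank_orb_fun,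
    finrank_orb_fun] at h
  omega

/-- The dimension of the solution space of the orbit sum constraints. -/
theorem finrank_ker_lamL_ge [Nonempty X] :
    2 * Fintype.card X + 1 ≤ Module.finrank K (LinearMap.ker (lamL K X))
      + Nat.card (Orb S X) + Nat.card (Orb (S * T) X) + Nat.card (Orb T X) := by
  have h1 := LinearMap.finrank_range_add_finrank_ker (lamL K X)
  rw [Module.finrank_prod, Module.finrank_fintype_fun_eq_card] at h1
  have h2 := Submodule.finrank_mono (range_lamL_le_ker_epsL K X)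
  have h3 := finrank_ker_epsL K X
  omega

end Count


section Main

variable (Γ : Subgroup SL(2, ℤ)) (K : Type*) [Field K]

/-- `indc` as a linear map in `ψ`. -/
noncomputable def indcL (g : SL(2, ℤ)) :
    (Additive Γ →+ K) →ₗ[K] ((SL(2, ℤ) ⧸ Γ) → K) where
  toFun ψ x := indc Γ ψ g x
  map_add' _ _ := rfl
  map_smul' _ _ := rfl

/-- The comparison map `(ψ, m) ↦ (ψ^S + (m ∘ S - m), ψ^{ST} + (m ∘ ST - m))`. -/
noncomputable def thetaL :
    (parabolicHoms K Γ K × ((SL(2, ℤ) ⧸ Γ) → K)) →ₗ[K]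
      (((SL(2, ℤ) ⧸ Γ) → K) × ((SL(2, ℤ) ⧸ Γ) → K)) :=
  (((indcL Γ K S).comp ((parabolicHoms K Γ K).subtype.comp (LinearMap.fst K _ _)))
      + (cobd K S).comp (LinearMap.snd K _ _)).prod
    (((indcL Γ K (S * T)).comp ((parabolicHoms K Γ K).subtype.comp (LinearMap.fst K _ _)))
      + (cobd K (S * T)).comp (LinearMap.snd K _ _))

lemma thetaL_apply (ψ : parabolicHoms K Γ K) (m : (SL(2, ℤ) ⧸ Γ) → K) :
    thetaL Γ K (ψ, m) =
      ((fun x => indc Γ (ψ : Additive Γ →+ K) S x) + cobd K S m,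
       (fun x => indc Γ (ψ : Additive Γ →+ K) (S * T) x) + cobd K (S * T) m) := rfl

variable {Γ}

lemma ker_lamL_le_range_thetaL [Fintype (SL(2, ℤ) ⧸ Γ)] (hneg : (-1 : SL(2, ℤ)) ∈ Γ) :
    LinearMap.ker (lamL K (SL(2, ℤ) ⧸ Γ)) ≤ LinearMap.range (thetaL Γ K) := by
  rintro ⟨a, c⟩ hac
  rw [mem_ker_lamL] at hac
  obtain ⟨ψ, n, hψ, h1, h2⟩ := exists_parabolicHom_of_osum hneg K a c hac.1 hac.2.1 hac.2.2
  refine ⟨(⟨ψ, hψ⟩, n), ?_⟩
  rw [thetaL_apply]
  refine Prod.ext ?_ ?_
  · funext x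
    exact (h1 x).symm
  · funext x
    exact (h2 x).symm

lemma one_le_finrank_ker_thetaL [Γ.FiniteIndex] :
    1 ≤ Module.finrank K (LinearMap.ker (thetaL Γ K)) := by
  haveI := finite_parabolicHoms Γ K
  haveI : Finite (SL(2, ℤ) ⧸ Γ) := Subgroup.finite_quotient_of_finiteIndex
  rw [Nat.succ_le_iff]
  refine (Module.finrank_pos_iff_exists_ne_zero (R := K)).mpr
    ⟨(⟨(0, fun _ => 1), ?_⟩ : LinearMap.ker (thetaL Γ K)), ?_⟩
  · rw [LinearMap.mem_ker, thetaL_apply]
    refine Prod.ext ?_ ?_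
    · funext x
      simp [indc]
    · funext x
      simp [indc]
  · intro h
    have h1 := congrArg (fun z : LinearMap.ker (thetaL Γ K) => z.1.2 (basePt Γ)) h
    simp at h1

/-- **Lower bound for the dimension of the space of parabolic homomorphisms.** -/
theorem card_add_two_le_finrank_parabolicHoms [Γ.FiniteIndex] (hneg : (-1 : SL(2, ℤ)) ∈ Γ) :
    Nat.card (SL(2, ℤ) ⧸ Γ) + 2 ≤
      Module.finrank K (parabolicHoms K Γ K)
        + Nat.card (MulAction.orbitRel.Quotient (Subgroup.zpowers S) (SL(2, ℤ) ⧸ Γ))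
        + Nat.card (MulAction.orbitRel.Quotient (Subgroup.zpowers (S * T)) (SL(2, ℤ) ⧸ Γ))
        + Nat.card (MulAction.orbitRel.Quotient (Subgroup.zpowers T) (SL(2, ℤ) ⧸ Γ)) := by
  classical
  haveI := finite_parabolicHoms Γ K
  haveI : Finite (SL(2, ℤ) ⧸ Γ) := Subgroup.finite_quotient_of_finiteIndex
  letI : Fintype (SL(2, ℤ) ⧸ Γ) := Fintype.ofFinite _
  letI : Fintype (Orb S (SL(2, ℤ) ⧸ Γ)) := Fintype.ofFinite _
  letI : Fintype (Orb (S * T) (SL(2, ℤ) ⧸ Γ)) := Fintype.ofFinite _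
  letI : Fintype (Orb T (SL(2, ℤ) ⧸ Γ)) := Fintype.ofFinite _
  haveI : Nonempty (SL(2, ℤ) ⧸ Γ) := ⟨basePt Γ⟩
  have h1 : 2 * Fintype.card (SL(2, ℤ) ⧸ Γ) + 1 ≤
      Module.finrank K (LinearMap.ker (lamL K (SL(2, ℤ) ⧸ Γ)))
        + Nat.card (MulAction.orbitRel.Quotient (Subgroup.zpowers S) (SL(2, ℤ) ⧸ Γ))
        + Nat.card (MulAction.orbitRel.Quotient (Subgroup.zpowers (S * T)) (SL(2, ℤ) ⧸ Γ))
        + Nat.card (MulAction.orbitRel.Quotient (Subgroup.zpowers T) (SL(2, ℤ) ⧸ Γ)) :=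
    finrank_ker_lamL_ge K (SL(2, ℤ) ⧸ Γ)
  have h2 := Submodule.finrank_mono (ker_lamL_le_range_thetaL K hneg)
  have h3 := LinearMap.finrank_range_add_finrank_ker (thetaL Γ K)
  rw [Module.finrank_prod, Module.finrank_fintype_fun_eq_card] at h3
  have h4 := one_le_finrank_ker_thetaL (Γ := Γ) K
  rw [Nat.card_eq_fintype_card (α := SL(2, ℤ) ⧸ Γ)]
  omega

end Main

end Fermat.Agent.S21.H585

end
-- ===== PACK-END S21/H585/LowerBound.lean

-- ===== PACK-BEGIN S41/H460/DictA.lean
section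




/-!
# Row S41, block PD, leaf DICT-a (helper460)

Dictionary `Hom(Γ, A) ↔` Manin symbols, first half (exact shapes of `Spec/PD.lean`):

* `maninRepExists    : Spec.ManinRepExistsStatement`    (D1)
* `maninRepZero      : Spec.ManinRepZeroStatement`      (D2)
* `maninRepInvariant : Spec.ManinRepInvariantStatement` (D2')
* `maninRepLinear    : Spec.ManinRepLinearStatement`    (D2'')

Reusable: `isCocycle_indc`, `indc_apply_of_fixed`, `exists_cobd_of_zpow_fixed` (a cocycle value
`f g` is a `g`-coboundary as soon as `f (g ^ n) x = 0` whenever `g ^ n • x = x`),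
`isCocycle_eq_of_S_ST` (a cocycle on `SL(2,ℤ)` is determined by its values at `S` and `S * T`).
-/

set_option autoImplicit false

namespace Fermat.Agent.S41.H460

open Matrix ModularGroup Matrix.SpecialLinearGroup
open Fermat.Agent.S21.H585 Fermat.Agent.S41.Spec
open scoped MatrixGroups

universe u

/-! ## Generalities on cocycles -/

section General

variable {G : Type*} [Group G] {X : Type*} [MulAction G X] {A : Type*} [AddCommGroup A]

/-- The coboundary of a function is a cocycle. -/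
lemma isCocycle_cobd (n : X → A) : IsCocycle (fun (g : G) (x : X) => n (g • x) - n x) := by
  intro g h x
  simp only [mul_smul]
  abel

lemma isCocycle_add {f f' : G → X → A} (hf : IsCocycle f) (hf' : IsCocycle f') :
    IsCocycle (fun g x => f g x + f' g x) := by
  intro g h x
  simp only [hf g h x, hf' g h x]
  abel

lemma isCocycle_sub {f f' : G → X → A} (hf : IsCocycle f) (hf' : IsCocycle f') :
    IsCocycle (fun g x => f g x - f' g x) := by
  intro g h x
  simp only [hf g h x, hf' g h x]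
  abel

lemma isCocycle_map {B : Type*} [AddCommGroup B] (π : A →+ B) {f : G → X → A}
    (hf : IsCocycle f) : IsCocycle (fun g x => π (f g x)) := by
  intro g h x
  simp only [hf g h x, map_add]

/-- If `f (g ^ n) x = 0` whenever `g ^ n` fixes `x`, then `f g` is a `g`-coboundary. -/
theorem exists_cobd_of_zpow_fixed {f : G → X → A} (hf : IsCocycle f) (g : G)
    (hper : ∀ (x : X) (n : ℤ), g ^ n • x = x → f (g ^ n) x = 0) :
    ∃ h : X → A, ∀ x, f g x = h (g • x) - h x := by
  classical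
  -- representatives of the orbits of `⟨g⟩`
  let r : X → X := fun x =>
    Quotient.out (Quotient.mk (MulAction.orbitRel (Subgroup.zpowers g) X) x)
  have hr : ∀ x, ∃ k : ℤ, g ^ k • r x = x := by
    intro x
    have h1 : (MulAction.orbitRel (Subgroup.zpowers g) X) (r x) x :=
      Quotient.exact (Quotient.out_eq _)
    rw [MulAction.orbitRel_apply] at h1
    obtain ⟨⟨t, ht⟩, hx⟩ := h1
    obtain ⟨k, rfl⟩ := Subgroup.mem_zpowers_iff.mp ht
    -- `hx : ⟨g ^ k, _⟩ • x = r x`
    refine ⟨-k, ?_⟩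
    have hx' : g ^ k • x = r x := hx
    rw [← hx', ← mul_smul, ← _root_.zpow_add, neg_add_cancel, zpow_zero, one_smul]
  have hrg : ∀ x, r (g • x) = r x := by
    intro x
    show Quotient.out _ = Quotient.out _
    congr 1
    apply Quotient.sound
    show (MulAction.orbitRel (Subgroup.zpowers g) X) (g • x) x
    rw [MulAction.orbitRel_apply]
    exact ⟨⟨g, Subgroup.mem_zpowers g⟩, rfl⟩
  choose k hk using hr
  refine ⟨fun x => f (g ^ k x) (r x), fun x => ?_⟩
  show f g x = f (g ^ k (g • x)) (r (g • x)) - f (g ^ k x) (r x)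
  rw [hrg]
  -- both `g ^ k (g • x)` and `g ^ (k x + 1)` move `r x` to `g • x`
  have h1 : g ^ (k x + 1) • r x = g • x := by
    rw [add_comm, _root_.zpow_add, zpow_one, mul_smul, hk]
  have h2 : g ^ k (g • x) • r x = g • x := by
    have := hk (g • x)
    rwa [hrg] at this
  have h3 : g ^ (k (g • x) - (k x + 1)) • (g • x) = g • x := by
    calc g ^ (k (g • x) - (k x + 1)) • (g • x)
        = g ^ (k (g • x) - (k x + 1)) • (g ^ (k x + 1) • r x) := by rw [h1]
      _ = g ^ k (g • x) • r x := by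
          rw [← mul_smul, ← _root_.zpow_add, sub_add_cancel]
      _ = g • x := h2
  have h4 : f (g ^ k (g • x)) (r x) = f (g ^ (k x + 1)) (r x) := by
    have e : g ^ k (g • x) = g ^ (k (g • x) - (k x + 1)) * g ^ (k x + 1) := by
      rw [← _root_.zpow_add, sub_add_cancel]
    rw [e, hf, h1, hper _ _ h3, add_zero]
  have h5 : f (g ^ (k x + 1)) (r x) = f (g ^ k x) (r x) + f g x := by
    rw [add_comm (k x) 1, _root_.zpow_add, zpow_one, hf, hk]
  rw [h4, h5]
  abel

end General

/-! ## The induced cocycle -/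

section Indc

variable {Γ : Subgroup SL(2, ℤ)} {A : Type*} [AddCommGroup A]

lemma indc_eq_of_eq (φ : Additive Γ →+ A) (g : SL(2, ℤ)) (x : SL(2, ℤ) ⧸ Γ) (γ : Γ)
    (h : (γ : SL(2, ℤ)) = (Quotient.out (g • x) : SL(2, ℤ))⁻¹ * g * Quotient.out x) :
    indc Γ φ g x = φ (Additive.ofMul γ) := by
  unfold indc
  congr 2
  exact Subtype.ext h.symm

/-- `indc φ` is a cocycle. -/
theorem isCocycle_indc (φ : Additive Γ →+ A) : IsCocycle (indc Γ φ) := by
  intro g h x
  have hmem : (Quotient.out ((g * h) • x) : SL(2, ℤ))⁻¹ * (g * h) * Quotient.out x ∈ Γ :=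
    sec_mem Γ (g * h) x
  set γ₁ : Γ := ⟨(Quotient.out (g • h • x) : SL(2, ℤ))⁻¹ * g * Quotient.out (h • x),
    sec_mem Γ g (h • x)⟩ with hγ₁
  set γ₂ : Γ := ⟨(Quotient.out (h • x) : SL(2, ℤ))⁻¹ * h * Quotient.out x, sec_mem Γ h x⟩
    with hγ₂
  have e1 : indc Γ φ (g * h) x = φ (Additive.ofMul (γ₁ * γ₂)) := by
    apply indc_eq_of_eq
    rw [Subgroup.coe_mul, hγ₁, hγ₂, mul_smul]
    simp only [mul_assoc, mul_inv_cancel_left]
  have e2 : indc Γ φ h x = φ (Additive.ofMul γ₂) := indc_eq_of_eq φ h x γ₂ rfl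
  have e3 : indc Γ φ g (h • x) = φ (Additive.ofMul γ₁) := indc_eq_of_eq φ g (h • x) γ₁ rfl
  rw [e1, e2, e3, ofMul_mul, map_add, add_comm]

/-- At a fixed point, `indc φ g x` is the value of `φ` at a conjugate of `g`. -/
lemma indc_apply_of_fixed (φ : Additive Γ →+ A) (g : SL(2, ℤ)) (x : SL(2, ℤ) ⧸ Γ)
    (hfix : g • x = x) :
    ∃ γ : Γ, (γ : SL(2, ℤ)) = (Quotient.out x : SL(2, ℤ))⁻¹ * g * Quotient.out x ∧
      indc Γ φ g x = φ (Additive.ofMul γ) := by
  have hmem : (Quotient.out x : SL(2, ℤ))⁻¹ * g * Quotient.out x ∈ Γ := by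
    have := sec_mem Γ g x
    rwa [hfix] at this
  refine ⟨⟨_, hmem⟩, rfl, ?_⟩
  apply indc_eq_of_eq
  rw [hfix]

/-- `indc φ` recovers `φ` at the base point. -/
lemma indc_basePt (φ : Additive Γ →+ A) (γ : Γ) :
    indc Γ φ (γ : SL(2, ℤ)) (basePt Γ) = φ (Additive.ofMul γ) := by
  obtain ⟨γ', hγ', h⟩ := indc_apply_of_fixed φ (γ : SL(2, ℤ)) (basePt Γ)
    (smul_basePt_of_mem Γ γ.2)
  rw [h]
  -- `γ' = s⁻¹ γ s` with `s ∈ Γ`
  have hs : (Quotient.out (basePt Γ) : SL(2, ℤ)) ∈ Γ := by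
    have h1 := out_smul_basePt Γ (basePt Γ)
    rw [smul_basePt_eq, basePt, QuotientGroup.eq] at h1
    have h2 := inv_mem h1
    rw [mul_one, inv_inv] at h2
    exact h2
  set s : Γ := ⟨_, hs⟩ with hsdef
  have e : γ' = s⁻¹ * γ * s := Subtype.ext (by rw [hγ']; rfl)
  rw [e, ofMul_mul, ofMul_mul, map_add, map_add, ofMul_inv, map_neg]
  abel

end Indc

/-! ## Finite order elements -/

section FinOrder

lemma isOfFinOrder_S_h460 : IsOfFinOrder (S : SL(2, ℤ)) :=
  isOfFinOrder_iff_pow_eq_one.mpr ⟨4, by norm_num, by decide⟩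

lemma isOfFinOrder_ST_h460 : IsOfFinOrder (S * T : SL(2, ℤ)) :=
  isOfFinOrder_iff_pow_eq_one.mpr ⟨6, by norm_num, by decide⟩

variable {Γ : Subgroup SL(2, ℤ)} {A : Type*} [AddCommGroup A]

/-- A torsion-trivial `φ` has `indc φ (g ^ n) x = 0` at the fixed points of `g ^ n`, `g` of finite
order. -/
lemma indc_zpow_eq_zero_of_fixed (φ : Additive Γ →+ A)
    (hφ : ∀ γ : Γ, IsOfFinOrder γ → φ (Additive.ofMul γ) = 0) (g : SL(2, ℤ))
    (hg : IsOfFinOrder g) (x : SL(2, ℤ) ⧸ Γ) (n : ℤ) (hfix : g ^ n • x = x) :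
    indc Γ φ (g ^ n) x = 0 := by
  obtain ⟨γ, hγ, h⟩ := indc_apply_of_fixed φ (g ^ n) x hfix
  rw [h]
  apply hφ
  obtain ⟨k, hk, hgk⟩ := isOfFinOrder_iff_pow_eq_one.mp (hg.zpow (i := n))
  refine isOfFinOrder_iff_pow_eq_one.mpr ⟨k, hk, ?_⟩
  apply Subtype.ext
  rw [Subgroup.coe_pow, hγ, Subgroup.coe_one]
  have e : (Quotient.out x : SL(2, ℤ))⁻¹ * g ^ n * Quotient.out x
      = (Quotient.out x : SL(2, ℤ))⁻¹ * g ^ n * ((Quotient.out x : SL(2, ℤ))⁻¹)⁻¹ := by
    rw [inv_inv]
  rw [e, conj_pow, hgk, mul_one, mul_inv_cancel]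

end FinOrder

/-! ## The four statements -/

/-- **(D1)** every torsion-trivial class has a Manin representative. -/
theorem maninRepExists : ManinRepExistsStatement.{u} := by
  intro Γ _ hneg A _ φ hφ
  have hf₀ : IsCocycle (indc Γ φ) := isCocycle_indc φ
  -- normalise at `S`
  obtain ⟨n₀, hn₀⟩ := exists_cobd_of_zpow_fixed hf₀ S
    (fun x n h => indc_zpow_eq_zero_of_fixed φ hφ S isOfFinOrder_S_h460 x n h)
  set f₁ : SL(2, ℤ) → SL(2, ℤ) ⧸ Γ → A := fun g x => indc Γ φ g x - (n₀ (g • x) - n₀ x)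
    with hf₁def
  have hf₁ : IsCocycle f₁ := isCocycle_sub hf₀ (isCocycle_cobd n₀)
  have hf₁S : ∀ x, f₁ S x = 0 := by
    intro x
    show indc Γ φ S x - (n₀ (S • x) - n₀ x) = 0
    rw [hn₀ x, sub_self]
  -- normalise at `S * T`
  obtain ⟨m, hm⟩ := exists_cobd_of_zpow_fixed hf₁ (S * T) (by
    intro x n h
    show indc Γ φ ((S * T) ^ n) x - (n₀ ((S * T) ^ n • x) - n₀ x) = 0
    rw [indc_zpow_eq_zero_of_fixed φ hφ (S * T) isOfFinOrder_ST_h460 x n h, h, sub_self,
      sub_zero])
  refine ⟨m, f₁, ⟨hf₁, hf₁S, hm⟩, fun γ => ?_⟩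
  show φ (Additive.ofMul γ) = indc Γ φ (γ : SL(2, ℤ)) (basePt Γ)
    - (n₀ ((γ : SL(2, ℤ)) • basePt Γ) - n₀ (basePt Γ))
  rw [indc_basePt, smul_basePt_of_mem Γ γ.2, sub_self, sub_zero]

/-- A cocycle whose homomorphism vanishes is the coboundary of `x ↦ f (out x) x₀`. -/
lemma eq_cobd_of_hom_eq_zero {Γ : Subgroup SL(2, ℤ)} {A : Type*} [AddCommGroup A]
    {f : SL(2, ℤ) → SL(2, ℤ) ⧸ Γ → A} (hf : IsCocycle f)
    (h0 : ∀ γ : Γ, f (γ : SL(2, ℤ)) (basePt Γ) = 0) (g : SL(2, ℤ)) (x : SL(2, ℤ) ⧸ Γ) :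
    f g x = f (Quotient.out (g • x)) (basePt Γ) - f (Quotient.out x) (basePt Γ) := by
  have h1 := hf.eq_indc_add g x
  have h2 : homOfCocycle Γ f hf = 0 := by
    ext γ
    exact h0 (Additive.toMul γ)
  rw [h2] at h1
  rw [h1]
  have h3 : indc Γ (0 : Additive Γ →+ A) g x = 0 := rfl
  rw [h3, zero_add]

/-- **(D2)** a Manin symbol representing `0` lies in `M^S + M^{ST}`. -/
theorem maninRepZero : ManinRepZeroStatement.{u} := by
  intro Γ _ _ A _ m hm
  obtain ⟨f, ⟨hf, hfS, hfU⟩, hφ⟩ := hm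
  have h0 : ∀ γ : Γ, f (γ : SL(2, ℤ)) (basePt Γ) = 0 := fun γ => (hφ γ).symm
  set n : SL(2, ℤ) ⧸ Γ → A := fun x => f (Quotient.out x) (basePt Γ) with hn
  have hcob : ∀ g x, f g x = n (g • x) - n x := fun g x => eq_cobd_of_hom_eq_zero hf h0 g x
  refine ⟨n, m - n, ?_, ?_, by abel⟩
  · intro x
    have := hcob S x
    rw [hfS] at this
    exact (sub_eq_zero.mp this.symm)
  · intro x
    have h1 := hcob (S * T) x
    rw [hfU] at h1
    show m ((S * T) • x) - n ((S * T) • x) = m x - n x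
    rw [sub_eq_sub_iff_sub_eq_sub]
    exact h1

/-- A cocycle on `SL(2,ℤ)` is determined by its values at `S` and `S * T`. -/
theorem isCocycle_eq_of_S_ST {X : Type*} [MulAction SL(2, ℤ) X] {A : Type*} [AddCommGroup A]
    {f f' : SL(2, ℤ) → X → A} (hf : IsCocycle f) (hf' : IsCocycle f')
    (hS : ∀ x, f S x = f' S x) (hU : ∀ x, f (S * T) x = f' (S * T) x) (g : SL(2, ℤ)) (x : X) :
    f g x = f' g x := by
  -- the subgroup where `f` and `f'` agree
  let H : Subgroup SL(2, ℤ) :=
    { carrier := {g | ∀ x, f g x = f' g x}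
      one_mem' := fun x => by rw [hf.map_one, hf'.map_one]
      mul_mem' := fun {a b} ha hb x => by
        show f (a * b) x = f' (a * b) x
        rw [hf, hf', ha, hb]
      inv_mem' := fun {a} ha x => by
        show f a⁻¹ x = f' a⁻¹ x
        rw [hf.map_inv', hf'.map_inv', ha] }
  have hSH : S ∈ H := hS
  have hUH : S * T ∈ H := hU
  have hTH : T ∈ H := by
    have := H.mul_mem (H.inv_mem hSH) hUH
    rwa [inv_mul_cancel_left] at this
  have htop : (⊤ : Subgroup SL(2, ℤ)) ≤ H := by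
    rw [← _root_.SpecialLinearGroup.SL2Z_generators, Subgroup.closure_le]
    rintro y (rfl | rfl)
    · exact hSH
    · exact hTH
  exact htop (Subgroup.mem_top g) x

/-- **(D2')** a Manin symbol in `M^S + M^{ST}` represents only `0`. -/
theorem maninRepInvariant : ManinRepInvariantStatement.{u} := by
  intro Γ _ _ A _ φ m hm hinv
  obtain ⟨f, ⟨hf, hfS, hfU⟩, hφ⟩ := hm
  obtain ⟨n₁, n₂, hn₁, hn₂, rfl⟩ := hinv
  have hcob : IsCocycle (fun (g : SL(2, ℤ)) (x : SL(2, ℤ) ⧸ Γ) => n₁ (g • x) - n₁ x) :=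
    isCocycle_cobd n₁
  have key := isCocycle_eq_of_S_ST hf hcob
    (fun x => by
      show f S x = n₁ (S • x) - n₁ x
      rw [hfS, hn₁, sub_self])
    (fun x => by
      show f (S * T) x = n₁ ((S * T) • x) - n₁ x
      rw [hfU, Pi.add_apply, Pi.add_apply, hn₂]
      abel)
  ext γ
  have h1 := hφ (Additive.toMul γ)
  have h2 := key ((Additive.toMul γ : Γ) : SL(2, ℤ)) (basePt Γ)
  have h3 : ((Additive.toMul γ : Γ) : SL(2, ℤ)) • basePt Γ = basePt Γ :=
    smul_basePt_of_mem Γ (Additive.toMul γ).2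
  simp only [h3, sub_self] at h2
  show φ γ = 0
  exact h1.trans h2

/-- **(D2'')** linearity and naturality of `IsManinRep`. -/
theorem maninRepLinear : ManinRepLinearStatement.{u} := by
  intro Γ A B _ _ π φ φ' m m' hm hm'
  obtain ⟨f, ⟨hf, hfS, hfU⟩, hφ⟩ := hm
  obtain ⟨f', ⟨hf', hfS', hfU'⟩, hφ'⟩ := hm'
  refine ⟨⟨fun g x => f g x + f' g x, ⟨isCocycle_add hf hf', fun x => ?_, fun x => ?_⟩, fun γ => ?_⟩,
    ⟨fun g x => f g x - f' g x, ⟨isCocycle_sub hf hf', fun x => ?_, fun x => ?_⟩, fun γ => ?_⟩,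
    ⟨fun g x => π (f g x), ⟨isCocycle_map π hf, fun x => ?_, fun x => ?_⟩, fun γ => ?_⟩⟩
  · show f S x + f' S x = 0
    rw [hfS, hfS', add_zero]
  · show f (S * T) x + f' (S * T) x = (m + m') ((S * T) • x) - (m + m') x
    rw [hfU, hfU', Pi.add_apply, Pi.add_apply]
    abel
  · show (φ + φ') (Additive.ofMul γ) = f _ _ + f' _ _
    rw [AddMonoidHom.add_apply, hφ, hφ']
  · show f S x - f' S x = 0
    rw [hfS, hfS', sub_zero]
  · show f (S * T) x - f' (S * T) x = (m - m') ((S * T) • x) - (m - m') x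
    rw [hfU, hfU', Pi.sub_apply, Pi.sub_apply]
    abel
  · show (φ - φ') (Additive.ofMul γ) = f _ _ - f' _ _
    rw [AddMonoidHom.sub_apply, hφ, hφ']
  · show π (f S x) = 0
    rw [hfS, map_zero]
  · show π (f (S * T) x) = π (m ((S * T) • x)) - π (m x)
    rw [hfU, map_sub]
  · show (π.comp φ) (Additive.ofMul γ) = π (f _ _)
    rw [AddMonoidHom.comp_apply, hφ]

end Fermat.Agent.S41.H460

end
-- ===== PACK-END S41/H460/DictA.lean

-- ===== PACK-BEGIN S41/H585/PDDictB.lean
section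





/-!
# S41 / PD, leaf DICT-b (helper585): Manin symbols ↔ classes, part b

* `maninRepRealize   : Spec.ManinRepRealizeStatement`   (D3)
* `maninRepTorsion   : Spec.TorsionClassStatement → Spec.ManinRepTorsionStatement`   (D3')
* `maninRepParabolic : Spec.ManinRepParabolicStatement` (D4)

plus reusable facts on Manin cocycles (`IsManinCocycle.*`).
-/

set_option autoImplicit false

namespace Fermat.Agent.S41.H585

open CongruenceSubgroup Matrix.SpecialLinearGroup ModularCurve.Period ModularGroup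
open Fermat.Agent.S21.H585 Fermat.Agent.S41.Spec
open scoped MatrixGroups

universe u

section Basic

variable {Γ : Subgroup SL(2, ℤ)} {A : Type*} [AddCommGroup A]
  {f : SL(2, ℤ) → SL(2, ℤ) ⧸ Γ → A} {m : SL(2, ℤ) ⧸ Γ → A}

lemma mc_isCocycle (hf : IsManinCocycle Γ f m) : IsCocycle f := hf.1

lemma mc_map_S (hf : IsManinCocycle Γ f m) (x : SL(2, ℤ) ⧸ Γ) : f S x = 0 := hf.2.1 x

lemma mc_map_ST (hf : IsManinCocycle Γ f m) (x : SL(2, ℤ) ⧸ Γ) :
    f (S * T) x = m ((S * T) • x) - m x := hf.2.2 x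

lemma mc_map_S_inv (hf : IsManinCocycle Γ f m) (x : SL(2, ℤ) ⧸ Γ) : f S⁻¹ x = 0 := by
  rw [(mc_isCocycle hf).map_inv', (mc_map_S hf), neg_zero]

lemma mc_map_T (hf : IsManinCocycle Γ f m) (x : SL(2, ℤ) ⧸ Γ) :
    f T x = m ((S * T) • x) - m x := by
  have h : (T : SL(2, ℤ)) = S⁻¹ * (S * T) := by rw [inv_mul_cancel_left]
  have h2 := (mc_isCocycle hf) S⁻¹ (S * T) x
  rw [← h, (mc_map_S_inv hf), add_zero, (mc_map_ST hf)] at h2
  exact h2

lemma mc_map_neg_one (hf : IsManinCocycle Γ f m) (x : SL(2, ℤ) ⧸ Γ) :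
    f (-1) x = 0 := by
  rw [← S_mul_S_eq_neg_one, (mc_isCocycle hf), (mc_map_S hf), (mc_map_S hf), add_zero]

lemma mc_map_neg (hf : IsManinCocycle Γ f m) (g : SL(2, ℤ)) (x : SL(2, ℤ) ⧸ Γ) :
    f (-g) x = f g x := by
  have h : (-g : SL(2, ℤ)) = (-1) * g := by simp
  rw [h, (mc_isCocycle hf), (mc_map_neg_one hf), add_zero]

lemma mc_map_ST_zpow (hf : IsManinCocycle Γ f m) (k : ℤ) (x : SL(2, ℤ) ⧸ Γ) :
    f ((S * T) ^ k) x = m ((S * T) ^ k • x) - m x :=
  (mc_isCocycle hf).zpow_of_cobd (S * T) m (mc_map_ST hf) k x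

lemma mc_map_S_zpow (hf : IsManinCocycle Γ f m) (k : ℤ) (x : SL(2, ℤ) ⧸ Γ) :
    f (S ^ k) x = 0 := by
  have := (mc_isCocycle hf).zpow_of_cobd S (0 : SL(2, ℤ) ⧸ Γ → A) (fun y => by simp [(mc_map_S hf)]) k x
  simpa using this

/-- The value of the attached class on a conjugate `g t g⁻¹ ∈ Γ`. -/
lemma mc_conj_basePt (hf : IsManinCocycle Γ f m) (g t : SL(2, ℤ))
    (hmem : g * t * g⁻¹ ∈ Γ) :
    f (g * t * g⁻¹) (basePt Γ) = f t (g⁻¹ • basePt Γ) :=
  (mc_isCocycle hf).conj_apply g t (smul_basePt_of_mem Γ hmem)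

/-- The value of the attached class on a conjugate `g⁻¹ t g ∈ Γ`. -/
lemma mc_conj_basePt' (hf : IsManinCocycle Γ f m) (g t : SL(2, ℤ))
    (hmem : g⁻¹ * t * g ∈ Γ) :
    f (g⁻¹ * t * g) (basePt Γ) = f t (g • basePt Γ) := by
  have h := mc_conj_basePt hf g⁻¹ t (by rwa [inv_inv])
  rwa [inv_inv] at h

lemma smul_inv_basePt_fixed {g t : SL(2, ℤ)} (hmem : g * t * g⁻¹ ∈ Γ) :
    t • g⁻¹ • basePt Γ = g⁻¹ • basePt Γ := by
  calc t • g⁻¹ • basePt Γ = g⁻¹ • (g * t * g⁻¹) • basePt Γ := by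
        simp only [mul_smul, inv_smul_smul]
    _ = g⁻¹ • basePt Γ := by rw [smul_basePt_of_mem Γ hmem]

end Basic

/-! ## D3 -/

/-- (D3) every Manin symbol represents a class. -/
theorem maninRepRealize : ManinRepRealizeStatement.{u} := by
  intro Γ _ hneg A _ m
  have hn : ∀ x : SL(2, ℤ) ⧸ Γ, (-1 : SL(2, ℤ)) • x = x := neg_one_smul_quot hneg
  obtain ⟨f, hf, hS, hU⟩ := exists_cocycle (X := SL(2, ℤ) ⧸ Γ) hn (0 : SL(2, ℤ) ⧸ Γ → A)
    (fun x => m ((S * T) • x) - m x) (fun x => by simp) (fun x => by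
      have h1 : (S * T) • (S * T) • (S * T) • x = x := by
        rw [smul_smul, smul_smul, ST_cube_eq_neg_one, hn]
      show m ((S * T) • x) - m x + (m ((S * T) • (S * T) • x) - m ((S * T) • x)) +
        (m ((S * T) • (S * T) • (S * T) • x) - m ((S * T) • (S * T) • x)) = 0
      rw [h1]
      abel)
  refine ⟨homOfCocycle Γ f hf, f, ⟨hf, fun x => by rw [hS]; rfl, fun x => by rw [hU]⟩, fun γ => ?_⟩
  rfl

/-! ## D3' -/

/-- (D3') represented classes are torsion-trivial. -/
theorem maninRepTorsion (tors : TorsionClassStatement) : ManinRepTorsionStatement.{u} := by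
  intro Γ _ hneg A _ φ m ⟨f, hf, hφ⟩ γ hγ
  have hn : ∀ x : SL(2, ℤ) ⧸ Γ, (-1 : SL(2, ℤ)) • x = x := neg_one_smul_quot hneg
  have hγ' : IsOfFinOrder (γ : SL(2, ℤ)) := by
    obtain ⟨n, hn0, hn1⟩ := isOfFinOrder_iff_pow_eq_one.mp hγ
    exact isOfFinOrder_iff_pow_eq_one.mpr ⟨n, hn0, by rw [← Subgroup.coe_pow, hn1]; rfl⟩
  obtain ⟨h, hh⟩ := tors (γ : SL(2, ℤ)) hγ'
  rw [hφ γ]
  -- `γ = h⁻¹ t h`
  have key : ∀ t : SL(2, ℤ), h * (γ : SL(2, ℤ)) * h⁻¹ = t →
      (∀ y : SL(2, ℤ) ⧸ Γ, t • y = y → f t y = 0) →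
      f (γ : SL(2, ℤ)) ((1 : SL(2, ℤ)) : SL(2, ℤ) ⧸ Γ) = 0 := by
    intro t ht hty
    have e : (γ : SL(2, ℤ)) = h⁻¹ * t * h⁻¹⁻¹ := by
      rw [← ht, inv_inv]; group
    have hmem : h⁻¹ * t * h⁻¹⁻¹ ∈ Γ := by rw [← e]; exact γ.2
    have h1 := (mc_conj_basePt hf) h⁻¹ t hmem
    have h2 := smul_inv_basePt_fixed hmem
    show f (γ : SL(2, ℤ)) (basePt Γ) = 0
    rw [e, h1]
    exact hty _ h2
  have hU1 : ∀ y : SL(2, ℤ) ⧸ Γ, (S * T) • y = y → f (S * T) y = 0 := by
    intro y hy
    rw [(mc_map_ST hf), hy, sub_self]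
  have hU2 : ∀ y : SL(2, ℤ) ⧸ Γ, ((S * T) ^ 2) • y = y → f ((S * T) ^ 2) y = 0 := by
    intro y hy
    have := (mc_map_ST_zpow hf) 2 y
    rw [zpow_ofNat] at this
    rw [this, hy, sub_self]
  have hnegfix : ∀ (t : SL(2, ℤ)) (y : SL(2, ℤ) ⧸ Γ), (-t) • y = y → t • y = y := by
    intro t y hy
    have h : (-t : SL(2, ℤ)) = (-1) * t := by simp
    rw [h, mul_smul, hn] at hy
    exact hy
  rcases hh with hh | hh | hh | hh | hh | hh | hh | hh
  · exact key 1 hh (fun y _ => (mc_isCocycle hf).map_one y)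
  · exact key (-1) hh (fun y _ => (mc_map_neg_one hf) y)
  · exact key S hh (fun y _ => (mc_map_S hf) y)
  · exact key (-S) hh (fun y _ => by rw [(mc_map_neg hf), (mc_map_S hf)])
  · exact key (S * T) hh hU1
  · exact key (-(S * T)) hh (fun y hy => by rw [(mc_map_neg hf)]; exact hU1 y (hnegfix _ y hy))
  · exact key ((S * T) ^ 2) hh hU2
  · exact key (-(S * T) ^ 2) hh (fun y hy => by rw [(mc_map_neg hf)]; exact hU2 y (hnegfix _ y hy))

/-! ## D4 -/

section D4

variable {Γ : Subgroup SL(2, ℤ)} {A : Type*} [AddCommGroup A]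
  {f : SL(2, ℤ) → SL(2, ℤ) ⧸ Γ → A} {m : SL(2, ℤ) ⧸ Γ → A}

lemma toPerm_pow_apply (g : SL(2, ℤ)) (n : ℕ) (x : SL(2, ℤ) ⧸ Γ) :
    ((MulAction.toPerm g : Equiv.Perm (SL(2, ℤ) ⧸ Γ)) ^ n) x = g ^ n • x := by
  induction n generalizing x with
  | zero => simp
  | succ n ih => rw [pow_succ, Equiv.Perm.mul_apply, ih, MulAction.toPerm_apply, pow_succ, mul_smul]

/-- Sums of a cocycle along a path. -/
lemma cocycle_pow_apply_eq_sum {X : Type*} [MulAction SL(2, ℤ) X] {f : SL(2, ℤ) → X → A}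
    (hf : IsCocycle f) (g : SL(2, ℤ)) (n : ℕ) (x : X) :
    f (g ^ n) x = ∑ j ∈ Finset.range n, f g (g ^ j • x) := by
  induction n with
  | zero => simp [hf.map_one]
  | succ n ih => rw [pow_succ', hf, ih, Finset.sum_range_succ]

/-- parabolic data make the class parabolic -/
lemma parabolic_of_parData (hneg : (-1 : SL(2, ℤ)) ∈ Γ) (hf : IsManinCocycle Γ f m)
    (e : SL(2, ℤ) ⧸ Γ → A) (he : IsParData Γ m e) (γ : SL(2, ℤ)) (hγ : γ ∈ Γ)
    (htr : (γ : Matrix (Fin 2) (Fin 2) ℤ).trace ^ 2 = 4) : f γ (basePt Γ) = 0 := by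
  have hT : ∀ x, f T x = e (T • x) - e x := fun x => by rw [(mc_map_T hf), he x]
  obtain ⟨g, k, hg⟩ := exists_conj_T_zpow γ htr
  have hmem : g * T ^ k * g⁻¹ ∈ Γ := by
    rcases hg with hg | hg
    · rw [← hg]; exact hγ
    · have h1 : g * T ^ k * g⁻¹ = -γ := by rw [hg, neg_neg]
      rw [h1]
      have h2 : (-γ : SL(2, ℤ)) = (-1) * γ := by simp
      rw [h2]
      exact Γ.mul_mem hneg hγ
  have h0 : f (g * T ^ k * g⁻¹) (basePt Γ) = 0 := by
    rw [(mc_conj_basePt hf) g (T ^ k) hmem, (mc_isCocycle hf).zpow_of_cobd T e hT k,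
      smul_inv_basePt_fixed hmem, sub_self]
  rcases hg with hg | hg
  · rw [hg]; exact h0
  · rw [hg, (mc_map_neg hf)]; exact h0

end D4

/-- (D4) `φ` is parabolic iff `m` admits parabolic data. -/
theorem maninRepParabolic : ManinRepParabolicStatement.{u} := by
  intro Γ _ hneg A _ φ m ⟨f, hf, hφ⟩
  have : Finite (SL(2, ℤ) ⧸ Γ) := Subgroup.finite_quotient_of_finiteIndex
  constructor
  · intro hpar
    -- cycle sums of `f T` vanish
    have hb : ∀ (x : SL(2, ℤ) ⧸ Γ) (n : ℕ),
        ((MulAction.toPerm T : Equiv.Perm (SL(2, ℤ) ⧸ Γ)) ^ n) x = x →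
        ∑ j ∈ Finset.range n,
          f T (((MulAction.toPerm T : Equiv.Perm (SL(2, ℤ) ⧸ Γ)) ^ j) x) = 0 := by
      intro x n hx
      rw [toPerm_pow_apply] at hx
      have h1 : ∑ j ∈ Finset.range n,
          f T (((MulAction.toPerm T : Equiv.Perm (SL(2, ℤ) ⧸ Γ)) ^ j) x) = f (T ^ n) x := by
        rw [cocycle_pow_apply_eq_sum (mc_isCocycle hf)]
        exact Finset.sum_congr rfl fun j _ => by rw [toPerm_pow_apply]
      rw [h1]
      -- `x = g • x₀`, `g⁻¹ T^n g ∈ Γ` has trace `2`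
      obtain ⟨g, rfl⟩ : ∃ g : SL(2, ℤ), g • basePt Γ = x := ⟨Quotient.out x, out_smul_basePt Γ x⟩
      have hmem : g⁻¹ * T ^ n * g ∈ Γ := by
        have h2 : (T ^ n * g) • basePt Γ = g • basePt Γ := by rw [mul_smul]; exact hx
        rw [smul_basePt_eq, smul_basePt_eq] at h2
        have h3 := QuotientGroup.eq.mp h2.symm
        rwa [← mul_assoc] at h3
      rw [← mc_conj_basePt' hf g (T ^ n) hmem]
      have htr : (((⟨g⁻¹ * T ^ n * g, hmem⟩ : Γ) : SL(2, ℤ)) :
          Matrix (Fin 2) (Fin 2) ℤ).trace ^ 2 = 4 := by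
        show ((g⁻¹ * T ^ n * g : SL(2, ℤ)) : Matrix (Fin 2) (Fin 2) ℤ).trace ^ 2 = 4
        rw [Matrix.SpecialLinearGroup.coe_mul, Matrix.trace_mul_comm,
          ← Matrix.SpecialLinearGroup.coe_mul, mul_inv_cancel_left]
        have : ((T ^ n : SL(2, ℤ)) : Matrix (Fin 2) (Fin 2) ℤ) = !![1, (n : ℤ); 0, 1] := by
          rw [← zpow_natCast, coe_T_zpow]
        rw [this, Matrix.trace_fin_two_of]
        norm_num
      have h5 := hpar ⟨g⁻¹ * T ^ n * g, hmem⟩ htr
      rw [hφ] at h5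
      exact h5
    obtain ⟨e, he⟩ := exists_cobd_of_cycle_sum_zero (MulAction.toPerm T) (f T) hb
    refine ⟨e, fun x => ?_⟩
    rw [← (mc_map_T hf), he x, MulAction.toPerm_apply]
  · rintro ⟨e, he⟩ γ hγ
    rw [hφ γ]
    exact parabolic_of_parData hneg hf e he γ γ.2 hγ

end Fermat.Agent.S41.H585

end
-- ===== PACK-END S41/H585/PDDictB.lean

-- ===== PACK-BEGIN S41/H768/Tors.lean
section



/-!
# S41 / PD / TORS (helper768): elements of finite order of `SL(2, ℤ)`

Every element of finite order of `SL(2, ℤ)` is conjugate to one of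
`± 1, ± S, ± S T, ± (S T)²`  (`torsion_class_h768`, Mathlib-only).

Proof.  (1) With `t = tr g` one has `g ^ (n+1) = a_{n+1} g - a_n`, where `a₀ = 0`, `a₁ = 1`,
`a_{n+2} = t a_{n+1} - a_n`; if `|t| ≥ 2` then `|a_n|` is strictly increasing, so `g ^ (n+1) = 1`
forces `g` to be scalar.  (2) If `|t| ≤ 1`, conjugation by `[[1,k],[0,1]]` makes `2 |a| ≤ |c|`, and
either `|b| < |c|` (conjugate by `S`, induction on `|c|`) or `|c| = 1`, `a = 0`, and `g` is one of
six explicit matrices.
-/

set_option autoImplicit false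

namespace Fermat.Agent.S41.H768

open Matrix Matrix.SpecialLinearGroup ModularGroup
open scoped MatrixGroups

/-! ## Explicit elements -/

/-- The element `[[a, b], [c, d]]` of `SL(2, ℤ)`. -/
def mk2 (a b c d : ℤ) (h : a * d - b * c = 1) : SL(2, ℤ) :=
  ⟨!![a, b; c, d], by rw [Matrix.det_fin_two_of]; exact h⟩

@[simp] lemma mk2_00 (a b c d : ℤ) (h : a * d - b * c = 1) : (mk2 a b c d h) 0 0 = a := rfl
@[simp] lemma mk2_01 (a b c d : ℤ) (h : a * d - b * c = 1) : (mk2 a b c d h) 0 1 = b := rfl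
@[simp] lemma mk2_10 (a b c d : ℤ) (h : a * d - b * c = 1) : (mk2 a b c d h) 1 0 = c := rfl
@[simp] lemma mk2_11 (a b c d : ℤ) (h : a * d - b * c = 1) : (mk2 a b c d h) 1 1 = d := rfl

lemma sl2_ext {g g' : SL(2, ℤ)} (h00 : g 0 0 = g' 0 0) (h01 : g 0 1 = g' 0 1)
    (h10 : g 1 0 = g' 1 0) (h11 : g 1 1 = g' 1 1) : g = g' := by
  apply Matrix.SpecialLinearGroup.ext
  intro i j
  fin_cases i <;> fin_cases j
  · exact h00
  · exact h01
  · exact h10
  · exact h11

lemma mul_00 (g h : SL(2, ℤ)) : (g * h) 0 0 = g 0 0 * h 0 0 + g 0 1 * h 1 0 := by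
  simp [Matrix.SpecialLinearGroup.coe_mul, Matrix.mul_apply, Fin.sum_univ_two]
lemma mul_01 (g h : SL(2, ℤ)) : (g * h) 0 1 = g 0 0 * h 0 1 + g 0 1 * h 1 1 := by
  simp [Matrix.SpecialLinearGroup.coe_mul, Matrix.mul_apply, Fin.sum_univ_two]
lemma mul_10 (g h : SL(2, ℤ)) : (g * h) 1 0 = g 1 0 * h 0 0 + g 1 1 * h 1 0 := by
  simp [Matrix.SpecialLinearGroup.coe_mul, Matrix.mul_apply, Fin.sum_univ_two]
lemma mul_11 (g h : SL(2, ℤ)) : (g * h) 1 1 = g 1 0 * h 0 1 + g 1 1 * h 1 1 := by
  simp [Matrix.SpecialLinearGroup.coe_mul, Matrix.mul_apply, Fin.sum_univ_two]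

lemma det_entries (g : SL(2, ℤ)) : g 0 0 * g 1 1 - g 0 1 * g 1 0 = 1 := by
  have := g.det_coe
  rwa [Matrix.det_fin_two] at this

lemma trace_entries (g : SL(2, ℤ)) : (g : Matrix (Fin 2) (Fin 2) ℤ).trace = g 0 0 + g 1 1 :=
  Matrix.trace_fin_two _

lemma neg_entry (g : SL(2, ℤ)) (i j : Fin 2) : (-g) i j = - g i j := by
  simp [Matrix.SpecialLinearGroup.coe_neg]

lemma S_00 : (S : SL(2, ℤ)) 0 0 = 0 := by simp [coe_S]
lemma S_01 : (S : SL(2, ℤ)) 0 1 = -1 := by simp [coe_S]
lemma S_10 : (S : SL(2, ℤ)) 1 0 = 1 := by simp [coe_S]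
lemma S_11 : (S : SL(2, ℤ)) 1 1 = 0 := by simp [coe_S]
lemma T_00 : (T : SL(2, ℤ)) 0 0 = 1 := by simp [coe_T]
lemma T_01 : (T : SL(2, ℤ)) 0 1 = 1 := by simp [coe_T]
lemma T_10 : (T : SL(2, ℤ)) 1 0 = 0 := by simp [coe_T]
lemma T_11 : (T : SL(2, ℤ)) 1 1 = 1 := by simp [coe_T]

lemma conj_eq_of_mul_eq {g g' k : SL(2, ℤ)} (h : k * g = g' * k) : k * g * k⁻¹ = g' := by
  rw [h, mul_inv_cancel_right]

/-! ## Step 1: finite order forces `|tr| ≤ 1` or `g = ± 1` -/

/-- The sequence `a₀ = 0`, `a₁ = 1`, `a_{n+2} = t a_{n+1} - a_n`. -/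
def cheb (t : ℤ) : ℕ → ℤ
  | 0 => 0
  | 1 => 1
  | (n + 2) => t * cheb t (n + 1) - cheb t n

lemma cheb_growth (t : ℤ) (ht : 2 ≤ |t|) (n : ℕ) : |cheb t n| + 1 ≤ |cheb t (n + 1)| := by
  induction n with
  | zero => simp [cheb]
  | succ n ih =>
    have h1 : cheb t (n + 1 + 1) = t * cheb t (n + 1) - cheb t n := rfl
    rw [h1]
    have h2 : |t * cheb t (n + 1)| - |cheb t n| ≤ |t * cheb t (n + 1) - cheb t n| :=
      abs_sub_abs_le_abs_sub _ _
    rw [abs_mul] at h2
    have h3 : 2 * |cheb t (n + 1)| ≤ |t| * |cheb t (n + 1)| :=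
      mul_le_mul_of_nonneg_right ht (abs_nonneg _)
    linarith

lemma cheb_ne_zero (t : ℤ) (ht : 2 ≤ |t|) (n : ℕ) : cheb t (n + 1) ≠ 0 := by
  intro h
  have := cheb_growth t ht n
  rw [h, abs_zero] at this
  have := abs_nonneg (cheb t n)
  linarith

lemma sq_eq_h768 (M : Matrix (Fin 2) (Fin 2) ℤ) (h : M.det = 1) :
    M * M = M.trace • M - 1 := by
  rw [Matrix.det_fin_two] at h
  ext i j
  fin_cases i <;> fin_cases j
  · simp only [Matrix.mul_apply, Fin.sum_univ_two, Matrix.trace_fin_two, Matrix.sub_apply,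
      Matrix.smul_apply, Matrix.one_apply, smul_eq_mul, Fin.zero_eta, Fin.isValue, if_true]
    linear_combination (-1 : ℤ) * h
  · simp only [Matrix.mul_apply, Fin.sum_univ_two, Matrix.trace_fin_two, Matrix.sub_apply,
      Matrix.smul_apply, Matrix.one_apply, smul_eq_mul, Fin.zero_eta, Fin.mk_one, Fin.isValue]
    simp
    ring
  · simp only [Matrix.mul_apply, Fin.sum_univ_two, Matrix.trace_fin_two, Matrix.sub_apply,
      Matrix.smul_apply, Matrix.one_apply, smul_eq_mul, Fin.zero_eta, Fin.mk_one, Fin.isValue]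
    simp
    ring
  · simp only [Matrix.mul_apply, Fin.sum_univ_two, Matrix.trace_fin_two, Matrix.sub_apply,
      Matrix.smul_apply, Matrix.one_apply, smul_eq_mul, Fin.mk_one, Fin.isValue, if_true]
    linear_combination (-1 : ℤ) * h

lemma pow_succ_eq_h768 (M : Matrix (Fin 2) (Fin 2) ℤ) (h : M.det = 1) (n : ℕ) :
    M ^ (n + 1) = cheb M.trace (n + 1) • M - cheb M.trace n • (1 : Matrix (Fin 2) (Fin 2) ℤ) := by
  induction n with
  | zero => simp [cheb]
  | succ n ih =>
    have h1 : cheb M.trace (n + 1 + 1) = M.trace * cheb M.trace (n + 1) - cheb M.trace n := rfl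
    rw [pow_succ, ih, h1, Matrix.sub_mul, Matrix.smul_mul, Matrix.smul_mul, Matrix.one_mul,
      sq_eq_h768 M h]
    ext i j
    simp only [Matrix.sub_apply, Matrix.smul_apply, smul_eq_mul, Matrix.one_apply]
    ring

/-- An element of finite order of `SL(2, ℤ)` is `± 1` or has `|tr| ≤ 1`. -/
lemma trace_of_isOfFinOrder (g : SL(2, ℤ)) (hg : IsOfFinOrder g) :
    g = 1 ∨ g = -1 ∨ |(g : Matrix (Fin 2) (Fin 2) ℤ).trace| ≤ 1 := by
  by_cases ht : |(g : Matrix (Fin 2) (Fin 2) ℤ).trace| ≤ 1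
  · exact Or.inr (Or.inr ht)
  have ht2 : 2 ≤ |(g : Matrix (Fin 2) (Fin 2) ℤ).trace| := by omega
  obtain ⟨k, hk, hgk⟩ := isOfFinOrder_iff_pow_eq_one.1 hg
  obtain ⟨n, rfl⟩ : ∃ n, k = n + 1 := ⟨k - 1, by omega⟩
  have hM : (g : Matrix (Fin 2) (Fin 2) ℤ) ^ (n + 1) = 1 := by
    have := congrArg (fun x : SL(2, ℤ) => (x : Matrix (Fin 2) (Fin 2) ℤ)) hgk
    simpa using this
  rw [pow_succ_eq_h768 _ g.det_coe n] at hM
  set a := cheb (g : Matrix (Fin 2) (Fin 2) ℤ).trace (n + 1) with ha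
  set a' := cheb (g : Matrix (Fin 2) (Fin 2) ℤ).trace n with ha'
  have hane : a ≠ 0 := cheb_ne_zero _ ht2 n
  have e01 := congrFun (congrFun hM 0) 1
  have e10 := congrFun (congrFun hM 1) 0
  simp only [Matrix.sub_apply, Matrix.smul_apply, smul_eq_mul, Matrix.one_apply] at e01 e10
  have h01 : g 0 1 = 0 := by
    have : a * g 0 1 = 0 := by simpa using e01
    rcases mul_eq_zero.1 this with h | h
    · exact absurd h hane
    · exact h
  have h10 : g 1 0 = 0 := by
    have : a * g 1 0 = 0 := by simpa using e10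
    rcases mul_eq_zero.1 this with h | h
    · exact absurd h hane
    · exact h
  have hdet := det_entries g
  rw [h01, zero_mul, sub_zero] at hdet
  rcases Int.eq_one_or_neg_one_of_mul_eq_one' hdet with ⟨h0, h1⟩ | ⟨h0, h1⟩
  · left
    apply sl2_ext <;> simp [h0, h1, h01, h10]
  · right; left
    apply sl2_ext <;> simp [neg_entry, h0, h1, h01, h10]

/-! ## Step 2: reduction -/

/-- The conclusion of TORS. -/
def Good (g : SL(2, ℤ)) : Prop :=
  ∃ h : SL(2, ℤ), h * g * h⁻¹ = 1 ∨ h * g * h⁻¹ = -1 ∨ h * g * h⁻¹ = S ∨ h * g * h⁻¹ = -S ∨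
    h * g * h⁻¹ = S * T ∨ h * g * h⁻¹ = -(S * T) ∨ h * g * h⁻¹ = (S * T) ^ 2 ∨
    h * g * h⁻¹ = -(S * T) ^ 2

lemma Good.of_conj {g : SL(2, ℤ)} (k : SL(2, ℤ)) (h : Good (k * g * k⁻¹)) : Good g := by
  obtain ⟨h', hh'⟩ := h
  refine ⟨h' * k, ?_⟩
  have : h' * k * g * (h' * k)⁻¹ = h' * (k * g * k⁻¹) * h'⁻¹ := by group
  rw [this]
  exact hh'

lemma good_of_eq {g : SL(2, ℤ)}
    (h : g = 1 ∨ g = -1 ∨ g = S ∨ g = -S ∨ g = S * T ∨ g = -(S * T) ∨ g = (S * T) ^ 2 ∨
      g = -(S * T) ^ 2) : Good g :=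
  ⟨1, by simpa using h⟩

/-- Balanced remainder. -/
lemma exists_balanced (a c : ℤ) (hc : c ≠ 0) : ∃ k : ℤ, 2 * |a + k * c| ≤ |c| := by
  have hcpos : 0 < |c| := abs_pos.2 hc
  have h1 := Int.emod_nonneg a (abs_pos.2 hc).ne'
  have h2 := Int.emod_lt_of_pos a hcpos
  have h3 := Int.emod_add_mul_ediv a |c|
  -- a = a % |c| + |c| * (a / |c|)
  obtain ⟨s, hs⟩ : ∃ s : ℤ, |c| = s * c := by
    rcases abs_choice c with h | h
    · exact ⟨1, by rw [h]; ring⟩
    · exact ⟨-1, by rw [h]; ring⟩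
  by_cases hr : 2 * (a % |c|) ≤ |c|
  · refine ⟨-(a / |c|) * s, ?_⟩
    have : a + -(a / |c|) * s * c = a % |c| := by
      have : -(a / |c|) * s * c = -(|c| * (a / |c|)) := by rw [hs]; ring
      rw [this]; linarith
    rw [this, abs_of_nonneg h1]
    exact hr
  · refine ⟨(-(a / |c|) - 1) * s, ?_⟩
    have : a + (-(a / |c|) - 1) * s * c = a % |c| - |c| := by
      have : (-(a / |c|) - 1) * s * c = -(|c| * (a / |c|)) - |c| := by
        have h4 : (-(a / |c|) - 1) * s * c = (-(a / |c|) - 1) * (s * c) := by ring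
        rw [h4, ← hs]; ring
      rw [this]; linarith
    rw [this, abs_of_nonpos (by linarith)]
    linarith

/-- The six reduced matrices. -/
lemma good_reduced (g : SL(2, ℤ)) (ha : g 0 0 = 0)
    (hc : g 1 0 = 1 ∨ g 1 0 = -1) (ht : g 1 1 = 0 ∨ g 1 1 = 1 ∨ g 1 1 = -1) : Good g := by
  have hdet := det_entries g
  rw [ha, zero_mul, zero_sub] at hdet
  rcases hc with hc | hc <;> rcases ht with ht | ht | ht
  · -- c = 1, t = 0 : S
    have hb : g 0 1 = -1 := by rw [hc] at hdet; linarith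
    refine good_of_eq (Or.inr (Or.inr (Or.inl ?_)))
    apply sl2_ext <;> simp [S_00, S_01, S_10, S_11, ha, hb, hc, ht]
  · -- c = 1, t = 1 : S T
    have hb : g 0 1 = -1 := by rw [hc] at hdet; linarith
    refine good_of_eq (Or.inr (Or.inr (Or.inr (Or.inr (Or.inl ?_)))))
    apply sl2_ext <;>
      simp [mul_00, mul_01, mul_10, mul_11, S_00, S_01, S_10, S_11, T_00, T_01, T_10, T_11,
        ha, hb, hc, ht]
  · -- c = 1, t = -1 : conjugate by S to (S T)^2
    have hb : g 0 1 = -1 := by rw [hc] at hdet; linarith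
    refine ⟨S, Or.inr (Or.inr (Or.inr (Or.inr (Or.inr (Or.inr (Or.inl ?_))))))⟩
    apply conj_eq_of_mul_eq
    apply sl2_ext <;>
      simp [pow_two, mul_00, mul_01, mul_10, mul_11, S_00, S_01, S_10, S_11, T_00, T_01, T_10,
        T_11, ha, hb, hc, ht]
  · -- c = -1, t = 0 : -S
    have hb : g 0 1 = 1 := by rw [hc] at hdet; linarith
    refine good_of_eq (Or.inr (Or.inr (Or.inr (Or.inl ?_))))
    apply sl2_ext <;> simp [neg_entry, S_00, S_01, S_10, S_11, ha, hb, hc, ht]
  · -- c = -1, t = 1 : conjugate by S to -(S T)^2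
    have hb : g 0 1 = 1 := by rw [hc] at hdet; linarith
    refine ⟨S, Or.inr (Or.inr (Or.inr (Or.inr (Or.inr (Or.inr (Or.inr ?_))))))⟩
    apply conj_eq_of_mul_eq
    apply sl2_ext <;>
      simp [pow_two, neg_entry, mul_00, mul_01, mul_10, mul_11, S_00, S_01, S_10, S_11, T_00,
        T_01, T_10, T_11, ha, hb, hc, ht]
  · -- c = -1, t = -1 : -(S T)
    have hb : g 0 1 = 1 := by rw [hc] at hdet; linarith
    refine good_of_eq (Or.inr (Or.inr (Or.inr (Or.inr (Or.inr (Or.inl ?_))))))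
    apply sl2_ext <;>
      simp [neg_entry, mul_00, mul_01, mul_10, mul_11, S_00, S_01, S_10, S_11, T_00, T_01, T_10,
        T_11, ha, hb, hc, ht]

/-- Conjugation by `[[1, k], [0, 1]]`: same `c`, `a ↦ a + k c`. -/
lemma exists_conj_upper (g : SL(2, ℤ)) (k : ℤ) :
    ∃ u g' : SL(2, ℤ), u * g * u⁻¹ = g' ∧ g' 0 0 = g 0 0 + k * g 1 0 ∧ g' 1 0 = g 1 0 ∧
      g' 1 1 = g 1 1 - k * g 1 0 := by
  have hdet := det_entries g
  refine ⟨mk2 1 k 0 1 (by ring),
    mk2 (g 0 0 + k * g 1 0) (g 0 1 + k * (g 1 1 - g 0 0) - k ^ 2 * g 1 0) (g 1 0)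
      (g 1 1 - k * g 1 0) (by linear_combination hdet), ?_, rfl, rfl, rfl⟩
  apply conj_eq_of_mul_eq
  apply sl2_ext <;> simp [mul_00, mul_01, mul_10, mul_11] <;> ring

/-- Conjugation by `S`: `[[a, b], [c, d]] ↦ [[d, -c], [-b, a]]`. -/
lemma exists_conj_S (g : SL(2, ℤ)) :
    ∃ g' : SL(2, ℤ), S * g * S⁻¹ = g' ∧ g' 0 0 = g 1 1 ∧ g' 1 0 = - g 0 1 ∧ g' 1 1 = g 0 0 := by
  have hdet := det_entries g
  refine ⟨mk2 (g 1 1) (- g 1 0) (- g 0 1) (g 0 0) (by linear_combination hdet), ?_, rfl, rfl, rfl⟩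
  apply conj_eq_of_mul_eq
  apply sl2_ext <;> simp [mul_00, mul_01, mul_10, mul_11, S_00, S_01, S_10, S_11]

lemma good_of_trace_le (n : ℕ) : ∀ g : SL(2, ℤ),
    |(g : Matrix (Fin 2) (Fin 2) ℤ).trace| ≤ 1 → (g 1 0).natAbs = n → Good g := by
  induction n using Nat.strong_induction_on with
  | _ n ih =>
    intro g ht hn
    rw [trace_entries] at ht
    have hdet := det_entries g
    -- `c ≠ 0`
    have hc : g 1 0 ≠ 0 := by
      intro h0
      rw [h0, mul_zero, sub_zero] at hdet
      rcases Int.eq_one_or_neg_one_of_mul_eq_one' hdet with ⟨h0', h1⟩ | ⟨h0', h1⟩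
      · rw [h0', h1] at ht; norm_num at ht
      · rw [h0', h1] at ht; norm_num at ht
    obtain ⟨k, hk⟩ := exists_balanced (g 0 0) (g 1 0) hc
    obtain ⟨u, g', hug, h00, h10, h11⟩ := exists_conj_upper g k
    refine Good.of_conj u ?_
    rw [hug]
    have ht' : |g' 0 0 + g' 1 1| ≤ 1 := by rw [h00, h11]; simpa using ht
    have hdet' := det_entries g'
    rw [← h00, ← h10] at hk
    by_cases hb : |g' 0 1| < |g' 1 0|
    · -- conjugate by `S`
      obtain ⟨g'', hSg, k00, k10, k11⟩ := exists_conj_S g'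
      refine Good.of_conj S ?_
      rw [hSg]
      refine ih (g'' 1 0).natAbs ?_ g'' ?_ rfl
      · rw [← hn, k10, Int.natAbs_neg, ← h10]
        rw [Int.abs_eq_natAbs, Int.abs_eq_natAbs] at hb
        exact_mod_cast hb
      · rw [trace_entries, k00, k11, add_comm]; exact ht'
    · -- reduced
      push Not at hb
      have habs : |g' 0 1| * |g' 1 0| = g' 0 0 * g' 1 1 - 1 ∨
          |g' 0 1| * |g' 1 0| = -(g' 0 0 * g' 1 1 - 1) := by
        rw [← abs_mul]
        have : g' 0 1 * g' 1 0 = g' 0 0 * g' 1 1 - 1 := by linarith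
        rw [this]
        rcases abs_choice (g' 0 0 * g' 1 1 - 1) with h | h
        · exact Or.inl h
        · exact Or.inr h
      have hcpos : 0 < |g' 1 0| := abs_pos.2 (by rw [h10]; exact hc)
      have hc1 : |g' 1 0| = 1 := by
        have hsq : |g' 1 0| * |g' 1 0| ≤ |g' 0 1| * |g' 1 0| :=
          mul_le_mul_of_nonneg_right hb (abs_nonneg _)
        have ha2 : g' 0 0 * g' 0 0 = |g' 0 0| * |g' 0 0| := (abs_mul_abs_self _).symm
        have habs_t := abs_le.1 ht'
        have ha0 := abs_nonneg (g' 0 0)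
        -- a d - 1 = a (t - a) - 1
        by_contra hne
        have hc2 : 2 ≤ |g' 1 0| := by omega
        rcases habs with h | h
        · -- a d - 1 ≥ 0 impossible-ish: a d = a t - a² ≤ |a| - a²
          have : g' 0 0 * g' 1 1 ≤ |g' 0 0| - |g' 0 0| * |g' 0 0| := by
            have e : g' 0 0 * g' 1 1 = g' 0 0 * (g' 0 0 + g' 1 1) - g' 0 0 * g' 0 0 := by ring
            rw [e, ha2]
            have : g' 0 0 * (g' 0 0 + g' 1 1) ≤ |g' 0 0| := by
              calc g' 0 0 * (g' 0 0 + g' 1 1) ≤ |g' 0 0 * (g' 0 0 + g' 1 1)| := le_abs_self _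
                _ = |g' 0 0| * |g' 0 0 + g' 1 1| := abs_mul _ _
                _ ≤ |g' 0 0| * 1 := mul_le_mul_of_nonneg_left ht' ha0
                _ = |g' 0 0| := mul_one _
            linarith
          nlinarith
        · have : -(g' 0 0 * g' 1 1) ≤ |g' 0 0| + |g' 0 0| * |g' 0 0| := by
            have e : -(g' 0 0 * g' 1 1) = -(g' 0 0 * (g' 0 0 + g' 1 1)) + g' 0 0 * g' 0 0 := by
              ring
            rw [e, ha2]
            have : -(g' 0 0 * (g' 0 0 + g' 1 1)) ≤ |g' 0 0| := by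
              calc -(g' 0 0 * (g' 0 0 + g' 1 1)) ≤ |g' 0 0 * (g' 0 0 + g' 1 1)| := neg_le_abs _
                _ = |g' 0 0| * |g' 0 0 + g' 1 1| := abs_mul _ _
                _ ≤ |g' 0 0| * 1 := mul_le_mul_of_nonneg_left ht' ha0
                _ = |g' 0 0| := mul_one _
            linarith
          nlinarith
      have ha0 : g' 0 0 = 0 := by
        rw [hc1] at hk
        have := abs_nonneg (g' 0 0)
        have : |g' 0 0| = 0 := by omega
        exact abs_eq_zero.1 this
      refine good_reduced g' ha0 ?_ ?_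
      · rcases abs_choice (g' 1 0) with h | h
        · left; rw [← h]; exact hc1
        · right; rw [h] at hc1; linarith
      · rw [ha0, zero_add] at ht'
        have := abs_le.1 ht'
        omega

/-- **TORS.**  Every element of finite order of `SL(2, ℤ)` is conjugate to one of
`± 1, ± S, ± S T, ± (S T)²`. -/
theorem torsion_class_h768 (g : SL(2, ℤ)) (hg : IsOfFinOrder g) :
    ∃ h : SL(2, ℤ), h * g * h⁻¹ = 1 ∨ h * g * h⁻¹ = -1 ∨ h * g * h⁻¹ = S ∨ h * g * h⁻¹ = -S ∨
      h * g * h⁻¹ = S * T ∨ h * g * h⁻¹ = -(S * T) ∨ h * g * h⁻¹ = (S * T) ^ 2 ∨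
      h * g * h⁻¹ = -(S * T) ^ 2 := by
  rcases trace_of_isOfFinOrder g hg with h | h | h
  · exact good_of_eq (Or.inl h)
  · exact good_of_eq (Or.inr (Or.inl h))
  · exact good_of_trace_le _ g h rfl

/-- **TORS**, exact shape of `Spec/PD.lean`. -/
theorem torsionClass : Fermat.Agent.S41.Spec.TorsionClassStatement :=
  fun g hg => torsion_class_h768 g hg

end Fermat.Agent.S41.H768

end
-- ===== PACK-END S41/H768/Tors.lean

-- ===== PACK-BEGIN S41/H581/RestrictCusp.lean
section



/-!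
# Row S41, block HK, leaf RC (helper581)

`restrictCusp : Spec.RestrictCuspStatement` — the degeneracy maps `r₁, r₂` preserve cuspidal
classes: `incl` and `conjDelta` preserve the trace and send elements of finite order to elements
of finite order.
-/

set_option autoImplicit false

namespace Fermat.Agent.S41.H581

open CongruenceSubgroup Matrix.SpecialLinearGroup ModularCurve.Period
open Fermat.Agent.S41.Spec
open scoped MatrixGroups

universe u

theorem trace_incl (N q : ℕ) (γ : Gamma0 (N * q)) :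
    (((incl N q γ : Gamma0 N) : SL(2, ℤ)) : Matrix (Fin 2) (Fin 2) ℤ).trace =
      ((γ : SL(2, ℤ)) : Matrix (Fin 2) (Fin 2) ℤ).trace := rfl

theorem trace_conjDelta (N q : ℕ) (γ : Gamma0 (N * q)) :
    (((conjDelta N q γ : Gamma0 N) : SL(2, ℤ)) : Matrix (Fin 2) (Fin 2) ℤ).trace =
      ((γ : SL(2, ℤ)) : Matrix (Fin 2) (Fin 2) ℤ).trace := by
  change (conjDeltaMatrix q (γ : SL(2, ℤ))).trace = _
  simp [conjDeltaMatrix, Matrix.trace_fin_two]

/-- Composition with a trace-preserving homomorphism preserves cuspidality. -/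
theorem isCuspidal_comp_of_trace {A : Type*} [AddCommGroup A] {n m : ℕ}
    (f : Gamma0 m →* Gamma0 n)
    (hf : ∀ γ : Gamma0 m, (((f γ : Gamma0 n) : SL(2, ℤ)) : Matrix (Fin 2) (Fin 2) ℤ).trace =
      ((γ : SL(2, ℤ)) : Matrix (Fin 2) (Fin 2) ℤ).trace)
    (φ : Additive (Gamma0 n) →+ A) (hφ : IsCuspidal φ) :
    IsCuspidal (φ.comp (MonoidHom.toAdditive f)) := by
  refine ⟨fun γ hγ => ?_, fun γ hγ => ?_⟩
  · exact hφ.1 (f γ) (by rw [hf]; exact hγ)
  · exact hφ.2 (f γ) (f.isOfFinOrder hγ)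

/-- (HK-1a) `r₁, r₂` preserve cuspidal classes. -/
theorem restrictCusp : Spec.RestrictCuspStatement.{u} := by
  intro N q A _ φ hφ
  exact ⟨isCuspidal_comp_of_trace (incl N q) (trace_incl N q) φ hφ,
    isCuspidal_comp_of_trace (conjDelta N q) (trace_conjDelta N q) φ hφ⟩

end Fermat.Agent.S41.H581

end
-- ===== PACK-END S41/H581/RestrictCusp.lean

-- ===== PACK-BEGIN S41/H581/TransferBasic.lean
section



/-!
# Row S41, block HK (helper581): basic facts on Mathlib's transfer and `Spec.transferAlong`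

* `transfer_mul_h581`, `transfer_comp_h581` : the transfer is multiplicative in the character and
  natural in the coefficient group;
* `transferAlong_add`, `transferAlong_comp` : the same for `Spec.transferAlong`;
* `transferAlong_eq_zero_of` : the cycle formula in the form "if `ψ` kills every `h` with
  `f h = t⁻¹ g ^ k t`, then the transfer of `ψ` kills `g`" (`f` may be assumed injective).
-/

set_option autoImplicit false

namespace Fermat.Agent.S41.H581

open Subgroup Subgroup.leftTransversals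

section Mul

variable {G : Type*} [Group G] {H : Subgroup G} {A : Type*} [CommGroup A]

theorem diff_mul_h581 [H.FiniteIndex] (ϕ ϕ' : H →* A) (S T : H.LeftTransversal) :
    diff (ϕ * ϕ') S T = diff ϕ S T * diff ϕ' S T := by
  unfold diff
  simp only [MonoidHom.mul_apply]
  exact Finset.prod_mul_distrib

theorem diff_comp_h581 {B : Type*} [CommGroup B] [H.FiniteIndex] (π : A →* B) (ϕ : H →* A)
    (S T : H.LeftTransversal) :
    diff (π.comp ϕ) S T = π (diff ϕ S T) := by
  unfold diff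
  simp only [MonoidHom.comp_apply, map_prod]

theorem transfer_mul_h581 [H.FiniteIndex] (ϕ ϕ' : H →* A) :
    MonoidHom.transfer (ϕ * ϕ') = MonoidHom.transfer ϕ * MonoidHom.transfer ϕ' := by
  ext g
  rw [MonoidHom.mul_apply, MonoidHom.transfer_def (ϕ * ϕ') default g,
    MonoidHom.transfer_def ϕ default g, MonoidHom.transfer_def ϕ' default g, diff_mul_h581]

theorem transfer_comp_h581 {B : Type*} [CommGroup B] [H.FiniteIndex] (π : A →* B) (ϕ : H →* A) :
    MonoidHom.transfer (π.comp ϕ) = π.comp (MonoidHom.transfer ϕ) := by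
  ext g
  rw [MonoidHom.comp_apply, MonoidHom.transfer_def (π.comp ϕ) default g,
    MonoidHom.transfer_def ϕ default g, diff_comp_h581]

/-- Cycle formula, vanishing form. -/
theorem transfer_eq_one_of_h581 [H.FiniteIndex] (ϕ : H →* A) (g : G)
    (h : ∀ (k : ℕ) (t : G) (hk : t⁻¹ * g ^ k * t ∈ H), ϕ ⟨t⁻¹ * g ^ k * t, hk⟩ = 1) :
    MonoidHom.transfer ϕ g = 1 := by
  classical
  let := H.fintypeQuotientOfFiniteIndex
  rw [MonoidHom.transfer_eq_prod_quotient_orbitRel_zpowers_quot]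
  exact Finset.prod_eq_one fun q _ => h _ _ _

end Mul

section Along

open Fermat.Agent.S41.Spec

variable {A : Type*} [AddCommGroup A] {H G : Type*} [Group H] [Group G]

theorem transferAlong_of_not (f : H →* G) (h : ¬ (Function.Injective f ∧ f.range.FiniteIndex))
    (ψ : Additive H →+ A) : transferAlong f ψ = 0 := by
  unfold transferAlong
  rw [dif_neg h]

theorem transferAlong_of (f : H →* G) (h : Function.Injective f ∧ f.range.FiniteIndex)
    (ψ : Additive H →+ A) :
    transferAlong f ψ =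
      haveI := h.2
      MonoidHom.toAdditiveLeft (MonoidHom.transfer
        ((AddMonoidHom.toMultiplicativeRight ψ).comp
          (MonoidHom.ofInjective h.1).symm.toMonoidHom)) := by
  unfold transferAlong
  rw [dif_pos h]

theorem transferAlong_apply_of (f : H →* G) (h : Function.Injective f ∧ f.range.FiniteIndex)
    (ψ : Additive H →+ A) (g : G) :
    transferAlong f ψ (Additive.ofMul g) =
      haveI := h.2
      Multiplicative.toAdd (MonoidHom.transfer
        ((AddMonoidHom.toMultiplicativeRight ψ).comp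
          (MonoidHom.ofInjective h.1).symm.toMonoidHom) g) := by
  rw [transferAlong_of f h]
  rfl

theorem transferAlong_add (f : H →* G) (ψ ψ' : Additive H →+ A) :
    transferAlong f (ψ + ψ') = transferAlong f ψ + transferAlong f ψ' := by
  by_cases h : Function.Injective f ∧ f.range.FiniteIndex
  · have := h.2
    refine AddMonoidHom.ext fun g => ?_
    obtain ⟨g, rfl⟩ := Additive.ofMul.surjective g
    rw [AddMonoidHom.add_apply, transferAlong_apply_of f h, transferAlong_apply_of f h,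
      transferAlong_apply_of f h, ← toAdd_mul, ← MonoidHom.mul_apply, ← transfer_mul_h581]
    rfl
  · simp [transferAlong_of_not f h]

theorem transferAlong_comp {B : Type*} [AddCommGroup B] (f : H →* G) (π : A →+ B)
    (ψ : Additive H →+ A) :
    transferAlong f (π.comp ψ) = π.comp (transferAlong f ψ) := by
  by_cases h : Function.Injective f ∧ f.range.FiniteIndex
  · have := h.2
    refine AddMonoidHom.ext fun g => ?_
    obtain ⟨g, rfl⟩ := Additive.ofMul.surjective g
    rw [AddMonoidHom.comp_apply, transferAlong_apply_of f h, transferAlong_apply_of f h]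
    have := transfer_comp_h581 (AddMonoidHom.toMultiplicative π)
      ((AddMonoidHom.toMultiplicativeRight ψ).comp
          (MonoidHom.ofInjective h.1).symm.toMonoidHom)
    have h2 := congrArg (fun F => Multiplicative.toAdd (F g)) this
    simp only [MonoidHom.comp_apply] at h2
    exact h2
  · simp [transferAlong_of_not f h]

/-- Cycle formula for `transferAlong`, vanishing form: if `ψ` kills every `h` such that `f h` is
conjugate to a power of `g`, then `transferAlong f ψ` kills `g`. -/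
theorem transferAlong_eq_zero_of (f : H →* G) (ψ : Additive H →+ A) (g : G)
    (hψ : Function.Injective f → ∀ (k : ℕ) (t : G) (h : H), f h = t⁻¹ * g ^ k * t →
      ψ (Additive.ofMul h) = 0) :
    transferAlong f ψ (Additive.ofMul g) = 0 := by
  by_cases h : Function.Injective f ∧ f.range.FiniteIndex
  · have := h.2
    rw [transferAlong_apply_of f h]
    rw [transfer_eq_one_of_h581]
    · rfl
    · intro k t hk
      have := hψ h.1 k t ((MonoidHom.ofInjective h.1).symm ⟨t⁻¹ * g ^ k * t, hk⟩) ?_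
      · exact congrArg Multiplicative.ofAdd this
      · have := (MonoidHom.ofInjective h.1).apply_symm_apply ⟨t⁻¹ * g ^ k * t, hk⟩
        exact congrArg Subtype.val this
  · simp [transferAlong_of_not f h]

end Along

end Fermat.Agent.S41.H581

end
-- ===== PACK-END S41/H581/TransferBasic.lean

-- ===== PACK-BEGIN S41/H581/TransferCusp.lean
section





/-!
# Row S41, block HK, leaf TC (helper581)

`transferCusp : Spec.TransferCuspStatement` — the transfers `t₁, t₂` preserve cuspidal classes.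

By the cycle formula the value of a transfer at `g` is a sum of values `ψ h` with
`f h = t⁻¹ g ^ k t`; if `(tr g)² = 4` then `(tr g ^ k)² = 4` (Cayley–Hamilton), the trace is
invariant under conjugation and under `incl`, `conjDelta`, and finite order is preserved by powers,
conjugation and reflected by injective homomorphisms.
-/

set_option autoImplicit false

namespace Fermat.Agent.S41.H581

open CongruenceSubgroup Matrix.SpecialLinearGroup ModularCurve.Period
open Fermat.Agent.S41.Spec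
open scoped MatrixGroups

universe u

/-- Cayley–Hamilton for `2 × 2` matrices of determinant `1`. -/
theorem mul_self_eq_of_det_one (M : Matrix (Fin 2) (Fin 2) ℤ) (hM : M.det = 1) :
    M * M = M.trace • M - 1 := by
  rw [Matrix.det_fin_two] at hM
  ext i j
  fin_cases i <;> fin_cases j <;>
    simp only [Matrix.mul_apply, Fin.sum_univ_two, Matrix.trace_fin_two, Matrix.sub_apply,
      Matrix.smul_apply, smul_eq_mul, Matrix.one_apply, Fin.zero_eta, Fin.mk_one, Fin.isValue,
      if_true, one_ne_zero, zero_ne_one, if_false] <;>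
    first | ring1 | linear_combination -hM

theorem pow_add_two_eq_of_det_one (M : Matrix (Fin 2) (Fin 2) ℤ) (hM : M.det = 1) (k : ℕ) :
    M ^ (k + 2) = M.trace • M ^ (k + 1) - M ^ k := by
  rw [pow_add, pow_two, mul_self_eq_of_det_one M hM, mul_sub, mul_one, Matrix.mul_smul,
    ← pow_succ]

theorem trace_pow_of_trace_eq (M : Matrix (Fin 2) (Fin 2) ℤ) (hM : M.det = 1) (ε : ℤ)
    (hε : ε ^ 2 = 1) (ht : M.trace = 2 * ε) (k : ℕ) : (M ^ k).trace = 2 * ε ^ k := by
  induction k using Nat.twoStepInduction with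
  | zero => simp
  | one => simpa using ht
  | more k h0 h1 =>
    rw [pow_add_two_eq_of_det_one M hM, Matrix.trace_sub, Matrix.trace_smul, h0, h1, ht,
      smul_eq_mul]
    have : ε ^ (k + 2) = ε ^ k := by rw [pow_add, hε, mul_one]
    rw [this, pow_succ]
    linear_combination (4 * ε ^ k) * hε

/-- If `(tr M)² = 4` and `det M = 1`, then `(tr M ^ k)² = 4`. -/
theorem trace_pow_sq_eq_four (M : Matrix (Fin 2) (Fin 2) ℤ) (hM : M.det = 1)
    (ht : M.trace ^ 2 = 4) (k : ℕ) : (M ^ k).trace ^ 2 = 4 := by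
  have h : (M.trace - 2) * (M.trace + 2) = 0 := by linear_combination ht
  rcases mul_eq_zero.mp h with h | h
  · rw [trace_pow_of_trace_eq M hM 1 (by norm_num) (by linarith) k]
    norm_num
  · rw [trace_pow_of_trace_eq M hM (-1) (by norm_num) (by linarith) k, mul_pow, ← pow_mul,
      mul_comm k 2, pow_mul]
    norm_num

theorem trace_conj_sl (t x : SL(2, ℤ)) :
    ((t⁻¹ * x * t : SL(2, ℤ)) : Matrix (Fin 2) (Fin 2) ℤ).trace =
      (x : Matrix (Fin 2) (Fin 2) ℤ).trace := by
  rw [Matrix.SpecialLinearGroup.coe_mul, Matrix.trace_mul_comm,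
    ← Matrix.SpecialLinearGroup.coe_mul, ← mul_assoc, mul_inv_cancel, one_mul]

theorem trace_conj_pow_sq {n : ℕ} (g t : Gamma0 n) (k : ℕ)
    (hg : ((g : SL(2, ℤ)) : Matrix (Fin 2) (Fin 2) ℤ).trace ^ 2 = 4) :
    (((t⁻¹ * g ^ k * t : Gamma0 n) : SL(2, ℤ)) : Matrix (Fin 2) (Fin 2) ℤ).trace ^ 2 = 4 := by
  have h1 : ((t⁻¹ * g ^ k * t : Gamma0 n) : SL(2, ℤ)) =
      (t : SL(2, ℤ))⁻¹ * (g : SL(2, ℤ)) ^ k * (t : SL(2, ℤ)) := by
    simp
  rw [h1, trace_conj_sl, Matrix.SpecialLinearGroup.coe_pow]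
  exact trace_pow_sq_eq_four _ (g : SL(2, ℤ)).det_coe hg k

/-- The transfer along a trace-preserving homomorphism `Γ₀(m) → Γ₀(n)` preserves cuspidality. -/
theorem isCuspidal_transferAlong_of_trace {A : Type*} [AddCommGroup A] {n m : ℕ}
    (f : Gamma0 m →* Gamma0 n)
    (hf : ∀ γ : Gamma0 m, (((f γ : Gamma0 n) : SL(2, ℤ)) : Matrix (Fin 2) (Fin 2) ℤ).trace =
      ((γ : SL(2, ℤ)) : Matrix (Fin 2) (Fin 2) ℤ).trace)
    (ψ : Additive (Gamma0 m) →+ A) (hψ : IsCuspidal ψ) :
    IsCuspidal (transferAlong f ψ) := by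
  refine ⟨fun γ hγ => ?_, fun γ hγ => ?_⟩
  · refine transferAlong_eq_zero_of f ψ γ fun _ k t h hh => hψ.1 h ?_
    rw [← hf, hh]
    exact trace_conj_pow_sq γ t k hγ
  · refine transferAlong_eq_zero_of f ψ γ fun hinj k t h hh => hψ.2 h ?_
    rw [← hinj.isOfFinOrder_iff, hh]
    have h1 : IsOfFinOrder (γ ^ k) := hγ.pow
    have h2 := (MulAut.conj t⁻¹).toMonoidHom.isOfFinOrder h1
    simpa [MulAut.conj_apply] using h2

/-- (HK-1b) `t₁, t₂` preserve cuspidal classes. -/
theorem transferCusp : Spec.TransferCuspStatement.{u} := by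
  intro N q A _ ψ hψ
  exact ⟨isCuspidal_transferAlong_of_trace (incl N q) (trace_incl N q) ψ hψ,
    isCuspidal_transferAlong_of_trace (conjDelta N q) (trace_conjDelta N q) ψ hψ⟩

end Fermat.Agent.S41.H581

end
-- ===== PACK-END S41/H581/TransferCusp.lean

-- ===== PACK-BEGIN S41/Spec/New.lean
section






/-!
# Row S41, block NEW — frozen interface (sub-architect helper881)

Plan: `coord/S41.md` (origin/helper41), details `coord/S41-NEW.md` (origin/helper881).

**Block NEW.**  A nonzero parabolic class `φ ∈ Hom(Γ₀(N q), ℂ)` which is killed by the two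
transfers `t₁, t₂` to level `N` and is an eigenvector of the `T_l`, `l ∈ P` (`l ∤ N q`), with
eigenvalues `b l`, produces a normalized eigenform `g` of level `N q` with `a_l(g) = b l`
(`l ∈ P`) and `a_q(g)² = 1` (Prelude `IsNewAt q`).

Route (no newform theory, no Petersson product):
* S21 (on main): `φ = (1 + ι) P(f₁) + (1 - ι) P(f₂)`, `(f₁, f₂) ≠ 0` cusp forms of level `N q`;
* `NewInvolutionStatement`, `NewInvolutionHeckeStatement`: `ι` commutes with `t₁, t₂, T_l`;
* `periodMap_heckeTLin` (on main, S29/H642): `P(T_l f) = T_l P(f)`;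
* `NewPeriodTraceStatement`: `t₁ P(f) = P(tr f)`, `t₂ P(f) = P(tr' f)` with cusp forms
  `tr f = f + U_q W`, `tr' f = W + U_q f` of level `N` (`W = f ∣ A`, `A` Atkin–Lehner at `q`);
  the generic leaf is `NewTransferRepsStatement` (Mathlib's transfer in right coset
  representatives);
* hence `T_l f_i = b l • f_i`, `tr f_i = tr' f_i = 0`, so `U_q (U_q f_i) = f_i`;
* `NewEigenformOfUsqStatement`: a common eigenvector of the full (commutative) Hecke family in the
  stable subspace `{T_l = b l (l ∈ P), U_q² = 1}` is, once normalized, the wanted `g`.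
-/

set_option autoImplicit false

namespace Fermat.Agent.S41.Spec

open CongruenceSubgroup ModularCurve ModularCurve.Period ModularFormClass
open Fermat.Agent.S29.H642
open scoped MatrixGroups

/-- **Block NEW** (main statement). -/
def NewStatement : Prop :=
  ∀ (N q : ℕ), N ≠ 0 → q.Prime → ¬ q ∣ N →
    ∀ (P : ℕ → Prop) (b : ℕ → ℂ) (φ : Additive (Gamma0 (N * q)) →+ ℂ),
      φ ∈ parabolicHoms ℂ (Gamma0 (N * q)) ℂ → φ ≠ 0 →
      (∀ (l : ℕ) [Fact l.Prime] (hl : ¬ l ∣ N * q), P l → heckeTransfer hl φ = b l • φ) →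
      t₁ N q φ = 0 → t₂ N q φ = 0 →
      ∃ g : CuspForm (Gamma0 (N * q)) 2, g.IsNormalizedEigenform ∧
        (∀ l : ℕ, l.Prime → ¬ l ∣ N * q → P l → qCoeff g l = b l) ∧ g.IsNewAt q

/-- (NEW-1) forms side, linear algebra: a nonzero cusp form `f` of level `M`, `q ∣ M`, with
`T_l f = b l • f` (`l ∈ P`, `l ∤ M`) and `U_q (U_q f) = f` gives a normalized eigenform with
`a_l = b l` (`l ∈ P`) and `a_q ^ 2 = 1`. -/
def NewEigenformOfUsqStatement : Prop :=
  ∀ (M q : ℕ) [NeZero M], q.Prime → q ∣ M →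
    ∀ (P : ℕ → Prop) (b : ℕ → ℂ) (f : CuspForm (Gamma0 M) 2), f ≠ 0 →
      (∀ l : ℕ, l.Prime → ¬ l ∣ M → P l → ModularForm.heckeT 2 l ⇑f = b l • ⇑f) →
      ModularForm.heckeU 2 q (ModularForm.heckeU 2 q ⇑f) = ⇑f →
      ∃ g : CuspForm (Gamma0 M) 2, g.IsNormalizedEigenform ∧
        (∀ l : ℕ, l.Prime → ¬ l ∣ M → P l → qCoeff g l = b l) ∧ g.IsNewAt q

/-- (NEW-2a) generic leaf: Mathlib's transfer (through `transferAlong`) computed in a system of
representatives `s` of the right cosets `f(H) \ G`: if `s x * g = f (k x) * s (σ x)` for all `x`,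
then `(transfer ψ)(g) = ∑ x, ψ (k x)`. -/
def NewTransferRepsStatement : Prop :=
  ∀ (H G : Type) [Group H] [Group G] (A : Type) [AddCommGroup A] (f : H →* G),
    Function.Injective f →
    ∀ (ι : Type) [Fintype ι] (s : ι → G),
      (∀ x y : ι, s x * (s y)⁻¹ ∈ f.range → x = y) →
      (∀ g : G, ∃ x : ι, g * (s x)⁻¹ ∈ f.range) →
      ∀ (ψ : Additive H →+ A) (g : G) (σ : ι → ι) (k : ι → H),
        (∀ x : ι, s x * g = f (k x) * s (σ x)) →
        transferAlong f ψ (Additive.ofMul g) = ∑ x : ι, ψ (Additive.ofMul (k x))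

/-- (NEW-2) period compatibility of the two traces: for a cusp form `f` of level `N q` there are
a function `W` (`= f ∣[2] A`, `A` an Atkin–Lehner matrix at `q`) and cusp forms `g₁ = tr f`,
`g₂ = tr' f` of level `N` with `g₁ = f + U_q W`, `g₂ = W + U_q f` and
`P(g₁) = t₁ P(f)`, `P(g₂) = t₂ P(f)`. -/
def NewPeriodTraceStatement : Prop :=
  ∀ (N q : ℕ), N ≠ 0 → q.Prime → ¬ q ∣ N → ∀ f : CuspForm (Gamma0 (N * q)) 2,
    ∃ (W : UpperHalfPlane → ℂ) (g₁ g₂ : CuspForm (Gamma0 N) 2),
      (⇑g₁ : UpperHalfPlane → ℂ) = ⇑f + ModularForm.heckeU 2 q W ∧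
      (⇑g₂ : UpperHalfPlane → ℂ) = W + ModularForm.heckeU 2 q ⇑f ∧
      periodMap N g₁ = t₁ N q (periodMap (N * q) f) ∧
      periodMap N g₂ = t₂ N q (periodMap (N * q) f)

/-- (NEW-3a) the involution `ι = charInvolution` (conjugation by `diag(1, -1)`) commutes with the
two transfers. -/
def NewInvolutionStatement : Prop :=
  ∀ (N q : ℕ), N ≠ 0 → q.Prime → ¬ q ∣ N → ∀ ψ : Additive (Gamma0 (N * q)) →+ ℂ,
    t₁ N q (charInvolution (N * q) ℂ ℂ ψ) = charInvolution N ℂ ℂ (t₁ N q ψ) ∧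
    t₂ N q (charInvolution (N * q) ℂ ℂ ψ) = charInvolution N ℂ ℂ (t₂ N q ψ)

/-- (NEW-3b) the involution `ι` commutes with the Hecke transfers `T_l`. -/
def NewInvolutionHeckeStatement : Prop :=
  ∀ (M l : ℕ) [Fact l.Prime] (hl : ¬ l ∣ M) (φ : Additive (Gamma0 M) →+ ℂ),
    heckeTransfer hl (charInvolution M ℂ ℂ φ) = charInvolution M ℂ ℂ (heckeTransfer hl φ)

/-- (NEW-3c) additivity of the two transfers over `ℂ` (instance of HK-0). -/
def NewTransferAddStatement : Prop :=
  ∀ (N q : ℕ) (ψ ψ' : Additive (Gamma0 (N * q)) →+ ℂ),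
    t₁ N q (ψ + ψ') = t₁ N q ψ + t₁ N q ψ' ∧ t₂ N q (ψ + ψ') = t₂ N q ψ + t₂ N q ψ'

end Fermat.Agent.S41.Spec

end
-- ===== PACK-END S41/Spec/New.lean

-- ===== PACK-BEGIN S41/H863/TransferReps.lean
section




/-!
# Row S41, block NEW, leaf NEW-2a (helper863): the transfer in right coset representatives

* `transfer_eq_prod_reps` : Mathlib's `MonoidHom.transfer ϕ g` for a subgroup `H ≤ G` of finite
  index, computed in a system `s : ι → G` of representatives of the right cosets `H \ G`: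
  if `s x * g = k x * s (σ x)` with `k x ∈ H`, then `transfer ϕ g = ∏ x, ϕ (k x)`.
* `finiteIndex_of_reps` : such a finite system forces `H` to have finite index.
* `newTransferReps : Spec.NewTransferRepsStatement` (exact shape of `Spec/New.lean`).
* `newTransferAdd : Spec.NewTransferAddStatement`.
-/

set_option autoImplicit false

namespace Fermat.Agent.S41.H863

open Subgroup Subgroup.leftTransversals
open Fermat.Agent.S41.Spec

section Reps

variable {G : Type*} [Group G] (H : Subgroup G)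

/-- The map `x ↦ (s x)⁻¹ H` is a bijection `ι → G ⧸ H` for a system of representatives of the
right cosets. -/
theorem bijective_reps {ι : Type*} (s : ι → G)
    (hinj : ∀ x y : ι, s x * (s y)⁻¹ ∈ H → x = y)
    (hsurj : ∀ g : G, ∃ x : ι, g * (s x)⁻¹ ∈ H) :
    Function.Bijective (fun x : ι => (((s x)⁻¹ : G) : G ⧸ H)) := by
  constructor
  · intro x y hxy
    have h1 := QuotientGroup.eq.mp hxy
    rw [inv_inv] at h1
    exact hinj x y h1
  · intro q
    induction q using QuotientGroup.induction_on with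
    | H a =>
      obtain ⟨x, hx⟩ := hsurj a⁻¹
      refine ⟨x, ?_⟩
      show (((s x)⁻¹ : G) : G ⧸ H) = (a : G ⧸ H)
      rw [QuotientGroup.eq, inv_inv]
      have h2 := H.inv_mem hx
      rwa [mul_inv_rev, inv_inv, inv_inv] at h2

theorem finiteIndex_of_reps {ι : Type*} [Finite ι] (s : ι → G)
    (hinj : ∀ x y : ι, s x * (s y)⁻¹ ∈ H → x = y)
    (hsurj : ∀ g : G, ∃ x : ι, g * (s x)⁻¹ ∈ H) : H.FiniteIndex := by
  haveI : Finite (G ⧸ H) :=
    Finite.of_equiv ι (Equiv.ofBijective _ (bijective_reps H s hinj hsurj))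
  exact Subgroup.finiteIndex_of_finite_quotient

variable {H} {A : Type*} [CommGroup A]

/-- Mathlib's transfer in a system of representatives of the right cosets `H \ G`. -/
theorem transfer_eq_prod_reps [H.FiniteIndex] (ϕ : H →* A) {ι : Type*} [Fintype ι] (s : ι → G)
    (hinj : ∀ x y : ι, s x * (s y)⁻¹ ∈ H → x = y)
    (hsurj : ∀ g : G, ∃ x : ι, g * (s x)⁻¹ ∈ H)
    (g : G) (σ : ι → ι) (k : ι → H) (hk : ∀ x, s x * g = (k x : G) * s (σ x)) :
    MonoidHom.transfer ϕ g = ∏ x : ι, ϕ (k x) := by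
  classical
  let e : ι ≃ G ⧸ H := Equiv.ofBijective _ (bijective_reps H s hinj hsurj)
  have he : ∀ x : ι, e x = (((s x)⁻¹ : G) : G ⧸ H) := fun x => rfl
  let F : G ⧸ H → G := fun q => (s (e.symm q))⁻¹
  have hF : ∀ q : G ⧸ H, (F q : G ⧸ H) = q := fun q => by
    show (((s (e.symm q))⁻¹ : G) : G ⧸ H) = q
    rw [← he, e.apply_symm_apply]
  let T : H.LeftTransversal := ⟨Set.range F, isComplement_range_left hF⟩
  have hT : ∀ q : G ⧸ H, (T.2.leftQuotientEquiv q : G) = F q :=
    fun q => IsComplement.leftQuotientEquiv_apply hF q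
  -- the action of `g⁻¹` on the cosets
  have hσ : ∀ x : ι, g⁻¹ • e x = e (σ x) := by
    intro x
    rw [he, he]
    show ((g⁻¹ * (s x)⁻¹ : G) : G ⧸ H) = (((s (σ x))⁻¹ : G) : G ⧸ H)
    rw [QuotientGroup.eq]
    have h1 : (g⁻¹ * (s x)⁻¹)⁻¹ * (s (σ x))⁻¹ = (k x : G) := by
      rw [mul_inv_rev, inv_inv, inv_inv, hk x, mul_assoc, mul_inv_cancel, mul_one]
    rw [h1]
    exact (k x).2
  rw [MonoidHom.transfer_def ϕ T g]
  unfold diff
  let _ := H.fintypeQuotientOfFiniteIndex
  refine (Fintype.prod_equiv e _ _ fun x => ?_).symm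
  congr 1
  apply Subtype.ext
  show (k x : G) = ((T.2.leftQuotientEquiv (e x) : G))⁻¹ * ((g • T).2.leftQuotientEquiv (e x) : G)
  rw [smul_apply_eq_smul_apply_inv_smul, hT, hT, hσ x]
  show (k x : G) = ((s (e.symm (e x)))⁻¹)⁻¹ * (g * (s (e.symm (e (σ x))))⁻¹)
  rw [e.symm_apply_apply, e.symm_apply_apply, inv_inv, ← mul_assoc, hk x, mul_assoc,
    mul_inv_cancel, mul_one]

end Reps

/-- **NEW-2a** (exact shape of `Spec.NewTransferRepsStatement`). -/
theorem newTransferReps : Spec.NewTransferRepsStatement := by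
  intro H G _ _ A _ f hf ι _ s hinj hsurj ψ g σ k hk
  have hfin : f.range.FiniteIndex := finiteIndex_of_reps f.range s hinj hsurj
  rw [Fermat.Agent.S41.H581.transferAlong_apply_of f ⟨hf, hfin⟩ ψ g]
  haveI := hfin
  have key := transfer_eq_prod_reps
    ((AddMonoidHom.toMultiplicativeRight ψ).comp (MonoidHom.ofInjective hf).symm.toMonoidHom)
    s hinj hsurj g σ (fun x => ⟨f (k x), ⟨k x, rfl⟩⟩) (fun x => hk x)
  rw [key, toAdd_prod]
  refine Finset.sum_congr rfl fun x _ => ?_
  have h1 : (MonoidHom.ofInjective hf).symm ⟨f (k x), ⟨k x, rfl⟩⟩ = k x := by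
    apply (MonoidHom.ofInjective hf).injective
    rw [MulEquiv.apply_symm_apply]
    rfl
  simp only [MonoidHom.comp_apply, MulEquiv.coe_toMonoidHom, h1]
  rfl

/-- **NEW-3c** additivity of the two transfers. -/
theorem newTransferAdd : Spec.NewTransferAddStatement := by
  intro N q ψ ψ'
  exact ⟨Fermat.Agent.S41.H581.transferAlong_add _ ψ ψ',
    Fermat.Agent.S41.H581.transferAlong_add _ ψ ψ'⟩

end Fermat.Agent.S41.H863

end
-- ===== PACK-END S41/H863/TransferReps.lean

-- ===== PACK-BEGIN S41/H945/HeisGroup.lean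
section



/-!
# S41 / block PD / leaf HEIS — part 1: the Heisenberg group and twisted cocycles on `SL(2, ℤ)`

* `Heis R` : the Heisenberg group `R³`, `(a, b, c) * (a', b', c') = (a + a', b + b', c + c' + a * b')`.
* `exists_twisted_cocycle` : if `-1` acts trivially on `X`, `H` is any group and `cS cU : X → H` satisfy
  `cS (S x) * cS x = 1`, `cU (U² x) * cU (U x) * cU x = 1` (`U = S * T`), then there is
  `C : SL(2, ℤ) → X → H` with `C (g * h) x = C g (h • x) * C h x`, `C S = cS`, `C U = cU`.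
  (Non-abelian version of `Fermat.Agent.S21.H585.exists_cocycle`; same proof.)
-/

set_option autoImplicit false

namespace Fermat.Agent.S41.H945

open Matrix ModularGroup Fermat.Agent.S21.H585
open scoped MatrixGroups

/-- The Heisenberg group over `R`. -/
@[ext] structure Heis (R : Type*) where
  /-- first coordinate -/
  a : R
  /-- second coordinate -/
  b : R
  /-- central coordinate -/
  c : R

namespace Heis

variable {R : Type*} [CommRing R]

instance : Mul (Heis R) := ⟨fun p q => ⟨p.a + q.a, p.b + q.b, p.c + q.c + p.a * q.b⟩⟩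
instance : One (Heis R) := ⟨⟨0, 0, 0⟩⟩
instance : Inv (Heis R) := ⟨fun p => ⟨-p.a, -p.b, -p.c + p.a * p.b⟩⟩

@[simp] lemma mul_a (p q : Heis R) : (p * q).a = p.a + q.a := rfl
@[simp] lemma mul_b (p q : Heis R) : (p * q).b = p.b + q.b := rfl
@[simp] lemma mul_c (p q : Heis R) : (p * q).c = p.c + q.c + p.a * q.b := rfl
@[simp] lemma one_a : (1 : Heis R).a = 0 := rfl
@[simp] lemma one_b : (1 : Heis R).b = 0 := rfl
@[simp] lemma one_c : (1 : Heis R).c = 0 := rfl
@[simp] lemma inv_a (p : Heis R) : (p⁻¹).a = -p.a := rfl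
@[simp] lemma inv_b (p : Heis R) : (p⁻¹).b = -p.b := rfl
@[simp] lemma inv_c (p : Heis R) : (p⁻¹).c = -p.c + p.a * p.b := rfl

instance : Group (Heis R) where
  mul_assoc p q r := by ext <;> simp <;> ring
  one_mul p := by ext <;> simp
  mul_one p := by ext <;> simp
  inv_mul_cancel p := by ext <;> simp

end Heis

section Twisted

variable {G : Type*} [Group G] {X : Type*} [MulAction G X] {H : Type*} [Group H]

/-- The permutation `(x, t) ↦ (g • x, c x * t)` of `X × H`. -/
def twPerm (g : G) (c : X → H) : Equiv.Perm (X × H) where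
  toFun z := (g • z.1, c z.1 * z.2)
  invFun z := (g⁻¹ • z.1, (c (g⁻¹ • z.1))⁻¹ * z.2)
  left_inv z := by
    rcases z with ⟨x, t⟩
    simp
  right_inv z := by
    rcases z with ⟨x, t⟩
    simp

@[simp] lemma twPerm_apply (g : G) (c : X → H) (x : X) (t : H) :
    twPerm g c (x, t) = (g • x, c x * t) := rfl

/-- Twisted (non-abelian) cocycles. -/
def IsTwCocycle (C : G → X → H) : Prop := ∀ g h x, C (g * h) x = C g (h • x) * C h x

lemma IsTwCocycle.map_one {C : G → X → H} (hC : IsTwCocycle C) (x : X) : C 1 x = 1 := by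
  have := hC 1 1 x
  rw [one_mul, one_smul] at this
  exact (mul_eq_left.mp this.symm)

lemma IsTwCocycle.map_inv_mul {C : G → X → H} (hC : IsTwCocycle C) (g : G) (x : X) :
    C g⁻¹ (g • x) * C g x = 1 := by
  have := hC g⁻¹ g x
  rw [inv_mul_cancel, hC.map_one] at this
  exact this.symm

end Twisted

/-- **Existence of twisted cocycles on `SL(2, ℤ)`** with prescribed values on `S` and `S * T`. -/
theorem exists_twisted_cocycle {X : Type*} [MulAction SL(2, ℤ) X] {H : Type*} [Group H]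
    (hneg : ∀ x : X, (-1 : SL(2, ℤ)) • x = x) (cS cU : X → H)
    (hS : ∀ x, cS (S • x) * cS x = 1)
    (hU : ∀ x, cU ((S * T) • (S * T) • x) * cU ((S * T) • x) * cU x = 1) :
    ∃ C : SL(2, ℤ) → X → H, IsTwCocycle C ∧ C S = cS ∧ C (S * T) = cU := by
  have hs : (twPerm S cS : Equiv.Perm (X × H)) ^ 2 = 1 := by
    ext ⟨x, t⟩ : 1
    rw [pow_two, Equiv.Perm.mul_apply, twPerm_apply, twPerm_apply, Equiv.Perm.one_apply,
      ← mul_smul, S_mul_S_eq_neg_one, hneg, ← mul_assoc, hS, one_mul]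
  have hu : (twPerm (S * T) cU : Equiv.Perm (X × H)) ^ 3 = 1 := by
    ext ⟨x, t⟩ : 1
    rw [pow_succ, pow_two, Equiv.Perm.mul_apply, Equiv.Perm.mul_apply, twPerm_apply,
      twPerm_apply, twPerm_apply, Equiv.Perm.one_apply]
    have h1 : (S * T) • (S * T) • (S * T) • x = x := by
      rw [smul_smul, smul_smul, ST_cube_eq_neg_one, hneg]
    rw [h1, ← mul_assoc, ← mul_assoc, hU, one_mul]
  obtain ⟨Φ, hΦS, hΦU⟩ := exists_hom_of_sq_cube _ _ hs hu
  -- every `Φ g` is twisted-affine over `g`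
  have hP : ∀ g : SL(2, ℤ), ∃ m : X → H, ∀ x t, Φ g (x, t) = (g • x, m x * t) := by
    intro g
    have hg : g ∈ Subgroup.closure ({S, S * T} : Set SL(2, ℤ)) := by
      have hle : Subgroup.closure ({S, T} : Set SL(2, ℤ)) ≤
          Subgroup.closure ({S, S * T} : Set SL(2, ℤ)) := by
        rw [Subgroup.closure_le]
        rintro x (rfl | rfl)
        · exact Subgroup.subset_closure (by simp)
        · have h1 : S ∈ Subgroup.closure ({S, S * T} : Set SL(2, ℤ)) :=
            Subgroup.subset_closure (by simp)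
          have h2 : S * T ∈ Subgroup.closure ({S, S * T} : Set SL(2, ℤ)) :=
            Subgroup.subset_closure (by simp)
          have h3 := mul_mem (inv_mem h1) h2
          rwa [inv_mul_cancel_left] at h3
      apply hle
      rw [_root_.SpecialLinearGroup.SL2Z_generators]; trivial
    induction hg using Subgroup.closure_induction with
    | mem x hx =>
      rcases hx with rfl | rfl
      · exact ⟨cS, fun x t => by rw [hΦS, twPerm_apply]⟩
      · exact ⟨cU, fun x t => by rw [hΦU, twPerm_apply]⟩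
    | one => exact ⟨fun _ => 1, fun x t => by simp⟩
    | mul g h _ _ hg hh =>
      obtain ⟨m, hm⟩ := hg
      obtain ⟨n, hn⟩ := hh
      refine ⟨fun x => m (h • x) * n x, fun x t => ?_⟩
      rw [map_mul, Equiv.Perm.mul_apply, hn, hm, mul_smul, mul_assoc]
    | inv g _ hg =>
      obtain ⟨m, hm⟩ := hg
      refine ⟨fun x => (m (g⁻¹ • x))⁻¹, fun x t => ?_⟩
      rw [map_inv, Equiv.Perm.inv_eq_iff_eq, hm, smul_inv_smul]
      simp
  choose m hm using hP
  refine ⟨m, ?_, ?_, ?_⟩
  · intro g h x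
    have h1 := hm (g * h) x 1
    rw [map_mul, Equiv.Perm.mul_apply, hm h, hm g, mul_one, mul_one] at h1
    exact (congrArg Prod.snd h1).symm
  · funext x
    have h1 := hm S x 1
    rw [hΦS, twPerm_apply] at h1
    simpa using (congrArg Prod.snd h1).symm
  · funext x
    have h1 := hm (S * T) x 1
    rw [hΦU, twPerm_apply] at h1
    simpa using (congrArg Prod.snd h1).symm

end Fermat.Agent.S41.H945

end
-- ===== PACK-END S41/H945/HeisGroup.lean

-- ===== PACK-BEGIN S41/H945/HeisLift.lean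
section





/-!
# S41 / block PD / leaf HEIS — `Spec.HeisLiftStatement` (helper945, 2nd owner)

For `Γ ≤ SL(2, ℤ)` of finite index with `-1 ∈ Γ`, Manin representatives `m, m'` of `φ, ψ` and
parabolic data `e, e'`, we construct a Heisenberg lift `ζ` of `(φ, ψ)` (trivial on torsion) such that
`∑ ζ (γ i) = - maninForm Γ m e'` over every `T`-orbit system.

Construction: the twisted cocycle `C : SL(2, ℤ) → X → Heis R` with `C S = 1`,
`C U x = (m (U x) - m x, m' (U x) - m' x, m (U x) * (m' (U x) - m' x))`, `U = S * T`;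
`ζ γ` is the central coordinate of `C γ x₀`.

The only input which is not proved here is `Spec.TorsionClassStatement` (leaf TORS), taken as a
hypothesis.
-/

set_option autoImplicit false

namespace Fermat.Agent.S41.H945

open Matrix ModularGroup Fermat.Agent.S41.Spec Fermat.Agent.S21.H585
open scoped MatrixGroups

/-! ## Abelian cocycles are determined by their values on `S` and `S * T` -/

section Uniq

variable {X : Type*} [MulAction SL(2, ℤ) X] {A : Type*} [AddCommGroup A]

lemma mem_closure_S_ST (g : SL(2, ℤ)) : g ∈ Subgroup.closure ({S, S * T} : Set SL(2, ℤ)) := by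
  have hle : Subgroup.closure ({S, T} : Set SL(2, ℤ)) ≤
      Subgroup.closure ({S, S * T} : Set SL(2, ℤ)) := by
    rw [Subgroup.closure_le]
    rintro x (rfl | rfl)
    · exact Subgroup.subset_closure (by simp)
    · have h1 : S ∈ Subgroup.closure ({S, S * T} : Set SL(2, ℤ)) :=
        Subgroup.subset_closure (by simp)
      have h2 : S * T ∈ Subgroup.closure ({S, S * T} : Set SL(2, ℤ)) :=
        Subgroup.subset_closure (by simp)
      have h3 := mul_mem (inv_mem h1) h2
      rwa [inv_mul_cancel_left] at h3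
  apply hle
  rw [_root_.SpecialLinearGroup.SL2Z_generators]; trivial

lemma cocycle_eq_of_S_ST {f f' : SL(2, ℤ) → X → A} (hf : IsCocycle f) (hf' : IsCocycle f')
    (hS : f S = f' S) (hU : f (S * T) = f' (S * T)) (g : SL(2, ℤ)) (x : X) : f g x = f' g x := by
  have hg := mem_closure_S_ST g
  induction hg using Subgroup.closure_induction generalizing x with
  | mem y hy =>
    rcases hy with rfl | rfl
    · rw [hS]
    · rw [hU]
  | one => rw [hf.map_one, hf'.map_one]
  | mul g h _ _ hg hh => rw [hf, hf', hg, hh]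
  | inv g _ hg => rw [hf.map_inv', hf'.map_inv', hg]

end Uniq

/-! ## The Heisenberg cocycle -/

section Construction

variable (Γ : Subgroup SL(2, ℤ)) {R : Type*} [CommRing R]

/-- The value at `U = S * T` of the Heisenberg cocycle. -/
def heisU (m m' : SL(2, ℤ) ⧸ Γ → R) (x : SL(2, ℤ) ⧸ Γ) : Heis R :=
  ⟨m ((S * T) • x) - m x, m' ((S * T) • x) - m' x,
    m ((S * T) • x) * (m' ((S * T) • x) - m' x)⟩

variable {Γ}

lemma ST_cube_smul (hneg : (-1 : SL(2, ℤ)) ∈ Γ) (x : SL(2, ℤ) ⧸ Γ) :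
    (S * T) • (S * T) • (S * T) • x = x := by
  rw [smul_smul, smul_smul, ST_cube_eq_neg_one, neg_one_smul_quot hneg]

lemma S_smul_ST_smul (hneg : (-1 : SL(2, ℤ)) ∈ Γ) (x : SL(2, ℤ) ⧸ Γ) :
    S • (S * T) • x = T • x := by
  rw [smul_smul, ← mul_assoc, S_mul_S_eq_neg_one, mul_smul, neg_one_smul_quot hneg]

lemma heisU_cube (hneg : (-1 : SL(2, ℤ)) ∈ Γ) (m m' : SL(2, ℤ) ⧸ Γ → R) (x : SL(2, ℤ) ⧸ Γ) :
    heisU Γ m m' ((S * T) • (S * T) • x) * heisU Γ m m' ((S * T) • x) * heisU Γ m m' x = 1 := by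
  have h3 := ST_cube_smul hneg x
  ext
  · simp only [heisU, Heis.mul_a, Heis.one_a, h3]; ring
  · simp only [heisU, Heis.mul_b, Heis.one_b, h3]; ring
  · simp only [heisU, Heis.mul_a, Heis.mul_c, Heis.one_c, h3]; ring

/-- Existence of the Heisenberg cocycle. -/
lemma exists_heis_cocycle (hneg : (-1 : SL(2, ℤ)) ∈ Γ) (m m' : SL(2, ℤ) ⧸ Γ → R) :
    ∃ C : SL(2, ℤ) → SL(2, ℤ) ⧸ Γ → Heis R, IsTwCocycle C ∧ (∀ x, C S x = 1) ∧
      ∀ x, C (S * T) x = heisU Γ m m' x := by
  obtain ⟨C, hC, hS, hU⟩ := exists_twisted_cocycle (X := SL(2, ℤ) ⧸ Γ) (H := Heis R)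
    (neg_one_smul_quot hneg) (fun _ => 1) (heisU Γ m m') (fun _ => by simp)
    (heisU_cube hneg m m')
  exact ⟨C, hC, fun x => by rw [hS], fun x => by rw [hU]⟩

end Construction

/-! ## Properties of a Heisenberg cocycle -/

section Props

variable {Γ : Subgroup SL(2, ℤ)} {R : Type*} [CommRing R]
  {C : SL(2, ℤ) → SL(2, ℤ) ⧸ Γ → Heis R}

lemma IsTwCocycle.isCocycle_a (hC : IsTwCocycle C) : IsCocycle (fun g x => (C g x).a) := by
  intro g h x
  show (C (g * h) x).a = (C h x).a + (C g (h • x)).a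
  rw [hC, Heis.mul_a, add_comm]

lemma IsTwCocycle.isCocycle_b (hC : IsTwCocycle C) : IsCocycle (fun g x => (C g x).b) := by
  intro g h x
  show (C (g * h) x).b = (C h x).b + (C g (h • x)).b
  rw [hC, Heis.mul_b, add_comm]

lemma tw_S_inv (hC : IsTwCocycle C) (hS : ∀ x, C S x = 1) (x : SL(2, ℤ) ⧸ Γ) : C S⁻¹ x = 1 := by
  have h := hC.map_inv_mul S (S⁻¹ • x)
  rwa [hS, mul_one, smul_inv_smul] at h

lemma tw_T (hC : IsTwCocycle C) (hS : ∀ x, C S x = 1) (x : SL(2, ℤ) ⧸ Γ) :
    C T x = C (S * T) x := by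
  have h : (T : SL(2, ℤ)) = S⁻¹ * (S * T) := by rw [inv_mul_cancel_left]
  conv_lhs => rw [h]
  rw [hC, tw_S_inv hC hS, one_mul]

lemma tw_neg_one (hC : IsTwCocycle C) (hS : ∀ x, C S x = 1) (x : SL(2, ℤ) ⧸ Γ) :
    C (-1) x = 1 := by
  rw [← S_mul_S_eq_neg_one, hC, hS, hS, one_mul]

/-- The Heisenberg cocycle along a `T`-orbit. -/
lemma tw_T_pow (hC : IsTwCocycle C) (hS : ∀ x, C S x = 1) (m m' e e' : SL(2, ℤ) ⧸ Γ → R)
    (hU : ∀ x, C (S * T) x = heisU Γ m m' x) (he : IsParData Γ m e) (he' : IsParData Γ m' e')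
    (y : SL(2, ℤ) ⧸ Γ) (k : ℕ) :
    (C (T ^ k) y).a = e (T ^ k • y) - e y ∧ (C (T ^ k) y).b = e' (T ^ k • y) - e' y ∧
      (C (T ^ k) y).c = ∑ j ∈ Finset.range k,
          (m ((S * T) • T ^ j • y) * (m' ((S * T) • T ^ j • y) - m' (T ^ j • y))
            + (m ((S * T) • T ^ j • y) - m (T ^ j • y)) * e' (T ^ j • y))
        - e' y * (e (T ^ k • y) - e y) := by
  induction k with
  | zero => simp [hC.map_one]
  | succ k ih =>
    obtain ⟨iha, ihb, ihc⟩ := ih
    have hT : C (T ^ (k + 1)) y = C T (T ^ k • y) * C (T ^ k) y := by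
      rw [pow_succ', hC]
    have hTy : T ^ (k + 1) • y = T • T ^ k • y := by rw [pow_succ', mul_smul]
    have h1 := he (T ^ k • y)
    have h2 := he' (T ^ k • y)
    rw [hT, hTy, tw_T hC hS, hU]
    refine ⟨?_, ?_, ?_⟩
    · rw [Heis.mul_a, iha]
      simp only [heisU]
      linear_combination -h1
    · rw [Heis.mul_b, ihb]
      simp only [heisU]
      linear_combination -h2
    · rw [Heis.mul_c, ihc, ihb, Finset.sum_range_succ]
      simp only [heisU]
      linear_combination e' y * h1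

end Props

/-! ## Heisenberg algebra -/

section HeisAlg

variable {R : Type*} [CommRing R]

lemma Heis.conj_c {P' P Q : Heis R} (h : P' * P = 1) (ha : Q.a = 0) (hb : Q.b = 0) :
    (P' * Q * P).c = Q.c := by
  have h1 : P'.a + P.a = 0 := by simpa using congrArg Heis.a h
  have h3 : P'.c + P.c + P'.a * P.b = 0 := by simpa using congrArg Heis.c h
  simp only [Heis.mul_c, Heis.mul_a, ha, hb]
  linear_combination h3

lemma Heis.conj_one {P' P Q : Heis R} (h : P' * P = 1) (hQ : Q = 1) : P' * Q * P = 1 := by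
  rw [hQ, mul_one, h]

end HeisAlg

/-! ## Conjugates -/

section Conj

variable {Γ : Subgroup SL(2, ℤ)} {R : Type*} [CommRing R]
  {C : SL(2, ℤ) → SL(2, ℤ) ⧸ Γ → Heis R}

/-- `C (h⁻¹ * t * h) x₀ = C h⁻¹ (h x₀) * C t (h x₀) * C h x₀` when `t` fixes `h x₀`. -/
lemma tw_conj (hC : IsTwCocycle C) (h t : SL(2, ℤ))
    (hfix : t • h • basePt Γ = h • basePt Γ) :
    C (h⁻¹ * t * h) (basePt Γ) =
      C h⁻¹ (h • basePt Γ) * C t (h • basePt Γ) * C h (basePt Γ) := by
  rw [hC, hC, hfix]

lemma fix_of_conj_mem (h t : SL(2, ℤ)) (hmem : h⁻¹ * t * h ∈ Γ) :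
    t • h • basePt Γ = h • basePt Γ := by
  have h1 := smul_basePt_of_mem Γ hmem
  rw [mul_smul, mul_smul] at h1
  have h2 := congrArg (fun z => h • z) h1
  simpa using h2

end Conj

/-! ## Summation over a `T`-orbit system -/

section OrbitSum

variable {Γ : Subgroup SL(2, ℤ)}

lemma sum_orbit_system {ι : Type} [Fintype ι] [Fintype (SL(2, ℤ) ⧸ Γ)] {A : Type*}
    [AddCommMonoid A] (h : ι → SL(2, ℤ)) (w : ι → ℕ)
    (hbij : ∀ x : SL(2, ℤ) ⧸ Γ, ∃! p : (Σ i, Fin (w i)),
      x = ((T ^ (p.2 : ℕ) * h p.1 : SL(2, ℤ)) : SL(2, ℤ) ⧸ Γ))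
    (G : SL(2, ℤ) ⧸ Γ → A) :
    ∑ i, ∑ j ∈ Finset.range (w i), G (T ^ j • h i • basePt Γ) = ∑ x, G x := by
  let F : (Σ i, Fin (w i)) → SL(2, ℤ) ⧸ Γ :=
    fun p => ((T ^ (p.2 : ℕ) * h p.1 : SL(2, ℤ)) : SL(2, ℤ) ⧸ Γ)
  have hF : Function.Bijective F := by
    constructor
    · intro p q hpq
      obtain ⟨r, -, hr⟩ := hbij (F p)
      rw [hr p rfl, hr q hpq]
    · intro x
      obtain ⟨p, hp, -⟩ := hbij x
      exact ⟨p, hp.symm⟩
  rw [← hF.sum_comp G, Fintype.sum_sigma]
  refine Finset.sum_congr rfl fun i _ => ?_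
  rw [← Fin.sum_univ_eq_sum_range (fun j => G (T ^ j • h i • basePt Γ)) (w i)]
  refine Finset.sum_congr rfl fun j _ => ?_
  show G (T ^ (j : ℕ) • h i • basePt Γ) = G ((T ^ (j : ℕ) * h i : SL(2, ℤ)) : SL(2, ℤ) ⧸ Γ)
  rw [← mul_smul, smul_basePt_eq]

end OrbitSum

/-! ## The final identity -/

section Final

variable {Γ : Subgroup SL(2, ℤ)} {R : Type*} [CommRing R]

lemma sum_G_eq [Fintype (SL(2, ℤ) ⧸ Γ)] (hneg : (-1 : SL(2, ℤ)) ∈ Γ)
    (m m' e' : SL(2, ℤ) ⧸ Γ → R) (he' : IsParData Γ m' e') :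
    ∑ x : SL(2, ℤ) ⧸ Γ, (m ((S * T) • x) * (m' ((S * T) • x) - m' x)
        + (m ((S * T) • x) - m x) * e' x)
      = - ∑ x : SL(2, ℤ) ⧸ Γ, m x * (e' x - e' (S • x)) := by
  have h1 : ∀ x : SL(2, ℤ) ⧸ Γ, m ((S * T) • x) * (m' ((S * T) • x) - m' x)
      + (m ((S * T) • x) - m x) * e' x
      = m ((S * T) • x) * e' (S • (S * T) • x) - m x * e' x := by
    intro x
    rw [S_smul_ST_smul hneg]
    linear_combination -(m ((S * T) • x)) * he' x
  have h2 : ∑ x : SL(2, ℤ) ⧸ Γ, m ((S * T) • x) * e' (S • (S * T) • x)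
      = ∑ x : SL(2, ℤ) ⧸ Γ, m x * e' (S • x) :=
    Equiv.sum_comp (MulAction.toPerm (S * T : SL(2, ℤ))) (fun y => m y * e' (S • y))
  rw [Finset.sum_congr rfl fun x _ => h1 x, Finset.sum_sub_distrib, h2, ← Finset.sum_neg_distrib,
    ← Finset.sum_sub_distrib]
  refine Finset.sum_congr rfl fun x _ => ?_
  ring

end Final

/-! ## Torsion -/

section Torsion

variable {Γ : Subgroup SL(2, ℤ)} {R : Type*} [CommRing R]
  {C : SL(2, ℤ) → SL(2, ℤ) ⧸ Γ → Heis R}

lemma heisU_eq_one_of_fix (m m' : SL(2, ℤ) ⧸ Γ → R) (y : SL(2, ℤ) ⧸ Γ)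
    (hy : (S * T) • y = y) : heisU Γ m m' y = 1 := by
  ext <;> simp [heisU, hy]

lemma tw_neg (hC : IsTwCocycle C) (hS : ∀ x, C S x = 1) (g : SL(2, ℤ)) (x : SL(2, ℤ) ⧸ Γ) :
    C (-g) x = C g x := by
  rw [← neg_one_mul, hC, tw_neg_one hC hS, one_mul]

lemma neg_smul_quot (hneg : (-1 : SL(2, ℤ)) ∈ Γ) (g : SL(2, ℤ)) (x : SL(2, ℤ) ⧸ Γ) :
    (-g) • x = g • x := by
  rw [← neg_one_mul, mul_smul, neg_one_smul_quot hneg]

lemma ST_fix_of_sq_fix (hneg : (-1 : SL(2, ℤ)) ∈ Γ) (y : SL(2, ℤ) ⧸ Γ)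
    (hy : (S * T) ^ 2 • y = y) : (S * T) • y = y := by
  have h3 := ST_cube_smul hneg y
  rw [pow_two, mul_smul] at hy
  rw [hy] at h3
  exact h3

/-- The value of the Heisenberg cocycle at a torsion element fixing the point is trivial. -/
lemma tw_torsion_class (hneg : (-1 : SL(2, ℤ)) ∈ Γ) (hC : IsTwCocycle C) (hS : ∀ x, C S x = 1)
    (m m' : SL(2, ℤ) ⧸ Γ → R) (hU : ∀ x, C (S * T) x = heisU Γ m m' x)
    (ε : SL(2, ℤ)) (y : SL(2, ℤ) ⧸ Γ) (hy : ε • y = y)
    (hε : ε = 1 ∨ ε = -1 ∨ ε = S ∨ ε = -S ∨ ε = S * T ∨ ε = -(S * T) ∨ ε = (S * T) ^ 2 ∨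
      ε = -(S * T) ^ 2) : C ε y = 1 := by
  have hUU : ∀ z : SL(2, ℤ) ⧸ Γ, (S * T) • z = z → C ((S * T) ^ 2) z = 1 := by
    intro z hz
    rw [pow_two, hC, hz, hU, heisU_eq_one_of_fix m m' z hz, one_mul]
  rcases hε with rfl | rfl | rfl | rfl | rfl | rfl | rfl | rfl
  · exact hC.map_one y
  · exact tw_neg_one hC hS y
  · exact hS y
  · rw [tw_neg hC hS, hS]
  · rw [hU, heisU_eq_one_of_fix m m' y hy]
  · rw [neg_smul_quot hneg] at hy
    rw [tw_neg hC hS, hU, heisU_eq_one_of_fix m m' y hy]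
  · exact hUU y (ST_fix_of_sq_fix hneg y hy)
  · rw [neg_smul_quot hneg] at hy
    rw [tw_neg hC hS]
    exact hUU y (ST_fix_of_sq_fix hneg y hy)

end Torsion

/-! ## The theorem -/

universe u

/-- **Leaf HEIS** (`Spec.HeisLiftStatement`), from leaf TORS. -/
theorem heisLift_of (tors : TorsionClassStatement) : HeisLiftStatement.{u} := by
  intro Γ _ hneg R _ φ ψ m m' e e' hφ hψ he he'
  classical
  have : Fintype (SL(2, ℤ) ⧸ Γ) := Fintype.ofFinite _
  obtain ⟨f, ⟨hfc, hfS, hfU⟩, hfφ⟩ := hφ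
  obtain ⟨f', ⟨hfc', hfS', hfU'⟩, hfψ⟩ := hψ
  obtain ⟨C, hC, hCS, hCU⟩ := exists_heis_cocycle (R := R) hneg m m'
  have ha : ∀ g x, (C g x).a = f g x := by
    refine cocycle_eq_of_S_ST hC.isCocycle_a hfc ?_ ?_
    · funext x
      show (C S x).a = f S x
      rw [hCS, hfS, Heis.one_a]
    · funext x
      show (C (S * T) x).a = f (S * T) x
      rw [hCU, hfU]
      rfl
  have hb : ∀ g x, (C g x).b = f' g x := by
    refine cocycle_eq_of_S_ST hC.isCocycle_b hfc' ?_ ?_
    · funext x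
      show (C S x).b = f' S x
      rw [hCS, hfS', Heis.one_b]
    · funext x
      show (C (S * T) x).b = f' (S * T) x
      rw [hCU, hfU']
      rfl
  refine ⟨fun γ => (C (γ : SL(2, ℤ)) (basePt Γ)).c, ⟨?_, ?_⟩, ?_⟩
  · -- the Heisenberg relation
    intro γ γ'
    show (C ((γ * γ' : Γ) : SL(2, ℤ)) (basePt Γ)).c = _
    rw [Subgroup.coe_mul, hC, smul_basePt_of_mem Γ γ'.2, Heis.mul_c, ha, hb, hfφ, hfψ]
    rfl
  · -- torsion
    intro γ hγ
    have hγ' : IsOfFinOrder (γ : SL(2, ℤ)) := Γ.subtype.isOfFinOrder hγ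
    obtain ⟨h, hh⟩ := tors (γ : SL(2, ℤ)) hγ'
    set ε : SL(2, ℤ) := h * γ * h⁻¹ with hε
    have hγε : (γ : SL(2, ℤ)) = (h⁻¹)⁻¹⁻¹ * ε * h⁻¹⁻¹ := by
      rw [hε]; group
    have hmem : (h⁻¹)⁻¹⁻¹ * ε * h⁻¹⁻¹ ∈ Γ := by
      rw [← hγε]; exact γ.2
    have hfix := fix_of_conj_mem (Γ := Γ) (h⁻¹⁻¹) ε hmem
    have h1 : C ε (h⁻¹⁻¹ • basePt Γ) = 1 :=
      tw_torsion_class hneg hC hCS m m' hCU ε _ hfix hh
    show (C (γ : SL(2, ℤ)) (basePt Γ)).c = 0
    rw [hγε, tw_conj hC _ _ hfix, Heis.conj_one (hC.map_inv_mul _ _) h1, Heis.one_c]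
  · -- the β-formula
    intro ι _ γ h w hsys
    obtain ⟨hw, hγ, hbij⟩ := hsys
    rw [maninForm_eq_sum, ← sum_G_eq hneg m m' e' he', ← sum_orbit_system h w hbij]
    refine Finset.sum_congr rfl fun i _ => ?_
    have hmem : (h i)⁻¹ * T ^ (w i) * h i ∈ Γ := by
      rw [← hγ i]; exact (γ i).2
    have hfix := fix_of_conj_mem (Γ := Γ) (h i) (T ^ (w i)) hmem
    obtain ⟨hTa, hTb, hTc⟩ := tw_T_pow hC hCS m m' e e' hCU he he' (h i • basePt Γ) (w i)
    show (C ((γ i : Γ) : SL(2, ℤ)) (basePt Γ)).c = _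
    rw [hγ i, tw_conj hC _ _ hfix, Heis.conj_c (hC.map_inv_mul _ _)
      (by rw [hTa, hfix, sub_self]) (by rw [hTb, hfix, sub_self]), hTc, hfix, sub_self, mul_zero,
      sub_zero]

end Fermat.Agent.S41.H945

end
-- ===== PACK-END S41/H945/HeisLift.lean

-- ===== PACK-BEGIN S41/H874/PDCuspSum.lean
section


/-!
# Row S41, block PD, leaf HEIS-U (helper874)

`cuspSumZero_of : Spec.ManinRepExistsStatement → Spec.CuspSumZeroStatement`.

If `χ : Γ → A` is represented by the Manin symbol `m` (cocycle `f` with `f S = 0`,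
`f (S T) = m|ST - m`), then `f T = m|ST - m` as well, and for `γ = h⁻¹ T ^ w h ∈ Γ`
`χ γ = f (T ^ w) (h Γ) = ∑_{j < w} (m (S T • T ^ j h Γ) - m (T ^ j h Γ))`.
Summing over a `T`-orbit system gives `∑_{x ∈ X} (m (S T • x) - m x) = 0`.
-/

set_option autoImplicit false
set_option linter.style.haveILetI false

namespace Fermat.Agent.S41.H874

open CongruenceSubgroup Matrix.SpecialLinearGroup ModularGroup
open scoped MatrixGroups

universe u

section Cocycle

variable {Γ : Subgroup SL(2, ℤ)} {A : Type*} [AddCommGroup A]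
  {f : SL(2, ℤ) → SL(2, ℤ) ⧸ Γ → A}

theorem cocycle_one_h874
    (hf : ∀ (g h : SL(2, ℤ)) (x : SL(2, ℤ) ⧸ Γ), f (g * h) x = f h x + f g (h • x))
    (x : SL(2, ℤ) ⧸ Γ) : f 1 x = 0 := by
  have := hf 1 1 x
  rw [one_mul, one_smul] at this
  exact left_eq_add.mp this

theorem cocycle_inv_h874
    (hf : ∀ (g h : SL(2, ℤ)) (x : SL(2, ℤ) ⧸ Γ), f (g * h) x = f h x + f g (h • x))
    (g : SL(2, ℤ)) (x : SL(2, ℤ) ⧸ Γ) : f g⁻¹ (g • x) = - f g x := by
  have := hf g⁻¹ g x
  rw [inv_mul_cancel, cocycle_one_h874 hf] at this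
  exact eq_neg_of_add_eq_zero_right this.symm

theorem cocycle_pow_h874
    (hf : ∀ (g h : SL(2, ℤ)) (x : SL(2, ℤ) ⧸ Γ), f (g * h) x = f h x + f g (h • x))
    (g : SL(2, ℤ)) (k : ℕ) (x : SL(2, ℤ) ⧸ Γ) :
    f (g ^ k) x = ∑ j ∈ Finset.range k, f g (g ^ j • x) := by
  induction k with
  | zero => simp [cocycle_one_h874 hf]
  | succ n ih => rw [pow_succ', hf, ih, Finset.sum_range_succ]

/-- `f T = f (S T)` for a cocycle with `f S = 0`. -/
theorem cocycle_T_h874
    (hf : ∀ (g h : SL(2, ℤ)) (x : SL(2, ℤ) ⧸ Γ), f (g * h) x = f h x + f g (h • x))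
    (hS : ∀ x : SL(2, ℤ) ⧸ Γ, f S x = 0) (x : SL(2, ℤ) ⧸ Γ) :
    f T x = f (S * T) x := by
  have h1 : T = S⁻¹ * (S * T) := by rw [inv_mul_cancel_left]
  have h2 : f S⁻¹ ((S * T) • x) = 0 := by
    have := cocycle_inv_h874 hf S (S⁻¹ • (S * T) • x)
    rw [smul_inv_smul, hS, neg_zero] at this
    exact this
  conv_lhs => rw [h1]
  rw [hf, h2, add_zero]

/-- The value of a cocycle at the base point on `h⁻¹ t h ∈ Γ`. -/
theorem cocycle_conj_h874
    (hf : ∀ (g h : SL(2, ℤ)) (x : SL(2, ℤ) ⧸ Γ), f (g * h) x = f h x + f g (h • x))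
    (h t : SL(2, ℤ)) (hmem : h⁻¹ * t * h ∈ Γ) :
    f (h⁻¹ * t * h) ((1 : SL(2, ℤ)) : SL(2, ℤ) ⧸ Γ) = f t ((h : SL(2, ℤ)) : SL(2, ℤ) ⧸ Γ) := by
  have hb : h • (((1 : SL(2, ℤ)) : SL(2, ℤ) ⧸ Γ)) = ((h : SL(2, ℤ)) : SL(2, ℤ) ⧸ Γ) := by
    rw [MulAction.Quotient.smul_mk, smul_eq_mul, mul_one]
  have ht : t • ((h : SL(2, ℤ)) : SL(2, ℤ) ⧸ Γ) = ((h : SL(2, ℤ)) : SL(2, ℤ) ⧸ Γ) := by
    rw [MulAction.Quotient.smul_mk, smul_eq_mul, QuotientGroup.eq]
    have : (t * h)⁻¹ * h = (h⁻¹ * t * h)⁻¹ := by group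
    rw [this]
    exact inv_mem hmem
  have h3 := cocycle_inv_h874 hf h (((1 : SL(2, ℤ)) : SL(2, ℤ) ⧸ Γ))
  rw [hb] at h3
  rw [mul_assoc, hf, hf, mul_smul, hb, ht, h3]
  abel

end Cocycle

/-- **HEIS-U from D1**: a torsion-trivial homomorphism sums to `0` over a `T`-orbit system. -/
theorem cuspSumZero_of (hD1 : Spec.ManinRepExistsStatement.{u}) :
    Spec.CuspSumZeroStatement.{u} := by
  intro Γ _ hneg A _ χ hχ ι _ γ h w hsys
  obtain ⟨m, f, ⟨hf, hS, hU⟩, hrep⟩ := hD1 Γ hneg A χ hχ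
  obtain ⟨_, hγ, hbij⟩ := hsys
  haveI : Finite (SL(2, ℤ) ⧸ Γ) := Subgroup.finite_quotient_of_finiteIndex
  letI : Fintype (SL(2, ℤ) ⧸ Γ) := Fintype.ofFinite _
  -- the value on each `γ i`
  have key : ∀ i, χ (Additive.ofMul (γ i)) =
      ∑ j : Fin (w i), (m ((S * T) • ((T ^ (j : ℕ) * h i : SL(2, ℤ)) : SL(2, ℤ) ⧸ Γ))
        - m ((T ^ (j : ℕ) * h i : SL(2, ℤ)) : SL(2, ℤ) ⧸ Γ)) := by
    intro i
    have hmem : (h i)⁻¹ * T ^ (w i) * h i ∈ Γ := by
      rw [← hγ i]; exact (γ i).2
    rw [hrep, hγ i, cocycle_conj_h874 hf _ _ hmem, cocycle_pow_h874 hf, Finset.sum_range]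
    refine Finset.sum_congr rfl fun j _ => ?_
    rw [cocycle_T_h874 hf hS, hU, MulAction.Quotient.smul_mk, smul_eq_mul]
  -- reindex by `X`
  have hbij' : Function.Bijective
      (fun p : (Σ i, Fin (w i)) => ((T ^ (p.2 : ℕ) * h p.1 : SL(2, ℤ)) : SL(2, ℤ) ⧸ Γ)) := by
    rw [Function.bijective_iff_existsUnique]
    intro x
    obtain ⟨p, hp, hp'⟩ := hbij x
    exact ⟨p, hp.symm, fun q hq => hp' q hq.symm⟩
  have hsum : ∑ i, χ (Additive.ofMul (γ i)) =
      ∑ x : SL(2, ℤ) ⧸ Γ, (m ((S * T) • x) - m x) := by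
    rw [← Function.Bijective.sum_comp hbij' (fun x => m ((S * T) • x) - m x),
      Fintype.sum_sigma]
    exact Finset.sum_congr rfl fun i _ => key i
  rw [hsum, Finset.sum_sub_distrib, sub_eq_zero]
  exact Fintype.sum_equiv (MulAction.toPerm (S * T)) _ _ fun x => rfl

end Fermat.Agent.S41.H874

end
-- ===== PACK-END S41/H874/PDCuspSum.lean

-- ===== PACK-BEGIN S41/H874/PDManinRep.lean
section



/-!
# Row S41, block PD, leaf DICT-a (D1) (helper874)

`maninRepExists_h874 : Spec.ManinRepExistsStatement`: every torsion-trivial homomorphism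
`φ : Γ → A` (`Γ ≤ SL(2,ℤ)`, `-1 ∈ Γ`, `A` ANY abelian group) has a Manin representative.

Proof: the induced cocycle `f₀ = indc Γ φ` (Shapiro) restricts to `φ` at the base point.  A cocycle
`f` with `f (g ^ k) x = 0` whenever `g ^ k • x = x` is a `g`-coboundary `n|g - n`
(`exists_cobd_of_fix_h874`, no finiteness, no division).  Apply this to `g = S` (normalise
`f₁ = f₀ - ∂n`, `f₁ S = 0`) and then to `g = S T` (`f₁ (S T) = m|ST - m`).
-/

set_option autoImplicit false
set_option linter.style.haveILetI false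

namespace Fermat.Agent.S41.H874

open CongruenceSubgroup Matrix.SpecialLinearGroup ModularGroup
open Fermat.Agent.S21.H585
open scoped MatrixGroups

universe u

/-- **General coboundary lemma** (any abelian coefficient group): a cocycle which vanishes at
`(g ^ k, x)` whenever `g ^ k` fixes `x` is a `g`-coboundary. -/
theorem exists_cobd_of_fix_h874 {G : Type*} [Group G] {X : Type*} [MulAction G X] {A : Type*}
    [AddCommGroup A] {f : G → X → A} (hf : IsCocycle f) (g : G)
    (hfix : ∀ (k : ℤ) (x : X), g ^ k • x = x → f (g ^ k) x = 0) :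
    ∃ n : X → A, ∀ x, f g x = n (g • x) - n x := by
  classical
  let r : X → X := fun x => Quotient.out (orbMk g x)
  have hr : ∀ x, ∃ k : ℤ, g ^ k • r x = x := fun x => by
    have h1 : orbMk g (r x) = orbMk g x := Quotient.out_eq' _
    exact (orbMk_eq_iff g x (r x)).mp h1.symm
  choose k hk using hr
  have hrg : ∀ x, r (g • x) = r x := fun x => by
    show Quotient.out (orbMk g (g • x)) = Quotient.out (orbMk g x)
    rw [orbMk_smul]
  have hwd : ∀ (y : X) (a b : ℤ), g ^ a • y = g ^ b • y → f (g ^ a) y = f (g ^ b) y := by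
    intro y a b hab
    have h1 : g ^ a = g ^ (a - b) * g ^ b := by rw [← zpow_add, sub_add_cancel]
    have h2 : g ^ (a - b) • g ^ b • y = g ^ b • y := by
      rw [← mul_smul, ← zpow_add, sub_add_cancel, hab]
    rw [h1, hf, hfix (a - b) (g ^ b • y) h2, add_zero]
  refine ⟨fun x => f (g ^ k x) (r x), fun x => ?_⟩
  show f g x = f (g ^ k (g • x)) (r (g • x)) - f (g ^ k x) (r x)
  rw [hrg]
  have h2 : f (g ^ k (g • x)) (r x) = f (g ^ (1 + k x)) (r x) := by
    apply hwd
    have h3 := hk (g • x)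
    rw [hrg] at h3
    rw [h3, zpow_one_add, mul_smul, hk]
  rw [h2, zpow_one_add, hf, hk]
  abel

section Indc

variable (Γ : Subgroup SL(2, ℤ)) {A : Type*} [AddCommGroup A]

/-- The induced cocycle is a cocycle. -/
theorem indc_isCocycle_h874 (φ : Additive Γ →+ A) : IsCocycle (indc Γ φ) := by
  intro g h x
  unfold indc
  rw [add_comm, ← map_add, ← ofMul_mul]
  refine congrArg φ (congrArg Additive.ofMul (Subtype.ext ?_))
  rw [Subgroup.coe_mul]
  simp only [mul_smul]
  group

/-- `Quotient.out` of the base point lies in `Γ`. -/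
theorem out_basePt_mem_h874 : (Quotient.out (basePt Γ) : SL(2, ℤ)) ∈ Γ := by
  have h : ((1 : SL(2, ℤ)) : SL(2, ℤ) ⧸ Γ)
      = ((Quotient.out (basePt Γ) : SL(2, ℤ)) : SL(2, ℤ) ⧸ Γ) := (QuotientGroup.out_eq' _).symm
  have h2 := QuotientGroup.eq.mp h
  rwa [inv_one, one_mul] at h2

/-- The induced cocycle restricts to `φ` at the base point. -/
theorem indc_basePt_h874 (φ : Additive Γ →+ A) (γ : Γ) :
    indc Γ φ (γ : SL(2, ℤ)) (basePt Γ) = φ (Additive.ofMul γ) := by
  unfold indc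
  have hb := out_basePt_mem_h874 Γ
  have h1 : (⟨(Quotient.out ((γ : SL(2, ℤ)) • basePt Γ) : SL(2, ℤ))⁻¹ * (γ : SL(2, ℤ))
      * Quotient.out (basePt Γ), sec_mem Γ (γ : SL(2, ℤ)) (basePt Γ)⟩ : Γ)
      = (⟨Quotient.out (basePt Γ), hb⟩ : Γ)⁻¹ * γ * ⟨Quotient.out (basePt Γ), hb⟩ := by
    apply Subtype.ext
    simp only [Subgroup.coe_mul, Subgroup.coe_inv, smul_basePt_of_mem Γ γ.2]
  rw [h1, ofMul_mul, ofMul_mul, ofMul_inv, map_add, map_add, map_neg]
  abel

/-- The induced cocycle of a torsion-trivial class vanishes at `(t, x)` when `t` is of finite order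
and fixes `x`. -/
theorem indc_eq_zero_of_fix_h874 (φ : Additive Γ →+ A)
    (hφ : ∀ γ : Γ, IsOfFinOrder γ → φ (Additive.ofMul γ) = 0) (t : SL(2, ℤ))
    (ht : IsOfFinOrder t) (x : SL(2, ℤ) ⧸ Γ) (hx : t • x = x) : indc Γ φ t x = 0 := by
  unfold indc
  apply hφ
  rw [← Submonoid.isOfFinOrder_coe]
  show IsOfFinOrder ((Quotient.out (t • x) : SL(2, ℤ))⁻¹ * t * Quotient.out x)
  rw [hx]
  have h1 : (Quotient.out x : SL(2, ℤ))⁻¹ * t * Quotient.out x
      = (MulAut.conj (Quotient.out x : SL(2, ℤ))⁻¹).toMonoidHom t := by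
    simp
  rw [h1]
  exact MonoidHom.isOfFinOrder _ ht

end Indc

theorem isOfFinOrder_S_h874 : IsOfFinOrder (S : SL(2, ℤ)) := by
  rw [isOfFinOrder_iff_pow_eq_one]
  refine ⟨4, by norm_num, ?_⟩
  have h2 : (S : SL(2, ℤ)) ^ 2 = -1 := by rw [pow_two, S_mul_S_eq_neg_one]
  calc (S : SL(2, ℤ)) ^ 4 = (S ^ 2) ^ 2 := by rw [← pow_mul]
    _ = 1 := by rw [h2]; simp

theorem isOfFinOrder_ST_h874 : IsOfFinOrder (S * T : SL(2, ℤ)) := by
  rw [isOfFinOrder_iff_pow_eq_one]
  refine ⟨6, by norm_num, ?_⟩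
  have h3 : (S * T : SL(2, ℤ)) ^ 3 = -1 := by rw [pow_succ, pow_two, ST_cube_eq_neg_one]
  calc (S * T : SL(2, ℤ)) ^ 6 = ((S * T) ^ 3) ^ 2 := by rw [← pow_mul]
    _ = 1 := by rw [h3]; simp

/-- **(D1)** every torsion-trivial class has a Manin representative. -/
theorem maninRepExists_h874 : Spec.ManinRepExistsStatement.{u} := by
  intro Γ _ _ A _ φ hφ
  have hf₀ : IsCocycle (indc Γ φ) := indc_isCocycle_h874 Γ φ
  -- normalise at `S`
  obtain ⟨n, hn⟩ := exists_cobd_of_fix_h874 hf₀ S fun k x hx =>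
    indc_eq_zero_of_fix_h874 Γ φ hφ _ isOfFinOrder_S_h874.zpow x hx
  let f₁ : SL(2, ℤ) → SL(2, ℤ) ⧸ Γ → A := fun g x => indc Γ φ g x - (n (g • x) - n x)
  have hf₁ : IsCocycle f₁ := by
    intro g h x
    show indc Γ φ (g * h) x - (n ((g * h) • x) - n x) =
      (indc Γ φ h x - (n (h • x) - n x)) + (indc Γ φ g (h • x) - (n (g • h • x) - n (h • x)))
    rw [hf₀, mul_smul]
    abel
  have hf₁fix : ∀ (t : SL(2, ℤ)), IsOfFinOrder t → ∀ x : SL(2, ℤ) ⧸ Γ, t • x = x →
      f₁ t x = 0 := by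
    intro t ht x hx
    show indc Γ φ t x - (n (t • x) - n x) = 0
    rw [indc_eq_zero_of_fix_h874 Γ φ hφ t ht x hx, hx]
    abel
  obtain ⟨m, hm⟩ := exists_cobd_of_fix_h874 hf₁ (S * T) fun k x hx =>
    hf₁fix _ isOfFinOrder_ST_h874.zpow x hx
  refine ⟨m, f₁, ⟨hf₁, fun x => ?_, hm⟩, fun γ => ?_⟩
  · show indc Γ φ S x - (n (S • x) - n x) = 0
    rw [hn]
    abel
  · show φ (Additive.ofMul γ) = indc Γ φ (γ : SL(2, ℤ)) (basePt Γ)
      - (n ((γ : SL(2, ℤ)) • basePt Γ) - n (basePt Γ))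
    rw [indc_basePt_h874, smul_basePt_of_mem Γ γ.2]
    abel

end Fermat.Agent.S41.H874

end
-- ===== PACK-END S41/H874/PDManinRep.lean

-- ===== PACK-BEGIN S41/H769/CuspOrbit.lean
section




/-!
# Row S41, block PD, leaf CUSP (helper769): CUSP-1 and CUSP-2

* `tOrbitSystemExists : Spec.TOrbitSystemExistsStatement` — `T`-orbit systems exist;
* `tOrbitCusp : Spec.TOrbitCuspStatement` — a `T`-orbit system is a cusp system (`-1 ∈ Γ`).

Reusable lemmas: `coe_conj_T_zpow` (entries of `h⁻¹ T^k h`), `isPosParabolic_conj_T_zpow_iff`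
(`h⁻¹ T^k h` positive parabolic `↔ 0 < k`), `exists_conj_of_isPosParabolic` (classification),
`eq_of_mul_T_zpow_eq`, `eq_of_conj_T_zpow_eq` (rigidity: the centraliser of `T^a` is `± ⟨T⟩`),
`IsTOrbitSystem_mem_iff_dvd` (`hᵢ⁻¹ T^k hᵢ ∈ Γ ↔ wᵢ ∣ k`), `mk_neg_eq`, `mk_T_zpow_mul_eq_iff`.
-/

set_option autoImplicit false

namespace Fermat.Agent.S41.H769

open CongruenceSubgroup Matrix.SpecialLinearGroup ModularGroup
open Fermat.Agent.S41.Spec
open scoped MatrixGroups

universe u

/-! ## Matrix lemmas -/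

theorem sl2_det_entries (h : SL(2, ℤ)) : h 0 0 * h 1 1 - h 0 1 * h 1 0 = 1 := by
  have := h.det_coe
  rwa [Matrix.det_fin_two] at this

/-- Entries of `h⁻¹ T^k h`. -/
theorem coe_conj_T_zpow (h : SL(2, ℤ)) (k : ℤ) :
    ((h⁻¹ * T ^ k * h : SL(2, ℤ)) : Matrix (Fin 2) (Fin 2) ℤ) =
      !![1 + k * h 1 0 * h 1 1, k * h 1 1 ^ 2; -(k * h 1 0 ^ 2), 1 - k * h 1 0 * h 1 1] := by
  have hdet := sl2_det_entries h
  rw [Matrix.SpecialLinearGroup.coe_mul, Matrix.SpecialLinearGroup.coe_mul, coe_T_zpow,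
    Matrix.SpecialLinearGroup.coe_inv, Matrix.adjugate_fin_two]
  ext i j
  fin_cases i <;> fin_cases j <;>
    simp [Matrix.mul_apply, Fin.sum_univ_two] <;>
    first
      | linear_combination (1 : ℤ) * hdet
      | linear_combination (-1 : ℤ) * hdet
      | ring

theorem conj_T_zpow_apply_01 (h : SL(2, ℤ)) (k : ℤ) :
    (h⁻¹ * T ^ k * h : SL(2, ℤ)) 0 1 = k * h 1 1 ^ 2 := by
  have := congrFun (congrFun (coe_conj_T_zpow h k) 0) 1
  simpa using this

theorem conj_T_zpow_apply_10 (h : SL(2, ℤ)) (k : ℤ) :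
    (h⁻¹ * T ^ k * h : SL(2, ℤ)) 1 0 = -(k * h 1 0 ^ 2) := by
  have := congrFun (congrFun (coe_conj_T_zpow h k) 1) 0
  simpa using this

theorem conj_T_zpow_trace (h : SL(2, ℤ)) (k : ℤ) :
    ((h⁻¹ * T ^ k * h : SL(2, ℤ)) : Matrix (Fin 2) (Fin 2) ℤ).trace = 2 := by
  rw [coe_conj_T_zpow, Matrix.trace_fin_two_of]
  ring

theorem T_zpow_injective : Function.Injective (fun k : ℤ => (T ^ k : SL(2, ℤ))) := by
  intro a b hab
  have h1 : ((T ^ a : SL(2, ℤ)) : Matrix (Fin 2) (Fin 2) ℤ) 0 1 =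
      ((T ^ b : SL(2, ℤ)) : Matrix (Fin 2) (Fin 2) ℤ) 0 1 := by
    simp only at hab
    rw [hab]
  simpa [coe_T_zpow] using h1

theorem conj_T_zpow_eq_one_iff (h : SL(2, ℤ)) (k : ℤ) :
    (h⁻¹ * T ^ k * h : SL(2, ℤ)) = 1 ↔ k = 0 := by
  constructor
  · intro hk
    have h1 : (T ^ k : SL(2, ℤ)) = T ^ (0 : ℤ) := by
      have : (T ^ k : SL(2, ℤ)) = h * (h⁻¹ * T ^ k * h) * h⁻¹ := by group
      rw [this, hk]; group
    exact T_zpow_injective h1
  · rintro rfl
    group

/-- `h⁻¹ T^k h` is positive parabolic iff `k > 0`. -/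
theorem isPosParabolic_conj_T_zpow_iff (h : SL(2, ℤ)) (k : ℤ) :
    IsPosParabolic (h⁻¹ * T ^ k * h) ↔ 0 < k := by
  have hdet := sl2_det_entries h
  unfold IsPosParabolic
  rw [conj_T_zpow_trace, conj_T_zpow_apply_01, conj_T_zpow_apply_10, Ne,
    conj_T_zpow_eq_one_iff]
  constructor
  · rintro ⟨h0, -, h1, h2⟩
    by_contra hk
    have hk' : k < 0 := lt_of_le_of_ne (not_lt.mp hk) h0
    have hs : h 1 1 ^ 2 = 0 := by nlinarith [sq_nonneg (h 1 1)]
    have hr : h 1 0 ^ 2 = 0 := by nlinarith [sq_nonneg (h 1 0)]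
    have hs' : h 1 1 = 0 := pow_eq_zero_iff (two_ne_zero) |>.mp hs
    have hr' : h 1 0 = 0 := pow_eq_zero_iff (two_ne_zero) |>.mp hr
    rw [hs', hr'] at hdet
    simp at hdet
  · intro hk
    refine ⟨hk.ne', rfl, ?_, ?_⟩
    · positivity
    · have : 0 ≤ k * h 1 0 ^ 2 := by positivity
      linarith

/-- Classification of positive parabolic elements. -/
theorem exists_conj_of_isPosParabolic (g : SL(2, ℤ)) (hg : IsPosParabolic g) :
    ∃ (h : SL(2, ℤ)) (k : ℤ), 0 < k ∧ g = h⁻¹ * T ^ k * h := by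
  obtain ⟨a, k, hak⟩ := Fermat.Agent.S21.H585.exists_mul_eq_mul_T_zpow g hg.2.1
  have hg' : g = (a⁻¹)⁻¹ * T ^ k * a⁻¹ := by
    rw [inv_inv, ← hak]; group
  refine ⟨a⁻¹, k, ?_, hg'⟩
  rw [← isPosParabolic_conj_T_zpow_iff a⁻¹ k, ← hg']
  exact hg

/-- Rigidity: `u T^a = T^b u`, `a ≠ 0` forces `a = b` and `u = ± T^n`. -/
theorem eq_of_mul_T_zpow_eq (u : SL(2, ℤ)) (a b : ℤ) (ha : a ≠ 0)
    (h : u * T ^ a = T ^ b * u) : a = b ∧ ∃ n : ℤ, u = T ^ n ∨ u = -T ^ n := by
  have hdet := sl2_det_entries u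
  have hm : ((u * T ^ a : SL(2, ℤ)) : Matrix (Fin 2) (Fin 2) ℤ) =
      ((T ^ b * u : SL(2, ℤ)) : Matrix (Fin 2) (Fin 2) ℤ) := by rw [h]
  rw [Matrix.SpecialLinearGroup.coe_mul, Matrix.SpecialLinearGroup.coe_mul, coe_T_zpow,
    coe_T_zpow] at hm
  have h01 := congrFun (congrFun hm 0) 1
  have h11 := congrFun (congrFun hm 1) 1
  simp [Matrix.mul_apply, Fin.sum_univ_two] at h01 h11
  have hr : u 1 0 = 0 := by
    rcases h11 with h11 | h11
    · exact h11
    · exact absurd h11 ha
  rw [hr] at hdet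
  have hps : u 0 0 * u 1 1 = 1 := by linear_combination hdet
  rcases Int.eq_one_or_neg_one_of_mul_eq_one' hps with ⟨hp, hs⟩ | ⟨hp, hs⟩
  · rw [hp, hs] at h01
    refine ⟨by linarith, u 0 1, Or.inl ?_⟩
    apply Subtype.ext
    rw [coe_T_zpow]
    ext i j
    fin_cases i <;> fin_cases j <;> simp [hp, hs, hr]
  · rw [hp, hs] at h01
    refine ⟨by linarith, -u 0 1, Or.inr ?_⟩
    apply Subtype.ext
    rw [Matrix.SpecialLinearGroup.coe_neg, coe_T_zpow]
    ext i j
    fin_cases i <;> fin_cases j <;> simp [hp, hs, hr]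

/-- Two conjugates `h⁻¹ T^a h = h'⁻¹ T^b h'` (`a ≠ 0`): `a = b` and `h' = ± T^n h`. -/
theorem eq_of_conj_T_zpow_eq (h h' : SL(2, ℤ)) (a b : ℤ) (ha : a ≠ 0)
    (he : h⁻¹ * T ^ a * h = h'⁻¹ * T ^ b * h') :
    a = b ∧ ∃ n : ℤ, h' = T ^ n * h ∨ h' = -(T ^ n * h) := by
  have hu : (h' * h⁻¹) * T ^ a = T ^ b * (h' * h⁻¹) := by
    have : T ^ a = h * (h⁻¹ * T ^ a * h) * h⁻¹ := by group
    rw [this, he]; group
  obtain ⟨hab, n, hn | hn⟩ := eq_of_mul_T_zpow_eq _ a b ha hu
  · refine ⟨hab, n, Or.inl ?_⟩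
    rw [← hn]; group
  · refine ⟨hab, n, Or.inr ?_⟩
    rw [← neg_mul, ← hn]; group

theorem conj_inv_zpow {G : Type*} [Group G] (h b : G) (n : ℤ) :
    (h⁻¹ * b * h) ^ n = h⁻¹ * b ^ n * h := by
  have := conj_zpow (a := h⁻¹) (b := b) (i := n)
  simpa using this

theorem conj_inv_pow {G : Type*} [Group G] (h b : G) (n : ℕ) :
    (h⁻¹ * b * h) ^ n = h⁻¹ * b ^ n * h := by
  have := conj_pow (a := h⁻¹) (b := b) (i := n)
  simpa using this

/-! ## Quotient lemmas -/

theorem mk_neg_eq (Γ : Subgroup SL(2, ℤ)) (hneg : (-1 : SL(2, ℤ)) ∈ Γ) (g : SL(2, ℤ)) :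
    (((-g : SL(2, ℤ)) : SL(2, ℤ)) : SL(2, ℤ) ⧸ Γ) = ((g : SL(2, ℤ)) : SL(2, ℤ) ⧸ Γ) := by
  rw [QuotientGroup.eq]
  have : (-g)⁻¹ * g = -1 := by
    rw [inv_neg, neg_mul, inv_mul_cancel]
  rw [this]
  exact hneg

theorem mk_T_zpow_mul_eq_iff (Γ : Subgroup SL(2, ℤ)) (h : SL(2, ℤ)) (a b : ℤ) :
    (((T ^ a * h : SL(2, ℤ)) : SL(2, ℤ)) : SL(2, ℤ) ⧸ Γ) = ((T ^ b * h : SL(2, ℤ)) : SL(2, ℤ) ⧸ Γ) ↔
      h⁻¹ * T ^ (b - a) * h ∈ Γ := by
  rw [QuotientGroup.eq]
  have : (T ^ a * h)⁻¹ * (T ^ b * h) = h⁻¹ * T ^ (b - a) * h := by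
    rw [zpow_sub]; group
  rw [this]


/-! ## `T`-orbit systems -/

section OrbitSystem

variable {Γ : Subgroup SL(2, ℤ)} {ι : Type} {γ : ι → Γ} {h : ι → SL(2, ℤ)} {w : ι → ℕ}

/-- (P1) the period set of `hᵢ Γ` is `wᵢ ℤ`. -/
theorem IsTOrbitSystem_mem_iff_dvd (hsys : IsTOrbitSystem Γ γ h w) (i : ι) (k : ℤ) :
    (h i)⁻¹ * T ^ k * h i ∈ Γ ↔ (w i : ℤ) ∣ k := by
  obtain ⟨hw, hγ, hX⟩ := hsys
  have hwi : (0 : ℤ) < w i := by exact_mod_cast hw i
  have hmem : ∀ n : ℤ, (h i)⁻¹ * T ^ ((w i : ℤ) * n) * h i ∈ Γ := by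
    intro n
    have h1 : (h i)⁻¹ * T ^ ((w i : ℤ) * n) * h i = ((γ i : Γ) : SL(2, ℤ)) ^ n := by
      rw [hγ i, conj_inv_zpow, zpow_mul, zpow_natCast]
    rw [h1]
    exact Γ.zpow_mem (γ i).2 n
  constructor
  · intro hk
    obtain ⟨n, j, hkd, hj0, hj1⟩ : ∃ n j : ℤ, k = (w i : ℤ) * n + j ∧ 0 ≤ j ∧ j < w i :=
      ⟨k / (w i : ℤ), k % (w i : ℤ), (Int.mul_ediv_add_emod k (w i)).symm,
        Int.emod_nonneg _ hwi.ne', Int.emod_lt_of_pos _ hwi⟩
    subst hkd
    have hjmem : (h i)⁻¹ * T ^ j * h i ∈ Γ := by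
      have h1 : (h i)⁻¹ * T ^ j * h i =
          ((h i)⁻¹ * T ^ ((w i : ℤ) * n) * h i)⁻¹ *
            ((h i)⁻¹ * T ^ ((w i : ℤ) * n + j) * h i) := by
        rw [zpow_add]
        group
      rw [h1]
      exact Γ.mul_mem (Γ.inv_mem (hmem _)) hk
    -- both `(i, 0)` and `(i, j)` represent `hᵢ Γ`
    obtain ⟨p, -, hp⟩ := hX ((h i : SL(2, ℤ)) : SL(2, ℤ) ⧸ Γ)
    have e0 := hp ⟨i, ⟨0, hw i⟩⟩ (by simp)
    have hlt : j.toNat < w i := by
      have : (j.toNat : ℤ) < w i := by rwa [Int.toNat_of_nonneg hj0]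
      exact_mod_cast this
    have e1 := hp ⟨i, ⟨j.toNat, hlt⟩⟩ (by
      show ((h i : SL(2, ℤ)) : SL(2, ℤ) ⧸ Γ) = ((T ^ j.toNat * h i : SL(2, ℤ)) : _)
      have h2 := (mk_T_zpow_mul_eq_iff Γ (h i) 0 j).2 (by simpa using hjmem)
      rw [zpow_zero, one_mul] at h2
      rw [h2, ← zpow_natCast, Int.toNat_of_nonneg hj0])
    have e2 : (⟨i, ⟨j.toNat, hlt⟩⟩ : Σ i, Fin (w i)) = ⟨i, ⟨0, hw i⟩⟩ := by
      rw [e0, e1]
    have e3 : j.toNat = 0 := by
      have := congrArg (fun p : Σ i, Fin (w i) => (p.2 : ℕ)) e2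
      simpa using this
    have e4 : j = 0 := by
      have := Int.toNat_of_nonneg hj0
      rw [e3] at this
      exact_mod_cast this.symm
    rw [e4, add_zero]
    exact dvd_mul_right _ _
  · rintro ⟨n, rfl⟩
    exact hmem n

/-- (P2) the `γᵢ` are positive parabolic. -/
theorem IsTOrbitSystem_isPosParabolic (hsys : IsTOrbitSystem Γ γ h w) (i : ι) :
    IsPosParabolic ((γ i : Γ) : SL(2, ℤ)) := by
  rw [hsys.2.1 i, ← zpow_natCast, isPosParabolic_conj_T_zpow_iff]
  exact_mod_cast hsys.1 i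

/-- (P3) the `γᵢ` are primitive. -/
theorem IsTOrbitSystem_isPrimPosParabolic (hsys : IsTOrbitSystem Γ γ h w) (i : ι) :
    IsPrimPosParabolic Γ (γ i) := by
  refine ⟨IsTOrbitSystem_isPosParabolic hsys i, fun γ' k hγ' hk => ?_⟩
  have hwi : (0 : ℤ) < w i := by exact_mod_cast hsys.1 i
  obtain ⟨g, k', hk', hg⟩ := exists_conj_of_isPosParabolic _ hγ'
  have h1 : (h i)⁻¹ * T ^ (w i : ℤ) * h i = g⁻¹ * T ^ (k' * (k : ℤ)) * g := by
    have e1 : ((γ i : Γ) : SL(2, ℤ)) = ((γ' : Γ) : SL(2, ℤ)) ^ k := by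
      rw [← hk]; rfl
    rw [zpow_natCast, ← hsys.2.1 i, e1, hg, conj_inv_pow, zpow_mul, zpow_natCast]
  obtain ⟨hab, n, hn⟩ := eq_of_conj_T_zpow_eq (h i) g _ _ hwi.ne' h1
  have h2 : ((γ' : Γ) : SL(2, ℤ)) = (h i)⁻¹ * T ^ k' * h i := by
    rw [hg]
    rcases hn with hn | hn
    · rw [hn]
      have : (T ^ n * h i)⁻¹ * T ^ k' * (T ^ n * h i) =
          (h i)⁻¹ * (T ^ (-n) * T ^ k' * T ^ n) * h i := by group
      rw [this, ← zpow_add, ← zpow_add]
      congr 2
      ring_nf
    · rw [hn, inv_neg, neg_mul, neg_mul, mul_neg, neg_neg]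
      have : (T ^ n * h i)⁻¹ * T ^ k' * (T ^ n * h i) =
          (h i)⁻¹ * (T ^ (-n) * T ^ k' * T ^ n) * h i := by group
      rw [this, ← zpow_add, ← zpow_add]
      congr 2
      ring_nf
  have h3 : (w i : ℤ) ∣ k' := by
    rw [← IsTOrbitSystem_mem_iff_dvd hsys i k', ← h2]
    exact γ'.2
  obtain ⟨m, hm⟩ := h3
  have h4 : m * (k : ℤ) = 1 := by
    have : (w i : ℤ) * (m * (k : ℤ)) = (w i : ℤ) * 1 := by
      rw [mul_one, ← mul_assoc, ← hm, ← hab]
    exact mul_left_cancel₀ hwi.ne' this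
  have hk0 : (0 : ℤ) ≤ k := by positivity
  rcases Int.eq_one_or_neg_one_of_mul_eq_one' h4 with ⟨-, hk1⟩ | ⟨-, hk1⟩
  · exact_mod_cast hk1
  · omega


/-- (P4) every primitive positive parabolic element of `Γ` is conjugate to some `γᵢ`. -/
theorem IsTOrbitSystem_exists_conj (hsys : IsTOrbitSystem Γ γ h w) (γ' : Γ)
    (hγ' : IsPrimPosParabolic Γ γ') : ∃ i, ∃ g : Γ, g * γ i * g⁻¹ = γ' := by
  obtain ⟨g, k, hk, hg⟩ := exists_conj_of_isPosParabolic _ hγ'.1
  obtain ⟨p, hp, -⟩ := hsys.2.2 ((g : SL(2, ℤ)) : SL(2, ℤ) ⧸ Γ)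
  obtain ⟨i, j⟩ := p
  -- `β = (T^j hᵢ)⁻¹ g ∈ Γ`
  have hβ : (T ^ (j : ℕ) * h i)⁻¹ * g ∈ Γ := by
    rw [← QuotientGroup.eq]
    exact hp.symm
  set β : Γ := ⟨(T ^ (j : ℕ) * h i)⁻¹ * g, hβ⟩ with hβdef
  have hgβ : g = T ^ (j : ℕ) * h i * (β : SL(2, ℤ)) := by
    rw [hβdef]; group
  -- `β γ' β⁻¹ = hᵢ⁻¹ T^k hᵢ`
  have h1 : (h i)⁻¹ * T ^ k * h i = ((β * γ' * β⁻¹ : Γ) : SL(2, ℤ)) := by
    have e1 : ((β * γ' * β⁻¹ : Γ) : SL(2, ℤ)) =
        (β : SL(2, ℤ)) * (g⁻¹ * T ^ k * g) * (β : SL(2, ℤ))⁻¹ := by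
      rw [← hg]; rfl
    rw [e1]
    conv_rhs => rw [hgβ]
    have : (β : SL(2, ℤ)) * ((T ^ (j : ℕ) * h i * (β : SL(2, ℤ)))⁻¹ * T ^ k *
        (T ^ (j : ℕ) * h i * (β : SL(2, ℤ)))) * (β : SL(2, ℤ))⁻¹ =
        (h i)⁻¹ * ((T ^ (j : ℕ))⁻¹ * T ^ k * T ^ (j : ℕ)) * h i := by group
    rw [this, ← zpow_natCast, ← zpow_neg, ← zpow_add, ← zpow_add]
    congr 2
    ring_nf
  have h2 : (w i : ℤ) ∣ k := by
    rw [← IsTOrbitSystem_mem_iff_dvd hsys i k, h1]
    exact (β * γ' * β⁻¹).2
  obtain ⟨n, hn⟩ := h2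
  have hwi : (0 : ℤ) < w i := by exact_mod_cast hsys.1 i
  have hn0 : 0 < n := by
    by_contra hcon
    have : (w i : ℤ) * n ≤ 0 := mul_nonpos_of_nonneg_of_nonpos hwi.le (not_lt.mp hcon)
    omega
  -- `β γ' β⁻¹ = γᵢ ^ n`
  have h3 : β * γ' * β⁻¹ = γ i ^ n.toNat := by
    apply Subtype.ext
    rw [← h1, hn]
    show _ = ((γ i : Γ) : SL(2, ℤ)) ^ n.toNat
    rw [hsys.2.1 i, conj_inv_pow, zpow_mul, zpow_natCast, ← zpow_natCast _ n.toNat,
      Int.toNat_of_nonneg hn0.le]
  -- primitivity of `γ'`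
  have h4 : (β⁻¹ * γ i * β) ^ n.toNat = γ' := by
    rw [conj_inv_pow, ← h3]; group
  have hpos : IsPosParabolic ((β⁻¹ * γ i * β : Γ) : SL(2, ℤ)) := by
    have e1 : ((β⁻¹ * γ i * β : Γ) : SL(2, ℤ)) =
        (h i * (β : SL(2, ℤ)))⁻¹ * T ^ (w i : ℤ) * (h i * (β : SL(2, ℤ))) := by
      show (β : SL(2, ℤ))⁻¹ * ((γ i : Γ) : SL(2, ℤ)) * (β : SL(2, ℤ)) = _
      rw [hsys.2.1 i, zpow_natCast]; group
    rw [e1, isPosParabolic_conj_T_zpow_iff]
    exact hwi
  have h5 : n.toNat = 1 := hγ'.2 _ _ hpos h4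
  refine ⟨i, β⁻¹, ?_⟩
  rw [inv_inv, ← h4, h5, pow_one]

/-- (P5) the `γᵢ` are pairwise non-conjugate (`-1 ∈ Γ`). -/
theorem IsTOrbitSystem_conj_unique (hneg : (-1 : SL(2, ℤ)) ∈ Γ) (hsys : IsTOrbitSystem Γ γ h w)
    (i i' : ι) (g : Γ) (hg : g * γ i' * g⁻¹ = γ i) : i' = i := by
  have hwi : (0 : ℤ) < w i := by exact_mod_cast hsys.1 i
  -- `hᵢ⁻¹ T^{wᵢ} hᵢ = (hᵢ' g⁻¹)⁻¹ T^{wᵢ'} (hᵢ' g⁻¹)`
  have h1 : (h i)⁻¹ * T ^ (w i : ℤ) * h i =
      (h i' * (g : SL(2, ℤ))⁻¹)⁻¹ * T ^ (w i' : ℤ) * (h i' * (g : SL(2, ℤ))⁻¹) := by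
    have e1 : ((γ i : Γ) : SL(2, ℤ)) =
        (g : SL(2, ℤ)) * ((γ i' : Γ) : SL(2, ℤ)) * (g : SL(2, ℤ))⁻¹ := by
      rw [← hg]; rfl
    rw [zpow_natCast, zpow_natCast, ← hsys.2.1 i, e1, hsys.2.1 i']
    group
  obtain ⟨-, n, hn⟩ := eq_of_conj_T_zpow_eq (h i) _ _ _ hwi.ne' h1
  -- hence `hᵢ' Γ = T^n hᵢ Γ`
  have h2 : ((h i' : SL(2, ℤ)) : SL(2, ℤ) ⧸ Γ) = ((T ^ n * h i : SL(2, ℤ)) : SL(2, ℤ) ⧸ Γ) := by
    have e1 : ((h i' : SL(2, ℤ)) : SL(2, ℤ) ⧸ Γ) =
        ((h i' * (g : SL(2, ℤ))⁻¹ : SL(2, ℤ)) : SL(2, ℤ) ⧸ Γ) := by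
      rw [QuotientGroup.eq]
      have : (h i')⁻¹ * (h i' * (g : SL(2, ℤ))⁻¹) = ((g⁻¹ : Γ) : SL(2, ℤ)) := by
        rw [inv_mul_cancel_left]; rfl
      rw [this]
      exact (g⁻¹).2
    rw [e1]
    rcases hn with hn | hn
    · rw [hn]
    · rw [hn, mk_neg_eq Γ hneg]
  -- reduce `n` modulo `wᵢ`
  have hj0 : 0 ≤ n % (w i : ℤ) := Int.emod_nonneg _ hwi.ne'
  have hj1 : n % (w i : ℤ) < w i := Int.emod_lt_of_pos _ hwi
  have h3 : ((T ^ n * h i : SL(2, ℤ)) : SL(2, ℤ) ⧸ Γ) =
      ((T ^ (n % (w i : ℤ)) * h i : SL(2, ℤ)) : SL(2, ℤ) ⧸ Γ) := by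
    rw [mk_T_zpow_mul_eq_iff, IsTOrbitSystem_mem_iff_dvd hsys]
    have : n % (w i : ℤ) - n = (w i : ℤ) * (-(n / (w i : ℤ))) := by
      have := Int.mul_ediv_add_emod n (w i)
      linarith
    rw [this]
    exact dvd_mul_right _ _
  have hlt : (n % (w i : ℤ)).toNat < w i := by
    have : ((n % (w i : ℤ)).toNat : ℤ) < w i := by rwa [Int.toNat_of_nonneg hj0]
    exact_mod_cast this
  obtain ⟨p, -, hp⟩ := hsys.2.2 ((h i' : SL(2, ℤ)) : SL(2, ℤ) ⧸ Γ)
  have e0 := hp ⟨i', ⟨0, hsys.1 i'⟩⟩ (by simp)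
  have e1 := hp ⟨i, ⟨(n % (w i : ℤ)).toNat, hlt⟩⟩ (by
    show ((h i' : SL(2, ℤ)) : SL(2, ℤ) ⧸ Γ) =
      ((T ^ (n % (w i : ℤ)).toNat * h i : SL(2, ℤ)) : _)
    rw [h2, h3, ← zpow_natCast, Int.toNat_of_nonneg hj0])
  have e2 : (⟨i', ⟨0, hsys.1 i'⟩⟩ : Σ i, Fin (w i)) = ⟨i, ⟨(n % (w i : ℤ)).toNat, hlt⟩⟩ := by
    rw [e0, e1]
  exact congrArg Sigma.fst e2

end OrbitSystem

/-- (CUSP-2) a `T`-orbit system is a cusp system. -/
theorem tOrbitCusp : TOrbitCuspStatement := by
  intro Γ _ hneg ι γ h w hsys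
  refine ⟨fun i => IsTOrbitSystem_isPrimPosParabolic hsys i, fun γ' hγ' => ?_⟩
  obtain ⟨i, g, hg⟩ := IsTOrbitSystem_exists_conj hsys γ' hγ'
  refine ⟨i, ⟨g, hg⟩, fun i' hi' => ?_⟩
  obtain ⟨g', hg'⟩ := hi'
  -- `γ i = (g⁻¹ g') γ i' (g⁻¹ g')⁻¹`
  refine IsTOrbitSystem_conj_unique hneg hsys i i' (g⁻¹ * g') ?_
  have : g' * γ i' * g'⁻¹ = g * γ i * g⁻¹ := by rw [hg, hg']
  calc g⁻¹ * g' * γ i' * (g⁻¹ * g')⁻¹ = g⁻¹ * (g' * γ i' * g'⁻¹) * g := by group
    _ = g⁻¹ * (g * γ i * g⁻¹) * g := by rw [this]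
    _ = γ i := by group


/-! ## CUSP-1 -/

/-- (CUSP-1) `T`-orbit systems exist. -/
theorem tOrbitSystemExists : TOrbitSystemExistsStatement := by
  intro Γ _
  classical
  have : Finite (SL(2, ℤ) ⧸ Γ) := Subgroup.finite_quotient_of_finiteIndex
  let X := SL(2, ℤ) ⧸ Γ
  let ι := MulAction.orbitRel.Quotient (Subgroup.zpowers (T : SL(2, ℤ))) X
  have : Finite ι := Quotient.finite _
  let xr : ι → X := fun i => Quotient.out i
  let h : ι → SL(2, ℤ) := fun i => Quotient.out (xr i)
  have hh : ∀ i, ((h i : SL(2, ℤ)) : X) = xr i := fun i => QuotientGroup.out_eq' _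
  let w : ι → ℕ := fun i => Function.minimalPeriod ((T : SL(2, ℤ)) • ·) (xr i)
  have hw : ∀ i, 0 < w i := fun i =>
    Function.minimalPeriod_pos_of_mem_periodicPts
      (Function.Injective.mem_periodicPts (MulAction.injective (T : SL(2, ℤ))) (xr i))
  -- `T^k • xr i = xr i ↔ w i ∣ k`
  have hper : ∀ (i : ι) (k : ℤ), (T : SL(2, ℤ)) ^ k • xr i = xr i ↔ (w i : ℤ) ∣ k := fun i k =>
    MulAction.zpow_smul_eq_iff_minimalPeriod_dvd
  have hsmul : ∀ (i : ι) (k : ℤ), (((T : SL(2, ℤ)) ^ k * h i : SL(2, ℤ)) : X) =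
      (T : SL(2, ℤ)) ^ k • xr i := by
    intro i k
    rw [← hh i]
    rfl
  have hmem : ∀ i, (h i)⁻¹ * T ^ (w i) * h i ∈ Γ := by
    intro i
    have h1 : (((T : SL(2, ℤ)) ^ (0 : ℤ) * h i : SL(2, ℤ)) : X) =
        (((T : SL(2, ℤ)) ^ (w i : ℤ) * h i : SL(2, ℤ)) : X) := by
      rw [hsmul, hsmul, (hper i _).2 (dvd_refl _), zpow_zero, one_smul]
    have h2 := (mk_T_zpow_mul_eq_iff Γ (h i) 0 (w i)).1 h1
    simpa using h2
  refine ⟨ι, Fintype.ofFinite ι, fun i => ⟨_, hmem i⟩, h, w, hw, fun i => rfl, fun x => ?_⟩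
  -- the orbit of `x`
  have hx : xr (Quotient.mk'' x) ∈ MulAction.orbit (Subgroup.zpowers (T : SL(2, ℤ))) x := by
    have : (Quotient.mk'' (xr (Quotient.mk'' x)) : ι) = Quotient.mk'' x := Quotient.out_eq' _
    exact MulAction.orbitRel_apply.1 (Quotient.exact' this)
  obtain ⟨⟨t, ht⟩, htx⟩ := hx
  obtain ⟨k, rfl⟩ := Subgroup.mem_zpowers_iff.1 ht
  -- `T^k • x = xr i`, so `x = T^(-k) • xr i`
  set i : ι := Quotient.mk'' x with hi
  have hx' : x = (T : SL(2, ℤ)) ^ (-k) • xr i := by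
    have : (T : SL(2, ℤ)) ^ k • x = xr i := htx
    rw [← this, smul_smul, ← zpow_add, neg_add_cancel, zpow_zero, one_smul]
  have hwi : (0 : ℤ) < w i := by exact_mod_cast hw i
  have hj0 : 0 ≤ (-k) % (w i : ℤ) := Int.emod_nonneg _ hwi.ne'
  have hj1 : (-k) % (w i : ℤ) < w i := Int.emod_lt_of_pos _ hwi
  have hlt : ((-k) % (w i : ℤ)).toNat < w i := by
    have : (((-k) % (w i : ℤ)).toNat : ℤ) < w i := by rwa [Int.toNat_of_nonneg hj0]
    exact_mod_cast this
  have hred : ∀ (a b : ℤ), (T : SL(2, ℤ)) ^ a • xr i = (T : SL(2, ℤ)) ^ b • xr i ↔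
      (w i : ℤ) ∣ a - b := by
    intro a b
    rw [← hper i (a - b)]
    constructor
    · intro hab
      rw [sub_eq_neg_add, zpow_add, ← smul_smul, hab, smul_smul, ← zpow_add, neg_add_cancel,
        zpow_zero, one_smul]
    · intro hab
      conv_lhs => rw [show a = b + (a - b) by ring, zpow_add, ← smul_smul, hab]
  refine ⟨⟨i, ⟨((-k) % (w i : ℤ)).toNat, hlt⟩⟩, ?_, ?_⟩
  · show x = (((T : SL(2, ℤ)) ^ ((-k) % (w i : ℤ)).toNat * h i : SL(2, ℤ)) : X)
    rw [← zpow_natCast, Int.toNat_of_nonneg hj0, hsmul]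
    refine hx'.trans ?_
    rw [hred]
    exact Int.dvd_self_sub_emod
  · rintro ⟨i', ⟨j', hj'⟩⟩ hp
    have hp' : x = (T : SL(2, ℤ)) ^ (j' : ℤ) • xr i' := by
      rw [← hsmul, zpow_natCast]; exact hp
    have hii : i' = i := by
      have h1 : (Quotient.mk'' (xr i') : ι) = i' := Quotient.out_eq' _
      rw [← h1, hi]
      apply Quotient.sound'
      apply MulAction.orbitRel_apply.2
      refine ⟨⟨(T : SL(2, ℤ)) ^ (-(j' : ℤ)), Subgroup.zpow_mem_zpowers _ _⟩, ?_⟩
      show (T : SL(2, ℤ)) ^ (-(j' : ℤ)) • x = xr i'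
      rw [hp', smul_smul, ← zpow_add, neg_add_cancel, zpow_zero, one_smul]
    subst hii
    have hdvd : (w i : ℤ) ∣ (j' : ℤ) - (-k) % (w i : ℤ) := by
      have h1 : (w i : ℤ) ∣ (j' : ℤ) - (-k) := by
        rw [← hred, ← hp', ← hx']
      have h2 : (w i : ℤ) ∣ (-k) - (-k) % (w i : ℤ) := Int.dvd_self_sub_emod
      have h3 := dvd_add h1 h2
      have h4 : (j' : ℤ) - (-k) + ((-k) - (-k) % (w i : ℤ)) = (j' : ℤ) - (-k) % (w i : ℤ) := by
        ring
      rwa [h4] at h3
    have hj'' : (j' : ℤ) < w i := by exact_mod_cast hj'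
    have heq : (j' : ℤ) = (-k) % (w i : ℤ) := by
      obtain ⟨c, hc⟩ := hdvd
      have hc0 : c = 0 := by
        by_contra hne
        rcases lt_or_gt_of_ne hne with hneg | hpos
        · have : (w i : ℤ) * c ≤ -(w i : ℤ) := by nlinarith
          omega
        · have : (w i : ℤ) ≤ (w i : ℤ) * c := by nlinarith
          omega
      rw [hc0, mul_zero] at hc
      omega
    have heq' : j' = ((-k) % (w i : ℤ)).toNat := by
      have := congrArg Int.toNat heq
      simpa using this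
    subst heq'
    rfl

end Fermat.Agent.S41.H769

end
-- ===== PACK-END S41/H769/CuspOrbit.lean

-- ===== PACK-BEGIN S41/H769/CuspIndep.lean
section



/-!
# Row S41, block PD, leaf CUSP (helper769): CUSP-3 and CUSP-4

* `cuspSumIndep : Spec.CuspSumIndepStatement` — sums of class functions over two cusp systems agree;
* `cuspSystemConjDelta : Spec.CuspSystemConjDeltaStatement` — `c_δ` maps cusp systems of `Γ₀(N q)` to
  cusp systems of `Γ' = δ Γ₀(N q) δ⁻¹`.

Reusable: `isCuspSystem_map_equiv` (transport of cusp systems along an isomorphism of subgroups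
preserving positive parabolic elements), `conjDeltaR_injective`, `isPosParabolic_conjDeltaR_iff`.
-/

set_option autoImplicit false

namespace Fermat.Agent.S41.H769

open CongruenceSubgroup Matrix.SpecialLinearGroup ModularGroup
open Fermat.Agent.S41.Spec
open scoped MatrixGroups

universe u

/-! ## CUSP-3 -/

/-- (CUSP-3) sums of class functions over two cusp systems agree. -/
theorem cuspSumIndep : CuspSumIndepStatement.{u} := by
  intro Γ A _ ζ hζ ι ι' _ _ γ γ' hγ hγ'
  classical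
  have hf : ∀ i : ι, ∃! i' : ι', ∃ g : Γ, g * γ' i' * g⁻¹ = γ i :=
    fun i => hγ'.2 (γ i) (hγ.1 i)
  have hf' : ∀ i' : ι', ∃! i : ι, ∃ g : Γ, g * γ i * g⁻¹ = γ' i' :=
    fun i' => hγ.2 (γ' i') (hγ'.1 i')
  choose f hf1 hf2 using hf
  choose f' hf'1 hf'2 using hf'
  have hleft : ∀ i, f' (f i) = i := by
    intro i
    obtain ⟨g₁, hg₁⟩ := hf1 i
    obtain ⟨g₂, hg₂⟩ := hf'1 (f i)
    have huniq := (hγ.2 (γ i) (hγ.1 i)).unique (y₁ := f' (f i)) (y₂ := i)
      ⟨g₁ * g₂, by rw [← hg₁, ← hg₂]; group⟩ ⟨1, by group⟩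
    exact huniq
  have hright : ∀ i', f (f' i') = i' := by
    intro i'
    obtain ⟨g₁, hg₁⟩ := hf'1 i'
    obtain ⟨g₂, hg₂⟩ := hf1 (f' i')
    have huniq := (hγ'.2 (γ' i') (hγ'.1 i')).unique (y₁ := f (f' i')) (y₂ := i')
      ⟨g₁ * g₂, by rw [← hg₁, ← hg₂]; group⟩ ⟨1, by group⟩
    exact huniq
  let e : ι ≃ ι' := ⟨f, f', hleft, hright⟩
  refine Fintype.sum_equiv e _ _ (fun i => ?_)
  obtain ⟨g, hg⟩ := hf1 i
  show ζ (γ i) = ζ (γ' (f i))
  rw [← hg]
  exact hζ g (γ' (f i)) (hγ'.1 (f i)).1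

/-! ## Transport of cusp systems along isomorphisms -/

/-- Transport of primitivity along an isomorphism preserving positive parabolic elements. -/
theorem isPrimPosParabolic_map_equiv {Γ Γ' : Subgroup SL(2, ℤ)} (e : Γ ≃* Γ')
    (hpos : ∀ γ : Γ, IsPosParabolic ((e γ : Γ') : SL(2, ℤ)) ↔ IsPosParabolic (γ : SL(2, ℤ)))
    (γ : Γ) : IsPrimPosParabolic Γ' (e γ) ↔ IsPrimPosParabolic Γ γ := by
  constructor
  · rintro ⟨h1, h2⟩
    refine ⟨(hpos γ).1 h1, fun γ' k hγ' hk => ?_⟩
    exact h2 (e γ') k ((hpos γ').2 hγ') (by rw [← map_pow, hk])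
  · rintro ⟨h1, h2⟩
    refine ⟨(hpos γ).2 h1, fun γ' k hγ' hk => ?_⟩
    refine h2 (e.symm γ') k ((hpos _).1 (by simpa using hγ')) ?_
    apply e.injective
    rw [map_pow, e.apply_symm_apply, hk]

/-- Transport of cusp systems along an isomorphism preserving positive parabolic elements. -/
theorem isCuspSystem_map_equiv {Γ Γ' : Subgroup SL(2, ℤ)} (e : Γ ≃* Γ')
    (hpos : ∀ γ : Γ, IsPosParabolic ((e γ : Γ') : SL(2, ℤ)) ↔ IsPosParabolic (γ : SL(2, ℤ)))
    {ι : Type} (γ : ι → Γ) (h : IsCuspSystem Γ γ) : IsCuspSystem Γ' (fun i => e (γ i)) := by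
  refine ⟨fun i => (isPrimPosParabolic_map_equiv e hpos (γ i)).2 (h.1 i), fun γ' hγ' => ?_⟩
  have hγ'' : IsPrimPosParabolic Γ (e.symm γ') := by
    rw [← isPrimPosParabolic_map_equiv e hpos, e.apply_symm_apply]
    exact hγ'
  obtain ⟨i, ⟨g, hg⟩, huniq⟩ := h.2 (e.symm γ') hγ''
  refine ⟨i, ⟨e g, ?_⟩, fun j hj => ?_⟩
  · show e g * e (γ i) * (e g)⁻¹ = γ'
    rw [← map_inv, ← map_mul, ← map_mul, hg, e.apply_symm_apply]
  · obtain ⟨g', hg'⟩ := hj
    refine huniq j ⟨e.symm g', ?_⟩
    apply e.injective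
    rw [map_mul, map_mul, map_inv, e.apply_symm_apply, e.apply_symm_apply]
    exact hg'

/-! ## CUSP-4 -/

theorem coe_conjDeltaR (N q : ℕ) (γ : Gamma0 (N * q)) :
    (((conjDeltaR N q γ : gamma0Delta N q) : SL(2, ℤ)) : Matrix (Fin 2) (Fin 2) ℤ) =
      conjDeltaMatrix q (γ : SL(2, ℤ)) := rfl

theorem conjDeltaR_injective (N q : ℕ) (hq : q ≠ 0) : Function.Injective (conjDeltaR N q) := by
  intro γ γ' h
  have hq' : (q : ℤ) ≠ 0 := by exact_mod_cast hq
  have hm : conjDeltaMatrix q (γ : SL(2, ℤ)) = conjDeltaMatrix q (γ' : SL(2, ℤ)) := by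
    rw [← coe_conjDeltaR, ← coe_conjDeltaR, h]
  obtain ⟨k, hk⟩ := (dvd_of_mem_gamma0_mul γ).1
  obtain ⟨k', hk'⟩ := (dvd_of_mem_gamma0_mul γ').1
  have h00 := congrFun (congrFun hm 0) 0
  have h01 := congrFun (congrFun hm 0) 1
  have h10 := congrFun (congrFun hm 1) 0
  have h11 := congrFun (congrFun hm 1) 1
  simp only [conjDeltaMatrix, Matrix.of_apply, Matrix.cons_val', Matrix.cons_val_zero,
    Matrix.cons_val_one, Matrix.cons_val_fin_one] at h00 h01 h10 h11
  rw [hk, hk', Int.mul_ediv_cancel_left _ hq', Int.mul_ediv_cancel_left _ hq'] at h10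
  apply Subtype.ext
  apply Subtype.ext
  ext i j
  fin_cases i <;> fin_cases j
  · exact h00
  · exact mul_left_cancel₀ hq' h01
  · show (γ : SL(2, ℤ)) 1 0 = (γ' : SL(2, ℤ)) 1 0
    rw [hk, hk', h10]
  · exact h11

theorem isPosParabolic_conjDeltaR_iff (N q : ℕ) (hq : q ≠ 0) (γ : Gamma0 (N * q)) :
    IsPosParabolic ((conjDeltaR N q γ : gamma0Delta N q) : SL(2, ℤ)) ↔
      IsPosParabolic (γ : SL(2, ℤ)) := by
  have hq' : (0 : ℤ) < q := by exact_mod_cast Nat.pos_of_ne_zero hq
  obtain ⟨k, hk⟩ := (dvd_of_mem_gamma0_mul γ).1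
  have hne : ((conjDeltaR N q γ : gamma0Delta N q) : SL(2, ℤ)) ≠ 1 ↔ (γ : SL(2, ℤ)) ≠ 1 := by
    rw [not_iff_not]
    constructor
    · intro h
      have h1 : conjDeltaR N q γ = 1 := Subtype.ext h
      have h2 : γ = 1 := conjDeltaR_injective N q hq (by rw [h1, map_one])
      rw [h2]; rfl
    · intro h
      have h2 : γ = 1 := Subtype.ext h
      rw [h2, map_one]; rfl
  have e00 : ((conjDeltaR N q γ : gamma0Delta N q) : SL(2, ℤ)) 0 0 = (γ : SL(2, ℤ)) 0 0 := rfl
  have e01 : ((conjDeltaR N q γ : gamma0Delta N q) : SL(2, ℤ)) 0 1 = q * (γ : SL(2, ℤ)) 0 1 := rfl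
  have e10 : ((conjDeltaR N q γ : gamma0Delta N q) : SL(2, ℤ)) 1 0 = (γ : SL(2, ℤ)) 1 0 / q := rfl
  have e11 : ((conjDeltaR N q γ : gamma0Delta N q) : SL(2, ℤ)) 1 1 = (γ : SL(2, ℤ)) 1 1 := rfl
  unfold IsPosParabolic
  rw [hne, Matrix.trace_fin_two, Matrix.trace_fin_two, e00, e01, e10, e11, hk,
    Int.mul_ediv_cancel_left _ hq'.ne']
  constructor
  · rintro ⟨h1, h2, h3, h4⟩
    exact ⟨h1, h2, le_of_mul_le_mul_left (by simpa using h3) hq', by nlinarith⟩
  · rintro ⟨h1, h2, h3, h4⟩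
    exact ⟨h1, h2, mul_nonneg hq'.le h3, by nlinarith⟩

/-- (CUSP-4) `c_δ` maps cusp systems of `Γ₀(N q)` to cusp systems of `Γ' = δ Γ₀(N q) δ⁻¹`. -/
theorem cuspSystemConjDelta : CuspSystemConjDeltaStatement := by
  intro N q _ hq ι γ hγ
  let e : Gamma0 (N * q) ≃* gamma0Delta N q :=
    MulEquiv.ofBijective (conjDeltaR N q)
      ⟨conjDeltaR_injective N q hq, MonoidHom.rangeRestrict_surjective _⟩
  exact isCuspSystem_map_equiv e (fun γ => isPosParabolic_conjDeltaR_iff N q hq γ) γ hγ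

end Fermat.Agent.S41.H769

end
-- ===== PACK-END S41/H769/CuspIndep.lean

-- ===== PACK-BEGIN S41/H581/Fun.lean
section




/-!
# Row S41, block HK, leaf FUN (helper581)

`functoriality : Spec.FunctorialityStatement` — additivity and naturality in the coefficients of
the degeneracy maps `r₁, r₂` and of the transfers `t₁, t₂`.
-/

set_option autoImplicit false

namespace Fermat.Agent.S41.H581

open Fermat.Agent.S41.Spec

universe u

/-- (HK-0) additivity and naturality in the coefficients of `r₁, r₂, t₁, t₂`. -/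
theorem functoriality : Spec.FunctorialityStatement.{u} := by
  intro N q A B _ _ π
  refine ⟨fun φ φ' => ⟨?_, ?_⟩, fun ψ ψ' => ⟨?_, ?_⟩, fun φ => ⟨?_, ?_⟩, fun ψ => ⟨?_, ?_⟩⟩
  · exact AddMonoidHom.add_comp _ _ _
  · exact AddMonoidHom.add_comp _ _ _
  · exact transferAlong_add _ _ _
  · exact transferAlong_add _ _ _
  · exact AddMonoidHom.comp_assoc _ _ _
  · exact AddMonoidHom.comp_assoc _ _ _
  · exact transferAlong_comp _ _ _
  · exact transferAlong_comp _ _ _

end Fermat.Agent.S41.H581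

end
-- ===== PACK-END S41/H581/Fun.lean

-- ===== PACK-BEGIN S41/H281/HeckeRestrict.lean
section




/-!
# S41 / block HK, leaf HR (helper281): `T_l` commutes with the degeneracy maps `r₁`, `r₂`

* `repInt_eq_mul` : distinct Hecke representatives lie in distinct left `SL(2, ℤ)`-cosets
  (`α_y = ε α_z`, `ε ∈ SL(2, ℤ)` forces `y = z`, `ε = 1`);
* `hElt_unique_int` : strong uniqueness for the Hecke relation: `α_x γ = δ α_y` with `δ ∈ SL(2, ℤ)`
  forces `y = π_γ x` and `δ = γ_x`;
* `heckeRestrict : Spec.HeckeRestrictStatement`.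
-/

set_option autoImplicit false

namespace Fermat.Agent.S41.H281

open CongruenceSubgroup Matrix.SpecialLinearGroup
open P2MW.S_ModularForm_heckeT_slash_eq_self_of_mem_Gamma0.ModularForm.HeckeSlashInvariance
open Fermat.Agent.S29.H642 Fermat.Agent.S41.Spec
open scoped MatrixGroups

variable {p : ℕ} {N : ℕ}

theorem sl_ext_entries (ε ε' : SL(2, ℤ)) (h00 : ε 0 0 = ε' 0 0) (h01 : ε 0 1 = ε' 0 1)
    (h10 : ε 1 0 = ε' 1 0) (h11 : ε 1 1 = ε' 1 1) : ε = ε' := by
  ext i j
  fin_cases i <;> fin_cases j <;> assumption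

/-- Distinct Hecke representatives lie in distinct left `SL(2, ℤ)`-cosets. -/
theorem repInt_eq_mul [Fact p.Prime] (ε : SL(2, ℤ)) (y z : OnePoint (ZMod p))
    (h : repInt p y = (ε : Matrix (Fin 2) (Fin 2) ℤ) * repInt p z) : y = z ∧ ε = 1 := by
  have hp : p.Prime := Fact.out
  have hp0 : (p : ℤ) ≠ 0 := by exact_mod_cast hp.ne_zero
  have hp1 : ¬ (p : ℤ) ∣ 1 := by
    intro hd
    have := Int.natCast_dvd_natCast.mp (by simpa using hd : ((p : ℕ) : ℤ) ∣ ((1 : ℕ) : ℤ))
    exact hp.one_lt.ne' (Nat.dvd_one.mp this)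
  have h00 := congrFun (congrFun h 0) 0
  have h01 := congrFun (congrFun h 0) 1
  have h10 := congrFun (congrFun h 1) 0
  have h11 := congrFun (congrFun h 1) 1
  induction y using OnePoint.rec with
  | infty =>
    induction z using OnePoint.rec with
    | infty =>
      simp only [repInt_infty, Matrix.mul_apply, Fin.sum_univ_two, Matrix.of_apply,
        Matrix.cons_val', Matrix.cons_val_zero, Matrix.cons_val_one, Matrix.cons_val_fin_one,
        mul_zero, mul_one, add_zero, zero_add] at h00 h01 h10 h11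
      refine ⟨rfl, sl_ext_entries _ _ ?_ ?_ ?_ ?_⟩
      · have : (ε 0 0 - 1) * (p : ℤ) = 0 := by linear_combination -h00
        have := (mul_eq_zero.mp this).resolve_right hp0
        simp only [coe_one, Matrix.one_apply_eq]; linarith
      · simp only [coe_one]; rw [← h01]; simp
      · have : (ε 1 0) * (p : ℤ) = 0 := by linear_combination -h10
        have := (mul_eq_zero.mp this).resolve_right hp0
        simp only [coe_one]; rw [this]; simp
      · simp only [coe_one, Matrix.one_apply_eq]; rw [← h11]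
    | coe j =>
      exfalso
      simp only [repInt_infty, repInt_coe, Matrix.mul_apply, Fin.sum_univ_two, Matrix.of_apply,
        Matrix.cons_val', Matrix.cons_val_zero, Matrix.cons_val_one, Matrix.cons_val_fin_one,
        mul_zero, mul_one, add_zero] at h00 h01 h10 h11
      apply hp1
      refine ⟨ε 1 1, ?_⟩
      rw [← h10] at h11
      linear_combination h11
  | coe j =>
    induction z using OnePoint.rec with
    | infty =>
      exfalso
      simp only [repInt_infty, repInt_coe, Matrix.mul_apply, Fin.sum_univ_two, Matrix.of_apply,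
        Matrix.cons_val', Matrix.cons_val_zero, Matrix.cons_val_one, Matrix.cons_val_fin_one,
        mul_zero, mul_one, add_zero] at h00 h01 h10 h11
      apply hp1
      exact ⟨ε 0 0, by linear_combination h00⟩
    | coe j' =>
      simp only [repInt_coe, Matrix.mul_apply, Fin.sum_univ_two, Matrix.of_apply,
        Matrix.cons_val', Matrix.cons_val_zero, Matrix.cons_val_one, Matrix.cons_val_fin_one,
        mul_zero, mul_one, add_zero] at h00 h01 h10 h11
      have hjj : j = j' := by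
        have hc := congrArg (Int.cast : ℤ → ZMod p) h01
        push_cast at hc
        rw [ZMod.natCast_zmod_val, ZMod.natCast_zmod_val, ← h00] at hc
        simpa using hc
      subst hjj
      refine ⟨rfl, sl_ext_entries _ _ ?_ ?_ ?_ ?_⟩
      · simp only [coe_one, Matrix.one_apply_eq]; exact h00.symm
      · have : (ε 0 1) * (p : ℤ) = 0 := by rw [← h00] at h01; linear_combination -h01
        have := (mul_eq_zero.mp this).resolve_right hp0
        simp only [coe_one]; rw [this]; simp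
      · simp only [coe_one]; rw [← h10]; simp
      · have : (ε 1 1 - 1) * (p : ℤ) = 0 := by rw [← h10] at h11; linear_combination -h11
        have := (mul_eq_zero.mp this).resolve_right hp0
        simp only [coe_one, Matrix.one_apply_eq]; linarith

/-- Strong uniqueness in the Hecke relation: `α_x γ = δ α_y` with `δ ∈ SL(2, ℤ)` forces
`y = π_γ x` and `δ = γ_x`. -/
theorem hElt_unique_int [Fact p.Prime] (hpN : ¬ p ∣ N) (γ : Gamma0 N) (x y : OnePoint (ZMod p))
    (δ : SL(2, ℤ))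
    (h : repInt p x * ((γ : SL(2, ℤ)) : Matrix (Fin 2) (Fin 2) ℤ) =
      (δ : Matrix (Fin 2) (Fin 2) ℤ) * repInt p y) :
    y = hPerm p (γ : SL(2, ℤ)) x ∧ δ = ((hElt hpN γ x : Gamma0 N) : SL(2, ℤ)) := by
  have h1 := hElt_spec_int hpN γ x
  rw [h] at h1
  have h2 : repInt p y = ((δ⁻¹ * ((hElt hpN γ x : Gamma0 N) : SL(2, ℤ)) : SL(2, ℤ)) :
      Matrix (Fin 2) (Fin 2) ℤ) * repInt p (hPerm p (γ : SL(2, ℤ)) x) := by
    rw [coe_mul, Matrix.mul_assoc, ← h1, ← Matrix.mul_assoc, ← coe_mul, inv_mul_cancel, coe_one,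
      Matrix.one_mul]
  obtain ⟨hy, hε⟩ := repInt_eq_mul _ _ _ h2
  exact ⟨hy, (inv_mul_eq_one.mp hε)⟩


/-! ## `T_l` commutes with `r₁` -/

section R1

variable {l q : ℕ}

theorem hElt_incl [Fact l.Prime] (hl : ¬ l ∣ N) (hl' : ¬ l ∣ N * q) (γ : Gamma0 (N * q))
    (x : OnePoint (ZMod l)) :
    incl N q (hElt hl' γ x) = hElt hl (incl N q γ) x := by
  apply hElt_unique
  exact hElt_spec hl' γ x

end R1

/-! ## `T_l` commutes with `r₂` -/

section R2

variable {l q : ℕ}

/-- `δ = diag(q, 1)` as an integral matrix. -/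
def dMat (q : ℕ) : Matrix (Fin 2) (Fin 2) ℤ := !![(q : ℤ), 0; 0, 1]

theorem dMat_mul_coe (γ : SL(2, ℤ)) (h : (q : ℤ) ∣ γ 1 0) :
    dMat q * (γ : Matrix (Fin 2) (Fin 2) ℤ) = conjDeltaMatrix q γ * dMat q := by
  obtain ⟨k, hk⟩ := h
  rcases eq_or_ne q 0 with rfl | hq
  · simp only [Nat.cast_zero, zero_mul] at hk
    ext i j
    fin_cases i <;> fin_cases j <;>
      simp [dMat, conjDeltaMatrix, Matrix.mul_apply, Fin.sum_univ_two, hk]
  · have hq' : (q : ℤ) ≠ 0 := by exact_mod_cast hq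
    ext i j
    fin_cases i <;> fin_cases j <;>
      simp [dMat, conjDeltaMatrix, Matrix.mul_apply, Fin.sum_univ_two, hk,
        Int.mul_ediv_cancel_left _ hq'] <;> ring

theorem mul_dMat_cancel (hq : q ≠ 0) (M M' : Matrix (Fin 2) (Fin 2) ℤ)
    (h : M * dMat q = M' * dMat q) : M = M' := by
  have hq' : (q : ℤ) ≠ 0 := by exact_mod_cast hq
  have h0 : ∀ i, M i 0 = M' i 0 := by
    intro i
    have := congrFun (congrFun h i) 0
    simp only [dMat, Matrix.mul_apply, Fin.sum_univ_two, Matrix.of_apply, Matrix.cons_val',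
      Matrix.cons_val_zero, Matrix.cons_val_one, Matrix.cons_val_fin_one, mul_zero,
      add_zero] at this
    exact mul_right_cancel₀ hq' this
  have h1 : ∀ i, M i 1 = M' i 1 := by
    intro i
    have := congrFun (congrFun h i) 1
    simpa [dMat, Matrix.mul_apply, Fin.sum_univ_two] using this
  ext i j
  fin_cases j
  · exact h0 i
  · exact h1 i

/-- The permutation `x ↦ q x` of `ℙ¹(𝔽_l)` (as a map). -/
def sigmaPt (l q : ℕ) (x : OnePoint (ZMod l)) : OnePoint (ZMod l) :=
  x.elim OnePoint.infty (fun j => (((q : ZMod l) * j : ZMod l) : OnePoint (ZMod l)))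

@[simp] theorem sigmaPt_infty : sigmaPt l q OnePoint.infty = OnePoint.infty := rfl

@[simp] theorem sigmaPt_coe (j : ZMod l) :
    sigmaPt l q (j : OnePoint (ZMod l)) = (((q : ZMod l) * j : ZMod l) : OnePoint (ZMod l)) := rfl

theorem sigmaPt_injective [Fact l.Prime] (hlq : ¬ l ∣ q) : Function.Injective (sigmaPt l q) := by
  have hq : (q : ZMod l) ≠ 0 := by
    rw [Ne, ZMod.natCast_eq_zero_iff]
    exact hlq
  intro x y hxy
  induction x using OnePoint.rec with
  | infty =>
    induction y using OnePoint.rec with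
    | infty => rfl
    | coe j => simp at hxy
  | coe j =>
    induction y using OnePoint.rec with
    | infty => simp at hxy
    | coe j' =>
      simp only [sigmaPt_coe, OnePoint.coe_eq_coe] at hxy
      rw [mul_right_inj' hq] at hxy
      rw [hxy]

/-- The permutation `x ↦ q x` of `ℙ¹(𝔽_l)`. -/
noncomputable def sigmaEquiv (l q : ℕ) [Fact l.Prime] (hlq : ¬ l ∣ q) :
    OnePoint (ZMod l) ≃ OnePoint (ZMod l) :=
  Equiv.ofBijective (sigmaPt l q) (sigmaPt_injective hlq).bijective_of_finite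

@[simp] theorem sigmaEquiv_apply [Fact l.Prime] (hlq : ¬ l ∣ q) (x : OnePoint (ZMod l)) :
    sigmaEquiv l q hlq x = sigmaPt l q x := rfl

/-- The unipotent correction `u_x` with `δ α_x = u_x α_{q x} δ`. -/
def uSL (l q : ℕ) (x : OnePoint (ZMod l)) : SL(2, ℤ) :=
  x.elim 1 (fun j => ⟨!![1, ((q * j.val / l : ℕ) : ℤ); 0, 1], by simp⟩)

@[simp] theorem uSL_infty : uSL l q OnePoint.infty = 1 := rfl

@[simp] theorem uSL_coe (j : ZMod l) :
    ((uSL l q (j : OnePoint (ZMod l)) : SL(2, ℤ)) : Matrix (Fin 2) (Fin 2) ℤ) =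
      !![1, ((q * j.val / l : ℕ) : ℤ); 0, 1] := rfl

theorem uSL_mem_Gamma0 (l q N : ℕ) (x : OnePoint (ZMod l)) : uSL l q x ∈ Gamma0 N := by
  induction x using OnePoint.rec with
  | infty => exact one_mem _
  | coe j => rw [Gamma0_mem, uSL_coe]; simp

theorem val_natCast_mul [NeZero l] (j : ZMod l) :
    (((q : ZMod l) * j : ZMod l).val : ℤ) + ((q * j.val / l : ℕ) : ℤ) * l = q * j.val := by
  have h1 : ((q : ZMod l) * j : ZMod l) = ((q * j.val : ℕ) : ZMod l) := by
    push_cast
    rw [ZMod.natCast_zmod_val]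
  rw [h1, ZMod.val_natCast]
  have := Nat.mod_add_div (q * j.val) l
  have h2 : ((q * j.val % l : ℕ) : ℤ) + (l : ℤ) * ((q * j.val / l : ℕ) : ℤ) =
      ((q * j.val : ℕ) : ℤ) := by exact_mod_cast this
  push_cast at h2 ⊢
  linear_combination h2

theorem dMat_mul_repInt [NeZero l] (x : OnePoint (ZMod l)) :
    dMat q * repInt l x =
      (uSL l q x : Matrix (Fin 2) (Fin 2) ℤ) * repInt l (sigmaPt l q x) * dMat q := by
  induction x using OnePoint.rec with
  | infty =>
    ext i j
    fin_cases i <;> fin_cases j <;>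
      simp [dMat, Matrix.mul_apply, Fin.sum_univ_two, mul_comm]
  | coe j =>
    have hv := val_natCast_mul (q := q) j
    rw [sigmaPt_coe, repInt_coe, repInt_coe, uSL_coe]
    generalize ((((q : ZMod l) * j : ZMod l).val : ℕ) : ℤ) = a at hv ⊢
    generalize (((q * j.val / l : ℕ)) : ℤ) = b at hv ⊢
    generalize ((j.val : ℕ) : ℤ) = c at hv ⊢
    ext i k
    fin_cases i <;> fin_cases k <;>
      simp [dMat, Matrix.mul_apply, Fin.sum_univ_two]
    linear_combination -hv

/-- The Hecke relation at level `N`, conjugated by `δ`. -/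
theorem hElt_conjDelta [Fact l.Prime] (hl : ¬ l ∣ N) (hl' : ¬ l ∣ N * q) (γ : Gamma0 (N * q))
    (x : OnePoint (ZMod l)) :
    sigmaPt l q (hPerm l (γ : SL(2, ℤ)) x) =
        hPerm l ((conjDelta N q γ : Gamma0 N) : SL(2, ℤ)) (sigmaPt l q x) ∧
      (uSL l q x)⁻¹ * ((conjDelta N q (hElt hl' γ x) : Gamma0 N) : SL(2, ℤ)) *
          uSL l q (hPerm l (γ : SL(2, ℤ)) x) =
        ((hElt hl (conjDelta N q γ) (sigmaPt l q x) : Gamma0 N) : SL(2, ℤ)) := by
  have hq : q ≠ 0 := by
    rintro rfl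
    exact hl' (by simp)
  apply hElt_unique_int hl (conjDelta N q γ) (sigmaPt l q x)
  -- cancel `u_x` on the left and `δ` on the right
  have key : (uSL l q x : Matrix (Fin 2) (Fin 2) ℤ) *
      (repInt l (sigmaPt l q x) * (((conjDelta N q γ : Gamma0 N) : SL(2, ℤ)) :
        Matrix (Fin 2) (Fin 2) ℤ)) =
      (((conjDelta N q (hElt hl' γ x) : Gamma0 N) : SL(2, ℤ)) : Matrix (Fin 2) (Fin 2) ℤ) *
        ((uSL l q (hPerm l (γ : SL(2, ℤ)) x) : Matrix (Fin 2) (Fin 2) ℤ) *
          repInt l (sigmaPt l q (hPerm l (γ : SL(2, ℤ)) x))) := by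
    apply mul_dMat_cancel hq
    have e1 : (((conjDelta N q γ : Gamma0 N) : SL(2, ℤ)) : Matrix (Fin 2) (Fin 2) ℤ) =
        conjDeltaMatrix q (γ : SL(2, ℤ)) := rfl
    have e2 : (((conjDelta N q (hElt hl' γ x) : Gamma0 N) : SL(2, ℤ)) :
        Matrix (Fin 2) (Fin 2) ℤ) =
        conjDeltaMatrix q ((hElt hl' γ x : Gamma0 (N * q)) : SL(2, ℤ)) := rfl
    rw [e1, e2]
    calc (uSL l q x : Matrix (Fin 2) (Fin 2) ℤ) *
          (repInt l (sigmaPt l q x) * conjDeltaMatrix q (γ : SL(2, ℤ))) * dMat q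
        = ((uSL l q x : Matrix (Fin 2) (Fin 2) ℤ) * repInt l (sigmaPt l q x)) *
            (conjDeltaMatrix q (γ : SL(2, ℤ)) * dMat q) := by
          simp only [Matrix.mul_assoc]
      _ = ((uSL l q x : Matrix (Fin 2) (Fin 2) ℤ) * repInt l (sigmaPt l q x) * dMat q) *
            ((γ : SL(2, ℤ)) : Matrix (Fin 2) (Fin 2) ℤ) := by
          rw [← dMat_mul_coe _ (dvd_of_mem_gamma0_mul γ).1]
          simp only [Matrix.mul_assoc]
      _ = dMat q * (repInt l x * ((γ : SL(2, ℤ)) : Matrix (Fin 2) (Fin 2) ℤ)) := by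
          rw [← dMat_mul_repInt, Matrix.mul_assoc]
      _ = dMat q * ((((hElt hl' γ x : Gamma0 (N * q)) : SL(2, ℤ)) : Matrix (Fin 2) (Fin 2) ℤ) *
            repInt l (hPerm l (γ : SL(2, ℤ)) x)) := by
          rw [hElt_spec_int hl' γ x]
      _ = (conjDeltaMatrix q ((hElt hl' γ x : Gamma0 (N * q)) : SL(2, ℤ)) * dMat q) *
            repInt l (hPerm l (γ : SL(2, ℤ)) x) := by
          rw [← dMat_mul_coe _ (dvd_of_mem_gamma0_mul (hElt hl' γ x)).1]
          simp only [Matrix.mul_assoc]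
      _ = conjDeltaMatrix q ((hElt hl' γ x : Gamma0 (N * q)) : SL(2, ℤ)) *
            ((uSL l q (hPerm l (γ : SL(2, ℤ)) x) : Matrix (Fin 2) (Fin 2) ℤ) *
              repInt l (sigmaPt l q (hPerm l (γ : SL(2, ℤ)) x))) * dMat q := by
          rw [Matrix.mul_assoc, dMat_mul_repInt]
          simp only [Matrix.mul_assoc]
  rw [coe_mul, coe_mul, Matrix.mul_assoc, Matrix.mul_assoc, ← key, ← Matrix.mul_assoc,
    ← coe_mul, inv_mul_cancel, coe_one, Matrix.one_mul]

end R2

/-! ## The leaf -/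

section Leaf

universe u

theorem heckeTransfer_r₁ {N q l : ℕ} [Fact l.Prime] (hl : ¬ l ∣ N) (hl' : ¬ l ∣ N * q)
    {A : Type u} [AddCommGroup A] (φ : Additive (Gamma0 N) →+ A) :
    heckeTransfer hl' (r₁ N q φ) = r₁ N q (heckeTransfer hl φ) := by
  refine AddMonoidHom.ext fun γ' => ?_
  obtain ⟨γ, rfl⟩ : ∃ γ : Gamma0 (N * q), Additive.ofMul γ = γ' := ⟨Additive.toMul γ', rfl⟩
  rw [heckeTransfer_apply]
  show _ = heckeTransfer hl φ (Additive.ofMul (incl N q γ))
  rw [heckeTransfer_apply]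
  refine Finset.sum_congr rfl fun x _ => ?_
  show φ (Additive.ofMul (incl N q (hElt hl' γ x))) = _
  rw [hElt_incl hl hl']

theorem heckeTransfer_r₂ {N q l : ℕ} [Fact l.Prime] (hl : ¬ l ∣ N) (hl' : ¬ l ∣ N * q)
    {A : Type u} [AddCommGroup A] (φ : Additive (Gamma0 N) →+ A) :
    heckeTransfer hl' (r₂ N q φ) = r₂ N q (heckeTransfer hl φ) := by
  have hlq : ¬ l ∣ q := fun h => hl' (h.mul_left N)
  refine AddMonoidHom.ext fun γ' => ?_
  obtain ⟨γ, rfl⟩ : ∃ γ : Gamma0 (N * q), Additive.ofMul γ = γ' := ⟨Additive.toMul γ', rfl⟩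
  rw [heckeTransfer_apply]
  show _ = heckeTransfer hl φ (Additive.ofMul (conjDelta N q γ))
  rw [heckeTransfer_apply]
  rw [← Equiv.sum_comp (sigmaEquiv l q hlq)
    (fun y => φ (Additive.ofMul (hElt hl (conjDelta N q γ) y)))]
  simp only [sigmaEquiv_apply]
  -- the unipotent corrections as elements of `Γ₀(N)`
  set u : OnePoint (ZMod l) → Gamma0 N := fun x => ⟨uSL l q x, uSL_mem_Gamma0 l q N x⟩ with hu
  have hx : ∀ x : OnePoint (ZMod l),
      φ (Additive.ofMul (hElt hl (conjDelta N q γ) (sigmaPt l q x))) =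
        (r₂ N q φ) (Additive.ofMul (hElt hl' γ x)) +
          φ (Additive.ofMul (u (hPerm l (γ : SL(2, ℤ)) x))) - φ (Additive.ofMul (u x)) := by
    intro x
    have h := (hElt_conjDelta hl hl' γ x).2
    have h' : hElt hl (conjDelta N q γ) (sigmaPt l q x) =
        (u x)⁻¹ * conjDelta N q (hElt hl' γ x) * u (hPerm l (γ : SL(2, ℤ)) x) := by
      apply Subtype.ext
      rw [← h]
      rfl
    rw [h', ofMul_mul, ofMul_mul, ofMul_inv, map_add, map_add, map_neg]
    show _ = φ (Additive.ofMul (conjDelta N q (hElt hl' γ x))) + _ - _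
    abel
  simp only [hx]
  rw [Finset.sum_sub_distrib, Finset.sum_add_distrib]
  have hperm : ∑ x : OnePoint (ZMod l), φ (Additive.ofMul (u (hPerm l (γ : SL(2, ℤ)) x))) =
      ∑ x : OnePoint (ZMod l), φ (Additive.ofMul (u x)) :=
    Equiv.sum_comp (hPerm l (γ : SL(2, ℤ))) (fun y => φ (Additive.ofMul (u y)))
  rw [hperm, add_sub_cancel_right]

/-- **Leaf HR** of block HK: `T_l` commutes with the degeneracy maps `r₁`, `r₂`. -/
theorem heckeRestrict : HeckeRestrictStatement.{u} := by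
  intro N q l _ hl hl' A _ φ
  exact ⟨heckeTransfer_r₁ hl hl' φ, heckeTransfer_r₂ hl hl' φ⟩

end Leaf

end Fermat.Agent.S41.H281

end
-- ===== PACK-END S41/H281/HeckeRestrict.lean

-- ===== PACK-BEGIN S41/H41/GlueBasic.lean
section




/-!
# S41 GLUE, part 1 (helper41): reduction mod `p`, divisibility, linear structure of the operators
-/

set_option autoImplicit false

namespace Fermat.Agent.S41.H41

open CongruenceSubgroup Fermat.Agent.S29.H642 Fermat.Agent.S41.Spec
open scoped MatrixGroups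

section Red

variable {n : ℕ}

/-- Reduction of coefficients mod `p`. -/
def red (p : ℕ) (φ : Additive (Gamma0 n) →+ ℤ) : Additive (Gamma0 n) →+ ZMod p :=
  (Int.castAddHom (ZMod p)).comp φ

/-- Extension of coefficients to `ℂ`. -/
def toC (φ : Additive (Gamma0 n) →+ ℤ) : Additive (Gamma0 n) →+ ℂ :=
  (Int.castAddHom ℂ).comp φ

@[simp] theorem red_apply (p : ℕ) (φ : Additive (Gamma0 n) →+ ℤ) (γ : Additive (Gamma0 n)) :
    red p φ γ = ((φ γ : ℤ) : ZMod p) := rfl

@[simp] theorem toC_apply (φ : Additive (Gamma0 n) →+ ℤ) (γ : Additive (Gamma0 n)) :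
    toC φ γ = ((φ γ : ℤ) : ℂ) := rfl

theorem red_add (p : ℕ) (φ ψ : Additive (Gamma0 n) →+ ℤ) : red p (φ + ψ) = red p φ + red p ψ := by
  ext γ; simp

theorem red_sub (p : ℕ) (φ ψ : Additive (Gamma0 n) →+ ℤ) : red p (φ - ψ) = red p φ - red p ψ := by
  ext γ; simp

theorem red_zsmul (p : ℕ) (c : ℤ) (φ : Additive (Gamma0 n) →+ ℤ) :
    red p (c • φ) = (c : ZMod p) • red p φ := by
  ext γ; simp

theorem red_p_smul (p : ℕ) (φ : Additive (Gamma0 n) →+ ℤ) : red p ((p : ℤ) • φ) = 0 := by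
  ext γ; simp

theorem toC_add (φ ψ : Additive (Gamma0 n) →+ ℤ) : toC (φ + ψ) = toC φ + toC ψ := by
  ext γ; simp

theorem toC_zsmul (c : ℤ) (φ : Additive (Gamma0 n) →+ ℤ) : toC (c • φ) = c • toC φ := by
  ext γ; simp

theorem toC_injective : Function.Injective (toC : (Additive (Gamma0 n) →+ ℤ) → _) := by
  intro φ ψ h
  refine AddMonoidHom.ext fun γ => ?_
  have := DFunLike.congr_fun h γ
  rw [toC_apply, toC_apply] at this
  exact_mod_cast this

theorem isCuspidal_comp {A B : Type*} [AddCommGroup A] [AddCommGroup B] (π : A →+ B)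
    {φ : Additive (Gamma0 n) →+ A} (h : IsCuspidal φ) : IsCuspidal (π.comp φ) := by
  refine ⟨fun γ hγ => ?_, fun γ hγ => ?_⟩
  · show π (φ (Additive.ofMul γ)) = 0
    rw [h.1 γ hγ, map_zero]
  · show π (φ (Additive.ofMul γ)) = 0
    rw [h.2 γ hγ, map_zero]

theorem isCuspidal_red (p : ℕ) {φ : Additive (Gamma0 n) →+ ℤ} (h : IsCuspidal φ) :
    IsCuspidal (red p φ) := isCuspidal_comp _ h

theorem isCuspidal_toC {φ : Additive (Gamma0 n) →+ ℤ} (h : IsCuspidal φ) :
    IsCuspidal (toC φ) := isCuspidal_comp _ h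

theorem isCuspidal_zero {A : Type*} [AddCommGroup A] :
    IsCuspidal (0 : Additive (Gamma0 n) →+ A) := ⟨fun _ _ => rfl, fun _ _ => rfl⟩

theorem isCuspidal_add {A : Type*} [AddCommGroup A] {φ ψ : Additive (Gamma0 n) →+ A}
    (h : IsCuspidal φ) (h' : IsCuspidal ψ) : IsCuspidal (φ + ψ) := by
  refine ⟨fun γ hγ => ?_, fun γ hγ => ?_⟩
  · show φ (Additive.ofMul γ) + ψ (Additive.ofMul γ) = 0
    rw [h.1 γ hγ, h'.1 γ hγ, add_zero]
  · show φ (Additive.ofMul γ) + ψ (Additive.ofMul γ) = 0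
    rw [h.2 γ hγ, h'.2 γ hγ, add_zero]

/-- A class with values divisible by `p` is `p` times a class. -/
theorem exists_eq_smul_of_dvd {p : ℕ} (hp : p ≠ 0) (φ : Additive (Gamma0 n) →+ ℤ)
    (h : ∀ γ, (p : ℤ) ∣ φ γ) :
    ∃ z : Additive (Gamma0 n) →+ ℤ, φ = (p : ℤ) • z ∧ (IsCuspidal φ → IsCuspidal z) := by
  have hp' : (p : ℤ) ≠ 0 := by exact_mod_cast hp
  refine ⟨⟨⟨fun γ => φ γ / (p : ℤ), by simp⟩, fun γ δ => ?_⟩, ?_, ?_⟩
  · show φ (γ + δ) / (p : ℤ) = φ γ / (p : ℤ) + φ δ / (p : ℤ)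
    rw [map_add, Int.add_ediv_of_dvd_left (h γ)]
  · ext γ
    show φ γ = (p : ℤ) • (φ γ / (p : ℤ))
    rw [smul_eq_mul, Int.mul_ediv_cancel' (h γ)]
  · intro hc
    refine ⟨fun γ hγ => ?_, fun γ hγ => ?_⟩
    · show φ (Additive.ofMul γ) / (p : ℤ) = 0
      rw [hc.1 γ hγ, Int.zero_ediv]
    · show φ (Additive.ofMul γ) / (p : ℤ) = 0
      rw [hc.2 γ hγ, Int.zero_ediv]

theorem exists_eq_smul_of_red_eq_zero {p : ℕ} (hp : p ≠ 0) (φ : Additive (Gamma0 n) →+ ℤ)
    (h : red p φ = 0) :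
    ∃ z : Additive (Gamma0 n) →+ ℤ, φ = (p : ℤ) • z ∧ (IsCuspidal φ → IsCuspidal z) := by
  apply exists_eq_smul_of_dvd hp
  intro γ
  have := DFunLike.congr_fun h γ
  rw [red_apply, AddMonoidHom.zero_apply] at this
  exact (ZMod.intCast_zmod_eq_zero_iff_dvd _ _).mp this

theorem smul_left_injective_int {p : ℕ} (hp : p ≠ 0) {φ ψ : Additive (Gamma0 n) →+ ℤ}
    (h : (p : ℤ) • φ = (p : ℤ) • ψ) : φ = ψ := by
  refine AddMonoidHom.ext fun γ => ?_
  have := DFunLike.congr_fun h γ
  change (p : ℤ) • φ γ = (p : ℤ) • ψ γ at this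
  rw [smul_eq_mul, smul_eq_mul] at this
  exact mul_left_cancel₀ (by exact_mod_cast hp) this

end Red

section Hecke

variable {N l : ℕ} [Fact l.Prime] {A : Type*} [AddCommGroup A]

theorem heckeTransfer_zero (hl : ¬ l ∣ N) :
    heckeTransfer hl (0 : Additive (Gamma0 N) →+ A) = 0 := by
  have h := heckeTransfer_add hl (0 : Additive (Gamma0 N) →+ A) 0
  rw [add_zero] at h
  exact left_eq_add.mp h

/-- `T_l` as an additive map. -/
noncomputable def heckeAdd (hl : ¬ l ∣ N) (A : Type*) [AddCommGroup A] :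
    (Additive (Gamma0 N) →+ A) →+ (Additive (Gamma0 N) →+ A) :=
  AddMonoidHom.mk' (heckeTransfer hl) (heckeTransfer_add hl)

@[simp] theorem heckeAdd_apply (hl : ¬ l ∣ N) (φ : Additive (Gamma0 N) →+ A) :
    heckeAdd hl A φ = heckeTransfer hl φ := rfl

theorem heckeTransfer_zsmul (hl : ¬ l ∣ N) (c : ℤ) (φ : Additive (Gamma0 N) →+ A) :
    heckeTransfer hl (c • φ) = c • heckeTransfer hl φ :=
  map_zsmul (heckeAdd hl A) c φ

theorem heckeTransfer_sub (hl : ¬ l ∣ N) (φ ψ : Additive (Gamma0 N) →+ A) :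
    heckeTransfer hl (φ - ψ) = heckeTransfer hl φ - heckeTransfer hl ψ :=
  map_sub (heckeAdd hl A) φ ψ

theorem heckeTransfer_red (hl : ¬ l ∣ N) (p : ℕ) (φ : Additive (Gamma0 N) →+ ℤ) :
    heckeTransfer hl (red p φ) = red p (heckeTransfer hl φ) :=
  heckeTransfer_comp hl _ φ

theorem heckeTransfer_toC (hl : ¬ l ∣ N) (φ : Additive (Gamma0 N) →+ ℤ) :
    heckeTransfer hl (toC φ) = toC (heckeTransfer hl φ) :=
  heckeTransfer_comp hl _ φ

theorem heckeTransfer_smul_field {F : Type*} [Field F] (hl : ¬ l ∣ N) (c : F)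
    (φ : Additive (Gamma0 N) →+ F) :
    heckeTransfer hl (c • φ) = c • heckeTransfer hl φ := by
  have h := heckeTransfer_comp hl (AddMonoidHom.mulLeft c) φ
  have e1 : (AddMonoidHom.mulLeft c).comp φ = c • φ := by ext γ; simp
  have e2 : (AddMonoidHom.mulLeft c).comp (heckeTransfer hl φ) = c • heckeTransfer hl φ := by
    ext γ; simp
  rw [e1, e2] at h
  exact h

/-- `T_l` as a `ℂ`-linear endomorphism. -/
noncomputable def heckeLinC (hl : ¬ l ∣ N) :
    Module.End ℂ (Additive (Gamma0 N) →+ ℂ) where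
  toFun := heckeTransfer hl
  map_add' := heckeTransfer_add hl
  map_smul' c φ := heckeTransfer_smul_field hl c φ

@[simp] theorem heckeLinC_apply (hl : ¬ l ∣ N) (φ : Additive (Gamma0 N) →+ ℂ) :
    heckeLinC hl φ = heckeTransfer hl φ := rfl

end Hecke

end Fermat.Agent.S41.H41

end
-- ===== PACK-END S41/H41/GlueBasic.lean

-- ===== PACK-BEGIN S41/H581/PDDictB.lean
section




/-!
# Row S41, block PD, leaves DICT-b (helper581)

* `maninRepRealize : Spec.ManinRepRealizeStatement` (D3): every Manin symbol represents a class;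
* `maninRepTorsion_of : Spec.TorsionClassStatement → Spec.ManinRepTorsionStatement` (D3'):
  represented classes kill the elements of finite order;
* `maninRepParabolic : Spec.ManinRepParabolicStatement` (D4): `φ` is parabolic iff `m` admits
  parabolic data.

Everything is cocycle algebra on `X = SL(2,ℤ) ⧸ Γ` (`Fermat.Agent.S21.H585`).
-/

set_option autoImplicit false

namespace Fermat.Agent.S41.H581

open CongruenceSubgroup Matrix.SpecialLinearGroup ModularCurve.Period ModularGroup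
open Fermat.Agent.S41.Spec Fermat.Agent.S21.H585
open scoped MatrixGroups

universe u

section Basic

variable {Γ : Subgroup SL(2, ℤ)} {A : Type*} [AddCommGroup A]

theorem isManinCocycle_isCocycle {f : SL(2, ℤ) → SL(2, ℤ) ⧸ Γ → A} {m : SL(2, ℤ) ⧸ Γ → A}
    (hf : IsManinCocycle Γ f m) : IsCocycle f := hf.1

theorem smul_basePt_eq_iff (g : SL(2, ℤ)) : g • basePt Γ = basePt Γ ↔ g ∈ Γ := by
  rw [smul_basePt_eq, basePt, QuotientGroup.eq, mul_one, inv_mem_iff]

/-- `ST` cubed acts trivially on `X` when `-1 ∈ Γ`. -/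
theorem ST_cube_smul (hneg : (-1 : SL(2, ℤ)) ∈ Γ) (x : SL(2, ℤ) ⧸ Γ) :
    (S * T) • (S * T) • (S * T) • x = x := by
  rw [smul_smul, smul_smul, ST_cube_eq_neg_one, neg_one_smul_quot hneg]

theorem S_sq_smul (hneg : (-1 : SL(2, ℤ)) ∈ Γ) (x : SL(2, ℤ) ⧸ Γ) : S • S • x = x := by
  rw [smul_smul, S_mul_S_eq_neg_one, neg_one_smul_quot hneg]

/-- For a normalised cocycle, `f (-1) = 0`. -/
theorem maninCocycle_neg_one {f : SL(2, ℤ) → SL(2, ℤ) ⧸ Γ → A} {m : SL(2, ℤ) ⧸ Γ → A}
    (hf : IsManinCocycle Γ f m) (x : SL(2, ℤ) ⧸ Γ) : f (-1) x = 0 := by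
  rw [← S_mul_S_eq_neg_one, hf.1, hf.2.1, hf.2.1, add_zero]

/-- For a normalised cocycle, `f (-g) = f g`. -/
theorem maninCocycle_neg {f : SL(2, ℤ) → SL(2, ℤ) ⧸ Γ → A} {m : SL(2, ℤ) ⧸ Γ → A}
    (hf : IsManinCocycle Γ f m) (g : SL(2, ℤ)) (x : SL(2, ℤ) ⧸ Γ) : f (-g) x = f g x := by
  have h : (-g : SL(2, ℤ)) = (-1) * g := by simp
  rw [h, hf.1, maninCocycle_neg_one hf, add_zero]

/-- For a normalised cocycle, `f T = f (S T)`. -/
theorem maninCocycle_T {f : SL(2, ℤ) → SL(2, ℤ) ⧸ Γ → A} {m : SL(2, ℤ) ⧸ Γ → A}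
    (hf : IsManinCocycle Γ f m) (x : SL(2, ℤ) ⧸ Γ) : f T x = m ((S * T) • x) - m x := by
  have h1 : T = S⁻¹ * (S * T) := by rw [inv_mul_cancel_left]
  have hc : IsCocycle f := hf.1
  conv_lhs => rw [h1]
  rw [hf.1, hc.map_inv', hf.2.1, hf.2.2, neg_zero, add_zero]

/-- Transport of a value of the class along a conjugation. -/
theorem maninRep_conj {φ : Additive Γ →+ A} {f : SL(2, ℤ) → SL(2, ℤ) ⧸ Γ → A}
    (hf : IsCocycle f)
    (hφ : ∀ γ : Γ, φ (Additive.ofMul γ) = f (γ : SL(2, ℤ)) ((1 : SL(2, ℤ)) : SL(2, ℤ) ⧸ Γ))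
    (γ : Γ) (h t : SL(2, ℤ)) (ht : h * (γ : SL(2, ℤ)) * h⁻¹ = t) :
    φ (Additive.ofMul γ) = f t (h • basePt Γ) ∧ t • (h • basePt Γ) = h • basePt Γ := by
  have hγ : (γ : SL(2, ℤ)) = h⁻¹ * t * h⁻¹⁻¹ := by
    rw [← ht]; group
  have hfix : (h⁻¹ * t * h⁻¹⁻¹) • basePt Γ = basePt Γ := by
    rw [← hγ]; exact smul_basePt_of_mem Γ γ.2
  refine ⟨?_, ?_⟩
  · rw [hφ γ]
    show f (γ : SL(2, ℤ)) (basePt Γ) = _
    rw [hγ, hf.conj_apply h⁻¹ t hfix, inv_inv]
  · rw [← ht, ← mul_smul, inv_mul_cancel_right, mul_smul, smul_basePt_of_mem Γ γ.2]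

end Basic

/-- (D3) every Manin symbol represents a class. -/
theorem maninRepRealize : Spec.ManinRepRealizeStatement.{u} := by
  intro Γ _ hneg A _ m
  have hn := neg_one_smul_quot hneg
  obtain ⟨f, hf, hfS, hfU⟩ := exists_cocycle (X := SL(2, ℤ) ⧸ Γ) hn (0 : SL(2, ℤ) ⧸ Γ → A)
    (fun x => m ((S * T) • x) - m x) (fun x => by simp)
    (fun x => by
      rw [ST_cube_smul hneg]
      abel)
  refine ⟨homOfCocycle Γ f hf, f, ⟨hf, fun x => by rw [hfS]; rfl, fun x => by rw [hfU]⟩,
    fun γ => rfl⟩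

/-- (D3') represented classes are torsion-trivial, given the classification of torsion. -/
theorem maninRepTorsion_of (tors : Spec.TorsionClassStatement) :
    Spec.ManinRepTorsionStatement.{u} := by
  intro Γ _ hneg A _ φ m hrep γ hγ
  obtain ⟨f, hf, hφ⟩ := hrep
  have hc : IsCocycle f := hf.1
  have hn := neg_one_smul_quot hneg
  have hγ' : IsOfFinOrder (γ : SL(2, ℤ)) := Γ.subtype.isOfFinOrder hγ
  obtain ⟨h, ht⟩ := tors (γ : SL(2, ℤ)) hγ'
  -- values of `f` on the eight torsion elements at a fixed point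
  have hU : ∀ y : SL(2, ℤ) ⧸ Γ, (S * T) • y = y → f (S * T) y = 0 := by
    intro y hy
    rw [hf.2.2, hy, sub_self]
  have hU2 : ∀ y : SL(2, ℤ) ⧸ Γ, (S * T) ^ 2 • y = y → f ((S * T) ^ 2) y = 0 := by
    intro y hy
    rw [pow_two] at hy ⊢
    rw [hf.1, hf.2.2, hf.2.2, ← mul_smul, hy]
    abel
  have hnegsmul : ∀ (g : SL(2, ℤ)) (y : SL(2, ℤ) ⧸ Γ), (-g) • y = g • y := by
    intro g y
    have h1 : (-g : SL(2, ℤ)) = (-1) * g := by simp
    rw [h1, mul_smul, hn]
  rcases ht with ht | ht | ht | ht | ht | ht | ht | ht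
  · rw [(maninRep_conj hc hφ γ h _ ht).1, hc.map_one]
  · rw [(maninRep_conj hc hφ γ h _ ht).1, maninCocycle_neg_one hf]
  · rw [(maninRep_conj hc hφ γ h _ ht).1, hf.2.1]
  · rw [(maninRep_conj hc hφ γ h _ ht).1, maninCocycle_neg hf, hf.2.1]
  · obtain ⟨h1, h2⟩ := maninRep_conj hc hφ γ h _ ht
    rw [h1, hU _ h2]
  · obtain ⟨h1, h2⟩ := maninRep_conj hc hφ γ h _ ht
    rw [h1, maninCocycle_neg hf, hU _ (by rw [← hnegsmul]; exact h2)]
  · obtain ⟨h1, h2⟩ := maninRep_conj hc hφ γ h _ ht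
    rw [h1, hU2 _ h2]
  · obtain ⟨h1, h2⟩ := maninRep_conj hc hφ γ h _ ht
    rw [h1, maninCocycle_neg hf, hU2 _ (by rw [← hnegsmul]; exact h2)]

section Parabolic

variable {Γ : Subgroup SL(2, ℤ)} {A : Type*} [AddCommGroup A]

theorem trace_T_zpow (k : ℤ) : ((T ^ k : SL(2, ℤ)) : Matrix (Fin 2) (Fin 2) ℤ).trace = 2 := by
  rw [coe_T_zpow, Matrix.trace_fin_two_of]
  norm_num

theorem trace_conj_sl' (t x : SL(2, ℤ)) :
    ((t * x * t⁻¹ : SL(2, ℤ)) : Matrix (Fin 2) (Fin 2) ℤ).trace =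
      (x : Matrix (Fin 2) (Fin 2) ℤ).trace := by
  rw [mul_assoc, Matrix.SpecialLinearGroup.coe_mul, Matrix.trace_mul_comm,
    ← Matrix.SpecialLinearGroup.coe_mul, mul_assoc, inv_mul_cancel, mul_one]

/-- If `φ` is parabolic, the cocycle vanishes on `T ^ k` at the fixed points of `T ^ k`. -/
theorem cocycle_T_zpow_fixed {φ : Additive Γ →+ A} {f : SL(2, ℤ) → SL(2, ℤ) ⧸ Γ → A}
    (hf : IsCocycle f)
    (hφ : ∀ γ : Γ, φ (Additive.ofMul γ) = f (γ : SL(2, ℤ)) ((1 : SL(2, ℤ)) : SL(2, ℤ) ⧸ Γ))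
    (hpar : IsParabolicHom Γ φ) (k : ℤ) (y : SL(2, ℤ) ⧸ Γ) (hy : T ^ k • y = y) :
    f (T ^ k) y = 0 := by
  set g : SL(2, ℤ) := Quotient.out y with hg
  have hgy : g • basePt Γ = y := out_smul_basePt Γ y
  have hmem : g⁻¹ * T ^ k * g ∈ Γ := by
    rw [← smul_basePt_eq_iff, mul_smul, mul_smul, hgy, hy, ← hgy, inv_smul_smul]
  have h1 := maninRep_conj hf hφ ⟨g⁻¹ * T ^ k * g, hmem⟩ g (T ^ k) (by
    show g * (g⁻¹ * T ^ k * g) * g⁻¹ = T ^ k
    group)
  rw [hgy] at h1
  rw [← h1.1]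
  apply hpar
  show ((g⁻¹ * T ^ k * g : SL(2, ℤ)) : Matrix (Fin 2) (Fin 2) ℤ).trace ^ 2 = 4
  have h2 := trace_conj_sl' g⁻¹ (T ^ k)
  rw [inv_inv] at h2
  rw [h2, trace_T_zpow]
  norm_num

end Parabolic

/-- (D4) `φ` is parabolic iff `m` admits parabolic data. -/
theorem maninRepParabolic : Spec.ManinRepParabolicStatement.{u} := by
  intro Γ _ hneg A _ φ m hrep
  obtain ⟨f, hf, hφ⟩ := hrep
  have hc : IsCocycle f := hf.1
  have hn := neg_one_smul_quot hneg
  have hfT := maninCocycle_T hf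
  constructor
  · -- parabolic ⇒ parabolic data
    intro hpar
    have hfix := cocycle_T_zpow_fixed hc hφ hpar
    -- orbit representatives
    have hex : ∀ x : SL(2, ℤ) ⧸ Γ, ∃ k : ℤ, T ^ k • Quotient.out (orbMk T x) = x := by
      intro x
      have h1 : orbMk T (Quotient.out (orbMk T x)) = orbMk T x := Quotient.out_eq' _
      obtain ⟨k, hk⟩ := (orbMk_eq_iff T _ _).mp h1
      refine ⟨-k, ?_⟩
      rw [← hk, ← mul_smul, ← zpow_add, neg_add_cancel, zpow_zero, one_smul]
    choose k hk using hex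
    refine ⟨fun x => f (T ^ k x) (Quotient.out (orbMk T x)), fun x => ?_⟩
    show f (T ^ k (T • x)) (Quotient.out (orbMk T (T • x))) -
      f (T ^ k x) (Quotient.out (orbMk T x)) = m ((S * T) • x) - m x
    rw [← hfT x]
    have hr : orbMk T (T • x) = orbMk T x := orbMk_smul T x
    rw [hr]
    set r := Quotient.out (orbMk T x) with hrdef
    have h1 : T ^ k (T • x) • r = T • x := by
      have := hk (T • x)
      rwa [hr] at this
    have h2 : T ^ k x • r = x := hk x
    -- `T ^ (k' - k - 1)` fixes `T • x`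
    have e1 : (T * T ^ k x) • r = T • x := by rw [mul_smul, h2]
    have e2 : T ^ k (T • x) = T ^ (k (T • x) - (k x + 1)) * (T * T ^ k x) := by
      rw [← zpow_one_add, ← zpow_add]
      congr 1
      ring
    have h3 : T ^ (k (T • x) - (k x + 1)) • (T • x) = T • x := by
      have e3 := h1
      rw [e2, mul_smul, e1] at e3
      exact e3
    have h4 := hfix _ _ h3
    have h5 : f (T ^ k (T • x)) r = f (T ^ k x) r + f T x := by
      rw [e2, hc, e1, h4, add_zero, hc, h2]
    rw [h5]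
    abel
  · -- parabolic data ⇒ parabolic
    rintro ⟨e, he⟩
    have hT : ∀ x, f T x = e (T • x) - e x := fun x => by rw [hfT, he]
    have hzpow := hc.zpow_of_cobd T e hT
    intro γ hγ
    have key : ∀ (g : SL(2, ℤ)) (k : ℤ), (g * T ^ k * g⁻¹) • basePt Γ = basePt Γ →
        f (g * T ^ k * g⁻¹) (basePt Γ) = 0 := by
      intro g k hfix
      rw [hc.conj_apply g (T ^ k) hfix, hzpow]
      have h1 : T ^ k • g⁻¹ • basePt Γ = g⁻¹ • basePt Γ := by
        calc T ^ k • g⁻¹ • basePt Γ = g⁻¹ • (g * T ^ k * g⁻¹) • basePt Γ := by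
              simp only [mul_smul, inv_smul_smul]
          _ = g⁻¹ • basePt Γ := by rw [hfix]
      rw [h1, sub_self]
    rw [hφ γ]
    show f (γ : SL(2, ℤ)) (basePt Γ) = 0
    obtain ⟨g, k, h | h⟩ := exists_conj_T_zpow (γ : SL(2, ℤ)) hγ
    · rw [h]
      apply key
      rw [← h]
      exact smul_basePt_of_mem Γ γ.2
    · have h2 : (g * T ^ k * g⁻¹) • basePt Γ = basePt Γ := by
        have h3 : g * T ^ k * g⁻¹ = (-1) * (γ : SL(2, ℤ)) := by
          rw [h]; simp
        rw [h3, mul_smul, smul_basePt_of_mem Γ γ.2, hn]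
      rw [h, maninCocycle_neg hf]
      exact key g k h2

end Fermat.Agent.S41.H581

end
-- ===== PACK-END S41/H581/PDDictB.lean

-- ===== PACK-BEGIN S41/H683/PDTr.lean
section




/-!
# Row S41, block PD, leaf TR (helper683): the four `Spec/PD.lean` statements

* `transferAlongEquiv : Spec.TransferAlongEquivStatement` (TR-4)
* `maninRepRes        : Spec.ManinRepResStatement`        (TR-1)
* `maninRepCores      : Spec.ManinRepCoresStatement`      (TR-2)
* `maninFormAdjoint   : Spec.ManinFormAdjointStatement`   (TR-3)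

Thin wrappers around the `Spec`-independent cores of `H683/PDTrCore.lean`
(`Spec/PD.lean` v3, built on `Spec/HK.lean`).
-/

set_option autoImplicit false

namespace Fermat.Agent.S41.H683

open Matrix.SpecialLinearGroup ModularGroup
open scoped MatrixGroups

universe u

theorem trf_eq_trfH {G H : Type*} [Group G] [Group H] {A : Type*} [AddCommGroup A]
    (ι : H →* G) (ψ : Additive H →+ A) : Spec.transferAlong ι ψ = trfH ι ψ := rfl

/-- **TR-4**. -/
theorem transferAlongEquiv : Spec.TransferAlongEquivStatement.{u} := by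
  intro H H' G _ _ _ e f' A _ ψ
  rw [trf_eq_trfH, trf_eq_trfH]
  exact trfH_comp_equiv e f' ψ

/-- **TR-1**. -/
theorem maninRepRes : Spec.ManinRepResStatement.{u} := by
  intro Γ' Γ hle A _ φ m hm
  obtain ⟨f, ⟨hf, hS, hU⟩, hφ⟩ := hm
  refine ⟨fun g x' => f g (Subgroup.quotientMapOfLE hle x'), ⟨?_, ?_, ?_⟩, ?_⟩
  · exact cocycle_res hle f hf
  · intro x
    exact hS _
  · intro x
    show f (S * T) (Subgroup.quotientMapOfLE hle x) =
      m (Subgroup.quotientMapOfLE hle ((S * T) • x)) - m (Subgroup.quotientMapOfLE hle x)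
    rw [hU, quotientMapOfLE_smul]
  · intro γ
    exact hφ (Subgroup.inclusion hle γ)

/-- **TR-2**. -/
theorem maninRepCores : Spec.ManinRepCoresStatement.{u} := by
  intro Γ' Γ _ hle A _ ψ m' hm'
  obtain ⟨f', ⟨hf', hS, hU⟩, hψ⟩ := hm'
  haveI : Finite (SL(2, ℤ) ⧸ Γ') := Subgroup.finite_quotient_of_finiteIndex
  refine ⟨fun g x => pushFwd hle (f' g) x, ⟨?_, ?_, ?_⟩, ?_⟩
  · exact cocycle_pushFwd hle f' hf'
  · intro x
    show pushFwd hle (f' S) x = 0
    have : f' S = fun _ => 0 := funext hS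
    rw [this, pushFwd_zero]
  · intro x
    show pushFwd hle (f' (S * T)) x = pushFwd hle m' ((S * T) • x) - pushFwd hle m' x
    have : f' (S * T) = fun y => m' ((S * T) • y) - m' y := funext hU
    rw [this, pushFwd_cobd]
  · intro γ
    rw [trf_eq_trfH]
    exact trfH_inclusion_apply hle ψ f' hf' hψ γ

/-- **TR-3**. -/
theorem maninFormAdjoint : Spec.ManinFormAdjointStatement.{u} := by
  intro Γ' Γ _ hle R _ m m' e' hpar
  haveI : Finite (SL(2, ℤ) ⧸ Γ') := Subgroup.finite_quotient_of_finiteIndex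
  refine ⟨?_, ?_⟩
  · exact parData_pushFwd hle T (S * T) m' e' hpar
  · exact finsum_pullback_mul_eq hle S m e'

end Fermat.Agent.S41.H683

end
-- ===== PACK-END S41/H683/PDTr.lean

-- ===== PACK-BEGIN S41/H236/PDHeisU.lean
section



/-!
# Row S41, block PD, leaf HEIS-U (helper236)

`cuspSumZero : Spec.ManinRepExistsStatement → Spec.CuspSumZeroStatement`:
a torsion-trivial homomorphism `χ : Γ → A` sums to `0` over every `T`-orbit system.

Proof: `χ = φ_f` for a Manin cocycle `f` (D1); `χ (h⁻¹ T^w h) = f (T^w) (h x₀) = ∑_{j<w} f T (T^j h x₀)`;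
the points `T^j hᵢ x₀` enumerate `X` exactly once, and `∑ₓ f T x = ∑ₓ (m (U x) - m x) = 0`.
-/

set_option autoImplicit false

namespace Fermat.Agent.S41.H236

open CongruenceSubgroup Matrix.SpecialLinearGroup ModularGroup
open scoped MatrixGroups
open Fermat.Agent.S41.Spec

universe u

section Cocycle

variable {G : Type*} [Group G] {X : Type*} [MulAction G X] {A : Type*} [AddCommGroup A]

theorem cocycle_one_h236 (f : G → X → A)
    (hcoc : ∀ (g h : G) (x : X), f (g * h) x = f h x + f g (h • x)) (x : X) : f 1 x = 0 := by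
  have h1 := hcoc 1 1 x
  rw [one_mul, one_smul] at h1
  exact left_eq_add.mp h1

theorem cocycle_inv_h236 (f : G → X → A)
    (hcoc : ∀ (g h : G) (x : X), f (g * h) x = f h x + f g (h • x)) (g : G) (x : X) :
    f g x + f g⁻¹ (g • x) = 0 := by
  rw [← hcoc, inv_mul_cancel, cocycle_one_h236 f hcoc]

theorem cocycle_pow_h236 (f : G → X → A)
    (hcoc : ∀ (g h : G) (x : X), f (g * h) x = f h x + f g (h • x)) (t : G) (k : ℕ) (x : X) :
    f (t ^ k) x = ∑ j ∈ Finset.range k, f t (t ^ j • x) := by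
  induction k with
  | zero => rw [pow_zero, Finset.sum_range_zero, cocycle_one_h236 f hcoc]
  | succ k ih =>
    rw [pow_succ', hcoc, ih, Finset.sum_range_succ]

/-- The value of a cocycle on a conjugate `h⁻¹ t h` fixing `x`. -/
theorem cocycle_conj_h236 (f : G → X → A)
    (hcoc : ∀ (g h : G) (x : X), f (g * h) x = f h x + f g (h • x)) (h t : G) (x : X)
    (hfix : (h⁻¹ * t * h) • x = x) : f (h⁻¹ * t * h) x = f t (h • x) := by
  have h1 : t • h • x = h • x := by
    have h2 : h • (h⁻¹ * t * h) • x = h • x := by rw [hfix]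
    rwa [smul_smul, ← mul_assoc, ← mul_assoc, mul_inv_cancel, one_mul, mul_smul] at h2
  rw [hcoc, hcoc, h1]
  have h3 := cocycle_inv_h236 f hcoc h x
  rw [add_comm (f t (h • x)), ← add_assoc, h3, zero_add]

end Cocycle

/-- **HEIS-U**: a torsion-trivial homomorphism sums to `0` over a `T`-orbit system. -/
theorem cuspSumZero (d1 : Spec.ManinRepExistsStatement.{u}) : Spec.CuspSumZeroStatement.{u} := by
  classical
  intro Γ _ hneg A _ χ htors ι _ γ h w hsys
  obtain ⟨hwpos, hγ, huniq⟩ := hsys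
  obtain ⟨m, f, ⟨hcoc, hS, hU⟩, hχ⟩ := d1 Γ hneg A χ htors
  let _ : Fintype (SL(2, ℤ) ⧸ Γ) := Subgroup.fintypeQuotientOfFiniteIndex
  -- `f S⁻¹ = 0`
  have hSinv : ∀ y : SL(2, ℤ) ⧸ Γ, f S⁻¹ y = 0 := by
    intro y
    have h1 := cocycle_inv_h236 f hcoc S (S⁻¹ • y)
    rw [hS, zero_add, smul_inv_smul] at h1
    exact h1
  -- `f T = f (S * T)`
  have hT : ∀ y : SL(2, ℤ) ⧸ Γ, f T y = m ((S * T) • y) - m y := by
    intro y
    have h1 := hcoc S⁻¹ (S * T) y
    rw [inv_mul_cancel_left, hSinv, add_zero, hU] at h1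
    exact h1
  -- the value at `γ i`
  have hval : ∀ i : ι, χ (Additive.ofMul (γ i)) =
      ∑ j : Fin (w i), f T (((T ^ (j : ℕ) * h i : SL(2, ℤ)) : SL(2, ℤ) ⧸ Γ)) := by
    intro i
    rw [hχ, hγ i]
    have hfix : ((h i)⁻¹ * T ^ (w i) * h i) • (((1 : SL(2, ℤ)) : SL(2, ℤ) ⧸ Γ)) =
        (((1 : SL(2, ℤ)) : SL(2, ℤ) ⧸ Γ)) := by
      show ((((h i)⁻¹ * T ^ (w i) * h i) * 1 : SL(2, ℤ)) : SL(2, ℤ) ⧸ Γ) = _
      rw [QuotientGroup.eq, mul_one, mul_one, ← hγ i]
      exact Γ.inv_mem (γ i).2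
    rw [cocycle_conj_h236 f hcoc (h i) (T ^ (w i)) _ hfix, cocycle_pow_h236 f hcoc,
      ← Fin.sum_univ_eq_sum_range (fun j => f T (T ^ j • h i • (((1 : SL(2, ℤ)) : SL(2, ℤ) ⧸ Γ))))]
    refine Finset.sum_congr rfl fun j _ => ?_
    congr 1
    show ((T ^ (j : ℕ) * (h i * 1) : SL(2, ℤ)) : SL(2, ℤ) ⧸ Γ) = _
    rw [mul_one]
  -- enumerate `X`
  have hbij : Function.Bijective
      (fun p : (Σ i, Fin (w i)) => ((T ^ (p.2 : ℕ) * h p.1 : SL(2, ℤ)) : SL(2, ℤ) ⧸ Γ)) := by
    constructor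
    · intro p p' hpp
      obtain ⟨p₀, -, hp₀⟩ := huniq ((T ^ (p.2 : ℕ) * h p.1 : SL(2, ℤ)) : SL(2, ℤ) ⧸ Γ)
      rw [hp₀ p rfl, hp₀ p' hpp]
    · intro x
      obtain ⟨p₀, hp, -⟩ := huniq x
      exact ⟨p₀, hp.symm⟩
  rw [Finset.sum_congr rfl fun i _ => hval i, ← Fintype.sum_sigma
    (fun p : (Σ i, Fin (w i)) => f T (((T ^ (p.2 : ℕ) * h p.1 : SL(2, ℤ)) : SL(2, ℤ) ⧸ Γ)))]
  rw [Fintype.sum_bijective _ hbij _ (fun x => f T x) (fun _ => rfl)]
  rw [Finset.sum_congr rfl fun x _ => hT x, Finset.sum_sub_distrib, sub_eq_zero]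
  exact Equiv.sum_comp (MulAction.toPerm (S * T) : Equiv.Perm (SL(2, ℤ) ⧸ Γ)) m

end Fermat.Agent.S41.H236

end
-- ===== PACK-END S41/H236/PDHeisU.lean

-- ===== PACK-BEGIN S28/H386/Twist.lean
section
/-
S28 [L] toolkit (helper386): the twist automorphism `q ↦ ξ q` of `k((q))`.
-/



set_option autoImplicit false

noncomputable section

open ModularCurve HahnSeries Polynomial

namespace Fermat.Agent.S28.H386

variable {k : Type*} [Field k]

/-- Underlying function of the twist `f(q) ↦ f(ξ q)`. -/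
def twistFun (ξ : kˣ) (f : LaurentSeries k) : LaurentSeries k where
  coeff n := ((ξ ^ n : kˣ) : k) * f.coeff n
  isPWO_support' := f.isPWO_support.mono fun n hn => by
    simp only [Function.mem_support, ne_eq] at hn ⊢
    intro h
    exact hn (by rw [h, mul_zero])

@[simp] theorem twistFun_coeff (ξ : kˣ) (f : LaurentSeries k) (n : ℤ) :
    (_root_.Fermat.Agent.S28.H386.twistFun ξ f).coeff n = ((ξ ^ n : kˣ) : k) * f.coeff n := rfl

theorem support_twistFun (ξ : kˣ) (f : LaurentSeries k) :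
    (_root_.Fermat.Agent.S28.H386.twistFun ξ f).support = f.support := by
  ext n
  simp only [HahnSeries.mem_support, _root_.Fermat.Agent.S28.H386.twistFun_coeff, ne_eq, mul_eq_zero, Units.ne_zero, false_or]

/-- The twist `f(q) ↦ f(ξ q)` as a ring homomorphism of `k((q))`. -/
def twist (ξ : kˣ) : LaurentSeries k →+* LaurentSeries k where
  toFun := _root_.Fermat.Agent.S28.H386.twistFun ξ
  map_zero' := by ext n; simp
  map_one' := by
    ext n
    rw [_root_.Fermat.Agent.S28.H386.twistFun_coeff, HahnSeries.coeff_one]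
    split_ifs with h
    · subst h; simp
    · simp
  map_add' x y := by ext n; simp [mul_add]
  map_mul' x y := by
    ext n
    rw [_root_.Fermat.Agent.S28.H386.twistFun_coeff, HahnSeries.coeff_mul, HahnSeries.coeff_mul, Finset.mul_sum]
    refine Finset.sum_congr ?_ fun ij hij => ?_
    · ext ij
      rw [Finset.mem_antidiagonal, Finset.mem_antidiagonal, support_twistFun,
        support_twistFun]
    have hsum : ij.1 + ij.2 = n := (Finset.mem_antidiagonal.mp hij).2.2
    rw [_root_.Fermat.Agent.S28.H386.twistFun_coeff, _root_.Fermat.Agent.S28.H386.twistFun_coeff, ← hsum, zpow_add, Units.val_mul]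
    ring

@[simp] theorem twist_coeff (ξ : kˣ) (f : LaurentSeries k) (n : ℤ) :
    (_root_.Fermat.Agent.S28.H386.twist ξ f).coeff n = ((ξ ^ n : kˣ) : k) * f.coeff n := rfl

theorem twist_one (f : LaurentSeries k) : _root_.Fermat.Agent.S28.H386.twist (1 : kˣ) f = f := by
  ext n; simp

theorem twist_twist (ξ η : kˣ) (f : LaurentSeries k) :
    _root_.Fermat.Agent.S28.H386.twist ξ (_root_.Fermat.Agent.S28.H386.twist η f) = _root_.Fermat.Agent.S28.H386.twist (ξ * η) f := by
  ext n
  simp only [_root_.Fermat.Agent.S28.H386.twist_coeff, mul_zpow, Units.val_mul]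
  ring

theorem twist_injective (ξ : kˣ) : Function.Injective (_root_.Fermat.Agent.S28.H386.twist (k := k) ξ) := by
  intro f g h
  have := congrArg (_root_.Fermat.Agent.S28.H386.twist ξ⁻¹) h
  simpa [twist_twist, twist_one] using this

theorem twist_single (ξ : kˣ) (n : ℤ) (c : k) :
    _root_.Fermat.Agent.S28.H386.twist ξ (HahnSeries.single n c) = HahnSeries.single n (((ξ ^ n : kˣ) : k) * c) := by
  ext m
  rw [_root_.Fermat.Agent.S28.H386.twist_coeff]
  by_cases h : m = n
  · subst h; simp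
  · simp [HahnSeries.coeff_single_of_ne h]

theorem twist_C (ξ : kˣ) (c : k) : _root_.Fermat.Agent.S28.H386.twist ξ (HahnSeries.C c) = HahnSeries.C c := by
  rw [HahnSeries.C_apply, twist_single, zpow_zero, Units.val_one, one_mul]

/-- The twist fixes the range of `V_p` when `ξ ^ p = 1`. -/
theorem twist_qExpand (ξ : kˣ) (p : ℕ) [NeZero p] (hξ : ξ ^ p = 1) (f : LaurentSeries k) :
    _root_.Fermat.Agent.S28.H386.twist ξ (qExpand k p f) = qExpand k p f := by
  ext n
  rw [_root_.Fermat.Agent.S28.H386.twist_coeff]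
  by_cases hd : (p : ℤ) ∣ n
  · obtain ⟨m, rfl⟩ := hd
    rw [zpow_mul, zpow_natCast, hξ, one_zpow, Units.val_one, one_mul]
  · rw [qExpand_coeff_of_not_dvd p f hd, mul_zero]

/-- `twist` commutes with `V_d` up to raising `ξ` to the `d`-th power. -/
theorem qExpand_twist (ξ : kˣ) (d : ℕ) [NeZero d] (f : LaurentSeries k) :
    _root_.Fermat.Agent.S28.H386.twist ξ (qExpand k d f) = qExpand k d (_root_.Fermat.Agent.S28.H386.twist (ξ ^ d) f) := by
  ext n
  rw [_root_.Fermat.Agent.S28.H386.twist_coeff]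
  by_cases hd : (d : ℤ) ∣ n
  · obtain ⟨m, rfl⟩ := hd
    rw [qExpand_coeff_mul, qExpand_coeff_mul, _root_.Fermat.Agent.S28.H386.twist_coeff, zpow_mul, zpow_natCast]
  · rw [qExpand_coeff_of_not_dvd d f hd, qExpand_coeff_of_not_dvd d _ hd, mul_zero]

theorem twist_ne_zero (ξ : kˣ) {f : LaurentSeries k} (hf : f ≠ 0) : _root_.Fermat.Agent.S28.H386.twist ξ f ≠ 0 :=
  fun h => hf (twist_injective ξ (by rw [h, map_zero]))

theorem order_twist (ξ : kˣ) (f : LaurentSeries k) : (_root_.Fermat.Agent.S28.H386.twist ξ f).order = f.order := by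
  by_cases hf : f = 0
  · simp [hf]
  refine order_eq_of_coeff ?_ ?_
  · rw [_root_.Fermat.Agent.S28.H386.twist_coeff]
    exact mul_ne_zero (Units.ne_zero _) (HahnSeries.coeff_order_eq_zero.not.mpr hf)
  · intro m hm
    rw [_root_.Fermat.Agent.S28.H386.twist_coeff, HahnSeries.coeff_eq_zero_of_lt_order hm, mul_zero]

theorem coeff_twist_jqModC_neg_one (ξ : kˣ) :
    (_root_.Fermat.Agent.S28.H386.twist ξ (jqModC k)).coeff (-1) = ((ξ⁻¹ : kˣ) : k) := by
  rw [_root_.Fermat.Agent.S28.H386.twist_coeff, coeff_jqModC_neg_one, mul_one, zpow_neg_one]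

end Fermat.Agent.S28.H386

end
end
-- ===== PACK-END S28/H386/Twist.lean

-- ===== PACK-BEGIN S28/H386/PrimeLevel.lean
section
/-
S28 [L] (helper386): prime level.  From `ModPolyData p` (the modular polynomial `Φ_p` with
`Φ_p(j_p, j) = 0 = Φ_p(j, j_p)`) we derive, purely formally in `k((q))`:

* `Φ_p(X, j) = (X - j_p) · B'` with `B'` irreducible over `k((q))` of degree `p`;
* degrees of `j_p` over fields containing `j`, and of `j` over subfields of the range of `V_p`.
-/



set_option autoImplicit false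

noncomputable section

open ModularCurve HahnSeries Polynomial

namespace Fermat.Agent.S28.H386

/-! ### Generalities on `Φ(X, y)` -/

section PhiAt

variable {S T : Type*} [CommRing S] [CommRing T]

/-- Evaluation `ℤ[Y] → S`, `Y ↦ y` (instance-free form). -/
def intEval (y : S) : Polynomial ℤ →+* S := Polynomial.eval₂RingHom (Int.castRingHom S) y

@[simp] theorem intEval_X (y : S) : intEval y Polynomial.X = y := by simp [intEval]

theorem eq_intEval (h : Polynomial ℤ →+* S) : h = intEval (h Polynomial.X) := by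
  refine Polynomial.ringHom_ext' (Subsingleton.elim _ _) ?_
  simp

theorem ringHom_comp_intEval (g : S →+* T) (y : S) :
    g.comp (intEval y) = intEval (g y) := by
  rw [eq_intEval (g.comp (intEval y))]; simp

/-- `Φ(X, y)` as a polynomial over `S`. -/
def phiAt (Φ : Polynomial (Polynomial ℤ)) (y : S) : S[X] :=
  Φ.map (intEval y)

theorem phiAt_map (Φ : Polynomial (Polynomial ℤ)) (g : S →+* T) (y : S) :
    (phiAt Φ y).map g = phiAt Φ (g y) := by
  rw [phiAt, Polynomial.map_map, ringHom_comp_intEval, phiAt]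

theorem eval_phiAt (Φ : Polynomial (Polynomial ℤ)) (y x : S) :
    (phiAt Φ y).eval x = Φ.eval₂ (intEval y) x :=
  Polynomial.eval_map _ _

theorem phiAt_monic {Φ : Polynomial (Polynomial ℤ)} (h : Φ.Monic) (y : S) :
    (phiAt Φ y).Monic := h.map _

theorem natDegree_phiAt [Nontrivial S] {Φ : Polynomial (Polynomial ℤ)} (h : Φ.Monic) (y : S) :
    (phiAt Φ y).natDegree = Φ.natDegree := h.natDegree_map _

theorem eval_phiAt_hom (Φ : Polynomial (Polynomial ℤ)) (g : S →+* T) (y x : S) :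
    (phiAt Φ (g y)).eval (g x) = g ((phiAt Φ y).eval x) := by
  rw [← phiAt_map, Polynomial.eval_map, Polynomial.eval₂_hom]

theorem evalAt_eq_intEval {A : Type*} [CommRing A] (y : LaurentSeries A) :
    evalAt y = intEval y := by
  rw [eq_intEval (evalAt y)]; simp [evalAt]

end PhiAt

variable {k : Type*} [Field k]

/-- `j(q^d)`. -/
abbrev jd (k : Type*) [Field k] (d : ℕ) [NeZero d] : LaurentSeries k := qExpand k d (jqModC k)

theorem jd_ne_zero (d : ℕ) [NeZero d] : jd k d ≠ 0 := qExpand_ne_zero d jqModC_ne_zero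

theorem order_jd (d : ℕ) [NeZero d] : (jd k d).order = -(d : ℤ) := by
  rw [jd, order_qExpand, order_jqModC]; ring

theorem jd_injective {d e : ℕ} [NeZero d] [NeZero e] (h : jd k d = jd k e) : d = e := by
  have := congrArg HahnSeries.order h
  rw [order_jd, order_jd] at this
  omega

theorem qExpand_jd (e d : ℕ) [NeZero e] [NeZero d] :
    qExpand k e (jd k d) = jd k (e * d) := qExpand_qExpand d e _

theorem coeffMap_comp_evalAt (k : Type*) [Field k] (y : LaurentSeries ℤ) :
    (coeffMap (Int.castRingHom k)).comp (evalAt y)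
      = intEval (coeffMap (Int.castRingHom k) y) := by
  rw [evalAt_eq_intEval, ringHom_comp_intEval]

section Data

variable {p : ℕ} [NeZero p] (D : ModPolyData p)

/-- `Φ_p(j_p, j) = 0` over any field. -/
theorem eval_jp_field (k : Type*) [Field k] :
    (phiAt D.Φ (jqModC k)).eval (jd k p) = 0 := by
  have h := congrArg (coeffMap (Int.castRingHom k)) D.eval_jp
  rw [Polynomial.hom_eval₂, map_zero, coeffMap_comp_evalAt, coeffMap_qExpand,
    coeffMap_jqModC] at h
  rw [eval_phiAt]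
  exact h

/-- `Φ_p(j, j_p) = 0` over any field. -/
theorem eval_j_field (k : Type*) [Field k] :
    (phiAt D.Φ (jd k p)).eval (jqModC k) = 0 := by
  have h := congrArg (coeffMap (Int.castRingHom k)) D.eval_j
  rw [Polynomial.hom_eval₂, map_zero, coeffMap_comp_evalAt, coeffMap_qExpand,
    coeffMap_jqModC] at h
  rw [eval_phiAt]
  exact h

/-- `Φ_p(j_{dp}, j_d) = 0`. -/
theorem eval_jdp (k : Type*) [Field k] (d : ℕ) [NeZero d] :
    (phiAt D.Φ (jd k d)).eval (jd k (d * p)) = 0 := by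
  have h := congrArg (qExpand k d) (eval_jp_field D k)
  rw [map_zero, ← eval_phiAt_hom, qExpand_jd] at h
  exact h

/-- `Φ_p(j_d, j_{dp}) = 0`. -/
theorem eval_jd (k : Type*) [Field k] (d : ℕ) [NeZero d] :
    (phiAt D.Φ (jd k (d * p))).eval (jd k d) = 0 := by
  have h := congrArg (qExpand k d) (eval_j_field D k)
  rw [map_zero, ← eval_phiAt_hom, qExpand_jd] at h
  exact h

end Data

/-! ### The factorisation `Φ_p(X, j) = (X - j_p) · B'` over `k((q))` -/

section Factor

variable {p : ℕ} [NeZero p] (D : ModPolyData p) (k : Type*) [Field k]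

/-- The cofactor `B' = Φ_p(X, j) / (X - j_p)`. -/
def cofB : (LaurentSeries k)[X] := phiAt D.Φ (jqModC k) /ₘ (X - Polynomial.C (jd k p))

theorem phiAt_j_eq : phiAt D.Φ (jqModC k) = (X - Polynomial.C (jd k p)) * cofB D k :=
  (Polynomial.mul_divByMonic_eq_iff_isRoot.mpr (eval_jp_field D k)).symm

theorem cofB_monic : (cofB D k).Monic := by
  have h := phiAt_monic D.monic (jqModC k)
  rw [phiAt_j_eq] at h
  exact (Polynomial.monic_X_sub_C _).of_mul_monic_left h

theorem natDegree_cofB : (cofB D k).natDegree = p := by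
  rw [cofB, Polynomial.natDegree_divByMonic _ (Polynomial.monic_X_sub_C _),
    natDegree_phiAt D.monic, D.natDegree_eq, Polynomial.natDegree_X_sub_C]
  omega

theorem cofB_ne_one : cofB D k ≠ 1 := by
  intro h
  have := natDegree_cofB D k
  rw [h, Polynomial.natDegree_one] at this
  exact NeZero.ne p this.symm

theorem cofB_ne_zero : cofB D k ≠ 0 := (cofB_monic D k).ne_zero

/-- `Φ_p(X, j_p) = (X - j_{p²}) · V_p(B')`. -/
theorem phiAt_jp_eq :
    phiAt D.Φ (jd k p) = (X - Polynomial.C (qExpand k p (jd k p))) * (cofB D k).map (qExpand k p) := by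
  have h := congrArg (Polynomial.map (qExpand k p)) (phiAt_j_eq D k)
  rw [phiAt_map, Polynomial.map_mul, Polynomial.map_sub, Polynomial.map_X,
    Polynomial.map_C] at h
  exact h

theorem jq_ne_qExpand_jd (hp : 1 < p) : jqModC k ≠ qExpand k p (jd k p) := by
  intro h
  have := congrArg HahnSeries.order h
  rw [order_jqModC, order_qExpand, order_jd] at this
  have hp' : (1 : ℤ) < p := by exact_mod_cast hp
  nlinarith

theorem eval_j_cofB_map (hp : 1 < p) :
    ((cofB D k).map (qExpand k p)).eval (jqModC k) = 0 := by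
  have h := eval_j_field D k
  rw [phiAt_jp_eq, Polynomial.eval_mul, Polynomial.eval_sub, Polynomial.eval_X,
    Polynomial.eval_C, mul_eq_zero] at h
  rcases h with h | h
  · exact absurd (sub_eq_zero.mp h) (jq_ne_qExpand_jd k hp)
  · exact h

/-- `B'` is the "minimal polynomial of `j` over the range of `V_p`", in lifted form. -/
theorem cofB_dvd_of_eval_map (hp : 1 < p) (G : (LaurentSeries k)[X])
    (h : (G.map (qExpand k p)).eval (jqModC k) = 0) : cofB D k ∣ G := by
  rw [← Polynomial.modByMonic_eq_zero_iff_dvd (cofB_monic D k)]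
  by_contra hR
  have hdeg : (G %ₘ cofB D k).natDegree < p := by
    have := Polynomial.natDegree_modByMonic_lt G (cofB_monic D k) (cofB_ne_one D k)
    rwa [natDegree_cofB] at this
  have hG := Polynomial.modByMonic_add_div G (cofB D k)
  have h2 : ((G %ₘ cofB D k).map (qExpand k p)).eval (jqModC k) = 0 := by
    have h3 := congrArg (fun P => (P.map (qExpand k p)).eval (jqModC k)) hG
    simp only [Polynomial.map_add, Polynomial.map_mul, Polynomial.eval_add,
      Polynomial.eval_mul, eval_j_cofB_map D k hp, zero_mul, add_zero] at h3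
    rw [h3, h]
  refine eval_jqModC_ne_zero_of_natDegree_lt p ((G %ₘ cofB D k).map (qExpand k p)) ?_ ?_ ?_ h2
  · exact (Polynomial.map_ne_zero_iff (qExpand_injective p)).mpr hR
  · exact lt_of_le_of_lt Polynomial.natDegree_map_le hdeg
  · intro i
    rw [Polynomial.coeff_map]
    exact ⟨_, rfl⟩

/-- `B'` is irreducible over `k((q))`. -/
theorem cofB_irreducible (hp : 1 < p) : Irreducible (cofB D k) := by
  rw [(cofB_monic D k).irreducible_iff_natDegree]
  refine ⟨cofB_ne_one D k, fun f g hf hg hfg => ?_⟩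
  have hdeg : f.natDegree + g.natDegree = p := by
    rw [← hf.natDegree_mul hg, hfg, natDegree_cofB]
  have hev := eval_j_cofB_map D k hp
  rw [← hfg, Polynomial.map_mul, Polynomial.eval_mul, mul_eq_zero] at hev
  rcases hev with h | h
  · have hd := Polynomial.natDegree_le_of_dvd (cofB_dvd_of_eval_map D k hp f h) hf.ne_zero
    rw [natDegree_cofB] at hd
    right; omega
  · have hd := Polynomial.natDegree_le_of_dvd (cofB_dvd_of_eval_map D k hp g h) hg.ne_zero
    rw [natDegree_cofB] at hd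
    left; omega

/-- `B'` has no roots in `k((q))`. -/
theorem cofB_eval_ne_zero (hp : 1 < p) (c : LaurentSeries k) : (cofB D k).eval c ≠ 0 := by
  intro h
  have h1 := Polynomial.degree_eq_one_of_irreducible_of_root (cofB_irreducible D k hp) h
  have h2 : (cofB D k).natDegree = 1 :=
    Polynomial.natDegree_eq_of_degree_eq_some (by rw [h1]; rfl)
  rw [natDegree_cofB] at h2
  omega

end Factor

/-! ### Degrees over intermediate fields -/

section Fields

variable {p : ℕ} [NeZero p] (D : ModPolyData p) {k : Type*} [Field k]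

include D

theorem aeval_phiAt_mk (F : IntermediateField k (LaurentSeries k)) {y : LaurentSeries k}
    (hy : y ∈ F) (x : LaurentSeries k) :
    Polynomial.aeval x (phiAt D.Φ (⟨y, hy⟩ : F)) = (phiAt D.Φ y).eval x := by
  rw [Polynomial.aeval_def, Polynomial.eval₂_eq_eval_map, phiAt_map]
  rfl

/-- (U1) `j_{dp}` is integral over any field containing `j_d`. -/
theorem isIntegral_jdp (F : IntermediateField k (LaurentSeries k)) (d : ℕ) [NeZero d]
    (hj : jd k d ∈ F) : IsIntegral F (jd k (d * p)) :=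
  ⟨phiAt D.Φ (⟨jd k d, hj⟩ : F), phiAt_monic D.monic _, by
    rw [← Polynomial.aeval_def, aeval_phiAt_mk, eval_jdp]⟩

/-- (U1) `j_{dp}` has degree `≤ p + 1` over any field containing `j_d`. -/
theorem natDegree_minpoly_jdp_le (F : IntermediateField k (LaurentSeries k)) (d : ℕ) [NeZero d]
    (hj : jd k d ∈ F) : (minpoly F (jd k (d * p))).natDegree ≤ p + 1 := by
  have hdvd : minpoly F (jd k (d * p)) ∣ phiAt D.Φ (⟨jd k d, hj⟩ : F) :=
    minpoly.dvd F _ (by rw [aeval_phiAt_mk, eval_jdp])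
  have := Polynomial.natDegree_le_of_dvd hdvd (phiAt_monic D.monic _).ne_zero
  rwa [natDegree_phiAt D.monic, D.natDegree_eq] at this

/-- `j_d` is integral over any field containing `j_{dp}`. -/
theorem isIntegral_jd_of_jdp (F : IntermediateField k (LaurentSeries k)) (d : ℕ) [NeZero d]
    (hj : jd k (d * p) ∈ F) : IsIntegral F (jd k d) :=
  ⟨phiAt D.Φ (⟨jd k (d * p), hj⟩ : F), phiAt_monic D.monic _, by
    rw [← Polynomial.aeval_def, aeval_phiAt_mk, eval_jd]⟩

theorem natDegree_minpoly_jd_of_jdp_le (F : IntermediateField k (LaurentSeries k)) (d : ℕ)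
    [NeZero d] (hj : jd k (d * p) ∈ F) : (minpoly F (jd k d)).natDegree ≤ p + 1 := by
  have hdvd : minpoly F (jd k d) ∣ phiAt D.Φ (⟨jd k (d * p), hj⟩ : F) :=
    minpoly.dvd F _ (by rw [aeval_phiAt_mk, eval_jd])
  have := Polynomial.natDegree_le_of_dvd hdvd (phiAt_monic D.monic _).ne_zero
  rwa [natDegree_phiAt D.monic, D.natDegree_eq] at this

/-- (U2) If `j_d` and `j_{dp}` lie in `F`, then `j_{dp²}` is a root of a monic polynomial of
degree `p` over `F`. -/
theorem exists_monic_natDegree_eq_aeval_jdpp (hp : 1 < p)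
    (F : IntermediateField k (LaurentSeries k)) (d : ℕ) [NeZero d]
    (hj : jd k d ∈ F) (hjp : jd k (d * p) ∈ F) :
    ∃ Q : F[X], Q.Monic ∧ Q.natDegree = p ∧ Polynomial.aeval (jd k (d * p * p)) Q = 0 := by
  set A₀ : F[X] := phiAt D.Φ (⟨jd k (d * p), hjp⟩ : F) with hA₀
  set a : F := ⟨jd k d, hj⟩ with ha
  have hroot : A₀.IsRoot a := by
    have h1 : algebraMap F (LaurentSeries k) (A₀.eval a) = 0 := by
      rw [← Polynomial.aeval_algebraMap_apply_eq_algebraMap_eval, aeval_phiAt_mk]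
      exact eval_jd D k d
    exact (map_eq_zero_iff _ (algebraMap F (LaurentSeries k)).injective).mp h1
  have hfac : (X - Polynomial.C a) * (A₀ /ₘ (X - Polynomial.C a)) = A₀ :=
    Polynomial.mul_divByMonic_eq_iff_isRoot.mpr hroot
  have hA₀monic : A₀.Monic := phiAt_monic D.monic _
  refine ⟨A₀ /ₘ (X - Polynomial.C a), ?_, ?_, ?_⟩
  · have h := hA₀monic
    rw [← hfac] at h
    exact (Polynomial.monic_X_sub_C _).of_mul_monic_left h
  · rw [Polynomial.natDegree_divByMonic _ (Polynomial.monic_X_sub_C _),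
      natDegree_phiAt D.monic, D.natDegree_eq, Polynomial.natDegree_X_sub_C]
    omega
  · have h0 : Polynomial.aeval (jd k (d * p * p)) A₀ = 0 := by
      rw [aeval_phiAt_mk]; exact eval_jdp D k (d * p)
    rw [← hfac, map_mul, mul_eq_zero] at h0
    rcases h0 with h0 | h0
    · exfalso
      rw [map_sub, Polynomial.aeval_X, Polynomial.aeval_C, sub_eq_zero] at h0
      have h1 : jd k (d * p * p) = jd k d := h0
      have h2 := jd_injective h1
      have hd : 0 < d := Nat.pos_of_ne_zero (NeZero.ne d)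
      have : d * 1 < d * p * p := by
        rw [mul_assoc]
        exact Nat.mul_lt_mul_of_pos_left (by nlinarith) hd
      omega
    · exact h0

theorem natDegree_minpoly_jdpp_le (hp : 1 < p)
    (F : IntermediateField k (LaurentSeries k)) (d : ℕ) [NeZero d]
    (hj : jd k d ∈ F) (hjp : jd k (d * p) ∈ F) :
    (minpoly F (jd k (d * p * p))).natDegree ≤ p := by
  obtain ⟨Q, hQ, hdeg, h0⟩ := exists_monic_natDegree_eq_aeval_jdpp D hp F d hj hjp
  have := Polynomial.natDegree_le_of_dvd (minpoly.dvd F _ h0) hQ.ne_zero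
  rwa [hdeg] at this

/-- (b2) If `j ∈ F` and `j_p ∉ F` then `j_p` has degree exactly `p + 1` over `F`. -/
theorem natDegree_minpoly_jp_eq (hp : 1 < p) (F : IntermediateField k (LaurentSeries k))
    (hj : jqModC k ∈ F) (hjp : jd k p ∉ F) :
    (minpoly F (jd k p)).natDegree = p + 1 := by
  have hj1 : jd k 1 ∈ F := by rwa [jd, qExpand_one_apply]
  have hint : IsIntegral F (jd k p) := by
    have := isIntegral_jdp D F 1 hj1
    simpa using this
  set m := minpoly F (jd k p) with hm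
  have hmonic : m.Monic := minpoly.monic hint
  set mL := m.map (algebraMap F (LaurentSeries k)) with hmL
  have hmLmonic : mL.Monic := hmonic.map _
  have hroot : mL.IsRoot (jd k p) := by
    show mL.eval (jd k p) = 0
    rw [hmL, Polynomial.eval_map, ← Polynomial.aeval_def]
    exact minpoly.aeval F _
  have hfac : (X - Polynomial.C (jd k p)) * (mL /ₘ (X - Polynomial.C (jd k p))) = mL :=
    Polynomial.mul_divByMonic_eq_iff_isRoot.mpr hroot
  set m2 := mL /ₘ (X - Polynomial.C (jd k p)) with hm2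
  have hm2monic : m2.Monic := by
    have h := hmLmonic
    rw [← hfac] at h
    exact (Polynomial.monic_X_sub_C _).of_mul_monic_left h
  have hdvd0 : m ∣ phiAt D.Φ (⟨jqModC k, hj⟩ : F) :=
    minpoly.dvd F _ (by rw [aeval_phiAt_mk]; exact eval_jp_field D k)
  have hdvd : mL ∣ phiAt D.Φ (jqModC k) := by
    have := Polynomial.map_dvd (algebraMap F (LaurentSeries k)) hdvd0
    rwa [phiAt_map] at this
  rw [← hfac, phiAt_j_eq] at hdvd
  have hdvd2 : m2 ∣ cofB D k :=
    (mul_dvd_mul_iff_left (Polynomial.X_sub_C_ne_zero _)).mp hdvd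
  obtain ⟨r, hr⟩ := hdvd2
  have hrmonic : r.Monic := by
    have h := cofB_monic D k
    rw [hr] at h
    exact hm2monic.of_mul_monic_left h
  have hdegsum : m2.natDegree + r.natDegree = p := by
    rw [← hm2monic.natDegree_mul hrmonic, ← hr, natDegree_cofB]
  have hmLdeg : mL.natDegree = 1 + m2.natDegree := by
    rw [← hfac, (Polynomial.monic_X_sub_C _).natDegree_mul hm2monic,
      Polynomial.natDegree_X_sub_C]
  have hmdeg : m.natDegree = mL.natDegree := (hmonic.natDegree_map _).symm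
  rcases ((cofB_monic D k).irreducible_iff_natDegree.mp (cofB_irreducible D k hp)).2 m2 r
    hm2monic hrmonic hr.symm with h | h
  · exfalso
    have h1 : m.natDegree = 1 := by omega
    have h2 : m.degree = 1 := by
      rw [Polynomial.degree_eq_natDegree hmonic.ne_zero, h1]; rfl
    obtain ⟨y, hy⟩ := minpoly.mem_range_of_degree_eq_one F (jd k p) h2
    exact hjp (hy ▸ y.2)
  · omega

/-- (b1) `j` has degree at least `p` over any subfield of the range of `V_p` containing `j_p`. -/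
theorem le_natDegree_minpoly_j (hp : 1 < p) (F : IntermediateField k (LaurentSeries k))
    (hF : ∀ x ∈ F, x ∈ Set.range (qExpand k p)) (hjp : jd k p ∈ F) :
    p ≤ (minpoly F (jqModC k)).natDegree := by
  have hjp1 : jd k (1 * p) ∈ F := by simpa using hjp
  have hint : IsIntegral F (jqModC k) := by
    have := isIntegral_jd_of_jdp D F 1 hjp1
    rwa [jd, qExpand_one_apply] at this
  set m := minpoly F (jqModC k) with hm
  have hmonic : m.Monic := minpoly.monic hint
  set mL := m.map (algebraMap F (LaurentSeries k)) with hmL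
  have hlift : mL ∈ Polynomial.lifts (qExpand k p) := by
    rw [Polynomial.lifts_iff_coeff_lifts]
    intro n
    rw [hmL, Polynomial.coeff_map]
    exact hF _ (m.coeff n).2
  obtain ⟨G, hG⟩ := (Polynomial.mem_lifts _).mp hlift
  have hev : (G.map (qExpand k p)).eval (jqModC k) = 0 := by
    rw [hG, hmL, Polynomial.eval_map, ← Polynomial.aeval_def]
    exact minpoly.aeval F _
  have hGne : G ≠ 0 := by
    intro h
    rw [h, Polynomial.map_zero] at hG
    exact (hmonic.map (algebraMap F (LaurentSeries k))).ne_zero hG.symm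
  have h1 := Polynomial.natDegree_le_of_dvd (cofB_dvd_of_eval_map D k hp G hev) hGne
  rw [natDegree_cofB] at h1
  have h2 : G.natDegree = mL.natDegree := by
    rw [← hG, Polynomial.natDegree_map_eq_of_injective (qExpand_injective p)]
  have h3 : mL.natDegree = m.natDegree := hmonic.natDegree_map _
  omega

/-- (b3) `j` has degree exactly `p + 1` over any subfield `F` of the range of `V_p` with
`j_p ∈ F` and `j_{p²} ∉ F`. -/
theorem natDegree_minpoly_j_eq (hp : 1 < p) (F : IntermediateField k (LaurentSeries k))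
    (hF : ∀ x ∈ F, x ∈ Set.range (qExpand k p)) (hjp : jd k p ∈ F)
    (hjpp : qExpand k p (jd k p) ∉ F) :
    (minpoly F (jqModC k)).natDegree = p + 1 := by
  have hjp1 : jd k (1 * p) ∈ F := by simpa using hjp
  have hint : IsIntegral F (jqModC k) := by
    have := isIntegral_jd_of_jdp D F 1 hjp1
    rwa [jd, qExpand_one_apply] at this
  have hge := le_natDegree_minpoly_j D hp F hF hjp
  set m := minpoly F (jqModC k) with hm
  have hmonic : m.Monic := minpoly.monic hint
  set A₀ : F[X] := phiAt D.Φ (⟨jd k p, hjp⟩ : F) with hA₀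
  have hA₀monic : A₀.Monic := phiAt_monic D.monic _
  have hdvd : m ∣ A₀ := minpoly.dvd F _ (by rw [aeval_phiAt_mk]; exact eval_j_field D k)
  obtain ⟨N, hN⟩ := hdvd
  have hNmonic : N.Monic := by
    have h := hA₀monic
    rw [hN] at h
    exact hmonic.of_mul_monic_left h
  have hdegsum : m.natDegree + N.natDegree = p + 1 := by
    rw [← hmonic.natDegree_mul hNmonic, ← hN, natDegree_phiAt D.monic, D.natDegree_eq]
  by_contra hne
  have hN1 : N.natDegree = 1 := by omega
  have hNeq := hNmonic.eq_X_add_C hN1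
  set c : F := N.coeff 0 with hc
  have hrootN : N.eval (-c) = 0 := by
    rw [hNeq]; simp
  have hrootA : A₀.eval (-c) = 0 := by
    rw [hN, Polynomial.eval_mul, hrootN, mul_zero]
  have hrootL : (phiAt D.Φ (jd k p)).eval ((-c : F) : LaurentSeries k) = 0 := by
    have h1 : algebraMap F (LaurentSeries k) (A₀.eval (-c)) = 0 := by rw [hrootA, map_zero]
    rw [← Polynomial.aeval_algebraMap_apply_eq_algebraMap_eval, aeval_phiAt_mk] at h1
    exact h1
  obtain ⟨c', hc'⟩ := hF _ (-c).2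
  rw [phiAt_jp_eq, Polynomial.eval_mul, Polynomial.eval_sub, Polynomial.eval_X,
    Polynomial.eval_C, mul_eq_zero] at hrootL
  rcases hrootL with h | h
  · apply hjpp
    rw [← sub_eq_zero.mp h]
    exact (-c).2
  · rw [← hc', Polynomial.eval_map, Polynomial.eval₂_at_apply] at h
    exact cofB_eval_ne_zero D k hp c'
      ((map_eq_zero_iff _ (qExpand_injective p)).mp h)

end Fields

end Fermat.Agent.S28.H386

end
end
-- ===== PACK-END S28/H386/PrimeLevel.lean

-- ===== PACK-BEGIN S28/H208/RootList.lean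
section
/-
S28 [L3]: consequences of `ModPolyData` over arbitrary coefficient rings and the
root list of `Φ_p(X, j(t^p))` over a field containing a primitive `p`-th root of unity.
-/




set_option autoImplicit false

noncomputable section

open ModularCurve Polynomial

namespace Fermat.Agent.S28.H208

section Hom

variable {S S' : Type*} [CommRing S] [CommRing S']

/-- Evaluation `ℤ[Y] → S`, `Y ↦ y` (same as `evalAt`, for an arbitrary target ring). -/
abbrev evZ (y : S) : Polynomial ℤ →+* S := (Polynomial.aeval (R := ℤ) y).toRingHom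

theorem evZ_comp (h : S →+* S') (y : S) : h.comp (evZ y) = evZ (h y) := by
  refine Polynomial.ringHom_ext' (Subsingleton.elim _ _) ?_
  simp [evZ]

theorem evalAt_eq_evZ {A : Type*} [CommRing A] (y : LaurentSeries A) : evalAt y = evZ y := by
  refine Polynomial.ringHom_ext' (Subsingleton.elim _ _) ?_
  simp [evZ, evalAt]

theorem eval₂_evZ_hom (h : S →+* S') (Φ : Polynomial (Polynomial ℤ)) (y x : S)
    (hx : Φ.eval₂ (evZ y) x = 0) : Φ.eval₂ (evZ (h y)) (h x) = 0 := by
  rw [← evZ_comp, ← Polynomial.hom_eval₂, hx, map_zero]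

theorem map_map_evZ (h : S →+* S') (Φ : Polynomial (Polynomial ℤ)) (y : S) :
    (Φ.map (evZ y)).map h = Φ.map (evZ (h y)) := by
  rw [Polynomial.map_map, evZ_comp]

end Hom

section Ring

variable (A : Type*) [CommRing A] {p : ℕ} [NeZero p] (D : ModPolyData p)

theorem coeffMap_int_jd (d : ℕ) [NeZero d] :
    coeffMap (Int.castRingHom A) (qExpand ℤ d (jqModC ℤ)) = qExpand A d (jqModC A) := by
  rw [coeffMap_qExpand, coeffMap_jqModC]

/-- `Φ_p(j(q^p), j(q)) = 0` over any commutative ring. -/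
theorem eval_jp_ring : D.Φ.eval₂ (evZ (jqModC A)) (qExpand A p (jqModC A)) = 0 := by
  have h := eval₂_evZ_hom (coeffMap (Int.castRingHom A)) D.Φ (jqModC ℤ)
    (qExpand ℤ p (jqModC ℤ)) (by rw [← evalAt_eq_evZ]; exact D.eval_jp)
  rwa [coeffMap_int_jd, coeffMap_jqModC] at h

/-- `Φ_p(j(q), j(q^p)) = 0` over any commutative ring. -/
theorem eval_j_ring : D.Φ.eval₂ (evZ (qExpand A p (jqModC A))) (jqModC A) = 0 := by
  have h := eval₂_evZ_hom (coeffMap (Int.castRingHom A)) D.Φ (qExpand ℤ p (jqModC ℤ))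
    (jqModC ℤ) (by rw [← evalAt_eq_evZ]; exact D.eval_j)
  rwa [coeffMap_int_jd, coeffMap_jqModC] at h

/-- `Φ_p(j(q^{mp}), j(q^m)) = 0`. -/
theorem eval_jp_ring_qExpand (m : ℕ) [NeZero m] [NeZero (m * p)] :
    D.Φ.eval₂ (evZ (qExpand A m (jqModC A))) (qExpand A (m * p) (jqModC A)) = 0 := by
  have h := eval₂_evZ_hom (qExpand A m) D.Φ _ _ (eval_jp_ring A D)
  rwa [qExpand_qExpand] at h

/-- `Φ_p(j(q^m), j(q^{mp})) = 0`. -/
theorem eval_j_ring_qExpand (m : ℕ) [NeZero m] [NeZero (m * p)] :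
    D.Φ.eval₂ (evZ (qExpand A (m * p) (jqModC A))) (qExpand A m (jqModC A)) = 0 := by
  have h := eval₂_evZ_hom (qExpand A m) D.Φ _ _ (eval_j_ring A D)
  rwa [qExpand_qExpand] at h

end Ring

section Coeff

variable (A : Type*) [CommRing A]

theorem coeff_jd_neg (d : ℕ) [NeZero d] :
    (qExpand A d (jqModC A)).coeff (-(d : ℤ)) = 1 := by
  have h := qExpand_coeff_mul (R := A) d (jqModC A) (-1)
  rw [coeff_jqModC_neg_one] at h
  rwa [mul_neg, mul_one] at h

theorem coeff_jd_of_lt (d : ℕ) [NeZero d] {n : ℤ} (hn : n < -(d : ℤ)) :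
    (qExpand A d (jqModC A)).coeff n = 0 := by
  by_cases hdn : (d : ℤ) ∣ n
  · obtain ⟨a, rfl⟩ := hdn
    rw [qExpand_coeff_mul]
    have hd : (0 : ℤ) < d := by exact_mod_cast Nat.pos_of_ne_zero (NeZero.ne d)
    have ha : a < -1 := by
      by_contra hcon
      have hcon' : -1 ≤ a := not_lt.mp hcon
      nlinarith
    have := coeff_jqModC_pow_of_lt A (b := 1) (m := a) (by simpa using ha)
    simpa using this
  · exact qExpand_coeff_of_not_dvd d _ hdn

end Coeff

section Field

variable {K : Type*} [Field K] {p : ℕ} [NeZero p] (D : ModPolyData p)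

/-- The `p + 1` roots of `Φ_p(X, j(t^p))` in `K((t))`: `j(t^{p²})` and `j(ζ^b t)`, `b < p`. -/
def rootAt (ζ : K) (hζ : ζ ≠ 0) : Option (Fin p) → LaurentSeries K
  | none => qExpand K (p * p) (jqModC K)
  | some b => tw (ζ ^ (b : ℕ)) (pow_ne_zero _ hζ) (jqModC K)

theorem rootAt_none_coeff_neg_one (hp : 1 < p) (ζ : K) (hζ : ζ ≠ 0) :
    (rootAt (p := p) ζ hζ none).coeff (-1) = 0 := by
  apply qExpand_coeff_of_not_dvd
  intro h
  have h1 : ((p * p : ℕ) : ℤ) ∣ 1 := by simpa using (dvd_neg.mpr h)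
  have h2 : (p * p : ℕ) ∣ 1 := by exact_mod_cast h1
  have h3 := Nat.le_of_dvd one_pos h2
  nlinarith

theorem rootAt_some_coeff_neg_one (ζ : K) (hζ : ζ ≠ 0) (b : Fin p) :
    (rootAt (p := p) ζ hζ (some b)).coeff (-1) = (ζ ^ (b : ℕ))⁻¹ := by
  show (tw _ _ (jqModC K)).coeff (-1) = _
  rw [tw_coeff, coeff_jqModC_neg_one, mul_one, zpow_neg_one]

theorem rootAt_injective (hp : 1 < p) (ζ : K) (hζ : IsPrimitiveRoot ζ p) :
    Function.Injective (rootAt (p := p) ζ (hζ.ne_zero (NeZero.ne p))) := by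
  have hζ0 : ζ ≠ 0 := hζ.ne_zero (NeZero.ne p)
  intro a b hab
  have hc : (rootAt ζ hζ0 a).coeff (-1) = (rootAt ζ hζ0 b).coeff (-1) := by rw [hab]
  rcases a with _ | a <;> rcases b with _ | b
  · rfl
  · rw [rootAt_none_coeff_neg_one hp, rootAt_some_coeff_neg_one] at hc
    exact absurd hc.symm (inv_ne_zero (pow_ne_zero _ hζ0))
  · rw [rootAt_none_coeff_neg_one hp, rootAt_some_coeff_neg_one] at hc
    exact absurd hc (inv_ne_zero (pow_ne_zero _ hζ0))
  · rw [rootAt_some_coeff_neg_one, rootAt_some_coeff_neg_one] at hc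
    have h := hζ.pow_inj a.2 b.2 (inv_injective hc)
    exact congrArg some (Fin.ext h)

theorem rootAt_isRoot (ζ : K) (hζ : IsPrimitiveRoot ζ p) (i : Option (Fin p)) :
    (D.Φ.map (evZ (qExpand K p (jqModC K)))).IsRoot (rootAt ζ (hζ.ne_zero (NeZero.ne p)) i) := by
  have hζ0 : ζ ≠ 0 := hζ.ne_zero (NeZero.ne p)
  rw [Polynomial.IsRoot, Polynomial.eval_map]
  rcases i with _ | b
  · have h := eval_jp_ring_qExpand K D p
    exact h
  · have h := eval₂_evZ_hom (tw (ζ ^ (b : ℕ)) (pow_ne_zero _ hζ0)) D.Φ _ _ (eval_j_ring K D)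
    rwa [tw_qExpand_of_pow_eq_one] at h
    rw [← pow_mul, mul_comm, pow_mul, hζ.pow_eq_one, one_pow]

/-- **Root list** of the modular polynomial at prime level. -/
theorem map_eq_prod_rootAt (hp : 1 < p) (ζ : K) (hζ : IsPrimitiveRoot ζ p) :
    D.Φ.map (evZ (qExpand K p (jqModC K))) =
      ∏ i : Option (Fin p), (X - C (rootAt ζ (hζ.ne_zero (NeZero.ne p)) i)) := by
  have hmonic : (D.Φ.map (evZ (qExpand K p (jqModC K)))).Monic := D.monic.map _
  have hprod_monic : (∏ i : Option (Fin p),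
      (X - C (rootAt ζ (hζ.ne_zero (NeZero.ne p)) i))).Monic :=
    Polynomial.monic_prod_of_monic _ _ fun i _ => Polynomial.monic_X_sub_C _
  have hdvd : (∏ i : Option (Fin p), (X - C (rootAt ζ (hζ.ne_zero (NeZero.ne p)) i))) ∣
      D.Φ.map (evZ (qExpand K p (jqModC K))) := by
    refine Finset.prod_dvd_of_coprime ?_ ?_
    · intro i _ j _ hij
      exact Polynomial.pairwise_coprime_X_sub_C (rootAt_injective hp ζ hζ) hij
    · intro i _
      exact Polynomial.dvd_iff_isRoot.mpr (rootAt_isRoot D ζ hζ i)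
  refine Polynomial.eq_of_monic_of_dvd_of_natDegree_le hprod_monic hmonic hdvd ?_
  rw [D.monic.natDegree_map, D.natDegree_eq, Polynomial.natDegree_prod_of_monic _ _
    fun i _ => Polynomial.monic_X_sub_C _]
  simp

/-- Root list after the substitution `t ↦ t^m`. -/
theorem map_eq_prod_rootAt_qExpand (hp : 1 < p) (ζ : K) (hζ : IsPrimitiveRoot ζ p)
    (m : ℕ) [NeZero m] [NeZero (m * p)] :
    D.Φ.map (evZ (qExpand K (m * p) (jqModC K))) =
      ∏ i : Option (Fin p),
        (X - C (qExpand K m (rootAt ζ (hζ.ne_zero (NeZero.ne p)) i))) := by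
  have h := congrArg (Polynomial.map (qExpand K m)) (map_eq_prod_rootAt D hp ζ hζ)
  rw [map_map_evZ, qExpand_qExpand, Polynomial.map_prod] at h
  rw [h]
  refine Finset.prod_congr rfl fun i _ => ?_
  rw [Polynomial.map_sub, Polynomial.map_X, Polynomial.map_C]

end Field

end Fermat.Agent.S28.H208

end

end
-- ===== PACK-END S28/H208/RootList.lean

-- ===== PACK-BEGIN S28/H208/Gcd.lean
section
/-
S28 [L4]: the gcd / generation lemma.  For distinct primes `p ≠ r` invertible in `k`,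
`j(q^{pr}) ∈ k(j(q^r), j(q^p))`, because it is the unique common root of
`Φ_p(X, j(q^r))` and `Φ_r(X, j(q^p))`.
-/





set_option autoImplicit false

noncomputable section

open ModularCurve Polynomial

namespace Fermat.Agent.S28.H208

section Gcd

variable (k : Type*) [Field k]

/-- The embedding `k((q)) → k̄((t))`, `q ↦ t^e`. -/
def iotaE (e : ℕ) [NeZero e] : LaurentSeries k →+* LaurentSeries (AlgebraicClosure k) :=
  (qExpand (AlgebraicClosure k) e).comp (coeffMap (algebraMap k (AlgebraicClosure k)))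

theorem iotaE_jd (e : ℕ) [NeZero e] (d : ℕ) [NeZero d] :
    iotaE k e (qExpand k d (jqModC k)) =
      qExpand (AlgebraicClosure k) (e * d) (jqModC (AlgebraicClosure k)) := by
  rw [iotaE, RingHom.comp_apply, coeffMap_qExpand, coeffMap_jqModC, qExpand_qExpand]

theorem iotaE_injective (e : ℕ) [NeZero e] : Function.Injective (iotaE k e) :=
  (iotaE k e).injective

variable {k}

theorem qExpand_coeff_neg_eq_zero_of_not_dvd {A : Type*} [CommRing A] (a b : ℕ) [NeZero a]
    (h : ¬ a ∣ b) (f : LaurentSeries A) : (qExpand A a f).coeff (-(b : ℤ)) = 0 := by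
  apply qExpand_coeff_of_not_dvd
  intro h'
  exact h (by exact_mod_cast (dvd_neg.mp h'))

theorem qExpand_rootAt_some_coeff {K : Type*} [Field K] {p : ℕ} [NeZero p] (ζ : K) (hζ : ζ ≠ 0)
    (m : ℕ) [NeZero m] (b : Fin p) :
    (qExpand K m (rootAt (p := p) ζ hζ (some b))).coeff (-(m : ℤ)) = (ζ ^ (b : ℕ))⁻¹ := by
  have h := qExpand_coeff_mul (R := K) m (rootAt (p := p) ζ hζ (some b)) (-1)
  rw [rootAt_some_coeff_neg_one, mul_neg, mul_one] at h
  exact h

theorem qExpand_rootAt_none {K : Type*} [Field K] {p : ℕ} [NeZero p] (ζ : K) (hζ : ζ ≠ 0)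
    (m : ℕ) [NeZero m] :
    qExpand K m (rootAt (p := p) ζ hζ none) = qExpand K (m * (p * p)) (jqModC K) := by
  show qExpand K m (qExpand K (p * p) (jqModC K)) = _
  rw [qExpand_qExpand]

/-- Key coprimality: the "new" roots of `Φ_p(X, j(t^{r²p}))` are not roots of
`Φ_r(X, j(t^{p²r}))`. -/
theorem gcd_core {K : Type*} [Field K] {p r : ℕ} [NeZero p] [NeZero r]
    (hp : p.Prime) (hr : r.Prime) (hpr : p ≠ r) (Dr : ModPolyData r)
    (ζp ζr : K) (hζp : IsPrimitiveRoot ζp p) (hζr : IsPrimitiveRoot ζr r) :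
    IsCoprime
      (∏ b : Fin p, (X - C (qExpand K (r * r) (rootAt ζp (hζp.ne_zero (NeZero.ne p)) (some b)))))
      (Dr.Φ.map (evZ (qExpand K (p * p * r) (jqModC K)))) := by
  have hζp0 : ζp ≠ 0 := hζp.ne_zero (NeZero.ne p)
  have hζr0 : ζr ≠ 0 := hζr.ne_zero (NeZero.ne r)
  rw [map_eq_prod_rootAt_qExpand Dr hr.one_lt ζr hζr (p * p)]
  refine IsCoprime.prod_left fun b _ => IsCoprime.prod_right fun i _ => ?_
  refine Polynomial.isCoprime_X_sub_C_of_isUnit_sub (IsUnit.mk0 _ (sub_ne_zero.mpr ?_))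
  intro heq
  have hc : (qExpand K (r * r) (rootAt ζp hζp0 (some b))).coeff (-((r * r : ℕ) : ℤ)) =
      (qExpand K (p * p) (rootAt ζr hζr0 i)).coeff (-((r * r : ℕ) : ℤ)) := by rw [heq]
  rw [qExpand_rootAt_some_coeff, qExpand_coeff_neg_eq_zero_of_not_dvd] at hc
  · exact inv_ne_zero (pow_ne_zero _ hζp0) hc
  · intro hdvd
    have h1 : p ∣ r * r := dvd_trans (dvd_mul_right p p) hdvd
    have h2 : p ∣ r := by
      rcases (Nat.Prime.dvd_mul hp).mp h1 with h | h <;> exact h
    exact hpr ((Nat.prime_dvd_prime_iff_eq hp hr).mp h2)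

end Gcd

section Main

variable (k : Type*) [Field k]

/-- **gcd lemma**: `j(q^{pr}) ∈ k(j(q^r), j(q^p))` for distinct primes `p, r` invertible
in `k`. -/
theorem jpr_mem_adjoin {p r : ℕ} [NeZero p] [NeZero r]
    (hp : p.Prime) (hr : r.Prime) (hpr : p ≠ r) (hpk : (p : k) ≠ 0) (hrk : (r : k) ≠ 0)
    (Dp : ModPolyData p) (Dr : ModPolyData r) :
    qExpand k (p * r) (jqModC k) ∈
      IntermediateField.adjoin k
        ({qExpand k r (jqModC k), qExpand k p (jqModC k)} : Set (LaurentSeries k)) := by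
  classical
  -- notation
  set E := IntermediateField.adjoin k
    ({qExpand k r (jqModC k), qExpand k p (jqModC k)} : Set (LaurentSeries k)) with hE
  set x : LaurentSeries k := qExpand k (p * r) (jqModC k) with hx
  have hr_mem : qExpand k r (jqModC k) ∈ E :=
    IntermediateField.subset_adjoin k _ (Set.mem_insert _ _)
  have hp_mem : qExpand k p (jqModC k) ∈ E :=
    IntermediateField.subset_adjoin k _ (Set.mem_insert_of_mem _ rfl)
  let yr : E := ⟨_, hr_mem⟩
  let yp : E := ⟨_, hp_mem⟩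
  let AE : Polynomial E := Dp.Φ.map (evZ yr)
  let BE : Polynomial E := Dr.Φ.map (evZ yp)
  have hAE_map : AE.map (algebraMap E (LaurentSeries k)) =
      Dp.Φ.map (evZ (qExpand k r (jqModC k))) := map_map_evZ _ _ _
  have hBE_map : BE.map (algebraMap E (LaurentSeries k)) =
      Dr.Φ.map (evZ (qExpand k p (jqModC k))) := map_map_evZ _ _ _
  have hAx : Polynomial.aeval x AE = 0 := by
    rw [Polynomial.aeval_def, ← Polynomial.eval_map, hAE_map, Polynomial.eval_map, hx,
      qExpand_congr (mul_comm p r)]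
    exact eval_jp_ring_qExpand k Dp r
  have hBx : Polynomial.aeval x BE = 0 := by
    rw [Polynomial.aeval_def, ← Polynomial.eval_map, hBE_map, Polynomial.eval_map, hx]
    exact eval_jp_ring_qExpand k Dr p
  have hAE_monic : AE.Monic := Dp.monic.map _
  have hint : IsIntegral E x := ⟨AE, hAE_monic, by rwa [Polynomial.aeval_def] at hAx⟩
  have hμA : minpoly E x ∣ AE := minpoly.dvd E x hAx
  have hμB : minpoly E x ∣ BE := minpoly.dvd E x hBx
  -- roots of unity upstairs
  haveI : NeZero ((p : ℕ) : k) := ⟨hpk⟩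
  haveI : NeZero ((r : ℕ) : k) := ⟨hrk⟩
  obtain ⟨ζp, hζp⟩ := HasEnoughRootsOfUnity.exists_primitiveRoot (AlgebraicClosure k) p
  obtain ⟨ζr, hζr⟩ := HasEnoughRootsOfUnity.exists_primitiveRoot (AlgebraicClosure k) r
  have hζp0 : ζp ≠ 0 := hζp.ne_zero (NeZero.ne p)
  -- the embedding
  let φ : E →+* LaurentSeries (AlgebraicClosure k) :=
    (iotaE k (p * r)).comp (algebraMap E (LaurentSeries k))
  have hAφ : AE.map φ = Dp.Φ.map (evZ (qExpand (AlgebraicClosure k) (r * r * p)
      (jqModC (AlgebraicClosure k)))) := by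
    rw [← Polynomial.map_map, hAE_map, map_map_evZ, iotaE_jd]
    rw [qExpand_congr (show p * r * r = r * r * p by ring)]
  have hBφ : BE.map φ = Dr.Φ.map (evZ (qExpand (AlgebraicClosure k) (p * p * r)
      (jqModC (AlgebraicClosure k)))) := by
    rw [← Polynomial.map_map, hBE_map, map_map_evZ, iotaE_jd]
    rw [qExpand_congr (show p * r * p = p * p * r by ring)]
  have hcop := gcd_core hp hr hpr Dr ζp ζr hζp hζr
  rw [← hBφ] at hcop
  have hAfac : AE.map φ =
      (X - C (qExpand (AlgebraicClosure k) (r * r * (p * p)) (jqModC (AlgebraicClosure k)))) *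
      ∏ b : Fin p, (X - C (qExpand (AlgebraicClosure k) (r * r) (rootAt ζp hζp0 (some b)))) := by
    rw [hAφ, map_eq_prod_rootAt_qExpand Dp hp.one_lt ζp hζp (r * r), Fintype.prod_option,
      qExpand_rootAt_none]
  have hμφA : (minpoly E x).map φ ∣ AE.map φ := Polynomial.map_dvd φ hμA
  have hμφB : (minpoly E x).map φ ∣ BE.map φ := Polynomial.map_dvd φ hμB
  have hcop' : IsCoprime ((minpoly E x).map φ)
      (∏ b : Fin p, (X - C (qExpand (AlgebraicClosure k) (r * r) (rootAt ζp hζp0 (some b))))) :=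
    IsCoprime.of_isCoprime_of_dvd_left hcop.symm hμφB
  rw [hAfac] at hμφA
  have hdvd := hcop'.dvd_of_dvd_mul_right hμφA
  have hdeg : (minpoly E x).natDegree ≤ 1 := by
    have h1 := Polynomial.natDegree_le_of_dvd hdvd (Polynomial.X_sub_C_ne_zero _)
    rwa [Polynomial.natDegree_map, Polynomial.natDegree_X_sub_C] at h1
  have hpos : 0 < (minpoly E x).natDegree := minpoly.natDegree_pos hint
  have hone : (minpoly E x).natDegree = 1 := le_antisymm hdeg hpos
  obtain ⟨e, he⟩ := (minpoly.natDegree_eq_one_iff).mp hone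
  rw [← he]
  exact e.2

/-- gcd lemma, after the substitution `q ↦ q^c`. -/
theorem jpr_mem_adjoin_qExpand {p r : ℕ} [NeZero p] [NeZero r]
    (hp : p.Prime) (hr : r.Prime) (hpr : p ≠ r) (hpk : (p : k) ≠ 0) (hrk : (r : k) ≠ 0)
    (Dp : ModPolyData p) (Dr : ModPolyData r) (c : ℕ) [NeZero c] :
    qExpand k (c * (p * r)) (jqModC k) ∈
      IntermediateField.adjoin k
        ({qExpand k (c * r) (jqModC k), qExpand k (c * p) (jqModC k)} :
          Set (LaurentSeries k)) := by
  have h := jpr_mem_adjoin k hp hr hpr hpk hrk Dp Dr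
  have h2 : qExpandAlgHomC k c (qExpand k (p * r) (jqModC k)) ∈
      (IntermediateField.adjoin k
        ({qExpand k r (jqModC k), qExpand k p (jqModC k)} : Set (LaurentSeries k))).map
        (qExpandAlgHomC k c) := ⟨_, h, rfl⟩
  rw [IntermediateField.adjoin_map, qExpandAlgHomC_apply, qExpand_qExpand, Set.image_pair,
    qExpandAlgHomC_apply, qExpandAlgHomC_apply, qExpand_qExpand, qExpand_qExpand] at h2
  exact h2

end Main

end Fermat.Agent.S28.H208

end

end
-- ===== PACK-END S28/H208/Gcd.lean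

-- ===== PACK-BEGIN S15/H542/ModGlueCore.lean
section


/-!
# S15, piece MOD, GLUE (helper542)

`moduliPlace_of_pieces :
  PlaceOfModularPairStatement → PlaceUniqueStatement → VeluModularPairStatement →
    ModuliPlaceStatement`

(`VeluRationalStatement` is proved in `ModV.lean`).  The place `P` is produced by MOD-A1 from the
modular pair of MOD-B; for every `σ` the place `σ • P` has the same two (rational) values, so
`σ • P = P` by MOD-A2.
-/

set_option autoImplicit false

noncomputable section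

open WeierstrassCurve AlgebraicCurve ModularCurve
open scoped WeierstrassCurve.Affine

namespace Fermat.Agent.S15.H542

/-- An element of `F` whose `q`-expansion has rational coefficients is fixed by the arithmetic
Galois action. -/
theorem arithmeticGalois_smul_coeffEmb {L : Type*} [Field L] [Algebra ℚ L]
    (F₀ : IntermediateField ℚ (LaurentSeries ℚ)) (σ : L ≃ₐ[ℚ] L)
    (x : laurentBaseChange L F₀) (x₀ : LaurentSeries ℚ)
    (hx : (x : LaurentSeries L) = coeffEmb L x₀) :
    arithmeticGalois F₀ σ • x = x := by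
  apply Subtype.ext
  rw [coe_arithmeticGalois_smul, hx, coeffEmb, coeffMap_coeffMap]
  exact coeffMap_congr (RingHom.ext fun c => by simp) x₀

/-- Values at rational numbers of functions with rational `q`-expansion are preserved by the
arithmetic Galois action on places. -/
theorem hasValueAt_smul_of_rational {N : ℕ}
    (σ : AlgebraicClosure ℚ ≃ₐ[ℚ] AlgebraicClosure ℚ)
    (P : Place (AlgebraicClosure ℚ) (modularFunctionFieldBar N))
    (f : modularFunctionFieldBar N) (f₀ : LaurentSeries ℚ)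
    (hf : (f : LaurentSeries (AlgebraicClosure ℚ)) = coeffEmb (AlgebraicClosure ℚ) f₀)
    (r : ℚ) (h : HasValueAt P f (algebraMap ℚ (AlgebraicClosure ℚ) r)) :
    HasValueAt (arithmeticGalois (modularFunctionFieldFull N) σ • P) f
      (algebraMap ℚ (AlgebraicClosure ℚ) r) := by
  unfold HasValueAt at h ⊢
  set g := arithmeticGalois (modularFunctionFieldFull N) σ with hg
  have h1 : g • f = f := arithmeticGalois_smul_coeffEmb _ σ f f₀ hf
  have h2 : g • (algebraMap (AlgebraicClosure ℚ) (modularFunctionFieldBar N)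
      (algebraMap ℚ (AlgebraicClosure ℚ) r)) =
      algebraMap (AlgebraicClosure ℚ) (modularFunctionFieldBar N)
        (algebraMap ℚ (AlgebraicClosure ℚ) r) := by
    rw [SemilinearAut.smul_algebraMap]
    congr 1
    exact σ.commutes r
  have h3 : g • (f - algebraMap (AlgebraicClosure ℚ) (modularFunctionFieldBar N)
      (algebraMap ℚ (AlgebraicClosure ℚ) r)) =
      f - algebraMap (AlgebraicClosure ℚ) (modularFunctionFieldBar N)
        (algebraMap ℚ (AlgebraicClosure ℚ) r) := by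
    rw [smul_sub, h1, h2]
  rw [← h3, SemilinearAut.ord_smul]
  exact h

/-- `j(E)` of the base change of an integral curve is the image of a rational number. -/
theorem jInv_curveBar (W : WeierstrassCurve ℤ) :
    jInv (curveBar W) =
      algebraMap ℚ (AlgebraicClosure ℚ) ((W.c₄ : ℚ) ^ 3 / (W.Δ : ℚ)) := by
  have h1 : (curveBar W).c₄ = algebraMap ℚ (AlgebraicClosure ℚ) (W.c₄ : ℚ) := by
    change ((W.map (Int.castRingHom ℚ)).map (algebraMap ℚ (AlgebraicClosure ℚ))).c₄ = _
    rw [WeierstrassCurve.map_c₄, WeierstrassCurve.map_c₄]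
    simp
  have h2 : (curveBar W).Δ = algebraMap ℚ (AlgebraicClosure ℚ) (W.Δ : ℚ) := by
    change ((W.map (Int.castRingHom ℚ)).map (algebraMap ℚ (AlgebraicClosure ℚ))).Δ = _
    rw [WeierstrassCurve.map_Δ, WeierstrassCurve.map_Δ]
    simp
  rw [jInv, h1, h2, map_div₀, map_pow]

theorem Δ_curveBar_ne_zero (W : WeierstrassCurve ℤ) (hΔ : W.Δ ≠ 0) : (curveBar W).Δ ≠ 0 := by
  have h2 : (curveBar W).Δ = algebraMap ℚ (AlgebraicClosure ℚ) (W.Δ : ℚ) := by
    change ((W.map (Int.castRingHom ℚ)).map (algebraMap ℚ (AlgebraicClosure ℚ))).Δ = _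
    rw [WeierstrassCurve.map_Δ, WeierstrassCurve.map_Δ]
    simp
  rw [h2]
  simpa using hΔ

/-- `v₂(j) < 0` when `2 ∣ Δ`, `2 ∤ c₄`. -/
theorem padicValRat_two_j_neg (W : WeierstrassCurve ℤ) (hΔ : W.Δ ≠ 0)
    (h2Δ : (2 : ℤ) ∣ W.Δ) (h2c₄ : ¬ (2 : ℤ) ∣ W.c₄) :
    padicValRat 2 ((W.c₄ : ℚ) ^ 3 / (W.Δ : ℚ)) < 0 := by
  haveI : Fact (Nat.Prime 2) := ⟨Nat.prime_two⟩
  have hc : W.c₄ ≠ 0 := fun h => h2c₄ (h ▸ dvd_zero _)
  have hcq : (W.c₄ : ℚ) ≠ 0 := by exact_mod_cast hc
  have hΔq : (W.Δ : ℚ) ≠ 0 := by exact_mod_cast hΔ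
  rw [padicValRat.div (pow_ne_zero 3 hcq) hΔq, padicValRat.pow]
  have h1 : padicValRat 2 (W.c₄ : ℚ) = 0 := by
    rw [padicValRat.of_int]
    have : padicValInt 2 W.c₄ = 0 := padicValInt.eq_zero_of_not_dvd (by exact_mod_cast h2c₄)
    simp [this]
  have h2 : 0 < padicValRat 2 (W.Δ : ℚ) := by
    rw [padicValRat.of_int]
    have : 1 ≤ padicValInt 2 W.Δ := by
      have := (padicValInt_dvd_iff (p := 2) 1 W.Δ).mp (by simpa using h2Δ)
      rcases this with h | h
      · exact absurd h hΔ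
      · exact h
    exact_mod_cast this
  rw [h1]
  linarith

/-- **GLUE.**  The MOD node from its pieces. -/
theorem moduliPlace_of_pieces (hA1 : PlaceOfModularPairStatement)
    (hA2 : PlaceUniqueStatement) (hB : VeluModularPairStatement) : ModuliPlaceStatement := by
  intro p _ hp hp5 W hΔ Q hQfix hQord h2Δ h2c₄
  have hp2 : p ≠ 2 := by omega
  obtain ⟨hΔ', hpair⟩ := hB p hp hp2 (curveBar W) (Δ_curveBar_ne_zero W hΔ) Q hQord
  obtain ⟨r', hr'⟩ := veluRational p W Q hQfix
  refine ⟨hΔ', ⟨r', hr'⟩, ?_⟩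
  obtain ⟨P, hP1, hP2⟩ := hA1 p hp _ _ hpair
  refine ⟨P, ?_, hP1, hP2⟩
  intro σ
  have hj := jInv_curveBar W
  rw [hj] at hP1
  rw [← hr'] at hP2
  have hr := padicValRat_two_j_neg W hΔ h2Δ h2c₄
  refine hA2 p hp hp2 _ hr (algebraMap ℚ (AlgebraicClosure ℚ) r') _ _ ?_ ?_ hP1 hP2
  · exact hasValueAt_smul_of_rational σ P (jBar p) jq rfl _ hP1
  · exact hasValueAt_smul_of_rational σ P (jNBar p) (qExpand ℚ p jq) rfl _ hP2

end Fermat.Agent.S15.H542

end
end
-- ===== PACK-END S15/H542/ModGlueCore.lean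

-- ===== PACK-BEGIN S15/H215/LatticeVelu.lean
section



/-!
# S15, piece MOD-B4 (helper215): the lattice form of Vélu's formulas

`latticeVelu : LatticeVeluStatement` (exact type of `Fermat/Agent/S15/H542/ModBSpec.lean`).

For a period pair `L`, a prime `p` and `z₀ ∉ L` with `p z₀ ∈ L`:

* `exists_superLattice_h215` : there is a period pair `L'` with lattice `L + ℤ z₀`
  (explicit basis from a Bézout relation);
* `G_superLattice_h215` : for ANY such `L'` and `n > 2`,
  `G_n(L') = ∑_{k < p} ∑_{l ∈ L} (l + k z₀)⁻ⁿ` (coset decomposition of the lattice sum);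
* `g₂_superLattice_h215`, `g₃_superLattice_h215` : for ANY such `L'`,
  `g₂(L') = g₂(L) + 10 ∑_{k=1}^{p-1} (6 ℘(k z₀)² - g₂/2)`,
  `g₃(L') = g₃(L) + (7/6) ∑_{k=1}^{p-1} (120 ℘(k z₀)³ - 18 g₂ ℘(k z₀) - 12 g₃)`.
-/

set_option autoImplicit false

namespace Fermat.Agent.S15.H215

open Filter Topology
open Fermat.Agent.S15.H542

variable {L L' : PeriodPair} {z₀ : ℂ} {p : ℕ}

theorem intCast_mul_mem_h215 (L : PeriodPair) (m : ℤ) {x : ℂ} (hx : x ∈ L.lattice) :
    (m : ℂ) * x ∈ L.lattice := by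
  have := L.lattice.smul_mem m hx
  rwa [zsmul_eq_mul] at this

theorem mul_mem_lattice_iff_h215 (hp : p.Prime) (h0 : z₀ ∉ L.lattice)
    (hpz : (p : ℂ) * z₀ ∈ L.lattice) (d : ℤ) :
    (d : ℂ) * z₀ ∈ L.lattice ↔ (p : ℤ) ∣ d := by
  constructor
  · intro hd
    by_contra hnd
    have hcop : IsCoprime d (p : ℤ) :=
      ((Nat.prime_iff_prime_int.mp hp).coprime_iff_not_dvd.mpr hnd).symm
    obtain ⟨u, v, huv⟩ := hcop
    apply h0
    have h1 := intCast_mul_mem_h215 L u hd
    have h2 := intCast_mul_mem_h215 L v hpz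
    have h3 := L.lattice.add_mem h1 h2
    have h4 : (u : ℂ) * ((d : ℂ) * z₀) + (v : ℂ) * ((p : ℂ) * z₀) = z₀ := by
      have : ((u * d + v * (p : ℤ) : ℤ) : ℂ) = 1 := by rw [huv]; simp
      push_cast at this
      linear_combination z₀ * this
    rwa [h4] at h3
  · rintro ⟨m, rfl⟩
    have := intCast_mul_mem_h215 L m hpz
    have h4 : (m : ℂ) * ((p : ℂ) * z₀) = ((p : ℤ) * m : ℤ) * z₀ := by push_cast; ring
    rwa [h4] at this

/-- The coset map `(k, l) ↦ l + k z₀`. -/
noncomputable def cosetMapH215 (hL' : IsSuperLattice L L' z₀) (p : ℕ) :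
    Fin p × L.lattice → L'.lattice :=
  fun x => ⟨(x.2 : ℂ) + (x.1.val : ℂ) * z₀, (hL' _).mpr ⟨(x.1.val : ℤ), by
    have : (x.2 : ℂ) + (x.1.val : ℂ) * z₀ - ((x.1.val : ℤ) : ℂ) * z₀ = (x.2 : ℂ) := by
      push_cast; ring
    rw [this]; exact x.2.2⟩⟩

theorem cosetMapH215_bijective (hp : p.Prime) (h0 : z₀ ∉ L.lattice)
    (hpz : (p : ℂ) * z₀ ∈ L.lattice) (hL' : IsSuperLattice L L' z₀) :
    Function.Bijective (cosetMapH215 hL' p) := by
  constructor
  · rintro ⟨k, l⟩ ⟨k', l'⟩ h
    have h1 : (l : ℂ) + (k.val : ℂ) * z₀ = (l' : ℂ) + (k'.val : ℂ) * z₀ := congrArg Subtype.val h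
    have h2 : (((k.val : ℤ) - (k'.val : ℤ) : ℤ) : ℂ) * z₀ ∈ L.lattice := by
      have h3 : (((k.val : ℤ) - (k'.val : ℤ) : ℤ) : ℂ) * z₀ = (l' : ℂ) - (l : ℂ) := by
        push_cast; linear_combination h1
      rw [h3]
      exact L.lattice.sub_mem l'.2 l.2
    have h4 := (mul_mem_lattice_iff_h215 hp h0 hpz _).mp h2
    have h5 : ((k.val : ℤ) - (k'.val : ℤ)) = 0 := by
      apply Int.eq_zero_of_abs_lt_dvd h4
      have := k.isLt
      have := k'.isLt
      rw [abs_lt]
      constructor <;> omega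
    have h6 : k = k' := by
      apply Fin.ext
      omega
    subst h6
    have h7 : (l : ℂ) = (l' : ℂ) := by linear_combination h1
    rw [Subtype.ext h7]
  · rintro ⟨z, hz⟩
    obtain ⟨k, hk⟩ := (hL' z).mp hz
    have hp0 : (0 : ℤ) < p := by exact_mod_cast hp.pos
    have hr0 : 0 ≤ k % (p : ℤ) := Int.emod_nonneg _ hp0.ne'
    have hr1 : k % (p : ℤ) < p := Int.emod_lt_of_pos _ hp0
    have hkd : k = (p : ℤ) * (k / p) + k % p := (Int.mul_ediv_add_emod k p).symm
    have hmem : z - ((k % (p : ℤ) : ℤ) : ℂ) * z₀ ∈ L.lattice := by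
      have h1 := intCast_mul_mem_h215 L (k / p) hpz
      have h2 := L.lattice.add_mem hk h1
      have h3 : z - (k : ℂ) * z₀ + ((k / (p : ℤ) : ℤ) : ℂ) * ((p : ℂ) * z₀) =
          z - ((k % (p : ℤ) : ℤ) : ℂ) * z₀ := by
        have : (k : ℂ) = ((p : ℤ) : ℂ) * ((k / (p : ℤ) : ℤ) : ℂ) + ((k % (p : ℤ) : ℤ) : ℂ) := by
          exact_mod_cast congrArg (Int.cast : ℤ → ℂ) hkd
        rw [this]; push_cast; ring
      rwa [h3] at h2
    refine ⟨(⟨(k % (p : ℤ)).toNat, by omega⟩, ⟨_, hmem⟩), ?_⟩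
    apply Subtype.ext
    show z - ((k % (p : ℤ) : ℤ) : ℂ) * z₀ + (((k % (p : ℤ)).toNat : ℕ) : ℂ) * z₀ = z
    have : (((k % (p : ℤ)).toNat : ℕ) : ℂ) = ((k % (p : ℤ) : ℤ) : ℂ) := by
      have h := Int.toNat_of_nonneg hr0
      exact_mod_cast congrArg (Int.cast : ℤ → ℂ) h
    rw [this]; ring

/-- Coset decomposition of the Eisenstein sums of the superlattice. -/
theorem G_superLattice_h215 (hp : p.Prime) (h0 : z₀ ∉ L.lattice)
    (hpz : (p : ℂ) * z₀ ∈ L.lattice) (hL' : IsSuperLattice L L' z₀) {n : ℕ} (hn : 2 < n) :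
    L'.G n = ∑ k : Fin p, L.sumInvPow (-((k.val : ℂ) * z₀)) n := by
  have hS' : HasSum (fun l : L'.lattice => (((l : ℂ)) ^ n)⁻¹) (L'.G n) := by
    have := L'.hasSum_sumInvPow 0 hn
    simpa using this
  have hS : HasSum (fun x : Fin p × L.lattice => ((((cosetMapH215 hL' p x : L'.lattice) : ℂ)) ^ n)⁻¹)
      (L'.G n) :=
    (Equiv.ofBijective _ (cosetMapH215_bijective hp h0 hpz hL')).hasSum_iff.mpr hS'
  have hfib : ∀ k : Fin p, HasSum
      (fun l : L.lattice => ((((cosetMapH215 hL' p (k, l) : L'.lattice) : ℂ)) ^ n)⁻¹)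
      (L.sumInvPow (-((k.val : ℂ) * z₀)) n) := by
    intro k
    have := L.hasSum_sumInvPow (-((k.val : ℂ) * z₀)) hn
    simpa [cosetMapH215, sub_neg_eq_add] using this
  have := hS.prod_fiberwise hfib
  exact this.unique (hasSum_fintype _)


/-- Abstract construction of a basis of `ℤω₁ + ℤω₂ + ℤz₀` when `p z₀ = a ω₁ + b ω₂`, `(b, p) = 1`. -/
theorem exists_basis_aux_h215 (ω₁ ω₂ z₀ : ℂ) (indep : LinearIndependent ℝ ![ω₁, ω₂]) (p : ℕ)
    (hp0 : p ≠ 0) (a b : ℤ) (h : (p : ℂ) * z₀ = a * ω₁ + b * ω₂) (hb : IsCoprime b (p : ℤ)) :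
    ∃ w : ℂ, LinearIndependent ℝ ![ω₁, w] ∧
      ∀ z : ℂ, z ∈ Submodule.span ℤ {ω₁, w} ↔
        ∃ k : ℤ, z - k * z₀ ∈ Submodule.span ℤ {ω₁, ω₂} := by
  obtain ⟨u, v, huv⟩ := hb
  have huvC : (u : ℂ) * b + v * p = 1 := by exact_mod_cast congrArg (Int.cast : ℤ → ℂ) huv
  have hpC : (p : ℂ) ≠ 0 := by exact_mod_cast hp0
  set w : ℂ := u * z₀ + v * ω₂ with hw
  have hpw : (p : ℂ) * w = u * a * ω₁ + ω₂ := by
    rw [hw]
    linear_combination (u : ℂ) * h + ω₂ * huvC
  have hz₀ : z₀ = b * w + v * a * ω₁ := by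
    rw [hw]
    linear_combination (-z₀) * huvC + (v : ℂ) * h
  refine ⟨w, ?_, ?_⟩
  · rw [LinearIndependent.pair_iff] at indep ⊢
    intro s t hst
    have hw' : w = ((u * a / p : ℝ) : ℂ) * ω₁ + ((1 / p : ℝ) : ℂ) * ω₂ := by
      push_cast
      field_simp
      linear_combination hpw
    have h1 : (s + t * (u * a / p) : ℝ) • ω₁ + (t * (1 / p) : ℝ) • ω₂ = 0 := by
      simp only [Complex.real_smul] at hst ⊢
      rw [hw'] at hst
      push_cast at hst ⊢
      linear_combination hst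
    obtain ⟨h2, h3⟩ := indep _ _ h1
    have hpR : (p : ℝ) ≠ 0 := by exact_mod_cast hp0
    have ht : t = 0 := by
      have := mul_eq_zero.mp h3
      rcases this with h | h
      · exact h
      · exfalso; exact (one_div_ne_zero hpR) h
    refine ⟨?_, ht⟩
    rw [ht] at h2
    simpa using h2
  · intro z
    simp only [Submodule.mem_span_pair, zsmul_eq_mul]
    constructor
    · rintro ⟨m, n, rfl⟩
      refine ⟨n * u, m, n * v, ?_⟩
      rw [hw]; push_cast; ring
    · rintro ⟨k, m, n, hmn⟩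
      refine ⟨k * v * a + m - n * u * a, k * b + n * p, ?_⟩
      have hz : z = k * z₀ + (m * ω₁ + n * ω₂) := by linear_combination -hmn
      rw [hz]
      push_cast
      have hω₂ : ω₂ = p * w - u * a * ω₁ := by linear_combination -hpw
      calc (↑k * ↑v * ↑a + ↑m - ↑n * ↑u * ↑a) * ω₁ + (↑k * ↑b + ↑n * ↑p) * w
          = k * (b * w + v * a * ω₁) + (m * ω₁ + n * (p * w - u * a * ω₁)) := by ring
        _ = k * z₀ + (m * ω₁ + n * ω₂) := by rw [← hz₀, ← hω₂]


/-- `∑ (l + x)⁻ⁿ = ∑ (l - x)⁻ⁿ` for even `n`. -/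
theorem sumInvPow_neg_h215 (L : PeriodPair) (x : ℂ) {n : ℕ} (hn : Even n) :
    L.sumInvPow (-x) n = L.sumInvPow x n := by
  unfold PeriodPair.sumInvPow
  rw [← (Equiv.neg L.lattice).tsum_eq]
  congr 1
  ext l
  simp only [Equiv.neg_apply, NegMemClass.coe_neg, sub_neg_eq_add]
  have : (-(l : ℂ) + x) = -((l : ℂ) - x) := by ring
  rw [this, hn.neg_pow]

theorem natCast_mul_notMem_h215 (hp : p.Prime) (h0 : z₀ ∉ L.lattice)
    (hpz : (p : ℂ) * z₀ ∈ L.lattice) {k : ℕ} (hk : k ∈ Finset.Icc 1 (p - 1)) :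
    (k : ℂ) * z₀ ∉ L.lattice := by
  intro hmem
  have h1 : ((k : ℤ) : ℂ) * z₀ ∈ L.lattice := by simpa using hmem
  have h2 := (mul_mem_lattice_iff_h215 hp h0 hpz _).mp h1
  have h3 : p ∣ k := by exact_mod_cast h2
  rw [Finset.mem_Icc] at hk
  have := Nat.le_of_dvd (by omega) h3
  have := hp.pos
  omega

/-- Coset decomposition, second form: `G_n(L') = G_n(L) + ∑_{k=1}^{p-1} ∑_l (l - k z₀)⁻ⁿ`
for even `n > 2`. -/
theorem G_superLattice_Icc_h215 (hp : p.Prime) (h0 : z₀ ∉ L.lattice)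
    (hpz : (p : ℂ) * z₀ ∈ L.lattice) (hL' : IsSuperLattice L L' z₀) {n : ℕ} (hn : 2 < n)
    (hev : Even n) :
    L'.G n = L.G n + ∑ k ∈ Finset.Icc 1 (p - 1), L.sumInvPow ((k : ℂ) * z₀) n := by
  rw [G_superLattice_h215 hp h0 hpz hL' hn]
  simp_rw [sumInvPow_neg_h215 L _ hev]
  rw [Fin.sum_univ_eq_sum_range (fun k : ℕ => L.sumInvPow ((k : ℂ) * z₀) n) p,
    Finset.range_eq_Ico, Finset.sum_eq_sum_Ico_succ_bot hp.pos]
  have h1 : L.sumInvPow (((0 : ℕ) : ℂ) * z₀) n = L.G n := by
    rw [Nat.cast_zero, zero_mul, PeriodPair.sumInvPow_zero]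
  have h2 : Finset.Ico (0 + 1) p = Finset.Icc 1 (p - 1) := by
    ext k
    have := hp.pos
    simp only [Finset.mem_Ico, Finset.mem_Icc]
    omega
  rw [h1, h2]

/-- **Vélu, lattice form, `g₂`** (for any period pair `L'` with lattice `L + ℤ z₀`). -/
theorem g₂_superLattice_h215 (hp : p.Prime) (h0 : z₀ ∉ L.lattice)
    (hpz : (p : ℂ) * z₀ ∈ L.lattice) (hL' : IsSuperLattice L L' z₀) :
    L'.g₂ = L.g₂ + 10 * ∑ k ∈ Finset.Icc 1 (p - 1),
      (6 * L.weierstrassP (k * z₀) ^ 2 - L.g₂ / 2) := by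
  have hG := G_superLattice_Icc_h215 hp h0 hpz hL' (n := 4) (by norm_num) (by decide)
  have hsum : ∑ k ∈ Finset.Icc 1 (p - 1), (6 * L.weierstrassP (k * z₀) ^ 2 - L.g₂ / 2) =
      6 * ∑ k ∈ Finset.Icc 1 (p - 1), L.sumInvPow ((k : ℂ) * z₀) 4 := by
    rw [Finset.mul_sum]
    refine Finset.sum_congr rfl fun k hk => ?_
    exact (six_mul_sumInvPow_four_h215 L _ (natCast_mul_notMem_h215 hp h0 hpz hk)).symm
  rw [hsum]
  unfold PeriodPair.g₂
  rw [hG]
  ring

/-- **Vélu, lattice form, `g₃`** (for any period pair `L'` with lattice `L + ℤ z₀`). -/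
theorem g₃_superLattice_h215 (hp : p.Prime) (h0 : z₀ ∉ L.lattice)
    (hpz : (p : ℂ) * z₀ ∈ L.lattice) (hL' : IsSuperLattice L L' z₀) :
    L'.g₃ = L.g₃ + 7 / 6 * ∑ k ∈ Finset.Icc 1 (p - 1),
      (120 * L.weierstrassP (k * z₀) ^ 3 - 18 * L.g₂ * L.weierstrassP (k * z₀) - 12 * L.g₃) := by
  have hG := G_superLattice_Icc_h215 hp h0 hpz hL' (n := 6) (by norm_num) (by decide)
  have hsum : ∑ k ∈ Finset.Icc 1 (p - 1),
      (120 * L.weierstrassP (k * z₀) ^ 3 - 18 * L.g₂ * L.weierstrassP (k * z₀) - 12 * L.g₃) =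
      120 * ∑ k ∈ Finset.Icc 1 (p - 1), L.sumInvPow ((k : ℂ) * z₀) 6 := by
    rw [Finset.mul_sum]
    refine Finset.sum_congr rfl fun k hk => ?_
    exact (mul_sumInvPow_six_h215 L _ (natCast_mul_notMem_h215 hp h0 hpz hk)).symm
  rw [hsum]
  unfold PeriodPair.g₃
  rw [hG]
  ring

/-- Existence of a period pair with lattice `L + ℤ z₀`. -/
theorem exists_superLattice_h215 (L : PeriodPair) (hp : p.Prime) (h0 : z₀ ∉ L.lattice)
    (hpz : (p : ℂ) * z₀ ∈ L.lattice) : ∃ L' : PeriodPair, IsSuperLattice L L' z₀ := by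
  obtain ⟨a, b, hab⟩ := PeriodPair.mem_lattice.mp hpz
  by_cases hb : (p : ℤ) ∣ b
  · -- then `p ∤ a`
    have ha : ¬ (p : ℤ) ∣ a := by
      rintro ⟨a', rfl⟩
      obtain ⟨b', rfl⟩ := hb
      apply h0
      rw [PeriodPair.mem_lattice]
      refine ⟨a', b', ?_⟩
      have hpC : (p : ℂ) ≠ 0 := by exact_mod_cast hp.ne_zero
      apply mul_left_cancel₀ hpC
      rw [← hab]; push_cast; ring
    have hcop : IsCoprime a (p : ℤ) :=
      ((Nat.prime_iff_prime_int.mp hp).coprime_iff_not_dvd.mpr ha).symm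
    have hindep : LinearIndependent ℝ ![L.ω₂, L.ω₁] := by
      have h := L.indep
      rw [LinearIndependent.pair_iff] at h ⊢
      intro s t hst
      have := h t s (by rw [← hst]; ring)
      exact ⟨this.2, this.1⟩
    obtain ⟨w, hw, hspan⟩ := exists_basis_aux_h215 L.ω₂ L.ω₁ z₀ hindep p hp.ne_zero b a
      (by rw [← hab]; ring) hcop
    refine ⟨⟨L.ω₂, w, hw⟩, fun z => ?_⟩
    show z ∈ Submodule.span ℤ {L.ω₂, w} ↔ ∃ k : ℤ, z - k * z₀ ∈ Submodule.span ℤ {L.ω₁, L.ω₂}
    rw [hspan z, Set.pair_comm L.ω₂ L.ω₁]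
  · have hcop : IsCoprime b (p : ℤ) :=
      ((Nat.prime_iff_prime_int.mp hp).coprime_iff_not_dvd.mpr hb).symm
    obtain ⟨w, hw, hspan⟩ := exists_basis_aux_h215 L.ω₁ L.ω₂ z₀ L.indep p hp.ne_zero a b
      hab.symm hcop
    refine ⟨⟨L.ω₁, w, hw⟩, fun z => ?_⟩
    show z ∈ Submodule.span ℤ {L.ω₁, w} ↔ ∃ k : ℤ, z - k * z₀ ∈ Submodule.span ℤ {L.ω₁, L.ω₂}
    exact hspan z

/-- **MOD-B4.**  The lattice form of Vélu's formulas. -/
theorem latticeVelu : LatticeVeluStatement := by
  intro L p hp _ z₀ h0 hpz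
  obtain ⟨L', hL'⟩ := exists_superLattice_h215 L hp h0 hpz
  exact ⟨L', hL', g₂_superLattice_h215 hp h0 hpz hL', g₃_superLattice_h215 hp h0 hpz hL'⟩

end Fermat.Agent.S15.H215

end
-- ===== PACK-END S15/H215/LatticeVelu.lean

-- ===== PACK-BEGIN S15/H215/ModBMap.lean
section


/-!
# S15, piece MOD-B0 / MOD-B0' (helper215): Vélu's curve and `IsModularPair` under field embeddings

* `veluMap : VeluMapStatement`
* `isModularPairMap : IsModularPairMapStatement`
(exact types of `Fermat/Agent/S15/H542/ModBSpec.lean`).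
-/

set_option autoImplicit false

noncomputable section

open WeierstrassCurve
open scoped WeierstrassCurve.Affine

namespace Fermat.Agent.S15.H215

open Fermat.Agent.S15.H542

section Velu

variable {K L : Type} [Field K] [Field L] [DecidableEq K] [DecidableEq L] [Algebra K L]

theorem xOf_map_h215 (W : WeierstrassCurve K) (P : W.toAffine.Point) :
    xOf (WeierstrassCurve.Affine.Point.map (W' := W) (Algebra.ofId K L) P) =
      algebraMap K L (xOf P) := by
  cases P with
  | zero => simp [xOf]; rfl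
  | some x y h => rfl

theorem yOf_map_h215 (W : WeierstrassCurve K) (P : W.toAffine.Point) :
    yOf (WeierstrassCurve.Affine.Point.map (W' := W) (Algebra.ofId K L) P) =
      algebraMap K L (yOf P) := by
  cases P with
  | zero => simp [yOf]; rfl
  | some x y h => rfl

theorem veluT1_map_h215 (W : WeierstrassCurve K) (x : K) :
    veluT1 (W⁄L) (algebraMap K L x) = algebraMap K L (veluT1 W x) := by
  simp [veluT1, WeierstrassCurve.baseChange, map_ofNat]

theorem veluU1_map_h215 (W : WeierstrassCurve K) (x : K) :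
    veluU1 (W⁄L) (algebraMap K L x) = algebraMap K L (veluU1 W x) := by
  simp [veluU1, WeierstrassCurve.baseChange, map_ofNat]

theorem nsmul_map_h215 (W : WeierstrassCurve K) (Q : W.toAffine.Point) (k : ℕ) :
    k • WeierstrassCurve.Affine.Point.map (W' := W) (Algebra.ofId K L) Q =
      WeierstrassCurve.Affine.Point.map (W' := W) (Algebra.ofId K L) (k • Q) :=
  (map_nsmul (WeierstrassCurve.Affine.Point.map (W' := W) (Algebra.ofId K L)) k Q).symm

theorem xOf_nsmul_map_h215 (W : WeierstrassCurve K) (Q : W.toAffine.Point) (k : ℕ) :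
    xOf (k • WeierstrassCurve.Affine.Point.map (W' := W) (Algebra.ofId K L) Q) =
      algebraMap K L (xOf (k • Q)) := by
  rw [nsmul_map_h215, xOf_map_h215]

theorem veluT_map_h215 (W : WeierstrassCurve K) (Q : W.toAffine.Point) (p : ℕ) :
    veluT (W⁄L) (WeierstrassCurve.Affine.Point.map (W' := W) (Algebra.ofId K L) Q) p =
      algebraMap K L (veluT W Q p) := by
  unfold veluT
  rw [map_sum]
  refine Finset.sum_congr rfl fun k _ => ?_
  rw [xOf_nsmul_map_h215, veluT1_map_h215]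

theorem veluW_map_h215 (W : WeierstrassCurve K) (Q : W.toAffine.Point) (p : ℕ) :
    veluW (W⁄L) (WeierstrassCurve.Affine.Point.map (W' := W) (Algebra.ofId K L) Q) p =
      algebraMap K L (veluW W Q p) := by
  unfold veluW
  rw [map_sum]
  refine Finset.sum_congr rfl fun k _ => ?_
  rw [xOf_nsmul_map_h215, veluT1_map_h215, veluU1_map_h215, map_add, map_mul]

end Velu

/-- **B0.**  Vélu's curve commutes with field embeddings. -/
theorem veluMap : VeluMapStatement := by
  intro K L _ _ _ _ _ W Q p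
  ext
  · rfl
  · rfl
  · rfl
  · show (W⁄L).a₄ - 5 * veluT (W⁄L) _ p = algebraMap K L (W.a₄ - 5 * veluT W Q p)
    rw [veluT_map_h215]
    simp [WeierstrassCurve.baseChange, map_ofNat]
  · show (W⁄L).a₆ - (W⁄L).b₂ * veluT (W⁄L) _ p - 7 * veluW (W⁄L) _ p =
      algebraMap K L (W.a₆ - W.b₂ * veluT W Q p - 7 * veluW W Q p)
    rw [veluT_map_h215, veluW_map_h215]
    simp [WeierstrassCurve.baseChange, map_ofNat]

/-- **B0'.**  `IsModularPair` only depends on the pair up to field embeddings. -/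
theorem isModularPairMap : IsModularPairMapStatement := by
  intro K L _ _ _ _ f N _ a a'
  have hcomm : ∀ r : ℚ, f (algebraMap ℚ K r) = algebraMap ℚ L r := fun r => by
    simp
  have key : ∀ G : MvPolynomial (Fin 2) ℚ,
      MvPolynomial.aeval ![f a, f a'] G = f (MvPolynomial.aeval ![a, a'] G) := by
    intro G
    induction G using MvPolynomial.induction_on with
    | C r => simp
    | add p q hp hq => simp only [map_add, hp, hq]
    | mul_X p i hp =>
      simp only [map_mul, hp, MvPolynomial.aeval_X]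
      congr 1
      fin_cases i <;> simp
  unfold IsModularPair
  constructor
  · intro h G hG
    have := h G hG
    rw [key] at this
    exact (map_eq_zero f).mp this
  · intro h G hG
    rw [key, h G hG, map_zero]

end Fermat.Agent.S15.H215

end
end
-- ===== PACK-END S15/H215/ModBMap.lean

-- ===== PACK-BEGIN S15/H215/ModBGlue.lean
section




/-!
# S15, piece MOD-B-ℂ (helper215): the bridge over `ℂ` from uniformisation + lattice statements

* `veluModularPairComplex_of :
    UniformizationStatement → LatticeModularPairStatement → VeluModularPairComplexStatement`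
  (B4 = `latticeVelu` is used in its strong form `g₂_superLattice_h215`, `g₃_superLattice_h215`).

Algebra: with `x_k = ℘(k z₀) - b₂/12`, `g₂ = c₄/12`, `g₃ = c₆/216`,
`6 ℘² - g₂/2 = 6 x² + b₂ x + b₄` and
`120 ℘³ - 18 g₂ ℘ - 12 g₃ = b₂ (6 x² + b₂ x + b₄) + 12 (10 x³ + 2 b₂ x² + 3 b₄ x + b₆)`, hence
`c₄(E') = 12 g₂(Λ')`, `c₆(E') = 216 g₃(Λ')` for Vélu's curve `E'`.
-/

set_option autoImplicit false

noncomputable section

open WeierstrassCurve
open scoped WeierstrassCurve.Affine

namespace Fermat.Agent.S15.H215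

open Fermat.Agent.S15.H542

/-- Folding a symmetric sum: `∑_{k=1}^{2m} g k = 2 ∑_{k=1}^{m} g k` if `g (2m+1-k) = g k`. -/
theorem sum_Icc_fold_h215 (m : ℕ) (g : ℕ → ℂ)
    (hg : ∀ k ∈ Finset.Icc 1 m, g (2 * m + 1 - k) = g k) :
    ∑ k ∈ Finset.Icc 1 (2 * m), g k = 2 * ∑ k ∈ Finset.Icc 1 m, g k := by
  have e1 : Finset.Icc 1 (2 * m) = Finset.Ico 1 (2 * m + 1) := by
    ext k; simp only [Finset.mem_Icc, Finset.mem_Ico]; omega
  have e2 : Finset.Icc 1 m = Finset.Ico 1 (m + 1) := by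
    ext k; simp only [Finset.mem_Icc, Finset.mem_Ico]; omega
  have h1 : ∑ k ∈ Finset.Ico 1 (2 * m + 1), g k =
      ∑ k ∈ Finset.Ico 1 (m + 1), g k + ∑ k ∈ Finset.Ico (m + 1) (2 * m + 1), g k :=
    (Finset.sum_Ico_consecutive g (by omega) (by omega)).symm
  have h2 := Finset.sum_Ico_reflect g 1 (m := m + 1) (n := 2 * m + 1) (by omega)
  have e3 : 2 * m + 1 + 1 - (m + 1) = m + 1 := by omega
  have e4 : 2 * m + 1 + 1 - 1 = 2 * m + 1 := by omega
  rw [e3, e4] at h2
  have h3 : ∑ j ∈ Finset.Ico 1 (m + 1), g (2 * m + 1 - j) = ∑ j ∈ Finset.Ico 1 (m + 1), g j := by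
    refine Finset.sum_congr rfl fun k hk => ?_
    exact hg k (by rw [e2]; exact hk)
  rw [e1, h1, ← h2, h3, ← e2]
  ring

/-- `℘((p - k) z₀) = ℘(k z₀)` if `p z₀` is a period. -/
theorem weierstrassP_reflect_h215 (L : PeriodPair) {z₀ : ℂ} {p : ℕ}
    (hpz : (p : ℂ) * z₀ ∈ L.lattice) {k : ℕ} (hk : k ≤ p) :
    L.weierstrassP (((p - k : ℕ) : ℂ) * z₀) = L.weierstrassP ((k : ℂ) * z₀) := by
  have h1 : ((p - k : ℕ) : ℂ) * z₀ = -((k : ℂ) * z₀) + ((⟨_, hpz⟩ : L.lattice) : ℂ) := by
    rw [Nat.cast_sub hk]; ring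
  rw [h1, L.weierstrassP_add_coe, L.weierstrassP_neg]

/-- **B-ℂ from B3 and B5.** -/
theorem veluModularPairComplex_of (h3 : UniformizationStatement)
    (h5 : LatticeModularPairStatement) : VeluModularPairComplexStatement := by
  intro _ p _ hp hp2 E hΔ Q hQord
  obtain ⟨U⟩ := h3 E hΔ
  obtain ⟨z₀, rfl⟩ := U.φ_surjective Q
  -- `z₀ ∉ Λ`, `p z₀ ∈ Λ`
  have h0 : z₀ ∉ U.L.lattice := by
    intro hz
    have : U.φ z₀ = 0 := (U.φ_eq_zero_iff z₀).mpr hz
    rw [this, addOrderOf_zero] at hQord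
    exact hp.one_lt.ne hQord
  have hpz : (p : ℂ) * z₀ ∈ U.L.lattice := by
    rw [← U.φ_eq_zero_iff]
    have h1 : U.φ ((p : ℂ) * z₀) = p • U.φ z₀ := by
      rw [← nsmul_eq_mul, map_nsmul]
    rw [h1, ← hQord]
    exact addOrderOf_nsmul_eq_zero _
  obtain ⟨L', hL'⟩ := exists_superLattice_h215 U.L hp h0 hpz
  have hg2 := g₂_superLattice_h215 hp h0 hpz hL'
  have hg3 := g₃_superLattice_h215 hp h0 hpz hL'
  obtain ⟨hΔL, hΔL', hmod⟩ := h5 p hp U.L L' z₀ h0 hpz hL'
  -- `p = 2 m + 1`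
  obtain ⟨m, hm⟩ : ∃ m, p = 2 * m + 1 := by
    rcases hp.eq_two_or_odd' with h | h
    · exact absurd h hp2
    · exact h
  have hm2 : (p - 1) / 2 = m := by omega
  have hm1 : p - 1 = 2 * m := by omega
  -- `x`-coordinates of the multiples
  have hx : ∀ k ∈ Finset.Icc 1 m,
      xOf (k • U.φ z₀) = U.L.weierstrassP ((k : ℂ) * z₀) - E.b₂ / 12 := by
    intro k hk
    have hk' : k ∈ Finset.Icc 1 (p - 1) := by
      rw [Finset.mem_Icc] at hk ⊢; omega
    have hnot := natCast_mul_notMem_h215 hp h0 hpz hk'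
    have h1 : k • U.φ z₀ = U.φ ((k : ℂ) * z₀) := by
      rw [← nsmul_eq_mul, map_nsmul]
    rw [h1, U.xOf_φ _ hnot]
  -- folding the sums
  have hfold2 : ∑ k ∈ Finset.Icc 1 (p - 1),
      (6 * U.L.weierstrassP (k * z₀) ^ 2 - U.L.g₂ / 2) =
      2 * ∑ k ∈ Finset.Icc 1 m, (6 * U.L.weierstrassP (k * z₀) ^ 2 - U.L.g₂ / 2) := by
    rw [hm1]
    refine sum_Icc_fold_h215 m
      (fun k => 6 * U.L.weierstrassP ((k : ℂ) * z₀) ^ 2 - U.L.g₂ / 2) fun k hk => ?_
    have hkp : k ≤ p := by rw [Finset.mem_Icc] at hk; omega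
    have := weierstrassP_reflect_h215 U.L hpz hkp
    rw [hm] at this
    simp only [this]
  have hfold3 : ∑ k ∈ Finset.Icc 1 (p - 1),
      (120 * U.L.weierstrassP (k * z₀) ^ 3 - 18 * U.L.g₂ * U.L.weierstrassP (k * z₀) -
        12 * U.L.g₃) =
      2 * ∑ k ∈ Finset.Icc 1 m,
        (120 * U.L.weierstrassP (k * z₀) ^ 3 - 18 * U.L.g₂ * U.L.weierstrassP (k * z₀) -
          12 * U.L.g₃) := by
    rw [hm1]
    refine sum_Icc_fold_h215 m
      (fun k => 120 * U.L.weierstrassP ((k : ℂ) * z₀) ^ 3 -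
        18 * U.L.g₂ * U.L.weierstrassP ((k : ℂ) * z₀) - 12 * U.L.g₃) fun k hk => ?_
    have hkp : k ≤ p := by rw [Finset.mem_Icc] at hk; omega
    have := weierstrassP_reflect_h215 U.L hpz hkp
    rw [hm] at this
    simp only [this]
  -- Vélu's sums in terms of `℘`
  have hT : veluT E (U.φ z₀) p =
      ∑ k ∈ Finset.Icc 1 m, (6 * U.L.weierstrassP (k * z₀) ^ 2 - U.L.g₂ / 2) := by
    unfold veluT
    rw [hm2]
    refine Finset.sum_congr rfl fun k hk => ?_
    rw [hx k hk, U.g₂_eq]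
    simp only [veluT1, WeierstrassCurve.c₄]
    ring
  have hW : E.b₂ * veluT E (U.φ z₀) p + 12 * veluW E (U.φ z₀) p =
      ∑ k ∈ Finset.Icc 1 m,
        (120 * U.L.weierstrassP (k * z₀) ^ 3 - 18 * U.L.g₂ * U.L.weierstrassP (k * z₀) -
          12 * U.L.g₃) := by
    unfold veluT veluW
    rw [hm2, Finset.mul_sum, Finset.mul_sum, ← Finset.sum_add_distrib]
    refine Finset.sum_congr rfl fun k hk => ?_
    rw [hx k hk, U.g₂_eq, U.g₃_eq]
    simp only [veluT1, veluU1, WeierstrassCurve.c₄, WeierstrassCurve.c₆]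
    ring
  -- invariants of Vélu's curve
  have hc4 : (veluCurve E (U.φ z₀) p).c₄ = 12 * L'.g₂ := by
    rw [hg2, hfold2, ← hT, U.g₂_eq]
    simp only [veluCurve, WeierstrassCurve.c₄, WeierstrassCurve.b₂, WeierstrassCurve.b₄]
    ring
  have hc6 : (veluCurve E (U.φ z₀) p).c₆ = 216 * L'.g₃ := by
    rw [hg3, hfold3, ← hW, U.g₃_eq]
    simp only [veluCurve, WeierstrassCurve.c₆, WeierstrassCurve.b₂, WeierstrassCurve.b₄,
      WeierstrassCurve.b₆]
    ring
  have hΔ' : (veluCurve E (U.φ z₀) p).Δ = L'.g₂ ^ 3 - 27 * L'.g₃ ^ 2 := by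
    have := (veluCurve E (U.φ z₀) p).c_relation
    rw [hc4, hc6] at this
    linear_combination (1 / 1728 : ℂ) * this
  have hΔE : E.Δ = U.L.g₂ ^ 3 - 27 * U.L.g₃ ^ 2 := by
    have := E.c_relation
    rw [U.g₂_eq, U.g₃_eq]
    linear_combination (1 / 1728 : ℂ) * this
  refine ⟨by rw [hΔ']; exact hΔL', ?_⟩
  have hj : jInv E = latticeJ U.L := by
    unfold jInv latticeJ
    rw [hΔE, U.g₂_eq]
    ring
  have hj' : jInv (veluCurve E (U.φ z₀) p) = latticeJ L' := by
    unfold jInv latticeJ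
    rw [hΔ', hc4]
    ring
  rw [hj, hj']
  exact hmod

end Fermat.Agent.S15.H215

end
end
-- ===== PACK-END S15/H215/ModBGlue.lean

-- ===== PACK-BEGIN S05/CompPoint.lean
section



/-!
# The component homomorphism on the points of a Weierstrass curve with nodal reduction
-/

set_option autoImplicit false

namespace Fermat.Agent.S05.Comp

open WeierstrassCurve WeierstrassCurve.Affine

variable {K : Type*} [Field K] {Γ₀ : Type*} [LinearOrderedCommGroupWithZero Γ₀]

/-- A Weierstrass curve over a valued field together with a factorisation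
`(y + (a₁ x + a₃)/2)² = (x - e) (x - e - α) (x - e - β)` with `v α < 1 = v β`:
the reduction has a node at `x ≡ e`. -/
structure NodalModel (v : Valuation K Γ₀) (W : Affine K) where
  e : K
  α : K
  β : K
  γ : K
  h2 : v 2 = 1
  hα : v α < 1
  hα0 : α ≠ 0
  hβ : v β = 1
  hγ : γ ^ 2 = -β
  hb2 : W.a₂ + W.a₁ ^ 2 / 4 = -(3 * e + α + β)
  hb4 : W.a₄ + W.a₁ * W.a₃ / 2 = 3 * e ^ 2 + 2 * e * (α + β) + α * β
  hb6 : W.a₆ + W.a₃ ^ 2 / 4 = -(e * (e + α) * (e + β))

namespace NodalModel

variable {v : Valuation K Γ₀} {W : Affine K}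

/-- The shifted `x`-coordinate. -/
def xi (M : NodalModel v W) (x : K) : K := x - M.e

/-- The `y`-coordinate after completing the square. -/
def eta (_M : NodalModel v W) (x y : K) : K := y + (W.a₁ * x + W.a₃) / 2

lemma two_ne_zero (M : NodalModel v W) : (2 : K) ≠ 0 := by
  intro h
  have := M.h2
  rw [h, map_zero] at this
  exact zero_ne_one this

lemma four_ne_zero (M : NodalModel v W) : (4 : K) ≠ 0 := by
  have : (4 : K) = 2 * 2 := by norm_num
  rw [this]
  exact mul_ne_zero M.two_ne_zero M.two_ne_zero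

lemma a₂_eq (M : NodalModel v W) : W.a₂ = -(3 * M.e + M.α + M.β) - W.a₁ ^ 2 / 4 := by
  rw [← M.hb2]; ring

lemma a₄_eq (M : NodalModel v W) :
    W.a₄ = 3 * M.e ^ 2 + 2 * M.e * (M.α + M.β) + M.α * M.β - W.a₁ * W.a₃ / 2 := by
  rw [← M.hb4]; ring

lemma a₆_eq (M : NodalModel v W) :
    W.a₆ = -(M.e * (M.e + M.α) * (M.e + M.β)) - W.a₃ ^ 2 / 4 := by
  rw [← M.hb6]; ring

lemma key_id (M : NodalModel v W) (x y : K) :
    M.eta x y ^ 2 - M.xi x * (M.xi x - M.α) * (M.xi x - M.β) =
      (y ^ 2 + W.a₁ * x * y + W.a₃ * y) - (x ^ 3 + W.a₂ * x ^ 2 + W.a₄ * x + W.a₆) := by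
  have h2 := M.two_ne_zero
  have h4 := M.four_ne_zero
  rw [xi, eta, M.a₂_eq, M.a₄_eq, M.a₆_eq]
  field_simp
  ring

lemma equation_iff (M : NodalModel v W) (x y : K) :
    W.Equation x y ↔ M.eta x y ^ 2 = M.xi x * (M.xi x - M.α) * (M.xi x - M.β) := by
  rw [Affine.equation_iff, ← sub_eq_zero, ← M.key_id x y, sub_eq_zero]

lemma eta_negY (M : NodalModel v W) (x y : K) : M.eta x (W.negY x y) = - M.eta x y := by
  have h2 := M.two_ne_zero
  simp only [eta, Affine.negY]
  field_simp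
  ring

end NodalModel

variable {v : Valuation K Γ₀}

lemma compXY_neg {α β γ x y : K} (h2 : v 2 = 1) (hα : v α < 1) (hα0 : α ≠ 0) (hβ : v β = 1)
    (hγ : γ ^ 2 = -β) (hE : y ^ 2 = x * (x - α) * (x - β)) :
    compXY v α γ x (-y) = (compXY v α γ x y)⁻¹ := by
  rcases compXY_cases h2 hα hβ hγ hE with ⟨hZ, e⟩ | ⟨hM, e⟩ | ⟨hlo, hhi, hP, e⟩ |
    ⟨hlo, hhi, hN, e⟩
  · rw [e, compXY_of_Z hZ, inv_one]
  · rw [e, compXY_of_M hα hM, cls_alpha_inv v α hα0]
  · rw [e]
    apply compXY_of_N h2 hβ hγ hlo hhi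
    have : -y - -γ * x = -(y - γ * x) := by ring
    rw [this, Valuation.map_neg]; exact hP
  · rw [e, inv_inv]
    apply compXY_of_P hlo hhi
    have : -y - γ * x = -(y - (-γ) * x) := by ring
    rw [this, Valuation.map_neg]; exact hN

namespace NodalModel

variable {W : Affine K}

/-- The component of a point. -/
noncomputable def comp (M : NodalModel v W) : W.Point → CompGroup v M.α
  | .zero => 1
  | .some x y _ => compXY v M.α M.γ (M.xi x) (M.eta x y)

@[simp] lemma comp_zero (M : NodalModel v W) : M.comp 0 = 1 := rfl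

lemma comp_some (M : NodalModel v W) {x y : K} (h : W.Nonsingular x y) :
    M.comp (.some x y h) = compXY v M.α M.γ (M.xi x) (M.eta x y) := rfl

lemma comp_neg (M : NodalModel v W) (P : W.Point) : M.comp (-P) = (M.comp P)⁻¹ := by
  rcases P with _ | ⟨x, y, h⟩
  · change M.comp 0 = (M.comp 0)⁻¹
    simp
  · rw [Point.neg_some, comp_some, comp_some, M.eta_negY]
    exact compXY_neg M.h2 M.hα M.hα0 M.hβ M.hγ ((M.equation_iff x y).mp h.1)

variable [DecidableEq K]

/-- The collinearity data attached to a sum of two affine points. -/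
lemma coll_of_add (M : NodalModel v W) {x₁ y₁ x₂ y₂ : K} (h₁ : W.Equation x₁ y₁)
    (h₂ : W.Equation x₂ y₂) (hxy : ¬(x₁ = x₂ ∧ y₁ = W.negY x₂ y₂)) :
    Coll M.α M.β (M.xi x₁) (M.eta x₁ y₁) (M.xi x₂) (M.eta x₂ y₂)
      (M.xi (W.addX x₁ x₂ (W.slope x₁ x₂ y₁ y₂)))
      (M.eta (W.addX x₁ x₂ (W.slope x₁ x₂ y₁ y₂)) (W.negAddY x₁ x₂ y₁ (W.slope x₁ x₂ y₁ y₂)))
      (W.slope x₁ x₂ y₁ y₂ + W.a₁ / 2)
      (M.eta x₁ y₁ - (W.slope x₁ x₂ y₁ y₂ + W.a₁ / 2) * M.xi x₁) := by
  have h2 := M.two_ne_zero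
  have h4 := M.four_ne_zero
  set ℓ := W.slope x₁ x₂ y₁ y₂ with hℓ
  -- the line passes through the second point
  have hline : y₂ = ℓ * (x₂ - x₁) + y₁ := by
    by_cases hx : x₁ = x₂
    · have hy : y₁ ≠ W.negY x₂ y₂ := fun h => hxy ⟨hx, h⟩
      have := Y_eq_of_Y_ne h₁ h₂ hx hy
      rw [hx, this]; ring
    · rw [hℓ, slope_of_X_ne hx]
      have : x₁ - x₂ ≠ 0 := sub_ne_zero.mpr hx
      field_simp
      ring
  -- Vieta
  have hV := addPolynomial_slope h₁ h₂ hxy
  rw [addPolynomial_eq, neg_inj, Cubic.prod_X_sub_C_eq, Cubic.toPoly_injective] at hV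
  have hVc := congrArg Cubic.c hV
  have hVd := congrArg Cubic.d hV
  simp only at hVc hVd
  rw [← hℓ] at hVc hVd
  have hE3 : W.Equation (W.addX x₁ x₂ ℓ) (W.negAddY x₁ x₂ y₁ ℓ) := equation_negAdd h₁ h₂ hxy
  refine ⟨?_, ?_, ?_, (M.equation_iff _ _).mp h₁, (M.equation_iff _ _).mp h₂,
    (M.equation_iff _ _).mp hE3, ?_, ?_, ?_⟩
  · ring
  · simp only [eta, xi]
    rw [hline]; ring
  · simp only [eta, xi, negAddY]
    ring
  · simp only [xi, addX]
    rw [M.a₂_eq]
    field_simp
    ring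
  · simp only [xi, eta]
    have e1 : (x₁ - M.e) * (x₂ - M.e) + (x₁ - M.e) * (W.addX x₁ x₂ ℓ - M.e) +
        (x₂ - M.e) * (W.addX x₁ x₂ ℓ - M.e) =
        (x₁ * x₂ + x₁ * W.addX x₁ x₂ ℓ + x₂ * W.addX x₁ x₂ ℓ)
          - 2 * M.e * (x₁ + x₂ + W.addX x₁ x₂ ℓ) + 3 * M.e ^ 2 := by ring
    rw [e1, ← hVc]
    simp only [addX]
    rw [M.a₂_eq, M.a₄_eq]
    field_simp
    ring
  · simp only [xi, eta]
    have e1 : (x₁ - M.e) * (x₂ - M.e) * (W.addX x₁ x₂ ℓ - M.e) =
        -(-(x₁ * x₂ * W.addX x₁ x₂ ℓ))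
          - M.e * (x₁ * x₂ + x₁ * W.addX x₁ x₂ ℓ + x₂ * W.addX x₁ x₂ ℓ)
          + M.e ^ 2 * (x₁ + x₂ + W.addX x₁ x₂ ℓ) - M.e ^ 3 := by ring
    rw [e1, ← hVc, ← hVd]
    simp only [addX]
    rw [M.a₂_eq, M.a₄_eq, M.a₆_eq]
    field_simp
    ring

/-- **The component map is additive.** -/
theorem comp_add (M : NodalModel v W) (P Q : W.Point) :
    M.comp (P + Q) = M.comp P * M.comp Q := by
  rcases P with _ | ⟨x₁, y₁, h₁⟩
  · change M.comp (0 + Q) = M.comp 0 * M.comp Q
    rw [zero_add, comp_zero, one_mul]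
  rcases Q with _ | ⟨x₂, y₂, h₂⟩
  · change M.comp (_ + 0) = M.comp _ * M.comp 0
    rw [add_zero, comp_zero, mul_one]
  by_cases hxy : x₁ = x₂ ∧ y₁ = W.negY x₂ y₂
  · rw [Point.add_of_Y_eq hxy.1 hxy.2, comp_zero]
    have : Point.some x₁ y₁ h₁ = -Point.some x₂ y₂ h₂ := by
      rw [Point.neg_some]
      obtain ⟨rfl, rfl⟩ := hxy
      rfl
    rw [this, comp_neg, inv_mul_cancel]
  · rw [Point.add_some hxy, comp_some, comp_some, comp_some]
    have hc := M.coll_of_add h₁.1 h₂.1 hxy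
    have h3 := compXY_mul hc M.h2 M.hα M.hα0 M.hβ M.hγ (γ := M.γ)
    rw [addY, M.eta_negY, compXY_neg M.h2 M.hα M.hα0 M.hβ M.hγ hc.E3]
    exact (mul_eq_one_iff_eq_inv.mp h3).symm

/-- The component map as a homomorphism. -/
noncomputable def compHom (M : NodalModel v W) : W.Point →+ Additive (CompGroup v M.α) where
  toFun P := Additive.ofMul (M.comp P)
  map_zero' := rfl
  map_add' P Q := by
    rw [M.comp_add P Q]; rfl

lemma comp_nsmul (M : NodalModel v W) (k : ℕ) (P : W.Point) :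
    M.comp (k • P) = M.comp P ^ k := by
  induction k with
  | zero => simp
  | succ k ih =>
    rw [succ_nsmul, comp_add, ih]
    exact (pow_succ _ _).symm

lemma comp_sub (M : NodalModel v W) (P Q : W.Point) :
    M.comp (P - Q) = M.comp P * (M.comp Q)⁻¹ := by
  rw [sub_eq_add_neg, comp_add, comp_neg]

end NodalModel

end Fermat.Agent.S05.Comp

end
-- ===== PACK-END S05/CompPoint.lean

-- ===== PACK-BEGIN S05/CompTorsion.lean
section



/-!
# Torsion points near the node: the crux (C3c)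

For an odd `n` and an `n`-torsion point `P = (x, y)` reducing to the node `x ≡ e₁`,
the valuation of `x - e₁` lies strictly between `v α` and `1`, and `v (x - e₁) ^ n` is an even
power of `v α`.
-/

set_option autoImplicit false

namespace Fermat.Agent.S05.Comp

open WeierstrassCurve WeierstrassCurve.Affine

variable {K : Type*} [Field K] {Γ₀ : Type*} [LinearOrderedCommGroupWithZero Γ₀]
  {v : Valuation K Γ₀}

lemma cls_eq_one_iff (α : K) (g : Γ₀) :
    cls v α g = 1 ↔ ∃ k : ℤ, (toU (v α) ^ 2) ^ k = toU g := by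
  rw [cls, QuotientGroup.eq_one_iff, Subgroup.mem_zpowers_iff]

/-- If `cls g = 1` with `g ≠ 0` then `g` is an even (integral) power of `v α`. -/
lemma exists_zpow_of_cls_eq_one {α : K} (hα0 : α ≠ 0) {g : Γ₀} (hg : g ≠ 0)
    (h : cls v α g = 1) : ∃ k : ℤ, g = (v α ^ 2) ^ k := by
  have h0 : v α ≠ 0 := (Valuation.ne_zero_iff v).mpr hα0
  obtain ⟨k, hk⟩ := (cls_eq_one_iff α g).mp h
  refine ⟨k, ?_⟩
  have := congrArg (fun u : Γ₀ˣ => (u : Γ₀)) hk
  simp only [Units.val_zpow_eq_zpow_val, Units.val_pow_eq_pow_val, toU_coe h0, toU_coe hg] at this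
  exact this.symm

/-- An element `g < 1` which is an integral power of `m < 1` is a natural power. -/
lemma exists_pow_of_zpow {m g : Γ₀} (hm0 : m ≠ 0) (hm : m < 1) (hg : g < 1) {k : ℤ}
    (h : g = m ^ k) : ∃ j : ℕ, g = m ^ j := by
  rcases le_or_gt 0 k with hk | hk
  · refine ⟨k.toNat, ?_⟩
    rw [h]
    conv_lhs => rw [← Int.toNat_of_nonneg hk]
    exact zpow_natCast m k.toNat
  · exfalso
    have h1 : 1 ≤ m ^ k := by
      have : m ^ k = (m ^ (-k).toNat)⁻¹ := by
        rw [← zpow_natCast, Int.toNat_of_nonneg (by omega), zpow_neg, inv_inv]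
      rw [this]
      apply (one_le_inv₀ (pow_pos (zero_lt_iff.mpr hm0) _)).mpr
      exact pow_le_one₀ zero_le hm.le
    rw [← h] at h1
    exact absurd h1 (not_le.mpr hg)

lemma cls_alpha_ne_one {α : K} (hα0 : α ≠ 0) (hα : v α < 1) : cls v α (v α) ≠ 1 := by
  have h0 : v α ≠ 0 := (Valuation.ne_zero_iff v).mpr hα0
  have hpos : 0 < v α := zero_lt_iff.mpr h0
  intro h
  obtain ⟨k, hk⟩ := exists_zpow_of_cls_eq_one hα0 h0 h
  have hsq0 : v α ^ 2 ≠ 0 := pow_ne_zero 2 h0
  have hsq1 : v α ^ 2 < 1 := pow_lt_one₀ zero_le hα (by norm_num)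
  obtain ⟨j, hj⟩ := exists_pow_of_zpow hsq0 hsq1 hα hk
  rw [← pow_mul] at hj
  rcases Nat.eq_zero_or_pos j with h0j | hjpos
  · rw [h0j, mul_zero, pow_zero] at hj
    exact absurd hj hα.ne
  · have : v α ^ (2 * j) < v α := by
      calc v α ^ (2 * j) ≤ v α ^ 2 := pow_le_pow_of_le_one zero_le hα.le (by omega)
        _ = v α * v α := pow_two _
        _ < v α * 1 := mul_lt_mul_of_pos_left hα hpos
        _ = v α := mul_one _
    exact absurd hj.symm this.ne

namespace NodalModel

variable {W : Affine K} [DecidableEq K]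

/-- **(C3c)**, model form. -/
theorem torsion_near_node (M : NodalModel v W) {n : ℕ} (hn : Odd n) {x y : K}
    (h : W.Nonsingular x y) (hP : n • Point.some x y h = 0) (hx : v (x - M.e) < 1) :
    v M.α < v (x - M.e) ∧ ∃ j : ℕ, v (x - M.e) ^ n = v M.α ^ (2 * j) := by
  have h0 : v M.α ≠ 0 := (Valuation.ne_zero_iff v).mpr M.hα0
  have hμ : 0 < v M.α := zero_lt_iff.mpr h0
  have hc : M.comp (Point.some x y h) ^ n = 1 := by
    rw [← M.comp_nsmul, hP, comp_zero]
  rw [comp_some] at hc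
  have hE := (M.equation_iff x y).mp h.1
  have hxi : M.xi x = x - M.e := rfl
  have hsq0 : v M.α ^ 2 ≠ 0 := pow_ne_zero 2 h0
  have hsq1 : v M.α ^ 2 < 1 := pow_lt_one₀ zero_le M.hα (by norm_num)
  have hnpos : 0 < n := hn.pos
  -- the main computation for a middle-range point
  have main : v M.α < v (x - M.e) → cls v M.α (v (x - M.e)) ^ n = 1 →
      ∃ j : ℕ, v (x - M.e) ^ n = v M.α ^ (2 * j) := by
    intro hlo hcls
    have hr0 : v (x - M.e) ≠ 0 := (hμ.trans hlo).ne'
    have hrn0 : v (x - M.e) ^ n ≠ 0 := pow_ne_zero n hr0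
    have hcls' : cls v M.α (v (x - M.e) ^ n) = 1 := by
      rw [← hcls, cls, cls, toU_pow hr0]; rfl
    obtain ⟨k, hk⟩ := exists_zpow_of_cls_eq_one M.hα0 hrn0 hcls'
    have hlt : v (x - M.e) ^ n < 1 := pow_lt_one₀ zero_le hx hnpos.ne'
    obtain ⟨j, hj⟩ := exists_pow_of_zpow hsq0 hsq1 hlt hk
    exact ⟨j, by rw [hj, ← pow_mul]⟩
  rcases compXY_cases M.h2 M.hα M.hβ M.hγ hE with ⟨hZ, -⟩ | ⟨hM, e⟩ | ⟨hlo, hhi, -, e⟩ |
    ⟨hlo, hhi, -, e⟩
  · rw [hxi] at hZ
    exact absurd hZ (not_le.mpr hx)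
  · exfalso
    rw [e] at hc
    obtain ⟨m, rfl⟩ := hn
    have hsq : cls v M.α (v M.α) ^ 2 = 1 :=
      (pow_two _).trans (cls_alpha_mul_self v M.α M.hα0)
    rw [pow_succ, pow_mul, hsq, one_pow, one_mul] at hc
    exact cls_alpha_ne_one M.hα0 M.hα hc
  · rw [hxi] at hlo
    rw [e, hxi] at hc
    exact ⟨hlo, main hlo hc⟩
  · rw [hxi] at hlo
    rw [e, hxi, inv_pow, inv_eq_one] at hc
    exact ⟨hlo, main hlo hc⟩

end NodalModel

/-- **(C3c)** in the integrator's interface (#944), with the extra datum of a square root `γ`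
of `-β` (available in an algebraically closed field). No integrality of the coefficients is
needed. -/
theorem c3c_of_sqrt {W : Affine K} [DecidableEq K] (h2 : v (2 : K) = 1) (e₁ α β γ : K)
    (hγ : γ ^ 2 = -β)
    (hb2 : W.b₂ = -4 * (3 * e₁ + α + β))
    (hb4 : 2 * W.b₄ = 4 * (e₁ * (e₁ + α) + e₁ * (e₁ + β) + (e₁ + α) * (e₁ + β)))
    (hb6 : W.b₆ = -4 * (e₁ * (e₁ + α) * (e₁ + β)))
    (hα0 : α ≠ 0) (hα : v α < 1) (hβ : v β = 1) (n : ℕ) (hn : Odd n)
    (x y : K) (h : W.Nonsingular x y) (hP : n • Point.some x y h = 0)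
    (hx : v (x - e₁) < 1) :
    v α < v (x - e₁) ∧ ∃ j : ℕ, v (x - e₁) ^ n = v α ^ (2 * j) := by
  have h20 : (2 : K) ≠ 0 := by
    intro h0; rw [h0, map_zero] at h2; exact zero_ne_one h2
  have h40 : (4 : K) ≠ 0 := by
    have : (4 : K) = 2 * 2 := by norm_num
    rw [this]; exact mul_ne_zero h20 h20
  let M : NodalModel v W :=
    { e := e₁, α := α, β := β, γ := γ, h2 := h2, hα := hα, hα0 := hα0, hβ := hβ, hγ := hγ
      hb2 := by
        have := hb2
        rw [WeierstrassCurve.b₂] at this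
        field_simp
        linear_combination this
      hb4 := by
        have := hb4
        rw [WeierstrassCurve.b₄] at this
        have this' : 2 * W.a₄ + W.a₁ * W.a₃ =
            2 * (e₁ * (e₁ + α) + e₁ * (e₁ + β) + (e₁ + α) * (e₁ + β)) :=
          mul_left_cancel₀ h20 (by linear_combination this)
        field_simp
        linear_combination this'
      hb6 := by
        have := hb6
        rw [WeierstrassCurve.b₆] at this
        field_simp
        linear_combination this }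
  exact M.torsion_near_node hn h hP hx

/-- **(C3c)** over an algebraically closed field, exactly in the integrator's interface. -/
theorem c3c [IsAlgClosed K] {W : Affine K} [DecidableEq K] (h2 : v (2 : K) = 1) (e₁ α β : K)
    (hb2 : W.b₂ = -4 * (3 * e₁ + α + β))
    (hb4 : 2 * W.b₄ = 4 * (e₁ * (e₁ + α) + e₁ * (e₁ + β) + (e₁ + α) * (e₁ + β)))
    (hb6 : W.b₆ = -4 * (e₁ * (e₁ + α) * (e₁ + β)))
    (hα0 : α ≠ 0) (hα : v α < 1) (hβ : v β = 1) (n : ℕ) (hn : Odd n)
    (x y : K) (h : W.Nonsingular x y) (hP : n • Point.some x y h = 0)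
    (hx : v (x - e₁) < 1) :
    v α < v (x - e₁) ∧ ∃ j : ℕ, v (x - e₁) ^ n = v α ^ (2 * j) := by
  obtain ⟨γ, hγ⟩ := IsAlgClosed.exists_pow_nat_eq (-β) (n := 2) (by norm_num)
  exact c3c_of_sqrt h2 e₁ α β γ hγ hb2 hb4 hb6 hα0 hα hβ n hn x y h hP hx

end Fermat.Agent.S05.Comp

end
-- ===== PACK-END S05/CompTorsion.lean

-- ===== PACK-BEGIN S13/H175/Minkowski.lean
section







set_option autoImplicit false
set_option linter.style.haveILetI false

/-!
# Minkowski's theorem for characters of `Gal(ℚ̄/ℚ)`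

A homomorphism `χ` from `Gal(ℚ̄/ℚ)` with open kernel which is trivial on the inertia subgroup of
ONE valuation subring of `ℚ̄` over each rational prime is trivial.
-/

open scoped Pointwise

namespace Fermat.Agent.S13.H175

/-- The ring hom from the integers of an intermediate field to the ring of all algebraic
integers. -/
noncomputable def intIncl (F : IntermediateField ℚ (AlgebraicClosure ℚ)) :
    integralClosure ℤ F →+* integralClosure ℤ (AlgebraicClosure ℚ) where
  toFun x := ⟨((x : F) : AlgebraicClosure ℚ), by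
    have h := x.2
    exact h.map (F.val.restrictScalars ℤ)⟩
  map_one' := rfl
  map_mul' _ _ := rfl
  map_zero' := rfl
  map_add' _ _ := rfl

theorem intIncl_coe (F : IntermediateField ℚ (AlgebraicClosure ℚ)) (x : integralClosure ℤ F) :
    ((intIncl F x : integralClosure ℤ (AlgebraicClosure ℚ)) : AlgebraicClosure ℚ) =
      ((x : F) : AlgebraicClosure ℚ) := rfl

theorem exists_inertia_not_fixing
    (N : Subgroup (AlgebraicClosure ℚ ≃ₐ[ℚ] AlgebraicClosure ℚ)) [hnormal : N.Normal]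
    (hNopen : IsOpen (N : Set (AlgebraicClosure ℚ ≃ₐ[ℚ] AlgebraicClosure ℚ)))
    (hNtop : N ≠ ⊤) :
    ∃ q : ℕ, q.Prime ∧ ∀ A : ValuationSubring (AlgebraicClosure ℚ), A.LiesOverPrime q →
      ∃ σ ∈ A.inertiaSubgroupIn ℚ, σ ∉ N := by
  have hgal := Fermat.Agent.S54.isGalois_algebraicClosure_rat
  have hclosed : IsClosed (N : Set (AlgebraicClosure ℚ ≃ₐ[ℚ] AlgebraicClosure ℚ)) :=
    Subgroup.isClosed_of_isOpen N hNopen
  set F : IntermediateField ℚ (AlgebraicClosure ℚ) := IntermediateField.fixedField N with hFdef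
  have hfixN : F.fixingSubgroup = N := InfiniteGalois.fixingSubgroup_fixedField ⟨N, hclosed⟩
  have hgalF : IsGalois ℚ F := by
    have := IsGalois.of_fixedField_normal_subgroup N
    convert this
    exact Subsingleton.elim _ _
  have hfdF : FiniteDimensional ℚ F := by
    have := (InfiniteGalois.isOpen_iff_finite F).mp (by rw [hfixN]; exact hNopen)
    convert this
  have hF : F ≠ ⊥ := by
    intro h
    apply hNtop
    rw [← hfixN, h]
    exact IntermediateField.fixingSubgroup_bot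
  have : NumberField F := ⟨⟩
  have hfr : 1 < Module.finrank ℚ F := by
    have h1 : 0 < Module.finrank ℚ F := Module.finrank_pos
    have h2 : Module.finrank ℚ F ≠ 1 := by
      intro h
      apply hF
      have h3 : Module.finrank ℚ F = 1 := by
        convert h using 2
      exact IntermediateField.finrank_eq_one_iff.mp h3
    omega
  obtain ⟨q, hq, hin⟩ := Fermat.Agent.S13.H175.exists_inertia_ne_one F hfr
  refine ⟨q, hq, fun A hA => ?_⟩
  have hQprime := Fermat.Agent.S54.primeBelow_isPrime A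
  -- the prime of `𝓞_F` below `A`
  have hPprime : ((Fermat.Agent.S54.primeBelow A).comap (intIncl F)).IsPrime :=
    Ideal.comap_isPrime _ _
  have hqP : (q : integralClosure ℤ F) ∈ (Fermat.Agent.S54.primeBelow A).comap (intIncl F) := by
    rw [Ideal.mem_comap, map_natCast, Fermat.Agent.S54.mem_primeBelow]
    have hA' : (q : AlgebraicClosure ℚ) ∈ A.nonunits := hA
    simpa using hA'
  obtain ⟨τ, hτ1, hτ⟩ := hin _ hPprime hqP
  -- lift `τ` to the absolute Galois group
  obtain ⟨g₀, hg₀⟩ := AlgEquiv.restrictNormalHom_surjective (F := ℚ) (K₁ := F)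
    (AlgebraicClosure ℚ) τ
  have hg₀F : ∀ x : F, g₀ (x : AlgebraicClosure ℚ) = ((τ x : F) : AlgebraicClosure ℚ) := by
    intro x
    rw [← hg₀]
    exact (AlgEquiv.restrictNormal_commutes g₀ F x).symm
  -- `g₀` acts trivially mod `Q` on the `N`-invariant algebraic integers
  have h₀ : ∀ x : integralClosure ℤ (AlgebraicClosure ℚ),
      (∀ n ∈ N, n • x = x) → g₀ • x - x ∈ Fermat.Agent.S54.primeBelow A := by
    intro x hx
    have hxF : (x : AlgebraicClosure ℚ) ∈ F := by
      rw [hFdef, IntermediateField.mem_fixedField_iff]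
      intro f hf
      exact congrArg Subtype.val (hx f hf)
    have hxint : IsIntegral ℤ (⟨(x : AlgebraicClosure ℚ), hxF⟩ : F) := by
      have h1 : IsIntegral ℤ (x : AlgebraicClosure ℚ) := x.2
      exact (isIntegral_algebraMap_iff (A := F) (B := AlgebraicClosure ℚ)
        (FaithfulSMul.algebraMap_injective F (AlgebraicClosure ℚ))).mp h1
    have h2 := hτ ⟨⟨(x : AlgebraicClosure ℚ), hxF⟩, hxint⟩
    have h2' : (((τ • (⟨⟨(x : AlgebraicClosure ℚ), hxF⟩, hxint⟩ : integralClosure ℤ F) -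
        ⟨⟨(x : AlgebraicClosure ℚ), hxF⟩, hxint⟩ : integralClosure ℤ F) : F) :
        AlgebraicClosure ℚ) ∈ A.nonunits := h2
    rw [Fermat.Agent.S54.mem_primeBelow]
    have h3 := hg₀F ⟨(x : AlgebraicClosure ℚ), hxF⟩
    have h4 : ((g₀ • x - x : integralClosure ℤ (AlgebraicClosure ℚ)) : AlgebraicClosure ℚ) =
        g₀ (x : AlgebraicClosure ℚ) - x := rfl
    rw [h4, h3]
    exact h2'
  -- apply the profinite lifting lemma
  letI : TopologicalSpace (integralClosure ℤ (AlgebraicClosure ℚ)) := ⊥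
  haveI : DiscreteTopology (integralClosure ℤ (AlgebraicClosure ℚ)) := ⟨rfl⟩
  haveI := Fermat.Agent.S54.continuousSMul_integralClosure
  obtain ⟨σ, hσN, hσ⟩ := Fermat.Agent.S13.H175.exists_inertia_lift
    (G := AlgebraicClosure ℚ ≃ₐ[ℚ] AlgebraicClosure ℚ) N hclosed
    (Fermat.Agent.S54.primeBelow A) g₀ h₀
  refine ⟨σ, ?_, ?_⟩
  · apply Fermat.Agent.S13.H175.mem_inertiaSubgroupIn_of_integral A q hq hA σ
    intro x hx
    exact hσ ⟨x, hx⟩
  · intro hσF
    apply hτ1
    have hg₀N : g₀ ∈ F.fixingSubgroup := by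
      rw [hfixN]
      have h1 : g₀⁻¹ ∈ N := by
        have := N.mul_mem hσN (N.inv_mem hσF)
        simpa using this
      simpa using N.inv_mem h1
    ext x
    have h1 := hg₀F x
    have h2 := (IntermediateField.mem_fixingSubgroup_iff F g₀).mp hg₀N x x.2
    rw [h2] at h1
    exact h1.symm

/-- **Minkowski for characters.** A homomorphism from `Gal(ℚ̄/ℚ)` with open kernel which is
trivial on the inertia subgroup of one valuation subring over every rational prime is trivial. -/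
theorem minkowski_character {H : Type*} [Group H]
    (χ : (AlgebraicClosure ℚ ≃ₐ[ℚ] AlgebraicClosure ℚ) →* H)
    (hopen : ∃ s : Finset (AlgebraicClosure ℚ),
      ∀ σ : AlgebraicClosure ℚ ≃ₐ[ℚ] AlgebraicClosure ℚ, (∀ x ∈ s, σ x = x) → χ σ = 1)
    (hunr : ∀ q : ℕ, q.Prime → ∃ A : ValuationSubring (AlgebraicClosure ℚ),
      A.LiesOverPrime q ∧ ∀ σ ∈ A.inertiaSubgroupIn ℚ, χ σ = 1) :
    ∀ σ, χ σ = 1 := by
  have hgal := Fermat.Agent.S54.isGalois_algebraicClosure_rat
  obtain ⟨s, hs⟩ := hopen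
  by_contra hcon
  push Not at hcon
  obtain ⟨σ₀, hσ₀⟩ := hcon
  -- the kernel is open
  have hNopen : IsOpen (χ.ker : Set (AlgebraicClosure ℚ ≃ₐ[ℚ] AlgebraicClosure ℚ)) := by
    have hfd : FiniteDimensional ℚ
        (IntermediateField.adjoin ℚ (s : Set (AlgebraicClosure ℚ))) :=
      IntermediateField.finiteDimensional_adjoin
        (fun x _ => (AlgebraicClosure.isAlgebraic ℚ).isIntegral.isIntegral x)
    have h1 := IntermediateField.fixingSubgroup_isOpen
      (IntermediateField.adjoin ℚ (s : Set (AlgebraicClosure ℚ)))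
    refine Subgroup.isOpen_mono ?_ h1
    intro σ hσ
    rw [MonoidHom.mem_ker]
    apply hs
    intro x hx
    exact (IntermediateField.mem_fixingSubgroup_iff _ σ).mp hσ x
      (IntermediateField.subset_adjoin ℚ _ hx)
  have hNtop : χ.ker ≠ ⊤ := by
    intro h
    apply hσ₀
    have : σ₀ ∈ χ.ker := by rw [h]; trivial
    exact MonoidHom.mem_ker.mp this
  obtain ⟨q, hq, hqA⟩ := exists_inertia_not_fixing χ.ker hNopen hNtop
  obtain ⟨A, hA, hAχ⟩ := hunr q hq
  obtain ⟨σ, hσI, hσN⟩ := hqA A hA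
  exact hσN (MonoidHom.mem_ker.mpr (hAχ σ hσI))

/-- **Minkowski for normal subgroups.** A normal subgroup of `Gal(ℚ̄/ℚ)` which contains the
pointwise stabiliser of a finite set and the inertia subgroup of one valuation subring over
every rational prime is everything. -/
theorem minkowski_subgroup (H : Subgroup (AlgebraicClosure ℚ ≃ₐ[ℚ] AlgebraicClosure ℚ))
    (hH : H.Normal)
    (hopen : ∃ s : Finset (AlgebraicClosure ℚ),
      ∀ σ : AlgebraicClosure ℚ ≃ₐ[ℚ] AlgebraicClosure ℚ, (∀ x ∈ s, σ x = x) → σ ∈ H)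
    (hunr : ∀ q : ℕ, q.Prime → ∃ A : ValuationSubring (AlgebraicClosure ℚ),
      A.LiesOverPrime q ∧ ∀ σ ∈ A.inertiaSubgroupIn ℚ, σ ∈ H) : H = ⊤ := by
  have key := minkowski_character (QuotientGroup.mk' H)
    (by
      obtain ⟨s, hs⟩ := hopen
      exact ⟨s, fun σ hσ => (QuotientGroup.eq_one_iff σ).mpr (hs σ hσ)⟩)
    (by
      intro q hq
      obtain ⟨A, hA, hAH⟩ := hunr q hq
      exact ⟨A, hA, fun σ hσ => (QuotientGroup.eq_one_iff σ).mpr (hAH σ hσ)⟩)
  rw [eq_top_iff]
  intro σ _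
  exact (QuotientGroup.eq_one_iff σ).mp (key σ)

end Fermat.Agent.S13.H175

end
-- ===== PACK-END S13/H175/Minkowski.lean

-- ===== PACK-BEGIN A3/H799/Comb.lean
section





/-!
# A3 / LOCAL — linear systems with parameters  (helper799)

`A` local, `T` finite, `Λ ≤ (T → A)`.  Given finitely many disc algebras `𝒪 i`, `Λ`-points
`ys i r` (`r < s i`) of the `i`-th disc, and disc functions `f₀ i`, `f j i` (as many unknowns `j`
as conditions `(i, r)`), such that the matrix of the first `s i` Taylor coefficients at `0` of the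
`f j i` is invertible, there are `v j ∈ Λ` such that for every parameter value `τ` the function
`f₀ i + Σ_j v_j(τ) f j i` vanishes on the divisor `Σ_r [ys i r (τ)]` of the `i`-th disc
(`exists_comb`).  This is "Riemann–Roch with parameters": Cramer's rule over `Λ`.
-/

set_option autoImplicit false

namespace Fermat.Agent.A3.H799

open Polynomial

section Congr

variable {A : Type*} [CommRing A] [IsLocalRing A] {𝒪 : Type*} [CommRing 𝒪] [Algebra A 𝒪]

theorem map_residue_nodal (l : List (IsLocalRing.maximalIdeal A)) :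
    (DiscAlg.nodal l).map (IsLocalRing.residue A) = X ^ l.length := by
  induction l with
  | nil => simp
  | cons a l ih =>
    rw [DiscAlg.nodal_cons, Polynomial.map_mul, ih, Polynomial.map_sub, Polynomial.map_X,
      Polynomial.map_C, (IsLocalRing.residue_eq_zero_iff _).mpr a.2, _root_.map_zero, sub_zero,
      List.length_cons, pow_succ, mul_comm]

theorem coeff_nodal_mul_mem (l : List (IsLocalRing.maximalIdeal A)) (q : A[X]) (r : ℕ)
    (hr : r < l.length) : (DiscAlg.nodal l * q).coeff r ∈ IsLocalRing.maximalIdeal A := by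
  rw [← IsLocalRing.residue_eq_zero_iff, ← Polynomial.coeff_map, Polynomial.map_mul,
    map_residue_nodal, Polynomial.coeff_X_pow_mul']
  simp [Nat.not_le.mpr hr]

theorem nodal_replicate_zero (n : ℕ) :
    DiscAlg.nodal (List.replicate n (0 : IsLocalRing.maximalIdeal A)) = X ^ n := by
  induction n with
  | zero => simp
  | succ n ih => rw [List.replicate_succ, DiscAlg.nodal_cons, ih]; simp [pow_succ, mul_comm]

/-- Two interpolation polynomials of the same disc function have the same low coefficients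
modulo the maximal ideal. -/
theorem DiscAlg.coeff_sub_mem (D : DiscAlg A 𝒪) (l l' : List (IsLocalRing.maximalIdeal A))
    (f : 𝒪) (p p' : A[X]) (h h' : 𝒪)
    (hp : f = aeval D.t p + aeval D.t (DiscAlg.nodal l) * h)
    (hp' : f = aeval D.t p' + aeval D.t (DiscAlg.nodal l') * h')
    (r : ℕ) (hr : r < l.length) (hr' : r < l'.length) :
    p.coeff r - p'.coeff r ∈ IsLocalRing.maximalIdeal A := by
  set Z : List (IsLocalRing.maximalIdeal A) := List.replicate (r + 1) 0 with hZ
  obtain ⟨q, g, hq⟩ := D.exists_interp Z h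
  obtain ⟨q', g', hq'⟩ := D.exists_interp Z h'
  set Δ : A[X] := p - p' + DiscAlg.nodal l * q - DiscAlg.nodal l' * q' with hΔ
  have h1 : aeval D.t Δ = aeval D.t (DiscAlg.nodal Z) *
      (aeval D.t (DiscAlg.nodal l') * g' - aeval D.t (DiscAlg.nodal l) * g) := by
    have e1 : aeval D.t p - aeval D.t p' =
        aeval D.t (DiscAlg.nodal l') * h' - aeval D.t (DiscAlg.nodal l) * h := by
      have := hp.symm.trans hp'
      linear_combination this
    rw [hΔ]
    simp only [_root_.map_add, _root_.map_sub, _root_.map_mul]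
    rw [hq, hq'] at e1
    linear_combination e1
  obtain ⟨w, hw⟩ := D.nodal_dvd_of_aeval Z Δ _ h1
  have h2 : Δ.coeff r = 0 := by
    rw [hw, hZ, nodal_replicate_zero, Polynomial.coeff_X_pow_mul']
    simp
  have h3 : p.coeff r - p'.coeff r =
      (DiscAlg.nodal l' * q').coeff r - (DiscAlg.nodal l * q).coeff r := by
    have : Δ.coeff r = p.coeff r - p'.coeff r + (DiscAlg.nodal l * q).coeff r
        - (DiscAlg.nodal l' * q').coeff r := by
      rw [hΔ]; simp
    rw [this] at h2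
    linear_combination h2
  rw [h3]
  exact (IsLocalRing.maximalIdeal A).sub_mem (coeff_nodal_mul_mem l' q' r hr')
    (coeff_nodal_mul_mem l q r hr)

end Congr

section Comb

variable {A : Type*} [CommRing A] [IsLocalRing A] {T : Type*} [Finite T]

omit [Finite T] in
theorem natDegree_nodalΛ [Nonempty T] (Λ : Subalgebra A (T → A)) (ys : List (radIdeal Λ)) :
    (nodalΛ Λ ys).natDegree = ys.length := by
  have hnt : Nontrivial Λ := by
    obtain ⟨τ⟩ := ‹Nonempty T›
    exact RingHom.domain_nontrivial (evAt Λ τ : Λ →+* A)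
  induction ys with
  | nil => simp [nodalΛ]
  | cons a l ih =>
    have h1 : nodalΛ Λ (a :: l) = (X - C (a : Λ)) * nodalΛ Λ l := by simp [nodalΛ]
    rw [h1, ((monic_X_sub_C _).natDegree_mul (nodalΛ_monic Λ l)), ih, natDegree_X_sub_C]
    simp [add_comm]

/-- Auxiliary: the list of all values of the `Λ`-points `ys` over a list of parameters. -/
private noncomputable def allVals (Λ : Subalgebra A (T → A)) (ys : List (radIdeal Λ))
    (ts : List T) : List (IsLocalRing.maximalIdeal A) :=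
  ts.flatMap fun τ => ys.map (ptAt Λ τ)

omit [Finite T] in
private theorem nodal_allVals_dvd (Λ : Subalgebra A (T → A)) (ys : List (radIdeal Λ))
    (ts : List T) (τ : T) (hτ : τ ∈ ts) :
    ∃ R : A[X], DiscAlg.nodal (allVals Λ ys ts) = DiscAlg.nodal (ys.map (ptAt Λ τ)) * R := by
  induction ts with
  | nil => simp at hτ
  | cons σ ts ih =>
    have hcons : allVals Λ ys (σ :: ts) = ys.map (ptAt Λ σ) ++ allVals Λ ys ts := by
      simp [allVals]
    rw [hcons, DiscAlg.nodal_append]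
    rcases List.mem_cons.mp hτ with h | h
    · subst h
      exact ⟨_, rfl⟩
    · obtain ⟨R, hR⟩ := ih h
      exact ⟨DiscAlg.nodal (ys.map (ptAt Λ σ)) * R, by rw [hR]; ring⟩

omit [Finite T] in
/-- One disc, one function: reduction of an interpolation polynomial modulo the moving nodes is
again an interpolation polynomial, pointwise. -/
private theorem interp_mod (Λ : Subalgebra A (T → A)) {𝒪 : Type*} [CommRing 𝒪] [Algebra A 𝒪]
    (D : DiscAlg A 𝒪) (ys : List (radIdeal Λ)) (ts : List T) (τ : T) (hτ : τ ∈ ts)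
    (f : 𝒪) (p : A[X]) (h : 𝒪)
    (hp : f = aeval D.t p + aeval D.t (DiscAlg.nodal (allVals Λ ys ts)) * h) :
    ∃ h' : 𝒪, f = aeval D.t ((p.map (algebraMap A Λ) %ₘ nodalΛ Λ ys).map (evAt Λ τ : Λ →+* A)) +
      aeval D.t (DiscAlg.nodal (ys.map (ptAt Λ τ))) * h' := by
  obtain ⟨R, hR⟩ := nodal_allVals_dvd Λ ys ts τ hτ
  have hcomp : ((evAt Λ τ : Λ →+* A).comp (algebraMap A Λ)) = RingHom.id A := by
    ext a; simp
  have h1 : (p.map (algebraMap A Λ) %ₘ nodalΛ Λ ys).map (evAt Λ τ : Λ →+* A) =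
      p %ₘ DiscAlg.nodal (ys.map (ptAt Λ τ)) := by
    rw [Polynomial.map_modByMonic _ (nodalΛ_monic Λ ys), map_nodalΛ, Polynomial.map_map, hcomp,
      Polynomial.map_id]
  refine ⟨aeval D.t (p /ₘ DiscAlg.nodal (ys.map (ptAt Λ τ))) + aeval D.t R * h, ?_⟩
  rw [h1, hp, hR]
  have h2 := Polynomial.modByMonic_add_div p (DiscAlg.nodal (ys.map (ptAt Λ τ)))
  have h3 : aeval D.t p = aeval D.t (p %ₘ DiscAlg.nodal (ys.map (ptAt Λ τ))) +
      aeval D.t (DiscAlg.nodal (ys.map (ptAt Λ τ))) *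
        aeval D.t (p /ₘ DiscAlg.nodal (ys.map (ptAt Λ τ))) := by
    conv_lhs => rw [← h2]
    simp
  rw [h3, _root_.map_mul]
  ring

/-- **Riemann–Roch with parameters (Cramer over `Λ`).**  See the module docstring. -/
theorem exists_comb {ι : Type*} [Fintype ι] {𝒪 : ι → Type*}
    [∀ i, CommRing (𝒪 i)] [∀ i, Algebra A (𝒪 i)]
    (Λ : Subalgebra A (T → A)) (D : ∀ i, DiscAlg A (𝒪 i)) (s : ι → ℕ)
    (ys : ∀ i, Fin (s i) → radIdeal Λ)
    (f₀ : ∀ i, 𝒪 i) (f : (Σ i, Fin (s i)) → ∀ i, 𝒪 i)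
    (P₀ : ∀ i, A[X]) (H₀ : ∀ i, 𝒪 i)
    (hf₀ : ∀ i, f₀ i = aeval (D i).t (P₀ i) + (D i).t ^ s i * H₀ i)
    (P : (Σ i, Fin (s i)) → ∀ i, A[X]) (H : (Σ i, Fin (s i)) → ∀ i, 𝒪 i)
    (hf : ∀ j i, f j i = aeval (D i).t (P j i) + (D i).t ^ s i * H j i)
    (hdet : ∀ [DecidableEq (Σ i, Fin (s i))],
      IsUnit (Matrix.of fun (c j : Σ i, Fin (s i)) => (P j c.1).coeff (c.2 : ℕ)).det)
    (h₀ : ∀ i (r : Fin (s i)), (P₀ i).coeff (r : ℕ) ∈ IsLocalRing.maximalIdeal A) :
    ∃ v : (Σ i, Fin (s i)) → Λ, (∀ j, v j ∈ radIdeal Λ) ∧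
      ∀ τ i, ∃ h : 𝒪 i, f₀ i + ∑ j, ((v j : Λ) : T → A) τ • f j i =
        aeval (D i).t (DiscAlg.nodal ((List.ofFn (ys i)).map (ptAt Λ τ))) * h := by
  classical
  rcases isEmpty_or_nonempty T with hT | hT
  · exact ⟨fun _ => 0, fun j => (radIdeal Λ).zero_mem, fun τ => (hT.false τ).elim⟩
  have hnt : Nontrivial Λ := by
    obtain ⟨τ⟩ := hT
    exact RingHom.domain_nontrivial (evAt Λ τ : Λ →+* A)
  have : Fintype T := Fintype.ofFinite T
  set ts : List T := (Finset.univ : Finset T).toList with hts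
  have hmem : ∀ τ, τ ∈ ts := fun τ => by simp [hts]
  have ht0 : ∀ i, (D i).t ^ s i =
      aeval (D i).t (DiscAlg.nodal (List.replicate (s i) (0 : IsLocalRing.maximalIdeal A))) := by
    intro i; rw [nodal_replicate_zero]; simp
  -- interpolation on all the nodes
  choose p₀ g₀ hp₀ using fun (i : ι) =>
    (D i).exists_interp (allVals Λ (List.ofFn (ys i)) ts) (f₀ i)
  choose p g hp using fun (j : Σ i, Fin (s i)) (i : ι) =>
    (D i).exists_interp (allVals Λ (List.ofFn (ys i)) ts) (f j i)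
  -- the polynomials over Λ
  set G : ∀ i, Λ[X] := fun i => nodalΛ Λ (List.ofFn (ys i)) with hG
  have hGm : ∀ i, (G i).Monic := fun i => nodalΛ_monic Λ _
  have hGdeg : ∀ i, (G i).degree = (s i : ℕ) := by
    intro i
    rw [degree_eq_natDegree (hGm i).ne_zero, hG, natDegree_nodalΛ]
    simp
  set B₀ : ∀ i, Λ[X] := fun i => (p₀ i).map (algebraMap A Λ) %ₘ G i with hB₀
  set B : (Σ i, Fin (s i)) → ∀ i, Λ[X] := fun j i => (p j i).map (algebraMap A Λ) %ₘ G i with hB
  set M : Matrix (Σ i, Fin (s i)) (Σ i, Fin (s i)) Λ :=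
    Matrix.of fun c j => (B j c.1).coeff (c.2 : ℕ) with hM
  set b : (Σ i, Fin (s i)) → Λ := fun c => (B₀ c.1).coeff (c.2 : ℕ) with hb
  -- congruences modulo the maximal ideal
  have hMτ : ∀ τ c j, evAt Λ τ (M c j) - (P j c.1).coeff (c.2 : ℕ) ∈
      IsLocalRing.maximalIdeal A := by
    intro τ c j
    obtain ⟨h', hh'⟩ := interp_mod Λ (D c.1) (List.ofFn (ys c.1)) ts τ (hmem τ) (f j c.1)
      (p j c.1) (g j c.1) (hp j c.1)
    have hh2 : f j c.1 = aeval (D c.1).t (P j c.1) +
        aeval (D c.1).t (DiscAlg.nodal (List.replicate (s c.1) (0 : IsLocalRing.maximalIdeal A))) * H j c.1 := by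
      rw [← ht0]; exact hf j c.1
    have := (D c.1).coeff_sub_mem _ _ (f j c.1) _ (P j c.1) h' (H j c.1) hh' hh2 (c.2 : ℕ)
      (by simp) (by simp)
    simpa [hM, hB, Polynomial.coeff_map] using this
  have hbτ : ∀ τ c, evAt Λ τ (b c) ∈ IsLocalRing.maximalIdeal A := by
    intro τ c
    obtain ⟨h', hh'⟩ := interp_mod Λ (D c.1) (List.ofFn (ys c.1)) ts τ (hmem τ) (f₀ c.1)
      (p₀ c.1) (g₀ c.1) (hp₀ c.1)
    have hh2 : f₀ c.1 = aeval (D c.1).t (P₀ c.1) +
        aeval (D c.1).t (DiscAlg.nodal (List.replicate (s c.1) (0 : IsLocalRing.maximalIdeal A))) * H₀ c.1 := by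
      rw [← ht0]; exact hf₀ c.1
    have := (D c.1).coeff_sub_mem _ _ (f₀ c.1) _ (P₀ c.1) h' (H₀ c.1) hh' hh2 (c.2 : ℕ)
      (by simp) (by simp)
    have h2 := (IsLocalRing.maximalIdeal A).add_mem this (h₀ c.1 c.2)
    simpa [hb, hB₀, Polynomial.coeff_map] using h2
  -- the determinant is a unit
  have hdetM : IsUnit M.det := by
    have hpt : ∀ τ, IsUnit (((M.det : Λ) : T → A) τ) := by
      intro τ
      refine (IsLocalRing.residue_ne_zero_iff_isUnit (R := A) _).mp ?_
      set φ : Λ →+* IsLocalRing.ResidueField A :=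
        (IsLocalRing.residue A).comp (evAt Λ τ : Λ →+* A) with hφ
      have h1 : IsLocalRing.residue A (((M.det : Λ) : T → A) τ) = φ M.det := rfl
      rw [h1, RingHom.map_det]
      have h2 : φ.mapMatrix M = (IsLocalRing.residue A).mapMatrix
          (Matrix.of fun (c j : Σ i, Fin (s i)) => (P j c.1).coeff (c.2 : ℕ)) := by
        ext c j
        simp only [RingHom.mapMatrix_apply, Matrix.map_apply, Matrix.of_apply, hφ,
          RingHom.comp_apply]
        have := hMτ τ c j
        rw [← IsLocalRing.residue_eq_zero_iff, _root_.map_sub, sub_eq_zero] at this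
        exact this
      rw [h2, ← RingHom.map_det]
      exact (IsLocalRing.residue_ne_zero_iff_isUnit (R := A) _).mpr hdet
    obtain ⟨w, hw, hfw⟩ := exists_inv_mem Λ M.det.2 hpt
    exact IsUnit.of_mul_eq_one (⟨w, hw⟩ : Λ) (Subtype.ext hfw)
  -- the solution
  set v : (Σ i, Fin (s i)) → Λ := fun j => -(M⁻¹.mulVec b) j with hv
  have hMv : M.mulVec v = -b := by
    have h1 : v = -(M⁻¹.mulVec b) := rfl
    rw [h1, Matrix.mulVec_neg, Matrix.mulVec_mulVec, Matrix.mul_nonsing_inv M hdetM,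
      Matrix.one_mulVec]
  have hbI : ∀ c, b c ∈ radIdeal Λ := fun c τ => hbτ τ c
  have hvI : ∀ j, v j ∈ radIdeal Λ := by
    intro j
    rw [hv]
    refine (radIdeal Λ).neg_mem ?_
    simp only [Matrix.mulVec, dotProduct]
    exact (radIdeal Λ).sum_mem fun c _ => (radIdeal Λ).mul_mem_left _ (hbI c)
  refine ⟨v, hvI, fun τ i => ?_⟩
  -- divisibility in Λ[X]
  set Ψ : Λ[X] := (p₀ i).map (algebraMap A Λ) + ∑ j, C (v j) * (p j i).map (algebraMap A Λ)
    with hΨ
  have hΨmod : Ψ %ₘ G i = B₀ i + ∑ j, v j • B j i := by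
    rw [hΨ, Polynomial.add_modByMonic]
    congr 1
    have : ∀ q : Λ[X], q %ₘ G i = Polynomial.modByMonicHom (G i) q := fun q => rfl
    rw [this, _root_.map_sum]
    refine Finset.sum_congr rfl fun j _ => ?_
    rw [Polynomial.C_mul', _root_.map_smul]
    rfl
  have hdeglt : ∀ q : Λ[X], ∀ r : ℕ, s i ≤ r → (q %ₘ G i).coeff r = 0 := by
    intro q r hr
    refine Polynomial.coeff_eq_zero_of_degree_lt ?_
    refine lt_of_lt_of_le (Polynomial.degree_modByMonic_lt q (hGm i)) ?_
    rw [hGdeg i]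
    exact_mod_cast hr
  have hΨ0 : Ψ %ₘ G i = 0 := by
    ext r
    rw [hΨmod, Polynomial.coeff_zero, Polynomial.coeff_add, Polynomial.finsetSum_coeff]
    simp only [Polynomial.coeff_smul, smul_eq_mul]
    by_cases hr : r < s i
    · have h1 := congrFun hMv ⟨i, ⟨r, hr⟩⟩
      simp only [Matrix.mulVec, dotProduct, hM, Matrix.of_apply, Pi.neg_apply, hb] at h1
      have h2 : ∑ j, v j * (B j i).coeff r = ∑ j, (B j i).coeff r * v j :=
        Finset.sum_congr rfl fun j _ => mul_comm _ _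
      rw [h2, h1]
      exact add_neg_cancel _
    · push Not at hr
      rw [hB₀, hdeglt _ r hr]
      have : ∀ j, (B j i).coeff r = 0 := fun j => hdeglt _ r hr
      simp [this]
  obtain ⟨Q, hQ⟩ := (Polynomial.modByMonic_eq_zero_iff_dvd (hGm i)).mp hΨ0
  -- specialise at τ
  have hcomp : ((evAt Λ τ : Λ →+* A).comp (algebraMap A Λ)) = RingHom.id A := by
    ext a; simp
  have hΨτ : Ψ.map (evAt Λ τ : Λ →+* A) = p₀ i + ∑ j, C (((v j : Λ) : T → A) τ) * p j i := by
    rw [hΨ, Polynomial.map_add, Polynomial.map_sum, Polynomial.map_map, hcomp, Polynomial.map_id]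
    congr 1
    refine Finset.sum_congr rfl fun j _ => ?_
    rw [Polynomial.map_mul, Polynomial.map_C, Polynomial.map_map, hcomp, Polynomial.map_id]
    rfl
  have hQτ : p₀ i + ∑ j, C (((v j : Λ) : T → A) τ) * p j i =
      DiscAlg.nodal ((List.ofFn (ys i)).map (ptAt Λ τ)) * Q.map (evAt Λ τ : Λ →+* A) := by
    rw [← hΨτ, hQ, Polynomial.map_mul, hG, map_nodalΛ]
  obtain ⟨R, hR⟩ := nodal_allVals_dvd Λ (List.ofFn (ys i)) ts τ (hmem τ)
  refine ⟨aeval (D i).t (Q.map (evAt Λ τ : Λ →+* A)) +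
    aeval (D i).t R * (g₀ i + ∑ j, ((v j : Λ) : T → A) τ • g j i), ?_⟩
  have h1 : f₀ i + ∑ j, ((v j : Λ) : T → A) τ • f j i =
      aeval (D i).t (p₀ i + ∑ j, C (((v j : Λ) : T → A) τ) * p j i) +
        aeval (D i).t (DiscAlg.nodal (allVals Λ (List.ofFn (ys i)) ts)) *
          (g₀ i + ∑ j, ((v j : Λ) : T → A) τ • g j i) := by
    rw [_root_.map_add, _root_.map_sum, mul_add, Finset.mul_sum]
    have : ∀ j, ((v j : Λ) : T → A) τ • f j i =
        aeval (D i).t (C (((v j : Λ) : T → A) τ) * p j i) +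
          aeval (D i).t (DiscAlg.nodal (allVals Λ (List.ofFn (ys i)) ts)) *
            (((v j : Λ) : T → A) τ • g j i) := by
      intro j
      conv_lhs => rw [hp j i]
      rw [_root_.map_mul, aeval_C, Algebra.smul_def, Algebra.smul_def]
      ring
    rw [Finset.sum_congr rfl fun j _ => this j, Finset.sum_add_distrib]
    conv_lhs => rw [hp₀ i]
    ring
  rw [h1, hQτ, hR, _root_.map_mul, _root_.map_mul]
  ring

end Comb

end Fermat.Agent.A3.H799

end
-- ===== PACK-END A3/H799/Comb.lean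

-- ===== PACK-BEGIN A3/H799/Local.lean
section


/-!
# A3 / LOCAL — the abstract LOCAL theorem  (helper799)

Combination of `exists_comb` (Cramer over `Λ`) and `root_mem` (Weierstrass + Hensel for algebraic
families).  In the application (addition law of the Jacobian in disc coordinates):

* `ι = Fin g`, `𝒪 i` = integral functions on the residue disc of `Q_i`, `E = Σ P_i`, `Ē = Σ Q_i`
  non-special, `s i = 2`, `ys i = (z_i(x), z_i(y))`, `f₀ i = t_i³ · 1`, `f j i = t_i³ · φ_j` with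
  `1, φ_j` an integral basis of `L(3E)`; the unique `φ = 1 + Σ v_j φ_j` vanishing on `D_x + D_y`
  has divisor `D_x + D_y + D_{-(x+y)} - 3E`, so `c i = z_i(-(x+y))`;
* negation: `s i = 1`, `L(2E)`, `c i = z_i(-x)`.

The hypothesis `hgeo` is the only geometric input and it is POINTWISE (one parameter value `τ`,
honest functions over the valuation ring `A`).
-/

set_option autoImplicit false

namespace Fermat.Agent.A3.H799

open Polynomial

variable {A : Type*} [CommRing A] [IsLocalRing A] {T : Type*} [Finite T]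

/-- **Abstract LOCAL theorem.**  If the linear system "`f₀ + Σ a_j f_j` vanishes on the moving
nodes" is non-degenerate modulo `𝔪` and every solution has exactly one further zero `c i τ` in the
`i`-th disc, then `τ ↦ c i τ` lies in every algebra `Λ` of functions containing the nodes. -/
theorem local_mem {ι : Type*} [Fintype ι] {𝒪 : ι → Type*}
    [∀ i, CommRing (𝒪 i)] [∀ i, Algebra A (𝒪 i)]
    (Λ : Subalgebra A (T → A)) (D : ∀ i, DiscAlg A (𝒪 i)) (s : ι → ℕ)
    (ys : ∀ i, Fin (s i) → radIdeal Λ)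
    (f₀ : ∀ i, 𝒪 i) (f : (Σ i, Fin (s i)) → ∀ i, 𝒪 i)
    (P₀ : ∀ i, A[X]) (H₀ : ∀ i, 𝒪 i)
    (hf₀ : ∀ i, f₀ i = aeval (D i).t (P₀ i) + (D i).t ^ s i * H₀ i)
    (P : (Σ i, Fin (s i)) → ∀ i, A[X]) (H : (Σ i, Fin (s i)) → ∀ i, 𝒪 i)
    (hf : ∀ j i, f j i = aeval (D i).t (P j i) + (D i).t ^ s i * H j i)
    (hdet : ∀ [DecidableEq (Σ i, Fin (s i))],
      IsUnit (Matrix.of fun (c j : Σ i, Fin (s i)) => (P j c.1).coeff (c.2 : ℕ)).det)
    (h₀ : ∀ i (r : Fin (s i)), (P₀ i).coeff (r : ℕ) ∈ IsLocalRing.maximalIdeal A)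
    (c : ι → T → IsLocalRing.maximalIdeal A)
    (hgeo : ∀ (τ : T) (a : (Σ i, Fin (s i)) → IsLocalRing.maximalIdeal A),
      (∀ i, ∃ h : 𝒪 i, f₀ i + ∑ j, ((a j : IsLocalRing.maximalIdeal A) : A) • f j i =
        aeval (D i).t (DiscAlg.nodal ((List.ofFn (ys i)).map (ptAt Λ τ))) * h) →
      ∀ i, ∃ u : 𝒪 i, IsUnit ((D i).ev (c i τ) u) ∧
        f₀ i + ∑ j, ((a j : IsLocalRing.maximalIdeal A) : A) • f j i =
          aeval (D i).t (DiscAlg.nodal ((List.ofFn (ys i)).map (ptAt Λ τ))) *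
            ((D i).t - algebraMap A (𝒪 i) ((c i τ : IsLocalRing.maximalIdeal A) : A)) * u) :
    ∀ i, (fun τ => ((c i τ : IsLocalRing.maximalIdeal A) : A)) ∈ Λ := by
  classical
  obtain ⟨v, hvI, hv⟩ := exists_comb Λ D s ys f₀ f P₀ H₀ hf₀ P H hf hdet h₀
  intro i
  refine root_mem Λ (D i) (κ := Option (Σ i, Fin (s i)))
    (fun o => o.elim (f₀ i) fun j => f j i) (fun o => o.elim 1 v) (List.ofFn (ys i)) (c i) ?_
  intro τ
  obtain ⟨u, hu, hW⟩ := hgeo τ (fun j => ⟨((v j : Λ) : T → A) τ, hvI j τ⟩) (hv τ) i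
  refine ⟨u, hu, ?_⟩
  rw [← hW, Fintype.sum_option]
  simp

end Fermat.Agent.A3.H799
end
-- ===== PACK-END A3/H799/Local.lean

-- ===== PACK-BEGIN Lib/RR/H439/Adeles.lean
section


/-!
# RR library, layer L4 (repartitions and `H¹(D)`), hypothesis-explicit version (helper439)

Everything is proved on top of layer L1 (`Fermat.Agent.Lib.RR.Basic`, on main).  The two inputs
from layer L3 (Riemann's theorem) enter as explicit hypotheses:

* `hR : ∀ D, deg D + 1 - g ≤ ℓ(D)`         (Riemann's inequality for the constant `g`),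
* `h₀ : ℓ(D₀) = deg D₀ + 1 - g`            (the bound is attained at some `D₀`).

Main results (namespace `Fermat.Agent.Lib.RR.H439`):

* `mem_repartitions_iff`   : `α ∈ repartitions K F ↔ {v | ord_v (α v) < 0}.Finite`;
* `H1_step`                : `H¹(D + P)` finite ⇒ `H¹(D)` finite and
                             `i(D) + ℓ(D + P) = i(D + P) + ℓ(D) + 1`;
* `sup_eq_top_of_attains`  : `ℓ(B) = deg B + 1 - g` ⇒ `𝔸 = 𝔸(B) + F`;
* `finite_H1_and_formula`  : `H¹(D)` is finite-dimensional and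
                             `ℓ(D) - dim H¹(D) = deg D + 1 - g` for every divisor `D`.
-/

set_option autoImplicit false

noncomputable section

open AlgebraicCurve

namespace Fermat.Agent.Lib.RR.H439

open Fermat.Agent.Lib.RR

variable {K F : Type*} [Field K] [Field F] [Algebra K F]

/-! ### L4.0: repartitions = families with finitely many poles -/

/-- A constant has finitely many poles. -/
theorem finite_poles_const [HasPrincipalDivisors K F] (f : F) :
    {v : Place K F | v.ord f < 0}.Finite := by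
  rcases eq_or_ne f 0 with rfl | hf
  · simp
  obtain ⟨D, hD, -⟩ := HasPrincipalDivisors.exists_divisor (K := K) f hf
  refine D.support.finite_toSet.subset fun v hv => ?_
  have hv' : v.ord f < 0 := hv
  rw [Finset.mem_coe, Finsupp.mem_support_iff, hD v]
  omega

theorem ord_add_nonneg (v : Place K F) {f g : F} (hf : 0 ≤ v.ord f) (hg : 0 ≤ v.ord g) :
    0 ≤ v.ord (f + g) :=
  ord_nonneg_of_mem v (add_mem (mem_of_ord_nonneg v hf) (mem_of_ord_nonneg v hg))

theorem ord_mul_nonneg (v : Place K F) {f g : F} (hf : 0 ≤ v.ord f) (hg : 0 ≤ v.ord g) :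
    0 ≤ v.ord (f * g) :=
  ord_nonneg_of_mem v (mul_mem (mem_of_ord_nonneg v hf) (mem_of_ord_nonneg v hg))

/-- **L4.0**: the repartitions are exactly the families with finitely many poles. -/
theorem mem_repartitions_iff [HasPrincipalDivisors K F] {α : Place K F → F} :
    α ∈ repartitions K F ↔ {v : Place K F | v.ord (α v) < 0}.Finite := by
  refine ⟨fun h => ?_, mem_repartitions_of_finite_ord⟩
  unfold repartitions at h
  induction h using Algebra.adjoin_induction with
  | mem x hx =>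
    have hx' : {v : Place K F | ¬v.adicValuation (x v) ≤ 1}.Finite := hx
    rwa [show {v : Place K F | ¬v.adicValuation (x v) ≤ 1}
        = {v : Place K F | v.ord (x v) < 0} from
      Set.ext fun v => v.not_adicValuation_le_one_iff] at hx'
  | algebraMap f => exact finite_poles_const f
  | add x y _ _ hx hy =>
    refine (hx.union hy).subset fun v hv => ?_
    have hv' : v.ord (x v + y v) < 0 := hv
    by_contra hcon
    rw [Set.mem_union, not_or] at hcon
    have h1 : 0 ≤ v.ord (x v) := not_lt.mp hcon.1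
    have h2 : 0 ≤ v.ord (y v) := not_lt.mp hcon.2
    have := ord_add_nonneg v h1 h2
    omega
  | mul x y _ _ hx hy =>
    refine (hx.union hy).subset fun v hv => ?_
    have hv' : v.ord (x v * y v) < 0 := hv
    by_contra hcon
    rw [Set.mem_union, not_or] at hcon
    have h1 : 0 ≤ v.ord (x v) := not_lt.mp hcon.1
    have h2 : 0 ≤ v.ord (y v) := not_lt.mp hcon.2
    have := ord_mul_nonneg v h1 h2
    omega

/-! ### The repartition supported at one place -/

open scoped Classical in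
/-- The repartition with value `t` at `v` and `0` elsewhere. -/
def single (v : Place K F) (t : F) : ↥(repartitions K F) :=
  ⟨Pi.single v t, mem_repartitions_of_finite_ord <|
    (Set.finite_singleton v).subset fun w hw => by
      have hw' : w.ord ((Pi.single v t : Place K F → F) w) < 0 := hw
      by_contra hne
      rw [Set.mem_singleton_iff] at hne
      rw [Pi.single_eq_of_ne hne, Place.ord_zero] at hw'
      exact lt_irrefl _ hw'⟩

@[simp] theorem single_apply_self (v : Place K F) (t : F) :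
    (single v t : Place K F → F) v = t := by
  classical
  simp [single]

theorem single_apply_of_ne {v w : Place K F} (h : w ≠ v) (t : F) :
    (single v t : Place K F → F) w = 0 := by
  classical
  simp [single, Pi.single_eq_of_ne h]

theorem coe_smul_apply (c : K) (α : ↥(repartitions K F)) (w : Place K F) :
    ((c • α : ↥(repartitions K F)) : Place K F → F) w
      = algebraMap K F c * (α : Place K F → F) w := by
  show (c • (α : Place K F → F)) w = _
  rw [Pi.smul_apply, Algebra.smul_def]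

theorem coe_sub_apply (α β : ↥(repartitions K F)) (w : Place K F) :
    ((α - β : ↥(repartitions K F)) : Place K F → F) w
      = (α : Place K F → F) w - (β : Place K F → F) w := rfl

theorem coe_add_apply (α β : ↥(repartitions K F)) (w : Place K F) :
    ((α + β : ↥(repartitions K F)) : Place K F → F) w
      = (α : Place K F → F) w + (β : Place K F → F) w := rfl

theorem single_mem_repartitionsOf (v : Place K F) (D : Divisor K F) {t : F}
    (ht : v.ord t = -(D v + 1)) : single v t ∈ repartitionsOf (D + prim v) := by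
  rw [mem_repartitionsOf_iff]
  intro w
  by_cases hw : w = v
  · subst hw
    right
    rw [single_apply_self, ht]
    simp only [Finsupp.coe_add, Pi.add_apply, prim_apply_self]
    omega
  · left
    exact single_apply_of_ne hw t

/-! ### Lemma A: `𝔸(D + P) = 𝔸(D) + K α₀` -/

theorem repartitionsOf_add_prim_le (v : Place K F) (hv : v.deg = 1) (D : Divisor K F) {t : F}
    (ht0 : t ≠ 0) (ht : v.ord t = -(D v + 1)) :
    repartitionsOf (D + prim v) ≤ repartitionsOf D ⊔ Submodule.span K {single v t} := by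
  intro β hβ
  rw [mem_repartitionsOf_iff] at hβ
  obtain ⟨b, hb⟩ : ∃ b : F, b = (β : Place K F → F) v := ⟨_, rfl⟩
  have hg : 0 ≤ v.ord (b * t⁻¹) := by
    rcases eq_or_ne b 0 with h0 | h0
    · rw [h0, zero_mul, Place.ord_zero]
    · have h1 := (hβ v).resolve_left (hb ▸ h0)
      simp only [Finsupp.coe_add, Pi.add_apply, prim_apply_self] at h1
      rw [← hb] at h1
      rw [v.ord_mul h0 (inv_ne_zero ht0), v.ord_inv, ht]
      omega
  obtain ⟨c, hc⟩ := exists_const_sub v hv hg
  have hdecomp : β = (β - c • single v t) + c • single v t := by abel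
  rw [hdecomp]
  refine Submodule.add_mem _ (Submodule.mem_sup_left ?_)
    (Submodule.mem_sup_right (Submodule.smul_mem _ _ (Submodule.mem_span_singleton_self _)))
  rw [mem_repartitionsOf_iff]
  intro w
  rw [coe_sub_apply, coe_smul_apply]
  by_cases hw : w = v
  · subst hw
    rw [single_apply_self]
    have hfac : b - algebraMap K F c * t = (b * t⁻¹ - algebraMap K F c) * t := by
      field_simp
    rw [← hb, hfac]
    rcases hc with hc | hc
    · left; rw [hc, zero_mul]
    · rcases eq_or_ne (b * t⁻¹ - algebraMap K F c) 0 with h0 | h0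
      · left; rw [h0, zero_mul]
      right
      rw [w.ord_mul h0 ht0, ht]
      omega
  · rw [single_apply_of_ne hw, mul_zero, sub_zero]
    have := hβ w
    simpa [prim_apply_of_ne hw] using this

/-! ### Lemma B: `α₀ ∈ 𝔸(D) + F` iff `L(D + P) ≠ L(D)` -/

theorem ord_eq_of_mem_of_not_mem (v : Place K F) (D : Divisor K F) {f₀ : F}
    (hf₀ : f₀ ∈ riemannRochSpace (D + prim v)) (hf₀' : f₀ ∉ riemannRochSpace D) :
    f₀ ≠ 0 ∧ v.ord f₀ = -(D v + 1) := by
  have hf₀0 : f₀ ≠ 0 := fun h => hf₀' (h ▸ Submodule.zero_mem _)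
  refine ⟨hf₀0, ?_⟩
  have h1 := (mem_L_iff.mp hf₀ v).resolve_left hf₀0
  simp only [Finsupp.coe_add, Pi.add_apply, prim_apply_self] at h1
  by_contra hne
  apply hf₀'
  rw [mem_L_iff]
  intro w
  right
  by_cases hw : w = v
  · subst hw; omega
  · have h2 := (mem_L_iff.mp hf₀ w).resolve_left hf₀0
    simpa [prim_apply_of_ne hw] using h2

/-- The constant repartition attached to `f`. -/
def const (f : F) : ↥(repartitions K F) := algebraMap F ↥(repartitions K F) f

@[simp] theorem const_apply (f : F) (w : Place K F) :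
    (const (K := K) f : Place K F → F) w = f := rfl

theorem const_mem_principal (f : F) : const (K := K) f ∈ principalRepartitions K F :=
  mem_principalRepartitions_iff.mpr ⟨f, rfl⟩

theorem single_mem_sup_of_not_le (v : Place K F) (hv : v.deg = 1) (D : Divisor K F) {t : F}
    (ht0 : t ≠ 0) (ht : v.ord t = -(D v + 1))
    (h : ¬ riemannRochSpace (D + prim v) ≤ riemannRochSpace D) :
    single v t ∈ repartitionsOf D ⊔ principalRepartitions K F := by
  obtain ⟨f₀, hf₀, hf₀'⟩ := SetLike.not_le_iff_exists.mp h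
  obtain ⟨hf₀0, hord⟩ := ord_eq_of_mem_of_not_mem v D hf₀ hf₀'
  have hg0 : v.ord (f₀ * t⁻¹) = 0 := by
    rw [v.ord_mul hf₀0 (inv_ne_zero ht0), v.ord_inv, ht, hord]; omega
  obtain ⟨c, hc⟩ := exists_const_sub v hv (le_of_eq hg0.symm)
  have hc0 : c ≠ 0 := by
    rintro rfl
    rw [map_zero, sub_zero] at hc
    rcases hc with hc | hc
    · exact (mul_ne_zero hf₀0 (inv_ne_zero ht0)) hc
    · omega
  have hcF : algebraMap K F c ≠ 0 := by simpa using hc0
  -- `α₀ = c⁻¹ f₀ - (c⁻¹ f₀ - α₀)`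
  have hdecomp : single v t
      = (single v t - c⁻¹ • const (K := K) f₀) + c⁻¹ • const (K := K) f₀ := by abel
  rw [hdecomp]
  refine Submodule.add_mem _ (Submodule.mem_sup_left ?_)
    (Submodule.mem_sup_right (Submodule.smul_mem _ _ (const_mem_principal f₀)))
  rw [mem_repartitionsOf_iff]
  intro w
  rw [coe_sub_apply, coe_smul_apply, const_apply]
  by_cases hw : w = v
  · subst hw
    rw [single_apply_self]
    have hfac : t - algebraMap K F c⁻¹ * f₀
        = -(algebraMap K F c⁻¹ * ((f₀ * t⁻¹ - algebraMap K F c) * t)) := by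
      rw [map_inv₀]
      field_simp
      ring
    rw [hfac]
    rcases hc with hc | hc
    · left; rw [hc, zero_mul, mul_zero, neg_zero]
    · right
      have hne : f₀ * t⁻¹ - algebraMap K F c ≠ 0 := by
        intro h0; rw [h0, Place.ord_zero] at hc; exact lt_irrefl _ hc
      have hcinv : algebraMap K F c⁻¹ ≠ 0 := by simpa using hc0
      rw [ord_neg, w.ord_mul hcinv (mul_ne_zero hne ht0), ord_algebraMap, w.ord_mul hne ht0, ht]
      omega
  · rw [single_apply_of_ne hw, zero_sub]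
    have h2 := (mem_L_iff.mp hf₀ w).resolve_left hf₀0
    right
    have hcinv : algebraMap K F c⁻¹ ≠ 0 := by simpa using hc0
    rw [ord_neg, w.ord_mul hcinv hf₀0, ord_algebraMap]
    simpa [prim_apply_of_ne hw] using h2

theorem not_le_of_single_mem_sup (v : Place K F) (D : Divisor K F) {t : F}
    (ht0 : t ≠ 0) (ht : v.ord t = -(D v + 1))
    (h : single v t ∈ repartitionsOf D ⊔ principalRepartitions K F) :
    ¬ riemannRochSpace (D + prim v) ≤ riemannRochSpace D := by
  obtain ⟨β, hβ, γ, hγ, hsum⟩ := Submodule.mem_sup.mp h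
  obtain ⟨f, hf⟩ := mem_principalRepartitions_iff.mp hγ
  rw [mem_repartitionsOf_iff] at hβ
  -- values
  have hval : ∀ w, (single v t : Place K F → F) w = (β : Place K F → F) w + f := by
    intro w
    have := congrArg (fun x : ↥(repartitions K F) => (x : Place K F → F) w) hsum
    simp only [coe_add_apply, hf] at this
    exact this.symm
  have hv := hval v
  rw [single_apply_self] at hv
  -- `f = t - β v` has order exactly `-(D v + 1)` at `v`
  have hfv : f = t + -(β : Place K F → F) v := by rw [hv]; ring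
  have hford : f ≠ 0 ∧ v.ord f = -(D v + 1) := by
    rcases eq_or_ne ((β : Place K F → F) v) 0 with h0 | h0
    · rw [hfv, h0, neg_zero, add_zero]; exact ⟨ht0, ht⟩
    · have h1 := (hβ v).resolve_left h0
      have hlt : v.ord t < v.ord (-(β : Place K F → F) v) := by rw [ord_neg, ht]; omega
      have := ord_add_eq_of_lt v ht0 (neg_ne_zero.mpr h0) hlt
      rw [← hfv] at this
      refine ⟨?_, this.trans ht⟩
      intro hf0
      rw [hf0, Place.ord_zero, ht] at this
      rw [hf0] at hfv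
      have h2 : (β : Place K F → F) v = t := by
        have := congrArg (fun x => x + (β : Place K F → F) v) hfv
        simpa using this
      rw [h2, ht] at h1
      omega
  intro hle
  have hfL : f ∈ riemannRochSpace (D + prim v) := by
    rw [mem_L_iff]
    intro w
    right
    by_cases hw : w = v
    · subst hw
      simp only [Finsupp.coe_add, Pi.add_apply, prim_apply_self]
      have := hford.2
      omega
    · have hw' := hval w
      rw [single_apply_of_ne hw] at hw'
      have hβw : (β : Place K F → F) w = -f := by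
        have := congrArg (fun x => x - f) hw'
        simpa using this.symm
      have hβ0 : (β : Place K F → F) w ≠ 0 := by rw [hβw]; exact neg_ne_zero.mpr hford.1
      have h1 := (hβ w).resolve_left hβ0
      rw [hβw, ord_neg] at h1
      simpa [prim_apply_of_ne hw] using h1
  have := (mem_L_iff.mp (hle hfL) v).resolve_left hford.1
  rw [hford.2] at this
  omega

theorem single_mem_sup_iff (v : Place K F) (hv : v.deg = 1) (D : Divisor K F) {t : F}
    (ht0 : t ≠ 0) (ht : v.ord t = -(D v + 1)) :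
    single v t ∈ repartitionsOf D ⊔ principalRepartitions K F ↔
      ¬ riemannRochSpace (D + prim v) ≤ riemannRochSpace D :=
  ⟨not_le_of_single_mem_sup v D ht0 ht, single_mem_sup_of_not_le v hv D ht0 ht⟩

/-- A function with prescribed order at `v`. -/
theorem exists_ord_eq (v : Place K F) (n : ℤ) : ∃ t : F, t ≠ 0 ∧ v.ord t = n := by
  obtain ⟨π, hπ⟩ := exists_ord_eq_one v
  have hπ0 : π ≠ 0 := ne_zero_of_ord_ne_zero v (by rw [hπ]; exact one_ne_zero)
  exact ⟨π ^ n, zpow_ne_zero n hπ0, by rw [v.ord_zpow, hπ, mul_one]⟩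

end Fermat.Agent.Lib.RR.H439

end
end
-- ===== PACK-END Lib/RR/H439/Adeles.lean

-- ===== PACK-BEGIN S37/H939/Order.lean
section



/-!
# Comparison of two orders over `k[X]` and the discriminant criterion
(row S37 / S18, piece b2 = R2; seat helper939)

`f : T₁ →ₐ[k[X]] T₂` an injective homomorphism of finite free `k[X]`-algebras of the same rank
(think: an order inside a bigger order).  If
`rootMultiplicity c (discr b₁) + redRank T₁ c ≤ n`, then `X - c` does not divide the index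
`det M` of `T₁` in `T₂`.
-/

set_option autoImplicit false
set_option linter.unusedSectionVars false

namespace Fermat.Agent.S37.H939

open Polynomial Matrix

variable {k : Type*} [Field k]
variable {T₁ T₂ : Type*} [CommRing T₁] [CommRing T₂]
  [Algebra k[X] T₁] [Algebra k T₁] [IsScalarTower k k[X] T₁]
  [Algebra k[X] T₂] [Algebra k T₂] [IsScalarTower k k[X] T₂]
variable {ι : Type*} [Fintype ι] [DecidableEq ι]
  (b₁ : Module.Basis ι k[X] T₁) (b₂ : Module.Basis ι k[X] T₂) (f : T₁ →ₐ[k[X]] T₂)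

/-- The matrix of the inclusion. -/
noncomputable abbrev incMatrix : Matrix ι ι k[X] := LinearMap.toMatrix b₁ b₂ f.toLinearMap

lemma incMatrix_det_ne_zero (hf : Function.Injective f) : (incMatrix b₁ b₂ f).det ≠ 0 := by
  intro h0
  obtain ⟨v, hv, hMv⟩ := Matrix.exists_mulVec_eq_zero_iff.mpr h0
  apply hv
  have h2 : (b₁.repr (b₁.equivFun.symm v) : ι → k[X]) = v := by
    have := b₁.equivFun.apply_symm_apply v
    funext j
    exact congrFun this j
  have h1 : f (b₁.equivFun.symm v) = 0 := by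
    apply b₂.repr.injective
    rw [map_zero]
    apply DFunLike.coe_injective
    have := LinearMap.toMatrix_mulVec_repr b₁ b₂ f.toLinearMap (b₁.equivFun.symm v)
    rw [h2, hMv] at this
    exact this.symm
  have h3 : b₁.equivFun.symm v = 0 := hf (by rw [h1, map_zero])
  exact (LinearEquiv.map_eq_zero_iff b₁.equivFun.symm).mp h3

lemma leftMulMatrix_mul_incMatrix (z : T₁) :
    Algebra.leftMulMatrix b₂ (f z) * incMatrix b₁ b₂ f =
      incMatrix b₁ b₂ f * Algebra.leftMulMatrix b₁ z := by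
  rw [← Algebra.toMatrix_lmul_eq, ← Algebra.toMatrix_lmul_eq, incMatrix,
    ← LinearMap.toMatrix_comp, ← LinearMap.toMatrix_comp]
  congr 1
  ext x
  simp

include b₁ b₂ in
lemma trace_map_eq (hf : Function.Injective f) (z : T₁) :
    Algebra.trace k[X] T₂ (f z) = Algebra.trace k[X] T₁ z := by
  rw [Algebra.trace_eq_matrix_trace b₂, Algebra.trace_eq_matrix_trace b₁]
  set M := incMatrix b₁ b₂ f
  set A := Algebra.leftMulMatrix b₂ (f z)
  set B := Algebra.leftMulMatrix b₁ z
  have hAM : A * M = M * B := leftMulMatrix_mul_incMatrix b₁ b₂ f z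
  have hdet : M.det ≠ 0 := incMatrix_det_ne_zero b₁ b₂ f hf
  have h1 : M.det • A = M * B * M.adjugate := by
    rw [← hAM, Matrix.mul_assoc, Matrix.mul_adjugate, Matrix.mul_smul, Matrix.mul_one]
  have h2 : M.det * A.trace = M.det * B.trace := by
    have := congrArg Matrix.trace h1
    rw [Matrix.trace_smul, smul_eq_mul, Matrix.trace_mul_comm, ← Matrix.mul_assoc,
      Matrix.adjugate_mul, Matrix.smul_mul, Matrix.one_mul, Matrix.trace_smul, smul_eq_mul] at this
    exact this
  exact mul_left_cancel₀ hdet h2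

/-- **Index formula.** -/
theorem discr_eq_det_sq_mul (hf : Function.Injective f) :
    Algebra.discr k[X] b₁ = (incMatrix b₁ b₂ f).det ^ 2 * Algebra.discr k[X] b₂ := by
  have h1 : Algebra.discr k[X] b₁ = Algebra.discr k[X] (fun i => f (b₁ i)) := by
    rw [Algebra.discr_def, Algebra.discr_def]
    congr 1
    refine Matrix.ext fun i j => ?_
    rw [Algebra.traceMatrix_apply, Algebra.traceMatrix_apply, Algebra.traceForm_apply,
      Algebra.traceForm_apply]
    have := trace_map_eq b₁ b₂ f hf (b₁ i * b₁ j)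
    rw [map_mul f] at this
    exact this.symm
  have h2 : (fun i => f (b₁ i)) =
      ((incMatrix b₁ b₂ f).transpose.map (algebraMap k[X] T₂)).mulVec b₂ := by
    funext j
    rw [Matrix.mulVec, dotProduct]
    conv_lhs => rw [← b₂.sum_repr (f (b₁ j))]
    refine Finset.sum_congr rfl fun i _ => ?_
    rw [Matrix.map_apply, Matrix.transpose_apply, incMatrix, LinearMap.toMatrix_apply,
      Algebra.smul_def]
    rfl
  rw [h1, h2, Algebra.discr_of_matrix_mulVec, Matrix.det_transpose]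

/-- Coordinates of `f z` modulo `X - c`. -/
lemma coord_map (c : k) (z : T₁) :
    coord b₂ c (f z) = ((incMatrix b₁ b₂ f).map (evalRingHom c)).mulVec (coord b₁ c z) := by
  funext i
  have h := congrFun (LinearMap.toMatrix_mulVec_repr b₁ b₂ f.toLinearMap z) i
  rw [coord_apply]
  have h' : b₂.repr (f z) i = ∑ j, incMatrix b₁ b₂ f i j * b₁.repr z j := by
    rw [← AlgHom.toLinearMap_apply, ← h]
    rfl
  rw [h', eval_finsetSum, Matrix.mulVec, dotProduct]
  refine Finset.sum_congr rfl fun j _ => ?_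
  rw [eval_mul, Matrix.map_apply, coord_apply, coe_evalRingHom]

lemma map_mem_fibreIdeal (c : k) {z : T₁} (hz : z ∈ fibreIdeal T₁ c) :
    f z ∈ fibreIdeal T₂ c := by
  rw [fibreIdeal, Ideal.mem_span_singleton] at hz ⊢
  obtain ⟨y, rfl⟩ := hz
  exact ⟨f y, by rw [map_mul, AlgHom.commutes]⟩

lemma map_mem_radical (c : k) {z : T₁} (hz : z ∈ (fibreIdeal T₁ c).radical) :
    f z ∈ (fibreIdeal T₂ c).radical := by
  obtain ⟨m, hm⟩ := hz
  exact ⟨m, by rw [← map_pow]; exact map_mem_fibreIdeal f c hm⟩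

include b₁ in
lemma finite_quot_radical (c : k) : Module.Finite k (T₁ ⧸ (fibreIdeal T₁ c).radical) := by
  let Rad : Ideal T₁ := (fibreIdeal T₁ c).radical
  let Ψ : (ι → k) →ₗ[k] T₁ ⧸ Rad := (Ideal.Quotient.mkₐ k Rad).toLinearMap ∘ₗ lift b₁
  have hΨsurj : Function.Surjective Ψ := by
    intro q
    obtain ⟨z, rfl⟩ := Ideal.Quotient.mk_surjective q
    refine ⟨coord b₁ c z, ?_⟩
    show Ideal.Quotient.mk Rad (lift b₁ (coord b₁ c z)) = Ideal.Quotient.mk Rad z
    rw [eq_comm, Ideal.Quotient.eq]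
    exact Ideal.le_radical (sub_lift_coord_mem b₁ c z)
  exact Module.Finite.of_surjective Ψ hΨsurj

/-- **(d)** The reduced rank of the bigger order is bounded by that of the smaller order plus
the corank of the inclusion matrix modulo `X - c`. -/
theorem redRank_le_add_corank (c : k) :
    redRank T₂ c ≤ redRank T₁ c +
      (Fintype.card ι - ((incMatrix b₁ b₂ f).map (evalRingHom c)).rank) := by
  classical
  set Mbar : Matrix ι ι k := (incMatrix b₁ b₂ f).map (evalRingHom c) with hMbar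
  let Rad₁ : Ideal T₁ := (fibreIdeal T₁ c).radical
  let Rad₂ : Ideal T₂ := (fibreIdeal T₂ c).radical
  have : Module.Finite k (T₁ ⧸ Rad₁) := finite_quot_radical b₁ c
  have : Module.Finite k (T₂ ⧸ Rad₂) := finite_quot_radical b₂ c
  let Ψ : (ι → k) →ₗ[k] T₂ ⧸ Rad₂ := (Ideal.Quotient.mkₐ k Rad₂).toLinearMap ∘ₗ lift b₂
  have hΨsurj : Function.Surjective Ψ := by
    intro q
    obtain ⟨z, rfl⟩ := Ideal.Quotient.mk_surjective q
    refine ⟨coord b₂ c z, ?_⟩
    show Ideal.Quotient.mk Rad₂ (lift b₂ (coord b₂ c z)) = Ideal.Quotient.mk Rad₂ z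
    rw [eq_comm, Ideal.Quotient.eq]
    exact Ideal.le_radical (sub_lift_coord_mem b₂ c z)
  let U : Submodule k (ι → k) := LinearMap.range Mbar.mulVecLin
  let V : Submodule k (T₂ ⧸ Rad₂) := U.map Ψ
  -- the induced map on reduced fibres
  let g : (T₁ ⧸ Rad₁) →ₗ[k] (T₂ ⧸ Rad₂) :=
    (Ideal.quotientMapₐ Rad₂ (f.restrictScalars k)
      (fun z hz => map_mem_radical f c hz)).toLinearMap
  have hVg : V ≤ LinearMap.range g := by
    rintro _ ⟨u, ⟨w, rfl⟩, rfl⟩
    refine ⟨Ideal.Quotient.mk Rad₁ (lift b₁ w), ?_⟩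
    show Ideal.Quotient.mk Rad₂ (f (lift b₁ w)) =
      Ideal.Quotient.mk Rad₂ (lift b₂ (Mbar.mulVec w))
    rw [Ideal.Quotient.eq]
    apply Ideal.le_radical
    rw [← coord_eq_zero_iff b₂, map_sub, coord_lift, coord_map b₁ b₂ f c, coord_lift, sub_self]
  have h1 : Module.finrank k V ≤ redRank T₁ c :=
    (Submodule.finrank_mono hVg).trans (LinearMap.finrank_range_le g)
  -- the quotient estimate
  have hUV : U ≤ V.comap Ψ := Submodule.le_comap_map Ψ U
  have hsurj : Function.Surjective (U.mapQ V Ψ hUV) := by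
    intro q
    obtain ⟨y, rfl⟩ := Submodule.mkQ_surjective V q
    obtain ⟨x, rfl⟩ := hΨsurj y
    exact ⟨U.mkQ x, rfl⟩
  have h2 : Module.finrank k ((T₂ ⧸ Rad₂) ⧸ V) ≤ Module.finrank k ((ι → k) ⧸ U) :=
    LinearMap.finrank_le_finrank_of_surjective hsurj
  have h3 := Submodule.finrank_quotient_add_finrank U
  have h4 := Submodule.finrank_quotient_add_finrank V
  have h5 : Module.finrank k (ι → k) = Fintype.card ι := Module.finrank_fintype_fun_eq_card k
  have h6 : Mbar.rank = Module.finrank k U := rfl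
  have h7 : redRank T₂ c = Module.finrank k (T₂ ⧸ Rad₂) := rfl
  omega

/-- **Core theorem (discriminant criterion).**  If the order `T₁` satisfies
`ord_c (discr T₁) + redRank T₁ c ≤ n`, then `X - c` does not divide the index of `T₁` in any
overorder `T₂`. -/
theorem not_dvd_det_incMatrix (hf : Function.Injective f) (c : k)
    (hd : Algebra.discr k[X] b₁ ≠ 0)
    (h : (Algebra.discr k[X] b₁).rootMultiplicity c + redRank T₁ c ≤ Fintype.card ι) :
    ¬ (X - C c) ∣ (incMatrix b₁ b₂ f).det := by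
  classical
  set d := (incMatrix b₁ b₂ f).det with hd_def
  have hidx := discr_eq_det_sq_mul b₁ b₂ f hf
  rw [← hd_def] at hidx
  have hd0 : d ≠ 0 := incMatrix_det_ne_zero b₁ b₂ f hf
  have hD2 : Algebra.discr k[X] b₂ ≠ 0 := by
    intro h0
    rw [h0, mul_zero] at hidx
    exact hd hidx
  -- multiplicities
  have ha : (Algebra.discr k[X] b₁).rootMultiplicity c =
      2 * d.rootMultiplicity c + (Algebra.discr k[X] b₂).rootMultiplicity c := by
    rw [hidx, rootMultiplicity_mul (mul_ne_zero (pow_ne_zero 2 hd0) hD2), pow_two,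
      rootMultiplicity_mul (mul_ne_zero hd0 hd0)]
    ring
  have ht : Fintype.card ι - redRank T₂ c ≤ (Algebra.discr k[X] b₂).rootMultiplicity c :=
    (le_rootMultiplicity_iff hD2).mpr (pow_dvd_discr b₂ c)
  have hr := redRank_le_add_corank b₁ b₂ f c
  have hm : Fintype.card ι - ((incMatrix b₁ b₂ f).map (evalRingHom c)).rank ≤
      d.rootMultiplicity c :=
    (le_rootMultiplicity_iff hd0).mpr
      (pow_corank_dvd_det (evalRingHom c) (fun a => ⟨C a, by simp⟩) (X - C c)
        (fun s hs => Polynomial.dvd_iff_isRoot.mpr hs) (incMatrix b₁ b₂ f))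
  have hm0 : d.rootMultiplicity c = 0 := by omega
  intro hdvd
  have := (rootMultiplicity_eq_zero_iff.mp hm0) (Polynomial.dvd_iff_isRoot.mp hdvd)
  exact hd0 this

/-- **Global form.**  If the discriminant of `T₁` splits and the criterion holds at each of its
roots, then the index of `T₁` in any overorder is a unit. -/
theorem isUnit_det_incMatrix (hf : Function.Injective f)
    (hd : Algebra.discr k[X] b₁ ≠ 0) (hs : (Algebra.discr k[X] b₁).Splits)
    (h : ∀ c : k, (Algebra.discr k[X] b₁).IsRoot c →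
      (Algebra.discr k[X] b₁).rootMultiplicity c + redRank T₁ c ≤ Fintype.card ι) :
    IsUnit (incMatrix b₁ b₂ f).det := by
  classical
  set d := (incMatrix b₁ b₂ f).det with hd_def
  have hidx := discr_eq_det_sq_mul b₁ b₂ f hf
  rw [← hd_def] at hidx
  have hdvd : d ∣ Algebra.discr k[X] b₁ := ⟨d * Algebra.discr k[X] b₂, by rw [hidx]; ring⟩
  have hsd : d.Splits := hs.of_dvd hd hdvd
  rw [Polynomial.isUnit_iff_degree_eq_zero]
  by_contra hdeg
  obtain ⟨c, hc⟩ := hsd.exists_eval_eq_zero hdeg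
  have hroot : (Algebra.discr k[X] b₁).IsRoot c := by
    obtain ⟨e, he⟩ := hdvd
    rw [IsRoot, he, eval_mul, hc, zero_mul]
  exact not_dvd_det_incMatrix b₁ b₂ f hf c hd (h c hroot) (Polynomial.dvd_iff_isRoot.mpr hc)

include b₂ in
/-- Under the hypotheses of `isUnit_det_incMatrix`, every injective algebra map into an
overorder of the same rank is bijective. -/
theorem bijective_of_discr_criterion (hf : Function.Injective f)
    (hd : Algebra.discr k[X] b₁ ≠ 0) (hs : (Algebra.discr k[X] b₁).Splits)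
    (h : ∀ c : k, (Algebra.discr k[X] b₁).IsRoot c →
      (Algebra.discr k[X] b₁).rootMultiplicity c + redRank T₁ c ≤ Fintype.card ι) :
    Function.Bijective f := by
  classical
  refine ⟨hf, ?_⟩
  have hu := isUnit_det_incMatrix b₁ b₂ f hf hd hs h
  have hM : IsUnit (incMatrix b₁ b₂ f) := (Matrix.isUnit_iff_isUnit_det _).mpr hu
  have hbij : Function.Bijective f.toLinearMap := by
    let e := LinearEquiv.ofIsUnitDet (f := f.toLinearMap) (v := b₁) (v' := b₂) hu
    exact e.bijective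
  exact hbij.2

end Fermat.Agent.S37.H939

end
-- ===== PACK-END S37/H939/Order.lean

-- ===== PACK-BEGIN S37/H939/Normal.lean
section



/-!
# Normality from the discriminant criterion
(row S37 / S18, piece b2 = R-b; seat helper939)

`T` a domain, free of rank `n` over `k[X]` with basis `b`.  If the discriminant of `b` is nonzero,
splits, and `ord_c (discr b) + redRank T c ≤ n` at each root `c`, then `T` is integrally closed.
-/

set_option autoImplicit false
set_option linter.unusedSectionVars false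
set_option linter.style.haveILetI false

namespace Fermat.Agent.S37.H939

open Polynomial Matrix

variable {k : Type*} [Field k]
variable {T : Type*} [CommRing T] [IsDomain T]
  [Algebra k[X] T] [Algebra k T] [IsScalarTower k k[X] T]
variable {ι : Type*} [Fintype ι] [DecidableEq ι] (b : Module.Basis ι k[X] T)

include b in
/-- An overorder `T₂ ⊆ Frac T` which is a finite `T`-module has the same rank as `T`. -/
lemma finrank_overorder_eq (L : Type*) [Field L] [Algebra T L] [IsFractionRing T L]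
    [Algebra k[X] L] [IsScalarTower k[X] T L]
    (T₂ : Subalgebra k[X] L) [Module.Finite k[X] T₂]
    (hT : ∀ t : T, algebraMap T L t ∈ T₂)
    (hfrac : ∃ s : T, s ≠ 0 ∧ ∀ z ∈ T₂, ∃ t : T, algebraMap T L t = algebraMap T L s * z) :
    Module.finrank k[X] T₂ = Fintype.card ι := by
  classical
  haveI : Module.Finite k[X] T := Module.Finite.of_basis b
  have hn : Module.finrank k[X] T = Fintype.card ι := Module.finrank_eq_card_basis b
  have hinj : Function.Injective (algebraMap T L) := IsFractionRing.injective T L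
  -- the inclusion `T → T₂`
  let f : T →ₗ[k[X]] T₂ :=
    ((IsScalarTower.toAlgHom k[X] T L).toLinearMap).codRestrict (Subalgebra.toSubmodule T₂)
      (fun t => hT t)
  have hf : Function.Injective f := by
    intro x y hxy
    apply hinj
    exact congrArg (fun z : T₂ => (z : L)) hxy
  have h1 : Module.finrank k[X] T ≤ Module.finrank k[X] T₂ :=
    LinearMap.finrank_le_finrank_of_injective hf
  -- multiplication by the denominator `T₂ → T`
  obtain ⟨s, hs0, hs⟩ := hfrac
  choose! g hg using hs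
  let φ : T₂ →ₗ[k[X]] T :=
    { toFun := fun z => g z
      map_add' := by
        intro x y
        apply hinj
        rw [map_add, hg _ x.2, hg _ y.2, hg _ (x + y).2]
        push_cast
        ring
      map_smul' := by
        intro a x
        apply hinj
        have e1 : ((a • x : T₂) : L) = algebraMap k[X] L a * (x : L) := by
          rw [Subalgebra.coe_smul, Algebra.smul_def]
        have e2 : algebraMap T L (a • g x) = algebraMap k[X] L a * algebraMap T L (g x) := by
          rw [Algebra.smul_def, map_mul, ← IsScalarTower.algebraMap_apply]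
        rw [RingHom.id_apply, e2, hg _ (a • x).2, hg _ x.2, e1]
        ring }
  have hφ : Function.Injective φ := by
    intro x y hxy
    have h2 : algebraMap T L (g x) = algebraMap T L (g y) := congrArg _ hxy
    rw [hg _ x.2, hg _ y.2] at h2
    have hs' : algebraMap T L s ≠ 0 := fun h0 => hs0 (hinj (by rw [h0, map_zero]))
    exact Subtype.ext (mul_left_cancel₀ hs' h2)
  have h2 : Module.finrank k[X] T₂ ≤ Module.finrank k[X] T :=
    LinearMap.finrank_le_finrank_of_injective hφ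
  omega

/-- **Normality criterion.** -/
theorem isIntegrallyClosed_of_discr_criterion
    (hd : Algebra.discr k[X] b ≠ 0) (hs : (Algebra.discr k[X] b).Splits)
    (h : ∀ c : k, (Algebra.discr k[X] b).IsRoot c →
      (Algebra.discr k[X] b).rootMultiplicity c + redRank T c ≤ Fintype.card ι) :
    IsIntegrallyClosed T := by
  classical
  haveI : Module.Finite k[X] T := Module.Finite.of_basis b
  haveI : Module.Free k[X] T := Module.Free.of_basis b
  refine (isIntegrallyClosed_iff (FractionRing T)).mpr ?_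
  intro y hy
  let L := FractionRing T
  have hinj : Function.Injective (algebraMap T L) := IsFractionRing.injective T L
  have hinjX : Function.Injective (algebraMap k[X] T) := FaithfulSMul.algebraMap_injective _ _
  have hinjXL : Function.Injective (algebraMap k[X] L) := by
    rw [IsScalarTower.algebraMap_eq k[X] T L]
    exact hinj.comp hinjX
  let T₂' : Subalgebra T L := Algebra.adjoin T {y}
  let T₂ : Subalgebra k[X] L := T₂'.restrictScalars k[X]
  haveI hfin' : Module.Finite T T₂' := by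
    have := Module.Finite.of_fg hy.fg_adjoin_singleton
    exact this
  haveI hfinT₂ : Module.Finite k[X] T₂ := by
    have : Module.Finite k[X] T₂' := Module.Finite.trans T T₂'
    exact this
  haveI : Module.IsTorsionFree k[X] L := Module.isTorsionFree_iff_algebraMap_injective.mpr hinjXL
  haveI : Module.IsTorsionFree k[X] T₂ := inferInstance
  haveI : Module.Free k[X] T₂ := inferInstance
  -- denominators
  have hfrac : ∃ s : T, s ≠ 0 ∧ ∀ z ∈ T₂, ∃ t : T, algebraMap T L t = algebraMap T L s * z := by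
    obtain ⟨s, hs, hs'⟩ := FractionalIdeal.isFractional_adjoin_integral (nonZeroDivisors T) y hy
    refine ⟨s, nonZeroDivisors.ne_zero hs, fun z hz => ?_⟩
    obtain ⟨t, ht⟩ := hs' z hz
    exact ⟨t, by rw [ht, Algebra.smul_def]⟩
  have hT : ∀ t : T, algebraMap T L t ∈ T₂ := fun t => T₂'.algebraMap_mem t
  have hrank : Module.finrank k[X] T₂ = Fintype.card ι :=
    finrank_overorder_eq b L T₂ hT hfrac
  -- a basis of the overorder
  let b₂ : Module.Basis ι k[X] T₂ :=
    (Module.finBasisOfFinrankEq k[X] T₂ hrank).reindex (Fintype.equivFin ι).symm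
  let f : T →ₐ[k[X]] T₂ := (IsScalarTower.toAlgHom k[X] T L).codRestrict T₂ hT
  have hf : Function.Injective f := by
    intro x x' hxx
    apply hinj
    exact congrArg (fun z : T₂ => (z : L)) hxx
  obtain ⟨-, hsurj⟩ := bijective_of_discr_criterion b b₂ f hf hd hs h
  obtain ⟨t, ht⟩ := hsurj ⟨y, Algebra.self_mem_adjoin_singleton T y⟩
  exact ⟨t, congrArg (fun z : T₂ => (z : L)) ht⟩

end Fermat.Agent.S37.H939

end
-- ===== PACK-END S37/H939/Normal.lean

-- ===== PACK-BEGIN S37/H159/MRoots.lean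
section




/-!
# Theorem M, part 7: Gauss root count for an arbitrary residue map; `redRank ≤ n`
(row S37, piece R-b; seat helper159)
-/

set_option autoImplicit false
set_option linter.unusedSectionVars false
set_option linter.style.haveILetI false

namespace Fermat.Agent.S37.H159

open Polynomial

section Roots

variable {K : Type*} [Field K] [IsAlgClosed K] (A : ValuationSubring K)
  {k : Type*} [Field k] (π : A →+* k) (hπ : Function.Surjective π)

include hπ in
theorem isLocalHom_of_surjective : IsLocalHom π := by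
  refine ⟨fun a ha => ?_⟩
  by_contra hna
  have hmax : (RingHom.ker π).IsMaximal := RingHom.ker_isMaximal_of_surjective π hπ
  have hker := IsLocalRing.eq_maximalIdeal hmax
  have h1 : a ∈ IsLocalRing.maximalIdeal A := (IsLocalRing.mem_maximalIdeal a).mpr hna
  rw [← hker, RingHom.mem_ker] at h1
  rw [h1] at ha
  exact not_isUnit_zero ha

include hπ in
/-- Gauss root count, general residue map. -/
theorem rootMultiplicity_map_eq_card_filter (D : A[X]) (hD : D.map π ≠ 0) (c : A) :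
    (D.map π).rootMultiplicity (π c) =
      (open Classical in ((D.map (algebraMap A K)).roots.filter
        (fun c' => ∃ h : c' ∈ A, π ⟨c', h⟩ = π c)).card) := by
  classical
  haveI := isLocalHom_of_surjective A π hπ
  let φ : IsLocalRing.ResidueField A →+* k := IsLocalRing.ResidueField.lift π
  have hφ : ∀ a : A, φ (IsLocalRing.residue A a) = π a := fun a => rfl
  have hmap : (D.map (IsLocalRing.residue A)).map φ = D.map π := by
    rw [Polynomial.map_map]
    rfl
  have hN : D.map (IsLocalRing.residue A) ≠ 0 := by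
    intro h0
    apply hD
    rw [← hmap, h0, Polynomial.map_zero]
  have h1 : (D.map π).rootMultiplicity (π c) =
      (D.map (IsLocalRing.residue A)).rootMultiplicity (IsLocalRing.residue A c) := by
    rw [← hmap, ← hφ c]
    exact (Polynomial.eq_rootMultiplicity_map φ.injective _).symm
  rw [h1, H217.rootMultiplicity_map_residue_eq_card_filter A D hN]
  congr 1
  refine Multiset.filter_congr fun c' _ => ?_
  constructor
  · rintro ⟨h, hc'⟩
    exact ⟨h, by rw [← hφ, hc', hφ]⟩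
  · rintro ⟨h, hc'⟩
    exact ⟨h, φ.injective (by rw [hφ, hφ, hc'])⟩

include hπ in
/-- A root of the reduction lifts to a root in `A`. -/
theorem exists_root_of_isRoot_map (D : A[X]) (hD : D.map π ≠ 0) (cbar : k)
    (h : (D.map π).IsRoot cbar) :
    ∃ c : A, π c = cbar ∧ (D.map (algebraMap A K)).IsRoot (c : K) := by
  classical
  obtain ⟨c₀, rfl⟩ := hπ cbar
  have h1 : 0 < (D.map π).rootMultiplicity (π c₀) := (Polynomial.rootMultiplicity_pos hD).mpr h
  rw [rootMultiplicity_map_eq_card_filter A π hπ D hD c₀, Multiset.card_pos_iff_exists_mem] at h1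
  obtain ⟨c', hc'⟩ := h1
  rw [Multiset.mem_filter] at hc'
  obtain ⟨hroot, hA, hπc⟩ := hc'
  exact ⟨⟨c', hA⟩, hπc, Polynomial.isRoot_of_mem_roots hroot⟩

include hπ in
/-- Gauss + uniqueness of the root in the residue disc. -/
theorem rootMultiplicity_map_le (D : A[X]) (hD : D.map π ≠ 0) (c : A)
    (huniq : ∀ c' : A, (D.map (algebraMap A K)).IsRoot (c' : K) → π c' = π c → c' = c) :
    (D.map π).rootMultiplicity (π c) ≤ (D.map (algebraMap A K)).rootMultiplicity (c : K) := by
  classical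
  rw [rootMultiplicity_map_eq_card_filter A π hπ D hD c]
  set s := (D.map (algebraMap A K)).roots.filter (fun c' => ∃ h : c' ∈ A, π ⟨c', h⟩ = π c)
    with hs
  have hall : ∀ c' ∈ s, c' = (c : K) := by
    intro c' hc'
    rw [hs, Multiset.mem_filter] at hc'
    obtain ⟨hroot, hA, hπc⟩ := hc'
    have := huniq ⟨c', hA⟩ (Polynomial.isRoot_of_mem_roots hroot) hπc
    exact congrArg Subtype.val this
  have h1 : s = Multiset.replicate (Multiset.card s) (c : K) :=
    Multiset.eq_replicate.mpr ⟨rfl, hall⟩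
  have h2 : Multiset.count (c : K) s = Multiset.card s := by
    conv_lhs => rw [h1]
    rw [Multiset.count_replicate_self]
  rw [← h2, ← Polynomial.count_roots]
  exact Multiset.count_le_of_le _ (Multiset.filter_le _ _)

end Roots

section RedRank

variable {k : Type*} [Field k] {T : Type*} [CommRing T] [Algebra k[X] T] [Algebra k T]
  [IsScalarTower k k[X] T] {ι : Type*} [Fintype ι] [DecidableEq ι] (b : Module.Basis ι k[X] T)

include b in
theorem redRank_le_card (c : k) : H939.redRank T c ≤ Fintype.card ι := by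
  let Rad : Ideal T := (H939.fibreIdeal T c).radical
  let Ψ : (ι → k) →ₗ[k] T ⧸ Rad := (Ideal.Quotient.mkₐ k Rad).toLinearMap ∘ₗ H939.lift b
  have hΨsurj : Function.Surjective Ψ := by
    intro q
    obtain ⟨z, rfl⟩ := Ideal.Quotient.mk_surjective q
    refine ⟨H939.coord b c z, ?_⟩
    show Ideal.Quotient.mk Rad (H939.lift b (H939.coord b c z)) = Ideal.Quotient.mk Rad z
    rw [eq_comm, Ideal.Quotient.eq]
    exact Ideal.le_radical (H939.sub_lift_coord_mem b c z)
  have := LinearMap.finrank_le_finrank_of_surjective hΨsurj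
  rw [Module.finrank_pi] at this
  exact this

end RedRank

end Fermat.Agent.S37.H159

end
-- ===== PACK-END S37/H159/MRoots.lean

-- ===== PACK-BEGIN S56/H716/TBDefs.lean
section


/-!
# Row S56 — tangent bound (TB), layer 1: FROZEN definitions (deputy helper716)

Same conventions as the frozen layer 0 (`Fermat/Agent/S56/Defs.lean`): cocycles are plain functions
`c : G_ℚ → End_k V`, `V = ρbar.V`.

* `IsAdCocycle ρbar c`   — `c ∈ Z¹(G_ℚ, ad⁰ρ̄)` (UNTWISTED): `tr c(σ) = 0`,
  `c(στ) = c(σ) + ρ̄(σ) c(τ) ρ̄(σ)⁻¹`, finite level.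
* `IsAdCoboundary ρbar c` — `c(σ) = ρ̄(σ) m ρ̄(σ)⁻¹ − m` for some `m`.
* `liftEnd ρbar c σ`     — the endomorphism `(1 + ε c(σ)) ρ̄(σ)` of `k[ε] ⊗ V`.
* `IsLiftOf ρbar c ρ'`   — `ρ' : GaloisRepAdic k[ε]` is isomorphic to `σ ↦ liftEnd ρbar c σ`.
* `IsTanCocycle 𝒪 ρbar 𝒟 c` — `c` is an ad⁰-cocycle whose lift to `k[ε]` is of type `𝒟`
  (for the `𝒪`-algebra structure `tanAlgebra 𝒪` on `k[ε]`).

Nothing unproved in this file.  Plan: `coord/S56-TB.md` on `origin/helper716`.
-/

set_option autoImplicit false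

open Polynomial IsLocalRing
open scoped TensorProduct

noncomputable section

namespace Fermat.Agent.S56.H716

open Fermat.Agent.S56

section Cocycles

variable {k : Type} [Field k] (ρbar : ResidualGaloisRep k)

/-- `c` is an (untwisted) cocycle with values in trace-zero endomorphisms, of finite level. -/
structure IsAdCocycle (c : GQ → Module.End k ρbar.V) : Prop where
  trace_eq_zero : ∀ σ, LinearMap.trace k ρbar.V (c σ) = 0
  map_mul : ∀ σ τ, c (σ * τ) = c σ + ρbar.ρ σ * c τ * ρbar.ρ σ⁻¹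
  level : ∃ L : IntermediateField ℚ Qb, FiniteDimensional ℚ L ∧
    ∀ σ τ : GQ, (∀ x ∈ L, τ x = x) → c (σ * τ) = c σ

/-- `c` is the (untwisted) coboundary of some endomorphism `m`. -/
def IsAdCoboundary (c : GQ → Module.End k ρbar.V) : Prop :=
  ∃ m : Module.End k ρbar.V, ∀ σ, c σ = ρbar.ρ σ * m * ρbar.ρ σ⁻¹ - m

/-- The endomorphism `(1 + ε c(σ)) ρ̄(σ)` of `k[ε] ⊗_k V`. -/
def liftEnd (c : GQ → Module.End k ρbar.V) (σ : GQ) :
    Module.End (DualNumber k) (DualNumber k ⊗[k] ρbar.V) :=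
  (ρbar.ρ σ).baseChange (DualNumber k) +
    (DualNumber.eps : DualNumber k) • (c σ * ρbar.ρ σ).baseChange (DualNumber k)

/-- `ρ'` is (isomorphic to) the lift `σ ↦ (1 + ε c(σ)) ρ̄(σ)` of `ρ̄` to the dual numbers. -/
def IsLiftOf (c : GQ → Module.End k ρbar.V) (ρ' : GaloisRepAdic (DualNumber k)) : Prop :=
  ∃ e : ρ'.V ≃ₗ[DualNumber k] (DualNumber k ⊗[k] ρbar.V),
    ∀ (σ : GQ) (v : ρ'.V), e (ρ'.ρ σ v) = liftEnd ρbar c σ (e v)

end Cocycles

section Tan

variable (𝒪 : Type) [CommRing 𝒪] [IsLocalRing 𝒪]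
  (ρbar : ResidualGaloisRep (ResidueField 𝒪))

/-- `c` is an ad⁰-cocycle whose lift to the dual numbers is a deformation of type `𝒟`. -/
def IsTanCocycle (𝒟 : DefCond 𝒪) (c : GQ → Module.End (ResidueField 𝒪) ρbar.V) : Prop :=
  IsAdCocycle ρbar c ∧
    ∃ ρ' : GaloisRepAdic (DualNumber (ResidueField 𝒪)),
      IsLiftOf ρbar c ρ' ∧ @𝒟 (DualNumber (ResidueField 𝒪)) _ _ (tanAlgebra 𝒪) ρ'

end Tan

end Fermat.Agent.S56.H716

end

end
-- ===== PACK-END S56/H716/TBDefs.lean

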