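import Mathlib
import Fermat.Prelude.Def_ModularCurve_X0ModL
import Fermat.Prelude.Thm_ModularForm_sturm_bound_Gamma0
import Fermat.Prelude.Def_ModularCurve_JqCoeff
import Fermat.Prelude.Def_ModularCurve_LaurentCoeff
import Fermat.Prelude.Def_ModularCurve_ReductionModL
import Fermat.Agent.Pack.S15.AE2L2
import Fermat.Agent.Pack.S15.AE0L0
import Fermat.Agent.Pack.S15.AE0L2
import Fermat.Agent.Pack.S15.AE2L1
import Fermat.Agent.Pack.S15.AE2L3
import Fermat.Agent.Pack.S15.AE2L0
import Fermat.Agent.Pack.S15.AE1L2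
import Fermat.Agent.Pack.S15.AE0L3
import Fermat.Agent.Pack.S15.AE0L1
import Fermat.Agent.Pack.S15.AE1L1
import Fermat.Agent.Pack.S15.AE1L3
import Fermat.Agent.Pack.S15.AE1L0

-- ===== PACK-BEGIN S28/H807/Families.lean
section
/-
S28 / helper807 — `S`-invariance of the two families of conjugates:
* `j`-family: `{J(pτ)} ∪ {J((τ+b)/p)}` for an `SL(2,ℤ)`-invariant `J`;
* unit family: `{p¹² D(pτ)/D(τ)} ∪ {D((τ+b)/p)/D(τ)}` for a weight-12 form `D`.
-/



set_option autoImplicit false
set_option maxHeartbeats 400000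

noncomputable section

open ModularCurve Polynomial Matrix UpperHalfPlane Complex
open scoped MatrixGroups

namespace Fermat.Agent.S28.H807

variable (p : ℕ) [NeZero p]

/-- The polynomial `(X - E(τ)) ∏_b (X - G((τ+b)/p))`. -/
def conjPoly (E G : ℍ → ℂ) (τ : ℍ) : Polynomial ℂ :=
  (X - C (E τ)) * ∏ b : Fin p, (X - C (G (divShift p ((b : ℕ) : ℤ) τ)))

theorem conjPoly_S_of (hp : p.Prime) (E G : ℍ → ℂ)
    (ha : ∀ τ : ℍ, E (ModularGroup.S • τ) = G (divShift p 0 τ))
    (hb : ∀ τ : ℍ, G (divShift p 0 (ModularGroup.S • τ)) = E τ)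
    (hc : ∀ (B B' k : ℤ) (_ : B * B' + 1 = (p : ℤ) * k) (τ : ℍ),
      G (divShift p B (ModularGroup.S • τ)) = G (divShift p B' τ))
    (τ : ℍ) : conjPoly p E G (ModularGroup.S • τ) = conjPoly p E G τ := by
  have : Fact p.Prime := ⟨hp⟩
  unfold conjPoly
  apply prod_conj_eq_of_perm p (E τ) (E (ModularGroup.S • τ))
    (fun b => G (divShift p ((b : ℕ) : ℤ) τ))
    (fun b => G (divShift p ((b : ℕ) : ℤ) (ModularGroup.S • τ)))
  · simpa using ha τ
  · simpa using hb τ
  · intro b hb0
    obtain ⟨k, hk⟩ := dvd_mul_negInvFin_add_one p hb0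
    exact hc _ _ k hk τ

/-- `S`-invariance for the `j`-family. -/
theorem conjPoly_J_S (hp : p.Prime) (J : ℍ → ℂ)
    (hJ : ∀ (γ : SL(2, ℤ)) (τ : ℍ), J (γ • τ) = J τ) (τ : ℍ) :
    conjPoly p (fun τ => J (mulNat p τ)) J (ModularGroup.S • τ)
      = conjPoly p (fun τ => J (mulNat p τ)) J τ := by
  apply conjPoly_S_of p hp
  · intro τ
    rw [mulNat_S_smul, hJ]
  · intro τ
    rw [divShift_zero_S_smul, hJ]
  · intro B B' k h τ
    rw [← conjMat_smul p B B' k h, hJ]

/-- The function `τ' ↦ D(τ')/D(pτ')`, whose values at `(τ+b)/p` are `D((τ+b)/p)/D(τ)`. -/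
def unitG (D : ℍ → ℂ) (τ : ℍ) : ℂ := D τ / D (mulNat p τ)

/-- The function `τ ↦ p¹² D(pτ)/D(τ)`. -/
def unitE (D : ℍ → ℂ) (τ : ℍ) : ℂ := (p : ℂ) ^ 12 * D (mulNat p τ) / D τ

/-- `S`-invariance for the unit family. -/
theorem conjPoly_unit_S (hp : p.Prime) (D : ℍ → ℂ) (hD0 : ∀ τ, D τ ≠ 0)
    (hD : ∀ (γ : SL(2, ℤ)) (τ : ℍ), D (γ • τ) = (denom γ τ) ^ 12 * D τ) (τ : ℍ) :
    conjPoly p (unitE p D) (unitG p D) (ModularGroup.S • τ)
      = conjPoly p (unitE p D) (unitG p D) τ := by
  have hpc : (p : ℂ) ≠ 0 := by exact_mod_cast NeZero.ne p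
  have hS : ∀ z : ℍ, D (ModularGroup.S • z) = (z : ℂ) ^ 12 * D z := by
    intro z
    rw [hD, ModularGroup.denom_S]
  have hT : ∀ (n : ℤ) (z : ℍ), D (ModularGroup.T ^ n • z) = D z := by
    intro n z
    rw [hD]
    have : denom ((ModularGroup.T ^ n : SL(2, ℤ)) : GL (Fin 2) ℝ) z = 1 := by
      rw [ModularGroup.denom_apply]
      simp [ModularGroup.coe_T_zpow]
    rw [this, one_pow, one_mul]
  apply conjPoly_S_of p hp
  · intro τ
    have hτ : (τ : ℂ) ≠ 0 := ne_zero τ
    unfold unitE unitG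
    rw [mulNat_S_smul, hS, hS, mulNat_divShift, hT]
    have h1 : ((divShift p 0 τ : ℍ) : ℂ) = (τ : ℂ) / (p : ℂ) := by simp
    rw [h1]
    have := hD0 τ
    field_simp
  · intro τ
    have hτ : (τ : ℂ) ≠ 0 := ne_zero τ
    unfold unitE unitG
    rw [mulNat_divShift, hT, divShift_zero_S_smul, hS, hS]
    have h1 : ((mulNat p τ : ℍ) : ℂ) = (p : ℂ) * (τ : ℂ) := by simp
    rw [h1]
    have := hD0 τ
    field_simp
  · intro B B' k h τ
    have hτ : (τ : ℂ) ≠ 0 := ne_zero τ
    unfold unitG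
    rw [mulNat_divShift, hT, mulNat_divShift, hT, ← conjMat_smul p B B' k h, hD,
      denom_conjMat, hS]
    have := hD0 τ
    field_simp

end Fermat.Agent.S28.H807

end

end
-- ===== PACK-END S28/H807/Families.lean

-- ===== PACK-BEGIN S28/H807/Core.lean
section
/-
S28 / helper807 — generic construction: from two convergent `q`-series `g, e ∈ ℤ((q))` whose
families of conjugates are `S`-stable, the polynomial `(X - e)·charpoly(secMat p g)` has
coefficients in `ℤ[j]`.
-/





set_option autoImplicit false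
set_option maxHeartbeats 400000

noncomputable section

open ModularCurve Polynomial Matrix UpperHalfPlane
open scoped MatrixGroups

namespace Fermat.Agent.S28.H807

/-- The level-one polynomial principle (analytic input, provided by the bridge seats):
an `S`-invariant function on `ℍ` with a convergent Laurent `q`-expansion is a polynomial in `j`. -/
def PolyPrinciple : Prop :=
  ∀ (c : LaurentSeries ℂ) (F : ℍ → ℂ), HasQExp c F →
    (∀ τ : ℍ, F (ModularGroup.S • τ) = F τ) → ∃ P : Polynomial ℂ, c = evalJ ℂ P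

section Formal

variable {R : Type*} [CommRing R] (p : ℕ) [NeZero p]

/-- The formal polynomial `(X - e) · charpoly (secMat p g)`. -/
def formalPoly (g e : LaurentSeries R) : Polynomial (LaurentSeries R) :=
  (X - C e) * (secMat p g).charpoly

theorem formalPoly_monic (g e : LaurentSeries R) : (formalPoly p g e).Monic :=
  (monic_X_sub_C e).mul (Matrix.charpoly_monic _)

theorem formalPoly_natDegree [Nontrivial R] (g e : LaurentSeries R) :
    (formalPoly p g e).natDegree = p + 1 := by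
  unfold formalPoly
  rw [Polynomial.Monic.natDegree_mul (monic_X_sub_C e) (Matrix.charpoly_monic _),
    natDegree_X_sub_C, Matrix.charpoly_natDegree_eq_dim, Fintype.card_fin, add_comm]

theorem formalPoly_eval_self (g e : LaurentSeries R) : (formalPoly p g e).eval e = 0 := by
  simp [formalPoly]

theorem formalPoly_map_qExpand_eval (g e : LaurentSeries R) :
    ((formalPoly p g e).map (qExpand R p)).eval g = 0 := by
  unfold formalPoly
  rw [Polynomial.map_mul, Polynomial.eval_mul, secMat_charpoly_eval, mul_zero]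

theorem formalPoly_map_coeffMap {S : Type*} [CommRing S] (φ : R →+* S) (g e : LaurentSeries R) :
    (formalPoly p g e).map (coeffMap φ) = formalPoly p (coeffMap φ g) (coeffMap φ e) := by
  unfold formalPoly
  rw [Polynomial.map_mul, Polynomial.map_sub, Polynomial.map_X, Polynomial.map_C,
    ← Matrix.charpoly_map, secMat_coeffMap]

end Formal

/-- Evaluation at `j` as a ring hom `ℤ[Y] → ℤ((q))`. -/
def evalJZHom : Polynomial ℤ →+* LaurentSeries ℤ :=
  Polynomial.eval₂RingHom (Int.castRingHom _) (jqModC ℤ)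

theorem evalJZHom_apply (Q : Polynomial ℤ) : evalJZHom Q = evalJZ Q := rfl

variable (p : ℕ) [NeZero p]

/-- The coefficients of the formal polynomial lie in `ℤ[j]`. -/
theorem formalPoly_coeff_mem_range (hPP : PolyPrinciple) (gZ eZ : LaurentSeries ℤ)
    (G E : ℍ → ℂ)
    (hG : HasQExp (coeffMap (Int.castRingHom ℂ) gZ) G)
    (hE : HasQExp (coeffMap (Int.castRingHom ℂ) eZ) E)
    (hS : ∀ τ : ℍ, conjPoly p E G (ModularGroup.S • τ) = conjPoly p E G τ) (k : ℕ) :
    (formalPoly p gZ eZ).coeff k ∈ Set.range evalJZHom := by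
  have h1 : HasQExp ((formalPoly p (coeffMap (Int.castRingHom ℂ) gZ)
      (coeffMap (Int.castRingHom ℂ) eZ)).coeff k) (fun τ => (conjPoly p E G τ).coeff k) :=
    hasQExp_coeff_mul_charpoly p _ _ G E hG hE k
  have h2 : ∀ τ : ℍ, (conjPoly p E G (ModularGroup.S • τ)).coeff k = (conjPoly p E G τ).coeff k :=
    fun τ => by rw [hS τ]
  obtain ⟨P, hP⟩ := hPP _ _ h1 h2
  have h3 : evalJ ℂ P = coeffMap (Int.castRingHom ℂ) ((formalPoly p gZ eZ).coeff k) := by
    rw [← hP, ← formalPoly_map_coeffMap, Polynomial.coeff_map]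
  obtain ⟨Q, hQ⟩ := exists_int_poly_of_evalJ_eq P _ h3
  exact ⟨Q, hQ⟩

/-- **Main generic theorem**: a monic lift of the formal polynomial to `ℤ[Y][X]`. -/
theorem exists_lift_formalPoly (hPP : PolyPrinciple) (gZ eZ : LaurentSeries ℤ)
    (G E : ℍ → ℂ)
    (hG : HasQExp (coeffMap (Int.castRingHom ℂ) gZ) G)
    (hE : HasQExp (coeffMap (Int.castRingHom ℂ) eZ) E)
    (hS : ∀ τ : ℍ, conjPoly p E G (ModularGroup.S • τ) = conjPoly p E G τ) :
    ∃ Φ : Polynomial (Polynomial ℤ), Φ.Monic ∧ Φ.natDegree = p + 1 ∧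
      Φ.map evalJZHom = formalPoly p gZ eZ := by
  have hl : formalPoly p gZ eZ ∈ Polynomial.lifts evalJZHom := by
    rw [Polynomial.lifts_iff_coeff_lifts]
    intro k
    exact formalPoly_coeff_mem_range p hPP gZ eZ G E hG hE hS k
  obtain ⟨Φ, h1, h2, h3⟩ :=
    Polynomial.lifts_and_natDegree_eq_and_monic hl (formalPoly_monic p gZ eZ)
  exact ⟨Φ, h3, by rw [h2, formalPoly_natDegree], h1⟩

end Fermat.Agent.S28.H807

end

end
-- ===== PACK-END S28/H807/Core.lean

-- ===== PACK-BEGIN S28/H807/ModPoly.lean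
section
/-
S28 / helper807 — the prime-level analytic inputs `ModPolyData p` and `UnitPolyData p`
of the captain skeleton (`Fermat/Agent/S28/Defs.lean`), from three explicit analytic
hypotheses (level-one polynomial principle, `q`-expansion of `j`, `q`-expansion of `Δ^{±1}`).
-/




set_option autoImplicit false
set_option maxHeartbeats 400000

noncomputable section

open ModularCurve Polynomial Matrix UpperHalfPlane
open scoped MatrixGroups

namespace Fermat.Agent.S28.H807

open Fermat.Agent.S28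

theorem evalAt_jqModC_eq : evalAt (jqModC ℤ) = evalJZHom := by
  apply Polynomial.ringHom_ext
  · intro a
    simp [evalAt, evalJZHom]
  · simp [evalAt, evalJZHom]

theorem evalAt_comp_qExpand (p : ℕ) [NeZero p] :
    evalAt (qExpand ℤ p (jqModC ℤ)) = (qExpand ℤ p).comp evalJZHom := by
  apply Polynomial.ringHom_ext
  · intro a
    simp [evalAt, evalJZHom]
  · simp [evalAt, evalJZHom]

variable (p : ℕ) [NeZero p]

/-- **[A-Φ]** The modular polynomial of prime level `p`, from the analytic hypotheses. -/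
theorem nonempty_modPolyData_of (hp : p.Prime) (hPP : PolyPrinciple) (J : ℍ → ℂ)
    (hJinv : ∀ (γ : SL(2, ℤ)) (τ : ℍ), J (γ • τ) = J τ)
    (hJexp : HasQExp (jqModC ℂ) J) : Nonempty (ModPolyData p) := by
  have hG : HasQExp (coeffMap (Int.castRingHom ℂ) (jqModC ℤ)) J := by
    rw [coeffMap_jqModC]; exact hJexp
  have hE : HasQExp (coeffMap (Int.castRingHom ℂ) (qExpand ℤ p (jqModC ℤ)))
      (fun τ => J (mulNat p τ)) := by
    rw [coeffMap_qExpand, coeffMap_jqModC]; exact hJexp.mulNat p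
  obtain ⟨Φ, hmonic, hdeg, hmap⟩ := exists_lift_formalPoly p hPP (jqModC ℤ)
    (qExpand ℤ p (jqModC ℤ)) J (fun τ => J (mulNat p τ)) hG hE (conjPoly_J_S p hp J hJinv)
  refine ⟨⟨Φ, hmonic, hdeg, ?_, ?_⟩⟩
  · rw [evalAt_jqModC_eq, Polynomial.eval₂_eq_eval_map, hmap]
    exact formalPoly_eval_self p _ _
  · rw [evalAt_comp_qExpand, Polynomial.eval₂_eq_eval_map, ← Polynomial.map_map, hmap]
    exact formalPoly_map_qExpand_eval p _ _

/-- **[A-W]** `p¹² Δ(q^p)/Δ(q)` is integral over `ℤ[j]`, from the analytic hypotheses. -/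
theorem nonempty_unitPolyData_of (hp : p.Prime) (hPP : PolyPrinciple) (D : ℍ → ℂ)
    (hD0 : ∀ τ, D τ ≠ 0)
    (hD : ∀ (γ : SL(2, ℤ)) (τ : ℍ), D (γ • τ) = (denom γ τ) ^ 12 * D τ)
    (hDexp : HasQExp (coeffMap (Int.castRingHom ℂ) (deltaL ℤ)) D)
    (hDinvexp : HasQExp (coeffMap (Int.castRingHom ℂ) (deltaInvL ℤ)) (fun τ => (D τ)⁻¹)) :
    Nonempty (UnitPolyData p) := by
  have hG : HasQExp (coeffMap (Int.castRingHom ℂ) (deltaL ℤ * qExpand ℤ p (deltaInvL ℤ)))
      (unitG p D) := by
    rw [map_mul, coeffMap_qExpand]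
    intro τ
    have := (hDexp.mul (hDinvexp.mulNat p)) τ
    simpa [unitG, div_eq_mul_inv] using this
  have hE : HasQExp (coeffMap (Int.castRingHom ℂ) ((p : LaurentSeries ℤ) ^ 12 * unitL ℤ p))
      (unitE p D) := by
    rw [map_mul, map_pow, map_natCast, unitL, map_mul, coeffMap_qExpand]
    have hc : HasQExp ((p : LaurentSeries ℂ) ^ 12) (fun _ => (p : ℂ) ^ 12) := by
      have h1 : ((p : LaurentSeries ℂ) ^ 12) = HahnSeries.C ((p : ℂ) ^ 12) := by
        rw [map_pow, map_natCast]
      rw [h1]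
      exact hasQExp_C _
    intro τ
    have := (hc.mul ((hDexp.mulNat p).mul hDinvexp)) τ
    simpa [unitE, div_eq_mul_inv, mul_assoc] using this
  obtain ⟨Φ, hmonic, _, hmap⟩ := exists_lift_formalPoly p hPP
    (deltaL ℤ * qExpand ℤ p (deltaInvL ℤ)) ((p : LaurentSeries ℤ) ^ 12 * unitL ℤ p)
    (unitG p D) (unitE p D) hG hE (conjPoly_unit_S p hp D hD0 hD)
  refine ⟨⟨Φ, hmonic, ?_⟩⟩
  rw [evalAt_jqModC_eq, Polynomial.eval₂_eq_eval_map, hmap]
  exact formalPoly_eval_self p _ _

end Fermat.Agent.S28.H807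

end

end
-- ===== PACK-END S28/H807/ModPoly.lean

-- ===== PACK-BEGIN S28/H807/Analytic.lean
section
/-
S28 / helper807 — UNCONDITIONAL prime-level analytic inputs `[A-Φ]`, `[A-W]` of the captain
skeleton: `Nonempty (ModPolyData p)` and `Nonempty (UnitPolyData p)` for every prime `p`.

Bridge facts used (already on main): helper565 (`q`-expansions of `j`, `Δ`, `Δ⁻¹`,
`SL(2,ℤ)`-invariance of `j`) and helper685 (level-one polynomial principle, `S`-invariant form).
-/





set_option autoImplicit false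
set_option maxHeartbeats 400000

noncomputable section

open ModularCurve Polynomial Matrix UpperHalfPlane
open scoped MatrixGroups

namespace Fermat.Agent.S28.H807

open Fermat.Agent.S28

theorem hasQExp_iff_hasTExp (c : LaurentSeries ℂ) (F : ℍ → ℂ) :
    HasQExp c F ↔ H565.HasTExp 1 F c := by
  rw [hasQExp_iff]
  rfl

theorem hasQExp_iff_hasQLaurent (c : LaurentSeries ℂ) (F : ℍ → ℂ) :
    HasQExp c F ↔ H685.HasQLaurent 1 F c := by
  rw [hasQExp_iff]
  rfl

theorem evalJ_eq_aeval (P : Polynomial ℂ) :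
    evalJ ℂ P = Polynomial.aeval (jqModC ℂ) P := by
  unfold evalJ
  rw [Polynomial.aeval_def]
  congr 1
  ext c : 1
  exact (H685.algebraMap_eq_C c).symm

/-- The polynomial principle holds (helper685). -/
theorem polyPrinciple : PolyPrinciple := by
  intro c F hF hS
  obtain ⟨P, hP, -⟩ := H685.exists_polynomial_of_S_invariant' F c
    ((hasQExp_iff_hasQLaurent c F).mp hF) hS
  exact ⟨P, by rw [evalJ_eq_aeval]; exact hP⟩

theorem hasQExp_jFun : HasQExp (jqModC ℂ) H565.jFun :=
  (hasQExp_iff_hasTExp _ _).mpr H565.hasTExp_jFun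

theorem coeffMap_deltaL : coeffMap (Int.castRingHom ℂ) (deltaL ℤ) = H565.deltaSeriesC := by
  unfold deltaL H565.deltaSeriesC
  rw [map_mul, coeffMap_single, coeffMap_ofPowerSeries, map_one]
  congr 2
  rw [← H565.map_dedekindEtaUnit]
  ext n
  simp

theorem coeffMap_deltaInvL :
    coeffMap (Int.castRingHom ℂ) (deltaInvL ℤ) = H565.deltaInvSeriesC := by
  unfold deltaInvL H565.deltaInvSeriesC H565.etaInvC
  rw [map_mul, coeffMap_single, coeffMap_ofPowerSeries, map_one]
  congr 2

theorem discriminant_smul_denom (γ : SL(2, ℤ)) (τ : ℍ) :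
    ModularForm.discriminant (γ • τ) = (denom γ τ) ^ 12 * ModularForm.discriminant τ := by
  rw [H565.discriminant_smul, ModularGroup.denom_apply]
  norm_cast

variable (p : ℕ) [NeZero p]

/-- **[A-Φ]** (captain stub `nonempty_modPolyData`): the modular polynomial of prime level. -/
theorem nonempty_modPolyData (hp : p.Prime) : Nonempty (ModPolyData p) :=
  nonempty_modPolyData_of p hp polyPrinciple H565.jFun H565.jFun_smul hasQExp_jFun

/-- **[A-W]** (captain stub `nonempty_unitPolyData`): `p¹² Δ(q^p)/Δ(q)` is integral over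
`ℤ[j]`. -/
theorem nonempty_unitPolyData (hp : p.Prime) : Nonempty (UnitPolyData p) :=
  nonempty_unitPolyData_of p hp polyPrinciple ModularForm.discriminant
    ModularForm.discriminant_ne_zero discriminant_smul_denom
    (by rw [coeffMap_deltaL]; exact (hasQExp_iff_hasTExp _ _).mpr H565.hasTExp_discriminant)
    (by rw [coeffMap_deltaInvL]; exact (hasQExp_iff_hasTExp _ _).mpr H565.hasTExp_discriminant_inv)

end Fermat.Agent.S28.H807

end

end
-- ===== PACK-END S28/H807/Analytic.lean

-- ===== PACK-BEGIN A2/H489/GaussFrameB.lean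
section


/-!
# A2 / M1mod-FRAME part B (helper489): the Gauss ring of `E(x)` and `TwoExtHyp`

`R` a discrete valuation ring, `E = Frac R`, `L ⊇ E` a field, `x ∈ L`, `V` a valuation subring of
`L` inducing the Gauss valuation on `E(x)` (`IsGaussOver R V x`).

* `gaussRing E V x = V ∩ E(x)` as a valuation subring of `E(x)`;
* `IsGaussOver.isDiscreteValuationRing` : it is a discrete valuation ring (uniformiser = that of
  `R`);
* `PolyIndepMod R V x u` : the family `u` is independent over `R[x]` modulo `𝔪_V`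
  (`∑ Pᵢ(x) uᵢ ∈ 𝔪_V ⟹ Pᵢ ∈ 𝔪_R[X]`);
* `twoExtHyp_of_gauss` : two distinct valuation subrings `V₁, V₂` inducing the Gauss valuation,
  with `PolyIndepMod` families of sizes `f₁, f₂`, `[L : E(x)] ≤ f₁ + f₂`, satisfy
  `TwoExtHyp E(x) (gaussRing E V₁ x) V₁ V₂ u₁ u₂`.
-/

set_option autoImplicit false

namespace Fermat.Agent.A2.H489

open IsLocalRing Polynomial IntermediateField

section Frame

variable {R E L : Type*} [CommRing R] [IsDomain R] [IsDiscreteValuationRing R]
  [Field E] [Algebra R E] [IsFractionRing R E]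
  [Field L] [Algebra E L] [Algebra R L] [IsScalarTower R E L]

/-- The Gauss ring `V ∩ E(x)` as a valuation subring of `E(x)`. -/
def gaussRing (E : Type*) {L : Type*} [Field E] [Field L] [Algebra E L]
    (V : ValuationSubring L) (x : L) : ValuationSubring E⟮x⟯ :=
  V.comap (algebraMap E⟮x⟯ L)

omit [IsDomain R] [IsDiscreteValuationRing R] [Algebra R E] [IsFractionRing R E] [Algebra R L]
  [IsScalarTower R E L] [CommRing R] in
theorem mem_gaussRing {V : ValuationSubring L} {x : L} (a : E⟮x⟯) :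
    a ∈ gaussRing E V x ↔ (a : L) ∈ V := Iff.rfl

omit [IsDomain R] [IsDiscreteValuationRing R] [Algebra R E] [IsFractionRing R E] [Algebra R L]
  [IsScalarTower R E L] [CommRing R] in
theorem mem_nonunits_gaussRing {V : ValuationSubring L} {x : L} (a : E⟮x⟯) :
    a ∈ (gaussRing E V x).nonunits ↔ (a : L) ∈ V.nonunits := by
  rw [ValuationSubring.mem_nonunits_iff_or, ValuationSubring.mem_nonunits_iff_or, mem_gaussRing]
  simp

omit [IsDomain R] [IsDiscreteValuationRing R] [Algebra R E] [IsFractionRing R E] [Algebra R L]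
  [IsScalarTower R E L] [CommRing R] in
theorem mem_maximalIdeal_gaussRing {V : ValuationSubring L} {x : L} (a : gaussRing E V x) :
    a ∈ maximalIdeal (gaussRing E V x) ↔ ((a : E⟮x⟯) : L) ∈ V.nonunits := by
  rw [← ValuationSubring.coe_mem_nonunits_iff, mem_nonunits_gaussRing]

variable {V : ValuationSubring L} {x : L}

/-- every nonzero element of `V ∩ E(x)` is a power of the uniformiser times a unit -/
theorem IsGaussOver.exists_pow_mul_unit (h : IsGaussOver R V x) {w : R} (hw : Irreducible w)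
    {a : L} (ha : a ∈ E⟮x⟯) (ha0 : a ≠ 0) (haV : a ∈ V) :
    ∃ (n : ℕ) (u : L), u ∈ E⟮x⟯ ∧ u ∈ V ∧ u⁻¹ ∈ V ∧ a = algebraMap R L w ^ n * u := by
  obtain ⟨c, P, Q, hc0, hP, hQ, e⟩ := exists_normal_form_adjoin (E := E) hw x ha ha0
  have hc : algebraMap E L c ∈ V := by
    have h1 : algebraMap E L c = a * aeval x Q * (aeval x P)⁻¹ := by
      rw [e, mul_assoc, mul_inv_cancel₀ (h.aeval_ne_zero hP), mul_one]
    rw [h1]
    exact mul_mem (mul_mem haV (h.aeval_mem Q)) (h.inv_aeval_mem hP)
  obtain ⟨r, rfl⟩ := (h.isOver.const_mem_iff c).mp hc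
  have hr0 : r ≠ 0 := by
    rintro rfl
    exact hc0 (map_zero _)
  obtain ⟨n, hn⟩ := IsDiscreteValuationRing.associated_pow_irreducible hr0 hw
  obtain ⟨t, ht⟩ := hn.symm
  -- `w ^ n * t = r`
  have hw0 : algebraMap R L w ≠ 0 := algebraMap_RL_ne_zero E hw.ne_zero
  have hwK : algebraMap R L w ∈ E⟮x⟯ := by
    rw [IsScalarTower.algebraMap_apply R E L]
    exact IntermediateField.algebraMap_mem _ _
  refine ⟨n, algebraMap R L (t : R) * aeval x P * (aeval x Q)⁻¹, ?_, ?_, ?_, ?_⟩
  · have h1 : algebraMap R L (t : R) * aeval x P * (aeval x Q)⁻¹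
        = a * (algebraMap R L w ^ n)⁻¹ := by
      have h2 : a = algebraMap R L r * aeval x P * (aeval x Q)⁻¹ := by
        rw [IsScalarTower.algebraMap_apply R E L, ← e, mul_assoc,
          mul_inv_cancel₀ (h.aeval_ne_zero hQ), mul_one]
      rw [h2, ← ht, map_mul, map_pow]
      field_simp
    rw [h1]
    exact mul_mem ha (inv_mem (pow_mem hwK n))
  · exact mul_mem (mul_mem (h.isOver.mem _) (h.aeval_mem P)) (h.inv_aeval_mem hQ)
  · have h1 : (algebraMap R L (t : R) * aeval x P * (aeval x Q)⁻¹)⁻¹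
        = algebraMap R L ((t⁻¹ : Rˣ) : R) * aeval x Q * (aeval x P)⁻¹ := by
      have h3 : algebraMap R L (t : R) * algebraMap R L ((t⁻¹ : Rˣ) : R) = 1 := by
        rw [← map_mul, Units.mul_inv, map_one]
      have h5 := h.aeval_ne_zero hP
      have h6 := h.aeval_ne_zero hQ
      apply inv_eq_of_mul_eq_one_right
      calc algebraMap R L (t : R) * aeval x P * (aeval x Q)⁻¹
            * (algebraMap R L ((t⁻¹ : Rˣ) : R) * aeval x Q * (aeval x P)⁻¹)
          = (algebraMap R L (t : R) * algebraMap R L ((t⁻¹ : Rˣ) : R))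
            * (aeval x P * (aeval x P)⁻¹) * ((aeval x Q)⁻¹ * aeval x Q) := by ring
        _ = 1 := by rw [h3, mul_inv_cancel₀ h5, inv_mul_cancel₀ h6, one_mul, one_mul]
    rw [h1]
    exact mul_mem (mul_mem (h.isOver.mem _) (h.aeval_mem Q)) (h.inv_aeval_mem hP)
  · rw [← mul_assoc, ← mul_assoc, ← map_pow, ← map_mul, ht, IsScalarTower.algebraMap_apply R E L,
      ← e, mul_assoc, mul_inv_cancel₀ (h.aeval_ne_zero hQ), mul_one]

/-- a nonunit of `V ∩ E(x)` is divisible by the uniformiser of `R` in `V ∩ E(x)` -/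
theorem IsGaussOver.exists_mul_of_mem_nonunits (h : IsGaussOver R V x) {w : R}
    (hw : Irreducible w) {a : L} (ha : a ∈ E⟮x⟯) (haV : a ∈ V.nonunits) :
    ∃ a' : L, a' ∈ E⟮x⟯ ∧ a' ∈ V ∧ a = algebraMap R L w * a' := by
  obtain ⟨P, Q, hQ, hP, e⟩ := (h.mem_nonunits_iff (E := E) ha).mp haV
  obtain ⟨P', rfl⟩ := exists_eq_C_mul_of_map_residue_eq_zero hw hP
  have hw0 : algebraMap R L w ≠ 0 := algebraMap_RL_ne_zero E hw.ne_zero
  have hwK : algebraMap R L w ∈ E⟮x⟯ := by
    rw [IsScalarTower.algebraMap_apply R E L]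
    exact IntermediateField.algebraMap_mem _ _
  have h1 : a = algebraMap R L w * (aeval x P' * (aeval x Q)⁻¹) := by
    rw [← mul_assoc, ← aeval_C (A := L) x w, ← map_mul, ← e, mul_assoc,
      mul_inv_cancel₀ (h.aeval_ne_zero hQ), mul_one]
  refine ⟨aeval x P' * (aeval x Q)⁻¹, ?_, mul_mem (h.aeval_mem P') (h.inv_aeval_mem hQ), h1⟩
  have h2 : aeval x P' * (aeval x Q)⁻¹ = (algebraMap R L w)⁻¹ * a := by
    rw [h1, ← mul_assoc, inv_mul_cancel₀ hw0, one_mul]
  rw [h2]
  exact mul_mem (inv_mem hwK) ha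

/-- The Gauss ring `V ∩ E(x)` is a discrete valuation ring. -/
theorem IsGaussOver.isDiscreteValuationRing (h : IsGaussOver R V x) :
    IsDiscreteValuationRing (gaussRing E V x) := by
  obtain ⟨w, hw⟩ := IsDiscreteValuationRing.exists_irreducible R
  have hw0 : algebraMap R L w ≠ 0 := algebraMap_RL_ne_zero E hw.ne_zero
  have hwK : algebraMap R L w ∈ E⟮x⟯ := by
    rw [IsScalarTower.algebraMap_apply R E L]
    exact IntermediateField.algebraMap_mem _ _
  have hwmax : w ∈ maximalIdeal R := by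
    rw [IsLocalRing.mem_maximalIdeal, _root_.mem_nonunits_iff]
    exact hw.not_isUnit
  let p : gaussRing E V x := ⟨⟨algebraMap R L w, hwK⟩, h.isOver.mem w⟩
  have hp0 : p ≠ 0 := by
    intro h0
    apply hw0
    have := congrArg (fun z : gaussRing E V x => ((z : E⟮x⟯) : L)) h0
    exact this
  have hpmax : p ∈ maximalIdeal (gaussRing E V x) := by
    rw [mem_maximalIdeal_gaussRing]
    exact h.isOver.nonunit w hwmax
  have hdiv : ∀ a ∈ maximalIdeal (gaussRing E V x), ∃ a' : gaussRing E V x, a = p * a' := by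
    intro a ha
    rw [mem_maximalIdeal_gaussRing] at ha
    obtain ⟨a', ha'K, ha'V, e⟩ := h.exists_mul_of_mem_nonunits (E := E) hw (a : E⟮x⟯).2 ha
    exact ⟨⟨⟨a', ha'K⟩, ha'V⟩, Subtype.ext (Subtype.ext e)⟩
  apply IsDiscreteValuationRing.ofHasUnitMulPowIrreducibleFactorization
  refine ⟨p, ?_, ?_⟩
  · rw [irreducible_iff]
    refine ⟨fun hu => (IsLocalRing.mem_maximalIdeal p).mp hpmax hu, ?_⟩
    intro a b hab
    by_contra hcon
    push Not at hcon
    obtain ⟨hna, hnb⟩ := hcon
    obtain ⟨a', ha'⟩ := hdiv a ((IsLocalRing.mem_maximalIdeal a).mpr hna)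
    rw [ha', mul_assoc] at hab
    have h1 : a' * b = 1 := by
      have h2 : p * 1 = p * (a' * b) := by rw [mul_one]; exact hab
      exact (mul_left_cancel₀ hp0 h2).symm
    exact hnb (IsUnit.of_mul_eq_one a' (by rw [mul_comm]; exact h1))
  · intro a ha0
    have ha0' : ((a : E⟮x⟯) : L) ≠ 0 := by
      intro h0
      apply ha0
      exact Subtype.ext (Subtype.ext h0)
    obtain ⟨n, u, huK, huV, huV', e⟩ :=
      h.exists_pow_mul_unit (E := E) hw (a : E⟮x⟯).2 ha0' a.2
    have hu0 : u ≠ 0 := by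
      rintro rfl
      rw [mul_zero] at e
      exact ha0' e
    let U : (gaussRing E V x)ˣ :=
      ⟨⟨⟨u, huK⟩, huV⟩, ⟨⟨u⁻¹, inv_mem huK⟩, huV'⟩,
        Subtype.ext (Subtype.ext (mul_inv_cancel₀ hu0)),
        Subtype.ext (Subtype.ext (inv_mul_cancel₀ hu0))⟩
    refine ⟨n, U, ?_⟩
    apply Subtype.ext
    apply Subtype.ext
    exact e.symm

end Frame

section Indep

/-- The family `u` is independent over `R[x]` modulo the maximal ideal of `V`:
`∑ Pᵢ(x) uᵢ ∈ 𝔪_V ⟹ Pᵢ ∈ 𝔪_R[X]` for all `i`. -/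
def PolyIndepMod (R : Type*) {L : Type*} [CommRing R] [IsLocalRing R] [Field L] [Algebra R L]
    (V : ValuationSubring L) (x : L) {f : ℕ} (u : Fin f → L) : Prop :=
  ∀ P : Fin f → R[X], (∑ i, aeval x (P i) * u i) ∈ V.nonunits →
    ∀ i, (P i).map (residue R) = 0

variable {R E L : Type*} [CommRing R] [IsDomain R] [IsDiscreteValuationRing R]
  [Field E] [Algebra R E] [IsFractionRing R E]
  [Field L] [Algebra E L] [Algebra R L] [IsScalarTower R E L]
  {V : ValuationSubring L} {x : L} {f : ℕ} {u : Fin f → L}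

omit [IsDomain R] [IsDiscreteValuationRing R] in
/-- a nonempty `PolyIndepMod` family of elements of `V` forces the Gauss valuation on `E(x)` -/
theorem IsGaussOver.of_polyIndepMod [IsLocalRing R] (hV : IsOver R V) (hx : x ∈ V) (hf : 0 < f)
    (hu : ∀ i, u i ∈ V) (hI : PolyIndepMod R V x u) : IsGaussOver R V x where
  isOver := hV
  mem := hx
  prim := by
    intro P hP
    classical
    have key := hI (fun i => if i = ⟨0, hf⟩ then P else 0) ?_ ⟨0, hf⟩
    · simpa using key
    · rw [Finset.sum_eq_single (⟨0, hf⟩ : Fin f)]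
      · rw [if_pos rfl, mul_comm]
        exact mul_mem_nonunits (hu _) hP
      · intro i _ hi
        rw [if_neg hi, map_zero, zero_mul]
      · intro h0
        exact absurd (Finset.mem_univ _) h0

/-- `PolyIndepMod` implies independence over the Gauss ring `V ∩ E(x)` modulo `𝔪_V`. -/
theorem IsGaussOver.indep_of_polyIndepMod (h : IsGaussOver R V x) (hI : PolyIndepMod R V x u)
    (a : Fin f → L) (haK : ∀ i, a i ∈ E⟮x⟯) (haV : ∀ i, a i ∈ V)
    (hsum : (∑ i, a i * u i) ∈ V.nonunits) : ∀ i, a i ∈ V.nonunits := by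
  classical
  have hex : ∀ i, ∃ P Q : R[X], Q.map (residue R) ≠ 0 ∧ a i * aeval x Q = aeval x P :=
    fun i => (h.mem_iff (E := E) (haK i)).mp (haV i)
  choose P Q hQ e using hex
  -- multiply by the common denominator
  have hD : (∏ l, aeval x (Q l)) ∈ V := prod_mem fun l _ => h.aeval_mem (Q l)
  have h1 : (∏ l, aeval x (Q l)) * ∑ i, a i * u i
      = ∑ i, aeval x (P i * ∏ l ∈ Finset.univ.erase i, Q l) * u i := by
    rw [Finset.mul_sum]
    refine Finset.sum_congr rfl fun i _ => ?_
    rw [← Finset.mul_prod_erase Finset.univ (fun l => aeval x (Q l)) (Finset.mem_univ i),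
      map_mul, map_prod, ← e i]
    ring
  have h2 := hI (fun i => P i * ∏ l ∈ Finset.univ.erase i, Q l)
    (by rw [← h1]; exact mul_mem_nonunits hD hsum)
  intro i
  have h3 := h2 i
  rw [Polynomial.map_mul, Polynomial.map_prod] at h3
  have h4 : (∏ l ∈ Finset.univ.erase i, (Q l).map (residue R)) ≠ 0 :=
    Finset.prod_ne_zero_iff.mpr fun l _ => hQ l
  have h5 : (P i).map (residue R) = 0 := (mul_eq_zero.mp h3).resolve_right h4
  exact (h.mem_nonunits_iff (E := E) (haK i)).mpr ⟨P i, Q i, hQ i, h5, e i⟩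

/-- **FRAME.** Two distinct valuation subrings of `L` inducing the Gauss valuation on `E(x)`,
with `R[x]`-independent families modulo the maximal ideals of total size `≥ [L : E(x)]`,
satisfy the hypotheses `TwoExtHyp` over the Gauss ring of `E(x)`. -/
theorem twoExtHyp_of_gauss {V₁ V₂ : ValuationSubring L}
    (h₁ : IsGaussOver R V₁ x) (h₂ : IsGaussOver R V₂ x) (hne : V₁ ≠ V₂)
    {f₁ f₂ : ℕ} {u₁ : Fin f₁ → L} {u₂ : Fin f₂ → L}
    (hu₁ : ∀ i, u₁ i ∈ V₁) (hu₂ : ∀ i, u₂ i ∈ V₂)
    (hI₁ : PolyIndepMod R V₁ x u₁) (hI₂ : PolyIndepMod R V₂ x u₂)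
    (hdeg : Module.finrank E⟮x⟯ L ≤ f₁ + f₂)
    [IsDiscreteValuationRing (gaussRing E V₁ x)] :
    TwoExtHyp E⟮x⟯ (gaussRing E V₁ x) V₁ V₂ u₁ u₂ where
  over₁ :=
    { mem := fun a => a.2
      nonunit := fun a ha => (mem_maximalIdeal_gaussRing a).mp ha }
  over₂ :=
    { mem := fun a => (h₁.mem_iff_mem (E := E) h₂ (a : E⟮x⟯).2).mp a.2
      nonunit := fun a ha =>
        (h₁.mem_nonunits_iff_mem (E := E) h₂ (a : E⟮x⟯).2).mp
          ((mem_maximalIdeal_gaussRing a).mp ha) }
  ne := hne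
  deg := hdeg
  mem₁ := hu₁
  mem₂ := hu₂
  indep₁ := by
    intro a hsum i
    rw [mem_maximalIdeal_gaussRing]
    exact h₁.indep_of_polyIndepMod (E := E) hI₁ (fun i => ((a i : E⟮x⟯) : L))
      (fun i => (a i : E⟮x⟯).2) (fun i => (a i).2) hsum i
  indep₂ := by
    intro a hsum i
    rw [mem_maximalIdeal_gaussRing]
    refine (h₁.mem_nonunits_iff_mem (E := E) h₂ (a i : E⟮x⟯).2).mpr ?_
    exact h₂.indep_of_polyIndepMod (E := E) hI₂ (fun i => ((a i : E⟮x⟯) : L))
      (fun i => (a i : E⟮x⟯).2)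
      (fun i => (h₁.mem_iff_mem (E := E) h₂ (a i : E⟮x⟯).2).mp (a i).2) hsum i

end Indep

end Fermat.Agent.A2.H489

end
-- ===== PACK-END A2/H489/GaussFrameB.lean

-- ===== PACK-BEGIN A2/Mod/H13/Frame.lean
section





/-!
# WALL A2 / MODASM, S1 part 1 (helper13): from the leaves to helper489's FRAME

Level `N = M * q`, coordinate `x = j · j_q`, `V = V∞` (`IsVinf`), `V₀ = V.comap W` (`IsFricke`).
From the leaves L2 (`H553.vinfBasic`, main), L3 (`H816.vinfGauss`, main), L6, L8, L9, L10
(hypotheses) we produce the hypotheses of `H489.twoExtHyp_of_gauss`: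

* `isOver_of_isVinf`, `isOver_comap`        : `V`, `V₀` lie over `R_E`;
* `isGaussOver_of_polar`                    : `IsGaussOver R V u` for every polar `u ∈ F_N`;
* `isGaussOver_xE`, `isGaussOver_comap_xE`  : the Gauss property of `V`, `V₀` for `x`;
* `polyIndepMod_of_indepMod`                : `Mod.IndepMod ⟹ H489.PolyIndepMod`;
* `twoExtHyp_of_leaves`                     : `H489.TwoExtHyp E(x) (V ∩ E(x)) V V₀ b c`.
-/

set_option autoImplicit false
set_option linter.unusedSectionVars false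
set_option linter.style.haveILetI false
set_option synthInstance.maxHeartbeats 400000
set_option maxHeartbeats 1600000

noncomputable section

namespace Fermat.Agent.A2.Mod.H13

open ModularCurve HahnSeries Polynomial IntermediateField
open Fermat.Agent.A2 Fermat.Agent.A2.Mod

variable (P : ValuationSubring _root_.Fermat.Agent.A2.Mod.Qb) (E : IntermediateField ℚ _root_.Fermat.Agent.A2.Mod.Qb)

/-! ### Integer series with a pole of exact order -/

/-- An integer Laurent series is *polar of order `a`*: lowest term `t^(-a)` with coefficient `1`. -/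
def IsPolarInt (g : LaurentSeries ℤ) (a : ℕ) : Prop :=
  (∀ n : ℤ, n < -(a : ℤ) → g.coeff n = 0) ∧ g.coeff (-(a : ℤ)) = 1

theorem IsPolarInt.order {g : LaurentSeries ℤ} {a : ℕ} (h : IsPolarInt g a) :
    g.order = -(a : ℤ) := by
  have h1 : g.coeff (-(a : ℤ)) ≠ 0 := by rw [h.2]; exact one_ne_zero
  have hg : g ≠ 0 := by
    rintro rfl
    exact h1 (by simp)
  apply le_antisymm
  · exact order_le_of_coeff_ne_zero h1
  · by_contra hlt
    exact (HahnSeries.coeff_order_eq_zero.not.mpr hg) (h.1 _ (not_le.mp hlt))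

theorem IsPolarInt.mul {g g' : LaurentSeries ℤ} {a a' : ℕ} (h : IsPolarInt g a)
    (h' : IsPolarInt g' a') : IsPolarInt (g * g') (a + a') := by
  have hg : g ≠ 0 := by
    rintro rfl
    have := h.2
    simp at this
  have hg' : g' ≠ 0 := by
    rintro rfl
    have := h'.2
    simp at this
  have hord : (g * g').order = -((a + a' : ℕ) : ℤ) := by
    rw [HahnSeries.order_mul hg hg', h.order, h'.order]
    push_cast
    ring
  refine ⟨fun n hn => ?_, ?_⟩
  · apply HahnSeries.coeff_eq_zero_of_lt_order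
    rw [hord]
    exact hn
  · have key := HahnSeries.coeff_mul_order_add_order g g'
    rw [HahnSeries.leadingCoeff_eq, HahnSeries.leadingCoeff_eq, h.order, h'.order, h.2, h'.2,
      mul_one] at key
    rw [← key]
    congr 1
    push_cast
    ring

theorem isPolarInt_jInt (d : ℕ) [NeZero d] : IsPolarInt (H708.jInt d) d := by
  refine ⟨fun n hn => ?_, H553.coeff_jInt_top d⟩
  rw [H708.jInt, jqNModC]
  by_cases hdn : (d : ℤ) ∣ n
  · obtain ⟨k, rfl⟩ := hdn
    rw [qExpand_coeff_mul]
    apply coeff_jqModC_of_lt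
    have hd : (0 : ℤ) < d := by exact_mod_cast Nat.pos_of_ne_zero (NeZero.ne d)
    by_contra hk
    have hk' : -1 ≤ k := not_lt.mp hk
    have : -(d : ℤ) ≤ (d : ℤ) * k := by nlinarith
    omega
  · exact qExpand_coeff_of_not_dvd d _ hdn

/-! ### `V∞` and `V₀` lie over `R_E` -/

section Over

variable {P E} {N : ℕ} [IsDiscreteValuationRing (_root_.Fermat.Agent.A2.Mod.RE P E)]

theorem algebraMap_RE_eq (r : _root_.Fermat.Agent.A2.Mod.RE P E) :
    algebraMap (_root_.Fermat.Agent.A2.Mod.RE P E) (_root_.Fermat.Agent.A2.Mod.FE E N) r = algebraMap E (_root_.Fermat.Agent.A2.Mod.FE E N) (r : E) := rfl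

theorem isOver_of_isVinf {V : ValuationSubring (_root_.Fermat.Agent.A2.Mod.FE E N)} (hV : IsVinf P E N V) :
    H489.IsOver (_root_.Fermat.Agent.A2.Mod.RE P E) V where
  mem := fun r => (H553.algebraMap_mem_iff P E hV (r : E)).mpr r.2
  nonunit := fun r hr => by
    rw [ValuationSubring.mem_nonunits_iff_or]
    by_cases h0 : r = 0
    · left
      rw [h0, map_zero]
    · right
      intro hmem
      have hr0 : (r : E) ≠ 0 := fun h => h0 (Subtype.ext h)
      have e : (algebraMap (_root_.Fermat.Agent.A2.Mod.RE P E) (_root_.Fermat.Agent.A2.Mod.FE E N) r)⁻¹ = algebraMap E (_root_.Fermat.Agent.A2.Mod.FE E N) ((r : E)⁻¹) := by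
        rw [algebraMap_RE_eq, map_inv₀]
      rw [e, H553.algebraMap_mem_iff P E hV] at hmem
      have hu : IsUnit r :=
        isUnit_iff_exists_inv.mpr ⟨⟨_, hmem⟩, Subtype.ext (mul_inv_cancel₀ hr0)⟩
      exact (IsLocalRing.mem_maximalIdeal r).mp hr hu

/-- Nonunits of the pull-back of a valuation ring along an automorphism. -/
theorem mem_nonunits_comap {F : Type*} [Field F] (V : ValuationSubring F) (W : F →+* F) (f : F) :
    f ∈ (V.comap W).nonunits ↔ W f ∈ V.nonunits := by
  rw [ValuationSubring.mem_nonunits_iff_or, ValuationSubring.mem_nonunits_iff_or,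
    ValuationSubring.mem_comap]
  constructor
  · rintro (h | h)
    · left
      rw [h, map_zero]
    · right
      intro h'
      apply h
      show W f⁻¹ ∈ V
      rw [map_inv₀]
      exact h'
  · rintro (h | h)
    · left
      exact (map_eq_zero W).mp h
    · right
      intro h'
      apply h
      have h'' : W f⁻¹ ∈ V := h'
      rwa [map_inv₀] at h''

theorem isOver_comap {V : ValuationSubring (_root_.Fermat.Agent.A2.Mod.FE E N)} (hV : IsVinf P E N V)
    (W : _root_.Fermat.Agent.A2.Mod.FE E N ≃ₐ[E] _root_.Fermat.Agent.A2.Mod.FE E N) :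
    H489.IsOver (_root_.Fermat.Agent.A2.Mod.RE P E) (V.comap (W : _root_.Fermat.Agent.A2.Mod.FE E N →+* _root_.Fermat.Agent.A2.Mod.FE E N)) where
  mem := fun r => by
    rw [ValuationSubring.mem_comap]
    show W (algebraMap (_root_.Fermat.Agent.A2.Mod.RE P E) (_root_.Fermat.Agent.A2.Mod.FE E N) r) ∈ V
    rw [algebraMap_RE_eq, W.commutes]
    exact (isOver_of_isVinf hV).mem r
  nonunit := fun r hr => by
    rw [mem_nonunits_comap]
    show W (algebraMap (_root_.Fermat.Agent.A2.Mod.RE P E) (_root_.Fermat.Agent.A2.Mod.FE E N) r) ∈ V.nonunits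
    rw [algebraMap_RE_eq, W.commutes]
    exact (isOver_of_isVinf hV).nonunit r hr

end Over

/-! ### The Gauss property for polar elements -/

section Gauss

variable {P E} {N : ℕ} [IsDiscreteValuationRing (_root_.Fermat.Agent.A2.Mod.RE P E)]

variable (E N) in
/-- `u ∈ F_N` is *polar of order `a`*: its `t`-expansion is an integer series with lowest term
`t^(-a)`. -/
def IsPolar (u : _root_.Fermat.Agent.A2.Mod.FE E N) (a : ℕ) : Prop :=
  ∃ g : LaurentSeries ℤ, IsPolarInt g a ∧ (u : LaurentSeries E) = coeffEmb E (H708.castQ g)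

theorem IsPolar.mul {u u' : _root_.Fermat.Agent.A2.Mod.FE E N} {a a' : ℕ} (h : IsPolar E N u a) (h' : IsPolar E N u' a') :
    IsPolar E N (u * u') (a + a') := by
  obtain ⟨g, hg, e⟩ := h
  obtain ⟨g', hg', e'⟩ := h'
  refine ⟨g * g', hg.mul hg', ?_⟩
  rw [map_mul, map_mul, ← e, ← e']
  rfl

theorem isPolar_jE (d : ℕ) [NeZero d] (hd : d ∣ N) : IsPolar E N (jE E N d hd) d :=
  ⟨H708.jInt d, isPolarInt_jInt d, H553.coe_jE N d hd⟩

theorem ev_eq_aeval (u : _root_.Fermat.Agent.A2.Mod.FE E N) (p : Polynomial (_root_.Fermat.Agent.A2.Mod.RE P E)) : ev P E N u p = aeval u p := rfl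

theorem not_C_dvd_of_map_ne_zero {w : _root_.Fermat.Agent.A2.Mod.RE P E} (hw : Irreducible w) {p : Polynomial (_root_.Fermat.Agent.A2.Mod.RE P E)}
    (hp : p.map (IsLocalRing.residue (_root_.Fermat.Agent.A2.Mod.RE P E)) ≠ 0) : ¬ Polynomial.C w ∣ p := by
  rintro ⟨Q, rfl⟩
  apply hp
  rw [Polynomial.map_mul, Polynomial.map_C]
  have : IsLocalRing.residue (_root_.Fermat.Agent.A2.Mod.RE P E) w = 0 := by
    rw [IsLocalRing.residue_eq_zero_iff]
    exact (IsLocalRing.mem_maximalIdeal w).mpr hw.not_isUnit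
  rw [this, map_zero, zero_mul]

/-- **Gauss property** of `V∞` for a polar element. -/
theorem isGaussOver_of_polar {V : ValuationSubring (_root_.Fermat.Agent.A2.Mod.FE E N)} (hV : IsVinf P E N V)
    {w : _root_.Fermat.Agent.A2.Mod.RE P E} (hw : Irreducible w) (hN : N ≠ 0) {u : _root_.Fermat.Agent.A2.Mod.FE E N} {a : ℕ} (ha : 0 < a)
    (hu : IsPolar E N u a) (htr : Transcendental (_root_.Fermat.Agent.A2.Mod.RE P E) u) :
    H489.IsGaussOver (_root_.Fermat.Agent.A2.Mod.RE P E) V u where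
  isOver := isOver_of_isVinf hV
  mem := by
    obtain ⟨g, -, e⟩ := hu
    exact H553.mem_of_int hV e
  prim := by
    intro p hp
    by_contra hne
    obtain ⟨g, hg, e⟩ := hu
    have hp0 : p ≠ 0 := by
      rintro rfl
      exact hne (Polynomial.map_zero _)
    have h3 := H816.vinfGauss P E w N hN inferInstance hw V hV u (H708.castA (_root_.Fermat.Agent.A2.Mod.RE P E) g) a ha
      (by rw [e]; exact H553.coeffEmb_castQ (P := P) g)
      (fun n hn => by
        show ((g.coeff n : ℤ) : _root_.Fermat.Agent.A2.Mod.RE P E) = 0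
        rw [hg.1 n hn, Int.cast_zero])
      (by
        have : (H708.castA (_root_.Fermat.Agent.A2.Mod.RE P E) g).coeff (-(a : ℤ)) = 1 := by
          show ((g.coeff (-(a : ℤ)) : ℤ) : _root_.Fermat.Agent.A2.Mod.RE P E) = 1
          rw [hg.2, Int.cast_one]
        rw [this]
        exact isUnit_one)
      p (not_C_dvd_of_map_ne_zero hw hne)
    rw [ev_eq_aeval] at h3
    rcases (ValuationSubring.mem_nonunits_iff_or V).mp hp with h0 | h0
    · exact htr ⟨p, hp0, h0⟩
    · exact h0 h3.2

/-- transport of the Gauss property along an `E`-automorphism. -/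
theorem isGaussOver_comap {V : ValuationSubring (_root_.Fermat.Agent.A2.Mod.FE E N)} (hV : IsVinf P E N V)
    (W : _root_.Fermat.Agent.A2.Mod.FE E N ≃ₐ[E] _root_.Fermat.Agent.A2.Mod.FE E N) {u : _root_.Fermat.Agent.A2.Mod.FE E N} (h : H489.IsGaussOver (_root_.Fermat.Agent.A2.Mod.RE P E) V (W u)) :
    H489.IsGaussOver (_root_.Fermat.Agent.A2.Mod.RE P E) (V.comap (W : _root_.Fermat.Agent.A2.Mod.FE E N →+* _root_.Fermat.Agent.A2.Mod.FE E N)) u where
  isOver := isOver_comap hV W
  mem := h.mem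
  prim := by
    intro p hp
    apply h.prim p
    rw [mem_nonunits_comap] at hp
    have e : W (aeval u p) = aeval (W u) p := by
      have := Polynomial.aeval_algHom_apply (W.toAlgHom.restrictScalars (_root_.Fermat.Agent.A2.Mod.RE P E)) u p
      exact this.symm
    rw [← e]
    exact hp

theorem transcendental_RE {u : _root_.Fermat.Agent.A2.Mod.FE E N} (h : Transcendental E u) : Transcendental (_root_.Fermat.Agent.A2.Mod.RE P E) u :=
  h.restrictScalars (fun a b hab => Subtype.ext hab)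

theorem transcendental_algEquiv (W : _root_.Fermat.Agent.A2.Mod.FE E N ≃ₐ[E] _root_.Fermat.Agent.A2.Mod.FE E N) {u : _root_.Fermat.Agent.A2.Mod.FE E N}
    (h : Transcendental E u) : Transcendental E (W u) := by
  rintro ⟨p, hp0, hp⟩
  apply h
  refine ⟨p, hp0, ?_⟩
  have e := Polynomial.aeval_algHom_apply W.toAlgHom u p
  have e' : W (aeval u p) = 0 := by
    rw [← hp]
    exact e.symm
  exact (map_eq_zero_iff W W.injective).mp e'

end Gauss

/-! ### The coordinate `x = j · j_q` -/

section Coordinate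

variable {P E} (M q : ℕ) [NeZero M] [NeZero q] [IsDiscreteValuationRing (_root_.Fermat.Agent.A2.Mod.RE P E)]

theorem isPolar_xE : IsPolar E (M * q) (xE E M q) (1 + q) :=
  (isPolar_jE 1 (one_dvd _)).mul (isPolar_jE q (dvd_mul_left q M))

theorem isPolar_fricke_xE {W : _root_.Fermat.Agent.A2.Mod.FE E (M * q) ≃ₐ[E] _root_.Fermat.Agent.A2.Mod.FE E (M * q)} (hW : IsFricke E (M * q) W) :
    IsPolar E (M * q) (W (xE E M q)) (M * q + M) := by
  have h1 : W (jE E (M * q) 1 (one_dvd _)) = jE E (M * q) (M * q) (dvd_refl _) :=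
    hW.1 1 (M * q) (one_dvd _) (dvd_refl _) (one_mul _)
  have h2 : W (jE E (M * q) q (dvd_mul_left q M)) = jE E (M * q) M (dvd_mul_right M q) :=
    hW.1 q M (dvd_mul_left q M) (dvd_mul_right M q) (mul_comm q M)
  rw [xE, map_mul, h1, h2]
  exact (isPolar_jE (M * q) (dvd_refl _)).mul (isPolar_jE M (dvd_mul_right M q))

variable {M q}

/-- `V∞` induces the Gauss valuation on `E(x)`. -/
theorem isGaussOver_xE {w : _root_.Fermat.Agent.A2.Mod.RE P E} (hw : Irreducible w)
    {V : ValuationSubring (_root_.Fermat.Agent.A2.Mod.FE E (M * q))} (hV : IsVinf P E (M * q) V)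
    (htr : Transcendental E (xE E M q)) :
    H489.IsGaussOver (_root_.Fermat.Agent.A2.Mod.RE P E) V (xE E M q) :=
  isGaussOver_of_polar hV hw (NeZero.ne _) (by omega) (isPolar_xE M q) (transcendental_RE htr)

/-- `V₀ = V∞ ∘ W` induces the Gauss valuation on `E(x)`. -/
theorem isGaussOver_comap_xE {w : _root_.Fermat.Agent.A2.Mod.RE P E} (hw : Irreducible w)
    {V : ValuationSubring (_root_.Fermat.Agent.A2.Mod.FE E (M * q))} (hV : IsVinf P E (M * q) V)
    {W : _root_.Fermat.Agent.A2.Mod.FE E (M * q) ≃ₐ[E] _root_.Fermat.Agent.A2.Mod.FE E (M * q)} (hW : IsFricke E (M * q) W)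
    (htr : Transcendental E (xE E M q)) :
    H489.IsGaussOver (_root_.Fermat.Agent.A2.Mod.RE P E) (V.comap (W : _root_.Fermat.Agent.A2.Mod.FE E (M * q) →+* _root_.Fermat.Agent.A2.Mod.FE E (M * q))) (xE E M q) :=
  isGaussOver_comap hV W
    (isGaussOver_of_polar hV hw (NeZero.ne _)
      (Nat.add_pos_right _ (Nat.pos_of_ne_zero (NeZero.ne M)))
      (isPolar_fricke_xE M q hW) (transcendental_RE (transcendental_algEquiv W htr)))

end Coordinate

/-! ### Independence and the final frame -/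

section Indep

variable {P E} {N : ℕ} [IsDiscreteValuationRing (_root_.Fermat.Agent.A2.Mod.RE P E)]

theorem inW_iff_mem_nonunits {V : ValuationSubring (_root_.Fermat.Agent.A2.Mod.FE E N)} {w : _root_.Fermat.Agent.A2.Mod.RE P E}
    (hu : H48.IsUnif V (cE P E N w)) (f : _root_.Fermat.Agent.A2.Mod.FE E N) : InW P E N V w f ↔ f ∈ V.nonunits := by
  rw [InW, hu.mul_inv_mem_iff, ValuationSubring.mem_nonunits_iff]

theorem isUnif_comap {V : ValuationSubring (_root_.Fermat.Agent.A2.Mod.FE E N)} {w : _root_.Fermat.Agent.A2.Mod.RE P E}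
    (hu : H48.IsUnif V (cE P E N w)) (W : _root_.Fermat.Agent.A2.Mod.FE E N ≃ₐ[E] _root_.Fermat.Agent.A2.Mod.FE E N) :
    H48.IsUnif (V.comap (W : _root_.Fermat.Agent.A2.Mod.FE E N →+* _root_.Fermat.Agent.A2.Mod.FE E N)) (cE P E N w) := by
  have hW : W (cE P E N w) = cE P E N w := W.commutes _
  have hWi : W (cE P E N w)⁻¹ = (cE P E N w)⁻¹ := by rw [map_inv₀, hW]
  refine ⟨?_, ?_, ?_⟩
  · show W (cE P E N w) ∈ V
    rw [hW]
    exact hu.mem
  · intro h
    have h' : W (cE P E N w)⁻¹ ∈ V := h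
    rw [hWi] at h'
    exact hu.inv_not_mem h'
  · intro f hf hfi
    show W (f * (cE P E N w)⁻¹) ∈ V
    rw [map_mul, hWi]
    refine hu.gen (W f) hf ?_
    intro h
    apply hfi
    show W f⁻¹ ∈ V
    rw [map_inv₀]
    exact h

theorem polyIndepMod_of_indepMod {V : ValuationSubring (_root_.Fermat.Agent.A2.Mod.FE E N)} {w : _root_.Fermat.Agent.A2.Mod.RE P E}
    (hw : Irreducible w) (hu : H48.IsUnif V (cE P E N w)) {x : _root_.Fermat.Agent.A2.Mod.FE E N} {n : ℕ}
    {b : Fin n → _root_.Fermat.Agent.A2.Mod.FE E N} (h : IndepMod P E N V w x b) :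
    H489.PolyIndepMod (_root_.Fermat.Agent.A2.Mod.RE P E) V x b := by
  intro a ha i
  have h1 := h a ((inW_iff_mem_nonunits hu _).mpr ha) i
  by_contra hne
  exact not_C_dvd_of_map_ne_zero hw hne h1

end Indep

section Final

variable {P E} {M q : ℕ} [NeZero M] [NeZero q] {w : _root_.Fermat.Agent.A2.Mod.RE P E}

/-- **The frame for `X₀(Mq)`**: from the leaves L2, L3 (main) and L6, L8, L9, L10 (hypotheses),
the two valuation rings `V∞`, `V₀ = V∞ ∘ W` satisfy `H489.TwoExtHyp` over the Gauss ring of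
`E(x)`, `x = j · j_q`. -/
theorem twoExtHyp_of_leaves (hS : Setting P E M q w)
    (V : ValuationSubring (_root_.Fermat.Agent.A2.Mod.FE E (M * q))) (W : _root_.Fermat.Agent.A2.Mod.FE E (M * q) ≃ₐ[E] _root_.Fermat.Agent.A2.Mod.FE E (M * q))
    (hV : IsVinf P E (M * q) V) (hW : IsFricke E (M * q) W)
    (hL6 : VzeroNeStatement P E M q w) (hL8 : DegStatement E M q)
    (hL9 : IndInfStatement P E M q w) (hL10 : IndZeroStatement P E M q w) :
    haveI := hS.dvr
    ∃ (b c : Fin ((q + 1) * dedekindPsi M) → _root_.Fermat.Agent.A2.Mod.FE E (M * q))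
      (_ : IsDiscreteValuationRing (H489.gaussRing E V (xE E M q))),
      H489.TwoExtHyp (IntermediateField.adjoin E ({xE E M q} : Set (_root_.Fermat.Agent.A2.Mod.FE E (M * q))))
        (H489.gaussRing E V (xE E M q)) V
        (V.comap (W : _root_.Fermat.Agent.A2.Mod.FE E (M * q) →+* _root_.Fermat.Agent.A2.Mod.FE E (M * q))) b c := by
  haveI := hS.dvr
  obtain ⟨htr, hfr, -⟩ := hL8 hS.q_prime hS.q_not_dvd
  obtain ⟨b, hb, hbI⟩ := hL9 hS V hV
  obtain ⟨c, hc, hcI⟩ := hL10 hS V W hV hW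
  have hu : H48.IsUnif V (cE P E (M * q) w) :=
    (H553.vinfBasic P E w (M * q) (NeZero.ne _) hS.dvr hS.unif V hV).1
  have hG₁ := isGaussOver_xE hS.unif hV htr
  have hG₂ := isGaussOver_comap_xE hS.unif hV hW htr
  have hdvr : IsDiscreteValuationRing (H489.gaussRing E V (xE E M q)) :=
    hG₁.isDiscreteValuationRing
  refine ⟨b, c, hdvr, ?_⟩
  exact H489.twoExtHyp_of_gauss hG₁ hG₂ (fun h => hL6 hS V W hV hW h.symm) hb hc
    (polyIndepMod_of_indepMod hS.unif hu hbI)
    (polyIndepMod_of_indepMod hS.unif (isUnif_comap hu W) hcI)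
    (by rw [hfr, two_mul])

end Final


end Fermat.Agent.A2.Mod.H13

end
end
-- ===== PACK-END A2/Mod/H13/Frame.lean

-- ===== PACK-BEGIN A2/H489/ChartB.lean
section



/-!
# A2 / MODASM step S1 (helper489): the two components of a chart, from an explicit coordinate

`R` a discrete valuation ring with uniformiser `w`, `E = Frac R`, `F ⊇ E` a field, `y ∈ F` a
coordinate, `V₁ ≠ V₂` valuation subrings of `F` inducing the Gauss valuation on `E(y)`
(`IsGaussOver`), both with uniformiser `w`, with `R[y]`-independent families modulo the maximal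
ideals (`PolyIndepMod`) of total size `≥ [F : E(y)]`.

* `gaussPairLe_of_frame` : the hypotheses `H48.GaussPairLe` for the `R[X]`-algebra structure
  `X ↦ y` (all instances are constructed here);
* `frame_exists_components` : for the chart `B` = integral closure of `R[y]`
  (`f ∈ B ↔ IsIntegral (Algebra.adjoin R {y}) f`) there are prime ideals `p₁ p₂` of `B` with
  `b ∈ p_i ↔ b ∈ 𝔪_{V_i}`, incomparable, and `p₁ ⊓ p₂ = w B`
  (= the fields `p₁ … inf_eq` of `Fermat.Agent.A2.SSChart`).
-/

set_option autoImplicit false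
set_option linter.style.haveILetI false
set_option linter.unusedSectionVars false

namespace Fermat.Agent.A2.H489

open IsLocalRing Polynomial IntermediateField

section Inj

variable {R F : Type*} [CommRing R] [IsDomain R] [IsDiscreteValuationRing R]
  [Field F] [Algebra R F]

/-- the coordinate of a Gauss valuation is transcendental over `R` -/
theorem IsGaussOver.aeval_injective (E : Type*) [Field E] [Algebra R E] [IsFractionRing R E]
    [Algebra E F] [IsScalarTower R E F] {V : ValuationSubring F} {y : F}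
    (h : IsGaussOver R V y) :
    Function.Injective (aeval y : R[X] → F) := by
  rw [injective_iff_map_eq_zero]
  intro P hP
  by_contra hP0
  obtain ⟨w, hw⟩ := IsDiscreteValuationRing.exists_irreducible R
  obtain ⟨n, P₀, rfl, hP₀⟩ := exists_eq_pow_mul_prim hw hP0
  rw [map_mul, aeval_C] at hP
  rcases mul_eq_zero.mp hP with h1 | h1
  · exact algebraMap_RL_ne_zero E (pow_ne_zero n hw.ne_zero) h1
  · exact h.aeval_ne_zero hP₀ h1

end Inj

section FrameChart

variable {R E F : Type*} [CommRing R] [IsDomain R] [IsDiscreteValuationRing R]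
  [Field E] [Algebra R E] [IsFractionRing R E]
  [Field F] [Algebra E F] [Algebra R F] [IsScalarTower R E F]

/-- divisibility by the uniformiser = vanishing modulo the maximal ideal -/
theorem C_dvd_iff_map_residue_eq_zero {w : R} (hw : Irreducible w) (P : R[X]) :
    C w ∣ P ↔ P.map (residue R) = 0 := by
  constructor
  · rintro ⟨P', rfl⟩
    have hwm : residue R w = 0 := by
      rw [residue_eq_zero_iff, IsLocalRing.mem_maximalIdeal, _root_.mem_nonunits_iff]
      exact hw.not_isUnit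
    rw [Polynomial.map_mul, map_C, hwm, C_0, zero_mul]
  · intro h
    obtain ⟨P', hP'⟩ := exists_eq_C_mul_of_map_residue_eq_zero hw h
    exact ⟨P', hP'⟩

variable {V : ValuationSubring F} {y : F}

/-- every element of `E(y)` is a quotient of polynomials over `R` -/
theorem exists_div_aeval_of_mem_adjoin {a : F} (ha : a ∈ E⟮y⟯) :
    ∃ P Q : R[X], a = aeval y P / aeval y Q := by
  obtain ⟨r, s, hrs⟩ := (mem_adjoin_simple_iff E a).mp ha
  by_cases hr : r = 0
  · refine ⟨0, 1, ?_⟩
    rw [hrs, hr, map_zero, zero_div, map_zero, zero_div]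
  by_cases hs : s = 0
  · refine ⟨0, 1, ?_⟩
    rw [hrs, hs, map_zero, div_zero, map_zero, zero_div]
  obtain ⟨dr, R', hdr, -, eR⟩ := exists_aeval_eq_of_polynomial (R := R) y hr
  obtain ⟨ds, S', hds, -, eS⟩ := exists_aeval_eq_of_polynomial (R := R) y hs
  have hdrL : algebraMap R F dr ≠ 0 := algebraMap_RL_ne_zero E hdr
  have hdsL : algebraMap R F ds ≠ 0 := algebraMap_RL_ne_zero E hds
  refine ⟨C ds * R', C dr * S', ?_⟩
  rw [map_mul, map_mul, aeval_C, aeval_C, ← eR, ← eS, hrs]
  by_cases hs0 : aeval y s = 0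
  · rw [hs0, div_zero, mul_zero, mul_zero, div_zero]
  · field_simp

/-- **MODASM S1, explicit coordinate.**  The two components of the chart `B` = integral closure
of `R[y]`: primes `p₁ = B ∩ 𝔪_{V₁}`, `p₂ = B ∩ 𝔪_{V₂}`, incomparable, `p₁ ⊓ p₂ = w B`. -/
theorem frame_exists_components {w : R} (hw : Irreducible w) {V₁ V₂ : ValuationSubring F}
    (h₁ : IsGaussOver R V₁ y) (h₂ : IsGaussOver R V₂ y)
    (hu₁ : H48.IsUnif V₁ (algebraMap R F w)) (hu₂ : H48.IsUnif V₂ (algebraMap R F w))
    (hne : V₁ ≠ V₂) {f₁ f₂ : ℕ} {u₁ : Fin f₁ → F} {u₂ : Fin f₂ → F}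
    (hm₁ : ∀ i, u₁ i ∈ V₁) (hm₂ : ∀ i, u₂ i ∈ V₂)
    (hI₁ : PolyIndepMod R V₁ y u₁) (hI₂ : PolyIndepMod R V₂ y u₂)
    [FiniteDimensional E⟮y⟯ F] (hdeg : Module.finrank E⟮y⟯ F ≤ f₁ + f₂)
    (B : Subalgebra R F)
    (hB : ∀ f : F, f ∈ B ↔ IsIntegral (Algebra.adjoin R ({y} : Set F)) f) :
    ∃ p₁ p₂ : Ideal B,
      (∀ b : B, b ∈ p₁ ↔ (b : F) ∈ V₁.nonunits) ∧ (∀ b : B, b ∈ p₂ ↔ (b : F) ∈ V₂.nonunits) ∧
      p₁.IsPrime ∧ p₂.IsPrime ∧ p₁ ≠ p₂ ∧ ¬ p₁ ≤ p₂ ∧ ¬ p₂ ≤ p₁ ∧
      p₁ ⊓ p₂ = Ideal.span {algebraMap R B w} := by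
  classical
  -- the `R[X]`-algebra structures `X ↦ y`
  letI algF : Algebra R[X] F := (aeval y : R[X] →ₐ[R] F).toRingHom.toAlgebra
  have hF : ∀ P : R[X], algebraMap R[X] F P = aeval y P := fun _ => rfl
  let yK : E⟮y⟯ := ⟨y, mem_adjoin_simple_self E y⟩
  letI algK : Algebra R[X] E⟮y⟯ := (aeval yK : R[X] →ₐ[R] E⟮y⟯).toRingHom.toAlgebra
  have hK : ∀ P : R[X], algebraMap R[X] E⟮y⟯ P = aeval yK P := fun _ => rfl
  haveI towerK : IsScalarTower R E⟮y⟯ F := IsScalarTower.of_algebraMap_eq (fun _ => rfl)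
  have hKF : ∀ P : R[X], ((aeval yK P : E⟮y⟯) : F) = aeval y P := by
    intro P
    have := Polynomial.aeval_algHom_apply (IsScalarTower.toAlgHom R E⟮y⟯ F) yK P
    exact this.symm
  haveI tower : IsScalarTower R[X] E⟮y⟯ F :=
    IsScalarTower.of_algebraMap_eq (fun P => (hKF P).symm)
  haveI towerR : IsScalarTower R R[X] F :=
    IsScalarTower.of_algebraMap_eq (fun r => (aeval_C y r).symm)
  have hinjF : Function.Injective (aeval y : R[X] → F) := h₁.aeval_injective E
  have hinjK : Function.Injective (algebraMap R[X] E⟮y⟯) := by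
    intro P Q hPQ
    apply hinjF
    rw [← hKF, ← hKF, ← hK, ← hK, hPQ]
  haveI : FaithfulSMul R[X] E⟮y⟯ := (faithfulSMul_iff_algebraMap_injective _ _).mpr hinjK
  haveI frac : IsFractionRing R[X] E⟮y⟯ := by
    apply IsFractionRing.of_field
    intro z
    obtain ⟨P, Q, hPQ⟩ := exists_div_aeval_of_mem_adjoin (R := R) (E := E) z.2
    refine ⟨P, Q, Subtype.ext ?_⟩
    rw [hPQ]
    show aeval y P / aeval y Q = ((aeval yK P / aeval yK Q : E⟮y⟯) : F)
    rw [IntermediateField.coe_div, hKF, hKF]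
  have hCw : algebraMap R[X] F (C w) = algebraMap R F w := aeval_C y w
  have hprim : ∀ P : R[X], ¬ C w ∣ P → P.map (residue R) ≠ 0 := fun P hP h0 =>
    hP ((C_dvd_iff_map_residue_eq_zero hw P).mpr h0)
  have hG : H48.GaussPairLe (K := E⟮y⟯) w V₁ V₂ u₁ u₂ :=
    { prime := hw.prime
      unif₁ := by rw [hCw]; exact hu₁
      unif₂ := by rw [hCw]; exact hu₂
      poly₁ := fun P => h₁.aeval_mem P
      poly₂ := fun P => h₂.aeval_mem P
      gauss₁ := fun P hP => h₁.inv_aeval_mem (hprim P hP)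
      gauss₂ := fun P hP => h₂.inv_aeval_mem (hprim P hP)
      ne := hne
      b_mem := hm₁
      c_mem := hm₂
      b_indep := by
        intro a ha i
        rw [hCw, hu₁.mul_inv_mem_iff, ← ValuationSubring.mem_nonunits_iff] at ha
        exact (C_dvd_iff_map_residue_eq_zero hw (a i)).mpr (hI₁ a ha i)
      c_indep := by
        intro a ha i
        rw [hCw, hu₂.mul_inv_mem_iff, ← ValuationSubring.mem_nonunits_iff] at ha
        exact (C_dvd_iff_map_residue_eq_zero hw (a i)).mpr (hI₂ a ha i)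
      le := hdeg }
  have hX : algebraMap R[X] F X = y := aeval_X y
  have hB' : ∀ f : F, f ∈ B ↔
      IsIntegral (Algebra.adjoin R ({algebraMap R[X] F X} : Set F)) f := by
    rw [hX]
    exact hB
  exact gaussPairLe_exists_components hG B hB'

end FrameChart

/-! ## The chart at infinity: the coordinate `y⁻¹` -/

section Inv

variable {R E F : Type*} [CommRing R] [IsDomain R] [IsDiscreteValuationRing R]
  [Field E] [Algebra R E] [IsFractionRing R E]
  [Field F] [Algebra E F] [Algebra R F] [IsScalarTower R E F]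
  {V : ValuationSubring F} {y : F}

omit [IsDomain R] [IsDiscreteValuationRing R] in
theorem aeval_inv_mul_pow (hy : y ≠ 0) (N : ℕ) (P : R[X]) (hP : P.natDegree ≤ N) :
    aeval y⁻¹ P * y ^ N = aeval y (reflect N P) := by
  have hy' : y⁻¹ ≠ 0 := inv_ne_zero hy
  letI : Invertible (y⁻¹) := invertibleOfNonzero hy'
  have h := eval₂_reflect_mul_pow (algebraMap R F) (y⁻¹) N P hP
  rw [invOf_eq_inv, inv_inv] at h
  rw [aeval_def, aeval_def, ← h, mul_assoc, ← mul_pow, inv_mul_cancel₀ hy, one_pow, mul_one]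

omit [IsDomain R] [IsDiscreteValuationRing R] in
theorem map_residue_reflect_eq_zero [IsLocalRing R] {N : ℕ} {P : R[X]}
    (h : (reflect N P).map (residue R) = 0) : P.map (residue R) = 0 := by
  rw [map_residue_eq_zero_iff] at h ⊢
  intro i
  have := h (revAt N i)
  rwa [coeff_reflect, revAt_invol] at this

omit [IsDomain R] [IsDiscreteValuationRing R] in
/-- the coordinate of a Gauss valuation is a unit -/
theorem IsGaussOver.inv_mem [IsLocalRing R] (h : IsGaussOver R V y) :
    y⁻¹ ∈ V := by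
  have h1 := h.inv_aeval_mem (P := X) (by
    rw [Polynomial.map_X]
    exact X_ne_zero)
  rwa [aeval_X] at h1

omit [IsDomain R] [IsDiscreteValuationRing R] in
theorem IsGaussOver.ne_zero [IsLocalRing R] (h : IsGaussOver R V y) :
    y ≠ 0 := by
  have h1 := h.aeval_ne_zero (P := X) (by
    rw [Polynomial.map_X]
    exact X_ne_zero)
  rwa [aeval_X] at h1

omit [IsDomain R] [IsDiscreteValuationRing R] in
/-- The Gauss valuation of `E(y)` is the Gauss valuation of `E(y⁻¹)`. -/
theorem IsGaussOver.inv [IsLocalRing R] (h : IsGaussOver R V y) :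
    IsGaussOver R V y⁻¹ where
  isOver := h.isOver
  mem := h.inv_mem
  prim := by
    intro P hP
    apply map_residue_reflect_eq_zero (N := P.natDegree)
    apply h.prim
    rw [← aeval_inv_mul_pow h.ne_zero P.natDegree P le_rfl, mul_comm]
    exact mem_mul_nonunits (pow_mem h.mem _) hP

omit [IsDomain R] [IsDiscreteValuationRing R] in
theorem PolyIndepMod.inv [IsLocalRing R] (h : IsGaussOver R V y) {f : ℕ}
    {u : Fin f → F} (hI : PolyIndepMod R V y u) : PolyIndepMod R V y⁻¹ u := by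
  intro P hP i
  set D := Finset.univ.sup (fun i => (P i).natDegree) with hD
  have hdeg : ∀ i, (P i).natDegree ≤ D := fun i =>
    Finset.le_sup (f := fun i => (P i).natDegree) (Finset.mem_univ i)
  apply map_residue_reflect_eq_zero (N := D)
  refine hI (fun i => reflect D (P i)) ?_ i
  have h1 : ∑ i, aeval y (reflect D (P i)) * u i = y ^ D * ∑ i, aeval y⁻¹ (P i) * u i := by
    rw [Finset.mul_sum]
    refine Finset.sum_congr rfl fun i _ => ?_
    rw [← aeval_inv_mul_pow h.ne_zero D (P i) (hdeg i)]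
    ring
  rw [h1]
  exact mem_mul_nonunits (pow_mem h.mem _) hP

omit [IsDomain R] [IsDiscreteValuationRing R] [Algebra R E] [IsFractionRing R E] [Algebra R F]
  [IsScalarTower R E F] [CommRing R] in
theorem adjoin_inv_eq (E : Type*) [Field E] [Algebra E F] (y : F) : E⟮y⁻¹⟯ = E⟮y⟯ := by
  apply le_antisymm
  · rw [adjoin_simple_le_iff]
    exact inv_mem (mem_adjoin_simple_self E y)
  · rw [adjoin_simple_le_iff]
    have := inv_mem (mem_adjoin_simple_self E y⁻¹)
    rwa [inv_inv] at this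

/-- **MODASM S1, chart at infinity.**  Same hypotheses on the coordinate `y`; the chart is the
integral closure of `R[y⁻¹]`. -/
theorem frame_exists_components_inv {w : R} (hw : Irreducible w) {V₁ V₂ : ValuationSubring F}
    (h₁ : IsGaussOver R V₁ y) (h₂ : IsGaussOver R V₂ y)
    (hu₁ : H48.IsUnif V₁ (algebraMap R F w)) (hu₂ : H48.IsUnif V₂ (algebraMap R F w))
    (hne : V₁ ≠ V₂) {f₁ f₂ : ℕ} {u₁ : Fin f₁ → F} {u₂ : Fin f₂ → F}
    (hm₁ : ∀ i, u₁ i ∈ V₁) (hm₂ : ∀ i, u₂ i ∈ V₂)
    (hI₁ : PolyIndepMod R V₁ y u₁) (hI₂ : PolyIndepMod R V₂ y u₂)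
    [hfin : FiniteDimensional E⟮y⟯ F] (hdeg : Module.finrank E⟮y⟯ F ≤ f₁ + f₂)
    (B : Subalgebra R F)
    (hB : ∀ f : F, f ∈ B ↔ IsIntegral (Algebra.adjoin R ({y⁻¹} : Set F)) f) :
    ∃ p₁ p₂ : Ideal B,
      (∀ b : B, b ∈ p₁ ↔ (b : F) ∈ V₁.nonunits) ∧ (∀ b : B, b ∈ p₂ ↔ (b : F) ∈ V₂.nonunits) ∧
      p₁.IsPrime ∧ p₂.IsPrime ∧ p₁ ≠ p₂ ∧ ¬ p₁ ≤ p₂ ∧ ¬ p₂ ≤ p₁ ∧
      p₁ ⊓ p₂ = Ideal.span {algebraMap R B w} := by
  have hE : E⟮y⁻¹⟯ = E⟮y⟯ := adjoin_inv_eq E y
  have key : ∀ (K : IntermediateField E F), K = E⟮y⟯ →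
      FiniteDimensional K F ∧ Module.finrank K F ≤ f₁ + f₂ := by
    rintro K rfl
    exact ⟨hfin, hdeg⟩
  obtain ⟨hfin', hdeg'⟩ := key _ hE
  exact frame_exists_components (E := E) hw h₁.inv h₂.inv hu₁ hu₂ hne hm₁ hm₂
    (hI₁.inv h₁) (hI₂.inv h₂) hdeg' B hB

end Inv

end Fermat.Agent.A2.H489

end
-- ===== PACK-END A2/H489/ChartB.lean

-- ===== PACK-BEGIN A2/Mod/H13/S1.lean
section



/-!
# WALL A2 / MODASM, sub-assembly S1 (helper13): the two components of the special fibre

`s1 : VzeroNeStatement → DegStatement → IndInfStatement → IndZeroStatement → S1Statement`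
(leaves L6, L8, L9, L10 of `Mod/Spec.lean`; L2 and L3 are used from main).

For both charts `B = chartAlg y`, `y ∈ {x, x⁻¹}`, `x = j · j_q`: the ideals `p∞ = B ∩ w V∞`,
`p₀ = B ∩ w V₀` are prime, incomparable, and `p∞ ⊓ p₀ = w B` (the special fibre is reduced with
exactly two components).  Proof: `Frame.lean` (leaves ⟹ frame) + helper489's
`frame_exists_components(_inv)` (frame ⟹ components; two-extension theorem + QEP2).
-/

set_option autoImplicit false
set_option linter.unusedSectionVars false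
set_option linter.style.haveILetI false
set_option synthInstance.maxHeartbeats 400000
set_option maxHeartbeats 1600000

noncomputable section

namespace Fermat.Agent.A2.Mod.H13

open ModularCurve HahnSeries Polynomial IntermediateField
open Fermat.Agent.A2 Fermat.Agent.A2.Mod

variable {P : ValuationSubring _root_.Fermat.Agent.A2.Mod.Qb} {E : IntermediateField ℚ _root_.Fermat.Agent.A2.Mod.Qb} {M q : ℕ} [NeZero M] [NeZero q]
  {w : _root_.Fermat.Agent.A2.Mod.RE P E}

/-- **S1.** -/
theorem s1 (hL6 : VzeroNeStatement P E M q w) (hL8 : DegStatement E M q)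
    (hL9 : IndInfStatement P E M q w) (hL10 : IndZeroStatement P E M q w) :
    S1Statement P E M q w := by
  intro hS V W hV hW y hy
  haveI := hS.dvr
  obtain ⟨htr, hfr, -⟩ := hL8 hS.q_prime hS.q_not_dvd
  obtain ⟨b, hb, hbI⟩ := hL9 hS V hV
  obtain ⟨c, hc, hcI⟩ := hL10 hS V W hV hW
  have hu : H48.IsUnif V (cE P E (M * q) w) :=
    (H553.vinfBasic P E w (M * q) (NeZero.ne _) hS.dvr hS.unif V hV).1
  have hu₂ := isUnif_comap hu W
  have hG₁ := isGaussOver_xE hS.unif hV htr
  have hG₂ := isGaussOver_comap_xE hS.unif hV hW htr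
  have hne : V ≠ V.comap (W : _root_.Fermat.Agent.A2.Mod.FE E (M * q) →+* _root_.Fermat.Agent.A2.Mod.FE E (M * q)) :=
    fun h => hL6 hS V W hV hW h.symm
  have hpos : 0 < Module.finrank (IntermediateField.adjoin E ({xE E M q} : Set (_root_.Fermat.Agent.A2.Mod.FE E (M * q))))
      (_root_.Fermat.Agent.A2.Mod.FE E (M * q)) := by
    rw [hfr]
    have h1 := dedekindPsi_pos_of_ne_zero M (NeZero.ne M)
    positivity
  haveI hfin : FiniteDimensional (IntermediateField.adjoin E ({xE E M q} : Set (_root_.Fermat.Agent.A2.Mod.FE E (M * q))))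
      (_root_.Fermat.Agent.A2.Mod.FE E (M * q)) := Module.finite_of_finrank_pos hpos
  have hdeg : Module.finrank (IntermediateField.adjoin E ({xE E M q} : Set (_root_.Fermat.Agent.A2.Mod.FE E (M * q))))
      (_root_.Fermat.Agent.A2.Mod.FE E (M * q)) ≤ (q + 1) * dedekindPsi M + (q + 1) * dedekindPsi M := by
    rw [hfr, two_mul]
  have hI₁ := polyIndepMod_of_indepMod hS.unif hu hbI
  have hI₂ := polyIndepMod_of_indepMod hS.unif hu₂ hcI
  rcases hy with rfl | rfl
  · obtain ⟨p₁, p₂, hc₁, hc₂, hp₁, hp₂, -, h₁₂, h₂₁, hinf⟩ :=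
      H489.frame_exists_components (E := E) hS.unif hG₁ hG₂ hu hu₂ hne hb hc hI₁ hI₂ hdeg
        (chartAlg P E (M * q) (xE E M q)) (fun _ => Iff.rfl)
    exact ⟨p₁, p₂, fun b => (hc₁ b).trans (inW_iff_mem_nonunits hu _).symm,
      fun b => (hc₂ b).trans (inW_iff_mem_nonunits hu₂ _).symm, hp₁, hp₂, h₁₂, h₂₁, hinf⟩
  · obtain ⟨p₁, p₂, hc₁, hc₂, hp₁, hp₂, -, h₁₂, h₂₁, hinf⟩ :=
      H489.frame_exists_components_inv (E := E) hS.unif hG₁ hG₂ hu hu₂ hne hb hc hI₁ hI₂ hdeg
        (chartAlg P E (M * q) (xE E M q)⁻¹) (fun _ => Iff.rfl)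
    exact ⟨p₁, p₂, fun b => (hc₁ b).trans (inW_iff_mem_nonunits hu _).symm,
      fun b => (hc₂ b).trans (inW_iff_mem_nonunits hu₂ _).symm, hp₁, hp₂, h₁₂, h₂₁, hinf⟩

end Fermat.Agent.A2.Mod.H13

end
end
-- ===== PACK-END A2/Mod/H13/S1.lean

-- ===== PACK-BEGIN A2/Top/H994/Wall.lean
section



/-!
# WALL A2 — final assembly for ALL `q` (deputy helper994)

The MOD block can produce the semistable model `ModSSData P E N` only at levels `N` where the
good-reduction input at level `M = N / q` is available from S18: for `q = 3` this needs `2 ∣ N`,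
for `q = 2` it needs `3 ∣ N` (Hauptmodul charts).  This file closes the wall for every level:

* `t1_perN`            : `T1` for ONE level `N` (same proof as `T1.H669.t1`, which uses MOD only at
                         the level `N`);
* `ModSSGoodStatement` : `ModSSStatement` restricted to levels with the auxiliary prime;
* `D2Statement`        : descent of `KummerTarget` from the auxiliary level to `N` (norm trick,
                         degree `3` resp. `4`, prime to `m`; owners helper876 / helper133);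
* `wall`               : `AlgSS → IF → ModSSGood → D2 → Target N q m` for all `q ‖ N`, `q ∤ m`.
-/

set_option autoImplicit false
set_option synthInstance.maxHeartbeats 400000
set_option maxHeartbeats 1600000

noncomputable section

namespace Fermat.Agent.A2.Top.H994

open ModularCurve AlgebraicCurve Fermat.Agent.A2 Fermat.Agent.A2.T1.H669

/-- **T1 for one level.**  `ALG + IF + (MOD at the level N) ⟹ KummerTarget N q m`. -/
theorem t1_perN (hALG : AlgSSStatement) (hIF : IFStatement) (N q m : ℕ) (hq : q.Prime)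
    (hm : 0 < m) (hqm : ¬ q ∣ m)
    (hMOD : ∀ (P : ValuationSubring _root_.Fermat.Agent.A2.Qb) (E : IntermediateField ℚ _root_.Fermat.Agent.A2.Qb),
      P.LiesOverPrime q → GoodField P E → Nonempty (ModSSData P E N)) :
    KummerTarget N q m := by
  intro P hP τ hτ f hf hdiv
  refine kummer_of_levels (modularFunctionFieldFull N) m τ (fun S => ?_) f hf hdiv
  obtain ⟨E, hSE, hE⟩ := hIF q hq P hP S
  refine ⟨E, hSE, hE.res τ hτ, fun e => rfl, fun y hy0 hdd => ?_⟩
  obtain ⟨D⟩ := hMOD P E hP hE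
  haveI : IsDiscreteValuationRing ↥(RE P E) := hE.dvr
  haveI : HenselianLocalRing ↥(RE P E) := hE.henselian
  haveI : IsAlgClosed (IsLocalRing.ResidueField ↥(RE P E)) := hE.algClosed
  obtain ⟨w, hw⟩ := IsDiscreteValuationRing.exists_irreducible ↥(RE P E)
  obtain ⟨cf⟩ := D.cf w hw
  obtain ⟨ci⟩ := D.ci w hw
  have hconcl : AlgSSConclusion E m
      (arithmeticRingAut (modularFunctionFieldFull N) (hE.res τ hτ)) :=
    hALG (R := ↥(RE P E)) (E := E) (F := ↥(FE E N)) w hw q m hq
      (natCast_mem_maximalIdeal_RE E hP) hm hqm D.x D.hx D.hfin D.hconst D.Bf D.Bi D.hBf D.hBi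
      cf ci D.sf D.si
      (arithmeticRingAut (modularFunctionFieldFull N) (hE.res τ hτ))
      (hE.res τ hτ).toRingEquiv (resR hE τ hτ)
      (fun e => arithmeticRingAut_algebraMap (modularFunctionFieldFull N) (hE.res τ hτ) e)
      (fun r => rfl)
      (D.hτx hE τ hτ)
      (finite_order_arithmeticRingAut (modularFunctionFieldFull N) hE τ hτ)
      (D.hτf hE τ hτ w hw) (D.hτi hE τ hτ w hw)
  exact hconcl y hy0 hdd

/-- The auxiliary level: `lcm N 2` for `q = 3`, `lcm N 3` for `q = 2`, `N` otherwise. -/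
def auxLevel (N q : ℕ) : ℕ :=
  if q = 3 then Nat.lcm N 2 else if q = 2 then Nat.lcm N 3 else N

/-- **MOD, producible form**: the semistable model at the levels `N` with `q ‖ N` which contain
the auxiliary prime (`2 ∣ N` if `q = 3`, `3 ∣ N` if `q = 2`). -/
def ModSSGoodStatement : Prop :=
  ∀ (P : ValuationSubring _root_.Fermat.Agent.A2.Qb) (E : IntermediateField ℚ _root_.Fermat.Agent.A2.Qb) (N q : ℕ),
    q.Prime → q ∣ N → ¬ q ^ 2 ∣ N → N ≠ 0 → (q = 3 → 2 ∣ N) → (q = 2 → 3 ∣ N) →
    P.LiesOverPrime q → GoodField P E → Nonempty (ModSSData P E N)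

/-- **D2, auxiliary-level descent** (norm trick; `[F_{aux} : F_N] ∈ {1, 3, 4}` is prime to `m`). -/
def D2Statement : Prop :=
  ∀ (N q m : ℕ), q.Prime → q ∣ N → ¬ q ^ 2 ∣ N → N ≠ 0 → 0 < m → ¬ q ∣ m →
    KummerTarget (auxLevel N q) q m → KummerTarget N q m

theorem auxLevel_ne_zero {N : ℕ} (q : ℕ) (hN : N ≠ 0) : auxLevel N q ≠ 0 := by
  unfold auxLevel
  split_ifs
  · exact Nat.lcm_ne_zero hN (by norm_num)
  · exact Nat.lcm_ne_zero hN (by norm_num)
  · exact hN

theorem dvd_auxLevel (N q : ℕ) : N ∣ auxLevel N q := by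
  unfold auxLevel
  split_ifs
  · exact Nat.dvd_lcm_left N 2
  · exact Nat.dvd_lcm_left N 3
  · exact dvd_rfl

theorem not_sq_dvd_lcm {N q a : ℕ} (hq : q.Prime) (ha : a.Prime) (hqa : q ≠ a)
    (hq2 : ¬ q ^ 2 ∣ N) : ¬ q ^ 2 ∣ Nat.lcm N a := by
  intro h
  have hdvd : Nat.lcm N a ∣ N * a := Nat.lcm_dvd_mul N a
  have h1 : q ^ 2 ∣ N * a := h.trans hdvd
  have hcop : Nat.Coprime (q ^ 2) a := by
    apply Nat.Coprime.pow_left
    exact (Nat.coprime_primes hq ha).2 hqa
  exact hq2 (hcop.dvd_of_dvd_mul_right h1)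

theorem not_sq_dvd_auxLevel {N q : ℕ} (hq : q.Prime) (hq2 : ¬ q ^ 2 ∣ N) :
    ¬ q ^ 2 ∣ auxLevel N q := by
  unfold auxLevel
  split_ifs with h3 h2
  · exact not_sq_dvd_lcm hq Nat.prime_two (by omega) hq2
  · exact not_sq_dvd_lcm hq Nat.prime_three (by omega) hq2
  · exact hq2

theorem aux_two_dvd {N q : ℕ} (h : q = 3) : 2 ∣ auxLevel N q := by
  unfold auxLevel
  rw [if_pos h]
  exact Nat.dvd_lcm_right N 2

theorem aux_three_dvd {N q : ℕ} (h : q = 2) : 3 ∣ auxLevel N q := by
  unfold auxLevel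
  rw [if_neg (by omega), if_pos h]
  exact Nat.dvd_lcm_right N 3

/-- **The Kummer form of the wall, all `q`.** -/
theorem kummerTarget_all (hALG : AlgSSStatement) (hIF : IFStatement)
    (hMOD : ModSSGoodStatement) (hD2 : D2Statement)
    (N q m : ℕ) (hq : q.Prime) (hqN : q ∣ N) (hq2 : ¬ q ^ 2 ∣ N) (hN : N ≠ 0) (hm : 0 < m)
    (hqm : ¬ q ∣ m) : KummerTarget N q m := by
  apply hD2 N q m hq hqN hq2 hN hm hqm
  apply t1_perN hALG hIF (auxLevel N q) q m hq hm hqm
  intro P E hP hE
  exact hMOD P E (auxLevel N q) q hq (hqN.trans (dvd_auxLevel N q))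
    (not_sq_dvd_auxLevel hq hq2) (auxLevel_ne_zero q hN) aux_two_dvd aux_three_dvd hP hE

/-- **The wall A2, all `q`**: unipotent inertia on `J₀(N)[m]` at every `q ‖ N`, `q ∤ m`. -/
theorem wall (hALG : AlgSSStatement) (hIF : IFStatement)
    (hMOD : ModSSGoodStatement) (hD2 : D2Statement)
    (N q m : ℕ) (hq : q.Prime) (hqN : q ∣ N) (hq2 : ¬ q ^ 2 ∣ N) (hN : N ≠ 0) (hm : 0 < m)
    (hqm : ¬ q ∣ m) : Target N q m :=
  Fermat.Agent.A2.T0.H669.target_of_kummerTarget N q m hm
    (kummerTarget_all hALG hIF hMOD hD2 N q m hq hqN hq2 hN hm hqm)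

end Fermat.Agent.A2.Top.H994

end

end
-- ===== PACK-END A2/Top/H994/Wall.lean

-- ===== PACK-BEGIN S37/H99/Glue.lean
section


/-!
# S37 (helper99): the frozen statement S37 from reduction data (R1, final glue)

`RedData N A ℓ hℓ` is the ONLY thing left to construct: an additive map `red` from
`JZero N = Pic⁰(ℚ̄(X₀(N)))` to an arbitrary additive group such that
* inertia at `A` acts trivially after `red`,
* Frobenius elements at `A` preserve `ker red`,
* `red` is injective on torsion of order prime to `ℓ`,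
* (Eichler–Shimura) `red (σ²x - T_ℓ σ x + ℓ x) = 0` for Frobenius elements `σ` at `A`.
No Hecke-module structure on the target is needed.
-/

set_option autoImplicit false

noncomputable section

namespace Fermat.Agent.S37.H99

open ModularCurve ValuationSubring

/-- Reduction data for `J₀(N)` at a valuation subring `A` of `ℚ̄` over the prime `ℓ`. -/
structure RedData (N : ℕ) [NeZero N] (A : ValuationSubring (AlgebraicClosure ℚ)) (ℓ : ℕ)
    (hℓ : ℓ.Prime) where
  /-- the target group (e.g. divisor classes on the special fibre) -/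
  Y : Type
  /-- additive group structure on the target -/
  instY : AddCommGroup Y
  /-- the reduction map -/
  red : JZero N →+ Y
  inertia : ∀ τ ∈ A.inertiaSubgroupIn ℚ, ∀ x : JZero N, red (τ • x) = red x
  frob_ker : ∀ σ : AlgebraicClosure ℚ ≃ₐ[ℚ] AlgebraicClosure ℚ, A.IsFrobeniusAt σ ℓ →
    ∀ x : JZero N, red x = 0 → red (σ • x) = 0
  inj_torsion : ∀ (m : ℕ) (x : JZero N), m.Coprime ℓ → m • x = 0 → red x = 0 → x = 0
  relation : ∀ σ : AlgebraicClosure ℚ ≃ₐ[ℚ] AlgebraicClosure ℚ, A.IsFrobeniusAt σ ℓ →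
    ∀ x : JZero N, red (σ • σ • x - heckeOperatorBar N ⟨ℓ, hℓ⟩ (σ • x) + ℓ • x) = 0

attribute [instance] RedData.instY

/-- **S37 from reduction data.**  Same binders and conclusion as the frozen statement, plus the
hypothesis `H`. -/
theorem result_of_redData (N p : ℕ) [NeZero N]
    (H : ∀ ℓ : ℕ, (hℓ : ℓ.Prime) → ¬ ℓ ∣ N →
      ∀ A : ValuationSubring (AlgebraicClosure ℚ), A.LiesOverPrime ℓ →
        Nonempty (RedData N A ℓ hℓ))
    (hcomm : ModularCurve.HeckeOperatorsCommuteBar N) :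
    letI := ModularCurve.heckeModuleBar N
    ∀ (_ : SMulCommClass (AlgebraicClosure ℚ ≃ₐ[ℚ] AlgebraicClosure ℚ) ModularCurve.HeckeAlg
      (ModularCurve.JZero N)),
      ModularCurve.SpecializationExists (K := ℚ) (L := AlgebraicClosure ℚ) N p
        (ModularCurve.JZero N) := by
  letI := ModularCurve.heckeModuleBar N
  intro _
  refine specializationExists_of_isRed N p (JZero N) ?_
  intro ℓ hℓ hdvd A hA
  have hℓN : ¬ ℓ ∣ N := fun h => hdvd (Dvd.dvd.mul_right h p)
  have hℓp : ¬ ℓ ∣ p := fun h => hdvd (Dvd.dvd.mul_left h N)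
  obtain ⟨D⟩ := H ℓ hℓ hℓN A hA
  refine ⟨D.Y, D.instY, D.red, ⟨D.inertia, D.frob_ker, ?_, ?_⟩⟩
  · rintro x ⟨n, hn⟩ hx
    refine D.inj_torsion (p ^ n) x ?_ hn hx
    exact Nat.Coprime.pow_left n ((Nat.coprime_comm.mp ((Nat.Prime.coprime_iff_not_dvd hℓ).mpr hℓp)))
  · intro σ hσ x
    have h := D.relation σ hσ x
    rwa [← heckeModuleBar_heckeGen_smul hcomm ⟨ℓ, hℓ⟩ (σ • x)] at h

end Fermat.Agent.S37.H99

end
end
-- ===== PACK-END S37/H99/Glue.lean

-- ===== PACK-BEGIN S29/H222/ESKInt.lean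
section
/-
S29 / helper222 — piece ESK, part 1: integral series (`S18.IsInt`) and the action of the
decomposition group of `A` on them.
-/


set_option autoImplicit false
set_option linter.style.haveILetI false

noncomputable section

namespace Fermat.Agent.S29.H222

open ModularCurve AlgebraicCurve HahnSeries IsLocalRing
open Fermat.Agent.S18 (Qb IsInt toF CoreStatement)

variable {A : ValuationSubring Qb} {N : ℕ}

/-! ### Basic algebra of integral series -/

theorem esk_coeffMap_subtype_injective :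
    Function.Injective (coeffMap A.subtype : LaurentSeries A → LaurentSeries Qb) := by
  intro x y hxy
  ext k
  have := congrArg (fun z => z.coeff k) hxy
  simpa using this

theorem isInt_one : IsInt A N (1 : LaurentSeries A) :=
  ⟨by rw [map_one]; exact one_mem _, by rw [map_one]; exact one_mem _,
    by rw [map_one]; exact one_ne_zero⟩

theorem isInt_mul {U V : LaurentSeries A} (hU : IsInt A N U) (hV : IsInt A N V) :
    IsInt A N (U * V) :=
  ⟨by rw [map_mul]; exact mul_mem hU.1 hV.1, by rw [map_mul]; exact mul_mem hU.2.1 hV.2.1,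
    by rw [map_mul]; exact mul_ne_zero hU.2.2 hV.2.2⟩

theorem isInt_pow {U : LaurentSeries A} (hU : IsInt A N U) (n : ℕ) : IsInt A N (U ^ n) :=
  ⟨by rw [map_pow]; exact pow_mem hU.1 n, by rw [map_pow]; exact pow_mem hU.2.1 n,
    by rw [map_pow]; exact pow_ne_zero n hU.2.2⟩

theorem toF_ne_zero {U : LaurentSeries A} (hU : IsInt A N U) : toF hU ≠ 0 := by
  intro h0
  have h1 : coeffMap A.subtype U = 0 := congrArg Subtype.val h0
  have h2 : U = 0 := esk_coeffMap_subtype_injective (by rw [h1, map_zero])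
  exact hU.2.2 (by rw [h2, map_zero])

@[simp] theorem coe_toF {U : LaurentSeries A} (hU : IsInt A N U) :
    ((toF hU : modularFunctionFieldBar N) : LaurentSeries Qb) = coeffMap A.subtype U := rfl

theorem toF_mul {U V : LaurentSeries A} (hU : IsInt A N U) (hV : IsInt A N V) :
    toF (isInt_mul hU hV) = toF hU * toF hV :=
  Subtype.ext (map_mul _ _ _)

theorem toF_pow {U : LaurentSeries A} (hU : IsInt A N U) (n : ℕ) :
    toF (isInt_pow hU n) = toF hU ^ n :=
  Subtype.ext (map_pow _ _ _)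

theorem toF_congr {U V : LaurentSeries A} (hU : IsInt A N U) (hV : IsInt A N V) (h : U = V) :
    toF hU = toF hV := by
  subst h; rfl

/-! ### Coefficientwise ring homomorphisms preserve the function field in characteristic `ℓ` -/

theorem coeffMap_mem_fullC {k : Type*} [Field k] (φ : k →+* k) {x : LaurentSeries k}
    (hx : x ∈ modularFunctionFieldFullC k N) :
    coeffMap φ x ∈ modularFunctionFieldFullC k N := by
  unfold modularFunctionFieldFullC at hx
  induction hx using IntermediateField.adjoin_induction with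
  | mem y hy =>
      obtain ⟨d, hne, hd, rfl⟩ := hy
      haveI := hne
      rw [coeffMap_qExpand, coeffMap_jqModC]
      exact jqModCd_mem_full k N hd
  | algebraMap c =>
      rw [coeffMap_algebraMap]
      exact (modularFunctionFieldFullC k N).algebraMap_mem _
  | add y z _ _ hy hz => rw [map_add]; exact add_mem hy hz
  | inv y _ hy => rw [map_inv₀]; exact inv_mem hy
  | mul y z _ _ hy hz => rw [map_mul]; exact mul_mem hy hz

theorem coeffMap_ne_zero_of_injective {R S : Type*} [CommRing R] [CommRing S] (φ : R →+* S)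
    (hφ : Function.Injective φ) {x : LaurentSeries R} (hx : x ≠ 0) : coeffMap φ x ≠ 0 := by
  intro h
  apply hx
  ext n
  have hn := congrArg (fun y : LaurentSeries S => y.coeff n) h
  simp only [coeffMap_coeff, HahnSeries.coeff_zero] at hn ⊢
  exact hφ (by rw [hn, map_zero])

/-! ### The decomposition group acts on integral series -/

/-- The ring endomorphism of `A` induced by an element of the decomposition group. -/
def decA (g : A.decompositionSubgroup ℚ) : A →+* A :=
  MulSemiringAction.toRingHom (A.decompositionSubgroup ℚ) A g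

@[simp] theorem coe_decA (g : A.decompositionSubgroup ℚ) (a : A) :
    ((decA g a : A) : Qb) = (g : Qb ≃ₐ[ℚ] Qb) (a : Qb) := rfl

/-- The ring endomorphism of the residue field induced by an element of the decomposition
group. -/
def decK (g : A.decompositionSubgroup ℚ) : ResidueField A →+* ResidueField A :=
  MulSemiringAction.toRingHom (A.decompositionSubgroup ℚ) (ResidueField A) g

theorem decK_residue (g : A.decompositionSubgroup ℚ) (a : A) :
    decK g (residue A a) = residue A (decA g a) := rfl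

theorem decK_injective (g : A.decompositionSubgroup ℚ) : Function.Injective (decK g) :=
  (decK g).injective

/-- The coefficientwise action of the decomposition group on `A((q))`. -/
def galA (g : A.decompositionSubgroup ℚ) : LaurentSeries A →+* LaurentSeries A :=
  coeffMap (decA g)

theorem coeffMap_subtype_galA (g : A.decompositionSubgroup ℚ) (U : LaurentSeries A) :
    coeffMap A.subtype (galA g U)
      = coeffMap (((g : Qb ≃ₐ[ℚ] Qb)) : Qb →+* Qb) (coeffMap A.subtype U) := by
  rw [galA, coeffMap_coeffMap, coeffMap_coeffMap]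
  exact coeffMap_congr (RingHom.ext fun a => rfl) U

theorem coeffMap_residue_galA (g : A.decompositionSubgroup ℚ) (U : LaurentSeries A) :
    coeffMap (residue A) (galA g U) = coeffMap (decK g) (coeffMap (residue A) U) := by
  rw [galA, coeffMap_coeffMap, coeffMap_coeffMap]
  exact coeffMap_congr (RingHom.ext fun a => rfl) U

theorem isInt_galA (g : A.decompositionSubgroup ℚ) {U : LaurentSeries A} (hU : IsInt A N U) :
    IsInt A N (galA g U) := by
  refine ⟨?_, ?_, ?_⟩
  · rw [coeffMap_subtype_galA]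
    exact coeffMap_mem_laurentBaseChange (g : Qb ≃ₐ[ℚ] Qb) hU.1
  · rw [coeffMap_residue_galA]
    exact coeffMap_mem_fullC _ hU.2.1
  · rw [coeffMap_residue_galA]
    exact coeffMap_ne_zero_of_injective _ (decK_injective g) hU.2.2

theorem toF_galA (g : A.decompositionSubgroup ℚ) {U : LaurentSeries A} (hU : IsInt A N U) :
    toF (isInt_galA g hU)
      = arithmeticGalois (modularFunctionFieldFull N) (g : Qb ≃ₐ[ℚ] Qb) • toF hU := by
  apply Subtype.ext
  rw [coe_arithmeticGalois_smul]
  exact coeffMap_subtype_galA g U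

end Fermat.Agent.S29.H222

end
end
-- ===== PACK-END S29/H222/ESKInt.lean

-- ===== PACK-BEGIN S29/H222/ESKDiv.lean
section
/-
S29 / helper222 — piece ESK, part 2: divisors of functions (`IsDivOf`), their behaviour under
products, powers and semilinear automorphisms, and the decomposition of a principal divisor as a
difference of divisors of INTEGRAL series (from the Prelude's `PrincipalGeneratedByIntegral`).
-/


set_option autoImplicit false
set_option linter.style.haveILetI false

noncomputable section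

namespace Fermat.Agent.S29.H222

open ModularCurve AlgebraicCurve HahnSeries IsLocalRing
open Fermat.Agent.S18 (Qb IsInt toF CoreStatement)

section Generic

variable {K F : Type*} [Field K] [Field F] [Algebra K F]

/-- `D` is the divisor of the function `f`. -/
def IsDivOf (f : F) (D : Divisor K F) : Prop := ∀ v : Place K F, D v = v.ord f

theorem IsDivOf.mul {f g : F} {D E : Divisor K F} (hf0 : f ≠ 0) (hg0 : g ≠ 0)
    (hf : IsDivOf f D) (hg : IsDivOf g E) : IsDivOf (f * g) (D + E) := fun v => by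
  rw [Finsupp.add_apply, hf v, hg v, v.ord_mul hf0 hg0]

theorem esk_ord_pow (v : Place K F) (f : F) (n : ℕ) : v.ord (f ^ n) = n * v.ord f := by
  have := v.ord_zpow f (n : ℤ)
  simpa using this

theorem IsDivOf.pow {f : F} {D : Divisor K F} (hf : IsDivOf f D) (n : ℕ) :
    IsDivOf (f ^ n) ((n : ℤ) • D) := fun v => by
  rw [Finsupp.smul_apply, hf v, esk_ord_pow, smul_eq_mul]

theorem IsDivOf.smul {f : F} {D : Divisor K F} (g : SemilinearAut K F) (hf : IsDivOf f D) :
    IsDivOf (g • f) (g • D) := fun w => by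
  rw [SemilinearAut.divisor_smul_apply, hf (g⁻¹ • w)]
  have h := SemilinearAut.ord_smul g (g⁻¹ • w) f
  rw [smul_inv_smul] at h
  exact h.symm

theorem esk_ord_algebraMap (v : Place K F) {c : K} (hc : c ≠ 0) :
    v.ord (algebraMap K F c) = 0 := by
  have h1 : algebraMap K F c ∈ v.toValuationSubring := v.algebraMap_mem' c
  have h2 : algebraMap K F c⁻¹ ∈ v.toValuationSubring := v.algebraMap_mem' c⁻¹
  let u : (v.toValuationSubring)ˣ :=
    { val := ⟨algebraMap K F c, h1⟩
      inv := ⟨algebraMap K F c⁻¹, h2⟩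
      val_inv := by
        apply Subtype.ext
        show algebraMap K F c * algebraMap K F c⁻¹ = 1
        rw [← map_mul, mul_inv_cancel₀ hc, map_one]
      inv_val := by
        apply Subtype.ext
        show algebraMap K F c⁻¹ * algebraMap K F c = 1
        rw [← map_mul, inv_mul_cancel₀ hc, map_one] }
  exact v.ord_coe_unit u

/-- **Kummer criterion**: if `V₁ = c · y ^ m · V₂` and `div V₁ - div V₂ = m • E` (`m ≠ 0`), then
`E` is the divisor of `y`; in particular `E` is principal. -/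
theorem isDivOf_of_eq_const_mul_pow {m : ℕ} (hm : m ≠ 0) {V₁ V₂ y : F} {c : K} (hc : c ≠ 0)
    (hy : y ≠ 0) (hV₂ : V₂ ≠ 0) (h : V₁ = algebraMap K F c * y ^ m * V₂)
    {E : Divisor K F} (hE : ∀ v : Place K F, (m : ℤ) * E v = v.ord V₁ - v.ord V₂) :
    IsDivOf y E := fun v => by
  have hc' : algebraMap K F c ≠ 0 := by
    simpa using hc
  have h1 : v.ord V₁ = (m : ℤ) * v.ord y + v.ord V₂ := by
    rw [h, v.ord_mul (mul_ne_zero hc' (pow_ne_zero m hy)) hV₂,
      v.ord_mul hc' (pow_ne_zero m hy), esk_ord_algebraMap v hc, esk_ord_pow, zero_add]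
  have h2 : (m : ℤ) * E v = (m : ℤ) * v.ord y := by rw [hE v, h1]; ring
  exact mul_left_cancel₀ (Int.natCast_ne_zero.mpr hm) h2

end Generic

variable {A : ValuationSubring Qb} {N : ℕ}

/-- A principal divisor is the difference of the divisors of two integral series. -/
theorem exists_isInt_of_principal
    (hpgi : PrincipalGeneratedByIntegral A (residue A) N)
    {D : Divisor Qb (modularFunctionFieldBar N)}
    (hD : D ∈ Divisor.principal (K := Qb) (F := modularFunctionFieldBar N)) :
    ∃ (U₁ U₂ : LaurentSeries A) (h₁ : IsInt A N U₁) (h₂ : IsInt A N U₂)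
      (D₁ D₂ : Divisor Qb (modularFunctionFieldBar N)),
      IsDivOf (toF h₁) D₁ ∧ IsDivOf (toF h₂) D₂ ∧ D = D₁ - D₂ := by
  have hD' := hpgi hD
  clear hD
  induction hD' using AddSubgroup.closure_induction with
  | mem E hE =>
      obtain ⟨y, hy, hyk, hne, hEy⟩ := hE
      refine ⟨y, 1, ⟨hy, hyk, hne⟩, isInt_one, E, 0, fun v => hEy v, fun v => ?_, by simp⟩
      have : toF (isInt_one (A := A) (N := N)) = 1 := Subtype.ext (map_one _)
      rw [this]
      simp
  | zero =>
      refine ⟨1, 1, isInt_one, isInt_one, 0, 0, fun v => ?_, fun v => ?_, by simp⟩ <;>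
      · have : toF (isInt_one (A := A) (N := N)) = 1 := Subtype.ext (map_one _)
        rw [this]
        simp
  | add E E' _ _ hE hE' =>
      obtain ⟨U₁, U₂, h₁, h₂, D₁, D₂, hd₁, hd₂, rfl⟩ := hE
      obtain ⟨U₁', U₂', h₁', h₂', D₁', D₂', hd₁', hd₂', rfl⟩ := hE'
      refine ⟨U₁ * U₁', U₂ * U₂', isInt_mul h₁ h₁', isInt_mul h₂ h₂', D₁ + D₁', D₂ + D₂',
        ?_, ?_, by abel⟩
      · rw [toF_mul h₁ h₁']
        exact hd₁.mul (toF_ne_zero h₁) (toF_ne_zero h₁') hd₁'
      · rw [toF_mul h₂ h₂']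
        exact hd₂.mul (toF_ne_zero h₂) (toF_ne_zero h₂') hd₂'
  | neg E _ hE =>
      obtain ⟨U₁, U₂, h₁, h₂, D₁, D₂, hd₁, hd₂, rfl⟩ := hE
      exact ⟨U₂, U₁, h₂, h₁, D₂, D₁, hd₂, hd₁, by abel⟩

end Fermat.Agent.S29.H222

end
end
-- ===== PACK-END S29/H222/ESKDiv.lean

-- ===== PACK-BEGIN S29/H222/ESKInertia.lean
section
/-
S29 / helper222 — piece ESK-U: inertia at `A` acts trivially on `J₀(N)(ℚ̄)[m]`, from
`S18.CoreStatement N A m` and the Prelude's `PrincipalGeneratedByIntegral`.

Proof: `x = [D]`, `m D = div U₁ - div U₂` (`U₁, U₂` integral).  For `τ` in the inertia group put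
`V₁ = τU₁ · U₂`, `V₂ = U₁ · τU₂`; they have the same reduction, and `div V₁ - div V₂ = m (τD - D)`.
CORE gives `V₁ = c y^m V₂`, hence `τD - D = div y`.
-/


set_option autoImplicit false
set_option linter.style.haveILetI false

noncomputable section

namespace Fermat.Agent.S29.H222

open ModularCurve AlgebraicCurve HahnSeries IsLocalRing
open Fermat.Agent.S18 (Qb IsInt toF CoreStatement)

variable {A : ValuationSubring Qb} {N : ℕ}

/-- `m`-torsion classes: `m • D` is principal. -/
theorem smul_mem_principal_of_torsion {m : ℕ}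
    (D : Divisor.degZero (K := Qb) (F := modularFunctionFieldBar N))
    (hx : (m : ℤ) • (Pic0.mk D : JZero N) = 0) :
    (m : ℤ) • (D : Divisor Qb (modularFunctionFieldBar N))
      ∈ Divisor.principal (K := Qb) (F := modularFunctionFieldBar N) := by
  have hx' : ((m : ℤ) • D : Divisor.degZero (K := Qb) (F := modularFunctionFieldBar N)) ∈
      (Divisor.principal (K := Qb) (F := modularFunctionFieldBar N)).addSubgroupOf
        (Divisor.degZero (K := Qb) (F := modularFunctionFieldBar N)) := by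
    have : Pic0.mk ((m : ℤ) • D) = 0 := hx
    exact (QuotientAddGroup.eq_zero_iff _).mp this
  rw [AddSubgroup.mem_addSubgroupOf] at hx'
  simpa using hx'

/-- Two classes are equal as soon as the difference of the divisors is the divisor of a
function. -/
theorem pic0_mk_eq_of_isDivOf
    (D D' : Divisor.degZero (K := Qb) (F := modularFunctionFieldBar N))
    {y : modularFunctionFieldBar N} (hy : y ≠ 0)
    (h : IsDivOf (K := Qb) y ((D' : Divisor Qb (modularFunctionFieldBar N))
      - (D : Divisor Qb (modularFunctionFieldBar N)))) :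
    (Pic0.mk D' : JZero N) = Pic0.mk D := by
  symm
  refine QuotientAddGroup.eq.mpr ?_
  rw [AddSubgroup.mem_addSubgroupOf]
  refine ⟨y, hy, fun v => ?_⟩
  have := h v
  rw [← this]
  simp [sub_eq_neg_add]

theorem decK_eq_self_of_mem_inertia {g : A.decompositionSubgroup ℚ}
    (hg : g ∈ A.inertiaSubgroup ℚ) (x : ResidueField A) : decK g x = x := by
  have h1 := MonoidHom.mem_ker.mp hg
  exact congrArg (fun e : RingAut (ResidueField A) => e x) h1

theorem coeffMap_decK_of_mem_inertia {g : A.decompositionSubgroup ℚ}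
    (hg : g ∈ A.inertiaSubgroup ℚ) (x : LaurentSeries (ResidueField A)) :
    coeffMap (decK g) x = x := by
  ext n
  rw [coeffMap_coeff, decK_eq_self_of_mem_inertia hg]

/-- **ESK-U.** -/
theorem esk_inertia : ESKInertiaStatement := by
  intro N _ m hm A hcore hpgi τ hτ x hx
  obtain ⟨g, hg, rfl⟩ := hτ
  obtain ⟨D, rfl⟩ := Pic0.mk_surjective x
  obtain ⟨U₁, U₂, h₁, h₂, D₁, D₂, hd₁, hd₂, hDD⟩ :=
    exists_isInt_of_principal hpgi (smul_mem_principal_of_torsion D hx)
  set G := arithmeticGalois (modularFunctionFieldFull N)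
    (((A.decompositionSubgroup ℚ).subtype g : Qb ≃ₐ[ℚ] Qb)) with hG
  have hV₁ : IsInt A N (galA g U₁ * U₂) := isInt_mul (isInt_galA g h₁) h₂
  have hV₂ : IsInt A N (U₁ * galA g U₂) := isInt_mul h₁ (isInt_galA g h₂)
  have hred : coeffMap (residue A) (galA g U₁ * U₂) = coeffMap (residue A) (U₁ * galA g U₂) := by
    rw [map_mul, map_mul, coeffMap_residue_galA, coeffMap_residue_galA,
      coeffMap_decK_of_mem_inertia hg, coeffMap_decK_of_mem_inertia hg]
  have hgd₁ : IsDivOf (toF (isInt_galA g h₁)) (G • D₁) := by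
    rw [toF_galA]; exact hd₁.smul G
  have hgd₂ : IsDivOf (toF (isInt_galA g h₂)) (G • D₂) := by
    rw [toF_galA]; exact hd₂.smul G
  have hdV₁ : IsDivOf (toF hV₁) (G • D₁ + D₂) := by
    rw [toF_mul (isInt_galA g h₁) h₂]
    exact hgd₁.mul (toF_ne_zero _) (toF_ne_zero _) hd₂
  have hdV₂ : IsDivOf (toF hV₂) (D₁ + G • D₂) := by
    rw [toF_mul h₁ (isInt_galA g h₂)]
    exact hd₁.mul (toF_ne_zero _) (toF_ne_zero _) hgd₂
  have hkey : ∀ v : Place Qb (modularFunctionFieldBar N),
      (m : ℤ) * (G • (D : Divisor Qb (modularFunctionFieldBar N)) - D) v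
        = v.ord (toF hV₁) - v.ord (toF hV₂) := by
    intro v
    rw [← hdV₁ v, ← hdV₂ v]
    have e1 : ((m : ℤ) • (D : Divisor Qb (modularFunctionFieldBar N))) v = D₁ v - D₂ v := by
      rw [hDD, Finsupp.sub_apply]
    have e2 : ((m : ℤ) • (D : Divisor Qb (modularFunctionFieldBar N))) (G⁻¹ • v)
        = D₁ (G⁻¹ • v) - D₂ (G⁻¹ • v) := by
      rw [hDD, Finsupp.sub_apply]
    rw [Finsupp.smul_apply, smul_eq_mul] at e1 e2
    simp only [Finsupp.sub_apply, Finsupp.add_apply, SemilinearAut.divisor_smul_apply]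
    linear_combination e2 - e1
  have hord : ∀ v : Place Qb (modularFunctionFieldBar N),
      (m : ℤ) ∣ v.ord (toF hV₁) - v.ord (toF hV₂) := fun v => ⟨_, (hkey v).symm⟩
  obtain ⟨c, y, hc, hy, hcy⟩ := hcore _ _ hV₁ hV₂ hred hord
  have hE := isDivOf_of_eq_const_mul_pow hm hc hy (toF_ne_zero hV₂) hcy hkey
  show (((A.decompositionSubgroup ℚ).subtype g : Qb ≃ₐ[ℚ] Qb)) • (Pic0.mk D : JZero N) = Pic0.mk D
  rw [galois_smul_pic0_def, SemilinearAut.pic0_smul_mk]
  exact pic0_mk_eq_of_isDivOf D _ hy hE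

end Fermat.Agent.S29.H222

end
end
-- ===== PACK-END S29/H222/ESKInertia.lean

-- ===== PACK-BEGIN S37/H700/GaussMain.lean
section


/-!
# S37 / piece GAUSS (helper700): consequences of `S28.CoreData N k`

`A ⊆ Q̄` a valuation subring, `k = A/𝔪`, `F̄_N = Q̄(j(q^d) : d ∣ N) ⊆ Q̄((q))`,
`F_k = k(j(q^d) : d ∣ N) ⊆ k((q))`.  From `CoreData N k` (output of row S28):

* `normal_form`     : for `u ∈ A((q)) ∩ F̄_N` there are `Q, Pᵢ ∈ A[X]` with
  `Q(j)·u = ∑ Pᵢ(j)·yᵢ` in `A((q))` and `Q mod 𝔪 ≠ 0`;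
* `reduction_mem`   : (G1) the coefficientwise reduction of `u` lies in `F_k`;
* `pgi`             : (G2) `PrincipalGeneratedByIntegral A (residue A) N`.
-/

set_option autoImplicit false

noncomputable section

namespace Fermat.Agent.S37.H700

open ModularCurve HahnSeries Polynomial AlgebraicCurve
open Fermat.Agent.S28 (jField intDivisorExpansions CoreData)

/-- The field `Q̄`. -/
abbrev Qb : Type := AlgebraicClosure ℚ

section Main

variable (N : ℕ) [NeZero N] (A : ValuationSubring Qb)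

/-- Reductions of the integral monomials are linearly independent over `k(j)`: pointwise form. -/
theorem eq_zero_of_sum_evalJ_eq_zero {K : Type*} [Field K] {n : ℕ} (yK : Fin n → LaurentSeries K)
    (hind : LinearIndependent (jField K) yK) (P : Fin n → K[X])
    (h : ∑ i, evalJ K (P i) * yK i = 0) : ∀ i, P i = 0 := by
  intro i
  have h' : ∑ i, (⟨evalJ K (P i), evalJ_mem_jField K (P i)⟩ : jField K) • yK i = 0 := by
    simpa only [smul_jField_def] using h
  have := Fintype.linearIndependent_iff.mp hind _ h' i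
  exact (evalJ_eq_zero_iff K).mp (congrArg Subtype.val this)

theorem evalJ_C {R : Type*} [CommRing R] (c : R) :
    evalJ R (Polynomial.C c) = HahnSeries.C c := by
  unfold evalJ
  rw [Polynomial.eval₂_C]

variable {N A}

omit [NeZero N] in
/-- **Normal form** of a Gauss-integral element of `F̄_N`. -/
theorem normal_form {n : ℕ} (y : Fin n → LaurentSeries ℤ)
    (hy_mem : ∀ i, y i ∈ Subring.closure (intDivisorExpansions N))
    (hy_span : ∀ x ∈ modularFunctionFieldFull N,
      x ∈ Submodule.span (jField ℚ) (Set.range fun i => coeffMap (Int.castRingHom ℚ) (y i)))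
    (hy_ind : LinearIndependent (jField (IsLocalRing.ResidueField A))
      (fun i => coeffMap (Int.castRingHom (IsLocalRing.ResidueField A)) (y i)))
    (u : LaurentSeries A) (hu : coeffMap A.subtype u ∈ modularFunctionFieldBar N) :
    ∃ (Q : Polynomial A) (P : Fin n → Polynomial A),
      evalJ A Q * u = ∑ i, evalJ A (P i) * coeffMap (Int.castRingHom A) (y i) ∧
      Q.map (IsLocalRing.residue A) ≠ 0 := by
  classical
  obtain ⟨Q₀, P₀, hQ₀, h₀⟩ := exists_denominator Qb y
    (mem_spanL_of_mem_baseChange Qb y N hy_mem hy_span hu)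
  -- normalise the family `Q₀, P₀ i`
  obtain ⟨c, hc, P', hP', i₀, hi₀⟩ := normalize_family A
    (fun o : Option (Fin n) => o.elim Q₀ P₀) ⟨none, hQ₀⟩
  have hQ' : (P' none).map A.subtype = Polynomial.C c * Q₀ := hP' none
  have hPi : ∀ i, (P' (some i)).map A.subtype = Polynomial.C c * P₀ i := fun i => hP' (some i)
  have hid : evalJ A (P' none) * u =
      ∑ i, evalJ A (P' (some i)) * coeffMap (Int.castRingHom A) (y i) := by
    apply coeffMap_injective A.subtype_injective
    rw [map_mul, map_sum, coeffMap_evalJ, hQ', evalJ_mul, mul_assoc, h₀, Finset.mul_sum]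
    refine Finset.sum_congr rfl fun i _ => ?_
    rw [map_mul, coeffMap_evalJ, hPi, evalJ_mul, coeffMap_coeffMap, mul_assoc]
    congr 2
  refine ⟨P' none, fun i => P' (some i), hid, fun hzero => ?_⟩
  -- if `Q` reduces to zero, linear independence kills all `P i`, contradiction
  have hred := congrArg (coeffMap (IsLocalRing.residue A)) hid
  rw [map_mul, map_sum, coeffMap_evalJ, hzero, evalJ_zero, zero_mul] at hred
  have hred' : ∑ i, evalJ (IsLocalRing.ResidueField A) ((P' (some i)).map (IsLocalRing.residue A)) *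
      coeffMap (Int.castRingHom (IsLocalRing.ResidueField A)) (y i) = 0 := by
    rw [hred]
    refine Finset.sum_congr rfl fun i _ => ?_
    rw [map_mul, coeffMap_evalJ, coeffMap_coeffMap]
    congr 1
  have hall := eq_zero_of_sum_evalJ_eq_zero _ hy_ind _ hred'
  rcases i₀ with _ | i
  · exact hi₀ hzero
  · exact hi₀ (hall i)

/-- **(G1)** The coefficientwise reduction of a Gauss-integral element of `F̄_N` lies in
`F_k = k(j(q^d) : d ∣ N)`. -/
theorem reduction_mem (hcore : CoreData N (IsLocalRing.ResidueField A))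
    (u : LaurentSeries A) (hu : coeffMap A.subtype u ∈ modularFunctionFieldBar N) :
    coeffMap (IsLocalRing.residue A) u ∈
      modularFunctionFieldFullC (IsLocalRing.ResidueField A) N := by
  obtain ⟨n, y, hy_mem, hy_span, hy_ind⟩ := hcore.exists_basis
  obtain ⟨Q, P, hid, hQ⟩ := normal_form y hy_mem hy_span hy_ind u hu
  have hred := congrArg (coeffMap (IsLocalRing.residue A)) hid
  rw [map_mul, map_sum, coeffMap_evalJ] at hred
  have hQ0 : evalJ (IsLocalRing.ResidueField A) (Q.map (IsLocalRing.residue A)) ≠ 0 :=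
    fun h => hQ ((evalJ_eq_zero_iff _).mp h)
  have hjF : jField (IsLocalRing.ResidueField A) ≤
      modularFunctionFieldFullC (IsLocalRing.ResidueField A) N := by
    rw [jField, IntermediateField.adjoin_le_iff]
    rintro x rfl
    exact jqModC_mem_full _ N
  have hmem : ∀ R : Polynomial (IsLocalRing.ResidueField A),
      evalJ (IsLocalRing.ResidueField A) R ∈
        modularFunctionFieldFullC (IsLocalRing.ResidueField A) N :=
    fun R => hjF (evalJ_mem_jField _ R)
  have : coeffMap (IsLocalRing.residue A) u =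
      (evalJ (IsLocalRing.ResidueField A) (Q.map (IsLocalRing.residue A)))⁻¹ *
        ∑ i, coeffMap (IsLocalRing.residue A)
          (evalJ A (P i) * coeffMap (Int.castRingHom A) (y i)) := by
    rw [← hred, ← mul_assoc, inv_mul_cancel₀ hQ0, one_mul]
  rw [this]
  refine mul_mem (inv_mem (hmem _)) (sum_mem fun i _ => ?_)
  rw [map_mul, coeffMap_evalJ, coeffMap_coeffMap]
  refine mul_mem (hmem _) ?_
  have := coeffMap_intCast_mem_fullC (IsLocalRing.ResidueField A) N (hy_mem i)
  rwa [coeffMap_congr (RingHom.ext_int _ (Int.castRingHom (IsLocalRing.ResidueField A))) (y i)]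


/-- Constants have order zero at every place. -/
theorem ord_algebraMap_eq_zero {K F : Type*} [Field K] [Field F] [Algebra K F]
    (v : Place K F) {c : K} (hc : c ≠ 0) : v.ord (algebraMap K F c) = 0 := by
  have h1 : (⟨algebraMap K F c, v.algebraMap_mem' c⟩ : v.toValuationSubring) *
      ⟨algebraMap K F c⁻¹, v.algebraMap_mem' c⁻¹⟩ = 1 := by
    apply Subtype.ext
    show algebraMap K F c * algebraMap K F c⁻¹ = 1
    rw [← map_mul, mul_inv_cancel₀ hc, map_one]
  have h2 : (⟨algebraMap K F c⁻¹, v.algebraMap_mem' c⁻¹⟩ : v.toValuationSubring) *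
      ⟨algebraMap K F c, v.algebraMap_mem' c⟩ = 1 := by
    rw [mul_comm]; exact h1
  exact v.ord_coe_unit ⟨_, _, h1, h2⟩

omit [NeZero N] in
theorem jField_le_bar : jField Qb ≤ modularFunctionFieldBar N := by
  rw [jField, IntermediateField.adjoin_le_iff]
  rintro x rfl
  have h1 : jqModC ℚ ∈ modularFunctionFieldFull N := by
    rw [← modularFunctionFieldFullC_rat]; exact jqModC_mem_full ℚ N
  have := coeffEmb_mem_laurentBaseChange Qb h1
  rwa [coeffEmb, coeffMap_jqModC] at this

omit [NeZero N] in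
theorem C_mem_bar (c : Qb) : (HahnSeries.C c : LaurentSeries Qb) ∈ modularFunctionFieldBar N := by
  have := (modularFunctionFieldBar N).algebraMap_mem c
  rwa [algebraMap_laurentSeries_eq_single] at this

/-- **(G2)** PGI: every principal divisor of `F̄_N` is a difference of two divisors of
Gauss-integral functions with nonzero reduction in `F_k`. -/
theorem pgi (hcore : CoreData N (IsLocalRing.ResidueField A))
    [HasPrincipalDivisors Qb (modularFunctionFieldBar N)] :
    PrincipalGeneratedByIntegral A (IsLocalRing.residue A) N := by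
  classical
  obtain ⟨n, y, hy_mem, hy_span, hy_ind⟩ := hcore.exists_basis
  intro D hD
  obtain ⟨f, hf0, hDf⟩ := hD
  have hfU : (f : LaurentSeries Qb) ≠ 0 := fun h => hf0 (Subtype.ext h)
  obtain ⟨Q₀, P₀, hQ₀, h₀⟩ := exists_denominator Qb y
    (mem_spanL_of_mem_baseChange Qb y N hy_mem hy_span f.2)
  have hQ₀e : evalJ Qb Q₀ ≠ 0 := fun h => hQ₀ ((evalJ_eq_zero_iff Qb).mp h)
  have hP₀ : ∃ i, P₀ i ≠ 0 := by
    by_contra hcon
    push Not at hcon
    have : evalJ Qb Q₀ * (f : LaurentSeries Qb) = 0 := by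
      rw [h₀]
      exact Finset.sum_eq_zero fun i _ => by rw [hcon i, evalJ_zero, zero_mul]
    exact (mul_ne_zero hQ₀e hfU) this
  -- normalise `Q₀` and the `P₀ i` separately
  obtain ⟨cQ, hcQ, Q', hQ', u₀, hQ'red⟩ := normalize_family A (fun _ : Unit => Q₀) ⟨(), hQ₀⟩
  obtain ⟨cP, hcP, P', hP', i₀, hi₀⟩ := normalize_family A P₀ hP₀
  set b : LaurentSeries A := evalJ A (Q' ()) with hb
  set a : LaurentSeries A := ∑ i, evalJ A (P' i) * coeffMap (Int.castRingHom A) (y i) with ha
  have hbL : coeffMap A.subtype b = HahnSeries.C cQ * evalJ Qb Q₀ := by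
    rw [hb, coeffMap_evalJ, hQ' (), evalJ_mul, evalJ_C]
  have haL : coeffMap A.subtype a = HahnSeries.C cP * (evalJ Qb Q₀ * (f : LaurentSeries Qb)) := by
    rw [ha, map_sum, h₀, Finset.mul_sum]
    refine Finset.sum_congr rfl fun i _ => ?_
    rw [map_mul, coeffMap_evalJ, hP' i, evalJ_mul, evalJ_C, coeffMap_coeffMap, mul_assoc]
    congr 2
  have hQmem : evalJ Qb Q₀ ∈ modularFunctionFieldBar N := jField_le_bar (evalJ_mem_jField Qb Q₀)
  have hbmem : coeffMap A.subtype b ∈ modularFunctionFieldBar N := by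
    rw [hbL]; exact mul_mem (C_mem_bar cQ) hQmem
  have hamem : coeffMap A.subtype a ∈ modularFunctionFieldBar N := by
    rw [haL]; exact mul_mem (C_mem_bar cP) (mul_mem hQmem f.2)
  -- reductions
  have hbred : coeffMap (IsLocalRing.residue A) b ≠ 0 := by
    rw [hb, coeffMap_evalJ]
    exact fun h => hQ'red ((evalJ_eq_zero_iff _).mp h)
  have hared : coeffMap (IsLocalRing.residue A) a ≠ 0 := by
    intro h
    rw [ha, map_sum] at h
    have h' : ∑ i, evalJ (IsLocalRing.ResidueField A) ((P' i).map (IsLocalRing.residue A)) *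
        coeffMap (Int.castRingHom (IsLocalRing.ResidueField A)) (y i) = 0 := by
      rw [← h]
      refine Finset.sum_congr rfl fun i _ => ?_
      rw [map_mul, coeffMap_evalJ, coeffMap_coeffMap]
      congr 1
    exact hi₀ (eq_zero_of_sum_evalJ_eq_zero _ hy_ind _ h' i₀)
  -- the elements of `F̄_N`
  set aF : modularFunctionFieldBar N := ⟨coeffMap A.subtype a, hamem⟩ with haF
  set bF : modularFunctionFieldBar N := ⟨coeffMap A.subtype b, hbmem⟩ with hbF
  set qF : modularFunctionFieldBar N := ⟨evalJ Qb Q₀, hQmem⟩ with hqF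
  have hqF0 : qF ≠ 0 := fun h => hQ₀e (congrArg Subtype.val h)
  have haF_eq : aF = algebraMap Qb (modularFunctionFieldBar N) cP * (qF * f) := by
    apply Subtype.ext
    show coeffMap A.subtype a = algebraMap Qb (LaurentSeries Qb) cP * (evalJ Qb Q₀ * f)
    rw [haL, algebraMap_laurentSeries_eq_single]; rfl
  have hbF_eq : bF = algebraMap Qb (modularFunctionFieldBar N) cQ * qF := by
    apply Subtype.ext
    show coeffMap A.subtype b = algebraMap Qb (LaurentSeries Qb) cQ * evalJ Qb Q₀
    rw [hbL, algebraMap_laurentSeries_eq_single]; rfl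
  have hord : ∀ v : Place Qb (modularFunctionFieldBar N), v.ord f = v.ord aF - v.ord bF := by
    intro v
    have hcP' : algebraMap Qb (modularFunctionFieldBar N) cP ≠ 0 :=
      (_root_.map_ne_zero _).mpr hcP
    have hcQ' : algebraMap Qb (modularFunctionFieldBar N) cQ ≠ 0 :=
      (_root_.map_ne_zero _).mpr hcQ
    rw [haF_eq, hbF_eq, v.ord_mul hcP' (mul_ne_zero hqF0 hf0), v.ord_mul hqF0 hf0,
      v.ord_mul hcQ' hqF0, ord_algebraMap_eq_zero v hcP, ord_algebraMap_eq_zero v hcQ]
    ring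
  obtain ⟨Ea, hEa, -⟩ := HasPrincipalDivisors.exists_divisor (K := Qb) aF
    (fun h => hared (by
      have : coeffMap A.subtype a = 0 := congrArg Subtype.val h
      rw [(coeffMap_injective A.subtype_injective) (this.trans (map_zero _).symm), map_zero]))
  obtain ⟨Eb, hEb, -⟩ := HasPrincipalDivisors.exists_divisor (K := Qb) bF
    (fun h => hbred (by
      have : coeffMap A.subtype b = 0 := congrArg Subtype.val h
      rw [(coeffMap_injective A.subtype_injective) (this.trans (map_zero _).symm), map_zero]))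
  have hDeq : D = Ea - Eb := by
    ext v
    rw [Finsupp.sub_apply, hDf v, hEa v, hEb v, hord v]
  rw [hDeq]
  refine AddSubgroup.sub_mem _ (AddSubgroup.subset_closure ?_) (AddSubgroup.subset_closure ?_)
  · exact ⟨a, hamem, reduction_mem hcore a hamem, hared, hEa⟩
  · exact ⟨b, hbmem, reduction_mem hcore b hbmem, hbred, hEb⟩

end Main

end Fermat.Agent.S37.H700

end
end
-- ===== PACK-END S37/H700/GaussMain.lean

-- ===== PACK-BEGIN Lib/Haupt/Sturm.lean
section



/-!
# The four formal modular identities, via the Sturm bound (helper637)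
-/

set_option autoImplicit false

open UpperHalfPlane ModularForm CongruenceSubgroup MatrixGroups
open Matrix.SpecialLinearGroup Filter Topology
open scoped Manifold

noncomputable section

namespace Fermat.Agent.Lib.Haupt

/-- Crude bound for the index of `Γ₀(N)`. -/
theorem index_Gamma0_le (N : ℕ) [NeZero N] : (Gamma0 N).index ≤ N ^ 2 := by
  classical
  let f : SL(2, ℤ) ⧸ Gamma0 N → ZMod N × ZMod N :=
    fun q => (((q.out 0 0 : ℤ) : ZMod N), ((q.out 1 0 : ℤ) : ZMod N))
  have hf : Function.Injective f := by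
    intro x y hxy
    rw [← QuotientGroup.out_eq' x, ← QuotientGroup.out_eq' y]
    rw [QuotientGroup.eq]
    rw [CongruenceSubgroup.Gamma0_mem]
    simp only [f, Prod.mk.injEq] at hxy
    obtain ⟨h0, h1⟩ := hxy
    set A := x.out with hA
    set B := y.out with hB
    have hAinv : (A⁻¹ * B) 1 0 = - A 1 0 * B 0 0 + A 0 0 * B 1 0 := by
      rw [Matrix.SpecialLinearGroup.coe_mul, Matrix.SpecialLinearGroup.coe_inv,
        Matrix.adjugate_fin_two, Matrix.mul_apply]
      simp [Fin.sum_univ_two]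
    rw [hAinv]
    push_cast
    rw [h0, h1]
    ring
  have := Nat.card_le_card_of_injective f hf
  have hcard : Nat.card (ZMod N × ZMod N) = N ^ 2 := by
    rw [Nat.card_prod, Nat.card_zmod, sq]
  rw [hcard] at this
  exact this

theorem sturm_G0 (N : ℕ) [NeZero N] {k : ℤ} (f : ModularForm (G0 N) k) (B : ℕ)
    (hB : (k * (N : ℤ) ^ 2).toNat / 12 ≤ B)
    (h : ∀ n : ℕ, n ≤ B → (qExpansion 1 f).coeff n = 0) : f = 0 := by
  refine ModularForm.sturm_bound_Gamma0 N f (fun n hn => h n (le_trans hn (le_trans ?_ hB)))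
  apply Nat.div_le_div_right
  have hidx : ((Gamma0 N).index : ℤ) ≤ (N : ℤ) ^ 2 := by exact_mod_cast index_Gamma0_le N
  by_cases hk : 0 ≤ k
  · exact Int.toNat_le_toNat (mul_le_mul_of_nonneg_left hidx hk)
  · have hneg : k * ((Gamma0 N).index : ℤ) ≤ 0 :=
      mul_nonpos_of_nonpos_of_nonneg (le_of_lt (not_le.mp hk)) (Int.natCast_nonneg _)
    rw [Int.toNat_of_nonpos hneg]
    exact Nat.zero_le _

/-- Injectivity of the coefficient map `ℤ⟦X⟧ → ℂ⟦X⟧`. -/
theorem map_intCast_injective :
    Function.Injective (PowerSeries.map (Int.castRingHom ℂ)) := by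
  intro f g h
  ext n
  have := congrArg (PowerSeries.coeff n) h
  rw [PowerSeries.coeff_map, PowerSeries.coeff_map, eq_intCast, eq_intCast] at this
  exact_mod_cast this

/-! ### The forms -/

/-- `E₄` on `Γ₀(d)`. -/
abbrev eR (d : ℕ) : ModularForm (G0 d) ((4 : ℕ) : ℤ) := res d E₄
/-- `Δ` on `Γ₀(d)`. -/
abbrev dR (d : ℕ) : ModularForm (G0 d) 12 := res d DeltaMF
/-- `E₄(dτ)` on `Γ₀(d)`. -/
abbrev eL (d : ℕ) [NeZero d] : ModularForm (G0 d) ((4 : ℕ) : ℤ) := lev d E₄
/-- `Δ(dτ)` on `Γ₀(d)`. -/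
abbrev dL (d : ℕ) [NeZero d] : ModularForm (G0 d) 12 := lev d DeltaMF

theorem qExpansion_eR (d : ℕ) :
    qExpansion 1 (eR d) = E4Z.map (Int.castRingHom ℂ) := qExpansion_E4

theorem qExpansion_dR (d : ℕ) :
    qExpansion 1 (dR d) = DeltaZ.map (Int.castRingHom ℂ) := qExpansion_DeltaMF

theorem qExpansion_eL (d : ℕ) [NeZero d] :
    qExpansion 1 (eL d) = (ex d E4Z).map (Int.castRingHom ℂ) := by
  rw [eL, qExpansion_lev, qExpansion_E4, PowerSeries.map_expand]

theorem qExpansion_dL (d : ℕ) [NeZero d] :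
    qExpansion 1 (dL d) = (ex d DeltaZ).map (Int.castRingHom ℂ) := by
  rw [dL, qExpansion_lev, qExpansion_DeltaMF, PowerSeries.map_expand]

section qE

variable {d : ℕ} {k k' : ℤ}

theorem qE_add (f g : ModularForm (G0 d) k) :
    qExpansion 1 ((f + g : ModularForm (G0 d) k) : ℍ → ℂ) = qExpansion 1 f + qExpansion 1 g :=
  ModularForm.qExpansion_add one_pos (one_mem_strictPeriods_G0 d) f g

theorem qE_sub (f g : ModularForm (G0 d) k) :
    qExpansion 1 ((f - g : ModularForm (G0 d) k) : ℍ → ℂ) = qExpansion 1 f - qExpansion 1 g :=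
  ModularForm.qExpansion_sub one_pos (one_mem_strictPeriods_G0 d) f g

theorem qE_smul (c : ℂ) (f : ModularForm (G0 d) k) :
    qExpansion 1 ((c • f : ModularForm (G0 d) k) : ℍ → ℂ)
      = PowerSeries.C c * qExpansion 1 f := by
  rw [← PowerSeries.smul_eq_C_mul]
  exact ModularForm.qExpansion_smul one_pos (one_mem_strictPeriods_G0 d) c f

theorem qE_mul (f : ModularForm (G0 d) k) (g : ModularForm (G0 d) k') :
    qExpansion 1 (f.mul g) = qExpansion 1 f * qExpansion 1 g :=
  ModularForm.qExpansion_mul one_pos (one_mem_strictPeriods_G0 d) f g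

theorem qE_pow (f : ModularForm (G0 d) k) (n : ℕ) :
    qExpansion 1 (f.pow n) = qExpansion 1 f ^ n :=
  ModularForm.qExpansion_pow one_pos (one_mem_strictPeriods_G0 d) f n

theorem qE_mcast (h : k = k') (f : ModularForm (G0 d) k) :
    qExpansion 1 (mcast h f : ModularForm (G0 d) k') = qExpansion 1 f := rfl

end qE

/-- `E₄³ Δ Δ₂ - (Δ + 256 Δ₂)³` as a modular form of weight 36 on `Γ₀(2)`. -/
def F1 : ModularForm (G0 2) 36 :=
  mcast (by norm_num) (((eR 2).pow 3).mul ((dR 2).mul (dL 2)))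
    - mcast (by norm_num) ((dR 2 + (256 : ℂ) • dL 2).pow 3)

theorem qExpansion_F1 : qExpansion 1 F1 = Phi1.map (Int.castRingHom ℂ) := by
  rw [F1, qE_sub, qE_mcast, qE_mcast, qE_mul, qE_pow, qE_mul, qE_pow, qE_add, qE_smul,
    qExpansion_eR, qExpansion_dR, qExpansion_dL, Phi1]
  simp only [map_sub, map_mul, map_pow, map_add, PowerSeries.map_C]
  simp

theorem F1_eq_zero : F1 = 0 := by
  refine sturm_G0 2 F1 12 (by decide) (fun n hn => ?_)
  rw [qExpansion_F1, PowerSeries.coeff_map, coeff_Phi1 (by omega), map_zero]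

theorem Phi1_eq_zero : Phi1 = 0 := by
  apply map_intCast_injective
  rw [← qExpansion_F1, F1_eq_zero, map_zero]
  exact qExpansion_zero 1

/-- `E₄(2τ)³ Δ Δ₂ - (Δ + 16 Δ₂)³` as a modular form of weight 36 on `Γ₀(2)`. -/
def F2 : ModularForm (G0 2) 36 :=
  mcast (by norm_num) (((eL 2).pow 3).mul ((dR 2).mul (dL 2)))
    - mcast (by norm_num) ((dR 2 + (16 : ℂ) • dL 2).pow 3)

theorem qExpansion_F2 : qExpansion 1 F2 = Phi2.map (Int.castRingHom ℂ) := by
  rw [F2, qE_sub, qE_mcast, qE_mcast, qE_mul, qE_pow, qE_mul, qE_pow, qE_add, qE_smul,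
    qExpansion_eL, qExpansion_dR, qExpansion_dL, Phi2]
  simp only [map_sub, map_mul, map_pow, map_add, PowerSeries.map_C]
  simp

theorem F2_eq_zero : F2 = 0 := by
  refine sturm_G0 2 F2 12 (by decide) (fun n hn => ?_)
  rw [qExpansion_F2, PowerSeries.coeff_map, coeff_Phi2 (by omega), map_zero]

theorem Phi2_eq_zero : Phi2 = 0 := by
  apply map_intCast_injective
  rw [← qExpansion_F2, F2_eq_zero, map_zero]
  exact qExpansion_zero 1

/-- `Δ Δ₃ (E₄³ - 756 Δ - 19131876 Δ₃)² - (Δ² + 196830 Δ Δ₃ + 387420489 Δ₃²)²`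
as a modular form of weight 48 on `Γ₀(3)`. -/
def F3 : ModularForm (G0 3) 48 :=
  mcast (by norm_num) (((dR 3).mul (dL 3)).mul
      ((mcast (by norm_num) ((eR 3).pow 3) - ((756 : ℂ) • dR 3 + (19131876 : ℂ) • dL 3)
        : ModularForm (G0 3) 12).pow 2))
    - mcast (by norm_num)
      ((mcast (by norm_num) ((dR 3).pow 2) + ((196830 : ℂ) • mcast (by norm_num) ((dR 3).mul (dL 3))
        + (387420489 : ℂ) • mcast (by norm_num) ((dL 3).pow 2)) : ModularForm (G0 3) 24).pow 2)

theorem qExpansion_F3 : qExpansion 1 F3 = Phi3.map (Int.castRingHom ℂ) := by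
  rw [F3, qE_sub, qE_mcast, qE_mcast, qE_mul, qE_mul, qE_pow, qE_sub, qE_mcast, qE_pow, qE_add,
    qE_smul, qE_smul, qE_pow, qE_add, qE_mcast, qE_pow, qE_add, qE_smul, qE_smul, qE_mcast,
    qE_mcast, qE_mul, qE_pow,
    qExpansion_eR, qExpansion_dR, qExpansion_dL, Phi3]
  simp only [map_sub, map_mul, map_pow, map_add, PowerSeries.map_C]
  simp

theorem F3_eq_zero : F3 = 0 := by
  refine sturm_G0 3 F3 36 (by decide) (fun n hn => ?_)
  rw [qExpansion_F3, PowerSeries.coeff_map, coeff_Phi3 (by omega), map_zero]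

theorem Phi3_eq_zero : Phi3 = 0 := by
  apply map_intCast_injective
  rw [← qExpansion_F3, F3_eq_zero, map_zero]
  exact qExpansion_zero 1

/-- `Δ Δ₃ (E₄(3τ)³ - 36 Δ - 756 Δ₃)² - (Δ² + 270 Δ Δ₃ + 729 Δ₃²)²`
as a modular form of weight 48 on `Γ₀(3)`. -/
def F4 : ModularForm (G0 3) 48 :=
  mcast (by norm_num) (((dR 3).mul (dL 3)).mul
      ((mcast (by norm_num) ((eL 3).pow 3) - ((36 : ℂ) • dR 3 + (756 : ℂ) • dL 3)
        : ModularForm (G0 3) 12).pow 2))
    - mcast (by norm_num)
      ((mcast (by norm_num) ((dR 3).pow 2) + ((270 : ℂ) • mcast (by norm_num) ((dR 3).mul (dL 3))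
        + (729 : ℂ) • mcast (by norm_num) ((dL 3).pow 2)) : ModularForm (G0 3) 24).pow 2)

theorem qExpansion_F4 : qExpansion 1 F4 = Phi4.map (Int.castRingHom ℂ) := by
  rw [F4, qE_sub, qE_mcast, qE_mcast, qE_mul, qE_mul, qE_pow, qE_sub, qE_mcast, qE_pow, qE_add,
    qE_smul, qE_smul, qE_pow, qE_add, qE_mcast, qE_pow, qE_add, qE_smul, qE_smul, qE_mcast,
    qE_mcast, qE_mul, qE_pow,
    qExpansion_eL, qExpansion_dR, qExpansion_dL, Phi4]
  simp only [map_sub, map_mul, map_pow, map_add, PowerSeries.map_C]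
  simp

theorem F4_eq_zero : F4 = 0 := by
  refine sturm_G0 3 F4 36 (by decide) (fun n hn => ?_)
  rw [qExpansion_F4, PowerSeries.coeff_map, coeff_Phi4 (by omega), map_zero]

theorem Phi4_eq_zero : Phi4 = 0 := by
  apply map_intCast_injective
  rw [← qExpansion_F4, F4_eq_zero, map_zero]
  exact qExpansion_zero 1

end Fermat.Agent.Lib.Haupt

end
end
-- ===== PACK-END Lib/Haupt/Sturm.lean

-- ===== PACK-BEGIN Lib/Haupt/PS.lean
section


/-!
# Hauptmodul identities for `Γ₀(2)` and `Γ₀(3)` as identities of integral power series (helper637)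

With `P = ∏ (1 - Xⁿ)` (`ModularCurve.etaProd`), `E = E₄` (`ModularCurve.eisenstein4`) and
`f(X^d) = PowerSeries.expand d f`:

* `ps1` : `E³ P²⁴ P₂²⁴ = (P²⁴ + 256 X P₂²⁴)³`
* `ps2` : `E(X²)³ P²⁴ P₂²⁴ = (P²⁴ + 16 X P₂²⁴)³`
* `ps3` : `E³ P¹² P₃¹² = (P¹² + 27 X P₃¹²) (P¹² + 243 X P₃¹²)³`
* `ps4` : `E(X³)³ P¹² P₃¹² = (P¹² + 27 X P₃¹²) (P¹² + 3 X P₃¹²)³`
-/

set_option autoImplicit false

noncomputable section

namespace Fermat.Agent.Lib.Haupt

open PowerSeries

/-- `P = ∏ (1 - Xⁿ)`. -/
abbrev PZ : PowerSeries ℤ := ModularCurve.etaProd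

theorem ex_X (d : ℕ) [NeZero d] : ex d (X : PowerSeries ℤ) = X ^ d := expand_X d (NeZero.ne d)

theorem ex_DeltaZ (d : ℕ) [NeZero d] : ex d DeltaZ = X ^ d * ex d PZ ^ 24 := by
  rw [DeltaZ, ex, map_mul, map_pow, expand_X]

theorem X_pow_mul_cancel {n : ℕ} {f g : PowerSeries ℤ} (h : X ^ n * f = X ^ n * g) : f = g :=
  mul_left_cancel₀ (pow_ne_zero n X_ne_zero) h

theorem ps1 : E4Z ^ 3 * (PZ ^ 24 * ex 2 PZ ^ 24) = (PZ ^ 24 + C 256 * (X * ex 2 PZ ^ 24)) ^ 3 := by
  have h := Phi1_eq_zero
  rw [Phi1, sub_eq_zero, ex_DeltaZ, DeltaZ] at h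
  apply X_pow_mul_cancel (n := 3)
  linear_combination h

theorem ps2 :
    ex 2 E4Z ^ 3 * (PZ ^ 24 * ex 2 PZ ^ 24) = (PZ ^ 24 + C 16 * (X * ex 2 PZ ^ 24)) ^ 3 := by
  have h := Phi2_eq_zero
  rw [Phi2, sub_eq_zero, ex_DeltaZ, DeltaZ] at h
  apply X_pow_mul_cancel (n := 3)
  linear_combination h

theorem constantCoeff_PZ : constantCoeff PZ = 1 := ModularCurve.constantCoeff_etaProd

theorem constantCoeff_ex (d : ℕ) [NeZero d] (f : PowerSeries ℤ) :
    constantCoeff (ex d f) = constantCoeff f := constantCoeff_expand d (NeZero.ne d) f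

/-- In `ℤ⟦X⟧`: if `(X² u)² = (X² v)²` and `u`, `v` both have constant coefficient `1`,
then `u = v`. -/
theorem eq_of_sq_eq_sq {u v : PowerSeries ℤ} (hu : constantCoeff u = 1)
    (hv : constantCoeff v = 1) (h : (X ^ 2 * u) ^ 2 = (X ^ 2 * v) ^ 2) : u = v := by
  rcases sq_eq_sq_iff_eq_or_eq_neg.mp h with h1 | h1
  · exact X_pow_mul_cancel h1
  · exfalso
    have h2 : u = -v := X_pow_mul_cancel (n := 2) (by rw [h1]; ring)
    have h3 := congrArg constantCoeff h2
    rw [map_neg, hu, hv] at h3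
    norm_num at h3

theorem ps3 :
    E4Z ^ 3 * (PZ ^ 12 * ex 3 PZ ^ 12)
      = (PZ ^ 12 + C 27 * (X * ex 3 PZ ^ 12)) * (PZ ^ 12 + C 243 * (X * ex 3 PZ ^ 12)) ^ 3 := by
  have h := Phi3_eq_zero
  rw [Phi3, sub_eq_zero, ex_DeltaZ, DeltaZ] at h
  set A := PZ ^ 12 with hA
  set Q := ex 3 PZ ^ 12 with hQ
  have hA2 : PZ ^ 24 = A ^ 2 := by rw [hA]; ring
  have hQ2 : ex 3 PZ ^ 24 = Q ^ 2 := by rw [hQ]; ring
  rw [hA2, hQ2] at h
  have hcA : constantCoeff A = 1 := by rw [hA, map_pow, constantCoeff_PZ, one_pow]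
  have hcQ : constantCoeff Q = 1 := by
    rw [hQ, map_pow, constantCoeff_ex, constantCoeff_PZ, one_pow]
  have hcE : constantCoeff E4Z = 1 := ModularCurve.constantCoeff_eisenstein4
  have key := eq_of_sq_eq_sq
    (u := A * Q * (E4Z ^ 3 - (C 756 * (X * A ^ 2) + C 19131876 * (X ^ 3 * Q ^ 2))))
    (v := A ^ 4 + (C 196830 * (X ^ 2 * (A ^ 2 * Q ^ 2)) + C 387420489 * (X ^ 4 * Q ^ 4)))
    (by simp [hcA, hcQ, hcE]) (by simp [hcA]) (by linear_combination h)
  have e1 : (C (27 : ℤ) : PowerSeries ℤ) = 27 := map_ofNat C 27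
  have e2 : (C (243 : ℤ) : PowerSeries ℤ) = 243 := map_ofNat C 243
  have e3 : (C (756 : ℤ) : PowerSeries ℤ) = 756 := map_ofNat C 756
  have e4 : (C (19131876 : ℤ) : PowerSeries ℤ) = 19131876 := map_ofNat C 19131876
  have e5 : (C (196830 : ℤ) : PowerSeries ℤ) = 196830 := map_ofNat C 196830
  have e6 : (C (387420489 : ℤ) : PowerSeries ℤ) = 387420489 := map_ofNat C 387420489
  rw [e3, e4, e5, e6] at key
  rw [e1, e2]
  linear_combination key

theorem ps4 :
    ex 3 E4Z ^ 3 * (PZ ^ 12 * ex 3 PZ ^ 12)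
      = (PZ ^ 12 + C 27 * (X * ex 3 PZ ^ 12)) * (PZ ^ 12 + C 3 * (X * ex 3 PZ ^ 12)) ^ 3 := by
  have h := Phi4_eq_zero
  rw [Phi4, sub_eq_zero, ex_DeltaZ, DeltaZ] at h
  set A := PZ ^ 12 with hA
  set Q := ex 3 PZ ^ 12 with hQ
  have hA2 : PZ ^ 24 = A ^ 2 := by rw [hA]; ring
  have hQ2 : ex 3 PZ ^ 24 = Q ^ 2 := by rw [hQ]; ring
  rw [hA2, hQ2] at h
  have hcA : constantCoeff A = 1 := by rw [hA, map_pow, constantCoeff_PZ, one_pow]
  have hcQ : constantCoeff Q = 1 := by
    rw [hQ, map_pow, constantCoeff_ex, constantCoeff_PZ, one_pow]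
  have hcE : constantCoeff (ex 3 E4Z) = 1 := by
    rw [constantCoeff_ex]; exact ModularCurve.constantCoeff_eisenstein4
  have key := eq_of_sq_eq_sq
    (u := A * Q * (ex 3 E4Z ^ 3 - (C 36 * (X * A ^ 2) + C 756 * (X ^ 3 * Q ^ 2))))
    (v := A ^ 4 + (C 270 * (X ^ 2 * (A ^ 2 * Q ^ 2)) + C 729 * (X ^ 4 * Q ^ 4)))
    (by simp [hcA, hcQ, hcE]) (by simp [hcA]) (by linear_combination h)
  have e1 : (C (27 : ℤ) : PowerSeries ℤ) = 27 := map_ofNat C 27
  have e2 : (C (3 : ℤ) : PowerSeries ℤ) = 3 := map_ofNat C 3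
  have e3 : (C (36 : ℤ) : PowerSeries ℤ) = 36 := map_ofNat C 36
  have e4 : (C (756 : ℤ) : PowerSeries ℤ) = 756 := map_ofNat C 756
  have e5 : (C (270 : ℤ) : PowerSeries ℤ) = 270 := map_ofNat C 270
  have e6 : (C (729 : ℤ) : PowerSeries ℤ) = 729 := map_ofNat C 729
  rw [e3, e4, e5, e6] at key
  rw [e1, e2]
  linear_combination key

end Fermat.Agent.Lib.Haupt

end
end
-- ===== PACK-END Lib/Haupt/PS.lean

-- ===== PACK-BEGIN Lib/Haupt/Main.lean
section



/-!
# Hauptmoduln of `Γ₀(2)` and `Γ₀(3)`: the relations with `j` (helper637)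

For every commutative ring `K`:

* `t2 K = Δ(q)/Δ(q²) = q⁻¹ ∏ (1 - qⁿ)²⁴ / (1 - q²ⁿ)²⁴ ∈ K((q))`,
  `jq_mul_t2_sq  : j · t₂² = (t₂ + 256)³`,
  `jq2_mul_t2    : j(q²) · t₂ = (t₂ + 16)³`;
* `t3 K = q⁻¹ ∏ (1 - qⁿ)¹² / (1 - q³ⁿ)¹² ∈ K((q))`,
  `jq_mul_t3_cube : j · t₃³ = (t₃ + 27)(t₃ + 243)³`,
  `jq3_mul_t3     : j(q³) · t₃ = (t₃ + 27)(t₃ + 3)³`,

where `j = ModularCurve.jqModC K` and `j(q^d) = ModularCurve.qExpand K d (jqModC K)`
(`= jqNModC K d`).  The integral power series versions are `T2_rel₁`, `T2_rel₂`, `T3_rel₁`,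
`T3_rel₂`.
-/

set_option autoImplicit false

noncomputable section

namespace Fermat.Agent.Lib.Haupt

open PowerSeries

/-- `P(X²)²⁴`. -/
abbrev Q2 : PowerSeries ℤ := ex 2 PZ ^ 24
/-- `P(X³)¹²`. -/
abbrev Q3 : PowerSeries ℤ := ex 3 PZ ^ 12

theorem constantCoeff_Q2 : constantCoeff Q2 = 1 := by
  rw [Q2, map_pow, constantCoeff_ex, constantCoeff_PZ, one_pow]

theorem constantCoeff_Q3 : constantCoeff Q3 = 1 := by
  rw [Q3, map_pow, constantCoeff_ex, constantCoeff_PZ, one_pow]

/-- `q · t₂ = ∏ (1 - qⁿ)²⁴ / (1 - q²ⁿ)²⁴` as an integral power series. -/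
def T2 : PowerSeries ℤ := PZ ^ 24 * Q2.invOfUnit 1

/-- `q · t₃ = ∏ (1 - qⁿ)¹² / (1 - q³ⁿ)¹²` as an integral power series. -/
def T3 : PowerSeries ℤ := PZ ^ 12 * Q3.invOfUnit 1

theorem T2_mul_Q2 : T2 * Q2 = PZ ^ 24 := by
  rw [T2, mul_assoc, mul_comm (Q2.invOfUnit 1),
    PowerSeries.mul_invOfUnit _ _ (by rw [constantCoeff_Q2]; rfl), mul_one]

theorem T3_mul_Q3 : T3 * Q3 = PZ ^ 12 := by
  rw [T3, mul_assoc, mul_comm (Q3.invOfUnit 1),
    PowerSeries.mul_invOfUnit _ _ (by rw [constantCoeff_Q3]; rfl), mul_one]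

theorem constantCoeff_T2 : constantCoeff T2 = 1 := by
  have h := congrArg constantCoeff T2_mul_Q2
  rwa [map_mul, constantCoeff_Q2, mul_one, map_pow, constantCoeff_PZ, one_pow] at h

theorem constantCoeff_T3 : constantCoeff T3 = 1 := by
  have h := congrArg constantCoeff T3_mul_Q3
  rwa [map_mul, constantCoeff_Q3, mul_one, map_pow, constantCoeff_PZ, one_pow] at h

theorem jNum_mul_P24 : ModularCurve.jNum * PZ ^ 24 = E4Z ^ 3 := by
  have h := ModularCurve.dedekindEtaUnit_mul_inv
  rw [ModularCurve.dedekindEtaUnit] at h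
  rw [ModularCurve.jNum, mul_assoc, mul_comm ModularCurve.dedekindEtaUnitInv, h, mul_one]

theorem Q2_ne_zero : Q2 ≠ 0 := fun h => by
  have := constantCoeff_Q2; rw [h, map_zero] at this; exact zero_ne_one this

theorem Q3_ne_zero : Q3 ≠ 0 := fun h => by
  have := constantCoeff_Q3; rw [h, map_zero] at this; exact zero_ne_one this

theorem PZ_ne_zero : PZ ≠ 0 := fun h => by
  have := constantCoeff_PZ; rw [h, map_zero] at this; exact zero_ne_one this

/-- `j · t₂² = (t₂ + 256)³`, integral power series form. -/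
theorem T2_rel₁ : ModularCurve.jNum * T2 ^ 2 = (T2 + C 256 * X) ^ 3 := by
  apply mul_right_cancel₀ (mul_ne_zero (pow_ne_zero 24 PZ_ne_zero) (pow_ne_zero 3 Q2_ne_zero))
  calc ModularCurve.jNum * T2 ^ 2 * (PZ ^ 24 * Q2 ^ 3)
      = (ModularCurve.jNum * PZ ^ 24) * (T2 * Q2) ^ 2 * Q2 := by ring
    _ = (E4Z ^ 3 * (PZ ^ 24 * Q2)) * PZ ^ 24 := by rw [jNum_mul_P24, T2_mul_Q2]; ring
    _ = (PZ ^ 24 + C 256 * (X * Q2)) ^ 3 * PZ ^ 24 := by rw [ps1]
    _ = (T2 * Q2 + C 256 * (X * Q2)) ^ 3 * PZ ^ 24 := by rw [T2_mul_Q2]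
    _ = (T2 + C 256 * X) ^ 3 * (PZ ^ 24 * Q2 ^ 3) := by ring

theorem ex_jNum_mul (d : ℕ) [NeZero d] :
    ex d ModularCurve.jNum * ex d PZ ^ 24 = ex d E4Z ^ 3 := by
  rw [← map_pow, ← map_mul, jNum_mul_P24, map_pow]

/-- `j(q²) · t₂ = (t₂ + 16)³`, integral power series form. -/
theorem T2_rel₂ : ex 2 ModularCurve.jNum * T2 = (T2 + C 16 * X) ^ 3 := by
  apply mul_right_cancel₀ (pow_ne_zero 3 Q2_ne_zero)
  calc ex 2 ModularCurve.jNum * T2 * Q2 ^ 3
      = (ex 2 ModularCurve.jNum * ex 2 PZ ^ 24) * (T2 * Q2) * Q2 := by ring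
    _ = ex 2 E4Z ^ 3 * (PZ ^ 24 * Q2) := by rw [ex_jNum_mul, T2_mul_Q2]; ring
    _ = (PZ ^ 24 + C 16 * (X * Q2)) ^ 3 := by rw [ps2]
    _ = (T2 * Q2 + C 16 * (X * Q2)) ^ 3 := by rw [T2_mul_Q2]
    _ = (T2 + C 16 * X) ^ 3 * Q2 ^ 3 := by ring

/-- `j · t₃³ = (t₃ + 27)(t₃ + 243)³`, integral power series form. -/
theorem T3_rel₁ :
    ModularCurve.jNum * T3 ^ 3 = (T3 + C 27 * X) * (T3 + C 243 * X) ^ 3 := by
  apply mul_right_cancel₀ (mul_ne_zero (pow_ne_zero 24 PZ_ne_zero) (pow_ne_zero 4 Q3_ne_zero))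
  calc ModularCurve.jNum * T3 ^ 3 * (PZ ^ 24 * Q3 ^ 4)
      = (ModularCurve.jNum * PZ ^ 24) * (T3 * Q3) ^ 3 * Q3 := by ring
    _ = (E4Z ^ 3 * (PZ ^ 12 * Q3)) * PZ ^ 24 := by rw [jNum_mul_P24, T3_mul_Q3]; ring
    _ = (PZ ^ 12 + C 27 * (X * Q3)) * (PZ ^ 12 + C 243 * (X * Q3)) ^ 3 * PZ ^ 24 := by
        rw [ps3]
    _ = (T3 * Q3 + C 27 * (X * Q3)) * (T3 * Q3 + C 243 * (X * Q3)) ^ 3 * PZ ^ 24 := by
        rw [T3_mul_Q3]
    _ = (T3 + C 27 * X) * (T3 + C 243 * X) ^ 3 * (PZ ^ 24 * Q3 ^ 4) := by ring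

/-- `j(q³) · t₃ = (t₃ + 27)(t₃ + 3)³`, integral power series form. -/
theorem T3_rel₂ :
    ex 3 ModularCurve.jNum * T3 = (T3 + C 27 * X) * (T3 + C 3 * X) ^ 3 := by
  apply mul_right_cancel₀ (pow_ne_zero 4 Q3_ne_zero)
  have hQ : ex 3 PZ ^ 24 = Q3 ^ 2 := by rw [Q3]; ring
  calc ex 3 ModularCurve.jNum * T3 * Q3 ^ 4
      = (ex 3 ModularCurve.jNum * ex 3 PZ ^ 24) * (T3 * Q3) * Q3 := by rw [hQ]; ring
    _ = ex 3 E4Z ^ 3 * (PZ ^ 12 * Q3) := by rw [ex_jNum_mul, T3_mul_Q3]; ring
    _ = (PZ ^ 12 + C 27 * (X * Q3)) * (PZ ^ 12 + C 3 * (X * Q3)) ^ 3 := by rw [ps4]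
    _ = (T3 * Q3 + C 27 * (X * Q3)) * (T3 * Q3 + C 3 * (X * Q3)) ^ 3 := by rw [T3_mul_Q3]
    _ = (T3 + C 27 * X) * (T3 + C 3 * X) ^ 3 * Q3 ^ 4 := by ring

end Fermat.Agent.Lib.Haupt

end
end
-- ===== PACK-END Lib/Haupt/Main.lean

-- ===== PACK-BEGIN Lib/Haupt/Laurent.lean
section



/-!
# Hauptmodul relations in `K((q))` for every commutative ring `K` (helper637)

* `t2 K`, `t3 K : LaurentSeries K`;
* `jq_mul_t2_sq`   : `jqModC K * t2 K ^ 2 = (t2 K + 256) ^ 3`
* `jq2_mul_t2`     : `qExpand K 2 (jqModC K) * t2 K = (t2 K + 16) ^ 3`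
* `jq_mul_t3_cube` : `jqModC K * t3 K ^ 3 = (t3 K + 27) * (t3 K + 243) ^ 3`
* `jq3_mul_t3`     : `qExpand K 3 (jqModC K) * t3 K = (t3 K + 27) * (t3 K + 3) ^ 3`
* `coeffMap_t2`, `coeffMap_t3` : compatibility with change of coefficients.
-/

set_option autoImplicit false

noncomputable section

namespace Fermat.Agent.Lib.Haupt

open PowerSeries HahnSeries ModularCurve

variable (K : Type*) [CommRing K]

/-- `q⁻¹ · f(q)` for an integral power series `f`, with coefficients in `K`. -/
def lau (f : PowerSeries ℤ) : LaurentSeries K :=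
  HahnSeries.ofPowerSeries ℤ K (f.map (Int.castRingHom K))

/-- `q⁻¹`. -/
def qinv : LaurentSeries K := HahnSeries.single (-1 : ℤ) 1

theorem lau_mul (f g : PowerSeries ℤ) : lau K (f * g) = lau K f * lau K g := by
  rw [lau, map_mul, map_mul]; rfl

theorem lau_add (f g : PowerSeries ℤ) : lau K (f + g) = lau K f + lau K g := by
  rw [lau, map_add, map_add]; rfl

theorem lau_pow (f : PowerSeries ℤ) (n : ℕ) : lau K (f ^ n) = lau K f ^ n := by
  rw [lau, map_pow, map_pow]; rfl

theorem qinv_mul_lau_X : qinv K * lau K X = 1 := by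
  rw [qinv, lau, PowerSeries.map_X, HahnSeries.ofPowerSeries_X, HahnSeries.single_mul_single]
  simp

theorem lau_C (c : ℤ) : lau K (C c) = (c : LaurentSeries K) := by
  rw [lau, PowerSeries.map_C, HahnSeries.ofPowerSeries_C]
  simp

theorem jqModC_eq : jqModC K = qinv K * lau K jNum := rfl

/-- The Hauptmodul of `Γ₀(2)`: `t₂ = Δ(q)/Δ(q²)`. -/
def t2 : LaurentSeries K := qinv K * lau K T2

/-- The Hauptmodul of `Γ₀(3)`: `t₃ = (η(q)/η(q³))¹²`. -/
def t3 : LaurentSeries K := qinv K * lau K T3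

theorem t_add_const (T : PowerSeries ℤ) (c : ℤ) :
    qinv K * lau K T + (c : LaurentSeries K) = qinv K * lau K (T + C c * X) := by
  rw [lau_add, lau_mul, lau_C, mul_add, mul_left_comm, qinv_mul_lau_X, mul_one]

/-- `j · t₂² = (t₂ + 256)³`. -/
theorem jq_mul_t2_sq : jqModC K * t2 K ^ 2 = (t2 K + 256) ^ 3 := by
  have h := congrArg (fun f => qinv K ^ 3 * lau K f) T2_rel₁
  simp only [lau_mul, lau_pow] at h
  have e : (t2 K + 256) = qinv K * lau K (T2 + C 256 * X) := by
    rw [← t_add_const, t2]; simp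
  rw [e, jqModC_eq, t2]
  linear_combination h

theorem qExpand_ofPowerSeries (d : ℕ) [NeZero d] (g : PowerSeries K) :
    qExpand K d (HahnSeries.ofPowerSeries ℤ K g)
      = HahnSeries.ofPowerSeries ℤ K (PowerSeries.expand d (NeZero.ne d) g) := by
  have hd : (0 : ℤ) < d := by exact_mod_cast Nat.pos_of_ne_zero (NeZero.ne d)
  ext k
  by_cases hk : (d : ℤ) ∣ k
  · obtain ⟨m, rfl⟩ := hk
    rw [qExpand_coeff_mul]
    rcases le_or_gt 0 m with hm | hm
    · lift m to ℕ using hm
      rw [HahnSeries.ofPowerSeries_apply_coeff, show (d : ℤ) * (m : ℤ) = ((d * m : ℕ) : ℤ) by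
        push_cast; ring, HahnSeries.ofPowerSeries_apply_coeff, PowerSeries.coeff_expand_mul]
    · rw [ofPowerSeries_coeff_of_neg _ hm, ofPowerSeries_coeff_of_neg _ (by nlinarith)]
  · rw [qExpand_coeff_of_not_dvd d _ hk]
    rcases le_or_gt 0 k with hk0 | hk0
    · lift k to ℕ using hk0
      rw [HahnSeries.ofPowerSeries_apply_coeff, PowerSeries.coeff_expand_of_not_dvd]
      intro h
      exact hk (by exact_mod_cast h)
    · rw [ofPowerSeries_coeff_of_neg _ hk0]

theorem qExpand_lau (d : ℕ) [NeZero d] (f : PowerSeries ℤ) :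
    qExpand K d (lau K f) = lau K (ex d f) := by
  rw [lau, qExpand_ofPowerSeries, lau, ex, PowerSeries.map_expand]

theorem qExpand_qinv (d : ℕ) [NeZero d] : qExpand K d (qinv K) = qinv K ^ d := by
  rw [qinv, qExpand_single, HahnSeries.single_pow, one_pow]
  simp

theorem qExpand_jqModC (d : ℕ) [NeZero d] :
    qExpand K d (jqModC K) = qinv K ^ d * lau K (ex d jNum) := by
  rw [jqModC_eq, map_mul, qExpand_qinv, qExpand_lau]

/-- `j(q²) · t₂ = (t₂ + 16)³`. -/
theorem jq2_mul_t2 : qExpand K 2 (jqModC K) * t2 K = (t2 K + 16) ^ 3 := by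
  have h := congrArg (fun f => qinv K ^ 3 * lau K f) T2_rel₂
  simp only [lau_mul, lau_pow] at h
  have e : (t2 K + 16) = qinv K * lau K (T2 + C 16 * X) := by
    rw [← t_add_const, t2]; simp
  rw [e, qExpand_jqModC, t2]
  linear_combination h

/-- `j · t₃³ = (t₃ + 27)(t₃ + 243)³`. -/
theorem jq_mul_t3_cube : jqModC K * t3 K ^ 3 = (t3 K + 27) * (t3 K + 243) ^ 3 := by
  have h := congrArg (fun f => qinv K ^ 4 * lau K f) T3_rel₁
  simp only [lau_mul, lau_pow] at h
  have e1 : (t3 K + 27) = qinv K * lau K (T3 + C 27 * X) := by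
    rw [← t_add_const, t3]; simp
  have e2 : (t3 K + 243) = qinv K * lau K (T3 + C 243 * X) := by
    rw [← t_add_const, t3]; simp
  rw [e1, e2, jqModC_eq, t3]
  linear_combination h

/-- `j(q³) · t₃ = (t₃ + 27)(t₃ + 3)³`. -/
theorem jq3_mul_t3 : qExpand K 3 (jqModC K) * t3 K = (t3 K + 27) * (t3 K + 3) ^ 3 := by
  have h := congrArg (fun f => qinv K ^ 4 * lau K f) T3_rel₂
  simp only [lau_mul, lau_pow] at h
  have e1 : (t3 K + 27) = qinv K * lau K (T3 + C 27 * X) := by
    rw [← t_add_const, t3]; simp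
  have e2 : (t3 K + 3) = qinv K * lau K (T3 + C 3 * X) := by
    rw [← t_add_const, t3]; simp
  rw [e1, e2, qExpand_jqModC, t3]
  linear_combination h

/-! ### Basic properties -/

variable {K}

theorem coeffMap_ofPS {K' : Type*} [CommRing K'] (φ : K →+* K') (p : PowerSeries K) :
    coeffMap φ (HahnSeries.ofPowerSeries ℤ K p) = HahnSeries.ofPowerSeries ℤ K' (p.map φ) := by
  ext k
  rw [coeffMap_coeff]
  rcases le_or_gt 0 k with hk | hk
  · lift k to ℕ using hk
    rw [HahnSeries.ofPowerSeries_apply_coeff, HahnSeries.ofPowerSeries_apply_coeff,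
      PowerSeries.coeff_map]
  · rw [ofPowerSeries_coeff_of_neg _ hk, ofPowerSeries_coeff_of_neg _ hk, map_zero]

theorem coeffMap_lau {K' : Type*} [CommRing K'] (φ : K →+* K') (g : PowerSeries ℤ) :
    coeffMap φ (lau K g) = lau K' g := by
  rw [lau, lau, coeffMap_ofPS,
    ← RingHom.comp_apply (PowerSeries.map φ) (PowerSeries.map (Int.castRingHom K)),
    ← PowerSeries.map_comp, RingHom.ext_int (φ.comp (Int.castRingHom K)) (Int.castRingHom K')]

theorem coeffMap_qinv {K' : Type*} [CommRing K'] (φ : K →+* K') :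
    coeffMap φ (qinv K) = qinv K' := by
  rw [qinv, coeffMap_single, map_one, qinv]

/-- `t₂` is compatible with every change of coefficients (base change, reduction mod `ℓ`). -/
theorem coeffMap_t2 {K' : Type*} [CommRing K'] (φ : K →+* K') :
    coeffMap φ (t2 K) = t2 K' := by
  rw [t2, map_mul, coeffMap_qinv, coeffMap_lau, t2]

/-- `t₃` is compatible with every change of coefficients (base change, reduction mod `ℓ`). -/
theorem coeffMap_t3 {K' : Type*} [CommRing K'] (φ : K →+* K') :
    coeffMap φ (t3 K) = t3 K' := by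
  rw [t3, map_mul, coeffMap_qinv, coeffMap_lau, t3]

variable (K)

theorem coeff_qinv_mul_lau (g : PowerSeries ℤ) (k : ℤ) :
    (qinv K * lau K g).coeff k = (lau K g).coeff (k + 1) := by
  rw [qinv, HahnSeries.coeff_single_mul, one_mul, sub_neg_eq_add]

theorem coeff_lau_natCast (g : PowerSeries ℤ) (n : ℕ) :
    (lau K g).coeff (n : ℤ) = ((PowerSeries.coeff n g : ℤ) : K) := by
  rw [lau, HahnSeries.ofPowerSeries_apply_coeff, PowerSeries.coeff_map, eq_intCast]

theorem coeff_lau_of_neg (g : PowerSeries ℤ) {k : ℤ} (hk : k < 0) : (lau K g).coeff k = 0 :=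
  ofPowerSeries_coeff_of_neg _ hk

/-- `t₂ = q⁻¹ + …`. -/
theorem coeff_t2_neg_one : (t2 K).coeff (-1) = 1 := by
  rw [t2, coeff_qinv_mul_lau, show (-1 : ℤ) + 1 = ((0 : ℕ) : ℤ) by norm_num, coeff_lau_natCast,
    PowerSeries.coeff_zero_eq_constantCoeff, constantCoeff_T2, Int.cast_one]

theorem coeff_t2_of_lt {k : ℤ} (hk : k < -1) : (t2 K).coeff k = 0 := by
  rw [t2, coeff_qinv_mul_lau, coeff_lau_of_neg K _ (by omega)]

/-- `t₃ = q⁻¹ + …`. -/
theorem coeff_t3_neg_one : (t3 K).coeff (-1) = 1 := by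
  rw [t3, coeff_qinv_mul_lau, show (-1 : ℤ) + 1 = ((0 : ℕ) : ℤ) by norm_num, coeff_lau_natCast,
    PowerSeries.coeff_zero_eq_constantCoeff, constantCoeff_T3, Int.cast_one]

theorem coeff_t3_of_lt {k : ℤ} (hk : k < -1) : (t3 K).coeff k = 0 := by
  rw [t3, coeff_qinv_mul_lau, coeff_lau_of_neg K _ (by omega)]

theorem t2_ne_zero [Nontrivial K] : t2 K ≠ 0 := fun h => by
  have := coeff_t2_neg_one K
  rw [h] at this
  simp at this

theorem t3_ne_zero [Nontrivial K] : t3 K ≠ 0 := fun h => by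
  have := coeff_t3_neg_one K
  rw [h] at this
  simp at this

/-- `t₂` is a root of the monic cubic `T³ + (768 - j) T² + 196608 T + 16777216` over `ℤ[j]`. -/
theorem t2_cubic :
    t2 K ^ 3 + (768 - jqModC K) * t2 K ^ 2 + 196608 * t2 K + 16777216 = 0 := by
  linear_combination -(jq_mul_t2_sq K)

/-- `t₂` is a root of the monic cubic `T³ + 48 T² + (768 - j(q²)) T + 4096` over `ℤ[j(q²)]`. -/
theorem t2_cubic' :
    t2 K ^ 3 + 48 * t2 K ^ 2 + (768 - qExpand K 2 (jqModC K)) * t2 K + 4096 = 0 := by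
  linear_combination -(jq2_mul_t2 K)

/-- `t₃` is a root of the monic quartic `T⁴ + (756 - j) T³ + 196830 T² + 19131876 T + 387420489`
over `ℤ[j]`. -/
theorem t3_quartic :
    t3 K ^ 4 + (756 - jqModC K) * t3 K ^ 3 + 196830 * t3 K ^ 2 + 19131876 * t3 K + 387420489
      = 0 := by
  linear_combination -(jq_mul_t3_cube K)

/-- `t₃` is a root of the monic quartic `T⁴ + 36 T³ + 270 T² + (756 - j(q³)) T + 729`
over `ℤ[j(q³)]`. -/
theorem t3_quartic' :
    t3 K ^ 4 + 36 * t3 K ^ 3 + 270 * t3 K ^ 2 + (756 - qExpand K 3 (jqModC K)) * t3 K + 729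
      = 0 := by
  linear_combination -(jq3_mul_t3 K)

/-- `j - 1728 = (t₂ + 64)(t₂ - 512)² / t₂²`: the elliptic point of order 2 of `X₀(2)` is
`t₂ = -64`; `t₂ = 512` lies over `j = 1728` with ramification index `2` (not a branch value of
higher levels over the `t₂`-line). -/
theorem jq_sub_1728_mul_t2_sq :
    (jqModC K - 1728) * t2 K ^ 2 = (t2 K + 64) * (t2 K - 512) ^ 2 := by
  linear_combination jq_mul_t2_sq K

/-- `j - 1728 = (t₃² - 486 t₃ - 19683)² / t₃³`: `X₀(3)` has no elliptic point of order 2. -/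
theorem jq_sub_1728_mul_t3_cube :
    (jqModC K - 1728) * t3 K ^ 3 = (t3 K ^ 2 - 486 * t3 K - 19683) ^ 2 := by
  linear_combination jq_mul_t3_cube K

end Fermat.Agent.Lib.Haupt

end
end
-- ===== PACK-END Lib/Haupt/Laurent.lean

-- ===== PACK-BEGIN S18/H438/Front/H138Charts.lean
section




/-!
# S18 / ALG-FRONT (helper438), part 9: the hypotheses of `H394.kummer_charts_of_regular`
on the chart `H138.chart R {x}` of a good model

For `G : Alg.GoodModel Lc Ec Fc R V w x S`, with `R' := Rf Fc R` (a type), `x' := xf G : Fc`,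
`w' := wR G : R'` and `B := H138.chart R' {x'}`:

* `GoodModelFront.prime_chart`            : `Prime (algebraMap R' B w')`;
* `GoodModelFront.oneModPi_chart`         : `(u - 1) / w ∈ V` ⟹ `H754.OneModPi (algebraMap R' B w') u`;
* `GoodModelFront.divisibleDivisor_chart` : `H754.DivisibleDivisor B m u` from the divisor
  hypothesis of `Alg.AlgMainStatement`.

The chart at infinity is obtained by applying these to `H425.goodModel_inv G`.
-/

set_option autoImplicit false
set_option linter.style.haveILetI false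
set_option linter.unusedSectionVars false

noncomputable section

namespace Fermat.Agent.S18.H438

open Alg Polynomial

section Equiv

variable {F : Type*} [Field F] (R : Subring F) (z : F)

/-- The identity `chartRing R z ≃ H138.chart R {z}`. -/
def chartEquiv138 : chartRing R z ≃+* H138.chart R ({z} : Set F) where
  toFun c := ⟨c.1, c.2⟩
  invFun c := ⟨c.1, c.2⟩
  left_inv _ := rfl
  right_inv _ := rfl
  map_mul' _ _ := rfl
  map_add' _ _ := rfl

theorem chartEquiv138_chartUnif {w : F} (hwR : w ∈ R) :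
    chartEquiv138 R z (chartUnif (z := z) hwR) =
      algebraMap R (H138.chart R ({z} : Set F)) ⟨w, hwR⟩ := rfl

theorem prime_chart138 {w : F} (hwR : w ∈ R) (h : Prime (chartUnif (z := z) hwR)) :
    Prime (algebraMap R (H138.chart R ({z} : Set F)) ⟨w, hwR⟩) := by
  rw [← chartEquiv138_chartUnif]
  exact (MulEquiv.prime_iff (chartEquiv138 R z).toMulEquiv).2 h

theorem oneModPi_chart138 {w : F} (hwR : w ∈ R) {u : F}
    (h : H754.OneModPi (chartUnif (z := z) hwR) u) :
    H754.OneModPi (algebraMap R (H138.chart R ({z} : Set F)) ⟨w, hwR⟩) u := by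
  obtain ⟨a, s, hs, has, hu⟩ := h
  refine ⟨chartEquiv138 R z a, chartEquiv138 R z s, ?_, ?_, hu⟩
  · rw [Ideal.mem_span_singleton] at hs ⊢
    rw [← chartEquiv138_chartUnif]
    intro h
    exact hs ((map_dvd_iff (chartEquiv138 R z)).1 h)
  · rw [Ideal.mem_span_singleton] at has ⊢
    rw [← chartEquiv138_chartUnif, ← map_sub]
    exact (map_dvd_iff (chartEquiv138 R z)).2 has

end Equiv

variable {Ω : Type*} [Field Ω] {Lc Ec Fc : Subfield Ω} {R V : Subring Ω} {w x : Ω}
  {S : Finset Ω}

namespace GoodModelFront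

variable (G : GoodModel Lc Ec Fc R V w x S)

/-- the uniformiser as an element of the ring `R` -/
def wR : Rf Fc R := ⟨wf G, wf_mem_Rf G⟩

@[simp] theorem coe_wR : ((wR G : Rf Fc R) : Fc) = wf G := rfl

section

attribute [local instance] FractionRing.liftAlgebra

include G in
/-- instances on `chartRing R x` -/
theorem chartRing_instances :
    IsFractionRing (chartRing (Rf Fc R) (xf G)) Fc ∧
      IsNoetherianRing (chartRing (Rf Fc R) (xf G)) := by
  haveI := charZero_Fc G
  haveI := isDiscreteValuationRing_Rf G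
  haveI := finiteDimensional_fractionRing G
  exact ⟨chartRing_isFractionRing _ _, chartRing_isNoetherianRing _ _ (transcendental_xf G)⟩

end

/-- **`w` is prime in the chart.** -/
theorem prime_chart :
    Prime (algebraMap (Rf Fc R) (H138.chart (Rf Fc R) ({xf G} : Set Fc)) (wR G)) :=
  prime_chart138 (Rf Fc R) (xf G) (wf_mem_Rf G)
    (prime_chartUnif (V := Vf G) (wf_mem_Rf G) (wf_ne_zero G) (Rf_le_Vf G) (xf_mem_Vf G)
      (wf_inv_not_mem_Vf G) (Vf_gen G) (qep_fin' G))

/-- **`u ≡ 1 mod w` on the chart.** -/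
theorem oneModPi_chart {u : Fc} (hu : ((u : Ω) - 1) * w⁻¹ ∈ V) :
    H754.OneModPi (algebraMap (Rf Fc R) (H138.chart (Rf Fc R) ({xf G} : Set Fc)) (wR G)) u := by
  obtain ⟨i1, i2⟩ := chartRing_instances G
  refine oneModPi_chart138 (Rf Fc R) (xf G) (wf_mem_Rf G)
    (oneModPi_of_sub_one_mem (V := Vf G) (wf_mem_Rf G) (wf_ne_zero G) (Rf_le_Vf G) (xf_mem_Vf G)
      (wf_inv_not_mem_Vf G) (Vf_gen G) (qep_fin' G) ?_)
  exact hu

include G in
/-- instances on `H138.chart R {x}` -/
theorem chart_instances138 :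
    IsNoetherianRing (H138.chart (Rf Fc R) ({xf G} : Set Fc)) ∧
      IsIntegrallyClosed (H138.chart (Rf Fc R) ({xf G} : Set Fc)) ∧
      IsFractionRing (H138.chart (Rf Fc R) ({xf G} : Set Fc)) Fc := by
  haveI := charZero_Fc G
  haveI := isDiscreteValuationRing_Rf G
  haveI := finiteDimensional_baseField G
  exact H394.chart_instances (transcendental_xf G)

/-- **`m ∣ div u` on the chart**, from the divisor hypothesis of `Alg.AlgMainStatement`. -/
theorem divisibleDivisor_chart {u : Fc} (hu : ((u : Ω) - 1) * w⁻¹ ∈ V) {m : ℕ}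
    (hdiv : ∀ O : ValuationSubring Ω, (∀ a ∈ Lc, a ∈ O) →
      ∃ t : Ω, t ≠ 0 ∧ (u : Ω) * t ^ m ∈ O ∧ ((u : Ω) * t ^ m)⁻¹ ∈ O) :
    H754.DivisibleDivisor (H138.chart (Rf Fc R) ({xf G} : Set Fc)) m u := by
  obtain ⟨i1, i2, i3⟩ := chart_instances138 G
  exact divisibleDivisor G
    (fun r hr => ⟨algebraMap (Rf Fc R) (H138.chart (Rf Fc R) ({xf G} : Set Fc)) ⟨r, hr⟩, rfl⟩)
    _ (prime_chart G) rfl (oneModPi_chart G hu) hdiv

end GoodModelFront

end Fermat.Agent.S18.H438

end
end
-- ===== PACK-END S18/H438/Front/H138Charts.lean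

-- ===== PACK-BEGIN S18/H394/KummerCharts.lean
section






/-!
# S18, Route K (helper394): the Kummer endgame on the charts of the `x`-line model

Typed core of `node_alg`.  Setting (as in `H138/Connected.lean`): `R` a noetherian local domain
with `R[X]` integrally closed (e.g. a DVR), `F` a field of characteristic `0` containing `R`,
`x ∈ F` transcendental over `R`, `F` finite over `baseField R x`, `R` integrally closed in `F`;
charts `B₀ = chart R {x}`, `B₁ = chart R {x⁻¹}`, `M = chart R {x, x⁻¹}` (integral closures of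
`R[x]`, `R[x⁻¹]`, `R[x, x⁻¹]` in `F`), `w ∈ R` a non-unit, `m` invertible in `R`.

* `kummer_charts`: the hypotheses `hrc`, `hloc`, `hint`, `hfin`, `hden`, `hw1` of
  `H394.kummer_endgame` are discharged for the charts; conclusion: `u` does NOT have exact order
  `m` modulo `Frac(R)ˣ (Fˣ)^m`.
* `kummer_charts_prime`: for `m` prime, `u = r ^ a * y ^ m` with `r ∈ R`, `a ∈ ℤ`, `y ∈ F`.
* `kummer_charts_of_regular`: the same from the chartwise hypotheses
  `Prime w`, `H754.RegularAlong w` (b2), `H754.OneModPi w u`, `H754.DivisibleDivisor B m u`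
  (via `H214.local_existence`; the saturation hypothesis `hsat` is proved here).
-/

set_option autoImplicit false
set_option linter.style.haveILetI false

namespace Fermat.Agent.S18.H394

open Polynomial
open Fermat.Agent.S18.H138 (chart baseField)

section Basic

variable {R : Type*} [CommRing R] {F : Type*} [Field F] [Algebra R F]

theorem rootClosed_chart (S : Set F) {m : ℕ} (hm : 0 < m) : RootClosed m (chart R S) := by
  intro f hf
  rw [H138.mem_chart] at hf ⊢
  exact IsIntegral.of_pow hm hf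

theorem chart_inv_pair (x : F) :
    chart R ({x⁻¹, x⁻¹⁻¹} : Set F) = chart R ({x, x⁻¹} : Set F) := by
  rw [inv_inv, Set.pair_comm]

theorem subalgebra_dvd_iff (B : Subalgebra R F) (w : R) (s : B) :
    algebraMap R B w ∣ s ↔ ∃ c ∈ B, (s : F) = algebraMap R F w * c := by
  constructor
  · rintro ⟨c, hc⟩
    exact ⟨c, c.2, by rw [hc]; rfl⟩
  · rintro ⟨c, hc, h⟩
    exact ⟨⟨c, hc⟩, Subtype.ext h⟩

/-- Elementary unmixedness inside the fraction field. -/
theorem mem_of_mul_mem_of_prime (B : Subalgebra R F) (w : R)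
    (hw : Prime (algebraMap R B w)) (s : B) (hs : ¬ algebraMap R B w ∣ s) (g : F)
    (h1 : algebraMap R F w * g ∈ B) (h2 : (s : F) * g ∈ B) : g ∈ B := by
  have hw0 : algebraMap R F w ≠ 0 := by
    intro h
    apply hw.ne_zero
    exact Subtype.ext h
  have hdvd : algebraMap R B w ∣ s * ⟨_, h1⟩ := by
    refine ⟨⟨_, h2⟩, Subtype.ext ?_⟩
    change (s : F) * (algebraMap R F w * g) = algebraMap R F w * ((s : F) * g)
    ring
  rcases hw.dvd_or_dvd hdvd with h | h
  · exact absurd h hs
  · obtain ⟨c, hc, h3⟩ := (subalgebra_dvd_iff B w _).mp h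
    have : g = c := mul_left_cancel₀ hw0 h3
    rw [this]; exact hc

end Basic

section Charts

variable {R : Type*} [CommRing R] {F : Type*} [Field F] [Algebra R F]
variable [IsNoetherianRing R] [IsIntegrallyClosed R[X]] [CharZero F]

/-- Finite generation of the chart in the form used by `kummer_endgame`. -/
theorem exists_finset_gens {x : F} (hx : Transcendental R x)
    [FiniteDimensional (baseField R x) F] :
    ∃ s : Finset F, ∀ b ∈ chart R ({x} : Set F), ∃ P : F → R[X],
      b = ∑ β ∈ s, aeval x (P β) * β := by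
  classical
  obtain ⟨n, bs, -, hgen⟩ := H138.exists_finite_gens (R := R) hx
  refine ⟨Finset.univ.image bs, fun b hb => ?_⟩
  have key : ∀ z ∈ Submodule.span R {z : F | ∃ (j : ℕ) (i : Fin n), z = x ^ j * bs i},
      ∃ P : F → R[X], z = ∑ β ∈ Finset.univ.image bs, aeval x (P β) * β := by
    intro z hz
    induction hz using Submodule.span_induction with
    | mem z hz =>
      obtain ⟨j, i, rfl⟩ := hz
      refine ⟨fun β => if β = bs i then X ^ j else 0, ?_⟩
      rw [Finset.sum_eq_single (bs i)]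
      · simp
      · intro β _ hβ
        simp [hβ]
      · intro h
        exact absurd (Finset.mem_image_of_mem bs (Finset.mem_univ i)) h
    | zero => exact ⟨fun _ => 0, by simp⟩
    | add y z _ _ hy hz =>
      obtain ⟨P, hP⟩ := hy
      obtain ⟨Q, hQ⟩ := hz
      refine ⟨fun β => P β + Q β, ?_⟩
      rw [hP, hQ, ← Finset.sum_add_distrib]
      refine Finset.sum_congr rfl fun β _ => ?_
      rw [map_add, add_mul]
    | smul r z _ hz =>
      obtain ⟨P, hP⟩ := hz
      refine ⟨fun β => C r * P β, ?_⟩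
      rw [hP, Finset.smul_sum]
      refine Finset.sum_congr rfl fun β _ => ?_
      rw [map_mul, aeval_C, Algebra.smul_def, mul_assoc]
  exact key b (hgen b hb)

/-- Every element of `F` has a denominator in the chart. -/
theorem exists_den {x : F} (hx : Transcendental R x) [FiniteDimensional (baseField R x) F]
    (z : F) : ∃ d ∈ chart R ({x} : Set F), d ≠ 0 ∧ d * z ∈ chart R ({x} : Set F) := by
  obtain ⟨-, -, hfr⟩ := chart_instances (R := R) hx
  obtain ⟨a, b, hb, hab⟩ := IsFractionRing.div_surjective (A := chart R ({x} : Set F)) z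
  have hb0 : (b : F) ≠ 0 := by
    intro h
    exact nonZeroDivisors.ne_zero hb (Subtype.ext h)
  refine ⟨b, b.2, hb0, ?_⟩
  have : (b : F) * z = a := by
    rw [← hab]
    change (b : F) * ((a : F) / (b : F)) = a
    field_simp
  rw [this]
  exact a.2

/-- `C w ∣ Q` if `Q(x) ∈ w B₀`. -/
theorem dvd_coeff_of_aeval_eq_mul {x : F} (hx : Transcendental R x)
    (hinjR : Function.Injective (algebraMap R F)) (w : R) (hw0 : w ≠ 0) (Q : R[X]) {t : F}
    (ht : t ∈ chart R ({x} : Set F)) (h : aeval x Q = algebraMap R F w * t) (n : ℕ) :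
    w ∣ Q.coeff n := by
  have hwF : algebraMap R F w ≠ 0 := fun h0 => hw0 (hinjR (by rw [h0, map_zero]))
  haveI := H138.isIntegrallyClosed_adjoin_singleton (R := R) hx
  have htK : t ∈ baseField R x := by
    have : t = aeval x Q / algebraMap R F w := by
      rw [h, mul_div_cancel_left₀ _ hwF]
    rw [this]
    refine (baseField R x).div_mem (H138.adjoin_le_baseField x ?_)
      (Subfield.subset_closure (Or.inl ⟨w, rfl⟩))
    exact H138.mem_adjoin_singleton_iff.2 ⟨Q, rfl⟩
  have htA : t ∈ Algebra.adjoin R ({x} : Set F) :=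
    H138.mem_of_isIntegral_of_mem _ (baseField R x) (fun a ha => H138.adjoin_le_baseField x ha)
      (fun z hz => H138.exists_div_of_mem_baseField x hz) htK ht
  obtain ⟨P, rfl⟩ := H138.mem_adjoin_singleton_iff.1 htA
  have h3 : aeval x (Q - C w * P) = 0 := by
    rw [map_sub, map_mul, aeval_C, h, sub_self]
  have h4 := (transcendental_iff.1 hx) _ h3
  have h5 : Q = C w * P := sub_eq_zero.1 h4
  refine ⟨P.coeff n, ?_⟩
  rw [h5, coeff_C_mul]

variable [IsLocalRing R]

/-- **The Kummer endgame on the charts.** -/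
theorem kummer_charts
    (hinjR : Function.Injective (algebraMap R F))
    (hRF : ∀ y : F, IsIntegral R y → y ∈ Set.range (algebraMap R F))
    {x : F} (hx : Transcendental R x) [FiniteDimensional (baseField R x) F]
    (w : R) (hw : ¬ IsUnit w)
    (m : ℕ) (hm : 2 ≤ m) (ν : R) (hν : ν * (m : R) = 1)
    (u : F) (hu : u ≠ 0) (σ₀ σ₁ : F)
    (h₀ : ∃ b ∈ chart R ({x} : Set F), σ₀ ^ m * u - 1 = algebraMap R F w * b)
    (h₁ : ∃ b ∈ chart R ({x⁻¹} : Set F), σ₁ ^ m * u - 1 = algebraMap R F w * b)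
    (h₀₁ : ∃ γ : F, σ₀ - σ₁ = algebraMap R F w * γ ∧ γ ^ m * u ∈ chart R ({x, x⁻¹} : Set F)) :
    ∃ i : ℕ, 0 < i ∧ i < m ∧ ∃ f : F, f ≠ 0 ∧ ∃ r : R, f ^ m * u ^ i = algebraMap R F r := by
  by_contra hcon
  push Not at hcon
  have hx0 : x ≠ 0 := H138.ne_zero_of_transcendental hx
  have hm0 : 0 < m := by omega
  refine kummer_endgame m hm ν hν w u hu (chart R ({x} : Set F)) (chart R ({x⁻¹} : Set F))
    (chart R ({x, x⁻¹} : Set F)) (rootClosed_chart _ hm0) (rootClosed_chart _ hm0)
    (rootClosed_chart _ hm0) x hx0 (H138.mem_chart_of_mem rfl) (H138.mem_chart_of_mem rfl)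
    (H138.chart_mono (by simp)) (H138.chart_mono (by simp)) ?_ ?_ ?_ (exists_finset_gens hx) ?_ ?_
    (fun i hi him f hf r => hcon i hi him f hf r) σ₀ σ₁ h₀ h₁ h₀₁
  · intro y hy
    exact H138.exists_pow_mul_mem_chart hx0 hy
  · intro y hy
    refine H138.exists_pow_mul_mem_chart (inv_ne_zero hx0) ?_
    rw [chart_inv_pair]
    exact hy
  · intro y hy0 hy1
    obtain ⟨r, hr⟩ := hRF y (H138.isIntegral_of_mem_chart_inter hx hy0 hy1)
    exact ⟨r, hr⟩
  · obtain ⟨d, hd, hd0, hdu⟩ := exists_den (R := R) hx u⁻¹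
    exact ⟨d, hd, hd0, hdu⟩
  · intro b hb h
    apply hw
    have := H138.dvd_of_algebraMap_eq_mul hinjR hx w 1 hb (by rw [map_one, h])
    exact isUnit_of_dvd_one this

/-- For prime `m`: `u` is a constant times an `m`-th power. -/
theorem kummer_charts_prime
    (hinjR : Function.Injective (algebraMap R F))
    (hRF : ∀ y : F, IsIntegral R y → y ∈ Set.range (algebraMap R F))
    {x : F} (hx : Transcendental R x) [FiniteDimensional (baseField R x) F]
    (w : R) (hw : ¬ IsUnit w)
    (m : ℕ) (hm : m.Prime) (ν : R) (hν : ν * (m : R) = 1)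
    (u : F) (hu : u ≠ 0) (σ₀ σ₁ : F)
    (h₀ : ∃ b ∈ chart R ({x} : Set F), σ₀ ^ m * u - 1 = algebraMap R F w * b)
    (h₁ : ∃ b ∈ chart R ({x⁻¹} : Set F), σ₁ ^ m * u - 1 = algebraMap R F w * b)
    (h₀₁ : ∃ γ : F, σ₀ - σ₁ = algebraMap R F w * γ ∧ γ ^ m * u ∈ chart R ({x, x⁻¹} : Set F)) :
    ∃ (r : R) (a : ℤ) (y : F), r ≠ 0 ∧ u = algebraMap R F r ^ a * y ^ m := by
  obtain ⟨i, hi0, him, f, hf, r, hr⟩ :=
    kummer_charts hinjR hRF hx w hw m hm.two_le ν hν u hu σ₀ σ₁ h₀ h₁ h₀₁
  have hr0 : r ≠ 0 := by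
    rintro rfl
    rw [map_zero] at hr
    exact mul_ne_zero (pow_ne_zero m hf) (pow_ne_zero i hu) hr
  have hrF : algebraMap R F r ≠ 0 := fun h => hr0 (hinjR (by rw [h, map_zero]))
  have hcop : Nat.Coprime i m :=
    ((Nat.Prime.coprime_iff_not_dvd hm).mpr (Nat.not_dvd_of_pos_of_lt hi0 him)).symm
  -- Bezout
  have hbez : (i : ℤ) * Nat.gcdA i m + (m : ℤ) * Nat.gcdB i m = 1 := by
    have := Nat.gcd_eq_gcd_ab i m
    rw [hcop.gcd_eq_one] at this
    exact_mod_cast this.symm
  set a : ℤ := Nat.gcdA i m with ha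
  set b : ℤ := Nat.gcdB i m with hb
  refine ⟨r, a, f⁻¹ ^ a * u ^ b, hr0, ?_⟩
  have e1 : (f ^ m * u ^ i) ^ a = f ^ ((m : ℤ) * a) * u ^ ((i : ℤ) * a) := by
    rw [mul_zpow, ← zpow_natCast f m, ← zpow_natCast u i, ← zpow_mul, ← zpow_mul]
  have e2 : (f⁻¹ ^ a * u ^ b) ^ m = f ^ (-((m : ℤ) * a)) * u ^ ((m : ℤ) * b) := by
    rw [mul_pow, ← zpow_natCast (f⁻¹ ^ a) m, ← zpow_natCast (u ^ b) m, ← zpow_mul, ← zpow_mul,
      inv_zpow', mul_comm a (m : ℤ), mul_comm b (m : ℤ)]
  rw [← hr, e1, e2]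
  have e3 : f ^ ((m : ℤ) * a) * u ^ ((i : ℤ) * a) * (f ^ (-((m : ℤ) * a)) * u ^ ((m : ℤ) * b))
      = (f ^ ((m : ℤ) * a) * f ^ (-((m : ℤ) * a))) * (u ^ ((i : ℤ) * a) * u ^ ((m : ℤ) * b)) := by
    ring
  rw [e3, ← zpow_add₀ hf, ← zpow_add₀ hu, add_neg_cancel, zpow_zero, one_mul, hbez, zpow_one]

end Charts

end Fermat.Agent.S18.H394

end
-- ===== PACK-END S18/H394/KummerCharts.lean

-- ===== PACK-BEGIN S18/H394/KummerRegular.lean
section




/-!
# S18, Route K (helper394): typed core of `node_alg` (prime `m`)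

Setting of `H394/KummerCharts.lean` (= `H138/Connected.lean`): `R` noetherian local with `R[X]`
integrally closed, `F ⊇ R` a field of characteristic `0`, `x` transcendental, `F` finite over
`baseField R x`, `R` integrally closed in `F`; charts `B₀ = chart R {x}`, `B₁ = chart R {x⁻¹}`.

**Theorem `kummer_charts_of_regular`.**  Let `m` be a prime invertible in `R`, `w ∈ R`, `u ∈ Fˣ`.
Assume on each chart `B ∈ {B₀, B₁}`:
* `w` is prime in `B`                      (q-expansion principle),
* `H754.RegularAlong w`                    (b2: the special fibre is regular = `B12.H33.b2Regular`),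
* `H754.OneModPi w u`                      (`u ≡ 1 mod w`),
* `H754.DivisibleDivisor B m u`            (`m ∣ div u`).
Then `u = r ^ a * y ^ m` with `r ∈ R ∖ {0}`, `a ∈ ℤ`, `y ∈ F`.

Proof: `H214.local_existence` (LE) + `H394.kummer_charts_prime` (graded Kummer algebra + b5).
No Kummer extension field, no roots of unity, no enlargement of constants.
-/

set_option autoImplicit false
set_option linter.style.haveILetI false

namespace Fermat.Agent.S18.H394

open Polynomial
open Fermat.Agent.S18.H138 (chart baseField)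

section Regular

variable {R : Type*} [CommRing R] {F : Type*} [Field F] [Algebra R F]
variable [IsNoetherianRing R] [IsIntegrallyClosed R[X]] [CharZero F]

/-- `w ∤ x` in the chart `B₀`. -/
theorem not_dvd_coord (hinjR : Function.Injective (algebraMap R F)) {x : F}
    (hx : Transcendental R x) (w : R) (hw : ¬ IsUnit w) (hw0 : w ≠ 0)
    (X₀ : chart R ({x} : Set F)) (hX₀ : (X₀ : F) = x) :
    ¬ algebraMap R (chart R ({x} : Set F)) w ∣ X₀ := by
  intro h
  obtain ⟨c, hc, h⟩ := (subalgebra_dvd_iff _ w X₀).mp h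
  rw [hX₀] at h
  have := dvd_coeff_of_aeval_eq_mul hx hinjR w hw0 X hc (by rw [aeval_X]; exact h) 1
  rw [coeff_X_one] at this
  exact hw (isUnit_of_dvd_one this)

/-- The saturation property of the overlap `M` (hypothesis `hsat` of `H214.local_existence`). -/
theorem chart_saturated (hinjR : Function.Injective (algebraMap R F)) {x : F}
    (hx : Transcendental R x) (w : R)
    (hw₀ : Prime (algebraMap R (chart R ({x} : Set F)) w))
    (hw₁ : Prime (algebraMap R (chart R ({x⁻¹} : Set F)) w))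
    (f : F) (s₀ : chart R ({x} : Set F)) (hs₀ : ¬ algebraMap R (chart R ({x} : Set F)) w ∣ s₀)
    (s₁ : chart R ({x⁻¹} : Set F)) (hs₁ : ¬ algebraMap R (chart R ({x⁻¹} : Set F)) w ∣ s₁)
    (h1 : (s₀ : F) * (s₁ : F) * f ∈ chart R ({x, x⁻¹} : Set F))
    (h2 : algebraMap R F w * f ∈ chart R ({x, x⁻¹} : Set F)) :
    f ∈ chart R ({x, x⁻¹} : Set F) := by
  have hx0 : x ≠ 0 := H138.ne_zero_of_transcendental hx
  have h0M : (chart R ({x} : Set F)) ≤ (chart R ({x, x⁻¹} : Set F)) := H138.chart_mono (by simp)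
  have h1M : (chart R ({x⁻¹} : Set F)) ≤ (chart R ({x, x⁻¹} : Set F)) := H138.chart_mono (by simp)
  have hxB0 : x ∈ (chart R ({x} : Set F)) := H138.mem_chart_of_mem rfl
  have hxB1 : x⁻¹ ∈ (chart R ({x⁻¹} : Set F)) := H138.mem_chart_of_mem rfl
  have hloc0 : ∀ y ∈ (chart R ({x, x⁻¹} : Set F)), ∃ n : ℕ, x ^ n * y ∈ (chart R ({x} : Set F)) := fun y hy =>
    H138.exists_pow_mul_mem_chart hx0 hy
  have hloc1 : ∀ y ∈ (chart R ({x, x⁻¹} : Set F)), ∃ n : ℕ, x⁻¹ ^ n * y ∈ (chart R ({x⁻¹} : Set F)) := by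
    intro y hy
    refine H138.exists_pow_mul_mem_chart (inv_ne_zero hx0) ?_
    rw [chart_inv_pair]
    exact hy
  have hwnu : ¬ IsUnit w := fun h => hw₀.not_isUnit (h.map _)
  have hw0 : w ≠ 0 := by
    rintro rfl
    exact hw₀.ne_zero (map_zero _)
  have hX₁ : ¬ algebraMap R (chart R ({x⁻¹} : Set F)) w ∣ (⟨x⁻¹, hxB1⟩ : (chart R ({x⁻¹} : Set F))) :=
    not_dvd_coord hinjR (H138.transcendental_inv hx) w hwnu hw0 _ rfl
  -- `t₁ = x ^ j * s₁ ∈ (chart R ({x} : Set F)) ∖ w (chart R ({x} : Set F))`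
  obtain ⟨j, hj⟩ := hloc0 (s₁ : F) (h1M s₁.2)
  have ht₁ : ¬ algebraMap R (chart R ({x} : Set F)) w ∣ (⟨x ^ j * s₁, hj⟩ : (chart R ({x} : Set F))) := by
    intro h
    obtain ⟨c, hc, h⟩ := (subalgebra_dvd_iff _ w _).mp h
    change x ^ j * (s₁ : F) = algebraMap R F w * c at h
    obtain ⟨n, hn⟩ := hloc1 c (h0M hc)
    have hs : (s₁ : F) = x⁻¹ ^ j * (algebraMap R F w * c) := by
      rw [← h, ← mul_assoc, ← mul_pow, inv_mul_cancel₀ hx0, one_pow, one_mul]
    have hdvd : algebraMap R (chart R ({x⁻¹} : Set F)) w ∣ (⟨x⁻¹, hxB1⟩ : (chart R ({x⁻¹} : Set F))) ^ n * s₁ := by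
      rw [subalgebra_dvd_iff]
      refine ⟨x⁻¹ ^ j * (x⁻¹ ^ n * c), (chart R ({x⁻¹} : Set F)).mul_mem ((chart R ({x⁻¹} : Set F)).pow_mem hxB1 _) hn, ?_⟩
      change (x⁻¹) ^ n * (s₁ : F) = algebraMap R F w * (x⁻¹ ^ j * (x⁻¹ ^ n * c))
      rw [hs]
      ring
    rcases hw₁.dvd_or_dvd hdvd with h' | h'
    · exact hX₁ (hw₁.dvd_of_dvd_pow h')
    · exact hs₁ h'
  obtain ⟨N₁, hN₁⟩ := hloc0 _ h2
  obtain ⟨N₂, hN₂⟩ := hloc0 _ h1
  set g : F := x ^ (N₁ + N₂ + j) * f with hg
  have hg1 : algebraMap R F w * g ∈ (chart R ({x} : Set F)) := by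
    have : algebraMap R F w * g = x ^ (N₂ + j) * (x ^ N₁ * (algebraMap R F w * f)) := by
      rw [hg]; ring
    rw [this]
    exact (chart R ({x} : Set F)).mul_mem ((chart R ({x} : Set F)).pow_mem hxB0 _) hN₁
  have hg2 : ((s₀ * ⟨x ^ j * s₁, hj⟩ : (chart R ({x} : Set F))) : F) * g ∈ (chart R ({x} : Set F)) := by
    have : ((s₀ * ⟨x ^ j * s₁, hj⟩ : (chart R ({x} : Set F))) : F) * g
        = x ^ (N₁ + j + j) * (x ^ N₂ * ((s₀ : F) * (s₁ : F) * f)) := by
      change (s₀ : F) * (x ^ j * (s₁ : F)) * g = _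
      rw [hg]; ring
    rw [this]
    exact (chart R ({x} : Set F)).mul_mem ((chart R ({x} : Set F)).pow_mem hxB0 _) hN₂
  have hst : ¬ algebraMap R (chart R ({x} : Set F)) w ∣ s₀ * ⟨x ^ j * s₁, hj⟩ := by
    intro h
    rcases hw₀.dvd_or_dvd h with h' | h'
    · exact hs₀ h'
    · exact ht₁ h'
  have hgB : g ∈ (chart R ({x} : Set F)) := mem_of_mul_mem_of_prime (chart R ({x} : Set F)) w hw₀ _ hst g hg1 hg2
  have : f = x⁻¹ ^ (N₁ + N₂ + j) * g := by
    rw [hg, ← mul_assoc, ← mul_pow, inv_mul_cancel₀ hx0, one_pow, one_mul]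
  rw [this]
  exact (chart R ({x, x⁻¹} : Set F)).mul_mem ((chart R ({x, x⁻¹} : Set F)).pow_mem (h1M hxB1) _) (h0M hgB)

variable [IsLocalRing R]

/-- **Typed core of `node_alg`** (prime `m`). -/
theorem kummer_charts_of_regular
    (hinjR : Function.Injective (algebraMap R F))
    (hRF : ∀ y : F, IsIntegral R y → y ∈ Set.range (algebraMap R F))
    {x : F} (hx : Transcendental R x) [FiniteDimensional (baseField R x) F]
    (w : R) (m : ℕ) (hm : m.Prime) (ν : R) (hν : ν * (m : R) = 1)
    (u : F) (hu : u ≠ 0)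
    (hw₀ : Prime (algebraMap R (chart R ({x} : Set F)) w))
    (hw₁ : Prime (algebraMap R (chart R ({x⁻¹} : Set F)) w))
    (hreg₀ : H754.RegularAlong (algebraMap R (chart R ({x} : Set F)) w))
    (hreg₁ : H754.RegularAlong (algebraMap R (chart R ({x⁻¹} : Set F)) w))
    (hu₀ : H754.OneModPi (algebraMap R (chart R ({x} : Set F)) w) u)
    (hu₁ : H754.OneModPi (algebraMap R (chart R ({x⁻¹} : Set F)) w) u)
    (hdiv₀ : H754.DivisibleDivisor (chart R ({x} : Set F)) m u)
    (hdiv₁ : H754.DivisibleDivisor (chart R ({x⁻¹} : Set F)) m u) :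
    ∃ (r : R) (a : ℤ) (y : F), r ≠ 0 ∧ u = algebraMap R F r ^ a * y ^ m := by
  have hwnu : ¬ IsUnit w := fun h => hw₀.not_isUnit (h.map _)
  haveI : FiniteDimensional (baseField R x⁻¹) F := by
    rw [H138.baseField_inv]; infer_instance
  obtain ⟨i1, i2, i3⟩ := chart_instances (R := R) hx
  obtain ⟨j1, j2, j3⟩ := chart_instances (R := R) (H138.transcendental_inv hx)
  obtain ⟨σ₀, σ₁, h₀, h₁, h₀₁⟩ := H214.local_existence m hm.ne_zero w u
    (chart R ({x} : Set F)) (chart R ({x⁻¹} : Set F)) (chart R ({x, x⁻¹} : Set F))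
    (H138.chart_mono (by simp)) (H138.chart_mono (by simp)) hw₀ hw₁ hreg₀ hreg₁ hu₀ hu₁
    hdiv₀ hdiv₁ (rootClosed_chart _ hm.pos)
    (fun f s₀ hs₀ s₁ hs₁ h1 h2 => chart_saturated hinjR hx w hw₀ hw₁ f s₀ hs₀ s₁ hs₁ h1 h2)
  exact kummer_charts_prime hinjR hRF hx w hwnu m hm ν hν u hu σ₀ σ₁ h₀ h₁ h₀₁

end Regular

end Fermat.Agent.S18.H394

end
-- ===== PACK-END S18/H394/KummerRegular.lean

-- ===== PACK-BEGIN Lib/RR/H638/CechFun.lean
section


/-!
# Čech formula for the two charts of a nonconstant function (helper638)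

For a nonconstant `x : F` the finite sets `zerosOf x`, `polesOf x` are disjoint and nonempty, and

* `holOff (polesOf x) = {f | ∀ v, 0 ≤ ord_v x → 0 ≤ ord_v f}`  (the "finite chart" `B₀`),
* `holOff (zerosOf x) = {f | ∀ v, ord_v x ≤ 0 → 0 ≤ ord_v f}`  (the "chart at infinity" `B∞`),
* `holOff (zerosOf x ∪ polesOf x) = {f | ∀ v, ord_v x = 0 → 0 ≤ ord_v f}`  (`Bm`).

Hence `dim_K Bm / (B₀ + B∞) = g` (`finrank_cech_of_fun`).
-/

set_option autoImplicit false

noncomputable section

open AlgebraicCurve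

namespace Fermat.Agent.Lib.RR.H638

open Fermat.Agent.Lib.RR

variable {K F : Type*} [Field K] [Field F] [Algebra K F] [FF1 K F]

open scoped Classical in
/-- The zeros of a nonzero function. -/
def zerosOf (x : F) (hx : x ≠ 0) : Finset (Place K F) :=
  (divOf (K := K) x hx).support.filter (fun v => 0 < v.ord x)

open scoped Classical in
/-- The poles of a nonzero function. -/
def polesOf (x : F) (hx : x ≠ 0) : Finset (Place K F) :=
  (divOf (K := K) x hx).support.filter (fun v => v.ord x < 0)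

theorem mem_zerosOf {x : F} {hx : x ≠ 0} {v : Place K F} :
    v ∈ zerosOf (K := K) x hx ↔ 0 < v.ord x := by
  classical
  unfold zerosOf
  rw [Finset.mem_filter, Finsupp.mem_support_iff, divOf_apply]
  exact ⟨fun h => h.2, fun h => ⟨ne_of_gt h, h⟩⟩

theorem mem_polesOf {x : F} {hx : x ≠ 0} {v : Place K F} :
    v ∈ polesOf (K := K) x hx ↔ v.ord x < 0 := by
  classical
  unfold polesOf
  rw [Finset.mem_filter, Finsupp.mem_support_iff, divOf_apply]
  exact ⟨fun h => h.2, fun h => ⟨ne_of_lt h, h⟩⟩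

theorem disjoint_zerosOf_polesOf (x : F) (hx : x ≠ 0) :
    Disjoint (zerosOf (K := K) x hx) (polesOf (K := K) x hx) := by
  rw [Finset.disjoint_left]
  intro v hz hp
  rw [mem_zerosOf] at hz
  rw [mem_polesOf] at hp
  omega

/-- A function without poles is constant. -/
theorem mem_range_of_polesOf_eq_empty {x : F} {hx : x ≠ 0}
    (h : polesOf (K := K) x hx = ∅) : x ∈ Set.range (algebraMap K F) := by
  have hL : x ∈ riemannRochSpace (0 : Divisor K F) := by
    rw [mem_L_iff]
    intro v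
    right
    have hv : v ∉ polesOf (K := K) x hx := by rw [h]; exact Finset.notMem_empty v
    rw [mem_polesOf] at hv
    simpa using not_lt.mp hv
  rw [L_zero] at hL
  obtain ⟨c, hc⟩ := hL
  exact ⟨c, hc⟩

theorem polesOf_nonempty {x : F} (hx : x ≠ 0) (hxc : x ∉ Set.range (algebraMap K F)) :
    (polesOf (K := K) x hx).Nonempty := by
  rw [Finset.nonempty_iff_ne_empty]
  exact fun h => hxc (mem_range_of_polesOf_eq_empty h)

theorem zerosOf_nonempty {x : F} (hx : x ≠ 0) (hxc : x ∉ Set.range (algebraMap K F)) :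
    (zerosOf (K := K) x hx).Nonempty := by
  have hinv : x⁻¹ ∉ Set.range (algebraMap K F) := by
    rintro ⟨c, hc⟩
    apply hxc
    refine ⟨c⁻¹, ?_⟩
    rw [map_inv₀, hc, inv_inv]
  obtain ⟨v, hv⟩ := polesOf_nonempty (K := K) (inv_ne_zero hx) hinv
  refine ⟨v, ?_⟩
  rw [mem_polesOf, v.ord_inv] at hv
  rw [mem_zerosOf]
  omega

theorem mem_holOff_polesOf {x : F} {hx : x ≠ 0} {f : F} :
    f ∈ holOff ((polesOf (K := K) x hx : Finset (Place K F)) : Set (Place K F)) ↔
      ∀ v : Place K F, 0 ≤ v.ord x → 0 ≤ v.ord f := by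
  rw [mem_holOff]
  refine forall_congr' fun v => ?_
  rw [Finset.mem_coe, mem_polesOf, not_lt]

theorem mem_holOff_zerosOf {x : F} {hx : x ≠ 0} {f : F} :
    f ∈ holOff ((zerosOf (K := K) x hx : Finset (Place K F)) : Set (Place K F)) ↔
      ∀ v : Place K F, v.ord x ≤ 0 → 0 ≤ v.ord f := by
  rw [mem_holOff]
  refine forall_congr' fun v => ?_
  rw [Finset.mem_coe, mem_zerosOf, not_lt]

theorem mem_holOff_zerosOf_union_polesOf {x : F} {hx : x ≠ 0} {f : F} :
    f ∈ holOff (((zerosOf (K := K) x hx : Finset (Place K F)) : Set (Place K F)) ∪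
        (polesOf (K := K) x hx : Finset (Place K F))) ↔
      ∀ v : Place K F, v.ord x = 0 → 0 ≤ v.ord f := by
  rw [mem_holOff]
  refine forall_congr' fun v => ?_
  rw [Set.mem_union, Finset.mem_coe, Finset.mem_coe, mem_zerosOf, mem_polesOf]
  constructor
  · intro h h0; exact h (by omega)
  · intro h h0; exact h (by omega)

/-- `B₀ + B∞` for the function `x`. -/
def funW (x : F) (hx : x ≠ 0) : Submodule K F :=
  cechW (zerosOf (K := K) x hx) (polesOf (K := K) x hx)

/-- `Bm` for the function `x`. -/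
def funM (x : F) (hx : x ≠ 0) : Submodule K F :=
  cechM (zerosOf (K := K) x hx) (polesOf (K := K) x hx)

theorem mem_funM {x : F} {hx : x ≠ 0} {f : F} :
    f ∈ funM (K := K) x hx ↔ ∀ v : Place K F, v.ord x = 0 → 0 ≤ v.ord f :=
  mem_holOff_zerosOf_union_polesOf

theorem mem_funW {x : F} {hx : x ≠ 0} {f : F} :
    f ∈ funW (K := K) x hx ↔ ∃ a b : F, (∀ v : Place K F, 0 ≤ v.ord x → 0 ≤ v.ord a) ∧
      (∀ v : Place K F, v.ord x ≤ 0 → 0 ≤ v.ord b) ∧ a + b = f := by
  unfold funW cechW
  rw [Submodule.mem_sup]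
  constructor
  · rintro ⟨a, ha, b, hb, rfl⟩
    exact ⟨a, b, mem_holOff_polesOf.mp ha, mem_holOff_zerosOf.mp hb, rfl⟩
  · rintro ⟨a, b, ha, hb, rfl⟩
    exact ⟨a, mem_holOff_polesOf.mpr ha, b, mem_holOff_zerosOf.mpr hb, rfl⟩

/-- **Čech formula for the genus, for the two charts `x ≠ ∞`, `x ≠ 0`** of a nonconstant
function `x`:  `dim_K Bm ⧸ (B₀ + B∞) = g`. -/
theorem finrank_cech_of_fun {g : ℕ} (hg : IsRiemannGenus K F g) {x : F} (hx : x ≠ 0)
    (hxc : x ∉ Set.range (algebraMap K F)) :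
    Module.Finite K (↥(funM (K := K) x hx) ⧸ (funW (K := K) x hx).submoduleOf (funM x hx)) ∧
      Module.finrank K (↥(funM (K := K) x hx) ⧸ (funW (K := K) x hx).submoduleOf (funM x hx))
        = g :=
  finrank_cech_quot _ _ hg (disjoint_zerosOf_polesOf x hx) (zerosOf_nonempty hx hxc)
    (polesOf_nonempty hx hxc)

/-- Upper bound: `g ≤ #h` if `Bm ⊆ span h + B₀ + B∞`. -/
theorem genus_le_of_span_fun {g : ℕ} (hg : IsRiemannGenus K F g) {x : F} (hx : x ≠ 0)
    (hxc : x ∉ Set.range (algebraMap K F)) {ι : Type*} [Fintype ι] (h : ι → F)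
    (hspan : funM (K := K) x hx ≤ Submodule.span K (Set.range h) ⊔ funW x hx) :
    g ≤ Fintype.card ι :=
  genus_le_of_span _ _ hg (disjoint_zerosOf_polesOf x hx) (zerosOf_nonempty hx hxc)
    (polesOf_nonempty hx hxc) h hspan

/-- Lower bound: `#h ≤ g` if the `h i ∈ Bm` are linearly independent modulo `B₀ + B∞`. -/
theorem le_genus_of_indep_fun {g : ℕ} (hg : IsRiemannGenus K F g) {x : F} (hx : x ≠ 0)
    (hxc : x ∉ Set.range (algebraMap K F)) {ι : Type*} [Fintype ι] (h : ι → F)
    (hM : ∀ i, h i ∈ funM (K := K) x hx)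
    (hind : ∀ c : ι → K, ∑ i, c i • h i ∈ funW (K := K) x hx → c = 0) :
    Fintype.card ι ≤ g :=
  le_genus_of_indep' _ _ hg (disjoint_zerosOf_polesOf x hx) (zerosOf_nonempty hx hxc)
    (polesOf_nonempty hx hxc) h hM hind

end Fermat.Agent.Lib.RR.H638

end
end
-- ===== PACK-END Lib/RR/H638/CechFun.lean

-- ===== PACK-BEGIN Lib/RR/H638/NonSpecial.lean
section


/-!
# Non-special effective divisors (helper638)

From Riemann's theorem (`IsRiemannGenus K F g`) alone — no duality, no canonical divisor: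

`exists_nonspecial`: if `F / K` has infinitely many places (e.g. `K` infinite), then for every
finite set `S` of places and every `d ≤ g` there are `d` distinct places `P₁, …, P_d ∉ S` with
`ℓ(P₁ + ⋯ + P_d) = 1`, i.e. `L(P₁ + ⋯ + P_d) = K`.

This is input (G2) of the S18 endgames (origin/helper573:coord/S18-endgame-helper573.md).
-/

set_option autoImplicit false

noncomputable section

open AlgebraicCurve

namespace Fermat.Agent.Lib.RR.H638

open Fermat.Agent.Lib.RR

variable {K F : Type*} [Field K] [Field F] [Algebra K F]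

/-- An element of `L(E + P) ∖ L(E)` has order exactly `-(E P + 1)` at `P`. -/
theorem ord_eq_of_mem_of_not_mem (E : Divisor K F) (v : Place K F) {f : F}
    (hf : f ∈ riemannRochSpace (E + prim v)) (hf' : f ∉ riemannRochSpace E) :
    v.ord f = -(E v + 1) := by
  have hf0 : f ≠ 0 := fun h => hf' (h ▸ Submodule.zero_mem _)
  have h1 := (mem_L_iff.mp hf v).resolve_left hf0
  simp only [Finsupp.coe_add, Pi.add_apply, prim_apply_self] at h1
  by_contra hne
  apply hf'
  rw [mem_L_iff]
  intro w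
  right
  by_cases hw : w = v
  · subst hw; omega
  · have h2 := (mem_L_iff.mp hf w).resolve_left hf0
    simpa [prim_apply_of_ne hw] using h2

section

variable [FF1 K F]

/-- If `ℓ(E + P) > ℓ(E)` for all `P` in a finset `T` of places outside the support of `E`, then
`ℓ(E + ∑_{P ∈ T} P) ≥ ℓ(E) + #T`. -/
theorem ell_add_divT_ge (E : Divisor K F) (T : Finset (Place K F))
    (hT : ∀ v ∈ T, ell E < ell (E + prim v)) :
    ell E + T.card ≤ ell (E + divT T) := by
  classical
  induction T using Finset.induction_on with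
  | empty => simp [divT]
  | insert v T hv ih =>
    have ih' := ih (fun w hw => hT w (Finset.mem_insert_of_mem hw))
    have hvT := hT v (Finset.mem_insert_self v T)
    -- an element of L(E + v) not in L(E)
    have hne : ¬ riemannRochSpace (E + prim v) ≤ riemannRochSpace E := by
      intro hle
      have := Submodule.finrank_mono hle
      unfold ell at hvT
      omega
    obtain ⟨f, hf, hf'⟩ := SetLike.not_le_iff_exists.mp hne
    have hford := ord_eq_of_mem_of_not_mem E v hf hf'
    have hdiv : divT (insert v T) = divT T + prim v := by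
      unfold divT
      rw [Finset.sum_insert hv, add_comm]
    rw [hdiv, ← add_assoc, Finset.card_insert_of_notMem hv]
    -- f ∈ L(E + T + v) \ L(E + T)
    have hle : E + prim v ≤ E + divT T + prim v := by
      rw [Finsupp.le_def]; intro w
      have := divT_nonneg T w
      simp only [Finsupp.coe_add, Pi.add_apply]
      omega
    have hf1 : f ∈ riemannRochSpace (E + divT T + prim v) := L_mono hle hf
    have hf2 : f ∉ riemannRochSpace (E + divT T) := by
      intro hmem
      have hf0 : f ≠ 0 := fun h => hf' (h ▸ Submodule.zero_mem _)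
      have := (mem_L_iff.mp hmem v).resolve_left hf0
      simp only [Finsupp.coe_add, Pi.add_apply, divT_apply_not_mem hv] at this
      omega
    have hlt : ell (E + divT T) < ell (E + divT T + prim v) := by
      unfold ell
      apply Submodule.finrank_lt_finrank_of_lt
      refine lt_of_le_of_ne (L_mono ?_) ?_
      · rw [Finsupp.le_def]; intro w
        simp only [Finsupp.coe_add, Pi.add_apply]
        by_cases hw : w = v
        · subst hw; rw [prim_apply_self]; omega
        · rw [prim_apply_of_ne hw]; omega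
      · intro heq
        exact hf2 (heq ▸ hf1)
    omega

/-- One step: if `ℓ(E) = 1`-type bound `deg E + 1 - ℓ(E) < g`, then only finitely many places
`P ∉ supp E` can have `ℓ(E + P) > ℓ(E)`; quantitatively, any finset `T` of such places, disjoint
from the support of `E`, has `#T` bounded. -/
theorem card_le_of_ell_lt {g : ℕ} (hg : IsRiemannGenus K F g) (E : Divisor K F) :
    ∃ N : ℕ, ∀ T : Finset (Place K F), (∀ v ∈ T, ell E < ell (E + prim v)) →
      (Divisor.degree E + 1 - (ell E : ℤ) < g) → T.card < N := by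
  obtain ⟨c, hc⟩ := hg
  refine ⟨(c - Divisor.degree E).toNat + 1, fun T hT hlt => ?_⟩
  by_contra hcard
  push Not at hcard
  have h1 := ell_add_divT_ge E T hT
  have hdeg : Divisor.degree (E + divT T) = Divisor.degree E + T.card := by
    rw [map_add, degree_divT]
  have hc' : c ≤ Divisor.degree (E + divT T) := by
    rw [hdeg]
    have := Int.self_le_toNat (c - Divisor.degree E)
    have : ((c - Divisor.degree E).toNat : ℤ) + 1 ≤ (T.card : ℤ) := by exact_mod_cast hcard
    omega
  have h2 := hc _ hc'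
  rw [hdeg] at h2
  have h3 : (ell E : ℤ) + T.card ≤ ell (E + divT T) := by exact_mod_cast h1
  omega

/-- **Existence of non-special effective divisors.**  Assume `F / K` has infinitely many places.
For every finite set `S` of places and every `d ≤ g` there is a set `T` of `d` places outside `S`
with `ℓ(∑_{P ∈ T} P) = 1`. -/
theorem exists_nonspecial {g : ℕ} (hg : IsRiemannGenus K F g) [Infinite (Place K F)]
    (S : Finset (Place K F)) (d : ℕ) (hd : d ≤ g) :
    ∃ T : Finset (Place K F), T.card = d ∧ Disjoint T S ∧ ell (divT T) = 1 := by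
  classical
  induction d with
  | zero => exact ⟨∅, rfl, Finset.disjoint_empty_left S, by simp [divT, ell_zero]⟩
  | succ d ih =>
    obtain ⟨T, hTc, hTS, hTl⟩ := ih (by omega)
    obtain ⟨N, hN⟩ := card_le_of_ell_lt hg (divT T)
    have hdeg : Divisor.degree (divT T) + 1 - (ell (divT T) : ℤ) < g := by
      rw [degree_divT, hTl, hTc]
      push_cast
      omega
    -- choose N fresh places outside `S ∪ T`
    have hinf : (((S ∪ T : Finset (Place K F)) : Set (Place K F))ᶜ).Infinite :=
      Set.Finite.infinite_compl (Finset.finite_toSet _)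
    obtain ⟨U, hUsub, hUcard⟩ := hinf.exists_subset_card_eq N
    have hex : ∃ v ∈ U, ¬ ell (divT T) < ell (divT T + prim v) := by
      by_contra hall
      push Not at hall
      have := hN U hall hdeg
      omega
    obtain ⟨v, hvU, hv⟩ := hex
    have hvST : v ∉ S ∪ T := by
      have := hUsub (Finset.mem_coe.mpr hvU)
      simpa using this
    have hvS : v ∉ S := fun h => hvST (Finset.mem_union_left _ h)
    have hvT : v ∉ T := fun h => hvST (Finset.mem_union_right _ h)
    refine ⟨insert v T, ?_, ?_, ?_⟩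
    · rw [Finset.card_insert_of_notMem hvT, hTc]
    · rw [Finset.disjoint_insert_left]
      exact ⟨hvS, hTS⟩
    · have hdiv : divT (insert v T) = divT T + prim v := by
        unfold divT
        rw [Finset.sum_insert hvT, add_comm]
      rw [hdiv]
      have hle : divT T ≤ divT T + prim v := by
        rw [Finsupp.le_def]; intro w
        simp only [Finsupp.coe_add, Pi.add_apply]
        by_cases hw : w = v
        · subst hw; rw [prim_apply_self]; omega
        · rw [prim_apply_of_ne hw]; omega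
      have := ell_mono hle
      omega

/-- Over an infinite constant field there are infinitely many places: the zeros of `x - c`,
`c ∈ K`, are pairwise distinct. -/
theorem infinite_place [Infinite K] : Infinite (Place K F) := by
  obtain ⟨x, hxt, -⟩ := FF1.exists_finite (K := K) (F := F)
  have hnc : ∀ c : K, x - algebraMap K F c ∉ Set.range (algebraMap K F) := by
    rintro c ⟨b, hb⟩
    apply hxt
    have hx : x = algebraMap K F (b + c) := by
      rw [map_add, hb]; ring
    rw [hx]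
    exact isAlgebraic_algebraMap _
  have hne : ∀ c : K, x - algebraMap K F c ≠ 0 := by
    intro c h0
    exact hnc c ⟨0, by rw [map_zero, h0]⟩
  have hz : ∀ c : K, ∃ v : Place K F, 0 < v.ord (x - algebraMap K F c) := by
    intro c
    obtain ⟨v, hv⟩ := zerosOf_nonempty (K := K) (hne c) (hnc c)
    exact ⟨v, mem_zerosOf.mp hv⟩
  choose z hz using hz
  refine Infinite.of_injective z ?_
  intro c c' hcc
  by_contra hne'
  have h1 := hz c
  have h2 := hz c'
  rw [hcc] at h1
  have hsub : (x - algebraMap K F c') - (x - algebraMap K F c) = algebraMap K F (c - c') := by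
    rw [map_sub]; ring
  have hcne : algebraMap K F (c - c') ≠ 0 := by
    rw [Ne, map_eq_zero, sub_eq_zero]; exact hne'
  -- strict version: the difference has positive order
  have h4 : 0 < (z c').ord ((x - algebraMap K F c') - (x - algebraMap K F c)) := by
    have := ord_add_of_le (z c') (f := x - algebraMap K F c') (g := -(x - algebraMap K F c))
      (n := 1) (Or.inr (by omega)) (Or.inr (by rw [ord_neg]; omega))
    rw [← sub_eq_add_neg] at this
    rcases this with h | h
    · rw [hsub] at h; exact absurd h hcne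
    · omega
  rw [hsub, ord_algebraMap] at h4
  exact lt_irrefl _ h4

/-- `L(∑_{P ∈ T} P) = K` for the divisors of `exists_nonspecial`. -/
theorem L_eq_range_of_ell_eq_one {E : Divisor K F} (hE : 0 ≤ E) (h : ell E = 1) :
    riemannRochSpace E = LinearMap.range (Algebra.linearMap K F) := by
  have hle : riemannRochSpace (0 : Divisor K F) ≤ riemannRochSpace E := L_mono hE
  have heq : riemannRochSpace (0 : Divisor K F) = riemannRochSpace E := by
    apply Submodule.eq_of_le_of_finrank_eq hle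
    have h0 : ell (0 : Divisor K F) = 1 := ell_zero
    unfold ell at h h0
    rw [h, h0]
  rw [← heq, L_zero]

/-- Version of `exists_nonspecial` in terms of `L`: `d ≤ g` places outside `S` such that every
function with at most simple poles at these places (and no other poles) is constant. -/
theorem exists_nonspecial' {g : ℕ} (hg : IsRiemannGenus K F g) [Infinite (Place K F)]
    (S : Finset (Place K F)) (d : ℕ) (hd : d ≤ g) :
    ∃ T : Finset (Place K F), T.card = d ∧ Disjoint T S ∧
      ∀ f : F, (∀ v : Place K F, v ∉ T → 0 ≤ v.ord f) → (∀ v ∈ T, -1 ≤ v.ord f) →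
        f ∈ Set.range (algebraMap K F) := by
  obtain ⟨T, hc, hdisj, hl⟩ := exists_nonspecial hg S d hd
  refine ⟨T, hc, hdisj, fun f h1 h2 => ?_⟩
  have hE : (0 : Divisor K F) ≤ divT T := by
    rw [Finsupp.le_def]; intro v; exact divT_nonneg T v
  have hf : f ∈ riemannRochSpace (divT T) := by
    rw [mem_L_iff]
    intro v
    right
    by_cases hv : v ∈ T
    · rw [divT_apply_mem hv]; exact h2 v hv
    · rw [divT_apply_not_mem hv]; simpa using h1 v hv
  rw [L_eq_range_of_ell_eq_one hE hl] at hf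
  obtain ⟨c, hc⟩ := hf
  exact ⟨c, hc⟩

end

end Fermat.Agent.Lib.RR.H638

end
end
-- ===== PACK-END Lib/RR/H638/NonSpecial.lean

-- ===== PACK-BEGIN S17/H860/CramerHeight.lean
section
/-
helper860 — S17 / tower H — abstract core of (E3)-upper / (PART):
the height inequality that Cramer's identity gives.

`B : Matrix ρ γ A` of rank `≤ card κ`, `w j` (`j : J`) vectors in the row space of `B`,
`y : γ → A` a point, `(S i, T i)` (`i : I`) a family of choices of `card κ` rows and columns.
If some minor `det B_{S i, T i}` is nonzero and some `w j ⬝ y` is nonzero then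
  `h (minors) + h (w ⬝ y) ≤ h (w) + (card κ - 1) * h (B) + h (B y) + C`
with `C = cramerConst S T J` depending only on the index data.
-/




set_option linter.unusedSectionVars false

namespace Fermat.Agent.S17.H860

open Matrix MvPolynomial Fermat.Agent.S17.H380

section AdjPoly

variable {κ ρ γ I : Type*} [Fintype κ] [DecidableEq κ]

/-- The entries of the adjugates of the generic `κ × κ` submatrices, as polynomials over `ℚ` in
the entries of a generic `ρ × γ` matrix. -/
noncomputable def adjPoly (S : I → κ → ρ) (T : I → κ → γ) (a : I × κ × κ) :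
    MvPolynomial (ρ × γ) ℚ :=
  adjugate ((mvPolynomialX ρ γ ℚ).submatrix (S a.1) (T a.1)) a.2.1 a.2.2

theorem sum_ite_perm_eq (σ : Equiv.Perm κ) (s : κ) :
    ∑ i : κ, (if σ i = s then 0 else 1) = Fintype.card κ - 1 := by
  have h1 : ∀ i : κ, (if σ i = s then 0 else 1) =
      if i ∈ Finset.univ.erase (σ.symm s) then 1 else 0 := by
    intro i
    by_cases h : σ i = s
    · have : i = σ.symm s := by rw [← h]; simp
      simp [this]
    · have : i ≠ σ.symm s := fun hi => h (by rw [hi]; simp)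
      simp [h, this]
  simp_rw [h1]
  rw [Finset.sum_boole, Finset.filter_mem_eq_inter, Finset.univ_inter,
    Finset.card_erase_of_mem (Finset.mem_univ _), Finset.card_univ]
  simp

theorem adjPoly_isHomogeneous (S : I → κ → ρ) (T : I → κ → γ) (a : I × κ × κ) :
    (adjPoly S T a).IsHomogeneous (Fintype.card κ - 1) := by
  unfold adjPoly
  rw [adjugate_apply, det_apply']
  apply IsHomogeneous.sum
  rintro σ -
  rw [show Fintype.card κ - 1 = 0 + ∑ i : κ, (if σ i = a.2.2 then 0 else 1) by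
    rw [sum_ite_perm_eq, zero_add]]
  apply IsHomogeneous.mul
  · have : ((Equiv.Perm.sign σ : ℤ) : MvPolynomial (ρ × γ) ℚ) = C ((Equiv.Perm.sign σ : ℤ) : ℚ) := by
      simp
    rw [this]
    exact isHomogeneous_C _ _
  · apply IsHomogeneous.prod
    rintro i -
    by_cases h : σ i = a.2.2
    · simp only [h, updateRow_self, if_true]
      by_cases h2 : i = a.2.1
      · subst h2
        simpa using isHomogeneous_one _ _
      · rw [Pi.single_eq_of_ne h2]
        exact isHomogeneous_zero _ _ _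
    · simp only [h, if_false, updateRow_ne h, submatrix_apply, mvPolynomialX_apply]
      exact isHomogeneous_X _ _

variable {A : Type*} [Field A] [CharZero A]

theorem aeval_adjPoly (S : I → κ → ρ) (T : I → κ → γ) (B : Matrix ρ γ A) (a : I × κ × κ) :
    aeval (fun p : ρ × γ => B p.1 p.2) (adjPoly S T a) =
      adjugate (B.submatrix (S a.1) (T a.1)) a.2.1 a.2.2 := by
  unfold adjPoly
  have h := AlgHom.map_adjugate (aeval (R := ℚ) fun p : ρ × γ => B p.1 p.2)
    ((mvPolynomialX ρ γ ℚ).submatrix (S a.1) (T a.1))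
  have h2 : (aeval (R := ℚ) fun p : ρ × γ => B p.1 p.2).mapMatrix
      ((mvPolynomialX ρ γ ℚ).submatrix (S a.1) (T a.1)) = B.submatrix (S a.1) (T a.1) := by
    ext r t
    simp [mvPolynomialX]
  rw [h2] at h
  rw [← h]
  rfl

end AdjPoly

section Main

variable {κ ρ γ I J : Type*} [Fintype κ] [DecidableEq κ] [Fintype ρ] [Fintype γ]
  [Finite I] [Finite J]

/-- The linear forms expressing the right-hand side of Cramer's identity in the coordinates of
the Segre product `w ⊗ adj ⊗ (B y)`. -/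
noncomputable def cramerLin (S : I → κ → ρ) (T : I → κ → γ) (J : Type*) (a : I × J) :
    MvPolynomial ((J × γ) × (I × κ × κ) × ρ) ℚ :=
  ∑ s : κ, ∑ j' : κ, X ((a.2, T a.1 j'), (a.1, j', s), S a.1 s)

theorem cramerLin_isHomogeneous (S : I → κ → ρ) (T : I → κ → γ) (a : I × J) :
    (cramerLin S T J a).IsHomogeneous 1 := by
  unfold cramerLin
  exact IsHomogeneous.sum _ _ _ fun s _ => IsHomogeneous.sum _ _ _ fun j' _ => isHomogeneous_X _ _

/-- The constant in `absLogHeight_cramer_le`; it depends only on the index data. -/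
noncomputable def cramerConst (S : I → κ → ρ) (T : I → κ → γ) (J : Type*) [Finite J] : ℝ :=
  Real.log (max (Height.mulHeightBound (adjPoly S T)) 1) +
    Real.log (max (Height.mulHeightBound (cramerLin S T J)) 1)

theorem cramerConst_nonneg (S : I → κ → ρ) (T : I → κ → γ) : 0 ≤ cramerConst S T J :=
  add_nonneg (Real.log_nonneg (le_max_right _ _)) (Real.log_nonneg (le_max_right _ _))

variable {A : Type*} [Field A] [CharZero A]

/-- Cramer's identity, evaluated at a point `y`. -/
theorem cramer_eval_of_rank_le (B : Matrix ρ γ A) (hrank : B.rank ≤ Fintype.card κ)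
    (w : γ → A) (hw : w ∈ Submodule.span A (Set.range B.row)) (y : γ → A)
    (S : κ → ρ) (T : κ → γ) :
    (B.submatrix S T).det * (w ⬝ᵥ y) =
      ∑ s, ∑ j', w (T j') * ((B.submatrix S T).adjugate j' s * (B *ᵥ y) (S s)) := by
  have h := fun t => cramer_adjugate_of_rank_le B hrank w hw S T t
  calc (B.submatrix S T).det * (w ⬝ᵥ y)
      = ∑ t, ((B.submatrix S T).det * w t) * y t := by
        simp only [dotProduct, Finset.mul_sum, mul_assoc]
    _ = ∑ t, ∑ s, ∑ j', w (T j') * (B.submatrix S T).adjugate j' s * B (S s) t * y t := by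
        refine Finset.sum_congr rfl fun t _ => ?_
        rw [h t, Finset.sum_mul]
        refine Finset.sum_congr rfl fun s _ => ?_
        rw [Finset.sum_mul]
    _ = ∑ s, ∑ t, ∑ j', w (T j') * (B.submatrix S T).adjugate j' s * B (S s) t * y t :=
        Finset.sum_comm
    _ = ∑ s, ∑ j', ∑ t, w (T j') * (B.submatrix S T).adjugate j' s * B (S s) t * y t := by
        refine Finset.sum_congr rfl fun s _ => ?_
        exact Finset.sum_comm
    _ = _ := by
        refine Finset.sum_congr rfl fun s _ => Finset.sum_congr rfl fun j' _ => ?_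
        simp only [mulVec, dotProduct, Finset.mul_sum]
        refine Finset.sum_congr rfl fun t _ => ?_
        ring

/-- **Height form of Cramer's identity**, core: `U` a matrix, `W j` row vectors, `ψu`, `ψw`
extra columns such that Cramer's identity
`det U_{S,T} * ψw j = ∑ s j', W j (T j') * (adj U_{S,T} j' s * ψu (S s))` holds.  If some minor
and some `ψw j` are nonzero then
`h(minors) + h(ψw) ≤ h(W) + (card κ - 1) * h(U) + h(ψu) + cramerConst`. -/
theorem absLogHeight_cramer_core (S : I → κ → ρ) (T : I → κ → γ)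
    (U : Matrix ρ γ A) (hU : ∀ r t, IsIntegral ℚ (U r t))
    (W : J → γ → A) (hWi : ∀ j t, IsIntegral ℚ (W j t))
    (ψu : ρ → A) (hψu : ∀ r, IsIntegral ℚ (ψu r))
    (ψw : J → A) (hψw : ∀ j, IsIntegral ℚ (ψw j))
    (hcr : ∀ i j, (U.submatrix (S i) (T i)).det * ψw j =
      ∑ s, ∑ j', W j (T i j') * ((U.submatrix (S i) (T i)).adjugate j' s * ψu (S i s)))
    (hΔ : ∃ i, (U.submatrix (S i) (T i)).det ≠ 0) (hu : ∃ j, ψw j ≠ 0) :
    absLogHeight (fun i => (U.submatrix (S i) (T i)).det) + absLogHeight ψw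
      ≤ absLogHeight (fun p : J × γ => W p.1 p.2)
        + ((Fintype.card κ - 1 : ℕ) : ℝ) * absLogHeight (fun p : ρ × γ => U p.1 p.2)
        + absLogHeight ψu + cramerConst S T J := by
  classical
  obtain ⟨i₀, hi₀⟩ := hΔ
  obtain ⟨j₀, hj₀⟩ := hu
  -- the vectors
  set Δ : I → A := fun i => (U.submatrix (S i) (T i)).det with hΔdef
  set Wv : J × γ → A := fun p => W p.1 p.2 with hWdef
  set Bv : ρ × γ → A := fun p => U p.1 p.2 with hBvdef
  set Adj : I × κ × κ → A := fun a => adjugate (U.submatrix (S a.1) (T a.1)) a.2.1 a.2.2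
    with hAdjdef
  set AB : (I × κ × κ) × ρ → A := fun q => Adj q.1 * ψu q.2 with hABdef
  set Z : (J × γ) × (I × κ × κ) × ρ → A := fun q => Wv q.1 * AB q.2 with hZdef
  -- integrality
  have hΔi : ∀ i, IsIntegral ℚ (Δ i) := fun i => IsIntegral.det fun _ _ => hU _ _
  have hWvi : ∀ p, IsIntegral ℚ (Wv p) := fun p => hWi _ _
  have hBvi : ∀ p, IsIntegral ℚ (Bv p) := fun p => hU _ _
  have hAdji : ∀ a, IsIntegral ℚ (Adj a) := by
    intro a
    simp only [hAdjdef, adjugate_apply]
    refine IsIntegral.det fun r t => ?_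
    by_cases hr : r = a.2.2
    · subst hr
      rw [updateRow_self]
      by_cases ht : t = a.2.1
      · subst ht
        simpa using isIntegral_one
      · rw [Pi.single_eq_of_ne ht]
        exact isIntegral_zero
    · rw [updateRow_ne hr]
      exact hU _ _
  have hABi : ∀ q, IsIntegral ℚ (AB q) := fun q => (hAdji _).mul (hψu _)
  have hZi : ∀ q, IsIntegral ℚ (Z q) := fun q => (hWvi _).mul (hABi _)
  -- Cramer
  have hcr' : ∀ a : I × J, Δ a.1 * ψw a.2 = aeval Z (cramerLin S T J a) := by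
    intro a
    rw [hΔdef]
    simp only
    rw [hcr a.1 a.2]
    simp only [cramerLin, map_sum, aeval_X, hZdef, hABdef, hWdef, hAdjdef]
  -- nonvanishing
  have hL0 : Δ i₀ * ψw j₀ ≠ 0 := mul_ne_zero hi₀ hj₀
  have hZ0 : Z ≠ 0 := by
    intro hZ
    apply hL0
    have := hcr' (i₀, j₀)
    simp only at this
    rw [this, hZ]
    simp only [cramerLin, map_sum, aeval_X, Pi.zero_apply, Finset.sum_const_zero]
  obtain ⟨q₀, hq₀⟩ := Function.ne_iff.mp hZ0
  have hq₀' : Wv q₀.1 * (Adj q₀.2.1 * ψu q₀.2.2) ≠ 0 := hq₀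
  have hW0 : Wv ≠ 0 := fun h => hq₀' (by rw [h]; simp)
  have hAdj0 : Adj ≠ 0 := fun h => hq₀' (by rw [h]; simp)
  have hψu0 : ψu ≠ 0 := fun h => hq₀' (by rw [h]; simp)
  have hAB0 : AB ≠ 0 := by
    intro h
    apply hq₀'
    have : AB q₀.2 = 0 := by rw [h]; rfl
    have h2 : Adj q₀.2.1 * ψu q₀.2.2 = 0 := this
    rw [h2, mul_zero]
  have hΔ0 : Δ ≠ 0 := fun h => hi₀ (by have := congrFun h i₀; simpa using this)
  have hu0 : ψw ≠ 0 := fun h => hj₀ (by have := congrFun h j₀; simpa using this)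
  -- heights
  have h1 : absLogHeight (fun a : I × J => Δ a.1 * ψw a.2) = absLogHeight Δ + absLogHeight ψw :=
    absLogHeight_fun_mul_eq hΔi hψw hΔ0 hu0
  have h2 : absLogHeight Z = absLogHeight Wv + absLogHeight AB :=
    absLogHeight_fun_mul_eq hWvi hABi hW0 hAB0
  have h3 : absLogHeight AB = absLogHeight Adj + absLogHeight ψu :=
    absLogHeight_fun_mul_eq hAdji hψu hAdj0 hψu0
  have h4 := absLogHeight_eval_le (K₀ := ℚ) (A := A) (p := cramerLin S T J)
    (fun a => cramerLin_isHomogeneous S T a) Z hZi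
  have h5 := absLogHeight_eval_le (K₀ := ℚ) (A := A) (p := adjPoly S T)
    (fun a => adjPoly_isHomogeneous S T a) Bv hBvi
  have h5' : (fun a => aeval Bv (adjPoly S T a)) = Adj := by
    funext a
    exact aeval_adjPoly S T U a
  have h4' : (fun a => aeval Z (cramerLin S T J a)) = fun a : I × J => Δ a.1 * ψw a.2 := by
    funext a
    exact (hcr' a).symm
  rw [h5'] at h5
  rw [h4', h1, h2, h3] at h4
  simp only [Module.finrank_self, Nat.cast_one, inv_one, one_mul] at h4 h5
  unfold cramerConst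
  linarith

/-- **Height form of Cramer's identity** (matrix and evaluation point).
`B` a matrix of rank `≤ card κ` with algebraic entries, `w j` vectors in the row space of `B`,
`y` a point.  If some minor `det B_{S i,T i}` is nonzero and some `w j ⬝ y` is nonzero, then
`h(minors) + h(w ⬝ y) ≤ h(w) + (card κ - 1) * h(B) + h(B y) + cramerConst`. -/
theorem absLogHeight_cramer_le (S : I → κ → ρ) (T : I → κ → γ)
    (B : Matrix ρ γ A) (hB : ∀ r t, IsIntegral ℚ (B r t)) (hrank : B.rank ≤ Fintype.card κ)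
    (w : J → γ → A) (hwi : ∀ j t, IsIntegral ℚ (w j t))
    (hw : ∀ j, w j ∈ Submodule.span A (Set.range B.row))
    (y : γ → A) (hy : ∀ t, IsIntegral ℚ (y t))
    (hΔ : ∃ i, (B.submatrix (S i) (T i)).det ≠ 0) (hu : ∃ j, w j ⬝ᵥ y ≠ 0) :
    absLogHeight (fun i => (B.submatrix (S i) (T i)).det) + absLogHeight (fun j => w j ⬝ᵥ y)
      ≤ absLogHeight (fun p : J × γ => w p.1 p.2)
        + ((Fintype.card κ - 1 : ℕ) : ℝ) * absLogHeight (fun p : ρ × γ => B p.1 p.2)
        + absLogHeight (B *ᵥ y) + cramerConst S T J :=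
  absLogHeight_cramer_core S T B hB w hwi (B *ᵥ y)
    (fun r => IsIntegral.sum _ fun t _ => (hB r t).mul (hy t))
    (fun j => w j ⬝ᵥ y) (fun j => IsIntegral.sum _ fun t _ => (hwi j t).mul (hy t))
    (fun i j => cramer_eval_of_rank_le B hrank (w j) (hw j) y (S i) (T i)) hΔ hu

end Main

end Fermat.Agent.S17.H860

end
-- ===== PACK-END S17/H860/CramerHeight.lean

-- ===== PACK-BEGIN S37/Red/SpecMod.lean
section




/-!
# S37-RED — frozen interfaces at the modular level (architect: helper40)        v1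

* `ModDatum N A`   : a reduction datum (`Spec.lean`) on `(F_N, F_{N,k})` with good charts, linked
                     to the `q`-expansion integrality of the Prelude and Galois-stable.
* `PlaceRed N A ℓ` : everything about the place map `r` that the assembly needs.
* `AssemblyStatement` : `PlaceRed` + `HeckeInputsAlong`  ⟹  `H99.RedData`  (⟹ frozen S37 by
                     `H99.result_of_redData`, already on main).

Documentation: `coord/S37-red.md` on `origin/helper40`.
-/

set_option autoImplicit false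
set_option synthInstance.maxHeartbeats 400000

noncomputable section

namespace Fermat.Agent.S37.Red

open ModularCurve AlgebraicCurve HahnSeries IsLocalRing

/-- `Q̄` -/
abbrev Qb : Type := AlgebraicClosure ℚ

/-- the function field `F_N = Q̄(j(q^d) : d ∣ N)` of `X₀(N)` over `Q̄` -/
abbrev FN (N : ℕ) : Type := modularFunctionFieldBar N

/-- the residue field `k = A/𝔪` -/
abbrev kA (A : ValuationSubring Qb) : Type := ResidueField A

/-- the function field `F_{N,k} = k(j(q^d) : d ∣ N)` -/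
abbrev FNk (A : ValuationSubring Qb) (N : ℕ) : Type := modularFunctionFieldFullC (kA A) N

/-- **RED-E (instantiation)**: a reduction datum on `(F_N, F_{N,k})` with good charts such that
* (link) every Prelude-integral series `y` (i.e. `y ∈ A((q)) ∩ F_N`, `ȳ ∈ F_{N,k}`, `ȳ ≠ 0`) lies
  in `O` and `ρ y = ȳ`;
* (galois) the decomposition group of `A` preserves `O` and fixes the coordinate `x`. -/
structure ModDatum (N : ℕ) (A : ValuationSubring Qb) where
  /-- the datum -/
  G : Datum A (residue A) (FN N) (FNk A N)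
  good : G.Good
  link : ∀ (y : LaurentSeries A) (hy : coeffMap A.subtype y ∈ modularFunctionFieldBar N)
    (hyk : coeffMap (residue A) y ∈ modularFunctionFieldFullC (kA A) N),
    coeffMap (residue A) y ≠ 0 →
    ∃ h : (⟨coeffMap A.subtype y, hy⟩ : FN N) ∈ G.O,
      G.ρ ⟨⟨coeffMap A.subtype y, hy⟩, h⟩ = ⟨coeffMap (residue A) y, hyk⟩
  galois_mem : ∀ σ ∈ A.decompositionSubgroup ℚ, ∀ f : FN N, f ∈ G.O →
    arithmeticGalois (modularFunctionFieldFull N) σ • f ∈ G.O
  galois_x : ∀ σ : Qb ≃ₐ[ℚ] Qb, arithmeticGalois (modularFunctionFieldFull N) σ • G.x = G.x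

/-- **RED-E1**: the abstract (i)+(ii) for a `ModDatum` give the Prelude's
`IsPlaceReductionModL`. -/
def IsPlaceReductionOfIsRedStatement : Prop :=
  ∀ (N : ℕ) (A : ValuationSubring Qb) (M : ModDatum N A)
    (r : Place Qb (FN N) → Place (kA A) (FNk A N)),
    IsRed M.G r → IsPlaceReductionModL A N r

/-- Everything the assembly needs to know about the place map `r` (level `N`). -/
structure PlaceRed (N : ℕ) [NeZero N] (A : ValuationSubring Qb) (ℓ : ℕ) [NeZero ℓ] where
  /-- the place map -/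
  r : Place Qb (FN N) → Place (kA A) (FNk A N)
  /-- (i), (ii) -/
  isRed : IsPlaceReductionModL A N r
  /-- (iii) -/
  pgi : PrincipalGeneratedByIntegral A (residue A) N
  /-- (III) inertia acts trivially after reduction -/
  inertia : ∀ τ ∈ A.inertiaSubgroupIn ℚ, ∀ P : Place Qb (FN N),
    r (arithmeticGalois (modularFunctionFieldFull N) τ • P) = r P
  /-- the coefficientwise Frobenius of `F_{N,k}` -/
  φ : SemilinearAut (kA A) (FNk A N)
  /-- (IV) Frobenius elements reduce to `φ` -/
  frob : ∀ σ : Qb ≃ₐ[ℚ] Qb, A.IsFrobeniusAt σ ℓ → ∀ P : Place Qb (FN N),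
    r (arithmeticGalois (modularFunctionFieldFull N) σ • P) = φ • r P
  /-- (V) pointwise Eichler–Shimura: `r_*(T_ℓ P) = φ(rP) + ℓ·φ⁻¹(rP)` -/
  es : ∀ (hα : HeckeAlphaBarIntegral Qb N ℓ) (hβ : HeckeBetaBarIntegral Qb N ℓ)
    [HasPrincipalDivisors Qb (laurentBaseChange Qb (modularFunctionFieldFull (N * ℓ)))]
    (P : Place Qb (FN N)),
    Finsupp.mapDomain r (heckeDivBar hα hβ (Finsupp.single P 1)) =
      Finsupp.single (φ • r P) 1 + Finsupp.single (φ⁻¹ • r P) (ℓ : ℤ)
  /-- (S18 core, in the `r`-general form `DivisorCore` of helper94) -/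
  inj : ∀ m : ℕ, m.Coprime ℓ → ∀ D : Divisor Qb (FN N),
    Divisor.degree D = 0 → Divisor.IsPrincipal (m • D) →
      Divisor.IsPrincipal (Finsupp.mapDomain r D) → Divisor.IsPrincipal D

/-- **RED-H (assembly, level `N`)**: reduction data for the frozen S37 from `PlaceRed` and
`HeckeInputsAlong` (`red := reductionPic0Along r`). -/
def AssemblyStatement : Prop :=
  ∀ (N : ℕ) [NeZero N] (A : ValuationSubring Qb) (ℓ : ℕ) (hℓ : ℓ.Prime),
    haveI : NeZero ℓ := ⟨hℓ.ne_zero⟩
    HeckeInputsAlong Qb N ℓ → PlaceRed N A ℓ → Nonempty (H99.RedData N A ℓ hℓ)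

end Fermat.Agent.S37.Red

end
end
-- ===== PACK-END S37/Red/SpecMod.lean

-- ===== PACK-BEGIN S37/H940/QSeries.lean
section





/-!
# S37 / RIM (helper940): from an atlas of fibres to the Prelude's `ReductionInputsAlong`

For subfields `F ⊆ L((q))`, `F_k ⊆ k((q))` and a valuation ring `A ⊆ L` with residue map
`π : A → k`, the integral `q`-series of `F` with reduction in `F_k` form a subring `O` with
a reduction map; `qData` is the associated context of fractions.

`reductionInputsAlong_of_atlas`: an atlas of fibres for this context (+ trivial residue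
fields, `HasPrincipalDivisors`, and "every function is a constant times a fraction of integral
series with nonzero reduction") gives the Prelude's `ModularCurve.ReductionInputsAlong A π N`,
i.e. the hypothesis `h` of the frozen statement S18.
-/

set_option autoImplicit false

noncomputable section

namespace Fermat.Agent.S37.H940

open AlgebraicCurve ModularCurve HahnSeries

variable {L : Type*} [Field L] (A : ValuationSubring L) {k : Type*} [Field k] (π : A →+* k)
variable (F : IntermediateField L (LaurentSeries L)) (Fk : IntermediateField k (LaurentSeries k))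

theorem coeffMap_subtype_injective : Function.Injective (coeffMap A.subtype) := by
  intro x y h
  ext n
  have := congrArg (fun z : LaurentSeries L => z.coeff n) h
  simp only [coeffMap_coeff] at this
  exact this

/-- `f ∈ F` is an integral `q`-series whose reduction lies in `F_k`. -/
def IsIntQ (f : F) : Prop :=
  ∃ y : LaurentSeries A, coeffMap A.subtype y = (f : LaurentSeries L) ∧ coeffMap π y ∈ Fk

/-- the ring of integral `q`-series of `F` with reduction in `F_k` -/
def intQ : Subring F where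
  carrier := {f | IsIntQ A π F Fk f}
  mul_mem' := by
    rintro f g ⟨y, hy, hyk⟩ ⟨z, hz, hzk⟩
    refine ⟨y * z, ?_, ?_⟩
    · rw [map_mul, hy, hz]; rfl
    · rw [map_mul]; exact mul_mem hyk hzk
  one_mem' := ⟨1, by rw [map_one]; rfl, by rw [map_one]; exact one_mem _⟩
  add_mem' := by
    rintro f g ⟨y, hy, hyk⟩ ⟨z, hz, hzk⟩
    refine ⟨y + z, ?_, ?_⟩
    · rw [map_add, hy, hz]; rfl
    · rw [map_add]; exact add_mem hyk hzk
  zero_mem' := ⟨0, by rw [map_zero]; rfl, by rw [map_zero]; exact zero_mem _⟩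
  neg_mem' := by
    rintro f ⟨y, hy, hyk⟩
    refine ⟨-y, ?_, ?_⟩
    · rw [map_neg, hy]; rfl
    · rw [map_neg]; exact neg_mem hyk

/-- the integral series representing an element of `intQ` -/
def series (f : intQ A π F Fk) : LaurentSeries A := (f.2 : IsIntQ A π F Fk f).choose

theorem coeffMap_series (f : intQ A π F Fk) :
    coeffMap A.subtype (series A π F Fk f) = ((f : F) : LaurentSeries L) :=
  (f.2 : IsIntQ A π F Fk f).choose_spec.1

theorem coeffMap_series_mem (f : intQ A π F Fk) : coeffMap π (series A π F Fk f) ∈ Fk :=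
  (f.2 : IsIntQ A π F Fk f).choose_spec.2

theorem series_eq (f : intQ A π F Fk) {y : LaurentSeries A}
    (hy : coeffMap A.subtype y = ((f : F) : LaurentSeries L)) : series A π F Fk f = y :=
  coeffMap_subtype_injective A ((coeffMap_series A π F Fk f).trans hy.symm)

/-- the reduction of integral series -/
def redQ : intQ A π F Fk →+* Fk where
  toFun f := ⟨coeffMap π (series A π F Fk f), coeffMap_series_mem A π F Fk f⟩
  map_one' := by
    apply Subtype.ext
    show coeffMap π (series A π F Fk 1) = 1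
    rw [series_eq A π F Fk 1 (y := 1) (by rw [map_one]; rfl), map_one]
  map_mul' f g := by
    apply Subtype.ext
    show coeffMap π (series A π F Fk (f * g))
      = coeffMap π (series A π F Fk f) * coeffMap π (series A π F Fk g)
    rw [series_eq A π F Fk (f * g) (y := series A π F Fk f * series A π F Fk g)
      (by rw [map_mul, coeffMap_series, coeffMap_series]; rfl), map_mul]
  map_zero' := by
    apply Subtype.ext
    show coeffMap π (series A π F Fk 0) = 0
    rw [series_eq A π F Fk 0 (y := 0) (by rw [map_zero]; rfl), map_zero]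
  map_add' f g := by
    apply Subtype.ext
    show coeffMap π (series A π F Fk (f + g))
      = coeffMap π (series A π F Fk f) + coeffMap π (series A π F Fk g)
    rw [series_eq A π F Fk (f + g) (y := series A π F Fk f + series A π F Fk g)
      (by rw [map_add, coeffMap_series, coeffMap_series]; rfl), map_add]

theorem coe_redQ (f : intQ A π F Fk) {y : LaurentSeries A}
    (hy : coeffMap A.subtype y = ((f : F) : LaurentSeries L)) :
    ((redQ A π F Fk f : Fk) : LaurentSeries k) = coeffMap π y := by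
  show coeffMap π (series A π F Fk f) = coeffMap π y
  rw [series_eq A π F Fk f hy]

theorem const_isIntQ (a : A) : IsIntQ A π F Fk (algebraMap L F (a : L)) := by
  refine ⟨HahnSeries.single 0 a, ?_, ?_⟩
  · rw [coeffMap_single]
    show HahnSeries.single 0 (a : L) = algebraMap L (LaurentSeries L) (a : L)
    rw [algebraMap_laurentSeries_eq_single]
  · rw [coeffMap_single, ← algebraMap_laurentSeries_eq_single]
    exact Fk.algebraMap_mem _

/-- the data of integral `q`-series -/
def qData (hsurj : Function.Surjective π) (hker : ∀ a : A, π a = 0 ↔ ¬ IsUnit a) :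
    FracData L F k Fk where
  A := A
  π := π
  π_surj := hsurj
  π_eq_zero := hker
  O := intQ A π F Fk
  ρ₀ := redQ A π F Fk
  A_mem := const_isIntQ A π F Fk
  ρ₀_A a := by
    apply Subtype.ext
    rw [coe_redQ A π F Fk ⟨_, const_isIntQ A π F Fk a⟩ (y := HahnSeries.single 0 a)]
    · rw [coeffMap_single, ← algebraMap_laurentSeries_eq_single]
      rfl
    · rw [coeffMap_single]
      show HahnSeries.single 0 (a : L) = algebraMap L (LaurentSeries L) (a : L)
      rw [algebraMap_laurentSeries_eq_single]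

section Main

variable (hsurj : Function.Surjective π) (hker : ∀ a : A, π a = 0 ↔ ¬ IsUnit a)

/-- "Value group" hypothesis: every nonzero function is a constant times a fraction of
integral series with nonzero reductions. -/
def ValueGroupHyp : Prop :=
  ∀ f : F, f ≠ 0 → ∃ c : L, c ≠ 0 ∧ ∃ y₁ y₂ : intQ A π F Fk,
    redQ A π F Fk y₁ ≠ 0 ∧ redQ A π F Fk y₂ ≠ 0 ∧
      f * (y₂ : F) = algebraMap L F c * (y₁ : F)

/-- clause (ii) of `IsPlaceReductionAlong`, for general `F`, `F_k` -/
def SpecialisesDivisors (r : Place L F → Place k Fk) : Prop :=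
  ∀ (y : LaurentSeries A) (hy : coeffMap A.subtype y ∈ F) (hyk : coeffMap π y ∈ Fk),
    coeffMap π y ≠ 0 → ∀ D : Divisor L F,
      (∀ P, D P = P.ord (⟨coeffMap A.subtype y, hy⟩ : F)) →
        ∀ Q, Finsupp.mapDomain r D Q = Q.ord (⟨coeffMap π y, hyk⟩ : Fk)

/-- the integral principal divisors, for general `F`, `F_k` -/
def intPrincipal : Set (Divisor L F) :=
  {D | ∃ (y : LaurentSeries A) (hy : coeffMap A.subtype y ∈ F),
    coeffMap π y ∈ Fk ∧ coeffMap π y ≠ 0 ∧
      ∀ P, D P = P.ord (⟨coeffMap A.subtype y, hy⟩ : F)}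

/-- **Specialisation of divisors from an atlas.** -/
theorem exists_specialisesDivisors [Infinite k] {ι : Type*}
    (𝔄 : Atlas (qData A π F Fk hsurj hker).ctx ι)
    (hresK : ∀ (P : Place L F) (f : F), 0 ≤ P.ord f → ∃ c : L, InMax P (f - algebraMap L F c))
    (hresk : ∀ (Q : Place k Fk) (g : Fk), 0 ≤ Q.ord g →
      ∃ a : k, InMax Q (g - algebraMap k Fk a)) :
    ∃ r : Place L F → Place k Fk, (∀ P, (r P).deg = P.deg) ∧ SpecialisesDivisors A π F Fk r := by
  obtain ⟨r, hdeg, hr⟩ := Atlas.exists_red 𝔄 hresK hresk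
  refine ⟨r, hdeg, ?_⟩
  intro y hy hyk hne D hD Q
  set 𝔇 := qData A π F Fk hsurj hker with h𝔇
  have hint : IsIntQ A π F Fk ⟨coeffMap A.subtype y, hy⟩ := ⟨y, rfl, hyk⟩
  set a : 𝔇.O := ⟨⟨coeffMap A.subtype y, hy⟩, hint⟩ with ha
  set u : 𝔇.ctx.V := 𝔇.ofO a with hu
  have hρ : 𝔇.ctx.ρ u = ⟨coeffMap π y, hyk⟩ := by
    show 𝔇.ρ (𝔇.ofO a) = _
    rw [𝔇.ρ_ofO]
    apply Subtype.ext
    exact coe_redQ A π F Fk _ (y := y) rfl
  have hu0 : 𝔇.ctx.ρ u ≠ 0 := by
    rw [hρ]
    intro h
    exact hne (congrArg Subtype.val h)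
  have := hr u hu0 D hD Q
  rw [hρ] at this
  exact this

/-- **Principal divisors are generated by integral ones**, from the value group hypothesis. -/
theorem principal_le_closure_intPrincipal [HasPrincipalDivisors L F]
    (hVG : ValueGroupHyp A π F Fk) :
    Divisor.principal (K := L) (F := F) ≤ AddSubgroup.closure (intPrincipal A π F Fk) := by
  rintro D ⟨f, hf, hD⟩
  obtain ⟨c, hc, y₁, y₂, h₁, h₂, hfy⟩ := hVG f hf
  have hy₁ : (y₁ : F) ≠ 0 := fun h => h₁ (by
    have : y₁ = 0 := Subtype.ext h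
    rw [this, map_zero])
  have hy₂ : (y₂ : F) ≠ 0 := fun h => h₂ (by
    have : y₂ = 0 := Subtype.ext h
    rw [this, map_zero])
  obtain ⟨D₁, hD₁, -⟩ := HasPrincipalDivisors.exists_divisor (K := L) (y₁ : F) hy₁
  obtain ⟨D₂, hD₂, -⟩ := HasPrincipalDivisors.exists_divisor (K := L) (y₂ : F) hy₂
  have hmem : ∀ (y : intQ A π F Fk) (E : Divisor L F), redQ A π F Fk y ≠ 0 →
      (∀ P, E P = P.ord (y : F)) → E ∈ intPrincipal A π F Fk := by
    intro y E hy hE
    obtain ⟨s, hs, hsk⟩ := (y.2 : IsIntQ A π F Fk y)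
    refine ⟨s, by rw [hs]; exact (y : F).2, hsk, ?_, ?_⟩
    · intro h0
      apply hy
      apply Subtype.ext
      rw [coe_redQ A π F Fk y hs, h0]
      rfl
    · intro P
      rw [hE P]
      congr 1
      apply Subtype.ext
      exact hs.symm
  have hDeq : D = D₁ - D₂ := by
    ext P
    rw [Finsupp.sub_apply, hD P, hD₁ P, hD₂ P]
    have hc' : algebraMap L F c ≠ 0 := by
      rwa [Ne, map_eq_zero_iff _ (algebraMap L F).injective]
    have h := congrArg P.ord hfy
    rw [P.ord_mul hf hy₂, P.ord_mul hc' hy₁, Fermat.Agent.S24.FF.ord_algebraMap] at h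
    omega
  rw [hDeq]
  exact AddSubgroup.sub_mem _ (AddSubgroup.subset_closure (hmem y₁ D₁ h₁ hD₁))
    (AddSubgroup.subset_closure (hmem y₂ D₂ h₂ hD₂))

end Main

section Prelude

variable {L : Type*} [Field L] [Algebra ℚ L] (A : ValuationSubring L) {k : Type*} [Field k]
  (π : A →+* k) (N : ℕ)
variable (hsurj : Function.Surjective π) (hker : ∀ a : A, π a = 0 ↔ ¬ IsUnit a)

/-- **The Prelude's `ReductionInputsAlong` from an atlas of fibres** (the hypothesis `h` of the
frozen statement S18 when `π` is the residue map of `A ⊆ ℚ̄`). -/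
theorem reductionInputsAlong_of_atlas [Infinite k] {ι : Type*}
    [HasPrincipalDivisors L (laurentBaseChange L (modularFunctionFieldFull N))]
    (𝔄 : Atlas (qData A π (laurentBaseChange L (modularFunctionFieldFull N))
      (modularFunctionFieldFullC k N) hsurj hker).ctx ι)
    (hresK : ∀ (P : Place L (laurentBaseChange L (modularFunctionFieldFull N)))
      (f : laurentBaseChange L (modularFunctionFieldFull N)), 0 ≤ P.ord f →
        ∃ c : L, InMax P (f - algebraMap L _ c))
    (hresk : ∀ (Q : Place k (modularFunctionFieldFullC k N))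
      (g : modularFunctionFieldFullC k N), 0 ≤ Q.ord g →
        ∃ a : k, InMax Q (g - algebraMap k _ a))
    (hVG : ValueGroupHyp A π (laurentBaseChange L (modularFunctionFieldFull N))
      (modularFunctionFieldFullC k N)) :
    ReductionInputsAlong A π N := by
  obtain ⟨r, hdeg, hr⟩ := exists_specialisesDivisors A π _ _ hsurj hker 𝔄 hresK hresk
  exact ⟨r, ⟨hdeg, hr⟩, principal_le_closure_intPrincipal A π _ _ hVG⟩

end Prelude

end Fermat.Agent.S37.H940

end
end
-- ===== PACK-END S37/H940/QSeries.lean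

-- ===== PACK-BEGIN S37/Red/ModG.lean
section




/-!
# S37 node_rim — RED-E1: the modular reduction datum (architect: helper40)

For `F ⊆ Q̄((q))`, `F_k ⊆ k((q))` the modular function fields and `A ⊆ Q̄` a valuation subring,
we build the reduction datum `modG : Datum A (residue A) F F_k` of `Red/Spec.lean`:

* `O`  = the ring `V` of fractions `a / b` of integral `q`-series (`a, b ∈ A((q)) ∩ F` with
         reductions in `F_k`, `b̄ ≠ 0`) of helper940 (`H940.qData`, `FracData.V`); it is a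
         VALUATION ring by the value-group hypothesis `ModVG` (every `f ≠ 0` is `c · y₁ / y₂`);
* `ρ`  = `ρ (a / b) = ā / b̄`;
* `x`  = any integral coordinate with transcendental reduction (`j`, or a Hauptmodul).

`modG_link` is the `link` of `ModDatum`.  What remains for NODE [RIM] is exactly
`(modG …).Good` (+ `MainStatement` + PGI): see `node_rim_of_modG`.
-/

set_option autoImplicit false
set_option synthInstance.maxHeartbeats 400000

noncomputable section

namespace Fermat.Agent.S37.Red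

open ModularCurve AlgebraicCurve HahnSeries IsLocalRing

variable (N : ℕ) (A : ValuationSubring Qb)

theorem residue_eq_zero_iff_not_isUnit (a : A) : residue A a = 0 ↔ ¬ IsUnit a := by
  rw [IsLocalRing.residue_eq_zero_iff, IsLocalRing.mem_maximalIdeal, mem_nonunits_iff]

/-- helper940's fraction data for the modular function fields -/
def modFrac : H940.FracData Qb (FN N) (kA A) (FNk A N) :=
  H940.qData A (residue A) (modularFunctionFieldBar N)
    (modularFunctionFieldFullC (kA A) N) IsLocalRing.residue_surjective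
    (residue_eq_zero_iff_not_isUnit A)

/-- **Value-group hypothesis** (helper940's `ValueGroupHyp`): every nonzero `f ∈ F` is a constant
times a fraction of integral `q`-series with nonzero reductions in `F_k`. -/
abbrev ModVG : Prop :=
  H940.ValueGroupHyp A (residue A) (modularFunctionFieldBar N)
    (modularFunctionFieldFullC (kA A) N)

variable {N A}

/-- the Gauss valuation ring of `F` -/
def modO (hVG : ModVG N A) : ValuationSubring (FN N) :=
  { (modFrac N A).V with
    mem_or_inv_mem' := by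
      intro f
      rcases eq_or_ne f 0 with rfl | hf
      · exact Or.inl (Subring.zero_mem _)
      obtain ⟨c, hc, y₁, y₂, h₁, h₂, hfy⟩ := hVG f hf
      let z₁ : (modFrac N A).O := y₁
      let z₂ : (modFrac N A).O := y₂
      have hz₁ : (modFrac N A).ρ₀ z₁ ≠ 0 := h₁
      have hz₂ : (modFrac N A).ρ₀ z₂ ≠ 0 := h₂
      have hfz : f * (z₂ : FN N) = algebraMap Qb (FN N) c * (z₁ : FN N) := hfy
      by_cases hcA : c ∈ A
      · left
        refine ⟨⟨algebraMap Qb (FN N) c, (modFrac N A).A_mem ⟨c, hcA⟩⟩ * z₁, z₂, hz₂, ?_⟩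
        rw [hfz]
        rfl
      · right
        have hinv : c⁻¹ ∈ A := (A.mem_or_inv_mem c).resolve_left hcA
        refine ⟨⟨algebraMap Qb (FN N) c⁻¹, (modFrac N A).A_mem ⟨c⁻¹, hinv⟩⟩ * z₂, z₁, hz₁, ?_⟩
        have hy₁ : (z₁ : FN N) ≠ 0 := (modFrac N A).coe_ne_zero hz₁
        have hc' : algebraMap Qb (FN N) c ≠ 0 := by
          rwa [Ne, map_eq_zero_iff _ (algebraMap Qb (FN N)).injective]
        show f⁻¹ * (z₁ : FN N) = algebraMap Qb (FN N) c⁻¹ * (z₂ : FN N)
        rw [map_inv₀, inv_mul_eq_iff_eq_mul₀ hf, ← mul_assoc, mul_comm f, mul_assoc, hfz,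
          ← mul_assoc, inv_mul_cancel₀ hc', one_mul] }

theorem mem_modO (hVG : ModVG N A) {f : FN N} : f ∈ modO hVG ↔ f ∈ (modFrac N A).V := Iff.rfl

/-- the reduction map on the Gauss valuation ring -/
def modρ (hVG : ModVG N A) : modO hVG →+* FNk A N := (modFrac N A).ρ

end Fermat.Agent.S37.Red

namespace Fermat.Agent.S37.Red

open ModularCurve AlgebraicCurve HahnSeries IsLocalRing

variable {N : ℕ} {A : ValuationSubring Qb}

/-- an integral series of `F` with reduction in `F_k`, as an element of the Gauss valuation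
ring -/
def ofSeries (hVG : ModVG N A) (y : LaurentSeries A)
    (hy : coeffMap A.subtype y ∈ modularFunctionFieldBar N)
    (hyk : coeffMap (residue A) y ∈ modularFunctionFieldFullC (kA A) N) : modO hVG :=
  ⟨⟨coeffMap A.subtype y, hy⟩, (modFrac N A).isFrac_of_mem ⟨⟨coeffMap A.subtype y, hy⟩, y, rfl, hyk⟩⟩

@[simp] theorem coe_ofSeries (hVG : ModVG N A) (y : LaurentSeries A)
    (hy : coeffMap A.subtype y ∈ modularFunctionFieldBar N)
    (hyk : coeffMap (residue A) y ∈ modularFunctionFieldFullC (kA A) N) :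
    ((ofSeries hVG y hy hyk : modO hVG) : FN N) = ⟨coeffMap A.subtype y, hy⟩ := rfl

theorem modρ_ofSeries (hVG : ModVG N A) (y : LaurentSeries A)
    (hy : coeffMap A.subtype y ∈ modularFunctionFieldBar N)
    (hyk : coeffMap (residue A) y ∈ modularFunctionFieldFullC (kA A) N) :
    modρ hVG (ofSeries hVG y hy hyk) = ⟨coeffMap (residue A) y, hyk⟩ := by
  have h := (modFrac N A).ρ_ofO ⟨⟨coeffMap A.subtype y, hy⟩, y, rfl, hyk⟩
  refine Eq.trans h ?_
  apply Subtype.ext
  exact H940.coe_redQ A (residue A) _ _ ⟨⟨coeffMap A.subtype y, hy⟩, y, rfl, hyk⟩ (y := y) rfl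

/-- **`link`**: a Prelude-integral series lies in `O` and `ρ` is its coefficientwise
reduction. -/
theorem modG_link (hVG : ModVG N A) (y : LaurentSeries A)
    (hy : coeffMap A.subtype y ∈ modularFunctionFieldBar N)
    (hyk : coeffMap (residue A) y ∈ modularFunctionFieldFullC (kA A) N) :
    ∃ h : (⟨coeffMap A.subtype y, hy⟩ : FN N) ∈ modO hVG,
      modρ hVG ⟨⟨coeffMap A.subtype y, hy⟩, h⟩ = ⟨coeffMap (residue A) y, hyk⟩ :=
  ⟨(ofSeries hVG y hy hyk).2, modρ_ofSeries hVG y hy hyk⟩

/-- units of `O`: nonzero reduction implies the inverse is in `O` -/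
theorem inv_mem_modO (hVG : ModVG N A) (u : modO hVG) (hu : modρ hVG u ≠ 0) :
    ((u : FN N))⁻¹ ∈ modO hVG :=
  (modFrac N A).ctx.inv_mem u hu

/-- the image of `ρ`, as a set of series -/
def ρImage (hVG : ModVG N A) : Set (LaurentSeries (kA A)) :=
  {g | ∃ u : modO hVG, ((modρ hVG u : FNk A N) : LaurentSeries (kA A)) = g}

/-- the image of `ρ` is an intermediate field -/
def ρField (hVG : ModVG N A) : IntermediateField (kA A) (LaurentSeries (kA A)) where
  carrier := ρImage hVG
  mul_mem' := by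
    rintro _ _ ⟨u, rfl⟩ ⟨v, rfl⟩
    exact ⟨u * v, by rw [map_mul]; rfl⟩
  one_mem' := ⟨1, by rw [map_one]; rfl⟩
  add_mem' := by
    rintro _ _ ⟨u, rfl⟩ ⟨v, rfl⟩
    exact ⟨u + v, by rw [map_add]; rfl⟩
  zero_mem' := ⟨0, by rw [map_zero]; rfl⟩
  algebraMap_mem' := by
    intro c
    obtain ⟨a, rfl⟩ := IsLocalRing.residue_surjective (R := A) c
    refine ⟨⟨algebraMap Qb (FN N) (a : Qb), (modFrac N A).ctx.A_mem a⟩, ?_⟩
    have h := (modFrac N A).ctx.ρ_A a
    show ((modρ hVG _ : FNk A N) : LaurentSeries (kA A)) = _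
    have h' : modρ hVG ⟨algebraMap Qb (FN N) (a : Qb), (modFrac N A).ctx.A_mem a⟩ =
        algebraMap (kA A) (FNk A N) (residue A a) := h
    rw [h']
    rfl
  inv_mem' := by
    rintro _ ⟨u, rfl⟩
    by_cases hu : modρ hVG u = 0
    · refine ⟨0, ?_⟩
      rw [hu, map_zero]
      simp
    · refine ⟨⟨((u : FN N))⁻¹, inv_mem_modO hVG u hu⟩, ?_⟩
      have hmul : (⟨((u : FN N))⁻¹, inv_mem_modO hVG u hu⟩ : modO hVG) * u = 1 := by
        apply Subtype.ext
        have hu0 : (u : FN N) ≠ 0 := by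
          intro h0
          apply hu
          have : u = 0 := Subtype.ext h0
          rw [this, map_zero]
        show ((u : FN N))⁻¹ * (u : FN N) = 1
        exact inv_mul_cancel₀ hu0
      have h1 := congrArg (modρ hVG) hmul
      rw [map_mul, map_one] at h1
      have h2 : modρ hVG ⟨((u : FN N))⁻¹, inv_mem_modO hVG u hu⟩ = (modρ hVG u)⁻¹ :=
        eq_inv_of_mul_eq_one_left h1
      rw [h2]
      rfl

end Fermat.Agent.S37.Red

namespace Fermat.Agent.S37.Red

open ModularCurve AlgebraicCurve HahnSeries IsLocalRing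

variable {N : ℕ} {A : ValuationSubring Qb}

/-- `j(q^d) ∈ F` for `d ∣ N` -/
theorem jqNModC_mem_bar {d : ℕ} [NeZero d] (hd : d ∣ N) :
    jqNModC Qb d ∈ modularFunctionFieldBar N := by
  have h1 : jqNModC ℚ d ∈ modularFunctionFieldFull N := by
    rw [← modularFunctionFieldFullC_rat]
    exact jqModCd_mem_full ℚ N hd
  have h2 := coeffEmb_mem_laurentBaseChange Qb h1
  have h3 : coeffEmb Qb (jqNModC ℚ d) = jqNModC Qb d :=
    coeffMap_jqNModC (algebraMap ℚ Qb) d
  rwa [h3] at h2

/-- the generators of `F_k` are reductions -/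
theorem generators_mem_ρField (hVG : ModVG N A) :
    divisorExpansionsC (kA A) N ⊆ (ρField hVG : Set (LaurentSeries (kA A))) := by
  rintro g ⟨d, hne, hd, rfl⟩
  haveI := hne
  have hy : coeffMap A.subtype (jqNModC A d) ∈ modularFunctionFieldBar N := by
    rw [coeffMap_jqNModC]
    exact jqNModC_mem_bar hd
  have hyk : coeffMap (residue A) (jqNModC A d) ∈ modularFunctionFieldFullC (kA A) N := by
    rw [coeffMap_jqNModC]
    exact jqModCd_mem_full (kA A) N hd
  refine ⟨ofSeries hVG (jqNModC A d) hy hyk, ?_⟩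
  rw [modρ_ofSeries]
  show coeffMap (residue A) (jqNModC A d) = _
  rw [coeffMap_jqNModC]
  rfl

/-- **`ρ` is surjective** -/
theorem modρ_surjective (hVG : ModVG N A) : Function.Surjective (modρ hVG) := by
  intro g
  have hle : modularFunctionFieldFullC (kA A) N ≤ ρField hVG :=
    IntermediateField.adjoin_le_iff.mpr (generators_mem_ρField hVG)
  obtain ⟨u, hu⟩ := hle g.2
  exact ⟨u, Subtype.ext hu⟩

/-- **RED-E1: the modular reduction datum** with coordinate `x` (an integral series of `F`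
whose reduction lies in `F_k` and is transcendental over `k`). -/
def modG (hVG : ModVG N A) (x : LaurentSeries A)
    (hx : coeffMap A.subtype x ∈ modularFunctionFieldBar N)
    (hxk : coeffMap (residue A) x ∈ modularFunctionFieldFullC (kA A) N)
    (htr : Transcendental (kA A) (⟨coeffMap (residue A) x, hxk⟩ : FNk A N)) :
    Datum A (residue A) (FN N) (FNk A N) where
  π_surj := IsLocalRing.residue_surjective
  O := modO hVG
  ρ := modρ hVG
  ρ_surj := modρ_surjective hVG
  const_mem := fun a => (modFrac N A).ctx.A_mem a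
  ρ_const := fun a => (modFrac N A).ctx.ρ_A a
  x := ⟨coeffMap A.subtype x, hx⟩
  x_mem := (ofSeries hVG x hx hxk).2
  xk_transc := by
    have h := modρ_ofSeries hVG x hx hxk
    have h' : modρ hVG ⟨⟨coeffMap A.subtype x, hx⟩, (ofSeries hVG x hx hxk).2⟩ =
        ⟨coeffMap (residue A) x, hxk⟩ := h
    rw [h']
    exact htr

/-- `j ∈ F`, as an integral series -/
theorem coeffMap_jqModC_mem_bar (N : ℕ) (A : ValuationSubring Qb) :
    coeffMap A.subtype (jqModC A) ∈ modularFunctionFieldBar N := by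
  have h := jqNModC_mem_bar (N := N) (d := 1) (one_dvd N)
  rw [jqNModC_one] at h
  rw [coeffMap_jqModC]
  exact h

/-- `j̄ ∈ F_k` -/
theorem coeffMap_jqModC_mem_fullC (N : ℕ) (A : ValuationSubring Qb) :
    coeffMap (residue A) (jqModC A) ∈ modularFunctionFieldFullC (kA A) N := by
  rw [coeffMap_jqModC]
  exact jqModC_mem_full (kA A) N

/-- the reduced coordinate `j̄ ∈ F_k` -/
def jk (N : ℕ) (A : ValuationSubring Qb) : FNk A N :=
  ⟨coeffMap (residue A) (jqModC A), coeffMap_jqModC_mem_fullC N A⟩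

/-- **The modular reduction datum with coordinate `x = j`.** -/
def modGj (hVG : ModVG N A) (htr : Transcendental (kA A) (jk N A)) :
    Datum A (residue A) (FN N) (FNk A N) :=
  modG hVG (jqModC A) (coeffMap_jqModC_mem_bar N A) (coeffMap_jqModC_mem_fullC N A) htr

/-- **NODE [RIM] from `MainStatement`, PGI and goodness of the modular datum.** -/
theorem node_rim_of_modG (hMain : MainStatement.{0}) (hVG : ModVG N A) (x : LaurentSeries A)
    (hx : coeffMap A.subtype x ∈ modularFunctionFieldBar N)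
    (hxk : coeffMap (residue A) x ∈ modularFunctionFieldFullC (kA A) N)
    (htr : Transcendental (kA A) (⟨coeffMap (residue A) x, hxk⟩ : FNk A N))
    (hgood : (modG hVG x hx hxk htr).Good)
    (hpgi : PrincipalGeneratedByIntegral A (residue A) N) :
    ReductionInputsModL A N := by
  haveI : IsAlgClosed (kA A) := Fermat.Agent.S18.H9.resAlgClosed Qb A
  obtain ⟨r, hr, -⟩ := hMain Qb (kA A) (FN N) (FNk A N) A (residue A) _ hgood
  refine ⟨r, ⟨hr.1, ?_⟩, hpgi⟩
  intro y hy hyk hne D hD Q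
  obtain ⟨h, hρ⟩ := modG_link hVG y hy hyk
  have hne' : (modG hVG x hx hxk htr).ρ ⟨⟨coeffMap A.subtype y, hy⟩, h⟩ ≠ 0 := by
    intro h0
    apply hne
    have := hρ.symm.trans h0
    exact congrArg Subtype.val this
  have key := hr.2 _ h hne' D hD Q
  have hρ' : (modG hVG x hx hxk htr).ρ ⟨⟨coeffMap A.subtype y, hy⟩, h⟩ =
      ⟨coeffMap (residue A) y, hyk⟩ := hρ
  rw [hρ'] at key
  exact key

end Fermat.Agent.S37.Red

end
end
-- ===== PACK-END S37/Red/ModG.lean

-- ===== PACK-BEGIN S37/H568/ValueGroup.lean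
section



/-!
# S37 / node_rim, leaf VG (helper568): `ValueGroupHyp` for the modular function fields

Input `hVG` of helper940's `H940.reductionInputsAlong_of_atlas`, for
`F = modularFunctionFieldBar N`, `F_k = modularFunctionFieldFullC k N`, `π = residue A`:

    theorem valueGroupHyp_modular (hcore : CoreData N (IsLocalRing.ResidueField A)) :
        H940.ValueGroupHyp A (IsLocalRing.residue A) (modularFunctionFieldBar N)
          (modularFunctionFieldFullC (IsLocalRing.ResidueField A) N)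

(every `f ≠ 0` of `F` is a constant times a quotient of two integral `q`-series with nonzero
reduction in `F_k`).  Same mathematics as helper700's `pgi` (normal form + normalisation), from
the output `CoreData` of row S28.
-/

set_option autoImplicit false

noncomputable section

namespace Fermat.Agent.S37.H568

open ModularCurve HahnSeries Polynomial AlgebraicCurve
open Fermat.Agent.S28 (jField intDivisorExpansions CoreData)
open Fermat.Agent.S37.H700 Fermat.Agent.S37.H940

variable {N : ℕ} [NeZero N] {A : ValuationSubring (AlgebraicClosure ℚ)}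

/-- **`ValueGroupHyp` for `ℚ̄(X₀(N))`.** -/
theorem valueGroupHyp_modular (hcore : CoreData N (IsLocalRing.ResidueField A)) :
    ValueGroupHyp A (IsLocalRing.residue A) (modularFunctionFieldBar N)
      (modularFunctionFieldFullC (IsLocalRing.ResidueField A) N) := by
  classical
  obtain ⟨n, y, hy_mem, hy_span, hy_ind⟩ := hcore.exists_basis
  intro f hf0
  have hfU : (f : LaurentSeries Qb) ≠ 0 := fun h => hf0 (Subtype.ext h)
  obtain ⟨Q₀, P₀, hQ₀, h₀⟩ := exists_denominator Qb y
    (mem_spanL_of_mem_baseChange Qb y N hy_mem hy_span f.2)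
  have hQ₀e : evalJ Qb Q₀ ≠ 0 := fun h => hQ₀ ((evalJ_eq_zero_iff Qb).mp h)
  have hP₀ : ∃ i, P₀ i ≠ 0 := by
    by_contra hcon
    push Not at hcon
    have : evalJ Qb Q₀ * (f : LaurentSeries Qb) = 0 := by
      rw [h₀]
      exact Finset.sum_eq_zero fun i _ => by rw [hcon i, evalJ_zero, zero_mul]
    exact (mul_ne_zero hQ₀e hfU) this
  obtain ⟨cQ, hcQ, Q', hQ', u₀, hQ'red⟩ := normalize_family A (fun _ : Unit => Q₀) ⟨(), hQ₀⟩
  obtain ⟨cP, hcP, P', hP', i₀, hi₀⟩ := normalize_family A P₀ hP₀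
  set b : LaurentSeries A := evalJ A (Q' ()) with hb
  set a : LaurentSeries A := ∑ i, evalJ A (P' i) * coeffMap (Int.castRingHom A) (y i) with ha
  have hbL : coeffMap A.subtype b = HahnSeries.C cQ * evalJ Qb Q₀ := by
    rw [hb, coeffMap_evalJ, hQ' (), evalJ_mul, evalJ_C]
  have haL : coeffMap A.subtype a = HahnSeries.C cP * (evalJ Qb Q₀ * (f : LaurentSeries Qb)) := by
    rw [ha, map_sum, h₀, Finset.mul_sum]
    refine Finset.sum_congr rfl fun i _ => ?_
    rw [map_mul, coeffMap_evalJ, hP' i, evalJ_mul, evalJ_C, coeffMap_coeffMap, mul_assoc]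
    congr 2
  have hQmem : evalJ Qb Q₀ ∈ modularFunctionFieldBar N := jField_le_bar (evalJ_mem_jField Qb Q₀)
  have hbmem : coeffMap A.subtype b ∈ modularFunctionFieldBar N := by
    rw [hbL]; exact mul_mem (C_mem_bar cQ) hQmem
  have hamem : coeffMap A.subtype a ∈ modularFunctionFieldBar N := by
    rw [haL]; exact mul_mem (C_mem_bar cP) (mul_mem hQmem f.2)
  have hbred : coeffMap (IsLocalRing.residue A) b ≠ 0 := by
    rw [hb, coeffMap_evalJ]
    exact fun h => hQ'red ((evalJ_eq_zero_iff _).mp h)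
  have hared : coeffMap (IsLocalRing.residue A) a ≠ 0 := by
    intro h
    rw [ha, map_sum] at h
    have h' : ∑ i, evalJ (IsLocalRing.ResidueField A) ((P' i).map (IsLocalRing.residue A)) *
        coeffMap (Int.castRingHom (IsLocalRing.ResidueField A)) (y i) = 0 := by
      rw [← h]
      refine Finset.sum_congr rfl fun i _ => ?_
      rw [map_mul, coeffMap_evalJ, coeffMap_coeffMap]
      congr 1
    exact hi₀ (eq_zero_of_sum_evalJ_eq_zero _ hy_ind _ h' i₀)
  -- the two integral series as elements of `intQ`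
  have haI : IsIntQ A (IsLocalRing.residue A) (modularFunctionFieldBar N)
      (modularFunctionFieldFullC (IsLocalRing.ResidueField A) N) ⟨coeffMap A.subtype a, hamem⟩ :=
    ⟨a, rfl, reduction_mem hcore a hamem⟩
  have hbI : IsIntQ A (IsLocalRing.residue A) (modularFunctionFieldBar N)
      (modularFunctionFieldFullC (IsLocalRing.ResidueField A) N) ⟨coeffMap A.subtype b, hbmem⟩ :=
    ⟨b, rfl, reduction_mem hcore b hbmem⟩
  refine ⟨cQ / cP, div_ne_zero hcQ hcP, ⟨⟨coeffMap A.subtype a, hamem⟩, haI⟩,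
    ⟨⟨coeffMap A.subtype b, hbmem⟩, hbI⟩, ?_, ?_, ?_⟩
  · intro h
    apply hared
    have := congrArg (fun z : modularFunctionFieldFullC (IsLocalRing.ResidueField A) N =>
      (z : LaurentSeries (IsLocalRing.ResidueField A))) h
    rw [coe_redQ A (IsLocalRing.residue A) _ _ ⟨⟨coeffMap A.subtype a, hamem⟩, haI⟩ (y := a) rfl]
      at this
    exact this
  · intro h
    apply hbred
    have := congrArg (fun z : modularFunctionFieldFullC (IsLocalRing.ResidueField A) N =>
      (z : LaurentSeries (IsLocalRing.ResidueField A))) h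
    rw [coe_redQ A (IsLocalRing.residue A) _ _ ⟨⟨coeffMap A.subtype b, hbmem⟩, hbI⟩ (y := b) rfl]
      at this
    exact this
  · apply Subtype.ext
    show (f : LaurentSeries Qb) * coeffMap A.subtype b =
      algebraMap Qb (LaurentSeries Qb) (cQ / cP) * coeffMap A.subtype a
    rw [hbL, haL, algebraMap_laurentSeries_eq_single]
    have hC : (HahnSeries.single 0 (cQ / cP) : LaurentSeries Qb) * HahnSeries.C cP =
        HahnSeries.C cQ := by
      show (HahnSeries.C (cQ / cP) : LaurentSeries Qb) * HahnSeries.C cP = HahnSeries.C cQ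
      rw [← map_mul, div_mul_cancel₀ _ hcP]
    calc (f : LaurentSeries Qb) * (HahnSeries.C cQ * evalJ Qb Q₀)
        = HahnSeries.C cQ * (evalJ Qb Q₀ * (f : LaurentSeries Qb)) := by ring
      _ = (HahnSeries.single 0 (cQ / cP) * HahnSeries.C cP) *
            (evalJ Qb Q₀ * (f : LaurentSeries Qb)) := by rw [hC]
      _ = _ := by ring

end Fermat.Agent.S37.H568

end

end
-- ===== PACK-END S37/H568/ValueGroup.lean

-- ===== PACK-BEGIN S37/H697/LiftCore.lean
section





/-!
# S37 / board v3, leaf D3 (helper697): the core of `LiftLeaf`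

For a number field `E ⊆ ℚ̄` and the concrete model `(Ec, Fc, Rc, Vc)` of row S18 at level `M`:

* `Red M A E f c` : the reduction relation between `Vc M A E ⊆ F_M` and `k((q))`
  (`f = U₁/U₂`, `c = Ū₁/Ū₂`); it is functional, a ring homomorphism, compatible with inverses,
  and surjective onto `κ_E(j̄(q^d) : d ∣ M)` (`exists_red_of_mem_closure`);
* `lift_core` : for a good model with coordinate `y = toOm Y` (`Y` an integral series) and the
  normality statement (D2): `H759.LiftAtLevel A M E y Ȳ`.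
-/

set_option autoImplicit false
set_option synthInstance.maxHeartbeats 400000
set_option maxHeartbeats 1600000
set_option linter.unusedSectionVars false
set_option linter.unusedVariables false
set_option linter.style.haveILetI false

noncomputable section

namespace Fermat.Agent.S37.H697.Lift

open ModularCurve AlgebraicCurve HahnSeries IsLocalRing Polynomial
open Fermat.Agent.S18 Fermat.Agent.S18.Mod Fermat.Agent.S18.Mod.H216 Fermat.Agent.S37.Red

variable (M : ℕ) (A : ValuationSubring _root_.Fermat.Agent.S18.Qb) (E : IntermediateField ℚ _root_.Fermat.Agent.S18.Qb)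

/-- the residue field of `A` -/
abbrev kA : Type := ResidueField A

/-- The reduction relation: `f = U₁/U₂`, `c = Ū₁/Ū₂` with `E`-rational integral series. -/
def Red (f : Om M) (c : LaurentSeries (_root_.Fermat.Agent.S37.H697.Lift.kA A)) : Prop :=
  ∃ U₁ U₂ : ↥(intE M A E), redE M A E U₂ ≠ 0 ∧ f * toOm M A E U₂ = toOm M A E U₁ ∧
    c * redE M A E U₂ = redE M A E U₁

variable {M A E}

theorem Red.mem_Vc {f : Om M} {c : LaurentSeries (_root_.Fermat.Agent.S37.H697.Lift.kA A)} (h : Red M A E f c) :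
    f ∈ Vc M A E := by
  obtain ⟨U₁, U₂, hne, hf, -⟩ := h
  exact (mem_Vc_iff' M A E).mpr ⟨U₁, U₂, hne, hf⟩

theorem exists_red_of_mem_Vc {f : Om M} (hf : f ∈ Vc M A E) : ∃ c, Red M A E f c := by
  obtain ⟨U₁, U₂, hne, hf⟩ := (mem_Vc_iff' M A E).mp hf
  exact ⟨redE M A E U₁ * (redE M A E U₂)⁻¹, U₁, U₂, hne, hf, by
    rw [mul_assoc, inv_mul_cancel₀ hne, mul_one]⟩

theorem Red.unique {f : Om M} {c c' : LaurentSeries (_root_.Fermat.Agent.S37.H697.Lift.kA A)} (h : Red M A E f c)
    (h' : Red M A E f c') : c = c' := by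
  obtain ⟨U₁, U₂, hne, hf, hc⟩ := h
  obtain ⟨W₁, W₂, kne, kf, kc⟩ := h'
  have h1 : toOm M A E (U₁ * W₂) = toOm M A E (W₁ * U₂) := by
    rw [map_mul, map_mul, ← hf, ← kf]
    ring
  have h2 : U₁ * W₂ = W₁ * U₂ := toOm_injective M A E h1
  have h3 : redE M A E U₁ * redE M A E W₂ = redE M A E W₁ * redE M A E U₂ := by
    rw [← map_mul, ← map_mul, h2]
  have h4 : (c - c') * (redE M A E U₂ * redE M A E W₂) = 0 := by
    have e1 : c * (redE M A E U₂ * redE M A E W₂) = redE M A E U₁ * redE M A E W₂ := by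
      rw [← mul_assoc, hc]
    have e2 : c' * (redE M A E U₂ * redE M A E W₂) = redE M A E W₁ * redE M A E U₂ := by
      rw [mul_comm (redE M A E U₂), ← mul_assoc, kc]
    rw [sub_mul, e1, e2, h3, sub_self]
  rcases mul_eq_zero.mp h4 with h | h
  · exact sub_eq_zero.mp h
  · exact absurd h (mul_ne_zero hne kne)

theorem Red.ofInt (U : ↥(intE M A E)) : Red M A E (toOm M A E U) (redE M A E U) :=
  ⟨U, 1, by rw [map_one]; exact one_ne_zero, by rw [map_one, mul_one], by rw [map_one, mul_one]⟩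

theorem Red.zero : Red M A E (0 : Om M) 0 := by
  simpa using Red.ofInt (M := M) (A := A) (E := E) 0

theorem Red.one : Red M A E (1 : Om M) 1 := by
  simpa using Red.ofInt (M := M) (A := A) (E := E) 1

theorem Red.add {f g : Om M} {c d : LaurentSeries (_root_.Fermat.Agent.S37.H697.Lift.kA A)} (h : Red M A E f c)
    (h' : Red M A E g d) : Red M A E (f + g) (c + d) := by
  obtain ⟨U₁, U₂, hne, hf, hc⟩ := h
  obtain ⟨W₁, W₂, kne, kf, kc⟩ := h'
  refine ⟨U₁ * W₂ + W₁ * U₂, U₂ * W₂, ?_, ?_, ?_⟩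
  · rw [map_mul]
    exact mul_ne_zero hne kne
  · rw [map_add, map_mul, map_mul, map_mul, ← hf, ← kf]
    ring
  · rw [map_add, map_mul, map_mul, map_mul, ← hc, ← kc]
    ring

theorem Red.mul {f g : Om M} {c d : LaurentSeries (_root_.Fermat.Agent.S37.H697.Lift.kA A)} (h : Red M A E f c)
    (h' : Red M A E g d) : Red M A E (f * g) (c * d) := by
  obtain ⟨U₁, U₂, hne, hf, hc⟩ := h
  obtain ⟨W₁, W₂, kne, kf, kc⟩ := h'
  refine ⟨U₁ * W₁, U₂ * W₂, ?_, ?_, ?_⟩
  · rw [map_mul]
    exact mul_ne_zero hne kne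
  · rw [map_mul, map_mul, ← hf, ← kf]
    ring
  · rw [map_mul, map_mul, ← hc, ← kc]
    ring

theorem Red.neg {f : Om M} {c : LaurentSeries (_root_.Fermat.Agent.S37.H697.Lift.kA A)} (h : Red M A E f c) :
    Red M A E (-f) (-c) := by
  obtain ⟨U₁, U₂, hne, hf, hc⟩ := h
  refine ⟨-U₁, U₂, hne, ?_, ?_⟩
  · rw [map_neg, ← hf]
    ring
  · rw [map_neg, ← hc]
    ring

theorem Red.sub {f g : Om M} {c d : LaurentSeries (_root_.Fermat.Agent.S37.H697.Lift.kA A)} (h : Red M A E f c)
    (h' : Red M A E g d) : Red M A E (f - g) (c - d) := by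
  rw [sub_eq_add_neg, sub_eq_add_neg]
  exact h.add h'.neg

theorem Red.inv {f : Om M} {c : LaurentSeries (_root_.Fermat.Agent.S37.H697.Lift.kA A)} (h : Red M A E f c) (hc0 : c ≠ 0) :
    Red M A E f⁻¹ c⁻¹ := by
  obtain ⟨U₁, U₂, hne, hf, hc⟩ := h
  have h1 : redE M A E U₁ ≠ 0 := by
    rw [← hc]
    exact mul_ne_zero hc0 hne
  have h1' : toOm M A E U₁ ≠ 0 := toOm_ne_zero_of_redE M A E h1
  have h2' : toOm M A E U₂ ≠ 0 := toOm_ne_zero_of_redE M A E hne
  have hf0 : f ≠ 0 := by
    rintro rfl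
    rw [zero_mul] at hf
    exact h1' hf.symm
  refine ⟨U₂, U₁, h1, ?_, ?_⟩
  · rw [← hf]
    field_simp
  · rw [← hc]
    field_simp

/-- the ring of compatible pairs -/
def redRing (M : ℕ) (A : ValuationSubring _root_.Fermat.Agent.S18.Qb) (E : IntermediateField ℚ _root_.Fermat.Agent.S18.Qb) :
    Subring (Om M × LaurentSeries (_root_.Fermat.Agent.S37.H697.Lift.kA A)) where
  carrier := {p | Red M A E p.1 p.2}
  zero_mem' := Red.zero
  one_mem' := Red.one
  add_mem' := fun h h' => h.add h'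
  mul_mem' := fun h h' => h.mul h'
  neg_mem' := fun h => h.neg

theorem mem_redRing {p : Om M × LaurentSeries (_root_.Fermat.Agent.S37.H697.Lift.kA A)} :
    p ∈ redRing M A E ↔ Red M A E p.1 p.2 := Iff.rfl


/-! ### Generators -/

theorem Red.const {a : _root_.Fermat.Agent.S18.Qb} (haA : a ∈ A) (haE : a ∈ E) :
    Red M A E (algebraMap _root_.Fermat.Agent.S18.Qb (Om M) a)
      (algebraMap (_root_.Fermat.Agent.S37.H697.Lift.kA A) (LaurentSeries (_root_.Fermat.Agent.S37.H697.Lift.kA A)) (residue A ⟨a, haA⟩)) := by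
  have h := Red.ofInt (cInt M A E haA haE)
  rw [toOm_cInt, redE_cInt] at h
  rw [algebraMap_laurentSeries_eq_single, ← HahnSeries.C_apply]
  exact h

theorem jqNModC_mem_intE (d : ℕ) [NeZero d] (hd : d ∣ M) :
    (jqNModC ↥A d : LaurentSeries ↥A) ∈ intE M A E := by
  rw [mem_intE]
  refine ⟨fun n => ?_, jd M d hd, Subfield.subset_closure (Or.inr ⟨d, inferInstance, hd, rfl⟩), ?_⟩
  · have h1 : jqNModC ↥A d = coeffMap (Int.castRingHom ↥A) (jqNModC ℤ d) :=
      (coeffMap_jqNModC (Int.castRingHom ↥A) d).symm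
    rw [h1, coeffMap_coeff]
    simp only [eq_intCast, SubringClass.coe_intCast]
    exact intCast_mem E _
  · show coeffEmb _root_.Fermat.Agent.S18.Qb (qExpand ℚ d jq) = coeffMap A.subtype (jqNModC ↥A d)
    rw [coeffMap_jqNModC, Fermat.Agent.S18.H602.coeffEmb_qExpand_jq]
    rfl

theorem Red.jd (d : ℕ) [NeZero d] (hd : d ∣ M) :
    Red M A E (jd M d hd) (qExpand (_root_.Fermat.Agent.S37.H697.Lift.kA A) d (jqModC (_root_.Fermat.Agent.S37.H697.Lift.kA A))) := by
  have h := Red.ofInt (M := M) (A := A) (E := E) ⟨jqNModC ↥A d, jqNModC_mem_intE d hd⟩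
  have h1 : H216.toOm M A E ⟨jqNModC ↥A d, jqNModC_mem_intE d hd⟩ = Mod.jd M d hd := by
    apply Subtype.ext
    rw [coe_toOm]
    show coeffMap A.subtype (jqNModC ↥A d) = coeffEmb _root_.Fermat.Agent.S18.Qb (qExpand ℚ d jq)
    rw [coeffMap_jqNModC, Fermat.Agent.S18.H602.coeffEmb_qExpand_jq]
    rfl
  have h2 : redE M A E ⟨jqNModC ↥A d, jqNModC_mem_intE d hd⟩ =
      qExpand (_root_.Fermat.Agent.S37.H697.Lift.kA A) d (jqModC (_root_.Fermat.Agent.S37.H697.Lift.kA A)) := by
    show coeffMap (residue ↥A) (jqNModC ↥A d) = _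
    rw [coeffMap_jqNModC]
    rfl
  rw [h1, h2] at h
  exact h

/-- **Surjectivity of the reduction** onto `κ_E(j̄(q^d) : d ∣ M)`. -/
theorem exists_red_of_mem_closure {c : LaurentSeries (_root_.Fermat.Agent.S37.H697.Lift.kA A)}
    (hc : c ∈ Subfield.closure (H759.constk A E ∪ divisorExpansionsC (_root_.Fermat.Agent.S37.H697.Lift.kA A) M)) :
    ∃ f, Red M A E f c := by
  induction hc using Subfield.closure_induction with
  | mem c hc =>
    rcases hc with ⟨a, haE, rfl⟩ | ⟨d, hd, hdM, rfl⟩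
    · exact ⟨_, Red.const a.2 haE⟩
    · haveI := hd
      exact ⟨_, Red.jd d hdM⟩
  | one => exact ⟨1, Red.one⟩
  | add x y _ _ hx hy =>
    obtain ⟨f, hf⟩ := hx
    obtain ⟨g, hg⟩ := hy
    exact ⟨f + g, hf.add hg⟩
  | neg x _ hx =>
    obtain ⟨f, hf⟩ := hx
    exact ⟨-f, hf.neg⟩
  | inv x _ hx =>
    obtain ⟨f, hf⟩ := hx
    by_cases h0 : x = 0
    · subst h0
      exact ⟨0, by rw [inv_zero]; exact Red.zero⟩
    · exact ⟨f⁻¹, hf.inv h0⟩
  | mul x y _ _ hx hy =>
    obtain ⟨f, hf⟩ := hx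
    obtain ⟨g, hg⟩ := hy
    exact ⟨f * g, hf.mul hg⟩

/-! ### The kernel of the reduction -/

section Kernel

variable {V : Subring (Om M)} {w x : Om M} {S : Finset (Om M)}

theorem Red.mul_inv_w_mem (G : Alg.GoodModel (Lc M) (Ec M E) (Fc M E) (Rc M A E) V w x S)
    (hV : (V : Set (Om M)) = VcSet M A E) {f : Om M} (h : Red M A E f 0) : f * w⁻¹ ∈ V := by
  have hVc : V = Vc M A E := SetLike.coe_injective hV
  by_cases hf0 : f = 0
  · rw [hf0, zero_mul]
    exact zero_mem V
  · refine G.V_gen f (hVc ▸ h.mem_Vc) ?_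
    intro hinv
    obtain ⟨d, hd⟩ := exists_red_of_mem_Vc (hVc ▸ hinv : f⁻¹ ∈ Vc M A E)
    have h1 := h.mul hd
    rw [mul_inv_cancel₀ hf0, zero_mul] at h1
    exact one_ne_zero (h1.unique Red.one).symm

theorem Red.unif (G : Alg.GoodModel (Lc M) (Ec M E) (Fc M E) (Rc M A E) V w x S) :
    Red M A E w 0 := by
  obtain ⟨a, haA, haE, rfl⟩ := (mem_Rc_iff M A E).mp G.w_mem
  have h := Red.const (M := M) haA haE
  have hres : residue A ⟨a, haA⟩ = 0 := by
    rw [residue_eq_zero_iff, mem_maximalIdeal, mem_nonunits_iff]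
    intro hu
    apply G.w_inv_not_mem
    have ha0 : a ≠ 0 := by
      rintro rfl
      exact G.w_ne_zero (map_zero _)
    have hinvA : a⁻¹ ∈ A := by
      obtain ⟨u, hu'⟩ := hu
      have h1 : ((↑u⁻¹ : A) : _root_.Fermat.Agent.S18.Qb) = a⁻¹ := by
        have h2 : ((↑u : A) : _root_.Fermat.Agent.S18.Qb) * ((↑u⁻¹ : A) : _root_.Fermat.Agent.S18.Qb) = 1 := by
          rw [← A.coe_mul, Units.mul_inv, A.coe_one]
        rw [hu'] at h2
        exact eq_inv_of_mul_eq_one_right h2
      rw [← h1]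
      exact (↑u⁻¹ : A).2
    rw [← map_inv₀]
    exact (mem_Rc_iff M A E).mpr ⟨a⁻¹, hinvA, inv_mem haE, rfl⟩
  rw [hres, map_zero] at h
  exact h

theorem Red.of_sub_mul_inv_w_mem (G : Alg.GoodModel (Lc M) (Ec M E) (Fc M E) (Rc M A E) V w x S)
    (hV : (V : Set (Om M)) = VcSet M A E) {f b : Om M} {c : LaurentSeries (_root_.Fermat.Agent.S37.H697.Lift.kA A)}
    (h : Red M A E f c) (hb : (f - b) * w⁻¹ ∈ V) : Red M A E b c := by
  have hVc : V = Vc M A E := SetLike.coe_injective hV
  obtain ⟨d, hd⟩ := exists_red_of_mem_Vc (hVc ▸ hb : (f - b) * w⁻¹ ∈ Vc M A E)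
  have h1 := hd.mul (Red.unif G)
  rw [mul_zero, mul_assoc, inv_mul_cancel₀ G.w_ne_zero, mul_one] at h1
  have h2 := h.sub h1
  rw [sub_sub_cancel, sub_zero] at h2
  exact h2

end Kernel


/-! ### Lifting the integrality equation -/

section Graph

variable (M A E) in
/-- generators of the graph of the reduction on `R[y]` -/
def graphGens (y : Om M) (s : LaurentSeries (_root_.Fermat.Agent.S37.H697.Lift.kA A)) : Set (Om M × LaurentSeries (_root_.Fermat.Agent.S37.H697.Lift.kA A)) :=
  {p | ∃ a : A, (a : _root_.Fermat.Agent.S18.Qb) ∈ E ∧ p = (algebraMap _root_.Fermat.Agent.S18.Qb (Om M) (a : _root_.Fermat.Agent.S18.Qb),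
    algebraMap (_root_.Fermat.Agent.S37.H697.Lift.kA A) (LaurentSeries (_root_.Fermat.Agent.S37.H697.Lift.kA A)) (residue A a))} ∪ {(y, s)}

variable (M A E) in
/-- the graph of the reduction on `R[y]` -/
def graphRing (y : Om M) (s : LaurentSeries (_root_.Fermat.Agent.S37.H697.Lift.kA A)) : Subring (Om M × LaurentSeries (_root_.Fermat.Agent.S37.H697.Lift.kA A)) :=
  Subring.closure (graphGens M A E y s)

variable {y : Om M} {s : LaurentSeries (_root_.Fermat.Agent.S37.H697.Lift.kA A)}

theorem graphRing_le_redRing (hys : Red M A E y s) : graphRing M A E y s ≤ redRing M A E := by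
  rw [graphRing, Subring.closure_le]
  rintro p (⟨a, haE, rfl⟩ | hp)
  · exact Red.const a.2 haE
  · rw [Set.mem_singleton_iff] at hp
    subst hp
    exact hys

theorem fst_mem_polyRing {p : Om M × LaurentSeries (_root_.Fermat.Agent.S37.H697.Lift.kA A)} (hp : p ∈ graphRing M A E y s) :
    p.1 ∈ Alg.polyRing (Rc M A E) y := by
  have hle : graphRing M A E y s ≤
      (Alg.polyRing (Rc M A E) y).comap (RingHom.fst (Om M) (LaurentSeries (_root_.Fermat.Agent.S37.H697.Lift.kA A))) := by
    rw [graphRing, Subring.closure_le]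
    rintro q (⟨a, haE, rfl⟩ | hq)
    · exact Subring.subset_closure (Or.inl ((mem_Rc_iff M A E).mpr ⟨a, a.2, haE, rfl⟩))
    · rw [Set.mem_singleton_iff] at hq
      subst hq
      exact Subring.subset_closure (Or.inr rfl)
  exact hle hp

theorem snd_mem_closure {p : Om M × LaurentSeries (_root_.Fermat.Agent.S37.H697.Lift.kA A)} (hp : p ∈ graphRing M A E y s) :
    p.2 ∈ Subring.closure (H759.constk A E ∪ {s}) := by
  have hle : graphRing M A E y s ≤
      (Subring.closure (H759.constk A E ∪ {s})).comap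
        (RingHom.snd (Om M) (LaurentSeries (_root_.Fermat.Agent.S37.H697.Lift.kA A))) := by
    rw [graphRing, Subring.closure_le]
    rintro q (⟨a, haE, rfl⟩ | hq)
    · exact Subring.subset_closure (Or.inl ⟨a, haE, rfl⟩)
    · rw [Set.mem_singleton_iff] at hq
      subst hq
      exact Subring.subset_closure (Or.inr rfl)
  exact hle hp

theorem exists_mem_graphRing {c : LaurentSeries (_root_.Fermat.Agent.S37.H697.Lift.kA A)}
    (hc : c ∈ Subring.closure (H759.constk A E ∪ {s})) :
    ∃ p ∈ graphRing M A E y s, p.2 = c := by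
  induction hc using Subring.closure_induction with
  | mem c hc =>
    rcases hc with ⟨a, haE, rfl⟩ | hc
    · exact ⟨_, Subring.subset_closure (Or.inl ⟨a, haE, rfl⟩), rfl⟩
    · rw [Set.mem_singleton_iff] at hc
      subst hc
      exact ⟨(y, c), Subring.subset_closure (Or.inr rfl), rfl⟩
  | zero => exact ⟨0, zero_mem _, rfl⟩
  | one => exact ⟨1, one_mem _, rfl⟩
  | add a b _ _ ha hb =>
    obtain ⟨p, hp, rfl⟩ := ha
    obtain ⟨q, hq, rfl⟩ := hb
    exact ⟨p + q, add_mem hp hq, rfl⟩
  | neg a _ ha =>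
    obtain ⟨p, hp, rfl⟩ := ha
    exact ⟨-p, neg_mem hp, rfl⟩
  | mul a b _ _ ha hb =>
    obtain ⟨p, hp, rfl⟩ := ha
    obtain ⟨q, hq, rfl⟩ := hb
    exact ⟨p * q, mul_mem hp hq, rfl⟩

/-- **Lifting the integrality equation.** -/
theorem exists_monic_lift (hys : Red M A E y s) {f : Om M} {c : LaurentSeries (_root_.Fermat.Agent.S37.H697.Lift.kA A)}
    (hfc : Red M A E f c) (hint : IsIntegral (Subring.closure (H759.constk A E ∪ {s})) c) :
    ∃ P : Polynomial (Om M), P.Monic ∧ (∀ i, P.coeff i ∈ Alg.polyRing (Rc M A E) y) ∧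
      Red M A E (P.eval f) 0 := by
  obtain ⟨Pb, hPb, hroot⟩ := hint
  -- the projection of the graph onto the base ring
  let φ : ↥(graphRing M A E y s) →+* ↥(Subring.closure (H759.constk A E ∪ {s})) :=
    ((RingHom.snd (Om M) (LaurentSeries (_root_.Fermat.Agent.S37.H697.Lift.kA A))).comp (graphRing M A E y s).subtype).codRestrict
      _ (fun p => snd_mem_closure p.2)
  have hφ : Function.Surjective φ := by
    rintro ⟨c, hc⟩
    obtain ⟨p, hp, rfl⟩ := exists_mem_graphRing (M := M) (y := y) hc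
    exact ⟨⟨p, hp⟩, rfl⟩
  have hlift : Pb ∈ Polynomial.lifts φ := by
    rw [Polynomial.lifts_iff_coeff_lifts]
    intro n
    exact hφ _
  obtain ⟨Q, hQ, -, hQm⟩ := Polynomial.lifts_and_natDegree_eq_and_monic hlift hPb
  let ι : ↥(graphRing M A E y s) →+* ↥(redRing M A E) :=
    Subring.inclusion (graphRing_le_redRing hys)
  let fstR : ↥(redRing M A E) →+* Om M :=
    (RingHom.fst (Om M) (LaurentSeries (_root_.Fermat.Agent.S37.H697.Lift.kA A))).comp (redRing M A E).subtype
  let sndR : ↥(redRing M A E) →+* LaurentSeries (_root_.Fermat.Agent.S37.H697.Lift.kA A) :=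
    (RingHom.snd (Om M) (LaurentSeries (_root_.Fermat.Agent.S37.H697.Lift.kA A))).comp (redRing M A E).subtype
  let pt : ↥(redRing M A E) := ⟨(f, c), hfc⟩
  let z : ↥(redRing M A E) := (Q.map ι).eval pt
  refine ⟨Q.map (fstR.comp ι), hQm.map _, fun i => ?_, ?_⟩
  · rw [Polynomial.coeff_map]
    exact fst_mem_polyRing (Q.coeff i).2
  · have hz : Red M A E z.1.1 z.1.2 := z.2
    have h1 : z.1.1 = (Q.map (fstR.comp ι)).eval f := by
      show fstR ((Q.map ι).eval pt) = _
      rw [← Polynomial.eval₂_at_apply, ← Polynomial.eval_map, Polynomial.map_map]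
      rfl
    have h2 : z.1.2 = 0 := by
      show sndR ((Q.map ι).eval pt) = _
      rw [← Polynomial.eval₂_at_apply, ← Polynomial.eval_map, Polynomial.map_map]
      have h3 : sndR.comp ι = (Subring.closure (H759.constk A E ∪ {s})).subtype.comp φ := rfl
      rw [h3, ← Polynomial.map_map, hQ, Polynomial.eval_map]
      exact hroot
    rw [h1, h2] at hz
    exact hz

end Graph

/-! ### Integrality over `A[y]` and INT-Q -/

section IntQ

variable {y : Om M}

theorem polyRing_le_range (Y : ↥(intE M A E)) (hY : H216.toOm M A E Y = y) :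
    Alg.polyRing (Rc M A E) y ≤ (H216.toOm M A E).range := by
  rw [Alg.polyRing, Subring.closure_le]
  rintro r (hr | hr)
  · obtain ⟨a, haA, haE, rfl⟩ := (mem_Rc_iff M A E).mp hr
    exact ⟨cInt M A E haA haE, toOm_cInt M A E haA haE⟩
  · rw [Set.mem_singleton_iff] at hr
    subst hr
    exact ⟨Y, hY⟩

theorem polyRing_le_comap (y : Om M) :
    Alg.polyRing (Rc M A E) y ≤
      (Subring.closure (H759.constAll A ∪ {(y : LaurentSeries _root_.Fermat.Agent.S18.Qb)})).comap (omVal M) := by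
  rw [Alg.polyRing, Subring.closure_le]
  rintro r (hr | hr)
  · obtain ⟨a, haA, haE, rfl⟩ := (mem_Rc_iff M A E).mp hr
    exact Subring.subset_closure (Or.inl ⟨⟨a, haA⟩, rfl⟩)
  · rw [Set.mem_singleton_iff] at hr
    subst hr
    exact Subring.subset_closure (Or.inr rfl)

/-- integrality over `R[y]` inside `F_M` gives integrality over `A[y]` inside `ℚ̄((q))` -/
theorem isIntegral_coe {b : Om M} (hb : IsIntegral (Alg.polyRing (Rc M A E) y) b) :
    IsIntegral (Subring.closure (H759.constAll A ∪ {(y : LaurentSeries _root_.Fermat.Agent.S18.Qb)}))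
      (b : LaurentSeries _root_.Fermat.Agent.S18.Qb) := by
  obtain ⟨p, hp, hpb⟩ := hb
  let θ : ↥(Alg.polyRing (Rc M A E) y) →+*
      ↥(Subring.closure (H759.constAll A ∪ {(y : LaurentSeries _root_.Fermat.Agent.S18.Qb)})) :=
    ((omVal M).comp (Alg.polyRing (Rc M A E) y).subtype).codRestrict _
      (fun r => polyRing_le_comap (A := A) (E := E) y r.2)
  refine ⟨p.map θ, hp.map θ, ?_⟩
  rw [Polynomial.eval₂_map]
  have h1 : (algebraMap ↥(Subring.closure (H759.constAll A ∪ {(y : LaurentSeries _root_.Fermat.Agent.S18.Qb)}))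
      (LaurentSeries _root_.Fermat.Agent.S18.Qb)).comp θ =
      (omVal M).comp (algebraMap ↥(Alg.polyRing (Rc M A E) y) (Om M)) := rfl
  rw [h1, ← omVal_apply, ← Polynomial.hom_eval₂, hpb, map_zero]

/-- the integrality equation of `b` over `R[y]`, with coefficients integral `q`-series -/
theorem exists_intQ_poly (Y : ↥(intE M A E)) (hY : H216.toOm M A E Y = y) {b : Om M}
    (hb : IsIntegral (Alg.polyRing (Rc M A E) y) b) :
    ∃ q : Polynomial (LaurentSeries ↥A), q.Monic ∧
      (∀ i, coeffMap A.subtype (q.coeff i) ∈ modularFunctionFieldBar M) ∧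
      q.eval₂ (coeffMap A.subtype) (b : LaurentSeries _root_.Fermat.Agent.S18.Qb) = 0 := by
  obtain ⟨p, hp, hpb⟩ := hb
  have hlift : p.map (Alg.polyRing (Rc M A E) y).subtype ∈ Polynomial.lifts (H216.toOm M A E) := by
    rw [Polynomial.lifts_iff_coeff_lifts]
    intro n
    rw [Polynomial.coeff_map]
    exact polyRing_le_range Y hY (p.coeff n).2
  obtain ⟨Q, hQ, -, hQm⟩ := Polynomial.lifts_and_natDegree_eq_and_monic hlift (hp.map _)
  refine ⟨Q.map (intE M A E).subtype, hQm.map _, fun i => ?_, ?_⟩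
  · rw [Polynomial.coeff_map]
    exact inclA_mem_bar M A E (Q.coeff i)
  · rw [Polynomial.eval₂_map]
    have h1 : (coeffMap A.subtype).comp (intE M A E).subtype =
        (omVal M).comp (H216.toOm M A E) := rfl
    rw [h1, ← omVal_apply, ← Polynomial.hom_eval₂, ← Polynomial.eval_map, hQ,
      Polynomial.eval_map]
    have h2 : (Alg.polyRing (Rc M A E) y).subtype =
        algebraMap ↥(Alg.polyRing (Rc M A E) y) (Om M) := rfl
    rw [h2, hpb, map_zero]

end IntQ

/-! ### The core -/

/-- (D2), verbatim copy of `Fermat.Agent.S37.Core.NormalAbsStatement` -/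
def NormalAbs : Prop :=
  ∀ (Ω : Type) [Field Ω] (Lc Ec Fc : Subfield Ω) (R V : Subring Ω) (w x : Ω) (S : Finset Ω),
    Alg.GoodModel Lc Ec Fc R V w x S →
    ∀ f ∈ V, ∀ P : Polynomial Ω, P.Monic → (∀ i, P.coeff i ∈ Alg.polyRing R x) →
      P.eval f * w⁻¹ ∈ V →
      ∃ b ∈ Alg.chart Fc R x, (f - b) * w⁻¹ ∈ V

/-- **Core of leaf D3**: (H3) at the level of a number field `E` which carries a good model
with coordinate `y = toOm Y`. -/
theorem lift_core [NeZero M] {ℓ : ℕ} (hℓ : ℓ ≠ 0) (hA : A.LiesOverPrime ℓ)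
    {V : Subring (Om M)} {w y : Om M} {S : Finset (Om M)}
    (G : Alg.GoodModel (Lc M) (Ec M E) (Fc M E) (Rc M A E) V w y S)
    (hV : (V : Set (Om M)) = VcSet M A E) (hnorm : NormalAbs)
    (Y : ↥(intE M A E)) (hY : H216.toOm M A E Y = y) :
    H759.LiftAtLevel A M E (y : LaurentSeries _root_.Fermat.Agent.S18.Qb) (redE M A E Y) := by
  intro c hc hint
  have hVc : V = Vc M A E := SetLike.coe_injective hV
  obtain ⟨f, hfc⟩ := exists_red_of_mem_closure (M := M) hc
  have hys : Red M A E y (redE M A E Y) := hY ▸ Red.ofInt Y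
  obtain ⟨P, hP, hcoef, hred⟩ := exists_monic_lift hys hfc hint
  have hPV : P.eval f * w⁻¹ ∈ V := Red.mul_inv_w_mem G hV hred
  obtain ⟨b, ⟨-, hbint⟩, hfb⟩ := hnorm (Om M) (Lc M) (Ec M E) (Fc M E) (Rc M A E) V w y S G f
    (hVc ▸ hfc.mem_Vc) P hP hcoef hPV
  have hbc : Red M A E b c := Red.of_sub_mul_inv_w_mem G hV hfc hfb
  obtain ⟨q, hq, hqcoef, hqb⟩ := exists_intQ_poly Y hY hbint
  obtain ⟨U, hU⟩ := Fermat.Agent.S37.H280.IntQ.intQ A hℓ hA M (b : LaurentSeries _root_.Fermat.Agent.S18.Qb) b.2 q hq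
    hqcoef hqb
  refine ⟨U, ?_, ?_, ?_⟩
  · rw [hU]
    exact b.2
  · rw [hU]
    exact isIntegral_coe hbint
  · obtain ⟨U₁, U₂, hne, hf, hc'⟩ := hbc
    have h1 : (b : LaurentSeries _root_.Fermat.Agent.S18.Qb) * inclA A (U₂ : LaurentSeries ↥A) =
        inclA A (U₁ : LaurentSeries ↥A) := congrArg Subtype.val hf
    have h2 : U * (U₂ : LaurentSeries ↥A) = (U₁ : LaurentSeries ↥A) := by
      apply inclA_injective A
      rw [map_mul]
      show coeffMap A.subtype U * _ = _
      rw [hU]
      exact h1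
    have h3 : coeffMap (residue ↥A) U * redE M A E U₂ = redE M A E U₁ := by
      show coeffMap (residue ↥A) U * coeffMap (residue ↥A) (U₂ : LaurentSeries ↥A) =
        coeffMap (residue ↥A) (U₁ : LaurentSeries ↥A)
      rw [← map_mul, h2]
    exact mul_right_cancel₀ hne (h3.trans hc'.symm)

/-- `LiftAtLevel` is antitone in the number field. -/
theorem liftAtLevel_anti {E E' : IntermediateField ℚ _root_.Fermat.Agent.S18.Qb} (h : E ≤ E') (N : ℕ)
    (t : LaurentSeries _root_.Fermat.Agent.S18.Qb) (s : LaurentSeries (_root_.Fermat.Agent.S37.H697.Lift.kA A))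
    (hL : H759.LiftAtLevel A N E' t s) : H759.LiftAtLevel A N E t s := by
  intro c hc hint
  have hk : H759.constk A E ⊆ H759.constk A E' := by
    rintro c ⟨a, ha, rfl⟩
    exact ⟨a, h ha, rfl⟩
  exact hL c (Subfield.closure_mono (Set.union_subset_union_left _ hk) hc)
    (H759.isIntegral_subring_mono
      (Subring.closure_mono (Set.union_subset_union_left _ hk)) hint)

end Fermat.Agent.S37.H697.Lift

end
end
-- ===== PACK-END S37/H697/LiftCore.lean

-- ===== PACK-BEGIN S18/B12/H278/Global.lean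
section


/-!
# b2: globalisation of the local normality criterion (helper278)

* `eq_top_of_forall_prime` : an ideal of a PID containing a nonzero element and, for every prime
  `t`, an element not divisible by `t`, is the unit ideal ("ideal of denominators").
* `mem_range_of_isIntegral_of_forall_prime` : global form of
  `exists_smul_mem_range_of_isIntegral`.
* `sfIdemInt : SFIdemIntStatement` (Spec2, P2'') and
  `intClosedOfDiscr : IntClosedOfDiscrStatement` (Spec3, A8).
-/

set_option autoImplicit false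
set_option linter.style.haveILetI false
set_option linter.unusedSectionVars false

namespace Fermat.Agent.S18.B12.H278

open Module Polynomial Fermat.Agent.S37.H278

universe u v

/-- Ideal of denominators: an ideal of a PID which contains a nonzero element and is contained
in no `(t)`, `t` prime, is the unit ideal. -/
theorem eq_top_of_forall_prime {Λ : Type*} [CommRing Λ] [IsDomain Λ] [IsPrincipalIdealRing Λ]
    (J : Ideal Λ) (h0 : ∃ g₀ ∈ J, g₀ ≠ 0) (h : ∀ t : Λ, Prime t → ∃ g ∈ J, ¬ t ∣ g) : J = ⊤ := by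
  by_contra hJ
  obtain ⟨M, hM, hJM⟩ := Ideal.exists_le_maximal J hJ
  obtain ⟨g₀, hg₀J, hg₀⟩ := h0
  obtain ⟨t, ht⟩ := (IsPrincipalIdealRing.principal M).principal
  have ht' : M = Ideal.span {t} := ht
  have ht0 : t ≠ 0 := by
    rintro rfl
    have : g₀ ∈ M := hJM hg₀J
    rw [ht', Ideal.mem_span_singleton, zero_dvd_iff] at this
    exact hg₀ this
  have htp : Prime t := by
    rw [← Ideal.span_singleton_prime ht0, ← ht']
    exact hM.isPrime
  obtain ⟨g, hgJ, hg⟩ := h t htp
  apply hg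
  have : g ∈ M := hJM hgJ
  rwa [ht', Ideal.mem_span_singleton] at this

section Global

variable {Λ : Type*} [CommRing Λ] [IsDomain Λ] [IsPrincipalIdealRing Λ]
  {C : Type*} [CommRing C] [Algebra Λ C]
  {L : Type*} [CommRing L] [Algebra Λ L]

/-- **Normality criterion over a PID, global form.**  If the discriminant bound holds at every
prime `t` of `Λ`, every `x : L` integral over `Λ` which is a fraction of an element of `C`
lies in `C`. -/
theorem mem_range_of_isIntegral_of_forall_prime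
    (hL : ∀ (g : Λ) (l : L), g ≠ 0 → g • l = 0 → l = 0)
    (f : C →ₐ[Λ] L) (hf : Function.Injective f)
    {ι : Type*} [Fintype ι] [DecidableEq ι] (b : Basis ι Λ C)
    (hloc : ∀ t : Λ, Prime t → ∃ (s : ℕ) (y : Fin s → C),
      (∀ x : C, ∃ a : Fin s → Λ,
        x - ∑ i, a i • y i ∈ (Ideal.span {algebraMap Λ C t}).radical) ∧
      ¬ t ^ (Fintype.card ι - s + 1) ∣ Algebra.discr Λ b)
    (x : L) (hx : IsIntegral Λ x) (hx0 : ∃ g₀ : Λ, g₀ ≠ 0 ∧ g₀ • x ∈ f.range) :
    x ∈ f.range := by
  -- the ideal of denominators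
  let J : Ideal Λ :=
    { carrier := {g | g • x ∈ f.range}
      add_mem' := by
        intro a c ha hc
        show (a + c) • x ∈ f.range
        rw [add_smul]
        exact f.range.add_mem ha hc
      zero_mem' := by
        show (0 : Λ) • x ∈ f.range
        rw [zero_smul]
        exact f.range.zero_mem
      smul_mem' := by
        intro r a ha
        show (r • a) • x ∈ f.range
        rw [smul_assoc]
        exact f.range.smul_mem ha r }
  have hJ : J = ⊤ := by
    apply eq_top_of_forall_prime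
    · obtain ⟨g₀, h0, h1⟩ := hx0
      exact ⟨g₀, h1, h0⟩
    · intro t ht
      obtain ⟨s, y, hy, hd⟩ := hloc t ht
      obtain ⟨g, hg, hgx⟩ := exists_smul_mem_range_of_isIntegral ht hL f hf b s y hy hd x hx hx0
      exact ⟨g, hgx, hg⟩
  have h1 : (1 : Λ) ∈ J := by rw [hJ]; trivial
  have h2 : (1 : Λ) • x ∈ f.range := h1
  rwa [one_smul] at h2

end Global

/-- **P2''** (= frozen statement `SFIdemIntStatement` of `B12/Spec2.lean`, unfolded). -/
theorem sfIdemInt :
  ∀ (Λ : Type u) [CommRing Λ] [IsDomain Λ] [IsPrincipalIdealRing Λ] (t : Λ) (_ : Prime t)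
    (C : Type v) [CommRing C] [Algebra Λ C] (n : ℕ) (b : Module.Basis (Fin n) Λ C)
    (s : ℕ) (y : Fin s → C)
    (_ : ∀ x : C, ∃ a : Fin s → Λ,
        x - ∑ i, a i • y i ∈ (Ideal.span {algebraMap Λ C t}).radical),
    Algebra.discr Λ b ≠ 0 → ¬ t ^ (n - s + 1) ∣ Algebra.discr Λ b →
    ∀ (e : C) (g : Λ), g ≠ 0 → e * e = g • e → ∃ (h : Λ) (c : C), ¬ t ∣ h ∧ h • e = g • c := by
  intro Λ _ _ _ t ht C _ _ n b s y hy _ hd e g hg he
  classical
  haveI : Module.Free Λ C := Module.Free.of_basis b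
  let L₀ := Localization (Algebra.algebraMapSubmonoid C (nonZeroDivisors Λ))
  have hinj : Function.Injective (algebraMap C L₀) := algebraMap_injective_of_free (o := Λ) L₀
  have hunit : ∀ a : Λ, a ≠ 0 → IsUnit (algebraMap Λ L₀ a) := by
    intro a ha
    rw [IsScalarTower.algebraMap_apply Λ C L₀]
    exact IsLocalization.map_units L₀ (⟨algebraMap Λ C a, ⟨a, mem_nonZeroDivisors_of_ne_zero ha,
      rfl⟩⟩ : Algebra.algebraMapSubmonoid C (nonZeroDivisors Λ))
  have hL : ∀ (a : Λ) (l : L₀), a ≠ 0 → a • l = 0 → l = 0 := by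
    intro a l ha h
    rw [Algebra.smul_def] at h
    exact ((hunit a ha).mul_right_eq_zero).mp h
  obtain ⟨w, hw⟩ := (hunit g hg).exists_left_inv
  -- the idempotent `ε = e / g`
  set ε : L₀ := w * algebraMap C L₀ e with hε
  have hgε : g • ε = algebraMap C L₀ e := by
    rw [hε, Algebra.smul_def, ← mul_assoc, mul_comm _ w, hw, one_mul]
  have hidem : ε * ε = ε := by
    have h1 : g • g • (ε * ε - ε) = 0 := by
      have h2 : g • g • (ε * ε - ε) = (g • ε) * (g • ε) - g • (g • ε) := by
        rw [smul_sub, smul_sub, smul_mul_smul_comm, smul_smul, smul_smul]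
      rw [h2, hgε, ← map_mul, he, Algebra.smul_def, map_mul, ← IsScalarTower.algebraMap_apply,
        Algebra.smul_def, sub_self]
    exact sub_eq_zero.mp (hL g _ hg (hL g _ hg h1))
  have hx0 : ∃ g₀ : Λ, g₀ ≠ 0 ∧ g₀ • ε ∈ (IsScalarTower.toAlgHom Λ C L₀).range :=
    ⟨g, hg, e, hgε.symm⟩
  obtain ⟨h, hh, c, hc⟩ := exists_smul_mem_range_of_isIntegral ht hL
    (IsScalarTower.toAlgHom Λ C L₀) hinj b s y hy (by simpa using hd) ε
    (isIntegral_of_mul_self_eq hidem) hx0
  have hc' : algebraMap C L₀ c = h • ε := hc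
  refine ⟨h, c, hh, ?_⟩
  apply hinj
  rw [Algebra.smul_def, Algebra.smul_def, map_mul, map_mul, ← IsScalarTower.algebraMap_apply,
    ← IsScalarTower.algebraMap_apply, hc', ← hgε, Algebra.smul_def, Algebra.smul_def]
  ring

/-- **A8** (= frozen statement `IntClosedOfDiscrStatement` of `B12/Spec3.lean`, unfolded). -/
theorem intClosedOfDiscr :
  ∀ (Λ : Type u) [CommRing Λ] [IsDomain Λ] [IsPrincipalIdealRing Λ]
    (C : Type v) [CommRing C] [IsDomain C] [Algebra Λ C] (n : ℕ) (b : Module.Basis (Fin n) Λ C),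
    Algebra.discr Λ b ≠ 0 →
    (∀ t : Λ, Prime t → ∃ (s : ℕ) (y : Fin s → C),
      (∀ c : C, ∃ a : Fin s → Λ,
        c - ∑ i, a i • y i ∈ (Ideal.span {algebraMap Λ C t}).radical) ∧
      ¬ t ^ (n - s + 1) ∣ Algebra.discr Λ b) →
    IsIntegrallyClosed C := by
  intro Λ _ _ _ C _ _ _ n b _ hloc
  classical
  haveI : Module.Free Λ C := Module.Free.of_basis b
  haveI : Module.Finite Λ C := Module.Finite.of_basis b
  have hinjΛ : Function.Injective (algebraMap Λ C) := by
    rw [injective_iff_map_eq_zero]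
    intro a ha
    by_contra ha0
    have : (1 : C) = 0 := smul_eq_zero_imp ha0 (by rw [Algebra.smul_def, ha, zero_mul])
    exact one_ne_zero this
  have hinj : Function.Injective (algebraMap C (FractionRing C)) :=
    IsFractionRing.injective C (FractionRing C)
  have hL : ∀ (a : Λ) (l : FractionRing C), a ≠ 0 → a • l = 0 → l = 0 := by
    intro a l ha h
    rw [Algebra.smul_def, IsScalarTower.algebraMap_apply Λ C (FractionRing C)] at h
    rcases mul_eq_zero.mp h with h1 | h1
    · exfalso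
      apply ha
      apply hinjΛ
      apply hinj
      rw [h1, map_zero, map_zero]
    · exact h1
  rw [isIntegrallyClosed_iff (FractionRing C)]
  intro x hx
  have hxΛ : IsIntegral Λ x := isIntegral_trans (R := Λ) (A := C) x hx
  have hx0 : ∃ g₀ : Λ, g₀ ≠ 0 ∧
      g₀ • x ∈ (IsScalarTower.toAlgHom Λ C (FractionRing C)).range := by
    obtain ⟨⟨a, c⟩, hac⟩ := IsLocalization.surj (nonZeroDivisors C) x
    simp only at hac
    have hcalg : IsAlgebraic Λ (c : C) := (Algebra.IsIntegral.isIntegral (c : C)).isAlgebraic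
    obtain ⟨r, hr, c', hc'⟩ := hcalg.exists_nonzero_dvd c.2
    refine ⟨r, hr, c' * a, ?_⟩
    show algebraMap C (FractionRing C) (c' * a) = r • x
    rw [Algebra.smul_def, IsScalarTower.algebraMap_apply Λ C (FractionRing C), hc', map_mul,
      map_mul, ← hac]
    ring
  obtain ⟨y, hy⟩ := mem_range_of_isIntegral_of_forall_prime hL
    (IsScalarTower.toAlgHom Λ C (FractionRing C)) hinj b
    (by simpa using hloc) x hxΛ hx0
  exact ⟨y, hy⟩

end Fermat.Agent.S18.B12.H278

end
-- ===== PACK-END S18/B12/H278/Global.lean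

-- ===== PACK-BEGIN S15/H466/ProjInst.lean
section



/-!
# S15 / DESC — PROJ for `J₀(p)` (helper466)

`projStatement_of : FinStatement → HeckeGalStatement → (∀ p, HeckeOperatorsCommuteBar p) →
ProjStatement` : the Hecke projector onto the Eisenstein part of `J₀(p)[r^k]`
(instance of `exists_projector_h466` for `η_ℓ = T_ℓ - (1 + ℓ)`, `X = J₀(p)[r^k]`).
The three inputs are on main (`S30.H810.torsion_finite`, `S29.H571`, `S29.heckeOperatorsCommuteBar`).

`descCoreTarget_route208'` : the top of route 208 with `ProjStatement` discharged.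
-/

set_option autoImplicit false
set_option linter.unusedSectionVars false

noncomputable section

namespace Fermat.Agent.S15.H466

open ModularCurve Fermat.Agent.S15.H975

section Inst

variable (p : ℕ) [NeZero p]

theorem eta_comm_h466 (hcomm : HeckeOperatorsCommuteBar p) (ℓ ℓ' : Nat.Primes) :
    Commute (eta p ℓ) (eta p ℓ') := by
  unfold eta
  have h1 : Commute (heckeOperatorBar p ℓ) (heckeOperatorBar p ℓ') := hcomm ℓ ℓ'
  have h2 : ∀ (a : Module.End ℤ (JZero p)) (n : ℤ),
      Commute a (n • (1 : Module.End ℤ (JZero p))) := fun a n => by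
    show a * (n • (1 : Module.End ℤ (JZero p))) = (n • (1 : Module.End ℤ (JZero p))) * a
    rw [mul_smul_comm, smul_mul_assoc, mul_one, one_mul]
  have h3 : ∀ (a : Module.End ℤ (JZero p)) (n : ℤ),
      Commute (n • (1 : Module.End ℤ (JZero p))) a := fun a n => (h2 a n).symm
  exact (h1.sub_right (h2 _ _)).sub_left ((h3 _ _).sub_right (h2 _ _))

/-- Galois-equivariance as a property of endomorphisms. -/
def IsGalEquiv_h466 (a : Module.End ℤ (JZero p)) : Prop :=
  ∀ (σ : _root_.Fermat.Agent.S15.H975.Gal) (x : JZero p), a (σ • x) = σ • a x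

theorem projStatement_at (hFinp : ∀ n : ℕ, 0 < n → Finite ↥(tors p n))
    (hTG : ∀ (ℓ : Nat.Primes) (σ : _root_.Fermat.Agent.S15.H975.Gal) (x : JZero p),
      heckeOperatorBar p ℓ (σ • x) = σ • heckeOperatorBar p ℓ x)
    (hcomm : HeckeOperatorsCommuteBar p) (S : Set ℕ) (r : ℕ) (hr : 0 < r) (k : ℕ) :
    ∃ e : JZero p →+ JZero p, (∀ (σ : _root_.Fermat.Agent.S15.H975.Gal) (x : JZero p), e (σ • x) = σ • e x) ∧
      (∀ x ∈ eisInf p S r, r ^ k • x = 0 → e x = x) ∧
      (∀ x : JZero p, r ^ k • x = 0 → e x ∈ eisInf p S r) := by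
  classical
  have : Finite ↥(tors p (r ^ k)) := hFinp (r ^ k) (pow_pos hr k)
  let ι : Type := {ℓ : Nat.Primes // (ℓ : ℕ) ≠ p ∧ (ℓ : ℕ) ∉ S}
  let η : ι → Module.End ℤ (JZero p) := fun i => eta p i.1
  have hX : ∀ i : ι, ∀ x ∈ tors p (r ^ k), η i x ∈ tors p (r ^ k) := by
    intro i x hx
    show r ^ k • (η i x) = 0
    rw [← map_nsmul, show r ^ k • x = 0 from hx, map_zero]
  have hPη : ∀ i : ι, IsGalEquiv_h466 p (η i) := by
    intro i σ z
    show eta p i.1 (σ • z) = σ • eta p i.1 z
    unfold eta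
    simp only [LinearMap.sub_apply, LinearMap.smul_apply, Module.End.one_apply]
    rw [hTG, gal_smul_sub_h466, gal_smul_zsmul_h466]
  obtain ⟨e, hPe, hfix, hkill⟩ := exists_projector_h466 η
    (fun i j => eta_comm_h466 p hcomm i.1 j.1) (tors p (r ^ k)) hX (IsGalEquiv_h466 p)
    (fun σ x => rfl) hPη
    (fun a b ha hb σ x => by
      show a (b (σ • x)) = σ • a (b x)
      rw [hb, ha])
    (fun a b ha hb σ x => by
      show a (σ • x) - b (σ • x) = σ • (a x - b x)
      rw [ha, hb, gal_smul_sub_h466])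
  refine ⟨e.toAddMonoidHom, fun σ x => hPe σ x, fun x hx hxk => ?_, fun x hxk => ?_⟩
  · exact hfix x hxk fun i => hx.2 i.1 i.2.1 i.2.2
  · obtain ⟨h1, h2⟩ := hkill x hxk
    exact ⟨⟨k, h1⟩, fun ℓ hℓp hℓS => h2 ⟨ℓ, hℓp, hℓS⟩⟩

end Inst

/-- **PROJ** from finiteness of torsion, Galois-equivariance and commutativity of the Hecke
operators. -/
theorem projStatement_of (hFin : FinStatement) (hTG : HeckeGalStatement)
    (hcomm : ∀ (p : ℕ) [NeZero p], HeckeOperatorsCommuteBar p) : ProjStatement :=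
  fun p _ _ S r hr k =>
    projStatement_at p (fun n hn => hFin p n hn) (hTG p) (hcomm p) (S : Set ℕ) r hr.pos k

/-- **The descent core on route 208**, with PROJ discharged. -/
theorem descCoreTarget_route208' (hA : Alg0Statement) (hDiv : DivStatement) (hFin : FinStatement)
    (hRtf : RtfStatement) (hFlag : FlagStatement) (hLoc : Local208Statement)
    (hT6 : T6ppAllStatement) (hTG : HeckeGalStatement)
    (hcomm : ∀ (p : ℕ) [NeZero p], HeckeOperatorsCommuteBar p)
    (p : ℕ) [NeZero p] (hp : p.Prime) (S : Finset ℕ) (r : ℕ) (hr : r.Prime) (hrp : r ∣ p - 1) :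
    DescCoreTarget p (S : Set ℕ) r :=
  descCoreTarget_route208 hA hDiv hFin hRtf hFlag hLoc hT6 hTG
    (projStatement_of hFin hTG hcomm) p hp S r hr hrp

end Fermat.Agent.S15.H466

end
end
-- ===== PACK-END S15/H466/ProjInst.lean

-- ===== PACK-BEGIN S28/H208/Tower.lean
section
/-
S28 [L4]: the tower step.  For a field `k`, a level `M` and a prime `p` with `p * M`
invertible in `k`:  `E_{pM} = E_M(ξ)` with `ξ = j(q^{p·p^a})`, `p^a ∥ M`, and `ξ` is a root of a
monic polynomial of degree `p + 1` (if `p ∤ M`) resp. `p` (if `p ∣ M`) over `E_M`.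
-/






set_option autoImplicit false

noncomputable section

open ModularCurve Polynomial IntermediateField

namespace Fermat.Agent.S28.H208

section Numerics

/-- If `d ∣ p * M` but `d ∤ M`, then `d = p · p^a · e` with `p^a ∥ M` and `e ∣ M / p^a`. -/
theorem exists_eq_mul_of_dvd_of_not_dvd {p M d : ℕ} (hp : p.Prime)
    (hd : d ∣ p * M) (hnd : ¬ d ∣ M) :
    ∃ e, d = p * p ^ M.factorization p * e ∧ e ∣ M / p ^ M.factorization p := by
  have hM : p ^ M.factorization p * (M / p ^ M.factorization p) = M :=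
    Nat.ordProj_mul_ordCompl_eq_self M p
  have hpM : p * M = p ^ (M.factorization p + 1) * (M / p ^ M.factorization p) := by
    conv_lhs => rw [← hM]
    rw [pow_succ]
    ring
  rw [hpM] at hd
  obtain ⟨y, z, hy, hz, rfl⟩ := Nat.dvd_mul.mp hd
  obtain ⟨i, hi, rfl⟩ := (Nat.dvd_prime_pow hp).mp hy
  rcases Nat.lt_or_ge i (M.factorization p + 1) with hlt | hge
  · exfalso
    apply hnd
    rw [← hM]
    exact Nat.mul_dvd_mul (pow_dvd_pow p (Nat.lt_succ_iff.mp hlt)) hz
  · have : i = M.factorization p + 1 := le_antisymm hi hge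
    subst this
    exact ⟨z, by rw [pow_succ]; ring, hz⟩

theorem natCast_ne_zero_of_dvd {k : Type*} [Semiring k] {a b : ℕ} (hab : a ∣ b)
    (hb : (b : k) ≠ 0) : (a : k) ≠ 0 := by
  intro ha
  obtain ⟨c, rfl⟩ := hab
  apply hb
  rw [Nat.cast_mul, ha, zero_mul]

end Numerics

section Generation

variable (k : Type*) [Field k]

/-- The tower generator `ξ = j(q^{p · p^a})`, `p^a ∥ M`. -/
def towerGen (M p : ℕ) [NeZero p] : LaurentSeries k :=
  qExpand k (p * p ^ M.factorization p) (jqModC k)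

/-- The integral version of the tower generator. -/
def towerGenZ (M p : ℕ) [NeZero p] : LaurentSeries ℤ :=
  qExpand ℤ (p * p ^ M.factorization p) (jqModC ℤ)

theorem coeffMap_towerGenZ (M p : ℕ) [NeZero p] :
    coeffMap (Int.castRingHom k) (towerGenZ M p) = towerGen k M p :=
  coeffMap_int_jd k _

/-- The hypothesis: modular polynomials exist for all primes dividing `N`. -/
def HasModPoly (N : ℕ) : Prop :=
  ∀ (r : ℕ) [NeZero r], r.Prime → r ∣ N → Nonempty (ModPolyData r)

theorem HasModPoly.of_dvd {M N : ℕ} (h : HasModPoly N) (hMN : M ∣ N) : HasModPoly M :=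
  fun r _ hr hrM => h r hr (hrM.trans hMN)

variable {k}

theorem jd_mem_full {M d : ℕ} [NeZero d] (hd : d ∣ M) :
    qExpand k d (jqModC k) ∈ modularFunctionFieldFullC k M :=
  jqModCd_mem_full k M hd

/-- Auxiliary: all `j(q^{p p^a e})`, `e ∣ M / p^a`, lie in `E_M(ξ)`. -/
theorem jd_mem_adjoin_aux (M p : ℕ) [NeZero M] [NeZero p] (hp : p.Prime)
    (hk : ((p * M : ℕ) : k) ≠ 0) (hΦ : HasModPoly (p * M)) :
    ∀ (e : ℕ) [NeZero e], e ∣ M / p ^ M.factorization p →
      qExpand k (p * p ^ M.factorization p * e) (jqModC k) ∈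
        (IntermediateField.adjoin (modularFunctionFieldFullC k M)
          ({towerGen k M p} : Set (LaurentSeries k))) := by
  intro e
  induction e using Nat.strong_induction_on with
  | _ e ih =>
    intro _ he
    have hM0 : M ≠ 0 := NeZero.ne M
    have hMfac : p ^ M.factorization p * (M / p ^ M.factorization p) = M :=
      Nat.ordProj_mul_ordCompl_eq_self M p
    rcases eq_or_ne e 1 with rfl | he1
    · rw [qExpand_congr (mul_one _)]
      exact IntermediateField.mem_adjoin_simple_self _ _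
    · -- a prime factor `r ≠ p` of `e`
      obtain ⟨r, hr, hre⟩ : ∃ r : ℕ, r.Prime ∧ r ∣ e :=
        ⟨e.minFac, Nat.minFac_prime he1, Nat.minFac_dvd e⟩
      obtain ⟨e', he'⟩ := hre
      have he0 : e ≠ 0 := NeZero.ne e
      have he'0 : e' ≠ 0 := by
        rintro rfl
        rw [mul_zero] at he'
        exact he0 he'
      haveI : NeZero e' := ⟨he'0⟩
      haveI : NeZero r := ⟨hr.ne_zero⟩
      have he'lt : e' < e := by
        have h2 := hr.two_le
        calc e' < r * e' := by nlinarith [Nat.pos_of_ne_zero he'0]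
          _ = e := he'.symm
      have he'dvd : e' ∣ M / p ^ M.factorization p :=
        (Dvd.intro_left _ he'.symm).trans he
      have hrM' : r ∣ M / p ^ M.factorization p := (Dvd.intro _ he'.symm).trans he
      have hrp : p ≠ r := by
        intro h
        rw [← h] at hrM'
        exact Nat.not_dvd_ordCompl hp hM0 hrM'
      have hrdvd : r ∣ p * M := by
        have h2 : M / p ^ M.factorization p ∣ M := Dvd.intro_left _ hMfac
        exact (hrM'.trans h2).trans (Dvd.intro_left _ rfl)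
      have hpk : (p : k) ≠ 0 := natCast_ne_zero_of_dvd (Dvd.intro _ rfl) hk
      have hrk : (r : k) ≠ 0 := natCast_ne_zero_of_dvd hrdvd hk
      obtain ⟨Dp⟩ := hΦ p hp (Dvd.intro _ rfl)
      obtain ⟨Dr⟩ := hΦ r hr hrdvd
      -- the gcd lemma with `c = p^a * e'`
      have hgcd := jpr_mem_adjoin_qExpand k hp hr hrp hpk hrk Dp Dr
        (p ^ M.factorization p * e')
      have hidx : p ^ M.factorization p * e' * (p * r) =
          p * p ^ M.factorization p * e := by
        rw [he']; ring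
      rw [qExpand_congr hidx] at hgcd
      -- both generators lie in `E_M(ξ)`
      have h1 : qExpand k (p ^ M.factorization p * e' * r) (jqModC k) ∈
          (IntermediateField.adjoin (modularFunctionFieldFullC k M)
            ({towerGen k M p} : Set (LaurentSeries k))) := by
        have hdvd : p ^ M.factorization p * e' * r ∣ M := by
          have : p ^ M.factorization p * e' * r = p ^ M.factorization p * e := by
            rw [he']; ring
          rw [this]
          conv_rhs => rw [← hMfac]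
          exact Nat.mul_dvd_mul_left _ he
        have hmem := jd_mem_full (k := k) hdvd
        exact (IntermediateField.adjoin (modularFunctionFieldFullC k M)
            ({towerGen k M p} : Set (LaurentSeries k))).algebraMap_mem ⟨_, hmem⟩
      have h2 : qExpand k (p ^ M.factorization p * e' * p) (jqModC k) ∈
          (IntermediateField.adjoin (modularFunctionFieldFullC k M)
            ({towerGen k M p} : Set (LaurentSeries k))) := by
        have := ih e' he'lt he'dvd
        rwa [qExpand_congr (show p ^ M.factorization p * e' * p =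
          p * p ^ M.factorization p * e' by ring)]
      have hle : IntermediateField.adjoin k
          ({qExpand k (p ^ M.factorization p * e' * r) (jqModC k),
            qExpand k (p ^ M.factorization p * e' * p) (jqModC k)} : Set (LaurentSeries k)) ≤
          (IntermediateField.adjoin (modularFunctionFieldFullC k M)
            ({towerGen k M p} : Set (LaurentSeries k))).restrictScalars k := by
        rw [IntermediateField.adjoin_le_iff]
        rintro y (rfl | rfl)
        · exact h1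
        · exact h2
      exact hle hgcd

/-- **Generation**: every `j(q^d)`, `d ∣ p * M`, lies in `E_M(ξ)`. -/
theorem jd_mem_adjoin_tower (M p : ℕ) [NeZero M] [NeZero p] (hp : p.Prime)
    (hk : ((p * M : ℕ) : k) ≠ 0) (hΦ : HasModPoly (p * M))
    (d : ℕ) [NeZero d] (hd : d ∣ p * M) :
    qExpand k d (jqModC k) ∈
      (IntermediateField.adjoin (modularFunctionFieldFullC k M)
        ({towerGen k M p} : Set (LaurentSeries k))) := by
  by_cases hdM : d ∣ M
  · exact (IntermediateField.adjoin (modularFunctionFieldFullC k M)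
      ({towerGen k M p} : Set (LaurentSeries k))).algebraMap_mem ⟨_, jd_mem_full hdM⟩
  · obtain ⟨e, hde, he⟩ := exists_eq_mul_of_dvd_of_not_dvd hp hd hdM
    have he0 : e ≠ 0 := by
      rintro rfl
      rw [mul_zero] at hde
      exact NeZero.ne d hde
    haveI : NeZero e := ⟨he0⟩
    rw [qExpand_congr hde]
    exact jd_mem_adjoin_aux M p hp hk hΦ e he

/-- `E_{pM} ≤ E_M(ξ)`. -/
theorem full_le_adjoin_tower (M p : ℕ) [NeZero M] [NeZero p] (hp : p.Prime)
    (hk : ((p * M : ℕ) : k) ≠ 0) (hΦ : HasModPoly (p * M)) :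
    modularFunctionFieldFullC k (p * M) ≤
      (IntermediateField.adjoin (modularFunctionFieldFullC k M)
        ({towerGen k M p} : Set (LaurentSeries k))).restrictScalars k := by
  rw [modularFunctionFieldFullC, IntermediateField.adjoin_le_iff]
  rintro y ⟨d, hd0, hd, rfl⟩
  exact jd_mem_adjoin_tower M p hp hk hΦ d hd

end Generation

end Fermat.Agent.S28.H208

end

end
-- ===== PACK-END S28/H208/Tower.lean

-- ===== PACK-BEGIN S28/H208/Span.lean
section
/-
S28 [L4] = [L.UP]: spanning monomials, uniform in the field `k`.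

`exists_spanning_monomials`: from `ModPolyData r` for the primes `r ∣ N` one gets
`dedekindPsi N` monomials in the `j(q^d)`, `d ∣ N` (defined over `ℤ`), whose images span
`k(j(q^d) : d ∣ N)` over `k(j)` for EVERY field `k` in which `N` is invertible.
-/







set_option autoImplicit false

noncomputable section

open ModularCurve Polynomial IntermediateField

namespace Fermat.Agent.S28.H208

/-! ### Arithmetic of `dedekindPsi` (copied from helper872, `Fermat.Agent.S20.H872`) -/

section Psi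

theorem psi_mul_prime_of_dvd {N p : ℕ} (hN : N ≠ 0) (hp : p.Prime) (hpN : p ∣ N) :
    ModularCurve.dedekindPsi (N * p) = p * ModularCurve.dedekindPsi N := by
  unfold ModularCurve.dedekindPsi
  have hset : (N * p).divisors.filter Squarefree = N.divisors.filter Squarefree := by
    ext d
    simp only [Finset.mem_filter, Nat.mem_divisors]
    constructor
    · rintro ⟨⟨hd, _⟩, hsq⟩
      refine ⟨⟨?_, hN⟩, hsq⟩
      have h2 : d ∣ N ^ 2 := by
        rw [pow_two]
        exact hd.trans (mul_dvd_mul_left N hpN)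
      exact (hsq.dvd_pow_iff_dvd two_ne_zero).1 h2
    · rintro ⟨⟨hd, _⟩, hsq⟩
      exact ⟨⟨hd.mul_right p, mul_ne_zero hN hp.ne_zero⟩, hsq⟩
  rw [hset, Finset.mul_sum]
  refine Finset.sum_congr rfl fun d hd => ?_
  have hdN : d ∣ N := (Nat.mem_divisors.1 (Finset.mem_filter.1 hd).1).1
  obtain ⟨e, rfl⟩ := hdN
  have hd0 : 0 < d := Nat.pos_of_ne_zero (by rintro rfl; simp at hN)
  rw [mul_assoc, Nat.mul_div_cancel_left _ hd0, Nat.mul_div_cancel_left _ hd0, mul_comm]

theorem psi_mul_prime_of_not_dvd {N p : ℕ} (hN : N ≠ 0) (hp : p.Prime) (hpN : ¬ p ∣ N) :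
    ModularCurve.dedekindPsi (N * p) = (p + 1) * ModularCurve.dedekindPsi N := by
  unfold ModularCurve.dedekindPsi
  have hcop : ∀ d, d ∣ N → Nat.Coprime d p := fun d hd =>
    (Nat.Coprime.symm ((Nat.Prime.coprime_iff_not_dvd hp).2 fun h => hpN (h.trans hd)))
  have hset : (N * p).divisors.filter Squarefree
      = (N.divisors.filter Squarefree) ∪ (N.divisors.filter Squarefree).image (· * p) := by
    ext d
    simp only [Finset.mem_filter, Nat.mem_divisors, Finset.mem_union, Finset.mem_image]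
    constructor
    · rintro ⟨⟨hd, _⟩, hsq⟩
      by_cases hpd : p ∣ d
      · right
        obtain ⟨e, rfl⟩ := hpd
        refine ⟨e, ⟨⟨?_, hN⟩, hsq.squarefree_of_dvd (Dvd.intro_left p rfl)⟩, mul_comm e p⟩
        rw [mul_comm p e] at hd
        exact Nat.dvd_of_mul_dvd_mul_right hp.pos hd
      · left
        refine ⟨⟨?_, hN⟩, hsq⟩
        have : Nat.Coprime d p := (Nat.Coprime.symm ((Nat.Prime.coprime_iff_not_dvd hp).2 hpd))
        exact this.dvd_of_dvd_mul_right hd
    · rintro (⟨⟨hd, _⟩, hsq⟩ | ⟨e, ⟨⟨he, _⟩, hsq⟩, rfl⟩)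
      · exact ⟨⟨hd.mul_right p, mul_ne_zero hN hp.ne_zero⟩, hsq⟩
      · refine ⟨⟨mul_dvd_mul_right he p, mul_ne_zero hN hp.ne_zero⟩, ?_⟩
        exact (Nat.squarefree_mul (hcop e he)).2 ⟨hsq, hp.squarefree⟩
  have hdisj : Disjoint (N.divisors.filter Squarefree)
      ((N.divisors.filter Squarefree).image (· * p)) := by
    rw [Finset.disjoint_left]
    intro d hd hd'
    simp only [Finset.mem_filter, Nat.mem_divisors, Finset.mem_image] at hd hd'
    obtain ⟨e, _, rfl⟩ := hd'
    exact hpN ((Dvd.intro_left e rfl).trans hd.1.1)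
  rw [hset, Finset.sum_union hdisj, Finset.sum_image, add_mul, one_mul, Finset.mul_sum]
  · congr 1
    · refine Finset.sum_congr rfl fun d hd => ?_
      have hdN : d ∣ N := (Nat.mem_divisors.1 (Finset.mem_filter.1 hd).1).1
      obtain ⟨e, rfl⟩ := hdN
      have hd0 : 0 < d := Nat.pos_of_ne_zero (by rintro rfl; simp at hN)
      rw [mul_assoc, Nat.mul_div_cancel_left _ hd0, Nat.mul_div_cancel_left _ hd0, mul_comm]
    · refine Finset.sum_congr rfl fun d hd => ?_
      exact Nat.mul_div_mul_right N d hp.pos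
  · intro a _ b _ hab
    exact Nat.eq_of_mul_eq_mul_right hp.pos hab

/-- The degree of the tower step `M → p * M`. -/
def stepDeg (M p : ℕ) : ℕ := if p ∣ M then p else p + 1

theorem stepDeg_pos (M p : ℕ) (hp : p.Prime) : 0 < stepDeg M p := by
  unfold stepDeg
  split_ifs
  · exact hp.pos
  · exact Nat.succ_pos p

theorem psi_mul_stepDeg {M p : ℕ} (hM : M ≠ 0) (hp : p.Prime) :
    ModularCurve.dedekindPsi M * stepDeg M p = ModularCurve.dedekindPsi (p * M) := by
  unfold stepDeg
  rw [mul_comm p M]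
  split_ifs with h
  · rw [psi_mul_prime_of_dvd hM hp h, mul_comm]
  · rw [psi_mul_prime_of_not_dvd hM hp h, mul_comm]

end Psi

/-! ### Integrality of the tower generator, with degree -/

section Integral

variable {k : Type*} [Field k]

theorem towerGen_ne {M p : ℕ} [NeZero p] (hp : p.Prime) (a' : ℕ)
    (ha : M.factorization p = a' + 1) :
    towerGen k M p ≠ qExpand k (p ^ a') (jqModC k) := by
  intro h
  have h1 : (towerGen k M p).coeff (-((p * p ^ M.factorization p : ℕ) : ℤ)) = 1 :=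
    coeff_jd_neg k _
  rw [h, coeff_jd_of_lt] at h1
  · exact zero_ne_one h1
  · rw [ha]
    have hp2 := hp.two_le
    have hpos : 0 < p ^ a' := pow_pos hp.pos a'
    have h4 : 4 ≤ p * p := Nat.mul_le_mul hp2 hp2
    have h5 := Nat.mul_le_mul_left (p ^ a') h4
    have : p ^ a' < p * p ^ (a' + 1) := by
      rw [pow_succ]
      nlinarith
    exact_mod_cast neg_lt_neg (by exact_mod_cast this : ((p ^ a' : ℕ) : ℤ) < (p * p ^ (a' + 1) : ℕ))

theorem exists_monic_towerGen (M p : ℕ) [NeZero M] [NeZero p] (hp : p.Prime)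
    (Dp : ModPolyData p) :
    ∃ Q : Polynomial (modularFunctionFieldFullC k M), Q.Monic ∧
      Q.natDegree = stepDeg M p ∧ Polynomial.aeval (towerGen k M p) Q = 0 := by
  have hM0 : M ≠ 0 := NeZero.ne M
  by_cases hpM : p ∣ M
  · -- old prime: divide by the known root
    obtain ⟨a', ha⟩ : ∃ a', M.factorization p = a' + 1 :=
      Nat.exists_eq_succ_of_ne_zero (hp.factorization_pos_of_dvd hM0 hpM).ne'
    have hP0 : p ^ (a' + 1) ∣ M := by
      rw [← ha]; exact Nat.ordProj_dvd M p
    have hP1 : p ^ a' ∣ M := (pow_dvd_pow p (Nat.le_succ a')).trans hP0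
    let y₀ : modularFunctionFieldFullC k M := ⟨qExpand k (p ^ (a' + 1)) (jqModC k), jd_mem_full hP0⟩
    let y₁ : modularFunctionFieldFullC k M := ⟨qExpand k (p ^ a') (jqModC k), jd_mem_full hP1⟩
    let Φ' : Polynomial (modularFunctionFieldFullC k M) := Dp.Φ.map (evZ y₀)
    have hΦ'monic : Φ'.Monic := Dp.monic.map _
    have hΦ'deg : Φ'.natDegree = p + 1 := by
      rw [Dp.monic.natDegree_map, Dp.natDegree_eq]
    have hΦ'map : Φ'.map (algebraMap (modularFunctionFieldFullC k M) (LaurentSeries k)) =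
        Dp.Φ.map (evZ (qExpand k (p ^ (a' + 1)) (jqModC k))) := map_map_evZ _ _ _
    have hroot : Φ'.IsRoot y₁ := by
      rw [Polynomial.IsRoot]
      apply (algebraMap (modularFunctionFieldFullC k M) (LaurentSeries k)).injective
      rw [map_zero, ← Polynomial.eval_map_apply, hΦ'map, Polynomial.eval_map]
      have h := eval_j_ring_qExpand k Dp (p ^ a')
      rw [qExpand_congr (pow_succ p a').symm] at h
      exact h
    have hfac : (X - C y₁) * (Φ' /ₘ (X - C y₁)) = Φ' :=
      Polynomial.mul_divByMonic_eq_iff_isRoot.mpr hroot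
    refine ⟨Φ' /ₘ (X - C y₁), ?_, ?_, ?_⟩
    · exact Polynomial.Monic.of_mul_monic_left (Polynomial.monic_X_sub_C y₁)
        (by rw [hfac]; exact hΦ'monic)
    · rw [Polynomial.natDegree_divByMonic _ (Polynomial.monic_X_sub_C y₁), hΦ'deg,
        Polynomial.natDegree_X_sub_C, stepDeg, if_pos hpM]
      rfl
    · have hΦ'ξ : Polynomial.aeval (towerGen k M p) Φ' = 0 := by
        have hξ : towerGen k M p = qExpand k (p ^ (a' + 1) * p) (jqModC k) :=
          qExpand_congr (by rw [ha]; ring) _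
        rw [Polynomial.aeval_def, ← Polynomial.eval_map, hΦ'map, Polynomial.eval_map, hξ]
        exact eval_jp_ring_qExpand k Dp (p ^ (a' + 1))
      rw [← hfac, map_mul, map_sub, Polynomial.aeval_X, Polynomial.aeval_C] at hΦ'ξ
      rcases mul_eq_zero.mp hΦ'ξ with h | h
      · exact absurd (sub_eq_zero.mp h) (towerGen_ne hp a' ha)
      · exact h
  · -- new prime
    have ha : M.factorization p = 0 := Nat.factorization_eq_zero_of_not_dvd hpM
    let y₀ : modularFunctionFieldFullC k M := ⟨jqModC k, jqModC_mem_full k M⟩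
    refine ⟨Dp.Φ.map (evZ y₀), Dp.monic.map _, ?_, ?_⟩
    · rw [Dp.monic.natDegree_map, Dp.natDegree_eq, stepDeg, if_neg hpM]
    · have hmap : (Dp.Φ.map (evZ y₀)).map
          (algebraMap (modularFunctionFieldFullC k M) (LaurentSeries k)) =
          Dp.Φ.map (evZ (jqModC k)) := map_map_evZ _ _ _
      have hξ : towerGen k M p = qExpand k p (jqModC k) :=
        qExpand_congr (by rw [ha]; simp) _
      rw [Polynomial.aeval_def, ← Polynomial.eval_map, hmap, Polynomial.eval_map, hξ]
      exact eval_jp_ring k Dp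

end Integral

/-! ### The spanning step -/

section SpanStep

variable {k : Type*} [Field k]

theorem mul_mem_span_of_mem_span {ι : Type*} (y : ι → LaurentSeries k) (w : LaurentSeries k)
    {z : LaurentSeries k} (hz : z ∈ Submodule.span (jField k) (Set.range y)) :
    z * w ∈ Submodule.span (jField k) (Set.range fun i => y i * w) := by
  induction hz using Submodule.span_induction with
  | mem x hx =>
    obtain ⟨i, rfl⟩ := hx
    exact Submodule.subset_span ⟨i, rfl⟩
  | zero => rw [zero_mul]; exact Submodule.zero_mem _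
  | add x y _ _ hx hy => rw [add_mul]; exact Submodule.add_mem _ hx hy
  | smul c x _ hx => rw [smul_mul_assoc]; exact Submodule.smul_mem _ c hx

theorem span_step (M p : ℕ) [NeZero M] [NeZero p] (hp : p.Prime)
    (hk : ((p * M : ℕ) : k) ≠ 0) (hΦ : HasModPoly (p * M))
    {n : ℕ} (y : Fin n → LaurentSeries k)
    (hy : ∀ z ∈ modularFunctionFieldFullC k M, z ∈ Submodule.span (jField k) (Set.range y)) :
    ∀ x ∈ modularFunctionFieldFullC k (p * M),
      x ∈ Submodule.span (jField k)
        (Set.range fun t : Fin n × Fin (stepDeg M p) => y t.1 * towerGen k M p ^ (t.2 : ℕ)) := by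
  intro x hx
  obtain ⟨Dp⟩ := hΦ p hp (Dvd.intro _ rfl)
  obtain ⟨Q, hQmonic, hQdeg, hQξ⟩ := exists_monic_towerGen (k := k) M p hp Dp
  have hint : IsIntegral (modularFunctionFieldFullC k M) (towerGen k M p) :=
    ⟨Q, hQmonic, by rwa [Polynomial.aeval_def] at hQξ⟩
  have hx' : x ∈ (IntermediateField.adjoin (modularFunctionFieldFullC k M)
      ({towerGen k M p} : Set (LaurentSeries k))) := full_le_adjoin_tower M p hp hk hΦ hx
  have hx'' : x ∈ (IntermediateField.adjoin (modularFunctionFieldFullC k M)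
      ({towerGen k M p} : Set (LaurentSeries k))).toSubalgebra := hx'
  rw [IntermediateField.adjoin_simple_toSubalgebra_of_isAlgebraic hint.isAlgebraic,
    Algebra.adjoin_singleton_eq_range_aeval] at hx''
  obtain ⟨f, rfl⟩ := hx''
  have hQ1 : Q ≠ 1 := by
    intro h
    have := stepDeg_pos M p hp
    rw [← hQdeg, h, Polynomial.natDegree_one] at this
    exact lt_irrefl _ this
  have hdeg : (f %ₘ Q).natDegree < stepDeg M p := by
    rw [← hQdeg]
    exact Polynomial.natDegree_modByMonic_lt f hQmonic hQ1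
  have hf : Polynomial.aeval (towerGen k M p) f = Polynomial.aeval (towerGen k M p) (f %ₘ Q) :=
    (Polynomial.aeval_modByMonic_eq_self_of_root hQξ).symm
  show Polynomial.aeval (towerGen k M p) f ∈ _
  rw [hf, Polynomial.aeval_eq_sum_range' hdeg]
  refine Submodule.sum_mem _ fun m hm => ?_
  have hm' : m < stepDeg M p := Finset.mem_range.mp hm
  have hc : (((f %ₘ Q).coeff m : modularFunctionFieldFullC k M) : LaurentSeries k) ∈
      Submodule.span (jField k) (Set.range y) := hy _ ((f %ₘ Q).coeff m).2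
  have h1 := mul_mem_span_of_mem_span y (towerGen k M p ^ m) hc
  have h2 : Submodule.span (jField k) (Set.range fun i => y i * towerGen k M p ^ m) ≤
      Submodule.span (jField k)
        (Set.range fun t : Fin n × Fin (stepDeg M p) => y t.1 * towerGen k M p ^ (t.2 : ℕ)) := by
    apply Submodule.span_mono
    rintro _ ⟨i, rfl⟩
    exact ⟨(i, ⟨m, hm'⟩), rfl⟩
  have h3 : ((f %ₘ Q).coeff m) • (towerGen k M p ^ m) =
      (((f %ₘ Q).coeff m : modularFunctionFieldFullC k M) : LaurentSeries k) *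
        towerGen k M p ^ m := by
    rw [Algebra.smul_def]
    rfl
  rw [h3]
  exact h2 h1

end SpanStep

/-! ### The main theorem -/

section Main

theorem intDivisorExpansions_mono {M N : ℕ} (h : M ∣ N) :
    intDivisorExpansions M ⊆ intDivisorExpansions N := by
  rintro x ⟨d, hd0, hd, rfl⟩
  exact ⟨d, hd0, hd.trans h, rfl⟩

/-- **Spanning monomials, uniform in `k`.** -/
theorem exists_spanning_monomials (N : ℕ) (hN : N ≠ 0) (hΦ : HasModPoly N) :
    ∃ (n : ℕ) (y : Fin n → LaurentSeries ℤ), n = dedekindPsi N ∧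
      (∀ i, y i ∈ Subring.closure (intDivisorExpansions N)) ∧
      ∀ (k : Type) [Field k], (N : k) ≠ 0 →
        ∀ x ∈ modularFunctionFieldFullC k N,
          x ∈ Submodule.span (jField k)
            (Set.range fun i => coeffMap (Int.castRingHom k) (y i)) := by
  induction N using induction_on_primes with
  | zero => exact absurd rfl hN
  | one =>
    refine ⟨1, fun _ => 1, dedekindPsi_one.symm, fun _ => Subring.one_mem _, ?_⟩
    intro k _ _ x hx
    have hle : modularFunctionFieldFullC k 1 ≤ jField k := by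
      rw [modularFunctionFieldFullC, IntermediateField.adjoin_le_iff]
      rintro _ ⟨d, hd0, hd, rfl⟩
      have hd1 : d = 1 := Nat.dvd_one.mp hd
      subst hd1
      rw [qExpand_one_apply]
      exact IntermediateField.subset_adjoin k _ rfl
    have hxj : x ∈ jField k := hle hx
    have h1 : (1 : LaurentSeries k) ∈ Submodule.span (jField k)
        (Set.range fun _ : Fin 1 => coeffMap (Int.castRingHom k) (1 : LaurentSeries ℤ)) := by
      apply Submodule.subset_span
      exact ⟨0, map_one _⟩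
    have h2 := Submodule.smul_mem _ (⟨x, hxj⟩ : jField k) h1
    have h3 : (⟨x, hxj⟩ : jField k) • (1 : LaurentSeries k) = x := by
      rw [Algebra.smul_def, mul_one]
      rfl
    rwa [h3] at h2
  | prime_mul p M hp ih =>
    have hM : M ≠ 0 := fun h => hN (by rw [h, mul_zero])
    haveI : NeZero M := ⟨hM⟩
    haveI : NeZero p := ⟨hp.ne_zero⟩
    obtain ⟨n, y, hn, hcl, hspan⟩ := ih hM (hΦ.of_dvd (Dvd.intro_left _ rfl))
    refine ⟨n * stepDeg M p,
      fun t => y (finProdFinEquiv.symm t).1 * towerGenZ M p ^ ((finProdFinEquiv.symm t).2 : ℕ),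
      ?_, ?_, ?_⟩
    · rw [hn, psi_mul_stepDeg hM hp]
    · intro t
      refine Subring.mul_mem _ ?_ (Subring.pow_mem _ ?_ _)
      · exact Subring.closure_mono (intDivisorExpansions_mono (Dvd.intro_left _ rfl)) (hcl _)
      · apply Subring.subset_closure
        refine ⟨p * p ^ M.factorization p, inferInstance, ?_, rfl⟩
        exact Nat.mul_dvd_mul_left p (Nat.ordProj_dvd M p)
    · intro k _ hk x hx
      have hkM : (M : k) ≠ 0 := natCast_ne_zero_of_dvd (Dvd.intro_left _ rfl) hk
      have h := span_step (k := k) M p hp hk hΦ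
        (fun i => coeffMap (Int.castRingHom k) (y i)) (hspan k hkM) x hx
      refine Submodule.span_mono ?_ h
      rintro _ ⟨t, rfl⟩
      refine ⟨finProdFinEquiv t, ?_⟩
      simp only [Equiv.symm_apply_apply, map_mul, map_pow, coeffMap_towerGenZ]

end Main

end Fermat.Agent.S28.H208

end

end
-- ===== PACK-END S28/H208/Span.lean

-- ===== PACK-BEGIN S28/H208/Upper.lean
section
/-
S28 [L.UP], consumer forms:
* `integral_jd` : every `j(q^d)`, `d ∣ N`, is integral over `ℤ[j]`  (`CoreData.integral`);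
* `card_le_dedekindPsi` : a `k(j)`-linearly independent family in `k(j(q^d) : d ∣ N)` has at most
  `dedekindPsi N` elements (any field `k` with `N` invertible);
* `upper_bound_rat` : the same over `ℚ`, in the shape `hU` of `H325.coreData_of_bounds`.
-/








set_option autoImplicit false

noncomputable section

open ModularCurve Polynomial IntermediateField

namespace Fermat.Agent.S28.H208

/-! ### Integrality of the `j(q^d)` over `ℤ[j]` -/

section Integral

/-- One integrality step: if `y` is integral over `ℤ[j]` (via `f`) and `x` is a root of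
`Φ(X, y)` with `Φ` monic, then `x` is integral over `ℤ[j]`. -/
theorem isIntegralElem_of_root {A : Type*} [CommRing A] (f : Polynomial ℤ →+* A)
    (Φ : Polynomial (Polynomial ℤ)) (hΦ : Φ.Monic) (x y : A)
    (hy : f.IsIntegralElem y) (hx : Φ.eval₂ (evZ y) x = 0) : f.IsIntegralElem x := by
  letI : Algebra (Polynomial ℤ) A := f.toAlgebra
  have hy' : IsIntegral (Polynomial ℤ) y := hy
  let S := integralClosure (Polynomial ℤ) A
  let yS : S := ⟨y, hy'⟩
  have hcomp : (algebraMap S A).comp (evZ yS) = evZ y := evZ_comp _ _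
  have hxS : IsIntegral S x := by
    refine ⟨Φ.map (evZ yS), hΦ.map _, ?_⟩
    rw [Polynomial.eval₂_map, hcomp]
    exact hx
  exact isIntegral_trans x hxS

theorem integral_jd_aux (d : ℕ) :
    ∀ [NeZero d], HasModPoly d →
      (evalAt (jqModC ℤ)).IsIntegralElem (qExpand ℤ d (jqModC ℤ)) := by
  induction d using induction_on_primes with
  | zero => intro h; exact absurd rfl (NeZero.ne (0 : ℕ))
  | one =>
    intro _ _
    refine ⟨Polynomial.X - Polynomial.C Polynomial.X, Polynomial.monic_X_sub_C _, ?_⟩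
    rw [Polynomial.eval₂_sub, Polynomial.eval₂_X, Polynomial.eval₂_C, qExpand_one_apply]
    simp [evalAt]
  | prime_mul p M hp ih =>
    intro _ hΦ
    have hM : M ≠ 0 := fun h => NeZero.ne (p * M) (by rw [h, mul_zero])
    haveI : NeZero M := ⟨hM⟩
    haveI : NeZero p := ⟨hp.ne_zero⟩
    obtain ⟨Dp⟩ := hΦ p hp (Dvd.intro _ rfl)
    have hy := ih (hΦ.of_dvd (Dvd.intro_left _ rfl))
    have hx := eval_jp_ring_qExpand ℤ Dp M
    rw [qExpand_congr (mul_comm M p)] at hx
    exact isIntegralElem_of_root _ Dp.Φ Dp.monic _ _ hy hx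

/-- **Integrality** of `j(q^d)` over `ℤ[j]` (the field `integral` of `CoreData`). -/
theorem integral_jd (N : ℕ) (hΦ : HasModPoly N) (d : ℕ) [NeZero d] (hd : d ∣ N) :
    ∃ P : Polynomial (Polynomial ℤ), P.Monic ∧
      P.eval₂ (evalAt (jqModC ℤ)) (qExpand ℤ d (jqModC ℤ)) = 0 :=
  integral_jd_aux d (hΦ.of_dvd hd)

end Integral

/-! ### The upper bound in "independent families are small" form -/

section Upper

theorem card_le_of_span {k : Type*} [Field k] {n m : ℕ} (y : Fin n → LaurentSeries k)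
    (x : Fin m → LaurentSeries k)
    (hx : ∀ i, x i ∈ Submodule.span (jField k) (Set.range y))
    (hli : LinearIndependent (jField k) x) : m ≤ n := by
  haveI : Module.Finite (jField k) (Submodule.span (jField k) (Set.range y)) :=
    Module.Finite.span_of_finite _ (Set.finite_range y)
  have hli' : LinearIndependent (jField k)
      (fun i => (⟨x i, hx i⟩ : Submodule.span (jField k) (Set.range y))) := by
    apply LinearIndependent.of_comp (Submodule.span (jField k) (Set.range y)).subtype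
    exact hli
  have h1 := hli'.fintype_card_le_finrank
  have h2 := finrank_range_le_card (R := jField k) y
  rw [Fintype.card_fin] at h1 h2
  exact h1.trans h2

/-- **Upper bound**, any field `k` (of type `Type`) in which `N` is invertible. -/
theorem card_le_dedekindPsi (N : ℕ) (hN : N ≠ 0) (hΦ : HasModPoly N) (k : Type) [Field k]
    (hk : (N : k) ≠ 0) (m : ℕ) (x : Fin m → LaurentSeries k)
    (hx : ∀ i, x i ∈ modularFunctionFieldFullC k N)
    (hli : LinearIndependent (jField k) x) : m ≤ dedekindPsi N := by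
  obtain ⟨n, y, hn, -, hspan⟩ := exists_spanning_monomials N hN hΦ
  rw [← hn]
  exact card_le_of_span _ x (fun i => hspan k hk _ (hx i)) hli

/-- **Upper bound over `ℚ`**, in the shape of the hypothesis `hU` of
`H325.coreData_of_bounds`. -/
theorem upper_bound_rat (N : ℕ) [NeZero N] (hΦ : HasModPoly N) :
    ∀ (m : ℕ) (x : Fin m → LaurentSeries ℚ), (∀ i, x i ∈ modularFunctionFieldFull N) →
      LinearIndependent (jField ℚ) x → m ≤ dedekindPsi N := by
  intro m x hx hli
  have hk : ((N : ℕ) : ℚ) ≠ 0 := Nat.cast_ne_zero.mpr (NeZero.ne N)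
  exact card_le_dedekindPsi N (NeZero.ne N) hΦ ℚ hk m x hx hli

/-- `HasModPoly N` from the analytic stub. -/
theorem hasModPoly_of_nonempty
    (h : ∀ (p : ℕ) [NeZero p], p.Prime → Nonempty (ModPolyData p)) (N : ℕ) : HasModPoly N :=
  fun r _ hr _ => h r hr

end Upper

end Fermat.Agent.S28.H208

end

end
-- ===== PACK-END S28/H208/Upper.lean

-- ===== PACK-BEGIN S15/H215/ModBTop.lean
section



/-!
# S15, piece MOD-B (helper215): descent of the bridge from `ℂ` to `ℚ̄`

* `veluModularPair_of : VeluModularPairComplexStatement → VeluModularPairStatement`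
* `veluModularPair_of_pieces :
    UniformizationStatement → LatticeModularPairStatement → VeluModularPairStatement`

(B0 = `veluMap`, B0' = `isModularPairMap`, B4 = `latticeVelu` are proved in this directory.)
-/

set_option autoImplicit false

noncomputable section

open WeierstrassCurve
open scoped WeierstrassCurve.Affine

namespace Fermat.Agent.S15.H215

open Fermat.Agent.S15.H542

theorem jInv_map_h215 {K L : Type} [Field K] [Field L] (W : WeierstrassCurve K) (f : K →+* L) :
    jInv (W.map f) = f (jInv W) := by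
  unfold jInv
  rw [WeierstrassCurve.map_c₄, WeierstrassCurve.map_Δ, map_div₀, map_pow]

/-- **B from B-ℂ** (via B0, B0'). -/
theorem veluModularPair_of (hC : VeluModularPairComplexStatement) : VeluModularPairStatement := by
  intro p _ hp hp2 E hΔ Q hQord
  haveI : Algebra.IsAlgebraic ℚ (AlgebraicClosure ℚ) := AlgebraicClosure.isAlgebraic ℚ
  let ι : AlgebraicClosure ℚ →ₐ[ℚ] ℂ := IsAlgClosed.lift
  letI : Algebra (AlgebraicClosure ℚ) ℂ := ι.toRingHom.toAlgebra
  have hmap := veluMap (K := AlgebraicClosure ℚ) (L := ℂ) E Q p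
  have hord : addOrderOf
      (WeierstrassCurve.Affine.Point.map (W' := E) (Algebra.ofId (AlgebraicClosure ℚ) ℂ) Q) = p := by
    rw [← hQord]
    exact addOrderOf_injective
      (WeierstrassCurve.Affine.Point.map (W' := E) (Algebra.ofId (AlgebraicClosure ℚ) ℂ))
      (WeierstrassCurve.Affine.Point.map_injective _) Q
  have hinj : Function.Injective (algebraMap (AlgebraicClosure ℚ) ℂ) :=
    (algebraMap (AlgebraicClosure ℚ) ℂ).injective
  have hΔ' : (E⁄ℂ).Δ ≠ 0 := by
    show (E.map (algebraMap (AlgebraicClosure ℚ) ℂ)).Δ ≠ 0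
    rw [WeierstrassCurve.map_Δ]
    exact (map_ne_zero_iff _ hinj).mpr hΔ
  obtain ⟨h1, h2⟩ := hC p hp hp2 (E⁄ℂ) hΔ' _ hord
  rw [hmap] at h1 h2
  constructor
  · intro h
    apply h1
    rw [WeierstrassCurve.map_Δ, h, map_zero]
  · have hj : jInv (E⁄ℂ) = algebraMap (AlgebraicClosure ℚ) ℂ (jInv E) :=
      jInv_map_h215 E _
    rw [hj, jInv_map_h215] at h2
    exact (isModularPairMap (algebraMap (AlgebraicClosure ℚ) ℂ) p _ _).mp h2

/-- **B from B3 and B5.** -/
theorem veluModularPair_of_pieces (h3 : UniformizationStatement)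
    (h5 : LatticeModularPairStatement) : VeluModularPairStatement :=
  veluModularPair_of (veluModularPairComplex_of h3 h5)

end Fermat.Agent.S15.H215

end
end
-- ===== PACK-END S15/H215/ModBTop.lean

-- ===== PACK-BEGIN S37/Rim/Spec.lean
section


/-!
# S37 / node_rim — frozen leaf statements (squad-lead helper39)

`node_rim` = `ModularCurve.ReductionInputsModL A M` (existence of the place reduction map).
ONE assembly: helper940's landed core `H940.Atlas.exists_red` (fibres with conservation `FC`,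
local parameters `LP`, separation `SEP`), applied to the fibres of the coordinate `x = j`:

* tube over `c ∈ k`   : places `P` of `F_M` with `j(P) ∈ A`, `j(P) ≡ c`;
* tube over `∞`       : all other places (`j` has a pole at `P` or `j(P) ∉ A`);
* points over `c ∈ k` : places `Q` of `F_{M,k}` with `j̄(Q) = c`;  over `∞`: the poles of `j̄`.

The leaves are `FCStatement`, `LPStatement`, `SEPStatement` (this file);
`Rim/Assembly.lean` proves `ReductionInputsModL A M` from them (complete proof).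

Notation: `ctx A M` is helper940's context of fractions of integral `q`-series,
`V = (ctx A M).V ⊆ F_M` (fractions `a/b`, `a, b` integral `q`-series in `F_M`, `b̄ ≠ 0`),
`ρ = (ctx A M).ρ : V → F_{M,k}` the coefficientwise reduction.
-/

set_option autoImplicit false
set_option synthInstance.maxHeartbeats 400000

noncomputable section

namespace Fermat.Agent.S37.Rim

open AlgebraicCurve ModularCurve HahnSeries IsLocalRing Fermat.Agent.S37.H940

/-- `ℚ̄` -/
abbrev Qb : Type := AlgebraicClosure ℚ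

/-- the residue field `k = A/𝔪` -/
abbrev kA (A : ValuationSubring Qb) : Type := ResidueField A

/-- `F_M = ℚ̄(X₀(M))` -/
abbrev FM (M : ℕ) : IntermediateField Qb (LaurentSeries Qb) :=
  laurentBaseChange Qb (modularFunctionFieldFull M)

/-- `F_{M,k} = k(X₀(M))` -/
abbrev FkM (A : ValuationSubring Qb) (M : ℕ) : IntermediateField (kA A) (LaurentSeries (kA A)) :=
  modularFunctionFieldFullC (kA A) M

theorem residue_eq_zero_iff_not_isUnit (A : ValuationSubring Qb) (a : A) :
    residue A a = 0 ↔ ¬ IsUnit a := by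
  rw [residue_eq_zero_iff, mem_maximalIdeal, mem_nonunits_iff]

/-- helper940's reduction context for `(F_M, F_{M,k})`. -/
def ctx (A : ValuationSubring Qb) (M : ℕ) : Ctx Qb (FM M) (kA A) (FkM A M) :=
  (qData A (residue A) (FM M) (FkM A M) residue_surjective
    (residue_eq_zero_iff_not_isUnit A)).ctx

/-- the coordinate `j ∈ F_M` (the same term as `Fermat.Agent.S24.jF M`) -/
def xF (M : ℕ) [NeZero M] : FM M :=
  ⟨coeffEmb Qb jq,
    coeffEmb_mem_laurentBaseChange Qb (modularFunctionField_le_full M (jq_mem M))⟩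

/-- the coordinate `j̄ ∈ F_{M,k}` -/
def xk (A : ValuationSubring Qb) (M : ℕ) : FkM A M :=
  ⟨jqModC (kA A), jqModC_mem_full (kA A) M⟩

/-- the tube over `c ∈ k ∪ {∞}` (`none = ∞`) -/
def tube (A : ValuationSubring Qb) (M : ℕ) [NeZero M] : Option (kA A) → Set (Place Qb (FM M))
  | some c => {P | ∃ a : A, residue A a = c ∧ InMax P (xF M - algebraMap Qb (FM M) (a : Qb))}
  | none => {P | ¬ ∃ a : A, InMax P (xF M - algebraMap Qb (FM M) (a : Qb))}

/-- `Q` is a point of the special fibre over `c ∈ k ∪ {∞}` -/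
def IsPt (A : ValuationSubring Qb) (M : ℕ) : Option (kA A) → Place (kA A) (FkM A M) → Prop
  | some c => fun Q => InMax Q (xk A M - algebraMap (kA A) (FkM A M) c)
  | none => fun Q => Q.ord (xk A M) < 0

/-- **LEAF FC (conservation of number in the fibres of `j`)**: for `u ∈ V` with `ρ u ≠ 0` and
`c ∈ k ∪ {∞}`: the number of zeros minus poles of `u` in the tube over `c` equals the number of
zeros minus poles of `ρ u` over `c`.  (Norms commute with reduction + Gauss lemma for the roots
of `N_{F/K(j)}(u)`; NO smoothness needed.) -/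
def FCStatement (A : ValuationSubring Qb) (M : ℕ) [NeZero M] : Prop :=
  ∀ (c : Option (kA A)) (𝔊 : Finset (Place (kA A) (FkM A M))), (∀ Q, Q ∈ 𝔊 ↔ IsPt A M c Q) →
    ∀ u : (ctx A M).V, (ctx A M).ρ u ≠ 0 →
      ∑ᶠ P ∈ tube A M c, P.ord (u : FM M) = ∑ Q ∈ 𝔊, Q.ord ((ctx A M).ρ u)

/-- **LEAF LP (local parameters lift)**: every point `Q` over `c` has a local parameter which is
the reduction of an element of `V` regular on the tube over `c` and is a unit at the other points
over `c`.  (Normality of the special fibre + CRT.) -/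
def LPStatement (A : ValuationSubring Qb) (M : ℕ) [NeZero M] : Prop :=
  ∀ (c : Option (kA A)) (Q : Place (kA A) (FkM A M)), IsPt A M c Q →
    ∃ t : (ctx A M).V, (∀ P ∈ tube A M c, 0 ≤ P.ord (t : FM M)) ∧ Q.ord ((ctx A M).ρ t) = 1 ∧
      ∀ Q', IsPt A M c Q' → Q' ≠ Q → Q'.ord ((ctx A M).ρ t) = 0

/-- **LEAF SEP (separation)**: some element of `V` regular on the tube over `c` has a reduction
taking pairwise distinct values at the points over `c`.  (Normality of the special fibre + CRT.) -/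
def SEPStatement (A : ValuationSubring Qb) (M : ℕ) [NeZero M] : Prop :=
  ∀ c : Option (kA A), ∃ s : (ctx A M).V, (∀ P ∈ tube A M c, 0 ≤ P.ord (s : FM M)) ∧
    ∀ Q Q', IsPt A M c Q → IsPt A M c Q' → ∀ a : kA A,
      InMax Q ((ctx A M).ρ s - algebraMap (kA A) (FkM A M) a) →
      InMax Q' ((ctx A M).ρ s - algebraMap (kA A) (FkM A M) a) → Q = Q'

end Fermat.Agent.S37.Rim

end
end
-- ===== PACK-END S37/Rim/Spec.lean

-- ===== PACK-BEGIN S37/H159/MDiscr.lean
section



/-!
# Theorem M, part 4: traces and discriminants reduce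
(row S37, piece R-b; seat helper159)

For `f ∈ B = O ∩ B_η` the trace `Tr_{B_η/K[x]} f` is a polynomial with coefficients in `A` whose
reduction is `Tr_{T/k[x̄]} (ρ f)`.  Consequently the discriminant of a lifted basis is a polynomial
`D ∈ A[X]` reducing to the discriminant of the basis of `T`.
-/

set_option autoImplicit false
set_option linter.unusedSectionVars false
set_option linter.style.haveILetI false

namespace Fermat.Agent.S37.H159

open Polynomial

theorem isSeparable_of_charZero (K : Type*) [Field K] [CharZero K] (L₀ F : Type*) [Field L₀]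
    [Field F] [Algebra K[X] L₀] [IsFractionRing K[X] L₀] [Algebra L₀ F]
    [FiniteDimensional L₀ F] : Algebra.IsSeparable L₀ F := by
  haveI : CharZero L₀ := charZero_of_injective_algebraMap (IsFractionRing.injective K[X] L₀)
  exact Algebra.IsSeparable.of_integral L₀ F

namespace RedCtx

variable {K : Type*} [Field K] [CharZero K] {A : ValuationSubring K} {k : Type*} [Field k]
  {F : Type*} [Field F] [Algebra K[X] F] {Fk : Type*} [Field Fk] [Algebra k[X] Fk]
  (G : RedCtx A k F Fk)

variable (L₀ : Type*) [Field L₀] [Algebra K[X] L₀] [IsFractionRing K[X] L₀] [Algebra L₀ F]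
  [IsScalarTower K[X] L₀ F] [FiniteDimensional L₀ F]
variable (L₀k : Type*) [Field L₀k] [Algebra k[X] L₀k] [IsFractionRing k[X] L₀k] [Algebra L₀k Fk]
  [IsScalarTower k[X] L₀k Fk] [FiniteDimensional L₀k Fk] [Algebra.IsSeparable L₀k Fk]

include L₀ in
theorem algebraMap_injective_K : Function.Injective (algebraMap K[X] F) := by
  rw [IsScalarTower.algebraMap_eq K[X] L₀ F]
  exact (algebraMap L₀ F).injective.comp (IsFractionRing.injective K[X] L₀)

include L₀ in
theorem isTorsionFree_F : Module.IsTorsionFree K[X] F :=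
  Module.isTorsionFree_iff_algebraMap_injective.mpr (algebraMap_injective_K (F := F) L₀)

include L₀ in
theorem finite_Tη : Module.Finite K[X] (integralClosure K[X] F) := by
  haveI := isSeparable_of_charZero K L₀ F
  exact IsIntegralClosure.finite K[X] L₀ F (integralClosure K[X] F)

include L₀ in
theorem free_Tη : Module.Free K[X] (integralClosure K[X] F) := by
  haveI := isSeparable_of_charZero K L₀ F
  haveI := isTorsionFree_F (K := K) (F := F) L₀
  exact IsIntegralClosure.module_free K[X] L₀ F (integralClosure K[X] F)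

include L₀ in
theorem finrank_Tη : Module.finrank K[X] (integralClosure K[X] F) = Module.finrank L₀ F := by
  haveI := isSeparable_of_charZero K L₀ F
  haveI := isTorsionFree_F (K := K) (F := F) L₀
  exact IsIntegralClosure.rank K[X] L₀ F (integralClosure K[X] F)

/-- Trace of `B_η / K[x]` versus trace of `F / K(x)`. -/
theorem algebraMap_trace_Tη (f : integralClosure K[X] F) :
    algebraMap K[X] L₀ (Algebra.trace K[X] (integralClosure K[X] F) f) =
      Algebra.trace L₀ F (f : F) := by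
  haveI := finite_Tη (K := K) (F := F) L₀
  haveI := free_Tη (K := K) (F := F) L₀
  haveI : IsLocalization (Algebra.algebraMapSubmonoid (integralClosure K[X] F)
      (nonZeroDivisors K[X])) F :=
    IsIntegralClosure.isLocalization K[X] L₀ F (integralClosure K[X] F)
  exact (Algebra.trace_localization K[X] (nonZeroDivisors K[X]) (Rₘ := L₀) (Sₘ := F) f).symm

/-- Trace of `T / k[x̄]` versus trace of `F_k / k(x̄)`. -/
theorem algebraMap_trace_Tk (hdeg : Module.finrank L₀ F = Module.finrank L₀k Fk) (t : G.Tk) :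
    algebraMap k[X] L₀k (Algebra.trace k[X] G.Tk t) = Algebra.trace L₀k Fk (t : Fk) := by
  haveI := G.finite_Tk L₀ L₀k hdeg
  haveI := G.isTorsionFree_Tk L₀k
  haveI : Module.Free k[X] G.Tk := inferInstance
  haveI := G.isFractionRing_Tk L₀ L₀k
  haveI := G.isIntegral_Tk L₀ L₀k hdeg
  haveI : FaithfulSMul k[X] G.Tk :=
    (faithfulSMul_iff_algebraMap_injective _ _).mpr (G.algebraMap_Tk_injective L₀k)
  haveI : IsLocalization (Algebra.algebraMapSubmonoid G.Tk (nonZeroDivisors k[X])) Fk :=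
    inferInstance
  exact (Algebra.trace_localization k[X] (nonZeroDivisors k[X]) (Rₘ := L₀k) (Sₘ := Fk) t).symm

variable {n : ℕ} (y : Module.Basis (Fin n) L₀ F) (hyO : ∀ i, y i ∈ G.O)
  (hR : H217.ResidIndep (G.V₀ L₀) G.O y) (bk : Module.Basis (Fin n) L₀k Fk)
  (hρy : ∀ i, G.ρ ⟨y i, hyO i⟩ = bk i)

include y hyO hR bk hρy in
/-- **Traces reduce.** -/
theorem exists_trace_lift (hdeg : Module.finrank L₀ F = Module.finrank L₀k Fk)
    (f : G.O) (hf : IsIntegral K[X] (f : F)) :
    ∃ P₁ : A[X], P₁.map A.subtype = Algebra.trace K[X] (integralClosure K[X] F) ⟨f, hf⟩ ∧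
      P₁.map G.π = Algebra.trace k[X] G.Tk ⟨G.ρ f, G.ρ_mem_Tk f hf⟩ := by
  classical
  have hext := G.valExtends L₀
  -- the trace over `K(x)` lies in the Gauss ring
  have h1 : Algebra.trace L₀ F (f : F) = ((H217.intMatrix hext y hR hyO f).trace : L₀) :=
    H217.trace_eq_trace_intMatrix hext y hR hyO f
  have h2 := algebraMap_trace_Tη (K := K) (F := F) L₀ ⟨f, hf⟩
  have h3 : algebraMap K[X] L₀ (Algebra.trace K[X] (integralClosure K[X] F) ⟨f, hf⟩) ∈ G.V₀ L₀ := by
    rw [h2, h1]
    exact Subtype.property _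
  obtain ⟨P₁, hP₁⟩ := G.exists_map_eq_of_mem_V₀ L₀ L₀k _ h3
  refine ⟨P₁, hP₁, ?_⟩
  -- reduction
  have h4 : G.ρ₀ L₀ L₀k (H217.intMatrix hext y hR hyO f).trace = Algebra.trace L₀k Fk (G.ρ f) :=
    H217.map_trace_intMatrix_eq_trace_map hext y hR hyO (G.ρ₀ L₀ L₀k) G.ρ
      (fun a => G.ρ_algebraMap L₀ L₀k a) bk hρy f
  have h5 : (H217.intMatrix hext y hR hyO f).trace = ⟨_, G.poly_mem_V₀ L₀ P₁⟩ := by
    apply Subtype.ext
    show ((H217.intMatrix hext y hR hyO f).trace : L₀) = algebraMap K[X] L₀ (P₁.map A.subtype)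
    rw [hP₁, h2, h1]
  rw [h5, G.ρ₀_poly] at h4
  have h6 := G.algebraMap_trace_Tk L₀ L₀k hdeg ⟨G.ρ f, G.ρ_mem_Tk f hf⟩
  apply IsFractionRing.injective k[X] L₀k
  rw [h4, h6]

variable (b : Module.Basis (Fin n) k[X] G.Tk) (hb : ∀ i, bk i = (b i : Fk))

include L₀ bk hb in
/-- The discriminant of the basis of `T` is nonzero (separability). -/
theorem discr_Tk_ne_zero (hdeg : Module.finrank L₀ F = Module.finrank L₀k Fk) :
    Algebra.discr k[X] b ≠ 0 := by
  classical
  intro h0
  apply Algebra.discr_not_zero_of_basis L₀k bk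
  have h1 : Algebra.traceMatrix L₀k bk =
      (Algebra.traceMatrix k[X] b).map (algebraMap k[X] L₀k) := by
    ext i j
    rw [Matrix.map_apply, Algebra.traceMatrix_apply, Algebra.traceMatrix_apply,
      Algebra.traceForm_apply, Algebra.traceForm_apply, G.algebraMap_trace_Tk L₀ L₀k hdeg,
      hb, hb]
    rfl
  rw [Algebra.discr_def, h1, ← RingHom.mapMatrix_apply, ← RingHom.map_det, ← Algebra.discr_def,
    h0, map_zero]

include y hyO hR bk hρy hb in
/-- **The discriminant reduces.** -/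
theorem exists_discr_lift (hdeg : Module.finrank L₀ F = Module.finrank L₀k Fk)
    (hyint : ∀ i, IsIntegral K[X] (y i)) :
    ∃ D : A[X],
      D.map A.subtype =
        Algebra.discr K[X] (fun i => (⟨y i, hyint i⟩ : integralClosure K[X] F)) ∧
      D.map G.π = Algebra.discr k[X] b := by
  classical
  let u : Fin n → G.O := fun i => ⟨y i, hyO i⟩
  have hu : ∀ i j, IsIntegral K[X] ((u i * u j : G.O) : F) := fun i j =>
    (hyint i).mul (hyint j)
  choose P hP1 hP2 using fun i j =>
    G.exists_trace_lift L₀ L₀k y hyO hR bk hρy hdeg (u i * u j) (hu i j)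
  let M : Matrix (Fin n) (Fin n) A[X] := Matrix.of P
  refine ⟨M.det, ?_, ?_⟩
  · rw [← Polynomial.coe_mapRingHom, RingHom.map_det, Algebra.discr_def]
    congr 1
    ext1 i j
    rw [RingHom.mapMatrix_apply, Matrix.map_apply, Algebra.traceMatrix_apply,
      Algebra.traceForm_apply]
    show (P i j).map A.subtype = _
    rw [hP1]
    rfl
  · rw [← Polynomial.coe_mapRingHom, RingHom.map_det, Algebra.discr_def]
    congr 1
    ext1 i j
    rw [RingHom.mapMatrix_apply, Matrix.map_apply, Algebra.traceMatrix_apply,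
      Algebra.traceForm_apply]
    show (P i j).map G.π = _
    rw [hP2]
    congr 1
    apply Subtype.ext
    show G.ρ (u i * u j) = ((b i : G.Tk) : Fk) * ((b j : G.Tk) : Fk)
    rw [map_mul, ← hb, ← hb, ← hρy, ← hρy]

end RedCtx

end Fermat.Agent.S37.H159

end
-- ===== PACK-END S37/H159/MDiscr.lean

-- ===== PACK-BEGIN S37/H159/MLocal.lean
section




/-!
# Theorem M, part 5: specialisation of fibres
(row S37, piece R-b; seat helper159)

`B_η` = integral closure of `K[x]` in `F`, `T = ρ(O ∩ B_η)`.  For `c ∈ A` with reduction `c̄`: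
elements of `O ∩ B_η` lying in `(x - c) B_η` (resp. in its radical) reduce into `(x̄ - c̄) T`
(resp. its radical).  Hence lifts of families which are `k`-independent modulo `(x̄ - c̄) T`
(resp. its radical) are `K`-independent modulo `(x - c) B_η` (resp. its radical)
(`dvd_of_sum_smul_mem`).
-/

set_option autoImplicit false
set_option linter.unusedSectionVars false
set_option linter.style.haveILetI false

namespace Fermat.Agent.S37.H159

open Polynomial

namespace RedCtx

variable {K : Type*} [Field K] {A : ValuationSubring K} {k : Type*} [Field k]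
  {F : Type*} [Field F] [Algebra K[X] F] {Fk : Type*} [Field Fk] [Algebra k[X] Fk]
  (G : RedCtx A k F Fk)

/-- the `k`-algebra structure of `T` -/
noncomputable instance instAlgebraTk : Algebra k G.Tk :=
  ((algebraMap k[X] G.Tk).comp (C : k →+* k[X])).toAlgebra

instance instIsScalarTowerTk : IsScalarTower k k[X] G.Tk :=
  IsScalarTower.of_algebraMap_eq fun _ => rfl

variable (hinj : Function.Injective (algebraMap k[X] Fk)) (c : A)

/-- `x - c` as an element of `O` -/
noncomputable def xsub : G.O := G.polyO (X - C c)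

theorem xsub_coe : (G.xsub c : F) = algebraMap K[X] F (X - C (c : K)) := by
  show algebraMap K[X] F ((X - C c : A[X]).map A.subtype) = _
  rw [Polynomial.map_sub, Polynomial.map_X, Polynomial.map_C]
  rfl

theorem ρ_xsub : G.ρ (G.xsub c) = algebraMap k[X] Fk (X - C (G.π c)) := by
  rw [xsub, G.ρ_polyO, Polynomial.map_sub, Polynomial.map_X, Polynomial.map_C]

include hinj in
theorem ρ_xsub_ne_zero : G.ρ (G.xsub c) ≠ 0 := by
  rw [ρ_xsub]
  intro h0
  have := hinj (h0.trans (map_zero _).symm)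
  exact Polynomial.X_sub_C_ne_zero _ this

include hinj in
theorem xsub_inv_mem : (G.xsub c : F)⁻¹ ∈ G.O :=
  G.inv_mem_of_ρ_ne_zero _ (G.ρ_xsub_ne_zero hinj c)

include hinj in
theorem xsub_ne_zero : (G.xsub c : F) ≠ 0 :=
  G.ne_zero_of_ρ_ne_zero _ (G.ρ_xsub_ne_zero hinj c)

/-- reduction `O ∩ B_η → T` -/
noncomputable def redT (w : integralClosure K[X] F) (hwO : (w : F) ∈ G.O) : G.Tk :=
  ⟨G.ρ ⟨w, hwO⟩, G.ρ_mem_Tk ⟨w, hwO⟩ w.2⟩

theorem redT_coe (w : integralClosure K[X] F) (hwO : (w : F) ∈ G.O) :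
    (G.redT w hwO : Fk) = G.ρ ⟨w, hwO⟩ := rfl

include hinj in
/-- Elements of `O ∩ (x - c) B_η` reduce into `(x̄ - c̄) T`. -/
theorem redT_mem_fibreIdeal (w : integralClosure K[X] F) (hwO : (w : F) ∈ G.O)
    (hw : w ∈ Ideal.span {algebraMap K[X] (integralClosure K[X] F) (X - C (c : K))}) :
    G.redT w hwO ∈ H939.fibreIdeal G.Tk (G.π c) := by
  rw [Ideal.mem_span_singleton] at hw
  obtain ⟨h, rfl⟩ := hw
  have hcoe : ((algebraMap K[X] (integralClosure K[X] F) (X - C (c : K)) * h :
      integralClosure K[X] F) : F) = (G.xsub c : F) * (h : F) := by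
    rw [G.xsub_coe]
    rfl
  have hhO : (h : F) ∈ G.O := by
    have : (h : F) = (G.xsub c : F)⁻¹ *
        ((algebraMap K[X] (integralClosure K[X] F) (X - C (c : K)) * h :
          integralClosure K[X] F) : F) := by
      rw [hcoe, ← mul_assoc, inv_mul_cancel₀ (G.xsub_ne_zero hinj c), one_mul]
    rw [this]
    exact G.O.mul_mem _ _ (G.xsub_inv_mem hinj c) hwO
  rw [H939.fibreIdeal, Ideal.mem_span_singleton]
  refine ⟨G.redT h hhO, ?_⟩
  apply Subtype.ext
  show G.ρ ⟨_, hwO⟩ = algebraMap k[X] Fk (X - C (G.π c)) * G.ρ ⟨h, hhO⟩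
  rw [← G.ρ_xsub, ← map_mul]
  congr 1
  exact Subtype.ext hcoe

include hinj in
/-- Elements of `O ∩ rad((x - c) B_η)` reduce into `rad((x̄ - c̄) T)`. -/
theorem redT_mem_radical (w : integralClosure K[X] F) (hwO : (w : F) ∈ G.O)
    (hw : w ∈ (Ideal.span
      {algebraMap K[X] (integralClosure K[X] F) (X - C (c : K))}).radical) :
    G.redT w hwO ∈ (H939.fibreIdeal G.Tk (G.π c)).radical := by
  obtain ⟨N, hN⟩ := hw
  refine ⟨N, ?_⟩
  have hO : ((w ^ N : integralClosure K[X] F) : F) ∈ G.O := by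
    rw [SubmonoidClass.coe_pow]
    exact G.O.pow_mem hwO N
  have := G.redT_mem_fibreIdeal hinj c (w ^ N) hO hN
  have e : G.redT (w ^ N) hO = G.redT w hwO ^ N := by
    apply Subtype.ext
    show G.ρ ⟨_, hO⟩ = (G.ρ ⟨w, hwO⟩) ^ N
    rw [← map_pow]
    congr 1
  rwa [e] at this

section Lift

variable {ι : Type*} [Fintype ι] (w : ι → integralClosure K[X] F)
  (hwO : ∀ j, (w j : F) ∈ G.O)

include hwO in
theorem sum_C_smul_mem (α : ι → A) :
    ((∑ j, (C ((α j : A) : K) : K[X]) • w j : integralClosure K[X] F) : F) ∈ G.O := by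
  rw [AddSubmonoidClass.coe_finsetSum]
  refine G.O.toSubring.sum_mem fun j _ => ?_
  have : (((C ((α j : A) : K) : K[X]) • w j : integralClosure K[X] F) : F) =
      algebraMap K[X] F (C ((α j : A) : K)) * (w j : F) := by
    rw [Algebra.smul_def]
    rfl
  rw [this]
  exact G.O.mul_mem _ _ (G.C_mem (α j)) (hwO j)

theorem redT_sum_C_smul (α : ι → A) :
    G.redT (∑ j, (C ((α j : A) : K) : K[X]) • w j) (G.sum_C_smul_mem w hwO α) =
      ∑ j, (C (G.π (α j)) : k[X]) • G.redT (w j) (hwO j) := by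
  apply Subtype.ext
  rw [AddSubmonoidClass.coe_finsetSum]
  have h1 : (⟨_, G.sum_C_smul_mem w hwO α⟩ : G.O) =
      ∑ j, (⟨_, G.C_mem (α j)⟩ : G.O) * ⟨w j, hwO j⟩ := by
    apply Subtype.ext
    show ((∑ j, (C ((α j : A) : K) : K[X]) • w j : integralClosure K[X] F) : F) =
      G.O.subtype (∑ j, (⟨_, G.C_mem (α j)⟩ : G.O) * ⟨w j, hwO j⟩)
    rw [map_sum, AddSubmonoidClass.coe_finsetSum]
    refine Finset.sum_congr rfl fun j _ => ?_
    rw [Algebra.smul_def]
    rfl
  show G.ρ ⟨_, G.sum_C_smul_mem w hwO α⟩ = _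
  rw [h1, map_sum]
  refine Finset.sum_congr rfl fun j _ => ?_
  rw [map_mul, G.ρ_C]
  show _ = (((C (G.π (α j)) : k[X]) • G.redT (w j) (hwO j) : G.Tk) : Fk)
  rw [Algebra.smul_def]
  rfl

include hwO in
/-- **Specialisation of independence** (constant coefficients). -/
theorem eq_zero_of_sum_C_smul_mem (I : Ideal (integralClosure K[X] F)) (Ik : Ideal G.Tk)
    (hI : ∀ (v : integralClosure K[X] F) (hvO : (v : F) ∈ G.O), v ∈ I → G.redT v hvO ∈ Ik)
    (hind : ∀ a : ι → k,
      (∑ j, (C (a j) : k[X]) • G.redT (w j) (hwO j)) ∈ Ik → ∀ j, a j = 0)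
    (α : ι → K) (hα : (∑ j, (C (α j) : K[X]) • w j) ∈ I) : ∀ j, α j = 0 := by
  by_contra hne
  have hα0 : α ≠ 0 := by
    intro h0
    apply hne
    intro j
    rw [h0]
    rfl
  obtain ⟨m, hm0, hm⟩ := H217.exists_scale A α hα0
  let α' : ι → A := fun j => ⟨α j / α m, hm j⟩
  have hg : (∑ j, (C ((α' j : A) : K) : K[X]) • w j) ∈ I := by
    have : (∑ j, (C ((α' j : A) : K) : K[X]) • w j) =
        (C (α m)⁻¹ : K[X]) • ∑ j, (C (α j) : K[X]) • w j := by
      rw [Finset.smul_sum]
      refine Finset.sum_congr rfl fun j _ => ?_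
      rw [smul_smul, ← C_mul]
      congr 2
      show α j / α m = (α m)⁻¹ * α j
      rw [div_eq_inv_mul]
    rw [this, Algebra.smul_def]
    exact I.mul_mem_left _ hα
  have h1 := hI _ (G.sum_C_smul_mem w hwO α') hg
  rw [G.redT_sum_C_smul w hwO α'] at h1
  have h2 := hind (fun j => G.π (α' j)) h1 m
  have h3 : α' m = 1 := Subtype.ext (div_self hm0)
  rw [h3, map_one] at h2
  exact one_ne_zero h2

include hwO in
/-- **Specialisation of independence** (witness form for the tame discriminant bound). -/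
theorem dvd_of_sum_smul_mem (c : A) (I : Ideal (integralClosure K[X] F)) (Ik : Ideal G.Tk)
    (hI : ∀ (v : integralClosure K[X] F) (hvO : (v : F) ∈ G.O), v ∈ I → G.redT v hvO ∈ Ik)
    (hind : ∀ a : ι → k,
      (∑ j, (C (a j) : k[X]) • G.redT (w j) (hwO j)) ∈ Ik → ∀ j, a j = 0)
    (hle : Ideal.span {algebraMap K[X] (integralClosure K[X] F) (X - C (c : K))} ≤ I)
    (a : ι → K[X]) (ha : (∑ j, a j • w j) ∈ I) : ∀ j, (X - C (c : K)) ∣ a j := by
  have hdvd : ∀ j, (X - C (c : K)) ∣ a j - C ((a j).eval (c : K)) := fun j =>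
    Polynomial.X_sub_C_dvd_sub_C_eval
  have h1 : (∑ j, (a j - C ((a j).eval (c : K))) • w j) ∈ I := by
    refine I.sum_mem fun j _ => ?_
    obtain ⟨q, hq⟩ := hdvd j
    rw [hq, mul_smul, Algebra.smul_def]
    exact hle (Ideal.mul_mem_right _ _ (Ideal.subset_span rfl))
  have h2 : (∑ j, (C ((a j).eval (c : K)) : K[X]) • w j) ∈ I := by
    have : (∑ j, (C ((a j).eval (c : K)) : K[X]) • w j) =
        (∑ j, a j • w j) - ∑ j, (a j - C ((a j).eval (c : K))) • w j := by
      rw [← Finset.sum_sub_distrib]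
      refine Finset.sum_congr rfl fun j _ => ?_
      rw [sub_smul, sub_sub_cancel]
    rw [this]
    exact I.sub_mem ha h1
  intro j
  have h3 := G.eq_zero_of_sum_C_smul_mem w hwO I Ik hI hind _ h2 j
  rw [Polynomial.dvd_iff_isRoot]
  exact h3

end Lift

end RedCtx

end Fermat.Agent.S37.H159

end
-- ===== PACK-END S37/H159/MLocal.lean

-- ===== PACK-BEGIN S37/H159/MBound.lean
section





/-!
# Theorem M, part 6: the local discriminant bounds
(row S37, piece R-b; seat helper159)

`β` a `K[X]`-basis of `B_η`, `y` the lifted basis (of `F / K(x)`), `M` the matrix of `y` in `β`.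

* `not_dvd_det` (local basis): `X - c ∤ det M` for every `c ∈ A`;
* `not_dvd_discr_of_isRadical` : `(x - c) B_η` radical implies `X - c ∤ disc β`;
* `not_pow_dvd_discr` : `(X - c)^(n - s + 1) ∤ disc β` for `c ∈ A`, `s = redRank T c̄`.
-/

set_option autoImplicit false
set_option linter.unusedSectionVars false
set_option linter.style.haveILetI false

namespace Fermat.Agent.S37.H159

open Polynomial

/-- Membership in a principal ideal generated by a scalar, in coordinates. -/
theorem mem_span_algebraMap_iff {R T ι : Type*} [CommRing R] [CommRing T] [Algebra R T]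
    [Fintype ι] (b : Module.Basis ι R T) (t : R) (z : T) :
    z ∈ Ideal.span {algebraMap R T t} ↔ ∀ i, t ∣ b.repr z i := by
  rw [Ideal.mem_span_singleton]
  constructor
  · rintro ⟨y, rfl⟩ i
    rw [← Algebra.smul_def, map_smul]
    exact ⟨b.repr y i, by simp⟩
  · intro h
    choose q hq using h
    refine ⟨∑ i, q i • b i, ?_⟩
    rw [← Algebra.smul_def, Finset.smul_sum]
    conv_lhs => rw [← b.sum_repr z]
    refine Finset.sum_congr rfl fun i _ => ?_
    rw [hq i, mul_smul]

namespace RedCtx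

variable {K : Type*} [Field K] [CharZero K] {A : ValuationSubring K} {k : Type*} [Field k]
  {F : Type*} [Field F] [Algebra K[X] F] {Fk : Type*} [Field Fk] [Algebra k[X] Fk]
  (G : RedCtx A k F Fk)

variable (hinj : Function.Injective (algebraMap k[X] Fk))

variable {n : ℕ} (β : Module.Basis (Fin n) K[X] (integralClosure K[X] F))
  (b : Module.Basis (Fin n) k[X] G.Tk)
  (yη : Fin n → integralClosure K[X] F) (hyO : ∀ i, (yη i : F) ∈ G.O)
  (hρ : ∀ i, G.redT (yη i) (hyO i) = b i)

include hinj b hyO hρ in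
/-- **Local basis**: the lifted basis is a basis of `B_η` locally at every `c ∈ A`. -/
theorem not_dvd_det (c : A) :
    ¬ (X - C (c : K)) ∣ (Matrix.of fun i j => β.repr (yη i) j).det := by
  classical
  intro hdvd
  set M : Matrix (Fin n) (Fin n) K[X] := Matrix.of fun i j => β.repr (yη i) j with hM
  have hdet : ((evalRingHom (c : K)).mapMatrix M).det = 0 := by
    rw [← RingHom.map_det]
    exact Polynomial.dvd_iff_isRoot.mp hdvd
  obtain ⟨v, hv0, hv⟩ := Matrix.exists_vecMul_eq_zero_iff.mpr hdet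
  -- the combination `g = ∑ v_i y_i` lies in `(x - c) B_η`
  have hg : (∑ i, (C (v i) : K[X]) • yη i) ∈
      Ideal.span {algebraMap K[X] (integralClosure K[X] F) (X - C (c : K))} := by
    rw [mem_span_algebraMap_iff β]
    intro j
    rw [Polynomial.dvd_iff_isRoot, IsRoot.def, map_sum, Finsupp.coe_finsetSum,
      Finset.sum_apply, eval_finsetSum]
    have := congrFun hv j
    rw [Matrix.vecMul, dotProduct] at this
    rw [Pi.zero_apply] at this
    rw [← this]
    refine Finset.sum_congr rfl fun i _ => ?_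
    rw [map_smul, Finsupp.smul_apply, smul_eq_mul, eval_mul, eval_C]
    rfl
  have hind : ∀ a : Fin n → k,
      (∑ j, (C (a j) : k[X]) • G.redT (yη j) (hyO j)) ∈ H939.fibreIdeal G.Tk (G.π c) →
        ∀ j, a j = 0 := by
    intro a ha j
    rw [H939.mem_fibreIdeal_iff b] at ha
    have h1 := ha j
    have h2 : b.repr (∑ j, (C (a j) : k[X]) • G.redT (yη j) (hyO j)) j = C (a j) := by
      simp only [hρ, map_sum, map_smul, Module.Basis.repr_self, Finsupp.smul_single,
        smul_eq_mul, mul_one, Finsupp.coe_finsetSum, Finset.sum_apply,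
        Finsupp.single_apply, Finset.sum_ite_eq', Finset.mem_univ, if_true]
    rw [h2, Polynomial.dvd_iff_isRoot, IsRoot.def, eval_C] at h1
    exact h1
  have := G.eq_zero_of_sum_C_smul_mem yη hyO _ _
    (fun v hvO hv => G.redT_mem_fibreIdeal hinj c v hvO hv) hind v hg
  exact hv0 (funext this)

section Tame

variable (L₀ : Type*) [Field L₀] [Algebra K[X] L₀] [IsFractionRing K[X] L₀] [Algebra L₀ F]
  [IsScalarTower K[X] L₀ F] [FiniteDimensional L₀ F]

include L₀ in
theorem isTorsionFree_Tη : Module.IsTorsionFree K[X] (integralClosure K[X] F) := by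
  refine Module.isTorsionFree_iff_algebraMap_injective.mpr fun p q hpq => ?_
  apply algebraMap_injective_K (K := K) (F := F) L₀
  exact congrArg (fun z : integralClosure K[X] F => (z : F)) hpq

include L₀ in
/-- **Tame bound at an unramified point**: if `(x - c) B_η` is radical then `X - c ∤ disc β`. -/
theorem not_dvd_discr_of_isRadical (c : K)
    (hrad : (Ideal.span {algebraMap K[X] (integralClosure K[X] F) (X - C c)}).IsRadical) :
    ¬ (X - C c) ∣ Algebra.discr K[X] β := by
  classical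
  haveI := isSeparable_of_charZero K L₀ F
  haveI : IsDedekindDomain (integralClosure K[X] F) :=
    integralClosure.isDedekindDomain K[X] L₀ F
  haveI := isTorsionFree_Tη (K := K) (F := F) L₀
  have h := S18.H213.tame_discr_witness (X - C c) (Polynomial.prime_X_sub_C c) n β n β
    (fun a ha i => by
      rw [hrad.radical] at ha
      have h1 := (mem_span_algebraMap_iff β _ _).mp ha i
      have h2 : β.repr (∑ i, a i • β i) i = a i := by
        simp only [map_sum, map_smul, Module.Basis.repr_self, Finsupp.smul_single,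
          smul_eq_mul, mul_one, Finsupp.coe_finsetSum, Finset.sum_apply,
          Finsupp.single_apply, Finset.sum_ite_eq', Finset.mem_univ, if_true]
      rwa [h2] at h1)
  rw [Nat.sub_self, zero_add, pow_one] at h
  exact h

include L₀ hinj b in
/-- **Tame bound + specialisation of fibres**: for `c ∈ A` and `s = redRank T c̄`,
`(X - c)^(n - s + 1) ∤ disc β`. -/
theorem not_pow_dvd_discr (c : A) :
    ¬ (X - C (c : K)) ^ (n - H939.redRank G.Tk (G.π c) + 1) ∣ Algebra.discr K[X] β := by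
  classical
  haveI := isSeparable_of_charZero K L₀ F
  haveI : IsDedekindDomain (integralClosure K[X] F) :=
    integralClosure.isDedekindDomain K[X] L₀ F
  haveI := isTorsionFree_Tη (K := K) (F := F) L₀
  haveI : Module.Finite k (G.Tk ⧸ (H939.fibreIdeal G.Tk (G.π c)).radical) :=
    H939.finite_quot_radical b (G.π c)
  set Rad : Ideal G.Tk := (H939.fibreIdeal G.Tk (G.π c)).radical with hRad
  have hs : Module.finrank k (G.Tk ⧸ Rad) = H939.redRank G.Tk (G.π c) := rfl
  haveI : Module.Free k (G.Tk ⧸ Rad) := Module.Free.of_divisionRing k _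
  let e : Module.Basis (Fin (H939.redRank G.Tk (G.π c))) k (G.Tk ⧸ Rad) :=
    Module.finBasisOfFinrankEq k _ hs
  choose t ht using fun j => Ideal.Quotient.mk_surjective (e j)
  choose f hf using fun j => (G.mem_Tk (t j : Fk)).mp (t j).2
  let w : Fin (H939.redRank G.Tk (G.π c)) → integralClosure K[X] F := fun j => ⟨f j, (hf j).1⟩
  have hwO : ∀ j, (w j : F) ∈ G.O := fun j => (f j).2
  have hred : ∀ j, G.redT (w j) (hwO j) = t j := fun j => Subtype.ext (hf j).2
  have hind : ∀ a : Fin (H939.redRank G.Tk (G.π c)) → k,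
      (∑ j, (C (a j) : k[X]) • G.redT (w j) (hwO j)) ∈ Rad → ∀ j, a j = 0 := by
    intro a ha
    have h1 : ∑ j, a j • e j = 0 := by
      have h2 : Ideal.Quotient.mk Rad (∑ j, (C (a j) : k[X]) • G.redT (w j) (hwO j)) = 0 :=
        Ideal.Quotient.eq_zero_iff_mem.mpr ha
      rw [map_sum] at h2
      rw [← h2]
      refine Finset.sum_congr rfl fun j _ => ?_
      rw [hred, ← ht j]
      have h3 : (C (a j) : k[X]) • t j = a j • t j := by
        rw [← Polynomial.algebraMap_eq, algebraMap_smul]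
      rw [h3]
      rfl
    exact Fintype.linearIndependent_iff.mp e.linearIndependent a h1
  apply S18.H213.tame_discr_witness (X - C (c : K)) (Polynomial.prime_X_sub_C _) n β _ w
  intro a ha
  exact G.dvd_of_sum_smul_mem w hwO c _ Rad
    (fun v hvO hv => G.redT_mem_radical hinj c v hvO hv) hind Ideal.le_radical a ha

end Tame

end RedCtx

end Fermat.Agent.S37.H159

end
-- ===== PACK-END S37/H159/MBound.lean

-- ===== PACK-BEGIN S37/H159/MMain.lean
section





/-!
# THEOREM M: normality of the special fibre, directly over a valuation ring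
(row S37, piece R-b / RED-E4 (H3); seat helper159)

Setting: `K` algebraically closed of characteristic `0`, `A ⊆ K` a valuation ring with residue
map `π : A ↠ k` (`k` algebraically closed); `F ⊇ K(x)` finite, `O ⊆ F` a valuation ring with
residue map `ρ : O ↠ F_k`, `F_k ⊇ k(x̄)` finite separable with `[F_k : k(x̄)] = [F : K(x)]`,
`ρ(P(x)) = P̄(x̄)` for `P ∈ A[X]` (a `RedCtx`).  `B_η` = integral closure of `K[x]` in `F`.

Hypothesis (NC): there is a finite set `S ⊆ A`, injective modulo `𝔪_A`, such that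
`(x - c) B_η` is a radical ideal for every `c ∈ A \ S` (no ramification over `x = c`).

Conclusion:
* `isIntegrallyClosed_Tk` : `T = ρ(O ∩ B_η)` is integrally closed;
* `lift_integral` : every element of `F_k` integral over `k[x̄]` is the reduction of an element
  of `O` which is integral over `A[x]`.

No noetherian hypothesis on `A`, no descent to a discrete valuation ring.
-/

set_option autoImplicit false
set_option linter.unusedSectionVars false
set_option linter.style.haveILetI false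

namespace Fermat.Agent.S37.H159

open Polynomial

namespace RedCtx

variable {K : Type*} [Field K] [IsAlgClosed K] [CharZero K] {A : ValuationSubring K}
  {k : Type*} [Field k] [IsAlgClosed k]
  {F : Type*} [Field F] [Algebra K[X] F] {Fk : Type*} [Field Fk] [Algebra k[X] Fk]
  (G : RedCtx A k F Fk)

variable (L₀ : Type*) [Field L₀] [Algebra K[X] L₀] [IsFractionRing K[X] L₀] [Algebra L₀ F]
  [IsScalarTower K[X] L₀ F] [FiniteDimensional L₀ F]
variable (L₀k : Type*) [Field L₀k] [Algebra k[X] L₀k] [IsFractionRing k[X] L₀k] [Algebra L₀k Fk]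
  [IsScalarTower k[X] L₀k Fk] [FiniteDimensional L₀k Fk] [Algebra.IsSeparable L₀k Fk]

include L₀ L₀k in
/-- **Theorem M** (ring form): the order `T = ρ(O ∩ B_η)` is integrally closed. -/
theorem isIntegrallyClosed_Tk (hdeg : Module.finrank L₀ F = Module.finrank L₀k Fk)
    (S : Finset A) (hS : Set.InjOn G.π (S : Set A))
    (hNC : ∀ c : A, c ∉ S → (Ideal.span
      {algebraMap K[X] (integralClosure K[X] F) (X - C (c : K))}).IsRadical) :
    IsIntegrallyClosed G.Tk := by
  classical
  obtain ⟨b, y, bk, hyint, hR, hbk, hyO, hρy⟩ := G.exists_basis_Tk L₀ L₀k hdeg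
  have hinj := algebraMap_injective_k (k := k) (Fk := Fk) L₀k
  haveI := finite_Tη (K := K) (F := F) L₀
  haveI := free_Tη (K := K) (F := F) L₀
  let β : Module.Basis (Fin (Module.finrank L₀k Fk)) K[X] (integralClosure K[X] F) :=
    Module.finBasisOfFinrankEq K[X] _ ((finrank_Tη (K := K) (F := F) L₀).trans hdeg)
  let yη : Fin (Module.finrank L₀k Fk) → integralClosure K[X] F := fun i => ⟨y i, hyint i⟩
  have hyηO : ∀ i, (yη i : F) ∈ G.O := hyO
  have hρη : ∀ i, G.redT (yη i) (hyηO i) = b i := fun i => Subtype.ext (hρy i)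
  have hρbk : ∀ i, G.ρ ⟨y i, hyO i⟩ = bk i := fun i => by rw [hbk]; exact hρy i
  obtain ⟨D, hD1, hD2⟩ := G.exists_discr_lift L₀ L₀k y hyO hR bk hρbk b hbk hdeg hyint
  have hdb : Algebra.discr k[X] b ≠ 0 := G.discr_Tk_ne_zero L₀ L₀k bk b hbk hdeg
  -- the matrix of `y` in the basis `β`
  set M : Matrix (Fin (Module.finrank L₀k Fk)) (Fin (Module.finrank L₀k Fk)) K[X] :=
    Matrix.of fun i j => β.repr (yη i) j with hM
  have hyM : yη = Matrix.vecMul (⇑β) (M.transpose.map (algebraMap K[X] (integralClosure K[X] F))) := by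
    funext i
    rw [Matrix.vecMul, dotProduct]
    conv_lhs => rw [← β.sum_repr (yη i)]
    refine Finset.sum_congr rfl fun j _ => ?_
    rw [Matrix.map_apply, Matrix.transpose_apply, Algebra.smul_def, mul_comm]
    rfl
  have hdisc : Algebra.discr K[X] yη = M.det ^ 2 * Algebra.discr K[X] β := by
    rw [hyM, Algebra.discr_of_matrix_vecMul, Matrix.det_transpose]
  have hDK : D.map (algebraMap A K) = M.det ^ 2 * Algebra.discr K[X] β := hD1.trans hdisc
  have hDπ : D.map G.π ≠ 0 := by rw [hD2]; exact hdb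
  have hD0 : D ≠ 0 := fun h0 => hDπ (by rw [h0, Polynomial.map_zero])
  have hDK0 : D.map (algebraMap A K) ≠ 0 := by
    intro h0
    apply hD0
    apply Polynomial.map_injective (algebraMap A K) Subtype.coe_injective
    rw [h0, Polynomial.map_zero]
  have hβ0 : Algebra.discr K[X] β ≠ 0 := by
    intro h0
    apply hDK0
    rw [hDK, h0, mul_zero]
  have hdet : ∀ c : A, ¬ (X - C (c : K)) ∣ M.det := fun c =>
    G.not_dvd_det hinj β b yη hyηO hρη c
  -- all roots of `D` in `A` lie in `S`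
  have hroots : ∀ c : A, (D.map (algebraMap A K)).IsRoot (c : K) → c ∈ S := by
    intro c hc
    by_contra hcS
    have h2 := not_dvd_discr_of_isRadical β L₀ (c : K) (hNC c hcS)
    rw [← Polynomial.dvd_iff_isRoot, hDK] at hc
    rcases (Polynomial.prime_X_sub_C _).dvd_or_dvd hc with h | h
    · exact hdet c ((Polynomial.prime_X_sub_C _).dvd_of_dvd_pow h)
    · exact h2 h
  refine H939.isIntegrallyClosed_of_discr_criterion b hdb (IsAlgClosed.splits _) ?_
  intro cbar hcbar
  rw [← hD2] at hcbar ⊢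
  obtain ⟨c, rfl, hc⟩ := exists_root_of_isRoot_map A G.π G.π_surj D hDπ cbar hcbar
  have hcS := hroots c hc
  have h1 := rootMultiplicity_map_le A G.π G.π_surj D hDπ c
    (fun c' hc' hπ => hS (hroots c' hc') hcS hπ)
  have h2 : (D.map (algebraMap A K)).rootMultiplicity (c : K) =
      (Algebra.discr K[X] β).rootMultiplicity (c : K) := by
    rw [hDK, Polynomial.rootMultiplicity_mul (by rw [← hDK]; exact hDK0),
      Polynomial.rootMultiplicity_eq_zero (p := M.det ^ 2), zero_add]
    intro hroot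
    rw [← Polynomial.dvd_iff_isRoot] at hroot
    exact hdet c ((Polynomial.prime_X_sub_C _).dvd_of_dvd_pow hroot)
  have h3 := G.not_pow_dvd_discr hinj β b L₀ c
  have h4 : (Algebra.discr K[X] β).rootMultiplicity (c : K) ≤
      Module.finrank L₀k Fk - H939.redRank G.Tk (G.π c) := by
    by_contra hlt
    push Not at hlt
    exact h3 ((Polynomial.le_rootMultiplicity_iff hβ0).mp hlt)
  have h5 : H939.redRank G.Tk (G.π c) ≤ Fintype.card (Fin (Module.finrank L₀k Fk)) :=
    redRank_le_card b _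
  rw [Fintype.card_fin] at h5 ⊢
  omega

include L₀ L₀k in
/-- **Theorem M** (lifting form, = (H3) of S37-RED): every element of `F_k` integral over
`k[x̄]` is the reduction of an element of `O` integral over `A[x]`. -/
theorem lift_integral (hdeg : Module.finrank L₀ F = Module.finrank L₀k Fk)
    (S : Finset A) (hS : Set.InjOn G.π (S : Set A))
    (hNC : ∀ c : A, c ∉ S → (Ideal.span
      {algebraMap K[X] (integralClosure K[X] F) (X - C (c : K))}).IsRadical)
    (z : Fk) (hz : IsIntegral k[X] z) :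
    ∃ f : G.O, (polyF (A := A) (F := F)).IsIntegralElem (f : F) ∧ G.ρ f = z := by
  haveI := G.isIntegrallyClosed_Tk L₀ L₀k hdeg S hS hNC
  haveI := G.isFractionRing_Tk L₀ L₀k
  have hzT : IsIntegral G.Tk z := hz.tower_top
  obtain ⟨t, ht⟩ := IsIntegrallyClosed.isIntegral_iff.mp hzT
  obtain ⟨f, hf, hfz⟩ := (G.mem_Tk _).mp t.2
  exact ⟨f, G.isIntegralElem_of_mem L₀ L₀k hdeg f f.2 hf, hfz.trans ht⟩

end RedCtx

end Fermat.Agent.S37.H159

end
-- ===== PACK-END S37/H159/MMain.lean

-- ===== PACK-BEGIN S19/H679/NT.lean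
section



/-!
# Cell A3 (S19), block UNR (helper679) — number-theoretic inputs

`V` a valuation subring of `ℚ̄` over the prime `ℓ`.  Elementary facts about algebraic integers
and `V` ("rank one" lemmas), orbits under subgroups of the Galois group, and the two existence
lemmas used by the descent:

* `exists_sepH679`  : an inertia-invariant integer of a normal level `E` moved (mod `𝔪_V`) by a
  given decomposition element which is not inertial on `E`;
* `exists_crtH679`  : an inertia-invariant integer `U` of `E`, `U ≡ 1 mod 𝔪_V`, whose conjugates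
  `σ U` are divisible by `ℓ ^ n` for all `σ` not in `D_V · Gal(ℚ̄/E)`.
-/

set_option autoImplicit false

namespace Fermat.Agent.S19.H679

open Fermat.Agent.S54 Fermat.Agent.S55.Bridge Fermat.Agent.S55.Bridge.H594
open Polynomial

attribute [local instance] isAlgebraic_Qbar isGalois_Qbar

variable (V : ValuationSubring Qb)

/-! ## Basic valuation facts -/

theorem mul_mem_nonunitsH679 {a b : Qb} (ha : a ∈ V) (hb : b ∈ V.nonunits) :
    a * b ∈ V.nonunits := by
  rw [ValuationSubring.mem_nonunits_iff] at hb ⊢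
  rw [map_mul]
  have h1 : V.valuation a ≤ 1 := (V.valuation_le_one_iff a).2 ha
  calc V.valuation a * V.valuation b ≤ 1 * V.valuation b := mul_le_mul' h1 le_rfl
    _ = V.valuation b := one_mul _
    _ < 1 := hb

theorem mul_mem_nonunitsH679' {a b : Qb} (ha : a ∈ V.nonunits) (hb : b ∈ V) :
    a * b ∈ V.nonunits := by
  rw [mul_comm]
  exact mul_mem_nonunitsH679 V hb ha

theorem mem_of_mem_nonunitsH679 {a : Qb} (ha : a ∈ V.nonunits) : a ∈ V :=
  V.nonunits_subset ha

theorem inv_mem_of_not_mem_nonunitsH679 {a : Qb} (ha : a ∉ V.nonunits) : a⁻¹ ∈ V := by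
  by_contra h
  exact ha (V.mem_nonunits_iff_or.mpr (Or.inr h))

/-- `𝔪_V` is a prime ideal: a product of elements of `V` in `𝔪_V` has a factor in `𝔪_V`. -/
theorem mem_nonunits_of_mulH679 {a b : Qb} (_ha : a ∈ V) (_hb : b ∈ V)
    (hab : a * b ∈ V.nonunits) : a ∈ V.nonunits ∨ b ∈ V.nonunits := by
  by_contra hcon
  rw [not_or] at hcon
  have h1 := inv_mem_of_not_mem_nonunitsH679 V hcon.1
  have h2 := inv_mem_of_not_mem_nonunitsH679 V hcon.2
  have ha0 : a ≠ 0 := fun h => hcon.1 (h ▸ V.nonunits.zero_mem)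
  have hb0 : b ≠ 0 := fun h => hcon.2 (h ▸ V.nonunits.zero_mem)
  have h3 : (a⁻¹ * b⁻¹) * (a * b) ∈ V.nonunits :=
    mul_mem_nonunitsH679 V (V.mul_mem _ _ h1 h2) hab
  have h4 : (a⁻¹ * b⁻¹) * (a * b) = 1 := by field_simp
  rw [h4, ValuationSubring.mem_nonunits_iff, map_one] at h3
  exact lt_irrefl _ h3

theorem one_not_mem_nonunitsH679 : (1 : Qb) ∉ V.nonunits := by
  rw [ValuationSubring.mem_nonunits_iff, map_one]
  exact lt_irrefl _

theorem prod_mem_nonunitsH679 {ι : Type*} (s : Finset ι) (g : ι → Qb) (hg : ∀ i ∈ s, g i ∈ V)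
    (i₀ : ι) (hi₀ : i₀ ∈ s) (h0 : g i₀ ∈ V.nonunits) : ∏ i ∈ s, g i ∈ V.nonunits := by
  classical
  rw [← Finset.mul_prod_erase s g hi₀]
  refine mul_mem_nonunitsH679' V h0 ?_
  exact Subring.prod_mem V.toSubring fun i hi => hg i (Finset.mem_of_mem_erase hi)

theorem exists_mem_nonunits_of_prodH679 {ι : Type*} (s : Finset ι) (g : ι → Qb)
    (hg : ∀ i ∈ s, g i ∈ V) (h : ∏ i ∈ s, g i ∈ V.nonunits) : ∃ i ∈ s, g i ∈ V.nonunits := by
  classical
  induction s using Finset.induction_on with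
  | empty =>
    rw [Finset.prod_empty] at h
    exact absurd h (one_not_mem_nonunitsH679 V)
  | insert a s ha ih =>
    rw [Finset.prod_insert ha] at h
    have h1 : g a ∈ V := hg a (Finset.mem_insert_self a s)
    have h2 : ∏ i ∈ s, g i ∈ V :=
      Subring.prod_mem V.toSubring fun i hi => hg i (Finset.mem_insert_of_mem hi)
    rcases mem_nonunits_of_mulH679 V h1 h2 h with h3 | h3
    · exact ⟨a, Finset.mem_insert_self a s, h3⟩
    · obtain ⟨i, hi, hi'⟩ := ih (fun i hi => hg i (Finset.mem_insert_of_mem hi)) h3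
      exact ⟨i, Finset.mem_insert_of_mem hi, hi'⟩

variable {ℓ : ℕ} (hℓ : ℓ.Prime) (hV : (ℓ : Qb) ∈ V.nonunits)

include hℓ hV in
/-- Integers prime to `ℓ` are units of `V`. -/
theorem intCast_inv_memH679 (d : ℤ) (hd : ¬ (ℓ : ℤ) ∣ d) : ((d : Qb))⁻¹ ∈ V := by
  apply inv_mem_of_not_mem_nonunitsH679
  intro h
  exact hd (dvd_of_intCast_mem_nonunits V ℓ hℓ hV d h)

include hℓ hV in
/-- **Bounded denominators**: for every `x` some `ℓ ^ a` clears the `V`-denominators of all
conjugates of `x`. -/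
theorem exists_pow_mul_conj_memH679 (x : Qb) : ∃ a : ℕ, ∀ σ : GalQ, (ℓ : Qb) ^ a * σ x ∈ V := by
  have halg : IsAlgebraic ℤ x :=
    (IsFractionRing.isAlgebraic_iff ℤ ℚ Qb).mpr (Algebra.IsAlgebraic.isAlgebraic x)
  obtain ⟨d, hd0, hd⟩ := halg.exists_integral_multiple
  -- `d = ℓ ^ a * d'` with `ℓ ∤ d'`
  obtain ⟨a, d', hd', hdd⟩ : ∃ (a : ℕ) (d' : ℤ), ¬ (ℓ : ℤ) ∣ d' ∧ d = (ℓ : ℤ) ^ a * d' := by
    have hfin : FiniteMultiplicity (ℓ : ℤ) d := by
      rw [Int.finiteMultiplicity_iff]
      refine ⟨?_, hd0⟩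
      have := hℓ.one_lt
      simp only [Int.natAbs_natCast]
      omega
    obtain ⟨c, hc1, hc2⟩ := hfin.exists_eq_pow_mul_and_not_dvd
    exact ⟨_, c, hc2, hc1⟩
  refine ⟨a, fun σ => ?_⟩
  have h1 : IsIntegral ℤ (σ (d • x)) := hd.map σ
  have h2 : σ (d • x) ∈ V := isIntegral_mem_valuationSubring V h1
  have h3 : ((d' : Qb))⁻¹ ∈ V := intCast_inv_memH679 V hℓ hV d' hd'
  have hd'0 : (d' : Qb) ≠ 0 := by
    intro h
    apply hd'
    have : d' = 0 := by exact_mod_cast h
    rw [this]
    exact dvd_zero _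
  have h4 : (ℓ : Qb) ^ a * σ x = σ (d • x) * ((d' : Qb))⁻¹ := by
    rw [zsmul_eq_mul, map_mul, map_intCast, hdd]
    push_cast
    field_simp
  rw [h4]
  exact V.mul_mem _ _ h2 h3

include hℓ hV in
/-- For a nonzero `y` some power of `ℓ` is divisible by `y` in `V`. -/
theorem exists_pow_div_memH679 (y : Qb) : ∃ e : ℕ, (ℓ : Qb) ^ e * y⁻¹ ∈ V := by
  obtain ⟨a, ha⟩ := exists_pow_mul_conj_memH679 V hℓ hV y⁻¹
  exact ⟨a, by simpa using ha 1⟩

include hℓ hV in
/-- **Rank one**: a non-unit algebraic integer has a power divisible by `ℓ`. -/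
theorem exists_pow_eq_mulH679 (y : Qb) (hy : IsIntegral ℤ y) (hyV : y ∈ V.nonunits) :
    ∃ k : ℕ, 0 < k ∧ ∃ z ∈ V, y ^ k = (ℓ : Qb) * z := by
  rcases eq_or_ne y 0 with rfl | hy0
  · exact ⟨1, one_pos, 0, V.zero_mem, by simp⟩
  obtain ⟨p, hpm, hpy⟩ := hy
  have hpy' : aeval y p = 0 := by
    rw [aeval_def]; exact hpy
  -- the least index with coefficient prime to `ℓ`
  have hex : ∃ i, ¬ (ℓ : ℤ) ∣ p.coeff i := by
    refine ⟨p.natDegree, ?_⟩
    rw [hpm.coeff_natDegree]
    intro h
    have h1 := Int.isUnit_iff.mp (isUnit_of_dvd_one h)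
    have := hℓ.one_lt
    omega
  classical
  set i := Nat.find hex with hi
  have hi1 : ¬ (ℓ : ℤ) ∣ p.coeff i := Nat.find_spec hex
  have hi2 : ∀ j < i, (ℓ : ℤ) ∣ p.coeff j := fun j hj => by
    by_contra h
    exact Nat.find_min hex hj h
  -- valuations
  set v := V.valuation with hv
  have hvy : v y < 1 := (ValuationSubring.mem_nonunits_iff V).1 hyV
  have hvy0 : v y ≠ 0 := (Valuation.ne_zero_iff v).2 hy0
  have hvl : v (ℓ : Qb) < 1 := (ValuationSubring.mem_nonunits_iff V).1 hV
  have hvint : ∀ n : ℤ, v (n : Qb) ≤ 1 := fun n =>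
    (V.valuation_le_one_iff _).2 (intCast_mem V n)
  have hvunit : v ((p.coeff i : ℤ) : Qb) = 1 := by
    have h1 := intCast_inv_memH679 V hℓ hV _ hi1
    have h2 : v (((p.coeff i : ℤ) : Qb))⁻¹ ≤ 1 := (V.valuation_le_one_iff _).2 h1
    have h3 := hvint (p.coeff i)
    have hne : ((p.coeff i : ℤ) : Qb) ≠ 0 := by
      intro h
      apply hi1
      have : p.coeff i = 0 := by exact_mod_cast h
      rw [this]; exact dvd_zero _
    rw [map_inv₀] at h2
    have h4 : v ((p.coeff i : ℤ) : Qb) ≠ 0 := (Valuation.ne_zero_iff v).2 hne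
    have h5 : 1 ≤ v ((p.coeff i : ℤ) : Qb) := by
      rwa [inv_le_one₀ (zero_lt_iff.2 h4)] at h2
    exact le_antisymm h3 h5
  -- the relation
  have hsum : aeval y p = ∑ j ∈ Finset.range (p.natDegree + 1), ((p.coeff j : ℤ) : Qb) * y ^ j := by
    rw [aeval_eq_sum_range]
    refine Finset.sum_congr rfl fun j _ => ?_
    rw [zsmul_eq_mul]
  have hile : i ≤ p.natDegree := by
    by_contra h
    rw [not_le] at h
    exact hi1 (by rw [coeff_eq_zero_of_natDegree_lt h]; exact dvd_zero _)
  have himem : i ∈ Finset.range (p.natDegree + 1) := Finset.mem_range.2 (by omega)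
  rw [hpy', ← Finset.add_sum_erase _ _ himem] at hsum
  have hrel : ((p.coeff i : ℤ) : Qb) * y ^ i
      = - ∑ j ∈ (Finset.range (p.natDegree + 1)).erase i, ((p.coeff j : ℤ) : Qb) * y ^ j := by
    rw [eq_neg_iff_add_eq_zero]
    exact hsum.symm
  have hvi : v (y ^ i) = v (∑ j ∈ (Finset.range (p.natDegree + 1)).erase i,
      ((p.coeff j : ℤ) : Qb) * y ^ j) := by
    have := congrArg v hrel
    rw [map_mul, hvunit, one_mul, Valuation.map_neg] at this
    exact this
  -- bound each term by `max (v ℓ) (v y ^ (i+1))`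
  have hbound : v (∑ j ∈ (Finset.range (p.natDegree + 1)).erase i,
      ((p.coeff j : ℤ) : Qb) * y ^ j) ≤ max (v (ℓ : Qb)) (v y ^ (i + 1)) := by
    apply Valuation.map_sum_le
    intro j hj
    have hji : j ≠ i := Finset.ne_of_mem_erase hj
    rcases lt_or_gt_of_ne hji with hlt | hgt
    · obtain ⟨c, hc⟩ := hi2 j hlt
      refine le_trans ?_ (le_max_left _ _)
      rw [hc]
      push_cast
      rw [map_mul, map_mul, map_pow]
      have h1 : v (c : Qb) ≤ 1 := hvint c
      have h2 : v y ^ j ≤ 1 := pow_le_one₀ zero_le hvy.le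
      calc v (ℓ : Qb) * v (c : Qb) * v y ^ j ≤ v (ℓ : Qb) * 1 * 1 := by
            gcongr
        _ = v (ℓ : Qb) := by rw [mul_one, mul_one]
    · refine le_trans ?_ (le_max_right _ _)
      rw [map_mul, map_pow]
      have h1 : v ((p.coeff j : ℤ) : Qb) ≤ 1 := hvint _
      have h2 : v y ^ j ≤ v y ^ (i + 1) := pow_le_pow_of_le_one zero_le hvy.le (by omega)
      calc v ((p.coeff j : ℤ) : Qb) * v y ^ j ≤ 1 * v y ^ (i + 1) := by
            gcongr
        _ = v y ^ (i + 1) := one_mul _
  rw [← hvi, map_pow] at hbound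
  have hstrict : v y ^ (i + 1) < v y ^ i := by
    rw [pow_succ]
    calc v y ^ i * v y < v y ^ i * 1 := by
          apply mul_lt_mul_of_pos_left hvy
          exact zero_lt_iff.2 (pow_ne_zero _ hvy0)
      _ = v y ^ i := mul_one _
  have hle : v y ^ i ≤ v (ℓ : Qb) := by
    rcases le_max_iff.1 hbound with h | h
    · exact h
    · exact absurd h (not_le.2 hstrict)
  have hipos : 0 < i := by
    rcases Nat.eq_zero_or_pos i with h0 | h0
    · rw [h0, pow_zero] at hle
      exact absurd hvl (not_lt.2 hle)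
    · exact h0
  refine ⟨i, hipos, y ^ i * ((ℓ : Qb))⁻¹, ?_, ?_⟩
  · rw [← V.valuation_le_one_iff, map_mul, map_inv₀, map_pow]
    have hl0 : v (ℓ : Qb) ≠ 0 := by
      rw [Valuation.ne_zero_iff]
      exact_mod_cast hℓ.ne_zero
    rw [← div_eq_mul_inv, div_le_one₀ (zero_lt_iff.2 hl0)]
    exact hle
  · have hl0 : (ℓ : Qb) ≠ 0 := by exact_mod_cast hℓ.ne_zero
    field_simp

/-! ## Orbits of subgroups of the Galois group -/

/-- Orbits of elements of `ℚ̄` under any set of automorphisms are finite. -/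
theorem finite_orbH679 (H : Set GalQ) (x : Qb) : {y : Qb | ∃ h ∈ H, h x = y}.Finite := by
  refine Set.Finite.subset (Polynomial.rootSet_finite (minpoly ℚ x) Qb) ?_
  rintro y ⟨h, -, rfl⟩
  rw [Polynomial.mem_rootSet]
  refine ⟨minpoly.ne_zero (Algebra.IsIntegral.isIntegral x), ?_⟩
  exact minpoly.aeval_algHom ℚ (h : Qb →ₐ[ℚ] Qb) x

/-- The orbit of `x` under a subgroup, as a finset. -/
noncomputable def orbH679 (H : Subgroup GalQ) (x : Qb) : Finset Qb :=
  (finite_orbH679 (H : Set GalQ) x).toFinset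

theorem mem_orbH679 {H : Subgroup GalQ} {x y : Qb} :
    y ∈ orbH679 H x ↔ ∃ h ∈ H, h x = y := by
  rw [orbH679, Set.Finite.mem_toFinset]
  rfl

theorem self_mem_orbH679 (H : Subgroup GalQ) (x : Qb) : x ∈ orbH679 H x :=
  mem_orbH679.2 ⟨1, H.one_mem, rfl⟩

theorem apply_mem_orbH679 {H : Subgroup GalQ} {x y : Qb} {h : GalQ} (hh : h ∈ H)
    (hy : y ∈ orbH679 H x) : h y ∈ orbH679 H x := by
  obtain ⟨g, hg, rfl⟩ := mem_orbH679.1 hy
  exact mem_orbH679.2 ⟨h * g, H.mul_mem hh hg, rfl⟩

theorem galH679_inv_apply (h : GalQ) (y : Qb) : h⁻¹ (h y) = y := by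
  show (h⁻¹ * h) y = y
  rw [inv_mul_cancel]; rfl

theorem galH679_apply_inv (h : GalQ) (y : Qb) : h (h⁻¹ y) = y := by
  show (h * h⁻¹) y = y
  rw [mul_inv_cancel]; rfl

/-- Products over an orbit are invariant. -/
theorem apply_prod_orbH679 {H : Subgroup GalQ} (x : Qb) {h : GalQ} (hh : h ∈ H) :
    h (∏ y ∈ orbH679 H x, y) = ∏ y ∈ orbH679 H x, y := by
  rw [map_prod]
  refine Finset.prod_nbij' (fun y => h y) (fun y => h⁻¹ y)
    (fun y hy => apply_mem_orbH679 hh hy) (fun y hy => apply_mem_orbH679 (H.inv_mem hh) hy)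
    (fun y _ => galH679_inv_apply h y) (fun y _ => galH679_apply_inv h y) (fun y _ => rfl)

/-- The orbit polynomial. -/
noncomputable def orbPolyH679 (H : Subgroup GalQ) (x : Qb) : Qb[X] :=
  ∏ y ∈ orbH679 H x, (X - C y)

theorem map_orbPolyH679 {H : Subgroup GalQ} (x : Qb) {h : GalQ} (hh : h ∈ H) :
    (orbPolyH679 H x).map (h : Qb →+* Qb) = orbPolyH679 H x := by
  unfold orbPolyH679
  rw [Polynomial.map_prod]
  refine Finset.prod_nbij' (fun y => h y) (fun y => h⁻¹ y)
    (fun y hy => apply_mem_orbH679 hh hy) (fun y hy => apply_mem_orbH679 (H.inv_mem hh) hy)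
    (fun y _ => galH679_inv_apply h y) (fun y _ => galH679_apply_inv h y) ?_
  intro y _
  simp

theorem apply_coeff_orbPolyH679 {H : Subgroup GalQ} (x : Qb) {h : GalQ} (hh : h ∈ H) (j : ℕ) :
    h ((orbPolyH679 H x).coeff j) = (orbPolyH679 H x).coeff j := by
  conv_rhs => rw [← map_orbPolyH679 x hh]
  rw [Polynomial.coeff_map]
  rfl

/-- Coefficients of `∏ (X - y)` lie in any subring containing the `y`. -/
theorem coeff_prod_X_sub_C_memH679 (A : Subring Qb) (s : Finset Qb) (hs : ∀ y ∈ s, y ∈ A)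
    (j : ℕ) : (∏ y ∈ s, (X - C y)).coeff j ∈ A := by
  classical
  induction s using Finset.induction_on generalizing j with
  | empty =>
    rw [Finset.prod_empty, Polynomial.coeff_one]
    split_ifs
    · exact A.one_mem
    · exact A.zero_mem
  | insert a s ha ih =>
    rw [Finset.prod_insert ha, mul_comm]
    have hsa : ∀ y ∈ s, y ∈ A := fun y hy => hs y (Finset.mem_insert_of_mem hy)
    have haA : a ∈ A := hs a (Finset.mem_insert_self a s)
    rcases j with _ | j
    · rw [Polynomial.mul_coeff_zero]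
      refine A.mul_mem (ih hsa 0) ?_
      simp only [coeff_sub, coeff_X_zero, coeff_C_zero, zero_sub]
      exact A.neg_mem haA
    · rw [Polynomial.coeff_mul_X_sub_C]
      exact A.sub_mem (ih hsa j) (A.mul_mem (ih hsa (j + 1)) haA)

theorem orbPolyH679_eval_self (H : Subgroup GalQ) (x : Qb) : (orbPolyH679 H x).eval x = 0 := by
  unfold orbPolyH679
  rw [Polynomial.eval_prod]
  exact Finset.prod_eq_zero (self_mem_orbH679 H x) (by simp)

/-! ## Decomposition and inertia, elementwise -/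

theorem mem_decompH679 {V : ValuationSubring Qb} {δ : GalQ}
    (hδ : δ ∈ V.decompositionSubgroup ℚ) (x : Qb) : δ x ∈ V ↔ x ∈ V :=
  (mem_decompositionSubgroup_iff V δ).1 hδ x

theorem mem_nonunits_decompH679 {V : ValuationSubring Qb} {δ : GalQ}
    (hδ : δ ∈ V.decompositionSubgroup ℚ) (x : Qb) : δ x ∈ V.nonunits ↔ x ∈ V.nonunits := by
  rw [V.mem_nonunits_iff_or, V.mem_nonunits_iff_or, ← map_inv₀, mem_decompH679 hδ,
    map_eq_zero_iff _ δ.injective]

theorem inertia_le_decompH679 {V : ValuationSubring Qb} {ι : GalQ}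
    (hι : ι ∈ V.inertiaSubgroupIn ℚ) : ι ∈ V.decompositionSubgroup ℚ :=
  ((mem_inertiaSubgroupIn_iff V ι).1 hι).1

theorem inertia_sub_memH679 {V : ValuationSubring Qb} {ι : GalQ}
    (hι : ι ∈ V.inertiaSubgroupIn ℚ) {z : Qb} (hz : z ∈ V) : ι z - z ∈ V.nonunits :=
  ((mem_inertiaSubgroupIn_iff V ι).1 hι).2 z hz

/-- The `S19` inertia predicate follows from membership in the inertia group. -/
theorem isInertiaAt_of_memH679 {V : ValuationSubring Qb} {ι : GalQ}
    (hι : ι ∈ V.inertiaSubgroupIn ℚ) : IsInertiaAt V ι :=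
  fun _ hz => inertia_sub_memH679 hι hz

/-- Inertia is normal in the decomposition group. -/
theorem conj_mem_inertiaH679 {V : ValuationSubring Qb} {δ ι : GalQ}
    (hδ : δ ∈ V.decompositionSubgroup ℚ) (hι : ι ∈ V.inertiaSubgroupIn ℚ) :
    δ * ι * δ⁻¹ ∈ V.inertiaSubgroupIn ℚ := by
  rw [mem_inertiaSubgroupIn_iff]
  refine ⟨(V.decompositionSubgroup ℚ).mul_mem
    ((V.decompositionSubgroup ℚ).mul_mem hδ (inertia_le_decompH679 hι))
    ((V.decompositionSubgroup ℚ).inv_mem hδ), fun z hz => ?_⟩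
  have h1 : δ⁻¹ z ∈ V := (mem_decompH679 ((V.decompositionSubgroup ℚ).inv_mem hδ) z).2 hz
  have h2 := inertia_sub_memH679 hι h1
  have h3 : (δ * ι * δ⁻¹) z - z = δ (ι (δ⁻¹ z) - δ⁻¹ z) := by
    rw [map_sub, galH679_apply_inv]
    rfl
  rw [h3]
  exact (mem_nonunits_decompH679 hδ _).2 h2

theorem prod_sub_one_mem_nonunitsH679 {ι : Type*} (s : Finset ι) (g : ι → Qb)
    (hg : ∀ i ∈ s, g i - 1 ∈ V.nonunits) : ∏ i ∈ s, g i - 1 ∈ V.nonunits := by
  classical
  induction s using Finset.induction_on with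
  | empty => simpa using V.nonunits.zero_mem
  | insert a s ha ih =>
    rw [Finset.prod_insert ha]
    have h1 := hg a (Finset.mem_insert_self a s)
    have h2 := ih fun i hi => hg i (Finset.mem_insert_of_mem hi)
    have h3 : g a ∈ V := by
      have := V.add_mem _ _ (mem_of_mem_nonunitsH679 V h1) V.one_mem
      simpa using this
    have h4 : g a * ∏ i ∈ s, g i - 1 = g a * (∏ i ∈ s, g i - 1) + (g a - 1) := by ring
    rw [h4]
    exact V.nonunits.add_mem (mul_mem_nonunitsH679 V h3 h2) h1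

/-! ## Finite order of residues -/

include hℓ hV in
/-- A unit of `V` which is an algebraic integer has finite order modulo `𝔪_V`. -/
theorem exists_pow_sub_one_memH679 (x : Qb) (hx : IsIntegral ℤ x) (hxu : x ∉ V.nonunits) :
    ∃ N : ℕ, 0 < N ∧ x ^ N - 1 ∈ V.nonunits := by
  have hprime := primeBelow_isPrime V
  have hQ : (ℓ : integralClosure ℤ Qb) ∈ primeBelow V := by
    rw [mem_primeBelow]
    simpa using hV
  obtain ⟨σ, -, hσ⟩ := exists_frob_integralClosure ℓ hℓ (primeBelow V) hQ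
  have hσ' : ∀ z : Qb, IsIntegral ℤ z → σ z - z ^ ℓ ∈ V.nonunits := by
    intro z hz
    have := hσ ⟨z, hz⟩
    rw [mem_primeBelow] at this
    simpa using this
  have hintV : ∀ z : Qb, IsIntegral ℤ z → z ∈ V := fun z hz =>
    isIntegral_mem_valuationSubring V hz
  -- iterate
  have hiter : ∀ k : ℕ, ∀ z : Qb, IsIntegral ℤ z → (σ ^ k) z - z ^ (ℓ ^ k) ∈ V.nonunits := by
    intro k
    induction k with
    | zero =>
      intro z _
      simpa using V.nonunits.zero_mem
    | succ k ih =>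
      intro z hz
      have h1 := ih (σ z) (hz.map σ)
      have h2 : (σ z) ^ (ℓ ^ k) - (z ^ ℓ) ^ (ℓ ^ k) ∈ V.nonunits := by
        have hgeom := Commute.mul_geom_sum₂ (Commute.all (σ z) (z ^ ℓ)) (ℓ ^ k)
        have hne : IsIntegral ℤ (∑ i ∈ Finset.range (ℓ ^ k),
            (σ z) ^ i * (z ^ ℓ) ^ (ℓ ^ k - 1 - i)) :=
          IsIntegral.sum _ fun i _ => ((hz.map σ).pow _).mul ((hz.pow _).pow _)
        rw [← hgeom]
        exact mul_mem_nonunitsH679' V (hσ' z hz) (hintV _ hne)
      have h3 : (σ ^ (k + 1)) z - z ^ (ℓ ^ (k + 1))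
          = ((σ ^ k) (σ z) - (σ z) ^ (ℓ ^ k)) + ((σ z) ^ (ℓ ^ k) - (z ^ ℓ) ^ (ℓ ^ k)) := by
        rw [pow_succ σ k, pow_succ ℓ k, mul_comm (ℓ ^ k) ℓ, pow_mul]
        show (σ ^ k) (σ z) - _ = _
        ring
      rw [h3]
      exact V.nonunits.add_mem h1 h2
  -- pigeonhole on the (finite) orbit of `x`
  have hfin : {y : Qb | ∃ h ∈ (Set.univ : Set GalQ), h x = y}.Finite := finite_orbH679 _ x
  haveI : Finite ↥{y : Qb | ∃ h ∈ (Set.univ : Set GalQ), h x = y} := hfin.to_subtype
  obtain ⟨a, b, hab, heq⟩ := Finite.exists_ne_map_eq_of_infinite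
    (fun n : ℕ => (⟨(σ ^ n) x, ⟨σ ^ n, trivial, rfl⟩⟩ :
      ↥{y : Qb | ∃ h ∈ (Set.univ : Set GalQ), h x = y}))
  have heq' : (σ ^ a) x = (σ ^ b) x := congrArg Subtype.val heq
  have key : ∀ a b : ℕ, a < b → (σ ^ a) x = (σ ^ b) x → ∃ k : ℕ, 0 < k ∧ (σ ^ k) x = x := by
    intro a b hlt h1
    refine ⟨b - a, by omega, ?_⟩
    have h2 : σ ^ b = σ ^ a * σ ^ (b - a) := by
      rw [← pow_add]; congr 1; omega
    rw [h2] at h1
    exact ((σ ^ a).injective h1).symm
  obtain ⟨k, hk, hkx⟩ : ∃ k : ℕ, 0 < k ∧ (σ ^ k) x = x := by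
    rcases lt_or_gt_of_ne hab with h | h
    · exact key a b h heq'
    · exact key b a h heq'.symm
  have h1 := hiter k x hx
  rw [hkx] at h1
  have hℓk : 2 ≤ ℓ ^ k := by
    calc 2 ≤ ℓ := hℓ.two_le
      _ = ℓ ^ 1 := (pow_one ℓ).symm
      _ ≤ ℓ ^ k := Nat.pow_le_pow_right hℓ.pos hk
  refine ⟨ℓ ^ k - 1, by omega, ?_⟩
  have h2 : x - x ^ (ℓ ^ k) = x * (-(x ^ (ℓ ^ k - 1) - 1)) := by
    have : ℓ ^ k = (ℓ ^ k - 1) + 1 := by omega
    conv_lhs => rw [this, pow_succ]
    ring
  rw [h2] at h1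
  have hxV : x ∈ V := hintV x hx
  have hpV : -(x ^ (ℓ ^ k - 1) - 1) ∈ V :=
    neg_mem (sub_mem (pow_mem hxV _) (one_mem V))
  rcases mem_nonunits_of_mulH679 V hxV hpV h1 with h | h
  · exact absurd h hxu
  · have := V.nonunits.neg_mem h
    simpa using this

end Fermat.Agent.S19.H679

end
-- ===== PACK-END S19/H679/NT.lean

-- ===== PACK-BEGIN S19/H679/Level.lean
section


/-!
# Cell A3 (S19), block UNR (helper679) — elements at a finite normal level `E`

`V` a valuation subring of `ℚ̄` over `ℓ`, `D_V ⊇ I_V` its decomposition and inertia groups,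
`E ⊂ ℚ̄` a finite normal extension of `ℚ`.

* `exists_repsH679`     : finitely many automorphisms represent all restrictions to `E`;
* `exists_crtH679`      : for every `n` an inertia-invariant integer `U ∈ E`, `U ≡ 1 mod 𝔪_V`,
                          with `σ U ∈ ℓ ^ n V` for all `σ` not agreeing on `E` with an element of
                          `D_V`;
* `exists_weightsH679`  : inertia-invariant integers `c_j ∈ E` and weights `a_j ∈ V` with
                          `∑ a_j δ(c_j) = 1` or `0` for `δ ∈ D_V`, according to whether `δ`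
                          agrees on `E` with an inertia element or not.
-/

set_option autoImplicit false

namespace Fermat.Agent.S19.H679

open Fermat.Agent.S54 Fermat.Agent.S55.Bridge Fermat.Agent.S55.Bridge.H594
open Polynomial

attribute [local instance] isAlgebraic_Qbar isGalois_Qbar

variable (V : ValuationSubring Qb) (E : IntermediateField ℚ Qb)

/-- Elements of `E` which are algebraic integers fixed by the inertia group of `V`. -/
def IsGoodEltH679 (c : Qb) : Prop :=
  c ∈ E ∧ IsIntegral ℤ c ∧ ∀ ι ∈ V.inertiaSubgroupIn ℚ, ι c = c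

theorem IsGoodEltH679.one : IsGoodEltH679 V E 1 :=
  ⟨E.one_mem, isIntegral_one, fun ι _ => map_one ι⟩

theorem IsGoodEltH679.mul {a b : Qb} (ha : IsGoodEltH679 V E a) (hb : IsGoodEltH679 V E b) :
    IsGoodEltH679 V E (a * b) :=
  ⟨E.mul_mem ha.1 hb.1, ha.2.1.mul hb.2.1, fun ι hι => by rw [map_mul, ha.2.2 ι hι, hb.2.2 ι hι]⟩

theorem IsGoodEltH679.prod {ι : Type*} (s : Finset ι) (g : ι → Qb)
    (hg : ∀ i ∈ s, IsGoodEltH679 V E (g i)) : IsGoodEltH679 V E (∏ i ∈ s, g i) := by
  classical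
  induction s using Finset.induction_on with
  | empty => simpa using IsGoodEltH679.one V E
  | insert a s ha ih =>
    rw [Finset.prod_insert ha]
    exact (hg a (Finset.mem_insert_self a s)).mul V E
      (ih fun i hi => hg i (Finset.mem_insert_of_mem hi))

theorem IsGoodEltH679.mem_V {c : Qb} (hc : IsGoodEltH679 V E c) : c ∈ V :=
  isIntegral_mem_valuationSubring V hc.2.1

theorem IsGoodEltH679.apply_mem_V {c : Qb} (hc : IsGoodEltH679 V E c) (σ : GalQ) : σ c ∈ V :=
  isIntegral_mem_valuationSubring V (hc.2.1.map σ)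

section normal

variable [Normal ℚ E]

theorem apply_mem_levelH679 (σ : GalQ) {x : Qb} (hx : x ∈ E) : σ x ∈ E := by
  have := restrictNormalHom_apply E σ ⟨x, hx⟩
  rw [← this]
  exact (AlgEquiv.restrictNormalHom E σ ⟨x, hx⟩).2

theorem agree_iff_restrictH679 (σ τ : GalQ) :
    (∀ x ∈ E, σ x = τ x) ↔ AlgEquiv.restrictNormalHom E σ = AlgEquiv.restrictNormalHom E τ := by
  constructor
  · intro h
    apply AlgEquiv.ext
    intro x
    apply Subtype.ext
    rw [restrictNormalHom_apply, restrictNormalHom_apply]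
    exact h x x.2
  · intro h x hx
    have h1 := restrictNormalHom_apply E σ ⟨x, hx⟩
    have h2 := restrictNormalHom_apply E τ ⟨x, hx⟩
    rw [← h1, ← h2, h]

variable [FiniteDimensional ℚ E]

/-- Finitely many automorphisms represent all restrictions to `E`. -/
theorem exists_repsH679 :
    ∃ reps : Finset GalQ, ∀ σ : GalQ, ∃ ρ ∈ reps, ∀ x ∈ E, σ x = ρ x := by
  classical
  haveI : Fintype (E ≃ₐ[ℚ] E) := Fintype.ofFinite _
  have hsurj := AlgEquiv.restrictNormalHom_surjective (F := ℚ) (K₁ := E) Qb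
  refine ⟨Finset.univ.image (Function.surjInv hsurj), fun σ => ?_⟩
  refine ⟨Function.surjInv hsurj (AlgEquiv.restrictNormalHom E σ),
    Finset.mem_image_of_mem _ (Finset.mem_univ _), ?_⟩
  rw [agree_iff_restrictH679, Function.surjInv_eq hsurj]

end normal

variable {ℓ : ℕ} (hℓ : ℓ.Prime) (hV : (ℓ : Qb) ∈ V.nonunits)

section crt

variable [Normal ℚ E]

include hℓ hV in
/-- One bad automorphism: an integer of `E`, `≡ 1 mod 𝔪_V`, sent into `𝔪_V`. -/
theorem exists_crt1H679 (σ : GalQ)
    (hσ : ¬ ∃ δ ∈ V.decompositionSubgroup ℚ, ∀ x ∈ E, δ x = σ x) :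
    ∃ w : Qb, w ∈ E ∧ IsIntegral ℤ w ∧ w - 1 ∈ V.nonunits ∧ σ w ∈ V.nonunits := by
  have hex : ∃ x : E, IsIntegral ℤ x ∧
      ¬ ((σ (x : Qb)) ∈ V.nonunits ↔ (x : Qb) ∈ V.nonunits) := by
    by_contra hcon
    push Not at hcon
    apply hσ
    obtain ⟨δ, hδ, hδr⟩ := exists_decomposition_lift E V hℓ hV (AlgEquiv.restrictNormalHom E σ)
      (fun x hx => by
        rw [restrictNormalHom_apply]
        exact hcon x hx)
    exact ⟨δ, hδ, (agree_iff_restrictH679 E δ σ).2 hδr⟩
  obtain ⟨x, hxint, hx⟩ := hex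
  have hxint' : IsIntegral ℤ (x : Qb) := hxint.map (IntermediateField.val E)
  have hxV : (x : Qb) ∈ V := isIntegral_mem_valuationSubring V hxint'
  have hσxint : IsIntegral ℤ (σ (x : Qb)) := hxint'.map σ
  have hσxV : σ (x : Qb) ∈ V := isIntegral_mem_valuationSubring V hσxint
  by_cases h1 : (x : Qb) ∈ V.nonunits
  · -- `x ∈ 𝔪`, `σ x ∉ 𝔪`
    have h2 : σ (x : Qb) ∉ V.nonunits := fun h => hx ⟨fun _ => h1, fun _ => h⟩
    obtain ⟨N, hN, hN'⟩ := exists_pow_sub_one_memH679 V hℓ hV _ hσxint h2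
    refine ⟨1 - (x : Qb) ^ N, E.sub_mem E.one_mem (pow_mem x.2 N),
      isIntegral_one.sub (hxint'.pow N), ?_, ?_⟩
    · have : (1 - (x : Qb) ^ N) - 1 = -((x : Qb) ^ (N - 1) * (x : Qb)) := by
        rw [← pow_succ, Nat.sub_add_cancel hN]; ring
      rw [this]
      exact V.nonunits.neg_mem (mul_mem_nonunitsH679 V (pow_mem hxV _) h1)
    · have : σ (1 - (x : Qb) ^ N) = -((σ (x : Qb)) ^ N - 1) := by
        rw [map_sub, map_one, map_pow]; ring
      rw [this]
      exact V.nonunits.neg_mem hN'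
  · -- `x ∉ 𝔪`, `σ x ∈ 𝔪`
    have h2 : σ (x : Qb) ∈ V.nonunits := by
      by_contra h
      exact hx ⟨fun h' => absurd h' h, fun h' => absurd h' h1⟩
    obtain ⟨N, hN, hN'⟩ := exists_pow_sub_one_memH679 V hℓ hV _ hxint' h1
    refine ⟨(x : Qb) ^ N, pow_mem x.2 N, hxint'.pow N, hN', ?_⟩
    rw [map_pow]
    have : (σ (x : Qb)) ^ N = (σ (x : Qb)) ^ (N - 1) * σ (x : Qb) := by
      rw [← pow_succ, Nat.sub_add_cancel hN]
    rw [this]
    exact mul_mem_nonunitsH679 V (pow_mem hσxV _) h2

include hℓ hV in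
/-- One bad automorphism, with divisibility by `ℓ ^ n`. -/
theorem exists_crt2H679 (n : ℕ) (σ : GalQ)
    (hσ : ¬ ∃ δ ∈ V.decompositionSubgroup ℚ, ∀ x ∈ E, δ x = σ x) :
    ∃ w : Qb, w ∈ E ∧ IsIntegral ℤ w ∧ w - 1 ∈ V.nonunits ∧
      ∃ z ∈ V, σ w = (ℓ : Qb) ^ n * z := by
  obtain ⟨w, hwE, hwint, hw1, hσw⟩ := exists_crt1H679 V E hℓ hV σ hσ
  obtain ⟨k, -, z, hz, hk⟩ := exists_pow_eq_mulH679 V hℓ hV (σ w) (hwint.map σ) hσw
  refine ⟨w ^ (k * n), pow_mem hwE _, hwint.pow _, ?_, z ^ n, pow_mem hz n, ?_⟩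
  · have := prod_sub_one_mem_nonunitsH679 V (Finset.range (k * n)) (fun _ => w) (fun _ _ => hw1)
    simpa using this
  · rw [map_pow, pow_mul, hk, mul_pow]

variable [FiniteDimensional ℚ E]

include hℓ hV in
/-- **CRT element**: an inertia-invariant integer `U ∈ E`, `U ≡ 1 mod 𝔪_V`, all of whose bad
conjugates are divisible by `ℓ ^ n`. -/
theorem exists_crtH679 (n : ℕ) :
    ∃ U : Qb, IsGoodEltH679 V E U ∧ U - 1 ∈ V.nonunits ∧
      ∀ σ : GalQ, (¬ ∃ δ ∈ V.decompositionSubgroup ℚ, ∀ x ∈ E, δ x = σ x) →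
        ∃ z ∈ V, σ U = (ℓ : Qb) ^ n * z := by
  classical
  obtain ⟨reps, hreps⟩ := exists_repsH679 E
  -- the bad representatives
  set bad : Finset GalQ := reps.filter fun ρ =>
    ¬ ∃ δ ∈ V.decompositionSubgroup ℚ, ∀ x ∈ E, δ x = ρ x with hbad
  have hchoose : ∀ ρ : GalQ, ∃ w : Qb, ρ ∈ bad → (w ∈ E ∧ IsIntegral ℤ w ∧ w - 1 ∈ V.nonunits ∧
      ∃ z ∈ V, ρ w = (ℓ : Qb) ^ n * z) := by
    intro ρ
    by_cases hρ : ρ ∈ bad
    · obtain ⟨w, hw⟩ := exists_crt2H679 V E hℓ hV n ρ (Finset.mem_filter.1 hρ).2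
      exact ⟨w, fun _ => hw⟩
    · exact ⟨0, fun h => absurd h hρ⟩
  choose w hw using hchoose
  set U₀ : Qb := ∏ ρ ∈ bad, w ρ with hU₀
  have hU₀E : U₀ ∈ E := Subring.prod_mem E.toSubfield.toSubring fun ρ hρ => (hw ρ hρ).1
  have hU₀int : IsIntegral ℤ U₀ := IsIntegral.prod _ fun ρ hρ => (hw ρ hρ).2.1
  have hU₀1 : U₀ - 1 ∈ V.nonunits :=
    prod_sub_one_mem_nonunitsH679 V bad w fun ρ hρ => (hw ρ hρ).2.2.1
  have hU₀bad : ∀ σ : GalQ, (¬ ∃ δ ∈ V.decompositionSubgroup ℚ, ∀ x ∈ E, δ x = σ x) →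
      ∃ z ∈ V, σ U₀ = (ℓ : Qb) ^ n * z := by
    intro σ hσ
    obtain ⟨ρ, hρ, hσρ⟩ := hreps σ
    have hρbad : ρ ∈ bad := by
      rw [hbad, Finset.mem_filter]
      refine ⟨hρ, ?_⟩
      rintro ⟨δ, hδ, hδρ⟩
      exact hσ ⟨δ, hδ, fun x hx => (hδρ x hx).trans (hσρ x hx).symm⟩
    obtain ⟨z, hz, hρw⟩ := (hw ρ hρbad).2.2.2
    refine ⟨z * ∏ ρ' ∈ bad.erase ρ, σ (w ρ'), ?_, ?_⟩
    · refine V.mul_mem _ _ hz (Subring.prod_mem V.toSubring fun ρ' hρ' => ?_)
      exact isIntegral_mem_valuationSubring V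
        (((hw ρ' (Finset.mem_of_mem_erase hρ')).2.1).map σ)
    · rw [hU₀, map_prod, ← Finset.mul_prod_erase bad _ hρbad, hσρ _ (hw ρ hρbad).1, hρw]
      ring
  -- make it inertia-invariant
  set I := V.inertiaSubgroupIn ℚ with hI
  refine ⟨∏ y ∈ orbH679 I U₀, y, ⟨?_, ?_, ?_⟩, ?_, ?_⟩
  · refine Subring.prod_mem E.toSubfield.toSubring fun y hy => ?_
    obtain ⟨ι, -, rfl⟩ := mem_orbH679.1 hy
    exact apply_mem_levelH679 E ι hU₀E
  · refine IsIntegral.prod _ fun y hy => ?_
    obtain ⟨ι, -, rfl⟩ := mem_orbH679.1 hy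
    exact hU₀int.map ι
  · intro ι hι
    exact apply_prod_orbH679 U₀ hι
  · refine prod_sub_one_mem_nonunitsH679 V _ _ fun y hy => ?_
    obtain ⟨ι, hι, rfl⟩ := mem_orbH679.1 hy
    have h1 := inertia_sub_memH679 hι (isIntegral_mem_valuationSubring V hU₀int)
    have : ι U₀ - 1 = (ι U₀ - U₀) + (U₀ - 1) := by ring
    rw [this]
    exact V.nonunits.add_mem h1 hU₀1
  · intro σ hσ
    obtain ⟨z, hz, hσU⟩ := hU₀bad σ hσ
    refine ⟨z * ∏ y ∈ (orbH679 I U₀).erase U₀, σ y, ?_, ?_⟩
    · refine V.mul_mem _ _ hz (Subring.prod_mem V.toSubring fun y hy => ?_)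
      obtain ⟨ι, -, rfl⟩ := mem_orbH679.1 (Finset.mem_of_mem_erase hy)
      exact isIntegral_mem_valuationSubring V ((hU₀int.map ι).map σ)
    · rw [map_prod, ← Finset.mul_prod_erase _ _ (self_mem_orbH679 I U₀), hσU]
      ring

end crt

section sep

variable [Normal ℚ E]

include hℓ hV in
/-- **Separating element**: a decomposition element which is not inertial on `E` moves the
residue of some inertia-invariant integer of `E`. -/
theorem exists_sep1H679 (δ : GalQ) (hδ : δ ∈ V.decompositionSubgroup ℚ)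
    (hδI : ¬ ∃ ι ∈ V.inertiaSubgroupIn ℚ, ∀ x ∈ E, δ x = ι x) :
    ∃ t : Qb, IsGoodEltH679 V E t ∧ δ t - t ∉ V.nonunits := by
  have hex : ∃ x : E, IsIntegral ℤ x ∧ δ (x : Qb) - (x : Qb) ∉ V.nonunits := by
    by_contra hcon
    push Not at hcon
    apply hδI
    obtain ⟨ι, hι, hιr⟩ := exists_inertia_lift E V hℓ hV (AlgEquiv.restrictNormalHom E δ)
      (fun x hx => by
        rw [restrictNormalHom_apply]
        exact hcon x hx)
    exact ⟨ι, hι, fun x hx => ((agree_iff_restrictH679 E ι δ).2 hιr x hx).symm⟩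
  obtain ⟨x, hxint, hx⟩ := hex
  have hxint' : IsIntegral ℤ (x : Qb) := hxint.map (IntermediateField.val E)
  have hxV : (x : Qb) ∈ V := isIntegral_mem_valuationSubring V hxint'
  set I := V.inertiaSubgroupIn ℚ with hI
  set Q := orbPolyH679 I (x : Qb) with hQ
  have horbE : ∀ y ∈ orbH679 I (x : Qb), y ∈ E := by
    intro y hy
    obtain ⟨ι, -, rfl⟩ := mem_orbH679.1 hy
    exact apply_mem_levelH679 E ι x.2
  have horbint : ∀ y ∈ orbH679 I (x : Qb), IsIntegral ℤ y := by
    intro y hy
    obtain ⟨ι, -, rfl⟩ := mem_orbH679.1 hy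
    exact hxint'.map ι
  have hgood : ∀ j, IsGoodEltH679 V E (Q.coeff j) := by
    intro j
    refine ⟨?_, ?_, fun ι hι => apply_coeff_orbPolyH679 (x : Qb) hι j⟩
    · exact coeff_prod_X_sub_C_memH679 E.toSubfield.toSubring _ horbE j
    · exact coeff_prod_X_sub_C_memH679 (integralClosure ℤ Qb).toSubring _ horbint j
  by_contra hcon
  push Not at hcon
  have hall : ∀ j, δ (Q.coeff j) - Q.coeff j ∈ V.nonunits := fun j =>
    hcon (Q.coeff j) (hgood j)
  -- evaluate `Q^δ - Q` at `x`
  have hdeg : (Q.map (δ : Qb →+* Qb)).natDegree = Q.natDegree :=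
    Polynomial.natDegree_map_eq_of_injective δ.injective Q
  have h1 : (Q.map (δ : Qb →+* Qb)).eval (x : Qb) - Q.eval (x : Qb)
      = ∑ i ∈ Finset.range (Q.natDegree + 1), (δ (Q.coeff i) - Q.coeff i) * (x : Qb) ^ i := by
    rw [Polynomial.eval_eq_sum_range, Polynomial.eval_eq_sum_range, hdeg, ← Finset.sum_sub_distrib]
    refine Finset.sum_congr rfl fun i _ => ?_
    rw [Polynomial.coeff_map, sub_mul]
    rfl
  have h2 : (Q.map (δ : Qb →+* Qb)).eval (x : Qb) ∈ V.nonunits := by
    have h3 : Q.eval (x : Qb) = 0 := orbPolyH679_eval_self I (x : Qb)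
    rw [h3, sub_zero] at h1
    rw [h1]
    refine V.nonunits.sum_mem fun i _ => ?_
    exact mul_mem_nonunitsH679' V (hall i) (pow_mem hxV i)
  have h4 : (Q.map (δ : Qb →+* Qb)).eval (x : Qb)
      = ∏ y ∈ orbH679 I (x : Qb), ((x : Qb) - δ y) := by
    rw [hQ, orbPolyH679, Polynomial.map_prod, Polynomial.eval_prod]
    refine Finset.prod_congr rfl fun y _ => ?_
    simp
  rw [h4] at h2
  obtain ⟨y, hy, hy'⟩ := exists_mem_nonunits_of_prodH679 V _ _ (fun y hy =>
    sub_mem hxV (isIntegral_mem_valuationSubring V ((horbint y hy).map δ))) h2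
  obtain ⟨ι, hι, rfl⟩ := mem_orbH679.1 hy
  have h5 : δ (ι (x : Qb)) - δ (x : Qb) ∈ V.nonunits := by
    rw [← map_sub]
    exact (mem_nonunits_decompH679 hδ _).2 (inertia_sub_memH679 hι hxV)
  apply hx
  have h6 : δ (x : Qb) - (x : Qb) = -(((x : Qb) - δ (ι (x : Qb))) + (δ (ι (x : Qb)) - δ (x : Qb))) := by
    ring
  rw [h6]
  exact V.nonunits.neg_mem (V.nonunits.add_mem hy' h5)

variable [FiniteDimensional ℚ E]

include hℓ hV in
/-- **Lagrange weights** for the unramified part of the descent. -/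
theorem exists_weightsH679 :
    ∃ (J : Type) (_ : Fintype J) (c : J → Qb) (a : J → V),
      (∀ j, IsGoodEltH679 V E (c j)) ∧
      (∀ δ ∈ V.decompositionSubgroup ℚ, (∃ ι ∈ V.inertiaSubgroupIn ℚ, ∀ x ∈ E, δ x = ι x) →
        ∑ j, (a j : Qb) * δ (c j) = 1) ∧
      (∀ δ ∈ V.decompositionSubgroup ℚ, (¬ ∃ ι ∈ V.inertiaSubgroupIn ℚ, ∀ x ∈ E, δ x = ι x) →
        ∑ j, (a j : Qb) * δ (c j) = 0) := by
  classical
  obtain ⟨reps, hreps⟩ := exists_repsH679 E
  set B : Finset GalQ := reps.filter fun ρ =>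
    ∃ δ ∈ V.decompositionSubgroup ℚ, (∀ x ∈ E, δ x = ρ x) ∧
      ¬ ∃ ι ∈ V.inertiaSubgroupIn ℚ, ∀ x ∈ E, δ x = ι x with hB
  have hchoose : ∀ ρ : GalQ, ∃ (δ : GalQ) (t : Qb), ρ ∈ B →
      ((∀ x ∈ E, δ x = ρ x) ∧ IsGoodEltH679 V E t ∧ δ t - t ∉ V.nonunits) := by
    intro ρ
    by_cases hρ : ρ ∈ B
    · obtain ⟨δ, hδ, hδρ, hδI⟩ := (Finset.mem_filter.1 hρ).2
      obtain ⟨t, ht, ht'⟩ := exists_sep1H679 V E hℓ hV δ hδ hδI
      exact ⟨δ, t, fun _ => ⟨hδρ, ht, ht'⟩⟩
    · exact ⟨1, 0, fun h => absurd h hρ⟩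
  choose d t hdt using hchoose
  set β : GalQ → Qb := fun ρ => d ρ (t ρ) with hβ
  have hβV : ∀ ρ ∈ B, β ρ ∈ V := fun ρ hρ => (hdt ρ hρ).2.1.apply_mem_V V E (d ρ)
  have hunit : ∀ ρ ∈ B, (t ρ - β ρ)⁻¹ ∈ V := by
    intro ρ hρ
    apply inv_mem_of_not_mem_nonunitsH679
    intro h
    apply (hdt ρ hρ).2.2
    have : d ρ (t ρ) - t ρ = -(t ρ - β ρ) := by rw [hβ]; ring
    rw [this]
    exact V.nonunits.neg_mem h
  have hne : ∀ ρ ∈ B, t ρ - β ρ ≠ 0 := by
    intro ρ hρ h
    apply (hdt ρ hρ).2.2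
    have : d ρ (t ρ) - t ρ = -(t ρ - β ρ) := by rw [hβ]; ring
    rw [this, h, neg_zero]
    exact V.nonunits.zero_mem
  set κ : Qb := ∏ ρ ∈ B, (t ρ - β ρ)⁻¹ with hκ
  have hκV : κ ∈ V := Subring.prod_mem V.toSubring hunit
  have haV : ∀ S : Finset GalQ, S ∈ B.powerset → κ * ∏ ρ ∈ B \ S, (-β ρ) ∈ V := by
    intro S _
    refine V.mul_mem _ _ hκV (Subring.prod_mem V.toSubring fun ρ hρ => ?_)
    exact V.neg_mem _ (hβV ρ (Finset.mem_sdiff.1 hρ).1)
  -- the key identity
  have hkey : ∀ δ : GalQ, ∑ S ∈ B.powerset, (κ * ∏ ρ ∈ B \ S, (-β ρ)) * δ (∏ ρ ∈ S, t ρ)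
      = κ * ∏ ρ ∈ B, (δ (t ρ) - β ρ) := by
    intro δ
    have h1 : ∏ ρ ∈ B, (δ (t ρ) - β ρ) = ∏ ρ ∈ B, (δ (t ρ) + (-β ρ)) :=
      Finset.prod_congr rfl fun ρ _ => sub_eq_add_neg _ _
    rw [h1, Finset.prod_add, Finset.mul_sum]
    refine Finset.sum_congr rfl fun S _ => ?_
    rw [map_prod]
    ring
  refine ⟨↥B.powerset, inferInstance, fun S => ∏ ρ ∈ S.1, t ρ,
    fun S => ⟨κ * ∏ ρ ∈ B \ S.1, (-β ρ), haV S.1 S.2⟩, ?_, ?_, ?_⟩
  · intro S
    refine IsGoodEltH679.prod V E _ _ fun ρ hρ => (hdt ρ ?_).2.1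
    exact Finset.mem_powerset.1 S.2 hρ
  · intro δ _ hδI
    obtain ⟨ι, hι, hδι⟩ := hδI
    have hsum := Finset.sum_coe_sort B.powerset
      (fun S => (κ * ∏ ρ ∈ B \ S, (-β ρ)) * δ (∏ ρ ∈ S, t ρ))
    rw [hkey] at hsum
    show ∑ S : ↥B.powerset, (κ * ∏ ρ ∈ B \ S.1, (-β ρ)) * δ (∏ ρ ∈ S.1, t ρ) = 1
    rw [hsum]
    have h2 : ∀ ρ ∈ B, δ (t ρ) = t ρ := by
      intro ρ hρ
      rw [hδι _ (hdt ρ hρ).2.1.1]
      exact (hdt ρ hρ).2.1.2.2 ι hι
    rw [Finset.prod_congr rfl fun ρ hρ => by rw [h2 ρ hρ], hκ, ← Finset.prod_mul_distrib]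
    exact Finset.prod_eq_one fun ρ hρ => inv_mul_cancel₀ (hne ρ hρ)
  · intro δ hδ hδI
    have hsum := Finset.sum_coe_sort B.powerset
      (fun S => (κ * ∏ ρ ∈ B \ S, (-β ρ)) * δ (∏ ρ ∈ S, t ρ))
    rw [hkey] at hsum
    show ∑ S : ↥B.powerset, (κ * ∏ ρ ∈ B \ S.1, (-β ρ)) * δ (∏ ρ ∈ S.1, t ρ) = 0
    rw [hsum]
    obtain ⟨ρ, hρ, hδρ⟩ := hreps δ
    have hρB : ρ ∈ B := by
      rw [hB, Finset.mem_filter]
      exact ⟨hρ, δ, hδ, hδρ, hδI⟩
    have h3 : δ (t ρ) - β ρ = 0 := by
      rw [hβ, sub_eq_zero, hδρ _ (hdt ρ hρB).2.1.1, ← (hdt ρ hρB).1 _ (hdt ρ hρB).2.1.1]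
    rw [Finset.prod_eq_zero hρB h3, mul_zero]

end sep

end Fermat.Agent.S19.H679

end
-- ===== PACK-END S19/H679/Level.lean

-- ===== PACK-BEGIN S19/H679/Conj.lean
section



/-!
# Cell A3 (S19), block UNR (helper679) — the conjugate family and the local algebra `Hloc`

For a `LocalCoordDatum` `L` (valuation ring `V`, coordinates `Ψ_i`, equivariant under inertia):

* `conjFamH679 L`  : the functions `δ ⋆ Ψ_i`, `δ ∈ D_V` (a finite set);
* `HlocH679 L`     : the `V`-subalgebra of `M → ℚ̄` generated by them.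

Proved here: the generators are `V`-valued and inertia-invariant, `Hloc` is stable under `D_V`,
finitely generated as a `V`-module, contains `ℓ ^ e • 1_m` for some `e` (conductor), and there
is a finite normal level `E` containing all values, over which the action on `M` is trivial.
-/

set_option autoImplicit false

namespace Fermat.Agent.S19.H679

open Fermat.Agent.S54 Fermat.Agent.S55.Bridge Fermat.Agent.S55.Bridge.H594
open Polynomial

attribute [local instance] isAlgebraic_Qbar isGalois_Qbar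

variable {ℓ : ℕ} {M : Type} [AddCommGroup M] {act : GalQ → M → M}

theorem isActH679_of_cont (hact : IsContAddAction act) : IsActH679 act :=
  ⟨hact.act_one, hact.act_mul⟩

/-- The `i`-th coordinate as a function on `M`. -/
def psiH679 (L : LocalCoordDatum ℓ M act) (i : L.ι) : M → Qb := fun m => L.Ψ m i

/-- The conjugates of the coordinates under the decomposition group. -/
def conjFamH679 (L : LocalCoordDatum ℓ M act) : Set (M → Qb) :=
  {φ | ∃ δ ∈ L.V.decompositionSubgroup ℚ, ∃ i, φ = starH679 act δ (psiH679 L i)}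

/-- The local algebra. -/
noncomputable def HlocH679 (L : LocalCoordDatum ℓ M act) : Subalgebra L.V (M → Qb) :=
  Algebra.adjoin L.V (conjFamH679 L)

/-- Functions with values in `V`. -/
noncomputable def valuedH679 (V : ValuationSubring Qb) (N : Type*) : Subalgebra V (N → Qb) where
  carrier := {f | ∀ m, f m ∈ V}
  mul_mem' := fun hf hg m => V.mul_mem _ _ (hf m) (hg m)
  add_mem' := fun hf hg m => V.add_mem _ _ (hf m) (hg m)
  algebraMap_mem' := fun r _ => r.2

theorem mem_valuedH679 {V : ValuationSubring Qb} {N : Type*} {f : N → Qb} :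
    f ∈ valuedH679 V N ↔ ∀ m, f m ∈ V := Iff.rfl

section basic

variable (hact : IsContAddAction act) (L : LocalCoordDatum ℓ M act)

include hact in
theorem psi_mem_conjFamH679 (i : L.ι) : psiH679 L i ∈ conjFamH679 L :=
  ⟨1, (L.V.decompositionSubgroup ℚ).one_mem, i, (starH679_one (isActH679_of_cont hact) _).symm⟩

include hact in
theorem psi_mem_HlocH679 (i : L.ι) : psiH679 L i ∈ HlocH679 L :=
  Algebra.subset_adjoin (psi_mem_conjFamH679 hact L i)

include hact in
/-- The coordinates are inertia-invariant. -/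
theorem star_psiH679 {ι : GalQ} (hι : ι ∈ L.V.inertiaSubgroupIn ℚ) (i : L.ι) :
    starH679 act ι (psiH679 L i) = psiH679 L i := by
  rw [starH679_eq_self_iff (isActH679_of_cont hact)]
  intro m
  exact L.equivariant ι (isInertiaAt_of_memH679 hι) m i

theorem conjFam_valuedH679 {φ : M → Qb} (hφ : φ ∈ conjFamH679 L) (m : M) : φ m ∈ L.V := by
  obtain ⟨δ, hδ, i, rfl⟩ := hφ
  exact (mem_decompH679 hδ _).2 (L.integral _ i)

include hact in
theorem conjFam_inertiaH679 {φ : M → Qb} (hφ : φ ∈ conjFamH679 L) {ι : GalQ}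
    (hι : ι ∈ L.V.inertiaSubgroupIn ℚ) : starH679 act ι φ = φ := by
  obtain ⟨δ, hδ, i, rfl⟩ := hφ
  have hA := isActH679_of_cont hact
  have h1 : δ⁻¹ * ι * δ ∈ L.V.inertiaSubgroupIn ℚ := by
    have := conj_mem_inertiaH679 ((L.V.decompositionSubgroup ℚ).inv_mem hδ) hι
    rwa [inv_inv] at this
  have h2 : ι * δ = δ * (δ⁻¹ * ι * δ) := by group
  rw [← starH679_mul hA, h2, starH679_mul hA, star_psiH679 hact L h1]

include hact in
theorem conjFam_stableH679 {φ : M → Qb} (hφ : φ ∈ conjFamH679 L) {δ : GalQ}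
    (hδ : δ ∈ L.V.decompositionSubgroup ℚ) : starH679 act δ φ ∈ conjFamH679 L := by
  obtain ⟨δ', hδ', i, rfl⟩ := hφ
  exact ⟨δ * δ', (L.V.decompositionSubgroup ℚ).mul_mem hδ hδ', i,
    (starH679_mul (isActH679_of_cont hact) _ _ _).symm⟩

theorem Hloc_le_valuedH679 : HlocH679 L ≤ valuedH679 L.V M :=
  Algebra.adjoin_le fun _ hφ => conjFam_valuedH679 L hφ

end basic

/-- Transport of membership in an adjoin along the semilinear action of a decomposition
element. -/
theorem star_mem_adjoinH679 {V : ValuationSubring Qb} {N : Type*} (act' : GalQ → N → N)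
    {δ : GalQ} (hδ : δ ∈ V.decompositionSubgroup ℚ) (S S' : Set (N → Qb))
    (hS : ∀ g ∈ S, starH679 act' δ g ∈ Algebra.adjoin V S') {h : N → Qb}
    (hh : h ∈ Algebra.adjoin V S) : starH679 act' δ h ∈ Algebra.adjoin V S' := by
  induction hh using Algebra.adjoin_induction with
  | mem x hx => exact hS x hx
  | algebraMap r =>
    have : starH679 act' δ (algebraMap V (N → Qb) r)
        = algebraMap V (N → Qb) ⟨δ (r : Qb), (mem_decompH679 hδ _).2 r.2⟩ := by
      funext m
      rfl
    rw [this]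
    exact Subalgebra.algebraMap_mem _ _
  | add x y _ _ hx hy =>
    rw [starH679_add]
    exact add_mem hx hy
  | mul x y _ _ hx hy =>
    have : starH679 act' δ (x * y) = starH679 act' δ x * starH679 act' δ y :=
      map_mul (starRingHomH679 act' δ) x y
    rw [this]
    exact mul_mem hx hy

theorem Hloc_stableH679 (hact : IsContAddAction act) (L : LocalCoordDatum ℓ M act)
    {δ : GalQ} (hδ : δ ∈ L.V.decompositionSubgroup ℚ) {h : M → Qb} (hh : h ∈ HlocH679 L) :
    starH679 act δ h ∈ HlocH679 L :=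
  star_mem_adjoinH679 act hδ _ _
    (fun _ hg => Algebra.subset_adjoin (conjFam_stableH679 hact L hg hδ)) hh

/-! ## The level -/

section level

variable [Finite M]

/-- A finite normal level containing a given finite set, over which the action is trivial. -/
theorem exists_levelH679 (hact : IsContAddAction act) (s : Finset Qb) :
    ∃ E : IntermediateField ℚ Qb, FiniteDimensional ℚ E ∧ Normal ℚ E ∧ (∀ x ∈ s, x ∈ E) ∧
      ∀ ρ : GalQ, (∀ x ∈ E, ρ x = x) → ∀ m, act ρ m = m := by
  classical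
  choose Lm hLfin hLfix using hact.cont
  haveI : ∀ m, FiniteDimensional ℚ (Lm m) := hLfin
  haveI : FiniteDimensional ℚ (IntermediateField.adjoin ℚ (s : Set Qb)) :=
    IntermediateField.finiteDimensional_adjoin fun x _ => Algebra.IsIntegral.isIntegral x
  set E₀ : IntermediateField ℚ Qb := (⨆ m, Lm m) ⊔ IntermediateField.adjoin ℚ (s : Set Qb)
    with hE₀
  haveI : FiniteDimensional ℚ E₀ := by
    rw [hE₀]
    exact IntermediateField.finiteDimensional_sup _ _
  refine ⟨IntermediateField.normalClosure ℚ E₀ Qb,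
    normalClosure.is_finiteDimensional ℚ E₀ Qb, normalClosure.normal ℚ E₀ Qb, ?_, ?_⟩
  · intro x hx
    apply IntermediateField.le_normalClosure E₀
    exact (le_sup_right : _ ≤ E₀) (IntermediateField.subset_adjoin ℚ _ hx)
  · intro ρ hρ m
    apply hLfix m ρ
    intro a ha
    apply hρ
    apply IntermediateField.le_normalClosure E₀
    exact (le_sup_left : _ ≤ E₀) ((le_iSup Lm m) ha)

end level

/-- `E` is a level for the action: automorphisms fixing `E` act trivially on `M`. -/
def IsLevelH679 (act : GalQ → M → M) (E : IntermediateField ℚ Qb) : Prop :=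
  ∀ ρ : GalQ, (∀ x ∈ E, ρ x = x) → ∀ m, act ρ m = m

section ratfun

variable (hact : IsContAddAction act) {E : IntermediateField ℚ Qb} (hE : IsLevelH679 act E)

include hact hE in
/-- Automorphisms agreeing on `E` act in the same way on `M`. -/
theorem act_eq_of_agreeH679 {σ ρ : GalQ} (h : ∀ x ∈ E, σ x = ρ x) (m : M) :
    act σ m = act ρ m := by
  have h1 : ∀ x ∈ E, (ρ⁻¹ * σ) x = x := by
    intro x hx
    show ρ⁻¹ (σ x) = x
    rw [h x hx]
    exact galH679_inv_apply ρ x
  have h2 := hE _ h1 m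
  have h3 : act σ m = act ρ (act (ρ⁻¹ * σ) m) := by
    rw [← hact.act_mul, mul_inv_cancel_left]
  rw [h3, h2]

include hact hE in
/-- Automorphisms agreeing on `E` act in the same way on `E`-valued functions. -/
theorem star_eq_of_agreeH679 [Normal ℚ E] {σ ρ : GalQ} (h : ∀ x ∈ E, σ x = ρ x) {f : M → Qb}
    (hf : ∀ m, f m ∈ E) : starH679 act σ f = starH679 act ρ f := by
  funext m
  have h1 : ∀ x ∈ E, σ⁻¹ x = ρ⁻¹ x := by
    intro x hx
    have hx' : ρ⁻¹ x ∈ E := apply_mem_levelH679 E ρ⁻¹ hx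
    have h2 := h _ hx'
    rw [galH679_apply_inv] at h2
    calc σ⁻¹ x = σ⁻¹ (σ (ρ⁻¹ x)) := by rw [h2]
      _ = ρ⁻¹ x := galH679_inv_apply σ _
  rw [starH679_apply, starH679_apply, act_eq_of_agreeH679 hact hE h1 m]
  exact h _ (hf _)

end ratfun

theorem smul_applyH679 {V : ValuationSubring Qb} {N : Type*} (r : V) (f : N → Qb) (n : N) :
    (r • f) n = (r : Qb) * f n := rfl

/-! ## Integrality and finite generation -/

/-- A `V`-valued function on a finite set is integral over `V`. -/
theorem isIntegral_of_valuedH679 {N : Type*} [Finite N] (V : ValuationSubring Qb) (f : N → Qb)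
    (hf : ∀ n, f n ∈ V) : IsIntegral V f := by
  classical
  haveI := Fintype.ofFinite N
  refine ⟨∏ n : N, (X - C (⟨f n, hf n⟩ : V)), monic_prod_of_monic _ _ fun n _ => monic_X_sub_C _,
    ?_⟩
  funext n
  have h1 := Polynomial.hom_eval₂ (∏ n : N, (X - C (⟨f n, hf n⟩ : V)))
    (algebraMap V (N → Qb)) (Pi.evalRingHom (fun _ : N => Qb) n) f
  show Pi.evalRingHom (fun _ : N => Qb) n (eval₂ (algebraMap V (N → Qb)) f _) = 0
  rw [h1, Polynomial.eval₂_finsetProd]
  refine Finset.prod_eq_zero (Finset.mem_univ n) ?_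
  rw [eval₂_sub, eval₂_X, eval₂_C]
  show f n - f n = 0
  exact sub_self _

/-- Data of a finite normal level for a local coordinate datum. -/
structure LevelDataH679 (L : LocalCoordDatum ℓ M act) where
  E : IntermediateField ℚ Qb
  fin : FiniteDimensional ℚ E
  normal : Normal ℚ E
  level : IsLevelH679 act E
  psi_mem : ∀ m i, L.Ψ m i ∈ E

theorem exists_levelDataH679 [Finite M] (hact : IsContAddAction act)
    (L : LocalCoordDatum ℓ M act) : Nonempty (LevelDataH679 L) := by
  classical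
  haveI := L.fin
  haveI := Fintype.ofFinite M
  haveI := Fintype.ofFinite L.ι
  obtain ⟨E, h1, h2, h3, h4⟩ := exists_levelH679 hact
    (Finset.univ.image fun p : M × L.ι => L.Ψ p.1 p.2)
  exact ⟨⟨E, h1, h2, h4, fun m i => h3 _ (Finset.mem_image_of_mem _ (Finset.mem_univ (m, i)))⟩⟩

section withLevel

variable (hact : IsContAddAction act) (L : LocalCoordDatum ℓ M act) (Λ : LevelDataH679 L)

theorem conjFam_mem_levelH679 {φ : M → Qb} (hφ : φ ∈ conjFamH679 L) (m : M) : φ m ∈ Λ.E := by
  haveI := Λ.normal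
  obtain ⟨δ, -, i, rfl⟩ := hφ
  exact apply_mem_levelH679 Λ.E δ (Λ.psi_mem _ i)

include hact Λ in
theorem conjFam_finiteH679 : (conjFamH679 L).Finite := by
  classical
  haveI := Λ.normal
  haveI := Λ.fin
  haveI := L.fin
  haveI := Fintype.ofFinite L.ι
  obtain ⟨reps, hreps⟩ := exists_repsH679 Λ.E
  refine Set.Finite.subset
    ((reps ×ˢ (Finset.univ : Finset L.ι)).image
      fun p : GalQ × L.ι => starH679 act p.1 (psiH679 L p.2)).finite_toSet ?_
  rintro φ ⟨δ, -, i, rfl⟩
  obtain ⟨ρ, hρ, hδρ⟩ := hreps δ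
  rw [Finset.mem_coe, Finset.mem_image]
  refine ⟨(ρ, i), Finset.mem_product.2 ⟨hρ, Finset.mem_univ i⟩, ?_⟩
  exact (star_eq_of_agreeH679 hact Λ.level hδρ fun m => Λ.psi_mem m i).symm

include hact Λ in
/-- `Hloc` is a finitely generated `V`-module. -/
theorem Hloc_fgH679 [Finite M] : (Subalgebra.toSubmodule (HlocH679 L)).FG :=
  fg_adjoin_of_finite (conjFam_finiteH679 hact L Λ) fun φ hφ =>
    isIntegral_of_valuedH679 L.V φ (conjFam_valuedH679 L hφ)

/-- The functions used as module generators of `Hloc`: `E`-valued, inertia-invariant elements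
of `Hloc`. -/
def IsGoodFunH679 (f : M → Qb) : Prop :=
  (∀ m, f m ∈ Λ.E) ∧ (∀ ι ∈ L.V.inertiaSubgroupIn ℚ, starH679 act ι f = f) ∧ f ∈ HlocH679 L

include hact in
theorem isGoodFun_of_mem_closureH679 {f : M → Qb}
    (hf : f ∈ Submonoid.closure (conjFamH679 L)) : IsGoodFunH679 L Λ f := by
  induction hf using Submonoid.closure_induction with
  | mem x hx =>
    exact ⟨conjFam_mem_levelH679 L Λ hx, fun ι hι => conjFam_inertiaH679 hact L hx hι,
      Algebra.subset_adjoin hx⟩
  | one =>
    refine ⟨fun m => Λ.E.one_mem, fun ι _ => ?_, one_mem _⟩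
    exact map_one (starRingHomH679 (Ω := Qb) act ι)
  | mul x y _ _ hx hy =>
    refine ⟨fun m => Λ.E.mul_mem (hx.1 m) (hy.1 m), fun ι hι => ?_, mul_mem hx.2.2 hy.2.2⟩
    have : starH679 act ι (x * y) = starH679 act ι x * starH679 act ι y :=
      map_mul (starRingHomH679 act ι) x y
    rw [this, hx.2.1 ι hι, hy.2.1 ι hι]

include hact in
/-- `Hloc` is spanned by good functions. -/
theorem Hloc_le_span_goodH679 :
    Subalgebra.toSubmodule (HlocH679 L) ≤ Submodule.span L.V {f | IsGoodFunH679 L Λ f} := by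
  rw [HlocH679, Algebra.adjoin_eq_span]
  exact Submodule.span_mono fun f hf => isGoodFun_of_mem_closureH679 hact L Λ hf

end withLevel

/-! ## The conductor -/

section conductor

variable [Finite M] (hℓ : ℓ.Prime) (hact : IsContAddAction act) (L : LocalCoordDatum ℓ M act)

include hℓ hact in
/-- Multiples of the indicator functions lie in `Hloc`. -/
theorem exists_single_memH679 (m : M) :
    ∃ (e : ℕ) (P : M → Qb), P ∈ HlocH679 L ∧ P m = (ℓ : Qb) ^ e ∧ ∀ m', m' ≠ m → P m' = 0 := by
  classical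
  haveI := Fintype.ofFinite M
  have hsep : ∀ m' : M, ∃ g : M → Qb, g ∈ HlocH679 L ∧ (m' ≠ m → g m' = 0) ∧ g m ≠ 0 := by
    intro m'
    by_cases h : m' = m
    · exact ⟨1, one_mem _, fun h' => absurd h h', one_ne_zero⟩
    · have hex : ∃ i : L.ι, L.Ψ m i ≠ L.Ψ m' i := by
        by_contra hcon
        push Not at hcon
        apply h
        apply L.inj
        funext i
        exact (hcon i).symm
      obtain ⟨i, hi⟩ := hex
      refine ⟨psiH679 L i - algebraMap L.V (M → Qb) ⟨L.Ψ m' i, L.integral m' i⟩,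
        sub_mem (psi_mem_HlocH679 hact L i) (Subalgebra.algebraMap_mem _ _), fun _ => ?_, ?_⟩
      · show L.Ψ m' i - L.Ψ m' i = 0
        exact sub_self _
      · show L.Ψ m i - L.Ψ m' i ≠ 0
        exact sub_ne_zero.2 hi
  choose g hg1 hg2 hg3 using hsep
  set P : M → Qb := ∏ m', g m' with hP
  have hPmem : P ∈ HlocH679 L := prod_mem fun m' _ => hg1 m'
  have hPval : ∀ n, P n = ∏ m', g m' n := fun n => by
    rw [hP, Finset.prod_apply]
  have hP0 : ∀ m', m' ≠ m → P m' = 0 := by
    intro m' hm'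
    rw [hPval]
    exact Finset.prod_eq_zero (Finset.mem_univ m') (hg2 m' hm')
  have hPm : P m ≠ 0 := by
    rw [hPval]
    exact Finset.prod_ne_zero_iff.2 fun m' _ => hg3 m'
  obtain ⟨e, he⟩ := exists_pow_div_memH679 L.V hℓ L.ell_mem (P m)
  refine ⟨e, (⟨(ℓ : Qb) ^ e * (P m)⁻¹, he⟩ : L.V) • P, Subalgebra.smul_mem _ hPmem _, ?_, ?_⟩
  · rw [smul_applyH679]
    show (ℓ : Qb) ^ e * (P m)⁻¹ * P m = (ℓ : Qb) ^ e
    rw [mul_assoc, inv_mul_cancel₀ hPm, mul_one]
  · intro m' hm'
    rw [smul_applyH679, hP0 m' hm', mul_zero]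

include hℓ hact in
/-- **Conductor**: functions with values in `ℓ ^ (e+1) V` lie in `𝔪_V • Hloc`. -/
theorem exists_conductorH679 :
    ∃ e : ℕ, ∀ F : M → Qb, (∀ m, ∃ z ∈ L.V, F m = (ℓ : Qb) ^ (e + 1) * z) →
      F ∈ IsLocalRing.maximalIdeal L.V • Subalgebra.toSubmodule (HlocH679 L) := by
  classical
  haveI := Fintype.ofFinite M
  choose em P hP1 hP2 hP3 using exists_single_memH679 hℓ hact L
  refine ⟨∑ m, em m, fun F hF => ?_⟩
  choose z hz hFz using hF
  have hle : ∀ m, em m ≤ ∑ m, em m := fun m =>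
    Finset.single_le_sum (fun _ _ => Nat.zero_le _) (Finset.mem_univ m)
  have hℓV : (ℓ : Qb) ∈ L.V := mem_of_mem_nonunitsH679 L.V L.ell_mem
  set lV : L.V := ⟨(ℓ : Qb), hℓV⟩ with hlV
  have hlm : lV ∈ IsLocalRing.maximalIdeal L.V :=
    (ValuationSubring.coe_mem_nonunits_iff).1 L.ell_mem
  have hcoef : ∀ m, (ℓ : Qb) ^ ((∑ m, em m) - em m) * z m ∈ L.V := fun m =>
    L.V.mul_mem _ _ (pow_mem hℓV _) (hz m)
  have hF' : F = ∑ m, lV • ((⟨_, hcoef m⟩ : L.V) • P m) := by
    funext n
    rw [Finset.sum_apply, Finset.sum_eq_single n]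
    · rw [smul_applyH679, smul_applyH679, hP2, hFz n]
      show _ = (ℓ : Qb) * ((ℓ : Qb) ^ ((∑ m, em m) - em n) * z n * (ℓ : Qb) ^ em n)
      have : (∑ m, em m) + 1 = 1 + ((∑ m, em m) - em n) + em n := by
        have := hle n
        omega
      rw [this, pow_add, pow_add, pow_one]
      ring
    · intro m _ hmn
      rw [smul_applyH679, smul_applyH679, hP3 m n (Ne.symm hmn), mul_zero, mul_zero]
    · intro h
      exact absurd (Finset.mem_univ n) h
  rw [hF']
  refine Submodule.sum_mem _ fun m _ => ?_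
  exact Submodule.smul_mem_smul hlm (Submodule.smul_mem _ _ (hP1 m))

end conductor

end Fermat.Agent.S19.H679

end
-- ===== PACK-END S19/H679/Conj.lean

-- ===== PACK-BEGIN S19/H679/Basis.lean
section


/-!
# Cell A3 (S19), block UNR (helper679) — minimal spanning sets over a valuation ring

* `exists_minimal_spanningH679` : a finitely generated module spanned by a set `S` is spanned
  by a finite subset of `S` none of whose elements is in the span of the others;
* `indep_of_minimalH679`        : over a valuation ring `V` of `ℚ̄` such a set is linearly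
  independent over `ℚ̄`;
* `tensor_indepH679`            : products `f(x) g(y)` of an independent family of functions are
  independent;
* `mem_ratLocalizedAtH679`      : `ℚ ∩ V = ℤ_(ℓ)`;
* `isIntegral_of_conj_memH679`  : an element all of whose conjugates lie in `V` is integral
  over `ℤ_(ℓ)`.
-/

set_option autoImplicit false

namespace Fermat.Agent.S19.H679

open Fermat.Agent.S54 Fermat.Agent.S55.Bridge
open Polynomial

attribute [local instance] isAlgebraic_Qbar isGalois_Qbar

/-- A finite generating subset of `S` with no redundant element. -/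
theorem exists_minimal_spanningH679 {A W : Type*} [CommRing A] [AddCommGroup W] [Module A W]
    (S : Set W) (N : Submodule A W) (hN : N.FG) (hS : Submodule.span A S = N) :
    ∃ F : Finset W, (F : Set W) ⊆ S ∧ Submodule.span A (F : Set W) = N ∧
      ∀ f ∈ F, f ∉ Submodule.span A ((F : Set W) \ {f}) := by
  classical
  have hex : ∃ n : ℕ, ∃ F : Finset W, (F : Set W) ⊆ S ∧ Submodule.span A (F : Set W) = N ∧
      F.card = n := by
    rw [← hS] at hN
    obtain ⟨F, hF1, hF2⟩ := (Submodule.fg_span_iff_fg_span_finset_subset S).1 hN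
    exact ⟨F.card, F, hF1, by rw [← hF2, hS], rfl⟩
  obtain ⟨F, hF1, hF2, hF3⟩ := Nat.find_spec hex
  refine ⟨F, hF1, hF2, fun f hf hmem => ?_⟩
  rw [← Finset.coe_erase] at hmem
  have hlt : (F.erase f).card < Nat.find hex := by
    rw [← hF3]
    exact Finset.card_erase_lt_of_mem hf
  apply Nat.find_min hex hlt
  refine ⟨F.erase f, ?_, ?_, rfl⟩
  · exact fun x hx => hF1 (Finset.mem_of_mem_erase (Finset.mem_coe.1 hx))
  · rw [← hF2]
    apply le_antisymm
    · exact Submodule.span_mono fun x hx => Finset.mem_of_mem_erase (Finset.mem_coe.1 hx)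
    · rw [Submodule.span_le]
      intro x hx
      by_cases hxf : x = f
      · rw [hxf]; exact hmem
      · exact Submodule.subset_span (Finset.mem_coe.2 (Finset.mem_erase.2 ⟨hxf, hx⟩))

/-- Over a valuation ring, a spanning set without redundant elements is independent over the
fraction field. -/
theorem indep_of_minimalH679 (V : ValuationSubring Qb) {N : Type*} (F : Finset (N → Qb))
    (hmin : ∀ f ∈ F, f ∉ Submodule.span V ((F : Set (N → Qb)) \ {f}))
    (g : (N → Qb) → Qb) (hg : ∑ f ∈ F, g f • f = 0) : ∀ f ∈ F, g f = 0 := by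
  classical
  by_contra hcon
  push Not at hcon
  obtain ⟨f₀, hf₀, hgf₀⟩ := hcon
  obtain ⟨f₁, hf₁, hmax⟩ := Finset.exists_max_image F (fun f => V.valuation (g f)) ⟨f₀, hf₀⟩
  have hg1 : g f₁ ≠ 0 := by
    intro h
    have h1 := hmax f₀ hf₀
    rw [h, map_zero] at h1
    exact hgf₀ ((Valuation.zero_iff _).1 (le_antisymm h1 zero_le))
  have hcoef : ∀ f ∈ F, g f * (g f₁)⁻¹ ∈ V := by
    intro f hf
    rw [← V.valuation_le_one_iff, map_mul, map_inv₀, ← div_eq_mul_inv]
    have hpos : 0 < V.valuation (g f₁) := zero_lt_iff.2 ((Valuation.ne_zero_iff _).2 hg1)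
    rw [div_le_one₀ hpos]
    exact hmax f hf
  apply hmin f₁ hf₁
  rw [← Finset.coe_erase]
  have hrel : f₁ = ∑ f ∈ F.erase f₁, (-(g f * (g f₁)⁻¹)) • f := by
    rw [← Finset.add_sum_erase F _ hf₁] at hg
    have h1 : g f₁ • f₁ = -∑ f ∈ F.erase f₁, g f • f := eq_neg_of_add_eq_zero_left hg
    calc f₁ = (g f₁)⁻¹ • (g f₁ • f₁) := by rw [smul_smul, inv_mul_cancel₀ hg1, one_smul]
      _ = (g f₁)⁻¹ • (-∑ f ∈ F.erase f₁, g f • f) := by rw [h1]
      _ = ∑ f ∈ F.erase f₁, (-(g f * (g f₁)⁻¹)) • f := by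
        rw [smul_neg, Finset.smul_sum, ← Finset.sum_neg_distrib]
        refine Finset.sum_congr rfl fun f _ => ?_
        rw [smul_smul, neg_smul, mul_comm]
  have hgoal : ∑ f ∈ F.erase f₁, (-(g f * (g f₁)⁻¹)) • f
      ∈ Submodule.span V ((F.erase f₁ : Finset (N → Qb)) : Set (N → Qb)) := by
    refine Submodule.sum_mem _ fun f hf => ?_
    have hfF : f ∈ F := Finset.mem_of_mem_erase hf
    have h3 : (-(g f * (g f₁)⁻¹)) • f
        = (⟨-(g f * (g f₁)⁻¹), V.neg_mem _ (hcoef f hfF)⟩ : V) • f := rfl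
    rw [h3]
    exact Submodule.smul_mem _ _ (Submodule.subset_span (Finset.mem_coe.2 hf))
  have key : ∀ S : Submodule V (N → Qb),
      ∑ f ∈ F.erase f₁, (-(g f * (g f₁)⁻¹)) • f ∈ S → f₁ ∈ S := by
    intro S h
    rw [hrel]
    exact h
  exact key _ hgoal

/-- Independence of the products `f(x) g(y)`. -/
theorem tensor_indepH679 {N : Type*} (F : Finset (N → Qb))
    (hind : ∀ g : (N → Qb) → Qb, ∑ f ∈ F, g f • f = 0 → ∀ f ∈ F, g f = 0)
    (c : (N → Qb) → (N → Qb) → Qb)
    (hc : ∀ x y : N, ∑ f ∈ F, ∑ g ∈ F, c f g * (f x * g y) = 0) :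
    ∀ f ∈ F, ∀ g ∈ F, c f g = 0 := by
  classical
  -- first in the variable `x`
  have h1 : ∀ y : N, ∀ f ∈ F, ∑ g ∈ F, c f g * g y = 0 := by
    intro y
    apply hind (fun f => ∑ g ∈ F, c f g * g y)
    funext x
    rw [Finset.sum_apply, Pi.zero_apply, ← hc x y]
    refine Finset.sum_congr rfl fun f _ => ?_
    rw [Pi.smul_apply, smul_eq_mul, Finset.sum_mul]
    refine Finset.sum_congr rfl fun g _ => ?_
    ring
  intro f hf
  apply hind (fun g => c f g)
  funext y
  rw [Finset.sum_apply, Pi.zero_apply, ← h1 y f hf]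
  refine Finset.sum_congr rfl fun g _ => ?_
  rw [Pi.smul_apply, smul_eq_mul]

variable (V : ValuationSubring Qb) {ℓ : ℕ} (hℓ : ℓ.Prime) (hV : (ℓ : Qb) ∈ V.nonunits)

include hℓ hV in
/-- `ℚ ∩ V = ℤ_(ℓ)`. -/
theorem mem_ratLocalizedAtH679 (q : ℚ) (hq : (algebraMap ℚ Qb q) ∈ V) : q ∈ Rl ℓ := by
  show q.den.Coprime ℓ
  rw [Nat.coprime_comm, hℓ.coprime_iff_not_dvd]
  intro hdvd
  obtain ⟨k, hk⟩ := hdvd
  -- `num = q * den ∈ 𝔪`
  have h1 : ((q.num : ℤ) : Qb) = algebraMap ℚ Qb q * ((q.den : ℕ) : Qb) := by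
    have h2 : (q.num : ℚ) = q * (q.den : ℚ) := (Rat.mul_den_eq_num q).symm
    have h3 := congrArg (algebraMap ℚ Qb) h2
    rw [map_mul, map_intCast, map_natCast] at h3
    exact h3
  have h4 : ((q.den : ℕ) : Qb) ∈ V.nonunits := by
    rw [hk]
    push_cast
    exact mul_mem_nonunitsH679' V hV (natCast_mem V k)
  have h5 : ((q.num : ℤ) : Qb) ∈ V.nonunits := by
    rw [h1]
    exact mul_mem_nonunitsH679 V hq h4
  have h6 := dvd_of_intCast_mem_nonunits V ℓ hℓ hV _ h5
  have h7 : (ℓ : ℤ) ∣ (q.den : ℤ) := ⟨k, by exact_mod_cast hk⟩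
  have h8 : IsCoprime q.num (q.den : ℤ) := by
    rw [Int.isCoprime_iff_gcd_eq_one]
    have := q.reduced
    rw [Nat.Coprime] at this
    rw [Int.gcd]
    simpa using this
  have h9 : IsUnit (ℓ : ℤ) := h8.isUnit_of_dvd' h6 h7
  rw [Int.isUnit_iff] at h9
  have := hℓ.one_lt
  omega

/-- Elements of `ℚ̄` fixed by the whole Galois group are rational. -/
theorem mem_range_of_fixedH679 (x : Qb) (hx : ∀ σ : GalQ, σ x = x) :
    ∃ q : ℚ, algebraMap ℚ Qb q = x := by
  have hfix : x ∈ IntermediateField.fixedField (⊤ : Subgroup GalQ) := by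
    rintro ⟨g, -⟩
    exact hx g
  rw [InfiniteGalois.fixedField_bot, IntermediateField.mem_bot] at hfix
  exact hfix

include hℓ hV in
/-- An element all of whose conjugates lie in `V` is integral over `ℤ_(ℓ)`. -/
theorem isIntegral_of_conj_memH679 (x : Qb) (hx : ∀ σ : GalQ, σ x ∈ V) :
    IsIntegral (Rl ℓ) x := by
  set Q := orbPolyH679 (⊤ : Subgroup GalQ) x with hQ
  have hmonic : Q.Monic := monic_prod_of_monic _ _ fun y _ => monic_X_sub_C y
  have hcoefV : ∀ j, Q.coeff j ∈ V := fun j =>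
    coeff_prod_X_sub_C_memH679 V.toSubring _ (fun y hy => by
      obtain ⟨σ, -, rfl⟩ := mem_orbH679.1 hy
      exact hx σ) j
  have hcoefQ : ∀ j, ∃ r : Rl ℓ, algebraMap (Rl ℓ) Qb r = Q.coeff j := by
    intro j
    obtain ⟨q, hq⟩ := mem_range_of_fixedH679 (Q.coeff j) fun σ =>
      apply_coeff_orbPolyH679 x (Subgroup.mem_top σ) j
    exact ⟨⟨q, mem_ratLocalizedAtH679 V hℓ hV q (hq ▸ hcoefV j)⟩, hq⟩
  have hlift : Q ∈ Polynomial.lifts (algebraMap (Rl ℓ) Qb) := by
    rw [Polynomial.lifts_iff_coeff_lifts]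
    intro j
    obtain ⟨r, hr⟩ := hcoefQ j
    exact ⟨r, hr⟩
  obtain ⟨P, hP, -, hPm⟩ := Polynomial.lifts_and_degree_eq_and_monic hlift hmonic
  refine ⟨P, hPm, ?_⟩
  rw [← Polynomial.eval_map, hP]
  exact orbPolyH679_eval_self _ x

end Fermat.Agent.S19.H679

end
-- ===== PACK-END S19/H679/Basis.lean

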