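import Mathlib
import Fermat.Prelude.Def_EllipticCurve_ZeroComponentAt
import Fermat.Prelude.Def_FLTPrelim_Ramification
import Fermat.Prelude.Def_AlgebraicCurve_BaseChangeGalois
import Mathlib.RingTheory.PowerSeries.Expand
import Fermat.Prelude.Def_ModularCurve_X0ModL
import Fermat.Prelude.Thm_ModularCurve_coeffMap_qExpand
import Fermat.Prelude.Def_ModularCurve_ArithmeticGalois
import Fermat.Prelude.Def_AlgebraicCurve_DivisorClassGroup
import Fermat.Prelude.Def_ModularCurve_ReductionModL
import Fermat.Prelude.Def_AlgebraicCurve_Correspondence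
import Fermat.Agent.Pack.S15.AE2L3
import Fermat.Agent.Pack.S15.AE1L1
import Fermat.Agent.Pack.S15.AE1L2
import Fermat.Agent.Pack.S15.AE0L2
import Fermat.Agent.Pack.S15.AE2L1
import Fermat.Agent.Pack.S15.AE2L2
import Fermat.Agent.Pack.S15.AE0L1
import Fermat.Agent.Pack.S15.AE1L3
import Fermat.Agent.Pack.S15.AE2L0
import Fermat.Agent.Pack.S15.AE1L0
import Fermat.Agent.Pack.S15.AE0L0

-- ===== PACK-BEGIN S15/H242/E0Red.lean
section



/-!
# S15, piece P-LOC (helper242), part 3: the reduction homomorphism on `E⁰`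

`A : ValuationSubring K`, `φ : A →+* κ` with kernel the maximal ideal, `W` a Weierstrass curve over
`K` with coefficients in `A`, reducing to `Wκ` (NO hypothesis on `Wκ.Δ`: bad reduction allowed).

* `InE0 A φ Wκ P` : `P` is `0`, or non-integral (in the kernel of reduction `E₁`), or integral with
  NONSINGULAR reduction;
* `red0 A φ Wκ : W.Point → Wκ.Point` : the reduction map (zero outside `E⁰`);
* `inE0_add`, `inE0_neg`, `inE0_nsmul` : `E⁰` is a subgroup;
* `red0_add`, `red0_neg`, `red0_nsmul` : `red0` is additive on `E⁰`;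
* `red0_eq_zero_iff` : the kernel of `red0` on `E⁰` is `E₁`;
* `addOrderOf_red0` : a point of `E⁰` of prime order `p`, `p` a unit of `A`, reduces to a point
  of order `p`.

This generalises `Fermat.Agent.Lib.Red.H290` (good reduction) to the nonsingular locus of a
possibly singular reduction.
-/

set_option autoImplicit false

namespace Fermat.Agent.S15.H242

open WeierstrassCurve WeierstrassCurve.Affine
open Fermat.Agent.S05.SameRed (IntegralCoeffs InKer inKer_zero inKer_some
  inKer_sub_of_same_reduction)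
open Fermat.Agent.Lib.Red.H290

variable {K : Type*} [Field K] [DecidableEq K] {κ : Type*} [Field κ] [DecidableEq κ]
variable {A : ValuationSubring K} {φ : A →+* κ} {W : Affine K} {Wκ : Affine κ}

/-- `P` lies in `E⁰`: either `P` is not integral (or `P = 0`), or its reduction is a nonsingular
point of the reduced cubic. -/
def InE0 (A : ValuationSubring K) (φ : A →+* κ) (Wκ : Affine κ) : W.Point → Prop
  | .zero => True
  | .some x y _ => x ∈ A → Wκ.Nonsingular (rd A φ x) (rd A φ y)

/-- The reduction map, defined to be `0` outside `E⁰`. -/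
noncomputable def red0 (A : ValuationSubring K) (φ : A →+* κ) (Wκ : Affine κ) :
    W.Point → Wκ.Point
  | .zero => 0
  | .some x y _ =>
    open Classical in
    if hx : x ∈ A ∧ Wκ.Nonsingular (rd A φ x) (rd A φ y) then Point.some _ _ hx.2 else 0

section basic

omit [DecidableEq K] [DecidableEq κ] in
@[simp] lemma inE0_zero : InE0 A φ Wκ (0 : W.Point) := trivial

omit [DecidableEq K] [DecidableEq κ] in
lemma inE0_some_iff {x y : K} (h : W.Nonsingular x y) :
    InE0 A φ Wκ (Point.some x y h) ↔ (x ∈ A → Wκ.Nonsingular (rd A φ x) (rd A φ y)) := Iff.rfl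

omit [DecidableEq K] [DecidableEq κ] in
@[simp] lemma red0_zero : red0 A φ Wκ (0 : W.Point) = 0 := rfl

omit [DecidableEq K] [DecidableEq κ] in
lemma red0_some_of_mem {x y : K} (h : W.Nonsingular x y) (hx : x ∈ A)
    (hns : Wκ.Nonsingular (rd A φ x) (rd A φ y)) :
    red0 A φ Wκ (Point.some x y h) = Point.some (rd A φ x) (rd A φ y) hns := by
  simp only [red0, hx, hns, and_self, dite_true]

omit [DecidableEq K] [DecidableEq κ] in
lemma red0_some_of_not_mem {x y : K} (h : W.Nonsingular x y) (hx : x ∉ A) :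
    red0 A φ Wκ (Point.some x y h) = 0 := by
  simp only [red0, hx, false_and, dite_false]

omit [DecidableEq K] [DecidableEq κ] in
lemma inE0_of_inKer {P : W.Point} (hP : InKer W A.valuation P) : InE0 A φ Wκ P := by
  rcases P with _ | ⟨x, y, hxy⟩
  · trivial
  · intro hx
    exact absurd hx (not_mem_iff_one_lt.mpr hP)

omit [DecidableEq K] [DecidableEq κ] in
lemma red0_of_inKer {P : W.Point} (hP : InKer W A.valuation P) : red0 A φ Wκ P = 0 := by
  rcases P with _ | ⟨x, y, hxy⟩
  · rfl
  · exact red0_some_of_not_mem hxy (not_mem_iff_one_lt.mpr hP)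

omit [DecidableEq K] [DecidableEq κ] in
/-- On `E⁰`, the kernel of reduction is `E₁`. -/
theorem red0_eq_zero_iff {P : W.Point} (hP : InE0 A φ Wκ P) :
    red0 A φ Wκ P = 0 ↔ InKer W A.valuation P := by
  refine ⟨fun h0 => ?_, red0_of_inKer⟩
  rcases P with _ | ⟨x, y, hxy⟩
  · trivial
  · by_contra hk
    have hx : x ∈ A := by
      by_contra hx
      exact hk (not_mem_iff_one_lt.mp hx)
    rw [red0_some_of_mem hxy hx (hP hx)] at h0
    exact Point.some_ne_zero _ h0

end basic

section neg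

variable (h : IsRedOf A φ W Wκ)
include h

omit [DecidableEq κ] in
theorem inE0_neg {P : W.Point} (hP : InE0 A φ Wκ P) : InE0 A φ Wκ (-P) := by
  rcases P with _ | ⟨x, y, hxy⟩
  · trivial
  · rw [Point.neg_some]
    intro hx
    have hy := y_mem_of_x_mem h hxy.1 hx
    rw [rd_negY h hx hy]
    exact (Affine.nonsingular_neg ..).mpr (hP hx)

theorem red0_neg {P : W.Point} (hP : InE0 A φ Wκ P) :
    red0 A φ Wκ (-P) = -red0 A φ Wκ P := by
  rcases P with _ | ⟨x, y, hxy⟩
  · rfl
  · have hneg := inE0_neg h hP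
    rw [Point.neg_some] at hneg ⊢
    by_cases hx : x ∈ A
    · rw [red0_some_of_mem _ hx (hneg hx), red0_some_of_mem hxy hx (hP hx), Point.neg_some]
      have hy := y_mem_of_x_mem h hxy.1 hx
      congr 1
      exact rd_negY h hx hy
    · rw [red0_some_of_not_mem _ hx, red0_some_of_not_mem hxy hx, neg_zero]

end neg

section add

variable (h : IsRedOf A φ W Wκ) (hφ : KerMax A φ)
include h hφ

/-- Closure and additivity for two integral points with nonsingular reduction. -/
theorem add_of_mem {x₁ y₁ x₂ y₂ : K} (h₁ : W.Nonsingular x₁ y₁) (h₂ : W.Nonsingular x₂ y₂)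
    (hx₁ : x₁ ∈ A) (hx₂ : x₂ ∈ A)
    (hn₁ : Wκ.Nonsingular (rd A φ x₁) (rd A φ y₁))
    (hn₂ : Wκ.Nonsingular (rd A φ x₂) (rd A φ y₂)) :
    InE0 A φ Wκ (Point.some x₁ y₁ h₁ + Point.some x₂ y₂ h₂) ∧
      red0 A φ Wκ (Point.some x₁ y₁ h₁ + Point.some x₂ y₂ h₂) =
        Point.some _ _ hn₁ + Point.some _ _ hn₂ := by
  have hy₁ : y₁ ∈ A := y_mem_of_x_mem h h₁.1 hx₁
  have hy₂ : y₂ ∈ A := y_mem_of_x_mem h h₂.1 hx₂
  by_cases hb : rd A φ x₁ = rd A φ x₂ ∧ rd A φ y₁ = Wκ.negY (rd A φ x₂) (rd A φ y₂)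
  · -- the reductions are opposite: the sum lies in `E₁`
    have hker : InKer W A.valuation (Point.some x₁ y₁ h₁ + Point.some x₂ y₂ h₂) := by
      have h₂' : W.Nonsingular x₂ (W.negY x₂ y₂) := (Affine.nonsingular_neg ..).mpr h₂
      have hn₂' : W.negY x₂ y₂ ∈ A := negY_mem h hx₂ hy₂
      have hx : A.valuation (x₁ - x₂) < 1 := (rd_eq_iff hφ hx₁ hx₂).mp hb.1
      have hy : A.valuation (y₁ - W.negY x₂ y₂) < 1 := by
        rw [← rd_eq_iff hφ hy₁ hn₂', rd_negY h hx₂ hy₂]; exact hb.2
      have hns : A.valuation (W.a₁ * y₁ - (3 * x₁ ^ 2 + 2 * W.a₂ * x₁ + W.a₄)) = 1 ∨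
          A.valuation (2 * y₁ + W.a₁ * x₁ + W.a₃) = 1 := by
        have hN := hn₁
        rw [Affine.nonsingular_iff] at hN
        rcases hN.2 with hN | hN
        · left
          obtain ⟨hgA, hgrd⟩ := rd_slopeNum h hx₁ hy₁
          have e : W.a₁ * y₁ - (3 * x₁ ^ 2 + 2 * W.a₂ * x₁ + W.a₄) =
              -(3 * x₁ ^ 2 + 2 * W.a₂ * x₁ + W.a₄ - W.a₁ * y₁) := by ring
          have hm : W.a₁ * y₁ - (3 * x₁ ^ 2 + 2 * W.a₂ * x₁ + W.a₄) ∈ A := by
            rw [e]; exact A.neg_mem _ hgA
          refine (rd_ne_zero_iff hφ hm).mp ?_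
          rw [e, rd_neg hgA, hgrd]
          intro h0
          apply hN
          linear_combination h0
        · right
          have e : 2 * y₁ + W.a₁ * x₁ + W.a₃ = y₁ - W.negY x₁ y₁ := by
            simp only [Affine.negY]; ring
          have hm : 2 * y₁ + W.a₁ * x₁ + W.a₃ ∈ A := by
            rw [e]; exact A.sub_mem hy₁ (negY_mem h hx₁ hy₁)
          refine (rd_ne_zero_iff hφ hm).mp ?_
          rw [e, rd_sub hy₁ (negY_mem h hx₁ hy₁), rd_negY h hx₁ hy₁]
          intro h0
          apply hN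
          simp only [Affine.negY] at h0
          linear_combination h0
      have key := inKer_sub_of_same_reduction h.integralCoeffs h₁ h₂' (val_le_of_mem hx₁)
        (val_le_of_mem hy₁) (val_le_of_mem hx₂) (val_le_of_mem hn₂') hx hy hns
      have e : Point.some x₁ y₁ h₁ - Point.some x₂ (W.negY x₂ y₂) h₂' =
          Point.some x₁ y₁ h₁ + Point.some x₂ y₂ h₂ := by
        rw [sub_eq_add_neg, Point.neg_some]
        congr 2
        exact Affine.negY_negY ..
      rwa [e] at key
    refine ⟨inE0_of_inKer hker, ?_⟩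
    rw [red0_of_inKer hker, Point.add_of_Y_eq hb.1 hb.2]
  · -- generic case: the slope reduces
    have hK : ¬(x₁ = x₂ ∧ y₁ = W.negY x₂ y₂) := by
      rintro ⟨rfl, rfl⟩
      exact hb ⟨rfl, rd_negY h hx₂ hy₂⟩
    obtain ⟨hℓA, hℓrd⟩ := slope_mem_and_rd h hφ hx₁ hx₂ h₁.1 h₂.1 hb
    have hX : W.addX x₁ x₂ (W.slope x₁ x₂ y₁ y₂) ∈ A := addX_mem h hx₁ hx₂ hℓA
    have eX : rd A φ (W.addX x₁ x₂ (W.slope x₁ x₂ y₁ y₂)) =
        Wκ.addX (rd A φ x₁) (rd A φ x₂) (Wκ.slope (rd A φ x₁) (rd A φ x₂) (rd A φ y₁) (rd A φ y₂)) := by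
      rw [rd_addX h hx₁ hx₂ hℓA, hℓrd]
    have eY : rd A φ (W.addY x₁ x₂ y₁ (W.slope x₁ x₂ y₁ y₂)) =
        Wκ.addY (rd A φ x₁) (rd A φ x₂) (rd A φ y₁)
          (Wκ.slope (rd A φ x₁) (rd A φ x₂) (rd A φ y₁) (rd A φ y₂)) := by
      rw [rd_addY h hx₁ hx₂ hy₁ hℓA, hℓrd]
    have hns : Wκ.Nonsingular (rd A φ (W.addX x₁ x₂ (W.slope x₁ x₂ y₁ y₂)))
        (rd A φ (W.addY x₁ x₂ y₁ (W.slope x₁ x₂ y₁ y₂))) := by
      rw [eX, eY]
      exact Affine.nonsingular_add hn₁ hn₂ hb
    rw [Point.add_some hK, Point.add_some hb]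
    refine ⟨fun _ => hns, ?_⟩
    rw [red0_some_of_mem _ hX hns]
    congr 1

/-- Closure and additivity when the first point lies in `E₁` and the second is integral with
nonsingular reduction. -/
theorem add_of_inKer_of_mem {P : W.Point} (hP : InKer W A.valuation P) {x₂ y₂ : K}
    (h₂ : W.Nonsingular x₂ y₂) (hx₂ : x₂ ∈ A)
    (hn₂ : Wκ.Nonsingular (rd A φ x₂) (rd A φ y₂)) :
    InE0 A φ Wκ (P + Point.some x₂ y₂ h₂) ∧
      red0 A φ Wκ (P + Point.some x₂ y₂ h₂) = Point.some _ _ hn₂ := by
  have hy₂ : y₂ ∈ A := y_mem_of_x_mem h h₂.1 hx₂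
  have hQ : ¬ InKer W A.valuation (Point.some x₂ y₂ h₂) := fun hk =>
    absurd hx₂ (not_mem_iff_one_lt.mpr hk)
  -- `R = P + Q` is not in `E₁`
  have hR : ¬ InKer W A.valuation (P + Point.some x₂ y₂ h₂) := by
    intro hk
    apply hQ
    have := inKer_sub h.integralCoeffs hk hP
    rwa [add_sub_cancel_left] at this
  rcases hPQ : P + Point.some x₂ y₂ h₂ with _ | ⟨x₃, y₃, h₃⟩
  · rw [hPQ] at hR; exact absurd trivial hR
  · rw [hPQ] at hR
    have hx₃ : x₃ ∈ A := by
      by_contra hx; exact hR (not_mem_iff_one_lt.mp hx)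
    have hy₃ : y₃ ∈ A := y_mem_of_x_mem h h₃.1 hx₃
    have h₂' : W.Nonsingular x₂ (W.negY x₂ y₂) := (Affine.nonsingular_neg ..).mpr h₂
    have e : Point.some x₃ y₃ h₃ + Point.some x₂ (W.negY x₂ y₂) h₂' = P := by
      rw [← hPQ, ← Point.neg_some h₂, add_neg_cancel_right]
    -- the reductions of `R` and `Q` agree
    have hsame : rd A φ x₃ = rd A φ x₂ ∧ rd A φ y₃ = rd A φ y₂ := by
      by_contra hne
      have hne' : ¬(rd A φ x₃ = rd A φ x₂ ∧
          rd A φ y₃ = Wκ.negY (rd A φ x₂) (rd A φ (W.negY x₂ y₂))) := by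
        rw [rd_negY h hx₂ hy₂, Affine.negY_negY]
        exact hne
      have hK : ¬(x₃ = x₂ ∧ y₃ = W.negY x₂ (W.negY x₂ y₂)) := by
        rintro ⟨rfl, hy⟩
        rw [Affine.negY_negY] at hy
        exact hne ⟨rfl, by rw [hy]⟩
      obtain ⟨hℓA, -⟩ := slope_mem_and_rd h hφ hx₃ hx₂ h₃.1 h₂'.1 hne'
      have hX := addX_mem h hx₃ hx₂ hℓA
      rw [Point.add_some hK] at e
      rw [← e] at hP
      exact absurd hX (not_mem_iff_one_lt.mpr hP)
    have hn₃ : Wκ.Nonsingular (rd A φ x₃) (rd A φ y₃) := by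
      rw [hsame.1, hsame.2]; exact hn₂
    refine ⟨fun _ => hn₃, ?_⟩
    rw [red0_some_of_mem h₃ hx₃ hn₃]
    congr 1
    · exact hsame.1
    · exact hsame.2

/-- **`E⁰` is closed under addition and reduction is additive on `E⁰`.** -/
theorem inE0_add_and_red0_add {P Q : W.Point} (hP : InE0 A φ Wκ P) (hQ : InE0 A φ Wκ Q) :
    InE0 A φ Wκ (P + Q) ∧ red0 A φ Wκ (P + Q) = red0 A φ Wκ P + red0 A φ Wκ Q := by
  rcases P with _ | ⟨x₁, y₁, h₁⟩
  · have e : (Point.zero : W.Point) + Q = Q := zero_add Q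
    rw [e]
    exact ⟨hQ, (zero_add _).symm⟩
  rcases Q with _ | ⟨x₂, y₂, h₂⟩
  · have e : Point.some x₁ y₁ h₁ + (Point.zero : W.Point) = Point.some x₁ y₁ h₁ := add_zero _
    rw [e]
    exact ⟨hP, (add_zero _).symm⟩
  by_cases hx₁ : x₁ ∈ A
  · by_cases hx₂ : x₂ ∈ A
    · have := add_of_mem h hφ h₁ h₂ hx₁ hx₂ (hP hx₁) (hQ hx₂)
      rw [red0_some_of_mem h₁ hx₁ (hP hx₁), red0_some_of_mem h₂ hx₂ (hQ hx₂)]
      exact this
    · have hk : InKer W A.valuation (Point.some x₂ y₂ h₂) := not_mem_iff_one_lt.mp hx₂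
      have := add_of_inKer_of_mem h hφ hk h₁ hx₁ (hP hx₁)
      rw [add_comm, red0_of_inKer hk, add_zero, red0_some_of_mem h₁ hx₁ (hP hx₁)]
      exact this
  · have hk₁ : InKer W A.valuation (Point.some x₁ y₁ h₁) := not_mem_iff_one_lt.mp hx₁
    by_cases hx₂ : x₂ ∈ A
    · have := add_of_inKer_of_mem h hφ hk₁ h₂ hx₂ (hQ hx₂)
      rw [red0_of_inKer hk₁, zero_add, red0_some_of_mem h₂ hx₂ (hQ hx₂)]
      exact this
    · have hk₂ : InKer W A.valuation (Point.some x₂ y₂ h₂) := not_mem_iff_one_lt.mp hx₂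
      have hk := inKer_add h.integralCoeffs hk₁ hk₂
      exact ⟨inE0_of_inKer hk, by rw [red0_of_inKer hk, red0_of_inKer hk₁, red0_of_inKer hk₂,
        add_zero]⟩

theorem inE0_add {P Q : W.Point} (hP : InE0 A φ Wκ P) (hQ : InE0 A φ Wκ Q) :
    InE0 A φ Wκ (P + Q) := (inE0_add_and_red0_add h hφ hP hQ).1

theorem red0_add {P Q : W.Point} (hP : InE0 A φ Wκ P) (hQ : InE0 A φ Wκ Q) :
    red0 A φ Wκ (P + Q) = red0 A φ Wκ P + red0 A φ Wκ Q := (inE0_add_and_red0_add h hφ hP hQ).2

theorem inE0_nsmul_and_red0_nsmul {P : W.Point} (hP : InE0 A φ Wκ P) (n : ℕ) :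
    InE0 A φ Wκ (n • P) ∧ red0 A φ Wκ (n • P) = n • red0 A φ Wκ P := by
  induction n with
  | zero => exact ⟨by rw [zero_smul]; exact inE0_zero, by rw [zero_smul, zero_smul]; rfl⟩
  | succ n ih =>
    rw [succ_nsmul, succ_nsmul]
    exact ⟨inE0_add h hφ ih.1 hP, by rw [red0_add h hφ ih.1 hP, ih.2]⟩

theorem inE0_nsmul {P : W.Point} (hP : InE0 A φ Wκ P) (n : ℕ) : InE0 A φ Wκ (n • P) :=
  (inE0_nsmul_and_red0_nsmul h hφ hP n).1

theorem red0_nsmul {P : W.Point} (hP : InE0 A φ Wκ P) (n : ℕ) :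
    red0 A φ Wκ (n • P) = n • red0 A φ Wκ P := (inE0_nsmul_and_red0_nsmul h hφ hP n).2

/-- **Reduction preserves prime order on `E⁰`** (for primes that are units of `A`). -/
theorem addOrderOf_red0 {p : ℕ} (hp : p.Prime) (hv : A.valuation (p : K) = 1) {Q : W.Point}
    (hQ : InE0 A φ Wκ Q) (hord : addOrderOf Q = p) : addOrderOf (red0 A φ Wκ Q) = p := by
  have hpQ : p • Q = 0 := by rw [← hord]; exact addOrderOf_nsmul_eq_zero Q
  have hQ0 : Q ≠ 0 := by
    intro h0
    rw [h0, addOrderOf_zero] at hord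
    exact hp.one_lt.ne hord
  have h1 : p • red0 A φ Wκ Q = 0 := by
    rw [← red0_nsmul h hφ hQ, hpQ]; rfl
  have h2 : red0 A φ Wκ Q ≠ 0 := by
    intro h0
    have hk := (red0_eq_zero_iff hQ).mp h0
    exact hQ0 (Fermat.Agent.S05.C1b.eq_zero_of_inKer_of_nsmul_eq_zero h.integralCoeffs p hv Q
      hk hpQ)
  have hdvd := addOrderOf_dvd_of_nsmul_eq_zero h1
  rcases (Nat.dvd_prime hp).mp hdvd with h3 | h3
  · exact absurd (AddMonoid.addOrderOf_eq_one_iff.mp h3) h2
  · exact h3

end add

end Fermat.Agent.S15.H242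

end
-- ===== PACK-END S15/H242/E0Red.lean

-- ===== PACK-BEGIN S15/H242/Loc.lean
section






/-!
# S15, piece P-LOC (helper242): the local case of Mazur's Step 3

`loc_not_inZeroComponentAt`: in the situation of S15 (a Galois-fixed point `Q` of prime order `p`
on `W / ℚ`, a prime `ℓ ≠ p` of multiplicative reduction, a place `A` over `ℓ`), if
`p ∤ ℓ - 1` and `p ∤ ℓ + 1` then `Q` is NOT in the zero component at `A`.

Equivalently (`loc_dvd_of_inZeroComponentAt`): if `Q` is in the zero component at `A`, then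
`p ∣ ℓ - 1 ∨ p ∣ ℓ + 1`.

Consequently the global (Eisenstein-quotient) argument for S15 is only needed for the primes
`ℓ ≡ ±1 (mod p)`; in particular never for a prime `ℓ` dividing `n = num((p-1)/12)` (such an `ℓ`
satisfies `ℓ ≤ (p-1)/2`).

Proof: `E⁰(ℚ̄) → Ẽ_ns(κ_A)` is a homomorphism (`E0Red`), injective on `p`-torsion (`S05.C1b`),
the image of a rational point has coordinates in the prime field `𝔽_ℓ`, and the nodal cubic
`Ẽ_ns(𝔽_ℓ)` has `ℓ - 1` or `ℓ + 1` points (`NodalCount`).
-/

set_option autoImplicit false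
open WeierstrassCurve WeierstrassCurve.Affine

namespace Fermat.Agent.S15.H242

open Fermat.Agent.Lib.Red.H290
open Fermat.Agent.S05.SameRed (IntegralCoeffs InKer)

section val

variable {K : Type*} [Field K] (A : ValuationSubring K)

lemma val_intCast_le_one (n : ℤ) : A.valuation (n : K) ≤ 1 :=
  (A.valuation_le_one_iff _).mpr (intCast_mem A n)

/-- An integer prime to the residue characteristic is a unit of `A`. -/
lemma val_intCast_eq_one {ℓ : ℕ} (hA : A.LiesOverPrime ℓ) (hℓ : ℓ.Prime) {b : ℤ}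
    (hb : ¬ (ℓ : ℤ) ∣ b) : A.valuation (b : K) = 1 := by
  have hcop : IsCoprime (ℓ : ℤ) b :=
    (Nat.prime_iff_prime_int.mp hℓ).coprime_iff_not_dvd.mpr hb
  obtain ⟨u, v, huv⟩ := hcop
  have hℓv : A.valuation (ℓ : K) < 1 := (A.mem_nonunits_iff).mp hA
  have h1 : (v : K) * (b : K) = 1 - (u : K) * (ℓ : K) := by
    have := congrArg (Int.cast : ℤ → K) huv
    push_cast at this
    linear_combination this
  have h2 : A.valuation ((u : K) * (ℓ : K)) < 1 := by
    rw [map_mul]
    calc A.valuation (u : K) * A.valuation (ℓ : K) ≤ 1 * A.valuation (ℓ : K) :=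
          mul_le_mul_left (val_intCast_le_one A u) _
      _ < 1 := by rwa [one_mul]
  have h3 : A.valuation (1 - (u : K) * ℓ) = 1 := Valuation.map_one_sub_of_lt _ h2
  have h4 : A.valuation (v : K) * A.valuation (b : K) = 1 := by rw [← map_mul, h1, h3]
  refine le_antisymm (val_intCast_le_one A b) ?_
  calc (1 : _) = A.valuation (v : K) * A.valuation (b : K) := h4.symm
    _ ≤ 1 * A.valuation (b : K) := mul_le_mul_left (val_intCast_le_one A v) _
    _ = A.valuation (b : K) := one_mul _

lemma val_natCast_eq_one {ℓ : ℕ} (hA : A.LiesOverPrime ℓ) (hℓ : ℓ.Prime) {p : ℕ} (hp : p.Prime)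
    (hne : ℓ ≠ p) : A.valuation (p : K) = 1 := by
  have := val_intCast_eq_one A hA hℓ (b := (p : ℤ)) (by
    intro h
    have h' : ℓ ∣ p := by exact_mod_cast h
    exact hne ((Nat.prime_dvd_prime_iff_eq hℓ hp).mp h'))
  simpa using this

lemma rd_intCast {κ : Type*} [Field κ] (φ : A →+* κ) (n : ℤ) : rd A φ (n : K) = (n : κ) := by
  rw [rd_of_mem (intCast_mem A n)]
  have : (⟨(n : K), intCast_mem A n⟩ : A) = (n : A) := rfl
  rw [this, map_intCast]

end val


section setup

variable {K : Type*} [Field K] [Algebra ℚ K] (A : ValuationSubring K) (W : WeierstrassCurve ℤ)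

lemma isRedOf_int {κ : Type*} [Field κ] (φ : A →+* κ) :
    IsRedOf A φ ((W.map (Int.castRingHom ℚ))⁄K) (W⁄κ) where
  m₁ := by
    show algebraMap ℚ K ((Int.castRingHom ℚ) W.a₁) ∈ A
    simp only [eq_intCast, map_intCast]; exact intCast_mem A _
  m₂ := by
    show algebraMap ℚ K ((Int.castRingHom ℚ) W.a₂) ∈ A
    simp only [eq_intCast, map_intCast]; exact intCast_mem A _
  m₃ := by
    show algebraMap ℚ K ((Int.castRingHom ℚ) W.a₃) ∈ A
    simp only [eq_intCast, map_intCast]; exact intCast_mem A _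
  m₄ := by
    show algebraMap ℚ K ((Int.castRingHom ℚ) W.a₄) ∈ A
    simp only [eq_intCast, map_intCast]; exact intCast_mem A _
  m₆ := by
    show algebraMap ℚ K ((Int.castRingHom ℚ) W.a₆) ∈ A
    simp only [eq_intCast, map_intCast]; exact intCast_mem A _
  a₁ := by
    show rd A φ (algebraMap ℚ K ((Int.castRingHom ℚ) W.a₁)) = (Int.castRingHom κ) W.a₁
    simp only [eq_intCast, map_intCast]; exact rd_intCast A φ _
  a₂ := by
    show rd A φ (algebraMap ℚ K ((Int.castRingHom ℚ) W.a₂)) = (Int.castRingHom κ) W.a₂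
    simp only [eq_intCast, map_intCast]; exact rd_intCast A φ _
  a₃ := by
    show rd A φ (algebraMap ℚ K ((Int.castRingHom ℚ) W.a₃)) = (Int.castRingHom κ) W.a₃
    simp only [eq_intCast, map_intCast]; exact rd_intCast A φ _
  a₄ := by
    show rd A φ (algebraMap ℚ K ((Int.castRingHom ℚ) W.a₄)) = (Int.castRingHom κ) W.a₄
    simp only [eq_intCast, map_intCast]; exact rd_intCast A φ _
  a₆ := by
    show rd A φ (algebraMap ℚ K ((Int.castRingHom ℚ) W.a₆)) = (Int.castRingHom κ) W.a₆
    simp only [eq_intCast, map_intCast]; exact rd_intCast A φ _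

end setup

section bridge

variable (W : WeierstrassCurve ℤ) (A : ValuationSubring (AlgebraicClosure ℚ))

/-- The Prelude's `InZeroComponentAt` implies `InE0`. -/
lemma inE0_of_inZeroComponentAt
    {Q : ((W.map (Int.castRingHom ℚ))⁄(AlgebraicClosure ℚ)).Point}
    (hQ : W.InZeroComponentAt A Q) :
    InE0 A (IsLocalRing.residue A) (W⁄(IsLocalRing.ResidueField A)) Q := by
  rcases hQ with rfl | ⟨x, y, h, rfl, hx | ⟨hx, hy, hns⟩⟩
  · exact inE0_zero
  · intro hx'
    exact absurd hx' hx
  · intro _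
    rw [rd_of_mem hx, rd_of_mem hy]
    exact hns

end bridge

section rat

variable {K : Type*} [Field K] [Algebra ℚ K] (A : ValuationSubring K)

/-- The residue of a rational number that is integral at `A` lies in the prime field. -/
lemma rd_algebraMap_rat_mem_range {ℓ : ℕ} (hA : A.LiesOverPrime ℓ) (hℓ : ℓ.Prime)
    {κ : Type*} [Field κ] (φ : A →+* κ) (ι : ZMod ℓ →+* κ) (r : ℚ)
    (hr : algebraMap ℚ K r ∈ A) :
    rd A φ (algebraMap ℚ K r) ∈ Set.range ι := by
  have hℓv : A.valuation (ℓ : K) < 1 := (A.mem_nonunits_iff).mp hA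
  have hrK : algebraMap ℚ K r = (r.num : K) / (r.den : K) := by
    conv_lhs => rw [← Rat.num_div_den r]
    rw [map_div₀, map_intCast, map_natCast]
  have hden0 : (r.den : K) ≠ 0 := by
    have : (algebraMap ℚ K (r.den : ℚ)) ≠ 0 := by
      rw [Ne, map_eq_zero]
      exact_mod_cast r.den_ne_zero
    simpa using this
  have hb : ¬ (ℓ : ℤ) ∣ (r.den : ℤ) := by
    intro hdvd
    have hnum : ¬ (ℓ : ℤ) ∣ r.num := by
      intro hn
      have h1 : ℓ ∣ r.num.natAbs := Int.natCast_dvd.mp hn
      have h2 : ℓ ∣ r.den := by exact_mod_cast hdvd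
      have := Nat.eq_one_of_dvd_coprimes r.reduced h1 h2
      exact hℓ.one_lt.ne' this
    have hvn : A.valuation (r.num : K) = 1 := val_intCast_eq_one A hA hℓ hnum
    have hvd : A.valuation (r.den : K) < 1 := by
      obtain ⟨c, hc⟩ := hdvd
      have : (r.den : K) = (ℓ : K) * (c : K) := by
        have := congrArg (Int.cast : ℤ → K) hc
        push_cast at this
        exact this
      rw [this, map_mul]
      calc A.valuation (ℓ : K) * A.valuation (c : K) ≤ A.valuation (ℓ : K) * 1 :=
            mul_le_mul_right (val_intCast_le_one A c) _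
        _ < 1 := by rwa [mul_one]
    have hle : A.valuation (algebraMap ℚ K r) ≤ 1 := (A.valuation_le_one_iff _).mpr hr
    rw [hrK, map_div₀, hvn] at hle
    have hd0 : A.valuation (r.den : K) ≠ 0 := by
      rw [Ne, Valuation.zero_iff]; exact hden0
    have : (1 : _) ≤ A.valuation (r.den : K) := by
      have := (div_le_iff₀ (zero_lt_iff.mpr hd0)).mp hle
      rwa [one_mul] at this
    exact absurd hvd (not_lt.mpr this)
  have hvd : A.valuation (r.den : K) = 1 := by
    have := val_intCast_eq_one A hA hℓ hb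
    simpa using this
  haveI : Fact ℓ.Prime := ⟨hℓ⟩
  refine ⟨(r.num : ZMod ℓ) / (r.den : ZMod ℓ), ?_⟩
  rw [hrK, rd_div (intCast_mem A _) hvd, rd_intCast]
  have : rd A φ (r.den : K) = (r.den : κ) := by
    have := rd_intCast A φ (r.den : ℤ)
    simpa using this
  rw [this, map_div₀, map_intCast, map_natCast]

end rat

section galois

theorem isGalois_Qbar_h242 : IsGalois ℚ (AlgebraicClosure ℚ) := by
  have : Algebra.IsAlgebraic ℚ (AlgebraicClosure ℚ) := AlgebraicClosure.isAlgebraic ℚ
  have : IsAlgClosure ℚ (AlgebraicClosure ℚ) := ⟨inferInstance, inferInstance⟩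
  exact IsAlgClosure.isGalois ℚ (AlgebraicClosure ℚ)

variable (W : WeierstrassCurve ℤ)

/-- A Galois-fixed affine point has rational coordinates. -/
lemma coords_rational {x y : AlgebraicClosure ℚ}
    (h : ((W.map (Int.castRingHom ℚ))⁄(AlgebraicClosure ℚ)).Nonsingular x y)
    (hfix : ∀ σ : AlgebraicClosure ℚ ≃ₐ[ℚ] AlgebraicClosure ℚ,
      σ • (Point.some x y h : ((W.map (Int.castRingHom ℚ))⁄(AlgebraicClosure ℚ)).Point)
        = Point.some x y h) :
    x ∈ Set.range (algebraMap ℚ (AlgebraicClosure ℚ)) ∧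
      y ∈ Set.range (algebraMap ℚ (AlgebraicClosure ℚ)) := by
  have := isGalois_Qbar_h242
  have key : ∀ σ : AlgebraicClosure ℚ ≃ₐ[ℚ] AlgebraicClosure ℚ, σ x = x ∧ σ y = y := by
    intro σ
    have := hfix σ
    rw [Point.algEquiv_smul_def, Point.map_some] at this
    simp only [Point.some.injEq] at this
    exact this
  exact ⟨(InfiniteGalois.mem_range_algebraMap_iff_fixed x).mpr fun σ => (key σ).1,
    (InfiniteGalois.mem_range_algebraMap_iff_fixed y).mpr fun σ => (key σ).2⟩

end galois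

section main

/-- **P-LOC.** In the situation of S15, a point in the zero component at a place over a
multiplicative prime `ℓ ≠ p` forces `p ∣ ℓ - 1` or `p ∣ ℓ + 1`. -/
theorem loc_dvd_of_inZeroComponentAt
    {p : ℕ} (hp : p.Prime) (W : WeierstrassCurve ℤ)
    (Q : ((W.map (Int.castRingHom ℚ))⁄(AlgebraicClosure ℚ)).Point)
    (hQfix : ∀ σ : AlgebraicClosure ℚ ≃ₐ[ℚ] AlgebraicClosure ℚ, σ • Q = Q)
    (hQord : addOrderOf Q = p)
    {ℓ : ℕ} (hℓ : ℓ.Prime) (hℓp : ℓ ≠ p) (hℓΔ : (ℓ : ℤ) ∣ W.Δ) (hℓc₄ : ¬ (ℓ : ℤ) ∣ W.c₄)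
    (A : ValuationSubring (AlgebraicClosure ℚ)) (hA : A.LiesOverPrime ℓ)
    (hQ0 : W.InZeroComponentAt A Q) :
    p ∣ ℓ - 1 ∨ p ∣ ℓ + 1 := by
  classical
  have hφ : KerMax A (IsLocalRing.residue A) := kerMax_residue A
  have hred : IsRedOf A (IsLocalRing.residue A)
      ((W.map (Int.castRingHom ℚ))⁄(AlgebraicClosure ℚ)) (W⁄(IsLocalRing.ResidueField A)) :=
    isRedOf_int A W (IsLocalRing.residue A)
  have hE0 : InE0 A (IsLocalRing.residue A) (W⁄(IsLocalRing.ResidueField A)) Q :=
    inE0_of_inZeroComponentAt W A hQ0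
  have hv : A.valuation ((p : ℕ) : AlgebraicClosure ℚ) = 1 := val_natCast_eq_one A hA hℓ hp hℓp
  have hord := addOrderOf_red0 hred hφ hp hv hE0 hQord
  rcases Q with _ | ⟨x, y, h⟩
  · rw [show (Point.zero : ((W.map (Int.castRingHom ℚ))⁄(AlgebraicClosure ℚ)).Point) = 0 from rfl,
      addOrderOf_zero] at hQord
    exact absurd hQord hp.one_lt.ne
  obtain ⟨⟨rx, hrx⟩, ⟨ry, hry⟩⟩ := coords_rational W h hQfix
  have hx : x ∈ A := by
    by_contra hx
    rw [red0_some_of_not_mem h hx, addOrderOf_zero] at hord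
    exact hp.one_lt.ne hord
  have hns : (W⁄(IsLocalRing.ResidueField A)).Nonsingular
      (rd A (IsLocalRing.residue A) x) (rd A (IsLocalRing.residue A) y) := hE0 hx
  have hy : y ∈ A := y_mem_of_x_mem hred h.1 hx
  rw [red0_some_of_mem h hx hns] at hord
  haveI : Fact ℓ.Prime := ⟨hℓ⟩
  haveI : CharP (IsLocalRing.ResidueField A) ℓ := (CharP.charP_iff_prime_eq_zero hℓ).mpr (by
    have h0 : rd A (IsLocalRing.residue A) ((ℓ : ℤ) : AlgebraicClosure ℚ) = 0 :=
      rd_eq_zero_of_lt hφ (by
        have := (A.mem_nonunits_iff).mp hA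
        simpa using this)
    rw [rd_intCast] at h0
    exact_mod_cast h0)
  let f : ZMod ℓ →ₐ[ℤ] IsLocalRing.ResidueField A :=
    (ZMod.castHom dvd_rfl (IsLocalRing.ResidueField A)).toIntAlgHom
  have hf : Function.Injective f := (f : ZMod ℓ →+* IsLocalRing.ResidueField A).injective
  obtain ⟨u, hu⟩ := rd_algebraMap_rat_mem_range A hA hℓ (IsLocalRing.residue A)
    (f : ZMod ℓ →+* IsLocalRing.ResidueField A) rx (by rw [hrx]; exact hx)
  obtain ⟨w, hw⟩ := rd_algebraMap_rat_mem_range A hA hℓ (IsLocalRing.residue A)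
    (f : ZMod ℓ →+* IsLocalRing.ResidueField A) ry (by rw [hry]; exact hy)
  rw [hrx] at hu
  rw [hry] at hw
  generalize rd A (IsLocalRing.residue A) x = X at hns hord hu
  generalize rd A (IsLocalRing.residue A) y = Y at hns hord hw
  subst hu hw
  have hns0 : (W⁄(ZMod ℓ)).Nonsingular u w :=
    (Affine.baseChange_nonsingular W (f := f) hf u w).mp hns
  have hmap : Point.map (W' := W) f (Point.some u w hns0) = Point.some _ _ hns :=
    Point.map_some f hns0
  have hord0 : addOrderOf (Point.some u w hns0 : (W⁄(ZMod ℓ)).Point) = p := by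
    rw [← addOrderOf_injective (Point.map (W' := W) f) (Point.map_injective f), hmap]
    exact hord
  have hΔ0 : (W⁄(ZMod ℓ)).Δ = 0 := by
    show (W.map (algebraMap ℤ (ZMod ℓ))).Δ = 0
    rw [WeierstrassCurve.map_Δ, algebraMap_int_eq, eq_intCast,
      ZMod.intCast_zmod_eq_zero_iff_dvd]
    exact hℓΔ
  have hc0 : (W⁄(ZMod ℓ)).c₄ ≠ 0 := by
    show (W.map (algebraMap ℤ (ZMod ℓ))).c₄ ≠ 0
    rw [WeierstrassCurve.map_c₄, algebraMap_int_eq, eq_intCast, Ne,
      ZMod.intCast_zmod_eq_zero_iff_dvd]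
    exact hℓc₄
  have := addOrderOf_dvd_of_nodal hc0 hΔ0 (Point.some u w hns0)
  rwa [hord0, Nat.card_zmod] at this

/-- **P-LOC**, in the shape of the conclusion of S15. -/
theorem loc_not_inZeroComponentAt
    {p : ℕ} (hp : p.Prime) (W : WeierstrassCurve ℤ)
    (Q : ((W.map (Int.castRingHom ℚ))⁄(AlgebraicClosure ℚ)).Point)
    (hQfix : ∀ σ : AlgebraicClosure ℚ ≃ₐ[ℚ] AlgebraicClosure ℚ, σ • Q = Q)
    (hQord : addOrderOf Q = p)
    {ℓ : ℕ} (hℓ : ℓ.Prime) (hℓp : ℓ ≠ p) (hℓΔ : (ℓ : ℤ) ∣ W.Δ) (hℓc₄ : ¬ (ℓ : ℤ) ∣ W.c₄)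
    (A : ValuationSubring (AlgebraicClosure ℚ)) (hA : A.LiesOverPrime ℓ)
    (hnd : ¬ p ∣ ℓ - 1) (hnd' : ¬ p ∣ ℓ + 1) :
    ¬ W.InZeroComponentAt A Q := fun hQ0 =>
  (loc_dvd_of_inZeroComponentAt hp W Q hQfix hQord hℓ hℓp hℓΔ hℓc₄ A hA hQ0).elim hnd hnd'

/-- S15 is reduced to the primes `ℓ ≡ ±1 (mod p)`: it suffices to prove the conclusion of S15
under the additional hypothesis `p ∣ ℓ - 1 ∨ p ∣ ℓ + 1`. -/
theorem step3_of_pm_one
    {p : ℕ} (hp : p.Prime) (W : WeierstrassCurve ℤ)
    (Q : ((W.map (Int.castRingHom ℚ))⁄(AlgebraicClosure ℚ)).Point)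
    (hQfix : ∀ σ : AlgebraicClosure ℚ ≃ₐ[ℚ] AlgebraicClosure ℚ, σ • Q = Q)
    (hQord : addOrderOf Q = p)
    {ℓ : ℕ} (hℓ : ℓ.Prime) (hℓp : ℓ ≠ p) (hℓΔ : (ℓ : ℤ) ∣ W.Δ) (hℓc₄ : ¬ (ℓ : ℤ) ∣ W.c₄)
    (A : ValuationSubring (AlgebraicClosure ℚ)) (hA : A.LiesOverPrime ℓ)
    (hglobal : (p ∣ ℓ - 1 ∨ p ∣ ℓ + 1) → ¬ W.InZeroComponentAt A Q) :
    ¬ W.InZeroComponentAt A Q := fun hQ0 =>
  hglobal (loc_dvd_of_inZeroComponentAt hp W Q hQfix hQord hℓ hℓp hℓΔ hℓc₄ A hA hQ0) hQ0

/-- **NODE LOC** in the exact shape of `Fermat.Agent.S15.LocStatement` (row-lead skeleton):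
`theorem locStatement : LocStatement := @Fermat.Agent.S15.H242.loc_statement`. -/
theorem loc_statement
    {p : ℕ} (hp : p.Prime) (W : WeierstrassCurve ℤ) (_hΔ : W.Δ ≠ 0)
    (Q : ((W.map (Int.castRingHom ℚ))⁄(AlgebraicClosure ℚ)).Point)
    (hQfix : ∀ σ : AlgebraicClosure ℚ ≃ₐ[ℚ] AlgebraicClosure ℚ, σ • Q = Q)
    (hQord : addOrderOf Q = p)
    {ℓ : ℕ} (hℓ : ℓ.Prime) (hℓp : ℓ ≠ p) (hℓΔ : (ℓ : ℤ) ∣ W.Δ) (hℓc₄ : ¬ (ℓ : ℤ) ∣ W.c₄)
    (A : ValuationSubring (AlgebraicClosure ℚ)) (hA : A.LiesOverPrime ℓ)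
    (hQ0 : W.InZeroComponentAt A Q) : p ∣ (ℓ - 1) * (ℓ + 1) :=
  (loc_dvd_of_inZeroComponentAt hp W Q hQfix hQord hℓ hℓp hℓΔ hℓc₄ A hA hQ0).elim
    (fun h => h.mul_right _) (fun h => h.mul_left _)

end main

end Fermat.Agent.S15.H242

end
-- ===== PACK-END S15/H242/Loc.lean

-- ===== PACK-BEGIN S15/TopWeak.lean
section




/-!
# Row S15 (row-lead helper975): TOP in its weakest form

`S15_of_weak : GeoWeak → DescWeakStatement → (frozen statement S15)`.

* `GeoWeak` is `GeoStatement` of `Skeleton.lean`, except that the kernel of the reduction map at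
  `ℓ` only has to be stable under the `T_q` with `q ∉ S_ℓ ∪ {p}` for some FINITE set `S_ℓ` chosen
  by GEO (so auxiliary levels `2p`, `3p` are allowed at `ℓ = 3, 2`).
* `DescWeakStatement` is the weak descent node proposed by helper302: ONE Hecke operator `t`
  away from `S` with `t · J₀(p)(ℚ)` torsion and `t c ≠ 0` for the given rational torsion Eisenstein
  vector `c ≠ 0`.

The strong nodes of `Skeleton.lean` imply the weak ones (`geoWeak_of_geoStatement`,
`descWeak_of_descStatement`), hence `S15_of_nodes`.  The local node LOC is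
`Fermat.Agent.S15.H242.step3_of_pm_one` (on main).  Everything here is sorry-free.
-/

set_option autoImplicit false

open WeierstrassCurve WeierstrassCurve.Affine

namespace Fermat.Agent.S15

/-- A reduction map for `J₀(p)` at the prime `ℓ`: additive, injective on torsion of order prime to
`ℓ`, with kernel stable under the `T_q`, `q ∉ S ∪ {p}`. -/
structure IsGoodRedAway (p ℓ : ℕ) [NeZero p] (S : Finset ℕ) {Y : Type} [AddCommGroup Y]
    (red : ModularCurve.JZero p →+ Y) : Prop where
  inj : ∀ (m : ℕ) (z : ModularCurve.JZero p), ¬ ℓ ∣ m → m • z = 0 → red z = 0 → z = 0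
  hecke : ∀ q : Nat.Primes, (q : ℕ) ≠ p → (q : ℕ) ∉ S → ∀ z : ModularCurve.JZero p,
    red z = 0 → red (ModularCurve.heckeOperatorBar p q z) = 0

theorem IsGoodRed.away {p ℓ : ℕ} [NeZero p] {Y : Type} [AddCommGroup Y]
    {red : ModularCurve.JZero p →+ Y} (h : IsGoodRed p ℓ red) : IsGoodRedAway p ℓ {ℓ} red :=
  ⟨h.inj, fun q hqp hq z hz => h.hecke q hqp (by simpa using hq) z hz⟩

/-- **NODE GEO, weak form.** -/
def GeoWeak : Prop :=
  ∀ (p : ℕ) [NeZero p] (_hp : p.Prime) (_hp' : p ∉ ({2, 3, 5, 7, 13} : Finset ℕ))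
    (W : WeierstrassCurve ℤ) (_hΔ : W.Δ ≠ 0) (Q : Pts W)
    (_hQfix : ∀ σ : Gal, σ • Q = Q) (_hQord : addOrderOf Q = p),
    ∃ c D : ModularCurve.JZero p,
      (∀ σ : Gal, σ • c = c) ∧ (∀ σ : Gal, σ • D = D) ∧ c ≠ 0 ∧ (p - 1) • c = 0 ∧
      IsEisensteinVector p c ∧
      ∀ (ℓ : ℕ) (_hℓ : ℓ.Prime) (_hℓp : ℓ ≠ p) (_hℓΔ : (ℓ : ℤ) ∣ W.Δ) (_hℓc₄ : ¬ (ℓ : ℤ) ∣ W.c₄)
        (A : ValuationSubring (AlgebraicClosure ℚ)) (_hA : A.LiesOverPrime ℓ),
        ∃ (S : Finset ℕ) (Y : Type) (_ : AddCommGroup Y) (red : ModularCurve.JZero p →+ Y),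
          IsGoodRedAway p ℓ S red ∧
          (¬ W.InZeroComponentAt A Q → red D = 0) ∧
          (W.InZeroComponentAt A Q → red D = red c ∨ red D = -red c)

/-- **NODE DESC, weak form** (helper302): for ONE non-zero rational torsion Eisenstein vector `c`
there is a Hecke operator `t` away from `S` which maps `J₀(p)(ℚ)` into torsion and does not kill
`c`. -/
def DescWeakStatement : Prop :=
  ∀ (p : ℕ) [NeZero p] (_hp : p.Prime) (_hp' : p ∉ ({2, 3, 5, 7, 13} : Finset ℕ))
    (S : Finset ℕ) (c : ModularCurve.JZero p) (_hc : ∀ σ : Gal, σ • c = c) (_hc0 : c ≠ 0)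
    (_hct : ∃ m : ℕ, 0 < m ∧ m • c = 0) (_hcE : IsEisensteinVector p c),
    ∃ t ∈ heckeRingAway p S,
      (∀ z : ModularCurve.JZero p, (∀ σ : Gal, σ • z = z) → ∃ m : ℕ, 0 < m ∧ m • t z = 0) ∧
      t c ≠ 0

theorem geoWeak_of_geoStatement (h : GeoStatement) : GeoWeak := by
  intro p _ hp hp' W hΔ Q hQfix hQord
  obtain ⟨c, D, h1, h2, h3, h4, h5, h6⟩ := h p hp hp' W hΔ Q hQfix hQord
  refine ⟨c, D, h1, h2, h3, h4, h5, fun ℓ hℓ hℓp hℓΔ hℓc₄ A hA => ?_⟩
  obtain ⟨Y, i, red, hg, h7, h8⟩ := h6 ℓ hℓ hℓp hℓΔ hℓc₄ A hA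
  exact ⟨{ℓ}, Y, i, red, hg.away, h7, h8⟩

theorem descWeakStatement_of_descStatement (h : DescStatement) : DescWeakStatement := by
  intro p _ hp hp' S c _ hc0 _ hcE
  obtain ⟨t, ht, h1, h2⟩ := h p hp hp' S
  exact ⟨t, ht, h1, by rw [h2 c hcE]; exact hc0⟩

theorem heckeRingAway_mono (p : ℕ) [NeZero p] {S S' : Finset ℕ} (h : S ⊆ S') :
    heckeRingAway p S' ≤ heckeRingAway p S := by
  unfold heckeRingAway
  apply Algebra.adjoin_mono
  rintro T ⟨q, hq, hqp, rfl⟩
  exact ⟨q, fun hqS => hq (h hqS), hqp, rfl⟩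

/-- The kernel of a good reduction map away from `S` is stable under the Hecke ring away from
`S`. -/
theorem red_eq_zero_of_mem_heckeRingAway' {p ℓ : ℕ} [NeZero p] {Y : Type} [AddCommGroup Y]
    {red : ModularCurve.JZero p →+ Y} {S : Finset ℕ} (hred : IsGoodRedAway p ℓ S red)
    {t : Module.End ℤ (ModularCurve.JZero p)} (ht : t ∈ heckeRingAway p S) :
    ∀ z : ModularCurve.JZero p, red z = 0 → red (t z) = 0 := by
  unfold heckeRingAway at ht
  induction ht using Algebra.adjoin_induction with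
  | mem T hT =>
    obtain ⟨q, hqS, hqp, rfl⟩ := hT
    intro z hz
    exact hred.hecke q hqp hqS z hz
  | algebraMap r =>
    intro z hz
    rw [Module.algebraMap_end_apply, map_zsmul, hz, smul_zero]
  | add a b _ _ ha hb =>
    intro z hz
    rw [LinearMap.add_apply, map_add, ha z hz, hb z hz, add_zero]
  | mul a b _ _ ha hb =>
    intro z hz
    rw [Module.End.mul_apply]
    exact ha _ (hb z hz)

/-- A torsion point killed by injective-on-torsion reduction maps at `2` and at `3` is zero. -/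
theorem eq_zero_of_red_two_three' {p : ℕ} [NeZero p] {Y₂ Y₃ : Type} [AddCommGroup Y₂]
    [AddCommGroup Y₃] {red₂ : ModularCurve.JZero p →+ Y₂} {red₃ : ModularCurve.JZero p →+ Y₃}
    {S₂ S₃ : Finset ℕ} (h₂ : IsGoodRedAway p 2 S₂ red₂) (h₃ : IsGoodRedAway p 3 S₃ red₃)
    (z : ModularCurve.JZero p) {m : ℕ} (hm0 : 0 < m) (hm : m • z = 0) (hz₂ : red₂ z = 0)
    (hz₃ : red₃ z = 0) : z = 0 := by
  obtain ⟨e, n', hn', rfl⟩ := Nat.exists_eq_pow_mul_and_not_dvd hm0.ne' 2 (by norm_num)
  have h1 : (2 ^ e) • z = 0 := by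
    refine h₂.inj n' ((2 ^ e) • z) hn' ?_ ?_
    · rw [← mul_smul, mul_comm]; exact hm
    · rw [map_nsmul, hz₂, smul_zero]
  refine h₃.inj (2 ^ e) z ?_ h1 hz₃
  intro h
  have := Nat.Prime.dvd_of_dvd_pow Nat.prime_three h
  omega

/-- `ℓ ∤ p - 1` when `p ∣ ℓ ∓ 1`, for primes `ℓ` and `p ≠ 2, 3`. -/
theorem not_dvd_pred_of_pm_one' {p ℓ : ℕ} (hp : p.Prime) (hℓ : ℓ.Prime) (hp2 : p ≠ 2)
    (hp3 : p ≠ 3) (hpm : p ∣ ℓ - 1 ∨ p ∣ ℓ + 1) : ¬ ℓ ∣ p - 1 := by
  intro h
  have hp1 := hp.two_le
  have hℓ1 := hℓ.two_le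
  have h1 : ℓ ≤ p - 1 := Nat.le_of_dvd (by omega) h
  rcases hpm with h2 | h2
  · have := Nat.le_of_dvd (by omega) h2
    omega
  · have h3 := Nat.le_of_dvd (by omega) h2
    have hpℓ : p = ℓ + 1 := by omega
    rcases hℓ.eq_two_or_odd with h4 | h4
    · omega
    · rcases hp.eq_two_or_odd with h5 | h5 <;> omega

/-- **S15 from the weak nodes.** -/
theorem S15_of_weak (hgeo : GeoWeak) (hdesc : DescWeakStatement)
    {p : ℕ} (hp : p.Prime) (hp' : p ∉ ({2, 3, 5, 7, 13} : Finset ℕ))
    (W : WeierstrassCurve ℤ) (hΔ : W.Δ ≠ 0)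
    (Q : ((W.map (Int.castRingHom ℚ))⁄(AlgebraicClosure ℚ)).Point)
    (hQfix : ∀ σ : AlgebraicClosure ℚ ≃ₐ[ℚ] AlgebraicClosure ℚ, σ • Q = Q)
    (hQord : addOrderOf Q = p)
    (h2Δ : (2 : ℤ) ∣ W.Δ) (h2c₄ : ¬ (2 : ℤ) ∣ W.c₄)
    (h2 : ∀ A : ValuationSubring (AlgebraicClosure ℚ), A.LiesOverPrime 2 →
      ¬ W.InZeroComponentAt A Q)
    (h3Δ : (3 : ℤ) ∣ W.Δ) (h3c₄ : ¬ (3 : ℤ) ∣ W.c₄)
    (h3 : ∀ A : ValuationSubring (AlgebraicClosure ℚ), A.LiesOverPrime 3 →
      ¬ W.InZeroComponentAt A Q)
    {ℓ : ℕ} (hℓ : ℓ.Prime) (hℓp : ℓ ≠ p) (hℓΔ : (ℓ : ℤ) ∣ W.Δ) (hℓc₄ : ¬ (ℓ : ℤ) ∣ W.c₄)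
    (A : ValuationSubring (AlgebraicClosure ℚ)) (hA : A.LiesOverPrime ℓ) :
    ¬ W.InZeroComponentAt A Q := by
  refine H242.step3_of_pm_one hp W Q hQfix hQord hℓ hℓp hℓΔ hℓc₄ A hA (fun hpm hQ0 => ?_)
  haveI : NeZero p := ⟨hp.ne_zero⟩
  have hp2 : (2 : ℕ) ≠ p := by rintro rfl; simp at hp'
  have hp3 : (3 : ℕ) ≠ p := by rintro rfl; simp at hp'
  obtain ⟨c, D, hcfix, hDfix, hc0, hcord, hcE, hred⟩ := hgeo p hp hp' W hΔ Q hQfix hQord
  obtain ⟨A₂, hA₂⟩ := S54.exists_valuationSubring_liesOver 2 Nat.prime_two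
  obtain ⟨A₃, hA₃⟩ := S54.exists_valuationSubring_liesOver 3 Nat.prime_three
  obtain ⟨S₂, Y₂, _, red₂, hg₂, hn₂, -⟩ :=
    hred 2 Nat.prime_two hp2 (by exact_mod_cast h2Δ) (by exact_mod_cast h2c₄) A₂ hA₂
  obtain ⟨S₃, Y₃, _, red₃, hg₃, hn₃, -⟩ :=
    hred 3 Nat.prime_three hp3 (by exact_mod_cast h3Δ) (by exact_mod_cast h3c₄) A₃ hA₃
  obtain ⟨Sℓ, Yℓ, _, redℓ, hgℓ, -, hzℓ⟩ := hred ℓ hℓ hℓp hℓΔ hℓc₄ A hA
  have hp1 : 0 < p - 1 := by have := hp.two_le; omega
  obtain ⟨t, htmem, httors, htc⟩ :=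
    hdesc p hp hp' (S₂ ∪ S₃ ∪ Sℓ) c hcfix hc0 ⟨p - 1, hp1, hcord⟩ hcE
  have ht₂ : t ∈ heckeRingAway p S₂ :=
    heckeRingAway_mono p (fun x hx => by simp [hx]) htmem
  have ht₃ : t ∈ heckeRingAway p S₃ :=
    heckeRingAway_mono p (fun x hx => by simp [hx]) htmem
  have htℓ : t ∈ heckeRingAway p Sℓ :=
    heckeRingAway_mono p (fun x hx => by simp [hx]) htmem
  -- `t D = 0`
  have htD₂ : red₂ (t D) = 0 :=
    red_eq_zero_of_mem_heckeRingAway' hg₂ ht₂ D (hn₂ (h2 A₂ hA₂))
  have htD₃ : red₃ (t D) = 0 :=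
    red_eq_zero_of_mem_heckeRingAway' hg₃ ht₃ D (hn₃ (h3 A₃ hA₃))
  obtain ⟨m, hm0, hm⟩ := httors D hDfix
  have htD : t D = 0 := eq_zero_of_red_two_three' hg₂ hg₃ (t D) hm0 hm htD₂ htD₃
  -- `red_ℓ (t c) = 0`
  have hcℓ : redℓ (t c) = 0 := by
    rcases hzℓ hQ0 with h | h
    · have h0 : redℓ (D - c) = 0 := by rw [map_sub, h, sub_self]
      have h1 := red_eq_zero_of_mem_heckeRingAway' hgℓ htℓ (D - c) h0
      rw [map_sub, htD, zero_sub, map_neg, neg_eq_zero] at h1
      exact h1
    · have h0 : redℓ (D + c) = 0 := by rw [map_add, h, neg_add_cancel]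
      have h1 := red_eq_zero_of_mem_heckeRingAway' hgℓ htℓ (D + c) h0
      rw [map_add, htD, zero_add] at h1
      exact h1
  have htc1 : (p - 1) • t c = 0 := by rw [← map_nsmul, hcord, map_zero]
  exact htc (hgℓ.inj (p - 1) (t c)
    (not_dvd_pred_of_pm_one' hp hℓ (Ne.symm hp2) (Ne.symm hp3) hpm) htc1 hcℓ)

/-- **S15 from the strong nodes of `Skeleton.lean`.** -/
theorem S15_of_strong (hgeo : GeoStatement) (hdesc : DescStatement)
    {p : ℕ} (hp : p.Prime) (hp' : p ∉ ({2, 3, 5, 7, 13} : Finset ℕ))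
    (W : WeierstrassCurve ℤ) (hΔ : W.Δ ≠ 0)
    (Q : ((W.map (Int.castRingHom ℚ))⁄(AlgebraicClosure ℚ)).Point)
    (hQfix : ∀ σ : AlgebraicClosure ℚ ≃ₐ[ℚ] AlgebraicClosure ℚ, σ • Q = Q)
    (hQord : addOrderOf Q = p)
    (h2Δ : (2 : ℤ) ∣ W.Δ) (h2c₄ : ¬ (2 : ℤ) ∣ W.c₄)
    (h2 : ∀ A : ValuationSubring (AlgebraicClosure ℚ), A.LiesOverPrime 2 →
      ¬ W.InZeroComponentAt A Q)
    (h3Δ : (3 : ℤ) ∣ W.Δ) (h3c₄ : ¬ (3 : ℤ) ∣ W.c₄)
    (h3 : ∀ A : ValuationSubring (AlgebraicClosure ℚ), A.LiesOverPrime 3 →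
      ¬ W.InZeroComponentAt A Q)
    {ℓ : ℕ} (hℓ : ℓ.Prime) (hℓp : ℓ ≠ p) (hℓΔ : (ℓ : ℤ) ∣ W.Δ) (hℓc₄ : ¬ (ℓ : ℤ) ∣ W.c₄)
    (A : ValuationSubring (AlgebraicClosure ℚ)) (hA : A.LiesOverPrime ℓ) :
    ¬ W.InZeroComponentAt A Q :=
  S15_of_weak (geoWeak_of_geoStatement hgeo) (descWeakStatement_of_descStatement hdesc)
    hp hp' W hΔ Q hQfix hQord h2Δ h2c₄ h2 h3Δ h3c₄ h3 hℓ hℓp hℓΔ hℓc₄ A hA

end Fermat.Agent.S15

end
-- ===== PACK-END S15/TopWeak.lean

-- ===== PACK-BEGIN Lib/RR/Riemann.lean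
section




/-!
# RR library, layer L3: Riemann's theorem  (Stichtenoth 1.4.17)

Integration file (helper320).  `exists_riemann_bound` is proved in `H409/` (helper409), the core
of `exists_degree_bound` in `H98/` (helper98).

Proof sketch.  Let `x` be as in `FF1.exists_finite`, `n = [F : K(x)]`, `B = (x)_∞`
(`deg B ≤ n` by L2), `u_1, …, u_n` a `K(x)`-basis of `F`, `C ≥ 0` with `div u_j ≥ -C`.  The
`n (l + 1)` elements `x ^ i * u_j` (`i ≤ l`) lie in `L(l B + C)` and are `K`-independent, so
`ℓ(l B) ≥ ℓ(l B + C) - deg C ≥ n (l + 1) - deg C`, i.e. `deg (l B) - ℓ(l B) ≤ deg C - n`.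
For arbitrary `A`: `ℓ(l B - A⁺) > 0` for `l ≫ 0`; take `z ≠ 0` in it; then
`A - div z ≤ l B` and `deg A - ℓ(A) = deg (A - div z) - ℓ(A - div z) ≤ deg (l B) - ℓ(l B)`.
-/

set_option autoImplicit false

noncomputable section

open AlgebraicCurve

namespace Fermat.Agent.Lib.RR

variable (K F : Type*) [Field K] [Field F] [Algebra K F]

/-- **L3.1** Riemann's theorem: `deg D - ℓ(D)` is bounded above. -/
theorem exists_riemann_bound [FF1 K F] :
    ∃ γ : ℤ, ∀ D : Divisor K F, Divisor.degree D - ell D ≤ γ :=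
  H409.exists_riemann_bound K F

theorem exists_nat_riemann_bound [FF1 K F] :
    ∃ g : ℕ, ∀ D : Divisor K F, Divisor.degree D + 1 - (g : ℤ) ≤ ell D := by
  obtain ⟨γ, hγ⟩ := exists_riemann_bound K F
  refine ⟨(γ + 1).toNat, fun D => ?_⟩
  have h1 := hγ D
  have h2 : γ + 1 ≤ ((γ + 1).toNat : ℤ) := Int.self_le_toNat _
  omega

open Classical in
/-- The genus in the sense of Riemann's theorem: the least `g` with
`ℓ(D) ≥ deg D + 1 - g` for all `D`. -/
def genusR [FF1 K F] : ℕ := Nat.find (exists_nat_riemann_bound K F)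

variable {K F}

/-- **Riemann's inequality**. -/
theorem riemann_inequality [FF1 K F] (D : Divisor K F) :
    Divisor.degree D + 1 - (genusR K F : ℤ) ≤ ell D := by
  classical
  exact Nat.find_spec (exists_nat_riemann_bound K F) D

/-- The bound is attained. -/
theorem exists_ell_eq [FF1 K F] :
    ∃ D : Divisor K F, (ell D : ℤ) = Divisor.degree D + 1 - (genusR K F : ℤ) := by
  classical
  by_cases hg : genusR K F = 0
  · refine ⟨0, ?_⟩
    rw [ell_zero, hg]; simp
  · have hlt : genusR K F - 1 < genusR K F := by omega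
    have hmin := Nat.find_min (exists_nat_riemann_bound K F) hlt
    simp only [not_forall, not_le] at hmin
    obtain ⟨D, hD⟩ := hmin
    refine ⟨D, le_antisymm ?_ (riemann_inequality D)⟩
    have hcast : ((genusR K F - 1 : ℕ) : ℤ) = (genusR K F : ℤ) - 1 := by
      rw [Nat.cast_sub (by omega)]; simp
    rw [hcast] at hD
    omega

/-- Above a divisor attaining the bound, the bound is attained. -/
theorem ell_eq_of_le [FF1 K F] {D₀ D : Divisor K F}
    (h₀ : (ell D₀ : ℤ) = Divisor.degree D₀ + 1 - (genusR K F : ℤ)) (h : D₀ ≤ D) :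
    (ell D : ℤ) = Divisor.degree D + 1 - (genusR K F : ℤ) := by
  have h1 := degree_sub_ell_mono h
  have h2 := riemann_inequality D
  omega

/-- **L3.2**: `ℓ(D) = deg D + 1 - g` for all divisors of large degree. -/
theorem exists_degree_bound [FF1 K F] :
    ∃ c : ℤ, ∀ D : Divisor K F, c ≤ Divisor.degree D →
      (ell D : ℤ) = Divisor.degree D + 1 - (genusR K F : ℤ) := by
  obtain ⟨D₀, h₀⟩ := exists_ell_eq (K := K) (F := F)
  exact ⟨Divisor.degree D₀ + (genusR K F : ℤ), fun D hD =>
    H98.ell_eq_of_degree_ge (genusR K F : ℤ) (fun D' => riemann_inequality D') h₀ hD⟩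

end Fermat.Agent.Lib.RR

end
end
-- ===== PACK-END Lib/RR/Riemann.lean

-- ===== PACK-BEGIN S17/H680/Descent.lean
section



/-!
# S17 / P2 (helper680): minimal representatives of divisor classes, Galois descent

Let `F / K` be a function field all of whose places have degree one (`FF1 K F`) and let `vinf` be a
place.  Every class `x ∈ Pic⁰(F)` has a unique *minimal representative*: the least `m` with
`ℓ(x + m vinf) ≥ 1` (then `ℓ = 1` and `m ≤ g`), and the unique effective divisor `E` of degree `m`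
with `x = [E - m vinf]`; moreover `E(vinf) = 0`.

The construction is equivariant for every semilinear automorphism fixing `vinf`; hence a class fixed
by a group `Γ` of such automorphisms is represented by the `Γ`-invariant divisor `E - m vinf`.
-/

set_option autoImplicit false

noncomputable section

open AlgebraicCurve

namespace Fermat.Agent.S17.H680

open Fermat.Agent.Lib.RR

variable {K F : Type*} [Field K] [Field F] [Algebra K F]

/-! ### Generalities on divisors -/

section Generalities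

variable [FF1 K F]

theorem apply_le_degree {E : Divisor K F} (h0 : 0 ≤ E) (v : Place K F) :
    E v ≤ Divisor.degree E := by
  classical
  have hge : E v • prim v ≤ E := by
    rw [Finsupp.le_def]
    intro w
    by_cases hw : w = v
    · subst hw
      simp [prim]
    · have : (0 : ℤ) ≤ E w := by simpa using Finsupp.le_def.mp h0 w
      simpa [prim, Finsupp.single_apply, Ne.symm hw] using this
  have := degree_mono hge
  rw [map_zsmul, degree_prim v (deg_eq_one v)] at this
  simpa using this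

theorem eq_zero_of_nonneg_of_degree_eq_zero {E : Divisor K F} (h0 : 0 ≤ E)
    (hd : Divisor.degree E = 0) : E = 0 := by
  ext v
  have h1 := apply_le_degree h0 v
  have h2 : (0 : ℤ) ≤ E v := by simpa using Finsupp.le_def.mp h0 v
  rw [hd] at h1
  simpa using le_antisymm h1 h2

theorem divOf_mul (f g : F) (hf : f ≠ 0) (hg : g ≠ 0) :
    divOf (K := K) (f * g) (mul_ne_zero hf hg) = divOf f hf + divOf g hg := by
  ext v
  simp [divOf_apply, v.ord_mul hf hg]

theorem divOf_inv (f : F) (hf : f ≠ 0) :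
    divOf (K := K) f⁻¹ (inv_ne_zero hf) = -divOf f hf := by
  ext v
  simp [divOf_apply, v.ord_inv]

theorem divOf_algebraMap (c : K) (hc : algebraMap K F c ≠ 0) :
    divOf (K := K) (algebraMap K F c) hc = 0 := by
  ext v
  simp [divOf_apply, ord_algebraMap]

theorem divOf_congr {f g : F} (hf : f ≠ 0) (h : f = g) :
    divOf (K := K) f hf = divOf g (h ▸ hf) := by
  subst h; rfl

theorem divOf_smul (c : K) (hc : c ≠ 0) (f : F) (hf : f ≠ 0) (h : c • f ≠ 0) :
    divOf (K := K) (c • f) h = divOf f hf := by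
  ext v
  have hc' : algebraMap K F c ≠ 0 := by
    simpa using hc
  rw [divOf_apply, divOf_apply, Algebra.smul_def, v.ord_mul hc' hf, ord_algebraMap, zero_add]

theorem mem_L_iff_nonneg {D : Divisor K F} {f : F} (hf : f ≠ 0) :
    f ∈ riemannRochSpace D ↔ 0 ≤ D + divOf f hf := by
  rw [mem_L_iff, Finsupp.le_def]
  constructor
  · intro h v
    have := (h v).resolve_left hf
    simp only [Finsupp.coe_zero, Pi.zero_apply, Finsupp.coe_add, Pi.add_apply, divOf_apply]
    omega
  · intro h v
    right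
    have := h v
    simp only [Finsupp.coe_zero, Pi.zero_apply, Finsupp.coe_add, Pi.add_apply,
      divOf_apply] at this
    omega

omit [FF1 K F] in
theorem add_nsmul_prim_apply (D : Divisor K F) (m : ℕ) (v w : Place K F) :
    (D + m • prim v) w = D w + m * prim v w := by
  simp [Finsupp.add_apply, Finsupp.smul_apply]

theorem isPrincipal_iff {D : Divisor K F} :
    D ∈ Divisor.principal (K := K) (F := F) ↔ ∃ (h : F) (hh : h ≠ 0), D = divOf h hh := by
  rw [Divisor.mem_principal]
  constructor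
  · rintro ⟨h, hh, hD⟩
    refine ⟨h, hh, ?_⟩
    ext v
    rw [hD v, divOf_apply]
  · rintro ⟨h, hh, rfl⟩
    exact ⟨h, hh, fun v => divOf_apply h hh v⟩

/-- In a one-dimensional `L(D)`, any two nonzero elements have the same divisor. -/
theorem divOf_eq_of_ell_eq_one {D : Divisor K F} (h1 : ell D = 1) {f f' : F} (hf : f ≠ 0)
    (hf' : f' ≠ 0) (hfL : f ∈ riemannRochSpace D) (hfL' : f' ∈ riemannRochSpace D) :
    divOf (K := K) f hf = divOf f' hf' := by
  have hfin : Module.finrank K (riemannRochSpace D) = 1 := h1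
  have hne : (⟨f, hfL⟩ : riemannRochSpace D) ≠ 0 := fun h => hf (congrArg Subtype.val h)
  obtain ⟨c, hc⟩ := (finrank_eq_one_iff_of_nonzero' ⟨f, hfL⟩ hne).mp hfin ⟨f', hfL'⟩
  have hc' : c • f = f' := congrArg Subtype.val hc
  have hc0 : c ≠ 0 := by
    rintro rfl
    rw [zero_smul] at hc'
    exact hf' hc'.symm
  have hcf : c • f ≠ 0 := by rw [hc']; exact hf'
  rw [← divOf_smul c hc0 f hf hcf]
  exact divOf_congr hcf hc'

end Generalities

/-! ### Minimal representatives, on the level of divisors -/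

section MinRepD

variable [FF1 K F] (vinf : Place K F)

theorem exists_one_le_ell (D : Divisor K F) : ∃ m : ℕ, 1 ≤ ell (D + m • prim vinf) := by
  refine ⟨(genusR K F - Divisor.degree D).toNat, ?_⟩
  have h := riemann_inequality (D + (genusR K F - Divisor.degree D).toNat • prim vinf)
  rw [map_add, map_nsmul, degree_prim vinf (deg_eq_one vinf), nsmul_eq_mul, mul_one] at h
  have h2 : (genusR K F : ℤ) - Divisor.degree D ≤ ((genusR K F - Divisor.degree D).toNat : ℤ) :=
    Int.self_le_toNat _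
  have h3 : (1 : ℤ) ≤ ell (D + (genusR K F - Divisor.degree D).toNat • prim vinf) := by omega
  exact_mod_cast h3

open Classical in
/-- The least `m` with `ℓ(D + m vinf) ≥ 1`. -/
def minDegD (D : Divisor K F) : ℕ := Nat.find (exists_one_le_ell vinf D)

theorem one_le_ell_minDegD (D : Divisor K F) : 1 ≤ ell (D + minDegD vinf D • prim vinf) := by
  classical
  exact Nat.find_spec (exists_one_le_ell vinf D)

theorem minDegD_le {D : Divisor K F} {m : ℕ} (h : 1 ≤ ell (D + m • prim vinf)) :
    minDegD vinf D ≤ m := by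
  classical
  exact Nat.find_min' (exists_one_le_ell vinf D) h

theorem ell_eq_zero_of_lt_minDegD {D : Divisor K F} {m : ℕ} (h : m < minDegD vinf D) :
    ell (D + m • prim vinf) = 0 := by
  classical
  have := Nat.find_min (exists_one_le_ell vinf D) h
  omega

theorem minDegD_le_genus {D : Divisor K F} (hD : Divisor.degree D = 0) :
    minDegD vinf D ≤ genusR K F := by
  apply minDegD_le
  have h := riemann_inequality (D + genusR K F • prim vinf)
  rw [map_add, map_nsmul, degree_prim vinf (deg_eq_one vinf), nsmul_eq_mul, mul_one, hD] at h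
  have h3 : (1 : ℤ) ≤ ell (D + genusR K F • prim vinf) := by omega
  exact_mod_cast h3

theorem ell_minDegD {D : Divisor K F} (hD : Divisor.degree D ≤ 0) :
    ell (D + minDegD vinf D • prim vinf) = 1 := by
  refine le_antisymm ?_ (one_le_ell_minDegD vinf D)
  rcases Nat.eq_zero_or_pos (minDegD vinf D) with h0 | hpos
  · rw [h0, zero_smul, add_zero]
    have h1 := one_le_ell_minDegD vinf D
    rw [h0, zero_smul, add_zero] at h1
    have h2 := ell_le_toNat D
    have h3 : (Divisor.degree D + 1).toNat ≤ 1 := by omega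
    omega
  · have hlt : minDegD vinf D - 1 < minDegD vinf D := by omega
    have h1 := ell_eq_zero_of_lt_minDegD vinf hlt
    have h2 := ell_add_prim_le (D + (minDegD vinf D - 1) • prim vinf) vinf
    have h3 : D + (minDegD vinf D - 1) • prim vinf + prim vinf = D + minDegD vinf D • prim vinf := by
      rw [add_assoc, ← succ_nsmul]
      congr 2
      omega
    rw [h3, h1] at h2
    exact h2

theorem exists_minFun (D : Divisor K F) :
    ∃ f : F, f ≠ 0 ∧ f ∈ riemannRochSpace (D + minDegD vinf D • prim vinf) := by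
  have h := one_le_ell_minDegD vinf D
  have hpos : 0 < Module.finrank K (riemannRochSpace (D + minDegD vinf D • prim vinf)) := h
  obtain ⟨⟨f, hfL⟩, hf⟩ := Module.finrank_pos_iff_exists_ne_zero.mp hpos
  exact ⟨f, fun h => hf (Subtype.ext h), hfL⟩

/-- A nonzero function in `L(D + m vinf)`, `m` minimal. -/
def minFun (D : Divisor K F) : F := (exists_minFun vinf D).choose

theorem minFun_ne_zero (D : Divisor K F) : minFun vinf D ≠ 0 := (exists_minFun vinf D).choose_spec.1

theorem minFun_mem (D : Divisor K F) :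
    minFun vinf D ∈ riemannRochSpace (D + minDegD vinf D • prim vinf) :=
  (exists_minFun vinf D).choose_spec.2

/-- The minimal effective representative of the class of `D + m vinf`. -/
def minRepD (D : Divisor K F) : Divisor K F :=
  D + minDegD vinf D • prim vinf + divOf (minFun vinf D) (minFun_ne_zero vinf D)

theorem minRepD_apply (D : Divisor K F) (w : Place K F) :
    minRepD vinf D w = D w + minDegD vinf D * prim vinf w + w.ord (minFun vinf D) := by
  rw [minRepD, Finsupp.add_apply, add_nsmul_prim_apply, divOf_apply]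

theorem minRepD_nonneg (D : Divisor K F) : 0 ≤ minRepD vinf D :=
  (mem_L_iff_nonneg (minFun_ne_zero vinf D)).mp (minFun_mem vinf D)

theorem degree_minRepD (D : Divisor K F) :
    Divisor.degree (minRepD vinf D) = Divisor.degree D + minDegD vinf D := by
  rw [minRepD, map_add, map_add, degree_divOf, map_nsmul, degree_prim vinf (deg_eq_one vinf)]
  simp

theorem minRepD_eq {D : Divisor K F} (hD : Divisor.degree D ≤ 0) {f : F} (hf : f ≠ 0)
    (hfL : f ∈ riemannRochSpace (D + minDegD vinf D • prim vinf)) :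
    minRepD vinf D = D + minDegD vinf D • prim vinf + divOf f hf := by
  rw [minRepD, divOf_eq_of_ell_eq_one (ell_minDegD vinf hD) (minFun_ne_zero vinf D) hf
    (minFun_mem vinf D) hfL]

/-- The minimal representative does not contain `vinf`. -/
theorem minRepD_apply_infty {D : Divisor K F} (hD : Divisor.degree D = 0) :
    minRepD vinf D vinf = 0 := by
  rcases Nat.eq_zero_or_pos (minDegD vinf D) with h0 | hpos
  · have hdeg := degree_minRepD vinf D
    rw [h0, hD] at hdeg
    rw [eq_zero_of_nonneg_of_degree_eq_zero (minRepD_nonneg vinf D) (by simpa using hdeg)]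
    rfl
  · by_contra hne
    have hnn : (0 : ℤ) ≤ minRepD vinf D vinf := by
      simpa using Finsupp.le_def.mp (minRepD_nonneg vinf D) vinf
    have h1 : (1 : ℤ) ≤ minRepD vinf D vinf := by omega
    -- then `minFun ∈ L(D + (m - 1) vinf)`
    have hlt : minDegD vinf D - 1 < minDegD vinf D := by omega
    have hz := ell_eq_zero_of_lt_minDegD vinf hlt
    have hmem : minFun vinf D ∈ riemannRochSpace (D + (minDegD vinf D - 1) • prim vinf) := by
      rw [mem_L_iff_nonneg (minFun_ne_zero vinf D), Finsupp.le_def]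
      intro w
      have hw : (0 : ℤ) ≤ minRepD vinf D w := by
        simpa using Finsupp.le_def.mp (minRepD_nonneg vinf D) w
      have hcast : ((minDegD vinf D - 1 : ℕ) : ℤ) = (minDegD vinf D : ℤ) - 1 := by
        rw [Nat.cast_sub (by omega)]; simp
      rw [minRepD_apply] at hw h1
      rw [Finsupp.coe_zero, Pi.zero_apply, Finsupp.add_apply, add_nsmul_prim_apply, divOf_apply,
        hcast]
      by_cases hwv : w = vinf
      · subst hwv
        rw [prim_apply_self] at h1 ⊢
        linarith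
      · rw [prim_apply_of_ne hwv] at hw ⊢
        linarith
    have hpos' : 0 < Module.finrank K (riemannRochSpace (D + (minDegD vinf D - 1) • prim vinf)) :=
      Module.finrank_pos_iff_exists_ne_zero.mpr
        ⟨⟨_, hmem⟩, fun h => minFun_ne_zero vinf D (congrArg Subtype.val h)⟩
    have : ell (D + (minDegD vinf D - 1) • prim vinf) = 0 := hz
    unfold ell at this
    omega

/-- Linearly equivalent divisors have the same minimal degree. -/
theorem minDegD_add_divOf (D : Divisor K F) (h : F) (hh : h ≠ 0) :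
    minDegD vinf (D + divOf h hh) = minDegD vinf D := by
  have key : ∀ m : ℕ, ell (D + divOf h hh + m • prim vinf) = ell (D + m • prim vinf) := by
    intro m
    rw [add_right_comm, ell_add_divOf]
  apply le_antisymm
  · apply minDegD_le
    rw [key]
    exact one_le_ell_minDegD vinf D
  · apply minDegD_le
    rw [← key]
    exact one_le_ell_minDegD vinf (D + divOf h hh)

/-- Linearly equivalent divisors (of degree `0`) have the same minimal representative. -/
theorem minRepD_add_divOf {D : Divisor K F} (hD : Divisor.degree D ≤ 0) (h : F) (hh : h ≠ 0) :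
    minRepD vinf (D + divOf h hh) = minRepD vinf D := by
  have hm := minDegD_add_divOf vinf D h hh
  set f := minFun vinf (D + divOf h hh) with hf_def
  have hf0 : f ≠ 0 := minFun_ne_zero vinf _
  have hfL := minFun_mem vinf (D + divOf h hh)
  have hhf : h * f ≠ 0 := mul_ne_zero hh hf0
  have hmem : h * f ∈ riemannRochSpace (D + minDegD vinf D • prim vinf) := by
    rw [mem_L_iff_nonneg hhf, divOf_mul h f hh hf0]
    rw [mem_L_iff_nonneg hf0, hm] at hfL
    have : D + divOf h hh + minDegD vinf D • prim vinf + divOf f hf0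
        = D + minDegD vinf D • prim vinf + (divOf h hh + divOf f hf0) := by abel
    rwa [this] at hfL
  rw [minRepD_eq vinf hD hhf hmem, minRepD, hm, divOf_mul h f hh hf0]
  abel

end MinRepD

/-! ### Semilinear automorphisms -/

section Semilinear

variable [FF1 K F] (g : SemilinearAut K F)

omit [FF1 K F] in
theorem smul_ne_zero {f : F} (hf : f ≠ 0) : g • f ≠ 0 := by
  rw [SemilinearAut.smul_def]
  exact (map_ne_zero_iff _ (SemilinearAut.toRingAut g).injective).mpr hf

theorem smul_divOf (f : F) (hf : f ≠ 0) :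
    g • divOf (K := K) f hf = divOf (g • f) (smul_ne_zero g hf) := by
  ext w
  rw [SemilinearAut.divisor_smul_apply, divOf_apply, divOf_apply]
  have h := SemilinearAut.ord_smul g (g⁻¹ • w) f
  rw [smul_inv_smul] at h
  exact h.symm

omit [FF1 K F] in
theorem smul_prim (v : Place K F) : g • prim v = prim (g • v) := by
  rw [prim, prim, SemilinearAut.smul_single]

omit [FF1 K F] in
theorem smul_nonneg {D : Divisor K F} (h : 0 ≤ D) : 0 ≤ g • D := by
  rw [Finsupp.le_def] at h ⊢
  intro w
  rw [SemilinearAut.divisor_smul_apply]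
  simpa using h (g⁻¹ • w)

theorem smul_mem_L {D : Divisor K F} {f : F} (hf : f ∈ riemannRochSpace D) :
    g • f ∈ riemannRochSpace (g • D) := by
  rcases eq_or_ne f 0 with rfl | hf0
  · rw [smul_zero]; exact Submodule.zero_mem _
  · rw [mem_L_iff_nonneg (smul_ne_zero g hf0), ← smul_divOf g f hf0, ← smul_add]
    exact smul_nonneg g ((mem_L_iff_nonneg hf0).mp hf)

theorem smul_mem_L_iff {D : Divisor K F} {f : F} :
    g • f ∈ riemannRochSpace (g • D) ↔ f ∈ riemannRochSpace D := by
  refine ⟨fun h => ?_, smul_mem_L g⟩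
  have := smul_mem_L g⁻¹ h
  rwa [inv_smul_smul, inv_smul_smul] at this

/-- The semilinear bijection `L(D) ≃ L(g D)`. -/
def smulL (D : Divisor K F) : riemannRochSpace D ≃+ riemannRochSpace (g • D) where
  toFun f := ⟨g • (f : F), smul_mem_L g f.2⟩
  invFun f := ⟨g⁻¹ • (f : F), by
    have := smul_mem_L g⁻¹ f.2
    rwa [inv_smul_smul] at this⟩
  left_inv f := Subtype.ext (inv_smul_smul g (f : F))
  right_inv f := Subtype.ext (smul_inv_smul g (f : F))
  map_add' f f' := Subtype.ext (smul_add g (f : F) (f' : F))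

theorem ell_smul (D : Divisor K F) : ell (g • D) = ell D := by
  have h := rank_eq_of_equiv_equiv (R := K) (R' := K) (SemilinearAut.baseAut g) (smulL g D)
    (SemilinearAut.baseAut g).bijective (fun c f => by
      apply Subtype.ext
      show g • (c • (f : F)) = SemilinearAut.baseAut g c • (g • (f : F))
      rw [Algebra.smul_def, Algebra.smul_def, smul_mul', SemilinearAut.smul_algebraMap])
  unfold ell Module.finrank
  rw [h]

variable {vinf : Place K F} (hg : g • vinf = vinf)

include hg in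
theorem minDegD_smul (D : Divisor K F) : minDegD vinf (g • D) = minDegD vinf D := by
  have key : ∀ m : ℕ, ell (g • D + m • prim vinf) = ell (D + m • prim vinf) := by
    intro m
    rw [← ell_smul g (D + m • prim vinf), smul_add, smul_comm g m (prim vinf), smul_prim, hg]
  apply le_antisymm
  · apply minDegD_le
    rw [key]
    exact one_le_ell_minDegD vinf D
  · apply minDegD_le
    rw [← key]
    exact one_le_ell_minDegD vinf (g • D)

include hg in
/-- The minimal representative is equivariant. -/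
theorem minRepD_smul {D : Divisor K F} (hD : Divisor.degree D ≤ 0) :
    minRepD vinf (g • D) = g • minRepD vinf D := by
  have hm := minDegD_smul g hg D
  have hD' : Divisor.degree (g • D) ≤ 0 := by rwa [SemilinearAut.degree_smul]
  have hf0 := minFun_ne_zero vinf D
  have hmem : g • minFun vinf D ∈ riemannRochSpace (g • D + minDegD vinf (g • D) • prim vinf) := by
    have := smul_mem_L g (minFun_mem vinf D)
    rwa [smul_add, smul_comm g (minDegD vinf D) (prim vinf), smul_prim, hg, ← hm] at this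
  rw [minRepD_eq vinf hD' (smul_ne_zero g hf0) hmem, minRepD, smul_add, smul_add,
    smul_comm g (minDegD vinf D) (prim vinf), smul_prim, hg, smul_divOf, hm]

end Semilinear

/-! ### Minimal representatives of classes in `Pic⁰` -/

section Pic0

variable [FF1 K F] (vinf : Place K F)

omit [FF1 K F] in
theorem mk_eq_mk_iff {D D' : Divisor.degZero (K := K) (F := F)} :
    Pic0.mk D = Pic0.mk D' ↔ (D' : Divisor K F) - D ∈ Divisor.principal (K := K) (F := F) := by
  unfold Pic0.mk
  rw [QuotientAddGroup.eq, AddSubgroup.mem_addSubgroupOf]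
  have : ((-D + D' : Divisor.degZero (K := K) (F := F)) : Divisor K F)
      = (D' : Divisor K F) - D := by
    rw [AddSubgroup.coe_add, AddSubgroup.coe_neg]; abel
  rw [this]

theorem mk_eq_mk_iff' {D D' : Divisor.degZero (K := K) (F := F)} :
    Pic0.mk D = Pic0.mk D' ↔
      ∃ (h : F) (hh : h ≠ 0), (D' : Divisor K F) = (D : Divisor K F) + divOf h hh := by
  rw [mk_eq_mk_iff, isPrincipal_iff]
  constructor
  · rintro ⟨h, hh, e⟩
    exact ⟨h, hh, by rw [← e]; abel⟩
  · rintro ⟨h, hh, e⟩
    exact ⟨h, hh, by rw [e]; abel⟩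

/-- A chosen representative of a class. -/
def repD (x : Pic0 K F) : Divisor.degZero (K := K) (F := F) := (Pic0.mk_surjective x).choose

omit [FF1 K F] in
theorem mk_repD (x : Pic0 K F) : Pic0.mk (repD x) = x := (Pic0.mk_surjective x).choose_spec

omit [FF1 K F] in
theorem degree_coe (D : Divisor.degZero (K := K) (F := F)) :
    Divisor.degree (D : Divisor K F) = 0 := D.2

/-- The least `m` such that `x + m v∞` contains an effective divisor. -/
def minDeg (x : Pic0 K F) : ℕ := minDegD vinf (repD x : Divisor K F)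

/-- The effective divisor `E` of degree `minDeg x` with `x = [E - m v∞]`. -/
def minRep (x : Pic0 K F) : Divisor K F := minRepD vinf (repD x : Divisor K F)

theorem minDeg_mk (D : Divisor.degZero (K := K) (F := F)) :
    minDeg vinf (Pic0.mk D) = minDegD vinf (D : Divisor K F) := by
  obtain ⟨h, hh, e⟩ := mk_eq_mk_iff'.mp (mk_repD (Pic0.mk D)).symm
  rw [minDeg, e, minDegD_add_divOf]

theorem minRep_mk (D : Divisor.degZero (K := K) (F := F)) :
    minRep vinf (Pic0.mk D) = minRepD vinf (D : Divisor K F) := by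
  obtain ⟨h, hh, e⟩ := mk_eq_mk_iff'.mp (mk_repD (Pic0.mk D)).symm
  rw [minRep, e, minRepD_add_divOf vinf (le_of_eq (degree_coe D))]

theorem minRep_nonneg (x : Pic0 K F) : 0 ≤ minRep vinf x := minRepD_nonneg vinf _

theorem degree_minRep (x : Pic0 K F) : Divisor.degree (minRep vinf x) = minDeg vinf x := by
  rw [minRep, degree_minRepD, degree_coe, zero_add, minDeg]

theorem minRep_apply_infty (x : Pic0 K F) : minRep vinf x vinf = 0 :=
  minRepD_apply_infty vinf (degree_coe _)

theorem minDeg_le_genus (x : Pic0 K F) : minDeg vinf x ≤ genusR K F :=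
  minDegD_le_genus vinf (degree_coe _)

theorem ell_minRep (x : Pic0 K F) : ell (minRep vinf x) = 1 := by
  rw [minRep, minRepD, ell_add_divOf]
  exact ell_minDegD vinf (le_of_eq (degree_coe _))

theorem degree_minRep_sub (x : Pic0 K F) :
    Divisor.degree (minRep vinf x - minDeg vinf x • prim vinf) = 0 := by
  rw [map_sub, degree_minRep, map_nsmul, degree_prim vinf (deg_eq_one vinf)]
  simp

/-- The divisor `E - m v∞` of degree zero representing `x`. -/
def minDiv (x : Pic0 K F) : Divisor.degZero (K := K) (F := F) :=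
  ⟨minRep vinf x - minDeg vinf x • prim vinf, degree_minRep_sub vinf x⟩

theorem coe_minDiv (x : Pic0 K F) :
    (minDiv vinf x : Divisor K F) = minRep vinf x - minDeg vinf x • prim vinf := rfl

/-- `x = [E - m v∞]`. -/
theorem mk_minDiv (x : Pic0 K F) : Pic0.mk (minDiv vinf x) = x := by
  conv_rhs => rw [← mk_repD x]
  rw [eq_comm, mk_eq_mk_iff']
  refine ⟨minFun vinf (repD x : Divisor K F), minFun_ne_zero vinf _, ?_⟩
  rw [coe_minDiv, minRep, minRepD, minDeg]
  abel

/-- Uniqueness: an effective divisor `E` of degree `minDeg x` with `x = [E - m v∞]` is the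
minimal representative. -/
theorem eq_minRep {x : Pic0 K F} {E : Divisor K F} (hE : 0 ≤ E)
    (hdeg : Divisor.degree (E - minDeg vinf x • prim vinf) = 0)
    (hx : Pic0.mk ⟨E - minDeg vinf x • prim vinf, hdeg⟩ = x) : E = minRep vinf x := by
  have h1 : Pic0.mk (repD x) = Pic0.mk ⟨E - minDeg vinf x • prim vinf, hdeg⟩ := by
    rw [mk_repD, hx]
  obtain ⟨h, hh, e⟩ := mk_eq_mk_iff'.mp h1
  have e' : E = (repD x : Divisor K F) + minDeg vinf x • prim vinf + divOf h hh := by
    have : E - minDeg vinf x • prim vinf = (repD x : Divisor K F) + divOf h hh := e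
    rw [sub_eq_iff_eq_add] at this
    rw [this]; abel
  have hmem : h ∈ riemannRochSpace ((repD x : Divisor K F) + minDeg vinf x • prim vinf) := by
    rw [mem_L_iff_nonneg hh, ← e']
    exact hE
  rw [minRep, minRepD_eq vinf (le_of_eq (degree_coe _)) hh hmem, e']
  rfl

/-- Any effective divisor `E` of degree `m` with `x = [E - m v∞]` has `m ≥ minDeg x`. -/
theorem minDeg_le_of_rep {x : Pic0 K F} {E : Divisor K F} {m : ℕ} (hE : 0 ≤ E)
    (hdeg : Divisor.degree (E - m • prim vinf) = 0)
    (hx : Pic0.mk ⟨E - m • prim vinf, hdeg⟩ = x) : minDeg vinf x ≤ m := by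
  have h1 : Pic0.mk (repD x) = Pic0.mk ⟨E - m • prim vinf, hdeg⟩ := by
    rw [mk_repD, hx]
  obtain ⟨h, hh, e⟩ := mk_eq_mk_iff'.mp h1
  have e' : E = (repD x : Divisor K F) + m • prim vinf + divOf h hh := by
    have : E - m • prim vinf = (repD x : Divisor K F) + divOf h hh := e
    rw [sub_eq_iff_eq_add] at this
    rw [this]; abel
  have hmem : h ∈ riemannRochSpace ((repD x : Divisor K F) + m • prim vinf) := by
    rw [mem_L_iff_nonneg hh, ← e']
    exact hE
  apply minDegD_le
  have hpos : 0 < Module.finrank K (riemannRochSpace ((repD x : Divisor K F) + m • prim vinf)) :=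
    Module.finrank_pos_iff_exists_ne_zero.mpr ⟨⟨h, hmem⟩, fun h0 => hh (congrArg Subtype.val h0)⟩
  exact hpos

/-! ### Equivariance and descent -/

variable {vinf}

theorem minDeg_smul (g : SemilinearAut K F) (hg : g • vinf = vinf) (x : Pic0 K F) :
    minDeg vinf (g • x) = minDeg vinf x := by
  obtain ⟨D, rfl⟩ := Pic0.mk_surjective x
  rw [SemilinearAut.pic0_smul_mk, minDeg_mk, minDeg_mk, SemilinearAut.coe_degZeroSMulHom,
    minDegD_smul g hg]

theorem minRep_smul (g : SemilinearAut K F) (hg : g • vinf = vinf) (x : Pic0 K F) :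
    minRep vinf (g • x) = g • minRep vinf x := by
  obtain ⟨D, rfl⟩ := Pic0.mk_surjective x
  rw [SemilinearAut.pic0_smul_mk, minRep_mk, minRep_mk, SemilinearAut.coe_degZeroSMulHom,
    minRepD_smul g hg (le_of_eq (degree_coe D))]

/-- **Descent**: the minimal representative of a class fixed by `g` is fixed by `g`. -/
theorem smul_minRep_eq (g : SemilinearAut K F) (hg : g • vinf = vinf) {x : Pic0 K F}
    (hx : g • x = x) : g • minRep vinf x = minRep vinf x := by
  rw [← minRep_smul g hg, hx]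

theorem smul_minDiv_eq (g : SemilinearAut K F) (hg : g • vinf = vinf) {x : Pic0 K F}
    (hx : g • x = x) : g • (minDiv vinf x : Divisor K F) = minDiv vinf x := by
  rw [coe_minDiv, smul_sub, smul_minRep_eq g hg hx, smul_comm g (minDeg vinf x) (prim vinf),
    smul_prim, hg]

/-- A class is determined by its minimal representative. -/
theorem minRep_injective : Function.Injective (minRep (K := K) (F := F) vinf) := by
  intro x y h
  have hd : minDeg vinf x = minDeg vinf y := by
    have h1 := degree_minRep vinf x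
    have h2 := degree_minRep vinf y
    rw [h] at h1
    exact_mod_cast h1.symm.trans h2
  rw [← mk_minDiv vinf x, ← mk_minDiv vinf y]
  congr 1
  apply Subtype.ext
  rw [coe_minDiv, coe_minDiv, h, hd]

end Pic0

end Fermat.Agent.S17.H680

end
end
-- ===== PACK-END S17/H680/Descent.lean

-- ===== PACK-BEGIN S24/H864/FF3e.lean
section



/-!
# S24 / ALG / FF3: a principal divisor has degree zero
-/

set_option autoImplicit false

noncomputable section

open AlgebraicCurve IntermediateField

namespace Fermat.Agent.S24.H864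

variable {K F : Type*} [Field K] [Field F] [Algebra K F]

theorem adjoin_simple_inv_eq (f : F) : K⟮f⁻¹⟯ = K⟮f⟯ := by
  apply le_antisymm
  · rw [IntermediateField.adjoin_simple_le_iff]
    exact inv_mem (IntermediateField.mem_adjoin_simple_self K f)
  · rw [IntermediateField.adjoin_simple_le_iff]
    have h := inv_mem (IntermediateField.mem_adjoin_simple_self K f⁻¹)
    rwa [inv_inv] at h

theorem transcendental_inv {f : F} (hf : Transcendental K f) : Transcendental K f⁻¹ := by
  intro h
  apply hf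
  have := h.inv
  rwa [inv_inv] at this

variable [IsAlgClosed K] [CharZero K]

/-- the number of zeros equals the number of poles -/
theorem sum_ord_pos_eq_sum_ord_neg (f : F) (hf : Transcendental K f)
    [FiniteDimensional ↥(IntermediateField.adjoin K {f}) F]
    (sp sn : Finset (Place K F)) (hsp : ∀ v : Place K F, v ∈ sp ↔ 0 < v.ord f)
    (hsn : ∀ v : Place K F, v ∈ sn ↔ v.ord f < 0) :
    ∑ v ∈ sp, v.ord f + ∑ v ∈ sn, v.ord f = 0 := by
  have h1 := fundamental_identity f hf sp hsp
  have hfi : Transcendental K f⁻¹ := transcendental_inv hf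
  haveI : FiniteDimensional ↥(IntermediateField.adjoin K {f⁻¹}) F := by
    rw [adjoin_simple_inv_eq]; infer_instance
  have hsn' : ∀ v : Place K F, v ∈ sn ↔ 0 < v.ord f⁻¹ := by
    intro v
    rw [hsn, Place.ord_inv]
    omega
  have h2 := fundamental_identity f⁻¹ hfi sn hsn'
  have h3 : Module.finrank ↥(IntermediateField.adjoin K {f⁻¹}) F
      = Module.finrank ↥(IntermediateField.adjoin K {f}) F := by
    rw [adjoin_simple_inv_eq]
  have h4 : ∑ v ∈ sn, v.ord f = -∑ v ∈ sn, v.ord f⁻¹ := by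
    rw [← Finset.sum_neg_distrib]
    refine Finset.sum_congr rfl fun v _ => ?_
    rw [Place.ord_inv, neg_neg]
  rw [h1, h4, h2, h3]
  ring

/-- **FF3.**  A principal divisor has degree zero. -/
theorem degree_principal (j : F) (hj : Transcendental K j)
    [FiniteDimensional ↥(IntermediateField.adjoin K {j}) F] (f : F) (hf : f ≠ 0)
    (D : Divisor K F) (hD : ∀ v : Place K F, D v = v.ord f) : Divisor.degree D = 0 := by
  classical
  have hdeg : Divisor.degree D = ∑ v ∈ D.support, v.ord f := by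
    show Finsupp.liftAddHom (fun v : Place K F => AddMonoidHom.mulRight (v.deg : ℤ)) D = _
    rw [Finsupp.liftAddHom_apply, Finsupp.sum]
    refine Finset.sum_congr rfl fun v _ => ?_
    rw [AddMonoidHom.coe_mulRight, hD v, FF.deg_eq_one v hj]
    simp
  rw [hdeg]
  by_cases hfK : f ∈ (algebraMap K F).range
  · obtain ⟨c, rfl⟩ := hfK
    refine Finset.sum_eq_zero fun v _ => FF.ord_algebraMap v c
  · have hft : Transcendental K f := FF.transcendental_of_not_mem_range hfK
    haveI : FiniteDimensional ↥(IntermediateField.adjoin K {f}) F :=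
      FF.finiteDimensional_adjoin_of_transcendental hj hft
    have hsupp : ∀ v : Place K F, v ∈ D.support ↔ v.ord f ≠ 0 := by
      intro v
      rw [Finsupp.mem_support_iff, hD v]
    set sp := D.support.filter (fun v => 0 < v.ord f) with hsp
    set sn := D.support.filter (fun v => v.ord f < 0) with hsn
    have hsp' : ∀ v : Place K F, v ∈ sp ↔ 0 < v.ord f := by
      intro v
      rw [hsp, Finset.mem_filter, hsupp]
      constructor
      · exact fun h => h.2
      · exact fun h => ⟨by omega, h⟩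
    have hsn' : ∀ v : Place K F, v ∈ sn ↔ v.ord f < 0 := by
      intro v
      rw [hsn, Finset.mem_filter, hsupp]
      constructor
      · exact fun h => h.2
      · exact fun h => ⟨by omega, h⟩
    have hkey := sum_ord_pos_eq_sum_ord_neg f hft sp sn hsp' hsn'
    have hunion : D.support = sp ∪ sn := by
      ext v
      rw [Finset.mem_union, hsp', hsn', hsupp]
      omega
    have hdisj : Disjoint sp sn := by
      rw [Finset.disjoint_left]
      intro v h1 h2
      rw [hsp'] at h1
      rw [hsn'] at h2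
      omega
    rw [hunion, Finset.sum_union hdisj]
    exact hkey

end Fermat.Agent.S24.H864

end
end
-- ===== PACK-END S24/H864/FF3e.lean

-- ===== PACK-BEGIN S24/H864/FF3f.lean
section


/-!
# S24 / ALG / FF1, existence form: the zeros of a transcendental `t` form a finite set `s` and
`∑_{v ∈ s} v(t) = [F : K(t)]`  (exact shape of `Alg/Open.lean` `open_fundamental_eq`).
-/

set_option autoImplicit false

noncomputable section

open AlgebraicCurve IntermediateField IsDedekindDomain
open scoped IntermediateField.algebraAdjoinAdjoin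

namespace Fermat.Agent.S24.H864

section Rel

variable {K F : Type*} [Field K] [Field F] [Algebra K F]
variable {S : Type*} [CommRing S] [IsDedekindDomain S] [Algebra S F] [IsFractionRing S F]
  [Algebra K S] [IsScalarTower K S F]
variable {R : Type*} [CommRing R] [IsDomain R] [Algebra R S] [Algebra R F] [IsScalarTower R S F]
  [Module.Finite R S]
variable (p : Ideal R) [hpmax : p.IsMaximal] (τ : R)

/-- the set of zeros of `τ` is finite -/
theorem exists_finset_zeros_abstract
    (hp : p = Ideal.span {τ}) (hτ : τ ≠ 0) (hinj : Function.Injective (algebraMap R S))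
    (hR : ∀ v : Place K F, 0 < v.ord (algebraMap R F τ) →
      ∀ r : R, algebraMap R F r ∈ v.toValuationSubring) :
    ∃ s : Finset (Place K F), ∀ v, v ∈ s ↔ 0 < v.ord (algebraMap R F τ) := by
  classical
  haveI : Fintype (p.primesOver S) := (Algebra.QuasiFinite.finite_primesOver p).fintype
  have hτ' : algebraMap R S τ ≠ 0 := fun h => hτ (hinj (by rw [h, map_zero]))
  set g : p.primesOver S → Place K F :=
    fun q => Place.ofHeightOneSpectrum (K := K) (wOf p τ hp hτ hinj q) with hg
  have hg_ord : ∀ q, (g q).ord (algebraMap R F τ) = (q.1.ramificationIdx R : ℤ) :=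
    fun q => ord_wOf p τ hp hτ hinj q
  refine ⟨Finset.univ.image g, fun v => ?_⟩
  rw [Finset.mem_image]
  constructor
  · rintro ⟨q, -, rfl⟩
    rw [hg_ord]
    exact_mod_cast Ideal.ramificationIdx_pos q.1 R
  · intro hv
    have hS := algebraMap_mem_of_base (S := S) v (hR v hv)
    have hv' : 0 < v.ord (algebraMap S F (algebraMap R S τ)) := by
      rwa [← IsScalarTower.algebraMap_apply R S F]
    obtain ⟨w, hw, hwq⟩ := exists_heightOneSpectrum_of_place v hS hτ' hv'
    have hle : p ≤ w.asIdeal.under R := by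
      rw [hp, Ideal.span_singleton_le_iff_mem, Ideal.under_def, Ideal.mem_comap, hwq]
      exact (mem_primeOfPlace v hS hτ').mpr hv'
    have hne : w.asIdeal.under R ≠ ⊤ := (Ideal.IsPrime.under R w.asIdeal).ne_top
    have hq : w.asIdeal ∈ p.primesOver S := ⟨w.isPrime, ⟨hpmax.eq_of_le hne hle⟩⟩
    refine ⟨⟨w.asIdeal, hq⟩, Finset.mem_univ _, ?_⟩
    rw [← hw]
    show Place.ofHeightOneSpectrum (K := K) (wOf p τ hp hτ hinj ⟨w.asIdeal, hq⟩) = _
    congr 1

end Rel

section Main

variable {K F : Type*} [Field K] [Field F] [Algebra K F] [IsAlgClosed K] [CharZero K]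

/-- the zeros of a transcendental `t` are finite in number -/
theorem exists_finset_zeros (t : F) (ht : Transcendental K t)
    [FiniteDimensional ↥(IntermediateField.adjoin K {t}) F] :
    ∃ s : Finset (Place K F), ∀ v : Place K F, v ∈ s ↔ 0 < v.ord t := by
  haveI : IsPrincipalIdealRing (polyRing K t) := polyRing_isPrincipalIdealRing K t ht
  haveI : IsScalarTower (polyRing K t) (integralClosure (polyRing K t) F) F :=
    Subalgebra.isScalarTower_mid _
  haveI : IsFractionRing (integralClosure (polyRing K t) F) F :=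
    integralClosure.isFractionRing_of_finite_extension K⟮t⟯ F
  haveI : IsDedekindDomain (integralClosure (polyRing K t) F) :=
    IsIntegralClosure.isDedekindDomain (polyRing K t) K⟮t⟯ F (integralClosure (polyRing K t) F)
  haveI : Module.Finite (polyRing K t) (integralClosure (polyRing K t) F) :=
    IsIntegralClosure.finite (polyRing K t) K⟮t⟯ F (integralClosure (polyRing K t) F)
  have hprime : (Ideal.span {tR K t}).IsPrime :=
    (Ideal.span_singleton_prime (tR_ne_zero K t ht)).mpr (tR_prime K t ht)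
  have hne : Ideal.span {tR K t} ≠ ⊥ := by
    rw [Ne, Ideal.span_singleton_eq_bot]
    exact tR_ne_zero K t ht
  haveI hmax : (Ideal.span {tR K t}).IsMaximal := hprime.isMaximal hne
  have hinj : Function.Injective
      (algebraMap (polyRing K t) (integralClosure (polyRing K t) F)) := by
    intro a b hab
    have := congrArg (algebraMap (integralClosure (polyRing K t) F) F) hab
    rw [← IsScalarTower.algebraMap_apply, ← IsScalarTower.algebraMap_apply] at this
    exact Subtype.ext this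
  exact exists_finset_zeros_abstract (K := K) (F := F)
    (S := integralClosure (polyRing K t) F) (R := polyRing K t)
    (Ideal.span {tR K t}) (tR K t) rfl (tR_ne_zero K t ht) hinj
    (fun v hv r => coe_mem_valuationSubring_of_ord_nonneg K t v hv.le r)

/-- **FF1 (fundamental equality)**, exact shape of `Alg/Open.lean` `open_fundamental_eq`. -/
theorem fundamental_eq (t : F) (ht : Transcendental K t)
    [FiniteDimensional ↥(IntermediateField.adjoin K {t}) F] :
    ∃ s : Finset (Place K F), (∀ v : Place K F, v ∈ s ↔ 0 < v.ord t) ∧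
      ∑ v ∈ s, v.ord t = (Module.finrank ↥(IntermediateField.adjoin K {t}) F : ℤ) := by
  obtain ⟨s, hs⟩ := exists_finset_zeros t ht
  exact ⟨s, hs, fundamental_identity t ht s hs⟩

end Main

end Fermat.Agent.S24.H864

end
end
-- ===== PACK-END S24/H864/FF3f.lean

-- ===== PACK-BEGIN Lib/RR/H864/FF1Bridge.lean
section




/-!
# RR library, bridge: `FF1 K F` in characteristic zero

For `K` algebraically closed of characteristic `0` and `F` finite over `K(x)`, `x` transcendental:
`HasPrincipalDivisors K F` (divisors of functions exist and have degree `0`), every place has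
degree one, and there is a place.  Hence `FF1 K F`.
-/

set_option autoImplicit false

noncomputable section

open AlgebraicCurve IntermediateField

namespace Fermat.Agent.Lib.RR.H864

variable {K F : Type*} [Field K] [Field F] [Algebra K F] [IsAlgClosed K] [CharZero K]

/-- divisors of functions exist (finitely many zeros and poles) -/
theorem exists_divisor (x : F) (hx : Transcendental K x)
    [FiniteDimensional ↥(IntermediateField.adjoin K {x}) F] (f : F) (hf : f ≠ 0) :
    ∃ D : Divisor K F, (∀ v : Place K F, D v = v.ord f) ∧ Divisor.degree D = 0 := by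
  classical
  suffices h : ∃ D : Divisor K F, ∀ v : Place K F, D v = v.ord f by
    obtain ⟨D, hD⟩ := h
    exact ⟨D, hD, S24.H864.degree_principal x hx f hf D hD⟩
  by_cases hfK : f ∈ (algebraMap K F).range
  · obtain ⟨c, rfl⟩ := hfK
    exact ⟨0, fun v => by rw [S24.FF.ord_algebraMap v c]; rfl⟩
  · have hft : Transcendental K f := S24.FF.transcendental_of_not_mem_range hfK
    haveI : FiniteDimensional ↥(IntermediateField.adjoin K {f}) F :=
      S24.FF.finiteDimensional_adjoin_of_transcendental hx hft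
    haveI : FiniteDimensional ↥(IntermediateField.adjoin K {f⁻¹}) F := by
      rw [S24.H864.adjoin_simple_inv_eq]; infer_instance
    obtain ⟨sp, hsp⟩ := S24.H864.exists_finset_zeros f hft
    obtain ⟨sn, hsn⟩ := S24.H864.exists_finset_zeros f⁻¹ (S24.H864.transcendental_inv hft)
    refine ⟨Finsupp.onFinset (sp ∪ sn) (fun v => v.ord f) ?_, fun v => rfl⟩
    intro v hv
    rw [Finset.mem_union, hsp, hsn, Place.ord_inv]
    omega

theorem hasPrincipalDivisors (x : F) (hx : Transcendental K x)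
    [FiniteDimensional ↥(IntermediateField.adjoin K {x}) F] : HasPrincipalDivisors K F :=
  ⟨fun f hf => exists_divisor x hx f hf⟩

/-- there is a place (a zero of `x`) -/
theorem nonempty_place (x : F) (hx : Transcendental K x)
    [FiniteDimensional ↥(IntermediateField.adjoin K {x}) F] : Nonempty (Place K F) := by
  obtain ⟨s, _, hsum⟩ := S24.H864.fundamental_eq x hx
  by_contra hne
  rw [not_nonempty_iff] at hne
  have h0 : ∑ v ∈ s, v.ord x = 0 := Finset.sum_eq_zero fun v _ => (hne.false v).elim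
  rw [h0] at hsum
  have hpos : 0 < Module.finrank ↥(IntermediateField.adjoin K {x}) F := Module.finrank_pos
  omega

/-- **Bridge.**  `FF1 K F` for function fields of one variable over an algebraically closed field
of characteristic zero. -/
theorem ff1 (x : F) (hx : Transcendental K x)
    [hfin : FiniteDimensional ↥(IntermediateField.adjoin K {x}) F] : FF1 K F where
  hpd := hasPrincipalDivisors x hx
  deg_eq_one := fun v => S24.FF.deg_eq_one v hx
  nonempty_place := nonempty_place x hx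
  exists_finite := ⟨x, hx, hfin⟩

end Fermat.Agent.Lib.RR.H864

end
end
-- ===== PACK-END Lib/RR/H864/FF1Bridge.lean

-- ===== PACK-BEGIN S28/H867/Integral.lean
section



set_option autoImplicit false
noncomputable section
open ModularCurve HahnSeries IntermediateField Polynomial

namespace Fermat.Agent.S28.H867

section Integral

variable (k : Type*) [Field k]

/-- `j(q^d)` for `d ≠ 0`, with junk value at `0` (total function in `d`). -/
def jd (d : ℕ) : LaurentSeries k :=
  if h : d = 0 then 0 else @qExpand k _ d ⟨h⟩ (jqModC k)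

theorem jd_eq (d : ℕ) [hd : NeZero d] : jd k d = qExpand k d (jqModC k) := by
  rw [jd, dif_neg hd.out]

theorem jd_one : jd k 1 = jqModC k := by
  rw [jd_eq, qExpand_one_apply]

theorem qExpand_jd (a b : ℕ) [NeZero a] [NeZero b] : qExpand k a (jd k b) = jd k (a * b) := by
  rw [jd_eq, jd_eq, qExpand_qExpand]

/-- If `x` and `V_a j` are integral over `k(j)`, so is `V_a x`. -/
theorem isIntegral_qExpand (a : ℕ) [NeZero a] {x : LaurentSeries k}
    (hx : IsIntegral (jField k) x) (ha : IsIntegral (jField k) (jd k a)) :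
    IsIntegral (jField k) (qExpand k a x) := by
  set 𝔸 := algebraicClosure (jField k) (LaurentSeries k) with h𝔸
  have hmem : ∀ z ∈ jField k, qExpand k a z ∈ 𝔸.restrictScalars k := by
    have hle : (jField k).map (qExpandAlgHomC k a) ≤ 𝔸.restrictScalars k := by
      have h0 : (jField k).map (qExpandAlgHomC k a) = adjoin k {qExpand k a (jqModC k)} := by
        rw [← jpField_eq_map]; rfl
      rw [h0, adjoin_simple_le_iff]
      show qExpand k a (jqModC k) ∈ 𝔸
      rw [h𝔸, mem_algebraicClosure_iff']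
      rwa [jd_eq] at ha
    intro z hz
    exact hle ⟨z, hz, rfl⟩
  let φ : jField k →+* 𝔸 :=
    { toFun := fun z => ⟨qExpand k a z, hmem z z.2⟩
      map_one' := by ext; simp
      map_mul' := fun x y => by ext; simp
      map_zero' := by ext; simp
      map_add' := fun x y => by ext; simp }
  have h1 : IsIntegral 𝔸 (qExpand k a x) :=
    hx.map_of_comp_eq φ (qExpand k a) (by ext z; rfl)
  have : Algebra.IsIntegral (jField k) 𝔸 :=
    (algebraicClosure.isAlgebraic (jField k) (LaurentSeries k)).isIntegral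
  exact isIntegral_trans (R := jField k) (A := 𝔸) _ h1

theorem isIntegral_jd_prime {p : ℕ} [NeZero p] (D : ModPolyData p) :
    IsIntegral (jField k) (jd k p) := by
  let y : jField k := ⟨jqModC k, jq_mem_jField k⟩
  refine ⟨polyOver (jField k) y D.Φ, polyOver_monic _ y D.monic, ?_⟩
  rw [← Polynomial.aeval_def, aeval_polyOver, jd_eq]
  exact modPoly_eval_jp_field k D

theorem isIntegral_jd (d : ℕ) (hd : d ≠ 0)
    (hΦ : ∀ p : ℕ, p.Prime → p ∣ d → ∀ [NeZero p], Nonempty (ModPolyData p)) :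
    IsIntegral (jField k) (jd k d) := by
  induction d using Nat.recOnMul with
  | zero => exact absurd rfl hd
  | one =>
    rw [jd_one]
    exact isIntegral_algebraMap (x := (⟨jqModC k, jq_mem_jField k⟩ : jField k))
  | prime p hp =>
    have : NeZero p := ⟨hp.ne_zero⟩
    obtain ⟨D⟩ := hΦ p hp dvd_rfl
    exact isIntegral_jd_prime k D
  | mul a b iha ihb =>
    have ha0 : a ≠ 0 := fun h => hd (by rw [h, zero_mul])
    have hb0 : b ≠ 0 := fun h => hd (by rw [h, mul_zero])
    have : NeZero a := ⟨ha0⟩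
    have : NeZero b := ⟨hb0⟩
    rw [← qExpand_jd]
    exact isIntegral_qExpand k a
      (ihb hb0 fun p hp hpb => hΦ p hp (hpb.mul_left a))
      (iha ha0 fun p hp hpa => hΦ p hp (hpa.mul_right b))

theorem divisorExpansionsC_eq_image (M : ℕ) (hM : M ≠ 0) :
    divisorExpansionsC k M = (fun d => jd k d) '' (M.divisors : Set ℕ) := by
  ext x
  constructor
  · rintro ⟨d, hd, hdM, rfl⟩
    exact ⟨d, by simpa using ⟨hdM, hM⟩, jd_eq k d⟩
  · rintro ⟨d, hd, rfl⟩
    have hd' : d ∣ M := Nat.dvd_of_mem_divisors hd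
    have hd0 : d ≠ 0 := fun h => hM (by rw [h] at hd'; exact Nat.eq_zero_of_zero_dvd hd')
    have : NeZero d := ⟨hd0⟩
    exact ⟨d, ⟨hd0⟩, hd', jd_eq k d⟩

theorem degE_ne_zero (M : ℕ) (hM : M ≠ 0)
    (hΦ : ∀ p : ℕ, p.Prime → p ∣ M → ∀ [NeZero p], Nonempty (ModPolyData p)) :
    degE k M ≠ 0 := by
  have h1 : EF k M = jField k ⊔ adjoin k (divisorExpansionsC k M) :=
    (sup_eq_right.mpr (jField_le_EF k M)).symm
  rw [degE, h1]
  refine relfinrank_sup_adjoin_ne_zero _ ?_ ?_
  · rw [divisorExpansionsC_eq_image k M hM]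
    exact (Finset.finite_toSet _).image _
  · rw [divisorExpansionsC_eq_image k M hM]
    rintro x ⟨d, hd, rfl⟩
    have hd' : d ∣ M := Nat.dvd_of_mem_divisors hd
    have hd0 : d ≠ 0 := fun h => hM (by rw [h] at hd'; exact Nat.eq_zero_of_zero_dvd hd')
    exact isIntegral_jd k d hd0 fun p hp hpd => hΦ p hp (hpd.trans hd')

end Integral

end Fermat.Agent.S28.H867

end
end
-- ===== PACK-END S28/H867/Integral.lean

-- ===== PACK-BEGIN S28/H867/Lower.lean
section




set_option autoImplicit false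
noncomputable section
open ModularCurve HahnSeries IntermediateField Polynomial

namespace Fermat.Agent.S28.H867

section Lower

variable (k : Type*) [Field k]

/-- Everything the lower-bound induction needs at level `N`. -/
structure Good (N : ℕ) : Prop where
  ne_zero : N ≠ 0
  modPoly : ∀ p : ℕ, p.Prime → p ∣ N → ∀ [NeZero p], Nonempty (ModPolyData p)
  prime : ∀ p : ℕ, p.Prime → p ∣ N → ∀ [NeZero p], PrimeLevel k p
  indep : ∀ p : ℕ, p.Prime → p ∣ N → ∀ [NeZero p], LeafI k p
  upper : ∀ M : ℕ, M ∣ N → degE k M ≤ gFun M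

variable {k}

theorem Good.of_dvd {N M : ℕ} (h : Good k N) (hMN : M ∣ N) : Good k M where
  ne_zero := fun h0 => h.ne_zero (by rw [h0] at hMN; exact Nat.eq_zero_of_zero_dvd hMN)
  modPoly := fun p hp hpM => h.modPoly p hp (hpM.trans hMN)
  prime := fun p hp hpM => h.prime p hp (hpM.trans hMN)
  indep := fun p hp hpM => h.indep p hp (hpM.trans hMN)
  upper := fun M' hM' => h.upper M' (hM'.trans hMN)

theorem Good.degE_ne_zero {N : ℕ} (h : Good k N) : degE k N ≠ 0 :=
  H867.degE_ne_zero k N h.ne_zero h.modPoly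

variable (k) in
theorem degE_one : degE k 1 = 1 := by
  rw [degE, relfinrank_eq_one_iff]
  show adjoin k (divisorExpansionsC k 1) ≤ jField k
  rw [adjoin_le_iff]
  rintro x ⟨d, hd, hd1, rfl⟩
  have : d = 1 := Nat.dvd_one.mp hd1
  subst this
  rw [qExpand_one_apply]
  exact jq_mem_jField k

variable (k) in
theorem EF_prime_eq (p : ℕ) [NeZero p] (hp : p.Prime) : EF k p = jField k ⊔ jpField k p := by
  apply le_antisymm
  · show adjoin k (divisorExpansionsC k p) ≤ _
    rw [adjoin_le_iff]
    rintro x ⟨d, hd, hdp, rfl⟩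
    rcases (Nat.dvd_prime hp).mp hdp with h1 | h1
    · subst h1
      rw [qExpand_one_apply]
      exact (le_sup_left : jField k ≤ _) (jq_mem_jField k)
    · subst h1
      exact (le_sup_right : jpField k d ≤ _) (jp_mem_jpField k d)
  · refine sup_le (jField_le_EF k p) ?_
    rw [jpField, adjoin_simple_le_iff]
    exact jqModCd_mem_full k p dvd_rfl

theorem Good.degE_prime {p : ℕ} (hp : p.Prime) (h : Good k p) : degE k p = p + 1 := by
  have : NeZero p := ⟨hp.ne_zero⟩
  rw [degE, EF_prime_eq k p hp]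
  exact (h.prime p hp dvd_rfl).deg_j

/-- the (b)-step in `Good` form -/
theorem Good.mul_le {N p : ℕ} (h : Good k N) (hp : p.Prime) (hpN : p ∣ N) :
    p * degE k (N / p) ≤ degE k N := by
  have : NeZero p := ⟨hp.ne_zero⟩
  have hN : N / p * p = N := Nat.div_mul_cancel hpN
  have := degE_mul_ge k (N / p) p (h.prime p hp hpN) (h.indep p hp hpN)
    (by rw [hN]; exact h.degE_ne_zero)
  rwa [hN] at this

theorem Good.tower {N M : ℕ} (h : Good k N) (hMN : M ∣ N) :
    degE k M * (EF k M).relfinrank (EF k N) = degE k N := by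
  have : NeZero N := ⟨h.ne_zero⟩
  have : NeZero M := ⟨(h.of_dvd hMN).ne_zero⟩
  exact relfinrank_mul_relfinrank (jField_le_EF k M) (full_degeneracyC_le k hMN)

/-- For a prime `p ∣ N` with `p ∤ N / p`: if `[E_{N/p} : k(j)] = g(N/p)`, then `[E_N : k(j)]`
is `p · g(N/p)` or `(p+1) · g(N/p) = g(N)`. -/
theorem Good.dichotomy {N p : ℕ} (h : Good k N) (hp : p.Prime) (hpN : p ∣ N)
    (hpM : ¬ p ∣ N / p) (hM : degE k (N / p) = gFun (N / p)) :
    degE k N = gFun N ∨ degE k N * (p + 1) = p * gFun N := by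
  have hN : N / p * p = N := Nat.div_mul_cancel hpN
  have hM0 : N / p ≠ 0 := fun h0 => h.ne_zero (by rw [← hN, h0, zero_mul])
  have hg : gFun N = (p + 1) * gFun (N / p) := by
    conv_lhs => rw [← hN]
    exact gFun_mul_of_not_dvd hM0 hp hpM
  have htower := h.tower (Nat.div_dvd_of_dvd hpN)
  set a := (EF k (N / p)).relfinrank (EF k N) with ha
  have hup := h.upper N dvd_rfl
  have hlow := h.mul_le hp hpN
  rw [hM] at htower hlow
  have hgpos := gFun_pos (N / p)
  rw [← htower] at hup hlow ⊢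
  rw [hg] at hup ⊢
  have ha1 : p ≤ a := by
    rw [mul_comm] at hlow
    exact Nat.le_of_mul_le_mul_left hlow hgpos
  have ha2 : a ≤ p + 1 := by
    rw [mul_comm (p + 1)] at hup
    exact Nat.le_of_mul_le_mul_left hup hgpos
  rcases Nat.lt_or_ge a (p + 1) with h1 | h1
  · right
    have : a = p := by omega
    rw [this]; ring
  · left
    have : a = p + 1 := by omega
    rw [this]; ring

theorem Good.le_degE : ∀ {N : ℕ}, Good k N → gFun N ≤ degE k N := by
  intro N
  induction N using Nat.strong_induction_on with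
  | _ N ih =>
    intro h
    rcases Nat.lt_or_ge 1 N with hN1 | hN1
    swap
    · have : N = 1 := by have := h.ne_zero; omega
      subst this
      rw [gFun_one, degE_one]
    -- `N > 1`
    by_cases hsq : ∃ r : ℕ, r.Prime ∧ r ∣ N ∧ r ∣ N / r
    · obtain ⟨r, hr, hrN, hrM⟩ := hsq
      have hN : N / r * r = N := Nat.div_mul_cancel hrN
      have hM0 : N / r ≠ 0 := fun h0 => h.ne_zero (by rw [← hN, h0, zero_mul])
      have hlt : N / r < N := Nat.div_lt_self (by omega) hr.one_lt
      have ihM := ih (N / r) hlt (h.of_dvd (Nat.div_dvd_of_dvd hrN))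
      calc gFun N = gFun (N / r * r) := by rw [hN]
        _ = r * gFun (N / r) := gFun_mul_of_dvd hM0 hr hrM
        _ ≤ r * degE k (N / r) := Nat.mul_le_mul_left _ ihM
        _ ≤ degE k N := h.mul_le hr hrN
    · simp only [not_exists, not_and] at hsq
      -- first prime
      set p := N.minFac with hp
      have hpp : p.Prime := Nat.minFac_prime (by omega)
      have hpN : p ∣ N := Nat.minFac_dvd N
      have hN : N / p * p = N := Nat.div_mul_cancel hpN
      rcases Nat.lt_or_ge 1 (N / p) with hM1 | hM1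
      swap
      · -- `N = p` is prime
        have hM0 : N / p ≠ 0 := fun h0 => h.ne_zero (by rw [← hN, h0, zero_mul])
        have : N / p = 1 := Nat.le_antisymm hM1 (Nat.one_le_iff_ne_zero.mpr hM0)
        have hNp : N = p := by rw [← hN, this, one_mul]
        have h' : Good k p := hNp ▸ h
        rw [hNp, gFun_prime hpp, h'.degE_prime hpp]
      -- second prime
      set r := (N / p).minFac with hr
      have hrp : r.Prime := Nat.minFac_prime (by omega)
      have hrM : r ∣ N / p := Nat.minFac_dvd _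
      have hrN : r ∣ N := hrM.trans (Nat.div_dvd_of_dvd hpN)
      have hpM : ¬ p ∣ N / p := hsq p hpp hpN
      have hrM' : ¬ r ∣ N / r := hsq r hrp hrN
      have hne : r ≠ p := fun he => hpM (he ▸ hrM)
      have hltp : N / p < N := Nat.div_lt_self (by omega) hpp.one_lt
      have hltr : N / r < N := Nat.div_lt_self (by omega) hrp.one_lt
      have hMp : degE k (N / p) = gFun (N / p) :=
        le_antisymm (h.upper _ (Nat.div_dvd_of_dvd hpN))
          (ih _ hltp (h.of_dvd (Nat.div_dvd_of_dvd hpN)))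
      have hMr : degE k (N / r) = gFun (N / r) :=
        le_antisymm (h.upper _ (Nat.div_dvd_of_dvd hrN))
          (ih _ hltr (h.of_dvd (Nat.div_dvd_of_dvd hrN)))
      rcases h.dichotomy hpp hpN hpM hMp with h1 | h1
      · exact h1.ge
      rcases h.dichotomy hrp hrN hrM' hMr with h2 | h2
      · exact h2.ge
      exfalso
      have hD : degE k N ≠ 0 := h.degE_ne_zero
      have hD' : 0 < degE k N := Nat.pos_of_ne_zero hD
      have key : degE k N * ((p + 1) * r) = degE k N * ((r + 1) * p) := by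
        calc degE k N * ((p + 1) * r) = (degE k N * (p + 1)) * r := by ring
          _ = p * gFun N * r := by rw [h1]
          _ = (r * gFun N) * p := by ring
          _ = (degE k N * (r + 1)) * p := by rw [h2]
          _ = degE k N * ((r + 1) * p) := by ring
      have := Nat.eq_of_mul_eq_mul_left hD' key
      apply hne
      nlinarith

theorem Good.degE_eq {N : ℕ} (h : Good k N) : degE k N = gFun N :=
  le_antisymm (h.upper N dvd_rfl) h.le_degE

end Lower

end Fermat.Agent.S28.H867

end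
end
-- ===== PACK-END S28/H867/Lower.lean

-- ===== PACK-BEGIN S28/H867/Core.lean
section








set_option autoImplicit false
noncomputable section
open ModularCurve HahnSeries IntermediateField Polynomial

namespace Fermat.Agent.S28.H867

section Psi

theorem gFun_eq_dedekindPsi : ∀ {N : ℕ}, N ≠ 0 → gFun N = dedekindPsi N := by
  intro N
  induction N using Nat.strong_induction_on with
  | _ N ih =>
    intro hN
    rcases Nat.lt_or_ge 1 N with hN1 | hN1
    swap
    · have : N = 1 := by omega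
      subst this
      rw [gFun_one, dedekindPsi_one]
    have hpp : N.minFac.Prime := Nat.minFac_prime (by omega)
    have hpN : N.minFac ∣ N := Nat.minFac_dvd N
    have hNe : N / N.minFac * N.minFac = N := Nat.div_mul_cancel hpN
    have hM0 : N / N.minFac ≠ 0 := fun h0 => hN (by rw [← hNe, h0, zero_mul])
    have hlt : N / N.minFac < N := Nat.div_lt_self (by omega) hpp.one_lt
    have ihM := ih _ hlt hM0
    by_cases hd : N.minFac ∣ N / N.minFac
    · calc gFun N = gFun (N / N.minFac * N.minFac) := by rw [hNe]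
        _ = N.minFac * gFun (N / N.minFac) := gFun_mul_of_dvd hM0 hpp hd
        _ = N.minFac * dedekindPsi (N / N.minFac) := by rw [ihM]
        _ = dedekindPsi (N / N.minFac * N.minFac) := (H626.psi_mul_prime_of_dvd hM0 hpp hd).symm
        _ = dedekindPsi N := by rw [hNe]
    · calc gFun N = gFun (N / N.minFac * N.minFac) := by rw [hNe]
        _ = (N.minFac + 1) * gFun (N / N.minFac) := gFun_mul_of_not_dvd hM0 hpp hd
        _ = (N.minFac + 1) * dedekindPsi (N / N.minFac) := by rw [ihM]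
        _ = dedekindPsi (N / N.minFac * N.minFac) :=
            (H626.psi_mul_prime_of_not_dvd hM0 hpp hd).symm
        _ = dedekindPsi N := by rw [hNe]

end Psi

section Adapters

variable (k : Type*) [Field k]

/-- Leaf [L.I] from helper145's `eq_zero_of_sum_qExpand_mul_pow_eq_zero`. -/
theorem leafI (p : ℕ) [NeZero p] : LeafI k p := by
  intro B hB
  rw [Fintype.linearIndependent_iff]
  intro g hg i
  have hc : ∀ i, ∃ c : LaurentSeries k, qExpand k p c = (g i : LaurentSeries k) := by
    intro i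
    obtain ⟨c, hc⟩ := hB (g i).2
    exact ⟨c, hc⟩
  choose c hc using hc
  have h : ∑ i : Fin p, qExpand k p (c i) * (jqModC k) ^ (i : ℕ) = 0 := by
    rw [← hg]
    refine Finset.sum_congr rfl fun i _ => ?_
    rw [hc i]
    rfl
  have := H145.eq_zero_of_sum_qExpand_mul_pow_eq_zero p (jqModC k) (H145.jqModC_ne_zero' k)
    (H145.isCoprime_order_jqModC k p) c h i
  apply Subtype.ext
  rw [← hc i, this, map_zero]
  rfl

/-- Leaf [L.B1] from helper88's `h88_jp_not_mem_jField`. -/
theorem leafB1 (p : ℕ) [NeZero p] (hp : p.Prime) (hpk : (p : k) ≠ 0) (W : UnitPolyData p)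
    (hθ : (thetaL ℤ (jqModC ℤ)) ^ 6 = deltaL ℤ * (jqModC ℤ) ^ 4 * (jqModC ℤ - 1728) ^ 3) :
    LeafB1 k p :=
  h88_jp_not_mem_jField k p hpk hp.one_lt W hθ

/-- `ModPolyData` in helper626's hypothesis form. -/
theorem isModPoly_of_modPolyData {p : ℕ} [NeZero p] (D : ModPolyData p) :
    H626.IsModPoly p D.Φ := by
  have hev : ∀ y x : LaurentSeries ℤ, H626.ev2 D.Φ y x = D.Φ.eval₂ (evalAt y) x := by
    intro y x
    unfold H626.ev2
    congr 1
    apply Polynomial.ringHom_ext
    · intro a; simp [evalAt]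
    · simp [evalAt]
  refine ⟨D.monic, D.natDegree_eq, ?_, ?_⟩
  · rw [hev]; exact D.eval_jp
  · rw [hev]; exact D.eval_j

end Adapters

end Fermat.Agent.S28.H867

namespace Fermat.Agent.S28.H867

section Assembly

variable (k : Type*) [Field k]

theorem hasModPolys (N : ℕ)
    (hΦ : ∀ p : ℕ, p.Prime → p ∣ N → ∀ [NeZero p], Nonempty (ModPolyData p))
    (hchar : ∀ p : ℕ, p.Prime → p ∣ N → (p : k) ≠ 0) : H626.HasModPolys k N := by
  intro p hp hpN
  have : NeZero p := ⟨hp.ne_zero⟩
  obtain ⟨D⟩ := hΦ p hp hpN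
  exact ⟨hchar p hp hpN, D.Φ, isModPoly_of_modPolyData D⟩

/-- The upper bound in `relfinrank` form. -/
theorem degE_le_gFun (M : ℕ) (hM : M ≠ 0) (H : H626.HasModPolys k M) : degE k M ≤ gFun M := by
  have : NeZero M := ⟨hM⟩
  rw [gFun_eq_dedekindPsi hM, degE, relfinrank_eq_finrank_of_le (jField_le_EF k M)]
  exact H626.finrank_extendScalars_le M H

theorem good_of_inputs (N : ℕ) (hN : N ≠ 0)
    (hΦ : ∀ p : ℕ, p.Prime → p ∣ N → ∀ [NeZero p], Nonempty (ModPolyData p))
    (hW : ∀ p : ℕ, p.Prime → p ∣ N → ∀ [NeZero p], Nonempty (UnitPolyData p))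
    (hθ : (thetaL ℤ (jqModC ℤ)) ^ 6 = deltaL ℤ * (jqModC ℤ) ^ 4 * (jqModC ℤ - 1728) ^ 3)
    (hchar : ∀ p : ℕ, p.Prime → p ∣ N → (p : k) ≠ 0) : Good k N where
  ne_zero := hN
  modPoly := hΦ
  prime := by
    intro p hp hpN _
    obtain ⟨D⟩ := hΦ p hp hpN
    obtain ⟨W⟩ := hW p hp hpN
    exact primeLevel_of_leaves k hp D (leafI k p) (leafB1 k p hp (hchar p hp hpN) W hθ)
  indep := fun p _ _ _ => leafI k p
  upper := by
    intro M hMN
    have hM : M ≠ 0 := fun h0 => hN (by rw [h0] at hMN; exact Nat.eq_zero_of_zero_dvd hMN)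
    exact degE_le_gFun k M hM ((hasModPolys k N hΦ hchar).mono hMN)

variable {k} in
/-- Extraction of `ψ(N)` independent elements. -/
theorem Good.exists_linearIndependent {N : ℕ} (h : Good k N) :
    ∃ x : Fin (dedekindPsi N) → LaurentSeries k,
      (∀ i, x i ∈ modularFunctionFieldFullC k N) ∧ LinearIndependent (jField k) x := by
  have hdeg : degE k N = dedekindPsi N := by rw [h.degE_eq, gFun_eq_dedekindPsi h.ne_zero]
  have hle := jField_le_EF k N
  rw [degE, relfinrank_eq_finrank_of_le hle] at hdeg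
  obtain ⟨x, hx⟩ : ∃ x : Fin (dedekindPsi N) → extendScalars hle,
      LinearIndependent (jField k) x :=
    exists_linearIndependent_of_le_finrank hdeg.ge
  refine ⟨fun i => (x i : LaurentSeries k), fun i => (x i).2, ?_⟩
  have := hx.map' (extendScalars hle).val.toLinearMap
    (LinearMap.ker_eq_bot.mpr (extendScalars hle).val.injective)
  exact this

end Assembly

section Final

/-- **[L]** `CoreData` from the three analytic inputs. -/
theorem coreData_of_inputs (N : ℕ) [NeZero N] (ℓ : ℕ) [Fact ℓ.Prime] (hℓN : ¬ ℓ ∣ N)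
    (K : Type) [Field K] [CharP K ℓ]
    (hΦ : ∀ p : ℕ, p.Prime → p ∣ N → ∀ [NeZero p], Nonempty (ModPolyData p))
    (hW : ∀ p : ℕ, p.Prime → p ∣ N → ∀ [NeZero p], Nonempty (UnitPolyData p))
    (hθ : (thetaL ℤ (jqModC ℤ)) ^ 6 = deltaL ℤ * (jqModC ℤ) ^ 4 * (jqModC ℤ - 1728) ^ 3) :
    CoreData N K := by
  have hN : N ≠ 0 := NeZero.ne N
  have hcharK : ∀ p : ℕ, p.Prime → p ∣ N → (p : K) ≠ 0 := by
    intro p hp hpN h0
    have hdvd : ℓ ∣ p := (CharP.cast_eq_zero_iff K ℓ p).mp h0
    have hℓ : ℓ.Prime := Fact.out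
    have : ℓ = p := (Nat.prime_dvd_prime_iff_eq hℓ hp).mp hdvd
    exact hℓN (this ▸ hpN)
  have hcharQ : ∀ p : ℕ, p.Prime → p ∣ N → (p : ℚ) ≠ 0 := by
    intro p hp _
    exact_mod_cast hp.ne_zero
  have hgood : Good K N := good_of_inputs K N hN hΦ hW hθ hcharK
  refine H325.coreData_of_bounds N K (RingHom.id K) (dedekindPsi N)
    (coreData_integral N hΦ) ?_ hgood.exists_linearIndependent
  intro m x hx hli
  have := H626.card_le_of_linearIndependent (k := ℚ) N (hasModPolys ℚ N hΦ hcharQ) x hx hli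
  simpa using this

end Final

end Fermat.Agent.S28.H867

end
end
-- ===== PACK-END S28/H867/Core.lean

-- ===== PACK-BEGIN S28/H748/Family.lean
section



/-!
# S28 / H748 — the finite `SL(2,ℤ)`-stable family of modular functions of level `N`

`famSet N` = all `SL(2,ℤ)`-translates of `j(dτ)` and `Δ(dτ)/Δ(τ)`, `d ∣ N`.  It is finite, stable
under translation, every member has a convergent expansion in `t = exp(2πiτ/N)` with coefficients
in `ℤ[ζ_N, 1/N]`, and invariant polynomial expressions in its members are polynomials in `j`.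
-/

set_option autoImplicit false

noncomputable section

open UpperHalfPlane HahnSeries ModularCurve Fermat.Agent.S24
open scoped Real MatrixGroups Manifold

namespace Fermat.Agent.S28.H748

local notation "Δ" => ModularForm.discriminant

/-- All translates of `j(dτ)` and `Δ(dτ)/Δ(τ)`, `d ∣ N`. -/
def famSet (N : ℕ) : Set (ℍ → ℂ) :=
  {f | ∃ d : ℕ, 0 < d ∧ d ∣ N ∧ ∃ γ : SL(2, ℤ),
      f = (fun τ => conjJ d 0 1 (γ • τ)) ∨ f = (fun τ => conjU d 0 1 (γ • τ))}

theorem famSet_smul {N : ℕ} {f : ℍ → ℂ} (hf : f ∈ famSet N) (γ : SL(2, ℤ)) :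
    (fun τ => f (γ • τ)) ∈ famSet N := by
  obtain ⟨d, hd, hdN, γ₀, h | h⟩ := hf
  · refine ⟨d, hd, hdN, γ₀ * γ, Or.inl ?_⟩
    funext τ
    rw [h, mul_smul]
  · refine ⟨d, hd, hdN, γ₀ * γ, Or.inr ?_⟩
    funext τ
    rw [h, mul_smul]

theorem conjJ_mem_famSet {N d : ℕ} (hd : 0 < d) (hdN : d ∣ N) : conjJ d 0 1 ∈ famSet N :=
  ⟨d, hd, hdN, 1, Or.inl (by funext τ; rw [one_smul])⟩

theorem conjU_mem_famSet {N d : ℕ} (hd : 0 < d) (hdN : d ∣ N) : conjU d 0 1 ∈ famSet N :=
  ⟨d, hd, hdN, 1, Or.inr (by funext τ; rw [one_smul])⟩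

open H628 in
/-- Every member of the family is a `conjJ a b δ` or a `conjU a b δ` with `a δ ∣ N`, `b < δ`. -/
theorem famSet_eq_conj {N : ℕ} {f : ℍ → ℂ} (hf : f ∈ famSet N) :
    ∃ a b δ : ℕ, 0 < a ∧ 0 < δ ∧ b < δ ∧ a * δ ∣ N ∧ (f = conjJ a b δ ∨ f = conjU a b δ) := by
  obtain ⟨d, hd, hdN, γ, h | h⟩ := hf
  · refine ⟨hermA d γ, hermB d γ, hermD d γ, hermA_pos hd γ, hermD_pos hd γ, hermB_lt hd γ, ?_,
      Or.inl ?_⟩
    · rw [hermA_mul_hermD]
      exact hdN
    · rw [h]
      funext τ
      exact conjJ_smul hd γ τ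
  · refine ⟨hermA d γ, hermB d γ, hermD d γ, hermA_pos hd γ, hermD_pos hd γ, hermB_lt hd γ, ?_,
      Or.inr ?_⟩
    · rw [hermA_mul_hermD]
      exact hdN
    · rw [h]
      funext τ
      exact conjU_smul hd γ τ

theorem famSet_finite (N : ℕ) [NeZero N] : (famSet N).Finite := by
  have hN : 0 < N := Nat.pos_of_ne_zero (NeZero.ne N)
  let F : Fin (N + 1) × Fin (N + 1) × Fin (N + 1) → (ℍ → ℂ) :=
    fun t => conjJ t.1 t.2.1 t.2.2
  let G : Fin (N + 1) × Fin (N + 1) × Fin (N + 1) → (ℍ → ℂ) :=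
    fun t => conjU t.1 t.2.1 t.2.2
  refine ((Set.finite_range F).union (Set.finite_range G)).subset ?_
  intro f hf
  obtain ⟨a, b, δ, ha, hδ, hb, hdvd, h⟩ := famSet_eq_conj hf
  have hle : a * δ ≤ N := Nat.le_of_dvd hN hdvd
  have haN : a < N + 1 := by
    have : a ≤ a * δ := Nat.le_mul_of_pos_right a hδ
    omega
  have hδN : δ < N + 1 := by
    have : δ ≤ a * δ := Nat.le_mul_of_pos_left δ ha
    omega
  have hbN : b < N + 1 := by omega
  rcases h with h | h
  · left
    exact ⟨(⟨a, haN⟩, ⟨b, hbN⟩, ⟨δ, hδN⟩), h.symm⟩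
  · right
    exact ⟨(⟨a, haN⟩, ⟨b, hbN⟩, ⟨δ, hδN⟩), h.symm⟩

theorem famSet_infExp {N : ℕ} [NeZero N] {f : ℍ → ℂ} (hf : f ∈ famSet N) :
    ∃ φ, InfExp N f φ ∧ φ ∈ coeffSub (coeffRing N) := by
  obtain ⟨a, b, δ, ha, hδ, -, hdvd, h | h⟩ := famSet_eq_conj hf
  · rw [h]
    exact exists_infExp_conjJ b ha hδ (Dvd.dvd.trans (Dvd.intro_left a rfl) hdvd)
  · rw [h]
    exact exists_infExp_conjU b ha hδ (Dvd.dvd.trans (Dvd.intro_left a rfl) hdvd)

/-! ### Invariance under `Γ₀` -/

theorem herm_of_mem_Gamma0 {N d : ℕ} (hd : 0 < d) (hdN : d ∣ N) {γ : SL(2, ℤ)}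
    (hγ : γ ∈ CongruenceSubgroup.Gamma0 N) :
    H628.hermA d γ = d ∧ H628.hermB d γ = 0 ∧ H628.hermD d γ = 1 := by
  obtain ⟨h1, h2, h3⟩ := H628.herm_Gamma0_mul hd hdN hγ 1
  obtain ⟨k1, k2, k3⟩ := H628.herm_one hd
  rw [mul_one] at h1 h2 h3
  exact ⟨h1.trans k1, h2.trans k2, h3.trans k3⟩

theorem conjJ_Gamma0 {N d : ℕ} (hd : 0 < d) (hdN : d ∣ N) {γ : SL(2, ℤ)}
    (hγ : γ ∈ CongruenceSubgroup.Gamma0 N) (τ : ℍ) :
    conjJ d 0 1 (γ • τ) = conjJ d 0 1 τ := by
  obtain ⟨h1, h2, h3⟩ := herm_of_mem_Gamma0 hd hdN hγ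
  rw [conjJ_smul hd, h1, h2, h3]

theorem conjU_Gamma0 {N d : ℕ} (hd : 0 < d) (hdN : d ∣ N) {γ : SL(2, ℤ)}
    (hγ : γ ∈ CongruenceSubgroup.Gamma0 N) (τ : ℍ) :
    conjU d 0 1 (γ • τ) = conjU d 0 1 τ := by
  obtain ⟨h1, h2, h3⟩ := herm_of_mem_Gamma0 hd hdN hγ
  rw [conjU_smul hd, h1, h2, h3]

/-! ### The expansions of the base functions -/

theorem infExp_comp_scale {N : ℕ} (d : ℕ) [NeZero N] [NeZero d] {f : ℍ → ℂ}
    {φ : LaurentSeries ℂ} (hf : InfExp 1 f φ) :
    InfExp N (fun τ => f (infAff d 0 1 τ)) (qExpand ℂ N (qExpand ℂ d φ)) := by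
  have hN : 0 < N := Nat.pos_of_ne_zero (NeZero.ne N)
  have hd : 0 < d := Nat.pos_of_ne_zero (NeZero.ne d)
  haveI : NeZero (N * d) := ⟨(Nat.mul_pos hN hd).ne'⟩
  have h := InfExp.comp_infAff (M := 1) (N := N) (a := d) (d := 1) (e := N * d) 0 hd one_pos
    one_pos hN (by ring) hf
  rw [infRoot_zero, infTwist_one] at h
  rw [qExpand_qExpand]
  exact h

theorem infExp_conjJ_base (N d : ℕ) [NeZero N] [NeZero d] :
    InfExp N (conjJ d 0 1) (qExpand ℂ N (qExpand ℂ d (jqModC ℂ))) := by
  have h := infExp_comp_scale (N := N) d infExp_one_jFun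
  refine h.congr fun τ => ?_
  simp [conjJ]

theorem infExp_conjU_base (N d : ℕ) [NeZero N] [NeZero d] :
    InfExp N (conjU d 0 1)
      (qExpand ℂ N (qExpand ℂ d H565.deltaSeriesC) * qExpand ℂ N H565.deltaInvSeriesC) := by
  have h1 := infExp_comp_scale (N := N) d infExp_one_delta
  have h2 : InfExp N (fun τ => (Δ τ)⁻¹) (qExpand ℂ N H565.deltaInvSeriesC) :=
    infExp_level infExp_one_deltaInv
  refine (h1.mul h2).congr fun τ => ?_
  simp [conjU]

/-! ### The index type and the action of `SL(2,ℤ)` -/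

/-- The index type: the family itself. -/
def Idx (N : ℕ) : Type := {f : ℍ → ℂ // f ∈ famSet N}

/-- The family is finite. -/
def idxFintype (N : ℕ) [NeZero N] : Fintype (Idx N) := (famSet_finite N).fintype

/-- `γ` acts on the family by `f ↦ f ∘ γ⁻¹`. -/
def idxSmul {N : ℕ} (γ : SL(2, ℤ)) (i : Idx N) : Idx N :=
  ⟨fun τ => i.1 (γ⁻¹ • τ), famSet_smul i.2 γ⁻¹⟩

theorem idxSmul_val {N : ℕ} (γ : SL(2, ℤ)) (i : Idx N) (τ : ℍ) :
    (idxSmul γ i).1 τ = i.1 (γ⁻¹ • τ) := rfl

/-- The action as a `MulAction`. -/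
def idxAction (N : ℕ) : MulAction SL(2, ℤ) (Idx N) where
  smul := idxSmul
  one_smul i := by
    apply Subtype.ext
    funext τ
    show i.1 ((1 : SL(2, ℤ))⁻¹ • τ) = i.1 τ
    rw [inv_one, one_smul]
  mul_smul γ₁ γ₂ i := by
    apply Subtype.ext
    funext τ
    show i.1 ((γ₁ * γ₂)⁻¹ • τ) = i.1 (γ₂⁻¹ • γ₁⁻¹ • τ)
    rw [mul_inv_rev, mul_smul]

/-- The permutation representation on the index type. -/
def idxPerm (N : ℕ) : SL(2, ℤ) →* Equiv.Perm (Idx N) :=
  @MulAction.toPermHom SL(2, ℤ) (Idx N) _ (idxAction N)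

theorem idxPerm_val {N : ℕ} (γ : SL(2, ℤ)) (i : Idx N) (τ : ℍ) :
    (idxPerm N γ i).1 τ = i.1 (γ⁻¹ • τ) := rfl

/-- The expansion of a member of the family. -/
def genS (N : ℕ) [NeZero N] (i : Idx N) : LaurentSeries ℂ := Classical.choose (famSet_infExp i.2)

theorem genS_spec (N : ℕ) [NeZero N] (i : Idx N) : InfExp N i.1 (genS N i) :=
  (Classical.choose_spec (famSet_infExp i.2)).1

theorem genS_mem (N : ℕ) [NeZero N] (i : Idx N) : genS N i ∈ coeffSub (coeffRing N) :=
  (Classical.choose_spec (famSet_infExp i.2)).2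

theorem genS_eq {N : ℕ} [NeZero N] (i : Idx N) {φ : LaurentSeries ℂ} (h : InfExp N i.1 φ) :
    genS N i = φ :=
  (genS_spec N i).unique h

/-- The function attached to a polynomial in the members of the family. -/
def polyFun {N : ℕ} (p : MvPolynomial (Idx N) ℂ) (τ : ℍ) : ℂ :=
  MvPolynomial.eval (fun i : Idx N => i.1 τ) p

theorem infExp_polyFun {N : ℕ} [NeZero N] (p : MvPolynomial (Idx N) ℂ) :
    InfExp N (polyFun p) (MvPolynomial.aeval (genS N) p) :=
  H685.HasQLaurent.mvAeval (h := (N : ℝ)) (fun i : Idx N => i.1) (genS N)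
    (fun i => genS_spec N i) p

theorem infExp_polyFun_perm {N : ℕ} [NeZero N] (γ : SL(2, ℤ)) (p : MvPolynomial (Idx N) ℂ) :
    InfExp N (fun τ => polyFun p (γ⁻¹ • τ)) (MvPolynomial.aeval (genS N ∘ idxPerm N γ) p) :=
  H685.HasQLaurent.mvAeval (h := (N : ℝ)) (fun (i : Idx N) τ => i.1 (γ⁻¹ • τ))
    (genS N ∘ idxPerm N γ) (fun i => genS_spec N (idxPerm N γ i)) p

theorem family_rel {N : ℕ} [NeZero N] (γ : SL(2, ℤ)) (p : MvPolynomial (Idx N) ℂ)
    (h : MvPolynomial.aeval (genS N) p = 0) :
    MvPolynomial.aeval (genS N ∘ idxPerm N γ) p = 0 := by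
  have h1 := infExp_polyFun (N := N) p
  rw [h] at h1
  have h2 : polyFun p = fun _ => 0 := h1.fun_unique InfExp.zero
  have h3 := infExp_polyFun_perm γ p
  have h4 : (fun τ => polyFun p (γ⁻¹ • τ)) = fun _ => 0 := by
    funext τ
    rw [h2]
  rw [h4] at h3
  exact h3.unique InfExp.zero

theorem family_inv {N : ℕ} [NeZero N] (p : MvPolynomial (Idx N) ℂ)
    (h : ∀ γ : SL(2, ℤ),
      MvPolynomial.aeval (genS N ∘ idxPerm N γ) p = MvPolynomial.aeval (genS N) p) :
    MvPolynomial.aeval (genS N) p ∈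
      Algebra.adjoin ℂ ({qExpand ℂ N (jqModC ℂ)} : Set (LaurentSeries ℂ)) := by
  have h1 := infExp_polyFun (N := N) p
  have hinv : ∀ (γ : SL(2, ℤ)) (τ : ℍ), polyFun p (γ • τ) = polyFun p τ := by
    intro γ τ
    have h3 := infExp_polyFun_perm γ⁻¹ p
    rw [h γ⁻¹, inv_inv] at h3
    exact congrFun (h3.fun_unique h1) τ
  obtain ⟨Q, -, hQ⟩ := H565.exists_polynomial_of_invariant (N := N) (InfExp.mdiff748 h1) hinv h1
  rw [hQ]
  exact Polynomial.aeval_mem_adjoin_singleton _ _

theorem family_perm_T {N : ℕ} [NeZero N] (i : Idx N) :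
    genS N (idxPerm N ModularGroup.T i) = infTwist (infRoot (-1) N) (genS N i) := by
  apply genS_eq
  have h := (genS_spec N i).comp_translate (-1)
  refine h.congr fun τ => ?_
  rw [idxPerm_val]
  refine congrArg i.1 ?_
  apply UpperHalfPlane.ext
  rw [infAff_coe one_pos one_pos, H628.SL2_coe_smul]
  simp [ModularGroup.T]

end Fermat.Agent.S28.H748

end

end
-- ===== PACK-END S28/H748/Family.lean

-- ===== PACK-BEGIN S28/H748/Package.lean
section



/-!
# S28 / H748 — the analytic package `ModFunPackage N` (interface of helper868)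

`modFunPackage N : ModFunPackage N`, hence `Nonempty (ModFunPackage N)`, for every `N ≥ 1`.
-/

set_option autoImplicit false

noncomputable section

open UpperHalfPlane HahnSeries ModularCurve Fermat.Agent.S24
open scoped Real MatrixGroups Manifold

namespace Fermat.Agent.S28.H748

local notation "Δ" => ModularForm.discriminant

theorem iotaN_jq (N : ℕ) [NeZero N] : iotaN N jq = qExpand ℂ N (jqModC ℂ) := by
  rw [iotaN, RingHom.comp_apply, ← jqModC_rat, coeffMap_jqModC]

theorem coeffMap_qExpand_comm {R S : Type*} [CommRing R] [CommRing S] (f : R →+* S) (n : ℕ)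
    [NeZero n] (x : LaurentSeries R) :
    coeffMap f (qExpand R n x) = qExpand S n (coeffMap f x) := by
  ext k
  rw [coeffMap_coeff]
  by_cases hk : (n : ℤ) ∣ k
  · obtain ⟨m, rfl⟩ := hk
    rw [qExpand_coeff_mul, qExpand_coeff_mul, coeffMap_coeff]
  · rw [qExpand_coeff_of_not_dvd n x hk, qExpand_coeff_of_not_dvd n _ hk, map_zero]

theorem coeffMap_deltaq : coeffMap (algebraMap ℚ ℂ) deltaq = H565.deltaSeriesC := by
  rw [deltaq, H565.deltaSeriesC, map_mul, coeffMap_single, map_one, coeffMap_ofPowerSeries,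
    H565.etaProdC, ← map_pow, ← dedekindEtaUnit]
  congr 2

theorem qExpand_deltaInv (N : ℕ) [NeZero N] :
    (qExpand ℂ N H565.deltaSeriesC)⁻¹ = qExpand ℂ N H565.deltaInvSeriesC := by
  apply inv_eq_of_mul_eq_one_right
  rw [← map_mul, H565.deltaSeriesC_mul_inv, map_one]

theorem iotaN_unitq (N p : ℕ) [NeZero N] [NeZero p] :
    iotaN N (unitq p) =
      qExpand ℂ N (qExpand ℂ p H565.deltaSeriesC) * qExpand ℂ N H565.deltaInvSeriesC := by
  rw [iotaN, RingHom.comp_apply, unitq, map_div₀, map_div₀, coeffMap_qExpand_comm,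
    coeffMap_deltaq, div_eq_mul_inv, qExpand_deltaInv]

theorem iotaN_qExpand_jq (N d : ℕ) [NeZero N] [NeZero d] :
    iotaN N (qExpand ℚ d jq) = qExpand ℂ N (qExpand ℂ d (jqModC ℂ)) := by
  rw [iotaN, RingHom.comp_apply, coeffMap_qExpand_comm, ← jqModC_rat, coeffMap_jqModC]

theorem twist_eq_infTwist (u : ℂˣ) (φ : LaurentSeries ℂ) :
    Fermat.Agent.S28.twist u φ = infTwist u φ := by
  ext n
  rw [twist_coeff, infTwist_coeff, mul_comm]

theorem infRoot_neg_one_pow (N : ℕ) [NeZero N] : infRoot (-1) N ^ N = 1 := by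
  apply Units.ext
  rw [Units.val_pow_eq_pow_val, infRoot_coe, Units.val_one, ← Complex.exp_nat_mul]
  have hN : (N : ℂ) ≠ 0 := by exact_mod_cast NeZero.ne N
  have : (N : ℂ) * (2 * Real.pi * Complex.I * ((-1 : ℤ) : ℂ) / N) = -(2 * Real.pi * Complex.I) := by
    push_cast
    field_simp
  rw [this, Complex.exp_neg, Complex.exp_two_pi_mul_I, inv_one]

/-- **The analytic package.** -/
def modFunPackage (N : ℕ) [NeZero N] : ModFunPackage N where
  ι := Idx N
  fin := idxFintype N
  gen := genS N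
  perm := idxPerm N
  rel := family_rel
  inv := fun p h => by
    rw [iotaN_jq]
    exact family_inv p h
  coeff_mem := fun i n => genS_mem N i n
  twistUnit := infRoot (-1) N
  twistUnit_pow := infRoot_neg_one_pow N
  perm_T := fun i => by rw [family_perm_T, twist_eq_infTwist]
  idxJ := fun d _ hd => ⟨conjJ d 0 1, conjJ_mem_famSet (Nat.pos_of_ne_zero (NeZero.ne d)) hd⟩
  gen_idxJ := fun d _ hd => by
    rw [iotaN_qExpand_jq]
    exact genS_eq _ (infExp_conjJ_base N d)
  fixJ := fun d _ hd γ hγ => by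
    apply Subtype.ext
    funext τ
    rw [idxPerm_val]
    exact conjJ_Gamma0 (Nat.pos_of_ne_zero (NeZero.ne d)) hd (inv_mem hγ) τ
  idxU := fun p _ _ hpN => ⟨conjU p 0 1, conjU_mem_famSet (Nat.pos_of_ne_zero (NeZero.ne p)) hpN⟩
  gen_idxU := fun p _ _ hpN => by
    rw [iotaN_unitq]
    exact genS_eq _ (infExp_conjU_base N p)
  fixU := fun p _ _ hpN γ hγ => by
    apply Subtype.ext
    funext τ
    rw [idxPerm_val]
    exact conjU_Gamma0 (Nat.pos_of_ne_zero (NeZero.ne p)) (dvd_refl p) (inv_mem hγ) τ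

/-- The deliverable of the analytic side (statement of `H868/AnalyticGoal.lean`). -/
theorem exists_modFunPackage748 (N : ℕ) [NeZero N] : Nonempty (ModFunPackage N) :=
  ⟨modFunPackage N⟩

end Fermat.Agent.S28.H748

end

end
-- ===== PACK-END S28/H748/Package.lean

-- ===== PACK-BEGIN Lib/RR/H383/FF1OfFinite.lean
section


/-!
# RR library (helper383): the standing hypotheses `FF1 K F` in any characteristic

`K` algebraically closed (any characteristic), `x ∈ F` transcendental over `K`, `F` finite over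
`K(x)`.  Then `FF1 K F` holds: principal divisors have degree zero, all places have degree one,
there is a place, and `F` is finite over a rational function field.
No separability hypothesis is needed.

* `ff1_of_finite` : the bridge.
* `eq_algebraMap_of_forall_ord_eq_zero` : a function of order zero everywhere is constant.
-/

set_option autoImplicit false

noncomputable section

open AlgebraicCurve IntermediateField

namespace Fermat.Agent.Lib.RR.H383

open Fermat.Agent.Lib.RR

variable {K F : Type*} [Field K] [Field F] [Algebra K F] [IsAlgClosed K]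

/-- **Bridge**: a field finite over `K(x)`, `K` algebraically closed of any characteristic,
satisfies the standing hypotheses of the RR library. -/
theorem ff1_of_finite {x : F} (hx : Transcendental K x) [FiniteDimensional K⟮x⟯ F] :
    FF1 K F where
  hpd := hasPrincipalDivisors_of_finite hx
  deg_eq_one := deg_eq_one_of_finite hx
  nonempty_place := by
    obtain ⟨v, -⟩ := exists_place_ord_pos (finite_of_finite hx) hx
    exact ⟨v⟩
  exists_finite := ⟨x, hx, inferInstance⟩

/-- A function whose order vanishes at every place is constant. -/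
theorem eq_algebraMap_of_forall_ord_eq_zero {x : F} (hx : Transcendental K x)
    [FiniteDimensional K⟮x⟯ F] {f : F} (hf : ∀ v : Place K F, v.ord f = 0) :
    f ∈ (algebraMap K F).range :=
  eq_algebraMap_of_forall_ord_nonneg (finite_of_finite hx) fun v => (hf v).ge

end Fermat.Agent.Lib.RR.H383

end
end
-- ===== PACK-END Lib/RR/H383/FF1OfFinite.lean

-- ===== PACK-BEGIN Lib/RR/Adeles.lean
section




/-!
# RR library, layer L4: repartitions and `H¹(D)`  (Stichtenoth 1.5.4)

Integration file (helper320).  `mem_repartitions_iff` is proved in `H653/` (helper653), the core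
of `finite_H1` / `ell_sub_finrank_H1` in `H742/` (helper742).

`𝔸 = repartitions K F`, `𝔸(D) = repartitionsOf D`, `H¹(D) = 𝔸 / (𝔸(D) + F)`.

Proof sketch.  (1) One step: `𝔸(D + P) = 𝔸(D) + K α₀` for any `α₀ ∈ 𝔸(D + P) \ 𝔸(D)`, and
`𝔸(D + P) ⊆ 𝔸(D) + F` iff `ℓ(D + P) = ℓ(D) + 1`.  Hence the surjection `H¹(D) → H¹(D + P)` has
kernel of dimension `1 - (ℓ(D + P) - ℓ(D))`.  (2) If `ℓ(D) = deg D + 1 - g` then
`𝔸 = 𝔸(D) + F`, i.e. `H¹(D) = 0`.  (3) Descend from a divisor attaining the bound.
-/

set_option autoImplicit false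

noncomputable section

open AlgebraicCurve

namespace Fermat.Agent.Lib.RR

variable {K F : Type*} [Field K] [Field F] [Algebra K F]

/-- **L4.0**: the repartitions are exactly the families with finitely many poles. -/
theorem mem_repartitions_iff [HasPrincipalDivisors K F] {α : Place K F → F} :
    α ∈ repartitions K F ↔ {v : Place K F | v.ord (α v) < 0}.Finite :=
  H653.mem_repartitions_iff

/-- **L4.1**: `H¹(D)` is finite-dimensional. -/
theorem finite_H1 [FF1 K F] (D : Divisor K F) : Module.Finite K (H1 D) := by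
  obtain ⟨D₀, h₀⟩ := exists_ell_eq (K := K) (F := F)
  exact (H742.H1_core (genusR K F : ℤ) (fun D' => riemann_inequality D') h₀ D).1

/-- **L4.2**: Riemann–Roch, first form. -/
theorem ell_sub_finrank_H1 [FF1 K F] (D : Divisor K F) :
    (ell D : ℤ) - Module.finrank K (H1 D) = Divisor.degree D + 1 - (genusR K F : ℤ) := by
  obtain ⟨D₀, h₀⟩ := exists_ell_eq (K := K) (F := F)
  exact (H742.H1_core (genusR K F : ℤ) (fun D' => riemann_inequality D') h₀ D).2

/-- The Prelude's genus `genusFF = dim H¹(0)` is the genus of Riemann's theorem. -/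
theorem genusFF_eq_genusR [FF1 K F] : genusFF K F = genusR K F := by
  have h := ell_sub_finrank_H1 (0 : Divisor K F)
  rw [ell_zero, map_zero] at h
  have : (Module.finrank K (H1 (0 : Divisor K F)) : ℤ) = genusR K F := by
    push_cast at h; omega
  unfold genusFF
  exact_mod_cast this

/-- **Riemann–Roch, first form**, with the Prelude's genus. -/
theorem riemann_roch_H1 [FF1 K F] (D : Divisor K F) :
    (ell D : ℤ) - Module.finrank K (H1 D) = Divisor.degree D + 1 - (genusFF K F : ℤ) := by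
  rw [genusFF_eq_genusR]; exact ell_sub_finrank_H1 D

/-- **Riemann's inequality** with the Prelude's genus. -/
theorem riemann_inequality_genusFF [FF1 K F] (D : Divisor K F) :
    Divisor.degree D + 1 - (genusFF K F : ℤ) ≤ ell D := by
  rw [genusFF_eq_genusR]; exact riemann_inequality D

end Fermat.Agent.Lib.RR

end
end
-- ===== PACK-END Lib/RR/Adeles.lean

-- ===== PACK-BEGIN Lib/RR/H80/Canonical.lean
section


/-!
# RR library, layer L5 (helper80): the divisor of a Weil differential and the duality theorem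

Inputs from layers L3/L4 are explicit hypotheses:
* `hfin : ∀ D, Module.Finite K (H1 D)`,
* `hrr  : ∀ D, ℓ(D) - dim H¹(D) = deg D + 1 - g`,
* `hvan : ∃ c, ∀ D, c ≤ deg D → ℓ(D) = deg D + 1 - g`.

Main result: `exists_canonical_of : ∃ W, ∀ D, dim H¹(D) = ℓ(W - D)`.
-/

set_option autoImplicit false

noncomputable section

open AlgebraicCurve

namespace Fermat.Agent.Lib.RR.H80

open Fermat.Agent.Lib.RR

variable {K F : Type*} [Field K] [Field F] [Algebra K F]

/-- The repartition with a single nonzero component. -/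
def singleA (Q : Place K F) (a : F) : ↥(repartitions K F) :=
  ⟨fun v => by classical exact if v = Q then a else 0,
    mem_repartitions_of_finite_ord <| (Set.finite_singleton Q).subset fun v hv => by
      classical
      have hv : v.ord (if v = Q then a else 0) < 0 := hv
      rw [Set.mem_singleton_iff]
      by_contra hne
      rw [if_neg hne, Place.ord_zero] at hv
      exact lt_irrefl _ hv⟩

theorem singleA_apply_self (Q : Place K F) (a : F) :
    ((singleA Q a : ↥(repartitions K F)) : Place K F → F) Q = a := by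
  classical
  simp [singleA]

theorem singleA_apply_of_ne (Q : Place K F) (a : F) {v : Place K F} (h : v ≠ Q) :
    ((singleA Q a : ↥(repartitions K F)) : Place K F → F) v = 0 := by
  classical
  simp [singleA, h]

/-- Key step: if `ω` vanishes on `𝔸(W) + F` and on `𝔸(D) + F` with `W Q < D Q`, then it vanishes
on `𝔸(W + Q) + F`. -/
theorem mem_Om_add_prim {W D : Divisor K F} {Q : Place K F} (hQ : W Q < D Q)
    {ω : Module.Dual K ↥(repartitions K F)} (hW : ω ∈ Om W) (hD : ω ∈ Om D) :
    ω ∈ Om (W + prim Q) := by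
  rw [mem_Om_iff] at hW hD ⊢
  refine ⟨fun α hα => ?_, hW.2⟩
  rw [mem_repartitionsOf_iff] at hα
  set β : ↥(repartitions K F) := singleA Q ((α : Place K F → F) Q) with hβ
  have h1 : β ∈ repartitionsOf D := by
    rw [mem_repartitionsOf_iff]
    intro v
    by_cases hv : v = Q
    · subst hv
      rw [hβ, singleA_apply_self]
      rcases hα v with h | h
      · exact Or.inl h
      · right
        simp only [Finsupp.coe_add, Pi.add_apply, prim_apply_self] at h
        omega
    · left
      rw [hβ, singleA_apply_of_ne _ _ hv]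
  have h2 : α - β ∈ repartitionsOf W := by
    rw [mem_repartitionsOf_iff]
    intro v
    have hsub : ((α - β : ↥(repartitions K F)) : Place K F → F) v
        = (α : Place K F → F) v - (β : Place K F → F) v := rfl
    by_cases hv : v = Q
    · subst hv
      left
      rw [hsub, hβ, singleA_apply_self, sub_self]
    · rw [hsub, hβ, singleA_apply_of_ne _ _ hv, sub_zero]
      rcases hα v with h | h
      · exact Or.inl h
      · right
        simpa [prim_apply_of_ne hv] using h
  have h3 : ω α = ω (α - β) + ω β := by rw [← map_add, sub_add_cancel]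
  rw [h3, hW.1 _ h2, hD.1 _ h1, add_zero]

section Input

variable [FF1 K F] {g : ℤ}

omit [FF1 K F] in
/-- Weil differentials vanishing on `𝔸(D) + F` with `deg D` large are zero. -/
theorem Om_eq_bot_of_degree_ge
    (hfin : ∀ D : Divisor K F, Module.Finite K (H1 D))
    (hrr : ∀ D : Divisor K F,
      (ell D : ℤ) - Module.finrank K (H1 D) = Divisor.degree D + 1 - g)
    {c : ℤ} (hc : ∀ D : Divisor K F, c ≤ Divisor.degree D →
      (ell D : ℤ) = Divisor.degree D + 1 - g)
    {D : Divisor K F} (hD : c ≤ Divisor.degree D) : Om D = ⊥ := by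
  have := hfin D
  have : Module.Finite K (Om D) := finite_Om D
  have h1 := finrank_Om_eq hrr D
  rw [hc D hD] at h1
  have h2 : Module.finrank K (Om D) = 0 := by
    have : (Module.finrank K (Om D) : ℤ) = 0 := by rw [h1]; ring
    exact_mod_cast this
  exact Submodule.finrank_eq_zero.mp h2

/-- **The divisor of a Weil differential**: a nonzero Weil differential `ω` has a divisor `W`
such that `ω` vanishes on `𝔸(D) + F` iff `D ≤ W`. -/
theorem exists_divisor_of_ne_zero
    (hfin : ∀ D : Divisor K F, Module.Finite K (H1 D))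
    (hrr : ∀ D : Divisor K F,
      (ell D : ℤ) - Module.finrank K (H1 D) = Divisor.degree D + 1 - g)
    (hvan : ∃ c : ℤ, ∀ D : Divisor K F, c ≤ Divisor.degree D →
      (ell D : ℤ) = Divisor.degree D + 1 - g)
    {A : Divisor K F} {ω : Module.Dual K ↥(repartitions K F)} (hA : ω ∈ Om A) (hω : ω ≠ 0) :
    ∃ W : Divisor K F, ∀ D : Divisor K F, ω ∈ Om D ↔ D ≤ W := by
  obtain ⟨c, hc⟩ := hvan
  have hbdd : ∀ D : Divisor K F, ω ∈ Om D → Divisor.degree D < c := by
    intro D hD
    by_contra hlt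
    have := Om_eq_bot_of_degree_ge hfin hrr hc (not_lt.mp hlt)
    rw [this, Submodule.mem_bot] at hD
    exact hω hD
  obtain ⟨d, ⟨W, hW, rfl⟩, hmax⟩ :=
    Int.exists_greatest_of_bdd (P := fun d => ∃ D : Divisor K F, ω ∈ Om D ∧ Divisor.degree D = d)
      ⟨c, fun z ⟨D, hD, hz⟩ => hz ▸ (hbdd D hD).le⟩ ⟨_, A, hA, rfl⟩
  refine ⟨W, fun D => ⟨fun hD => ?_, fun hle => Om_anti hle hW⟩⟩
  by_contra hnle
  rw [Finsupp.le_def] at hnle
  simp only [not_forall, not_le] at hnle
  obtain ⟨Q, hQ⟩ := hnle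
  have h1 := mem_Om_add_prim hQ hW hD
  have h2 := hmax _ ⟨W + prim Q, h1, rfl⟩
  rw [map_add, degree_prim'] at h2
  omega

/-- **Duality theorem** (Stichtenoth 1.5.14): `x ↦ x ω` maps `L(W - D)` onto `Ω(D)`. -/
theorem map_muMap_eq_Om
    (hfin : ∀ D : Divisor K F, Module.Finite K (H1 D))
    (hrr : ∀ D : Divisor K F,
      (ell D : ℤ) - Module.finrank K (H1 D) = Divisor.degree D + 1 - g)
    {W : Divisor K F} {ω : Module.Dual K ↥(repartitions K F)} (hω : ω ≠ 0)
    (hW : ∀ D : Divisor K F, ω ∈ Om D ↔ D ≤ W) (D : Divisor K F) :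
    Submodule.map (muMap ω) (riemannRochSpace (W - D)) = Om D := by
  have hWW : ω ∈ Om W := (hW W).mpr le_rfl
  apply le_antisymm
  · have := map_muMap_le (B := -D) hWW
    rwa [neg_neg, ← sub_eq_add_neg] at this
  · intro η hη
    obtain ⟨z, rfl⟩ := exists_smulD_eq hfin hrr hWW hω hη
    refine ⟨z, ?_, rfl⟩
    rcases eq_or_ne z 0 with rfl | hz
    · exact Submodule.zero_mem (riemannRochSpace (W - D))
    obtain ⟨E, hE, -⟩ := HasPrincipalDivisors.exists_divisor (K := K) z⁻¹ (inv_ne_zero hz)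
    have h1 : smulD z⁻¹ (smulD z ω) ∈ Om (D + E) := smulD_mem_Om (inv_ne_zero hz) hE hη
    rw [smulD_smulD, inv_mul_cancel₀ hz, smulD_one] at h1
    have h2 := (hW _).mp h1
    show z ∈ riemannRochSpace (W - D)
    rw [mem_L_iff]
    intro v
    right
    have h3 := Finsupp.le_def.mp h2 v
    simp only [Finsupp.coe_add, Pi.add_apply, hE v, v.ord_inv, Finsupp.coe_sub,
      Pi.sub_apply] at h3 ⊢
    omega

/-- **L5, hypothesis-explicit form**: existence of a canonical divisor. -/
theorem exists_canonical_of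
    (hfin : ∀ D : Divisor K F, Module.Finite K (H1 D))
    (hrr : ∀ D : Divisor K F,
      (ell D : ℤ) - Module.finrank K (H1 D) = Divisor.degree D + 1 - g)
    (hvan : ∃ c : ℤ, ∀ D : Divisor K F, c ≤ Divisor.degree D →
      (ell D : ℤ) = Divisor.degree D + 1 - g) :
    ∃ W : Divisor K F, ∀ D : Divisor K F, Module.finrank K (H1 D) = ell (W - D) := by
  obtain ⟨A, ω, hA, hω⟩ := exists_ne_zero_mem_Om (K := K) (F := F) hrr
  obtain ⟨W, hW⟩ := exists_divisor_of_ne_zero hfin hrr hvan hA hω
  refine ⟨W, fun D => ?_⟩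
  rw [← finrank_Om, ← map_muMap_eq_Om hfin hrr hω hW D, finrank_map_muMap hω]

end Input

end Fermat.Agent.Lib.RR.H80

end
end
-- ===== PACK-END Lib/RR/H80/Canonical.lean

-- ===== PACK-BEGIN Lib/RR/Duality.lean
section



/-!
# RR library, layer L5: Weil differentials, canonical divisor, duality  (Stichtenoth 1.5.5–1.5.16)

A Weil differential is a `K`-linear map `ω : 𝔸 → K` vanishing on `𝔸(A) + F` for some divisor `A`.
They form a one-dimensional `F`-vector space; a nonzero `ω` has a largest such `A =: (ω)`, and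
`x ↦ x ω` is an isomorphism `L((ω) - A) ≅ (𝔸 / (𝔸(A) + F))^*`.

The proof of `exists_canonical` is in `H80/{Weil,OneDim,Canonical}.lean` (helper80); the statements
are those of the frozen skeleton of helper320.
-/

set_option autoImplicit false

noncomputable section

open AlgebraicCurve

namespace Fermat.Agent.Lib.RR

variable {K F : Type*} [Field K] [Field F] [Algebra K F]

/-- **L5**: existence of a canonical divisor (duality theorem). -/
theorem exists_canonical [FF1 K F] :
    ∃ W : Divisor K F, ∀ D : Divisor K F, Module.finrank K (H1 D) = ell (W - D) :=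
  H80.exists_canonical_of (g := (genusR K F : ℤ)) finite_H1 ell_sub_finrank_H1
    exists_degree_bound

/-- **Riemann–Roch**. -/
theorem riemann_roch [FF1 K F] :
    ∃ W : Divisor K F, Divisor.degree W = 2 * (genusFF K F : ℤ) - 2 ∧ ell W = genusFF K F ∧
      ∀ D : Divisor K F,
        (ell D : ℤ) = Divisor.degree D + 1 - (genusFF K F : ℤ) + ell (W - D) := by
  obtain ⟨W, hW⟩ := exists_canonical (K := K) (F := F)
  have hRR : ∀ D : Divisor K F,
      (ell D : ℤ) = Divisor.degree D + 1 - (genusFF K F : ℤ) + ell (W - D) := by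
    intro D
    have := riemann_roch_H1 D
    rw [hW D] at this
    omega
  have h0 := hRR 0
  rw [ell_zero, map_zero, sub_zero] at h0
  have hW1 : (ell W : ℤ) = genusFF K F := by push_cast at h0; omega
  have h1 := hRR W
  rw [sub_self, ell_zero] at h1
  refine ⟨W, ?_, by exact_mod_cast hW1, hRR⟩
  push_cast at h1
  omega

/-- `ℓ(D) = deg D + 1 - g` as soon as `deg D > 2g - 2`. -/
theorem ell_eq_of_degree_gt [FF1 K F] {D : Divisor K F}
    (h : 2 * (genusFF K F : ℤ) - 2 < Divisor.degree D) :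
    (ell D : ℤ) = Divisor.degree D + 1 - (genusFF K F : ℤ) := by
  obtain ⟨W, hW, -, hRR⟩ := riemann_roch (K := K) (F := F)
  have h0 : ell (W - D) = 0 :=
    ell_eq_zero_of_degree_neg (by rw [map_sub, hW]; omega)
  have := hRR D
  rw [h0] at this
  simpa using this

end Fermat.Agent.Lib.RR

end
end
-- ===== PACK-END Lib/RR/Duality.lean

-- ===== PACK-BEGIN Lib/RR/H80/Res/Global.lean
section




/-!
# Tate's residue symbol on the adeles of a function field

`V = 𝔸 = repartitions K F`, `A = 𝔸(0)`.  For `t : F` the functional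
`rho t : α ↦ tsym P (α·) (t·)` is a Weil differential ("`α ↦ Σ_v res_v(α_v dt)`"):
it vanishes on `F` (`rho_diag`), is a derivation in `t` (`rho_mul`), vanishes on locally
integral pairs (`rho_eq_zero_of_integral`) and is `1` on `π⁻¹` at a place with uniformizer `π`
(`rho_unif`).
-/

set_option autoImplicit false

noncomputable section

open AlgebraicCurve

namespace Fermat.Agent.Lib.RR.H80

open Fermat.Agent.Lib.RR LinearMap Module

variable {K F : Type*} [Field K] [Field F] [Algebra K F]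

/-! ### Multiplication by an adele -/

/-- Multiplication by an adele, as a `K`-linear endomorphism of `𝔸`. -/
def mulAd (α : ↥(repartitions K F)) : Module.End K ↥(repartitions K F) where
  toFun γ := α * γ
  map_add' := mul_add α
  map_smul' c γ := by
    apply Subtype.ext
    funext v
    show (α : Place K F → F) v * (c • (γ : Place K F → F) v) =
      c • ((α : Place K F → F) v * (γ : Place K F → F) v)
    rw [mul_smul_comm]

@[simp] theorem mulAd_apply (α γ : ↥(repartitions K F)) : mulAd α γ = α * γ := rfl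

theorem coe_mul_apply (α γ : ↥(repartitions K F)) (v : Place K F) :
    ((α * γ : ↥(repartitions K F)) : Place K F → F) v =
      (α : Place K F → F) v * (γ : Place K F → F) v := rfl

theorem mulAd_mul (α β : ↥(repartitions K F)) : mulAd (α * β) = mulAd α * mulAd β := by
  ext γ : 1
  simp only [mulAd_apply, Module.End.mul_apply, mul_assoc]

theorem mulAd_comm (α β : ↥(repartitions K F)) : mulAd α * mulAd β = mulAd β * mulAd α := by
  rw [← mulAd_mul, ← mulAd_mul, mul_comm]

theorem mulAd_add (α β : ↥(repartitions K F)) : mulAd (α + β) = mulAd α + mulAd β := by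
  ext γ : 1
  simp only [mulAd_apply, LinearMap.add_apply, add_mul]

theorem mulAd_smul (c : K) (α : ↥(repartitions K F)) : mulAd (c • α) = c • mulAd α := by
  ext γ : 1
  apply Subtype.ext
  funext v
  show (c • (α : Place K F → F) v) * (γ : Place K F → F) v =
    c • ((α : Place K F → F) v * (γ : Place K F → F) v)
  rw [smul_mul_assoc]

theorem mulAd_one : mulAd (1 : ↥(repartitions K F)) = 1 := by
  ext γ : 1
  simp only [mulAd_apply, one_mul, Module.End.one_apply]

theorem mulAd_diag (x : F) : mulAd (H980.diag (K := K) x) = mulA x := by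
  ext γ : 1
  apply Subtype.ext
  funext v
  show ((H980.diag x : ↥(repartitions K F)) : Place K F → F) v * (γ : Place K F → F) v = _
  rw [H980.diag_apply]
  rfl

theorem diag_mul (x y : F) : H980.diag (K := K) (x * y) = H980.diag x * H980.diag y := by
  apply Subtype.ext
  funext v
  rw [coe_mul_apply, H980.diag_apply, H980.diag_apply, H980.diag_apply]

theorem diag_one : H980.diag (K := K) (1 : F) = 1 := by
  apply Subtype.ext
  funext v
  rw [H980.diag_apply]
  rfl

theorem diag_mul_eq_smul (x : F) (α : ↥(repartitions K F)) :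
    H980.diag (K := K) x * α = x • α := by
  apply Subtype.ext
  funext v
  rw [coe_mul_apply, H980.diag_apply]
  rfl

/-! ### The integral adeles -/

theorem mem_A0_iff {α : ↥(repartitions K F)} :
    α ∈ repartitionsOf (0 : Divisor K F) ↔ ∀ v : Place K F, 0 ≤ v.ord ((α : Place K F → F) v) := by
  rw [mem_repartitionsOf_iff]
  refine forall_congr' fun v => ?_
  simp only [Finsupp.coe_zero, Pi.zero_apply, neg_zero]
  constructor
  · rintro (h | h)
    · rw [h, Place.ord_zero]
    · exact h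
  · exact fun h => Or.inr h

/-- The indicator adele of a set of places. -/
def indA (T : Set (Place K F)) : ↥(repartitions K F) :=
  ⟨fun v => by classical exact if v ∈ T then 1 else 0,
    mem_repartitions_of_finite_ord <| Set.finite_empty.subset fun v hv => by
      classical
      have hv : v.ord (if v ∈ T then (1 : F) else 0) < 0 := hv
      split_ifs at hv
      · rw [Place.ord_one] at hv
        exact absurd hv (lt_irrefl _)
      · rw [Place.ord_zero] at hv
        exact absurd hv (lt_irrefl _)⟩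

theorem indA_apply_of_mem {T : Set (Place K F)} {v : Place K F} (h : v ∈ T) :
    ((indA T : ↥(repartitions K F)) : Place K F → F) v = 1 := by
  classical
  simp [indA, h]

theorem indA_apply_of_not_mem {T : Set (Place K F)} {v : Place K F} (h : v ∉ T) :
    ((indA T : ↥(repartitions K F)) : Place K F → F) v = 0 := by
  classical
  simp [indA, h]

theorem indA_mul_self (T : Set (Place K F)) : indA T * indA T = indA T := by
  apply Subtype.ext
  funext v
  rw [coe_mul_apply]
  by_cases h : v ∈ T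
  · rw [indA_apply_of_mem h, one_mul]
  · rw [indA_apply_of_not_mem h, zero_mul]

theorem ord_indA_nonneg (T : Set (Place K F)) (v : Place K F) :
    0 ≤ v.ord (((indA T : ↥(repartitions K F)) : Place K F → F) v) := by
  by_cases h : v ∈ T
  · rw [indA_apply_of_mem h, Place.ord_one]
  · rw [indA_apply_of_not_mem h, Place.ord_zero]

theorem indA_mul_mem_A0 (T : Set (Place K F)) {γ : ↥(repartitions K F)}
    (hγ : γ ∈ repartitionsOf (0 : Divisor K F)) :
    indA T * γ ∈ repartitionsOf (0 : Divisor K F) := by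
  rw [mem_A0_iff] at hγ ⊢
  intro v
  rw [coe_mul_apply]
  exact H742.ord_mul_nonneg v (ord_indA_nonneg T v) (hγ v)

theorem mulAd_indA_idem (T : Set (Place K F)) :
    mulAd (indA T) * mulAd (indA T) = mulAd (indA T) := by
  rw [← mulAd_mul, indA_mul_self]

theorem map_mulAd_indA_le (T : Set (Place K F)) :
    (repartitionsOf (0 : Divisor K F)).map (mulAd (indA T)) ≤ repartitionsOf 0 := by
  rintro _ ⟨γ, hγ, rfl⟩
  exact indA_mul_mem_A0 T hγ

/-- Membership in the corner `e_T 𝔸(0)`. -/
theorem mem_corner_iff (T : Set (Place K F)) {x : ↥(repartitions K F)} :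
    x ∈ (repartitionsOf (0 : Divisor K F)).map (mulAd (indA T)) ↔
      x ∈ repartitionsOf (0 : Divisor K F) ∧ ∀ v ∉ T, (x : Place K F → F) v = 0 := by
  constructor
  · rintro ⟨γ, hγ, rfl⟩
    refine ⟨indA_mul_mem_A0 T hγ, fun v hv => ?_⟩
    rw [mulAd_apply, coe_mul_apply, indA_apply_of_not_mem hv, zero_mul]
  · rintro ⟨hx, hx0⟩
    refine ⟨x, hx, ?_⟩
    apply Subtype.ext
    funext v
    rw [mulAd_apply, coe_mul_apply]
    by_cases h : v ∈ T
    · rw [indA_apply_of_mem h, one_mul]
    · rw [indA_apply_of_not_mem h, zero_mul, hx0 v h]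

/-! ### Commensurability -/

theorem almostLE_of_finIdx {V : Type*} [AddCommGroup V] [Module K V] {X Y : Submodule K V}
    (h : H980.FinIdx X Y) : AlmostLE Y X := by
  obtain ⟨C, hC⟩ := Submodule.exists_isCompl (X.submoduleOf Y)
  have hfin : Module.Finite K (↥Y ⧸ X.submoduleOf Y) := h
  have hCfin : FiniteDimensional K C :=
    Module.Finite.equiv (Submodule.quotientEquivOfIsCompl _ _ hC)
  refine ⟨C.map Y.subtype, inferInstance, fun y hy => ?_⟩
  have hmem : (⟨y, hy⟩ : ↥Y) ∈ X.submoduleOf Y ⊔ C := by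
    rw [hC.sup_eq_top]
    exact Submodule.mem_top
  obtain ⟨a, ha, c, hc, hac⟩ := Submodule.mem_sup.mp hmem
  have : y = (a : V) + (c : V) := by
    have := congrArg Subtype.val hac
    simpa using this.symm
  rw [this]
  exact Submodule.add_mem _ (Submodule.mem_sup_left ha)
    (Submodule.mem_sup_right (Submodule.mem_map_of_mem hc))

variable [hFF : FF1 K F]

theorem EE_mulAd (α : ↥(repartitions K F)) :
    EE (repartitionsOf (0 : Divisor K F)) (mulAd α) := by
  obtain ⟨E, hE⟩ := H742.exists_mem_repartitionsOf α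
  have hE' : α ∈ repartitionsOf (E ⊔ 0) := repartitionsOf_mono le_sup_left hE
  have h1 : (repartitionsOf (0 : Divisor K F)).map (mulAd α) ≤ repartitionsOf (E ⊔ 0) := by
    rintro _ ⟨γ, hγ, rfl⟩
    intro v
    have h1 := hE' v
    have h2 := hγ v
    show v.adicValuation ((α : Place K F → F) v * (γ : Place K F → F) v) ≤ _
    rw [map_mul]
    calc v.adicValuation ((α : Place K F → F) v) * v.adicValuation ((γ : Place K F → F) v)
        ≤ WithZero.exp ((E ⊔ 0) v) * WithZero.exp ((0 : Divisor K F) v) := mul_le_mul' h1 h2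
      _ = WithZero.exp ((E ⊔ 0) v) := by
        rw [Finsupp.coe_zero, Pi.zero_apply, WithZero.exp_zero, mul_one]
  exact (AlmostLE.of_le h1).trans
    (almostLE_of_finIdx (H980.finIdx_and_idx_repartitionsOf (le_sup_right (a := E))).1)

theorem finiteDimensional_A0_inf_principal :
    FiniteDimensional K ↥(repartitionsOf (0 : Divisor K F) ⊓ principalRepartitions K F) :=
  H980.finite_inf 0

theorem exists_cocompact :
    ∃ C : Submodule K ↥(repartitions K F), FiniteDimensional K C ∧
      repartitionsOf (0 : Divisor K F) ⊔ principalRepartitions K F ⊔ C = ⊤ := by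
  obtain ⟨C, hC⟩ := Submodule.exists_isCompl
    (repartitionsOf (0 : Divisor K F) ⊔ principalRepartitions K F)
  have hfin : Module.Finite K (H1 (0 : Divisor K F)) := finite_H1 0
  exact ⟨C, Module.Finite.equiv (Submodule.quotientEquivOfIsCompl _ _ hC), hC.sup_eq_top⟩

/-! ### The Weil differential attached to `t` -/

variable (K F) in
/-- A fixed projector onto the integral adeles. -/
def projA0 : Module.End K ↥(repartitions K F) :=
  (exists_isProj (repartitionsOf (0 : Divisor K F))).choose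

omit hFF in
theorem isProj_projA0 : LinearMap.IsProj (repartitionsOf (0 : Divisor K F)) (projA0 K F) :=
  (exists_isProj (repartitionsOf (0 : Divisor K F))).choose_spec

/-- The Weil differential "`α ↦ Σ_v res_v (α_v dt)`". -/
def rho (t : F) : Module.Dual K ↥(repartitions K F) where
  toFun α := tsym (projA0 K F) (mulAd α) (mulAd (H980.diag t))
  map_add' α β := by
    rw [mulAd_add]
    exact tsym_add_left isProj_projA0 (EE_mulAd α) (EE_mulAd β) (EE_mulAd _)
      (mulAd_comm _ _) (mulAd_comm _ _)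
  map_smul' c α := by
    rw [mulAd_smul]
    exact tsym_smul_left _ _ _ c

theorem rho_apply (t : F) (α : ↥(repartitions K F)) :
    rho t α = tsym (projA0 K F) (mulAd α) (mulAd (H980.diag t)) := rfl

theorem rho_add (t s : F) : rho (K := K) (t + s) = rho t + rho s := by
  ext α
  rw [LinearMap.add_apply, rho_apply, rho_apply, rho_apply, map_add, mulAd_add]
  exact tsym_add_right isProj_projA0 (EE_mulAd α) (EE_mulAd _) (EE_mulAd _)
    (mulAd_comm _ _) (mulAd_comm _ _)

theorem rho_smul (c : K) (t : F) : rho (K := K) (c • t) = c • rho t := by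
  ext α
  rw [LinearMap.smul_apply, rho_apply, rho_apply, map_smul, mulAd_smul]
  exact tsym_smul_right _ _ _ c

theorem rho_one : rho (K := K) (1 : F) = 0 := by
  ext α
  rw [rho_apply, diag_one, mulAd_one, LinearMap.zero_apply]
  unfold tsym
  rw [mul_one, one_mul]
  have h0 : projA0 K F * mulAd α - projA0 K F * mulAd α = 0 := by
    ext x : 1
    simp only [LinearMap.sub_apply, sub_self, LinearMap.zero_apply]
  rw [h0, fpTr_zero]

theorem rho_mul (t s : F) (α : ↥(repartitions K F)) :
    rho (t * s) α = rho t (s • α) + rho s (t • α) := by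
  rw [rho_apply, rho_apply, rho_apply, diag_mul, mulAd_mul,
    tsym_leibniz isProj_projA0 (EE_mulAd α) (EE_mulAd _) (EE_mulAd _)
      (mulAd_comm _ _) (mulAd_comm _ _) (mulAd_comm _ _),
    ← mulAd_mul, ← mulAd_mul, mul_comm α, mul_comm α, diag_mul_eq_smul, diag_mul_eq_smul,
    add_comm]

/-- The residue theorem: `rho t` vanishes on principal adeles. -/
theorem rho_diag (t x : F) : rho (K := K) t (H980.diag x) = 0 := by
  rw [rho_apply]
  obtain ⟨C, hC, hsup⟩ := exists_cocompact (K := K) (F := F)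
  have hB : ∀ y : F, (principalRepartitions K F).map (mulAd (H980.diag (K := K) y)) ≤
      principalRepartitions K F := by
    intro y
    rintro _ ⟨γ, hγ, rfl⟩
    rw [← H980.range_diag] at hγ ⊢
    obtain ⟨z, rfl⟩ := hγ
    exact ⟨y * z, by rw [mulAd_apply, diag_mul]⟩
  exact tsym_eq_zero_of_cocompact isProj_projA0 (EE_mulAd _) (EE_mulAd _) (mulAd_comm _ _)
    (hB x) (hB t) finiteDimensional_A0_inf_principal ⟨C, hC, hsup⟩

theorem rho_principal (t : F) {α : ↥(repartitions K F)} (hα : α ∈ principalRepartitions K F) :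
    rho t α = 0 := by
  rw [← H980.range_diag] at hα
  obtain ⟨x, rfl⟩ := hα
  exact rho_diag t x

/-! ### Local vanishing and the residue of `π⁻¹ dπ` -/

/-- `rho t β = 0` if at each place either `β_v = 0` or both `β_v` and `t` are integral. -/
theorem rho_eq_zero_of_integral (t : F) (β : ↥(repartitions K F))
    (h : ∀ v : Place K F, (β : Place K F → F) v = 0 ∨
      (0 ≤ v.ord ((β : Place K F → F) v) ∧ 0 ≤ v.ord t)) :
    rho t β = 0 := by
  rw [rho_apply]
  set T : Set (Place K F) := {v | (β : Place K F → F) v ≠ 0} with hT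
  have hef : mulAd (indA T) * mulAd β = mulAd β := by
    rw [← mulAd_mul]
    congr 1
    apply Subtype.ext
    funext v
    rw [coe_mul_apply]
    by_cases hv : v ∈ T
    · rw [indA_apply_of_mem hv, one_mul]
    · rw [indA_apply_of_not_mem hv, zero_mul]
      have : (β : Place K F → F) v = 0 := by
        by_contra h0
        exact hv h0
      rw [this]
  refine tsym_eq_zero_of_corner isProj_projA0 (mulAd_indA_idem T) (map_mulAd_indA_le T)
    (EE_mulAd _) (EE_mulAd _) (mulAd_comm _ _) hef ?_ ?_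
  · rintro _ ⟨x, hx, rfl⟩
    rw [SetLike.mem_coe, mem_corner_iff] at hx
    rw [mem_corner_iff]
    obtain ⟨hxA, hx0⟩ := hx
    refine ⟨?_, fun v hv => ?_⟩
    · rw [mem_A0_iff] at hxA ⊢
      intro v
      rw [mulAd_apply, coe_mul_apply]
      rcases h v with h0 | ⟨h1, -⟩
      · rw [h0, zero_mul, Place.ord_zero]
      · exact H742.ord_mul_nonneg v h1 (hxA v)
    · rw [mulAd_apply, coe_mul_apply, hx0 v hv, mul_zero]
  · rintro _ ⟨x, hx, rfl⟩
    rw [SetLike.mem_coe, mem_corner_iff] at hx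
    rw [mem_corner_iff]
    obtain ⟨hxA, hx0⟩ := hx
    refine ⟨?_, fun v hv => ?_⟩
    · rw [mem_A0_iff] at hxA ⊢
      intro v
      rw [mulAd_apply, coe_mul_apply, H980.diag_apply]
      by_cases hv : v ∈ T
      · rcases h v with h0 | ⟨-, h2⟩
        · exact absurd h0 hv
        · exact H742.ord_mul_nonneg v h2 (hxA v)
      · rw [hx0 v hv, mul_zero, Place.ord_zero]
    · rw [mulAd_apply, coe_mul_apply, hx0 v hv, mul_zero]

omit hFF in
theorem singleA_eq_indA_mul (v : Place K F) (a : F) :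
    singleA v a = indA ({v} : Set (Place K F)) * H980.diag a := by
  apply Subtype.ext
  funext w
  rw [coe_mul_apply, H980.diag_apply]
  by_cases hw : w = v
  · subst hw
    rw [singleA_apply_self, indA_apply_of_mem (Set.mem_singleton _), one_mul]
  · rw [singleA_apply_of_ne _ _ hw, indA_apply_of_not_mem (by simpa using hw), zero_mul]

omit hFF in
theorem smul_singleA (v : Place K F) (c a : F) : c • singleA v a = singleA v (c * a) := by
  apply Subtype.ext
  funext w
  rw [coe_smul_apply]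
  by_cases hw : w = v
  · subst hw
    rw [singleA_apply_self, singleA_apply_self]
  · rw [singleA_apply_of_ne _ _ hw, singleA_apply_of_ne _ _ hw, mul_zero]

/-- `rho t` kills `single_v a` when `a` and `t` are integral at `v`. -/
theorem rho_singleA_eq_zero (v : Place K F) {t a : F} (ht : 0 ≤ v.ord t) (ha : 0 ≤ v.ord a) :
    rho t (singleA v a) = 0 := by
  refine rho_eq_zero_of_integral t _ fun w => ?_
  by_cases hw : w = v
  · subst hw
    right
    rw [singleA_apply_self]
    exact ⟨ha, ht⟩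
  · left
    exact singleA_apply_of_ne _ _ hw

/-- The residue of `π⁻¹ dπ` at a place where `π` is a uniformizer is `1`. -/
theorem rho_unif (v : Place K F) {π : F} (hπ : v.ord π = 1) :
    rho π (singleA v π⁻¹) = 1 := by
  rw [rho_apply]
  have hπ0 : π ≠ 0 := ne_zero_of_ord_ne_zero v (by rw [hπ]; exact one_ne_zero)
  have hidem := mulAd_indA_idem ({v} : Set (Place K F))
  have hmap := map_mulAd_indA_le ({v} : Set (Place K F))
  have hef : mulAd (indA ({v} : Set (Place K F))) * mulAd (singleA v π⁻¹) =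
      mulAd (singleA v π⁻¹) := by
    rw [singleA_eq_indA_mul, ← mulAd_mul, ← mul_assoc, indA_mul_self]
  rw [tsym_corner isProj_projA0 hidem hmap (EE_mulAd _) (EE_mulAd _) (mulAd_comm _ _) hef,
    singleA_eq_indA_mul, mulAd_mul]
  have hfix : ∀ x ∈ (repartitionsOf (0 : Divisor K F)).map (mulAd (indA ({v} : Set (Place K F)))),
      mulAd (indA ({v} : Set (Place K F))) x = x := by
    rintro _ ⟨γ, -, rfl⟩
    rw [← Module.End.mul_apply, hidem]
  refine tsym_unif (isProj_corner isProj_projA0 hidem hmap) (g := mulAd (H980.diag π))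
    ?_ (mulAd_comm _ _) ?_ ?_ 1 ?_ (indA {v}) ?_ ?_ ?_
  · rw [← mulAd_mul, ← diag_mul, inv_mul_cancel₀ hπ0, diag_one, mulAd_one]
  · rintro _ ⟨x, hx, rfl⟩
    rw [SetLike.mem_coe, mem_corner_iff] at hx
    rw [mem_corner_iff]
    obtain ⟨hxA, hx0⟩ := hx
    refine ⟨?_, fun w hw => ?_⟩
    · rw [mem_A0_iff] at hxA ⊢
      intro w
      rw [mulAd_apply, coe_mul_apply, H980.diag_apply]
      by_cases hw : w ∈ ({v} : Set (Place K F))
      · rw [Set.mem_singleton_iff] at hw
        subst hw
        exact H742.ord_mul_nonneg w (by rw [hπ]; exact zero_le_one) (hxA w)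
      · rw [hx0 w hw, mul_zero, Place.ord_zero]
    · rw [mulAd_apply, coe_mul_apply, hx0 w hw, mul_zero]
  · rintro _ ⟨x, hx, rfl⟩
    rw [hfix x hx]
    exact hx
  · intro a ha
    rw [hfix a ha, one_smul, sub_self]
    exact Submodule.zero_mem _
  · rw [mem_corner_iff]
    refine ⟨mem_A0_iff.mpr (ord_indA_nonneg _), fun w hw => indA_apply_of_not_mem hw⟩
  · rintro ⟨x, hx, hxeq⟩
    rw [SetLike.mem_coe, mem_corner_iff] at hx
    have hxA := mem_A0_iff.mp hx.1 v
    have h1 : π * (x : Place K F → F) v = 1 := by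
      have := congrArg (fun z : ↥(repartitions K F) => (z : Place K F → F) v) hxeq
      simp only [mulAd_apply, coe_mul_apply, H980.diag_apply] at this
      rw [this, indA_apply_of_mem (Set.mem_singleton v)]
    have hx0 : (x : Place K F → F) v ≠ 0 := by
      intro h0
      rw [h0, mul_zero] at h1
      exact zero_ne_one h1
    have h2 := v.ord_mul hπ0 hx0
    rw [h1, Place.ord_one, hπ] at h2
    omega
  · intro a ha
    rw [mem_corner_iff] at ha
    obtain ⟨haA, ha0⟩ := ha
    obtain ⟨k, hk⟩ := exists_const_sub v (FF1.deg_eq_one v) (mem_A0_iff.mp haA v)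
    refine ⟨k, ?_⟩
    set b : F := π⁻¹ * ((a : Place K F → F) v - algebraMap K F k) with hb
    have hb0 : 0 ≤ v.ord b := by
      rcases hk with hk | hk
      · rw [hb, hk, mul_zero, Place.ord_zero]
      · have hne : (a : Place K F → F) v - algebraMap K F k ≠ 0 := by
          intro h0
          rw [h0, Place.ord_zero] at hk
          exact lt_irrefl _ hk
        rw [hb, v.ord_mul (inv_ne_zero hπ0) hne, Place.ord_inv, hπ]
        omega
    refine ⟨singleA v b, ?_, ?_⟩
    · rw [SetLike.mem_coe, mem_corner_iff]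
      refine ⟨mem_A0_iff.mpr fun w => ?_, fun w hw => singleA_apply_of_ne _ _ (by simpa using hw)⟩
      by_cases hw : w = v
      · subst hw
        rw [singleA_apply_self]
        exact hb0
      · rw [singleA_apply_of_ne _ _ hw, Place.ord_zero]
    · apply Subtype.ext
      funext w
      rw [mulAd_apply, coe_mul_apply, H980.diag_apply]
      show _ = (a : Place K F → F) w - ((k • indA ({v} : Set (Place K F)) : ↥(repartitions K F)) :
        Place K F → F) w
      rw [H980.val_apply_smul]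
      by_cases hw : w = v
      · subst hw
        rw [singleA_apply_self, indA_apply_of_mem (Set.mem_singleton _), mul_one, hb,
          ← mul_assoc, mul_inv_cancel₀ hπ0, one_mul]
      · rw [singleA_apply_of_ne _ _ hw, indA_apply_of_not_mem (by simpa using hw), mul_zero,
          mul_zero, sub_zero, ha0 w (by simpa using hw)]

end Fermat.Agent.Lib.RR.H80

end
end
-- ===== PACK-END Lib/RR/H80/Res/Global.lean

-- ===== PACK-BEGIN A2/H729/Kummer.lean
section


/-!
# A2, piece ALG_ss (helper729), versions B and C: the Kummer idempotent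

Same setting as `Glue.lean`; `F` is now the Kummer field `F₀(y)`, `y ^ m = u`, `m` invertible
in `R`, and `y ≡ (root of unity)` generically on the special fibre: `y ^ m - 1 ∈ w O`.

* `kummerIdem mi m y = mi * ∑_{i < m} y ^ i` is idempotent modulo `w O`
  (`inW_kummerIdem_sq_sub`), and `(y - 1) * kummerIdem ∈ w O` (`inW_sub_one_mul_kummerIdem`).
* **Version B** (`kummer_trivial_of_local`): if at every closed point `𝔫 ∋ w` of both charts
  there is `y₁ ≡ y mod w O` and a denominator `s ∉ 𝔫` with `s * y₁` in the chart, then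
  `kummerIdem ∈ w O` or `y - 1 ∈ w O`.
* **Version C** (`kummer_trivial_of_local_factorisation`): the same with the local hypothesis
  stated on the charts of a base subalgebra `F₀` (local factorisation `y ^ m = ε * h ^ m`,
  `h ≡ 1 mod w O`, `ε` regular at the point).
-/

set_option autoImplicit false

namespace Fermat.Agent.A2.H729

open Fermat.Agent.S18.H138

variable {R : Type*} [CommRing R] {F : Type*} [Field F] [Algebra R F]

/-- The Kummer idempotent `(1/m) ∑_{i<m} y^i`. -/
noncomputable def kummerIdem (mi : R) (m : ℕ) (y : F) : F :=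
  algebraMap R F mi * ∑ i ∈ Finset.range m, y ^ i

theorem kummerIdem_mem {O : Subalgebra R F} (mi : R) (m : ℕ) {y : F} (hy : y ∈ O) :
    kummerIdem mi m y ∈ O :=
  O.mul_mem (O.algebraMap_mem mi) (O.sum_mem fun i _ => O.pow_mem hy i)

theorem sub_one_mul_geom (m : ℕ) (y : F) :
    (y - 1) * ∑ i ∈ Finset.range m, y ^ i = y ^ m - 1 := by
  rw [mul_comm]
  exact geom_sum_mul y m

/-- `(y - 1) e₀ ∈ w O`. -/
theorem inW_sub_one_mul_kummerIdem {O : Subalgebra R F} {w : R} (mi : R) (m : ℕ) {y : F}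
    (hym : InW O w (y ^ m - 1)) : InW O w ((y - 1) * kummerIdem mi m y) := by
  have : (y - 1) * kummerIdem mi m y = algebraMap R F mi * (y ^ m - 1) := by
    rw [kummerIdem, ← sub_one_mul_geom m y]; ring
  rw [this]
  exact hym.mul_left (O.algebraMap_mem mi)

theorem inW_pow_sub_one_mul_kummerIdem {O : Subalgebra R F} {w : R} (mi : R) (m : ℕ) {y : F}
    (hy : y ∈ O) (hym : InW O w (y ^ m - 1)) (k : ℕ) :
    InW O w ((y ^ k - 1) * kummerIdem mi m y) := by
  induction k with
  | zero => simpa using InW.zero O w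
  | succ k ih =>
    have : (y ^ (k + 1) - 1) * kummerIdem mi m y =
        y * ((y ^ k - 1) * kummerIdem mi m y) + (y - 1) * kummerIdem mi m y := by ring
    rw [this]
    exact (ih.mul_left hy).add (inW_sub_one_mul_kummerIdem mi m hym)

/-- `e₀² ≡ e₀ mod w O`. -/
theorem inW_kummerIdem_sq_sub {O : Subalgebra R F} {w : R} {mi : R} {m : ℕ}
    (hmi : (m : R) * mi = 1) {y : F} (hy : y ∈ O) (hym : InW O w (y ^ m - 1)) :
    InW O w (kummerIdem mi m y ^ 2 - kummerIdem mi m y) := by
  have hmiF : (m : F) * algebraMap R F mi = 1 := by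
    have := congrArg (algebraMap R F) hmi
    simpa using this
  have key : kummerIdem mi m y ^ 2 - kummerIdem mi m y =
      algebraMap R F mi * ∑ i ∈ Finset.range m, (y ^ i - 1) * kummerIdem mi m y := by
    have h1 : ∑ i ∈ Finset.range m, (y ^ i - 1) * kummerIdem mi m y =
        (∑ i ∈ Finset.range m, y ^ i) * kummerIdem mi m y - (m : F) * kummerIdem mi m y := by
      rw [← Finset.sum_mul, Finset.sum_sub_distrib]
      simp [sub_mul]
    rw [h1]
    have h2 : algebraMap R F mi * ((∑ i ∈ Finset.range m, y ^ i) * kummerIdem mi m y) =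
        kummerIdem mi m y ^ 2 := by
      rw [kummerIdem]; ring
    have h3 : algebraMap R F mi * ((m : F) * kummerIdem mi m y) = kummerIdem mi m y := by
      rw [← mul_assoc, mul_comm (algebraMap R F mi), hmiF, one_mul]
    rw [mul_sub, h2, h3]
  rw [key]
  exact (InW.sum _ _ fun i _ => inW_pow_sub_one_mul_kummerIdem mi m hy hym i).mul_left
    (O.algebraMap_mem mi)

/-- If `e₀ ≡ 1` then `y ≡ 1`. -/
theorem inW_sub_one_of_inW_one_sub_kummerIdem {O : Subalgebra R F} {w : R} (mi : R) (m : ℕ)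
    {y : F} (hy : y ∈ O) (hym : InW O w (y ^ m - 1))
    (h : InW O w (1 - kummerIdem mi m y)) : InW O w (y - 1) := by
  have : y - 1 = (y - 1) * kummerIdem mi m y + (y - 1) * (1 - kummerIdem mi m y) := by ring
  rw [this]
  exact (inW_sub_one_mul_kummerIdem mi m hym).add (h.mul_left (O.sub_mem hy O.one_mem))

/-- `y ^ i ≡ y₁ ^ i` if `y ≡ y₁`. -/
theorem inW_pow_sub_pow {O : Subalgebra R F} {w : R} {y y₁ : F} (hy : y ∈ O) (hy₁ : y₁ ∈ O)
    (h : InW O w (y - y₁)) (i : ℕ) : InW O w (y ^ i - y₁ ^ i) := by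
  induction i with
  | zero => simpa using InW.zero O w
  | succ i ih =>
    have : y ^ (i + 1) - y₁ ^ (i + 1) = y * (y ^ i - y₁ ^ i) + (y - y₁) * y₁ ^ i := by ring
    rw [this]
    exact (ih.mul_left hy).add (h.mul_right (O.pow_mem hy₁ i))

/-- Local regularity of the Kummer idempotent from a local integral model of `y`. -/
theorem kummerIdem_locally_regular {C O : Subalgebra R F} (hCO : C ≤ O) {w : R} (mi : R)
    {m : ℕ} (hm : 0 < m) {y : F} (hy : y ∈ O) (𝔫 : Ideal C) [h𝔫 : 𝔫.IsPrime]
    {s : C} (hs : s ∉ 𝔫) {y₁ : F} (h₁ : InW O w (y - y₁)) (hsy : (s : F) * y₁ ∈ C) :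
    ∃ s' : C, s' ∉ 𝔫 ∧ ∃ e ∈ C, InW O w ((s' : F) * kummerIdem mi m y - e) := by
  have hy₁ : y₁ ∈ O := by
    have : y₁ = y - (y - y₁) := by ring
    rw [this]
    exact O.sub_mem hy h₁.mem
  refine ⟨s ^ (m - 1), fun h => hs (h𝔫.mem_of_pow_mem _ h),
    (s : F) ^ (m - 1) * kummerIdem mi m y₁, ?_, ?_⟩
  · -- `s^(m-1) * e₁ ∈ C`
    have : (s : F) ^ (m - 1) * kummerIdem mi m y₁ =
        algebraMap R F mi * ∑ i ∈ Finset.range m, (s : F) ^ (m - 1 - i) * ((s : F) * y₁) ^ i := by
      rw [kummerIdem, Finset.mul_sum, Finset.mul_sum, Finset.mul_sum]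
      refine Finset.sum_congr rfl fun i hi => ?_
      have hi' : i ≤ m - 1 := by
        have := Finset.mem_range.1 hi
        omega
      have : (s : F) ^ (m - 1) = (s : F) ^ (m - 1 - i) * (s : F) ^ i := by
        rw [← pow_add]; congr 1; omega
      rw [this, mul_pow]; ring
    rw [this]
    exact C.mul_mem (C.algebraMap_mem mi)
      (C.sum_mem fun i _ => C.mul_mem (C.pow_mem s.2 _) (C.pow_mem hsy i))
  · have : ((s ^ (m - 1) : C) : F) * kummerIdem mi m y - (s : F) ^ (m - 1) * kummerIdem mi m y₁ =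
        ((s : F) ^ (m - 1) * algebraMap R F mi) * ∑ i ∈ Finset.range m, (y ^ i - y₁ ^ i) := by
      rw [kummerIdem, kummerIdem, Finset.sum_sub_distrib]
      push_cast
      ring
    rw [this]
    exact (InW.sum _ _ fun i _ => inW_pow_sub_pow hy hy₁ h₁ i).mul_left
      (O.mul_mem (O.pow_mem (hCO s.2) _) (O.algebraMap_mem mi))

section Main

variable [IsNoetherianRing R] [IsIntegrallyClosed (Polynomial R)] [CharZero F]

/-- **ALG_ss, version B.** -/
theorem kummer_trivial_of_local
    (hinjR : Function.Injective (algebraMap R F))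
    (hRF : ∀ y : F, IsIntegral R y → y ∈ Set.range (algebraMap R F))
    {x : F} (hx : Transcendental R x) [FiniteDimensional (baseField R x) F]
    (w : R) (hw : Prime w)
    (O : Subalgebra R F)
    (hfin : chart R ({x} : Set F) ≤ O) (hinf : chart R ({x⁻¹} : Set F) ≤ O)
    (qep_fin : ∀ b ∈ chart R ({x} : Set F), InW O w b →
      ∃ t ∈ chart R ({x} : Set F), b = algebraMap R F w * t)
    (qep_inf : ∀ b ∈ chart R ({x⁻¹} : Set F), InW O w b →
      ∃ t ∈ chart R ({x⁻¹} : Set F), b = algebraMap R F w * t)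
    (qep_mid : ∀ b ∈ chart R ({x, x⁻¹} : Set F), InW O w b →
      ∃ t ∈ chart R ({x, x⁻¹} : Set F), b = algebraMap R F w * t)
    {mi : R} {m : ℕ} (hm : 0 < m) (hmi : (m : R) * mi = 1)
    {y : F} (hy : y ∈ O) (hym : InW O w (y ^ m - 1))
    (hloc_fin : ∀ 𝔫 : Ideal (chart R ({x} : Set F)), 𝔫.IsMaximal →
      algebraMap R (chart R ({x} : Set F)) w ∈ 𝔫 →
      ∃ s : chart R ({x} : Set F), s ∉ 𝔫 ∧
        ∃ y₁ : F, InW O w (y - y₁) ∧ (s : F) * y₁ ∈ chart R ({x} : Set F))
    (hloc_inf : ∀ 𝔫 : Ideal (chart R ({x⁻¹} : Set F)), 𝔫.IsMaximal →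
      algebraMap R (chart R ({x⁻¹} : Set F)) w ∈ 𝔫 →
      ∃ s : chart R ({x⁻¹} : Set F), s ∉ 𝔫 ∧
        ∃ y₁ : F, InW O w (y - y₁) ∧ (s : F) * y₁ ∈ chart R ({x⁻¹} : Set F)) :
    InW O w (kummerIdem mi m y) ∨ InW O w (y - 1) := by
  have h := generic_idempotent_trivial hinjR hRF hx w hw O hfin hinf qep_fin qep_inf qep_mid
    (kummerIdem_mem mi m hy) (inW_kummerIdem_sq_sub hmi hy hym)
    (fun 𝔫 h𝔫 hw𝔫 => by
      obtain ⟨s, hs, y₁, h₁, hsy⟩ := hloc_fin 𝔫 h𝔫 hw𝔫
      have := h𝔫.isPrime
      exact kummerIdem_locally_regular hfin mi hm hy 𝔫 hs h₁ hsy)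
    (fun 𝔫 h𝔫 hw𝔫 => by
      obtain ⟨s, hs, y₁, h₁, hsy⟩ := hloc_inf 𝔫 h𝔫 hw𝔫
      have := h𝔫.isPrime
      exact kummerIdem_locally_regular hinf mi hm hy 𝔫 hs h₁ hsy)
  rcases h with h | h
  · exact Or.inl h
  · exact Or.inr (inW_sub_one_of_inW_one_sub_kummerIdem mi m hy hym h)

end Main

end Fermat.Agent.A2.H729

end
-- ===== PACK-END A2/H729/Kummer.lean

-- ===== PACK-BEGIN S28/H326/Final.lean
section
/-
S28 / helper326: the prime-level analytic stubs of the captain skeleton
(`ModPolyData p`, `UnitPolyData p` of `Fermat.Agent.S28.Defs`).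
-/





set_option autoImplicit false
set_option linter.unusedSectionVars false

noncomputable section

namespace Fermat.Agent.S28.H326

open ModularCurve HahnSeries

variable (p : ℕ) [NeZero p]

/-- the base embedding `ℤ((q)) → ℂ((t))`, `q ↦ t^p` -/
def iotaP : LaurentSeries ℤ →+* LaurentSeries ℂ := (qExpand ℂ p).comp kap

theorem iotaP_injective : Function.Injective (iotaP p) :=
  (qExpand_injective p).comp kap_injective

theorem theta_eq_comp :
    theta p = (iotaP p).comp (Polynomial.aeval (jqModC ℤ)).toRingHom := rfl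

theorem theta_eq_comp' :
    theta p = kap.comp (Polynomial.aeval (qExpand ℤ p (jqModC ℤ))).toRingHom := by
  refine Polynomial.ringHom_ext (fun a => ?_) ?_
  · simp
  · rw [theta_X]
    simp only [RingHom.comp_apply, AlgHom.toRingHom_eq_coe, RingHom.coe_coe, Polynomial.aeval_X]
    rw [coeffMap_qExpand, coeffMap_jqModC, jP]

theorem iotaP_qExpand_jq : iotaP p (qExpand ℤ p (jqModC ℤ)) = y p none := by
  rw [iotaP, RingHom.comp_apply, coeffMap_qExpand, coeffMap_jqModC]
  rfl

theorem kap_jq : kap (jqModC ℤ) = y p (some ⟨0, Nat.pos_of_ne_zero (NeZero.ne p)⟩) := by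
  rw [coeffMap_jqModC]
  simp only [y, pow_zero, inv_one, map_one, one_mul, cB_zero]
  rfl

theorem deltaL_eq : deltaL ℤ = deltaZ := by
  rw [deltaL, deltaZ, DZ, map_mul, HahnSeries.ofPowerSeries_X]
  congr 2

theorem deltaInvL_eq : deltaInvL ℤ = deltaInvZ := by
  rw [deltaInvL, deltaInvZ]
  congr 2

theorem iotaP_unit :
    iotaP p ((p : LaurentSeries ℤ) ^ 12 * unitL ℤ p) = w p none := by
  rw [unitL, deltaL_eq, deltaInvL_eq, w, scal, conj, cInf, cBase, delInv, iotaP]
  simp only [RingHom.comp_apply, map_mul, map_pow, map_natCast, coeffMap_qExpand]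
  rw [deltaZ, kap_ofPS, DC]
  ring

/-- **[A-Φ]** existence of the modular polynomial of prime level `p`. -/
theorem nonempty_modPolyData (hp : p.Prime) : Nonempty (ModPolyData p) := by
  obtain ⟨Φ, hmonic, hdeg, hmap⟩ := exists_Phi p (heckeInput p hp)
  refine ⟨⟨Φ, hmonic, hdeg, ?_, ?_⟩⟩
  · apply iotaP_injective p
    rw [map_zero, Polynomial.hom_eval₂, ← theta_eq_comp, ← Polynomial.eval_map, hmap,
      iotaP_qExpand_jq]
    exact PhiPoly_eval p none
  · apply kap_injective
    rw [map_zero, Polynomial.hom_eval₂, ← theta_eq_comp', ← Polynomial.eval_map, hmap, kap_jq p]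
    exact PhiPoly_eval p _

/-- **[A-W]** `p¹² Δ(q^p)/Δ(q)` is integral over `ℤ[j]`. -/
theorem nonempty_unitPolyData (hp : p.Prime) : Nonempty (UnitPolyData p) := by
  obtain ⟨W, hmonic, -, hmap⟩ := exists_W p (heckeInput p hp)
  refine ⟨⟨W, hmonic, ?_⟩⟩
  apply iotaP_injective p
  rw [map_zero, Polynomial.hom_eval₂, ← theta_eq_comp, ← Polynomial.eval_map, hmap, iotaP_unit]
  exact WPoly_eval p none

end Fermat.Agent.S28.H326

end
end
-- ===== PACK-END S28/H326/Final.lean

-- ===== PACK-BEGIN A2/Mod/H378/L11.lean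
section






/-!
# A2 / MOD leaf L11 `ResInf` (helper378)

`theorem resInf : ResInfStatement P E M q w` : residue degree one over level `M` on `C∞`.

Route (independent of the other leaves): `F_{Mq} = F_M(j_{dq} : d ∣ M)`; by the Kronecker
congruence `Φ_q(X, Y) = (X^q - Y)(X - Y^q) + q Θ` (`S28.h88_kronecker_int`, with `Φ_q` from
`S28.H326.nonempty_modPolyData`) the generators satisfy
`(j_{dq}^q - j_d) (j_{dq} - j_d^q) = - q Θ(j_{dq}, j_d)` with `j_{dq}^q - j_d` a unit of `V∞`
(its expansion starts with `t^{-d q²}`).  The abstract lemma `ResOneData.exists_congr`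
(`L11Abstract.lean`) then gives `V∞_{Mq} = α(V∞_M) + w V∞_{Mq}`.
-/

set_option autoImplicit false
set_option linter.unusedSectionVars false
set_option linter.style.haveILetI false
set_option synthInstance.maxHeartbeats 400000
set_option maxHeartbeats 1600000

noncomputable section

namespace Fermat.Agent.A2.Mod.H378

open ModularCurve HahnSeries Fermat.Agent.A2.H708 Fermat.Agent.S28

/-! ## Generic facts on Gauss-integral elements -/

section Generic

variable {L : Type*} [Field L] [Algebra ℚ L] (A : ValuationSubring L)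
variable {F₀ F₁ : IntermediateField ℚ (LaurentSeries ℚ)}

theorem isGaussInt_mono (hle : laurentBaseChange L F₀ ≤ laurentBaseChange L F₁)
    {f : LaurentSeries L} (hf : IsGaussInt A F₀ f) : IsGaussInt A F₁ f := by
  obtain ⟨U₁, U₂, h0, hm, he⟩ := hf
  exact ⟨U₁, U₂, h0, hle hm, he⟩

theorem isGaussInt_descend (hgen : IntGen F₀) (hmax : AttainsMax A F₀)
    (hle : laurentBaseChange L F₀ ≤ laurentBaseChange L F₁)
    {f : LaurentSeries L} (hfF : f ∈ laurentBaseChange L F₀) (hf : IsGaussInt A F₁ f) :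
    IsGaussInt A F₀ f := by
  by_cases hf0 : f = 0
  · rw [hf0]; exact IsGaussInt.zero
  obtain ⟨c, U₁, U₂, hc, h₁, h₂, hm₁, hm₂, he⟩ := exists_normal_form hgen hmax hfF hf0
  have hcA : c ∈ A := (isGaussInt_iff_of_normal_form h₁ h₂ (hle hm₂) he).mp hf
  exact (isGaussInt_iff_of_normal_form h₁ h₂ hm₂ he).mpr hcA

theorem isGaussInt_cst_iff (F₀ : IntermediateField ℚ (LaurentSeries ℚ)) (c : L) :
    IsGaussInt A F₀ (cst c) ↔ c ∈ A := by
  have he : cst c * incl A 1 = cst c * incl A 1 := rfl
  exact isGaussInt_iff_of_normal_form (by rw [map_one]; exact one_ne_zero)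
    (by rw [map_one]; exact one_ne_zero) (by rw [map_one]; exact one_mem _) he

/-- the inverse of a primitive integral series of `F` is Gauss-integral. -/
theorem isGaussInt_inv_of_prim {U : LaurentSeries A} (hU : red A U ≠ 0)
    (hm : incl A U ∈ laurentBaseChange L F₀) : IsGaussInt A F₀ (incl A U)⁻¹ := by
  refine ⟨1, U, hU, hm, ?_⟩
  rw [map_one, inv_mul_cancel₀ (incl_ne_zero A (ne_zero_of_red_ne_zero A hU))]

/-- discreteness: a nonzero Gauss-integral element is `w ^ n` times a Gauss unit. -/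
theorem exists_pow_mul_unit [IsDiscreteValuationRing A] {w : A} (hw : Irreducible w)
    (hgen : IntGen F₀) (hmax : AttainsMax A F₀) {f : LaurentSeries L}
    (hfF : f ∈ laurentBaseChange L F₀) (hf0 : f ≠ 0) (hf : IsGaussInt A F₀ f) :
    ∃ n : ℕ, IsGaussInt A F₀ (f * (cst (w : L) ^ n)⁻¹) ∧
      IsGaussInt A F₀ (f * (cst (w : L) ^ n)⁻¹)⁻¹ := by
  obtain ⟨c, U₁, U₂, hc, h₁, h₂, hm₁, hm₂, he⟩ := exists_normal_form hgen hmax hfF hf0
  have hcA : c ∈ A := (isGaussInt_iff_of_normal_form h₁ h₂ hm₂ he).mp hf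
  have hc' : (⟨c, hcA⟩ : A) ≠ 0 := fun h => hc (congrArg Subtype.val h)
  obtain ⟨n, u, hu⟩ := IsDiscreteValuationRing.eq_unit_mul_pow_irreducible hc' hw
  have hcu : c = ((u : A) : L) * (w : L) ^ n := by
    have h1 := congrArg Subtype.val hu
    simpa using h1
  have hw0 : (w : L) ≠ 0 := fun h => hw.ne_zero (Subtype.ext h)
  have hwn : cst (w : L) ^ n ≠ 0 := pow_ne_zero _ (cst_ne_zero hw0)
  have hu0 : ((u : A) : L) ≠ 0 := fun h => u.ne_zero (Subtype.ext h)
  have he' : (f * (cst (w : L) ^ n)⁻¹) * incl A U₂ = cst ((u : A) : L) * incl A U₁ := by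
    have hpow : cst ((w : L) ^ n) = cst (w : L) ^ n := map_pow _ _ _
    rw [mul_right_comm, he, hcu, cst_mul, hpow]
    field_simp
  have hf0' : f * (cst (w : L) ^ n)⁻¹ ≠ 0 := mul_ne_zero hf0 (inv_ne_zero hwn)
  refine ⟨n, (isGaussInt_iff_of_normal_form h₁ h₂ hm₂ he').mpr (u : A).2, ?_⟩
  have he'' := normal_form_inv (A := A) hf0' hu0 he'
  refine (isGaussInt_iff_of_normal_form h₂ h₁ hm₁ he'').mpr ?_
  have h2 : ((u : A) : L)⁻¹ = (((u⁻¹ : Aˣ) : A) : L) := by
    apply inv_eq_of_mul_eq_one_right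
    have h3 := congrArg A.subtype u.mul_inv
    rw [map_mul, map_one] at h3
    exact h3
  rw [h2]
  exact ((u⁻¹ : Aˣ) : A).2

end Generic

/-! ## Series facts -/

section Series

variable (E : IntermediateField ℚ _root_.Fermat.Agent.A2.Mod.Qb)

/-- `j(t^d)` as a series over `E`. -/
def jser (d : ℕ) [NeZero d] : LaurentSeries E := qExpand E d (jqModC E)

theorem jser_eq_coeffEmb (d : ℕ) [NeZero d] : jser E d = coeffEmb E (qExpand ℚ d jq) := by
  rw [jser, coeffEmb, ← jqModC_rat, coeffMap_qExpand, coeffMap_jqModC]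

theorem jser_eq_incl (A : ValuationSubring E) (d : ℕ) [NeZero d] :
    jser E d = incl A (castA A (jInt d)) := by
  rw [incl_castA, castQ_jInt, jser_eq_coeffEmb]

theorem jser_mem (N d : ℕ) [NeZero d] (hd : d ∣ N) : jser E d ∈ _root_.Fermat.Agent.A2.Mod.FE E N := by
  rw [jser_eq_coeffEmb]
  exact coeffEmb_mem_laurentBaseChange E (jqd_mem_full N hd)

theorem FE_le (M q : ℕ) [NeZero M] [NeZero q] : _root_.Fermat.Agent.A2.Mod.FE E M ≤ _root_.Fermat.Agent.A2.Mod.FE E (M * q) := by
  intro x hx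
  have h := (heckeAlphaBar E M q ⟨x, hx⟩).2
  rw [coe_heckeAlphaBar] at h
  exact h

/-- the transfer `ℤ((t)) → E((t))`, `t ↦ t^d`. -/
def rho (d : ℕ) [NeZero d] : LaurentSeries ℤ →+* LaurentSeries E :=
  (qExpand E d).comp (coeffMap (Int.castRingHom E))

theorem rho_j (d : ℕ) [NeZero d] : rho E d (jqModC ℤ) = jser E d := by
  rw [rho, RingHom.comp_apply, coeffMap_jqModC, jser]

theorem rho_jq (d q : ℕ) [NeZero d] [NeZero q] :
    rho E d (qExpand ℤ q (jqModC ℤ)) = jser E (d * q) := by
  rw [rho, RingHom.comp_apply, coeffMap_qExpand, coeffMap_jqModC, qExpand_qExpand, jser]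

theorem rho_comp_evalAt (d : ℕ) [NeZero d] (y : LaurentSeries ℤ) :
    (rho E d).comp (evalAt y) = evalAt (rho E d y) := by
  apply Polynomial.ringHom_ext
  · intro a
    simp [evalAt]
  · simp [evalAt]

/-- **Kronecker relation** for `j_{dq}`, `j_d`. -/
theorem kron_series (q : ℕ) [NeZero q] (hq : q.Prime) (d : ℕ) [NeZero d] :
    ∃ Θ : Polynomial (Polynomial ℤ),
      (jser E (d * q) ^ q - jser E d) * (jser E (d * q) - jser E d ^ q)
        + (q : LaurentSeries E) * Θ.eval₂ (evalAt (jser E d)) (jser E (d * q)) = 0 := by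
  have hfact : Fact q.Prime := ⟨hq⟩
  obtain ⟨D⟩ := Fermat.Agent.S28.H326.nonempty_modPolyData q hq
  obtain ⟨Θ, hΘ⟩ := h88_kronecker_int q D
  refine ⟨Θ, ?_⟩
  have h0 := D.eval_jp
  rw [hΘ] at h0
  have h1 := congrArg (rho E d) h0
  rw [map_zero, Polynomial.hom_eval₂, rho_comp_evalAt, rho_j, rho_jq] at h1
  have e1 : evalAt (jser E d) (Polynomial.X) = jser E d := by simp [evalAt]
  have e2 : evalAt (jser E d) (Polynomial.X ^ q) = jser E d ^ q := by simp [evalAt]
  have e3 : evalAt (jser E d) (Polynomial.C (q : ℤ)) = (q : LaurentSeries E) := by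
    simp [evalAt]
  rw [Polynomial.eval₂_add, Polynomial.eval₂_mul, Polynomial.eval₂_sub, Polynomial.eval₂_sub,
    Polynomial.eval₂_pow, Polynomial.eval₂_X, Polynomial.eval₂_C, Polynomial.eval₂_C,
    Polynomial.eval₂_mul, Polynomial.eval₂_C, e1, e2, e3] at h1
  exact h1

/-- the leading coefficient of `j_{dq}^q - j_d`. -/
theorem coeff_sInt (q : ℕ) [NeZero q] (hq : 2 ≤ q) (d : ℕ) [NeZero d] :
    (jInt (d * q) ^ q - jInt d).coeff (-((d * q * q : ℕ) : ℤ)) = 1 := by
  rw [HahnSeries.coeff_sub, jInt, jInt, jqNModC, jqNModC, ← map_pow]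
  have h1 : (-((d * q * q : ℕ) : ℤ)) = ((d * q : ℕ) : ℤ) * (-(q : ℤ)) := by
    push_cast
    ring
  have h2 : (-((d * q * q : ℕ) : ℤ)) = ((d : ℕ) : ℤ) * (-((q * q : ℕ) : ℤ)) := by
    push_cast
    ring
  have h3 : (qExpand ℤ (d * q) (jqModC ℤ ^ q)).coeff (-((d * q * q : ℕ) : ℤ)) = 1 := by
    rw [h1, qExpand_coeff_mul, coeff_jqModC_pow_self]
  have h4 : (qExpand ℤ d (jqModC ℤ)).coeff (-((d * q * q : ℕ) : ℤ)) = 0 := by
    rw [h2, qExpand_coeff_mul]
    apply coeff_jqModC_of_lt
    have : (4 : ℤ) ≤ ((q * q : ℕ) : ℤ) := by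
      have : 4 ≤ q * q := by nlinarith
      exact_mod_cast this
    omega
  rw [h3, h4, sub_zero]

/-- `j_{dq}^q - j_d` is a primitive integral series. -/
theorem red_sInt_ne_zero (A : ValuationSubring E) (q : ℕ) [NeZero q] (hq : 2 ≤ q) (d : ℕ)
    [NeZero d] : red A (castA A (jInt (d * q) ^ q - jInt d)) ≠ 0 := by
  intro h
  have h1 := congrArg (fun z => z.coeff (-((d * q * q : ℕ) : ℤ))) h
  simp only [coeffMap_coeff, HahnSeries.coeff_zero] at h1
  rw [coeff_sInt q hq d] at h1
  simp at h1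

theorem incl_sInt (A : ValuationSubring E) (q d : ℕ) [NeZero q] [NeZero d] :
    incl A (castA A (jInt (d * q) ^ q - jInt d)) = jser E (d * q) ^ q - jser E d := by
  rw [map_sub, map_sub, map_pow, map_pow, ← jser_eq_incl, ← jser_eq_incl]

end Series

/-! ## The concrete data -/

section Concrete

variable {P : ValuationSubring _root_.Fermat.Agent.A2.Mod.Qb} {E : IntermediateField ℚ _root_.Fermat.Agent.A2.Mod.Qb} {M q : ℕ} [NeZero M] [NeZero q]
  {w : _root_.Fermat.Agent.A2.Mod.RE P E}

/-- the new generators `j_{dq}`, `d ∣ M`, of `F_{Mq}` over `F_M`. -/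
def Xset (E : IntermediateField ℚ _root_.Fermat.Agent.A2.Mod.Qb) (M q : ℕ) [NeZero q] : Set (_root_.Fermat.Agent.A2.Mod.FE E (M * q)) :=
  {x | ∃ (d : ℕ) (_ : NeZero d), d ∣ M ∧ (x : LaurentSeries E) = jser E (d * q)}

/-- `α(V∞_M)` as a subring of `F_{Mq}`. -/
def Oring (E : IntermediateField ℚ _root_.Fermat.Agent.A2.Mod.Qb) (M q : ℕ) [NeZero M] [NeZero q]
    (VM : ValuationSubring (_root_.Fermat.Agent.A2.Mod.FE E M)) : Subring (_root_.Fermat.Agent.A2.Mod.FE E (M * q)) :=
  VM.toSubring.map (αE E M q : _root_.Fermat.Agent.A2.Mod.FE E M →+* _root_.Fermat.Agent.A2.Mod.FE E (M * q))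

theorem mem_Oring {VM : ValuationSubring (_root_.Fermat.Agent.A2.Mod.FE E M)} {x : _root_.Fermat.Agent.A2.Mod.FE E (M * q)} :
    x ∈ Oring E M q VM ↔ ∃ g ∈ VM, αE E M q g = x := by
  rw [Oring, Subring.mem_map]
  rfl

theorem attains (hS : Setting P E M q w) (N : ℕ) :
    AttainsMax (_root_.Fermat.Agent.A2.Mod.RE P E) (modularFunctionFieldFull N) := by
  haveI := hS.dvr
  exact attainsMax_of_isNoetherianRing _ _

theorem alpha_mem_iff (hS : Setting P E M q w) {VM : ValuationSubring (_root_.Fermat.Agent.A2.Mod.FE E M)}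
    {V : ValuationSubring (_root_.Fermat.Agent.A2.Mod.FE E (M * q))} (hVM : IsVinf P E M VM) (hV : IsVinf P E (M * q) V)
    (g : _root_.Fermat.Agent.A2.Mod.FE E M) : αE E M q g ∈ V ↔ g ∈ VM := by
  rw [hV (αE E M q g), hVM g, coe_heckeAlphaBar]
  constructor
  · exact isGaussInt_descend (_root_.Fermat.Agent.A2.Mod.RE P E) (intGen_full M) (attains hS M) (FE_le E M q) g.2
  · exact isGaussInt_mono (_root_.Fermat.Agent.A2.Mod.RE P E) (FE_le E M q)

theorem cE_mem {N : ℕ} {V : ValuationSubring (_root_.Fermat.Agent.A2.Mod.FE E N)} (hV : IsVinf P E N V) (r : _root_.Fermat.Agent.A2.Mod.RE P E) :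
    cE P E N r ∈ V := by
  rw [hV]
  exact (isGaussInt_cst_iff (_root_.Fermat.Agent.A2.Mod.RE P E) _ (r : E)).mpr r.2

theorem alpha_cE (r : _root_.Fermat.Agent.A2.Mod.RE P E) : αE E M q (cE P E M r) = cE P E (M * q) r :=
  (αE E M q).commutes (r : E)

theorem w_ne_zero (hS : Setting P E M q w) : (w : E) ≠ 0 :=
  fun h => hS.unif.ne_zero (Subtype.ext h)

theorem cE_ne_zero (hS : Setting P E M q w) (N : ℕ) : cE P E N w ≠ 0 := by
  intro h
  exact w_ne_zero hS ((map_eq_zero (algebraMap E (_root_.Fermat.Agent.A2.Mod.FE E N))).mp h)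

theorem w_inv_not_mem (hS : Setting P E M q w) : (w : E)⁻¹ ∉ _root_.Fermat.Agent.A2.Mod.RE P E := by
  intro h
  apply hS.unif.not_isUnit
  refine ⟨⟨w, ⟨(w : E)⁻¹, h⟩, ?_, ?_⟩, rfl⟩
  · exact Subtype.ext (mul_inv_cancel₀ (w_ne_zero hS))
  · exact Subtype.ext (inv_mul_cancel₀ (w_ne_zero hS))

/-- `q ∈ w R`. -/
theorem exists_q_eq (hS : Setting P E M q w) : ∃ c : _root_.Fermat.Agent.A2.Mod.RE P E, ((q : ℕ) : E) = (w : E) * (c : E) := by
  haveI := hS.dvr
  have hq := hS.lies_over
  have hqv : P.valuation ((q : ℕ) : _root_.Fermat.Agent.A2.Mod.Qb) < 1 := (ValuationSubring.mem_nonunits_iff P).mp hq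
  have hqP : algebraMap E _root_.Fermat.Agent.A2.Mod.Qb ((q : ℕ) : E) ∈ P := by
    rw [map_natCast, ← ValuationSubring.valuation_le_one_iff]
    exact hqv.le
  set qA : _root_.Fermat.Agent.A2.Mod.RE P E := ⟨((q : ℕ) : E), hqP⟩ with hqA
  have hnu : ¬ IsUnit qA := by
    rintro ⟨u, hu⟩
    have h1 : qA * ((u⁻¹ : (_root_.Fermat.Agent.A2.Mod.RE P E)ˣ) : _root_.Fermat.Agent.A2.Mod.RE P E) = 1 := by
      rw [← hu]
      exact u.mul_inv
    have h2 : ((q : ℕ) : _root_.Fermat.Agent.A2.Mod.Qb) * algebraMap E _root_.Fermat.Agent.A2.Mod.Qb (((u⁻¹ : (_root_.Fermat.Agent.A2.Mod.RE P E)ˣ) : _root_.Fermat.Agent.A2.Mod.RE P E) : E) = 1 := by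
      have h3 := congrArg (fun z : _root_.Fermat.Agent.A2.Mod.RE P E => algebraMap E _root_.Fermat.Agent.A2.Mod.Qb (z : E)) h1
      simpa [hqA] using h3
    have h4 : P.valuation (algebraMap E _root_.Fermat.Agent.A2.Mod.Qb (((u⁻¹ : (_root_.Fermat.Agent.A2.Mod.RE P E)ˣ) : _root_.Fermat.Agent.A2.Mod.RE P E) : E)) ≤ 1 :=
      (ValuationSubring.valuation_le_one_iff _ _).mpr ((u⁻¹ : (_root_.Fermat.Agent.A2.Mod.RE P E)ˣ) : _root_.Fermat.Agent.A2.Mod.RE P E).2
    have h5 := congrArg P.valuation h2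
    rw [map_mul, map_one] at h5
    have h6 : P.valuation ((q : ℕ) : _root_.Fermat.Agent.A2.Mod.Qb) *
        P.valuation (algebraMap E _root_.Fermat.Agent.A2.Mod.Qb (((u⁻¹ : (_root_.Fermat.Agent.A2.Mod.RE P E)ˣ) : _root_.Fermat.Agent.A2.Mod.RE P E) : E)) < 1 := by
      calc _ ≤ P.valuation ((q : ℕ) : _root_.Fermat.Agent.A2.Mod.Qb) * 1 := by gcongr
        _ = P.valuation ((q : ℕ) : _root_.Fermat.Agent.A2.Mod.Qb) := mul_one _
        _ < 1 := hqv
    exact (ne_of_lt h6) h5
  have hmem : qA ∈ IsLocalRing.maximalIdeal (_root_.Fermat.Agent.A2.Mod.RE P E) := (IsLocalRing.mem_maximalIdeal _).mpr hnu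
  rw [hS.unif.maximalIdeal_eq, Ideal.mem_span_singleton] at hmem
  obtain ⟨c, hc⟩ := hmem
  refine ⟨c, ?_⟩
  have := congrArg Subtype.val hc
  simpa [hqA] using this

theorem eval₂_mem_subring {R S : Type*} [CommRing R] [CommRing S] (f : R →+* S) (x : S)
    (T : Subring S) (hf : ∀ r, f r ∈ T) (hx : x ∈ T) (p : Polynomial R) : p.eval₂ f x ∈ T := by
  rw [Polynomial.eval₂_eq_sum, Polynomial.sum]
  exact Subring.sum_mem _ fun i _ => T.mul_mem (hf _) (T.pow_mem hx i)

theorem jser_mem_V {N : ℕ} {V : ValuationSubring (_root_.Fermat.Agent.A2.Mod.FE E N)} (hV : IsVinf P E N V)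
    {x : _root_.Fermat.Agent.A2.Mod.FE E N} {d : ℕ} [NeZero d] (hx : (x : LaurentSeries E) = jser E d) : x ∈ V := by
  rw [hV, hx, jser_eq_incl E (_root_.Fermat.Agent.A2.Mod.RE P E) d]
  exact IsGaussInt.of_incl _

/-- the subtype ring homomorphism `F_N → E((t))`. -/
def valHom (E : IntermediateField ℚ _root_.Fermat.Agent.A2.Mod.Qb) (N : ℕ) : _root_.Fermat.Agent.A2.Mod.FE E N →+* LaurentSeries E :=
  ((_root_.Fermat.Agent.A2.Mod.FE E N).val : _root_.Fermat.Agent.A2.Mod.FE E N →+* LaurentSeries E)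

theorem valHom_apply (N : ℕ) (x : _root_.Fermat.Agent.A2.Mod.FE E N) : valHom E N x = (x : LaurentSeries E) := rfl

theorem valHom_comp_aeval (N : ℕ) (y : _root_.Fermat.Agent.A2.Mod.FE E N) :
    (valHom E N).comp (Polynomial.aeval (R := ℤ) y).toRingHom = evalAt (y : LaurentSeries E) := by
  apply Polynomial.ringHom_ext
  · intro a
    simp [evalAt, valHom]
  · simp [evalAt, valHom]

/-- **The Kronecker relation** for the generators `j_{dq}`. -/
theorem kron_X (hS : Setting P E M q w) {VM : ValuationSubring (_root_.Fermat.Agent.A2.Mod.FE E M)}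
    {V : ValuationSubring (_root_.Fermat.Agent.A2.Mod.FE E (M * q))} (hVM : IsVinf P E M VM) (hV : IsVinf P E (M * q) V)
    {x : _root_.Fermat.Agent.A2.Mod.FE E (M * q)} (hx : x ∈ Xset E M q) :
    ∃ a ∈ Oring E M q VM,
      ∃ s ∈ Subring.closure ((Oring E M q VM : Set (_root_.Fermat.Agent.A2.Mod.FE E (M * q))) ∪ Xset E M q),
        s ≠ 0 ∧ s⁻¹ ∈ V.toSubring ∧
        ∃ c ∈ Subring.closure ((Oring E M q VM : Set (_root_.Fermat.Agent.A2.Mod.FE E (M * q))) ∪ Xset E M q),
          s * (x - a) = cE P E (M * q) w * c := by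
  obtain ⟨d, hd, hdM, hxd⟩ := hx
  haveI := hd
  set B := Subring.closure ((Oring E M q VM : Set (_root_.Fermat.Agent.A2.Mod.FE E (M * q))) ∪ Xset E M q) with hB
  set y0 : _root_.Fermat.Agent.A2.Mod.FE E M := ⟨jser E d, jser_mem E M d hdM⟩ with hy0
  have hy0V : y0 ∈ VM := jser_mem_V hVM (d := d) rfl
  set y : _root_.Fermat.Agent.A2.Mod.FE E (M * q) := αE E M q y0 with hy
  have hyc : (y : LaurentSeries E) = jser E d := coe_heckeAlphaBar M q y0
  have hyO : y ∈ Oring E M q VM := mem_Oring.mpr ⟨y0, hy0V, rfl⟩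
  have hxB : x ∈ B := Subring.subset_closure (Or.inr ⟨d, hd, hdM, hxd⟩)
  have hyB : y ∈ B := Subring.subset_closure (Or.inl hyO)
  obtain ⟨Θ, hΘ⟩ := kron_series E q hS.q_prime d
  obtain ⟨c0, hc0⟩ := exists_q_eq hS
  set θ : _root_.Fermat.Agent.A2.Mod.FE E (M * q) := Θ.eval₂ ((Polynomial.aeval (R := ℤ) y).toRingHom) x with hθ
  have hθB : θ ∈ B := by
    refine eval₂_mem_subring _ x B (fun r => ?_) hxB Θ
    show Polynomial.aeval y r ∈ B
    rw [Polynomial.aeval_def]
    refine eval₂_mem_subring _ y B (fun n => ?_) hyB r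
    rw [eq_intCast]
    exact intCast_mem B n
  have hθc : (θ : LaurentSeries E) = Θ.eval₂ (evalAt (jser E d)) (jser E (d * q)) := by
    rw [← valHom_apply, hθ, Polynomial.hom_eval₂, valHom_comp_aeval, valHom_apply, hxd, hyc]
  -- the unit `s`
  have hsc : ((x ^ q - y : _root_.Fermat.Agent.A2.Mod.FE E (M * q)) : LaurentSeries E)
      = incl (_root_.Fermat.Agent.A2.Mod.RE P E) (castA (_root_.Fermat.Agent.A2.Mod.RE P E) (jInt (d * q) ^ q - jInt d)) := by
    rw [incl_sInt, ← valHom_apply, map_sub, map_pow, valHom_apply, valHom_apply, hxd, hyc]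
  have hred := red_sInt_ne_zero E (_root_.Fermat.Agent.A2.Mod.RE P E) q hS.q_prime.two_le d
  have hs0 : x ^ q - y ≠ 0 := by
    intro h
    have h1 : ((x ^ q - y : _root_.Fermat.Agent.A2.Mod.FE E (M * q)) : LaurentSeries E) = 0 := by
      rw [h]
      rfl
    rw [hsc] at h1
    exact incl_ne_zero _ (ne_zero_of_red_ne_zero _ hred) h1
  have hsi : (x ^ q - y)⁻¹ ∈ V := by
    rw [hV, IntermediateField.coe_inv, hsc]
    refine isGaussInt_inv_of_prim _ hred ?_
    rw [← hsc]
    exact (x ^ q - y).2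
  have hc0O : cE P E (M * q) c0 ∈ Oring E M q VM :=
    mem_Oring.mpr ⟨cE P E M c0, cE_mem hVM c0, alpha_cE c0⟩
  refine ⟨y ^ q, (Oring E M q VM).pow_mem hyO q, x ^ q - y,
    B.sub_mem (B.pow_mem hxB q) hyB, hs0, hsi, -(cE P E (M * q) c0 * θ),
    B.neg_mem (B.mul_mem (Subring.subset_closure (Or.inl hc0O)) hθB), ?_⟩
  apply Subtype.ext
  have hqc : ((q : ℕ) : LaurentSeries E) = cst ((w : E)) * cst (c0 : E) := by
    rw [← cst_mul, ← hc0]
    exact (map_natCast (algebraMap E (LaurentSeries E)) q).symm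
  have hL : (((x ^ q - y) * (x - y ^ q) : _root_.Fermat.Agent.A2.Mod.FE E (M * q)) : LaurentSeries E)
      = (jser E (d * q) ^ q - jser E d) * (jser E (d * q) - jser E d ^ q) := by
    rw [← valHom_apply, map_mul, map_sub, map_sub, map_pow, map_pow, valHom_apply, valHom_apply,
      hxd, hyc]
  have hR : ((cE P E (M * q) w * -(cE P E (M * q) c0 * θ) : _root_.Fermat.Agent.A2.Mod.FE E (M * q)) : LaurentSeries E)
      = cst (w : E) * -(cst (c0 : E) * Θ.eval₂ (evalAt (jser E d)) (jser E (d * q))) := by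
    rw [← valHom_apply, map_mul, map_neg, map_mul, valHom_apply _ θ, hθc]
    rfl
  rw [hL, hR]
  rw [hqc] at hΘ
  linear_combination hΘ

/-- divisors of `M q`: either `d ∣ M` or `d = d' q` with `d' ∣ M`. -/
theorem dvd_cases {M q d : ℕ} (hq : q.Prime) (hd : d ∣ M * q) :
    d ∣ M ∨ ∃ d', d' ∣ M ∧ d = d' * q := by
  by_cases hqd : q ∣ d
  · right
    obtain ⟨d', rfl⟩ := hqd
    refine ⟨d', ?_, mul_comm _ _⟩
    rw [mul_comm q d'] at hd
    exact (Nat.mul_dvd_mul_iff_right hq.pos).mp hd
  · left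
    have hcop : Nat.Coprime d q := ((Nat.Prime.coprime_iff_not_dvd hq).mpr hqd).symm
    exact hcop.dvd_of_dvd_mul_right hd

/-- `F_{Mq}` is generated as a field by `α(V∞_M)` and the `j_{dq}`. -/
theorem gen_X (hS : Setting P E M q w) {VM : ValuationSubring (_root_.Fermat.Agent.A2.Mod.FE E M)}
    (hVM : IsVinf P E M VM) (f : _root_.Fermat.Agent.A2.Mod.FE E (M * q)) :
    f ∈ Subfield.closure ((Oring E M q VM : Set (_root_.Fermat.Agent.A2.Mod.FE E (M * q))) ∪ Xset E M q) := by
  set G := Subfield.closure ((Oring E M q VM : Set (_root_.Fermat.Agent.A2.Mod.FE E (M * q))) ∪ Xset E M q) with hG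
  set Gs : Subfield (LaurentSeries E) := G.map (valHom E (M * q)) with hGsdef
  have hGs : ∀ x : _root_.Fermat.Agent.A2.Mod.FE E (M * q), (x : LaurentSeries E) ∈ Gs → x ∈ G := by
    intro x hx
    obtain ⟨y, hy, hyx⟩ := Subfield.mem_map.mp hx
    have h1 : y = x := Subtype.ext hyx
    rw [← h1]
    exact hy
  have hGs' : ∀ x : _root_.Fermat.Agent.A2.Mod.FE E (M * q), x ∈ G → (x : LaurentSeries E) ∈ Gs :=
    fun x hx => Subfield.mem_map.mpr ⟨x, hx, rfl⟩
  -- constants
  have hconstA : ∀ r : _root_.Fermat.Agent.A2.Mod.RE P E, cE P E (M * q) r ∈ G := fun r =>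
    Subfield.subset_closure (Or.inl (mem_Oring.mpr ⟨cE P E M r, cE_mem hVM r, alpha_cE r⟩))
  have hconst : ∀ e : E, algebraMap E (LaurentSeries E) e ∈ Gs := by
    intro e
    refine hGs' (algebraMap E (_root_.Fermat.Agent.A2.Mod.FE E (M * q)) e) ?_
    rcases (_root_.Fermat.Agent.A2.Mod.RE P E).mem_or_inv_mem e with h | h
    · exact hconstA ⟨e, h⟩
    · have h1 : algebraMap E (_root_.Fermat.Agent.A2.Mod.FE E (M * q)) e = (cE P E (M * q) ⟨e⁻¹, h⟩)⁻¹ := by
        rw [cE, ← map_inv₀, inv_inv]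
      rw [h1]
      exact G.inv_mem (hconstA _)
  -- generators
  have hj : ∀ (d : ℕ) [NeZero d], d ∣ M * q → jser E d ∈ Gs := by
    intro d hd hdN
    rcases dvd_cases hS.q_prime hdN with hdM | ⟨d', hd'M, hdd'⟩
    · have h1 : αE E M q ⟨jser E d, jser_mem E M d hdM⟩ ∈ G :=
        Subfield.subset_closure (Or.inl (mem_Oring.mpr
          ⟨⟨jser E d, jser_mem E M d hdM⟩, jser_mem_V hVM (d := d) rfl, rfl⟩))
      exact hGs' _ h1
    · subst hdd'
      haveI : NeZero d' := ⟨fun h => by
        rw [h, zero_mul] at hd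
        exact hd.out rfl⟩
      have h1 : (⟨jser E (d' * q), jser_mem E (M * q) (d' * q) hdN⟩ : _root_.Fermat.Agent.A2.Mod.FE E (M * q)) ∈ G :=
        Subfield.subset_closure (Or.inr ⟨d', inferInstance, hd'M, rfl⟩)
      exact hGs' _ h1
  apply hGs
  have hf := mem_laurentBaseChange_iff.mp f.2
  refine Subfield.closure_le.mpr ?_ hf
  rintro z (⟨e, rfl⟩ | ⟨z0, hz0, rfl⟩)
  · exact hconst e
  · have hz0' : z0 ∈ IntermediateField.adjoin ℚ (divisorExpansions (M * q)) := hz0
    induction hz0' using IntermediateField.adjoin_induction with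
    | mem y hy =>
      obtain ⟨d, hd, hdN, rfl⟩ := hy
      haveI := hd
      show coeffEmb E (qExpand ℚ d jq) ∈ Gs
      rw [← jser_eq_coeffEmb]
      exact hj d hdN
    | algebraMap c =>
      have h1 : coeffEmb E (algebraMap ℚ (LaurentSeries ℚ) c)
          = algebraMap E (LaurentSeries E) (algebraMap ℚ E c) := by
        rw [coeffEmb, algebraMap_laurentSeries_eq_single, algebraMap_laurentSeries_eq_single,
          coeffMap_single]
      show coeffEmb E (algebraMap ℚ (LaurentSeries ℚ) c) ∈ Gs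
      rw [h1]
      exact hconst _
    | add x y hx hy ihx ihy =>
      show coeffEmb E (x + y) ∈ Gs
      rw [map_add]
      exact Gs.add_mem (ihx hx) (ihy hy)
    | inv x hx ihx =>
      show coeffEmb E x⁻¹ ∈ Gs
      rw [map_inv₀]
      exact Gs.inv_mem (ihx hx)
    | mul x y hx hy ihx ihy =>
      show coeffEmb E (x * y) ∈ Gs
      rw [map_mul]
      exact Gs.mul_mem (ihx hx) (ihy hy)

/-- discreteness of `V∞`. -/
theorem disc_V (hS : Setting P E M q w) (N : ℕ) {V : ValuationSubring (_root_.Fermat.Agent.A2.Mod.FE E N)}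
    (hV : IsVinf P E N V) {x : _root_.Fermat.Agent.A2.Mod.FE E N} (hx : x ∈ V) (hx0 : x ≠ 0) :
    ∃ (n : ℕ) (u : _root_.Fermat.Agent.A2.Mod.FE E N), u ∈ V ∧ u⁻¹ ∈ V ∧ x = cE P E N w ^ n * u := by
  haveI := hS.dvr
  have hx0' : (x : LaurentSeries E) ≠ 0 := fun h => hx0 (Subtype.ext h)
  obtain ⟨n, h1, h2⟩ := exists_pow_mul_unit (_root_.Fermat.Agent.A2.Mod.RE P E) hS.unif (intGen_full N) (attains hS N)
    x.2 hx0' ((hV x).mp hx)
  have hcw := cE_ne_zero hS N
  have hu : ((x * (cE P E N w ^ n)⁻¹ : _root_.Fermat.Agent.A2.Mod.FE E N) : LaurentSeries E)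
      = (x : LaurentSeries E) * (cst ((w : _root_.Fermat.Agent.A2.Mod.RE P E) : E) ^ n)⁻¹ := by
    rw [← valHom_apply, map_mul, map_inv₀, map_pow]
    rfl
  refine ⟨n, x * (cE P E N w ^ n)⁻¹, ?_, ?_, ?_⟩
  · rw [hV, hu]
    exact h1
  · rw [hV, ← valHom_apply, map_inv₀, valHom_apply, hu]
    exact h2
  · field_simp

/-- **The data of the abstract lemma.** -/
theorem resOneData (hS : Setting P E M q w) {VM : ValuationSubring (_root_.Fermat.Agent.A2.Mod.FE E M)}
    {V : ValuationSubring (_root_.Fermat.Agent.A2.Mod.FE E (M * q))} (hVM : IsVinf P E M VM) (hV : IsVinf P E (M * q) V) :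
    ResOneData V.toSubring (Oring E M q VM) (cE P E (M * q) w) (Xset E M q) where
  O_le := by
    intro x hx
    obtain ⟨g, hg, rfl⟩ := mem_Oring.mp hx
    exact (alpha_mem_iff hS hVM hV g).mpr hg
  w_mem := mem_Oring.mpr ⟨cE P E M w, cE_mem hVM w, alpha_cE w⟩
  w_ne := cE_ne_zero hS _
  w_nonunit := by
    intro h
    have h1 : (cE P E (M * q) w)⁻¹ ∈ V := h
    rw [hV, ← valHom_apply, map_inv₀] at h1
    have h2 : valHom E (M * q) (cE P E (M * q) w) = cst ((w : _root_.Fermat.Agent.A2.Mod.RE P E) : E) := rfl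
    have h3 : (cst ((w : _root_.Fermat.Agent.A2.Mod.RE P E) : E))⁻¹ = cst ((w : E)⁻¹) := (map_inv₀ _ _).symm
    rw [h2, h3, isGaussInt_cst_iff] at h1
    exact w_inv_not_mem hS h1
  O_div := by
    intro x hx hxw
    obtain ⟨g, hg, rfl⟩ := mem_Oring.mp hx
    have h1 : αE E M q g * (cE P E (M * q) w)⁻¹ = αE E M q (g * (cE P E M w)⁻¹) := by
      rw [map_mul, map_inv₀, alpha_cE]
    rw [h1] at hxw ⊢
    exact mem_Oring.mpr ⟨_, (alpha_mem_iff hS hVM hV _).mp hxw, rfl⟩
  O_inv := by
    intro x hx hxi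
    obtain ⟨g, hg, rfl⟩ := mem_Oring.mp hx
    have h1 : (αE E M q g)⁻¹ = αE E M q g⁻¹ := (map_inv₀ _ _).symm
    rw [h1] at hxi ⊢
    exact mem_Oring.mpr ⟨_, (alpha_mem_iff hS hVM hV _).mp hxi, rfl⟩
  X_le := by
    rintro x ⟨d, hd, hdM, hxd⟩
    haveI := hd
    exact jser_mem_V hV hxd
  disc := fun x hx hx0 => disc_V hS (M * q) hV hx hx0
  kron := fun x hx => kron_X hS hVM hV hx
  gen := gen_X hS hVM

/-- **Leaf L11 (`ResInf`)**: residue degree one over level `M` on `C∞`. -/
theorem resInf (P : ValuationSubring _root_.Fermat.Agent.A2.Mod.Qb) (E : IntermediateField ℚ _root_.Fermat.Agent.A2.Mod.Qb) (M q : ℕ) [NeZero M]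
    [NeZero q] (w : _root_.Fermat.Agent.A2.Mod.RE P E) : ResInfStatement P E M q w := by
  intro hS VM V hVM hV f hf
  obtain ⟨g', hg', hcong⟩ := (resOneData hS hVM hV).exists_congr hf
  obtain ⟨g, hg, rfl⟩ := mem_Oring.mp hg'
  exact ⟨g, hg, hcong⟩

end Concrete

end Fermat.Agent.A2.Mod.H378

end
end
-- ===== PACK-END A2/Mod/H378/L11.lean

-- ===== PACK-BEGIN S18/H203/TraceRed.lean
section


/-!
# S18 / b1–b2.1 (helper203): traces and discriminants commute with reduction mod `w`

Setting of `LiftBasis.lean` / `KBasis.lean`: `S` Noetherian integrally closed domain, `w ∈ S`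
prime, `K = Frac S`, `F / K` finite, `B` the integral closure of `S` in `F`, finite over `S`;
`S̄ = S ⧸ (w)`, `B̄ = B ⧸ (w) B`, and `b̄` an `S̄`-basis of `B̄`.

* `trace_redB` : if `τ ∈ S` is the trace `Tr_{F/K} β` of `β ∈ B`, then
  `Tr_{B̄ / S̄} (β mod w) = τ mod w`.
* `exists_trace_eq` : the trace of `β ∈ B` lies in `S`.
* `exists_discr_eq` : for lifts `b i ∈ B` of `b̄ i` there is `d ∈ S` which is the discriminant of
  the `K`-basis `b` of `F` and whose reduction is the discriminant of the `S̄`-basis `b̄` of `B̄`.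
-/

set_option autoImplicit false

namespace Fermat.Agent.S18.H203

open Ideal

section General

variable {R A : Type*} [CommRing R] [CommRing A] [Algebra R A]
  {ι : Type*} [Fintype ι] [DecidableEq ι]

/-- Trace from a "matrix up to a scalar": if `r • (x * bas j) = ∑ i, s i j • bas i` for all `j`
then `r * Tr x = ∑ i, s i i`. -/
theorem mul_trace_eq_sum (bas : Module.Basis ι R A) (x : A) (r : R) (s : ι → ι → R)
    (h : ∀ j, r • (x * bas j) = ∑ i, s i j • bas i) :
    r * Algebra.trace R A x = ∑ i, s i i := by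
  rw [Algebra.trace_eq_matrix_trace bas, Matrix.trace, Finset.mul_sum]
  refine Finset.sum_congr rfl fun i _ => ?_
  rw [Matrix.diag_apply, Algebra.leftMulMatrix_eq_repr_mul]
  have h1 := congrArg (fun v => bas.repr v i) (h i)
  simp only [map_smul, Finsupp.smul_apply, smul_eq_mul, map_sum, Finsupp.coe_finsetSum,
    Finset.sum_apply, Module.Basis.repr_self, Finsupp.single_apply, mul_ite, mul_one,
    mul_zero, Finset.sum_ite_eq', Finset.mem_univ, if_true] at h1
  exact h1

end General

section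

variable {S B : Type*} [CommRing S] [IsDomain S] [IsNoetherianRing S] [IsIntegrallyClosed S]
  [CommRing B] [Algebra S B] {ι : Type*} [Fintype ι] [DecidableEq ι]

omit [IsNoetherianRing S] [IsDomain S] [DecidableEq ι] [Fintype ι] in
/-- The trace of an element of the integral closure lies in `S`. -/
theorem exists_trace_eq (K F : Type*) [Field K] [Algebra S K]
    [IsFractionRing S K] [Field F] [Algebra K F] [Algebra S F] [IsScalarTower S K F]
    [Algebra B F] [IsScalarTower S B F] [IsIntegralClosure B S F] [FiniteDimensional K F]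
    (β : B) : ∃ τ : S, algebraMap S K τ = Algebra.trace K F (algebraMap B F β) := by
  have h1 : IsIntegral S (algebraMap B F β) := (IsIntegralClosure.isIntegral S F β).algebraMap
  have h2 : IsIntegral S (Algebra.trace K F (algebraMap B F β)) := Algebra.isIntegral_trace h1
  exact IsIntegrallyClosed.isIntegral_iff.mp h2

omit [IsIntegrallyClosed S] in
/-- **Traces commute with reduction mod `w`.** -/
theorem trace_redB (K F : Type*) [Field K] [Algebra S K]
    [IsFractionRing S K] [Field F] [Algebra K F] [Algebra S F] [IsScalarTower S K F]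
    [Algebra B F] [IsScalarTower S B F] [IsIntegralClosure B S F]
    [Module.Finite S B] [FiniteDimensional K F]
    {w : S} (hw : Prime w)
    (bbar : Module.Basis ι (S ⧸ Ideal.span {w}) (B ⧸ (Ideal.span {w}).map (algebraMap S B)))
    (β : B) (τ : S) (hτ : algebraMap S K τ = Algebra.trace K F (algebraMap B F β)) :
    Algebra.trace (S ⧸ Ideal.span {w}) (B ⧸ (Ideal.span {w}).map (algebraMap S B))
      (redB (S := S) w β) = redS w τ := by
  -- lifts of the basis
  choose b hb using fun i => Ideal.Quotient.mk_surjective (bbar i)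
  have hfun : (fun i => redB (S := S) w (b i)) = ⇑bbar := funext hb
  have hli : LinearIndependent (S ⧸ Ideal.span {w}) fun i => redB (S := S) w (b i) := by
    rw [hfun]; exact bbar.linearIndependent
  have hspan : Submodule.span (S ⧸ Ideal.span {w})
      (Set.range fun i => redB (S := S) w (b i)) = ⊤ := by
    rw [hfun]; exact bbar.span_eq
  -- the `K`-basis
  set bK : Module.Basis ι K F := basisOfLift K F hw b hli hspan with hbK
  -- Nakayama
  obtain ⟨r, hr1, hr⟩ := exists_smul_mem_span w b hspan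
  have hrbar : redS w r = 1 := by
    have : redS w (r - 1) = 0 := Ideal.Quotient.eq_zero_iff_mem.mpr hr1
    rwa [map_sub, map_one, sub_eq_zero] at this
  -- the matrix
  have hex : ∀ j, ∃ c : ι → S, r • (β * b j) = ∑ i, c i • b i := fun j => by
    obtain ⟨c, hc⟩ := (Submodule.mem_span_range_iff_exists_fun S).mp (hr (β * b j))
    exact ⟨c, hc.symm⟩
  choose s hs using hex
  -- generic fibre
  have hK : ∀ j, algebraMap S K r • (algebraMap B F β * bK j) =
      ∑ i, algebraMap S K (s j i) • bK i := by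
    intro j
    have := congrArg (algebraMap B F) (hs j)
    simp only [map_sum, Algebra.smul_def, map_mul, ← IsScalarTower.algebraMap_apply] at this
    simp only [hbK, basisOfLift_apply, Algebra.smul_def, ← IsScalarTower.algebraMap_apply]
    exact this
  have e1 : algebraMap S K r * Algebra.trace K F (algebraMap B F β) =
      ∑ i, algebraMap S K (s i i) :=
    mul_trace_eq_sum bK (algebraMap B F β) (algebraMap S K r)
      (fun i j => algebraMap S K (s j i)) hK
  have e2 : r * τ = ∑ i, s i i := by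
    apply IsFractionRing.injective S K
    rw [map_mul, hτ, e1, map_sum]
  -- special fibre
  have hbar : ∀ j, (1 : S ⧸ Ideal.span {w}) • (redB (S := S) w β * bbar j) =
      ∑ i, redS w (s j i) • bbar i := by
    intro j
    have := congrArg (redB (S := S) w) (hs j)
    rw [redB_smul, hrbar, map_mul, map_sum, hb] at this
    rw [this]
    refine Finset.sum_congr rfl fun i _ => ?_
    rw [redB_smul, hb]
  have e3 := mul_trace_eq_sum bbar (redB (S := S) w β) 1 (fun i j => redS w (s j i)) hbar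
  rw [one_mul] at e3
  rw [e3, ← map_sum, ← e2, map_mul, hrbar, one_mul]

/-- **Discriminants commute with reduction mod `w`.** -/
theorem exists_discr_eq (K F : Type*) [Field K] [Algebra S K]
    [IsFractionRing S K] [Field F] [Algebra K F] [Algebra S F] [IsScalarTower S K F]
    [Algebra B F] [IsScalarTower S B F] [IsIntegralClosure B S F]
    [Module.Finite S B] [FiniteDimensional K F]
    {w : S} (hw : Prime w)
    (bbar : Module.Basis ι (S ⧸ Ideal.span {w}) (B ⧸ (Ideal.span {w}).map (algebraMap S B)))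
    (b : ι → B) (hb : ∀ i, redB (S := S) w (b i) = bbar i) :
    ∃ d : S, algebraMap S K d = Algebra.discr K (fun i => algebraMap B F (b i)) ∧
      redS w d = Algebra.discr (S ⧸ Ideal.span {w}) bbar := by
  choose D hD using fun p : ι × ι => exists_trace_eq (S := S) K F (b p.1 * b p.2)
  refine ⟨(Matrix.of fun i j => D (i, j)).det, ?_, ?_⟩
  · rw [Algebra.discr_def, RingHom.map_det]
    congr 1
    ext i j
    simp only [RingHom.mapMatrix_apply, Matrix.map_apply, Matrix.of_apply,
      Algebra.traceMatrix_apply, Algebra.traceForm_apply, hD (i, j), map_mul]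
  · rw [Algebra.discr_def, RingHom.map_det]
    congr 1
    ext i j
    simp only [RingHom.mapMatrix_apply, Matrix.map_apply, Matrix.of_apply,
      Algebra.traceMatrix_apply, Algebra.traceForm_apply]
    rw [← hb i, ← hb j, ← map_mul]
    exact (trace_redB K F hw bbar (b i * b j) (D (i, j)) (hD (i, j))).symm

end

end Fermat.Agent.S18.H203

end
-- ===== PACK-END S18/H203/TraceRed.lean

-- ===== PACK-BEGIN S18/B12/H203/DiscrRed.lean
section




/-!
# S18 / b2.5, piece A3: discriminant reduction mod `w` (`DiscrRedStatement`)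

`P` an integrally closed domain, `B` an integrally closed domain, finite and torsion-free over `P`,
`w ∈ P` prime, `𝔪 ∋ w` a prime ideal, `x` a basis of `B` locally at `𝔪` (`g • B ⊆ span x`, `g ∉ 𝔪`),
`bb` a basis of `B/wB` over `P/(w)`.  Then `bb` has as many elements as `x` and
`intDiscr x mod w = ū² · disc bb` with `u ∉ 𝔪`.
-/

set_option autoImplicit false
set_option linter.unusedSectionVars false
set_option linter.unusedVariables false

noncomputable section

namespace Fermat.Agent.S18.B12.H203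

open Fermat.Agent.S18.H203

universe u v

section Quasi

variable {P : Type*} {B : Type*} [CommRing P] [CommRing B] [Algebra P B]
  {ι : Type*} [Fintype ι]

/-- Coefficients of `g • b` with respect to a quasi-basis. -/
theorem exists_coef_of_smul_mem (x : ι → B) (g : P)
    (hg : ∀ b : B, g • b ∈ Submodule.span P (Set.range x)) :
    ∃ c : B → ι → P, ∀ b, g • b = ∑ i, c b i • x i := by
  choose c hc using fun b => (Submodule.mem_span_range_iff_exists_fun P).mp (hg b)
  exact ⟨c, fun b => (hc b).symm⟩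

/-- The reduction mod `w` of a quasi-basis (with `w ∤ g`) is linearly independent. -/
theorem linearIndependent_red_of_quasi [IsDomain P] {w : P} (hw : Prime w) (x : ι → B)
    (hli : LinearIndependent P x) (g : P) (hgw : ¬ w ∣ g)
    (hg : ∀ b : B, g • b ∈ Submodule.span P (Set.range x)) :
    LinearIndependent (P ⧸ Ideal.span {w}) fun i => redB (S := P) w (x i) := by
  obtain ⟨c, hc⟩ := exists_coef_of_smul_mem x g hg
  rw [Fintype.linearIndependent_iff]
  intro ab hab i
  choose a ha using fun i => Ideal.Quotient.mk_surjective (ab i)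
  have h1 : redB (S := P) w (∑ i, a i • x i) = 0 := by
    rw [map_sum, ← hab]
    refine Finset.sum_congr rfl fun i _ => ?_
    rw [redB_smul, ha]
  rw [redB_eq_zero_iff] at h1
  obtain ⟨b', hb'⟩ := h1
  have h2 : ∑ i, (g * a i) • x i = ∑ i, (w * c b' i) • x i := by
    calc ∑ i, (g * a i) • x i = g • ∑ i, a i • x i := by
          rw [Finset.smul_sum]
          exact Finset.sum_congr rfl fun i _ => mul_smul _ _ _
      _ = g • (algebraMap P B w * b') := by rw [hb']
      _ = w • (g • b') := by rw [← Algebra.smul_def, smul_comm]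
      _ = ∑ i, (w * c b' i) • x i := by
          rw [hc, Finset.smul_sum]
          exact Finset.sum_congr rfl fun i _ => (mul_smul _ _ _).symm
  have h3 : g * a i = w * c b' i := by
    have := Fintype.linearIndependent_iff.mp hli (fun i => g * a i - w * c b' i) (by
      simp only [sub_smul, Finset.sum_sub_distrib, h2, sub_self])
    exact sub_eq_zero.mp (this i)
  have h4 : w ∣ a i := (hw.dvd_or_dvd ⟨c b' i, h3⟩).resolve_left hgw
  rw [← ha i]
  exact (redS_eq_zero_iff w (a i)).mpr h4

end Quasi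

section Abstract

variable {A V : Type*} [CommRing A] [CommRing V] [Algebra A V] {n : ℕ}

/-- If `g • bb j = ∑ i, N i j • xb i` then `toMatrix bb xb * N = g • 1`. -/
theorem toMatrix_mul_eq_smul_one (bb : Module.Basis (Fin n) A V) (xb : Fin n → V) (g : A)
    (N : Matrix (Fin n) (Fin n) A) (hN : ∀ j, g • bb j = ∑ i, N i j • xb i) :
    bb.toMatrix xb * N = g • (1 : Matrix (Fin n) (Fin n) A) := by
  ext l j
  have h := congrArg (fun v => bb.repr v l) (hN j)
  simp only [map_smul, Finsupp.smul_apply, smul_eq_mul, map_sum, Finsupp.coe_finsetSum,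
    Finset.sum_apply, Module.Basis.repr_self, Finsupp.single_apply] at h
  rw [Matrix.mul_apply, Matrix.smul_apply, Matrix.one_apply, smul_eq_mul]
  simp only [Module.Basis.toMatrix_apply]
  rw [show (∑ k, bb.repr (xb k) l * N k j) = ∑ k, N k j * bb.repr (xb k) l from
    Finset.sum_congr rfl fun k _ => mul_comm _ _, ← h]
  by_cases hlj : l = j
  · simp [hlj]
  · have : ¬ j = l := fun h' => hlj h'.symm
    simp [hlj, this]

/-- The determinant of the transition matrix to a quasi-basis is nonzero. -/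
theorem det_toMatrix_ne_zero [IsDomain A] (bb : Module.Basis (Fin n) A V) (xb : Fin n → V)
    (g : A) (hg0 : g ≠ 0) (N : Matrix (Fin n) (Fin n) A)
    (hN : ∀ j, g • bb j = ∑ i, N i j • xb i) :
    (bb.toMatrix xb).det * N.det = g ^ n ∧ (bb.toMatrix xb).det ≠ 0 := by
  have h := congrArg Matrix.det (toMatrix_mul_eq_smul_one bb xb g N hN)
  rw [Matrix.det_mul, Matrix.det_smul, Matrix.det_one, mul_one, Fintype.card_fin] at h
  refine ⟨h, fun h0 => ?_⟩
  rw [h0, zero_mul] at h
  exact pow_ne_zero n hg0 h.symm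

/-- Trace from a "matrix up to a scalar" with respect to a quasi-basis. -/
theorem mul_trace_eq_trace_of_quasi [IsDomain A] (bb : Module.Basis (Fin n) A V)
    (xb : Fin n → V) (hdet : (bb.toMatrix xb).det ≠ 0) (g : A) (β : V)
    (m : Matrix (Fin n) (Fin n) A) (hm : ∀ j, g • (β * xb j) = ∑ i, m i j • xb i) :
    g * Algebra.trace A V β = m.trace := by
  set M := bb.toMatrix xb with hM
  set T := Algebra.leftMulMatrix bb β with hT
  have key : g • (T * M) = M * m := by
    ext l j
    have h := congrArg (fun v => bb.repr v l) (hm j)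
    simp only [map_smul, Finsupp.smul_apply, smul_eq_mul, map_sum, Finsupp.coe_finsetSum,
      Finset.sum_apply] at h
    rw [Matrix.smul_apply, smul_eq_mul, Matrix.mul_apply, Matrix.mul_apply]
    have h1 : ∑ k, T l k * M k j = bb.repr (β * xb j) l := by
      have := congrFun (Algebra.leftMulMatrix_mulVec_repr bb β (xb j)) l
      rw [← this]
      rfl
    rw [h1, h]
    exact Finset.sum_congr rfl fun k _ => mul_comm _ _
  have h1 : M.det * (g * T.trace) = M.det * m.trace := by
    calc M.det * (g * T.trace) = ((g • (T * M)) * M.adjugate).trace := by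
          rw [Matrix.smul_mul, Matrix.mul_assoc, Matrix.mul_adjugate, Matrix.trace_smul,
            Matrix.mul_smul, Matrix.trace_smul, Matrix.mul_one, smul_eq_mul, smul_eq_mul]
          ring
      _ = (M * m * M.adjugate).trace := by rw [key]
      _ = (M.adjugate * (M * m)).trace := by rw [Matrix.trace_mul_comm]
      _ = M.det * m.trace := by
          rw [← Matrix.mul_assoc, Matrix.adjugate_mul, Matrix.smul_mul, Matrix.one_mul,
            Matrix.trace_smul, smul_eq_mul]
  rw [Algebra.trace_eq_matrix_trace bb]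
  exact mul_left_cancel₀ hdet h1

end Abstract

section Generic

variable {S B : Type*} [CommRing S] [IsDomain S] [CommRing B] [Algebra S B]
  {ι : Type*} [Fintype ι]

/-- A linearly independent family of `B` stays linearly independent in the generic fibre. -/
theorem linearIndependent_map_of_linearIndependent (K F : Type*) [Field K] [Algebra S K]
    [IsFractionRing S K] [Field F] [Algebra K F] [Algebra S F] [IsScalarTower S K F]
    [Algebra B F] [IsScalarTower S B F] [IsIntegralClosure B S F]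
    (b : ι → B) (h1 : LinearIndependent S b) :
    LinearIndependent K fun i => algebraMap B F (b i) := by
  have h2 : LinearIndependent S fun i => algebraMap B F (b i) := by
    have := h1.map' (IsScalarTower.toAlgHom S B F).toLinearMap
      (LinearMap.ker_eq_bot.mpr (IsIntegralClosure.algebraMap_injective B S F))
    exact this
  exact (LinearIndependent.iff_fractionRing S K).mp h2

/-- A quasi-basis spans the generic fibre. -/
theorem span_map_eq_top_of_smul_mem (K F : Type*) [Field K] [Algebra S K]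
    [IsFractionRing S K] [Field F] [Algebra K F] [Algebra S F] [IsScalarTower S K F]
    [Algebra B F] [IsScalarTower S B F] [IsIntegralClosure B S F]
    [Algebra.IsAlgebraic K F]
    (r : S) (hr0 : r ≠ 0) (b : ι → B)
    (hr : ∀ β : B, r • β ∈ Submodule.span S (Set.range b)) :
    Submodule.span K (Set.range fun i => algebraMap B F (b i)) = ⊤ := by
  have hinjSK : Function.Injective (algebraMap S K) := IsFractionRing.injective S K
  rw [eq_top_iff]
  intro f _
  have hf : IsAlgebraic S f := by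
    have := Algebra.IsAlgebraic.isAlgebraic (R := K) f
    exact (IsFractionRing.isAlgebraic_iff S K F).mpr this
  obtain ⟨y, hy0, hy⟩ := hf.exists_integral_multiple
  obtain ⟨β, hβ⟩ := (IsIntegralClosure.isIntegral_iff (A := B)).mp hy
  have h1 := hr β
  have h2 : algebraMap B F (r • β) ∈
      Submodule.span K (Set.range fun i => algebraMap B F (b i)) := by
    have h3 : (IsScalarTower.toAlgHom S B F).toLinearMap (r • β) ∈
        Submodule.map (IsScalarTower.toAlgHom S B F).toLinearMap
          (Submodule.span S (Set.range b)) := Submodule.mem_map_of_mem h1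
    rw [Submodule.map_span, ← Set.range_comp] at h3
    have h4 : Submodule.span S (Set.range ((IsScalarTower.toAlgHom S B F).toLinearMap ∘ b)) ≤
        (Submodule.span K (Set.range fun i => algebraMap B F (b i))).restrictScalars S := by
      rw [Submodule.span_le]
      rintro _ ⟨i, rfl⟩
      exact Submodule.subset_span ⟨i, rfl⟩
    exact h4 h3
  have h5 : algebraMap B F (r • β) = (algebraMap S K (r * y)) • f := by
    rw [Algebra.smul_def r β, map_mul, hβ, ← IsScalarTower.algebraMap_apply,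
      Algebra.smul_def y f, Algebra.smul_def, ← IsScalarTower.algebraMap_apply, map_mul]
    ring
  rw [h5] at h2
  have h6 : algebraMap S K (r * y) ≠ 0 := by
    simpa using (map_ne_zero_iff _ hinjSK).mpr (mul_ne_zero hr0 hy0)
  have h7 := Submodule.smul_mem _ (algebraMap S K (r * y))⁻¹ h2
  rwa [smul_smul, inv_mul_cancel₀ h6, one_smul] at h7

/-- The `K`-basis of the generic fibre given by a quasi-basis. -/
def quasiBasis (K F : Type*) [Field K] [Algebra S K]
    [IsFractionRing S K] [Field F] [Algebra K F] [Algebra S F] [IsScalarTower S K F]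
    [Algebra B F] [IsScalarTower S B F] [IsIntegralClosure B S F]
    [Algebra.IsAlgebraic K F]
    (b : ι → B) (hli : LinearIndependent S b) (r : S) (hr0 : r ≠ 0)
    (hr : ∀ β : B, r • β ∈ Submodule.span S (Set.range b)) :
    Module.Basis ι K F :=
  Module.Basis.mk (linearIndependent_map_of_linearIndependent K F b hli)
    (span_map_eq_top_of_smul_mem K F r hr0 b hr).ge

@[simp]
theorem quasiBasis_apply (K F : Type*) [Field K] [Algebra S K]
    [IsFractionRing S K] [Field F] [Algebra K F] [Algebra S F] [IsScalarTower S K F]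
    [Algebra B F] [IsScalarTower S B F] [IsIntegralClosure B S F]
    [Algebra.IsAlgebraic K F]
    (b : ι → B) (hli : LinearIndependent S b) (r : S) (hr0 : r ≠ 0)
    (hr : ∀ β : B, r • β ∈ Submodule.span S (Set.range b)) (i : ι) :
    quasiBasis K F b hli r hr0 hr i = algebraMap B F (b i) := by
  simp [quasiBasis]

/-- Trace in the generic fibre from a matrix up to a scalar, with respect to a quasi-basis. -/
theorem mul_trace_eq_sum_of_quasi [DecidableEq ι] (K F : Type*) [Field K] [Algebra S K]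
    [IsFractionRing S K] [Field F] [Algebra K F] [Algebra S F] [IsScalarTower S K F]
    [Algebra B F] [IsScalarTower S B F] [IsIntegralClosure B S F]
    [Algebra.IsAlgebraic K F]
    (b : ι → B) (hli : LinearIndependent S b) (r : S) (hr0 : r ≠ 0)
    (hr : ∀ β : B, r • β ∈ Submodule.span S (Set.range b))
    (β : B) (m : ι → ι → S) (hm : ∀ j, r • (β * b j) = ∑ i, m i j • b i) :
    algebraMap S K r * Algebra.trace K F (algebraMap B F β) = ∑ i, algebraMap S K (m i i) := by
  have hK : ∀ j, algebraMap S K r • (algebraMap B F β * quasiBasis K F b hli r hr0 hr j) =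
      ∑ i, algebraMap S K (m i j) • quasiBasis K F b hli r hr0 hr i := by
    intro j
    have := congrArg (algebraMap B F) (hm j)
    simp only [map_sum, Algebra.smul_def, map_mul, ← IsScalarTower.algebraMap_apply] at this
    simp only [quasiBasis_apply, Algebra.smul_def, ← IsScalarTower.algebraMap_apply]
    exact this
  exact mul_trace_eq_sum (quasiBasis K F b hli r hr0 hr) (algebraMap B F β) (algebraMap S K r)
    (fun i j => algebraMap S K (m i j)) hK

end Generic

section IntTrace

variable {P : Type u} {B : Type v} [CommRing P] [IsDomain P] [IsIntegrallyClosed P]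
  [CommRing B] [IsDomain B] [IsIntegrallyClosed B] [Algebra P B] [Module.Finite P B]
  [Module.IsTorsionFree P B] {ι : Type*} [Fintype ι] [DecidableEq ι]

open nonZeroDivisors in
/-- The integral trace from a matrix up to a scalar, with respect to a quasi-basis. -/
theorem mul_intTrace_eq_sum_of_quasi
    (b : ι → B) (hli : LinearIndependent P b) (r : P) (hr0 : r ≠ 0)
    (hr : ∀ β : B, r • β ∈ Submodule.span P (Set.range b))
    (β : B) (m : ι → ι → P) (hm : ∀ j, r • (β * b j) = ∑ i, m i j • b i) :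
    r * Algebra.intTrace P B β = ∑ i, m i i := by
  let _ : Algebra (FractionRing P) (FractionRing B) := FractionRing.liftAlgebra P _
  have : IsScalarTower P (FractionRing P) (FractionRing B) :=
    FractionRing.isScalarTower_liftAlgebra P (FractionRing B)
  have : IsIntegralClosure B P (FractionRing B) :=
    IsIntegralClosure.of_isIntegrallyClosed _ _ _
  have : Algebra.IsAlgebraic (FractionRing P) (FractionRing B) :=
    isAlgebraic_of_isFractionRing P B ..
  apply IsFractionRing.injective P (FractionRing P)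
  rw [map_mul, Algebra.algebraMap_intTrace_fractionRing, map_sum]
  exact mul_trace_eq_sum_of_quasi (FractionRing P) (FractionRing B) b hli r hr0 hr β m hm

end IntTrace

section Final

variable {P : Type u} {B : Type v} [CommRing P] [IsDomain P] [CommRing B] [Algebra P B]

/-- Reduction of the quasi-basis relation: `ḡ • β̄ ∈ span x̄`, with coefficients. -/
theorem exists_red_coef {w : P} {ι : Type*} [Fintype ι] (x : ι → B) (g : P)
    (hg : ∀ b : B, g • b ∈ Submodule.span P (Set.range x))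
    (y : B ⧸ (Ideal.span {w}).map (algebraMap P B)) :
    ∃ c : ι → P ⧸ Ideal.span {w}, redS w g • y = ∑ i, c i • redB (S := P) w (x i) := by
  obtain ⟨b, rfl⟩ := Ideal.Quotient.mk_surjective y
  obtain ⟨c, hc⟩ := (Submodule.mem_span_range_iff_exists_fun P).mp (hg b)
  refine ⟨fun i => redS w (c i), ?_⟩
  have := congrArg (redB (S := P) w) hc
  rw [redB_smul] at this
  rw [← this, map_sum]
  exact Finset.sum_congr rfl fun i _ => (redB_smul w (c i) (x i)).symm

theorem isDomain_quotient_span_of_prime {w : P} (hw : Prime w) :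
    IsDomain (P ⧸ Ideal.span {w}) := by
  have : (Ideal.span {w}).IsPrime := (Ideal.span_singleton_prime hw.ne_zero).mpr hw
  exact Ideal.Quotient.isDomain _

/-- A basis of the special fibre has as many elements as a quasi-basis. -/
theorem card_eq_of_quasi {w : P} (hw : Prime w) {n n' : ℕ} (x : Fin n → B)
    (hli : LinearIndependent P x) (g : P) (hgw : ¬ w ∣ g)
    (hg : ∀ b : B, g • b ∈ Submodule.span P (Set.range x))
    (bb : Module.Basis (Fin n') (P ⧸ Ideal.span {w})
      (B ⧸ (Ideal.span {w}).map (algebraMap P B))) : n' = n := by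
  have hdom : IsDomain (P ⧸ Ideal.span {w}) := isDomain_quotient_span_of_prime hw
  have hg0 : redS w g ≠ 0 := fun h => hgw ((redS_eq_zero_iff w g).mp h)
  apply le_antisymm
  · -- `ḡ • bb` is linearly independent inside `span x̄`
    have hv : LinearIndependent (P ⧸ Ideal.span {w}) fun j => redS w g • bb j := by
      rw [Fintype.linearIndependent_iff]
      intro a ha j
      have h1 : ∑ j, (a j * redS w g) • bb j = 0 := by
        rw [← ha]
        exact Finset.sum_congr rfl fun j _ => mul_smul _ _ _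
      have h2 := Fintype.linearIndependent_iff.mp bb.linearIndependent _ h1 j
      exact (mul_eq_zero.mp h2).resolve_right hg0
    have hsub : Set.range (fun j => redS w g • bb j) ≤
        Submodule.span (P ⧸ Ideal.span {w}) (Set.range fun i => redB (S := P) w (x i)) := by
      rintro _ ⟨j, rfl⟩
      obtain ⟨c, hc⟩ := exists_red_coef (w := w) x g hg (bb j)
      simp only [SetLike.mem_coe]
      rw [hc]
      exact Submodule.sum_mem _ fun i _ => Submodule.smul_mem _ _ (Submodule.subset_span ⟨i, rfl⟩)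
    classical
    have h3 := linearIndependent_le_span_aux' _ hv _ hsub
    have h4 := Fintype.card_range_le (fun i => redB (S := P) w (x i))
    simpa using h3.trans h4
  · have hxb := linearIndependent_red_of_quasi hw x hli g hgw hg
    have hfin : Module.Finite (P ⧸ Ideal.span {w})
        (B ⧸ (Ideal.span {w}).map (algebraMap P B)) := Module.Finite.of_basis bb
    have h1 := hxb.fintype_card_le_finrank
    rw [Module.finrank_eq_card_basis bb] at h1
    simpa using h1

end Final

section Final2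

variable {P : Type u} {B : Type v} [CommRing P] [IsDomain P] [IsIntegrallyClosed P]
  [CommRing B] [IsDomain B] [IsIntegrallyClosed B] [Algebra P B] [Module.Finite P B]
  [Module.IsTorsionFree P B]

/-- **The integral trace commutes with reduction mod `w`** (quasi-basis version). -/
theorem trace_red_of_quasi {w : P} (hw : Prime w) {n : ℕ} (x : Fin n → B)
    (hli : LinearIndependent P x) (g : P) (hgw : ¬ w ∣ g)
    (hg : ∀ b : B, g • b ∈ Submodule.span P (Set.range x))
    (bb : Module.Basis (Fin n) (P ⧸ Ideal.span {w})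
      (B ⧸ (Ideal.span {w}).map (algebraMap P B))) (β : B) :
    Algebra.trace (P ⧸ Ideal.span {w}) (B ⧸ (Ideal.span {w}).map (algebraMap P B))
      (redB (S := P) w β) = redS w (Algebra.intTrace P B β) := by
  have hdom : IsDomain (P ⧸ Ideal.span {w}) := isDomain_quotient_span_of_prime hw
  have hgb0 : redS w g ≠ 0 := fun h => hgw ((redS_eq_zero_iff w g).mp h)
  have hg0 : g ≠ 0 := by
    rintro rfl
    exact hgw (dvd_zero w)
  obtain ⟨c, hc⟩ := exists_coef_of_smul_mem x g hg
  -- generic side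
  have e1 : g * Algebra.intTrace P B β = ∑ i, c (β * x i) i :=
    mul_intTrace_eq_sum_of_quasi x hli g hg0 hg β (fun i j => c (β * x j) i)
      (fun j => hc (β * x j))
  -- special side
  choose N hN using fun j => exists_red_coef (w := w) x g hg (bb j)
  have hdet := (det_toMatrix_ne_zero bb (fun i => redB (S := P) w (x i)) (redS w g) hgb0
    (Matrix.of fun i j => N j i) (fun j => by simpa using hN j)).2
  have e2 := mul_trace_eq_trace_of_quasi bb (fun i => redB (S := P) w (x i)) hdet (redS w g)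
    (redB (S := P) w β) (Matrix.of fun i j => redS w (c (β * x j) i)) (fun j => by
      have := congrArg (redB (S := P) w) (hc (β * x j))
      rw [redB_smul, map_mul, map_sum] at this
      rw [this]
      exact Finset.sum_congr rfl fun i _ => redB_smul w _ _)
  have e3 : redS w g * Algebra.trace (P ⧸ Ideal.span {w})
      (B ⧸ (Ideal.span {w}).map (algebraMap P B)) (redB (S := P) w β) =
      redS w g * redS w (Algebra.intTrace P B β) := by
    rw [e2, ← map_mul, e1, map_sum]
    rfl
  exact mul_left_cancel₀ hgb0 e3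

end Final2

/-- **A3 (discriminant reduction mod `w`).** -/
theorem discrRed.{u₁, v₁} : DiscrRedStatement.{u₁, v₁} := by
  intro P _ _ _ B _ _ _ _ _ _ w hw 𝔪 h𝔪 hwm n x hx n' bb
  obtain ⟨hli, g, hgm, hg⟩ := hx
  have hgw : ¬ w ∣ g := fun h => hgm (Ideal.mem_of_dvd 𝔪 h hwm)
  have hnn : n' = n := card_eq_of_quasi hw x hli g hgw hg bb
  subst hnn
  refine ⟨rfl, ?_⟩
  have hdom : IsDomain (P ⧸ Ideal.span {w}) := isDomain_quotient_span_of_prime hw
  have hgb0 : redS w g ≠ 0 := fun h => hgw ((redS_eq_zero_iff w g).mp h)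
  choose N hN using fun j => exists_red_coef (w := w) x g hg (bb j)
  obtain ⟨hMN, hdet⟩ := det_toMatrix_ne_zero bb (fun i => redB (S := P) w (x i)) (redS w g) hgb0
    (Matrix.of fun i j => N j i) (fun j => by simpa using hN j)
  obtain ⟨u, hu⟩ := Ideal.Quotient.mk_surjective (bb.toMatrix fun i => redB (S := P) w (x i)).det
  obtain ⟨v, hv⟩ := Ideal.Quotient.mk_surjective (Matrix.of fun i j => N j i).det
  refine ⟨u, ?_, ?_⟩
  · intro hum
    have h1 : redS w (u * v - g ^ n') = 0 := by
      rw [map_sub, map_mul, map_pow]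
      change Ideal.Quotient.mk _ u * Ideal.Quotient.mk _ v - _ = 0
      rw [hu, hv, hMN, sub_self]
    rw [redS_eq_zero_iff] at h1
    have h2 : u * v - g ^ n' ∈ 𝔪 := Ideal.mem_of_dvd 𝔪 h1 hwm
    have h3 : g ^ n' ∈ 𝔪 := by
      have := 𝔪.sub_mem (𝔪.mul_mem_right v hum) h2
      simpa using this
    exact hgm (h𝔪.mem_of_pow_mem n' h3)
  · rw [hu]
    have hx' : (fun i => redB (S := P) w (x i)) =
        Matrix.vecMul (⇑bb) ((bb.toMatrix fun i => redB (S := P) w (x i)).map
          (algebraMap (P ⧸ Ideal.span {w}) (B ⧸ (Ideal.span {w}).map (algebraMap P B)))) := by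
      funext j
      rw [← Module.Basis.sum_toMatrix_smul_self bb (fun i => redB (S := P) w (x i)) j]
      simp only [Matrix.vecMul, dotProduct, Matrix.map_apply, Algebra.smul_def]
      exact Finset.sum_congr rfl fun i _ => mul_comm _ _
    rw [← Algebra.discr_of_matrix_vecMul, ← hx', Algebra.discr_def, intDiscr, RingHom.map_det]
    congr 1
    ext i j
    simp only [RingHom.mapMatrix_apply, Matrix.map_apply, Matrix.of_apply,
      Algebra.traceMatrix_apply, Algebra.traceForm_apply]
    rw [← map_mul]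
    exact (trace_red_of_quasi hw x hli g hgw hg bb (x i * x j)).symm

end Fermat.Agent.S18.B12.H203

end
end
-- ===== PACK-END S18/B12/H203/DiscrRed.lean

-- ===== PACK-BEGIN S18/H333/HauptPS.lean
section



/-!
# S18 / c3 (helper333): power-series preliminaries for the Hauptmoduln

* `Vser p` is the ring homomorphism `PowerSeries.expand p`;
* `Zz = X² η₁¹² η₃¹²` with `Zz² = Δ Δ₃`, and the LINEAR level-3 identities
  `A3a = Zz (E₄³ - B3a)`, `A3b = Zz (E₄(q³)³ - B3b)` (sign fixed by the `q²`-coefficient).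
-/

set_option autoImplicit false

noncomputable section

namespace Fermat.Agent.S18.H333

open PowerSeries ModularCurve

theorem Vser_eq_expand (p : ℕ) (hp : p ≠ 0) (f : PowerSeries ℤ) :
    Vser p f = PowerSeries.expand p hp f := by
  ext n
  rw [coeff_Vser, PowerSeries.coeff_expand]

theorem Vser_mul (p : ℕ) (hp : p ≠ 0) (f g : PowerSeries ℤ) :
    Vser p (f * g) = Vser p f * Vser p g := by
  simp only [Vser_eq_expand p hp, map_mul]

theorem Vser_pow (p : ℕ) (hp : p ≠ 0) (f : PowerSeries ℤ) (n : ℕ) :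
    Vser p (f ^ n) = Vser p f ^ n := by
  simp only [Vser_eq_expand p hp, map_pow]

theorem Vser_one (p : ℕ) (hp : p ≠ 0) : Vser p (1 : PowerSeries ℤ) = 1 := by
  simp only [Vser_eq_expand p hp, map_one]

theorem Vser_X (p : ℕ) (hp : p ≠ 0) : Vser p (X : PowerSeries ℤ) = X ^ p := by
  rw [Vser_eq_expand p hp, PowerSeries.expand_X]

/-- `η¹²` -/
def eta12 : PowerSeries ℤ := etaProd ^ 12

/-- `η⁻¹²` -/
def eta12Inv : PowerSeries ℤ := eta12.invOfUnit 1

theorem constantCoeff_eta12 : PowerSeries.constantCoeff eta12 = 1 := by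
  rw [eta12, map_pow, constantCoeff_etaProd, one_pow]

theorem eta12_mul_inv : eta12 * eta12Inv = 1 :=
  PowerSeries.mul_invOfUnit _ _ (by rw [constantCoeff_eta12]; rfl)

theorem eta12_sq : eta12 * eta12 = dedekindEtaUnit := by
  rw [eta12, dedekindEtaUnit]; ring

theorem Dz_eq : Dz = X * dedekindEtaUnit := rfl

theorem Vser_Dz (p : ℕ) (hp : p ≠ 0) : Vser p Dz = X ^ p * Vser p dedekindEtaUnit := by
  rw [Dz_eq, Vser_mul p hp, Vser_X p hp]

/-- `q² η₁¹² η₃¹²` -/
def Zz : PowerSeries ℤ := X ^ 2 * eta12 * Vser 3 eta12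

theorem Zz_sq : Zz * Zz = Dz * Vser 3 Dz := by
  rw [Vser_Dz 3 (by norm_num), Dz_eq, ← eta12_sq, Vser_mul 3 (by norm_num), Zz]
  ring

theorem tl_eta12 (n : ℕ) : tl n eta12 = tpow n (etaLrec n n) 12 := by
  rw [eta12, tl_pow, tl_etaProd]

theorem tl_Zz (n : ℕ) : tl n Zz =
    tmul n (tmul n (tpow n (tX n) 2) (tpow n (etaLrec n n) 12))
      (tV n 3 (tpow n (etaLrec n n) 12)) := by
  rw [Zz, tl_mul, tl_mul, tl_pow, tl_X, tl_Vser _ _ (by norm_num), tl_eta12]

theorem tl_Ez_3 : tl 3 Ez = [1, 240, 2160] := by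
  rw [tl_Ez]; decide +kernel

theorem tl_Dz_3 : tl 3 Dz = [0, 1, -24] := by
  rw [tl_Dz]; decide +kernel

theorem coeff_two_ne_of_tl {f : PowerSeries ℤ} {a b c : ℤ} (h : tl 3 f = [a, b, c]) (hc : c ≠ 0) :
    f ≠ 0 := by
  intro h0
  have h2 := tl_getD 3 f (i := 2) (by norm_num)
  rw [h, h0] at h2
  simp at h2
  exact hc h2

/-- linear form of `(t₃+27)(t₃+243)³ = j t₃³` -/
theorem A3a_eq : A3a = Zz * (Ez ^ 3 - B3a) := by
  have h := Phi3a_eq_zero
  rw [Phi3a, ← Zz_sq] at h
  have hprod : (A3a - Zz * (Ez ^ 3 - B3a)) * (A3a + Zz * (Ez ^ 3 - B3a)) = 0 := by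
    linear_combination h
  rcases mul_eq_zero.mp hprod with h1 | h1
  · exact sub_eq_zero.mp h1
  · exfalso
    have htl : tl 3 (A3a + Zz * (Ez ^ 3 - B3a)) = [0, 0, 2] := by
      rw [A3a, B3a]
      simp only [tl_sub, tl_mul, tl_pow, tl_add, tl_smul, tl_Vser _ _ (show 0 < 3 by norm_num),
        tl_Dz_3, tl_Ez_3, tl_Zz]
      decide +kernel
    exact coeff_two_ne_of_tl htl (by norm_num) h1

/-- linear form of `(t₃+27)(t₃+3)³ = j(q³) t₃` -/
theorem A3b_eq : A3b = Zz * (Vser 3 Ez ^ 3 - B3b) := by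
  have h := Phi3b_eq_zero
  rw [Phi3b, ← Zz_sq] at h
  have hprod : (A3b - Zz * (Vser 3 Ez ^ 3 - B3b)) * (A3b + Zz * (Vser 3 Ez ^ 3 - B3b)) = 0 := by
    linear_combination h
  rcases mul_eq_zero.mp hprod with h1 | h1
  · exact sub_eq_zero.mp h1
  · exfalso
    have htl : tl 3 (A3b + Zz * (Vser 3 Ez ^ 3 - B3b)) = [0, 0, 2] := by
      rw [A3b, B3b]
      simp only [tl_sub, tl_mul, tl_pow, tl_add, tl_smul, tl_Vser _ _ (show 0 < 3 by norm_num),
        tl_Dz_3, tl_Ez_3, tl_Zz]
      decide +kernel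
    exact coeff_two_ne_of_tl htl (by norm_num) h1

end Fermat.Agent.S18.H333

end
end
-- ===== PACK-END S18/H333/HauptPS.lean

-- ===== PACK-BEGIN S18/H333/HauptLaurent.lean
section




/-!
# S18 / c3 (helper333): the Hauptmoduln `t₂`, `t₃` as Laurent series over `ℤ`

* `t2Z = q⁻¹ (η(q)/η(q²))²⁴`, `t3Z = q⁻¹ (η(q)/η(q³))¹²  : LaurentSeries ℤ`;
* `t2Z_rel_a : jqModC ℤ * t2Z ^ 2 = (t2Z + 256) ^ 3`
* `t2Z_rel_b : qExpand ℤ 2 (jqModC ℤ) * t2Z = (t2Z + 16) ^ 3`
* `t3Z_rel_a : jqModC ℤ * t3Z ^ 3 = (t3Z + 27) * (t3Z + 243) ^ 3`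
* `t3Z_rel_b : qExpand ℤ 3 (jqModC ℤ) * t3Z = (t3Z + 27) * (t3Z + 3) ^ 3`
-/

set_option autoImplicit false

noncomputable section

namespace Fermat.Agent.S18.H333

open PowerSeries ModularCurve HahnSeries

/-- power series to Laurent series over `ℤ` -/
abbrev ιZ : PowerSeries ℤ →+* LaurentSeries ℤ := HahnSeries.ofPowerSeries ℤ ℤ

theorem ιZ_injective : Function.Injective ιZ := HahnSeries.ofPowerSeries_injective

theorem ιZ_coeff_neg (f : PowerSeries ℤ) {k : ℤ} (hk : k < 0) : (ιZ f).coeff k = 0 :=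
  ofPowerSeries_coeff_of_neg f hk

theorem ιZ_coeff_nat (f : PowerSeries ℤ) (n : ℕ) : (ιZ f).coeff (n : ℤ) = PowerSeries.coeff n f :=
  HahnSeries.ofPowerSeries_apply_coeff f n

theorem qExpand_ιZ (p : ℕ) [NeZero p] (f : PowerSeries ℤ) :
    qExpand ℤ p (ιZ f) = ιZ (Vser p f) := by
  have hp : 0 < p := Nat.pos_of_ne_zero (NeZero.ne p)
  ext k
  by_cases hk : (p : ℤ) ∣ k
  · obtain ⟨m, rfl⟩ := hk
    rw [qExpand_coeff_mul]
    rcases le_or_gt 0 m with hm | hm
    · lift m to ℕ using hm
      rw [ιZ_coeff_nat, show ((p : ℤ) * (m : ℤ)) = ((p * m : ℕ) : ℤ) by push_cast; rfl,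
        ιZ_coeff_nat, coeff_Vser, if_pos (Dvd.intro m rfl), Nat.mul_div_cancel_left m hp]
    · rw [ιZ_coeff_neg _ hm, ιZ_coeff_neg _ (mul_neg_of_pos_of_neg (by exact_mod_cast hp) hm)]
  · rw [qExpand_coeff_of_not_dvd _ _ hk]
    rcases le_or_gt 0 k with hk0 | hk0
    · lift k to ℕ using hk0
      rw [ιZ_coeff_nat, coeff_Vser, if_neg]
      intro h
      exact hk (by exact_mod_cast h)
    · rw [ιZ_coeff_neg _ hk0]

theorem ιZ_X : ιZ X = single 1 1 := HahnSeries.ofPowerSeries_X

theorem single_neg_one_mul_single_one :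
    (single (-1 : ℤ) (1 : ℤ) : LaurentSeries ℤ) * single 1 1 = 1 := by
  rw [single_mul_single]
  simp

theorem jNum_map_int : jNum.map (Int.castRingHom ℤ) = jNum := by
  ext n
  simp

/-- `Δ` as a Laurent series -/
def DL : LaurentSeries ℤ := ιZ Dz

theorem DL_ne_zero : DL ≠ 0 := by
  intro h
  have h1 : (ιZ Dz).coeff ((1 : ℕ) : ℤ) = 0 := by rw [show ιZ Dz = DL from rfl, h]; rfl
  rw [ιZ_coeff_nat] at h1
  have h2 := tl_getD 3 Dz (i := 1) (by norm_num)
  rw [tl_Dz_3, h1] at h2
  simp at h2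

theorem qExpand_DL_ne_zero (p : ℕ) [NeZero p] : qExpand ℤ p DL ≠ 0 := by
  intro h
  exact DL_ne_zero (qExpand_injective p (by rw [h, map_zero]))

theorem jZ_mul_DL : jqModC ℤ * DL = ιZ (Ez ^ 3) := by
  have h1 : jNum * dedekindEtaUnit = Ez ^ 3 := by
    rw [jNum, mul_assoc, mul_comm dedekindEtaUnitInv, dedekindEtaUnit_mul_inv, mul_one]; rfl
  rw [jqModC, jNum_map_int, DL, Dz_eq, map_mul, ιZ_X, ← h1, map_mul]
  calc single (-1 : ℤ) (1 : ℤ) * ιZ jNum * (single 1 1 * ιZ dedekindEtaUnit)
      = (single (-1 : ℤ) (1 : ℤ) * single 1 1) * (ιZ jNum * ιZ dedekindEtaUnit) := by ring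
    _ = ιZ jNum * ιZ dedekindEtaUnit := by rw [single_neg_one_mul_single_one, one_mul]

theorem qExpand_jZ_mul (p : ℕ) [NeZero p] :
    qExpand ℤ p (jqModC ℤ) * qExpand ℤ p DL = ιZ (Vser p Ez ^ 3) := by
  rw [← map_mul, jZ_mul_DL, qExpand_ιZ, Vser_pow p (NeZero.ne p)]

/-- `t₂ = q⁻¹ (η(q)/η(q²))²⁴` -/
def t2Z : LaurentSeries ℤ :=
  single (-1 : ℤ) 1 * ιZ (dedekindEtaUnit * Vser 2 dedekindEtaUnitInv)

/-- `t₃ = q⁻¹ (η(q)/η(q³))¹²` -/
def t3Z : LaurentSeries ℤ :=
  single (-1 : ℤ) 1 * ιZ (eta12 * Vser 3 eta12Inv)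

theorem t2Z_mul : t2Z * qExpand ℤ 2 DL = DL := by
  have h1 : Vser 2 dedekindEtaUnitInv * Vser 2 dedekindEtaUnit = 1 := by
    rw [← Vser_mul 2 (by norm_num), mul_comm, dedekindEtaUnit_mul_inv, Vser_one 2 (by norm_num)]
  have h2 : ιZ (Vser 2 dedekindEtaUnitInv) * ιZ (Vser 2 dedekindEtaUnit) = 1 := by
    rw [← map_mul, h1, map_one]
  rw [t2Z, DL, qExpand_ιZ, Vser_Dz 2 (by norm_num), Dz_eq]
  simp only [map_mul, map_pow, ιZ_X]
  have h3 := single_neg_one_mul_single_one
  linear_combination (single (1 : ℤ) (1 : ℤ) * ιZ dedekindEtaUnit * ιZ (Vser 2 dedekindEtaUnitInv)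
    * ιZ (Vser 2 dedekindEtaUnit)) * h3 + single (1 : ℤ) (1 : ℤ) * ιZ dedekindEtaUnit * h2

theorem t3Z_mul : t3Z * qExpand ℤ 3 DL = ιZ Zz := by
  have h1 : Vser 3 eta12Inv * Vser 3 eta12 = 1 := by
    rw [← Vser_mul 3 (by norm_num), mul_comm, eta12_mul_inv, Vser_one 3 (by norm_num)]
  have h2 : ιZ (Vser 3 eta12Inv) * ιZ (Vser 3 eta12) = 1 := by
    rw [← map_mul, h1, map_one]
  rw [t3Z, DL, qExpand_ιZ, Vser_Dz 3 (by norm_num), Zz, ← eta12_sq, Vser_mul 3 (by norm_num)]
  simp only [map_mul, map_pow, ιZ_X]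
  have h3 := single_neg_one_mul_single_one
  linear_combination (single (1 : ℤ) (1 : ℤ) ^ 2 * ιZ eta12 * ιZ (Vser 3 eta12Inv)
    * ιZ (Vser 3 eta12) * ιZ (Vser 3 eta12)) * h3
    + single (1 : ℤ) (1 : ℤ) ^ 2 * ιZ eta12 * ιZ (Vser 3 eta12) * h2

theorem ιZ_zsmul (c : ℤ) (f : PowerSeries ℤ) : ιZ (c • f) = (c : LaurentSeries ℤ) * ιZ f := by
  rw [zsmul_eq_mul, map_mul, map_intCast]

/-- `j t₂² = (t₂ + 256)³` over `ℤ` -/
theorem t2Z_rel_a : jqModC ℤ * t2Z ^ 2 = (t2Z + 256) ^ 3 := by
  have hne := pow_ne_zero 3 (qExpand_DL_ne_zero 2)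
  refine mul_right_cancel₀ hne ?_
  have hP := congrArg ιZ Phi2a_eq_zero
  simp only [Phi2a, map_zero, map_sub, map_mul, map_pow, map_add, ιZ_zsmul] at hP
  have hE : ιZ Ez ^ 3 = jqModC ℤ * DL := by rw [jZ_mul_DL, map_pow]
  have hV : ιZ (Vser 2 Dz) = qExpand ℤ 2 DL := (qExpand_ιZ 2 Dz).symm
  rw [hE, hV, show ιZ Dz = DL from rfl] at hP
  push_cast at hP
  have ht := t2Z_mul
  linear_combination hP + (jqModC ℤ * qExpand ℤ 2 DL * (t2Z * qExpand ℤ 2 DL + DL)
    - ((t2Z + 256) * qExpand ℤ 2 DL) ^ 2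
    - (t2Z + 256) * qExpand ℤ 2 DL * (DL + 256 * qExpand ℤ 2 DL)
    - (DL + 256 * qExpand ℤ 2 DL) ^ 2) * ht

/-- `j(q²) t₂ = (t₂ + 16)³` over `ℤ` -/
theorem t2Z_rel_b : qExpand ℤ 2 (jqModC ℤ) * t2Z = (t2Z + 16) ^ 3 := by
  have hne := pow_ne_zero 3 (qExpand_DL_ne_zero 2)
  refine mul_right_cancel₀ hne ?_
  have hP := congrArg ιZ Phi2b_eq_zero
  simp only [Phi2b, map_zero, map_sub, map_mul, map_pow, map_add, ιZ_zsmul] at hP
  have hE : ιZ (Vser 2 Ez) ^ 3 = qExpand ℤ 2 (jqModC ℤ) * qExpand ℤ 2 DL := by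
    rw [qExpand_jZ_mul, map_pow]
  have hV : ιZ (Vser 2 Dz) = qExpand ℤ 2 DL := (qExpand_ιZ 2 Dz).symm
  rw [hE, hV, show ιZ Dz = DL from rfl] at hP
  push_cast at hP
  have ht := t2Z_mul
  linear_combination hP + (qExpand ℤ 2 (jqModC ℤ) * qExpand ℤ 2 DL * qExpand ℤ 2 DL
    - ((t2Z + 16) * qExpand ℤ 2 DL) ^ 2
    - (t2Z + 16) * qExpand ℤ 2 DL * (DL + 16 * qExpand ℤ 2 DL)
    - (DL + 16 * qExpand ℤ 2 DL) ^ 2) * ht

theorem ιZ_Zz_sq : ιZ Zz * ιZ Zz = DL * qExpand ℤ 3 DL := by
  rw [← map_mul, Zz_sq, map_mul, ← qExpand_ιZ]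
  rfl

/-- `j t₃³ = (t₃ + 27)(t₃ + 243)³` over `ℤ` -/
theorem t3Z_rel_a : jqModC ℤ * t3Z ^ 3 = (t3Z + 27) * (t3Z + 243) ^ 3 := by
  have hne := pow_ne_zero 4 (qExpand_DL_ne_zero 3)
  refine mul_right_cancel₀ hne ?_
  have hA := congrArg ιZ A3a_eq
  simp only [A3a, B3a, map_sub, map_mul, map_pow, map_add, ιZ_zsmul] at hA
  have hE : ιZ Ez ^ 3 = jqModC ℤ * DL := by rw [jZ_mul_DL, map_pow]
  have hV : ιZ (Vser 3 Dz) = qExpand ℤ 3 DL := (qExpand_ιZ 3 Dz).symm
  rw [hE, hV, show ιZ Dz = DL from rfl] at hA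
  push_cast at hA
  have ht := t3Z_mul
  have hZ := ιZ_Zz_sq
  generalize ιZ Zz = Z at *
  generalize qExpand ℤ 3 DL = Q at *
  generalize jqModC ℤ = j at *
  generalize DL = D at *
  have hG : j * Z ^ 3 * Q = (Z + 27 * Q) * (Z + 243 * Q) ^ 3 := by
    linear_combination (j * Q * Z - Z ^ 2 - D * Q - 756 * Q * Z - 196830 * Q ^ 2) * hZ
      - Q ^ 2 * hA
  calc j * t3Z ^ 3 * Q ^ 4 = j * (t3Z * Q) ^ 3 * Q := by ring
    _ = (t3Z * Q + 27 * Q) * (t3Z * Q + 243 * Q) ^ 3 := by rw [ht, hG]
    _ = (t3Z + 27) * (t3Z + 243) ^ 3 * Q ^ 4 := by ring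

/-- `j(q³) t₃ = (t₃ + 27)(t₃ + 3)³` over `ℤ` -/
theorem t3Z_rel_b : qExpand ℤ 3 (jqModC ℤ) * t3Z = (t3Z + 27) * (t3Z + 3) ^ 3 := by
  have hne := pow_ne_zero 4 (qExpand_DL_ne_zero 3)
  refine mul_right_cancel₀ hne ?_
  have hA := congrArg ιZ A3b_eq
  simp only [A3b, B3b, map_sub, map_mul, map_pow, map_add, ιZ_zsmul] at hA
  have hE : ιZ (Vser 3 Ez) ^ 3 = qExpand ℤ 3 (jqModC ℤ) * qExpand ℤ 3 DL := by
    rw [qExpand_jZ_mul, map_pow]
  have hV : ιZ (Vser 3 Dz) = qExpand ℤ 3 DL := (qExpand_ιZ 3 Dz).symm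
  rw [hE, hV, show ιZ Dz = DL from rfl] at hA
  push_cast at hA
  have ht := t3Z_mul
  have hZ := ιZ_Zz_sq
  generalize ιZ Zz = Z at *
  generalize qExpand ℤ 3 (jqModC ℤ) = J at *
  generalize qExpand ℤ 3 DL = Q at *
  generalize DL = D at *
  have hG : J * Q * Z * Q ^ 2 = (Z + 27 * Q) * (Z + 3 * Q) ^ 3 := by
    linear_combination (-(Z ^ 2 + D * Q + 36 * Q * Z + 270 * Q ^ 2)) * hZ - Q ^ 2 * hA
  calc J * t3Z * Q ^ 4 = J * Q * (t3Z * Q) * Q ^ 2 := by ring
    _ = (t3Z * Q + 27 * Q) * (t3Z * Q + 3 * Q) ^ 3 := by rw [ht, hG]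
    _ = (t3Z + 27) * (t3Z + 3) ^ 3 * Q ^ 4 := by ring

/-! ### leading terms -/

theorem constantCoeff_Vser (p : ℕ) (hp : p ≠ 0) (f : PowerSeries ℤ) :
    PowerSeries.constantCoeff (Vser p f) = PowerSeries.constantCoeff f := by
  rw [Vser_eq_expand p hp, PowerSeries.constantCoeff_expand]

theorem single_neg_one_mul_coeff (f : PowerSeries ℤ) (k : ℤ) :
    (single (-1 : ℤ) (1 : ℤ) * ιZ f).coeff k = (ιZ f).coeff (k + 1) := by
  have := HahnSeries.coeff_single_mul_add (r := (1 : ℤ)) (x := ιZ f) (a := k + 1) (b := (-1 : ℤ))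
  rw [one_mul] at this
  rw [← this]
  congr 1
  ring

theorem t2Z_coeff_neg_one : t2Z.coeff (-1) = 1 := by
  rw [t2Z, single_neg_one_mul_coeff]
  have : ((-1 : ℤ) + 1) = ((0 : ℕ) : ℤ) := by norm_num
  rw [this, ιZ_coeff_nat, PowerSeries.coeff_zero_eq_constantCoeff, map_mul,
    constantCoeff_dedekindEtaUnit, one_mul]
  have h := congrArg (PowerSeries.constantCoeff (R := ℤ))
    (show Vser 2 dedekindEtaUnit * Vser 2 dedekindEtaUnitInv = 1 by
      rw [← Vser_mul 2 (by norm_num), dedekindEtaUnit_mul_inv, Vser_one 2 (by norm_num)])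
  rw [map_mul, map_one, constantCoeff_Vser 2 (by norm_num), constantCoeff_dedekindEtaUnit,
    one_mul] at h
  exact h

theorem t2Z_coeff_of_lt {k : ℤ} (hk : k < -1) : t2Z.coeff k = 0 := by
  rw [t2Z, single_neg_one_mul_coeff]
  exact ιZ_coeff_neg _ (by omega)

theorem t3Z_coeff_neg_one : t3Z.coeff (-1) = 1 := by
  rw [t3Z, single_neg_one_mul_coeff]
  have : ((-1 : ℤ) + 1) = ((0 : ℕ) : ℤ) := by norm_num
  rw [this, ιZ_coeff_nat, PowerSeries.coeff_zero_eq_constantCoeff, map_mul,
    constantCoeff_eta12, one_mul]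
  have h := congrArg (PowerSeries.constantCoeff (R := ℤ))
    (show Vser 3 eta12 * Vser 3 eta12Inv = 1 by
      rw [← Vser_mul 3 (by norm_num), eta12_mul_inv, Vser_one 3 (by norm_num)])
  rw [map_mul, map_one, constantCoeff_Vser 3 (by norm_num), constantCoeff_eta12,
    one_mul] at h
  exact h

theorem t3Z_coeff_of_lt {k : ℤ} (hk : k < -1) : t3Z.coeff k = 0 := by
  rw [t3Z, single_neg_one_mul_coeff]
  exact ιZ_coeff_neg _ (by omega)

end Fermat.Agent.S18.H333

end
end
-- ===== PACK-END S18/H333/HauptLaurent.lean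

-- ===== PACK-BEGIN S18/H333/HauptMem.lean
section



/-!
# S18 / c3 (helper333): `t₂ ∈ K(j, j(q²))`, `t₃ ∈ K(j, j(q³))`

For every field `K`:
* `t2 K, t3 K : LaurentSeries K` (images of `t2Z`, `t3Z`), with the four relations
  `t2_rel_a`, `t2_rel_b`, `t3_rel_a`, `t3_rel_b`;
* `t2_mem_full : (2 : K) ≠ 0 → 2 ∣ M → t2 K ∈ modularFunctionFieldFullC K M`;
* `t3_mem_full : (3 : K) ≠ 0 → 3 ∣ M → t3 K ∈ modularFunctionFieldFullC K M`.
Proof: explicit elimination `D t + N = 0` (HauptElim) and `D ≠ 0`, because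
`D Δ² Δ₂² = -2²⁴ q⁵ + …`  resp.  `D Δ⁵ Δ₃³ = -3¹⁸ q⁷ + …`  (kernel computation).
-/

set_option autoImplicit false

noncomputable section

namespace Fermat.Agent.S18.H333

open PowerSeries ModularCurve HahnSeries

/-! ### two more truncation rules -/

theorem tl_ofNat (n : ℕ) (c : ℕ) [c.AtLeastTwo] :
    tl n (ofNat(c) : PowerSeries ℤ) = tsmul n (ofNat(c)) (tone n) := by
  rw [← tl_one, ← tl_smul]
  congr 1
  rw [zsmul_eq_mul, mul_one, Int.cast_ofNat]

theorem tl_neg (n : ℕ) (f : PowerSeries ℤ) : tl n (-f) = tsmul n (-1) (tl n f) := by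
  rw [← tl_smul]
  congr 1
  simp

/-! ### the numerators of `D` -/

/-- `D₂ Δ² Δ₂²` -/
def P2 : PowerSeries ℤ := elimDh2 (Ez ^ 3) Dz (Vser 2 Ez ^ 3) (Vser 2 Dz)

/-- `D₃ Δ⁵ Δ₃³` -/
def P3 : PowerSeries ℤ := elimDh3 (Ez ^ 3) Dz (Vser 3 Ez ^ 3) (Vser 3 Dz)

theorem tl_Ez_8 : tl 8 Ez = [1, 240, 2160, 6720, 17520, 30240, 60480, 82560] := by
  rw [tl_Ez]; decide +kernel

theorem tl_Dz_8 : tl 8 Dz = [0, 1, -24, 252, -1472, 4830, -6048, -16744] := by
  rw [tl_Dz]; decide +kernel

theorem tl_Ez_6 : tl 6 Ez = [1, 240, 2160, 6720, 17520, 30240] := by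
  rw [tl_Ez]; decide +kernel

theorem tl_Dz_6 : tl 6 Dz = [0, 1, -24, 252, -1472, 4830] := by
  rw [tl_Dz]; decide +kernel

theorem tl_P2 : tl 6 P2 = [0, 0, 0, 0, 0, -16777216] := by
  rw [P2, elimDh2]
  simp only [tl_sub, tl_mul, tl_pow, tl_add, tl_neg, tl_ofNat,
    tl_Vser _ _ (show 0 < 2 by norm_num), tl_Dz_6, tl_Ez_6]
  decide +kernel

theorem tl_P3 : tl 8 P3 = [0, 0, 0, 0, 0, 0, 0, -387420489] := by
  rw [P3, elimDh3]
  simp only [tl_sub, tl_mul, tl_pow, tl_add, tl_neg, tl_ofNat,
    tl_Vser _ _ (show 0 < 3 by norm_num), tl_Dz_8, tl_Ez_8]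
  decide +kernel

theorem coeff_P2 : PowerSeries.coeff 5 P2 = -16777216 := by
  have h := tl_getD 6 P2 (i := 5) (by norm_num)
  rw [tl_P2] at h
  simpa using h.symm

theorem coeff_P3 : PowerSeries.coeff 7 P3 = -387420489 := by
  have h := tl_getD 8 P3 (i := 7) (by norm_num)
  rw [tl_P3] at h
  simpa using h.symm

theorem elimD2_mul : elimD2 (jqModC ℤ) (qExpand ℤ 2 (jqModC ℤ)) * DL ^ 2 * qExpand ℤ 2 DL ^ 2
    = ιZ P2 := by
  rw [elimD2_hom, jZ_mul_DL, qExpand_jZ_mul, P2, map_elimDh2, ← qExpand_ιZ 2 Dz]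
  rfl

theorem elimD3_mul : elimD3 (jqModC ℤ) (qExpand ℤ 3 (jqModC ℤ)) * DL ^ 5 * qExpand ℤ 3 DL ^ 3
    = ιZ P3 := by
  rw [elimD3_hom, jZ_mul_DL, qExpand_jZ_mul, P3, map_elimDh3, ← qExpand_ιZ 3 Dz]
  rfl

/-! ### over a field -/

section Field

variable (K : Type*) [Field K]

/-- `t₂` over `K` -/
def t2 : LaurentSeries K := coeffMap (Int.castRingHom K) t2Z

/-- `t₃` over `K` -/
def t3 : LaurentSeries K := coeffMap (Int.castRingHom K) t3Z

theorem t2_rel_a : jqModC K * t2 K ^ 2 = (t2 K + 256) ^ 3 := by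
  have h := congrArg (coeffMap (Int.castRingHom K)) t2Z_rel_a
  simpa only [t2, map_mul, map_pow, map_add, map_ofNat, coeffMap_jqModC] using h

theorem t2_rel_b : qExpand K 2 (jqModC K) * t2 K = (t2 K + 16) ^ 3 := by
  have h := congrArg (coeffMap (Int.castRingHom K)) t2Z_rel_b
  simpa only [t2, map_mul, map_pow, map_add, map_ofNat, coeffMap_jqModC, coeffMap_qExpand] using h

theorem t3_rel_a : jqModC K * t3 K ^ 3 = (t3 K + 27) * (t3 K + 243) ^ 3 := by
  have h := congrArg (coeffMap (Int.castRingHom K)) t3Z_rel_a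
  simpa only [t3, map_mul, map_pow, map_add, map_ofNat, coeffMap_jqModC] using h

theorem t3_rel_b : qExpand K 3 (jqModC K) * t3 K = (t3 K + 27) * (t3 K + 3) ^ 3 := by
  have h := congrArg (coeffMap (Int.castRingHom K)) t3Z_rel_b
  simpa only [t3, map_mul, map_pow, map_add, map_ofNat, coeffMap_jqModC, coeffMap_qExpand] using h

theorem coeffMap_ιZ_coeff (P : PowerSeries ℤ) (n : ℕ) :
    (coeffMap (Int.castRingHom K) (ιZ P)).coeff (n : ℤ) = ((PowerSeries.coeff n P : ℤ) : K) := by
  rw [coeffMap_coeff, ιZ_coeff_nat]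
  rfl

theorem elimD2_ne_zero (h2 : (2 : K) ≠ 0) :
    elimD2 (jqModC K) (qExpand K 2 (jqModC K)) ≠ 0 := by
  intro h0
  have h := congrArg (coeffMap (Int.castRingHom K)) elimD2_mul
  rw [map_mul, map_mul, map_elimD2, coeffMap_jqModC, coeffMap_qExpand, coeffMap_jqModC, h0,
    zero_mul, zero_mul] at h
  have h5 := congrArg (fun x : LaurentSeries K => x.coeff ((5 : ℕ) : ℤ)) h
  simp only [coeffMap_ιZ_coeff, coeff_P2] at h5
  have : ((-16777216 : ℤ) : K) = -(2 : K) ^ 24 := by push_cast; norm_num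
  rw [this] at h5
  exact neg_ne_zero.mpr (pow_ne_zero 24 h2) h5.symm

theorem elimD3_ne_zero (h3 : (3 : K) ≠ 0) :
    elimD3 (jqModC K) (qExpand K 3 (jqModC K)) ≠ 0 := by
  intro h0
  have h := congrArg (coeffMap (Int.castRingHom K)) elimD3_mul
  rw [map_mul, map_mul, map_elimD3, coeffMap_jqModC, coeffMap_qExpand, coeffMap_jqModC, h0,
    zero_mul, zero_mul] at h
  have h5 := congrArg (fun x : LaurentSeries K => x.coeff ((7 : ℕ) : ℤ)) h
  simp only [coeffMap_ιZ_coeff, coeff_P3] at h5
  have : ((-387420489 : ℤ) : K) = -(3 : K) ^ 18 := by push_cast; norm_num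
  rw [this] at h5
  exact neg_ne_zero.mpr (pow_ne_zero 18 h3) h5.symm

/-- explicit formula: `t₂ = -N₂(j, j₂) / D₂(j, j₂)` -/
theorem t2_eq (h2 : (2 : K) ≠ 0) :
    t2 K = -elimN2 (jqModC K) (qExpand K 2 (jqModC K))
      / elimD2 (jqModC K) (qExpand K 2 (jqModC K)) := by
  have h := elim2 (t2 K) _ _ (t2_rel_a K) (t2_rel_b K)
  rw [eq_div_iff (elimD2_ne_zero K h2)]
  linear_combination h

/-- explicit formula: `t₃ = -N₃(j, j₃) / D₃(j, j₃)` -/
theorem t3_eq (h3 : (3 : K) ≠ 0) :
    t3 K = -elimN3 (jqModC K) (qExpand K 3 (jqModC K))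
      / elimD3 (jqModC K) (qExpand K 3 (jqModC K)) := by
  have h := elim3 (t3 K) _ _ (t3_rel_a K) (t3_rel_b K)
  rw [eq_div_iff (elimD3_ne_zero K h3)]
  linear_combination h

variable {K} in
theorem elimD2_mem (F : IntermediateField K (LaurentSeries K)) {j J : LaurentSeries K}
    (hj : j ∈ F) (hJ : J ∈ F) : elimD2 j J ∈ F := by
  have := map_elimD2 (algebraMap F (LaurentSeries K)) ⟨j, hj⟩ ⟨J, hJ⟩
  exact this ▸ (elimD2 (⟨j, hj⟩ : F) ⟨J, hJ⟩).2

variable {K} in
theorem elimN2_mem (F : IntermediateField K (LaurentSeries K)) {j J : LaurentSeries K}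
    (hj : j ∈ F) (hJ : J ∈ F) : elimN2 j J ∈ F := by
  have := map_elimN2 (algebraMap F (LaurentSeries K)) ⟨j, hj⟩ ⟨J, hJ⟩
  exact this ▸ (elimN2 (⟨j, hj⟩ : F) ⟨J, hJ⟩).2

variable {K} in
theorem elimD3_mem (F : IntermediateField K (LaurentSeries K)) {j J : LaurentSeries K}
    (hj : j ∈ F) (hJ : J ∈ F) : elimD3 j J ∈ F := by
  have := map_elimD3 (algebraMap F (LaurentSeries K)) ⟨j, hj⟩ ⟨J, hJ⟩
  exact this ▸ (elimD3 (⟨j, hj⟩ : F) ⟨J, hJ⟩).2

variable {K} in
theorem elimN3_mem (F : IntermediateField K (LaurentSeries K)) {j J : LaurentSeries K}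
    (hj : j ∈ F) (hJ : J ∈ F) : elimN3 j J ∈ F := by
  have := map_elimN3 (algebraMap F (LaurentSeries K)) ⟨j, hj⟩ ⟨J, hJ⟩
  exact this ▸ (elimN3 (⟨j, hj⟩ : F) ⟨J, hJ⟩).2

/-- **`t₂` is a modular function of level `M`** (`2 ∣ M`, `char K ≠ 2`). -/
theorem t2_mem_full (h2 : (2 : K) ≠ 0) (M : ℕ) (hM : 2 ∣ M) :
    t2 K ∈ modularFunctionFieldFullC K M := by
  have hj : jqModC K ∈ modularFunctionFieldFullC K M := jqModC_mem_full K M
  have hJ : qExpand K 2 (jqModC K) ∈ modularFunctionFieldFullC K M := jqModCd_mem_full K M hM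
  rw [t2_eq K h2]
  exact div_mem (neg_mem (elimN2_mem _ hj hJ)) (elimD2_mem _ hj hJ)

/-- **`t₃` is a modular function of level `M`** (`3 ∣ M`, `char K ≠ 3`). -/
theorem t3_mem_full (h3 : (3 : K) ≠ 0) (M : ℕ) (hM : 3 ∣ M) :
    t3 K ∈ modularFunctionFieldFullC K M := by
  have hj : jqModC K ∈ modularFunctionFieldFullC K M := jqModC_mem_full K M
  have hJ : qExpand K 3 (jqModC K) ∈ modularFunctionFieldFullC K M := jqModCd_mem_full K M hM
  rw [t3_eq K h3]
  exact div_mem (neg_mem (elimN3_mem _ hj hJ)) (elimD3_mem _ hj hJ)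

end Field

end Fermat.Agent.S18.H333

end
end
-- ===== PACK-END S18/H333/HauptMem.lean

-- ===== PACK-BEGIN S18/H333/Coord.lean
section



/-!
# S18 / NODE COORD (c3), helper333: existence of the coordinates

`node_coord` has EXACTLY the type of `Integ.node_coord` in the row skeleton
(origin/helper18:Fermat/Agent/S18/Integ/Skeleton.lean):

    theorem node_coord (M : ℕ) [NeZero M] {ℓ : ℕ} [Fact ℓ.Prime] (hℓM : ¬ ℓ ∣ M)
        (h3 : ℓ = 3 → 2 ∣ M) (h2 : ℓ = 2 → 3 ∣ M) : Mod.CoordinateStatement M ℓ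

`ℓ ≥ 5`: `x = j`;  `ℓ = 3`: `x = t₂ = q⁻¹(η(q)/η(q²))²⁴`;  `ℓ = 2`: `x = t₃ = q⁻¹(η(q)/η(q³))¹²`.
-/

set_option autoImplicit false

noncomputable section

namespace Fermat.Agent.S18.H333

open ModularCurve AlgebraicCurve HahnSeries

theorem coeffEmb_coeffMap_int (X : LaurentSeries ℤ) :
    coeffEmb Qb (coeffMap (Int.castRingHom ℚ) X) = coeffMap (Int.castRingHom Qb) X := by
  rw [coeffEmb, coeffMap_coeffMap]
  exact coeffMap_congr (RingHom.ext_int _ _) X

theorem jOm_coe (M : ℕ) : ((Mod.jOm M : Mod.Om M) : LaurentSeries Qb) = jqModC Qb := by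
  show coeffEmb Qb (qExpand ℚ 1 jq) = jqModC Qb
  rw [qExpand_one_apply, ← jqModC_rat, coeffEmb, coeffMap_jqModC]

/-- the element of `Ω = F_M` given by an integral series lying in `ℚ(j_d : d ∣ M)` -/
def omOf (M : ℕ) (X : LaurentSeries ℤ)
    (hX : coeffMap (Int.castRingHom ℚ) X ∈ modularFunctionFieldFull M) : Mod.Om M :=
  ⟨coeffEmb Qb (coeffMap (Int.castRingHom ℚ) X), coeffEmb_mem_laurentBaseChange Qb hX⟩

theorem omOf_coe (M : ℕ) (X : LaurentSeries ℤ)
    (hX : coeffMap (Int.castRingHom ℚ) X ∈ modularFunctionFieldFull M) :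
    ((omOf M X hX : Mod.Om M) : LaurentSeries Qb) = coeffMap (Int.castRingHom Qb) X :=
  coeffEmb_coeffMap_int X

theorem t2Q_mem (M : ℕ) (hM : 2 ∣ M) :
    coeffMap (Int.castRingHom ℚ) t2Z ∈ modularFunctionFieldFull M :=
  t2_mem_full ℚ (by norm_num) M hM

theorem t3Q_mem (M : ℕ) (hM : 3 ∣ M) :
    coeffMap (Int.castRingHom ℚ) t3Z ∈ modularFunctionFieldFull M :=
  t3_mem_full ℚ (by norm_num) M hM

/-- `t₂ ∈ Ω = F_M` (`2 ∣ M`) -/
def t2Om (M : ℕ) (hM : 2 ∣ M) : Mod.Om M := omOf M t2Z (t2Q_mem M hM)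

/-- `t₃ ∈ Ω = F_M` (`3 ∣ M`) -/
def t3Om (M : ℕ) (hM : 3 ∣ M) : Mod.Om M := omOf M t3Z (t3Q_mem M hM)

theorem t2Om_rel (M : ℕ) (hM : 2 ∣ M) :
    Mod.jOm M * t2Om M hM ^ 2 = (t2Om M hM + 256) ^ 3 := by
  apply Subtype.ext
  have h := t2_rel_a Qb
  have hx : ((t2Om M hM : Mod.Om M) : LaurentSeries Qb) = t2 Qb := omOf_coe M t2Z _
  push_cast
  rw [jOm_coe, hx]
  exact h

theorem t3Om_rel (M : ℕ) (hM : 3 ∣ M) :
    Mod.jOm M * t3Om M hM ^ 3 = (t3Om M hM + 27) * (t3Om M hM + 243) ^ 3 := by
  apply Subtype.ext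
  have h := t3_rel_a Qb
  have hx : ((t3Om M hM : Mod.Om M) : LaurentSeries Qb) = t3 Qb := omOf_coe M t3Z _
  push_cast
  rw [jOm_coe, hx]
  exact h

/-- **NODE COORD.** -/
theorem node_coord (M : ℕ) [NeZero M] {ℓ : ℕ} [Fact ℓ.Prime] (hℓM : ¬ ℓ ∣ M)
    (h3 : ℓ = 3 → 2 ∣ M) (h2 : ℓ = 2 → 3 ∣ M) : Mod.CoordinateStatement M ℓ := by
  classical
  have hp : ℓ.Prime := Fact.out
  by_cases hl3 : ℓ = 3
  · refine ⟨t2Om M (h3 hl3), {0, -64}, Or.inr ⟨Or.inl ⟨hl3, t2Om_rel M (h3 hl3), ?_⟩, ?_⟩⟩
    · intro s; simp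
    · exact ⟨t2Z, t2Z_coeff_neg_one, fun k hk => t2Z_coeff_of_lt hk, omOf_coe M t2Z _,
        t2Q_mem M (h3 hl3)⟩
  by_cases hl2 : ℓ = 2
  · refine ⟨t3Om M (h2 hl2), {0, -27}, Or.inr ⟨Or.inr ⟨hl2, t3Om_rel M (h2 hl2), ?_⟩, ?_⟩⟩
    · intro s; simp
    · exact ⟨t3Z, t3Z_coeff_neg_one, fun k hk => t3Z_coeff_of_lt hk, omOf_coe M t3Z _,
        t3Q_mem M (h2 hl2)⟩
  · refine ⟨Mod.jOm M, {0, 1728}, Or.inl ⟨?_, rfl, ?_⟩⟩
    · have h2' := hp.two_le
      by_contra hlt
      have : ℓ = 4 := by omega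
      subst this
      exact absurd hp (by norm_num)
    · intro s; simp

end Fermat.Agent.S18.H333

end
end
-- ===== PACK-END S18/H333/Coord.lean

-- ===== PACK-BEGIN S17/H77/StabAbstract.lean
section



/-!
# S17 / BASE-1 (helper77): every divisor class is defined over a number field — abstract form

Setting: `F₀ ⊆ ℚ((q))` an intermediate field, `F = ℚ̄ · F₀ ⊆ ℚ̄((q))` its base change
(`laurentBaseChange`), with the coefficientwise action of `G_ℚ = Gal(ℚ̄/ℚ)`
(`ModularCurve.arithmeticGalois`).  Assume `FF1 ℚ̄ F` (Riemann's theorem is available).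

* `exists_fixing_field` : every `f ∈ F` has its coefficients in a number field `K`, i.e. is fixed
  by every `σ` fixing `K` pointwise.
* `exists_pole_function` : every place `P` is the unique pole of some function (Riemann).
* `exists_field_fixing_place` : hence `P` is fixed by `Gal(ℚ̄/K)` for a number field `K`.
* `stabilizer_open_of_ff1` : every class of `Pic⁰(F)` is fixed by `Gal(ℚ̄/K)` for a number field `K`.
-/

set_option autoImplicit false

noncomputable section

namespace Fermat.Agent.S17.H77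

open ModularCurve AlgebraicCurve IntermediateField
open Fermat.Agent.Lib.RR

/-- `ℚ̄` -/
abbrev Qb : Type := AlgebraicClosure ℚ

/-- the absolute Galois group of `ℚ` -/
abbrev GQ : Type := Qb ≃ₐ[ℚ] Qb

/-- `ℚ̄` is algebraic over `ℚ` (for the ambient `Algebra ℚ ℚ̄` instance). -/
theorem isAlgebraic_Qb : @Algebra.IsAlgebraic ℚ Qb _ _ (inferInstance : Algebra ℚ Qb) := by
  have h : (inferInstance : Algebra ℚ Qb) =
      (AlgebraicClosure.instAlgebra ℚ : Algebra ℚ (AlgebraicClosure ℚ)) := Subsingleton.elim _ _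
  rw [h]
  exact AlgebraicClosure.isAlgebraic ℚ

theorem isIntegral_Qb (a : Qb) : IsIntegral ℚ a := by
  have := isAlgebraic_Qb
  exact (Algebra.IsAlgebraic.isAlgebraic a).isIntegral

variable (F₀ : IntermediateField ℚ (LaurentSeries ℚ))

/-! ### Step 1: the coefficient field of a function -/

/-- Every element of `ℚ̄ · F₀` is fixed by `Gal(ℚ̄/K)` for some number field `K`. -/
theorem exists_fixing_field {f : LaurentSeries Qb} (hf : f ∈ laurentBaseChange Qb F₀) :
    ∃ K : IntermediateField ℚ Qb, FiniteDimensional ℚ K ∧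
      ∀ σ : GQ, (∀ a ∈ K, σ a = a) → coeffMap (σ : Qb →+* Qb) f = f := by
  rw [mem_laurentBaseChange_iff] at hf
  induction hf using Subfield.closure_induction with
  | mem y hy =>
    rcases hy with ⟨a, rfl⟩ | ⟨z, hz, rfl⟩
    · have ha : IsIntegral ℚ a := isIntegral_Qb a
      refine ⟨ℚ⟮a⟯, IntermediateField.adjoin.finiteDimensional ha, fun σ hσ => ?_⟩
      rw [coeffMap_algebraMap]
      congr 1
      exact hσ a (IntermediateField.mem_adjoin_simple_self ℚ a)
    · exact ⟨⊥, inferInstance, fun σ _ => coeffMap_coeffEmb σ z⟩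
  | one => exact ⟨⊥, inferInstance, fun σ _ => map_one _⟩
  | add x y _ _ hx hy =>
    obtain ⟨K₁, hK₁, h₁⟩ := hx
    obtain ⟨K₂, hK₂, h₂⟩ := hy
    refine ⟨K₁ ⊔ K₂, IntermediateField.finiteDimensional_sup K₁ K₂, fun σ hσ => ?_⟩
    rw [map_add, h₁ σ fun a ha => hσ a ((le_sup_left : K₁ ≤ K₁ ⊔ K₂) ha),
      h₂ σ fun a ha => hσ a ((le_sup_right : K₂ ≤ K₁ ⊔ K₂) ha)]
  | neg x _ hx =>
    obtain ⟨K₁, hK₁, h₁⟩ := hx
    exact ⟨K₁, hK₁, fun σ hσ => by rw [map_neg, h₁ σ hσ]⟩
  | inv x _ hx =>
    obtain ⟨K₁, hK₁, h₁⟩ := hx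
    exact ⟨K₁, hK₁, fun σ hσ => by rw [map_inv₀, h₁ σ hσ]⟩
  | mul x y _ _ hx hy =>
    obtain ⟨K₁, hK₁, h₁⟩ := hx
    obtain ⟨K₂, hK₂, h₂⟩ := hy
    refine ⟨K₁ ⊔ K₂, IntermediateField.finiteDimensional_sup K₁ K₂, fun σ hσ => ?_⟩
    rw [map_mul, h₁ σ fun a ha => hσ a ((le_sup_left : K₁ ≤ K₁ ⊔ K₂) ha),
      h₂ σ fun a ha => hσ a ((le_sup_right : K₂ ≤ K₁ ⊔ K₂) ha)]

/-- Version for elements of the field `ℚ̄ · F₀` with the `arithmeticGalois` action. -/
theorem exists_fixing_field' (f : laurentBaseChange Qb F₀) :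
    ∃ K : IntermediateField ℚ Qb, FiniteDimensional ℚ K ∧
      ∀ σ : GQ, (∀ a ∈ K, σ a = a) → arithmeticGalois F₀ σ • f = f := by
  obtain ⟨K, hK, h⟩ := exists_fixing_field F₀ f.2
  exact ⟨K, hK, fun σ hσ => Subtype.ext (by rw [coe_arithmeticGalois_smul]; exact h σ hσ)⟩

/-! ### Step 2: every place is the unique pole of a function -/

section Pole

variable {K F : Type*} [Field K] [Field F] [Algebra K F] [FF1 K F]

/-- Riemann: every place `P` is the only pole of some function. -/
theorem exists_pole_function (P : Place K F) :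
    ∃ f : F, f ≠ 0 ∧ P.ord f < 0 ∧ ∀ v : Place K F, v ≠ P → 0 ≤ v.ord f := by
  classical
  set n : ℕ := genusR K F + 1 with hn
  set D : Divisor K F := (n : ℤ) • prim P with hD
  have hdeg : Divisor.degree D = n := by
    rw [hD, map_zsmul, degree_prim P (deg_eq_one P)]
    simp
  have h2 : 2 ≤ ell D := by
    have := riemann_inequality D
    rw [hdeg] at this
    have : (2 : ℤ) ≤ ell D := by rw [hn] at this; push_cast at this; omega
    exact_mod_cast this
  have h0D : (0 : Divisor K F) ≤ D := by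
    rw [hD]
    intro v
    simp only [Finsupp.coe_zero, Pi.zero_apply, Finsupp.coe_smul, Pi.smul_apply, smul_eq_mul]
    by_cases hv : v = P
    · subst hv
      simp [prim]
    · rw [prim_apply_of_ne hv]
      simp
  -- `L(D) ≠ L(0)`
  have hne : riemannRochSpace D ≠ riemannRochSpace (0 : Divisor K F) := by
    intro h
    have : ell D = ell (0 : Divisor K F) := by unfold ell; rw [h]
    rw [ell_zero] at this
    omega
  have hle : riemannRochSpace (0 : Divisor K F) ≤ riemannRochSpace D := L_mono h0D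
  obtain ⟨f, hfD, hf0⟩ : ∃ f, f ∈ riemannRochSpace D ∧ f ∉ riemannRochSpace (0 : Divisor K F) := by
    by_contra hcon
    refine hne (le_antisymm (fun f hf => ?_) hle)
    by_contra hf'
    exact hcon ⟨f, hf, hf'⟩
  have hfne : f ≠ 0 := by
    rintro rfl
    exact hf0 (Submodule.zero_mem _)
  have hv : ∀ v : Place K F, v ≠ P → 0 ≤ v.ord f := by
    intro v hv
    have := (mem_L_iff.mp hfD v).resolve_left hfne
    rw [hD] at this
    simp only [Finsupp.coe_smul, Pi.smul_apply, smul_eq_mul, prim_apply_of_ne hv, mul_zero,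
      neg_zero] at this
    exact this
  refine ⟨f, hfne, ?_, hv⟩
  by_contra hP'
  have hP : 0 ≤ P.ord f := not_lt.mp hP'
  apply hf0
  rw [mem_L_iff]
  intro v
  right
  by_cases hvP : v = P
  · subst hvP
    simpa using hP
  · simpa using hv v hvP

end Pole

/-! ### Step 3: places, divisors and classes -/

section Stab

variable [FF1 Qb (laurentBaseChange Qb F₀)]

/-- Every place of `ℚ̄ · F₀` is fixed by `Gal(ℚ̄/K)` for a number field `K`. -/
theorem exists_field_fixing_place (P : Place Qb (laurentBaseChange Qb F₀)) :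
    ∃ K : IntermediateField ℚ Qb, FiniteDimensional ℚ K ∧
      ∀ σ : GQ, (∀ a ∈ K, σ a = a) → arithmeticGalois F₀ σ • P = P := by
  obtain ⟨f, -, hP, hv⟩ := exists_pole_function P
  obtain ⟨K, hK, hσf⟩ := exists_fixing_field' F₀ f
  refine ⟨K, hK, fun σ hσ => ?_⟩
  by_contra hne
  have h1 := hv _ hne
  have h2 := SemilinearAut.ord_smul (arithmeticGalois F₀ σ) P f
  rw [hσf σ hσ] at h2
  omega

/-- Every divisor of `ℚ̄ · F₀` is fixed by `Gal(ℚ̄/K)` for a number field `K`. -/
theorem exists_field_fixing_divisor (D : Divisor Qb (laurentBaseChange Qb F₀)) :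
    ∃ K : IntermediateField ℚ Qb, FiniteDimensional ℚ K ∧
      ∀ σ : GQ, (∀ a ∈ K, σ a = a) → arithmeticGalois F₀ σ • D = D := by
  induction D using Finsupp.induction with
  | zero => exact ⟨⊥, inferInstance, fun σ _ => smul_zero _⟩
  | single_add v n D _ _ ih =>
    obtain ⟨K₁, hK₁, h₁⟩ := exists_field_fixing_place F₀ v
    obtain ⟨K₂, hK₂, h₂⟩ := ih
    refine ⟨K₁ ⊔ K₂, IntermediateField.finiteDimensional_sup K₁ K₂, fun σ hσ => ?_⟩
    rw [smul_add, SemilinearAut.smul_single,
      h₁ σ fun a ha => hσ a ((le_sup_left : K₁ ≤ K₁ ⊔ K₂) ha),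
      h₂ σ fun a ha => hσ a ((le_sup_right : K₂ ≤ K₁ ⊔ K₂) ha)]

/-- **BASE-1, abstract form.** Every class of `Pic⁰(ℚ̄ · F₀)` is fixed by `Gal(ℚ̄/K)` for a number
field `K`. -/
theorem stabilizer_open_of_ff1 (x : Pic0 Qb (laurentBaseChange Qb F₀)) :
    ∃ K : IntermediateField ℚ Qb, FiniteDimensional ℚ K ∧
      ∀ σ : GQ, (∀ a ∈ K, σ a = a) → σ • x = x := by
  obtain ⟨D, rfl⟩ := Pic0.mk_surjective x
  obtain ⟨K, hK, h⟩ := exists_field_fixing_divisor F₀ (D : Divisor Qb (laurentBaseChange Qb F₀))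
  refine ⟨K, hK, fun σ hσ => ?_⟩
  rw [galois_smul_pic0_def, SemilinearAut.pic0_smul_mk]
  congr 1
  exact Subtype.ext (by rw [SemilinearAut.coe_degZeroSMulHom]; exact h σ hσ)

end Stab

end Fermat.Agent.S17.H77

end
end
-- ===== PACK-END S17/H77/StabAbstract.lean

-- ===== PACK-BEGIN S17/H617/HWallDefs.lean
section


/-!
# S17 / tower H — projective embedding datum of the curve (definitions only; helper617)

Sorry-free DEFINITIONS shared by the TOP / WALL contract of tower H (row S17):

* `dot a y = Σ aᵢ yᵢ` (`= dotProduct`), `wedge y z` = Plücker coordinates of `y ∧ z`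
  (indexed by ALL ordered pairs), `lin x a = Σ aᵢ xᵢ ∈ F`;
* `hypDiv vinf m x a = div(Σ aᵢ xᵢ) + m∞` (junk `0` if `Σ aᵢ xᵢ = 0`);
* `EmbData K F` : a place `∞`, a degree `m ≥ 2g + 1`, a `K`-basis `x₀, …, x_r` of `L(m∞)`,
  representatives `pt P ∈ K^(r+1)` of the points `φ(P) ∈ ℙ^r` of the projective embedding
  `φ = (x₀ : … : x_r)` and `tn P` of a second point on the tangent line at `φ(P)`.
  `pt`, `tn` are characterised PROJECTIVELY:
  - `pt_spec` : the hyperplanes through `φ(P)` are the hyperplane sections containing `P`;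
  - `tn_spec` : the hyperplanes containing the tangent line at `φ(P)` are the hyperplane
    sections containing `2P`.
  No normalisation is imposed (for `P ≠ ∞` one may take the values `xᵢ(P)` and the values of
  `(xᵢ - xᵢ(P))/t`, at `∞` the leading and subleading coefficient vectors).
* `E.Z a` : the hyperplane section `Z_a ≥ 0`, of degree `m`.
-/

set_option autoImplicit false

noncomputable section

open AlgebraicCurve

namespace Fermat.Agent.S17.HWall

open Fermat.Agent.Lib.RR

variable {K F : Type*} [Field K] [Field F] [Algebra K F]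

/-- `⟨a, y⟩ = Σ aᵢ yᵢ`. -/
abbrev dot {n : ℕ} (a y : Fin n → K) : K := dotProduct a y

/-- Plücker coordinates of `y ∧ z` (indexed by ALL ordered pairs). -/
def wedge {n : ℕ} (y z : Fin n → K) : Fin n × Fin n → K :=
  fun p => y p.1 * z p.2 - y p.2 * z p.1

/-- `Σ aᵢ xᵢ ∈ F`. -/
def lin {n : ℕ} (x : Fin n → F) (a : Fin n → K) : F := ∑ i, a i • x i

open Classical in
/-- The hyperplane section `Z_a = div(Σ aᵢ xᵢ) + m∞` (junk value `0` if `Σ aᵢ xᵢ = 0`). -/
def hypDiv [FF1 K F] (vinf : Place K F) (m : ℕ) {n : ℕ} (x : Fin n → F) (a : Fin n → K) :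
    Divisor K F :=
  if h : lin x a = 0 then 0 else divOf (lin x a) h + m • prim vinf

/-- A projective embedding of the curve by the complete linear system `|m∞|`, `m ≥ 2g + 1`,
together with representatives of the points and of the tangent lines. -/
structure EmbData (K F : Type*) [Field K] [Field F] [Algebra K F] [FF1 K F] where
  /-- the point at infinity -/
  vinf : Place K F
  /-- the degree of the embedding -/
  m : ℕ
  /-- the dimension of the ambient projective space -/
  r : ℕ
  /-- a basis of `L(m∞)` -/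
  x : Fin (r + 1) → F
  /-- a representative of the point `φ(P) ∈ ℙ^r` -/
  pt : Place K F → Fin (r + 1) → K
  /-- a second point on the tangent line at `φ(P)` -/
  tn : Place K F → Fin (r + 1) → K
  hm : 2 * genusR K F + 1 ≤ m
  x_li : LinearIndependent K x
  x_span : Submodule.span K (Set.range x) = riemannRochSpace (m • prim vinf)
  /-- the hyperplanes through `φ(P)` are the hyperplane sections containing `P` -/
  pt_spec : ∀ (P : Place K F) (a : Fin (r + 1) → K), a ≠ 0 →
    (dot a (pt P) = 0 ↔ 0 < hypDiv vinf m x a P)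
  /-- the hyperplanes containing the tangent line at `φ(P)` are the hyperplane sections
  containing `2P` -/
  tn_spec : ∀ (P : Place K F) (a : Fin (r + 1) → K), a ≠ 0 →
    ((dot a (pt P) = 0 ∧ dot a (tn P) = 0) ↔ 2 ≤ hypDiv vinf m x a P)

variable [FF1 K F]

/-- The hyperplane section `Z_a`. -/
def EmbData.Z (E : EmbData K F) (a : Fin (E.r + 1) → K) : Divisor K F :=
  hypDiv E.vinf E.m E.x a

theorem EmbData.lin_ne_zero (E : EmbData K F) {a : Fin (E.r + 1) → K} (ha : a ≠ 0) :
    lin E.x a ≠ 0 := by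
  intro h
  apply ha
  have := Fintype.linearIndependent_iff.mp E.x_li a h
  exact funext this

theorem EmbData.Z_eq (E : EmbData K F) {a : Fin (E.r + 1) → K} (ha : a ≠ 0) :
    E.Z a = divOf (lin E.x a) (E.lin_ne_zero ha) + E.m • prim E.vinf := by
  unfold EmbData.Z hypDiv
  rw [dif_neg (E.lin_ne_zero ha)]

theorem EmbData.Z_apply (E : EmbData K F) {a : Fin (E.r + 1) → K} (ha : a ≠ 0)
    (P : Place K F) :
    E.Z a P = P.ord (lin E.x a) + (E.m • prim E.vinf : Divisor K F) P := by
  rw [E.Z_eq ha, Finsupp.add_apply, divOf_apply]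

theorem EmbData.lin_mem (E : EmbData K F) (a : Fin (E.r + 1) → K) :
    lin E.x a ∈ riemannRochSpace (E.m • prim E.vinf) := by
  rw [← E.x_span]
  unfold lin
  exact Submodule.sum_mem _ fun i _ =>
    Submodule.smul_mem _ _ (Submodule.subset_span ⟨i, rfl⟩)

/-- `Z_a ≥ 0`. -/
theorem EmbData.Z_nonneg (E : EmbData K F) (a : Fin (E.r + 1) → K) : 0 ≤ E.Z a := by
  by_cases ha : a = 0
  · subst ha
    unfold EmbData.Z hypDiv
    rw [dif_pos (by simp [lin])]
  · rw [Finsupp.le_def]
    intro P
    rw [E.Z_apply ha P, Finsupp.coe_zero, Pi.zero_apply]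
    have h := (mem_riemannRochSpace_iff.mp (E.lin_mem a)) P
    rcases h with h | h
    · exact absurd h (E.lin_ne_zero ha)
    · linarith

/-- `deg Z_a = m`. -/
theorem EmbData.degree_Z (E : EmbData K F) {a : Fin (E.r + 1) → K} (ha : a ≠ 0) :
    Divisor.degree (E.Z a) = E.m := by
  rw [E.Z_eq ha, map_add, degree_divOf, zero_add, map_nsmul]
  unfold prim
  rw [Divisor.degree_single, FF1.deg_eq_one]
  simp

end Fermat.Agent.S17.HWall

end
end
-- ===== PACK-END S17/H617/HWallDefs.lean

-- ===== PACK-BEGIN S17/H17/HContract.lean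
section



/-!
# S17 / tower H — the CONTRACT between TOP and WALL (row-lead helper17)

Definitions only (no `sorry`).  All `def … : Prop` are FROZEN interfaces: the WALL produces them,
TOP consumes them.

* `E₁ : EmbData K F` — the embedding used for POINTS and DISTANCES (degree `n = E₁.m`);
* `E₂ : EmbData K F` — the embedding used for FORMS / hyperplane sections (degree `M = E₂.m`);
  `E₁ = E₂` is allowed (route L1 of helper617/helper500), `M ≥ d n + 2 g` in route helper710.
* heights: `ht = Fermat.Agent.S17.H380.absLogHeight` (absolute logarithmic height of a tuple).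

The five statements (`C` is ONE constant, uniform in everything quantified after it):

* `E3Statement`   : `| (Z_a . P) − h(a) − h_M(P) | ≤ C` for all forms `a ≠ 0` and `P ∉ Z_a`;
* `ADJStatement`  : `| (Z_a − P . P) − κ(P) − h(a) − h_M(P) | ≤ C` at a simple zero `P` of `a`,
                    `κ(P) = h(pt P ∧ tn P) − 2 h(pt P)` (degree `n`);
* `VDMStatement`  : `h(PT P₁ ∧ … ∧ PT P_d) ≤ Σ h_M(P_i) − Σ_{i<j} hD(P_i, P_j) + C`
                    for distinct `P_1, …, P_d`, `d ≤ d₀`;
* `GAUSSStatement`: `| κ(P) − (K₀ . P) | ≤ C` for ONE divisor `K₀` of degree `2g − 2`, `P ∉ K₀`;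
* `NCStatement`   : `| n · h_M(P) − M · h_n(P) | ≤ C`.

Here `(D . P) = Σ_A D(A) hD(A, P)` and `hD(A, P) = h_n(A) + h_n(P) − h(pt A ∧ pt P)`.
-/

set_option autoImplicit false

noncomputable section

open AlgebraicCurve

namespace Fermat.Agent.S17.HContract

open Fermat.Agent.Lib.RR Fermat.Agent.S17.HWall

variable {K F : Type*} [Field K] [CharZero K] [Field F] [Algebra K F] [FF1 K F]

/-- the absolute logarithmic height of a tuple -/
abbrev ht {ι : Type*} [Finite ι] (y : ι → K) : ℝ := Fermat.Agent.S17.H380.absLogHeight y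

/-- Plücker coordinates of `y₁ ∧ … ∧ y_d` (indexed as `Fermat.Agent.S17.H980.minorQ`). -/
def plucker {d n : ℕ} (y : Fin d → Fin n → K) (e : Fin d ↪ Fin n) : K :=
  Matrix.det (Matrix.of fun i j => y i (e j))

/-- the diagonal height `hD(A, P) = h(pt A) + h(pt P) − h(pt A ∧ pt P)` in the embedding `E` -/
def hD (E : EmbData K F) (A P : Place K F) : ℝ :=
  ht (E.pt A) + ht (E.pt P) - ht (wedge (E.pt A) (E.pt P))

/-- `(D . P) = Σ_A D(A) hD(A, P)` -/
def pairPt (E : EmbData K F) (D : Divisor K F) (P : Place K F) : ℝ :=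
  D.sum fun A n => (n : ℝ) * hD E A P

/-- `(D . D') = Σ_{A, P} D(A) D'(P) hD(A, P)` (to be used for divisors with disjoint supports) -/
def pair (E : EmbData K F) (D D' : Divisor K F) : ℝ :=
  D'.sum fun P n => (n : ℝ) * pairPt E D P

/-- the adjunction term `κ(P) = h(pt P ∧ tn P) − 2 h(pt P)` -/
def kap (E : EmbData K F) (P : Place K F) : ℝ :=
  ht (wedge (E.pt P) (E.tn P)) - 2 * ht (E.pt P)

/-- the naive height `N(D) = Σ_P D(P) h(pt P)` of a divisor in the embedding `E` -/
def naive (E : EmbData K F) (D : Divisor K F) : ℝ :=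
  D.sum fun P n => (n : ℝ) * ht (E.pt P)

/-- **(E3)** -/
def E3Statement (E₁ E₂ : EmbData K F) : Prop :=
  ∃ C : ℝ, ∀ (a : Fin (E₂.r + 1) → K) (P : Place K F), a ≠ 0 → dot a (E₂.pt P) ≠ 0 →
    |pairPt E₁ (E₂.Z a) P - ht a - ht (E₂.pt P)| ≤ C

/-- **(ADJ)**: (E3) at a simple zero, with the self-pairing regularised by `−κ`. -/
def ADJStatement (E₁ E₂ : EmbData K F) : Prop :=
  ∃ C : ℝ, ∀ (a : Fin (E₂.r + 1) → K) (P : Place K F), a ≠ 0 → E₂.Z a P = 1 →
    |pairPt E₁ ((E₂.Z a).erase P) P - kap E₁ P - ht a - ht (E₂.pt P)| ≤ C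

/-- **(VDM)**: Hadamard/Vandermonde with distances, for at most `d₀` distinct points. -/
def VDMStatement (E₁ E₂ : EmbData K F) (d₀ : ℕ) : Prop :=
  ∃ C : ℝ, ∀ (d : ℕ) (P : Fin d → Place K F), d ≤ d₀ → Function.Injective P →
    ht (plucker fun i => E₂.pt (P i)) ≤
      (∑ i, ht (E₂.pt (P i))) - (∑ i, ∑ j, if i < j then hD E₁ (P i) (P j) else 0) + C

/-- **(GAUSS)**: `κ` is a height for a divisor of degree `2g − 2`. -/
def GAUSSStatement (E₁ : EmbData K F) : Prop :=
  ∃ (K₀ : Divisor K F) (C : ℝ), Divisor.degree K₀ = 2 * (genusR K F : ℤ) - 2 ∧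
    ∀ P : Place K F, K₀ P = 0 → |kap E₁ P - pairPt E₁ K₀ P| ≤ C

/-- **(NC)**: comparison of the two embeddings. -/
def NCStatement (E₁ E₂ : EmbData K F) : Prop :=
  ∃ C : ℝ, ∀ P : Place K F,
    |(E₁.m : ℝ) * ht (E₂.pt P) - (E₂.m : ℝ) * ht (E₁.pt P)| ≤ C

/-- **The contract**: everything TOP needs from the WALL. -/
structure Contract (E₁ E₂ : EmbData K F) (d₀ : ℕ) : Prop where
  vinf_eq : E₁.vinf = E₂.vinf
  e3 : E3Statement E₁ E₂
  adj : ADJStatement E₁ E₂
  vdm : VDMStatement E₁ E₂ d₀
  gauss : GAUSSStatement E₁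
  nc : NCStatement E₁ E₂

end Fermat.Agent.S17.HContract

end
end
-- ===== PACK-END S17/H17/HContract.lean

-- ===== PACK-BEGIN S17/H680/DescentRR.lean
section




/-!
# S17 / BASE-2 (helper680): Galois descent of Riemann–Roch spaces

`F = ℚ̄ · F₀ ⊆ ℚ̄((q))` with the coefficientwise Galois action.  For a Galois-invariant divisor
`D₀`, the space `L(D₀)` has a `ℚ̄`-basis of Galois-fixed functions (`exists_fixed_basis`); the
`ℚ`-space of fixed functions in `L(D₀)` has dimension `ℓ(D₀)` (`finrank_fixedL`).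
-/

set_option autoImplicit false

noncomputable section

open AlgebraicCurve ModularCurve

namespace Fermat.Agent.S17.H680

open Fermat.Agent.Lib.RR Fermat.Agent.S17.H77

variable (F₀ : IntermediateField ℚ (LaurentSeries ℚ))

theorem normal_Qb : @Normal ℚ Qb _ _ (inferInstance : Algebra ℚ Qb) := by
  have h : (inferInstance : Algebra ℚ Qb) =
      (AlgebraicClosure.instAlgebra ℚ : Algebra ℚ (AlgebraicClosure ℚ)) := Subsingleton.elim _ _
  rw [h]
  infer_instance

theorem isGalois_Qb : @IsGalois ℚ _ Qb _ (inferInstance : Algebra ℚ Qb) := by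
  have h : (inferInstance : Algebra ℚ Qb) =
      (AlgebraicClosure.instAlgebra ℚ : Algebra ℚ (AlgebraicClosure ℚ)) := Subsingleton.elim _ _
  rw [h]
  infer_instance

/-- The Galois action on the function field, as a `DistribMulAction` (not an instance). -/
@[reducible] def galoisAction : DistribMulAction GQ (laurentBaseChange Qb F₀) :=
  DistribMulAction.compHom (laurentBaseChange Qb F₀) (arithmeticGalois F₀)

theorem galoisAction_smul (σ : GQ) (f : laurentBaseChange Qb F₀) :
    (letI := galoisAction F₀; σ • f) = arithmeticGalois F₀ σ • f := rfl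

theorem arithmeticGalois_smul_smul (σ : GQ) (a : Qb) (f : laurentBaseChange Qb F₀) :
    arithmeticGalois F₀ σ • (a • f) = σ a • (arithmeticGalois F₀ σ • f) := by
  rw [Algebra.smul_def, Algebra.smul_def, smul_mul', SemilinearAut.smul_algebraMap]
  rfl

/-- The set of Galois-fixed functions. -/
def IsFixed (f : laurentBaseChange Qb F₀) : Prop :=
  ∀ σ : GQ, arithmeticGalois F₀ σ • f = f

/-- **Descent, spanning**: a Galois-stable `ℚ̄`-subspace of `F` is spanned by its fixed elements. -/
theorem span_fixed_eq (V : Submodule Qb (laurentBaseChange Qb F₀))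
    (hV : ∀ σ : GQ, ∀ f ∈ V, arithmeticGalois F₀ σ • f ∈ V) :
    Submodule.span Qb {f | f ∈ V ∧ IsFixed F₀ f} = V := by
  apply le_antisymm
  · rw [Submodule.span_le]
    exact fun f hf => hf.1
  · intro f hf
    obtain ⟨K, hK, hfix⟩ := exists_fixing_field' F₀ f
    let := galoisAction F₀
    have := normal_Qb
    exact mem_span_fixed (k := ℚ) (L := Qb) (M := laurentBaseChange Qb F₀)
      (fun σ a m => arithmeticGalois_smul_smul F₀ σ a m) V hV hf K hfix

/-- **Descent, independence**: `ℚ`-independent fixed functions are `ℚ̄`-independent. -/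
theorem linearIndependent_of_isFixed {ι : Type*} (w : ι → laurentBaseChange Qb F₀)
    (hw : ∀ i, IsFixed F₀ (w i)) (hli : LinearIndependent ℚ w) : LinearIndependent Qb w := by
  let := galoisAction F₀
  have := isGalois_Qb
  exact linearIndependent_of_fixed (k := ℚ) (L := Qb) (M := laurentBaseChange Qb F₀)
    (fun σ a m => arithmeticGalois_smul_smul F₀ σ a m) w (fun σ i => hw i σ) hli

/-- The `ℚ`-subspace of Galois-fixed elements of a `ℚ̄`-subspace. -/
def fixedPart (V : Submodule Qb (laurentBaseChange Qb F₀)) :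
    Submodule ℚ (laurentBaseChange Qb F₀) where
  carrier := {f | f ∈ V ∧ IsFixed F₀ f}
  zero_mem' := ⟨V.zero_mem, fun σ => smul_zero _⟩
  add_mem' := fun {f g} hf hg => ⟨V.add_mem hf.1 hg.1, fun σ => by
    rw [smul_add, hf.2 σ, hg.2 σ]⟩
  smul_mem' := fun c f hf => by
    refine ⟨?_, fun σ => ?_⟩
    · rw [← algebraMap_smul Qb c f]
      exact V.smul_mem _ hf.1
    · rw [← algebraMap_smul Qb c f, arithmeticGalois_smul_smul, hf.2 σ, AlgEquiv.commutes]

theorem mem_fixedPart {V : Submodule Qb (laurentBaseChange Qb F₀)}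
    {f : laurentBaseChange Qb F₀} : f ∈ fixedPart F₀ V ↔ f ∈ V ∧ IsFixed F₀ f := Iff.rfl

/-- A Galois-stable finite-dimensional subspace has a basis of fixed elements; the family is at
the same time a `ℚ`-basis of the fixed part. -/
theorem exists_fixed_basis (V : Submodule Qb (laurentBaseChange Qb F₀))
    [Module.Finite Qb V]
    (hV : ∀ σ : GQ, ∀ f ∈ V, arithmeticGalois F₀ σ • f ∈ V) :
    ∃ b : Fin (Module.finrank Qb V) → laurentBaseChange Qb F₀,
      (∀ i, b i ∈ V) ∧ (∀ i, IsFixed F₀ (b i)) ∧ LinearIndependent Qb b ∧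
      Submodule.span Qb (Set.range b) = V ∧
      Submodule.span ℚ (Set.range b) = fixedPart F₀ V := by
  classical
  -- a `ℚ`-basis of the fixed part
  set W := fixedPart F₀ V with hW
  let B := Module.Free.chooseBasis ℚ W
  have hBfix : ∀ i, IsFixed F₀ ((B i : W) : laurentBaseChange Qb F₀) := fun i => (B i).2.2
  have hBV : ∀ i, ((B i : W) : laurentBaseChange Qb F₀) ∈ V := fun i => (B i).2.1
  have hliQ : LinearIndependent ℚ fun i => ((B i : W) : laurentBaseChange Qb F₀) := by
    have := B.linearIndependent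
    exact this.map' (Submodule.subtype W) (Submodule.ker_subtype W)
  have hli : LinearIndependent Qb fun i => ((B i : W) : laurentBaseChange Qb F₀) :=
    linearIndependent_of_isFixed F₀ _ hBfix hliQ
  have hspanQ : Submodule.span ℚ (Set.range fun i => ((B i : W) : laurentBaseChange Qb F₀))
      = W := by
    have h1 := B.span_eq
    have h2 := congrArg (Submodule.map (Submodule.subtype W)) h1
    rw [Submodule.map_span, Submodule.map_top, Submodule.range_subtype, ← Set.range_comp] at h2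
    exact h2
  have hspan : Submodule.span Qb (Set.range fun i => ((B i : W) : laurentBaseChange Qb F₀))
      = V := by
    apply le_antisymm
    · rw [Submodule.span_le]
      rintro _ ⟨i, rfl⟩
      exact hBV i
    · rw [← span_fixed_eq F₀ V hV, Submodule.span_le]
      intro f hf
      have hfW : f ∈ W := hf
      rw [← hspanQ] at hfW
      exact Submodule.span_le_restrictScalars ℚ Qb _ hfW
  -- the index type has the right cardinality
  have hfin : Finite (Module.Free.ChooseBasisIndex ℚ W) := by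
    have hliV : LinearIndependent Qb fun i => (⟨_, hBV i⟩ : V) := by
      refine LinearIndependent.of_comp (Submodule.subtype V) ?_
      exact hli
    exact hliV.finite
  let := Fintype.ofFinite (Module.Free.ChooseBasisIndex ℚ W)
  have hcard : Fintype.card (Module.Free.ChooseBasisIndex ℚ W) = Module.finrank Qb V := by
    have hliV : LinearIndependent Qb fun i => (⟨_, hBV i⟩ : V) := by
      refine LinearIndependent.of_comp (Submodule.subtype V) ?_
      exact hli
    have hspanV : Submodule.span Qb (Set.range fun i => (⟨_, hBV i⟩ : V)) = ⊤ := by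
      apply Submodule.map_injective_of_injective (Submodule.injective_subtype V)
      rw [Submodule.map_span, Submodule.map_top, Submodule.range_subtype, ← Set.range_comp]
      exact hspan
    have bV : Module.Basis (Module.Free.ChooseBasisIndex ℚ W) Qb V :=
      Module.Basis.mk hliV (le_of_eq hspanV.symm)
    rw [Module.finrank_eq_card_basis bV]
  let e : Fin (Module.finrank Qb V) ≃ Module.Free.ChooseBasisIndex ℚ W :=
    (Fintype.equivFinOfCardEq hcard).symm
  refine ⟨fun i => ((B (e i) : W) : laurentBaseChange Qb F₀), fun i => hBV _, fun i => hBfix _,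
    hli.comp _ e.injective, ?_, ?_⟩
  · exact (congrArg (Submodule.span Qb)
      (e.surjective.range_comp fun i => ((B i : W) : laurentBaseChange Qb F₀))).trans hspan
  · exact (congrArg (Submodule.span ℚ)
      (e.surjective.range_comp fun i => ((B i : W) : laurentBaseChange Qb F₀))).trans hspanQ

/-! ### Riemann–Roch spaces of invariant divisors -/

section RR

variable [FF1 Qb (laurentBaseChange Qb F₀)]

/-- A Galois-invariant divisor. -/
def IsInvariant (D : Divisor Qb (laurentBaseChange Qb F₀)) : Prop :=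
  ∀ σ : GQ, arithmeticGalois F₀ σ • D = D

theorem smul_mem_L_of_isInvariant {D : Divisor Qb (laurentBaseChange Qb F₀)}
    (hD : IsInvariant F₀ D) (σ : GQ) {f : laurentBaseChange Qb F₀}
    (hf : f ∈ riemannRochSpace D) : arithmeticGalois F₀ σ • f ∈ riemannRochSpace D := by
  have := smul_mem_L (arithmeticGalois F₀ σ) hf
  rwa [hD σ] at this

/-- **BASE-2**: for a Galois-invariant divisor `D`, the space `L(D)` has a basis of Galois-fixed
functions, which is also a `ℚ`-basis of the fixed part of `L(D)`. -/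
theorem exists_fixed_basis_L {D : Divisor Qb (laurentBaseChange Qb F₀)}
    (hD : IsInvariant F₀ D) :
    ∃ b : Fin (ell D) → laurentBaseChange Qb F₀,
      (∀ i, b i ∈ riemannRochSpace D) ∧ (∀ i, IsFixed F₀ (b i)) ∧ LinearIndependent Qb b ∧
      Submodule.span Qb (Set.range b) = riemannRochSpace D ∧
      Submodule.span ℚ (Set.range b) = fixedPart F₀ (riemannRochSpace D) :=
  exists_fixed_basis F₀ (riemannRochSpace D) fun σ _ hf => smul_mem_L_of_isInvariant F₀ hD σ hf

/-- The `ℚ`-dimension of the space of Galois-fixed functions in `L(D)` is `ℓ(D)`. -/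
theorem finrank_fixedPart_L {D : Divisor Qb (laurentBaseChange Qb F₀)}
    (hD : IsInvariant F₀ D) :
    Module.finrank ℚ (fixedPart F₀ (riemannRochSpace D)) = ell D := by
  classical
  obtain ⟨b, hbL, hbfix, hli, hspan, hspanQ⟩ := exists_fixed_basis_L F₀ hD
  have hliQ : LinearIndependent ℚ b := hli.restrict_scalars' ℚ
  rw [← hspanQ, finrank_span_eq_card hliQ, Fintype.card_fin]

/-- If `ℓ(D) ≥ 2` for an invariant divisor, `L(D)` contains a Galois-fixed non-constant
function. -/
theorem exists_fixed_nonconstant {D : Divisor Qb (laurentBaseChange Qb F₀)}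
    (hD : IsInvariant F₀ D) (h2 : 2 ≤ ell D) :
    ∃ t : laurentBaseChange Qb F₀, t ∈ riemannRochSpace D ∧ IsFixed F₀ t ∧
      t ∉ Set.range (algebraMap Qb (laurentBaseChange Qb F₀)) := by
  classical
  obtain ⟨b, hbL, hbfix, hli, -, -⟩ := exists_fixed_basis_L F₀ hD
  by_contra hcon
  have hconst : ∀ i, ∃ c : Qb, algebraMap Qb (laurentBaseChange Qb F₀) c = b i := by
    intro i
    by_contra hi
    exact hcon ⟨b i, hbL i, hbfix i, hi⟩
  choose c hc using hconst
  -- two constants are linearly dependent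
  have h01 : (⟨0, by omega⟩ : Fin (ell D)) ≠ ⟨1, by omega⟩ := by
    intro h
    have := congrArg Fin.val h
    simp at this
  have hrel : c ⟨1, by omega⟩ • b ⟨0, by omega⟩ - c ⟨0, by omega⟩ • b ⟨1, by omega⟩ = 0 := by
    rw [← hc ⟨0, by omega⟩, ← hc ⟨1, by omega⟩, Algebra.smul_def, Algebra.smul_def,
      mul_comm, sub_self]
  have hb0 : b ⟨0, by omega⟩ ≠ 0 := hli.ne_zero _
  have hc0 : c ⟨0, by omega⟩ ≠ 0 := by
    intro h
    apply hb0
    rw [← hc ⟨0, by omega⟩, h, map_zero]
  set i0 : Fin (ell D) := ⟨0, by omega⟩ with hi0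
  set i1 : Fin (ell D) := ⟨1, by omega⟩ with hi1
  have hsum : ∑ i, (Pi.single i0 (c i1) - Pi.single i1 (c i0) : Fin (ell D) → Qb) i • b i
      = 0 := by
    simp only [Pi.sub_apply, sub_smul, Finset.sum_sub_distrib]
    rw [Finset.sum_eq_single i0 (fun j _ hj => by rw [Pi.single_eq_of_ne hj, zero_smul])
        (fun h => absurd (Finset.mem_univ _) h),
      Finset.sum_eq_single i1 (fun j _ hj => by rw [Pi.single_eq_of_ne hj, zero_smul])
        (fun h => absurd (Finset.mem_univ _) h),
      Pi.single_eq_same, Pi.single_eq_same]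
    exact hrel
  have h := (Fintype.linearIndependent_iff.mp hli) _ hsum i1
  rw [Pi.sub_apply, Pi.single_eq_of_ne (Ne.symm h01), Pi.single_eq_same, zero_sub,
    neg_eq_zero] at h
  exact hc0 h

end RR

end Fermat.Agent.S17.H680

end
end
-- ===== PACK-END S17/H680/DescentRR.lean

-- ===== PACK-BEGIN S17/H440/GradedEv.lean
section



/-!
# S17 / tower H (helper440): graded evaluation at a place

`F / K` with `FF1 K F`, `∞ = vinf` a place.  For every place `P` and every degree `d` we define the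
`K`-linear **graded evaluation**

  `gev vinf P d : F → K`,   `f ↦ (f · w_P ^ d)(P)`,

where `w_P` is a local equation of `∞` at `P` (`w_P = 1` for `P ≠ ∞`, a fixed uniformiser at `∞`
for `P = ∞`).  On `L(d ∞)` it is the honest value `f(P)` for `P ≠ ∞` and the leading coefficient
for `P = ∞`.  It is

* `K`-linear on `L(d ∞)` (`gev_add`, `gev_smul`, `gev_sum`),
* multiplicative: `gev (d + e) (f g) = gev d f * gev e g` for `f ∈ L(d ∞)`, `g ∈ L(e ∞)`
  (`gev_mul`), `gev 0 1 = 1`, `gev_pow`, `gev_prod`,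
* its kernel on `L(d ∞)` is `L(d ∞ - P)` (`gev_eq_zero_iff`),
* compatible with polynomials: for `x i ∈ L(m ∞)` and `p` homogeneous of degree `k`,
  `eval (fun i => gev P m (x i)) p = gev P (k * m) (aeval x p)` (`eval_gev`).
-/

set_option autoImplicit false

noncomputable section

open AlgebraicCurve MvPolynomial

namespace Fermat.Agent.S17.H440

open Fermat.Agent.Lib.RR Fermat.Agent.S37.H100

variable {K F : Type*} [Field K] [Field F] [Algebra K F]

section LocEq

open Classical in
/-- A local equation of `∞ = vinf` at `P`: a fixed uniformiser at `∞` if `P = ∞`, and `1`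
otherwise. -/
def locEq (vinf P : Place K F) : F :=
  if P = vinf then Classical.choose (exists_ord_eq_one vinf) else 1

theorem ord_locEq (vinf P : Place K F) : P.ord (locEq vinf P) = prim vinf P := by
  classical
  unfold locEq prim
  by_cases h : P = vinf
  · subst h
    rw [if_pos rfl, Finsupp.single_eq_same]
    exact Classical.choose_spec (exists_ord_eq_one P)
  · rw [if_neg h, Finsupp.single_apply, if_neg (Ne.symm h), P.ord_one]

theorem locEq_ne_zero (vinf P : Place K F) : locEq vinf P ≠ 0 := by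
  classical
  unfold locEq
  by_cases h : P = vinf
  · rw [if_pos h]
    intro h0
    have := Classical.choose_spec (exists_ord_eq_one vinf)
    rw [h0, Place.ord_zero] at this
    exact zero_ne_one this
  · rw [if_neg h]; exact one_ne_zero

theorem ord_locEq_pow (vinf P : Place K F) (d : ℕ) :
    P.ord (locEq vinf P ^ d) = d * prim vinf P := by
  rw [ord_pow, ord_locEq]

theorem locEq_mem (vinf P : Place K F) : locEq vinf P ∈ P.toValuationSubring := by
  apply mem_of_ord_nonneg
  rw [ord_locEq]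
  unfold prim
  classical
  rw [Finsupp.single_apply]
  split_ifs <;> simp

/-- `f ∈ L(d ∞)` is regular at `P` after multiplication by `w_P ^ d`. -/
theorem mul_locEq_pow_mem (vinf P : Place K F) {d : ℕ} {f : F}
    (hf : f ∈ riemannRochSpace (d • prim vinf)) :
    f * locEq vinf P ^ d ∈ P.toValuationSubring := by
  by_cases h0 : f = 0
  · rw [h0, zero_mul]; exact P.toValuationSubring.zero_mem
  apply mem_of_ord_nonneg
  rw [P.ord_mul h0 (pow_ne_zero _ (locEq_ne_zero vinf P)), ord_locEq_pow]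
  rcases (mem_riemannRochSpace_iff.mp hf) P with h | h
  · exact absurd h h0
  · simp only [Finsupp.smul_apply, nsmul_eq_mul] at h
    linarith

variable (vinf : Place K F)

/-- products of elements of `L(d ∞)`, `L(e ∞)` lie in `L((d+e) ∞)` -/
theorem mul_mem_L {d e : ℕ} {f g : F} (hf : f ∈ riemannRochSpace (d • prim vinf))
    (hg : g ∈ riemannRochSpace (e • prim vinf)) :
    f * g ∈ riemannRochSpace ((d + e) • prim vinf) := by
  rw [mem_riemannRochSpace_iff]
  intro v
  by_cases hf0 : f = 0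
  · left; rw [hf0, zero_mul]
  by_cases hg0 : g = 0
  · left; rw [hg0, mul_zero]
  right
  rw [v.ord_mul hf0 hg0]
  rcases (mem_riemannRochSpace_iff.mp hf) v with h | h
  · exact absurd h hf0
  rcases (mem_riemannRochSpace_iff.mp hg) v with h' | h'
  · exact absurd h' hg0
  simp only [Finsupp.smul_apply, nsmul_eq_mul, Nat.cast_add] at h h' ⊢
  linarith

theorem one_mem_L : (1 : F) ∈ riemannRochSpace ((0 : ℕ) • prim vinf) := by
  rw [mem_riemannRochSpace_iff]
  intro v
  right
  simp [Place.ord_one]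

theorem pow_mem_L {m : ℕ} {f : F} (hf : f ∈ riemannRochSpace (m • prim vinf)) (k : ℕ) :
    f ^ k ∈ riemannRochSpace ((k * m) • prim vinf) := by
  induction k with
  | zero => rw [pow_zero, Nat.zero_mul]; exact one_mem_L vinf
  | succ k ih =>
    rw [pow_succ, Nat.succ_mul]
    exact mul_mem_L vinf ih hf

end LocEq

section Gev

variable [FF1 K F]

open Classical in
/-- The graded evaluation `f ↦ (f · w_P ^ d)(P)` (junk value `0` if this is not regular). -/
def gev (vinf P : Place K F) (d : ℕ) (f : F) : K :=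
  if h : f * locEq vinf P ^ d ∈ P.toValuationSubring then
    evPlace P (FF1.deg_eq_one P) ⟨_, h⟩ else 0

variable (vinf P : Place K F)

theorem gev_of_mem {d : ℕ} {f : F} (h : f * locEq vinf P ^ d ∈ P.toValuationSubring) :
    gev vinf P d f = evPlace P (FF1.deg_eq_one P) ⟨_, h⟩ := by
  unfold gev
  rw [dif_pos h]

theorem gev_zero (d : ℕ) : gev vinf P d 0 = 0 := by
  have h : (0 : F) * locEq vinf P ^ d ∈ P.toValuationSubring := by
    rw [zero_mul]; exact P.toValuationSubring.zero_mem
  rw [gev_of_mem vinf P h]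
  have : (⟨_, h⟩ : P.toValuationSubring) = 0 := Subtype.ext (zero_mul _)
  rw [this, map_zero]

theorem gev_add {d : ℕ} {f g : F} (hf : f ∈ riemannRochSpace (d • prim vinf))
    (hg : g ∈ riemannRochSpace (d • prim vinf)) :
    gev vinf P d (f + g) = gev vinf P d f + gev vinf P d g := by
  have h1 := mul_locEq_pow_mem vinf P hf
  have h2 := mul_locEq_pow_mem vinf P hg
  have h3 := mul_locEq_pow_mem vinf P (Submodule.add_mem _ hf hg)
  rw [gev_of_mem vinf P h1, gev_of_mem vinf P h2, gev_of_mem vinf P h3, ← map_add]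
  congr 1
  exact Subtype.ext (add_mul _ _ _)

theorem gev_smul {d : ℕ} (c : K) {f : F} (hf : f ∈ riemannRochSpace (d • prim vinf)) :
    gev vinf P d (c • f) = c * gev vinf P d f := by
  have h1 := mul_locEq_pow_mem vinf P hf
  have h3 := mul_locEq_pow_mem vinf P (Submodule.smul_mem _ c hf)
  rw [gev_of_mem vinf P h1, gev_of_mem vinf P h3]
  have : (⟨_, h3⟩ : P.toValuationSubring) =
      algebraMap K P.toValuationSubring c * ⟨_, h1⟩ := by
    apply Subtype.ext
    show c • f * locEq vinf P ^ d = algebraMap K F c * (f * locEq vinf P ^ d)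
    rw [Algebra.smul_def, mul_assoc]
  rw [this, map_mul, evPlace_algebraMap]

theorem gev_sum {d : ℕ} {ι : Type*} (s : Finset ι) (f : ι → F)
    (hf : ∀ i ∈ s, f i ∈ riemannRochSpace (d • prim vinf)) :
    gev vinf P d (∑ i ∈ s, f i) = ∑ i ∈ s, gev vinf P d (f i) := by
  classical
  induction s using Finset.induction_on with
  | empty => simp [gev_zero]
  | insert a s ha ih =>
    rw [Finset.sum_insert ha, Finset.sum_insert ha,
      gev_add vinf P (hf a (Finset.mem_insert_self a s))
        (Submodule.sum_mem _ fun i hi => hf i (Finset.mem_insert_of_mem hi)),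
      ih fun i hi => hf i (Finset.mem_insert_of_mem hi)]

theorem gev_mul {d e : ℕ} {f g : F} (hf : f ∈ riemannRochSpace (d • prim vinf))
    (hg : g ∈ riemannRochSpace (e • prim vinf)) :
    gev vinf P (d + e) (f * g) = gev vinf P d f * gev vinf P e g := by
  have h1 := mul_locEq_pow_mem vinf P hf
  have h2 := mul_locEq_pow_mem vinf P hg
  have h3 : f * g * locEq vinf P ^ (d + e) ∈ P.toValuationSubring := by
    have := P.toValuationSubring.mul_mem _ _ h1 h2
    have e' : f * g * locEq vinf P ^ (d + e) =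
        f * locEq vinf P ^ d * (g * locEq vinf P ^ e) := by rw [pow_add]; ring
    rw [e']; exact this
  rw [gev_of_mem vinf P h1, gev_of_mem vinf P h2, gev_of_mem vinf P h3, ← map_mul]
  congr 1
  apply Subtype.ext
  show f * g * locEq vinf P ^ (d + e) = f * locEq vinf P ^ d * (g * locEq vinf P ^ e)
  rw [pow_add]; ring

theorem gev_one : gev vinf P 0 1 = 1 := by
  have h : (1 : F) * locEq vinf P ^ 0 ∈ P.toValuationSubring := by
    rw [pow_zero, mul_one]; exact P.toValuationSubring.one_mem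
  rw [gev_of_mem vinf P h]
  have : (⟨_, h⟩ : P.toValuationSubring) = 1 := Subtype.ext (by simp)
  rw [this, map_one]

theorem gev_pow {m : ℕ} {f : F} (hf : f ∈ riemannRochSpace (m • prim vinf)) (k : ℕ) :
    gev vinf P (k * m) (f ^ k) = gev vinf P m f ^ k := by
  induction k with
  | zero => rw [pow_zero, pow_zero, Nat.zero_mul]; exact gev_one vinf P
  | succ k ih =>
    rw [pow_succ, pow_succ, Nat.succ_mul, gev_mul vinf P (pow_mem_L vinf hf k) hf, ih]

/-- The kernel of the graded evaluation on `L(d ∞)`: the functions with a zero at `P`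
(relative to `d ∞`). -/
theorem gev_eq_zero_iff {d : ℕ} {f : F} (hf : f ∈ riemannRochSpace (d • prim vinf))
    (hf0 : f ≠ 0) :
    gev vinf P d f = 0 ↔ -((d : ℤ) * prim vinf P) < P.ord f := by
  have h1 := mul_locEq_pow_mem vinf P hf
  rw [gev_of_mem vinf P h1, evPlace_eq_zero_iff_ord]
  have hne : f * locEq vinf P ^ d ≠ 0 := mul_ne_zero hf0 (pow_ne_zero _ (locEq_ne_zero vinf P))
  show (f * locEq vinf P ^ d = 0 ∨ 0 < P.ord (f * locEq vinf P ^ d)) ↔ _
  rw [P.ord_mul hf0 (pow_ne_zero _ (locEq_ne_zero vinf P)), ord_locEq_pow]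
  constructor
  · rintro (h | h)
    · exact absurd h hne
    · linarith
  · intro h; right; linarith

section Poly

variable {ι : Type*} {m : ℕ} {x : ι → F}

omit [FF1 K F] in
theorem monomial_mem_L (hx : ∀ i, x i ∈ riemannRochSpace (m • prim vinf)) (s : Finset ι)
    (e : ι → ℕ) :
    ∏ i ∈ s, x i ^ e i ∈ riemannRochSpace (((∑ i ∈ s, e i) * m) • prim vinf) := by
  classical
  induction s using Finset.induction_on with
  | empty =>
    rw [Finset.prod_empty, Finset.sum_empty, Nat.zero_mul]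
    exact one_mem_L vinf
  | insert a s ha ih =>
    rw [Finset.prod_insert ha, Finset.sum_insert ha, Nat.add_mul]
    exact mul_mem_L vinf (pow_mem_L vinf (hx a) (e a)) ih

theorem gev_monomial (hx : ∀ i, x i ∈ riemannRochSpace (m • prim vinf)) (s : Finset ι)
    (e : ι → ℕ) :
    gev vinf P ((∑ i ∈ s, e i) * m) (∏ i ∈ s, x i ^ e i) =
      ∏ i ∈ s, gev vinf P m (x i) ^ e i := by
  classical
  induction s using Finset.induction_on with
  | empty =>
    rw [Finset.prod_empty, Finset.prod_empty, Finset.sum_empty, Nat.zero_mul]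
    exact gev_one vinf P
  | insert a s ha ih =>
    rw [Finset.prod_insert ha, Finset.prod_insert ha, Finset.sum_insert ha, Nat.add_mul,
      gev_mul vinf P (pow_mem_L vinf (hx a) (e a)) (monomial_mem_L vinf hx s e),
      gev_pow vinf P (hx a), ih]

omit [FF1 K F] in
/-- A homogeneous polynomial of degree `k` in functions of `L(m ∞)` lies in `L(k m ∞)`. -/
theorem aeval_mem_L (hx : ∀ i, x i ∈ riemannRochSpace (m • prim vinf))
    {p : MvPolynomial ι K} {k : ℕ} (hp : p.IsHomogeneous k) :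
    aeval x p ∈ riemannRochSpace ((k * m) • prim vinf) := by
  classical
  rw [aeval_def, eval₂_eq]
  refine Submodule.sum_mem _ fun d hd => ?_
  have hdeg := hp (mem_support_iff.mp hd)
  have hsum : ∑ i ∈ d.support, d i = k := by
    rw [← hdeg, Finsupp.weight_apply, Finsupp.sum]
    simp
  have h1 := monomial_mem_L vinf hx d.support (fun i => d i)
  rw [hsum] at h1
  have h2 := Submodule.smul_mem _ (coeff d p) h1
  rwa [Algebra.smul_def] at h2

/-- **Polynomials commute with the graded evaluation.** -/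
theorem eval_gev (hx : ∀ i, x i ∈ riemannRochSpace (m • prim vinf))
    {p : MvPolynomial ι K} {k : ℕ} (hp : p.IsHomogeneous k) :
    eval (fun i => gev vinf P m (x i)) p = gev vinf P (k * m) (aeval x p) := by
  classical
  rw [aeval_def, eval₂_eq, eval_eq]
  have hsum : ∀ d ∈ p.support, ∑ i ∈ d.support, d i = k := by
    intro d hd
    have hdeg := hp (mem_support_iff.mp hd)
    rw [← hdeg, Finsupp.weight_apply, Finsupp.sum]
    simp
  have hmem : ∀ d ∈ p.support, ∏ i ∈ d.support, x i ^ d i ∈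
      riemannRochSpace ((k * m) • prim vinf) := by
    intro d hd
    have h1 := monomial_mem_L vinf hx d.support (fun i => d i)
    rwa [hsum d hd] at h1
  rw [gev_sum vinf P]
  · refine Finset.sum_congr rfl fun d hd => ?_
    have h1 := gev_monomial vinf P hx d.support (fun i => d i)
    rw [hsum d hd] at h1
    rw [← Algebra.smul_def, gev_smul vinf P _ (hmem d hd), h1]
  · intro d hd
    rw [← Algebra.smul_def]
    exact Submodule.smul_mem _ _ (hmem d hd)

end Poly

section Quot

/-- If `f / g` is regular at `P` then `gev f = (f / g)(P) * gev g`. -/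
theorem gev_eq_mul_of_div_mem {d : ℕ} {f g : F} (hg : g ∈ riemannRochSpace (d • prim vinf))
    (hg0 : g ≠ 0) (h : f / g ∈ P.toValuationSubring) :
    gev vinf P d f = evPlace P (FF1.deg_eq_one P) ⟨_, h⟩ * gev vinf P d g := by
  have h2 := mul_locEq_pow_mem vinf P hg
  have h1 : f * locEq vinf P ^ d ∈ P.toValuationSubring := by
    have := P.toValuationSubring.mul_mem _ _ h h2
    have e : f / g * (g * locEq vinf P ^ d) = f * locEq vinf P ^ d := by
      field_simp
    rwa [e] at this
  rw [gev_of_mem vinf P h1, gev_of_mem vinf P h2, ← map_mul]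
  congr 1
  apply Subtype.ext
  show f * locEq vinf P ^ d = f / g * (g * locEq vinf P ^ d)
  field_simp

/-- If `gev g ≠ 0` then `f / g` is regular at `P` for all `f ∈ L(d ∞)`. -/
theorem div_mem_of_gev_ne_zero {d : ℕ} {f g : F} (hf : f ∈ riemannRochSpace (d • prim vinf))
    (hg : g ∈ riemannRochSpace (d • prim vinf)) (hgev : gev vinf P d g ≠ 0) :
    f / g ∈ P.toValuationSubring := by
  have hg0 : g ≠ 0 := by
    rintro rfl
    exact hgev (gev_zero vinf P d)
  by_cases hf0 : f = 0
  · rw [hf0, zero_div]; exact P.toValuationSubring.zero_mem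
  have h1 : ¬ (-((d : ℤ) * prim vinf P) < P.ord g) := fun h =>
    hgev ((gev_eq_zero_iff vinf P hg hg0).mpr h)
  have h2 := (mem_riemannRochSpace_iff.mp hf P).resolve_left hf0
  rw [Finsupp.smul_apply, nsmul_eq_mul] at h2
  apply mem_of_ord_nonneg
  rw [div_eq_mul_inv, P.ord_mul hf0 (inv_ne_zero hg0), P.ord_inv]
  omega

/-- The value of `f / g` at `P` is `gev f / gev g`. -/
theorem evPlace_div {d : ℕ} {f g : F} (hf : f ∈ riemannRochSpace (d • prim vinf))
    (hg : g ∈ riemannRochSpace (d • prim vinf)) (hgev : gev vinf P d g ≠ 0) :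
    evPlace P (FF1.deg_eq_one P) ⟨_, div_mem_of_gev_ne_zero vinf P hf hg hgev⟩ =
      gev vinf P d f / gev vinf P d g := by
  have hg0 : g ≠ 0 := by
    rintro rfl
    exact hgev (gev_zero vinf P d)
  rw [eq_div_iff hgev]
  exact (gev_eq_mul_of_div_mem vinf P hg hg0 _).symm

/-- `f / g ≡ gev f / gev g` modulo the maximal ideal at `P`. -/
theorem div_sub_mem_nonunits {d : ℕ} {f g : F} (hf : f ∈ riemannRochSpace (d • prim vinf))
    (hg : g ∈ riemannRochSpace (d • prim vinf)) (hgev : gev vinf P d g ≠ 0) :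
    f / g - algebraMap K F (gev vinf P d f / gev vinf P d g) ∈
      P.toValuationSubring.nonunits := by
  have h := sub_algebraMap_evPlace_mem P (FF1.deg_eq_one P)
    ⟨_, div_mem_of_gev_ne_zero vinf P hf hg hgev⟩
  rw [evPlace_div vinf P hf hg hgev] at h
  exact ValuationSubring.coe_mem_nonunits_iff.mpr h

end Quot

end Gev

end Fermat.Agent.S17.H440

end
end
-- ===== PACK-END S17/H440/GradedEv.lean

-- ===== PACK-BEGIN S17/H440/Cone.lean
section







/-!
# S17 / tower H, wall leaf G1 (helper440): points of the cone are places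

`F / K` a function field of one variable (`FF1 K F`), `x : ι → F` a finite family of functions.
The *cone* of `x` is the set of `y : ι → K` killed by every homogeneous polynomial relation of
the `x i` (`OnCone x y`).

* `exists_place_of_onCone` (**G1**): if `y ≠ 0` is on the cone and `y j ≠ 0` then `x j ≠ 0` and there
  is a place `P` at which all `x i / x j` are regular with value `y i / y j`:
  `x i / x j - y i / y j ∈ 𝔪_P` for all `i`.  (Dehomogenise, Chevalley, discreteness of the
  valuation rings of a function field.)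
* `exists_valuationSubring_of_onCone`: the same without `FF1` (valuation subring instead of place).
* `onCone_of_place` (converse): if all `x i / x j` are regular at `P` with values `c i` then `c` is
  on the cone; `exists_regular_index`: such a `j` exists for every place and every `x ≠ 0`.
-/

set_option autoImplicit false

noncomputable section

open AlgebraicCurve MvPolynomial

namespace Fermat.Agent.S17.H440

variable {K F : Type*} [Field K] [Field F] [Algebra K F] {ι : Type*}

/-- `y` is killed by all homogeneous polynomial relations (with coefficients in `K`) of the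
family `x`. -/
def OnCone (x : ι → F) (y : ι → K) : Prop :=
  ∀ (n : ℕ) (p : MvPolynomial ι K), p.IsHomogeneous n → aeval x p = 0 → eval y p = 0

/-- Evaluation of a homogeneous polynomial at a scaled point. -/
theorem aeval_mul_of_isHomogeneous {p : MvPolynomial ι K} {n : ℕ} (hp : p.IsHomogeneous n)
    {E : Type*} [CommRing E] [Algebra K E] (z : ι → E) (c : E) :
    aeval (fun i => c * z i) p = c ^ n * aeval z p := by
  classical
  rw [aeval_def, aeval_def, eval₂_eq, eval₂_eq, Finset.mul_sum]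
  refine Finset.sum_congr rfl fun d hd => ?_
  have hdeg := hp (mem_support_iff.mp hd)
  have hsum : ∑ i ∈ d.support, d i = n := by
    rw [← hdeg, Finsupp.weight_apply, Finsupp.sum]
    simp
  simp only [mul_pow, Finset.prod_mul_distrib]
  rw [Finset.prod_pow_eq_pow_sum, hsum]
  ring

/-- The homogenisation of `g` in degree `g.totalDegree` with respect to the variable `j`. -/
def homog (j : ι) (g : MvPolynomial ι K) : MvPolynomial ι K :=
  ∑ n ∈ Finset.range (g.totalDegree + 1), homogeneousComponent n g * X j ^ (g.totalDegree - n)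

theorem homog_isHomogeneous (j : ι) (g : MvPolynomial ι K) :
    (homog j g).IsHomogeneous g.totalDegree := by
  unfold homog
  refine IsHomogeneous.sum _ _ _ fun n hn => ?_
  have hn' : n ≤ g.totalDegree := Nat.lt_succ_iff.mp (Finset.mem_range.mp hn)
  have h := (homogeneousComponent_isHomogeneous n g).mul
    ((isHomogeneous_X K j).pow (g.totalDegree - n))
  have e : n + 1 * (g.totalDegree - n) = g.totalDegree := by omega
  rwa [e] at h

theorem aeval_homog {E : Type*} [Field E] [Algebra K E] (j : ι) (g : MvPolynomial ι K)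
    (z : ι → E) (hz : z j ≠ 0) :
    aeval z (homog j g) = z j ^ g.totalDegree * aeval (fun i => z i / z j) g := by
  have key : aeval (fun i => z i / z j) g =
      ∑ n ∈ Finset.range (g.totalDegree + 1),
        aeval (fun i => z i / z j) (homogeneousComponent n g) := by
    conv_lhs => rw [← sum_homogeneousComponent g]
    rw [map_sum]
  rw [key]
  unfold homog
  rw [map_sum, Finset.mul_sum]
  refine Finset.sum_congr rfl fun n hn => ?_
  have hn' : n ≤ g.totalDegree := Nat.lt_succ_iff.mp (Finset.mem_range.mp hn)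
  have hz' : (fun i => z j * (z i / z j)) = z := funext fun i => by field_simp
  have h1 : aeval z (homogeneousComponent n g) =
      z j ^ n * aeval (fun i => z i / z j) (homogeneousComponent n g) := by
    rw [← aeval_mul_of_isHomogeneous (homogeneousComponent_isHomogeneous n g), hz']
  rw [map_mul, map_pow, aeval_X, h1]
  have e : z j ^ g.totalDegree = z j ^ n * z j ^ (g.totalDegree - n) := by
    rw [← pow_add]; congr 1; omega
  rw [e]
  ring

section Cone

variable {x : ι → F} {y : ι → K}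

theorem OnCone.ne_zero (hy : OnCone x y) {j : ι} (hj : y j ≠ 0) : x j ≠ 0 := by
  intro h
  apply hj
  have := hy 1 (X j) (isHomogeneous_X K j) (by simpa using h)
  simpa using this

/-- Dehomogenisation: an affine relation of the `x i / x j` kills `y i / y j`. -/
theorem OnCone.eval_div_eq_zero (hy : OnCone x y) {j : ι} (hj : y j ≠ 0)
    (g : MvPolynomial ι K) (hg : aeval (fun i => x i / x j) g = 0) :
    eval (fun i => y i / y j) g = 0 := by
  have hxj := hy.ne_zero hj
  have h1 : aeval x (homog j g) = 0 := by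
    rw [aeval_homog j g x hxj, hg, mul_zero]
  have h2 := hy _ _ (homog_isHomogeneous j g) h1
  have h3 : aeval y (homog j g) = y j ^ g.totalDegree * aeval (fun i => y i / y j) g :=
    aeval_homog (E := K) j g y hj
  rw [← aeval_eq_eval] at h2
  have h4 : (aeval y) (homog j g) = 0 := h2
  rw [h3] at h4
  rcases mul_eq_zero.mp h4 with h | h
  · exact absurd h (pow_ne_zero _ hj)
  · rw [← aeval_eq_eval]; exact h

/-- **G1, valuation-ring form.**  A point of the cone with `y j ≠ 0` is the centre of a valuation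
subring of `F` containing `K`. -/
theorem exists_valuationSubring_of_onCone (hy : OnCone x y) {j : ι} (hj : y j ≠ 0) :
    ∃ B : ValuationSubring F, (∀ a : K, algebraMap K F a ∈ B) ∧
      ∀ i, x i / x j - algebraMap K F (y i / y j) ∈ B.nonunits := by
  classical
  set ψ : MvPolynomial ι K →+* F :=
    (aeval (fun i => x i / x j) : MvPolynomial ι K →ₐ[K] F).toRingHom with hψ
  set ev : MvPolynomial ι K →+* K := eval (fun i => y i / y j) with hev
  have hker : RingHom.ker ψ ≤ RingHom.ker ev := fun g hg =>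
    hy.eval_div_eq_zero hj g hg
  set ψ' : MvPolynomial ι K →+* ψ.range := ψ.rangeRestrict with hψ'
  have hsurj : Function.Surjective ψ' := ψ.rangeRestrict_surjective
  set I : Ideal ψ.range := Ideal.map ψ' (RingHom.ker ev) with hI
  have hItop : I ≠ ⊤ := by
    intro h
    have h1 : Ideal.comap ψ' I = ⊤ := by rw [h]; exact Ideal.comap_top
    rw [hI, Ideal.comap_map_of_surjective ψ' hsurj] at h1
    have hle : Ideal.comap ψ' ⊥ ≤ RingHom.ker ev := by
      intro g hg
      apply hker
      rw [Ideal.mem_comap, Ideal.mem_bot] at hg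
      rw [RingHom.mem_ker]
      have := congrArg Subtype.val hg
      simpa [hψ'] using this
    rw [sup_eq_left.mpr hle] at h1
    have h2 : (1 : MvPolynomial ι K) ∈ RingHom.ker ev := by rw [h1]; trivial
    rw [RingHom.mem_ker, map_one] at h2
    exact one_ne_zero h2
  obtain ⟨B, hAB, hIB⟩ := Ideal.image_subset_nonunits_valuationSubring I hItop
  refine ⟨B, fun a => hAB ⟨C a, by simp [hψ]⟩, fun i => ?_⟩
  apply hIB
  refine ⟨ψ' (X i - C (y i / y j)), Ideal.mem_map_of_mem _ ?_, ?_⟩
  · rw [RingHom.mem_ker, hev]; simp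
  · simp [hψ', hψ]

end Cone

section Place

open Fermat.Agent.Lib.RR

variable {x : ι → F} {y : ι → K}

theorem eq_zero_of_mem_nonunits_top {e : F} (h : e ∈ (⊤ : ValuationSubring F).nonunits) : e = 0 := by
  by_contra hne
  have h1 : (⊤ : ValuationSubring F).valuation e < 1 :=
    (ValuationSubring.mem_nonunits_iff (⊤ : ValuationSubring F)).mp h
  have hinv : e⁻¹ ∈ (⊤ : ValuationSubring F) := ValuationSubring.mem_top _
  have h2 : (⊤ : ValuationSubring F).valuation e⁻¹ ≤ 1 :=
    ((⊤ : ValuationSubring F).valuation_le_one_iff _).mpr hinv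
  rw [map_inv₀] at h2
  have hv0 : (⊤ : ValuationSubring F).valuation e ≠ 0 := (Valuation.ne_zero_iff _).mpr hne
  have h3 : 1 ≤ (⊤ : ValuationSubring F).valuation e := (inv_le_one₀ (zero_lt_iff.mpr hv0)).mp h2
  exact absurd h1 (not_lt.mpr h3)

theorem finiteDimensional_of_ff1 [FF1 K F] :
    ∀ t : F, Transcendental K t → FiniteDimensional (IntermediateField.adjoin K {t}) F := by
  obtain ⟨u, hu, hfin⟩ := FF1.exists_finite (K := K) (F := F)
  intro t ht
  exact Fermat.Agent.S24.FF.finiteDimensional_adjoin_of_transcendental hu ht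

/-- **G1: points of the cone are places.**  If `y` is killed by all homogeneous relations of the
`x i` and `y j ≠ 0`, then there is a place `P` of `F / K` with
`x i / x j ≡ y i / y j  mod 𝔪_P` for all `i` (in particular all `x i / x j` are regular at `P`). -/
theorem exists_place_of_onCone [FF1 K F] (hy : OnCone x y) {j : ι} (hj : y j ≠ 0) :
    ∃ P : Place K F,
      ∀ i, x i / x j - algebraMap K F (y i / y j) ∈ P.toValuationSubring.nonunits := by
  obtain ⟨B, hK, hB⟩ := exists_valuationSubring_of_onCone hy hj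
  by_cases hB' : B = ⊤
  · obtain ⟨P⟩ := FF1.nonempty_place (K := K) (F := F)
    refine ⟨P, fun i => ?_⟩
    have h0 : x i / x j - algebraMap K F (y i / y j) = 0 :=
      eq_zero_of_mem_nonunits_top (hB' ▸ hB i)
    rw [h0]
    exact (ValuationSubring.mem_nonunits_iff _).mpr (by simp)
  · exact ⟨⟨B, hK, hB', H383.isPrincipalIdealRing_of_finite B hK finiteDimensional_of_ff1⟩, hB⟩

/-- `G1` in terms of orders. -/
theorem exists_place_of_onCone_ord [FF1 K F] (hy : OnCone x y) {j : ι} (hj : y j ≠ 0) :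
    ∃ P : Place K F, ∀ i, 0 ≤ P.ord (x i / x j) ∧
      (x i / x j - algebraMap K F (y i / y j) = 0 ∨
        0 < P.ord (x i / x j - algebraMap K F (y i / y j))) := by
  obtain ⟨P, hP⟩ := exists_place_of_onCone hy hj
  refine ⟨P, fun i => ?_⟩
  have hmem : x i / x j - algebraMap K F (y i / y j) ∈ P.toValuationSubring :=
    ValuationSubring.nonunits_le (hP i)
  have hmem' : x i / x j ∈ P.toValuationSubring := by
    have := P.toValuationSubring.add_mem _ _ hmem (P.algebraMap_mem' (y i / y j))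
    simpa using this
  refine ⟨ord_nonneg_of_mem P hmem', ?_⟩
  have h1 : (⟨_, hmem⟩ : P.toValuationSubring) ∈
      IsLocalRing.maximalIdeal P.toValuationSubring :=
    ValuationSubring.coe_mem_nonunits_iff.mp (hP i)
  exact (mem_maximalIdeal_iff P _).mp h1

/-- For every place and every nonzero family there is an index `j` with `x j ≠ 0` such that all
`x i / x j` are regular at the place (`j` = an index of minimal order). -/
theorem exists_regular_index [Finite ι] (P : Place K F) (hx : x ≠ 0) :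
    ∃ j, x j ≠ 0 ∧ ∀ i, x i / x j ∈ P.toValuationSubring := by
  classical
  have hne : ∃ i, x i ≠ 0 := by
    by_contra h
    exact hx (funext fun i => by
      by_contra hi
      exact h ⟨i, hi⟩)
  have hfin : {i | x i ≠ 0}.Finite := Set.toFinite _
  obtain ⟨j, hj, hmin⟩ := Set.exists_min_image {i | x i ≠ 0} (fun i => P.ord (x i)) hfin hne
  refine ⟨j, hj, fun i => ?_⟩
  by_cases hi : x i = 0
  · rw [hi, zero_div]; exact P.toValuationSubring.zero_mem
  · apply mem_of_ord_nonneg
    rw [div_eq_mul_inv, P.ord_mul hi (inv_ne_zero hj), P.ord_inv]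
    have := hmin i hi
    omega

/-- **Converse of G1**: the values at a place form a point of the cone. -/
theorem onCone_of_place (P : Place K F) {j : ι} {c : ι → K}
    (h : ∀ i, x i / x j - algebraMap K F (c i) ∈ P.toValuationSubring.nonunits) :
    OnCone x c := by
  intro n p hp hpx
  have hmem : ∀ i, x i / x j ∈ P.toValuationSubring := fun i => by
    have := P.toValuationSubring.add_mem _ _ (ValuationSubring.nonunits_le (h i))
      (P.algebraMap_mem' (c i))
    simpa using this
  -- the point with coordinates in the valuation ring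
  set w : ι → P.toValuationSubring := fun i => ⟨x i / x j, hmem i⟩ with hw
  have h1 : aeval (fun i => x i / x j) p = 0 := by
    have hz : (fun i => x i / x j) = fun i => (x j)⁻¹ * x i := funext fun i => by
      rw [div_eq_mul_inv, mul_comm]
    rw [hz, aeval_mul_of_isHomogeneous hp, hpx, mul_zero]
  have h2 : aeval w p = 0 := by
    apply Subtype.ext
    have : ((aeval w p : P.toValuationSubring) : F) = aeval (fun i => x i / x j) p :=
      (MvPolynomial.aeval_algebraMap_apply (A := P.toValuationSubring) (B := F) w p).symm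
    rw [this, h1]
    rfl
  have h3 : ∀ i, IsLocalRing.residue P.toValuationSubring (w i) =
      algebraMap K P.ResidueField (c i) := by
    intro i
    have hmem' : w i - algebraMap K P.toValuationSubring (c i) ∈
        IsLocalRing.maximalIdeal P.toValuationSubring := by
      apply ValuationSubring.coe_mem_nonunits_iff.mp
      exact h i
    rw [← IsLocalRing.residue_eq_zero_iff, map_sub, sub_eq_zero] at hmem'
    rw [hmem']
    rfl
  have h4 : aeval (fun i => algebraMap K P.ResidueField (c i)) p = 0 := by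
    have := congrArg (IsLocalRing.residue P.toValuationSubring) h2
    rw [map_zero] at this
    rw [← this]
    have hcomp := MvPolynomial.aeval_algebraMap_apply (A := P.toValuationSubring)
      (B := P.ResidueField) w p
    rw [← funext h3]
    exact hcomp
  have h5 : aeval (fun i => algebraMap K P.ResidueField (c i)) p =
      algebraMap K P.ResidueField (eval c p) := by
    rw [← aeval_eq_eval]
    exact (MvPolynomial.aeval_algebraMap_apply (A := K) (B := P.ResidueField) c p)
  rw [h5] at h4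
  exact (map_eq_zero (algebraMap K P.ResidueField)).mp h4

end Place

end Fermat.Agent.S17.H440

end
end
-- ===== PACK-END S17/H440/Cone.lean

-- ===== PACK-BEGIN S17/H230/PlaceEval.lean
section


/-!
# S17 / tower H (helper230): values of functions at places, projective points of tuples

For a function field `F / K` with `FF1 K F` (all places of degree one):

* `valAt v f : K` — the value of `f` at the place `v` (junk value `0` if `f` has a pole);
  additive and multiplicative on functions regular at `v`, `valAt v f = 0 ↔ f = 0 ∨ 0 < ord_v f`.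
* `unif v` — a chosen uniformizer at `v`.
* `ptAt v e x : ι → K` — for a tuple `x : ι → F` all of whose entries have order `≥ e` at `v`,
  the vector of values of `x i * unif v ^ (-e)`: a representative of the projective point
  `(x_i)(v)`.  `dot_ptAt`: `∑ a_i (ptAt v e x)_i` is the value of `(∑ a_i x_i) * unif v ^ (-e)`,
  hence vanishes iff `∑ a_i x_i` is zero or has order `> e`; `ptAt_mul`: the point of the product
  tuple `(x_i y_j)` is the tensor product of the points.
-/

set_option autoImplicit false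
set_option linter.unusedSectionVars false

noncomputable section

open AlgebraicCurve

namespace Fermat.Agent.S17.H230

open Fermat.Agent.Lib.RR

variable {K F : Type*} [Field K] [Field F] [Algebra K F] [FF1 K F]

/-! ### The value of a function at a place -/

theorem algebraMap_residue_bijective (v : Place K F) :
    Function.Bijective (algebraMap K v.ResidueField) := by
  refine ⟨(algebraMap K v.ResidueField).injective, fun r ↦ ?_⟩
  have h1 : (1 : v.ResidueField) ≠ 0 := one_ne_zero
  have hspan := (finrank_eq_one_iff_of_nonzero' (1 : v.ResidueField) h1).mp (deg_eq_one v)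
  obtain ⟨c, hc⟩ := hspan r
  exact ⟨c, by rw [← hc, Algebra.smul_def, mul_one]⟩

/-- The residue field of a place is `K`. -/
def resEquiv (v : Place K F) : K ≃ₐ[K] v.ResidueField :=
  AlgEquiv.ofBijective (Algebra.ofId K v.ResidueField) (algebraMap_residue_bijective v)

/-- The value at `v`, on the valuation ring. -/
def valO (v : Place K F) : v.toValuationSubring →ₐ[K] K :=
  ((resEquiv v).symm : v.ResidueField →ₐ[K] K).comp
    (IsScalarTower.toAlgHom K v.toValuationSubring v.ResidueField)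

theorem valO_apply (v : Place K F) (a : v.toValuationSubring) :
    valO v a = (resEquiv v).symm (IsLocalRing.residue v.toValuationSubring a) := rfl

theorem valO_eq_zero_iff (v : Place K F) (a : v.toValuationSubring) :
    valO v a = 0 ↔ (a : F) = 0 ∨ 0 < v.ord (a : F) := by
  rw [← mem_maximalIdeal_iff, ← IsLocalRing.residue_eq_zero_iff, valO_apply]
  exact map_eq_zero_iff _ (resEquiv v).symm.injective

open Classical in
/-- The value of `f` at the place `v` (junk value `0` if `f` has a pole at `v`). -/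
def valAt (v : Place K F) (f : F) : K :=
  if h : f ∈ v.toValuationSubring then valO v ⟨f, h⟩ else 0

theorem valAt_of_mem (v : Place K F) {f : F} (h : f ∈ v.toValuationSubring) :
    valAt v f = valO v ⟨f, h⟩ := dif_pos h

/-- `f` is regular at `v`. -/
def RegAt (v : Place K F) (f : F) : Prop := f ∈ v.toValuationSubring

theorem regAt_iff (v : Place K F) (f : F) : RegAt v f ↔ 0 ≤ v.ord f := mem_iff_ord_nonneg v f

theorem regAt_zero (v : Place K F) : RegAt v (0 : F) := zero_mem _

theorem regAt_one (v : Place K F) : RegAt v (1 : F) := one_mem _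

theorem regAt_algebraMap (v : Place K F) (c : K) : RegAt v (algebraMap K F c) :=
  v.algebraMap_mem' c

theorem RegAt.add {v : Place K F} {f g : F} (hf : RegAt v f) (hg : RegAt v g) :
    RegAt v (f + g) := add_mem hf hg

theorem RegAt.mul {v : Place K F} {f g : F} (hf : RegAt v f) (hg : RegAt v g) :
    RegAt v (f * g) := mul_mem hf hg

theorem RegAt.smul {v : Place K F} {f : F} (c : K) (hf : RegAt v f) : RegAt v (c • f) := by
  rw [Algebra.smul_def]
  exact (regAt_algebraMap v c).mul hf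

theorem RegAt.sum {v : Place K F} {ι : Type*} (s : Finset ι) {f : ι → F}
    (hf : ∀ i ∈ s, RegAt v (f i)) : RegAt v (∑ i ∈ s, f i) := sum_mem hf

theorem RegAt.prod {v : Place K F} {ι : Type*} (s : Finset ι) {f : ι → F}
    (hf : ∀ i ∈ s, RegAt v (f i)) : RegAt v (∏ i ∈ s, f i) := prod_mem hf

@[simp] theorem valAt_zero (v : Place K F) : valAt v (0 : F) = 0 := by
  rw [valAt_of_mem v (regAt_zero v)]
  exact map_zero (valO v)

@[simp] theorem valAt_one (v : Place K F) : valAt v (1 : F) = 1 := by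
  rw [valAt_of_mem v (regAt_one v)]
  exact map_one (valO v)

@[simp] theorem valAt_algebraMap (v : Place K F) (c : K) : valAt v (algebraMap K F c) = c := by
  rw [valAt_of_mem v (regAt_algebraMap v c)]
  exact (valO v).commutes c

theorem valAt_add {v : Place K F} {f g : F} (hf : RegAt v f) (hg : RegAt v g) :
    valAt v (f + g) = valAt v f + valAt v g := by
  rw [valAt_of_mem v hf, valAt_of_mem v hg, valAt_of_mem v (hf.add hg), ← map_add]
  rfl

theorem valAt_mul {v : Place K F} {f g : F} (hf : RegAt v f) (hg : RegAt v g) :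
    valAt v (f * g) = valAt v f * valAt v g := by
  rw [valAt_of_mem v hf, valAt_of_mem v hg, valAt_of_mem v (hf.mul hg), ← map_mul]
  rfl

theorem valAt_smul {v : Place K F} (c : K) {f : F} (hf : RegAt v f) :
    valAt v (c • f) = c * valAt v f := by
  rw [Algebra.smul_def, valAt_mul (regAt_algebraMap v c) hf, valAt_algebraMap]

theorem valAt_sum {v : Place K F} {ι : Type*} (s : Finset ι) {f : ι → F}
    (hf : ∀ i ∈ s, RegAt v (f i)) : valAt v (∑ i ∈ s, f i) = ∑ i ∈ s, valAt v (f i) := by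
  classical
  induction s using Finset.induction_on with
  | empty => simp
  | insert a s ha ih =>
    have h1 : ∀ i ∈ s, RegAt v (f i) := fun i hi ↦ hf i (Finset.mem_insert_of_mem hi)
    rw [Finset.sum_insert ha, Finset.sum_insert ha,
      valAt_add (hf a (Finset.mem_insert_self a s)) (RegAt.sum s h1), ih h1]

theorem valAt_prod {v : Place K F} {ι : Type*} (s : Finset ι) {f : ι → F}
    (hf : ∀ i ∈ s, RegAt v (f i)) : valAt v (∏ i ∈ s, f i) = ∏ i ∈ s, valAt v (f i) := by
  classical
  induction s using Finset.induction_on with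
  | empty => simp
  | insert a s ha ih =>
    have h1 : ∀ i ∈ s, RegAt v (f i) := fun i hi ↦ hf i (Finset.mem_insert_of_mem hi)
    rw [Finset.prod_insert ha, Finset.prod_insert ha,
      valAt_mul (hf a (Finset.mem_insert_self a s)) (RegAt.prod s h1), ih h1]

theorem valAt_eq_zero_iff {v : Place K F} {f : F} (hf : RegAt v f) :
    valAt v f = 0 ↔ f = 0 ∨ 0 < v.ord f := by
  rw [valAt_of_mem v hf, valO_eq_zero_iff]

theorem valAt_ne_zero {v : Place K F} {f : F} (hf0 : f ≠ 0) (h : v.ord f = 0) :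
    valAt v f ≠ 0 := by
  have hf : RegAt v f := (regAt_iff v f).mpr h.ge
  rw [Ne, valAt_eq_zero_iff hf]
  rintro (h1 | h1)
  · exact hf0 h1
  · omega

/-! ### Uniformizers -/

/-- A chosen uniformizer at `v`. -/
def unif (v : Place K F) : F := Classical.choose (exists_ord_eq_one v)

theorem ord_unif (v : Place K F) : v.ord (unif v) = 1 := Classical.choose_spec (exists_ord_eq_one v)

theorem unif_ne_zero (v : Place K F) : unif v ≠ 0 :=
  ne_zero_of_ord_ne_zero v (by rw [ord_unif]; exact one_ne_zero)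

theorem ord_unif_zpow (v : Place K F) (n : ℤ) : v.ord (unif v ^ n) = n := by
  rw [v.ord_zpow, ord_unif, mul_one]

theorem ord_mul_unif_zpow (v : Place K F) {f : F} (hf : f ≠ 0) (n : ℤ) :
    v.ord (f * unif v ^ n) = v.ord f + n := by
  rw [v.ord_mul hf (zpow_ne_zero _ (unif_ne_zero v)), ord_unif_zpow]

/-! ### Projective points of tuples of functions -/

variable {ι ι' : Type*}

/-- All entries of `x` have order `≥ e` at `v` (or vanish). -/
def OrdGE (v : Place K F) (e : ℤ) (x : ι → F) : Prop := ∀ i, x i = 0 ∨ e ≤ v.ord (x i)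

theorem regAt_mul_unif {v : Place K F} {e : ℤ} {f : F} (hf : f = 0 ∨ e ≤ v.ord f) :
    RegAt v (f * unif v ^ (-e)) := by
  rcases eq_or_ne f 0 with rfl | hf0
  · simpa using regAt_zero v
  · rw [regAt_iff, ord_mul_unif_zpow v hf0]
    have := hf.resolve_left hf0
    omega

theorem regAt_normAt {v : Place K F} {e : ℤ} {x : ι → F} (hx : OrdGE v e x) (i : ι) :
    RegAt v (x i * unif v ^ (-e)) := regAt_mul_unif (hx i)

/-- A representative of the projective point `(x_i)(v)`: the values of `x i * unif v ^ (-e)`. -/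
def ptAt (v : Place K F) (e : ℤ) (x : ι → F) : ι → K := fun i ↦ valAt v (x i * unif v ^ (-e))

theorem ptAt_apply (v : Place K F) (e : ℤ) (x : ι → F) (i : ι) :
    ptAt v e x i = valAt v (x i * unif v ^ (-e)) := rfl

/-- The entry of `ptAt` at an index where the minimal order `e` is attained is nonzero. -/
theorem ptAt_ne_zero_at {v : Place K F} {e : ℤ} {x : ι → F} {i : ι} (hi0 : x i ≠ 0)
    (hi : v.ord (x i) = e) : ptAt v e x i ≠ 0 := by
  rw [ptAt_apply]
  refine valAt_ne_zero (mul_ne_zero hi0 (zpow_ne_zero _ (unif_ne_zero v))) ?_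
  rw [ord_mul_unif_zpow v hi0, hi]
  omega

theorem ptAt_ne_zero {v : Place K F} {e : ℤ} {x : ι → F}
    (h : ∃ i, x i ≠ 0 ∧ v.ord (x i) = e) : ptAt v e x ≠ 0 := by
  obtain ⟨i, hi0, hi⟩ := h
  intro h0
  exact ptAt_ne_zero_at hi0 hi (congrFun h0 i)

theorem ptAt_eq_zero_of_lt {v : Place K F} {e : ℤ} {x : ι → F} {i : ι}
    (hi : x i = 0 ∨ e < v.ord (x i)) : ptAt v e x i = 0 := by
  rcases eq_or_ne (x i) 0 with h0 | h0
  · simp [ptAt_apply, h0]
  · have hreg : RegAt v (x i * unif v ^ (-e)) :=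
      regAt_mul_unif (Or.inr (hi.resolve_left h0).le)
    rw [ptAt_apply, valAt_eq_zero_iff hreg]
    right
    rw [ord_mul_unif_zpow v h0]
    have := hi.resolve_left h0
    omega

/-- The order condition for linear combinations. -/
theorem ordGE_sum [Fintype ι] {v : Place K F} {e : ℤ} {x : ι → F} (hx : OrdGE v e x)
    (a : ι → K) : (∑ i, a i • x i) = 0 ∨ e ≤ v.ord (∑ i, a i • x i) := by
  by_cases h0 : (∑ i, a i • x i) = 0
  · exact Or.inl h0
  right
  have hreg : RegAt v ((∑ i, a i • x i) * unif v ^ (-e)) := by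
    rw [Finset.sum_mul]
    refine RegAt.sum _ fun i _ ↦ ?_
    rw [smul_mul_assoc]
    exact RegAt.smul _ (regAt_normAt hx i)
  rw [regAt_iff, ord_mul_unif_zpow v h0] at hreg
  omega

/-- **Evaluation of linear forms**: `⟨a, ptAt v e x⟩` is the value at `v` of
`(∑ a_i x_i) * unif v ^ (-e)`. -/
theorem dot_ptAt [Fintype ι] {v : Place K F} {e : ℤ} {x : ι → F} (hx : OrdGE v e x)
    (a : ι → K) :
    ∑ i, a i * ptAt v e x i = valAt v ((∑ i, a i • x i) * unif v ^ (-e)) := by
  rw [Finset.sum_mul, valAt_sum]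
  · refine Finset.sum_congr rfl fun i _ ↦ ?_
    rw [smul_mul_assoc, valAt_smul _ (regAt_normAt hx i), ptAt_apply]
  · intro i _
    rw [smul_mul_assoc]
    exact RegAt.smul _ (regAt_normAt hx i)

/-- A linear form vanishes at the point `ptAt v e x` iff the corresponding function
`∑ a_i x_i` vanishes to order `> e` at `v`. -/
theorem dot_ptAt_eq_zero_iff [Fintype ι] {v : Place K F} {e : ℤ} {x : ι → F}
    (hx : OrdGE v e x) (a : ι → K) :
    ∑ i, a i * ptAt v e x i = 0 ↔ (∑ i, a i • x i) = 0 ∨ e < v.ord (∑ i, a i • x i) := by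
  rw [dot_ptAt hx]
  rcases eq_or_ne (∑ i, a i • x i) 0 with h0 | h0
  · simp [h0]
  rw [valAt_eq_zero_iff (regAt_mul_unif (ordGE_sum hx a)), ord_mul_unif_zpow v h0]
  simp only [mul_eq_zero, h0, false_or, zpow_ne_zero _ (unif_ne_zero v), or_false]
  constructor <;> intro h <;> omega

/-- **Multiplicativity**: the point of the product tuple is the tensor product of the points. -/
theorem ptAt_mul {v : Place K F} {e e' : ℤ} {x : ι → F} {y : ι' → F} (hx : OrdGE v e x)
    (hy : OrdGE v e' y) (i : ι) (j : ι') :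
    ptAt v (e + e') (fun p : ι × ι' ↦ x p.1 * y p.2) (i, j) = ptAt v e x i * ptAt v e' y j := by
  simp only [ptAt_apply]
  rw [← valAt_mul (regAt_normAt hx i) (regAt_normAt hy j)]
  congr 1
  rw [neg_add, zpow_add₀ (unif_ne_zero v)]
  ring

theorem ordGE_mul {v : Place K F} {e e' : ℤ} {x : ι → F} {y : ι' → F} (hx : OrdGE v e x)
    (hy : OrdGE v e' y) : OrdGE v (e + e') (fun p : ι × ι' ↦ x p.1 * y p.2) := by
  intro p
  rcases eq_or_ne (x p.1) 0 with h1 | h1
  · left; simp [h1]
  rcases eq_or_ne (y p.2) 0 with h2 | h2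
  · left; simp [h2]
  right
  rw [v.ord_mul h1 h2]
  have := (hx p.1).resolve_left h1
  have := (hy p.2).resolve_left h2
  omega

/-- Multiplicativity of the value of a product of two functions of orders `≥ e`, `≥ e'`. -/
theorem valAt_mul_unif {v : Place K F} {e e' : ℤ} {f g : F} (hf : f = 0 ∨ e ≤ v.ord f)
    (hg : g = 0 ∨ e' ≤ v.ord g) :
    valAt v (f * g * unif v ^ (-(e + e'))) =
      valAt v (f * unif v ^ (-e)) * valAt v (g * unif v ^ (-e')) := by
  rw [← valAt_mul (regAt_mul_unif hf) (regAt_mul_unif hg)]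
  congr 1
  rw [neg_add, zpow_add₀ (unif_ne_zero v)]
  ring

end Fermat.Agent.S17.H230

end
end
-- ===== PACK-END S17/H230/PlaceEval.lean

-- ===== PACK-BEGIN S17/H230/PlacePoint.lean
section


/-!
# S17 / tower H (helper230): the point of a place under the map given by `L(D)`

For a divisor `D` and a tuple `x : ι → F` of elements of `L(D)`:

* `ptD D x v : ι → K := ptAt v (-D v) x` — a representative of the projective point `φ_x(v)`;
* `dot_ptD_eq_zero_iff` : `⟨a, ptD D x v⟩ = 0 ↔ ∑ a_i x_i ∈ L(D - v)` (**hyperplanes through the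
  point = sections vanishing at the place**; this is `pt_spec` of the wall interface);
* `ptD_ne_zero` : nonzero as soon as `v` is not a base point of the span of `x`;
* `ptD_mul` : `ptD (D + D') (x_i y_j) v = ptD D x v ⊗ ptD D' y v`;
* `ptD_structure` : if `x_i y_j = ∑_l c i j l • z_l` with `z ⊂ L(D + D')` then
  `(ptD D x v)_i (ptD D' y v)_j = ∑_l c i j l * (ptD (D + D') z v)_l`
  (the Segre product of the points in degrees `D`, `D'` is a FIXED linear image of the point in
  degree `D + D'`; conversely if the products span).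
-/

set_option autoImplicit false
set_option linter.unusedSectionVars false

noncomputable section

open AlgebraicCurve

namespace Fermat.Agent.S17.H230

open Fermat.Agent.Lib.RR

variable {K F : Type*} [Field K] [Field F] [Algebra K F] [FF1 K F] {ι ι' κ : Type*}

theorem ordGE_of_mem_L {D : Divisor K F} {x : ι → F} (hx : ∀ i, x i ∈ riemannRochSpace D)
    (v : Place K F) : OrdGE v (-D v) x := fun i ↦ (mem_L_iff.mp (hx i)) v

/-- The point of the place `v` under the map defined by the tuple `x ⊂ L(D)`. -/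
def ptD (D : Divisor K F) (x : ι → F) (v : Place K F) : ι → K := ptAt v (-D v) x

theorem ptD_apply (D : Divisor K F) (x : ι → F) (v : Place K F) (i : ι) :
    ptD D x v i = valAt v (x i * unif v ^ (D v)) := by
  rw [ptD, ptAt_apply, neg_neg]

/-- The value of a linear form at the point `ptD D x v`. -/
theorem dot_ptD [Fintype ι] {D : Divisor K F} {x : ι → F}
    (hx : ∀ i, x i ∈ riemannRochSpace D) (v : Place K F) (a : ι → K) :
    ∑ i, a i * ptD D x v i = valAt v ((∑ i, a i • x i) * unif v ^ (D v)) := by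
  rw [ptD, dot_ptAt (ordGE_of_mem_L hx v), neg_neg]

theorem mem_L_sub_prim_iff {D : Divisor K F} {f : F} (hf : f ∈ riemannRochSpace D)
    (v : Place K F) :
    f ∈ riemannRochSpace (D - prim v) ↔ f = 0 ∨ -D v < v.ord f := by
  classical
  rw [mem_L_iff]
  constructor
  · intro h
    rcases h v with h0 | h1
    · exact Or.inl h0
    · right
      have : (D - prim v) v = D v - 1 := by simp [prim]
      rw [this] at h1
      omega
  · rintro (h0 | h1) w
    · exact Or.inl h0
    · rcases eq_or_ne f 0 with h0 | h0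
      · exact Or.inl h0
      right
      by_cases hw : w = v
      · subst hw
        have : (D - prim w) w = D w - 1 := by simp [prim]
        rw [this]
        omega
      · have h2 := ((mem_L_iff.mp hf) w).resolve_left h0
        have : (D - prim v) w = D w := by
          simp [prim, Ne.symm hw]
        rw [this]
        exact h2

/-- **Hyperplanes through the point of `v` are the sections vanishing at `v`.** -/
theorem dot_ptD_eq_zero_iff [Fintype ι] {D : Divisor K F} {x : ι → F}
    (hx : ∀ i, x i ∈ riemannRochSpace D) (v : Place K F) (a : ι → K) :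
    ∑ i, a i * ptD D x v i = 0 ↔ (∑ i, a i • x i) ∈ riemannRochSpace (D - prim v) := by
  have hf : (∑ i, a i • x i) ∈ riemannRochSpace D :=
    Submodule.sum_mem _ fun i _ ↦ Submodule.smul_mem _ _ (hx i)
  rw [ptD, dot_ptAt_eq_zero_iff (ordGE_of_mem_L hx v), mem_L_sub_prim_iff hf]

/-- The point is nonzero if some entry has exact order `-D v`. -/
theorem ptD_ne_zero {D : Divisor K F} {x : ι → F} {v : Place K F}
    (h : ∃ i, x i ≠ 0 ∧ v.ord (x i) = -D v) : ptD D x v ≠ 0 := ptAt_ne_zero h

/-- If the span of `x` contains a function of exact order `-D v` (`v` is not a base point), then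
the point is nonzero. -/
theorem ptD_ne_zero_of_span [Fintype ι] {D : Divisor K F} {x : ι → F}
    (hx : ∀ i, x i ∈ riemannRochSpace D) {v : Place K F} {f : F}
    (hf : f ∈ Submodule.span K (Set.range x)) (hf0 : f ≠ 0) (hord : v.ord f = -D v) :
    ptD D x v ≠ 0 := by
  obtain ⟨a, rfl⟩ := (Submodule.mem_span_range_iff_exists_fun K).mp hf
  intro h0
  have h1 : ∑ i, a i * ptD D x v i = 0 := by simp [h0]
  rw [ptD, dot_ptAt_eq_zero_iff (ordGE_of_mem_L hx v)] at h1
  rcases h1 with h1 | h1
  · exact hf0 h1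
  · omega

/-- **Multiplicativity** of the points. -/
theorem ptD_mul {D D' : Divisor K F} {x : ι → F} {y : ι' → F}
    (hx : ∀ i, x i ∈ riemannRochSpace D) (hy : ∀ j, y j ∈ riemannRochSpace D')
    (v : Place K F) (i : ι) (j : ι') :
    ptD (D + D') (fun p : ι × ι' ↦ x p.1 * y p.2) v (i, j) = ptD D x v i * ptD D' y v j := by
  have := ptAt_mul (ordGE_of_mem_L hx v) (ordGE_of_mem_L hy v) i j
  rw [ptD, ptD, ptD]
  rw [← this]
  congr 1
  simp only [Finsupp.coe_add, Pi.add_apply]
  ring

/-- **Structure constants**: a relation `x_i y_j = ∑_l c_l z_l` between functions gives the same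
relation between the coordinates of the points. -/
theorem ptD_structure [Fintype κ] {D D' : Divisor K F} {x : ι → F} {y : ι' → F} {z : κ → F}
    (hx : ∀ i, x i ∈ riemannRochSpace D) (hy : ∀ j, y j ∈ riemannRochSpace D')
    (hz : ∀ l, z l ∈ riemannRochSpace (D + D')) (v : Place K F) (i : ι) (j : ι') (c : κ → K)
    (h : x i * y j = ∑ l, c l • z l) :
    ptD D x v i * ptD D' y v j = ∑ l, c l * ptD (D + D') z v l := by
  rw [dot_ptD hz, ← h, ← ptD_mul hx hy v i j, ptD_apply]

/-- Linear relations: if `w_k = ∑_l c k l • z_l` (all in `L(D)`) then the points satisfy the same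
relations. -/
theorem ptD_linear [Fintype κ] {D : Divisor K F} {w : ι → F} {z : κ → F}
    (hz : ∀ l, z l ∈ riemannRochSpace D) (v : Place K F) (i : ι) (c : κ → K)
    (h : w i = ∑ l, c l • z l) :
    ptD D w v i = ∑ l, c l * ptD D z v l := by
  rw [dot_ptD hz, ← h, ptD_apply]

end Fermat.Agent.S17.H230

end
end
-- ===== PACK-END S17/H230/PlacePoint.lean

-- ===== PACK-BEGIN S17/H380/AbsMulti.lean
section


set_option linter.unusedSectionVars false
set_option linter.style.haveILetI false

namespace Fermat.Agent.S17.H380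

open NumberField Height Module IntermediateField

section Multi

universe u v

variable {A : Type*} [Field A] [CharZero A]
variable {α : Type u} [Fintype α] {ι : α → Type v} [∀ a, Fintype (ι a)]
variable {ι' : Type*} [_root_.Finite ι']

/-- **Multilinear maps**: if `M` is the coefficient matrix of a family of multilinear forms in
the tuples `x a` (`a : α`), then
`h( (∑_I M (j, I) ∏_a x a (I a))_j ) ≤ log #{I} + h(M) + ∑_a h(x a)`.
To bound a multihomogeneous map of multidegree `(d_a)`, repeat the slot `a` `d_a` times. -/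
theorem absLogHeight_multilinear_apply_le [DecidableEq α]
    (M : ι' × ((a : α) → ι a) → A) (x : (a : α) → ι a → A)
    (hM : ∀ p, IsIntegral ℚ (M p)) (hx : ∀ a i, IsIntegral ℚ (x a i)) :
    absLogHeight (fun j => ∑ I : (a : α) → ι a, M (j, I) * ∏ a, x a (I a))
      ≤ Real.log (Nat.card ((a : α) → ι a)) + absLogHeight M + ∑ a, absLogHeight (x a) := by
  have ht : ∀ I : (a : α) → ι a, IsIntegral ℚ (∏ a, x a (I a)) := fun I =>
    IsIntegral.prod _ (fun a _ => hx a (I a))
  have h1 := absLogHeight_linearMap_apply_le M (fun I : (a : α) → ι a => ∏ a, x a (I a)) hM ht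
  refine h1.trans ?_
  by_cases h0 : ∀ a, x a ≠ 0
  · rw [absLogHeight_fun_prod_eq hx h0]
  · push_neg at h0
    obtain ⟨a₀, ha₀⟩ := h0
    have hz : (fun I : (a : α) → ι a => ∏ a, x a (I a)) = 0 := by
      funext I
      exact Finset.prod_eq_zero (Finset.mem_univ a₀) (by rw [ha₀]; rfl)
    rw [hz, absLogHeight_zero]
    have : 0 ≤ ∑ a, absLogHeight (x a) := Finset.sum_nonneg (fun a _ => absLogHeight_nonneg _)
    linarith

end Multi

end Fermat.Agent.S17.H380

end
-- ===== PACK-END S17/H380/AbsMulti.lean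

-- ===== PACK-BEGIN S17/H617/HWallStmt.lean
section


/-!
# S17 / tower H — the LOCAL WALL `(L1)`, `(L1')`: frozen STATEMENTS (definitions only; helper617)

Sorry-free.  Output interface of the wall of tower H (wall architect helper710, note #6325):
producers prove `L1Statement E`, `L1pStatement E` (under `4g + 1 ≤ E.m` if they wish); the
local → global layer turns them into the global contract (E3), (ADJ), … of the row-lead.

* `contr y W` : the linear form `T_{y,W}`, `⟨T_{y,W}, z⟩ = Σ_p W p · (y ∧ z)_p`;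
* `supn v y` : sup norm; `lam v y z = - log (|y ∧ z|_v / (|y|_v |z|_v))`;
* `IsGoodAbs v` : `v` nonarchimedean, or induced by a ring hom `K →+* ℂ`;
* `bnd v S N = [v archimedean]·N + Σ_{c ∈ S} |log v(c)|` : the shape of all local constants
  (`S` a finite set of nonzero constants; for a family of absolute values in which every
  `c ≠ 0` is a unit almost everywhere the bound has finite support);
* `L1Statement E`  : `| Σ_A Z_a(A) λ_v(A,P) + log(|a(xP)|_v / (|a|_v |xP|_v)) | ≤ bnd v S N`
  for ALL good `v`, `a ≠ 0`, `P ∉ Z_a`, with ONE `S` and ONE `N`;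
* `L1pStatement E` : the first order version at a simple zero `A₀` of `a`;
* `ChowStatement E` : the Chow form `R(a,T)` with `(C1)`, `(C2)` (BACKUP route only).

Blueprint: `coord/S17-HWall-helper617.md` (origin/helper617).
-/

set_option autoImplicit false

noncomputable section

open AlgebraicCurve

namespace Fermat.Agent.S17.HWall

open Fermat.Agent.Lib.RR

variable {K F : Type*} [Field K] [Field F] [Algebra K F]

/-! ## Linear algebra on `K^n` -/

/-- The linear form `T_{y,W}` with `⟨T_{y,W}, z⟩ = Σ_p W p · (y ∧ z)_p`; it vanishes at `y`, and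
every linear form vanishing at `y ≠ 0` is of this shape. -/
def contr {n : ℕ} (y : Fin n → K) (W : Fin n × Fin n → K) : Fin n → K :=
  fun k => ∑ j, (W (j, k) - W (k, j)) * y j

theorem dot_contr {n : ℕ} (y z : Fin n → K) (W : Fin n × Fin n → K) :
    dot (contr y W) z = ∑ p : Fin n × Fin n, W p * wedge y z p := by
  unfold contr wedge
  simp only [dot, dotProduct, Finset.sum_mul, sub_mul, Finset.sum_sub_distrib]
  rw [Fintype.sum_prod_type]
  simp only [mul_sub, Finset.sum_sub_distrib]
  congr 1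
  · rw [Finset.sum_comm]
    exact Finset.sum_congr rfl fun j _ => Finset.sum_congr rfl fun k _ => by ring
  · exact Finset.sum_congr rfl fun j _ => Finset.sum_congr rfl fun k _ => by ring

theorem wedge_self {n : ℕ} (y : Fin n → K) : wedge y y = 0 := by
  funext p
  simp [wedge, mul_comm]

theorem dot_contr_self {n : ℕ} (y : Fin n → K) (W : Fin n × Fin n → K) :
    dot (contr y W) y = 0 := by
  rw [dot_contr, wedge_self]
  simp

/-- sup norm of a finite family -/
def supn {ι : Type*} (v : AbsoluteValue K ℝ) (y : ι → K) : ℝ := ⨆ i, v (y i)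

/-- `λ_v(y, z) = - log ( |y ∧ z|_v / (|y|_v |z|_v) )`: minus the logarithm of the `v`-adic
projective (chordal) distance of the points `[y]`, `[z]`. -/
def lam {n : ℕ} (v : AbsoluteValue K ℝ) (y z : Fin n → K) : ℝ :=
  -Real.log (supn v (wedge y z) / (supn v y * supn v z))

/-- The admissible absolute values: nonarchimedean, or induced by a complex embedding. -/
def IsGoodAbs (v : AbsoluteValue K ℝ) : Prop :=
  IsNonarchimedean v ∨ ∃ φ : K →+* ℂ, ∀ c : K, v c = ‖φ c‖

open Classical in
/-- The shape of all local constants: `[v archimedean]·N + Σ_{c ∈ S} |log v(c)|`. -/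
def bnd (v : AbsoluteValue K ℝ) (S : Finset K) (N : ℝ) : ℝ :=
  (if IsNonarchimedean v then 0 else N) + ∑ c ∈ S, |Real.log (v c)|

variable [FF1 K F]

/-! ## The wall (LOCAL route, BACKUP; primary = helper710's global route) -/

/-- **(L1)**, uniform in the hyperplane `a`, the point `P` and the absolute value `v`. -/
def L1Statement (E : EmbData K F) : Prop :=
  ∃ (S : Finset K) (N : ℝ), (∀ c ∈ S, c ≠ 0) ∧
    ∀ v : AbsoluteValue K ℝ, IsGoodAbs v →
    ∀ (a : Fin (E.r + 1) → K) (P : Place K F), a ≠ 0 → dot a (E.pt P) ≠ 0 →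
      |(E.Z a).sum (fun A n => (n : ℝ) * lam v (E.pt A) (E.pt P)) +
          Real.log (v (dot a (E.pt P)) / (supn v a * supn v (E.pt P)))| ≤ bnd v S N

/-- **(L1')**, the first order version at a simple zero `A₀` of `a`. -/
def L1pStatement (E : EmbData K F) : Prop :=
  ∃ (S : Finset K) (N : ℝ), (∀ c ∈ S, c ≠ 0) ∧
    ∀ v : AbsoluteValue K ℝ, IsGoodAbs v →
    ∀ (a : Fin (E.r + 1) → K) (A₀ : Place K F), a ≠ 0 → E.Z a A₀ = 1 →
      |((E.Z a).erase A₀).sum (fun A n => (n : ℝ) * lam v (E.pt A) (E.pt A₀)) +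
          Real.log (v (dot a (E.tn A₀)) * supn v (E.pt A₀) /
            (supn v a * supn v (wedge (E.pt A₀) (E.tn A₀))))| ≤ bnd v S N

/-- **CHOW = (C1) + (C2)**: the Chow form `R(a, T)` of the embedded curve.
`(C1)` `R(a, T) = c(a) ∏_{A ∈ Z_a} ⟨T, φ(A)⟩^{Z_a(A)}` with `c(a) ≠ 0`, for every `a ≠ 0`;
`(C2)` `R(a, T) = ε R(T, a)`, `ε = ± 1` (Weil reciprocity). -/
def ChowStatement (E : EmbData K F) : Prop :=
  ∃ (R : MvPolynomial (Fin (E.r + 1) ⊕ Fin (E.r + 1)) K) (ε : K), ε ^ 2 = 1 ∧
    (∀ a : Fin (E.r + 1) → K, a ≠ 0 → ∃ c : K, c ≠ 0 ∧ ∀ T : Fin (E.r + 1) → K,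
      MvPolynomial.eval (Sum.elim a T) R =
        c * (E.Z a).prod (fun A n => dot T (E.pt A) ^ n.toNat)) ∧
    ∀ a T : Fin (E.r + 1) → K,
      MvPolynomial.eval (Sum.elim a T) R = ε * MvPolynomial.eval (Sum.elim T a) R

end Fermat.Agent.S17.HWall

end
end
-- ===== PACK-END S17/H617/HWallStmt.lean

-- ===== PACK-BEGIN S24/H504/FF3Local.lean
section



/-!
# Local norm formula: `∑_x ord_z (σ_x f) = m · ∑_{v | t} ord_v f`
-/

set_option autoImplicit false
set_option linter.style.haveILetI false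
set_option linter.unusedSectionVars false

namespace Fermat.Agent.S24.H504

open AlgebraicCurve IntermediateField

variable {K F : Type*} [Field K] [Field F] [Algebra K F]
variable {C : Type*} [Field C] {X : Type*} {t : F}

/-- `F` is algebraic over `K(t)` as soon as it is finite over a subfield of `K(t)`. -/
theorem isAlgebraic_adjoin_of_le (E : IntermediateField K F) (hE : E ≤ K⟮t⟯)
    [FiniteDimensional E F] : Algebra.IsAlgebraic K⟮t⟯ F := by
  letI : Algebra E K⟮t⟯ := (IntermediateField.inclusion hE).toRingHom.toAlgebra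
  haveI : IsScalarTower E K⟮t⟯ F := IsScalarTower.of_algebraMap_eq (fun x => rfl)
  exact Algebra.IsAlgebraic.tower_top (K := E) K⟮t⟯

theorem induces_placeOf (L : LocalData K F C X t) (x : X) :
    Induces (L.σ x) (H117.placeOf L x) :=
  fun f => H117.mem_placeOf_iff L x f

theorem placeOf_eq_iff_induces (L : LocalData K F C X t) (x : X) (v : Place K F) :
    H117.placeOf L x = v ↔ Induces (L.σ x) v :=
  ⟨fun h => h ▸ induces_placeOf L x, fun h => (induces_placeOf L x).unique h⟩

section

variable [IsAlgClosed K] [CharZero K] [CharZero C] [Finite X]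
variable (L : LocalData K F C X t)
variable (E : IntermediateField K F) (hE : E ≤ K⟮t⟯) [FiniteDimensional E F]
  (hrank : Module.finrank E F = Nat.card X)

include L hE hrank in
/-- **FF1 (equality).** `∑_{v | t} v(t) = #X = [F : E]`. -/
theorem sum_ord_eq_card (s : Finset (Place K F)) (hs : ∀ v, v ∈ s ↔ 0 < v.ord t) :
    ∑ v ∈ s, v.ord t = Nat.card X := by
  haveI := isAlgebraic_adjoin_of_le (t := t) E hE
  exact (H117.localThm L E hE hrank s hs (LocalData.card_le_sum_ord L s hs)).2.2

include hE hrank in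
theorem card_places_eq_numOrbits (s : Finset (Place K F)) (hs : ∀ v, v ∈ s ↔ 0 < v.ord t) :
    s.card = numOrbits L.perm := by
  haveI := isAlgebraic_adjoin_of_le (t := t) E hE
  exact (H117.localThm L E hE hrank s hs (LocalData.card_le_sum_ord L s hs)).1

omit [IsAlgClosed K] [CharZero K] [CharZero C] in
theorem sum_card_fibre [Fintype X] [DecidableEq (Place K F)] (s : Finset (Place K F))
    (hs : ∀ v, v ∈ s ↔ 0 < v.ord t) :
    ∑ v ∈ s, (Finset.univ.filter (fun x => H117.placeOf L x = v)).card = Fintype.card X := by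
  have hmaps : ∀ x ∈ (Finset.univ : Finset X), H117.placeOf L x ∈ s :=
    fun x _ => (hs _).mpr (H117.ord_t_pos L x)
  rw [← Finset.card_univ, Finset.card_eq_sum_card_fiberwise hmaps]

include hE hrank in
/-- Exactly `v(t)` embeddings induce a place `v` over `t = 0`. -/
theorem card_fibre_eq [Fintype X] [DecidableEq (Place K F)] (v : Place K F)
    (hv : 0 < v.ord t) :
    ((Finset.univ.filter (fun x => H117.placeOf L x = v)).card : ℤ) = v.ord t := by
  haveI := isAlgebraic_adjoin_of_le (t := t) E hE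
  have hfin : {v : Place K F | 0 < v.ord t}.Finite := H117.finite_places_over L E hE hrank
  set s := hfin.toFinset with hsdef
  have hs : ∀ v, v ∈ s ↔ 0 < v.ord t := fun v => by simp [hsdef]
  have hle : ∀ w ∈ s, ((Finset.univ.filter (fun x => H117.placeOf L x = w)).card : ℤ)
      ≤ w.ord t := by
    intro w hw
    have := LocalData.card_fibre_le L w ((hs w).mp hw)
    have hc : Nat.card {x : X // Induces (L.σ x) w}
        = (Finset.univ.filter (fun x => H117.placeOf L x = w)).card := by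
      haveI : Fintype {x : X // Induces (L.σ x) w} := Fintype.ofFinite _
      rw [Nat.card_eq_fintype_card]
      exact Fintype.card_of_subtype _ (fun x => by
        simp only [Finset.mem_filter, Finset.mem_univ, true_and]
        exact placeOf_eq_iff_induces L x w)
    rw [← hc]
    exact this
  have h1 := sum_ord_eq_card L E hE hrank s hs
  have h2 := sum_card_fibre L s hs
  have h3 : ∑ w ∈ s, (w.ord t
      - ((Finset.univ.filter (fun x => H117.placeOf L x = w)).card : ℤ)) = 0 := by
    rw [Finset.sum_sub_distrib, h1, ← Nat.cast_sum, h2, Nat.card_eq_fintype_card]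
    ring
  have h4 := (Finset.sum_eq_zero_iff_of_nonneg (fun w hw => sub_nonneg.mpr (hle w hw))).mp h3
    v ((hs v).mpr hv)
  linarith

include hE hrank in
/-- **Local norm formula.** -/
theorem sum_order_eq [Fintype X] (s : Finset (Place K F))
    (hs : ∀ v, v ∈ s ↔ 0 < v.ord t) (f : F) :
    ∑ x, (L.σ x f).order = L.m * ∑ v ∈ s, v.ord f := by
  classical
  have hmaps : ∀ x ∈ (Finset.univ : Finset X), H117.placeOf L x ∈ s :=
    fun x _ => (hs _).mpr (H117.ord_t_pos L x)
  rw [← Finset.sum_fiberwise_of_maps_to hmaps, Finset.mul_sum]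
  apply Finset.sum_congr rfl
  intro v hv
  have hv' : 0 < v.ord t := (hs v).mp hv
  have hcard := card_fibre_eq L E hE hrank v hv'
  have hterm : ∀ x ∈ Finset.univ.filter (fun x => H117.placeOf L x = v),
      v.ord t * (L.σ x f).order = L.m * v.ord f := by
    intro x hx
    have hx' : H117.placeOf L x = v := (Finset.mem_filter.mp hx).2
    have h1 := H117.order_eq L x f
    have h2 := H117.mult_mul_ord_t L x
    rw [hx'] at h1 h2
    rw [h1, ← h2]
    ring
  have hsum : v.ord t * ∑ x ∈ Finset.univ.filter (fun x => H117.placeOf L x = v),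
      (L.σ x f).order = v.ord t * (L.m * v.ord f) := by
    rw [Finset.mul_sum, Finset.sum_congr rfl hterm, Finset.sum_const, nsmul_eq_mul, hcard]
  exact mul_left_cancel₀ hv'.ne' hsum

end

end Fermat.Agent.S24.H504

end
-- ===== PACK-END S24/H504/FF3Local.lean

-- ===== PACK-BEGIN S15/H722/RedCore.lean
section


/-!
# S15 / COMPAT (helper722): abstract place reductions and the value lemma

`RedCore K F k Fk` is the minimal abstract form of the Prelude's `IsPlaceReductionAlong`:
a valuation ring `A` of the constant field `K` with a residue map `res : A → k`, a subring `O ⊆ F`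
of "integral functions" with a reduction map `ρ : O → Fk`, and a map `r` on places such that
`r_* div(y) = div(ρ y)` for every `y ∈ O` with `ρ y ≠ 0`.

Main results (all for a `RedCore` and `[HasPrincipalDivisors K F]`):
* `RedCore.ord_ρ_nonneg`, `ord_ρ_pos`, `exists_pos_of_ord_ρ_pos`, `exists_neg_of_ord_ρ_neg`;
* `RedCore.val_mem` : values of integral functions without poles over `Q` are integral;
* `RedCore.hasVal_ρ` : **value lemma**, `y(P) = c` implies `(ρ y)(r P) = res c`.
-/

set_option autoImplicit false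

noncomputable section

open AlgebraicCurve

namespace Fermat.Agent.S15.H722

open Fermat.Agent.Lib.RR Fermat.Agent.S18.H725

variable {K F k Fk : Type*} [Field K] [Field F] [Algebra K F] [Field k] [Field Fk] [Algebra k Fk]

/-- `f` is regular at `P` with value `c` (`f = c`, or `f - c` vanishes at `P`). -/
def HasVal (P : Place K F) (f : F) (c : K) : Prop :=
  f - algebraMap K F c = 0 ∨ 0 < P.ord (f - algebraMap K F c)

theorem HasVal.ord_nonneg {P : Place K F} {f : F} {c : K} (h : HasVal P f c) : 0 ≤ P.ord f := by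
  rcases h with h | h
  · rw [sub_eq_zero] at h
    rw [h, ord_algebraMap]
  · have h1 : 0 ≤ P.ord (f - algebraMap K F c) := h.le
    have h2 : 0 ≤ P.ord (algebraMap K F c) := by rw [ord_algebraMap]
    have := add_mem (mem_of_ord_nonneg P h1) (mem_of_ord_nonneg P h2)
    rw [sub_add_cancel] at this
    exact ord_nonneg_of_mem P this

/-- the value at a place is unique -/
theorem HasVal.unique {P : Place K F} {f : F} {c c' : K} (h : HasVal P f c) (h' : HasVal P f c') :
    c = c' := by
  by_contra hne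
  have hd : c' - c ≠ 0 := sub_ne_zero.mpr (Ne.symm hne)
  have hdF : algebraMap K F (c' - c) ≠ 0 := (map_ne_zero (algebraMap K F)).mpr hd
  have key : (f - algebraMap K F c) + -(f - algebraMap K F c') = algebraMap K F (c' - c) := by
    rw [map_sub]; ring
  have hord : P.ord ((f - algebraMap K F c) + -(f - algebraMap K F c')) = 0 := by
    rw [key, ord_algebraMap]
  rcases h with h | h
  · rw [h, zero_add, ord_neg] at hord
    rcases h' with h' | h'
    · rw [h, h', neg_zero, add_zero] at key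
      exact hdF key.symm
    · omega
  · rcases h' with h' | h'
    · rw [h', neg_zero, add_zero] at hord
      omega
    · have h1 : f - algebraMap K F c ≠ 0 := ne_zero_of_ord_ne_zero P (ne_of_gt h)
      have h2 : -(f - algebraMap K F c') ≠ 0 :=
        neg_ne_zero.mpr (ne_zero_of_ord_ne_zero P (ne_of_gt h'))
      have h3 : (f - algebraMap K F c) + -(f - algebraMap K F c') ≠ 0 := by rw [key]; exact hdF
      have := ord_add P h1 h2 h3
      rw [ord_neg, hord] at this
      rcases min_le_iff.mp this with h4 | h4 <;> omega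

/-- at a place of degree one every regular function has a value -/
theorem exists_hasVal (P : Place K F) (hP : P.deg = 1) {f : F} (hf : 0 ≤ P.ord f) :
    ∃ c : K, HasVal P f c :=
  exists_const_sub P hP hf

theorem hasVal_zero_of_ord_pos {P : Place K F} {f : F} (h : 0 < P.ord f) : HasVal P f 0 :=
  Or.inr (by rwa [map_zero, sub_zero])

theorem HasVal.ord_pos_of_zero {P : Place K F} {f : F} (h : HasVal P f 0) (hf : f ≠ 0) :
    0 < P.ord f := by
  rcases h with h | h
  · rw [map_zero, sub_zero] at h; exact absurd h hf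
  · rwa [map_zero, sub_zero] at h

/-- An abstract place reduction. -/
structure RedCore (K F k Fk : Type*) [Field K] [Field F] [Algebra K F] [Field k] [Field Fk]
    [Algebra k Fk] where
  /-- the valuation ring of the constant field -/
  A : ValuationSubring K
  /-- the residue map on constants -/
  res : A →+* k
  /-- non-units reduce to zero -/
  res_eq_zero : ∀ a : A, ¬ IsUnit a → res a = 0
  /-- the ring of integral functions -/
  O : Subring F
  /-- reduction of integral functions -/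
  ρ : O →+* Fk
  const_mem : ∀ a : A, algebraMap K F (a : K) ∈ O
  ρ_const : ∀ a : A, ρ ⟨algebraMap K F (a : K), const_mem a⟩ = algebraMap k Fk (res a)
  /-- the specialisation map on places -/
  r : Place K F → Place k Fk
  /-- compatibility of divisors with reduction -/
  red : ∀ y : O, ρ y ≠ 0 → ∀ D : Divisor K F, (∀ P, D P = P.ord (y : F)) →
    ∀ Q, Finsupp.mapDomain r D Q = Q.ord (ρ y)

namespace RedCore

variable (Φ : RedCore K F k Fk)

/-- the constant function of an integral constant, as an integral function -/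
def const (a : Φ.A) : Φ.O := ⟨algebraMap K F (a : K), Φ.const_mem a⟩

@[simp] theorem coe_const (a : Φ.A) : ((Φ.const a : Φ.O) : F) = algebraMap K F (a : K) := rfl

@[simp] theorem ρ_const' (a : Φ.A) : Φ.ρ (Φ.const a) = algebraMap k Fk (Φ.res a) := Φ.ρ_const a

theorem coe_ne_zero {y : Φ.O} (hy : Φ.ρ y ≠ 0) : (y : F) ≠ 0 := by
  intro h
  apply hy
  have : y = 0 := Subtype.ext h
  rw [this, map_zero]

section Red

variable [HasPrincipalDivisors K F]

theorem exists_div {f : F} (hf : f ≠ 0) :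
    ∃ D : Divisor K F, (∀ P, D P = P.ord f) ∧ Divisor.degree D = 0 :=
  HasPrincipalDivisors.exists_divisor (K := K) f hf

theorem ord_ρ_nonneg {y : Φ.O} (hy : Φ.ρ y ≠ 0) {Q : Place k Fk}
    (h : ∀ P, Φ.r P = Q → 0 ≤ P.ord (y : F)) : 0 ≤ Q.ord (Φ.ρ y) := by
  obtain ⟨D, hD, -⟩ := exists_div (K := K) (Φ.coe_ne_zero hy)
  rw [← Φ.red y hy D hD Q]
  exact mapDomain_nonneg Φ.r D fun P hP => by rw [hD]; exact h P hP

theorem ord_ρ_pos {y : Φ.O} (hy : Φ.ρ y ≠ 0) {Q : Place k Fk}
    (h : ∀ P, Φ.r P = Q → 0 ≤ P.ord (y : F)) {P₀ : Place K F} (hP₀ : Φ.r P₀ = Q)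
    (h₀ : 0 < P₀.ord (y : F)) : 0 < Q.ord (Φ.ρ y) := by
  obtain ⟨D, hD, -⟩ := exists_div (K := K) (Φ.coe_ne_zero hy)
  rw [← Φ.red y hy D hD Q]
  exact mapDomain_pos Φ.r D (fun P hP => by rw [hD]; exact h P hP) hP₀ (by rw [hD]; exact h₀)

/-- if `ρ y` has order `≤ 0` at `Q` and `y` vanishes somewhere over `Q`, then `y` has a pole
over `Q` -/
theorem exists_neg_of_ord_ρ_nonpos {y : Φ.O} (hy : Φ.ρ y ≠ 0) {Q : Place k Fk}
    (hQ : Q.ord (Φ.ρ y) ≤ 0) {P₀ : Place K F} (hP₀ : Φ.r P₀ = Q) (h₀ : 0 < P₀.ord (y : F)) :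
    ∃ P, Φ.r P = Q ∧ P.ord (y : F) < 0 := by
  by_contra hcon
  push Not at hcon
  have := Φ.ord_ρ_pos hy hcon hP₀ h₀
  omega

/-- if `ρ y` vanishes at `Q`, then `y` vanishes somewhere over `Q` -/
theorem exists_pos_of_ord_ρ_pos {y : Φ.O} (hy : Φ.ρ y ≠ 0) {Q : Place k Fk}
    (hQ : 0 < Q.ord (Φ.ρ y)) : ∃ P, Φ.r P = Q ∧ 0 < P.ord (y : F) := by
  classical
  obtain ⟨D, hD, -⟩ := exists_div (K := K) (Φ.coe_ne_zero hy)
  have hred := Φ.red y hy D hD Q
  by_contra hcon
  push Not at hcon
  have hle : Finsupp.mapDomain Φ.r D Q ≤ 0 := by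
    rw [mapDomain_apply_eq_sum]
    refine Finset.sum_nonpos fun P _ => ?_
    split_ifs with h
    · rw [hD]; exact hcon P h
    · exact le_refl _
  omega

/-- **Integrality of values.** If `y ∈ O` has no pole over `Q` and takes the value `c` at a place
`P` over `Q`, then `c` is integral. -/
theorem val_mem {y : Φ.O} {Q : Place k Fk} {P : Place K F} (hP : Φ.r P = Q)
    (hreg : ∀ P', Φ.r P' = Q → 0 ≤ P'.ord (y : F)) {c : K} (hc : HasVal P (y : F) c) :
    c ∈ Φ.A := by
  by_contra hmem
  have hc0 : c ≠ 0 := by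
    rintro rfl
    exact hmem (zero_mem _)
  have hinv : c⁻¹ ∈ Φ.A := (Φ.A.mem_or_inv_mem c).resolve_left hmem
  have hnu : ¬ IsUnit (⟨c⁻¹, hinv⟩ : Φ.A) := by
    intro hu
    apply hmem
    obtain ⟨u, hu⟩ := hu
    have h1 : ((u⁻¹ : Φ.Aˣ) : Φ.A) * ⟨c⁻¹, hinv⟩ = 1 := by rw [← hu]; exact Units.inv_mul u
    have h2 : (((u⁻¹ : Φ.Aˣ) : Φ.A) : K) * c⁻¹ = 1 := by
      have := congrArg Subtype.val h1
      simpa using this
    have h3 : (((u⁻¹ : Φ.Aˣ) : Φ.A) : K) = c := by
      field_simp at h2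
      exact h2
    rw [← h3]
    exact Subtype.mem _
  set ci : Φ.O := Φ.const ⟨c⁻¹, hinv⟩ with hci
  set z : Φ.O := 1 - ci * y with hz
  have hzcoe : (z : F) = 1 - algebraMap K F c⁻¹ * (y : F) := rfl
  have hρz : Φ.ρ z = 1 := by
    rw [hz, map_sub, map_one, map_mul, hci, Φ.ρ_const', Φ.res_eq_zero _ hnu, map_zero, zero_mul,
      sub_zero]
  have hρz0 : Φ.ρ z ≠ 0 := by rw [hρz]; exact one_ne_zero
  have hzne : (z : F) ≠ 0 := Φ.coe_ne_zero hρz0
  have hfac : (z : F) = -(algebraMap K F c⁻¹ * ((y : F) - algebraMap K F c)) := by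
    rw [hzcoe, mul_sub, ← map_mul, inv_mul_cancel₀ hc0, map_one]; ring
  have hyc : (y : F) - algebraMap K F c ≠ 0 := by
    intro h0
    rw [hfac, h0, mul_zero, neg_zero] at hzne
    exact hzne rfl
  have hpos : 0 < P.ord (z : F) := by
    rw [hfac, ord_neg, ord_const_mul P (inv_ne_zero hc0)]
    exact hc.resolve_left hyc
  have hnn : ∀ P', Φ.r P' = Q → 0 ≤ P'.ord (z : F) := by
    intro P' hP'
    rw [hzcoe]
    refine ord_sub_nonneg P' (by rw [P'.ord_one]) ?_
    rw [ord_const_mul P' (inv_ne_zero hc0)]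
    exact hreg P' hP'
  have := Φ.ord_ρ_pos hρz0 hnn hP hpos
  rw [hρz, Q.ord_one] at this
  exact lt_irrefl _ this

/-- **Value lemma.** If `y ∈ O` has no pole over `Q = r P` and `y(P) = c` (so `c ∈ A` by
`val_mem`), then `(ρ y)(Q) = res c`. -/
theorem hasVal_ρ {y : Φ.O} {Q : Place k Fk} {P : Place K F} (hP : Φ.r P = Q)
    (hreg : ∀ P', Φ.r P' = Q → 0 ≤ P'.ord (y : F)) {c : Φ.A} (hc : HasVal P (y : F) (c : K)) :
    HasVal Q (Φ.ρ y) (Φ.res c) := by
  set z : Φ.O := y - Φ.const c with hz
  have hzcoe : (z : F) = (y : F) - algebraMap K F (c : K) := rfl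
  have hρz : Φ.ρ z = Φ.ρ y - algebraMap k Fk (Φ.res c) := by
    rw [hz, map_sub, Φ.ρ_const']
  by_cases h0 : Φ.ρ z = 0
  · left; rw [← hρz, h0]
  · right
    rw [← hρz]
    refine Φ.ord_ρ_pos h0 (fun P' hP' => ?_) hP ?_
    · rw [hzcoe]
      exact ord_sub_nonneg P' (hreg P' hP') (by rw [ord_algebraMap])
    · rw [hzcoe]
      have hne : (y : F) - algebraMap K F (c : K) ≠ 0 := by
        rw [← hzcoe]; exact Φ.coe_ne_zero h0
      exact hc.resolve_left hne

end Red

end RedCore

end Fermat.Agent.S15.H722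

end
end
-- ===== PACK-END S15/H722/RedCore.lean

-- ===== PACK-BEGIN S15/H722/CuspCrit.lean
section


/-!
# S15 / COMPAT (helper722): the abstract cusp criterion

Setting: a place reduction `Φ : RedCore K F k Fk` and a "coordinate at infinity" `x ∈ O`
(in the application `x = 1 / j`) with integral inverse `xi` (`= j`) such that `r` maps zeros of
`x` to zeros of `ρ x` and poles of `x` to poles of `ρ x` (`InfCoord`; both follow from
"`deg x = deg ρ x`").

* `InfCoord.ord_ρx_pos` : a place `W` with `x(W) ∈ 𝔪_A` reduces to a zero of `ρ x`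
  (a place with non-integral `j`-value reduces to a cusp);
* `InfCoord.near_cusp` : such a `W` has the same reduction as some zero `C` of `x` (a cusp), and
  for every integral function `u` with poles only at poles of `x`, the values `u(W)`, `u(C)` are
  integral with the same residue;
* `InfCoord.r_eq_of_two_cusps` : if `x` has exactly two zeros `C₁, C₀` and `u` takes the values
  `1` and `0` there, then `r W = r C₁` if `u(W)` is a unit and `r W = r C₀` otherwise.
-/

set_option autoImplicit false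

noncomputable section

open AlgebraicCurve

namespace Fermat.Agent.S15.H722

open Fermat.Agent.Lib.RR Fermat.Agent.S18.H725

variable {K F k Fk : Type*} [Field K] [Field F] [Algebra K F] [Field k] [Field Fk] [Algebra k Fk]

/-- A coordinate at infinity for a place reduction. -/
structure InfCoord (Φ : RedCore K F k Fk) where
  /-- the coordinate (`1 / j`) -/
  x : Φ.O
  /-- its inverse (`j`) -/
  xi : Φ.O
  mul_eq_one : (x : F) * (xi : F) = 1
  /-- zeros of `x` reduce to zeros of `ρ x` -/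
  zero_to_zero : ∀ P : Place K F, 0 < P.ord (x : F) → 0 < (Φ.r P).ord (Φ.ρ x)
  /-- poles of `x` reduce to poles of `ρ x` -/
  pole_to_pole : ∀ P : Place K F, P.ord (x : F) < 0 → (Φ.r P).ord (Φ.ρ x) < 0

namespace InfCoord

variable {Φ : RedCore K F k Fk} (X : InfCoord Φ)

theorem x_mul_xi : X.x * X.xi = 1 := Subtype.ext X.mul_eq_one

theorem x_ne_zero : (X.x : F) ≠ 0 := left_ne_zero_of_mul_eq_one X.mul_eq_one

theorem xi_ne_zero : (X.xi : F) ≠ 0 := right_ne_zero_of_mul_eq_one X.mul_eq_one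

theorem xi_eq_inv : (X.xi : F) = (X.x : F)⁻¹ := eq_inv_of_mul_eq_one_right X.mul_eq_one

theorem ρx_mul_ρxi : Φ.ρ X.x * Φ.ρ X.xi = 1 := by
  rw [← map_mul, X.x_mul_xi, map_one]

theorem ρx_ne_zero : Φ.ρ X.x ≠ 0 := left_ne_zero_of_mul_eq_one X.ρx_mul_ρxi

theorem ord_xi (P : Place K F) : P.ord (X.xi : F) = -P.ord (X.x : F) := by
  rw [X.xi_eq_inv, P.ord_inv]

variable [HasPrincipalDivisors K F]

/-- A place at which `x` takes a non-unit value reduces to a zero of `ρ x`. -/
theorem ord_ρx_pos {W : Place K F} {c : Φ.A} (hc : ¬ IsUnit c) (hW : HasVal W (X.x : F) (c : K)) :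
    0 < (Φ.r W).ord (Φ.ρ X.x) := by
  by_cases hc0 : (c : K) = 0
  · rw [hc0] at hW
    exact X.zero_to_zero W (hW.ord_pos_of_zero X.x_ne_zero)
  -- `z = 1 - c * xi = (x - c) * xi` reduces to `1` and vanishes at `W`
  set z : Φ.O := 1 - Φ.const c * X.xi with hz
  have hzcoe : (z : F) = 1 - algebraMap K F (c : K) * (X.xi : F) := rfl
  have hρz : Φ.ρ z = 1 := by
    rw [hz, map_sub, map_one, map_mul, Φ.ρ_const', Φ.res_eq_zero c hc, map_zero, zero_mul,
      sub_zero]
  have hρz0 : Φ.ρ z ≠ 0 := by rw [hρz]; exact one_ne_zero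
  have hzne : (z : F) ≠ 0 := Φ.coe_ne_zero hρz0
  have hfac : (z : F) = ((X.x : F) - algebraMap K F (c : K)) * (X.xi : F) := by
    rw [hzcoe, sub_mul, X.mul_eq_one]
  have hxc : (X.x : F) - algebraMap K F (c : K) ≠ 0 := by
    intro h0
    rw [hfac, h0, zero_mul] at hzne
    exact hzne rfl
  have hordx : W.ord (X.x : F) = 0 := ord_eq_zero_of_sub_pos W hc0 hW
  have hpos : 0 < W.ord (z : F) := by
    rw [hfac, W.ord_mul hxc X.xi_ne_zero, X.ord_xi, hordx, neg_zero, add_zero]
    exact hW.resolve_left hxc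
  obtain ⟨P, hP, hPneg⟩ := Φ.exists_neg_of_ord_ρ_nonpos hρz0
    (by rw [hρz, (Φ.r W).ord_one]) rfl hpos
  -- `z` has a pole at `P`, hence `xi` has a pole at `P`, i.e. `x` vanishes at `P`
  have hxipole : P.ord (X.xi : F) < 0 := by
    by_contra hcon
    push Not at hcon
    have h1 : 0 ≤ P.ord (algebraMap K F (c : K) * (X.xi : F)) := by
      rw [ord_const_mul P hc0]; exact hcon
    have h2 : 0 ≤ P.ord (z : F) := by
      rw [hzcoe]
      exact ord_sub_nonneg P (by rw [P.ord_one]) h1
    omega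
  have hxzero : 0 < P.ord (X.x : F) := by
    have := X.ord_xi P
    omega
  have := X.zero_to_zero P hxzero
  rwa [hP] at this

omit [HasPrincipalDivisors K F] in
/-- A function with poles only at poles of `x` is regular over every zero of `ρ x`. -/
theorem regular_over {u : Φ.O} (hu : ∀ P : Place K F, P.ord (u : F) < 0 → P.ord (X.x : F) < 0)
    {Q : Place k Fk} (hQ : 0 < Q.ord (Φ.ρ X.x)) (P : Place K F) (hP : Φ.r P = Q) :
    0 ≤ P.ord (u : F) := by
  by_contra hcon
  push Not at hcon
  have := X.pole_to_pole P (hu P hcon)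
  rw [hP] at this
  omega

/-- **Value lemma near the cusps.** -/
theorem hasVal_near {u : Φ.O} (hu : ∀ P : Place K F, P.ord (u : F) < 0 → P.ord (X.x : F) < 0)
    {P : Place K F} (hP : 0 < (Φ.r P).ord (Φ.ρ X.x)) {b : K} (hb : HasVal P (u : F) b) :
    ∃ hbA : b ∈ Φ.A, HasVal (Φ.r P) (Φ.ρ u) (Φ.res ⟨b, hbA⟩) := by
  have hreg := X.regular_over hu hP
  have hbA : b ∈ Φ.A := Φ.val_mem rfl hreg hb
  exact ⟨hbA, Φ.hasVal_ρ (c := ⟨b, hbA⟩) rfl hreg hb⟩

/-- **Cusp criterion, general form.** A place `W` at which `x` takes a non-unit value has the same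
reduction as some zero `C` of `x`, and every integral function `u` with poles only at poles of `x`
takes at `W` and `C` integral values with the same residue. -/
theorem near_cusp {W : Place K F} {c : Φ.A} (hc : ¬ IsUnit c) (hW : HasVal W (X.x : F) (c : K)) :
    ∃ C : Place K F, 0 < C.ord (X.x : F) ∧ Φ.r C = Φ.r W ∧
      ∀ u : Φ.O, (∀ P : Place K F, P.ord (u : F) < 0 → P.ord (X.x : F) < 0) →
        ∀ b β : K, HasVal W (u : F) b → HasVal C (u : F) β →
          ∃ (hb : b ∈ Φ.A) (hβ : β ∈ Φ.A), Φ.res ⟨b, hb⟩ = Φ.res ⟨β, hβ⟩ := by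
  have hQ := X.ord_ρx_pos hc hW
  obtain ⟨C, hCr, hC⟩ := Φ.exists_pos_of_ord_ρ_pos X.ρx_ne_zero hQ
  refine ⟨C, hC, hCr, fun u hu b β hWu hCu => ?_⟩
  obtain ⟨hb, h1⟩ := X.hasVal_near hu hQ hWu
  have hQ' : 0 < (Φ.r C).ord (Φ.ρ X.x) := by rw [hCr]; exact hQ
  obtain ⟨hβ, h2⟩ := X.hasVal_near hu hQ' hCu
  rw [hCr] at h2
  exact ⟨hb, hβ, h1.unique h2⟩

/-- **Cusp criterion for two cusps.** Suppose `x` has exactly the zeros `C₁` and `C₀`, and `u` is an
integral function with poles only at poles of `x` taking the values `1` at `C₁` and `0` at `C₀`.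
Let `W` be a place at which `x` takes a non-unit value and `u` the value `b`.  Then `b` is integral,
`r W = r C₁` if `b` reduces to a nonzero element, and `r W = r C₀` if `b` reduces to `0`. -/
theorem r_eq_of_two_cusps {C₁ C₀ : Place K F}
    (hcusps : ∀ P : Place K F, 0 < P.ord (X.x : F) → P = C₁ ∨ P = C₀)
    {u : Φ.O} (hu : ∀ P : Place K F, P.ord (u : F) < 0 → P.ord (X.x : F) < 0)
    (hu₁ : HasVal C₁ (u : F) 1) (hu₀ : HasVal C₀ (u : F) 0)
    {W : Place K F} {c : Φ.A} (hc : ¬ IsUnit c) (hW : HasVal W (X.x : F) (c : K))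
    {b : K} (hb : HasVal W (u : F) b) :
    ∃ hbA : b ∈ Φ.A, (Φ.res ⟨b, hbA⟩ ≠ 0 → Φ.r W = Φ.r C₁) ∧
      (Φ.res ⟨b, hbA⟩ = 0 → Φ.r W = Φ.r C₀) := by
  obtain ⟨C, hC, hCr, hval⟩ := X.near_cusp hc hW
  have hbA : b ∈ Φ.A := by
    obtain ⟨h, -⟩ := X.hasVal_near hu (X.ord_ρx_pos hc hW) hb
    exact h
  refine ⟨hbA, fun hne => ?_, fun h0 => ?_⟩
  · rcases hcusps C hC with rfl | rfl
    · exact hCr.symm
    · exfalso
      obtain ⟨hb', hβ, h⟩ := hval u hu b 0 hb hu₀
      apply hne
      have h0 : Φ.res ⟨0, hβ⟩ = 0 := map_zero Φ.res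
      rw [← h0, ← h]
  · rcases hcusps C hC with rfl | rfl
    · exfalso
      obtain ⟨hb', hβ, h⟩ := hval u hu b 1 hb hu₁
      have h1 : Φ.res ⟨1, hβ⟩ = 1 := map_one Φ.res
      have h2 : Φ.res ⟨b, hb'⟩ = 0 := h0
      rw [h2, h1] at h
      exact zero_ne_one h
    · exact hCr.symm

end InfCoord

end Fermat.Agent.S15.H722

end
end
-- ===== PACK-END S15/H722/CuspCrit.lean

-- ===== PACK-BEGIN S15/H722/ModRed.lean
section



/-!
# S15 / COMPAT (helper722): the modular instance of `RedCore`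

From a place reduction `r` in the sense of the Prelude (`IsPlaceReductionAlong A π N r`) we build
`modRedCore : RedCore L F k F_k` with `O` = integral `q`-series of `F` whose reduction lies in
`F_k`, and we exhibit `j`, `1/j`, `j_d` (`d ∣ N`) as elements of `O`.
-/

set_option autoImplicit false

noncomputable section

open AlgebraicCurve ModularCurve HahnSeries

namespace Fermat.Agent.S15.H722

section Series

variable {L : Type*} [Field L] (A : ValuationSubring L) {k : Type*} [Field k] (π : A →+* k)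
variable (F : IntermediateField L (LaurentSeries L)) (Fk : IntermediateField k (LaurentSeries k))

theorem coeffMap_subtype_inj : Function.Injective (coeffMap A.subtype) := by
  intro x y h
  ext n
  have := congrArg (fun z : LaurentSeries L => z.coeff n) h
  simp only [coeffMap_coeff] at this
  exact this

/-- `f ∈ F` is an integral `q`-series whose reduction lies in `F_k`. -/
def IsInt (f : F) : Prop :=
  ∃ y : LaurentSeries A, coeffMap A.subtype y = (f : LaurentSeries L) ∧ coeffMap π y ∈ Fk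

/-- the ring of integral `q`-series of `F` with reduction in `F_k` -/
def intO : Subring F where
  carrier := {f | IsInt A π F Fk f}
  mul_mem' := by
    rintro f g ⟨y, hy, hyk⟩ ⟨z, hz, hzk⟩
    refine ⟨y * z, ?_, ?_⟩
    · rw [map_mul, hy, hz]; rfl
    · rw [map_mul]; exact mul_mem hyk hzk
  one_mem' := ⟨1, by rw [map_one]; rfl, by rw [map_one]; exact one_mem _⟩
  add_mem' := by
    rintro f g ⟨y, hy, hyk⟩ ⟨z, hz, hzk⟩
    refine ⟨y + z, ?_, ?_⟩
    · rw [map_add, hy, hz]; rfl
    · rw [map_add]; exact add_mem hyk hzk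
  zero_mem' := ⟨0, by rw [map_zero]; rfl, by rw [map_zero]; exact zero_mem _⟩
  neg_mem' := by
    rintro f ⟨y, hy, hyk⟩
    refine ⟨-y, ?_, ?_⟩
    · rw [map_neg, hy]; rfl
    · rw [map_neg]; exact neg_mem hyk

/-- the integral series representing an element of `intO` -/
def ser (f : intO A π F Fk) : LaurentSeries A := (f.2 : IsInt A π F Fk f).choose

theorem coeffMap_ser (f : intO A π F Fk) :
    coeffMap A.subtype (ser A π F Fk f) = ((f : F) : LaurentSeries L) :=
  (f.2 : IsInt A π F Fk f).choose_spec.1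

theorem coeffMap_ser_mem (f : intO A π F Fk) : coeffMap π (ser A π F Fk f) ∈ Fk :=
  (f.2 : IsInt A π F Fk f).choose_spec.2

theorem ser_eq (f : intO A π F Fk) {y : LaurentSeries A}
    (hy : coeffMap A.subtype y = ((f : F) : LaurentSeries L)) : ser A π F Fk f = y :=
  coeffMap_subtype_inj A ((coeffMap_ser A π F Fk f).trans hy.symm)

/-- the reduction of integral series -/
def redO : intO A π F Fk →+* Fk where
  toFun f := ⟨coeffMap π (ser A π F Fk f), coeffMap_ser_mem A π F Fk f⟩
  map_one' := by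
    apply Subtype.ext
    show coeffMap π (ser A π F Fk 1) = 1
    rw [ser_eq A π F Fk 1 (y := 1) (by rw [map_one]; rfl), map_one]
  map_mul' f g := by
    apply Subtype.ext
    show coeffMap π (ser A π F Fk (f * g))
      = coeffMap π (ser A π F Fk f) * coeffMap π (ser A π F Fk g)
    rw [ser_eq A π F Fk (f * g) (y := ser A π F Fk f * ser A π F Fk g)
      (by rw [map_mul, coeffMap_ser, coeffMap_ser]; rfl), map_mul]
  map_zero' := by
    apply Subtype.ext
    show coeffMap π (ser A π F Fk 0) = 0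
    rw [ser_eq A π F Fk 0 (y := 0) (by rw [map_zero]; rfl), map_zero]
  map_add' f g := by
    apply Subtype.ext
    show coeffMap π (ser A π F Fk (f + g))
      = coeffMap π (ser A π F Fk f) + coeffMap π (ser A π F Fk g)
    rw [ser_eq A π F Fk (f + g) (y := ser A π F Fk f + ser A π F Fk g)
      (by rw [map_add, coeffMap_ser, coeffMap_ser]; rfl), map_add]

theorem coe_redO (f : intO A π F Fk) {y : LaurentSeries A}
    (hy : coeffMap A.subtype y = ((f : F) : LaurentSeries L)) :
    ((redO A π F Fk f : Fk) : LaurentSeries k) = coeffMap π y := by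
  show coeffMap π (ser A π F Fk f) = coeffMap π y
  rw [ser_eq A π F Fk f hy]

theorem const_isInt (a : A) : IsInt A π F Fk (algebraMap L F (a : L)) := by
  refine ⟨HahnSeries.single 0 a, ?_, ?_⟩
  · rw [coeffMap_single]
    show HahnSeries.single 0 (a : L) = algebraMap L (LaurentSeries L) (a : L)
    rw [algebraMap_laurentSeries_eq_single]
  · rw [coeffMap_single, ← algebraMap_laurentSeries_eq_single]
    exact Fk.algebraMap_mem _

theorem redO_const (a : A) :
    redO A π F Fk ⟨algebraMap L F (a : L), const_isInt A π F Fk a⟩ = algebraMap k Fk (π a) := by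
  apply Subtype.ext
  rw [coe_redO A π F Fk ⟨_, const_isInt A π F Fk a⟩ (y := HahnSeries.single 0 a)]
  · rw [coeffMap_single, ← algebraMap_laurentSeries_eq_single]
    rfl
  · rw [coeffMap_single]
    show HahnSeries.single 0 (a : L) = algebraMap L (LaurentSeries L) (a : L)
    rw [algebraMap_laurentSeries_eq_single]

/-- an element of `intO` from an integral series -/
def ofSer (y : LaurentSeries A) (hy : coeffMap A.subtype y ∈ F) (hyk : coeffMap π y ∈ Fk) :
    intO A π F Fk :=
  ⟨⟨coeffMap A.subtype y, hy⟩, y, rfl, hyk⟩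

@[simp] theorem coe_ofSer (y : LaurentSeries A) (hy : coeffMap A.subtype y ∈ F)
    (hyk : coeffMap π y ∈ Fk) :
    ((ofSer A π F Fk y hy hyk : intO A π F Fk) : F) = ⟨coeffMap A.subtype y, hy⟩ := rfl

theorem redO_ofSer (y : LaurentSeries A) (hy : coeffMap A.subtype y ∈ F)
    (hyk : coeffMap π y ∈ Fk) :
    redO A π F Fk (ofSer A π F Fk y hy hyk) = ⟨coeffMap π y, hyk⟩ :=
  Subtype.ext (coe_redO A π F Fk _ rfl)

end Series

section Instance

variable {L : Type*} [Field L] [Algebra ℚ L] (A : ValuationSubring L)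
variable {k : Type*} [Field k] (π : A →+* k) (N : ℕ)

/-- **The modular instance of `RedCore`.** -/
def modRedCore (hπ : ∀ a : A, ¬ IsUnit a → π a = 0)
    (r : Place L (laurentBaseChange L (modularFunctionFieldFull N)) →
      Place k (modularFunctionFieldFullC k N))
    (hr : IsPlaceReductionAlong A π N r) :
    RedCore L (laurentBaseChange L (modularFunctionFieldFull N)) k
      (modularFunctionFieldFullC k N) where
  A := A
  res := π
  res_eq_zero := hπ
  O := intO A π (laurentBaseChange L (modularFunctionFieldFull N)) (modularFunctionFieldFullC k N)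
  ρ := redO A π (laurentBaseChange L (modularFunctionFieldFull N)) (modularFunctionFieldFullC k N)
  const_mem := const_isInt A π _ _
  ρ_const := redO_const A π _ _
  r := r
  red := by
    intro y hy D hD Q
    have h1 := coeffMap_ser A π (laurentBaseChange L (modularFunctionFieldFull N))
      (modularFunctionFieldFullC k N) y
    have hmem : coeffMap A.subtype (ser A π _ _ y) ∈
        laurentBaseChange L (modularFunctionFieldFull N) := by
      rw [h1]; exact Subtype.mem _
    have hyeq : (⟨coeffMap A.subtype (ser A π _ _ y), hmem⟩ :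
        laurentBaseChange L (modularFunctionFieldFull N)) = (y : laurentBaseChange L
          (modularFunctionFieldFull N)) := Subtype.ext h1
    have hne : coeffMap π (ser A π (laurentBaseChange L (modularFunctionFieldFull N))
        (modularFunctionFieldFullC k N) y) ≠ 0 := by
      intro h0
      apply hy
      apply Subtype.ext
      exact h0
    have := hr.2 (ser A π _ _ y) hmem (coeffMap_ser_mem A π _ _ y) hne D
      (fun P => by rw [hD P, hyeq]) Q
    exact this

end Instance

end Fermat.Agent.S15.H722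

end
end
-- ===== PACK-END S15/H722/ModRed.lean

-- ===== PACK-BEGIN S15/H722/HasValAlg.lean
section


/-!
# S15 / COMPAT (helper722): algebra of values at a place
-/

set_option autoImplicit false

noncomputable section

open AlgebraicCurve

namespace Fermat.Agent.S15.H722

open Fermat.Agent.Lib.RR Fermat.Agent.S18.H725

variable {K F : Type*} [Field K] [Field F] [Algebra K F]

/-- `HasVal` in terms of the residue map. -/
theorem hasVal_iff_residue {P : Place K F} {f : F} {c : K} :
    HasVal P f c ↔ ∃ h : f ∈ P.toValuationSubring,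
      IsLocalRing.residue P.toValuationSubring ⟨f, h⟩ = algebraMap K P.ResidueField c := by
  constructor
  · intro hv
    have hmem : f ∈ P.toValuationSubring := mem_of_ord_nonneg P hv.ord_nonneg
    refine ⟨hmem, ?_⟩
    have hsub : (⟨f, hmem⟩ - algebraMap K P.toValuationSubring c : P.toValuationSubring) ∈
        IsLocalRing.maximalIdeal P.toValuationSubring := by
      rw [mem_maximalIdeal_iff]
      have hv' : f - algebraMap K F c = 0 ∨ 0 < P.ord (f - algebraMap K F c) := hv
      simpa using hv'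
    have := (IsLocalRing.residue_eq_zero_iff _).mpr hsub
    rw [map_sub, sub_eq_zero] at this
    rw [this, IsScalarTower.algebraMap_apply K P.toValuationSubring P.ResidueField]
    rfl
  · rintro ⟨hmem, hres⟩
    have hsub : IsLocalRing.residue P.toValuationSubring
        (⟨f, hmem⟩ - algebraMap K P.toValuationSubring c) = 0 := by
      rw [map_sub, hres, IsScalarTower.algebraMap_apply K P.toValuationSubring P.ResidueField]
      exact sub_self _
    rw [IsLocalRing.residue_eq_zero_iff, mem_maximalIdeal_iff] at hsub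
    have hsub' : f - algebraMap K F c = 0 ∨ 0 < P.ord (f - algebraMap K F c) := by
      simpa using hsub
    exact hsub'

theorem hasVal_const (P : Place K F) (c : K) : HasVal P (algebraMap K F c) c :=
  Or.inl (sub_self _)

theorem HasVal.mul {P : Place K F} {f g : F} {a b : K} (hf : HasVal P f a) (hg : HasVal P g b) :
    HasVal P (f * g) (a * b) := by
  rw [hasVal_iff_residue] at hf hg ⊢
  obtain ⟨hfm, hfr⟩ := hf
  obtain ⟨hgm, hgr⟩ := hg
  refine ⟨mul_mem hfm hgm, ?_⟩
  have : (⟨f * g, mul_mem hfm hgm⟩ : P.toValuationSubring) = ⟨f, hfm⟩ * ⟨g, hgm⟩ := rfl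
  rw [this, map_mul, hfr, hgr, map_mul]

theorem HasVal.add {P : Place K F} {f g : F} {a b : K} (hf : HasVal P f a) (hg : HasVal P g b) :
    HasVal P (f + g) (a + b) := by
  rw [hasVal_iff_residue] at hf hg ⊢
  obtain ⟨hfm, hfr⟩ := hf
  obtain ⟨hgm, hgr⟩ := hg
  refine ⟨add_mem hfm hgm, ?_⟩
  have : (⟨f + g, add_mem hfm hgm⟩ : P.toValuationSubring) = ⟨f, hfm⟩ + ⟨g, hgm⟩ := rfl
  rw [this, map_add, hfr, hgr, map_add]

theorem HasVal.pow {P : Place K F} {f : F} {a : K} (hf : HasVal P f a) (n : ℕ) :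
    HasVal P (f ^ n) (a ^ n) := by
  induction n with
  | zero =>
    rw [pow_zero, pow_zero]
    have := hasVal_const P (1 : K)
    rwa [map_one] at this
  | succ n ih =>
    rw [pow_succ, pow_succ]
    exact ih.mul hf

theorem HasVal.inv {P : Place K F} {f : F} {a : K} (hf : HasVal P f a) (ha : a ≠ 0) :
    HasVal P f⁻¹ a⁻¹ := by
  have hord : P.ord f = 0 := ord_eq_zero_of_sub_pos P ha hf
  have hf0 : f ≠ 0 := by
    rintro rfl
    rcases hf with h | h
    · rw [zero_sub, neg_eq_zero] at h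
      exact ((map_ne_zero (algebraMap K F)).mpr ha) h
    · rw [zero_sub, ord_neg, ord_algebraMap] at h
      exact lt_irrefl _ h
  have hinvm : f⁻¹ ∈ P.toValuationSubring := mem_of_ord_nonneg P (by rw [P.ord_inv, hord]; simp)
  have hfg := hf
  rw [hasVal_iff_residue] at hf ⊢
  obtain ⟨hfm, hfr⟩ := hf
  refine ⟨hinvm, ?_⟩
  have hmul : (⟨f, hfm⟩ : P.toValuationSubring) * ⟨f⁻¹, hinvm⟩ = 1 :=
    Subtype.ext (mul_inv_cancel₀ hf0)
  have h1 := congrArg (IsLocalRing.residue P.toValuationSubring) hmul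
  rw [map_mul, map_one, hfr] at h1
  rw [map_inv₀]
  exact eq_inv_of_mul_eq_one_right h1

theorem HasVal.div {P : Place K F} {f g : F} {a b : K} (hf : HasVal P f a) (hg : HasVal P g b)
    (hb : b ≠ 0) : HasVal P (f / g) (a / b) := by
  rw [div_eq_mul_inv, div_eq_mul_inv]
  exact hf.mul (hg.inv hb)

theorem HasVal.ord_eq_zero {P : Place K F} {f : F} {a : K} (hf : HasVal P f a) (ha : a ≠ 0) :
    P.ord f = 0 :=
  ord_eq_zero_of_sub_pos P ha hf

/-- a function vanishing at `P` has value `0` after multiplication by a regular function -/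
theorem hasVal_zero_mul {P : Place K F} {f g : F} (hf : HasVal P f 0) (hg : 0 ≤ P.ord g) :
    HasVal P (f * g) 0 := by
  rcases eq_or_ne f 0 with rfl | hf0
  · rw [zero_mul]; exact Or.inl (by simp)
  rcases eq_or_ne g 0 with rfl | hg0
  · rw [mul_zero]; exact Or.inl (by simp)
  right
  rw [map_zero, sub_zero, P.ord_mul hf0 hg0]
  have := hf.ord_pos_of_zero hf0
  omega

end Fermat.Agent.S15.H722

end
end
-- ===== PACK-END S15/H722/HasValAlg.lean

-- ===== PACK-BEGIN S15/H722/LevelP.lean
section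



/-!
# S15 / COMPAT (helper722): the cusp criterion for `X₀(p)`

`F = L(X₀(N))` (`laurentBaseChange L (modularFunctionFieldFull N)`), `A ⊆ L` a valuation ring,
`π : A → k`, `r` a place reduction (`IsPlaceReductionAlong A π N r`).

* `jF`, `jdF d` : the functions `j`, `j_d = j(q^d)` in `F`; `jFk`, `jdFk` in `F_k`;
* `r_eq_cusp` : **COMPAT-FF**.  Let `d ∣ N`, `d > 0` (in the application `d = N = p`).  Assume
  - (`hzero`, `hpole`) `r` maps zeros of `j` to zeros of `j̄` and poles of `j` to poles of `j̄`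
    (degree preservation for `j`),
  - (`hcusps`) the poles of `j` are the places `Cinf`, `C0`,
  - (`hjd`) `j_d` has poles only at poles of `j`,
  - (`hinf`, `h0`) `j_d / j ^ d` takes the value `1` at `Cinf` and `0` at `C0`.
  Let `W` be a place with `j(W) = a ∉ A`, `j_d(W) = b`.  Then `b / a ^ d ∈ A`;
  if `b / a ^ d` is a unit of `A` then `r W = r Cinf`; if it is a non-unit then `r W = r C0`.
* `reductionAlong_eq_zero` : consequently the class of `W - C` dies under `reductionAlong`.
-/

set_option autoImplicit false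
set_option synthInstance.maxHeartbeats 400000

noncomputable section

open AlgebraicCurve ModularCurve HahnSeries

namespace Fermat.Agent.S15.H722

open Fermat.Agent.Lib.RR Fermat.Agent.S18.H725

section Series

/-- the `q`-series of `1 / j` over any commutative ring -/
def jInvSer (R : Type*) [CommRing R] : LaurentSeries R :=
  HahnSeries.single (1 : ℤ) 1 *
    HahnSeries.ofPowerSeries ℤ R ((jNum.map (Int.castRingHom R)).invOfUnit 1)

theorem jqModC_mul_jInvSer (R : Type*) [CommRing R] : jqModC R * jInvSer R = 1 := by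
  have hc : PowerSeries.constantCoeff (jNum.map (Int.castRingHom R)) = ((1 : Rˣ) : R) := by
    rw [← PowerSeries.coeff_zero_eq_constantCoeff, PowerSeries.coeff_map,
      PowerSeries.coeff_zero_eq_constantCoeff, constantCoeff_jNum]
    simp
  have h1 := PowerSeries.mul_invOfUnit (jNum.map (Int.castRingHom R)) 1 hc
  have h2 : HahnSeries.ofPowerSeries ℤ R (jNum.map (Int.castRingHom R)) *
      HahnSeries.ofPowerSeries ℤ R ((jNum.map (Int.castRingHom R)).invOfUnit 1) = 1 := by
    rw [← map_mul, h1, map_one]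
  have h3 : HahnSeries.single (-1 : ℤ) (1 : R) * HahnSeries.single (1 : ℤ) 1 = 1 := by
    rw [HahnSeries.single_mul_single]
    simp
  calc jqModC R * jInvSer R
      = (HahnSeries.single (-1 : ℤ) (1 : R) * HahnSeries.single (1 : ℤ) 1) *
          (HahnSeries.ofPowerSeries ℤ R (jNum.map (Int.castRingHom R)) *
            HahnSeries.ofPowerSeries ℤ R ((jNum.map (Int.castRingHom R)).invOfUnit 1)) := by
        rw [jqModC, jInvSer]; ring
    _ = 1 := by rw [h2, h3, mul_one]

theorem coeffMap_jInvSer_mul {R S : Type*} [CommRing R] [CommRing S] (f : R →+* S) :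
    jqModC S * coeffMap f (jInvSer R) = 1 := by
  rw [← coeffMap_jqModC f, ← map_mul, jqModC_mul_jInvSer, map_one]

theorem jqModC_ne_zero' (S : Type*) [Field S] : jqModC S ≠ 0 := by
  intro h
  have := jqModC_mul_jInvSer S
  rw [h, zero_mul] at this
  exact zero_ne_one this

theorem coeffMap_jInvSer {R S : Type*} [CommRing R] [Field S] (f : R →+* S) :
    coeffMap f (jInvSer R) = (jqModC S)⁻¹ :=
  eq_inv_of_mul_eq_one_right (coeffMap_jInvSer_mul f)

end Series

section Functions

variable (L : Type*) [Field L] [Algebra ℚ L] (N : ℕ)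

theorem jd_mem_F {d : ℕ} [NeZero d] (hd : d ∣ N) :
    qExpand L d (jqModC L) ∈ laurentBaseChange L (modularFunctionFieldFull N) := by
  have h1 : qExpand ℚ d jq ∈ modularFunctionFieldFull N := jqd_mem_full N hd
  have h2 := coeffEmb_mem_laurentBaseChange L h1
  have h3 : coeffEmb L (qExpand ℚ d jq) = qExpand L d (jqModC L) := by
    rw [coeffEmb, ModularCurve.coeffMap_qExpand, ← jqModC_rat, coeffMap_jqModC]
  rwa [h3] at h2

theorem j_mem_F : jqModC L ∈ laurentBaseChange L (modularFunctionFieldFull N) := by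
  have := jd_mem_F L N (d := 1) (one_dvd N)
  rwa [qExpand_one_apply] at this

/-- `j` as an element of `F` -/
def jF : laurentBaseChange L (modularFunctionFieldFull N) := ⟨jqModC L, j_mem_F L N⟩

/-- `j_d` as an element of `F` -/
def jdF {d : ℕ} [NeZero d] (hd : d ∣ N) : laurentBaseChange L (modularFunctionFieldFull N) :=
  ⟨qExpand L d (jqModC L), jd_mem_F L N hd⟩

theorem jF_ne_zero : jF L N ≠ 0 := fun h =>
  jqModC_ne_zero' L (congrArg Subtype.val h)

end Functions

section FunctionsK

variable (k : Type*) [Field k] (N : ℕ)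

/-- `j` as an element of `F_k` -/
def jFk : modularFunctionFieldFullC k N := ⟨jqModC k, jqModC_mem_full k N⟩

/-- `j_d` as an element of `F_k` -/
def jdFk {d : ℕ} [NeZero d] (hd : d ∣ N) : modularFunctionFieldFullC k N :=
  ⟨qExpand k d (jqModC k), jqModCd_mem_full k N hd⟩

theorem jFk_ne_zero : jFk k N ≠ 0 := fun h =>
  jqModC_ne_zero' k (congrArg Subtype.val h)

end FunctionsK

section Integral

variable {L : Type*} [Field L] [Algebra ℚ L] (A : ValuationSubring L)
variable {k : Type*} [Field k] (π : A →+* k) (N : ℕ)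

local notation "FL" => laurentBaseChange L (modularFunctionFieldFull N)
local notation "Fk" => modularFunctionFieldFullC k N

/-- `j` as an integral function -/
def jO : intO A π FL Fk :=
  ofSer A π FL Fk (jqModC A) (by rw [coeffMap_jqModC]; exact j_mem_F L N)
    (by rw [coeffMap_jqModC]; exact jqModC_mem_full k N)

theorem coe_jO : ((jO A π N : intO A π FL Fk) : FL) = jF L N :=
  Subtype.ext (coeffMap_jqModC A.subtype)

theorem redO_jO : redO A π FL Fk (jO A π N) = jFk k N := by
  rw [jO, redO_ofSer]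
  exact Subtype.ext (coeffMap_jqModC π)

/-- `j_d` as an integral function -/
def jdO {d : ℕ} [NeZero d] (hd : d ∣ N) : intO A π FL Fk :=
  ofSer A π FL Fk (qExpand A d (jqModC A))
    (by rw [ModularCurve.coeffMap_qExpand, coeffMap_jqModC]; exact jd_mem_F L N hd)
    (by rw [ModularCurve.coeffMap_qExpand, coeffMap_jqModC]; exact jqModCd_mem_full k N hd)

theorem coe_jdO {d : ℕ} [NeZero d] (hd : d ∣ N) :
    ((jdO A π N hd : intO A π FL Fk) : FL) = jdF L N hd :=
  Subtype.ext (by
    show coeffMap A.subtype (qExpand A d (jqModC A)) = qExpand L d (jqModC L)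
    rw [ModularCurve.coeffMap_qExpand, coeffMap_jqModC])

/-- `1 / j` as an integral function -/
def xO : intO A π FL Fk :=
  ofSer A π FL Fk (jInvSer A)
    (by rw [coeffMap_jInvSer]; exact inv_mem (j_mem_F L N))
    (by rw [coeffMap_jInvSer]; exact inv_mem (jqModC_mem_full k N))

theorem coe_xO : ((xO A π N : intO A π FL Fk) : FL) = (jF L N)⁻¹ :=
  Subtype.ext (by
    show coeffMap A.subtype (jInvSer A) = ((jF L N)⁻¹ : FL)
    rw [coeffMap_jInvSer]; rfl)

theorem redO_xO : redO A π FL Fk (xO A π N) = (jFk k N)⁻¹ := by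
  rw [xO, redO_ofSer]
  exact Subtype.ext (by
    show coeffMap π (jInvSer A) = ((jFk k N)⁻¹ : Fk)
    rw [coeffMap_jInvSer]; rfl)

end Integral

section Main

variable {L : Type*} [Field L] [Algebra ℚ L] (A : ValuationSubring L)
variable {k : Type*} [Field k] (π : A →+* k) (N : ℕ)

local notation "FL" => laurentBaseChange L (modularFunctionFieldFull N)
local notation "Fk" => modularFunctionFieldFullC k N

/-- the coordinate at infinity `x = 1 / j` of the modular place reduction -/
def modInfCoord (hπ : ∀ a : A, ¬ IsUnit a → π a = 0)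
    (r : Place L FL → Place k Fk) (hr : IsPlaceReductionAlong A π N r)
    (hzero : ∀ P : Place L FL, 0 < P.ord (jF L N) → 0 < (r P).ord (jFk k N))
    (hpole : ∀ P : Place L FL, P.ord (jF L N) < 0 → (r P).ord (jFk k N) < 0) :
    InfCoord (modRedCore A π N hπ r hr) where
  x := xO A π N
  xi := jO A π N
  mul_eq_one := by
    rw [coe_xO, coe_jO]
    exact inv_mul_cancel₀ (jF_ne_zero L N)
  zero_to_zero := by
    intro P hP
    rw [coe_xO, P.ord_inv] at hP
    show 0 < (r P).ord (redO A π FL Fk (xO A π N))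
    rw [redO_xO, (r P).ord_inv]
    have := hpole P (by omega)
    omega
  pole_to_pole := by
    intro P hP
    rw [coe_xO, P.ord_inv] at hP
    show (r P).ord (redO A π FL Fk (xO A π N)) < 0
    rw [redO_xO, (r P).ord_inv]
    have := hzero P (by omega)
    omega

/-- **COMPAT-FF: the cusp criterion.** -/
theorem r_eq_cusp [HasPrincipalDivisors L FL] (hπ : ∀ a : A, ¬ IsUnit a → π a = 0)
    (r : Place L FL → Place k Fk) (hr : IsPlaceReductionAlong A π N r)
    (hzero : ∀ P : Place L FL, 0 < P.ord (jF L N) → 0 < (r P).ord (jFk k N))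
    (hpole : ∀ P : Place L FL, P.ord (jF L N) < 0 → (r P).ord (jFk k N) < 0)
    {d : ℕ} [NeZero d] (hd : d ∣ N)
    {Cinf C0 : Place L FL}
    (hcusps : ∀ P : Place L FL, P.ord (jF L N) < 0 → P = Cinf ∨ P = C0)
    (hjd : ∀ P : Place L FL, P.ord (jdF L N hd) < 0 → P.ord (jF L N) < 0)
    (hinf : HasVal Cinf (jdF L N hd / jF L N ^ d) 1)
    (h0 : HasVal C0 (jdF L N hd / jF L N ^ d) 0)
    {W : Place L FL} {a b : L} (ha : HasVal W (jF L N) a) (hb : HasVal W (jdF L N hd) b)
    (haA : a ∉ A) :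
    ∃ h : b / a ^ d ∈ A, (IsUnit (⟨b / a ^ d, h⟩ : A) → r W = r Cinf) ∧
      (¬ IsUnit (⟨b / a ^ d, h⟩ : A) → r W = r C0) := by
  classical
  set Φ := modRedCore A π N hπ r hr with hΦ
  set X := modInfCoord A π N hπ r hr hzero hpole with hX
  have ha0 : a ≠ 0 := by
    rintro rfl
    exact haA (zero_mem _)
  have hainv : a⁻¹ ∈ A := (A.mem_or_inv_mem a).resolve_left haA
  have hnu : ¬ IsUnit (⟨a⁻¹, hainv⟩ : A) := by
    intro hu
    apply haA
    obtain ⟨u, hu⟩ := hu
    have h1 : ((u⁻¹ : Aˣ) : A) * ⟨a⁻¹, hainv⟩ = 1 := by rw [← hu]; exact Units.inv_mul u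
    have h2 : (((u⁻¹ : Aˣ) : A) : L) * a⁻¹ = 1 := by
      have := congrArg Subtype.val h1
      simpa using this
    have h3 : (((u⁻¹ : Aˣ) : A) : L) = a := by
      field_simp at h2
      exact h2
    rw [← h3]
    exact Subtype.mem _
  -- the function `u = j_d * x ^ d`
  set u : intO A π FL Fk := jdO A π N hd * xO A π N ^ d with hu
  have hucoe : ((u : intO A π FL Fk) : FL) = jdF L N hd / jF L N ^ d := by
    rw [hu]
    push_cast
    rw [coe_jdO, coe_xO, inv_pow, div_eq_mul_inv]
  have hxcoe : ((X.x : Φ.O) : FL) = (jF L N)⁻¹ := coe_xO A π N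
  have hcusps' : ∀ P : Place L FL, 0 < P.ord ((X.x : Φ.O) : FL) → P = Cinf ∨ P = C0 := by
    intro P hP
    rw [hxcoe, P.ord_inv] at hP
    exact hcusps P (by omega)
  have hupoles : ∀ P : Place L FL, P.ord ((u : intO A π FL Fk) : FL) < 0 →
      P.ord ((X.x : Φ.O) : FL) < 0 := by
    intro P hP
    rw [hxcoe, P.ord_inv]
    by_contra hcon
    push Not at hcon
    have hj : P.ord (jF L N) ≤ 0 := by omega
    rcases lt_or_eq_of_le hj with hlt | heq
    · -- `P` is a cusp, where `u` is regular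
      rcases hcusps P hlt with rfl | rfl
      · have := hinf.ord_nonneg
        rw [← hucoe] at this
        omega
      · have := h0.ord_nonneg
        rw [← hucoe] at this
        omega
    · -- `j` is a unit at `P`, so `j_d` is regular at `P`
      have hjd' : 0 ≤ P.ord (jdF L N hd) := by
        by_contra hneg
        push Not at hneg
        have := hjd P hneg
        omega
      rw [hucoe] at hP
      have hjne : jF L N ^ d ≠ 0 := pow_ne_zero _ (jF_ne_zero L N)
      rcases eq_or_ne (jdF L N hd) 0 with h0' | hne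
      · rw [h0', zero_div, P.ord_zero] at hP
        exact lt_irrefl _ hP
      · rw [div_eq_mul_inv, P.ord_mul hne (inv_ne_zero hjne), P.ord_inv, ord_pow, heq] at hP
        omega
  have hW : HasVal W ((X.x : Φ.O) : FL) ((⟨a⁻¹, hainv⟩ : A) : L) := by
    rw [hxcoe]
    exact ha.inv ha0
  have hbu : HasVal W ((u : intO A π FL Fk) : FL) (b / a ^ d) := by
    rw [hucoe]
    exact hb.div (ha.pow d) (pow_ne_zero _ ha0)
  have hu1 : HasVal Cinf ((u : intO A π FL Fk) : FL) 1 := by rw [hucoe]; exact hinf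
  have hu0 : HasVal C0 ((u : intO A π FL Fk) : FL) 0 := by rw [hucoe]; exact h0
  obtain ⟨hbA, h1, h2⟩ := X.r_eq_of_two_cusps (C₁ := Cinf) (C₀ := C0) hcusps' (u := u) hupoles
    hu1 hu0 (c := ⟨a⁻¹, hainv⟩) hnu hW hbu
  refine ⟨hbA, fun hunit => ?_, fun hnunit => ?_⟩
  · refine h1 ?_
    show π ⟨b / a ^ d, hbA⟩ ≠ 0
    exact (hunit.map π).ne_zero
  · refine h2 ?_
    show π ⟨b / a ^ d, hbA⟩ = 0
    exact hπ _ hnunit

end Main

end Fermat.Agent.S15.H722

end
end
-- ===== PACK-END S15/H722/LevelP.lean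

-- ===== PACK-BEGIN S15/H602/IdentCore.lean
section


/-!
# S15 / GEO-PARTS (b) IDENT (helper602): the abstract core

Pure `Finsupp` combinatorics and the type separation on an abstract place reduction
(`H722.RedCore`, `H722.InfCoord`).

* `mapDomain_filter_eq_zero_of_saturated602` : if `r_* D = 0` and `S` is saturated for `r` on the
  support of `D`, then `r_* (D|_S) = 0`;
* `mapDomain_eq_of_parts602` : if moreover `E₀` is the polar part of `D|_S`, `0 ≤ E₁ ≤` the zero
  part of `D|_S` and `deg E₁ = deg E₀`, then `r_* E₁ = r_* E₀`;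
* `NearCusp602`, `res_eq_of_r_eq602` : two places near the cusps (non-unit value of the
  coordinate `x = 1 / j`) with the same reduction give the same residue to every integral function
  `u` with poles only at poles of `x`.
-/

set_option autoImplicit false

noncomputable section

open AlgebraicCurve

namespace Fermat.Agent.S15.H602

section Pure

variable {α β : Type*}

theorem mapDomain_apply_eq_sum602 [DecidableEq β] (r : α → β) (D : α →₀ ℤ) (Q : β) :
    Finsupp.mapDomain r D Q = ∑ a ∈ D.support, if r a = Q then D a else 0 := by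
  classical
  rw [Finsupp.mapDomain, Finsupp.sum_apply, Finsupp.sum]
  refine Finset.sum_congr rfl fun a _ => ?_
  rw [Finsupp.single_apply]

/-- If `r_* D = 0` and `S` is a union of fibres of `r` on the support of `D`, then
`r_* (D|_S) = 0`. -/
theorem mapDomain_filter_eq_zero_of_saturated602 (r : α → β) (D : α →₀ ℤ)
    (hD : Finsupp.mapDomain r D = 0) (S : α → Prop) [DecidablePred S]
    (hsat : ∀ a b, D a ≠ 0 → D b ≠ 0 → r a = r b → S a → S b) :
    Finsupp.mapDomain r (D.filter S) = 0 := by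
  classical
  ext Q
  rw [Finsupp.zero_apply, mapDomain_apply_eq_sum602]
  by_cases hex : ∃ a, D a ≠ 0 ∧ S a ∧ r a = Q
  · obtain ⟨a₀, ha₀, hSa₀, hra₀⟩ := hex
    have h0 : Finsupp.mapDomain r D Q = 0 := by rw [hD, Finsupp.zero_apply]
    rw [mapDomain_apply_eq_sum602] at h0
    have key : (∑ a ∈ (D.filter S).support, if r a = Q then (D.filter S) a else 0) =
        ∑ a ∈ D.support, if r a = Q then D a else 0 := by
      rw [Finsupp.support_filter, Finset.sum_filter]
      refine Finset.sum_congr rfl fun a ha => ?_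
      have haD : D a ≠ 0 := Finsupp.mem_support_iff.mp ha
      by_cases hra : r a = Q
      · have hSa : S a := hsat a₀ a ha₀ haD (hra₀.trans hra.symm) hSa₀
        rw [if_pos hSa, if_pos hra, if_pos hra, Finsupp.filter_apply_pos S D hSa]
      · rw [if_neg hra, if_neg hra]
        simp
    rw [key, h0]
  · push Not at hex
    refine Finset.sum_eq_zero fun a ha => ?_
    rw [Finsupp.support_filter, Finset.mem_filter, Finsupp.mem_support_iff] at ha
    by_cases hra : r a = Q
    · exact absurd hra (hex a ha.1 ha.2)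
    · rw [if_neg hra]

/-- The weighted degree of a finitely supported function. -/
def wdeg602 (w : α → ℤ) : (α →₀ ℤ) →+ ℤ :=
  Finsupp.liftAddHom fun a => AddMonoidHom.mulRight (w a)

@[simp] theorem wdeg602_single (w : α → ℤ) (a : α) (n : ℤ) :
    wdeg602 w (Finsupp.single a n) = n * w a := by
  simp [wdeg602]

theorem wdeg602_eq_sum (w : α → ℤ) (E : α →₀ ℤ) :
    wdeg602 w E = ∑ a ∈ E.support, E a * w a := by
  simp [wdeg602, Finsupp.liftAddHom_apply, Finsupp.sum]

/-- An effective `E` of weighted degree `0` (positive weights) is `0`. -/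
theorem eq_zero_of_wdeg602_eq_zero (w : α → ℤ) (hw : ∀ a, 0 < w a) (E : α →₀ ℤ)
    (hE : ∀ a, 0 ≤ E a) (h0 : wdeg602 w E = 0) : E = 0 := by
  classical
  rw [wdeg602_eq_sum] at h0
  have hnn : ∀ a ∈ E.support, 0 ≤ E a * w a := fun a _ => mul_nonneg (hE a) (hw a).le
  have hz := (Finset.sum_eq_zero_iff_of_nonneg hnn).mp h0
  ext a
  rw [Finsupp.zero_apply]
  by_contra hne
  have ha : a ∈ E.support := Finsupp.mem_support_iff.mpr hne
  have := hz a ha
  rcases mul_eq_zero.mp this with h | h
  · exact hne h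
  · exact (hw a).ne' h

/-- **Core of IDENT.**  `D` with `r_* D = 0`, `S` saturated on the support of `D`, `E₀` the polar
part of `D|_S`, `0 ≤ E₁ ≤` the zero part of `D|_S`, `deg E₁ = deg E₀`, and `r_*` detecting the
degree: then `r_* E₁ = r_* E₀`. -/
theorem mapDomain_eq_of_parts602 (r : α → β) (w : α → ℤ) (hw : ∀ a, 0 < w a)
    (hr0 : ∀ E : α →₀ ℤ, Finsupp.mapDomain r E = 0 → wdeg602 w E = 0)
    (D : α →₀ ℤ) (hD : Finsupp.mapDomain r D = 0) (S : α → Prop)
    (hsat : ∀ a b, D a ≠ 0 → D b ≠ 0 → r a = r b → S a → S b)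
    (E₁ E₀ : α →₀ ℤ)
    (hE₀ : ∀ a, (S a → D a < 0 → E₀ a = - D a) ∧ (¬ (S a ∧ D a < 0) → E₀ a = 0))
    (hE₁ : ∀ a, 0 ≤ E₁ a ∧ (E₁ a ≠ 0 → S a ∧ E₁ a ≤ D a))
    (hdeg : wdeg602 w E₁ = wdeg602 w E₀) :
    Finsupp.mapDomain r E₁ = Finsupp.mapDomain r E₀ := by
  classical
  have hDS := mapDomain_filter_eq_zero_of_saturated602 r D hD S hsat
  -- `G = D|_S + E₀` is the zero part of `D|_S`
  set G : α →₀ ℤ := D.filter S + E₀ with hG
  have hGa : ∀ a, G a = if S a ∧ 0 < D a then D a else 0 := by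
    intro a
    rw [hG, Finsupp.add_apply]
    by_cases hS : S a
    · rw [Finsupp.filter_apply_pos S D hS]
      rcases lt_trichotomy (D a) 0 with h | h | h
      · rw [(hE₀ a).1 hS h, if_neg (by rintro ⟨-, h'⟩; omega)]; ring
      · rw [(hE₀ a).2 (by rintro ⟨-, h'⟩; omega), if_neg (by rintro ⟨-, h'⟩; omega), h]; ring
      · rw [(hE₀ a).2 (by rintro ⟨-, h'⟩; omega), if_pos ⟨hS, h⟩]; ring
    · rw [Finsupp.filter_apply_neg S D hS, (hE₀ a).2 (fun h => hS h.1),
        if_neg (fun h => hS h.1)]; ring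
  have hle : ∀ a, 0 ≤ (G - E₁) a := by
    intro a
    rw [Finsupp.sub_apply, hGa]
    by_cases h1 : E₁ a = 0
    · rw [h1, sub_zero]
      split_ifs with h
      · exact h.2.le
      · exact le_rfl
    · obtain ⟨hS, hle⟩ := (hE₁ a).2 h1
      have hpos : 0 < E₁ a := lt_of_le_of_ne (hE₁ a).1 (Ne.symm h1)
      rw [if_pos ⟨hS, lt_of_lt_of_le hpos hle⟩]
      omega
  have hdegG : wdeg602 w (G - E₁) = 0 := by
    rw [map_sub, hG, map_add, hr0 _ hDS, zero_add, hdeg, sub_self]
  have hGE : G - E₁ = 0 := eq_zero_of_wdeg602_eq_zero w hw _ hle hdegG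
  have hGE' : E₁ = G := (sub_eq_zero.mp hGE).symm
  rw [hGE', hG, Finsupp.mapDomain_add, hDS, zero_add]

theorem wdeg602_mapDomain' (r : α → β) (w : α → ℤ) (w' : β → ℤ) (hww : ∀ a, w' (r a) = w a)
    (E : α →₀ ℤ) : wdeg602 w' (Finsupp.mapDomain r E) = wdeg602 w E := by
  induction E using Finsupp.induction_linear with
  | zero => simp
  | add f g hf hg => rw [Finsupp.mapDomain_add, map_add, map_add, hf, hg]
  | single a n => rw [Finsupp.mapDomain_single, wdeg602_single, wdeg602_single, hww]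

end Pure

theorem degree_eq_wdeg602' {K F : Type*} [Field K] [Field F] [Algebra K F] (D : Divisor K F) :
    Divisor.degree D = wdeg602 (fun v : Place K F => (v.deg : ℤ)) D := rfl

section Red

open Fermat.Agent.S15.H722 Fermat.Agent.Lib.RR

variable {K F k Fk : Type*} [Field K] [Field F] [Algebra K F] [Field k] [Field Fk] [Algebra k Fk]
variable {Φ : RedCore K F k Fk} (X : InfCoord Φ)

/-- `W` is near the cusps: the coordinate `x` takes a non-unit value of `A` at `W`. -/
def NearCusp602 (W : Place K F) : Prop :=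
  ∃ c : Φ.A, ¬ IsUnit c ∧ HasVal W (X.x : F) (c : K)

variable [HasPrincipalDivisors K F]

/-- Near the cusps, an integral function with poles only at poles of `x` has integral values,
and places with the same reduction give the same residue. -/
theorem res_eq_of_r_eq602 {u : Φ.O}
    (hu : ∀ P : Place K F, P.ord (u : F) < 0 → P.ord (X.x : F) < 0)
    {W W' : Place K F} (hW : NearCusp602 X W) (hW' : NearCusp602 X W')
    (hr : Φ.r W = Φ.r W') {b b' : K} (hb : HasVal W (u : F) b) (hb' : HasVal W' (u : F) b') :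
    ∃ (h : b ∈ Φ.A) (h' : b' ∈ Φ.A), Φ.res ⟨b, h⟩ = Φ.res ⟨b', h'⟩ := by
  obtain ⟨c, hc, hWc⟩ := hW
  obtain ⟨c', hc', hWc'⟩ := hW'
  have hQ := X.ord_ρx_pos hc hWc
  have hQ' := X.ord_ρx_pos hc' hWc'
  obtain ⟨h, h1⟩ := X.hasVal_near hu hQ hb
  obtain ⟨h', h2⟩ := X.hasVal_near hu hQ' hb'
  rw [← hr] at h2
  exact ⟨h, h', h1.unique h2⟩

omit [HasPrincipalDivisors K F] in
/-- Near the cusps, an integral function with poles only at poles of `x` is regular. -/
theorem ord_nonneg_of_nearCusp602 {u : Φ.O}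
    (hu : ∀ P : Place K F, P.ord (u : F) < 0 → P.ord (X.x : F) < 0)
    {W : Place K F} (hW : NearCusp602 X W) : 0 ≤ W.ord (u : F) := by
  obtain ⟨c, -, hWc⟩ := hW
  by_contra hcon
  push Not at hcon
  have := hu W hcon
  have := hWc.ord_nonneg
  omega

end Red

end Fermat.Agent.S15.H602

end

end
-- ===== PACK-END S15/H602/IdentCore.lean

-- ===== PACK-BEGIN S15/H602/IdentAbs.lean
section




/-!
# S15 / GEO-PARTS (b) IDENT (helper602): the abstract identification theorem

`Φ : RedCore K F k Fk` a place reduction on a function field `F`, `X` a coordinate at infinity,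
`ι : F₀ → F` an integral embedding of function fields, `u` an integral function with poles only at
poles of `x`, `z` an integral function reducing to `1`, `T` a "type" of residues.

`mapDomain_pullback_eq602` : if the poles of `z` over the place `P_c` of `F₀` are exactly
`ι^* P_c`, of type `T`, the other poles of `z` are not of type `T`, the zeros and poles of `z` are
near the cusps, and `z` vanishes on `ι^* P` with type `T`, then `r_* ι^* P = r_* ι^* P_c`.
-/

set_option autoImplicit false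

noncomputable section

open AlgebraicCurve

namespace Fermat.Agent.S15.H602

open Fermat.Agent.S15.H722 Fermat.Agent.Lib.RR

section Transfer

variable {K F F' : Type*} [Field K] [Field F] [Field F'] [Algebra K F] [Algebra K F']

theorem ramificationIndexAlong_pos602 (φ : F →ₐ[K] F') (hφ : φ.toRingHom.IsIntegral)
    (w : Place K F') : 0 < w.ramificationIndexAlong φ := by
  letI := algebraAlong φ
  haveI := isScalarTower_along φ
  haveI := isIntegral_along φ hφ
  exact w.ramificationIndex_pos (F := F)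

/-- Values transfer along an embedding of function fields. -/
theorem hasVal_map_iff602 (φ : F →ₐ[K] F') (hφ : φ.toRingHom.IsIntegral) (w : Place K F')
    (f : F) (c : K) : HasVal w (φ f) c ↔ HasVal (w.restrictAlong φ hφ) f c := by
  have hsub : φ f - algebraMap K F' c = φ (f - algebraMap K F c) := by
    rw [map_sub, AlgHom.commutes]
  have hord := Place.ord_restrictAlong φ hφ w (f - algebraMap K F c)
  have he := ramificationIndexAlong_pos602 φ hφ w
  have he' : (0 : ℤ) < (w.ramificationIndexAlong φ : ℤ) := by exact_mod_cast he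
  unfold HasVal
  rw [hsub, hord]
  constructor
  · rintro (h | h)
    · left
      exact (map_eq_zero φ).mp h
    · right
      exact (mul_pos_iff_of_pos_left he').mp h
  · rintro (h | h)
    · left
      rw [h, map_zero]
    · right
      exact mul_pos he' h

end Transfer

section Main

variable {K F₀ F k Fk : Type*} [Field K] [Field F₀] [Field F] [Algebra K F₀] [Algebra K F]
  [Field k] [Field Fk] [Algebra k Fk]
variable {Φ : RedCore K F k Fk} (X : InfCoord Φ) [HasPrincipalDivisors K F]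

/-- The type of a place near the cusps: the residue of the value of `u` satisfies `T`. -/
def HasType602 (u : Φ.O) (T : k → Prop) (W : Place K F) : Prop :=
  ∃ (β : K) (hβ : β ∈ Φ.A), HasVal W (u : F) β ∧ T (Φ.res ⟨β, hβ⟩)

theorem HasType602.not_of_not {u : Φ.O} {T : k → Prop} {W : Place K F}
    (h : HasType602 u (fun c => ¬ T c) W) : ¬ HasType602 u T W := by
  rintro ⟨β, hβ, hv, hT⟩
  obtain ⟨β', hβ', hv', hT'⟩ := h
  have := hv.unique hv'
  subst this
  exact hT' hT

/-- **IDENT, abstract form.** -/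
theorem mapDomain_pullback_eq602
    (hdeg1 : ∀ v : Place K F, v.deg = 1) (hr : ∀ P, (Φ.r P).deg = P.deg)
    (ι : F₀ →ₐ[K] F) (hι : ι.toRingHom.IsIntegral) (hFI : FundamentalIdentityAlong K ι hι)
    {u : Φ.O} (hu : ∀ P : Place K F, P.ord (u : F) < 0 → P.ord (X.x : F) < 0)
    (z : Φ.O) (hz : Φ.ρ z = 1) (T : k → Prop)
    (P Pc : Place K F₀) (hPdeg : P.deg = Pc.deg)
    (h1 : ∀ W : Place K F, W.ord (z : F) ≠ 0 → NearCusp602 X W)
    (h2 : ∀ W : Place K F, W.restrictAlong ι hι = Pc →
      W.ord (z : F) = -(W.ramificationIndexAlong ι : ℤ) ∧ HasType602 u T W)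
    (h3 : ∀ W : Place K F, W.ord (z : F) < 0 → W.restrictAlong ι hι ≠ Pc →
      HasType602 u (fun c => ¬ T c) W)
    (h4 : ∀ W : Place K F, W.restrictAlong ι hι = P →
      (W.ramificationIndexAlong ι : ℤ) ≤ W.ord (z : F) ∧ HasType602 u T W) :
    Finsupp.mapDomain Φ.r (Divisor.pullbackAlong ι hι (Finsupp.single P 1)) =
      Finsupp.mapDomain Φ.r (Divisor.pullbackAlong ι hι (Finsupp.single Pc 1)) := by
  classical
  have hz0 : Φ.ρ z ≠ 0 := by rw [hz]; exact one_ne_zero
  have hzne : (z : F) ≠ 0 := Φ.coe_ne_zero hz0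
  obtain ⟨D, hD, -⟩ := HasPrincipalDivisors.exists_divisor (K := K) (z : F) hzne
  have hDr : Finsupp.mapDomain Φ.r D = 0 := by
    ext Q
    rw [Φ.red z hz0 D hD Q, hz, Q.ord_one, Finsupp.zero_apply]
  have he : ∀ W : Place K F, (0 : ℤ) < (W.ramificationIndexAlong ι : ℤ) := fun W => by
    exact_mod_cast ramificationIndexAlong_pos602 ι hι W
  refine mapDomain_eq_of_parts602 Φ.r (fun v => (v.deg : ℤ))
    (fun v => by rw [hdeg1 v]; norm_num) ?_ D hDr
    (fun W => NearCusp602 X W ∧ HasType602 u T W) ?_ _ _ ?_ ?_ ?_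
  · -- `r_*` detects the degree
    intro E hE
    have := wdeg602_mapDomain' Φ.r (fun v : Place K F => (v.deg : ℤ))
      (fun v : Place k Fk => (v.deg : ℤ)) (fun a => by rw [hr a]) E
    rw [← this, hE, map_zero]
  · -- saturation
    rintro W W' hW hW' hrW ⟨hnc, β, hβ, hv, hT⟩
    rw [hD] at hW hW'
    have hnc' := h1 W' hW'
    refine ⟨hnc', ?_⟩
    have hreg := ord_nonneg_of_nearCusp602 X hu hnc'
    obtain ⟨β', hv'⟩ := exists_hasVal W' (hdeg1 W') hreg
    obtain ⟨hb, hb', hres⟩ := res_eq_of_r_eq602 X hu hnc hnc' hrW hv hv'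
    exact ⟨β', hb', hv', by rw [← hres]; exact hT⟩
  · -- `E₀`
    intro W
    rw [Divisor.pullbackAlong_apply, hD]
    constructor
    · rintro ⟨-, hS⟩ hneg
      by_cases hWc : W.restrictAlong ι hι = Pc
      · rw [hWc, Finsupp.single_eq_same, (h2 W hWc).1]; ring
      · exact absurd hS (h3 W hneg hWc).not_of_not
    · intro hnot
      by_cases hWc : W.restrictAlong ι hι = Pc
      · exfalso
        obtain ⟨h21, h22⟩ := h2 W hWc
        have hlt : W.ord (z : F) < 0 := by have := he W; omega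
        exact hnot ⟨⟨h1 W hlt.ne, h22⟩, hlt⟩
      · rw [Finsupp.single_eq_of_ne hWc, mul_zero]
  · -- `E₁`
    intro W
    rw [Divisor.pullbackAlong_apply, hD]
    by_cases hWP : W.restrictAlong ι hι = P
    · rw [hWP, Finsupp.single_eq_same, mul_one]
      obtain ⟨h41, h42⟩ := h4 W hWP
      have hpos := he W
      exact ⟨hpos.le, fun _ => ⟨⟨h1 W (by omega), h42⟩, h41⟩⟩
    · rw [Finsupp.single_eq_of_ne hWP, mul_zero]
      exact ⟨le_rfl, fun h => absurd rfl h⟩
  · -- degrees
    rw [← degree_eq_wdeg602', ← degree_eq_wdeg602', Divisor.degree_pullbackAlong ι hι hFI,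
      Divisor.degree_pullbackAlong ι hι hFI, Divisor.degree_single, Divisor.degree_single, hPdeg]

end Main

end Fermat.Agent.S15.H602

end

end
-- ===== PACK-END S15/H602/IdentAbs.lean

-- ===== PACK-BEGIN Lib/RR/H560/Hpd.lean
section





/-!
# RR library, bridge (helper560): `HasPrincipalDivisors` and `FF1`, CHARACTERISTIC-FREE

For `K` algebraically closed (any characteristic) and `F` finite over `K(x)`, `x` transcendental:

* every nonzero `f` has finitely many zeros and poles (`finite_ord_ne_zero`);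
* `deg (t)_∞ = [F : K(t)] = deg (t)_0` for transcendental `t` (`degree_poleD`, Stichtenoth 1.4.11:
  `≤` is layer L2 of the RR library, `≥` is the counting argument in `L(l B + C)` which uses only
  `dim L(D) ≤ deg D + 1` for `D ≥ 0`);
* hence `HasPrincipalDivisors K F` (`hasPrincipalDivisors`) and `FF1 K F` (`ff1`).

No separability, no Dedekind domains.

Main statements:
```
theorem hasPrincipalDivisors [IsAlgClosed K] (x : F) (hx : Transcendental K x)
    [FiniteDimensional K⟮x⟯ F] : HasPrincipalDivisors K F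
theorem ff1 [IsAlgClosed K] (x : F) (hx : Transcendental K x)
    [FiniteDimensional K⟮x⟯ F] : FF1 K F
```
-/

set_option autoImplicit false

noncomputable section

open AlgebraicCurve IntermediateField

namespace Fermat.Agent.Lib.RR.H560

open Fermat.Agent.Lib.RR

variable {K F : Type*} [Field K] [Field F] [Algebra K F]

/-! ### Finiteness of zeros and poles -/

/-- The zeros of `t` are finite in number, if `F` is finite over `K(t)`. -/
theorem finite_zeros (hdeg : ∀ v : Place K F, v.deg = 1) (t : F)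
    [FiniteDimensional K⟮t⟯ F] : {v : Place K F | 0 < v.ord t}.Finite := by
  classical
  by_contra hinf
  have hinf' : Set.Infinite {v : Place K F | 0 < v.ord t} := hinf
  obtain ⟨S, hS, hcard⟩ := hinf'.exists_subset_card_eq (Module.finrank K⟮t⟯ F + 1)
  have hS' : ∀ v ∈ S, 0 < v.ord t := fun v hv => hS hv
  have h1 := sum_ord_le_finrank hdeg t S hS'
  have h2 : ∑ _v ∈ S, (1 : ℤ) ≤ ∑ v ∈ S, v.ord t :=
    Finset.sum_le_sum fun v hv => by have := hS' v hv; omega
  rw [Finset.sum_const, hcard] at h2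
  simp only [nsmul_eq_mul, mul_one] at h2
  push_cast at h2
  omega

/-- The poles of `t` are finite in number, if `F` is finite over `K(t)`. -/
theorem finite_poles (hdeg : ∀ v : Place K F, v.deg = 1) (t : F)
    [FiniteDimensional K⟮t⟯ F] : {v : Place K F | v.ord t < 0}.Finite := by
  classical
  by_contra hinf
  have hinf' : Set.Infinite {v : Place K F | v.ord t < 0} := hinf
  obtain ⟨S, hS, hcard⟩ := hinf'.exists_subset_card_eq (Module.finrank K⟮t⟯ F + 1)
  have hS' : ∀ v ∈ S, v.ord t < 0 := fun v hv => hS hv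
  have h1 := sum_neg_ord_le_finrank hdeg t S hS'
  have h2 : ∑ _v ∈ S, (1 : ℤ) ≤ ∑ v ∈ S, -v.ord t :=
    Finset.sum_le_sum fun v hv => by have := hS' v hv; omega
  rw [Finset.sum_const, hcard] at h2
  simp only [nsmul_eq_mul, mul_one] at h2
  push_cast at h2
  omega

section AlgClosed

variable [IsAlgClosed K] (x : F) (hx : Transcendental K x) [hfinx : FiniteDimensional K⟮x⟯ F]

include hx hfinx

theorem hdeg_all (v : Place K F) : v.deg = 1 := S24.FF.deg_eq_one v hx

theorem hfin_all (t : F) (ht : Transcendental K t) : FiniteDimensional K⟮t⟯ F :=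
  S24.FF.finiteDimensional_adjoin_of_transcendental hx ht

/-- Every function has finitely many zeros and poles. -/
theorem finite_ord_ne_zero (f : F) : {v : Place K F | v.ord f ≠ 0}.Finite := by
  by_cases hfK : f ∈ (algebraMap K F).range
  · obtain ⟨c, rfl⟩ := hfK
    have : {v : Place K F | v.ord (algebraMap K F c) ≠ 0} = ∅ := by
      ext v
      simp [ord_algebraMap v c]
    rw [this]
    exact Set.finite_empty
  · have hft : Transcendental K f := S24.FF.transcendental_of_not_mem_range hfK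
    haveI : FiniteDimensional K⟮f⟯ F := hfin_all x hx f hft
    refine ((finite_zeros (hdeg_all x hx) f).union (finite_poles (hdeg_all x hx) f)).subset ?_
    intro v hv
    simp only [Set.mem_ofPred_eq, Set.mem_union] at hv ⊢
    omega

/-- The divisor of a function (`0` for `f = 0`). -/
def divF (f : F) : Divisor K F :=
  Finsupp.onFinset (finite_ord_ne_zero x hx f).toFinset (fun v => v.ord f)
    (fun v hv => by simpa using hv)

theorem divF_apply (f : F) (v : Place K F) : divF x hx f v = v.ord f := rfl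

/-- The pole divisor of a function. -/
def poleD (f : F) : Divisor K F := H409.negPartDiv (divF x hx f)

theorem poleD_apply (f : F) (v : Place K F) : poleD x hx f v = max 0 (-(v.ord f)) := by
  simp [poleD, divF_apply]

theorem poleD_nonneg (f : F) : 0 ≤ poleD x hx f := H409.negPartDiv_nonneg _

theorem neg_poleD_le_ord (f : F) (v : Place K F) : -(poleD x hx f v) ≤ v.ord f := by
  rw [poleD_apply]
  have := le_max_right 0 (-(v.ord f))
  omega

theorem divF_eq_sub (f : F) : divF x hx f = poleD x hx f⁻¹ - poleD x hx f := by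
  ext v
  rw [Finsupp.sub_apply, poleD_apply, poleD_apply, divF_apply, v.ord_inv, neg_neg]
  rcases le_total 0 (v.ord f) with h | h
  · rw [max_eq_right h, max_eq_left (by omega)]; ring
  · rw [max_eq_left h, max_eq_right (by omega)]; ring

/-! ### The upper bound `ℓ(D) ≤ deg D + 1` for effective divisors -/

/-- A function without poles is constant. -/
theorem L_zero_le :
    riemannRochSpace (0 : Divisor K F) ≤ LinearMap.range (Algebra.linearMap K F) := by
  intro f hf
  by_cases hfK : f ∈ (algebraMap K F).range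
  · obtain ⟨c, rfl⟩ := hfK
    exact ⟨c, rfl⟩
  · exfalso
    have hft : Transcendental K f := S24.FF.transcendental_of_not_mem_range hfK
    obtain ⟨v, hv⟩ := H443.exists_place_ord_neg (hfin_all x hx) hft
    have hf0 : f ≠ 0 := fun h => hft (h ▸ isAlgebraic_zero)
    have := (mem_L_iff.mp hf v).resolve_left hf0
    simp at this
    omega

theorem finite_L_zero : Module.Finite K (riemannRochSpace (0 : Divisor K F)) :=
  Submodule.finiteDimensional_of_le (L_zero_le x hx)

theorem ell_zero_le : ell (0 : Divisor K F) ≤ 1 := by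
  have h1 := Submodule.finrank_mono (L_zero_le x hx)
  have h2 : Module.finrank K (LinearMap.range (Algebra.linearMap K F)) ≤ 1 := by
    have := LinearMap.finrank_range_le (Algebra.linearMap K F)
    rwa [Module.finrank_self] at this
  exact h1.trans h2

/-- `L(D)` is finite-dimensional of dimension `≤ deg D + 1` for `D ≥ 0`. -/
theorem finite_and_ell_le_of_nonneg : ∀ (n : ℕ) (D : Divisor K F), 0 ≤ D →
    Divisor.degree D = n → Module.Finite K (riemannRochSpace D) ∧ ell D ≤ n + 1 := by
  classical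
  have hstep : ∀ (n : ℕ) (D : Divisor K F), 0 ≤ D → Divisor.degree D = n → D ≠ 0 →
      ∃ (v : Place K F) (m : ℕ), n = m + 1 ∧ 0 ≤ D - prim v ∧
        Divisor.degree (D - prim v) = m := by
    intro n D hD hdegD hD0
    obtain ⟨v, hv⟩ : ∃ v, D v ≠ 0 := by
      by_contra hcon
      push Not at hcon
      exact hD0 (Finsupp.ext hcon)
    have hDv : 0 ≤ D v := by simpa using Finsupp.le_def.mp hD v
    have hD' : 0 ≤ D - prim v := by
      rw [Finsupp.le_def]
      intro w
      rw [Finsupp.sub_apply]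
      by_cases hw : w = v
      · subst hw
        rw [prim_apply_self]
        simp only [Finsupp.coe_zero, Pi.zero_apply]
        omega
      · rw [prim_apply_of_ne hw]
        have := Finsupp.le_def.mp hD w
        simpa using this
    have hdeg' : Divisor.degree (D - prim v) = n - 1 := by
      rw [map_sub, degree_prim v (hdeg_all x hx v), hdegD]
    have hnn := degree_nonneg hD'
    rw [hdeg'] at hnn
    obtain ⟨m, rfl⟩ : ∃ m, n = m + 1 := ⟨n - 1, by omega⟩
    refine ⟨v, m, rfl, hD', ?_⟩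
    rw [hdeg']
    push_cast
    ring
  intro n
  induction n with
  | zero =>
    intro D hD hdegD
    by_cases hD0 : D = 0
    · subst hD0
      exact ⟨finite_L_zero x hx, by have := ell_zero_le x hx; omega⟩
    · obtain ⟨v, m, hm, -, -⟩ := hstep 0 D hD hdegD hD0
      omega
  | succ n ih =>
    intro D hD hdegD
    by_cases hD0 : D = 0
    · subst hD0
      exact ⟨finite_L_zero x hx, by have := ell_zero_le x hx; omega⟩
    · obtain ⟨v, m, hm, hD', hdeg'⟩ := hstep (n + 1) D hD hdegD hD0
      have hmn : m = n := by omega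
      subst hmn
      obtain ⟨hfin, hle⟩ := ih (D - prim v) hD' hdeg'
      have := L_add_prim_finite v (hdeg_all x hx v) (D - prim v)
      rw [sub_add_cancel] at this
      exact ⟨this.1, this.2.trans (by omega)⟩

theorem finite_L_of_nonneg {D : Divisor K F} (hD : 0 ≤ D) :
    Module.Finite K (riemannRochSpace D) := by
  have h0 := degree_nonneg hD
  obtain ⟨n, hn⟩ := Int.eq_ofNat_of_zero_le h0
  exact (finite_and_ell_le_of_nonneg x hx n D hD hn).1

theorem ell_le_of_nonneg {D : Divisor K F} (hD : 0 ≤ D) :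
    (ell D : ℤ) ≤ Divisor.degree D + 1 := by
  have h0 := degree_nonneg hD
  obtain ⟨n, hn⟩ := Int.eq_ofNat_of_zero_le h0
  have := (finite_and_ell_le_of_nonneg x hx n D hD hn).2
  rw [hn]
  exact_mod_cast this

/-! ### The lower bound: counting in `L(l B + C)` -/

omit hfinx in
/-- The `n (l + 1)` functions `t ^ i * u j` lie in `L(l B + C)` and are independent. -/
theorem le_ell_of_basis {t : F} (ht : Transcendental K t) {n : ℕ} (u : Fin n → F)
    (hu : LinearIndependent K⟮t⟯ u)
    (B C : Divisor K F) (hB0 : 0 ≤ B) (hB : ∀ v : Place K F, -(B v) ≤ v.ord t)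
    (hC : ∀ (j : Fin n) (v : Place K F), -(C v) ≤ v.ord (u j)) (l : ℕ)
    [Module.Finite K (riemannRochSpace (l • B + C))] :
    n * (l + 1) ≤ ell (l • B + C) := by
  classical
  have _ := hx
  have ht0 : t ≠ 0 := fun h => ht (h ▸ isAlgebraic_zero)
  have hli := H409.linearIndependent_pow_mul ht u hu l
  have hmem : ∀ p : Fin (l + 1) × Fin n,
      t ^ (p.1 : ℕ) * u p.2 ∈ riemannRochSpace (l • B + C) := by
    intro p
    rw [mem_L_iff]
    intro v
    right
    rw [v.ord_mul (pow_ne_zero _ ht0) (hu.ne_zero p.2), ord_pow]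
    have h1 := hB v
    have h2 := hC p.2 v
    have h3 : 0 ≤ B v := by simpa using Finsupp.le_def.mp hB0 v
    have h4 : ((p.1 : ℕ) : ℤ) ≤ (l : ℤ) := by exact_mod_cast Nat.lt_succ_iff.mp p.1.2
    have h5 : (0 : ℤ) ≤ ((p.1 : ℕ) : ℤ) := Nat.cast_nonneg _
    rw [Finsupp.add_apply, Finsupp.smul_apply, nsmul_eq_mul]
    nlinarith [mul_nonneg h5 (show (0 : ℤ) ≤ v.ord t + B v by omega),
      mul_nonneg (show (0 : ℤ) ≤ (l : ℤ) - ((p.1 : ℕ) : ℤ) by omega) h3]
  have hspan : Submodule.span K
      (Set.range fun p : Fin (l + 1) × Fin n => t ^ (p.1 : ℕ) * u p.2)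
        ≤ riemannRochSpace (l • B + C) :=
    Submodule.span_le.mpr (by rintro _ ⟨p, rfl⟩; exact hmem p)
  have h1 := Submodule.finrank_mono hspan
  rw [finrank_span_eq_card hli] at h1
  simpa [ell, Fintype.card_prod, mul_comm] using h1

/-- The degree of the pole divisor is the sum of the pole orders, hence `≤ [F : K(t)]`. -/
theorem degree_poleD_le (t : F) [FiniteDimensional K⟮t⟯ F] :
    Divisor.degree (poleD x hx t) ≤ (Module.finrank K⟮t⟯ F : ℤ) := by
  classical
  rw [degree_eq_sum]
  have hS : ∀ v ∈ (poleD x hx t).support, v.ord t < 0 := by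
    intro v hv
    rw [Finsupp.mem_support_iff, poleD_apply] at hv
    by_contra hcon
    apply hv
    rw [max_eq_left (by omega)]
  refine le_trans (le_of_eq ?_) (sum_neg_ord_le_finrank (hdeg_all x hx) t _ hS)
  refine Finset.sum_congr rfl fun v hv => ?_
  have := hS v hv
  rw [poleD_apply, hdeg_all x hx v, max_eq_right (by omega)]
  simp

/-- **Stichtenoth 1.4.11**, `≥`: `deg (t)_∞ ≥ [F : K(t)]`. -/
theorem le_degree_poleD (t : F) (ht : Transcendental K t) [FiniteDimensional K⟮t⟯ F] :
    (Module.finrank K⟮t⟯ F : ℤ) ≤ Divisor.degree (poleD x hx t) := by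
  classical
  obtain ⟨n, hn⟩ : ∃ n : ℕ, n = Module.finrank K⟮t⟯ F := ⟨_, rfl⟩
  have hnpos : 0 < n := hn ▸ Module.finrank_pos
  let b := Module.finBasis K⟮t⟯ F
  have hu : LinearIndependent K⟮t⟯ (fun j => b j) := b.linearIndependent
  set B : Divisor K F := poleD x hx t with hBdef
  set C : Divisor K F := ∑ j, poleD x hx (b j) with hCdef
  have hB0 : 0 ≤ B := poleD_nonneg x hx t
  have hC0 : 0 ≤ C := Finset.sum_nonneg fun j _ => poleD_nonneg x hx _
  have hC : ∀ (j : Fin (Module.finrank K⟮t⟯ F)) (v : Place K F), -(C v) ≤ v.ord (b j) := by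
    intro j v
    have h1 : poleD x hx (b j) ≤ C :=
      Finset.single_le_sum (f := fun j => poleD x hx (b j))
        (fun i _ => poleD_nonneg x hx _) (Finset.mem_univ j)
    have h2 := Finsupp.le_def.mp h1 v
    have h3 := neg_poleD_le_ord x hx (b j) v
    omega
  by_contra hlt
  push Not at hlt
  rw [← hn] at hlt
  -- choose `l` large
  obtain ⟨l, hl⟩ : ∃ l : ℕ, Divisor.degree C + 1 ≤ l :=
    ⟨(Divisor.degree C + 1).toNat, Int.self_le_toNat _⟩
  have hD0 : 0 ≤ l • B + C := add_nonneg (nsmul_nonneg hB0 l) hC0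
  haveI : Module.Finite K (riemannRochSpace (l • B + C)) := finite_L_of_nonneg x hx hD0
  have h1 := le_ell_of_basis x hx ht (fun j => b j) hu B C hB0 (neg_poleD_le_ord x hx t) hC l
  have h2 := ell_le_of_nonneg x hx hD0
  rw [map_add, map_nsmul, nsmul_eq_mul] at h2
  have h3 : ((Module.finrank K⟮t⟯ F * (l + 1) : ℕ) : ℤ) ≤ ell (l • B + C) := by
    exact_mod_cast h1
  rw [← hn] at h3
  push_cast at h3
  have h4 : (l : ℤ) * Divisor.degree B ≤ l * ((n : ℤ) - 1) :=
    mul_le_mul_of_nonneg_left (by omega) (Nat.cast_nonneg l)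
  have h5 : (1 : ℤ) ≤ n := by exact_mod_cast hnpos
  nlinarith

theorem degree_poleD (t : F) (ht : Transcendental K t) [FiniteDimensional K⟮t⟯ F] :
    Divisor.degree (poleD x hx t) = (Module.finrank K⟮t⟯ F : ℤ) :=
  le_antisymm (degree_poleD_le x hx t) (le_degree_poleD x hx t ht)

theorem degree_poleD_of_eq (t : F) (ht : Transcendental K t) (L : IntermediateField K F)
    (hL : L = K⟮t⟯) [FiniteDimensional L F] :
    Divisor.degree (poleD x hx t) = (Module.finrank L F : ℤ) := by
  subst hL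
  exact degree_poleD x hx t ht

/-- **The product formula**: a principal divisor has degree zero. -/
theorem degree_divF (f : F) : Divisor.degree (divF x hx f) = 0 := by
  by_cases hfK : f ∈ (algebraMap K F).range
  · obtain ⟨c, rfl⟩ := hfK
    have : divF x hx (algebraMap K F c) = 0 := by
      ext v
      rw [divF_apply, ord_algebraMap v c]
      rfl
    rw [this, map_zero]
  · have hft : Transcendental K f := S24.FF.transcendental_of_not_mem_range hfK
    have hft' : Transcendental K f⁻¹ := fun h => hft (by simpa using h.inv)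
    haveI : FiniteDimensional K⟮f⟯ F := hfin_all x hx f hft
    rw [divF_eq_sub, map_sub, degree_poleD x hx f hft,
      degree_poleD_of_eq x hx f⁻¹ hft' K⟮f⟯ (adjoin_inv_eq f), sub_self]

/-- **HPD, characteristic-free**: divisors of functions exist and have degree zero. -/
theorem hasPrincipalDivisors : HasPrincipalDivisors K F :=
  ⟨fun f _ => ⟨divF x hx f, fun v => divF_apply x hx f v, degree_divF x hx f⟩⟩

/-- **Bridge, characteristic-free**: `FF1 K F` for a function field of one variable over an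
algebraically closed field. -/
theorem ff1 : FF1 K F where
  hpd := hasPrincipalDivisors x hx
  deg_eq_one := hdeg_all x hx
  nonempty_place := by
    obtain ⟨v, -⟩ := H443.exists_place_ord_pos (hfin_all x hx) hx
    exact ⟨v⟩
  exists_finite := ⟨x, hx, hfinx⟩

/-- The degree of the zero divisor of a transcendental function is `[F : K(t)]`. -/
theorem degree_zeroD (t : F) (ht : Transcendental K t) [FiniteDimensional K⟮t⟯ F] :
    Divisor.degree (poleD x hx t⁻¹) = (Module.finrank K⟮t⟯ F : ℤ) :=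
  degree_poleD_of_eq x hx t⁻¹ (fun h => ht (by simpa using h.inv)) K⟮t⟯ (adjoin_inv_eq t)

end AlgClosed

/-- Exactly (definitionally) `Fermat.Agent.S18.Sq05.HpdStatement` of squad S18/S05. -/
theorem hpdStatement :
    ∀ (K F : Type) [Field K] [Field F] [Algebra K F] [IsAlgClosed K] (x : F),
      Transcendental K x → FiniteDimensional K⟮x⟯ F → HasPrincipalDivisors K F :=
  fun _ _ _ _ _ _ x hx _ => hasPrincipalDivisors x hx

end Fermat.Agent.Lib.RR.H560

end

end
-- ===== PACK-END Lib/RR/H560/Hpd.lean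

-- ===== PACK-BEGIN S15/H662/NormFormula.lean
section



/-!
# Row S15, piece I1 (helper662): the norm formula for the isogeny `ℂ/L → ℂ/L'`

For `a = ω₁ / p`, `L' = L + ℤ a` and `h ∉ L'`:

  `∏_{k < p} (℘_L (z + k a) - ℘_L h) = (∏_{k < p - 1} (℘_L ((k+1) a) - ℘_L h)) · (℘_{L'} z - ℘_{L'} h)`

for all `z ∉ L'` (`normProd_eq`).  Proof: Liouville on `ℂ / L'`.

Mathlib-only.
-/

set_option autoImplicit false

open Filter Topology
open scoped PeriodPair

noncomputable section

namespace Fermat.Agent.S15.H662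

/-- `R(z) = ∏_{k<p} (℘_L(z + k a) - e)`, `a = ω₁ / p` -/
def normProd (L : PeriodPair) (p : ℕ) (e : ℂ) (z : ℂ) : ℂ :=
  ∏ k ∈ Finset.range p, (℘[L] (z + (k : ℂ) * (L.ω₁ / p)) - e)

/-- `B(z) = ∏_{k<p-1} (℘_L(z + (k+1) a) - e)`, `a = ω₁ / p` -/
def normProdTail (L : PeriodPair) (p : ℕ) (e : ℂ) (z : ℂ) : ℂ :=
  ∏ k ∈ Finset.range (p - 1), (℘[L] (z + ((k + 1 : ℕ) : ℂ) * (L.ω₁ / p)) - e)

/-- the derivative of an even function vanishes at `0` -/
theorem deriv_zero_of_even {B : ℂ → ℂ} (h : ∀ z, B (-z) = B z) : deriv B 0 = 0 := by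
  have h1 : deriv (fun x => B (-x)) 0 = -deriv B (-0) := deriv_comp_neg (f := B) (x := 0)
  have h2 : (fun x => B (-x)) = B := funext h
  rw [h2, neg_zero] at h1
  linear_combination (1 / 2 : ℂ) * h1

/-- periodicity with respect to both periods gives periodicity with respect to the lattice -/
theorem periodic_of_periods (L : PeriodPair) (f : ℂ → ℂ) (h1 : ∀ z, f (z + L.ω₁) = f z)
    (h2 : ∀ z, f (z + L.ω₂) = f z) : ∀ z : ℂ, ∀ l ∈ L.lattice, f (z + l) = f z := by
  intro z l hl
  obtain ⟨m, n, rfl⟩ := PeriodPair.mem_lattice.mp hl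
  have p1 : Function.Periodic f L.ω₁ := h1
  have p2 : Function.Periodic f L.ω₂ := h2
  exact ((p1.int_mul m).add_period (p2.int_mul n)) z

variable (L : PeriodPair) (p : ℕ) (e : ℂ)

theorem normProd_eq_tail_mul (hp : p ≠ 0) (z : ℂ) :
    normProd L p e z = normProdTail L p e z * (℘[L] z - e) := by
  obtain ⟨n, rfl⟩ : ∃ n, p = n + 1 := ⟨p - 1, by omega⟩
  rw [normProd, normProdTail, Finset.prod_range_succ', Nat.add_sub_cancel]
  simp

theorem normProd_add_lattice (z : ℂ) {l : ℂ} (hl : l ∈ L.lattice) :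
    normProd L p e (z + l) = normProd L p e z := by
  rw [normProd, normProd]
  refine Finset.prod_congr rfl fun k _ => ?_
  rw [show z + l + (k : ℂ) * (L.ω₁ / p) = (z + (k : ℂ) * (L.ω₁ / p)) + l by ring,
    L.weierstrassP_add_coe _ ⟨l, hl⟩]

theorem normProd_add_div (hp : p ≠ 0) (z : ℂ) :
    normProd L p e (z + L.ω₁ / p) = normProd L p e z := by
  have hpc : (p : ℂ) ≠ 0 := by exact_mod_cast hp
  obtain ⟨n, rfl⟩ : ∃ n, p = n + 1 := ⟨p - 1, by omega⟩
  set G : ℕ → ℂ := fun k => ℘[L] (z + (k : ℂ) * (L.ω₁ / (n + 1 : ℕ))) - e with hG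
  have hL : normProd L (n + 1) e (z + L.ω₁ / (n + 1 : ℕ)) = ∏ k ∈ Finset.range (n + 1), G (k + 1) := by
    rw [normProd]
    refine Finset.prod_congr rfl fun k _ => ?_
    simp only [hG]
    congr 2
    push_cast
    ring
  have hR : normProd L (n + 1) e z = ∏ k ∈ Finset.range (n + 1), G k := rfl
  rw [hL, hR, Finset.prod_range_succ, Finset.prod_range_succ']
  congr 1
  simp only [hG]
  have : z + ((n + 1 : ℕ) : ℂ) * (L.ω₁ / (n + 1 : ℕ)) = z + L.ω₁ := by
    congr 1
    field_simp
  rw [this, L.weierstrassP_add_coe z ⟨L.ω₁, L.ω₁_mem_lattice⟩]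
  simp

/-- `R` is periodic with respect to `L'` -/
theorem normProd_add_divPair (hp : p ≠ 0) (z : ℂ) {l : ℂ} (hl : l ∈ (divPair L p hp).lattice) :
    normProd L p e (z + l) = normProd L p e z := by
  refine periodic_of_periods (divPair L p hp) (normProd L p e) ?_ ?_ z l hl
  · intro z
    exact normProd_add_div L p e hp z
  · intro z
    exact normProd_add_lattice L p e z L.ω₂_mem_lattice

/-- the tail `B` is even -/
theorem normProdTail_neg (hp : p ≠ 0) (z : ℂ) :
    normProdTail L p e (-z) = normProdTail L p e z := by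
  have hpc : (p : ℂ) ≠ 0 := by exact_mod_cast hp
  rw [normProdTail, normProdTail]
  rw [← Finset.prod_range_reflect (fun k => ℘[L] (z + ((k + 1 : ℕ) : ℂ) * (L.ω₁ / p)) - e) (p - 1)]
  refine Finset.prod_congr rfl fun k hk => ?_
  have hk' : k < p - 1 := Finset.mem_range.mp hk
  congr 1
  -- `℘ (-z + (k+1) a) = ℘ (z - (k+1) a) = ℘ (z - (k+1) a + ω₁)`
  have h1 : ℘[L] (-z + ((k + 1 : ℕ) : ℂ) * (L.ω₁ / p))
      = ℘[L] (z - ((k + 1 : ℕ) : ℂ) * (L.ω₁ / p)) := by
    rw [← L.weierstrassP_neg]
    congr 1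
    ring
  rw [h1, ← L.weierstrassP_add_coe _ ⟨L.ω₁, L.ω₁_mem_lattice⟩]
  congr 1
  have hcast : ((p - 1 - 1 - k + 1 : ℕ) : ℂ) = (p : ℂ) - ((k + 1 : ℕ) : ℂ) := by
    have : p - 1 - 1 - k + 1 = p - (k + 1) := by omega
    rw [this, Nat.cast_sub (by omega)]
  rw [hcast]
  field_simp
  ring

theorem analyticAt_normProdTail_zero (_hp : p ≠ 0) : AnalyticAt ℂ (normProdTail L p e) 0 := by
  unfold normProdTail
  refine Finset.analyticAt_fun_prod _ fun k hk => ?_
  have hk' : k < p - 1 := Finset.mem_range.mp hk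
  have hnot : ((k + 1 : ℕ) : ℂ) * (L.ω₁ / p) ∉ L.lattice :=
    natMul_div_notMem L p (by omega) (by omega)
  have h1 : AnalyticAt ℂ ℘[L] (0 + ((k + 1 : ℕ) : ℂ) * (L.ω₁ / p)) := by
    rw [zero_add]; exact L.analyticOnNhd_weierstrassP _ hnot
  have h2 : AnalyticAt ℂ (fun z : ℂ => z + ((k + 1 : ℕ) : ℂ) * (L.ω₁ / p)) 0 := by fun_prop
  exact (h1.comp (f := fun z : ℂ => z + ((k + 1 : ℕ) : ℂ) * (L.ω₁ / p)) h2).sub analyticAt_const

theorem analyticAt_normProd (hp : p ≠ 0) {z₀ : ℂ} (hz : z₀ ∉ (divPair L p hp).lattice) :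
    AnalyticAt ℂ (normProd L p e) z₀ := by
  unfold normProd
  refine Finset.analyticAt_fun_prod _ fun k _ => ?_
  have hnot : z₀ + (k : ℂ) * (L.ω₁ / p) ∉ L.lattice := by
    intro hmem
    apply hz
    have h1 := lattice_le_divPair L p hp hmem
    have h2 := natMul_div_mem_divPair L p hp k
    have := (divPair L p hp).lattice.sub_mem h1 h2
    simpa using this
  have h1 : AnalyticAt ℂ ℘[L] (z₀ + (k : ℂ) * (L.ω₁ / p)) := L.analyticOnNhd_weierstrassP _ hnot
  have h2 : AnalyticAt ℂ (fun z : ℂ => z + (k : ℂ) * (L.ω₁ / p)) z₀ := by fun_prop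
  exact (h1.comp (f := fun z : ℂ => z + (k : ℂ) * (L.ω₁ / p)) h2).sub analyticAt_const

/-- **Norm formula.** -/
theorem normProd_eq (hp : p ≠ 0) {h : ℂ} (hh : h ∉ (divPair L p hp).lattice) {z : ℂ}
    (hz : z ∉ (divPair L p hp).lattice) :
    normProd L p (℘[L] h) z =
      normProdTail L p (℘[L] h) 0 * (℘[divPair L p hp] z - ℘[divPair L p hp] h) := by
  set L' := divPair L p hp with hL'
  set e := ℘[L] h with he
  set e' := ℘[L'] h with he'
  set c := normProdTail L p e 0 with hc
  set f : ℂ → ℂ := fun z => normProd L p e z - c * (℘[L'] z - e') with hf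
  have hper : ∀ z : ℂ, ∀ l ∈ L'.lattice, f (z + l) = f z := by
    intro z l hl
    simp only [hf]
    rw [normProd_add_divPair L p e hp z hl, L'.weierstrassP_add_coe z ⟨l, hl⟩]
  have han : ∀ z₀ : ℂ, z₀ ∉ L'.lattice → AnalyticAt ℂ f z₀ := by
    intro z₀ hz₀
    have h1 := analyticAt_normProd L p e hp hz₀
    have h2 : AnalyticAt ℂ ℘[L'] z₀ := L'.analyticOnNhd_weierstrassP z₀ hz₀
    exact h1.sub (analyticAt_const.mul (h2.sub analyticAt_const))
  -- removable singularity at `0`
  have hrem0 : ∃ g : ℂ → ℂ, AnalyticAt ℂ g 0 ∧ f =ᶠ[𝓝[≠] (0 : ℂ)] g := by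
    set w : ℂ → ℂ := fun z => normProdTail L p e z - c with hw
    have hBan := analyticAt_normProdTail_zero L p e hp
    have hwan : AnalyticAt ℂ w 0 := hBan.sub analyticAt_const
    have hw0 : w 0 = 0 := by simp only [hw, hc, sub_self]
    have hw1 : deriv w 0 = 0 := by
      apply deriv_zero_of_even
      intro z
      simp only [hw]
      rw [normProdTail_neg L p e hp]
    have r1 := removable_weierstrassP_mul L hwan hw0 hw1
    have r2 := removable_const_mul c (removable_weierstrassP_sub L L')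
    have r3 := removable_const_mul e (removable_of_analyticAt hBan)
    have r4 := removable_sub (removable_add r1 r2) r3
    have r5 := removable_add r4 (removable_of_analyticAt (analyticAt_const (v := c * e') (x := (0 : ℂ))))
    obtain ⟨g, hg, hfg⟩ := r5
    refine ⟨g, hg, EventuallyEq.trans (Eventually.of_forall fun z => ?_) hfg⟩
    simp only [hf, hw]
    rw [normProd_eq_tail_mul L p e hp]
    ring
  have hrem : ∀ z : ℂ, ∃ g : ℂ → ℂ, AnalyticAt ℂ g z ∧ f =ᶠ[𝓝[≠] z] g := by
    intro z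
    by_cases hz : z ∈ L'.lattice
    · have := removable_add_period (t := z) (z₀ := 0) (fun v => hper v z hz) hrem0
      simpa using this
    · exact removable_of_analyticAt (han z hz)
  obtain ⟨d, hd⟩ := exists_const_of_periodic_of_removable' L' f hper hrem
  have hd0 : d = 0 := by
    rw [← hd h (han h hh).continuousAt]
    simp only [hf]
    rw [normProd_eq_tail_mul L p e hp, he, he']
    ring
  have := hd z (han z hz).continuousAt
  rw [hd0] at this
  simp only [hf] at this
  linear_combination this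

end Fermat.Agent.S15.H662

end

end
-- ===== PACK-END S15/H662/NormFormula.lean

-- ===== PACK-BEGIN S15/H662/Isogeny.lean
section



/-!
# Row S15, piece I1 (helper662): the discriminant of the quotient lattice

`latDisc_divPair` : for `p` odd, `a = ω₁ / p`, `L' = L + ℤ a`:

  `Δ(L') · (∏_{0 < k < p} ℘'_L (k a)) ^ 4 = Δ(L) ^ p`,     `Δ = g₂³ - 27 g₃²`.

Mathlib-only.
-/

set_option autoImplicit false

open Filter Topology
open scoped PeriodPair

noncomputable section

namespace Fermat.Agent.S15.H662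

/-! ### explicit half-period translation formulas -/

/-- the constant of the half-period translation formula, computed at a second half-period -/
theorem halfPeriod_translate_eq (L : PeriodPair) {h h' : ℂ} (hh : h ∉ L.lattice)
    (hh2 : 2 * h ∈ L.lattice) (hh' : h' ∉ L.lattice) (hd : h' - h ∉ L.lattice) {z : ℂ}
    (hz : z ∉ L.lattice) (hzh : z - h ∉ L.lattice) :
    (℘[L] z - ℘[L] h) * (℘[L] (z - h) - ℘[L] h) =
      (℘[L] h' - ℘[L] h) * (℘[L] (h' - h) - ℘[L] h) := by
  obtain ⟨κ, hκ⟩ := exists_halfPeriod_translate L hh hh2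
  rw [hκ z hz hzh, hκ h' hh' hd]

theorem half_sub_half_notMem' (L : PeriodPair) : L.ω₂ / 2 - L.ω₁ / 2 ∉ L.lattice := by
  intro h
  apply half_sub_half_notMem L
  have := L.lattice.neg_mem h
  simpa using this

theorem weierstrassP_half_sub_half (L : PeriodPair) : ℘[L] (L.ω₂ / 2 - L.ω₁ / 2) = e₃ L := by
  rw [← L.weierstrassP_add_coe _ ⟨L.ω₁, L.ω₁_mem_lattice⟩, e₃]
  congr 1
  ring

theorem weierstrassP_half_sub_half' (L : PeriodPair) : ℘[L] (L.ω₁ / 2 - L.ω₂ / 2) = e₃ L := by
  rw [← L.weierstrassP_add_coe _ ⟨L.ω₂, L.ω₂_mem_lattice⟩, e₃]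
  congr 1
  ring

theorem translate₁ (L : PeriodPair) {z : ℂ} (hz : z ∉ L.lattice)
    (hzh : z - L.ω₁ / 2 ∉ L.lattice) :
    (℘[L] z - e₁ L) * (℘[L] (z - L.ω₁ / 2) - e₁ L) = (e₁ L - e₂ L) * (e₁ L - e₃ L) := by
  have := halfPeriod_translate_eq L L.ω₁_div_two_notMem_lattice (two_mul_half₁ L)
    L.ω₂_div_two_notMem_lattice (half_sub_half_notMem' L) hz hzh
  rw [weierstrassP_half_sub_half] at this
  simp only [e₁, e₂] at this ⊢
  rw [this]; ring

theorem translate₂ (L : PeriodPair) {z : ℂ} (hz : z ∉ L.lattice)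
    (hzh : z - L.ω₂ / 2 ∉ L.lattice) :
    (℘[L] z - e₂ L) * (℘[L] (z - L.ω₂ / 2) - e₂ L) = (e₂ L - e₁ L) * (e₂ L - e₃ L) := by
  have := halfPeriod_translate_eq L L.ω₂_div_two_notMem_lattice (two_mul_half₂ L)
    L.ω₁_div_two_notMem_lattice (half_sub_half_notMem L) hz hzh
  rw [weierstrassP_half_sub_half'] at this
  simp only [e₁, e₂] at this ⊢
  rw [this]; ring

theorem translate₃ (L : PeriodPair) {z : ℂ} (hz : z ∉ L.lattice)
    (hzh : z - (L.ω₁ / 2 + L.ω₂ / 2) ∉ L.lattice) :
    (℘[L] z - e₃ L) * (℘[L] (z - (L.ω₁ / 2 + L.ω₂ / 2)) - e₃ L)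
      = (e₃ L - e₁ L) * (e₃ L - e₂ L) := by
  have hd : L.ω₁ / 2 - (L.ω₁ / 2 + L.ω₂ / 2) ∉ L.lattice := by
    intro h
    apply L.ω₂_div_two_notMem_lattice
    have := L.lattice.neg_mem h
    have e : -(L.ω₁ / 2 - (L.ω₁ / 2 + L.ω₂ / 2)) = L.ω₂ / 2 := by ring
    rwa [e] at this
  have := halfPeriod_translate_eq L (half_add_half_notMem L) (two_mul_half₃ L)
    L.ω₁_div_two_notMem_lattice hd hz hzh
  have e : ℘[L] (L.ω₁ / 2 - (L.ω₁ / 2 + L.ω₂ / 2)) = e₂ L := by
    rw [e₂, ← L.weierstrassP_neg]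
    congr 1
    ring
  rw [e] at this
  simp only [e₁, e₃] at this ⊢
  rw [this]; ring

/-! ### the core product computation -/

/-- one factor: `(℘(h + t) - e_j) (℘ t - e) = (e - e_j) (℘ t - e_m)` -/
theorem step_core (L : PeriodPair) {h e ej em : ℂ}
    (hκ : ∀ z : ℂ, z ∉ L.lattice → z - h ∉ L.lattice →
      (℘[L] z - e) * (℘[L] (z - h) - e) = (e - ej) * (e - em))
    {t : ℂ} (ht : t ∉ L.lattice) (hht : h + t ∉ L.lattice) :
    (℘[L] (h + t) - ej) * (℘[L] t - e) = (e - ej) * (℘[L] t - em) := by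
  have := hκ (h + t) hht (by simpa using ht)
  rw [add_sub_cancel_left] at this
  linear_combination this

/-- the product over the `p`-division points -/
theorem tail_prod (L : PeriodPair) (p : ℕ) {h e ej em : ℂ}
    (hκ : ∀ z : ℂ, z ∉ L.lattice → z - h ∉ L.lattice →
      (℘[L] z - e) * (℘[L] (z - h) - e) = (e - ej) * (e - em))
    (hh : ∀ k : ℕ, k < p - 1 → h + ((k + 1 : ℕ) : ℂ) * (L.ω₁ / p) ∉ L.lattice) :
    normProdTail L p ej h * normProdTail L p e 0
      = (e - ej) ^ (p - 1) * normProdTail L p em 0 := by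
  simp only [normProdTail]
  rw [← Finset.prod_mul_distrib]
  have : ∀ k ∈ Finset.range (p - 1),
      (℘[L] (h + ((k + 1 : ℕ) : ℂ) * (L.ω₁ / p)) - ej) *
        (℘[L] (0 + ((k + 1 : ℕ) : ℂ) * (L.ω₁ / p)) - e)
      = (e - ej) * (℘[L] (0 + ((k + 1 : ℕ) : ℂ) * (L.ω₁ / p)) - em) := by
    intro k hk
    have hk' : k < p - 1 := Finset.mem_range.mp hk
    rw [zero_add]
    exact step_core L hκ (natMul_div_notMem L p (by omega) (by omega)) (hh k hk')
  rw [Finset.prod_congr rfl this, Finset.prod_mul_distrib, Finset.prod_const, Finset.card_range]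

/-- the constants `c` are nonzero -/
theorem normProdTail_zero_ne_zero (L : PeriodPair) (p : ℕ) {h e ej em : ℂ}
    (hκ : ∀ z : ℂ, z ∉ L.lattice → z - h ∉ L.lattice →
      (℘[L] z - e) * (℘[L] (z - h) - e) = (e - ej) * (e - em))
    (hej : e ≠ ej) (hem : e ≠ em)
    (hh : ∀ k : ℕ, k < p - 1 → h + ((k + 1 : ℕ) : ℂ) * (L.ω₁ / p) ∉ L.lattice) :
    normProdTail L p e 0 ≠ 0 := by
  simp only [normProdTail]
  rw [Finset.prod_ne_zero_iff]
  intro k hk
  have hk' : k < p - 1 := Finset.mem_range.mp hk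
  rw [zero_add]
  set t := ((k + 1 : ℕ) : ℂ) * (L.ω₁ / p) with ht
  have htL : t ∉ L.lattice := natMul_div_notMem L p (by omega) (by omega)
  have := hκ (h + t) (hh k hk') (by simpa using htL)
  rw [add_sub_cancel_left] at this
  intro h0
  rw [h0, mul_zero] at this
  exact mul_ne_zero (sub_ne_zero.mpr hej) (sub_ne_zero.mpr hem) this.symm

/-- **(I-B)**: `c_e · c_{e_j} · (℘_{L'} h - ℘_{L'} h_j) = (e - e_j)^p · c_{e_m}`. -/
theorem diff_formula (L : PeriodPair) (p : ℕ) (hp : p ≠ 0) {h hj e ej em : ℂ}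
    (he : e = ℘[L] h) (hej : ej = ℘[L] hj)
    (hκ : ∀ z : ℂ, z ∉ L.lattice → z - h ∉ L.lattice →
      (℘[L] z - e) * (℘[L] (z - h) - e) = (e - ej) * (e - em))
    (hh : ∀ k : ℕ, k < p - 1 → h + ((k + 1 : ℕ) : ℂ) * (L.ω₁ / p) ∉ L.lattice)
    (hhL' : h ∉ (divPair L p hp).lattice) (hjL' : hj ∉ (divPair L p hp).lattice) :
    normProdTail L p e 0 * normProdTail L p ej 0 *
        (℘[divPair L p hp] h - ℘[divPair L p hp] hj)
      = (e - ej) ^ p * normProdTail L p em 0 := by
  have h1 := normProd_eq L p hp hjL' hhL'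
  rw [← hej, normProd_eq_tail_mul L p ej hp, ← he] at h1
  have h2 := tail_prod L p hκ hh
  obtain ⟨n, rfl⟩ : ∃ n, p = n + 1 := ⟨p - 1, by omega⟩
  rw [Nat.add_sub_cancel] at h2
  rw [pow_succ]
  linear_combination (normProdTail L (n + 1) e 0) * (-h1) + (e - ej) * h2

/-! ### arithmetic of the division points -/

theorem den_half_add_div_ne_one {p : ℕ} (hp : Odd p) (j : ℕ) :
    ((1 / 2 : ℚ) + (j : ℚ) / p).den ≠ 1 := by
  intro hq
  have hp0 : p ≠ 0 := by rintro rfl; simp at hp
  have hpq : (p : ℚ) ≠ 0 := by exact_mod_cast hp0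
  obtain ⟨m, hm⟩ : ∃ m : ℤ, ((1 / 2 : ℚ) + (j : ℚ) / p) = m :=
    ⟨((1 / 2 : ℚ) + (j : ℚ) / p).num, by
      conv_lhs => rw [← Rat.num_div_den ((1 / 2 : ℚ) + (j : ℚ) / p), hq]
      simp⟩
  have hkm : (p : ℚ) + 2 * j = 2 * m * p := by
    field_simp at hm
    linear_combination hm
  have hkm' : (p : ℤ) + 2 * j = 2 * m * p := by exact_mod_cast hkm
  obtain ⟨r, hr⟩ := hp
  have h2 : (2 : ℤ) ∣ (p : ℤ) := ⟨m * p - j, by linarith⟩
  omega

theorem den_half_mul_ne_one {p : ℕ} (hp : Odd p) : ((1 / 2 : ℚ) * (p : ℚ)).den ≠ 1 := by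
  intro hq
  obtain ⟨m, hm⟩ : ∃ m : ℤ, ((1 / 2 : ℚ) * (p : ℚ)) = m :=
    ⟨((1 / 2 : ℚ) * (p : ℚ)).num, by
      conv_lhs => rw [← Rat.num_div_den ((1 / 2 : ℚ) * (p : ℚ)), hq]
      simp⟩
  have hkm : (p : ℚ) = 2 * m := by linear_combination 2 * hm
  have hkm' : (p : ℤ) = 2 * m := by exact_mod_cast hkm
  obtain ⟨r, hr⟩ := hp
  omega

theorem den_half_ne_one : ((1 / 2 : ℚ)).den ≠ 1 := by norm_num

variable (L : PeriodPair) (p : ℕ)

theorem half₁_add_notMem (hp : Odd p) (j : ℕ) :
    L.ω₁ / 2 + (j : ℂ) * (L.ω₁ / p) ∉ L.lattice := by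
  have hp0 : p ≠ 0 := by rintro rfl; simp at hp
  have hpc : (p : ℂ) ≠ 0 := by exact_mod_cast hp0
  have h := (L.mul_ω₁_add_mul_ω₂_mem_lattice (α := (1 / 2 : ℚ) + (j : ℚ) / p) (β := 0)).not.mpr
    (fun h1 => den_half_add_div_ne_one hp j h1.1)
  have e : L.ω₁ / 2 + (j : ℂ) * (L.ω₁ / p)
      = (((1 / 2 : ℚ) + (j : ℚ) / p : ℚ) : ℂ) * L.ω₁ + ((0 : ℚ) : ℂ) * L.ω₂ := by
    push_cast
    field_simp
    ring
  rw [e]
  exact h

theorem half₂_add_notMem (hp0 : p ≠ 0) (j : ℕ) :
    L.ω₂ / 2 + (j : ℂ) * (L.ω₁ / p) ∉ L.lattice := by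
  have hpc : (p : ℂ) ≠ 0 := by exact_mod_cast hp0
  have h := (L.mul_ω₁_add_mul_ω₂_mem_lattice (α := (j : ℚ) / p) (β := 1 / 2)).not.mpr
    (fun h1 => den_half_ne_one h1.2)
  have e : L.ω₂ / 2 + (j : ℂ) * (L.ω₁ / p)
      = (((j : ℚ) / p : ℚ) : ℂ) * L.ω₁ + ((1 / 2 : ℚ) : ℂ) * L.ω₂ := by
    push_cast
    field_simp
    ring
  rw [e]
  exact h

theorem half₃_add_notMem (hp0 : p ≠ 0) (j : ℕ) :
    (L.ω₁ / 2 + L.ω₂ / 2) + (j : ℂ) * (L.ω₁ / p) ∉ L.lattice := by
  have hpc : (p : ℂ) ≠ 0 := by exact_mod_cast hp0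
  have h := (L.mul_ω₁_add_mul_ω₂_mem_lattice (α := (1 / 2 : ℚ) + (j : ℚ) / p)
    (β := 1 / 2)).not.mpr (fun h1 => den_half_ne_one h1.2)
  have e : (L.ω₁ / 2 + L.ω₂ / 2) + (j : ℂ) * (L.ω₁ / p)
      = (((1 / 2 : ℚ) + (j : ℚ) / p : ℚ) : ℂ) * L.ω₁ + ((1 / 2 : ℚ) : ℂ) * L.ω₂ := by
    push_cast
    field_simp
    ring
  rw [e]
  exact h

theorem half₁_notMem_divPair (hp : Odd p) (hp0 : p ≠ 0) :
    L.ω₁ / 2 ∉ (divPair L p hp0).lattice := by
  have h := (rat_mem_divPair_iff L p hp0 (α := 1 / 2) (β := 0)).not.mpr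
    (fun h1 => den_half_mul_ne_one hp h1.1)
  have e : L.ω₁ / 2 = (((1 / 2 : ℚ) : ℚ) : ℂ) * L.ω₁ + ((0 : ℚ) : ℂ) * L.ω₂ := by
    push_cast
    ring
  rw [e]
  exact h

theorem half₂_notMem_divPair (hp0 : p ≠ 0) :
    L.ω₂ / 2 ∉ (divPair L p hp0).lattice := by
  have h := (rat_mem_divPair_iff L p hp0 (α := 0) (β := 1 / 2)).not.mpr
    (fun h1 => den_half_ne_one h1.2)
  have e : L.ω₂ / 2 = (((0 : ℚ) : ℚ) : ℂ) * L.ω₁ + ((1 / 2 : ℚ) : ℂ) * L.ω₂ := by
    push_cast
    ring
  rw [e]
  exact h

theorem half₃_notMem_divPair (hp0 : p ≠ 0) :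
    L.ω₁ / 2 + L.ω₂ / 2 ∉ (divPair L p hp0).lattice := by
  have h := (rat_mem_divPair_iff L p hp0 (α := 1 / 2) (β := 1 / 2)).not.mpr
    (fun h1 => den_half_ne_one h1.2)
  have e : L.ω₁ / 2 + L.ω₂ / 2 = (((1 / 2 : ℚ) : ℚ) : ℂ) * L.ω₁ + ((1 / 2 : ℚ) : ℂ) * L.ω₂ := by
    push_cast
    ring
  rw [e]
  exact h

/-- the half-period values of `L'` are the values of `℘_{L'}` at the half-periods of `L` -/
theorem e₁_divPair (hp : Odd p) (hp0 : p ≠ 0) :
    e₁ (divPair L p hp0) = ℘[divPair L p hp0] (L.ω₁ / 2) := by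
  have hpc : (p : ℂ) ≠ 0 := by exact_mod_cast hp0
  obtain ⟨r, hr⟩ := hp
  have hmem := natMul_div_mem_divPair L p hp0 r
  rw [e₁, divPair_ω₁, ← (divPair L p hp0).weierstrassP_add_coe _ ⟨_, hmem⟩]
  congr 1
  have : (p : ℂ) = 2 * r + 1 := by rw [hr]; push_cast; ring
  field_simp
  rw [this]
  ring

theorem e₂_divPair (hp0 : p ≠ 0) :
    e₂ (divPair L p hp0) = ℘[divPair L p hp0] (L.ω₂ / 2) := rfl

theorem e₃_divPair (hp : Odd p) (hp0 : p ≠ 0) :
    e₃ (divPair L p hp0) = ℘[divPair L p hp0] (L.ω₁ / 2 + L.ω₂ / 2) := by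
  have hpc : (p : ℂ) ≠ 0 := by exact_mod_cast hp0
  obtain ⟨r, hr⟩ := hp
  have hmem := natMul_div_mem_divPair L p hp0 r
  rw [e₃, divPair_ω₁, divPair_ω₂, ← (divPair L p hp0).weierstrassP_add_coe _ ⟨_, hmem⟩]
  congr 1
  have : (p : ℂ) = 2 * r + 1 := by rw [hr]; push_cast; ring
  field_simp
  rw [this]
  ring

end Fermat.Agent.S15.H662

end

end
-- ===== PACK-END S15/H662/Isogeny.lean

-- ===== PACK-BEGIN S15/H662/Disc.lean
section



/-!
# Row S15, piece I1 (helper662): `Δ(L') · (∏ ℘'_L(k ω₁/p))⁴ = Δ(L)^p`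

`latDisc_divPair`: for `p` odd and `L' = L + ℤ ω₁/p` (`divPair L p`),

  `latDisc L' * (∏ k ∈ range (p - 1), ℘'[L] ((k + 1) * (ω₁ / p))) ^ 4 = latDisc L ^ p`

where `latDisc L = g₂³ - 27 g₃²`.  Also in the form with `Finset.Ico 1 p`.

Mathlib-only.
-/

set_option autoImplicit false

open Filter Topology
open scoped PeriodPair

noncomputable section

namespace Fermat.Agent.S15.H662

/-- the product of the values of `℘'` at the nonzero multiples of `ω₁ / p` -/
def derivProd (L : PeriodPair) (p : ℕ) : ℂ :=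
  ∏ k ∈ Finset.range (p - 1), ℘'[L] (((k + 1 : ℕ) : ℂ) * (L.ω₁ / p))

theorem derivProd_sq (L : PeriodPair) (p : ℕ) :
    derivProd L p ^ 2 = 4 ^ (p - 1) *
      (normProdTail L p (e₁ L) 0 * normProdTail L p (e₂ L) 0 * normProdTail L p (e₃ L) 0) := by
  simp only [derivProd, normProdTail]
  rw [← Finset.prod_pow, ← Finset.prod_mul_distrib, ← Finset.prod_mul_distrib]
  have h4 : (4 : ℂ) ^ (p - 1) = ∏ _k ∈ Finset.range (p - 1), (4 : ℂ) := by
    rw [Finset.prod_const, Finset.card_range]
  rw [h4, ← Finset.prod_mul_distrib]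
  refine Finset.prod_congr rfl fun k hk => ?_
  have hk' : k < p - 1 := Finset.mem_range.mp hk
  rw [zero_add, derivWeierstrassP_sq_factor L (natMul_div_notMem L p (by omega) (by omega))]
  ring

/-- the final algebraic step -/
theorem final_alg (P P' c D : ℂ) (n : ℕ) (key : c * P' = P ^ (n + 1))
    (h4 : D = 16 ^ n * c ^ 2) : 16 * P' ^ 2 * D = (16 * P ^ 2) ^ (n + 1) := by
  rw [h4]
  have h5 : 16 * P' ^ 2 * (16 ^ n * c ^ 2) = 16 ^ (n + 1) * (c * P') ^ 2 := by ring1
  rw [h5, key]
  ring1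

/-- **The discriminant of the quotient lattice.** -/
theorem latDisc_divPair (L : PeriodPair) (p : ℕ) (hp : Odd p) (hp0 : p ≠ 0) :
    latDisc (divPair L p hp0) * derivProd L p ^ 4 = latDisc L ^ p := by
  set L' := divPair L p hp0 with hL'
  set c₁ := normProdTail L p (e₁ L) 0 with hc₁
  set c₂ := normProdTail L p (e₂ L) 0 with hc₂
  set c₃ := normProdTail L p (e₃ L) 0 with hc₃
  have h12 := e₁_ne_e₂ L
  have h31 := e₃_ne_e₁ L
  have h32 := e₃_ne_e₂ L
  -- the three translation formulas in the shape needed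
  have κ₁ : ∀ z : ℂ, z ∉ L.lattice → z - L.ω₁ / 2 ∉ L.lattice →
      (℘[L] z - e₁ L) * (℘[L] (z - L.ω₁ / 2) - e₁ L) = (e₁ L - e₂ L) * (e₁ L - e₃ L) :=
    fun z hz hzh => translate₁ L hz hzh
  have κ₁' : ∀ z : ℂ, z ∉ L.lattice → z - L.ω₁ / 2 ∉ L.lattice →
      (℘[L] z - e₁ L) * (℘[L] (z - L.ω₁ / 2) - e₁ L) = (e₁ L - e₃ L) * (e₁ L - e₂ L) :=
    fun z hz hzh => (translate₁ L hz hzh).trans (mul_comm _ _)
  have κ₂ : ∀ z : ℂ, z ∉ L.lattice → z - L.ω₂ / 2 ∉ L.lattice →
      (℘[L] z - e₂ L) * (℘[L] (z - L.ω₂ / 2) - e₂ L) = (e₂ L - e₃ L) * (e₂ L - e₁ L) :=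
    fun z hz hzh => (translate₂ L hz hzh).trans (mul_comm _ _)
  have κ₃ : ∀ z : ℂ, z ∉ L.lattice → z - (L.ω₁ / 2 + L.ω₂ / 2) ∉ L.lattice →
      (℘[L] z - e₃ L) * (℘[L] (z - (L.ω₁ / 2 + L.ω₂ / 2)) - e₃ L)
        = (e₃ L - e₁ L) * (e₃ L - e₂ L) :=
    fun z hz hzh => translate₃ L hz hzh
  have m₁ : ∀ k : ℕ, k < p - 1 → L.ω₁ / 2 + ((k + 1 : ℕ) : ℂ) * (L.ω₁ / p) ∉ L.lattice :=
    fun k _ => half₁_add_notMem L p hp (k + 1)
  have m₂ : ∀ k : ℕ, k < p - 1 → L.ω₂ / 2 + ((k + 1 : ℕ) : ℂ) * (L.ω₁ / p) ∉ L.lattice :=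
    fun k _ => half₂_add_notMem L p hp0 (k + 1)
  have m₃ : ∀ k : ℕ, k < p - 1 →
      (L.ω₁ / 2 + L.ω₂ / 2) + ((k + 1 : ℕ) : ℂ) * (L.ω₁ / p) ∉ L.lattice :=
    fun k _ => half₃_add_notMem L p hp0 (k + 1)
  have n₁ := half₁_notMem_divPair L p hp hp0
  have n₂ := half₂_notMem_divPair L p hp0
  have n₃ := half₃_notMem_divPair L p hp0
  -- (I-B) for the three pairs
  have d12 := diff_formula L p hp0 (h := L.ω₁ / 2) (hj := L.ω₂ / 2) (e := e₁ L) (ej := e₂ L)
    (em := e₃ L) rfl rfl κ₁ m₁ n₁ n₂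
  have d13 := diff_formula L p hp0 (h := L.ω₁ / 2) (hj := L.ω₁ / 2 + L.ω₂ / 2) (e := e₁ L)
    (ej := e₃ L) (em := e₂ L) rfl rfl κ₁' m₁ n₁ n₃
  have d23 := diff_formula L p hp0 (h := L.ω₂ / 2) (hj := L.ω₁ / 2 + L.ω₂ / 2) (e := e₂ L)
    (ej := e₃ L) (em := e₁ L) rfl rfl κ₂ m₂ n₂ n₃
  rw [← e₁_divPair L p hp hp0, ← e₂_divPair L p hp0] at d12
  rw [← e₁_divPair L p hp hp0, ← e₃_divPair L p hp hp0] at d13
  rw [← e₂_divPair L p hp0, ← e₃_divPair L p hp hp0] at d23
  -- nonvanishing of the constants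
  have hc₁0 : c₁ ≠ 0 := normProdTail_zero_ne_zero L p κ₁ h12 h31.symm m₁
  have hc₂0 : c₂ ≠ 0 := normProdTail_zero_ne_zero L p κ₂ h32.symm h12.symm m₂
  have hc₃0 : c₃ ≠ 0 := normProdTail_zero_ne_zero L p κ₃ h31 h32 m₃
  have hsq := derivProd_sq L p
  rw [← hc₁, ← hc₂, ← hc₃] at hsq
  -- put everything together
  set P := (e₁ L - e₂ L) * (e₁ L - e₃ L) * (e₂ L - e₃ L) with hP
  set P' := (e₁ L' - e₂ L') * (e₁ L' - e₃ L') * (e₂ L' - e₃ L') with hP'
  set c := c₁ * c₂ * c₃ with hc
  have hc0 : c ≠ 0 := mul_ne_zero (mul_ne_zero hc₁0 hc₂0) hc₃0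
  have key : c * P' = P ^ p := by
    apply mul_left_cancel₀ hc0
    have : c * (c * P') = (c₁ * c₂ * (e₁ L' - e₂ L')) * (c₁ * c₃ * (e₁ L' - e₃ L')) *
        (c₂ * c₃ * (e₂ L' - e₃ L')) := by
      simp only [hc, hP']; ring
    rw [this, d12, d13, d23]
    simp only [hc, hP, mul_pow]
    ring
  rw [latDisc_eq_e L', latDisc_eq_e L, ← hP, ← hP']
  obtain ⟨n, rfl⟩ : ∃ n, p = n + 1 := ⟨p - 1, by omega⟩
  rw [Nat.add_sub_cancel] at hsq
  have h4 : derivProd L (n + 1) ^ 4 = 16 ^ n * c ^ 2 := by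
    have : derivProd L (n + 1) ^ 4 = (derivProd L (n + 1) ^ 2) ^ 2 := by ring
    rw [this, hsq, mul_pow, ← pow_mul]
    congr 1
    rw [show (16 : ℂ) = 4 ^ 2 by norm_num, ← pow_mul, mul_comm]
  exact final_alg P P' c _ n key h4

/-- the same product indexed by `Finset.Ico 1 p` -/
theorem derivProd_eq_prod_Ico (L : PeriodPair) (p : ℕ) :
    derivProd L p = ∏ k ∈ Finset.Ico 1 p, ℘'[L] ((k : ℂ) * (L.ω₁ / p)) := by
  rcases Nat.eq_zero_or_pos p with rfl | hp
  · simp [derivProd]
  rw [derivProd, Finset.prod_Ico_eq_prod_range]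
  refine Finset.prod_congr rfl fun k _ => ?_
  congr 2
  push_cast
  ring

end Fermat.Agent.S15.H662

end

end
-- ===== PACK-END S15/H662/Disc.lean

-- ===== PACK-BEGIN S15/H782/UVal.lean
section


/-!
# S15, node GEO, piece UVAL (helper782): the algebraic modular unit and its valuation

Route: `origin/helper902:coord/S15-PB-helper902.md`, section 0.  For a Weierstrass curve `W` and
a point `Q` of prime order `p` put

  `psiTwo W P = 2 y + a₁ x + a₃`   (`P = (x, y)`),
  `psiProd W Q p = ∏_{0 < k < p} psiTwo W (k • Q)`,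
  `unitU W p Q = p ^ 12 * (psiProd W Q p) ^ 4 / Δ ^ (p - 1)`     (`= Δ(τ)/Δ(pτ)` at `(E, ⟨Q⟩)`).

At a place `A` with `v_A(p) = 1` (no hypothesis on the reduction type, none on `v_A(2)`):

* `val_psiProd_eq_one` : `Q ∈ E⁰`, `p` odd  ⟹  `v_A(psiProd) = 1`;
* `val_psiProd_lt_one` : `Q ∉ E⁰`           ⟹  `v_A(psiProd) < 1`, and every factor is in `𝔪_A`;

and for `W : WeierstrassCurve ℤ`, `A ⊆ ℚ̄` over `ℓ ≠ p`, in the Prelude's vocabulary:

* `val_unitU_of_inZeroComponentAt`     : `v_A(unitU) * v_A(Δ) ^ (p - 1) = 1`;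
* `val_unitU_of_not_inZeroComponentAt` : `v_A(unitU) * v_A(Δ) ^ (p - 1) < 1`;
* `unitU_smul` (Galois equivariance), `unitU_rational` (`Q` rational ⟹ `unitU ∈ ℚ`).
-/

set_option autoImplicit false

namespace Fermat.Agent.S15.H782

open WeierstrassCurve WeierstrassCurve.Affine
open Fermat.Agent.S05.SameRed (IntegralCoeffs InKer)
open Fermat.Agent.Lib.Red.H290
open Fermat.Agent.S15.H242

section general

variable {K : Type*} [Field K] {κ : Type*} [Field κ]
variable {A : ValuationSubring K} {φ : A →+* κ} {W : Affine K} {Wκ : Affine κ}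

/-- `ψ₂(P) = 2y + a₁x + a₃` (the `y`-derivative of the Weierstrass polynomial at `P`), with the
convention `ψ₂(O) = 1`. -/
def psiTwo (W : Affine K) : W.Point → K
  | .zero => 1
  | .some x y _ => 2 * y + W.a₁ * x + W.a₃

@[simp] lemma psiTwo_zero : psiTwo W (0 : W.Point) = 1 := rfl

@[simp] lemma psiTwo_some {x y : K} (h : W.Nonsingular x y) :
    psiTwo W (Point.some x y h) = 2 * y + W.a₁ * x + W.a₃ := rfl

/-- The product of `ψ₂` over the nonzero multiples `k • Q`, `0 < k < p`. -/
def psiProd [DecidableEq K] (W : Affine K) (Q : W.Point) (p : ℕ) : K :=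
  ∏ k ∈ Finset.Ioo 0 p, psiTwo W (k • Q)

/-- `ψ₂` of an integral point is integral and reduces to `ψ₂` of the reduction. -/
lemma rd_psiTwoExpr (h : IsRedOf A φ W Wκ) {x y : K} (hx : x ∈ A) (hy : y ∈ A) :
    2 * y + W.a₁ * x + W.a₃ ∈ A ∧
    rd A φ (2 * y + W.a₁ * x + W.a₃) = 2 * rd A φ y + Wκ.a₁ * rd A φ x + Wκ.a₃ := by
  obtain ⟨c₁, c₂, c₃, c₄, c₆, e₁, e₂, e₃, e₄, e₆, f₁, f₂, f₃, f₄, f₆⟩ := h.exists_lift
  lift x to A using hx
  lift y to A using hy
  simp only [← e₁, ← e₃, ← f₁, ← f₃]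
  have : (2 * (y : K) + c₁ * x + c₃) = ((2 * y + c₁ * x + c₃ : A) : K) := by
    push_cast; rw [coe_two]
  rw [this, rd_coe, rd_coe, rd_coe]
  exact ⟨Subtype.mem _, by simp only [map_add, map_mul, map_ofNat]⟩

end general

section localFacts

variable {K : Type*} [Field K] [DecidableEq K] {κ : Type*} [Field κ] [DecidableEq κ]
variable {A : ValuationSubring K} {φ : A →+* κ} {W : Affine K} {Wκ : Affine κ}

omit [DecidableEq K] [DecidableEq κ] in
/-- A point outside `E⁰` is an integral affine point whose reduction is singular. -/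
lemma not_inE0_iff {x y : K} (hxy : W.Nonsingular x y) :
    ¬ InE0 A φ Wκ (Point.some x y hxy) ↔ x ∈ A ∧ ¬ Wκ.Nonsingular (rd A φ x) (rd A φ y) := by
  rw [inE0_some_iff, Classical.not_imp]

omit [DecidableEq κ] in
/-- **(b), one factor.**  If `P ∉ E⁰` then `ψ₂(P) ∈ 𝔪_A`: the `y`-derivative of the
Weierstrass polynomial vanishes at the singular point of the reduction. -/
theorem val_psiTwo_lt_one_of_not_inE0 (h : IsRedOf A φ W Wκ) (hφ : KerMax A φ) {P : W.Point}
    (hP : ¬ InE0 A φ Wκ P) : A.valuation (psiTwo W P) < 1 := by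
  rcases P with _ | ⟨x, y, hxy⟩
  · exact absurd inE0_zero hP
  · obtain ⟨hx, hsing⟩ := (not_inE0_iff hxy).mp hP
    have hy : y ∈ A := y_mem_of_x_mem h hxy.1 hx
    obtain ⟨hmem, hrd⟩ := rd_psiTwoExpr h hx hy
    have heq := rd_equation h hx hy hxy.1
    have h0 : 2 * rd A φ y + Wκ.a₁ * rd A φ x + Wκ.a₃ = 0 := by
      by_contra hne
      exact hsing ((Affine.nonsingular_iff' _ _).mpr ⟨heq, Or.inr hne⟩)
    rw [psiTwo_some]
    exact (rd_eq_zero_iff hφ hmem).mp (hrd.trans h0)

/-- **(a), one factor.**  If `P ∈ E⁰` is integral and its reduction is not killed by `2`, then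
`ψ₂(P)` is a unit of `A`. -/
theorem val_psiTwo_eq_one_of_inE0 (h : IsRedOf A φ W Wκ) (hφ : KerMax A φ) {x y : K}
    (hxy : W.Nonsingular x y) (hx : x ∈ A) (hP : InE0 A φ Wκ (Point.some x y hxy))
    (h2 : 2 • red0 A φ Wκ (Point.some x y hxy) ≠ 0) :
    A.valuation (psiTwo W (Point.some x y hxy)) = 1 := by
  have hy : y ∈ A := y_mem_of_x_mem h hxy.1 hx
  obtain ⟨hmem, hrd⟩ := rd_psiTwoExpr h hx hy
  have hns := hP hx
  rw [psiTwo_some]
  refine (rd_ne_zero_iff hφ hmem).mp fun h0 => h2 ?_
  rw [red0_some_of_mem hxy hx hns, two_nsmul]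
  refine Point.add_self_of_Y_eq ?_
  rw [hrd] at h0
  rw [Affine.negY]
  linear_combination h0

/-- If `Q ∉ E⁰` has order dividing the prime `p`, no multiple `k • Q` with `p ∤ k` lies in
`E⁰` (`E⁰` is a subgroup). -/
theorem not_inE0_nsmul (h : IsRedOf A φ W Wκ) (hφ : KerMax A φ) {p : ℕ} (hp : p.Prime)
    {Q : W.Point} (hQ : ¬ InE0 A φ Wκ Q) (hpQ : p • Q = 0) {k : ℕ} (hk : ¬ p ∣ k) :
    ¬ InE0 A φ Wκ (k • Q) := by
  intro hkQ
  have hcop : Nat.Coprime k p := ((Nat.Prime.coprime_iff_not_dvd hp).mpr hk).symm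
  obtain ⟨m, -, hm⟩ := Nat.exists_mul_mod_eq_one_of_coprime hcop hp.one_lt
  have hQ' : m • (k • Q) = Q := by
    rw [smul_smul, mul_comm, ← Nat.div_add_mod (k * m) p, hm, add_smul, mul_smul, one_smul]
    rw [smul_comm, hpQ, smul_zero, zero_add]
  exact hQ (hQ' ▸ inE0_nsmul h hφ hkQ m)

/-- The multiples `k • Q`, `0 < k < p`, of a point of prime order `p` have order `p`. -/
lemma addOrderOf_nsmul_of_mem_Ioo {G : Type*} [AddGroup G] {p : ℕ} (hp : p.Prime) {Q : G}
    (hord : addOrderOf Q = p) {k : ℕ} (hk : k ∈ Finset.Ioo 0 p) : addOrderOf (k • Q) = p := by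
  obtain ⟨hk0, hkp⟩ := Finset.mem_Ioo.mp hk
  have hnd : ¬ p ∣ k := Nat.not_dvd_of_pos_of_lt hk0 hkp
  have hcop : Nat.Coprime (addOrderOf Q) k := by
    rw [hord]; exact (Nat.Prime.coprime_iff_not_dvd hp).mpr hnd
  rw [Nat.Coprime.addOrderOf_nsmul hcop, hord]

/-- **(b).**  If `Q ∉ E⁰` has prime order `p`, every factor `ψ₂(k • Q)`, `0 < k < p`, lies in
`𝔪_A`. -/
theorem val_psiTwo_nsmul_lt_one (h : IsRedOf A φ W Wκ) (hφ : KerMax A φ) {p : ℕ} (hp : p.Prime)
    {Q : W.Point} (hQ : ¬ InE0 A φ Wκ Q) (hord : addOrderOf Q = p) {k : ℕ}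
    (hk : k ∈ Finset.Ioo 0 p) : A.valuation (psiTwo W (k • Q)) < 1 := by
  obtain ⟨hk0, hkp⟩ := Finset.mem_Ioo.mp hk
  have hpQ : p • Q = 0 := by rw [← hord]; exact addOrderOf_nsmul_eq_zero Q
  exact val_psiTwo_lt_one_of_not_inE0 h hφ
    (_root_.Fermat.Agent.S15.H782.not_inE0_nsmul h hφ hp hQ hpQ (Nat.not_dvd_of_pos_of_lt hk0 hkp))

/-- **(b), product.**  If `Q ∉ E⁰` has prime order `p` then `v_A(∏ ψ₂(k • Q)) < 1`. -/
theorem val_psiProd_lt_one (h : IsRedOf A φ W Wκ) (hφ : KerMax A φ) {p : ℕ} (hp : p.Prime)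
    {Q : W.Point} (hQ : ¬ InE0 A φ Wκ Q) (hord : addOrderOf Q = p) :
    A.valuation (psiProd W Q p) < 1 := by
  have h1 : (1 : ℕ) ∈ Finset.Ioo 0 p := Finset.mem_Ioo.mpr ⟨Nat.one_pos, hp.one_lt⟩
  rw [psiProd, ← Finset.mul_prod_erase _ _ h1, map_mul, map_prod]
  have hle : ∏ k ∈ (Finset.Ioo 0 p).erase 1, A.valuation (psiTwo W (k • Q)) ≤ 1 :=
    Finset.prod_le_one' fun k hk =>
      (val_psiTwo_nsmul_lt_one h hφ hp hQ hord (Finset.mem_of_mem_erase hk)).le
  calc A.valuation (psiTwo W (1 • Q)) * ∏ k ∈ (Finset.Ioo 0 p).erase 1,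
        A.valuation (psiTwo W (k • Q))
      ≤ A.valuation (psiTwo W (1 • Q)) * 1 := mul_le_mul_right hle _
    _ = A.valuation (psiTwo W (1 • Q)) := mul_one _
    _ < 1 := val_psiTwo_nsmul_lt_one h hφ hp hQ hord h1

/-- **(a).**  If `Q ∈ E⁰` has odd prime order `p`, a unit of `A`, then every factor
`ψ₂(k • Q)`, `0 < k < p`, is a unit of `A`. -/
theorem val_psiTwo_nsmul_eq_one (h : IsRedOf A φ W Wκ) (hφ : KerMax A φ) {p : ℕ} (hp : p.Prime)
    (hp2 : p ≠ 2) (hv : A.valuation (p : K) = 1) {Q : W.Point} (hQ : InE0 A φ Wκ Q)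
    (hord : addOrderOf Q = p) {k : ℕ} (hk : k ∈ Finset.Ioo 0 p) :
    A.valuation (psiTwo W (k • Q)) = 1 := by
  have hkQ : InE0 A φ Wκ (k • Q) := inE0_nsmul h hφ hQ k
  have hordk : addOrderOf (k • Q) = p := addOrderOf_nsmul_of_mem_Ioo hp hord hk
  have hred := addOrderOf_red0 h hφ hp hv hkQ hordk
  have h2 : 2 • red0 A φ Wκ (k • Q) ≠ 0 := fun h0 => by
    have hdvd := addOrderOf_dvd_of_nsmul_eq_zero h0
    rw [hred] at hdvd
    exact hp2 ((Nat.prime_dvd_prime_iff_eq hp Nat.prime_two).mp hdvd)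
  generalize k • Q = P at hkQ hred h2
  rcases P with _ | ⟨x, y, hxy⟩
  · exact absurd (smul_zero 2) h2
  · have hx : x ∈ A := by
      by_contra hx
      rw [red0_some_of_not_mem hxy hx, smul_zero] at h2
      exact h2 rfl
    exact val_psiTwo_eq_one_of_inE0 h hφ hxy hx hkQ h2

/-- **(a), product.**  If `Q ∈ E⁰` has odd prime order `p`, a unit of `A`, then
`v_A(∏ ψ₂(k • Q)) = 1`. -/
theorem val_psiProd_eq_one (h : IsRedOf A φ W Wκ) (hφ : KerMax A φ) {p : ℕ} (hp : p.Prime)
    (hp2 : p ≠ 2) (hv : A.valuation (p : K) = 1) {Q : W.Point} (hQ : InE0 A φ Wκ Q)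
    (hord : addOrderOf Q = p) : A.valuation (psiProd W Q p) = 1 := by
  rw [psiProd, map_prod]
  exact Finset.prod_eq_one fun k hk => val_psiTwo_nsmul_eq_one h hφ hp hp2 hv hQ hord hk

end localFacts

/-! ### The Prelude's vocabulary: `W : WeierstrassCurve ℤ`, places of `ℚ̄` -/

section global

variable (W : WeierstrassCurve ℤ)

/-- The points of `W` over `ℚ̄` (the type of `Q` in the frozen statement S15). -/
abbrev PtsBar : Type := ((W.map (Int.castRingHom ℚ))⁄(AlgebraicClosure ℚ)).Point

/-- The algebraic modular unit `U(W, Q) = p¹² ∏_{0<k<p} ψ₂(kQ)⁴ / Δ^{p-1}`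
(`= Δ(τ)/Δ(pτ)` at the moduli point of `(E, ⟨Q⟩)`). -/
noncomputable def unitU (p : ℕ) (Q : PtsBar W) : AlgebraicClosure ℚ :=
  (p : AlgebraicClosure ℚ) ^ 12 * psiProd _ Q p ^ 4 / ((W.Δ : ℤ) : AlgebraicClosure ℚ) ^ (p - 1)

lemma unitU_mul_Δ_pow (hΔ : W.Δ ≠ 0) (p : ℕ) (Q : PtsBar W) :
    unitU W p Q * ((W.Δ : ℤ) : AlgebraicClosure ℚ) ^ (p - 1) =
      (p : AlgebraicClosure ℚ) ^ 12 * psiProd _ Q p ^ 4 := by
  have h0 : ((W.Δ : ℤ) : AlgebraicClosure ℚ) ^ (p - 1) ≠ 0 :=
    pow_ne_zero _ (Int.cast_ne_zero.mpr hΔ)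
  rw [unitU, div_mul_cancel₀ _ h0]

variable (A : ValuationSubring (AlgebraicClosure ℚ))

/-- The converse of `H242.inE0_of_inZeroComponentAt`. -/
lemma inZeroComponentAt_of_inE0 {Q : PtsBar W}
    (hQ : InE0 A (IsLocalRing.residue A) (W⁄(IsLocalRing.ResidueField A)) Q) :
    W.InZeroComponentAt A Q := by
  rcases Q with _ | ⟨x, y, h⟩
  · exact Or.inl rfl
  · refine Or.inr ⟨x, y, h, rfl, ?_⟩
    by_cases hx : x ∈ A
    · have hy : y ∈ A := y_mem_of_x_mem (isRedOf_int A W (IsLocalRing.residue A)) h.1 hx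
      have hns := hQ hx
      rw [rd_of_mem hx, rd_of_mem hy] at hns
      exact Or.inr ⟨hx, hy, hns⟩
    · exact Or.inl hx

lemma inZeroComponentAt_iff_inE0 {Q : PtsBar W} :
    W.InZeroComponentAt A Q ↔
      InE0 A (IsLocalRing.residue A) (W⁄(IsLocalRing.ResidueField A)) Q :=
  ⟨inE0_of_inZeroComponentAt W A, _root_.Fermat.Agent.S15.H782.inZeroComponentAt_of_inE0 W A⟩

variable {W A}

/-- **UVAL (a).**  `Q ∈ E⁰` at `A ∣ ℓ ≠ p`, `Q` of odd prime order `p`:
`v_A(U(W,Q)) · v_A(Δ)^{p-1} = 1`, i.e. `ord_A U = -(p-1) ord_A Δ`. -/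
theorem val_unitU_of_inZeroComponentAt {p : ℕ} (hp : p.Prime) (hp2 : p ≠ 2) (hΔ : W.Δ ≠ 0)
    {Q : PtsBar W} (hord : addOrderOf Q = p) {ℓ : ℕ} (hℓ : ℓ.Prime) (hℓp : ℓ ≠ p)
    (hA : A.LiesOverPrime ℓ) (hQ0 : W.InZeroComponentAt A Q) :
    A.valuation (unitU W p Q) * A.valuation ((W.Δ : ℤ) : AlgebraicClosure ℚ) ^ (p - 1) = 1 := by
  classical
  have hv : A.valuation ((p : ℕ) : AlgebraicClosure ℚ) = 1 := val_natCast_eq_one A hA hℓ hp hℓp
  have h1 := val_psiProd_eq_one (isRedOf_int A W (IsLocalRing.residue A)) (kerMax_residue A)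
    hp hp2 hv (inE0_of_inZeroComponentAt W A hQ0) hord
  rw [← map_pow, ← map_mul, unitU_mul_Δ_pow W hΔ, map_mul, map_pow, map_pow, hv, h1, one_pow,
    one_pow, one_mul]

/-- **UVAL (b).**  `Q ∉ E⁰` at `A ∣ ℓ ≠ p`, `Q` of prime order `p`:
`v_A(U(W,Q)) · v_A(Δ)^{p-1} < 1`, i.e. `ord_A U > -(p-1) ord_A Δ`. -/
theorem val_unitU_of_not_inZeroComponentAt {p : ℕ} (hp : p.Prime) (hΔ : W.Δ ≠ 0)
    {Q : PtsBar W} (hord : addOrderOf Q = p) {ℓ : ℕ} (hℓ : ℓ.Prime) (hℓp : ℓ ≠ p)
    (hA : A.LiesOverPrime ℓ) (hQ0 : ¬ W.InZeroComponentAt A Q) :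
    A.valuation (unitU W p Q) * A.valuation ((W.Δ : ℤ) : AlgebraicClosure ℚ) ^ (p - 1) < 1 := by
  classical
  have hv : A.valuation ((p : ℕ) : AlgebraicClosure ℚ) = 1 := val_natCast_eq_one A hA hℓ hp hℓp
  have h1 := val_psiProd_lt_one (isRedOf_int A W (IsLocalRing.residue A)) (kerMax_residue A)
    hp (fun h => hQ0 (_root_.Fermat.Agent.S15.H782.inZeroComponentAt_of_inE0 W A h)) hord
  rw [← map_pow, ← map_mul, unitU_mul_Δ_pow W hΔ, map_mul, map_pow, map_pow, hv, one_pow,
    one_mul]
  exact pow_lt_one₀ zero_le h1 (by norm_num)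

/-! ### Comparison with the `j`-invariant `c₄³ / Δ` -/

/-- At a multiplicative prime, `v_A(j) = v_A(Δ)⁻¹ > 1`. -/
theorem val_j_of_mult {ℓ : ℕ} (hℓ : ℓ.Prime) (hℓc₄ : ¬ (ℓ : ℤ) ∣ W.c₄)
    (hA : A.LiesOverPrime ℓ) :
    A.valuation (((W.c₄ : ℤ) : AlgebraicClosure ℚ) ^ 3 / ((W.Δ : ℤ) : AlgebraicClosure ℚ)) =
      (A.valuation ((W.Δ : ℤ) : AlgebraicClosure ℚ))⁻¹ := by
  rw [map_div₀, map_pow, val_intCast_eq_one A hA hℓ hℓc₄, one_pow, one_div]

theorem val_Δ_lt_one {ℓ : ℕ} (hℓΔ : (ℓ : ℤ) ∣ W.Δ) (hA : A.LiesOverPrime ℓ) :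
    A.valuation ((W.Δ : ℤ) : AlgebraicClosure ℚ) < 1 := by
  obtain ⟨c, hc⟩ := hℓΔ
  have hℓv : A.valuation ((ℓ : ℕ) : AlgebraicClosure ℚ) < 1 := (A.mem_nonunits_iff).mp hA
  rw [hc]
  push_cast
  rw [map_mul]
  calc A.valuation ((ℓ : ℕ) : AlgebraicClosure ℚ) * A.valuation ((c : ℤ) : AlgebraicClosure ℚ)
      ≤ A.valuation ((ℓ : ℕ) : AlgebraicClosure ℚ) * 1 :=
        mul_le_mul_right (val_intCast_le_one A c) _
    _ < 1 := by rwa [mul_one]

/-- **UVAL (a), `j`-form.**  `Q ∈ E⁰` ⟹ `v_A(U) = v_A(j)^{p-1}` (`> 1`: `U` is the root of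
negative order of the modular equation). -/
theorem val_unitU_eq_val_j_pow {p : ℕ} (hp : p.Prime) (hp2 : p ≠ 2) (hΔ : W.Δ ≠ 0)
    {Q : PtsBar W} (hord : addOrderOf Q = p) {ℓ : ℕ} (hℓ : ℓ.Prime) (hℓp : ℓ ≠ p)
    (hℓc₄ : ¬ (ℓ : ℤ) ∣ W.c₄) (hA : A.LiesOverPrime ℓ) (hQ0 : W.InZeroComponentAt A Q) :
    A.valuation (unitU W p Q) =
      A.valuation (((W.c₄ : ℤ) : AlgebraicClosure ℚ) ^ 3 /
        ((W.Δ : ℤ) : AlgebraicClosure ℚ)) ^ (p - 1) := by
  have h := val_unitU_of_inZeroComponentAt hp hp2 hΔ hord hℓ hℓp hA hQ0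
  have h0 : A.valuation ((W.Δ : ℤ) : AlgebraicClosure ℚ) ^ (p - 1) ≠ 0 :=
    pow_ne_zero _ ((Valuation.ne_zero_iff _).mpr (Int.cast_ne_zero.mpr hΔ))
  rw [val_j_of_mult hℓ hℓc₄ hA, inv_pow]
  exact eq_inv_of_mul_eq_one_left h

/-- **UVAL (b), `j`-form.**  `Q ∉ E⁰` ⟹ `v_A(U) < v_A(j)^{p-1}` (`U` is NOT the root of
order `(p-1) ord_A j` of the modular equation). -/
theorem val_unitU_lt_val_j_pow {p : ℕ} (hp : p.Prime) (hΔ : W.Δ ≠ 0)
    {Q : PtsBar W} (hord : addOrderOf Q = p) {ℓ : ℕ} (hℓ : ℓ.Prime) (hℓp : ℓ ≠ p)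
    (hℓc₄ : ¬ (ℓ : ℤ) ∣ W.c₄) (hA : A.LiesOverPrime ℓ) (hQ0 : ¬ W.InZeroComponentAt A Q) :
    A.valuation (unitU W p Q) <
      A.valuation (((W.c₄ : ℤ) : AlgebraicClosure ℚ) ^ 3 /
        ((W.Δ : ℤ) : AlgebraicClosure ℚ)) ^ (p - 1) := by
  have h := val_unitU_of_not_inZeroComponentAt hp hΔ hord hℓ hℓp hA hQ0
  have h0 : 0 < A.valuation ((W.Δ : ℤ) : AlgebraicClosure ℚ) ^ (p - 1) :=
    pow_pos ((Valuation.pos_iff _).mpr (Int.cast_ne_zero.mpr hΔ)) _
  rw [val_j_of_mult hℓ hℓc₄ hA, inv_pow, ← one_mul (_⁻¹)]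
  exact (lt_mul_inv_iff₀ h0).mpr h

/-! ### Galois equivariance and rationality -/

lemma psiTwo_smul (σ : AlgebraicClosure ℚ ≃ₐ[ℚ] AlgebraicClosure ℚ) (P : PtsBar W) :
    psiTwo _ (σ • P) = σ (psiTwo _ P) := by
  rcases P with _ | ⟨x, y, h⟩
  · exact (map_one σ).symm
  · rw [Point.algEquiv_smul_def, Point.map_some, psiTwo_some, psiTwo_some]
    simp only [map_add, map_mul, map_ofNat, AlgEquiv.coe_toAlgHom]
    have e₁ : σ ((W.map (Int.castRingHom ℚ))⁄(AlgebraicClosure ℚ)).a₁ =
        ((W.map (Int.castRingHom ℚ))⁄(AlgebraicClosure ℚ)).a₁ := σ.commutes _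
    have e₃ : σ ((W.map (Int.castRingHom ℚ))⁄(AlgebraicClosure ℚ)).a₃ =
        ((W.map (Int.castRingHom ℚ))⁄(AlgebraicClosure ℚ)).a₃ := σ.commutes _
    rw [e₁, e₃]

lemma psiProd_smul (σ : AlgebraicClosure ℚ ≃ₐ[ℚ] AlgebraicClosure ℚ) (Q : PtsBar W) (p : ℕ) :
    psiProd _ (σ • Q) p = σ (psiProd _ Q p) := by
  rw [psiProd, psiProd, map_prod]
  refine Finset.prod_congr rfl fun k _ => ?_
  rw [← psiTwo_smul, smul_comm]

/-- Galois equivariance of the algebraic modular unit. -/
theorem unitU_smul (σ : AlgebraicClosure ℚ ≃ₐ[ℚ] AlgebraicClosure ℚ) (Q : PtsBar W) (p : ℕ) :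
    unitU W p (σ • Q) = σ (unitU W p Q) := by
  rw [unitU, unitU, psiProd_smul, map_div₀, map_mul, map_pow, map_pow, map_pow, map_natCast,
    map_intCast]

/-- For a rational point `Q`, `U(W, Q)` is a rational number. -/
theorem unitU_rational {Q : PtsBar W}
    (hQfix : ∀ σ : AlgebraicClosure ℚ ≃ₐ[ℚ] AlgebraicClosure ℚ, σ • Q = Q) (p : ℕ) :
    unitU W p Q ∈ Set.range (algebraMap ℚ (AlgebraicClosure ℚ)) := by
  have := isGalois_Qbar_h242
  refine (InfiniteGalois.mem_range_algebraMap_iff_fixed _).mpr fun σ => ?_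
  rw [← unitU_smul, hQfix]

end global

end Fermat.Agent.S15.H782

end
-- ===== PACK-END S15/H782/UVal.lean

-- ===== PACK-BEGIN S15/H242/Psi2.lean
section


/-!
# S15, piece LOC-U (helper242): the valuation of `ψ₂` along the multiples of `Q`

`ψ₂(P) = 2 y + a₁ x + a₃` (the `y`-derivative of the Weierstrass equation; `℘'` in the analytic
normalisation).  In the route of `coord/S15-PB-helper902.md` the value at the moduli point
`(E, ⟨Q⟩)` of the modular unit `u = Δ(τ)/Δ(pτ)` is

  `U(W, Q) = p¹² · ∏_{k=1}^{p-1} ψ₂(kQ)⁴ / Δ_W^{p-1}`.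

Here we compute its `A`-adic size at a place `A` of bad reduction, purely on the elliptic curve:

* `val_psi2_eq_one_of_inE0`  : `Q ∈ E⁰` of odd prime order `p` (a unit of `A`), `p ∤ k`
                               `⟹ v(ψ₂(kQ)) = 1` (it is a unit of `A`);
* `val_psi2_lt_one_of_not_inE0` : `Q ∉ E⁰`, `p • Q = 0`, `p ∤ k`  `⟹  v(ψ₂(kQ)) < 1`
                               (and `kQ` is an integral affine point);
* `val_modUnitValue_of_inE0`, `val_modUnitValue_of_not_inE0` : the resulting (in)equalities for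
  `U(W, Q)`;
* `..._S15` : the same in the setting of S15 (`InZeroComponentAt`).

No Tate curve, no isogeny.  (`v` is the multiplicative valuation of `A`: `v x ≤ 1 ↔ x ∈ A`.)
-/

set_option autoImplicit false
open WeierstrassCurve WeierstrassCurve.Affine

namespace Fermat.Agent.S15.H242

open Fermat.Agent.Lib.Red.H290
open Fermat.Agent.S05.SameRed (IntegralCoeffs InKer)

section general

variable {K : Type*} [Field K] [DecidableEq K] {κ : Type*} [Field κ] [DecidableEq κ]
variable {A : ValuationSubring K} {φ : A →+* κ} {W : Affine K} {Wκ : Affine κ}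

/-- `ψ₂(P) = 2 y + a₁ x + a₃`, and `0` at the origin. -/
def psi2 (W : Affine K) : W.Point → K
  | .zero => 0
  | .some x y _ => 2 * y + W.a₁ * x + W.a₃

omit [DecidableEq K] in
@[simp] lemma psi2_some {x y : K} (h : W.Nonsingular x y) :
    psi2 W (Point.some x y h) = 2 * y + W.a₁ * x + W.a₃ := rfl

omit [DecidableEq K] in
@[simp] lemma psi2_zero : psi2 W (0 : W.Point) = 0 := rfl

/-- The product `∏_{k=1}^{p-1} ψ₂(kQ)`. -/
noncomputable def psi2Prod (W : Affine K) (Q : W.Point) (p : ℕ) : K :=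
  ∏ k ∈ Finset.Ico 1 p, psi2 W (k • Q)

/-- The value `U(W, Q) = p¹² ∏_{k=1}^{p-1} ψ₂(kQ)⁴ / Δ^{p-1}` of the modular unit
`Δ(τ)/Δ(pτ)` at the moduli point `(W, ⟨Q⟩)`. -/
noncomputable def modUnitValue (W : Affine K) (Q : W.Point) (p : ℕ) : K :=
  (p : K) ^ 12 * psi2Prod W Q p ^ 4 / W.Δ ^ (p - 1)

section lemmas

variable (h : IsRedOf A φ W Wκ) (hφ : KerMax A φ)
include h hφ

omit [DecidableEq K] [DecidableEq κ] hφ in
/-- `ψ₂` of an integral point is integral and reduces to `ψ₂` of the reduced point. -/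
lemma psi2_mem_and_rd {x y : K} (hx : x ∈ A) (hy : y ∈ A) :
    2 * y + W.a₁ * x + W.a₃ ∈ A ∧
      rd A φ (2 * y + W.a₁ * x + W.a₃) = rd A φ y - Wκ.negY (rd A φ x) (rd A φ y) := by
  have e : 2 * y + W.a₁ * x + W.a₃ = y - W.negY x y := by
    simp only [Affine.negY]; ring
  rw [e]
  exact ⟨A.sub_mem hy (negY_mem h hx hy), by
    rw [rd_sub hy (negY_mem h hx hy), rd_negY h hx hy]⟩

/-- **Unit case.** If `Q ∈ E⁰` has odd prime order `p`, `p` a unit of `A`, and `p ∤ k`, then
`kQ` is an integral affine point and `ψ₂(kQ)` is a unit of `A`. -/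
theorem val_psi2_eq_one_of_inE0 {p : ℕ} (hp : p.Prime) (hp2 : p ≠ 2)
    (hv : A.valuation (p : K) = 1) {Q : W.Point} (hQ : InE0 A φ Wκ Q) (hord : addOrderOf Q = p)
    {k : ℕ} (hk : ¬ p ∣ k) : A.valuation (psi2 W (k • Q)) = 1 := by
  have hcop : (addOrderOf Q).Coprime k := by
    rw [hord]; exact (Nat.Prime.coprime_iff_not_dvd hp).mpr hk
  have hordP : addOrderOf (k • Q) = p := by rw [hcop.addOrderOf_nsmul, hord]
  have hP0 := inE0_nsmul h hφ hQ k
  have hredord := addOrderOf_red0 h hφ hp hv hP0 hordP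
  rcases hkQ : k • Q with _ | ⟨x, y, hxy⟩
  · rw [hkQ] at hordP
    rw [show (Point.zero : W.Point) = 0 from rfl, addOrderOf_zero] at hordP
    exact absurd hordP hp.one_lt.ne
  · rw [hkQ] at hP0 hredord
    have hx : x ∈ A := by
      by_contra hx
      rw [red0_some_of_not_mem hxy hx, addOrderOf_zero] at hredord
      exact hp.one_lt.ne hredord
    have hy : y ∈ A := y_mem_of_x_mem h hxy.1 hx
    have hns := hP0 hx
    rw [red0_some_of_mem hxy hx hns] at hredord
    obtain ⟨hmem, hrd⟩ := psi2_mem_and_rd h hx hy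
    rw [psi2_some]
    refine (rd_ne_zero_iff hφ hmem).mp ?_
    rw [hrd]
    intro h0
    -- the reduced point would be `2`-torsion
    have hyy : rd A φ y = Wκ.negY (rd A φ x) (rd A φ y) := sub_eq_zero.mp h0
    have h2 : (2 : ℕ) • (Point.some (rd A φ x) (rd A φ y) hns : Wκ.Point) = 0 := by
      rw [two_nsmul]
      exact Point.add_of_Y_eq rfl hyy
    have hdvd := addOrderOf_dvd_of_nsmul_eq_zero h2
    rw [hredord] at hdvd
    exact hp2 ((Nat.prime_dvd_prime_iff_eq hp Nat.prime_two).mp hdvd)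

/-- If `Q ∉ E⁰` and `p • Q = 0` with `p` prime, then no multiple `kQ`, `p ∤ k`, lies in `E⁰`. -/
theorem not_inE0_nsmul {p : ℕ} (hp : p.Prime) {Q : W.Point} (hQ : ¬ InE0 A φ Wκ Q)
    (hpQ : p • Q = 0) {k : ℕ} (hk : ¬ p ∣ k) : ¬ InE0 A φ Wκ (k • Q) := by
  intro hkQ
  apply hQ
  have hcop : Nat.Coprime k p := ((Nat.Prime.coprime_iff_not_dvd hp).mpr hk).symm
  -- `k' k ≡ 1 mod p`
  obtain ⟨k', -, hk'⟩ := Nat.exists_mul_mod_eq_one_of_coprime hcop hp.one_lt
  have hQeq : (k * k') • Q = Q := by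
    conv_rhs => rw [← one_nsmul Q]
    have hmod : (k * k') % p = 1 % p := by rw [hk', Nat.mod_eq_of_lt hp.one_lt]
    obtain ⟨c, hc⟩ : ∃ c, k * k' = 1 + p * c := by
      refine ⟨(k * k') / p, ?_⟩
      have := Nat.div_add_mod (k * k') p
      rw [hk'] at this
      omega
    rw [hc, add_nsmul, mul_nsmul, hpQ, smul_zero, add_zero]
  have := inE0_nsmul h hφ hkQ k'
  rwa [← mul_nsmul', mul_comm k' k, hQeq] at this

omit [DecidableEq κ] in
/-- At an integral point with singular reduction, `ψ₂` lies in the maximal ideal. -/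
lemma val_psi2_lt_one_of_singular {x y : K} (hxy : W.Nonsingular x y) (hx : x ∈ A)
    (hsing : ¬ Wκ.Nonsingular (rd A φ x) (rd A φ y)) :
    A.valuation (2 * y + W.a₁ * x + W.a₃) < 1 := by
  have hy : y ∈ A := y_mem_of_x_mem h hxy.1 hx
  obtain ⟨hmem, hrd⟩ := psi2_mem_and_rd h hx hy
  refine (rd_eq_zero_iff hφ hmem).mp ?_
  rw [hrd, sub_eq_zero]
  by_contra hne
  apply hsing
  rw [Affine.nonsingular_iff]
  exact ⟨rd_equation h hx hy hxy.1, Or.inr hne⟩

/-- **Non-unit case.** If `Q ∉ E⁰`, `p • Q = 0` with `p` prime and `p ∤ k`, then `kQ` is an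
integral affine point and `ψ₂(kQ)` lies in the maximal ideal of `A`. -/
theorem val_psi2_lt_one_of_not_inE0 {p : ℕ} (hp : p.Prime) {Q : W.Point}
    (hQ : ¬ InE0 A φ Wκ Q) (hpQ : p • Q = 0) {k : ℕ} (hk : ¬ p ∣ k) :
    A.valuation (psi2 W (k • Q)) < 1 := by
  have hkQ := not_inE0_nsmul h hφ hp hQ hpQ hk
  rcases hP : k • Q with _ | ⟨x, y, hxy⟩
  · rw [hP] at hkQ
    exact absurd trivial hkQ
  · rw [hP] at hkQ
    rw [inE0_some_iff] at hkQ
    push Not at hkQ
    exact val_psi2_lt_one_of_singular h hφ hxy hkQ.1 hkQ.2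

/-- Unit case for the product. -/
theorem val_psi2Prod_of_inE0 {p : ℕ} (hp : p.Prime) (hp2 : p ≠ 2)
    (hv : A.valuation (p : K) = 1) {Q : W.Point} (hQ : InE0 A φ Wκ Q) (hord : addOrderOf Q = p) :
    A.valuation (psi2Prod W Q p) = 1 := by
  unfold psi2Prod
  rw [map_prod]
  refine Finset.prod_eq_one fun k hk => ?_
  rw [Finset.mem_Ico] at hk
  exact val_psi2_eq_one_of_inE0 h hφ hp hp2 hv hQ hord
    (Nat.not_dvd_of_pos_of_lt (by omega) hk.2)

/-- Non-unit case for the product. -/
theorem val_psi2Prod_of_not_inE0 {p : ℕ} (hp : p.Prime) {Q : W.Point}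
    (hQ : ¬ InE0 A φ Wκ Q) (hpQ : p • Q = 0) :
    A.valuation (psi2Prod W Q p) < 1 := by
  unfold psi2Prod
  rw [map_prod]
  have h1 : (1 : ℕ) ∈ Finset.Ico 1 p := Finset.mem_Ico.mpr ⟨le_rfl, hp.one_lt⟩
  have hlt : ∀ k ∈ Finset.Ico 1 p, A.valuation (psi2 W (k • Q)) < 1 := fun k hk => by
    rw [Finset.mem_Ico] at hk
    exact val_psi2_lt_one_of_not_inE0 h hφ hp hQ hpQ (Nat.not_dvd_of_pos_of_lt (by omega) hk.2)
  rw [← Finset.mul_prod_erase _ _ h1]
  calc A.valuation (psi2 W (1 • Q)) * ∏ k ∈ (Finset.Ico 1 p).erase 1, A.valuation (psi2 W (k • Q))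
      ≤ A.valuation (psi2 W (1 • Q)) * 1 := by
        gcongr
        exact Finset.prod_le_one' fun k hk => (hlt k (Finset.mem_of_mem_erase hk)).le
    _ < 1 := by rw [mul_one]; exact hlt 1 h1

/-- **Unit case for `U(W, Q)`:** `v(U) = v(Δ)^{-(p-1)}`. -/
theorem val_modUnitValue_of_inE0 {p : ℕ} (hp : p.Prime) (hp2 : p ≠ 2)
    (hv : A.valuation (p : K) = 1) {Q : W.Point} (hQ : InE0 A φ Wκ Q) (hord : addOrderOf Q = p) :
    A.valuation (modUnitValue W Q p) = (A.valuation W.Δ ^ (p - 1))⁻¹ := by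
  unfold modUnitValue
  rw [map_div₀, map_mul, map_pow, map_pow, map_pow, hv,
    val_psi2Prod_of_inE0 h hφ hp hp2 hv hQ hord, one_pow, one_pow, one_mul, one_div]

/-- **Non-unit case for `U(W, Q)`:** `v(U) < v(Δ)^{-(p-1)}` (when `Δ ≠ 0`). -/
theorem val_modUnitValue_of_not_inE0 {p : ℕ} (hp : p.Prime) (hΔ : W.Δ ≠ 0)
    (hv : A.valuation (p : K) = 1) {Q : W.Point} (hQ : ¬ InE0 A φ Wκ Q) (hpQ : p • Q = 0) :
    A.valuation (modUnitValue W Q p) < (A.valuation W.Δ ^ (p - 1))⁻¹ := by
  unfold modUnitValue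
  have hlt := val_psi2Prod_of_not_inE0 h hφ hp hQ hpQ
  have hΔv : 0 < A.valuation W.Δ ^ (p - 1) :=
    pow_pos (zero_lt_iff.mpr ((Valuation.ne_zero_iff _).mpr hΔ)) _
  rw [map_div₀, map_mul, map_pow, map_pow, map_pow, hv, one_pow, one_mul, div_eq_mul_inv]
  have h4 : A.valuation (psi2Prod W Q p) ^ 4 < 1 := pow_lt_one₀ zero_le' hlt (by norm_num)
  calc A.valuation (psi2Prod W Q p) ^ 4 * (A.valuation W.Δ ^ (p - 1))⁻¹
      < 1 * (A.valuation W.Δ ^ (p - 1))⁻¹ :=
        mul_lt_mul_of_pos_right h4 (inv_pos.mpr hΔv)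
    _ = (A.valuation W.Δ ^ (p - 1))⁻¹ := one_mul _

end lemmas

end general

section S15

variable (W : WeierstrassCurve ℤ) (A : ValuationSubring (AlgebraicClosure ℚ))

/-- Converse bridge: `InE0` implies the Prelude's `InZeroComponentAt`. -/
lemma inZeroComponentAt_of_inE0
    {Q : ((W.map (Int.castRingHom ℚ))⁄(AlgebraicClosure ℚ)).Point}
    (hQ : InE0 A (IsLocalRing.residue A) (W⁄(IsLocalRing.ResidueField A)) Q) :
    W.InZeroComponentAt A Q := by
  rcases Q with _ | ⟨x, y, h⟩
  · exact Or.inl rfl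
  · refine Or.inr ⟨x, y, h, rfl, ?_⟩
    by_cases hx : x ∈ A
    · have hred := isRedOf_int A W (IsLocalRing.residue A)
      have hy : y ∈ A := y_mem_of_x_mem hred h.1 hx
      refine Or.inr ⟨hx, hy, ?_⟩
      have := hQ hx
      rw [rd_of_mem hx, rd_of_mem hy] at this
      exact this
    · exact Or.inl hx

lemma inZeroComponentAt_iff_inE0
    {Q : ((W.map (Int.castRingHom ℚ))⁄(AlgebraicClosure ℚ)).Point} :
    W.InZeroComponentAt A Q ↔
      InE0 A (IsLocalRing.residue A) (W⁄(IsLocalRing.ResidueField A)) Q :=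
  ⟨inE0_of_inZeroComponentAt W A, inZeroComponentAt_of_inE0 W A⟩

/-- **LOC-U, zero component.** In the setting of S15 (no rationality of `Q` needed): if `Q` of odd
prime order `p ≠ ℓ` is in the zero component at `A ∣ ℓ`, then `v_A(U(W,Q)) = v_A(Δ)^{-(p-1)}`. -/
theorem val_modUnitValue_of_inZeroComponentAt {p : ℕ} (hp : p.Prime) (hp2 : p ≠ 2)
    (Q : ((W.map (Int.castRingHom ℚ))⁄(AlgebraicClosure ℚ)).Point) (hQord : addOrderOf Q = p)
    {ℓ : ℕ} (hℓ : ℓ.Prime) (hℓp : ℓ ≠ p) (hA : A.LiesOverPrime ℓ)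
    (hQ0 : W.InZeroComponentAt A Q) :
    A.valuation (modUnitValue ((W.map (Int.castRingHom ℚ))⁄(AlgebraicClosure ℚ)) Q p) =
      (A.valuation ((W.map (Int.castRingHom ℚ))⁄(AlgebraicClosure ℚ)).Δ ^ (p - 1))⁻¹ := by
  classical
  exact val_modUnitValue_of_inE0 (isRedOf_int A W (IsLocalRing.residue A)) (kerMax_residue A)
    hp hp2 (val_natCast_eq_one A hA hℓ hp hℓp) (inE0_of_inZeroComponentAt W A hQ0) hQord

/-- **LOC-U, non-zero component.** If `Q` of prime order `p ≠ ℓ` is NOT in the zero component at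
`A ∣ ℓ`, then `v_A(U(W,Q)) < v_A(Δ)^{-(p-1)}`. -/
theorem val_modUnitValue_of_not_inZeroComponentAt {p : ℕ} (hp : p.Prime) (hΔ : W.Δ ≠ 0)
    (Q : ((W.map (Int.castRingHom ℚ))⁄(AlgebraicClosure ℚ)).Point) (hQord : addOrderOf Q = p)
    {ℓ : ℕ} (hℓ : ℓ.Prime) (hℓp : ℓ ≠ p) (hA : A.LiesOverPrime ℓ)
    (hQ0 : ¬ W.InZeroComponentAt A Q) :
    A.valuation (modUnitValue ((W.map (Int.castRingHom ℚ))⁄(AlgebraicClosure ℚ)) Q p) <
      (A.valuation ((W.map (Int.castRingHom ℚ))⁄(AlgebraicClosure ℚ)).Δ ^ (p - 1))⁻¹ := by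
  classical
  refine val_modUnitValue_of_not_inE0 (isRedOf_int A W (IsLocalRing.residue A))
    (kerMax_residue A) hp ?_ (val_natCast_eq_one A hA hℓ hp hℓp)
    (fun h => hQ0 (inZeroComponentAt_of_inE0 W A h))
    (by rw [← hQord]; exact addOrderOf_nsmul_eq_zero Q)
  show (W.map ((algebraMap ℚ (AlgebraicClosure ℚ)).comp (Int.castRingHom ℚ))).Δ ≠ 0
  rw [WeierstrassCurve.map_Δ]
  simpa using hΔ

end S15

end Fermat.Agent.S15.H242

end
-- ===== PACK-END S15/H242/Psi2.lean

-- ===== PACK-BEGIN Lib/RR/H439/H1.lean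
section


/-!
# RR library, layer L4: `H¹(D)` is finite-dimensional, `ℓ(D) - i(D) = deg D + 1 - g` (helper439)

Hypothesis-explicit on Riemann's theorem (layer L3): see `finite_H1_and_formula`.
-/

set_option autoImplicit false

noncomputable section

open AlgebraicCurve

namespace Fermat.Agent.Lib.RR.H439

open Fermat.Agent.Lib.RR

variable {K F : Type*} [Field K] [Field F] [Algebra K F]

/-! ### Linear algebra: one step in a chain of quotients -/

/-- If `φ : V → W` is onto with kernel spanned by one vector `x` and `W` is finite-dimensional,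
then so is `V`, and `dim V = dim W + (0 or 1)`. -/
theorem finrank_of_ker_eq_span {V W : Type*} [AddCommGroup V] [Module K V] [AddCommGroup W]
    [Module K W] (φ : V →ₗ[K] W) (hφ : Function.Surjective φ) (x : V)
    (hker : LinearMap.ker φ = Submodule.span K {x}) [Module.Finite K W] :
    Module.Finite K V ∧
      (x = 0 → Module.finrank K V = Module.finrank K W) ∧
      (x ≠ 0 → Module.finrank K V = Module.finrank K W + 1) := by
  have hexact : Function.Exact (Submodule.span K {x}).subtype φ := by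
    rw [LinearMap.exact_iff, hker, Submodule.range_subtype]
  have hfin : Module.Finite K V := Module.Finite.of_exact hexact hφ
  refine ⟨hfin, ?_, ?_⟩
  · intro hx
    have h1 := LinearMap.finrank_range_add_finrank_ker φ
    rw [LinearMap.range_eq_top.mpr hφ, finrank_top, hker, hx, Submodule.span_zero_singleton,
      finrank_bot, add_zero] at h1
    exact h1.symm
  · intro hx
    have h1 := LinearMap.finrank_range_add_finrank_ker φ
    rw [LinearMap.range_eq_top.mpr hφ, finrank_top, hker, finrank_span_singleton hx] at h1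
    exact h1.symm

/-- One step for quotients by submodules: `S' = S ⊔ K a`. -/
theorem finrank_quotient_step {M : Type*} [AddCommGroup M] [Module K M] (S S' : Submodule K M)
    (a : M) (hle : S ≤ S') (ha : a ∈ S') (hle' : S' ≤ S ⊔ Submodule.span K {a})
    [Module.Finite K (M ⧸ S')] :
    Module.Finite K (M ⧸ S) ∧
      (a ∈ S → Module.finrank K (M ⧸ S) = Module.finrank K (M ⧸ S')) ∧
      (a ∉ S → Module.finrank K (M ⧸ S) = Module.finrank K (M ⧸ S') + 1) := by
  have hS' : S' = S ⊔ Submodule.span K {a} :=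
    le_antisymm hle' (sup_le hle ((Submodule.span_singleton_le_iff_mem a S').mpr ha))
  have hcomap : S ≤ Submodule.comap (LinearMap.id : M →ₗ[K] M) S' := by
    rw [Submodule.comap_id]; exact hle
  set φ : (M ⧸ S) →ₗ[K] (M ⧸ S') := S.mapQ S' LinearMap.id hcomap with hφdef
  have hφ : Function.Surjective φ := by
    intro y
    obtain ⟨m, rfl⟩ := Submodule.Quotient.mk_surjective S' y
    exact ⟨Submodule.Quotient.mk m, by simp [hφdef]⟩
  have hker : LinearMap.ker φ = Submodule.span K {S.mkQ a} := by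
    rw [hφdef, Submodule.ker_mapQ, Submodule.comap_id, hS', Submodule.map_sup,
      Submodule.map_span, Set.image_singleton]
    rw [Submodule.mkQ_map_self, bot_sup_eq]
  obtain ⟨h1, h2, h3⟩ := finrank_of_ker_eq_span φ hφ (S.mkQ a) hker
  have hiff : (S.mkQ a = 0) ↔ a ∈ S := by
    rw [Submodule.mkQ_apply, Submodule.Quotient.mk_eq_zero]
  exact ⟨h1, fun h => h2 (hiff.mpr h), fun h => h3 (fun h0 => h (hiff.mp h0))⟩

/-! ### One step for `H¹` -/

section FF1

variable [hFF : FF1 K F]

/-- **One step**: if `H¹(D + P)` is finite-dimensional then so is `H¹(D)` and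
`i(D) + ℓ(D + P) = i(D + P) + ℓ(D) + 1`. -/
theorem H1_step (D : Divisor K F) (v : Place K F) [Module.Finite K (H1 (D + prim v))] :
    Module.Finite K (H1 D) ∧
      Module.finrank K (H1 D) + ell (D + prim v)
        = Module.finrank K (H1 (D + prim v)) + ell D + 1 := by
  classical
  obtain ⟨t, ht0, ht⟩ := exists_ord_eq v (-(D v + 1))
  have hv := deg_eq_one v
  have hDle : D ≤ D + prim v := by
    rw [Finsupp.le_def]
    intro w
    by_cases hw : w = v
    · subst hw; simp
    · simp [prim_apply_of_ne hw]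
  have hle : repartitionsOf D ⊔ principalRepartitions K F
      ≤ repartitionsOf (D + prim v) ⊔ principalRepartitions K F :=
    sup_le_sup_right (repartitionsOf_mono hDle) _
  have ha : single v t ∈ repartitionsOf (D + prim v) ⊔ principalRepartitions K F :=
    Submodule.mem_sup_left (single_mem_repartitionsOf v D ht)
  have hle' : repartitionsOf (D + prim v) ⊔ principalRepartitions K F
      ≤ (repartitionsOf D ⊔ principalRepartitions K F) ⊔ Submodule.span K {single v t} := by
    refine sup_le ?_ (le_sup_of_le_left le_sup_right)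
    refine (repartitionsOf_add_prim_le v hv D ht0 ht).trans ?_
    exact sup_le (le_sup_of_le_left le_sup_left) le_sup_right
  obtain ⟨hfin, hrank0, hrank1⟩ := finrank_quotient_step
    (repartitionsOf D ⊔ principalRepartitions K F)
    (repartitionsOf (D + prim v) ⊔ principalRepartitions K F) (single v t) hle ha hle'
  refine ⟨hfin, ?_⟩
  have hLle : riemannRochSpace D ≤ riemannRochSpace (D + prim v) := L_mono hDle
  by_cases hL : riemannRochSpace (D + prim v) ≤ riemannRochSpace D
  · have hnot : single v t ∉ repartitionsOf D ⊔ principalRepartitions K F := fun h =>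
      (not_le_of_single_mem_sup v D ht0 ht h) hL
    have hell : ell (D + prim v) = ell D := by
      unfold ell; rw [le_antisymm hL hLle]
    have : Module.finrank K (H1 D) = Module.finrank K (H1 (D + prim v)) + 1 := hrank1 hnot
    omega
  · have hmem := single_mem_sup_of_not_le v hv D ht0 ht hL
    have hlt : ell D < ell (D + prim v) := by
      unfold ell
      exact Submodule.finrank_lt_finrank_of_lt (lt_of_le_not_ge hLle hL)
    have hle2 := ell_add_prim_le D v
    have : Module.finrank K (H1 D) = Module.finrank K (H1 (D + prim v)) := hrank0 hmem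
    omega

/-! ### Vanishing of `H¹` above a divisor attaining Riemann's bound -/

/-- Every repartition lies in `𝔸(B₁)` for some `B₁ ≥ B`. -/
theorem exists_ge_mem_repartitionsOf (B : Divisor K F) (α : ↥(repartitions K F)) :
    ∃ B₁ : Divisor K F, B ≤ B₁ ∧ α ∈ repartitionsOf B₁ := by
  classical
  have hfin : {v : Place K F | v.ord ((α : Place K F → F) v) < 0}.Finite :=
    _root_.Fermat.Agent.Lib.RR.H439.mem_repartitions_iff.mp α.2
  set T : Finset (Place K F) := hfin.toFinset ∪ B.support with hT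
  have hsupp : ∀ w : Place K F,
      max (B w) (-w.ord ((α : Place K F → F) w)) ≠ 0 → w ∈ T := by
    intro w hw
    by_contra hwT
    rw [hT, Finset.mem_union, not_or, Set.Finite.mem_toFinset, Finsupp.mem_support_iff,
      not_not] at hwT
    have h1 : 0 ≤ w.ord ((α : Place K F → F) w) := not_lt.mp hwT.1
    apply hw
    rw [hwT.2]
    exact max_eq_left (by omega)
  refine ⟨Finsupp.onFinset T (fun w => max (B w) (-w.ord ((α : Place K F → F) w))) hsupp,
    ?_, ?_⟩
  · rw [Finsupp.le_def]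
    intro w
    rw [Finsupp.onFinset_apply]
    exact le_max_left _ _
  · rw [mem_repartitionsOf_iff]
    intro w
    right
    rw [Finsupp.onFinset_apply]
    have := le_max_right (B w) (-w.ord ((α : Place K F → F) w))
    omega

/-- If `B` attains Riemann's bound, then so does every `D ≥ B`. -/
theorem ell_eq_of_attains (g : ℤ)
    (hR : ∀ D : Divisor K F, Divisor.degree D + 1 - g ≤ ell D)
    {B D : Divisor K F} (hB : (ell B : ℤ) = Divisor.degree B + 1 - g) (h : B ≤ D) :
    (ell D : ℤ) = Divisor.degree D + 1 - g := by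
  have h1 := degree_sub_ell_mono h
  have h2 := hR D
  omega

/-- **Vanishing**: if `B` attains Riemann's bound then `𝔸 = 𝔸(B) + F`. -/
theorem sup_eq_top_of_attains (g : ℤ)
    (hR : ∀ D : Divisor K F, Divisor.degree D + 1 - g ≤ ell D)
    (B : Divisor K F) (hB : (ell B : ℤ) = Divisor.degree B + 1 - g) :
    repartitionsOf B ⊔ principalRepartitions K F = ⊤ := by
  have key : ∀ D', B ≤ D' →
      repartitionsOf D' ≤ repartitionsOf B ⊔ principalRepartitions K F := by
    refine induction_ge B le_sup_left ?_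
    intro D' v hle ih
    obtain ⟨t, ht0, ht⟩ := exists_ord_eq v (-(D' v + 1))
    have hv := deg_eq_one v
    have hD'le : D' ≤ D' + prim v := by
      rw [Finsupp.le_def]
      intro w
      by_cases hw : w = v
      · subst hw; simp
      · simp [prim_apply_of_ne hw]
    have hl1 := ell_eq_of_attains g hR hB hle
    have hl2 := ell_eq_of_attains g hR hB (hle.trans hD'le)
    rw [map_add, degree_prim'] at hl2
    have hnot : ¬ riemannRochSpace (D' + prim v) ≤ riemannRochSpace D' := by
      intro hL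
      have : ell (D' + prim v) ≤ ell D' := Submodule.finrank_mono hL
      omega
    have hmem := single_mem_sup_of_not_le v hv D' ht0 ht hnot
    refine (repartitionsOf_add_prim_le v hv D' ht0 ht).trans (sup_le ih ?_)
    rw [Submodule.span_singleton_le_iff_mem]
    exact (sup_le ih le_sup_right : repartitionsOf D' ⊔ principalRepartitions K F ≤ _) hmem
  rw [eq_top_iff]
  intro α _
  obtain ⟨B₁, hB₁, hα⟩ := exists_ge_mem_repartitionsOf B α
  exact key B₁ hB₁ hα

/-! ### The main theorem of layer L4 -/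

/-- Step down: from `D + P` to `D`. -/
theorem step_down (g : ℤ) (X Y : Divisor K F) (v : Place K F) (hY : Y = X + prim v)
    (h : Module.Finite K (H1 Y) ∧
      (ell Y : ℤ) - Module.finrank K (H1 Y) = Divisor.degree Y + 1 - g) :
    Module.Finite K (H1 X) ∧
      (ell X : ℤ) - Module.finrank K (H1 X) = Divisor.degree X + 1 - g := by
  subst hY
  obtain ⟨hfin, hform⟩ := h
  obtain ⟨hfin', hstep⟩ := H1_step X v
  refine ⟨hfin', ?_⟩
  rw [map_add, degree_prim'] at hform
  omega

/-- **L4.1 + L4.2** (hypothesis-explicit): if `g` is a constant for which Riemann's inequality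
holds and is attained, then for every divisor `D` the space `H¹(D)` is finite-dimensional and
`ℓ(D) - dim H¹(D) = deg D + 1 - g`. -/
theorem finite_H1_and_formula (g : ℤ)
    (hR : ∀ D : Divisor K F, Divisor.degree D + 1 - g ≤ ell D)
    (D₀ : Divisor K F) (h₀ : (ell D₀ : ℤ) = Divisor.degree D₀ + 1 - g) (D : Divisor K F) :
    Module.Finite K (H1 D) ∧
      (ell D : ℤ) - Module.finrank K (H1 D) = Divisor.degree D + 1 - g := by
  -- a divisor above `D` attaining the bound
  set B : Divisor K F := D ⊔ D₀ with hBdef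
  have hDB : D ≤ B := le_sup_left
  have hB : (ell B : ℤ) = Divisor.degree B + 1 - g := ell_eq_of_attains g hR h₀ le_sup_right
  have htop := sup_eq_top_of_attains g hR B hB
  have hsub : Subsingleton (H1 B) := by
    rw [Submodule.Quotient.subsingleton_iff]
    exact htop
  have hPB : Module.Finite K (H1 B) ∧
      (ell B : ℤ) - Module.finrank K (H1 B) = Divisor.degree B + 1 - g := by
    refine ⟨inferInstance, ?_⟩
    rw [Module.finrank_zero_of_subsingleton, hB]
    simp
  -- descend from `B` to `D`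
  have key : ∀ E, D ≤ E →
      (Module.Finite K (H1 (B + D - E)) ∧
        (ell (B + D - E) : ℤ) - Module.finrank K (H1 (B + D - E))
          = Divisor.degree (B + D - E) + 1 - g) := by
    refine induction_ge D ?_ ?_
    · rw [add_sub_cancel_right]; exact hPB
    · intro E v _ ih
      exact step_down g (B + D - (E + prim v)) (B + D - E) v (by abel) ih
  have := key B hDB
  rwa [add_sub_cancel_left] at this

end FF1

end Fermat.Agent.Lib.RR.H439

end
end
-- ===== PACK-END Lib/RR/H439/H1.lean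

-- ===== PACK-BEGIN S37/Red/H144/Basic.lean
section



/-!
# S37-RED, piece RED-D (route N), part 1: basic lemmas (helper144)

Values at places (`ValAt`), kernels of `π` and `ρ`, the chart dichotomy.
-/

set_option autoImplicit false

noncomputable section

namespace Fermat.Agent.S37.Red.H144

open AlgebraicCurve IntermediateField Polynomial

universe u

variable {K k F Fk : Type u} [Field K] [Field k] [Field F] [Field Fk]
  [Algebra K F] [Algebra k Fk] {A : ValuationSubring K} {π : A →+* k}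

/-! ### Values at places -/

theorem valAt_mem {P : Place K F} {f : F} {a : K} (h : ValAt P f a) :
    f ∈ P.toValuationSubring := by
  have h1 : f - algebraMap K F a ∈ P.toValuationSubring :=
    (P.toValuationSubring.valuation_le_one_iff _).mp (le_of_lt h)
  have h2 := P.algebraMap_mem' a
  have h3 : f = (f - algebraMap K F a) + algebraMap K F a := by ring
  rw [h3]
  exact add_mem h1 h2

theorem valuation_const (P : Place K F) {a : K} (ha : a ≠ 0) :
    P.toValuationSubring.valuation (algebraMap K F a) = 1 :=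
  Lib.RR.H443.valuation_algebraMap_eq_one P.toValuationSubring P.algebraMap_mem' a ha

theorem valAt_unique {P : Place K F} {f : F} {a b : K} (ha : ValAt P f a) (hb : ValAt P f b) :
    a = b := by
  by_contra hne
  have hc : a - b ≠ 0 := sub_ne_zero.mpr hne
  have h1 : P.toValuationSubring.valuation (algebraMap K F (a - b)) < 1 := by
    have h2 : algebraMap K F (a - b) = (f - algebraMap K F b) - (f - algebraMap K F a) := by
      rw [map_sub]; ring
    rw [h2]
    exact lt_of_le_of_lt (Valuation.map_sub _ _ _) (max_lt hb ha)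
  rw [valuation_const P hc] at h1
  exact lt_irrefl _ h1

theorem valAt_zero_iff {P : Place K F} {f : F} :
    ValAt P f 0 ↔ P.toValuationSubring.valuation f < 1 := by
  unfold ValAt
  rw [map_zero, sub_zero]

/-- A nonzero function with `f⁻¹(P) = 0` is not regular at `P`. -/
theorem not_mem_of_valuation_inv_lt {O : ValuationSubring F} {f : F} (hf0 : f ≠ 0)
    (h : O.valuation f⁻¹ < 1) : f ∉ O := by
  intro hf
  have h1 : O.valuation f ≤ 1 := (O.valuation_le_one_iff _).mpr hf
  have h2 : O.valuation f * O.valuation f⁻¹ = 1 := by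
    rw [← map_mul, mul_inv_cancel₀ hf0, map_one]
  have h3 : O.valuation f * O.valuation f⁻¹ < 1 := by
    calc O.valuation f * O.valuation f⁻¹
        ≤ 1 * O.valuation f⁻¹ := mul_le_mul' h1 le_rfl
      _ = O.valuation f⁻¹ := one_mul _
      _ < 1 := h
  rw [h2] at h3
  exact lt_irrefl _ h3

/-- If `f ∉ O` then `f⁻¹` is a non-unit of `O`. -/
theorem valuation_inv_lt_of_not_mem {O : ValuationSubring F} {f : F} (hf : f ∉ O) :
    O.valuation f⁻¹ < 1 := by
  have h1 : ¬ O.valuation f ≤ 1 := fun h => hf ((O.valuation_le_one_iff _).mp h)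
  rw [not_le] at h1
  have hf0 : f ≠ 0 := fun h => hf (h ▸ O.zero_mem)
  have h2 : O.valuation f * O.valuation f⁻¹ = 1 := by
    rw [← map_mul, mul_inv_cancel₀ hf0, map_one]
  by_contra h3
  rw [not_lt] at h3
  have h4 : 1 < O.valuation f * O.valuation f⁻¹ := by
    calc (1 : _) < O.valuation f := h1
      _ = O.valuation f * 1 := (mul_one _).symm
      _ ≤ O.valuation f * O.valuation f⁻¹ := mul_le_mul' le_rfl h3
  rw [h2] at h4
  exact lt_irrefl _ h4

/-! ### Kernels of surjections onto fields -/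

/-- A surjective ring homomorphism from a valuation ring onto a field kills the non-units. -/
theorem map_eq_zero_of_valuation_lt {L E : Type*} [Field L] [Field E] (O : ValuationSubring L)
    (φ : O →+* E) (hφ : Function.Surjective φ) (z : O) (hz : O.valuation (z : L) < 1) :
    φ z = 0 := by
  by_contra hne
  obtain ⟨w, hw⟩ := hφ (φ z)⁻¹
  have h1 : φ (z * w - 1) = 0 := by
    rw [map_sub, map_mul, hw, mul_inv_cancel₀ hne, map_one, sub_self]
  -- `z w - 1` is a unit of `O`
  have h2 : O.valuation ((z * w : O) : L) < 1 := by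
    have hw1 : O.valuation (w : L) ≤ 1 := (O.valuation_le_one_iff _).mpr w.2
    push_cast
    rw [map_mul]
    calc O.valuation (z : L) * O.valuation (w : L) ≤ O.valuation (z : L) * 1 :=
          mul_le_mul' le_rfl hw1
      _ = O.valuation (z : L) := mul_one _
      _ < 1 := hz
  have h3 : O.valuation (((z * w - 1 : O)) : L) = 1 := by
    have h4 : (((z * w - 1 : O)) : L) = ((z * w : O) : L) + (-1) := by
      push_cast; ring
    rw [h4]
    have h5 : O.valuation (-1 : L) = 1 := by rw [Valuation.map_neg, map_one]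
    have := Valuation.map_add_eq_of_lt_right O.valuation (x := ((z * w : O) : L)) (y := (-1 : L))
      (by rw [h5]; exact h2)
    rw [this, h5]
  have h6 : IsUnit (z * w - 1 : O) := (O.valuation_eq_one_iff _).mpr h3
  have h7 : IsUnit (φ (z * w - 1)) := h6.map φ
  rw [h1] at h7
  exact not_isUnit_zero h7


/-! ### The datum: kernels, inverses of the coordinate -/

section Datum

variable (G : Datum A π F Fk)

/-- `π` kills the non-units of `A`. -/
theorem pi_eq_zero (G : Datum A π F Fk) (a : A) (ha : A.valuation (a : K) < 1) : π a = 0 :=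
  map_eq_zero_of_valuation_lt A π G.π_surj a ha

/-- `ρ` kills the non-units of `O`. -/
theorem rho_eq_zero (z : G.O) (hz : G.O.valuation (z : F) < 1) : G.ρ z = 0 :=
  map_eq_zero_of_valuation_lt G.O G.ρ G.ρ_surj z hz

theorem xk_ne_zero : G.xk ≠ 0 := fun h =>
  G.xk_transc (by rw [show G.ρ ⟨G.x, G.x_mem⟩ = G.xk from rfl, h]; exact isAlgebraic_zero)

theorem x_ne_zero : G.x ≠ 0 := by
  intro h
  apply xk_ne_zero G
  have : (⟨G.x, G.x_mem⟩ : G.O) = 0 := Subtype.ext h
  rw [Datum.xk, this, map_zero]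

/-- `x` is a unit of `O`. -/
theorem x_inv_mem : G.x⁻¹ ∈ G.O := by
  by_contra h
  have h1 : G.O.valuation (G.x⁻¹)⁻¹ < 1 := valuation_inv_lt_of_not_mem h
  rw [inv_inv] at h1
  exact xk_ne_zero G (rho_eq_zero G ⟨G.x, G.x_mem⟩ h1)

theorem rho_x_inv : G.ρ ⟨G.x⁻¹, x_inv_mem G⟩ = G.xk⁻¹ := by
  have h1 : (⟨G.x, G.x_mem⟩ : G.O) * ⟨G.x⁻¹, x_inv_mem G⟩ = 1 :=
    Subtype.ext (mul_inv_cancel₀ (x_ne_zero G))
  have h2 : G.xk * G.ρ ⟨G.x⁻¹, x_inv_mem G⟩ = 1 := by
    rw [Datum.xk, ← map_mul, h1, map_one]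
  exact eq_inv_of_mul_eq_one_right h2

theorem red_eq {f : F} (hf : f ∈ G.O) : G.red f = G.ρ ⟨f, hf⟩ := by
  unfold Datum.red
  rw [dif_pos hf]

/-- elements of `A[t]` are integral over `A[t]` -/
theorem polyRing_le_chart (t : F) : G.polyRing t ≤ G.chart t := by
  intro s hs
  show IsIntegral (G.polyRing t) s
  exact isIntegral_algebraMap (R := G.polyRing t) (x := ⟨s, hs⟩)

theorem self_mem_polyRing (t : F) : t ∈ G.polyRing t := by
  unfold Datum.polyRing
  exact (le_sup_right : Subring.closure {t} ≤ _) (Subring.subset_closure rfl)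

theorem const_mem_polyRing (t : F) (a : A) : algebraMap K F (a : K) ∈ G.polyRing t := by
  unfold Datum.polyRing
  refine (le_sup_left : G.constRing ≤ _) ?_
  exact ⟨(a : K), a.2, rfl⟩

theorem self_mem_chart (t : F) : t ∈ G.chart t :=
  polyRing_le_chart G t (self_mem_polyRing G t)

end Datum

end Fermat.Agent.S37.Red.H144

end
end
-- ===== PACK-END S37/Red/H144/Basic.lean

-- ===== PACK-BEGIN S37/Red/H144/Swap.lean
section


/-!
# S37-RED, piece RED-D (route N), part 2: chart dichotomy and the swapped datum (helper144)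
-/

set_option autoImplicit false

noncomputable section

namespace Fermat.Agent.S37.Red.H144

open AlgebraicCurve IntermediateField Polynomial

universe u

variable {K k F Fk : Type u} [Field K] [Field k] [Field F] [Field Fk]
  [Algebra K F] [Algebra k Fk] {A : ValuationSubring K} {π : A →+* k}

/-! ### The chart dichotomy -/

/-- If `F` has a place at all, the coordinate is transcendental over `K`. -/
theorem transcendental_x [IsAlgClosed K] (G : Datum A π F Fk) (hgood : G.Good)
    (P : Place K F) : Transcendental K G.x := by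
  intro halg
  have hfin := hgood.finite
  apply P.ne_top'
  have h1 : Algebra.IsAlgebraic K K⟮G.x⟯ :=
    IntermediateField.isAlgebraic_adjoin_simple halg.isIntegral
  have h2 : Algebra.IsAlgebraic K⟮G.x⟯ F := Algebra.IsAlgebraic.of_finite _ _
  have h3 : Algebra.IsAlgebraic K F := Algebra.IsAlgebraic.trans K K⟮G.x⟯ F
  rw [eq_top_iff]
  intro f _
  obtain ⟨a, rfl⟩ := S24.FF.mem_range_of_isAlgebraic (h3.isAlgebraic f)
  exact P.algebraMap_mem' a

/-- Every place lies in the finite chart or in the chart at infinity. -/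
theorem chart_dichotomy [IsAlgClosed K] (G : Datum A π F Fk) (hgood : G.Good)
    (P : Place K F) :
    (∃ a₀ : A, ValAt P G.x a₀) ∨ (∃ a₀ : A, π a₀ = 0 ∧ ValAt P G.x⁻¹ a₀) := by
  have hx := transcendental_x G hgood P
  have hfin := hgood.finite
  by_cases hmem : G.x ∈ P.toValuationSubring
  · obtain ⟨a, ha⟩ := S24.FF.exists_const_sub_mem_nonunits P hx hmem
    have hav : P.toValuationSubring.valuation (G.x - algebraMap K F a) < 1 := ha
    by_cases haA : a ∈ A
    · exact Or.inl ⟨⟨a, haA⟩, hav⟩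
    · right
      have hinv : A.valuation a⁻¹ < 1 := valuation_inv_lt_of_not_mem haA
      have hinvA : a⁻¹ ∈ A := (A.valuation_le_one_iff _).mp hinv.le
      have ha0 : a ≠ 0 := fun h => haA (h ▸ A.zero_mem)
      refine ⟨⟨a⁻¹, hinvA⟩, pi_eq_zero G _ hinv, ?_⟩
      show P.toValuationSubring.valuation (G.x⁻¹ - algebraMap K F a⁻¹) < 1
      have hx0 := x_ne_zero G
      have hva : P.toValuationSubring.valuation (algebraMap K F a) = 1 := valuation_const P ha0
      have hvx : P.toValuationSubring.valuation G.x = 1 := by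
        have h4 : G.x = algebraMap K F a + (G.x - algebraMap K F a) := by ring
        rw [h4, Valuation.map_add_eq_of_lt_left _ (by rw [hva]; exact hav), hva]
      have haF : algebraMap K F a ≠ 0 := (_root_.map_ne_zero _).mpr ha0
      have h5 : G.x⁻¹ - algebraMap K F a⁻¹ =
          -(G.x - algebraMap K F a) * G.x⁻¹ * (algebraMap K F a)⁻¹ := by
        rw [map_inv₀]
        field_simp
        ring
      rw [h5, map_mul, map_mul, Valuation.map_neg, map_inv₀, map_inv₀, hvx, hva, inv_one,
        mul_one, mul_one]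
      exact hav
  · right
    refine ⟨0, map_zero π, ?_⟩
    show ValAt P G.x⁻¹ (0 : K)
    rw [valAt_zero_iff]
    exact valuation_inv_lt_of_not_mem hmem

/-! ### The swapped datum -/

theorem adjoin_inv_eq' {E L : Type*} [Field E] [Field L] [Algebra E L] (f : L) :
    E⟮f⁻¹⟯ = E⟮f⟯ := by
  apply le_antisymm
  · rw [IntermediateField.adjoin_simple_le_iff]
    exact inv_mem (IntermediateField.mem_adjoin_simple_self E f)
  · rw [IntermediateField.adjoin_simple_le_iff]
    have h := inv_mem (IntermediateField.mem_adjoin_simple_self E f⁻¹)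
    rwa [inv_inv] at h

/-- The datum with coordinate `x⁻¹`. -/
def swap (G : Datum A π F Fk) : Datum A π F Fk :=
  { G with
    x := G.x⁻¹
    x_mem := x_inv_mem G
    xk_transc := by
      rw [rho_x_inv]
      intro h
      apply G.xk_transc
      have := h.inv
      rwa [inv_inv] at this }

@[simp] theorem swap_x (G : Datum A π F Fk) : (swap G).x = G.x⁻¹ := rfl

theorem swap_xk (G : Datum A π F Fk) : (swap G).xk = G.xk⁻¹ := rho_x_inv G

theorem swap_O (G : Datum A π F Fk) : (swap G).O = G.O := rfl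

theorem swap_good (G : Datum A π F Fk) (h : G.Good) : (swap G).Good where
  finite := by
    show FiniteDimensional K⟮G.x⁻¹⟯ F
    rw [adjoin_inv_eq']
    exact h.finite
  finite_k := by
    rw [swap_xk, adjoin_inv_eq']
    exact h.finite_k
  sep_k := by
    rw [swap_xk, adjoin_inv_eq']
    exact h.sep_k
  finrank_eq := by
    show Module.finrank K⟮G.x⁻¹⟯ F = Module.finrank k⟮(swap G).xk⟯ Fk
    rw [swap_xk, adjoin_inv_eq', adjoin_inv_eq']
    exact h.finrank_eq
  lift_fin := by
    intro c hc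
    have hc' : c ∈ G.chartk G.xk⁻¹ := by
      rw [← swap_xk]
      exact hc
    exact h.lift_inf c hc'
  lift_inf := by
    intro c hc
    have hc' : c ∈ G.chartk G.xk := by
      have h1 : c ∈ G.chartk ((swap G).xk)⁻¹ := hc
      rwa [swap_xk, inv_inv] at h1
    obtain ⟨b, hb, hbO, e⟩ := h.lift_fin c hc'
    refine ⟨b, ?_, hbO, e⟩
    show b ∈ G.chart (G.x⁻¹)⁻¹
    rw [inv_inv]
    exact hb
  sat_fin := fun f hf hfK => h.sat_inf f hf hfK
  sat_inf := by
    intro f hf hfK
    show f ∈ G.chart (G.x⁻¹)⁻¹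
    have hfK' : f ∈ G.chartK (G.x⁻¹)⁻¹ := hfK
    rw [inv_inv] at hfK' ⊢
    exact h.sat_fin f hf hfK'

theorem swap_evalCompat (G : Datum A π F Fk) (r : Place K F → Place k Fk)
    (h : EvalCompat G r) : EvalCompat (swap G) r := by
  refine ⟨h.2, ?_⟩
  show EvalCompatAt G r (G.x⁻¹)⁻¹
  rw [inv_inv]
  exact h.1

end Fermat.Agent.S37.Red.H144

end
end
-- ===== PACK-END S37/Red/H144/Swap.lean

-- ===== PACK-BEGIN S37/Red/H144/Monic.lean
section


/-!
# S37-RED, piece RED-D (route N), part 3: monic-like functions at the poles of `x̄` (helper144)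

If `t = x^M (1 + x⁻¹ β)` with `β` integral over `A[x⁻¹]` and `M ≥ 1`, then `t̄` has a pole at
every pole of `x̄`.
-/

set_option autoImplicit false

noncomputable section

namespace Fermat.Agent.S37.Red.H144

open AlgebraicCurve IntermediateField Polynomial

universe u

variable {K k F Fk : Type u} [Field K] [Field k] [Field F] [Field Fk]
  [Algebra K F] [Algebra k Fk] {A : ValuationSubring K} {π : A →+* k}

/-- An element integral over a subring of a valuation ring lies in the valuation ring. -/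
theorem mem_of_isIntegral_subring {L : Type*} [Field L] (O : ValuationSubring L)
    (S : Subring L) (hS : S ≤ O.toSubring) {b : L} (hb : IsIntegral S b) : b ∈ O := by
  obtain ⟨p, hp, hev⟩ := hb
  let φ : S →+* O := Subring.inclusion hS
  have hcomp : (algebraMap O L).comp φ = algebraMap S L := by
    ext s
    rfl
  have hint : IsIntegral O b := by
    refine ⟨p.map φ, hp.map φ, ?_⟩
    rw [Polynomial.eval₂_map, hcomp]
    exact hev
  obtain ⟨y, hy⟩ := IsIntegrallyClosed.isIntegral_iff.mp hint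
  rw [← hy]
  exact y.2

/-- Reduction of integral elements: if `ρ` maps a subring `S ⊆ O` into a valuation ring `Q'`
of `F_k`, it maps the elements of `O` integral over `S` into `Q'`. -/
theorem rho_mem_of_isIntegral (G : Datum A π F Fk) (S : Subring F) (hS : S ≤ G.O.toSubring)
    (Q' : ValuationSubring Fk) (hSQ : ∀ s (hs : s ∈ S), G.ρ ⟨s, hS hs⟩ ∈ Q')
    {b : F} (hb : IsIntegral S b) (hbO : b ∈ G.O) : G.ρ ⟨b, hbO⟩ ∈ Q' := by
  obtain ⟨p, hp, hev⟩ := hb
  let φ : S →+* G.O := Subring.inclusion hS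
  let ψ : S →+* Q' := (G.ρ.comp φ).codRestrict Q'.toSubring (fun s => hSQ s.1 s.2)
  have hcomp : (algebraMap Q' Fk).comp ψ = G.ρ.comp φ := by
    ext s
    rfl
  have hcomp2 : (algebraMap G.O F).comp φ = algebraMap S F := by
    ext s
    rfl
  have hzero : Polynomial.eval₂ φ (⟨b, hbO⟩ : G.O) p = 0 := by
    apply Subtype.ext
    have h1 := Polynomial.hom_eval₂ p φ (algebraMap G.O F) (⟨b, hbO⟩ : G.O)
    rw [hcomp2] at h1
    have h2 : (algebraMap G.O F) (⟨b, hbO⟩ : G.O) = b := rfl
    rw [h2, hev] at h1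
    exact h1
  have hint : IsIntegral Q' (G.ρ ⟨b, hbO⟩) := by
    refine ⟨p.map ψ, hp.map ψ, ?_⟩
    rw [Polynomial.eval₂_map, hcomp, ← Polynomial.hom_eval₂, hzero, map_zero]
  obtain ⟨y, hy⟩ := IsIntegrallyClosed.isIntegral_iff.mp hint
  rw [← hy]
  exact y.2

theorem constRing_le_O (G : Datum A π F Fk) : G.constRing ≤ G.O.toSubring := by
  rintro s ⟨a, ha, rfl⟩
  exact G.const_mem ⟨a, ha⟩

theorem polyRing_le_O (G : Datum A π F Fk) {t : F} (ht : t ∈ G.O) :
    G.polyRing t ≤ G.O.toSubring := by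
  unfold Datum.polyRing
  refine sup_le (constRing_le_O G) ?_
  rw [Subring.closure_le]
  intro s hs
  rw [Set.mem_singleton_iff] at hs
  rw [hs]
  exact ht

/-- The chart `B_t` is contained in `O` as soon as `t ∈ O`. -/
theorem chart_le_O (G : Datum A π F Fk) {t : F} (ht : t ∈ G.O) {b : F}
    (hb : b ∈ G.chart t) : b ∈ G.O :=
  mem_of_isIntegral_subring G.O (G.polyRing t) (polyRing_le_O G ht) hb

/-- If `ρ t` is regular at the valuation ring `Q'` of `F_k` (containing `k`), then `ρ` maps
`B_t` into `Q'`. -/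
theorem rho_chart_mem (G : Datum A π F Fk) {t : F} (ht : t ∈ G.O) (Q' : ValuationSubring Fk)
    (hk : ∀ c : k, algebraMap k Fk c ∈ Q') (htQ : G.ρ ⟨t, ht⟩ ∈ Q')
    {b : F} (hb : b ∈ G.chart t) (hbO : b ∈ G.O) : G.ρ ⟨b, hbO⟩ ∈ Q' := by
  refine rho_mem_of_isIntegral G (G.polyRing t) (polyRing_le_O G ht) Q' ?_ hb hbO
  -- the subring of `F` of elements of `O` whose reduction lies in `Q'`
  let S' : Subring F := (Q'.toSubring.comap G.ρ).map G.O.subtype
  have hS' : G.polyRing t ≤ S' := by
    unfold Datum.polyRing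
    refine sup_le ?_ ?_
    · rintro s ⟨a, ha, rfl⟩
      refine ⟨⟨algebraMap K F a, G.const_mem ⟨a, ha⟩⟩, ?_, rfl⟩
      show G.ρ _ ∈ Q'
      rw [G.ρ_const ⟨a, ha⟩]
      exact hk _
    · rw [Subring.closure_le]
      intro s hs
      rw [Set.mem_singleton_iff] at hs
      rw [hs]
      exact ⟨⟨t, ht⟩, htQ, rfl⟩
  intro s hs
  obtain ⟨z, hz, hzs⟩ := hS' hs
  have : z = ⟨s, polyRing_le_O G ht hs⟩ := Subtype.ext hzs
  rw [← this]
  exact hz

/-- **Monic-like functions have poles at the poles of `x̄`.** -/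
theorem rho_not_mem_of_monicLike (G : Datum A π F Fk) {t : F} {M : ℕ} (hM : 0 < M)
    (hml : G.MonicLike t M) (ht : t ∈ G.O) (Q : Place k Fk)
    (hQ : G.xk ∉ Q.toValuationSubring) : G.ρ ⟨t, ht⟩ ∉ Q.toValuationSubring := by
  obtain ⟨-, β, hβ, heq⟩ := hml
  have hxi := x_inv_mem G
  have hβO : β ∈ G.O := chart_le_O G hxi hβ
  -- the relation after reduction
  have hrel : G.ρ ⟨t, ht⟩ = G.xk ^ M * (1 + G.xk⁻¹ * G.ρ ⟨β, hβO⟩) := by
    have h1 : (⟨t, ht⟩ : G.O) =
        (⟨G.x, G.x_mem⟩ : G.O) ^ M * (1 + ⟨G.x⁻¹, hxi⟩ * ⟨β, hβO⟩) := Subtype.ext heq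
    rw [h1, map_mul, map_pow, map_add, map_one, map_mul, rho_x_inv]
    rfl
  set v := Q.toValuationSubring.valuation with hv
  have hxk : v G.xk⁻¹ < 1 := valuation_inv_lt_of_not_mem hQ
  have hxkQ : G.xk⁻¹ ∈ Q.toValuationSubring :=
    (Q.toValuationSubring.valuation_le_one_iff _).mp hxk.le
  have hβQ : G.ρ ⟨β, hβO⟩ ∈ Q.toValuationSubring := by
    refine rho_chart_mem G hxi Q.toValuationSubring Q.algebraMap_mem' ?_ hβ hβO
    rw [rho_x_inv]
    exact hxkQ
  have hβv : v (G.ρ ⟨β, hβO⟩) ≤ 1 := (Q.toValuationSubring.valuation_le_one_iff _).mpr hβQ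
  have h2 : v (G.xk⁻¹ * G.ρ ⟨β, hβO⟩) < 1 := by
    rw [map_mul]
    calc v G.xk⁻¹ * v (G.ρ ⟨β, hβO⟩) ≤ v G.xk⁻¹ * 1 := mul_le_mul' le_rfl hβv
      _ = v G.xk⁻¹ := mul_one _
      _ < 1 := hxk
  have h3 : v (1 + G.xk⁻¹ * G.ρ ⟨β, hβO⟩) = 1 := by
    rw [Valuation.map_add_eq_of_lt_left _ (by rw [map_one]; exact h2), map_one]
  have h4 : 1 < v G.xk := by
    by_contra h
    rw [not_lt] at h
    exact hQ ((Q.toValuationSubring.valuation_le_one_iff _).mp h)
  have h5 : 1 < v (G.ρ ⟨t, ht⟩) := by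
    rw [hrel, map_mul, map_pow, h3, mul_one]
    exact one_lt_pow₀ h4 (Nat.pos_iff_ne_zero.mp hM)
  intro hmem
  have := (Q.toValuationSubring.valuation_le_one_iff _).mpr hmem
  exact absurd h5 (not_lt.mpr this)

end Fermat.Agent.S37.Red.H144

end
end
-- ===== PACK-END S37/Red/H144/Monic.lean

-- ===== PACK-BEGIN A3/H499/Orth.lean
section




/-!
# A3 / GR-ORTH (helper499): orthonormal bases of all Riemann–Roch spaces from a base case

Abstract, instance-free.  Setting = the first fields of `A3.H799.GoodRed`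
(`V`, `O`, `res`, `red`, a set `I` of semilinear automorphisms).

* `exists_orthBasis_of_le` (sub-orthonormal lemma): if `e` is an orthonormal family and
  `U ≤ span e` is a `K`-subspace, then `U` has an orthonormal basis; if the `e i` are fixed by
  `I` and `U` is `I`-stable, the basis can be chosen `I`-fixed (the unit-pivot chart of `U` is
  unique, hence has `I`-fixed entries).
* `orthonormal_of_base` : the field `orthonormal` of `GoodRed` for ALL divisors, from the base
  case "`L(m • B₀)` has an `I`-fixed orthonormal basis for arbitrarily large `m`".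
-/

set_option autoImplicit false
set_option linter.unusedSectionVars false
set_option linter.style.longLine false

noncomputable section

open AlgebraicCurve Matrix

namespace Fermat.Agent.A3.H499

variable {K F : Type*} [Field K] [Field F] [Algebra K F]
variable (k : Type*) {Fk : Type*} [Field k] [Field Fk] [Algebra k Fk]

/-- `b` is an orthonormal basis of the `K`-subspace `U` of `F`: it consists of elements of the
valuation ring `O`, spans `U`, and its reductions are `k`-linearly independent. -/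
def IsOrthBasis (O : ValuationSubring F) (red : O →+* Fk) (U : Submodule K F) {n : ℕ}
    (b : Fin n → O) : Prop :=
  LinearIndependent k (fun i => red (b i)) ∧ (∀ i, ((b i : O) : F) ∈ U) ∧
    Submodule.span K (Set.range fun i => ((b i : O) : F)) = U

variable {k}

section Sub

variable (V : ValuationSubring K) (O : ValuationSubring F) (res : V →+* k) (red : O →+* Fk)
variable (algebraMap_mem : ∀ a : K, a ∈ V → algebraMap K F a ∈ O)
variable (red_algebraMap : ∀ (a : V) (h : algebraMap K F (a : K) ∈ O),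
    red ⟨algebraMap K F (a : K), h⟩ = algebraMap k Fk (res a))

include algebraMap_mem red_algebraMap in
/-- **Sub-orthonormal lemma.** -/
theorem exists_orthBasis_of_le {n : ℕ} (e : Fin n → O)
    (he : LinearIndependent k (fun i => red (e i)))
    (U : Submodule K F) (hU : U ≤ Submodule.span K (Set.range fun i => ((e i : O) : F)))
    (I : Set (SemilinearAut K F)) (heI : ∀ g ∈ I, ∀ i, g • ((e i : O) : F) = e i)
    (hUI : ∀ g ∈ I, ∀ f ∈ U, g • f ∈ U) :
    ∃ (d : ℕ) (u : Fin d → O), IsOrthBasis k O red U u ∧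
      ∀ g ∈ I, ∀ a, g • ((u a : O) : F) = u a := by
  classical
  -- coordinates
  let T : (Fin n → K) →ₗ[K] F := Fintype.linearCombination K (fun i => ((e i : O) : F))
  have hT : ∀ c : Fin n → K, T c = ∑ i, c i • ((e i : O) : F) := fun c =>
    Fintype.linearCombination_apply K _ c
  have hrangeT : LinearMap.range T = Submodule.span K (Set.range fun i => ((e i : O) : F)) :=
    Fintype.range_linearCombination K _
  let W : Submodule K (Fin n → K) := U.comap T
  obtain ⟨B, p, hint, hB, hrange⟩ :=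
    Fermat.Agent.S19.H495.exists_integral_basis_matrix V.valuation W
  have hBV : ∀ i a, B i a ∈ V := fun i a => (V.valuation_le_one_iff _).mp (hint i a)
  -- the columns of `B`
  have hcol : ∀ a, B *ᵥ (Pi.single a 1) = fun i => B i a := by
    intro a
    funext i
    simp [Matrix.mulVec, dotProduct, Pi.single_apply]
  have hcolW : ∀ a, (fun i => B i a) ∈ W := by
    intro a
    rw [← hrange, ← hcol a]
    exact ⟨_, rfl⟩
  -- the new basis
  let u : Fin (Module.finrank K W) → O := fun a =>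
    ∑ i, (⟨algebraMap K F (B i a), algebraMap_mem _ (hBV i a)⟩ : O) * e i
  have hu_coe : ∀ a, ((u a : O) : F) = T (fun i => B i a) := by
    intro a
    rw [hT]
    simp only [u]
    push_cast
    refine Finset.sum_congr rfl fun i _ => ?_
    rw [Algebra.smul_def]
  have hu_red : ∀ a, red (u a) = ∑ i, res ⟨B i a, hBV i a⟩ • red (e i) := by
    intro a
    simp only [u]
    rw [map_sum]
    refine Finset.sum_congr rfl fun i _ => ?_
    rw [map_mul, red_algebraMap ⟨B i a, hBV i a⟩, Algebra.smul_def]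
  have hpiv : ∀ b a, res ⟨B (p b) a, hBV (p b) a⟩ = if b = a then 1 else 0 := by
    intro b a
    have h1 : B (p b) a = if b = a then 1 else 0 := by
      have := congrFun (congrFun hB b) a
      simpa [Matrix.submatrix_apply, Matrix.one_apply] using this
    by_cases hba : b = a
    · have h2 : (⟨B (p b) a, hBV (p b) a⟩ : V) = 1 :=
        Subtype.ext (show B (p b) a = 1 by rw [h1, if_pos hba])
      rw [h2, map_one, if_pos hba]
    · have h2 : (⟨B (p b) a, hBV (p b) a⟩ : V) = 0 :=
        Subtype.ext (show B (p b) a = 0 by rw [h1, if_neg hba])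
      rw [h2, map_zero, if_neg hba]
  refine ⟨Module.finrank K W, u, ⟨?_, ?_, ?_⟩, ?_⟩
  · -- independence of the reductions
    rw [Fintype.linearIndependent_iff]
    intro lam hlam b
    have h1 : ∑ i, (∑ a, lam a * res ⟨B i a, hBV i a⟩) • red (e i) = 0 := by
      rw [← hlam]
      simp only [hu_red, Finset.smul_sum, Finset.sum_smul, smul_smul]
      rw [Finset.sum_comm]
    have h2 := Fintype.linearIndependent_iff.mp he _ h1 (p b)
    simp only [hpiv] at h2
    simpa using h2
  · intro a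
    rw [hu_coe]
    exact hcolW a
  · apply le_antisymm
    · rw [Submodule.span_le]
      rintro _ ⟨a, rfl⟩
      show ((u a : O) : F) ∈ U
      rw [hu_coe]
      exact hcolW a
    · intro y hy
      have hy' : y ∈ LinearMap.range T := by
        rw [hrangeT]
        exact hU hy
      obtain ⟨c, rfl⟩ := hy'
      have hc : c ∈ W := hy
      rw [← hrange] at hc
      obtain ⟨x, rfl⟩ := hc
      have h3 : T (B.mulVecLin x) = ∑ a, x a • ((u a : O) : F) := by
        rw [hT]
        simp only [hu_coe, hT, Matrix.mulVecLin_apply, Matrix.mulVec, dotProduct, Finset.smul_sum,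
          Finset.sum_smul, smul_smul]
        rw [Finset.sum_comm]
        refine Finset.sum_congr rfl fun a _ => Finset.sum_congr rfl fun i _ => ?_
        rw [mul_comm]
      rw [h3]
      refine Submodule.sum_mem _ fun a _ => Submodule.smul_mem _ _ ?_
      exact Submodule.subset_span ⟨a, rfl⟩
  · -- invariance
    intro g hg a
    let c' : Fin n → K := fun i => SemilinearAut.baseAut g (B i a)
    have h4 : g • ((u a : O) : F) = T c' := by
      rw [hu_coe, hT, hT, Finset.smul_sum]
      refine Finset.sum_congr rfl fun i _ => ?_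
      rw [Algebra.smul_def, Algebra.smul_def, smul_mul', SemilinearAut.smul_algebraMap, heI g hg]
    have h5 : c' ∈ W := by
      show T c' ∈ U
      rw [← h4]
      refine hUI g hg _ ?_
      rw [hu_coe]
      exact hcolW a
    rw [← hrange] at h5
    obtain ⟨x, hx⟩ := h5
    have hx' : B *ᵥ x = c' := hx
    have h6 : x = Pi.single a 1 := by
      funext b
      rw [Fermat.Agent.S19.H495.coeff_eq_of_submatrix_eq_one B p hB x b, hx']
      have h1 : B (p b) a = if b = a then 1 else 0 := by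
        have := congrFun (congrFun hB b) a
        simpa [Matrix.submatrix_apply, Matrix.one_apply] using this
      show SemilinearAut.baseAut g (B (p b) a) = _
      rw [h1, Pi.single_apply]
      by_cases hba : b = a
      · simp [hba]
      · simp [hba]
    have h7 : c' = fun i => B i a := by
      rw [← hx', h6, hcol]
    rw [h4, h7, ← hu_coe]

end Sub

section Aux

/-- An element of `O` with non-zero reduction is a unit of `O`. -/
theorem inv_mem_of_red_ne_zero (O : ValuationSubring F) (red : O →+* Fk)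
    (hsurj : Function.Surjective red) (f : O) (hf : red f ≠ 0) : ((f : O) : F)⁻¹ ∈ O := by
  have hmax : (RingHom.ker red).IsMaximal := RingHom.ker_isMaximal_of_surjective red hsurj
  have hker : RingHom.ker red = IsLocalRing.maximalIdeal O := IsLocalRing.eq_maximalIdeal hmax
  have hunit : IsUnit f := by
    by_contra h
    have h1 : f ∈ IsLocalRing.maximalIdeal O := (IsLocalRing.mem_maximalIdeal f).mpr h
    rw [← hker] at h1
    exact hf ((RingHom.mem_ker).mp h1)
  obtain ⟨u, hu⟩ := hunit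
  have h2 : ((f : O) : F) * (((u⁻¹ : Oˣ) : O) : F) = 1 := by
    rw [← hu]
    calc ((u : O) : F) * (((u⁻¹ : Oˣ) : O) : F) = (((u : O) * ((u⁻¹ : Oˣ) : O) : O) : F) := rfl
      _ = ((1 : O) : F) := by rw [u.mul_inv]
      _ = 1 := rfl
  rw [← eq_inv_of_mul_eq_one_right h2]
  exact (((u⁻¹ : Oˣ) : O)).2

/-- Semilinear automorphisms map `L(E)` to `L(g • E)`. -/
theorem smul_mem_L (g : SemilinearAut K F) {E : Divisor K F} {f : F}
    (hf : f ∈ riemannRochSpace E) : g • f ∈ riemannRochSpace (g • E) := by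
  rw [Fermat.Agent.Lib.RR.mem_L_iff] at hf ⊢
  intro w
  rcases hf (g⁻¹ • w) with h0 | h1
  · left
    rw [h0, smul_zero]
  · right
    have h2 : (g • (g⁻¹ • w)).ord (g • f) = (g⁻¹ • w).ord f := SemilinearAut.ord_smul g _ f
    rw [smul_inv_smul] at h2
    rw [h2, SemilinearAut.divisor_smul_apply]
    exact h1

/-- The positive part of a divisor. -/
def posPart (D : Divisor K F) : Divisor K F := D ⊔ 0

theorem posPart_apply (D : Divisor K F) (v : Place K F) : posPart D v = max (D v) 0 := by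
  simp [posPart, Finsupp.sup_apply]

theorem le_posPart (D : Divisor K F) : D ≤ posPart D := le_sup_left

theorem posPart_nonneg (D : Divisor K F) : 0 ≤ posPart D := le_sup_right

theorem smul_posPart (g : SemilinearAut K F) {D : Divisor K F} (hD : g • D = D) :
    g • posPart D = posPart D := by
  ext w
  rw [SemilinearAut.divisor_smul_apply, posPart_apply, posPart_apply]
  have h := SemilinearAut.divisor_smul_apply g D w
  rw [hD] at h
  rw [h]

end Aux

section Main

open Fermat.Agent.Lib.RR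

variable [FF1 K F]
variable (V : ValuationSubring K) (O : ValuationSubring F) (res : V →+* k) (red : O →+* Fk)
variable (algebraMap_mem : ∀ a : K, a ∈ V → algebraMap K F a ∈ O)
variable (red_algebraMap : ∀ (a : V) (h : algebraMap K F (a : K) ∈ O),
    red ⟨algebraMap K F (a : K), h⟩ = algebraMap k Fk (res a))
variable (red_surjective : Function.Surjective red)
variable (I : Set (SemilinearAut K F))
variable (B₀ : Divisor K F) (hB₀ : 0 < Divisor.degree B₀) (hB₀I : ∀ g ∈ I, g • B₀ = B₀)
variable (hbase : ∀ m₀ : ℕ, ∃ m, m₀ ≤ m ∧ ∃ (n : ℕ) (e : Fin n → O),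
    IsOrthBasis k O red (riemannRochSpace (m • B₀)) e ∧
      ∀ g ∈ I, ∀ i, g • ((e i : O) : F) = e i)

include algebraMap_mem red_algebraMap red_surjective hB₀ hB₀I hbase in
theorem exists_orthBasis_aux (D : Divisor K F) (J : Set (SemilinearAut K F)) (hJ : J ⊆ I)
    (hDJ : ∀ g ∈ J, g • D = D) :
    ∃ (n : ℕ) (b : Fin n → O), IsOrthBasis k O red (riemannRochSpace D) b ∧
      ∀ g ∈ J, ∀ i, g • ((b i : O) : F) = b i := by
  classical
  set A : Divisor K F := posPart D with hA
  -- choose `m`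
  obtain ⟨m, hm, n, e, ⟨he_ind, he_mem, he_span⟩, heI⟩ :=
    hbase ((genusR K F : ℤ) + Divisor.degree A).toNat
  have hdeg : (genusR K F : ℤ) + Divisor.degree A ≤ Divisor.degree ((m : ℕ) • B₀) := by
    rw [map_nsmul, nsmul_eq_mul]
    have h1 : (genusR K F : ℤ) + Divisor.degree A ≤ (m : ℤ) :=
      (Int.self_le_toNat _).trans (Int.ofNat_le.mpr hm)
    have h2 : (0 : ℤ) ≤ (m : ℤ) := Int.natCast_nonneg m
    nlinarith
  -- the space `U₁ = L(m B₀ - A)` is non-zero
  have hell : 1 ≤ ell ((m : ℕ) • B₀ - A) := by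
    have h1 := riemann_inequality (K := K) (F := F) ((m : ℕ) • B₀ - A)
    rw [map_sub] at h1
    have h2 : (1 : ℤ) ≤ (ell ((m : ℕ) • B₀ - A) : ℤ) := by linarith
    exact_mod_cast h2
  have hU₁le : riemannRochSpace ((m : ℕ) • B₀ - A) ≤
      Submodule.span K (Set.range fun i => ((e i : O) : F)) := by
    rw [he_span]
    apply L_mono
    have := posPart_nonneg D
    rw [← hA] at this
    exact sub_le_self _ this
  have hJI : ∀ g ∈ J, ∀ i, g • ((e i : O) : F) = e i := fun g hg i => heI g (hJ hg) i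
  have hAJ : ∀ g ∈ J, g • A = A := fun g hg => smul_posPart g (hDJ g hg)
  have hU₁J : ∀ g ∈ J, ∀ f ∈ riemannRochSpace ((m : ℕ) • B₀ - A),
      g • f ∈ riemannRochSpace ((m : ℕ) • B₀ - A) := by
    intro g hg f hf
    have h1 := smul_mem_L g hf
    rw [smul_sub, smul_comm g m B₀, hB₀I g (hJ hg), hAJ g hg] at h1
    exact h1
  obtain ⟨d₁, u₁, ⟨hu₁_ind, hu₁_mem, hu₁_span⟩, hu₁J⟩ :=
    exists_orthBasis_of_le V O res red algebraMap_mem red_algebraMap e he_ind _ hU₁le J hJI hU₁J
  have hd₁ : 0 < d₁ := by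
    by_contra h0
    have h0' : d₁ = 0 := by omega
    subst h0'
    have h1 : riemannRochSpace ((m : ℕ) • B₀ - A) = ⊥ := by
      rw [← hu₁_span]
      have : (Set.range fun i : Fin 0 => ((u₁ i : O) : F)) = ∅ := Set.range_eq_empty _
      rw [this, Submodule.span_empty]
    have h2 : ell ((m : ℕ) • B₀ - A) = 0 := by
      unfold ell
      rw [h1]
      exact finrank_bot K F
    omega
  set h : O := u₁ ⟨0, hd₁⟩ with hh
  have hh_red : red h ≠ 0 := hu₁_ind.ne_zero ⟨0, hd₁⟩
  have hh0 : ((h : O) : F) ≠ 0 := by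
    intro h0
    apply hh_red
    have : h = 0 := Subtype.ext h0
    rw [this, map_zero]
  have hh_mem : ((h : O) : F) ∈ riemannRochSpace ((m : ℕ) • B₀ - A) := hu₁_mem _
  have hh_inv : ((h : O) : F)⁻¹ ∈ O := inv_mem_of_red_ne_zero O red red_surjective h hh_red
  have hhJ : ∀ g ∈ J, g • ((h : O) : F) = h := fun g hg => hu₁J g hg _
  -- the twisted space
  set U₂ : Submodule K F := (riemannRochSpace D).map (LinearMap.mulLeft K ((h : O) : F)) with hU₂
  have hU₂le : U₂ ≤ Submodule.span K (Set.range fun i => ((e i : O) : F)) := by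
    rw [he_span]
    rintro _ ⟨f, hf', rfl⟩
    have hf : f ∈ riemannRochSpace D := hf'
    show ((h : O) : F) * f ∈ riemannRochSpace ((m : ℕ) • B₀)
    rw [mem_L_iff] at hf hh_mem ⊢
    intro v
    by_cases hf0 : f = 0
    · left
      rw [hf0, mul_zero]
    · right
      have h1 := (hh_mem v).resolve_left hh0
      have h2 := (hf v).resolve_left hf0
      have h3 : D v ≤ A v := Finsupp.le_def.mp (le_posPart D) v
      rw [v.ord_mul hh0 hf0]
      rw [Finsupp.sub_apply] at h1
      omega
  have hU₂J : ∀ g ∈ J, ∀ f ∈ U₂, g • f ∈ U₂ := by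
    rintro g hg _ ⟨f, hf', rfl⟩
    have hf : f ∈ riemannRochSpace D := hf'
    refine ⟨g • f, ?_, ?_⟩
    · have h1 := smul_mem_L g hf
      rw [hDJ g hg] at h1
      exact h1
    · show ((h : O) : F) * (g • f) = g • (((h : O) : F) * f)
      rw [smul_mul', hhJ g hg]
  obtain ⟨d₂, u₂, ⟨hu₂_ind, hu₂_mem, hu₂_span⟩, hu₂J⟩ :=
    exists_orthBasis_of_le V O res red algebraMap_mem red_algebraMap e he_ind U₂ hU₂le J hJI hU₂J
  -- untwist
  set hinv : O := ⟨((h : O) : F)⁻¹, hh_inv⟩ with hhinv
  have hmul : h * hinv = 1 := Subtype.ext (mul_inv_cancel₀ hh0)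
  have hred_inv : red hinv ≠ 0 := by
    intro h0
    have := congrArg red hmul
    rw [map_mul, h0, mul_zero, map_one] at this
    exact zero_ne_one this
  have hb_coe : ∀ i, (((u₂ i * hinv : O) : O) : F) = ((u₂ i : O) : F) * ((h : O) : F)⁻¹ :=
    fun i => rfl
  have hb_mem : ∀ i, (((u₂ i * hinv : O) : O) : F) ∈ riemannRochSpace D := by
    intro i
    obtain ⟨f, hf, hfi⟩ := hu₂_mem i
    have hfi' : ((h : O) : F) * f = ((u₂ i : O) : F) := hfi
    rw [hb_coe, ← hfi', mul_comm, ← mul_assoc, inv_mul_cancel₀ hh0, one_mul]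
    exact hf
  refine ⟨d₂, fun i => u₂ i * hinv, ⟨?_, hb_mem, ?_⟩, ?_⟩
  · have h1 : (fun i => red (u₂ i * hinv)) =
        (LinearMap.mulRight k (red hinv)) ∘ (fun i => red (u₂ i)) := by
      funext i
      simp [map_mul]
    rw [h1]
    refine hu₂_ind.map' _ ?_
    rw [LinearMap.ker_eq_bot]
    exact mul_left_injective₀ hred_inv
  · apply le_antisymm
    · rw [Submodule.span_le]
      rintro _ ⟨i, rfl⟩
      exact hb_mem i
    · intro f hf
      have h1 : ((h : O) : F) * f ∈ U₂ := ⟨f, hf, rfl⟩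
      rw [← hu₂_span] at h1
      obtain ⟨c, hc⟩ := (Submodule.mem_span_range_iff_exists_fun K).mp h1
      have h2 : f = ∑ i, c i • (((u₂ i * hinv : O) : O) : F) := by
        have h3 : f = ((h : O) : F)⁻¹ * (((h : O) : F) * f) := by
          rw [← mul_assoc, inv_mul_cancel₀ hh0, one_mul]
        rw [h3, ← hc, Finset.mul_sum]
        refine Finset.sum_congr rfl fun i _ => ?_
        rw [hb_coe, Algebra.smul_def, Algebra.smul_def]
        ring
      rw [h2]
      refine Submodule.sum_mem _ fun i _ => Submodule.smul_mem _ _ ?_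
      exact Submodule.subset_span ⟨i, rfl⟩
  · intro g hg i
    show g • (((u₂ i * hinv : O) : O) : F) = ((u₂ i * hinv : O) : F)
    rw [hb_coe, smul_mul', smul_inv'', hu₂J g hg i, hhJ g hg]

include algebraMap_mem red_algebraMap red_surjective hB₀ hB₀I hbase in
/-- **GR-ORTH.**  The field `orthonormal` of `GoodRed`, for all divisors, from the base case. -/
theorem orthonormal_of_base (D : Divisor K F) :
    ∃ (n : ℕ) (b : Fin n → O),
      LinearIndependent k (fun i => red (b i)) ∧
      (∀ i, ((b i : O) : F) ∈ riemannRochSpace D) ∧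
      Submodule.span K (Set.range fun i => ((b i : O) : F)) = riemannRochSpace D ∧
      ((∀ g ∈ I, g • D = D) → ∀ i, ∀ g ∈ I, g • ((b i : O) : F) = ((b i : O) : F)) := by
  by_cases hD : ∀ g ∈ I, g • D = D
  · obtain ⟨n, b, ⟨h1, h2, h3⟩, h4⟩ :=
      exists_orthBasis_aux V O res red algebraMap_mem red_algebraMap red_surjective I B₀ hB₀ hB₀I
        hbase D I subset_rfl hD
    exact ⟨n, b, h1, h2, h3, fun _ i g hg => h4 g hg i⟩
  · obtain ⟨n, b, ⟨h1, h2, h3⟩, -⟩ :=
      exists_orthBasis_aux V O res red algebraMap_mem red_algebraMap red_surjective I B₀ hB₀ hB₀I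
        hbase D ∅ (Set.empty_subset _) (fun g hg => absurd hg (Set.notMem_empty g))
    exact ⟨n, b, h1, h2, h3, fun h => absurd h hD⟩

include algebraMap_mem red_algebraMap red_surjective hB₀ in
/-- `orthonormal_of_base` for a subgroup `I`, verbatim in the shape of the field
`A3.H799.GoodRed.orthonormal`. -/
theorem orthonormal_of_base_subgroup (I' : Subgroup (SemilinearAut K F))
    (hB₀I' : ∀ g ∈ I', g • B₀ = B₀)
    (hbase' : ∀ m₀ : ℕ, ∃ m, m₀ ≤ m ∧ ∃ (n : ℕ) (e : Fin n → O),
      (LinearIndependent k (fun i => red (e i)) ∧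
        (∀ i, ((e i : O) : F) ∈ riemannRochSpace (m • B₀)) ∧
        Submodule.span K (Set.range fun i => ((e i : O) : F)) = riemannRochSpace (m • B₀)) ∧
        ∀ g ∈ I', ∀ i, g • ((e i : O) : F) = e i) :
    ∀ D : Divisor K F, ∃ (n : ℕ) (b : Fin n → O),
      LinearIndependent k (fun i => red (b i)) ∧
      (∀ i, ((b i : O) : F) ∈ riemannRochSpace D) ∧
      Submodule.span K (Set.range fun i => ((b i : O) : F)) = riemannRochSpace D ∧
      ((∀ g ∈ I', g • D = D) → ∀ i, ∀ g ∈ I', g • ((b i : O) : F) = ((b i : O) : F)) :=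
  fun D => orthonormal_of_base V O res red algebraMap_mem red_algebraMap red_surjective
    (I' : Set (SemilinearAut K F)) B₀ hB₀ hB₀I' hbase' D

end Main

end Fermat.Agent.A3.H499

end

end
-- ===== PACK-END A3/H499/Orth.lean

-- ===== PACK-BEGIN A3/H499/OrthGood.lean
section


/-!
# A3 / GR-ORTH, route D (helper499): orthonormal bases from a degree equality (Deuring)

Abstract, instance-free; no places, no `div_red`, no uniformiser.

Setting = the first fields of `A3.H799.GoodRed` (`V`, `O`, `res`, `red`), a coordinate `x ∈ O`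
with transcendental reduction and elements `w i ∈ O` such that the reductions of `x ^ j * w i`
are `k`-linearly independent and every `f ∈ F` has a denominator `h ∈ K[x]` with
`h * f ∈ ∑ K x ^ j w i`  (i.e. the `w i` are a `K(x)`-basis of `F` whose reductions are
`k(x̄)`-independent: the situation `[F : K(x)] = [F_k : k(x̄)]` of `S37.Red.Datum.Good`).

* `exists_orthBasis_of_span` : every finitely generated `K`-subspace `M` of `F` has an
  orthonormal basis; if `x` and the `w i` are fixed by a group `I` of semilinear automorphisms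
  and `M` is `I`-stable, the basis can be chosen `I`-fixed.  (The monic denominator of `M` of
  minimal degree is unique, hence `I`-fixed.)
-/

set_option autoImplicit false
set_option linter.unusedSectionVars false
set_option linter.style.longLine false

noncomputable section

open AlgebraicCurve Polynomial

namespace Fermat.Agent.A3.H499

variable {K F : Type*} [Field K] [Field F] [Algebra K F]
variable {k : Type*} {Fk : Type*} [Field k] [Field Fk] [Algebra k Fk]

section PolyAction

/-- A semilinear automorphism fixing `x` acts on `K[x]` through the coefficients. -/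
theorem smul_aeval (g : SemilinearAut K F) (x : F) (hx : g • x = x) (p : K[X]) :
    g • (aeval x p) = aeval x (p.map (SemilinearAut.baseAut g : K →+* K)) := by
  induction p using Polynomial.induction_on' with
  | add p q hp hq => rw [map_add, smul_add, hp, hq, Polynomial.map_add, map_add]
  | monomial n a =>
    rw [Polynomial.map_monomial, aeval_monomial, aeval_monomial, smul_mul', smul_pow', hx,
      SemilinearAut.smul_algebraMap]
    rfl

/-- semilinearity on scalar multiples -/
theorem smul_smul_semilinear (g : SemilinearAut K F) (a : K) (f : F) :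
    g • (a • f) = (SemilinearAut.baseAut g a) • (g • f) := by
  rw [Algebra.smul_def, Algebra.smul_def, smul_mul', SemilinearAut.smul_algebraMap]

end PolyAction

section Twist

variable (V : ValuationSubring K) (O : ValuationSubring F) (res : V →+* k) (red : O →+* Fk)
variable (algebraMap_mem : ∀ a : K, a ∈ V → algebraMap K F a ∈ O)
variable (red_algebraMap : ∀ (a : V) (h : algebraMap K F (a : K) ∈ O),
    red ⟨algebraMap K F (a : K), h⟩ = algebraMap k Fk (res a))
variable (red_surjective : Function.Surjective red)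

include algebraMap_mem red_algebraMap red_surjective in
/-- **Twist.**  If `h ∈ O` has non-zero reduction and `h • M` lies in the span of an orthonormal
family, then `M` has an orthonormal basis (fixed by `J` if everything is). -/
theorem exists_orthBasis_of_mul_le {n : ℕ} (e : Fin n → O)
    (he : LinearIndependent k (fun i => red (e i)))
    (h : O) (hh_red : red h ≠ 0) (M : Submodule K F)
    (hM : M.map (LinearMap.mulLeft K ((h : O) : F)) ≤
      Submodule.span K (Set.range fun i => ((e i : O) : F)))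
    (J : Set (SemilinearAut K F)) (heJ : ∀ g ∈ J, ∀ i, g • ((e i : O) : F) = e i)
    (hhJ : ∀ g ∈ J, g • ((h : O) : F) = h)
    (hMJ : ∀ g ∈ J, ∀ f ∈ M, g • f ∈ M) :
    ∃ (d : ℕ) (b : Fin d → O), IsOrthBasis k O red M b ∧
      ∀ g ∈ J, ∀ i, g • ((b i : O) : F) = b i := by
  classical
  have hh0 : ((h : O) : F) ≠ 0 := by
    intro h0
    apply hh_red
    have : h = 0 := Subtype.ext h0
    rw [this, map_zero]
  have hh_inv : ((h : O) : F)⁻¹ ∈ O := inv_mem_of_red_ne_zero O red red_surjective h hh_red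
  set U₂ : Submodule K F := M.map (LinearMap.mulLeft K ((h : O) : F)) with hU₂
  have hU₂J : ∀ g ∈ J, ∀ f ∈ U₂, g • f ∈ U₂ := by
    rintro g hg _ ⟨f, hf', rfl⟩
    have hf : f ∈ M := hf'
    refine ⟨g • f, hMJ g hg f hf, ?_⟩
    show ((h : O) : F) * (g • f) = g • (((h : O) : F) * f)
    rw [smul_mul', hhJ g hg]
  obtain ⟨d₂, u₂, ⟨hu₂_ind, hu₂_mem, hu₂_span⟩, hu₂J⟩ :=
    exists_orthBasis_of_le V O res red algebraMap_mem red_algebraMap e he U₂ hM J heJ hU₂J
  -- untwist
  set hinv : O := ⟨((h : O) : F)⁻¹, hh_inv⟩ with hhinv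
  have hmul : h * hinv = 1 := Subtype.ext (mul_inv_cancel₀ hh0)
  have hred_inv : red hinv ≠ 0 := by
    intro h0
    have := congrArg red hmul
    rw [map_mul, h0, mul_zero, map_one] at this
    exact zero_ne_one this
  have hb_coe : ∀ i, (((u₂ i * hinv : O) : O) : F) = ((u₂ i : O) : F) * ((h : O) : F)⁻¹ :=
    fun i => rfl
  have hb_mem : ∀ i, (((u₂ i * hinv : O) : O) : F) ∈ M := by
    intro i
    obtain ⟨f, hf, hfi⟩ := hu₂_mem i
    have hfi' : ((h : O) : F) * f = ((u₂ i : O) : F) := hfi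
    rw [hb_coe, ← hfi', mul_comm, ← mul_assoc, inv_mul_cancel₀ hh0, one_mul]
    exact hf
  refine ⟨d₂, fun i => u₂ i * hinv, ⟨?_, hb_mem, ?_⟩, ?_⟩
  · have h1 : (fun i => red (u₂ i * hinv)) =
        (LinearMap.mulRight k (red hinv)) ∘ (fun i => red (u₂ i)) := by
      funext i
      simp [map_mul]
    rw [h1]
    refine hu₂_ind.map' _ ?_
    rw [LinearMap.ker_eq_bot]
    exact mul_left_injective₀ hred_inv
  · apply le_antisymm
    · rw [Submodule.span_le]
      rintro _ ⟨i, rfl⟩
      exact hb_mem i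
    · intro f hf
      have h1 : ((h : O) : F) * f ∈ U₂ := ⟨f, hf, rfl⟩
      rw [← hu₂_span] at h1
      obtain ⟨c, hc⟩ := (Submodule.mem_span_range_iff_exists_fun K).mp h1
      have h2 : f = ∑ i, c i • (((u₂ i * hinv : O) : O) : F) := by
        have h3 : f = ((h : O) : F)⁻¹ * (((h : O) : F) * f) := by
          rw [← mul_assoc, inv_mul_cancel₀ hh0, one_mul]
        rw [h3, ← hc, Finset.mul_sum]
        refine Finset.sum_congr rfl fun i _ => ?_
        rw [hb_coe, Algebra.smul_def, Algebra.smul_def]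
        ring
      rw [h2]
      refine Submodule.sum_mem _ fun i _ => Submodule.smul_mem _ _ ?_
      exact Submodule.subset_span ⟨i, rfl⟩
  · intro g hg i
    show g • (((u₂ i * hinv : O) : O) : F) = ((u₂ i * hinv : O) : F)
    rw [hb_coe, smul_mul', smul_inv'', hu₂J g hg i, hhJ g hg]

end Twist

section Core

variable {O : ValuationSubring F} (x : O) {n : ℕ} (w : Fin n → O)

/-- the `K`-span of the `x ^ j * w i`, `j ∈ ℕ` -/
def polySpan {O : ValuationSubring F} (x : O) {n : ℕ} (w : Fin n → O) : Submodule K F :=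
  Submodule.span K (Set.range fun p : ℕ × Fin n => ((x : O) : F) ^ p.1 * ((w p.2 : O) : F))

/-- the `K`-span of the `x ^ j * w i`, `j < d` -/
def polySpanLt {O : ValuationSubring F} (x : O) {n : ℕ} (w : Fin n → O) (d : ℕ) :
    Submodule K F :=
  Submodule.span K (Set.range fun p : Fin d × Fin n =>
    ((x : O) : F) ^ (p.1 : ℕ) * ((w p.2 : O) : F))

theorem polySpanLt_mono {d d' : ℕ} (h : d ≤ d') :
    polySpanLt (K := K) x w d ≤ polySpanLt (K := K) x w d' := by
  unfold polySpanLt
  rw [Submodule.span_le]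
  rintro _ ⟨p, rfl⟩
  exact Submodule.subset_span ⟨(⟨p.1, lt_of_lt_of_le p.1.2 h⟩, p.2), rfl⟩

theorem exists_mem_polySpanLt {r : F} (hr : r ∈ polySpan (K := K) x w) :
    ∃ d, r ∈ polySpanLt (K := K) x w d := by
  unfold polySpan at hr
  induction hr using Submodule.span_induction with
  | mem r hr =>
    obtain ⟨p, rfl⟩ := hr
    exact ⟨p.1 + 1, Submodule.subset_span ⟨(⟨p.1, Nat.lt_succ_self _⟩, p.2), rfl⟩⟩
  | zero => exact ⟨0, Submodule.zero_mem _⟩
  | add a b _ _ ha hb =>
    obtain ⟨d₁, h₁⟩ := ha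
    obtain ⟨d₂, h₂⟩ := hb
    exact ⟨max d₁ d₂, Submodule.add_mem _ (polySpanLt_mono x w (le_max_left _ _) h₁)
      (polySpanLt_mono x w (le_max_right _ _) h₂)⟩
  | smul c a _ ha =>
    obtain ⟨d, hd⟩ := ha
    exact ⟨d, Submodule.smul_mem _ _ hd⟩

theorem exists_le_polySpanLt (M : Submodule K F) (hMfg : M.FG)
    (hM : M ≤ polySpan (K := K) x w) : ∃ d, M ≤ polySpanLt (K := K) x w d := by
  classical
  obtain ⟨S, hS⟩ := hMfg
  have h1 : ∀ s ∈ S, ∃ d, s ∈ polySpanLt (K := K) x w d := fun s hs =>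
    exists_mem_polySpanLt x w (hM (hS ▸ Submodule.subset_span hs))
  choose! dfun hdfun using h1
  refine ⟨S.sup dfun, ?_⟩
  rw [← hS, Submodule.span_le]
  intro s hs
  exact polySpanLt_mono x w (Finset.le_sup (f := dfun) hs) (hdfun s hs)

theorem mul_x_mem_polySpan {r : F} (hr : r ∈ polySpan (K := K) x w) :
    ((x : O) : F) * r ∈ polySpan (K := K) x w := by
  unfold polySpan at hr ⊢
  induction hr using Submodule.span_induction with
  | mem r hr =>
    obtain ⟨p, rfl⟩ := hr
    refine Submodule.subset_span ⟨(p.1 + 1, p.2), ?_⟩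
    show ((x : O) : F) ^ (p.1 + 1) * ((w p.2 : O) : F) = _
    rw [pow_succ']
    ring
  | zero => rw [mul_zero]; exact Submodule.zero_mem _
  | add a b _ _ ha hb => rw [mul_add]; exact Submodule.add_mem _ ha hb
  | smul c a _ ha => rw [mul_smul_comm]; exact Submodule.smul_mem _ _ ha

theorem x_pow_mul_mem_polySpan (j : ℕ) {r : F} (hr : r ∈ polySpan (K := K) x w) :
    ((x : O) : F) ^ j * r ∈ polySpan (K := K) x w := by
  induction j with
  | zero => rw [pow_zero, one_mul]; exact hr
  | succ j ih =>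
    rw [pow_succ', mul_assoc]
    exact mul_x_mem_polySpan x w ih

theorem aeval_mul_mem_polySpan (p : K[X]) {r : F} (hr : r ∈ polySpan (K := K) x w) :
    aeval ((x : O) : F) p * r ∈ polySpan (K := K) x w := by
  induction p using Polynomial.induction_on' with
  | add p q hp hq => rw [map_add, add_mul]; exact Submodule.add_mem _ hp hq
  | monomial j a =>
    rw [aeval_monomial, mul_assoc, ← Algebra.smul_def]
    exact Submodule.smul_mem _ _ (x_pow_mul_mem_polySpan x w j hr)

theorem smul_mem_polySpan (g : SemilinearAut K F) (hgx : g • ((x : O) : F) = x)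
    (hgw : ∀ i, g • ((w i : O) : F) = w i) {r : F} (hr : r ∈ polySpan (K := K) x w) :
    g • r ∈ polySpan (K := K) x w := by
  unfold polySpan at hr ⊢
  induction hr using Submodule.span_induction with
  | mem r hr =>
    obtain ⟨p, rfl⟩ := hr
    refine Submodule.subset_span ⟨p, ?_⟩
    show _ = g • (((x : O) : F) ^ p.1 * ((w p.2 : O) : F))
    rw [smul_mul', smul_pow', hgx, hgw]
  | zero => rw [smul_zero]; exact Submodule.zero_mem _
  | add a b _ _ ha hb => rw [smul_add]; exact Submodule.add_mem _ ha hb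
  | smul c a _ ha => rw [smul_smul_semilinear]; exact Submodule.smul_mem _ _ ha

/-- `h` is a common denominator of `M` -/
def IsDen {O : ValuationSubring F} (x : O) {n : ℕ} (w : Fin n → O) (M : Submodule K F)
    (h : K[X]) : Prop :=
  ∀ f ∈ M, aeval ((x : O) : F) h * f ∈ polySpan (K := K) x w

variable {x w}

theorem IsDen.sub {M : Submodule K F} {h h' : K[X]} (hh : IsDen x w M h) (hh' : IsDen x w M h') :
    IsDen x w M (h - h') := by
  intro f hf
  rw [map_sub, sub_mul]
  exact Submodule.sub_mem _ (hh f hf) (hh' f hf)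

theorem IsDen.mul_left {M : Submodule K F} {h : K[X]} (hh : IsDen x w M h) (p : K[X]) :
    IsDen x w M (p * h) := by
  intro f hf
  rw [map_mul, mul_assoc]
  exact aeval_mul_mem_polySpan x w p (hh f hf)

theorem IsDen.map {M : Submodule K F} {h : K[X]} (hh : IsDen x w M h)
    (g : SemilinearAut K F) (hgx : g • ((x : O) : F) = x)
    (hgw : ∀ i, g • ((w i : O) : F) = w i) (hgM : ∀ f ∈ M, g⁻¹ • f ∈ M) :
    IsDen x w M (h.map (SemilinearAut.baseAut g : K →+* K)) := by
  intro f hf
  have h1 := smul_mem_polySpan x w g hgx hgw (hh _ (hgM f hf))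
  rw [smul_mul', smul_aeval g _ hgx, smul_inv_smul] at h1
  exact h1

theorem exists_isDen_ne_zero (M : Submodule K F) (hMfg : M.FG)
    (hspan : ∀ f : F, ∃ h : K[X], h ≠ 0 ∧ aeval ((x : O) : F) h * f ∈ polySpan (K := K) x w) :
    ∃ h : K[X], h ≠ 0 ∧ IsDen x w M h := by
  classical
  obtain ⟨S, hS⟩ := hMfg
  choose hfun hfun0 hfun_mem using hspan
  refine ⟨∏ s ∈ S, hfun s, Finset.prod_ne_zero_iff.mpr fun s _ => hfun0 s, ?_⟩
  intro f hf
  rw [← hS] at hf
  induction hf using Submodule.span_induction with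
  | mem s hs =>
    have hs' : s ∈ S := hs
    rw [← Finset.mul_prod_erase S hfun hs', mul_comm (hfun s), map_mul, mul_assoc]
    exact aeval_mul_mem_polySpan x w _ (hfun_mem s)
  | zero => rw [mul_zero]; exact Submodule.zero_mem _
  | add a b _ _ ha hb => rw [mul_add]; exact Submodule.add_mem _ ha hb
  | smul c a _ ha => rw [mul_smul_comm]; exact Submodule.smul_mem _ _ ha

end Core

section Main

variable (V : ValuationSubring K) (O : ValuationSubring F) (res : V →+* k) (red : O →+* Fk)
variable (algebraMap_mem : ∀ a : K, a ∈ V → algebraMap K F a ∈ O)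
variable (red_algebraMap : ∀ (a : V) (h : algebraMap K F (a : K) ∈ O),
    red ⟨algebraMap K F (a : K), h⟩ = algebraMap k Fk (res a))
variable (red_surjective : Function.Surjective red)

include algebraMap_mem red_algebraMap red_surjective in
/-- **Route D, core.**  Every finitely generated `K`-subspace `M` of `F` has an orthonormal
basis, which is `I`-fixed if `x`, the `w i` are `I`-fixed and `M` is `I`-stable. -/
theorem exists_orthBasis_of_span
    (x : O) (hxtr : Transcendental k (red x)) {n : ℕ} (w : Fin n → O)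
    (horth : LinearIndependent k (fun p : ℕ × Fin n => red (x ^ p.1 * w p.2)))
    (hspan : ∀ f : F, ∃ h : K[X], h ≠ 0 ∧ aeval ((x : O) : F) h * f ∈ polySpan (K := K) x w)
    (I : Subgroup (SemilinearAut K F))
    (hIx : ∀ g ∈ I, g • ((x : O) : F) = x)
    (hIw : ∀ g ∈ I, ∀ i, g • ((w i : O) : F) = w i)
    (M : Submodule K F) (hMfg : M.FG) (hMI : ∀ g ∈ I, ∀ f ∈ M, g • f ∈ M) :
    ∃ (d : ℕ) (u : Fin d → O), IsOrthBasis k O red M u ∧
      ∀ g ∈ I, ∀ a, g • ((u a : O) : F) = u a := by
  classical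
  -- Step 1: a non-zero denominator of minimal degree
  obtain ⟨h₀', hh₀'0, hh₀'den⟩ := exists_isDen_ne_zero M hMfg hspan
  have hex : ∃ d, ∃ h : K[X], h ≠ 0 ∧ IsDen x w M h ∧ h.natDegree = d :=
    ⟨_, h₀', hh₀'0, hh₀'den, rfl⟩
  obtain ⟨h₀, hh₀0, hh₀den, hh₀deg⟩ := Nat.find_spec hex
  have hmin : ∀ h : K[X], h ≠ 0 → IsDen x w M h → Nat.find hex ≤ h.natDegree :=
    fun h h0 hd => Nat.find_min' hex ⟨h, h0, hd, rfl⟩
  -- Step 2: the monic one
  have hlc : h₀.leadingCoeff ≠ 0 := leadingCoeff_ne_zero.mpr hh₀0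
  set h₁ : K[X] := C h₀.leadingCoeff⁻¹ * h₀ with hh₁
  have hh₁monic : h₁.Monic := monic_C_mul_of_mul_leadingCoeff_eq_one (inv_mul_cancel₀ hlc)
  have hh₁den : IsDen x w M h₁ := hh₀den.mul_left _
  have hh₁deg : h₁.natDegree = Nat.find hex := by
    rw [hh₁, natDegree_C_mul (inv_ne_zero hlc), hh₀deg]
  -- Step 3: it is `I`-fixed
  have hh₁I : ∀ g ∈ I, h₁.map (SemilinearAut.baseAut g : K →+* K) = h₁ := by
    intro g hg
    by_contra hne
    have hden' : IsDen x w M (h₁.map (SemilinearAut.baseAut g : K →+* K)) :=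
      hh₁den.map g (hIx g hg) (hIw g hg) (fun f hf => hMI g⁻¹ (I.inv_mem hg) f hf)
    have hsub := hh₁den.sub hden'
    have hne' : h₁ - h₁.map (SemilinearAut.baseAut g : K →+* K) ≠ 0 :=
      sub_ne_zero.mpr (Ne.symm hne)
    have h1 := hmin _ hne' hsub
    have hmonic' : (h₁.map (SemilinearAut.baseAut g : K →+* K)).Monic := hh₁monic.map _
    have hlt : (h₁ - h₁.map (SemilinearAut.baseAut g : K →+* K)).degree < h₁.degree :=
      degree_sub_lt_left (by rw [degree_map]) hh₁monic.ne_zero
        (by rw [hh₁monic.leadingCoeff, hmonic'.leadingCoeff])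
    have h2 := natDegree_lt_natDegree hne' hlt
    omega
  -- Step 4: normalise to Gauss norm one
  have hsupp : h₁.support.Nonempty := ⟨h₁.natDegree, by
    rw [mem_support_iff, coeff_natDegree, hh₁monic.leadingCoeff]; exact one_ne_zero⟩
  obtain ⟨m, hm_mem, hm_max⟩ :=
    Finset.exists_max_image h₁.support (fun i => V.valuation (h₁.coeff i)) hsupp
  set c : K := h₁.coeff m with hc
  have hc0 : c ≠ 0 := mem_support_iff.mp hm_mem
  set h : K[X] := C c⁻¹ * h₁ with hh
  have hcoeff : ∀ i, h.coeff i = c⁻¹ * h₁.coeff i := fun i => by rw [hh, coeff_C_mul]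
  have hcoeffV : ∀ i, h.coeff i ∈ V := by
    intro i
    rw [hcoeff, ← ValuationSubring.valuation_le_one_iff, map_mul, map_inv₀]
    have hv : V.valuation c ≠ 0 := (_root_.map_ne_zero _).mpr hc0
    rw [inv_mul_le_iff₀ (zero_lt_iff.mpr hv), mul_one]
    by_cases hi : i ∈ h₁.support
    · exact hm_max i hi
    · rw [notMem_support_iff.mp hi, map_zero]
      exact zero_le
  have hcoeffm : h.coeff m = 1 := by rw [hcoeff, ← hc, inv_mul_cancel₀ hc0]
  have hden : IsDen x w M h := hh₁den.mul_left _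
  have hcI : ∀ g ∈ I, SemilinearAut.baseAut g c = c := by
    intro g hg
    have := congrArg (fun q : K[X] => q.coeff m) (hh₁I g hg)
    simpa [coeff_map] using this
  have hhI : ∀ g ∈ I, h.map (SemilinearAut.baseAut g : K →+* K) = h := by
    intro g hg
    rw [hh, Polynomial.map_mul, map_C, hh₁I g hg]
    congr 2
    show SemilinearAut.baseAut g c⁻¹ = c⁻¹
    rw [map_inv₀, hcI g hg]
  -- the value `H = h(x) ∈ O`
  set H : O := ∑ i ∈ Finset.range (h.natDegree + 1),
    (⟨algebraMap K F (h.coeff i), algebraMap_mem _ (hcoeffV i)⟩ : O) * x ^ i with hH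
  have hHcoe : ((H : O) : F) = aeval ((x : O) : F) h := by
    rw [aeval_eq_sum_range, hH]
    push_cast
    refine Finset.sum_congr rfl fun i _ => ?_
    rw [Algebra.smul_def]
  set hbar : k[X] := ∑ i ∈ Finset.range (h.natDegree + 1),
    monomial i (res ⟨h.coeff i, hcoeffV i⟩) with hhbar
  have hHred : red H = aeval (red x) hbar := by
    rw [hH, hhbar, map_sum, map_sum]
    refine Finset.sum_congr rfl fun i _ => ?_
    rw [map_mul, map_pow, red_algebraMap ⟨h.coeff i, hcoeffV i⟩, aeval_monomial]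
  have hmle : m ≤ h.natDegree := le_natDegree_of_ne_zero (by rw [hcoeffm]; exact one_ne_zero)
  have hbar_ne : hbar ≠ 0 := by
    intro h0
    have h1 := congrArg (fun q : k[X] => q.coeff m) h0
    simp only [hhbar, finsetSum_coeff, coeff_monomial, coeff_zero] at h1
    rw [Finset.sum_ite_eq' (Finset.range (h.natDegree + 1)) m, if_pos (by
      rw [Finset.mem_range]; omega)] at h1
    have h2 : (⟨h.coeff m, hcoeffV m⟩ : V) = 1 := Subtype.ext hcoeffm
    rw [h2, map_one] at h1
    exact one_ne_zero h1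
  have hHred0 : red H ≠ 0 := by
    rw [hHred]
    intro h0
    exact hbar_ne (transcendental_iff.mp hxtr hbar h0)
  -- Step 5: `H • M` lies in a finite level
  have hU : M.map (LinearMap.mulLeft K ((H : O) : F)) ≤ polySpan (K := K) x w := by
    rintro _ ⟨f, hf, rfl⟩
    show ((H : O) : F) * f ∈ polySpan (K := K) x w
    rw [hHcoe]
    exact hden f hf
  obtain ⟨d, hd⟩ := exists_le_polySpanLt x w _ (hMfg.map _) hU
  -- Step 6: reindex by `Fin (d * n)`
  set ι : Fin (d * n) → ℕ × Fin n := fun a =>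
    (((finProdFinEquiv.symm a).1 : ℕ), (finProdFinEquiv.symm a).2) with hι
  have hιinj : Function.Injective ι := by
    intro a b hab
    have h1 : ((finProdFinEquiv.symm a).1 : ℕ) = ((finProdFinEquiv.symm b).1 : ℕ) :=
      congrArg (fun q : ℕ × Fin n => q.1) hab
    have h2 : (finProdFinEquiv.symm a).2 = (finProdFinEquiv.symm b).2 :=
      congrArg (fun q : ℕ × Fin n => q.2) hab
    exact finProdFinEquiv.symm.injective (Prod.ext (Fin.ext h1) h2)
  set e : Fin (d * n) → O := fun a => x ^ (ι a).1 * w (ι a).2 with he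
  have he_ind : LinearIndependent k (fun a => red (e a)) := horth.comp ι hιinj
  have hle : polySpanLt (K := K) x w d ≤
      Submodule.span K (Set.range fun a => ((e a : O) : F)) := by
    unfold polySpanLt
    rw [Submodule.span_le]
    rintro _ ⟨p, rfl⟩
    refine Submodule.subset_span ⟨finProdFinEquiv p, ?_⟩
    show ((x ^ (ι (finProdFinEquiv p)).1 * w (ι (finProdFinEquiv p)).2 : O) : F) = _
    simp only [hι, Equiv.symm_apply_apply]
    rfl
  have heI : ∀ g ∈ (I : Set (SemilinearAut K F)), ∀ a, g • ((e a : O) : F) = e a := by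
    intro g hg a
    show g • (((x : O) : F) ^ (ι a).1 * ((w (ι a).2 : O) : F)) = _
    rw [smul_mul', smul_pow', hIx g hg, hIw g hg]
    rfl
  have hHI : ∀ g ∈ (I : Set (SemilinearAut K F)), g • ((H : O) : F) = H := by
    intro g hg
    rw [hHcoe, smul_aeval g _ (hIx g hg), hhI g hg]
  exact exists_orthBasis_of_mul_le V O res red algebraMap_mem red_algebraMap red_surjective
    e he_ind H hHred0 M (hd.trans hle) (I : Set (SemilinearAut K F)) heI hHI hMI

end Main

end Fermat.Agent.A3.H499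

end

end
-- ===== PACK-END A3/H499/OrthGood.lean

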