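import Mathlib
import Fermat.Prelude.Def_AlgebraicCurve_DivisorClassGroup
import Fermat.Prelude.Def_AlgebraicCurve_DivisorPushPull
import Fermat.Prelude.Def_AlgebraicCurve_Correspondence
import Fermat.Prelude.Def_ModularCurve_HeckeModule
import Mathlib.RingTheory.Ideal.GoingUp
import Mathlib.RingTheory.Polynomial.ScaleRoots
import Fermat.Prelude.Def_FLTPrelim_Ramification
import Fermat.Prelude.Def_FLTPrelim_ModularRep
import Fermat.Prelude.Def_FreyPackage_LevelRaising
import Fermat.Prelude.Def_AlgebraicCurve_BaseChangeGalois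
import Fermat.Agent.Pack.S15.AE2L2
import Fermat.Agent.Pack.S15.AE0L1
import Fermat.Agent.Pack.S15.AE0L3
import Fermat.Agent.Pack.S15.AE1L2
import Fermat.Agent.Pack.S15.AE1L1
import Fermat.Agent.Pack.S15.AE1L3
import Fermat.Agent.Pack.S15.AE2L3
import Fermat.Agent.Pack.S15.AE2L1
import Fermat.Agent.Pack.S15.AE1L0
import Fermat.Agent.Pack.S15.AE0L2
import Fermat.Agent.Pack.S15.AE2L0

-- ===== PACK-BEGIN S24/FFIdentity.lean
section




/-!
# S24 / FF layer: the fundamental identity `∑_{v(t) > 0} ord_v(t) = [F : K(t)]`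
(helper804)
-/

set_option autoImplicit false
set_option linter.unusedSectionVars false

namespace Fermat.Agent.S24.FF

open AlgebraicCurve Polynomial IntermediateField IsDedekindDomain

open scoped IntermediateField.algebraAdjoinAdjoin

/-- Abstract criterion: if every element of `S` is congruent mod `q` to an element of `R`,
the inertia degree of `q` is one. -/
theorem inertiaDeg_eq_one_of_forall_exists {R S : Type*} [CommRing R] [CommRing S] [Algebra R S]
    (p : Ideal R) (q : Ideal S) [q.LiesOver p] [p.IsMaximal] [q.IsMaximal]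
    (h : ∀ s : S, ∃ r : R, s - algebraMap R S r ∈ q) : q.inertiaDeg R = 1 := by
  rw [Ideal.inertiaDeg_eq_of_isMaximal p q]
  let _ : Field (R ⧸ p) := Ideal.Quotient.field _
  rw [finrank_eq_one_iff_of_nonzero' (1 : S ⧸ q) one_ne_zero]
  intro w
  obtain ⟨s, rfl⟩ := Ideal.Quotient.mk_surjective w
  obtain ⟨r, hr⟩ := h s
  refine ⟨Ideal.Quotient.mk _ r, ?_⟩
  rw [Algebra.smul_def, mul_one, Ideal.Quotient.algebraMap_mk_of_liesOver, eq_comm,
    Ideal.Quotient.eq]
  exact hr

variable {K F : Type*} [Field K] [Field F] [Algebra K F] {t : F}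

instance instTowerCoordIntRing : IsScalarTower (coordRing K t) (intRing K t) F :=
  IsScalarTower.of_algebraMap_eq (fun _ => rfl)

section

variable [CharZero K] [IsCoord K t]

theorem t_ne_zero (ht : Transcendental K t) : t ≠ 0 := by
  rintro rfl
  exact ht isAlgebraic_zero

theorem tS_ne_zero : tS K t ≠ 0 := by
  intro h
  apply t_ne_zero (IsCoord.transcendental (K := K) (t := t))
  have := congrArg (fun s : intRing K t => (s : F)) h
  simpa using this

theorem irreducible_tR : Irreducible (tR K t) := by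
  have h := Polynomial.irreducible_X (R := K)
  have e := algEquivOfTranscendental K t (IsCoord.transcendental (K := K) (t := t))
  rw [tR, ← algEquivOfTranscendental_apply_X K t (IsCoord.transcendental (K := K) (t := t))]
  exact (MulEquiv.irreducible_iff
    (algEquivOfTranscendental K t (IsCoord.transcendental (K := K) (t := t)))).mpr h

variable (K t) in
/-- The maximal ideal `(t)` of `K[t]`. -/
def tIdeal : Ideal (coordRing K t) := Ideal.span {tR K t}

instance tIdeal_isMaximal : (tIdeal K t).IsMaximal :=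
  PrincipalIdealRing.isMaximal_of_irreducible irreducible_tR

theorem map_tIdeal :
    (tIdeal K t).map (algebraMap (coordRing K t) (intRing K t)) = Ideal.span {tS K t} := by
  rw [tIdeal, Ideal.map_span, Set.image_singleton]
  rfl

theorem map_tIdeal_ne_bot :
    (tIdeal K t).map (algebraMap (coordRing K t) (intRing K t)) ≠ ⊥ := by
  rw [map_tIdeal, Ne, Ideal.span_singleton_eq_bot]
  exact tS_ne_zero

theorem liesOver_iff (q : Ideal (intRing K t)) [hq : q.IsPrime] :
    q.LiesOver (tIdeal K t) ↔ tS K t ∈ q := by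
  constructor
  · intro h
    have : tR K t ∈ q.under (coordRing K t) := by
      rw [← h.over]
      exact Ideal.subset_span rfl
    exact this
  · intro h
    refine ⟨?_⟩
    apply (tIdeal_isMaximal (K := K) (t := t)).eq_of_le (Ideal.IsPrime.under _ q).ne_top
    rw [tIdeal, Ideal.span_le, Set.singleton_subset_iff]
    exact h

/-- `ord_v(t)` at the place of a prime `q` over `(t)` is the ramification index of `q`. -/
theorem ord_t_eq_ramificationIdx (q : HeightOneSpectrum (intRing K t))
    [hq : q.asIdeal.LiesOver (tIdeal K t)] :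
    (placeOfPrime K t q).ord t = (q.asIdeal.ramificationIdx (coordRing K t) : ℤ) := by
  have := q.isPrime
  rw [Ideal.IsDedekindDomain.ramificationIdx_eq_multiplicity (tIdeal K t) q.asIdeal
    map_tIdeal_ne_bot, map_tIdeal, ord_placeOfPrime]
  have h1 : q.valuation F t = q.intValuation (tS K t) := q.valuation_of_algebraMap (tS K t)
  rw [h1, q.intValuation_eq_exp_neg_multiplicity tS_ne_zero]
  simp

/-- The residue degree of every prime over `(t)` is one. -/
theorem inertiaDeg_eq_one [IsAlgClosed K] (q : HeightOneSpectrum (intRing K t))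
    [hq : q.asIdeal.LiesOver (tIdeal K t)] :
    q.asIdeal.inertiaDeg (coordRing K t) = 1 := by
  have : q.asIdeal.IsMaximal := q.isPrime.isMaximal q.ne_bot
  refine inertiaDeg_eq_one_of_forall_exists (tIdeal K t) q.asIdeal fun s => ?_
  have hsO : (s : F) ∈ (placeOfPrime K t q).toValuationSubring :=
    mem_of_mem_intRing _ (ord_t_placeOfPrime_nonneg q) s.2
  obtain ⟨a, ha⟩ := exists_const_sub_mem_nonunits (placeOfPrime K t q)
    (IsCoord.transcendental (K := K) (t := t)) hsO
  refine ⟨algebraMap K (coordRing K t) a, ?_⟩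
  rw [← center_placeOfPrime q, mem_center_iff]
  exact ha

/-- The height-one prime attached to a prime over `(t)`. -/
def primeOfOver (q : (tIdeal K t).primesOver (intRing K t)) :
    HeightOneSpectrum (intRing K t) :=
  ⟨q.1, q.2.1, fun h => tS_ne_zero (K := K) (t := t) (by
    have h1 := (liesOver_iff q.1 (hq := q.2.1)).mp q.2.2
    rw [h] at h1
    exact h1)⟩

@[simp] theorem primeOfOver_asIdeal (q : (tIdeal K t).primesOver (intRing K t)) :
    (primeOfOver q).asIdeal = q.1 := rfl

instance primeOfOver_liesOver (q : (tIdeal K t).primesOver (intRing K t)) :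
    (primeOfOver q).asIdeal.LiesOver (tIdeal K t) := q.2.2

/-- The place attached to a prime over `(t)`. -/
noncomputable def placeOfOver (q : (tIdeal K t).primesOver (intRing K t)) : Place K F :=
  placeOfPrime K t (primeOfOver q)

theorem placeOfOver_injective :
    Function.Injective (placeOfOver : (tIdeal K t).primesOver (intRing K t) → Place K F) := by
  intro q q' h
  have := placeOfPrime_injective h
  apply Subtype.ext
  exact congrArg HeightOneSpectrum.asIdeal this

theorem ord_t_placeOfOver_pos (q : (tIdeal K t).primesOver (intRing K t)) :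
    0 < (placeOfOver q).ord t := by
  rw [placeOfOver, ord_t_placeOfPrime_pos_iff (t_ne_zero (IsCoord.transcendental (K := K)))]
  exact (liesOver_iff q.1 (hq := q.2.1)).mp q.2.2

theorem exists_placeOfOver_eq (v : Place K F) (ht : 0 < v.ord t) :
    ∃ q : (tIdeal K t).primesOver (intRing K t), placeOfOver q = v := by
  have ht0 : t ≠ 0 := t_ne_zero (IsCoord.transcendental (K := K))
  have hmem : tS K t ∈ center v ht.le :=
    (mem_center_iff v ht.le _).mpr ((ord_pos_iff_mem_nonunits v ht0).mp ht)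
  refine ⟨⟨center v ht.le, center_isPrime v ht.le, (liesOver_iff _).mpr hmem⟩, ?_⟩
  exact placeOfPrime_centerPrime v ht

theorem range_placeOfOver :
    Set.range (placeOfOver : (tIdeal K t).primesOver (intRing K t) → Place K F) =
      {v : Place K F | 0 < v.ord t} := by
  ext v
  constructor
  · rintro ⟨q, rfl⟩
    exact ord_t_placeOfOver_pos q
  · intro hv
    exact exists_placeOfOver_eq v hv

theorem sum_placeOfOver [IsAlgClosed K] :
    ∑ q : (tIdeal K t).primesOver (intRing K t), (placeOfOver q).ord t =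
      (Module.finrank K⟮t⟯ F : ℤ) := by
  have h := Ideal.sum_ramification_inertia_eq_finrank (tIdeal K t) (intRing K t)
  rw [IsFractionRing.finrank_eq (coordRing K t) K⟮t⟯ (intRing K t) F, ← h]
  push_cast
  refine Finset.sum_congr rfl fun q _ => ?_
  have h1 := inertiaDeg_eq_one (primeOfOver q)
  rw [primeOfOver_asIdeal] at h1
  rw [placeOfOver, ord_t_eq_ramificationIdx (primeOfOver q), h1]
  simp

end

section final

/-- **Fundamental identity, finiteness**: a coordinate function has finitely many zeros. -/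
theorem finite_setOf_ord_pos [CharZero K] (ht : Transcendental K t)
    [FiniteDimensional K⟮t⟯ F] : {v : Place K F | 0 < v.ord t}.Finite := by
  have : IsCoord K t := ⟨ht, inferInstance⟩
  rw [← range_placeOfOver]
  exact Set.finite_range _

/-- **Fundamental identity**: `∑_{v(t) > 0} ord_v(t) = [F : K(t)]`. -/
theorem sum_ord_eq_finrank [IsAlgClosed K] [CharZero K] (ht : Transcendental K t)
    [FiniteDimensional K⟮t⟯ F] (s : Finset (Place K F)) (hs : ∀ v, v ∈ s ↔ 0 < v.ord t) :
    ∑ v ∈ s, v.ord t = (Module.finrank K⟮t⟯ F : ℤ) := by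
  have : IsCoord K t := ⟨ht, inferInstance⟩
  rw [← sum_placeOfOver]
  symm
  refine Finset.sum_bij (fun q _ => placeOfOver q) ?_ ?_ ?_ ?_
  · intro q _
    exact (hs _).mpr (ord_t_placeOfOver_pos q)
  · intro q _ q' _ h
    exact placeOfOver_injective h
  · intro v hv
    obtain ⟨q, hq⟩ := exists_placeOfOver_eq v ((hs v).mp hv)
    exact ⟨q, Finset.mem_univ _, hq⟩
  · intro q _
    rfl

/-- Skeleton form of the fundamental identity (helper864 FF3b). -/
theorem sum_ord_pos_eq_finrank [IsAlgClosed K] [CharZero K] (ht : Transcendental K t)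
    [FiniteDimensional K⟮t⟯ F] :
    ∑ v ∈ (finite_setOf_ord_pos ht).toFinset, v.ord t = (Module.finrank K⟮t⟯ F : ℤ) :=
  sum_ord_eq_finrank ht _ (fun v => by simp)

end final

end Fermat.Agent.S24.FF

end
-- ===== PACK-END S24/FFIdentity.lean

-- ===== PACK-BEGIN S24/FFDegree.lean
section




/-!
# S24 / FF layer: poles of a coordinate function and `deg (div f) = 0`
(helper804)
-/

set_option autoImplicit false
set_option linter.unusedSectionVars false

namespace Fermat.Agent.S24.FF

open AlgebraicCurve Polynomial IntermediateField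

variable {K F : Type*} [Field K] [Field F] [Algebra K F]

theorem adjoin_inv_eq (f : F) : K⟮f⁻¹⟯ = K⟮f⟯ := by
  apply le_antisymm
  · rw [adjoin_simple_le_iff]
    exact inv_mem (mem_adjoin_simple_self K f)
  · rw [adjoin_simple_le_iff]
    have := inv_mem (mem_adjoin_simple_self K f⁻¹)
    rwa [inv_inv] at this

theorem finrank_adjoin_inv (f : F) : Module.finrank K⟮f⁻¹⟯ F = Module.finrank K⟮f⟯ F := by
  rw [adjoin_inv_eq]

theorem transcendental_inv {f : F} (hf : Transcendental K f) : Transcendental K f⁻¹ := by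
  intro h
  apply hf
  have := h.inv
  rwa [inv_inv] at this

theorem finiteDimensional_adjoin_inv (f : F) [h : FiniteDimensional K⟮f⟯ F] :
    FiniteDimensional K⟮f⁻¹⟯ F := by
  rw [adjoin_inv_eq]
  exact h

theorem adjoin_sub_const_eq (f : F) (a : K) : K⟮f - algebraMap K F a⟯ = K⟮f⟯ := by
  apply le_antisymm
  · rw [adjoin_simple_le_iff]
    exact sub_mem (mem_adjoin_simple_self K f) (IntermediateField.algebraMap_mem _ a)
  · rw [adjoin_simple_le_iff]
    have := add_mem (mem_adjoin_simple_self K (f - algebraMap K F a))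
      (IntermediateField.algebraMap_mem K⟮f - algebraMap K F a⟯ a)
    rwa [sub_add_cancel] at this

theorem finrank_adjoin_sub_const (f : F) (a : K) :
    Module.finrank K⟮f - algebraMap K F a⟯ F = Module.finrank K⟮f⟯ F := by
  rw [adjoin_sub_const_eq]

theorem finiteDimensional_adjoin_sub_const (f : F) (a : K) [h : FiniteDimensional K⟮f⟯ F] :
    FiniteDimensional K⟮f - algebraMap K F a⟯ F := by
  rw [adjoin_sub_const_eq]
  exact h

theorem transcendental_sub_const {f : F} (hf : Transcendental K f) (a : K) :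
    Transcendental K (f - algebraMap K F a) := by
  intro h
  apply hf
  have := h.add (isAlgebraic_algebraMap (R := K) (A := F) a)
  rwa [sub_add_cancel] at this

section

variable [CharZero K]

/-- A coordinate function has finitely many poles. -/
theorem finite_setOf_ord_neg {t : F} (ht : Transcendental K t) [FiniteDimensional K⟮t⟯ F] :
    {v : Place K F | v.ord t < 0}.Finite := by
  have := finiteDimensional_adjoin_inv (K := K) t
  have h := finite_setOf_ord_pos (transcendental_inv ht)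
  refine h.subset ?_
  intro v hv
  change 0 < v.ord t⁻¹
  have hv' : v.ord t < 0 := hv
  rw [v.ord_inv]
  omega

/-- A nonconstant function has finitely many zeros and poles. -/
theorem finite_setOf_ord_ne_zero {t : F} (ht : Transcendental K t) [FiniteDimensional K⟮t⟯ F] :
    {v : Place K F | v.ord t ≠ 0}.Finite := by
  refine ((finite_setOf_ord_pos ht).union (finite_setOf_ord_neg ht)).subset ?_
  intro v hv
  have hv' : v.ord t ≠ 0 := hv
  rcases lt_or_gt_of_ne hv' with h | h
  · exact Or.inr h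
  · exact Or.inl h

variable [IsAlgClosed K]

/-- **Fundamental identity at the poles**: `∑_{v(t) < 0} ord_v(t) = -[F : K(t)]`. -/
theorem sum_ord_neg_eq_neg_finrank {t : F} (ht : Transcendental K t) [FiniteDimensional K⟮t⟯ F]
    (s : Finset (Place K F)) (hs : ∀ v, v ∈ s ↔ v.ord t < 0) :
    ∑ v ∈ s, v.ord t = -(Module.finrank K⟮t⟯ F : ℤ) := by
  have := finiteDimensional_adjoin_inv (K := K) t
  have h := sum_ord_eq_finrank (transcendental_inv ht) s (fun v => by
    rw [hs, v.ord_inv]
    omega)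
  rw [finrank_adjoin_inv] at h
  rw [← h, ← Finset.sum_neg_distrib]
  refine Finset.sum_congr rfl fun v _ => ?_
  rw [v.ord_inv, neg_neg]

/-- **Fundamental identity over the point `a`**: `∑_{v(t - a) > 0} ord_v(t - a) = [F : K(t)]`. -/
theorem sum_ord_sub_const_eq_finrank {t : F} (ht : Transcendental K t)
    [FiniteDimensional K⟮t⟯ F] (a : K)
    (s : Finset (Place K F)) (hs : ∀ v, v ∈ s ↔ 0 < v.ord (t - algebraMap K F a)) :
    ∑ v ∈ s, v.ord (t - algebraMap K F a) = (Module.finrank K⟮t⟯ F : ℤ) := by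
  have := finiteDimensional_adjoin_sub_const (K := K) t a
  have h := sum_ord_eq_finrank (transcendental_sub_const ht a) s hs
  rwa [finrank_adjoin_sub_const] at h

theorem degree_eq_sum (D : Divisor K F) :
    Divisor.degree D = ∑ v ∈ D.support, D v * (v.deg : ℤ) := by
  simp [Divisor.degree, Finsupp.sum]

/-- **FF3: a principal divisor has degree zero.** -/
theorem degree_principal (j : F) (hj : Transcendental K j) [FiniteDimensional K⟮j⟯ F]
    (f : F) (D : Divisor K F) (hD : ∀ v : Place K F, D v = v.ord f) :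
    Divisor.degree D = 0 := by
  by_cases hfr : f ∈ (algebraMap K F).range
  · obtain ⟨a, rfl⟩ := hfr
    have : D = 0 := by
      ext v
      rw [hD, _root_.Fermat.Agent.S24.FF.ord_algebraMap]
      rfl
    rw [this, map_zero]
  have hft : Transcendental K f := transcendental_of_not_mem_range hfr
  have hfin : FiniteDimensional K⟮f⟯ F := finiteDimensional_adjoin_of_transcendental hj hft
  classical
  rw [degree_eq_sum]
  have hsupp : ∀ v, v ∈ D.support ↔ v.ord f ≠ 0 := fun v => by
    rw [Finsupp.mem_support_iff, hD]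
  have h1 : ∑ v ∈ D.support, D v * (v.deg : ℤ) = ∑ v ∈ D.support, v.ord f := by
    refine Finset.sum_congr rfl fun v _ => ?_
    rw [hD, deg_eq_one v hj]
    simp
  rw [h1, ← Finset.sum_filter_add_sum_filter_not D.support (fun v => 0 < v.ord f)]
  have hP := sum_ord_eq_finrank hft (D.support.filter fun v => 0 < v.ord f) (fun v => by
    rw [Finset.mem_filter, hsupp]
    constructor
    · exact fun h => h.2
    · exact fun h => ⟨h.ne', h⟩)
  have hN := sum_ord_neg_eq_neg_finrank hft (D.support.filter fun v => ¬ 0 < v.ord f)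
    (fun v => by
      rw [Finset.mem_filter, hsupp]
      constructor
      · rintro ⟨h1, h2⟩
        omega
      · intro h
        exact ⟨h.ne, by omega⟩)
  rw [hP, hN]
  ring

end

end Fermat.Agent.S24.FF

namespace Fermat.Agent.S24.FF

open AlgebraicCurve

variable {K F : Type*} [Field K] [Field F] [Algebra K F] [IsAlgClosed K] [CharZero K]

/-- Exact shape of helper984's `open_fundamental_le` (`Alg/Open.lean`). -/
theorem fundamental_le (t : F) (ht : Transcendental K t)
    [FiniteDimensional ↥(IntermediateField.adjoin K {t}) F]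
    (s : Finset (Place K F)) (hs : ∀ v : Place K F, v ∈ s ↔ 0 < v.ord t) :
    (Module.finrank ↥(IntermediateField.adjoin K {t}) F : ℤ) ≤ ∑ v ∈ s, v.ord t :=
  (sum_ord_eq_finrank ht s hs).ge

/-- Exact shape of helper984's `open_degree_principal` (`Alg/Open.lean`). -/
theorem degree_principal' (j : F) (hj : Transcendental K j)
    [FiniteDimensional ↥(IntermediateField.adjoin K {j}) F] (f : F) (_hf : f ≠ 0)
    (D : Divisor K F) (hD : ∀ v : Place K F, D v = v.ord f) : Divisor.degree D = 0 :=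
  _root_.Fermat.Agent.S24.FF.degree_principal j hj f D hD

end Fermat.Agent.S24.FF

end
-- ===== PACK-END S24/FFDegree.lean

-- ===== PACK-BEGIN Lib/RR/H804/CharZero.lean
section



/-!
# RR library, bridge: `FF1 K F` for function fields over an algebraically closed field of
characteristic zero  (helper804)

From the Dedekind dictionary of `Fermat.Agent.S24.FF`: if `K` is algebraically closed of
characteristic zero and `F` is finite over `K(x)` for a transcendental `x`, then `F/K` satisfies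
the standing hypotheses `FF1 K F` of the RR library.
-/

set_option autoImplicit false

noncomputable section

open AlgebraicCurve IntermediateField

namespace Fermat.Agent.Lib.RR.H804

open Fermat.Agent.S24

variable {K F : Type*} [Field K] [Field F] [Algebra K F] [IsAlgClosed K] [CharZero K]

/-- Every function has finitely many zeros and poles. -/
theorem finite_setOf_ord_ne_zero {x : F} (hx : Transcendental K x) [FiniteDimensional K⟮x⟯ F]
    (f : F) : {v : Place K F | v.ord f ≠ 0}.Finite := by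
  by_cases hfr : f ∈ (algebraMap K F).range
  · obtain ⟨a, rfl⟩ := hfr
    convert Set.finite_empty
    ext v
    simp [FF.ord_algebraMap]
  · have hft : Transcendental K f := FF.transcendental_of_not_mem_range hfr
    have : FiniteDimensional K⟮f⟯ F := FF.finiteDimensional_adjoin_of_transcendental hx hft
    exact FF.finite_setOf_ord_ne_zero hft

/-- The divisor of a function. -/
def divOf {x : F} (hx : Transcendental K x) [FiniteDimensional K⟮x⟯ F] (f : F) :
    Divisor K F :=
  Finsupp.ofSupportFinite (fun v => v.ord f) (finite_setOf_ord_ne_zero hx f)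

@[simp] theorem divOf_apply {x : F} (hx : Transcendental K x) [FiniteDimensional K⟮x⟯ F]
    (f : F) (v : Place K F) : _root_.Fermat.Agent.Lib.RR.H804.divOf hx f v = v.ord f := rfl

theorem degree_divOf {x : F} (hx : Transcendental K x) [FiniteDimensional K⟮x⟯ F] (f : F) :
    Divisor.degree (_root_.Fermat.Agent.Lib.RR.H804.divOf hx f) = 0 :=
  FF.degree_principal x hx f _ (fun _ => rfl)

/-- Principal divisors exist and have degree zero. -/
theorem hasPrincipalDivisors {x : F} (hx : Transcendental K x) [FiniteDimensional K⟮x⟯ F] :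
    HasPrincipalDivisors K F :=
  ⟨fun f _ => ⟨_root_.Fermat.Agent.Lib.RR.H804.divOf hx f, fun _ => rfl, _root_.Fermat.Agent.Lib.RR.H804.degree_divOf hx f⟩⟩

/-- There is at least one place (a zero of `x`). -/
theorem nonempty_place {x : F} (hx : Transcendental K x) [FiniteDimensional K⟮x⟯ F] :
    Nonempty (Place K F) := by
  by_contra hne
  rw [not_nonempty_iff] at hne
  have h := FF.sum_ord_eq_finrank hx (∅ : Finset (Place K F)) (fun v => (hne.false v).elim)
  rw [Finset.sum_empty] at h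
  have hpos : 0 < Module.finrank K⟮x⟯ F := Module.finrank_pos
  omega

/-- There is a zero of `x - a` for every `a`. -/
theorem exists_place_ord_sub_pos {x : F} (hx : Transcendental K x) [FiniteDimensional K⟮x⟯ F]
    (a : K) : ∃ v : Place K F, 0 < v.ord (x - algebraMap K F a) := by
  by_contra hne
  rw [not_exists] at hne
  have h := FF.sum_ord_sub_const_eq_finrank hx a (∅ : Finset (Place K F))
    (fun v => ⟨fun h => (Finset.notMem_empty v h).elim, fun h => (hne v h).elim⟩)
  rw [Finset.sum_empty] at h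
  have hpos : 0 < Module.finrank K⟮x⟯ F := Module.finrank_pos
  omega

/-- There is a pole of `x`. -/
theorem exists_place_ord_neg {x : F} (hx : Transcendental K x) [FiniteDimensional K⟮x⟯ F] :
    ∃ v : Place K F, v.ord x < 0 := by
  by_contra hne
  rw [not_exists] at hne
  have h := FF.sum_ord_neg_eq_neg_finrank hx (∅ : Finset (Place K F))
    (fun v => ⟨fun h => (Finset.notMem_empty v h).elim, fun h => (hne v h).elim⟩)
  rw [Finset.sum_empty] at h
  have hpos : 0 < Module.finrank K⟮x⟯ F := Module.finrank_pos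
  omega

omit [CharZero K] in
/-- The residue field of every place is `K`. -/
theorem residue_bijective {x : F} (hx : Transcendental K x) [FiniteDimensional K⟮x⟯ F]
    (v : Place K F) : Function.Bijective (algebraMap K v.ResidueField) := by
  refine ⟨(algebraMap K v.ResidueField).injective, fun r => ?_⟩
  obtain ⟨f, rfl⟩ := IsLocalRing.residue_surjective r
  obtain ⟨a, ha⟩ := FF.exists_const_sub_mem_nonunits v hx f.2
  refine ⟨a, ?_⟩
  rw [IsScalarTower.algebraMap_apply K v.toValuationSubring v.ResidueField]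
  symm
  rw [IsLocalRing.ResidueField.algebraMap_eq, ← sub_eq_zero, ← map_sub,
    IsLocalRing.residue_eq_zero_iff]
  exact ValuationSubring.coe_mem_nonunits_iff.mp ha

omit [CharZero K] in
/-- Residue fields are finite over `K`. -/
theorem finite_residueField {x : F} (hx : Transcendental K x) [FiniteDimensional K⟮x⟯ F]
    (v : Place K F) : Module.Finite K v.ResidueField :=
  Module.Finite.of_surjective (Algebra.linearMap K v.ResidueField)
    (residue_bijective hx v).2

/-- **Bridge**: `FF1 K F` for `K` algebraically closed of characteristic zero. -/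
theorem ff1 {x : F} (hx : Transcendental K x) [FiniteDimensional K⟮x⟯ F] : FF1 K F where
  hpd := hasPrincipalDivisors hx
  deg_eq_one := fun v => FF.deg_eq_one v hx
  nonempty_place := nonempty_place hx
  exists_finite := ⟨x, hx, inferInstance⟩

end Fermat.Agent.Lib.RR.H804

end
end
-- ===== PACK-END Lib/RR/H804/CharZero.lean

-- ===== PACK-BEGIN S24/Alg/Open.lean
section



/-!
# S24 / ALG — the fundamental equality (FF1)

INTERFACE FILE (statement by helper984).  Proof: helper804's Dedekind dictionary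
(`Fermat.Agent.S24.FF.finite_setOf_ord_pos`, `Fermat.Agent.S24.FF.sum_ord_eq_finrank`).
-/

set_option autoImplicit false

noncomputable section

open AlgebraicCurve

namespace Fermat.Agent.S24

variable {K F : Type*} [Field K] [Field F] [Algebra K F] [IsAlgClosed K] [CharZero K]

/-- FF1 (fundamental equality): the zeros of a transcendental `t` are finite in number and
`∑_{v | t} ord_v t = [F : K(t)]`. -/
theorem open_fundamental_eq (t : F) (ht : Transcendental K t)
    [FiniteDimensional ↥(IntermediateField.adjoin K {t}) F] :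
    ∃ s : Finset (Place K F), (∀ v : Place K F, v ∈ s ↔ 0 < v.ord t) ∧
      ∑ v ∈ s, v.ord t = (Module.finrank ↥(IntermediateField.adjoin K {t}) F : ℤ) :=
  ⟨(FF.finite_setOf_ord_pos ht).toFinset, fun v => by simp,
    FF.sum_ord_eq_finrank ht _ (fun v => by simp)⟩

end Fermat.Agent.S24

end
end
-- ===== PACK-END S24/Alg/Open.lean

-- ===== PACK-BEGIN S24/Alg/Principal.lean
section





/-!
# S24 / ALG — principal divisors have degree zero (FF3), from the fundamental equality (FF1)

helper984.  `deg div f = ∑_{zeros} ord_v f - ∑_{poles} ord_v f⁻¹ = [F:K(f)] - [F:K(f⁻¹)] = 0`.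
-/

set_option autoImplicit false

noncomputable section

open AlgebraicCurve

namespace Fermat.Agent.S24

variable {K F : Type*} [Field K] [Field F] [Algebra K F]

theorem degree_eq_sum_of_deg_one' (hdeg : ∀ v : Place K F, v.deg = 1) (E : Divisor K F)
    (T : Finset (Place K F)) (hT : E.support ⊆ T) :
    Divisor.degree E = ∑ v ∈ T, E v := by
  have h1 : Divisor.degree E = E.sum fun v n => n * (v.deg : ℤ) := by
    simp [Divisor.degree, Finsupp.liftAddHom_apply]
  rw [h1, Finsupp.sum_of_support_subset E hT _ (fun v _ => by simp)]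
  refine Finset.sum_congr rfl fun v _ => ?_
  rw [hdeg v]; simp

variable [IsAlgClosed K] [CharZero K]

/-- FF1 in inequality form, for an arbitrary enumeration `s` of the zeros of `t`. -/
theorem fundamental_le (t : F) (ht : Transcendental K t)
    [FiniteDimensional ↥(IntermediateField.adjoin K {t}) F]
    (s : Finset (Place K F)) (hs : ∀ v : Place K F, v ∈ s ↔ 0 < v.ord t) :
    (Module.finrank ↥(IntermediateField.adjoin K {t}) F : ℤ) ≤ ∑ v ∈ s, v.ord t := by
  obtain ⟨s', hs', hsum⟩ := open_fundamental_eq t ht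
  have : s = s' := by
    ext v
    rw [hs, hs']
  rw [this, hsum]

/-- FF3: a principal divisor has degree zero. -/
theorem degree_principal (j : F) (hj : Transcendental K j)
    [FiniteDimensional ↥(IntermediateField.adjoin K {j}) F] (f : F) (hf : f ≠ 0)
    (D : Divisor K F) (hD : ∀ v : Place K F, D v = v.ord f) : Divisor.degree D = 0 := by
  classical
  by_cases hfK : f ∈ (algebraMap K F).range
  · -- constants have no zeros or poles
    obtain ⟨c, rfl⟩ := hfK
    have : D = 0 := by
      ext v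
      rw [hD, ord_algebraMap]
      rfl
    rw [this, map_zero]
  · have hft : Transcendental K f := FF.transcendental_of_not_mem_range hfK
    have hfit : Transcendental K f⁻¹ := by
      intro h
      exact hft (by simpa using h.inv)
    haveI : FiniteDimensional ↥(IntermediateField.adjoin K {f}) F :=
      FF.finiteDimensional_adjoin_of_transcendental hj hft
    obtain ⟨hfd, hfr⟩ := finiteDimensional_and_finrank_of_eq (adjoin_inv K f)
    obtain ⟨Z, hZ, hZsum⟩ := open_fundamental_eq f hft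
    obtain ⟨P, hP, hPsum⟩ := open_fundamental_eq f⁻¹ hfit
    have hdeg : ∀ v : Place K F, v.deg = 1 := fun v => FF.deg_eq_one v hj
    have hsupp : D.support ⊆ Z ∪ P := by
      intro v hv
      rw [Finsupp.mem_support_iff, hD] at hv
      rw [Finset.mem_union, hZ, hP, v.ord_inv]
      omega
    have hdisj : Disjoint Z P := by
      rw [Finset.disjoint_left]
      intro v hvZ hvP
      rw [hZ] at hvZ
      rw [hP, v.ord_inv] at hvP
      omega
    rw [degree_eq_sum_of_deg_one' hdeg D _ hsupp, Finset.sum_union hdisj]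
    have h1 : ∑ v ∈ Z, D v = ∑ v ∈ Z, v.ord f := Finset.sum_congr rfl fun v _ => hD v
    have h2 : ∑ v ∈ P, D v = -∑ v ∈ P, v.ord f⁻¹ := by
      rw [← Finset.sum_neg_distrib]
      refine Finset.sum_congr rfl fun v _ => ?_
      rw [hD, v.ord_inv, neg_neg]
    rw [h1, h2, hZsum, hPsum, hfr]
    ring

end Fermat.Agent.S24

end
end
-- ===== PACK-END S24/Alg/Principal.lean

-- ===== PACK-BEGIN S24/Alg/Sub.lean
section






/-!
# S24 / ALG — sub-interface (statements needed by the global assembly in `Alg.lean`)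

Adapters (helper984) from the FF layer (helper804), the KD layer (helper84) and the local
theorem (helper117) to the shapes used by the assembly.
-/

set_option autoImplicit false

noncomputable section

open AlgebraicCurve KaehlerDifferential

namespace Fermat.Agent.S24

variable {K F : Type*} [Field K] [Field F] [Algebra K F] [IsAlgClosed K] [CharZero K]
variable {C : Type*} [Field C] [CharZero C] {X : Type*} [Finite X]

/-- The places of `F/K` at which `t` vanishes. -/
def zeroPlaces (K : Type*) {F : Type*} [Field K] [Field F] [Algebra K F] (t : F) :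
    Set (Place K F) := {v | 0 < v.ord t}

/-! ### FF (function-field generalities) -/

omit [CharZero K] in
/-- FF2: all places have degree one. -/
theorem sub_deg_eq_one (j : F) (hj : Transcendental K j)
    [FiniteDimensional ↥(IntermediateField.adjoin K {j}) F] (v : Place K F) : v.deg = 1 :=
  FF.deg_eq_one v hj

/-- FF3: a principal divisor has degree zero. -/
theorem sub_degree_principal (j : F) (hj : Transcendental K j)
    [FiniteDimensional ↥(IntermediateField.adjoin K {j}) F] (f : F) (hf : f ≠ 0)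
    (D : Divisor K F) (hD : ∀ v : Place K F, D v = v.ord f) : Divisor.degree D = 0 :=
  degree_principal j hj f hf D hD

omit [CharZero K] in
/-- FF4: every place lies over a point of `ℙ¹_j`. -/
theorem sub_exists_point (j : F)
    [FiniteDimensional ↥(IntermediateField.adjoin K {j}) F] (v : Place K F) :
    v.ord j < 0 ∨ ∃ a : K, 0 < v.ord (j - algebraMap K F a) := by
  rcases lt_or_ge (v.ord j) 0 with h | h
  · exact Or.inl h
  · haveI : Algebra.IsAlgebraic ↥(IntermediateField.adjoin K {j}) F :=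
      Algebra.IsAlgebraic.of_finite _ _
    exact Or.inr (FF.exists_ord_sub_pos v j h)

/-! ### KD (Kähler differentials) -/

omit [IsAlgClosed K] in
/-- KD1: `Ω[F/K]` is spanned by `D j`. -/
theorem sub_exists_smul_D (j : F)
    [FiniteDimensional ↥(IntermediateField.adjoin K {j}) F] (ω : Ω[F⁄K]) :
    ∃ f : F, ω = f • D K F j := by
  haveI : Algebra.IsAlgebraic ↥(IntermediateField.adjoin K {j}) F :=
    Algebra.IsAlgebraic.of_finite _ _
  have h : ω ∈ Submodule.span F {D K F j} := by
    rw [H84.span_D_eq_top j]; exact Submodule.mem_top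
  obtain ⟨f, hf⟩ := Submodule.mem_span_singleton.mp h
  exact ⟨f, hf.symm⟩

/-- KD2: `ordDifferential` is additive in the coefficient. -/
theorem sub_ordDifferential_smul (j : F)
    [FiniteDimensional ↥(IntermediateField.adjoin K {j}) F] (v : Place K F)
    (f : F) (hf : f ≠ 0) (ω : Ω[F⁄K]) (hω : ω ≠ 0) :
    v.ordDifferential (f • ω) = v.ord f + v.ordDifferential ω := by
  haveI : v.DCoordGenerates := H84.place_dCoordGenerates j v
  haveI : Nontrivial Ω[F⁄K] := ⟨⟨ω, 0, hω⟩⟩
  refine v.ordDifferential_smul hf ?_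
  intro h0
  apply hω
  rw [← v.differentialCoeff_smul_dCoord ω, h0, zero_smul]

/-! ### LT (local theorem) -/

/-- LT: the places over the zero of `t` are finite in number, in bijection with the orbits of
`perm`, and the ramification indices add up to the degree. -/
theorem sub_local_count (t : F)
    [FiniteDimensional ↥(IntermediateField.adjoin K {t}) F]
    (hrank : Module.finrank ↥(IntermediateField.adjoin K {t}) F = Nat.card X)
    (d : LocalData K F C X t) :
    (zeroPlaces K t).Finite ∧ Nat.card ↥(zeroPlaces K t) = numOrbits d.perm ∧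
      ∑ᶠ v ∈ zeroPlaces K t, v.ord t = (Nat.card X : ℤ) := by
  classical
  have hfin : (zeroPlaces K t).Finite :=
    H117.finite_places_over d (IntermediateField.adjoin K {t}) le_rfl hrank
  have hs : ∀ v : Place K F, v ∈ hfin.toFinset ↔ 0 < v.ord t := fun v => by
    simp [zeroPlaces]
  have ht : Transcendental K t := by
    have hpos : 0 < Nat.card X := hrank ▸ Module.finrank_pos
    obtain ⟨x⟩ := (Nat.card_pos_iff.mp hpos).1
    refine FF.transcendental_of_not_mem_range ?_
    rintro ⟨c, hc⟩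
    have h1 := d.σ_t_order x
    have h3 : d.σ x t = HahnSeries.C (d.ι c) := by rw [← d.σ_const x c, hc]
    rw [h3] at h1
    have h2 : (HahnSeries.C (d.ι c) : LaurentSeries C).order = 0 := by
      rw [HahnSeries.C_apply]
      by_cases h0 : d.ι c = 0
      · simp [h0]
      · exact HahnSeries.order_single h0
    rw [h2] at h1
    have := d.m_pos
    omega
  have hle : (Nat.card X : ℤ) ≤ ∑ v ∈ hfin.toFinset, v.ord t := by
    rw [← hrank]
    exact fundamental_le t ht hfin.toFinset hs
  obtain ⟨h1, -, h3⟩ :=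
    H117.localThm d (IntermediateField.adjoin K {t}) le_rfl hrank hfin.toFinset hs hle
  refine ⟨hfin, ?_, ?_⟩
  · rw [Nat.card_coe_set_eq, Set.ncard_eq_toFinset_card _ hfin]
    exact h1
  · rw [finsum_mem_eq_finite_toFinset_sum _ hfin]
    exact h3

/-- LT + KD4: order of `dt` at a zero of `t`. -/
theorem sub_ordDifferential_D (t : F)
    [FiniteDimensional ↥(IntermediateField.adjoin K {t}) F]
    (hrank : Module.finrank ↥(IntermediateField.adjoin K {t}) F = Nat.card X)
    (d : LocalData K F C X t) (v : Place K F) (hv : 0 < v.ord t) :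
    v.ordDifferential (D K F t) = v.ord t - 1 := by
  obtain ⟨x, rfl⟩ :=
    H117.exists_placeOf_eq d (IntermediateField.adjoin K {t}) le_rfl hrank v hv
  haveI : (H117.placeOf d x).DCoordGenerates := H84.place_dCoordGenerates t _
  exact H84.place_ordDifferential_D_of_ord_ne_zero (H117.placeOf d x) (d.σ x) d.ι (d.σ_const x)
    (H117.mult d x) (H117.mult_pos d x) (fun f _ => H117.order_eq d x f) t hv.ne'

end Fermat.Agent.S24

end
end
-- ===== PACK-END S24/Alg/Sub.lean

-- ===== PACK-BEGIN S24/H624/Laurent.lean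
section


/-!
# Laurent expansion of quotients of holomorphic functions; `SL(2, ℤ)`-action and the
leading-coefficient form of the rotation lemma

`MerH := FractionRing holoRing` is the field of quotients of holomorphic functions on `ℍ`.
`laurentAt τ : MerH →+* LaurentSeries ℂ` is the (injective) Laurent expansion at `τ` in the
coordinate `z - τ`.
-/

set_option autoImplicit false

namespace Fermat.Agent.S24.H624

open UpperHalfPlane Complex
open scoped Manifold Topology MatrixGroups

/-! ### order and leading coefficient of a power series viewed as a Laurent series -/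

section PowerSeriesCoe

variable {R : Type*} [CommRing R]

theorem coeff_ofPowerSeries_nat (φ : PowerSeries R) (n : ℕ) :
    (HahnSeries.ofPowerSeries ℤ R φ).coeff (n : ℤ) = PowerSeries.coeff n φ := by
  simp

theorem coeff_ofPowerSeries_neg (φ : PowerSeries R) {i : ℤ} (hi : i < 0) :
    (HahnSeries.ofPowerSeries ℤ R φ).coeff i = 0 := by
  have := PowerSeries.coeff_coe (R := R) (f := φ) i
  rw [if_pos hi] at this
  exact this

theorem order_ofPowerSeries {φ : PowerSeries R} {n : ℕ} (hn : φ.order = n) :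
    (HahnSeries.ofPowerSeries ℤ R φ).order = (n : ℤ) := by
  have hφn : PowerSeries.coeff n φ ≠ 0 := ((PowerSeries.order_eq_nat).mp hn).1
  have hlt : ∀ i < n, PowerSeries.coeff i φ = 0 := ((PowerSeries.order_eq_nat).mp hn).2
  set x := HahnSeries.ofPowerSeries ℤ R φ with hx
  have hxn : x.coeff (n : ℤ) ≠ 0 := by rw [hx, coeff_ofPowerSeries_nat]; exact hφn
  have hx0 : x ≠ 0 := fun h => hxn (by rw [h]; rfl)
  have hle : x.order ≤ n := HahnSeries.order_le_of_coeff_ne_zero hxn
  have hco : x.coeff x.order ≠ 0 := fun h => hx0 (HahnSeries.coeff_order_eq_zero.mp h)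
  have hnn : 0 ≤ x.order := by
    by_contra hneg
    exact hco (coeff_ofPowerSeries_neg φ (not_le.mp hneg))
  obtain ⟨k, hk⟩ := Int.eq_ofNat_of_zero_le hnn
  rw [hk, coeff_ofPowerSeries_nat] at hco
  have hkn : n ≤ k := by
    by_contra hlt'
    exact hco (hlt k (not_le.mp hlt'))
  rw [hk] at hle ⊢
  have : (k : ℤ) ≤ n := hle
  omega

theorem leadingCoeff_ofPowerSeries {φ : PowerSeries R} {n : ℕ} (hn : φ.order = n) :
    (HahnSeries.ofPowerSeries ℤ R φ).leadingCoeff = PowerSeries.coeff n φ := by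
  rw [HahnSeries.leadingCoeff_eq, order_ofPowerSeries hn, coeff_ofPowerSeries_nat]

end PowerSeriesCoe

/-! ### transfer of order / leading coefficient relations to the fraction field -/

section Transfer

variable {A : Type*} [CommRing A] [IsDomain A] {K : Type*} [Field K] [Algebra A K]
  [IsFractionRing A K] {C : Type*} [Field C]

theorem order_div_of_ne_zero {x y : LaurentSeries C} (hx : x ≠ 0) (hy : y ≠ 0) :
    (x / y).order = x.order - y.order := by
  have hxy : x / y ≠ 0 := div_ne_zero hx hy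
  have h := HahnSeries.order_mul hxy hy
  rw [div_mul_cancel₀ x hy] at h
  omega

theorem leadingCoeff_div_of_ne_zero {x y : LaurentSeries C} (hy : y ≠ 0) :
    (x / y).leadingCoeff = x.leadingCoeff / y.leadingCoeff := by
  have h := HahnSeries.leadingCoeff_mul (x / y) y
  rw [div_mul_cancel₀ x hy] at h
  rw [h, mul_div_assoc, div_self (HahnSeries.leadingCoeff_ne_zero.mpr hy), mul_one]

/-- If two embeddings `φ ψ : K → C((z))` of a fraction field satisfy
`ord (φ a) = ord (ψ a)` and `lc (φ a) = ζ ^ ord (ψ a) * lc (ψ a)` on the ring `A`, they do so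
on all of `K`. -/
theorem order_leadingCoeff_transfer (φ ψ : K →+* LaurentSeries C) (ζ : C) (hζ : ζ ≠ 0)
    (h : ∀ a : A, a ≠ 0 → (φ (algebraMap A K a)).order = (ψ (algebraMap A K a)).order ∧
      (φ (algebraMap A K a)).leadingCoeff
        = ζ ^ (ψ (algebraMap A K a)).order * (ψ (algebraMap A K a)).leadingCoeff)
    (x : K) :
    (φ x).order = (ψ x).order ∧
      (φ x).leadingCoeff = ζ ^ (ψ x).order * (ψ x).leadingCoeff := by
  obtain ⟨a, b, hb, rfl⟩ := IsFractionRing.div_surjective (A := A) x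
  have hb0 : b ≠ 0 := nonZeroDivisors.ne_zero hb
  have hbK : algebraMap A K b ≠ 0 := by
    intro h0
    exact hb0 ((IsFractionRing.injective A K) (by rw [h0, map_zero]))
  by_cases ha0 : a = 0
  · subst ha0
    simp
  have haK : algebraMap A K a ≠ 0 := by
    intro h0
    exact ha0 ((IsFractionRing.injective A K) (by rw [h0, map_zero]))
  have hφa : φ (algebraMap A K a) ≠ 0 := (map_ne_zero φ).mpr haK
  have hφb : φ (algebraMap A K b) ≠ 0 := (map_ne_zero φ).mpr hbK
  have hψa : ψ (algebraMap A K a) ≠ 0 := (map_ne_zero ψ).mpr haK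
  have hψb : ψ (algebraMap A K b) ≠ 0 := (map_ne_zero ψ).mpr hbK
  obtain ⟨ha1, ha2⟩ := h a ha0
  obtain ⟨hb1, hb2⟩ := h b hb0
  rw [map_div₀, map_div₀, order_div_of_ne_zero hφa hφb, order_div_of_ne_zero hψa hψb,
    leadingCoeff_div_of_ne_zero hφb, leadingCoeff_div_of_ne_zero hψb, ha1, hb1, ha2, hb2]
  refine ⟨rfl, ?_⟩
  rw [zpow_sub₀ hζ]
  have h1 : ζ ^ (ψ (algebraMap A K b)).order ≠ 0 := zpow_ne_zero _ hζ
  have h2 : (ψ (algebraMap A K b)).leadingCoeff ≠ 0 := HahnSeries.leadingCoeff_ne_zero.mpr hψb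
  field_simp

end Transfer

/-! ### the field `MerH` and its Laurent expansions -/

/-- The field of quotients of holomorphic functions on the upper half-plane. -/
abbrev MerH : Type := FractionRing holoRing

/-- Taylor expansion at `τ` as a ring hom into Laurent series. -/
noncomputable def taylorLaurent (τ : ℍ) : holoRing →+* LaurentSeries ℂ :=
  (HahnSeries.ofPowerSeries ℤ ℂ).comp (taylorAt τ : holoRing →+* PowerSeries ℂ)

theorem taylorLaurent_apply (τ : ℍ) (f : holoRing) :
    taylorLaurent τ f = HahnSeries.ofPowerSeries ℤ ℂ (taylorAt τ f) := rfl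

theorem taylorLaurent_injective (τ : ℍ) : Function.Injective (taylorLaurent τ) := by
  intro f g h
  exact taylorAt_injective τ (HahnSeries.ofPowerSeries_injective h)

/-- Laurent expansion at `τ` (coordinate `z - τ`) of a quotient of holomorphic functions. -/
noncomputable def laurentAt (τ : ℍ) : MerH →+* LaurentSeries ℂ :=
  IsFractionRing.lift (taylorLaurent_injective τ)

@[simp]
theorem laurentAt_algebraMap (τ : ℍ) (f : holoRing) :
    laurentAt τ (algebraMap holoRing MerH f) = HahnSeries.ofPowerSeries ℤ ℂ (taylorAt τ f) :=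
  IsFractionRing.lift_algebraMap (taylorLaurent_injective τ) f

theorem laurentAt_injective (τ : ℍ) : Function.Injective (laurentAt τ) :=
  (laurentAt τ).injective

theorem laurentAt_const (τ : ℍ) (c : ℂ) :
    laurentAt τ (algebraMap holoRing MerH (algebraMap ℂ holoRing c)) = HahnSeries.C c := by
  rw [laurentAt_algebraMap, AlgHom.commutes, PowerSeries.algebraMap_apply,
    Algebra.algebraMap_self, RingHom.id_apply, HahnSeries.ofPowerSeries_C]

theorem order_laurentAt_algebraMap (τ : ℍ) {f : holoRing} (hf : f ≠ 0) :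
    (laurentAt τ (algebraMap holoRing MerH f)).order = ((ordAt τ (f : ℍ → ℂ)).toNat : ℤ) := by
  rw [laurentAt_algebraMap]
  refine order_ofPowerSeries ?_
  rw [order_taylorAt, ENat.natCast_toNat (ordAt_ne_top f.2 (fun h => hf (Subtype.ext h)) τ)]

theorem leadingCoeff_laurentAt_algebraMap (τ : ℍ) {f : holoRing} (hf : f ≠ 0) :
    (laurentAt τ (algebraMap holoRing MerH f)).leadingCoeff
      = taylorCoeff τ (f : ℍ → ℂ) (ordAt τ (f : ℍ → ℂ)).toNat := by
  rw [laurentAt_algebraMap, leadingCoeff_ofPowerSeries (n := (ordAt τ (f : ℍ → ℂ)).toNat),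
    coeff_taylorAt]
  rw [order_taylorAt, ENat.natCast_toNat (ordAt_ne_top f.2 (fun h => hf (Subtype.ext h)) τ)]

/-! ### the `SL(2, ℤ)`-action on `MerH` -/

/-- The action of `SL(2, ℤ)` on `MerH` extending `(γ • f) τ = f (γ⁻¹ • τ)`. -/
noncomputable instance instMulSemiringActionMerH : MulSemiringAction SL(2, ℤ) MerH :=
  IsFractionRing.mulSemiringAction SL(2, ℤ) holoRing MerH

theorem smul_algebraMap_MerH (γ : SL(2, ℤ)) (f : holoRing) :
    γ • algebraMap holoRing MerH f = algebraMap holoRing MerH (γ • f) :=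
  IsFractionRing.ringEquivOfRingEquiv_algebraMap (MulSemiringAction.toRingEquiv SL(2, ℤ) holoRing γ) f

/-- The ring automorphism of `MerH` given by `γ`. -/
noncomputable def merSL (γ : SL(2, ℤ)) : MerH ≃+* MerH :=
  MulSemiringAction.toRingEquiv SL(2, ℤ) MerH γ

@[simp]
theorem merSL_apply (γ : SL(2, ℤ)) (F : MerH) : merSL γ F = γ • F := rfl

/-- **Rotation lemma, order + leading coefficient form**, on `MerH`. -/
theorem laurentAt_smul (γ : SL(2, ℤ)) (τ : ℍ) (F : MerH) :
    (laurentAt τ (γ • F)).order = (laurentAt (γ⁻¹ • τ) F).order ∧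
    (laurentAt τ (γ • F)).leadingCoeff
      = (1 / denom ((γ⁻¹ : SL(2, ℤ)) : GL (Fin 2) ℝ) (τ : ℂ) ^ 2) ^ (laurentAt (γ⁻¹ • τ) F).order
        * (laurentAt (γ⁻¹ • τ) F).leadingCoeff := by
  have hd : denom ((γ⁻¹ : SL(2, ℤ)) : GL (Fin 2) ℝ) (τ : ℂ) ≠ 0 := denom_ne_zero _ τ
  have hζ : (1 / denom ((γ⁻¹ : SL(2, ℤ)) : GL (Fin 2) ℝ) (τ : ℂ) ^ 2) ≠ 0 :=
    one_div_ne_zero (pow_ne_zero _ hd)
  refine order_leadingCoeff_transfer (A := holoRing)
    ((laurentAt τ).comp (merSL γ : MerH →+* MerH)) (laurentAt (γ⁻¹ • τ)) _ hζ ?_ F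
  intro f hf
  have hγf : γ • f ≠ 0 := by
    intro h
    apply hf
    have := congrArg (fun g => γ⁻¹ • g) h
    simpa using this
  have hord : ordAt τ ((γ • f : holoRing) : ℍ → ℂ) = ordAt (γ⁻¹ • τ) (f : ℍ → ℂ) := by
    have := ordAt_smul_holoRing γ f (γ⁻¹ • τ)
    rwa [smul_inv_smul] at this
  have hne := ordAt_ne_top f.2 (fun h => hf (Subtype.ext h)) (γ⁻¹ • τ)
  simp only [RingHom.coe_comp, RingHom.coe_coe, Function.comp_apply, merSL_apply]
  rw [smul_algebraMap_MerH, order_laurentAt_algebraMap τ hγf,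
    order_laurentAt_algebraMap _ hf, leadingCoeff_laurentAt_algebraMap τ hγf,
    leadingCoeff_laurentAt_algebraMap _ hf, hord]
  refine ⟨rfl, ?_⟩
  rw [zpow_natCast]
  exact taylorCoeff_smul_holoRing γ f τ (ENat.natCast_toNat hne).symm

theorem order_laurentAt_smul (γ : SL(2, ℤ)) (τ : ℍ) (F : MerH) :
    (laurentAt τ (γ • F)).order = (laurentAt (γ⁻¹ • τ) F).order :=
  (laurentAt_smul γ τ F).1

theorem leadingCoeff_laurentAt_smul (γ : SL(2, ℤ)) (τ : ℍ) (F : MerH) :
    (laurentAt τ (γ • F)).leadingCoeff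
      = (1 / denom ((γ⁻¹ : SL(2, ℤ)) : GL (Fin 2) ℝ) (τ : ℂ) ^ 2) ^ (laurentAt (γ⁻¹ • τ) F).order
        * (laurentAt (γ⁻¹ • τ) F).leadingCoeff :=
  (laurentAt_smul γ τ F).2

/-- Fixed-point version, in exactly the shape of the `LocalData` fields
`σ_perm_order` / `σ_perm_leadingCoeff`. -/
theorem laurentAt_smul_of_fixed {γ : SL(2, ℤ)} {τ : ℍ} (hτ : γ • τ = τ) (F : MerH) :
    (laurentAt τ (γ • F)).order = (laurentAt τ F).order ∧
    (laurentAt τ (γ • F)).leadingCoeff
      = (1 / denom ((γ⁻¹ : SL(2, ℤ)) : GL (Fin 2) ℝ) (τ : ℂ) ^ 2) ^ (laurentAt τ F).order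
        * (laurentAt τ F).leadingCoeff := by
  have h := laurentAt_smul γ τ F
  have hfix : γ⁻¹ • τ = τ := by
    rw [inv_smul_eq_iff, hτ]
  rwa [hfix] at h

end Fermat.Agent.S24.H624

end
-- ===== PACK-END S24/H624/Laurent.lean

-- ===== PACK-BEGIN S24/H624/Elliptic.lean
section


/-!
# Elliptic fixed points: the rotation factor is a primitive 2nd / 3rd root of unity
-/

set_option autoImplicit false

namespace Fermat.Agent.S24.H624

open UpperHalfPlane Complex
open scoped Manifold Topology MatrixGroups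

/-- The factor by which `γ` rotates leading coefficients at `τ`
(the derivative of `z ↦ γ⁻¹ • z` at `τ`). -/
noncomputable def rotFactor (γ : SL(2, ℤ)) (τ : ℍ) : ℂ :=
  1 / denom ((γ⁻¹ : SL(2, ℤ)) : GL (Fin 2) ℝ) (τ : ℂ) ^ 2

theorem rotFactor_def (γ : SL(2, ℤ)) (τ : ℍ) :
    rotFactor γ τ = 1 / denom ((γ⁻¹ : SL(2, ℤ)) : GL (Fin 2) ℝ) (τ : ℂ) ^ 2 := rfl

theorem rotFactor_ne_zero (γ : SL(2, ℤ)) (τ : ℍ) : rotFactor γ τ ≠ 0 :=
  one_div_ne_zero (pow_ne_zero _ (denom_ne_zero _ τ))

/-- `LocalData`-shaped statement with `rotFactor`. -/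
theorem laurentAt_smul_fixed_rotFactor {γ : SL(2, ℤ)} {τ : ℍ} (hτ : γ • τ = τ) (F : MerH) :
    (laurentAt τ (γ • F)).order = (laurentAt τ F).order ∧
    (laurentAt τ (γ • F)).leadingCoeff
      = rotFactor γ τ ^ (laurentAt τ F).order * (laurentAt τ F).leadingCoeff :=
  laurentAt_smul_of_fixed hτ F

theorem trace_inv_SL (γ : SL(2, ℤ)) : (γ⁻¹) 0 0 + (γ⁻¹) 1 1 = γ 0 0 + γ 1 1 := by
  rw [Matrix.SpecialLinearGroup.coe_inv, Matrix.adjugate_fin_two]
  simp
  ring

theorem inv_smul_of_fixed {γ : SL(2, ℤ)} {τ : ℍ} (hτ : γ • τ = τ) : γ⁻¹ • τ = τ := by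
  rw [inv_smul_eq_iff, hτ]

theorem rotFactor_eq_neg_one {γ : SL(2, ℤ)} {τ : ℍ} (hτ : γ • τ = τ)
    (htr : γ 0 0 + γ 1 1 = 0) : rotFactor γ τ = -1 := by
  have h2 := denom_sq_eq_of_fixed (inv_smul_of_fixed hτ)
  rw [trace_inv_SL, htr] at h2
  simp only [Int.cast_zero, zero_mul, zero_sub] at h2
  rw [rotFactor_def, h2]
  norm_num

theorem isPrimitiveRoot_rotFactor_two {γ : SL(2, ℤ)} {τ : ℍ} (hτ : γ • τ = τ)
    (htr : γ 0 0 + γ 1 1 = 0) : IsPrimitiveRoot (rotFactor γ τ) 2 := by
  rw [rotFactor_eq_neg_one hτ htr]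
  exact IsPrimitiveRoot.neg_one 0 (by norm_num)

theorem isPrimitiveRoot_three_of_root {μ : ℂ} (hμ : μ ^ 2 + μ + 1 = 0) : IsPrimitiveRoot μ 3 := by
  have h3 : μ ^ 3 = 1 := by linear_combination (μ - 1) * hμ
  refine IsPrimitiveRoot.mk_of_lt μ (by norm_num) h3 ?_
  intro l hl0 hl3 hl
  have : 3 ∣ l := three_dvd_of_root hμ hl
  omega

theorem isPrimitiveRoot_rotFactor_three {γ : SL(2, ℤ)} {τ : ℍ} (hτ : γ • τ = τ)
    (htr : γ 0 0 + γ 1 1 = 1 ∨ γ 0 0 + γ 1 1 = -1) : IsPrimitiveRoot (rotFactor γ τ) 3 := by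
  have h2 := denom_sq_eq_of_fixed (inv_smul_of_fixed hτ)
  rw [trace_inv_SL] at h2
  set lam := denom ((γ⁻¹ : SL(2, ℤ)) : GL (Fin 2) ℝ) (τ : ℂ) with hlam
  have hlam0 : lam ≠ 0 := denom_ne_zero _ τ
  have hμ : (lam ^ 2) ^ 2 + lam ^ 2 + 1 = 0 := by
    rcases htr with htr | htr
    · rw [htr] at h2
      simp only [Int.cast_one, one_mul] at h2
      linear_combination (lam ^ 2 + lam + 1) * h2
    · rw [htr] at h2
      simp only [Int.cast_neg, Int.cast_one, neg_mul, one_mul] at h2
      linear_combination (lam ^ 2 - lam + 1) * h2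
  apply isPrimitiveRoot_three_of_root
  rw [rotFactor_def, ← hlam]
  have h4 : (lam ^ 2) ≠ 0 := pow_ne_zero _ hlam0
  field_simp
  linear_combination hμ

theorem S_smul_I : ModularGroup.S • UpperHalfPlane.I = UpperHalfPlane.I := by
  rw [modular_S_smul]
  ext
  simp [UpperHalfPlane.coe_I, Complex.inv_I]

theorem trace_S : (ModularGroup.S : SL(2, ℤ)) 0 0 + (ModularGroup.S : SL(2, ℤ)) 1 1 = 0 := by
  decide

theorem trace_ST :
    (ModularGroup.S * ModularGroup.T : SL(2, ℤ)) 0 0
      + (ModularGroup.S * ModularGroup.T : SL(2, ℤ)) 1 1 = 1 := by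
  decide

/-- The point `ρ = -1/2 + (√3/2) i`. -/
noncomputable def rhoH : ℍ :=
  ⟨⟨-1 / 2, Real.sqrt 3 / 2⟩, by
    show (0 : ℝ) < Real.sqrt 3 / 2
    positivity⟩

theorem rhoH_coe : (rhoH : ℂ) = ⟨-1 / 2, Real.sqrt 3 / 2⟩ := rfl

theorem rhoH_sq : (rhoH : ℂ) ^ 2 + (rhoH : ℂ) + 1 = 0 := by
  have h3 : Real.sqrt 3 * Real.sqrt 3 = 3 := Real.mul_self_sqrt (by norm_num)
  rw [rhoH_coe]
  apply Complex.ext
  · simp [pow_two]
    nlinarith
  · simp [pow_two]
    ring

theorem ST_smul_rhoH : (ModularGroup.S * ModularGroup.T) • rhoH = rhoH := by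
  apply UpperHalfPlane.ext
  rw [coe_specialLinearGroup_apply]
  have h := rhoH_sq
  have hne : (rhoH : ℂ) + 1 ≠ 0 := by
    intro h0
    have : (rhoH : ℂ) = -1 := by linear_combination h0
    rw [this] at h
    norm_num at h
  have e00 : (ModularGroup.S * ModularGroup.T : SL(2, ℤ)) 0 0 = 0 := by decide
  have e01 : (ModularGroup.S * ModularGroup.T : SL(2, ℤ)) 0 1 = -1 := by decide
  have e10 : (ModularGroup.S * ModularGroup.T : SL(2, ℤ)) 1 0 = 1 := by decide
  have e11 : (ModularGroup.S * ModularGroup.T : SL(2, ℤ)) 1 1 = 1 := by decide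
  rw [e00, e01, e10, e11]
  simp only [algebraMap_int_eq, Int.coe_castRingHom, Int.cast_zero, Complex.ofReal_zero,
    zero_mul, Int.cast_neg, Int.cast_one, Complex.ofReal_neg, Complex.ofReal_one, zero_add,
    one_mul]
  rw [div_eq_iff hne]
  linear_combination -h

theorem isPrimitiveRoot_rotFactor_S :
    IsPrimitiveRoot (rotFactor ModularGroup.S UpperHalfPlane.I) 2 :=
  isPrimitiveRoot_rotFactor_two S_smul_I trace_S

theorem isPrimitiveRoot_rotFactor_ST :
    IsPrimitiveRoot (rotFactor (ModularGroup.S * ModularGroup.T) rhoH) 3 :=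
  isPrimitiveRoot_rotFactor_three ST_smul_rhoH (Or.inl trace_ST)

end Fermat.Agent.S24.H624

end
-- ===== PACK-END S24/H624/Elliptic.lean

-- ===== PACK-BEGIN S24/Mod/H997Taylor.lean
section




/-!
# S24 / MOD — the finite-point data of `AnalyticCore` from Taylor expansions

For a `HolBase N` whose ring `Hol` consists of holomorphic functions and whose `J 1` is the
`j`-function, the three `PointData` fields of `AnalyticCore` are constructed from
helper624's Taylor/rotation package (`H624`) and helper47's local orders of `j` (`M7.H47`).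
-/

set_option autoImplicit false

noncomputable section

open ModularCurve HahnSeries UpperHalfPlane ModularForm EisensteinSeries
open scoped MatrixGroups Manifold

namespace Fermat.Agent.S24.H997

open Fermat.Agent.S24.H624 Fermat.Agent.S20.L1 Fermat.Agent.S24.M7.H47

variable {N : ℕ} [NeZero N]

/-- `Hol` consists of holomorphic functions and `J 1` is the `j`-function. -/
structure HolBase.IsHolo (B : HolBase N) : Prop where
  mdiff : ∀ f ∈ B.Hol, f ∈ holoRing
  J_one : B.J 1 = jFun

namespace HolBase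

variable (B : HolBase N) (hB : B.IsHolo)

/-- the inclusion `Hol → holoRing` -/
def toHolo : B.Hol →+* holoRing where
  toFun h := ⟨h.1, hB.mdiff h.1 h.2⟩
  map_one' := rfl
  map_mul' _ _ := rfl
  map_zero' := rfl
  map_add' _ _ := rfl

theorem toHolo_injective : Function.Injective (B.toHolo hB) := by
  intro x y h
  exact Subtype.ext (congrArg (fun f : holoRing => (f : ℍ → ℂ)) h)

theorem toHolo_compH (ε : SL(2, ℤ)) (h : B.Hol) :
    B.toHolo hB (B.compH ε h) = ε⁻¹ • B.toHolo hB h := by
  apply Subtype.ext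
  funext τ
  rw [smul_holoRing_apply, inv_inv]
  rfl

/-- the Taylor expansion at `τ₀` as an `Expansion` -/
def taylorExpansion (τ₀ : ℍ) : Expansion B where
  E := (taylorLaurent τ₀).comp (B.toHolo hB)
  inj := (taylorLaurent_injective τ₀).comp (B.toHolo_injective hB)
  const c := by
    show HahnSeries.ofPowerSeries ℤ ℂ (taylorAt τ₀ (B.toHolo hB (B.constH c))) = HahnSeries.C c
    have : B.toHolo hB (B.constH c) = algebraMap ℂ holoRing c := rfl
    rw [this, AlgHom.commutes, PowerSeries.algebraMap_apply, Algebra.algebraMap_self,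
      RingHom.id_apply, HahnSeries.ofPowerSeries_C]

theorem taylorExpansion_E (τ₀ : ℍ) (h : B.Hol) :
    (B.taylorExpansion hB τ₀).E h
      = laurentAt τ₀ (algebraMap holoRing MerH (B.toHolo hB h)) :=
  (laurentAt_algebraMap τ₀ _).symm

/-- rotation data at a fixed point -/
def taylorRot {τ₀ : ℍ} {ε : SL(2, ℤ)} (hε : ε • τ₀ = τ₀) (m : ℕ) (hm : 0 < m)
    (hζ : IsPrimitiveRoot (rotFactor ε⁻¹ τ₀) m) :
    RotData B (B.taylorExpansion hB τ₀) ε where
  m := m
  m_pos := hm
  ζ := rotFactor ε⁻¹ τ₀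
  hζ := hζ
  rot h := by
    have hfix : ε⁻¹ • τ₀ = τ₀ := inv_smul_of_fixed hε
    rw [taylorExpansion_E, taylorExpansion_E, toHolo_compH, ← smul_algebraMap_MerH]
    exact laurentAt_smul_fixed_rotFactor hfix _

/-- trivial rotation data -/
def trivialRot (X : Expansion B) : RotData B X 1 where
  m := 1
  m_pos := one_pos
  ζ := 1
  hζ := IsPrimitiveRoot.one
  rot h := by
    rw [B.compH_one]
    exact ⟨rfl, by simp⟩

theorem taylor_order_J (τ₀ : ℍ) (a : ℂ) (ha : jFun τ₀ = a) (m : ℕ)
    (hord : analyticOrderAt (fun w : ℂ => jFun (ofComplex w) - jFun τ₀) (τ₀ : ℂ) = m) :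
    ((B.taylorExpansion hB τ₀).E (B.JH 1 (one_dvd N) - B.constH a)).order = (m : ℤ) := by
  show (HahnSeries.ofPowerSeries ℤ ℂ (taylorAt τ₀ (B.toHolo hB _))).order = _
  apply order_ofPowerSeries
  rw [order_taylorAt, ordAt_def, ← hord]
  congr 1
  funext w
  show B.J 1 (ofComplex w) - a = _
  rw [hB.J_one, ha]

/-- the point data over a generic value -/
def genericPoint (a : ℂ) (h0 : a ≠ 0) (h1 : a ≠ 1728) : PointData B a 1 :=
  let τ₀ : ℍ := (jFun_surjective a).choose
  have hτ₀ : jFun τ₀ = a := (jFun_surjective a).choose_spec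
  { X := B.taylorExpansion hB τ₀
    R := B.trivialRot _
    order_J := by
      have h4 : E₄ τ₀ ≠ 0 := fun h => h0 (hτ₀ ▸ (jFun_eq_zero_iff τ₀).mpr h)
      have h6 : E₆ τ₀ ≠ 0 := fun h => h1 (hτ₀ ▸ (jFun_eq_1728_iff τ₀).mpr h)
      have := B.taylor_order_J hB τ₀ a hτ₀ 1
        (by exact_mod_cast analyticOrderAt_jFun_sub_generic h4 h6)
      exact this }

/-- the point data over `1728` (at `i`, rotation by `S`) -/
def point1728 : PointData B 1728 ModularGroup.S where
  X := B.taylorExpansion hB UpperHalfPlane.I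
  R := B.taylorRot hB (τ₀ := UpperHalfPlane.I) (ε := ModularGroup.S)
    Fermat.Agent.S24.H624.S_smul_I 2 two_pos
    (isPrimitiveRoot_rotFactor_two (inv_smul_of_fixed Fermat.Agent.S24.H624.S_smul_I)
      (by rw [trace_inv_SL]; exact trace_S))
  order_J := by
    have := B.taylor_order_J hB UpperHalfPlane.I 1728 jFun_I 2
      (by exact_mod_cast analyticOrderAt_jFun_sub_of_E₆ E₆_I)
    exact this

/-- the point data over `0` (at `ρ`, rotation by `S * T`) -/
def point0 : PointData B 0 (ModularGroup.S * ModularGroup.T) where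
  X := B.taylorExpansion hB rho
  R := B.taylorRot hB (τ₀ := rho) (ε := ModularGroup.S * ModularGroup.T)
    ST_smul_rho 3 (by norm_num)
    (isPrimitiveRoot_rotFactor_three (inv_smul_of_fixed ST_smul_rho)
      (by rw [trace_inv_SL]; exact Or.inl trace_ST))
  order_J := by
    have := B.taylor_order_J hB rho 0 jFun_rho 3
      (by exact_mod_cast analyticOrderAt_jFun_sub_of_E₄ E₄_rho)
    exact this

/-- **`AnalyticCore` from a holomorphic `HolBase` with `T`-shift.** -/
def toAnalyticCore (ζ : ℂ) (hζ : IsPrimitiveRoot ζ N)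
    (hshift : ∀ (h : B.Hol) (n : ℤ),
      (B.qexp (B.compH ModularGroup.T h)).coeff n = ζ ^ n * (B.qexp h).coeff n) :
    AnalyticCore N where
  toHolBase := B
  generic := B.genericPoint hB
  at1728 := B.point1728 hB
  at0 := B.point0 hB
  infζ := ζ
  inf_hζ := hζ
  inf_shift := hshift

end HolBase

end Fermat.Agent.S24.H997

end
end
-- ===== PACK-END S24/Mod/H997Taylor.lean

-- ===== PACK-BEGIN S24/Inf/Gen.lean
section


/-!
# S24 / MOD-INF — expansions at `∞` of the functions `J((aτ+b)/d)` and distinctness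

Everything is stated for an abstract function `J : ℍ → ℂ` satisfying
* `hinv : ∀ γ : SL(2, ℤ), ∀ τ, J (γ • τ) = J τ`,
* `hexp : InfExp 1 J infJq` (the `q`-expansion of `J` is the Prelude series `jq`).
-/

set_option autoImplicit false

noncomputable section

open HahnSeries ModularCurve UpperHalfPlane Complex Matrix
open scoped Real MatrixGroups

namespace Fermat.Agent.S24

/-- The Prelude series `jq` with complex coefficients. -/
def infJq : LaurentSeries ℂ := coeffEmb ℂ jq

theorem infJq_coeff (n : ℤ) : infJq.coeff n = ((jq.coeff n : ℚ) : ℂ) := rfl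

theorem infJq_coeff_neg_one : infJq.coeff (-1) = 1 := by
  rw [infJq_coeff, coeff_jq_neg_one]; simp

theorem infJq_coeff_of_lt {k : ℤ} (hk : k < -1) : infJq.coeff k = 0 := by
  rw [infJq_coeff, coeff_jq_of_lt hk]; simp

theorem infJq_order : infJq.order = -1 :=
  inf_order_eq_of_coeff (by rw [infJq_coeff_neg_one]; exact one_ne_zero)
    (fun _ hm => infJq_coeff_of_lt hm)

theorem infJq_leadingCoeff : infJq.leadingCoeff = 1 := by
  rw [leadingCoeff_eq, infJq_order, infJq_coeff_neg_one]

theorem infJq_ne_zero : infJq ≠ 0 := by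
  intro h
  have := infJq_coeff_neg_one
  rw [h] at this
  simp at this

/-- The expansion of `J((aτ+b)/d)` in `z = exp(2πiτ/N)`, where `e = aN/d`. -/
def infGenExp (e : ℕ) [NeZero e] (b : ℤ) (d : ℕ) : LaurentSeries ℂ :=
  qExpand ℂ e (infTwist (infRoot b d) infJq)

theorem infGenExp_order (e : ℕ) [NeZero e] (b : ℤ) (d : ℕ) :
    (infGenExp e b d).order = -(e : ℤ) := by
  rw [infGenExp, inf_qExpand_order, infTwist_order, infJq_order]
  ring

theorem infGenExp_leadingCoeff (e : ℕ) [NeZero e] (b : ℤ) (d : ℕ) :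
    (infGenExp e b d).leadingCoeff = (((infRoot b d)⁻¹ : ℂˣ) : ℂ) := by
  rw [infGenExp, inf_qExpand_leadingCoeff, infTwist_leadingCoeff, infJq_leadingCoeff, infJq_order,
    _root_.one_mul, _root_.zpow_neg_one]

theorem infGenExp_ne_zero (e : ℕ) [NeZero e] (b : ℤ) (d : ℕ) : infGenExp e b d ≠ 0 := by
  rw [infGenExp, Ne, inf_qExpand_eq_zero_iff, infTwist_eq_zero_iff]
  exact infJq_ne_zero

section Abstract

variable {J : ℍ → ℂ}

/-- Expansion of `J((aτ+b)/d)` in `z = exp(2πiτ/N)` when `e·d = a·N`. -/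
theorem inf_J_infAff_exp (hexp : InfExp 1 J infJq) {N a d e : ℕ} [NeZero e] (b : ℤ)
    (ha : 0 < a) (hd : 0 < d) (hN : 0 < N) (he : e * d = a * N) :
    InfExp N (fun τ => J (infAff a b d τ)) (infGenExp e b d) := by
  have h := hexp.comp_infAff (e := e) b ha hd one_pos hN (by rw [_root_.mul_one]; exact he)
  rw [_root_.mul_one] at h
  exact h

/-- The function `τ ↦ J(dτ)` has the expansion `jq(z^{dN})` in `z = exp(2πiτ/N)`. -/
theorem inf_J_mul_exp (hexp : InfExp 1 J infJq) {N d : ℕ} (hd : 0 < d) (hN : 0 < N) :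
    haveI : NeZero (d * N) := ⟨(Nat.mul_pos hd hN).ne'⟩
    InfExp N (fun τ => J (infAff d 0 1 τ)) (qExpand ℂ (d * N) infJq) := by
  have : NeZero (d * N) := ⟨(Nat.mul_pos hd hN).ne'⟩
  have h := inf_J_infAff_exp hexp (e := d * N) 0 hd one_pos hN (by ring)
  rw [infGenExp, infRoot_zero, infTwist_one] at h
  exact h

/-- For `d ∣ N` and `γ ∈ SL₂(ℤ)`, the function `τ ↦ J(d·γτ)` has a convergent expansion in
`z = exp(2πiτ/N)`. -/
theorem inf_J_mul_smul_mem_expRing (hinv : ∀ (γ : SL(2, ℤ)) (τ : ℍ), J (γ • τ) = J τ)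
    (hexp : InfExp 1 J infJq) {N d : ℕ} [NeZero N] (hdN : d ∣ N) (γ : SL(2, ℤ)) :
    (fun τ => J (infAff d 0 1 (γ • τ))) ∈ expRing N := by
  have hN : 0 < N := Nat.pos_of_ne_zero (NeZero.ne N)
  have hd : 0 < d := Nat.pos_of_dvd_of_pos hdN hN
  obtain ⟨γ', a, d', b, ha, hd', had, h00, h01, h10, h11⟩ := inf_exists_hnf d hd γ
  have hd'N : d' ∣ N := (Dvd.intro_left a had).trans hdN
  obtain ⟨c, hc⟩ := hd'N
  have hc0 : 0 < c := by
    rcases Nat.eq_zero_or_pos c with h | h
    · rw [h, _root_.MulZeroClass.mul_zero] at hc; omega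
    · exact h
  have : NeZero (a * c) := ⟨(Nat.mul_pos ha hc0).ne'⟩
  have h := inf_J_infAff_exp hexp (e := a * c) (N := N) b ha hd' hN (by rw [hc]; ring)
  refine ⟨_, h.congr fun τ => ?_⟩
  rw [inf_aff_smul_eq hd ha hd' γ γ' h00 h01 h10 h11 τ, hinv]

end Abstract

end Fermat.Agent.S24

namespace Fermat.Agent.S24

open HahnSeries ModularCurve UpperHalfPlane Complex Matrix
open scoped Real MatrixGroups

theorem inf_SL2_mul_inv_10 (γ γ' : SL(2, ℤ)) :
    (γ * γ'⁻¹) 1 0 = γ 1 0 * γ' 1 1 - γ 1 1 * γ' 1 0 := by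
  rw [Matrix.SpecialLinearGroup.SL2_inv_expl γ']
  simp [Matrix.SpecialLinearGroup.coe_mul, Matrix.mul_apply, Fin.sum_univ_two]
  ring

theorem infRoot_eq_iff {b b₁ : ℤ} {d : ℕ} (hd : 0 < d) :
    infRoot b d = infRoot b₁ d ↔ (d : ℤ) ∣ b - b₁ := by
  have hd0 : (d : ℂ) ≠ 0 := by exact_mod_cast hd.ne'
  have hpi : (2 * π * Complex.I : ℂ) ≠ 0 := Complex.two_pi_I_ne_zero
  rw [← Units.val_inj, infRoot_coe, infRoot_coe, Complex.exp_eq_exp_iff_exists_int]
  constructor
  · rintro ⟨n, hn⟩
    refine ⟨n, ?_⟩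
    field_simp at hn
    have h4 : b = b₁ + d * n := by exact_mod_cast hn
    linarith
  · rintro ⟨n, hn⟩
    refine ⟨n, ?_⟩
    have h1 : (b : ℂ) = b₁ + d * n := by
      have : b = b₁ + d * n := by linarith
      exact_mod_cast this
    rw [h1]
    field_simp

section Distinct

variable {J : ℍ → ℂ}

/-- **Distinctness.**  If `J(N·γτ) = J(N·γ'τ)` for all `τ`, then `γ γ'⁻¹ ∈ Γ₀(N)`. -/
theorem inf_distinct (hinv : ∀ (γ : SL(2, ℤ)) (τ : ℍ), J (γ • τ) = J τ)
    (hexp : InfExp 1 J infJq) {N : ℕ} [NeZero N] (γ γ' : SL(2, ℤ))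
    (h : ∀ τ, J (infAff N 0 1 (γ • τ)) = J (infAff N 0 1 (γ' • τ))) :
    γ * γ'⁻¹ ∈ CongruenceSubgroup.Gamma0 N := by
  have hN : 0 < N := Nat.pos_of_ne_zero (NeZero.ne N)
  obtain ⟨g, a, d, b, ha, hd, had, h00, h01, h10, h11⟩ := inf_exists_hnf N hN γ
  obtain ⟨g', a', d', b', ha', hd', had', h00', h01', h10', h11'⟩ := inf_exists_hnf N hN γ'
  have : NeZero (a * a) := ⟨(Nat.mul_pos ha ha).ne'⟩
  have : NeZero (a' * a') := ⟨(Nat.mul_pos ha' ha').ne'⟩
  have e1 := inf_J_infAff_exp hexp (e := a * a) (N := N) b ha hd hN (by rw [← had]; ring)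
  have e2 := inf_J_infAff_exp hexp (e := a' * a') (N := N) b' ha' hd' hN (by rw [← had']; ring)
  have hfun : ∀ τ, J (infAff a b d τ) = J (infAff a' b' d' τ) := by
    intro τ
    have := h τ
    rwa [inf_aff_smul_eq hN ha hd γ g h00 h01 h10 h11 τ, hinv,
      inf_aff_smul_eq hN ha' hd' γ' g' h00' h01' h10' h11' τ, hinv] at this
  have heq : infGenExp (a * a) b d = infGenExp (a' * a') b' d' := e1.unique' e2 hfun
  -- compare orders
  have hord := congrArg HahnSeries.order heq
  rw [infGenExp_order, infGenExp_order] at hord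
  have haa : a * a = a' * a' := by
    have : ((a * a : ℕ) : ℤ) = ((a' * a' : ℕ) : ℤ) := by linarith
    exact_mod_cast this
  have haeq : a = a' := Nat.mul_self_inj.mp haa
  subst haeq
  have hdeq : d = d' := by
    have : a * d = a * d' := by rw [had, had']
    exact Nat.eq_of_mul_eq_mul_left ha this
  subst hdeq
  -- compare leading coefficients
  have hlc := congrArg HahnSeries.leadingCoeff heq
  rw [infGenExp_leadingCoeff, infGenExp_leadingCoeff] at hlc
  have hroot : infRoot b d = infRoot b' d := by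
    have := Units.val_inj.mp hlc
    exact inv_injective this
  obtain ⟨k, hk⟩ := (infRoot_eq_iff hd).mp hroot
  -- conclude
  rw [CongruenceSubgroup.Gamma0_mem, ZMod.intCast_zmod_eq_zero_iff_dvd, inf_SL2_mul_inv_10]
  have hNad : (N : ℤ) = a * d := by exact_mod_cast had.symm
  refine ⟨g 1 0 * g' 1 1 - g 1 1 * g' 1 0 - k * g 1 0 * g' 1 0, ?_⟩
  have hb : b = b' + d * k := by linarith
  rw [h10, h11, h10', h11', hNad, hb]
  ring

end Distinct

end Fermat.Agent.S24

end
end
-- ===== PACK-END S24/Inf/Gen.lean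

-- ===== PACK-BEGIN S24/Mod/H997HolBase.lean
section




/-!
# S24 / MOD — the concrete `HolBase N` and `Nonempty (AnalyticCore N)`

`Hol := {f holomorphic on ℍ | ∀ γ ∈ SL(2,ℤ), f ∘ γ has a convergent expansion in exp(2πiτ/N)}`,
`J d τ := j(dτ)`, `qexp :=` expansion at `i∞` (helper384's `expInf`).
-/

set_option autoImplicit false

noncomputable section

open ModularCurve HahnSeries UpperHalfPlane ModularForm EisensteinSeries
open scoped MatrixGroups Manifold Real

namespace Fermat.Agent.S24.H997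

open Fermat.Agent.S24.H624 Fermat.Agent.S20.L1

/-- the `j`-function has the Prelude `q`-expansion -/
theorem infExp_jFun : InfExp 1 jFun infJq := by
  intro τ
  have h := Fermat.Agent.S24.JFun.hasSum_jFun τ
  have h1 : infJq = jqModC ℂ := by
    rw [infJq, ← map_jqModC (algebraMap ℚ ℂ), jqModC_rat]
    rfl
  have h2 : infZ 1 τ = Function.Periodic.qParam 1 (τ : ℂ) := by
    simp [infZ]
  rw [h1]
  simp only [h2]
  exact h

theorem jFun_smul' (γ : SL(2, ℤ)) (τ : ℍ) : jFun (γ • τ) = jFun τ :=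
  Fermat.Agent.S24.M7.H47.jFun_smul γ τ

/-- `τ ↦ j(dτ)` -/
def Jd (d : ℕ) : ℍ → ℂ := fun τ => jFun (infAff d 0 1 τ)

theorem Jd_one : Jd 1 = jFun := by
  funext τ
  simp [Jd]

theorem mdiff_Jd {d : ℕ} (hd : 0 < d) : MDiff (Jd d) := by
  rw [UpperHalfPlane.mdifferentiable_iff]
  have hj : DifferentiableOn ℂ (jFun ∘ ofComplex) {z : ℂ | 0 < z.im} :=
    UpperHalfPlane.mdifferentiable_iff.mp mdiff_jFun
  have hmul : DifferentiableOn ℂ (fun z : ℂ => (d : ℂ) * z) {z : ℂ | 0 < z.im} :=
    (differentiable_id.const_mul (d : ℂ)).differentiableOn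
  have hmaps : Set.MapsTo (fun z : ℂ => (d : ℂ) * z) {z : ℂ | 0 < z.im} {z : ℂ | 0 < z.im} := by
    intro z hz
    simp only [Set.mem_ofPred_eq] at hz ⊢
    have : ((d : ℂ) * z).im = d * z.im := by simp
    rw [this]
    have hd' : (0 : ℝ) < d := by exact_mod_cast hd
    positivity
  refine (hj.comp hmul hmaps).congr ?_
  intro z hz
  simp only [Set.mem_ofPred_eq] at hz
  simp only [Function.comp_apply, Jd]
  congr 1
  apply UpperHalfPlane.ext
  rw [infAff_coe hd one_pos, ofComplex_apply_of_im_pos hz]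
  have hz' : 0 < ((d : ℂ) * z).im := hmaps hz
  rw [ofComplex_apply_of_im_pos hz']
  simp

variable (N : ℕ) [NeZero N]

/-- the ring `Hol` -/
def holN : Subring (ℍ → ℂ) where
  carrier := {f | f ∈ holoRing ∧ ∀ γ : SL(2, ℤ), compSL γ f ∈ expRing N}
  mul_mem' := by
    rintro f g ⟨hf, hf'⟩ ⟨hg, hg'⟩
    exact ⟨mul_mem hf hg, fun γ => mul_mem (hf' γ) (hg' γ)⟩
  one_mem' := ⟨one_mem _, fun _ => one_mem _⟩
  add_mem' := by
    rintro f g ⟨hf, hf'⟩ ⟨hg, hg'⟩
    exact ⟨add_mem hf hg, fun γ => add_mem (hf' γ) (hg' γ)⟩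
  zero_mem' := ⟨zero_mem _, fun _ => zero_mem _⟩
  neg_mem' := by
    rintro f ⟨hf, hf'⟩
    exact ⟨neg_mem hf, fun γ => neg_mem (hf' γ)⟩

theorem mem_holN {f : ℍ → ℂ} :
    f ∈ holN N ↔ f ∈ holoRing ∧ ∀ γ : SL(2, ℤ), compSL γ f ∈ expRing N := Iff.rfl

theorem const_mem_holN (c : ℂ) : (fun _ : ℍ => c) ∈ holN N :=
  ⟨(algebraMap ℂ holoRing c).2, fun _ => (InfExp.const c).mem_expRing⟩

theorem comp_mem_holN (g : SL(2, ℤ)) (f : ℍ → ℂ) (hf : f ∈ holN N) : compSL g f ∈ holN N := by
  refine ⟨(precompSL g ⟨f, hf.1⟩).2, fun γ => ?_⟩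
  rw [← compSL_mul]
  exact hf.2 _

theorem Jd_mem_holN (d : ℕ) (hd : d ∣ N) : Jd d ∈ holN N := by
  have hN : 0 < N := Nat.pos_of_ne_zero (NeZero.ne N)
  have hd0 : 0 < d := Nat.pos_of_dvd_of_pos hd hN
  exact ⟨mdiff_Jd hd0, fun γ => inf_J_mul_smul_mem_expRing jFun_smul' infExp_jFun hd γ⟩

theorem Jd_inv (d : ℕ) (hd : d ∣ N) (g : SL(2, ℤ)) (hg : g ∈ CongruenceSubgroup.Gamma0 N)
    (τ : ℍ) : Jd d (g • τ) = Jd d τ := by
  have hN : 0 < N := Nat.pos_of_ne_zero (NeZero.ne N)
  have hd0 : 0 < d := Nat.pos_of_dvd_of_pos hd hN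
  have hNg : (N : ℤ) ∣ g 1 0 := by
    rw [CongruenceSubgroup.Gamma0_mem] at hg
    exact (ZMod.intCast_zmod_eq_zero_iff_dvd _ _).mp hg
  have hdg : (d : ℤ) ∣ g 1 0 := dvd_trans (by exact_mod_cast hd) hNg
  obtain ⟨c, hc⟩ := hdg
  have hdet := inf_sl_det g
  let g' : SL(2, ℤ) := ⟨!![g 0 0, d * g 0 1; c, g 1 1], by
    rw [Matrix.det_fin_two_of]
    rw [hc] at hdet
    linear_combination hdet⟩
  have h := inf_aff_smul_eq (d := d) (a := d) (d' := 1) (b := 0) hd0 hd0 one_pos g g'
    (by simp [g']; ring) (by simp [g']) (by simp [g', hc]; ring) (by simp [g']) τ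
  show jFun (infAff d 0 1 (g • τ)) = jFun (infAff d 0 1 τ)
  rw [h, jFun_smul']

theorem Jd_distinct (g : SL(2, ℤ)) (h : ∀ τ : ℍ, Jd N (g • τ) = Jd N τ) :
    g ∈ CongruenceSubgroup.Gamma0 N := by
  have := inf_distinct (J := jFun) jFun_smul' infExp_jFun (N := N) g 1
    (fun τ => by simpa [Jd] using h τ)
  simpa using this

/-- the inclusion `Hol → expRing N` -/
def holToExp : holN N →+* expRing N where
  toFun h := ⟨h.1, by simpa [compSL_one] using h.2.2 1⟩
  map_one' := rfl
  map_mul' _ _ := rfl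
  map_zero' := rfl
  map_add' _ _ := rfl

theorem holToExp_injective : Function.Injective (holToExp N) := by
  intro x y h
  exact Subtype.ext (congrArg (fun f : expRing N => (f : ℍ → ℂ)) h)

theorem expInf_Jd (d : ℕ) (hd : d ∣ N) :
    haveI : NeZero (d * N) := ⟨Nat.mul_ne_zero
      (Nat.pos_of_dvd_of_pos hd (Nat.pos_of_ne_zero (NeZero.ne N))).ne' (NeZero.ne N)⟩
    expInf N (holToExp N ⟨Jd d, Jd_mem_holN N d hd⟩) = qExpand ℂ (d * N) infJq := by
  have hN : 0 < N := Nat.pos_of_ne_zero (NeZero.ne N)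
  have hd0 : 0 < d := Nat.pos_of_dvd_of_pos hd hN
  exact (inf_J_mul_exp infExp_jFun hd0 hN).expInf_eq

/-- **The concrete `HolBase N`.** -/
def holBase : HolBase N where
  Hol := holN N
  const_mem := const_mem_holN N
  comp_mem := comp_mem_holN N
  J := Jd
  J_mem := Jd_mem_holN N
  J_one_inv g τ := by rw [Jd_one]; exact jFun_smul' g τ
  J_inv := Jd_inv N
  J_distinct := Jd_distinct N
  qexp := (expInf N).comp (holToExp N)
  qexp_injective := expInf_injective.comp (holToExp_injective N)
  qexp_const c := (InfExp.const c).expInf_eq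
  qexp_J d hd k := by
    have hN : 0 < N := Nat.pos_of_ne_zero (NeZero.ne N)
    have hd0 : 0 < d := Nat.pos_of_dvd_of_pos hd hN
    haveI : NeZero (d * N) := ⟨Nat.mul_ne_zero hd0.ne' (NeZero.ne N)⟩
    show (expInf N (holToExp N ⟨Jd d, Jd_mem_holN N d hd⟩)).coeff k = _
    rw [expInf_Jd N d hd]
    have hcast : ((N * d : ℕ) : ℤ) = ((d * N : ℕ) : ℤ) := by rw [mul_comm]
    rw [hcast]
    split_ifs with hk
    · obtain ⟨m, rfl⟩ := hk
      rw [qExpand_coeff_mul, Int.mul_ediv_cancel_left _
        (by exact_mod_cast (NeZero.ne (d * N)) : ((d * N : ℕ) : ℤ) ≠ 0)]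
      rfl
    · exact qExpand_coeff_of_not_dvd (d * N) _ hk

theorem holBase_isHolo : (holBase N).IsHolo where
  mdiff f hf := hf.1
  J_one := Jd_one

theorem T_smul_eq_infAff (τ : ℍ) : ModularGroup.T • τ = infAff 1 1 1 τ := by
  apply UpperHalfPlane.ext
  rw [UpperHalfPlane.modular_T_smul, infAff_coe one_pos one_pos]
  simp [add_comm]

theorem holBase_shift (h : (holBase N).Hol) (n : ℤ) :
    ((holBase N).qexp ((holBase N).compH ModularGroup.T h)).coeff n
      = ((infRoot 1 N : ℂˣ) : ℂ) ^ n * ((holBase N).qexp h).coeff n := by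
  have hf : InfExp N (h : ℍ → ℂ) ((holBase N).qexp h) := expInf_spec (holToExp N h)
  have hT := hf.comp_translate 1
  have hT' : InfExp N (((holBase N).compH ModularGroup.T h : (holBase N).Hol) : ℍ → ℂ)
      (infTwist (infRoot 1 N) ((holBase N).qexp h)) := by
    refine hT.congr fun τ => ?_
    show (h : ℍ → ℂ) (infAff 1 1 1 τ) = (h : ℍ → ℂ) (ModularGroup.T • τ)
    rw [T_smul_eq_infAff]
  have heq : (holBase N).qexp ((holBase N).compH ModularGroup.T h)
      = infTwist (infRoot 1 N) ((holBase N).qexp h) :=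
    (expInf_spec (holToExp N ((holBase N).compH ModularGroup.T h))).unique hT'
  rw [heq, infTwist_coeff, Units.val_zpow_eq_zpow_val, mul_comm]

theorem isPrimitiveRoot_infRoot : IsPrimitiveRoot ((infRoot 1 N : ℂˣ) : ℂ) N := by
  have h := Complex.isPrimitiveRoot_exp N (NeZero.ne N)
  have : ((infRoot 1 N : ℂˣ) : ℂ) = Complex.exp (2 * π * Complex.I / N) := by
    rw [infRoot_coe]
    congr 1
    push_cast
    ring
  rw [this]
  exact h

/-- **The analytic core exists.** -/
def analyticCore : AnalyticCore N :=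
  (holBase N).toAnalyticCore (holBase_isHolo N) _ (isPrimitiveRoot_infRoot N) (holBase_shift N)

theorem nonempty_analyticCore : Nonempty (AnalyticCore N) := ⟨analyticCore N⟩

end Fermat.Agent.S24.H997

end
end
-- ===== PACK-END S24/Mod/H997HolBase.lean

-- ===== PACK-BEGIN S24/Deg/H457_Degree.lean
section



/-!
# S24 / DEG (helper457): the degree fields of `ModularPackage`, unconditionally

`degree_fields N : FiniteDimensional ℚ̄(j) (FF N) ∧ finrank ℚ̄(j) (FF N) ≤ |SL₂(ℤ)/Γ₀(N)|`.

Chain: helper648 (conjugate product + D5 + growth of `j`, function level)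
→ `hyp_complex` (formal relations over `ℂ`, via helper708 `HasQExp` and helper264 `hasSum_jFun`)
→ `finiteDimensional_and_finrank_le` (descent `ℂ → ℚ̄` + primitive element).
-/

set_option autoImplicit false

noncomputable section

open UpperHalfPlane ModularGroup CongruenceSubgroup Polynomial ModularCurve
open scoped MatrixGroups Manifold Modular Real

namespace Fermat.Agent.S24.Deg457

theorem jFun_eq_H648 : Fermat.Agent.S24.JFun.jFun = Fermat.Agent.S24.H648.jFun := rfl

/-- the interface hypothesis over `ℂ`, unconditionally -/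
theorem hyp_complex_card (N : ℕ) [NeZero N] : Hyp ℂ N (Nat.card (XX N)) := by
  refine hyp_complex N ?_ ?_
  · rw [jFun_eq_H648]
    exact Fermat.Agent.S24.H648.exists_polynomial_of_expGrowth
  · rw [jFun_eq_H648]
    exact Fermat.Agent.S24.H648.jFun_bound_fd

/-- **The degree fields of helper984's `ModularPackage N`** (upper bound half). -/
theorem degree_fields (N : ℕ) [NeZero N] :
    FiniteDimensional ↥(IntermediateField.adjoin Kbar {jF N}) (FF N) ∧
      Module.finrank ↥(IntermediateField.adjoin Kbar {jF N}) (FF N) ≤ Nat.card (XX N) :=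
  finiteDimensional_and_finrank_le N _ (hyp_complex_card N)

end Fermat.Agent.S24.Deg457

end
end
-- ===== PACK-END S24/Deg/H457_Degree.lean

-- ===== PACK-BEGIN S29/H812/FundId.lean
section




/-!
# S29 / H812 — the fundamental identity `∑_{w | v} e(w | v) = [F' : F]` for a finite extension of
function fields of one variable over an algebraically closed field of characteristic zero.
-/

set_option autoImplicit false

noncomputable section

open AlgebraicCurve IntermediateField

namespace Fermat.Agent.S29.H812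

open Fermat.Agent.S24

variable {K F F' : Type*} [Field K] [Field F] [Field F']
  [Algebra K F] [Algebra K F'] [Algebra F F'] [IsScalarTower K F F']
  [Algebra.IsIntegral F F'] [HasPrincipalDivisors K F']

/-- The index set of the adapted family of the fibre over `v`. -/
abbrev FibIdx (F' : Type*) [Field F'] [Algebra K F'] [Algebra F F'] [IsScalarTower K F F']
    [Algebra.IsIntegral F F'] [HasPrincipalDivisors K F'] (v : Place K F) : Type _ :=
  Σ w : {w : Place K F' // w ∈ v.fiber F'}, Fin (w.1.ramificationIndex F)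

theorem card_fibIdx (v : Place K F) :
    Fintype.card (FibIdx F' v) = ∑ w ∈ v.fiber F', w.ramificationIndex F := by
  classical
  rw [Fintype.card_sigma]
  simp only [Fintype.card_fin]
  exact Finset.sum_coe_sort (v.fiber F') (fun w => w.ramificationIndex F)

theorem fibIdx_ext (v : Place K F) (a b : FibIdx F' v) (h1 : a.1.1 = b.1.1)
    (h2 : (a.2 : ℕ) = (b.2 : ℕ)) : a = b := by
  obtain ⟨⟨w, hw⟩, i⟩ := a
  obtain ⟨⟨w', hw'⟩, i'⟩ := b
  simp only at h1
  subst h1
  simp only at h2
  have : i = i' := Fin.ext h2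
  subst this
  rfl

/-- An adapted family for the fibre over `v`. -/
theorem exists_family (v : Place K F) :
    ∃ u : FibIdx F' v → F', (∀ a, u a ≠ 0) ∧ (∀ a : FibIdx F' v, a.1.1.ord (u a) = (a.2 : ℕ)) ∧
      (∀ a b : FibIdx F' v, b.1.1 ≠ a.1.1 →
        ((b.1.1.ramificationIndex F : ℕ) : ℤ) ≤ b.1.1.ord (u a)) := by
  classical
  set B : ℕ := ∑ w ∈ v.fiber F', w.ramificationIndex F with hB
  have h : ∀ a : FibIdx F' v, ∃ u : F', u ≠ 0 ∧ a.1.1.ord u = (a.2 : ℕ) ∧
      ∀ w' ∈ (v.fiber F').erase a.1.1, (B : ℤ) ≤ w'.ord u := fun a =>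
    exists_ord_eq_and_ge a.1.1 ((v.fiber F').erase a.1.1) (Finset.notMem_erase _ _) a.2 B
  choose u hu0 hu1 hu2 using h
  refine ⟨u, hu0, hu1, ?_⟩
  intro a b hne
  have hmem : b.1.1 ∈ (v.fiber F').erase a.1.1 := Finset.mem_erase.mpr ⟨hne, b.1.2⟩
  have h1 := hu2 a b.1.1 hmem
  have h2 : b.1.1.ramificationIndex F ≤ B :=
    Finset.single_le_sum (f := fun w : Place K F' => w.ramificationIndex F)
      (fun _ _ => Nat.zero_le _) b.1.2
  have h3 : ((b.1.1.ramificationIndex F : ℕ) : ℤ) ≤ (B : ℤ) := by exact_mod_cast h2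
  linarith

/-- The coordinate lemma for an adapted family. -/
theorem family_coord (v : Place K F) (u : FibIdx F' v → F') (hu0 : ∀ a, u a ≠ 0)
    (hu1 : ∀ a : FibIdx F' v, a.1.1.ord (u a) = (a.2 : ℕ))
    (hu2 : ∀ a b : FibIdx F' v, b.1.1 ≠ a.1.1 →
        ((b.1.1.ramificationIndex F : ℕ) : ℤ) ≤ b.1.1.ord (u a))
    (c : FibIdx F' v → F) (hc : ∃ a, c a ≠ 0) :
    ∃ a₀, c a₀ ≠ 0 ∧ (∀ a, c a ≠ 0 → v.ord (c a₀) ≤ v.ord (c a)) ∧
      (∑ a, c a • u a) ≠ 0 ∧
      a₀.1.1.ord (∑ a, c a • u a)
        = (a₀.1.1.ramificationIndex F : ℤ) * v.ord (c a₀) + ((a₀.2 : ℕ) : ℤ) :=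
  coord_lemma v (fun a : FibIdx F' v => a.1.1) (fun a => (a.2 : ℕ)) u
    (fun a => Place.mem_fiber.mp a.1.2) (fun a => a.2.2) hu0 hu1 hu2
    (fun a b h1 h2 => fibIdx_ext v a b h1 h2) c hc

theorem family_linearIndependent (v : Place K F) (u : FibIdx F' v → F') (hu0 : ∀ a, u a ≠ 0)
    (hu1 : ∀ a : FibIdx F' v, a.1.1.ord (u a) = (a.2 : ℕ))
    (hu2 : ∀ a b : FibIdx F' v, b.1.1 ≠ a.1.1 →
        ((b.1.1.ramificationIndex F : ℕ) : ℤ) ≤ b.1.1.ord (u a)) :
    LinearIndependent F u := by
  rw [Fintype.linearIndependent_iff]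
  intro c hsum a
  by_contra ha
  obtain ⟨_, _, _, hne, _⟩ := family_coord v u hu0 hu1 hu2 c ⟨a, ha⟩
  exact hne hsum

/-- **Fundamental inequality** `∑_{w | v} e(w | v) ≤ [F' : F]`. -/
theorem sum_ramificationIndex_le_finrank [Module.Finite F F'] (v : Place K F) :
    ∑ w ∈ v.fiber F', w.ramificationIndex F ≤ Module.finrank F F' := by
  obtain ⟨u, hu0, hu1, hu2⟩ := exists_family (F' := F') v
  rw [← card_fibIdx]
  exact (family_linearIndependent v u hu0 hu1 hu2).fintype_card_le_finrank

section Identity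

variable [IsAlgClosed K] [CharZero K] [Module.Finite F F']

omit [Algebra.IsIntegral F F'] [HasPrincipalDivisors K F'] [IsAlgClosed K] [CharZero K]
  [Module.Finite F F'] in
theorem not_mem_range_of_ord_ne_zero (v : Place K F) {f : F} (hf : v.ord f ≠ 0) :
    f ∉ (algebraMap K F).range := by
  rintro ⟨c, rfl⟩
  exact hf (H117.ord_algebraMap v c)

/-- **Fundamental identity** `∑_{w | v} e(w | v) = [F' : F]`. -/
theorem sum_ramificationIndex_eq_finrank
    (hF : ∃ x : F, Transcendental K x ∧ FiniteDimensional K⟮x⟯ F) (v : Place K F) :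
    ∑ w ∈ v.fiber F', w.ramificationIndex F = Module.finrank F F' := by
  classical
  obtain ⟨x, hx, hxfin⟩ := hF
  obtain ⟨π, hπ0, hπ1⟩ := H117.exists_ord_eq_one v
  have hπt : Transcendental K π :=
    FF.transcendental_of_not_mem_range (not_mem_range_of_ord_ne_zero v (by rw [hπ1]; norm_num))
  haveI hπfin : FiniteDimensional K⟮π⟯ F := FF.finiteDimensional_adjoin_of_transcendental hx hπt
  set π' : F' := algebraMap F F' π with hπ'
  have hπ't : Transcendental K π' := transcendental_algebraMap_of hπt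
  haveI hπ'fin : FiniteDimensional K⟮π'⟯ F' := finiteDimensional_adjoin_algebraMap π
  set Z : Finset (Place K F) := (FF.finite_setOf_ord_pos hπt).toFinset with hZ
  set Z' : Finset (Place K F') := (FF.finite_setOf_ord_pos hπ't).toFinset with hZ'
  have hZmem : ∀ v', v' ∈ Z ↔ 0 < v'.ord π := fun v' => by simp [hZ]
  have hZ'mem : ∀ w, w ∈ Z' ↔ 0 < w.ord π' := fun w => by simp [hZ']
  have h1 := FF.sum_ord_eq_finrank hπt Z hZmem
  have h2 := FF.sum_ord_eq_finrank hπ't Z' hZ'mem
  rw [finrank_adjoin_algebraMap] at h2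
  -- positivity transfer
  have hpos : ∀ w : Place K F', 0 < w.ord π' ↔ 0 < (w.restrict F).ord π := by
    intro w
    rw [hπ', w.ord_restrict]
    have he : (0 : ℤ) < (w.ramificationIndex F : ℤ) := by
      exact_mod_cast w.ramificationIndex_pos (F := F)
    constructor
    · intro h
      by_contra hcon
      push Not at hcon
      nlinarith
    · intro h
      exact mul_pos he h
  have hmaps : ∀ w ∈ Z', w.restrict F ∈ Z := fun w hw =>
    (hZmem _).mpr ((hpos w).mp ((hZ'mem w).mp hw))
  have h3 : ∑ w ∈ Z', w.ord π'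
      = ∑ v' ∈ Z, v'.ord π * ((∑ w ∈ v'.fiber F', w.ramificationIndex F : ℕ) : ℤ) := by
    rw [← Finset.sum_fiberwise_of_maps_to hmaps]
    refine Finset.sum_congr rfl fun v' hv' => ?_
    have hfilter : Z'.filter (fun w => w.restrict F = v') = v'.fiber F' := by
      ext w
      simp only [Finset.mem_filter, Place.mem_fiber]
      constructor
      · exact fun h => h.2
      · intro h
        refine ⟨(hZ'mem w).mpr ((hpos w).mpr ?_), h⟩
        rw [h]
        exact (hZmem v').mp hv'
    rw [hfilter]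
    push_cast
    rw [Finset.mul_sum]
    refine Finset.sum_congr rfl fun w hw => ?_
    rw [hπ', w.ord_restrict, Place.mem_fiber.mp hw]
    ring
  -- compare
  have h4 : ∑ v' ∈ Z, v'.ord π * ((∑ w ∈ v'.fiber F', w.ramificationIndex F : ℕ) : ℤ)
      = ∑ v' ∈ Z, v'.ord π * (Module.finrank F F' : ℤ) := by
    rw [← h3, h2, ← Finset.sum_mul, h1]
    push_cast
    ring
  have hle : ∀ v' ∈ Z, v'.ord π * ((∑ w ∈ v'.fiber F', w.ramificationIndex F : ℕ) : ℤ)
      ≤ v'.ord π * (Module.finrank F F' : ℤ) := by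
    intro v' hv'
    have h5 : (0 : ℤ) ≤ v'.ord π := ((hZmem v').mp hv').le
    have h6 : ((∑ w ∈ v'.fiber F', w.ramificationIndex F : ℕ) : ℤ) ≤ (Module.finrank F F' : ℤ) := by
      exact_mod_cast sum_ramificationIndex_le_finrank (F' := F') v'
    exact mul_le_mul_of_nonneg_left h6 h5
  have h7 := (Finset.sum_eq_sum_iff_of_le hle).mp h4 v ((hZmem v).mpr (by rw [hπ1]; norm_num))
  rw [hπ1, one_mul, one_mul] at h7
  exact_mod_cast h7

end Identity

end Fermat.Agent.S29.H812

end
end
-- ===== PACK-END S29/H812/FundId.lean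

-- ===== PACK-BEGIN S29/H812/IntBasis.lean
section


/-!
# S29 / H812 — a local integral basis at a place `v` of `F` for a finite extension `F'/F`

`InFib v x` : `x ∈ F'` is integral at every place above `v`.  We construct a basis `b` of `F'/F`
consisting of such elements, such that the coordinates of every such element lie in the valuation
ring of `v`.
-/

set_option autoImplicit false

noncomputable section

open AlgebraicCurve IntermediateField

namespace Fermat.Agent.S29.H812

open Fermat.Agent.S24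

variable {K F F' : Type*} [Field K] [Field F] [Field F']
  [Algebra K F] [Algebra K F'] [Algebra F F'] [IsScalarTower K F F']
  [Algebra.IsIntegral F F'] [HasPrincipalDivisors K F']

/-- `x` is integral at all places of `F'` above `v`. -/
def InFib (v : Place K F) (x : F') : Prop := ∀ w ∈ v.fiber F', x ∈ w.toValuationSubring

theorem inFib_zero (v : Place K F) : InFib v (0 : F') := fun _ _ => zero_mem _

theorem inFib_one (v : Place K F) : InFib v (1 : F') := fun _ _ => one_mem _

theorem InFib.add {v : Place K F} {x y : F'} (hx : InFib v x) (hy : InFib v y) :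
    InFib v (x + y) := fun w hw => add_mem (hx w hw) (hy w hw)

theorem InFib.mul {v : Place K F} {x y : F'} (hx : InFib v x) (hy : InFib v y) :
    InFib v (x * y) := fun w hw => mul_mem (hx w hw) (hy w hw)

theorem inFib_sum {v : Place K F} {ι : Type*} (s : Finset ι) (f : ι → F')
    (h : ∀ i ∈ s, InFib v (f i)) : InFib v (∑ i ∈ s, f i) :=
  fun w hw => sum_mem fun i hi => h i hi w hw

theorem inFib_algebraMap {v : Place K F} {c : F} (hc : c ∈ v.toValuationSubring) :
    InFib v (algebraMap F F' c) := by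
  intro w hw
  have h := Place.mem_fiber.mp hw
  rw [← h] at hc
  exact (Place.mem_restrict_iff w).mp hc

theorem InFib.smul {v : Place K F} {c : F} (hc : c ∈ v.toValuationSubring) {x : F'}
    (hx : InFib v x) : InFib v (c • x) := by
  rw [Algebra.smul_def]
  exact (inFib_algebraMap hc).mul hx

theorem inFib_iff_ord {v : Place K F} {x : F'} :
    InFib v x ↔ ∀ w ∈ v.fiber F', 0 ≤ w.ord x :=
  forall₂_congr fun w _ => H117.mem_iff_ord_nonneg w

section Basis

variable [IsAlgClosed K] [CharZero K] [Module.Finite F F']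

/-- **Local integral basis.** -/
theorem exists_integral_basis
    (hF : ∃ x : F, Transcendental K x ∧ FiniteDimensional K⟮x⟯ F) (v : Place K F) :
    ∃ b : Module.Basis (FibIdx F' v) F F',
      (∀ i, InFib v (b i)) ∧
      (∀ x : F', InFib v x → ∀ i, b.repr x i ∈ v.toValuationSubring) := by
  classical
  obtain ⟨u, hu0, hu1, hu2⟩ := exists_family (F' := F') v
  have hli := family_linearIndependent v u hu0 hu1 hu2
  have hcard : Fintype.card (FibIdx F' v) = Module.finrank F F' := by
    rw [card_fibIdx, sum_ramificationIndex_eq_finrank hF v]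
  set b : Module.Basis (FibIdx F' v) F F' := basisOfLinearIndependentOfCardEqFinrank' u hli hcard
    with hb
  have hbu : ∀ i, b i = u i := fun i => by
    rw [hb, coe_basisOfLinearIndependentOfCardEqFinrank']
  refine ⟨b, ?_, ?_⟩
  · intro a
    rw [hbu, inFib_iff_ord]
    intro w hw
    by_cases h : w = a.1.1
    · rw [h, hu1]; exact Int.natCast_nonneg _
    · have hpos : 0 < w.ramificationIndex F := w.ramificationIndex_pos (F := F)
      have := hu2 a ⟨⟨w, hw⟩, ⟨0, hpos⟩⟩ h
      have h0 : (0 : ℤ) ≤ ((w.ramificationIndex F : ℕ) : ℤ) := Int.natCast_nonneg _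
      exact h0.trans this
  · intro x hx a
    by_cases hall : ∀ a, b.repr x a = 0
    · rw [hall a]; exact zero_mem _
    push Not at hall
    obtain ⟨a₀, hc₀, hmin, -, hord⟩ := family_coord v u hu0 hu1 hu2 (fun a => b.repr x a) hall
    have hsum : ∑ a, b.repr x a • u a = x := by
      have := b.sum_repr x
      simpa [hbu] using this
    rw [hsum] at hord
    have h0 : 0 ≤ a₀.1.1.ord x := H117.ord_nonneg_of_mem _ (hx a₀.1.1 a₀.1.2)
    have hi : ((a₀.2 : ℕ) : ℤ) < (a₀.1.1.ramificationIndex F : ℤ) := by exact_mod_cast a₀.2.2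
    have hm : 0 ≤ v.ord (b.repr x a₀) := by
      by_contra hneg
      push Not at hneg
      have he : (0 : ℤ) < (a₀.1.1.ramificationIndex F : ℤ) := by
        exact_mod_cast a₀.1.1.ramificationIndex_pos (F := F)
      nlinarith
    by_cases ha : b.repr x a = 0
    · rw [ha]; exact zero_mem _
    · exact H117.mem_of_ord_nonneg v (hm.trans (hmin a ha))

end Basis

end Fermat.Agent.S29.H812

end
end
-- ===== PACK-END S29/H812/IntBasis.lean

-- ===== PACK-BEGIN S24/Count.lean
section



/-!
# S24 — counting on `SL₂(ℤ)/Γ₀(N) ≅ ℙ¹(ℤ/N)`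

INTERFACE FILE (statements frozen by helper984 @4630f4b), proofs filled in by helper324 from
`Fermat.Agent.S24.H324` (which assembles helper694's `S20.Comb` and helper360's `CuspCount360`).
-/

set_option autoImplicit false

noncomputable section

open ModularCurve
open scoped MatrixGroups

namespace Fermat.Agent.S24

variable (N : ℕ) [NeZero N]

theorem card_XX : Nat.card (XX N) = dedekindPsi N :=
  H324.card_XX N

theorem two_mul_numOrbits_S :
    2 * numOrbits (permOf N ModularGroup.S) = dedekindPsi N + nuTwo N :=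
  H324.two_mul_numOrbits_S N

theorem three_mul_numOrbits_ST :
    3 * numOrbits (permOf N (ModularGroup.S * ModularGroup.T))
      = dedekindPsi N + 2 * nuThree N :=
  H324.three_mul_numOrbits_ST N

theorem numOrbits_T : numOrbits (permOf N ModularGroup.T) = cuspCount N :=
  H324.numOrbits_T N

end Fermat.Agent.S24

end
end
-- ===== PACK-END S24/Count.lean

-- ===== PACK-BEGIN S29/H882/GoodQ.lean
section


/-!
# S29 / MERO (helper882), part 1: `q`-expansions of good functions

`goodQ N` is the `ℂ`-subalgebra of `ℂ((q))` of `q`-expansions of the functions in the landed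
`S24.H648.goodRing N` (holomorphic, `Γ₀(N)`-invariant, all `SL₂(ℤ)`-translates of at most
exponential growth at `i∞`).  Every element of `goodQ N` is a root of a monic polynomial of degree
`[SL₂(ℤ) : Γ₀(N)]` over `ℂ[j]`.
-/

set_option autoImplicit false

noncomputable section

open UpperHalfPlane ModularGroup CongruenceSubgroup Polynomial ModularCurve
open scoped MatrixGroups Manifold Modular Real

namespace Fermat.Agent.S29.H882

open Fermat.Agent.S24 Fermat.Agent.S24.H648 Fermat.Agent.S24.H708 Fermat.Agent.S24.Deg457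

variable (N : ℕ)

theorem T_mem_Gamma0 : ModularGroup.T ∈ Gamma0 N := by
  rw [Gamma0_mem]
  simp [ModularGroup.T]

variable {N}

/-- A `Γ₀(N)`-invariant function is `1`-periodic. -/
theorem periodic_of_invariant {f : ℍ → ℂ} (hf : ∀ γ ∈ Gamma0 N, ∀ τ : ℍ, f (γ • τ) = f τ) :
    Function.Periodic (f ∘ ofComplex) (1 : ℝ) := by
  intro w
  by_cases hw : 0 < Complex.im w
  · have hw' : 0 < Complex.im (w + ((1 : ℝ) : ℂ)) := by simpa using hw
    simp only [Function.comp_apply, ofComplex_apply_of_im_pos hw', ofComplex_apply_of_im_pos hw]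
    have h := hf _ (T_mem_Gamma0 N) ⟨w, hw⟩
    rw [← h]
    congr 1
    apply UpperHalfPlane.ext
    rw [UpperHalfPlane.modular_T_smul, UpperHalfPlane.coe_vadd]
    simp [add_comm]
  · have hw0 : Complex.im w ≤ 0 := not_lt.mp hw
    have hw' : Complex.im (w + ((1 : ℝ) : ℂ)) ≤ 0 := by simpa using hw0
    simp only [Function.comp_apply]
    rw [ofComplex_apply_of_im_nonpos hw', ofComplex_apply_of_im_nonpos hw0]

/-- Exponential growth gives a pole of finite order at `i∞`. -/
theorem isBounded_mul_qh_pow_of_expGrowth {f : ℍ → ℂ} (hf : ExpGrowth f) :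
    ∃ M : ℕ, IsBoundedAtImInfty (f * qh 1 ^ M) := by
  obtain ⟨C, m, h⟩ := hf
  refine ⟨m, ?_⟩
  rw [UpperHalfPlane.isBoundedAtImInfty_iff]
  refine ⟨C, 1, fun τ hτ => ?_⟩
  have h1 := h τ hτ
  have hq : ‖qh 1 τ‖ = Real.exp (-2 * π * τ.im) := by
    rw [qh_apply, Function.Periodic.norm_qParam]
    simp
  rw [Pi.mul_apply, Pi.pow_apply, norm_mul, norm_pow, hq, ← Real.exp_nat_mul]
  calc ‖f τ‖ * Real.exp (m * (-2 * π * τ.im))
      ≤ C * Real.exp (2 * π * m * τ.im) * Real.exp (m * (-2 * π * τ.im)) :=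
        mul_le_mul_of_nonneg_right h1 (Real.exp_pos _).le
    _ = C := by
        rw [mul_assoc, ← Real.exp_add]
        have : 2 * π * m * τ.im + m * (-2 * π * τ.im) = 0 := by ring
        rw [this, Real.exp_zero, mul_one]

theorem isMerInf_of_mem_goodRing {f : ℍ → ℂ} (hf : f ∈ goodRing N) : IsMerInf 1 f := by
  obtain ⟨h1, h2, h3⟩ := hf
  refine ⟨h1, ?_, ?_⟩
  · have := periodic_of_invariant h2
    simpa using this
  · have h := h3 1
    simp only [one_smul] at h
    exact isBounded_mul_qh_pow_of_expGrowth h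

theorem hasQExp_of_mem_goodRing {f : ℍ → ℂ} (hf : f ∈ goodRing N) :
    HasQExp 1 f (qexpFun 1 f) :=
  HasQExp.of_isMerInf (isMerInf_of_mem_goodRing hf)

variable (N)

/-- The algebra of `q`-expansions of good functions of level `N`. -/
def goodQ : Subalgebra ℂ (LaurentSeries ℂ) where
  carrier := {b | ∃ f ∈ goodRing N, HasQExp 1 f b}
  mul_mem' := by
    rintro a b ⟨f, hf, hfa⟩ ⟨g, hg, hgb⟩
    exact ⟨f * g, (goodRing N).mul_mem hf hg, hfa.mul hgb⟩
  add_mem' := by
    rintro a b ⟨f, hf, hfa⟩ ⟨g, hg, hgb⟩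
    exact ⟨f + g, (goodRing N).add_mem hf hg, hfa.add hgb⟩
  algebraMap_mem' := fun c => by
    refine ⟨fun _ => c, (goodRing N).algebraMap_mem c, ?_⟩
    have : algebraMap ℂ (LaurentSeries ℂ) c = HahnSeries.C c := by
      rw [algebraMap_laurentSeries_eq_single]; rfl
    rw [this]
    exact HasQExp.const 1 c

variable {N}

theorem mem_goodQ {b : LaurentSeries ℂ} :
    b ∈ goodQ N ↔ ∃ f ∈ goodRing N, HasQExp 1 f b := Iff.rfl

theorem qexpFun_mem_goodQ {f : ℍ → ℂ} (hf : f ∈ goodRing N) : qexpFun 1 f ∈ goodQ N :=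
  ⟨f, hf, hasQExp_of_mem_goodRing hf⟩

variable (N) in
theorem AK_le_goodQ [NeZero N] : AK ℂ N ≤ goodQ N := by
  intro b hb
  have hJ : ∃ C : ℝ, ∀ τ : ℍ, τ ∈ 𝒟 → ‖JFun.jFun τ‖ ≤ C * Real.exp (2 * π * τ.im) := by
    rw [jFun_eq_H648]
    exact Fermat.Agent.S24.H648.jFun_bound_fd
  exact exists_goodRing_hasQExp N hJ hb

variable (N) in
theorem JK_mem_goodQ [NeZero N] : JK ℂ ∈ goodQ N := AK_le_goodQ N (JK_mem_AK ℂ N)

/-- Every `q`-expansion of a good function is a root of a monic polynomial of degree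
`[SL₂(ℤ) : Γ₀(N)]` over `ℂ[j]`. -/
theorem exists_monic_of_mem_goodQ [NeZero N] {b : LaurentSeries ℂ} (hb : b ∈ goodQ N) :
    ∃ P : ℂ[X][X], P.Monic ∧ P.natDegree = Nat.card (XX N) ∧
      P.eval₂ (evJ (JK ℂ)) b = 0 := by
  obtain ⟨f, hf, hfb⟩ := hb
  haveI : Finite (SL(2, ℤ) ⧸ Gamma0 N) := inferInstanceAs (Finite (XX N))
  letI : Fintype (SL(2, ℤ) ⧸ Gamma0 N) := Fintype.ofFinite _
  obtain ⟨P, hPm, hPn, hP⟩ := exists_charPoly_jFun_eval_eq_zero (N := N) hf
  refine ⟨P, hPm, ?_, ?_⟩
  · rw [hPn, Nat.card_eq_fintype_card]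
  · have h1 := hasQExp_eval₂ P hfb
    rw [h1.eq_zero_iff]
    funext τ
    exact hP τ

theorem algDeg_of_mem_goodQ [NeZero N] {b : LaurentSeries ℂ} (hb : b ∈ goodQ N) :
    AlgDeg ℂ (Nat.card (XX N)) b := by
  obtain ⟨P, hPm, hPn, hP⟩ := exists_monic_of_mem_goodQ hb
  exact ⟨P, hPm.ne_zero, hPn.le, hP⟩

end Fermat.Agent.S29.H882

end
end
-- ===== PACK-END S29/H882/GoodQ.lean

-- ===== PACK-BEGIN S29/H882/FieldDeg.lean
section


/-!
# S29 / MERO (helper882), part 2: generic algebra

* `exists_relation_of_coeffMap_ne_zero`: descent of a NONZERO bivariate relation along a coefficient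
  embedding (generalises the monic case of the landed `S24.Deg457`).
* `exists_clear_denominators`: a polynomial over `K(j)` becomes, after multiplication by a nonzero
  element of `K[j]`, the image of a bivariate polynomial.
* `algDeg_of_mem_adjoin`: if every element of a subalgebra `B ∋ j` of `K((q))` is algebraic of
  degree `≤ n` over `K[j]`, so is every element of the field generated by `B`.
-/

set_option autoImplicit false

noncomputable section

open Polynomial ModularCurve IntermediateField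

namespace Fermat.Agent.S29.H882

open Fermat.Agent.S24 Fermat.Agent.S24.Deg457

section Descent

variable {K L : Type*} [Field K] [Field L]

/-- **Descent** of a nonzero relation of degree `≤ n` over `L[ι J]` for `ι a` to a nonzero relation
of degree `≤ n` over `K[J]` for `a`. -/
theorem exists_relation_of_coeffMap_ne_zero (ι : K →+* L) (J a : LaurentSeries K) (n : ℕ)
    (P : L[X][X]) (hP : P ≠ 0) (hn : P.natDegree ≤ n)
    (h0 : P.eval₂ (evJ (coeffMap ι J)) (coeffMap ι a) = 0) :
    ∃ Q : K[X][X], Q ≠ 0 ∧ Q.natDegree ≤ n ∧ Q.eval₂ (evJ J) a = 0 := by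
  classical
  set D : ℕ := P.support.sup fun k => (P.coeff k).natDegree with hD
  have hDle : ∀ k, (P.coeff k).natDegree ≤ D := by
    intro k
    by_cases hk : k ∈ P.support
    · exact Finset.le_sup (f := fun k => (P.coeff k).natDegree) hk
    · rw [notMem_support_iff.mp hk]; simp
  let v : Fin (D + 1) × Fin (n + 1) → LaurentSeries K := fun p => J ^ (p.1 : ℕ) * a ^ (p.2 : ℕ)
  have hnot : ¬ LinearIndependent K v := by
    intro hv
    have hw := linearIndependent_coeffMap ι v hv
    rw [Fintype.linearIndependent_iff] at hw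
    -- a nonzero coefficient of `P`
    have hlc : P.coeff P.natDegree ≠ 0 := by
      rw [coeff_natDegree]; exact leadingCoeff_ne_zero.mpr hP
    have hlc2 : (P.coeff P.natDegree).coeff (P.coeff P.natDegree).natDegree ≠ 0 := by
      rw [coeff_natDegree]; exact leadingCoeff_ne_zero.mpr hlc
    have key := hw (fun p => (P.coeff p.2).coeff p.1) ?_
      (⟨(P.coeff P.natDegree).natDegree, Nat.lt_succ_of_le (hDle _)⟩,
        ⟨P.natDegree, Nat.lt_succ_of_le hn⟩)
    · exact hlc2 key
    · rw [Fintype.sum_prod_type_right]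
      rw [eval₂_eq_sum_range' _ (n := n + 1) (Nat.lt_succ_of_le hn)] at h0
      rw [← h0, Finset.sum_range]
      refine Finset.sum_congr rfl fun k _ => ?_
      rw [evJ_apply, aeval_eq_sum_range' (n := D + 1) (Nat.lt_succ_of_le (hDle _)),
        Finset.sum_range, Finset.sum_mul]
      refine Finset.sum_congr rfl fun i _ => ?_
      simp only [v, map_mul, map_pow]
      rw [hsmul_eq_algebraMap_mul, Algebra.smul_def, mul_assoc]
  rw [Fintype.not_linearIndependent_iff] at hnot
  obtain ⟨g, hg, p, hp⟩ := hnot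
  refine ⟨tablePoly g, ?_, tablePoly_natDegree_le g, ?_⟩
  · intro h
    apply hp
    rw [← tablePoly_coeff_coeff g p.1 p.2, h]
    simp
  · rw [tablePoly_eval₂]
    exact hg

end Descent

section Clear

variable {K M : Type*} [Field K] [Field M] [Algebra K M]

/-- Clearing denominators of a polynomial over `K(j)`. -/
theorem exists_clear_denominators (j : M) (p : Polynomial (IntermediateField.adjoin K {j})) :
    ∃ (t : K[X]) (Q : K[X][X]), aeval (AdjoinSimple.gen K j) t ≠ 0 ∧
      Q.map ((aeval (AdjoinSimple.gen K j) : K[X] →ₐ[K] K⟮j⟯).toRingHom)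
        = C (aeval (AdjoinSimple.gen K j) t) * p := by
  set φ : K[X] →+* K⟮j⟯ := (aeval (AdjoinSimple.gen K j) : K[X] →ₐ[K] K⟮j⟯).toRingHom with hφ
  have hφa : ∀ t : K[X], φ t = aeval (AdjoinSimple.gen K j) t := fun _ => rfl
  induction p using Polynomial.induction_on' with
  | add p q hp hq =>
    obtain ⟨t₁, Q₁, h1, h1'⟩ := hp
    obtain ⟨t₂, Q₂, h2, h2'⟩ := hq
    refine ⟨t₁ * t₂, C t₂ * Q₁ + C t₁ * Q₂, ?_, ?_⟩
    · rw [map_mul]; exact mul_ne_zero h1 h2
    · rw [Polynomial.map_add, Polynomial.map_mul, Polynomial.map_mul, Polynomial.map_C,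
        Polynomial.map_C, h1', h2', hφa, hφa, map_mul, C_mul]
      ring
  | monomial k c =>
    obtain ⟨r, s, hrs⟩ := (IntermediateField.mem_adjoin_simple_iff K (c : M)).mp c.2
    by_cases hs : aeval (AdjoinSimple.gen K j) s = 0
    · -- then `c = 0`
      have hs' : aeval j s = 0 := by
        have := congrArg (algebraMap K⟮j⟯ M) hs
        rwa [← aeval_algebraMap_apply, AdjoinSimple.algebraMap_gen, map_zero] at this
      have hc : c = 0 := by
        apply Subtype.ext
        rw [hrs, hs', div_zero]; rfl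
      refine ⟨1, 0, ?_, ?_⟩
      · rw [map_one]; exact one_ne_zero
      · rw [hc]; simp
    · refine ⟨s, monomial k r, hs, ?_⟩
      rw [Polynomial.map_monomial, C_mul_monomial]
      congr 1
      rw [hφa]
      apply Subtype.ext
      have h1 : ((aeval (AdjoinSimple.gen K j) r : K⟮j⟯) : M) = aeval j r := by
        have := (aeval_algebraMap_apply M (AdjoinSimple.gen K j) r).symm
        rwa [AdjoinSimple.algebraMap_gen] at this
      have h2 : ((aeval (AdjoinSimple.gen K j) s : K⟮j⟯) : M) = aeval j s := by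
        have := (aeval_algebraMap_apply M (AdjoinSimple.gen K j) s).symm
        rwa [AdjoinSimple.algebraMap_gen] at this
      have hs' : aeval j s ≠ 0 := by
        intro h
        apply hs
        apply Subtype.ext
        rw [h2, h]; rfl
      rw [h1]
      show aeval j r = ((aeval (AdjoinSimple.gen K j) s : K⟮j⟯) : M) * (c : M)
      rw [h2, hrs]
      field_simp

end Clear

section Alg

variable {K : Type*} [Field K] [Algebra ℚ K]

theorem aeval_JK_mem (B : Subalgebra K (LaurentSeries K)) (hJ : JK K ∈ B) (t : K[X]) :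
    aeval (JK K) t ∈ B := by
  rw [aeval_def, eval₂_eq_sum_range]
  refine Subalgebra.sum_mem _ fun i _ => ?_
  exact Subalgebra.mul_mem _ (Subalgebra.algebraMap_mem _ _) (Subalgebra.pow_mem _ hJ _)

theorem eval₂_mem_subalgebra (B : Subalgebra K (LaurentSeries K)) (hJ : JK K ∈ B)
    (Q : K[X][X]) {s : LaurentSeries K} (hs : s ∈ B) :
    Q.eval₂ (evJ (JK K)) s ∈ B := by
  rw [eval₂_eq_sum_range]
  refine Subalgebra.sum_mem _ fun i _ => ?_
  exact Subalgebra.mul_mem _ (aeval_JK_mem B hJ _) (Subalgebra.pow_mem _ hs _)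

/-- a nonzero algebraic element of `B` has an "inverse up to a polynomial in `j`" in `B`. -/
theorem exists_mul_eq_aeval_subalgebra (B : Subalgebra K (LaurentSeries K)) (hJ : JK K ∈ B)
    {n : ℕ} {s : LaurentSeries K} (hs : s ∈ B) (hs0 : s ≠ 0)
    (ha : AlgDeg K n s) : ∃ g ∈ B, ∃ t : K[X], t ≠ 0 ∧ s * g = aeval (JK K) t := by
  obtain ⟨Q, hQ0, -, hQ⟩ := ha
  have key : ∀ m : ℕ, ∀ Q : K[X][X], Q.natDegree ≤ m → Q ≠ 0 → Q.eval₂ (evJ (JK K)) s = 0 →
      ∃ Q₁ : K[X][X], Q₁.coeff 0 ≠ 0 ∧ Q₁.eval₂ (evJ (JK K)) s = 0 := by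
    intro m
    induction m with
    | zero =>
      intro Q hdeg hQ0 hQ
      refine ⟨Q, ?_, hQ⟩
      intro h0
      apply hQ0
      rw [eq_C_of_natDegree_le_zero hdeg, h0, map_zero]
    | succ m ih =>
      intro Q hdeg hQ0 hQ
      by_cases h0 : Q.coeff 0 = 0
      · have hdiv : Q = divX Q * X := by
          conv_lhs => rw [← divX_mul_X_add Q, h0, map_zero, add_zero]
        have hd0 : divX Q ≠ 0 := by
          intro h; apply hQ0; rw [hdiv, h, zero_mul]
        have hev : (divX Q).eval₂ (evJ (JK K)) s = 0 := by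
          rw [hdiv, eval₂_mul, eval₂_X] at hQ
          rcases mul_eq_zero.mp hQ with h | h
          · exact h
          · exact absurd h hs0
        refine ih (divX Q) ?_ hd0 hev
        rw [natDegree_divX_eq_natDegree_tsub_one]
        omega
      · exact ⟨Q, h0, hQ⟩
  obtain ⟨Q₁, h0, hQ₁⟩ := key Q.natDegree Q le_rfl hQ0 hQ
  refine ⟨-(divX Q₁).eval₂ (evJ (JK K)) s, Subalgebra.neg_mem _ (eval₂_mem_subalgebra B hJ _ hs),
    Q₁.coeff 0, h0, ?_⟩
  have hsplit : Q₁.eval₂ (evJ (JK K)) s
      = (divX Q₁).eval₂ (evJ (JK K)) s * s + aeval (JK K) (Q₁.coeff 0) := by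
    conv_lhs => rw [← divX_mul_X_add Q₁]
    rw [eval₂_add, eval₂_mul, eval₂_X, eval₂_C, evJ_apply]
  rw [hQ₁] at hsplit
  linear_combination hsplit

/-- If every element of the subalgebra `B ∋ j` is algebraic of degree `≤ n` over `K[j]`, so is
every element of the field generated by `B`. -/
theorem algDeg_of_mem_adjoin (B : Subalgebra K (LaurentSeries K)) (hJ : JK K ∈ B) {n : ℕ}
    (hB : ∀ b ∈ B, AlgDeg K n b) {x : LaurentSeries K}
    (hx : x ∈ IntermediateField.adjoin K (B : Set (LaurentSeries K))) : AlgDeg K n x := by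
  rw [IntermediateField.mem_adjoin_iff_div] at hx
  obtain ⟨r, hr, s, hs, rfl⟩ := hx
  rw [Algebra.adjoin_eq] at hr hs
  by_cases hs0 : s = 0
  · subst hs0
    rw [div_zero]
    exact hB 0 (Subalgebra.zero_mem _)
  · obtain ⟨g, hg, t, ht, hst⟩ := exists_mul_eq_aeval_subalgebra B hJ hs hs0 (hB s hs)
    refine AlgDeg.of_mul_eq (a := r * g) ht ?_ (hB _ (Subalgebra.mul_mem _ hr hg))
    rw [← hst]
    field_simp

end Alg

end Fermat.Agent.S29.H882

end
end
-- ===== PACK-END S29/H882/FieldDeg.lean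

-- ===== PACK-BEGIN S29/H882/Inter.lean
section


/-!
# S29 / MERO (helper882), part (C): `F_L ∩ K((q)) = F_K`

For a field embedding `ι : K → L` and `F₀ ≤ ℚ((q))`: a Laurent series `y` over `K` whose base change
`coeffMap ι y` lies in `laurentBaseChange L F₀` already lies in `laurentBaseChange K F₀`.
-/

set_option autoImplicit false

noncomputable section

open Polynomial ModularCurve IntermediateField

namespace Fermat.Agent.S29.H882

open Fermat.Agent.S24 Fermat.Agent.S24.Deg457

section Span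

variable (L : Type*) [Field L] [Algebra ℚ L] (F₀ : IntermediateField ℚ (LaurentSeries ℚ))

/-- `coeffEmb` as a `ℚ`-linear map (for the `ℚ`-structure on `L((q))` induced by `L`). -/
theorem coeffEmb_smul_rat (c : ℚ) (u : LaurentSeries ℚ) :
    coeffEmb L (c • u) = (algebraMap ℚ L c) • coeffEmb L u := by
  ext k
  simp only [coeffEmb_coeff, HahnSeries.coeff_smul, smul_eq_mul, map_mul]

/-- The `L`-span of the image of `F₀`. -/
def spanImage : Submodule L (LaurentSeries L) :=
  Submodule.span L (⇑(coeffEmb L) '' (F₀ : Set (LaurentSeries ℚ)))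

variable {L F₀}

theorem coeffEmb_mem_spanImage {u : LaurentSeries ℚ} (hu : u ∈ F₀) :
    coeffEmb L u ∈ spanImage L F₀ :=
  Submodule.subset_span ⟨u, hu, rfl⟩

theorem spanImage_le : (spanImage L F₀ : Set (LaurentSeries L)) ⊆ laurentBaseChange L F₀ := by
  intro x hx
  refine Submodule.span_induction (p := fun x _ => x ∈ laurentBaseChange L F₀) ?_ ?_ ?_ ?_ hx
  · rintro _ ⟨u, hu, rfl⟩
    exact coeffEmb_mem_laurentBaseChange L hu
  · exact zero_mem _
  · intro a b _ _ ha hb
    exact add_mem ha hb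
  · intro c a _ ha
    rw [hsmul_eq_algebraMap_mul]
    exact mul_mem ((laurentBaseChange L F₀).algebraMap_mem c) ha

theorem mul_mem_spanImage {a b : LaurentSeries L} (ha : a ∈ spanImage L F₀)
    (hb : b ∈ spanImage L F₀) : a * b ∈ spanImage L F₀ := by
  refine Submodule.span_induction (p := fun a _ => a * b ∈ spanImage L F₀) ?_ ?_ ?_ ?_ ha
  · rintro _ ⟨u, hu, rfl⟩
    refine Submodule.span_induction (p := fun b _ => coeffEmb L u * b ∈ spanImage L F₀)
      ?_ ?_ ?_ ?_ hb
    · rintro _ ⟨v, hv, rfl⟩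
      rw [← map_mul]
      exact coeffEmb_mem_spanImage (mul_mem hu hv)
    · rw [mul_zero]; exact zero_mem _
    · intro x y _ _ hx hy
      rw [mul_add]; exact add_mem hx hy
    · intro c x _ hx
      have : coeffEmb L u * c • x = c • (coeffEmb L u * x) := by
        rw [hsmul_eq_algebraMap_mul, hsmul_eq_algebraMap_mul]; ring
      rw [this]; exact Submodule.smul_mem _ c hx
  · rw [zero_mul]; exact zero_mem _
  · intro x y _ _ hx hy
    rw [add_mul]; exact add_mem hx hy
  · intro c x _ hx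
    have : c • x * b = c • (x * b) := by
      rw [hsmul_eq_algebraMap_mul, hsmul_eq_algebraMap_mul]; ring
    rw [this]; exact Submodule.smul_mem _ c hx

theorem one_mem_spanImage : (1 : LaurentSeries L) ∈ spanImage L F₀ := by
  have := coeffEmb_mem_spanImage (L := L) (F₀ := F₀) (one_mem F₀)
  rwa [map_one] at this

theorem algebraMap_mem_spanImage (c : L) :
    algebraMap L (LaurentSeries L) c ∈ spanImage L F₀ := by
  have h : algebraMap L (LaurentSeries L) c = c • (1 : LaurentSeries L) := by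
    rw [hsmul_eq_algebraMap_mul, mul_one]
  rw [h]
  exact Submodule.smul_mem _ c one_mem_spanImage

variable (L F₀) in
/-- The span as a subalgebra. -/
def spanAlg : Subalgebra L (LaurentSeries L) where
  carrier := spanImage L F₀
  mul_mem' := mul_mem_spanImage
  add_mem' := fun ha hb => add_mem ha hb
  algebraMap_mem' := algebraMap_mem_spanImage

/-- Every element of the function field is a quotient of two elements of the span. -/
theorem exists_div_of_mem_laurentBaseChange {x : LaurentSeries L}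
    (hx : x ∈ laurentBaseChange L F₀) :
    ∃ r ∈ spanImage L F₀, ∃ s ∈ spanImage L F₀, x = r / s := by
  rw [laurentBaseChange, IntermediateField.mem_adjoin_iff_div] at hx
  obtain ⟨r, hr, s, hs, rfl⟩ := hx
  have hle : Algebra.adjoin L (⇑(coeffEmb L) '' (F₀ : Set (LaurentSeries ℚ))) ≤ spanAlg L F₀ :=
    Algebra.adjoin_le (fun x hx => Submodule.subset_span hx)
  exact ⟨r, hle hr, s, hle hs, rfl⟩

end Span

section Main

variable {K L : Type*} [Field K] [Algebra ℚ K] [Field L] [Algebra ℚ L]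

/-- A finite `ℚ`-independent family in `F₀` whose image spans two given elements of the span. -/
theorem exists_indep_family (F₀ : IntermediateField ℚ (LaurentSeries ℚ))
    {r s : LaurentSeries L} (hr : r ∈ spanImage L F₀) (hs : s ∈ spanImage L F₀) :
    ∃ (m : ℕ) (e : Fin m → LaurentSeries ℚ), (∀ i, e i ∈ F₀) ∧ LinearIndependent ℚ e ∧
      ∃ a b : Fin m → L, r = ∑ i, a i • coeffEmb L (e i) ∧ s = ∑ i, b i • coeffEmb L (e i) := by
  classical
  -- finite supports
  obtain ⟨lr, hlr, rfl⟩ := (Finsupp.mem_span_image_iff_linearCombination L).mp hr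
  obtain ⟨ls, hls, rfl⟩ := (Finsupp.mem_span_image_iff_linearCombination L).mp hs
  set S : Finset (LaurentSeries ℚ) := lr.support ∪ ls.support with hS
  have hSF : ∀ u ∈ S, u ∈ F₀ := by
    intro u hu
    rcases Finset.mem_union.mp hu with h | h
    · exact hlr h
    · exact hls h
  obtain ⟨B, hBt, hspan, hind⟩ := exists_linearIndependent ℚ (S : Set (LaurentSeries ℚ))
  have hBfin : B.Finite := (Finset.finite_toSet S).subset hBt
  haveI : Fintype B := hBfin.fintype
  -- the image of every element of `S` lies in the `L`-span of the image of `B`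
  let EL : LaurentSeries ℚ →ₗ[ℚ] LaurentSeries L :=
    { toFun := coeffEmb L
      map_add' := map_add _
      map_smul' := fun c u => by
        rw [coeffEmb_smul_rat, RingHom.id_apply, algebraMap_smul] }
  have hmem : ∀ u ∈ S, coeffEmb L u ∈ Submodule.span L (Set.range fun e : B => coeffEmb L (e : _)) := by
    intro u hu
    have h1 : u ∈ Submodule.span ℚ B := by
      rw [hspan]; exact Submodule.subset_span hu
    have h2 := Submodule.apply_mem_span_image_of_mem_span EL h1
    have h3 : Submodule.span ℚ (EL '' B) ≤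
        (Submodule.span L (EL '' B)).restrictScalars ℚ := Submodule.span_le_restrictScalars ℚ L _
    have h4 := h3 h2
    have h5 : (EL '' B) = Set.range fun e : B => coeffEmb L (e : _) := by
      ext x
      constructor
      · rintro ⟨u, hu, rfl⟩; exact ⟨⟨u, hu⟩, rfl⟩
      · rintro ⟨⟨u, hu⟩, rfl⟩; exact ⟨u, hu, rfl⟩
    rw [h5] at h4
    exact h4
  have hlin : ∀ l : LaurentSeries ℚ →₀ L, (l.support ⊆ S) →
      Finsupp.linearCombination L (⇑(coeffEmb L)) l ∈
        Submodule.span L (Set.range fun e : B => coeffEmb L (e : _)) := by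
    intro l hl
    rw [Finsupp.linearCombination_apply, Finsupp.sum]
    refine Submodule.sum_mem _ fun u hu => ?_
    exact Submodule.smul_mem _ _ (hmem u (hl hu))
  have hr' := hlin lr Finset.subset_union_left
  have hs' := hlin ls Finset.subset_union_right
  rw [Submodule.mem_span_range_iff_exists_fun] at hr' hs'
  obtain ⟨a, ha⟩ := hr'
  obtain ⟨b, hb⟩ := hs'
  -- reindex by `Fin m`
  let eq := Fintype.equivFin B
  refine ⟨Fintype.card B, fun i => ((eq.symm i : B) : LaurentSeries ℚ), ?_, ?_,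
    fun i => a (eq.symm i), fun i => b (eq.symm i), ?_, ?_⟩
  · intro i
    exact hSF _ (hBt (eq.symm i).2)
  · exact hind.comp _ eq.symm.injective
  · rw [← ha]
    exact (Equiv.sum_comp eq.symm (fun e : B => a e • coeffEmb L (e : LaurentSeries ℚ))).symm
  · rw [← hb]
    exact (Equiv.sum_comp eq.symm (fun e : B => b e • coeffEmb L (e : LaurentSeries ℚ))).symm

/-- **(C)** `F_L ∩ K((q)) = F_K`. -/
theorem mem_laurentBaseChange_of_coeffMap_mem (ι : K →+* L)
    (F₀ : IntermediateField ℚ (LaurentSeries ℚ)) {y : LaurentSeries K}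
    (hy : coeffMap ι y ∈ laurentBaseChange L F₀) : y ∈ laurentBaseChange K F₀ := by
  classical
  obtain ⟨r, hr, s, hs, hrs⟩ := exists_div_of_mem_laurentBaseChange hy
  by_cases hs0 : s = 0
  · -- then `coeffMap ι y = 0`, so `y = 0`
    rw [hs0, div_zero] at hrs
    have : y = 0 := by
      ext k
      have := congrArg (fun z : LaurentSeries L => z.coeff k) hrs
      simp only [coeffMap_coeff, HahnSeries.coeff_zero] at this
      simpa using this
    rw [this]; exact zero_mem _
  obtain ⟨m, e, heF, hind, a, b, hra, hsb⟩ := exists_indep_family F₀ hr hs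
  have hxs : coeffMap ι y * s = r := by
    rw [hrs]; field_simp
  -- the family over `K`
  let w : Fin m ⊕ Fin m → LaurentSeries K :=
    Sum.elim (fun i => y * coeffEmb K (e i)) (fun i => coeffEmb K (e i))
  have hindK : LinearIndependent K (fun i => coeffEmb K (e i)) := by
    have := linearIndependent_coeffMap (algebraMap ℚ K) e hind
    exact this
  have hnot : ¬ LinearIndependent K w := by
    intro hw
    have hL := linearIndependent_coeffMap ι w hw
    rw [Fintype.linearIndependent_iff] at hL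
    have key := hL (Sum.elim b (fun i => -a i)) ?_
    · apply hs0
      rw [hsb]
      refine Finset.sum_eq_zero fun i _ => ?_
      have := key (Sum.inl i)
      simp only [Sum.elim_inl] at this
      rw [this, zero_smul]
    · rw [Fintype.sum_sum_type]
      simp only [Sum.elim_inl, Sum.elim_inr, w, map_mul, coeffMap_coeffEmb']
      have h1 : ∑ i, b i • (coeffMap ι y * coeffEmb L (e i)) = coeffMap ι y * s := by
        rw [hsb, Finset.mul_sum]
        refine Finset.sum_congr rfl fun i _ => ?_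
        rw [hsmul_eq_algebraMap_mul, hsmul_eq_algebraMap_mul]; ring
      have h2 : ∑ i, (-a i) • coeffEmb L (e i) = -r := by
        rw [hra, ← Finset.sum_neg_distrib]
        refine Finset.sum_congr rfl fun i _ => ?_
        rw [neg_smul]
      rw [h1, h2, hxs, add_neg_cancel]
  rw [Fintype.not_linearIndependent_iff] at hnot
  obtain ⟨g, hg, i₀, hi₀⟩ := hnot
  rw [Fintype.sum_sum_type] at hg
  simp only [Sum.elim_inl, Sum.elim_inr, w] at hg
  set s' : LaurentSeries K := ∑ i, g (Sum.inl i) • coeffEmb K (e i) with hs'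
  set r' : LaurentSeries K := -∑ i, g (Sum.inr i) • coeffEmb K (e i) with hr'
  have hys : y * s' = r' := by
    have h1 : ∑ i, g (Sum.inl i) • (y * coeffEmb K (e i)) = y * s' := by
      rw [hs', Finset.mul_sum]
      refine Finset.sum_congr rfl fun i _ => ?_
      rw [hsmul_eq_algebraMap_mul, hsmul_eq_algebraMap_mul]; ring
    rw [h1] at hg
    rw [hr']
    exact eq_neg_of_add_eq_zero_left hg
  have hs'mem : s' ∈ laurentBaseChange K F₀ := by
    refine sum_mem fun i _ => ?_
    rw [hsmul_eq_algebraMap_mul]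
    exact mul_mem ((laurentBaseChange K F₀).algebraMap_mem _)
      (coeffEmb_mem_laurentBaseChange K (heF i))
  have hr'mem : r' ∈ laurentBaseChange K F₀ := by
    refine neg_mem (sum_mem fun i _ => ?_)
    rw [hsmul_eq_algebraMap_mul]
    exact mul_mem ((laurentBaseChange K F₀).algebraMap_mem _)
      (coeffEmb_mem_laurentBaseChange K (heF i))
  have hs'0 : s' ≠ 0 := by
    intro h0
    rw [Fintype.linearIndependent_iff] at hindK
    have hb0 : ∀ i, g (Sum.inl i) = 0 := hindK _ h0
    have hr0 : r' = 0 := by rw [← hys, h0, mul_zero]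
    have ha0 : ∀ i, g (Sum.inr i) = 0 := hindK _ (neg_eq_zero.mp hr0)
    rcases i₀ with i | i
    · exact hi₀ (hb0 i)
    · exact hi₀ (ha0 i)
  have : y = r' / s' := by
    rw [← hys]; field_simp
  rw [this]
  exact div_mem hr'mem hs'mem

end Main

end Fermat.Agent.S29.H882

end
end
-- ===== PACK-END S29/H882/Inter.lean

-- ===== PACK-BEGIN Lib/FF398/Local.lean
section







/-!
# Lib/FF398 — relative theory of places for a finite extension `F'/F` of function fields

For a place `v` of `F` and a finite extension `F'/F` (characteristic zero) we use the integral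
closure `S` of `O_v` in `F'` (a semi-local Dedekind domain) as a dictionary:
places of `F'` over `v`  ↔  height-one primes of `S`.

Main results of this file (helper398):
* `placeOf v q` : the place of `F'` attached to a height one prime `q` of `S`;
* `restrict_placeOf`, `exists_placeOf_eq`, `placeOf_injective` : the dictionary;
* `ord_placeOf` : `ord` of `placeOf v q` is the `q`-adic valuation.
-/

set_option autoImplicit false
set_option linter.unusedSectionVars false

open AlgebraicCurve IsDedekindDomain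

namespace Fermat.Agent.Lib.FF398

section Max

variable {K F : Type*} [Field K] [Field F] [Algebra K F]

/-- Discrete valuation rings are maximal subrings: comparable places are equal. -/
theorem place_eq_of_le {v w : Place K F} (h : v.toValuationSubring ≤ w.toValuationSubring) :
    v = w :=
  Place.ext (ValuationSubring.eq_of_le_of_ne_top _ h w.ne_top')

end Max

section Local

variable {K F F' : Type*} [Field K] [Field F] [Field F'] [Algebra K F] [Algebra K F']
  [Algebra F F'] [IsScalarTower K F F'] [FiniteDimensional F F'] [CharZero F]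
variable (v : Place K F)

variable (F') in
/-- The integral closure of `O_v` in `F'`. -/
abbrev intCl : Subalgebra v.toValuationSubring F' := integralClosure v.toValuationSubring F'

omit [Algebra K F'] [IsScalarTower K F F'] [FiniteDimensional F F'] [CharZero F] in
theorem algebraMap_OF'_injective :
    Function.Injective (algebraMap v.toValuationSubring F') := by
  intro a b h
  apply Subtype.ext
  exact (algebraMap F F').injective h

instance (priority := 2000) instFaithfulOF' : FaithfulSMul v.toValuationSubring F' :=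
  (faithfulSMul_iff_algebraMap_injective _ _).mpr (algebraMap_OF'_injective v)

instance (priority := 2000) instTorsionFreeOF' :
    Module.IsTorsionFree v.toValuationSubring F' :=
  FaithfulSMul.to_isTorsionFree _ _

instance (priority := 2000) instTorsionFreeIntCl :
    Module.IsTorsionFree v.toValuationSubring (intCl F' v) :=
  Subalgebra.instIsTorsionFree (intCl F' v)

instance instTowerKOF' : IsScalarTower K v.toValuationSubring F' :=
  IsScalarTower.of_algebraMap_eq fun a => by
    show algebraMap K F' a = algebraMap F F' (algebraMap K F a)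
    rw [← IsScalarTower.algebraMap_apply]

instance instDedekindIntCl : IsDedekindDomain (intCl F' v) :=
  integralClosure.isDedekindDomain v.toValuationSubring F F'

instance instFracIntCl : IsFractionRing (intCl F' v) F' :=
  IsIntegralClosure.isFractionRing_of_finite_extension v.toValuationSubring F F' (intCl F' v)

instance instFiniteIntCl : Module.Finite v.toValuationSubring (intCl F' v) :=
  IsIntegralClosure.finite v.toValuationSubring F F' (intCl F' v)

instance instFreeIntCl : Module.Free v.toValuationSubring (intCl F' v) :=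
  Module.free_of_finite_type_torsion_free'

/-- The place of `F'` attached to a height-one prime of the integral closure of `O_v`. -/
noncomputable def placeOf (q : HeightOneSpectrum (intCl F' v)) : Place K F' :=
  Place.ofHeightOneSpectrum (K := K) q

theorem placeOf_toValuationSubring (q : HeightOneSpectrum (intCl F' v)) :
    (placeOf v q).toValuationSubring = (q.valuation F').valuationSubring := rfl

theorem mem_placeOf_iff (q : HeightOneSpectrum (intCl F' v)) (g : F') :
    g ∈ (placeOf v q).toValuationSubring ↔ q.valuation F' g ≤ 1 := Iff.rfl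

/-- `placeOf v q` lies over `v`. -/
theorem restrict_placeOf (q : HeightOneSpectrum (intCl F' v)) :
    (placeOf v q).restrict F = v := by
  symm
  apply place_eq_of_le
  intro a ha
  rw [Place.restrict_toValuationSubring, ValuationSubring.mem_comap, mem_placeOf_iff]
  have : algebraMap F F' a = algebraMap (intCl F' v) F'
      (algebraMap v.toValuationSubring (intCl F' v) ⟨a, ha⟩) := rfl
  rw [this]
  exact q.valuation_le_one _

/-- The order function of `placeOf v q` is the `q`-adic valuation. -/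
theorem ord_placeOf (q : HeightOneSpectrum (intCl F' v)) (g : F') :
    (placeOf v q).ord g = -(WithZero.log (q.valuation F' g)) := by
  rcases eq_or_ne g 0 with rfl | hg
  · simp
  symm
  obtain ⟨π, hπ⟩ := q.valuation_exists_uniformizer F'
  have hπ0 : π ≠ 0 := by
    rintro rfl
    rw [map_zero] at hπ
    exact WithZero.exp_ne_zero hπ.symm
  refine Fermat.Agent.S24.FF.ordLike_eq_ord (fun g => -(WithZero.log (q.valuation F' g)))
    (fun f g hf hg => ?_) (placeOf v q) (fun f hf => ?_) hπ0 ?_ hg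
  · rw [map_mul, WithZero.log_mul ((Valuation.ne_zero_iff _).mpr hf)
      ((Valuation.ne_zero_iff _).mpr hg)]
    ring
  · rw [mem_placeOf_iff, neg_nonneg,
      WithZero.log_le_iff_le_exp ((Valuation.ne_zero_iff _).mpr hf)]
    rfl
  · rw [hπ, WithZero.log_exp]
    ring

/-- Membership in a height-one prime, read off from the valuation subring. -/
theorem mem_asIdeal_iff (q : HeightOneSpectrum (intCl F' v)) (s : intCl F' v) :
    s ∈ q.asIdeal ↔ s = 0 ∨ ((s : F'))⁻¹ ∉ (placeOf v q).toValuationSubring := by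
  rw [mem_placeOf_iff, ← q.valuation_lt_one_iff_mem (K := F')]
  show q.valuation F' (s : F') < 1 ↔ s = 0 ∨ ¬ q.valuation F' ((s : F'))⁻¹ ≤ 1
  rcases eq_or_ne s 0 with rfl | hs
  · simp
  have hs' : (s : F') ≠ 0 := fun h => hs (Subtype.ext h)
  have hv0 : q.valuation F' (s : F') ≠ 0 := (Valuation.ne_zero_iff _).mpr hs'
  rw [map_inv₀, not_le, one_lt_inv₀ (zero_lt_iff.mpr hv0)]
  simp [hs]

theorem placeOf_injective : Function.Injective (placeOf (F' := F') v) := by
  intro q q' h
  apply HeightOneSpectrum.ext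
  ext s
  rw [mem_asIdeal_iff, mem_asIdeal_iff, h]

omit [CharZero F] in
/-- The integral closure of `O_{w|F}` is contained in `O_w`. -/
theorem coe_intCl_mem (w : Place K F') (s : intCl F' (w.restrict F)) :
    (s : F') ∈ w.toValuationSubring := by
  obtain ⟨p, hp, hps⟩ := s.2
  have hint : IsIntegral w.toValuationSubring (s : F') := by
    refine ⟨p.map (Place.restrictInclusion F w), hp.map _, ?_⟩
    rw [Polynomial.eval₂_map]
    exact hps
  obtain ⟨y, hy⟩ := IsIntegrallyClosed.isIntegral_iff.mp hint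
  rw [← hy]
  exact y.2

/-- The inclusion of the integral closure of `O_{w|F}` into `O_w`. -/
def intClInclusion (w : Place K F') : intCl F' (w.restrict F) →+* w.toValuationSubring where
  toFun s := ⟨(s : F'), coe_intCl_mem w s⟩
  map_one' := rfl
  map_mul' _ _ := rfl
  map_zero' := rfl
  map_add' _ _ := rfl

@[simp]
theorem coe_intClInclusion (w : Place K F') (s : intCl F' (w.restrict F)) :
    ((intClInclusion w s : w.toValuationSubring) : F') = (s : F') := rfl

/-- The centre of `w` on the integral closure of `O_{w|F}`. -/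
def centre (w : Place K F') : Ideal (intCl F' (w.restrict F)) :=
  Ideal.comap (intClInclusion w) (IsLocalRing.maximalIdeal w.toValuationSubring)

instance centre_isPrime (w : Place K F') : (centre (F := F) w).IsPrime :=
  Ideal.comap_isPrime _ _

theorem centre_ne_bot (w : Place K F') : centre (F := F) w ≠ ⊥ := by
  obtain ⟨π, hπ⟩ := IsDiscreteValuationRing.exists_irreducible (w.restrict F).toValuationSubring
  intro h
  have hmem : algebraMap (w.restrict F).toValuationSubring (intCl F' (w.restrict F)) π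
      ∈ centre (F := F) w := by
    rw [centre, Ideal.mem_comap, IsLocalRing.mem_maximalIdeal, mem_nonunits_iff]
    intro hu
    have hu' : IsUnit (Place.restrictInclusion F w π) := hu
    exact hπ.not_isUnit (isUnit_of_map_unit (Place.restrictInclusion F w) π hu')
  rw [h, Ideal.mem_bot] at hmem
  have hinj : Function.Injective
      (algebraMap (w.restrict F).toValuationSubring (intCl F' (w.restrict F))) :=
    FaithfulSMul.algebraMap_injective _ _
  exact hπ.ne_zero (hinj (by rw [hmem, map_zero]))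

/-- The centre of `w` as a height-one prime. -/
def centrePrime (w : Place K F') : HeightOneSpectrum (intCl F' (w.restrict F)) :=
  ⟨centre w, centre_isPrime w, centre_ne_bot w⟩

theorem placeOf_centrePrime (w : Place K F') : placeOf (w.restrict F) (centrePrime w) = w := by
  apply place_eq_of_le
  intro g hg
  rw [mem_placeOf_iff] at hg
  obtain ⟨n, d, hnd⟩ := (centrePrime w).exists_primeCompl_mul_eq_of_integer g hg
  have hd : (d : intCl F' (w.restrict F)) ∉ centre (F := F) w := d.2
  rw [centre, Ideal.mem_comap, IsLocalRing.mem_maximalIdeal, mem_nonunits_iff, not_not] at hd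
  obtain ⟨b, hb⟩ := isUnit_iff_exists_inv.mp hd
  have hb' : ((d : intCl F' (w.restrict F)) : F') * (b : F') = 1 := congrArg Subtype.val hb
  have hd0 : ((d : intCl F' (w.restrict F)) : F') ≠ 0 := left_ne_zero_of_mul_eq_one hb'
  have hg' : g = ((n : F')) * (b : F') := by
    have h1 : g * ((d : intCl F' (w.restrict F)) : F') = (n : F') := hnd
    calc g = g * (((d : intCl F' (w.restrict F)) : F') * (b : F')) := by rw [hb', mul_one]
      _ = (n : F') * (b : F') := by rw [← mul_assoc, h1]
  rw [hg']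
  exact mul_mem (coe_intCl_mem w n) b.2

/-- Every place of `F'` over `v` comes from a height-one prime of the integral closure. -/
theorem exists_placeOf_eq (w : Place K F') (hw : w.restrict F = v) :
    ∃ q : HeightOneSpectrum (intCl F' v), placeOf v q = w := by
  subst hw
  exact ⟨centrePrime w, placeOf_centrePrime w⟩

theorem range_placeOf : Set.range (placeOf (F' := F') v) = {w : Place K F' | w.restrict F = v} := by
  ext w
  constructor
  · rintro ⟨q, rfl⟩
    exact restrict_placeOf v q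
  · intro hw
    exact exists_placeOf_eq v w hw

/-! ### Primes over the maximal ideal of `O_v` -/

/-- The maximal ideal of `O_v`. -/
abbrev pv : Ideal v.toValuationSubring := IsLocalRing.maximalIdeal v.toValuationSubring

theorem pv_ne_bot : pv v ≠ ⊥ := IsDiscreteValuationRing.not_a_field _

theorem algebraMap_O_intCl_injective :
    Function.Injective (algebraMap v.toValuationSubring (intCl F' v)) :=
  FaithfulSMul.algebraMap_injective _ _

theorem map_pv_ne_bot : (pv v).map (algebraMap v.toValuationSubring (intCl F' v)) ≠ ⊥ := by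
  rw [Ne, Ideal.map_eq_bot_iff_of_injective (algebraMap_O_intCl_injective v)]
  exact pv_ne_bot v

instance liesOver_pv (q : HeightOneSpectrum (intCl F' v)) : q.asIdeal.LiesOver (pv v) := by
  constructor
  have hprime : (q.asIdeal.under v.toValuationSubring).IsPrime := Ideal.IsPrime.under _ _
  have hne : q.asIdeal.under v.toValuationSubring ≠ ⊥ :=
    Ideal.under_ne_bot v.toValuationSubring q.ne_bot
  have hmax : (q.asIdeal.under v.toValuationSubring).IsMaximal := hprime.isMaximal hne
  exact (IsLocalRing.eq_maximalIdeal hmax).symm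

instance isMaximal_asIdeal (q : HeightOneSpectrum (intCl F' v)) : q.asIdeal.IsMaximal :=
  q.isPrime.isMaximal q.ne_bot

/-- The height-one prime attached to a prime over `𝔪_v`. -/
def primeOfOver (q : (pv v).primesOver (intCl F' v)) : HeightOneSpectrum (intCl F' v) :=
  ⟨q.1, q.2.1, by
    have := q.2.2
    exact Ideal.ne_bot_of_liesOver_of_ne_bot (pv_ne_bot v) q.1⟩

@[simp]
theorem primeOfOver_asIdeal (q : (pv v).primesOver (intCl F' v)) :
    (primeOfOver v q).asIdeal = q.1 := rfl

theorem primeOfOver_injective : Function.Injective (primeOfOver (F' := F') v) := by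
  intro q q' h
  apply Subtype.ext
  exact congrArg HeightOneSpectrum.asIdeal h

theorem primeOfOver_surjective : Function.Surjective (primeOfOver (F' := F') v) := by
  intro q
  exact ⟨⟨q.asIdeal, q.isPrime, liesOver_pv v q⟩, rfl⟩

instance finite_primesOver : Finite ((pv v).primesOver (intCl F' v)) :=
  (Algebra.QuasiFinite.finite_primesOver (pv v)).to_subtype

instance finite_heightOneSpectrum : Finite (HeightOneSpectrum (intCl F' v)) :=
  Finite.of_surjective _ (primeOfOver_surjective v)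

/-- The fibre over `v` is finite (no `HasPrincipalDivisors` needed). -/
theorem finite_fibre : {w : Place K F' | w.restrict F = v}.Finite := by
  rw [← range_placeOf]
  exact Set.finite_range _

/-! ### Ramification index and residue degree -/

theorem mem_asIdeal_iff_ord (q : HeightOneSpectrum (intCl F' v)) (s : intCl F' v) :
    s ∈ q.asIdeal ↔ s = 0 ∨ 0 < (placeOf v q).ord (s : F') := by
  rcases eq_or_ne s 0 with rfl | hs
  · simp
  have hs' : (s : F') ≠ 0 := fun h => hs (Subtype.ext h)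
  have hv0 : q.valuation F' (s : F') ≠ 0 := (Valuation.ne_zero_iff _).mpr hs'
  rw [ord_placeOf, neg_pos, WithZero.log_lt_iff_lt_exp hv0, ← q.valuation_lt_one_iff_mem (K := F')]
  simp only [hs, false_or]
  rfl

theorem ord_placeOf_coe_nonneg (q : HeightOneSpectrum (intCl F' v)) (s : intCl F' v) :
    0 ≤ (placeOf v q).ord (s : F') :=
  (Fermat.Agent.S24.FF.mem_iff_ord_nonneg _).mp
    ((mem_placeOf_iff v q _).mpr (q.valuation_le_one s))

/-- The ramification index of `placeOf v q` (in the sense of the Prelude) is Mathlib's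
ramification index of `q` over `O_v`. -/
theorem ramificationIndex_placeOf (q : HeightOneSpectrum (intCl F' v)) :
    ((placeOf v q).ramificationIndex F : ℤ)
      = (q.asIdeal.ramificationIdx v.toValuationSubring : ℤ) := by
  obtain ⟨π, hπ, hπ1⟩ := Fermat.Agent.S24.FF.exists_irreducible_coe v
  have h1 := (placeOf v q).ord_restrict (F := F) (π : F)
  rw [restrict_placeOf, hπ1, mul_one] at h1
  rw [← h1, ord_placeOf]
  have hπS : algebraMap v.toValuationSubring (intCl F' v) π ≠ 0 := fun h =>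
    hπ.ne_zero (algebraMap_O_intCl_injective v (by rw [h, map_zero]))
  have h2 : q.valuation F' (algebraMap F F' (π : F))
      = q.intValuation (algebraMap v.toValuationSubring (intCl F' v) π) :=
    q.valuation_of_algebraMap (algebraMap v.toValuationSubring (intCl F' v) π)
  rw [h2, q.intValuation_eq_exp_neg_multiplicity hπS, WithZero.log_exp, neg_neg,
    Ideal.IsDedekindDomain.ramificationIdx_eq_multiplicity (pv v) q.asIdeal (map_pv_ne_bot v)]
  have h3 : (pv v).map (algebraMap v.toValuationSubring (intCl F' v))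
      = Ideal.span {algebraMap v.toValuationSubring (intCl F' v) π} := by
    rw [pv, hπ.maximalIdeal_eq, Ideal.map_span, Set.image_singleton]
  rw [h3]

/-- If all places of `F'` have degree one, residue degrees over `O_v` are one. -/
theorem inertiaDeg_intCl_eq_one (hdeg' : ∀ w : Place K F', w.deg = 1)
    (q : HeightOneSpectrum (intCl F' v)) :
    q.asIdeal.inertiaDeg v.toValuationSubring = 1 := by
  refine Fermat.Agent.S24.FF.inertiaDeg_eq_one_of_forall_exists (pv v) q.asIdeal fun s => ?_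
  obtain ⟨c, hc⟩ := Fermat.Agent.Lib.RR.exists_const_sub (placeOf v q) (hdeg' _)
    (ord_placeOf_coe_nonneg v q s)
  refine ⟨algebraMap K v.toValuationSubring c, ?_⟩
  rw [mem_asIdeal_iff_ord]
  have hcoe : ((s - algebraMap v.toValuationSubring (intCl F' v)
      (algebraMap K v.toValuationSubring c) : intCl F' v) : F') = (s : F') - algebraMap K F' c := by
    rw [IsScalarTower.algebraMap_apply K F F']
    rfl
  rcases hc with hc | hc
  · left
    apply Subtype.ext
    rw [hcoe]
    exact hc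
  · right
    rw [hcoe]
    exact hc

omit [CharZero F] [FiniteDimensional F F'] in
/-- If all places of `F'` have degree one, the Prelude's residue degrees are one. -/
theorem inertiaDeg_eq_one [Algebra.IsIntegral F F'] (hdeg' : ∀ w : Place K F', w.deg = 1)
    (w : Place K F') : w.inertiaDeg F = 1 := by
  have h := w.deg_restrict_mul_inertiaDeg (F := F)
  rw [hdeg' w] at h
  exact (mul_eq_one.mp h).2

omit [CharZero F] [FiniteDimensional F F'] in
theorem deg_restrict_eq_one [Algebra.IsIntegral F F'] (hdeg' : ∀ w : Place K F', w.deg = 1)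
    (w : Place K F') : (w.restrict F).deg = 1 := by
  have h := w.deg_restrict_mul_inertiaDeg (F := F)
  rw [hdeg' w] at h
  exact (mul_eq_one.mp h).1

/-- **Local fundamental identity** `∑_{w | v} e(w|v) = [F' : F]`. -/
theorem sum_ramificationIndex (hdeg' : ∀ w : Place K F', w.deg = 1)
    (s : Finset (Place K F')) (hs : ∀ w, w ∈ s ↔ w.restrict F = v) :
    ∑ w ∈ s, (w.ramificationIndex F : ℤ) = (Module.finrank F F' : ℤ) := by
  let _ : Fintype ((pv v).primesOver (intCl F' v)) := Fintype.ofFinite _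
  have h := Ideal.sum_ramification_inertia_eq_finrank (pv v) (intCl F' v)
  rw [IsFractionRing.finrank_eq v.toValuationSubring F (intCl F' v) F', ← h]
  push_cast
  symm
  refine Finset.sum_bij (fun q _ => placeOf v (primeOfOver v q)) ?_ ?_ ?_ ?_
  · intro q _
    exact (hs _).mpr (restrict_placeOf v _)
  · intro q _ q' _ h
    exact primeOfOver_injective v (placeOf_injective v h)
  · intro w hw
    obtain ⟨q, hq⟩ := exists_placeOf_eq v w ((hs w).mp hw)
    obtain ⟨q', rfl⟩ := primeOfOver_surjective v q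
    exact ⟨q', Finset.mem_univ _, hq⟩
  · intro q _
    have h1 := inertiaDeg_intCl_eq_one v hdeg' (primeOfOver v q)
    rw [primeOfOver_asIdeal] at h1
    rw [ramificationIndex_placeOf, primeOfOver_asIdeal, h1]
    simp

/-! ### Norm formula -/

open UniqueFactorizationMonoid

theorem ord_coe_eq_multiplicity (a : v.toValuationSubring) (ha : a ≠ 0) :
    v.ord (a : F) = (multiplicity (pv v) (Ideal.span {a}) : ℤ) := by
  rw [Place.ord, v.adicValuation_coe, v.heightOneSpectrum.intValuation_eq_exp_neg_multiplicity ha,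
    WithZero.log_exp, neg_neg]
  rfl

theorem ord_placeOf_coe_eq_multiplicity (q : HeightOneSpectrum (intCl F' v)) (x : intCl F' v)
    (hx : x ≠ 0) :
    (placeOf v q).ord (x : F') = (multiplicity q.asIdeal (Ideal.span {x}) : ℤ) := by
  rw [ord_placeOf]
  have h2 : q.valuation F' (x : F') = q.intValuation x := q.valuation_of_algebraMap x
  rw [h2, q.intValuation_eq_exp_neg_multiplicity hx, WithZero.log_exp, neg_neg]

theorem multiplicity_eq_count (q : HeightOneSpectrum (intCl F' v)) (I : Ideal (intCl F' v))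
    (hI : I ≠ ⊥) :
    multiplicity q.asIdeal I = (normalizedFactors I).count q.asIdeal := by
  have hq : Prime q.asIdeal := Ideal.prime_of_isPrime q.ne_bot q.isPrime
  rw [multiplicity_eq_of_emultiplicity_eq_some
    (emultiplicity_eq_count_normalizedFactors hq.irreducible hI), normalize_eq]

theorem sum_count_eq_card [Fintype (HeightOneSpectrum (intCl F' v))] (I : Ideal (intCl F' v))
    (hI : I ≠ ⊥) :
    ∑ q : HeightOneSpectrum (intCl F' v), (normalizedFactors I).count q.asIdeal
      = Multiset.card (normalizedFactors I) := by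
  classical
  rw [← Multiset.toFinset_sum_count_eq]
  have hinj : Function.Injective
      (fun q : HeightOneSpectrum (intCl F' v) => q.asIdeal) := fun q q' h =>
    HeightOneSpectrum.ext h
  rw [← Finset.sum_image (s := Finset.univ)
    (f := fun P : Ideal (intCl F' v) => (normalizedFactors I).count P)
    (g := fun q : HeightOneSpectrum (intCl F' v) => q.asIdeal) (fun q _ q' _ h => hinj h)]
  symm
  refine Finset.sum_subset ?_ ?_
  · intro P hP
    rw [Multiset.mem_toFinset, Ideal.mem_normalizedFactors_iff hI] at hP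
    have hPne : P ≠ ⊥ := fun h => hI (le_bot_iff.mp (h ▸ hP.2))
    exact Finset.mem_image.mpr ⟨⟨P, hP.1, hPne⟩, Finset.mem_univ _, rfl⟩
  · intro P _ hP
    rw [Multiset.mem_toFinset] at hP
    exact Multiset.count_eq_zero_of_notMem hP

theorem relNorm_eq_pow (hdeg' : ∀ w : Place K F', w.deg = 1) (I : Ideal (intCl F' v))
    (hI : I ≠ ⊥) :
    Ideal.relNorm v.toValuationSubring I = (pv v) ^ Multiset.card (normalizedFactors I) := by
  conv_lhs => rw [← Ideal.prod_normalizedFactors_eq_self hI]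
  rw [map_multiset_prod]
  have hconst : (normalizedFactors I).map (Ideal.relNorm v.toValuationSubring)
      = (normalizedFactors I).map (fun _ => pv v) := by
    refine Multiset.map_congr rfl fun P hP => ?_
    rw [Ideal.mem_normalizedFactors_iff hI] at hP
    have hPne : P ≠ ⊥ := fun h => hI (le_bot_iff.mp (h ▸ hP.2))
    have key : ∀ q : HeightOneSpectrum (intCl F' v),
        Ideal.relNorm v.toValuationSubring q.asIdeal = pv v := fun q => by
      have h1 := Ideal.relNorm_eq_pow_of_isMaximal q.asIdeal (pv v)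
      rw [inertiaDeg_intCl_eq_one v hdeg' q, pow_one] at h1
      exact h1
    exact key ⟨P, hP.1, hPne⟩
  rw [hconst, Multiset.map_const', Multiset.prod_replicate]

theorem sum_ord_coe_eq_ord_intNorm [Fintype (HeightOneSpectrum (intCl F' v))]
    (hdeg' : ∀ w : Place K F', w.deg = 1) (x : intCl F' v) (hx : x ≠ 0) :
    ∑ q : HeightOneSpectrum (intCl F' v), (placeOf v q).ord (x : F')
      = v.ord ((Algebra.intNorm v.toValuationSubring (intCl F' v) x : v.toValuationSubring) : F) := by
  have hI : Ideal.span {x} ≠ (⊥ : Ideal (intCl F' v)) := by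
    rw [Ne, Ideal.span_singleton_eq_bot]
    exact hx
  have hN : Algebra.intNorm v.toValuationSubring (intCl F' v) x ≠ 0 :=
    Algebra.intNorm_ne_zero.mpr hx
  rw [ord_coe_eq_multiplicity v _ hN, ← Ideal.relNorm_singleton, relNorm_eq_pow v hdeg' _ hI,
    multiplicity_pow_self_of_prime
      (Ideal.prime_of_isPrime (pv_ne_bot v) (IsLocalRing.maximalIdeal.isMaximal _).isPrime),
    ← sum_count_eq_card v _ hI]
  push_cast
  refine Finset.sum_congr rfl fun q _ => ?_
  rw [ord_placeOf_coe_eq_multiplicity v q x hx, multiplicity_eq_count v q _ hI]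

omit [FiniteDimensional F F'] [CharZero F] [Algebra K F'] [IsScalarTower K F F'] [Algebra F F'] in
theorem ord_div' (u : Place K F) {f g : F} (hf : f ≠ 0) (hg : g ≠ 0) :
    u.ord (f / g) = u.ord f - u.ord g := by
  rw [div_eq_mul_inv, u.ord_mul hf (inv_ne_zero hg), u.ord_inv]
  ring

theorem sum_ord_eq_ord_norm_of_mem (hdeg' : ∀ w : Place K F', w.deg = 1)
    (s : Finset (Place K F')) (hs : ∀ w, w ∈ s ↔ w.restrict F = v)
    (x : intCl F' v) (hx : x ≠ 0) :
    ∑ w ∈ s, w.ord (x : F') = v.ord (Algebra.norm F (x : F')) := by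
  let _ : Fintype (HeightOneSpectrum (intCl F' v)) := Fintype.ofFinite _
  have h1 := sum_ord_coe_eq_ord_intNorm v hdeg' x hx
  have h2 : ((Algebra.intNorm v.toValuationSubring (intCl F' v) x : v.toValuationSubring) : F)
      = Algebra.norm F (x : F') :=
    Algebra.algebraMap_intNorm (A := v.toValuationSubring) (K := F) (L := F')
      (B := intCl F' v) x
  rw [← h2, ← h1]
  symm
  refine Finset.sum_bij (fun q _ => placeOf v q) ?_ ?_ ?_ ?_
  · intro q _
    exact (hs _).mpr (restrict_placeOf v _)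
  · intro q _ q' _ h
    exact placeOf_injective v h
  · intro w hw
    obtain ⟨q, hq⟩ := exists_placeOf_eq v w ((hs w).mp hw)
    exact ⟨q, Finset.mem_univ _, hq⟩
  · intro q _
    rfl

/-- **Local norm formula** `∑_{w | v} ord_w(g) = ord_v(N_{F'/F} g)`. -/
theorem sum_ord_eq_ord_norm (hdeg' : ∀ w : Place K F', w.deg = 1)
    (s : Finset (Place K F')) (hs : ∀ w, w ∈ s ↔ w.restrict F = v)
    (g : F') (hg : g ≠ 0) :
    ∑ w ∈ s, w.ord g = v.ord (Algebra.norm F g) := by
  obtain ⟨a, b, hb, rfl⟩ := IsFractionRing.div_surjective (A := intCl F' v) g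
  have hb0 : b ≠ 0 := nonZeroDivisors.ne_zero hb
  have ha0 : a ≠ 0 := by
    rintro rfl
    simp at hg
  have ha' : (a : F') ≠ 0 := fun h => ha0 (Subtype.ext h)
  have hb' : (b : F') ≠ 0 := fun h => hb0 (Subtype.ext h)
  have hcoea : algebraMap (intCl F' v) F' a = (a : F') := rfl
  have hcoeb : algebraMap (intCl F' v) F' b = (b : F') := rfl
  have hnorm : Algebra.norm F ((a : F') / (b : F'))
      = Algebra.norm F (a : F') / Algebra.norm F (b : F') := by
    rw [eq_div_iff (Algebra.norm_ne_zero_iff.mpr hb'), ← map_mul, div_mul_cancel₀ _ hb']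
  rw [hcoea, hcoeb, hnorm,
    ord_div' v (Algebra.norm_ne_zero_iff.mpr ha') (Algebra.norm_ne_zero_iff.mpr hb'),
    ← sum_ord_eq_ord_norm_of_mem v hdeg' s hs a ha0,
    ← sum_ord_eq_ord_norm_of_mem v hdeg' s hs b hb0, ← Finset.sum_sub_distrib]
  refine Finset.sum_congr rfl fun w _ => ?_
  exact ord_div' w ha' hb'

end Local

end Fermat.Agent.Lib.FF398

end
-- ===== PACK-END Lib/FF398/Local.lean

-- ===== PACK-BEGIN Lib/FF398/Global.lean
section




/-!
# Lib/FF398 — global consequences for function fields over an algebraically closed field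

* `hasPrincipalDivisors` : a function field of one variable over an algebraically closed field
  of characteristic zero has principal divisors (finite support, degree zero)
  [repackaging of helper804's `S24.FF.degree_principal`];
* `sumRamificationInertia`, `fundamentalIdentity` : `∑_{w | v} e(w|v) f(w|v) = [F' : F]`;
* `pushforwardNormFormula` : `N_* div(g) = div(N g)`.
(helper398)
-/

set_option autoImplicit false
set_option linter.unusedSectionVars false

open AlgebraicCurve IsDedekindDomain IntermediateField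

namespace Fermat.Agent.Lib.FF398

section HPD

variable {K F : Type*} [Field K] [Field F] [Algebra K F] [IsAlgClosed K] [CharZero K]

/-- A function field of one variable over an algebraically closed field of characteristic zero
has principal divisors. -/
theorem hasPrincipalDivisors (j : F) (hj : Transcendental K j) [FiniteDimensional K⟮j⟯ F] :
    HasPrincipalDivisors K F where
  exists_divisor f hf := by
    by_cases hfr : f ∈ (algebraMap K F).range
    · obtain ⟨a, rfl⟩ := hfr
      refine ⟨0, fun v => ?_, map_zero _⟩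
      rw [Fermat.Agent.S24.FF.ord_algebraMap]
      rfl
    · have hft : Transcendental K f := Fermat.Agent.S24.FF.transcendental_of_not_mem_range hfr
      have hfin : FiniteDimensional K⟮f⟯ F :=
        Fermat.Agent.S24.FF.finiteDimensional_adjoin_of_transcendental hj hft
      have hfinite : {v : Place K F | v.ord f ≠ 0}.Finite :=
        Fermat.Agent.S24.FF.finite_setOf_ord_ne_zero hft
      let D : Divisor K F := Finsupp.ofSupportFinite (fun v => v.ord f) hfinite
      have hD : ∀ v : Place K F, D v = v.ord f := fun v => rfl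
      exact ⟨D, hD, Fermat.Agent.S24.FF.degree_principal j hj f D hD⟩

end HPD

section Relative

variable {K F F' : Type*} [Field K] [Field F] [Field F'] [Algebra K F] [Algebra K F']
  [Algebra F F'] [IsScalarTower K F F'] [FiniteDimensional F F'] [CharZero F]
  [HasPrincipalDivisors K F']

/-- **Fundamental identity** `∑_{w | v} e(w|v) f(w|v) = [F' : F]` when all places of `F'` have
degree one. -/
theorem sumRamificationInertia (hdeg' : ∀ w : Place K F', w.deg = 1) :
    SumRamificationInertia K F F' where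
  sum_ramificationIndex_mul_inertiaDeg v := by
    rw [← sum_ramificationIndex v hdeg' (v.fiber F') (fun w => Place.mem_fiber)]
    refine Finset.sum_congr rfl fun w _ => ?_
    rw [inertiaDeg_eq_one hdeg' w]
    simp

theorem fundamentalIdentity (hdeg' : ∀ w : Place K F', w.deg = 1) :
    FundamentalIdentity K F F' :=
  haveI := sumRamificationInertia (F := F) hdeg'
  inferInstance

/-- **Norm formula** `N_* div(g) = div(N_{F'/F} g)` when all places of `F'` have degree one. -/
theorem pushforwardNormFormula (hdeg' : ∀ w : Place K F', w.deg = 1) :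
    Divisor.PushforwardNormFormula K F F' := by
  classical
  intro g hg D hD v
  rw [Divisor.pushforward_apply, ← sum_ord_eq_ord_norm v hdeg' (v.fiber F')
    (fun w => Place.mem_fiber) g hg]
  rw [← Finset.sum_filter]
  refine Finset.sum_subset_zero_on_sdiff ?_ ?_ ?_
  · intro w hw
    rw [Finset.mem_filter] at hw
    exact Place.mem_fiber.mpr hw.2
  · intro w hw
    rw [Finset.mem_sdiff, Finset.mem_filter, Place.mem_fiber] at hw
    have hnot : w ∉ D.support := fun h => hw.2 ⟨h, hw.1⟩
    rw [Finsupp.notMem_support_iff, hD] at hnot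
    exact hnot
  · intro w hw
    rw [hD, inertiaDeg_eq_one hdeg' w]
    simp

end Relative

end Fermat.Agent.Lib.FF398

end
-- ===== PACK-END Lib/FF398/Global.lean

-- ===== PACK-BEGIN Lib/FF398/Hecke.lean
section




/-!
# Lib/FF398 — the Hecke correspondence `T_ℓ` on `J₀(N)` is the genuine one

`ModularCurve.heckeOperatorAlong L N ℓ` is defined by `dite` on `HeckeInputsAlong L N ℓ`
(junk value `0` if the inputs fail).  We prove the inputs for `L = ℚ̄`:

* `heckeInputs_general` : for ANY two `K`-embeddings `α β : F → F'` of function fields of one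
  variable over an algebraically closed field of characteristic zero, all six inputs hold;
* `heckeInputsAlong N ℓ : HeckeInputsAlong ℚ̄ N ℓ`;
* `heckeOperatorBar_eq` : `heckeOperatorBar N ℓ` is `Pic0.correspondence β α` (norm ∘ conorm).
(helper398)
-/

set_option autoImplicit false
set_option linter.unusedSectionVars false

open AlgebraicCurve IsDedekindDomain IntermediateField ModularCurve

namespace Fermat.Agent.Lib.FF398

section General

variable {K F F' : Type*} [Field K] [Field F] [Field F'] [Algebra K F] [Algebra K F']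
  [IsAlgClosed K] [CharZero K]

/-- A `K`-embedding of function fields of one variable is finite. -/
theorem finiteAlong_of_functionField (φ : F →ₐ[K] F') (j : F) (hj : Transcendental K j)
    (j' : F') (hj' : Transcendental K j') [FiniteDimensional K⟮j'⟯ F'] :
    FiniteAlong K φ := by
  letI := algebraAlong φ
  show Module.Finite F F'
  have hy : Transcendental K (φ j) := by
    intro h
    exact hj ((isAlgebraic_algHom_iff φ φ.injective).mp h)
  haveI : FiniteDimensional K⟮φ j⟯ F' :=
    Fermat.Agent.S24.FF.finiteDimensional_adjoin_of_transcendental hj' hy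
  obtain ⟨S, hS⟩ := (Module.finite_def (R := K⟮φ j⟯) (M := F')).mp inferInstance
  refine Module.finite_def.mpr ⟨S, ?_⟩
  have hle : K⟮φ j⟯ ≤ φ.fieldRange := by
    rw [adjoin_le_iff]
    rintro _ rfl
    exact ⟨j, rfl⟩
  have key : ∀ x : F', x ∈ Submodule.span K⟮φ j⟯ (S : Set F') →
      x ∈ Submodule.span F (S : Set F') := by
    intro x hx
    induction hx using Submodule.span_induction with
    | mem x hx => exact Submodule.subset_span hx
    | zero => exact zero_mem _
    | add x y _ _ hx hy => exact add_mem hx hy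
    | smul e x _ hx =>
      obtain ⟨f, hf⟩ := hle e.2
      have : e • x = f • x := by
        rw [Algebra.smul_def, Algebra.smul_def]
        show (e : F') * x = φ f * x
        rw [← hf]
        rfl
      rw [this]
      exact Submodule.smul_mem _ _ hx
  rw [eq_top_iff]
  intro x _
  exact key x (by rw [hS]; trivial)

/-- **All six inputs of the Hecke correspondence** for two embeddings of function fields. -/
theorem heckeInputs_general (α β : F →ₐ[K] F') (j : F) (hj : Transcendental K j)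
    (j' : F') (hj' : Transcendental K j') [FiniteDimensional K⟮j'⟯ F'] :
    ∃ (_ : α.toRingHom.IsIntegral) (hβ : β.toRingHom.IsIntegral)
      (_ : HasPrincipalDivisors K F') (hfin : FiniteAlong K α),
      FundamentalIdentityAlong K β hβ ∧ NormFormulaAlong K α hfin := by
  haveI hP : HasPrincipalDivisors K F' := hasPrincipalDivisors j' hj'
  haveI : CharZero F := charZero_of_injective_algebraMap (algebraMap K F).injective
  have hdeg' : ∀ w : Place K F', w.deg = 1 := fun w => Fermat.Agent.S24.FF.deg_eq_one w hj'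
  have hfinα : FiniteAlong K α := finiteAlong_of_functionField α j hj j' hj'
  have hfinβ : FiniteAlong K β := finiteAlong_of_functionField β j hj j' hj'
  have hα : α.toRingHom.IsIntegral := by
    letI := algebraAlong α
    haveI : Module.Finite F F' := hfinα
    exact fun x => Algebra.IsIntegral.isIntegral (R := F) x
  have hβ : β.toRingHom.IsIntegral := by
    letI := algebraAlong β
    haveI : Module.Finite F F' := hfinβ
    exact fun x => Algebra.IsIntegral.isIntegral (R := F) x
  refine ⟨hα, hβ, hP, hfinα, ?_, ?_⟩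
  · letI := algebraAlong β
    haveI := isScalarTower_along β
    haveI : Module.Finite F F' := hfinβ
    exact fundamentalIdentity (K := K) (F := F) (F' := F') hdeg'
  · letI := algebraAlong α
    haveI := isScalarTower_along α
    haveI : Module.Finite F F' := hfinα
    exact pushforwardNormFormula (K := K) (F := F) (F' := F') hdeg'

end General

section Modular

open Fermat.Agent.S24

theorem transcendental_jF (N : ℕ) [NeZero N] : Transcendental Kbar (jF N) := by
  intro halg
  obtain ⟨p, hp0, hp⟩ := halg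
  apply Deg457.aeval_JK_ne_zero Kbar hp0
  have h2 := congrArg (algebraMap (FF N) (LaurentSeries Kbar)) hp
  rw [← Polynomial.aeval_algebraMap_apply, map_zero] at h2
  exact h2

instance finiteDimensional_FF (N : ℕ) [NeZero N] :
    FiniteDimensional ↥(IntermediateField.adjoin Kbar {jF N}) (FF N) :=
  (Deg457.degree_fields N).1

/-- The function field of `X₀(N)` over `ℚ̄` has principal divisors. -/
theorem hasPrincipalDivisors_FF (N : ℕ) [NeZero N] :
    HasPrincipalDivisors Kbar (FF N) :=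
  hasPrincipalDivisors (jF N) (transcendental_jF N)

/-- Every place of the function field of `X₀(N)` over `ℚ̄` has degree one. -/
theorem deg_eq_one_FF (N : ℕ) [NeZero N] (v : Place Kbar (FF N)) : v.deg = 1 :=
  Fermat.Agent.S24.FF.deg_eq_one v (transcendental_jF N)

/-- **The Hecke correspondence `T_ℓ` on `J₀(N)` over `ℚ̄` is the genuine one.** -/
theorem heckeInputsAlong (N ℓ : ℕ) [NeZero N] [NeZero ℓ] :
    HeckeInputsAlong (AlgebraicClosure ℚ) N ℓ :=
  heckeInputs_general (heckeAlphaBar (AlgebraicClosure ℚ) N ℓ)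
    (heckeBetaBar (AlgebraicClosure ℚ) N ℓ) (jF N) (transcendental_jF N)
    (jF (N * ℓ)) (transcendental_jF (N * ℓ))

/-! ### Named components (for unfolding `T_ℓ`) -/

variable (N ℓ : ℕ) [NeZero N] [NeZero ℓ]

/-- The function field of `X₀(M)` over `ℚ̄` has principal divisors (instance form). -/
instance instHasPrincipalDivisorsFF (M : ℕ) [NeZero M] :
    HasPrincipalDivisors (AlgebraicClosure ℚ)
      (laurentBaseChange (AlgebraicClosure ℚ) (modularFunctionFieldFull M)) :=
  hasPrincipalDivisors_FF M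

theorem heckeAlphaBarIntegral : HeckeAlphaBarIntegral (AlgebraicClosure ℚ) N ℓ :=
  (heckeInputsAlong N ℓ).1

theorem heckeBetaBarIntegral : HeckeBetaBarIntegral (AlgebraicClosure ℚ) N ℓ :=
  (heckeInputsAlong N ℓ).2.1

theorem finiteAlong_alpha : FiniteAlong (AlgebraicClosure ℚ) (heckeAlphaBar (AlgebraicClosure ℚ) N ℓ) :=
  finiteAlong_of_functionField _ (jF N) (transcendental_jF N) (jF (N * ℓ))
    (transcendental_jF (N * ℓ))

theorem finiteAlong_beta : FiniteAlong (AlgebraicClosure ℚ) (heckeBetaBar (AlgebraicClosure ℚ) N ℓ) :=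
  finiteAlong_of_functionField _ (jF N) (transcendental_jF N) (jF (N * ℓ))
    (transcendental_jF (N * ℓ))

theorem fundamentalIdentityAlong_beta :
    FundamentalIdentityAlong (AlgebraicClosure ℚ) (heckeBetaBar (AlgebraicClosure ℚ) N ℓ)
      (heckeBetaBarIntegral N ℓ) := by
  letI := algebraAlong (heckeBetaBar (AlgebraicClosure ℚ) N ℓ)
  haveI := isScalarTower_along (heckeBetaBar (AlgebraicClosure ℚ) N ℓ)
  haveI : Module.Finite (FF N) (FF (N * ℓ)) := finiteAlong_beta N ℓ
  haveI : CharZero (FF N) :=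
    charZero_of_injective_algebraMap (algebraMap (AlgebraicClosure ℚ) (FF N)).injective
  exact fundamentalIdentity (K := AlgebraicClosure ℚ) (F := FF N) (F' := FF (N * ℓ))
    (deg_eq_one_FF (N * ℓ))

theorem fundamentalIdentityAlong_alpha :
    FundamentalIdentityAlong (AlgebraicClosure ℚ) (heckeAlphaBar (AlgebraicClosure ℚ) N ℓ)
      (heckeAlphaBarIntegral N ℓ) := by
  letI := algebraAlong (heckeAlphaBar (AlgebraicClosure ℚ) N ℓ)
  haveI := isScalarTower_along (heckeAlphaBar (AlgebraicClosure ℚ) N ℓ)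
  haveI : Module.Finite (FF N) (FF (N * ℓ)) := finiteAlong_alpha N ℓ
  haveI : CharZero (FF N) :=
    charZero_of_injective_algebraMap (algebraMap (AlgebraicClosure ℚ) (FF N)).injective
  exact fundamentalIdentity (K := AlgebraicClosure ℚ) (F := FF N) (F' := FF (N * ℓ))
    (deg_eq_one_FF (N * ℓ))

theorem normFormulaAlong_alpha :
    NormFormulaAlong (AlgebraicClosure ℚ) (heckeAlphaBar (AlgebraicClosure ℚ) N ℓ)
      (finiteAlong_alpha N ℓ) := by
  letI := algebraAlong (heckeAlphaBar (AlgebraicClosure ℚ) N ℓ)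
  haveI := isScalarTower_along (heckeAlphaBar (AlgebraicClosure ℚ) N ℓ)
  haveI : Module.Finite (FF N) (FF (N * ℓ)) := finiteAlong_alpha N ℓ
  haveI : CharZero (FF N) :=
    charZero_of_injective_algebraMap (algebraMap (AlgebraicClosure ℚ) (FF N)).injective
  exact pushforwardNormFormula (K := AlgebraicClosure ℚ) (F := FF N) (F' := FF (N * ℓ))
    (deg_eq_one_FF (N * ℓ))

theorem normFormulaAlong_beta :
    NormFormulaAlong (AlgebraicClosure ℚ) (heckeBetaBar (AlgebraicClosure ℚ) N ℓ)
      (finiteAlong_beta N ℓ) := by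
  letI := algebraAlong (heckeBetaBar (AlgebraicClosure ℚ) N ℓ)
  haveI := isScalarTower_along (heckeBetaBar (AlgebraicClosure ℚ) N ℓ)
  haveI : Module.Finite (FF N) (FF (N * ℓ)) := finiteAlong_beta N ℓ
  haveI : CharZero (FF N) :=
    charZero_of_injective_algebraMap (algebraMap (AlgebraicClosure ℚ) (FF N)).injective
  exact pushforwardNormFormula (K := AlgebraicClosure ℚ) (F := FF N) (F' := FF (N * ℓ))
    (deg_eq_one_FF (N * ℓ))

/-- `T_ℓ` on `Pic⁰` is `α_* ∘ β^*` (norm ∘ conorm), not the junk value. -/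
theorem heckeOperatorAlong_eq_heckePic0Bar :
    heckeOperatorAlong (AlgebraicClosure ℚ) N ℓ
      = heckePic0Bar (heckeAlphaBarIntegral N ℓ) (heckeBetaBarIntegral N ℓ)
          (fundamentalIdentityAlong_beta N ℓ) (finiteAlong_alpha N ℓ)
          (normFormulaAlong_alpha N ℓ) :=
  heckeOperatorAlong_eq _ _ _ _ _

/-- `T_ℓ` on a divisor class: `T_ℓ [D] = [α_* β^* D]`. -/
theorem heckeOperatorAlong_mk
    (D : Divisor.degZero (K := AlgebraicClosure ℚ)
      (F := laurentBaseChange (AlgebraicClosure ℚ) (modularFunctionFieldFull N))) :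
    heckeOperatorAlong (AlgebraicClosure ℚ) N ℓ (Pic0.mk D)
      = Pic0.mk (Pic0.degZeroCorrespondence (heckeBetaBar (AlgebraicClosure ℚ) N ℓ)
          (heckeAlphaBar (AlgebraicClosure ℚ) N ℓ) (heckeBetaBarIntegral N ℓ)
          (heckeAlphaBarIntegral N ℓ) (fundamentalIdentityAlong_beta N ℓ) D) := by
  rw [heckeOperatorAlong_eq_heckePic0Bar]
  rfl

/-- `T_ℓ` (as `heckeOperatorBar`) on a divisor class. -/
theorem heckeOperatorBar_mk (p : Nat.Primes)
    (D : Divisor.degZero (K := AlgebraicClosure ℚ)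
      (F := laurentBaseChange (AlgebraicClosure ℚ) (modularFunctionFieldFull N))) :
    haveI : NeZero (p : ℕ) := ⟨p.2.ne_zero⟩
    heckeOperatorBar N p (Pic0.mk D)
      = Pic0.mk (Pic0.degZeroCorrespondence (heckeBetaBar (AlgebraicClosure ℚ) N p)
          (heckeAlphaBar (AlgebraicClosure ℚ) N p) (heckeBetaBarIntegral N p)
          (heckeAlphaBarIntegral N p) (fundamentalIdentityAlong_beta N p) D) := by
  haveI : NeZero (p : ℕ) := ⟨p.2.ne_zero⟩
  rw [heckeOperatorBar_apply]
  exact heckeOperatorAlong_mk N p D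

end Modular

end Fermat.Agent.Lib.FF398

end
-- ===== PACK-END Lib/FF398/Hecke.lean

-- ===== PACK-BEGIN S24/H324/FundIneq.lean
section




/-!
# S24 / ALG (helper324) — the fundamental inequality from `LocalData`, Dedekind-free

For `L : LocalData K F C X t` (`K` algebraically closed, `C` of characteristic zero, `F` finite
over `K(t)`):

* `card_fiber_le` : at most `v.ord t` of the embeddings `L.σ x` induce a given place `v`;
* `card_le_sum_ord` : `#X ≤ ∑_{v | t} v.ord t`  (= hypothesis `hsum` of `H117.localThm`);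
* `local_count` : the statement `sub_local_count` of helper984's `Alg/Sub.lean`.
-/

set_option autoImplicit false
set_option linter.style.haveILetI false

noncomputable section

open AlgebraicCurve HahnSeries IntermediateField
open Fermat.Agent.S24.H117

namespace Fermat.Agent.S24.H324

variable {K F : Type*} [Field K] [Field F] [Algebra K F]
variable {C : Type*} [Field C] {X : Type*}
variable {t : F}

/-- Residue field `= K`: first-order expansion of an integral element along a uniformiser. -/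
theorem exists_decomp [IsAlgClosed K] [FiniteDimensional K⟮t⟯ F] (v : Place K F)
    (ht : 0 < v.ord t) (π : F) (hπ : v.ord π = 1) (f : F) (hf : 0 ≤ v.ord f) :
    ∃ (c : K) (f₁ : F), 0 ≤ v.ord f₁ ∧ f = algebraMap K F c + π * f₁ := by
  have hπ0 : π ≠ 0 := ne_zero_of_ord_ne_zero v (by rw [hπ]; norm_num)
  have htr : Transcendental K t := by
    apply FF.transcendental_of_not_mem_range
    rintro ⟨a, rfl⟩
    rw [H117.ord_algebraMap] at ht
    exact lt_irrefl _ ht
  obtain ⟨a, ha⟩ := FF.exists_const_sub_mem_nonunits v htr (H117.mem_of_ord_nonneg v hf)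
  refine ⟨a, (f - algebraMap K F a) / π, ?_, ?_⟩
  · rcases eq_or_ne (f - algebraMap K F a) 0 with h0 | h0
    · rw [h0, zero_div, v.ord_zero]
    · have hpos := (FF.ord_pos_iff_mem_nonunits v h0).mpr ha
      rw [ord_div v h0 hπ0, hπ]
      omega
  · rw [mul_div_cancel₀ _ hπ0]; ring

variable (L : LocalData K F C X t)

/-- Two points of `X` inducing the same place give the hypotheses `SamePlace`. -/
theorem samePlace_of_placeOf_eq {x y : X} (hxy : placeOf L y = placeOf L x) :
    SamePlace (placeOf L x) (L.σ x) (L.σ y) (mult L x) where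
  g_pos := mult_pos L x
  ordσ := order_eq L x
  ordτ := by
    have hm : mult L y = mult L x := by
      have h1 := mult_mul_ord_t L x
      have h2 := mult_mul_ord_t L y
      rw [hxy] at h2
      have hpos := ord_t_pos L x
      have : (mult L y : ℤ) = mult L x :=
        mul_right_cancel₀ hpos.ne' (h2.trans h1.symm)
      exact_mod_cast this
    intro f
    rw [order_eq L y f, hxy, hm]
  const c := by rw [L.σ_const, L.σ_const]

variable [IsAlgClosed K] [CharZero C] [FiniteDimensional K⟮t⟯ F]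

/-- **Local bound**: at most `v.ord t` of the embeddings induce the place `v`. -/
theorem card_fiber_le [Fintype X] [DecidableEq (Place K F)] (v : Place K F)
    (hv : 0 ≤ v.ord t) :
    ((Finset.univ.filter (fun x => placeOf L x = v)).card : ℤ) ≤ v.ord t := by
  classical
  rcases (Finset.univ.filter (fun x => placeOf L x = v)).eq_empty_or_nonempty with hemp | hne
  · rw [hemp]; simpa using hv
  obtain ⟨x₀, hx₀⟩ := hne
  have hx₀v : placeOf L x₀ = v := (Finset.mem_filter.mp hx₀).2
  subst hx₀v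
  have ht : 0 < (placeOf L x₀).ord t := ord_t_pos L x₀
  obtain ⟨π, hπ0, hπ⟩ := exists_ord_eq_one (placeOf L x₀)
  obtain ⟨e, he⟩ : ∃ e : ℕ, (e : ℤ) = (placeOf L x₀).ord t :=
    ⟨((placeOf L x₀).ord t).toNat, Int.toNat_of_nonneg ht.le⟩
  have he0 : 0 < e := by
    have : (0 : ℤ) < e := by rw [he]; exact ht
    exact_mod_cast this
  have hres := exists_decomp (placeOf L x₀) ht π hπ
  set a : C := (L.σ x₀ π).leadingCoeff ^ e with ha
  have hmaps : Set.MapsTo (fun x => (L.σ x π).leadingCoeff)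
      (↑(Finset.univ.filter (fun x => placeOf L x = placeOf L x₀)))
      (↑(Polynomial.nthRootsFinset e a) : Set C) := by
    intro x hx
    have hxv : placeOf L x = placeOf L x₀ := (Finset.mem_filter.mp hx).2
    have hS := samePlace_of_placeOf_eq L hxv
    have := hS.leadingCoeff_pow_eq π hπ hres t ht (L.σ_t_eq x₀ x) e he
    simp only [Finset.mem_coe]
    rw [Polynomial.mem_nthRootsFinset he0]
    exact this.symm
  have hinj : Set.InjOn (fun x => (L.σ x π).leadingCoeff)
      (↑(Finset.univ.filter (fun x => placeOf L x = placeOf L x₀))) := by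
    intro x hx y hy hxy
    have hxv : placeOf L x = placeOf L x₀ := (Finset.mem_filter.mp hx).2
    have hyv : placeOf L y = placeOf L x₀ := (Finset.mem_filter.mp hy).2
    have hyx : placeOf L y = placeOf L x := hyv.trans hxv.symm
    have hS := samePlace_of_placeOf_eq L hyx
    have hπx : (placeOf L x).ord π = 1 := by rw [hxv]; exact hπ
    have htx : 0 < (placeOf L x).ord t := ord_t_pos L x
    have hresx := exists_decomp (placeOf L x) htx π hπx
    exact L.σ_inj (hS.eq_of_leadingCoeff_eq π hπx hresx t htx (L.σ_t_eq x y) hxy)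
  have h1 := Finset.card_le_card_of_injOn _ hmaps hinj
  have h2 : (Polynomial.nthRootsFinset e a).card ≤ e := by
    unfold Polynomial.nthRootsFinset
    exact (Multiset.toFinset_card_le _).trans (Polynomial.card_nthRoots e a)
  rw [← he]
  exact_mod_cast h1.trans h2

variable [Finite X]

include L in
/-- **Fundamental inequality**, Dedekind-free. -/
theorem card_le_sum_ord (s : Finset (Place K F)) (hs : ∀ v, v ∈ s ↔ 0 < v.ord t) :
    (Nat.card X : ℤ) ≤ ∑ v ∈ s, v.ord t := by
  classical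
  haveI : Fintype X := Fintype.ofFinite X
  have hmaps : Set.MapsTo (placeOf L) (↑(Finset.univ : Finset X)) (↑s : Set (Place K F)) := by
    intro x _
    exact Finset.mem_coe.mpr ((hs _).mpr (ord_t_pos L x))
  have hcard := Finset.card_eq_sum_card_fiberwise hmaps
  rw [Nat.card_eq_fintype_card, ← Finset.card_univ, hcard, Nat.cast_sum]
  refine Finset.sum_le_sum fun v hv => ?_
  exact card_fiber_le L v ((hs v).mp hv).le

/-- **LT** (statement `sub_local_count` of helper984's `Alg/Sub.lean`). -/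
theorem local_count [CharZero K]
    (hrank : Module.finrank ↥(IntermediateField.adjoin K {t}) F = Nat.card X) :
    {v : Place K F | 0 < v.ord t}.Finite ∧
      Nat.card ↥{v : Place K F | 0 < v.ord t} = numOrbits L.perm ∧
      ∑ᶠ v ∈ {v : Place K F | 0 < v.ord t}, v.ord t = (Nat.card X : ℤ) := by
  classical
  have hfin : {v : Place K F | 0 < v.ord t}.Finite :=
    finite_places_over L K⟮t⟯ le_rfl hrank
  set s := hfin.toFinset with hs
  have hmem : ∀ v, v ∈ s ↔ 0 < v.ord t := fun v => by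
    rw [hs, Set.Finite.mem_toFinset]; rfl
  obtain ⟨h1, -, h3⟩ := localThm L K⟮t⟯ le_rfl hrank s hmem (card_le_sum_ord L s hmem)
  refine ⟨hfin, ?_, ?_⟩
  · rw [← h1, Nat.card_eq_card_finite_toFinset hfin]
  · rw [finsum_mem_eq_finite_toFinset_sum _ hfin]
    exact h3

end Fermat.Agent.S24.H324

end
end
-- ===== PACK-END S24/H324/FundIneq.lean

-- ===== PACK-BEGIN A2/H729/Gauss.lean
section



/-!
# A2 (helper729): the canonical Gauss ring of the `x`-line model and its `q`-expansion principle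

`R` a domain with `R[X]` integrally closed, `w ∈ R` prime, `F ⊇ R` a field, `x ∈ F` transcendental.
`gaussO hw x` is the ring of all `t ∈ F` such that `Q(x) t` is integral over `R[x]` for some
polynomial `Q` which is nonzero modulo `w` (the integral closure in `F` of the Gauss valuation ring
`R[x]_(w)` of `R(x)`; the intersection of the valuation rings of `F` over the Gauss valuation).

Results (all hypotheses of `generic_idempotent_trivial` / `kummer_trivial_of_local` about `O`):
* `chart_fin_le_gaussO`, `chart_inf_le_gaussO`, `chart_mid_le_gaussO`;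
* `qep_fin`, `qep_inf`, `qep_mid`: `chart ∩ w O = w chart`.
These hold for EVERY finite extension `F` (normality of the charts); reducedness of the special
fibre is what allows the user to prove congruences modulo `w O`.
-/

set_option autoImplicit false
set_option linter.unusedSectionVars false

namespace Fermat.Agent.A2.H729

open Polynomial Fermat.Agent.S18.H138

variable {R : Type*} [CommRing R] {F : Type*} [Field F] [Algebra R F]

/-- `s = Q(x)` for a polynomial `Q` which is nonzero modulo `w`. -/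
def IsGaussDenom (w : R) (x s : F) : Prop :=
  ∃ Q : R[X], ¬ C w ∣ Q ∧ s = aeval x Q

theorem not_C_dvd_one {w : R} (hw : Prime w) : ¬ (C w : R[X]) ∣ 1 := fun h =>
  hw.not_isUnit (Polynomial.isUnit_C.1 (isUnit_of_dvd_one h))

theorem not_C_dvd_X_pow {w : R} (hw : Prime w) (k : ℕ) : ¬ (C w : R[X]) ∣ X ^ k := by
  intro h
  have hp : Prime (C w : R[X]) := prime_C_iff.2 hw
  have h1 : (C w : R[X]) ∣ X := hp.dvd_of_dvd_pow h
  obtain ⟨q, hq⟩ := h1
  have := congrArg (fun p : R[X] => p.coeff 1) hq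
  simp only [coeff_X_one, coeff_C_mul] at this
  exact hw.not_isUnit (IsUnit.of_mul_eq_one _ this.symm)

theorem isGaussDenom_one {w : R} (hw : Prime w) (x : F) : IsGaussDenom w x 1 :=
  ⟨1, not_C_dvd_one hw, by simp⟩

theorem isGaussDenom_X_pow {w : R} (hw : Prime w) (x : F) (k : ℕ) : IsGaussDenom w x (x ^ k) :=
  ⟨X ^ k, not_C_dvd_X_pow hw k, by simp⟩

theorem IsGaussDenom.mul {w : R} (hw : Prime w) {x s s' : F} (hs : IsGaussDenom w x s)
    (hs' : IsGaussDenom w x s') : IsGaussDenom w x (s * s') := by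
  obtain ⟨Q, hQ, rfl⟩ := hs
  obtain ⟨Q', hQ', rfl⟩ := hs'
  refine ⟨Q * Q', fun h => ?_, by simp⟩
  rcases (prime_C_iff.2 hw).dvd_or_dvd h with h | h
  · exact hQ h
  · exact hQ' h

theorem IsGaussDenom.mem_adjoin {w : R} {x s : F} (hs : IsGaussDenom w x s) :
    s ∈ Algebra.adjoin R ({x} : Set F) := by
  obtain ⟨Q, -, rfl⟩ := hs
  exact mem_adjoin_singleton_iff.2 ⟨Q, rfl⟩

theorem x_mem_chart_fin (x : F) : x ∈ chart R ({x} : Set F) :=
  mem_chart_of_mem (Set.mem_singleton x)

theorem xinv_mem_chart_inf (x : F) : x⁻¹ ∈ chart R ({x⁻¹} : Set F) :=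
  mem_chart_of_mem (Set.mem_singleton x⁻¹)

theorem xinv_mem_chart_mid (x : F) : x⁻¹ ∈ chart R ({x, x⁻¹} : Set F) :=
  mem_chart_of_mem (Set.mem_insert_of_mem _ (Set.mem_singleton x⁻¹))

theorem chart_fin_le_mid (x : F) : chart R ({x} : Set F) ≤ chart R ({x, x⁻¹} : Set F) :=
  chart_mono (Set.singleton_subset_iff.2 (Set.mem_insert _ _))

theorem chart_inf_le_mid (x : F) : chart R ({x⁻¹} : Set F) ≤ chart R ({x, x⁻¹} : Set F) :=
  chart_mono (Set.singleton_subset_iff.2 (Set.mem_insert_of_mem _ (Set.mem_singleton x⁻¹)))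

/-- The canonical Gauss ring. -/
def gaussO {w : R} (hw : Prime w) (x : F) : Subalgebra R F where
  carrier := {t | ∃ s, IsGaussDenom w x s ∧ s * t ∈ chart R ({x} : Set F)}
  mul_mem' := by
    rintro a b ⟨s, hs, ha⟩ ⟨s', hs', hb⟩
    refine ⟨s * s', hs.mul hw hs', ?_⟩
    have : s * s' * (a * b) = (s * a) * (s' * b) := by ring
    rw [this]
    exact Subalgebra.mul_mem _ ha hb
  add_mem' := by
    rintro a b ⟨s, hs, ha⟩ ⟨s', hs', hb⟩
    refine ⟨s * s', hs.mul hw hs', ?_⟩
    have : s * s' * (a + b) = s' * (s * a) + s * (s' * b) := by ring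
    rw [this]
    exact Subalgebra.add_mem _
      (Subalgebra.mul_mem _ (adjoin_le_chart _ hs'.mem_adjoin) ha)
      (Subalgebra.mul_mem _ (adjoin_le_chart _ hs.mem_adjoin) hb)
  algebraMap_mem' r := ⟨1, isGaussDenom_one hw x, by
    rw [one_mul]; exact Subalgebra.algebraMap_mem _ r⟩

theorem mem_gaussO {w : R} {hw : Prime w} {x t : F} :
    t ∈ gaussO hw x ↔ ∃ s, IsGaussDenom w x s ∧ s * t ∈ chart R ({x} : Set F) := Iff.rfl

theorem chart_fin_le_gaussO {w : R} (hw : Prime w) (x : F) :
    chart R ({x} : Set F) ≤ gaussO hw x := fun t ht =>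
  ⟨1, isGaussDenom_one hw x, by rwa [one_mul]⟩

theorem chart_mid_le_gaussO {w : R} (hw : Prime w) {x : F} (hx : x ≠ 0) :
    chart R ({x, x⁻¹} : Set F) ≤ gaussO hw x := fun t ht => by
  obtain ⟨K, hK⟩ := exists_pow_mul_mem_chart hx ht
  exact ⟨x ^ K, isGaussDenom_X_pow hw x K, hK⟩

theorem chart_inf_le_gaussO {w : R} (hw : Prime w) {x : F} (hx : x ≠ 0) :
    chart R ({x⁻¹} : Set F) ≤ gaussO hw x :=
  le_trans (chart_inf_le_mid (R := R) x) (chart_mid_le_gaussO hw hx)

section Transcendental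

variable [IsDomain R]

/-- `R[X] ≃ R[x]` for transcendental `x`. -/
noncomputable def adjoinEquiv {x : F} (hx : Transcendental R x) :
    R[X] ≃ₐ[R] Algebra.adjoin R ({x} : Set F) :=
  (AlgEquiv.ofInjective (aeval x) (transcendental_iff_injective.1 hx)).trans
    (Subalgebra.equivOfEq _ _ (Algebra.adjoin_singleton_eq_range_aeval R x).symm)

theorem coe_adjoinEquiv {x : F} (hx : Transcendental R x) (Q : R[X]) :
    ((adjoinEquiv hx Q : Algebra.adjoin R ({x} : Set F)) : F) = aeval x Q := rfl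

theorem prime_algebraMap_adjoin {w : R} (hw : Prime w) {x : F} (hx : Transcendental R x) :
    Prime (algebraMap R (Algebra.adjoin R ({x} : Set F)) w) := by
  have h : Prime (adjoinEquiv hx (C w)) :=
    (MulEquiv.prime_iff (adjoinEquiv hx).toMulEquiv).2 (prime_C_iff.2 hw)
  have h2 : adjoinEquiv hx (C w) = algebraMap R (Algebra.adjoin R ({x} : Set F)) w := by
    apply Subtype.ext
    rw [coe_adjoinEquiv, aeval_C]
    rfl
  rwa [h2] at h

theorem not_dvd_adjoinEquiv {w : R} {x : F} (hx : Transcendental R x) {Q : R[X]}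
    (hQ : ¬ C w ∣ Q) :
    ¬ algebraMap R (Algebra.adjoin R ({x} : Set F)) w ∣ adjoinEquiv hx Q := by
  rintro ⟨a, ha⟩
  apply hQ
  refine ⟨(adjoinEquiv hx).symm a, ?_⟩
  apply (adjoinEquiv hx).injective
  rw [map_mul, AlgEquiv.apply_symm_apply, ha]
  congr 1
  apply Subtype.ext
  rw [coe_adjoinEquiv, aeval_C]
  rfl

variable [IsIntegrallyClosed R[X]]

/-- The regular-sequence lemma on the chart: if `w t` and `Q(x) t` are integral over `R[x]`,
`Q ≢ 0 mod w`, then `t` is integral over `R[x]`. -/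
theorem mem_chart_of_mul_mem {w : R} (hw : Prime w) {x : F} (hx : Transcendental R x)
    {s t : F} (hs : IsGaussDenom w x s)
    (h1 : algebraMap R F w * t ∈ chart R ({x} : Set F))
    (h2 : s * t ∈ chart R ({x} : Set F)) : t ∈ chart R ({x} : Set F) := by
  obtain ⟨Q, hQ, rfl⟩ := hs
  have := isIntegrallyClosed_adjoin_singleton (R := R) hx
  rw [mem_chart] at h1 h2 ⊢
  refine isIntegral_of_smul_of_smul (prime_algebraMap_adjoin hw hx)
    (not_dvd_adjoinEquiv hx hQ) ?_ ?_
  · have : algebraMap R (Algebra.adjoin R ({x} : Set F)) w • t = algebraMap R F w * t := rfl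
    rw [this]; exact h1
  · have : adjoinEquiv hx Q • t = aeval x Q * t := rfl
    rw [this]; exact h2

/-- **QEP** on the finite chart. -/
theorem qep_fin {w : R} (hw : Prime w) {x : F} (hx : Transcendental R x) :
    ∀ b ∈ chart R ({x} : Set F), InW (gaussO hw x) w b →
      ∃ t ∈ chart R ({x} : Set F), b = algebraMap R F w * t := by
  rintro b hb ⟨t, ⟨s, hs, hst⟩, rfl⟩
  exact ⟨t, mem_chart_of_mul_mem hw hx hs hb hst, rfl⟩

/-- **QEP** on the middle chart. -/
theorem qep_mid {w : R} (hw : Prime w) {x : F} (hx : Transcendental R x) :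
    ∀ b ∈ chart R ({x, x⁻¹} : Set F), InW (gaussO hw x) w b →
      ∃ t ∈ chart R ({x, x⁻¹} : Set F), b = algebraMap R F w * t := by
  have hx0 : x ≠ 0 := ne_zero_of_transcendental hx
  rintro b hb ⟨t, ⟨s, hs, hst⟩, rfl⟩
  obtain ⟨K, hK⟩ := exists_pow_mul_mem_chart hx0 hb
  have h1 : algebraMap R F w * (x ^ K * t) ∈ chart R ({x} : Set F) := by
    have : algebraMap R F w * (x ^ K * t) = x ^ K * (algebraMap R F w * t) := by ring
    rw [this]; exact hK
  have h2 : s * (x ^ K * t) ∈ chart R ({x} : Set F) := by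
    have : s * (x ^ K * t) = x ^ K * (s * t) := by ring
    rw [this]
    exact Subalgebra.mul_mem _ (Subalgebra.pow_mem _ (x_mem_chart_fin (R := R) x) K) hst
  have h3 : x ^ K * t ∈ chart R ({x} : Set F) := mem_chart_of_mul_mem hw hx hs h1 h2
  refine ⟨t, ?_, rfl⟩
  have : t = x⁻¹ ^ K * (x ^ K * t) := by
    rw [← mul_assoc, ← mul_pow, inv_mul_cancel₀ hx0, one_pow, one_mul]
  rw [this]
  exact Subalgebra.mul_mem _ (Subalgebra.pow_mem _ (xinv_mem_chart_mid (R := R) x) K)
    (chart_fin_le_mid (R := R) x h3)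

theorem not_C_dvd_reflect {w : R} {Q : R[X]} (hQ : ¬ C w ∣ Q) (d : ℕ) :
    ¬ C w ∣ reflect d Q := by
  rintro ⟨q, hq⟩
  apply hQ
  have h1 : Q = reflect d (reflect d Q) := reflect_reflect.symm
  rw [hq, reflect_C_mul] at h1
  exact ⟨_, h1⟩

/-- Membership in the Gauss ring can be tested on the chart at infinity. -/
theorem exists_denom_inv_of_mem_gaussO {w : R} (hw : Prime w) {x : F} (hx0 : x ≠ 0) {t : F}
    (ht : t ∈ gaussO hw x) :
    ∃ s, IsGaussDenom w x⁻¹ s ∧ s * t ∈ chart R ({x⁻¹} : Set F) := by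
  obtain ⟨s, ⟨Q, hQ, rfl⟩, hst⟩ := ht
  obtain ⟨D, hD⟩ := exists_inv_pow_mul_mem_chart hx0 hst
  set d := Q.natDegree with hd
  have hrefl : x⁻¹ ^ d * aeval x Q = aeval x⁻¹ (reflect d Q) := by
    have := pow_mul_aeval_inv (R := R) (x := x⁻¹) (inv_ne_zero hx0) Q (d := d) le_rfl
    rwa [inv_inv] at this
  refine ⟨aeval x⁻¹ (X ^ D * reflect d Q), ⟨X ^ D * reflect d Q, fun h => ?_, rfl⟩, ?_⟩
  · rcases (prime_C_iff.2 hw).dvd_or_dvd h with h | h
    · exact not_C_dvd_X_pow hw D h
    · exact not_C_dvd_reflect hQ d h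
  · rw [map_mul, map_pow, aeval_X, ← hrefl]
    have : x⁻¹ ^ D * (x⁻¹ ^ d * aeval x Q) * t = x⁻¹ ^ d * (x⁻¹ ^ D * (aeval x Q * t)) := by ring
    rw [this]
    exact Subalgebra.mul_mem _ (Subalgebra.pow_mem _ (xinv_mem_chart_inf (R := R) x) d) hD

/-- **QEP** on the chart at infinity. -/
theorem qep_inf {w : R} (hw : Prime w) {x : F} (hx : Transcendental R x) :
    ∀ b ∈ chart R ({x⁻¹} : Set F), InW (gaussO hw x) w b →
      ∃ t ∈ chart R ({x⁻¹} : Set F), b = algebraMap R F w * t := by
  have hx0 : x ≠ 0 := ne_zero_of_transcendental hx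
  rintro b hb ⟨t, ht, rfl⟩
  obtain ⟨s, hs, hst⟩ := exists_denom_inv_of_mem_gaussO hw hx0 ht
  exact ⟨t, mem_chart_of_mul_mem hw (transcendental_inv hx) hs hb hst, rfl⟩

end Transcendental

end Fermat.Agent.A2.H729

end
-- ===== PACK-END A2/H729/Gauss.lean

-- ===== PACK-BEGIN A2/H729/GaussUnits.lean
section


/-!
# A2 (helper729): units and roots in the canonical Gauss ring

* `mem_chart_of_pow_mem`, `mem_gaussO_of_pow_mem` : the charts and the Gauss ring are closed under
  taking roots (they are integrally closed in `F`).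
* `inv_one_add_mem_gaussO` : `w` lies in the Jacobson radical of the Gauss ring:
  `t ∈ O → (1 + w t)⁻¹ ∈ O`.
* `inW_inv_sub_one` : `h ≡ 1 mod w O → h⁻¹ ≡ 1 mod w O`.
-/

set_option autoImplicit false
set_option linter.unusedSectionVars false

namespace Fermat.Agent.A2.H729

open Polynomial Fermat.Agent.S18.H138

variable {R : Type*} [CommRing R] {F : Type*} [Field F] [Algebra R F]

theorem mem_chart_of_pow_mem {S : Set F} {z : F} {n : ℕ} (hn : 0 < n)
    (h : z ^ n ∈ chart R S) : z ∈ chart R S := by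
  rw [mem_chart] at h ⊢
  exact IsIntegral.of_pow hn h

theorem mem_gaussO_of_pow_mem {w : R} (hw : Prime w) {x z : F} {n : ℕ} (hn : 0 < n)
    (h : z ^ n ∈ gaussO hw x) : z ∈ gaussO hw x := by
  obtain ⟨s, hs, hsz⟩ := h
  refine ⟨s, hs, mem_chart_of_pow_mem hn ?_⟩
  have : (s * z) ^ n = s ^ (n - 1) * (s * z ^ n) := by
    rw [mul_pow, ← mul_assoc, ← pow_succ]
    congr 2
    omega
  rw [this]
  exact Subalgebra.mul_mem _ (Subalgebra.pow_mem _ (adjoin_le_chart _ hs.mem_adjoin) _) hsz

section Transcendental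

variable [IsDomain R]

theorem not_C_dvd_symm {w : R} {x : F} (hx : Transcendental R x)
    {a : Algebra.adjoin R ({x} : Set F)}
    (ha : ¬ algebraMap R (Algebra.adjoin R ({x} : Set F)) w ∣ a) :
    ¬ C w ∣ (adjoinEquiv hx).symm a := by
  rintro ⟨q, hq⟩
  apply ha
  refine ⟨adjoinEquiv hx q, ?_⟩
  have h1 := congrArg (adjoinEquiv hx) hq
  rw [AlgEquiv.apply_symm_apply, map_mul] at h1
  rw [h1]
  congr 1
  apply Subtype.ext
  rw [coe_adjoinEquiv, aeval_C]
  rfl

theorem isGaussDenom_of_not_dvd {w : R} {x : F} (hx : Transcendental R x)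
    {a : Algebra.adjoin R ({x} : Set F)}
    (ha : ¬ algebraMap R (Algebra.adjoin R ({x} : Set F)) w ∣ a) :
    IsGaussDenom w x (a : F) := by
  refine ⟨(adjoinEquiv hx).symm a, not_C_dvd_symm hx ha, ?_⟩
  rw [← coe_adjoinEquiv hx, AlgEquiv.apply_symm_apply]

/-- `w` is in the Jacobson radical of the Gauss ring. -/
theorem one_add_unit_gaussO {w : R} (hw : Prime w) {x : F} (hx : Transcendental R x)
    {t : F} (ht : t ∈ gaussO hw x) :
    (1 + algebraMap R F w * t) ≠ 0 ∧ (1 + algebraMap R F w * t)⁻¹ ∈ gaussO hw x := by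
  classical
  obtain ⟨s, ⟨Q, hQ, rfl⟩, hst⟩ := ht
  set A := Algebra.adjoin R ({x} : Set F) with hA
  set w' : A := algebraMap R A w with hw'
  have hw'p : Prime w' := prime_algebraMap_adjoin hw hx
  set sA : A := adjoinEquiv hx Q with hsA
  have hsA' : ¬ w' ∣ sA := not_dvd_adjoinEquiv hx hQ
  have hsAcoe : (sA : F) = aeval x Q := coe_adjoinEquiv hx Q
  set c : F := aeval x Q * t with hc
  obtain ⟨m, hm, hmc⟩ := (mem_chart.1 hst : IsIntegral A c)
  set n := m.natDegree with hn
  set P : A[X] := (m.scaleRoots w').comp (X - C sA) with hP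
  set β : F := aeval x Q + algebraMap R F w * c with hβ
  have hβC : β ∈ chart R ({x} : Set F) :=
    Subalgebra.add_mem _ (adjoin_le_chart _ (mem_adjoin_singleton_iff.2 ⟨Q, rfl⟩))
      (Subalgebra.mul_mem _ (Subalgebra.algebraMap_mem _ w) hst)
  -- `P(β) = 0`
  have hPβ : aeval β P = 0 := by
    rw [hP, aeval_comp]
    have h1 : aeval β (X - C sA : A[X]) = algebraMap A F w' * c := by
      rw [map_sub, aeval_X, aeval_C]
      have : algebraMap A F sA = aeval x Q := hsAcoe
      rw [this, hβ]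
      have : algebraMap A F w' = algebraMap R F w := rfl
      rw [this]
      ring
    rw [h1]
    exact scaleRoots_aeval_eq_zero hmc
  -- constant term of `P`
  have hP0 : ¬ w' ∣ P.coeff 0 := by
    rw [coeff_zero_eq_eval_zero, hP, eval_comp]
    have h0 : eval 0 (X - C sA : A[X]) = -sA := by simp
    rw [h0, eval_eq_sum_range, natDegree_scaleRoots, Finset.sum_range_succ]
    intro hdvd
    have hlow : w' ∣ ∑ i ∈ Finset.range m.natDegree,
        (m.scaleRoots w').coeff i * (-sA) ^ i := by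
      refine Finset.dvd_sum fun i hi => ?_
      rw [coeff_scaleRoots]
      have hi' : 0 < m.natDegree - i := by
        have := Finset.mem_range.1 hi
        omega
      exact Dvd.dvd.mul_right (Dvd.dvd.mul_left (dvd_pow_self _ hi'.ne') _) _
    have htop : w' ∣ (m.scaleRoots w').coeff m.natDegree * (-sA) ^ m.natDegree :=
      (dvd_add_right hlow).1 hdvd
    rw [coeff_scaleRoots, Nat.sub_self, pow_zero, mul_one, hm.coeff_natDegree, one_mul] at htop
    have := hw'p.dvd_of_dvd_pow htop
    exact hsA' ((dvd_neg).1 this)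
  -- `β * γ = p₀`
  set γ : F := -aeval β P.divX with hγ
  have hγC : γ ∈ chart R ({x} : Set F) := by
    rw [hγ]
    refine Subalgebra.neg_mem _ ?_
    rw [aeval_eq_sum_range]
    refine Subalgebra.sum_mem _ fun i _ => ?_
    rw [Algebra.smul_def]
    exact Subalgebra.mul_mem _ (adjoin_le_chart _ (P.divX.coeff i).2)
      (Subalgebra.pow_mem _ hβC i)
  have hβγ : β * γ = ((P.coeff 0 : A) : F) := by
    have h1 : aeval β (P.divX * X + C (P.coeff 0)) = 0 := by rw [divX_mul_X_add, hPβ]
    rw [map_add, map_mul, aeval_X, aeval_C] at h1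
    have h2 : algebraMap A F (P.coeff 0) = ((P.coeff 0 : A) : F) := rfl
    rw [h2] at h1
    rw [hγ]
    linear_combination -h1
  have hp0 : ((P.coeff 0 : A) : F) ≠ 0 := by
    intro h
    have : P.coeff 0 = 0 := Subtype.ext h
    exact hP0 (this ▸ dvd_zero _)
  have hβ0 : β ≠ 0 := fun h => hp0 (by rw [← hβγ, h, zero_mul])
  have hz : β = aeval x Q * (1 + algebraMap R F w * t) := by
    rw [hβ, hc]; ring
  have hz0 : (1 + algebraMap R F w * t) ≠ 0 := fun h => hβ0 (by rw [hz, h, mul_zero])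
  refine ⟨hz0, ((P.coeff 0 : A) : F), isGaussDenom_of_not_dvd hx hP0, ?_⟩
  have : ((P.coeff 0 : A) : F) * (1 + algebraMap R F w * t)⁻¹ = aeval x Q * γ := by
    rw [← hβγ, hz]
    field_simp
  rw [this]
  exact Subalgebra.mul_mem _ (adjoin_le_chart _ (mem_adjoin_singleton_iff.2 ⟨Q, rfl⟩)) hγC

theorem inv_one_add_mem_gaussO {w : R} (hw : Prime w) {x : F} (hx : Transcendental R x)
    {t : F} (ht : t ∈ gaussO hw x) : (1 + algebraMap R F w * t)⁻¹ ∈ gaussO hw x :=
  (one_add_unit_gaussO hw hx ht).2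

/-- `h ≡ 1 mod w O` implies `h ≠ 0`, `h⁻¹ ∈ O` and `h⁻¹ ≡ 1 mod w O`. -/
theorem inW_inv_sub_one {w : R} (hw : Prime w) {x : F} (hx : Transcendental R x)
    {h : F} (hh : InW (gaussO hw x) w (h - 1)) :
    h ≠ 0 ∧ h⁻¹ ∈ gaussO hw x ∧ InW (gaussO hw x) w (h⁻¹ - 1) := by
  obtain ⟨t, ht, htt⟩ := hh
  have hh' : h = 1 + algebraMap R F w * t := by rw [← htt]; ring
  obtain ⟨hne, hinv⟩ := one_add_unit_gaussO hw hx ht
  rw [← hh'] at hne hinv
  refine ⟨hne, hinv, ⟨-(h⁻¹ * t), Subalgebra.neg_mem _ (Subalgebra.mul_mem _ hinv ht), ?_⟩⟩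
  field_simp
  rw [hh']
  ring

end Transcendental

end Fermat.Agent.A2.H729

end
-- ===== PACK-END A2/H729/GaussUnits.lean

-- ===== PACK-BEGIN A2/H729/Bridge.lean
section



/-!
# A2 (helper729): from the components of the special fibre to the canonical Gauss ring

`B = chart R {x}`, `p₁, p₂` prime ideals of `B` with `p₁ ⊓ p₂ = (w)` (the two components of a
reduced special fibre).

* `inv_mem_gaussO_of_not_mem` (**Gauss units**): `b ∈ B`, `b ∉ p₁`, `b ∉ p₂` implies
  `b⁻¹ ∈ gaussO` (going-up and incomparability for the integral extension `R[x] ⊆ B`).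
* `inW_sub_one_of_oneAt` (**bridge**): if `h ≡ 1` on both components
  (`h b_i = a_i`, `b_i ∉ p_i`, `a_i - b_i ∈ p_i`) and the components are incomparable, then
  `h ≡ 1 mod w · gaussO`.
-/

set_option autoImplicit false
set_option linter.unusedSectionVars false
set_option linter.style.haveILetI false

namespace Fermat.Agent.A2.H729

open Polynomial Fermat.Agent.S18.H138

variable {R : Type*} [CommRing R] [IsDomain R] {F : Type*} [Field F] [Algebra R F]

/-- The inclusion `R[x] → chart R {x}`. -/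
noncomputable def adjoinToChart (x : F) :
    Algebra.adjoin R ({x} : Set F) →+* chart R ({x} : Set F) :=
  (Subalgebra.inclusion (adjoin_le_chart (R := R) ({x} : Set F))).toRingHom

theorem coe_adjoinToChart (x : F) (a : Algebra.adjoin R ({x} : Set F)) :
    ((adjoinToChart x a : chart R ({x} : Set F)) : F) = (a : F) := rfl

theorem adjoinToChart_algebraMap (x : F) (r : R) :
    adjoinToChart x (algebraMap R (Algebra.adjoin R ({x} : Set F)) r) =
      algebraMap R (chart R ({x} : Set F)) r := rfl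

theorem adjoinToChart_isIntegral (x : F) : (adjoinToChart (R := R) x).IsIntegral := by
  intro b
  obtain ⟨p, hpm, hp⟩ := (mem_chart.1 b.2 : IsIntegral (Algebra.adjoin R ({x} : Set F)) (b : F))
  refine ⟨p, hpm, ?_⟩
  apply Subtype.ext
  have h1 : ((eval₂ (adjoinToChart (R := R) x) b p : chart R ({x} : Set F)) : F) =
      eval₂ (((chart R ({x} : Set F)).val.toRingHom).comp (adjoinToChart (R := R) x))
        (b : F) p :=
    hom_eval₂ p (adjoinToChart (R := R) x) ((chart R ({x} : Set F)).val.toRingHom) b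
  rw [h1]
  exact hp

/-- **Gauss units.**  An element of the chart outside both components of the special fibre is
a unit of the Gauss ring. -/
theorem exists_gaussDenom_mul_of_not_mem {w : R} (hw : Prime w) {x : F}
    (hx : Transcendental R x) {p₁ p₂ : Ideal (chart R ({x} : Set F))}
    (hp₁ : p₁.IsPrime) (hp₂ : p₂.IsPrime)
    (hinf : p₁ ⊓ p₂ = Ideal.span {algebraMap R (chart R ({x} : Set F)) w})
    {b : chart R ({x} : Set F)} (hb₁ : b ∉ p₁) (hb₂ : b ∉ p₂) :
    ∃ s : F, IsGaussDenom w x s ∧ ∃ c : chart R ({x} : Set F), s = (b : F) * (c : F) := by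
  classical
  letI : Algebra (Algebra.adjoin R ({x} : Set F)) (chart R ({x} : Set F)) :=
    (adjoinToChart (R := R) x).toAlgebra
  haveI : Algebra.IsIntegral (Algebra.adjoin R ({x} : Set F)) (chart R ({x} : Set F)) :=
    ⟨adjoinToChart_isIntegral x⟩
  have hwAp : Prime (algebraMap R (Algebra.adjoin R ({x} : Set F)) w) :=
    prime_algebraMap_adjoin hw hx
  haveI hPprime : (Ideal.span {algebraMap R (Algebra.adjoin R ({x} : Set F)) w}).IsPrime :=
    (Ideal.span_singleton_prime hwAp.ne_zero).2 hwAp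
  have hw₁ : algebraMap R (chart R ({x} : Set F)) w ∈ p₁ := by
    have : algebraMap R (chart R ({x} : Set F)) w ∈ p₁ ⊓ p₂ := by
      rw [hinf]; exact Ideal.mem_span_singleton_self _
    exact this.1
  have hw₂ : algebraMap R (chart R ({x} : Set F)) w ∈ p₂ := by
    have : algebraMap R (chart R ({x} : Set F)) w ∈ p₁ ⊓ p₂ := by
      rw [hinf]; exact Ideal.mem_span_singleton_self _
    exact this.2
  -- the key claim
  have key : ¬ (Ideal.span {b}).comap
      (algebraMap (Algebra.adjoin R ({x} : Set F)) (chart R ({x} : Set F))) ≤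
      Ideal.span {algebraMap R (Algebra.adjoin R ({x} : Set F)) w} := by
    intro hle
    obtain ⟨Q, hQb, hQp, hQ⟩ := Ideal.exists_ideal_over_prime_of_isIntegral
      (Ideal.span {algebraMap R (Algebra.adjoin R ({x} : Set F)) w}) (Ideal.span {b}) hle
    have hbQ : b ∈ Q := hQb (Ideal.mem_span_singleton_self b)
    have hwQ : algebraMap R (chart R ({x} : Set F)) w ∈ Q := by
      have : algebraMap R (Algebra.adjoin R ({x} : Set F)) w ∈
          Q.comap (algebraMap (Algebra.adjoin R ({x} : Set F)) (chart R ({x} : Set F))) := by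
        rw [hQ]; exact Ideal.mem_span_singleton_self _
      exact this
    have hle' : p₁ ⊓ p₂ ≤ Q := by
      rw [hinf, Ideal.span_singleton_le_iff_mem]
      exact hwQ
    -- a component contained in `Q` with the same contraction equals `Q`
    have aux : ∀ p : Ideal (chart R ({x} : Set F)), p.IsPrime →
        algebraMap R (chart R ({x} : Set F)) w ∈ p → p ≤ Q → b ∉ p → False := by
      intro p hp hwp hpQ hbp
      have hlt : p < Q := lt_of_le_of_ne hpQ (fun h => hbp (h ▸ hbQ))
      obtain ⟨z, hzQ, hzp⟩ := SetLike.exists_of_lt hlt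
      have h1 : p.comap (algebraMap (Algebra.adjoin R ({x} : Set F)) (chart R ({x} : Set F))) <
          Q.comap (algebraMap (Algebra.adjoin R ({x} : Set F)) (chart R ({x} : Set F))) :=
        Ideal.comap_lt_comap_of_integral_mem_sdiff hpQ ⟨hzQ, hzp⟩
          (Algebra.IsIntegral.isIntegral z)
      have h2 : Q.comap (algebraMap (Algebra.adjoin R ({x} : Set F)) (chart R ({x} : Set F))) ≤
          p.comap (algebraMap (Algebra.adjoin R ({x} : Set F)) (chart R ({x} : Set F))) := by
        rw [hQ, Ideal.span_singleton_le_iff_mem]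
        exact hwp
      exact (lt_irrefl _ (lt_of_lt_of_le h1 h2))
    rcases (Ideal.IsPrime.inf_le hQp).1 hle' with h | h
    · exact aux p₁ hp₁ hw₁ h hb₁
    · exact aux p₂ hp₂ hw₂ h hb₂
  obtain ⟨a, ha, haP⟩ := SetLike.not_le_iff_exists.1 key
  have ha' : algebraMap (Algebra.adjoin R ({x} : Set F)) (chart R ({x} : Set F)) a ∈
      Ideal.span {b} := ha
  obtain ⟨c, hc⟩ := Ideal.mem_span_singleton'.1 ha'
  have hnd : ¬ algebraMap R (Algebra.adjoin R ({x} : Set F)) w ∣ a :=
    fun h => haP (Ideal.mem_span_singleton.2 h)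
  refine ⟨(a : F), isGaussDenom_of_not_dvd hx hnd, c, ?_⟩
  have := congrArg (fun t : chart R ({x} : Set F) => (t : F)) hc
  rw [mul_comm]
  exact this.symm

theorem inv_mem_gaussO_of_not_mem {w : R} (hw : Prime w) {x : F}
    (hx : Transcendental R x) {p₁ p₂ : Ideal (chart R ({x} : Set F))}
    (hp₁ : p₁.IsPrime) (hp₂ : p₂.IsPrime)
    (hinf : p₁ ⊓ p₂ = Ideal.span {algebraMap R (chart R ({x} : Set F)) w})
    {b : chart R ({x} : Set F)} (hb₁ : b ∉ p₁) (hb₂ : b ∉ p₂) :
    (b : F)⁻¹ ∈ gaussO hw x := by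
  obtain ⟨s, hs, c, hsc⟩ := exists_gaussDenom_mul_of_not_mem hw hx hp₁ hp₂ hinf hb₁ hb₂
  have hb0 : (b : F) ≠ 0 := by
    intro h0
    apply hb₁
    have : b = 0 := Subtype.ext h0
    rw [this]
    exact p₁.zero_mem
  refine ⟨s, hs, ?_⟩
  have : s * (b : F)⁻¹ = (c : F) := by
    rw [hsc]; field_simp
  rw [this]
  exact c.2

/-- **Bridge.**  `h ≡ 1` on both components implies `h ≡ 1 mod w · gaussO`. -/
theorem inW_sub_one_of_oneAt {w : R} (hw : Prime w) {x : F}
    (hx : Transcendental R x) {p₁ p₂ : Ideal (chart R ({x} : Set F))}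
    (hp₁ : p₁.IsPrime) (hp₂ : p₂.IsPrime)
    (hinf : p₁ ⊓ p₂ = Ideal.span {algebraMap R (chart R ({x} : Set F)) w})
    (h₁₂ : ¬ p₁ ≤ p₂) (h₂₁ : ¬ p₂ ≤ p₁) {h : F}
    (hone₁ : ∃ a b : chart R ({x} : Set F), b ∉ p₁ ∧ a - b ∈ p₁ ∧ h * (b : F) = (a : F))
    (hone₂ : ∃ a b : chart R ({x} : Set F), b ∉ p₂ ∧ a - b ∈ p₂ ∧ h * (b : F) = (a : F)) :
    InW (gaussO hw x) w (h - 1) := by
  obtain ⟨a₁, b₁, hb₁, hab₁, e₁⟩ := hone₁
  obtain ⟨a₂, b₂, hb₂, hab₂, e₂⟩ := hone₂
  obtain ⟨c₂, hc₂p₁, hc₂p₂⟩ := SetLike.not_le_iff_exists.1 h₁₂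
  obtain ⟨c₁, hc₁p₂, hc₁p₁⟩ := SetLike.not_le_iff_exists.1 h₂₁
  -- `c₁ ∈ p₂ ∖ p₁`, `c₂ ∈ p₁ ∖ p₂`
  set b := b₁ * c₁ + b₂ * c₂ with hb
  set a := a₁ * c₁ + a₂ * c₂ with ha
  have hbp₁ : b ∉ p₁ := by
    intro hmem
    have h1 : b₂ * c₂ ∈ p₁ := p₁.mul_mem_left _ hc₂p₁
    have h2 : b₁ * c₁ ∈ p₁ := by
      have := p₁.sub_mem hmem h1
      rwa [hb, add_sub_cancel_right] at this
    rcases hp₁.mem_or_mem h2 with h3 | h3
    · exact hb₁ h3
    · exact hc₁p₁ h3
  have hbp₂ : b ∉ p₂ := by
    intro hmem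
    have h1 : b₁ * c₁ ∈ p₂ := p₂.mul_mem_left _ hc₁p₂
    have h2 : b₂ * c₂ ∈ p₂ := by
      have := p₂.sub_mem hmem h1
      rwa [hb, add_sub_cancel_left] at this
    rcases hp₂.mem_or_mem h2 with h3 | h3
    · exact hb₂ h3
    · exact hc₂p₂ h3
  have hab : a - b ∈ p₁ ⊓ p₂ := by
    have e : a - b = (a₁ - b₁) * c₁ + (a₂ - b₂) * c₂ := by rw [ha, hb]; ring
    rw [e]
    refine ⟨p₁.add_mem (p₁.mul_mem_right _ hab₁) (p₁.mul_mem_left _ hc₂p₁),
      p₂.add_mem (p₂.mul_mem_left _ hc₁p₂) (p₂.mul_mem_right _ hab₂)⟩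
  rw [hinf] at hab
  obtain ⟨d, hd⟩ := Ideal.mem_span_singleton'.1 hab
  have hbinv := inv_mem_gaussO_of_not_mem hw hx hp₁ hp₂ hinf hbp₁ hbp₂
  have hb0 : (b : F) ≠ 0 := by
    intro h0
    apply hbp₁
    have : b = 0 := Subtype.ext h0
    rw [this]
    exact p₁.zero_mem
  have ehb : h * (b : F) = (a : F) := by
    have : (b : F) = (b₁ : F) * c₁ + (b₂ : F) * c₂ := by rw [hb]; rfl
    rw [this]
    have : (a : F) = (a₁ : F) * c₁ + (a₂ : F) * c₂ := by rw [ha]; rfl
    rw [this, ← e₁, ← e₂]
    ring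
  have hdF : (a : F) - (b : F) = (d : F) * algebraMap R F w := by
    have := congrArg (fun t : chart R ({x} : Set F) => (t : F)) hd
    exact this.symm
  refine ⟨(d : F) * (b : F)⁻¹,
    Subalgebra.mul_mem _ (chart_fin_le_gaussO hw x d.2) hbinv, ?_⟩
  have : h - 1 = ((a : F) - (b : F)) * (b : F)⁻¹ := by
    rw [← ehb]; field_simp
  rw [this, hdF]
  ring

end Fermat.Agent.A2.H729

end
-- ===== PACK-END A2/H729/Bridge.lean

-- ===== PACK-BEGIN A2/H729/GaussClosed.lean
section



/-!
# A2 (helper729): the canonical Gauss ring is integrally closed in `F`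

* `mem_chart_of_isIntegral_chart` : the charts are integrally closed in `F`.
* `mem_gaussO_of_isIntegral` : the Gauss ring `gaussO hw x` is integrally closed in `F`.
* `inv_not_mem_gaussO` : `w⁻¹ ∉ gaussO`.
-/

set_option autoImplicit false
set_option linter.unusedSectionVars false
set_option linter.style.haveILetI false

namespace Fermat.Agent.A2.H729

open Polynomial Fermat.Agent.S18.H138

variable {R : Type*} [CommRing R] {F : Type*} [Field F] [Algebra R F]

/-- An element integral over a chart lies in the chart. -/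
theorem mem_chart_of_isIntegral_chart {S : Set F} {y : F} (hy : IsIntegral (chart R S) y) :
    y ∈ chart R S := by
  rw [mem_chart]
  have h1 : IsIntegral (integralClosure (Algebra.adjoin R S) F) y := hy
  exact isIntegral_trans (R := Algebra.adjoin R S) (A := integralClosure (Algebra.adjoin R S) F)
    y h1

theorem IsGaussDenom.prod {w : R} (hw : Prime w) (x : F) {ι : Type*} (s : Finset ι)
    (g : ι → F) (h : ∀ i ∈ s, IsGaussDenom w x (g i)) : IsGaussDenom w x (∏ i ∈ s, g i) := by
  classical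
  induction s using Finset.induction_on with
  | empty => simpa using isGaussDenom_one hw x
  | insert a s ha ih =>
    rw [Finset.prod_insert ha]
    exact (h a (Finset.mem_insert_self a s)).mul hw
      (ih fun i hi => h i (Finset.mem_insert_of_mem hi))

/-- The Gauss ring is integrally closed in `F`. -/
theorem mem_gaussO_of_isIntegral {w : R} (hw : Prime w) {x f : F}
    (hf : IsIntegral (gaussO hw x) f) : f ∈ gaussO hw x := by
  classical
  obtain ⟨p, hpm, hp⟩ := hf
  have hden : ∀ i : ℕ, ∃ s, IsGaussDenom w x s ∧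
      s * ((p.coeff i : gaussO hw x) : F) ∈ chart R ({x} : Set F) := fun i => (p.coeff i).2
  choose s hs hsc using hden
  have hS : IsGaussDenom w x (∏ i ∈ Finset.range p.natDegree, s i) :=
    IsGaussDenom.prod hw x _ _ (fun i _ => hs i)
  have hSch : (∏ i ∈ Finset.range p.natDegree, s i) ∈ chart R ({x} : Set F) :=
    adjoin_le_chart _ hS.mem_adjoin
  have hSmem : (∏ i ∈ Finset.range p.natDegree, s i) ∈ gaussO hw x :=
    chart_fin_le_gaussO hw x hSch
  have hScoeff : ∀ i < p.natDegree,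
      (∏ i ∈ Finset.range p.natDegree, s i) * ((p.coeff i : gaussO hw x) : F) ∈
        chart R ({x} : Set F) := by
    intro i hi
    have h1 : (∏ j ∈ Finset.range p.natDegree, s j) =
        s i * ∏ j ∈ (Finset.range p.natDegree).erase i, s j :=
      (Finset.mul_prod_erase _ _ (Finset.mem_range.2 hi)).symm
    rw [h1, mul_right_comm]
    exact Subalgebra.mul_mem _ (hsc i)
      (Subalgebra.prod_mem _ fun j _ => adjoin_le_chart _ (hs j).mem_adjoin)
  generalize hSdef : (∏ i ∈ Finset.range p.natDegree, s i) = S at hS hSch hSmem hScoeff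
  -- the scaled polynomial
  have hroot : eval₂ (algebraMap (gaussO hw x) F) (S * f)
      (scaleRoots p (⟨S, hSmem⟩ : gaussO hw x)) = 0 := by
    have h1 := scaleRoots_eval₂_mul (p := p) (algebraMap (gaussO hw x) F) f
      (⟨S, hSmem⟩ : gaussO hw x)
    have h2 : algebraMap (gaussO hw x) F (⟨S, hSmem⟩ : gaussO hw x) = S := rfl
    rw [h2] at h1
    rw [h1, hp, mul_zero]
  have hlift : scaleRoots p (⟨S, hSmem⟩ : gaussO hw x) ∈
      lifts (Subalgebra.inclusion (chart_fin_le_gaussO hw x)).toRingHom := by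
    rw [lifts_iff_coeff_lifts]
    intro i
    rw [coeff_scaleRoots]
    rcases lt_trichotomy i p.natDegree with hi | hi | hi
    · have h1 : ((p.coeff i : gaussO hw x) : F) * S ^ (p.natDegree - i) ∈
          chart R ({x} : Set F) := by
        have h2 : S ^ (p.natDegree - i) = S * S ^ (p.natDegree - i - 1) := by
          rw [← pow_succ']; congr 1; omega
        have h3 : ((p.coeff i : gaussO hw x) : F) * S ^ (p.natDegree - i) =
            (S * ((p.coeff i : gaussO hw x) : F)) * S ^ (p.natDegree - i - 1) := by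
          rw [h2]; ring
        rw [h3]
        exact Subalgebra.mul_mem _ (hScoeff i hi) (Subalgebra.pow_mem _ hSch _)
      exact ⟨⟨_, h1⟩, Subtype.ext rfl⟩
    · rw [hi, hpm.coeff_natDegree, Nat.sub_self, pow_zero, mul_one]
      exact ⟨1, map_one _⟩
    · rw [coeff_eq_zero_of_natDegree_lt hi, zero_mul]
      exact ⟨0, map_zero _⟩
  obtain ⟨q, hq, -, hqm⟩ := lifts_and_degree_eq_and_monic hlift
    ((monic_scaleRoots_iff (⟨S, hSmem⟩ : gaussO hw x)).2 hpm)
  have hint : IsIntegral (chart R ({x} : Set F)) (S * f) := by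
    refine ⟨q, hqm, ?_⟩
    have h1 : (algebraMap (gaussO hw x) F).comp
        (Subalgebra.inclusion (chart_fin_le_gaussO hw x)).toRingHom =
        algebraMap (chart R ({x} : Set F)) F := rfl
    rw [← h1, ← eval₂_map, hq]
    exact hroot
  exact ⟨S, hS, mem_chart_of_isIntegral_chart hint⟩

section Dom

variable [IsDomain R] [IsIntegrallyClosed (Polynomial R)]

/-- `w` is not a unit of the Gauss ring. -/
theorem inv_not_mem_gaussO (hinjR : Function.Injective (algebraMap R F)) {w : R}
    (hw : Prime w) {x : F} (hx : Transcendental R x) :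
    (algebraMap R F w)⁻¹ ∉ gaussO hw x := by
  intro h
  have hw0 : algebraMap R F w ≠ 0 := fun h0 => hw.ne_zero (hinjR (by rw [h0, map_zero]))
  have h1 : InW (gaussO hw x) w (algebraMap R F 1) := by
    refine ⟨_, h, ?_⟩
    rw [map_one, mul_inv_cancel₀ hw0]
  obtain ⟨t, ht, htt⟩ := qep_fin hw hx _ (Subalgebra.algebraMap_mem _ (1 : R)) h1
  have h2 : w ∣ (1 : R) := dvd_of_algebraMap_eq_mul hinjR hx w 1 ht htt
  exact hw.not_isUnit (isUnit_of_dvd_one h2)

end Dom

end Fermat.Agent.A2.H729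

end
-- ===== PACK-END A2/H729/GaussClosed.lean

-- ===== PACK-BEGIN A2/H729/BaseChange.lean
section


/-!
# A2 (helper729): base change of charts and Gauss rings along a field extension `F₀ → F`

`F₀ ⊆ F` fields over `R`, `x₀ ∈ F₀`, `x = algebraMap F₀ F x₀`.  The charts and the Gauss ring of
`F₀` map into those of `F`, congruences modulo `w O` are preserved, maximal ideals of the chart of
`F` contract to maximal ideals of the chart of `F₀`, and `F₀`-automorphisms of `F` preserve the
charts, the Gauss ring and congruences modulo `w O`.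
-/

set_option autoImplicit false
set_option linter.unusedSectionVars false

namespace Fermat.Agent.A2.H729

open Polynomial Fermat.Agent.S18.H138

variable {R : Type*} [CommRing R] {F₀ : Type*} [Field F₀] [Algebra R F₀]
  {F : Type*} [Field F] [Algebra R F] [Algebra F₀ F] [IsScalarTower R F₀ F]

/-- The restriction `R[S] → R[φ S]` of `F₀ → F`. -/
noncomputable def adjoinMap (S : Set F₀) :
    Algebra.adjoin R S →ₐ[R] Algebra.adjoin R ((algebraMap F₀ F) '' S) :=
  AlgHom.codRestrict ((IsScalarTower.toAlgHom R F₀ F).comp (Algebra.adjoin R S).val)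
    (Algebra.adjoin R ((algebraMap F₀ F) '' S)) (fun a => by
      have h := AlgHom.map_adjoin (IsScalarTower.toAlgHom R F₀ F) S
      have h2 : (IsScalarTower.toAlgHom R F₀ F) a ∈
          Subalgebra.map (IsScalarTower.toAlgHom R F₀ F) (Algebra.adjoin R S) :=
        Subalgebra.mem_map.2 ⟨a, a.2, rfl⟩
      rw [h] at h2
      exact h2)

theorem coe_adjoinMap (S : Set F₀) (a : Algebra.adjoin R S) :
    ((adjoinMap (F := F) S a : Algebra.adjoin R ((algebraMap F₀ F) '' S)) : F) =
      algebraMap F₀ F a := rfl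

/-- Charts map to charts. -/
theorem algebraMap_mem_chart {S : Set F₀} {z : F₀} (hz : z ∈ chart R S) :
    algebraMap F₀ F z ∈ chart R ((algebraMap F₀ F) '' S) := by
  rw [mem_chart] at hz ⊢
  exact IsIntegral.map_of_comp_eq (adjoinMap (F := F) S).toRingHom (algebraMap F₀ F)
    (by ext a; rfl) hz

theorem algebraMap_mem_chart_singleton {x₀ z : F₀} (hz : z ∈ chart R ({x₀} : Set F₀)) :
    algebraMap F₀ F z ∈ chart R ({algebraMap F₀ F x₀} : Set F) := by
  have := algebraMap_mem_chart (F := F) hz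
  rwa [Set.image_singleton] at this

theorem algebraMap_mem_chart_inv {x₀ z : F₀} (hz : z ∈ chart R ({x₀⁻¹} : Set F₀)) :
    algebraMap F₀ F z ∈ chart R ({(algebraMap F₀ F x₀)⁻¹} : Set F) := by
  have := algebraMap_mem_chart (F := F) hz
  rwa [Set.image_singleton, map_inv₀] at this

theorem IsGaussDenom.map {w : R} {x₀ s : F₀} (hs : IsGaussDenom w x₀ s) :
    IsGaussDenom w (algebraMap F₀ F x₀) (algebraMap F₀ F s) := by
  obtain ⟨Q, hQ, rfl⟩ := hs
  refine ⟨Q, hQ, ?_⟩
  rw [← aeval_algebraMap_apply]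

/-- The Gauss ring maps to the Gauss ring. -/
theorem algebraMap_mem_gaussO {w : R} (hw : Prime w) {x₀ t : F₀} (ht : t ∈ gaussO hw x₀) :
    algebraMap F₀ F t ∈ gaussO hw (algebraMap F₀ F x₀) := by
  obtain ⟨s, hs, hst⟩ := ht
  refine ⟨algebraMap F₀ F s, hs.map, ?_⟩
  rw [← map_mul]
  exact algebraMap_mem_chart_singleton hst

/-- Congruences modulo `w O` are preserved. -/
theorem InW.map {w : R} (hw : Prime w) {x₀ z : F₀} (hz : InW (gaussO hw x₀) w z) :
    InW (gaussO hw (algebraMap F₀ F x₀)) w (algebraMap F₀ F z) := by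
  obtain ⟨t, ht, rfl⟩ := hz
  refine ⟨algebraMap F₀ F t, algebraMap_mem_gaussO hw ht, ?_⟩
  rw [map_mul, ← IsScalarTower.algebraMap_apply]

section Auto

/-- `F₀`-automorphisms of `F` preserve the chart. -/
theorem algEquiv_mem_chart (σ : F ≃ₐ[F₀] F) {S : Set F}
    (hS : ∀ a ∈ S, σ a = a) {z : F} (hz : z ∈ chart R S) : σ z ∈ chart R S := by
  rw [mem_chart] at hz ⊢
  have hfix : ∀ a ∈ Algebra.adjoin R S, σ a = a := by
    intro a ha
    induction ha using Algebra.adjoin_induction with
    | mem y hy => exact hS y hy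
    | algebraMap r =>
      rw [IsScalarTower.algebraMap_apply R F₀ F, AlgEquiv.commutes]
    | add y z _ _ hy hz => rw [map_add, hy, hz]
    | mul y z _ _ hy hz => rw [map_mul, hy, hz]
  refine IsIntegral.map_of_comp_eq (RingHom.id _) (σ : F →+* F) ?_ hz
  ext a
  exact (hfix a a.2).symm

theorem algEquiv_mem_gaussO {w : R} (hw : Prime w) (σ : F ≃ₐ[F₀] F) {x₀ : F₀} {t : F}
    (ht : t ∈ gaussO hw (algebraMap F₀ F x₀)) : σ t ∈ gaussO hw (algebraMap F₀ F x₀) := by
  obtain ⟨s, ⟨Q, hQ, rfl⟩, hst⟩ := ht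
  have hsx : σ (algebraMap F₀ F x₀) = algebraMap F₀ F x₀ := σ.commutes x₀
  have hs : σ (aeval (algebraMap F₀ F x₀) Q) = aeval (algebraMap F₀ F x₀) Q := by
    rw [aeval_algebraMap_apply, σ.commutes]
  refine ⟨aeval (algebraMap F₀ F x₀) Q, ⟨Q, hQ, rfl⟩, ?_⟩
  have := algEquiv_mem_chart (R := R) σ
    (S := ({algebraMap F₀ F x₀} : Set F)) (fun a ha => by
      rw [Set.mem_singleton_iff] at ha; rw [ha, hsx]) hst
  rwa [map_mul, hs] at this

theorem InW.algEquiv {w : R} (hw : Prime w) (σ : F ≃ₐ[F₀] F) {x₀ : F₀} {z : F}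
    (hz : InW (gaussO hw (algebraMap F₀ F x₀)) w z) :
    InW (gaussO hw (algebraMap F₀ F x₀)) w (σ z) := by
  obtain ⟨t, ht, rfl⟩ := hz
  refine ⟨σ t, algEquiv_mem_gaussO hw σ ht, ?_⟩
  rw [map_mul, IsScalarTower.algebraMap_apply R F₀ F, σ.commutes]

end Auto

end Fermat.Agent.A2.H729

end
-- ===== PACK-END A2/H729/BaseChange.lean

-- ===== PACK-BEGIN A2/H348/Final.lean
section


/-!
# A2 / piece E (ALG_ss): final theorem

`exists_pow_eq_of_local_factorisation`:

`R` a noetherian domain with `R[X]` integrally closed (e.g. a DVR), `w ∈ R` prime, `F ⊇ R` a field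
of characteristic `0`, `x ∈ F` transcendental over `R`, `F` finite over `Frac R (x)`;
`B_fin = chart R {x}`, `B_inf = chart R {x⁻¹}` the two charts of the normal `x`-line model (as in
`S18.H138`), `V ⊆ F` the semilocal Gauss ring (intersection of the valuation rings of the generic
points of the special fibre) with

* `GaussData w m u V` : `V` integrally closed in `F`, `w⁻¹ ∉ V`, `1 + w V ⊆ V^×`, `m⁻¹ ∈ R`,
  `u ∈ 1 + w V`;
* `ChartData w m u B V` for `B = B_fin, B_inf` : `B ⊆ V`, `B ∩ w V = w B` (reduced special fibre),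
  and at every maximal ideal `𝔪 ∋ w` of `B` a **local factorisation** `u = ε h ^ m` with
  `ε ∈ 1 + w B_𝔪`, `h ∈ 1 + w V`;
* constants do not grow in the residue fields of the Kummer algebra `F[X]/(X ^ m - u)`.

Then `u = y ^ m` with `y ∈ F`, `y ∈ 1 + w V`.
-/

set_option autoImplicit false
set_option linter.unusedSectionVars false
set_option linter.style.haveILetI false

open Polynomial

namespace Fermat.Agent.A2.H348

open Fermat.Agent.S18.H138 (chart baseField)

section KummerAlg

variable {F : Type*} [Field F]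

/-- the Kummer basis of `F[X]/(X ^ m - u)`. -/
noncomputable def kummerBasisAdjoinRoot {m : ℕ} (hm : m ≠ 0) (u : F) :
    haveI : Nontrivial (AdjoinRoot (X ^ m - C u)) :=
      AdjoinRoot.nontrivial _ (by rw [degree_X_pow_sub_C (Nat.pos_of_ne_zero hm)]; exact_mod_cast hm)
    KummerBasis m u (AdjoinRoot.root (X ^ m - C u)) :=
  haveI : Nontrivial (AdjoinRoot (X ^ m - C u)) :=
    AdjoinRoot.nontrivial _ (by rw [degree_X_pow_sub_C (Nat.pos_of_ne_zero hm)]; exact_mod_cast hm)
  have hf : (X ^ m - C u : F[X]) ≠ 0 := (monic_X_pow_sub_C u hm).ne_zero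
  { pow_eq := by
      have h := AdjoinRoot.eval₂_root (X ^ m - C u : F[X])
      rw [eval₂_sub, eval₂_pow, eval₂_X, eval₂_C, sub_eq_zero] at h
      exact h
    basis := (AdjoinRoot.powerBasis hf).basis.reindex
      (finCongr ((AdjoinRoot.powerBasis_dim hf).trans natDegree_X_pow_sub_C))
    basis_apply := by
      intro i
      rw [Module.Basis.reindex_apply, PowerBasis.basis_eq_pow, AdjoinRoot.powerBasis_gen]
      rfl }

end KummerAlg

section Final

variable {R F : Type*} [CommRing R] [Field F] [Algebra R F]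
  [IsNoetherianRing R] [IsIntegrallyClosed R[X]] [CharZero F]

/-- **ALG_ss (route S of the A2 wall).** -/
theorem exists_pow_eq_of_local_factorisation
    (hinjR : Function.Injective (algebraMap R F))
    {x : F} (hx : Transcendental R x) [FiniteDimensional (baseField R x) F]
    (w : R) (hw : Prime w) {m : ℕ} {u : F} {V : Subalgebra R F}
    (hV : GaussData w m u V)
    (hfin : ChartData w m u (chart R ({x} : Set F)) V)
    (hinf : ChartData w m u (chart R ({x⁻¹} : Set F)) V)
    (hconst : ∀ 𝔫 : Ideal (AdjoinRoot (X ^ m - C u)), 𝔫.IsMaximal →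
      ∀ y : AdjoinRoot (X ^ m - C u) ⧸ 𝔫, IsIntegral R y →
        y ∈ Set.range (algebraMap R (AdjoinRoot (X ^ m - C u) ⧸ 𝔫))) :
    ∃ y : F, y ^ m = u ∧ ∃ t ∈ V, y = 1 + algebraMap R F w * t := by
  have hm : m ≠ 0 := by
    rintro rfl
    exact hV.m_ne (by simp)
  have hx0 : x ≠ 0 := Fermat.Agent.S18.H138.ne_zero_of_transcendental hx
  haveI : Nontrivial (AdjoinRoot (X ^ m - C u)) :=
    AdjoinRoot.nontrivial _ (by rw [degree_X_pow_sub_C (Nat.pos_of_ne_zero hm)]; exact_mod_cast hm)
  have kb := kummerBasisAdjoinRoot hm u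
  haveI := kb.finiteDimensional
  refine exists_root_of_connected (Bmid := chart R ({x, x⁻¹} : Set F)) hV hfin hinf
    (Fermat.Agent.S18.H138.chart_mono (by simp)) (Fermat.Agent.S18.H138.chart_mono (by simp))
    ⟨x, Fermat.Agent.S18.H138.mem_chart_of_mem rfl⟩ hx0
    (Fermat.Agent.S18.H138.mem_chart_of_mem (by simp))
    (fun f hf => Fermat.Agent.S18.H138.exists_pow_mul_mem_chart hx0 hf) kb ?_
  intro 𝔫 h𝔫
  letI : Field (AdjoinRoot (X ^ m - C u) ⧸ 𝔫) := Ideal.Quotient.field 𝔫
  exact conn_of_const hinjR hx w hw (hconst 𝔫 h𝔫)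

end Final

end Fermat.Agent.A2.H348

end
-- ===== PACK-END A2/H348/Final.lean

-- ===== PACK-BEGIN A2/H609/Smooth.lean
section


/-!
# Node purity, part 8: a smooth point of the special fibre

`R` a noetherian local integrally closed domain, `𝔭 = (π)` prime with `R ⧸ 𝔭` a discrete
valuation ring (so `R` is regular of dimension two, but unique factorisation of regular local
rings is not used).  If `u ∉ 𝔭` satisfies (H1) `m ∣ ord_𝔓 u` at the horizontal primes and (H2)
`u` is a unit times an `m`-th power modulo `𝔭`, then `u = ε f ^ m`.  Mathlib only.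
-/

set_option autoImplicit false

namespace Fermat.Agent.A2.H609

open Ideal

section BranchLength

variable {R : Type*} [CommRing R] [IsLocalRing R]
variable (𝔭 : Ideal R) [𝔭.IsPrime] [IsDiscreteValuationRing (R ⧸ 𝔭)]

/-- `𝔪 = (x) + 𝔭` for a uniformiser `x` modulo `𝔭`. -/
theorem maximalIdeal_le_span_sup {x : R} (hx : Irreducible (Ideal.Quotient.mk 𝔭 x)) :
    IsLocalRing.maximalIdeal R ≤ Ideal.span {x} ⊔ 𝔭 := by
  intro s hs
  obtain ⟨g, hg⟩ := exists_sub_mul_mem_of_mem_maximalIdeal 𝔭 hx hs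
  have h : s = x * g + (s - x * g) := by ring
  rw [h]
  exact Ideal.add_mem _ (Ideal.mem_sup_left (Ideal.mem_span_singleton.mpr (Dvd.intro g rfl)))
    (Ideal.mem_sup_right hg)

/-- `ℓ(R / ((x ^ k) + 𝔭)) = k` for a uniformiser `x` modulo `𝔭`. -/
theorem relLen_branch_pow {x : R} (hx : Irreducible (Ideal.Quotient.mk 𝔭 x)) (k : ℕ) :
    relLen (Ideal.span {x ^ k} ⊔ 𝔭) (⊤ : Ideal R) = k := by
  have h := relLen_pow_chain 𝔭 hx 𝔭 le_rfl 0 ?_ k
  · rw [zero_add, pow_zero, Ideal.span_singleton_one, top_sup_eq] at h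
    exact h
  · intro n _ s hs
    obtain ⟨g, hg⟩ := exists_sub_mul_mem_of_mem_maximalIdeal 𝔭 hx hs
    have h : s * x ^ n = x ^ (n + 1) * g + (s - x * g) * x ^ n := by ring
    rw [h]
    exact Ideal.add_mem _
      (Ideal.mem_sup_left (Ideal.mem_span_singleton.mpr (Dvd.intro g rfl)))
      (Ideal.mem_sup_right (𝔭.mul_mem_right _ hg))

omit [IsLocalRing R] [IsDiscreteValuationRing (R ⧸ 𝔭)] [𝔭.IsPrime] in
/-- A prime containing `𝔭` and `u ≡ ε x ^ n` contains `x`. -/
theorem mem_of_le_of_mk_eq {x u : R} {n : ℕ} {ε : (R ⧸ 𝔭)ˣ}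
    (hu : Ideal.Quotient.mk 𝔭 u = ε * (Ideal.Quotient.mk 𝔭 x) ^ n)
    {𝔮 : Ideal R} (h𝔮 : 𝔮.IsPrime) (hle : 𝔭 ≤ 𝔮) (hu𝔮 : u ∈ 𝔮) : x ∈ 𝔮 := by
  obtain ⟨e, he⟩ := exists_pow_sub_mul_mem 𝔭 hu
  refine h𝔮.mem_of_pow_mem n ?_
  have h : x ^ n = (x ^ n - u * e) + u * e := by ring
  rw [h]
  exact 𝔮.add_mem (hle he) (𝔮.mul_mem_right _ hu𝔮)

end BranchLength

variable {R : Type*} [CommRing R] [IsDomain R] [IsIntegrallyClosed R] [IsNoetherianRing R]
  [IsLocalRing R]

/-- **Purity at a smooth point of the special fibre.** -/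
theorem exists_unit_mul_pow_of_smooth {u π : R} {m : ℕ} (hm : m ≠ 0) (hπ0 : π ≠ 0)
    (𝔭 : Ideal R) [𝔭.IsPrime] [IsDiscreteValuationRing (R ⧸ 𝔭)] (h𝔭 : 𝔭 = Ideal.span {π})
    (hu : u ∉ 𝔭)
    (H1 : ∀ 𝔓 : Ideal R, 𝔓.IsPrime → u ∈ 𝔓 → π ∉ 𝔓 → ∃ f r : R, r ∉ 𝔓 ∧ f ^ m = u * r)
    (H2 : ∃ v : R ⧸ 𝔭, Associated (v ^ m) (Ideal.Quotient.mk 𝔭 u)) :
    ∃ (f : R) (ε : Rˣ), u = ε * f ^ m := by
  have hπ𝔭 : π ∈ 𝔭 := by
    rw [h𝔭]
    exact Ideal.mem_span_singleton_self π
  have h𝔭𝔪 : 𝔭 ≤ IsLocalRing.maximalIdeal R :=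
    IsLocalRing.le_maximalIdeal (Ideal.IsPrime.ne_top inferInstance)
  have hu0 : u ≠ 0 := by
    rintro rfl
    exact hu 𝔭.zero_mem
  obtain ⟨ϖ, hϖ⟩ := IsDiscreteValuationRing.exists_irreducible (R ⧸ 𝔭)
  obtain ⟨x, rfl⟩ := Ideal.Quotient.mk_surjective ϖ
  obtain ⟨a, ε, hε⟩ := exists_mk_eq_unit_mul_pow 𝔭 hϖ hm hu H2
  have h𝔪 := maximalIdeal_le_span_sup 𝔭 hϖ
  have hreg : ∀ z : R, π ∣ u * z → π ∣ z := by
    intro z hz
    have h1 : u * z ∈ 𝔭 := by
      rw [h𝔭]
      exact Ideal.mem_span_singleton.mpr hz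
    rcases Ideal.IsPrime.mem_or_mem inferInstance h1 with h | h
    · exact absurd h hu
    · rw [h𝔭] at h
      exact Ideal.mem_span_singleton.mp h
  have huπ : ∀ 𝔮 : Ideal R, 𝔮.IsPrime → u ∈ 𝔮 → π ∈ 𝔮 →
      𝔮 = IsLocalRing.maximalIdeal R := by
    intro 𝔮 h𝔮 hu𝔮 hπ𝔮
    have hle : 𝔭 ≤ 𝔮 := by
      rw [h𝔭, Ideal.span_singleton_le_iff_mem]
      exact hπ𝔮
    have hx𝔮 : x ∈ 𝔮 := mem_of_le_of_mk_eq 𝔭 hε h𝔮 hle hu𝔮
    refine le_antisymm (IsLocalRing.le_maximalIdeal h𝔮.ne_top) (h𝔪.trans ?_)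
    exact sup_le ((Ideal.span_singleton_le_iff_mem _).mpr hx𝔮) hle
  refine exists_unit_mul_pow_of_relLen hm hu0 hπ0 (h𝔭𝔪 hπ𝔭) hreg huπ H1
    (Ideal.span {x ^ (a + 1)} ⊔ 𝔭) (Ideal.mem_sup_right hπ𝔭) ?_ (a + 1) ?_ ?_
  · intro f r hf hr
    obtain ⟨g, hg⟩ := exists_sub_pow_succ_mul_mem 𝔭 hϖ hε hf hr
    have h : f = x ^ (a + 1) * g + (f - x ^ (a + 1) * g) := by ring
    rw [h]
    exact Ideal.add_mem _
      (Ideal.mem_sup_left (Ideal.mem_span_singleton.mpr (Dvd.intro g rfl)))
      (Ideal.mem_sup_right hg)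
  · rw [relLen_branch_pow 𝔭 hϖ (a + 1)]
  · have hle : Ideal.span {x ^ (m * a)} ⊔ 𝔭 ≤ Ideal.span {u, π} := by
      refine sup_le ?_ ?_
      · rw [Ideal.span_singleton_le_iff_mem]
        obtain ⟨e, he⟩ := exists_pow_sub_mul_mem 𝔭 hε
        rw [h𝔭, Ideal.mem_span_singleton] at he
        obtain ⟨c, hc⟩ := he
        have h : x ^ (m * a) = e * u + c * π := by
          have : x ^ (m * a) = (x ^ (m * a) - u * e) + u * e := by ring
          rw [this, hc]
          ring
        rw [h]
        exact Ideal.add_mem _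
          (Ideal.mul_mem_left _ _ (Ideal.subset_span (by simp)))
          (Ideal.mul_mem_left _ _ (Ideal.subset_span (by simp)))
      · rw [h𝔭, Ideal.span_singleton_le_iff_mem]
        exact Ideal.subset_span (by simp)
    have h1 : relLen (Ideal.span {u, π}) (⊤ : Ideal R) ≤ ((m * a : ℕ) : ℕ∞) := by
      rw [← relLen_branch_pow 𝔭 hϖ (m * a)]
      exact relLen_mono_left hle le_top
    refine lt_of_le_of_lt h1 ?_
    have h2 : m * a < m * (a + 1) := by
      have : 0 < m := Nat.pos_of_ne_zero hm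
      nlinarith
    exact_mod_cast h2

end Fermat.Agent.A2.H609

end
-- ===== PACK-END A2/H609/Smooth.lean

-- ===== PACK-BEGIN A2/H609/Node.lean
section


/-!
# Node purity, part 9: an ordinary double point of the special fibre

`R` a noetherian local integrally closed domain, `𝔭₁ 𝔭₂` primes with `𝔭₁ ⊓ 𝔭₂ = (π)`,
`𝔭₁ ⊔ 𝔭₂ = 𝔪` and `R ⧸ 𝔭ᵢ` discrete valuation rings (two smooth branches meeting transversally;
no hypothesis on the thickness of the node, no completion).  If `u ∉ 𝔭₁ ∪ 𝔭₂` satisfies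
(H1) `m ∣ ord_𝔓 u` at the horizontal primes and (H2) `u` is a unit times an `m`-th power
modulo each `𝔭ᵢ`, then `u = ε f ^ m`.  Mathlib only.
-/

set_option autoImplicit false

namespace Fermat.Agent.A2.H609

open Ideal

section NodeData

variable {R : Type*} [CommRing R] [IsLocalRing R]
variable (𝔭 𝔮 : Ideal R) [𝔭.IsPrime] [IsDiscreteValuationRing (R ⧸ 𝔭)]

/-- A uniformiser of the branch `𝔭` lying on the other branch `𝔮`. -/
theorem exists_mem_irreducible_mk (hsup : IsLocalRing.maximalIdeal R ≤ 𝔭 ⊔ 𝔮) :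
    ∃ x ∈ 𝔮, Irreducible (Ideal.Quotient.mk 𝔭 x) := by
  obtain ⟨ϖ, hϖ⟩ := IsDiscreteValuationRing.exists_irreducible (R ⧸ 𝔭)
  obtain ⟨z, rfl⟩ := Ideal.Quotient.mk_surjective ϖ
  have hz : z ∈ IsLocalRing.maximalIdeal R := by
    rw [IsLocalRing.mem_maximalIdeal]
    intro h
    exact hϖ.not_isUnit (h.map (Ideal.Quotient.mk 𝔭))
  obtain ⟨z₁, hz₁, z₂, hz₂, rfl⟩ := Submodule.mem_sup.mp (hsup hz)
  refine ⟨z₂, hz₂, ?_⟩
  have h : Ideal.Quotient.mk 𝔭 (z₁ + z₂) = Ideal.Quotient.mk 𝔭 z₂ := by
    rw [Ideal.Quotient.eq, add_sub_cancel_right]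
    exact hz₁
  rwa [h] at hϖ

/-- The other branch is generated by the uniformiser and `𝔭 ⊓ 𝔮`. -/
theorem le_span_sup_inf {x : R} (hx𝔮 : x ∈ 𝔮) (hx : Irreducible (Ideal.Quotient.mk 𝔭 x))
    (h𝔮 : 𝔮 ≤ IsLocalRing.maximalIdeal R) : 𝔮 ≤ Ideal.span {x} ⊔ (𝔭 ⊓ 𝔮) := by
  intro z hz
  obtain ⟨g, hg⟩ := exists_sub_mul_mem_of_mem_maximalIdeal 𝔭 hx (h𝔮 hz)
  have h : z = x * g + (z - x * g) := by ring
  rw [h]
  refine Ideal.add_mem _
    (Ideal.mem_sup_left (Ideal.mem_span_singleton.mpr (Dvd.intro g rfl)))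
    (Ideal.mem_sup_right ⟨hg, ?_⟩)
  exact 𝔮.sub_mem hz (𝔮.mul_mem_right _ hx𝔮)

end NodeData

variable {R : Type*} [CommRing R] [IsDomain R] [IsIntegrallyClosed R] [IsNoetherianRing R]
  [IsLocalRing R]

/-- **Purity at an ordinary double point of the special fibre.** -/
theorem exists_unit_mul_pow_of_node {u π : R} {m : ℕ} (hm : m ≠ 0)
    (𝔭₁ 𝔭₂ : Ideal R) [𝔭₁.IsPrime] [𝔭₂.IsPrime]
    [IsDiscreteValuationRing (R ⧸ 𝔭₁)] [IsDiscreteValuationRing (R ⧸ 𝔭₂)]
    (hinf : 𝔭₁ ⊓ 𝔭₂ = Ideal.span {π}) (hsup : 𝔭₁ ⊔ 𝔭₂ = IsLocalRing.maximalIdeal R)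
    (hu₁ : u ∉ 𝔭₁) (hu₂ : u ∉ 𝔭₂)
    (H1 : ∀ 𝔓 : Ideal R, 𝔓.IsPrime → u ∈ 𝔓 → π ∉ 𝔓 → ∃ f r : R, r ∉ 𝔓 ∧ f ^ m = u * r)
    (H2₁ : ∃ v : R ⧸ 𝔭₁, Associated (v ^ m) (Ideal.Quotient.mk 𝔭₁ u))
    (H2₂ : ∃ v : R ⧸ 𝔭₂, Associated (v ^ m) (Ideal.Quotient.mk 𝔭₂ u)) :
    ∃ (f : R) (ε : Rˣ), u = ε * f ^ m := by
  have h𝔭₁𝔪 : 𝔭₁ ≤ IsLocalRing.maximalIdeal R := hsup ▸ le_sup_left
  have h𝔭₂𝔪 : 𝔭₂ ≤ IsLocalRing.maximalIdeal R := hsup ▸ le_sup_right
  have hπ₁ : π ∈ 𝔭₁ :=
    (inf_le_left : 𝔭₁ ⊓ 𝔭₂ ≤ 𝔭₁) (hinf ▸ Ideal.mem_span_singleton_self π)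
  have hπ₂ : π ∈ 𝔭₂ :=
    (inf_le_right : 𝔭₁ ⊓ 𝔭₂ ≤ 𝔭₂) (hinf ▸ Ideal.mem_span_singleton_self π)
  have hmem_inf : ∀ z : R, z ∈ 𝔭₁ → z ∈ 𝔭₂ → ∃ c : R, z = c * π := by
    intro z h1 h2
    have h : z ∈ 𝔭₁ ⊓ 𝔭₂ := ⟨h1, h2⟩
    rw [hinf] at h
    exact Ideal.mem_span_singleton'.mp h |>.imp fun c hc => hc.symm
  have hu0 : u ≠ 0 := by
    rintro rfl
    exact hu₁ 𝔭₁.zero_mem
  -- uniformisers of the two branches
  obtain ⟨x, hx₂, hx⟩ := exists_mem_irreducible_mk 𝔭₁ 𝔭₂ hsup.ge
  obtain ⟨y, hy₁, hy⟩ := exists_mem_irreducible_mk 𝔭₂ 𝔭₁ (by rw [sup_comm]; exact hsup.ge)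
  have hx₁ : x ∉ 𝔭₁ := fun h => hx.ne_zero (Ideal.Quotient.eq_zero_iff_mem.mpr h)
  have hy₂ : y ∉ 𝔭₂ := fun h => hy.ne_zero (Ideal.Quotient.eq_zero_iff_mem.mpr h)
  have h𝔭₂ : 𝔭₂ ≤ Ideal.span {x} ⊔ Ideal.span {π} := by
    rw [← hinf]
    exact le_span_sup_inf 𝔭₁ 𝔭₂ hx₂ hx h𝔭₂𝔪
  have h𝔭₁ : 𝔭₁ ≤ Ideal.span {y} ⊔ Ideal.span {π} := by
    rw [← hinf, inf_comm]
    exact le_span_sup_inf 𝔭₂ 𝔭₁ hy₁ hy h𝔭₁𝔪
  have h𝔭₂' : 𝔭₂ = Ideal.span {x} ⊔ Ideal.span {π} :=
    le_antisymm h𝔭₂ (sup_le ((Ideal.span_singleton_le_iff_mem _).mpr hx₂)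
      ((Ideal.span_singleton_le_iff_mem _).mpr hπ₂))
  have hπ0 : π ≠ 0 := by
    rintro rfl
    obtain ⟨c, hc⟩ := hmem_inf (x * y) (𝔭₁.mul_mem_left _ hy₁) (𝔭₂.mul_mem_right _ hx₂)
    rw [mul_zero] at hc
    rcases mul_eq_zero.mp hc with h | h
    · exact hx₁ (h ▸ 𝔭₁.zero_mem)
    · exact hy₂ (h ▸ 𝔭₂.zero_mem)
  obtain ⟨a₁, ε₁, hε₁⟩ := exists_mk_eq_unit_mul_pow 𝔭₁ hx hm hu₁ H2₁
  obtain ⟨a₂, ε₂, hε₂⟩ := exists_mk_eq_unit_mul_pow 𝔭₂ hy hm hu₂ H2₂
  have hreg : ∀ z : R, π ∣ u * z → π ∣ z := by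
    intro z hz
    have h1 : u * z ∈ 𝔭₁ ⊓ 𝔭₂ := by
      rw [hinf]
      exact Ideal.mem_span_singleton.mpr hz
    have h2 : z ∈ 𝔭₁ :=
      (Ideal.IsPrime.mem_or_mem inferInstance h1.1).resolve_left hu₁
    have h3 : z ∈ 𝔭₂ :=
      (Ideal.IsPrime.mem_or_mem inferInstance h1.2).resolve_left hu₂
    obtain ⟨c, hc⟩ := hmem_inf z h2 h3
    exact ⟨c, by rw [hc, _root_.mul_comm]⟩
  have huπ : ∀ 𝔮 : Ideal R, 𝔮.IsPrime → u ∈ 𝔮 → π ∈ 𝔮 →
      𝔮 = IsLocalRing.maximalIdeal R := by
    intro 𝔮 h𝔮 hu𝔮 hπ𝔮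
    have hle : 𝔭₁ ⊓ 𝔭₂ ≤ 𝔮 := by
      rw [hinf, Ideal.span_singleton_le_iff_mem]
      exact hπ𝔮
    refine le_antisymm (IsLocalRing.le_maximalIdeal h𝔮.ne_top) ?_
    rw [← hsup]
    rcases h𝔮.inf_le.mp hle with h | h
    · have hx𝔮 : x ∈ 𝔮 := mem_of_le_of_mk_eq 𝔭₁ hε₁ h𝔮 h hu𝔮
      refine sup_le h (h𝔭₂.trans (sup_le ?_ ?_))
      · exact (Ideal.span_singleton_le_iff_mem _).mpr hx𝔮
      · exact (Ideal.span_singleton_le_iff_mem _).mpr hπ𝔮
    · have hy𝔮 : y ∈ 𝔮 := mem_of_le_of_mk_eq 𝔭₂ hε₂ h𝔮 h hu𝔮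
      refine sup_le (h𝔭₁.trans (sup_le ?_ ?_)) h
      · exact (Ideal.span_singleton_le_iff_mem _).mpr hy𝔮
      · exact (Ideal.span_singleton_le_iff_mem _).mpr hπ𝔮
  -- the lengths of the ideals `J(b, c) = (x ^ b, y ^ c, π)`, `b, c ≥ 1`
  have hlen : ∀ k c : ℕ, relLen
      (Ideal.span {x ^ (1 + k)} ⊔ (Ideal.span {y ^ (c + 1)} ⊔ Ideal.span {π}))
      (⊤ : Ideal R) = ((k + (c + 1) : ℕ) : ℕ∞) := by
    intro k c
    have h𝔞 : Ideal.span {y ^ (c + 1)} ⊔ Ideal.span {π} ≤ 𝔭₁ :=
      sup_le ((Ideal.span_singleton_le_iff_mem _).mpr (𝔭₁.pow_mem_of_mem hy₁ _ (by omega)))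
        ((Ideal.span_singleton_le_iff_mem _).mpr hπ₁)
    have hchain := relLen_pow_chain 𝔭₁ hx _ h𝔞 1 ?_ k
    · have hbase : Ideal.span {x ^ 1} ⊔ (Ideal.span {y ^ (c + 1)} ⊔ Ideal.span {π}) =
          Ideal.span {y ^ (c + 1)} ⊔ 𝔭₂ := by
        rw [pow_one, h𝔭₂', sup_left_comm]
      have hmono : Ideal.span {x ^ (1 + k)} ⊔ (Ideal.span {y ^ (c + 1)} ⊔ Ideal.span {π}) ≤
          Ideal.span {x ^ 1} ⊔ (Ideal.span {y ^ (c + 1)} ⊔ Ideal.span {π}) := by
        refine sup_le_sup_right ?_ _
        rw [Ideal.span_singleton_le_span_singleton]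
        exact pow_dvd_pow x (by omega)
      rw [relLen_add hmono le_top, hchain, hbase, relLen_branch_pow 𝔭₂ hy (c + 1)]
      push_cast
      rfl
    · intro n hn s hs
      obtain ⟨g, hg⟩ := exists_sub_mul_mem_of_mem_maximalIdeal 𝔭₁ hx hs
      obtain ⟨d, hd⟩ := hmem_inf ((s - x * g) * x ^ n) (𝔭₁.mul_mem_right _ hg)
        (𝔭₂.mul_mem_left _ (𝔭₂.pow_mem_of_mem hx₂ _ (by omega)))
      have h : s * x ^ n = x ^ (n + 1) * g + d * π := by
        rw [← hd]
        ring
      rw [h]
      exact Ideal.add_mem _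
        (Ideal.mem_sup_left (Ideal.mem_span_singleton.mpr (Dvd.intro g rfl)))
        (Ideal.mem_sup_right (Ideal.mem_sup_right
          (Ideal.mem_span_singleton.mpr (Dvd.intro_left d rfl))))
  refine exists_unit_mul_pow_of_relLen hm hu0 hπ0 (h𝔭₁𝔪 hπ₁) hreg huπ H1
    (Ideal.span {x ^ (1 + a₁)} ⊔ (Ideal.span {y ^ (a₂ + 1)} ⊔ Ideal.span {π}))
    (Ideal.mem_sup_right (Ideal.mem_sup_right (Ideal.mem_span_singleton_self π))) ?_
    (a₁ + (a₂ + 1)) (hlen a₁ a₂).ge ?_
  · -- every `f` with `f ^ m = u r`, `r ∈ 𝔪`, lies in `J(a₁ + 1, a₂ + 1)`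
    intro f r hf hr
    obtain ⟨g₁, hg₁⟩ := exists_sub_pow_succ_mul_mem 𝔭₁ hx hε₁ hf hr
    obtain ⟨g₂, hg₂⟩ := exists_sub_pow_succ_mul_mem 𝔭₂ hy hε₂ hf hr
    obtain ⟨d, hd⟩ := hmem_inf (f - x ^ (a₁ + 1) * g₁ - y ^ (a₂ + 1) * g₂)
      (𝔭₁.sub_mem hg₁ (𝔭₁.mul_mem_right _ (𝔭₁.pow_mem_of_mem hy₁ _ (by omega))))
      (by
        have h : f - x ^ (a₁ + 1) * g₁ - y ^ (a₂ + 1) * g₂ =
            (f - y ^ (a₂ + 1) * g₂) - x ^ (a₁ + 1) * g₁ := by ring
        rw [h]
        exact 𝔭₂.sub_mem hg₂ (𝔭₂.mul_mem_right _ (𝔭₂.pow_mem_of_mem hx₂ _ (by omega))))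
    have h : f = x ^ (1 + a₁) * g₁ + (y ^ (a₂ + 1) * g₂ + d * π) := by
      rw [← hd, add_comm 1 a₁]
      ring
    rw [h]
    exact Ideal.add_mem _
      (Ideal.mem_sup_left (Ideal.mem_span_singleton.mpr (Dvd.intro g₁ rfl)))
      (Ideal.mem_sup_right (Ideal.add_mem _
        (Ideal.mem_sup_left (Ideal.mem_span_singleton.mpr (Dvd.intro g₂ rfl)))
        (Ideal.mem_sup_right (Ideal.mem_span_singleton.mpr (Dvd.intro_left d rfl)))))
  · -- `ℓ(R/(u, π)) ≤ m (a₁ + a₂)`
    set J'' : Ideal R :=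
      Ideal.span {x ^ (1 + m * a₁)} ⊔ (Ideal.span {y ^ (m * a₂ + 1)} ⊔ Ideal.span {π})
      with hJ''
    set T : Ideal R := IsLocalRing.maximalIdeal R * Ideal.span {u} ⊔ Ideal.span {π} with hT
    have hxT : x ^ (1 + m * a₁) ∈ T := by
      obtain ⟨e, he⟩ := exists_pow_sub_mul_mem 𝔭₁ hε₁
      obtain ⟨d, hd⟩ := hmem_inf (x * (x ^ (m * a₁) - u * e)) (𝔭₁.mul_mem_left _ he)
        (𝔭₂.mul_mem_right _ hx₂)
      have h : x ^ (1 + m * a₁) = (x * e) * u + d * π := by
        rw [← hd]
        ring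
      rw [h]
      exact Ideal.add_mem _
        (Ideal.mem_sup_left (Ideal.mul_mem_mul (Ideal.mul_mem_right _ _ (h𝔭₂𝔪 hx₂))
          (Ideal.mem_span_singleton_self u)))
        (Ideal.mem_sup_right (Ideal.mem_span_singleton.mpr (Dvd.intro_left d rfl)))
    have hyT : y ^ (m * a₂ + 1) ∈ T := by
      obtain ⟨e, he⟩ := exists_pow_sub_mul_mem 𝔭₂ hε₂
      obtain ⟨d, hd⟩ := hmem_inf (y * (y ^ (m * a₂) - u * e)) (𝔭₁.mul_mem_right _ hy₁)
        (𝔭₂.mul_mem_left _ he)
      have h : y ^ (m * a₂ + 1) = (y * e) * u + d * π := by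
        rw [← hd]
        ring
      rw [h]
      exact Ideal.add_mem _
        (Ideal.mem_sup_left (Ideal.mul_mem_mul (Ideal.mul_mem_right _ _ (h𝔭₁𝔪 hy₁))
          (Ideal.mem_span_singleton_self u)))
        (Ideal.mem_sup_right (Ideal.mem_span_singleton.mpr (Dvd.intro_left d rfl)))
    have hJT : J'' ≤ T :=
      sup_le ((Ideal.span_singleton_le_iff_mem _).mpr hxT)
        (sup_le ((Ideal.span_singleton_le_iff_mem _).mpr hyT) le_sup_right)
    have huT : u ∉ T := by
      intro h
      obtain ⟨t, ht, p, hp, htp⟩ := Submodule.mem_sup.mp h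
      obtain ⟨s, hs, rfl⟩ := Ideal.mem_mul_span_singleton.mp ht
      obtain ⟨c, rfl⟩ := Ideal.mem_span_singleton'.mp hp
      have h1 : u * (1 - s) ∈ 𝔭₁ := by
        have : u * (1 - s) = c * π := by
          linear_combination -htp
        rw [this]
        exact 𝔭₁.mul_mem_left _ hπ₁
      rcases Ideal.IsPrime.mem_or_mem inferInstance h1 with h2 | h2
      · exact hu₁ h2
      · have h3 : (1 : R) ∈ IsLocalRing.maximalIdeal R := by
          have : (1 : R) = (1 - s) + s := by ring
          rw [this]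
          exact Ideal.add_mem _ (h𝔭₁𝔪 h2) hs
        exact (Ideal.ne_top_iff_one _).mp (IsLocalRing.maximalIdeal.isMaximal R).ne_top h3
    have hTle : T ≤ Ideal.span {u, π} := by
      refine sup_le ?_ ?_
      · refine Ideal.mul_le_right.trans ?_
        rw [Ideal.span_singleton_le_iff_mem]
        exact Ideal.subset_span (by simp)
      · rw [Ideal.span_singleton_le_iff_mem]
        exact Ideal.subset_span (by simp)
    have h1 : 1 ≤ relLen J'' (Ideal.span {u, π}) :=
      one_le_relLen_of_notMem (Ideal.subset_span (by simp)) (fun h => huT (hJT h))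
    have h2 : relLen J'' (⊤ : Ideal R) = ((m * a₁ + (m * a₂ + 1) : ℕ) : ℕ∞) := hlen _ _
    rw [relLen_add (hJT.trans hTle) le_top] at h2
    have h3 : relLen (Ideal.span {u, π}) (⊤ : Ideal R) ≠ ⊤ := by
      intro h
      rw [h, add_top] at h2
      exact ENat.top_ne_natCast _ h2
    have h4 : relLen J'' (Ideal.span {u, π}) ≠ ⊤ := by
      intro h
      rw [h, top_add] at h2
      exact ENat.top_ne_natCast _ h2
    lift relLen (Ideal.span {u, π}) (⊤ : Ideal R) to ℕ using h3 with L
    lift relLen J'' (Ideal.span {u, π}) to ℕ using h4 with L'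
    have h5 : 1 ≤ L' := by exact_mod_cast h1
    have h6 : L' + L = m * a₁ + (m * a₂ + 1) := by exact_mod_cast h2
    have h7 : L < m * (a₁ + (a₂ + 1)) := by
      have : 0 < m := Nat.pos_of_ne_zero hm
      nlinarith
    exact_mod_cast h7

end Fermat.Agent.A2.H609

end
-- ===== PACK-END A2/H609/Node.lean

-- ===== PACK-BEGIN A2/H609/MinPrimes.lean
section


/-!
# Node purity, part 10: (H1) at the minimal primes of `(u)` only

The theorems `exists_unit_mul_pow_of_relLen`, `exists_unit_mul_pow_of_smooth`,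
`exists_unit_mul_pow_of_node` with the hypothesis (H1) required only at the minimal primes `𝔓`
of `(u)` with `π ∉ 𝔓` (these are the primes at which `R_𝔓` is a discrete valuation ring, so that
(H1) follows from `m ∣ ord_𝔓 u`).  Mathlib only.
-/

set_option autoImplicit false

namespace Fermat.Agent.A2.H609

open Ideal

variable {R : Type*} [CommRing R] [IsDomain R] [IsIntegrallyClosed R] [IsNoetherianRing R]
  [IsLocalRing R]

omit [IsIntegrallyClosed R] in
/-- If `𝔪` is the only prime containing `u` and `π`, every prime `𝔓 ∋ u` with `π ∉ 𝔓` is a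
minimal prime of `(u)`. -/
theorem mem_minimalPrimes_of_mem_of_notMem {u π : R} (hu0 : u ≠ 0)
    (hπ : π ∈ IsLocalRing.maximalIdeal R)
    (huπ : ∀ 𝔮 : Ideal R, 𝔮.IsPrime → u ∈ 𝔮 → π ∈ 𝔮 → 𝔮 = IsLocalRing.maximalIdeal R)
    {𝔓 : Ideal R} (h𝔓 : 𝔓.IsPrime) (hu : u ∈ 𝔓) (hπ𝔓 : π ∉ 𝔓) :
    𝔓 ∈ (Ideal.span {u}).minimalPrimes := by
  have hle : Ideal.span {u} ≤ 𝔓 := by
    rw [Ideal.span_le, Set.singleton_subset_iff]
    exact hu
  obtain ⟨𝔓₀, h𝔓₀min, h𝔓₀le⟩ := Ideal.exists_minimalPrimes_le hle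
  have h𝔓₀ : 𝔓₀.IsPrime := h𝔓₀min.1.1
  have hu₀ : u ∈ 𝔓₀ := h𝔓₀min.1.2 (Ideal.mem_span_singleton_self u)
  by_cases hne : 𝔓₀ = 𝔓
  · rw [← hne]
    exact h𝔓₀min
  · exact (not_lt_of_mem_of_not_mem hu0 hπ huπ hu₀ hπ𝔓 (lt_of_le_of_ne h𝔓₀le hne)).elim

/-- The abstract purity criterion, (H1) at the minimal primes of `(u)`. -/
theorem exists_unit_mul_pow_of_relLen_min {u π : R} {m : ℕ} (hm : m ≠ 0) (hu0 : u ≠ 0)
    (hπ0 : π ≠ 0) (hπ : π ∈ IsLocalRing.maximalIdeal R)
    (hreg : ∀ x : R, π ∣ u * x → π ∣ x)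
    (huπ : ∀ 𝔮 : Ideal R, 𝔮.IsPrime → u ∈ 𝔮 → π ∈ 𝔮 → 𝔮 = IsLocalRing.maximalIdeal R)
    (H1 : ∀ 𝔓 ∈ (Ideal.span {u}).minimalPrimes, π ∉ 𝔓 → ∃ f r : R, r ∉ 𝔓 ∧ f ^ m = u * r)
    (J' : Ideal R) (hπJ : π ∈ J')
    (hJ' : ∀ f r : R, f ^ m = u * r → r ∈ IsLocalRing.maximalIdeal R → f ∈ J')
    (B : ℕ) (hB : (B : ℕ∞) ≤ relLen J' (⊤ : Ideal R))
    (hlt : relLen (Ideal.span {u, π}) (⊤ : Ideal R) < (m : ℕ∞) * B) :
    ∃ (f : R) (ε : Rˣ), u = ε * f ^ m :=
  exists_unit_mul_pow_of_relLen hm hu0 hπ0 hπ hreg huπ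
    (fun 𝔓 h𝔓 hu𝔓 hπ𝔓 =>
      H1 𝔓 (mem_minimalPrimes_of_mem_of_notMem hu0 hπ huπ h𝔓 hu𝔓 hπ𝔓) hπ𝔓)
    J' hπJ hJ' B hB hlt

/-- **Purity at a smooth point of the special fibre**, (H1) at the minimal primes of `(u)`. -/
theorem exists_unit_mul_pow_of_smooth_min {u π : R} {m : ℕ} (hm : m ≠ 0) (hπ0 : π ≠ 0)
    (𝔭 : Ideal R) [𝔭.IsPrime] [IsDiscreteValuationRing (R ⧸ 𝔭)] (h𝔭 : 𝔭 = Ideal.span {π})
    (hu : u ∉ 𝔭)
    (H1 : ∀ 𝔓 ∈ (Ideal.span {u}).minimalPrimes, π ∉ 𝔓 → ∃ f r : R, r ∉ 𝔓 ∧ f ^ m = u * r)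
    (H2 : ∃ v : R ⧸ 𝔭, Associated (v ^ m) (Ideal.Quotient.mk 𝔭 u)) :
    ∃ (f : R) (ε : Rˣ), u = ε * f ^ m := by
  have hπ𝔭 : π ∈ 𝔭 := by
    rw [h𝔭]
    exact Ideal.mem_span_singleton_self π
  have h𝔭𝔪 : 𝔭 ≤ IsLocalRing.maximalIdeal R :=
    IsLocalRing.le_maximalIdeal (Ideal.IsPrime.ne_top inferInstance)
  have hu0 : u ≠ 0 := by
    rintro rfl
    exact hu 𝔭.zero_mem
  obtain ⟨ϖ, hϖ⟩ := IsDiscreteValuationRing.exists_irreducible (R ⧸ 𝔭)
  obtain ⟨x, rfl⟩ := Ideal.Quotient.mk_surjective ϖ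
  obtain ⟨a, ε, hε⟩ := exists_mk_eq_unit_mul_pow 𝔭 hϖ hm hu H2
  have h𝔪 := maximalIdeal_le_span_sup 𝔭 hϖ
  have hreg : ∀ z : R, π ∣ u * z → π ∣ z := by
    intro z hz
    have h1 : u * z ∈ 𝔭 := by
      rw [h𝔭]
      exact Ideal.mem_span_singleton.mpr hz
    rcases Ideal.IsPrime.mem_or_mem inferInstance h1 with h | h
    · exact absurd h hu
    · rw [h𝔭] at h
      exact Ideal.mem_span_singleton.mp h
  have huπ : ∀ 𝔮 : Ideal R, 𝔮.IsPrime → u ∈ 𝔮 → π ∈ 𝔮 →
      𝔮 = IsLocalRing.maximalIdeal R := by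
    intro 𝔮 h𝔮 hu𝔮 hπ𝔮
    have hle : 𝔭 ≤ 𝔮 := by
      rw [h𝔭, Ideal.span_singleton_le_iff_mem]
      exact hπ𝔮
    have hx𝔮 : x ∈ 𝔮 := mem_of_le_of_mk_eq 𝔭 hε h𝔮 hle hu𝔮
    refine le_antisymm (IsLocalRing.le_maximalIdeal h𝔮.ne_top) (h𝔪.trans ?_)
    exact sup_le ((Ideal.span_singleton_le_iff_mem _).mpr hx𝔮) hle
  refine exists_unit_mul_pow_of_relLen_min hm hu0 hπ0 (h𝔭𝔪 hπ𝔭) hreg huπ H1
    (Ideal.span {x ^ (a + 1)} ⊔ 𝔭) (Ideal.mem_sup_right hπ𝔭) ?_ (a + 1) ?_ ?_
  · intro f r hf hr
    obtain ⟨g, hg⟩ := exists_sub_pow_succ_mul_mem 𝔭 hϖ hε hf hr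
    have h : f = x ^ (a + 1) * g + (f - x ^ (a + 1) * g) := by ring
    rw [h]
    exact Ideal.add_mem _
      (Ideal.mem_sup_left (Ideal.mem_span_singleton.mpr (Dvd.intro g rfl)))
      (Ideal.mem_sup_right hg)
  · rw [relLen_branch_pow 𝔭 hϖ (a + 1)]
  · have hle : Ideal.span {x ^ (m * a)} ⊔ 𝔭 ≤ Ideal.span {u, π} := by
      refine sup_le ?_ ?_
      · rw [Ideal.span_singleton_le_iff_mem]
        obtain ⟨e, he⟩ := exists_pow_sub_mul_mem 𝔭 hε
        rw [h𝔭, Ideal.mem_span_singleton] at he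
        obtain ⟨c, hc⟩ := he
        have h : x ^ (m * a) = e * u + c * π := by
          have : x ^ (m * a) = (x ^ (m * a) - u * e) + u * e := by ring
          rw [this, hc]
          ring
        rw [h]
        exact Ideal.add_mem _
          (Ideal.mul_mem_left _ _ (Ideal.subset_span (by simp)))
          (Ideal.mul_mem_left _ _ (Ideal.subset_span (by simp)))
      · rw [h𝔭, Ideal.span_singleton_le_iff_mem]
        exact Ideal.subset_span (by simp)
    have h1 : relLen (Ideal.span {u, π}) (⊤ : Ideal R) ≤ ((m * a : ℕ) : ℕ∞) := by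
      rw [← relLen_branch_pow 𝔭 hϖ (m * a)]
      exact relLen_mono_left hle le_top
    refine lt_of_le_of_lt h1 ?_
    have h2 : m * a < m * (a + 1) := by
      have : 0 < m := Nat.pos_of_ne_zero hm
      nlinarith
    exact_mod_cast h2


/-- **Purity at an ordinary double point of the special fibre**, (H1) at the minimal primes
of `(u)`. -/
theorem exists_unit_mul_pow_of_node_min {u π : R} {m : ℕ} (hm : m ≠ 0)
    (𝔭₁ 𝔭₂ : Ideal R) [𝔭₁.IsPrime] [𝔭₂.IsPrime]
    [IsDiscreteValuationRing (R ⧸ 𝔭₁)] [IsDiscreteValuationRing (R ⧸ 𝔭₂)]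
    (hinf : 𝔭₁ ⊓ 𝔭₂ = Ideal.span {π}) (hsup : 𝔭₁ ⊔ 𝔭₂ = IsLocalRing.maximalIdeal R)
    (hu₁ : u ∉ 𝔭₁) (hu₂ : u ∉ 𝔭₂)
    (H1 : ∀ 𝔓 ∈ (Ideal.span {u}).minimalPrimes, π ∉ 𝔓 → ∃ f r : R, r ∉ 𝔓 ∧ f ^ m = u * r)
    (H2₁ : ∃ v : R ⧸ 𝔭₁, Associated (v ^ m) (Ideal.Quotient.mk 𝔭₁ u))
    (H2₂ : ∃ v : R ⧸ 𝔭₂, Associated (v ^ m) (Ideal.Quotient.mk 𝔭₂ u)) :
    ∃ (f : R) (ε : Rˣ), u = ε * f ^ m := by
  have h𝔭₁𝔪 : 𝔭₁ ≤ IsLocalRing.maximalIdeal R := hsup ▸ le_sup_left
  have h𝔭₂𝔪 : 𝔭₂ ≤ IsLocalRing.maximalIdeal R := hsup ▸ le_sup_right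
  have hπ₁ : π ∈ 𝔭₁ :=
    (inf_le_left : 𝔭₁ ⊓ 𝔭₂ ≤ 𝔭₁) (hinf ▸ Ideal.mem_span_singleton_self π)
  have hπ₂ : π ∈ 𝔭₂ :=
    (inf_le_right : 𝔭₁ ⊓ 𝔭₂ ≤ 𝔭₂) (hinf ▸ Ideal.mem_span_singleton_self π)
  have hmem_inf : ∀ z : R, z ∈ 𝔭₁ → z ∈ 𝔭₂ → ∃ c : R, z = c * π := by
    intro z h1 h2
    have h : z ∈ 𝔭₁ ⊓ 𝔭₂ := ⟨h1, h2⟩
    rw [hinf] at h
    exact Ideal.mem_span_singleton'.mp h |>.imp fun c hc => hc.symm
  have hu0 : u ≠ 0 := by
    rintro rfl
    exact hu₁ 𝔭₁.zero_mem
  -- uniformisers of the two branches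
  obtain ⟨x, hx₂, hx⟩ := exists_mem_irreducible_mk 𝔭₁ 𝔭₂ hsup.ge
  obtain ⟨y, hy₁, hy⟩ := exists_mem_irreducible_mk 𝔭₂ 𝔭₁ (by rw [sup_comm]; exact hsup.ge)
  have hx₁ : x ∉ 𝔭₁ := fun h => hx.ne_zero (Ideal.Quotient.eq_zero_iff_mem.mpr h)
  have hy₂ : y ∉ 𝔭₂ := fun h => hy.ne_zero (Ideal.Quotient.eq_zero_iff_mem.mpr h)
  have h𝔭₂ : 𝔭₂ ≤ Ideal.span {x} ⊔ Ideal.span {π} := by
    rw [← hinf]
    exact le_span_sup_inf 𝔭₁ 𝔭₂ hx₂ hx h𝔭₂𝔪
  have h𝔭₁ : 𝔭₁ ≤ Ideal.span {y} ⊔ Ideal.span {π} := by
    rw [← hinf, inf_comm]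
    exact le_span_sup_inf 𝔭₂ 𝔭₁ hy₁ hy h𝔭₁𝔪
  have h𝔭₂' : 𝔭₂ = Ideal.span {x} ⊔ Ideal.span {π} :=
    le_antisymm h𝔭₂ (sup_le ((Ideal.span_singleton_le_iff_mem _).mpr hx₂)
      ((Ideal.span_singleton_le_iff_mem _).mpr hπ₂))
  have hπ0 : π ≠ 0 := by
    rintro rfl
    obtain ⟨c, hc⟩ := hmem_inf (x * y) (𝔭₁.mul_mem_left _ hy₁) (𝔭₂.mul_mem_right _ hx₂)
    rw [mul_zero] at hc
    rcases mul_eq_zero.mp hc with h | h
    · exact hx₁ (h ▸ 𝔭₁.zero_mem)
    · exact hy₂ (h ▸ 𝔭₂.zero_mem)
  obtain ⟨a₁, ε₁, hε₁⟩ := exists_mk_eq_unit_mul_pow 𝔭₁ hx hm hu₁ H2₁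
  obtain ⟨a₂, ε₂, hε₂⟩ := exists_mk_eq_unit_mul_pow 𝔭₂ hy hm hu₂ H2₂
  have hreg : ∀ z : R, π ∣ u * z → π ∣ z := by
    intro z hz
    have h1 : u * z ∈ 𝔭₁ ⊓ 𝔭₂ := by
      rw [hinf]
      exact Ideal.mem_span_singleton.mpr hz
    have h2 : z ∈ 𝔭₁ :=
      (Ideal.IsPrime.mem_or_mem inferInstance h1.1).resolve_left hu₁
    have h3 : z ∈ 𝔭₂ :=
      (Ideal.IsPrime.mem_or_mem inferInstance h1.2).resolve_left hu₂
    obtain ⟨c, hc⟩ := hmem_inf z h2 h3
    exact ⟨c, by rw [hc, _root_.mul_comm]⟩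
  have huπ : ∀ 𝔮 : Ideal R, 𝔮.IsPrime → u ∈ 𝔮 → π ∈ 𝔮 →
      𝔮 = IsLocalRing.maximalIdeal R := by
    intro 𝔮 h𝔮 hu𝔮 hπ𝔮
    have hle : 𝔭₁ ⊓ 𝔭₂ ≤ 𝔮 := by
      rw [hinf, Ideal.span_singleton_le_iff_mem]
      exact hπ𝔮
    refine le_antisymm (IsLocalRing.le_maximalIdeal h𝔮.ne_top) ?_
    rw [← hsup]
    rcases h𝔮.inf_le.mp hle with h | h
    · have hx𝔮 : x ∈ 𝔮 := mem_of_le_of_mk_eq 𝔭₁ hε₁ h𝔮 h hu𝔮
      refine sup_le h (h𝔭₂.trans (sup_le ?_ ?_))
      · exact (Ideal.span_singleton_le_iff_mem _).mpr hx𝔮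
      · exact (Ideal.span_singleton_le_iff_mem _).mpr hπ𝔮
    · have hy𝔮 : y ∈ 𝔮 := mem_of_le_of_mk_eq 𝔭₂ hε₂ h𝔮 h hu𝔮
      refine sup_le (h𝔭₁.trans (sup_le ?_ ?_)) h
      · exact (Ideal.span_singleton_le_iff_mem _).mpr hy𝔮
      · exact (Ideal.span_singleton_le_iff_mem _).mpr hπ𝔮
  -- the lengths of the ideals `J(b, c) = (x ^ b, y ^ c, π)`, `b, c ≥ 1`
  have hlen : ∀ k c : ℕ, relLen
      (Ideal.span {x ^ (1 + k)} ⊔ (Ideal.span {y ^ (c + 1)} ⊔ Ideal.span {π}))
      (⊤ : Ideal R) = ((k + (c + 1) : ℕ) : ℕ∞) := by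
    intro k c
    have h𝔞 : Ideal.span {y ^ (c + 1)} ⊔ Ideal.span {π} ≤ 𝔭₁ :=
      sup_le ((Ideal.span_singleton_le_iff_mem _).mpr (𝔭₁.pow_mem_of_mem hy₁ _ (by omega)))
        ((Ideal.span_singleton_le_iff_mem _).mpr hπ₁)
    have hchain := relLen_pow_chain 𝔭₁ hx _ h𝔞 1 ?_ k
    · have hbase : Ideal.span {x ^ 1} ⊔ (Ideal.span {y ^ (c + 1)} ⊔ Ideal.span {π}) =
          Ideal.span {y ^ (c + 1)} ⊔ 𝔭₂ := by
        rw [pow_one, h𝔭₂', sup_left_comm]
      have hmono : Ideal.span {x ^ (1 + k)} ⊔ (Ideal.span {y ^ (c + 1)} ⊔ Ideal.span {π}) ≤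
          Ideal.span {x ^ 1} ⊔ (Ideal.span {y ^ (c + 1)} ⊔ Ideal.span {π}) := by
        refine sup_le_sup_right ?_ _
        rw [Ideal.span_singleton_le_span_singleton]
        exact pow_dvd_pow x (by omega)
      rw [relLen_add hmono le_top, hchain, hbase, relLen_branch_pow 𝔭₂ hy (c + 1)]
      push_cast
      rfl
    · intro n hn s hs
      obtain ⟨g, hg⟩ := exists_sub_mul_mem_of_mem_maximalIdeal 𝔭₁ hx hs
      obtain ⟨d, hd⟩ := hmem_inf ((s - x * g) * x ^ n) (𝔭₁.mul_mem_right _ hg)
        (𝔭₂.mul_mem_left _ (𝔭₂.pow_mem_of_mem hx₂ _ (by omega)))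
      have h : s * x ^ n = x ^ (n + 1) * g + d * π := by
        rw [← hd]
        ring
      rw [h]
      exact Ideal.add_mem _
        (Ideal.mem_sup_left (Ideal.mem_span_singleton.mpr (Dvd.intro g rfl)))
        (Ideal.mem_sup_right (Ideal.mem_sup_right
          (Ideal.mem_span_singleton.mpr (Dvd.intro_left d rfl))))
  refine exists_unit_mul_pow_of_relLen_min hm hu0 hπ0 (h𝔭₁𝔪 hπ₁) hreg huπ H1
    (Ideal.span {x ^ (1 + a₁)} ⊔ (Ideal.span {y ^ (a₂ + 1)} ⊔ Ideal.span {π}))
    (Ideal.mem_sup_right (Ideal.mem_sup_right (Ideal.mem_span_singleton_self π))) ?_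
    (a₁ + (a₂ + 1)) (hlen a₁ a₂).ge ?_
  · -- every `f` with `f ^ m = u r`, `r ∈ 𝔪`, lies in `J(a₁ + 1, a₂ + 1)`
    intro f r hf hr
    obtain ⟨g₁, hg₁⟩ := exists_sub_pow_succ_mul_mem 𝔭₁ hx hε₁ hf hr
    obtain ⟨g₂, hg₂⟩ := exists_sub_pow_succ_mul_mem 𝔭₂ hy hε₂ hf hr
    obtain ⟨d, hd⟩ := hmem_inf (f - x ^ (a₁ + 1) * g₁ - y ^ (a₂ + 1) * g₂)
      (𝔭₁.sub_mem hg₁ (𝔭₁.mul_mem_right _ (𝔭₁.pow_mem_of_mem hy₁ _ (by omega))))
      (by
        have h : f - x ^ (a₁ + 1) * g₁ - y ^ (a₂ + 1) * g₂ =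
            (f - y ^ (a₂ + 1) * g₂) - x ^ (a₁ + 1) * g₁ := by ring
        rw [h]
        exact 𝔭₂.sub_mem hg₂ (𝔭₂.mul_mem_right _ (𝔭₂.pow_mem_of_mem hx₂ _ (by omega))))
    have h : f = x ^ (1 + a₁) * g₁ + (y ^ (a₂ + 1) * g₂ + d * π) := by
      rw [← hd, add_comm 1 a₁]
      ring
    rw [h]
    exact Ideal.add_mem _
      (Ideal.mem_sup_left (Ideal.mem_span_singleton.mpr (Dvd.intro g₁ rfl)))
      (Ideal.mem_sup_right (Ideal.add_mem _
        (Ideal.mem_sup_left (Ideal.mem_span_singleton.mpr (Dvd.intro g₂ rfl)))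
        (Ideal.mem_sup_right (Ideal.mem_span_singleton.mpr (Dvd.intro_left d rfl)))))
  · -- `ℓ(R/(u, π)) ≤ m (a₁ + a₂)`
    set J'' : Ideal R :=
      Ideal.span {x ^ (1 + m * a₁)} ⊔ (Ideal.span {y ^ (m * a₂ + 1)} ⊔ Ideal.span {π})
      with hJ''
    set T : Ideal R := IsLocalRing.maximalIdeal R * Ideal.span {u} ⊔ Ideal.span {π} with hT
    have hxT : x ^ (1 + m * a₁) ∈ T := by
      obtain ⟨e, he⟩ := exists_pow_sub_mul_mem 𝔭₁ hε₁
      obtain ⟨d, hd⟩ := hmem_inf (x * (x ^ (m * a₁) - u * e)) (𝔭₁.mul_mem_left _ he)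
        (𝔭₂.mul_mem_right _ hx₂)
      have h : x ^ (1 + m * a₁) = (x * e) * u + d * π := by
        rw [← hd]
        ring
      rw [h]
      exact Ideal.add_mem _
        (Ideal.mem_sup_left (Ideal.mul_mem_mul (Ideal.mul_mem_right _ _ (h𝔭₂𝔪 hx₂))
          (Ideal.mem_span_singleton_self u)))
        (Ideal.mem_sup_right (Ideal.mem_span_singleton.mpr (Dvd.intro_left d rfl)))
    have hyT : y ^ (m * a₂ + 1) ∈ T := by
      obtain ⟨e, he⟩ := exists_pow_sub_mul_mem 𝔭₂ hε₂
      obtain ⟨d, hd⟩ := hmem_inf (y * (y ^ (m * a₂) - u * e)) (𝔭₁.mul_mem_right _ hy₁)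
        (𝔭₂.mul_mem_left _ he)
      have h : y ^ (m * a₂ + 1) = (y * e) * u + d * π := by
        rw [← hd]
        ring
      rw [h]
      exact Ideal.add_mem _
        (Ideal.mem_sup_left (Ideal.mul_mem_mul (Ideal.mul_mem_right _ _ (h𝔭₁𝔪 hy₁))
          (Ideal.mem_span_singleton_self u)))
        (Ideal.mem_sup_right (Ideal.mem_span_singleton.mpr (Dvd.intro_left d rfl)))
    have hJT : J'' ≤ T :=
      sup_le ((Ideal.span_singleton_le_iff_mem _).mpr hxT)
        (sup_le ((Ideal.span_singleton_le_iff_mem _).mpr hyT) le_sup_right)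
    have huT : u ∉ T := by
      intro h
      obtain ⟨t, ht, p, hp, htp⟩ := Submodule.mem_sup.mp h
      obtain ⟨s, hs, rfl⟩ := Ideal.mem_mul_span_singleton.mp ht
      obtain ⟨c, rfl⟩ := Ideal.mem_span_singleton'.mp hp
      have h1 : u * (1 - s) ∈ 𝔭₁ := by
        have : u * (1 - s) = c * π := by
          linear_combination -htp
        rw [this]
        exact 𝔭₁.mul_mem_left _ hπ₁
      rcases Ideal.IsPrime.mem_or_mem inferInstance h1 with h2 | h2
      · exact hu₁ h2
      · have h3 : (1 : R) ∈ IsLocalRing.maximalIdeal R := by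
          have : (1 : R) = (1 - s) + s := by ring
          rw [this]
          exact Ideal.add_mem _ (h𝔭₁𝔪 h2) hs
        exact (Ideal.ne_top_iff_one _).mp (IsLocalRing.maximalIdeal.isMaximal R).ne_top h3
    have hTle : T ≤ Ideal.span {u, π} := by
      refine sup_le ?_ ?_
      · refine Ideal.mul_le_right.trans ?_
        rw [Ideal.span_singleton_le_iff_mem]
        exact Ideal.subset_span (by simp)
      · rw [Ideal.span_singleton_le_iff_mem]
        exact Ideal.subset_span (by simp)
    have h1 : 1 ≤ relLen J'' (Ideal.span {u, π}) :=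
      one_le_relLen_of_notMem (Ideal.subset_span (by simp)) (fun h => huT (hJT h))
    have h2 : relLen J'' (⊤ : Ideal R) = ((m * a₁ + (m * a₂ + 1) : ℕ) : ℕ∞) := hlen _ _
    rw [relLen_add (hJT.trans hTle) le_top] at h2
    have h3 : relLen (Ideal.span {u, π}) (⊤ : Ideal R) ≠ ⊤ := by
      intro h
      rw [h, add_top] at h2
      exact ENat.top_ne_natCast _ h2
    have h4 : relLen J'' (Ideal.span {u, π}) ≠ ⊤ := by
      intro h
      rw [h, top_add] at h2
      exact ENat.top_ne_natCast _ h2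
    lift relLen (Ideal.span {u, π}) (⊤ : Ideal R) to ℕ using h3 with L
    lift relLen J'' (Ideal.span {u, π}) to ℕ using h4 with L'
    have h5 : 1 ≤ L' := by exact_mod_cast h1
    have h6 : L' + L = m * a₁ + (m * a₂ + 1) := by exact_mod_cast h2
    have h7 : L < m * (a₁ + (a₂ + 1)) := by
      have : 0 < m := Nat.pos_of_ne_zero hm
      nlinarith
    exact_mod_cast h7


end Fermat.Agent.A2.H609

end
-- ===== PACK-END A2/H609/MinPrimes.lean

-- ===== PACK-BEGIN A2/Alg/H754/PuritySmooth.lean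
section





/-!
# A2 / ALG leaf P-S (helper754): `purity_smooth`, VERBATIM statement of `A2/Alg/Skel.lean`

Purity at a closed point `n` of the special fibre lying on exactly ONE component `p` of the
chart `B`:

* `B` is a Noetherian integrally closed domain with fraction field `F`
  (`S18.H394.chart_instances`), integral over `R[x]` of Krull dimension `2`, so `B ⧸ p` is a
  Dedekind domain (`isDedekindDomain_quotient_of_dim`);
* `m ∣ div u` at every height-one prime of `B` (`divisibleDivisor_of_divisibleDiv`: horizontal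
  primes from `DivisibleDiv`, the two vertical primes from `IsSplit`);
* abstract purity `pure_smooth_abs` (`B_n` is a UFD).

Also exported (reusable for P-N / GLUE): `chart_package`, `isDedekindDomain_component`,
`divisibleDivisor_of_divisibleDiv`.
-/

set_option autoImplicit false
set_option linter.style.haveILetI false
set_option linter.unusedSectionVars false
set_option linter.unusedVariables false

noncomputable section

namespace Fermat.Agent.A2.Alg.H754

open Polynomial IsLocalRing
open Fermat.Agent.A2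
open Fermat.Agent.S18.H138 (chart baseField)
open Fermat.Agent.S18.H754 (DivisibleDivisor)

section Chart

variable {R E F : Type*} [CommRing R] [IsDomain R] [IsDiscreteValuationRing R]
  [Field E] [Algebra R E] [IsFractionRing R E]
  [Field F] [Algebra E F] [Algebra R F] [IsScalarTower R E F]

omit [IsDomain R] [IsDiscreteValuationRing R] in
theorem finiteDimensional_baseField (x : F)
    (hfin : FiniteDimensional (IntermediateField.adjoin E ({x} : Set F)) F) :
    FiniteDimensional (baseField R x) F := by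
  have hle : ∀ z : F, z ∈ IntermediateField.adjoin E ({x} : Set F) → z ∈ baseField R x := by
    intro z hz
    have hz' : z ∈ Subfield.closure (Set.range (algebraMap E F) ∪ {x}) := hz
    refine Subfield.closure_le.2 ?_ hz'
    rintro y (⟨e, rfl⟩ | hy)
    · obtain ⟨a, b, hb, rfl⟩ := IsFractionRing.div_surjective (A := R) e
      rw [map_div₀, ← IsScalarTower.algebraMap_apply, ← IsScalarTower.algebraMap_apply]
      exact (baseField R x).div_mem (Subfield.subset_closure (Or.inl ⟨a, rfl⟩))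
        (Subfield.subset_closure (Or.inl ⟨b, rfl⟩))
    · exact Subfield.subset_closure (Or.inr hy)
  let φ : (IntermediateField.adjoin E ({x} : Set F)) →+* (baseField R x) :=
    { toFun := fun z => ⟨z.1, hle z.1 z.2⟩
      map_one' := rfl
      map_mul' := fun _ _ => rfl
      map_zero' := rfl
      map_add' := fun _ _ => rfl }
  letI : Algebra (IntermediateField.adjoin E ({x} : Set F)) (baseField R x) := φ.toAlgebra
  haveI : IsScalarTower (IntermediateField.adjoin E ({x} : Set F)) (baseField R x) F :=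
    IsScalarTower.of_algebraMap_eq (fun _ => rfl)
  exact Module.Finite.of_restrictScalars_finite (IntermediateField.adjoin E ({x} : Set F))
    (baseField R x) F

omit [Field E] [Algebra R E] [IsFractionRing R E] [Algebra E F] [IsScalarTower R E F] in
theorem ringKrullDim_adjoin_le (x : F) (hx : Transcendental R x) :
    ringKrullDim (Algebra.adjoin R ({x} : Set F)) ≤ 2 := by
  have hinj : Function.Injective (aeval (R := R) x) :=
    (injective_iff_map_eq_zero _).2 (transcendental_iff.1 hx)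
  let e : R[X] ≃ₐ[R] Algebra.adjoin R ({x} : Set F) :=
    (AlgEquiv.ofInjective (aeval (R := R) x) hinj).trans
      (Subalgebra.equivOfEq _ _ (Algebra.adjoin_singleton_eq_range_aeval R x).symm)
  rw [← ringKrullDim_eq_of_ringEquiv e.toRingEquiv, ringKrullDim_of_isNoetherianRing]
  have h1 : ringKrullDim R ≤ 1 := by
    have := Ring.krullDimLE_iff.1 (inferInstance : Ring.KrullDimLE 1 R)
    exact_mod_cast this
  calc ringKrullDim R + 1 ≤ 1 + 1 := by gcongr
    _ = 2 := by norm_num

theorem transcendental_base [CharZero E] {x : F} (hx : Transcendental E x) : Transcendental R x :=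
  hx.restrictScalars (IsFractionRing.injective R E)

include E in
omit [IsDomain R] [IsDiscreteValuationRing R] in
theorem algebraMap_base_injective : Function.Injective (algebraMap R F) := by
  rw [IsScalarTower.algebraMap_eq R E F]
  exact (algebraMap E F).injective.comp (IsFractionRing.injective R E)

include E in
omit [IsDomain R] [IsDiscreteValuationRing R] in
theorem algebraMap_chart_injective (B : Subalgebra R F) :
    Function.Injective (algebraMap R B) := by
  intro a b hab
  apply algebraMap_base_injective (E := E) (F := F)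
  have := congrArg (fun z : B => (z : F)) hab
  exact this

/-- The chart is a Noetherian integrally closed domain with fraction field `F`. -/
theorem chart_package [CharZero E] (w : R) (x : F) (B : Subalgebra R F) (hB : ChartCtx E w x B) :
    IsNoetherianRing B ∧ IsIntegrallyClosed B ∧ IsFractionRing B F := by
  obtain rfl : B = chart R ({x} : Set F) :=
    SetLike.ext fun f => (hB.hB f).trans Fermat.Agent.S18.H138.mem_chart.symm
  haveI : CharZero F := charZero_of_injective_algebraMap (algebraMap E F).injective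
  haveI := finiteDimensional_baseField (R := R) x hB.hfin
  exact Fermat.Agent.S18.H394.chart_instances (R := R) (transcendental_base hB.hx)

/-- The components of the chart are Dedekind. -/
theorem isDedekindDomain_component [CharZero E] (w : R) (x : F) (B : Subalgebra R F)
    (hB : ChartCtx E w x B) (p : Ideal B) [hp : p.IsPrime] (hwp : algebraMap R B w ∈ p)
    (hnorm : IsIntegrallyClosed (B ⧸ p)) : IsDedekindDomain (B ⧸ p) := by
  obtain ⟨hN, -, -⟩ := chart_package w x B hB
  have hp0 : p ≠ ⊥ := by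
    intro h0
    rw [h0, Ideal.mem_bot] at hwp
    exact hB.hw.ne_zero (algebraMap_chart_injective (E := E) B (by rw [hwp, map_zero]))
  obtain rfl : B = chart R ({x} : Set F) :=
    SetLike.ext fun f => (hB.hB f).trans Fermat.Agent.S18.H138.mem_chart.symm
  have hxR : Transcendental R x := transcendental_base hB.hx
  haveI := Fermat.Agent.S18.H138.isNoetherianRing_adjoin_singleton (R := R) hxR
  letI : Algebra (Algebra.adjoin R ({x} : Set F)) (chart R ({x} : Set F)) :=
    inferInstanceAs (Algebra (Algebra.adjoin R ({x} : Set F))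
      (integralClosure (Algebra.adjoin R ({x} : Set F)) F))
  haveI : Algebra.IsIntegral (Algebra.adjoin R ({x} : Set F)) (chart R ({x} : Set F)) :=
    inferInstanceAs (Algebra.IsIntegral (Algebra.adjoin R ({x} : Set F))
      (integralClosure (Algebra.adjoin R ({x} : Set F)) F))
  exact isDedekindDomain_quotient_of_dim (A₀ := Algebra.adjoin R ({x} : Set F))
    (ringKrullDim_adjoin_le x hxR) p hp0 hnorm

/-- `m ∣ div u` at every height-one prime of the chart. -/
theorem divisibleDivisor_of_divisibleDiv (w : R) (hw : Irreducible w) (B : Subalgebra R F)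
    [IsNoetherianRing B] [IsIntegrallyClosed B] [IsFractionRing B F]
    (c : SSChart w B) (m : ℕ) (u : F) (hdiv : DivisibleDiv E m u) (hs : IsSplit B c u) :
    DivisibleDivisor B m u := by
  intro 𝔭 h𝔭 hht
  haveI := h𝔭
  have hinjB : Function.Injective (algebraMap R B) := algebraMap_chart_injective (E := E) B
  have hwB0 : algebraMap R B w ≠ 0 := fun h0 => hw.ne_zero (hinjB (by rw [h0, map_zero]))
  have hwpp : algebraMap R B w ∈ c.p₁ ⊓ c.p₂ := by
    rw [c.inf_eq]
    exact Ideal.mem_span_singleton_self _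
  by_cases hw𝔭 : algebraMap R B w ∈ 𝔭
  · -- vertical prime: one of the two components
    have hle : c.p₁ * c.p₂ ≤ 𝔭 := by
      refine le_trans Ideal.mul_le_inf ?_
      rw [c.inf_eq, Ideal.span_singleton_le_iff_mem]
      exact hw𝔭
    have key : ∀ p : Ideal B, p.IsPrime → algebraMap R B w ∈ p → p ≤ 𝔭 → ConstAt B p u →
        ∃ t : F, ∃ a s : B, a ∉ 𝔭 ∧ s ∉ 𝔭 ∧ u * t ^ m * algebraMap B F s = algebraMap B F a := by
      intro p hp hwp hp𝔭 hconst
      haveI := hp
      haveI : p.FiniteHeight := Ideal.finiteHeight_of_isNoetherianRing p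
      have hpeq : p = 𝔭 := by
        refine Ideal.eq_of_le_of_height_le p hp𝔭 ?_
        rw [hht, Order.one_le_iff_pos, pos_iff_ne_zero, Ne, Ideal.height_eq_zero_iff_eq_bot]
        intro h0
        rw [h0, Ideal.mem_bot] at hwp
        exact hwB0 hwp
      subst hpeq
      obtain ⟨c₀, hc₀, a, b, hb, hab, hu⟩ := hconst
      refine ⟨1, a, b, ?_, hb, ?_⟩
      · intro ha
        have h2 : algebraMap R B c₀ * b ∈ p := by
          have := p.sub_mem ha hab
          rwa [sub_sub_cancel] at this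
        rcases hp.mem_or_mem h2 with h | h
        · exact hp.ne_top (Ideal.eq_top_of_isUnit_mem _ h (hc₀.map (algebraMap R B)))
        · exact hb h
      · rw [one_pow, mul_one]
        exact hu
    rcases (Ideal.IsPrime.mul_le h𝔭).1 hle with h | h
    · exact key c.p₁ c.prime₁ hwpp.1 h hs.1
    · exact key c.p₂ c.prime₂ hwpp.2 h hs.2
  · -- horizontal prime: `B_𝔭` is a DVR containing `E`
    obtain ⟨W, hdvr, hW⟩ := Fermat.Agent.S18.H438.exists_dvr_of_height_one (F := F) 𝔭 hht
    have hE : ∀ e : E, algebraMap E F e ∈ W := by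
      intro e
      obtain ⟨a, b, hb, rfl⟩ := IsFractionRing.div_surjective (A := R) e
      have hb0 : b ≠ 0 := nonZeroDivisors.ne_zero hb
      obtain ⟨k, υ, hbk⟩ := IsDiscreteValuationRing.eq_unit_mul_pow_irreducible hb0 hw
      have hb𝔭 : algebraMap R B b ∉ 𝔭 := by
        rw [hbk, map_mul, map_pow]
        intro h
        rcases h𝔭.mem_or_mem h with h | h
        · exact h𝔭.ne_top (Ideal.eq_top_of_isUnit_mem _ h (υ.isUnit.map (algebraMap R B)))
        · exact hw𝔭 (h𝔭.mem_of_pow_mem k h)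
      have hbF : algebraMap R F b ≠ 0 := fun h0 =>
        hb0 (algebraMap_base_injective (E := E) (F := F) (by rw [h0, map_zero]))
      refine (hW _).2 ⟨algebraMap R B a, algebraMap R B b, hb𝔭, ?_⟩
      rw [← IsScalarTower.algebraMap_apply R B F, ← IsScalarTower.algebraMap_apply R B F,
        map_div₀, ← IsScalarTower.algebraMap_apply R E F, ← IsScalarTower.algebraMap_apply R E F,
        div_mul_cancel₀ _ hbF]
    obtain ⟨h, u₀, hh, hu₀, hu₀', hu⟩ := hdiv W hdvr hE
    by_cases hu₀0 : u₀ = 0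
    · -- degenerate: `u = 0`, excluded by `IsSplit`
      exfalso
      obtain ⟨c₀, hc₀, a, b, hb, hab, hu'⟩ := hs.1
      rw [hu, hu₀0, zero_mul, zero_mul] at hu'
      have ha0 : a = 0 := Subtype.ext hu'.symm
      rw [ha0, zero_sub, neg_mem_iff] at hab
      rcases c.prime₁.mem_or_mem hab with h' | h'
      · exact c.prime₁.ne_top (Ideal.eq_top_of_isUnit_mem _ h' (hc₀.map (algebraMap R B)))
      · exact hb h'
    · obtain ⟨a, s, ha, hs', has⟩ :=
        (locU_iff_of_valuationSubring 𝔭 W hW hu₀0).2 ⟨hu₀, hu₀'⟩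
      refine ⟨h⁻¹, a, s, ha, hs', ?_⟩
      rw [hu, inv_pow, mul_assoc u₀, mul_inv_cancel₀ (pow_ne_zero _ hh), mul_one]
      exact has

/-- One-sided form of `purity_smooth`: `n` lies on `p` and not on `p'`. -/
theorem purity_smooth_aux [CharZero E] (m : ℕ) (hm : 0 < m)
    (w : R) (x : F) (B : Subalgebra R F) (hB : ChartCtx E w x B)
    (c : SSChart w B) (u : F) (hu : u ≠ 0) (hdiv : DivisibleDiv E m u) (hs : IsSplit B c u)
    (p p' : Ideal B) (hp : p.IsPrime) (hp' : p'.IsPrime)
    (hinf : p ⊓ p' = Ideal.span {algebraMap R B w}) (h12 : ¬ p ≤ p') (h21 : ¬ p' ≤ p)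
    (hnorm : IsIntegrallyClosed (B ⧸ p)) (hup : ConstAt B p u)
    (n : Ideal B) (hn : n.IsMaximal) (hpn : p ≤ n) (hp'n : ¬ p' ≤ n) :
    ∃ d : F, d ≠ 0 ∧ LocUnit B n (u * d ^ m) ∧ LocUnit B p d ∧ LocUnit B p' d := by
  obtain ⟨hN, hIC, hFr⟩ := chart_package w x B hB
  haveI := hN
  haveI := hIC
  haveI := hFr
  haveI := hp
  haveI := hp'
  have hwB0 : algebraMap R B w ≠ 0 := fun h0 =>
    hB.hw.ne_zero (algebraMap_chart_injective (E := E) B (by rw [h0, map_zero]))
  have hwp : algebraMap R B w ∈ p := by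
    have : algebraMap R B w ∈ p ⊓ p' := hinf ▸ Ideal.mem_span_singleton_self _
    exact this.1
  have hD : IsDedekindDomain (B ⧸ p) := isDedekindDomain_component w x B hB p hwp hnorm
  have hDD : DivisibleDivisor B m u := divisibleDivisor_of_divisibleDiv w hB.hw B c m u hdiv hs
  have hup' : LocU p u := by
    obtain ⟨c₀, hc₀, a, b, hb, hab, hu'⟩ := hup
    refine ⟨a, b, ?_, hb, hu'⟩
    intro ha
    have h2 : algebraMap R B c₀ * b ∈ p := by
      have := p.sub_mem ha hab
      rwa [sub_sub_cancel] at this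
    rcases hp.mem_or_mem h2 with h | h
    · exact hp.ne_top (Ideal.eq_top_of_isUnit_mem _ h (hc₀.map (algebraMap R B)))
    · exact hb h
  exact pure_smooth_abs (algebraMap R B w) hwB0 p p' hinf h12 h21 hD n hn hpn hp'n m hm u hu
    hDD hup'

end Chart

section Leaf

variable {R E F : Type*} [CommRing R] [IsDomain R] [IsDiscreteValuationRing R]
  [HenselianLocalRing R] [IsAlgClosed (IsLocalRing.ResidueField R)]
  [Field E] [CharZero E] [Algebra R E] [IsFractionRing R E]
  [Field F] [Algebra E F] [Algebra R F] [IsScalarTower R E F]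

/-- **P-S (purity at a smooth point).**  `n` lies on exactly one component `p`; then
`B_n / w = (B / p)_n` is a DVR, every divisorial ideal of `B_n` without vertical component is
principal (Nakayama), so the horizontal part `m · D` of `div u` is `m · div d⁻¹`; adjust `d` by an
element of `p' ∖ (n ∪ p'^{(2)})` to make it a unit on the other component `p'`. -/
theorem purity_smooth (q m : ℕ) (hq : q.Prime) (hqR : (q : R) ∈ IsLocalRing.maximalIdeal R)
    (hm : 0 < m) (hqm : ¬ q ∣ m)
    (w : R) (x : F) (B : Subalgebra R F) (hB : ChartCtx E w x B)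
    (c : SSChart w B) (hc : Incomparable c)
    (u : F) (hu : u ≠ 0) (hdiv : DivisibleDiv E m u) (hs : IsSplit B c u)
    (n : Ideal B) (hn : n.IsMaximal) (hwn : algebraMap R B w ∈ n)
    (h1 : ¬ (c.p₁ ≤ n ∧ c.p₂ ≤ n)) : PureAt B c m u n := by
  have hle : c.p₁ * c.p₂ ≤ n := by
    refine le_trans Ideal.mul_le_inf ?_
    rw [c.inf_eq, Ideal.span_singleton_le_iff_mem]
    exact hwn
  rcases (Ideal.IsPrime.mul_le hn.isPrime).1 hle with h | h
  · have h2 : ¬ c.p₂ ≤ n := fun h2 => h1 ⟨h, h2⟩
    obtain ⟨d, hd0, hdn, hd1, hd2⟩ := purity_smooth_aux m hm w x B hB c u hu hdiv hs c.p₁ c.p₂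
      c.prime₁ c.prime₂ c.inf_eq hc.1 hc.2 c.normal₁ hs.1 n hn h h2
    exact ⟨d, hd0, hdn, hd1, hd2⟩
  · have h2 : ¬ c.p₁ ≤ n := fun h2 => h1 ⟨h2, h⟩
    obtain ⟨d, hd0, hdn, hd2, hd1⟩ := purity_smooth_aux m hm w x B hB c u hu hdiv hs c.p₂ c.p₁
      c.prime₂ c.prime₁ (by rw [inf_comm]; exact c.inf_eq) hc.2 hc.1 c.normal₂ hs.2 n hn h h2
    exact ⟨d, hd0, hdn, hd1, hd2⟩

end Leaf

end Fermat.Agent.A2.Alg.H754

end

end
-- ===== PACK-END A2/Alg/H754/PuritySmooth.lean

-- ===== PACK-BEGIN A2/Mod/H398/PoleSum.lean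
section



/-!
# A2 / MOD leaf L8 (helper398) — degree of a product of two mutually integral coordinates

`K` algebraically closed of characteristic `0`, `F / K` a function field of one variable,
`y, z ∈ F` with `z` integral over `K[y]` and `y` integral over `K[z]` (so `y`, `z` have the same
poles).  Then `[F : K(y z)] = [F : K(y)] + [F : K(z)]`.
-/

set_option autoImplicit false
set_option linter.style.haveILetI false

noncomputable section

namespace Fermat.Agent.A2.Mod.H398

open AlgebraicCurve IntermediateField Polynomial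

section PoleSum

variable {K F : Type*} [Field K] [Field F] [Algebra K F]

/-- An element integral over `K[y]` is integral at every place where `y` is. -/
theorem ord_nonneg_of_isIntegral_adjoin (v : Place K F) {y z : F}
    (hzy : IsIntegral (Algebra.adjoin K {y}) z) (hy : 0 ≤ v.ord y) : 0 ≤ v.ord z := by
  have hyv : y ∈ v.toValuationSubring := (Fermat.Agent.S24.FF.mem_iff_ord_nonneg v).mpr hy
  have hle : ∀ a ∈ Algebra.adjoin K {y}, a ∈ v.toValuationSubring := by
    intro a ha
    induction ha using Algebra.adjoin_induction with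
    | mem a ha =>
      rw [Set.mem_singleton_iff] at ha
      subst ha
      exact hyv
    | algebraMap r => exact v.algebraMap_mem' r
    | add a b _ _ ha hb => exact add_mem ha hb
    | mul a b _ _ ha hb => exact mul_mem ha hb
  let f : Algebra.adjoin K {y} →+* v.toValuationSubring :=
    { toFun := fun a => ⟨a.1, hle a.1 a.2⟩
      map_one' := rfl
      map_mul' := fun _ _ => rfl
      map_zero' := rfl
      map_add' := fun _ _ => rfl }
  obtain ⟨p, hp, hpz⟩ := hzy
  have h1 : IsIntegral v.toValuationSubring z := by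
    refine ⟨p.map f, hp.map f, ?_⟩
    rw [Polynomial.eval₂_map]
    exact hpz
  obtain ⟨w, hw⟩ := IsIntegrallyClosed.isIntegral_iff.mp h1
  rw [← Fermat.Agent.S24.FF.mem_iff_ord_nonneg, ← hw]
  exact w.2

variable [IsAlgClosed K] [CharZero K]

/-- **Degree of a product of two mutually integral coordinates.** -/
theorem finrank_mul_of_mutually_integral {y z : F} (hy : Transcendental K y)
    [FiniteDimensional K⟮y⟯ F]
    (hzy : IsIntegral (Algebra.adjoin K {y}) z) (hyz : IsIntegral (Algebra.adjoin K {z}) y) :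
    Transcendental K z ∧ Transcendental K (y * z) ∧ FiniteDimensional K⟮z⟯ F ∧
      FiniteDimensional K⟮y * z⟯ F ∧
      Module.finrank K⟮y * z⟯ F = Module.finrank K⟮y⟯ F + Module.finrank K⟮z⟯ F := by
  classical
  have hy0 : y ≠ 0 := fun h => hy (h ▸ isAlgebraic_zero)
  -- `z` is transcendental
  have hz : Transcendental K z := by
    intro hz
    apply hy
    haveI : Algebra.IsIntegral K (Algebra.adjoin K {z}) :=
      Algebra.IsIntegral.adjoin (fun x hx => by
        rw [Set.mem_singleton_iff] at hx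
        subst hx
        exact hz.isIntegral)
    exact (isIntegral_trans (R := K) (A := Algebra.adjoin K {z}) y hyz).isAlgebraic
  have hz0 : z ≠ 0 := fun h => hz (h ▸ isAlgebraic_zero)
  haveI hfz : FiniteDimensional K⟮z⟯ F :=
    Fermat.Agent.S24.FF.finiteDimensional_adjoin_of_transcendental hy hz
  -- the common pole set
  have hiff : ∀ v : Place K F, v.ord z < 0 ↔ v.ord y < 0 := by
    intro v
    constructor
    · intro h
      by_contra h'
      have := ord_nonneg_of_isIntegral_adjoin v hzy (not_lt.mp h')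
      omega
    · intro h
      by_contra h'
      have := ord_nonneg_of_isIntegral_adjoin v hyz (not_lt.mp h')
      omega
  have hmul : ∀ v : Place K F, v.ord (y * z) = v.ord y + v.ord z := fun v => v.ord_mul hy0 hz0
  have hiffx : ∀ v : Place K F, v.ord (y * z) < 0 ↔ v.ord y < 0 := by
    intro v
    rw [hmul]
    constructor
    · intro h
      by_contra h'
      have h1 : ¬ v.ord z < 0 := fun h2 => h' ((hiff v).mp h2)
      omega
    · intro h
      have := (hiff v).mpr h
      omega
  set S : Finset (Place K F) := (Fermat.Agent.S24.FF.finite_setOf_ord_neg hy).toFinset with hS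
  have hSy : ∀ v, v ∈ S ↔ v.ord y < 0 := fun v => by
    rw [hS, Set.Finite.mem_toFinset]; rfl
  have hsumy := Fermat.Agent.S24.FF.sum_ord_neg_eq_neg_finrank hy S hSy
  have hsumz := Fermat.Agent.S24.FF.sum_ord_neg_eq_neg_finrank hz S
    (fun v => (hSy v).trans (hiff v).symm)
  have hposy : 0 < Module.finrank K⟮y⟯ F := Module.finrank_pos
  -- `y z` is transcendental
  have hx : Transcendental K (y * z) := by
    intro hx
    obtain ⟨c, hc⟩ := Fermat.Agent.S24.FF.mem_range_of_isAlgebraic hx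
    have hne : S.Nonempty := by
      by_contra hne
      rw [Finset.not_nonempty_iff_eq_empty] at hne
      rw [hne, Finset.sum_empty] at hsumy
      have : (Module.finrank K⟮y⟯ F : ℤ) = 0 := by omega
      have : Module.finrank K⟮y⟯ F = 0 := by exact_mod_cast this
      omega
    obtain ⟨v, hv⟩ := hne
    have h1 := (hiffx v).mpr ((hSy v).mp hv)
    rw [← hc] at h1
    have h2 := Fermat.Agent.S24.FF.ord_algebraMap v c
    omega
  haveI hfx : FiniteDimensional K⟮y * z⟯ F :=
    Fermat.Agent.S24.FF.finiteDimensional_adjoin_of_transcendental hy hx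
  have hsumx := Fermat.Agent.S24.FF.sum_ord_neg_eq_neg_finrank hx S
    (fun v => (hSy v).trans (hiffx v).symm)
  refine ⟨hz, hx, hfz, hfx, ?_⟩
  have h3 : ∑ v ∈ S, v.ord (y * z) = ∑ v ∈ S, v.ord y + ∑ v ∈ S, v.ord z := by
    rw [← Finset.sum_add_distrib]
    exact Finset.sum_congr rfl fun v _ => hmul v
  rw [hsumx, hsumy, hsumz] at h3
  omega

end PoleSum

end Fermat.Agent.A2.Mod.H398

end

end
-- ===== PACK-END A2/Mod/H398/PoleSum.lean

-- ===== PACK-BEGIN A2/Mod/H142/S2Frob.lean
section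




/-!
# A2 / MODASM S2 — concrete basics (helper142)

* `inW_iff` : `InW V w f ↔ v(f) < 1` for a uniformiser `w`;
* `inW_mul`, `inW_add`, ... : ideal properties of `w V`;
* `frobCong` : `j_{dq} ≡ j_d ^ q  mod w V∞` (integer series, `q ∈ w R`);
* `frobCong_inv` : `j_{dq}⁻¹ ≡ (j_d⁻¹) ^ q  mod w V∞`.
-/

set_option autoImplicit false
set_option synthInstance.maxHeartbeats 400000
set_option maxHeartbeats 1600000
set_option linter.unusedSectionVars false
set_option linter.style.haveILetI false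

noncomputable section

namespace Fermat.Agent.A2.Mod.H142

open ModularCurve HahnSeries Polynomial

variable (P : ValuationSubring _root_.Fermat.Agent.A2.Mod.Qb) (E : IntermediateField ℚ _root_.Fermat.Agent.A2.Mod.Qb)

section Basic

variable {P E} {N : ℕ} {V : ValuationSubring (_root_.Fermat.Agent.A2.Mod.FE E N)} {w : _root_.Fermat.Agent.A2.Mod.RE P E}

theorem inW_iff (hU : H48.IsUnif V (cE P E N w)) (f : _root_.Fermat.Agent.A2.Mod.FE E N) :
    InW P E N V w f ↔ V.valuation f < 1 :=
  hU.mul_inv_mem_iff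

theorem inW_mul_right {f : _root_.Fermat.Agent.A2.Mod.FE E N} (hf : InW P E N V w f) {g : _root_.Fermat.Agent.A2.Mod.FE E N} (hg : g ∈ V) :
    InW P E N V w (f * g) := by
  unfold InW at hf ⊢
  have : f * g * (cE P E N w)⁻¹ = f * (cE P E N w)⁻¹ * g := by ring
  rw [this]
  exact V.mul_mem _ _ hf hg

theorem inW_neg {f : _root_.Fermat.Agent.A2.Mod.FE E N} (hf : InW P E N V w f) : InW P E N V w (-f) := by
  unfold InW at hf ⊢
  rw [neg_mul]
  exact V.neg_mem _ hf

theorem inW_add {f g : _root_.Fermat.Agent.A2.Mod.FE E N} (hf : InW P E N V w f) (hg : InW P E N V w g) :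
    InW P E N V w (f + g) := by
  unfold InW at hf hg ⊢
  rw [add_mul]
  exact V.add_mem _ _ hf hg

theorem inW_sub {f g : _root_.Fermat.Agent.A2.Mod.FE E N} (hf : InW P E N V w f) (hg : InW P E N V w g) :
    InW P E N V w (f - g) := by
  unfold InW at hf hg ⊢
  rw [sub_mul]
  exact sub_mem hf hg

end Basic

section Frob

variable {P E}

/-- `q = r * w` in `R_E` when `P` lies over `q` and `w` is a uniformiser. -/
theorem exists_mul_eq_natCast {w : _root_.Fermat.Agent.A2.Mod.RE P E} {q : ℕ} (hdvr : IsDiscreteValuationRing (_root_.Fermat.Agent.A2.Mod.RE P E))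
    (hw : Irreducible w) (hP : P.LiesOverPrime q) : ∃ r : _root_.Fermat.Agent.A2.Mod.RE P E, r * w = (q : _root_.Fermat.Agent.A2.Mod.RE P E) := by
  haveI := hdvr
  have hmem : ((q : ℕ) : _root_.Fermat.Agent.A2.Mod.RE P E) ∈ IsLocalRing.maximalIdeal (_root_.Fermat.Agent.A2.Mod.RE P E) := by
    rw [IsLocalRing.mem_maximalIdeal, mem_nonunits_iff]
    intro hu
    obtain ⟨u, hu'⟩ := hu
    have h1 : (((u : _root_.Fermat.Agent.A2.Mod.RE P E) : E) : _root_.Fermat.Agent.A2.Mod.Qb) = (q : _root_.Fermat.Agent.A2.Mod.Qb) := by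
      rw [hu']
      push_cast
      rfl
    have h3 : ((((u⁻¹ : (_root_.Fermat.Agent.A2.Mod.RE P E)ˣ) : _root_.Fermat.Agent.A2.Mod.RE P E) : E) : _root_.Fermat.Agent.A2.Mod.Qb) ∈ P := ((u⁻¹ : (_root_.Fermat.Agent.A2.Mod.RE P E)ˣ) : _root_.Fermat.Agent.A2.Mod.RE P E).2
    have h4 : ((((u⁻¹ : (_root_.Fermat.Agent.A2.Mod.RE P E)ˣ) : _root_.Fermat.Agent.A2.Mod.RE P E) : E) : _root_.Fermat.Agent.A2.Mod.Qb) * (q : _root_.Fermat.Agent.A2.Mod.Qb) = 1 := by
      rw [← h1]
      have h5 : ((u⁻¹ : (_root_.Fermat.Agent.A2.Mod.RE P E)ˣ) : _root_.Fermat.Agent.A2.Mod.RE P E) * (u : _root_.Fermat.Agent.A2.Mod.RE P E) = 1 := Units.inv_mul u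
      calc ((((u⁻¹ : (_root_.Fermat.Agent.A2.Mod.RE P E)ˣ) : _root_.Fermat.Agent.A2.Mod.RE P E) : E) : _root_.Fermat.Agent.A2.Mod.Qb) * (((u : _root_.Fermat.Agent.A2.Mod.RE P E) : E) : _root_.Fermat.Agent.A2.Mod.Qb)
          = (((((u⁻¹ : (_root_.Fermat.Agent.A2.Mod.RE P E)ˣ) : _root_.Fermat.Agent.A2.Mod.RE P E) * (u : _root_.Fermat.Agent.A2.Mod.RE P E) : _root_.Fermat.Agent.A2.Mod.RE P E) : E) : _root_.Fermat.Agent.A2.Mod.Qb) := rfl
        _ = 1 := by rw [h5]; rfl
    have hq' : (q : _root_.Fermat.Agent.A2.Mod.Qb) ∈ P.nonunits := hP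
    rw [ValuationSubring.mem_nonunits_iff_exists_mem_maximalIdeal] at hq'
    obtain ⟨hqP, hqm⟩ := hq'
    rw [IsLocalRing.mem_maximalIdeal, mem_nonunits_iff] at hqm
    apply hqm
    refine IsUnit.of_mul_eq_one ⟨_, h3⟩ ?_
    exact Subtype.ext (by rw [mul_comm]; exact h4)
  rw [hw.maximalIdeal_eq, Ideal.mem_span_singleton'] at hmem
  exact hmem

/-- An element of `F_N` whose expansion is `q` times an integer series lies in `w V∞`. -/
theorem inW_of_coe_eq {w : _root_.Fermat.Agent.A2.Mod.RE P E} {q : ℕ} (hq0 : q ≠ 0)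
    (hdvr : IsDiscreteValuationRing (_root_.Fermat.Agent.A2.Mod.RE P E))
    (hw : Irreducible w) (hP : P.LiesOverPrime q) {N : ℕ} (hN : N ≠ 0)
    {V : ValuationSubring (_root_.Fermat.Agent.A2.Mod.FE E N)} (hV : IsVinf P E N V) (D : _root_.Fermat.Agent.A2.Mod.FE E N) (g : LaurentSeries ℤ)
    (hD : (D : LaurentSeries E) = coeffEmb E (H708.castQ (HahnSeries.C (q : ℤ) * g))) :
    InW P E N V w D := by
  haveI := hdvr
  obtain ⟨r, hr⟩ := exists_mul_eq_natCast hdvr hw hP
  have hL2 := H553.vinfBasic P E w N hN hdvr hw V hV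
  have hw0 : (w : E) ≠ 0 := fun h0 => hw.ne_zero (Subtype.ext h0)
  have hcw : cE P E N w ≠ 0 := (map_ne_zero_iff _ (algebraMap E (_root_.Fermat.Agent.A2.Mod.FE E N)).injective).mpr hw0
  have hqE : ((q : ℕ) : E) ≠ 0 := Nat.cast_ne_zero.mpr hq0
  have hqF : ((q : ℕ) : _root_.Fermat.Agent.A2.Mod.FE E N) ≠ 0 := Nat.cast_ne_zero.mpr hq0
  -- `G := D / q` has integral expansion `g`
  obtain ⟨G, hG⟩ : ∃ G : _root_.Fermat.Agent.A2.Mod.FE E N, G = D * ((q : ℕ) : _root_.Fermat.Agent.A2.Mod.FE E N)⁻¹ := ⟨_, rfl⟩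
  have hqL : ((q : ℕ) : LaurentSeries E) ≠ 0 := by
    rw [← map_natCast (algebraMap E (LaurentSeries E))]
    exact (_root_.map_ne_zero _).mpr hqE
  have hCq : coeffEmb E (H708.castQ (HahnSeries.C (q : ℤ))) = ((q : ℕ) : LaurentSeries E) := by
    have h1 : (HahnSeries.C (q : ℤ) : LaurentSeries ℤ) = ((q : ℕ) : LaurentSeries ℤ) := by
      rw [← map_natCast (HahnSeries.C : ℤ →+* LaurentSeries ℤ)]
    rw [h1, map_natCast, map_natCast]
  have hGc : (G : LaurentSeries E) = coeffEmb E (H708.castQ g) := by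
    have h1 : (G : LaurentSeries E) = (D : LaurentSeries E) * ((q : ℕ) : LaurentSeries E)⁻¹ := by
      rw [hG]
      push_cast
      rfl
    rw [h1, hD, map_mul, map_mul, hCq, mul_comm (((q : ℕ) : LaurentSeries E)), mul_assoc,
      mul_inv_cancel₀ hqL, mul_one]
  have hGV : G ∈ V := H553.mem_of_int hV hGc
  have hrV : algebraMap E (_root_.Fermat.Agent.A2.Mod.FE E N) (r : E) ∈ V := (hL2.2.1 _).mpr r.2
  have hqr : ((q : ℕ) : _root_.Fermat.Agent.A2.Mod.FE E N) = algebraMap E (_root_.Fermat.Agent.A2.Mod.FE E N) (r : E) * cE P E N w := by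
    have h1 : ((r * w : _root_.Fermat.Agent.A2.Mod.RE P E) : E) = ((q : ℕ) : E) := by
      rw [hr]
      rfl
    have h2 : ((r * w : _root_.Fermat.Agent.A2.Mod.RE P E) : E) = (r : E) * (w : E) := rfl
    rw [h2] at h1
    unfold cE
    rw [← map_mul, h1, map_natCast]
  have hDG : D = G * ((q : ℕ) : _root_.Fermat.Agent.A2.Mod.FE E N) := by
    rw [hG, mul_assoc, inv_mul_cancel₀ hqF, mul_one]
  unfold InW
  have : D * (cE P E N w)⁻¹ = G * algebraMap E (_root_.Fermat.Agent.A2.Mod.FE E N) (r : E) := by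
    rw [hDG, hqr, mul_assoc, mul_assoc, mul_inv_cancel₀ hcw, mul_one]
  rw [this]
  exact V.mul_mem _ _ hGV hrV

/-- **Frobenius congruence** at level `E`: `j_{dq} ≡ j_d ^ q mod w V∞`. -/
theorem frobCong {w : _root_.Fermat.Agent.A2.Mod.RE P E} {q : ℕ} (hq : q.Prime)
    (hdvr : IsDiscreteValuationRing (_root_.Fermat.Agent.A2.Mod.RE P E))
    (hw : Irreducible w) (hP : P.LiesOverPrime q) {N : ℕ} (hN : N ≠ 0)
    {V : ValuationSubring (_root_.Fermat.Agent.A2.Mod.FE E N)} (hV : IsVinf P E N V)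
    (d : ℕ) [NeZero d] [NeZero (d * q)] (hd : d ∣ N) (hdq : d * q ∣ N) :
    InW P E N V w (jE E N (d * q) hdq - jE E N d hd ^ q) := by
  haveI : Fact q.Prime := ⟨hq⟩
  haveI : NeZero q := ⟨hq.ne_zero⟩
  obtain ⟨g, hg⟩ := H528.exists_frobCong q (H708.jInt d)
  refine inW_of_coe_eq hq.ne_zero hdvr hw hP hN hV _ g ?_
  rw [← hg]
  have h1 : qExpand ℤ q (H708.jInt d) = H708.jInt (d * q) := by
    rw [H708.jInt, H708.jInt, jqNModC, jqNModC, qExpand_qExpand]
    exact qExpand_congr (mul_comm q d) _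
  rw [h1, map_sub, map_sub, map_pow, map_pow]
  show ((jE E N (d * q) hdq : _root_.Fermat.Agent.A2.Mod.FE E N) : LaurentSeries E)
    - ((jE E N d hd : _root_.Fermat.Agent.A2.Mod.FE E N) : LaurentSeries E) ^ q = _
  rw [H553.coe_jE, H553.coe_jE]

end Frob

end Fermat.Agent.A2.Mod.H142

end
end
-- ===== PACK-END A2/Mod/H142/S2Frob.lean

-- ===== PACK-BEGIN A2/Mod/H142/S2Side.lean
section



/-!
# A2 / MODASM S2 — one component (helper142)

`normal_side` : for a valuation subring `V'` of `F_{Mq}` (`V∞` or `V₀`) with uniformiser `w` and a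
degeneracy map `γ : F_M → F_{Mq}` (`α` or `β`) such that

* `γ V∞_M ⊆ V'`, residue degree one (`V' = γ V∞_M + w V'`),
* `y ≡ γ (y_M ^ (q+1)) mod w V'`, `γ y_M ∈ chartAlg y`,
* good reduction at level `M` in the chart of `y_M`,

the component `chartAlg y ⧸ (chartAlg y ∩ w V')` is integrally closed.
-/

set_option autoImplicit false
set_option synthInstance.maxHeartbeats 400000
set_option maxHeartbeats 1600000
set_option linter.unusedSectionVars false
set_option linter.style.haveILetI false

noncomputable section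

namespace Fermat.Agent.A2.Mod.H142

open ModularCurve HahnSeries Polynomial

variable (P : ValuationSubring _root_.Fermat.Agent.A2.Mod.Qb) (E : IntermediateField ℚ _root_.Fermat.Agent.A2.Mod.Qb)

section Chart

variable (N : ℕ)

/-- `chart` (Spec) and `chartAlg` (Asm) have the same elements. -/
theorem mem_chart_iff (y f : _root_.Fermat.Agent.A2.Mod.FE E N) : f ∈ chart P E N y ↔ f ∈ chartAlg P E N y :=
  (isIntegral_adjoin_iff (R := _root_.Fermat.Agent.A2.Mod.RE P E) y f).symm

theorem self_mem_chartAlg (y : _root_.Fermat.Agent.A2.Mod.FE E N) : y ∈ chartAlg P E N y := by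
  rw [mem_chartAlg]
  have h : y = algebraMap (Algebra.adjoin (_root_.Fermat.Agent.A2.Mod.RE P E) ({y} : Set (_root_.Fermat.Agent.A2.Mod.FE E N))) (_root_.Fermat.Agent.A2.Mod.FE E N)
      ⟨y, Algebra.subset_adjoin (Set.mem_singleton y)⟩ := rfl
  rw [h]
  exact isIntegral_algebraMap

end Chart

variable (M q : ℕ) [NeZero M] [NeZero q] (w : _root_.Fermat.Agent.A2.Mod.RE P E)

/-- **One component is normal.** -/
theorem normal_side (hS : Setting P E M q w)
    (VM : ValuationSubring (_root_.Fermat.Agent.A2.Mod.FE E M)) (hVM : IsVinf P E M VM)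
    (V' : ValuationSubring (_root_.Fermat.Agent.A2.Mod.FE E (M * q))) (hU' : H48.IsUnif V' (cE P E (M * q) w))
    (hRV' : ∀ r : _root_.Fermat.Agent.A2.Mod.RE P E, algebraMap (_root_.Fermat.Agent.A2.Mod.RE P E) (_root_.Fermat.Agent.A2.Mod.FE E (M * q)) r ∈ V')
    (γ : _root_.Fermat.Agent.A2.Mod.FE E M →ₐ[E] _root_.Fermat.Agent.A2.Mod.FE E (M * q))
    (hγV : ∀ g ∈ VM, γ g ∈ V')
    (hres : ∀ f ∈ V', ∃ g ∈ VM, InW P E (M * q) V' w (f - γ g))
    (yM : _root_.Fermat.Agent.A2.Mod.FE E M) (y : _root_.Fermat.Agent.A2.Mod.FE E (M * q))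
    (hyM : yM ∈ VM) (hy : y ∈ V')
    (hcong : InW P E (M * q) V' w (y - γ (yM ^ (q + 1))))
    (hγy : γ yM ∈ chartAlg P E (M * q) y)
    (hgood : GoodRedAt P E M w VM yM)
    (p : Ideal (chartAlg P E (M * q) y))
    (hp : IsCut P E (M * q) w V' (chartAlg P E (M * q) y) p) :
    IsIntegrallyClosed (chartAlg P E (M * q) y ⧸ p) := by
  have hdvr := hS.dvr
  have hL2M := H553.vinfBasic P E w M hS.M_ne_zero hdvr hS.unif VM hVM
  have hUM : H48.IsUnif VM (cE P E M w) := hL2M.1
  have hRVM : ∀ r : _root_.Fermat.Agent.A2.Mod.RE P E, algebraMap (_root_.Fermat.Agent.A2.Mod.RE P E) (_root_.Fermat.Agent.A2.Mod.FE E M) r ∈ VM := fun r =>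
    (hL2M.2.1 (r : E)).mpr r.2
  have hγR : ∀ r : _root_.Fermat.Agent.A2.Mod.RE P E, (γ : _root_.Fermat.Agent.A2.Mod.FE E M →+* _root_.Fermat.Agent.A2.Mod.FE E (M * q)) (algebraMap (_root_.Fermat.Agent.A2.Mod.RE P E) (_root_.Fermat.Agent.A2.Mod.FE E M) r) =
      algebraMap (_root_.Fermat.Agent.A2.Mod.RE P E) (_root_.Fermat.Agent.A2.Mod.FE E (M * q)) r := fun r => γ.commutes (r : E)
  have hγc : γ (cE P E M w) = cE P E (M * q) w := γ.commutes (w : E)
  -- the charts lie in the valuation rings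
  have hB₀ : ∀ b ∈ chartAlg P E M yM, b ∈ VM := fun b hb =>
    mem_valuationSubring_of_isIntegral_adjoin VM hRVM hyM ((mem_chartAlg P E M).1 hb)
  have hB : ∀ b ∈ chartAlg P E (M * q) y, b ∈ V' := fun b hb =>
    mem_valuationSubring_of_isIntegral_adjoin V' hRV' hy ((mem_chartAlg P E (M * q)).1 hb)
  have hγB : ∀ b ∈ chartAlg P E M yM, (γ : _root_.Fermat.Agent.A2.Mod.FE E M →+* _root_.Fermat.Agent.A2.Mod.FE E (M * q)) b ∈ chartAlg P E (M * q) y :=
    fun b hb => (mem_chartAlg P E (M * q)).2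
      (isIntegral_adjoin_map (γ : _root_.Fermat.Agent.A2.Mod.FE E M →+* _root_.Fermat.Agent.A2.Mod.FE E (M * q)) hγR
        ((mem_chartAlg P E (M * q)).1 hγy) ((mem_chartAlg P E M).1 hb))
  have hγp : ∀ g : _root_.Fermat.Agent.A2.Mod.FE E M, VM.valuation g < 1 →
      V'.valuation ((γ : _root_.Fermat.Agent.A2.Mod.FE E M →+* _root_.Fermat.Agent.A2.Mod.FE E (M * q)) g) < 1 := by
    intro g hg
    rw [← inW_iff hUM] at hg
    rw [← inW_iff hU']
    unfold InW at hg ⊢
    have h1 := hγV _ hg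
    rw [map_mul, map_inv₀, hγc] at h1
    exact h1
  have hres' : ∀ f ∈ V', ∃ g ∈ VM,
      V'.valuation (f - (γ : _root_.Fermat.Agent.A2.Mod.FE E M →+* _root_.Fermat.Agent.A2.Mod.FE E (M * q)) g) < 1 := by
    intro f hf
    obtain ⟨g, hg, hfg⟩ := hres f hf
    exact ⟨g, hg, (inW_iff hU' _).1 hfg⟩
  have hnorm₀ : NormalIn VM ((chartAlg P E M yM : Subalgebra (_root_.Fermat.Agent.A2.Mod.RE P E) (_root_.Fermat.Agent.A2.Mod.FE E M)) : Set (_root_.Fermat.Agent.A2.Mod.FE E M)) := by
    intro f hf ⟨n, c, hc, hrel⟩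
    obtain ⟨b, hb, hfb⟩ := hgood.normal f hf
      ⟨n, c, fun i => (mem_chart_iff P E M yM (c i)).2 (hc i), (inW_iff hUM _).2 hrel⟩
    exact ⟨b, (mem_chart_iff P E M yM b).1 hb, (inW_iff hUM _).1 hfb⟩
  have hint := isIntegralElem_of_coord (γ : _root_.Fermat.Agent.A2.Mod.FE E M →+* _root_.Fermat.Agent.A2.Mod.FE E (M * q)) hγR V'
    (chartAlg P E M yM) (chartAlg P E (M * q) y) hB hγB y (self_mem_chartAlg P E (M * q) y)
    (yM ^ (q + 1)) (pow_mem (self_mem_chartAlg P E M yM) _) ((inW_iff hU' _).1 hcong)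
    (fun b hb => (mem_chartAlg P E (M * q)).1 hb)
  have hnorm : NormalIn V'
      ((chartAlg P E (M * q) y : Subalgebra (_root_.Fermat.Agent.A2.Mod.RE P E) (_root_.Fermat.Agent.A2.Mod.FE E (M * q))) : Set (_root_.Fermat.Agent.A2.Mod.FE E (M * q))) :=
    normalIn_transfer (γ : _root_.Fermat.Agent.A2.Mod.FE E M →+* _root_.Fermat.Agent.A2.Mod.FE E (M * q)) VM V' hγV hγp
      (chartAlg P E M yM) (chartAlg P E (M * q) y) hB₀ hB hγB hres' hint hnorm₀
  exact isIntegrallyClosed_quotient_of_normal V' (chartAlg P E (M * q) y) hB p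
    (fun b => (hp b).trans (inW_iff hU' _)) hnorm

end Fermat.Agent.A2.Mod.H142

end
end
-- ===== PACK-END A2/Mod/H142/S2Side.lean

-- ===== PACK-BEGIN S18/H456/ModS.lean
section



/-!
# S18 / MOD assembly (helper456): the fields `S_mem`, `S_distinct`, `S_unit` of `Alg.GoodModel`
-/

set_option autoImplicit false

noncomputable section

namespace Fermat.Agent.S18.H456

open ModularCurve AlgebraicCurve HahnSeries Fermat.Agent.S18 Fermat.Agent.S18.Mod

variable (M : ℕ) (A : ValuationSubring Qb) (E : IntermediateField ℚ Qb)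

/-- An integer prime to `ℓ` is a unit of `A`. -/
theorem inv_intCast_mem_A {ℓ : ℕ} (hA : A.LiesOverPrime ℓ) (n : ℤ)
    (hn : IsCoprime n (ℓ : ℤ)) : ((n : Qb))⁻¹ ∈ A := by
  obtain ⟨a, b, hab⟩ := hn
  have hℓ : A.valuation (ℓ : Qb) < 1 := (ValuationSubring.mem_nonunits_iff A).1 hA
  have hle : ∀ k : ℤ, A.valuation (k : Qb) ≤ 1 := fun k =>
    (A.valuation_le_one_iff _).2 (intCast_mem A k)
  rw [← A.valuation_le_one_iff, map_inv₀]
  by_contra hcon
  have hlt : A.valuation (n : Qb) < 1 := by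
    by_contra h
    push Not at h
    have h1 : A.valuation (n : Qb) = 1 := le_antisymm (hle n) h
    rw [h1, inv_one] at hcon
    exact hcon le_rfl
  have h1 : A.valuation ((a : Qb) * n + b * ℓ) < 1 := by
    refine lt_of_le_of_lt (A.valuation.map_add _ _) (max_lt ?_ ?_)
    · rw [map_mul]
      calc A.valuation (a : Qb) * A.valuation (n : Qb) ≤ 1 * A.valuation (n : Qb) :=
            mul_le_mul_left (hle a) _
        _ = A.valuation (n : Qb) := one_mul _
        _ < 1 := hlt
    · rw [map_mul]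
      calc A.valuation (b : Qb) * A.valuation (ℓ : Qb) ≤ 1 * A.valuation (ℓ : Qb) :=
            mul_le_mul_left (hle b) _
        _ = A.valuation (ℓ : Qb) := one_mul _
        _ < 1 := hℓ
  have h2 : ((a : Qb) * n + b * ℓ) = 1 := by
    have := congrArg (Int.cast : ℤ → Qb) hab
    push_cast at this
    exact this
  rw [h2, map_one] at h1
  exact lt_irrefl _ h1

theorem cst_intCast (n : ℤ) : cst M (n : Qb) = (n : Om M) := map_intCast _ n

theorem intCast_mem_Rc (n : ℤ) : (n : Om M) ∈ Rc M A E := by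
  rw [← cst_intCast]
  exact cst_mem_Rc M A E (intCast_mem A n) (intCast_mem E n)

theorem inv_intCast_mem_Rc {ℓ : ℕ} (hA : A.LiesOverPrime ℓ) (n : ℤ)
    (hn : IsCoprime n (ℓ : ℤ)) : ((n : Om M))⁻¹ ∈ Rc M A E := by
  rw [← cst_intCast, ← map_inv₀]
  exact cst_mem_Rc M A E (inv_intCast_mem_A A hA n hn) (inv_mem (intCast_mem E n))

/-- The three fields `S_mem`, `S_distinct`, `S_unit` for `S = {0, b}`, `b` an integer prime
to `ℓ`. -/
theorem S_fields_of_int {ℓ : ℕ} (hA : A.LiesOverPrime ℓ) (b : ℤ) (hb : IsCoprime b (ℓ : ℤ))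
    (S : Finset (Om M)) (hS : ∀ s, s ∈ S ↔ s = 0 ∨ s = (b : Om M)) :
    (∀ s ∈ S, s ∈ Rc M A E) ∧
    (∀ s ∈ S, ∀ t ∈ S, s ≠ t → (s - t)⁻¹ ∈ Rc M A E) ∧
    (∀ s ∈ S, s ≠ 0 → s⁻¹ ∈ Rc M A E) := by
  have hb' : IsCoprime (-b) (ℓ : ℤ) := hb.neg_left
  refine ⟨?_, ?_, ?_⟩
  · intro s hs
    rcases (hS s).1 hs with rfl | rfl
    · exact zero_mem _
    · exact intCast_mem_Rc M A E b
  · intro s hs t ht hst
    rcases (hS s).1 hs with rfl | rfl <;> rcases (hS t).1 ht with rfl | rfl
    · exact absurd rfl hst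
    · rw [zero_sub]
      have := inv_intCast_mem_Rc M A E hA (-b) hb'
      rwa [Int.cast_neg] at this
    · rw [sub_zero]
      exact inv_intCast_mem_Rc M A E hA b hb
    · exact absurd rfl hst
  · intro s hs hs0
    rcases (hS s).1 hs with rfl | rfl
    · exact absurd rfl hs0
    · exact inv_intCast_mem_Rc M A E hA b hb

/-- **S-fields** for an admissible coordinate (`ℓ` prime). -/
theorem field_S [NeZero M] {ℓ : ℕ} (hℓ : ℓ.Prime) (hA : A.LiesOverPrime ℓ) {x : Om M}
    {S : Finset (Om M)} (hx : IsCoordinate M ℓ x S) :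
    (∀ s ∈ S, s ∈ Rc M A E) ∧
    (∀ s ∈ S, ∀ t ∈ S, s ≠ t → (s - t)⁻¹ ∈ Rc M A E) ∧
    (∀ s ∈ S, s ≠ 0 → s⁻¹ ∈ Rc M A E) := by
  rcases hx with ⟨h5, -, hS⟩ | ⟨⟨h3, -, hS⟩ | ⟨h2, -, hS⟩, -⟩
  · refine S_fields_of_int M A E hA 1728 ?_ S (fun s => by rw [hS s]; norm_num)
    have h1728 : (1728 : ℤ) = 2 ^ 6 * 3 ^ 3 := by norm_num
    rw [h1728]
    have h2 : IsCoprime (2 : ℤ) (ℓ : ℤ) := by
      rw [Int.isCoprime_iff_gcd_eq_one]
      exact (Nat.coprime_primes Nat.prime_two hℓ).2 (by omega)
    have h3 : IsCoprime (3 : ℤ) (ℓ : ℤ) := by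
      rw [Int.isCoprime_iff_gcd_eq_one]
      exact (Nat.coprime_primes Nat.prime_three hℓ).2 (by omega)
    exact (h2.pow_left).mul_left (h3.pow_left)
  · subst h3
    refine S_fields_of_int M A E hA (-64) ?_ S (fun s => by rw [hS s]; norm_num)
    have h64 : (-64 : ℤ) = -(2 ^ 6) := by norm_num
    rw [h64]
    have h2 : IsCoprime (2 : ℤ) ((3 : ℕ) : ℤ) := by
      rw [Int.isCoprime_iff_gcd_eq_one]; decide
    exact (h2.pow_left).neg_left
  · subst h2
    refine S_fields_of_int M A E hA (-27) ?_ S (fun s => by rw [hS s]; norm_num)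
    have h27 : (-27 : ℤ) = -(3 ^ 3) := by norm_num
    rw [h27]
    have h3 : IsCoprime (3 : ℤ) ((2 : ℕ) : ℤ) := by
      rw [Int.isCoprime_iff_gcd_eq_one]; decide
    exact (h3.pow_left).neg_left

end Fermat.Agent.S18.H456

end
end
-- ===== PACK-END S18/H456/ModS.lean

-- ===== PACK-BEGIN S18/H456/ModR.lean
section



/-!
# S18 / MOD assembly (helper456): G-R — the fields `w_mem`, `w_ne_zero`, `w_inv_not_mem`, `w_gen`,
`w_discrete`, `residue_perfect` of `Alg.GoodModel` for `R = Rc M A E` (`E/ℚ` finite)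

Input: `H602.isDiscreteValuationRing_RE` (helper602, on main).
-/

set_option autoImplicit false

noncomputable section

namespace Fermat.Agent.S18.H456

open ModularCurve AlgebraicCurve HahnSeries Fermat.Agent.S18 Fermat.Agent.S18.Mod
open scoped NumberField

variable (M : ℕ) (A : ValuationSubring Qb) (E : IntermediateField ℚ Qb)

/-- The constant in `Ω` attached to an element of `R_E = A ∩ E`. -/
def cstR (r : H602.RE A E) : Om M := cst M ((r : E) : Qb)

theorem cstR_mem_Rc (r : H602.RE A E) : cstR M A E r ∈ Rc M A E :=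
  cst_mem_Rc M A E (H602.mem_RE.1 r.2) (r : E).2

theorem mem_Rc_iff_cstR {f : Om M} : f ∈ Rc M A E ↔ ∃ r : H602.RE A E, cstR M A E r = f := by
  constructor
  · intro hf
    obtain ⟨c, hA, hE, rfl⟩ := (mem_Rc_iff M A E).1 hf
    exact ⟨⟨⟨c, hE⟩, H602.mem_RE.2 hA⟩, rfl⟩
  · rintro ⟨r, rfl⟩
    exact cstR_mem_Rc M A E r

theorem cstR_injective : Function.Injective (cstR M A E) := by
  intro r s h
  have h1 : ((r : E) : Qb) = ((s : E) : Qb) := cst_injective M h
  exact Subtype.ext (Subtype.ext h1)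

theorem cstR_mul (r s : H602.RE A E) : cstR M A E (r * s) = cstR M A E r * cstR M A E s := by
  unfold cstR
  rw [← map_mul]
  rfl

theorem cstR_pow (r : H602.RE A E) (n : ℕ) : cstR M A E (r ^ n) = cstR M A E r ^ n := by
  unfold cstR
  rw [← map_pow]
  rfl

theorem cstR_sub (r s : H602.RE A E) : cstR M A E (r - s) = cstR M A E r - cstR M A E s := by
  unfold cstR
  rw [← map_sub]
  rfl

theorem cstR_one : cstR M A E 1 = 1 := by
  unfold cstR
  exact map_one _

theorem cstR_zero : cstR M A E 0 = 0 := by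
  unfold cstR
  exact map_zero _

theorem cstR_natCast (n : ℕ) : cstR M A E (n : H602.RE A E) = (n : Om M) := by
  unfold cstR
  show cst M (((n : H602.RE A E) : E) : Qb) = _
  have : (((n : H602.RE A E) : E) : Qb) = (n : Qb) := by simp
  rw [this]
  exact map_natCast _ n

theorem cstR_eq_zero_iff {r : H602.RE A E} : cstR M A E r = 0 ↔ r = 0 := by
  rw [← cstR_zero M A E]
  exact (cstR_injective M A E).eq_iff

/-- `cstR r` is invertible in `Rc` iff `r` is a unit. -/
theorem inv_cstR_mem_Rc_iff {r : H602.RE A E} (hr : r ≠ 0) :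
    (cstR M A E r)⁻¹ ∈ Rc M A E ↔ IsUnit r := by
  constructor
  · intro h
    obtain ⟨s, hs⟩ := (mem_Rc_iff_cstR M A E).1 h
    refine isUnit_iff_exists_inv.2 ⟨s, ?_⟩
    apply cstR_injective M A E
    rw [cstR_mul, hs, cstR_one]
    exact mul_inv_cancel₀ (fun h0 => hr ((cstR_eq_zero_iff M A E).1 h0))
  · intro h
    obtain ⟨s, hs⟩ := isUnit_iff_exists_inv.1 h
    have : (cstR M A E r)⁻¹ = cstR M A E s := by
      apply inv_eq_of_mul_eq_one_right
      rw [← cstR_mul, hs, cstR_one]
    rw [this]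
    exact cstR_mem_Rc M A E s

/-- `w` is (the image of) a uniformiser of `R_E`. -/
def IsUnif (w : Om M) : Prop := ∃ ϖ : H602.RE A E, Irreducible ϖ ∧ w = cstR M A E ϖ

variable {M A E}

theorem IsUnif.mem {w : Om M} (hw : IsUnif M A E w) : w ∈ Rc M A E := by
  obtain ⟨ϖ, -, rfl⟩ := hw
  exact cstR_mem_Rc M A E ϖ

theorem IsUnif.ne_zero {w : Om M} (hw : IsUnif M A E w) : w ≠ 0 := by
  obtain ⟨ϖ, hϖ, rfl⟩ := hw
  exact fun h => hϖ.ne_zero ((cstR_eq_zero_iff M A E).1 h)

theorem IsUnif.inv_not_mem {w : Om M} (hw : IsUnif M A E w) : w⁻¹ ∉ Rc M A E := by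
  obtain ⟨ϖ, hϖ, rfl⟩ := hw
  exact fun h => hϖ.not_isUnit ((inv_cstR_mem_Rc_iff M A E hϖ.ne_zero).1 h)

section DVR

variable [IsDiscreteValuationRing (H602.RE A E)]

theorem IsUnif.gen {w : Om M} (hw : IsUnif M A E w) :
    ∀ r ∈ Rc M A E, r⁻¹ ∉ Rc M A E → r * w⁻¹ ∈ Rc M A E := by
  obtain ⟨ϖ, hϖ, rfl⟩ := hw
  intro r hr hrinv
  obtain ⟨r₀, rfl⟩ := (mem_Rc_iff_cstR M A E).1 hr
  have hr0 : r₀ ≠ 0 := by
    rintro rfl
    rw [cstR_zero, inv_zero] at hrinv
    exact hrinv (zero_mem _)
  have hnu : ¬ IsUnit r₀ := fun h => hrinv ((inv_cstR_mem_Rc_iff M A E hr0).2 h)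
  have hmem : r₀ ∈ IsLocalRing.maximalIdeal (H602.RE A E) :=
    (IsLocalRing.mem_maximalIdeal _).2 hnu
  rw [hϖ.maximalIdeal_eq, Ideal.mem_span_singleton] at hmem
  obtain ⟨s, rfl⟩ := hmem
  rw [cstR_mul, mul_comm (cstR M A E ϖ), mul_assoc,
    mul_inv_cancel₀ (fun h => hϖ.ne_zero ((cstR_eq_zero_iff M A E).1 h)), mul_one]
  exact cstR_mem_Rc M A E s

theorem IsUnif.discrete {w : Om M} (hw : IsUnif M A E w) :
    ∀ r ∈ Rc M A E, r ≠ 0 →
      ∃ n : ℕ, r * (w⁻¹) ^ n ∈ Rc M A E ∧ (r * (w⁻¹) ^ n)⁻¹ ∈ Rc M A E := by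
  obtain ⟨ϖ, hϖ, rfl⟩ := hw
  intro r hr hr0
  obtain ⟨r₀, rfl⟩ := (mem_Rc_iff_cstR M A E).1 hr
  have hr0' : r₀ ≠ 0 := fun h => hr0 (by rw [h, cstR_zero])
  obtain ⟨n, u, hu⟩ := IsDiscreteValuationRing.eq_unit_mul_pow_irreducible hr0' hϖ
  have hw0 : cstR M A E ϖ ≠ 0 := fun h => hϖ.ne_zero ((cstR_eq_zero_iff M A E).1 h)
  have key : cstR M A E r₀ * ((cstR M A E ϖ)⁻¹) ^ n = cstR M A E (u : H602.RE A E) := by
    rw [hu, cstR_mul, cstR_pow, mul_assoc, inv_pow, mul_inv_cancel₀ (pow_ne_zero n hw0), mul_one]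
  refine ⟨n, ?_, ?_⟩
  · rw [key]
    exact cstR_mem_Rc M A E _
  · rw [key]
    exact (inv_cstR_mem_Rc_iff M A E u.ne_zero).2 u.isUnit

/-- Membership in the maximal ideal, in terms of `w`. -/
theorem IsUnif.mul_inv_mem_iff {w : Om M} (hw : IsUnif M A E w) (r : H602.RE A E) :
    cstR M A E r * w⁻¹ ∈ Rc M A E ↔ r ∈ IsLocalRing.maximalIdeal (H602.RE A E) := by
  obtain ⟨ϖ, hϖ, rfl⟩ := hw
  have hw0 : cstR M A E ϖ ≠ 0 := fun h => hϖ.ne_zero ((cstR_eq_zero_iff M A E).1 h)
  rw [hϖ.maximalIdeal_eq, Ideal.mem_span_singleton]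
  constructor
  · intro h
    obtain ⟨s, hs⟩ := (mem_Rc_iff_cstR M A E).1 h
    refine ⟨s, ?_⟩
    apply cstR_injective M A E
    rw [cstR_mul, hs, mul_comm, mul_assoc, inv_mul_cancel₀ hw0, mul_one]
  · rintro ⟨s, rfl⟩
    rw [cstR_mul, mul_comm (cstR M A E ϖ), mul_assoc, mul_inv_cancel₀ hw0, mul_one]
    exact cstR_mem_Rc M A E s

end DVR

variable (M A E)

theorem exists_isUnif [IsDiscreteValuationRing (H602.RE A E)] : ∃ w : Om M, IsUnif M A E w := by
  obtain ⟨ϖ, hϖ⟩ := IsDiscreteValuationRing.exists_irreducible (H602.RE A E)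
  exact ⟨cstR M A E ϖ, ϖ, hϖ, rfl⟩

end Fermat.Agent.S18.H456

end
end
-- ===== PACK-END S18/H456/ModR.lean

-- ===== PACK-BEGIN S18/H456/ModRes.lean
section


/-!
# S18 / MOD assembly (helper456): `residue_perfect` for `R = Rc M A E`
-/

set_option autoImplicit false

noncomputable section

namespace Fermat.Agent.S18.H456

open ModularCurve AlgebraicCurve HahnSeries Fermat.Agent.S18 Fermat.Agent.S18.Mod
open IsDedekindDomain
open scoped NumberField

variable (A : ValuationSubring Qb) (E : IntermediateField ℚ Qb)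

section NF

variable [NumberField E]

/-- `𝓞 E → κ_E`. -/
def toRes : 𝓞 E →+* IsLocalRing.ResidueField (H602.RE A E) :=
  (IsLocalRing.residue (H602.RE A E)).comp (H602.ofInt A E)

omit [NumberField E] in
theorem toRes_eq_zero_iff (a : 𝓞 E) : toRes A E a = 0 ↔ a ∈ H602.primeBelow A E := by
  unfold toRes
  rw [RingHom.comp_apply, IsLocalRing.residue_eq_zero_iff]
  rfl

theorem toRes_surjective {ℓ : ℕ} (hℓ : ℓ ≠ 0) (hA : (ℓ : Qb) ∈ A.nonunits) :
    Function.Surjective (toRes A E) := by
  intro x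
  obtain ⟨r, rfl⟩ := IsLocalRing.residue_surjective x
  have hr : (r : E) ∈ (H602.primeSpec A E hℓ hA).valuationSubringAtPrime E := by
    rw [H602.RE_eq_valuationSubringAtPrime A E hℓ hA]
    exact r.2
  obtain ⟨a, s, hs, hrs⟩ := hr
  -- `s` is invertible modulo the maximal ideal `P`
  have hPmax : (H602.primeBelow A E).IsMaximal :=
    Ideal.IsPrime.isMaximal inferInstance (H602.primeBelow_ne_bot A E hℓ hA)
  have hs' : s ∉ H602.primeBelow A E := hs
  obtain ⟨t, ht⟩ := Ideal.IsMaximal.exists_inv hPmax hs'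
  obtain ⟨u, hu, hstu⟩ := ht
  -- `s * t + u = 1`, hence `φ s * φ t = 1`
  have h1 : toRes A E s * toRes A E t = 1 := by
    have := congrArg (toRes A E) hstu
    rw [map_add, map_mul, (toRes_eq_zero_iff A E u).2 hu, add_zero, map_one] at this
    rwa [mul_comm] at this
  refine ⟨a * t, ?_⟩
  -- `r * s = a` in `R_E`
  have h2 : r * H602.ofInt A E s = H602.ofInt A E a := by
    apply Subtype.ext
    show (r : E) * algebraMap (𝓞 E) E s = algebraMap (𝓞 E) E a
    rw [hrs]
    have hs0 : algebraMap (𝓞 E) E s ≠ 0 := by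
      intro h0
      have : s = 0 := by
        apply FaithfulSMul.algebraMap_injective (𝓞 E) E
        rw [h0, map_zero]
      exact hs' (this ▸ Ideal.zero_mem _)
    rw [mul_assoc, inv_mul_cancel₀ hs0, mul_one]
  have h3 : IsLocalRing.residue (H602.RE A E) r * toRes A E s = toRes A E a := by
    have := congrArg (IsLocalRing.residue (H602.RE A E)) h2
    rwa [map_mul] at this
  rw [map_mul, ← h3, mul_assoc, h1, mul_one]

theorem finite_residueField {ℓ : ℕ} (hℓ : ℓ ≠ 0) (hA : (ℓ : Qb) ∈ A.nonunits) :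
    Finite (IsLocalRing.ResidueField (H602.RE A E)) := by
  have hP : H602.primeBelow A E ≠ ⊥ := H602.primeBelow_ne_bot A E hℓ hA
  have : Finite (𝓞 E ⧸ H602.primeBelow A E) := Ideal.finiteQuotientOfFreeOfNeBot _ hP
  let ψ : 𝓞 E ⧸ H602.primeBelow A E →+* IsLocalRing.ResidueField (H602.RE A E) :=
    Ideal.Quotient.lift _ (toRes A E) (fun a ha => (toRes_eq_zero_iff A E a).2 ha)
  have hψ : Function.Surjective ψ := by
    intro x
    obtain ⟨a, rfl⟩ := toRes_surjective A E hℓ hA x
    exact ⟨Ideal.Quotient.mk _ a, rfl⟩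
  exact Finite.of_surjective ψ hψ

end NF

/-- Frobenius is surjective on the residue field of `R_E` (`E/ℚ` finite). -/
theorem exists_pow_sub_mem_maximalIdeal [FiniteDimensional ℚ E] {ℓ : ℕ} (hℓ : ℓ.Prime)
    (hA : A.LiesOverPrime ℓ) (r : H602.RE A E) :
    ∃ s : H602.RE A E, r - s ^ ℓ ∈ IsLocalRing.maximalIdeal (H602.RE A E) := by
  have := H602.numberField_of_finiteDimensional E
  have : Finite (IsLocalRing.ResidueField (H602.RE A E)) :=
    finite_residueField A E hℓ.ne_zero hA
  have hℓ0 : ((ℓ : ℕ) : IsLocalRing.ResidueField (H602.RE A E)) = 0 := by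
    rw [← map_natCast (IsLocalRing.residue (H602.RE A E)), IsLocalRing.residue_eq_zero_iff,
      IsLocalRing.mem_maximalIdeal, mem_nonunits_iff]
    exact H602.natCast_not_isUnit_RE A E hA
  have : Fact ℓ.Prime := ⟨hℓ⟩
  have : CharP (IsLocalRing.ResidueField (H602.RE A E)) ℓ :=
    (CharP.charP_iff_prime_eq_zero hℓ).2 hℓ0
  have : PerfectRing (IsLocalRing.ResidueField (H602.RE A E)) ℓ :=
    PerfectRing.ofFiniteOfIsReduced ℓ _
  obtain ⟨y, hy⟩ := surjective_frobenius (IsLocalRing.ResidueField (H602.RE A E)) ℓ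
    (IsLocalRing.residue _ r)
  obtain ⟨s, rfl⟩ := IsLocalRing.residue_surjective y
  refine ⟨s, ?_⟩
  rw [← IsLocalRing.residue_eq_zero_iff, map_sub, map_pow, sub_eq_zero]
  exact hy.symm

variable (M : ℕ)

/-- **`residue_perfect`** for `R = Rc M A E`. -/
theorem field_residue_perfect [FiniteDimensional ℚ E] {ℓ : ℕ} (hℓ : ℓ.Prime)
    (hA : A.LiesOverPrime ℓ) {w : Om M} (hw : IsUnif M A E w) :
    ∃ p : ℕ, p.Prime ∧ (p : Om M) * w⁻¹ ∈ Rc M A E ∧
      ∀ r ∈ Rc M A E, ∃ s ∈ Rc M A E, (r - s ^ p) * w⁻¹ ∈ Rc M A E := by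
  have : IsDiscreteValuationRing (H602.RE A E) :=
    H602.isDiscreteValuationRing_RE A E hℓ.ne_zero hA
  refine ⟨ℓ, hℓ, ?_, ?_⟩
  · rw [← cstR_natCast M A E, hw.mul_inv_mem_iff, IsLocalRing.mem_maximalIdeal, mem_nonunits_iff]
    exact H602.natCast_not_isUnit_RE A E hA
  · intro r hr
    obtain ⟨r₀, rfl⟩ := (mem_Rc_iff_cstR M A E).1 hr
    obtain ⟨s, hs⟩ := exists_pow_sub_mem_maximalIdeal A E hℓ hA r₀
    refine ⟨cstR M A E s, cstR_mem_Rc M A E s, ?_⟩
    rw [← cstR_pow, ← cstR_sub, hw.mul_inv_mem_iff]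
    exact hs

end Fermat.Agent.S18.H456

end
end
-- ===== PACK-END S18/H456/ModRes.lean

-- ===== PACK-BEGIN S18/H24/GaussA.lean
section


/-!
# S18 / MOD-ASM, piece G-V (helper24) — part A: integral series and the Gauss valuation ring

Concrete objects of `S18/Mod/Defs.lean`.  `inc = coeffMap A.subtype : A((q)) → Q̄((q))`,
`red = coeffMap (residue A) : A((q)) → κ((q))`.

* `isIntE_iff`                 : `IsIntE M A E U ↔ ∃ f ∈ Fc M E, f = inc U`;
* `IsIntE.add/mul/neg/...`     : integral series form a ring;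
* `Vc M A E : Subring (Om M)`  : the Gauss valuation ring, with carrier `VcSet M A E`
  (`coe_Vc`);
* fields `V_le`, `R_le_V`, `w_inv_not_mem_V` of `Alg.GoodModel`.
-/

set_option autoImplicit false

noncomputable section

namespace Fermat.Agent.S18.H24

open ModularCurve AlgebraicCurve HahnSeries Fermat.Agent.S18 Fermat.Agent.S18.Mod
open Fermat.Agent.S18.H456

variable (M : ℕ) (A : ValuationSubring Qb) (E : IntermediateField ℚ Qb)

/-- `A((q)) → Q̄((q))`. -/
abbrev inc : LaurentSeries A →+* LaurentSeries Qb := coeffMap A.subtype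

/-- `A((q)) → κ((q))`. -/
abbrev red : LaurentSeries A →+* LaurentSeries (IsLocalRing.ResidueField A) :=
  coeffMap (IsLocalRing.residue A)

variable {A} in
theorem inc_injective : Function.Injective (inc A) := by
  intro x y hxy
  ext k
  have := congrArg (fun z => z.coeff k) hxy
  simpa using this

variable {A} in
theorem inc_coeff (U : LaurentSeries A) (n : ℤ) : (inc A U).coeff n = (U.coeff n : Qb) := by
  rw [coeffMap_coeff]; rfl

variable {A} in
theorem red_coeff (U : LaurentSeries A) (n : ℤ) :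
    (red A U).coeff n = IsLocalRing.residue A (U.coeff n) := by
  rw [coeffMap_coeff]

variable {A} in
/-- A series over `Q̄` with coefficients in `A` comes from `A((q))`. -/
theorem exists_inc_eq {g : LaurentSeries Qb} (hg : ∀ n, g.coeff n ∈ A) :
    ∃ U : LaurentSeries A, inc A U = g := by
  have hsupp : (Function.support fun n => (⟨g.coeff n, hg n⟩ : A)) = g.support := by
    ext n
    simp only [Function.mem_support, HahnSeries.mem_support, ne_eq]
    constructor
    · intro h h0
      exact h (Subtype.ext h0)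
    · intro h h0
      exact h (congrArg Subtype.val h0)
  refine ⟨⟨fun n => ⟨g.coeff n, hg n⟩, ?_⟩, ?_⟩
  · rw [hsupp]; exact g.isPWO_support
  · ext n
    rw [inc_coeff]

variable {A} in
theorem red_eq_zero_iff (U : LaurentSeries A) :
    red A U = 0 ↔ ∀ n, U.coeff n ∈ IsLocalRing.maximalIdeal A := by
  constructor
  · intro h n
    have := congrArg (fun z => z.coeff n) h
    simp only [red_coeff, HahnSeries.coeff_zero] at this
    exact (IsLocalRing.residue_eq_zero_iff _).mp this
  · intro h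
    ext n
    rw [red_coeff, HahnSeries.coeff_zero]
    exact (IsLocalRing.residue_eq_zero_iff _).mpr (h n)

variable {A} in
/-- an element of `A` is in the maximal ideal iff it is `0` or its inverse is not in `A`. -/
theorem mem_maximalIdeal_iff (c : A) :
    c ∈ IsLocalRing.maximalIdeal A ↔ (c : Qb) = 0 ∨ (c : Qb)⁻¹ ∉ A := by
  rw [IsLocalRing.mem_maximalIdeal, mem_nonunits_iff]
  constructor
  · intro h
    by_contra hcon
    rw [not_or, not_not] at hcon
    apply h
    exact isUnit_iff_exists_inv.mpr ⟨⟨(c : Qb)⁻¹, hcon.2⟩, Subtype.ext (by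
      show (c : Qb) * (c : Qb)⁻¹ = 1
      exact mul_inv_cancel₀ hcon.1)⟩
  · rintro (h | h) hu
    · have : c = 0 := Subtype.ext h
      rw [this] at hu
      exact not_isUnit_zero hu
    · obtain ⟨d, hd⟩ := isUnit_iff_exists_inv.mp hu
      apply h
      have h1 : (c : Qb) * (d : Qb) = 1 := congrArg Subtype.val hd
      have : (c : Qb)⁻¹ = d := inv_eq_of_mul_eq_one_right h1
      rw [this]; exact d.2

/-! ### Integral series -/

theorem isIntE_iff {U : LaurentSeries A} :
    IsIntE M A E U ↔ ∃ f ∈ Fc M E, (f : LaurentSeries Qb) = inc A U := by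
  constructor
  · exact fun h => h.2
  · rintro ⟨f, hf, hfU⟩
    refine ⟨fun n => ?_, f, hf, hfU⟩
    have := coeff_mem_of_mem_Fc M E hf n
    rw [hfU, inc_coeff] at this
    exact this

variable {M A E}

theorem isIntE_zero : IsIntE M A E 0 :=
  (isIntE_iff M A E).mpr ⟨0, zero_mem _, by simp⟩

theorem isIntE_one : IsIntE M A E 1 :=
  (isIntE_iff M A E).mpr ⟨1, one_mem _, by simp⟩

theorem IsIntE.add {U U' : LaurentSeries A} (h : IsIntE M A E U) (h' : IsIntE M A E U') :
    IsIntE M A E (U + U') := by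
  obtain ⟨f, hf, hfU⟩ := (isIntE_iff M A E).mp h
  obtain ⟨f', hf', hfU'⟩ := (isIntE_iff M A E).mp h'
  exact (isIntE_iff M A E).mpr ⟨f + f', add_mem hf hf', by
    rw [map_add, ← hfU, ← hfU']; rfl⟩

theorem IsIntE.mul {U U' : LaurentSeries A} (h : IsIntE M A E U) (h' : IsIntE M A E U') :
    IsIntE M A E (U * U') := by
  obtain ⟨f, hf, hfU⟩ := (isIntE_iff M A E).mp h
  obtain ⟨f', hf', hfU'⟩ := (isIntE_iff M A E).mp h'
  exact (isIntE_iff M A E).mpr ⟨f * f', mul_mem hf hf', by
    rw [map_mul, ← hfU, ← hfU']; rfl⟩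

theorem IsIntE.neg {U : LaurentSeries A} (h : IsIntE M A E U) : IsIntE M A E (-U) := by
  obtain ⟨f, hf, hfU⟩ := (isIntE_iff M A E).mp h
  exact (isIntE_iff M A E).mpr ⟨-f, neg_mem hf, by
    rw [map_neg, ← hfU]; rfl⟩

theorem IsIntE.pow {U : LaurentSeries A} (h : IsIntE M A E U) (n : ℕ) : IsIntE M A E (U ^ n) := by
  induction n with
  | zero => rw [pow_zero]; exact isIntE_one
  | succ n ih => rw [pow_succ]; exact IsIntE.mul ih h

/-- A constant `c ∈ A ∩ E` as an integral series. -/
theorem isIntE_C {c : A} (hc : (c : Qb) ∈ E) : IsIntE M A E (HahnSeries.C c) := by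
  refine (isIntE_iff M A E).mpr ⟨cst M (c : Qb), field_E_le_F M E (cst_mem_Ec M E hc), ?_⟩
  rw [val_cst]
  ext n
  rw [inc_coeff]
  by_cases hn : n = 0
  · subst hn
    simp [HahnSeries.C_apply]
  · rw [HahnSeries.coeff_single_of_ne hn]
    have : (HahnSeries.C c : LaurentSeries A).coeff n = 0 := by
      rw [HahnSeries.C_apply, HahnSeries.coeff_single_of_ne hn]
    rw [this]; rfl

theorem inc_C (c : A) : inc A (HahnSeries.C c) = HahnSeries.C (c : Qb) := by
  ext n
  rw [inc_coeff]
  by_cases hn : n = 0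
  · subst hn
    simp [HahnSeries.C_apply]
  · rw [HahnSeries.C_apply, HahnSeries.C_apply, HahnSeries.coeff_single_of_ne hn,
      HahnSeries.coeff_single_of_ne hn]
    rfl

theorem red_C (c : A) : red A (HahnSeries.C c) = HahnSeries.C (IsLocalRing.residue A c) := by
  ext n
  rw [red_coeff]
  by_cases hn : n = 0
  · subst hn
    simp [HahnSeries.C_apply]
  · rw [HahnSeries.C_apply, HahnSeries.C_apply, HahnSeries.coeff_single_of_ne hn,
      HahnSeries.coeff_single_of_ne hn, map_zero]

/-! ### The Gauss valuation ring -/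

theorem mem_VcSet_iff {f : Om M} :
    f ∈ VcSet M A E ↔ f ∈ Fc M E ∧ ∃ U₁ U₂ : LaurentSeries A, IsIntE M A E U₁ ∧ IsIntE M A E U₂ ∧
      red A U₂ ≠ 0 ∧ (f : LaurentSeries Qb) * inc A U₂ = inc A U₁ := Iff.rfl

/-- An integral series defines an element of `V`. -/
theorem mem_VcSet_of_isIntE {f : Om M} {U : LaurentSeries A} (hU : IsIntE M A E U)
    (hf : (f : LaurentSeries Qb) = inc A U) : f ∈ VcSet M A E := by
  obtain ⟨g, hg, hgU⟩ := (isIntE_iff M A E).mp hU
  have hfg : f = g := Subtype.ext (by rw [hf, hgU])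
  refine ⟨hfg ▸ hg, U, 1, hU, isIntE_one, ?_, ?_⟩
  · rw [map_one]; exact one_ne_zero
  · rw [map_one, mul_one, hf]

variable (M A E) in
/-- The Gauss valuation ring `V` of `Fc`, as a subring of `Ω`. -/
def Vc : Subring (Om M) where
  carrier := VcSet M A E
  zero_mem' := mem_VcSet_of_isIntE isIntE_zero (by simp)
  one_mem' := mem_VcSet_of_isIntE isIntE_one (by simp)
  add_mem' := by
    rintro f g ⟨hf, U₁, U₂, h₁, h₂, hr, hfU⟩ ⟨hg, W₁, W₂, k₁, k₂, kr, hgW⟩
    refine ⟨add_mem hf hg, U₁ * W₂ + W₁ * U₂, U₂ * W₂, IsIntE.add (IsIntE.mul h₁ k₂) (IsIntE.mul k₁ h₂), IsIntE.mul h₂ k₂,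
      ?_, ?_⟩
    · rw [map_mul]; exact mul_ne_zero hr kr
    · show ((f : LaurentSeries Qb) + (g : LaurentSeries Qb)) * inc A (U₂ * W₂) = _
      rw [map_mul, map_add, map_mul, map_mul, ← hfU, ← hgW]
      ring
  mul_mem' := by
    rintro f g ⟨hf, U₁, U₂, h₁, h₂, hr, hfU⟩ ⟨hg, W₁, W₂, k₁, k₂, kr, hgW⟩
    refine ⟨mul_mem hf hg, U₁ * W₁, U₂ * W₂, IsIntE.mul h₁ k₁, IsIntE.mul h₂ k₂, ?_, ?_⟩
    · rw [map_mul]; exact mul_ne_zero hr kr
    · show ((f : LaurentSeries Qb) * (g : LaurentSeries Qb)) * inc A (U₂ * W₂) = _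
      rw [map_mul, map_mul, ← hfU, ← hgW]
      ring
  neg_mem' := by
    rintro f ⟨hf, U₁, U₂, h₁, h₂, hr, hfU⟩
    refine ⟨neg_mem hf, -U₁, U₂, IsIntE.neg h₁, h₂, hr, ?_⟩
    show (-(f : LaurentSeries Qb)) * inc A U₂ = _
    rw [map_neg, ← hfU]
    ring

variable (M A E) in
theorem coe_Vc : (Vc M A E : Set (Om M)) = VcSet M A E := rfl

theorem mem_Vc_iff {f : Om M} : f ∈ Vc M A E ↔ f ∈ VcSet M A E := Iff.rfl

variable (M A E) in
/-- field `V_le`. -/
theorem field_V_le : (Vc M A E : Set (Om M)) ⊆ Fc M E := fun _ hf => hf.1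

variable (M A E) in
/-- field `R_le_V`. -/
theorem field_R_le_V : Rc M A E ≤ Vc M A E := by
  intro r hr
  obtain ⟨c, hcA, hcE, rfl⟩ := (mem_Rc_iff M A E).mp hr
  refine mem_VcSet_of_isIntE (U := HahnSeries.C (⟨c, hcA⟩ : A)) (isIntE_C hcE) ?_
  rw [val_cst, inc_C]
  rfl

/-- field `w_inv_not_mem_V`: a non-unit `w₀ ≠ 0` of `A` is not invertible in `V`. -/
theorem field_w_inv_not_mem_V {w₀ : Qb} (hw0 : w₀ ≠ 0) (hwn : w₀⁻¹ ∉ A) :
    (cst M w₀)⁻¹ ∉ Vc M A E := by
  rintro ⟨-, U₁, U₂, -, -, hr, hU⟩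
  apply hr
  rw [red_eq_zero_iff]
  intro n
  rw [mem_maximalIdeal_iff]
  have hval : (((cst M w₀)⁻¹ : Om M) : LaurentSeries Qb) = HahnSeries.C (w₀⁻¹) := by
    rw [← map_inv₀]
    exact val_cst M _
  rw [hval] at hU
  have hn := congrArg (fun z => z.coeff n) hU
  simp only [HahnSeries.C_mul_eq_smul, HahnSeries.coeff_smul, inc_coeff, smul_eq_mul] at hn
  by_cases h0 : ((U₂.coeff n : A) : Qb) = 0
  · exact Or.inl h0
  · right
    intro hinv
    apply hwn
    have : w₀⁻¹ = (U₁.coeff n : Qb) * ((U₂.coeff n : A) : Qb)⁻¹ := by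
      rw [← hn]; field_simp
    rw [this]
    exact A.mul_mem _ _ (U₁.coeff n).2 hinv

end Fermat.Agent.S18.H24

end
end
-- ===== PACK-END S18/H24/GaussA.lean

-- ===== PACK-BEGIN S18/H24/GaussB.lean
section


/-!
# S18 / MOD-ASM, piece G-V (helper24) — part B: `V_gen`, primitive parts, `V_total`

`IsUnif A E w₀` : `w₀` is a uniformiser of the discrete valuation ring `A ∩ E` (element-wise form,
to be supplied by G-R).  With `w = cst M w₀`:

* `field_V_gen`          : `f ∈ V`, `f⁻¹ ∉ V` ⟹ `f/w ∈ V`;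
* `exists_primitive`     : a nonzero integral series is `w₀^a ·` (integral series with nonzero
                           reduction);
* `exists_gauss_form`    : every `f ≠ 0` in `Fc` is `w^n · U₁/U₂` with `U₁, U₂` integral of nonzero
                           reduction;
* `field_V_total`        : `f ∈ V ∨ f⁻¹ ∈ V` for `f ∈ Fc`.
-/

set_option autoImplicit false

noncomputable section

namespace Fermat.Agent.S18.H24

open ModularCurve AlgebraicCurve HahnSeries Fermat.Agent.S18 Fermat.Agent.S18.Mod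
open Fermat.Agent.S18.H456

/-- `w₀` is a uniformiser of the discrete valuation ring `A ∩ E`. -/
structure IsUnif (A : ValuationSubring Qb) (E : IntermediateField ℚ Qb) (w₀ : Qb) : Prop where
  mem_A : w₀ ∈ A
  mem_E : w₀ ∈ E
  ne_zero : w₀ ≠ 0
  inv_not_mem : w₀⁻¹ ∉ A
  gen : ∀ c, c ∈ A → c ∈ E → c⁻¹ ∉ A → c * w₀⁻¹ ∈ A
  discrete : ∀ c, c ∈ A → c ∈ E → c ≠ 0 →
    ∃ n : ℕ, c * (w₀⁻¹) ^ n ∈ A ∧ (c * (w₀⁻¹) ^ n)⁻¹ ∈ A

variable {M : ℕ} {A : ValuationSubring Qb} {E : IntermediateField ℚ Qb}

theorem val_inv (f : Om M) : ((f⁻¹ : Om M) : LaurentSeries Qb) = (f : LaurentSeries Qb)⁻¹ := rfl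

theorem val_mul (f g : Om M) :
    ((f * g : Om M) : LaurentSeries Qb) = (f : LaurentSeries Qb) * (g : LaurentSeries Qb) := rfl

theorem val_cst' (c : Qb) : ((cst M c : Om M) : LaurentSeries Qb) = HahnSeries.C c := by
  rw [val_cst]; rfl

theorem val_eq_zero_iff {f : Om M} : (f : LaurentSeries Qb) = 0 ↔ f = 0 :=
  ⟨fun h => Subtype.ext h, fun h => by rw [h]; rfl⟩

theorem red_ne_zero_imp_inc_ne_zero {U : LaurentSeries A} (h : red A U ≠ 0) : inc A U ≠ 0 := by
  intro h0
  apply h
  have : U = 0 := inc_injective (by rw [h0, map_zero])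
  rw [this, map_zero]

/-- Dividing an integral series with zero reduction by the uniformiser. -/
theorem exists_div_unif {w₀ : Qb} (hw : _root_.Fermat.Agent.S18.H24.IsUnif A E w₀) {U : LaurentSeries A}
    (hU : IsIntE M A E U) (hred : red A U = 0) :
    ∃ U' : LaurentSeries A, IsIntE M A E U' ∧ inc A U' = HahnSeries.C (w₀⁻¹) * inc A U := by
  have hcoef : ∀ n, (HahnSeries.C (w₀⁻¹) * inc A U).coeff n ∈ A := by
    intro n
    rw [HahnSeries.C_mul_eq_smul, HahnSeries.coeff_smul, inc_coeff, smul_eq_mul, mul_comm]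
    have hm := (red_eq_zero_iff U).mp hred n
    rcases (mem_maximalIdeal_iff _).mp hm with h0 | hni
    · rw [h0, zero_mul]; exact A.zero_mem
    · exact hw.gen _ (U.coeff n).2 (hU.1 n) hni
  obtain ⟨U', hU'⟩ := exists_inc_eq hcoef
  refine ⟨U', ?_, hU'⟩
  obtain ⟨f, hf, hfU⟩ := hU.2
  refine (isIntE_iff M A E).mpr ⟨(cst M w₀)⁻¹ * f, ?_, ?_⟩
  · exact mul_mem (inv_mem (field_E_le_F M E (cst_mem_Ec M E hw.mem_E))) hf
  · rw [hU', val_mul, val_inv, val_cst', hfU, ← map_inv₀]

variable (M) in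
/-- field `V_gen`. -/
theorem field_V_gen {w₀ : Qb} (hw : _root_.Fermat.Agent.S18.H24.IsUnif A E w₀) :
    ∀ f ∈ Vc M A E, f⁻¹ ∉ Vc M A E → f * (cst M w₀)⁻¹ ∈ Vc M A E := by
  rintro f ⟨hfF, U₁, U₂, h₁, h₂, hr, hfU⟩ hfinv
  have hf0 : f ≠ 0 := by
    rintro rfl
    rw [inv_zero] at hfinv
    exact hfinv (zero_mem _)
  have hfv0 : (f : LaurentSeries Qb) ≠ 0 := fun h => hf0 (val_eq_zero_iff.mp h)
  have hred : red A U₁ = 0 := by
    by_contra hne
    apply hfinv
    refine ⟨inv_mem hfF, U₂, U₁, h₂, h₁, hne, ?_⟩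
    rw [val_inv, ← hfU]
    field_simp
  obtain ⟨U', hU', hU'eq⟩ := exists_div_unif hw h₁ hred
  refine ⟨mul_mem hfF (inv_mem (field_E_le_F M E (cst_mem_Ec M E hw.mem_E))), U', U₂, hU', h₂, hr,
    ?_⟩
  rw [hU'eq, val_mul, val_inv, val_cst', ← hfU, ← map_inv₀]
  ring

/-! ### Primitive parts -/

theorem unit_mul_pow_mem {w₀ : Qb} (hw : _root_.Fermat.Agent.S18.H24.IsUnif A E w₀) {c : Qb} {k a : ℕ} (hak : a ≤ k)
    (hc : c * (w₀⁻¹) ^ k ∈ A) : c * (w₀⁻¹) ^ a ∈ A := by
  obtain ⟨d, rfl⟩ := Nat.exists_eq_add_of_le hak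
  have : c * (w₀⁻¹) ^ a = c * (w₀⁻¹) ^ (a + d) * w₀ ^ d := by
    rw [_root_.pow_add, inv_pow, inv_pow]
    have := hw.ne_zero
    field_simp
  rw [this]
  exact A.mul_mem _ _ hc (pow_mem hw.mem_A d)

/-- A nonzero integral series is a power of the uniformiser times an integral series with
nonzero reduction. -/
theorem exists_primitive {w₀ : Qb} (hw : _root_.Fermat.Agent.S18.H24.IsUnif A E w₀) {U : LaurentSeries A}
    (hU : IsIntE M A E U) (hU0 : U ≠ 0) :
    ∃ (a : ℕ) (U₀ : LaurentSeries A), IsIntE M A E U₀ ∧ red A U₀ ≠ 0 ∧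
      inc A U = HahnSeries.C (w₀ ^ a) * inc A U₀ := by
  classical
  -- the set of valuations of nonzero coefficients
  have hex : ∃ k : ℕ, ∃ n : ℤ, U.coeff n ≠ 0 ∧ (U.coeff n : Qb) * (w₀⁻¹) ^ k ∈ A ∧
      ((U.coeff n : Qb) * (w₀⁻¹) ^ k)⁻¹ ∈ A := by
    obtain ⟨n, hn⟩ : ∃ n, U.coeff n ≠ 0 := by
      by_contra h
      push Not at h
      exact hU0 (HahnSeries.ext (funext h))
    have hn' : (U.coeff n : Qb) ≠ 0 := fun h => hn (Subtype.ext h)
    obtain ⟨k, hk1, hk2⟩ := hw.discrete _ (U.coeff n).2 (hU.1 n) hn'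
    exact ⟨k, n, hn, hk1, hk2⟩
  set a := Nat.find hex with ha
  obtain ⟨n₀, hn₀, hn₀1, hn₀2⟩ := Nat.find_spec hex
  have hmin : ∀ k, (∃ n : ℤ, U.coeff n ≠ 0 ∧ (U.coeff n : Qb) * (w₀⁻¹) ^ k ∈ A ∧
      ((U.coeff n : Qb) * (w₀⁻¹) ^ k)⁻¹ ∈ A) → a ≤ k := fun k hk => Nat.find_min' hex hk
  have hcoef : ∀ n, (HahnSeries.C ((w₀⁻¹) ^ a) * inc A U).coeff n ∈ A := by
    intro n
    rw [HahnSeries.C_mul_eq_smul, HahnSeries.coeff_smul, inc_coeff, smul_eq_mul, mul_comm]
    by_cases hn : U.coeff n = 0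
    · rw [hn]; simp
    · have hn' : (U.coeff n : Qb) ≠ 0 := fun h => hn (Subtype.ext h)
      obtain ⟨k, hk1, hk2⟩ := hw.discrete _ (U.coeff n).2 (hU.1 n) hn'
      exact unit_mul_pow_mem hw (hmin k ⟨n, hn, hk1, hk2⟩) hk1
  obtain ⟨U₀, hU₀⟩ := exists_inc_eq hcoef
  have hw0 := hw.ne_zero
  refine ⟨a, U₀, ?_, ?_, ?_⟩
  · obtain ⟨f, hf, hfU⟩ := hU.2
    refine (isIntE_iff M A E).mpr ⟨((cst M w₀)⁻¹) ^ a * f, ?_, ?_⟩
    · exact mul_mem (pow_mem (inv_mem (field_E_le_F M E (cst_mem_Ec M E hw.mem_E))) _) hf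
    · rw [hU₀, val_mul, hfU]
      congr 1
      show (((cst M w₀)⁻¹ ^ a : Om M) : LaurentSeries Qb) = _
      rw [← map_inv₀, ← map_pow]
      exact val_cst' _
  · intro hred
    have hm := (red_eq_zero_iff U₀).mp hred n₀
    rcases (mem_maximalIdeal_iff _).mp hm with h0 | hni
    · have h1 : ((U₀.coeff n₀ : A) : Qb) = (U.coeff n₀ : Qb) * (w₀⁻¹) ^ a := by
        rw [← inc_coeff, hU₀, HahnSeries.C_mul_eq_smul, HahnSeries.coeff_smul, inc_coeff,
          smul_eq_mul, mul_comm]
      rw [h1] at h0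
      have hn₀' : (U.coeff n₀ : Qb) ≠ 0 := fun h => hn₀ (Subtype.ext h)
      exact mul_ne_zero hn₀' (pow_ne_zero _ (inv_ne_zero hw0)) h0
    · apply hni
      have h1 : ((U₀.coeff n₀ : A) : Qb) = (U.coeff n₀ : Qb) * (w₀⁻¹) ^ a := by
        rw [← inc_coeff, hU₀, HahnSeries.C_mul_eq_smul, HahnSeries.coeff_smul, inc_coeff,
          smul_eq_mul, mul_comm]
      rw [h1]
      exact hn₀2
  · rw [hU₀, ← mul_assoc, ← map_mul, inv_pow, mul_inv_cancel₀ (pow_ne_zero _ hw0), map_one,
      one_mul]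

/-! ### The Gauss normal form -/

/-- `f = w^n · U₁ / U₂` with integral `U₁, U₂` of nonzero reduction. -/
def GaussForm (M : ℕ) (A : ValuationSubring Qb) (E : IntermediateField ℚ Qb) (w₀ : Qb)
    (f : Om M) : Prop :=
  ∃ (n : ℤ) (U₁ U₂ : LaurentSeries A), IsIntE M A E U₁ ∧ IsIntE M A E U₂ ∧
    red A U₁ ≠ 0 ∧ red A U₂ ≠ 0 ∧
    (f : LaurentSeries Qb) * inc A U₂ = HahnSeries.C w₀ ^ n * inc A U₁

theorem GaussForm.ne_zero {w₀ : Qb} (hw0 : w₀ ≠ 0) {f : Om M} (h : GaussForm M A E w₀ f) :
    f ≠ 0 := by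
  rintro rfl
  obtain ⟨n, U₁, U₂, -, -, hr₁, -, heq⟩ := h
  have h1 : (HahnSeries.C w₀ : LaurentSeries Qb) ≠ 0 := by
    intro h
    exact hw0 (HahnSeries.C_injective (by rw [h, map_zero]))
  have : HahnSeries.C w₀ ^ n * inc A U₁ = 0 := by
    rw [← heq]
    show (0 : LaurentSeries Qb) * _ = 0
    rw [zero_mul]
  rcases mul_eq_zero.mp this with h | h
  · exact zpow_ne_zero n h1 h
  · exact red_ne_zero_imp_inc_ne_zero hr₁ h

theorem C_ne_zero' {w₀ : Qb} (hw0 : w₀ ≠ 0) : (HahnSeries.C w₀ : LaurentSeries Qb) ≠ 0 := by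
  intro h
  exact hw0 (HahnSeries.C_injective (by rw [h, map_zero]))

theorem GaussForm.inv {w₀ : Qb} (hw0 : w₀ ≠ 0) {f : Om M} (h : GaussForm M A E w₀ f) :
    GaussForm M A E w₀ f⁻¹ := by
  have hf0 := h.ne_zero hw0
  obtain ⟨n, U₁, U₂, h₁, h₂, hr₁, hr₂, heq⟩ := h
  refine ⟨-n, U₂, U₁, h₂, h₁, hr₂, hr₁, ?_⟩
  have hfv0 : (f : LaurentSeries Qb) ≠ 0 := fun h => hf0 (val_eq_zero_iff.mp h)
  have hC := C_ne_zero' hw0
  have hCn : (HahnSeries.C w₀ : LaurentSeries Qb) ^ n ≠ 0 := zpow_ne_zero n hC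
  rw [val_inv, zpow_neg]
  have h1 : inc A U₁ = (HahnSeries.C w₀ ^ n)⁻¹ * ((f : LaurentSeries Qb) * inc A U₂) := by
    rw [heq, ← mul_assoc, inv_mul_cancel₀ hCn, one_mul]
  rw [h1]
  field_simp

theorem GaussForm.mul {w₀ : Qb} (hw0 : w₀ ≠ 0) {f g : Om M} (hf : GaussForm M A E w₀ f)
    (hg : GaussForm M A E w₀ g) : GaussForm M A E w₀ (f * g) := by
  obtain ⟨n, U₁, U₂, h₁, h₂, hr₁, hr₂, heq⟩ := hf
  obtain ⟨n', W₁, W₂, k₁, k₂, kr₁, kr₂, heq'⟩ := hg
  refine ⟨n + n', U₁ * W₁, U₂ * W₂, IsIntE.mul h₁ k₁, IsIntE.mul h₂ k₂, ?_, ?_, ?_⟩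
  · rw [map_mul]; exact mul_ne_zero hr₁ kr₁
  · rw [map_mul]; exact mul_ne_zero hr₂ kr₂
  · rw [val_mul, map_mul, map_mul, zpow_add₀ (C_ne_zero' hw0)]
    calc (f : LaurentSeries Qb) * (g : LaurentSeries Qb) * (inc A U₂ * inc A W₂)
        = ((f : LaurentSeries Qb) * inc A U₂) * ((g : LaurentSeries Qb) * inc A W₂) := by ring
      _ = _ := by rw [heq, heq']; ring

theorem GaussForm.neg {w₀ : Qb} {f : Om M} (hf : GaussForm M A E w₀ f) :
    GaussForm M A E w₀ (-f) := by
  obtain ⟨n, U₁, U₂, h₁, h₂, hr₁, hr₂, heq⟩ := hf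
  refine ⟨n, -U₁, U₂, IsIntE.neg h₁, h₂, ?_, hr₂, ?_⟩
  · rw [map_neg]; exact neg_ne_zero.mpr hr₁
  · show (-(f : LaurentSeries Qb)) * inc A U₂ = _
    rw [map_neg, neg_mul, heq, mul_neg]

/-- The sum of two Gauss forms (with `n ≤ n'`) is `0` or a Gauss form. -/
theorem GaussForm.add_aux {w₀ : Qb} (hw : _root_.Fermat.Agent.S18.H24.IsUnif A E w₀) {f g : Om M} {n : ℤ} {d : ℕ}
    {U₁ U₂ W₁ W₂ : LaurentSeries A}
    (h₁ : IsIntE M A E U₁) (h₂ : IsIntE M A E U₂) (hr₂ : red A U₂ ≠ 0)
    (heq : (f : LaurentSeries Qb) * inc A U₂ = HahnSeries.C w₀ ^ n * inc A U₁)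
    (k₁ : IsIntE M A E W₁) (k₂ : IsIntE M A E W₂) (kr₂ : red A W₂ ≠ 0)
    (heq' : (g : LaurentSeries Qb) * inc A W₂ = HahnSeries.C w₀ ^ (n + d) * inc A W₁) :
    f + g = 0 ∨ GaussForm M A E w₀ (f + g) := by
  have hw0 := hw.ne_zero
  have hC := C_ne_zero' hw0
  -- the numerator
  set Nn : LaurentSeries A := U₁ * W₂ + HahnSeries.C (⟨w₀, hw.mem_A⟩ ^ d : A) * W₁ * U₂ with hNn
  have hNint : IsIntE M A E Nn := by
    refine IsIntE.add (IsIntE.mul h₁ k₂) (IsIntE.mul (IsIntE.mul ?_ k₁) h₂)
    refine isIntE_C ?_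
    show ((⟨w₀, hw.mem_A⟩ ^ d : A) : Qb) ∈ E
    rw [SubmonoidClass.coe_pow]
    exact pow_mem hw.mem_E d
  have hincN : inc A Nn = inc A U₁ * inc A W₂ + HahnSeries.C w₀ ^ d * inc A W₁ * inc A U₂ := by
    rw [hNn, map_add, map_mul, map_mul, map_mul, inc_C, SubmonoidClass.coe_pow, map_pow]
  have hden : red A (U₂ * W₂) ≠ 0 := by rw [map_mul]; exact mul_ne_zero hr₂ kr₂
  have hmain : ((f + g : Om M) : LaurentSeries Qb) * inc A (U₂ * W₂) =
      HahnSeries.C w₀ ^ n * inc A Nn := by
    show ((f : LaurentSeries Qb) + (g : LaurentSeries Qb)) * inc A (U₂ * W₂) = _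
    rw [map_mul, hincN]
    calc ((f : LaurentSeries Qb) + (g : LaurentSeries Qb)) * (inc A U₂ * inc A W₂)
        = ((f : LaurentSeries Qb) * inc A U₂) * inc A W₂ +
            ((g : LaurentSeries Qb) * inc A W₂) * inc A U₂ := by ring
      _ = _ := by
        rw [heq, heq', zpow_add₀ hC, zpow_natCast]; ring
  by_cases hN0 : Nn = 0
  · left
    rw [hN0, map_zero, mul_zero] at hmain
    rcases mul_eq_zero.mp hmain with h | h
    · exact val_eq_zero_iff.mp h
    · exact absurd h (red_ne_zero_imp_inc_ne_zero hden)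
  · right
    obtain ⟨a, N₀, hN₀, hrN₀, hNeq⟩ := exists_primitive hw hNint hN0
    refine ⟨n + a, N₀, U₂ * W₂, hN₀, IsIntE.mul h₂ k₂, hrN₀, hden, ?_⟩
    rw [hmain, hNeq, zpow_add₀ hC, zpow_natCast, map_pow]
    ring

theorem GaussForm.add {w₀ : Qb} (hw : _root_.Fermat.Agent.S18.H24.IsUnif A E w₀) {f g : Om M}
    (hf : GaussForm M A E w₀ f) (hg : GaussForm M A E w₀ g) :
    f + g = 0 ∨ GaussForm M A E w₀ (f + g) := by
  obtain ⟨n, U₁, U₂, h₁, h₂, -, hr₂, heq⟩ := hf
  obtain ⟨n', W₁, W₂, k₁, k₂, -, kr₂, heq'⟩ := hg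
  rcases le_total n n' with h | h
  · obtain ⟨d, hd⟩ := Int.le.dest h
    rw [← hd] at heq'
    exact GaussForm.add_aux hw h₁ h₂ hr₂ heq k₁ k₂ kr₂ heq'
  · obtain ⟨d, hd⟩ := Int.le.dest h
    rw [← hd] at heq
    rw [add_comm]
    exact GaussForm.add_aux hw k₁ k₂ kr₂ heq' h₁ h₂ hr₂ heq

end Fermat.Agent.S18.H24

end
end
-- ===== PACK-END S18/H24/GaussB.lean

-- ===== PACK-BEGIN S18/H24/GaussC.lean
section



/-!
# S18 / MOD-ASM, piece G-V (helper24) — part C: `V_total`, `gauss`, `x ∈ V`

* `gaussForm_of_mem_Fc` : every `f ∈ Fc` is `0` or has a Gauss normal form `w^n U₁/U₂`;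
* `field_V_total`       : field `V_total` of `Alg.GoodModel`;
* `field_gauss`         : field `gauss` for every coordinate with an integral expansion `q⁻¹ + …`;
* `coord_mem_Vc`        : the coordinate lies in `V`.
-/

set_option autoImplicit false

noncomputable section

namespace Fermat.Agent.S18.H24

open ModularCurve AlgebraicCurve HahnSeries Fermat.Agent.S18 Fermat.Agent.S18.Mod
open Fermat.Agent.S18.H456

variable {M : ℕ} {A : ValuationSubring Qb} {E : IntermediateField ℚ Qb}

theorem residue_ne_zero_of_inv_mem {c : A} (hc0 : (c : Qb) ≠ 0) (hc : (c : Qb)⁻¹ ∈ A) :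
    IsLocalRing.residue A c ≠ 0 := by
  intro h
  have hm := (IsLocalRing.residue_eq_zero_iff _).mp h
  rcases (mem_maximalIdeal_iff _).mp hm with h0 | hni
  · exact hc0 h0
  · exact hni hc

/-- Gauss form of a nonzero constant of `E`. -/
theorem gaussForm_cst {w₀ : Qb} (hw : _root_.Fermat.Agent.S18.H24.IsUnif A E w₀) {c : Qb} (hcE : c ∈ E) (hc0 : c ≠ 0) :
    GaussForm M A E w₀ (cst M c) := by
  have hw0 := hw.ne_zero
  have hC := C_ne_zero' hw0
  -- the case `c ∈ A`
  have key : ∀ c : Qb, c ∈ E → c ≠ 0 → c ∈ A → GaussForm M A E w₀ (cst M c) := by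
    intro c hcE hc0 hcA
    obtain ⟨k, hk1, hk2⟩ := hw.discrete c hcA hcE hc0
    have hu0 : c * (w₀⁻¹) ^ k ≠ 0 := mul_ne_zero hc0 (pow_ne_zero _ (inv_ne_zero hw0))
    have huE : c * (w₀⁻¹) ^ k ∈ E := mul_mem hcE (pow_mem (inv_mem hw.mem_E) _)
    refine ⟨k, HahnSeries.C (⟨c * (w₀⁻¹) ^ k, hk1⟩ : A), 1, isIntE_C huE, isIntE_one, ?_, ?_, ?_⟩
    · rw [red_C]
      intro h
      exact residue_ne_zero_of_inv_mem (c := ⟨c * (w₀⁻¹) ^ k, hk1⟩) hu0 hk2
        (HahnSeries.C_injective (by rw [h, map_zero]))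
    · rw [map_one]; exact one_ne_zero
    · rw [map_one, mul_one, val_cst', inc_C, zpow_natCast, ← map_pow, ← map_mul]
      congr 1
      show c = w₀ ^ k * (c * (w₀⁻¹) ^ k)
      rw [inv_pow]
      field_simp
  rcases A.mem_or_inv_mem c with hcA | hcA
  · exact key c hcE hc0 hcA
  · have := (key c⁻¹ (inv_mem hcE) (inv_ne_zero hc0) hcA).inv hw0
    rwa [← map_inv₀, inv_inv] at this

theorem jqNModC_ne_zero (K : Type*) [CommRing K] [Nontrivial K] (d : ℕ) [NeZero d] :
    jqNModC K d ≠ 0 := by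
  intro h
  have : jqModC K = 0 := qExpand_injective d (by rw [map_zero]; exact h)
  exact jqModC_ne_zero_of_nontrivial K this

theorem val_jd (d : ℕ) [NeZero d] (hd : d ∣ M) :
    ((jd M d hd : Om M) : LaurentSeries Qb) = inc A (jqNModC A d) := by
  show coeffEmb Qb (qExpand ℚ d jq) = _
  have h1 : coeffEmb Qb (qExpand ℚ d jq) = jqNModC Qb d := coeffMap_jqNModC (algebraMap ℚ Qb) d
  rw [h1]
  exact (coeffMap_jqNModC A.subtype d).symm

theorem jd_mem_Fc (d : ℕ) [NeZero d] (hd : d ∣ M) : jd M d hd ∈ Fc M E :=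
  Subfield.subset_closure (Or.inr ⟨d, inferInstance, hd, rfl⟩)

theorem gaussForm_jd (w₀ : Qb) (d : ℕ) [NeZero d] (hd : d ∣ M) :
    GaussForm M A E w₀ (jd M d hd) := by
  refine ⟨0, jqNModC A d, 1, ?_, isIntE_one, ?_, ?_, ?_⟩
  · exact (isIntE_iff M A E).mpr ⟨jd M d hd, jd_mem_Fc d hd, val_jd d hd⟩
  · show coeffMap (IsLocalRing.residue A) (jqNModC A d) ≠ 0
    rw [coeffMap_jqNModC]
    exact jqNModC_ne_zero _ d
  · rw [map_one]; exact one_ne_zero
  · rw [map_one, mul_one, zpow_zero, one_mul, val_jd d hd]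

theorem gaussForm_one (w₀ : Qb) : GaussForm M A E w₀ 1 := by
  refine ⟨0, 1, 1, isIntE_one, isIntE_one, ?_, ?_, ?_⟩
  · rw [map_one]; exact one_ne_zero
  · rw [map_one]; exact one_ne_zero
  · rw [map_one, mul_one, zpow_zero, one_mul]; rfl

/-- **Gauss normal form.** -/
theorem gaussForm_of_mem_Fc {w₀ : Qb} (hw : _root_.Fermat.Agent.S18.H24.IsUnif A E w₀) {f : Om M} (hf : f ∈ Fc M E) :
    f = 0 ∨ GaussForm M A E w₀ f := by
  have hw0 := hw.ne_zero
  unfold Fc at hf
  induction hf using Subfield.closure_induction with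
  | mem y hy =>
    rcases hy with hy | hy
    · obtain ⟨c, hc, rfl⟩ := (mem_Ec_iff M E).1 hy
      by_cases hc0 : c = 0
      · left; rw [hc0]; exact map_zero _
      · right; exact gaussForm_cst hw hc hc0
    · obtain ⟨d, hd, hdM, rfl⟩ := hy
      right
      exact gaussForm_jd w₀ d hdM
  | one => right; exact gaussForm_one w₀
  | add x y _ _ hx hy =>
    rcases hx with rfl | hx
    · rw [zero_add]; exact hy
    · rcases hy with rfl | hy
      · rw [add_zero]; exact Or.inr hx
      · exact hx.add hw hy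
  | neg x _ hx =>
    rcases hx with rfl | hx
    · left; rw [neg_zero]
    · right; exact hx.neg
  | inv x _ hx =>
    rcases hx with rfl | hx
    · left; rw [inv_zero]
    · right; exact hx.inv hw0
  | mul x y _ _ hx hy =>
    rcases hx with rfl | hx
    · left; rw [zero_mul]
    · rcases hy with rfl | hy
      · left; rw [mul_zero]
      · right; exact hx.mul hw0 hy

/-- A Gauss form with `n ≥ 0` lies in `V`. -/
theorem GaussForm.mem_Vc_of_nonneg {w₀ : Qb} (hw : _root_.Fermat.Agent.S18.H24.IsUnif A E w₀) {f : Om M} (hfF : f ∈ Fc M E)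
    {n : ℕ} {U₁ U₂ : LaurentSeries A} (h₁ : IsIntE M A E U₁) (h₂ : IsIntE M A E U₂)
    (hr₂ : red A U₂ ≠ 0)
    (heq : (f : LaurentSeries Qb) * inc A U₂ = HahnSeries.C w₀ ^ n * inc A U₁) :
    f ∈ Vc M A E := by
  refine ⟨hfF, HahnSeries.C (⟨w₀, hw.mem_A⟩ ^ n : A) * U₁, U₂, IsIntE.mul (isIntE_C ?_) h₁, h₂,
    hr₂, ?_⟩
  · show ((⟨w₀, hw.mem_A⟩ ^ n : A) : Qb) ∈ E
    rw [SubmonoidClass.coe_pow]
    exact pow_mem hw.mem_E n
  · rw [heq, map_mul, inc_C, SubmonoidClass.coe_pow, map_pow]

variable (M) in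
/-- field `V_total`. -/
theorem field_V_total {w₀ : Qb} (hw : _root_.Fermat.Agent.S18.H24.IsUnif A E w₀) :
    ∀ f ∈ Fc M E, f ∈ Vc M A E ∨ f⁻¹ ∈ Vc M A E := by
  intro f hf
  rcases gaussForm_of_mem_Fc hw hf with rfl | hG
  · left; exact zero_mem _
  · have hw0 := hw.ne_zero
    obtain ⟨n, U₁, U₂, h₁, h₂, hr₁, hr₂, heq⟩ := hG
    rcases le_total 0 n with hn | hn
    · left
      obtain ⟨d, rfl⟩ := Int.eq_ofNat_of_zero_le hn
      rw [zpow_natCast] at heq
      exact GaussForm.mem_Vc_of_nonneg hw hf h₁ h₂ hr₂ heq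
    · right
      have hG' : GaussForm M A E w₀ f := ⟨n, U₁, U₂, h₁, h₂, hr₁, hr₂, heq⟩
      obtain ⟨n', W₁, W₂, k₁, k₂, kr₁, kr₂, heq'⟩ := hG'.inv hw0
      -- use the explicit inverse form instead
      have hf0 := hG'.ne_zero hw0
      have hfv0 : (f : LaurentSeries Qb) ≠ 0 := fun h => hf0 (val_eq_zero_iff.mp h)
      have hC := C_ne_zero' hw0
      obtain ⟨d, hd⟩ : ∃ d : ℕ, -n = d := Int.eq_ofNat_of_zero_le (by omega)
      have heq2 : ((f⁻¹ : Om M) : LaurentSeries Qb) * inc A U₁ = HahnSeries.C w₀ ^ d * inc A U₂ := by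
        rw [val_inv]
        have hCn : (HahnSeries.C w₀ : LaurentSeries Qb) ^ n ≠ 0 := zpow_ne_zero n hC
        have h1 : inc A U₁ = (HahnSeries.C w₀ ^ n)⁻¹ * ((f : LaurentSeries Qb) * inc A U₂) := by
          rw [heq, ← mul_assoc, inv_mul_cancel₀ hCn, one_mul]
        rw [h1, ← zpow_neg, hd, zpow_natCast]
        field_simp
      exact GaussForm.mem_Vc_of_nonneg hw (inv_mem hf) h₂ h₁ hr₁ heq2

/-! ### The coordinate and the field `gauss` -/

section Coord

variable [NeZero M]

/-- The integral series of a coordinate, over `A`. -/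
theorem exists_series_of_hasIntExp {x : Om M} (hx : HasIntExp M x) :
    ∃ XA : LaurentSeries A, IsIntE M A E XA ∧ inc A XA = (x : LaurentSeries Qb) ∧
      (red A XA).order ≠ 0 := by
  have hxF := mem_Fc_of_hasIntExp M E hx
  obtain ⟨X, h1, h2, h3, -⟩ := hx
  refine ⟨coeffMap (Int.castRingHom A) X, ?_, ?_, ?_⟩
  · refine (isIntE_iff M A E).mpr ⟨x, hxF, ?_⟩
    rw [h3]
    show _ = coeffMap A.subtype (coeffMap (Int.castRingHom A) X)
    rw [coeffMap_coeffMap]
    exact coeffMap_congr (RingHom.ext_int _ _) X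
  · rw [h3]
    show coeffMap A.subtype (coeffMap (Int.castRingHom A) X) = _
    rw [coeffMap_coeffMap]
    exact coeffMap_congr (RingHom.ext_int _ _) X
  · show (coeffMap (IsLocalRing.residue A) (coeffMap (Int.castRingHom A) X)).order ≠ 0
    rw [coeffMap_coeffMap]
    set Xk := coeffMap ((IsLocalRing.residue A).comp (Int.castRingHom A)) X with hXk
    have hc1 : Xk.coeff (-1) = 1 := by
      rw [hXk, coeffMap_coeff, h1, map_one]
    have hne : Xk ≠ 0 := by
      intro h
      rw [h, HahnSeries.coeff_zero] at hc1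
      exact zero_ne_one hc1
    have hle : Xk.order ≤ -1 := HahnSeries.order_le_of_coeff_ne_zero (by rw [hc1]; exact one_ne_zero)
    omega

theorem coord_mem_Vc {x : Om M} (hx : HasIntExp M x) : x ∈ Vc M A E := by
  obtain ⟨XA, hXA, hinc, -⟩ := exists_series_of_hasIntExp (A := A) (E := E) hx
  exact mem_VcSet_of_isIntE hXA hinc.symm

/-- field `gauss` (for a coordinate with integral expansion `q⁻¹ + …`). -/
theorem field_gauss {x : Om M} (hx : HasIntExp M x) :
    ∀ P : Polynomial (Om M), (∀ i, P.coeff i ∈ Rc M A E) →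
      (∃ i, P.coeff i ≠ 0 ∧ (P.coeff i)⁻¹ ∈ Rc M A E) → (P.eval x)⁻¹ ∈ Vc M A E := by
  intro P hP hunit
  have hxF := mem_Fc_of_hasIntExp M E hx
  obtain ⟨XA, hXA, hinc, hord⟩ := exists_series_of_hasIntExp (A := A) (E := E) hx
  -- lift `P` to `A[X]`
  let φ : A →+* Om M := (algebraMap Qb (Om M)).comp A.subtype
  have hlift : P ∈ Polynomial.lifts φ := by
    rw [Polynomial.lifts_iff_coeff_lifts]
    intro i
    obtain ⟨c, hcA, -, hc⟩ := (mem_Rc_iff M A E).mp (hP i)
    exact ⟨⟨c, hcA⟩, hc⟩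
  obtain ⟨p, hp'⟩ := hlift
  have hp : p.map φ = P := hp'
  have hpcoeff : ∀ i, cst M ((p.coeff i : A) : Qb) = P.coeff i := by
    intro i
    rw [← hp, Polynomial.coeff_map]
    rfl
  have hpE : ∀ i, ((p.coeff i : A) : Qb) ∈ E := by
    intro i
    obtain ⟨c, -, hcE, hc⟩ := (mem_Rc_iff M A E).mp (hP i)
    have : c = ((p.coeff i : A) : Qb) := cst_injective M (by rw [hc, hpcoeff])
    rw [← this]; exact hcE
  -- the series
  set U : LaurentSeries A := p.eval₂ (HahnSeries.C (Γ := ℤ) (R := A)) XA with hU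
  have hUint : IsIntE M A E U := by
    rw [hU, Polynomial.eval₂_eq_sum_range]
    have : ∀ (s : Finset ℕ), IsIntE M A E (∑ i ∈ s, HahnSeries.C (p.coeff i) * XA ^ i) := by
      intro s
      induction s using Finset.induction_on with
      | empty => rw [Finset.sum_empty]; exact isIntE_zero
      | insert a s ha ih =>
        rw [Finset.sum_insert ha]
        exact IsIntE.add (IsIntE.mul (isIntE_C (hpE a)) (IsIntE.pow hXA a)) ih
    exact this _
  have hincU : inc A U = ((P.eval x : Om M) : LaurentSeries Qb) := by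
    rw [hU, Polynomial.hom_eval₂, hinc]
    have h1 : ((P.eval x : Om M) : LaurentSeries Qb) =
        P.eval₂ (modularFunctionFieldBar M).val.toRingHom (x : LaurentSeries Qb) := by
      have := Polynomial.hom_eval₂ P (RingHom.id (Om M)) (modularFunctionFieldBar M).val.toRingHom x
      simp only [Polynomial.eval₂_id, RingHom.comp_id] at this
      exact this
    rw [h1, ← hp, Polynomial.eval₂_map]
    congr 1
    ext c : 1
    show inc A (HahnSeries.C c) = ((cst M (c : Qb) : Om M) : LaurentSeries Qb)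
    rw [inc_C, val_cst']
  have hredU : red A U ≠ 0 := by
    rw [hU, Polynomial.hom_eval₂]
    have hcomp : (red A).comp (HahnSeries.C (Γ := ℤ) (R := A)) =
        (HahnSeries.C (Γ := ℤ) (R := IsLocalRing.ResidueField A)).comp (IsLocalRing.residue A) := by
      ext c : 1
      exact red_C c
    rw [hcomp, ← Polynomial.eval₂_map]
    intro h0
    have hp0 := Fermat.Agent.S28.H806.eq_zero_of_eval₂_C_eq_zero _ hord _ h0
    obtain ⟨i, hi0, hiinv⟩ := hunit
    have hci : (p.map (IsLocalRing.residue A)).coeff i = 0 := by rw [hp0, Polynomial.coeff_zero]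
    rw [Polynomial.coeff_map] at hci
    have hc0 : ((p.coeff i : A) : Qb) ≠ 0 := by
      intro h
      apply hi0
      rw [← hpcoeff, h]
      exact map_zero _
    have hcinv : ((p.coeff i : A) : Qb)⁻¹ ∈ A := by
      obtain ⟨c, hcA, -, hc⟩ := (mem_Rc_iff M A E).mp hiinv
      rw [← hpcoeff, ← map_inv₀] at hc
      have := cst_injective M hc
      rw [← this]; exact hcA
    exact residue_ne_zero_of_inv_mem hc0 hcinv hci
  have hPx0 : ((P.eval x : Om M) : LaurentSeries Qb) ≠ 0 := by
    rw [← hincU]; exact red_ne_zero_imp_inc_ne_zero hredU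
  refine ⟨inv_mem ?_, 1, U, isIntE_one, hUint, hredU, ?_⟩
  · -- `P.eval x ∈ Fc`
    rw [Polynomial.eval_eq_sum_range]
    refine Subfield.sum_mem _ fun i _ => ?_
    exact mul_mem (field_E_le_F M E (field_R_le M A E (hP i))) (pow_mem hxF i)
  · rw [val_inv, hincU, map_one, inv_mul_cancel₀ hPx0]

end Coord

end Fermat.Agent.S18.H24

end
end
-- ===== PACK-END S18/H24/GaussC.lean

-- ===== PACK-BEGIN S18/H804/ValPlace.lean
section




/-!
# S18 / GLUE input: every nontrivial valuation subring of a function field containing the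
constants is a place  (helper804)

`K` a field of characteristic zero, `F` finite over `K(x)`, `x` transcendental.  A valuation
subring `O ≠ ⊤` of `F` containing `K` is the valuation ring of a `Place K F` (a discrete
valuation ring).  Proof: `x` or `x⁻¹` lies in `O`; `O` dominates the localisation of the integral
closure of `K[x^{±1}]` at its center, which is a DVR, hence maximal among proper subrings.

Corollary (`exists_mul_pow_unit`): if `m ∣ ord_v u` for every place `v`, then for every valuation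
subring `O ⊇ K` of `F` there is `t ≠ 0` with `u * t ^ m` a unit of `O`.
-/

set_option autoImplicit false
set_option linter.unusedSectionVars false

namespace Fermat.Agent.S18.H804

open AlgebraicCurve Polynomial IntermediateField IsDedekindDomain Fermat.Agent.S24 FF

open scoped IntermediateField.algebraAdjoinAdjoin

variable {K F : Type*} [Field K] [Field F] [Algebra K F] {t : F}

/-- `K[t] ⊆ O` when `t ∈ O`. -/
theorem mem_of_mem_coordRing_val (O : ValuationSubring F)
    (hK : ∀ a : K, algebraMap K F a ∈ O) (ht : t ∈ O) {r : F}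
    (hr : r ∈ coordRing K t) : r ∈ O := by
  induction hr using Algebra.adjoin_induction with
  | mem x hx =>
    rw [Set.mem_singleton_iff] at hx
    subst hx
    exact ht
  | algebraMap a => exact hK a
  | add x y _ _ hx hy => exact add_mem hx hy
  | mul x y _ _ hx hy => exact mul_mem hx hy

/-- The integral closure of `K[t]` is contained in `O` when `t ∈ O`. -/
theorem mem_of_mem_intRing_val (O : ValuationSubring F)
    (hK : ∀ a : K, algebraMap K F a ∈ O) (ht : t ∈ O) {s : F}
    (hs : s ∈ intRing K t) : s ∈ O := by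
  let φ : coordRing K t →+* O :=
    { toFun := fun y => ⟨y, mem_of_mem_coordRing_val O hK ht y.2⟩
      map_one' := rfl
      map_mul' := fun _ _ => rfl
      map_zero' := rfl
      map_add' := fun _ _ => rfl }
  obtain ⟨p, hpm, hp⟩ := hs
  have hint' : IsIntegral O s := by
    refine ⟨p.map φ, hpm.map φ, ?_⟩
    rw [← hp, Polynomial.eval₂_map]
    rfl
  obtain ⟨y, hy⟩ := IsIntegrallyClosed.isIntegral_iff.mp hint'
  rw [← hy]
  exact y.2

/-- The inclusion of the integral closure of `K[t]` into `O`. -/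
def toValRing (O : ValuationSubring F) (hK : ∀ a : K, algebraMap K F a ∈ O) (ht : t ∈ O) :
    intRing K t →+* O where
  toFun s := ⟨s, mem_of_mem_intRing_val O hK ht s.2⟩
  map_one' := rfl
  map_mul' _ _ := rfl
  map_zero' := rfl
  map_add' _ _ := rfl

/-- The center of `O` on the integral closure of `K[t]`. -/
def centerVal (O : ValuationSubring F) (hK : ∀ a : K, algebraMap K F a ∈ O) (ht : t ∈ O) :
    Ideal (intRing K t) :=
  Ideal.comap (toValRing O hK ht) (IsLocalRing.maximalIdeal O)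

instance centerVal_isPrime (O : ValuationSubring F) (hK : ∀ a : K, algebraMap K F a ∈ O)
    (ht : t ∈ O) : (centerVal O hK ht).IsPrime := by
  unfold centerVal
  infer_instance

theorem mem_centerVal_iff (O : ValuationSubring F) (hK : ∀ a : K, algebraMap K F a ∈ O)
    (ht : t ∈ O) (s : intRing K t) :
    s ∈ centerVal O hK ht ↔ (s : F) ∈ O.nonunits := by
  rw [centerVal, Ideal.mem_comap]
  exact ValuationSubring.coe_mem_nonunits_iff.symm

section withCoord

variable [CharZero K] [IsCoord K t]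

/-- The center of a proper valuation subring is nonzero. -/
theorem centerVal_ne_bot (O : ValuationSubring F) (hK : ∀ a : K, algebraMap K F a ∈ O)
    (ht : t ∈ O) (hO : O ≠ ⊤) : centerVal O hK ht ≠ ⊥ := by
  intro h
  apply hO
  refine SetLike.ext fun f => ⟨fun _ => ValuationSubring.mem_top f, fun _ => ?_⟩
  -- `f = a / b` with `a, b` in the integral closure, `b ≠ 0` a unit of `O`
  obtain ⟨a, b, hb, rfl⟩ := IsFractionRing.div_surjective (A := intRing K t) f
  have hb0 : b ≠ 0 := nonZeroDivisors.ne_zero hb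
  have hbF : (b : F) ≠ 0 := fun h0 => hb0 (Subtype.ext h0)
  have hbnot : (b : F) ∉ O.nonunits := by
    intro hbn
    have : b ∈ centerVal O hK ht := (mem_centerVal_iff O hK ht b).mpr hbn
    rw [h, Ideal.mem_bot] at this
    exact hb0 this
  have hbinv : (b : F)⁻¹ ∈ O := by
    by_contra hcon
    exact hbnot ((ValuationSubring.mem_nonunits_iff_or _).mpr (Or.inr hcon))
  have ha : (a : F) ∈ O := mem_of_mem_intRing_val O hK ht a.2
  show algebraMap (intRing K t) F a / algebraMap (intRing K t) F b ∈ O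
  rw [div_eq_mul_inv]
  exact mul_mem ha hbinv

/-- A proper valuation subring containing `K` and `t` is the valuation ring of a place. -/
theorem exists_place_of_mem (O : ValuationSubring F) (hK : ∀ a : K, algebraMap K F a ∈ O)
    (ht : t ∈ O) (hO : O ≠ ⊤) : ∃ v : Place K F, v.toValuationSubring = O := by
  let q : HeightOneSpectrum (intRing K t) :=
    ⟨centerVal O hK ht, inferInstance, centerVal_ne_bot O hK ht hO⟩
  refine ⟨placeOfPrime K t q, ?_⟩
  rw [placeOfPrime_toValuationSubring,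
    ← HeightOneSpectrum.valuationSubringAtPrime_eq_valuationSubring]
  refine ValuationSubring.eq_of_le_of_ne_top _ ?_ hO
  rintro x ⟨a, s, hs, rfl⟩
  have ha : (a : F) ∈ O := mem_of_mem_intRing_val O hK ht a.2
  have hs' : (s : F) ∉ O.nonunits := fun h =>
    hs ((mem_centerVal_iff O hK ht s).mpr h)
  have hsinv : (s : F)⁻¹ ∈ O := by
    by_contra hcon
    exact hs' ((ValuationSubring.mem_nonunits_iff_or _).mpr (Or.inr hcon))
  exact mul_mem ha hsinv

end withCoord

/-- **Every proper valuation subring of `F` containing `K` is a place.** -/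
theorem exists_place_of_valuationSubring [CharZero K] {x : F} (hx : Transcendental K x)
    [FiniteDimensional K⟮x⟯ F] (O : ValuationSubring F)
    (hK : ∀ a : K, algebraMap K F a ∈ O) (hO : O ≠ ⊤) :
    ∃ v : Place K F, v.toValuationSubring = O := by
  rcases O.mem_or_inv_mem x with h | h
  · have : IsCoord K x := ⟨hx, inferInstance⟩
    exact exists_place_of_mem O hK h hO
  · have : FiniteDimensional K⟮x⁻¹⟯ F := finiteDimensional_adjoin_inv x
    have : IsCoord K x⁻¹ := ⟨transcendental_inv hx, inferInstance⟩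
    exact exists_place_of_mem O hK h hO

/-- If `m` divides the order of `u` at every place, then `u` is, up to an `m`-th power, a unit of
every valuation subring of `F` containing `K`. -/
theorem exists_mul_pow_unit [CharZero K] {x : F} (hx : Transcendental K x)
    [FiniteDimensional K⟮x⟯ F] (m : ℕ) (u : F) (hu : u ≠ 0)
    (hdiv : ∀ v : Place K F, (m : ℤ) ∣ v.ord u) (O : ValuationSubring F)
    (hK : ∀ a : K, algebraMap K F a ∈ O) :
    ∃ t : F, t ≠ 0 ∧ u * t ^ m ∈ O ∧ (u * t ^ m)⁻¹ ∈ O := by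
  by_cases hO : O = ⊤
  · subst hO
    exact ⟨1, one_ne_zero, ValuationSubring.mem_top _, ValuationSubring.mem_top _⟩
  obtain ⟨v, rfl⟩ := exists_place_of_valuationSubring hx O hK hO
  obtain ⟨π, hπ, hπ1⟩ := exists_irreducible_coe v
  have hπ0 : (π : F) ≠ 0 := by
    intro h
    rw [h, v.ord_zero] at hπ1
    exact zero_ne_one hπ1
  obtain ⟨k, hk⟩ := hdiv v
  refine ⟨(π : F) ^ (-k), zpow_ne_zero _ hπ0, ?_, ?_⟩
  all_goals
    have hne : u * ((π : F) ^ (-k)) ^ m ≠ 0 :=
      mul_ne_zero hu (pow_ne_zero _ (zpow_ne_zero _ hπ0))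
    have hord : v.ord (u * ((π : F) ^ (-k)) ^ m) = 0 := by
      rw [v.ord_mul hu (pow_ne_zero _ (zpow_ne_zero _ hπ0)), ← zpow_natCast, ← zpow_mul,
        v.ord_zpow, hπ1, hk]
      ring
  · exact mem_of_ord_nonneg v hord.ge
  · apply mem_of_ord_nonneg v
    rw [v.ord_inv, hord]
    simp

end Fermat.Agent.S18.H804

end
-- ===== PACK-END S18/H804/ValPlace.lean

-- ===== PACK-BEGIN S29/H871/Gauss.lean
section





/-!
# S29 / E3 (descent `ℂ → ℚ̄`), part 1: the Gauss extension of a rational place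

`K ⊆ K'` fields, `F/K` a field, `A = O_v` the valuation ring of a place `v` of `F/K` whose
residue field is `K`.  We study the ring `A ⊗[K] K'`:

* `epsHom v hv : A ⊗[K] K' →ₐ[K] K'`  ("reduction modulo `π`"),
* `epsHom_eq_zero_iff` : its kernel is generated by `π ⊗ 1`,
* `exists_pow_mul_eps_ne_zero` : every nonzero element is `(π ⊗ 1)^n * y` with `ε y ≠ 0`.

(helper871)
-/

set_option autoImplicit false

noncomputable section

namespace Fermat.Agent.S29.H871

open AlgebraicCurve TensorProduct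

variable {K F : Type*} [Field K] [Field F] [Algebra K F]

/-- A place is *rational* if every integral element is congruent to a constant modulo the
maximal ideal (automatic when `K` is algebraically closed and `F/K` is a function field). -/
def IsRationalPlace (v : Place K F) : Prop :=
  ∀ f ∈ v.toValuationSubring, ∃ a : K, f - algebraMap K F a ∈ v.toValuationSubring.nonunits

theorem isRationalPlace_of_isAlgClosed [IsAlgClosed K] (v : Place K F) {x : F}
    (hx : Transcendental K x) [FiniteDimensional (IntermediateField.adjoin K {x}) F] :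
    IsRationalPlace v :=
  fun _ hf => Fermat.Agent.S24.FF.exists_const_sub_mem_nonunits v hx hf

namespace IsRationalPlace

variable {v : Place K F} (hv : IsRationalPlace v)

include hv in
theorem algebraMap_residue_bijective :
    Function.Bijective (algebraMap K (IsLocalRing.ResidueField v.toValuationSubring)) := by
  refine ⟨(algebraMap K (IsLocalRing.ResidueField v.toValuationSubring)).injective, ?_⟩
  intro c
  obtain ⟨f, rfl⟩ := IsLocalRing.residue_surjective c
  obtain ⟨a, ha⟩ := hv f f.2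
  refine ⟨a, ?_⟩
  have hmem : f - algebraMap K v.toValuationSubring a ∈
      IsLocalRing.maximalIdeal v.toValuationSubring := by
    rw [← ValuationSubring.coe_mem_nonunits_iff]
    exact ha
  have h0 := (IsLocalRing.residue_eq_zero_iff _).mpr hmem
  rw [map_sub, sub_eq_zero] at h0
  rw [h0]
  rfl

/-- The residue field of a rational place is `K`. -/
def residueEquiv : K ≃ₐ[K] IsLocalRing.ResidueField v.toValuationSubring :=
  AlgEquiv.ofBijective (Algebra.ofId K _) hv.algebraMap_residue_bijective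

/-- The value of an integral element at a rational place. -/
def res : v.toValuationSubring →ₐ[K] K :=
  (hv.residueEquiv.symm : IsLocalRing.ResidueField v.toValuationSubring →ₐ[K] K).comp
    (IsScalarTower.toAlgHom K v.toValuationSubring (IsLocalRing.ResidueField v.toValuationSubring))

theorem res_eq_zero_iff (a : v.toValuationSubring) :
    hv.res a = 0 ↔ a ∈ IsLocalRing.maximalIdeal v.toValuationSubring := by
  unfold res
  rw [AlgHom.comp_apply]
  erw [EmbeddingLike.map_eq_zero_iff (f := hv.residueEquiv.symm)]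
  exact IsLocalRing.residue_eq_zero_iff a

theorem res_ne_zero_iff (a : v.toValuationSubring) : hv.res a ≠ 0 ↔ IsUnit a := by
  rw [Ne, res_eq_zero_iff, IsLocalRing.mem_maximalIdeal, mem_nonunits_iff, not_not]

end IsRationalPlace

section Eps

variable {K' : Type*} [Field K'] [Algebra K K']
variable {v : Place K F} (hv : IsRationalPlace v)

/-- Reduction `A ⊗[K] K' → K'`, `a ⊗ c ↦ a(v) c`. -/
def epsHom : v.toValuationSubring ⊗[K] K' →ₐ[K] K' :=
  Algebra.TensorProduct.productMap ((Algebra.ofId K K').comp hv.res) (AlgHom.id K K')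

@[simp]
theorem epsHom_tmul (a : v.toValuationSubring) (c : K') :
    epsHom hv (a ⊗ₜ[K] c) = algebraMap K K' (hv.res a) * c := by
  simp [epsHom, Algebra.ofId_apply]

theorem epsHom_sum_basis {I : Type*} (𝒞 : Module.Basis I K K') (b : I →₀ v.toValuationSubring) :
    epsHom hv (b.sum fun i m => m ⊗ₜ[K] 𝒞 i) = b.sum fun i m => hv.res m • 𝒞 i := by
  rw [Finsupp.sum, map_sum, Finsupp.sum]
  refine Finset.sum_congr rfl fun i _ => ?_
  rw [epsHom_tmul, Algebra.smul_def]

theorem res_eq_zero_of_epsHom_sum_eq_zero {I : Type*} (𝒞 : Module.Basis I K K')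
    (b : I →₀ v.toValuationSubring)
    (h : epsHom hv (b.sum fun i m => m ⊗ₜ[K] 𝒞 i) = 0) (i : I) : hv.res (b i) = 0 := by
  classical
  rw [epsHom_sum_basis] at h
  have hli := 𝒞.linearIndependent
  rw [linearIndependent_iff'] at hli
  by_cases hi : i ∈ b.support
  · exact hli b.support (fun i => hv.res (b i)) h i hi
  · rw [Finsupp.notMem_support_iff.mp hi, map_zero]

/-- The element `π ⊗ 1`. -/
abbrev piT (π : v.toValuationSubring) : v.toValuationSubring ⊗[K] K' := π ⊗ₜ[K] (1 : K')

theorem piT_pow (π : v.toValuationSubring) (n : ℕ) :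
    (piT (K' := K') π) ^ n = (π ^ n) ⊗ₜ[K] (1 : K') := by
  rw [piT, Algebra.TensorProduct.tmul_pow, one_pow]

theorem piT_pow_mul_sum {I : Type*} (𝒞 : I → K') (π : v.toValuationSubring) (n : ℕ)
    (s : Finset I) (c : I → v.toValuationSubring) :
    (piT (K' := K') π) ^ n * ∑ i ∈ s, c i ⊗ₜ[K] 𝒞 i = ∑ i ∈ s, (π ^ n * c i) ⊗ₜ[K] 𝒞 i := by
  rw [piT_pow, Finset.mul_sum]
  refine Finset.sum_congr rfl fun i _ => ?_
  rw [Algebra.TensorProduct.tmul_mul_tmul, one_mul]

theorem epsHom_piT {π : v.toValuationSubring} (hπ : Irreducible π) :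
    epsHom hv (piT (K' := K') π) = 0 := by
  rw [piT, epsHom_tmul, mul_one]
  have : hv.res π = 0 := by
    rw [hv.res_eq_zero_iff, IsLocalRing.mem_maximalIdeal, mem_nonunits_iff]
    exact hπ.not_isUnit
  rw [this, map_zero]

/-- **Kernel of the reduction**: `ε x = 0` iff `π ⊗ 1` divides `x`. -/
theorem exists_eq_piT_mul_of_epsHom_eq_zero {π : v.toValuationSubring} (hπ : Irreducible π)
    {x : v.toValuationSubring ⊗[K] K'} (hx : epsHom hv x = 0) :
    ∃ y, x = piT π * y := by
  classical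
  let 𝒞 := Module.Basis.ofVectorSpace K K'
  obtain ⟨b, rfl⟩ := TensorProduct.eq_repr_basis_right 𝒞 x
  have hb : ∀ i, ∃ c : v.toValuationSubring, b i = π * c := by
    intro i
    have h0 := res_eq_zero_of_epsHom_sum_eq_zero hv 𝒞 b hx i
    rw [hv.res_eq_zero_iff, hπ.maximalIdeal_eq, Ideal.mem_span_singleton] at h0
    exact h0
  choose c hc using hb
  refine ⟨∑ i ∈ b.support, c i ⊗ₜ[K] 𝒞 i, ?_⟩
  have := piT_pow_mul_sum (K := K) 𝒞 π 1 b.support c
  rw [pow_one] at this
  rw [this, Finsupp.sum]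
  refine Finset.sum_congr rfl fun i _ => ?_
  rw [pow_one, ← hc i]

theorem epsHom_eq_zero_iff {π : v.toValuationSubring} (hπ : Irreducible π)
    {x : v.toValuationSubring ⊗[K] K'} :
    epsHom hv x = 0 ↔ ∃ y, x = piT π * y := by
  refine ⟨exists_eq_piT_mul_of_epsHom_eq_zero hv hπ, ?_⟩
  rintro ⟨y, rfl⟩
  rw [map_mul, epsHom_piT hv hπ, zero_mul]

omit hv in
/-- Separatedness: an element divisible by all powers of `π ⊗ 1` vanishes. -/
theorem eq_zero_of_forall_piT_pow_dvd {π : v.toValuationSubring} (hπ : Irreducible π)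
    {x : v.toValuationSubring ⊗[K] K'} (hx : ∀ n : ℕ, ∃ y, x = piT π ^ n * y) : x = 0 := by
  classical
  let 𝒞 := Module.Basis.ofVectorSpace K K'
  obtain ⟨b, rfl⟩ := TensorProduct.eq_repr_basis_right 𝒞 x
  have hb : b = 0 := by
    refine Finsupp.ext fun i => ?_
    by_contra hbi
    have hbi' : b i ≠ 0 := hbi
    obtain ⟨n, hn⟩ := FiniteMultiplicity.of_not_isUnit hπ.not_isUnit hbi'
    obtain ⟨y, hy⟩ := hx (n + 1)
    obtain ⟨c, rfl⟩ := TensorProduct.eq_repr_basis_right 𝒞 y
    apply hn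
    -- compare coordinates
    have h1 : (piT (K' := K') π) ^ (n + 1) * (c.sum fun i m => m ⊗ₜ[K] 𝒞 i)
        = (c.mapRange (fun m => π ^ (n + 1) * m) (mul_zero _)).sum fun i m => m ⊗ₜ[K] 𝒞 i := by
      rw [Finsupp.sum, piT_pow_mul_sum, Finsupp.sum_mapRange_index (by intro i; simp)]
      rfl
    rw [h1] at hy
    have h3 : b = c.mapRange (fun m => π ^ (n + 1) * m) (mul_zero _) := by
      apply (TensorProduct.equivFinsuppOfBasisRight (M := v.toValuationSubring) 𝒞).symm.injective
      rw [TensorProduct.equivFinsuppOfBasisRight_symm_apply,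
        TensorProduct.equivFinsuppOfBasisRight_symm_apply]
      exact hy
    rw [h3, Finsupp.mapRange_apply]
    exact dvd_mul_right _ _
  rw [hb, Finsupp.sum_zero_index]

/-- **Gauss decomposition**: every nonzero element of `A ⊗[K] K'` is `(π ⊗ 1)^n * y`
with `ε y ≠ 0`. -/
theorem exists_pow_mul_eps_ne_zero {π : v.toValuationSubring} (hπ : Irreducible π)
    {x : v.toValuationSubring ⊗[K] K'} (hx : x ≠ 0) :
    ∃ (n : ℕ) (y : v.toValuationSubring ⊗[K] K'), x = piT π ^ n * y ∧ epsHom hv y ≠ 0 := by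
  by_contra hcon
  have hcon : ∀ (n : ℕ) (y : v.toValuationSubring ⊗[K] K'), x = piT π ^ n * y →
      epsHom hv y = 0 := by
    intro n y hy
    by_contra h
    exact hcon ⟨n, y, hy, h⟩
  apply hx
  apply eq_zero_of_forall_piT_pow_dvd hπ
  intro n
  induction n with
  | zero => exact ⟨x, by rw [pow_zero, one_mul]⟩
  | succ n ih =>
    obtain ⟨y, hy⟩ := ih
    obtain ⟨z, hz⟩ := exists_eq_piT_mul_of_epsHom_eq_zero hv hπ (hcon n y hy)
    exact ⟨z, by rw [hy, hz, pow_succ, mul_assoc]⟩

end Eps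

end Fermat.Agent.S29.H871

end
end
-- ===== PACK-END S29/H871/Gauss.lean

-- ===== PACK-BEGIN Lib/RR/H443/LSpace.lean
section


/-!
# RR bridge (helper443), part 2: the spaces `L(D)` without `HasPrincipalDivisors`

Characteristic-free.  Under the hypotheses `Hyp K F` (all places have degree one, `F` is finite
over `K(x)` for every transcendental `x`, `K` is algebraically closed in `F`) we prove
`L(0) = K`, finite-dimensionality of `L(D)` and `ℓ(D) ≤ deg D + 1` for `D ≥ 0`, *without*
assuming that principal divisors have degree zero.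
-/

set_option autoImplicit false

noncomputable section

open AlgebraicCurve Polynomial IntermediateField
open Fermat.Agent.Lib.RR

namespace Fermat.Agent.Lib.RR.H443

variable {K F : Type*} [Field K] [Field F] [Algebra K F]

variable (K F) in
/-- Hypotheses of the bridge: a function field of one variable with constant field `K`, all of
whose places have degree one. -/
structure Hyp : Prop where
  deg_eq_one : ∀ v : Place K F, v.deg = 1
  finite : ∀ x : F, Transcendental K x → FiniteDimensional K⟮x⟯ F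
  const : ∀ f : F, IsAlgebraic K f → f ∈ (algebraMap K F).range

/-- Functions without poles are constant (no `HasPrincipalDivisors` needed). -/
theorem L_zero_eq (h : Hyp K F) :
    riemannRochSpace (0 : Divisor K F) = LinearMap.range (Algebra.linearMap K F) := by
  apply le_antisymm
  · intro f hf
    by_contra hcon
    have htr : Transcendental K f := fun halg => hcon (by
      obtain ⟨c, hc⟩ := h.const f halg
      exact ⟨c, hc⟩)
    obtain ⟨v, hv⟩ := exists_place_ord_neg h.finite htr
    rcases mem_L_iff.mp hf v with h0 | h0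
    · rw [h0, v.ord_zero] at hv
      exact lt_irrefl _ hv
    · simp only [Finsupp.coe_zero, Pi.zero_apply, neg_zero] at h0
      omega
  · rintro _ ⟨c, rfl⟩
    rw [mem_L_iff]
    intro v
    right
    simp [ord_algebraMap]

theorem finite_L_zero (h : Hyp K F) : Module.Finite K (riemannRochSpace (0 : Divisor K F)) := by
  rw [L_zero_eq h]
  infer_instance

theorem ell_zero_eq (h : Hyp K F) : ell (0 : Divisor K F) = 1 := by
  unfold ell
  rw [L_zero_eq h]
  have hinj : Function.Injective (Algebra.linearMap K F) := (algebraMap K F).injective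
  rw [LinearMap.finrank_range_of_inj hinj]
  exact Module.finrank_self K

theorem prim_le_of_pos {D : Divisor K F} (hD : 0 ≤ D) {v : Place K F} (hv : D v ≠ 0) :
    prim v ≤ D := by
  rw [Finsupp.le_def]
  intro w
  have hw0 : 0 ≤ D w := by simpa using Finsupp.le_def.mp hD w
  by_cases hw : w = v
  · subst hw
    rw [prim_apply_self]
    omega
  · rw [prim_apply_of_ne hw]
    exact hw0

/-- `L(D)` is finite-dimensional of dimension `≤ deg D + 1` for effective `D`. -/
theorem finite_and_ell_le_of_nonneg (h : Hyp K F) :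
    ∀ (n : ℕ) (D : Divisor K F), 0 ≤ D → Divisor.degree D ≤ n →
      Module.Finite K (riemannRochSpace D) ∧ (ell D : ℤ) ≤ Divisor.degree D + 1 := by
  intro n
  induction n with
  | zero =>
    intro D hD hdeg
    have hD0 : D = 0 := by
      by_contra hne
      obtain ⟨v, hv⟩ := Finsupp.support_nonempty_iff.mpr hne
      rw [Finsupp.mem_support_iff] at hv
      have := degree_mono (prim_le_of_pos hD hv)
      rw [degree_prim v (h.deg_eq_one v)] at this
      push_cast at hdeg
      omega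
    subst hD0
    refine ⟨finite_L_zero h, ?_⟩
    rw [ell_zero_eq h, map_zero]
    norm_num
  | succ n ih =>
    intro D hD hdeg
    by_cases hD0 : D = 0
    · subst hD0
      refine ⟨finite_L_zero h, ?_⟩
      rw [ell_zero_eq h, map_zero]
      norm_num
    obtain ⟨v, hv⟩ := Finsupp.support_nonempty_iff.mpr hD0
    rw [Finsupp.mem_support_iff] at hv
    have hle := prim_le_of_pos hD hv
    have hD' : 0 ≤ D - prim v := sub_nonneg.mpr hle
    have hdeg' : Divisor.degree (D - prim v) ≤ n := by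
      rw [map_sub, degree_prim v (h.deg_eq_one v)]
      push_cast at hdeg
      omega
    obtain ⟨hfin, hell⟩ := ih (D - prim v) hD' hdeg'
    have := L_add_prim_finite v (h.deg_eq_one v) (D - prim v)
    rw [sub_add_cancel] at this
    refine ⟨this.1, ?_⟩
    have h2 := this.2
    rw [map_sub, degree_prim v (h.deg_eq_one v)] at hell
    have h3 : (ell D : ℤ) ≤ (ell (D - prim v) : ℤ) + 1 := by exact_mod_cast h2
    omega

theorem finite_L_of_nonneg (h : Hyp K F) {D : Divisor K F} (hD : 0 ≤ D) :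
    Module.Finite K (riemannRochSpace D) :=
  (finite_and_ell_le_of_nonneg h (Divisor.degree D).toNat D hD (Int.self_le_toNat _)).1

theorem ell_le_of_nonneg (h : Hyp K F) {D : Divisor K F} (hD : 0 ≤ D) :
    (ell D : ℤ) ≤ Divisor.degree D + 1 :=
  (finite_and_ell_le_of_nonneg h (Divisor.degree D).toNat D hD (Int.self_le_toNat _)).2

/-- `L(D)` is finite-dimensional for every divisor `D`. -/
theorem finite_L (h : Hyp K F) (D : Divisor K F) : Module.Finite K (riemannRochSpace D) := by
  have hle : D ≤ D ⊔ 0 := le_sup_left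
  have hfin := finite_L_of_nonneg h (D := D ⊔ 0) le_sup_right
  exact Submodule.finiteDimensional_of_le (L_mono hle)

end Fermat.Agent.Lib.RR.H443

end
end
-- ===== PACK-END Lib/RR/H443/LSpace.lean

-- ===== PACK-BEGIN Lib/RR/H443/Degree.lean
section


/-!
# RR bridge (helper443), part 3: `deg (x)_∞ = [F : K(x)]` and `HasPrincipalDivisors`

Characteristic-free.  From `Hyp K F` and the bound `ZerosBound K F` (layer L2 of the RR library:
zeros of `x` counted with multiplicity are at most `[F : K(x)]`) we deduce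

* finiteness of the zeros and poles of every function;
* `[F : K(x)] ≤ deg (x)_∞` (Stichtenoth 1.4.11), hence equality;
* every principal divisor has degree `0`, i.e. `HasPrincipalDivisors K F`, and `FF1 K F`.
-/

set_option autoImplicit false

noncomputable section

open AlgebraicCurve Polynomial IntermediateField
open Fermat.Agent.Lib.RR

namespace Fermat.Agent.Lib.RR.H443

variable {K F : Type*} [Field K] [Field F] [Algebra K F]

variable (K F) in
/-- The statement of layer L2 of the RR library. -/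
def ZerosBound : Prop :=
  ∀ (x : F) [FiniteDimensional K⟮x⟯ F] (S : Finset (Place K F)), (∀ v ∈ S, 0 < v.ord x) →
    ∑ v ∈ S, v.ord x ≤ (Module.finrank K⟮x⟯ F : ℤ)

/-! ### Finiteness of zeros and poles -/

theorem finite_zeros_of_finite (hZ : ZerosBound K F) (x : F) [FiniteDimensional K⟮x⟯ F] :
    {v : Place K F | 0 < v.ord x}.Finite := by
  by_contra hinf
  have hinf' : {v : Place K F | 0 < v.ord x}.Infinite := hinf
  obtain ⟨S, hS, hcard⟩ := hinf'.exists_subset_card_eq (Module.finrank K⟮x⟯ F + 1)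
  have h1 := hZ x S (fun v hv => hS hv)
  have h2 : (S.card : ℤ) ≤ ∑ v ∈ S, v.ord x := by
    have : ∑ _v ∈ S, (1 : ℤ) ≤ ∑ v ∈ S, v.ord x :=
      Finset.sum_le_sum fun v hv => by
        have : 0 < v.ord x := hS hv
        omega
    simpa using this
  rw [hcard] at h2
  push_cast at h2
  omega

theorem transcendental_inv {f : F} (hf : Transcendental K f) : Transcendental K f⁻¹ :=
  fun h => hf (by simpa using h.inv)

theorem adjoin_inv_eq (f : F) : K⟮f⁻¹⟯ = K⟮f⟯ := by
  apply le_antisymm
  · rw [adjoin_simple_le_iff]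
    exact inv_mem (mem_adjoin_simple_self K f)
  · rw [adjoin_simple_le_iff]
    have h2 : (f⁻¹)⁻¹ ∈ K⟮f⁻¹⟯ := inv_mem (mem_adjoin_simple_self K f⁻¹)
    rwa [inv_inv] at h2

theorem finrank_adjoin_inv (f : F) : Module.finrank K⟮f⁻¹⟯ F = Module.finrank K⟮f⟯ F :=
  congrArg (fun E : IntermediateField K F => Module.finrank E F) (_root_.Fermat.Agent.Lib.RR.H443.adjoin_inv_eq f)

theorem ord_eq_zero_of_isAlgebraic (h : Hyp K F) {f : F} (hf : IsAlgebraic K f)
    (v : Place K F) : v.ord f = 0 := by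
  obtain ⟨c, rfl⟩ := h.const f hf
  exact ord_algebraMap v c

theorem finite_zeros (h : Hyp K F) (hZ : ZerosBound K F) (f : F) :
    {v : Place K F | 0 < v.ord f}.Finite := by
  by_cases hf : Transcendental K f
  · have := h.finite f hf
    exact finite_zeros_of_finite hZ f
  · have hf' : IsAlgebraic K f := by
      by_contra hna
      exact hf hna
    have : {v : Place K F | 0 < v.ord f} = ∅ := by
      ext v
      simp [ord_eq_zero_of_isAlgebraic h hf' v]
    rw [this]
    exact Set.finite_empty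

theorem finite_poles (h : Hyp K F) (hZ : ZerosBound K F) (f : F) :
    {v : Place K F | v.ord f < 0}.Finite := by
  refine (finite_zeros h hZ f⁻¹).subset fun v hv => ?_
  have hv' : v.ord f < 0 := hv
  show 0 < v.ord f⁻¹
  rw [v.ord_inv]
  omega

/-! ### The pole divisor -/

/-- The pole divisor `(f)_∞`. -/
def poleDiv (h : Hyp K F) (hZ : ZerosBound K F) (f : F) : Divisor K F :=
  Finsupp.ofSupportFinite (fun v => max 0 (-v.ord f)) <| by
    refine (finite_poles h hZ f).subset fun v hv => ?_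
    have hv' : max 0 (-v.ord f) ≠ 0 := hv
    show v.ord f < 0
    by_contra hcon
    apply hv'
    rw [max_eq_left]
    omega

@[simp]
theorem poleDiv_apply (h : Hyp K F) (hZ : ZerosBound K F) (f : F) (v : Place K F) :
    poleDiv h hZ f v = max 0 (-v.ord f) := rfl

theorem poleDiv_nonneg (h : Hyp K F) (hZ : ZerosBound K F) (f : F) : 0 ≤ poleDiv h hZ f := by
  rw [Finsupp.le_def]
  intro v
  simp

theorem mem_support_poleDiv (h : Hyp K F) (hZ : ZerosBound K F) (f : F) (v : Place K F) :
    v ∈ (poleDiv h hZ f).support ↔ v.ord f < 0 := by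
  rw [Finsupp.mem_support_iff, poleDiv_apply]
  constructor
  · intro hne
    by_contra hcon
    apply hne
    rw [max_eq_left]
    omega
  · intro hlt
    rw [max_eq_right (by omega)]
    omega

theorem degree_poleDiv (h : Hyp K F) (hZ : ZerosBound K F) (f : F) :
    Divisor.degree (poleDiv h hZ f) = ∑ v ∈ (poleDiv h hZ f).support, v.ord f⁻¹ := by
  rw [degree_eq_sum]
  refine Finset.sum_congr rfl fun v hv => ?_
  rw [mem_support_poleDiv] at hv
  rw [h.deg_eq_one v, poleDiv_apply, v.ord_inv, max_eq_right (by omega)]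
  simp

/-- `deg (x)_∞ ≤ [F : K(x)]`, from the zeros bound applied to `x⁻¹`. -/
theorem degree_poleDiv_le (h : Hyp K F) (hZ : ZerosBound K F) {x : F}
    (hx : Transcendental K x) :
    Divisor.degree (poleDiv h hZ x) ≤ (@Module.finrank K⟮x⟯ F _ _ _ : ℤ) := by
  have := h.finite x⁻¹ (transcendental_inv hx)
  rw [degree_poleDiv, ← finrank_adjoin_inv x]
  refine hZ x⁻¹ _ fun v hv => ?_
  rw [mem_support_poleDiv] at hv
  rw [v.ord_inv]
  omega

/-! ### The lower bound -/

theorem linearIndependent_pow_of_transcendental {A : Type*} [Ring A] [Algebra K A] {a : A}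
    (ha : Transcendental K a) (l : ℕ) :
    LinearIndependent K fun i : Fin (l + 1) => a ^ (i : ℕ) := by
  rw [Fintype.linearIndependent_iff]
  intro g hg i
  have hinj := transcendental_iff_injective.mp ha
  have hp : aeval a (∑ i : Fin (l + 1), Polynomial.monomial (i : ℕ) (g i)) = 0 := by
    rw [map_sum]
    simp_rw [aeval_monomial, ← Algebra.smul_def]
    exact hg
  have hp0 : (∑ i : Fin (l + 1), Polynomial.monomial (i : ℕ) (g i)) = 0 :=
    hinj (by rw [hp, map_zero])
  have := congrArg (fun q : K[X] => q.coeff (i : ℕ)) hp0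
  simp only [Polynomial.finsetSum_coeff, Polynomial.coeff_monomial, Polynomial.coeff_zero] at this
  rw [Finset.sum_eq_single i] at this
  · simpa using this
  · intro j _ hji
    rw [if_neg]
    exact fun h => hji (Fin.ext h)
  · intro hi
    exact absurd (Finset.mem_univ i) hi

set_option maxHeartbeats 800000 in
/-- The products `x ^ i * b j` (`i ≤ l`, `b` a `K(x)`-basis of `F`) are `K`-linearly
independent. -/
theorem linearIndependent_pow_mul_basis {x : F} (hx : Transcendental K x)
    [FiniteDimensional K⟮x⟯ F] (l : ℕ) :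
    LinearIndependent K fun p : Fin (l + 1) × Fin (Module.finrank K⟮x⟯ F) =>
      x ^ (p.1 : ℕ) * (Module.finBasis K⟮x⟯ F p.2 : F) := by
  have hgen : Transcendental K (AdjoinSimple.gen K x) := by
    rw [← transcendental_algebraMap_iff (algebraMap K⟮x⟯ F).injective]
    exact hx
  have h1 := linearIndependent_pow_of_transcendental hgen l
  have h2 := (Module.finBasis K⟮x⟯ F).linearIndependent
  have h3 := linearIndependent_smul h1 h2
  convert h3 using 2 with p
  rw [Algebra.smul_def]
  simp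

/-- `[F : K(x)] ≤ deg (x)_∞` (Stichtenoth, Thm. 1.4.11). -/
theorem finrank_le_degree_poleDiv (h : Hyp K F) (hZ : ZerosBound K F) {x : F}
    (hx : Transcendental K x) :
    (@Module.finrank K⟮x⟯ F _ _ _ : ℤ) ≤ Divisor.degree (poleDiv h hZ x) := by
  classical
  have hfinx := h.finite x hx
  set n := Module.finrank K⟮x⟯ F with hn
  set B := poleDiv h hZ x with hB
  set C : Divisor K F := ∑ j : Fin n, poleDiv h hZ (Module.finBasis K⟮x⟯ F j : F) with hC
  have hB0 : 0 ≤ B := poleDiv_nonneg h hZ x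
  have hC0 : 0 ≤ C := Finset.sum_nonneg fun j _ => poleDiv_nonneg h hZ _
  have hx0 : x ≠ 0 := fun h0 => hx (h0 ▸ isAlgebraic_zero)
  -- the key inequality for every `l`
  have key : ∀ l : ℕ, ((l + 1) * n : ℤ) ≤ l * Divisor.degree B + Divisor.degree C + 1 := by
    intro l
    have hD0 : 0 ≤ l • B + C := add_nonneg (nsmul_nonneg hB0 l) hC0
    have hfin := finite_L_of_nonneg h hD0
    have hell := ell_le_of_nonneg h hD0
    have hli := linearIndependent_pow_mul_basis hx l
    have hmem : ∀ p : Fin (l + 1) × Fin n,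
        x ^ (p.1 : ℕ) * (Module.finBasis K⟮x⟯ F p.2 : F) ∈ riemannRochSpace (l • B + C) := by
      rintro ⟨i, j⟩
      rw [mem_L_iff]
      intro v
      right
      have hbj : (Module.finBasis K⟮x⟯ F j : F) ≠ 0 := (Module.finBasis K⟮x⟯ F).ne_zero j
      rw [v.ord_mul (pow_ne_zero _ hx0) hbj, ord_pow]
      have hBv : B v = max 0 (-v.ord x) := rfl
      have hCv : max 0 (-v.ord (Module.finBasis K⟮x⟯ F j : F)) ≤ C v := by
        rw [hC, Finsupp.finsetSum_apply]
        have : poleDiv h hZ (Module.finBasis K⟮x⟯ F j : F) v ≤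
            ∑ j' : Fin n, poleDiv h hZ (Module.finBasis K⟮x⟯ F j' : F) v :=
          Finset.single_le_sum
            (f := fun j' => poleDiv h hZ (Module.finBasis K⟮x⟯ F j' : F) v)
            (fun j' _ => by simp) (Finset.mem_univ j)
        simpa using this
      have hi : (i : ℕ) ≤ l := Nat.lt_succ_iff.mp i.2
      have hval : (l • B + C) v = (l : ℤ) * B v + C v := by
        rw [Finsupp.add_apply, Finsupp.smul_apply, nsmul_eq_mul]
      rw [hval, hBv]
      have h1 : ((i : ℕ) : ℤ) * max 0 (-v.ord x) ≤ (l : ℤ) * max 0 (-v.ord x) :=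
        mul_le_mul_of_nonneg_right (by exact_mod_cast hi) (le_max_left _ _)
      have h2 : -(((i : ℕ) : ℤ) * max 0 (-v.ord x)) ≤ ((i : ℕ) : ℤ) * v.ord x := by
        have h3 : -v.ord x ≤ max 0 (-v.ord x) := le_max_right _ _
        have h4 : (0 : ℤ) ≤ ((i : ℕ) : ℤ) := Int.natCast_nonneg _
        nlinarith
      have h5 : -v.ord (Module.finBasis K⟮x⟯ F j : F) ≤
          max 0 (-v.ord (Module.finBasis K⟮x⟯ F j : F)) := le_max_right _ _
      push_cast
      linarith
    -- count
    let g : Fin (l + 1) × Fin n → riemannRochSpace (l • B + C) := fun p => ⟨_, hmem p⟩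
    have hli' : LinearIndependent K g := by
      apply LinearIndependent.of_comp (riemannRochSpace (l • B + C)).subtype
      exact hli
    have hcard := hli'.fintype_card_le_finrank
    rw [Fintype.card_prod, Fintype.card_fin, Fintype.card_fin] at hcard
    have hdeg : Divisor.degree (l • B + C) = l * Divisor.degree B + Divisor.degree C := by
      rw [map_add, map_nsmul, nsmul_eq_mul]
    have hcard' : (((l + 1) * n : ℕ) : ℤ) ≤ (ell (l • B + C) : ℤ) := by exact_mod_cast hcard
    rw [hdeg] at hell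
    push_cast at hcard'
    linarith
  -- conclude
  by_contra hcon
  rw [not_le] at hcon
  have hdC : 0 ≤ Divisor.degree C := degree_nonneg hC0
  have hdB : 0 ≤ Divisor.degree B := degree_nonneg hB0
  have hk := key ((Divisor.degree C).toNat + 1)
  have hl : ((Divisor.degree C).toNat : ℤ) = Divisor.degree C := Int.toNat_of_nonneg hdC
  push_cast at hk
  rw [hl] at hk
  have hn1 : 0 ≤ (n : ℤ) - Divisor.degree B - 1 := by omega
  have hC2 : 0 ≤ Divisor.degree C + 2 := by omega
  nlinarith [mul_nonneg hC2 hn1]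

/-- **The degree of the pole divisor** of a transcendental `x` is `[F : K(x)]`. -/
theorem degree_poleDiv_eq (h : Hyp K F) (hZ : ZerosBound K F) {x : F}
    (hx : Transcendental K x) :
    Divisor.degree (poleDiv h hZ x) = (@Module.finrank K⟮x⟯ F _ _ _ : ℤ) :=
  le_antisymm (degree_poleDiv_le h hZ hx) (finrank_le_degree_poleDiv h hZ hx)

/-! ### Principal divisors -/

/-- The divisor of a function. -/
def divFun (h : Hyp K F) (hZ : ZerosBound K F) (f : F) : Divisor K F :=
  poleDiv h hZ f⁻¹ - poleDiv h hZ f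

theorem divFun_apply (h : Hyp K F) (hZ : ZerosBound K F) (f : F) (v : Place K F) :
    divFun h hZ f v = v.ord f := by
  simp only [divFun, Finsupp.coe_sub, Pi.sub_apply, poleDiv_apply, v.ord_inv, neg_neg]
  rcases le_total 0 (v.ord f) with h0 | h0
  · rw [max_eq_right h0, max_eq_left (by omega)]
    ring
  · rw [max_eq_left h0, max_eq_right (by omega)]
    ring

theorem degree_divFun (h : Hyp K F) (hZ : ZerosBound K F) (f : F) :
    Divisor.degree (divFun h hZ f) = 0 := by
  by_cases hf : Transcendental K f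
  · rw [divFun, map_sub, degree_poleDiv_eq h hZ hf,
      degree_poleDiv_eq h hZ (transcendental_inv hf), finrank_adjoin_inv]
    ring
  · have hf' : IsAlgebraic K f := by
      by_contra hna
      exact hf hna
    have : divFun h hZ f = 0 := by
      ext v
      rw [divFun_apply, ord_eq_zero_of_isAlgebraic h hf' v]
      rfl
    rw [this, map_zero]

/-- **Principal divisors have degree zero** — in any characteristic. -/
theorem hasPrincipalDivisors (h : Hyp K F) (hZ : ZerosBound K F) : HasPrincipalDivisors K F :=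
  ⟨fun f _ => ⟨divFun h hZ f, divFun_apply h hZ f, degree_divFun h hZ f⟩⟩

/-- The bridge: the standing hypotheses `FF1` of the RR library. -/
theorem ff1_of_hyp (h : Hyp K F) (hZ : ZerosBound K F) {x : F} (hx : Transcendental K x) :
    FF1 K F where
  hpd := hasPrincipalDivisors h hZ
  deg_eq_one := h.deg_eq_one
  nonempty_place := by
    obtain ⟨v, -⟩ := exists_place_ord_pos h.finite hx
    exact ⟨v⟩
  exists_finite := ⟨x, hx, h.finite x hx⟩

/-- **Fundamental identity at the zeros**: `∑_{v(x) > 0} ord_v x = [F : K(x)]`. -/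
theorem sum_ord_zeros_eq_finrank (h : Hyp K F) (hZ : ZerosBound K F) {x : F}
    (hx : Transcendental K x) (S : Finset (Place K F)) (hS : ∀ v, v ∈ S ↔ 0 < v.ord x) :
    ∑ v ∈ S, v.ord x = (@Module.finrank K⟮x⟯ F _ _ _ : ℤ) := by
  have h1 := degree_poleDiv_eq h hZ (transcendental_inv hx)
  rw [finrank_adjoin_inv, degree_poleDiv, inv_inv] at h1
  rw [← h1]
  refine Finset.sum_congr ?_ fun _ _ => rfl
  ext v
  rw [hS, mem_support_poleDiv, v.ord_inv]
  omega

/-- **Fundamental identity at the poles**: `∑_{v(x) < 0} -ord_v x = [F : K(x)]`. -/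
theorem sum_ord_poles_eq_finrank (h : Hyp K F) (hZ : ZerosBound K F) {x : F}
    (hx : Transcendental K x) (S : Finset (Place K F)) (hS : ∀ v, v ∈ S ↔ v.ord x < 0) :
    ∑ v ∈ S, -v.ord x = (@Module.finrank K⟮x⟯ F _ _ _ : ℤ) := by
  have h1 := degree_poleDiv_eq h hZ hx
  rw [degree_poleDiv] at h1
  rw [← h1]
  refine Finset.sum_congr ?_ fun v _ => ?_
  · ext v
    rw [hS, mem_support_poleDiv]
  · rw [v.ord_inv]

end Fermat.Agent.Lib.RR.H443

end
end
-- ===== PACK-END Lib/RR/H443/Degree.lean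

-- ===== PACK-BEGIN Lib/RR/H443/Bridge.lean
section




/-!
# RR bridge (helper443), part 4: `FF1 K F` in ANY characteristic

For `K` algebraically closed (of any characteristic) and `F` a finite extension of `K(x)`, `x`
transcendental over `K`:

* `hasPrincipalDivisors_of_isAlgClosed` : `HasPrincipalDivisors K F`
  (finitely many zeros and poles, principal divisors have degree `0`);
* `ff1_of_isAlgClosed` : the standing hypotheses `FF1 K F` of the RR library;
* `sum_ord_zeros_eq_finrank'`, `sum_ord_poles_eq_finrank'` : the fundamental identity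
  `∑_{v(x) > 0} ord_v x = [F : K(x)] = ∑_{v(x) < 0} -ord_v x`;
* `exists_place_ord_pos'`, `exists_place_ord_neg'` : existence of zeros and poles.

No separability, no Dedekind domains: only valuation theory (Stichtenoth, Ch. 1).
-/

set_option autoImplicit false

noncomputable section

open AlgebraicCurve Polynomial IntermediateField
open Fermat.Agent.Lib.RR

namespace Fermat.Agent.Lib.RR.H443

variable {K F : Type*} [Field K] [Field F] [Algebra K F]

/-- Layer L2 of the RR library gives the zeros bound. -/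
theorem zerosBound (hdeg : ∀ v : Place K F, v.deg = 1) : ZerosBound K F :=
  fun x _ S hS => sum_ord_le_finrank hdeg x S hS

variable [IsAlgClosed K]

/-- The hypotheses of the bridge hold over an algebraically closed constant field. -/
theorem hyp_of_isAlgClosed {x : F} (hx : Transcendental K x) [FiniteDimensional K⟮x⟯ F] :
    Hyp K F where
  deg_eq_one := fun v => S24.FF.deg_eq_one v hx
  finite := fun _ hy => S24.FF.finiteDimensional_adjoin_of_transcendental hx hy
  const := fun _ hf => S24.FF.mem_range_of_isAlgebraic hf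

/-- **`FF1 K F` in any characteristic.** -/
theorem ff1_of_isAlgClosed {x : F} (hx : Transcendental K x) [FiniteDimensional K⟮x⟯ F] :
    FF1 K F :=
  ff1_of_hyp (hyp_of_isAlgClosed hx) (zerosBound (hyp_of_isAlgClosed hx).deg_eq_one) hx

/-- **`HasPrincipalDivisors K F` in any characteristic.** -/
theorem hasPrincipalDivisors_of_isAlgClosed {x : F} (hx : Transcendental K x)
    [FiniteDimensional K⟮x⟯ F] : HasPrincipalDivisors K F :=
  hasPrincipalDivisors (hyp_of_isAlgClosed hx) (zerosBound (hyp_of_isAlgClosed hx).deg_eq_one)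

/-- Every place has degree one. -/
theorem deg_eq_one_of_isAlgClosed {x : F} (hx : Transcendental K x) [FiniteDimensional K⟮x⟯ F]
    (v : Place K F) : v.deg = 1 :=
  S24.FF.deg_eq_one v hx

/-- Every nonconstant function has a zero. -/
theorem exists_place_ord_pos' {x : F} (hx : Transcendental K x) [FiniteDimensional K⟮x⟯ F]
    {t : F} (ht : Transcendental K t) : ∃ v : Place K F, 0 < v.ord t :=
  exists_place_ord_pos (hyp_of_isAlgClosed hx).finite ht

/-- Every nonconstant function has a pole. -/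
theorem exists_place_ord_neg' {x : F} (hx : Transcendental K x) [FiniteDimensional K⟮x⟯ F]
    {t : F} (ht : Transcendental K t) : ∃ v : Place K F, v.ord t < 0 :=
  exists_place_ord_neg (hyp_of_isAlgClosed hx).finite ht

/-- Finitely many zeros and poles. -/
theorem finite_setOf_ord_ne_zero {x : F} (hx : Transcendental K x) [FiniteDimensional K⟮x⟯ F]
    (f : F) : {v : Place K F | v.ord f ≠ 0}.Finite := by
  have h := hyp_of_isAlgClosed hx
  have hZ := zerosBound h.deg_eq_one
  refine ((finite_zeros h hZ f).union (finite_poles h hZ f)).subset fun v hv => ?_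
  have hv' : v.ord f ≠ 0 := hv
  rcases lt_or_gt_of_ne hv' with h1 | h1
  · exact Or.inr h1
  · exact Or.inl h1

/-- **Fundamental identity at the zeros** (any characteristic). -/
theorem sum_ord_zeros_eq_finrank' {x : F} (hx : Transcendental K x) [FiniteDimensional K⟮x⟯ F]
    (S : Finset (Place K F)) (hS : ∀ v, v ∈ S ↔ 0 < v.ord x) :
    ∑ v ∈ S, v.ord x = (Module.finrank K⟮x⟯ F : ℤ) :=
  sum_ord_zeros_eq_finrank (hyp_of_isAlgClosed hx)
    (zerosBound (hyp_of_isAlgClosed hx).deg_eq_one) hx S hS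

/-- **Fundamental identity at the poles** (any characteristic). -/
theorem sum_ord_poles_eq_finrank' {x : F} (hx : Transcendental K x) [FiniteDimensional K⟮x⟯ F]
    (S : Finset (Place K F)) (hS : ∀ v, v ∈ S ↔ v.ord x < 0) :
    ∑ v ∈ S, -v.ord x = (Module.finrank K⟮x⟯ F : ℤ) :=
  sum_ord_poles_eq_finrank (hyp_of_isAlgClosed hx)
    (zerosBound (hyp_of_isAlgClosed hx).deg_eq_one) hx S hS

/-- Every valuation subring `≠ ⊤` of `F` containing `K` is (the ring of) a place. -/
theorem exists_place_eq (O : ValuationSubring F) (hK : ∀ a : K, algebraMap K F a ∈ O)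
    (hO : O ≠ ⊤) {x : F} (hx : Transcendental K x) [FiniteDimensional K⟮x⟯ F] :
    ∃ v : Place K F, v.toValuationSubring = O :=
  ⟨placeOfValuationSubring O hK hO (hyp_of_isAlgClosed hx).finite, rfl⟩

end Fermat.Agent.Lib.RR.H443

end
end
-- ===== PACK-END Lib/RR/H443/Bridge.lean

-- ===== PACK-BEGIN S37/H697/Pic0Level.lean
section


/-!
# S37 (helper697): equivariance and the Eichler–Shimura relation on `Pic⁰`

Consequences of `Equivariant.lean` / `Relation.lean` for the reduction map
`reductionPic0Along r hr hgen : Pic⁰(F_N ⊗ L) → Pic⁰(F_{N,k})`: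

* `reductionPic0Along_galois_smul` : `red (σ • x) = Φ_φ • red x` if `σ` preserves `A` and induces
  `φ` on the residue field (only a Riemann bound is used: no non-constancy, no degree hypotheses);
* `reductionPic0Along_hecke` : `red (T_ℓ x) = Φ • red x + ℓ • Φ⁻¹ • red x` from the Kronecker
  congruence for norms.
-/

set_option autoImplicit false
set_option linter.style.haveILetI false

noncomputable section

open HahnSeries IntermediateField AlgebraicCurve ModularCurve

namespace Fermat.Agent.S37.H697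

section Equivariance

variable {L : Type*} [Field L] [Algebra ℚ L] {A : ValuationSubring L}
variable {k : Type*} [Field k] {π : A →+* k} {N : ℕ}

/-- Equivariance on divisors of degree zero, from a Riemann bound only. -/
theorem mapDomain_smul_of_degree_eq_zero
    {r : Place L (laurentBaseChange L (modularFunctionFieldFull N)) →
      Place k (modularFunctionFieldFullC k N)}
    (hr : IsPlaceReductionAlong A π N r) (hgen : PrincipalGeneratedByIntegral A π N)
    (hR : RiemannBound L (laurentBaseChange L (modularFunctionFieldFull N)))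
    (σ : L ≃ₐ[ℚ] L) (hσ : ∀ a ∈ A, σ a ∈ A)
    (φ : k ≃+* k) (hφ : ∀ a : A, π ⟨σ a, hσ a a.2⟩ = φ (π a))
    (D : Divisor L (laurentBaseChange L (modularFunctionFieldFull N)))
    (hD : Divisor.degree D = 0) :
    Finsupp.mapDomain r (arithmeticGalois (modularFunctionFieldFull N) σ • D)
      = coeffSL N φ • Finsupp.mapDomain r D := by
  set g := arithmeticGalois (modularFunctionFieldFull N) σ with hg
  set Φ := coeffSL N φ with hΦ
  set r₂ : Place L (laurentBaseChange L (modularFunctionFieldFull N)) →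
      Place k (modularFunctionFieldFullC k N) := fun P => Φ⁻¹ • r (g • P) with hr₂
  have hcomp : ∀ D : Divisor L (laurentBaseChange L (modularFunctionFieldFull N)),
      Finsupp.mapDomain r₂ D = Φ⁻¹ • Finsupp.mapDomain r (g • D) := by
    intro D
    have : r₂ = (fun Q => Φ⁻¹ • Q) ∘ r ∘ (fun P => g • P) := rfl
    rw [this, Finsupp.mapDomain_comp, Finsupp.mapDomain_comp]
    rfl
  have hagree : ∀ D ∈ integralPrincipalDivisors A π N,
      Finsupp.mapDomain r D = Finsupp.mapDomain r₂ D := by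
    intro D hD
    rw [hcomp, smul_integral_divisor hr σ hσ φ hφ hD, inv_smul_smul]
  have h := mapDomain_eq_of_agree hgen hagree hR D hD
  rw [hcomp] at h
  rw [h, smul_inv_smul]

/-- **Equivariance of the reduction map on `Pic⁰`.** -/
theorem reductionPic0Along_galois_smul
    {r : Place L (laurentBaseChange L (modularFunctionFieldFull N)) →
      Place k (modularFunctionFieldFullC k N)}
    (hr : IsPlaceReductionAlong A π N r) (hgen : PrincipalGeneratedByIntegral A π N)
    (hR : RiemannBound L (laurentBaseChange L (modularFunctionFieldFull N)))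
    (σ : L ≃ₐ[ℚ] L) (hσ : ∀ a ∈ A, σ a ∈ A)
    (φ : k ≃+* k) (hφ : ∀ a : A, π ⟨σ a, hσ a a.2⟩ = φ (π a))
    (x : Pic0 L (laurentBaseChange L (modularFunctionFieldFull N))) :
    reductionPic0Along r hr hgen (σ • x) = coeffSL N φ • reductionPic0Along r hr hgen x := by
  obtain ⟨D, rfl⟩ := Pic0.mk_surjective x
  rw [galois_smul_pic0_def, SemilinearAut.pic0_smul_mk, reductionPic0Along_mk,
    reductionPic0Along_mk, SemilinearAut.pic0_smul_mk]
  refine congrArg Pic0.mk (Subtype.ext ?_)
  rw [coe_reductionDegZeroAlong, SemilinearAut.coe_degZeroSMulHom,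
    SemilinearAut.coe_degZeroSMulHom, coe_reductionDegZeroAlong]
  exact mapDomain_smul_of_degree_eq_zero hr hgen hR σ hσ φ hφ _ (Divisor.mem_degZero.mp D.2)

end Equivariance

section Hecke

variable {L : Type*} [Field L] [Algebra ℚ L] {A : ValuationSubring L}
variable {k : Type*} [Field k] {π : A →+* k} {N ℓ : ℕ} [NeZero N] [NeZero ℓ]
variable (hα : HeckeAlphaBarIntegral L N ℓ) (hβ : HeckeBetaBarIntegral L N ℓ)
variable [HasPrincipalDivisors L (laurentBaseChange L (modularFunctionFieldFull (N * ℓ)))]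

/-- **Eichler–Shimura relation on `Pic⁰`.** -/
theorem reductionPic0Along_hecke
    {r : Place L (laurentBaseChange L (modularFunctionFieldFull N)) →
      Place k (modularFunctionFieldFullC k N)}
    (hr : IsPlaceReductionAlong A π N r) (hgen : PrincipalGeneratedByIntegral A π N)
    (hR : RiemannBound L (laurentBaseChange L (modularFunctionFieldFull N)))
    (hFI : FundamentalIdentityAlong L (heckeBetaBar L N ℓ) hβ)
    (hfin : FiniteAlong L (heckeAlphaBar L N ℓ))
    (hN : NormFormulaAlong L (heckeAlphaBar L N ℓ) hfin)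
    (φ : k ≃+* k) (hK : KroneckerNorm A π N ℓ φ)
    (C : ℕ) (hC : ∀ P : Place L (laurentBaseChange L (modularFunctionFieldFull N)),
      l1norm (heckeDivBar hα hβ (Finsupp.single P 1)) ≤ C)
    (x : Pic0 L (laurentBaseChange L (modularFunctionFieldFull N))) :
    reductionPic0Along r hr hgen (heckePic0Bar hα hβ hFI hfin hN x)
      = coeffSL N φ • reductionPic0Along r hr hgen x
        + ℓ • ((coeffSL N φ)⁻¹ • reductionPic0Along r hr hgen x) := by
  obtain ⟨D, rfl⟩ := Pic0.mk_surjective x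
  have h1 : heckePic0Bar hα hβ hFI hfin hN (Pic0.mk D)
      = Pic0.mk (Pic0.degZeroCorrespondence (heckeBetaBar L N ℓ) (heckeAlphaBar L N ℓ) hβ hα hFI D) :=
    rfl
  have hmk : ∀ (n : ℕ) (E : Divisor.degZero (K := k) (F := modularFunctionFieldFullC k N)),
      n • Pic0.mk E = Pic0.mk (n • E) := fun n E => (QuotientAddGroup.mk_nsmul _ E n).symm
  rw [h1, reductionPic0Along_mk, reductionPic0Along_mk, SemilinearAut.pic0_smul_mk,
    SemilinearAut.pic0_smul_mk, hmk, ← Pic0.mk_add]
  refine congrArg Pic0.mk (Subtype.ext ?_)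
  exact relation_divisor hα hβ hr hgen hR hfin hN φ hK C hC D (Divisor.mem_degZero.mp D.2)

end Hecke

end Fermat.Agent.S37.H697

end
end
-- ===== PACK-END S37/H697/Pic0Level.lean

-- ===== PACK-BEGIN S17/H710/ConePoints.lean
section



/-!
# S17 / tower H, leaf (G1): the points of the projective cone of a curve are places

`K` algebraically closed, `F / K` a function field of one variable, `x : ι → F` any family of
functions (in the application: a basis of `L(m ∞)`).  A point `y : ι → K` lies *on the cone* of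
`x` if it satisfies every homogeneous polynomial relation of `x`.

`exists_place_of_onCone` : if `y` is on the cone and `y j ≠ 0`, then `x j ≠ 0` and there is a place
`P` of `F` at which every `x i / x j` is regular with value `y i / y j`; i.e. `y` is (a scalar
multiple of) the coordinate vector of `P`.

This is the geometric input needed to apply the Nullstellensatz certificate `H500.NullCert`
"on the curve" (and, slot by slot, on `C^m`): the cone cut out by the homogeneous relations has no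
points besides the places.  Proof: homogenise relations, Lang's place extension theorem
(`H377.exists_isKPlace_extends`), every valuation ring of `F / K` is a place (`H443`).
-/

set_option autoImplicit false

noncomputable section

namespace Fermat.Agent.S17.H710

open AlgebraicCurve MvPolynomial IntermediateField

variable {K F : Type*} [Field K] [Field F] [Algebra K F] {ι : Type*}

/-- `y` satisfies all homogeneous relations of the family `x`. -/
def OnCone (x : ι → F) (y : ι → K) : Prop :=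
  ∀ (d : ℕ) (G : MvPolynomial ι K), G.IsHomogeneous d → aeval x G = 0 → eval y G = 0

/-- Evaluation of a homogeneous polynomial at a rescaled point. -/
theorem aeval_mul_of_isHomogeneous {S : Type*} [CommRing S] [Algebra K S]
    {p : MvPolynomial ι K} {N : ℕ} (hp : p.IsHomogeneous N) (c : S) (z : ι → S) :
    aeval (fun i => c * z i) p = c ^ N * aeval z p := by
  rw [aeval_def, aeval_def, eval₂_eq, eval₂_eq, Finset.mul_sum]
  refine Finset.sum_congr rfl fun m hm => ?_
  have hdeg : N = ∑ i ∈ m.support, m i := hp.degree_eq_sum_deg_support hm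
  have : ∏ i ∈ m.support, (c * z i) ^ m i = c ^ N * ∏ i ∈ m.support, z i ^ m i := by
    simp_rw [mul_pow]
    rw [Finset.prod_mul_distrib, Finset.prod_pow_eq_pow_sum, ← hdeg]
  rw [this]
  ring

/-- The homogenisation of `R` in degree `d` with respect to the variable `j`. -/
def homogenizeAt (j : ι) (d : ℕ) (R : MvPolynomial ι K) : MvPolynomial ι K :=
  ∑ k ∈ Finset.range (d + 1), homogeneousComponent k R * X j ^ (d - k)

theorem homogenizeAt_isHomogeneous (j : ι) (d : ℕ) (R : MvPolynomial ι K) :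
    (homogenizeAt j d R).IsHomogeneous d := by
  unfold homogenizeAt
  refine IsHomogeneous.sum _ _ _ fun k hk => ?_
  have hk' : k ≤ d := Nat.lt_succ_iff.mp (Finset.mem_range.mp hk)
  have h1 := (homogeneousComponent_isHomogeneous k R).mul (isHomogeneous_X_pow (R := K) j (d - k))
  have : k + (d - k) = d := by omega
  rwa [this] at h1

/-- Value of the homogenisation at a point with invertible `j`-th coordinate. -/
theorem aeval_homogenizeAt {S : Type*} [Field S] [Algebra K S] (j : ι) (d : ℕ)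
    (R : MvPolynomial ι K) (hR : R.totalDegree ≤ d) (z : ι → S) (hz : z j ≠ 0) :
    aeval z (homogenizeAt j d R) = z j ^ d * aeval (fun i => z i / z j) R := by
  have hsum : R = ∑ k ∈ Finset.range (d + 1), homogeneousComponent k R := by
    conv_lhs => rw [← sum_homogeneousComponent R]
    refine Finset.sum_subset ?_ ?_
    · intro k hk
      simp only [Finset.mem_range] at hk ⊢
      omega
    · intro k _ hk
      simp only [Finset.mem_range, not_lt] at hk
      exact homogeneousComponent_eq_zero _ _ (by omega)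
  have hz' : (fun i => z j * (z i / z j)) = z := by
    funext i
    field_simp
  conv_rhs => rw [hsum]
  unfold homogenizeAt
  simp only [map_sum, map_mul, map_pow, aeval_X, Finset.mul_sum]
  refine Finset.sum_congr rfl fun k hk => ?_
  have hk' : k ≤ d := Nat.lt_succ_iff.mp (Finset.mem_range.mp hk)
  have h1 := aeval_mul_of_isHomogeneous (homogeneousComponent_isHomogeneous k R) (z j)
    (fun i => z i / z j)
  rw [hz'] at h1
  rw [h1]
  have : z j ^ d = z j ^ k * z j ^ (d - k) := by
    rw [← pow_add]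
    congr 1
    omega
  rw [this]
  ring

variable [IsAlgClosed K]

/-- **(G1)** A point of the cone of `x` is the coordinate vector of a place. -/
theorem exists_place_of_onCone {t : F} (ht : Transcendental K t) [FiniteDimensional K⟮t⟯ F]
    (x : ι → F) (y : ι → K) (hy : OnCone x y) (j : ι) (hj : y j ≠ 0) :
    x j ≠ 0 ∧ ∃ P : Place K F, ∀ i,
      x i / x j - algebraMap K F (y i / y j) ∈ P.toValuationSubring.nonunits := by
  classical
  -- `x j ≠ 0`
  have hxj : x j ≠ 0 := by
    intro h0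
    apply hj
    have := hy 1 (X j) (isHomogeneous_X K j) (by simp [h0])
    simpa using this
  refine ⟨hxj, ?_⟩
  -- the chart
  let ψ : MvPolynomial ι K →ₐ[K] F := aeval (fun i => x i / x j)
  let χ : MvPolynomial ι K →ₐ[K] K := aeval (fun i => y i / y j)
  have hker : ∀ R : MvPolynomial ι K, ψ R = 0 → χ R = 0 := by
    intro R hR
    have h1 : aeval x (homogenizeAt j R.totalDegree R) = 0 := by
      rw [aeval_homogenizeAt j _ R le_rfl x hxj]
      show _ * ψ R = 0
      rw [hR, mul_zero]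
    have h2 := hy _ _ (homogenizeAt_isHomogeneous j R.totalDegree R) h1
    have h3 : aeval y (homogenizeAt j R.totalDegree R) = 0 := by
      rw [← h2, MvPolynomial.aeval_eq_eval]
    rw [aeval_homogenizeAt j _ R le_rfl y hj] at h3
    rcases mul_eq_zero.mp h3 with h | h
    · exact absurd h (pow_ne_zero _ hj)
    · exact h
  -- the induced hom on the range
  let B : Subalgebra K F := ψ.range
  have hφ : ∃ φ : B →ₐ[K] K, ∀ R : MvPolynomial ι K, φ ⟨ψ R, ⟨R, rfl⟩⟩ = χ R := by
    have hk : RingHom.ker (ψ.rangeRestrict : MvPolynomial ι K →+* B) ≤ RingHom.ker (χ : MvPolynomial ι K →+* K) := by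
      intro R hR
      rw [RingHom.mem_ker] at hR ⊢
      apply hker
      have := congrArg Subtype.val hR
      simpa using this
    refine ⟨AlgHom.liftOfSurjective ψ.rangeRestrict ψ.rangeRestrict_surjective χ hk, fun R => ?_⟩
    exact AlgHom.liftOfSurjective_apply ψ.rangeRestrict ψ.rangeRestrict_surjective χ hk R
  obtain ⟨φ, hφ⟩ := hφ
  obtain ⟨V, π, hVπ, hext⟩ := H377.exists_isKPlace_extends (K := K) B φ
  -- `V ≠ ⊤`
  have hV : V ≠ ⊤ := by
    intro htop
    have hall : ∀ z : F, z ∈ V := fun z => htop ▸ ValuationSubring.mem_top z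
    have h0 := hVπ.sub_mem_maximalIdeal ⟨t, hall t⟩
    set c : K := π ⟨t, hall t⟩ with hc
    have hne : t - algebraMap K F c ≠ 0 := by
      intro h
      apply ht
      rw [sub_eq_zero.mp h]
      exact isAlgebraic_algebraMap c
    have hu : IsUnit ((⟨t, hall t⟩ : V) - ⟨algebraMap K F c, hVπ.algebraMap_mem c⟩) := by
      rw [isUnit_iff_exists_inv]
      refine ⟨⟨(t - algebraMap K F c)⁻¹, hall _⟩, Subtype.ext ?_⟩
      show (t - algebraMap K F c) * (t - algebraMap K F c)⁻¹ = 1
      exact mul_inv_cancel₀ hne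
    exact (IsLocalRing.mem_maximalIdeal _).mp h0 hu
  obtain ⟨P, hP⟩ := Fermat.Agent.Lib.RR.H443.exists_place_eq V hVπ.algebraMap_mem hV ht
  refine ⟨P, fun i => ?_⟩
  have hb : ψ (X i) = x i / x j := by simp [ψ]
  obtain ⟨hmem, hval⟩ := hext ⟨ψ (X i), ⟨X i, rfl⟩⟩
  have hval' : π ⟨ψ (X i), hmem⟩ = y i / y j := by
    rw [hval, hφ]
    simp [χ]
  have h0 := hVπ.sub_mem_maximalIdeal ⟨ψ (X i), hmem⟩
  rw [hval'] at h0
  rw [hP]
  have : (x i / x j - algebraMap K F (y i / y j)) =
      ((⟨ψ (X i), hmem⟩ - ⟨algebraMap K F (y i / y j), hVπ.algebraMap_mem _⟩ : V) : F) := by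
    simp [hb]
  rw [this]
  exact ValuationSubring.coe_mem_nonunits_iff.mpr h0

end Fermat.Agent.S17.H710

end
end
-- ===== PACK-END S17/H710/ConePoints.lean

-- ===== PACK-BEGIN S37/H100/FibreCharpoly.lean
section




/-!
# S37 / E2 (helper100): the fibre formula for characteristic polynomials

`F'/F` a finite extension of function fields over an algebraically closed field `K` of
characteristic zero, all places of degree one.  Let `v` be a place of `F` and `g ∈ F'` with value
`a w ∈ K` at every place `w` of `F'` over `v` (i.e. `g - a w ∈ 𝔪_w`).  Then the characteristic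
polynomial of `g` over `F` has coefficients in `O_v` and its reduction modulo `𝔪_v` is
`∏_{w | v} (X - a w) ^ e(w | v)`.
-/

set_option autoImplicit false
set_option linter.unusedSectionVars false
set_option linter.style.haveILetI false

open AlgebraicCurve IsDedekindDomain Polynomial Module
open Fermat.Agent.Lib.FF398

namespace Fermat.Agent.S37.H100

variable {K F F' : Type*} [Field K] [Field F] [Field F'] [Algebra K F] [Algebra K F']
  [Algebra F F'] [IsScalarTower K F F'] [FiniteDimensional F F'] [CharZero F]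
variable (v : Place K F)

/-- The integral closure of `O_v` in `F'` is the intersection of the valuation rings of the
places over `v`. -/
theorem mem_intCl_of_forall_ord_nonneg (x : F')
    (h : ∀ w : Place K F', w.restrict F = v → 0 ≤ w.ord x) : x ∈ intCl F' v := by
  have hx := HeightOneSpectrum.mem_integers_of_valuation_le_one (R := intCl F' v) F' x
    (fun q => by
      rw [← mem_placeOf_iff]
      exact Fermat.Agent.Lib.RR.mem_of_ord_nonneg _ (h (placeOf v q) (restrict_placeOf v q)))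
  obtain ⟨y, hy⟩ := hx
  rw [← hy]
  exact y.2

/-- Elements of the integral closure have nonnegative order at the places over `v`. -/
theorem ord_nonneg_of_mem_intCl (x : intCl F' v) (w : Place K F') (hw : w.restrict F = v) :
    0 ≤ w.ord (x : F') := by
  subst hw
  exact Fermat.Agent.Lib.RR.ord_nonneg_of_mem w (coe_intCl_mem w x)

/-- `ord_w` of an element of `F` at a place `w` over `v`. -/
theorem ord_algebraMap_of_restrict (w : Place K F') (hw : w.restrict F = v) (f : F) :
    w.ord (algebraMap F F' f) = (w.ramificationIndex F : ℤ) * v.ord f := by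
  rw [w.ord_restrict f, hw]


/-! ### The reduction map `S → K^ι` -/

section Red

variable (hv : v.deg = 1)

/-- index type of the chosen basis of `S = intCl F' v` over `R = O_v` -/
abbrev Idx : Type _ := Module.Free.ChooseBasisIndex v.toValuationSubring (intCl F' v)

variable (F') in
/-- the chosen basis of the integral closure over `O_v` -/
noncomputable def bas : Basis (Idx (F' := F') v) v.toValuationSubring (intCl F' v) :=
  Module.Free.chooseBasis _ _

/-- reduction of coordinates -/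
noncomputable def red (x : intCl F' v) : Idx (F' := F') v → K :=
  fun i => evPlace v hv ((bas F' v).repr x i)

theorem red_add (x y : intCl F' v) : red v hv (x + y) = red v hv x + red v hv y := by
  funext i
  simp [red]

theorem red_zero : red v hv (0 : intCl F' v) = 0 := by
  funext i
  simp [red]

theorem red_smul (r : v.toValuationSubring) (x : intCl F' v) :
    red v hv (r • x) = evPlace v hv r • red v hv x := by
  funext i
  simp [red]

theorem red_sub (x y : intCl F' v) : red v hv (x - y) = red v hv x - red v hv y := by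
  funext i
  simp [red]

theorem red_surjective : Function.Surjective (red (F' := F') v hv) := by
  intro y
  refine ⟨∑ i, (algebraMap K v.toValuationSubring (y i)) • (bas F' v) i, ?_⟩
  funext i
  simp only [red, map_sum, map_smul, Basis.repr_self, Finsupp.coe_finsetSum, Finsupp.coe_smul,
    Finset.sum_apply, Pi.smul_apply, smul_eq_mul]
  rw [Finset.sum_eq_single i]
  · simp
  · intro j _ hj
    simp [hj]
  · intro h
    exact absurd (Finset.mem_univ i) h

theorem red_eq_zero_iff {π : v.toValuationSubring} (hπ : Irreducible π) (x : intCl F' v) :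
    red v hv x = 0 ↔ ∃ z : intCl F' v, x = π • z := by
  constructor
  · intro h
    have hcoord : ∀ i, ∃ r : v.toValuationSubring, (bas F' v).repr x i = π * r := by
      intro i
      have hi : evPlace v hv ((bas F' v).repr x i) = 0 := congrFun h i
      rw [evPlace_eq_zero_iff, hπ.maximalIdeal_eq, Ideal.mem_span_singleton'] at hi
      obtain ⟨r, hr⟩ := hi
      exact ⟨r, by rw [← hr, mul_comm]⟩
    choose r hr using hcoord
    refine ⟨∑ i, r i • (bas F' v) i, ?_⟩
    conv_lhs => rw [← (bas F' v).sum_repr x]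
    rw [Finset.smul_sum]
    refine Finset.sum_congr rfl fun i _ => ?_
    rw [hr i, mul_smul]
  · rintro ⟨z, rfl⟩
    rw [red_smul]
    have : evPlace v hv π = 0 := by
      rw [evPlace_eq_zero_iff, hπ.maximalIdeal_eq]
      exact Ideal.mem_span_singleton_self π
    rw [this, zero_smul]

/-- multiplication by `g` becomes the reduced matrix -/
theorem red_mul (g x : intCl F' v) :
    red v hv (g * x) =
      ((Algebra.leftMulMatrix (bas F' v) g).map (evPlace v hv)).mulVec (red v hv x) := by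
  funext i
  have h := congrFun (congrArg (fun f => (f : Idx (F' := F') v → v.toValuationSubring))
    (Algebra.leftMulMatrix_mulVec_repr (bas F' v) g x)) i
  simp only [red]
  rw [← h]
  simp only [Matrix.mulVec, dotProduct, Matrix.map_apply, map_sum, map_mul]
  rfl

end Red


/-! ### Orders: "zero or at least `n`" -/

section OrdGe

omit [FiniteDimensional F F'] [CharZero F] [Algebra F F'] [IsScalarTower K F F'] [Algebra K F] in
theorem ord_mul_of_le (w : Place K F') {f g : F'} {n m : ℤ}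
    (hf : f = 0 ∨ n ≤ w.ord f) (hg : g = 0 ∨ m ≤ w.ord g) :
    f * g = 0 ∨ n + m ≤ w.ord (f * g) := by
  rcases eq_or_ne f 0 with rfl | hf0
  · left; simp
  rcases eq_or_ne g 0 with rfl | hg0
  · left; simp
  right
  rw [w.ord_mul hf0 hg0]
  have := hf.resolve_left hf0
  have := hg.resolve_left hg0
  omega

theorem coe_smul_intCl (r : v.toValuationSubring) (x : intCl F' v) :
    ((r • x : intCl F' v) : F') = algebraMap F F' (r : F) * (x : F') := by
  rw [Subalgebra.coe_smul, Algebra.smul_def]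
  rfl

theorem coe_algebraMap_intCl (r : v.toValuationSubring) :
    ((algebraMap v.toValuationSubring (intCl F' v) r : intCl F' v) : F')
      = algebraMap F F' (r : F) := rfl

end OrdGe

/-! ### The filtration by order of vanishing at a place over `v` -/

section Filt

variable (hv : v.deg = 1)

/-- `Gsub v hv w j`: reductions of elements of `S` vanishing to order `≥ j` at `w`. -/
noncomputable def Gsub (w : Place K F') (j : ℕ) : Submodule K (Idx (F' := F') v → K) where
  carrier := {y | ∃ x : intCl F' v, red v hv x = y ∧ ((x : F') = 0 ∨ (j : ℤ) ≤ w.ord (x : F'))}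
  zero_mem' := ⟨0, red_zero v hv, Or.inl rfl⟩
  add_mem' := by
    rintro y y' ⟨x, rfl, hx⟩ ⟨x', rfl, hx'⟩
    refine ⟨x + x', red_add v hv x x', ?_⟩
    exact Fermat.Agent.Lib.RR.ord_add_of_le w hx hx'
  smul_mem' := by
    rintro c y ⟨x, rfl, hx⟩
    refine ⟨algebraMap K v.toValuationSubring c • x, by rw [red_smul, evPlace_algebraMap], ?_⟩
    rw [coe_smul_intCl]
    have h1 : algebraMap F F' ((algebraMap K v.toValuationSubring c : v.toValuationSubring) : F)
        = 0 ∨ (0 : ℤ) ≤ w.ord (algebraMap F F'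
          ((algebraMap K v.toValuationSubring c : v.toValuationSubring) : F)) := by
      right
      have : algebraMap F F' ((algebraMap K v.toValuationSubring c : v.toValuationSubring) : F)
          = algebraMap K F' c := by
        rw [Place.coe_algebraMap, ← IsScalarTower.algebraMap_apply]
      rw [this, Fermat.Agent.Lib.RR.ord_algebraMap]
    have := ord_mul_of_le w h1 hx
    rwa [zero_add] at this

theorem mem_Gsub (w : Place K F') (j : ℕ) (y : Idx (F' := F') v → K) :
    y ∈ Gsub v hv w j ↔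
      ∃ x : intCl F' v, red v hv x = y ∧ ((x : F') = 0 ∨ (j : ℤ) ≤ w.ord (x : F')) := Iff.rfl

theorem Gsub_zero (w : Place K F') (hw : w.restrict F = v) : Gsub v hv w 0 = ⊤ := by
  rw [eq_top_iff]
  intro y _
  obtain ⟨x, rfl⟩ := red_surjective v hv y
  exact ⟨x, rfl, Or.inr (by simpa using ord_nonneg_of_mem_intCl v x w hw)⟩

/-- each step of the filtration has codimension at most one -/
theorem Gsub_step (hdeg' : ∀ w : Place K F', w.deg = 1) (w : Place K F') (j : ℕ)
    (y : Idx (F' := F') v → K) (hy : y ∈ Gsub v hv w j)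
    (y' : Idx (F' := F') v → K) (hy' : y' ∈ Gsub v hv w j) (hy'n : y' ∉ Gsub v hv w (j + 1)) :
    ∃ c : K, y - c • y' ∈ Gsub v hv w (j + 1) := by
  obtain ⟨x, rfl, hx⟩ := hy
  obtain ⟨x', rfl, hx'⟩ := hy'
  have hx'0 : (x' : F') ≠ 0 := fun h0 => hy'n ⟨x', rfl, Or.inl h0⟩
  have hx'j : w.ord (x' : F') = j := by
    have h1 := hx'.resolve_left hx'0
    by_contra hne
    exact hy'n ⟨x', rfl, Or.inr (by push_cast; omega)⟩
  -- the quotient x / x' has nonnegative order
  have hq : 0 ≤ w.ord ((x : F') / (x' : F')) := by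
    rcases eq_or_ne (x : F') 0 with h0 | h0
    · rw [h0, zero_div, w.ord_zero]
    · rw [div_eq_mul_inv, w.ord_mul h0 (inv_ne_zero hx'0), w.ord_inv, hx'j]
      have := hx.resolve_left h0
      omega
  obtain ⟨c, hc⟩ := Fermat.Agent.Lib.RR.exists_const_sub w (hdeg' w) hq
  refine ⟨c, x - algebraMap K v.toValuationSubring c • x', ?_, ?_⟩
  · rw [red_sub, red_smul, evPlace_algebraMap]
  · have hcoe : ((x - algebraMap K v.toValuationSubring c • x' : intCl F' v) : F')
        = (x' : F') * ((x : F') / (x' : F') - algebraMap K F' c) := by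
      rw [Subalgebra.coe_sub, coe_smul_intCl, Place.coe_algebraMap,
        ← IsScalarTower.algebraMap_apply]
      field_simp
    rw [hcoe]
    have h1 : (x' : F') = 0 ∨ (j : ℤ) ≤ w.ord (x' : F') := Or.inr hx'j.ge
    have h2 : ((x : F') / (x' : F') - algebraMap K F' c) = 0 ∨
        (1 : ℤ) ≤ w.ord ((x : F') / (x' : F') - algebraMap K F' c) := by
      rcases hc with hc | hc
      · exact Or.inl hc
      · exact Or.inr hc
    have := ord_mul_of_le w h1 h2
    push_cast
    exact this

end Filt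


/-! ### The reduced multiplication matrix and its generalized eigenspaces -/

section Eigen

variable (hv : v.deg = 1)

/-- the matrix of multiplication by `g` on `S / 𝔪_v S = K^ι` -/
noncomputable def redMat (g : intCl F' v) : Matrix (Idx (F' := F') v) (Idx (F' := F') v) K :=
  (Algebra.leftMulMatrix (bas F' v) g).map (evPlace v hv)

/-- `g - μ` as an element of `S` -/
noncomputable def subConst (g : intCl F' v) (μ : K) : intCl F' v :=
  g - algebraMap v.toValuationSubring (intCl F' v) (algebraMap K v.toValuationSubring μ)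

theorem coe_subConst (g : intCl F' v) (μ : K) :
    ((subConst v g μ : intCl F' v) : F') = (g : F') - algebraMap K F' μ := by
  rw [subConst, Subalgebra.coe_sub, coe_algebraMap_intCl, Place.coe_algebraMap,
    ← IsScalarTower.algebraMap_apply]

theorem red_subConst_mul (g : intCl F' v) (μ : K) (x : intCl F' v) :
    red v hv (subConst v g μ * x) =
      ((redMat v hv g).mulVecLin - μ • (1 : Module.End K (Idx (F' := F') v → K)))
        (red v hv x) := by
  rw [subConst, sub_mul, red_sub, red_mul, ← Algebra.smul_def, red_smul, evPlace_algebraMap]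
  rfl

theorem red_subConst_pow_mul (g : intCl F' v) (μ : K) (k : ℕ) (x : intCl F' v) :
    red v hv (subConst v g μ ^ k * x) =
      (((redMat v hv g).mulVecLin - μ • (1 : Module.End K (Idx (F' := F') v → K))) ^ k)
        (red v hv x) := by
  induction k generalizing x with
  | zero => simp
  | succ k ih =>
    rw [pow_succ, mul_assoc, ih, red_subConst_mul, pow_succ]
    rfl


/-- an element of `S` vanishing to order `≥ e(w|v)` at every `w | v` is divisible by a
uniformizer of `v` -/
theorem exists_eq_smul_of_forall_ord {π : v.toValuationSubring} (hπ1 : v.ord (π : F) = 1)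
    (x : intCl F' v)
    (h : ∀ w : Place K F', w.restrict F = v →
      ((x : F') = 0 ∨ (w.ramificationIndex F : ℤ) ≤ w.ord (x : F'))) :
    ∃ z : intCl F' v, x = π • z := by
  have hπ0 : (π : F) ≠ 0 := by
    intro h0
    rw [h0, v.ord_zero] at hπ1
    exact zero_ne_one hπ1
  have hπ0' : algebraMap F F' (π : F) ≠ 0 := by simpa using hπ0
  have hmem : (x : F') / algebraMap F F' (π : F) ∈ intCl F' v := by
    apply mem_intCl_of_forall_ord_nonneg
    intro w hw
    rcases eq_or_ne (x : F') 0 with h0 | h0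
    · rw [h0, zero_div, w.ord_zero]
    · rw [div_eq_mul_inv, w.ord_mul h0 (inv_ne_zero hπ0'), w.ord_inv,
        ord_algebraMap_of_restrict v w hw, hπ1, mul_one]
      have := (h w hw).resolve_left h0
      omega
  refine ⟨⟨_, hmem⟩, Subtype.ext ?_⟩
  rw [coe_smul_intCl]
  field_simp

theorem coe_smul_ord_ge {π : v.toValuationSubring} (hπ1 : v.ord (π : F) = 1)
    (z : intCl F' v) (w : Place K F') (hw : w.restrict F = v) :
    ((π • z : intCl F' v) : F') = 0 ∨
      (w.ramificationIndex F : ℤ) ≤ w.ord ((π • z : intCl F' v) : F') := by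
  rw [coe_smul_intCl]
  have h1 : algebraMap F F' (π : F) = 0 ∨
      (w.ramificationIndex F : ℤ) ≤ w.ord (algebraMap F F' (π : F)) := by
    right
    rw [ord_algebraMap_of_restrict v w hw, hπ1, mul_one]
  have h2 : (z : F') = 0 ∨ (0 : ℤ) ≤ w.ord (z : F') :=
    Or.inr (ord_nonneg_of_mem_intCl v z w hw)
  have := ord_mul_of_le w h1 h2
  rwa [add_zero] at this

/-- **Key inequality**: the generalized eigenspace for `μ` of the reduced multiplication by `g`
has dimension at most `∑_{w | v, g(w) = μ} e(w | v)`. -/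
theorem finrank_maxGenEigenspace_le [DecidableEq K] (hdeg' : ∀ w : Place K F', w.deg = 1)
    (s : Finset (Place K F')) (hs : ∀ w, w ∈ s ↔ w.restrict F = v)
    (g : intCl F' v) (a : Place K F' → K)
    (ha : ∀ w ∈ s, ((g : F') - algebraMap K F' (a w) = 0 ∨
      0 < w.ord ((g : F') - algebraMap K F' (a w))))
    (μ : K) :
    finrank K ↥(Module.End.maxGenEigenspace ((redMat v hv g).mulVecLin) μ) ≤
      ∑ w ∈ s.filter (fun w => a w = μ), w.ramificationIndex F := by
  set φ : Module.End K (Idx (F' := F') v → K) := (redMat v hv g).mulVecLin with hφ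
  set T : Finset (Place K F') := s.filter (fun w => a w = μ) with hT
  have hTs : ∀ w ∈ T, w.restrict F = v := fun w hw => (hs w).mp (Finset.mem_filter.mp hw).1
  have key := finrank_le_sum_add T (fun w => w.ramificationIndex F)
    (fun w j => Gsub v hv w j) (fun w hw => Gsub_zero v hv w (hTs w hw))
    (fun w _ j y hy y' hy' hy'n => Gsub_step v hv hdeg' w j y hy y' hy' hy'n)
    (φ.maxGenEigenspace μ)
  suffices hbot : φ.maxGenEigenspace μ ⊓ ⨅ w ∈ T, Gsub v hv w (w.ramificationIndex F) = ⊥ by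
    rw [hbot, finrank_bot, add_zero] at key
    exact key
  rw [eq_bot_iff]
  rintro y ⟨hyE, hyG⟩
  rw [Submodule.mem_bot]
  simp only [SetLike.mem_coe, Submodule.mem_iInf] at hyG hyE
  obtain ⟨x, rfl⟩ := red_surjective v hv y
  obtain ⟨π, hπ, hπ1⟩ := Fermat.Agent.S24.FF.exists_irreducible_coe v
  obtain ⟨k, hk⟩ := (Module.End.mem_maxGenEigenspace φ μ _).mp hyE
  rw [hφ, ← red_subConst_pow_mul, red_eq_zero_iff v hv hπ] at hk
  obtain ⟨z, hz⟩ := hk
  have hall : ∀ w : Place K F', w.restrict F = v →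
      ((x : F') = 0 ∨ (w.ramificationIndex F : ℤ) ≤ w.ord (x : F')) := by
    intro w hw
    have hws : w ∈ s := (hs w).mpr hw
    by_cases hwμ : a w = μ
    · -- `w ∈ T`
      obtain ⟨xw, hred, hord⟩ := hyG w (Finset.mem_filter.mpr ⟨hws, hwμ⟩)
      have h0 : red v hv (x - xw) = 0 := by rw [red_sub, hred, sub_self]
      obtain ⟨z', hz'⟩ := (red_eq_zero_iff v hv hπ _).mp h0
      have hx : x = xw + π • z' := by rw [← hz']; ring
      rw [hx, Subalgebra.coe_add]
      exact Fermat.Agent.Lib.RR.ord_add_of_le w hord (coe_smul_ord_ge v hπ1 z' w hw)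
    · -- `g - μ` is a unit at `w`
      rcases eq_or_ne (x : F') 0 with hx0 | hx0
      · exact Or.inl hx0
      right
      have hconst : algebraMap K F' (a w) - algebraMap K F' μ ≠ 0 := by
        rw [← map_sub]
        simpa [sub_eq_zero] using hwμ
      have hconst_ord : w.ord (algebraMap K F' (a w) - algebraMap K F' μ) = 0 := by
        rw [← map_sub]
        exact Fermat.Agent.Lib.RR.ord_algebraMap w _
      have hsplit : (g : F') - algebraMap K F' μ =
          (algebraMap K F' (a w) - algebraMap K F' μ) + ((g : F') - algebraMap K F' (a w)) := by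
        ring
      have hh : (g : F') - algebraMap K F' μ ≠ 0 ∧ w.ord ((g : F') - algebraMap K F' μ) = 0 := by
        rcases ha w hws with h0 | hpos
        · rw [hsplit, h0, add_zero]
          exact ⟨hconst, hconst_ord⟩
        · have hne : (g : F') - algebraMap K F' (a w) ≠ 0 := by
            intro h0
            rw [h0, w.ord_zero] at hpos
            exact lt_irrefl _ hpos
          have hlt : w.ord (algebraMap K F' (a w) - algebraMap K F' μ) <
              w.ord ((g : F') - algebraMap K F' (a w)) := by rw [hconst_ord]; exact hpos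
          have := Fermat.Agent.Lib.RR.ord_add_eq_of_lt w hconst hne hlt
          rw [← hsplit, hconst_ord] at this
          refine ⟨?_, this⟩
          intro h0
          have h1 : (g : F') - algebraMap K F' (a w) =
              -(algebraMap K F' (a w) - algebraMap K F' μ) := by
            rw [hsplit] at h0
            exact eq_neg_of_add_eq_zero_right h0
          rw [h1, Fermat.Agent.Lib.RR.ord_neg, hconst_ord] at hpos
          exact lt_irrefl _ hpos
      have hpow0 : ((subConst v g μ : intCl F' v) : F') ^ k ≠ 0 := by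
        rw [coe_subConst]
        exact pow_ne_zero _ hh.1
      have hpow_ord : w.ord (((subConst v g μ : intCl F' v) : F') ^ k) = 0 := by
        rw [coe_subConst, Fermat.Agent.Lib.RR.ord_pow, hh.2, mul_zero]
      have hprod : ((subConst v g μ ^ k * x : intCl F' v) : F') =
          ((subConst v g μ : intCl F' v) : F') ^ k * (x : F') := by
        rw [Subalgebra.coe_mul, Subalgebra.coe_pow]
      have hprod0 : ((subConst v g μ ^ k * x : intCl F' v) : F') ≠ 0 := by
        rw [hprod]
        exact mul_ne_zero hpow0 hx0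
      have hge := coe_smul_ord_ge v hπ1 z w hw
      rw [← hz] at hge
      have hge' := hge.resolve_left hprod0
      rw [hprod, w.ord_mul hpow0 hx0, hpow_ord, zero_add] at hge'
      exact hge'
  obtain ⟨z', hz'⟩ := exists_eq_smul_of_forall_ord v hπ1 x hall
  exact (red_eq_zero_iff v hv hπ x).mpr ⟨z', hz'⟩


/-- the reduced characteristic polynomial -/
theorem redMat_charpoly_eq [IsAlgClosed K] (hdeg' : ∀ w : Place K F', w.deg = 1)
    (s : Finset (Place K F')) (hs : ∀ w, w ∈ s ↔ w.restrict F = v)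
    (g : intCl F' v) (a : Place K F' → K)
    (ha : ∀ w ∈ s, ((g : F') - algebraMap K F' (a w) = 0 ∨
      0 < w.ord ((g : F') - algebraMap K F' (a w)))) :
    (redMat v hv g).charpoly = ∏ w ∈ s, (X - C (a w)) ^ w.ramificationIndex F := by
  classical
  refine eq_prod_of_rootMultiplicity_le s a (fun w => w.ramificationIndex F) _
    (Matrix.charpoly_monic _) ?_ ?_
  · rw [Matrix.charpoly_natDegree_eq_dim]
    have h1 := sum_ramificationIndex v hdeg' s hs
    have h2 : Module.finrank F F' = Module.finrank v.toValuationSubring (intCl F' v) :=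
      IsFractionRing.finrank_eq v.toValuationSubring F (intCl F' v) F'
    have h3 : Module.finrank v.toValuationSubring (intCl F' v) =
        Fintype.card (Idx (F' := F') v) :=
      Module.finrank_eq_card_chooseBasisIndex _ _
    rw [h2, h3] at h1
    exact_mod_cast h1.symm
  · intro μ
    have h1 := LinearMap.finrank_maxGenEigenspace_eq ((redMat v hv g).mulVecLin) μ
    rw [Matrix.charpoly_mulVecLin] at h1
    rw [← h1]
    exact finrank_maxGenEigenspace_le v hv hdeg' s hs g a ha μ

end Eigen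

/-! ### The fibre formula -/

section Main

variable (hv : v.deg = 1)

/-- the characteristic polynomial over `F` of an element of the integral closure comes from
`O_v[X]` -/
theorem charpoly_mulLeft_eq_map (g : intCl F' v) :
    (LinearMap.mulLeft F (g : F')).charpoly =
      (Algebra.leftMulMatrix (bas F' v) g).charpoly.map (algebraMap v.toValuationSubring F) := by
  classical
  haveI : IsLocalization (Algebra.algebraMapSubmonoid (intCl F' v)
      (nonZeroDivisors v.toValuationSubring)) F' :=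
    IsIntegralClosure.isLocalization v.toValuationSubring F F' (intCl F' v)
  have h1 := Algebra.map_leftMulMatrix_localization v.toValuationSubring
    (Rₘ := F) (Sₘ := F') (nonZeroDivisors v.toValuationSubring) (bas F' v) g
  rw [← Matrix.charpoly_map, ← RingHom.mapMatrix_apply, h1, Algebra.leftMulMatrix_apply,
    LinearMap.charpoly_toMatrix]
  rfl

/-- **E2, the fibre formula for characteristic polynomials** (polynomial form).
There is a monic `P ∈ O_v[X]` whose image in `F[X]` is the characteristic polynomial of `g` over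
`F` and whose reduction at `v` is `∏_{w | v} (X - g(w)) ^ e(w | v)`. -/
theorem fibre_charpoly [IsAlgClosed K] (hdeg' : ∀ w : Place K F', w.deg = 1)
    (s : Finset (Place K F')) (hs : ∀ w, w ∈ s ↔ w.restrict F = v)
    (g : F') (a : Place K F' → K)
    (ha : ∀ w ∈ s, (g - algebraMap K F' (a w) = 0 ∨ 0 < w.ord (g - algebraMap K F' (a w)))) :
    ∃ P : Polynomial v.toValuationSubring, P.Monic ∧
      P.map (algebraMap v.toValuationSubring F) = (LinearMap.mulLeft F g).charpoly ∧
      P.map (evPlace v hv) = ∏ w ∈ s, (X - C (a w)) ^ w.ramificationIndex F := by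
  have hg : g ∈ intCl F' v := by
    apply mem_intCl_of_forall_ord_nonneg
    intro w hw
    have h1 : g - algebraMap K F' (a w) = 0 ∨ (0 : ℤ) ≤ w.ord (g - algebraMap K F' (a w)) := by
      rcases ha w ((hs w).mpr hw) with h | h
      · exact Or.inl h
      · exact Or.inr h.le
    have h2 : algebraMap K F' (a w) = 0 ∨ (0 : ℤ) ≤ w.ord (algebraMap K F' (a w)) :=
      Or.inr (Fermat.Agent.Lib.RR.ord_algebraMap w _).ge
    have h3 := Fermat.Agent.Lib.RR.ord_add_of_le w h1 h2
    rw [sub_add_cancel] at h3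
    rcases h3 with h3 | h3
    · rw [h3, w.ord_zero]
    · exact h3
  refine ⟨(Algebra.leftMulMatrix (bas F' v) ⟨g, hg⟩).charpoly, Matrix.charpoly_monic _,
    (charpoly_mulLeft_eq_map v ⟨g, hg⟩).symm, ?_⟩
  rw [← Matrix.charpoly_map]
  exact redMat_charpoly_eq v hv hdeg' s hs ⟨g, hg⟩ a ha

include hv in
/-- **E2** (coefficient form): every coefficient of the characteristic polynomial of `g` over
`F` is congruent modulo `𝔪_v` to the corresponding coefficient of
`∏_{w | v} (X - g(w)) ^ e(w | v)`. -/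
theorem fibre_charpoly_coeff [IsAlgClosed K] (hdeg' : ∀ w : Place K F', w.deg = 1)
    (s : Finset (Place K F')) (hs : ∀ w, w ∈ s ↔ w.restrict F = v)
    (g : F') (a : Place K F' → K)
    (ha : ∀ w ∈ s, (g - algebraMap K F' (a w) = 0 ∨ 0 < w.ord (g - algebraMap K F' (a w))))
    (i : ℕ) :
    (LinearMap.mulLeft F g).charpoly.coeff i -
        algebraMap K F ((∏ w ∈ s, (X - C (a w)) ^ w.ramificationIndex F).coeff i) = 0 ∨
      0 < v.ord ((LinearMap.mulLeft F g).charpoly.coeff i -
        algebraMap K F ((∏ w ∈ s, (X - C (a w)) ^ w.ramificationIndex F).coeff i)) := by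
  obtain ⟨P, -, hP1, hP2⟩ := fibre_charpoly v hv hdeg' s hs g a ha
  rw [← hP1, ← hP2, coeff_map, coeff_map]
  have h := sub_algebraMap_evPlace_mem v hv (P.coeff i)
  rw [Fermat.Agent.Lib.RR.mem_maximalIdeal_iff] at h
  exact h

include hv in
/-- **E2** (membership form): the coefficients of the characteristic polynomial of `g` over `F`
lie in `O_v`. -/
theorem fibre_charpoly_coeff_mem [IsAlgClosed K] (hdeg' : ∀ w : Place K F', w.deg = 1)
    (s : Finset (Place K F')) (hs : ∀ w, w ∈ s ↔ w.restrict F = v)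
    (g : F') (a : Place K F' → K)
    (ha : ∀ w ∈ s, (g - algebraMap K F' (a w) = 0 ∨ 0 < w.ord (g - algebraMap K F' (a w))))
    (i : ℕ) : (LinearMap.mulLeft F g).charpoly.coeff i ∈ v.toValuationSubring := by
  obtain ⟨P, -, hP1, -⟩ := fibre_charpoly v hv hdeg' s hs g a ha
  rw [← hP1, coeff_map]
  exact (P.coeff i).2

end Main

end Fermat.Agent.S37.H100

end
-- ===== PACK-END S37/H100/FibreCharpoly.lean

-- ===== PACK-BEGIN S37/H160/SepFF.lean
section







/-!
# Separable port (helper160) of `Lib/FF398/Local.lean` (helper398): relative theory of places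

For a place `v` of `F` and a finite extension `F'/F` (characteristic zero) we use the integral
closure `S` of `O_v` in `F'` (a semi-local Dedekind domain) as a dictionary:
places of `F'` over `v`  ↔  height-one primes of `S`.

Main results of this file (helper398):
* `placeOf v q` : the place of `F'` attached to a height one prime `q` of `S`;
* `restrict_placeOf`, `exists_placeOf_eq`, `placeOf_injective` : the dictionary;
* `ord_placeOf` : `ord` of `placeOf v q` is the `q`-adic valuation.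
-/

set_option autoImplicit false
set_option linter.unusedSectionVars false

open AlgebraicCurve IsDedekindDomain

namespace Fermat.Agent.S37.H160.SepFF

section Max

variable {K F : Type*} [Field K] [Field F] [Algebra K F]

/-- Discrete valuation rings are maximal subrings: comparable places are equal. -/
theorem place_eq_of_le {v w : Place K F} (h : v.toValuationSubring ≤ w.toValuationSubring) :
    v = w :=
  Place.ext (ValuationSubring.eq_of_le_of_ne_top _ h w.ne_top')

end Max

section Local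

variable {K F F' : Type*} [Field K] [Field F] [Field F'] [Algebra K F] [Algebra K F']
  [Algebra F F'] [IsScalarTower K F F'] [FiniteDimensional F F'] [Algebra.IsSeparable F F']
variable (v : Place K F)

variable (F') in
/-- The integral closure of `O_v` in `F'`. -/
abbrev intCl : Subalgebra v.toValuationSubring F' := integralClosure v.toValuationSubring F'

omit [Algebra K F'] [IsScalarTower K F F'] [FiniteDimensional F F'] [Algebra.IsSeparable F F'] in
theorem algebraMap_OF'_injective :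
    Function.Injective (algebraMap v.toValuationSubring F') := by
  intro a b h
  apply Subtype.ext
  exact (algebraMap F F').injective h

instance (priority := 2000) instFaithfulOF' : FaithfulSMul v.toValuationSubring F' :=
  (faithfulSMul_iff_algebraMap_injective _ _).mpr (algebraMap_OF'_injective v)

instance (priority := 2000) instTorsionFreeOF' :
    Module.IsTorsionFree v.toValuationSubring F' :=
  FaithfulSMul.to_isTorsionFree _ _

instance (priority := 2000) instTorsionFreeIntCl :
    Module.IsTorsionFree v.toValuationSubring (intCl F' v) :=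
  Subalgebra.instIsTorsionFree (intCl F' v)

instance instTowerKOF' : IsScalarTower K v.toValuationSubring F' :=
  IsScalarTower.of_algebraMap_eq fun a => by
    show algebraMap K F' a = algebraMap F F' (algebraMap K F a)
    rw [← IsScalarTower.algebraMap_apply]

instance instDedekindIntCl : IsDedekindDomain (intCl F' v) :=
  integralClosure.isDedekindDomain v.toValuationSubring F F'

instance instFracIntCl : IsFractionRing (intCl F' v) F' :=
  IsIntegralClosure.isFractionRing_of_finite_extension v.toValuationSubring F F' (intCl F' v)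

instance instFiniteIntCl : Module.Finite v.toValuationSubring (intCl F' v) :=
  IsIntegralClosure.finite v.toValuationSubring F F' (intCl F' v)

instance instFreeIntCl : Module.Free v.toValuationSubring (intCl F' v) :=
  Module.free_of_finite_type_torsion_free'

/-- The place of `F'` attached to a height-one prime of the integral closure of `O_v`. -/
noncomputable def placeOf (q : HeightOneSpectrum (intCl F' v)) : Place K F' :=
  Place.ofHeightOneSpectrum (K := K) q

theorem placeOf_toValuationSubring (q : HeightOneSpectrum (intCl F' v)) :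
    (placeOf v q).toValuationSubring = (q.valuation F').valuationSubring := rfl

theorem mem_placeOf_iff (q : HeightOneSpectrum (intCl F' v)) (g : F') :
    g ∈ (placeOf v q).toValuationSubring ↔ q.valuation F' g ≤ 1 := Iff.rfl

/-- `placeOf v q` lies over `v`. -/
theorem restrict_placeOf (q : HeightOneSpectrum (intCl F' v)) :
    (placeOf v q).restrict F = v := by
  symm
  apply place_eq_of_le
  intro a ha
  rw [Place.restrict_toValuationSubring, ValuationSubring.mem_comap, mem_placeOf_iff]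
  have : algebraMap F F' a = algebraMap (intCl F' v) F'
      (algebraMap v.toValuationSubring (intCl F' v) ⟨a, ha⟩) := rfl
  rw [this]
  exact q.valuation_le_one _

/-- The order function of `placeOf v q` is the `q`-adic valuation. -/
theorem ord_placeOf (q : HeightOneSpectrum (intCl F' v)) (g : F') :
    (placeOf v q).ord g = -(WithZero.log (q.valuation F' g)) := by
  rcases eq_or_ne g 0 with rfl | hg
  · simp
  symm
  obtain ⟨π, hπ⟩ := q.valuation_exists_uniformizer F'
  have hπ0 : π ≠ 0 := by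
    rintro rfl
    rw [map_zero] at hπ
    exact WithZero.exp_ne_zero hπ.symm
  refine Fermat.Agent.S24.FF.ordLike_eq_ord (fun g => -(WithZero.log (q.valuation F' g)))
    (fun f g hf hg => ?_) (placeOf v q) (fun f hf => ?_) hπ0 ?_ hg
  · rw [map_mul, WithZero.log_mul ((Valuation.ne_zero_iff _).mpr hf)
      ((Valuation.ne_zero_iff _).mpr hg)]
    ring
  · rw [mem_placeOf_iff, neg_nonneg,
      WithZero.log_le_iff_le_exp ((Valuation.ne_zero_iff _).mpr hf)]
    rfl
  · rw [hπ, WithZero.log_exp]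
    ring

/-- Membership in a height-one prime, read off from the valuation subring. -/
theorem mem_asIdeal_iff (q : HeightOneSpectrum (intCl F' v)) (s : intCl F' v) :
    s ∈ q.asIdeal ↔ s = 0 ∨ ((s : F'))⁻¹ ∉ (placeOf v q).toValuationSubring := by
  rw [mem_placeOf_iff, ← q.valuation_lt_one_iff_mem (K := F')]
  show q.valuation F' (s : F') < 1 ↔ s = 0 ∨ ¬ q.valuation F' ((s : F'))⁻¹ ≤ 1
  rcases eq_or_ne s 0 with rfl | hs
  · simp
  have hs' : (s : F') ≠ 0 := fun h => hs (Subtype.ext h)
  have hv0 : q.valuation F' (s : F') ≠ 0 := (Valuation.ne_zero_iff _).mpr hs'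
  rw [map_inv₀, not_le, one_lt_inv₀ (zero_lt_iff.mpr hv0)]
  simp [hs]

theorem placeOf_injective : Function.Injective (placeOf (F' := F') v) := by
  intro q q' h
  apply HeightOneSpectrum.ext
  ext s
  rw [mem_asIdeal_iff, mem_asIdeal_iff, h]

/-- The integral closure of `O_{w|F}` is contained in `O_w`. -/
theorem coe_intCl_mem (w : Place K F') (s : intCl F' (w.restrict F)) :
    (s : F') ∈ w.toValuationSubring := by
  obtain ⟨p, hp, hps⟩ := s.2
  have hint : IsIntegral w.toValuationSubring (s : F') := by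
    refine ⟨p.map (Place.restrictInclusion F w), hp.map _, ?_⟩
    rw [Polynomial.eval₂_map]
    exact hps
  obtain ⟨y, hy⟩ := IsIntegrallyClosed.isIntegral_iff.mp hint
  rw [← hy]
  exact y.2

/-- The inclusion of the integral closure of `O_{w|F}` into `O_w`. -/
def intClInclusion (w : Place K F') : intCl F' (w.restrict F) →+* w.toValuationSubring where
  toFun s := ⟨(s : F'), coe_intCl_mem w s⟩
  map_one' := rfl
  map_mul' _ _ := rfl
  map_zero' := rfl
  map_add' _ _ := rfl

@[simp]
theorem coe_intClInclusion (w : Place K F') (s : intCl F' (w.restrict F)) :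
    ((intClInclusion w s : w.toValuationSubring) : F') = (s : F') := rfl

/-- The centre of `w` on the integral closure of `O_{w|F}`. -/
def centre (w : Place K F') : Ideal (intCl F' (w.restrict F)) :=
  Ideal.comap (intClInclusion w) (IsLocalRing.maximalIdeal w.toValuationSubring)

instance centre_isPrime (w : Place K F') : (centre (F := F) w).IsPrime :=
  Ideal.comap_isPrime _ _

theorem centre_ne_bot (w : Place K F') : centre (F := F) w ≠ ⊥ := by
  obtain ⟨π, hπ⟩ := IsDiscreteValuationRing.exists_irreducible (w.restrict F).toValuationSubring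
  intro h
  have hmem : algebraMap (w.restrict F).toValuationSubring (intCl F' (w.restrict F)) π
      ∈ centre (F := F) w := by
    rw [centre, Ideal.mem_comap, IsLocalRing.mem_maximalIdeal, mem_nonunits_iff]
    intro hu
    have hu' : IsUnit (Place.restrictInclusion F w π) := hu
    exact hπ.not_isUnit (isUnit_of_map_unit (Place.restrictInclusion F w) π hu')
  rw [h, Ideal.mem_bot] at hmem
  have hinj : Function.Injective
      (algebraMap (w.restrict F).toValuationSubring (intCl F' (w.restrict F))) :=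
    FaithfulSMul.algebraMap_injective _ _
  exact hπ.ne_zero (hinj (by rw [hmem, map_zero]))

/-- The centre of `w` as a height-one prime. -/
def centrePrime (w : Place K F') : HeightOneSpectrum (intCl F' (w.restrict F)) :=
  ⟨centre w, centre_isPrime w, centre_ne_bot w⟩

theorem placeOf_centrePrime (w : Place K F') : placeOf (w.restrict F) (centrePrime w) = w := by
  apply place_eq_of_le
  intro g hg
  rw [mem_placeOf_iff] at hg
  obtain ⟨n, d, hnd⟩ := (centrePrime w).exists_primeCompl_mul_eq_of_integer g hg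
  have hd : (d : intCl F' (w.restrict F)) ∉ centre (F := F) w := d.2
  rw [centre, Ideal.mem_comap, IsLocalRing.mem_maximalIdeal, mem_nonunits_iff, not_not] at hd
  obtain ⟨b, hb⟩ := isUnit_iff_exists_inv.mp hd
  have hb' : ((d : intCl F' (w.restrict F)) : F') * (b : F') = 1 := congrArg Subtype.val hb
  have hd0 : ((d : intCl F' (w.restrict F)) : F') ≠ 0 := left_ne_zero_of_mul_eq_one hb'
  have hg' : g = ((n : F')) * (b : F') := by
    have h1 : g * ((d : intCl F' (w.restrict F)) : F') = (n : F') := hnd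
    calc g = g * (((d : intCl F' (w.restrict F)) : F') * (b : F')) := by rw [hb', mul_one]
      _ = (n : F') * (b : F') := by rw [← mul_assoc, h1]
  rw [hg']
  exact mul_mem (coe_intCl_mem w n) b.2

/-- Every place of `F'` over `v` comes from a height-one prime of the integral closure. -/
theorem exists_placeOf_eq (w : Place K F') (hw : w.restrict F = v) :
    ∃ q : HeightOneSpectrum (intCl F' v), placeOf v q = w := by
  subst hw
  exact ⟨centrePrime w, placeOf_centrePrime w⟩

theorem range_placeOf : Set.range (placeOf (F' := F') v) = {w : Place K F' | w.restrict F = v} := by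
  ext w
  constructor
  · rintro ⟨q, rfl⟩
    exact restrict_placeOf v q
  · intro hw
    exact exists_placeOf_eq v w hw

/-! ### Primes over the maximal ideal of `O_v` -/

/-- The maximal ideal of `O_v`. -/
abbrev pv : Ideal v.toValuationSubring := IsLocalRing.maximalIdeal v.toValuationSubring

theorem pv_ne_bot : pv v ≠ ⊥ := IsDiscreteValuationRing.not_a_field _

theorem algebraMap_O_intCl_injective :
    Function.Injective (algebraMap v.toValuationSubring (intCl F' v)) :=
  FaithfulSMul.algebraMap_injective _ _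

theorem map_pv_ne_bot : (pv v).map (algebraMap v.toValuationSubring (intCl F' v)) ≠ ⊥ := by
  rw [Ne, Ideal.map_eq_bot_iff_of_injective (algebraMap_O_intCl_injective v)]
  exact pv_ne_bot v

instance liesOver_pv (q : HeightOneSpectrum (intCl F' v)) : q.asIdeal.LiesOver (pv v) := by
  constructor
  have hprime : (q.asIdeal.under v.toValuationSubring).IsPrime := Ideal.IsPrime.under _ _
  have hne : q.asIdeal.under v.toValuationSubring ≠ ⊥ :=
    Ideal.under_ne_bot v.toValuationSubring q.ne_bot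
  have hmax : (q.asIdeal.under v.toValuationSubring).IsMaximal := hprime.isMaximal hne
  exact (IsLocalRing.eq_maximalIdeal hmax).symm

instance isMaximal_asIdeal (q : HeightOneSpectrum (intCl F' v)) : q.asIdeal.IsMaximal :=
  q.isPrime.isMaximal q.ne_bot

/-- The height-one prime attached to a prime over `𝔪_v`. -/
def primeOfOver (q : (pv v).primesOver (intCl F' v)) : HeightOneSpectrum (intCl F' v) :=
  ⟨q.1, q.2.1, by
    have := q.2.2
    exact Ideal.ne_bot_of_liesOver_of_ne_bot (pv_ne_bot v) q.1⟩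

@[simp]
theorem primeOfOver_asIdeal (q : (pv v).primesOver (intCl F' v)) :
    (primeOfOver v q).asIdeal = q.1 := rfl

theorem primeOfOver_injective : Function.Injective (primeOfOver (F' := F') v) := by
  intro q q' h
  apply Subtype.ext
  exact congrArg HeightOneSpectrum.asIdeal h

theorem primeOfOver_surjective : Function.Surjective (primeOfOver (F' := F') v) := by
  intro q
  exact ⟨⟨q.asIdeal, q.isPrime, liesOver_pv v q⟩, rfl⟩

instance finite_primesOver : Finite ((pv v).primesOver (intCl F' v)) :=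
  (Algebra.QuasiFinite.finite_primesOver (pv v)).to_subtype

instance finite_heightOneSpectrum : Finite (HeightOneSpectrum (intCl F' v)) :=
  Finite.of_surjective _ (primeOfOver_surjective v)

/-- The fibre over `v` is finite (no `HasPrincipalDivisors` needed). -/
theorem finite_fibre : {w : Place K F' | w.restrict F = v}.Finite := by
  rw [← range_placeOf]
  exact Set.finite_range _

/-! ### Ramification index and residue degree -/

theorem mem_asIdeal_iff_ord (q : HeightOneSpectrum (intCl F' v)) (s : intCl F' v) :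
    s ∈ q.asIdeal ↔ s = 0 ∨ 0 < (placeOf v q).ord (s : F') := by
  rcases eq_or_ne s 0 with rfl | hs
  · simp
  have hs' : (s : F') ≠ 0 := fun h => hs (Subtype.ext h)
  have hv0 : q.valuation F' (s : F') ≠ 0 := (Valuation.ne_zero_iff _).mpr hs'
  rw [ord_placeOf, neg_pos, WithZero.log_lt_iff_lt_exp hv0, ← q.valuation_lt_one_iff_mem (K := F')]
  simp only [hs, false_or]
  rfl

theorem ord_placeOf_coe_nonneg (q : HeightOneSpectrum (intCl F' v)) (s : intCl F' v) :
    0 ≤ (placeOf v q).ord (s : F') :=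
  (Fermat.Agent.S24.FF.mem_iff_ord_nonneg _).mp
    ((mem_placeOf_iff v q _).mpr (q.valuation_le_one s))

/-- The ramification index of `placeOf v q` (in the sense of the Prelude) is Mathlib's
ramification index of `q` over `O_v`. -/
theorem ramificationIndex_placeOf (q : HeightOneSpectrum (intCl F' v)) :
    ((placeOf v q).ramificationIndex F : ℤ)
      = (q.asIdeal.ramificationIdx v.toValuationSubring : ℤ) := by
  obtain ⟨π, hπ, hπ1⟩ := Fermat.Agent.S24.FF.exists_irreducible_coe v
  have h1 := (placeOf v q).ord_restrict (F := F) (π : F)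
  rw [restrict_placeOf, hπ1, mul_one] at h1
  rw [← h1, ord_placeOf]
  have hπS : algebraMap v.toValuationSubring (intCl F' v) π ≠ 0 := fun h =>
    hπ.ne_zero (algebraMap_O_intCl_injective v (by rw [h, map_zero]))
  have h2 : q.valuation F' (algebraMap F F' (π : F))
      = q.intValuation (algebraMap v.toValuationSubring (intCl F' v) π) :=
    q.valuation_of_algebraMap (algebraMap v.toValuationSubring (intCl F' v) π)
  rw [h2, q.intValuation_eq_exp_neg_multiplicity hπS, WithZero.log_exp, neg_neg,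
    Ideal.IsDedekindDomain.ramificationIdx_eq_multiplicity (pv v) q.asIdeal (map_pv_ne_bot v)]
  have h3 : (pv v).map (algebraMap v.toValuationSubring (intCl F' v))
      = Ideal.span {algebraMap v.toValuationSubring (intCl F' v) π} := by
    rw [pv, hπ.maximalIdeal_eq, Ideal.map_span, Set.image_singleton]
  rw [h3]

/-- If all places of `F'` have degree one, residue degrees over `O_v` are one. -/
theorem inertiaDeg_intCl_eq_one (hdeg' : ∀ w : Place K F', w.deg = 1)
    (q : HeightOneSpectrum (intCl F' v)) :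
    q.asIdeal.inertiaDeg v.toValuationSubring = 1 := by
  refine Fermat.Agent.S24.FF.inertiaDeg_eq_one_of_forall_exists (pv v) q.asIdeal fun s => ?_
  obtain ⟨c, hc⟩ := Fermat.Agent.Lib.RR.exists_const_sub (placeOf v q) (hdeg' _)
    (ord_placeOf_coe_nonneg v q s)
  refine ⟨algebraMap K v.toValuationSubring c, ?_⟩
  rw [mem_asIdeal_iff_ord]
  have hcoe : ((s - algebraMap v.toValuationSubring (intCl F' v)
      (algebraMap K v.toValuationSubring c) : intCl F' v) : F') = (s : F') - algebraMap K F' c := by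
    rw [IsScalarTower.algebraMap_apply K F F']
    rfl
  rcases hc with hc | hc
  · left
    apply Subtype.ext
    rw [hcoe]
    exact hc
  · right
    rw [hcoe]
    exact hc

omit [Algebra.IsSeparable F F'] [FiniteDimensional F F'] in
/-- If all places of `F'` have degree one, the Prelude's residue degrees are one. -/
theorem inertiaDeg_eq_one [Algebra.IsIntegral F F'] (hdeg' : ∀ w : Place K F', w.deg = 1)
    (w : Place K F') : w.inertiaDeg F = 1 := by
  have h := w.deg_restrict_mul_inertiaDeg (F := F)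
  rw [hdeg' w] at h
  exact (mul_eq_one.mp h).2

omit [Algebra.IsSeparable F F'] [FiniteDimensional F F'] in
theorem deg_restrict_eq_one [Algebra.IsIntegral F F'] (hdeg' : ∀ w : Place K F', w.deg = 1)
    (w : Place K F') : (w.restrict F).deg = 1 := by
  have h := w.deg_restrict_mul_inertiaDeg (F := F)
  rw [hdeg' w] at h
  exact (mul_eq_one.mp h).1

/-- **Local fundamental identity** `∑_{w | v} e(w|v) = [F' : F]`. -/
theorem sum_ramificationIndex (hdeg' : ∀ w : Place K F', w.deg = 1)
    (s : Finset (Place K F')) (hs : ∀ w, w ∈ s ↔ w.restrict F = v) :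
    ∑ w ∈ s, (w.ramificationIndex F : ℤ) = (Module.finrank F F' : ℤ) := by
  let _ : Fintype ((pv v).primesOver (intCl F' v)) := Fintype.ofFinite _
  have h := Ideal.sum_ramification_inertia_eq_finrank (pv v) (intCl F' v)
  rw [IsFractionRing.finrank_eq v.toValuationSubring F (intCl F' v) F', ← h]
  push_cast
  symm
  refine Finset.sum_bij (fun q _ => placeOf v (primeOfOver v q)) ?_ ?_ ?_ ?_
  · intro q _
    exact (hs _).mpr (restrict_placeOf v _)
  · intro q _ q' _ h
    exact primeOfOver_injective v (placeOf_injective v h)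
  · intro w hw
    obtain ⟨q, hq⟩ := exists_placeOf_eq v w ((hs w).mp hw)
    obtain ⟨q', rfl⟩ := primeOfOver_surjective v q
    exact ⟨q', Finset.mem_univ _, hq⟩
  · intro q _
    have h1 := inertiaDeg_intCl_eq_one v hdeg' (primeOfOver v q)
    rw [primeOfOver_asIdeal] at h1
    rw [ramificationIndex_placeOf, primeOfOver_asIdeal, h1]
    simp

/-! ### Norm formula -/

open UniqueFactorizationMonoid

theorem ord_coe_eq_multiplicity (a : v.toValuationSubring) (ha : a ≠ 0) :
    v.ord (a : F) = (multiplicity (pv v) (Ideal.span {a}) : ℤ) := by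
  rw [Place.ord, v.adicValuation_coe, v.heightOneSpectrum.intValuation_eq_exp_neg_multiplicity ha,
    WithZero.log_exp, neg_neg]
  rfl

theorem ord_placeOf_coe_eq_multiplicity (q : HeightOneSpectrum (intCl F' v)) (x : intCl F' v)
    (hx : x ≠ 0) :
    (placeOf v q).ord (x : F') = (multiplicity q.asIdeal (Ideal.span {x}) : ℤ) := by
  rw [ord_placeOf]
  have h2 : q.valuation F' (x : F') = q.intValuation x := q.valuation_of_algebraMap x
  rw [h2, q.intValuation_eq_exp_neg_multiplicity hx, WithZero.log_exp, neg_neg]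

theorem multiplicity_eq_count (q : HeightOneSpectrum (intCl F' v)) (I : Ideal (intCl F' v))
    (hI : I ≠ ⊥) :
    multiplicity q.asIdeal I = (normalizedFactors I).count q.asIdeal := by
  have hq : Prime q.asIdeal := Ideal.prime_of_isPrime q.ne_bot q.isPrime
  rw [multiplicity_eq_of_emultiplicity_eq_some
    (emultiplicity_eq_count_normalizedFactors hq.irreducible hI), normalize_eq]

theorem sum_count_eq_card [Fintype (HeightOneSpectrum (intCl F' v))] (I : Ideal (intCl F' v))
    (hI : I ≠ ⊥) :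
    ∑ q : HeightOneSpectrum (intCl F' v), (normalizedFactors I).count q.asIdeal
      = Multiset.card (normalizedFactors I) := by
  classical
  rw [← Multiset.toFinset_sum_count_eq]
  have hinj : Function.Injective
      (fun q : HeightOneSpectrum (intCl F' v) => q.asIdeal) := fun q q' h =>
    HeightOneSpectrum.ext h
  rw [← Finset.sum_image (s := Finset.univ)
    (f := fun P : Ideal (intCl F' v) => (normalizedFactors I).count P)
    (g := fun q : HeightOneSpectrum (intCl F' v) => q.asIdeal) (fun q _ q' _ h => hinj h)]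
  symm
  refine Finset.sum_subset ?_ ?_
  · intro P hP
    rw [Multiset.mem_toFinset, Ideal.mem_normalizedFactors_iff hI] at hP
    have hPne : P ≠ ⊥ := fun h => hI (le_bot_iff.mp (h ▸ hP.2))
    exact Finset.mem_image.mpr ⟨⟨P, hP.1, hPne⟩, Finset.mem_univ _, rfl⟩
  · intro P _ hP
    rw [Multiset.mem_toFinset] at hP
    exact Multiset.count_eq_zero_of_notMem hP

/-- Replacement (helper160) for Mathlib's `Ideal.relNorm_eq_pow_of_isMaximal`, which needs a
perfect fraction field: when all residue degrees are one, `N(q) = p` follows by counting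
(`N(q) = p ^ s_q` with `s_q ≥ 1`, `∑ e_q s_q = n = ∑ e_q`). -/
theorem relNorm_asIdeal_eq (hdeg' : ∀ w : Place K F', w.deg = 1)
    (q₀ : HeightOneSpectrum (intCl F' v)) :
    Ideal.relNorm v.toValuationSubring q₀.asIdeal = pv v := by
  classical
  let _ : Fintype ((pv v).primesOver (intCl F' v)) := Fintype.ofFinite _
  have hptop : pv v ≠ ⊤ := (IsLocalRing.maximalIdeal.isMaximal _).ne_top
  have hs : ∀ Q : (pv v).primesOver (intCl F' v), ∃ s : ℕ, 1 ≤ s ∧
      Ideal.relNorm v.toValuationSubring Q.1 = pv v ^ s := by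
    intro Q
    have : Q.1.IsPrime := Q.2.1
    have : Q.1.LiesOver (pv v) := Q.2.2
    obtain ⟨s, hs⟩ := Ideal.exists_relNorm_eq_pow_of_isPrime Q.1 (pv v)
    refine ⟨s, ?_, hs⟩
    by_contra h
    have h0 : s = 0 := by omega
    rw [h0, pow_zero, Ideal.one_eq_top] at hs
    have hle := Ideal.relNorm_le_comap v.toValuationSubring Q.1
    rw [hs, top_le_iff] at hle
    have hover : Q.1.comap (algebraMap v.toValuationSubring (intCl F' v)) = pv v :=
      (Ideal.LiesOver.over (P := Q.1) (p := pv v)).symm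
    exact hptop (hover ▸ hle)
  choose s hs1 hs2 using hs
  have hmap := Ideal.map_algebraMap_eq_finsetProd_pow (R := intCl F' v)
    (p := pv v) (pv_ne_bot v)
  have hN := Ideal.relNorm_algebraMap (intCl F' v) (pv v)
  rw [hmap, map_prod] at hN
  have hN' : ∏ Q : (pv v).primesOver (intCl F' v),
      (pv v) ^ (s Q * Q.1.ramificationIdx v.toValuationSubring)
      = pv v ^ Module.finrank v.toValuationSubring (intCl F' v) := by
    rw [← hN, ← Finset.prod_set_coe]
    refine Finset.prod_congr (by ext; simp) fun Q _ => ?_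
    rw [map_pow, hs2 Q, ← pow_mul]
  rw [Finset.prod_pow_eq_pow_sum] at hN'
  have hinj : Function.Injective (fun n : ℕ => pv v ^ n) := by
    have hprime : Prime (pv v) :=
      Ideal.prime_of_isPrime (pv_ne_bot v) (IsLocalRing.maximalIdeal.isMaximal _).isPrime
    exact pow_injective_of_not_isUnit hprime.not_isUnit (pv_ne_bot v)
  have hsum1 := hinj hN'
  have hsum2 := Ideal.sum_ramification_inertia_eq_finrank (pv v) (intCl F' v)
  have hf : ∀ Q : (pv v).primesOver (intCl F' v), Q.1.inertiaDeg v.toValuationSubring = 1 := by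
    intro Q
    have := inertiaDeg_intCl_eq_one v hdeg' (primeOfOver v Q)
    rwa [primeOfOver_asIdeal] at this
  simp only [hf, mul_one] at hsum2
  have he : ∀ Q : (pv v).primesOver (intCl F' v),
      Q.1.ramificationIdx v.toValuationSubring ≠ 0 := by
    intro Q
    have : Q.1.IsPrime := Q.2.1
    exact (Ideal.ramificationIdx_pos (R := v.toValuationSubring) Q.1).ne'
  -- all `s Q = 1`
  have hall : ∀ Q : (pv v).primesOver (intCl F' v), s Q = 1 := by
    by_contra hne
    push Not at hne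
    obtain ⟨Q₁, hQ₁⟩ := hne
    have hlt : ∑ Q : (pv v).primesOver (intCl F' v), Q.1.ramificationIdx v.toValuationSubring
        < ∑ Q : (pv v).primesOver (intCl F' v),
          s Q * Q.1.ramificationIdx v.toValuationSubring := by
      refine Finset.sum_lt_sum (fun Q _ => ?_) ⟨Q₁, Finset.mem_univ _, ?_⟩
      · exact Nat.le_mul_of_pos_left _ (hs1 Q)
      · have h2 : 2 ≤ s Q₁ := by have := hs1 Q₁; omega
        have := Nat.pos_of_ne_zero (he Q₁)
        nlinarith
    omega
  obtain ⟨Q, rfl⟩ := primeOfOver_surjective v q₀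
  rw [primeOfOver_asIdeal, hs2 Q, hall Q, pow_one]

theorem relNorm_eq_pow (hdeg' : ∀ w : Place K F', w.deg = 1) (I : Ideal (intCl F' v))
    (hI : I ≠ ⊥) :
    Ideal.relNorm v.toValuationSubring I = (pv v) ^ Multiset.card (normalizedFactors I) := by
  conv_lhs => rw [← Ideal.prod_normalizedFactors_eq_self hI]
  rw [map_multiset_prod]
  have hconst : (normalizedFactors I).map (Ideal.relNorm v.toValuationSubring)
      = (normalizedFactors I).map (fun _ => pv v) := by
    refine Multiset.map_congr rfl fun P hP => ?_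
    rw [Ideal.mem_normalizedFactors_iff hI] at hP
    have hPne : P ≠ ⊥ := fun h => hI (le_bot_iff.mp (h ▸ hP.2))
    exact relNorm_asIdeal_eq v hdeg' ⟨P, hP.1, hPne⟩
  rw [hconst, Multiset.map_const', Multiset.prod_replicate]

theorem sum_ord_coe_eq_ord_intNorm [Fintype (HeightOneSpectrum (intCl F' v))]
    (hdeg' : ∀ w : Place K F', w.deg = 1) (x : intCl F' v) (hx : x ≠ 0) :
    ∑ q : HeightOneSpectrum (intCl F' v), (placeOf v q).ord (x : F')
      = v.ord ((Algebra.intNorm v.toValuationSubring (intCl F' v) x : v.toValuationSubring) : F) := by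
  have hI : Ideal.span {x} ≠ (⊥ : Ideal (intCl F' v)) := by
    rw [Ne, Ideal.span_singleton_eq_bot]
    exact hx
  have hN : Algebra.intNorm v.toValuationSubring (intCl F' v) x ≠ 0 :=
    Algebra.intNorm_ne_zero.mpr hx
  rw [ord_coe_eq_multiplicity v _ hN, ← Ideal.relNorm_singleton, relNorm_eq_pow v hdeg' _ hI,
    multiplicity_pow_self_of_prime
      (Ideal.prime_of_isPrime (pv_ne_bot v) (IsLocalRing.maximalIdeal.isMaximal _).isPrime),
    ← sum_count_eq_card v _ hI]
  push_cast
  refine Finset.sum_congr rfl fun q _ => ?_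
  rw [ord_placeOf_coe_eq_multiplicity v q x hx, multiplicity_eq_count v q _ hI]

omit [FiniteDimensional F F'] [Algebra.IsSeparable F F'] [Algebra K F'] [IsScalarTower K F F'] [Algebra F F'] in
theorem ord_div' (u : Place K F) {f g : F} (hf : f ≠ 0) (hg : g ≠ 0) :
    u.ord (f / g) = u.ord f - u.ord g := by
  rw [div_eq_mul_inv, u.ord_mul hf (inv_ne_zero hg), u.ord_inv]
  ring

theorem sum_ord_eq_ord_norm_of_mem (hdeg' : ∀ w : Place K F', w.deg = 1)
    (s : Finset (Place K F')) (hs : ∀ w, w ∈ s ↔ w.restrict F = v)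
    (x : intCl F' v) (hx : x ≠ 0) :
    ∑ w ∈ s, w.ord (x : F') = v.ord (Algebra.norm F (x : F')) := by
  let _ : Fintype (HeightOneSpectrum (intCl F' v)) := Fintype.ofFinite _
  have h1 := sum_ord_coe_eq_ord_intNorm v hdeg' x hx
  have h2 : ((Algebra.intNorm v.toValuationSubring (intCl F' v) x : v.toValuationSubring) : F)
      = Algebra.norm F (x : F') :=
    Algebra.algebraMap_intNorm (A := v.toValuationSubring) (K := F) (L := F')
      (B := intCl F' v) x
  rw [← h2, ← h1]
  symm
  refine Finset.sum_bij (fun q _ => placeOf v q) ?_ ?_ ?_ ?_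
  · intro q _
    exact (hs _).mpr (restrict_placeOf v _)
  · intro q _ q' _ h
    exact placeOf_injective v h
  · intro w hw
    obtain ⟨q, hq⟩ := exists_placeOf_eq v w ((hs w).mp hw)
    exact ⟨q, Finset.mem_univ _, hq⟩
  · intro q _
    rfl

/-- **Local norm formula** `∑_{w | v} ord_w(g) = ord_v(N_{F'/F} g)`. -/
theorem sum_ord_eq_ord_norm (hdeg' : ∀ w : Place K F', w.deg = 1)
    (s : Finset (Place K F')) (hs : ∀ w, w ∈ s ↔ w.restrict F = v)
    (g : F') (hg : g ≠ 0) :
    ∑ w ∈ s, w.ord g = v.ord (Algebra.norm F g) := by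
  obtain ⟨a, b, hb, rfl⟩ := IsFractionRing.div_surjective (A := intCl F' v) g
  have hb0 : b ≠ 0 := nonZeroDivisors.ne_zero hb
  have ha0 : a ≠ 0 := by
    rintro rfl
    simp at hg
  have ha' : (a : F') ≠ 0 := fun h => ha0 (Subtype.ext h)
  have hb' : (b : F') ≠ 0 := fun h => hb0 (Subtype.ext h)
  have hcoea : algebraMap (intCl F' v) F' a = (a : F') := rfl
  have hcoeb : algebraMap (intCl F' v) F' b = (b : F') := rfl
  have hnorm : Algebra.norm F ((a : F') / (b : F'))
      = Algebra.norm F (a : F') / Algebra.norm F (b : F') := by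
    rw [eq_div_iff (Algebra.norm_ne_zero_iff.mpr hb'), ← map_mul, div_mul_cancel₀ _ hb']
  rw [hcoea, hcoeb, hnorm,
    ord_div' v (Algebra.norm_ne_zero_iff.mpr ha') (Algebra.norm_ne_zero_iff.mpr hb'),
    ← sum_ord_eq_ord_norm_of_mem v hdeg' s hs a ha0,
    ← sum_ord_eq_ord_norm_of_mem v hdeg' s hs b hb0, ← Finset.sum_sub_distrib]
  refine Finset.sum_congr rfl fun w _ => ?_
  exact ord_div' w ha' hb'

end Local

end Fermat.Agent.S37.H160.SepFF

end
-- ===== PACK-END S37/H160/SepFF.lean

-- ===== PACK-BEGIN S37/Red/H160/RatFibre.lean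
section




/-!
# S37-RED, piece A (helper160): fibre sums over a rational point of the `t`-line

`K` algebraically closed (any characteristic), `F / K(t)` finite separable.  For `f ∈ Fˣ` with
`N_{F/K(t)}(f) = p(t)/q(t)` and `a ∈ K`:

  `∑_{P : t(P) = a} ord_P f = mult_a(p) - mult_a(q)`            (`sum_ord_fibre`)

(sum over any finite set of places over `t = a` containing the zeros and poles of `f` there).
Uses the separable local norm formula `SepFF.sum_ord_eq_ord_norm` and the description of the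
places of `K(t)`.
-/

set_option autoImplicit false
set_option linter.unusedSectionVars false

noncomputable section

namespace Fermat.Agent.S37.Red.H160

open AlgebraicCurve Polynomial IntermediateField
open Fermat.Agent.S37.H160

variable {K F : Type*} [Field K] [Field F] [Algebra K F]

section RatPlace

variable {t : F}

/-- Every element of `K(t)` is a quotient of polynomials in `t`. -/
theorem exists_aeval_div (ht : Transcendental K t) (g : K⟮t⟯) :
    ∃ r s : K[X], s ≠ 0 ∧ g * aeval (AdjoinSimple.gen K t) s = aeval (AdjoinSimple.gen K t) r := by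
  obtain ⟨r, s, hrs⟩ := (mem_adjoin_simple_iff K (g : F)).mp g.2
  have hcoe : ∀ p : K[X], ((aeval (AdjoinSimple.gen K t) p : K⟮t⟯) : F) = aeval t p := fun p => by
    rw [← AdjoinSimple.algebraMap_gen K t, aeval_algebraMap_apply]
    rfl
  by_cases hs : s = 0
  · refine ⟨0, 1, one_ne_zero, ?_⟩
    apply Subtype.ext
    rw [hs, map_zero, div_zero] at hrs
    simp [hrs]
  · refine ⟨r, s, hs, ?_⟩
    have hs' : aeval t s ≠ 0 := fun h => hs ((transcendental_iff.mp ht) s h)
    apply Subtype.ext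
    rw [MulMemClass.coe_mul, hcoe, hcoe, hrs, div_mul_cancel₀ _ hs']

theorem aeval_gen_ne_zero (ht : Transcendental K t) {p : K[X]} (hp : p ≠ 0) :
    aeval (AdjoinSimple.gen K t) p ≠ 0 := by
  intro h
  have h1 : ((aeval (AdjoinSimple.gen K t) p : K⟮t⟯) : F) = aeval t p := by
    rw [← AdjoinSimple.algebraMap_gen K t, aeval_algebraMap_apply]
    rfl
  rw [h] at h1
  exact hp ((transcendental_iff.mp ht) p h1.symm)

variable (v : Place K K⟮t⟯) (a : K)

/-- At a place of `K(t)` over `t = a`, `t - a` is a uniformizer. -/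
theorem ord_gen_sub_eq_one (ht : Transcendental K t)
    (hv : 0 < v.ord (AdjoinSimple.gen K t - algebraMap K K⟮t⟯ a)) :
    v.ord (AdjoinSimple.gen K t - algebraMap K K⟮t⟯ a) = 1 := by
  obtain ⟨π, hπ, hπ1⟩ := Fermat.Agent.S24.FF.exists_irreducible_coe v
  obtain ⟨r, s, hs, hrs⟩ := exists_aeval_div ht (π : K⟮t⟯)
  have hπ0 : (π : K⟮t⟯) ≠ 0 := by
    intro h
    rw [h, v.ord_zero] at hπ1
    exact zero_ne_one hπ1
  have hs0 := aeval_gen_ne_zero ht hs
  have hr : r ≠ 0 := by
    rintro rfl
    rw [map_zero] at hrs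
    rcases mul_eq_zero.mp hrs with h | h
    · exact hπ0 h
    · exact hs0 h
  have h1 := (Fermat.Agent.S24.H324.ord_aeval_at v _ a hv r hr).2
  have h2 := (Fermat.Agent.S24.H324.ord_aeval_at v _ a hv s hs).2
  have h3 := congrArg v.ord hrs
  rw [v.ord_mul hπ0 hs0, hπ1, h1, h2] at h3
  set e := v.ord (AdjoinSimple.gen K t - algebraMap K K⟮t⟯ a) with he
  have h4 : ((r.rootMultiplicity a : ℤ) - s.rootMultiplicity a) * e = 1 := by linarith
  have h5 : e ∣ 1 := Dvd.intro_left _ h4
  have h6 := Int.eq_one_or_neg_one_of_mul_eq_one' h4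
  rcases Int.isUnit_iff.mp (isUnit_of_dvd_one h5) with h | h
  · exact h
  · omega

/-- Order of a rational function at a place of `K(t)` over `t = a`. -/
theorem ord_of_mul_aeval (ht : Transcendental K t)
    (hv : 0 < v.ord (AdjoinSimple.gen K t - algebraMap K K⟮t⟯ a))
    {g : K⟮t⟯} (hg : g ≠ 0) {r s : K[X]} (hs : s ≠ 0)
    (hrs : g * aeval (AdjoinSimple.gen K t) s = aeval (AdjoinSimple.gen K t) r) :
    v.ord g = (r.rootMultiplicity a : ℤ) - s.rootMultiplicity a := by
  have hs0 := aeval_gen_ne_zero ht hs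
  have hr : r ≠ 0 := by
    rintro rfl
    rw [map_zero] at hrs
    rcases mul_eq_zero.mp hrs with h | h
    · exact hg h
    · exact hs0 h
  have h1 := (Fermat.Agent.S24.H324.ord_aeval_at v _ a hv r hr).2
  have h2 := (Fermat.Agent.S24.H324.ord_aeval_at v _ a hv s hs).2
  have h3 := congrArg v.ord hrs
  rw [v.ord_mul hg hs0, h1, h2, ord_gen_sub_eq_one v a ht hv] at h3
  linarith

/-- A place of `K(t)` is determined by the value of `t`. -/
theorem ratPlace_unique (ht : Transcendental K t) {v v' : Place K K⟮t⟯} {a : K}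
    (hv : 0 < v.ord (AdjoinSimple.gen K t - algebraMap K K⟮t⟯ a))
    (hv' : 0 < v'.ord (AdjoinSimple.gen K t - algebraMap K K⟮t⟯ a)) : v = v' := by
  apply Place.ext
  ext g
  rw [Fermat.Agent.S24.FF.mem_iff_ord_nonneg, Fermat.Agent.S24.FF.mem_iff_ord_nonneg]
  rcases eq_or_ne g 0 with rfl | hg
  · simp
  obtain ⟨r, s, hs, hrs⟩ := exists_aeval_div ht g
  rw [ord_of_mul_aeval v a ht hv hg hs hrs, ord_of_mul_aeval v' a ht hv' hg hs hrs]

end RatPlace

section Fibre

variable [IsAlgClosed K] {t : F} [FiniteDimensional K⟮t⟯ F] [Algebra.IsSeparable K⟮t⟯ F]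

theorem coe_gen_sub (a : K) :
    algebraMap K⟮t⟯ F (AdjoinSimple.gen K t - algebraMap K K⟮t⟯ a) = t - algebraMap K F a := by
  rw [map_sub, AdjoinSimple.algebraMap_gen, ← IsScalarTower.algebraMap_apply]

/-- A place of `F` lies over `t = a` iff its restriction to `K(t)` does. -/
theorem ord_restrict_gen_sub_pos_iff (w : Place K F) (a : K) :
    0 < (w.restrict K⟮t⟯).ord (AdjoinSimple.gen K t - algebraMap K K⟮t⟯ a) ↔
      0 < w.ord (t - algebraMap K F a) := by
  have h := w.ord_restrict (F := K⟮t⟯) (AdjoinSimple.gen K t - algebraMap K K⟮t⟯ a)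
  rw [coe_gen_sub] at h
  have he : 0 < (w.ramificationIndex K⟮t⟯ : ℤ) := by
    exact_mod_cast w.ramificationIndex_pos (F := K⟮t⟯)
  rw [h]
  constructor
  · intro h1
    exact mul_pos he h1
  · intro h1
    exact (mul_pos_iff_of_pos_left he).mp h1

/-- **Fibre sum over a rational point.** -/
theorem sum_ord_fibre (ht : Transcendental K t) (a : K) (f : F) (hf : f ≠ 0)
    (p q : K[X]) (hq : q ≠ 0)
    (hN : algebraMap K⟮t⟯ F (Algebra.norm K⟮t⟯ f) * aeval t q = aeval t p)
    (S : Finset (Place K F)) (hS1 : ∀ P ∈ S, 0 < P.ord (t - algebraMap K F a))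
    (hS2 : ∀ P : Place K F, P.ord f ≠ 0 → 0 < P.ord (t - algebraMap K F a) → P ∈ S) :
    ∑ P ∈ S, P.ord f = (p.rootMultiplicity a : ℤ) - q.rootMultiplicity a := by
  classical
  have hta : Transcendental K (t - algebraMap K F a) := by
    intro halg
    apply ht
    have := halg.add (isAlgebraic_algebraMap (R := K) (A := F) a)
    simpa using this
  obtain ⟨P₀, hP₀⟩ := Fermat.Agent.Lib.RR.H443.exists_place_ord_pos' ht hta
  set v := P₀.restrict K⟮t⟯ with hvdef
  have hv : 0 < v.ord (AdjoinSimple.gen K t - algebraMap K K⟮t⟯ a) :=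
    (ord_restrict_gen_sub_pos_iff P₀ a).mpr hP₀
  have hfib : ∀ w : Place K F, w.restrict K⟮t⟯ = v ↔ 0 < w.ord (t - algebraMap K F a) := by
    intro w
    constructor
    · intro h
      rw [← ord_restrict_gen_sub_pos_iff, h]
      exact hv
    · intro h
      exact ratPlace_unique ht ((ord_restrict_gen_sub_pos_iff w a).mpr h) hv
  have hfin := SepFF.finite_fibre (F' := F) v
  set s := hfin.toFinset with hsdef
  have hs : ∀ w, w ∈ s ↔ w.restrict K⟮t⟯ = v := fun w => by
    rw [hsdef, Set.Finite.mem_toFinset]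
    rfl
  have hdeg : ∀ w : Place K F, w.deg = 1 := fun w => Fermat.Agent.S24.FF.deg_eq_one w ht
  have hsum := SepFF.sum_ord_eq_ord_norm v hdeg s hs f hf
  have hSs : S ⊆ s := fun P hP => (hs P).mpr ((hfib P).mpr (hS1 P hP))
  have h1 : ∑ P ∈ S, P.ord f = ∑ P ∈ s, P.ord f := by
    refine Finset.sum_subset hSs fun P hPs hPS => ?_
    by_contra hne
    exact hPS (hS2 P hne ((hfib P).mp ((hs P).mp hPs)))
  rw [h1, hsum]
  have hNne : Algebra.norm K⟮t⟯ f ≠ 0 := Algebra.norm_ne_zero_iff.mpr hf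
  refine ord_of_mul_aeval v a ht hv hNne hq ?_
  apply (algebraMap K⟮t⟯ F).injective
  rw [map_mul, ← aeval_algebraMap_apply, ← aeval_algebraMap_apply, AdjoinSimple.algebraMap_gen]
  exact hN

end Fibre

end Fermat.Agent.S37.Red.H160

end
end
-- ===== PACK-END S37/Red/H160/RatFibre.lean

-- ===== PACK-BEGIN Lib/FF/Principal.lean
section




/-!
# Lib/FF: `HasPrincipalDivisors` for function fields of curves (helper220)

`K` algebraically closed of characteristic zero, `F` a field finite over `K(j)` with `j`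
transcendental.  Every nonzero `f : F` has a divisor (finitely many zeros and poles) of degree
zero.  This is a thin wrapper around helper804's `Fermat.Agent.S24.FF` layer.
-/

set_option autoImplicit false

namespace Fermat.Agent.Lib.FF

open AlgebraicCurve IntermediateField

variable {K F : Type*} [Field K] [Field F] [Algebra K F]

/-- A function on a curve over an algebraically closed field of characteristic zero has finitely
many zeros and poles. -/
theorem finite_setOf_ord_ne_zero' [IsAlgClosed K] [CharZero K] (j : F) (hj : Transcendental K j)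
    [FiniteDimensional K⟮j⟯ F] (f : F) : {v : Place K F | v.ord f ≠ 0}.Finite := by
  by_cases hfr : f ∈ (algebraMap K F).range
  · obtain ⟨a, rfl⟩ := hfr
    convert Set.finite_empty
    ext v
    simp [Fermat.Agent.S24.FF.ord_algebraMap]
  · have hft : Transcendental K f := Fermat.Agent.S24.FF.transcendental_of_not_mem_range hfr
    haveI : FiniteDimensional K⟮f⟯ F :=
      Fermat.Agent.S24.FF.finiteDimensional_adjoin_of_transcendental hj hft
    exact Fermat.Agent.S24.FF.finite_setOf_ord_ne_zero hft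

/-- **(A)** `HasPrincipalDivisors K F` for the function field of a curve over an algebraically
closed field of characteristic zero. -/
theorem hasPrincipalDivisors [IsAlgClosed K] [CharZero K] (j : F) (hj : Transcendental K j)
    [FiniteDimensional K⟮j⟯ F] : HasPrincipalDivisors K F := by
  classical
  refine ⟨fun f _ => ?_⟩
  let D : Divisor K F :=
    Finsupp.ofSupportFinite (fun v => v.ord f) (finite_setOf_ord_ne_zero' j hj f)
  exact ⟨D, fun v => rfl, Fermat.Agent.S24.FF.degree_principal j hj f D (fun v => rfl)⟩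

end Fermat.Agent.Lib.FF

end
-- ===== PACK-END Lib/FF/Principal.lean

-- ===== PACK-BEGIN S37/H940/Line.lean
section







/-!
# S37 / RIM (helper940): function fields over a coordinate line, characteristic free

`F / K` a function field (Prelude `Place K F`), `K` algebraically closed, `t ∈ F` transcendental
with `F` finite over `K(t)`.  Characteristic-free facts used to build the fibres of the place
reduction map over the `t`-line:

* `Line.exists_value`      : regular functions have values in `K`;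
* `Line.finite_ord_ne_zero`: zeros and poles are finite in number;
* `Line.inMax_aeval_sub`   : `p(t)` has the value `p(c)` where `t` has the value `c`;
* `Line.mem_integralClosure_of_regular` : a function regular wherever `t` is regular is
  integral over `K[t]`;
* `Line.exists_clear`      : pole clearing by a polynomial in `t` not vanishing at `c`;
* `Line.exists_localParam`, `Line.exists_separating` : elements of the integral closure of `K[t]`
  which are local parameters at a given point of the fibre `t = c` (units at the others), resp.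
  which separate the points of the fibre `t = c`.
-/

set_option autoImplicit false

noncomputable section

namespace Fermat.Agent.S37.H940.Line

open AlgebraicCurve IntermediateField Polynomial
open Fermat.Agent.S37.H940

variable {K F : Type*} [Field K] [Field F] [Algebra K F]

/-- regularity in terms of membership -/
theorem regular_iff_mem (P : Place K F) (f : F) : 0 ≤ P.ord f ↔ f ∈ P.toValuationSubring :=
  (Fermat.Agent.S24.FF.mem_iff_ord_nonneg P).symm

theorem regular_mul (P : Place K F) {f g : F} (hf : 0 ≤ P.ord f) (hg : 0 ≤ P.ord g) :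
    0 ≤ P.ord (f * g) := by
  rw [regular_iff_mem] at *
  exact mul_mem hf hg

theorem regular_pow (P : Place K F) {f : F} (hf : 0 ≤ P.ord f) (n : ℕ) : 0 ≤ P.ord (f ^ n) := by
  rw [regular_iff_mem] at *
  exact pow_mem hf n

theorem regular_sub_const (P : Place K F) {f : F} (hf : 0 ≤ P.ord f) (c : K) :
    0 ≤ P.ord (f - algebraMap K F c) := by
  rw [regular_iff_mem] at *
  exact sub_mem hf (P.algebraMap_mem' c)

theorem regular_aeval (P : Place K F) {t : F} (ht : 0 ≤ P.ord t) (p : K[X]) :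
    0 ≤ P.ord (aeval t p) :=
  (regular_iff_mem P _).mpr (Fermat.Agent.Lib.RR.aeval_mem P ht p)

/-- `p(t)` has the value `p(c)` at a place where `t` has the value `c` -/
theorem inMax_aeval_sub (P : Place K F) {t : F} {c : K} (h : InMax P (t - algebraMap K F c))
    (p : K[X]) : InMax P (aeval t p - algebraMap K F (p.eval c)) := by
  have hreg : 0 ≤ P.ord t := ord_nonneg_of_inMax_sub h
  obtain ⟨q, hq⟩ : (X - C c) ∣ p - C (p.eval c) := by
    rw [Polynomial.dvd_iff_isRoot]
    simp
  have e : aeval t p - algebraMap K F (p.eval c) = (t - algebraMap K F c) * aeval t q := by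
    have := congrArg (aeval t) hq
    simpa using this
  rw [e]
  exact h.mul_of_ord_nonneg (regular_aeval P hreg q)

section AlgClosed

variable [IsAlgClosed K] {t : F} (ht : Transcendental K t) [FiniteDimensional K⟮t⟯ F]

include ht

/-- regular functions have values in `K` -/
theorem exists_value (P : Place K F) {f : F} (hf : 0 ≤ P.ord f) :
    ∃ c : K, InMax P (f - algebraMap K F c) := by
  obtain ⟨a, ha⟩ := Fermat.Agent.S24.FF.exists_const_sub_mem_nonunits P ht
    ((regular_iff_mem P f).mp hf)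
  exact ⟨a, inMax_iff_mem_nonunits.mpr ha⟩

theorem deg_eq_one (P : Place K F) : P.deg = 1 := Fermat.Agent.S24.FF.deg_eq_one P ht

theorem hyp : Fermat.Agent.Lib.RR.H443.Hyp K F := Fermat.Agent.Lib.RR.H443.hyp_of_isAlgClosed ht

theorem zerosBound : Fermat.Agent.Lib.RR.H443.ZerosBound K F :=
  Fermat.Agent.Lib.RR.H443.zerosBound (hyp ht).deg_eq_one

/-- zeros and poles are finite in number -/
theorem finite_ord_ne_zero (u : F) : {P : Place K F | P.ord u ≠ 0}.Finite := by
  refine ((Fermat.Agent.Lib.RR.H443.finite_zeros (hyp ht) (zerosBound ht) u).union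
    (Fermat.Agent.Lib.RR.H443.finite_poles (hyp ht) (zerosBound ht) u)).subset fun P hP => ?_
  have hP' : P.ord u ≠ 0 := hP
  rcases lt_or_gt_of_ne hP' with h | h
  · exact Or.inr h
  · exact Or.inl h

omit [IsAlgClosed K] [FiniteDimensional K⟮t⟯ F] in
theorem sub_const_ne_zero (c : K) : t - algebraMap K F c ≠ 0 := by
  intro h
  apply ht
  rw [sub_eq_zero] at h
  rw [h]
  exact isAlgebraic_algebraMap c

/-- the fibre `t = c` is finite -/
theorem finite_fibre (c : K) : {P : Place K F | InMax P (t - algebraMap K F c)}.Finite := by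
  refine (finite_ord_ne_zero ht (t - algebraMap K F c)).subset fun P hP => ?_
  have := InMax.ord_pos hP (sub_const_ne_zero ht c)
  exact ne_of_gt this

/-- the fibre `t = c` is not empty -/
theorem exists_mem_fibre (c : K) : ∃ P : Place K F, InMax P (t - algebraMap K F c) := by
  have htr : Transcendental K (t - algebraMap K F c) := by
    intro h
    apply ht
    have := h.add (isAlgebraic_algebraMap (R := K) (A := F) c)
    rwa [sub_add_cancel] at this
  obtain ⟨P, hP⟩ := Fermat.Agent.Lib.RR.H443.exists_place_ord_pos (hyp ht).finite htr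
  exact ⟨P, inMax_of_ord_pos hP⟩

/-- **Regular functions are integral.**  A function which is regular at every place where `t`
is regular is integral over `K[t]`. -/
theorem mem_integralClosure_of_regular (f : F)
    (h : ∀ P : Place K F, 0 ≤ P.ord t → 0 ≤ P.ord f) :
    f ∈ integralClosure (Algebra.adjoin K {t}) F := by
  set s : Set F := Set.range (algebraMap K F) ∪ {t} with hs
  have hmem : f ∈ (integralClosure (Subring.closure s) F).toSubring := by
    rw [← iInf_valuationSubring_superset]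
    rw [Subring.mem_iInf]
    rintro ⟨V, hV⟩
    by_cases htop : V = ⊤
    · show f ∈ V
      rw [htop]
      exact ValuationSubring.mem_top f
    · have hK : ∀ a : K, algebraMap K F a ∈ V := fun a => hV (Or.inl ⟨a, rfl⟩)
      have htV : t ∈ V := hV (Or.inr rfl)
      let P : Place K F :=
        Fermat.Agent.Lib.RR.H443.placeOfValuationSubring V hK htop (hyp ht).finite
      have h1 : 0 ≤ P.ord t := (regular_iff_mem P t).mpr htV
      exact (regular_iff_mem P f).mp (h P h1)
  have hint : IsIntegral (Subring.closure s) f := hmem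
  obtain ⟨p, hp, hpf⟩ := hint
  have hle : Subring.closure s ≤ (Algebra.adjoin K {t}).toSubring := by
    rw [Subring.closure_le]
    rintro y (⟨a, rfl⟩ | rfl)
    · exact (Algebra.adjoin K {t}).algebraMap_mem a
    · exact Algebra.self_mem_adjoin_singleton K _
  let ι : Subring.closure s →+* Algebra.adjoin K {t} := Subring.inclusion hle
  refine ⟨p.map ι, hp.map ι, ?_⟩
  rw [Polynomial.eval₂_map]
  exact hpf

/-- **Pole clearing**: a function regular on the fibre `t = c` becomes regular wherever `t` is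
regular after multiplication by a polynomial in `t` which does not vanish at `c`. -/
theorem exists_clear (c : K) (f : F)
    (hreg : ∀ P : Place K F, InMax P (t - algebraMap K F c) → 0 ≤ P.ord f) :
    ∃ p : K[X], p.eval c ≠ 0 ∧ ∀ P : Place K F, 0 ≤ P.ord t → 0 ≤ P.ord (f * aeval t p) := by
  classical
  -- induction on a finite set containing the finite poles
  have key : ∀ (S : Finset (Place K F)) (f : F),
      (∀ P : Place K F, 0 ≤ P.ord t → P.ord f < 0 → P ∈ S) →
      (∀ P ∈ S, ¬ InMax P (t - algebraMap K F c)) → (∀ P ∈ S, 0 ≤ P.ord t) →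
      ∃ p : K[X], p.eval c ≠ 0 ∧ ∀ P : Place K F, 0 ≤ P.ord t → 0 ≤ P.ord (f * aeval t p) := by
    intro S
    induction S using Finset.induction_on with
    | empty =>
      intro f h1 _ _
      refine ⟨1, by simp, fun P hP => ?_⟩
      rw [map_one, mul_one]
      by_contra hneg
      exact absurd (h1 P hP (not_le.mp hneg)) (Finset.notMem_empty P)
    | insert P₀ S' hP₀ ih =>
      intro f h1 h2 h3
      have hP₀t : 0 ≤ P₀.ord t := h3 P₀ (Finset.mem_insert_self _ _)
      obtain ⟨c₀, hc₀⟩ := exists_value ht P₀ hP₀t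
      have hne : c₀ ≠ c := by
        rintro rfl
        exact h2 P₀ (Finset.mem_insert_self _ _) hc₀
      set m : ℕ := (-(P₀.ord f)).toNat with hm
      set g : F := t - algebraMap K F c₀ with hg
      have hg0 : g ≠ 0 := sub_const_ne_zero ht c₀
      have hgreg : ∀ P : Place K F, 0 ≤ P.ord t → 0 ≤ P.ord (g ^ m) := fun P hP =>
        regular_pow P (regular_sub_const P hP c₀) m
      have hpoles : ∀ P : Place K F, 0 ≤ P.ord t → P.ord (f * g ^ m) < 0 → P ∈ S' := by
        intro P hP hneg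
        rcases eq_or_ne f 0 with rfl | hf0
        · rw [zero_mul, P.ord_zero] at hneg
          exact absurd hneg (lt_irrefl _)
        have hgm0 : g ^ m ≠ 0 := pow_ne_zero _ hg0
        have hord : P.ord (f * g ^ m) = P.ord f + P.ord (g ^ m) := P.ord_mul hf0 hgm0
        have hfneg : P.ord f < 0 := by
          have := hgreg P hP
          omega
        have hmem := h1 P hP hfneg
        rcases Finset.mem_insert.mp hmem with rfl | hS
        · exfalso
          have h4 : (m : ℤ) ≤ P.ord (g ^ m) := by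
            have h5 : P.ord (g ^ m) = m * P.ord g := by
              have := P.ord_zpow g (m : ℤ)
              rwa [zpow_natCast] at this
            have h6 : 0 < P.ord g := InMax.ord_pos hc₀ hg0
            rw [h5]
            nlinarith
          have h7 : -(P.ord f) ≤ (m : ℤ) := by
            rw [hm]
            exact Int.self_le_toNat _
          omega
        · exact hS
      obtain ⟨p', hp', hp'reg⟩ := ih (f * g ^ m) hpoles
        (fun P hP => h2 P (Finset.mem_insert_of_mem hP))
        (fun P hP => h3 P (Finset.mem_insert_of_mem hP))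
      refine ⟨(X - C c₀) ^ m * p', ?_, fun P hP => ?_⟩
      · rw [eval_mul, eval_pow, eval_sub, eval_X, eval_C]
        exact mul_ne_zero (pow_ne_zero _ (sub_ne_zero.mpr hne.symm)) hp'
      · have e : f * aeval t ((X - C c₀) ^ m * p') = f * g ^ m * aeval t p' := by
          rw [map_mul, map_pow, map_sub, aeval_X, aeval_C, mul_assoc]
        rw [e]
        exact hp'reg P hP
  have hfin : {P : Place K F | P.ord f < 0}.Finite :=
    Fermat.Agent.Lib.RR.H443.finite_poles (hyp ht) (zerosBound ht) f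
  have hfin' : {P : Place K F | P.ord f < 0 ∧ 0 ≤ P.ord t}.Finite :=
    hfin.subset fun P hP => hP.1
  refine key hfin'.toFinset f (fun P hP hneg => ?_) (fun P hP hin => ?_) (fun P hP => ?_)
  · rw [Set.Finite.mem_toFinset]
    exact ⟨hneg, hP⟩
  · rw [Set.Finite.mem_toFinset] at hP
    have := hreg P hin
    have := hP.1
    omega
  · rw [Set.Finite.mem_toFinset] at hP
    exact hP.2

omit [FiniteDimensional K⟮t⟯ F] [IsAlgClosed K] in
/-- a polynomial in `t` not vanishing at `c` is a unit on the fibre `t = c` -/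
theorem aeval_unit_on_fibre {c : K} {p : K[X]} (hp : p.eval c ≠ 0) {P : Place K F}
    (hP : InMax P (t - algebraMap K F c)) : aeval t p ≠ 0 ∧ P.ord (aeval t p) = 0 := by
  have _ := ht
  have h1 := inMax_aeval_sub P hP p
  refine ⟨?_, ord_eq_zero_of_inMax_sub h1 hp⟩
  intro h0
  rw [h0, zero_sub] at h1
  have h2 := h1.neg
  rw [neg_neg, inMax_algebraMap_iff] at h2
  exact hp h2

/-- **Local parameters.**  Every point of the fibre `t = c` has a local parameter which is
integral over `K[t]` and a unit at the other points of the fibre. -/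
theorem exists_localParam (c : K) (P₀ : Place K F) (_hP₀ : InMax P₀ (t - algebraMap K F c)) :
    ∃ τ ∈ integralClosure (Algebra.adjoin K {t}) F, P₀.ord τ = 1 ∧
      ∀ P : Place K F, InMax P (t - algebraMap K F c) → P ≠ P₀ → P.ord τ = 0 := by
  classical
  set S : Finset (Place K F) := (finite_fibre ht c).toFinset with hS
  have hmemS : ∀ P : Place K F, P ∈ S ↔ InMax P (t - algebraMap K F c) := fun P => by
    rw [hS, Set.Finite.mem_toFinset]; rfl
  obtain ⟨z, hz⟩ := Fermat.Agent.Lib.RR.H623.weak_approximation (insert P₀ S) (fun _ => (0 : F))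
    (fun P => if P = P₀ then 1 else 0)
  have hz0 : z ≠ 0 := by
    have := (hz P₀ (Finset.mem_insert_self _ _)).1
    rwa [sub_zero] at this
  have hzord : ∀ P ∈ insert P₀ S, P.ord z = if P = P₀ then 1 else 0 := fun P hP => by
    have := (hz P hP).2
    rwa [sub_zero] at this
  have hreg : ∀ P : Place K F, InMax P (t - algebraMap K F c) → 0 ≤ P.ord z := by
    intro P hP
    rw [hzord P (Finset.mem_insert_of_mem ((hmemS P).mpr hP))]
    split_ifs <;> norm_num
  obtain ⟨p, hp, hpreg⟩ := exists_clear ht c z hreg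
  refine ⟨z * aeval t p, mem_integralClosure_of_regular ht _ hpreg, ?_, fun P hP hne => ?_⟩
  · obtain ⟨h1, h2⟩ := aeval_unit_on_fibre ht hp _hP₀
    rw [P₀.ord_mul hz0 h1, h2, hzord P₀ (Finset.mem_insert_self _ _), if_pos rfl, add_zero]
  · obtain ⟨h1, h2⟩ := aeval_unit_on_fibre ht hp hP
    rw [P.ord_mul hz0 h1, h2, hzord P (Finset.mem_insert_of_mem ((hmemS P).mpr hP)), if_neg hne,
      add_zero]

/-- **Separating functions.**  Some function integral over `K[t]` takes pairwise different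
values at the points of the fibre `t = c`. -/
theorem exists_separating (c : K) :
    ∃ σ ∈ integralClosure (Algebra.adjoin K {t}) F,
      ∀ P P' : Place K F, InMax P (t - algebraMap K F c) → InMax P' (t - algebraMap K F c) →
        ∀ a : K, InMax P (σ - algebraMap K F a) → InMax P' (σ - algebraMap K F a) → P = P' := by
  classical
  set S : Finset (Place K F) := (finite_fibre ht c).toFinset with hS
  have hmemS : ∀ P : Place K F, P ∈ S ↔ InMax P (t - algebraMap K F c) := fun P => by
    rw [hS, Set.Finite.mem_toFinset]; rfl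
  have : Infinite K := IsAlgClosed.instInfinite
  -- distinct target values
  let a : Place K F → K := fun P =>
    if h : P ∈ S then Infinite.natEmbedding K (S.equivFin ⟨P, h⟩ : ℕ) else 0
  have ha_inj : ∀ P ∈ S, ∀ P' ∈ S, a P = a P' → P = P' := by
    intro P hP P' hP' h
    simp only [a, dif_pos hP, dif_pos hP'] at h
    have h1 := (Infinite.natEmbedding K).injective h
    have h2 := Fin.val_injective h1
    have h3 := S.equivFin.injective h2
    exact congrArg Subtype.val h3
  obtain ⟨z, hz⟩ := Fermat.Agent.Lib.RR.H623.weak_approximation_ge S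
    (fun P => algebraMap K F (a P)) (fun _ => 1)
  have hzval : ∀ P : Place K F, InMax P (t - algebraMap K F c) →
      InMax P (z - algebraMap K F (a P)) := by
    intro P hP
    rcases hz P ((hmemS P).mpr hP) with h | h
    · exact Or.inl h
    · exact Or.inr (by omega)
  have hreg : ∀ P : Place K F, InMax P (t - algebraMap K F c) → 0 ≤ P.ord z :=
    fun P hP => ord_nonneg_of_inMax_sub (hzval P hP)
  obtain ⟨p, hp, hpreg⟩ := exists_clear ht c z hreg
  have hval : ∀ P : Place K F, InMax P (t - algebraMap K F c) →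
      InMax P (z * aeval t p - algebraMap K F (a P * p.eval c)) := by
    intro P hP
    have h1 := hzval P hP
    have h2 := inMax_aeval_sub P hP p
    have hregp : 0 ≤ P.ord (aeval t p) := regular_aeval P (ord_nonneg_of_inMax_sub hP) p
    have e : z * aeval t p - algebraMap K F (a P * p.eval c)
        = (z - algebraMap K F (a P)) * aeval t p
          + algebraMap K F (a P) * (aeval t p - algebraMap K F (p.eval c)) := by
      rw [map_mul]; ring
    rw [e]
    exact (h1.mul_of_ord_nonneg hregp).add (h2.const_mul (a P))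
  refine ⟨z * aeval t p, mem_integralClosure_of_regular ht _ hpreg, ?_⟩
  intro P P' hP hP' b hb hb'
  have e1 := value_unique (hval P hP) hb
  have e2 := value_unique (hval P' hP') hb'
  have e3 : a P = a P' := by
    have : a P * p.eval c = a P' * p.eval c := by rw [e1, e2]
    exact mul_right_cancel₀ hp this
  exact ha_inj P ((hmemS P).mpr hP) P' ((hmemS P').mpr hP') e3

end AlgClosed

end Fermat.Agent.S37.H940.Line

end
end
-- ===== PACK-END S37/H940/Line.lean

-- ===== PACK-BEGIN S28/H568/Series.lean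
section



/-!
# S28 / H568 — formal preliminaries on `LaurentSeries ℂ`

* order / leading coefficient of integer powers and finite products;
* the subring of Laurent series with coefficients in a subring `C ⊆ ℂ`;
* `InfExp` for integer powers and finite products.
-/

set_option autoImplicit false

noncomputable section

open HahnSeries ModularCurve UpperHalfPlane Complex
open scoped Real

namespace Fermat.Agent.S28.H568

open Fermat.Agent.S24

/-! ### order and leading coefficient -/

section Order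

variable {K : Type*} [Field K]

theorem order_inv' {x : LaurentSeries K} (hx : x ≠ 0) : (x⁻¹).order = -x.order := by
  have h := HahnSeries.order_mul hx (inv_ne_zero hx)
  rw [mul_inv_cancel₀ hx, HahnSeries.order_one] at h
  linarith

theorem leadingCoeff_inv' (x : LaurentSeries K) : (x⁻¹).leadingCoeff = x.leadingCoeff⁻¹ := by
  rcases eq_or_ne x 0 with rfl | hx
  · simp
  · have h := HahnSeries.leadingCoeff_mul x x⁻¹
    rw [mul_inv_cancel₀ hx, HahnSeries.leadingCoeff_one] at h
    exact eq_inv_of_mul_eq_one_right h.symm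

theorem order_pow' {x : LaurentSeries K} (hx : x ≠ 0) (n : ℕ) :
    (x ^ n).order = n * x.order := by
  induction n with
  | zero => simp
  | succ n ih =>
    rw [pow_succ, HahnSeries.order_mul (pow_ne_zero n hx) hx, ih]
    push_cast
    ring

theorem leadingCoeff_pow' (x : LaurentSeries K) (n : ℕ) :
    (x ^ n).leadingCoeff = x.leadingCoeff ^ n := by
  induction n with
  | zero => simp
  | succ n ih => rw [pow_succ, HahnSeries.leadingCoeff_mul, ih, pow_succ]

theorem order_zpow' {x : LaurentSeries K} (hx : x ≠ 0) (r : ℤ) :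
    (x ^ r).order = r * x.order := by
  obtain ⟨n, rfl | rfl⟩ := r.eq_nat_or_neg
  · rw [zpow_natCast, order_pow' hx]
  · rw [zpow_neg, zpow_natCast, order_inv' (pow_ne_zero n hx), order_pow' hx]
    ring

theorem leadingCoeff_zpow' (x : LaurentSeries K) (r : ℤ) :
    (x ^ r).leadingCoeff = x.leadingCoeff ^ r := by
  obtain ⟨n, rfl | rfl⟩ := r.eq_nat_or_neg
  · rw [zpow_natCast, zpow_natCast, leadingCoeff_pow']
  · rw [zpow_neg, zpow_natCast, zpow_neg, zpow_natCast, leadingCoeff_inv', leadingCoeff_pow']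

theorem order_prod' {ι : Type*} (s : Finset ι) (f : ι → LaurentSeries K)
    (hf : ∀ i ∈ s, f i ≠ 0) : (∏ i ∈ s, f i).order = ∑ i ∈ s, (f i).order := by
  classical
  induction s using Finset.induction_on with
  | empty => simp
  | insert a s ha ih =>
    rw [Finset.prod_insert ha, Finset.sum_insert ha,
      HahnSeries.order_mul (hf a (Finset.mem_insert_self a s))
        (Finset.prod_ne_zero_iff.mpr fun i hi => hf i (Finset.mem_insert_of_mem hi)),
      ih fun i hi => hf i (Finset.mem_insert_of_mem hi)]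

theorem leadingCoeff_prod' {ι : Type*} (s : Finset ι) (f : ι → LaurentSeries K) :
    (∏ i ∈ s, f i).leadingCoeff = ∏ i ∈ s, (f i).leadingCoeff := by
  classical
  induction s using Finset.induction_on with
  | empty => simp
  | insert a s ha ih =>
    rw [Finset.prod_insert ha, Finset.prod_insert ha, HahnSeries.leadingCoeff_mul, ih]

end Order

/-! ### series with coefficients in a subring -/

section Coeff

variable (C : Subring ℂ)

/-- Laurent series over `ℂ` all of whose coefficients lie in the subring `C`. -/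
def coeffSubring : Subring (LaurentSeries ℂ) := (coeffMap C.subtype).range

variable {C}

theorem mem_coeffSubring_iff {φ : LaurentSeries ℂ} :
    φ ∈ coeffSubring C ↔ ∀ n, φ.coeff n ∈ C := by
  constructor
  · rintro ⟨ψ, rfl⟩ n
    rw [coeffMap_coeff]
    exact (ψ.coeff n).2
  · intro h
    refine ⟨⟨fun n => ⟨φ.coeff n, h n⟩, φ.isPWO_support.mono fun n hn => ?_⟩, ?_⟩
    · simp only [Function.mem_support, ne_eq] at hn
      rw [mem_support]
      intro h0
      exact hn (Subtype.ext h0)
    · ext n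
      rw [coeffMap_coeff]
      rfl

theorem C_mem_coeffSubring {c : ℂ} (hc : c ∈ C) : (HahnSeries.C c : LaurentSeries ℂ) ∈
    coeffSubring C := by
  rw [mem_coeffSubring_iff]
  intro n
  rw [C_apply]
  by_cases hn : n = 0
  · subst hn; simpa using hc
  · rw [coeff_single_of_ne hn]; exact C.zero_mem

theorem qExpand_mem_coeffSubring (e : ℕ) [NeZero e] {φ : LaurentSeries ℂ}
    (hφ : φ ∈ coeffSubring C) : qExpand ℂ e φ ∈ coeffSubring C := by
  rw [mem_coeffSubring_iff] at hφ ⊢
  intro n
  by_cases hn : (e : ℤ) ∣ n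
  · obtain ⟨k, rfl⟩ := hn
    rw [qExpand_coeff_mul]
    exact hφ k
  · rw [qExpand_coeff_of_not_dvd e _ hn]
    exact C.zero_mem

theorem infTwist_mem_coeffSubring (u : ℂˣ) (hu : (u : ℂ) ∈ C) (hu' : ((u⁻¹ : ℂˣ) : ℂ) ∈ C)
    {φ : LaurentSeries ℂ} (hφ : φ ∈ coeffSubring C) : infTwist u φ ∈ coeffSubring C := by
  rw [mem_coeffSubring_iff] at hφ ⊢
  intro n
  rw [infTwist_coeff]
  refine C.mul_mem (hφ n) ?_
  obtain ⟨m, rfl | rfl⟩ := n.eq_nat_or_neg
  · rw [zpow_natCast, Units.val_pow_eq_pow_val]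
    exact C.pow_mem hu m
  · rw [zpow_neg, zpow_natCast, ← inv_pow, Units.val_pow_eq_pow_val]
    exact C.pow_mem hu' m

theorem coeffMap_int_mem_coeffSubring (ψ : LaurentSeries ℤ) :
    coeffMap (Int.castRingHom ℂ) ψ ∈ coeffSubring C := by
  rw [mem_coeffSubring_iff]
  intro n
  rw [coeffMap_coeff]
  exact intCast_mem C _

theorem leadingCoeff_mem_of_mem_coeffSubring {φ : LaurentSeries ℂ} (hφ : φ ∈ coeffSubring C) :
    φ.leadingCoeff ∈ C := by
  rw [leadingCoeff_eq]
  exact mem_coeffSubring_iff.mp hφ _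

end Coeff

/-! ### `InfExp` for powers and products -/

section Exp

variable {N : ℕ}

theorem InfExp.pow' {f : ℍ → ℂ} {φ : LaurentSeries ℂ} (hf : InfExp N f φ) (n : ℕ) :
    InfExp N (fun τ => f τ ^ n) (φ ^ n) := by
  induction n with
  | zero => simpa using (InfExp.one (N := N))
  | succ n ih =>
    have := ih.mul hf
    simpa [pow_succ] using this

theorem InfExp.zpow' {f : ℍ → ℂ} {φ ψ : LaurentSeries ℂ} (hf : InfExp N f φ)
    (hg : InfExp N (fun τ => (f τ)⁻¹) ψ) (hφψ : φ * ψ = 1) (r : ℤ) :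
    InfExp N (fun τ => f τ ^ r) (φ ^ r) := by
  have hψ : ψ = φ⁻¹ := eq_inv_of_mul_eq_one_right hφψ
  obtain ⟨n, rfl | rfl⟩ := r.eq_nat_or_neg
  · simpa using InfExp.pow' hf n
  · have := InfExp.pow' hg n
    rw [hψ] at this
    simpa [zpow_neg, inv_pow] using this

theorem InfExp.prod' {ι : Type*} (s : Finset ι) {f : ι → ℍ → ℂ} {φ : ι → LaurentSeries ℂ}
    (hf : ∀ i ∈ s, InfExp N (f i) (φ i)) :
    InfExp N (fun τ => ∏ i ∈ s, f i τ) (∏ i ∈ s, φ i) := by
  classical
  induction s using Finset.induction_on with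
  | empty => simpa using (InfExp.one (N := N))
  | insert a s ha ih =>
    have h1 := hf a (Finset.mem_insert_self a s)
    have h2 := ih fun i hi => hf i (Finset.mem_insert_of_mem hi)
    have := h1.mul h2
    simpa [Finset.prod_insert ha] using this

end Exp

end Fermat.Agent.S28.H568

end
end
-- ===== PACK-END S28/H568/Series.lean

-- ===== PACK-BEGIN S28/H568/DeltaSeries.lean
section


/-!
# S28 / H568 — the formal discriminant over `ℤ` and `ℂ`, and its expansions along `τ ↦ (aτ+b)/d`
-/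

set_option autoImplicit false

noncomputable section

open HahnSeries ModularCurve UpperHalfPlane Complex Matrix
open scoped Real MatrixGroups

namespace Fermat.Agent.S28.H568

open Fermat.Agent.S24

/-! ### the integral series -/

/-- The formal discriminant `Δ = q ∏ (1 - qⁿ)²⁴` over `ℤ`. -/
def deltaZ : LaurentSeries ℤ :=
  HahnSeries.single (1 : ℤ) (1 : ℤ) * HahnSeries.ofPowerSeries ℤ ℤ dedekindEtaUnit

/-- The formal inverse of `Δ` over `ℤ`. -/
def deltaInvZ : LaurentSeries ℤ :=
  HahnSeries.single (-1 : ℤ) (1 : ℤ) * HahnSeries.ofPowerSeries ℤ ℤ dedekindEtaUnitInv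

theorem deltaZ_mul_deltaInvZ : deltaZ * deltaInvZ = 1 := by
  rw [deltaZ, deltaInvZ]
  have h1 : HahnSeries.single (1 : ℤ) (1 : ℤ) * HahnSeries.single (-1 : ℤ) (1 : ℤ) = 1 := by
    rw [HahnSeries.single_mul_single]
    simp
  have h2 : HahnSeries.ofPowerSeries ℤ ℤ dedekindEtaUnit *
      HahnSeries.ofPowerSeries ℤ ℤ dedekindEtaUnitInv = 1 := by
    rw [← map_mul, dedekindEtaUnit_mul_inv, map_one]
  calc _ = (HahnSeries.single (1 : ℤ) (1 : ℤ) * HahnSeries.single (-1 : ℤ) (1 : ℤ)) *
      (HahnSeries.ofPowerSeries ℤ ℤ dedekindEtaUnit *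
        HahnSeries.ofPowerSeries ℤ ℤ dedekindEtaUnitInv) := by ring
    _ = 1 := by rw [h1, h2, one_mul]

/-- `Δ` as a unit of `ℤ((q))`. -/
def deltaU : (LaurentSeries ℤ)ˣ :=
  ⟨deltaZ, deltaInvZ, deltaZ_mul_deltaInvZ, by rw [mul_comm]; exact deltaZ_mul_deltaInvZ⟩

@[simp] theorem deltaU_val : (deltaU : LaurentSeries ℤ) = deltaZ := rfl

/-- Coefficient extension `ℤ((q)) → ℂ((q))`. -/
abbrev castC : LaurentSeries ℤ →+* LaurentSeries ℂ := coeffMap (Int.castRingHom ℂ)

theorem castC_injective : Function.Injective castC :=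
  inf_coeffMap_injective (RingHom.injective_int (Int.castRingHom ℂ))

/-- The formal discriminant over `ℂ`. -/
abbrev dS : LaurentSeries ℂ := H565.deltaSeriesC

/-- The formal inverse discriminant over `ℂ`. -/
abbrev dInvS : LaurentSeries ℂ := H565.deltaInvSeriesC

theorem castC_deltaZ : castC deltaZ = dS := by
  rw [deltaZ, map_mul, coeffMap_single, coeffMap_ofPowerSeries, H565.map_dedekindEtaUnit]
  simp [H565.deltaSeriesC]

theorem castC_deltaInvZ : castC deltaInvZ = dInvS := by
  rw [deltaInvZ, map_mul, coeffMap_single, coeffMap_ofPowerSeries]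
  simp [H565.deltaInvSeriesC, H565.etaInvC]

theorem dS_mul_dInvS : dS * dInvS = 1 := H565.deltaSeriesC_mul_inv

theorem dS_ne_zero : dS ≠ 0 := left_ne_zero_of_mul_eq_one dS_mul_dInvS

theorem dInvS_ne_zero : dInvS ≠ 0 := right_ne_zero_of_mul_eq_one dS_mul_dInvS

theorem dInvS_eq_inv : dInvS = dS⁻¹ := eq_inv_of_mul_eq_one_right dS_mul_dInvS

theorem dS_coeff_one : dS.coeff 1 = 1 := by
  have h := inf_coeff_single_mul_ofPowerSeries (1 : ℤ) (H565.etaProdC ^ 24) 0
  simp only [Nat.cast_zero, zero_add] at h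
  rw [show dS = single (1 : ℤ) (1 : ℂ) * ofPowerSeries ℤ ℂ (H565.etaProdC ^ 24) from rfl, h,
    ← H565.map_dedekindEtaUnit, PowerSeries.coeff_map, PowerSeries.coeff_zero_eq_constantCoeff,
    constantCoeff_dedekindEtaUnit]
  simp

theorem dS_coeff_of_lt {m : ℤ} (hm : m < 1) : dS.coeff m = 0 :=
  inf_coeff_single_mul_ofPowerSeries_of_lt (1 : ℤ) (H565.etaProdC ^ 24) hm

theorem dS_order : dS.order = 1 :=
  inf_order_eq_of_coeff (by rw [dS_coeff_one]; exact one_ne_zero) fun _ hm => dS_coeff_of_lt hm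

theorem dS_leadingCoeff : dS.leadingCoeff = 1 := by
  rw [leadingCoeff_eq, dS_order, dS_coeff_one]

theorem dInvS_order : dInvS.order = -1 := by
  rw [dInvS_eq_inv, order_inv' dS_ne_zero, dS_order]

theorem dInvS_leadingCoeff : dInvS.leadingCoeff = 1 := by
  rw [dInvS_eq_inv, leadingCoeff_inv', dS_leadingCoeff, inv_one]

theorem dS_mem_coeffSubring (C : Subring ℂ) : dS ∈ coeffSubring C := by
  rw [← castC_deltaZ]; exact coeffMap_int_mem_coeffSubring _

theorem dInvS_mem_coeffSubring (C : Subring ℂ) : dInvS ∈ coeffSubring C := by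
  rw [← castC_deltaInvZ]; exact coeffMap_int_mem_coeffSubring _

/-! ### analytic expansions -/

local notation "Δ" => ModularForm.discriminant

theorem infExp_of_hasTExp_one {f : ℍ → ℂ} {φ : LaurentSeries ℂ} (h : H565.HasTExp 1 f φ) :
    InfExp 1 f φ := by
  intro τ
  have := h τ
  simpa [infZ] using this

theorem infExp_delta : InfExp 1 Δ dS := infExp_of_hasTExp_one H565.hasTExp_discriminant

theorem infExp_delta_inv : InfExp 1 (fun τ => (Δ τ)⁻¹) dInvS :=
  infExp_of_hasTExp_one H565.hasTExp_discriminant_inv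

/-- Expansion of `Δ((aτ+b)/d)` in `z = exp(2πiτ/N)` when `e·d = a·N`. -/
theorem infExp_delta_aff {N a d e : ℕ} [NeZero e] (b : ℤ)
    (ha : 0 < a) (hd : 0 < d) (hN : 0 < N) (he : e * d = a * N) :
    InfExp N (fun τ => Δ (infAff a b d τ)) (qExpand ℂ e (infTwist (infRoot b d) dS)) := by
  have h := infExp_delta.comp_infAff (e := e) b ha hd one_pos hN (by rw [mul_one]; exact he)
  rw [mul_one] at h
  exact h

/-- Expansion of `Δ((aτ+b)/d)⁻¹` in `z = exp(2πiτ/N)` when `e·d = a·N`. -/
theorem infExp_delta_inv_aff {N a d e : ℕ} [NeZero e] (b : ℤ)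
    (ha : 0 < a) (hd : 0 < d) (hN : 0 < N) (he : e * d = a * N) :
    InfExp N (fun τ => (Δ (infAff a b d τ))⁻¹) (qExpand ℂ e (infTwist (infRoot b d) dInvS)) := by
  have h := infExp_delta_inv.comp_infAff (e := e) b ha hd one_pos hN (by rw [mul_one]; exact he)
  rw [mul_one] at h
  exact h

/-- Expansion of `Δ(τ)` in `z = exp(2πiτ/N)`. -/
theorem infExp_delta_N {N : ℕ} [NeZero N] : InfExp N Δ (qExpand ℂ N dS) := by
  have hN : 0 < N := Nat.pos_of_ne_zero (NeZero.ne N)
  have h := infExp_delta_aff (N := N) (e := N) 0 one_pos one_pos hN (by ring)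
  rw [infRoot_zero, infTwist_one] at h
  exact h.congr fun τ => by rw [infAff_one_zero_one]

/-- Expansion of `Δ(τ)⁻¹` in `z = exp(2πiτ/N)`. -/
theorem infExp_delta_inv_N {N : ℕ} [NeZero N] :
    InfExp N (fun τ => (Δ τ)⁻¹) (qExpand ℂ N dInvS) := by
  have hN : 0 < N := Nat.pos_of_ne_zero (NeZero.ne N)
  have h := infExp_delta_inv_aff (N := N) (e := N) 0 one_pos one_pos hN (by ring)
  rw [infRoot_zero, infTwist_one] at h
  exact h.congr fun τ => by rw [infAff_one_zero_one]

/-! ### transformation of `Δ` -/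

theorem discriminant_smul (γ : SL(2, ℤ)) (τ : ℍ) :
    Δ (γ • τ) = (((γ 1 0 : ℤ) : ℂ) * τ + ((γ 1 1 : ℤ) : ℂ)) ^ 12 * Δ τ := by
  have := SlashInvariantForm.slash_action_eqn' (Γ := 𝒮ℒ) CuspForm.discriminant
    (γ := (Matrix.SpecialLinearGroup.mapGL ℝ γ)) ⟨γ, rfl⟩ τ
  have h2 : (Matrix.SpecialLinearGroup.mapGL ℝ γ) • τ = γ • τ := rfl
  rw [h2] at this
  simpa using this

end Fermat.Agent.S28.H568

end
end
-- ===== PACK-END S28/H568/DeltaSeries.lean

-- ===== PACK-BEGIN S41/H41/GlueCore.lean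
section









/-!
# S41 GLUE, part 2 (helper41): the `q`-new integral class (application of CORE)
-/

set_option autoImplicit false

open WeierstrassCurve WeierstrassCurve.Affine WeierstrassCurve.Affine.Point
open scoped CongruenceSubgroup MatrixGroups

namespace Fermat.Agent.S41.H41

open CongruenceSubgroup Fermat.Agent.S29.H642 Fermat.Agent.S41.Spec

section Maps

variable (N q : ℕ)

/-- `r₁` as an additive map. -/
def r₁Add (A : Type*) [AddCommGroup A] :
    (Additive (Gamma0 N) →+ A) →+ (Additive (Gamma0 (N * q)) →+ A) :=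
  AddMonoidHom.mk' (r₁ N q) (fun _ _ => rfl)

/-- `r₂` as an additive map. -/
def r₂Add (A : Type*) [AddCommGroup A] :
    (Additive (Gamma0 N) →+ A) →+ (Additive (Gamma0 (N * q)) →+ A) :=
  AddMonoidHom.mk' (r₂ N q) (fun _ _ => rfl)

@[simp] theorem r₁Add_apply {A : Type*} [AddCommGroup A] (φ : Additive (Gamma0 N) →+ A) :
    r₁Add N q A φ = r₁ N q φ := rfl

@[simp] theorem r₂Add_apply {A : Type*} [AddCommGroup A] (φ : Additive (Gamma0 N) →+ A) :
    r₂Add N q A φ = r₂ N q φ := rfl

theorem r₁_comp {A B : Type*} [AddCommGroup A] [AddCommGroup B] (π : A →+ B)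
    (φ : Additive (Gamma0 N) →+ A) : r₁ N q (π.comp φ) = π.comp (r₁ N q φ) := rfl

theorem r₂_comp {A B : Type*} [AddCommGroup A] [AddCommGroup B] (π : A →+ B)
    (φ : Additive (Gamma0 N) →+ A) : r₂ N q (π.comp φ) = π.comp (r₂ N q φ) := rfl

variable {N q}

/-- `t₁` as an additive map (given functoriality). -/
noncomputable def t₁Add (hFun : FunctorialityStatement.{0}) (A : Type) [AddCommGroup A] :
    (Additive (Gamma0 (N * q)) →+ A) →+ (Additive (Gamma0 N) →+ A) :=
  AddMonoidHom.mk' (t₁ N q) (fun ψ ψ' => ((hFun N q A A (AddMonoidHom.id A)).2.1 ψ ψ').1)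

/-- `t₂` as an additive map (given functoriality). -/
noncomputable def t₂Add (hFun : FunctorialityStatement.{0}) (A : Type) [AddCommGroup A] :
    (Additive (Gamma0 (N * q)) →+ A) →+ (Additive (Gamma0 N) →+ A) :=
  AddMonoidHom.mk' (t₂ N q) (fun ψ ψ' => ((hFun N q A A (AddMonoidHom.id A)).2.1 ψ ψ').2)

@[simp] theorem t₁Add_apply (hFun : FunctorialityStatement.{0}) {A : Type} [AddCommGroup A]
    (ψ : Additive (Gamma0 (N * q)) →+ A) : t₁Add hFun A ψ = t₁ N q ψ := rfl

@[simp] theorem t₂Add_apply (hFun : FunctorialityStatement.{0}) {A : Type} [AddCommGroup A]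
    (ψ : Additive (Gamma0 (N * q)) →+ A) : t₂Add hFun A ψ = t₂ N q ψ := rfl

theorem t₁_comp (hFun : FunctorialityStatement.{0}) {A B : Type} [AddCommGroup A] [AddCommGroup B]
    (π : A →+ B) (ψ : Additive (Gamma0 (N * q)) →+ A) :
    t₁ N q (π.comp ψ) = π.comp (t₁ N q ψ) := ((hFun N q A B π).2.2.2 ψ).1

theorem t₂_comp (hFun : FunctorialityStatement.{0}) {A B : Type} [AddCommGroup A] [AddCommGroup B]
    (π : A →+ B) (ψ : Additive (Gamma0 (N * q)) →+ A) :
    t₂ N q (π.comp ψ) = π.comp (t₂ N q ψ) := ((hFun N q A B π).2.2.2 ψ).2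

theorem t₁_zero (hFun : FunctorialityStatement.{0}) {A : Type} [AddCommGroup A] :
    t₁ N q (0 : Additive (Gamma0 (N * q)) →+ A) = 0 := map_zero (t₁Add hFun A)

theorem t₂_zero (hFun : FunctorialityStatement.{0}) {A : Type} [AddCommGroup A] :
    t₂ N q (0 : Additive (Gamma0 (N * q)) →+ A) = 0 := map_zero (t₂Add hFun A)

theorem t₁_zsmul (hFun : FunctorialityStatement.{0}) {A : Type} [AddCommGroup A] (c : ℤ)
    (ψ : Additive (Gamma0 (N * q)) →+ A) : t₁ N q (c • ψ) = c • t₁ N q ψ :=
  map_zsmul (t₁Add hFun A) c ψ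

theorem t₂_zsmul (hFun : FunctorialityStatement.{0}) {A : Type} [AddCommGroup A] (c : ℤ)
    (ψ : Additive (Gamma0 (N * q)) →+ A) : t₂ N q (c • ψ) = c • t₂ N q ψ :=
  map_zsmul (t₂Add hFun A) c ψ

theorem t₁_sub (hFun : FunctorialityStatement.{0}) {A : Type} [AddCommGroup A]
    (ψ ψ' : Additive (Gamma0 (N * q)) →+ A) : t₁ N q (ψ - ψ') = t₁ N q ψ - t₁ N q ψ' :=
  map_sub (t₁Add hFun A) ψ ψ'

theorem t₂_sub (hFun : FunctorialityStatement.{0}) {A : Type} [AddCommGroup A]
    (ψ ψ' : Additive (Gamma0 (N * q)) →+ A) : t₂ N q (ψ - ψ') = t₂ N q ψ - t₂ N q ψ' :=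
  map_sub (t₂Add hFun A) ψ ψ'

end Maps

section CuspMap

/-- Restriction of an additive map to the cuspidal submodules. -/
noncomputable def cuspMap {n m : ℕ}
    (f : (Additive (Gamma0 n) →+ ℤ) →+ (Additive (Gamma0 m) →+ ℤ))
    (hf : ∀ x, IsCuspidal x → IsCuspidal (f x)) :
    cuspidalSubmodule ℤ n ℤ →ₗ[ℤ] cuspidalSubmodule ℤ m ℤ :=
  f.toIntLinearMap.restrict (fun x hx => hf x hx)

@[simp] theorem cuspMap_coe {n m : ℕ}
    (f : (Additive (Gamma0 n) →+ ℤ) →+ (Additive (Gamma0 m) →+ ℤ))
    (hf : ∀ x, IsCuspidal x → IsCuspidal (f x)) (x : cuspidalSubmodule ℤ n ℤ) :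
    ((cuspMap f hf x : cuspidalSubmodule ℤ m ℤ) : Additive (Gamma0 m) →+ ℤ) = f x := rfl

theorem exists_eq_smul_cusp {n p : ℕ} (hp : p ≠ 0) (x : cuspidalSubmodule ℤ n ℤ)
    (h : red p (x : Additive (Gamma0 n) →+ ℤ) = 0) : ∃ z : cuspidalSubmodule ℤ n ℤ, x = (p : ℤ) • z := by
  obtain ⟨z, hz, hzc⟩ := exists_eq_smul_of_red_eq_zero hp (x : Additive (Gamma0 n) →+ ℤ) h
  exact ⟨⟨z, hzc x.2⟩, Subtype.ext hz⟩

theorem red_eq_zero_of_eq_smul {n p : ℕ} {x z : Additive (Gamma0 n) →+ ℤ}
    (h : x = (p : ℤ) • z) : red p x = 0 := by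
  rw [h, red_p_smul]

end CuspMap

section Main

/-- The index type of the Hecke operators used in CORE: good primes `l ∤ N q`, `l ≠ p`. -/
abbrev GoodIdx (W : WeierstrassCurve ℤ) (N q p : ℕ) : Type :=
  {l : ℕ // l.Prime ∧ ¬ l ∣ N * q ∧ W.IsGoodPrimeFor l ∧ l ≠ p}

theorem not_dvd_left_of_not_dvd_mul {l N q : ℕ} (h : ¬ l ∣ N * q) : ¬ l ∣ N :=
  fun h' => h (Dvd.dvd.mul_right h' q)

theorem exists_new_class
    (hFun : FunctorialityStatement.{0}) (hRC : RestrictCuspStatement.{0})
    (hTC : TransferCuspStatement.{0}) (hHC : HeckeCuspStatement.{0})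
    (hHR : HeckeRestrictStatement.{0}) (hHT : HeckeTransferStatement.{0})
    (hTR : TransferRestrictStatement.{0}) (hTRH : TransferRestrictHeckeStatement.{0})
    (hComm : HeckeCommStatement.{0}) (hPD : PDHeckeStatement.{0}) (hLift : LiftStatement)
    (hFree : CuspFreeStatement) (hIH : IharaEigenStatement) (hOcc : OccStatement)
    (hCore : RibetCoreStatement)
    (E : WeierstrassCurve ℚ) [E.IsElliptic] {W : WeierstrassCurve ℤ} (hW : W.IsIntegralModelOf E)
    {p N q : ℕ} (hp : p.Prime) (hp2 : p ≠ 2) (hN : 0 < N) (hq : q.Prime) (hqN : ¬ q ∣ N)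
    (hqp : q ≠ p)
    (hirr : GaloisRepIsIrreducible (K := AlgebraicClosure ℚ) ℚ E p)
    (f : CuspForm (CongruenceSubgroup.Gamma0 N) 2) (𝔪 : Ideal (integralClosure ℤ ℂ))
    (hf : f.IsNormalizedEigenform) (hmax : 𝔪.IsMaximal) (hpm : (p : integralClosure ℤ ℂ) ∈ 𝔪)
    (hcong : ∀ ℓ : ℕ, ℓ.Prime → W.IsGoodPrimeFor ℓ → ¬ ℓ ∣ N → ℓ ≠ p →
      ∃ a : integralClosure ℤ ℂ, (a : ℂ) = ModularFormClass.qCoeff f ℓ ∧
        a - ((W.apOfModel ℓ : ℤ) : integralClosure ℤ ℂ) ∈ 𝔪)
    (hLR : ∃ a : integralClosure ℤ ℂ, (a : ℂ) = ModularFormClass.qCoeff f q ∧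
      a ^ 2 - ((q : integralClosure ℤ ℂ) + 1) ^ 2 ∈ 𝔪) :
    ∃ y : Additive (Gamma0 (N * q)) →+ ℤ, IsCuspidal y ∧ t₁ N q y = 0 ∧ t₂ N q y = 0 ∧
      (¬ ∃ z : Additive (Gamma0 (N * q)) →+ ℤ, y = (p : ℤ) • z) ∧
      ∀ (l : ℕ) [Fact l.Prime] (hl : ¬ l ∣ N * q), W.IsGoodPrimeFor l → l ≠ p →
        ∃ z : Additive (Gamma0 (N * q)) →+ ℤ, IsCuspidal z ∧
          heckeTransfer hl y - W.apOfModel l • y = (p : ℤ) • z := by
  classical
  have : Fact p.Prime := ⟨hp⟩
  have : Fact q.Prime := ⟨hq⟩
  have hN0 : N ≠ 0 := hN.ne'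
  have hNq0 : N * q ≠ 0 := Nat.mul_ne_zero hN0 hq.ne_zero
  have hp0 : p ≠ 0 := hp.ne_zero
  have : NeZero N := ⟨hN0⟩
  -- the lattices
  obtain ⟨hAfin, hAfree⟩ := hFree N hN0
  obtain ⟨hBfin, hBfree⟩ := hFree (N * q) hNq0
  -- the duality family
  obtain ⟨β, hβ, hβT⟩ := hPD (ZMod p)
  obtain ⟨hβadd, hβsmul, hβskew, hβnd, hβadj⟩ := hβ
  -- the index type
  have hFact : ∀ l : GoodIdx W N q p, Fact l.1.Prime := fun l => ⟨l.2.1⟩
  have hlN : ∀ l : GoodIdx W N q p, ¬ l.1 ∣ N := fun l => not_dvd_left_of_not_dvd_mul l.2.2.1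
  have hlNq : ∀ l : GoodIdx W N q p, ¬ l.1 ∣ N * q := fun l => l.2.2.1
  -- the operators
  let tA : GoodIdx W N q p → cuspidalSubmodule ℤ N ℤ →ₗ[ℤ] cuspidalSubmodule ℤ N ℤ :=
    fun l => cuspMap (heckeAdd (hlN l) ℤ) (fun x hx => hHC N l.1 (hlN l) ℤ x hx)
  let tB : GoodIdx W N q p →
      cuspidalSubmodule ℤ (N * q) ℤ →ₗ[ℤ] cuspidalSubmodule ℤ (N * q) ℤ :=
    fun l => cuspMap (heckeAdd (hlNq l) ℤ) (fun x hx => hHC (N * q) l.1 (hlNq l) ℤ x hx)
  let T : cuspidalSubmodule ℤ N ℤ →ₗ[ℤ] cuspidalSubmodule ℤ N ℤ :=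
    cuspMap (heckeAdd hqN ℤ) (fun x hx => hHC N q hqN ℤ x hx)
  let i₁ : cuspidalSubmodule ℤ N ℤ →ₗ[ℤ] cuspidalSubmodule ℤ (N * q) ℤ :=
    cuspMap (r₁Add N q ℤ) (fun x hx => (hRC N q ℤ x hx).1)
  let i₂ : cuspidalSubmodule ℤ N ℤ →ₗ[ℤ] cuspidalSubmodule ℤ (N * q) ℤ :=
    cuspMap (r₂Add N q ℤ) (fun x hx => (hRC N q ℤ x hx).2)
  let j₁ : cuspidalSubmodule ℤ (N * q) ℤ →ₗ[ℤ] cuspidalSubmodule ℤ N ℤ :=
    cuspMap (t₁Add hFun ℤ) (fun x hx => (hTC N q ℤ x hx).1)
  let j₂ : cuspidalSubmodule ℤ (N * q) ℤ →ₗ[ℤ] cuspidalSubmodule ℤ N ℤ :=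
    cuspMap (t₂Add hFun ℤ) (fun x hx => (hTC N q ℤ x hx).2)
  let βA : cuspidalSubmodule ℤ N ℤ → cuspidalSubmodule ℤ N ℤ → ZMod p :=
    fun x y => β N (red p x.1) (red p y.1)
  let βB : cuspidalSubmodule ℤ (N * q) ℤ → cuspidalSubmodule ℤ (N * q) ℤ → ZMod p :=
    fun x y => β (N * q) (red p x.1) (red p y.1)
  -- OCC
  obtain ⟨xbar, μbar, hx0, hxc, hxeig, hμ, hxq⟩ :=
    hOcc W p N q hp hq hqN f 𝔪 hf hmax hpm hcong hLR
  obtain ⟨x, hxcusp, hxred⟩ := hLift N p hN0 xbar hxc
  have hxred' : red p x = xbar := hxred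
  -- general facts
  have cuspA : ∀ x : cuspidalSubmodule ℤ N ℤ, IsCuspidal (red p x.1) :=
    fun x => isCuspidal_red p x.2
  have cuspB : ∀ y : cuspidalSubmodule ℤ (N * q) ℤ, IsCuspidal (red p y.1) :=
    fun y => isCuspidal_red p y.2
  have hβaddR : ∀ n : ℕ, n ≠ 0 → ∀ x y y' : Additive (Gamma0 n) →+ ZMod p,
      IsCuspidal x → IsCuspidal y → IsCuspidal y' → β n x (y + y') = β n x y + β n x y' := by
    intro n hn x y y' hx hy hy'
    have h1 := hβskew n hn (y + y') x (isCuspidal_add hy hy') hx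
    have h2 := hβskew n hn y x hy hx
    have h3 := hβskew n hn y' x hy' hx
    have h4 := hβadd n hn y y' x hy hy' hx
    rw [h1, h4, h2, h3]; ring
  have hnd : ∀ n : ℕ, n ≠ 0 → ∀ x : cuspidalSubmodule ℤ n ℤ,
      (∀ y : cuspidalSubmodule ℤ n ℤ, β n (red p x.1) (red p y.1) = 0) →
      ∃ z : cuspidalSubmodule ℤ n ℤ, x = (p : ℤ) • z := by
    intro n hn x hx
    apply exists_eq_smul_cusp hp0
    apply hβnd n hn _ (isCuspidal_red p x.2)
    intro ybar hybar
    obtain ⟨y, hyc, hyred⟩ := hLift n p hn ybar hybar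
    have := hx ⟨y, hyc⟩
    rw [← hyred]
    exact this
  set c : ℤ := (q : ℤ) + 1 with hc
  set μ : ℤ := (μbar.cast : ℤ) with hμdef
  have hμcast : ((μ : ℤ) : ZMod p) = μbar := by
    rw [hμdef, ZMod.intCast_cast, ZMod.cast_id', id]
  -- the 23 hypotheses of CORE
  have H1 : ∀ l l' x, tA l (tA l' x) = tA l' (tA l x) := fun l l' x =>
    Subtype.ext (hComm N l.1 l'.1 (hlN l) (hlN l') ℤ x.1)
  have H2 : ∀ l l' y, tB l (tB l' y) = tB l' (tB l y) := fun l l' y =>
    Subtype.ext (hComm (N * q) l.1 l'.1 (hlNq l) (hlNq l') ℤ y.1)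
  have H3 : ∀ l x, tB l (i₁ x) = i₁ (tA l x) := fun l x =>
    Subtype.ext (hHR N q l.1 (hlN l) (hlNq l) ℤ x.1).1
  have H4 : ∀ l x, tB l (i₂ x) = i₂ (tA l x) := fun l x =>
    Subtype.ext (hHR N q l.1 (hlN l) (hlNq l) ℤ x.1).2
  have H5 : ∀ l y, tA l (j₁ y) = j₁ (tB l y) := fun l y =>
    Subtype.ext (hHT N q l.1 (hlN l) (hlNq l) hNq0 ℤ y.1).1
  have H6 : ∀ l y, tA l (j₂ y) = j₂ (tB l y) := fun l y =>
    Subtype.ext (hHT N q l.1 (hlN l) (hlNq l) hNq0 ℤ y.1).2
  have hcsmul : ∀ φ : Additive (Gamma0 N) →+ ℤ, (q + 1) • φ = c • φ := by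
    intro φ
    rw [hc, ← natCast_zsmul]
    push_cast
    rfl
  have H7 : ∀ x, j₁ (i₁ x) = c • x := fun x =>
    Subtype.ext ((hTR N q hN0 hq hqN ℤ x.1).1.trans (hcsmul x.1))
  have H8 : ∀ x, j₂ (i₂ x) = c • x := fun x =>
    Subtype.ext ((hTR N q hN0 hq hqN ℤ x.1).2.trans (hcsmul x.1))
  have H9 : ∀ x, j₁ (i₂ x) = T x := fun x =>
    Subtype.ext (hTRH N q hqN hN0 ℤ x.1).1
  have H10 : ∀ x, j₂ (i₁ x) = T x := fun x =>
    Subtype.ext (hTRH N q hqN hN0 ℤ x.1).2
  have H11 : ∀ x x' y, βA (x + x') y = βA x y + βA x' y := by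
    intro x x' y
    show β N (red p (x + x' : cuspidalSubmodule ℤ N ℤ).1) (red p y.1) = _
    rw [Submodule.coe_add, red_add]
    exact hβadd N hN0 _ _ _ (cuspA x) (cuspA x') (cuspA y)
  have H12 : ∀ x y y', βA x (y + y') = βA x y + βA x y' := by
    intro x y y'
    show β N (red p x.1) (red p (y + y' : cuspidalSubmodule ℤ N ℤ).1) = _
    rw [Submodule.coe_add, red_add]
    exact hβaddR N hN0 _ _ _ (cuspA x) (cuspA y) (cuspA y')
  have H13 : ∀ x x' y, βB (x + x') y = βB x y + βB x' y := by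
    intro x x' y
    show β (N * q) (red p (x + x' : cuspidalSubmodule ℤ (N * q) ℤ).1) (red p y.1) = _
    rw [Submodule.coe_add, red_add]
    exact hβadd (N * q) hNq0 _ _ _ (cuspB x) (cuspB x') (cuspB y)
  have H14 : ∀ x y y', βB x (y + y') = βB x y + βB x y' := by
    intro x y y'
    show β (N * q) (red p x.1) (red p (y + y' : cuspidalSubmodule ℤ (N * q) ℤ).1) = _
    rw [Submodule.coe_add, red_add]
    exact hβaddR (N * q) hNq0 _ _ _ (cuspB x) (cuspB y) (cuspB y')
  have H15 : ∀ x, (∀ y, βA x y = 0) → ∃ z, x = (p : ℤ) • z := fun x hx => hnd N hN0 x hx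
  have H16 : ∀ x, (∀ y, βB x y = 0) → ∃ z, x = (p : ℤ) • z := fun x hx => hnd (N * q) hNq0 x hx
  have H17 : ∀ l x y, βA (tA l x) y = βA x (tA l y) := by
    intro l x y
    show β N (red p (heckeTransfer (hlN l) x.1)) (red p y.1) =
      β N (red p x.1) (red p (heckeTransfer (hlN l) y.1))
    rw [← heckeTransfer_red, ← heckeTransfer_red]
    exact hβT N l.1 (hlN l) hN0 _ _ (cuspA x) (cuspA y)
  have H18 : ∀ l x y, βB (tB l x) y = βB x (tB l y) := by
    intro l x y
    show β (N * q) (red p (heckeTransfer (hlNq l) x.1)) (red p y.1) =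
      β (N * q) (red p x.1) (red p (heckeTransfer (hlNq l) y.1))
    rw [← heckeTransfer_red, ← heckeTransfer_red]
    exact hβT (N * q) l.1 (hlNq l) hNq0 _ _ (cuspB x) (cuspB y)
  have H19 : ∀ x y, βB (i₁ x) y = βA x (j₁ y) := by
    intro x y
    show β (N * q) (red p (r₁ N q x.1)) (red p y.1) = β N (red p x.1) (red p (t₁ N q y.1))
    have h := (hβadj N q hN0 hq hqN (red p x.1) (red p y.1) (cuspA x) (cuspB y)).1
    rw [show red p (t₁ N q y.1) = t₁ N q (red p y.1) from (t₁_comp hFun _ _).symm]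
    exact h
  have H20 : ∀ x y, βB (i₂ x) y = βA x (j₂ y) := by
    intro x y
    show β (N * q) (red p (r₂ N q x.1)) (red p y.1) = β N (red p x.1) (red p (t₂ N q y.1))
    have h := (hβadj N q hN0 hq hqN (red p x.1) (red p y.1) (cuspA x) (cuspB y)).2
    rw [show red p (t₂ N q y.1) = t₂ N q (red p y.1) from (t₂_comp hFun _ _).symm]
    exact h
  let a : GoodIdx W N q p → ℤ := fun l => W.apOfModel l.1
  -- reduction of an eigen-relation
  have hredeig : ∀ (l : GoodIdx W N q p) (x : cuspidalSubmodule ℤ N ℤ),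
      (∃ z, tA l x - a l • x = (p : ℤ) • z) →
      heckeTransfer (hlN l) (red p x.1) = ((W.apOfModel l.1 : ℤ) : ZMod p) • red p x.1 := by
    rintro l x ⟨z, hz⟩
    have h1 : heckeTransfer (hlN l) x.1 - W.apOfModel l.1 • x.1 = (p : ℤ) • z.1 :=
      congrArg Subtype.val hz
    have h2 := congrArg (red p) h1
    rw [red_p_smul, red_sub, red_zsmul, sub_eq_zero, ← heckeTransfer_red] at h2
    exact h2
  have H21 : ∀ x₁ x₂ : cuspidalSubmodule ℤ N ℤ, (∃ z, i₁ x₁ + i₂ x₂ = (p : ℤ) • z) →
      (∀ l, ∃ z, tA l x₁ - a l • x₁ = (p : ℤ) • z) →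
      (∀ l, ∃ z, tA l x₂ - a l • x₂ = (p : ℤ) • z) →
      (∃ z, x₁ = (p : ℤ) • z) ∧ (∃ z, x₂ = (p : ℤ) • z) := by
    rintro x₁ x₂ ⟨z, hz⟩ h₁ h₂
    have hr : r₁ N q (red p x₁.1) + r₂ N q (red p x₂.1) = 0 := by
      have h1 : r₁ N q x₁.1 + r₂ N q x₂.1 = (p : ℤ) • z.1 := congrArg Subtype.val hz
      have h2 := congrArg (red p) h1
      rw [red_p_smul, red_add] at h2
      exact h2
    have hkey := hIH E W hW p N q hp hp2 hN0 hq hqN hqp hirr (red p x₁.1) (red p x₂.1)
      (cuspA x₁) (cuspA x₂) hr (by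
        intro l inst hl hl' hgood hlp
        exact ⟨hredeig ⟨l, inst.out, hl', hgood, hlp⟩ x₁ (h₁ _),
          hredeig ⟨l, inst.out, hl', hgood, hlp⟩ x₂ (h₂ _)⟩)
    exact ⟨exists_eq_smul_cusp hp0 x₁ hkey.1, exists_eq_smul_cusp hp0 x₂ hkey.2⟩
  have H22 : ∃ x : cuspidalSubmodule ℤ N ℤ, (¬ ∃ z, x = (p : ℤ) • z) ∧
      (∃ z, T x - μ • x = (p : ℤ) • z) ∧ ∀ l, ∃ z, tA l x - a l • x = (p : ℤ) • z := by
    refine ⟨⟨x, hxcusp⟩, ?_, ?_, ?_⟩
    · rintro ⟨z, hz⟩
      apply hx0
      rw [← hxred']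
      exact red_eq_zero_of_eq_smul (congrArg Subtype.val hz)
    · apply exists_eq_smul_cusp hp0
      show red p (heckeTransfer hqN x - μ • x) = 0
      rw [red_sub, red_zsmul, ← heckeTransfer_red, hxred', hμcast, sub_eq_zero]
      exact hxq
    · intro l
      apply exists_eq_smul_cusp hp0
      show red p (heckeTransfer (hlN l) x - W.apOfModel l.1 • x) = 0
      rw [red_sub, red_zsmul, ← heckeTransfer_red, hxred', sub_eq_zero]
      exact hxeig l.1 (hlN l) l.2.2.2.1 l.2.2.2.2
  have H23 : (p : ℤ) ∣ μ ^ 2 - c ^ 2 := by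
    rw [← ZMod.intCast_zmod_eq_zero_iff_dvd]
    push_cast
    rw [hμcast, hμ, hc]
    push_cast
    ring
  obtain ⟨y, hy1, hy2, hy3, hy4⟩ := hCore p (GoodIdx W N q p) (cuspidalSubmodule ℤ N ℤ)
    (cuspidalSubmodule ℤ (N * q) ℤ) tA tB T i₁ i₂ j₁ j₂ c μ a βA βB
    H1 H2 H3 H4 H5 H6 H7 H8 H9 H10 H11 H12 H13 H14 H15 H16 H17 H18 H19 H20 H21 H22 H23
  refine ⟨y.1, y.2, congrArg Subtype.val hy1, congrArg Subtype.val hy2, ?_, ?_⟩
  · rintro ⟨z, hz⟩
    apply hy3
    obtain ⟨z', hz', hzc⟩ := exists_eq_smul_of_dvd hp0 y.1 (fun γ => by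
      rw [hz]; exact ⟨z γ, rfl⟩)
    exact ⟨⟨z', hzc y.2⟩, Subtype.ext hz'⟩
  · intro l inst hl hgood hlp
    obtain ⟨z, hz⟩ := hy4 ⟨l, inst.out, hl, hgood, hlp⟩
    exact ⟨z.1, z.2, congrArg Subtype.val hz⟩

end Main

end Fermat.Agent.S41.H41

end
-- ===== PACK-END S41/H41/GlueCore.lean

-- ===== PACK-BEGIN S15/H602/PlaceOfPoint.lean
section




/-!
# Places of a function field `F = K(x, y)` over a simple point of the plane model
(helper602, row S15, piece FFu-ABS)

`K` a field, `F ⊇ K` a field, `x y : F`, `a b : K`.  Bivariate polynomials `G : K[X][X]`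
(inner variable `↦ x`, outer variable `↦ y`) are evaluated by

* `ev x y G = G(x, y) ∈ F`   and   `ev0 a b G = G(a, b) ∈ K`.

A place `P` is *centred at* `(a, b)` if `x - a, y - b ∈ 𝔪_P` (`IsCentredAt P x y a b`).

Main results:

* `IsCentredAt.ev_sub_mem` : `G(x,y) - G(a,b) ∈ 𝔪_P` for every `G`;
* `IsCentredAt.unique` : if `F = K(x,y)` and `(a,b)` is a simple point of some relation `Ψ`
  (`Ψ(x,y) = 0`, `∂Ψ/∂Y (a,b) ≠ 0`) then there is at most one place centred at `(a,b)`;
* `exists_isCentredAt` : `K` algebraically closed, `x` transcendental, `[F : K(x)] < ∞`, and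
  `(a, b)` a `K`-point of the plane model (`G(x,y) = 0 → G(a,b) = 0`): a place centred at `(a,b)`
  exists;
* `isPointOf_of_monic` : the last hypothesis follows from `Ψ(a,b) = 0` when `Ψ` is monic in `Y` and
  `y` satisfies no relation over `K[x]` of smaller `Y`-degree;
* `IsCentredAt.smul_eq` : the unique place is fixed by every semilinear automorphism fixing
  `x`, `y`, `a`, `b` (Galois-fixedness).
-/

set_option autoImplicit false

noncomputable section

namespace Fermat.Agent.S15.H602

open Polynomial AlgebraicCurve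

variable {K F : Type*} [Field K] [Field F] [Algebra K F]

/-- `G ↦ G(x, y)` for `G ∈ K[X][Y]`. -/
def ev (x y : F) : K[X][X] →+* F :=
  eval₂RingHom ((aeval x : K[X] →ₐ[K] F) : K[X] →+* F) y

/-- `G ↦ G(a, b)` for `G ∈ K[X][Y]`. -/
def ev0 (a b : K) : K[X][X] →+* K :=
  eval₂RingHom (evalRingHom a) b

section evLemmas

variable (x y : F) (a b : K)

@[simp] theorem ev_C (g : K[X]) : ev x y (C g) = aeval x g := by simp [ev]

@[simp] theorem ev_X : ev x y (X : K[X][X]) = y := by simp [ev]

theorem ev_C_C (c : K) : ev x y (C (C c)) = algebraMap K F c := by simp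

theorem ev_C_X : ev x y (C (X : K[X])) = x := by simp

@[simp] theorem ev0_C (g : K[X]) : ev0 a b (C g) = g.eval a := by simp [ev0]

@[simp] theorem ev0_X : ev0 a b (X : K[X][X]) = b := by simp [ev0]

theorem ev0_C_C (c : K) : ev0 a b (C (C c)) = c := by simp

theorem ev0_C_X : ev0 a b (C (X : K[X])) = a := by simp

theorem ev0_eq_evalEval (G : K[X][X]) : ev0 a b G = G.evalEval a b := by
  rw [ev0, coe_eval₂RingHom, eval₂_evalRingHom]

/-- `ev0` through `map`: `G(a, Y)` evaluated at `b`. -/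
theorem ev0_eq_eval_map (G : K[X][X]) : ev0 a b G = (G.map (evalRingHom a)).eval b := by
  rw [ev0, coe_eval₂RingHom, eval₂_eq_eval_map]

/-- `G = G(a,b) + A · (X - a) + B · (Y - b)`. -/
theorem exists_decomp (G : K[X][X]) :
    ∃ A B : K[X][X], G = C (C (ev0 a b G)) + A * C (X - C a) + B * (X - C (C b)) := by
  obtain ⟨B, hB⟩ : (X - C (C b) : K[X][X]) ∣ G - C (G.eval (C b)) := X_sub_C_dvd_sub_C_eval
  obtain ⟨A, hA⟩ : (X - C a : K[X]) ∣ G.eval (C b) - C ((G.eval (C b)).eval a) :=
    X_sub_C_dvd_sub_C_eval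
  refine ⟨C A, B, ?_⟩
  have h1 : ev0 a b G = (G.eval (C b)).eval a := ev0_eq_evalEval a b G
  have h2 : G = C (G.eval (C b)) + (X - C (C b)) * B := by rw [← hB]; ring
  have h3 : G.eval (C b) = C ((G.eval (C b)).eval a) + (X - C a) * A := by rw [← hA]; ring
  rw [h1]
  conv_lhs => rw [h2, h3]
  simp only [map_add, map_mul, map_sub]
  ring

end evLemmas

/-- `O · 𝔪 ⊆ 𝔪` for a valuation subring. -/
theorem mul_mem_nonunits (O : ValuationSubring F) {u m : F} (hu : u ∈ O)
    (hm : m ∈ O.nonunits) : u * m ∈ O.nonunits := by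
  rw [ValuationSubring.mem_nonunits_iff] at hm ⊢
  rw [map_mul]
  have hu' := (O.valuation_le_one_iff u).mpr hu
  calc O.valuation u * O.valuation m ≤ 1 * O.valuation m := mul_le_mul_left hu' _
    _ = O.valuation m := one_mul _
    _ < 1 := hm

/-- The place `P` is centred at the point `(a, b)` of the `(x, y)`-plane. -/
structure IsCentredAt (P : Place K F) (x y : F) (a b : K) : Prop where
  hx : x - algebraMap K F a ∈ P.toValuationSubring.nonunits
  hy : y - algebraMap K F b ∈ P.toValuationSubring.nonunits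

namespace IsCentredAt

variable {P : Place K F} {x y : F} {a b : K}

theorem x_mem (h : IsCentredAt P x y a b) : x ∈ P.toValuationSubring := by
  have := P.toValuationSubring.add_mem _ _ (ValuationSubring.nonunits_subset h.hx)
    (P.algebraMap_mem' a)
  simpa using this

theorem y_mem (h : IsCentredAt P x y a b) : y ∈ P.toValuationSubring := by
  have := P.toValuationSubring.add_mem _ _ (ValuationSubring.nonunits_subset h.hy)
    (P.algebraMap_mem' b)
  simpa using this

theorem aeval_mem (h : IsCentredAt P x y a b) (g : K[X]) : aeval x g ∈ P.toValuationSubring := by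
  induction g using Polynomial.induction_on' with
  | add p q hp hq => rw [map_add]; exact add_mem hp hq
  | monomial m c =>
    rw [← C_mul_X_pow_eq_monomial, map_mul, map_pow, aeval_C, aeval_X]
    exact mul_mem (P.algebraMap_mem' c) (pow_mem h.x_mem m)

/-- `G(x, y) ∈ O_P`. -/
theorem ev_mem (h : IsCentredAt P x y a b) (G : K[X][X]) : ev x y G ∈ P.toValuationSubring := by
  induction G using Polynomial.induction_on' with
  | add p q hp hq => rw [map_add]; exact add_mem hp hq
  | monomial n g =>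
    rw [← C_mul_X_pow_eq_monomial, map_mul, map_pow, ev_C, ev_X]
    exact mul_mem (h.aeval_mem g) (pow_mem h.y_mem n)

/-- `G(x, y) ≡ G(a, b)` modulo `𝔪_P`. -/
theorem ev_sub_mem (h : IsCentredAt P x y a b) (G : K[X][X]) :
    ev x y G - algebraMap K F (ev0 a b G) ∈ P.toValuationSubring.nonunits := by
  obtain ⟨A, B, hAB⟩ := exists_decomp a b G
  have key : ev x y G - algebraMap K F (ev0 a b G) =
      ev x y A * (x - algebraMap K F a) + ev x y B * (y - algebraMap K F b) := by
    have e := congrArg (ev x y) hAB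
    simp only [map_add, map_mul, map_sub, ev_C, ev_X, aeval_C, aeval_X] at e
    rw [e]
    ring
  rw [key]
  exact add_mem (mul_mem_nonunits _ (h.ev_mem A) h.hx) (mul_mem_nonunits _ (h.ev_mem B) h.hy)

/-- `G(a, b) = 0 → G(x, y) ∈ 𝔪_P`. -/
theorem ev_mem_nonunits (h : IsCentredAt P x y a b) {G : K[X][X]} (hG : ev0 a b G = 0) :
    ev x y G ∈ P.toValuationSubring.nonunits := by
  have := h.ev_sub_mem G
  rwa [hG, map_zero, sub_zero] at this

/-- `G(a, b) ≠ 0 → G(x, y)` is a unit of `O_P`. -/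
theorem ev_unit (h : IsCentredAt P x y a b) {G : K[X][X]} (hG : ev0 a b G ≠ 0) :
    ev x y G ≠ 0 ∧ (ev x y G)⁻¹ ∈ P.toValuationSubring := by
  have h1 : ev x y G ∉ P.toValuationSubring.nonunits := by
    intro hmem
    have h2 : algebraMap K F (ev0 a b G) ∈ P.toValuationSubring.nonunits := by
      have := sub_mem hmem (h.ev_sub_mem G)
      simpa using this
    rw [ValuationSubring.mem_nonunits_iff_or] at h2
    rcases h2 with h2 | h2
    · exact hG ((map_eq_zero _).mp h2)
    · apply h2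
      rw [← map_inv₀]
      exact P.algebraMap_mem' _
  rw [ValuationSubring.mem_nonunits_iff_or] at h1
  exact ⟨fun h0 => h1 (Or.inl h0), by_contra fun hc => h1 (Or.inr hc)⟩

theorem ord_ev_unit (h : IsCentredAt P x y a b) {G : K[X][X]} (hG : ev0 a b G ≠ 0) :
    P.ord (ev x y G) = 0 := by
  have h1 := Lib.RR.ord_nonneg_of_mem P (h.ev_mem G)
  have h2 := Lib.RR.ord_nonneg_of_mem P (h.ev_unit hG).2
  rw [P.ord_inv] at h2
  omega

end IsCentredAt

/-- Data of a relation `Ψ(x, y) = 0` for which `(a, b)` is a simple point. -/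
structure IsSimplePoint (x y : F) (a b : K) (Ψ : K[X][X]) : Prop where
  rel : ev x y Ψ = 0
  zero : ev0 a b Ψ = 0
  simple : ev0 a b (derivative Ψ) ≠ 0

/-- Key step: if `G(a,b) = 0` then `T(x,y) G(x,y) = (x - a) G₁(x,y)` with `T(a,b) ≠ 0`. -/
theorem IsSimplePoint.exists_mul_eq {x y : F} {a b : K} {Ψ : K[X][X]}
    (hΨ : IsSimplePoint x y a b Ψ) {G : K[X][X]} (hG : ev0 a b G = 0) :
    ∃ T G₁ : K[X][X], ev0 a b T ≠ 0 ∧
      ev x y T * ev x y G = (x - algebraMap K F a) * ev x y G₁ := by
  obtain ⟨A₀, B₀, h0⟩ := exists_decomp a b Ψ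
  obtain ⟨A, B, h1⟩ := exists_decomp a b G
  rw [hΨ.zero, map_zero, map_zero, zero_add] at h0
  rw [hG, map_zero, map_zero, zero_add] at h1
  have hB₀ : ev0 a b B₀ ≠ 0 := by
    have hd : derivative Ψ = derivative A₀ * C (X - C a) + (derivative B₀ * (X - C (C b)) + B₀) := by
      conv_lhs => rw [h0]
      simp only [derivative_add, derivative_mul, derivative_C, derivative_sub, derivative_X,
        mul_zero, add_zero, sub_zero, mul_one]
    have := hΨ.simple
    rw [hd] at this
    simpa using this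
  have hrel : ev x y A₀ * (x - algebraMap K F a) + ev x y B₀ * (y - algebraMap K F b) = 0 := by
    have := hΨ.rel
    rw [h0] at this
    simpa using this
  refine ⟨B₀, B₀ * A - B * A₀, hB₀, ?_⟩
  conv_lhs => rw [h1]
  simp only [map_add, map_mul, map_sub, ev_C, ev_X, aeval_C, aeval_X]
  linear_combination (ev x y B) * hrel

/-- Every nonzero `G(x,y)` is `(x - a)^n` times a unit of the local ring at `(a, b)`. -/
theorem IsSimplePoint.exists_pow_mul_eq {x y : F} {a b : K} {Ψ : K[X][X]}
    (hΨ : IsSimplePoint x y a b Ψ) {P : Place K F} (h : IsCentredAt P x y a b)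
    (G : K[X][X]) (hG : ev x y G ≠ 0) :
    ∃ (n : ℕ) (S T : K[X][X]), ev0 a b S ≠ 0 ∧ ev0 a b T ≠ 0 ∧
      ev x y T * ev x y G = (x - algebraMap K F a) ^ n * ev x y S := by
  induction hk : (P.ord (ev x y G)).toNat using Nat.strong_induction_on generalizing G with
  | _ k ih =>
    by_cases hG0 : ev0 a b G = 0
    · obtain ⟨T₁, G₁, hT₁, hmul⟩ := hΨ.exists_mul_eq (x := x) (y := y) hG0
      have hT₁u := h.ev_unit hT₁
      have hxa : x - algebraMap K F a ≠ 0 := by
        intro h0
        rw [h0, zero_mul] at hmul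
        exact (mul_ne_zero hT₁u.1 hG) hmul
      have hG₁ : ev x y G₁ ≠ 0 := by
        intro h0
        rw [h0, mul_zero] at hmul
        exact (mul_ne_zero hT₁u.1 hG) hmul
      have hord : P.ord (ev x y G) = P.ord (x - algebraMap K F a) + P.ord (ev x y G₁) := by
        have := congrArg P.ord hmul
        rw [P.ord_mul hT₁u.1 hG, P.ord_mul hxa hG₁, h.ord_ev_unit hT₁, zero_add] at this
        exact this
      have hpos : 0 < P.ord (x - algebraMap K F a) :=
        (S24.FF.ord_pos_iff_mem_nonunits P hxa).mpr h.hx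
      have hnn : 0 ≤ P.ord (ev x y G₁) := Lib.RR.ord_nonneg_of_mem P (h.ev_mem G₁)
      have hlt : (P.ord (ev x y G₁)).toNat < k := by
        rw [← hk]
        omega
      obtain ⟨n, S, T₂, hS, hT₂, hmul₂⟩ := ih _ hlt G₁ hG₁ rfl
      refine ⟨n + 1, S, T₁ * T₂, hS, ?_, ?_⟩
      · rw [map_mul]; exact mul_ne_zero hT₁ hT₂
      · rw [map_mul, pow_succ]
        linear_combination (ev x y T₂) * hmul + (x - algebraMap K F a) * hmul₂
    · exact ⟨0, G, 1, hG0, by simp, by simp⟩

/-- **Uniqueness** of the place centred at a simple point, when `F = K(x, y)`. -/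
theorem IsCentredAt.le_of_isSimplePoint {x y : F} {a b : K} {Ψ : K[X][X]}
    (hΨ : IsSimplePoint x y a b Ψ)
    (hgen : ∀ f : F, ∃ G H : K[X][X], ev x y H ≠ 0 ∧ f * ev x y H = ev x y G)
    {P P' : Place K F} (h : IsCentredAt P x y a b) (h' : IsCentredAt P' x y a b) :
    P.toValuationSubring ≤ P'.toValuationSubring := by
  intro f hf
  rcases eq_or_ne f 0 with rfl | hf0
  · exact zero_mem _
  obtain ⟨G, H, hH, hfH⟩ := hgen f
  have hG : ev x y G ≠ 0 := by rw [← hfH]; exact mul_ne_zero hf0 hH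
  obtain ⟨n, S, T, hS, hT, hGeq⟩ := hΨ.exists_pow_mul_eq h G hG
  obtain ⟨m, S', T', hS', hT', hHeq⟩ := hΨ.exists_pow_mul_eq h H hH
  set t := x - algebraMap K F a with ht
  have hSu := h.ev_unit hS
  have hTu := h.ev_unit hT
  have hS'u := h.ev_unit hS'
  have hT'u := h.ev_unit hT'
  have key : f * (t ^ m * ev x y S' * ev x y T) = t ^ n * ev x y S * ev x y T' := by
    linear_combination (ev x y T * ev x y T') * hfH - f * ev x y T * hHeq + ev x y T' * hGeq
  by_cases ht0 : t = 0
  · -- then `n = m = 0`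
    have hn : n = 0 := by
      by_contra hn
      rw [ht0, zero_pow hn, zero_mul] at hGeq
      exact (mul_ne_zero hTu.1 hG) hGeq
    have hm : m = 0 := by
      by_contra hm
      rw [ht0, zero_pow hm, zero_mul] at hHeq
      exact (mul_ne_zero hT'u.1 hH) hHeq
    rw [hn, hm, pow_zero, one_mul, one_mul] at key
    have hf_eq : f = ev x y S * ev x y T' * ((ev x y S')⁻¹ * (ev x y T)⁻¹) := by
      rw [← mul_inv, ← div_eq_mul_inv, eq_div_iff (mul_ne_zero hS'u.1 hTu.1)]
      linear_combination key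
    rw [hf_eq]
    exact mul_mem (mul_mem (h'.ev_mem S) (h'.ev_mem T'))
      (mul_mem (h'.ev_unit hS').2 (h'.ev_unit hT).2)
  · have hpos : 0 < P.ord t := (S24.FF.ord_pos_iff_mem_nonunits P ht0).mpr h.hx
    have hord : P.ord f + m * P.ord t = n * P.ord t := by
      have := congrArg P.ord key
      rw [P.ord_mul hf0 (mul_ne_zero (mul_ne_zero (pow_ne_zero m ht0) hS'u.1) hTu.1),
        P.ord_mul (mul_ne_zero (pow_ne_zero m ht0) hS'u.1) hTu.1,
        P.ord_mul (pow_ne_zero m ht0) hS'u.1,
        P.ord_mul (mul_ne_zero (pow_ne_zero n ht0) hSu.1) hT'u.1,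
        P.ord_mul (pow_ne_zero n ht0) hSu.1,
        Lib.RR.ord_pow, Lib.RR.ord_pow, h.ord_ev_unit hS, h.ord_ev_unit hT, h.ord_ev_unit hS',
        h.ord_ev_unit hT'] at this
      linarith
    have hfnn : 0 ≤ P.ord f := Lib.RR.ord_nonneg_of_mem P hf
    have hmn : m ≤ n := by
      by_contra hcon
      have h1 : (n : ℤ) + 1 ≤ m := by exact_mod_cast Nat.lt_of_not_le hcon
      nlinarith
    obtain ⟨d, rfl⟩ := Nat.exists_eq_add_of_le hmn
    have htm : t ^ m ≠ 0 := pow_ne_zero m ht0
    have hf_eq : f = t ^ d * ev x y S * ev x y T' * ((ev x y S')⁻¹ * (ev x y T)⁻¹) := by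
      rw [← mul_inv, ← div_eq_mul_inv, eq_div_iff (mul_ne_zero hS'u.1 hTu.1)]
      rw [pow_add] at key
      apply mul_left_cancel₀ htm
      linear_combination key
    rw [hf_eq]
    have htmem : t ∈ P'.toValuationSubring := ValuationSubring.nonunits_subset h'.hx
    exact mul_mem (mul_mem (mul_mem (pow_mem htmem d) (h'.ev_mem S)) (h'.ev_mem T'))
      (mul_mem (h'.ev_unit hS').2 (h'.ev_unit hT).2)

/-- **Uniqueness** of the place centred at a simple point, when `F = K(x, y)`. -/
theorem IsCentredAt.unique {x y : F} {a b : K} {Ψ : K[X][X]}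
    (hΨ : IsSimplePoint x y a b Ψ)
    (hgen : ∀ f : F, ∃ G H : K[X][X], ev x y H ≠ 0 ∧ f * ev x y H = ev x y G)
    {P P' : Place K F} (h : IsCentredAt P x y a b) (h' : IsCentredAt P' x y a b) :
    P = P' :=
  Place.ext (le_antisymm (h.le_of_isSimplePoint hΨ hgen h') (h'.le_of_isSimplePoint hΨ hgen h))

/-! ## Existence -/

/-- `(a, b)` is a `K`-point of the plane model of `K(x, y)`: every polynomial relation between
`x` and `y` vanishes at `(a, b)`. -/
def IsPointOf (x y : F) (a b : K) : Prop :=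
  ∀ G : K[X][X], ev x y G = 0 → ev0 a b G = 0

/-- **Existence** of a place centred at a `K`-point of the plane model. -/
theorem exists_isCentredAt [IsAlgClosed K] {x y : F} {a b : K} (hx : Transcendental K x)
    [FiniteDimensional (IntermediateField.adjoin K {x}) F] (hpt : IsPointOf x y a b) :
    ∃ P : Place K F, IsCentredAt P x y a b := by
  classical
  set A : Subring F := (ev (K := K) x y).range with hA
  have hxA : x - algebraMap K F a ∈ A := ⟨C (X - C a), by simp⟩
  have hyA : y - algebraMap K F b ∈ A := ⟨X - C (C b), by simp⟩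
  set I : Ideal A := Ideal.span {⟨x - algebraMap K F a, hxA⟩, ⟨y - algebraMap K F b, hyA⟩} with hI
  have hI_ne : I ≠ ⊤ := by
    intro htop
    have h1 : (1 : A) ∈ I := by rw [htop]; trivial
    rw [hI, Ideal.mem_span_pair] at h1
    obtain ⟨⟨u, U, hU⟩, ⟨w, W, hW⟩, huw⟩ := h1
    have huw' : u * (x - algebraMap K F a) + w * (y - algebraMap K F b) = 1 :=
      congrArg Subtype.val huw
    have h2 : ev x y (U * C (X - C a) + W * (X - C (C b)) - 1) = 0 := by
      simp only [map_add, map_mul, map_sub, map_one, ev_C, ev_X, aeval_C, aeval_X, hU, hW]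
      rw [huw', sub_self]
    have h3 := hpt _ h2
    simp at h3
  obtain ⟨B, hAB, hIB⟩ := Ideal.image_subset_nonunits_valuationSubring I hI_ne
  have hxB : x - algebraMap K F a ∈ B.nonunits :=
    hIB ⟨⟨_, hxA⟩, Ideal.subset_span (by simp), rfl⟩
  have hyB : y - algebraMap K F b ∈ B.nonunits :=
    hIB ⟨⟨_, hyA⟩, Ideal.subset_span (by simp), rfl⟩
  have hK : ∀ c : K, algebraMap K F c ∈ B := fun c => hAB ⟨C (C c), by simp⟩
  have hxa : x - algebraMap K F a ≠ 0 := by
    intro h0
    have h1 : aeval x (X - C a : K[X]) = 0 := by simpa using h0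
    have h2 := (transcendental_iff.mp hx) _ h1
    exact X_sub_C_ne_zero a h2
  have hB : B ≠ ⊤ := by
    intro htop
    rw [ValuationSubring.mem_nonunits_iff_or] at hxB
    rcases hxB with h0 | h0
    · exact hxa h0
    · exact h0 (htop ▸ ValuationSubring.mem_top _)
  obtain ⟨P, hP⟩ := Lib.RR.H443.exists_place_eq B hK hB hx
  exact ⟨P, ⟨hP ▸ hxB, hP ▸ hyB⟩⟩

/-- If `Ψ` is monic in `Y`, `Ψ(x, y) = 0`, and `y` satisfies no relation over `K[x]` of smaller
`Y`-degree, then every zero `(a, b)` of `Ψ` is a `K`-point of the plane model. -/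
theorem isPointOf_of_monic {x y : F} {a b : K} {Ψ : K[X][X]} (hΨm : Ψ.Monic)
    (hΨ : ev x y Ψ = 0)
    (hmin : ∀ G : K[X][X], ev x y G = 0 → G.degree < Ψ.degree → G = 0)
    (hab : ev0 a b Ψ = 0) : IsPointOf x y a b := by
  intro G hG
  have h1 : G %ₘ Ψ + Ψ * (G /ₘ Ψ) = G := modByMonic_add_div G Ψ
  have h2 : ev x y (G %ₘ Ψ) = 0 := by
    have := congrArg (ev x y) h1
    rw [map_add, map_mul, hΨ, zero_mul, add_zero, hG] at this
    exact this
  have h3 : G %ₘ Ψ = 0 := hmin _ h2 (degree_modByMonic_lt G hΨm)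
  rw [h3, zero_add] at h1
  rw [← h1, map_mul, hab, zero_mul]

/-- The minimality hypothesis of `isPointOf_of_monic` from a degree bound: the `Y`-degree of `Ψ`
is at most the degree of the minimal polynomial of `y` over `K(x)`. -/
theorem eq_zero_of_degree_lt {x y : F} (hx : Transcendental K x) {Ψ : K[X][X]}
    (hdeg : Ψ.natDegree ≤ (minpoly (IntermediateField.adjoin K {x}) y).natDegree)
    (hy : IsIntegral (IntermediateField.adjoin K {x}) y)
    (G : K[X][X]) (hG : ev x y G = 0) (hlt : G.degree < Ψ.degree) : G = 0 := by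
  set φ : K[X] →+* IntermediateField.adjoin K {x} :=
    (aeval (IntermediateField.AdjoinSimple.gen K x) :
      K[X] →ₐ[K] IntermediateField.adjoin K {x}).toRingHom with hφ
  have hφ_inj : Function.Injective φ := by
    rw [injective_iff_map_eq_zero]
    intro g hg
    have h1 : aeval x g = 0 := by
      have := congrArg (algebraMap (IntermediateField.adjoin K {x}) F) hg
      simpa [hφ, ← aeval_algebraMap_apply] using this
    exact (transcendental_iff.mp hx) g h1
  have hcomp : ((algebraMap (IntermediateField.adjoin K {x}) F).comp φ) =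
      ((aeval x : K[X] →ₐ[K] F) : K[X] →+* F) := by
    ext g
    · simp [hφ]
    · simp [hφ]
  have h1 : aeval y (G.map φ) = 0 := by
    rw [aeval_def, eval₂_map, hcomp]
    exact hG
  by_contra hG0
  have hmap0 : G.map φ ≠ 0 := by
    rwa [Ne, Polynomial.map_eq_zero_iff hφ_inj]
  have h2 := minpoly.degree_le_of_ne_zero _ y hmap0 h1
  have h3 : (G.map φ).degree = G.degree := degree_map_eq_of_injective hφ_inj G
  have hΨ0 : Ψ ≠ 0 := by
    intro h0
    rw [h0, degree_zero] at hlt
    exact not_lt_bot hlt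
  have h4 : Ψ.degree ≤ (minpoly (IntermediateField.adjoin K {x}) y).degree := by
    rw [degree_eq_natDegree hΨ0, degree_eq_natDegree (minpoly.ne_zero hy)]
    exact_mod_cast hdeg
  rw [h3] at h2
  exact absurd (lt_of_lt_of_le hlt (h4.trans h2)) (lt_irrefl _)

/-! ## Generation -/

/-- Elements of `K[x, y]` are values of bivariate polynomials. -/
theorem exists_ev_eq_of_mem_adjoin {x y : F} {r : F} (hr : r ∈ Algebra.adjoin K ({x, y} : Set F)) :
    ∃ G : K[X][X], ev x y G = r := by
  induction hr using Algebra.adjoin_induction with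
  | mem z hz =>
    rcases hz with rfl | hz
    · exact ⟨C X, by simp⟩
    · rw [Set.mem_singleton_iff] at hz
      subst hz
      exact ⟨X, by simp⟩
  | algebraMap c => exact ⟨C (C c), by simp⟩
  | add u w _ _ hu hw =>
    obtain ⟨U, rfl⟩ := hu
    obtain ⟨W, rfl⟩ := hw
    exact ⟨U + W, map_add _ _ _⟩
  | mul u w _ _ hu hw =>
    obtain ⟨U, rfl⟩ := hu
    obtain ⟨W, rfl⟩ := hw
    exact ⟨U * W, map_mul _ _ _⟩

/-- If `F = K(x, y)` then every element of `F` is a quotient `G(x,y) / H(x,y)`. -/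
theorem exists_ev_of_adjoin_eq_top {x y : F}
    (htop : IntermediateField.adjoin K ({x, y} : Set F) = ⊤) (f : F) :
    ∃ G H : K[X][X], ev x y H ≠ 0 ∧ f * ev x y H = ev x y G := by
  have hf : f ∈ IntermediateField.adjoin K ({x, y} : Set F) := by rw [htop]; trivial
  obtain ⟨r, hr, s, hs, rfl⟩ := IntermediateField.mem_adjoin_iff_div.mp hf
  obtain ⟨G, rfl⟩ := exists_ev_eq_of_mem_adjoin hr
  obtain ⟨H, rfl⟩ := exists_ev_eq_of_mem_adjoin hs
  by_cases h0 : ev x y H = 0
  · refine ⟨0, 1, by simp, ?_⟩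
    rw [h0, div_zero, zero_mul, map_zero]
  · exact ⟨G, H, h0, div_mul_cancel₀ _ h0⟩

/-! ## Galois-fixedness -/

open scoped Pointwise in
/-- A semilinear automorphism fixing `x`, `y`, `a`, `b` maps places centred at `(a, b)` to places
centred at `(a, b)`. -/
theorem IsCentredAt.smul {P : Place K F} {x y : F} {a b : K} (h : IsCentredAt P x y a b)
    (g : SemilinearAut K F) (hgx : g • x = x) (hgy : g • y = y)
    (hga : SemilinearAut.baseAut g a = a) (hgb : SemilinearAut.baseAut g b = b) :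
    IsCentredAt (g • P) x y a b := by
  have key : ∀ (z : F), g • z = z → ∀ c : K, SemilinearAut.baseAut g c = c →
      z - algebraMap K F c ∈ P.toValuationSubring.nonunits →
      z - algebraMap K F c ∈ (g • P).toValuationSubring.nonunits := by
    intro z hz c hc hmem
    have hfix : g • (z - algebraMap K F c) = z - algebraMap K F c := by
      rw [smul_sub, hz, SemilinearAut.smul_algebraMap, hc]
    rw [ValuationSubring.mem_nonunits_iff_or] at hmem ⊢
    rcases hmem with h0 | h0
    · exact Or.inl h0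
    · refine Or.inr fun hcon => h0 ?_
      rw [SemilinearAut.smul_toValuationSubring,
        ValuationSubring.mem_pointwise_smul_iff_inv_smul_mem] at hcon
      have h2 : g⁻¹ • (z - algebraMap K F c)⁻¹ = (z - algebraMap K F c)⁻¹ := by
        rw [inv_smul_eq_iff, smul_inv'', hfix]
      rwa [h2] at hcon
  exact ⟨key x hgx a hga h.hx, key y hgy b hgb h.hy⟩

/-- **Galois-fixedness**: the unique place centred at a simple point `(a, b)` is fixed by every
semilinear automorphism fixing `x`, `y`, `a`, `b`. -/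
theorem IsCentredAt.smul_eq {x y : F} {a b : K} {Ψ : K[X][X]}
    (hΨ : IsSimplePoint x y a b Ψ)
    (hgen : ∀ f : F, ∃ G H : K[X][X], ev x y H ≠ 0 ∧ f * ev x y H = ev x y G)
    {P : Place K F} (h : IsCentredAt P x y a b)
    (g : SemilinearAut K F) (hgx : g • x = x) (hgy : g • y = y)
    (hga : SemilinearAut.baseAut g a = a) (hgb : SemilinearAut.baseAut g b = b) :
    g • P = P :=
  (h.smul g hgx hgy hga hgb).unique hΨ hgen h

/-- **Summary**: over an algebraically closed field `K`, for `F = K(x, y)` finite over `K(x)`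
(`x` transcendental), a simple zero `(a, b)` of a monic minimal relation `Ψ` is the centre of
exactly one place. -/
theorem existsUnique_isCentredAt [IsAlgClosed K] {x y : F} {a b : K} (hx : Transcendental K x)
    [FiniteDimensional (IntermediateField.adjoin K {x}) F]
    (htop : IntermediateField.adjoin K ({x, y} : Set F) = ⊤)
    {Ψ : K[X][X]} (hΨm : Ψ.Monic) (hΨ : ev x y Ψ = 0)
    (hmin : ∀ G : K[X][X], ev x y G = 0 → G.degree < Ψ.degree → G = 0)
    (hab : ev0 a b Ψ = 0) (hsimple : ev0 a b (derivative Ψ) ≠ 0) :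
    ∃! P : Place K F, IsCentredAt P x y a b := by
  obtain ⟨P, hP⟩ := exists_isCentredAt hx (isPointOf_of_monic hΨm hΨ hmin hab)
  exact ⟨P, hP, fun P' hP' =>
    hP'.unique ⟨hΨ, hab, hsimple⟩ (exists_ev_of_adjoin_eq_top htop) hP⟩

end Fermat.Agent.S15.H602

end
end
-- ===== PACK-END S15/H602/PlaceOfPoint.lean

-- ===== PACK-BEGIN S37/H518/Charts.lean
section


/-!
# S37 / RIM (helper518): two-chart models and the place reduction map

`TwoCharts` packages the abstract input ("smooth integral model with two affine charts");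
`TwoCharts.rmap` is the induced reduction map on places, characterised by
`TwoCharts.rmap_spec`: if `rmap P` is centred on a chart then so is `P`, with compatible values.
-/

set_option autoImplicit false

namespace Fermat.Agent.S37.H518

open AlgebraicCurve Fermat.Agent.S24.H504 Polynomial

variable {L : Type*} [Field L] {A : ValuationSubring L} {k : Type*} [Field k]
variable {F : Type*} [Field F] [Algebra L F] {Fk : Type*} [Field Fk] [Algebra k Fk]
variable {V : Type*} [CommRing V] [Algebra A V]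

/-- `P` is centred on the chart `B`, with integral values. -/
def PC (ι : V →+* F) (B : Subalgebra A V) (P : Place L F) : Prop :=
  ∀ b ∈ B, ∃ a : A, InMax P (ι b - algebraMap L F (a : L))

/-- `Q` is centred on the (reduction of the) chart `B`. -/
def QC (ρ : V →+* Fk) (B : Subalgebra A V) (Q : Place k Fk) : Prop :=
  ∀ b ∈ B, 0 ≤ Q.ord (ρ b)

/-- `P` reduces to `Q` on the chart `B`: values of chart functions are compatible. -/
def RedTo (π : A →+* k) (ι : V →+* F) (ρ : V →+* Fk) (B : Subalgebra A V)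
    (P : Place L F) (Q : Place k Fk) : Prop :=
  ∀ b ∈ B, ∀ a : A, InMax P (ι b - algebraMap L F (a : L)) →
    InMax Q (ρ b - algebraMap k Fk (π a))

theorem PC.ord_nonneg {ι : V →+* F} {B : Subalgebra A V} {P : Place L F} (h : PC ι B P)
    {b : V} (hb : b ∈ B) : 0 ≤ P.ord (ι b) := by
  obtain ⟨a, ha⟩ := h b hb
  have h1 : OrdGE P 0 (ι b - algebraMap L F (a : L)) := InMax.ordGE_zero ha
  have h2 := h1.add (ordGE_algebraMap (v := P) (a : L))
  rw [sub_add_cancel] at h2
  exact ordGE_zero_iff.mp h2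

/-- Pure valuation-theoretic transfer of values along `b * X ^ n = b₀`. -/
theorem inMax_transfer {K' F' : Type*} [Field K'] [Field F'] [Algebra K' F'] (v : Place K' F')
    {X b b₀ : F'} {a β₀ : K'} (n : ℕ) (ha : a ≠ 0) (hX : InMax v (X - algebraMap K' F' a))
    (hb₀ : InMax v (b₀ - algebraMap K' F' β₀)) (hmul : b * X ^ n = b₀) :
    InMax v (b - algebraMap K' F' (β₀ / a ^ n)) := by
  have hX0 : OrdGE v 0 X := by
    have := (InMax.ordGE_zero hX).add (ordGE_algebraMap (v := v) a)
    rwa [sub_add_cancel] at this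
  have hXn : ¬ InMax v X := by
    intro hc
    have := hc.sub hX
    rw [sub_sub_cancel] at this
    exact not_inMax_algebraMap ha this
  obtain ⟨hXne, hXord⟩ :=
    LocalChart.ne_zero_and_ord_eq_zero_of_not_inMax (ordGE_zero_iff.mp hX0) hXn
  have hXpow : X ^ n ≠ 0 := pow_ne_zero _ hXne
  have hXpord : v.ord (X ^ n) = 0 := by rw [ord_pow, hXord, mul_zero]
  -- numerator
  have hnum : InMax v (b₀ - algebraMap K' F' (β₀ / a ^ n) * X ^ n) := by
    have e : b₀ - algebraMap K' F' (β₀ / a ^ n) * X ^ n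
        = (b₀ - algebraMap K' F' β₀)
          - algebraMap K' F' (β₀ / a ^ n) * (X ^ n - algebraMap K' F' a ^ n) := by
      have : algebraMap K' F' β₀ = algebraMap K' F' (β₀ / a ^ n) * algebraMap K' F' a ^ n := by
        rw [← map_pow, ← map_mul, div_mul_cancel₀ _ (pow_ne_zero _ ha)]
      rw [this]; ring
    rw [e]
    refine hb₀.sub (InMax.mul_left ?_ (ordGE_zero_iff.mp (ordGE_algebraMap _)))
    obtain ⟨q, hq⟩ := sub_dvd_pow_sub_pow X (algebraMap K' F' a) n
    have hq' : OrdGE v 0 ((X ^ n - algebraMap K' F' a ^ n) / (X - algebraMap K' F' a)) ∨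
        X - algebraMap K' F' a = 0 := by
      by_cases h0 : X - algebraMap K' F' a = 0
      · exact Or.inr h0
      · left
        -- the quotient is a polynomial expression in `X` and `a`
        have : (X ^ n - algebraMap K' F' a ^ n) / (X - algebraMap K' F' a)
            = ∑ i ∈ Finset.range n, X ^ i * algebraMap K' F' a ^ (n - 1 - i) := by
          rw [div_eq_iff h0, ← Commute.geom_sum₂_mul (Commute.all _ _)]
        rw [this]
        refine ordGE_sum _ _ fun i _ => ?_
        have h1 := hX0.pow i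
        have h2 := (ordGE_algebraMap (v := v) a).pow (n - 1 - i)
        simpa using h1.mul h2
    rcases hq' with hq' | h0
    · by_cases h0 : X - algebraMap K' F' a = 0
      · rw [sub_eq_zero] at h0
        rw [h0, sub_self]
        exact inMax_zero
      · have e2 : X ^ n - algebraMap K' F' a ^ n = (X - algebraMap K' F' a) *
            ((X ^ n - algebraMap K' F' a ^ n) / (X - algebraMap K' F' a)) := by
          field_simp
        rw [e2]
        exact hX.mul_right (ordGE_zero_iff.mp hq')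
    · rw [sub_eq_zero] at h0
      rw [h0, sub_self]
      exact inMax_zero
  have e3 : b - algebraMap K' F' (β₀ / a ^ n)
      = (b₀ - algebraMap K' F' (β₀ / a ^ n) * X ^ n) / X ^ n := by
    rw [← hmul]
    field_simp
  rw [e3]
  have := (InMax.ordGE hnum).div hXpow hXpord
  rw [sub_zero] at this
  exact ordGE_one_iff.mp this

/-- One affine chart `B` (with coordinate `x`) of an integral model with normal fibres. -/
structure Chart (π : A →+* k) (ι : V →+* F) (ρ : V →+* Fk) (B : Subalgebra A V) (x : V) :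
    Prop where
  x_mem : x ∈ B
  /-- q-expansion principle: the kernel of reduction on the chart is `𝔪 B` -/
  ker : ∀ b ∈ B, ρ b = 0 → ∃ μ : A, π μ = 0 ∧ ∃ b' ∈ B, b = μ • b'
  /-- `B / g(x) B` is a finitely generated `A`-module for monic `g` (`B` is finite over `A[x]`) -/
  fin : ∀ g : A[X], g.Monic → ∃ (r : ℕ) (e' : Fin r → V), (∀ j, e' j ∈ B) ∧
      ∀ z ∈ B, ∃ α : Fin r → A, ∃ z' ∈ B, z = ∑ j, α j • e' j + aeval x g * z'
  /-- normality of the special fibre on the chart -/
  Q_loc : ∀ Q : Place k Fk, QC ρ B Q → ∀ f : Fk, 0 ≤ Q.ord f →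
      ∃ a ∈ B, ∃ s ∈ B, ¬ InMax Q (ρ s) ∧ f * ρ s = ρ a
  /-- normality of the generic fibre on the chart: local uniformisers -/
  P_unif : ∀ P : Place L F, PC ι B P → ∃ w ∈ B, P.ord (ι w) = 1
  /-- the chart separates places of the generic fibre -/
  P_sep : ∀ P P' : Place L F, PC ι B P → PC ι B P' → P ≠ P' →
      ∃ s ∈ B, ¬ InMax P (ι s) ∧ InMax P' (ι s)
  /-- every point of the generic fibre centred on the chart has a reduction on the chart -/
  exists_red : ∀ P : Place L F, PC ι B P → ∃ Q : Place k Fk, QC ρ B Q ∧ RedTo π ι ρ B P Q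

/-- Two-chart model: abstract form of a smooth proper integral model of a curve covered by two
affine charts `x ≠ ∞` and `x ≠ 0`. -/
structure TwoCharts (π : A →+* k) (ι : V →+* F) (ρ : V →+* Fk) (B₀ B₁ : Subalgebra A V)
    (x₀ x₁ : V) : Prop extends RedStr π ι ρ where
  inj : Function.Injective ι
  chart0 : Chart π ι ρ B₀ x₀
  chart1 : Chart π ι ρ B₁ x₁
  mul_eq_one : x₀ * x₁ = 1
  trans01 : ∀ b ∈ B₁, ∃ n : ℕ, b * x₀ ^ n ∈ B₀
  trans10 : ∀ b ∈ B₀, ∃ n : ℕ, b * x₁ ^ n ∈ B₁
  cover_P : ∀ P : Place L F, PC ι B₀ P ∨ PC ι B₁ P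
  cover_Q : ∀ Q : Place k Fk, QC ρ B₀ Q ∨ QC ρ B₁ Q
  /-- places of the special fibre are rational -/
  Q_val : ∀ (Q : Place k Fk) (f : Fk), 0 ≤ Q.ord f → ∃ c : k, InMax Q (f - algebraMap k Fk c)
  degP : ∀ P : Place L F, P.deg = 1
  degQ : ∀ Q : Place k Fk, Q.deg = 1
  /-- every function is, up to a constant, a quotient of chart functions with nonzero reduction -/
  frac : ∀ f : F, f ≠ 0 → ∃ a ∈ B₀, ∃ b ∈ B₀, ρ a ≠ 0 ∧ ρ b ≠ 0 ∧
      ∃ μ : L, μ ≠ 0 ∧ f * ι b = algebraMap L F μ * ι a
  /-- the degree of the zero divisor of `x₁` is the same on both fibres (`= [F : L(x)]`) -/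
  FI : ∀ (D₁ : Divisor L F) (E₁ : Divisor k Fk), (∀ P, D₁ P = P.ord (ι x₁)) →
      (∀ Q, E₁ Q = Q.ord (ρ x₁)) →
      ∑ P ∈ D₁.support, max (D₁ P) 0 = ∑ Q ∈ E₁.support, max (E₁ Q) 0

section Transfer

variable {π : A →+* k} {ι : V →+* F} {ρ : V →+* Fk}

/-- Transfer between charts: if `P` reduces to `Q` on the chart `B` (coordinate `x`) and `Q` is
centred on the chart `B'` (coordinate `x' = 1/x`), then `P` is centred on `B'` and reduces to
`Q` there. -/
theorem transfer (hR : RedStr π ι ρ) {B B' : Subalgebra A V} {x x' : V} (hx : x ∈ B)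
    (hx' : x' ∈ B') (hmul : x * x' = 1) (htr : ∀ b ∈ B', ∃ n : ℕ, b * x ^ n ∈ B)
    {P : Place L F} {Q : Place k Fk} (hP : PC ι B P) (hQ : QC ρ B Q)
    (hPQ : RedTo π ι ρ B P Q) (hQ' : QC ρ B' Q) :
    PC ι B' P ∧ RedTo π ι ρ B' P Q := by
  obtain ⟨a₀, ha₀⟩ := hP x hx
  have hQx := hPQ x hx a₀ ha₀
  -- `ρ x` is a unit at `Q`
  have hρmul : ρ x * ρ x' = 1 := by rw [← map_mul, hmul, map_one]
  have hρx0 : ρ x ≠ 0 := left_ne_zero_of_mul_eq_one hρmul
  have hρx'0 : ρ x' ≠ 0 := right_ne_zero_of_mul_eq_one hρmul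
  have hord : Q.ord (ρ x) = 0 := by
    have h1 := Q.ord_mul hρx0 hρx'0
    rw [hρmul, Place.ord_one] at h1
    have h2 := hQ x hx
    have h3 := hQ' x' hx'
    omega
  have hπa₀ : π a₀ ≠ 0 := by
    intro h0
    rw [h0, map_zero, sub_zero] at hQx
    exact not_inMax_of_ord_eq_zero hρx0 hord hQx
  have ha₀u : IsUnit a₀ := hR.isUnit_of_pi_ne_zero hπa₀
  have ha₀L : (a₀ : L) ≠ 0 := by
    intro h0
    apply hπa₀
    have : a₀ = 0 := Subtype.ext h0
    rw [this, map_zero]
  obtain ⟨u, hu⟩ := ha₀u.exists_left_inv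
  -- values on `B'`
  have key : ∀ b ∈ B', ∃ β : A, InMax P (ι b - algebraMap L F (β : L)) ∧
      InMax Q (ρ b - algebraMap k Fk (π β)) := by
    intro b hb
    obtain ⟨n, hn⟩ := htr b hb
    obtain ⟨β₀, hβ₀⟩ := hP _ hn
    have hQβ₀ := hPQ _ hn β₀ hβ₀
    refine ⟨β₀ * u ^ n, ?_, ?_⟩
    · have := inMax_transfer P (b := ι b) (b₀ := ι (b * x ^ n)) n ha₀L ha₀ hβ₀
        (by rw [map_mul, map_pow])
      convert this using 3
      have huL : (u : L) * (a₀ : L) = 1 := by exact_mod_cast congrArg Subtype.val hu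
      push_cast
      rw [eq_div_iff (pow_ne_zero _ ha₀L), mul_assoc, ← mul_pow, huL, one_pow, mul_one]
    · have := inMax_transfer Q (b := ρ b) (b₀ := ρ (b * x ^ n)) n hπa₀ hQx hQβ₀
        (by rw [map_mul, map_pow])
      convert this using 3
      have huk : π u * π a₀ = 1 := by rw [← map_mul, hu, map_one]
      rw [map_mul, map_pow, eq_div_iff (pow_ne_zero _ hπa₀), mul_assoc, ← mul_pow, huk, one_pow,
        mul_one]
  refine ⟨fun b hb => ?_, fun b hb a ha => ?_⟩
  · obtain ⟨β, hβ, -⟩ := key b hb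
    exact ⟨β, hβ⟩
  · obtain ⟨β, hβ, hβQ⟩ := key b hb
    have : (a : L) = (β : L) := value_unique ha hβ
    have : a = β := Subtype.ext this
    rw [this]
    exact hβQ

end Transfer

end Fermat.Agent.S37.H518

end
-- ===== PACK-END S37/H518/Charts.lean

-- ===== PACK-BEGIN S37/H518/RMap.lean
section


/-!
# S37 / RIM (helper518): the reduction map on places of a two-chart model

* `TwoCharts.rmap` : places of the generic fibre → places of the special fibre;
* `TwoCharts.rmap_chart0 / rmap_chart1` : if `rmap P` is centred on a chart, so is `P`, and the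
  values of chart functions are compatible;
* `TwoCharts.sum_le0 / sum_le1` : zeros only merge (`LocalChart.sum_ord_le` on each chart).
-/

set_option autoImplicit false

namespace Fermat.Agent.S37.H518

open AlgebraicCurve Fermat.Agent.S24.H504 Polynomial

variable {L : Type*} [Field L] {A : ValuationSubring L} {k : Type*} [Field k]
variable {F : Type*} [Field F] [Algebra L F] {Fk : Type*} [Field Fk] [Algebra k Fk]
variable {V : Type*} [CommRing V] [Algebra A V]
variable {π : A →+* k} {ι : V →+* F} {ρ : V →+* Fk} {B₀ B₁ : Subalgebra A V} {x₀ x₁ : V}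

/-- Assembling `LocalChart` from a `Chart` and finitely many places reducing to `Q`. -/
theorem Chart.localChart {B : Subalgebra A V} {x : V} (hR : RedStr π ι ρ)
    (hQval : ∀ (Q : Place k Fk) (f : Fk), 0 ≤ Q.ord f → ∃ c : k, InMax Q (f - algebraMap k Fk c))
    (hc : Chart π ι ρ B x) {Q : Place k Fk} (hQ : QC ρ B Q) (S : Finset (Place L F))
    (hS : ∀ P ∈ S, PC ι B P ∧ RedTo π ι ρ B P Q) :
    LocalChart π ι ρ B Q (fun i : S => (i : Place L F)) where
  toRedStr := hR
  ker := hc.ker
  Q_int := hQ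
  Q_loc := hc.Q_loc Q hQ
  Q_val := hQval Q
  P_inj := Subtype.val_injective
  P_int := fun i _ hb => (hS i.1 i.2).1.ord_nonneg hb
  P_val := fun i b hb => (hS i.1 i.2).1 b hb
  P_red := fun i b hb a ha => (hS i.1 i.2).2 b hb a ha
  P_unif := fun i => hc.P_unif i.1 (hS i.1 i.2).1
  P_sep := fun i j hij => hc.P_sep i.1 j.1 (hS i.1 i.2).1 (hS j.1 j.2).1
    (fun e => hij (Subtype.ext e))

/-- Zeros only merge, on one chart. -/
theorem Chart.sum_le {B : Subalgebra A V} {x : V} (hR : RedStr π ι ρ)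
    (hQval : ∀ (Q : Place k Fk) (f : Fk), 0 ≤ Q.ord f → ∃ c : k, InMax Q (f - algebraMap k Fk c))
    (hc : Chart π ι ρ B x) {Q : Place k Fk} (hQ : QC ρ B Q) (S : Finset (Place L F))
    (hS : ∀ P ∈ S, PC ι B P ∧ RedTo π ι ρ B P Q) {y : V} (hy : y ∈ B) (hy0 : ρ y ≠ 0) :
    ∑ P ∈ S, P.ord (ι y) ≤ Q.ord (ρ y) := by
  have := (hc.localChart hR hQval hQ S hS).sum_ord_le hy hy0 hc.x_mem hc.fin
  rwa [Finset.sum_coe_sort S (fun P => P.ord (ι y))] at this

namespace TwoCharts

variable (h : TwoCharts π ι ρ B₀ B₁ x₀ x₁)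

open Classical in
/-- The reduction map on places. -/
noncomputable def rmap (P : Place L F) : Place k Fk :=
  if hP : PC ι B₀ P then (h.chart0.exists_red P hP).choose
  else (h.chart1.exists_red P ((h.cover_P P).resolve_left hP)).choose

theorem rmap_spec0 {P : Place L F} (hP : PC ι B₀ P) :
    QC ρ B₀ (h.rmap P) ∧ RedTo π ι ρ B₀ P (h.rmap P) := by
  rw [rmap, dif_pos hP]
  exact (h.chart0.exists_red P hP).choose_spec

theorem rmap_spec1 {P : Place L F} (hP : ¬ PC ι B₀ P) :
    PC ι B₁ P ∧ QC ρ B₁ (h.rmap P) ∧ RedTo π ι ρ B₁ P (h.rmap P) := by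
  have hP1 : PC ι B₁ P := (h.cover_P P).resolve_left hP
  refine ⟨hP1, ?_⟩
  rw [rmap, dif_neg hP]
  exact (h.chart1.exists_red P hP1).choose_spec

include h in
theorem mul_eq_one' : x₁ * x₀ = 1 := by rw [mul_comm]; exact h.mul_eq_one

theorem rmap_chart0 {P : Place L F} (hQ : QC ρ B₀ (h.rmap P)) :
    PC ι B₀ P ∧ RedTo π ι ρ B₀ P (h.rmap P) := by
  by_cases hP : PC ι B₀ P
  · exact ⟨hP, (h.rmap_spec0 hP).2⟩
  · obtain ⟨hP1, hQ1, hR1⟩ := h.rmap_spec1 hP
    exact transfer h.toRedStr h.chart1.x_mem h.chart0.x_mem h.mul_eq_one' h.trans10 hP1 hQ1 hR1 hQ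

theorem rmap_chart1 {P : Place L F} (hQ : QC ρ B₁ (h.rmap P)) :
    PC ι B₁ P ∧ RedTo π ι ρ B₁ P (h.rmap P) := by
  by_cases hP : PC ι B₀ P
  · obtain ⟨hQ0, hR0⟩ := h.rmap_spec0 hP
    exact transfer h.toRedStr h.chart0.x_mem h.chart1.x_mem h.mul_eq_one h.trans01 hP hQ0 hR0 hQ
  · obtain ⟨hP1, -, hR1⟩ := h.rmap_spec1 hP
    exact ⟨hP1, hR1⟩

theorem sum_le0 {Q : Place k Fk} (hQ : QC ρ B₀ Q) (S : Finset (Place L F))
    (hS : ∀ P ∈ S, h.rmap P = Q) {y : V} (hy : y ∈ B₀) (hy0 : ρ y ≠ 0) :
    ∑ P ∈ S, P.ord (ι y) ≤ Q.ord (ρ y) :=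
  h.chart0.sum_le h.toRedStr h.Q_val hQ S
    (fun P hP => by
      have := h.rmap_chart0 (P := P) (by rw [hS P hP]; exact hQ)
      rwa [hS P hP] at this) hy hy0

theorem sum_le1 {Q : Place k Fk} (hQ : QC ρ B₁ Q) (S : Finset (Place L F))
    (hS : ∀ P ∈ S, h.rmap P = Q) {y : V} (hy : y ∈ B₁) (hy0 : ρ y ≠ 0) :
    ∑ P ∈ S, P.ord (ι y) ≤ Q.ord (ρ y) :=
  h.chart1.sum_le h.toRedStr h.Q_val hQ S
    (fun P hP => by
      have := h.rmap_chart1 (P := P) (by rw [hS P hP]; exact hQ)
      rwa [hS P hP] at this) hy hy0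

end TwoCharts

end Fermat.Agent.S37.H518

end
-- ===== PACK-END S37/H518/RMap.lean

-- ===== PACK-BEGIN S37/H518/Conserve.lean
section


/-!
# S37 / RIM (helper518): conservation of number for a two-chart model

Main results (for `h : TwoCharts π ι ρ B₀ B₁ x₀ x₁`, with principal divisors of degree `0` on both
fibres):

* `TwoCharts.mapDomain_rmap_eq` : for every `y : V` with `ρ y ≠ 0`,
  `(rmap)_* div (ι y) = div (ρ y)`;
* `TwoCharts.principal_le_closure` : principal divisors are generated by the `div (ι y)`.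
-/

set_option autoImplicit false

namespace Fermat.Agent.S37.H518

open AlgebraicCurve Fermat.Agent.S24.H504 Polynomial

section Finsupp

variable {α β : Type*}

theorem mapDomain_apply_eq_sum [DecidableEq β] (r : α → β) (D : α →₀ ℤ) (Q : β) :
    Finsupp.mapDomain r D Q = ∑ P ∈ D.support with r P = Q, D P := by
  rw [Finsupp.mapDomain, Finsupp.sum_apply, Finsupp.sum, Finset.sum_filter]
  refine Finset.sum_congr rfl fun P _ => ?_
  rw [Finsupp.single_apply]

theorem sum_filter_support_eq [DecidableEq β] (r : α → β) (D : α →₀ ℤ) (Q : β) (S : Finset α)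
    (hS : D.support ⊆ S) :
    ∑ P ∈ S with r P = Q, D P = ∑ P ∈ D.support with r P = Q, D P := by
  symm
  refine Finset.sum_subset (Finset.filter_subset_filter _ hS) fun P hP hP' => ?_
  rw [Finset.mem_filter] at hP hP'
  by_contra hne
  exact hP' ⟨Finsupp.mem_support_iff.mpr hne, hP.2⟩

end Finsupp

variable {L : Type*} [Field L] {A : ValuationSubring L} {k : Type*} [Field k]
variable {F : Type*} [Field F] [Algebra L F] {Fk : Type*} [Field Fk] [Algebra k Fk]
variable {V : Type*} [CommRing V] [Algebra A V]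
variable {π : A →+* k} {ι : V →+* F} {ρ : V →+* Fk} {B₀ B₁ : Subalgebra A V} {x₀ x₁ : V}

theorem degree_eq_sum_of_deg_one {K' F' : Type*} [Field K'] [Field F'] [Algebra K' F']
    (D : Divisor K' F') (hdeg : ∀ P : Place K' F', P.deg = 1) :
    Divisor.degree D = ∑ P ∈ D.support, D P := by
  rw [Divisor.degree, Finsupp.liftAddHom_apply, Finsupp.sum]
  refine Finset.sum_congr rfl fun P _ => ?_
  simp [hdeg P]

namespace TwoCharts

variable (h : TwoCharts π ι ρ B₀ B₁ x₀ x₁)
include h

theorem iota_x₁_ne_zero : ι x₁ ≠ 0 := by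
  have : ι x₀ * ι x₁ = 1 := by rw [← map_mul, h.mul_eq_one, map_one]
  exact right_ne_zero_of_mul_eq_one this

theorem iota_x₀_ne_zero : ι x₀ ≠ 0 := by
  have : ι x₀ * ι x₁ = 1 := by rw [← map_mul, h.mul_eq_one, map_one]
  exact left_ne_zero_of_mul_eq_one this

theorem rho_x₁_ne_zero : ρ x₁ ≠ 0 := by
  have : ρ x₀ * ρ x₁ = 1 := by rw [← map_mul, h.mul_eq_one, map_one]
  exact right_ne_zero_of_mul_eq_one this

theorem rho_x₀_ne_zero : ρ x₀ ≠ 0 := by
  have : ρ x₀ * ρ x₁ = 1 := by rw [← map_mul, h.mul_eq_one, map_one]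
  exact left_ne_zero_of_mul_eq_one this

theorem ordP_x₁ (P : Place L F) : P.ord (ι x₁) = - P.ord (ι x₀) := by
  have h1 := P.ord_mul h.iota_x₀_ne_zero h.iota_x₁_ne_zero
  rw [← map_mul, h.mul_eq_one, map_one, Place.ord_one] at h1
  omega

theorem ordQ_x₁ (Q : Place k Fk) : Q.ord (ρ x₁) = - Q.ord (ρ x₀) := by
  have h1 := Q.ord_mul h.rho_x₀_ne_zero h.rho_x₁_ne_zero
  rw [← map_mul, h.mul_eq_one, map_one, Place.ord_one] at h1
  omega

theorem iota_ne_zero {y : V} (hy : ρ y ≠ 0) : ι y ≠ 0 := by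
  intro h0
  apply hy
  have : y = 0 := h.inj (by rw [h0, map_zero])
  rw [this, map_zero]

open Classical in
/-- Conservation of number for the coordinate `x₁` at places centred on the chart `B₁`:
this is where the equality of degrees `FI` enters. -/
theorem sum_fiber_x₁ [HasPrincipalDivisors k Fk] (D₁ : Divisor L F)
    (hD₁ : ∀ P, D₁ P = P.ord (ι x₁)) {Q : Place k Fk} (hQ : QC ρ B₁ Q) :
    ∑ P ∈ D₁.support with h.rmap P = Q, D₁ P = Q.ord (ρ x₁) := by
  classical
  obtain ⟨E₁, hE₁, -⟩ := HasPrincipalDivisors.exists_divisor (K := k) (ρ x₁) h.rho_x₁_ne_zero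
  have hFI := h.FI D₁ E₁ hD₁ hE₁
  have hb : ∀ P, QC ρ B₁ (h.rmap P) → 0 ≤ D₁ P := fun P hP => by
    rw [hD₁]
    exact (h.rmap_chart1 hP).1.ord_nonneg h.chart1.x_mem
  have hc : ∀ P, ¬ QC ρ B₁ (h.rmap P) → D₁ P ≤ 0 := fun P hP => by
    rw [hD₁, h.ordP_x₁]
    have h0 : QC ρ B₀ (h.rmap P) := (h.cover_Q _).resolve_right hP
    have := (h.rmap_chart0 h0).1.ord_nonneg h.chart0.x_mem
    omega
  have hd : ∀ Q', QC ρ B₁ Q' → 0 ≤ E₁ Q' := fun Q' hQ' => by
    rw [hE₁]; exact hQ' x₁ h.chart1.x_mem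
  have hd' : ∀ Q', ¬ QC ρ B₁ Q' → E₁ Q' ≤ 0 := fun Q' hQ' => by
    rw [hE₁, h.ordQ_x₁]
    have h0 : QC ρ B₀ Q' := (h.cover_Q _).resolve_right hQ'
    have := h0 x₀ h.chart0.x_mem
    omega
  set f : Place k Fk → ℤ := fun Q' =>
    if QC ρ B₁ Q' then ∑ P ∈ D₁.support with h.rmap P = Q', D₁ P else 0 with hf
  set g : Place k Fk → ℤ := fun Q' => if QC ρ B₁ Q' then E₁ Q' else 0 with hg
  set T : Finset (Place k Fk) := D₁.support.image h.rmap ∪ E₁.support with hT
  have hle : ∀ Q' ∈ T, f Q' ≤ g Q' := by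
    intro Q' _
    simp only [hf, hg]
    split_ifs with hQ'
    · have := h.sum_le1 hQ' (D₁.support.filter fun P => h.rmap P = Q')
        (fun P hP => (Finset.mem_filter.mp hP).2) h.chart1.x_mem h.rho_x₁_ne_zero
      rw [hE₁]
      calc ∑ P ∈ D₁.support with h.rmap P = Q', D₁ P
          = ∑ P ∈ D₁.support with h.rmap P = Q', P.ord (ι x₁) :=
            Finset.sum_congr rfl fun P _ => hD₁ P
        _ ≤ _ := this
    · exact le_refl _
  have hsumf : ∑ Q' ∈ T, f Q' = ∑ P ∈ D₁.support, max (D₁ P) 0 := by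
    have e1 : ∑ P ∈ D₁.support, max (D₁ P) 0
        = ∑ P ∈ D₁.support, if QC ρ B₁ (h.rmap P) then D₁ P else 0 := by
      refine Finset.sum_congr rfl fun P _ => ?_
      split_ifs with hP
      · exact max_eq_left (hb P hP)
      · exact max_eq_right (hc P hP)
    rw [e1, ← Finset.sum_fiberwise_of_maps_to (t := T) (g := h.rmap)
      (fun P hP => Finset.mem_union_left _ (Finset.mem_image_of_mem _ hP))]
    refine Finset.sum_congr rfl fun Q' _ => ?_
    simp only [hf]
    split_ifs with hQ'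
    · refine Finset.sum_congr rfl fun P hP => ?_
      rw [(Finset.mem_filter.mp hP).2, if_pos hQ']
    · symm
      refine Finset.sum_eq_zero fun P hP => ?_
      rw [(Finset.mem_filter.mp hP).2, if_neg hQ']
  have hsumg : ∑ Q' ∈ T, g Q' = ∑ Q' ∈ E₁.support, max (E₁ Q') 0 := by
    have e1 : ∑ Q' ∈ E₁.support, max (E₁ Q') 0 = ∑ Q' ∈ T, max (E₁ Q') 0 := by
      refine Finset.sum_subset Finset.subset_union_right fun Q' _ hQ' => ?_
      rw [Finsupp.notMem_support_iff.mp hQ', max_self]
    rw [e1]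
    refine Finset.sum_congr rfl fun Q' _ => ?_
    simp only [hg]
    split_ifs with hQ'
    · exact (max_eq_left (hd Q' hQ')).symm
    · exact (max_eq_right (hd' Q' hQ')).symm
  have hall := (Finset.sum_eq_sum_iff_of_le hle).mp (by rw [hsumf, hsumg, hFI])
  by_cases hQT : Q ∈ T
  · have := hall Q hQT
    simp only [hf, hg, if_pos hQ] at this
    rw [this, hE₁]
  · have h1 : Q ∉ D₁.support.image h.rmap := fun hc' => hQT (Finset.mem_union_left _ hc')
    have h2 : Q ∉ E₁.support := fun hc' => hQT (Finset.mem_union_right _ hc')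
    rw [← hE₁, Finsupp.notMem_support_iff.mp h2]
    refine Finset.sum_eq_zero fun P hP => ?_
    exfalso
    rw [Finset.mem_filter] at hP
    exact h1 (Finset.mem_image.mpr ⟨P, hP.1, hP.2⟩)

open Classical in
/-- Zeros only merge, at every place of the special fibre, for functions of the chart `B₀`. -/
theorem sum_fiber_le [HasPrincipalDivisors L F] [HasPrincipalDivisors k Fk] {a : V}
    (ha : a ∈ B₀) (ha0 : ρ a ≠ 0) (D : Divisor L F) (hD : ∀ P, D P = P.ord (ι a))
    (Q : Place k Fk) :
    ∑ P ∈ D.support with h.rmap P = Q, D P ≤ Q.ord (ρ a) := by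
  by_cases hQ0 : QC ρ B₀ Q
  · have := h.sum_le0 hQ0 (D.support.filter fun P => h.rmap P = Q)
      (fun P hP => (Finset.mem_filter.mp hP).2) ha ha0
    calc ∑ P ∈ D.support with h.rmap P = Q, D P
        = ∑ P ∈ D.support with h.rmap P = Q, P.ord (ι a) :=
          Finset.sum_congr rfl fun P _ => hD P
      _ ≤ _ := this
  · have hQ1 : QC ρ B₁ Q := (h.cover_Q Q).resolve_left hQ0
    obtain ⟨n, hn⟩ := h.trans10 a ha
    obtain ⟨D₁, hD₁, -⟩ := HasPrincipalDivisors.exists_divisor (K := L) (ι x₁) h.iota_x₁_ne_zero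
    have ha₁0 : ρ (a * x₁ ^ n) ≠ 0 := by
      rw [map_mul, map_pow]
      exact mul_ne_zero ha0 (pow_ne_zero _ h.rho_x₁_ne_zero)
    have hle := h.sum_le1 hQ1 ((D.support ∪ D₁.support).filter fun P => h.rmap P = Q)
      (fun P hP => (Finset.mem_filter.mp hP).2) hn ha₁0
    have hιa : ι a ≠ 0 := h.iota_ne_zero ha0
    have e1 : ∀ P : Place L F, P.ord (ι (a * x₁ ^ n)) = D P + n * D₁ P := fun P => by
      rw [map_mul, map_pow, P.ord_mul hιa (pow_ne_zero _ h.iota_x₁_ne_zero), ord_pow, hD, hD₁]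
    have e2 : Q.ord (ρ (a * x₁ ^ n)) = Q.ord (ρ a) + n * Q.ord (ρ x₁) := by
      rw [map_mul, map_pow, Q.ord_mul ha0 (pow_ne_zero _ h.rho_x₁_ne_zero), ord_pow]
    simp only [e1] at hle
    rw [Finset.sum_add_distrib, ← Finset.mul_sum, e2,
      sum_filter_support_eq h.rmap D Q _ Finset.subset_union_left,
      sum_filter_support_eq h.rmap D₁ Q _ Finset.subset_union_right,
      h.sum_fiber_x₁ D₁ hD₁ hQ1] at hle
    linarith

open Classical in
/-- **Conservation of number** for functions of the chart `B₀` with nonzero reduction. -/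
theorem mapDomain_rmap_eq_of_mem [HasPrincipalDivisors L F] [HasPrincipalDivisors k Fk] {a : V}
    (ha : a ∈ B₀) (ha0 : ρ a ≠ 0) (D : Divisor L F) (hD : ∀ P, D P = P.ord (ι a))
    (Q : Place k Fk) :
    Finsupp.mapDomain h.rmap D Q = Q.ord (ρ a) := by
  obtain ⟨E, hE, hEdeg⟩ := HasPrincipalDivisors.exists_divisor (K := k) (ρ a) ha0
  obtain ⟨D', hD', hD'deg⟩ :=
    HasPrincipalDivisors.exists_divisor (K := L) (ι a) (h.iota_ne_zero ha0)
  have hDD' : D = D' := Finsupp.ext fun P => by rw [hD, hD']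
  have hDdeg : Divisor.degree D = 0 := by rw [hDD']; exact hD'deg
  rw [degree_eq_sum_of_deg_one D h.degP] at hDdeg
  rw [degree_eq_sum_of_deg_one E h.degQ] at hEdeg
  set T : Finset (Place k Fk) := D.support.image h.rmap ∪ E.support with hT
  have hle : ∀ Q' ∈ T, ∑ P ∈ D.support with h.rmap P = Q', D P ≤ E Q' := fun Q' _ => by
    rw [hE]; exact h.sum_fiber_le ha ha0 D hD Q'
  have hsum1 : ∑ Q' ∈ T, ∑ P ∈ D.support with h.rmap P = Q', D P = 0 := by
    rw [Finset.sum_fiberwise_of_maps_to (t := T) (g := h.rmap) (s := D.support)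
      (fun P hP => Finset.mem_union_left _ (Finset.mem_image_of_mem _ hP)) (fun P => D P), hDdeg]
  have hsum2 : ∑ Q' ∈ T, E Q' = 0 := by
    rw [← hEdeg]
    symm
    refine Finset.sum_subset Finset.subset_union_right fun Q' _ hQ' => ?_
    exact Finsupp.notMem_support_iff.mp hQ'
  have hall := (Finset.sum_eq_sum_iff_of_le hle).mp (by rw [hsum1, hsum2])
  rw [mapDomain_apply_eq_sum]
  by_cases hQT : Q ∈ T
  · rw [hall Q hQT, hE]
  · have h1 : Q ∉ D.support.image h.rmap := fun hc' => hQT (Finset.mem_union_left _ hc')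
    have h2 : Q ∉ E.support := fun hc' => hQT (Finset.mem_union_right _ hc')
    rw [← hE, Finsupp.notMem_support_iff.mp h2]
    refine Finset.sum_eq_zero fun P hP => ?_
    exfalso
    rw [Finset.mem_filter] at hP
    exact h1 (Finset.mem_image.mpr ⟨P, hP.1, hP.2⟩)

/-- If `y b = μ a` with all three of `y, a, b` of nonzero reduction, then `μ` is a unit of `A`,
so the relation survives reduction. -/
theorem exists_unit_const {y a b : V} {μ : L} (hμ : μ ≠ 0) (hy : ρ y ≠ 0) (ha : ρ a ≠ 0)
    (hb : ρ b ≠ 0) (heq : ι y * ι b = algebraMap L F μ * ι a) :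
    ∃ c : k, c ≠ 0 ∧ ρ y * ρ b = algebraMap k Fk c * ρ a := by
  rcases A.mem_or_inv_mem μ with hμA | hμA
  · set u : A := ⟨μ, hμA⟩ with hu
    have h1 : y * b = u • a := by
      apply h.inj
      rw [map_mul, h.iota_smul, heq]
    have h2 : ρ y * ρ b = algebraMap k Fk (π u) * ρ a := by
      rw [← map_mul, h1, h.rho_smul]
    refine ⟨π u, fun h0 => ?_, h2⟩
    rw [h0, map_zero, zero_mul] at h2
    exact mul_ne_zero hy hb h2
  · set u : A := ⟨μ⁻¹, hμA⟩ with hu
    have h1 : u • (y * b) = a := by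
      apply h.inj
      rw [h.iota_smul, map_mul, heq, ← mul_assoc, ← map_mul]
      have : (u : L) * μ = 1 := inv_mul_cancel₀ hμ
      rw [this, map_one, one_mul]
    have h2 : algebraMap k Fk (π u) * (ρ y * ρ b) = ρ a := by
      rw [← map_mul, ← h.rho_smul, h1]
    have hπu : π u ≠ 0 := by
      intro h0
      rw [h0, map_zero, zero_mul] at h2
      exact ha h2.symm
    refine ⟨(π u)⁻¹, inv_ne_zero hπu, ?_⟩
    have h3 : algebraMap k Fk (π u)⁻¹ * algebraMap k Fk (π u) = 1 := by
      rw [← map_mul, inv_mul_cancel₀ hπu, map_one]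
    rw [← h2, ← mul_assoc, h3, one_mul]

/-- **Conservation of number**: `(rmap)_* div (ι y) = div (ρ y)` for every integral function `y`
with nonzero reduction. -/
theorem mapDomain_rmap_eq [HasPrincipalDivisors L F] [HasPrincipalDivisors k Fk] {y : V}
    (hy : ρ y ≠ 0) (D : Divisor L F) (hD : ∀ P, D P = P.ord (ι y)) (Q : Place k Fk) :
    Finsupp.mapDomain h.rmap D Q = Q.ord (ρ y) := by
  have hιy := h.iota_ne_zero hy
  obtain ⟨a, ha, b, hb, ha0, hb0, μ, hμ, heq⟩ := h.frac (ι y) hιy
  obtain ⟨c, hc, hceq⟩ := h.exists_unit_const hμ hy ha0 hb0 heq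
  have hιa := h.iota_ne_zero ha0
  have hιb := h.iota_ne_zero hb0
  obtain ⟨Da, hDa, -⟩ := HasPrincipalDivisors.exists_divisor (K := L) (ι a) hιa
  obtain ⟨Db, hDb, -⟩ := HasPrincipalDivisors.exists_divisor (K := L) (ι b) hιb
  have hμF : algebraMap L F μ ≠ 0 := by rwa [Ne, map_eq_zero]
  have hcF : algebraMap k Fk c ≠ 0 := by rwa [Ne, map_eq_zero]
  have hDeq : D = Da - Db := Finsupp.ext fun P => by
    rw [Finsupp.sub_apply, hD, hDa, hDb]
    have h1 := congrArg P.ord heq
    rw [P.ord_mul hιy hιb, P.ord_mul hμF hιa, ord_algebraMap] at h1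
    omega
  rw [hDeq, Finsupp.mapDomain_sub, Finsupp.sub_apply, h.mapDomain_rmap_eq_of_mem ha ha0 Da hDa,
    h.mapDomain_rmap_eq_of_mem hb hb0 Db hDb]
  have h2 := congrArg Q.ord hceq
  rw [Q.ord_mul hy hb0, Q.ord_mul hcF ha0, ord_algebraMap] at h2
  omega

/-- Principal divisors are generated by divisors of integral functions with nonzero reduction. -/
theorem principal_le_closure [HasPrincipalDivisors L F] :
    Divisor.principal (K := L) (F := F) ≤
      AddSubgroup.closure {D | ∃ y : V, ρ y ≠ 0 ∧ ∀ P : Place L F, D P = P.ord (ι y)} := by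
  rintro D ⟨f, hf, hD⟩
  obtain ⟨a, ha, b, hb, ha0, hb0, μ, hμ, heq⟩ := h.frac f hf
  have hιa := h.iota_ne_zero ha0
  have hιb := h.iota_ne_zero hb0
  obtain ⟨Da, hDa, -⟩ := HasPrincipalDivisors.exists_divisor (K := L) (ι a) hιa
  obtain ⟨Db, hDb, -⟩ := HasPrincipalDivisors.exists_divisor (K := L) (ι b) hιb
  have hμF : algebraMap L F μ ≠ 0 := by rwa [Ne, map_eq_zero]
  have hDeq : D = Da - Db := Finsupp.ext fun P => by
    rw [Finsupp.sub_apply, hD, hDa, hDb]
    have h1 := congrArg P.ord heq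
    rw [P.ord_mul hf hιb, P.ord_mul hμF hιa, ord_algebraMap] at h1
    omega
  rw [hDeq]
  exact AddSubgroup.sub_mem _ (AddSubgroup.subset_closure ⟨a, ha0, hDa⟩)
    (AddSubgroup.subset_closure ⟨b, hb0, hDb⟩)

theorem deg_rmap (P : Place L F) : (h.rmap P).deg = P.deg := by
  rw [h.degP, h.degQ]

end TwoCharts

end Fermat.Agent.S37.H518

end
-- ===== PACK-END S37/H518/Conserve.lean

-- ===== PACK-BEGIN S15/H322/BaseChar.lean
section




/-!
# Row S15 — DESC leaf BASE, part 1 (helper322): characters of `G_ℚ` unramified outside `p`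

Blueprint `coord/S15-DESC-blueprint.md` §2, the pieces with trivial Galois action (`ψ_i = 1`).

`G = Gal(ℚ̄/ℚ)`, `p` a prime, `A` a valuation subring of `ℚ̄` over `p`.

* `exists_inertia_map_eq` : a homomorphism `χ` from `G` to a commutative group, of finite level and
  unramified at every prime `q ≠ p`, satisfies `χ(G) = χ(I_A)` (Minkowski, `S13.H175`).
* `exists_generator_map` : if moreover the target is killed by a prime `r ≠ p`, then `χ(G)` is
  generated by `χ τ₀` for one `τ₀ ∈ I_A` (tame inertia is cyclic, `S56.H186`).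
* `IsCharUnrOutside p c` : `c : G → P` is additive, of finite level, unramified outside `p`.
* `IsCharUnrOutside.eq_zero_of_unram` : unramified at `p` as well ⟹ `c = 0`.
* `IsCharUnrOutside.dichotomy` : `|P| = r` prime, `r ≠ p`:  `c₁ = 0` or `c₂ = m • c₁`.
* `IsCharUnrOutside.finite_and_ncard_le` : a set of such characters with values in a group of prime
  order `r ≠ p` is finite with at most `r` elements.

Imports: `S13/H175/Minkowski`, `S56/H186/TameCyclic`, `Lib/Cheb/H476/FrobConj` (all on main).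
-/

set_option autoImplicit false

namespace Fermat.Agent.S15.H322

/-- `ℚ̄` (local abbreviation). -/
local notation "Qb" => AlgebraicClosure ℚ

/-- `Gal(ℚ̄/ℚ)` (local abbreviation). -/
local notation "GQ" => (AlgebraicClosure ℚ ≃ₐ[ℚ] AlgebraicClosure ℚ)

section Mul

variable {H : Type*} [CommGroup H] (χ : GQ →* H)

/-- **The Galois group of an abelian extension unramified outside `p` is generated by inertia at
`p`.**  For `χ` of finite level, unramified at all `q ≠ p`, and `A` over `p`: `χ(G) = χ(I_A)`. -/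
theorem exists_inertia_map_eq
    (hlevel : ∃ s : Finset Qb, ∀ σ : GQ, (∀ x ∈ s, σ x = x) → χ σ = 1)
    {p : ℕ}
    (hunr : ∀ q : ℕ, q.Prime → q ≠ p → ∃ B : ValuationSubring Qb,
      B.LiesOverPrime q ∧ ∀ σ ∈ B.inertiaSubgroupIn ℚ, χ σ = 1)
    (A : ValuationSubring Qb) (hA : A.LiesOverPrime p) (σ : GQ) :
    ∃ τ ∈ A.inertiaSubgroupIn ℚ, χ σ = χ τ := by
  set N : Subgroup H := (A.inertiaSubgroupIn ℚ).map χ with hN
  have key := Fermat.Agent.S13.H175.minkowski_character ((QuotientGroup.mk' N).comp χ)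
    (by
      obtain ⟨s, hs⟩ := hlevel
      refine ⟨s, fun τ hτ => ?_⟩
      rw [MonoidHom.comp_apply, hs τ hτ, map_one])
    (by
      intro q hq
      by_cases hqp : q = p
      · subst hqp
        refine ⟨A, hA, fun τ hτ => ?_⟩
        rw [MonoidHom.comp_apply, QuotientGroup.mk'_apply, QuotientGroup.eq_one_iff]
        exact ⟨τ, hτ, rfl⟩
      · obtain ⟨B, hB, hBχ⟩ := hunr q hq hqp
        refine ⟨B, hB, fun τ hτ => ?_⟩
        rw [MonoidHom.comp_apply, hBχ τ hτ, map_one])
    σ
  rw [MonoidHom.comp_apply, QuotientGroup.mk'_apply, QuotientGroup.eq_one_iff] at key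
  obtain ⟨τ, hτ, h⟩ := key
  exact ⟨τ, hτ, h.symm⟩

/-- **An abelian extension of exponent `r` unramified outside `p ≠ r` is cyclic.**  There is
`τ₀ ∈ I_A` with `χ(G) ⊆ ⟨χ τ₀⟩`. -/
theorem exists_generator_map
    (hlevel : ∃ s : Finset Qb, ∀ σ : GQ, (∀ x ∈ s, σ x = x) → χ σ = 1)
    {p r : ℕ} (hp : p.Prime) (hr : r.Prime) (hrp : r ≠ p)
    (hHr : ∀ σ : GQ, χ σ ^ r = 1)
    (hunr : ∀ q : ℕ, q.Prime → q ≠ p → ∃ B : ValuationSubring Qb,
      B.LiesOverPrime q ∧ ∀ σ ∈ B.inertiaSubgroupIn ℚ, χ σ = 1)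
    (A : ValuationSubring Qb) (hA : A.LiesOverPrime p) :
    ∃ τ₀ ∈ A.inertiaSubgroupIn ℚ, ∀ σ : GQ, ∃ j : ℕ, χ σ = χ τ₀ ^ j := by
  have hlevel' : ∃ E : IntermediateField ℚ Qb, FiniteDimensional ℚ E ∧
      ∀ σ : GQ, (∀ x ∈ E, σ x = x) → χ σ = 1 := by
    obtain ⟨s, hs⟩ := hlevel
    refine ⟨IntermediateField.adjoin ℚ (s : Set Qb),
      IntermediateField.finiteDimensional_adjoin
        (fun x _ => (AlgebraicClosure.isAlgebraic ℚ).isIntegral.isIntegral x),
      fun σ hσ => hs σ (fun x hx => hσ x (IntermediateField.subset_adjoin ℚ _ hx))⟩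
  have halg : Algebra.IsAlgebraic ℚ Qb := AlgebraicClosure.isAlgebraic ℚ
  obtain ⟨τ₀, hτ₀, hgen⟩ := Fermat.Agent.S56.H186.exists_generator_inertia_image A χ hA hp
    hlevel' ((Nat.coprime_primes hr hp).mpr hrp)
    (fun σ _ => ⟨1, by rw [pow_one]; exact hHr σ⟩)
  refine ⟨τ₀, hτ₀, fun σ => ?_⟩
  obtain ⟨τ, hτ, h⟩ := exists_inertia_map_eq χ hlevel hunr A hA σ
  obtain ⟨j, hj⟩ := hgen τ hτ
  exact ⟨j, h.trans hj⟩

end Mul

section Add

variable {P : Type*} [AddCommGroup P]

/-- `c : G_ℚ → P` is an additive character of finite level, unramified at every prime `q ≠ p`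
(at ONE place over each `q`; for characters this does not depend on the place). -/
structure IsCharUnrOutside (p : ℕ) (c : GQ → P) : Prop where
  map_mul : ∀ σ τ : GQ, c (σ * τ) = c σ + c τ
  level : ∃ s : Finset Qb, ∀ σ : GQ, (∀ x ∈ s, σ x = x) → c σ = 0
  unram : ∀ q : ℕ, q.Prime → q ≠ p → ∃ B : ValuationSubring Qb,
    B.LiesOverPrime q ∧ ∀ σ ∈ B.inertiaSubgroupIn ℚ, c σ = 0

namespace IsCharUnrOutside

variable {p : ℕ} {c c₁ c₂ : GQ → P}

theorem map_one (h : IsCharUnrOutside p c) : c 1 = 0 := by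
  have := h.map_mul 1 1
  rw [mul_one] at this
  exact left_eq_add.mp this

/-- The multiplicative homomorphism attached to an additive character. -/
def toHom (h : IsCharUnrOutside p c) : GQ →* Multiplicative P where
  toFun σ := Multiplicative.ofAdd (c σ)
  map_one' := by rw [h.map_one]; rfl
  map_mul' σ τ := by rw [h.map_mul]; rfl

theorem toHom_apply (h : IsCharUnrOutside p c) (σ : GQ) :
    h.toHom σ = Multiplicative.ofAdd (c σ) := rfl

/-- **Minkowski.**  A character unramified outside `p` and at `p` is trivial. -/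
theorem eq_zero_of_unram (h : IsCharUnrOutside p c)
    (hp : ∃ A : ValuationSubring Qb, A.LiesOverPrime p ∧ ∀ σ ∈ A.inertiaSubgroupIn ℚ, c σ = 0)
    (σ : GQ) : c σ = 0 := by
  have key := Fermat.Agent.S13.H175.minkowski_character h.toHom
    (by
      obtain ⟨s, hs⟩ := h.level
      exact ⟨s, fun τ hτ => by rw [toHom_apply, hs τ hτ]; rfl⟩)
    (by
      intro q hq
      by_cases hqp : q = p
      · subst hqp
        obtain ⟨A, hA, hAc⟩ := hp
        exact ⟨A, hA, fun τ hτ => by rw [toHom_apply, hAc τ hτ]; rfl⟩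
      · obtain ⟨B, hB, hBc⟩ := h.unram q hq hqp
        exact ⟨B, hB, fun τ hτ => by rw [toHom_apply, hBc τ hτ]; rfl⟩)
    σ
  rw [toHom_apply] at key
  exact Multiplicative.ofAdd.injective key

/-- The pair of two characters, as a homomorphism. -/
def pairHom (h₁ : IsCharUnrOutside p c₁) (h₂ : IsCharUnrOutside p c₂) :
    GQ →* Multiplicative (P × P) where
  toFun σ := Multiplicative.ofAdd (c₁ σ, c₂ σ)
  map_one' := by rw [h₁.map_one, h₂.map_one]; rfl
  map_mul' σ τ := by rw [h₁.map_mul, h₂.map_mul]; rfl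

theorem pairHom_apply (h₁ : IsCharUnrOutside p c₁) (h₂ : IsCharUnrOutside p c₂) (σ : GQ) :
    pairHom h₁ h₂ σ = Multiplicative.ofAdd (c₁ σ, c₂ σ) := rfl

/-- Two characters unramified outside `p`, killed by a prime `r ≠ p`, take their values on
multiples of the values at ONE inertia element `τ₀` at `p`. -/
theorem exists_common_generator (h₁ : IsCharUnrOutside p c₁) (h₂ : IsCharUnrOutside p c₂)
    {r : ℕ} (hp : p.Prime) (hr : r.Prime) (hrp : r ≠ p) (hPr : ∀ x : P, r • x = 0)
    (A : ValuationSubring Qb) (hA : A.LiesOverPrime p) :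
    ∃ τ₀ ∈ A.inertiaSubgroupIn ℚ, ∀ σ : GQ, ∃ j : ℕ, c₁ σ = j • c₁ τ₀ ∧ c₂ σ = j • c₂ τ₀ := by
  classical
  obtain ⟨τ₀, hτ₀, hgen⟩ := exists_generator_map (pairHom h₁ h₂)
    (by
      obtain ⟨s₁, hs₁⟩ := h₁.level
      obtain ⟨s₂, hs₂⟩ := h₂.level
      refine ⟨s₁ ∪ s₂, fun σ hσ => ?_⟩
      rw [pairHom_apply, hs₁ σ (fun x hx => hσ x (Finset.mem_union_left _ hx)),
        hs₂ σ (fun x hx => hσ x (Finset.mem_union_right _ hx))]
      rfl)
    hp hr hrp
    (by
      intro σ
      rw [pairHom_apply, ← ofAdd_nsmul]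
      have : r • (c₁ σ, c₂ σ) = (0 : P × P) := by
        rw [Prod.smul_mk, hPr, hPr]; rfl
      rw [this]; rfl)
    (by
      intro q hq hqp
      obtain ⟨B, hB, hB₁⟩ := h₁.unram q hq hqp
      obtain ⟨B', hB', hB₂⟩ := h₂.unram q hq hqp
      refine ⟨B, hB, fun σ hσ => ?_⟩
      have h2 : c₂ σ = 0 := by
        have := Fermat.Agent.Lib.Cheb.H476.map_inertia_eq_one_of_liesOver h₂.toHom hq hB' hB
          (fun τ hτ => by rw [toHom_apply, hB₂ τ hτ]; rfl) σ hσ
        rw [toHom_apply] at this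
        exact Multiplicative.ofAdd.injective this
      rw [pairHom_apply, hB₁ σ hσ, h2]
      rfl)
    A hA
  refine ⟨τ₀, hτ₀, fun σ => ?_⟩
  obtain ⟨j, hj⟩ := hgen σ
  refine ⟨j, ?_⟩
  rw [pairHom_apply, pairHom_apply, ← ofAdd_nsmul] at hj
  have := Multiplicative.ofAdd.injective hj
  rw [Prod.smul_mk] at this
  exact ⟨(Prod.ext_iff.mp this).1, (Prod.ext_iff.mp this).2⟩

/-- **Dimension ≤ 1.**  Two characters with values in a group of prime order `r ≠ p`, unramified
outside `p`: the first is zero or the second is a multiple of the first. -/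
theorem dichotomy (h₁ : IsCharUnrOutside p c₁) (h₂ : IsCharUnrOutside p c₂)
    {r : ℕ} (hp : p.Prime) (hr : r.Prime) (hrp : r ≠ p) (hcard : Nat.card P = r) :
    (∀ σ, c₁ σ = 0) ∨ ∃ m : ℕ, m < r ∧ ∀ σ, c₂ σ = m • c₁ σ := by
  have : Fact r.Prime := ⟨hr⟩
  have : Finite P := Nat.finite_of_card_ne_zero (by rw [hcard]; exact hr.ne_zero)
  have hPr : ∀ x : P, r • x = 0 := fun x => by
    rw [← hcard]; exact card_nsmul_eq_zero'
  obtain ⟨A, hA⟩ := Fermat.Agent.S54.exists_valuationSubring_liesOver p hp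
  obtain ⟨τ₀, -, hgen⟩ := exists_common_generator h₁ h₂ hp hr hrp hPr A hA
  by_cases h0 : c₁ τ₀ = 0
  · left
    intro σ
    obtain ⟨j, hj, -⟩ := hgen σ
    rw [hj, h0, smul_zero]
  · right
    have hmem : c₂ τ₀ ∈ AddSubgroup.zmultiples (c₁ τ₀) :=
      mem_zmultiples_of_prime_card hcard h0
    obtain ⟨m, hm⟩ := AddSubgroup.mem_zmultiples_iff.mp hmem
    -- reduce `m` modulo `r`
    have hr0 : (r : ℤ) ≠ 0 := by exact_mod_cast hr.ne_zero
    have hm0 : 0 ≤ m % (r : ℤ) := Int.emod_nonneg m hr0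
    have hmr : m % (r : ℤ) < r := Int.emod_lt_of_pos m (by exact_mod_cast hr.pos)
    refine ⟨(m % (r : ℤ)).toNat, by omega, fun σ => ?_⟩
    obtain ⟨j, hj1, hj2⟩ := hgen σ
    have hm' : ((m % (r : ℤ)).toNat : ℤ) • c₁ τ₀ = c₂ τ₀ := by
      rw [Int.toNat_of_nonneg hm0, Int.emod_def, sub_smul, hm, mul_smul, natCast_zsmul, hPr,
        sub_zero]
    rw [hj1, hj2, ← hm', natCast_zsmul, smul_comm]

/-- **Count.**  A set of characters of `G_ℚ` with values in a group of prime order `r ≠ p`, all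
unramified outside `p`, is finite and has at most `r` elements. -/
theorem finite_and_ncard_le {r : ℕ} (hp : p.Prime) (hr : r.Prime) (hrp : r ≠ p)
    (hcard : Nat.card P = r) (S : Set (GQ → P)) (hS : ∀ c ∈ S, IsCharUnrOutside p c) :
    S.Finite ∧ S.ncard ≤ r := by
  classical
  by_cases hall : ∀ c ∈ S, c = 0
  · have hsub : S ⊆ {0} := fun c hc => hall c hc
    refine ⟨(Set.finite_singleton _).subset hsub, ?_⟩
    calc S.ncard ≤ ({0} : Set (GQ → P)).ncard := Set.ncard_le_ncard hsub (Set.finite_singleton _)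
      _ = 1 := Set.ncard_singleton _
      _ ≤ r := hr.one_lt.le
  · push Not at hall
    obtain ⟨c₁, hc₁, hc₁0⟩ := hall
    have h₁ := hS c₁ hc₁
    have hsub : S ⊆ (fun m : ℕ => m • c₁) '' (Finset.range r : Set ℕ) := by
      intro c hc
      rcases dichotomy h₁ (hS c hc) hp hr hrp hcard with h0 | ⟨m, hm, hmc⟩
      · exact absurd (funext h0) hc₁0
      · exact ⟨m, Finset.mem_coe.mpr (Finset.mem_range.mpr hm), (funext hmc).symm⟩
    have hfin : ((fun m : ℕ => m • c₁) '' (Finset.range r : Set ℕ)).Finite :=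
      (Finset.finite_toSet _).image _
    refine ⟨hfin.subset hsub, ?_⟩
    calc S.ncard ≤ ((fun m : ℕ => m • c₁) '' (Finset.range r : Set ℕ)).ncard :=
          Set.ncard_le_ncard hsub hfin
      _ ≤ (Finset.range r : Set ℕ).ncard := Set.ncard_image_le (Finset.finite_toSet _)
      _ = r := by rw [Set.ncard_coe_finset, Finset.card_range]

end IsCharUnrOutside

end Add

end Fermat.Agent.S15.H322

end
-- ===== PACK-END S15/H322/BaseChar.lean

-- ===== PACK-BEGIN S19/H435/Adapter.lean
section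
/-
A3 / WP-C (helper435): adapters between Hopf lattices and the frozen A3 interface
(`Fermat.Agent.S19.OrderDatum`), and finiteness of the underlying set.
-/




set_option autoImplicit false
set_option linter.style.haveILetI false

noncomputable section

namespace Fermat.Agent.S19.H435

namespace IsHopfLattice

/-- The underlying set of a Hopf lattice is finite. -/
theorem finite {ℓ : ℕ} {M : Type*} [AddCommGroup M] {act : Gal → M → M}
    {Λ : Subalgebra (Zl ℓ) (M → _root_.Fermat.Agent.S19.H435.Qb)} (hΛ : IsHopfLattice ℓ act Λ) : Finite M := by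
  classical
  obtain ⟨S, hS⟩ := hΛ.fg
  have hSΛ : ∀ s ∈ S, s ∈ Λ := fun s hs => by
    have : s ∈ Submodule.span (Zl ℓ) (S : Set (M → _root_.Fermat.Agent.S19.H435.Qb)) := Submodule.subset_span hs
    rw [hS] at this
    exact this
  -- the values of each generator lie in a finite set
  have hfin : ∀ s : S, (Set.range (s : M → _root_.Fermat.Agent.S19.H435.Qb)).Finite := by
    intro s
    obtain ⟨p, hp, hps⟩ := IsIntegral.of_mem_of_fg Λ hΛ.fg s.1 (hSΛ s.1 s.2)
    have hp0 : p.map (algebraMap (Zl ℓ) _root_.Fermat.Agent.S19.H435.Qb) ≠ 0 := (hp.map _).ne_zero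
    refine Set.Finite.subset ((p.map (algebraMap (Zl ℓ) _root_.Fermat.Agent.S19.H435.Qb)).roots.toFinset.finite_toSet) ?_
    rintro _ ⟨m, rfl⟩
    simp only [Finset.mem_coe, Multiset.mem_toFinset, Polynomial.mem_roots hp0,
      Polynomial.IsRoot.def, Polynomial.eval_map]
    have h1 := congrFun hps m
    rw [← Polynomial.aeval_def] at h1
    have h2 : (Polynomial.aeval (s : M → _root_.Fermat.Agent.S19.H435.Qb) p) m = Polynomial.aeval ((s : M → _root_.Fermat.Agent.S19.H435.Qb) m) p := by
      have := Polynomial.aeval_algHom_apply (Pi.evalAlgHom (Zl ℓ) (fun _ : M => _root_.Fermat.Agent.S19.H435.Qb) m)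
        (s : M → _root_.Fermat.Agent.S19.H435.Qb) p
      exact this.symm
    rw [h2] at h1
    rw [← Polynomial.aeval_def]
    exact h1
  have hpi : {F : S → _root_.Fermat.Agent.S19.H435.Qb | ∀ s : S, F s ∈ Set.range s.1}.Finite := Set.Finite.pi' hfin
  let Φ : M → {F : S → _root_.Fermat.Agent.S19.H435.Qb | ∀ s : S, F s ∈ Set.range s.1} :=
    fun m => ⟨fun s => s.1 m, fun s => ⟨m, rfl⟩⟩
  have hΦ : Function.Injective Φ := by
    intro m n hmn
    by_contra hne
    obtain ⟨f, hf, hfne⟩ := hΛ.separates m n hne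
    apply hfne
    have hgen : ∀ s ∈ S, s m = s n := by
      intro s hs
      have := congrArg (fun F : {F : S → _root_.Fermat.Agent.S19.H435.Qb | ∀ s : S, F s ∈ Set.range s.1} =>
        (F : S → _root_.Fermat.Agent.S19.H435.Qb) ⟨s, hs⟩) hmn
      exact this
    have hall : ∀ g ∈ Submodule.span (Zl ℓ) (S : Set (M → _root_.Fermat.Agent.S19.H435.Qb)), g m = g n := by
      intro g hg
      induction hg using Submodule.span_induction with
      | mem s hs => exact hgen s hs
      | zero => rfl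
      | add x y _ _ hx hy => rw [Pi.add_apply, Pi.add_apply, hx, hy]
      | smul r x _ hx => rw [Pi.smul_apply, Pi.smul_apply, hx]
    exact hall f (by rw [hS]; exact hf)
  haveI := hpi.to_subtype
  exact Finite.of_injective Φ hΦ

/-- A Hopf lattice gives an order datum in the sense of the frozen A3 interface. -/
def toOrderDatum {ℓ : ℕ} {M : Type} [AddCommGroup M] {act : Gal → M → M}
    {Λ : Subalgebra (Zl ℓ) (M → _root_.Fermat.Agent.S19.H435.Qb)} (hΛ : IsHopfLattice ℓ act Λ) :
    Fermat.Agent.S19.OrderDatum ℓ M act where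
  act_add := hΛ.act_add
  gens := (Λ : Set (M → _root_.Fermat.Agent.S19.H435.Qb))
  equivariant := fun f hf => hΛ.equivariant f hf
  integral := fun _ hf m => hΛ.isIntegral_apply hf m
  separates := fun m m' h => by
    by_contra hne
    obtain ⟨f, hf, hfne⟩ := hΛ.separates m m' hne
    exact hfne (h f hf)
  add_mem := fun f hf => by
    obtain ⟨n, a, b, ha, hb, hab⟩ := hΛ.comul_mem f hf
    have : (fun p : M × M => f (p.1 + p.2)) =
        ∑ k, (fun p : M × M => a k p.1) * (fun p : M × M => b k p.2) := by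
      funext p
      rw [hab, Finset.sum_apply]
      rfl
    rw [this]
    refine Subalgebra.sum_mem _ fun k _ => Subalgebra.mul_mem _ ?_ ?_
    · exact Algebra.subset_adjoin (Or.inl ⟨a k, ha k, rfl⟩)
    · exact Algebra.subset_adjoin (Or.inr ⟨b k, hb k, rfl⟩)

/-- A Hopf lattice gives a Hopf model, given the ORD block of the frozen interface. -/
theorem hopfModel (hord : Fermat.Agent.S19.OrdStatement) {ℓ : ℕ} [Fact ℓ.Prime] {M : Type}
    [AddCommGroup M] {act : Gal → M → M} {Λ : Subalgebra (Zl ℓ) (M → _root_.Fermat.Agent.S19.H435.Qb)}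
    (hΛ : IsHopfLattice ℓ act Λ) : Fermat.Agent.S19.HopfModel ℓ M act := by
  haveI : Finite M := hΛ.finite
  exact hord ℓ M act ⟨hΛ.toOrderDatum⟩

end IsHopfLattice

end Fermat.Agent.S19.H435

end
end
-- ===== PACK-END S19/H435/Adapter.lean

-- ===== PACK-BEGIN S19/H435/OfModel.lean
section
/-
A3 / WP-C piece A (helper435): a Hopf model (frozen interface `HopfModel`) gives a Hopf lattice:
`Λ :=` image of `H` under evaluation at the points.
-/




set_option autoImplicit false
set_option linter.style.haveILetI false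

noncomputable section

namespace Fermat.Agent.S19.H435

open TensorProduct

/-- Every tensor is a `Fin`-indexed sum of pure tensors. -/
theorem exists_fin_tmul {R : Type*} [CommSemiring R] {A B : Type*} [AddCommMonoid A]
    [AddCommMonoid B] [Module R A] [Module R B] (t : A ⊗[R] B) :
    ∃ (n : ℕ) (a : Fin n → A) (b : Fin n → B), t = ∑ k, a k ⊗ₜ[R] b k := by
  induction t using TensorProduct.induction_on with
  | zero => exact ⟨0, Fin.elim0, Fin.elim0, by simp⟩
  | tmul a b => exact ⟨1, fun _ => a, fun _ => b, by simp⟩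
  | add x y hx hy =>
    obtain ⟨n, a, b, rfl⟩ := hx
    obtain ⟨m, a', b', rfl⟩ := hy
    refine ⟨n + m, Fin.append a a', Fin.append b b', ?_⟩
    rw [Fin.sum_univ_add]
    simp only [Fin.append_left, Fin.append_right]

/-- **Piece A.** A Hopf model gives a Hopf lattice. -/
theorem exists_isHopfLattice_of_hopfModel {ℓ : ℕ} {M : Type} [AddCommGroup M]
    {act : Gal → M → M} (h : Fermat.Agent.S19.HopfModel ℓ M act) :
    ∃ Λ : Subalgebra (Zl ℓ) (M → _root_.Fermat.Agent.S19.H435.Qb), IsHopfLattice ℓ act Λ := by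
  obtain ⟨H, _, _, hfin, -, -, e, hmul, hgal⟩ := h
  let ev : H →ₐ[Zl ℓ] (M → _root_.Fermat.Agent.S19.H435.Qb) := AlgHom.pi (fun m => (e.symm m).ofConv)
  have hev : ∀ (x : H) (m : M), ev x m = (e.symm m).ofConv x := fun _ _ => rfl
  refine ⟨ev.range, ?_, ?_, ?_, ?_⟩
  · -- finitely generated
    have h1 : Subalgebra.toSubmodule ev.range = Submodule.map ev.toLinearMap ⊤ := by
      ext f
      simp [AlgHom.mem_range]
    rw [h1]
    exact Submodule.FG.map _ (Module.finite_def.mp hfin)
  · -- equivariance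
    rintro _ ⟨x, rfl⟩ σ m
    show ev x (act σ m) = σ (ev x m)
    rw [hev, hev]
    let σR : _root_.Fermat.Agent.S19.H435.Qb →ₐ[Zl ℓ] _root_.Fermat.Agent.S19.H435.Qb := (σ : _root_.Fermat.Agent.S19.H435.Qb →ₐ[ℚ] _root_.Fermat.Agent.S19.H435.Qb).restrictScalars (Zl ℓ)
    let y : WithConv (H →ₐ[Zl ℓ] _root_.Fermat.Agent.S19.H435.Qb) := WithConv.toConv (σR.comp (e.symm m).ofConv)
    have hy : e y = act σ (e (e.symm m)) := hgal σ (e.symm m) y (fun _ => rfl)
    rw [Equiv.apply_symm_apply] at hy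
    rw [← hy, Equiv.symm_apply_apply]
    rfl
  · -- separation
    intro m n hmn
    by_contra hcon
    push Not at hcon
    apply hmn
    have : e.symm m = e.symm n := by
      apply WithConv.ext
      apply AlgHom.ext
      intro x
      have := hcon (ev x) ⟨x, rfl⟩
      rw [hev, hev] at this
      exact this
    exact e.symm.injective this
  · -- comultiplication
    rintro _ ⟨x, rfl⟩
    obtain ⟨n, a, b, hab⟩ := exists_fin_tmul (R := Zl ℓ) (CoalgebraStruct.comul (R := Zl ℓ) x)
    refine ⟨n, fun k => ev (a k), fun k => ev (b k), fun k => ⟨a k, rfl⟩, fun k => ⟨b k, rfl⟩, ?_⟩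
    intro s t
    have hst : e.symm (s + t) = e.symm s * e.symm t := by
      apply e.injective
      rw [hmul, Equiv.apply_symm_apply, Equiv.apply_symm_apply, Equiv.apply_symm_apply]
    show ev x (s + t) = ∑ k, ev (a k) s * ev (b k) t
    rw [hev, hst, AlgHom.convMul_apply, hab, map_sum]
    refine Finset.sum_congr rfl fun k _ => ?_
    rw [Algebra.TensorProduct.lift_tmul]
    rfl

end Fermat.Agent.S19.H435

end
end
-- ===== PACK-END S19/H435/OfModel.lean

-- ===== PACK-BEGIN S19/H435/Sub.lean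
section
/-
A3 / WP-C pieces C, D (helper435): pullback of a Hopf lattice along an injective, additive,
Galois-compatible map (sub-objects and transport along isomorphisms).
-/




set_option autoImplicit false
set_option linter.style.haveILetI false

noncomputable section

namespace Fermat.Agent.S19.H435

variable {ℓ : ℕ} {M : Type*} [AddCommGroup M] {act : Gal → M → M}
  {Λ : Subalgebra (Zl ℓ) (M → _root_.Fermat.Agent.S19.H435.Qb)}

namespace IsHopfLattice

/-- **Pieces C, D (sub-objects, transport).** Restriction of a Hopf lattice along an injective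
additive map compatible with the Galois actions. -/
theorem pullback (hΛ : IsHopfLattice ℓ act Λ) {M' : Type*} [AddCommGroup M'] (ι : M' →+ M)
    (hι : Function.Injective ι) (act' : Gal → M' → M')
    (hcompat : ∀ σ m', ι (act' σ m') = act σ (ι m')) :
    IsHopfLattice ℓ act' (Λ.map (precompAlgHom ℓ ι)) := by
  refine ⟨?_, ?_, ?_, ?_⟩
  · have h1 : Subalgebra.toSubmodule (Λ.map (precompAlgHom ℓ ι)) =
        (Subalgebra.toSubmodule Λ).map (precompAlgHom ℓ ι).toLinearMap := by
      ext f
      simp [Subalgebra.mem_map]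
    rw [h1]
    exact hΛ.fg.map _
  · rintro _ ⟨f, hf, rfl⟩ σ m'
    show f (ι (act' σ m')) = σ (f (ι m'))
    rw [hcompat]
    exact hΛ.equivariant f hf σ (ι m')
  · intro m n hmn
    obtain ⟨f, hf, hfne⟩ := hΛ.separates (ι m) (ι n) (fun h => hmn (hι h))
    exact ⟨precompAlgHom ℓ ι f, ⟨f, hf, rfl⟩, hfne⟩
  · rintro _ ⟨f, hf, rfl⟩
    obtain ⟨n, a, b, ha, hb, hab⟩ := hΛ.comul_mem f hf
    refine ⟨n, fun k => precompAlgHom ℓ ι (a k), fun k => precompAlgHom ℓ ι (b k),
      fun k => ⟨a k, ha k, rfl⟩, fun k => ⟨b k, hb k, rfl⟩, ?_⟩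
    intro x y
    show f (ι (x + y)) = ∑ k, a k (ι x) * b k (ι y)
    rw [map_add, hab]

end IsHopfLattice

section HopfModel

open Fermat.Agent.S19 (HopfModel OrdStatement)

/-- Sub-objects (and transport): Hopf models pull back along injective compatible maps. -/
theorem hopfModel_of_injective (hord : OrdStatement) {ℓ : ℕ} [Fact ℓ.Prime] {M M' : Type}
    [AddCommGroup M] [AddCommGroup M'] {act : Gal → M → M} (h : HopfModel ℓ M act)
    (ι : M' →+ M) (hι : Function.Injective ι) (act' : Gal → M' → M')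
    (hcompat : ∀ σ m', ι (act' σ m') = act σ (ι m')) : HopfModel ℓ M' act' := by
  obtain ⟨Λ, hΛ⟩ := exists_isHopfLattice_of_hopfModel h
  exact (hΛ.pullback ι hι act' hcompat).hopfModel hord

/-- Quotients: Hopf models push forward along surjective compatible maps. -/
theorem hopfModel_of_surjective (hord : OrdStatement) {ℓ : ℕ} [Fact ℓ.Prime] {M M'' : Type}
    [AddCommGroup M] [AddCommGroup M''] {act : Gal → M → M} (h : HopfModel ℓ M act)
    (π : M →+ M'') (hπ : Function.Surjective π) (act'' : Gal → M'' → M'')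
    (hcompat : ∀ σ m, act'' σ (π m) = π (act σ m)) : HopfModel ℓ M'' act'' := by
  obtain ⟨Λ, hΛ⟩ := exists_isHopfLattice_of_hopfModel h
  haveI : Finite M := hΛ.finite
  exact (hΛ.quotient π hπ act'' hcompat).hopfModel hord

/-- Subquotients of Hopf models are Hopf models. -/
theorem hopfModel_of_subquotient (hord : OrdStatement) {ℓ : ℕ} [Fact ℓ.Prime] {M M' M'' : Type}
    [AddCommGroup M] [AddCommGroup M'] [AddCommGroup M''] {act : Gal → M → M}
    (h : HopfModel ℓ M act)
    (ι : M' →+ M) (hι : Function.Injective ι) (act' : Gal → M' → M')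
    (hcompat' : ∀ σ m', ι (act' σ m') = act σ (ι m'))
    (π : M' →+ M'') (hπ : Function.Surjective π) (act'' : Gal → M'' → M'')
    (hcompat'' : ∀ σ m, act'' σ (π m) = π (act' σ m)) : HopfModel ℓ M'' act'' :=
  hopfModel_of_surjective hord (hopfModel_of_injective hord h ι hι act' hcompat') π hπ act''
    hcompat''

end HopfModel

end Fermat.Agent.S19.H435

end
end
-- ===== PACK-END S19/H435/Sub.lean

-- ===== PACK-BEGIN S15/H106/PeuGlue.lean
section



/-!
# S15 / DESC, PEU-glue: `Peu1JStatement` and `PeuOmegaJStatement` from T1 + T2 (helper106)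

Blueprint `coord/S15-DESC-blueprint.md` sec. 4.  For an Eisenstein piece `F' ≤ F ≤ J₀(p)[r]` and
`y ∈ Y(F)` (so `x = r y` is rational and the cocycle of `y` takes values in `F`), leaf **T1**
gives a Hopf model on the extension `M = E_x` of `ℤ/r` (generated by `y'`) by `J₀(p)[r]`.
The sub-object `N = ℤ y' + ι F` and its quotient `Q = N / ι F'` are Galois-stable, so `Q` carries a
Hopf model (`S19.H435.hopfModel_of_subquotient`, ORD block as a hypothesis); `Q` is generated by
`e` (a generator of `F / F'`) and `y`, and leaf **T2** applies to it verbatim.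

* `exists_subquotient_h106` : the abstract sub-quotient (action, continuity, Hopf model);
* `exists_nsmul_sub_mem_h106` : `F / F'` of prime order is generated by any `e ∉ F'`;
* `exists_piece_model_h106` : the model `Q` of the piece with its dictionary;
* `peu1J_of` : `OrdStatement → T1Statement → T2OneStatement → Peu1JStatement`;
* `peuOmegaJ_of` : `OrdStatement → T1Statement → T2OmegaStatement → PeuOmegaJStatement`.

The unconditional forms are in `Fermat/Agent/S15/H106/PeuJ.lean`.
-/

set_option autoImplicit false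
set_option linter.style.haveILetI false
set_option linter.unusedVariables false

noncomputable section

namespace Fermat.Agent.S15.H106

open Fermat.Agent.S15.H975 ModularCurve

/-! ## The abstract sub-quotient -/

/-- An additive action fixes zero. -/
theorem act_zero_glue_h106 {M : Type} [AddCommGroup M] {act : _root_.Fermat.Agent.S15.H975.Gal → M → M}
    (hc : Fermat.Agent.S19.IsContAddAction act) (σ : _root_.Fermat.Agent.S15.H975.Gal) : act σ 0 = 0 := by
  have h := hc.act_add σ 0 0
  rw [add_zero] at h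
  exact left_eq_add.mp h

/-- The additive map of an additive action. -/
def actHom_h106 {M : Type} [AddCommGroup M] {act : _root_.Fermat.Agent.S15.H975.Gal → M → M}
    (hc : Fermat.Agent.S19.IsContAddAction act) (σ : _root_.Fermat.Agent.S15.H975.Gal) : M →+ M :=
  AddMonoidHom.mk' (act σ) (hc.act_add σ)

theorem actHom_h106_apply {M : Type} [AddCommGroup M] {act : _root_.Fermat.Agent.S15.H975.Gal → M → M}
    (hc : Fermat.Agent.S19.IsContAddAction act) (σ : _root_.Fermat.Agent.S15.H975.Gal) (m : M) :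
    actHom_h106 hc σ m = act σ m := rfl

theorem act_sub_glue_h106 {M : Type} [AddCommGroup M] {act : _root_.Fermat.Agent.S15.H975.Gal → M → M}
    (hc : Fermat.Agent.S19.IsContAddAction act) (σ : _root_.Fermat.Agent.S15.H975.Gal) (a b : M) :
    act σ (a - b) = act σ a - act σ b :=
  map_sub (actHom_h106 hc σ) a b

theorem act_zsmul_glue_h106 {M : Type} [AddCommGroup M] {act : _root_.Fermat.Agent.S15.H975.Gal → M → M}
    (hc : Fermat.Agent.S19.IsContAddAction act) (σ : _root_.Fermat.Agent.S15.H975.Gal) (k : ℤ) (a : M) :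
    act σ (k • a) = k • act σ a :=
  map_zsmul (actHom_h106 hc σ) k a

theorem act_nsmul_glue_h106 {M : Type} [AddCommGroup M] {act : _root_.Fermat.Agent.S15.H975.Gal → M → M}
    (hc : Fermat.Agent.S19.IsContAddAction act) (σ : _root_.Fermat.Agent.S15.H975.Gal) (k : ℕ) (a : M) :
    act σ (k • a) = k • act σ a :=
  map_nsmul (actHom_h106 hc σ) k a

/-- **Sub-quotients.**  For stable subgroups `N' ≤ N` of a module with a Hopf model, the quotient
`N / N'` with the induced action is a continuous additive action with a Hopf model. -/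
theorem exists_subquotient_h106 (hord : Fermat.Agent.S19.OrdStatement) {r : ℕ} [Fact r.Prime]
    {M : Type} [AddCommGroup M] [Finite M] {act : _root_.Fermat.Agent.S15.H975.Gal → M → M}
    (hc : Fermat.Agent.S19.IsContAddAction act) (hH : Fermat.Agent.S19.HopfModel r M act)
    (N N' : AddSubgroup M)
    (hN : ∀ σ, ∀ n ∈ N, act σ n ∈ N) (hN' : ∀ σ, ∀ n ∈ N', act σ n ∈ N') :
    ∃ (Q : Type) (_ : AddCommGroup Q) (_ : Finite Q) (actQ : _root_.Fermat.Agent.S15.H975.Gal → Q → Q) (π : ↥N →+ Q),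
      Fermat.Agent.S19.IsContAddAction actQ ∧ Fermat.Agent.S19.HopfModel r Q actQ ∧
      Function.Surjective π ∧ (∀ n : ↥N, π n = 0 ↔ (n : M) ∈ N') ∧
      (∀ (σ : _root_.Fermat.Agent.S15.H975.Gal) (n : ↥N), actQ σ (π n) = π ⟨act σ n, hN σ n n.2⟩) := by
  classical
  let actN : _root_.Fermat.Agent.S15.H975.Gal → ↥N → ↥N := fun σ n => ⟨act σ n, hN σ n n.2⟩
  let actNHom : _root_.Fermat.Agent.S15.H975.Gal → (↥N →+ ↥N) := fun σ =>
    AddMonoidHom.mk' (actN σ) (fun a b => Subtype.ext (hc.act_add σ a b))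
  let K : AddSubgroup ↥N := N'.addSubgroupOf N
  have hK : ∀ σ, K ≤ K.comap (actNHom σ) := by
    intro σ n hn
    have h1 : (n : M) ∈ N' := AddSubgroup.mem_addSubgroupOf.mp hn
    exact AddSubgroup.mem_addSubgroupOf.mpr (hN' σ n h1)
  let actQ : _root_.Fermat.Agent.S15.H975.Gal → (↥N ⧸ K) → (↥N ⧸ K) := fun σ =>
    QuotientAddGroup.map K K (actNHom σ) (hK σ)
  have hactQ : ∀ (σ : _root_.Fermat.Agent.S15.H975.Gal) (n : ↥N), actQ σ (QuotientAddGroup.mk n) =
      QuotientAddGroup.mk (actN σ n) := fun σ n => rfl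
  refine ⟨↥N ⧸ K, inferInstance, inferInstance, actQ, QuotientAddGroup.mk' K, ?_, ?_,
    QuotientAddGroup.mk'_surjective K, ?_, fun σ n => rfl⟩
  · refine ⟨?_, ?_, ?_, ?_⟩
    · intro m
      obtain ⟨n, rfl⟩ := QuotientAddGroup.mk_surjective m
      rw [hactQ]
      exact congrArg _ (Subtype.ext (hc.act_one n))
    · intro σ τ m
      obtain ⟨n, rfl⟩ := QuotientAddGroup.mk_surjective m
      rw [hactQ, hactQ, hactQ]
      exact congrArg _ (Subtype.ext (hc.act_mul σ τ n))
    · intro σ m m'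
      exact map_add (QuotientAddGroup.map K K (actNHom σ) (hK σ)) m m'
    · intro m
      obtain ⟨n, rfl⟩ := QuotientAddGroup.mk_surjective m
      obtain ⟨L, hL, hLσ⟩ := hc.cont (n : M)
      refine ⟨L, hL, fun σ hσ => ?_⟩
      rw [hactQ]
      exact congrArg _ (Subtype.ext (hLσ σ hσ))
  · exact Fermat.Agent.S19.H435.hopfModel_of_subquotient hord hH N.subtype
      Subtype.val_injective actN (fun σ n => rfl) (QuotientAddGroup.mk' K)
      (QuotientAddGroup.mk'_surjective K) actQ (fun σ n => rfl)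
  · intro n
    exact (QuotientAddGroup.eq_zero_iff n).trans AddSubgroup.mem_addSubgroupOf

/-! ## Pieces of prime index -/

/-- If `F'` has prime index `r` in `F` and `e ∈ F ∖ F'`, then `F = F' + ℕ e`. -/
theorem exists_nsmul_sub_mem_h106 {J : Type} [AddCommGroup J] (r : ℕ) [Fact r.Prime]
    (F' F : AddSubgroup J) (hidx : F'.relIndex F = r) (e : J) (he : e ∈ F) (he' : e ∉ F')
    (f : J) (hf : f ∈ F) : ∃ m : ℕ, f - m • e ∈ F' := by
  have hcard : Nat.card (↥F ⧸ F'.addSubgroupOf F) = r := hidx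
  have hne : (QuotientAddGroup.mk (⟨e, he⟩ : ↥F) : ↥F ⧸ F'.addSubgroupOf F) ≠ 0 := by
    intro h
    exact he' (AddSubgroup.mem_addSubgroupOf.mp ((QuotientAddGroup.eq_zero_iff _).mp h))
  have hmem := mem_multiples_of_prime_card hcard hne
    (g' := (QuotientAddGroup.mk (⟨f, hf⟩ : ↥F) : ↥F ⧸ F'.addSubgroupOf F))
  obtain ⟨m, hm⟩ := hmem
  have hm : m • (QuotientAddGroup.mk (⟨e, he⟩ : ↥F) : ↥F ⧸ F'.addSubgroupOf F) =
      QuotientAddGroup.mk (⟨f, hf⟩ : ↥F) := hm
  refine ⟨m, ?_⟩
  have h2 : (QuotientAddGroup.mk ((⟨f, hf⟩ : ↥F) - m • (⟨e, he⟩ : ↥F)) :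
      ↥F ⧸ F'.addSubgroupOf F) = 0 := by
    rw [QuotientAddGroup.mk_sub, QuotientAddGroup.mk_nsmul, hm, sub_self]
  have h3 := AddSubgroup.mem_addSubgroupOf.mp ((QuotientAddGroup.eq_zero_iff _).mp h2)
  simpa using h3

/-- Integer multiples of an element killed by `r` are natural multiples. -/
theorem exists_nsmul_eq_zsmul_h106 {J : Type} [AddCommGroup J] (r : ℕ) (hr : 0 < r) (a : J)
    (ha : r • a = 0) (k : ℤ) : ∃ j : ℕ, j • a = k • a := by
  refine ⟨(k % (r : ℤ)).toNat, ?_⟩
  have hr' : (r : ℤ) ≠ 0 := by exact_mod_cast hr.ne'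
  have h1 : ((k % (r : ℤ)).toNat : ℤ) = k % (r : ℤ) :=
    Int.toNat_of_nonneg (Int.emod_nonneg k hr')
  have h2 : k • a = (k % (r : ℤ)) • a := by
    conv_lhs => rw [← Int.emod_add_mul_ediv k (r : ℤ)]
    rw [add_smul, mul_smul, natCast_zsmul, smul_comm, ha, smul_zero, add_zero]
  calc (k % (r : ℤ)).toNat • a = ((k % (r : ℤ)).toNat : ℤ) • a := (natCast_zsmul _ _).symm
    _ = (k % (r : ℤ)) • a := by rw [h1]
    _ = k • a := h2.symm

/-! ## The model of a piece -/

section Abs

variable {r : ℕ} {J : Type} [AddCommGroup J] (g : _root_.Fermat.Agent.S15.H975.Gal → J → J) (T F' F : AddSubgroup J)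
  {M : Type} [AddCommGroup M] (act : _root_.Fermat.Agent.S15.H975.Gal → M → M) (ι : ↥T →+ M) (y' : M)

/-- `ι` of a difference `a - k b` computed in `J`. -/
theorem iota_sub_nsmul_h106 (a b : ↥T) (k : ℕ) (h : (a : J) - k • (b : J) ∈ T) :
    ι ⟨(a : J) - k • (b : J), h⟩ = ι a - k • ι b := by
  have h1 : (⟨(a : J) - k • (b : J), h⟩ : ↥T) = a - k • b := Subtype.ext rfl
  rw [h1]
  exact (map_sub ι a (k • b)).trans (congrArg (fun t => ι a - t) (map_nsmul ι k b))

/-- **The two subgroups** `N' = ι F' ≤ N = ℤ y' + ι F` of `M`, with their membership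
characterisations and their stability. -/
theorem exists_subgroups_h106 (hle : F' ≤ F) (hFt : F ≤ T)
    (hF' : ∀ σ, ∀ f ∈ F', g σ f ∈ F') (hF : ∀ σ, ∀ f ∈ F, g σ f ∈ F)
    (y : J) (hy : ∀ σ, g σ y - y ∈ F)
    (hc : Fermat.Agent.S19.IsContAddAction act) (hιinj : Function.Injective ι)
    (hιact : ∀ (σ : _root_.Fermat.Agent.S15.H975.Gal) (w w' : ↥T), (w' : J) = g σ (w : J) → act σ (ι w) = ι w')
    (hyact : ∀ (σ : _root_.Fermat.Agent.S15.H975.Gal) (w : ↥T), (w : J) = g σ y - y → act σ y' = y' + ι w) :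
    ∃ N N' : AddSubgroup M,
      (∀ w : ↥T, ι w ∈ N' ↔ (w : J) ∈ F') ∧
      (∀ n ∈ N', ∃ w : ↥T, (w : J) ∈ F' ∧ ι w = n) ∧
      (∀ w : ↥T, (w : J) ∈ F → ι w ∈ N) ∧ y' ∈ N ∧
      (∀ n ∈ N, ∃ (k : ℤ) (w : ↥T), (w : J) ∈ F ∧ n = k • y' + ι w) ∧
      (∀ σ, ∀ n ∈ N, act σ n ∈ N) ∧ (∀ σ, ∀ n ∈ N', act σ n ∈ N') := by
  have hmemN' : ∀ w : ↥T, ι w ∈ (F'.addSubgroupOf T).map ι ↔ (w : J) ∈ F' := by
    intro w
    constructor
    · rintro ⟨w', hw', hww'⟩
      rw [← hιinj hww']
      exact AddSubgroup.mem_addSubgroupOf.mp hw'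
    · intro hw
      exact ⟨w, AddSubgroup.mem_addSubgroupOf.mpr hw, rfl⟩
  have hN'range : ∀ n ∈ (F'.addSubgroupOf T).map ι, ∃ w : ↥T, (w : J) ∈ F' ∧ ι w = n := by
    rintro n ⟨w, hw, rfl⟩
    exact ⟨w, AddSubgroup.mem_addSubgroupOf.mp hw, rfl⟩
  have hιN : ∀ w : ↥T, (w : J) ∈ F →
      ι w ∈ AddSubgroup.zmultiples y' ⊔ (F.addSubgroupOf T).map ι := fun w hw =>
    AddSubgroup.mem_sup_right ⟨w, AddSubgroup.mem_addSubgroupOf.mpr hw, rfl⟩
  have hy'N : y' ∈ AddSubgroup.zmultiples y' ⊔ (F.addSubgroupOf T).map ι :=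
    AddSubgroup.mem_sup_left (AddSubgroup.mem_zmultiples y')
  have hdec : ∀ n ∈ AddSubgroup.zmultiples y' ⊔ (F.addSubgroupOf T).map ι,
      ∃ (k : ℤ) (w : ↥T), (w : J) ∈ F ∧ n = k • y' + ι w := by
    intro n hn
    obtain ⟨a, ha, b, hb, rfl⟩ := AddSubgroup.mem_sup.mp hn
    obtain ⟨k, rfl⟩ := AddSubgroup.mem_zmultiples_iff.mp ha
    obtain ⟨w, hw, rfl⟩ := hb
    exact ⟨k, w, AddSubgroup.mem_addSubgroupOf.mp hw, rfl⟩
  refine ⟨AddSubgroup.zmultiples y' ⊔ (F.addSubgroupOf T).map ι, (F'.addSubgroupOf T).map ι,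
    hmemN', hN'range, hιN, hy'N, hdec, ?_, ?_⟩
  · intro σ n hn
    obtain ⟨k, w, hwF, rfl⟩ := hdec n hn
    have h1 : g σ (w : J) ∈ F := hF σ _ hwF
    have h2 : act σ (ι w) = ι ⟨g σ (w : J), hFt h1⟩ := hιact σ w ⟨_, hFt h1⟩ rfl
    have h3 : act σ y' = y' + ι ⟨g σ y - y, hFt (hy σ)⟩ := hyact σ ⟨_, hFt (hy σ)⟩ rfl
    rw [hc.act_add, act_zsmul_glue_h106 hc, h2, h3]
    exact AddSubgroup.add_mem _
      (AddSubgroup.zsmul_mem _ (AddSubgroup.add_mem _ hy'N (hιN _ (hy σ))) k) (hιN _ h1)
  · intro σ n hn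
    obtain ⟨w, hw, rfl⟩ := hN'range n hn
    have h1 : g σ (w : J) ∈ F' := hF' σ _ hw
    have h2 : act σ (ι w) = ι ⟨g σ (w : J), hFt (hle h1)⟩ := hιact σ w ⟨_, hFt (hle h1)⟩ rfl
    rw [h2]
    exact (hmemN' _).mpr h1

/-- **The model of a piece, abstract form.** -/
theorem exists_piece_model_abs_h106 (hord : Fermat.Agent.S19.OrdStatement) (hr : r.Prime)
    [Finite M] (hle : F' ≤ F) (hFt : F ≤ T) (hTr : ∀ t ∈ T, r • t = 0)
    (hF' : ∀ σ, ∀ f ∈ F', g σ f ∈ F') (hF : ∀ σ, ∀ f ∈ F, g σ f ∈ F)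
    (hidx : F'.relIndex F = r) (e : J) (he : e ∈ F) (he' : e ∉ F')
    (y : J) (hy : ∀ σ, g σ y - y ∈ F)
    (hc : Fermat.Agent.S19.IsContAddAction act) (hH : Fermat.Agent.S19.HopfModel r M act)
    (hιinj : Function.Injective ι) (hry' : r • y' = 0)
    (hind : ∀ j : ℕ, j • y' ∈ ι.range → r ∣ j)
    (hιact : ∀ (σ : _root_.Fermat.Agent.S15.H975.Gal) (w w' : ↥T), (w' : J) = g σ (w : J) → act σ (ι w) = ι w')
    (hyact : ∀ (σ : _root_.Fermat.Agent.S15.H975.Gal) (w : ↥T), (w : J) = g σ y - y → act σ y' = y' + ι w) :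
    ∃ (Q : Type) (_ : AddCommGroup Q) (_ : Finite Q) (actQ : _root_.Fermat.Agent.S15.H975.Gal → Q → Q) (eQ yQ : Q),
      Fermat.Agent.S19.IsContAddAction actQ ∧ Fermat.Agent.S19.HopfModel r Q actQ ∧
      r • eQ = 0 ∧ r • yQ = 0 ∧ eQ ≠ 0 ∧
      (∀ j : ℕ, j • yQ ∈ AddSubgroup.zmultiples eQ → r ∣ j) ∧
      (∀ q : Q, ∃ i j : ℕ, q = i • eQ + j • yQ) ∧
      (∀ (σ : _root_.Fermat.Agent.S15.H975.Gal) (k : ℕ), g σ e - k • e ∈ F' → actQ σ eQ = k • eQ) ∧
      (∀ (σ : _root_.Fermat.Agent.S15.H975.Gal) (m : ℕ), g σ y - y - m • e ∈ F' → actQ σ yQ = yQ + m • eQ) ∧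
      (∀ σ : _root_.Fermat.Agent.S15.H975.Gal, actQ σ yQ = yQ → g σ y - y ∈ F') := by
  classical
  haveI : Fact r.Prime := ⟨hr⟩
  obtain ⟨N, N', hmemN', hN'range, hιN, hy'N, hdec, hNst, hN'st⟩ :=
    exists_subgroups_h106 g T F' F act ι y' hle hFt hF' hF y hy hc hιinj hιact hyact
  obtain ⟨Q, iQ, fQ, actQ, π, hcQ, hHQ, hπsurj, hπ0, hπact⟩ :=
    exists_subquotient_h106 hord hc hH N N' hNst hN'st
  have heT : e ∈ T := hFt he
  obtain ⟨eT, heTdef⟩ : ∃ eT : ↥T, (eT : J) = e := ⟨⟨e, heT⟩, rfl⟩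
  obtain ⟨eN, heN⟩ : ∃ eN : ↥N, (eN : M) = ι eT := ⟨⟨ι eT, hιN eT (heTdef ▸ he)⟩, rfl⟩
  obtain ⟨yN, hyN⟩ : ∃ yN : ↥N, (yN : M) = y' := ⟨⟨y', hy'N⟩, rfl⟩
  have hreT : r • eT = 0 := Subtype.ext (hTr _ eT.2)
  have hacty : ∀ σ : _root_.Fermat.Agent.S15.H975.Gal, act σ y' = y' + ι ⟨g σ y - y, hFt (hy σ)⟩ :=
    fun σ => hyact σ ⟨_, hFt (hy σ)⟩ rfl
  -- equality in `Q` from a difference in `ι F'`
  have hπeq : ∀ (n₁ n₂ : ↥N) (w : ↥T), (w : J) ∈ F' → (n₁ : M) = (n₂ : M) + ι w →
      π n₁ = π n₂ := by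
    intro n₁ n₂ w hw h
    have h2 : ((n₁ - n₂ : ↥N) : M) = ι w := by
      rw [AddSubgroup.coe_sub, h, add_sub_cancel_left]
    have h1 : π (n₁ - n₂) = 0 := (hπ0 _).mpr (h2 ▸ (hmemN' w).mpr hw)
    rw [map_sub] at h1
    exact sub_eq_zero.mp h1
  have hπne : ∀ (n₁ n₂ : ↥N), π n₁ = π n₂ →
      ∃ w : ↥T, (w : J) ∈ F' ∧ (n₁ : M) = (n₂ : M) + ι w := by
    intro n₁ n₂ h
    have h1 : π (n₁ - n₂) = 0 := by rw [map_sub, h, sub_self]
    have h2 := (hπ0 _).mp h1
    obtain ⟨w, hw, hww⟩ := hN'range _ h2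
    refine ⟨w, hw, ?_⟩
    rw [hww, AddSubgroup.coe_sub, add_sub_cancel]
  refine ⟨Q, iQ, fQ, actQ, π eN, π yN, hcQ, hHQ, ?_, ?_, ?_, ?_, ?_, ?_, ?_, ?_⟩
  · -- `r • eQ = 0`
    have h1 : r • eN = 0 := by
      apply Subtype.ext
      rw [AddSubgroup.coe_nsmul, heN, ← map_nsmul, hreT, map_zero]
      rfl
    rw [← map_nsmul, h1, map_zero]
  · -- `r • yQ = 0`
    have h1 : r • yN = 0 := by
      apply Subtype.ext
      rw [AddSubgroup.coe_nsmul, hyN, hry']
      rfl
    rw [← map_nsmul, h1, map_zero]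
  · -- `eQ ≠ 0`
    intro h
    have h1 := (hπ0 _).mp h
    rw [heN] at h1
    exact he' (heTdef ▸ (hmemN' eT).mp h1)
  · -- independence
    intro j hj
    obtain ⟨k, hk⟩ := AddSubgroup.mem_zmultiples_iff.mp hj
    have h1 : π (j • yN) = π (k • eN) := by rw [map_nsmul, map_zsmul, hk]
    obtain ⟨w, -, hw⟩ := hπne _ _ h1
    rw [AddSubgroup.coe_nsmul, AddSubgroup.coe_zsmul, hyN, heN] at hw
    apply hind j
    refine ⟨k • eT + w, ?_⟩
    rw [hw, map_add, map_zsmul]
  · -- generation
    intro q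
    obtain ⟨n, rfl⟩ := hπsurj q
    obtain ⟨k, w, hwF, hn⟩ := hdec _ n.2
    obtain ⟨j, hj⟩ := exists_nsmul_eq_zsmul_h106 r hr.pos y' hry' k
    obtain ⟨m, hm⟩ := exists_nsmul_sub_mem_h106 r F' F hidx e he he' (w : J) hwF
    rw [← heTdef] at hm
    refine ⟨m, j, ?_⟩
    rw [← map_nsmul, ← map_nsmul, ← map_add]
    refine hπeq n (m • eN + j • yN) ⟨(w : J) - m • (eT : J), hFt (hle hm)⟩ hm ?_
    rw [iota_sub_nsmul_h106 T ι w eT m, AddSubgroup.coe_add, AddSubgroup.coe_nsmul,
      AddSubgroup.coe_nsmul, heN, hyN, hn, hj]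
    abel
  · -- the action on `eQ`
    intro σ k hk
    rw [← heTdef] at hk
    have hσe : g σ (eT : J) ∈ T := hFt (hF σ _ (heTdef ▸ he))
    have h1 : act σ (ι eT) = ι ⟨g σ (eT : J), hσe⟩ := hιact σ eT ⟨_, hσe⟩ rfl
    have h2 : ι ⟨g σ (eT : J) - k • (eT : J), hFt (hle hk)⟩ = ι ⟨g σ (eT : J), hσe⟩ - k • ι eT :=
      iota_sub_nsmul_h106 T ι ⟨g σ (eT : J), hσe⟩ eT k (hFt (hle hk))
    calc actQ σ (π eN) = π ⟨act σ eN, hNst σ eN eN.2⟩ := hπact σ eN
      _ = π (k • eN) := by
          refine hπeq _ _ ⟨g σ (eT : J) - k • (eT : J), hFt (hle hk)⟩ hk ?_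
          show act σ (eN : M) = ((k • eN : ↥N) : M) + _
          rw [h2, AddSubgroup.coe_nsmul, heN, h1]
          abel
      _ = k • π eN := map_nsmul π k eN
  · -- the action on `yQ`
    intro σ m hm
    rw [← heTdef] at hm
    have h2 : ι ⟨g σ y - y - m • (eT : J), hFt (hle hm)⟩ =
        ι ⟨g σ y - y, hFt (hy σ)⟩ - m • ι eT :=
      iota_sub_nsmul_h106 T ι ⟨g σ y - y, hFt (hy σ)⟩ eT m (hFt (hle hm))
    calc actQ σ (π yN) = π ⟨act σ yN, hNst σ yN yN.2⟩ := hπact σ yN
      _ = π (yN + m • eN) := by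
          refine hπeq _ _ ⟨g σ y - y - m • (eT : J), hFt (hle hm)⟩ hm ?_
          show act σ (yN : M) = ((yN + m • eN : ↥N) : M) + _
          rw [h2, AddSubgroup.coe_add, AddSubgroup.coe_nsmul, heN, hyN, hacty σ]
          abel
      _ = π yN + m • π eN := by rw [map_add, map_nsmul]
  · -- the converse for `yQ`
    intro σ h
    rw [hπact] at h
    obtain ⟨w, hw, hww⟩ := hπne _ _ h
    have h1 : act σ y' = y' + ι w := by
      have h0 : act σ (yN : M) = (yN : M) + ι w := hww
      rwa [hyN] at h0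
    rw [hacty σ] at h1
    have h2 : (⟨g σ y - y, hFt (hy σ)⟩ : ↥T) = w := hιinj (add_left_cancel h1)
    have h3 : g σ y - y = (w : J) := congrArg Subtype.val h2
    rw [h3]
    exact hw

end Abs

/-- **The model of the piece `F / F'` attached to `y ∈ Y(F)`**: a finite Galois module `Q` with a
Hopf model over `ℤ_(r)`, generated by `eQ` (the class of `e`) and `yQ` (the class of the point
`y'` of `E_x`, `x = r y`), with the dictionary between the action on `Q` and the cocycle of
`y`. -/
theorem exists_piece_model_h106 (hord : Fermat.Agent.S19.OrdStatement) (hT1 : T1Statement)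
    (p : ℕ) [NeZero p] (hp : p.Prime) (r : ℕ) (hr : r.Prime) (hrp : r ≠ p)
    (F' F : AddSubgroup (JZero p)) (hle : F' ≤ F) (hFt : F ≤ tors p r)
    (hF' : IsStable p F') (hF : IsStable p F) (hidx : F'.relIndex F = r)
    (e : JZero p) (he : e ∈ F) (he' : e ∉ F') (y : JZero p) (hy : y ∈ sel p r F) :
    ∃ (Q : Type) (_ : AddCommGroup Q) (_ : Finite Q) (actQ : _root_.Fermat.Agent.S15.H975.Gal → Q → Q) (eQ yQ : Q),
      Fermat.Agent.S19.IsContAddAction actQ ∧ Fermat.Agent.S19.HopfModel r Q actQ ∧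
      r • eQ = 0 ∧ r • yQ = 0 ∧ eQ ≠ 0 ∧
      (∀ j : ℕ, j • yQ ∈ AddSubgroup.zmultiples eQ → r ∣ j) ∧
      (∀ q : Q, ∃ i j : ℕ, q = i • eQ + j • yQ) ∧
      (∀ (σ : _root_.Fermat.Agent.S15.H975.Gal) (k : ℕ), σ • e - k • e ∈ F' → actQ σ eQ = k • eQ) ∧
      (∀ (σ : _root_.Fermat.Agent.S15.H975.Gal) (m : ℕ), σ • y - y - m • e ∈ F' → actQ σ yQ = yQ + m • eQ) ∧
      (∀ σ : _root_.Fermat.Agent.S15.H975.Gal, actQ σ yQ = yQ → σ • y - y ∈ F') := by
  obtain ⟨M, iM, fM, act, ι, y', hc, hH, hιinj, hry', hind, -, hιact, hyact⟩ :=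
    hT1 p hp r hr hrp y hy.1
  exact exists_piece_model_abs_h106 (fun (σ : _root_.Fermat.Agent.S15.H975.Gal) (x : JZero p) => σ • x) (tors p r) F' F act ι
    y' hord hr hle hFt (fun t ht => ht) hF' hF hidx e he he' y hy.2 hc hH hιinj hry' hind
    hιact hyact

/-! ## The two glue leaves -/

/-- **PEU-1 on `J`** from T1 and T2-1. -/
theorem peu1J_of (hord : Fermat.Agent.S19.OrdStatement) (hT1 : T1Statement)
    (hT2 : T2OneStatement) : Peu1JStatement := by
  intro p _ hp r hr hrp hr2 A hA τ hτ F' F hle hFt hF' hF hidx htriv y hy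
  haveI : Fact r.Prime := ⟨hr⟩
  -- an element of `F ∖ F'`
  obtain ⟨e, he, he'⟩ : ∃ e ∈ F, e ∉ F' := by
    by_contra hcon
    push Not at hcon
    have h1 : F'.relIndex F = 1 := AddSubgroup.relIndex_eq_one.mpr hcon
    rw [hidx] at h1
    exact hr.one_lt.ne' h1
  obtain ⟨Q, iQ, fQ, actQ, eQ, yQ, hcQ, hHQ, hreQ, hryQ, -, -, hgenQ, hdicte, hdicty, hconv⟩ :=
    exists_piece_model_h106 hord hT1 p hp r hr hrp F' F hle hFt hF' hF hidx e he he' y hy
  apply hconv τ
  refine hT2 r hr hr2 Q iQ fQ actQ hcQ hHQ eQ yQ hreQ hryQ hgenQ ?_ ?_ A hA τ hτ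
  · intro σ
    have h1 := hdicte σ 1 (by rw [one_smul]; exact htriv σ e he)
    rwa [one_smul] at h1
  · intro σ
    obtain ⟨m, hm⟩ := exists_nsmul_sub_mem_h106 r F' F hidx e he he' (σ • y - y) (hy.2 σ)
    exact ⟨m, hdicty σ m hm⟩

/-- **PEU-ω on `J`** from T1 and T2-ω. -/
theorem peuOmegaJ_of (hord : Fermat.Agent.S19.OrdStatement) (hT1 : T1Statement)
    (hT2 : T2OmegaStatement) : PeuOmegaJStatement := by
  intro p _ hp r hr hrp F' F hle hFt hF' hF hidx ζ hζ hω e he he' y hy a α ha hα hκ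
  obtain ⟨Q, iQ, fQ, actQ, eQ, yQ, hcQ, hHQ, hreQ, hryQ, heQ0, hindQ, hgenQ, hdicte, hdicty, -⟩ :=
    exists_piece_model_h106 hord hT1 p hp r hr hrp F' F hle hFt hF' hF hidx e he he' y hy
  exact hT2 r hr Q iQ fQ actQ hcQ hHQ eQ yQ hreQ hryQ heQ0 hindQ hgenQ ζ hζ
    (fun σ k hk => hdicte σ k (hω σ k hk e he)) a α ha hα
    (fun σ m hm => hdicty σ m (hκ σ m hm))

end Fermat.Agent.S15.H106

end

end
-- ===== PACK-END S15/H106/PeuGlue.lean

-- ===== PACK-BEGIN A3/H75/DiscOfCons.lean
section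



/-!
# A3 / LOCAL / DISC (helper75): the disc algebra of a residue disc, from conservation of zeros

Dictionary (i) of `coord/A3-LOCAL-helper799.md` §3'.

Input (`ConsInput A F k Fk`): `A` a valuation subring of `K`, `F/K` a function field (`FF1`),
`V` a valuation subring of `F` with `A ⊆ V`, `𝔪_A ⊆ 𝔪_V` (the Gauss valuation), a reduction map
`ρ : V → F_k` with kernel `𝔪_V`, compatible with a residue map `π : A → k`, a map
`r : Place K F → Place k F_k` and **conservation of zeros** (CONS, in the Prelude form of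
`IsPlaceReductionAlong`): `r_* (div u) = div (ρ u)` for `u ∈ V`, `ρ u ≠ 0`.

For a place `Q` of `F_k` and a parameter `t ∈ V`, regular on the residue disc `r⁻¹ Q`, with
`ord_Q (ρ t) = 1` (`DiscParam`):

* `exists_unique_center` : for `a ∈ 𝔪_A` there is exactly one place `P` in the disc with
  `t(P) = a`, and `ord_P (t - a) = 1`;
* `exists_hasVal_mem` : a function of `V` regular on the disc has values in `A` on the disc;
* `hasVal_red` : value compatibility, `(ρ f)(Q) = π (f(P))`;
* `hasVal_t_mem_nonunits` : `t(P) ∈ 𝔪_A` for `P` in the disc  (so `disc ≃ 𝔪_A` via `t`);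
* `discAlg` : the ring `discRing` of functions of `V` regular on the disc is a `DiscAlg`
  (helper799), with `ev a f = f(P_a)`  (`ev_eq_of_hasVal`).
-/

set_option autoImplicit false
set_option linter.unusedSectionVars false

noncomputable section

namespace Fermat.Agent.A3.H75

open AlgebraicCurve Fermat.Agent.Lib.RR Fermat.Agent.A3.H799

variable {K : Type*} [Field K] (A : ValuationSubring K) (F : Type*) [Field F] [Algebra K F]
variable (k : Type*) [Field k] (Fk : Type*) [Field Fk] [Algebra k Fk]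

/-- Minimal reduction input for the calculus on residue discs. -/
structure ConsInput where
  /-- the Gauss valuation ring -/
  V : ValuationSubring F
  algebraMap_mem : ∀ a : K, a ∈ A → algebraMap K F a ∈ V
  algebraMap_mem_nonunits : ∀ a : K, a ∈ A.nonunits → algebraMap K F a ∈ V.nonunits
  /-- the residue map of `A` -/
  π : A →+* k
  π_eq_zero : ∀ a : A, π a = 0 → (a : K) ∈ A.nonunits
  /-- reduction of functions -/
  ρ : V →+* Fk
  ρ_eq_zero : ∀ x : V, ρ x = 0 ↔ (x : F) ∈ V.nonunits
  ρ_algebraMap : ∀ (a : K) (ha : a ∈ A),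
    ρ ⟨algebraMap K F a, algebraMap_mem a ha⟩ = algebraMap k Fk (π ⟨a, ha⟩)
  /-- reduction of places -/
  r : Place K F → Place k Fk
  /-- conservation of zeros -/
  cons : ∀ u : V, ρ u ≠ 0 → ∀ D : Divisor K F, (∀ P, D P = P.ord (u : F)) →
    ∀ Q, Finsupp.mapDomain r D Q = Q.ord (ρ u)

variable {A F k Fk}

namespace ConsInput

variable (I : ConsInput A F k Fk) (Q : Place k Fk)

/-- `f` is regular on the residue disc of `Q`. -/
def RegOn (f : F) : Prop := ∀ P, I.r P = Q → f ∈ P.toValuationSubring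

theorem regOn_algebraMap (c : K) : I.RegOn Q (algebraMap K F c) := fun P _ => P.algebraMap_mem' c

section
variable {I Q}

theorem RegOn.add {f g : F} (hf : I.RegOn Q f) (hg : I.RegOn Q g) : I.RegOn Q (f + g) :=
  fun P hP => P.toValuationSubring.add_mem _ _ (hf P hP) (hg P hP)

theorem RegOn.mul {f g : F} (hf : I.RegOn Q f) (hg : I.RegOn Q g) : I.RegOn Q (f * g) :=
  fun P hP => P.toValuationSubring.mul_mem _ _ (hf P hP) (hg P hP)

theorem RegOn.sub {f g : F} (hf : I.RegOn Q f) (hg : I.RegOn Q g) : I.RegOn Q (f - g) :=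
  fun P hP => sub_mem (hf P hP) (hg P hP)

end

variable [FF1 K F]

theorem coe_ne_zero_of_ρ_ne_zero {u : I.V} (hρ : I.ρ u ≠ 0) : (u : F) ≠ 0 := by
  intro h0
  apply hρ
  have : u = 0 := Subtype.ext h0
  rw [this, map_zero]

/-- **Conservation, pointwise bound.**  For `u ∈ V` with `ρ u ≠ 0`, regular on the disc of `Q`,
the order of `u` at any point of the disc is at most `ord_Q (ρ u)`. -/
theorem ord_le_of_cons (u : I.V) (hρ : I.ρ u ≠ 0) (hreg : I.RegOn Q (u : F))
    (P : Place K F) (hP : I.r P = Q) : P.ord (u : F) ≤ Q.ord (I.ρ u) := by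
  have hu0 := I.coe_ne_zero_of_ρ_ne_zero hρ
  have hc := I.cons u hρ (divOf (u : F) hu0) (fun P => divOf_apply (u : F) hu0 P) Q
  rw [← hc, ← divOf_apply (u : F) hu0 P]
  refine apply_le_mapDomain I.r _ Q (fun P' hP' => ?_) P hP
  rw [divOf_apply]
  exact ord_nonneg_of_mem P' (hreg P' hP')

/-- **Conservation, two points.** -/
theorem ord_add_ord_le_of_cons (u : I.V) (hρ : I.ρ u ≠ 0)
    (hreg : I.RegOn Q (u : F)) (P P' : Place K F) (hne : P ≠ P') (hP : I.r P = Q)
    (hP' : I.r P' = Q) : P.ord (u : F) + P'.ord (u : F) ≤ Q.ord (I.ρ u) := by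
  have hu0 := I.coe_ne_zero_of_ρ_ne_zero hρ
  have hc := I.cons u hρ (divOf (u : F) hu0) (fun P => divOf_apply (u : F) hu0 P) Q
  rw [← hc, ← divOf_apply (u : F) hu0 P, ← divOf_apply (u : F) hu0 P']
  refine apply_add_apply_le_mapDomain I.r _ Q (fun P'' hP'' => ?_) P P' hne hP hP'
  rw [divOf_apply]
  exact ord_nonneg_of_mem P'' (hreg P'' hP'')

/-- **Conservation, existence of a zero.** -/
theorem exists_ord_pos_of_cons (u : I.V) (hρ : I.ρ u ≠ 0)
    (hpos : 0 < Q.ord (I.ρ u)) : ∃ P, I.r P = Q ∧ 0 < P.ord (u : F) := by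
  have hu0 := I.coe_ne_zero_of_ρ_ne_zero hρ
  have hc := I.cons u hρ (divOf (u : F) hu0) (fun P => divOf_apply (u : F) hu0 P) Q
  rw [← hc] at hpos
  obtain ⟨P, hP, h⟩ := exists_pos_of_mapDomain_pos I.r _ Q hpos
  rw [divOf_apply] at h
  exact ⟨P, hP, h⟩

/-- the constants of `A`, as elements of `V` -/
def const (a : A) : I.V := ⟨algebraMap K F (a : K), I.algebraMap_mem _ a.2⟩

@[simp] theorem coe_const (a : A) : ((I.const a : I.V) : F) = algebraMap K F (a : K) := rfl

theorem ρ_const (a : A) : I.ρ (I.const a) = algebraMap k Fk (I.π a) :=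
  I.ρ_algebraMap (a : K) a.2

theorem ρ_const_of_mem_nonunits (a : A) (ha : (a : K) ∈ A.nonunits) : I.ρ (I.const a) = 0 :=
  (I.ρ_eq_zero _).mpr (I.algebraMap_mem_nonunits _ ha)

/-- **Values on the disc are integral.**  A function of `V` regular on the disc of `Q` takes
values in `A` at the points of the disc. -/
theorem exists_hasVal_mem (f : I.V) (hreg : I.RegOn Q (f : F)) (P : Place K F)
    (hP : I.r P = Q) : ∃ b : A, HasVal P (f : F) (b : K) := by
  obtain ⟨c, hc⟩ := exists_hasVal P (deg_eq_one P) (hreg P hP)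
  by_cases hcA : c ∈ A
  · exact ⟨⟨c, hcA⟩, hc⟩
  exfalso
  have hc0 : c ≠ 0 := by
    rintro rfl
    exact hcA A.zero_mem
  have hinv : c⁻¹ ∈ A.nonunits := inv_mem_nonunits_of_not_mem A hcA
  have hinvA : c⁻¹ ∈ A := mem_of_mem_nonunits A hinv
  set u : I.V := I.const ⟨c⁻¹, hinvA⟩ * f - 1 with hu
  have hρu : I.ρ u = -1 := by
    rw [hu, map_sub, map_mul, map_one, I.ρ_const_of_mem_nonunits _ hinv, zero_mul, zero_sub]
  have hρne : I.ρ u ≠ 0 := by
    rw [hρu]
    exact neg_ne_zero.mpr one_ne_zero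
  have hcoe : (u : F) = algebraMap K F c⁻¹ * (f : F) - 1 := rfl
  have hregu : I.RegOn Q (u : F) := by
    rw [hcoe]
    refine ((I.regOn_algebraMap Q c⁻¹).mul hreg).sub ?_
    have := I.regOn_algebraMap Q (1 : K)
    rwa [map_one] at this
  have hle := I.ord_le_of_cons Q u hρne hregu P hP
  rw [hρu, ord_neg, Place.ord_one] at hle
  have hval : HasVal P (u : F) 0 := by
    have h1 := ((hasVal_algebraMap P c⁻¹).mul hc).sub (hasVal_one P)
    rw [inv_mul_cancel₀ hc0, sub_self] at h1
    rw [hcoe]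
    exact h1
  rcases (hasVal_zero_iff P _).mp hval with h0 | hpos
  · exact I.coe_ne_zero_of_ρ_ne_zero hρne h0
  · omega

/-- **Value compatibility.**  `(ρ f)(Q) = π (f(P))` for `P` in the disc of `Q`. -/
theorem hasVal_red (f : I.V) (hreg : I.RegOn Q (f : F)) (P : Place K F) (hP : I.r P = Q)
    (b : A) (hb : HasVal P (f : F) (b : K)) : HasVal Q (I.ρ f) (I.π b) := by
  set u : I.V := f - I.const b with hu
  have hρu : I.ρ u = I.ρ f - algebraMap k Fk (I.π b) := by
    rw [hu, map_sub, I.ρ_const]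
  unfold HasVal
  rw [← hρu]
  by_cases hρ0 : I.ρ u = 0
  · rw [hρ0]
    exact zero_mem_nonunits _
  have hcoe : (u : F) = (f : F) - algebraMap K F (b : K) := rfl
  have hregu : I.RegOn Q (u : F) := by
    rw [hcoe]
    exact hreg.sub (I.regOn_algebraMap Q _)
  have hle := I.ord_le_of_cons Q u hρ0 hregu P hP
  have hb' : (u : F) ∈ P.toValuationSubring.nonunits := hb
  rcases (mem_nonunits_iff_ord P _).mp hb' with h0 | hpos
  · exact absurd h0 (I.coe_ne_zero_of_ρ_ne_zero hρ0)
  · exact (mem_nonunits_iff_ord Q _).mpr (Or.inr (lt_of_lt_of_le hpos hle))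

end ConsInput

/-- A parameter at the place `Q` of the special fibre: a function of `V`, regular on the residue
disc of `Q`, whose reduction has a simple zero at `Q`. -/
structure DiscParam (I : ConsInput A F k Fk) (Q : Place k Fk) where
  /-- the parameter -/
  t : I.V
  t_reg : I.RegOn Q (t : F)
  ord_t : Q.ord (I.ρ t) = 1

namespace DiscParam

variable {I : ConsInput A F k Fk} {Q : Place k Fk} (T : DiscParam I Q) [FF1 K F]

theorem ρ_t_ne_zero : I.ρ T.t ≠ 0 := by
  intro h0
  have := T.ord_t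
  rw [h0, Place.ord_zero] at this
  exact zero_ne_one this

/-- the function `t - a` -/
def shift (a : A) : I.V := T.t - I.const a

@[simp] theorem coe_shift (a : A) : ((T.shift a : I.V) : F) = (T.t : F) - algebraMap K F (a : K) :=
  rfl

theorem ρ_shift (a : A) (ha : (a : K) ∈ A.nonunits) : I.ρ (T.shift a) = I.ρ T.t := by
  rw [shift, map_sub, I.ρ_const_of_mem_nonunits a ha, sub_zero]

theorem ρ_shift_ne_zero (a : A) (ha : (a : K) ∈ A.nonunits) : I.ρ (T.shift a) ≠ 0 := by
  rw [T.ρ_shift a ha]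
  exact T.ρ_t_ne_zero

theorem shift_ne_zero (a : A) (ha : (a : K) ∈ A.nonunits) : ((T.shift a : I.V) : F) ≠ 0 :=
  I.coe_ne_zero_of_ρ_ne_zero (T.ρ_shift_ne_zero a ha)

theorem regOn_shift (a : A) : I.RegOn Q ((T.shift a : I.V) : F) := by
  rw [coe_shift]
  exact T.t_reg.sub (I.regOn_algebraMap Q _)

theorem ord_shift_le_one (a : A) (ha : (a : K) ∈ A.nonunits) (P : Place K F) (hP : I.r P = Q) :
    P.ord ((T.shift a : I.V) : F) ≤ 1 := by
  have := I.ord_le_of_cons Q (T.shift a) (T.ρ_shift_ne_zero a ha) (T.regOn_shift a) P hP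
  rwa [T.ρ_shift a ha, T.ord_t] at this

theorem hasVal_iff_ord_shift (a : A) (ha : (a : K) ∈ A.nonunits) (P : Place K F) :
    HasVal P (T.t : F) (a : K) ↔ 0 < P.ord ((T.shift a : I.V) : F) := by
  unfold HasVal
  rw [← coe_shift, mem_nonunits_iff_ord]
  constructor
  · rintro (h | h)
    · exact absurd h (T.shift_ne_zero a ha)
    · exact h
  · exact Or.inr

/-- **The disc is parametrised by `𝔪_A`, existence.** -/
theorem exists_center (a : A) (ha : (a : K) ∈ A.nonunits) :
    ∃ P, I.r P = Q ∧ HasVal P (T.t : F) (a : K) := by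
  obtain ⟨P, hP, hpos⟩ := I.exists_ord_pos_of_cons Q (T.shift a) (T.ρ_shift_ne_zero a ha) (by
    rw [T.ρ_shift a ha, T.ord_t]
    exact one_pos)
  exact ⟨P, hP, (T.hasVal_iff_ord_shift a ha P).mpr hpos⟩

/-- **The disc is parametrised by `𝔪_A`, uniqueness.** -/
theorem center_unique (a : A) (ha : (a : K) ∈ A.nonunits) (P P' : Place K F) (hP : I.r P = Q)
    (hP' : I.r P' = Q) (h : HasVal P (T.t : F) (a : K)) (h' : HasVal P' (T.t : F) (a : K)) :
    P = P' := by
  by_contra hne
  have h1 := (T.hasVal_iff_ord_shift a ha P).mp h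
  have h2 := (T.hasVal_iff_ord_shift a ha P').mp h'
  have h3 := I.ord_add_ord_le_of_cons Q (T.shift a) (T.ρ_shift_ne_zero a ha) (T.regOn_shift a)
    P P' hne hP hP'
  rw [T.ρ_shift a ha, T.ord_t] at h3
  omega

/-- `t - a` does not vanish on the disc away from its centre. -/
theorem ord_shift_eq_zero (a : A) (ha : (a : K) ∈ A.nonunits) (P P' : Place K F)
    (hP : I.r P = Q) (hP' : I.r P' = Q) (h : HasVal P (T.t : F) (a : K)) (hne : P' ≠ P) :
    P'.ord ((T.shift a : I.V) : F) = 0 := by
  have h1 := (T.hasVal_iff_ord_shift a ha P).mp h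
  have h3 := I.ord_add_ord_le_of_cons Q (T.shift a) (T.ρ_shift_ne_zero a ha) (T.regOn_shift a)
    P' P hne hP' hP
  rw [T.ρ_shift a ha, T.ord_t] at h3
  have h4 := ord_nonneg_of_mem P' (T.regOn_shift a P' hP')
  omega

/-- **`t` maps the disc into `𝔪_A`.** -/
theorem mem_nonunits_of_hasVal (P : Place K F) (hP : I.r P = Q) (a : A)
    (h : HasVal P (T.t : F) (a : K)) : (a : K) ∈ A.nonunits := by
  have h1 := I.hasVal_red Q T.t T.t_reg P hP a h
  have h2 : HasVal Q (I.ρ T.t) 0 := by
    rw [hasVal_zero_iff]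
    right
    rw [T.ord_t]
    exact one_pos
  exact I.π_eq_zero a (h1.unique h2)

end DiscParam

end Fermat.Agent.A3.H75

end
end
-- ===== PACK-END A3/H75/DiscOfCons.lean

-- ===== PACK-BEGIN A3/H75/DiscAlgOfCons.lean
section


/-!
# A3 / LOCAL / DISC (helper75): `DiscAlg` from conservation of zeros

`ConsInput.discRing I Q` : the `A`-algebra of functions of Gauss norm `≤ 1` regular on the residue
disc of `Q`.  `DiscParam.discAlg T : DiscAlg A (discRing I Q)` : it is a disc algebra in the sense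
of helper799 (`Fermat/Agent/A3/H799/Disc.lean`), with parameter `t`, and evaluation `ev a` = value
at the unique point `center a` of the disc with `t = a`.

Dictionary lemmas: `DiscParam.ev_eq_of_hasVal` (the abstract evaluation is the value at the point),
`DiscParam.hasVal_center`, `DiscParam.center_eq`.
-/

set_option autoImplicit false
set_option linter.unusedSectionVars false

noncomputable section

namespace Fermat.Agent.A3.H75

open AlgebraicCurve Fermat.Agent.Lib.RR Fermat.Agent.A3.H799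

variable {K : Type*} [Field K] {A : ValuationSubring K} {F : Type*} [Field F] [Algebra K F]
variable {k : Type*} [Field k] {Fk : Type*} [Field Fk] [Algebra k Fk]

theorem coe_mem_nonunits_of_mem_maximalIdeal (a : IsLocalRing.maximalIdeal A) :
    (((a : A) : K)) ∈ A.nonunits := by
  have h1 : (a : A) ∈ nonunits A := (IsLocalRing.mem_maximalIdeal _).mp a.2
  exact (ValuationSubring.coe_mem_nonunits_iff (A := A)).mpr h1

namespace ConsInput

variable (I : ConsInput A F k Fk) (Q : Place k Fk)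

/-- The ring of functions of Gauss norm `≤ 1` which are regular on the residue disc of `Q`. -/
def discRing : Subalgebra A F where
  carrier := {f | f ∈ I.V ∧ I.RegOn Q f}
  mul_mem' := fun ha hb => ⟨I.V.mul_mem _ _ ha.1 hb.1, ha.2.mul hb.2⟩
  add_mem' := fun ha hb => ⟨I.V.add_mem _ _ ha.1 hb.1, ha.2.add hb.2⟩
  algebraMap_mem' := fun a => ⟨I.algebraMap_mem _ a.2, I.regOn_algebraMap Q _⟩

theorem mem_discRing {f : F} : f ∈ I.discRing Q ↔ f ∈ I.V ∧ I.RegOn Q f := Iff.rfl

/-- a function of the disc ring, as an element of `V` -/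
def toV (f : I.discRing Q) : I.V := ⟨(f : F), f.2.1⟩

@[simp] theorem coe_toV (f : I.discRing Q) : ((I.toV Q f : I.V) : F) = (f : F) := rfl

theorem regOn_coe (f : I.discRing Q) : I.RegOn Q (f : F) := f.2.2

end ConsInput

namespace DiscParam

variable {I : ConsInput A F k Fk} {Q : Place k Fk} (T : DiscParam I Q) [FF1 K F]

/-- the parameter, as an element of the disc ring -/
def tElt : I.discRing Q := ⟨(T.t : F), T.t.2, T.t_reg⟩

@[simp] theorem coe_tElt : ((T.tElt : I.discRing Q) : F) = (T.t : F) := rfl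

/-- the point of the disc with parameter value `a` -/
def center (a : IsLocalRing.maximalIdeal A) : Place K F :=
  (T.exists_center (a : A) (coe_mem_nonunits_of_mem_maximalIdeal a)).choose

theorem r_center (a : IsLocalRing.maximalIdeal A) : I.r (T.center a) = Q :=
  (T.exists_center (a : A) (coe_mem_nonunits_of_mem_maximalIdeal a)).choose_spec.1

theorem hasVal_center (a : IsLocalRing.maximalIdeal A) :
    HasVal (T.center a) (T.t : F) (((a : A) : K)) :=
  (T.exists_center (a : A) (coe_mem_nonunits_of_mem_maximalIdeal a)).choose_spec.2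

/-- a point of the disc is the centre attached to its parameter value -/
theorem center_eq (a : IsLocalRing.maximalIdeal A) (P : Place K F) (hP : I.r P = Q)
    (h : HasVal P (T.t : F) (((a : A) : K))) : T.center a = P :=
  T.center_unique (a : A) (coe_mem_nonunits_of_mem_maximalIdeal a) _ _ (T.r_center a) hP
    (T.hasVal_center a) h

/-- every point of the disc is a centre -/
theorem exists_center_eq (P : Place K F) (hP : I.r P = Q) :
    ∃ a : IsLocalRing.maximalIdeal A, T.center a = P := by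
  obtain ⟨b, hb⟩ := I.exists_hasVal_mem Q T.t T.t_reg P hP
  have hbm := T.mem_nonunits_of_hasVal P hP b hb
  have hb' : b ∈ IsLocalRing.maximalIdeal A := by
    rw [IsLocalRing.mem_maximalIdeal]
    exact (ValuationSubring.coe_mem_nonunits_iff (A := A)).mp hbm
  exact ⟨⟨b, hb'⟩, T.center_eq ⟨b, hb'⟩ P hP hb⟩

/-- the value of a disc function at the centre `a` -/
def evVal (a : IsLocalRing.maximalIdeal A) (f : I.discRing Q) : A :=
  (I.exists_hasVal_mem Q (I.toV Q f) (I.regOn_coe Q f) (T.center a) (T.r_center a)).choose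

theorem hasVal_evVal (a : IsLocalRing.maximalIdeal A) (f : I.discRing Q) :
    HasVal (T.center a) (f : F) ((T.evVal a f : A) : K) :=
  (I.exists_hasVal_mem Q (I.toV Q f) (I.regOn_coe Q f) (T.center a) (T.r_center a)).choose_spec

theorem evVal_eq (a : IsLocalRing.maximalIdeal A) (f : I.discRing Q) (b : A)
    (h : HasVal (T.center a) (f : F) (b : K)) : T.evVal a f = b :=
  Subtype.ext ((T.hasVal_evVal a f).unique h)

/-- evaluation at the centre `a`, as an algebra homomorphism -/
def ev (a : IsLocalRing.maximalIdeal A) : I.discRing Q →ₐ[A] A where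
  toFun := T.evVal a
  map_one' := T.evVal_eq a 1 1 (hasVal_one _)
  map_mul' f g := T.evVal_eq a (f * g) _ ((T.hasVal_evVal a f).mul (T.hasVal_evVal a g))
  map_zero' := T.evVal_eq a 0 0 (hasVal_zero _)
  map_add' f g := T.evVal_eq a (f + g) _ ((T.hasVal_evVal a f).add (T.hasVal_evVal a g))
  commutes' c := T.evVal_eq a _ c (hasVal_algebraMap _ _)

@[simp] theorem ev_apply (a : IsLocalRing.maximalIdeal A) (f : I.discRing Q) :
    T.ev a f = T.evVal a f := rfl

/-- **Dictionary.**  The abstract evaluation is the value at the point. -/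
theorem ev_eq_of_hasVal (a : IsLocalRing.maximalIdeal A) (f : I.discRing Q) (P : Place K F)
    (hP : I.r P = Q) (ht : HasVal P (T.t : F) (((a : A) : K))) (b : A)
    (hf : HasVal P (f : F) (b : K)) : T.ev a f = b := by
  have hc := T.center_eq a P hP ht
  apply T.evVal_eq
  rw [hc]
  exact hf

theorem ev_tElt (a : IsLocalRing.maximalIdeal A) : T.ev a T.tElt = (a : A) :=
  T.evVal_eq a T.tElt (a : A) (T.hasVal_center a)

/-- **Taylor.**  If `f` vanishes at the centre `a` then `f / (t - a)` is in the disc ring. -/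
theorem div_shift_mem (a : IsLocalRing.maximalIdeal A) (f : I.discRing Q)
    (hf : HasVal (T.center a) (f : F) 0) :
    (f : F) * (((T.shift (a : A) : I.V) : F))⁻¹ ∈ I.discRing Q := by
  have ha := coe_mem_nonunits_of_mem_maximalIdeal a
  have hu0 := T.shift_ne_zero (a : A) ha
  have hunit : ((T.shift (a : A) : I.V) : F) ∉ I.V.nonunits := by
    intro h
    exact T.ρ_shift_ne_zero (a : A) ha ((I.ρ_eq_zero _).mpr h)
  have hinv := (inv_mem_of_not_mem_nonunits I.V hunit).2
  refine ⟨I.V.mul_mem _ _ f.2.1 hinv, fun P hP => ?_⟩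
  by_cases hf0 : (f : F) = 0
  · rw [hf0, zero_mul]
    exact P.toValuationSubring.zero_mem
  apply mem_of_ord_nonneg
  rw [P.ord_mul hf0 (inv_ne_zero hu0), P.ord_inv]
  by_cases hPc : P = T.center a
  · subst hPc
    have h1 := T.ord_shift_le_one (a : A) ha _ hP
    rcases (hasVal_zero_iff _ _).mp hf with h0 | hpos
    · exact absurd h0 hf0
    · omega
  · have h1 := T.ord_shift_eq_zero (a : A) ha (T.center a) P (T.r_center a) hP
      (T.hasVal_center a) hPc
    have h2 := ord_nonneg_of_mem P (f.2.2 P hP)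
    omega

/-- **The disc algebra of a residue disc.** -/
def discAlg : DiscAlg A (I.discRing Q) where
  t := T.tElt
  ev := T.ev
  ev_t := T.ev_tElt
  taylor := by
    intro a f
    have ha := coe_mem_nonunits_of_mem_maximalIdeal a
    have hu0 := T.shift_ne_zero (a : A) ha
    set g : I.discRing Q := f - algebraMap A (I.discRing Q) (T.ev a f) with hg
    have hgval : HasVal (T.center a) (g : F) 0 := by
      have h1 := (T.hasVal_evVal a f).sub (hasVal_algebraMap (T.center a) ((T.evVal a f : A) : K))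
      rw [sub_self] at h1
      exact h1
    refine ⟨⟨_, T.div_shift_mem a g hgval⟩, Subtype.ext ?_⟩
    show (f : F) = algebraMap K F ((T.evVal a f : A) : K) +
      ((T.t : F) - algebraMap K F ((a : A) : K)) *
        (((f : F) - algebraMap K F ((T.evVal a f : A) : K)) *
          (((T.shift (a : A) : I.V) : F))⁻¹)
    rw [coe_shift]
    have hne : (T.t : F) - algebraMap K F ((a : A) : K) ≠ 0 := by
      rw [← coe_shift]
      exact hu0
    field_simp
    ring
  nzd := by
    intro a f hf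
    have ha := coe_mem_nonunits_of_mem_maximalIdeal a
    have hu0 := T.shift_ne_zero (a : A) ha
    have h1 := congrArg (Subtype.val) hf
    have h2 : ((T.t : F) - algebraMap K F ((a : A) : K)) * (f : F) = 0 := h1
    rw [← coe_shift] at h2
    rcases mul_eq_zero.mp h2 with h | h
    · exact absurd h hu0
    · exact Subtype.ext h

@[simp] theorem discAlg_t : T.discAlg.t = T.tElt := rfl

@[simp] theorem discAlg_ev (a : IsLocalRing.maximalIdeal A) : T.discAlg.ev a = T.ev a := rfl

end DiscParam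

end Fermat.Agent.A3.H75

end
end
-- ===== PACK-END A3/H75/DiscAlgOfCons.lean

-- ===== PACK-BEGIN S19/H19/Torsion.lean
section
/-
A3 / S19, helper19 — piece ORD, part 7: orders on the torsion of a Galois module.

`J` an abelian group with an additive action of `G_ℚ`, `T = J[n]`.  A finitely generated
equivariant `R`-subalgebra of functions `T → ℚ̄` separating points and closed under
`f ↦ f(s+t)` yields exactly the conclusion of the frozen statement S19 (for `J = J₀(N)`,
`R = ℤ_(ℓ)`).  Mathlib only.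
-/


set_option autoImplicit false
set_option linter.unusedSectionVars false
set_option linter.style.haveILetI false

noncomputable section

namespace Fermat.Agent.S19.H19

open scoped BigOperators TensorProduct

/-- A principal ideal subring of `ℚ` is integrally closed in `ℚ`. -/
theorem mem_of_isIntegral_of_pid (R : Subring ℚ) [IsPrincipalIdealRing R] (q : ℚ)
    (hq : IsIntegral R q) : q ∈ R := by
  haveI : FaithfulSMul R ℚ :=
    (faithfulSMul_iff_algebraMap_injective R ℚ).mpr Subtype.val_injective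
  haveI : IsFractionRing R ℚ := by
    apply IsFractionRing.of_field
    intro z
    refine ⟨⟨(z.num : ℚ), intCast_mem R z.num⟩, ⟨(z.den : ℚ), natCast_mem R z.den⟩, ?_⟩
    exact (Rat.num_div_den z).symm
  obtain ⟨y, hy⟩ := (IsIntegrallyClosed.isIntegral_iff (R := R) (K := ℚ)).mp hq
  rw [← hy]
  exact y.2

section Torsion

variable {J : Type} [AddCommGroup J] [DistribMulAction _root_.Fermat.Agent.S19.H19.GalQ J] (n : ℤ)

/-- The Galois action on the `n`-torsion. -/
def torsionAct (σ : _root_.Fermat.Agent.S19.H19.GalQ) (m : Submodule.torsionBy ℤ J n) : Submodule.torsionBy ℤ J n :=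
  ⟨σ • (m : J), by
    have hm := m.2
    rw [Submodule.mem_torsionBy_iff] at hm ⊢
    have h1 : n • (σ • (m : J)) = σ • (n • (m : J)) :=
      (map_zsmul (DistribSMul.toAddMonoidHom J σ) n (m : J)).symm
    rw [h1, hm, smul_zero]⟩

@[simp] theorem coe_torsionAct (σ : _root_.Fermat.Agent.S19.H19.GalQ) (m : Submodule.torsionBy ℤ J n) :
    ((torsionAct n σ m : Submodule.torsionBy ℤ J n) : J) = σ • (m : J) := rfl

/-- **Piece ORD for torsion modules**: the S19-shaped conclusion from an order. -/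
theorem exists_hopf_torsion (R : Subring ℚ) [IsPrincipalIdealRing R]
    [Finite (Submodule.torsionBy ℤ J n)]
    (H : Subalgebra R (Submodule.torsionBy ℤ J n → _root_.Fermat.Agent.S19.H19.Qb))
    (hequiv : ∀ f ∈ H, ∀ (σ : _root_.Fermat.Agent.S19.H19.GalQ) (m : Submodule.torsionBy ℤ J n),
      f (torsionAct n σ m) = σ (f m))
    (hfg : (Subalgebra.toSubmodule H).FG)
    (hsep : ∀ m m' : Submodule.torsionBy ℤ J n, m ≠ m' → ∃ f ∈ H, f m ≠ f m')
    (hcomul : ∀ f ∈ H, (fun p : Submodule.torsionBy ℤ J n × Submodule.torsionBy ℤ J n =>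
      f (p.1 + p.2)) ∈ (prodMap H.val H.val).range) :
    ∃ (H' : Type) (_ : CommRing H') (_ : HopfAlgebra R H'),
      Module.Finite R H' ∧ Module.Flat R H' ∧ Coalgebra.IsCocomm R H' ∧
      ∃ e : WithConv (H' →ₐ[R] AlgebraicClosure ℚ) ≃ ↥(Submodule.torsionBy ℤ J n),
        (∀ f g, e (f * g) = e f + e g) ∧
        ∀ (σ : AlgebraicClosure ℚ ≃ₐ[ℚ] AlgebraicClosure ℚ)
          (f g : WithConv (H' →ₐ[R] AlgebraicClosure ℚ)),
          (∀ h : H', g h = σ (f h)) → ((e g : J)) = σ • (e f : J) := by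
  obtain ⟨H', i1, i2, h1, h2, h3, e, he1, he2⟩ :=
    exists_hopf_of_equivariant_order (act := torsionAct (J := J) n) R
      (mem_of_isIntegral_of_pid R)
      (fun m => Subtype.ext (one_smul _root_.Fermat.Agent.S19.H19.GalQ (m : J)))
      (fun σ τ m => Subtype.ext (mul_smul σ τ (m : J)).symm)
      (fun σ => Subtype.ext (smul_zero σ))
      H hequiv hfg hsep hcomul
  exact ⟨H', i1, i2, h1, h2, h3, e, he1, fun σ f g hfg =>
    congrArg Subtype.val (he2 σ f g hfg)⟩

end Torsion

end Fermat.Agent.S19.H19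

end

end
-- ===== PACK-END S19/H19/Torsion.lean

-- ===== PACK-BEGIN S19/H15/OrdBasic.lean
section





/-!
# Cell A3 (S19) — node ORD, part 1 (helper15): basic consequences of an `OrderDatum`

From an `OrderDatum ℓ M act` (only axiom on `act`: additivity):
* `act` is automatically a group action fixing `0` (`act_one`, `act_mul`, `act_zero`):
  `act σ m` is the unique point with `f (act σ m) = σ (f m)` for all generators `f`;
* the `ℤ_(ℓ)`-algebra `ordAlg D` generated by the generators consists of equivariant functions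
  with integral values and separates points.
-/

set_option autoImplicit false
set_option linter.style.haveILetI false

noncomputable section

namespace Fermat.Agent.S19.H15

open Fermat.Agent.S19

variable {ℓ : ℕ} {M : Type} [AddCommGroup M] {act : GalQ → M → M}

theorem act_one (D : OrderDatum ℓ M act) (m : M) : act 1 m = m :=
  D.separates _ _ fun f hf => by
    rw [D.equivariant f hf 1 m]
    rfl

theorem act_mul (D : OrderDatum ℓ M act) (σ τ : GalQ) (m : M) :
    act σ (act τ m) = act (σ * τ) m :=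
  D.separates _ _ fun f hf => by
    rw [D.equivariant f hf σ, D.equivariant f hf τ, D.equivariant f hf (σ * τ)]
    rfl

theorem act_zero (D : OrderDatum ℓ M act) (σ : GalQ) : act σ 0 = 0 := by
  have h := D.act_add σ 0 0
  rw [add_zero] at h
  exact left_eq_add.mp h

/-- The `ℤ_(ℓ)`-algebra generated by the generators of an order datum. -/
def ordAlg (D : OrderDatum ℓ M act) : Subalgebra (Rl ℓ) (M → Qb) :=
  Algebra.adjoin (Rl ℓ) D.gens

theorem gens_le_ordAlg (D : OrderDatum ℓ M act) : D.gens ⊆ (ordAlg D : Set (M → Qb)) :=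
  Algebra.subset_adjoin

/-- equivariant functions form a subalgebra -/
def equivSubalgebra (ℓ : ℕ) {X : Type} (act : GalQ → X → X) : Subalgebra (Rl ℓ) (X → Qb) where
  carrier := {f | H19.IsEquivariant act f}
  mul_mem' := fun {f g} hf hg σ m => by
    show f (act σ m) * g (act σ m) = σ (f m * g m)
    rw [hf σ m, hg σ m, map_mul]
  one_mem' := fun σ m => (map_one σ).symm
  add_mem' := fun {f g} hf hg σ m => by
    show f (act σ m) + g (act σ m) = σ (f m + g m)
    rw [hf σ m, hg σ m, map_add]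
  zero_mem' := fun σ m => (map_zero σ).symm
  algebraMap_mem' := fun r σ m => by
    show algebraMap (Rl ℓ) Qb r = σ (algebraMap (Rl ℓ) Qb r)
    have h : algebraMap (Rl ℓ) Qb r = algebraMap ℚ Qb (r : ℚ) := rfl
    rw [h, σ.commutes]

theorem mem_equivSubalgebra {X : Type} {act : GalQ → X → X} {f : X → Qb} :
    f ∈ equivSubalgebra ℓ act ↔ H19.IsEquivariant act f := Iff.rfl

/-- functions with integral values form a subalgebra -/
def intSubalgebra (ℓ : ℕ) (X : Type) : Subalgebra (Rl ℓ) (X → Qb) where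
  carrier := {f | ∀ x, IsIntegral (Rl ℓ) (f x)}
  mul_mem' := fun {f g} hf hg x => (hf x).mul (hg x)
  one_mem' := fun _ => isIntegral_one
  add_mem' := fun {f g} hf hg x => (hf x).add (hg x)
  zero_mem' := fun _ => isIntegral_zero
  algebraMap_mem' := fun _ _ => isIntegral_algebraMap

theorem mem_intSubalgebra {X : Type} {f : X → Qb} :
    f ∈ intSubalgebra ℓ X ↔ ∀ x, IsIntegral (Rl ℓ) (f x) := Iff.rfl

theorem ordAlg_equivariant (D : OrderDatum ℓ M act) :
    ∀ f ∈ ordAlg D, H19.IsEquivariant act f := by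
  have h : ordAlg D ≤ equivSubalgebra ℓ act :=
    Algebra.adjoin_le fun f hf => D.equivariant f hf
  exact fun f hf => h hf

theorem ordAlg_integral (D : OrderDatum ℓ M act) :
    ∀ f ∈ ordAlg D, ∀ m, IsIntegral (Rl ℓ) (f m) := by
  have h : ordAlg D ≤ intSubalgebra ℓ M :=
    Algebra.adjoin_le fun f hf => D.integral f hf
  exact fun f hf => h hf

theorem ordAlg_separates (D : OrderDatum ℓ M act) :
    ∀ m m' : M, m ≠ m' → ∃ f ∈ ordAlg D, f m ≠ f m' := by
  intro m m' hne
  by_contra hcon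
  push Not at hcon
  exact hne (D.separates m m' fun f hf => hcon f (gens_le_ordAlg D hf))

end Fermat.Agent.S19.H15

end

end
-- ===== PACK-END S19/H15/OrdBasic.lean

-- ===== PACK-BEGIN S19/H15/OrdDescent.lean
section


/-!
# Cell A3 (S19) — node ORD, part 2 (helper15): descent `Z̄_(ℓ) → ℤ_(ℓ)`

`mem_of_mem_span_of_equivariant`: for a finitely generated `ℤ_(ℓ)`-subalgebra `Λ` of equivariant
functions `X → Q̄` (any `Gal`-set `X`), an EQUIVARIANT function in the `Z̄_(ℓ)`-span of `Λ` lies
in `Λ`.  (Same proof as helper435's lemma for Hopf lattices, for arbitrary `X`.)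
-/

set_option autoImplicit false
set_option linter.style.haveILetI false

noncomputable section

namespace Fermat.Agent.S19.H15

open Fermat.Agent.S19

variable {ℓ : ℕ} [Fact ℓ.Prime]

theorem isIntegrallyClosed_Rl (q : ℚ) (hq : IsIntegral (Rl ℓ) q) : q ∈ Rl ℓ := by
  haveI : IsPrincipalIdealRing ↥(GaloisRep.ratLocalizedAt ℓ) := inferInstance
  exact H19.mem_of_isIntegral_of_pid (Rl ℓ) q hq

/-- **Descent.** -/
theorem mem_of_mem_span_of_equivariant {X : Type} {act : GalQ → X → X}
    (hone : ∀ m, act 1 m = m) (hact : ∀ σ τ m, act σ (act τ m) = act (σ * τ) m)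
    (Λ : Subalgebra (Rl ℓ) (X → Qb)) (hequiv : ∀ f ∈ Λ, H19.IsEquivariant act f)
    (hfg : (Subalgebra.toSubmodule Λ).FG)
    {u : X → Qb} (hu : u ∈ Submodule.span (Zb ℓ) (Λ : Set (X → Qb)))
    (hueq : H19.IsEquivariant act u) : u ∈ Λ := by
  classical
  haveI : IsPrincipalIdealRing ↥(GaloisRep.ratLocalizedAt ℓ) := inferInstance
  obtain ⟨ι, hι, b, hb⟩ := H19.good_of_equivariant (Rl ℓ) hone hact Λ hequiv hfg
  haveI := Fintype.ofFinite ι
  -- coordinates with integral coefficients
  have hcoord : ∀ v ∈ Submodule.span (Zb ℓ) (Λ : Set (X → Qb)),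
      ∃ W : ι → Qb, (∀ i, IsIntegral (Rl ℓ) (W i)) ∧ v = ∑ i, W i • ((b i : Λ) : X → Qb) := by
    intro v hv
    induction hv using Submodule.span_induction with
    | mem f hf =>
      refine ⟨fun i => algebraMap (Rl ℓ) Qb (b.repr ⟨f, hf⟩ i), fun i => isIntegral_algebraMap, ?_⟩
      have h1 := congrArg (fun g : Λ => (g : X → Qb)) (b.sum_repr ⟨f, hf⟩)
      simp only at h1
      refine h1.symm.trans ?_
      rw [AddSubmonoidClass.coe_finsetSum]
      refine Finset.sum_congr rfl fun i _ => ?_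
      show ((b.repr ⟨f, hf⟩ i) • ((b i : Λ) : X → Qb)) = _
      rw [algebraMap_smul]
    | zero => exact ⟨0, fun i => isIntegral_zero, by simp⟩
    | add x y _ _ hx hy =>
      obtain ⟨W, hW, rfl⟩ := hx
      obtain ⟨W', hW', rfl⟩ := hy
      refine ⟨W + W', fun i => (hW i).add (hW' i), ?_⟩
      simp [add_smul, Finset.sum_add_distrib]
    | smul z x _ hx =>
      obtain ⟨W, hW, rfl⟩ := hx
      refine ⟨fun i => (z : Qb) * W i, fun i => z.2.mul (hW i), ?_⟩
      show (z : Qb) • (∑ i, W i • ((b i : Λ) : X → Qb)) = _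
      rw [Finset.smul_sum]
      refine Finset.sum_congr rfl fun i _ => ?_
      rw [smul_smul]
  obtain ⟨W, hW, rfl⟩ := hcoord u hu
  have hpt : ∀ m : X, (∑ i, W i • ((b i : Λ) : X → Qb)) m = ∑ i, W i * ((b i : Λ) : X → Qb) m := by
    intro m
    simp [Finset.sum_apply]
  have hfix : ∀ (σ : GalQ) (i : ι), σ (W i) = W i := by
    intro σ
    have h0 : ∑ i, (σ (W i) - W i) • ((b i : Λ) : X → Qb) = 0 := by
      funext m
      simp only [Finset.sum_apply, Pi.smul_apply, smul_eq_mul, Pi.zero_apply, sub_mul,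
        Finset.sum_sub_distrib]
      have h1 := hueq σ⁻¹ m
      rw [hpt, hpt] at h1
      have h2 := congrArg σ h1
      rw [map_sum] at h2
      have h3 : σ (σ⁻¹ (∑ i, W i * ((b i : Λ) : X → Qb) m)) = ∑ i, W i * ((b i : Λ) : X → Qb) m :=
        AlgEquiv.apply_symm_apply σ _
      rw [h3] at h2
      rw [← h2, sub_eq_zero]
      refine Finset.sum_congr rfl fun i _ => ?_
      rw [map_mul, hequiv _ (b i).2 σ⁻¹ m]
      congr 1
      exact (AlgEquiv.apply_symm_apply σ (((b i : Λ) : X → Qb) m)).symm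
    intro i
    have := (Fintype.linearIndependent_iff.mp hb) _ h0 i
    exact sub_eq_zero.mp this
  have hr : ∀ i, ∃ r : Rl ℓ, algebraMap (Rl ℓ) Qb r = W i := fun i =>
    H19.mem_range_of_fixed_of_isIntegral (Rl ℓ) isIntegrallyClosed_Rl (W i)
      (fun σ => hfix σ i) (hW i)
  choose r hr using hr
  have : ∑ i, W i • ((b i : Λ) : X → Qb) = ∑ i, r i • ((b i : Λ) : X → Qb) := by
    refine Finset.sum_congr rfl fun i _ => ?_
    rw [← hr i, algebraMap_smul]
  rw [this]
  exact Subalgebra.sum_mem _ fun i _ => Subalgebra.smul_mem _ (b i).2 _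

end Fermat.Agent.S19.H15

end

end
-- ===== PACK-END S19/H15/OrdDescent.lean

-- ===== PACK-BEGIN S19/H15/OrdFG.lean
section


/-!
# Cell A3 (S19) — node ORD, part 3 (helper15): finite generation

`exists_bound`: for a finitely generated, separating `ℤ_(ℓ)`-subalgebra `H₀` of equivariant
functions on a finite `Gal`-set `M` there is `d ≠ 0` in `ℤ_(ℓ)` with `d • u ∈ H₀` for EVERY
equivariant function `u` with integral values (Gram matrix of the pairing `Σ_m f(m) g(m)`).

`ordAlg_fg`: the algebra generated by the generators of an order datum is a finitely generated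
`ℤ_(ℓ)`-module.
-/

set_option autoImplicit false
set_option linter.style.haveILetI false

noncomputable section

namespace Fermat.Agent.S19.H15

open Fermat.Agent.S19
open scoped Matrix

variable {ℓ : ℕ} [Fact ℓ.Prime]

omit [Fact ℓ.Prime] in
/-- A function on a finite set with integral values is integral. -/
theorem isIntegral_of_forall_apply {X : Type} [Finite X] (f : X → Qb)
    (hf : ∀ x, IsIntegral (Rl ℓ) (f x)) : IsIntegral (Rl ℓ) f := by
  classical
  haveI := Fintype.ofFinite X
  choose p hp hp0 using hf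
  refine ⟨∏ x, p x, Polynomial.monic_prod_of_monic _ _ fun x _ => hp x, ?_⟩
  funext y
  have h1 : (Polynomial.eval₂ (algebraMap (Rl ℓ) (X → Qb)) f (∏ x, p x)) y =
      Polynomial.eval₂ (algebraMap (Rl ℓ) Qb) (f y) (∏ x, p x) := by
    have := Polynomial.aeval_algHom_apply (Pi.evalAlgHom (Rl ℓ) (fun _ : X => Qb) y) f (∏ x, p x)
    simp only [Polynomial.aeval_def, Pi.evalAlgHom_apply] at this
    exact this.symm
  rw [h1, Polynomial.eval₂_finsetProd]
  exact Finset.prod_eq_zero (Finset.mem_univ y) (hp0 y)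

section Bound

variable {M : Type} {act : GalQ → M → M}

/-- the pairing -/
def pair [Fintype M] (f g : M → Qb) : Qb := ∑ m, f m * g m

theorem pair_fixed [Fintype M] (hone : ∀ m, act 1 m = m)
    (hact : ∀ σ τ m, act σ (act τ m) = act (σ * τ) m)
    {f g : M → Qb} (hf : H19.IsEquivariant act f) (hg : H19.IsEquivariant act g) (σ : GalQ) :
    σ (pair f g) = pair f g := by
  unfold pair
  rw [map_sum]
  let e : M ≃ M :=
    { toFun := act σ
      invFun := act σ⁻¹
      left_inv := fun m => by rw [hact, inv_mul_cancel, hone]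
      right_inv := fun m => by rw [hact, mul_inv_cancel, hone] }
  rw [← Equiv.sum_comp e (fun m => f m * g m)]
  refine Finset.sum_congr rfl fun m _ => ?_
  show σ (f m * g m) = f (act σ m) * g (act σ m)
  rw [map_mul, hf σ m, hg σ m]

omit [Fact ℓ.Prime] in
theorem pair_integral [Fintype M] {f g : M → Qb} (hf : ∀ m, IsIntegral (Rl ℓ) (f m))
    (hg : ∀ m, IsIntegral (Rl ℓ) (g m)) : IsIntegral (Rl ℓ) (pair f g) :=
  IsIntegral.sum _ fun m _ => (hf m).mul (hg m)

theorem exists_Rl_pair [Fintype M] (hone : ∀ m, act 1 m = m)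
    (hact : ∀ σ τ m, act σ (act τ m) = act (σ * τ) m)
    {f g : M → Qb} (hf : H19.IsEquivariant act f) (hg : H19.IsEquivariant act g)
    (hfi : ∀ m, IsIntegral (Rl ℓ) (f m)) (hgi : ∀ m, IsIntegral (Rl ℓ) (g m)) :
    ∃ r : Rl ℓ, algebraMap (Rl ℓ) Qb r = pair f g := by
  haveI : IsPrincipalIdealRing ↥(GaloisRep.ratLocalizedAt ℓ) := inferInstance
  exact H19.mem_range_of_fixed_of_isIntegral (Rl ℓ)
    (fun q hq => H19.mem_of_isIntegral_of_pid (Rl ℓ) q hq) _
    (fun σ => pair_fixed hone hact hf hg σ) (pair_integral hfi hgi)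

omit [Fact ℓ.Prime] in
/-- The `Q̄`-span of a separating subalgebra is everything. -/
theorem span_Qb_eq_top [Finite M] (H₀ : Subalgebra (Rl ℓ) (M → Qb))
    (hsep : ∀ m m' : M, m ≠ m' → ∃ f ∈ H₀, f m ≠ f m') :
    Submodule.span Qb (H₀ : Set (M → Qb)) = ⊤ := by
  have h1 : Algebra.adjoin Qb (H₀ : Set (M → Qb)) = ⊤ := by
    apply H19.subalgebra_eq_top_of_separates
    intro m m' hne
    obtain ⟨f, hf, hfm⟩ := hsep m m' hne
    exact ⟨f, Algebra.subset_adjoin hf, hfm⟩
  have h2 := Algebra.adjoin_eq_span Qb (H₀ : Set (M → Qb))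
  have h3 : Submonoid.closure (H₀ : Set (M → Qb)) = H₀.toSubmonoid :=
    Submonoid.closure_eq H₀.toSubmonoid
  rw [h3, h1] at h2
  rw [eq_top_iff]
  intro x _
  have : x ∈ Subalgebra.toSubmodule (⊤ : Subalgebra Qb (M → Qb)) := by simp
  rw [h2] at this
  exact this

/-- **Bounded denominators.** -/
theorem exists_bound [Finite M] (hone : ∀ m, act 1 m = m)
    (hact : ∀ σ τ m, act σ (act τ m) = act (σ * τ) m)
    (H₀ : Subalgebra (Rl ℓ) (M → Qb)) (hequiv : ∀ f ∈ H₀, H19.IsEquivariant act f)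
    (hfg : (Subalgebra.toSubmodule H₀).FG)
    (hsep : ∀ m m' : M, m ≠ m' → ∃ f ∈ H₀, f m ≠ f m') :
    ∃ d : Rl ℓ, d ≠ 0 ∧ ∀ u : M → Qb, H19.IsEquivariant act u →
      (∀ m, IsIntegral (Rl ℓ) (u m)) → d • u ∈ H₀ := by
  classical
  haveI := Fintype.ofFinite M
  haveI : IsPrincipalIdealRing ↥(GaloisRep.ratLocalizedAt ℓ) := inferInstance
  obtain ⟨ι, hι, b, hb⟩ := H19.good_of_equivariant (Rl ℓ) hone hact H₀ hequiv hfg
  haveI := Fintype.ofFinite ι
  -- the basis functions
  set e : ι → M → Qb := fun i => ((b i : H₀) : M → Qb) with he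
  have hemem : ∀ i, e i ∈ H₀ := fun i => (b i).2
  have heq : ∀ i, H19.IsEquivariant act (e i) := fun i => hequiv _ (hemem i)
  have hint₀ : ∀ f ∈ H₀, ∀ m, IsIntegral (Rl ℓ) (f m) := by
    intro f hf m
    haveI : Module.Finite (Rl ℓ) H₀ := Module.Finite.iff_fg.mpr hfg
    have h1 : IsIntegral (Rl ℓ) (⟨f, hf⟩ : H₀) := Algebra.IsIntegral.isIntegral _
    exact h1.map (H19.IsOrder.evPt H₀ m)
  have hei : ∀ i m, IsIntegral (Rl ℓ) (e i m) := fun i m => hint₀ _ (hemem i) m
  have hli : LinearIndependent Qb e := hb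
  -- every function is a `Q̄`-combination of the `e i`
  have hspan : ∀ u : M → Qb, ∃ c : ι → Qb, u = ∑ i, c i • e i := by
    have h1 : Submodule.span Qb (Set.range e) = ⊤ := by
      rw [eq_top_iff, ← span_Qb_eq_top H₀ hsep]
      refine Submodule.span_le.mpr ?_
      intro f hf
      have h2 := congrArg (fun g : H₀ => (g : M → Qb)) (b.sum_repr ⟨f, hf⟩)
      simp only at h2
      rw [SetLike.mem_coe, ← h2, AddSubmonoidClass.coe_finsetSum]
      refine Submodule.sum_mem _ fun i _ => ?_
      have h3 : (((b.repr ⟨f, hf⟩ i) • b i : H₀) : M → Qb) =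
          (algebraMap (Rl ℓ) Qb (b.repr ⟨f, hf⟩ i)) • e i := by
        rw [algebraMap_smul]
        rfl
      rw [h3]
      exact Submodule.smul_mem _ _ (Submodule.subset_span ⟨i, rfl⟩)
    intro u
    have hu : u ∈ Submodule.span Qb (Set.range e) := by rw [h1]; trivial
    obtain ⟨c, hc⟩ := (Submodule.mem_span_range_iff_exists_fun Qb).mp hu
    exact ⟨c, hc.symm⟩
  -- Gram matrix
  choose g hg using fun i j => exists_Rl_pair (ℓ := ℓ) hone hact (heq i) (heq j) (hei i) (hei j)
  let G : Matrix ι ι (Rl ℓ) := Matrix.of g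
  let GQ : Matrix ι ι Qb := G.map (algebraMap (Rl ℓ) Qb)
  have hGQ : ∀ i j, GQ i j = pair (e i) (e j) := fun i j => hg i j
  have hpair_sum : ∀ (c : ι → Qb) (j : ι), pair (∑ i, c i • e i) (e j) = (c ᵥ* GQ) j := by
    intro c j
    simp only [pair, Matrix.vecMul, dotProduct, hGQ, Finset.sum_apply, Pi.smul_apply,
      smul_eq_mul, Finset.sum_mul, Finset.mul_sum]
    rw [Finset.sum_comm]
    refine Finset.sum_congr rfl fun i _ => Finset.sum_congr rfl fun m _ => by ring
  have hdetQ : GQ.det = algebraMap (Rl ℓ) Qb G.det := (RingHom.map_det _ _).symm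
  have hinj : Function.Injective (algebraMap (Rl ℓ) Qb) := H19.algebraMap_subring_injective (Rl ℓ)
  -- the determinant is nonzero
  have hdet : G.det ≠ 0 := by
    intro h0
    have h1 : GQ.det = 0 := by rw [hdetQ, h0, map_zero]
    obtain ⟨x, hx0, hx⟩ := Matrix.exists_vecMul_eq_zero_iff.mpr h1
    -- `w = Σ x i • e i` is orthogonal to everything
    set w : M → Qb := ∑ i, x i • e i with hw
    have hwe : ∀ j, pair w (e j) = 0 := by
      intro j
      rw [hw, hpair_sum, hx]
      rfl
    have hwall : ∀ f : M → Qb, pair w f = 0 := by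
      intro f
      obtain ⟨c, rfl⟩ := hspan f
      have : pair w (∑ i, c i • e i) = ∑ i, c i * pair w (e i) := by
        simp only [pair, Finset.sum_apply, Pi.smul_apply, smul_eq_mul, Finset.mul_sum]
        rw [Finset.sum_comm]
        refine Finset.sum_congr rfl fun i _ => Finset.sum_congr rfl fun m _ => by ring
      rw [this]
      exact Finset.sum_eq_zero fun i _ => by rw [hwe i, mul_zero]
    have hw0 : w = 0 := by
      funext m
      have := hwall (Pi.single m 1)
      simp only [pair, Pi.single_apply, mul_ite, mul_one, mul_zero, Finset.sum_ite_eq',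
        Finset.mem_univ, if_true] at this
      exact this
    have hx' := (Fintype.linearIndependent_iff.mp hli) x (hw ▸ hw0)
    exact hx0 (funext hx')
  refine ⟨G.det, hdet, fun u hu hui => ?_⟩
  obtain ⟨c, rfl⟩ := hspan u
  -- the pairings with the basis are in `R`
  choose r hr using fun j =>
    exists_Rl_pair (ℓ := ℓ) hone hact hu (heq j) hui (hei j)
  have hv : c ᵥ* GQ = fun j => algebraMap (Rl ℓ) Qb (r j) := by
    funext j
    rw [← hpair_sum, hr j]
  -- multiply by the adjugate
  have hadj : (GQ.det) • c = (fun j => algebraMap (Rl ℓ) Qb (r j)) ᵥ* GQ.adjugate := by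
    rw [← hv, Matrix.vecMul_vecMul, Matrix.mul_adjugate, Matrix.vecMul_smul, Matrix.vecMul_one]
  have hadj' : GQ.adjugate = G.adjugate.map (algebraMap (Rl ℓ) Qb) :=
    (RingHom.map_adjugate _ _).symm
  have hci : ∀ i, algebraMap (Rl ℓ) Qb G.det * c i =
      algebraMap (Rl ℓ) Qb (∑ j, r j * G.adjugate j i) := by
    intro i
    have := congrFun hadj i
    rw [Pi.smul_apply, smul_eq_mul, hdetQ] at this
    rw [this, hadj', map_sum]
    simp only [Matrix.vecMul, dotProduct, Matrix.map_apply, map_mul]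
  have hfinal : G.det • (∑ i, c i • e i) = ∑ i, (∑ j, r j * G.adjugate j i) • e i := by
    rw [Finset.smul_sum]
    refine Finset.sum_congr rfl fun i _ => ?_
    funext m
    simp only [Pi.smul_apply, smul_eq_mul]
    rw [Algebra.smul_def, Algebra.smul_def, ← mul_assoc, hci i]
  rw [hfinal]
  exact Subalgebra.sum_mem _ fun i _ => Subalgebra.smul_mem _ (hemem i) _

end Bound

end Fermat.Agent.S19.H15

end

end
-- ===== PACK-END S19/H15/OrdFG.lean

-- ===== PACK-BEGIN S19/H15/Ord.lean
section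



/-!
# Cell A3 (S19) — node ORD (helper15): `ordStatement : OrdStatement`

An `OrderDatum` on a finite module gives a finite flat commutative cocommutative Hopf algebra over
`ℤ_(ℓ)` with the prescribed points.  The Hopf algebra itself is helper19's
`H19.exists_hopf_of_equivariant_order`; this file supplies its hypotheses for
`H := Algebra.adjoin ℤ_(ℓ) gens`:

* `ordAlg_fg`    : `H` is a finitely generated module (bounded denominators, `exists_bound`);
* `ordAlg_comul` : `f ∘ add` lies in the image of `H ⊗ H` (descent `Z̄_(ℓ) → ℤ_(ℓ)` of `add_mem`).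
-/

set_option autoImplicit false
set_option linter.style.haveILetI false

noncomputable section

namespace Fermat.Agent.S19.H15

open Fermat.Agent.S19
open scoped TensorProduct

variable {ℓ : ℕ} [Fact ℓ.Prime] {M : Type} [AddCommGroup M] [Finite M] {act : GalQ → M → M}

/-- The algebra of an order datum is a finitely generated module. -/
theorem ordAlg_fg (D : OrderDatum ℓ M act) : (Subalgebra.toSubmodule (ordAlg D)).FG := by
  classical
  haveI : IsPrincipalIdealRing ↥(GaloisRep.ratLocalizedAt ℓ) := inferInstance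
  haveI : IsNoetherianRing ↥(Rl ℓ) := inferInstance
  -- a finite separating set of generators
  have hex : ∀ p : {p : M × M // p.1 ≠ p.2}, ∃ f ∈ D.gens, f p.1.1 ≠ f p.1.2 := by
    intro p
    by_contra hcon
    push Not at hcon
    exact p.2 (D.separates _ _ hcon)
  choose F hF hFne using hex
  set H₀ : Subalgebra (Rl ℓ) (M → Qb) := Algebra.adjoin (Rl ℓ) (Set.range F) with hH₀
  have hle : H₀ ≤ ordAlg D := Algebra.adjoin_mono (by rintro _ ⟨p, rfl⟩; exact hF p)
  have hfg₀ : (Subalgebra.toSubmodule H₀).FG :=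
    fg_adjoin_of_finite (Set.finite_range F) (by
      rintro _ ⟨p, rfl⟩
      exact isIntegral_of_forall_apply _ (D.integral _ (hF p)))
  have hsep₀ : ∀ m m' : M, m ≠ m' → ∃ f ∈ H₀, f m ≠ f m' := fun m m' hne =>
    ⟨F ⟨(m, m'), hne⟩, Algebra.subset_adjoin ⟨_, rfl⟩, hFne ⟨(m, m'), hne⟩⟩
  obtain ⟨d, hd0, hd⟩ := exists_bound (act_one D) (act_mul D) H₀
    (fun f hf => ordAlg_equivariant D f (hle hf)) hfg₀ hsep₀
  let φ : (M → Qb) →ₗ[Rl ℓ] (M → Qb) := LinearMap.lsmul (Rl ℓ) (M → Qb) d
  have hφ : Function.Injective φ := by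
    intro u v huv
    funext m
    have h1 := congrFun huv m
    simp only [φ, LinearMap.lsmul_apply, Pi.smul_apply, Algebra.smul_def] at h1
    have h2 : algebraMap (Rl ℓ) Qb d ≠ 0 := fun h =>
      hd0 (H19.algebraMap_subring_injective (Rl ℓ) (h.trans (map_zero _).symm))
    exact mul_left_cancel₀ h2 h1
  have hmap : (Subalgebra.toSubmodule (ordAlg D)).map φ ≤ Subalgebra.toSubmodule H₀ := by
    rintro _ ⟨u, hu, rfl⟩
    exact hd u (ordAlg_equivariant D u hu) (ordAlg_integral D u hu)
  exact Submodule.fg_of_fg_map_injective φ hφ (Submodule.FG.of_le hfg₀ hmap)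

/-- the diagonal action on pairs -/
def act₂ (act : GalQ → M → M) (σ : GalQ) (p : M × M) : M × M := (act σ p.1, act σ p.2)

omit [Fact ℓ.Prime] [Finite M] in
theorem range_prodMap_equivariant (D : OrderDatum ℓ M act) :
    ∀ F ∈ (H19.prodMap (ordAlg D).val (ordAlg D).val).range,
      H19.IsEquivariant (act₂ act) F := by
  rintro _ ⟨t, rfl⟩
  induction t using TensorProduct.induction_on with
  | zero =>
    intro σ p
    simp
  | tmul a b =>
    intro σ p
    show (H19.prodMap (ordAlg D).val (ordAlg D).val) (a ⊗ₜ[Rl ℓ] b) (act₂ act σ p) =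
      σ ((H19.prodMap (ordAlg D).val (ordAlg D).val) (a ⊗ₜ[Rl ℓ] b) p)
    rw [H19.prodMap_tmul, H19.prodMap_tmul]
    show (a : M → Qb) (act σ p.1) * (b : M → Qb) (act σ p.2) = _
    rw [ordAlg_equivariant D _ a.2 σ, ordAlg_equivariant D _ b.2 σ, map_mul]
    rfl
  | add x y hx hy =>
    intro σ p
    rw [map_add, Pi.add_apply, Pi.add_apply, hx σ p, hy σ p, map_add]

theorem range_prodMap_fg (D : OrderDatum ℓ M act) :
    (Subalgebra.toSubmodule (H19.prodMap (ordAlg D).val (ordAlg D).val).range).FG := by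
  haveI : Module.Finite (Rl ℓ) (ordAlg D) := Module.Finite.iff_fg.mpr (ordAlg_fg D)
  have h1 : (⊤ : Submodule (Rl ℓ) ((ordAlg D) ⊗[Rl ℓ] (ordAlg D))).FG := Module.Finite.fg_top
  have h2 := h1.map (H19.prodMap (ordAlg D).val (ordAlg D).val).toLinearMap
  convert h2 using 1
  ext x
  simp [AlgHom.mem_range]

omit [Fact ℓ.Prime] [Finite M] in
theorem coordFunctions_subset_range (D : OrderDatum ℓ M act) :
    coordFunctions D.gens ⊆
      ((H19.prodMap (ordAlg D).val (ordAlg D).val).range : Set (M × M → Qb)) := by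
  rintro _ (⟨h, hh, rfl⟩ | ⟨h, hh, rfl⟩)
  · refine ⟨(⟨h, gens_le_ordAlg D hh⟩ : ordAlg D) ⊗ₜ[Rl ℓ] 1, ?_⟩
    funext p
    show (H19.prodMap (ordAlg D).val (ordAlg D).val)
      ((⟨h, gens_le_ordAlg D hh⟩ : ordAlg D) ⊗ₜ[Rl ℓ] 1) p = h p.1
    rw [H19.prodMap_tmul]
    simp
  · refine ⟨(1 : ordAlg D) ⊗ₜ[Rl ℓ] (⟨h, gens_le_ordAlg D hh⟩ : ordAlg D), ?_⟩
    funext p
    show (H19.prodMap (ordAlg D).val (ordAlg D).val)
      ((1 : ordAlg D) ⊗ₜ[Rl ℓ] (⟨h, gens_le_ordAlg D hh⟩ : ordAlg D)) p = h p.2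
    rw [H19.prodMap_tmul]
    simp

/-- `f ∘ add` lies in the image of `H ⊗ H`, for the generators. -/
theorem gens_comul (D : OrderDatum ℓ M act) (f : M → Qb) (hf : f ∈ D.gens) :
    (fun p : M × M => f (p.1 + p.2)) ∈ (H19.prodMap (ordAlg D).val (ordAlg D).val).range := by
  set Λ₂ := (H19.prodMap (ordAlg D).val (ordAlg D).val).range with hΛ₂
  refine mem_of_mem_span_of_equivariant (act := act₂ act)
    (fun p => Prod.ext (act_one D p.1) (act_one D p.2))
    (fun σ τ p => Prod.ext (act_mul D σ τ p.1) (act_mul D σ τ p.2))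
    Λ₂ (range_prodMap_equivariant D) (range_prodMap_fg D) ?_ ?_
  · -- membership in the `Zb`-span
    have h1 : Algebra.adjoin (Zb ℓ) (coordFunctions D.gens) ≤
        Algebra.adjoin (Zb ℓ) (Λ₂ : Set (M × M → Qb)) :=
      Algebra.adjoin_mono (coordFunctions_subset_range D)
    have h2 := Algebra.adjoin_eq_span (Zb ℓ) (Λ₂ : Set (M × M → Qb))
    have h3 : Submonoid.closure (Λ₂ : Set (M × M → Qb)) = Λ₂.toSubmonoid :=
      Submonoid.closure_eq Λ₂.toSubmonoid
    rw [h3] at h2
    have h4 : (fun p : M × M => f (p.1 + p.2)) ∈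
        Subalgebra.toSubmodule (Algebra.adjoin (Zb ℓ) (Λ₂ : Set (M × M → Qb))) :=
      h1 (D.add_mem f hf)
    rw [h2] at h4
    exact h4
  · intro σ p
    show f (act σ p.1 + act σ p.2) = σ (f (p.1 + p.2))
    rw [← D.act_add, D.equivariant f hf]

/-- `f ∘ add` lies in the image of `H ⊗ H`, for all `f ∈ H`. -/
theorem ordAlg_comul (D : OrderDatum ℓ M act) :
    ∀ f ∈ ordAlg D, (fun p : M × M => f (p.1 + p.2)) ∈
      (H19.prodMap (ordAlg D).val (ordAlg D).val).range := by
  have h : ordAlg D ≤ (H19.prodMap (ordAlg D).val (ordAlg D).val).range.comap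
      (H19.pullback (Rl ℓ) Qb (fun p : M × M => p.1 + p.2)) :=
    Algebra.adjoin_le fun f hf => gens_comul D f hf
  exact fun f hf => h hf

/-- **Node ORD.** -/
theorem ordStatement : OrdStatement := by
  intro ℓ _ M _ _ act hD
  obtain ⟨D⟩ := hD
  haveI : IsPrincipalIdealRing ↥(GaloisRep.ratLocalizedAt ℓ) := inferInstance
  exact H19.exists_hopf_of_equivariant_order (Rl ℓ) isIntegrallyClosed_Rl
    (act_one D) (act_mul D) (act_zero D) (ordAlg D) (ordAlg_equivariant D) (ordAlg_fg D)
    (ordAlg_separates D) (ordAlg_comul D)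

end Fermat.Agent.S19.H15

end

end
-- ===== PACK-END S19/H15/Ord.lean

-- ===== PACK-BEGIN S56/H906/FlatOSpec.lean
section



/-!
# Row S56 — FLAT-O (flat tangent bound at `p`, reducible case): interface (helper906)

Plan and all the mathematics: `coord/S56-FLATO-helper906.md` on `origin/helper906`.

`FlatOStatement`  ⇐  (FI) + (FT) + (FU) + (KUM) + (TAMEFROB) + (UNRHOM)      (assembly = piece ASM)

Everything local at `p` is phrased on the landed A3 Hopf lattices
(`Fermat.Agent.S19.H435.IsHopfLattice`): a `ℤ_(p)`-subalgebra `Λ ⊂ (M → ℚ̄)` of equivariant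
functions on a finite Galois module `M`, closed under `f ↦ f(x + y)`.  A Prelude `IsFlatAt`
gives such a lattice by `Fermat.Agent.S19.H435.exists_isHopfLattice_of_hopfModel`; quotients
are `IsHopfLattice.quotient`.

* `UnrValStatement` (UNR): an inertia-fixed element of `ℚ̄` has the valuation of a power of `p`.
* `LemmaAStatement` (A): a point of order `p` all of whose coordinates are `≡` the coordinates
  of `0` modulo `lam`, where `v(lam)^(p-1) < v(p)`, is `0`.
* `FlatInertiaStatement` (FI): an inertia-fixed point in the subgroup generated by the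
  `σ y - y`, `σ ∈ I_P`, is `0`.                                           [(UNR) + (A)]
* `FlatTameStatement` (FT): if inertia acts on `x ≠ 0` through `𝔽_p^×`, the character is trivial
  or the cyclotomic character.                                        [(UNR) + (A) + leading terms]
* `FlatUnitStatement` (FU): unit resolvent = "peu ramifié".
* `KumStatement` (KUM): the peu ramifié classes in `H¹(D_P, k(a))`, `a|_I = ω`, span `≤ 1`
  dimension.
* `TameFrobStatement`, `UnramHomStatement`: structure of `D_P / wild inertia`.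

Nothing is proved in this file; nothing is `sorry`.
-/

set_option autoImplicit false

open Polynomial IsLocalRing

noncomputable section

namespace Fermat.Agent.S56.H906

open Fermat.Agent.S56 Fermat.Agent.S56.H716

/-- `ℤ_(p)` (the Prelude ring). -/
abbrev Zp (p : ℕ) : Type := Fermat.Agent.S19.H435.Zl p

/-- Hopf lattices of cell A3. -/
abbrev IsHL (p : ℕ) {M : Type} [AddCommGroup M] (act : GQ → M → M)
    (Λ : Subalgebra (Zp p) (M → Qb)) : Prop :=
  Fermat.Agent.S19.H435.IsHopfLattice p act Λ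

/-! ## Local flatness inputs -/

/-- (UNR) the inertia field is unramified: the valuation of an inertia-fixed element is an
integral power of the valuation of `p`. -/
def UnrValStatement : Prop :=
  ∀ p : ℕ, p.Prime → ∀ P : ValuationSubring Qb, P.LiesOverPrime p →
    ∀ y : Qb, y ≠ 0 → (∀ σ ∈ P.inertiaSubgroupIn ℚ, σ y = y) →
      ∃ n : ℤ, P.valuation y = P.valuation (p : Qb) ^ n

/-- (A) rigidity of points of order `p` ("Lemma A", all `p`; for `lam = p` it needs `p ≥ 3`). -/
def LemmaAStatement : Prop :=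
  ∀ (p : ℕ) [Fact p.Prime] (M : Type) [AddCommGroup M] [Finite M] (act : GQ → M → M)
    (Λ : Subalgebra (Zp p) (M → Qb)), IsHL p act Λ →
    ∀ P : ValuationSubring Qb, P.LiesOverPrime p →
    ∀ (x : M) (lam : Qb), p • x = 0 →
      P.valuation lam ^ (p - 1) < P.valuation (p : Qb) →
      (∀ f ∈ Λ, P.valuation (f x - f 0) ≤ P.valuation lam) → x = 0

/-- (FI) connected–étale, Galois-module form: `(I_aug M) ∩ M^I = 0` for a flat `M` killed by
`p`, `p` odd. -/
def FlatInertiaStatement : Prop :=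
  ∀ (p : ℕ) [Fact p.Prime], p ≠ 2 →
    ∀ (M : Type) [AddCommGroup M] [Finite M] (act : GQ → M → M)
    (Λ : Subalgebra (Zp p) (M → Qb)), IsHL p act Λ → (∀ x : M, p • x = 0) →
    ∀ P : ValuationSubring Qb, P.LiesOverPrime p → ∀ x : M,
      (∀ σ ∈ P.inertiaSubgroupIn ℚ, act σ x = x) →
      x ∈ AddSubgroup.closure
        {z : M | ∃ σ ∈ P.inertiaSubgroupIn ℚ, ∃ y : M, z = act σ y - y} →
      x = 0

/-- (FT) Raynaud's tame characters in the only case needed: if inertia acts on a nonzero point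
`x` of a flat `M` (killed by `p`, `p` odd) through scalars of `𝔽_p`, then it acts trivially or
through the cyclotomic character. -/
def FlatTameStatement : Prop :=
  ∀ (p : ℕ) [Fact p.Prime], p ≠ 2 →
    ∀ (M : Type) [AddCommGroup M] [Finite M] (act : GQ → M → M)
    (Λ : Subalgebra (Zp p) (M → Qb)), IsHL p act Λ → (∀ x : M, p • x = 0) →
    ∀ P : ValuationSubring Qb, P.LiesOverPrime p → ∀ x : M, x ≠ 0 →
      (∀ τ ∈ P.inertiaSubgroupIn ℚ, ∃ n : ℕ, act τ x = n • x) →
      (∀ τ ∈ P.inertiaSubgroupIn ℚ, act τ x = x) ∨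
        (∀ τ ∈ P.inertiaSubgroupIn ℚ, ∀ a : ℕ, IsCycExp p τ a → act τ x = a • x)

/-- (FU) unit resolvent.  `H := {σ ∈ I_P : σ ζ = ζ}`; `L ⊂ M` a subgroup fixed pointwise by `H`
and containing all `σ y - y` (`σ ∈ H`).  Then for every point `x` and every additive character
`ξ : M → 𝔽_p` the Kummer character `σ ↦ ζ^{ξ(σ x - x)}` of `H` is the Kummer character of a
`P`-unit. -/
def FlatUnitStatement : Prop :=
  ∀ (p : ℕ) [Fact p.Prime]
    (M : Type) [AddCommGroup M] [Finite M] (act : GQ → M → M)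
    (Λ : Subalgebra (Zp p) (M → Qb)), IsHL p act Λ → (∀ x : M, p • x = 0) →
    ∀ P : ValuationSubring Qb, P.LiesOverPrime p →
    ∀ ζ : Qb, IsPrimitiveRoot ζ p → ∀ L : AddSubgroup M,
      (∀ σ ∈ P.inertiaSubgroupIn ℚ, σ ζ = ζ → ∀ t ∈ L, act σ t = t) →
      (∀ σ ∈ P.inertiaSubgroupIn ℚ, σ ζ = ζ → ∀ y : M, act σ y - y ∈ L) →
      ∀ (ξ : M →+ ZMod p) (x : M),
        ∃ B : Qb, P.valuation B = 1 ∧
          ∀ σ ∈ P.inertiaSubgroupIn ℚ, σ ζ = ζ → σ B = ζ ^ (ξ (act σ x - x)).val * B

/-! ## Local Galois cohomology at `p` -/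

section Loc

variable (p : ℕ) (P : ValuationSubring Qb) {k : Type} [Field k]

/-- `a` has finite level on `D_P`. -/
def HasLevelOn (a : GQ → k) : Prop :=
  ∃ L : IntermediateField ℚ Qb, FiniteDimensional ℚ L ∧
    ∀ σ ∈ P.decompositionSubgroup ℚ, ∀ τ ∈ P.decompositionSubgroup ℚ,
      (∀ x ∈ L, τ x = x) → a (σ * τ) = a σ

/-- `a : G_ℚ → k` restricts to a character of `D_P` of finite level. -/
structure IsLocChar (a : GQ → k) : Prop where
  map_one : a 1 = 1
  map_mul : ∀ σ ∈ P.decompositionSubgroup ℚ, ∀ τ ∈ P.decompositionSubgroup ℚ,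
    a (σ * τ) = a σ * a τ
  level : HasLevelOn P a

/-- `a` is a character of `D_P` which is the mod-`p` cyclotomic character on inertia. -/
structure IsOrdChar (a : GQ → k) : Prop extends IsLocChar P a where
  cyc : ∀ σ ∈ P.inertiaSubgroupIn ℚ, ∀ n : ℕ, IsCycExp p σ n → a σ = (n : k)

/-- `c` restricts to a cocycle `D_P → k(a)` of finite level. -/
structure IsLocCocycle (a c : GQ → k) : Prop where
  map_mul : ∀ σ ∈ P.decompositionSubgroup ℚ, ∀ τ ∈ P.decompositionSubgroup ℚ,
    c (σ * τ) = c σ + a σ * c τ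
  level : HasLevelOn P c

/-- `c` is *peu ramifié*: every `𝔽_p`-component of `c`, restricted to `{σ ∈ I_P : σ ζ = ζ}`,
is the Kummer character of a `P`-unit. -/
def IsPeu (c : GQ → k) : Prop :=
  ∀ ζ : Qb, IsPrimitiveRoot ζ p → ∀ ℓ : k →+ ZMod p,
    ∃ B : Qb, P.valuation B = 1 ∧
      ∀ σ ∈ P.inertiaSubgroupIn ℚ, σ ζ = ζ → σ B = ζ ^ (ℓ (c σ)).val * B

end Loc

/-- (KUM) the peu ramifié classes in `H¹(D_P, k(a))`, `a|_{I_P}` cyclotomic, span at most one
dimension. -/
def KumStatement : Prop :=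
  ∀ (p : ℕ) [Fact p.Prime], p ≠ 2 → ∀ (k : Type) [Field k] [Finite k] [CharP k p]
    (P : ValuationSubring Qb), P.LiesOverPrime p → ∀ a : GQ → k, IsOrdChar p P a →
    ∃ c₀ : GQ → k, ∀ c : GQ → k, IsLocCocycle P a c → IsPeu p P c →
      ∃ lam m : k, ∀ σ ∈ P.decompositionSubgroup ℚ, c σ = lam * c₀ σ + (a σ - 1) * m

/-- (TAMEFROB) a character `D_P → k^×` (`k` finite of characteristic `p`) has values in
`𝔽_p^×` on inertia. -/
def TameFrobStatement : Prop :=
  ∀ (p : ℕ) [Fact p.Prime] (k : Type) [Field k] [Finite k] [CharP k p]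
    (P : ValuationSubring Qb), P.LiesOverPrime p → ∀ a : GQ → k, IsLocChar P a →
    ∀ τ ∈ P.inertiaSubgroupIn ℚ, a τ ^ p = a τ

/-- (UNRHOM) `D_P / I_P` is procyclic: an unramified homomorphism `D_P → k` of finite level
vanishing at one (suitable) element `φ` vanishes. -/
def UnramHomStatement : Prop :=
  ∀ (p : ℕ), p.Prime → ∀ (P : ValuationSubring Qb), P.LiesOverPrime p →
    ∃ φ ∈ P.decompositionSubgroup ℚ, ∀ (k : Type) [Field k] (h : GQ → k),
      (∀ σ ∈ P.decompositionSubgroup ℚ, ∀ τ ∈ P.decompositionSubgroup ℚ,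
        h (σ * τ) = h σ + h τ) →
      HasLevelOn P h → (∀ σ ∈ P.inertiaSubgroupIn ℚ, h σ = 0) → h φ = 0 →
      ∀ σ ∈ P.decompositionSubgroup ℚ, h σ = 0

/-! ## The local bound -/

section Top

variable {k : Type} [Field k] (ρbar : ResidualGaloisRep k) (P : ValuationSubring Qb)

/-- `H⁰(D_P, ad⁰ ρ̄)`: trace-zero endomorphisms commuting with `ρ̄(D_P)`. -/
def adInv : Submodule k (Module.End k ρbar.V) where
  carrier := {m | LinearMap.trace k ρbar.V m = 0 ∧
    ∀ σ ∈ P.decompositionSubgroup ℚ, ρbar.ρ σ * m = m * ρbar.ρ σ}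
  add_mem' := by
    rintro a b ⟨ha, ha'⟩ ⟨hb, hb'⟩
    refine ⟨by rw [map_add, ha, hb, add_zero], fun σ hσ => ?_⟩
    rw [mul_add, add_mul, ha' σ hσ, hb' σ hσ]
  zero_mem' := ⟨map_zero _, fun σ _ => by rw [mul_zero, zero_mul]⟩
  smul_mem' := by
    rintro r a ⟨ha, ha'⟩
    refine ⟨by rw [map_smul, ha, smul_zero], fun σ hσ => ?_⟩
    rw [mul_smul_comm, smul_mul_assoc, ha' σ hσ]

/-- `c` and `t` are cohomologous on `D_P` (as `ad⁰`-valued cochains). -/
def CohomOn (c t : GQ → Module.End k ρbar.V) : Prop :=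
  ∃ m : Module.End k ρbar.V, LinearMap.trace k ρbar.V m = 0 ∧
    ∀ σ ∈ P.decompositionSubgroup ℚ, c σ - t σ = ρbar.ρ σ * m * ρbar.ρ σ⁻¹ - m

end Top

/-- The local flat bound at `P | p`: all flat tangent cocycles (any `Q`) lie, on `D_P` and modulo
coboundaries, in one `k`-space of dimension `≤ h⁰(D_P, ad⁰ ρ̄) + 1`. -/
def LocalBoundFlatAt (𝒪 : Type) [CommRing 𝒪] [IsLocalRing 𝒪] (p : ℕ)
    (ρbar : ResidualGaloisRep (ResidueField 𝒪)) (Smin : Finset ℕ)
    (P : ValuationSubring Qb) : Prop :=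
  ∃ T : Submodule (ResidueField 𝒪) (GQ → Module.End (ResidueField 𝒪) ρbar.V),
    Module.Finite (ResidueField 𝒪) T ∧
    Module.finrank (ResidueField 𝒪) T ≤ Module.finrank (ResidueField 𝒪) (adInv ρbar P) + 1 ∧
    ∀ (Q : Finset ℕ) (c : GQ → Module.End (ResidueField 𝒪) ρbar.V),
      IsTanCocycle 𝒪 ρbar (flatCond 𝒪 p Smin Q) c → ∃ t ∈ T, CohomOn ρbar P c t

/-- `ρ̄|_{D_P}` is reducible. -/
def IsReducibleAt {k : Type} [Field k] (ρbar : ResidualGaloisRep k)
    (P : ValuationSubring Qb) : Prop :=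
  ∃ W : Submodule k ρbar.V, W ≠ ⊥ ∧ W ≠ ⊤ ∧
    ∀ σ ∈ P.decompositionSubgroup ℚ, ∀ x ∈ W, ρbar.ρ σ x ∈ W

/-- (FLAT-O) the local flat bound when `ρ̄|_{D_P}` is reducible. -/
def FlatOStatement : Prop :=
  ∀ (𝒪 : Type) [CommRing 𝒪] [IsDomain 𝒪] [IsDiscreteValuationRing 𝒪]
    [IsAdicComplete (maximalIdeal 𝒪) 𝒪] [Finite (ResidueField 𝒪)]
    (p : ℕ) (ρbar : ResidualGaloisRep (ResidueField 𝒪)) (S Smin : Finset ℕ),
    Hyp 𝒪 p ρbar S Smin → ∀ P : ValuationSubring Qb, P.LiesOverPrime p →
      IsReducibleAt ρbar P → LocalBoundFlatAt 𝒪 p ρbar Smin P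

/-- (FLAT-SS) the local flat bound when `ρ̄|_{D_P}` is irreducible (owner: FL plan of helper426). -/
def FlatSSStatement : Prop :=
  ∀ (𝒪 : Type) [CommRing 𝒪] [IsDomain 𝒪] [IsDiscreteValuationRing 𝒪]
    [IsAdicComplete (maximalIdeal 𝒪) 𝒪] [Finite (ResidueField 𝒪)]
    (p : ℕ) (ρbar : ResidualGaloisRep (ResidueField 𝒪)) (S Smin : Finset ℕ),
    Hyp 𝒪 p ρbar S Smin → ∀ P : ValuationSubring Qb, P.LiesOverPrime p →
      ¬ IsReducibleAt ρbar P → LocalBoundFlatAt 𝒪 p ρbar Smin P

/-- (FLAT) = (FLAT-O) + (FLAT-SS): the local flat bound at every `P | p`. -/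
def FlatStatement : Prop :=
  ∀ (𝒪 : Type) [CommRing 𝒪] [IsDomain 𝒪] [IsDiscreteValuationRing 𝒪]
    [IsAdicComplete (maximalIdeal 𝒪) 𝒪] [Finite (ResidueField 𝒪)]
    (p : ℕ) (ρbar : ResidualGaloisRep (ResidueField 𝒪)) (S Smin : Finset ℕ),
    Hyp 𝒪 p ρbar S Smin → ∀ P : ValuationSubring Qb, P.LiesOverPrime p →
      LocalBoundFlatAt 𝒪 p ρbar Smin P

theorem flat_of_cases (hO : FlatOStatement) (hSS : FlatSSStatement) : FlatStatement := by
  intro 𝒪 _ _ _ _ _ p ρbar S Smin hyp P hP
  by_cases h : IsReducibleAt ρbar P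
  · exact hO 𝒪 p ρbar S Smin hyp P hP h
  · exact hSS 𝒪 p ρbar S Smin hyp P hP h

/-- Target of the assembly (piece ASM). -/
def AsmStatement : Prop :=
  FlatInertiaStatement → FlatTameStatement → FlatUnitStatement → KumStatement →
    TameFrobStatement → UnramHomStatement → FlatOStatement

end Fermat.Agent.S56.H906

end

end
-- ===== PACK-END S56/H906/FlatOSpec.lean

-- ===== PACK-BEGIN S56/H906/LemmaA.lean
section



/-!
# S56 / FLAT-O, piece (A): rigidity of points of order `p` of a Hopf lattice (helper906)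

`lemmaA : LemmaAStatement`.  Newton's forward differences for `n ↦ f (n • x)`; no completion, no
units of the convolution ring.

Reusable: `zp_mem`, `apply_mem` (values of a Hopf lattice lie in `P`), `pspan` (the `P`-span of a
Hopf lattice), `translate` and `delta_mem` (the difference operator maps `P·Λ` into `μ·P·Λ`).
-/

set_option autoImplicit false
set_option linter.unusedSectionVars false

open Polynomial

noncomputable section

namespace Fermat.Agent.S56.H906

open Fermat.Agent.S56

section Basic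

variable {p : ℕ} (P : ValuationSubring Qb)

/-- `ℤ_(p) ⊂ P` for `P` above `p`. -/
theorem zp_mem (hp : p.Prime) (hP : P.LiesOverPrime p) (r : Zp p) :
    algebraMap (Zp p) Qb r ∈ P := by
  have hr : (r : ℚ).den.Coprime p := r.2
  have h1 : algebraMap (Zp p) Qb r = algebraMap ℚ Qb (r : ℚ) := rfl
  rw [h1]
  have h2 : (r : ℚ) = ((r : ℚ).num : ℚ) / ((r : ℚ).den : ℚ) := (Rat.num_div_den _).symm
  rw [h2, map_div₀, map_intCast, map_natCast]
  have hden : ((r : ℚ).den : Qb) ∉ P.nonunits := by
    have := Fermat.Agent.S14.H714.intCast_not_mem_nonunits P hp hP (n := ((r : ℚ).den : ℤ))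
      (by
        intro hd
        have hd' : p ∣ (r : ℚ).den := by exact_mod_cast hd
        have := Nat.Coprime.eq_one_of_dvd hr.symm hd'
        exact hp.one_lt.ne' this)
    simpa using this
  have hdenmem : (((r : ℚ).den : Qb))⁻¹ ∈ P :=
    (Fermat.Agent.S14.H714.inv_mem_of_not_mem_nonunits P hden).2
  rw [div_eq_mul_inv]
  exact mul_mem (intCast_mem P _) hdenmem

/-- An element of `ℚ̄` which is integral over `ℤ_(p)` lies in `P`. -/
theorem mem_of_isIntegral_zp (hp : p.Prime) (hP : P.LiesOverPrime p) {y : Qb}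
    (hy : IsIntegral (Zp p) y) : y ∈ P := by
  obtain ⟨q, hq, hqy⟩ := hy
  -- the ring hom `ℤ_(p) → P`
  let ι : Zp p →+* P :=
    { toFun := fun r => ⟨algebraMap (Zp p) Qb r, zp_mem P hp hP r⟩
      map_one' := Subtype.ext (map_one _)
      map_mul' := fun a b => Subtype.ext (map_mul _ a b)
      map_zero' := Subtype.ext (map_zero _)
      map_add' := fun a b => Subtype.ext (map_add _ a b) }
  have hint : IsIntegral P y := by
    refine ⟨q.map ι, hq.map ι, ?_⟩
    rw [Polynomial.eval₂_map]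
    have : (algebraMap P Qb).comp ι = algebraMap (Zp p) Qb := by
      ext r; rfl
    rw [this]
    exact hqy
  obtain ⟨z, hz⟩ := (IsIntegrallyClosed.isIntegral_iff (R := P) (K := Qb)).mp hint
  rw [← hz]
  exact z.2

end Basic

section Lattice

variable {p : ℕ} [Fact p.Prime] {M : Type} [AddCommGroup M] {act : GQ → M → M}
  {Λ : Subalgebra (Zp p) (M → Qb)} (P : ValuationSubring Qb)

/-- Values of the functions of a Hopf lattice lie in every `P` above `p`. -/
theorem apply_mem (hΛ : IsHL p act Λ) (hP : P.LiesOverPrime p) {f : M → Qb} (hf : f ∈ Λ)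
    (m : M) : f m ∈ P :=
  mem_of_isIntegral_zp P (Fact.out : p.Prime) hP
    (Fermat.Agent.S19.H435.IsHopfLattice.isIntegral_apply hΛ hf m)

/-- The `P`-span of a lattice of functions. -/
def pspan (Λ : Subalgebra (Zp p) (M → Qb)) : Submodule P (M → Qb) :=
  Submodule.span P (Λ : Set (M → Qb))

theorem subset_pspan {f : M → Qb} (hf : f ∈ Λ) : f ∈ pspan P Λ :=
  Submodule.subset_span hf

/-- Values of elements of the `P`-span lie in `P`. -/
theorem pspan_apply_mem (hΛ : IsHL p act Λ) (hP : P.LiesOverPrime p) {F : M → Qb}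
    (hF : F ∈ pspan P Λ) (m : M) : F m ∈ P := by
  induction hF using Submodule.span_induction with
  | mem f hf => exact apply_mem P hΛ hP hf m
  | zero => exact P.zero_mem
  | add F G _ _ hF hG => exact P.add_mem _ _ hF hG
  | smul a F _ hF => exact P.mul_mem _ _ a.2 hF

/-- Translation by `x`. -/
def translate (x : M) : Module.End Qb (M → Qb) := LinearMap.funLeft Qb Qb (fun y => y + x)

@[simp] theorem translate_apply (x : M) (F : M → Qb) (y : M) : translate x F y = F (y + x) := rfl

theorem translate_pow (x : M) (n : ℕ) : translate x ^ n = translate (n • x) := by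
  induction n with
  | zero =>
    ext F y
    simp [translate, LinearMap.funLeft]
  | succ n ih =>
    rw [pow_succ, ih]
    ext F y
    simp only [Module.End.mul_apply, translate_apply, succ_nsmul]
    congr 1
    abel

/-- The difference operator `F ↦ F(· + x) - F`. -/
def delta (x : M) : Module.End Qb (M → Qb) := translate x - 1

theorem delta_apply (x : M) (F : M → Qb) (y : M) : delta x F y = F (y + x) - F y := rfl

/-- If all coordinates of `x` are congruent to those of `0` modulo `μ`, then the difference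
operator maps `P·Λ` into `μ·P·Λ`. -/
theorem delta_mem (hΛ : IsHL p act Λ) (x : M) (μ : Qb) (hμ : μ ≠ 0)
    (hle : ∀ g ∈ Λ, P.valuation (g x - g 0) ≤ P.valuation μ)
    {F : M → Qb} (hF : F ∈ pspan P Λ) :
    ∃ G ∈ pspan P Λ, delta x F = μ • G := by
  induction hF using Submodule.span_induction with
  | mem f hf =>
    obtain ⟨n, a, b, ha, hb, hab⟩ := hΛ.comul_mem f hf
    have hq : ∀ k, (b k x - b k 0) / μ ∈ P := by
      intro k
      rw [← ValuationSubring.valuation_le_one_iff, map_div₀]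
      exact div_le_one_of_le₀ (hle _ (hb k)) zero_le
    refine ⟨∑ k, (⟨(b k x - b k 0) / μ, hq k⟩ : P) • a k,
      Submodule.sum_mem _ fun k _ => Submodule.smul_mem _ _ (subset_pspan P (ha k)), ?_⟩
    funext y
    rw [delta_apply]
    have h1 := hab y x
    have h2 := hab y 0
    rw [add_zero] at h2
    rw [h1]
    conv_lhs => rw [h2]
    rw [← Finset.sum_sub_distrib]
    simp only [Pi.smul_apply, Finset.sum_apply, smul_eq_mul, Finset.mul_sum]
    refine Finset.sum_congr rfl fun k _ => ?_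
    show a k y * b k x - a k y * b k 0 = μ * (((b k x - b k 0) / μ) * a k y)
    field_simp
  | zero => exact ⟨0, Submodule.zero_mem _, by simp⟩
  | add F G _ _ hF hG =>
    obtain ⟨F', hF', hF''⟩ := hF
    obtain ⟨G', hG', hG''⟩ := hG
    exact ⟨F' + G', Submodule.add_mem _ hF' hG', by rw [map_add, hF'', hG'', smul_add]⟩
  | smul a F _ hF =>
    obtain ⟨F', hF', hF''⟩ := hF
    refine ⟨a • F', Submodule.smul_mem _ _ hF', ?_⟩
    have : (a • F : M → Qb) = (a : Qb) • F := rfl
    rw [this, map_smul, hF'']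
    have : (a • F' : M → Qb) = (a : Qb) • F' := rfl
    rw [this, smul_comm]

/-- Iterated differences. -/
theorem delta_pow_mem (hΛ : IsHL p act Λ) (x : M) (μ : Qb) (hμ : μ ≠ 0)
    (hle : ∀ g ∈ Λ, P.valuation (g x - g 0) ≤ P.valuation μ) (j : ℕ)
    {F : M → Qb} (hF : F ∈ pspan P Λ) :
    ∃ G ∈ pspan P Λ, (delta x ^ j) F = μ ^ j • G := by
  induction j generalizing F with
  | zero => exact ⟨F, hF, by simp⟩
  | succ j ih =>
    obtain ⟨G, hG, hG'⟩ := delta_mem P hΛ x μ hμ hle hF
    obtain ⟨G₂, hG₂, hG₂'⟩ := ih hG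
    refine ⟨G₂, hG₂, ?_⟩
    rw [pow_succ, Module.End.mul_apply, hG', map_smul, hG₂', smul_smul, ← pow_succ']

/-- The binomial expansion of `translate (p • x)` evaluated at `0`. -/
theorem sum_choose_delta (x : M) (n : ℕ) (F : M → Qb) :
    F (n • x) = ∑ m ∈ Finset.range (n + 1), (n.choose m : Qb) * (delta x ^ m) F 0 := by
  have h1 : translate x = delta x + 1 := by rw [delta]; abel
  have h2 : translate x ^ n = ∑ m ∈ Finset.range (n + 1),
      delta x ^ m * 1 ^ (n - m) * (n.choose m : Module.End Qb (M → Qb)) := by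
    rw [h1]
    exact (Commute.one_right (delta x)).add_pow n
  have h3 := congrFun (congrArg (fun T : Module.End Qb (M → Qb) => T F) h2) 0
  simp only [translate_pow, translate_apply, zero_add] at h3
  rw [h3, LinearMap.sum_apply, Finset.sum_apply]
  refine Finset.sum_congr rfl fun m _ => ?_
  rw [one_pow, mul_one, Module.End.mul_apply]
  have : ∀ k : ℕ, ((k : Module.End Qb (M → Qb))) F = (k : Qb) • F := by
    intro k
    rw [Nat.cast_smul_eq_nsmul]
    induction k with
    | zero => simp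
    | succ k ih => simp [add_smul, ih]
  rw [this, map_smul, Pi.smul_apply, smul_eq_mul]

end Lattice

/-- **(A)** rigidity of points of order `p`. -/
theorem lemmaA : LemmaAStatement := by
  intro p _ M _ _ act Λ hΛ P hP x lam hpx hlam hle
  have hp : p.Prime := Fact.out
  by_contra hx
  set v := P.valuation with hv
  have hvp : v (p : Qb) < 1 := (ValuationSubring.mem_nonunits_iff P).mp hP
  have hlam1 : v lam < 1 := by
    by_contra hcon
    rw [not_lt] at hcon
    have : (1 : P.ValueGroup) ≤ v lam ^ (p - 1) := one_le_pow₀ hcon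
    exact absurd (lt_of_le_of_lt this (lt_trans hlam hvp)) (lt_irrefl _)
  obtain ⟨f₀, hf₀, hne⟩ := hΛ.separates x 0 hx
  obtain ⟨n, e, he, -, -, hexp⟩ := Fermat.Agent.S19.H435.IsHopfLattice.exists_basis hΛ
  -- coordinates of a general element
  have hcoord : ∀ g ∈ Λ, ∃ c : Fin n → Zp p,
      g x - g 0 = ∑ i, algebraMap (Zp p) Qb (c i) * (e i x - e i 0) := by
    intro g hg
    obtain ⟨c, hc⟩ := hexp g hg
    refine ⟨c, ?_⟩
    have h1 : ∀ y : M, g y = ∑ i, algebraMap (Zp p) Qb (c i) * e i y := by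
      intro y
      rw [hc, Finset.sum_apply]
      refine Finset.sum_congr rfl fun i _ => ?_
      rw [Pi.smul_apply, Algebra.smul_def]
    rw [h1 x, h1 0, ← Finset.sum_sub_distrib]
    exact Finset.sum_congr rfl fun i _ => by ring
  -- some coordinate difference is nonzero
  have hex : ∃ i, e i x - e i 0 ≠ 0 := by
    by_contra hcon
    push Not at hcon
    obtain ⟨c, hc⟩ := hcoord f₀ hf₀
    apply hne
    rw [← sub_eq_zero, hc]
    exact Finset.sum_eq_zero fun i _ => by rw [hcon i, mul_zero]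
  obtain ⟨i₁, hi₁⟩ := hex
  obtain ⟨i₀, -, hi₀⟩ := Finset.exists_max_image Finset.univ (fun i => v (e i x - e i 0))
    ⟨i₁, Finset.mem_univ _⟩
  set μ := e i₀ x - e i₀ 0 with hμdef
  have hμ0 : μ ≠ 0 := by
    intro h0
    have h1 := hi₀ i₁ (Finset.mem_univ _)
    rw [h0, map_zero] at h1
    exact hi₁ ((Valuation.zero_iff v).mp (le_antisymm h1 zero_le))
  have hvμ0 : v μ ≠ 0 := (Valuation.ne_zero_iff v).mpr hμ0
  have hmax : ∀ g ∈ Λ, v (g x - g 0) ≤ v μ := by
    intro g hg
    obtain ⟨c, hc⟩ := hcoord g hg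
    rw [hc]
    refine Valuation.map_sum_le v fun i _ => ?_
    rw [map_mul]
    calc v (algebraMap (Zp p) Qb (c i)) * v (e i x - e i 0)
        ≤ 1 * v (e i x - e i 0) := by
          gcongr
          exact (ValuationSubring.valuation_le_one_iff P _).mpr (zp_mem P hp hP (c i))
      _ = v (e i x - e i 0) := one_mul _
      _ ≤ v μ := hi₀ i (Finset.mem_univ _)
  have hμlam : v μ ≤ v lam := hle _ (he i₀)
  have hμ1 : v μ < 1 := lt_of_le_of_lt hμlam hlam1
  have hμp : v μ ^ (p - 1) < v (p : Qb) :=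
    lt_of_le_of_lt (pow_le_pow_left₀ zero_le hμlam _) hlam
  -- Newton
  have hN := sum_choose_delta x p (e i₀)
  rw [hpx] at hN
  obtain ⟨q, hq⟩ : ∃ q, p = q + 2 := ⟨p - 2, by have := hp.two_le; omega⟩
  have hterm : ∀ m, ∃ g : Qb, g ∈ P ∧ (delta x ^ m) (e i₀) 0 = μ ^ m * g := by
    intro m
    obtain ⟨G, hG, hG'⟩ := delta_pow_mem P hΛ x μ hμ0 hmax m (subset_pspan P (he i₀))
    exact ⟨G 0, pspan_apply_mem P hΛ hP hG 0, by rw [hG']; rfl⟩
  rw [hq, Finset.sum_range_succ', Finset.sum_range_succ'] at hN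
  simp only [Nat.choose_zero_right, Nat.cast_one, pow_zero, Module.End.one_apply, one_mul,
    zero_add, Nat.choose_one_right, pow_one] at hN
  have hd1 : delta x (e i₀) 0 = μ := by rw [delta_apply, zero_add]
  rw [hd1, ← hq] at hN
  have hsum : (p : Qb) * μ = - ∑ k ∈ Finset.range (q + 1),
      ((p.choose (k + 1 + 1) : ℕ) : Qb) * (delta x ^ (k + 1 + 1)) (e i₀) 0 := by
    have := hN
    linear_combination -this
  have hlt : v (∑ k ∈ Finset.range (q + 1),
      ((p.choose (k + 1 + 1) : ℕ) : Qb) * (delta x ^ (k + 1 + 1)) (e i₀) 0) < v ((p : Qb) * μ) := by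
    have hpm0 : v ((p : Qb) * μ) ≠ 0 := by
      rw [map_mul]
      exact mul_ne_zero ((Valuation.ne_zero_iff v).mpr (by exact_mod_cast hp.ne_zero)) hvμ0
    refine Valuation.map_sum_lt v hpm0 fun k hk => ?_
    obtain ⟨g, hg, hg'⟩ := hterm (k + 1 + 1)
    have hg1 : v g ≤ 1 := (ValuationSubring.valuation_le_one_iff P _).mpr hg
    rw [hg', map_mul, map_mul, map_pow, map_mul]
    rw [Finset.mem_range] at hk
    by_cases hkq : k = q
    · -- the last term: choose = 1
      subst hkq
      rw [← hq, Nat.choose_self, Nat.cast_one, map_one, one_mul]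
      have h1 : v μ ^ p = v μ ^ (p - 1) * v μ := by
        rw [← pow_succ]; congr 1; have := hp.two_le; omega
      rw [h1]
      calc v μ ^ (p - 1) * v μ * v g ≤ v μ ^ (p - 1) * v μ * 1 := by gcongr
        _ = v μ ^ (p - 1) * v μ := mul_one _
        _ < v (p : Qb) * v μ := by
          exact mul_lt_mul_of_pos_right hμp (zero_lt_iff.mpr hvμ0)
    · -- middle terms: `p ∣ choose`
      have hk2 : k + 1 + 1 < p := by omega
      have hdvd : p ∣ p.choose (k + 1 + 1) := hp.dvd_choose_self (by omega) hk2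
      obtain ⟨t, ht⟩ := hdvd
      have hc : v ((p.choose (k + 1 + 1) : ℕ) : Qb) ≤ v (p : Qb) := by
        rw [ht, Nat.cast_mul, map_mul]
        calc v (p : Qb) * v (t : Qb) ≤ v (p : Qb) * 1 := by
              gcongr
              exact (ValuationSubring.valuation_le_one_iff P _).mpr (natCast_mem P t)
          _ = v (p : Qb) := mul_one _
      have hμk : v μ ^ (k + 1 + 1) < v μ := by
        calc v μ ^ (k + 1 + 1) = v μ ^ (k + 1) * v μ := pow_succ _ _
          _ < 1 * v μ := by
            refine mul_lt_mul_of_pos_right ?_ (zero_lt_iff.mpr hvμ0)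
            exact pow_lt_one₀ zero_le hμ1 (by omega)
          _ = v μ := one_mul _
      calc v ((p.choose (k + 1 + 1) : ℕ) : Qb) * (v μ ^ (k + 1 + 1) * v g)
          ≤ v (p : Qb) * (v μ ^ (k + 1 + 1) * 1) := by gcongr
        _ = v (p : Qb) * v μ ^ (k + 1 + 1) := by rw [mul_one]
        _ < v (p : Qb) * v μ := by
          refine mul_lt_mul_of_pos_left hμk (zero_lt_iff.mpr ?_)
          exact (Valuation.ne_zero_iff v).mpr (by exact_mod_cast hp.ne_zero)
  rw [hsum, Valuation.map_neg] at hlt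
  exact lt_irrefl _ hlt

end Fermat.Agent.S56.H906

end

end
-- ===== PACK-END S56/H906/LemmaA.lean

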