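import Mathlib
import Fermat.Prelude.Thm_ModularCurve_coeffMap_qExpand
import Fermat.Prelude.Def_GroupCohomology_ContinuousUnramified
import Fermat.Prelude.Def_FLTPrelim_Ramification
import Fermat.Prelude.Def_ModularCurve_ReductionModL
import Fermat.Prelude.Def_EllipticCurve_FrobeniusTrace
import Fermat.Prelude.Def_AlgebraicCurve_Correspondence
import Fermat.Prelude.Def_ModularCurve_HeckeModule
import Mathlib.Analysis.Complex.UpperHalfPlane.Manifold
import Mathlib.Geometry.Manifold.Notation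
import Mathlib.Geometry.Manifold.MFDeriv.SpecificFunctions
import Mathlib.NumberTheory.ModularForms.Basic
import Mathlib.AlgebraicGeometry.EllipticCurve.Affine.Point
import Fermat.Agent.Pack.S15.AE0L2
import Fermat.Agent.Pack.S15.AE0L3
import Fermat.Agent.Pack.S15.AE1L1
import Fermat.Agent.Pack.S15.AE2L1
import Fermat.Agent.Pack.S15.AE1L2
import Fermat.Agent.Pack.S15.AE1L3
import Fermat.Agent.Pack.S15.AE0L1
import Fermat.Agent.Pack.S15.AE1L0
import Fermat.Agent.Pack.S15.AE2L2
import Fermat.Agent.Pack.S15.AE0L0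
import Fermat.Agent.Pack.S15.AE2L0
import Fermat.Agent.Pack.S15.AE2L3

-- ===== PACK-BEGIN S28/H589/Descent.lean
section








/-!
# S28 / A-Φ, A-W descent, formal part 2 (helper589): from `ℂ[Y][X]` to `ℤ[Y][X]`

`descent`: let `Φ ∈ ℂ[Y][X]` be monic of degree `p+1` in `X`, and `g, f ∈ ℤ((q))` with
`ord f` prime to `p`, `f ≠ V_p g`, such that in `ℂ((q))`
`Φ(X := g, Y := j) = 0` and `Φ(X := f, Y := V_p j) = 0`.
Then `Φ` has integer coefficients: `Φ(X, j) = (X - g) · χ` where `χ` is the characteristic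
polynomial of the section matrix of `f` (which lives over `ℤ((q))`).
-/

set_option autoImplicit false

noncomputable section

open ModularCurve HahnSeries Polynomial

namespace Fermat.Agent.S28.H589

/-- Base change of coefficients `ℤ((q)) → ℂ((q))`. -/
abbrev iotaC : LaurentSeries ℤ →+* LaurentSeries ℂ := coeffMap (Int.castRingHom ℂ)

theorem iotaC_injective : Function.Injective iotaC := by
  intro x y h
  ext k
  have := congrArg (fun z => z.coeff k) h
  simp only [coeffMap_coeff, Int.coe_castRingHom] at this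
  exact_mod_cast this

theorem iotaC_eq_zero_iff (x : LaurentSeries ℤ) : iotaC x = 0 ↔ x = 0 := by
  constructor
  · intro h
    exact iotaC_injective (by rw [h, map_zero])
  · rintro rfl
    exact map_zero _

theorem iotaC_coeff_eq_zero_iff (x : LaurentSeries ℤ) (n : ℤ) :
    (iotaC x).coeff n = 0 ↔ x.coeff n = 0 := by
  simp only [coeffMap_coeff, Int.coe_castRingHom, Int.cast_eq_zero]

theorem order_iotaC (x : LaurentSeries ℤ) : (iotaC x).order = x.order := by
  by_cases hx : x = 0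
  · subst hx
    simp
  · have hx' : iotaC x ≠ 0 := fun h => hx ((iotaC_eq_zero_iff x).mp h)
    apply le_antisymm
    · apply HahnSeries.order_le_of_coeff_ne_zero
      rw [Ne, iotaC_coeff_eq_zero_iff]
      exact fun h => hx (HahnSeries.coeff_order_eq_zero.mp h)
    · apply HahnSeries.order_le_of_coeff_ne_zero
      rw [Ne, ← iotaC_coeff_eq_zero_iff]
      exact fun h => hx' (HahnSeries.coeff_order_eq_zero.mp h)

/-- Evaluation `ℂ[Y] → ℂ((q))`, `Y ↦ y`. -/
def evC (y : LaurentSeries ℂ) : Polynomial ℂ →+* LaurentSeries ℂ :=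
  Polynomial.eval₂RingHom HahnSeries.C y

theorem evC_apply (y : LaurentSeries ℂ) (P : Polynomial ℂ) :
    evC y P = Polynomial.eval₂ HahnSeries.C y P := rfl

theorem evC_eq_aeval (y : LaurentSeries ℂ) (P : Polynomial ℂ) :
    evC y P = Polynomial.aeval y P := by
  rw [evC_apply, Polynomial.aeval_def]
  congr 1
  ext c : 1
  exact (Fermat.Agent.S28.H685.algebraMap_eq_C c).symm

theorem qExpand_comp_evC (p : ℕ) [NeZero p] (y : LaurentSeries ℂ) :
    (qExpand ℂ p).comp (evC y) = evC (qExpand ℂ p y) := by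
  refine Polynomial.ringHom_ext (fun c => ?_) ?_
  · simp [evC]
  · simp [evC]

theorem iotaC_comp_evalAt (y : LaurentSeries ℤ) :
    iotaC.comp (evalAt y) = (evC (iotaC y)).comp (Polynomial.mapRingHom (Int.castRingHom ℂ)) := by
  refine Polynomial.ringHom_ext' (Subsingleton.elim _ _) ?_
  simp [evalAt, evC]

/-- Transfer of a vanishing relation from `ℂ((q))` to `ℤ((q))`. -/
theorem eval₂_evalAt_eq_zero_of (Ψ : Polynomial (Polynomial ℤ)) (y x : LaurentSeries ℤ)
    (h : (Ψ.map (Polynomial.mapRingHom (Int.castRingHom ℂ))).eval₂ (evC (iotaC y)) (iotaC x) = 0) :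
    Ψ.eval₂ (evalAt y) x = 0 := by
  apply iotaC_injective
  rw [Polynomial.hom_eval₂, iotaC_comp_evalAt, ← Polynomial.eval₂_map, h, map_zero]

/-- **Descent.** -/
theorem descent (p : ℕ) [NeZero p]
    (Φ : Polynomial (Polynomial ℂ)) (hΦ : Φ.Monic) (n : ℕ) (hdeg : Φ.natDegree = n)
    (hn : n = p + 1)
    (g f : LaurentSeries ℤ) (hf0 : f ≠ 0) (hford : IsCoprime f.order (p : ℤ))
    (hne : f ≠ qExpand ℤ p g)
    (h1 : Φ.eval₂ (evC (jqModC ℂ)) (iotaC g) = 0)
    (h2 : Φ.eval₂ (evC (qExpand ℂ p (jqModC ℂ))) (iotaC f) = 0) :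
    ∃ Ψ : Polynomial (Polynomial ℤ), Ψ.Monic ∧ Ψ.natDegree = n ∧
      Ψ.eval₂ (evalAt (jqModC ℤ)) g = 0 ∧
      Ψ.eval₂ (evalAt (qExpand ℤ p (jqModC ℤ))) f = 0 := by
  classical
  subst hn
  set V : LaurentSeries ℂ →+* LaurentSeries ℂ := qExpand ℂ p with hV
  set a : LaurentSeries ℂ := iotaC g with ha
  set x : LaurentSeries ℂ := iotaC f with hx
  -- the polynomial over `ℂ((q))`
  set Φ₁ : Polynomial (LaurentSeries ℂ) := Φ.map (evC (jqModC ℂ)) with hΦ₁
  have hΦ₁m : Φ₁.Monic := hΦ.map _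
  have hΦ₁d : Φ₁.natDegree = p + 1 := by rw [hΦ₁, hΦ.natDegree_map, hdeg]
  have hroot : Φ₁.IsRoot a := by
    rw [Polynomial.IsRoot, hΦ₁, Polynomial.eval_map]; exact h1
  obtain ⟨G, hG⟩ := Polynomial.dvd_iff_isRoot.mpr hroot
  have hGm : G.Monic := by
    have : ((X - Polynomial.C a) * G).Monic := hG ▸ hΦ₁m
    exact (Polynomial.monic_X_sub_C a).of_mul_monic_left this
  have hGd : G.natDegree = p := by
    have h := congrArg Polynomial.natDegree hG
    rw [hΦ₁d, (Polynomial.monic_X_sub_C a).natDegree_mul hGm, Polynomial.natDegree_X_sub_C] at h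
    omega
  -- apply `V` to the coefficients
  have hmapV : Φ.map (evC (V (jqModC ℂ))) = (X - Polynomial.C (V a)) * G.map V := by
    have h := congrArg (Polynomial.map V) hG
    rw [hΦ₁, Polynomial.map_map, qExpand_comp_evC] at h
    rw [h, Polynomial.map_mul, Polynomial.map_sub, Polynomial.map_X, Polynomial.map_C]
  have hxa : x - V a ≠ 0 := by
    intro h
    apply hne
    apply iotaC_injective
    rw [coeffMap_qExpand]
    exact sub_eq_zero.mp h
  have hGV : (G.map V).eval x = 0 := by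
    have h := h2
    rw [← Polynomial.eval_map, hmapV, Polynomial.eval_mul, Polynomial.eval_sub,
      Polynomial.eval_X, Polynomial.eval_C] at h
    exact (mul_eq_zero.mp h).resolve_left hxa
  -- the section charpoly
  obtain ⟨χ, hχm, hχd, hχ⟩ := exists_section_charpoly p f
  set χ' : Polynomial (LaurentSeries ℂ) := χ.map iotaC with hχ'
  have hχ'm : χ'.Monic := hχm.map _
  have hχ'd : χ'.natDegree = p := by rw [hχ', hχm.natDegree_map, hχd]
  have hχ'V : (χ'.map V).eval x = 0 := by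
    have h := congrArg iotaC hχ
    rw [Polynomial.eval_map, Polynomial.hom_eval₂, map_zero] at h
    rw [hχ', Polynomial.map_map, Polynomial.eval_map]
    have hcomp : V.comp iotaC = iotaC.comp (qExpand ℤ p) := by
      ext y : 1
      exact (coeffMap_qExpand (Int.castRingHom ℂ) p y).symm
    rw [hcomp]
    exact h
  -- `G = χ'`
  have hD : G - χ' = 0 := by
    have hVinj : Function.Injective (Polynomial.map V) :=
      Polynomial.map_injective V (qExpand_injective p)
    apply hVinj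
    rw [Polynomial.map_zero]
    have hx0 : x ≠ 0 := fun h => hf0 ((iotaC_eq_zero_iff f).mp h)
    have hxord : IsCoprime x.order (p : ℤ) := by rw [hx, order_iotaC]; exact hford
    refine Fermat.Agent.S28.H145.eq_zero_of_eval_eq_zero_of_natDegree_lt p x hx0 hxord _
      (fun m => ?_) ?_ ?_
    · rw [Polynomial.coeff_map]
      exact ⟨_, rfl⟩
    · refine lt_of_le_of_lt Polynomial.natDegree_map_le ?_
      by_cases hz : G - χ' = 0
      · rw [hz, Polynomial.natDegree_zero]
        exact Nat.pos_of_ne_zero (NeZero.ne p)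
      · have hdeg' : (G - χ').degree < G.degree := by
          apply Polynomial.degree_sub_lt_left
          · rw [Polynomial.degree_eq_natDegree hGm.ne_zero,
              Polynomial.degree_eq_natDegree hχ'm.ne_zero, hGd, hχ'd]
          · exact hGm.ne_zero
          · rw [hGm.leadingCoeff, hχ'm.leadingCoeff]
        rw [Polynomial.degree_eq_natDegree hGm.ne_zero, hGd] at hdeg'
        exact (Polynomial.natDegree_lt_iff_degree_lt hz).mpr hdeg'
    · rw [Polynomial.map_sub, Polynomial.eval_sub, hGV, hχ'V, sub_zero]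
  have hGχ : G = χ' := sub_eq_zero.mp hD
  -- coefficients of `Φ₁` are in the image of `ℤ((q))`
  set Θ : Polynomial (LaurentSeries ℤ) := (X - Polynomial.C g) * χ with hΘ
  have hΦ₁Θ : Φ₁ = Θ.map iotaC := by
    rw [hG, hGχ, hΘ, Polynomial.map_mul, Polynomial.map_sub, Polynomial.map_X, Polynomial.map_C]
  -- every coefficient of `Φ` has integer coefficients
  set C₀ : Subring ℂ := (Int.castRingHom ℂ).range with hC₀
  have hcoef : ∀ k i, (Φ.coeff k).coeff i ∈ C₀ := by
    intro k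
    refine Fermat.Agent.S28.H685.coeff_mem_of_aeval_jqModC C₀ (Φ.coeff k).natDegree (Φ.coeff k)
      le_rfl (fun m => ?_)
    have h : Polynomial.aeval (jqModC ℂ) (Φ.coeff k) = iotaC (Θ.coeff k) := by
      rw [← evC_eq_aeval, ← Polynomial.coeff_map, ← hΦ₁, hΦ₁Θ, Polynomial.coeff_map]
    rw [h, coeffMap_coeff]
    exact ⟨_, rfl⟩
  -- lift `Φ`
  have hlift : Φ ∈ Polynomial.lifts (Polynomial.mapRingHom (Int.castRingHom ℂ)) := by
    rw [Polynomial.lifts_iff_coeff_lifts]
    intro k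
    have hk : Φ.coeff k ∈ Polynomial.lifts (Int.castRingHom ℂ) := by
      rw [Polynomial.lifts_iff_coeff_lifts]
      intro i
      exact hcoef k i
    obtain ⟨q, hq⟩ := (Polynomial.mem_lifts _).mp hk
    exact ⟨q, hq⟩
  obtain ⟨Ψ, hΨ, hΨd, hΨm⟩ := Polynomial.lifts_and_natDegree_eq_and_monic hlift hΦ
  refine ⟨Ψ, hΨm, by rw [hΨd, hdeg], ?_, ?_⟩
  · apply eval₂_evalAt_eq_zero_of
    rw [hΨ, coeffMap_jqModC]
    exact h1
  · apply eval₂_evalAt_eq_zero_of
    rw [hΨ, coeffMap_qExpand, coeffMap_jqModC]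
    exact h2

end Fermat.Agent.S28.H589

end

end
-- ===== PACK-END S28/H589/Descent.lean

-- ===== PACK-BEGIN S28/H589/ModPoly.lean
section






/-!
# S28 / [A-Φ] (helper589): the modular polynomial `Φ_p ∈ ℤ[Y][X]`

Analytic input: helper648's conjugate product (`Fermat.Agent.S24.H648.exists_charPoly_jFun`)
gives `Φ ∈ ℂ[Y][X]`, monic of degree `[SL₂(ℤ) : Γ₀(p)] = p + 1`, with
`Φ(j(pτ), j(τ)) = 0` and `Φ(j(τ), j(pτ)) = 0` as functions on `ℍ`.
helper565's `HasTExp` calculus turns these into identities in `ℂ((q))`, and `descent`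
(this directory) shows that `Φ` has integer coefficients.
-/

set_option autoImplicit false

noncomputable section

open UpperHalfPlane ModularCurve CongruenceSubgroup Function
open scoped MatrixGroups Manifold Real

namespace Fermat.Agent.S28.H589

open Fermat.Agent.S28.H565 (HasTExp)
open Fermat.Agent.S24.H648 (goodRing charPolyAt)

local notation "𝕢" => Periodic.qParam

/-- The scaling map `τ ↦ d τ` on `ℍ`. -/
def scaleH (d : ℕ) (hd : 0 < d) (τ : ℍ) : ℍ :=
  UpperHalfPlane.mk ((d : ℂ) * (τ : ℂ)) (by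
    have h : ((d : ℂ) * (τ : ℂ)).im = d * τ.im := by simp
    rw [h]
    exact mul_pos (by exact_mod_cast hd) τ.im_pos)

@[simp]
theorem scaleH_coe (d : ℕ) (hd : 0 < d) (τ : ℍ) : ((scaleH d hd τ : ℍ) : ℂ) = (d : ℂ) * τ := rfl

theorem qParam_scaleH (d : ℕ) (hd : 0 < d) (τ : ℍ) :
    𝕢 1 ((scaleH d hd τ : ℍ) : ℂ) = 𝕢 1 (τ : ℂ) ^ d := by
  simp only [Periodic.qParam, scaleH_coe]
  rw [← Complex.exp_nat_mul]
  congr 1
  push_cast
  ring

/-- If `f` has `q`-expansion `φ` then `τ ↦ f (d τ)` has `q`-expansion `V_d φ`. -/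
theorem hasTExp_comp_scaleH (d : ℕ) [NeZero d] (hd : 0 < d) {f : ℍ → ℂ} {φ : LaurentSeries ℂ}
    (hf : HasTExp 1 f φ) : HasTExp 1 (fun τ => f (scaleH d hd τ)) (qExpand ℂ d φ) := by
  intro τ
  have hm : (d : ℤ) ≠ 0 := by exact_mod_cast NeZero.ne d
  have hι : Function.Injective (fun k : ℤ => (d : ℤ) * k) := mul_right_injective₀ hm
  have hzero : ∀ n ∉ Set.range (fun k : ℤ => (d : ℤ) * k),
      (qExpand ℂ d φ).coeff n * 𝕢 1 τ ^ n = 0 := by
    intro n hn
    rw [qExpand_coeff_of_not_dvd, zero_mul]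
    rintro ⟨c, rfl⟩
    exact hn ⟨c, rfl⟩
  rw [← hι.hasSum_iff hzero]
  have hfun : ((fun n : ℤ => (qExpand ℂ d φ).coeff n * 𝕢 1 τ ^ n) ∘
      fun k : ℤ => (d : ℤ) * k) = fun k : ℤ => φ.coeff k * 𝕢 1 (scaleH d hd τ) ^ k := by
    funext k
    simp only [Function.comp_apply]
    rw [qExpand_coeff_mul, qParam_scaleH, zpow_mul, zpow_natCast]
  rw [hfun]
  exact hf (scaleH d hd τ)

/-- Two-variable polynomial expressions in functions with `q`-expansions. -/
theorem hasTExp_eval₂ (P : Polynomial (Polynomial ℂ)) {a b : ℍ → ℂ} {α β : LaurentSeries ℂ}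
    (ha : HasTExp 1 a α) (hb : HasTExp 1 b β) :
    HasTExp 1 (fun τ => (P.map (Polynomial.evalRingHom (a τ))).eval (b τ))
      (P.eval₂ (evC α) β) := by
  induction P using Polynomial.induction_on' with
  | add p q hp hq =>
    rw [Polynomial.eval₂_add]
    exact (hp.add hq).congr fun τ => by simp
  | monomial n c =>
    rw [Polynomial.eval₂_monomial, evC_eq_aeval]
    have h1 := (ha.polynomial_aeval c).mul (hb.pow n)
    exact h1.congr fun τ => by simp [Polynomial.eval_monomial]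

/-- A function-level identity `P(a(τ))(b(τ)) = 0` gives the formal identity. -/
theorem eval₂_eq_zero_of_forall (P : Polynomial (Polynomial ℂ)) {a b : ℍ → ℂ}
    {α β : LaurentSeries ℂ} (ha : HasTExp 1 a α) (hb : HasTExp 1 b β)
    (h : ∀ τ, (P.map (Polynomial.evalRingHom (a τ))).eval (b τ) = 0) :
    P.eval₂ (evC α) β = 0 := by
  have h1 := hasTExp_eval₂ P ha hb
  have h2 : HasTExp 1 (0 : ℍ → ℂ) (P.eval₂ (evC α) β) := h1.congr fun τ => by simp [h τ]
  exact h2.eq_zero one_pos

theorem jFun648_eq : (Fermat.Agent.S24.H648.jFun : ℍ → ℂ) = Fermat.Agent.S28.H565.jFun := rfl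

theorem scaleH_S_scaleH (p : ℕ) (hp : 0 < p) (w : ℍ) :
    scaleH p hp (ModularGroup.S • scaleH p hp w) = ModularGroup.S • w := by
  apply UpperHalfPlane.ext
  rw [scaleH_coe, UpperHalfPlane.modular_S_smul, UpperHalfPlane.modular_S_smul]
  simp only [scaleH_coe]
  have hw : (w : ℂ) ≠ 0 := UpperHalfPlane.ne_zero w
  have hp' : (p : ℂ) ≠ 0 := by exact_mod_cast hp.ne'
  field_simp

theorem dedekindPsi_prime (p : ℕ) (hp : p.Prime) : ModularCurve.dedekindPsi p = p + 1 := by
  have h := Fermat.Agent.S20.H872.dedekindPsi_mul_prime_of_not_dvd (N := 1) one_ne_zero hp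
    (by
      intro h
      exact hp.one_lt.ne' (Nat.dvd_one.mp h))
  rwa [one_mul, ModularCurve.dedekindPsi_one, mul_one] at h

theorem finite_quot_Gamma0 (N : ℕ) [NeZero N] : Finite (SL(2, ℤ) ⧸ Gamma0 N) := by
  apply Nat.finite_of_card_ne_zero
  rw [Fermat.Agent.S20.H872.card_quot_Gamma0]
  intro h
  have hpos : 0 < ModularCurve.dedekindPsi N := by
    unfold ModularCurve.dedekindPsi
    apply Finset.sum_pos'
    · intro d _; exact Nat.zero_le _
    · refine ⟨1, ?_, ?_⟩
      · simp [NeZero.ne N]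
      · simp [Nat.pos_of_ne_zero (NeZero.ne N)]
  omega

/-- The fintype structure on `SL₂(ℤ) / Γ₀(N)` used for the conjugate product. -/
@[reducible] def fintypeQuot (N : ℕ) [NeZero N] : Fintype (SL(2, ℤ) ⧸ Gamma0 N) :=
  haveI := finite_quot_Gamma0 N
  Fintype.ofFinite _

theorem card_quot_prime (p : ℕ) [NeZero p] (hp : p.Prime) :
    @Fintype.card (SL(2, ℤ) ⧸ Gamma0 p) (fintypeQuot p) = p + 1 := by
  letI := fintypeQuot p
  rw [← Nat.card_eq_fintype_card, Fermat.Agent.S20.H872.card_quot_Gamma0, dedekindPsi_prime p hp]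

/-- The complex modular polynomial with its two formal vanishing relations. -/
theorem exists_modPoly_complex (p : ℕ) [NeZero p] (hp : p.Prime) :
    ∃ Φ : Polynomial (Polynomial ℂ), Φ.Monic ∧ Φ.natDegree = p + 1 ∧
      Φ.eval₂ (evC (jqModC ℂ)) (qExpand ℂ p (jqModC ℂ)) = 0 ∧
      Φ.eval₂ (evC (qExpand ℂ p (jqModC ℂ))) (jqModC ℂ) = 0 := by
  letI := fintypeQuot p
  set f₀ : ℍ → ℂ := fun τ => Fermat.Agent.S24.H648.jFun (scaleH p hp.pos τ) with hf₀
  have hf : f₀ ∈ goodRing p :=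
    Fermat.Agent.S24.H648.jFun_scale_mem_goodRing p p hp.pos dvd_rfl (scaleH p hp.pos)
      (fun τ => rfl)
  obtain ⟨P, hPm, hPd, hP⟩ := Fermat.Agent.S24.H648.exists_charPoly_jFun hf
  have hj : HasTExp 1 Fermat.Agent.S24.H648.jFun (jqModC ℂ) := by
    rw [jFun648_eq]; exact Fermat.Agent.S28.H565.hasTExp_jFun
  have hjp : HasTExp 1 f₀ (qExpand ℂ p (jqModC ℂ)) := hasTExp_comp_scaleH p hp.pos hj
  refine ⟨P, hPm, ?_, ?_, ?_⟩
  · rw [hPd]; exact card_quot_prime p hp
  · refine eval₂_eq_zero_of_forall P hj hjp fun τ => ?_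
    rw [hP]
    exact Fermat.Agent.S24.H648.charPolyAt_eval_self hf.2.1 τ
  · refine eval₂_eq_zero_of_forall P hjp hj fun w => ?_
    show (P.map (Polynomial.evalRingHom
      (Fermat.Agent.S24.H648.jFun (scaleH p hp.pos w)))).eval (Fermat.Agent.S24.H648.jFun w) = 0
    rw [hP]
    have hconj : Fermat.Agent.S24.H648.conj p f₀
        (((ModularGroup.S)⁻¹ : SL(2, ℤ)) : SL(2, ℤ) ⧸ Gamma0 p) (scaleH p hp.pos w)
        = Fermat.Agent.S24.H648.jFun w := by
      rw [Fermat.Agent.S24.H648.conj_mk hf.2.1, inv_inv]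
      show Fermat.Agent.S24.H648.jFun (scaleH p hp.pos (ModularGroup.S • scaleH p hp.pos w)) = _
      rw [scaleH_S_scaleH, Fermat.Agent.S24.H648.jFun_smul]
    rw [← hconj]
    exact Fermat.Agent.S24.H648.charPolyAt_eval_conj f₀ _ _

theorem jqModC_int_ne_zero : jqModC ℤ ≠ 0 := jqModC_ne_zero_of_nontrivial ℤ

theorem order_jqModC_int : (jqModC ℤ).order = -1 := by
  rw [← order_iotaC, iotaC, coeffMap_jqModC]
  exact Fermat.Agent.S28.H145.order_jqModC ℂ

/-- **[A-Φ]** -/
theorem nonempty_modPolyData (p : ℕ) [NeZero p] (hp : p.Prime) : Nonempty (ModPolyData p) := by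
  obtain ⟨Φ, hΦm, hΦd, h1, h2⟩ := exists_modPoly_complex p hp
  have hne : jqModC ℤ ≠ qExpand ℤ p (qExpand ℤ p (jqModC ℤ)) := by
    intro h
    have hc : (jqModC ℤ).coeff (-1) = (qExpand ℤ p (qExpand ℤ p (jqModC ℤ))).coeff (-1) :=
      congrArg (fun z => z.coeff (-1)) h
    rw [qExpand_coeff_of_not_dvd] at hc
    · have h1 : (jqModC ℤ).coeff (-1) ≠ 0 := by
        have := HahnSeries.coeff_order_eq_zero (x := jqModC ℤ)
        rw [order_jqModC_int] at this
        exact fun h0 => jqModC_int_ne_zero (this.mp h0)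
      exact h1 hc
    · intro hdvd
      have h2 : (p : ℤ) ∣ 1 := (Int.dvd_neg).mp hdvd
      have h3 : p ∣ 1 := by exact_mod_cast h2
      exact hp.one_lt.ne' (Nat.dvd_one.mp h3)
  have hcop : IsCoprime (jqModC ℤ).order (p : ℤ) := by
    rw [order_jqModC_int]
    exact (isCoprime_one_left (x := (p : ℤ))).neg_left
  obtain ⟨Ψ, hΨm, hΨd, hΨ1, hΨ2⟩ := descent p Φ hΦm (p + 1) hΦd rfl
    (qExpand ℤ p (jqModC ℤ)) (jqModC ℤ) jqModC_int_ne_zero hcop hne
    (by rw [iotaC, coeffMap_qExpand, coeffMap_jqModC]; exact h1)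
    (by rw [iotaC, coeffMap_jqModC]; exact h2)
  exact ⟨⟨Ψ, hΨm, hΨd, hΨ1, hΨ2⟩⟩

end Fermat.Agent.S28.H589

end

end
-- ===== PACK-END S28/H589/ModPoly.lean

-- ===== PACK-BEGIN S28/H589/UnitAnalytic.lean
section





/-!
# S28 / [A-W], analytic part (helper589): the unit `p¹² Δ(pτ)/Δ(τ)` is a good function

We show that `u(τ) = p¹² Δ(pτ)/Δ(τ)` belongs to helper648's `goodRing p`
(holomorphic, `Γ₀(p)`-invariant, all `SL₂(ℤ)`-translates of at most exponential growth).
-/

set_option autoImplicit false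

noncomputable section

open UpperHalfPlane ModularCurve CongruenceSubgroup Function Filter Asymptotics
open scoped MatrixGroups Manifold Real Modular

namespace Fermat.Agent.S28.H589

open Fermat.Agent.S24.H648 (goodRing ExpGrowth)

local notation "Δ" => ModularForm.discriminant

/-- The unit `u(τ) = p¹² Δ(pτ)/Δ(τ)`. -/
def unitFun (p : ℕ) (hp : 0 < p) (τ : ℍ) : ℂ :=
  (p : ℂ) ^ 12 * Δ (scaleH p hp τ) * (Δ τ)⁻¹

/-- Its conjugate under `S` evaluated at `pτ`: `Δ(τ)/Δ(pτ)`. -/
def unitFun' (p : ℕ) (hp : 0 < p) (τ : ℍ) : ℂ :=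
  Δ τ * (Δ (scaleH p hp τ))⁻¹

theorem continuous_discriminant : Continuous (Δ : ℍ → ℂ) :=
  (Fermat.Agent.S28.H565.mdifferentiable_discriminant).continuous

/-- `‖Δ τ‖ · (im τ)⁶` is bounded. -/
theorem exists_discriminant_bound : ∃ C : ℝ, ∀ τ : ℍ, ‖Δ τ‖ * τ.im ^ 6 ≤ C := by
  obtain ⟨C, hC⟩ := CuspFormClass.exists_bound (k := 12) (Γ := 𝒮ℒ) CuspForm.discriminant
  refine ⟨C, fun τ => ?_⟩
  have h := hC τ
  have him : 0 < τ.im := τ.im_pos
  have hpow : τ.im ^ (((12 : ℤ) : ℝ) / 2) = τ.im ^ 6 := by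
    have : (((12 : ℤ) : ℝ) / 2) = ((6 : ℕ) : ℝ) := by norm_num
    rw [this, Real.rpow_natCast]
  rw [hpow] at h
  have h6 : 0 < τ.im ^ 6 := by positivity
  have h' : ‖Δ τ‖ ≤ C / τ.im ^ 6 := h
  rwa [le_div_iff₀ h6] at h'

/-- `‖Δ τ‖ · (im τ)⁶` is `SL₂(ℤ)`-invariant. -/
theorem discriminant_norm_mul_im_smul (g : SL(2, ℤ)) (τ : ℍ) :
    ‖Δ (g • τ)‖ * (g • τ).im ^ 6 = ‖Δ τ‖ * τ.im ^ 6 := by
  rw [Fermat.Agent.S24.H648.discriminant_smul, ModularGroup.im_smul_eq_div_normSq, norm_mul,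
    norm_zpow]
  have hd : denom g τ ≠ 0 := denom_ne_zero _ _
  have hn : 0 < Complex.normSq (denom g τ) := Complex.normSq_pos.mpr hd
  have h1 : ‖denom g τ‖ ^ (12 : ℤ) = Complex.normSq (denom g τ) ^ 6 := by
    rw [Complex.normSq_eq_norm_sq, ← pow_mul]
    norm_cast
  rw [h1, div_pow]
  field_simp

/-- `1/Δ` has at most exponential growth on `im τ ≥ 1`. -/
theorem exists_inv_discriminant_bound :
    ∃ C : ℝ, ∀ τ : ℍ, 1 ≤ τ.im → ‖(Δ τ)⁻¹‖ ≤ C * Real.exp (2 * π * τ.im) := by
  have hcont : Continuous (fun τ : ℍ => (Δ τ)⁻¹) :=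
    continuous_discriminant.inv₀ fun τ => ModularForm.discriminant_ne_zero τ
  have hinv : (fun τ : ℍ => (Δ τ)⁻¹)
      =O[atImInfty] fun τ : ℍ => Real.exp (2 * π * (1 : ℝ) * τ.im) := by
    have hΔ := ModularForm.exp_isBigO_discriminant
    have h1 : (fun τ : ℍ => (Δ τ)⁻¹)
        =O[atImInfty] fun τ : ℍ => (Real.exp (-2 * π * τ.im))⁻¹ := by
      refine hΔ.inv_rev ?_
      exact Eventually.of_forall fun τ h => absurd h (Real.exp_pos _).ne'
    refine h1.congr_right fun τ => ?_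
    rw [← Real.exp_neg]
    congr 1
    ring
  obtain ⟨C, hC⟩ := Fermat.Agent.S24.H648.exists_bound_fd_of_isBigO_exp hcont 1 hinv
  refine ⟨C, fun τ hτ => ?_⟩
  -- translate into the fundamental domain
  set n : ℤ := -round τ.re with hn
  set τ' : ℍ := ModularGroup.T ^ n • τ with hτ'
  have hcoe : (τ' : ℂ) = τ + n := ModularGroup.coe_T_zpow_smul_eq τ
  have him : τ'.im = τ.im := by
    have := congrArg Complex.im hcoe
    simpa using this
  have hre : τ'.re = τ.re - round τ.re := by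
    have := congrArg Complex.re hcoe
    simp only [Complex.add_re, Complex.intCast_re, hn] at this
    rw [UpperHalfPlane.coe_re, UpperHalfPlane.coe_re] at this
    rw [this]
    push_cast
    ring
  have hfd : τ' ∈ 𝒟 := by
    refine ⟨?_, ?_⟩
    · rw [Complex.normSq_apply]
      have h1 : (τ' : ℂ).im = τ.im := by rw [UpperHalfPlane.coe_im, him]
      rw [h1]
      nlinarith [mul_self_nonneg (τ' : ℂ).re]
    · rw [hre]
      exact abs_sub_round _
  have hΔ : Δ τ' = Δ τ := by
    rw [hτ', Fermat.Agent.S28.H565.discriminant_smul, ModularGroup.coe_T_zpow]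
    simp
  have h := hC τ' hfd
  rw [hΔ, him] at h
  simpa using h

/-- Pure real-number bookkeeping for `expGrowth_unitFun_smul`. -/
theorem unit_real_aux (P X Y D a b C₁ C₂ E : ℝ) (hP : 0 < P) (ha : 0 < a)
    (hb : 1 ≤ b) (hD : 0 < D) (hY : 0 < Y) (hC₁ : 0 ≤ C₁)
    (hX : X * (P * a) ^ 6 ≤ C₁) (hinv : Y * a ^ 6 = D * b ^ 6) (h2 : D⁻¹ ≤ C₂ * E) :
    P ^ 12 * X * Y⁻¹ ≤ P ^ 6 * C₁ * C₂ * E := by
  have hb0 : 0 < b := lt_of_lt_of_le one_pos hb
  have ha6 : 0 < a ^ 6 := pow_pos ha 6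
  have hb6 : 1 ≤ b ^ 6 := one_le_pow₀ hb
  have hP6 : 0 < P ^ 6 := pow_pos hP 6
  have hYinv : Y⁻¹ = a ^ 6 * D⁻¹ * (b ^ 6)⁻¹ := by
    have hY' : Y = D * b ^ 6 / a ^ 6 := by
      rw [eq_div_iff ha6.ne']; exact hinv
    rw [hY', inv_div, div_eq_mul_inv, mul_inv, mul_assoc]
  have hbinv : (b ^ 6)⁻¹ ≤ 1 := inv_le_one_of_one_le₀ hb6
  have hDinv : 0 < D⁻¹ := inv_pos.mpr hD
  have h3 : P ^ 12 * X * Y⁻¹ = P ^ 6 * (X * (P * a) ^ 6) * D⁻¹ * (b ^ 6)⁻¹ := by
    rw [hYinv]; ring
  rw [h3]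
  have h4 : P ^ 6 * (X * (P * a) ^ 6) ≤ P ^ 6 * C₁ := mul_le_mul_of_nonneg_left hX hP6.le
  have h5 : P ^ 6 * (X * (P * a) ^ 6) * D⁻¹ ≤ P ^ 6 * C₁ * D⁻¹ :=
    mul_le_mul_of_nonneg_right h4 hDinv.le
  have h6 : 0 ≤ P ^ 6 * C₁ * D⁻¹ := by positivity
  have h7 : P ^ 6 * (X * (P * a) ^ 6) * D⁻¹ * (b ^ 6)⁻¹ ≤ P ^ 6 * C₁ * D⁻¹ := by
    have h8 : P ^ 6 * (X * (P * a) ^ 6) * D⁻¹ * (b ^ 6)⁻¹
        ≤ P ^ 6 * C₁ * D⁻¹ * (b ^ 6)⁻¹ :=
      mul_le_mul_of_nonneg_right h5 (inv_nonneg.mpr (by positivity))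
    exact h8.trans (mul_le_of_le_one_right h6 hbinv)
  refine h7.trans ?_
  have h9 : P ^ 6 * C₁ * D⁻¹ ≤ P ^ 6 * C₁ * (C₂ * E) :=
    mul_le_mul_of_nonneg_left h2 (by positivity)
  refine h9.trans (le_of_eq ?_)
  ring

theorem im_scaleH (p : ℕ) (hp : 0 < p) (τ : ℍ) : (scaleH p hp τ).im = p * τ.im := by
  have h : ((scaleH p hp τ : ℍ) : ℂ).im = ((p : ℂ) * (τ : ℂ)).im := rfl
  rw [UpperHalfPlane.coe_im] at h
  rw [h]
  simp

/-- Growth of all translates of the unit. -/
theorem expGrowth_unitFun_smul (p : ℕ) (hp : 0 < p) (g : SL(2, ℤ)) :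
    ExpGrowth (fun τ => unitFun p hp (g • τ)) := by
  obtain ⟨C₁, hC₁⟩ := exists_discriminant_bound
  obtain ⟨C₂, hC₂⟩ := exists_inv_discriminant_bound
  have hC₁0 : 0 ≤ C₁ := le_trans (by positivity) (hC₁ UpperHalfPlane.I)
  refine ⟨(p : ℝ) ^ 6 * C₁ * C₂, 1, fun τ hτ => ?_⟩
  have hX := hC₁ (scaleH p hp (g • τ))
  rw [im_scaleH] at hX
  have h2 := hC₂ τ hτ
  rw [norm_inv] at h2
  have key := unit_real_aux (p : ℝ) ‖Δ (scaleH p hp (g • τ))‖ ‖Δ (g • τ)‖ ‖Δ τ‖ (g • τ).im τ.im
    C₁ C₂ (Real.exp (2 * π * τ.im)) (by exact_mod_cast hp) (g • τ).im_pos hτ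
    (norm_pos_iff.mpr (ModularForm.discriminant_ne_zero τ))
    (norm_pos_iff.mpr (ModularForm.discriminant_ne_zero _)) hC₁0 hX
    (discriminant_norm_mul_im_smul g τ) h2
  show ‖unitFun p hp (g • τ)‖ ≤ _
  rw [unitFun, norm_mul, norm_mul, norm_pow, norm_inv, Complex.norm_natCast]
  refine key.trans (le_of_eq ?_)
  push_cast
  ring_nf

end Fermat.Agent.S28.H589

end

end
-- ===== PACK-END S28/H589/UnitAnalytic.lean

-- ===== PACK-BEGIN S28/H589/UnitGood.lean
section



/-!
# S28 / [A-W], analytic part 2 (helper589): the unit is good; its `q`-expansions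

Same route as `[A-Φ]` (`ModPoly.lean`): helper648's conjugate product for the good function
`u(τ) = p¹² Δ(pτ)/Δ(τ)` gives `W ∈ ℂ[Y][X]`, monic of degree `p + 1`, with
`W(u(τ), j(τ)) = 0` and `W(Δ(τ)/Δ(pτ), j(pτ)) = 0`; `descent` shows `W ∈ ℤ[Y][X]`.
-/

set_option autoImplicit false

noncomputable section

open UpperHalfPlane ModularCurve CongruenceSubgroup Function
open scoped MatrixGroups Manifold Real Modular

namespace Fermat.Agent.S28.H589

open Fermat.Agent.S28.H565 (HasTExp deltaSeriesC deltaInvSeriesC)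
open Fermat.Agent.S24.H648 (goodRing ExpGrowth)

local notation "Δ" => ModularForm.discriminant

/-! ### Analytic side -/

/-- For `γ ∈ Γ₀(p)` there is `γ' ∈ SL₂(ℤ)` with `γ' (pτ) = p (γ τ)` and the same automorphy
factor. -/
theorem exists_smul_scaleH (p : ℕ) (hp : 0 < p) (γ : SL(2, ℤ)) (hγ : γ ∈ Gamma0 p) :
    ∃ γ' : SL(2, ℤ), ∀ τ : ℍ, γ' • scaleH p hp τ = scaleH p hp (γ • τ) ∧
      ((γ' 1 0 : ℂ) * (scaleH p hp τ : ℂ) + (γ' 1 1 : ℂ)) = ((γ 1 0 : ℂ) * τ + (γ 1 1 : ℂ)) := by
  have hN : (p : ℤ) ∣ γ 1 0 := by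
    rw [Gamma0_mem] at hγ
    exact (ZMod.intCast_zmod_eq_zero_iff_dvd _ _).mp hγ
  obtain ⟨k, hk⟩ := hN
  have hdet : γ 0 0 * γ 1 1 - γ 0 1 * γ 1 0 = 1 := by
    have := γ.det_coe
    rw [Matrix.det_fin_two] at this
    exact this
  have hdet' : (!![γ 0 0, γ 0 1 * p; k, γ 1 1] : Matrix (Fin 2) (Fin 2) ℤ).det = 1 := by
    rw [Matrix.det_fin_two_of]
    rw [hk] at hdet
    linear_combination hdet
  set γ' : SL(2, ℤ) := ⟨!![γ 0 0, γ 0 1 * p; k, γ 1 1], hdet'⟩ with hγ'def
  have e00 : γ' 0 0 = γ 0 0 := rfl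
  have e01 : γ' 0 1 = γ 0 1 * p := rfl
  have e10 : γ' 1 0 = k := rfl
  have e11 : γ' 1 1 = γ 1 1 := rfl
  have hk' : ((γ 1 0 : ℤ) : ℂ) = p * k := by rw [hk]; push_cast; ring
  refine ⟨γ', fun τ => ⟨?_, ?_⟩⟩
  · apply UpperHalfPlane.ext
    rw [scaleH_coe, coe_specialLinearGroup_apply γ τ, coe_specialLinearGroup_apply γ' _,
      scaleH_coe, e00, e01, e10, e11]
    simp only [algebraMap_int_eq, Int.coe_castRingHom, Complex.ofReal_intCast]
    have hden : ((γ 1 0 : ℤ) : ℂ) * τ + ((γ 1 1 : ℤ) : ℂ) ≠ 0 := by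
      have := denom_ne_zero (γ : GL (Fin 2) ℝ) τ
      simpa [denom] using this
    have hd0 : (p : ℂ) ≠ 0 := by exact_mod_cast hp.ne'
    have hden' : (k : ℂ) * (p * τ) + ((γ 1 1 : ℤ) : ℂ) ≠ 0 := by
      have : (k : ℂ) * (p * τ) + ((γ 1 1 : ℤ) : ℂ)
          = ((γ 1 0 : ℤ) : ℂ) * τ + ((γ 1 1 : ℤ) : ℂ) := by
        rw [hk']; ring
      rw [this]; exact hden
    rw [div_eq_iff hden', mul_div_assoc', div_mul_eq_mul_div, eq_div_iff hden, hk']
    push_cast
    ring
  · rw [scaleH_coe, e10, e11, hk']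
    ring

theorem unitFun_smul (p : ℕ) (hp : 0 < p) (γ : SL(2, ℤ)) (hγ : γ ∈ Gamma0 p) (τ : ℍ) :
    unitFun p hp (γ • τ) = unitFun p hp τ := by
  obtain ⟨γ', hγ'⟩ := exists_smul_scaleH p hp γ hγ
  obtain ⟨h1, h2⟩ := hγ' τ
  have hd := Fermat.Agent.S28.H565.denom_ne_zero' γ τ
  have hΔ : Δ τ ≠ 0 := ModularForm.discriminant_ne_zero τ
  rw [unitFun, unitFun, ← h1, Fermat.Agent.S28.H565.discriminant_smul,
    Fermat.Agent.S28.H565.discriminant_smul, h2]
  have hz : ((γ 1 0 : ℂ) * τ + (γ 1 1 : ℂ)) ^ (12 : ℤ) ≠ 0 := zpow_ne_zero _ hd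
  field_simp

theorem mdifferentiable_unitFun (p : ℕ) (hp : 0 < p) :
    MDifferentiable 𝓘(ℂ) 𝓘(ℂ) (unitFun p hp) := by
  have h1 : MDifferentiable 𝓘(ℂ) 𝓘(ℂ) (fun τ : ℍ => Δ (scaleH p hp τ)) :=
    Fermat.Agent.S24.H648.mdifferentiable_J_scale
      Fermat.Agent.S28.H565.mdifferentiable_discriminant p hp (scaleH p hp) (fun τ => rfl)
  have h2 : MDifferentiable 𝓘(ℂ) 𝓘(ℂ) (fun τ : ℍ => (p : ℂ) ^ 12 * Δ (scaleH p hp τ)) :=
    (mdifferentiable_const (c := ((p : ℂ) ^ 12))).mul h1
  have h3 := h2.div Fermat.Agent.S28.H565.mdifferentiable_discriminant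
    (fun τ => ModularForm.discriminant_ne_zero τ)
  have he : unitFun p hp = (fun τ : ℍ => (p : ℂ) ^ 12 * Δ (scaleH p hp τ)) / Δ := by
    funext τ
    simp [unitFun, div_eq_mul_inv]
  rw [he]
  exact h3

theorem unitFun_mem_goodRing (p : ℕ) (hp : 0 < p) : unitFun p hp ∈ goodRing p :=
  ⟨mdifferentiable_unitFun p hp, fun γ hγ τ => unitFun_smul p hp γ hγ τ,
    fun g => expGrowth_unitFun_smul p hp g⟩

/-- The `S`-conjugate of the unit at `pτ` is `Δ(τ)/Δ(pτ)`. -/
theorem unitFun_S_scaleH (p : ℕ) (hp : 0 < p) (w : ℍ) :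
    unitFun p hp (ModularGroup.S • scaleH p hp w) = unitFun' p hp w := by
  have hw : (w : ℂ) ≠ 0 := UpperHalfPlane.ne_zero w
  have hp' : (p : ℂ) ≠ 0 := by exact_mod_cast hp.ne'
  have hΔ : Δ (scaleH p hp w) ≠ 0 := ModularForm.discriminant_ne_zero _
  rw [unitFun, unitFun', scaleH_S_scaleH, Fermat.Agent.S28.H565.discriminant_smul,
    Fermat.Agent.S28.H565.discriminant_smul, scaleH_coe]
  have e10 : ((ModularGroup.S 1 0 : ℤ) : ℂ) = 1 := by simp [ModularGroup.S]
  have e11 : ((ModularGroup.S 1 1 : ℤ) : ℂ) = 0 := by simp [ModularGroup.S]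
  rw [e10, e11]
  simp only [one_mul, add_zero]
  have h1 : (w : ℂ) ^ (12 : ℤ) ≠ 0 := zpow_ne_zero _ hw
  have h2 : ((p : ℂ) * (w : ℂ)) ^ (12 : ℤ) = (p : ℂ) ^ 12 * (w : ℂ) ^ (12 : ℤ) := by
    rw [mul_zpow]; norm_cast
  rw [h2]
  field_simp

/-! ### `q`-expansions -/

/-- The formal series of the unit over `ℂ`. -/
def unitSeriesC (p : ℕ) [NeZero p] : LaurentSeries ℂ :=
  HahnSeries.C ((p : ℂ) ^ 12) * qExpand ℂ p deltaSeriesC * deltaInvSeriesC

/-- The formal series of `Δ(τ)/Δ(pτ)` over `ℂ`. -/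
def unitSeriesC' (p : ℕ) [NeZero p] : LaurentSeries ℂ :=
  deltaSeriesC * qExpand ℂ p deltaInvSeriesC

theorem hasTExp_unitFun (p : ℕ) [NeZero p] (hp : 0 < p) :
    HasTExp 1 (unitFun p hp) (unitSeriesC p) := by
  have h1 := (HasTExp.const (h := 1) ((p : ℂ) ^ 12)).mul
    (hasTExp_comp_scaleH p hp Fermat.Agent.S28.H565.hasTExp_discriminant)
  have h2 := h1.mul Fermat.Agent.S28.H565.hasTExp_discriminant_inv
  exact h2.congr fun τ => by simp [unitFun]

theorem hasTExp_unitFun' (p : ℕ) [NeZero p] (hp : 0 < p) :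
    HasTExp 1 (unitFun' p hp) (unitSeriesC' p) := by
  have h1 := Fermat.Agent.S28.H565.hasTExp_discriminant.mul
    (hasTExp_comp_scaleH p hp Fermat.Agent.S28.H565.hasTExp_discriminant_inv)
  exact h1.congr fun τ => by simp [unitFun']

end Fermat.Agent.S28.H589

end

end
-- ===== PACK-END S28/H589/UnitGood.lean

-- ===== PACK-BEGIN S55/Bridge/H594/Unram.lean
section



/-!
# S55 bridge (helper594), piece B10: Prelude "unramified" versus classical "unramified"

`F ⊂ ℚ̄` a finite Galois extension of `ℚ`, `q` a prime number.  The Prelude condition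

  `∀ A : ValuationSubring ℚ̄, A.LiesOverPrime q → A.inertiaSubgroupIn ℚ ≤ F.fixingSubgroup`

is equivalent to: all inertia groups in `Gal(F/ℚ)` of primes of `𝓞 F` containing `q` are trivial,
and to: the ramification index of `q` in `𝓞 F` is `1`.
-/

set_option autoImplicit false
set_option linter.style.haveILetI false
set_option linter.unusedSectionVars false

namespace Fermat.Agent.S55.Bridge.H594

open Fermat.Agent.S54 Fermat.Agent.S55.Bridge NumberField
open scoped Pointwise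

attribute [local instance] isAlgebraic_Qbar isGalois_Qbar

section unram

variable (F : IntermediateField ℚ (AlgebraicClosure ℚ)) [FiniteDimensional ℚ F]

/-- A finite intermediate field of `ℚ̄/ℚ` is a number field. -/
theorem numberField_of_finite : NumberField F :=
  { to_charZero := inferInstance, to_finiteDimensional := inferInstance }

attribute [local instance] numberField_of_finite

variable (A : ValuationSubring (AlgebraicClosure ℚ))

theorem algebraMap_ringOfIntegers_mem (x : 𝓞 F) :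
    algebraMap (𝓞 F) (AlgebraicClosure ℚ) x ∈ A := by
  apply isIntegral_mem_valuationSubring A
  exact (RingOfIntegers.isIntegral x).map
    (IsScalarTower.toAlgHom ℤ (𝓞 F) (AlgebraicClosure ℚ))

/-- The prime of `𝓞 F` below the valuation subring `A` of `ℚ̄`. -/
def primeBelowF : Ideal (𝓞 F) where
  carrier := {x | algebraMap (𝓞 F) (AlgebraicClosure ℚ) x ∈ A.nonunits}
  add_mem' := fun {a b} ha hb => by
    simp only [Set.mem_ofPred_eq, map_add] at ha hb ⊢
    exact A.nonunits.add_mem ha hb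
  zero_mem' := by
    simp only [Set.mem_ofPred_eq, map_zero]
    exact A.nonunits.zero_mem
  smul_mem' := fun c b hb => by
    simp only [Set.mem_ofPred_eq, smul_eq_mul, map_mul] at hb ⊢
    rw [ValuationSubring.mem_nonunits_iff] at hb ⊢
    rw [map_mul]
    have hc : A.valuation (algebraMap (𝓞 F) (AlgebraicClosure ℚ) c) ≤ 1 :=
      (A.valuation_le_one_iff _).mpr (algebraMap_ringOfIntegers_mem F A c)
    exact mul_lt_one_of_nonneg_of_lt_one_right hc zero_le hb

theorem mem_primeBelowF (x : 𝓞 F) :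
    x ∈ primeBelowF F A ↔ algebraMap (𝓞 F) (AlgebraicClosure ℚ) x ∈ A.nonunits := Iff.rfl

theorem primeBelowF_isPrime : (primeBelowF F A).IsPrime := by
  constructor
  · intro h
    have : (1 : 𝓞 F) ∈ primeBelowF F A := by rw [h]; trivial
    rw [mem_primeBelowF, ValuationSubring.mem_nonunits_iff, map_one, map_one] at this
    exact lt_irrefl _ this
  · intro a b hab
    rw [mem_primeBelowF, ValuationSubring.mem_nonunits_iff] at hab ⊢
    rw [mem_primeBelowF, ValuationSubring.mem_nonunits_iff]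
    have ha : A.valuation (algebraMap (𝓞 F) (AlgebraicClosure ℚ) a) ≤ 1 :=
      (A.valuation_le_one_iff _).mpr (algebraMap_ringOfIntegers_mem F A a)
    have hb : A.valuation (algebraMap (𝓞 F) (AlgebraicClosure ℚ) b) ≤ 1 :=
      (A.valuation_le_one_iff _).mpr (algebraMap_ringOfIntegers_mem F A b)
    by_contra hcon
    rw [not_or, not_lt, not_lt] at hcon
    have ha1 := le_antisymm ha hcon.1
    have hb1 := le_antisymm hb hcon.2
    rw [map_mul, map_mul, ha1, hb1, mul_one] at hab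
    exact lt_irrefl _ hab

theorem natCast_mem_primeBelowF {q : ℕ} (hA : A.LiesOverPrime q) :
    (q : 𝓞 F) ∈ primeBelowF F A := by
  rw [mem_primeBelowF, map_natCast]
  exact hA

variable [IsGalois ℚ F]

theorem algebraMap_smul_ringOfIntegers (τ : F ≃ₐ[ℚ] F) (x : 𝓞 F) :
    algebraMap (𝓞 F) (AlgebraicClosure ℚ) (τ • x) =
      ((τ (algebraMap (𝓞 F) F x) : F) : AlgebraicClosure ℚ) := rfl

theorem algebraMap_restrict_smul (σ : AlgebraicClosure ℚ ≃ₐ[ℚ] AlgebraicClosure ℚ) (x : 𝓞 F) :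
    algebraMap (𝓞 F) (AlgebraicClosure ℚ) (AlgEquiv.restrictNormalHom F σ • x) =
      σ (algebraMap (𝓞 F) (AlgebraicClosure ℚ) x) := by
  rw [algebraMap_smul_ringOfIntegers, restrictNormalHom_apply]
  rfl

/-- The restriction to `F` of an element of the inertia group of `A` lies in the inertia group
of the prime of `𝓞 F` below `A`. -/
theorem restrict_mem_inertia_primeBelowF (σ : AlgebraicClosure ℚ ≃ₐ[ℚ] AlgebraicClosure ℚ)
    (hσ : σ ∈ A.inertiaSubgroupIn ℚ) :
    AlgEquiv.restrictNormalHom F σ ∈ (primeBelowF F A).inertia (F ≃ₐ[ℚ] F) := by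
  intro x
  show _ - x ∈ primeBelowF F A
  rw [mem_primeBelowF, map_sub, algebraMap_restrict_smul]
  exact ((mem_inertiaSubgroupIn_iff A σ).mp hσ).2 _ (algebraMap_ringOfIntegers_mem F A x)

/-- **B14 (inertia), ideal form**: the image in `Gal(F/ℚ)` of the inertia group of `A` is the
inertia group of the prime of `𝓞 F` below `A`. -/
theorem map_inertiaSubgroupIn_eq {q : ℕ} (hq : q.Prime) (hA : A.LiesOverPrime q) :
    (A.inertiaSubgroupIn ℚ).map (AlgEquiv.restrictNormalHom F) =
      (primeBelowF F A).inertia (F ≃ₐ[ℚ] F) := by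
  apply le_antisymm
  · rintro _ ⟨σ, hσ, rfl⟩
    exact restrict_mem_inertia_primeBelowF F A σ hσ
  · intro τ hτ
    obtain ⟨σ, hσ, hστ⟩ := exists_inertia_lift F A hq hA τ (fun x hx => by
      obtain ⟨y, rfl⟩ : ∃ y : 𝓞 F, algebraMap (𝓞 F) F y = x := ⟨⟨x, hx⟩, rfl⟩
      have h2 : τ • y - y ∈ primeBelowF F A := hτ y
      rw [mem_primeBelowF, map_sub, algebraMap_smul_ringOfIntegers] at h2
      exact h2)
    exact ⟨σ, hσ, hστ⟩

/-- **B10.**  The Prelude unramifiedness condition at `q` for the finite Galois field `F` is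
equivalent to the triviality of all inertia groups in `Gal(F/ℚ)` of primes of `𝓞 F` over `q`. -/
theorem inertia_le_fixingSubgroup_iff_inertia_eq_bot {q : ℕ} (hq : q.Prime) :
    (∀ A : ValuationSubring (AlgebraicClosure ℚ), A.LiesOverPrime q →
        A.inertiaSubgroupIn ℚ ≤ F.fixingSubgroup) ↔
      ∀ P : Ideal (𝓞 F), P.IsPrime → (q : 𝓞 F) ∈ P → P.inertia (F ≃ₐ[ℚ] F) = ⊥ := by
  constructor
  · intro h P hP hqP
    rw [eq_bot_iff]
    intro τ hτ
    -- a valuation subring of `ℚ̄` above `P`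
    let A₀ : Subring (AlgebraicClosure ℚ) := (algebraMap (𝓞 F) (AlgebraicClosure ℚ)).range
    let g : 𝓞 F →+* A₀ := (algebraMap (𝓞 F) (AlgebraicClosure ℚ)).rangeRestrict
    have hginj : Function.Injective g := by
      intro x y hxy
      have h1 : algebraMap (𝓞 F) (AlgebraicClosure ℚ) x =
          algebraMap (𝓞 F) (AlgebraicClosure ℚ) y :=
        congrArg (fun z : A₀ => (z : AlgebraicClosure ℚ)) hxy
      exact FaithfulSMul.algebraMap_injective (𝓞 F) (AlgebraicClosure ℚ) h1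
    have hgsurj : Function.Surjective g :=
      (algebraMap (𝓞 F) (AlgebraicClosure ℚ)).rangeRestrict_surjective
    have hI : P.map g ≠ ⊤ := by
      intro htop
      have h1 : (P.map g).comap g = P := Ideal.comap_map_of_bijective g ⟨hginj, hgsurj⟩
      rw [htop, Ideal.comap_top] at h1
      exact hP.ne_top h1.symm
    obtain ⟨A, -, hA⟩ := Ideal.image_subset_nonunits_valuationSubring _ hI
    have hPA : ∀ x ∈ P, algebraMap (𝓞 F) (AlgebraicClosure ℚ) x ∈ A.nonunits := by
      intro x hx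
      exact hA ⟨g x, Ideal.mem_map_of_mem g hx, rfl⟩
    have hAq : A.LiesOverPrime q := by
      have := hPA _ hqP
      rwa [map_natCast] at this
    obtain ⟨σ, hσ, hστ⟩ := exists_inertia_lift F A hq hAq τ (fun x hx => by
      obtain ⟨y, rfl⟩ : ∃ y : 𝓞 F, algebraMap (𝓞 F) F y = x := ⟨⟨x, hx⟩, rfl⟩
      have h2 := hPA _ (hτ y)
      rw [map_sub, algebraMap_smul_ringOfIntegers] at h2
      exact h2)
    have h3 := h A hAq hσ
    rw [← hστ, Subgroup.mem_bot]
    exact restrictNormalHom_eq_one_of_mem_fixingSubgroup F σ h3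
  · intro h A hA σ hσ
    haveI := primeBelowF_isPrime F A
    have h1 := restrict_mem_inertia_primeBelowF F A σ hσ
    rw [h (primeBelowF F A) inferInstance (natCast_mem_primeBelowF F A hA), Subgroup.mem_bot] at h1
    rw [IntermediateField.mem_fixingSubgroup_iff]
    intro x hx
    have h2 := restrictNormalHom_apply F σ ⟨x, hx⟩
    rw [h1] at h2
    exact h2.symm

/-- A prime of `𝓞 F` containing the prime number `q` lies over `(q) ⊂ ℤ`. -/
theorem liesOver_span_of_natCast_mem {q : ℕ} (hq : q.Prime) (P : Ideal (𝓞 F)) [P.IsPrime]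
    (hqP : (q : 𝓞 F) ∈ P) : P.LiesOver (Ideal.span {(q : ℤ)}) := by
  haveI hmax : (Ideal.span {(q : ℤ)}).IsMaximal :=
    PrincipalIdealRing.isMaximal_of_irreducible (Nat.prime_iff_prime_int.mp hq).irreducible
  refine ⟨?_⟩
  have hle : Ideal.span {(q : ℤ)} ≤ P.under ℤ := by
    rw [Ideal.span_le, Set.singleton_subset_iff]
    show algebraMap ℤ (𝓞 F) (q : ℤ) ∈ P
    simpa using hqP
  exact hmax.eq_of_le (Ideal.IsPrime.under ℤ P).ne_top hle

/-- **B10, ramification index form.**  The Prelude unramifiedness condition at `q` for the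
finite Galois field `F` holds iff `q` has ramification index `1` in `𝓞 F`. -/
theorem inertia_le_fixingSubgroup_iff_ramificationIdxIn {q : ℕ} (hq : q.Prime) :
    (∀ A : ValuationSubring (AlgebraicClosure ℚ), A.LiesOverPrime q →
        A.inertiaSubgroupIn ℚ ≤ F.fixingSubgroup) ↔
      (Ideal.span {(q : ℤ)}).ramificationIdxIn (𝓞 F) = 1 := by
  haveI hgal : IsGaloisGroup (F ≃ₐ[ℚ] F) ℤ (𝓞 F) :=
    IsGaloisGroup.of_isFractionRing (F ≃ₐ[ℚ] F) ℤ (𝓞 F) ℚ F
  haveI hmax : (Ideal.span {(q : ℤ)}).IsMaximal :=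
    PrincipalIdealRing.isMaximal_of_irreducible (Nat.prime_iff_prime_int.mp hq).irreducible
  haveI hprime : (Ideal.span {(q : ℤ)}).IsPrime := hmax.isPrime
  rw [inertia_le_fixingSubgroup_iff_inertia_eq_bot F hq]
  constructor
  · intro h
    obtain ⟨A, hA⟩ := exists_valuationSubring_liesOver q hq
    haveI := primeBelowF_isPrime F A
    haveI := liesOver_span_of_natCast_mem F hq (primeBelowF F A) (natCast_mem_primeBelowF F A hA)
    rw [← Ideal.card_inertia_eq_ramificationIdxIn (G := F ≃ₐ[ℚ] F) (Ideal.span {(q : ℤ)})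
      (primeBelowF F A), h _ inferInstance (natCast_mem_primeBelowF F A hA)]
    exact Subgroup.card_bot
  · intro h P hP hqP
    haveI := hP
    haveI := liesOver_span_of_natCast_mem F hq P hqP
    have h1 := Ideal.card_inertia_eq_ramificationIdxIn (G := F ≃ₐ[ℚ] F) (Ideal.span {(q : ℤ)}) P
    rw [h] at h1
    exact (Subgroup.card_eq_one).mp h1

/-- **B10 for levels.**  A finite Galois `F` is unramified outside `S` in the Prelude sense iff
every prime number outside `S` has ramification index `1` in `𝓞 F`. -/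
theorem isUnramifiedOutside_iff_ramificationIdxIn (S : Finset Nat.Primes) :
    F.IsUnramifiedOutside S ↔
      ∀ q : Nat.Primes, q ∉ S → (Ideal.span {((q : ℕ) : ℤ)}).ramificationIdxIn (𝓞 F) = 1 := by
  constructor
  · intro h q hqS
    exact (inertia_le_fixingSubgroup_iff_ramificationIdxIn F q.2).mp (h.2 q hqS)
  · intro h
    exact ⟨inferInstance, fun q hqS =>
      (inertia_le_fixingSubgroup_iff_ramificationIdxIn F q.2).mpr (h q hqS)⟩

/-- **B10 for levels, inertia form.** -/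
theorem isUnramifiedOutside_iff_inertia_eq_bot (S : Finset Nat.Primes) :
    F.IsUnramifiedOutside S ↔
      ∀ q : Nat.Primes, q ∉ S → ∀ P : Ideal (𝓞 F), P.IsPrime → ((q : ℕ) : 𝓞 F) ∈ P →
        P.inertia (F ≃ₐ[ℚ] F) = ⊥ := by
  constructor
  · intro h q hqS
    exact (inertia_le_fixingSubgroup_iff_inertia_eq_bot F q.2).mp (h.2 q hqS)
  · intro h
    exact ⟨inferInstance, fun q hqS =>
      (inertia_le_fixingSubgroup_iff_inertia_eq_bot F q.2).mpr (h q hqS)⟩

end unram

end Fermat.Agent.S55.Bridge.H594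

end
-- ===== PACK-END S55/Bridge/H594/Unram.lean

-- ===== PACK-BEGIN S55/Bridge/H594/Comap.lean
section


/-!
# S55 bridge (helper594), piece B14 in `ValuationSubring.comap` form

For a finite (or just normal) intermediate field `F` of `ℚ̄/ℚ` and a valuation subring `A` of `ℚ̄`
over a prime number `q`, with `A ∩ F := A.comap (algebraMap F ℚ̄)`:

* `map_decompositionSubgroup_eq_comap`: the image of `D_A` in `Gal(F/ℚ)` is `D_{A ∩ F}`;
* `map_inertiaSubgroupIn_eq_comap`: the image of `I_A` in `Gal(F/ℚ)` is `I_{A ∩ F}`.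

The first part of the file gives elementwise membership criteria for the decomposition and
inertia groups of a valuation subring of an arbitrary field extension.
-/

set_option autoImplicit false
set_option linter.style.haveILetI false
set_option linter.unusedSectionVars false

namespace Fermat.Agent.S55.Bridge.H594

open Fermat.Agent.S54 Fermat.Agent.S55.Bridge
open scoped Pointwise

section general

variable {K L : Type*} [Field K] [Field L] [Algebra K L] (A : ValuationSubring L)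

/-- Membership in the decomposition group, elementwise (general fields). -/
theorem mem_decompositionSubgroup_iff_forall (σ : L ≃ₐ[K] L) :
    σ ∈ A.decompositionSubgroup K ↔ ∀ x, σ x ∈ A ↔ x ∈ A := by
  rw [MulAction.mem_stabilizer_iff]
  constructor
  · intro h x
    have hinv : σ⁻¹ • A = A := by
      conv_lhs => rw [← h]
      rw [inv_smul_smul]
    have h1 := ValuationSubring.mem_pointwise_smul_iff_inv_smul_mem (S := A)
      (g := σ⁻¹) (x := x)
    rw [hinv, inv_inv] at h1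
    rw [h1]
    rfl
  · intro h
    apply SetLike.ext
    intro x
    rw [ValuationSubring.mem_pointwise_smul_iff_inv_smul_mem]
    have h2 := h (σ⁻¹ • x)
    rw [AlgEquiv.smul_def] at h2 ⊢
    rw [← h2]
    have : σ (σ⁻¹ x) = x := by
      show (σ * σ⁻¹) x = x
      rw [mul_inv_cancel]
      rfl
    rw [this]

/-- Membership in the inertia group, elementwise (general fields). -/
theorem mem_inertiaSubgroupIn_iff_forall (σ : L ≃ₐ[K] L) :
    σ ∈ A.inertiaSubgroupIn K ↔
      σ ∈ A.decompositionSubgroup K ∧ ∀ z ∈ A, σ z - z ∈ A.nonunits := by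
  constructor
  · rintro ⟨g, hg, rfl⟩
    refine ⟨g.2, fun z hzA => ?_⟩
    have h1 : MulSemiringAction.toRingAut (A.decompositionSubgroup K)
        (IsLocalRing.ResidueField A) g = 1 := hg
    have h2 : g • (IsLocalRing.residue A ⟨z, hzA⟩) = IsLocalRing.residue A ⟨z, hzA⟩ := by
      have := congrArg (fun f => f (IsLocalRing.residue A ⟨z, hzA⟩)) h1
      simpa using this
    rw [← IsLocalRing.ResidueField.residue_smul] at h2
    have h3 : (g • (⟨z, hzA⟩ : A)) - ⟨z, hzA⟩ ∈ IsLocalRing.maximalIdeal A := by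
      rw [← Ideal.Quotient.eq]
      exact h2
    rw [ValuationSubring.valuation_lt_one_iff] at h3
    rw [ValuationSubring.mem_nonunits_iff]
    exact h3
  · rintro ⟨hD, h⟩
    refine ⟨⟨σ, hD⟩, ?_, rfl⟩
    show (⟨σ, hD⟩ : A.decompositionSubgroup K) ∈ MonoidHom.ker
      (MulSemiringAction.toRingAut (A.decompositionSubgroup K) (IsLocalRing.ResidueField A))
    rw [MonoidHom.mem_ker]
    apply RingEquiv.ext
    intro y
    obtain ⟨x, rfl⟩ := IsLocalRing.residue_surjective y
    show (⟨σ, hD⟩ : A.decompositionSubgroup K) • (IsLocalRing.residue A x)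
      = IsLocalRing.residue A x
    rw [← IsLocalRing.ResidueField.residue_smul]
    rw [← sub_eq_zero, ← map_sub, IsLocalRing.residue_eq_zero_iff]
    have h3 := h x.1 x.2
    rw [ValuationSubring.mem_nonunits_iff] at h3
    rw [ValuationSubring.valuation_lt_one_iff]
    exact h3

/-- Non-units of a `comap`. -/
theorem mem_nonunits_comap_iff {M : Type*} [Field M] (f : M →+* L) (x : M) :
    x ∈ (A.comap f).nonunits ↔ f x ∈ A.nonunits := by
  rw [ValuationSubring.mem_nonunits_iff_or, ValuationSubring.mem_nonunits_iff_or,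
    ValuationSubring.mem_comap, map_inv₀, map_eq_zero_iff f f.injective]

end general

section comap

attribute [local instance] isAlgebraic_Qbar isGalois_Qbar

variable (F : IntermediateField ℚ (AlgebraicClosure ℚ)) [Normal ℚ F]
variable (A : ValuationSubring (AlgebraicClosure ℚ))

/-- **B14 (decomposition groups).** -/
theorem map_decompositionSubgroup_eq_comap {q : ℕ} (hq : q.Prime) (hA : A.LiesOverPrime q) :
    (A.decompositionSubgroup ℚ).map (AlgEquiv.restrictNormalHom F) =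
      (A.comap (algebraMap F (AlgebraicClosure ℚ))).decompositionSubgroup ℚ := by
  apply le_antisymm
  · rintro _ ⟨σ, hσ, rfl⟩
    rw [mem_decompositionSubgroup_iff_forall]
    intro x
    rw [ValuationSubring.mem_comap, ValuationSubring.mem_comap]
    have := (mem_decompositionSubgroup_iff_forall A σ).mp hσ (x : AlgebraicClosure ℚ)
    have h2 : algebraMap F (AlgebraicClosure ℚ) (AlgEquiv.restrictNormalHom F σ x) =
        σ (x : AlgebraicClosure ℚ) := restrictNormalHom_apply F σ x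
    rw [h2]
    exact this
  · intro τ hτ
    have hτ' := (mem_decompositionSubgroup_iff_forall _ τ).mp hτ
    obtain ⟨σ, hσ, hστ⟩ := exists_decomposition_lift F A hq hA τ (fun x _ => by
      have h1 := mem_nonunits_comap_iff A (algebraMap F (AlgebraicClosure ℚ)) (τ x)
      have h2 := mem_nonunits_comap_iff A (algebraMap F (AlgebraicClosure ℚ)) x
      rw [show ((τ x : F) : AlgebraicClosure ℚ) = algebraMap F (AlgebraicClosure ℚ) (τ x) from rfl,
        show ((x : F) : AlgebraicClosure ℚ) = algebraMap F (AlgebraicClosure ℚ) x from rfl,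
        ← h1, ← h2, ValuationSubring.mem_nonunits_iff_or, ValuationSubring.mem_nonunits_iff_or,
        ← map_inv₀, hτ', map_eq_zero_iff τ τ.injective])
    exact ⟨σ, hσ, hστ⟩

/-- **B14 (inertia groups).** -/
theorem map_inertiaSubgroupIn_eq_comap {q : ℕ} (hq : q.Prime) (hA : A.LiesOverPrime q) :
    (A.inertiaSubgroupIn ℚ).map (AlgEquiv.restrictNormalHom F) =
      (A.comap (algebraMap F (AlgebraicClosure ℚ))).inertiaSubgroupIn ℚ := by
  apply le_antisymm
  · rintro _ ⟨σ, hσ, rfl⟩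
    obtain ⟨hD, hI⟩ := (mem_inertiaSubgroupIn_iff_forall A σ).mp hσ
    rw [mem_inertiaSubgroupIn_iff_forall]
    refine ⟨?_, fun z hz => ?_⟩
    · rw [← map_decompositionSubgroup_eq_comap F A hq hA]
      exact ⟨σ, hD, rfl⟩
    · rw [mem_nonunits_comap_iff, map_sub]
      rw [ValuationSubring.mem_comap] at hz
      have := hI _ hz
      rw [show algebraMap F (AlgebraicClosure ℚ) (AlgEquiv.restrictNormalHom F σ z) =
        σ (algebraMap F (AlgebraicClosure ℚ) z) from restrictNormalHom_apply F σ z]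
      exact this
  · intro τ hτ
    obtain ⟨-, hI⟩ := (mem_inertiaSubgroupIn_iff_forall _ τ).mp hτ
    obtain ⟨σ, hσ, hστ⟩ := exists_inertia_lift F A hq hA τ (fun x hx => by
      have hxA : x ∈ A.comap (algebraMap F (AlgebraicClosure ℚ)) := by
        rw [ValuationSubring.mem_comap]
        exact isIntegral_mem_valuationSubring A
          (hx.map (IsScalarTower.toAlgHom ℤ F (AlgebraicClosure ℚ)))
      have h1 := hI x hxA
      rw [mem_nonunits_comap_iff, map_sub] at h1
      exact h1)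
    exact ⟨σ, hσ, hστ⟩

end comap

end Fermat.Agent.S55.Bridge.H594

end
-- ===== PACK-END S55/Bridge/H594/Comap.lean

-- ===== PACK-BEGIN A2/IF/H429/Inertia.lean
section





/-!
# A2 / IF (helper429): the inertia group of a valuation subring of `ℚ̄` and its fixed field

`P` a valuation subring of `ℚ̄` over a prime number `q`, `I = P.inertiaSubgroupIn ℚ`,
`E_I = ℚ̄^I` the inertia field.

* `valuation_map_eq`          : elements of the decomposition group preserve the valuation of `P`;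
* `exists_inertia_apply_eq`   : an automorphism fixing `E_I` pointwise agrees, on each element of
                                `ℚ̄`, with some element of `I`;
* `exists_zpow_of_mem_inertiaField` : every nonzero element of `E_I` is a unit times a power of
                                `q` (the inertia field is unramified).
-/

set_option autoImplicit false
set_option linter.style.haveILetI false
set_option linter.unusedSectionVars false

open scoped Pointwise
open NumberField IsDedekindDomain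

namespace Fermat.Agent.A2.IF.H429

open Fermat.Agent.S55.Bridge Fermat.Agent.S55.Bridge.H594

attribute [local instance] isAlgebraic_Qbar isGalois_Qbar

/-- `ℚ̄` (local abbreviation). -/
local notation "Qb" => AlgebraicClosure ℚ

variable (P : ValuationSubring Qb)

/-! ## Decomposition and inertia elements -/

theorem mem_of_mem_decomp {σ : Qb ≃ₐ[ℚ] Qb} (hσ : σ ∈ P.decompositionSubgroup ℚ) {x : Qb}
    (hx : x ∈ P) : σ x ∈ P :=
  ((mem_decompositionSubgroup_iff_forall P σ).mp hσ x).mpr hx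

theorem mem_nonunits_of_mem_decomp {σ : Qb ≃ₐ[ℚ] Qb} (hσ : σ ∈ P.decompositionSubgroup ℚ)
    {x : Qb} (hx : x ∈ P.nonunits) : σ x ∈ P.nonunits := by
  rw [ValuationSubring.mem_nonunits_iff_or] at hx ⊢
  rcases hx with rfl | hx
  · left; simp
  · right
    intro h
    apply hx
    rw [← map_inv₀] at h
    exact ((mem_decompositionSubgroup_iff_forall P σ).mp hσ _).mp h

theorem decomp_of_inertia {σ : Qb ≃ₐ[ℚ] Qb} (hσ : σ ∈ P.inertiaSubgroupIn ℚ) :
    σ ∈ P.decompositionSubgroup ℚ :=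
  ((mem_inertiaSubgroupIn_iff_forall P σ).mp hσ).1

theorem sub_mem_nonunits_of_inertia {σ : Qb ≃ₐ[ℚ] Qb} (hσ : σ ∈ P.inertiaSubgroupIn ℚ)
    {x : Qb} (hx : x ∈ P) : σ x - x ∈ P.nonunits :=
  ((mem_inertiaSubgroupIn_iff_forall P σ).mp hσ).2 x hx

/-- Elements of the decomposition group are strictly monotone for the valuation. -/
theorem valuation_map_lt {σ : Qb ≃ₐ[ℚ] Qb} (hσ : σ ∈ P.decompositionSubgroup ℚ) {a b : Qb}
    (h : P.valuation a < P.valuation b) : P.valuation (σ a) < P.valuation (σ b) := by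
  have hb : b ≠ 0 := by
    rintro rfl
    simp at h
  have hbv : P.valuation b ≠ 0 := (Valuation.ne_zero_iff _).mpr hb
  have hσb : σ b ≠ 0 := by simpa using hb
  have hσbv : P.valuation (σ b) ≠ 0 := (Valuation.ne_zero_iff _).mpr hσb
  have h1 : a / b ∈ P.nonunits := by
    rw [ValuationSubring.mem_nonunits_iff, map_div₀]
    exact (div_lt_one₀ (zero_lt_iff.mpr hbv)).mpr h
  have h2 := mem_nonunits_of_mem_decomp P hσ h1
  rw [ValuationSubring.mem_nonunits_iff, map_div₀, map_div₀] at h2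
  exact (div_lt_one₀ (zero_lt_iff.mpr hσbv)).mp h2

theorem valuation_iterate_lt {σ : Qb ≃ₐ[ℚ] Qb} (hσ : σ ∈ P.decompositionSubgroup ℚ) {x : Qb}
    (h : P.valuation (σ x) < P.valuation x) (k : ℕ) :
    P.valuation ((σ ^ (k + 1)) x) < P.valuation x := by
  induction k with
  | zero => simpa using h
  | succ k ih =>
    have h1 := valuation_map_lt P hσ ih
    have h2 : (σ ^ (k + 1 + 1)) x = σ ((σ ^ (k + 1)) x) := by
      rw [pow_succ' σ (k + 1)]; rfl
    rw [h2]
    exact h1.trans h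

theorem valuation_iterate_gt {σ : Qb ≃ₐ[ℚ] Qb} (hσ : σ ∈ P.decompositionSubgroup ℚ) {x : Qb}
    (h : P.valuation x < P.valuation (σ x)) (k : ℕ) :
    P.valuation x < P.valuation ((σ ^ (k + 1)) x) := by
  induction k with
  | zero => simpa using h
  | succ k ih =>
    have h1 := valuation_map_lt P hσ ih
    have h2 : (σ ^ (k + 1 + 1)) x = σ ((σ ^ (k + 1)) x) := by
      rw [pow_succ' σ (k + 1)]; rfl
    rw [h2]
    exact h.trans h1

/-- Every element of `ℚ̄` is fixed by a positive power of any automorphism. -/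
theorem exists_pow_apply_eq (σ : Qb ≃ₐ[ℚ] Qb) (x : Qb) : ∃ k : ℕ, (σ ^ (k + 1)) x = x := by
  have hx : IsIntegral ℚ x := Algebra.IsIntegral.isIntegral x
  have hfin : ((minpoly ℚ x).rootSet Qb).Finite := Polynomial.rootSet_finite _ _
  have hmem : ∀ i : ℕ, (σ ^ i) x ∈ (minpoly ℚ x).rootSet Qb := by
    intro i
    rw [Polynomial.mem_rootSet]
    refine ⟨minpoly.ne_zero hx, ?_⟩
    have := Polynomial.aeval_algHom_apply ((σ ^ i : Qb ≃ₐ[ℚ] Qb) : Qb →ₐ[ℚ] Qb) x (minpoly ℚ x)
    rw [minpoly.aeval, map_zero] at this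
    exact this
  haveI : Finite ((minpoly ℚ x).rootSet Qb) := hfin
  obtain ⟨i, j, hij, h⟩ := Finite.exists_ne_map_eq_of_infinite
    (fun i : ℕ => (⟨(σ ^ i) x, hmem i⟩ : (minpoly ℚ x).rootSet Qb))
  have h' : (σ ^ i) x = (σ ^ j) x := congrArg Subtype.val h
  wlog hlt : i < j generalizing i j
  · exact this j i hij.symm h.symm h'.symm (lt_of_le_of_ne (not_lt.mp hlt) hij.symm)
  obtain ⟨k, rfl⟩ : ∃ k, j = i + (k + 1) := ⟨j - i - 1, by omega⟩
  refine ⟨k, ?_⟩
  have h3 : (σ ^ (i + (k + 1))) x = (σ ^ i) ((σ ^ (k + 1)) x) := by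
    rw [pow_add]; rfl
  rw [h3] at h'
  exact ((σ ^ i).injective h').symm

/-- Elements of the decomposition group preserve the valuation. -/
theorem valuation_map_eq {σ : Qb ≃ₐ[ℚ] Qb} (hσ : σ ∈ P.decompositionSubgroup ℚ) (x : Qb) :
    P.valuation (σ x) = P.valuation x := by
  obtain ⟨k, hk⟩ := exists_pow_apply_eq σ x
  rcases lt_trichotomy (P.valuation (σ x)) (P.valuation x) with h | h | h
  · have := valuation_iterate_lt P hσ h k
    rw [hk] at this
    exact absurd this (lt_irrefl _)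
  · exact h
  · have := valuation_iterate_gt P hσ h k
    rw [hk] at this
    exact absurd this (lt_irrefl _)

/-- Every finite set of algebraic numbers lies in a finite Galois extension of `ℚ` in `ℚ̄`. -/
theorem exists_finite_galois (S : Finset Qb) :
    ∃ M : IntermediateField ℚ Qb, (∀ s ∈ S, s ∈ M) ∧ FiniteDimensional ℚ M ∧ IsGalois ℚ M := by
  let M₀ : IntermediateField ℚ Qb := IntermediateField.adjoin ℚ (S : Set Qb)
  haveI : FiniteDimensional ℚ M₀ :=
    IntermediateField.finiteDimensional_adjoin (fun x _ => Algebra.IsIntegral.isIntegral x)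
  let M : IntermediateField ℚ Qb := IntermediateField.normalClosure ℚ M₀ Qb
  refine ⟨M, fun s hs => ?_, inferInstance, ?_⟩
  · have h1 : M₀ ≤ M := IntermediateField.le_normalClosure M₀
    exact h1 (IntermediateField.subset_adjoin ℚ _ hs)
  · haveI : Normal ℚ Qb := IsGalois.to_normal
    haveI : Normal ℚ M := normalClosure.normal ℚ M₀ Qb
    exact ⟨⟩

/-- The inertia field of `P`. -/
noncomputable def inertiaField : IntermediateField ℚ Qb :=
  IntermediateField.fixedField (P.inertiaSubgroupIn ℚ)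

theorem mem_inertiaField_iff {x : Qb} :
    x ∈ inertiaField P ↔ ∀ τ ∈ P.inertiaSubgroupIn ℚ, τ x = x := by
  unfold inertiaField
  rw [IntermediateField.mem_fixedField_iff]

/-- **Lemma A.**  An automorphism fixing the inertia field pointwise agrees, on each element,
with some element of the inertia group. -/
theorem exists_inertia_apply_eq (σ : Qb ≃ₐ[ℚ] Qb) (hσ : ∀ e ∈ inertiaField P, σ e = e)
    (x : Qb) : ∃ τ ∈ P.inertiaSubgroupIn ℚ, σ x = τ x := by
  obtain ⟨M, hxM, hfin, hgal⟩ := exists_finite_galois {x}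
  have hx : x ∈ M := hxM x (Finset.mem_singleton_self x)
  let H : Subgroup (M ≃ₐ[ℚ] M) := (P.inertiaSubgroupIn ℚ).map (AlgEquiv.restrictNormalHom M)
  have hmem : AlgEquiv.restrictNormalHom M σ ∈ H := by
    rw [← IntermediateField.fixingSubgroup_fixedField H]
    rw [IntermediateField.mem_fixingSubgroup_iff]
    intro y hy
    apply Subtype.ext
    rw [restrictNormalHom_apply]
    apply hσ
    rw [mem_inertiaField_iff]
    intro τ hτ
    rw [IntermediateField.mem_fixedField_iff] at hy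
    have h1 := hy (AlgEquiv.restrictNormalHom M τ) ⟨τ, hτ, rfl⟩
    rw [← restrictNormalHom_apply M τ y, h1]
  obtain ⟨τ, hτ, hτσ⟩ := hmem
  refine ⟨τ, hτ, ?_⟩
  have h1 := restrictNormalHom_apply M σ ⟨x, hx⟩
  have h2 := restrictNormalHom_apply M τ ⟨x, hx⟩
  rw [← hτσ] at h1
  exact h1.symm.trans h2


/-- **The inertia field is unramified**: every nonzero element of the inertia field is a unit of
`P` times a power of `q`. -/
theorem exists_zpow_of_mem_inertiaField (q : ℕ) (hq : q.Prime) (hP : P.LiesOverPrime q)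
    (y : Qb) (hy : y ∈ inertiaField P) (hy0 : y ≠ 0) :
    ∃ k : ℤ, P.valuation (y / (q : Qb) ^ k) = 1 := by
  obtain ⟨M, hyM, hfin, hgal⟩ := exists_finite_galois {y}
  have hyM' : y ∈ M := hyM y (Finset.mem_singleton_self y)
  haveI : NumberField M := numberField_of_finite M
  have hne : Fermat.Agent.S14.H937.primeOf M P ≠ ⊥ :=
    Fermat.Agent.S14.H937.primeOf_ne_bot M P q hq hP
  let w : HeightOneSpectrum (𝓞 M) := ⟨Fermat.Agent.S14.H937.primeOf M P, inferInstance, hne⟩
  have hw : w.asIdeal = Fermat.Agent.S14.H937.primeOf M P := rfl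
  have hqw : (q : 𝓞 M) ∈ w.asIdeal := Fermat.Agent.S14.H937.natCast_mem_primeOf M P q hP
  have hfix : ∀ τ ∈ w.asIdeal.inertia Gal(M/ℚ), τ (⟨y, hyM'⟩ : M) = ⟨y, hyM'⟩ := by
    intro τ hτ
    obtain ⟨σ, hσ, hστ⟩ := exists_inertia_lift M P hq hP τ (fun x hx => by
      obtain ⟨x', rfl⟩ : ∃ x' : 𝓞 M, algebraMap (𝓞 M) M x' = x := ⟨⟨x, hx⟩, rfl⟩
      have h2 : τ • x' - x' ∈ Fermat.Agent.S14.H937.primeOf M P := hτ x'
      exact (Fermat.Agent.S14.H937.mem_primeOf M P _).mp h2)
    apply Subtype.ext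
    rw [← hστ, restrictNormalHom_apply]
    exact (mem_inertiaField_iff P).mp hy σ hσ
  obtain ⟨k, hk⟩ := exists_zpow_valuation_eq_one_of_fixed M w q hq hqw ⟨y, hyM'⟩
    (fun h => hy0 (congrArg Subtype.val h)) hfix
  refine ⟨k, ?_⟩
  have h1 := Fermat.Agent.S14.H937.valuation_eq_one_of M P w hw _ hk
  rw [map_div₀, map_zpow₀, map_natCast] at h1
  exact h1


end Fermat.Agent.A2.IF.H429

end
-- ===== PACK-END A2/IF/H429/Inertia.lean

-- ===== PACK-BEGIN A2/IF/H429/Local.lean
section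


/-!
# A2 / IF (helper429): local lemmas for a valuation subring `P` of `ℚ̄` over `q`

* `root_unique_of_derivative_notMem` : a root of `f` is determined by its residue class when the
  derivative is a unit there;
* `exists_root_sub_mem_nonunits` : if `f(a) ≡ 0`, some root of the monic `f` is `≡ a`;
* `exists_pow_sub_mem_nonunits` : the residue field of `P` is algebraic over `𝔽_q`, in the form
  `a ^ N ≡ a` for some `N` divisible by `q`;
* `exists_teichmuller` : every element of `P` is congruent to an element of the inertia field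
  (a root of `X ^ N - X`).
-/

set_option autoImplicit false
set_option linter.style.haveILetI false
set_option linter.unusedSectionVars false

open scoped Pointwise
open Polynomial

namespace Fermat.Agent.A2.IF.H429

open Fermat.Agent.S55.Bridge Fermat.Agent.S55.Bridge.H594

attribute [local instance] isAlgebraic_Qbar isGalois_Qbar

local notation "Qb" => AlgebraicClosure ℚ

/-- A root of `f` is determined by its class modulo `m` if `f'` is not in `m` there. -/
theorem root_unique_of_derivative_notMem {A : Type*} [CommRing A] [IsDomain A] (m : Ideal A)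
    (f : A[X]) (a₀ α β : A) (hα : f.IsRoot α) (hβ : f.IsRoot β)
    (hd : f.derivative.eval a₀ ∉ m) (hαa : α - a₀ ∈ m) (hβa : β - a₀ ∈ m) : α = β := by
  by_contra hne
  obtain ⟨g, hg⟩ : ∃ g, f = (X - C α) * g := Polynomial.dvd_iff_isRoot.mpr hα
  have hgβ : g.eval β = 0 := by
    have h1 : f.eval β = 0 := hβ
    rw [hg, eval_mul, eval_sub, eval_X, eval_C] at h1
    rcases mul_eq_zero.mp h1 with h | h
    · exact absurd (sub_eq_zero.mp h).symm hne
    · exact h
  apply hd
  have h2 : f.derivative.eval a₀ = g.eval a₀ + (a₀ - α) * g.derivative.eval a₀ := by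
    rw [hg, derivative_mul, derivative_sub, derivative_X, derivative_C]
    simp
  rw [h2]
  apply m.add_mem
  · have h3 : a₀ - β ∣ g.eval a₀ - g.eval β := sub_dvd_eval_sub a₀ β g
    rw [hgβ, sub_zero] at h3
    obtain ⟨c, hc⟩ := h3
    rw [hc]
    apply m.mul_mem_right
    have : a₀ - β = -(β - a₀) := by ring
    rw [this]
    exact m.neg_mem hβa
  · apply m.mul_mem_right
    have : a₀ - α = -(α - a₀) := by ring
    rw [this]
    exact m.neg_mem hαa

variable (P : ValuationSubring Qb)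

/-- Roots of monic polynomials over `P` lie in `P`. -/
theorem mem_of_isRoot_map (g : (P : Type)[X]) (hg : g.Monic) (r : Qb)
    (hr : (g.map P.subtype).IsRoot r) : r ∈ P := by
  have hint : IsIntegral P r := by
    refine ⟨g, hg, ?_⟩
    have h1 : (g.map P.subtype).eval r = 0 := hr
    rw [eval_map] at h1
    exact h1
  obtain ⟨y, hy⟩ := IsIntegrallyClosed.isIntegral_iff.mp hint
  rw [← hy]
  exact y.2

/-- If `f(a)` is a non-unit, then `a` is congruent to a root of the monic polynomial `f`. -/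
theorem exists_root_sub_mem_nonunits (f : Qb[X]) (hf : f.Monic)
    (hroots : ∀ r ∈ f.roots, r ∈ P) (a : Qb) (ha : a ∈ P) (h : f.eval a ∈ P.nonunits) :
    ∃ r ∈ f.roots, a - r ∈ P.nonunits := by
  by_contra hcon
  have h1 : ∀ r ∈ f.roots, P.valuation (a - r) = 1 := by
    intro r hr
    have h2 : a - r ∉ P.nonunits := fun h' => hcon ⟨r, hr, h'⟩
    rw [ValuationSubring.mem_nonunits_iff, not_lt] at h2
    exact le_antisymm ((P.valuation_le_one_iff _).mpr (sub_mem ha (hroots r hr))) h2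
  have h3 : P.valuation (f.eval a) = 1 := by
    rw [(IsAlgClosed.splits f).eval_eq_prod_roots_of_monic hf a, map_multiset_prod,
      Multiset.map_map]
    apply Multiset.prod_eq_one
    intro x hx
    obtain ⟨r, hr, rfl⟩ := Multiset.mem_map.mp hx
    exact h1 r hr
  rw [ValuationSubring.mem_nonunits_iff, h3] at h
  exact lt_irrefl _ h

/-- Every algebraic number is a root of a primitive integer polynomial. -/
theorem exists_primitive_aeval_eq_zero (a : Qb) :
    ∃ h : ℤ[X], h.IsPrimitive ∧ aeval a h = 0 := by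
  have h1 : IsAlgebraic ℚ a := Algebra.IsAlgebraic.isAlgebraic a
  have h2 : IsAlgebraic ℤ a := (IsFractionRing.isAlgebraic_iff ℤ ℚ Qb).mpr h1
  obtain ⟨h, hh0, hha⟩ := h2
  refine ⟨h.primPart, h.isPrimitive_primPart, ?_⟩
  have h3 := h.eq_C_content_mul_primPart
  rw [h3, map_mul, aeval_C] at hha
  rcases mul_eq_zero.mp hha with h4 | h4
  · exfalso
    have h5 : h.content ≠ 0 := by
      rw [Ne, content_eq_zero_iff]; exact hh0
    rw [eq_intCast, Int.cast_eq_zero] at h4
    exact h5 h4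
  · exact h4

/-- The residue field of `P` is algebraic over `𝔽_q`, elementary form. -/
theorem exists_pow_sub_mem_nonunits (q : ℕ) (hq : q.Prime) (hP : P.LiesOverPrime q)
    (a : Qb) (ha : a ∈ P) : ∃ N : ℕ, q ∣ N ∧ 0 < N ∧ a ^ N - a ∈ P.nonunits := by
  classical
  haveI : Fact q.Prime := ⟨hq⟩
  let k := IsLocalRing.ResidueField P
  have hqk : ((q : ℕ) : k) = 0 := by
    have h1 : ((q : ℕ) : k) = IsLocalRing.residue P ((q : ℕ) : P) := by
      rw [map_natCast]
    rw [h1, IsLocalRing.residue_eq_zero_iff, ← ValuationSubring.coe_mem_nonunits_iff]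
    have h2 : (((q : ℕ) : P) : Qb) = (q : Qb) := by simp
    rw [h2]
    exact hP
  haveI : CharP k q := (CharP.charP_iff_prime_eq_zero hq).mpr hqk
  letI : Algebra (ZMod q) k := ZMod.algebra k q
  let a' : P := ⟨a, ha⟩
  let ā : k := IsLocalRing.residue P a'
  have halg : IsAlgebraic (ZMod q) ā := by
    obtain ⟨h, hprim, hha⟩ := exists_primitive_aeval_eq_zero a
    refine ⟨h.map (Int.castRingHom (ZMod q)), ?_, ?_⟩
    · intro h0
      have hdvd : C (q : ℤ) ∣ h := by
        rw [C_dvd_iff_dvd_coeff]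
        intro i
        have := congrArg (fun p => coeff p i) h0
        simp only [coeff_map, eq_intCast, coeff_zero] at this
        exact (ZMod.intCast_zmod_eq_zero_iff_dvd _ q).mp this
      have hu := hprim (q : ℤ) hdvd
      rw [Int.isUnit_iff] at hu
      rcases hu with hu | hu
      · have : q = 1 := by exact_mod_cast hu
        exact hq.one_lt.ne' this
      · have : (0 : ℤ) ≤ (q : ℤ) := Int.natCast_nonneg q
        omega
    · rw [aeval_def, eval₂_map]
      have hcomp : (algebraMap (ZMod q) k).comp (Int.castRingHom (ZMod q)) =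
          (IsLocalRing.residue P).comp (Int.castRingHom P) := RingHom.ext_int _ _
      rw [hcomp, ← hom_eval₂]
      have hz : eval₂ (Int.castRingHom P) a' h = 0 := by
        apply Subtype.ext
        have h1 := hom_eval₂ h (Int.castRingHom P) P.subtype a'
        have h2 : P.subtype.comp (Int.castRingHom P) = algebraMap ℤ Qb := RingHom.ext_int _ _
        rw [h2] at h1
        have h3 : eval₂ (algebraMap ℤ Qb) (P.subtype a') h = 0 := hha
        rw [h3] at h1
        exact h1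
      rw [hz, map_zero]
  let F : IntermediateField (ZMod q) k := IntermediateField.adjoin (ZMod q) {ā}
  haveI : FiniteDimensional (ZMod q) F :=
    IntermediateField.adjoin.finiteDimensional halg.isIntegral
  haveI : Finite F := Module.finite_of_finite (ZMod q)
  haveI : Fintype F := Fintype.ofFinite F
  let x : F := ⟨ā, IntermediateField.mem_adjoin_simple_self (ZMod q) ā⟩
  have hx : x ^ Fintype.card F = x := FiniteField.pow_card x
  have hN0 : ((Fintype.card F : ℕ) : F) = 0 := FiniteField.cast_card_eq_zero F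
  haveI : CharP F q := (RingHom.charP_iff (algebraMap F k) (algebraMap F k).injective q).mpr
    inferInstance
  refine ⟨Fintype.card F, (CharP.cast_eq_zero_iff F q _).mp hN0, Fintype.card_pos, ?_⟩
  have h1 : ā ^ Fintype.card F = ā := by
    have := congrArg (fun y : F => (y : k)) hx
    simpa using this
  have h2 : IsLocalRing.residue P (a' ^ Fintype.card F - a') = 0 := by
    rw [map_sub, map_pow]
    exact sub_eq_zero.mpr h1
  rw [IsLocalRing.residue_eq_zero_iff, ← ValuationSubring.coe_mem_nonunits_iff] at h2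
  simpa using h2


theorem natCast_mem_maximalIdeal_of_dvd (q : ℕ) (hP : P.LiesOverPrime q) (N : ℕ) (hqN : q ∣ N) :
    ((N : ℕ) : P) ∈ IsLocalRing.maximalIdeal P := by
  obtain ⟨c, rfl⟩ := hqN
  rw [Nat.cast_mul]
  apply Ideal.mul_mem_right
  rw [← ValuationSubring.coe_mem_nonunits_iff]
  have h2 : (((q : ℕ) : P) : Qb) = (q : Qb) := by simp
  rw [h2]
  exact hP

/-- **Teichmüller lifts.**  Every element of `P` is congruent modulo the maximal ideal to an
element of the inertia field lying in `P`. -/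
theorem exists_teichmuller (q : ℕ) (hq : q.Prime) (hP : P.LiesOverPrime q) (a : Qb)
    (ha : a ∈ P) : ∃ z : Qb, z ∈ P ∧ z ∈ inertiaField P ∧ a - z ∈ P.nonunits := by
  obtain ⟨N, hqN, hN0, haN⟩ := exists_pow_sub_mem_nonunits P q hq hP a ha
  have hN2 : 2 ≤ N := le_trans hq.two_le (Nat.le_of_dvd hN0 hqN)
  let g : (P : Type)[X] := X ^ N - X
  have hg : g.Monic := by
    apply monic_X_pow_sub
    rw [degree_X]
    exact_mod_cast hN2
  have hgmap : g.map P.subtype = X ^ N - X := by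
    simp [g]
  have hroots : ∀ r ∈ (g.map P.subtype).roots, r ∈ P := fun r hr =>
    mem_of_isRoot_map P g hg r (isRoot_of_mem_roots hr)
  have heval : (g.map P.subtype).eval a ∈ P.nonunits := by
    rw [hgmap]
    simpa using haN
  obtain ⟨z, hz, hza⟩ := exists_root_sub_mem_nonunits P _ (hg.map _) hroots a ha heval
  have hzP : z ∈ P := hroots z hz
  have hzN : z ^ N = z := by
    have h1 : (g.map P.subtype).eval z = 0 := isRoot_of_mem_roots hz
    rw [hgmap] at h1
    simp only [eval_sub, eval_pow, eval_X] at h1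
    exact sub_eq_zero.mp h1
  refine ⟨z, hzP, ?_, hza⟩
  rw [mem_inertiaField_iff]
  intro τ hτ
  have hτzP : τ z ∈ P := mem_of_mem_decomp P (decomp_of_inertia P hτ) hzP
  have hτzN : (τ z) ^ N = τ z := by rw [← map_pow, hzN]
  have key := root_unique_of_derivative_notMem (IsLocalRing.maximalIdeal P) g
    (⟨z, hzP⟩ : P) ⟨z, hzP⟩ ⟨τ z, hτzP⟩ ?_ ?_ ?_ ?_ ?_
  · exact (congrArg Subtype.val key).symm
  · show g.eval _ = 0
    simp only [g, eval_sub, eval_pow, eval_X]
    apply Subtype.ext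
    simpa using sub_eq_zero.mpr hzN
  · show g.eval _ = 0
    simp only [g, eval_sub, eval_pow, eval_X]
    apply Subtype.ext
    simpa using sub_eq_zero.mpr hτzN
  · intro hmem
    have hN := natCast_mem_maximalIdeal_of_dvd P q hP N hqN
    have h1 : g.derivative.eval (⟨z, hzP⟩ : P) =
        (N : P) * (⟨z, hzP⟩ : P) ^ (N - 1) - 1 := by
      simp [g, derivative_X_pow]
    rw [h1] at hmem
    have h2 : (1 : P) ∈ IsLocalRing.maximalIdeal P := by
      have := Ideal.sub_mem _ (Ideal.mul_mem_right ((⟨z, hzP⟩ : P) ^ (N - 1)) _ hN) hmem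
      simpa using this
    exact (Ideal.ne_top_iff_one _).mp (IsLocalRing.maximalIdeal.isMaximal P).ne_top h2
  · simp
  · rw [← ValuationSubring.coe_mem_nonunits_iff]
    exact sub_mem_nonunits_of_inertia P hτ hzP


end Fermat.Agent.A2.IF.H429

end
-- ===== PACK-END A2/IF/H429/Local.lean

-- ===== PACK-BEGIN A2/Alg/H34/Base.lean
section



/-!
# WALL A2 / ALG — BASE adapter (helper34)

From the standing hypotheses of `AlgSSStatement` (`E = Frac R`, `F / E(x)` finite, charts given by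
an integrality predicate) to the setting of `S18.H138` / `S18.H394` (`chart R {x}`,
`baseField R x`): `chart_eq`, `transcendental_of_field`, `finiteDimensional_baseField`,
`algebraMap_RF_injective`, `chart_instances'` (noetherian, integrally closed, fraction field `F`).
-/

set_option autoImplicit false
set_option linter.unusedSectionVars false
set_option linter.style.haveILetI false

namespace Fermat.Agent.A2.Alg.H34

open Fermat.Agent.A2 Fermat.Agent.A2.Alg
open Fermat.Agent.S18.H138 (chart baseField)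
open Polynomial

variable {R E F : Type*} [CommRing R] [IsDomain R] [Field E] [Algebra R E] [IsFractionRing R E]
  [Field F] [Algebra E F] [Algebra R F] [IsScalarTower R E F]

omit [IsDomain R] [Field E] [Algebra R E] [IsFractionRing R E] [Algebra E F]
  [IsScalarTower R E F] in
theorem algebraMap_RF_injective (E : Type*) [Field E] [Algebra R E] [IsFractionRing R E]
    [Algebra E F] [IsScalarTower R E F] : Function.Injective (algebraMap R F) := by
  rw [IsScalarTower.algebraMap_eq R E F]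
  exact (algebraMap E F).injective.comp (IsFractionRing.injective R E)

theorem transcendental_of_field {x : F} (hx : Transcendental E x) : Transcendental R x := by
  intro h
  exact hx (h.extendScalars (IsFractionRing.injective R E))

theorem algebraMap_mem_baseField (x : F) (e : E) : algebraMap E F e ∈ baseField R x := by
  obtain ⟨a, b, -, rfl⟩ := IsFractionRing.div_surjective (A := R) e
  rw [map_div₀, ← IsScalarTower.algebraMap_apply, ← IsScalarTower.algebraMap_apply]
  exact div_mem (Subfield.subset_closure (Or.inl ⟨a, rfl⟩))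
    (Subfield.subset_closure (Or.inl ⟨b, rfl⟩))

theorem mem_baseField_of_mem_adjoin (x : F) {z : F}
    (hz : z ∈ IntermediateField.adjoin E ({x} : Set F)) : z ∈ baseField R x := by
  have h : IntermediateField.adjoin E ({x} : Set F) ≤
      Subfield.toIntermediateField (baseField R x) (algebraMap_mem_baseField (R := R) x) := by
    rw [IntermediateField.adjoin_le_iff]
    rintro y hy
    rw [Set.mem_singleton_iff] at hy
    subst hy
    exact Subfield.subset_closure (Or.inr rfl)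
  exact h hz

theorem finiteDimensional_baseField (x : F)
    (hfin : FiniteDimensional (IntermediateField.adjoin E ({x} : Set F)) F) :
    FiniteDimensional (baseField R x) F := by
  let ι : (IntermediateField.adjoin E ({x} : Set F)) →+* baseField R x :=
    { toFun := fun a => ⟨a.1, mem_baseField_of_mem_adjoin (R := R) x a.2⟩
      map_one' := rfl
      map_mul' := fun _ _ => rfl
      map_zero' := rfl
      map_add' := fun _ _ => rfl }
  letI : Algebra (IntermediateField.adjoin E ({x} : Set F)) (baseField R x) := ι.toAlgebra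
  haveI : IsScalarTower (IntermediateField.adjoin E ({x} : Set F)) (baseField R x) F :=
    IsScalarTower.of_algebraMap_eq (fun _ => rfl)
  exact Module.Finite.of_restrictScalars_finite (IntermediateField.adjoin E ({x} : Set F))
    (baseField R x) F

theorem chart_eq (x : F) (B : Subalgebra R F)
    (hB : ∀ f : F, f ∈ B ↔ IsIntegral (Algebra.adjoin R ({x} : Set F)) f) :
    B = chart R ({x} : Set F) :=
  SetLike.ext fun f => (hB f).trans Fermat.Agent.S18.H138.mem_chart.symm

theorem charZero_of_field [CharZero E] : CharZero F :=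
  charZero_of_injective_algebraMap (algebraMap E F).injective

/-- The chart of `ChartCtx` is a noetherian integrally closed domain with fraction field `F`. -/
theorem chart_instances' [IsDiscreteValuationRing R] [CharZero E] (w : R) (x : F)
    (B : Subalgebra R F) (hB : ChartCtx E w x B) :
    IsNoetherianRing B ∧ IsIntegrallyClosed B ∧ IsFractionRing B F := by
  obtain rfl := chart_eq x B hB.hB
  haveI : CharZero F := charZero_of_field (E := E)
  haveI := finiteDimensional_baseField (R := R) x hB.hfin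
  exact Fermat.Agent.S18.H394.chart_instances (transcendental_of_field hB.hx)

end Fermat.Agent.A2.Alg.H34

end
-- ===== PACK-END A2/Alg/H34/Base.lean

-- ===== PACK-BEGIN A2/Alg/H34/StepI.lean
section




/-!
# WALL A2 / ALG — leaf A1 = Step I (helper34)

`stepI` : for every `f ≠ 0`, `τ f / f` has constant unit residues on both components of the
chart (`IsSplit`).  Statement VERBATIM that of `Fermat/Agent/A2/Alg/Skel.lean`.

`constAt_tau_div` is the ring-theoretic core (one component, any noetherian chart with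
fraction field `F`).
-/

set_option autoImplicit false
set_option linter.unusedSectionVars false
set_option linter.style.haveILetI false

namespace Fermat.Agent.A2.Alg.H34

open Fermat.Agent.A2 Fermat.Agent.A2.Alg

section Core

variable {R F : Type*} [CommRing R] [Field F] [Algebra R F]

/-- every `f ≠ 0` is `w ^ (k₁ - k₂) * A / D` with `A, D ∈ B ∖ p`. -/
theorem exists_decomp (w : R) (B : Subalgebra R F) [IsNoetherianRing B] [IsFractionRing B F]
    (p q : Ideal B) (hp : p.IsPrime) (hpq : p ⊓ q = Ideal.span {algebraMap R B w})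
    (hqp : ¬ q ≤ p) (f : F) (hf : f ≠ 0) :
    ∃ (k₁ k₂ : ℕ) (A D : B), A ∉ p ∧ D ∉ p ∧
      f * (algebraMap R F w ^ k₂ * (D : F)) = algebraMap R F w ^ k₁ * (A : F) := by
  haveI := hp
  have hwp : algebraMap R B w ∈ p := by
    have : algebraMap R B w ∈ p ⊓ q := by
      rw [hpq]
      exact Ideal.mem_span_singleton_self _
    exact this.1
  obtain ⟨s, hsq, hsp⟩ := SetLike.not_le_iff_exists.1 hqp
  have hloc : ∀ a ∈ p, ∃ s, s ∉ p ∧ ∃ a', a * s = algebraMap R B w * a' := by
    intro a ha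
    have h1 : a * s ∈ p ⊓ q := ⟨p.mul_mem_right _ ha, q.mul_mem_left _ hsq⟩
    rw [hpq, Ideal.mem_span_singleton'] at h1
    obtain ⟨a', ha'⟩ := h1
    exact ⟨s, hsp, a', by rw [← ha', mul_comm]⟩
  obtain ⟨a₀, b₀, hb₀, hab⟩ := IsFractionRing.div_surjective (A := B) f
  have hb₀' : b₀ ≠ 0 := nonZeroDivisors.ne_zero hb₀
  have hb₀F : (b₀ : F) ≠ 0 := fun h => hb₀' (Subtype.ext h)
  have hfb : f * (b₀ : F) = (a₀ : F) := by
    have : (a₀ : F) / (b₀ : F) = f := hab
    rw [← this]
    field_simp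
  have ha₀ : a₀ ≠ 0 := by
    rintro rfl
    have : f * (b₀ : F) = 0 := by rw [hfb]; rfl
    rcases mul_eq_zero.1 this with h | h
    · exact hf h
    · exact hb₀F h
  obtain ⟨k₁, a₁, t₁, ha₁, ht₁, h₁⟩ := exists_pow_mul_eq p (algebraMap R B w) hwp hloc a₀ ha₀
  obtain ⟨k₂, a₂, t₂, ha₂, ht₂, h₂⟩ := exists_pow_mul_eq p (algebraMap R B w) hwp hloc b₀ hb₀'
  refine ⟨k₁, k₂, t₂ * a₁, a₂ * t₁, ?_, ?_, ?_⟩
  · intro h
    rcases hp.mem_or_mem h with h | h
    · exact ht₂ h
    · exact ha₁ h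
  · intro h
    rcases hp.mem_or_mem h with h | h
    · exact ha₂ h
    · exact ht₁ h
  · have e₁ : (t₁ : F) * (a₀ : F) = algebraMap R F w ^ k₁ * (a₁ : F) := by
      have := congrArg (fun b : B => (b : F)) h₁
      simpa using this
    have e₂ : (t₂ : F) * (b₀ : F) = algebraMap R F w ^ k₂ * (a₂ : F) := by
      have := congrArg (fun b : B => (b : F)) h₂
      simpa using this
    push_cast
    calc f * (algebraMap R F w ^ k₂ * ((a₂ : F) * (t₁ : F)))
        = f * ((algebraMap R F w ^ k₂ * (a₂ : F)) * (t₁ : F)) := by ring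
      _ = f * (((t₂ : F) * (b₀ : F)) * (t₁ : F)) := by rw [e₂]
      _ = (t₂ : F) * ((t₁ : F) * (f * (b₀ : F))) := by ring
      _ = (t₂ : F) * ((t₁ : F) * (a₀ : F)) := by rw [hfb]
      _ = (t₂ : F) * (algebraMap R F w ^ k₁ * (a₁ : F)) := by rw [e₁]
      _ = algebraMap R F w ^ k₁ * ((t₂ : F) * (a₁ : F)) := by ring

/-- **Step I, one component.** -/
theorem constAt_tau_div (w : R) (B : Subalgebra R F) [IsNoetherianRing B] [IsFractionRing B F]
    (p q : Ideal B) (hp : p.IsPrime) (hpq : p ⊓ q = Ideal.span {algebraMap R B w})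
    (hqp : ¬ q ≤ p) (hw0 : algebraMap R F w ≠ 0)
    (τ : F ≃+* F) (hτB : ∀ b ∈ B, ∃ c ∈ B, τ b - b = algebraMap R F w * c)
    (ξ ξ' : R) (hξ : ξ * ξ' = 1) (hτw : τ (algebraMap R F w) = algebraMap R F (ξ * w))
    (f : F) (hf : f ≠ 0) : ConstAt B p (τ f * f⁻¹) := by
  have hwp : algebraMap R B w ∈ p := by
    have : algebraMap R B w ∈ p ⊓ q := by
      rw [hpq]
      exact Ideal.mem_span_singleton_self _
    exact this.1
  obtain ⟨k₁, k₂, A, D, hA, hD, h⟩ := exists_decomp w B p q hp hpq hqp f hf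
  obtain ⟨A', cA, hA', hcA⟩ := exists_tau_eq w B τ hτB A
  obtain ⟨D', cD, hD', hcD⟩ := exists_tau_eq w B τ hτB D
  have hD'p : D' ∉ p := by
    intro h'
    apply hD
    have h1 : D = D' - algebraMap R B w * cD := by rw [← hcD]; ring
    rw [h1]
    exact p.sub_mem h' (p.mul_mem_right _ hwp)
  have hA0 : (A : F) ≠ 0 := fun h' => hA (by
    have : A = 0 := Subtype.ext h'
    rw [this]; exact p.zero_mem)
  have hD0 : (D : F) ≠ 0 := fun h' => hD (by
    have : D = 0 := Subtype.ext h'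
    rw [this]; exact p.zero_mem)
  have hD'0 : (D' : F) ≠ 0 := by
    rw [hD']
    exact (map_ne_zero τ).2 hD0
  -- the constant
  refine ⟨ξ ^ k₁ * ξ' ^ k₂, ?_, algebraMap R B (ξ ^ k₁ * ξ' ^ k₂) * (A' * D), D' * A, ?_, ?_, ?_⟩
  · have h1 : IsUnit ξ := IsUnit.of_mul_eq_one ξ' hξ
    have h2 : IsUnit ξ' := IsUnit.of_mul_eq_one ξ (by rw [mul_comm]; exact hξ)
    exact (h1.pow _).mul (h2.pow _)
  · intro h'
    rcases hp.mem_or_mem h' with h' | h'
    · exact hD'p h'
    · exact hA h'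
  · have h1 : algebraMap R B (ξ ^ k₁ * ξ' ^ k₂) * (A' * D) -
        algebraMap R B (ξ ^ k₁ * ξ' ^ k₂) * (D' * A) =
        algebraMap R B w * (algebraMap R B (ξ ^ k₁ * ξ' ^ k₂) * (cA * D - cD * A)) := by
      have e1 : A' = A + algebraMap R B w * cA := by rw [← hcA]; ring
      have e2 : D' = D + algebraMap R B w * cD := by rw [← hcD]; ring
      rw [e1, e2]
      ring
    rw [h1]
    exact p.mul_mem_right _ hwp
  · -- the identity in `F`
    set W : F := algebraMap R F w with hW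
    set X : F := algebraMap R F ξ with hX
    set X' : F := algebraMap R F ξ' with hX'
    have hXX' : X * X' = 1 := by
      rw [hX, hX', ← map_mul, hξ, map_one]
    have hτW : τ W = X * W := by
      rw [hW, hτw, map_mul]
    have h2 : τ f * ((X * W) ^ k₂ * (D' : F)) = (X * W) ^ k₁ * (A' : F) := by
      have := congrArg τ h
      rw [map_mul, map_mul, map_mul, map_pow, map_pow, hτW] at this
      rw [hD', hA']
      exact this
    have hX0 : X ≠ 0 := left_ne_zero_of_mul_eq_one hXX'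
    have hfac : X ^ k₂ * W ^ k₂ * W ^ k₁ * f ≠ 0 :=
      mul_ne_zero (mul_ne_zero (mul_ne_zero (pow_ne_zero _ hX0) (pow_ne_zero _ hw0))
        (pow_ne_zero _ hw0)) hf
    have hpow : X ^ k₂ * X' ^ k₂ = 1 := by rw [← mul_pow, hXX', one_pow]
    apply mul_right_cancel₀ hfac
    have hff : f⁻¹ * f = 1 := inv_mul_cancel₀ hf
    push_cast
    rw [← hX, ← hX']
    have e1 : τ f * f⁻¹ * ((D' : F) * (A : F)) * (X ^ k₂ * W ^ k₂ * W ^ k₁ * f) =
        (τ f * ((X * W) ^ k₂ * (D' : F))) * ((A : F) * W ^ k₁) * (f⁻¹ * f) := by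
      rw [mul_pow]; ring
    have e2 : X ^ k₁ * X' ^ k₂ * ((A' : F) * (D : F)) * (X ^ k₂ * W ^ k₂ * W ^ k₁ * f) =
        (X ^ k₂ * X' ^ k₂) * (X ^ k₁ * W ^ k₁ * (A' : F)) * (f * (W ^ k₂ * (D : F))) := by
      ring
    rw [e1, e2, h2, h, hff, hpow, mul_pow]
    ring

end Core

section Main

variable {R E F : Type*} [CommRing R] [IsDomain R] [IsDiscreteValuationRing R]
  [HenselianLocalRing R] [IsAlgClosed (IsLocalRing.ResidueField R)]
  [Field E] [CharZero E] [Algebra R E] [IsFractionRing R E]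
  [Field F] [Algebra E F] [Algebra R F] [IsScalarTower R E F]

/-- `τ w = ξ w` with `ξ` a unit of `R`. -/
theorem exists_tau_unif (w : R) (hw : Irreducible w) (B : Subalgebra R F)
    (τ : F ≃+* F) (τE : E ≃+* E) (τR : R ≃+* R) (hτ : TauCtx w B τ τE τR) :
    ∃ ξ ξ' : R, ξ * ξ' = 1 ∧ τ (algebraMap R F w) = algebraMap R F (ξ * w) := by
  have h1 : τ (algebraMap R F w) = algebraMap R F (τR w) := by
    rw [IsScalarTower.algebraMap_apply R E F, hτ.hτE, hτ.hτR, ← IsScalarTower.algebraMap_apply]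
  have h2 : Irreducible (τR w) := (MulEquiv.irreducible_iff τR).2 hw
  obtain ⟨v, hv⟩ := IsDiscreteValuationRing.associated_of_irreducible R hw h2
  refine ⟨v, ↑v⁻¹, Units.mul_inv v, ?_⟩
  rw [h1, ← hv, mul_comm]

/-- **A1 (Step I).**  `B_{p_i}` is a DVR with uniformiser `w`; write `f = w ^ k · a / b`,
`a, b ∈ B ∖ p_i`; `τ w / w ∈ Rˣ` and `τ a · b - a · τ b ∈ w B`. -/
theorem stepI (w : R) (x : F) (B : Subalgebra R F) (hB : ChartCtx E w x B)
    (c : SSChart w B) (hc : Incomparable c)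
    (τ : F ≃+* F) (τE : E ≃+* E) (τR : R ≃+* R) (hτ : TauCtx w B τ τE τR)
    (f : F) (hf : f ≠ 0) : IsSplit B c (τ f * f⁻¹) := by
  obtain ⟨hN, -, hFr⟩ := chart_instances' w x B hB
  haveI := hN
  haveI := hFr
  have hw0 : algebraMap R F w ≠ 0 := by
    intro h
    exact hB.hw.ne_zero (algebraMap_RF_injective E (by rw [h, map_zero]))
  obtain ⟨ξ, ξ', hξ, hτw⟩ := exists_tau_unif w hB.hw B τ τE τR hτ
  refine ⟨constAt_tau_div w B c.p₁ c.p₂ c.prime₁ c.inf_eq hc.2 hw0 τ hτ.hτB ξ ξ' hξ hτw f hf,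
    constAt_tau_div w B c.p₂ c.p₁ c.prime₂ (by rw [inf_comm]; exact c.inf_eq) hc.1 hw0 τ hτ.hτB
      ξ ξ' hξ hτw f hf⟩

end Main

end Fermat.Agent.A2.Alg.H34

end
-- ===== PACK-END A2/Alg/H34/StepI.lean

-- ===== PACK-BEGIN A2/Alg/H34/Asm.lean
section


/-!
# WALL A2 / ALG — route S assembly (helper34): `AlgSSStatement` from three leaves

`algSS_of_leaves : PuritySmoothLeaf → PurityNodeLeaf → GlueLeaf → AlgSSStatement`
(`AlgSSStatement` = frozen interface of `Fermat/Agent/A2/Spec.lean` v2).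

The three leaf `Prop`s are VERBATIM the statements `purity_smooth`, `purity_node`, `glue` of
`origin/helper34:Fermat/Agent/A2/Alg/Skel.lean`, at universe level `0`.  Everything else (Step I,
`DivisibleDiv` transport, the passage `PureAt u ⇒ LocalFactor (τ u / u)`) is proved in
`Alg/H34/{StepI,Basic,Base,Val}.lean`.  Neither `τ x = x` nor the finite order of `τ` is used.
-/

set_option autoImplicit false

namespace Fermat.Agent.A2.Alg.H34

open Fermat.Agent.A2 Fermat.Agent.A2.Alg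

/-- **Leaf P-S** (purity at a closed point lying on ONE component). -/
def PuritySmoothLeaf : Prop :=
  ∀ {R E F : Type} [CommRing R] [IsDomain R] [IsDiscreteValuationRing R]
    [HenselianLocalRing R] [IsAlgClosed (IsLocalRing.ResidueField R)]
    [Field E] [CharZero E] [Algebra R E] [IsFractionRing R E]
    [Field F] [Algebra E F] [Algebra R F] [IsScalarTower R E F]
    (q m : ℕ) (_ : q.Prime) (_ : (q : R) ∈ IsLocalRing.maximalIdeal R)
    (_ : 0 < m) (_ : ¬ q ∣ m)
    (w : R) (x : F) (B : Subalgebra R F) (_ : ChartCtx E w x B)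
    (c : SSChart w B) (_ : Incomparable c)
    (u : F) (_ : u ≠ 0) (_ : DivisibleDiv E m u) (_ : IsSplit B c u)
    (n : Ideal B) (_ : n.IsMaximal) (_ : algebraMap R B w ∈ n)
    (_ : ¬ (c.p₁ ≤ n ∧ c.p₂ ≤ n)), PureAt B c m u n

/-- **Leaf P-N** (purity at a crossing point). -/
def PurityNodeLeaf : Prop :=
  ∀ {R E F : Type} [CommRing R] [IsDomain R] [IsDiscreteValuationRing R]
    [HenselianLocalRing R] [IsAlgClosed (IsLocalRing.ResidueField R)]
    [Field E] [CharZero E] [Algebra R E] [IsFractionRing R E]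
    [Field F] [Algebra E F] [Algebra R F] [IsScalarTower R E F]
    (q m : ℕ) (_ : q.Prime) (_ : (q : R) ∈ IsLocalRing.maximalIdeal R)
    (_ : 0 < m) (_ : ¬ q ∣ m)
    (w : R) (x : F) (B : Subalgebra R F) (_ : ChartCtx E w x B)
    (c : SSChart w B) (_ : Incomparable c) (_ : SepCoord R E x B)
    (u : F) (_ : u ≠ 0) (_ : DivisibleDiv E m u) (_ : IsSplit B c u)
    (n : Ideal B) (_ : n.IsMaximal) (_ : algebraMap R B w ∈ n)
    (_ : c.p₁ ≤ n) (_ : c.p₂ ≤ n), PureAt B c m u n

/-- **Leaf GLUE** (a Kummer class locally factored at every closed point of the special fibre of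
both charts is trivial). -/
def GlueLeaf : Prop :=
  ∀ {R E F : Type} [CommRing R] [IsDomain R] [IsDiscreteValuationRing R]
    [HenselianLocalRing R] [IsAlgClosed (IsLocalRing.ResidueField R)]
    [Field E] [CharZero E] [Algebra R E] [IsFractionRing R E]
    [Field F] [Algebra E F] [Algebra R F] [IsScalarTower R E F]
    (q m : ℕ) (_ : q.Prime) (_ : (q : R) ∈ IsLocalRing.maximalIdeal R)
    (_ : 0 < m) (_ : ¬ q ∣ m)
    (w : R) (x : F) (Bf Bi : Subalgebra R F)
    (_ : ChartCtx E w x Bf) (_ : ChartCtx E w x⁻¹ Bi)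
    (cf : SSChart w Bf) (ci : SSChart w Bi) (_ : Incomparable cf) (_ : Incomparable ci)
    (u : F) (_ : u ≠ 0) (_ : DivisibleDiv E m u)
    (_ : LocallyFactored Bf cf m u) (_ : LocallyFactored Bi ci m u),
    ∃ y : F, y ≠ 0 ∧ u = y ^ m

theorem incomparable_of_ssChart {R F : Type*} [CommRing R] [Field F] [Algebra R F] {w : R}
    {B : Subalgebra R F} (c : SSChart w B) : Incomparable c :=
  ⟨c.not_le₁₂, c.not_le₂₁⟩

section Asm

variable {R E F : Type} [CommRing R] [IsDomain R] [IsDiscreteValuationRing R]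
  [HenselianLocalRing R] [IsAlgClosed (IsLocalRing.ResidueField R)]
  [Field E] [CharZero E] [Algebra R E] [IsFractionRing R E]
  [Field F] [Algebra E F] [Algebra R F] [IsScalarTower R E F]

/-- Purity at every closed point of the special fibre. -/
theorem purity_of_leaves (hPS : PuritySmoothLeaf) (hPN : PurityNodeLeaf)
    (q m : ℕ) (hq : q.Prime) (hqR : (q : R) ∈ IsLocalRing.maximalIdeal R)
    (hm : 0 < m) (hqm : ¬ q ∣ m)
    (w : R) (x : F) (B : Subalgebra R F) (hB : ChartCtx E w x B)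
    (c : SSChart w B) (s : SepCoord R E x B)
    (u : F) (hu : u ≠ 0) (hdiv : DivisibleDiv E m u) (hs : IsSplit B c u)
    (n : Ideal B) (hn : n.IsMaximal) (hwn : algebraMap R B w ∈ n) : PureAt B c m u n := by
  by_cases h1 : c.p₁ ≤ n ∧ c.p₂ ≤ n
  · exact hPN q m hq hqR hm hqm w x B hB c (incomparable_of_ssChart c) s u hu hdiv hs n hn hwn
      h1.1 h1.2
  · exact hPS q m hq hqR hm hqm w x B hB c (incomparable_of_ssChart c) u hu hdiv hs n hn hwn h1

/-- **Step II.**  A split Kummer class is fixed by `τ`. -/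
theorem stepII_of_leaves (hPS : PuritySmoothLeaf) (hPN : PurityNodeLeaf) (hG : GlueLeaf)
    (q m : ℕ) (hq : q.Prime) (hqR : (q : R) ∈ IsLocalRing.maximalIdeal R)
    (hm : 0 < m) (hqm : ¬ q ∣ m)
    (w : R) (x : F) (Bf Bi : Subalgebra R F)
    (hBf : ChartCtx E w x Bf) (hBi : ChartCtx E w x⁻¹ Bi)
    (cf : SSChart w Bf) (ci : SSChart w Bi)
    (sf : SepCoord R E x Bf) (si : SepCoord R E x⁻¹ Bi)
    (τ : F ≃+* F) (τE : E ≃+* E) (τR : R ≃+* R)
    (hτf : TauCtx w Bf τ τE τR) (hτi : TauCtx w Bi τ τE τR)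
    (u : F) (hu : u ≠ 0) (hdiv : DivisibleDiv E m u)
    (hsf : IsSplit Bf cf u) (hsi : IsSplit Bi ci u) :
    ∃ h : F, h ≠ 0 ∧ τ u = h ^ m * u := by
  have hτu : τ u ≠ 0 := (map_ne_zero τ).2 hu
  have hu' : τ u * u⁻¹ ≠ 0 := mul_ne_zero hτu (inv_ne_zero hu)
  have hdiv' : DivisibleDiv E m (τ u * u⁻¹) :=
    divisibleDiv_mul_inv m _ _ (divisibleDiv_tau τ τE hτf.hτE m u hdiv) hdiv
  have hf : LocallyFactored Bf cf m (τ u * u⁻¹) := fun n hn hwn =>
    localFactor_of_pureAt w Bf cf τ τE τR hτf m u hu n hn.isPrime hwn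
      (purity_of_leaves hPS hPN q m hq hqR hm hqm w x Bf hBf cf sf u hu hdiv hsf n hn hwn)
  have hi : LocallyFactored Bi ci m (τ u * u⁻¹) := fun n hn hwn =>
    localFactor_of_pureAt w Bi ci τ τE τR hτi m u hu n hn.isPrime hwn
      (purity_of_leaves hPS hPN q m hq hqR hm hqm w x⁻¹ Bi hBi ci si u hu hdiv hsi n hn hwn)
  obtain ⟨y, hy, hyu⟩ := hG q m hq hqR hm hqm w x Bf Bi hBf hBi cf ci
    (incomparable_of_ssChart cf) (incomparable_of_ssChart ci) _ hu' hdiv' hf hi
  refine ⟨y, hy, ?_⟩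
  rw [← hyu, mul_assoc, inv_mul_cancel₀ hu, mul_one]

end Asm

/-- **ALG, route S**: the frozen interface `AlgSSStatement` from the three leaves. -/
theorem algSS_of_leaves (hPS : PuritySmoothLeaf) (hPN : PurityNodeLeaf) (hG : GlueLeaf) :
    AlgSSStatement := by
  intro R E F _ _ _ _ _ _ _ _ _ _ _ _ _ w hw q m hq hqR hm hqm x hx hfin hconst Bf Bi hBf hBi
    cf ci sf si τ τE τR hτE hτR _ _ hτf hτi
  have hCf : ChartCtx E w x Bf := ⟨hw, hx, hfin, hconst, hBf⟩
  have hCi : ChartCtx E w x⁻¹ Bi := chartCtx_inv w hw x hx hfin hconst Bi hBi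
  have hTf : TauCtx w Bf τ τE τR := ⟨hτE, hτR, hτf⟩
  have hTi : TauCtx w Bi τ τE τR := ⟨hτE, hτR, hτi⟩
  intro f hf hdiv
  have hτf0 : τ f ≠ 0 := (map_ne_zero τ).2 hf
  have hu : τ f * f⁻¹ ≠ 0 := mul_ne_zero hτf0 (inv_ne_zero hf)
  have hdivu : DivisibleDiv E m (τ f * f⁻¹) :=
    divisibleDiv_mul_inv m _ _ (divisibleDiv_tau τ τE hτE m f hdiv) hdiv
  obtain ⟨h, hh, hh2⟩ := stepII_of_leaves hPS hPN hG q m hq hqR hm hqm w x Bf Bi hCf hCi cf ci
    sf si τ τE τR hTf hTi (τ f * f⁻¹) hu hdivu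
    (stepI w x Bf hCf cf (incomparable_of_ssChart cf) τ τE τR hTf f hf)
    (stepI w x⁻¹ Bi hCi ci (incomparable_of_ssChart ci) τ τE τR hTi f hf)
  refine ⟨h, hh, ?_⟩
  rw [map_mul, map_inv₀] at hh2
  have h3 : τ (τ f) = h ^ m * (τ f * f⁻¹) * τ f := by
    rw [← hh2, mul_assoc, inv_mul_cancel₀ hτf0, mul_one]
  rw [h3]
  field_simp

end Fermat.Agent.A2.Alg.H34

end
-- ===== PACK-END A2/Alg/H34/Asm.lean

-- ===== PACK-BEGIN A2/Alg/H609/ChartFacts.lean
section



/-!
# WALL A2 / ALG (helper609): facts on a chart of `ChartCtx`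

For a chart `B` (the integral closure of `R[x]` in `F`, `R` a discrete valuation ring with
uniformiser `w`):

* `isIntegral_aeval_chart` : `B` is integral over `R[X]` via `X ↦ x`;
* `isDedekindDomain_quotient_chart` : for a prime `p ∋ w` with `B ⧸ p` integrally closed,
  `B ⧸ p` is a Dedekind domain;
* `algebraMap_field_mem` : a valuation subring of `F` containing `B` and `w⁻¹` contains `E`.
-/

set_option autoImplicit false

namespace Fermat.Agent.A2.Alg.H609

open Polynomial Fermat.Agent.A2 Fermat.Agent.A2.Alg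

section Integral

variable {R F : Type*} [CommRing R] [Field F] [Algebra R F]

theorem self_mem_chart (x : F) (B : Subalgebra R F)
    (hB : ∀ f : F, f ∈ B ↔ IsIntegral (Algebra.adjoin R ({x} : Set F)) f) : x ∈ B := by
  rw [hB]
  have h : IsIntegral (Algebra.adjoin R ({x} : Set F))
      (algebraMap (Algebra.adjoin R ({x} : Set F)) F
        ⟨x, Algebra.self_mem_adjoin_singleton R x⟩) := isIntegral_algebraMap
  exact h

/-- The chart is integral over `R[X]`. -/
theorem isIntegral_aeval_chart (x : F) (B : Subalgebra R F)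
    (hB : ∀ f : F, f ∈ B ↔ IsIntegral (Algebra.adjoin R ({x} : Set F)) f) :
    (aeval (R := R) (⟨x, self_mem_chart x B hB⟩ : B)).toRingHom.IsIntegral := by
  have hxB := self_mem_chart x B hB
  have hle : Algebra.adjoin R ({x} : Set F) ≤ B :=
    Algebra.adjoin_le (Set.singleton_subset_iff.2 hxB)
  let ι : Algebra.adjoin R ({x} : Set F) →+* B := (Subalgebra.inclusion hle).toRingHom
  let σ : R[X] →+* Algebra.adjoin R ({x} : Set F) :=
    (aeval (R := R) (⟨x, Algebra.self_mem_adjoin_singleton R x⟩ :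
      Algebra.adjoin R ({x} : Set F))).toRingHom
  have hσ : Function.Surjective σ := by
    rintro ⟨a, ha⟩
    have ha' := ha
    rw [Algebra.adjoin_singleton_eq_range_aeval] at ha'
    obtain ⟨Q, hQ⟩ := ha'
    refine ⟨Q, Subtype.ext ?_⟩
    change ((aeval (R := R) (⟨x, Algebra.self_mem_adjoin_singleton R x⟩ :
      Algebra.adjoin R ({x} : Set F)) Q : Algebra.adjoin R ({x} : Set F)) : F) = a
    rw [← hQ]
    exact (Polynomial.aeval_algHom_apply (Algebra.adjoin R ({x} : Set F)).val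
      (⟨x, Algebra.self_mem_adjoin_singleton R x⟩ : Algebra.adjoin R ({x} : Set F)) Q).symm
  have hι : ι.IsIntegral := by
    intro b
    obtain ⟨Q, hQm, hQ⟩ := (hB b).1 b.2
    refine ⟨Q, hQm, Subtype.ext ?_⟩
    have h := Polynomial.hom_eval₂ Q ι B.val.toRingHom b
    change ((eval₂ ι b Q : B) : F) = 0
    have h' : ((eval₂ ι b Q : B) : F) = eval₂ (B.val.toRingHom.comp ι) (b : F) Q := h
    rw [h']
    exact hQ
  have hcomp : (aeval (R := R) (⟨x, hxB⟩ : B)).toRingHom = ι.comp σ := by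
    refine Polynomial.ringHom_ext (fun r => ?_) ?_
    · simp only [AlgHom.toRingHom_eq_coe, RingHom.coe_coe, aeval_C, RingHom.comp_apply, σ, ι,
        AlgHom.commutes]
    · simp only [AlgHom.toRingHom_eq_coe, RingHom.coe_coe, aeval_X, RingHom.comp_apply, σ, ι]
      rfl
  rw [hcomp]
  exact RingHom.IsIntegral.trans σ ι (RingHom.isIntegral_of_surjective σ hσ) hι

end Integral

section Chart

variable {R E F : Type*} [CommRing R] [IsDomain R] [IsDiscreteValuationRing R]
  [Field E] [CharZero E] [Algebra R E] [IsFractionRing R E]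
  [Field F] [Algebra E F] [Algebra R F] [IsScalarTower R E F]

omit [CharZero E] [IsFractionRing R E] [IsScalarTower R E F] in
/-- The components of the special fibre of a chart are Dedekind. -/
theorem isDedekindDomain_quotient_chart (w : R) (x : F) (B : Subalgebra R F)
    (hB : ChartCtx E w x B) [IsNoetherianRing B] (p : Ideal B) [p.IsPrime]
    (hwp : algebraMap R B w ∈ p) [IsIntegrallyClosed (B ⧸ p)] : IsDedekindDomain (B ⧸ p) := by
  have hmax : (Ideal.span {w}).IsMaximal := by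
    rw [← hB.hw.maximalIdeal_eq]
    exact IsLocalRing.maximalIdeal.isMaximal R
  exact isDedekindDomain_quotient hmax _ (isIntegral_aeval_chart x B hB.hB) p hwp

omit [CharZero E] in
/-- A valuation subring of `F` containing `R` and `w⁻¹` contains `E`. -/
theorem algebraMap_field_mem {w : R} (hw : Irreducible w) (V : ValuationSubring F)
    (hR : ∀ r : R, algebraMap R F r ∈ V) (hwV : (algebraMap R F w)⁻¹ ∈ V) (e : E) :
    algebraMap E F e ∈ V := by
  obtain ⟨a, b, hb, rfl⟩ := IsFractionRing.div_surjective (A := R) e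
  have hb0 : b ≠ 0 := nonZeroDivisors.ne_zero hb
  obtain ⟨k, ε, hε⟩ := IsDiscreteValuationRing.eq_unit_mul_pow_irreducible hb0 hw
  rw [map_div₀, ← IsScalarTower.algebraMap_apply, ← IsScalarTower.algebraMap_apply]
  have h1 : algebraMap R F a / algebraMap R F b =
      algebraMap R F a * algebraMap R F ((ε⁻¹ : Rˣ) : R) * (algebraMap R F w)⁻¹ ^ k := by
    have hεF : algebraMap R F (ε : R) * algebraMap R F ((ε⁻¹ : Rˣ) : R) = 1 := by
      rw [← map_mul, Units.mul_inv, map_one]
    have hεinv : (algebraMap R F (ε : R))⁻¹ = algebraMap R F ((ε⁻¹ : Rˣ) : R) :=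
      inv_eq_of_mul_eq_one_right hεF
    rw [hε, map_mul, map_pow, inv_pow, div_eq_mul_inv, mul_inv, hεinv, mul_assoc]
  rw [h1]
  exact V.mul_mem _ _ (V.mul_mem _ _ (hR a) (hR _)) (V.pow_mem hwV k)

end Chart

end Fermat.Agent.A2.Alg.H609

end
-- ===== PACK-END A2/Alg/H609/ChartFacts.lean

-- ===== PACK-BEGIN S18/H576/Unif.lean
section




/-!
# S18 / MOD-ASM (helper576): the uniformiser facts (`UnifFacts`) from `H602.isDiscreteValuationRing_RE`
-/

set_option autoImplicit false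

noncomputable section

namespace Fermat.Agent.S18.H576

open ModularCurve AlgebraicCurve HahnSeries Fermat.Agent.S18 Fermat.Agent.S18.Mod
open Fermat.Agent.S18.H602 (RE mem_RE toA)

variable {M : ℕ} {A : ValuationSubring Qb} {E : IntermediateField ℚ Qb}

/-- The inclusion `R_E → Ω`. -/
def iotaR (M : ℕ) (A : ValuationSubring Qb) (E : IntermediateField ℚ Qb) : RE A E →+* Om M :=
  (iota M).comp ((algebraMap E Qb).comp (RE A E).subtype)

theorem iotaR_apply (r : RE A E) : iotaR M A E r = iota M ((r : E) : Qb) := rfl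

theorem iotaR_injective : Function.Injective (iotaR M A E) := by
  intro r s h
  have h1 : ((r : E) : Qb) = ((s : E) : Qb) := iota_injective M h
  exact Subtype.ext (Subtype.ext h1)

theorem iotaR_mem_Rc (r : RE A E) : iotaR M A E r ∈ Rc M A E :=
  iota_mem_Rc (mem_RE.mp r.2) (r : E).2

theorem mem_Rc_iff_exists_iotaR {y : Om M} : y ∈ Rc M A E ↔ ∃ r : RE A E, iotaR M A E r = y := by
  constructor
  · intro hy
    obtain ⟨a, haA, haE, rfl⟩ := mem_Rc_iff.mp hy
    exact ⟨⟨⟨a, haE⟩, haA⟩, rfl⟩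
  · rintro ⟨r, rfl⟩
    exact iotaR_mem_Rc r

theorem iotaR_inv_mem_Rc_iff (r : RE A E) : (iotaR M A E r)⁻¹ ∈ Rc M A E ↔ r = 0 ∨ IsUnit r := by
  constructor
  · intro h
    by_cases hr : r = 0
    · exact Or.inl hr
    right
    obtain ⟨s, hs⟩ := mem_Rc_iff_exists_iotaR.mp h
    refine isUnit_iff_exists_inv.mpr ⟨s, ?_⟩
    apply iotaR_injective (M := M)
    rw [map_mul, hs, map_one]
    exact mul_inv_cancel₀ (fun h0 => hr (iotaR_injective (by rw [h0, map_zero])))
  · rintro (rfl | hu)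
    · rw [map_zero, inv_zero]
      exact zero_mem _
    · obtain ⟨s, hs⟩ := isUnit_iff_exists_inv.mp hu
      have : (iotaR M A E r)⁻¹ = iotaR M A E s := by
        have h1 : iotaR M A E r * iotaR M A E s = 1 := by rw [← map_mul, hs, map_one]
        exact inv_eq_of_mul_eq_one_right h1
      rw [this]
      exact iotaR_mem_Rc s

/-- Every element of the residue field of `R_E` is algebraic over `𝔽_ℓ`. -/
theorem exists_polynomial_residue (r : RE A E) {ℓ : ℕ} (hℓ : ℓ.Prime) :
    ∃ P : Polynomial ℤ, P.map (Int.castRingHom (ZMod ℓ)) ≠ 0 ∧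
      Polynomial.eval₂ (Int.castRingHom (RE A E)) r P = 0 := by
  haveI : Fact ℓ.Prime := ⟨hℓ⟩
  have halgQ : IsAlgebraic ℚ ((r : E) : Qb) := (AlgebraicClosure.isAlgebraic ℚ).isAlgebraic _
  have halgZ : IsAlgebraic ℤ ((r : E) : Qb) := (IsFractionRing.isAlgebraic_iff ℤ ℚ Qb).mpr halgQ
  obtain ⟨P, hP0, hP⟩ := halgZ
  have hprim : P.primPart.IsPrimitive := Polynomial.isPrimitive_primPart P
  have hev : Polynomial.aeval ((r : E) : Qb) P.primPart = 0 := by
    have h1 := P.eq_C_content_mul_primPart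
    rw [h1, map_mul, Polynomial.aeval_C] at hP
    rcases mul_eq_zero.mp hP with h | h
    · exfalso
      have : (P.content : Qb) = 0 := by simpa using h
      have h2 : P.content = 0 := by exact_mod_cast this
      exact hP0 (Polynomial.content_eq_zero_iff.mp h2)
    · exact h
  refine ⟨P.primPart, ?_, ?_⟩
  · intro h0
    have hdvd : Polynomial.C (ℓ : ℤ) ∣ P.primPart := by
      rw [Polynomial.C_dvd_iff_dvd_coeff]
      intro i
      have := congrArg (fun Q : Polynomial (ZMod ℓ) => Q.coeff i) h0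
      simp only [Polynomial.coeff_map, Polynomial.coeff_zero, eq_intCast] at this
      exact (ZMod.intCast_zmod_eq_zero_iff_dvd _ _).mp this
    have hu := hprim _ hdvd
    have : IsUnit (ℓ : ℤ) := hu
    rw [Int.isUnit_iff] at this
    have hℓ2 := hℓ.two_le
    omega
  · have hinj : Function.Injective ((algebraMap E Qb).comp (RE A E).subtype) := by
      intro a b h
      exact Subtype.ext (Subtype.ext h)
    apply hinj
    rw [map_zero, Polynomial.hom_eval₂]
    have : (((algebraMap E Qb).comp (RE A E).subtype).comp (Int.castRingHom (RE A E))) =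
        algebraMap ℤ Qb := RingHom.ext_int _ _
    rw [this]
    exact hev

end Fermat.Agent.S18.H576

namespace Fermat.Agent.S18.H576

open ModularCurve AlgebraicCurve HahnSeries Fermat.Agent.S18 Fermat.Agent.S18.Mod
open Fermat.Agent.S18.H602 (RE mem_RE toA)

variable {M : ℕ} {A : ValuationSubring Qb} {E : IntermediateField ℚ Qb}

theorem natCast_mem_maximalIdeal_RE {ℓ : ℕ} (hA : A.LiesOverPrime ℓ) :
    ((ℓ : ℕ) : RE A E) ∈ IsLocalRing.maximalIdeal (RE A E) := by
  rw [IsLocalRing.mem_maximalIdeal, mem_nonunits_iff]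
  have h := H602.natCast_not_isUnit_RE A E (ℓ := ℓ) hA
  intro hu
  apply h
  have : (⟨(ℓ : E), H602.natCast_mem_RE A E ℓ⟩ : RE A E) = ((ℓ : ℕ) : RE A E) := by
    apply Subtype.ext
    simp
  rw [this]
  exact hu

theorem natCast_residue_RE_eq_zero {ℓ : ℕ} (hA : A.LiesOverPrime ℓ) :
    ((ℓ : ℕ) : IsLocalRing.ResidueField (RE A E)) = 0 := by
  have := (IsLocalRing.residue_eq_zero_iff ((ℓ : ℕ) : RE A E)).mpr
    (natCast_mem_maximalIdeal_RE hA)
  simpa using this

/-- The residue field of `R_E` is perfect: Frobenius is surjective modulo the maximal ideal. -/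
theorem exists_pow_sub_mem_maximalIdeal {ℓ : ℕ} (hℓ : ℓ.Prime) (hA : A.LiesOverPrime ℓ)
    (r : RE A E) : ∃ s : RE A E, r - s ^ ℓ ∈ IsLocalRing.maximalIdeal (RE A E) := by
  haveI : Fact ℓ.Prime := ⟨hℓ⟩
  set κ := IsLocalRing.ResidueField (RE A E) with hκ
  haveI : CharP κ ℓ := (CharP.charP_iff_prime_eq_zero hℓ).mpr (natCast_residue_RE_eq_zero hA)
  letI : Algebra (ZMod ℓ) κ := ZMod.algebra κ ℓ
  haveI : Algebra.IsAlgebraic (ZMod ℓ) κ := by
    refine ⟨fun x => ?_⟩
    obtain ⟨r', rfl⟩ := IsLocalRing.residue_surjective x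
    obtain ⟨P, hP0, hP⟩ := exists_polynomial_residue r' hℓ
    refine ⟨P.map (Int.castRingHom (ZMod ℓ)), hP0, ?_⟩
    rw [Polynomial.aeval_def, Polynomial.eval₂_map]
    have h1 : (algebraMap (ZMod ℓ) κ).comp (Int.castRingHom (ZMod ℓ)) =
        (IsLocalRing.residue (RE A E)).comp (Int.castRingHom (RE A E)) := RingHom.ext_int _ _
    rw [h1, ← Polynomial.hom_eval₂, hP, map_zero]
  haveI : PerfectField κ := Algebra.IsAlgebraic.perfectField (ZMod ℓ)
  haveI : ExpChar κ ℓ := ExpChar.prime hℓ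
  obtain ⟨y, hy⟩ := surjective_frobenius κ ℓ (IsLocalRing.residue (RE A E) r)
  obtain ⟨s, rfl⟩ := IsLocalRing.residue_surjective y
  refine ⟨s, ?_⟩
  rw [← IsLocalRing.residue_eq_zero_iff, map_sub, map_pow, sub_eq_zero]
  rw [frobenius_def] at hy
  exact hy.symm

/-- The uniformiser facts for `w = ` image of a uniformiser of `R_E`. -/
theorem exists_unifFacts (M : ℕ) {A : ValuationSubring Qb} (E : IntermediateField ℚ Qb)
    [FiniteDimensional ℚ E] {ℓ : ℕ} (hℓ : ℓ.Prime) (hA : A.LiesOverPrime ℓ) :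
    ∃ ϖ : RE A E, Irreducible ϖ ∧ UnifFacts M A E (iotaR M A E ϖ) := by
  haveI : IsDiscreteValuationRing (RE A E) :=
    H602.isDiscreteValuationRing_RE A E hℓ.ne_zero hA
  obtain ⟨ϖ, hϖ⟩ := IsDiscreteValuationRing.exists_irreducible (RE A E)
  have hϖ0 : ϖ ≠ 0 := hϖ.ne_zero
  have hw0 : iotaR M A E ϖ ≠ 0 := fun h => hϖ0 (iotaR_injective (by rw [h, map_zero]))
  have hmax : ∀ r : RE A E, r ∈ IsLocalRing.maximalIdeal (RE A E) → ∃ b : RE A E, r = b * ϖ := by
    intro r hr
    rw [hϖ.maximalIdeal_eq, Ideal.mem_span_singleton] at hr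
    obtain ⟨b, hb⟩ := hr
    exact ⟨b, by rw [hb, mul_comm]⟩
  have hdiv : ∀ b : RE A E, iotaR M A E (b * ϖ) * (iotaR M A E ϖ)⁻¹ = iotaR M A E b := by
    intro b
    rw [map_mul, mul_assoc, mul_inv_cancel₀ hw0, mul_one]
  refine ⟨ϖ, hϖ, ⟨iotaR_mem_Rc ϖ, hw0, ?_, ?_, ?_, ?_⟩⟩
  · intro h
    rcases (iotaR_inv_mem_Rc_iff ϖ).mp h with h0 | hu
    · exact hϖ0 h0
    · exact hϖ.not_isUnit hu
  · intro y hy hyinv
    obtain ⟨r, rfl⟩ := mem_Rc_iff_exists_iotaR.mp hy
    have hr : r ∈ IsLocalRing.maximalIdeal (RE A E) := by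
      rw [IsLocalRing.mem_maximalIdeal, mem_nonunits_iff]
      intro hu
      exact hyinv ((iotaR_inv_mem_Rc_iff r).mpr (Or.inr hu))
    obtain ⟨b, rfl⟩ := hmax r hr
    rw [hdiv]
    exact iotaR_mem_Rc b
  · intro y hy hy0
    obtain ⟨r, rfl⟩ := mem_Rc_iff_exists_iotaR.mp hy
    have hr0 : r ≠ 0 := fun h => hy0 (by rw [h, map_zero])
    obtain ⟨n, u, hu⟩ := IsDiscreteValuationRing.eq_unit_mul_pow_irreducible hr0 hϖ
    refine ⟨n, ?_⟩
    have h1 : iotaR M A E r * ((iotaR M A E ϖ)⁻¹) ^ n = iotaR M A E (u : RE A E) := by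
      rw [hu, map_mul, map_pow, mul_assoc, ← mul_pow, mul_inv_cancel₀ hw0, one_pow, mul_one]
    rw [h1]
    exact ⟨iotaR_mem_Rc _, (iotaR_inv_mem_Rc_iff _).mpr (Or.inr u.isUnit)⟩
  · refine ⟨ℓ, hℓ, ?_, ?_⟩
    · obtain ⟨b, hb⟩ := hmax _ (natCast_mem_maximalIdeal_RE (E := E) hA)
      have h1 : ((ℓ : ℕ) : Om M) = iotaR M A E (b * ϖ) := by
        rw [← hb, map_natCast]
      rw [h1, hdiv]
      exact iotaR_mem_Rc b
    · intro y hy
      obtain ⟨r, rfl⟩ := mem_Rc_iff_exists_iotaR.mp hy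
      obtain ⟨s, hs⟩ := exists_pow_sub_mem_maximalIdeal hℓ hA r
      obtain ⟨b, hb⟩ := hmax _ hs
      refine ⟨iotaR M A E s, iotaR_mem_Rc s, ?_⟩
      have h1 : iotaR M A E r - iotaR M A E s ^ ℓ = iotaR M A E (b * ϖ) := by
        rw [← hb, map_sub, map_pow]
      rw [h1, hdiv]
      exact iotaR_mem_Rc b

end Fermat.Agent.S18.H576

end
end
-- ===== PACK-END S18/H576/Unif.lean

-- ===== PACK-BEGIN S18/H576/Transport.lean
section



/-!
# S18 / node_mod (helper576): TRANSPORT between the `E`-level and the concrete objects of `Mod/Defs`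

`E ⊆ Q̄` an intermediate field, `R_E = H602.RE A E = A ∩ E`, `κ_E` its residue field,
`F_E = laurentBaseChange E (modularFunctionFieldFull M) ⊆ E((q))`.

* `descendsTo_of_mem_Fc`     : `f ∈ Fc M E` ⟹ `f` comes from `F_E`;
* `exists_mem_Fc_of_mem_FE`  : `g ∈ F_E` ⟹ `g` is (the `q`-expansion of) an element of `Fc M E`;
* `OE M A E : Subring R_E((q))` : the integral series lying in `F_E`;
  `phi : OE →+* Ω` (injective, values in `Fc M E`), `rho : OE →+* κ_E((q))` (reduction);
* `exists_rep_of_mem_VcSet`  : `f ∈ VcSet M A E` ⟹ `f · phi V₂ = phi V₁` with `rho V₂ ≠ 0`;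
* `mem_VcSet_of_rep`         : the converse;
* `exists_div_of_rho_eq_zero`: `rho V = 0` ⟹ `phi V · w⁻¹ = phi V'` (for `w` with `w_gen`).
-/

set_option autoImplicit false

noncomputable section

namespace Fermat.Agent.S18.H576

open ModularCurve AlgebraicCurve HahnSeries Fermat.Agent.S18 Fermat.Agent.S18.Mod
open Fermat.Agent.S18.H602 (RE mem_RE toA)

variable {M : ℕ} {A : ValuationSubring Qb} {E : IntermediateField ℚ Qb}

/-- Elements of `Fc M E` are defined over `E` (inside the base change `F_E`). -/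
theorem descendsTo_of_mem_Fc {f : Om M} (hf : f ∈ Fc M E) :
    H602.DescendsTo (modularFunctionFieldFull M) E (f : LaurentSeries Qb) := by
  unfold Fc at hf
  induction hf using Subfield.closure_induction with
  | mem y hy =>
      rcases hy with hy | ⟨d, hd, hdM, rfl⟩
      · obtain ⟨a, ha, rfl⟩ := mem_Ec_iff.mp hy
        refine ⟨algebraMap E (LaurentSeries E) ⟨a, ha⟩,
          (laurentBaseChange E (modularFunctionFieldFull M)).algebraMap_mem _, ?_⟩
        rw [H602.coeffMap_algebraMap']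
        rfl
      · exact H602.descendsTo_coeffEmb E (jqd_mem_full M hdM)
  | one => exact H602.DescendsTo.one E
  | add x y _ _ hx hy => exact hx.add hy
  | neg x _ hx => exact hx.neg
  | inv x _ hx => exact hx.inv
  | mul x y _ _ hx hy => exact hx.mul hy

/-- Elements of `F_E` give elements of `Fc M E`. -/
theorem exists_mem_Fc_of_mem_FE {g : LaurentSeries E}
    (hg : g ∈ laurentBaseChange E (modularFunctionFieldFull M)) :
    ∃ f ∈ Fc M E, (f : LaurentSeries Qb) = coeffMap (algebraMap E Qb) g := by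
  rw [mem_laurentBaseChange_iff] at hg
  induction hg using Subfield.closure_induction with
  | mem y hy =>
      rcases hy with ⟨a, rfl⟩ | ⟨z, hz, rfl⟩
      · refine ⟨iota M (a : Qb), Ec_le_Fc (iota_mem_Ec a.2), ?_⟩
        rw [H602.coeffMap_algebraMap']
        rfl
      · obtain ⟨f, hf, hfz⟩ := exists_mem_Fc_of_mem_full (M := M) (E := E) hz
        refine ⟨f, hf, ?_⟩
        rw [hfz, H602.coeffMap_coeffEmb']
  | one => exact ⟨1, one_mem _, by rw [map_one]; rfl⟩
  | add x y _ _ hx hy =>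
      obtain ⟨f, hf, hfx⟩ := hx
      obtain ⟨g, hg, hgy⟩ := hy
      exact ⟨f + g, add_mem hf hg, by rw [map_add, ← hfx, ← hgy]; rfl⟩
  | neg x _ hx =>
      obtain ⟨f, hf, hfx⟩ := hx
      exact ⟨-f, neg_mem hf, by rw [map_neg, ← hfx]; rfl⟩
  | inv x _ hx =>
      obtain ⟨f, hf, hfx⟩ := hx
      exact ⟨f⁻¹, inv_mem hf, by rw [map_inv₀, ← hfx]; rfl⟩
  | mul x y _ _ hx hy =>
      obtain ⟨f, hf, hfx⟩ := hx
      obtain ⟨g, hg, hgy⟩ := hy
      exact ⟨f * g, mul_mem hf hg, by rw [map_mul, ← hfx, ← hgy]; rfl⟩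

theorem C_mem_FE (M : ℕ) (c : E) :
    HahnSeries.C (Γ := ℤ) c ∈ laurentBaseChange E (modularFunctionFieldFull M) := by
  have := (laurentBaseChange E (modularFunctionFieldFull M)).algebraMap_mem c
  rwa [algebraMap_laurentSeries_eq_single, ← HahnSeries.C_apply] at this

/-- The ring of integral series over `R_E` lying in `F_E`. -/
def OE (M : ℕ) (A : ValuationSubring Qb) (E : IntermediateField ℚ Qb) :
    Subring (LaurentSeries (RE A E)) :=
  (laurentBaseChange E (modularFunctionFieldFull M)).toSubfield.toSubring.comap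
    (coeffMap (RE A E).subtype)

theorem mem_OE {V : LaurentSeries (RE A E)} :
    V ∈ OE M A E ↔
      coeffMap (RE A E).subtype V ∈ laurentBaseChange E (modularFunctionFieldFull M) :=
  Iff.rfl

/-- `R_E((q)) → Q̄((q))`. -/
def incQ (A : ValuationSubring Qb) (E : IntermediateField ℚ Qb) :
    LaurentSeries (RE A E) →+* LaurentSeries Qb :=
  (coeffMap (algebraMap E Qb)).comp (coeffMap (RE A E).subtype)

theorem incQ_apply (V : LaurentSeries (RE A E)) :
    incQ A E V = coeffMap (algebraMap E Qb) (coeffMap (RE A E).subtype V) := rfl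

theorem incQ_eq (V : LaurentSeries (RE A E)) :
    incQ A E V = coeffMap A.subtype (coeffMap (toA A E) V) := by
  rw [incQ_apply, coeffMap_coeffMap, coeffMap_coeffMap, H602.subtype_comp_toA]

theorem incQ_injective : Function.Injective (incQ A E) := by
  intro x y h
  have h1 := H602.coeffMap_injective (algebraMap E Qb) (algebraMap E Qb).injective h
  exact H602.coeffMap_injective (RE A E).subtype Subtype.val_injective h1

theorem incQ_mem (V : OE M A E) :
    incQ A E (V : LaurentSeries (RE A E)) ∈ modularFunctionFieldBar M :=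
  H602.coeffMap_mem_laurentBaseChange _ _ V.2

/-- The element of `Ω` defined by an integral series. -/
def phi (M : ℕ) (A : ValuationSubring Qb) (E : IntermediateField ℚ Qb) : OE M A E →+* Om M where
  toFun V := ⟨incQ A E (V : LaurentSeries (RE A E)), incQ_mem V⟩
  map_one' := Subtype.ext (by simp)
  map_mul' x y := Subtype.ext (by simp)
  map_zero' := Subtype.ext (by simp)
  map_add' x y := Subtype.ext (by simp)

theorem coe_phi (V : OE M A E) :
    ((phi M A E V : Om M) : LaurentSeries Qb) = incQ A E (V : LaurentSeries (RE A E)) := rfl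

theorem phi_injective : Function.Injective (phi M A E) := by
  intro x y h
  have h1 : incQ A E (x : LaurentSeries (RE A E)) = incQ A E (y : LaurentSeries (RE A E)) :=
    congrArg Subtype.val h
  exact Subtype.ext (incQ_injective h1)

theorem phi_mem_Fc (V : OE M A E) : phi M A E V ∈ Fc M E := by
  obtain ⟨f, hf, hfV⟩ := exists_mem_Fc_of_mem_FE (M := M) V.2
  have : phi M A E V = f := Subtype.ext (by rw [coe_phi, incQ_apply, hfV])
  rw [this]
  exact hf

/-- Reduction of an integral series. -/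
def rho (M : ℕ) (A : ValuationSubring Qb) (E : IntermediateField ℚ Qb) :
    OE M A E →+* LaurentSeries (IsLocalRing.ResidueField (RE A E)) :=
  (coeffMap (IsLocalRing.residue (RE A E))).comp (OE M A E).subtype

theorem rho_apply (V : OE M A E) :
    rho M A E V = coeffMap (IsLocalRing.residue (RE A E)) (V : LaurentSeries (RE A E)) := rfl

/-- The reduction over `A` of the series over `A` attached to `V`. -/
theorem residue_toA_eq (V : LaurentSeries (RE A E)) :
    coeffMap (IsLocalRing.residue A) (coeffMap (toA A E) V) =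
      coeffMap (H602.resMap A E) (coeffMap (IsLocalRing.residue (RE A E)) V) :=
  H602.coeffMap_residue_toA A E V

theorem residue_toA_ne_zero_iff (V : LaurentSeries (RE A E)) :
    coeffMap (IsLocalRing.residue A) (coeffMap (toA A E) V) ≠ 0 ↔
      coeffMap (IsLocalRing.residue (RE A E)) V ≠ 0 := by
  rw [residue_toA_eq]
  constructor
  · intro h h0
    exact h (by rw [h0, map_zero])
  · intro h h0
    apply h
    apply H602.coeffMap_injective (H602.resMap A E) (H602.resMap_injective A E)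
    rw [h0, map_zero]

theorem isIntE_toA (V : OE M A E) :
    IsIntE M A E (coeffMap (toA A E) (V : LaurentSeries (RE A E))) := by
  refine ⟨fun n => ?_, phi M A E V, phi_mem_Fc V, ?_⟩
  · rw [coeffMap_coeff]
    exact ((V : LaurentSeries (RE A E)).coeff n : E).2
  · rw [coe_phi, incQ_eq]

/-- Every element of `VcSet` is a quotient of two integral series over `R_E`, the denominator
with nonzero reduction. -/
theorem exists_rep_of_mem_VcSet {f : Om M} (hf : f ∈ VcSet M A E) :
    ∃ V₁ V₂ : OE M A E, rho M A E V₂ ≠ 0 ∧ f * phi M A E V₂ = phi M A E V₁ := by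
  obtain ⟨-, U₁, U₂, ⟨-, g₁, hg₁, hgU₁⟩, ⟨-, g₂, hg₂, hgU₂⟩, hne, heq⟩ := hf
  have d₁ := descendsTo_of_mem_Fc hg₁
  have d₂ := descendsTo_of_mem_Fc hg₂
  rw [hgU₁] at d₁
  rw [hgU₂] at d₂
  obtain ⟨V₁, hV₁, hVU₁⟩ := H602.exists_series_descent U₁ d₁
  obtain ⟨V₂, hV₂, hVU₂⟩ := H602.exists_series_descent U₂ d₂
  refine ⟨⟨V₁, hV₁⟩, ⟨V₂, hV₂⟩, ?_, ?_⟩
  · rw [rho_apply]
    rw [← hVU₂] at hne
    exact (residue_toA_ne_zero_iff V₂).mp hne
  · apply Subtype.ext
    show (f : LaurentSeries Qb) * incQ A E V₂ = incQ A E V₁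
    rw [incQ_eq, incQ_eq, hVU₁, hVU₂]
    exact heq

/-- Conversely a quotient of two integral series over `R_E`, the denominator with nonzero
reduction, lies in `VcSet`. -/
theorem mem_VcSet_of_rep {g : Om M} (V₁ V₂ : OE M A E) (h2 : rho M A E V₂ ≠ 0)
    (h : g * phi M A E V₂ = phi M A E V₁) : g ∈ VcSet M A E := by
  have hV₂0 : phi M A E V₂ ≠ 0 := by
    intro h0
    apply h2
    have : V₂ = 0 := phi_injective (by rw [h0, map_zero])
    rw [this, map_zero]
  have hg : g = phi M A E V₁ * (phi M A E V₂)⁻¹ := by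
    rw [← h, mul_assoc, mul_inv_cancel₀ hV₂0, mul_one]
  refine ⟨?_, coeffMap (toA A E) (V₁ : LaurentSeries (RE A E)),
    coeffMap (toA A E) (V₂ : LaurentSeries (RE A E)), isIntE_toA V₁, isIntE_toA V₂, ?_, ?_⟩
  · rw [hg]
    exact mul_mem (phi_mem_Fc V₁) (inv_mem (phi_mem_Fc V₂))
  · exact (residue_toA_ne_zero_iff _).mpr h2
  · rw [← incQ_eq, ← incQ_eq, ← coe_phi, ← coe_phi, ← h]
    rfl

theorem coeff_mem_maximalIdeal_of_rho_eq_zero (V : OE M A E) (hV : rho M A E V = 0) (n : ℤ) :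
    (V : LaurentSeries (RE A E)).coeff n ∈ IsLocalRing.maximalIdeal (RE A E) := by
  rw [← IsLocalRing.residue_eq_zero_iff]
  have := congrArg (fun z : LaurentSeries (IsLocalRing.ResidueField (RE A E)) => z.coeff n) hV
  simpa [rho_apply, coeffMap_coeff] using this

/-- A series with zero reduction is divisible by the uniformiser `w`. -/
theorem exists_div_of_rho_eq_zero {w : Om M} (hwm : w ∈ Rc M A E)
    (hwg : ∀ r ∈ Rc M A E, r⁻¹ ∉ Rc M A E → r * w⁻¹ ∈ Rc M A E)
    (V : OE M A E) (hV : rho M A E V = 0) :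
    ∃ V' : OE M A E, phi M A E V' = phi M A E V * w⁻¹ := by
  obtain ⟨ϖ, rfl⟩ := mem_Rc_iff_exists_iotaR.mp hwm
  set c : E := ((ϖ : E))⁻¹ with hc
  set y : LaurentSeries E :=
    HahnSeries.C c * coeffMap (RE A E).subtype (V : LaurentSeries (RE A E)) with hy
  have hcoeff : ∀ n, y.coeff n = c * (((V : LaurentSeries (RE A E)).coeff n : RE A E) : E) := by
    intro n
    rw [hy, HahnSeries.C_mul_eq_smul, HahnSeries.coeff_smul, smul_eq_mul, coeffMap_coeff]
    rfl
  have hrange : ∀ n, y.coeff n ∈ Set.range (RE A E).subtype := by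
    intro n
    set r : RE A E := (V : LaurentSeries (RE A E)).coeff n with hr
    by_cases hr0 : r = 0
    · refine ⟨0, ?_⟩
      rw [hcoeff, ← hr, hr0]
      simp
    have hnu : ¬ IsUnit r := by
      have := coeff_mem_maximalIdeal_of_rho_eq_zero V hV n
      rwa [IsLocalRing.mem_maximalIdeal, mem_nonunits_iff] at this
    have hinv : (iotaR M A E r)⁻¹ ∉ Rc M A E := by
      intro h
      rcases (iotaR_inv_mem_Rc_iff r).mp h with h | h
      · exact hr0 h
      · exact hnu h
    obtain ⟨s, hs⟩ := mem_Rc_iff_exists_iotaR.mp (hwg _ (iotaR_mem_Rc r) hinv)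
    refine ⟨s, ?_⟩
    rw [hcoeff, ← hr]
    have hinj : Function.Injective ((iota M).comp (algebraMap E Qb)) :=
      (iota_injective M).comp (algebraMap E Qb).injective
    apply hinj
    show iotaR M A E s = _
    rw [hs, map_mul, hc, map_inv₀, mul_comm]
    rfl
  obtain ⟨V', hV'⟩ := H602.exists_coeffMap_eq (RE A E).subtype Subtype.val_injective y hrange
  have hV'mem : V' ∈ OE M A E := by
    rw [mem_OE, hV', hy]
    exact mul_mem (C_mem_FE M c) V.2
  refine ⟨⟨V', hV'mem⟩, ?_⟩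
  apply Subtype.ext
  show incQ A E V' = incQ A E (V : LaurentSeries (RE A E)) *
    ((iotaR M A E ϖ : Om M) : LaurentSeries Qb)⁻¹
  rw [incQ_apply, hV', hy, map_mul, H516.coeffMap_C, ← incQ_apply, iotaR_apply, coe_iota_single,
    ← HahnSeries.C_apply, ← map_inv₀, hc, map_inv₀, mul_comm]
  rfl

end Fermat.Agent.S18.H576

end
end
-- ===== PACK-END S18/H576/Transport.lean

-- ===== PACK-BEGIN A2/Mod/H216/Bridge.lean
section





/-!
# A2 / GOODRED (helper216): the BRIDGE between the `E`-level objects of `A2/Mod/Spec.lean`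
and the concrete objects of row S18 (`S18/Mod/Defs.lean`)

`F_{M,E} = FE E M ⊆ E((t))` (A2 language)  versus  `Fc M E ⊆ Ω = Om M ⊆ Q̄((t))` (S18 language).

* `bridge E M : FE E M →+* Om M` : coefficientwise embedding `E ⊆ Q̄`; injective, range `Fc M E`;
* `bridge_algebraMap`, `bridge_cE`, `bridge_jE` : constants and generators;
* `bridge_mem_VcSet_iff`  : `H708.IsGaussInt (RE P E) _ f ↔ bridge f ∈ VcSet M P E`
                            (so `IsVinf V` means `f ∈ V ↔ bridge f ∈ VcSet`);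
* `bridge_mem_chart_iff`  : `f ∈ Mod.chart P E M y ↔ bridge f ∈ S18.Alg.chart Fc R (bridge y)`.
-/

set_option autoImplicit false
set_option linter.unusedSectionVars false
set_option linter.style.haveILetI false
set_option synthInstance.maxHeartbeats 400000
set_option maxHeartbeats 1600000

noncomputable section

namespace Fermat.Agent.A2.Mod.H216

open ModularCurve HahnSeries Polynomial

variable (P : ValuationSubring _root_.Fermat.Agent.A2.Mod.Qb) (E : IntermediateField ℚ _root_.Fermat.Agent.A2.Mod.Qb) (M : ℕ)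

/-- The coefficientwise embedding `F_{M,E} → Ω = F_M`. -/
def bridge : _root_.Fermat.Agent.A2.Mod.FE E M →+* S18.Mod.Om M where
  toFun f := ⟨coeffMap (algebraMap E _root_.Fermat.Agent.A2.Mod.Qb) (f : LaurentSeries E),
    S18.H602.coeffMap_mem_laurentBaseChange _ _ f.2⟩
  map_one' := Subtype.ext (by simp)
  map_mul' x y := Subtype.ext (by simp)
  map_zero' := Subtype.ext (by simp)
  map_add' x y := Subtype.ext (by simp)

variable {E M}

theorem coe_bridge (f : _root_.Fermat.Agent.A2.Mod.FE E M) :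
    ((bridge E M f : S18.Mod.Om M) : LaurentSeries _root_.Fermat.Agent.A2.Mod.Qb) =
      coeffMap (algebraMap E _root_.Fermat.Agent.A2.Mod.Qb) (f : LaurentSeries E) := rfl

theorem bridge_injective : Function.Injective (bridge E M) := by
  intro x y h
  have h1 : coeffMap (algebraMap E _root_.Fermat.Agent.A2.Mod.Qb) (x : LaurentSeries E) =
      coeffMap (algebraMap E _root_.Fermat.Agent.A2.Mod.Qb) (y : LaurentSeries E) := congrArg Subtype.val h
  exact Subtype.ext (S18.H602.coeffMap_injective _ (algebraMap E _root_.Fermat.Agent.A2.Mod.Qb).injective h1)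

theorem bridge_mem_Fc (f : _root_.Fermat.Agent.A2.Mod.FE E M) : bridge E M f ∈ S18.Mod.Fc M E := by
  obtain ⟨g, hg, hgf⟩ := S18.H576.exists_mem_Fc_of_mem_FE (M := M) (E := E) f.2
  have : bridge E M f = g := Subtype.ext (by rw [coe_bridge, hgf])
  rw [this]
  exact hg

theorem exists_bridge_eq {g : S18.Mod.Om M} (hg : g ∈ S18.Mod.Fc M E) :
    ∃ f : _root_.Fermat.Agent.A2.Mod.FE E M, bridge E M f = g := by
  obtain ⟨y, hy, hyg⟩ := S18.H576.descendsTo_of_mem_Fc hg
  exact ⟨⟨y, hy⟩, Subtype.ext hyg⟩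

theorem bridge_algebraMap (e : E) :
    bridge E M (algebraMap E (_root_.Fermat.Agent.A2.Mod.FE E M) e) = algebraMap _root_.Fermat.Agent.A2.Mod.Qb (S18.Mod.Om M) (e : _root_.Fermat.Agent.A2.Mod.Qb) := by
  apply Subtype.ext
  rw [coe_bridge]
  exact S18.H602.coeffMap_algebraMap' (algebraMap E _root_.Fermat.Agent.A2.Mod.Qb) e

theorem bridge_cE (r : _root_.Fermat.Agent.A2.Mod.RE P E) :
    bridge E M (cE P E M r) = S18.H576.iotaR M P E r :=
  bridge_algebraMap (r : E)

theorem bridge_cE_mem_Rc (r : _root_.Fermat.Agent.A2.Mod.RE P E) : bridge E M (cE P E M r) ∈ S18.Mod.Rc M P E := by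
  rw [bridge_cE]
  exact S18.H576.mem_Rc_iff_exists_iotaR.2 ⟨r, rfl⟩

theorem bridge_jE (d : ℕ) [NeZero d] (hd : d ∣ M) :
    bridge E M (jE E M d hd) = S18.Mod.jd M d hd := by
  apply Subtype.ext
  rw [coe_bridge]
  exact S18.H602.coeffMap_coeffEmb' (algebraMap E _root_.Fermat.Agent.A2.Mod.Qb) _

/-! ### The Gauss valuation ring -/

theorem bridge_mem_VcSet_iff (f : _root_.Fermat.Agent.A2.Mod.FE E M) :
    bridge E M f ∈ S18.Mod.VcSet M P E ↔
      H708.IsGaussInt (_root_.Fermat.Agent.A2.Mod.RE P E) (modularFunctionFieldFull M) (f : LaurentSeries E) := by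
  constructor
  · intro hf
    obtain ⟨V₁, V₂, h2, h⟩ := S18.H576.exists_rep_of_mem_VcSet hf
    refine ⟨V₁.1, V₂.1, h2, V₂.2, ?_⟩
    apply S18.H602.coeffMap_injective _ (algebraMap E _root_.Fermat.Agent.A2.Mod.Qb).injective
    have h' := congrArg Subtype.val h
    rw [map_mul]
    exact h'
  · rintro ⟨U₁, U₂, h0, hm, he⟩
    have hm1 : coeffMap (_root_.Fermat.Agent.A2.Mod.RE P E).subtype U₁ ∈
        laurentBaseChange E (modularFunctionFieldFull M) := by
      have : H708.incl (_root_.Fermat.Agent.A2.Mod.RE P E) U₁ = (f : LaurentSeries E) * H708.incl (_root_.Fermat.Agent.A2.Mod.RE P E) U₂ := he.symm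
      show H708.incl (_root_.Fermat.Agent.A2.Mod.RE P E) U₁ ∈ _
      rw [this]
      exact mul_mem f.2 hm
    refine S18.H576.mem_VcSet_of_rep (M := M) (A := P) (E := E) ⟨U₁, hm1⟩ ⟨U₂, hm⟩ h0 ?_
    apply Subtype.ext
    show coeffMap (algebraMap E _root_.Fermat.Agent.A2.Mod.Qb) (f : LaurentSeries E) *
        coeffMap (algebraMap E _root_.Fermat.Agent.A2.Mod.Qb) (coeffMap (_root_.Fermat.Agent.A2.Mod.RE P E).subtype U₂) =
      coeffMap (algebraMap E _root_.Fermat.Agent.A2.Mod.Qb) (coeffMap (_root_.Fermat.Agent.A2.Mod.RE P E).subtype U₁)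
    rw [← map_mul]
    exact congrArg _ he

theorem mem_iff_bridge_mem_VcSet {V : ValuationSubring (_root_.Fermat.Agent.A2.Mod.FE E M)} (hV : IsVinf P E M V)
    (f : _root_.Fermat.Agent.A2.Mod.FE E M) : f ∈ V ↔ bridge E M f ∈ S18.Mod.VcSet M P E := by
  rw [bridge_mem_VcSet_iff]
  exact hV f

theorem mem_iff_bridge_mem_Vc {V : ValuationSubring (_root_.Fermat.Agent.A2.Mod.FE E M)} (hV : IsVinf P E M V)
    (f : _root_.Fermat.Agent.A2.Mod.FE E M) : f ∈ V ↔ bridge E M f ∈ S18.Mod.H216.Vc M P E := by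
  rw [mem_iff_bridge_mem_VcSet P hV]
  rw [← S18.Mod.H216.coe_Vc M P E]
  rfl

/-! ### The charts -/

section Chart

variable (y : _root_.Fermat.Agent.A2.Mod.FE E M)

/-- The structure map `R_E → F_{M,E}`. -/
abbrev c0 (P : ValuationSubring _root_.Fermat.Agent.A2.Mod.Qb) (E : IntermediateField ℚ _root_.Fermat.Agent.A2.Mod.Qb) (M : ℕ) : _root_.Fermat.Agent.A2.Mod.RE P E →+* _root_.Fermat.Agent.A2.Mod.FE E M :=
  (algebraMap E (_root_.Fermat.Agent.A2.Mod.FE E M)).comp (_root_.Fermat.Agent.A2.Mod.RE P E).subtype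

/-- `R_E → R = Rc M P E`. -/
def toRc (P : ValuationSubring _root_.Fermat.Agent.A2.Mod.Qb) (E : IntermediateField ℚ _root_.Fermat.Agent.A2.Mod.Qb) (M : ℕ) :
    _root_.Fermat.Agent.A2.Mod.RE P E →+* ↥(S18.Mod.Rc M P E) :=
  ((bridge E M).comp (c0 P E M)).codRestrict (S18.Mod.Rc M P E) (fun r => bridge_cE_mem_Rc P r)

theorem coe_toRc (r : _root_.Fermat.Agent.A2.Mod.RE P E) :
    ((toRc P E M r : ↥(S18.Mod.Rc M P E)) : S18.Mod.Om M) = bridge E M (c0 P E M r) := rfl

theorem toRc_surjective : Function.Surjective (toRc P E M) := by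
  rintro ⟨u, hu⟩
  obtain ⟨r, hr⟩ := S18.H576.mem_Rc_iff_exists_iotaR.1 hu
  have hr' : bridge E M (cE P E M (show _root_.Fermat.Agent.A2.Mod.RE P E from r)) = u := by
    rw [bridge_cE]
    exact hr
  exact ⟨(show _root_.Fermat.Agent.A2.Mod.RE P E from r), Subtype.ext hr'⟩

/-- `bridge (a(y)) = (ρ a)(bridge y)` for `a ∈ R_E[X]`. -/
theorem bridge_eval₂ (a : Polynomial (_root_.Fermat.Agent.A2.Mod.RE P E)) :
    bridge E M (a.eval₂ (c0 P E M) y) =
      S18.Mod.H216.evR (S18.Mod.Rc M P E) (bridge E M y) (a.map (toRc P E M)) := by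
  rw [S18.Mod.H216.evR_apply, Polynomial.eval₂_map, Polynomial.hom_eval₂]
  rfl

theorem bridge_eval₂_mem_polyRing (a : Polynomial (_root_.Fermat.Agent.A2.Mod.RE P E)) :
    bridge E M (a.eval₂ (c0 P E M) y) ∈
      S18.Alg.polyRing (S18.Mod.Rc M P E) (bridge E M y) := by
  rw [bridge_eval₂, S18.Mod.H216.mem_polyRing_iff]
  exact ⟨_, rfl⟩

/-- `R_E[X] → R[bridge y]`, `X ↦ bridge y`. -/
def toPolyRing : Polynomial (_root_.Fermat.Agent.A2.Mod.RE P E) →+*
    ↥(S18.Alg.polyRing (S18.Mod.Rc M P E) (bridge E M y)) :=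
  ((bridge E M).comp (Polynomial.eval₂RingHom (c0 P E M) y)).codRestrict _
    (fun a => bridge_eval₂_mem_polyRing P y a)

theorem coe_toPolyRing (a : Polynomial (_root_.Fermat.Agent.A2.Mod.RE P E)) :
    ((toPolyRing P y a : ↥(S18.Alg.polyRing (S18.Mod.Rc M P E) (bridge E M y))) :
      S18.Mod.Om M) = bridge E M (a.eval₂ (c0 P E M) y) := rfl

theorem toPolyRing_surjective : Function.Surjective (toPolyRing P y) := by
  rintro ⟨u, hu⟩
  obtain ⟨p, hp⟩ := (S18.Mod.H216.mem_polyRing_iff _ _).1 hu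
  obtain ⟨a, ha⟩ := Polynomial.map_surjective (toRc P E M) (toRc_surjective P) p
  refine ⟨a, Subtype.ext ?_⟩
  rw [coe_toPolyRing, bridge_eval₂, ha, hp]

theorem subtype_comp_toPolyRing :
    (S18.Alg.polyRing (S18.Mod.Rc M P E) (bridge E M y)).subtype.comp (toPolyRing P y) =
      (bridge E M).comp (Polynomial.eval₂RingHom (c0 P E M) y) :=
  RingHom.ext fun _ => rfl

/-- **The charts correspond.** -/
theorem bridge_mem_chart_iff (f : _root_.Fermat.Agent.A2.Mod.FE E M) :
    f ∈ chart P E M y ↔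
      bridge E M f ∈ S18.Alg.chart (S18.Mod.Fc M E) (S18.Mod.Rc M P E) (bridge E M y) := by
  constructor
  · rintro ⟨p, hpm, hp⟩
    refine ⟨bridge_mem_Fc f, p.map (toPolyRing P y), hpm.map _, ?_⟩
    rw [Polynomial.eval₂_map]
    have h1 : (algebraMap ↥(S18.Alg.polyRing (S18.Mod.Rc M P E) (bridge E M y))
        (S18.Mod.Om M)).comp (toPolyRing P y) =
        (bridge E M).comp (Polynomial.eval₂RingHom (c0 P E M) y) :=
      subtype_comp_toPolyRing P y
    rw [h1, ← Polynomial.hom_eval₂]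
    have hp' : p.eval₂ (Polynomial.eval₂RingHom (c0 P E M) y) f = 0 := hp
    rw [hp', map_zero]
  · rintro ⟨-, p, hpm, hp⟩
    have hl : p ∈ Polynomial.lifts (toPolyRing P y) := by
      rw [Polynomial.lifts_iff_coeff_lifts]
      intro i
      exact toPolyRing_surjective P y _
    obtain ⟨q, hq, -, hqm⟩ := Polynomial.lifts_and_natDegree_eq_and_monic hl hpm
    refine ⟨q, hqm, ?_⟩
    apply bridge_injective
    rw [map_zero, Polynomial.hom_eval₂]
    have h1 : (algebraMap ↥(S18.Alg.polyRing (S18.Mod.Rc M P E) (bridge E M y))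
        (S18.Mod.Om M)).comp (toPolyRing P y) =
        (bridge E M).comp (Polynomial.eval₂RingHom (c0 P E M) y) :=
      subtype_comp_toPolyRing P y
    rw [← h1, ← Polynomial.eval₂_map, hq]
    exact hp

end Chart

end Fermat.Agent.A2.Mod.H216

end
end
-- ===== PACK-END A2/Mod/H216/Bridge.lean

-- ===== PACK-BEGIN S18/B12/H33/CoreMain.lean
section



/-!
# S18 b2.5 (helper33): `B2CoreAbsStatement` from the assembly pieces A0, A2, A2', A3, A4, A5, A5'
-/

set_option autoImplicit false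

noncomputable section

namespace Fermat.Agent.S18.B12.H33

open Polynomial

universe u v

theorem b2CoreAbs_of_pieces
    (hA0 : RegSeqAbsStatement.{u, v}) (hA2 : LocalBasisStatement.{u, v})
    (hA2' : LocalBasisRankStatement.{u, v}) (hA3 : DiscrRedStatement.{u, v})
    (hA4 : UFDStepStatement.{u}) (hA5 : GenericDiscrStatement.{u, v})
    (hA5' : RedBasisAbsStatement.{u, v}) : B2CoreAbsStatement.{u, v} := by
  intro P _ _ _ _ w hw hΛ hΛ₀ hℚ B _ _ _ _ _ _ hsep S hS1 hS2 hNC t ht n bb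
  haveI := hΛ
  haveI hdomΛ : IsDomain (P ⧸ Ideal.span {w}) := by
    rw [Ideal.Quotient.isDomain_iff_prime]
    exact (Ideal.span_singleton_prime hw.ne_zero).mpr hw
  have hmkw : Ideal.Quotient.mk (Ideal.span {w}) w = 0 :=
    Ideal.Quotient.eq_zero_iff_mem.mpr (Ideal.mem_span_singleton_self w)
  obtain ⟨p, hp⟩ := Ideal.Quotient.mk_surjective t
  -- the closed point
  have htmax : (Ideal.span {t}).IsMaximal :=
    PrincipalIdealRing.isMaximal_of_irreducible ht.irreducible
  have h𝔪p : (Ideal.span {w, p}).IsMaximal := by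
    rw [span_pair_eq_comap, hp]
    exact Ideal.comap_isMaximal_of_surjective _ Ideal.Quotient.mk_surjective
  -- choice of the second generator `q`
  obtain ⟨q, hq𝔪, hqcase⟩ : ∃ q, Ideal.span {w, q} = Ideal.span {w, p} ∧
      (q ∈ S ∨ ∀ s ∈ S, s ∉ Ideal.span {w, p}) := by
    by_cases h : ∃ s ∈ S, s ∈ Ideal.span {w, p}
    · obtain ⟨s, hs, hs𝔪⟩ := h
      refine ⟨s, ?_, Or.inl hs⟩
      have hmax := (hS1 s hs).2.2.1
      refine hmax.eq_of_le h𝔪p.ne_top ?_
      rw [Ideal.span_le]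
      intro z hz
      rcases hz with rfl | hz
      · exact Ideal.subset_span (by simp)
      · rw [Set.mem_singleton_iff] at hz; subst hz; exact hs𝔪
    · push_neg at h
      exact ⟨p, rfl, Or.inr h⟩
  have h𝔪max : (Ideal.span {w, q}).IsMaximal := hq𝔪 ▸ h𝔪p
  haveI h𝔪prime : (Ideal.span {w, q}).IsPrime := h𝔪max.isPrime
  have hw𝔪 : w ∈ Ideal.span {w, q} := Ideal.subset_span (by simp)
  -- `mk q` is associated to `t`
  have hqt : Associated (Ideal.Quotient.mk (Ideal.span {w}) q) t := by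
    rw [← Ideal.span_singleton_eq_span_singleton]
    ext b
    obtain ⟨a, rfl⟩ := Ideal.Quotient.mk_surjective b
    rw [Ideal.mem_span_singleton, Ideal.mem_span_singleton, ← mem_span_pair_iff_mk_dvd, hq𝔪,
      mem_span_pair_iff_mk_dvd, hp]
  have hmkq_prime : Prime (Ideal.Quotient.mk (Ideal.span {w}) q) := hqt.symm.prime ht
  have hwq : ¬ w ∣ q := by
    intro h
    apply hmkq_prime.ne_zero
    exact Ideal.Quotient.eq_zero_iff_mem.mpr (Ideal.mem_span_singleton.mpr h)
  -- local basis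
  haveI : Algebra.IsIntegral P B := inferInstance
  have hreg := hA0 P B q w hw hwq
  obtain ⟨n₀, x, hx⟩ := hA2 P B w q h𝔪max hreg
  obtain ⟨hn₀, hgram⟩ := hA2' P B (Ideal.span {w, q}) n₀ x hx
  obtain ⟨hn, u, hu, hD⟩ := hA3 P B w hw (Ideal.span {w, q}) hw𝔪 n₀ x hx n bb
  subst hn
  -- `w ∤ D`
  have hwD : ¬ w ∣ intDiscr P B x := by
    obtain ⟨x', hx'⟩ := hsep
    subst hn₀
    obtain ⟨g, v, hg, hgv⟩ := hgram x'
    intro hdvd
    have h1 : w ∣ g ^ 2 * intDiscr P B x' := by
      rw [hgv]; exact Dvd.dvd.mul_left hdvd _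
    rcases hw.dvd_or_dvd h1 with h2 | h2
    · exact hg (Ideal.mem_of_dvd _ (hw.dvd_of_dvd_pow h2) hw𝔪)
    · exact hx' h2
  have hD0 : intDiscr P B x ≠ 0 := fun h => hwD (h ▸ dvd_zero w)
  have hmkD0 : Ideal.Quotient.mk (Ideal.span {w}) (intDiscr P B x) ≠ 0 := by
    intro h
    exact hwD (Ideal.mem_span_singleton.mp (Ideal.Quotient.eq_zero_iff_mem.mp h))
  have hdisc0 : Algebra.discr (P ⧸ Ideal.span {w}) bb ≠ 0 := by
    intro h
    rw [h, mul_zero] at hD
    exact hmkD0 hD
  refine ⟨hdisc0, ?_⟩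
  have hmku : ¬ t ∣ Ideal.Quotient.mk (Ideal.span {w}) u := by
    intro h
    apply hu
    rw [mem_span_pair_iff_mk_dvd]
    exact hqt.dvd.trans h
  -- unramified primes through the closed point do not divide `D`
  have hunram : ∀ π : P, Prime π → π ∈ Ideal.span {w, q} → ¬ Associated π w →
      (∀ s ∈ S, ¬ Associated π s) → ¬ π ∣ intDiscr P B x := by
    intro π hπ hπ𝔪 hπw hπS
    have hrad := hNC π hπ hπw hπS
    have hxπ : IsLocalBasis P B (Ideal.span {π}) n x :=
      IsLocalBasis.mono ((Ideal.span_singleton_le_iff_mem _).mpr hπ𝔪) hx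
    have := hA5 P w hw hΛ₀ hℚ B π hπ hπw n x hxπ n x
      (fun a ha i => IsLocalBasis.dvd_coeff hx hπ hπ𝔪 a (hrad.radical ▸ ha) i)
    simpa using this
  rcases hqcase with hqS | hnoS
  · -- Case 1: the closed point is a branch point `q ∈ S`
    obtain ⟨hqprime, hqw, -, hqPID⟩ := hS1 q hqS
    obtain ⟨a, D₁, hDeq, hD₁⟩ := hA4 P (Ideal.span {w, q}) q hqprime (intDiscr P B x) hD0 (by
      intro π hπ hπD hπ𝔪
      by_contra hne
      refine hunram π hπ hπ𝔪 ?_ ?_ hπD
      · intro hπw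
        exact hwD (hπw.symm.dvd.trans hπD)
      · intro s hs hπs
        have hs𝔪 : s ∈ Ideal.span {w, q} := Ideal.mem_of_dvd _ hπs.dvd hπ𝔪
        by_cases hsq : q = s
        · subst hsq; exact hne hπs
        · exact hS2 q hqS s hs hsq hs𝔪)
    obtain ⟨r, y, hyi, hys⟩ := hA5' P B q hqprime hqPID
    have hxq : IsLocalBasis P B (Ideal.span {q}) n x :=
      IsLocalBasis.mono ((Ideal.span_singleton_le_iff_mem _).mpr (Ideal.subset_span (by simp))) hx
    have hnd := hA5 P w hw hΛ₀ hℚ B q hqprime hqw n x hxq r y hyi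
    have ha : a < n - r + 1 := by
      by_contra hcon
      push_neg at hcon
      apply hnd
      rw [hDeq]
      exact Dvd.dvd.mul_right (pow_dvd_pow q hcon) _
    refine ⟨r, fun i => Ideal.Quotient.mk _ (y i), ?_, ?_⟩
    · intro c
      obtain ⟨c, rfl⟩ := Ideal.Quotient.mk_surjective c
      obtain ⟨a', ha'⟩ := hys c
      refine ⟨fun i => Ideal.Quotient.mk _ (a' i), ?_⟩
      refine mk_sub_sum_mem_radical w y q t hqt c a' ?_
      refine Ideal.radical_mono ?_ ha'
      rw [Ideal.span_le]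
      intro z hz
      rw [Set.mem_singleton_iff] at hz; subst hz
      exact Ideal.subset_span (by simp)
    · intro hdvd
      have h1 : Ideal.Quotient.mk (Ideal.span {w}) q ^ (n - r + 1) ∣
          Ideal.Quotient.mk (Ideal.span {w}) (intDiscr P B x) := by
        rw [hD]
        exact Dvd.dvd.mul_left ((hqt.pow_pow.dvd).trans hdvd) _
      rw [hDeq, map_mul, map_pow] at h1
      have h2 : Ideal.Quotient.mk (Ideal.span {w}) q ^ (a + 1) ∣
          Ideal.Quotient.mk (Ideal.span {w}) q ^ a * Ideal.Quotient.mk (Ideal.span {w}) D₁ :=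
        (pow_dvd_pow _ (by omega)).trans h1
      rw [pow_succ, mul_dvd_mul_iff_left (pow_ne_zero _ hmkq_prime.ne_zero)] at h2
      exact hD₁ ((mem_span_pair_iff_mk_dvd w q D₁).mpr h2)
  · -- Case 2: no branch point at this closed point
    have hnoS' : ∀ s ∈ S, s ∉ Ideal.span {w, q} := hq𝔪 ▸ hnoS
    obtain ⟨a, D₁, hDeq, hD₁⟩ := hA4 P (Ideal.span {w, q}) w hw (intDiscr P B x) hD0 (by
      intro π hπ hπD hπ𝔪
      by_contra hne
      refine hunram π hπ hπ𝔪 hne ?_ hπD
      intro s hs hπs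
      exact hnoS' s hs (Ideal.mem_of_dvd _ hπs.dvd hπ𝔪))
    have ha0 : a = 0 := by
      by_contra h
      apply hwD
      rw [hDeq]
      exact Dvd.dvd.mul_right (dvd_pow_self w h) _
    subst ha0
    rw [pow_zero, one_mul] at hDeq
    obtain ⟨hli, g, hg, hsp⟩ := hx
    -- inverse of `g` modulo the maximal ideal
    obtain ⟨g', hg'⟩ : ∃ g', g * g' - 1 ∈ Ideal.span {w, q} := by
      have := h𝔪max.exists_inv hg
      obtain ⟨g', m, hm, hgm⟩ := this
      refine ⟨g', ?_⟩
      have : g * g' - 1 = -m := by linear_combination hgm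
      rw [this]; exact neg_mem hm
    refine ⟨n, fun i => Ideal.Quotient.mk _ (x i), ?_, ?_⟩
    · intro c
      obtain ⟨c, rfl⟩ := Ideal.Quotient.mk_surjective c
      have hgc := hsp c
      rw [Submodule.mem_span_range_iff_exists_fun] at hgc
      obtain ⟨cf, hcf⟩ := hgc
      refine ⟨fun i => Ideal.Quotient.mk _ (g' * cf i), ?_⟩
      refine mk_sub_sum_mem_radical w x q t hqt c (fun i => g' * cf i) ?_
      apply Ideal.le_radical
      have e : c - ∑ i, (g' * cf i) • x i = algebraMap P B (-(g * g' - 1)) * c := by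
        have : ∑ i, (g' * cf i) • x i = g' • (g • c) := by
          rw [← hcf, Finset.smul_sum]
          exact Finset.sum_congr rfl fun i _ => by rw [mul_smul]
        rw [this, Algebra.smul_def, Algebra.smul_def, map_neg, map_sub, map_mul, map_one]
        ring
      rw [e]
      refine Ideal.mul_mem_right _ _ ?_
      have hmap : Ideal.map (algebraMap P B) (Ideal.span {w, q})
          = Ideal.span {algebraMap P B w, algebraMap P B q} := by
        rw [Ideal.map_span]; congr 1; simp [Set.image_pair]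
      rw [← hmap]
      exact Ideal.mem_map_of_mem _ (neg_mem hg')
    · intro hdvd
      have hnn : n - n + 1 = 1 := by omega
      rw [hnn, pow_one] at hdvd
      have h1 : t ∣ Ideal.Quotient.mk (Ideal.span {w}) (intDiscr P B x) := by
        rw [hD]; exact Dvd.dvd.mul_left hdvd _
      apply hD₁
      rw [← hDeq, mem_span_pair_iff_mk_dvd]
      exact hqt.dvd.trans h1

end Fermat.Agent.S18.B12.H33

end
end
-- ===== PACK-END S18/B12/H33/CoreMain.lean

-- ===== PACK-BEGIN S18/B12/H33/Regular.lean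
section



/-!
# S18 b2.5 (helper33): OUTPUT O1 — `B2RegularStatement` from the pieces

`B2RegularStatement` (special fibre of the normal model is regular = `H754.RegularAlong (C w)`)
from `B2CoreAbsStatement` (heart), A0 (regular sequence), A8 (normality from discriminant bounds),
A9 (regular along a Dedekind fibre) and A1 (instantiation `P = R[X]`).
-/

set_option autoImplicit false

noncomputable section

namespace Fermat.Agent.S18.B12.H33

open Polynomial

universe u v

section Abs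

variable {P : Type u} [CommRing P] [IsDomain P] [IsIntegrallyClosed P]
  {B : Type v} [CommRing B] [IsDomain B] [IsIntegrallyClosed B] [Algebra P B]
  [Module.Finite P B] [Module.IsTorsionFree P B]

/-- `B/wB` is torsion-free over `P/(w)` (from A0). -/
theorem isTorsionFree_quotient (hA0 : RegSeqAbsStatement.{u, v}) (w : P) (hw : Prime w) :
    Module.IsTorsionFree (P ⧸ Ideal.span {w}) (B ⧸ (Ideal.span {w}).map (algebraMap P B)) := by
  haveI : IsDomain (P ⧸ Ideal.span {w}) := by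
    rw [Ideal.Quotient.isDomain_iff_prime]
    exact (Ideal.span_singleton_prime hw.ne_zero).mpr hw
  haveI : Algebra.IsIntegral P B := inferInstance
  have hJ : (Ideal.span {w}).map (algebraMap P B) = Ideal.span {algebraMap P B w} := by
    rw [Ideal.map_span, Set.image_singleton]
  refine Module.IsTorsionFree.of_smul_eq_zero fun a b hab => ?_
  obtain ⟨a, rfl⟩ := Ideal.Quotient.mk_surjective a
  obtain ⟨b, rfl⟩ := Ideal.Quotient.mk_surjective b
  by_cases ha : w ∣ a
  · left
    exact Ideal.Quotient.eq_zero_iff_mem.mpr (Ideal.mem_span_singleton.mpr ha)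
  · right
    rw [Ideal.Quotient.mk_smul_mk_quotient_map_quotient, Ideal.Quotient.eq_zero_iff_mem, hJ,
      Ideal.mem_span_singleton] at hab
    obtain ⟨c, hc⟩ := hab
    obtain ⟨b'', hb, -⟩ := hA0 P B a w hw ha b c hc
    rw [Ideal.Quotient.eq_zero_iff_mem, hJ, Ideal.mem_span_singleton]
    exact ⟨b'', hb⟩

end Abs

end Fermat.Agent.S18.B12.H33

namespace Fermat.Agent.S18.B12.H33

open Polynomial

universe u v

/-- In `P/(w)`, the image of `p` is prime if `(w, p)` is maximal and `w ∤ p`. -/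
theorem prime_mk_of_isMaximal {P : Type u} [CommRing P] [IsDomain P] (w p : P) (hw : Prime w)
    (hmax : (Ideal.span {w, p}).IsMaximal) (hwp : ¬ w ∣ p) :
    Prime (Ideal.Quotient.mk (Ideal.span {w}) p) := by
  haveI : IsDomain (P ⧸ Ideal.span {w}) := by
    rw [Ideal.Quotient.isDomain_iff_prime]
    exact (Ideal.span_singleton_prime hw.ne_zero).mpr hw
  have hne : Ideal.Quotient.mk (Ideal.span {w}) p ≠ 0 := by
    intro h
    exact hwp (Ideal.mem_span_singleton.mp (Ideal.Quotient.eq_zero_iff_mem.mp h))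
  rw [← Ideal.span_singleton_prime hne]
  have hcomap : Ideal.comap (Ideal.Quotient.mk (Ideal.span {w}))
      (Ideal.span {Ideal.Quotient.mk (Ideal.span {w}) p}) = Ideal.span {w, p} :=
    (span_pair_eq_comap w p).symm
  have hmap : Ideal.span {Ideal.Quotient.mk (Ideal.span {w}) p}
      = Ideal.map (Ideal.Quotient.mk (Ideal.span {w})) (Ideal.span {w, p}) := by
    rw [← hcomap, Ideal.map_comap_of_surjective _ Ideal.Quotient.mk_surjective]
  rw [hmap]
  rcases Ideal.map_eq_top_or_isMaximal_of_surjective (Ideal.Quotient.mk (Ideal.span {w}))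
    Ideal.Quotient.mk_surjective hmax with h | h
  · exfalso
    rw [← hmap] at h
    have : Ideal.span {w, p} = ⊤ := by
      rw [← hcomap, h, Ideal.comap_top]
    exact hmax.ne_top this
  · exact h.isPrime

theorem b2Regular_of_pieces
    (hcore : B2CoreAbsStatement.{u, v}) (hA0 : RegSeqAbsStatement.{u, v})
    (hA8 : IntClosedOfDiscrStatement.{u, v}) (hA9 : RegularAlongOfDedekindStatement.{v})
    (hA1 : PolyInstStatement.{u}) : B2RegularStatement.{u, v} := by
  intro R _ _ _ _ w hw B _ _ _ _ _ _ hdom hsep S hS hNC 𝔪 h𝔪 hw𝔪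
  obtain ⟨hCw, hΛ, hΛ₀, hℚ, hc⟩ := hA1 R w hw
  refine hA9 B (algebraMap R[X] B (C w)) ?_ 𝔪 h𝔪 hw𝔪
  have hJ : (Ideal.span {(C w : R[X])}).map (algebraMap R[X] B)
      = Ideal.span {algebraMap R[X] B (C w)} := by
    rw [Ideal.map_span, Set.image_singleton]
  rw [← hJ]
  -- instances on the special fibre
  haveI hJprime : ((Ideal.span {(C w : R[X])}).map (algebraMap R[X] B)).IsPrime := by
    rw [hJ]; exact (Ideal.span_singleton_prime hdom.ne_zero).mpr hdom
  haveI := hΛ
  haveI : IsDomain (R[X] ⧸ Ideal.span {(C w : R[X])}) := by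
    rw [Ideal.Quotient.isDomain_iff_prime]
    exact (Ideal.span_singleton_prime hCw.ne_zero).mpr hCw
  haveI tf := isTorsionFree_quotient (B := B) hA0 (C w : R[X]) hCw
  haveI : Module.Finite (R[X] ⧸ Ideal.span {(C w : R[X])})
      (B ⧸ (Ideal.span {(C w : R[X])}).map (algebraMap R[X] B)) :=
    Module.Finite.of_restrictScalars_finite R[X] _ _
  haveI : Module.Free (R[X] ⧸ Ideal.span {(C w : R[X])})
      (B ⧸ (Ideal.span {(C w : R[X])}).map (algebraMap R[X] B)) :=
    Module.free_of_finite_type_torsion_free'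
  let bb := Module.finBasis (R[X] ⧸ Ideal.span {(C w : R[X])})
      (B ⧸ (Ideal.span {(C w : R[X])}).map (algebraMap R[X] B))
  -- translate the hypotheses
  classical
  have hS1' : ∀ s ∈ S.image (fun c => (X - C c : R[X])), Prime s ∧ ¬ Associated s (C w) ∧
      (Ideal.span {(C w : R[X]), s}).IsMaximal ∧
      IsPrincipalIdealRing (R[X] ⧸ Ideal.span {s}) := by
    intro s hs
    obtain ⟨c, -, rfl⟩ := Finset.mem_image.mp hs
    obtain ⟨h1, h2, h3, h4, -⟩ := hc c
    exact ⟨h1, h2, h3, h4⟩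
  have hS2' : ∀ s ∈ S.image (fun c => (X - C c : R[X])),
      ∀ s' ∈ S.image (fun c => (X - C c : R[X])), s ≠ s' →
      s' ∉ Ideal.span {(C w : R[X]), s} := by
    intro s hs s' hs' hne hmem
    obtain ⟨c, hcS, rfl⟩ := Finset.mem_image.mp hs
    obtain ⟨c', hcS', rfl⟩ := Finset.mem_image.mp hs'
    have hcc : c ≠ c' := fun h => hne (by rw [h])
    exact (hc c).2.2.2.2 c' hmem (hS c hcS c' hcS' hcc)
  have hNC' : ∀ π : R[X], Prime π → ¬ Associated π (C w) →
      (∀ s ∈ S.image (fun c => (X - C c : R[X])), ¬ Associated π s) →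
      (Ideal.span {algebraMap R[X] B π}).IsRadical := by
    intro π hπ hπw hπS
    exact hNC π hπ hπw (fun c hcS => hπS _ (Finset.mem_image_of_mem _ hcS))
  have hcore' := hcore R[X] (C w) hCw hΛ hΛ₀ hℚ B hsep (S.image (fun c => (X - C c : R[X])))
    hS1' hS2' hNC'
  -- a prime of `Λ`
  obtain ⟨h01, h02, h03, -, -⟩ := hc 0
  have hw0 : ¬ (C w : R[X]) ∣ X - C 0 := by
    intro hdvd
    obtain ⟨r, hr⟩ := hdvd
    rcases h01.irreducible.isUnit_or_isUnit hr with h | h
    · exact hCw.not_unit h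
    · exact h02 ⟨h.unit⁻¹, by rw [hr, mul_assoc, IsUnit.mul_val_inv, mul_one]⟩
  have ht₀ := prime_mk_of_isMaximal (C w : R[X]) (X - C 0) hCw h03 hw0
  have hdisc := (hcore' _ ht₀ _ bb).1
  haveI : IsIntegrallyClosed (B ⧸ (Ideal.span {(C w : R[X])}).map (algebraMap R[X] B)) :=
    hA8 _ _ _ bb hdisc (fun t ht => (hcore' t ht _ bb).2)
  haveI : IsNoetherianRing B :=
    isNoetherian_of_tower R[X] (isNoetherian_of_isNoetherianRing_of_finite R[X] B)
  haveI : Ring.DimensionLEOne (B ⧸ (Ideal.span {(C w : R[X])}).map (algebraMap R[X] B)) :=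
    Ring.DimensionLEOne.of_isIntegral (R[X] ⧸ Ideal.span {(C w : R[X])}) _
  exact { }

end Fermat.Agent.S18.B12.H33

end
end
-- ===== PACK-END S18/B12/H33/Regular.lean

-- ===== PACK-BEGIN S18/B12/H638/Normal.lean
section



/-!
# S18 b2 (helper638): FULL NORMALITY of the special fibre — `B2NormalDomStatement`

Requested by row S37 (helper37, `coord/S37-b2-request.md`): hypothesis (H3) `lift_fin`/`lift_inf`
of the S37 reduction datum needs b2 for ALL integral elements of `Frac (B/wB)`, not only for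
idempotents.

* `H638.B2NormalDomStatement` : the requested statement `B2NormalStatement`, with the extra hypothesis
  `hdom : Prime (algebraMap R[X] B (C w))` (the special fibre is a domain; in the application
  `B/wB` embeds into `κ((q))` by the `q`-expansion principle).
* `B2IntClosedStatement` : same hypotheses, conclusion `IsIntegrallyClosed (B/wB)`.
* `b2IntClosed_of_pieces`, `b2NormalDom_of_pieces` : both from the frozen pieces
  `B2CoreAbsStatement` (A6'), `RegSeqAbsStatement` (A0), `IntClosedOfDiscrStatement` (A8),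
  `PolyInstStatement` (A1) of `B12/Spec*.lean`.
* `b2NormalDom_of_intClosed` : the pure algebra step (no pieces): in a domain `B` with `w` prime and
  `B/wB` integrally closed, `b/g` integral over `B/wB` implies `b ≡ g b₀ mod w`.
-/

set_option autoImplicit false
set_option linter.style.haveILetI false

noncomputable section

namespace Fermat.Agent.S18.B12.H638

open Polynomial

universe u v

/-- **b2, integrally closed form.**  Hypotheses of `B2RegularStatement`; conclusion: the special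
fibre `B/wB` is an integrally closed domain. -/
def B2IntClosedStatement : Prop :=
  ∀ (R : Type u) [CommRing R] [IsDomain R] [IsDiscreteValuationRing R] [CharZero R]
    (w : R) (_ : Irreducible w)
    (B : Type v) [CommRing B] [IsDomain B] [IsIntegrallyClosed B] [Algebra R[X] B]
    [Module.Finite R[X] B] [Module.IsTorsionFree R[X] B]
    (_ : Prime (algebraMap R[X] B (C w)))
    (_ : ∃ x : Fin (Module.finrank R[X] B) → B,
        ¬ C w ∣ (Matrix.of fun i j => Algebra.intTrace R[X] B (x i * x j)).det)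
    (S : Finset R) (_ : ∀ c ∈ S, ∀ c' ∈ S, c ≠ c' → IsUnit (c - c'))
    (_ : ∀ π : R[X], Prime π → ¬ Associated π (C w) → (∀ c ∈ S, ¬ Associated π (X - C c)) →
        (Ideal.span {algebraMap R[X] B π}).IsRadical),
    IsIntegrallyClosed (B ⧸ Ideal.span {algebraMap R[X] B (C w)})

/-- **b2, full normality form (domain case).**  `B2NormalStatement` of
`origin/helper37:coord/S37-b2-request.md` with the extra hypothesis that `w` is prime in `B`:
if `ε = b/g` satisfies `ε^d + Σ a_i ε^i = 0` in `Frac (B/wB)` then `ε ∈ B/wB`. -/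
def B2NormalDomStatement : Prop :=
  ∀ (R : Type u) [CommRing R] [IsDomain R] [IsDiscreteValuationRing R] [CharZero R]
    (w : R) (_ : Irreducible w)
    (B : Type v) [CommRing B] [IsDomain B] [IsIntegrallyClosed B] [Algebra R[X] B]
    [Module.Finite R[X] B] [Module.IsTorsionFree R[X] B]
    (_ : Prime (algebraMap R[X] B (C w)))
    (_ : ∃ x : Fin (Module.finrank R[X] B) → B,
        ¬ C w ∣ (Matrix.of fun i j => Algebra.intTrace R[X] B (x i * x j)).det)
    (S : Finset R) (_ : ∀ c ∈ S, ∀ c' ∈ S, c ≠ c' → IsUnit (c - c'))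
    (_ : ∀ π : R[X], Prime π → ¬ Associated π (C w) → (∀ c ∈ S, ¬ Associated π (X - C c)) →
        (Ideal.span {algebraMap R[X] B π}).IsRadical)
    (b : B) (g : R[X]), ¬ C w ∣ g →
    (∃ (d : ℕ) (a : Fin d → B),
        b ^ d + ∑ i : Fin d, a i * b ^ (i : ℕ) * algebraMap R[X] B g ^ (d - (i : ℕ)) ∈
          Ideal.span {algebraMap R[X] B (C w)}) →
      ∃ b₀ : B, b - algebraMap R[X] B g * b₀ ∈ Ideal.span {algebraMap R[X] B (C w)}


/-- In a torsion-free integral extension `B` of an integrally closed domain `P`, divisibility of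
elements of `P` can be tested in `B`. -/
theorem dvd_of_algebraMap_dvd {P : Type u} {B : Type v} [CommRing P] [IsDomain P]
    [IsIntegrallyClosed P] [CommRing B] [IsDomain B] [Algebra P B] [Algebra.IsIntegral P B]
    [Module.IsTorsionFree P B] (w g : P) (hw : w ≠ 0)
    (h : algebraMap P B w ∣ algebraMap P B g) : w ∣ g := by
  obtain ⟨c, hc⟩ := h
  have hinj : Function.Injective (algebraMap P B) := FaithfulSMul.algebraMap_injective P B
  let K := FractionRing P
  let L := FractionRing B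
  have hinjL : Function.Injective (algebraMap P L) := by
    rw [IsScalarTower.algebraMap_eq P B L]
    exact (IsFractionRing.injective B L).comp hinj
  haveI : FaithfulSMul P L := (faithfulSMul_iff_algebraMap_injective P L).mpr hinjL
  letI : Algebra K L := FractionRing.liftAlgebra P L
  haveI : IsScalarTower P K L := FractionRing.isScalarTower_liftAlgebra P L
  have hwK : algebraMap P K w ≠ 0 := by
    intro h0
    exact hw ((IsFractionRing.injective P K) (by rw [h0, map_zero]))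
  set k : K := algebraMap P K g / algebraMap P K w with hk
  have hkL : algebraMap K L k = algebraMap B L c := by
    have hwL : algebraMap K L (algebraMap P K w) ≠ 0 := by
      intro h0
      exact hwK ((algebraMap K L).injective (by rw [h0, map_zero]))
    rw [hk, map_div₀, div_eq_iff hwL, ← IsScalarTower.algebraMap_apply P K L,
      ← IsScalarTower.algebraMap_apply P K L, IsScalarTower.algebraMap_apply P B L g, hc,
      map_mul, IsScalarTower.algebraMap_apply P B L w, mul_comm]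
  have hint : IsIntegral P k := by
    have h1 : IsIntegral P (algebraMap B L c) :=
      (Algebra.IsIntegral.isIntegral (R := P) c).algebraMap
    rw [← hkL] at h1
    exact (isIntegral_algebraMap_iff (algebraMap K L).injective).mp h1
  obtain ⟨y, hy⟩ := (IsIntegrallyClosed.isIntegral_iff (R := P) (K := K)).mp hint
  refine ⟨y, ?_⟩
  apply IsFractionRing.injective P K
  rw [map_mul, hy, hk, mul_div_cancel₀ _ hwK]

/-- **Pure algebra step.**  `B` a commutative ring, `ϖ ∈ B` prime with `B/ϖB` integrally closed,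
`γ ∉ ϖB`.  If `b^d + Σ_{i<d} a_i b^i γ^(d-i) ∈ ϖB` then `b ≡ γ b₀ mod ϖ` for some `b₀`. -/
theorem exists_sub_mul_mem_of_isIntegrallyClosed {B : Type v} [CommRing B] (ϖ : B)
    (hϖ : Prime ϖ) [IsIntegrallyClosed (B ⧸ Ideal.span {ϖ})] (b γ : B)
    (hγ : γ ∉ Ideal.span {ϖ}) (d : ℕ) (a : Fin d → B)
    (h : b ^ d + ∑ i : Fin d, a i * b ^ (i : ℕ) * γ ^ (d - (i : ℕ)) ∈ Ideal.span {ϖ}) :
    ∃ b₀ : B, b - γ * b₀ ∈ Ideal.span {ϖ} := by
  haveI hprime : (Ideal.span {ϖ}).IsPrime := (Ideal.span_singleton_prime hϖ.ne_zero).mpr hϖ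
  haveI : IsDomain (B ⧸ Ideal.span {ϖ}) := Ideal.Quotient.isDomain _
  set Cq := B ⧸ Ideal.span {ϖ} with hCq
  set K := FractionRing Cq with hK
  let mk : B →+* Cq := Ideal.Quotient.mk _
  have hγ0 : mk γ ≠ 0 := fun h0 => hγ (Ideal.Quotient.eq_zero_iff_mem.mp h0)
  have hγK : algebraMap Cq K (mk γ) ≠ 0 := by
    intro h0
    exact hγ0 ((IsFractionRing.injective Cq K) (by rw [h0, map_zero]))
  -- the equation in `Cq`
  have heq : mk b ^ d + ∑ i : Fin d, mk (a i) * mk b ^ (i : ℕ) * mk γ ^ (d - (i : ℕ)) = 0 := by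
    have := Ideal.Quotient.eq_zero_iff_mem.mpr h
    simpa [map_add, map_sum, map_mul, map_pow] using this
  -- the monic polynomial
  let p : Cq[X] := X ^ d + ∑ i : Fin d, C (mk (a i)) * X ^ (i : ℕ)
  have hlt : (∑ i : Fin d, C (mk (a i)) * X ^ (i : ℕ) : Cq[X]).degree < (d : WithBot ℕ) :=
    Polynomial.degree_sum_fin_lt fun i => mk (a i)
  have hmonic : p.Monic := Polynomial.monic_X_pow_add hlt
  set ε : K := algebraMap Cq K (mk b) / algebraMap Cq K (mk γ) with hε
  have hroot : Polynomial.eval₂ (algebraMap Cq K) ε p = 0 := by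
    have h1 := congrArg (algebraMap Cq K) heq
    simp only [map_add, map_sum, map_mul, map_pow, map_zero] at h1
    have hb : algebraMap Cq K (mk b) = ε * algebraMap Cq K (mk γ) := by
      rw [hε, div_mul_cancel₀ _ hγK]
    simp only [p, Polynomial.eval₂_add, Polynomial.eval₂_pow, Polynomial.eval₂_X,
      Polynomial.eval₂_finsetSum, Polynomial.eval₂_mul, Polynomial.eval₂_C]
    have hgd : (algebraMap Cq K (mk γ)) ^ d ≠ 0 := pow_ne_zero _ hγK
    apply mul_right_cancel₀ hgd
    rw [zero_mul, add_mul, Finset.sum_mul, ← h1, hb]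
    congr 1
    · rw [mul_pow]
    · refine Finset.sum_congr rfl fun i _ => ?_
      have hi : (i : ℕ) + (d - (i : ℕ)) = d := Nat.add_sub_cancel' i.2.le
      calc algebraMap Cq K (mk (a i)) * ε ^ (i : ℕ) * algebraMap Cq K (mk γ) ^ d
          = algebraMap Cq K (mk (a i)) * ε ^ (i : ℕ) *
              (algebraMap Cq K (mk γ) ^ (i : ℕ) * algebraMap Cq K (mk γ) ^ (d - (i : ℕ))) := by
            rw [← pow_add, hi]
        _ = algebraMap Cq K (mk (a i)) * (ε * algebraMap Cq K (mk γ)) ^ (i : ℕ) *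
              algebraMap Cq K (mk γ) ^ (d - (i : ℕ)) := by
            rw [mul_pow]; ring
  have hint : IsIntegral Cq ε := ⟨p, hmonic, hroot⟩
  obtain ⟨c, hc⟩ := (IsIntegrallyClosed.isIntegral_iff (R := Cq) (K := K)).mp hint
  obtain ⟨b₀, rfl⟩ := Ideal.Quotient.mk_surjective c
  refine ⟨b₀, ?_⟩
  rw [← Ideal.Quotient.eq_zero_iff_mem, map_sub, map_mul, sub_eq_zero]
  apply IsFractionRing.injective Cq K
  rw [map_mul]
  change algebraMap Cq K (mk b) = algebraMap Cq K (mk γ) * algebraMap Cq K (mk b₀)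
  rw [hc, hε, mul_div_cancel₀ _ hγK]

/-- `B2IntClosedStatement` from the frozen pieces (first half of `H33.b2Regular_of_pieces`). -/
theorem b2IntClosed_of_pieces
    (hcore : B2CoreAbsStatement.{u, v}) (hA0 : RegSeqAbsStatement.{u, v})
    (hA8 : IntClosedOfDiscrStatement.{u, v}) (hA1 : PolyInstStatement.{u}) :
    B2IntClosedStatement.{u, v} := by
  intro R _ _ _ _ w hw B _ _ _ _ _ _ hdom hsep S hS hNC
  obtain ⟨hCw, hΛ, hΛ₀, hℚ, hc⟩ := hA1 R w hw
  have hJ : (Ideal.span {(C w : R[X])}).map (algebraMap R[X] B)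
      = Ideal.span {algebraMap R[X] B (C w)} := by
    rw [Ideal.map_span, Set.image_singleton]
  rw [← hJ]
  -- instances on the special fibre
  haveI hJprime : ((Ideal.span {(C w : R[X])}).map (algebraMap R[X] B)).IsPrime := by
    rw [hJ]; exact (Ideal.span_singleton_prime hdom.ne_zero).mpr hdom
  haveI := hΛ
  haveI : IsDomain (R[X] ⧸ Ideal.span {(C w : R[X])}) := by
    rw [Ideal.Quotient.isDomain_iff_prime]
    exact (Ideal.span_singleton_prime hCw.ne_zero).mpr hCw
  haveI tf := H33.isTorsionFree_quotient (B := B) hA0 (C w : R[X]) hCw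
  haveI : Module.Finite (R[X] ⧸ Ideal.span {(C w : R[X])})
      (B ⧸ (Ideal.span {(C w : R[X])}).map (algebraMap R[X] B)) :=
    Module.Finite.of_restrictScalars_finite R[X] _ _
  haveI : Module.Free (R[X] ⧸ Ideal.span {(C w : R[X])})
      (B ⧸ (Ideal.span {(C w : R[X])}).map (algebraMap R[X] B)) :=
    Module.free_of_finite_type_torsion_free'
  let bb := Module.finBasis (R[X] ⧸ Ideal.span {(C w : R[X])})
      (B ⧸ (Ideal.span {(C w : R[X])}).map (algebraMap R[X] B))
  -- translate the hypotheses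
  classical
  have hS1' : ∀ s ∈ S.image (fun c => (X - C c : R[X])), Prime s ∧ ¬ Associated s (C w) ∧
      (Ideal.span {(C w : R[X]), s}).IsMaximal ∧
      IsPrincipalIdealRing (R[X] ⧸ Ideal.span {s}) := by
    intro s hs
    obtain ⟨c, -, rfl⟩ := Finset.mem_image.mp hs
    obtain ⟨h1, h2, h3, h4, -⟩ := hc c
    exact ⟨h1, h2, h3, h4⟩
  have hS2' : ∀ s ∈ S.image (fun c => (X - C c : R[X])),
      ∀ s' ∈ S.image (fun c => (X - C c : R[X])), s ≠ s' →
      s' ∉ Ideal.span {(C w : R[X]), s} := by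
    intro s hs s' hs' hne hmem
    obtain ⟨c, hcS, rfl⟩ := Finset.mem_image.mp hs
    obtain ⟨c', hcS', rfl⟩ := Finset.mem_image.mp hs'
    have hcc : c ≠ c' := fun h => hne (by rw [h])
    exact (hc c).2.2.2.2 c' hmem (hS c hcS c' hcS' hcc)
  have hNC' : ∀ π : R[X], Prime π → ¬ Associated π (C w) →
      (∀ s ∈ S.image (fun c => (X - C c : R[X])), ¬ Associated π s) →
      (Ideal.span {algebraMap R[X] B π}).IsRadical := by
    intro π hπ hπw hπS
    exact hNC π hπ hπw (fun c hcS => hπS _ (Finset.mem_image_of_mem _ hcS))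
  have hcore' := hcore R[X] (C w) hCw hΛ hΛ₀ hℚ B hsep (S.image (fun c => (X - C c : R[X])))
    hS1' hS2' hNC'
  -- a prime of `Λ`
  obtain ⟨h01, h02, h03, -, -⟩ := hc 0
  have hw0 : ¬ (C w : R[X]) ∣ X - C 0 := by
    intro hdvd
    obtain ⟨r, hr⟩ := hdvd
    rcases h01.irreducible.isUnit_or_isUnit hr with h | h
    · exact hCw.not_isUnit h
    · exact h02 ⟨h.unit⁻¹, by rw [hr, mul_assoc, IsUnit.mul_val_inv, mul_one]⟩
  have ht₀ := H33.prime_mk_of_isMaximal (C w : R[X]) (X - C 0) hCw h03 hw0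
  have hdisc := (hcore' _ ht₀ _ bb).1
  exact hA8 _ _ _ bb hdisc (fun t ht => (hcore' t ht _ bb).2)

/-- `B2NormalDomStatement` from `B2IntClosedStatement` (pure algebra). -/
theorem b2NormalDom_of_intClosed (hIC : B2IntClosedStatement.{u, v}) :
    B2NormalDomStatement.{u, v} := by
  intro R _ _ _ _ w hw B _ _ _ _ _ _ hdom hsep S hS hNC b g hg hex
  obtain ⟨d, a, h⟩ := hex
  haveI := hIC R w hw B hdom hsep S hS hNC
  refine exists_sub_mul_mem_of_isIntegrallyClosed (algebraMap R[X] B (C w)) hdom b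
    (algebraMap R[X] B g) ?_ d a h
  -- `g ∉ wB` from `¬ C w ∣ g`: `B` is integrally closed, `g / w ∈ Frac R[X]` integral
  intro hmem
  haveI : IsIntegrallyClosed R[X] := inferInstance
  have hCw : (C w : R[X]) ≠ 0 := by
    rw [Ne, Polynomial.C_eq_zero]; exact hw.ne_zero
  exact hg (dvd_of_algebraMap_dvd (P := R[X]) (B := B) (C w) g hCw
    (Ideal.mem_span_singleton.mp hmem))

/-- **`B2NormalDomStatement` from the frozen pieces.** -/
theorem b2NormalDom_of_pieces
    (hcore : B2CoreAbsStatement.{u, v}) (hA0 : RegSeqAbsStatement.{u, v})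
    (hA8 : IntClosedOfDiscrStatement.{u, v}) (hA1 : PolyInstStatement.{u}) :
    B2NormalDomStatement.{u, v} :=
  b2NormalDom_of_intClosed (b2IntClosed_of_pieces hcore hA0 hA8 hA1)

end Fermat.Agent.S18.B12.H638

end
end
-- ===== PACK-END S18/B12/H638/Normal.lean

-- ===== PACK-BEGIN S18/Mod/H216/PartVj.lean
section


/-!
# S18 / MOD (helper216): G-V for the coordinate `j` — the fields that need no basis

For a uniformiser `w` (`PartR (Ec M E) (Rc M A E) w`):
`R_le_V`, `w_inv_not_mem_V`, `V_gen`, `gauss` for `V = Vc M A E`, `x = jOm M`.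
(`V_total` needs the S28 basis: see `Basis.lean`.)
-/

set_option autoImplicit false
set_option linter.unusedSectionVars false

noncomputable section

namespace Fermat.Agent.S18.Mod.H216

open ModularCurve AlgebraicCurve HahnSeries Polynomial Fermat.Agent.S18 Fermat.Agent.S18.Mod

variable (M : ℕ) (A : ValuationSubring Qb) (E : IntermediateField ℚ Qb)

/-! ### Units and non-units of `A` -/

theorem residue_eq_zero_of_inv_not_mem {c : Qb} (hc : c ∈ A) (hinv : c⁻¹ ∉ A) :
    IsLocalRing.residue ↥A ⟨c, hc⟩ = 0 := by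
  rw [IsLocalRing.residue_eq_zero_iff, IsLocalRing.mem_maximalIdeal, mem_nonunits_iff]
  rintro ⟨u, hu⟩
  apply hinv
  have h1 : (⟨c, hc⟩ : ↥A) * ((u⁻¹ : (↥A)ˣ) : ↥A) = 1 := by
    rw [← hu]
    exact u.mul_inv
  have h2 : c * ((((u⁻¹ : (↥A)ˣ) : ↥A) : Qb)) = 1 := congrArg Subtype.val h1
  have h3 : c⁻¹ = ((((u⁻¹ : (↥A)ˣ) : ↥A) : Qb)) := inv_eq_of_mul_eq_one_right h2
  rw [h3]
  exact SetLike.coe_mem _

theorem residue_ne_zero_of_inv_mem {c : Qb} (hc : c ∈ A) (hc0 : c ≠ 0) (hinv : c⁻¹ ∈ A) :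
    IsLocalRing.residue ↥A ⟨c, hc⟩ ≠ 0 := by
  rw [Ne, IsLocalRing.residue_eq_zero_iff, IsLocalRing.mem_maximalIdeal, mem_nonunits_iff, not_not]
  exact IsUnit.of_mul_eq_one (⟨c⁻¹, hinv⟩ : ↥A) (Subtype.ext (mul_inv_cancel₀ hc0))

theorem inv_not_mem_of_residue_eq_zero {c : Qb} (hc : c ∈ A) (hc0 : c ≠ 0)
    (h : IsLocalRing.residue ↥A ⟨c, hc⟩ = 0) : c⁻¹ ∉ A :=
  fun hinv => residue_ne_zero_of_inv_mem A hc hc0 hinv h

/-! ### Constants -/

theorem algebraMap_mem_Rc_iff {c : Qb} : algebraMap Qb (Om M) c ∈ Rc M A E ↔ c ∈ A ∧ c ∈ E := by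
  constructor
  · intro h
    obtain ⟨c', hA, hE, hcc⟩ := (mem_Rc_iff M A E).mp h
    have : c' = c := (algebraMap Qb (Om M)).injective hcc
    exact this ▸ ⟨hA, hE⟩
  · rintro ⟨hA, hE⟩
    exact (mem_Rc_iff M A E).mpr ⟨c, hA, hE, rfl⟩

/-- The uniformiser data extracted from `PartR`. -/
theorem exists_unif {w : Om M} (hR : PartR (Ec M E) (Rc M A E) w) :
    ∃ c : Qb, c ∈ A ∧ c ∈ E ∧ c ≠ 0 ∧ c⁻¹ ∉ A ∧ algebraMap Qb (Om M) c = w := by
  obtain ⟨c, hA, hE, rfl⟩ := (mem_Rc_iff M A E).mp hR.w_mem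
  refine ⟨c, hA, hE, ?_, ?_, rfl⟩
  · intro h0
    apply hR.w_ne_zero
    rw [h0, map_zero]
  · intro hinv
    apply hR.w_inv_not_mem
    rw [← map_inv₀]
    exact (algebraMap_mem_Rc_iff M A E).mpr ⟨hinv, inv_mem hE⟩

theorem R_le_V : Rc M A E ≤ Vc M A E := by
  intro r hr
  obtain ⟨c, hA, hE, rfl⟩ := (mem_Rc_iff M A E).mp hr
  rw [← toOm_cInt M A E hA hE]
  exact toOm_mem_Vc M A E _

theorem w_inv_not_mem_V {w : Om M} (hR : PartR (Ec M E) (Rc M A E) w) : w⁻¹ ∉ Vc M A E := by
  obtain ⟨c, hA, hE, hc0, hcinv, rfl⟩ := exists_unif M A E hR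
  intro h
  obtain ⟨U₁, U₂, hne, heq⟩ := (mem_Vc_iff' M A E).mp h
  have hw0 : algebraMap Qb (Om M) c ≠ 0 := hR.w_ne_zero
  have h1 : toOm M A E U₂ = toOm M A E (cInt M A E hA hE * U₁) := by
    rw [map_mul, toOm_cInt, ← heq, ← mul_assoc, mul_inv_cancel₀ hw0, one_mul]
  have h2 : U₂ = cInt M A E hA hE * U₁ := toOm_injective M A E h1
  apply hne
  rw [h2, map_mul, redE_cInt, residue_eq_zero_of_inv_not_mem A hA hcinv, map_zero, zero_mul]

/-! ### Division of a series by the uniformiser -/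

open Classical in
/-- Coefficientwise division by `c` (junk value `0` when the quotient is not in `A`). -/
def divC (c : Qb) : ZeroHom ↥A ↥A where
  toFun a := if h : (a : Qb) * c⁻¹ ∈ A then ⟨(a : Qb) * c⁻¹, h⟩ else 0
  map_zero' := by
    have h : ((0 : ↥A) : Qb) * c⁻¹ ∈ A := by simp
    rw [dif_pos h]
    apply Subtype.ext
    simp

open Classical in
theorem divC_apply {c : Qb} {a : ↥A} (h : (a : Qb) * c⁻¹ ∈ A) :
    ((divC A c a : ↥A) : Qb) = (a : Qb) * c⁻¹ := by
  show ((if h : (a : Qb) * c⁻¹ ∈ A then (⟨(a : Qb) * c⁻¹, h⟩ : ↥A) else 0 : ↥A) : Qb) = _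
  rw [dif_pos h]

theorem algebraMap_LS_eq_C (c : Qb) :
    algebraMap Qb (LaurentSeries Qb) c = HahnSeries.C c := by
  rw [algebraMap_laurentSeries_eq_single, ← HahnSeries.C_apply]

/-- A series with zero reduction is divisible by the uniformiser inside `intE`. -/
theorem exists_eq_unif_mul {w : Om M} (hR : PartR (Ec M E) (Rc M A E) w)
    {U : ↥(intE M A E)} (hU : redE M A E U = 0) :
    ∃ U' : ↥(intE M A E), toOm M A E U = w * toOm M A E U' := by
  obtain ⟨c, hA, hE, hc0, hcinv, rfl⟩ := exists_unif M A E hR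
  have hUE : ∀ n, (((U : LaurentSeries ↥A).coeff n : ↥A) : Qb) ∈ E :=
    ((mem_intE M A E).mp U.2).1
  have hres : ∀ n, IsLocalRing.residue ↥A ((U : LaurentSeries ↥A).coeff n) = 0 := by
    intro n
    have := congrArg (fun z : LaurentSeries (IsLocalRing.ResidueField ↥A) => z.coeff n) hU
    simpa using this
  have hdiv : ∀ n, (((U : LaurentSeries ↥A).coeff n : ↥A) : Qb) * c⁻¹ ∈ A := by
    intro n
    set a := (U : LaurentSeries ↥A).coeff n with ha
    by_cases ha0 : (a : Qb) = 0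
    · rw [ha0, zero_mul]
      exact zero_mem _
    have hr : algebraMap Qb (Om M) (a : Qb) ∈ Rc M A E :=
      (algebraMap_mem_Rc_iff M A E).mpr ⟨a.2, hUE n⟩
    have hrinv : (algebraMap Qb (Om M) (a : Qb))⁻¹ ∉ Rc M A E := by
      rw [← map_inv₀, algebraMap_mem_Rc_iff]
      rintro ⟨h, -⟩
      exact inv_not_mem_of_residue_eq_zero A a.2 ha0 (hres n) h
    have := hR.w_gen _ hr hrinv
    rw [← map_inv₀, ← map_mul, algebraMap_mem_Rc_iff] at this
    exact this.1
  set U' : LaurentSeries ↥A := (U : LaurentSeries ↥A).map (divC A c) with hU'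
  have hcoeff : ∀ n, ((U'.coeff n : ↥A) : Qb) = (((U : LaurentSeries ↥A).coeff n : ↥A) : Qb) * c⁻¹ :=
    fun n => divC_apply A (hdiv n)
  have hmul : inclA A (U : LaurentSeries ↥A) = HahnSeries.C c * inclA A U' := by
    ext n
    rw [HahnSeries.C_mul_eq_smul, HahnSeries.coeff_smul]
    show (((U : LaurentSeries ↥A).coeff n : ↥A) : Qb) = c • ((U'.coeff n : ↥A) : Qb)
    rw [hcoeff, smul_eq_mul]
    field_simp
  have hw0 : algebraMap Qb (Om M) c ≠ 0 := hR.w_ne_zero
  have hincl : inclA A U' =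
      (((algebraMap Qb (Om M) c)⁻¹ * toOm M A E U : Om M) : LaurentSeries Qb) := by
    have hC0 : (HahnSeries.C c : LaurentSeries Qb) ≠ 0 := by
      rw [← coe_algebraMap_Om M c]
      exact fun h => hw0 (Subtype.ext h)
    push_cast
    rw [algebraMap_LS_eq_C, coe_toOm, hmul, ← mul_assoc, inv_mul_cancel₀ hC0, one_mul]
  have hmem : U' ∈ intE M A E := by
    rw [mem_intE]
    refine ⟨fun n => ?_, (algebraMap Qb (Om M) c)⁻¹ * toOm M A E U, ?_, hincl.symm⟩
    · rw [hcoeff]
      exact mul_mem (hUE n) (inv_mem hE)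
    · exact mul_mem (inv_mem (Ec_le_Fc M E ((mem_Ec_iff M E).mpr ⟨c, hE, rfl⟩)))
        (toOm_mem_Fc M A E U)
  refine ⟨⟨U', hmem⟩, ?_⟩
  apply Subtype.ext
  push_cast
  rw [algebraMap_LS_eq_C, coe_toOm, coe_toOm]
  exact hmul

theorem V_gen {w : Om M} (hR : PartR (Ec M E) (Rc M A E) w) :
    ∀ f ∈ Vc M A E, f⁻¹ ∉ Vc M A E → f * w⁻¹ ∈ Vc M A E := by
  intro f hf hfinv
  obtain ⟨U₁, U₂, hne, heq⟩ := (mem_Vc_iff' M A E).mp hf
  have hw0 := hR.w_ne_zero
  have h1 : redE M A E U₁ = 0 := by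
    by_contra h1
    apply hfinv
    have hU1 := toOm_ne_zero_of_redE M A E h1
    have hf0 : f ≠ 0 := by
      intro h0
      rw [h0, zero_mul] at heq
      exact hU1 heq.symm
    refine (mem_Vc_iff' M A E).mpr ⟨U₂, U₁, h1, ?_⟩
    rw [← heq, ← mul_assoc, inv_mul_cancel₀ hf0, one_mul]
  obtain ⟨U', hU'⟩ := exists_eq_unif_mul M A E hR h1
  refine (mem_Vc_iff' M A E).mpr ⟨U', U₂, hne, ?_⟩
  rw [mul_right_comm, heq, hU', mul_comm w, mul_assoc, mul_inv_cancel₀ hw0, mul_one]

/-! ### The Gauss property -/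

theorem gauss_j (P : Polynomial (Om M)) (hP : ∀ i, P.coeff i ∈ Rc M A E)
    (hu : ∃ i, P.coeff i ≠ 0 ∧ (P.coeff i)⁻¹ ∈ Rc M A E) :
    (P.eval (jOm M))⁻¹ ∈ Vc M A E := by
  have hlifts : P ∈ Polynomial.lifts (Rc M A E).subtype :=
    (Polynomial.lifts_iff_coeff_lifts P).mpr fun i => ⟨⟨P.coeff i, hP i⟩, rfl⟩
  obtain ⟨p, hp⟩ := (Polynomial.mem_lifts P).mp hlifts
  have hev : P.eval (jOm M) = evR (Rc M A E) (jOm M) p := by
    rw [← hp, evR_apply, Polynomial.eval_map]
  rw [hev, evR_eq_toOm_Uev]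
  apply inv_toOm_mem_Vc
  rw [Ne, redE_Uev_eq_zero_iff]
  obtain ⟨i, hi0, hiinv⟩ := hu
  intro h0
  have h1 := congrArg (fun q => q.coeff i) h0
  simp only [Polynomial.coeff_map, Polynomial.coeff_zero] at h1
  set c := (eRc M A E).symm (p.coeff i) with hc
  have hcP : algebraMap Qb (Om M) (c : Qb) = P.coeff i := by
    have h2 : ((eRc M A E c : ↥(Rc M A E)) : Om M) = ((p.coeff i : ↥(Rc M A E)) : Om M) := by
      rw [hc, RingEquiv.apply_symm_apply]
    rw [coe_eRc] at h2
    rw [h2, ← hp, Polynomial.coeff_map]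
    rfl
  have hc0 : (c : Qb) ≠ 0 := by
    intro h
    apply hi0
    rw [← hcP, h, map_zero]
  have hcinv : (c : Qb)⁻¹ ∈ A := by
    rw [← hcP, ← map_inv₀, algebraMap_mem_Rc_iff] at hiinv
    exact hiinv.1
  exact residue_ne_zero_of_inv_mem A c.2.1 hc0 hcinv h1

end Fermat.Agent.S18.Mod.H216

end
end
-- ===== PACK-END S18/Mod/H216/PartVj.lean

-- ===== PACK-BEGIN S18/Mod/H216/Basis.lean
section


/-!
# S18 / MOD (helper216): the S28 basis inside `Fc M E`

* `exists_Fc_of_full` (T0): `coeffEmb Q̄ z`, `z ∈ F_ℚ`, is the value of an element of `Fc M E`.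
* `exists_FE_of_Fc` (T1): every `f ∈ Fc M E` is the coefficientwise image of an element of
  `F_E := laurentBaseChange E (modularFunctionFieldFull M) ⊆ E((q))`.
* `yInt` : the S28 monomials as elements of `intE M A E`.
* `exists_scaled_relation` (B2): `q(j) f = ∑ pᵢ(j) yᵢ` with `q, pᵢ ∈ (A ∩ E)[X]`, jointly primitive.
* `redE_sum_eq_zero` (B3): independence of the reductions over `κ[j̄]`.
-/

set_option autoImplicit false
set_option linter.unusedSectionVars false

noncomputable section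

namespace Fermat.Agent.S18.Mod.H216

open ModularCurve AlgebraicCurve HahnSeries Polynomial Fermat.Agent.S18 Fermat.Agent.S18.Mod
open Fermat.Agent.S28

variable (M : ℕ) (A : ValuationSubring Qb) (E : IntermediateField ℚ Qb)

/-! ### T0, T1 -/

theorem coe_jd (d : ℕ) [NeZero d] (hd : d ∣ M) :
    ((jd M d hd : Om M) : LaurentSeries Qb) = coeffEmb Qb (qExpand ℚ d jq) := rfl

theorem jd_mem_Fc (d : ℕ) [NeZero d] (hd : d ∣ M) : jd M d hd ∈ Fc M E :=
  Subfield.subset_closure (Or.inr ⟨d, inferInstance, hd, rfl⟩)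

theorem coeffEmb_algebraMap (r : ℚ) :
    coeffEmb Qb (algebraMap ℚ (LaurentSeries ℚ) r) = HahnSeries.C (algebraMap ℚ Qb r) := by
  rw [algebraMap_laurentSeries_eq_single, coeffEmb, coeffMap_single, ← HahnSeries.C_apply]

/-- **T0.** -/
theorem exists_Fc_of_full {z : LaurentSeries ℚ} (hz : z ∈ modularFunctionFieldFull M) :
    ∃ f ∈ Fc M E, (f : LaurentSeries Qb) = coeffEmb Qb z := by
  have hle : Subfield.closure (Set.range (algebraMap ℚ (LaurentSeries ℚ)) ∪ divisorExpansions M) ≤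
      Subfield.comap (coeffEmb Qb) ((Fc M E).map (omVal M)) := by
    rw [Subfield.closure_le]
    rintro x (⟨r, rfl⟩ | ⟨d, hd, hdM, rfl⟩)
    · refine ⟨algebraMap Qb (Om M) (algebraMap ℚ Qb r), ?_, ?_⟩
      · exact Ec_le_Fc M E ((mem_Ec_iff M E).mpr ⟨_, E.algebraMap_mem r, rfl⟩)
      · rw [omVal_apply, coe_algebraMap_Om, coeffEmb_algebraMap]
    · haveI := hd
      exact ⟨jd M d hdM, jd_mem_Fc M E d hdM, rfl⟩
  obtain ⟨f, hf, hfz⟩ := hle hz
  exact ⟨f, hf, hfz⟩

/-- `E((q)) → Q̄((q))`. -/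
abbrev iotaE : LaurentSeries ↥E →+* LaurentSeries Qb := coeffMap (algebraMap ↥E Qb)

theorem iotaE_coeffEmb (z : LaurentSeries ℚ) : iotaE E (coeffEmb ↥E z) = coeffEmb Qb z := by
  rw [coeffEmb, coeffEmb, coeffMap_coeffMap]
  exact coeffMap_congr (RingHom.ext_rat _ _) z

theorem iotaE_algebraMap (c : ↥E) :
    iotaE E (algebraMap ↥E (LaurentSeries ↥E) c) = HahnSeries.C (c : Qb) := by
  rw [algebraMap_laurentSeries_eq_single, coeffMap_single, ← HahnSeries.C_apply]
  rfl

/-- **T1.** -/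
theorem exists_FE_of_Fc {f : Om M} (hf : f ∈ Fc M E) :
    ∃ g ∈ laurentBaseChange ↥E (modularFunctionFieldFull M), iotaE E g = (f : LaurentSeries Qb) := by
  have hle : Fc M E ≤ Subfield.comap (omVal M)
      ((laurentBaseChange ↥E (modularFunctionFieldFull M)).toSubfield.map (iotaE E)) := by
    rw [Fc, Subfield.closure_le]
    rintro x (hx | ⟨d, hd, hdM, rfl⟩)
    · obtain ⟨c, hc, rfl⟩ := (mem_Ec_iff M E).mp hx
      refine ⟨algebraMap ↥E (LaurentSeries ↥E) ⟨c, hc⟩, ?_, ?_⟩
      · exact (laurentBaseChange ↥E (modularFunctionFieldFull M)).algebraMap_mem _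
      · rw [omVal_apply, coe_algebraMap_Om]
        exact iotaE_algebraMap E ⟨c, hc⟩
    · haveI := hd
      refine ⟨coeffEmb ↥E (qExpand ℚ d jq), ?_, ?_⟩
      · exact coeffEmb_mem_laurentBaseChange ↥E (jqd_mem_full M hdM)
      · rw [omVal_apply, coe_jd]
        exact iotaE_coeffEmb E _
  obtain ⟨g, hg, hgf⟩ := hle hf
  exact ⟨g, hg, hgf⟩

/-! ### The monomials -/

variable {M} {n : ℕ} {y : Fin n → LaurentSeries ℤ}

theorem coeffMap_intCast_mem_intE [NeZero M] (hS : H516.SpansQ M y) (i : Fin n) :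
    coeffMap (Int.castRingHom ↥A) (y i) ∈ intE M A E := by
  rw [mem_intE]
  obtain ⟨f, hf, hfz⟩ := exists_Fc_of_full M E (H516.yQ_mem_full hS i)
  refine ⟨fun k => ?_, f, hf, ?_⟩
  · rw [coeffMap_coeff]
    simp only [eq_intCast, SubringClass.coe_intCast]
    exact intCast_mem E _
  · rw [hfz, ← H516.coeffMap_intCast_eq_coeffEmb, coeffMap_coeffMap]
    exact coeffMap_congr (RingHom.ext_int _ _) _

/-- The S28 monomials as integral series. -/
def yInt [NeZero M] (hS : H516.SpansQ M y) (i : Fin n) : ↥(intE M A E) :=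
  ⟨coeffMap (Int.castRingHom ↥A) (y i), coeffMap_intCast_mem_intE A E hS i⟩

theorem coe_toOm_yInt [NeZero M] (hS : H516.SpansQ M y) (i : Fin n) :
    ((toOm M A E (yInt A E hS i) : Om M) : LaurentSeries Qb) =
      coeffMap (Int.castRingHom Qb) (y i) := by
  rw [coe_toOm]
  show coeffMap A.subtype (coeffMap (Int.castRingHom ↥A) (y i)) = _
  rw [coeffMap_coeffMap]
  exact coeffMap_congr (RingHom.ext_int _ _) _

theorem redE_yInt [NeZero M] (hS : H516.SpansQ M y) (i : Fin n) :
    redE M A E (yInt A E hS i) =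
      coeffMap (Int.castRingHom (IsLocalRing.ResidueField ↥A)) (y i) := by
  show coeffMap (IsLocalRing.residue ↥A) (coeffMap (Int.castRingHom ↥A) (y i)) = _
  rw [coeffMap_coeffMap]
  exact coeffMap_congr (RingHom.ext_int _ _) _

/-- **(B3)** independence of the reductions over `κ[j̄]`. -/
theorem redE_sum_eq_zero [NeZero M] (hS : H516.SpansQ M y)
    (hli : LinearIndependent (jField (IsLocalRing.ResidueField ↥A))
      (fun i => coeffMap (Int.castRingHom (IsLocalRing.ResidueField ↥A)) (y i)))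
    (p : Fin n → (↥(S0 A E))[X])
    (h : redE M A E (∑ i, Uev M A E (p i) * yInt A E hS i) = 0) :
    ∀ i, (p i).map (resS A E) = 0 := by
  rw [map_sum] at h
  simp only [map_mul, redE_Uev, redE_yInt] at h
  have h2 := Fintype.linearIndependent_iff.mp hli
    (fun i => (⟨H516.evJ ((p i).map (resS A E)), H516.evJ_mem_jField _ _⟩ :
      jField (IsLocalRing.ResidueField ↥A))) h
  intro i
  have h3 := congrArg Subtype.val (h2 i)
  exact (H516.evJ_eq_zero_iff _).mp h3

/-! ### (B2) the scaled relation -/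

variable (M) in
theorem coe_toOm_Uev (p : (↥(S0 A E))[X]) :
    ((toOm M A E (Uev M A E p) : Om M) : LaurentSeries Qb) =
      H516.evJ (p.map (S0 A E).subtype) := by
  have h : (omVal M).comp ((toOm M A E).comp (Uev M A E)) =
      (Polynomial.eval₂RingHom (HahnSeries.C (Γ := ℤ) (R := Qb)) (jqModC Qb)).comp
        (Polynomial.mapRingHom (S0 A E).subtype) := by
    apply Polynomial.ringHom_ext
    · intro c
      simp only [RingHom.comp_apply, Uev, Polynomial.coe_eval₂RingHom, Polynomial.eval₂_C,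
        Polynomial.coe_mapRingHom, Polynomial.map_C, omVal_apply]
      rw [toOm_cS, coe_algebraMap_Om]
      rfl
    · simp only [RingHom.comp_apply, Uev, Polynomial.coe_eval₂RingHom, Polynomial.eval₂_X,
        Polynomial.coe_mapRingHom, Polynomial.map_X, omVal_apply]
      rw [toOm_jInt, coe_jOm]
  exact RingHom.congr_fun h p

/-- `A ∩ E` as a valuation subring of `E`. -/
def RE : ValuationSubring ↥E := A.comap (algebraMap ↥E Qb)

/-- `RE → S0`. -/
def reToS0 : ↥(RE A E) →+* ↥(S0 A E) where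
  toFun c := ⟨algebraMap ↥E Qb (c : ↥E), c.2, (c : ↥E).2⟩
  map_one' := Subtype.ext (by simp)
  map_mul' a b := Subtype.ext (by simp)
  map_zero' := Subtype.ext (by simp)
  map_add' a b := Subtype.ext (by simp)

theorem subtype_comp_reToS0 :
    (S0 A E).subtype.comp (reToS0 A E) = (algebraMap ↥E Qb).comp (RE A E).subtype := rfl

variable (M) in
theorem coe_toOm_Uev_map (P : (↥(RE A E))[X]) :
    ((toOm M A E (Uev M A E (P.map (reToS0 A E))) : Om M) : LaurentSeries Qb) =
      iotaE E (H516.evJ (P.map (RE A E).subtype)) := by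
  rw [coe_toOm_Uev, H516.coeffMap_evJ, Polynomial.map_map, Polynomial.map_map,
    subtype_comp_reToS0]

/-- **(B2)** every `f ∈ Fc M E` satisfies a jointly primitive relation
`q(j) f = ∑ pᵢ(j) yᵢ` over `A ∩ E`. -/
theorem exists_scaled_relation [NeZero M] (hS : H516.SpansQ M y) {f : Om M}
    (hf : f ∈ Fc M E) :
    ∃ (q : (↥(S0 A E))[X]) (p : Fin n → (↥(S0 A E))[X]),
      (q.map (resS A E) ≠ 0 ∨ ∃ i, (p i).map (resS A E) ≠ 0) ∧
      toOm M A E (Uev M A E q) * f =
        toOm M A E (∑ i, Uev M A E (p i) * yInt A E hS i) := by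
  classical
  obtain ⟨g, hg, hgf⟩ := exists_FE_of_Fc M E hf
  have hgs := (H516.mem_baseChange_iff_mem_spanL ↥E hS).mp hg
  obtain ⟨G, H, hG, hrel⟩ :=
    H516.exists_cleared ↥E (fun i => coeffMap (Int.castRingHom ↥E) (y i)) hgs
  obtain ⟨c, H', hc, hH', i0, m0, h1⟩ :=
    H516.exists_scale (RE A E) (Fin.cons G H : Fin (n + 1) → (↥E)[X]) ⟨0, by simpa using hG⟩
  have hq : (H' 0).map (RE A E).subtype = C c⁻¹ * G := by
    rw [hH' 0, Fin.cons_zero]
  have hp : ∀ i : Fin n, (H' i.succ).map (RE A E).subtype = C c⁻¹ * H i := by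
    intro i
    rw [hH' i.succ, Fin.cons_succ]
  refine ⟨(H' 0).map (reToS0 A E), fun i => (H' i.succ).map (reToS0 A E), ?_, ?_⟩
  · -- primitivity
    have hone : ∀ P : (↥(RE A E))[X], P.coeff m0 = 1 →
        (P.map (reToS0 A E)).map (resS A E) ≠ 0 := by
      intro P hP h0
      have := congrArg (fun q => q.coeff m0) h0
      simp only [Polynomial.coeff_map, hP, map_one, Polynomial.coeff_zero] at this
      exact one_ne_zero this
    rcases Fin.eq_zero_or_eq_succ i0 with h0 | ⟨i, hi⟩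
    · left
      exact hone _ (h0 ▸ h1)
    · right
      exact ⟨i, hone _ (hi ▸ h1)⟩
  · -- the relation
    have hE : H516.evJ ((H' 0).map (RE A E).subtype) * g =
        ∑ i, H516.evJ ((H' i.succ).map (RE A E).subtype) *
          coeffMap (Int.castRingHom ↥E) (y i) := by
      rw [hq, H516.evJ_mul, mul_assoc, hrel, Finset.mul_sum]
      refine Finset.sum_congr rfl fun i _ => ?_
      rw [hp i, H516.evJ_mul, mul_assoc]
    apply Subtype.ext
    have hy : ∀ i, iotaE E (coeffMap (Int.castRingHom ↥E) (y i)) =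
        ((toOm M A E (yInt A E hS i) : Om M) : LaurentSeries Qb) := by
      intro i
      rw [coe_toOm_yInt, coeffMap_coeffMap]
      exact coeffMap_congr (RingHom.ext_int _ _) _
    have h2 := congrArg (iotaE E) hE
    rw [map_mul, map_sum, hgf, ← coe_toOm_Uev_map M] at h2
    rw [map_sum]
    push_cast
    rw [h2]
    refine Finset.sum_congr rfl fun i _ => ?_
    rw [map_mul, hy, ← coe_toOm_Uev_map M, map_mul]
    rfl

end Fermat.Agent.S18.Mod.H216

end
end
-- ===== PACK-END S18/Mod/H216/Basis.lean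

-- ===== PACK-BEGIN S18/Mod/H216/DenJ.lean
section


/-!
# S18 / MOD (helper216): `V_total`, denominators and integrality for the coordinate `j`

From the S28 basis (`SpansQ M y`, independence of the reductions over `κ(j̄)`, integrality of the
`j(q^d)` over `ℤ[j]`):

* `V_total_j`     : `Vc M A E` is a valuation ring of `Fc M E`;
* `injective_evR_j` : `j` is transcendental over `Rc M A E`;
* `isIntegral_toOm_yInt` : the monomials are integral over `Rc[j]`;
* `denAt_j`       : the denominator statement `DenAt` on the chart `Rc[j]`.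
-/

set_option autoImplicit false
set_option linter.unusedSectionVars false

noncomputable section

namespace Fermat.Agent.S18.Mod.H216

open ModularCurve AlgebraicCurve HahnSeries Polynomial Fermat.Agent.S18 Fermat.Agent.S18.Mod
open Fermat.Agent.S28 Fermat.Agent.S18.Alg

variable {M : ℕ} [NeZero M] (A : ValuationSubring Qb) (E : IntermediateField ℚ Qb)
variable {n : ℕ} {y : Fin n → LaurentSeries ℤ}

theorem redE_sum_ne_zero (hS : H516.SpansQ M y)
    (hli : LinearIndependent (jField (IsLocalRing.ResidueField ↥A))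
      (fun i => coeffMap (Int.castRingHom (IsLocalRing.ResidueField ↥A)) (y i)))
    {q : (↥(S0 A E))[X]} {p : Fin n → (↥(S0 A E))[X]}
    (hprim : q.map (resS A E) ≠ 0 ∨ ∃ i, (p i).map (resS A E) ≠ 0)
    (hq : q.map (resS A E) = 0) :
    redE M A E (∑ i, Uev M A E (p i) * yInt A E hS i) ≠ 0 := by
  intro h
  have h1 := redE_sum_eq_zero A E hS hli p h
  rcases hprim with h2 | ⟨i, hi⟩
  · exact h2 hq
  · exact hi (h1 i)

/-- **`V_total`** for `x = j`. -/
theorem V_total_j (hS : H516.SpansQ M y)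
    (hli : LinearIndependent (jField (IsLocalRing.ResidueField ↥A))
      (fun i => coeffMap (Int.castRingHom (IsLocalRing.ResidueField ↥A)) (y i))) :
    ∀ f ∈ Fc M E, f ∈ Vc M A E ∨ f⁻¹ ∈ Vc M A E := by
  intro f hf
  obtain ⟨q, p, hprim, hrel⟩ := exists_scaled_relation A E hS hf
  by_cases hq : q.map (resS A E) = 0
  · right
    have hN := redE_sum_ne_zero A E hS hli hprim hq
    have hf0 : f ≠ 0 := by
      intro h0
      rw [h0, mul_zero] at hrel
      exact toOm_ne_zero_of_redE M A E hN hrel.symm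
    refine (mem_Vc_iff' M A E).mpr
      ⟨Uev M A E q, ∑ i, Uev M A E (p i) * yInt A E hS i, hN, ?_⟩
    rw [← hrel, mul_comm (toOm M A E (Uev M A E q)), ← mul_assoc, inv_mul_cancel₀ hf0, one_mul]
  · left
    have hD : redE M A E (Uev M A E q) ≠ 0 := by rwa [Ne, redE_Uev_eq_zero_iff]
    refine (mem_Vc_iff' M A E).mpr
      ⟨∑ i, Uev M A E (p i) * yInt A E hS i, Uev M A E q, hD, ?_⟩
    rw [mul_comm]
    exact hrel

/-- `j` is transcendental over `Rc`. -/
theorem injective_evR_j : Function.Injective (evR (Rc M A E) (jOm M)) := by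
  rw [injective_iff_map_eq_zero]
  intro p hp
  rw [evR_eq_toOm_Uev] at hp
  have h1 := congrArg (fun z : Om M => (z : LaurentSeries Qb)) hp
  simp only [coe_toOm_Uev, ZeroMemClass.coe_zero] at h1
  have h2 := (H516.evJ_eq_zero_iff Qb).mp h1
  rw [Polynomial.map_map] at h2
  have hinj : Function.Injective
      (((S0 A E).subtype).comp ((eRc M A E).symm : ↥(Rc M A E) →+* ↥(S0 A E))) :=
    (Subtype.val_injective).comp (eRc M A E).symm.injective
  exact Polynomial.map_injective _ hinj (by rw [h2, Polynomial.map_zero])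

theorem toOm_Uev_mem_polyRing (p : (↥(S0 A E))[X]) :
    toOm M A E (Uev M A E p) ∈ polyRing (Rc M A E) (jOm M) := by
  rw [toOm_Uev]
  exact (mem_polyRing_iff _ _).mpr ⟨_, rfl⟩

theorem isIntegral_toOm_Uev (p : (↥(S0 A E))[X]) :
    IsIntegral (polyRing (Rc M A E) (jOm M)) (toOm M A E (Uev M A E p)) :=
  isIntegral_algebraMap (R := polyRing (Rc M A E) (jOm M)) (A := Om M)
    (x := ⟨_, toOm_Uev_mem_polyRing A E p⟩)

/-- **Denominators** on the chart `Rc[j]`. -/
theorem denAt_j {w : Om M} (hR : PartR (Ec M E) (Rc M A E) w) (hS : H516.SpansQ M y)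
    (hli : LinearIndependent (jField (IsLocalRing.ResidueField ↥A))
      (fun i => coeffMap (Int.castRingHom (IsLocalRing.ResidueField ↥A)) (y i)))
    (hint : ∀ i, IsIntegral (polyRing (Rc M A E) (jOm M)) (toOm M A E (yInt A E hS i))) :
    DenAt (Fc M E) (Rc M A E) (Vc M A E) w (jOm M) := by
  intro f hf hfV
  obtain ⟨q, p, hprim, hrel⟩ := exists_scaled_relation A E hS hf
  have hq : q.map (resS A E) ≠ 0 := by
    intro hq0
    have hN := redE_sum_ne_zero A E hS hli hprim hq0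
    obtain ⟨U₁, U₂, hne, heq⟩ := (mem_Vc_iff' M A E).mp hfV
    have h1 : toOm M A E (Uev M A E q * U₁) =
        toOm M A E ((∑ i, Uev M A E (p i) * yInt A E hS i) * U₂) := by
      rw [map_mul, map_mul, ← heq, ← hrel]
      ring
    have h3 := congrArg (redE M A E) (toOm_injective M A E h1)
    rw [map_mul, map_mul, (redE_Uev_eq_zero_iff M A E q).mpr hq0, zero_mul] at h3
    exact mul_ne_zero hN hne h3.symm
  have hD : redE M A E (Uev M A E q) ≠ 0 := by rwa [Ne, redE_Uev_eq_zero_iff]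
  refine ⟨toOm M A E (Uev M A E q), toOm_Uev_mem_polyRing A E q, ?_, ?_⟩
  · intro h
    obtain ⟨c, hA, hE, hc0, hcinv, rfl⟩ := exists_unif M A E hR
    have hw0 : algebraMap Qb (Om M) c ≠ 0 := hR.w_ne_zero
    obtain ⟨U₁, U₂, hne, heq⟩ := (mem_Vc_iff' M A E).mp h
    have h1 : toOm M A E (Uev M A E q * U₂) = toOm M A E (cInt M A E hA hE * U₁) := by
      rw [map_mul, map_mul, toOm_cInt, ← heq]
      field_simp
    have h3 := congrArg (redE M A E) (toOm_injective M A E h1)
    rw [map_mul, map_mul, redE_cInt, residue_eq_zero_of_inv_not_mem A hA hcinv, map_zero,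
      zero_mul] at h3
    exact mul_ne_zero hD hne h3
  · rw [hrel, map_sum]
    refine IsIntegral.sum _ fun i _ => ?_
    rw [map_mul]
    exact (isIntegral_toOm_Uev A E (p i)).mul (hint i)

end Fermat.Agent.S18.Mod.H216

end
end
-- ===== PACK-END S18/Mod/H216/DenJ.lean

-- ===== PACK-BEGIN S18/H107/T3Model.lean
section







/-!
# helper107 — S18 / M3-T : the good model for the coordinate `t₃` (case `ℓ = 2`)

`goodModel_t3_107` : from the `j`-model WITHOUT branch-set fields (`BaseModel107 … j`, true for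
every `ℓ ∤ M`), the branch data of the `j`-line in characteristic `0` (`BranchJ107`), the identity
`j t³ = (t + 27)(t + 243)³`, `3⁻¹ ∈ R`, `t ∈ Fc ∩ V` and the Gauss property of `t`, we get the
frozen `Alg.GoodModel Lc Ec Fc R V w t S` with `S = {0, -27}`.
-/

set_option autoImplicit false

namespace Fermat.Agent.S18.H107

open Polynomial Fermat.Agent.S18.Alg

variable {Ω : Type*} [Field Ω]

theorem goodModel_t3_107 {Lc Ec Fc : Subfield Ω} {R V : Subring Ω} {w j t : Ω} {S : Finset Ω}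
    (hb : BaseModel107 Lc Ec Fc R V w j) (hB : BranchJ107 Lc j)
    (hrel : j * t ^ 3 = (t + 27) * (t + 243) ^ 3) (htF : t ∈ Fc) (htV : t ∈ V)
    (h3 : (3 : Ω)⁻¹ ∈ R)
    (hgauss : ∀ P : Polynomial Ω, (∀ i, P.coeff i ∈ R) →
      (∃ i, P.coeff i ≠ 0 ∧ (P.coeff i)⁻¹ ∈ R) → (P.eval t)⁻¹ ∈ V)
    (hS : ∀ s, s ∈ S ↔ s = 0 ∨ s = -27) :
    GoodModel Lc Ec Fc R V w t S := by
  have := hb.charZero
  have hj0 : j ≠ 0 := ne_zero_of_transcendental107 hb.x_transcendental
  have hH : HauptT3107 Fc R V j t :=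
    { rel := hrel
      three_inv := h3
      three_ne := three_ne_zero
      j_ne := hj0
      t_mem_Fc := htF
      t_mem_V := htV
      t27_inv_mem_V := gauss_X_add_C107 hgauss (ofNat_mem R 27) }
  have ht0 : t ≠ 0 := hH.t_ne
  have hwF : w ∈ Fc := hb.E_le_F (hb.R_le hb.w_mem)
  have htinvV : t⁻¹ ∈ V := gauss_X107 hgauss
  have h64 : (27 : Ω)⁻¹ ∈ R := hH.inv27_mem
  -- `j ∈ Ec(t)`
  have hjrat : j ∈ ratField Ec t := by
    have e : j = (t + 27) * (t + 243) ^ 3 * (t ^ 3)⁻¹ := by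
      field_simp
      linear_combination hrel
    rw [e]
    have ht := self_mem_ratField107 Ec t
    exact mul_mem (mul_mem (add_mem ht (ofNat_mem _ 27)) (pow_mem (add_mem ht (ofNat_mem _ 243)) 3))
      (inv_mem (pow_mem ht 3))
  -- transcendence of `t`
  have htr : Transcendental Lc t := by
    intro halg
    apply hb.x_transcendental
    have e : j = (t + 27) * (t + 243) ^ 3 * (t ^ 3)⁻¹ := by
      field_simp
      linear_combination hrel
    rw [e]
    have h27 : IsAlgebraic Lc (27 : Ω) := by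
      have : (27 : Ω) = algebraMap Lc Ω (27 : Lc) := by
        rw [map_ofNat]
      rw [this]
      exact isAlgebraic_algebraMap _
    have h243 : IsAlgebraic Lc (243 : Ω) := by
      have : (243 : Ω) = algebraMap Lc Ω (243 : Lc) := by
        rw [map_ofNat]
      rw [this]
      exact isAlgebraic_algebraMap _
    exact ((halg.add h27).mul ((halg.add h243).pow 3)).mul (halg.pow 3).inv
  refine (show BaseModel107 Lc Ec Fc R V w t from
    { charZero := hb.charZero
      R_le := hb.R_le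
      R_total := hb.R_total
      w_mem := hb.w_mem
      w_ne_zero := hb.w_ne_zero
      w_inv_not_mem := hb.w_inv_not_mem
      w_gen := hb.w_gen
      w_discrete := hb.w_discrete
      residue_perfect := hb.residue_perfect
      E_le_L := hb.E_le_L
      E_le_F := hb.E_le_F
      L_algebraic := hb.L_algebraic
      L_algClosed := hb.L_algClosed
      E_closed_in_F := hb.E_closed_in_F
      compositum := hb.compositum
      x_mem := htF
      x_transcendental := htr
      finite := finite_transfer107 hjrat hb.finite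
      V_le := hb.V_le
      V_total := hb.V_total
      R_le_V := hb.R_le_V
      w_inv_not_mem_V := hb.w_inv_not_mem_V
      V_gen := hb.V_gen
      x_mem_V := htV
      gauss := hgauss
      qep_fin := hH.qep_fin hwF hb.qep_fin hb.qep_inf
      qep_inf := hH.qep_inf hwF hb.qep_fin hb.qep_inf
      separable := separable_transfer107 (e := t ^ 3)
        (Subring.pow_mem _ (self_mem_polyRing107 R t) 3)
        (by
          rw [hrel]
          exact Subring.mul_mem _ (Subring.add_mem _ (self_mem_polyRing107 R t) (ofNat_mem _ 27))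
            (Subring.pow_mem _
              (Subring.add_mem _ (self_mem_polyRing107 R t) (ofNat_mem _ 243)) 3))
        (V.pow_mem htV 3) (by rw [← inv_pow]; exact V.pow_mem htinvV 3) (pow_ne_zero _ ht0)
        hb.separable }).toGoodModel S ?_ ?_ ?_ ?_
  · intro s hs
    rcases (hS s).1 hs with rfl | rfl
    · exact R.zero_mem
    · exact R.neg_mem (ofNat_mem R 27)
  · intro s hs s' hs' hne
    rcases (hS s).1 hs with rfl | rfl <;> rcases (hS s').1 hs' with rfl | rfl
    · exact absurd rfl hne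
    · have e : ((0 : Ω) - -27)⁻¹ = (27 : Ω)⁻¹ := by norm_num
      rw [e]
      exact h64
    · have e : ((-27 : Ω) - 0)⁻¹ = -(27 : Ω)⁻¹ := by
        rw [sub_zero, inv_neg]
      rw [e]
      exact R.neg_mem h64
    · exact absurd rfl hne
  · intro s hs hs0
    rcases (hS s).1 hs with rfl | rfl
    · exact absurd rfl hs0
    · rw [inv_neg]
      exact R.neg_mem h64
  · intro O hL c hc hcS hz hz'
    have hc0 : c ≠ 0 := fun h => hcS ((hS c).2 (Or.inl h))
    have hc64 : c ≠ -27 := fun h => hcS ((hS c).2 (Or.inr h))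
    exact unramified_t3_107 Lc j t hrel hB O hL c hc hc64 hc0 hz hz'

end Fermat.Agent.S18.H107

end
-- ===== PACK-END S18/H107/T3Model.lean

-- ===== PACK-BEGIN S37/Core/Weak.lean
section


/-!
# S37 row (helper37): weak reduction data suffice

`IsWeakRed` drops the field `frob_ker` of `Fermat.Agent.S37.H99.IsRed` and asks for the
Eichler-Shimura relation at ONE Frobenius element `σ₀` only.  From a weak reduction map `red`
we build `red' x = (n ↦ red (σ₀ ^ n • x))`, which satisfies all four fields of `IsRed`.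
Consequently the geometric part of S37 never has to talk about a Frobenius action on the
special fibre.
-/

set_option autoImplicit false

noncomputable section

namespace Fermat.Agent.S37.Core

open ModularCurve ValuationSubring Fermat.Agent.S37.H99

section Abstract

variable {K L : Type*} [Field K] [Field L] [Algebra K L]
variable (p : ℕ) (J : Type) [AddCommGroup J] [Module HeckeAlg J]
  [DistribMulAction (L ≃ₐ[K] L) J] [SMulCommClass (L ≃ₐ[K] L) HeckeAlg J]

/-- Weak reduction data at `(A, ℓ)` relative to ONE Frobenius element `σ₀`. -/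
structure IsWeakRed (A : ValuationSubring L) (ℓ : ℕ) (hℓ : ℓ.Prime) (σ₀ : L ≃ₐ[K] L)
    {Y : Type*} [AddCommGroup Y] (red : J →+ Y) : Prop where
  frob : A.IsFrobeniusAt σ₀ ℓ
  inertia : ∀ τ ∈ A.inertiaSubgroupIn K, ∀ x : J, red (τ • x) = red x
  inj_torsion : ∀ x : J, (∃ n : ℕ, p ^ n • x = 0) → red x = 0 → x = 0
  relation : ∀ x : J, red (σ₀ • σ₀ • x - heckeGen ⟨ℓ, hℓ⟩ • (σ₀ • x) + ℓ • x) = 0

variable {p J}

/-- the inertia subgroup is stable under conjugation by the decomposition group -/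
theorem conj_mem_inertiaSubgroupIn {A : ValuationSubring L} {g τ : L ≃ₐ[K] L}
    (hg : g ∈ A.decompositionSubgroup K) (hτ : τ ∈ A.inertiaSubgroupIn K) :
    g * τ * g⁻¹ ∈ A.inertiaSubgroupIn K := by
  obtain ⟨t, ht, rfl⟩ := hτ
  let d : A.decompositionSubgroup K := ⟨g, hg⟩
  haveI : (A.inertiaSubgroup K).Normal := MonoidHom.normal_ker _
  refine ⟨d * t * d⁻¹, Subgroup.Normal.conj_mem ‹_› t ht d, rfl⟩

/-- `red' x = (n ↦ red (σ₀ ^ n • x))` -/
def iterRed (σ₀ : L ≃ₐ[K] L) {Y : Type*} [AddCommGroup Y] (red : J →+ Y) : J →+ (ℕ → Y) where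
  toFun x n := red (σ₀ ^ n • x)
  map_zero' := by
    funext n
    simp
  map_add' x y := by
    funext n
    simp [smul_add]

@[simp] theorem iterRed_apply (σ₀ : L ≃ₐ[K] L) {Y : Type*} [AddCommGroup Y] (red : J →+ Y)
    (x : J) (n : ℕ) : iterRed σ₀ red x n = red (σ₀ ^ n • x) := rfl

theorem IsWeakRed.red_pow_smul_inertia {A : ValuationSubring L} {ℓ : ℕ} {hℓ : ℓ.Prime}
    {σ₀ : L ≃ₐ[K] L} {Y : Type*} [AddCommGroup Y] {red : J →+ Y}
    (h : IsWeakRed (K := K) p J A ℓ hℓ σ₀ red) (n : ℕ) {τ : L ≃ₐ[K] L}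
    (hτ : τ ∈ A.inertiaSubgroupIn K) (x : J) :
    red (σ₀ ^ n • τ • x) = red (σ₀ ^ n • x) := by
  have hg : σ₀ ^ n ∈ A.decompositionSubgroup K :=
    pow_mem h.frob.mem_decompositionSubgroup n
  have hconj := conj_mem_inertiaSubgroupIn hg hτ
  have e : σ₀ ^ n • τ • x = (σ₀ ^ n * τ * (σ₀ ^ n)⁻¹) • (σ₀ ^ n • x) := by
    rw [← mul_smul, ← mul_smul, inv_mul_cancel_right]
  rw [e, h.inertia _ hconj]

theorem IsWeakRed.red_pow_smul_frob {A : ValuationSubring L} {ℓ : ℕ} {hℓ : ℓ.Prime}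
    {σ₀ : L ≃ₐ[K] L} {Y : Type*} [AddCommGroup Y] {red : J →+ Y}
    (h : IsWeakRed (K := K) p J A ℓ hℓ σ₀ red) (n : ℕ) {σ : L ≃ₐ[K] L}
    (hσ : A.IsFrobeniusAt σ ℓ) (x : J) :
    red (σ₀ ^ n • σ • x) = red (σ₀ ^ (n + 1) • x) := by
  have hτ := inv_mul_mem_inertiaSubgroupIn h.frob hσ
  have e : σ₀ ^ n • σ • x = σ₀ ^ (n + 1) • (σ₀⁻¹ * σ) • x := by
    rw [← mul_smul, ← mul_smul, pow_succ, mul_assoc, mul_inv_cancel_left]
  rw [e, h.red_pow_smul_inertia (n + 1) hτ]

/-- **Weak reduction data suffice.** -/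
theorem IsWeakRed.isRed_iterRed {A : ValuationSubring L} {ℓ : ℕ} {hℓ : ℓ.Prime}
    {σ₀ : L ≃ₐ[K] L} {Y : Type*} [AddCommGroup Y] {red : J →+ Y}
    (h : IsWeakRed (K := K) p J A ℓ hℓ σ₀ red) :
    IsRed (K := K) p J A ℓ hℓ (iterRed σ₀ red) where
  inertia τ hτ x := by
    funext n
    exact h.red_pow_smul_inertia n hτ x
  frob_ker σ hσ x hx := by
    funext n
    rw [iterRed_apply, h.red_pow_smul_frob n hσ]
    exact congrFun hx (n + 1)
  inj_torsion x hx hx0 := by
    refine h.inj_torsion x hx ?_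
    have := congrFun hx0 0
    simpa using this
  relation σ hσ x := by
    funext n
    have hgal : ∀ (g : L ≃ₐ[K] L) (t : HeckeAlg) (y : J), t • (g • y) = g • (t • y) :=
      fun g t y => (smul_comm g t y).symm
    have e2 : σ₀ • σ₀ • (σ₀ ^ n • x) = σ₀ ^ (n + 1 + 1) • x := by
      rw [smul_smul, smul_smul, pow_succ' σ₀ (n + 1), pow_succ' σ₀ n, mul_assoc]
    have e1 : σ₀ • (σ₀ ^ n • x) = σ₀ ^ (n + 1) • x := by
      rw [smul_smul, pow_succ' σ₀ n]
    have h1 : red (σ₀ ^ n • σ • σ • x) = red (σ₀ • σ₀ • (σ₀ ^ n • x)) := by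
      rw [e2, h.red_pow_smul_frob n hσ (σ • x), h.red_pow_smul_frob (n + 1) hσ x]
    have h2 : red (σ₀ ^ n • (heckeGen ⟨ℓ, hℓ⟩ • (σ • x))) =
        red (heckeGen ⟨ℓ, hℓ⟩ • (σ₀ • (σ₀ ^ n • x))) := by
      rw [e1, hgal σ (heckeGen ⟨ℓ, hℓ⟩) x, h.red_pow_smul_frob n hσ (heckeGen ⟨ℓ, hℓ⟩ • x),
        hgal (σ₀ ^ (n + 1)) (heckeGen ⟨ℓ, hℓ⟩) x]
    have h3 : red (σ₀ ^ n • ((ℓ : ℕ) • x)) = red ((ℓ : ℕ) • (σ₀ ^ n • x)) := by
      rw [smul_comm]
    have := h.relation (σ₀ ^ n • x)
    rw [map_add, map_sub] at this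
    show red (σ₀ ^ n • (σ • σ • x - heckeGen ⟨ℓ, hℓ⟩ • (σ • x) + ℓ • x)) = 0
    rw [smul_add, smul_sub, map_add, map_sub, h1, h2, h3]
    exact this

variable (p) in
/-- **R1 at one place, weak form.** -/
theorem exists_specialization_of_isWeakRed (A : ValuationSubring L) (ℓ : ℕ) (hℓ : ℓ.Prime)
    (σ₀ : L ≃ₐ[K] L) {Y : Type*} [AddCommGroup Y] (red : J →+ Y)
    (hred : IsWeakRed (K := K) p J A ℓ hℓ σ₀ red) :
    ∃ (J' : Type) (_ : AddCommGroup J') (_ : Module HeckeAlg J') (sp : J →+ J')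
      (F : J' →+ J'),
      IsSpecialization (K := K) p J J' A ℓ sp F ∧ SpecialFibreRelation J' ℓ hℓ F :=
  exists_specialization_of_isRed p A ℓ hℓ ⟨σ₀, hred.frob⟩ (iterRed σ₀ red) hred.isRed_iterRed

end Abstract

end Fermat.Agent.S37.Core

end
end
-- ===== PACK-END S37/Core/Weak.lean

-- ===== PACK-BEGIN S37/Core/PlaceRed.lean
section



/-!
# S37 row (helper37): from a place reduction map to the frozen statement

`PlaceRed N A ℓ σ₀` is the geometric datum to be constructed by the row: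
a map `r` from the places of `ℚ̄(X₀(N))` to the places of the function field of the special
fibre such that
* `isRed`, `gen` : `r` witnesses `ReductionInputsModL A N` (Prelude);
* `inertia` : `r (τ • P) = r P` for `τ` in the inertia group at `A`;
* `es` : Eichler-Shimura on divisors, `r_* (T_ℓ P) = r (σ₀ P) + ℓ · r (σ₀⁻¹ P)`.

`specialization_of_placeRed` turns it (together with `HeckeInputsAlong` and the conclusion of
the frozen statement S18, both taken as hypotheses) into the conclusion of S37 at `(ℓ, A)`.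
Everything here is fully proved.
-/

set_option autoImplicit false
set_option synthInstance.maxHeartbeats 400000

noncomputable section

namespace Fermat.Agent.S37.Core

open ModularCurve ValuationSubring AlgebraicCurve HahnSeries

/-- the conclusion of the frozen statement S18 at `(N, ℓ, A)` -/
def InjTorsionModL (N : ℕ) [NeZero N] (ℓ : ℕ) (A : ValuationSubring (AlgebraicClosure ℚ)) :
    Prop :=
  ∀ (_ : ReductionInputsModL A N) (m : ℕ), ¬ ℓ ∣ m → ∀ z : JZero N, m • z = 0 →
    reductionModL A N z = 0 → z = 0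

/-- The geometric datum: a place reduction map with inertia invariance and the
Eichler-Shimura congruence on divisors, relative to one Frobenius element `σ₀`. -/
structure PlaceRed (N : ℕ) [NeZero N] (A : ValuationSubring (AlgebraicClosure ℚ)) (ℓ : ℕ)
    [NeZero ℓ] (σ₀ : AlgebraicClosure ℚ ≃ₐ[ℚ] AlgebraicClosure ℚ) : Type where
  /-- the reduction map on places -/
  r : Place (AlgebraicClosure ℚ) (modularFunctionFieldBar N) →
    Place (IsLocalRing.ResidueField A) (modularFunctionFieldFullC (IsLocalRing.ResidueField A) N)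
  isRed : IsPlaceReductionModL A N r
  gen : PrincipalGeneratedByIntegral A (IsLocalRing.residue A) N
  inertia : ∀ τ ∈ A.inertiaSubgroupIn ℚ,
    ∀ P : Place (AlgebraicClosure ℚ) (modularFunctionFieldBar N),
      r (arithmeticGalois (modularFunctionFieldFull N) τ • P) = r P
  es : ∀ (hα : HeckeAlphaBarIntegral (AlgebraicClosure ℚ) N ℓ)
    (hβ : HeckeBetaBarIntegral (AlgebraicClosure ℚ) N ℓ)
    [HasPrincipalDivisors (AlgebraicClosure ℚ) (modularFunctionFieldBar (N * ℓ))]
    (P : Place (AlgebraicClosure ℚ) (modularFunctionFieldBar N)),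
    Finsupp.mapDomain r (heckeDivBar hα hβ (Finsupp.single P 1)) =
      Finsupp.single (r (arithmeticGalois (modularFunctionFieldFull N) σ₀ • P)) 1 +
        Finsupp.single (r ((arithmeticGalois (modularFunctionFieldFull N) σ₀)⁻¹ • P)) (ℓ : ℤ)

section Torsion

variable {L : Type*} [Field L] [Algebra ℚ L] {A : ValuationSubring L}
variable {k : Type*} [Field k] {π : A →+* k} {N : ℕ}

/-- two place reductions agree on principal divisors -/
theorem mapDomain_eq_of_mem_principal
    {r₁ r₂ : Place L (laurentBaseChange L (modularFunctionFieldFull N)) →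
      Place k (modularFunctionFieldFullC k N)}
    (h₁ : IsPlaceReductionAlong A π N r₁) (h₂ : IsPlaceReductionAlong A π N r₂)
    (hgen : PrincipalGeneratedByIntegral A π N)
    {D : Divisor L (laurentBaseChange L (modularFunctionFieldFull N))}
    (hD : D ∈ Divisor.principal (K := L) (F := laurentBaseChange L (modularFunctionFieldFull N))) :
    Finsupp.mapDomain r₁ D = Finsupp.mapDomain r₂ D := by
  have hD' := hgen hD
  clear hD
  induction hD' using AddSubgroup.closure_induction with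
  | mem E hE =>
    obtain ⟨y, hy, hyk, hne, hDy⟩ := hE
    ext Q
    rw [h₁.2 y hy hyk hne E hDy Q, h₂.2 y hy hyk hne E hDy Q]
  | zero => rw [Finsupp.mapDomain_zero, Finsupp.mapDomain_zero]
  | add E E' _ _ hE hE' => rw [Finsupp.mapDomain_add, Finsupp.mapDomain_add, hE, hE']
  | neg E _ hE =>
    rw [← Finsupp.mapDomain.addMonoidHom_apply, ← Finsupp.mapDomain.addMonoidHom_apply, map_neg,
      map_neg, Finsupp.mapDomain.addMonoidHom_apply, Finsupp.mapDomain.addMonoidHom_apply, hE]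

/-- two place reductions agree on divisors some nonzero multiple of which is principal -/
theorem mapDomain_eq_of_nsmul_mem_principal
    {r₁ r₂ : Place L (laurentBaseChange L (modularFunctionFieldFull N)) →
      Place k (modularFunctionFieldFullC k N)}
    (h₁ : IsPlaceReductionAlong A π N r₁) (h₂ : IsPlaceReductionAlong A π N r₂)
    (hgen : PrincipalGeneratedByIntegral A π N)
    {D : Divisor L (laurentBaseChange L (modularFunctionFieldFull N))} {m : ℕ} (hm : m ≠ 0)
    (hD : m • D ∈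
      Divisor.principal (K := L) (F := laurentBaseChange L (modularFunctionFieldFull N))) :
    Finsupp.mapDomain r₁ D = Finsupp.mapDomain r₂ D := by
  have h := mapDomain_eq_of_mem_principal h₁ h₂ hgen hD
  rw [← Finsupp.mapDomain.addMonoidHom_apply, ← Finsupp.mapDomain.addMonoidHom_apply,
    map_nsmul, map_nsmul, Finsupp.mapDomain.addMonoidHom_apply,
    Finsupp.mapDomain.addMonoidHom_apply] at h
  ext Q
  have hQ := DFunLike.congr_fun h Q
  rw [Finsupp.smul_apply, Finsupp.smul_apply, nsmul_eq_mul, nsmul_eq_mul] at hQ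
  exact mul_left_cancel₀ (Nat.cast_ne_zero.mpr hm) hQ

/-- on torsion classes the reduction map does not depend on the place reduction -/
theorem reductionPic0Along_eq_of_nsmul_eq_zero
    {r₁ r₂ : Place L (laurentBaseChange L (modularFunctionFieldFull N)) →
      Place k (modularFunctionFieldFullC k N)}
    (h₁ : IsPlaceReductionAlong A π N r₁) (h₂ : IsPlaceReductionAlong A π N r₂)
    (hgen : PrincipalGeneratedByIntegral A π N) {m : ℕ} (hm : m ≠ 0)
    {x : Pic0 L (laurentBaseChange L (modularFunctionFieldFull N))} (hx : m • x = 0) :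
    reductionPic0Along r₁ h₁ hgen x = reductionPic0Along r₂ h₂ hgen x := by
  obtain ⟨D, rfl⟩ := Pic0.mk_surjective x
  rw [reductionPic0Along_mk, reductionPic0Along_mk]
  congr 1
  apply Subtype.ext
  rw [coe_reductionDegZeroAlong, coe_reductionDegZeroAlong]
  refine mapDomain_eq_of_nsmul_mem_principal h₁ h₂ hgen hm ?_
  have h0 : (m • D : Divisor.degZero (K := L)
      (F := laurentBaseChange L (modularFunctionFieldFull N))) ∈
      (Divisor.principal (K := L)
        (F := laurentBaseChange L (modularFunctionFieldFull N))).addSubgroupOf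
        (Divisor.degZero (K := L) (F := laurentBaseChange L (modularFunctionFieldFull N))) := by
    rw [← QuotientAddGroup.eq_zero_iff]
    exact hx
  rw [AddSubgroup.mem_addSubgroupOf, AddSubgroupClass.coe_nsmul] at h0
  exact h0

end Torsion

section Main

variable {N : ℕ} [NeZero N] {A : ValuationSubring (AlgebraicClosure ℚ)} {ℓ : ℕ} [NeZero ℓ]
  {σ₀ : AlgebraicClosure ℚ ≃ₐ[ℚ] AlgebraicClosure ℚ}

/-- the reduction map on `J₀(N)` attached to a `PlaceRed` -/
def PlaceRed.red (D : PlaceRed N A ℓ σ₀) : JZero N →+ JZeroC (IsLocalRing.ResidueField A) N :=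
  reductionPic0Along D.r D.isRed D.gen

theorem PlaceRed.red_mk (D : PlaceRed N A ℓ σ₀)
    (E : Divisor.degZero (K := AlgebraicClosure ℚ) (F := modularFunctionFieldBar N)) :
    D.red (Pic0.mk E) = Pic0.mk (reductionDegZeroAlong D.r D.isRed.1 E) := rfl

theorem PlaceRed.reductionInputs (D : PlaceRed N A ℓ σ₀) : ReductionInputsModL A N :=
  ⟨D.r, D.isRed, D.gen⟩

/-- on torsion classes `D.red` is the Prelude reduction map -/
theorem PlaceRed.red_eq_reductionModL (D : PlaceRed N A ℓ σ₀) {m : ℕ} (hm : m ≠ 0)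
    {x : JZero N} (hx : m • x = 0) : D.red x = reductionModL A N x := by
  have h := D.reductionInputs
  show reductionPic0Along D.r D.isRed D.gen x = reductionAlong A (IsLocalRing.residue A) N x
  rw [reductionAlong_eq h]
  exact reductionPic0Along_eq_of_nsmul_eq_zero D.isRed h.choose_spec.1 D.gen hm hx

/-- inertia acts trivially after reduction -/
theorem PlaceRed.red_inertia (D : PlaceRed N A ℓ σ₀)
    {τ : AlgebraicClosure ℚ ≃ₐ[ℚ] AlgebraicClosure ℚ} (hτ : τ ∈ A.inertiaSubgroupIn ℚ)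
    (x : JZero N) : D.red (τ • x) = D.red x := by
  obtain ⟨E, rfl⟩ := Pic0.mk_surjective x
  rw [galois_smul_pic0_def, SemilinearAut.pic0_smul_mk, D.red_mk, D.red_mk]
  congr 1
  apply Subtype.ext
  rw [coe_reductionDegZeroAlong, coe_reductionDegZeroAlong, SemilinearAut.coe_degZeroSMulHom,
    SemilinearAut.divisor_smul_def, ← Finsupp.mapDomain_comp]
  congr 1
  funext P
  exact D.inertia τ hτ P

/-- injectivity on prime-to-`ℓ` torsion, from the conclusion of S18 -/
theorem PlaceRed.red_inj_torsion (D : PlaceRed N A ℓ σ₀) (hS18 : InjTorsionModL N ℓ A)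
    {m : ℕ} (hm : ¬ ℓ ∣ m) {x : JZero N} (hx : m • x = 0) (h0 : D.red x = 0) : x = 0 := by
  have hm0 : m ≠ 0 := fun h => hm (h ▸ dvd_zero ℓ)
  refine hS18 D.reductionInputs m hm x hx ?_
  rw [← D.red_eq_reductionModL hm0 hx]
  exact h0

/-- the Eichler-Shimura relation on divisors -/
theorem PlaceRed.mapDomain_relation (D : PlaceRed N A ℓ σ₀)
    (hα : HeckeAlphaBarIntegral (AlgebraicClosure ℚ) N ℓ)
    (hβ : HeckeBetaBarIntegral (AlgebraicClosure ℚ) N ℓ)
    [HasPrincipalDivisors (AlgebraicClosure ℚ) (modularFunctionFieldBar (N * ℓ))]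
    (E : Divisor (AlgebraicClosure ℚ) (modularFunctionFieldBar N)) :
    Finsupp.mapDomain D.r
      (arithmeticGalois (modularFunctionFieldFull N) σ₀ •
          arithmeticGalois (modularFunctionFieldFull N) σ₀ • E -
        heckeDivBar hα hβ (arithmeticGalois (modularFunctionFieldFull N) σ₀ • E) +
        ℓ • E) = 0 := by
  set g := arithmeticGalois (modularFunctionFieldFull N) σ₀ with hg
  let Ψ : Divisor (AlgebraicClosure ℚ) (modularFunctionFieldBar N) →+
      Divisor (IsLocalRing.ResidueField A)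
        (modularFunctionFieldFullC (IsLocalRing.ResidueField A) N) :=
    (Finsupp.mapDomain.addMonoidHom D.r).comp
      ((DistribSMul.toAddMonoidHom _ g).comp (DistribSMul.toAddMonoidHom _ g) -
        (heckeDivBar hα hβ).comp (DistribSMul.toAddMonoidHom _ g) +
        ℓ • AddMonoidHom.id _)
  have hΨ : Ψ = 0 := by
    refine Finsupp.addHom_ext' fun P => ?_
    refine AddMonoidHom.ext_int ?_
    show Finsupp.mapDomain D.r (g • g • Finsupp.single P 1 -
      heckeDivBar hα hβ (g • Finsupp.single P 1) + ℓ • Finsupp.single P 1) = 0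
    rw [SemilinearAut.smul_single, SemilinearAut.smul_single, Finsupp.mapDomain_add,
      Finsupp.mapDomain_sub, D.es hα hβ (g • P), inv_smul_smul, Finsupp.mapDomain_single,
      Finsupp.smul_single, Finsupp.mapDomain_single, nsmul_eq_mul, mul_one]
    abel
  exact DFunLike.congr_fun hΨ E

end Main

end Fermat.Agent.S37.Core

end
end
-- ===== PACK-END S37/Core/PlaceRed.lean

-- ===== PACK-BEGIN S37/Core/Assemble.lean
section


/-!
# S37 row (helper37): assembly

`result_of_pieces` : the frozen statement S37 from the three top-level pieces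
* `hHIA`  : `HeckeInputsAlong ℚ̄ N ℓ` (so that the Prelude `T_ℓ` is the honest correspondence),
* `hS18`  : the conclusion of the frozen statement S18,
* `hPR`   : a `PlaceRed N A ℓ σ₀` for every Frobenius element `σ₀` at `A`.
Fully proved.
-/

set_option autoImplicit false
set_option synthInstance.maxHeartbeats 400000

noncomputable section

namespace Fermat.Agent.S37.Core

open ModularCurve ValuationSubring AlgebraicCurve HahnSeries Fermat.Agent.S37.H99

section Main

variable {N : ℕ} [NeZero N] {A : ValuationSubring (AlgebraicClosure ℚ)} {ℓ : ℕ} [NeZero ℓ]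
  {σ₀ : AlgebraicClosure ℚ ≃ₐ[ℚ] AlgebraicClosure ℚ}

/-- the Eichler-Shimura relation after reduction -/
theorem PlaceRed.red_relation (D : PlaceRed N A ℓ σ₀)
    (HIA : HeckeInputsAlong (AlgebraicClosure ℚ) N ℓ) (x : JZero N) :
    D.red (σ₀ • σ₀ • x - heckeOperatorAlong (AlgebraicClosure ℚ) N ℓ (σ₀ • x) + ℓ • x) = 0 := by
  obtain ⟨hα, hβ, hP, hfin, hFI, hN⟩ := HIA
  haveI := hP
  rw [heckeOperatorAlong_eq hα hβ hFI hfin hN]
  obtain ⟨E, rfl⟩ := Pic0.mk_surjective x
  set g := arithmeticGalois (modularFunctionFieldFull N) σ₀ with hg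
  have e1 : σ₀ • σ₀ • Pic0.mk E - heckePic0Bar hα hβ hFI hfin hN (σ₀ • Pic0.mk E) + ℓ • Pic0.mk E
      = Pic0.mk (SemilinearAut.degZeroSMulHom g (SemilinearAut.degZeroSMulHom g E) -
          Pic0.degZeroCorrespondence (heckeBetaBar (AlgebraicClosure ℚ) N ℓ)
            (heckeAlphaBar (AlgebraicClosure ℚ) N ℓ) hβ hα hFI (SemilinearAut.degZeroSMulHom g E) +
          ℓ • E) := rfl
  rw [e1, D.red_mk]
  have e2 : reductionDegZeroAlong D.r D.isRed.1
      (SemilinearAut.degZeroSMulHom g (SemilinearAut.degZeroSMulHom g E) -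
          Pic0.degZeroCorrespondence (heckeBetaBar (AlgebraicClosure ℚ) N ℓ)
            (heckeAlphaBar (AlgebraicClosure ℚ) N ℓ) hβ hα hFI (SemilinearAut.degZeroSMulHom g E) +
          ℓ • E) = 0 := by
    apply Subtype.ext
    rw [coe_reductionDegZeroAlong]
    exact D.mapDomain_relation hα hβ (E : Divisor (AlgebraicClosure ℚ) (modularFunctionFieldBar N))
  rw [e2]
  rfl

end Main

/-- **S37 at one place from the pieces.** -/
theorem isWeakRed_of_placeRed (N p : ℕ) [NeZero N] (hcomm : HeckeOperatorsCommuteBar N)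
    (A : ValuationSubring (AlgebraicClosure ℚ)) (ℓ : ℕ) (hℓ : ℓ.Prime) (hℓp : ¬ ℓ ∣ p)
    (σ₀ : AlgebraicClosure ℚ ≃ₐ[ℚ] AlgebraicClosure ℚ) (hσ₀ : A.IsFrobeniusAt σ₀ ℓ)
    (HIA : haveI : NeZero ℓ := ⟨hℓ.ne_zero⟩; HeckeInputsAlong (AlgebraicClosure ℚ) N ℓ)
    (hS18 : InjTorsionModL N ℓ A)
    (D : haveI : NeZero ℓ := ⟨hℓ.ne_zero⟩; PlaceRed N A ℓ σ₀) :
    letI := heckeModuleBar N
    ∀ (_ : SMulCommClass (AlgebraicClosure ℚ ≃ₐ[ℚ] AlgebraicClosure ℚ) HeckeAlg (JZero N)),
      IsWeakRed (K := ℚ) p (JZero N) A ℓ hℓ σ₀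
        (haveI : NeZero ℓ := ⟨hℓ.ne_zero⟩; D.red) := by
  letI := heckeModuleBar N
  haveI : NeZero ℓ := ⟨hℓ.ne_zero⟩
  intro _
  refine ⟨hσ₀, fun τ hτ x => D.red_inertia hτ x, ?_, ?_⟩
  · rintro x ⟨n, hn⟩ hx
    refine D.red_inj_torsion hS18 (m := p ^ n) ?_ hn hx
    exact fun h => hℓp (hℓ.dvd_of_dvd_pow h)
  · intro x
    have h := D.red_relation HIA x
    rw [heckeModuleBar_heckeGen_smul hcomm ⟨ℓ, hℓ⟩ (σ₀ • x)]
    exact h

/-- **S37 from the three top-level pieces.** -/
theorem result_of_pieces (N p : ℕ) [NeZero N]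
    (hHIA : ∀ (ℓ : ℕ) (hℓ : ℓ.Prime), ¬ ℓ ∣ N →
      haveI : NeZero ℓ := ⟨hℓ.ne_zero⟩; HeckeInputsAlong (AlgebraicClosure ℚ) N ℓ)
    (hS18 : ∀ (ℓ : ℕ), ℓ.Prime → ¬ ℓ ∣ N →
      ∀ A : ValuationSubring (AlgebraicClosure ℚ), A.LiesOverPrime ℓ → InjTorsionModL N ℓ A)
    (hPR : ∀ (ℓ : ℕ) (hℓ : ℓ.Prime), ¬ ℓ ∣ N →
      ∀ A : ValuationSubring (AlgebraicClosure ℚ), A.LiesOverPrime ℓ →
        ∀ σ₀ : AlgebraicClosure ℚ ≃ₐ[ℚ] AlgebraicClosure ℚ, A.IsFrobeniusAt σ₀ ℓ →
          haveI : NeZero ℓ := ⟨hℓ.ne_zero⟩; Nonempty (PlaceRed N A ℓ σ₀))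
    (hcomm : ModularCurve.HeckeOperatorsCommuteBar N) :
    letI := ModularCurve.heckeModuleBar N
    ∀ (_ : SMulCommClass (AlgebraicClosure ℚ ≃ₐ[ℚ] AlgebraicClosure ℚ) ModularCurve.HeckeAlg
      (ModularCurve.JZero N)),
      ModularCurve.SpecializationExists (K := ℚ) (L := AlgebraicClosure ℚ) N p
        (ModularCurve.JZero N) := by
  letI := ModularCurve.heckeModuleBar N
  intro inst
  intro ℓ hℓ hdvd A hA
  have hℓN : ¬ ℓ ∣ N := fun h => hdvd (Dvd.dvd.mul_right h p)
  have hℓp : ¬ ℓ ∣ p := fun h => hdvd (Dvd.dvd.mul_left h N)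
  obtain ⟨σ₀, hσ₀⟩ := exists_isFrobeniusAt ℓ hℓ A hA
  haveI : NeZero ℓ := ⟨hℓ.ne_zero⟩
  obtain ⟨D⟩ := hPR ℓ hℓ hℓN A hA σ₀ hσ₀
  exact exists_specialization_of_isWeakRed p A ℓ hℓ σ₀ D.red
    (isWeakRed_of_placeRed N p hcomm A ℓ hℓ hℓp σ₀ hσ₀ (hHIA ℓ hℓ hℓN) (hS18 ℓ hℓ hℓN A hA) D inst)

end Fermat.Agent.S37.Core

end
end
-- ===== PACK-END S37/Core/Assemble.lean

-- ===== PACK-BEGIN S37/Core/AssemblePull.lean
section


/-!
# S37 row (helper37): assembly through an auxiliary level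

For `ℓ ∈ {2, 3}` the smooth model is only available at levels `M` divisible by an auxiliary
prime.  `PullData N M ℓ` is the interface of piece [PULL]: a pullback map
`π^* : J₀(N) → J₀(M)` which is Galois equivariant, injective on prime-to-`ℓ` torsion and
commutes with `T_ℓ`.  `result_of_pieces'` is the variant of `result_of_pieces` in which the
place reduction may live at any such level `M` (take `M = N`, `pull = id` when possible).
Fully proved.
-/

set_option autoImplicit false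
set_option synthInstance.maxHeartbeats 400000

noncomputable section

namespace Fermat.Agent.S37.Core

open ModularCurve ValuationSubring AlgebraicCurve HahnSeries Fermat.Agent.S37.H99

/-- Interface of piece [PULL]. -/
structure PullData (N M : ℕ) [NeZero N] [NeZero M] (ℓ : ℕ) [NeZero ℓ] : Type where
  /-- the pullback map -/
  pull : JZero N →+ JZero M
  galois : ∀ (σ : AlgebraicClosure ℚ ≃ₐ[ℚ] AlgebraicClosure ℚ) (x : JZero N),
    pull (σ • x) = σ • pull x
  inj_torsion : ∀ (m : ℕ), ¬ ℓ ∣ m → ∀ x : JZero N, m • x = 0 → pull x = 0 → x = 0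
  hecke : ∀ x : JZero N,
    pull (heckeOperatorAlong (AlgebraicClosure ℚ) N ℓ x) =
      heckeOperatorAlong (AlgebraicClosure ℚ) M ℓ (pull x)

/-- the trivial pull datum -/
def PullData.refl (N : ℕ) [NeZero N] (ℓ : ℕ) [NeZero ℓ] : PullData N N ℓ where
  pull := AddMonoidHom.id _
  galois _ _ := rfl
  inj_torsion _ _ _ _ h := h
  hecke _ := rfl

/-- **S37 at one place from the pieces, through an auxiliary level `M`.** -/
theorem isWeakRed_of_placeRed_pull (N M p : ℕ) [NeZero N] [NeZero M]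
    (hcomm : HeckeOperatorsCommuteBar N)
    (A : ValuationSubring (AlgebraicClosure ℚ)) (ℓ : ℕ) (hℓ : ℓ.Prime) (hℓp : ¬ ℓ ∣ p)
    (σ₀ : AlgebraicClosure ℚ ≃ₐ[ℚ] AlgebraicClosure ℚ) (hσ₀ : A.IsFrobeniusAt σ₀ ℓ)
    (HIA : haveI : NeZero ℓ := ⟨hℓ.ne_zero⟩; HeckeInputsAlong (AlgebraicClosure ℚ) M ℓ)
    (hS18 : InjTorsionModL M ℓ A)
    (D : haveI : NeZero ℓ := ⟨hℓ.ne_zero⟩; PlaceRed M A ℓ σ₀)
    (Pd : haveI : NeZero ℓ := ⟨hℓ.ne_zero⟩; PullData N M ℓ) :
    letI := heckeModuleBar N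
    ∀ (_ : SMulCommClass (AlgebraicClosure ℚ ≃ₐ[ℚ] AlgebraicClosure ℚ) HeckeAlg (JZero N)),
      IsWeakRed (K := ℚ) p (JZero N) A ℓ hℓ σ₀
        (haveI : NeZero ℓ := ⟨hℓ.ne_zero⟩; D.red.comp Pd.pull) := by
  letI := heckeModuleBar N
  haveI : NeZero ℓ := ⟨hℓ.ne_zero⟩
  intro _
  refine ⟨hσ₀, ?_, ?_, ?_⟩
  · intro τ hτ x
    show D.red (Pd.pull (τ • x)) = D.red (Pd.pull x)
    rw [Pd.galois, D.red_inertia hτ]
  · rintro x ⟨n, hn⟩ hx
    have hℓpn : ¬ ℓ ∣ p ^ n := fun h => hℓp (hℓ.dvd_of_dvd_pow h)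
    refine Pd.inj_torsion (p ^ n) hℓpn x hn ?_
    refine D.red_inj_torsion hS18 (m := p ^ n) hℓpn ?_ hx
    rw [← map_nsmul, hn, map_zero]
  · intro x
    rw [heckeModuleBar_heckeGen_smul hcomm ⟨ℓ, hℓ⟩ (σ₀ • x)]
    show D.red (Pd.pull (σ₀ • σ₀ • x - heckeOperatorAlong (AlgebraicClosure ℚ) N ℓ (σ₀ • x)
      + ℓ • x)) = 0
    rw [map_add, map_sub, map_nsmul, Pd.galois, Pd.galois, Pd.hecke, Pd.galois]
    exact D.red_relation HIA (Pd.pull x)

/-- **S37 from the pieces, the place reduction living at auxiliary levels.** -/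
theorem result_of_pieces' (N p : ℕ) [NeZero N]
    (H : ∀ (ℓ : ℕ) (hℓ : ℓ.Prime), ¬ ℓ ∣ N →
      ∀ A : ValuationSubring (AlgebraicClosure ℚ), A.LiesOverPrime ℓ →
        ∀ σ₀ : AlgebraicClosure ℚ ≃ₐ[ℚ] AlgebraicClosure ℚ, A.IsFrobeniusAt σ₀ ℓ →
          haveI : NeZero ℓ := ⟨hℓ.ne_zero⟩
          ∃ (M : ℕ) (_ : NeZero M), HeckeInputsAlong (AlgebraicClosure ℚ) M ℓ ∧
            InjTorsionModL M ℓ A ∧ Nonempty (PlaceRed M A ℓ σ₀) ∧ Nonempty (PullData N M ℓ))
    (hcomm : ModularCurve.HeckeOperatorsCommuteBar N) :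
    letI := ModularCurve.heckeModuleBar N
    ∀ (_ : SMulCommClass (AlgebraicClosure ℚ ≃ₐ[ℚ] AlgebraicClosure ℚ) ModularCurve.HeckeAlg
      (ModularCurve.JZero N)),
      ModularCurve.SpecializationExists (K := ℚ) (L := AlgebraicClosure ℚ) N p
        (ModularCurve.JZero N) := by
  letI := ModularCurve.heckeModuleBar N
  intro inst ℓ hℓ hdvd A hA
  have hℓN : ¬ ℓ ∣ N := fun h => hdvd (Dvd.dvd.mul_right h p)
  have hℓp : ¬ ℓ ∣ p := fun h => hdvd (Dvd.dvd.mul_left h N)
  obtain ⟨σ₀, hσ₀⟩ := exists_isFrobeniusAt ℓ hℓ A hA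
  haveI : NeZero ℓ := ⟨hℓ.ne_zero⟩
  obtain ⟨M, hM, hHIA, hS18, ⟨D⟩, ⟨Pd⟩⟩ := H ℓ hℓ hℓN A hA σ₀ hσ₀
  exact exists_specialization_of_isWeakRed p A ℓ hℓ σ₀ (D.red.comp Pd.pull)
    (isWeakRed_of_placeRed_pull N M p hcomm A ℓ hℓ hℓp σ₀ hσ₀ hHIA hS18 D Pd inst)

end Fermat.Agent.S37.Core

end
end
-- ===== PACK-END S37/Core/AssemblePull.lean

-- ===== PACK-BEGIN S37/H697/HeckeBound.lean
section


/-!
# S37 (helper697): the Hecke correspondence is bounded on prime divisors

If all places of `F_N ⊗ L` have degree one, then `T (P)` is an effective divisor of degree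
`[F_{Nℓ} : β F_N]`, hence of `ℓ¹`-norm `[F_{Nℓ} : β F_N]`.  This discharges the boundedness
hypothesis `hC` of `relation_divisor`.
-/

set_option autoImplicit false
set_option linter.style.haveILetI false

noncomputable section

open HahnSeries IntermediateField AlgebraicCurve ModularCurve

namespace Fermat.Agent.S37.H697

section General

variable {K F F' : Type*} [Field K] [Field F] [Field F'] [Algebra K F] [Algebra K F']

theorem l1norm_eq_degree_of_nonneg (hdeg : ∀ v : Place K F, v.deg = 1) (D : Divisor K F)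
    (hD : ∀ v, 0 ≤ D v) : (l1norm D : ℤ) = Divisor.degree D := by
  unfold l1norm Divisor.degree
  rw [Finsupp.liftAddHom_apply, Finsupp.sum, Finsupp.sum, Nat.cast_sum]
  refine Finset.sum_congr rfl fun v _ => ?_
  rw [AddMonoidHom.mulRight_apply, hdeg v, Nat.cast_one, mul_one]
  exact Int.natAbs_of_nonneg (hD v)

theorem pullbackAlong_nonneg [HasPrincipalDivisors K F'] (φ : F →ₐ[K] F')
    (hφ : φ.toRingHom.IsIntegral) (D : Divisor K F) (hD : ∀ v, 0 ≤ D v) (w : Place K F') :
    0 ≤ Divisor.pullbackAlong φ hφ D w := by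
  letI := algebraAlong φ
  haveI := isScalarTower_along φ
  haveI := isIntegral_along φ hφ
  show 0 ≤ Divisor.pullback F' D w
  rw [Divisor.pullback_apply]
  exact mul_nonneg (Int.natCast_nonneg _) (hD _)

theorem pushforwardAlong_nonneg (φ : F →ₐ[K] F')
    (hφ : φ.toRingHom.IsIntegral) (D : Divisor K F') (hD : ∀ w, 0 ≤ D w) (v : Place K F) :
    0 ≤ Divisor.pushforwardAlong φ hφ D v := by
  classical
  letI := algebraAlong φ
  haveI := isScalarTower_along φ
  haveI := isIntegral_along φ hφ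
  show 0 ≤ Divisor.pushforward F D v
  rw [Divisor.pushforward_apply]
  refine Finset.sum_nonneg fun w _ => ?_
  split_ifs
  · exact mul_nonneg (hD w) (Int.natCast_nonneg _)
  · exact le_rfl

end General

section Hecke

variable {L : Type*} [Field L] [Algebra ℚ L] {N ℓ : ℕ} [NeZero N] [NeZero ℓ]
variable (hα : HeckeAlphaBarIntegral L N ℓ) (hβ : HeckeBetaBarIntegral L N ℓ)
variable [HasPrincipalDivisors L (laurentBaseChange L (modularFunctionFieldFull (N * ℓ)))]

/-- `T (P)` has `ℓ¹`-norm `[F_{Nℓ} : β F_N]`. -/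
theorem l1norm_heckeDivBar_single
    (hdeg : ∀ P : Place L (laurentBaseChange L (modularFunctionFieldFull N)), P.deg = 1)
    (hFI : FundamentalIdentityAlong L (heckeBetaBar L N ℓ) hβ)
    (P : Place L (laurentBaseChange L (modularFunctionFieldFull N))) :
    l1norm (heckeDivBar hα hβ (Finsupp.single P 1)) = finrankAlong L (heckeBetaBar L N ℓ) := by
  classical
  have hnn : ∀ v, 0 ≤ heckeDivBar hα hβ (Finsupp.single P 1) v := by
    intro v
    refine pushforwardAlong_nonneg (heckeAlphaBar L N ℓ) hα _ (fun w => ?_) v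
    refine pullbackAlong_nonneg (heckeBetaBar L N ℓ) hβ _ (fun u => ?_) w
    rw [Finsupp.single_apply]
    split_ifs <;> norm_num
  have h1 := l1norm_eq_degree_of_nonneg hdeg _ hnn
  have h2 : Divisor.degree (heckeDivBar hα hβ (Finsupp.single P 1))
      = (finrankAlong L (heckeBetaBar L N ℓ) : ℤ) * Divisor.degree (Finsupp.single P (1 : ℤ)) :=
    Divisor.degree_correspondence (heckeBetaBar L N ℓ) (heckeAlphaBar L N ℓ) hβ hα hFI _
  rw [h2, Divisor.degree_single, hdeg P, Nat.cast_one, mul_one, mul_one] at h1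
  exact_mod_cast h1

end Hecke

end Fermat.Agent.S37.H697

end
end
-- ===== PACK-END S37/H697/HeckeBound.lean

-- ===== PACK-BEGIN S18/B12/H33/B2Regular.lean
section












/-!
# S18 b2 (squad S18/S33, assembled by helper33): `b2Regular : B2RegularStatement`, UNCONDITIONAL

This is output O1 of piece b2 of Route K (see `B12/Spec3.lean`): for a finite, torsion-free,
integrally closed `R[X]`-algebra `B` (`R` a DVR-like PID of characteristic 0 with prime `w`) whose
special fibre `B / w B` is a domain and generically separable over `k[X]`, tame at the primes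
`X - c` (`c ∈ S`, distinct mod `w`) and unramified (reduced fibre) at all other primes of `R[X]`,
the ring `B` is regular along `w`:  `H754.RegularAlong (algebraMap R[X] B (C w))`.

Pieces (all sorry-free, standard axioms):
* A0, A2, A2' (regular sequence, local bases, rank)  : helper93  (`B12/H93`; also helper873)
* A3  (discriminant reduction)                        : helper393 (`B12/H393`; also helper203/204)
* A4, A1 (UFD step, polynomial-ring instance)         : helper203 (`B12/H203`; also helper245/693)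
* A5  (generic discriminant, tame)                    : helper444 (`B12/H444`, via helper274 P3)
* A5' (reduction basis)                               : helper203 (`B12/H203`; also helper245/633)
* A8, A9 (integrally closed fibre, Dedekind => regular): helper84 (`B12/H84`, via helper278 P2;
                                                        also helper231/845)
* heart A6' and glue O1                               : helper33  (`B12/H33`)
-/

set_option autoImplicit false

namespace Fermat.Agent.S18.B12.H33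

universe u v

/-- **A6' (heart of b2), unconditional.** -/
theorem b2CoreAbs : B2CoreAbsStatement.{u, v} :=
  b2CoreAbs_of_pieces H93.regSeqAbs H93.localBasis H93.localBasisRank H393.discrRed
    H203.ufdStep H444.genericDiscr H203.redBasisAbs

/-- **O1 = b2, unconditional**: `H754.RegularAlong (C w)` for the chart ring. -/
theorem b2Regular : B2RegularStatement.{u, v} :=
  b2Regular_of_pieces b2CoreAbs H93.regSeqAbs H84.a8 H84.a9 H203.polyInst

end Fermat.Agent.S18.B12.H33

end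
-- ===== PACK-END S18/B12/H33/B2Regular.lean

-- ===== PACK-BEGIN S17/H497/HermiteMinkowski.lean
section



/-!
# S17 / W-HM (helper497): Hermite–Minkowski for subfields of `ℚ̄`

`finite_unramified_fields` : for a finite set `S` of primes and `d : ℕ` there are only finitely
many subfields `K ⊂ ℚ̄` with `[K : ℚ] ≤ d` such that all inertia groups (of valuation subrings of
`ℚ̄`) at primes `ℓ ∉ S` fix `K` pointwise.  (EXACT statement of `Skel.finite_unramified_fields`
with `Skel.UnramifiedAt` unfolded.)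

Proof: pass to the Galois closure `L` (degree `≤ d!`, still unramified outside `S`), translate
to ramification indices (S55 bridge, helper594), bound the discriminant (`DiscBound.lean`),
apply Hermite's theorem (`NumberField.finite_of_discr_bdd`), and use that a number field has
finitely many subfields.
-/

set_option autoImplicit false
set_option linter.style.haveILetI false

open NumberField IntermediateField
open scoped Pointwise

namespace Fermat.Agent.S17.H497

open Fermat.Agent.S55.Bridge Fermat.Agent.S55.Bridge.H594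

local notation "Qb" => AlgebraicClosure ℚ
local notation "GQ" => (AlgebraicClosure ℚ ≃ₐ[ℚ] AlgebraicClosure ℚ)

attribute [local instance] isAlgebraic_Qbar isGalois_Qbar numberField_of_finite

/-- The index of the normal core divides the factorial of the index. -/
theorem index_normalCore_dvd_factorial {G : Type*} [Group G] (H : Subgroup G)
    (hH : H.index ≠ 0) : H.normalCore.index ∣ H.index.factorial := by
  haveI : H.FiniteIndex := ⟨hH⟩
  haveI : Finite (G ⧸ H) := Subgroup.finite_quotient_of_finiteIndex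
  rw [Subgroup.normalCore_eq_ker, Subgroup.index_ker, Subgroup.index_eq_card, ← Nat.card_perm]
  exact Subgroup.card_subgroup_dvd_card (MulAction.toPermHom G (G ⧸ H)).range

/-- The Prelude-style unramifiedness condition outside `S`. -/
def IsUnrOut (S : Finset ℕ) (K : IntermediateField ℚ Qb) : Prop :=
  ∀ ℓ : ℕ, ℓ.Prime → ℓ ∉ S → ∀ A : ValuationSubring Qb, A.LiesOverPrime ℓ →
    ∀ σ ∈ A.inertiaSubgroupIn ℚ, ∀ a ∈ K, σ a = a

theorem isUnrOut_iff (S : Finset ℕ) (K : IntermediateField ℚ Qb) :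
    IsUnrOut S K ↔ ∀ ℓ : ℕ, ℓ.Prime → ℓ ∉ S → ∀ A : ValuationSubring Qb, A.LiesOverPrime ℓ →
      A.inertiaSubgroupIn ℚ ≤ K.fixingSubgroup := by
  unfold IsUnrOut
  refine forall_congr' fun ℓ => forall_congr' fun _ => forall_congr' fun _ =>
    forall_congr' fun A => forall_congr' fun _ => ?_
  constructor
  · intro h σ hσ
    rw [IntermediateField.mem_fixingSubgroup_iff]
    exact h σ hσ
  · intro h σ hσ
    exact (IntermediateField.mem_fixingSubgroup_iff K σ).1 (h hσ)

/-- Galois closure with control of degree and ramification. -/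
theorem exists_galois_closure (S : Finset ℕ) (K : IntermediateField ℚ Qb)
    [FiniteDimensional ℚ K] (hK : IsUnrOut S K) :
    ∃ L : IntermediateField ℚ Qb, FiniteDimensional ℚ L ∧ IsGalois ℚ L ∧ K ≤ L ∧
      Module.finrank ℚ L ∣ (Module.finrank ℚ K).factorial ∧ IsUnrOut S L := by
  rw [isUnrOut_iff] at hK
  haveI : (K.fixingSubgroup.normalCore).Normal := Subgroup.normalCore_normal _
  have hfinN : FiniteDimensional ℚ (IntermediateField.normalClosure ℚ K Qb) :=
    normalClosure.is_finiteDimensional ℚ K Qb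
  have hgalN : IsGalois ℚ (IntermediateField.normalClosure ℚ K Qb) :=
    IsGalois.normalClosure ℚ K Qb
  have hnormal : (IntermediateField.normalClosure ℚ K Qb).fixingSubgroup.Normal :=
    (InfiniteGalois.normal_iff_isGalois _).2 hgalN
  have hle : (IntermediateField.normalClosure ℚ K Qb).fixingSubgroup
      ≤ K.fixingSubgroup.normalCore := by
    rw [Subgroup.normal_le_normalCore]
    exact IntermediateField.fixingSubgroup_antitone (IntermediateField.le_normalClosure K)
  classical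
  let S' : Finset Nat.Primes := S.subtype Nat.Prime
  obtain ⟨L, hL, hgal, hfix, -⟩ := exists_galois_level_of_subgroup
    S' K.fixingSubgroup.normalCore
    (IntermediateField.normalClosure ℚ K Qb) hfinN hle
    (by
      intro q hq A hA σ hσ
      have hqS : (q : ℕ) ∉ S := fun h => hq (Finset.mem_subtype.2 h)
      rw [Subgroup.normalCore]
      intro b
      have h1 := conj_mem_inertiaSubgroupIn A b σ hσ
      exact hK q q.2 hqS (b • A) (liesOverPrime_smul A b q hA) h1)
  have hKL : K ≤ L := by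
    have h2 : L.fixingSubgroup ≤ K.fixingSubgroup := by
      rw [hfix]
      exact Subgroup.normalCore_le _
    rw [← InfiniteGalois.fixedField_fixingSubgroup K, ← InfiniteGalois.fixedField_fixingSubgroup L]
    exact IntermediateField.fixedField_antitone h2
  refine ⟨L, hL.1, hgal, hKL, ?_, ?_⟩
  · rw [IntermediateField.finrank_eq_fixingSubgroup_index Qb L,
      IntermediateField.finrank_eq_fixingSubgroup_index Qb K, hfix]
    apply index_normalCore_dvd_factorial
    rw [← IntermediateField.finrank_eq_fixingSubgroup_index Qb K]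
    exact Module.finrank_pos.ne'
  · rw [isUnrOut_iff]
    intro ℓ hℓ hℓS A hA
    exact hL.2 ⟨ℓ, hℓ⟩ (fun h => hℓS (Finset.mem_subtype.1 h)) A hA

/-- The discriminant bound `B(S, D) = (∏_{p ∈ S prime} p ^ D) ^ D`. -/
def discBound (S : Finset ℕ) (D : ℕ) : ℕ := (∏ p ∈ S.filter Nat.Prime, p ^ D) ^ D

theorem prod_pow_pow_le (S : Finset ℕ) {n D : ℕ} (h : n ≤ D) :
    (∏ p ∈ S.filter Nat.Prime, p ^ n) ^ n ≤ discBound S D := by
  unfold discBound
  have hpos : ∀ p ∈ S.filter Nat.Prime, 1 ≤ p := fun p hp =>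
    (Finset.mem_filter.1 hp).2.one_le
  have h1 : ∏ p ∈ S.filter Nat.Prime, p ^ n ≤ ∏ p ∈ S.filter Nat.Prime, p ^ D :=
    Finset.prod_le_prod' fun p hp => Nat.pow_le_pow_right (hpos p hp) h
  have h2 : 1 ≤ ∏ p ∈ S.filter Nat.Prime, p ^ D :=
    Finset.one_le_prod' fun p hp => Nat.one_le_pow _ _ (hpos p hp)
  calc (∏ p ∈ S.filter Nat.Prime, p ^ n) ^ n
      ≤ (∏ p ∈ S.filter Nat.Prime, p ^ D) ^ n := Nat.pow_le_pow_left h1 n
    _ ≤ (∏ p ∈ S.filter Nat.Prime, p ^ D) ^ D := Nat.pow_le_pow_right h2 h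

/-- Discriminant bound for a finite Galois subfield of `ℚ̄` unramified outside `S`. -/
theorem abs_discr_le (S : Finset ℕ) (D : ℕ) (L : IntermediateField ℚ Qb)
    [FiniteDimensional ℚ L] [IsGalois ℚ L] (hdeg : Module.finrank ℚ L ≤ D)
    (hL : IsUnrOut S L) : |discr L| ≤ (discBound S D : ℤ) := by
  have hur : ∀ q : ℕ, q.Prime → q ∉ S →
      (Ideal.span {(q : ℤ)}).ramificationIdxIn (𝓞 L) = 1 := fun q hq hqS =>
    (inertia_le_fixingSubgroup_iff_ramificationIdxIn L hq).mp ((isUnrOut_iff S L).1 hL q hq hqS)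
  have h1 := natAbs_discr_dvd_of_unramified_outside L S hur
  have hpos : 0 < (∏ p ∈ S.filter Nat.Prime, p ^ Module.finrank ℚ L) ^ Module.finrank ℚ L := by
    apply pow_pos
    exact Finset.prod_pos fun p hp => pow_pos (Finset.mem_filter.1 hp).2.pos _
  have h2 : (discr L).natAbs ≤ discBound S D :=
    (Nat.le_of_dvd hpos h1).trans (prod_pow_pow_le S hdeg)
  rw [Int.abs_eq_natAbs]
  exact_mod_cast h2

/-- A finite extension of `ℚ` inside `ℚ̄` has finitely many subfields. -/
theorem finite_le (L : IntermediateField ℚ Qb) [FiniteDimensional ℚ L] :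
    {K : IntermediateField ℚ Qb | K ≤ L}.Finite := by
  have hfin : Finite (IntermediateField ℚ L) :=
    Field.finite_intermediateField_of_exists_primitive_element ℚ L
      (Field.exists_primitive_element ℚ L)
  refine (@Set.finite_range _ _ (IntermediateField.lift (F := L)) hfin).subset ?_
  intro K hK
  exact ⟨IntermediateField.restrict hK, IntermediateField.lift_restrict hK⟩

/-- **W-HM (Hermite–Minkowski).**  Finitely many subfields of `ℚ̄` of degree `≤ d` unramified
outside `S`.  (Exact statement of the S17 skeleton, `UnramifiedAt` unfolded.) -/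
theorem finite_unramified_fields (S : Finset ℕ) (d : ℕ) :
    {K : IntermediateField ℚ Qb | FiniteDimensional ℚ K ∧ Module.finrank ℚ K ≤ d ∧
      ∀ ℓ : ℕ, ℓ.Prime → ℓ ∉ S → ∀ A : ValuationSubring Qb, A.LiesOverPrime ℓ →
        ∀ σ ∈ A.inertiaSubgroupIn ℚ, ∀ a ∈ K, σ a = a}.Finite := by
  have hfin := NumberField.finite_of_discr_bdd Qb (discBound S d.factorial)
  refine (Set.Finite.biUnion hfin (fun L _ => by
    haveI := L.2
    exact finite_le L.1)).subset ?_
  rintro K ⟨hKfin, hKdeg, hK⟩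
  haveI := hKfin
  obtain ⟨L, hLfin, hLgal, hKL, hdeg, hL⟩ := exists_galois_closure S K hK
  haveI := hLfin
  haveI := hLgal
  have hdeg' : Module.finrank ℚ L ≤ d.factorial :=
    (Nat.le_of_dvd (Nat.factorial_pos _) hdeg).trans (Nat.factorial_le hKdeg)
  refine Set.mem_iUnion₂.2 ⟨⟨L, hLfin⟩, ?_, hKL⟩
  exact abs_discr_le S d.factorial L hdeg' hL

end Fermat.Agent.S17.H497

end
-- ===== PACK-END S17/H497/HermiteMinkowski.lean

-- ===== PACK-BEGIN S17/H380/AbsNullCert.lean
section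



set_option linter.unusedSectionVars false

namespace Fermat.Agent.S17.H380

open NumberField Height Module MvPolynomial

section OnCone

variable {K₀ A : Type*} [Field K₀] [NumberField K₀] [Field A] [CharZero A] [Algebra K₀ A]
variable {ι ι' : Type*} [_root_.Finite ι] [Fintype ι']

/-- **Absolute height lower bound on a closed cone.**  If the homogeneous polynomials `p j` of
degree `N` (over a number field `K₀`) have no common zero other than the origin on the cone of
the homogeneous ideal `I` (over an algebraically closed extension `L`), then there is a constant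
`C` such that for ALL algebraic points `x` of the cone (with coordinates in any field `A` of
characteristic zero over `K₀`)  `C + N * absLogHeight x ≤ absLogHeight (p j (x))_j`. -/
theorem absLogHeight_eval_ge_on (L : Type*) [Field L] [Algebra K₀ L] [IsAlgClosed L]
    (I : Ideal (MvPolynomial ι K₀)) (hI : H500.HomIdeal I) {N : ℕ}
    (p : ι' → MvPolynomial ι K₀) (hp : ∀ j, (p j).IsHomogeneous N)
    (h0 : ∀ x : ι → L, (∀ f ∈ I, aeval x f = 0) → (∀ j, aeval x (p j) = 0) → x = 0) :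
    ∃ C : ℝ, ∀ x : ι → A, (∀ i, IsIntegral ℚ (x i)) → (∀ f ∈ I, aeval x f = 0) →
      C + N * absLogHeight x ≤ absLogHeight (fun j => aeval x (p j)) := by
  obtain ⟨M, q, hq, hqI⟩ := H500.exists_certificate L I hI p hp h0
  refine ⟨-(Real.log (Nat.card ι') +
    (finrank ℚ K₀ : ℝ)⁻¹ * Real.log (max (mulHeightBound q) 1)), fun x hx hxI => ?_⟩
  refine absLogHeight_eval_ge hq p hx (fun k => ?_)
  have := hxI _ (hqI k)
  simpa [sub_eq_zero] using this

/-- Two-sided version: `|absLogHeight (p (x)) - N * absLogHeight x| ≤ C` on the cone of `I`,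
uniformly over all algebraic points. -/
theorem abs_absLogHeight_eval_sub_le_on (L : Type*) [Field L] [Algebra K₀ L] [IsAlgClosed L]
    (I : Ideal (MvPolynomial ι K₀)) (hI : H500.HomIdeal I) {N : ℕ}
    (p : ι' → MvPolynomial ι K₀) (hp : ∀ j, (p j).IsHomogeneous N)
    (h0 : ∀ x : ι → L, (∀ f ∈ I, aeval x f = 0) → (∀ j, aeval x (p j) = 0) → x = 0) :
    ∃ C : ℝ, ∀ x : ι → A, (∀ i, IsIntegral ℚ (x i)) → (∀ f ∈ I, aeval x f = 0) →
      |absLogHeight (fun j => aeval x (p j)) - N * absLogHeight x| ≤ C := by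
  obtain ⟨C₂, hC₂⟩ := absLogHeight_eval_ge_on (A := A) L I hI p hp h0
  set C₁ := (finrank ℚ K₀ : ℝ)⁻¹ * Real.log (max (mulHeightBound p) 1) with hC₁
  refine ⟨max C₁ (-C₂), fun x hx hxI => abs_sub_le_iff.mpr ⟨?_, ?_⟩⟩
  · have := absLogHeight_eval_le hp x hx
    have h2 := le_max_left C₁ (-C₂)
    linarith
  · have := hC₂ x hx hxI
    have h2 := le_max_right C₁ (-C₂)
    linarith

end OnCone

end Fermat.Agent.S17.H380

end
-- ===== PACK-END S17/H380/AbsNullCert.lean

-- ===== PACK-BEGIN S17/H740/SegreAbs.lean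
section




/-!
# Multi-slot Nullstellensatz bound for the ABSOLUTE height (leaf SEGRE, ABS form)

Foundation: helper380's `absLogHeight` (absolute logarithmic Weil height of a tuple of algebraic
numbers in any field `A` of characteristic zero).

* `aeval_segrePt_eq_zero_of_mem_segreIdeal` : DESCENT.  The Segre ideal `segreIdeal L I` is the
  vanishing ideal of the `L`-points (`L` algebraically closed) of the Segre image of the product
  of the cones of the `I a`; it also vanishes at the ALGEBRAIC `A`-points of that product, for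
  every field `A` over `k` (no map between `A` and `L` needed).
* `absLogHeight_multi_eval_ge_on` : `p j` multihomogeneous of multidegree `(N, …, N)` over a number
  field `K₀`, without common zero on the product of the punctured cones of the `I a` ⟹
  `C + N * ∑ a, absLogHeight (u a) ≤ absLogHeight (p j (u))_j` for all algebraic points `u` of the
  product of the cones with all `u a ≠ 0`.
* `absLogHeight_multi_eval_le`, `abs_absLogHeight_multi_eval_sub_le_on` : upper and two-sided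
  bound.
-/

set_option autoImplicit false
set_option linter.unusedSectionVars false

noncomputable section

namespace Fermat.Agent.S17.H740

open MvPolynomial
open Fermat.Agent.S17.H500 (HomIdeal)
open Fermat.Agent.S17.H380 (absLogHeight)

section Transfer

variable {k : Type*} [Field k] {α : Type*} [Fintype α] {ι : α → Type*}
variable {A : Type*} [Field A] [Algebra k A]

omit [Fintype α] in
theorem coe_aeval_intermediateField {σ : Type*} (E : IntermediateField k A) (x : σ → E)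
    (f : MvPolynomial σ k) : ((aeval x f : E) : A) = aeval (fun s => (x s : A)) f :=
  comp_aeval_apply (f := x) (IntermediateField.val E) f

/-- **Descent.**  The Segre ideal (defined through `L`-points) vanishes at the Segre image of
every ALGEBRAIC `A`-point of the product of the cones. -/
theorem aeval_segrePt_eq_zero_of_mem_segreIdeal (L : Type*) [Field L] [Algebra k L]
    [IsAlgClosed L] {I : ∀ a, Ideal (MvPolynomial (ι a) k)} {u : (a : α) → ι a → A}
    (halg : ∀ a i, IsIntegral k (u a i)) (hu : ∀ a, ∀ f ∈ I a, aeval (u a) f = 0)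
    {P : MvPolynomial ((a : α) → ι a) k} (hP : P ∈ segreIdeal L I) :
    aeval (segrePt u) P = 0 := by
  classical
  let E : IntermediateField k A := IntermediateField.adjoin k (Set.range (sigmaPt u))
  have hEalg : Algebra.IsAlgebraic k E :=
    IntermediateField.isAlgebraic_adjoin (by
      rintro x ⟨s, rfl⟩
      exact halg s.1 s.2)
  let φ : E →ₐ[k] L := IsAlgClosed.lift
  let w : (a : α) → ι a → E := fun a i =>
    ⟨u a i, IntermediateField.subset_adjoin k _ ⟨⟨a, i⟩, rfl⟩⟩
  have hw : InCones L I (fun a i => φ (w a i)) := by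
    intro a f hf
    have h1 : aeval (fun i => φ (w a i)) f = φ (aeval (w a) f) :=
      (comp_aeval_apply (f := w a) φ f).symm
    have h2 : aeval (w a) f = 0 := by
      apply Subtype.ext
      rw [coe_aeval_intermediateField]
      exact hu a f hf
    rw [h1, h2, map_zero]
  have h3 := hP _ hw
  have h4 : segrePt (fun a i => φ (w a i)) = fun f => φ (segrePt w f) := by
    funext f
    simp only [segrePt, map_prod]
  rw [h4, ← comp_aeval_apply (f := segrePt w) φ P] at h3
  have h5 : aeval (segrePt w) P = 0 := (map_eq_zero φ).mp h3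
  have h6 : (fun f => ((segrePt w f : E) : A)) = segrePt u := by
    funext f
    simp only [segrePt]
    push_cast
    rfl
  rw [← h6, ← coe_aeval_intermediateField, h5]
  rfl

end Transfer

section Abs

universe u v

variable {K₀ A : Type*} [Field K₀] [NumberField K₀] [Field A] [CharZero A] [Algebra K₀ A]
variable {α : Type u} [Fintype α] {ι : α → Type v} {ι' : Type*}

theorem isIntegral_base_of_rat {x : A} (hx : IsIntegral ℚ x) : IsIntegral K₀ x :=
  hx.tower_top

theorem isIntegral_segrePt {u : (a : α) → ι a → A} (hu : ∀ a i, IsIntegral ℚ (u a i))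
    (f : (a : α) → ι a) : IsIntegral ℚ (segrePt u f) := by
  simp only [segrePt]
  exact IsIntegral.prod _ fun a _ => hu a (f a)

theorem segrePt_ne_zero' {u : (a : α) → ι a → A} (hu : ∀ a, u a ≠ 0) : segrePt u ≠ 0 := by
  have hex : ∀ a, ∃ i : ι a, u a i ≠ 0 := fun a => by
    by_contra h
    exact hu a (_root_.funext fun j => by_contra fun hj => h ⟨j, hj⟩)
  choose f hf using hex
  intro h
  have := congrFun h f
  simp only [segrePt, Pi.zero_apply] at this
  exact (Finset.prod_ne_zero_iff.mpr fun a _ => hf a) this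

/-- **Absolute height, lower bound for multihomogeneous maps without common zero on a product
of cones.** -/
theorem absLogHeight_multi_eval_ge_on [Nonempty α] [∀ a, Finite (ι a)] [Fintype ι']
    (L : Type*) [Field L] [Algebra K₀ L] [IsAlgClosed L]
    (I : ∀ a, Ideal (MvPolynomial (ι a) K₀)) (hI : ∀ a, HomIdeal (I a)) {N : ℕ}
    (p : ι' → MvPolynomial (Σ a, ι a) K₀)
    (hp : ∀ j, ∃ P : MvPolynomial ((a : α) → ι a) K₀, P.IsHomogeneous N ∧ segreSubst K₀ P = p j)
    (h0 : ∀ u : (a : α) → ι a → L, InCones L I u → (∀ j, aeval (sigmaPt u) (p j) = 0) →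
      ∃ a, u a = 0) :
    ∃ C : ℝ, ∀ u : (a : α) → ι a → A, (∀ a i, IsIntegral ℚ (u a i)) →
      (∀ a, ∀ f ∈ I a, aeval (u a) f = 0) → (∀ a, u a ≠ 0) →
      C + N * ∑ a, absLogHeight (u a) ≤ absLogHeight (fun j => aeval (sigmaPt u) (p j)) := by
  classical
  choose P hPhom hPp using hp
  obtain ⟨C, hC⟩ := H380.absLogHeight_eval_ge_on (A := A) L (segreIdeal L I)
    (homIdeal_segreIdeal hI) P hPhom (by
      intro z hzJ hzP
      by_contra hz0
      obtain ⟨u, rfl⟩ := exists_segrePt_eq hzJ hz0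
      have hu0 : ∀ a, u a ≠ 0 := fun a h => hz0 (segrePt_eq_zero_of h)
      have hu := inCones_of_segrePt hI hu0 hzJ
      obtain ⟨a, ha⟩ := h0 u hu (fun j => by
        rw [← hPp j, aeval_sigmaPt_segreSubst]; exact hzP j)
      exact hu0 a ha)
  refine ⟨C, fun u hint hu hu0 => ?_⟩
  have h1 := hC (segrePt u) (isIntegral_segrePt hint) (fun f hf =>
    aeval_segrePt_eq_zero_of_mem_segreIdeal L (fun a i => isIntegral_base_of_rat (hint a i)) hu hf)
  have h2 : absLogHeight (segrePt u) = ∑ a, absLogHeight (u a) :=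
    H380.absLogHeight_fun_prod_eq hint hu0
  rw [h2] at h1
  have h3 : (fun j => aeval (segrePt u) (P j)) = fun j => aeval (sigmaPt u) (p j) := by
    funext j
    rw [← hPp j, aeval_sigmaPt_segreSubst]
  rwa [h3] at h1

/-- **Absolute height, upper bound for multihomogeneous maps of multidegree `(N, …, N)`.** -/
theorem absLogHeight_multi_eval_le [∀ a, Finite (ι a)] [Finite ι'] {N : ℕ}
    (p : ι' → MvPolynomial (Σ a, ι a) K₀)
    (hp : ∀ j, ∃ P : MvPolynomial ((a : α) → ι a) K₀, P.IsHomogeneous N ∧ segreSubst K₀ P = p j) :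
    ∃ C : ℝ, ∀ u : (a : α) → ι a → A, (∀ a i, IsIntegral ℚ (u a i)) → (∀ a, u a ≠ 0) →
      absLogHeight (fun j => aeval (sigmaPt u) (p j)) ≤ C + N * ∑ a, absLogHeight (u a) := by
  classical
  choose P hPhom hPp using hp
  refine ⟨(Module.finrank ℚ K₀ : ℝ)⁻¹ * Real.log (max (Height.mulHeightBound P) 1),
    fun u hint hu0 => ?_⟩
  have h1 := H380.absLogHeight_eval_le hPhom (segrePt u) (isIntegral_segrePt hint)
  have h2 : absLogHeight (segrePt u) = ∑ a, absLogHeight (u a) :=
    H380.absLogHeight_fun_prod_eq hint hu0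
  rw [h2] at h1
  have h3 : (fun j => aeval (segrePt u) (P j)) = fun j => aeval (sigmaPt u) (p j) := by
    funext j
    rw [← hPp j, aeval_sigmaPt_segreSubst]
  rwa [h3] at h1

/-- Two-sided bound for the absolute height on a product of cones. -/
theorem abs_absLogHeight_multi_eval_sub_le_on [Nonempty α] [∀ a, Finite (ι a)] [Fintype ι']
    (L : Type*) [Field L] [Algebra K₀ L] [IsAlgClosed L]
    (I : ∀ a, Ideal (MvPolynomial (ι a) K₀)) (hI : ∀ a, HomIdeal (I a)) {N : ℕ}
    (p : ι' → MvPolynomial (Σ a, ι a) K₀)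
    (hp : ∀ j, ∃ P : MvPolynomial ((a : α) → ι a) K₀, P.IsHomogeneous N ∧ segreSubst K₀ P = p j)
    (h0 : ∀ u : (a : α) → ι a → L, InCones L I u → (∀ j, aeval (sigmaPt u) (p j) = 0) →
      ∃ a, u a = 0) :
    ∃ C : ℝ, ∀ u : (a : α) → ι a → A, (∀ a i, IsIntegral ℚ (u a i)) →
      (∀ a, ∀ f ∈ I a, aeval (u a) f = 0) → (∀ a, u a ≠ 0) →
      |absLogHeight (fun j => aeval (sigmaPt u) (p j)) - N * ∑ a, absLogHeight (u a)| ≤ C := by
  obtain ⟨C₁, hC₁⟩ := absLogHeight_multi_eval_le (A := A) p hp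
  obtain ⟨C₂, hC₂⟩ := absLogHeight_multi_eval_ge_on (A := A) L I hI p hp h0
  refine ⟨max C₁ (-C₂), fun u hint hu hu0 => abs_sub_le_iff.mpr ⟨?_, ?_⟩⟩
  · have := hC₁ u hint hu0
    have h2 := le_max_left C₁ (-C₂)
    linarith
  · have := hC₂ u hint hu hu0
    have h2 := le_max_right C₁ (-C₂)
    linarith

end Abs

end Fermat.Agent.S17.H740

end
end
-- ===== PACK-END S17/H740/SegreAbs.lean

-- ===== PACK-BEGIN Lib/Cheb/FrobFinite.lean
section





/-!
# CHEB, Tier 1, finite level: the qualitative Frobenius density theorem for Galois number fields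

Assembly of the pieces `Z`, `B0` (helper761), `A` (helper764), `D` (helper943), `M` (helper993).
-/

set_option autoImplicit false

namespace Fermat.Agent.Lib.Cheb

/-- **Frobenius density theorem (qualitative), finite level.**  For a Galois number field `L`,
`σ ∈ Gal(L/ℚ)` and a finite set `S` of primes there are a prime `p ∉ S`, a prime `P` of `𝓞 L`
above `p` with trivial inertia and an arithmetic Frobenius `τ` at `P` with `⟨τ⟩ = ⟨σ⟩`. -/
theorem frobFinite : Spec.FrobFiniteStatement :=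
  H993.frobFinite H761.primeSum_statement H761.primeCountBound_statement H764.count
    H943.frobStatement

end Fermat.Agent.Lib.Cheb

end
-- ===== PACK-END Lib/Cheb/FrobFinite.lean

-- ===== PACK-BEGIN Lib/Cheb/H476/Bridge.lean
section





/-!
# CHEB piece F6 (bridge): `Spec.BridgeDivisionStatement` and `Spec.BridgeStatement`

From the finite-level statements (Galois number fields, primes of rings of integers, Mathlib's
`IsArithFrobAt`) to the Prelude-level statements (valuation subrings of `ℚ̄`, Prelude's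
`IsFrobeniusAt`, `inertiaSubgroupIn`).
-/

set_option autoImplicit false
set_option linter.style.haveILetI false

open NumberField
open scoped Pointwise

namespace Fermat.Agent.Lib.Cheb.H476

open Fermat.Agent.Lib.Cheb.Spec

/-- The normal closure of a finite extension of `ℚ` inside `ℚ̄` is a number field. -/
theorem numberField_normalClosure (E : IntermediateField ℚ Qb) [FiniteDimensional ℚ E] :
    NumberField (IntermediateField.normalClosure ℚ E Qb) :=
  { to_charZero := inferInstance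
    to_finiteDimensional := inferInstance }

/-- The normal closure of a finite extension of `ℚ` inside `ℚ̄` is Galois over `ℚ`. -/
theorem isGalois_normalClosure (E : IntermediateField ℚ Qb) [FiniteDimensional ℚ E] :
    IsGalois ℚ (IntermediateField.normalClosure ℚ E Qb) := by
  haveI : Algebra.IsAlgebraic ℚ Qb := AlgebraicClosure.isAlgebraic ℚ
  haveI : IsAlgClosure ℚ Qb := ⟨inferInstance, inferInstance⟩
  haveI : Normal ℚ Qb := IsAlgClosure.normal ℚ Qb
  have hn : Normal ℚ (IntermediateField.normalClosure ℚ E Qb) := normalClosure.normal ℚ E Qb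
  exact isGalois_iff.mpr ⟨inferInstance, hn⟩

theorem restrictNormal_coe (L : IntermediateField ℚ Qb) [Normal ℚ L] (g : GQ) (x : L) :
    ((AlgEquiv.restrictNormal g L x : L) : Qb) = g (x : Qb) :=
  AlgEquiv.restrictNormal_commutes g L x

theorem restrictNormal_pow (L : IntermediateField ℚ Qb) [Normal ℚ L] (g : GQ) (n : ℕ) :
    AlgEquiv.restrictNormal (g ^ n) L = (AlgEquiv.restrictNormal g L) ^ n :=
  map_pow (AlgEquiv.restrictNormalHom L) g n

/-- **F6 / W5, Tier 1**: the bridge from the finite-level Frobenius density theorem to the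
Prelude-level division statement. -/
theorem bridgeDivision : BridgeDivisionStatement := by
  intro hF E hE σ S
  haveI := hE
  haveI := numberField_normalClosure E
  haveI := isGalois_normalClosure E
  obtain ⟨p, P, τ, hp, hpS, hP, hpP, hI, hτ, hz⟩ :=
    hF (IntermediateField.normalClosure ℚ E Qb)
      (AlgEquiv.restrictNormal σ (IntermediateField.normalClosure ℚ E Qb)) S
  obtain ⟨A, φ, hAp, hφ, hin, hφτ⟩ :=
    exists_frobenius_restrict (IntermediateField.normalClosure ℚ E Qb) p hp P hP hpP hI τ hτ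
  have h1 : τ ∈ Subgroup.zpowers
      (AlgEquiv.restrictNormal σ (IntermediateField.normalClosure ℚ E Qb)) :=
    hz ▸ Subgroup.mem_zpowers τ
  have h2 : AlgEquiv.restrictNormal σ (IntermediateField.normalClosure ℚ E Qb) ∈
      Subgroup.zpowers τ := hz.symm ▸ Subgroup.mem_zpowers _
  obtain ⟨k, hk⟩ := (isOfFinOrder_of_finite
    (AlgEquiv.restrictNormal σ (IntermediateField.normalClosure ℚ E Qb))).mem_powers_iff_mem_zpowers.mpr h1
  obtain ⟨j, hj⟩ := (isOfFinOrder_of_finite τ).mem_powers_iff_mem_zpowers.mpr h2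
  replace hk : AlgEquiv.restrictNormal σ (IntermediateField.normalClosure ℚ E Qb) ^ k = τ := hk
  replace hj : τ ^ j = AlgEquiv.restrictNormal σ (IntermediateField.normalClosure ℚ E Qb) := hj
  have hEL : E ≤ IntermediateField.normalClosure ℚ E Qb := IntermediateField.le_normalClosure E
  refine ⟨p, A, φ, k, j, hp, hpS, hAp, hφ, ?_, ?_, ?_⟩
  · intro ι hι x hx
    exact hin ι hι ⟨x, hEL hx⟩
  · intro x hx
    have h3 := hφτ ⟨x, hEL hx⟩
    rw [← hk, ← restrictNormal_pow, restrictNormal_coe] at h3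
    exact h3
  · intro x hx
    have h4 : AlgEquiv.restrictNormal (φ ^ j) (IntermediateField.normalClosure ℚ E Qb) =
        AlgEquiv.restrictNormal σ (IntermediateField.normalClosure ℚ E Qb) := by
      rw [restrictNormal_pow, ← hj]
      congr 1
      apply AlgEquiv.ext
      intro y
      apply Subtype.ext
      rw [restrictNormal_coe]
      exact hφτ y
    have h5 := restrictNormal_coe (IntermediateField.normalClosure ℚ E Qb) (φ ^ j) ⟨x, hEL hx⟩
    rw [h4, restrictNormal_coe] at h5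
    exact h5.symm

/-- **Bridge, Tier 2**: from finite-level qualitative Chebotarev to the Prelude-level
statement. -/
theorem bridge : BridgeStatement := by
  intro hF E hE σ S
  haveI := hE
  haveI := numberField_normalClosure E
  haveI := isGalois_normalClosure E
  obtain ⟨p, P, hp, hpS, hP, hpP, hI, hτ⟩ :=
    hF (IntermediateField.normalClosure ℚ E Qb)
      (AlgEquiv.restrictNormal σ (IntermediateField.normalClosure ℚ E Qb)) S
  obtain ⟨A, φ, hAp, hφ, hin, hφτ⟩ :=
    exists_frobenius_restrict (IntermediateField.normalClosure ℚ E Qb) p hp P hP hpP hI _ hτ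
  have hEL : E ≤ IntermediateField.normalClosure ℚ E Qb := IntermediateField.le_normalClosure E
  refine ⟨p, A, φ, hp, hpS, hAp, hφ, ?_, ?_⟩
  · intro ι hι x hx
    exact hin ι hι ⟨x, hEL hx⟩
  · intro x hx
    have h3 := hφτ ⟨x, hEL hx⟩
    rw [restrictNormal_coe] at h3
    exact h3

end Fermat.Agent.Lib.Cheb.H476

end
-- ===== PACK-END Lib/Cheb/H476/Bridge.lean

-- ===== PACK-BEGIN Lib/Cheb/FrobeniusDivision.lean
section



/-!
# CHEB, Tier 1 END: the Frobenius division theorem over `ℚ̄`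

`Fermat.Agent.Lib.Cheb.frobeniusDivision : Spec.FrobeniusDivisionStatement`

For every finite extension `E ⊆ ℚ̄` of `ℚ`, every `σ ∈ Gal(ℚ̄/ℚ)` and every finite set `S` of
numbers there are a prime `ℓ ∉ S`, a valuation subring `A` of `ℚ̄` over `ℓ`, a Frobenius `τ` at `A`
(Prelude's `IsFrobeniusAt`) and exponents `k`, `j` such that the inertia group of `A` acts
trivially on `E`, `τ = σ ^ k` on `E` and `τ ^ j = σ` on `E`
(i.e. `τ|_E` and `σ|_E` generate the same cyclic subgroup: "Frobenius density, qualitative").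

Assembled from
* `frobFinite` (finite level, Galois number fields; pieces Z, B0, A, D, M), and
* `H476.bridgeDivision` (bridge F6 from the finite level to valuation subrings of `ℚ̄`).
-/

set_option autoImplicit false

namespace Fermat.Agent.Lib.Cheb

/-- **Frobenius division theorem** (qualitative Frobenius density theorem over `ℚ̄`). -/
theorem frobeniusDivision : Spec.FrobeniusDivisionStatement :=
  H476.bridgeDivision frobFinite

end Fermat.Agent.Lib.Cheb

end
-- ===== PACK-END Lib/Cheb/FrobeniusDivision.lean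

-- ===== PACK-BEGIN S37/H818/LocalGen.lean
section
/-
S37 / LEVEL TRANSFER (helper818), part 4: local generators exist (weak approximation), so the
hypothesis `HasLocalGenerators` of `BaseChange.lean` is automatic.
-/





set_option autoImplicit false
set_option linter.style.haveILetI false

noncomputable section

namespace Fermat.Agent.S37.H818

open AlgebraicCurve

variable {K F F₁ : Type*} [Field K] [Field F] [Field F₁] [Algebra K F] [Algebra K F₁]

/-- Local generators always exist, by weak approximation on the (finite) fibre. -/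
theorem hasLocalGenerators [HasPrincipalDivisors K F₁] (a : F →ₐ[K] F₁)
    (ha : a.toRingHom.IsIntegral) : HasLocalGenerators a ha := by
  classical
  intro w
  set S : Finset (Place K F₁) := Place.fiberAlong a ha (w.restrictAlong a ha) with hS
  have hwS : w ∈ S := Place.mem_fiberAlong.mpr rfl
  obtain ⟨z, hz⟩ := Fermat.Agent.Lib.RR.H623.weak_approximation S (fun _ => (0 : F₁))
    (fun v => if v = w then 1 else 0)
  have hzw := hz w hwS
  simp only [sub_zero, if_true] at hzw
  refine ⟨z, hzw.1, by rw [hzw.2]; exact one_ne_zero, fun w' hw' hfib => ?_⟩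
  have hw'S : w' ∈ S := Place.mem_fiberAlong.mpr hfib
  have := (hz w' hw'S).2
  simpa [sub_zero, if_neg hw'] using this

end Fermat.Agent.S37.H818

end

end
-- ===== PACK-END S37/H818/LocalGen.lean

-- ===== PACK-BEGIN S37/H818/Modular.lean
section
/-
S37 / LEVEL TRANSFER (helper818), part 8: instantiation at the modular function fields.

Levels `N`, `M = N * k`, Hecke prime `ℓ`.  `π^* : Pic0(F_N) → Pic0(F_{N k})` is the pullback
along the Prelude's `heckeAlphaBar L N k` (inclusion of function fields).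
-/








set_option autoImplicit false
set_option linter.style.haveILetI false

noncomputable section

namespace Fermat.Agent.S37.H818

open AlgebraicCurve ModularCurve IntermediateField

variable (L : Type*) [Field L] [Algebra ℚ L]

/-- Monotonicity of `laurentBaseChange` (the Prelude's version is private). -/
theorem laurentBaseChange_mono {F₀ F₁ : IntermediateField ℚ (LaurentSeries ℚ)}
    (h : F₀ ≤ F₁) : laurentBaseChange L F₀ ≤ laurentBaseChange L F₁ := by
  rw [laurentBaseChange, IntermediateField.adjoin_le_iff]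
  rintro _ ⟨y, hy, rfl⟩
  exact coeffEmb_mem_laurentBaseChange L (h hy)

/-- The function field of level `N` over `L`. -/
abbrev FB (N : ℕ) : IntermediateField L (LaurentSeries L) :=
  laurentBaseChange L (modularFunctionFieldFull N)

/-- Inclusion of function fields for `N ∣ M`. -/
def degenIncl {N M : ℕ} [NeZero N] [NeZero M] (h : N ∣ M) : FB L N →ₐ[L] FB L M :=
  IntermediateField.inclusion (laurentBaseChange_mono L (full_degeneracy_le h))

@[simp]
theorem coe_degenIncl {N M : ℕ} [NeZero N] [NeZero M] (h : N ∣ M) (x : FB L N) :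
    (degenIncl L h x : LaurentSeries L) = (x : LaurentSeries L) :=
  IntermediateField.coe_inclusion _ x

variable (N k ℓ : ℕ) [NeZero N] [NeZero k] [NeZero ℓ]

omit [NeZero N] [NeZero k] [NeZero ℓ] in
theorem dvd_aux : N * ℓ ∣ N * k * ℓ := ⟨k, by ring⟩

/-- The degeneracy map at level `N ℓ`:  `F_{Nℓ} ⊂ F_{(N k) ℓ}`. -/
def degenTop : FB L (N * ℓ) →ₐ[L] FB L (N * k * ℓ) := degenIncl L (dvd_aux N k ℓ)

theorem square_alpha :
    (degenTop L N k ℓ).comp (heckeAlphaBar L N ℓ) =
      (heckeAlphaBar L (N * k) ℓ).comp (heckeAlphaBar L N k) := by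
  refine AlgHom.ext fun x => Subtype.ext ?_
  rw [AlgHom.comp_apply, AlgHom.comp_apply, degenTop, coe_degenIncl, coe_heckeAlphaBar,
    coe_heckeAlphaBar, coe_heckeAlphaBar]

theorem square_beta :
    (degenTop L N k ℓ).comp (heckeBetaBar L N ℓ) =
      (heckeBetaBar L (N * k) ℓ).comp (heckeAlphaBar L N k) := by
  refine AlgHom.ext fun x => Subtype.ext ?_
  rw [AlgHom.comp_apply, AlgHom.comp_apply, degenTop, coe_degenIncl, coe_heckeBetaBar,
    coe_heckeBetaBar, coe_heckeAlphaBar]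

variable {L N k ℓ}

/-- **`π^* ∘ T_ℓ^{(N)} = T_ℓ^{(N k)} ∘ π^*`** for the Prelude's Hecke operators, given the Hecke
inputs at both levels and norm compatibility of the `α`-square. -/
theorem pullback_heckeOperatorAlong
    (hN : HeckeInputsAlong L N ℓ) (hM : HeckeInputsAlong L (N * k) ℓ)
    [HasPrincipalDivisors L (FB L (N * k))]
    (hi : (heckeAlphaBar L N k).toRingHom.IsIntegral)
    (hFIi : FundamentalIdentityAlong L (heckeAlphaBar L N k) hi)
    (hi₁ : (degenTop L N k ℓ).toRingHom.IsIntegral)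
    (hnorm : NormCompat (heckeAlphaBar L N ℓ) (heckeAlphaBar L N k)
      (heckeAlphaBar L (N * k) ℓ) (degenTop L N k ℓ))
    (x : Pic0 L (FB L N)) :
    pullbackPic0Along (heckeAlphaBar L N k) hi hFIi (heckeOperatorAlong L N ℓ x) =
      heckeOperatorAlong L (N * k) ℓ (pullbackPic0Along (heckeAlphaBar L N k) hi hFIi x) := by
  obtain ⟨hα, hβ, hP, hfin, hFI, hNF⟩ := hN
  obtain ⟨hα', hβ', hP', hfin', hFI', hNF'⟩ := hM
  haveI := hP
  haveI := hP'
  rw [heckeOperatorAlong_eq hα hβ hFI hfin hNF, heckeOperatorAlong_eq hα' hβ' hFI' hfin' hNF']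
  exact pullbackPic0Along_correspondence (heckeAlphaBar L N ℓ) (heckeBetaBar L N ℓ)
    (heckeAlphaBar L N k) (heckeAlphaBar L (N * k) ℓ) (heckeBetaBar L (N * k) ℓ)
    (degenTop L N k ℓ) hα hβ hi hα' hβ' hi₁ (square_alpha L N k ℓ) (square_beta L N k ℓ)
    hFI hfin hNF hFI' hfin' hNF' hFIi hnorm (hasLocalGenerators _ hα) x

/-- The arithmetic Galois actions at levels `N` and `M` are intertwined by the inclusion. -/
theorem intertwines_degenIncl {N M : ℕ} [NeZero N] [NeZero M] (h : N ∣ M) (σ : L ≃ₐ[ℚ] L) :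
    SemilinearAut.IntertwinesAlong (degenIncl L h : FB L N →+* FB L M)
      (arithmeticGalois (modularFunctionFieldFull N) σ)
      (arithmeticGalois (modularFunctionFieldFull M) σ) := by
  intro x
  apply Subtype.ext
  rw [RingHom.coe_coe, coe_arithmeticGalois_smul, coe_degenIncl, coe_degenIncl,
    coe_arithmeticGalois_smul]

theorem intertwines_heckeAlphaBar (σ : L ≃ₐ[ℚ] L) :
    SemilinearAut.IntertwinesAlong (heckeAlphaBar L N k : FB L N →+* FB L (N * k))
      (arithmeticGalois (modularFunctionFieldFull N) σ)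
      (arithmeticGalois (modularFunctionFieldFull (N * k)) σ) := by
  intro x
  apply Subtype.ext
  rw [RingHom.coe_coe, coe_arithmeticGalois_smul, coe_heckeAlphaBar, coe_heckeAlphaBar,
    coe_arithmeticGalois_smul]

/-- `π^*` is Galois equivariant. -/
theorem pullbackPic0Along_galois [HasPrincipalDivisors L (FB L (N * k))]
    (hi : (heckeAlphaBar L N k).toRingHom.IsIntegral)
    (hFIi : FundamentalIdentityAlong L (heckeAlphaBar L N k) hi)
    (σ : L ≃ₐ[ℚ] L) (x : Pic0 L (FB L N)) :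
    pullbackPic0Along (heckeAlphaBar L N k) hi hFIi (σ • x) =
      σ • pullbackPic0Along (heckeAlphaBar L N k) hi hFIi x :=
  pullbackPic0Along_smul (heckeAlphaBar L N k) hi (intertwines_heckeAlphaBar σ) hFIi x

end Fermat.Agent.S37.H818

end

end
-- ===== PACK-END S37/H818/Modular.lean

-- ===== PACK-BEGIN S24/Alg/LocFund.lean
section



/-!
# S24 / ALG-LOC: the fundamental inequality from local data (no Dedekind theory)

For `L : LocalData K F C X t`: at most `ord_v t` of the embeddings `L.σ x` induce a given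
place `v` (with residue field `K`).  Hence `|X| ≤ ∑_{v | t} ord_v t`.
-/

set_option autoImplicit false

noncomputable section

open AlgebraicCurve Polynomial

namespace Fermat.Agent.S24.H144

variable {K F : Type*} [Field K] [Field F] [Algebra K F]
variable {C : Type*} [Field C] {X : Type*} {t : F}

theorem loc_coeff_zero_C (c : C) : (HahnSeries.C c : LaurentSeries C).coeff 0 = c := by
  simp [HahnSeries.C, HahnSeries.coeff_single_same]

/-- The place induced by `L.σ x` lies over `t = 0`. -/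
theorem loc_ord_t_pos_of_induces (L : LocalData K F C X t) {x : X} {v : Place K F}
    (hx : Induces (L.σ x) v) : 0 < v.ord t := by
  obtain ⟨g, hg, hord⟩ := loc_exists_mult v (L.σ x) hx
  have h1 := hord t
  have h2 := loc_order_t_pos L x
  rw [h1] at h2
  have hg' : (0 : ℤ) < g := Int.natCast_pos.mpr hg
  exact (mul_pos_iff_of_pos_left hg').mp h2

/-- **Fibre bound.** At most `ord_v t` of the embeddings induce the place `v`. -/
theorem loc_fibre_card_le [CharZero C] (L : LocalData K F C X t) (v : Place K F)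
    (hv : 0 < v.ord t) (hres : ResidueTrivial v) (T : Finset X)
    (hT : ∀ x ∈ T, Induces (L.σ x) v) : (T.card : ℤ) ≤ v.ord t := by
  classical
  obtain ⟨π, hπ⟩ := loc_exists_ord_eq_one v
  have hπ0 : π ≠ 0 := by rintro rfl; simp at hπ
  have ht0 : t ≠ 0 := by rintro rfl; simp at hv
  obtain ⟨k, hk⟩ : ∃ k : ℕ, v.ord t = (k : ℤ) + 1 := ⟨(v.ord t - 1).toNat, by omega⟩
  -- the unit part of `t`
  set u : F := t * (π ^ (k + 1))⁻¹ with hu
  have hpk : π ^ (k + 1) ≠ 0 := pow_ne_zero _ hπ0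
  have hu0 : u ≠ 0 := mul_ne_zero ht0 (inv_ne_zero hpk)
  have hut : t = u * π ^ (k + 1) := by rw [hu]; field_simp
  have hordu : v.ord u = 0 := by
    rw [hu, v.ord_mul ht0 (inv_ne_zero hpk), v.ord_inv, loc_ord_pow, hπ, hk]
    push_cast; ring
  have humem : u ∈ v.toValuationSubring := loc_mem_of_ord_nonneg v hordu.ge
  -- the residue of `u`
  obtain ⟨c, hc⟩ := hres u humem
  have hucoeff : ∀ x ∈ T, (L.σ x u).coeff 0 = L.ι c := by
    intro x hx
    rcases hc with hc | hc
    · rw [hc, L.σ_const, loc_coeff_zero_C]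
    · obtain ⟨g, hg, hord⟩ := loc_exists_mult v (L.σ x) (hT x hx)
      have h1 : 0 < (L.σ x (u - algebraMap K F c)).order := by
        rw [hord]
        exact mul_pos (Int.natCast_pos.mpr hg) hc
      have h2 : (L.σ x (u - algebraMap K F c)).coeff 0 = 0 :=
        HahnSeries.coeff_eq_zero_of_lt_order h1
      rw [map_sub, HahnSeries.coeff_sub, L.σ_const, loc_coeff_zero_C, sub_eq_zero] at h2
      exact h2
  -- the key relation
  have hrel : ∀ x ∈ T, L.ι c * ((L.σ x π).leadingCoeff) ^ (k + 1) = (L.σ x t).leadingCoeff := by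
    intro x hx
    obtain ⟨g, hg, hord⟩ := loc_exists_mult v (L.σ x) (hT x hx)
    have hou : LocBig 0 (L.σ x u) := LocBig.of_le_order (by rw [hord, hordu, mul_zero])
    have hoπ : (L.σ x π).order = g := by rw [hord, hπ, mul_one]
    have hbπ : LocBig (g : ℤ) (L.σ x π) := LocBig.of_le_order hoπ.ge
    have hot : (L.σ x t).order = ((k + 1 : ℕ) : ℤ) * g := by
      rw [hord, hk]; push_cast; ring
    have h1 := hou.coeff_mul (hbπ.pow (k + 1))
    rw [hbπ.coeff_pow, zero_add, ← map_pow, ← map_mul, ← hut, hucoeff x hx] at h1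
    have e1 : (L.σ x π).leadingCoeff = (L.σ x π).coeff g := by
      rw [HahnSeries.leadingCoeff_eq, hoπ]
    have e2 : (L.σ x t).leadingCoeff = (L.σ x t).coeff (((k + 1 : ℕ) : ℤ) * g) := by
      rw [HahnSeries.leadingCoeff_eq, hot]
    rw [e1, e2, h1]
  have hιc : ∀ x ∈ T, L.ι c ≠ 0 := by
    intro x hx
    rw [← hucoeff x hx]
    obtain ⟨g, hg, hord⟩ := loc_exists_mult v (L.σ x) (hT x hx)
    have ho : (L.σ x u).order = 0 := by rw [hord, hordu, mul_zero]
    rw [← ho]
    exact HahnSeries.coeff_order_eq_zero.not.mpr ((map_ne_zero (L.σ x)).mpr hu0)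
  rcases T.eq_empty_or_nonempty with rfl | ⟨x₀, hx₀⟩
  · simp only [Finset.card_empty, Nat.cast_zero]; exact hv.le
  -- all leading coefficients are `(k+1)`-th roots of the same element
  set A : C := (L.σ x₀ t).leadingCoeff * (L.ι c)⁻¹ with hA
  have hroot : ∀ x ∈ T, (L.σ x π).leadingCoeff ∈ (nthRoots (k + 1) A).toFinset := by
    intro x hx
    rw [Multiset.mem_toFinset, mem_nthRoots (Nat.succ_pos k), hA, L.σ_t_eq x₀ x, ← hrel x hx]
    field_simp [hιc x hx]
  have hinj : Set.InjOn (fun x => (L.σ x π).leadingCoeff) (T : Set X) := by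
    intro x hx y hy hxy
    apply L.σ_inj
    exact loc_emb_eq_of_leadingCoeff_eq hres hv hπ L.ι (L.σ x) (L.σ y) (L.σ_const x)
      (L.σ_const y) (hT x hx) (hT y hy) (L.σ_t_eq x y) hxy
  have h1 : T.card ≤ (nthRoots (k + 1) A).toFinset.card :=
    Finset.card_le_card_of_injOn _ hroot hinj
  have h2 : (nthRoots (k + 1) A).toFinset.card ≤ k + 1 :=
    (Multiset.toFinset_card_le _).trans (card_nthRoots _ _)
  rw [hk]
  have : T.card ≤ k + 1 := h1.trans h2
  exact_mod_cast this

/-- **Fundamental inequality** `|X| ≤ ∑_{v | t} ord_v t`, hypothesis-explicit version. -/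
theorem loc_card_le_sum_of_residueTrivial [CharZero C] [Finite X] (L : LocalData K F C X t)
    (hres : ∀ v : Place K F, 0 < v.ord t → ResidueTrivial v)
    (s : Finset (Place K F)) (hs : ∀ v, v ∈ s ↔ 0 < v.ord t) :
    (Nat.card X : ℤ) ≤ ∑ v ∈ s, v.ord t := by
  classical
  have : Fintype X := Fintype.ofFinite X
  rw [Nat.card_eq_fintype_card, ← Finset.card_univ,
    Finset.card_eq_sum_card_image (locPlace L) Finset.univ]
  push_cast
  have himg : Finset.univ.image (locPlace L) ⊆ s := by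
    intro v hv
    obtain ⟨x, _, rfl⟩ := Finset.mem_image.mp hv
    exact (hs _).mpr (loc_ord_t_pos_of_induces L (loc_induces_locPlace L x))
  refine le_trans (Finset.sum_le_sum fun v hv => ?_)
    (Finset.sum_le_sum_of_subset_of_nonneg himg fun v hv _ => ((hs v).mp hv).le)
  have hvpos : 0 < v.ord t := (hs v).mp (himg hv)
  apply loc_fibre_card_le L v hvpos (hres v hvpos)
  intro x hx
  rw [Finset.mem_filter] at hx
  rw [← hx.2]
  exact loc_induces_locPlace L x

end Fermat.Agent.S24.H144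

end
end
-- ===== PACK-END S24/Alg/LocFund.lean

-- ===== PACK-BEGIN S24/Alg/LocFundFF.lean
section



/-!
# S24 / ALG-LOC: the fundamental inequality `|X| ≤ ∑_{v | t} ord_v t` (final form)

Combines the local uniqueness argument (`LocFund.lean`) with "residue field `= K`"
(helper804, `FFFinite.lean`).  No Dedekind theory.
-/

set_option autoImplicit false

noncomputable section

open AlgebraicCurve IntermediateField

namespace Fermat.Agent.S24.H144

variable {K F : Type*} [Field K] [Field F] [Algebra K F]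
variable {C : Type*} [Field C] {X : Type*} {t : F}

/-- Over an algebraically closed constant field the residue field of every place is `K`. -/
theorem loc_residueTrivial [IsAlgClosed K] (v : Place K F) (ht : 0 < v.ord t)
    [FiniteDimensional K⟮t⟯ F] : ResidueTrivial v := by
  have htr : Transcendental K t := by
    apply FF.transcendental_of_not_mem_range
    rintro ⟨c, rfl⟩
    rw [loc_ord_algebraMap] at ht
    exact lt_irrefl _ ht
  intro f hf
  obtain ⟨a, ha⟩ := FF.exists_const_sub_mem_nonunits v htr hf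
  refine ⟨a, ?_⟩
  rcases eq_or_ne (f - algebraMap K F a) 0 with h0 | h0
  · exact Or.inl (sub_eq_zero.mp h0)
  · exact Or.inr ((FF.ord_pos_iff_mem_nonunits v h0).mpr ha)

/-- **Fundamental inequality from local data.** -/
theorem loc_fundamental_inequality [IsAlgClosed K] [CharZero C] [Finite X]
    [FiniteDimensional K⟮t⟯ F] (L : LocalData K F C X t)
    (s : Finset (Place K F)) (hs : ∀ v, v ∈ s ↔ 0 < v.ord t) :
    (Nat.card X : ℤ) ≤ ∑ v ∈ s, v.ord t :=
  loc_card_le_sum_of_residueTrivial L (fun v hv => loc_residueTrivial v hv) s hs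

end Fermat.Agent.S24.H144

end
end
-- ===== PACK-END S24/Alg/LocFundFF.lean

-- ===== PACK-BEGIN S29/H942/MeroRoot.lean
section


/-!
# `p`-th roots of meromorphic functions on the upper half plane

Main result: `exists_meromorphic_root_upperHalfPlane`. If `f` is meromorphic on the upper half
plane `{z | 0 < z.im}`, nowhere locally zero, and all its orders are divisible by `p ≠ 0`, then
there is a function `h`, meromorphic (in normal form) on the upper half plane, with `h ^ p = f`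
away from a discrete set.  The root is unique up to a `p`-th root of unity
(`IsNFRootOn.exists_eq_mul`).
-/

set_option autoImplicit false

noncomputable section

open Filter Topology Set Complex MeromorphicOn Function Metric

namespace Fermat.Agent.S29.H942

/-- The upper half plane as a subset of `ℂ`. -/
def uhpSet : Set ℂ := {z : ℂ | 0 < z.im}

lemma mem_uhpSet {z : ℂ} : z ∈ uhpSet ↔ 0 < z.im := Iff.rfl

lemma isOpen_uhpSet : IsOpen uhpSet := isOpen_lt continuous_const Complex.continuous_im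

/-- The centres of the exhausting balls. -/
def exhCenter (n : ℕ) : ℂ := ((n : ℝ) + 1 : ℝ) * I

/-- The radii of the exhausting balls. -/
def exhRadius (n : ℕ) : ℝ := (n : ℝ) + 1 - 1 / ((n : ℝ) + 2)

lemma exhRadius_pos (n : ℕ) : 0 < exhRadius n := by
  unfold exhRadius
  have h1 : (0 : ℝ) ≤ n := Nat.cast_nonneg n
  have h2 : 1 / ((n : ℝ) + 2) < 1 := by
    rw [div_lt_one (by linarith)]
    linarith
  linarith

lemma exhRadius_lt (n : ℕ) : exhRadius n < (n : ℝ) + 1 := by
  unfold exhRadius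
  have h1 : (0 : ℝ) ≤ n := Nat.cast_nonneg n
  have h2 : 0 < 1 / ((n : ℝ) + 2) := by positivity
  linarith

lemma exhCenter_im (n : ℕ) : (exhCenter n).im = (n : ℝ) + 1 := by
  simp [exhCenter]

lemma exhCenter_re (n : ℕ) : (exhCenter n).re = 0 := by
  simp [exhCenter]

lemma closedBall_exh_subset (n : ℕ) : closedBall (exhCenter n) (exhRadius n) ⊆ uhpSet := by
  intro z hz
  rw [mem_closedBall, dist_eq_norm] at hz
  have h1 : |(z - exhCenter n).im| ≤ ‖z - exhCenter n‖ := Complex.abs_im_le_norm _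
  have h2 : (z - exhCenter n).im = z.im - ((n : ℝ) + 1) := by
    rw [Complex.sub_im, exhCenter_im]
  have h3 := (abs_le.1 (h1.trans hz)).1
  rw [h2] at h3
  have h4 := exhRadius_lt n
  rw [mem_uhpSet]
  linarith

lemma ball_exh_subset (n : ℕ) : ball (exhCenter n) (exhRadius n) ⊆ uhpSet :=
  ball_subset_closedBall.trans (closedBall_exh_subset n)

lemma ball_exh_mono : Monotone fun n => ball (exhCenter n) (exhRadius n) := by
  refine monotone_nat_of_le_succ fun n => ?_
  apply ball_subset_ball'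
  have hd : dist (exhCenter n) (exhCenter (n + 1)) = 1 := by
    rw [dist_eq_norm]
    have : exhCenter n - exhCenter (n + 1) = -I := by
      simp only [exhCenter]
      push_cast
      ring
    rw [this, norm_neg, Complex.norm_I]
  rw [hd]
  unfold exhRadius
  have h1 : (0 : ℝ) ≤ n := Nat.cast_nonneg n
  have h2 : 1 / (((n + 1 : ℕ) : ℝ) + 2) ≤ 1 / ((n : ℝ) + 2) := by
    apply one_div_le_one_div_of_le (by linarith)
    push_cast
    linarith
  push_cast at h2 ⊢
  linarith

lemma iUnion_ball_exh : (⋃ n, ball (exhCenter n) (exhRadius n)) = uhpSet := by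
  apply Subset.antisymm
  · exact iUnion_subset fun n => ball_exh_subset n
  · intro z hz
    rw [mem_uhpSet] at hz
    obtain ⟨n, hn⟩ := exists_nat_gt ((z.re ^ 2 + z.im ^ 2 + 2) / (2 * z.im))
    refine mem_iUnion.2 ⟨n, ?_⟩
    rw [mem_ball, dist_eq_norm]
    have hR : (0 : ℝ) < (n : ℝ) + 1 := by positivity
    have hr := exhRadius_pos n
    have hlt : (z.re ^ 2 + z.im ^ 2 + 2) < 2 * z.im * ((n : ℝ) + 1) := by
      have := (div_lt_iff₀ (by linarith : (0 : ℝ) < 2 * z.im)).1 hn
      nlinarith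
    have hsq : ‖z - exhCenter n‖ ^ 2 < exhRadius n ^ 2 := by
      have h1 : ‖z - exhCenter n‖ ^ 2 = z.re ^ 2 + (z.im - ((n : ℝ) + 1)) ^ 2 := by
        rw [Complex.sq_norm, Complex.normSq_apply, Complex.sub_re, Complex.sub_im,
          exhCenter_re, exhCenter_im]
        ring
      rw [h1]
      have h2 : exhRadius n ^ 2 ≥ ((n : ℝ) + 1) ^ 2 - 2 := by
        unfold exhRadius
        have h0 : (0 : ℝ) ≤ n := Nat.cast_nonneg n
        have h3 : 0 < 1 / ((n : ℝ) + 2) := by positivity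
        have h4 : ((n : ℝ) + 1) * (1 / ((n : ℝ) + 2)) ≤ 1 := by
          rw [mul_one_div, div_le_one (by linarith)]
          linarith
        nlinarith [sq_nonneg (1 / ((n : ℝ) + 2))]
      nlinarith
    exact lt_of_pow_lt_pow_left₀ 2 hr.le hsq

/-- **Meromorphic `p`-th roots on the upper half plane** (normal form version). -/
theorem exists_isNFRootOn_upperHalfPlane {f : ℂ → ℂ} (hf : MeromorphicOn f uhpSet)
    (hford : ∀ z ∈ uhpSet, meromorphicOrderAt f z ≠ ⊤) {p : ℕ} (hp : p ≠ 0)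
    (hdiv : ∀ z ∈ uhpSet, (p : ℤ) ∣ (meromorphicOrderAt f z).untop₀) :
    ∃ h : ℂ → ℂ, IsNFRootOn h f uhpSet p := by
  have := exists_isNFRootOn_iUnion (f := f) hp (fun n => ball (exhCenter n) (exhRadius n))
    (fun n => isOpen_ball)
    (fun n => isSimplyConnected_of_convex (convex_ball _ _)
      ⟨exhCenter n, mem_ball_self (exhRadius_pos n)⟩)
    ball_exh_mono
    (fun n => hf.mono_set (ball_exh_subset n))
    (fun n x hx => hford x (ball_exh_subset n hx))
    (fun n => divisor_support_finite_of_subset (hf.mono_set (closedBall_exh_subset n))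
      (isCompact_closedBall _ _) ball_subset_closedBall)
    (fun n x hx => hdiv x (ball_exh_subset n hx))
  rwa [iUnion_ball_exh] at this

/-- Roots in normal form are roots modulo equality on codiscrete sets. -/
lemma IsNFRootOn.eventuallyEq_codiscreteWithin {h f : ℂ → ℂ} {V : Set ℂ} {p : ℕ}
    (hh : IsNFRootOn h f V p) : (h ^ p) =ᶠ[codiscreteWithin V] f := by
  rw [EventuallyEq, eventually_iff, mem_codiscreteWithin_iff_forall_mem_nhdsNE]
  intro x hx
  filter_upwards [hh.2 x hx] with y hy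
  exact Or.inl hy

/-- **Meromorphic `p`-th roots on the upper half plane.** -/
theorem exists_meromorphic_root_upperHalfPlane {f : ℂ → ℂ}
    (hf : MeromorphicOn f {z : ℂ | 0 < z.im})
    (hford : ∀ z : ℂ, 0 < z.im → meromorphicOrderAt f z ≠ ⊤) {p : ℕ} (hp : p ≠ 0)
    (hdiv : ∀ z : ℂ, 0 < z.im → (p : ℤ) ∣ (meromorphicOrderAt f z).untop₀) :
    ∃ h : ℂ → ℂ, MeromorphicNFOn h {z : ℂ | 0 < z.im} ∧
      (∀ z : ℂ, 0 < z.im → (h ^ p) =ᶠ[𝓝[≠] z] f) ∧
      (h ^ p) =ᶠ[codiscreteWithin {z : ℂ | 0 < z.im}] f := by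
  obtain ⟨h, hh⟩ := exists_isNFRootOn_upperHalfPlane (f := f) hf hford hp hdiv
  exact ⟨h, hh.1, hh.2, hh.eventuallyEq_codiscreteWithin⟩

/-- **Uniqueness of meromorphic `p`-th roots on the upper half plane** up to a root of unity. -/
theorem meromorphic_root_upperHalfPlane_unique {f h₁ h₂ : ℂ → ℂ}
    (hford : ∀ z : ℂ, 0 < z.im → meromorphicOrderAt f z ≠ ⊤) {p : ℕ} (hp : p ≠ 0)
    (h₁NF : MeromorphicNFOn h₁ {z : ℂ | 0 < z.im})
    (h₁pow : ∀ z : ℂ, 0 < z.im → (h₁ ^ p) =ᶠ[𝓝[≠] z] f)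
    (h₂NF : MeromorphicNFOn h₂ {z : ℂ | 0 < z.im})
    (h₂pow : ∀ z : ℂ, 0 < z.im → (h₂ ^ p) =ᶠ[𝓝[≠] z] f) :
    ∃ ζ : ℂ, ζ ^ p = 1 ∧ ∀ z : ℂ, 0 < z.im → h₂ z = ζ * h₁ z := by
  have hconv : Convex ℝ uhpSet := by
    have : uhpSet = Complex.im ⁻¹' (Ioi 0) := rfl
    rw [this]
    exact (convex_Ioi (0 : ℝ)).is_linear_preimage Complex.imLm.isLinear
  exact IsNFRootOn.exists_eq_mul hp isOpen_uhpSet hconv.isPreconnected hford
    ⟨h₁NF, h₁pow⟩ ⟨h₂NF, h₂pow⟩

end Fermat.Agent.S29.H942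

end
end
-- ===== PACK-END S29/H942/MeroRoot.lean

-- ===== PACK-BEGIN S29/H942/HoloRoot.lean
section





/-!
# Holomorphic `p`-th roots on the upper half plane

If `g : ℍ → ℂ` is holomorphic, not identically zero, and all its orders of vanishing are divisible
by `p`, then `g = c ^ p` for a holomorphic `c : ℍ → ℂ`.
-/

set_option autoImplicit false

noncomputable section

open Filter Topology Set Complex MeromorphicOn Function UpperHalfPlane
open scoped Manifold

namespace Fermat.Agent.S29.H942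

/-- A root in normal form of an analytic function is analytic. -/
lemma IsNFRootOn.analyticAt {h f : ℂ → ℂ} {V : Set ℂ} {p : ℕ} (hp : p ≠ 0)
    (hh : IsNFRootOn h f V p) {x : ℂ} (hx : x ∈ V) (hf : AnalyticAt ℂ f x) :
    AnalyticAt ℂ h x := by
  rw [← (hh.1 hx).meromorphicOrderAt_nonneg_iff_analyticAt]
  have h1 : meromorphicOrderAt (h ^ p) x = meromorphicOrderAt f x :=
    meromorphicOrderAt_congr (hh.2 x hx)
  rw [meromorphicOrderAt_pow (hh.1 hx).meromorphicAt] at h1
  have h2 : 0 ≤ meromorphicOrderAt f x := hf.meromorphicOrderAt_nonneg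
  rw [← h1] at h2
  by_cases htop : meromorphicOrderAt h x = ⊤
  · rw [htop]
    exact le_top
  · obtain ⟨n, hn⟩ := WithTop.ne_top_iff_exists.1 htop
    rw [← hn] at h2 ⊢
    have h4 : ((p : ℕ) : WithTop ℤ) * ((n : ℤ) : WithTop ℤ) = (((p : ℤ) * n : ℤ) : WithTop ℤ) := by
      push_cast
      rfl
    rw [h4] at h2
    have h5 : (0 : ℤ) ≤ (p : ℤ) * n := by exact_mod_cast h2
    have hp' : (0 : ℤ) < p := by exact_mod_cast Nat.pos_of_ne_zero hp
    have h6 : (0 : ℤ) ≤ n := by
      by_contra hneg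
      rw [_root_.not_le] at hneg
      nlinarith
    exact_mod_cast h6

/-- A root in normal form of an analytic function is a root everywhere. -/
lemma IsNFRootOn.pow_eq {h f : ℂ → ℂ} {V : Set ℂ} {p : ℕ} (hp : p ≠ 0)
    (hh : IsNFRootOn h f V p) {x : ℂ} (hx : x ∈ V) (hf : AnalyticAt ℂ f x) :
    h x ^ p = f x := by
  have hA := hh.analyticAt hp hx hf
  have hc : ContinuousAt (h ^ p) x := (hA.pow p).continuousAt
  have := (hc.eventuallyEq_nhds_iff_eventuallyEq_nhdsNE hf.continuousAt).1 (hh.2 x hx)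
  exact this.self_of_nhds

/-- **Holomorphic `p`-th roots on the upper half plane.** -/
theorem exists_holomorphic_root {g : ℍ → ℂ} (hg : MDiff g) {p : ℕ} (hp : p ≠ 0)
    (hdiv : ∀ τ : ℍ, ∃ k : ℕ, analyticOrderAt (g ∘ ofComplex) (τ : ℂ) = ((p * k : ℕ) : ℕ∞)) :
    ∃ c : ℍ → ℂ, MDiff c ∧ c ^ p = g := by
  set f : ℂ → ℂ := g ∘ ofComplex with hf
  have hAn : AnalyticOnNhd ℂ f uhpSet :=
    (UpperHalfPlane.mdifferentiable_iff.mp hg).analyticOnNhd isOpen_upperHalfPlaneSet
  have hord : ∀ z ∈ uhpSet, ∃ k : ℕ, meromorphicOrderAt f z = ((p * k : ℕ) : ℤ) := by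
    intro z hz
    obtain ⟨k, hk⟩ := hdiv ⟨z, hz⟩
    refine ⟨k, ?_⟩
    rw [(hAn z hz).meromorphicOrderAt_eq]
    have : analyticOrderAt f z = ((p * k : ℕ) : ℕ∞) := hk
    rw [this]
    rfl
  obtain ⟨h, hh⟩ := exists_isNFRootOn_upperHalfPlane (f := f) hAn.meromorphicOn
    (fun z hz => by
      obtain ⟨k, hk⟩ := hord z hz
      rw [hk]
      exact WithTop.coe_ne_top)
    hp
    (fun z hz => by
      obtain ⟨k, hk⟩ := hord z hz
      rw [hk]
      simp only [WithTop.untop₀_coe]
      exact ⟨k, by push_cast; ring⟩)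
  have hhA : AnalyticOnNhd ℂ h uhpSet := fun z hz => hh.analyticAt hp hz (hAn z hz)
  have hhp : ∀ z ∈ uhpSet, h z ^ p = f z := fun z hz => hh.pow_eq hp hz (hAn z hz)
  refine ⟨fun τ => h (τ : ℂ), ?_, ?_⟩
  · rw [UpperHalfPlane.mdifferentiable_iff]
    refine hhA.differentiableOn.congr fun z hz => ?_
    simp only [Function.comp_apply]
    rw [ofComplex_apply_of_im_pos hz]
  · funext τ
    have := hhp (τ : ℂ) τ.im_pos
    simp only [Pi.pow_apply]
    rw [this, hf, Function.comp_apply, ofComplex_apply]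

/-- Uniqueness of holomorphic `p`-th roots up to roots of unity. -/
theorem holomorphic_root_unique {c₁ c₂ : ℍ → ℂ} (h₁ : MDiff c₁) (h₂ : MDiff c₂)
    (h₁0 : c₁ ≠ 0) {p : ℕ} (hp : p ≠ 0) (hpow : c₁ ^ p = c₂ ^ p) :
    ∃ ζ : ℂ, ζ ^ p = 1 ∧ c₂ = fun τ => ζ * c₁ τ := by
  set f : ℂ → ℂ := (c₁ ^ p) ∘ ofComplex with hf
  have hA₁ : AnalyticOnNhd ℂ (c₁ ∘ ofComplex) uhpSet :=
    (UpperHalfPlane.mdifferentiable_iff.mp h₁).analyticOnNhd isOpen_upperHalfPlaneSet
  have hA₂ : AnalyticOnNhd ℂ (c₂ ∘ ofComplex) uhpSet :=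
    (UpperHalfPlane.mdifferentiable_iff.mp h₂).analyticOnNhd isOpen_upperHalfPlaneSet
  have hAf : AnalyticOnNhd ℂ f uhpSet :=
    (UpperHalfPlane.mdifferentiable_iff.mp (MDifferentiable.pow h₁ p)).analyticOnNhd isOpen_upperHalfPlaneSet
  have hR₁ : IsNFRootOn (c₁ ∘ ofComplex) f uhpSet p :=
    ⟨hA₁.meromorphicNFOn, fun x _ => Eventually.of_forall fun y => rfl⟩
  have hR₂ : IsNFRootOn (c₂ ∘ ofComplex) f uhpSet p :=
    ⟨hA₂.meromorphicNFOn, fun x _ => Eventually.of_forall fun y => by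
      simp only [hf, hpow, Pi.pow_apply, Function.comp_apply]⟩
  have hford : ∀ x ∈ uhpSet, meromorphicOrderAt f x ≠ ⊤ := by
    intro x hx htop
    rw [(hAf x hx).meromorphicOrderAt_eq] at htop
    have h3 : analyticOrderAt f x = ⊤ := by
      by_contra hne
      obtain ⟨n, hn⟩ := ENat.ne_top_iff_exists.1 hne
      rw [← hn] at htop
      exact absurd htop (by simp)
    have h5 : ∀ᶠ z in 𝓝 x, f z = 0 := analyticOrderAt_eq_top.mp h3
    have hpre : IsPreconnected uhpSet := by
      have hconv : Convex ℝ uhpSet := by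
        have : uhpSet = Complex.im ⁻¹' (Ioi 0) := rfl
        rw [this]
        exact (convex_Ioi (0 : ℝ)).is_linear_preimage Complex.imLm.isLinear
      exact hconv.isPreconnected
    have h6 := hAf.eqOn_zero_of_preconnected_of_eventuallyEq_zero hpre hx h5
    apply h₁0
    funext τ
    have h7 := h6 τ.im_pos
    simp only [hf, Function.comp_apply, ofComplex_apply, Pi.pow_apply, Pi.zero_apply] at h7 ⊢
    exact pow_eq_zero_iff hp |>.mp h7
  have hconv : Convex ℝ uhpSet := by
    have : uhpSet = Complex.im ⁻¹' (Ioi 0) := rfl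
    rw [this]
    exact (convex_Ioi (0 : ℝ)).is_linear_preimage Complex.imLm.isLinear
  obtain ⟨ζ, hζ, hζe⟩ := IsNFRootOn.exists_eq_mul hp isOpen_uhpSet hconv.isPreconnected hford
    hR₁ hR₂
  refine ⟨ζ, hζ, ?_⟩
  funext τ
  have := hζe (τ : ℂ) τ.im_pos
  simpa [Function.comp_apply, ofComplex_apply] using this

end Fermat.Agent.S29.H942

end
end
-- ===== PACK-END S29/H942/HoloRoot.lean

-- ===== PACK-BEGIN S29/H942/KummerChar.lean
section



/-!
# The Kummer character of a holomorphic function with invariant `p`-th power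

If `c : ℍ → ℂ` is holomorphic, `c ≠ 0`, and `c ^ p` is invariant under a subgroup
`Γ ≤ SL(2,ℤ)`, then `c (γ z) = κ γ * c z` for a unique character `κ : Γ →* ℂˣ` with `κ ^ p = 1`.
-/

set_option autoImplicit false

noncomputable section

open Filter Topology Set Complex Function UpperHalfPlane ModularForm
open scoped Manifold MatrixGroups

namespace Fermat.Agent.S29.H942

lemma mdiff_comp_smul {c : ℍ → ℂ} (hc : MDiff c) (γ : SL(2, ℤ)) :
    MDiff (fun z : ℍ => c (γ • z)) := by
  have h := MDifferentiable.slash hc 0 (γ : GL (Fin 2) ℝ)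
  have h2 : (c ∣[(0 : ℤ)] (γ : GL (Fin 2) ℝ)) = fun z : ℍ => c (γ • z) := by
    funext z
    rw [← SL_slash, SL_slash_apply]
    simp
  rwa [h2] at h

lemma exists_ne_zero_of_ne_zero {c : ℍ → ℂ} (hc0 : c ≠ 0) : ∃ z : ℍ, c z ≠ 0 := by
  by_contra h
  simp only [not_exists, not_not] at h
  exact hc0 (funext h)

/-- **Kummer character.** -/
theorem exists_kummerChar (Γ : Subgroup SL(2, ℤ)) {c : ℍ → ℂ} (hc : MDiff c) (hc0 : c ≠ 0)
    {p : ℕ} (hp : p ≠ 0)
    (hinv : ∀ γ ∈ Γ, ∀ z : ℍ, c (γ • z) ^ p = c z ^ p) :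
    ∃ κ : Γ →* ℂˣ, (∀ γ, κ γ ^ p = 1) ∧
      ∀ (γ : Γ) (z : ℍ), c ((γ : SL(2, ℤ)) • z) = ((κ γ : ℂˣ) : ℂ) * c z := by
  obtain ⟨z₀, hz₀⟩ := exists_ne_zero_of_ne_zero hc0
  have h1 : ∀ γ : Γ, ∃ ζ : ℂ, ζ ^ p = 1 ∧
      (fun z : ℍ => c ((γ : SL(2, ℤ)) • z)) = fun z => ζ * c z := by
    intro γ
    refine holomorphic_root_unique hc (mdiff_comp_smul hc γ) hc0 hp ?_
    funext z
    simp only [Pi.pow_apply]
    exact (hinv γ γ.2 z).symm
  choose ζ hζ hζc using h1
  have hζ0 : ∀ γ, ζ γ ≠ 0 := by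
    intro γ h0
    have := hζ γ
    rw [h0, zero_pow hp] at this
    exact zero_ne_one this
  have hζapp : ∀ (γ : Γ) (z : ℍ), c ((γ : SL(2, ℤ)) • z) = ζ γ * c z := fun γ z =>
    congrFun (hζc γ) z
  have hone : ζ 1 = 1 := by
    have := hζapp 1 z₀
    simp only [Subgroup.coe_one, one_smul] at this
    have h2 : (ζ 1 - 1) * c z₀ = 0 := by rw [sub_mul, one_mul, ← this, sub_self]
    rcases mul_eq_zero.1 h2 with h | h
    · exact sub_eq_zero.1 h
    · exact absurd h hz₀
  have hmul : ∀ γ δ : Γ, ζ (γ * δ) = ζ γ * ζ δ := by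
    intro γ δ
    have h2 := hζapp (γ * δ) z₀
    rw [Subgroup.coe_mul, mul_smul, hζapp γ, hζapp δ] at h2
    have h3 : (ζ (γ * δ) - ζ γ * ζ δ) * c z₀ = 0 := by
      rw [sub_mul, ← h2]
      ring
    rcases mul_eq_zero.1 h3 with h | h
    · exact sub_eq_zero.1 h
    · exact absurd h hz₀
  refine ⟨{ toFun := fun γ => Units.mk0 (ζ γ) (hζ0 γ)
            map_one' := by
              apply Units.ext
              simpa using hone
            map_mul' := fun γ δ => by
              apply Units.ext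
              simpa using hmul γ δ }, fun γ => ?_, fun γ z => ?_⟩
  · apply Units.ext
    simpa using hζ γ
  · simpa using hζapp γ z

end Fermat.Agent.S29.H942

end
end
-- ===== PACK-END S29/H942/KummerChar.lean

-- ===== PACK-BEGIN S29/H395/Strip.lean
section
/-
S29 / layer M / bridge BR, piece NORM — helper395.

Growth lemma: a continuous, `M`-periodic function on `ℍ` of at most exponential growth on
`im τ ≥ 1` has at most exponential growth on every half plane `im τ ≥ c`, `c > 0`.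
Consequence: composition with `τ ↦ (a τ + b) / d` preserves exponential growth.
-/



set_option autoImplicit false
set_option linter.style.haveILetI false

noncomputable section

open UpperHalfPlane
open scoped Real

namespace Fermat.Agent.S29.H395

open Fermat.Agent.S24 Fermat.Agent.S24.H648

theorem periodic_int_of_periodic {F : ℍ → ℂ} {M : ℝ} (hper : ∀ τ : ℍ, F (M +ᵥ τ) = F τ)
    (k : ℤ) (τ : ℍ) : F ((k * M : ℝ) +ᵥ τ) = F τ := by
  induction k using Int.induction_on generalizing τ with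
  | zero => simp
  | succ n ih =>
    have : (((n : ℤ) + 1 : ℤ) * M : ℝ) +ᵥ τ = M +ᵥ (((n : ℤ) * M : ℝ) +ᵥ τ) := by
      rw [vadd_vadd]; congr 1; push_cast; ring
    rw [this, hper, ih]
  | pred n ih =>
    have h1 := hper ((((-(n : ℤ) - 1 : ℤ)) * M : ℝ) +ᵥ τ)
    have : M +ᵥ ((((-(n : ℤ) - 1 : ℤ)) * M : ℝ) +ᵥ τ) = (((-(n : ℤ) : ℤ)) * M : ℝ) +ᵥ τ := by
      rw [vadd_vadd]; congr 1; push_cast; ring
    rw [this] at h1
    rw [← h1, ih]

/-- Boundedness on a horizontal strip `c ≤ im τ ≤ 1` of a continuous periodic function. -/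
theorem exists_bound_strip {F : ℍ → ℂ} (hF : Continuous F) {M : ℝ} (hM : 0 < M)
    (hper : ∀ τ : ℍ, F (M +ᵥ τ) = F τ) {c : ℝ} (hc : 0 < c) :
    ∃ B : ℝ, 0 ≤ B ∧ ∀ τ : ℍ, c ≤ τ.im → τ.im ≤ 1 → ‖F τ‖ ≤ B := by
  -- the compact rectangle
  let K : Set ℂ := Set.Icc (0 : ℝ) M ×ℂ Set.Icc c 1
  have hK : IsCompact K := isCompact_Icc.reProdIm isCompact_Icc
  have hpos : ∀ z ∈ K, 0 < z.im := fun z hz => lt_of_lt_of_le hc hz.2.1
  haveI : CompactSpace K := isCompact_iff_compactSpace.mp hK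
  let g : K → ℍ := fun z => ⟨z.1, hpos z.1 z.2⟩
  have hg : Continuous g := by
    rw [UpperHalfPlane.isEmbedding_coe.continuous_iff]
    exact continuous_subtype_val
  obtain ⟨B, hB⟩ := (isCompact_range (hF.comp hg)).exists_bound_of_continuousOn
    (f := fun w : ℂ => w) continuousOn_id
  refine ⟨max B 0, le_max_right _ _, fun τ h1 h2 => ?_⟩
  -- translate the real part into `[0, M)`
  set k : ℤ := -⌊τ.re / M⌋ with hk
  have hτ' := periodic_int_of_periodic hper k τ
  set τ' : ℍ := ((k * M : ℝ) +ᵥ τ) with hτ'def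
  have hre : τ'.re = k * M + τ.re := by rw [hτ'def, UpperHalfPlane.vadd_re]
  have him : τ'.im = τ.im := by rw [hτ'def, UpperHalfPlane.vadd_im]
  have hfl := Int.floor_le (τ.re / M)
  have hfl' := Int.lt_floor_add_one (τ.re / M)
  have hkc : (k : ℝ) = -(⌊τ.re / M⌋ : ℝ) := by rw [hk]; push_cast; ring
  have h0 : 0 ≤ τ'.re := by
    rw [hre, hkc]
    have : (⌊τ.re / M⌋ : ℝ) * M ≤ τ.re := by
      have := mul_le_mul_of_nonneg_right hfl hM.le
      rwa [div_mul_cancel₀ _ hM.ne'] at this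
    linarith
  have h1' : τ'.re ≤ M := by
    rw [hre, hkc]
    have : τ.re < ((⌊τ.re / M⌋ : ℝ) + 1) * M := by
      have := mul_lt_mul_of_pos_right hfl' hM
      rwa [div_mul_cancel₀ _ hM.ne'] at this
    linarith
  have hmem : (τ' : ℂ) ∈ K := by
    refine ⟨⟨?_, ?_⟩, ⟨?_, ?_⟩⟩
    · simpa using h0
    · simpa using h1'
    · simpa [him] using h1
    · simpa [him] using h2
  have hb := hB (F τ') ⟨⟨(τ' : ℂ), hmem⟩, by
    show F (g ⟨(τ' : ℂ), hmem⟩) = F τ'
    congr 1⟩
  rw [← hτ']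
  exact le_trans hb (le_max_left _ _)

/-- Exponential growth on `im τ ≥ c` for every `c > 0`. -/
theorem expGrowth_halfPlane {F : ℍ → ℂ} (hF : Continuous F) {M : ℝ} (hM : 0 < M)
    (hper : ∀ τ : ℍ, F (M +ᵥ τ) = F τ) (hgr : ExpGrowth F) {c : ℝ} (hc : 0 < c) :
    ∃ (C : ℝ) (m : ℕ), 0 ≤ C ∧
      ∀ τ : ℍ, c ≤ τ.im → ‖F τ‖ ≤ C * Real.exp (2 * π * m * τ.im) := by
  obtain ⟨C0, m, h0⟩ := hgr
  obtain ⟨B, hB0, hB⟩ := exists_bound_strip hF hM hper hc
  refine ⟨max |C0| B, m, le_trans (abs_nonneg _) (le_max_left _ _), fun τ hτ => ?_⟩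
  have hexp : 1 ≤ Real.exp (2 * π * m * τ.im) := by
    apply Real.one_le_exp
    have := τ.im_pos
    positivity
  by_cases h1 : 1 ≤ τ.im
  · calc ‖F τ‖ ≤ C0 * Real.exp (2 * π * m * τ.im) := h0 τ h1
      _ ≤ |C0| * Real.exp (2 * π * m * τ.im) := by
          gcongr; exact le_abs_self _
      _ ≤ max |C0| B * Real.exp (2 * π * m * τ.im) := by
          gcongr; exact le_max_left _ _
  · have := hB τ hτ (le_of_not_ge h1)
    calc ‖F τ‖ ≤ B := this
      _ ≤ max |C0| B := le_max_right _ _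
      _ = max |C0| B * 1 := (mul_one _).symm
      _ ≤ max |C0| B * Real.exp (2 * π * m * τ.im) :=
          mul_le_mul_of_nonneg_left hexp (le_trans (abs_nonneg _) (le_max_left _ _))

theorem infAff_im {a d : ℕ} (ha : 0 < a) (hd : 0 < d) (b : ℤ) (τ : ℍ) :
    (infAff a b d τ).im = a * τ.im / d := by
  have h := congrArg Complex.im (infAff_coe ha hd b τ)
  rw [UpperHalfPlane.coe_im] at h
  rw [h]
  have : ((a : ℂ) * τ + b) / d = (((a : ℝ) : ℂ) * τ + ((b : ℝ) : ℂ)) / ((d : ℝ) : ℂ) := by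
    push_cast; rfl
  rw [this, Complex.div_ofReal_im]
  simp

/-- Composition with `τ ↦ (a τ + b) / d` preserves exponential growth (for continuous periodic
functions). -/
theorem expGrowth_comp_infAff {F : ℍ → ℂ} (hF : Continuous F) {M : ℝ} (hM : 0 < M)
    (hper : ∀ τ : ℍ, F (M +ᵥ τ) = F τ) (hgr : ExpGrowth F) {a d : ℕ} (ha : 0 < a) (hd : 0 < d)
    (b : ℤ) : ExpGrowth (fun τ => F (infAff a b d τ)) := by
  have hc : (0 : ℝ) < (a : ℝ) / d := by positivity
  obtain ⟨C, m, hC, h⟩ := expGrowth_halfPlane hF hM hper hgr hc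
  refine ⟨C, m * a, fun τ hτ => ?_⟩
  have him := infAff_im ha hd b τ
  have h1 : (a : ℝ) / d ≤ (infAff a b d τ).im := by
    rw [him]
    have : (a : ℝ) * 1 / d ≤ a * τ.im / d := by gcongr
    simpa using this
  have h2 : (infAff a b d τ).im ≤ a * τ.im := by
    rw [him]
    have hd1 : (1 : ℝ) ≤ d := by exact_mod_cast hd
    have := τ.im_pos
    exact div_le_self (by positivity) hd1
  calc ‖F (infAff a b d τ)‖ ≤ C * Real.exp (2 * π * m * (infAff a b d τ).im) := h _ h1
    _ ≤ C * Real.exp (2 * π * (m * a : ℕ) * τ.im) := by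
        refine mul_le_mul_of_nonneg_left (Real.exp_le_exp.mpr ?_) hC
        push_cast
        have hpi := Real.pi_pos
        have : (2 * π * m) * (infAff a b d τ).im ≤ (2 * π * m) * (a * τ.im) :=
          mul_le_mul_of_nonneg_left h2 (by positivity)
        linarith

end Fermat.Agent.S29.H395

end

end
-- ===== PACK-END S29/H395/Strip.lean

-- ===== PACK-BEGIN S29/H395/AnalyticKron.lean
section
/-
S29 / layer M / bridge BR, piece NORM (analytic half, `q`-expansions) — helper395.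

**Analytic Kronecker norm.**  If `a : ℍ → ℂ` has the (everywhere convergent) `q`-expansion `A` at
`i∞` (`InfExp 1 a A`, S24), then

  `heckeProd ℓ a τ = a (ℓ τ) * ∏_{j < ℓ} a ((τ + j) / ℓ)`

has the `q`-expansion `kronNorm ℓ A = V_ℓ A * det (secMat ℓ A)` (helper400's formal Kronecker norm,
which row S37 identifies with the `q`-expansion of `Nm_α (β y)`).
-/






set_option autoImplicit false

noncomputable section

open CongruenceSubgroup Matrix.SpecialLinearGroup UpperHalfPlane ModularCurve HahnSeries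
open scoped MatrixGroups Real Polynomial OnePoint
open P2MW.S_ModularForm_heckeT_slash_eq_self_of_mem_Gamma0.ModularForm.HeckeSlashInvariance

namespace Fermat.Agent.S29.H395

open Fermat.Agent.S24 Fermat.Agent.S37.H340 Fermat.Agent.S37.H400

/-! ### `InfExp` bookkeeping -/

theorem infExp_finset_prod {N : ℕ} {ι : Type*} (s : Finset ι) (f : ι → ℍ → ℂ)
    (φ : ι → LaurentSeries ℂ) (h : ∀ i ∈ s, InfExp N (f i) (φ i)) :
    InfExp N (fun τ => ∏ i ∈ s, f i τ) (∏ i ∈ s, φ i) := by
  classical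
  induction s using Finset.induction_on with
  | empty => simpa using (InfExp.one (N := N))
  | insert i s hi ih =>
    have h1 := h i (Finset.mem_insert_self i s)
    have h2 := ih fun j hj => h j (Finset.mem_insert_of_mem hj)
    have := h1.mul h2
    simpa [Finset.prod_insert hi] using this

theorem infZ_pow_eq (ℓ : ℕ) [NeZero ℓ] (τ : ℍ) : infZ ℓ τ ^ ℓ = infZ 1 τ := by
  rw [infZ_def, infZ_def, ← Complex.exp_nat_mul]
  congr 1
  have hℓ : (ℓ : ℂ) ≠ 0 := by exact_mod_cast NeZero.ne ℓ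
  field_simp
  simp

/-- Descent of the variable: an expansion in `z_ℓ = q^{1/ℓ}` which only involves powers of
`z_ℓ^ℓ = q` is an expansion in `q`. -/
theorem infExp_of_qExpand {ℓ : ℕ} [NeZero ℓ] {f : ℍ → ℂ} {φ : LaurentSeries ℂ}
    (h : InfExp ℓ f (qExpand ℂ ℓ φ)) : InfExp 1 f φ := by
  intro τ
  have h1 := h τ
  have he0 : (ℓ : ℤ) ≠ 0 := by exact_mod_cast NeZero.ne ℓ
  have hinj : Function.Injective (fun n : ℤ => (ℓ : ℤ) * n) := mul_right_injective₀ he0
  have hrange : ∀ m : ℤ, m ∉ Set.range (fun n : ℤ => (ℓ : ℤ) * n) →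
      (qExpand ℂ ℓ φ).coeff m * infZ ℓ τ ^ m = 0 := by
    intro m hm
    rw [qExpand_coeff_of_not_dvd ℓ _ (fun ⟨j, hj⟩ => hm ⟨j, hj.symm⟩), zero_mul]
  rw [← hinj.hasSum_iff hrange] at h1
  convert h1 using 1
  funext n
  simp only [Function.comp_apply, qExpand_coeff_mul]
  rw [← infZ_pow_eq ℓ τ, ← zpow_natCast (infZ ℓ τ) ℓ, ← zpow_mul]

/-! ### The Hecke representatives as affine maps -/

section Rep

variable {ℓ : ℕ} [Fact ℓ.Prime]

theorem heckeRep_infty_smul (τ : ℍ) : _root_.P2MW.S_ModularForm_heckeT_slash_eq_self_of_mem_Gamma0.ModularForm.HeckeSlashInvariance.heckeRep ℓ ∞ • τ = infAff ℓ 0 1 τ := by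
  have hℓ : ℓ ≠ 0 := (Fact.out : ℓ.Prime).ne_zero
  apply UpperHalfPlane.ext
  rw [heckeRep_infty, ModularForm.coe_heckeDiagMatrix_smul hℓ,
    infAff_coe (Nat.pos_of_ne_zero hℓ) one_pos]
  simp

theorem heckeRep_coe_smul (j : ZMod ℓ) (τ : ℍ) :
    _root_.P2MW.S_ModularForm_heckeT_slash_eq_self_of_mem_Gamma0.ModularForm.HeckeSlashInvariance.heckeRep ℓ (j : OnePoint (ZMod ℓ)) • τ = infAff 1 (j.val : ℤ) ℓ τ := by
  have hℓ : ℓ ≠ 0 := (Fact.out : ℓ.Prime).ne_zero
  apply UpperHalfPlane.ext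
  rw [heckeRep_coe, ModularForm.coe_heckeMatrix_smul hℓ,
    infAff_coe one_pos (Nat.pos_of_ne_zero hℓ)]
  simp

theorem heckeProd_eq (a : ℍ → ℂ) (τ : ℍ) :
    heckeProd ℓ a τ = a (infAff ℓ 0 1 τ) * ∏ j : ZMod ℓ, a (infAff 1 (j.val : ℤ) ℓ τ) := by
  rw [heckeProd_apply]
  have h := Fintype.prod_option (fun x : OnePoint (ZMod ℓ) => a (_root_.P2MW.S_ModularForm_heckeT_slash_eq_self_of_mem_Gamma0.ModularForm.HeckeSlashInvariance.heckeRep ℓ x • τ))
  rw [show (∏ x : OnePoint (ZMod ℓ), a (_root_.P2MW.S_ModularForm_heckeT_slash_eq_self_of_mem_Gamma0.ModularForm.HeckeSlashInvariance.heckeRep ℓ x • τ))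
      = ∏ x : Option (ZMod ℓ), a (_root_.P2MW.S_ModularForm_heckeT_slash_eq_self_of_mem_Gamma0.ModularForm.HeckeSlashInvariance.heckeRep ℓ x • τ) from rfl, h]
  congr 1
  · exact congrArg a (heckeRep_infty_smul τ)
  · exact Finset.prod_congr rfl fun j _ => congrArg a (heckeRep_coe_smul j τ)

end Rep

/-! ### Expansions of the translates -/

section Translates

variable {ℓ : ℕ} [NeZero ℓ] {a : ℍ → ℂ} {A : LaurentSeries ℂ}

theorem infExp_comp_mul (ha : InfExp 1 a A) :
    InfExp 1 (fun τ => a (infAff ℓ 0 1 τ)) (qExpand ℂ ℓ A) := by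
  have hℓ : 0 < ℓ := Nat.pos_of_ne_zero (NeZero.ne ℓ)
  have h := ha.comp_infAff (N := 1) (e := ℓ) 0 hℓ one_pos one_pos one_pos (by ring)
  rwa [infRoot_zero, infTwist_one] at h

theorem infExp_comp_div (ha : InfExp 1 a A) (j : ℤ) :
    InfExp ℓ (fun τ => a (infAff 1 j ℓ τ)) (infTwist (infRoot j ℓ) A) := by
  have hℓ : 0 < ℓ := Nat.pos_of_ne_zero (NeZero.ne ℓ)
  have h := ha.comp_infAff (N := ℓ) (e := 1) j one_pos hℓ one_pos hℓ (by ring)
  rwa [qExpand_one_apply, mul_one] at h

end Translates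

/-! ### The formal product formula -/

section Formal

variable (ℓ : ℕ) [NeZero ℓ]

/-- `ζ_ℓ = exp (2πi/ℓ)`. -/
def zetaL : ℂ := Complex.exp (2 * π * Complex.I / ℓ)

theorem isPrimitiveRoot_zetaL : IsPrimitiveRoot (zetaL ℓ) ℓ :=
  Complex.isPrimitiveRoot_exp ℓ (NeZero.ne ℓ)

omit [NeZero ℓ] in
theorem infRoot_eq_zetaL_pow (b : ℕ) : ((infRoot (b : ℤ) ℓ : ℂˣ) : ℂ) = zetaL ℓ ^ b := by
  rw [infRoot_coe, zetaL, ← Complex.exp_nat_mul]
  congr 1
  push_cast
  ring

theorem zpw_eq_zpow {w : ℂ} (hw : w ^ ℓ = 1) (hw0 : w ≠ 0) (n : ℤ) : zpw ℓ w n = w ^ n := by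
  unfold zpw
  have hℓ : (0 : ℤ) < ℓ := by exact_mod_cast Nat.pos_of_ne_zero (NeZero.ne ℓ)
  have h1 : n = (ℓ : ℤ) * (n / ℓ) + n % ℓ := (Int.mul_ediv_add_emod n ℓ).symm
  have h2 : 0 ≤ n % (ℓ : ℤ) := Int.emod_nonneg n hℓ.ne'
  conv_rhs => rw [h1]
  rw [zpow_add₀ hw0, zpow_mul, zpow_natCast, hw, one_zpow, one_mul]
  conv_rhs => rw [← Int.toNat_of_nonneg h2]
  rw [zpow_natCast]

theorem tw_eq_infTwist (b : ℕ) (A : LaurentSeries ℂ) :
    tw ℓ (zetaL ℓ ^ b) A = infTwist (infRoot (b : ℤ) ℓ) A := by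
  ext n
  rw [tw_coeff, infTwist_coeff, Units.val_zpow_eq_zpow_val, infRoot_eq_zetaL_pow, mul_comm]
  congr 1
  have hζ := (isPrimitiveRoot_zetaL ℓ)
  refine zpw_eq_zpow ℓ ?_ (pow_ne_zero _ (hζ.ne_zero (NeZero.ne ℓ))) n
  rw [← pow_mul, mul_comm, pow_mul, hζ.pow_eq_one, one_pow]

theorem kronMat_eq_secMat (A : LaurentSeries ℂ) : kronMat ℓ A = secMat ℓ A := by
  ext i j n
  rw [kronMat_apply, secMat_apply', sect_coeff, secL_coeff]

/-- **Product formula** `∏_{b < ℓ} A(ζ^b z) = (det secMat A)(z^ℓ)`. -/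
theorem prod_infTwist_eq (A : LaurentSeries ℂ) :
    ∏ b : Fin ℓ, infTwist (infRoot ((b : ℕ) : ℤ) ℓ) A = qExpand ℂ ℓ (secMat ℓ A).det := by
  classical
  have h := kron_map_qExpand_eq_prod (isPrimitiveRoot_zetaL ℓ) A
  have h0 : (Polynomial.map (qExpand ℂ ℓ) (kron ℓ A)).coeff 0
      = (∏ b : Fin ℓ, (Polynomial.X - Polynomial.C (tw ℓ (zetaL ℓ ^ (b : ℕ)) A))).coeff 0 := by
    rw [h]
  rw [Polynomial.coeff_map, kron, Polynomial.coeff_zero_eq_eval_zero (∏ b : Fin ℓ, _),
    Polynomial.eval_prod] at h0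
  simp only [Polynomial.eval_sub, Polynomial.eval_X, Polynomial.eval_C, zero_sub] at h0
  rw [Finset.prod_neg, Finset.card_univ, Fintype.card_fin] at h0
  have hdet := Matrix.det_eq_sign_charpoly_coeff (kronMat ℓ A)
  rw [Fintype.card_fin] at hdet
  rw [← kronMat_eq_secMat, hdet, map_mul, map_pow, map_neg, map_one, h0, ← mul_assoc,
    ← mul_pow]
  simp only [neg_mul_neg, one_mul, one_pow]
  exact Finset.prod_congr rfl fun b _ => (tw_eq_infTwist ℓ b A).symm

end Formal

/-! ### The main statement -/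

/-- **Analytic Kronecker norm**: `heckeProd ℓ a` has the `q`-expansion `kronNorm ℓ A`. -/
theorem infExp_heckeProd {ℓ : ℕ} [Fact ℓ.Prime] {a : ℍ → ℂ} {A : LaurentSeries ℂ}
    (ha : InfExp 1 a A) : InfExp 1 (heckeProd ℓ a) (kronNorm ℓ A) := by
  have h1 : InfExp 1 (fun τ => a (infAff ℓ 0 1 τ)) (qExpand ℂ ℓ A) := infExp_comp_mul ha
  have h2 : InfExp ℓ (fun τ => ∏ b : Fin ℓ, a (infAff 1 ((b : ℕ) : ℤ) ℓ τ))
      (∏ b : Fin ℓ, infTwist (infRoot ((b : ℕ) : ℤ) ℓ) A) :=
    infExp_finset_prod Finset.univ _ _ fun b _ => infExp_comp_div ha _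
  rw [prod_infTwist_eq] at h2
  have h3 := infExp_of_qExpand h2
  have h4 := h1.mul h3
  rw [kronNorm]
  refine h4.congr fun τ => ?_
  rw [heckeProd_eq]
  congr 1
  -- reindex `Fin ℓ ≃ ZMod ℓ`
  refine Finset.prod_nbij' (fun b : Fin ℓ => ((b : ℕ) : ZMod ℓ))
    (fun j : ZMod ℓ => ⟨j.val, ZMod.val_lt j⟩) (fun _ _ => Finset.mem_univ _)
    (fun _ _ => Finset.mem_univ _) (fun b _ => ?_) (fun j _ => ?_) (fun b _ => ?_)
  · exact Fin.ext (ZMod.val_natCast_of_lt b.2)
  · exact ZMod.natCast_zmod_val j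
  · rw [ZMod.val_natCast_of_lt b.2]

end Fermat.Agent.S29.H395

end

end
-- ===== PACK-END S29/H395/AnalyticKron.lean

-- ===== PACK-BEGIN S29/H395/GoodProd.lean
section
/-
S29 / layer M / bridge BR, piece NORM — helper395.

`heckeProd ℓ` preserves the landed ring `S24.H648.goodRing N` (holomorphic, `Γ₀(N)`-invariant, all
`SL₂(ℤ)`-translates of at most exponential growth), for a prime `ℓ ∤ N`.
-/



set_option autoImplicit false
set_option linter.style.haveILetI false

noncomputable section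

open CongruenceSubgroup Matrix.SpecialLinearGroup UpperHalfPlane
open scoped MatrixGroups Real Manifold OnePoint
open P2MW.S_ModularForm_heckeT_slash_eq_self_of_mem_Gamma0.ModularForm.HeckeSlashInvariance

namespace Fermat.Agent.S29.H395

open Fermat.Agent.S24 Fermat.Agent.S24.H648 Fermat.Agent.S29.H201

/-! ### Finite products -/

theorem mdiff_finset_prod {ι : Type*} (s : Finset ι) (f : ι → ℍ → ℂ)
    (h : ∀ i ∈ s, MDifferentiable 𝓘(ℂ) 𝓘(ℂ) (f i)) :
    MDifferentiable 𝓘(ℂ) 𝓘(ℂ) (fun τ => ∏ i ∈ s, f i τ) := by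
  classical
  induction s using Finset.induction_on with
  | empty => simpa using (mdifferentiable_const : MDifferentiable 𝓘(ℂ) 𝓘(ℂ) (fun _ : ℍ => (1 : ℂ)))
  | insert i s hi ih =>
    have h1 := h i (Finset.mem_insert_self i s)
    have h2 := ih fun j hj => h j (Finset.mem_insert_of_mem hj)
    have := h1.mul h2
    have e : (fun τ => ∏ j ∈ insert i s, f j τ) = f i * fun τ => ∏ j ∈ s, f j τ := by
      funext τ
      simp [Finset.prod_insert hi]
    rw [e]
    exact this

theorem expGrowth_finset_prod {ι : Type*} (s : Finset ι) (f : ι → ℍ → ℂ)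
    (h : ∀ i ∈ s, ExpGrowth (f i)) : ExpGrowth (fun τ => ∏ i ∈ s, f i τ) := by
  classical
  induction s using Finset.induction_on with
  | empty => simpa using expGrowth_const 1
  | insert i s hi ih =>
    have h1 := h i (Finset.mem_insert_self i s)
    have h2 := ih fun j hj => h j (Finset.mem_insert_of_mem hj)
    have := h1.mul h2
    have e : (fun τ => ∏ j ∈ insert i s, f j τ) = f i * fun τ => ∏ j ∈ s, f j τ := by
      funext τ
      simp [Finset.prod_insert hi]
    rw [e]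
    exact this

/-! ### Holomorphy -/

section Hol

variable {ℓ : ℕ} [Fact ℓ.Prime]

omit [Fact ℓ.Prime] in
theorem heckeRep_det_pos (x : OnePoint (ZMod ℓ)) : 0 < ((_root_.P2MW.S_ModularForm_heckeT_slash_eq_self_of_mem_Gamma0.ModularForm.HeckeSlashInvariance.heckeRep ℓ x).det : ℝ) := by
  induction x using OnePoint.rec with
  | infty => exact ModularForm.det_heckeDiagMatrix_pos ℓ
  | coe j => exact ModularForm.det_heckeMatrix_pos ℓ j.val

theorem mdiff_heckeProd {U : ℍ → ℂ} (hU : MDifferentiable 𝓘(ℂ) 𝓘(ℂ) U) :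
    MDifferentiable 𝓘(ℂ) 𝓘(ℂ) (heckeProd ℓ U) := by
  refine mdiff_finset_prod Finset.univ (fun x τ => U (_root_.P2MW.S_ModularForm_heckeT_slash_eq_self_of_mem_Gamma0.ModularForm.HeckeSlashInvariance.heckeRep ℓ x • τ)) fun x _ => ?_
  exact hU.comp (UpperHalfPlane.mdifferentiable_smul (heckeRep_det_pos x))

end Hol

/-! ### Periodicity of the translates of an invariant function -/

theorem conj_T_pow_mem_Gamma0 (N : ℕ) (g : SL(2, ℤ)) :
    g * ModularGroup.T ^ (N : ℤ) * g⁻¹ ∈ Gamma0 N := by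
  have h1 : ModularGroup.T ^ (N : ℤ) ∈ Gamma N := by
    have := ModularGroup_T_pow_mem_Gamma (N : ℤ) (N : ℤ) dvd_rfl
    simpa using this
  have h2 : g * ModularGroup.T ^ (N : ℤ) * g⁻¹ ∈ Gamma N := (Gamma_normal N).conj_mem _ h1 g
  rw [Gamma0_mem]
  exact (Gamma_mem.mp h2).2.2.1

theorem translate_periodic {N : ℕ} {G : ℍ → ℂ}
    (hG : ∀ γ ∈ Gamma0 N, ∀ τ : ℍ, G (γ • τ) = G τ) (g : SL(2, ℤ)) (τ : ℍ) :
    G (g • ((N : ℝ) +ᵥ τ)) = G (g • τ) := by
  have h1 : ((N : ℝ) +ᵥ τ) = ModularGroup.T ^ (N : ℤ) • τ := by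
    rw [UpperHalfPlane.modular_T_zpow_smul]; simp
  have h2 : g • (ModularGroup.T ^ (N : ℤ) • τ)
      = (g * ModularGroup.T ^ (N : ℤ) * g⁻¹) • (g • τ) := by
    rw [← mul_smul, ← mul_smul, inv_mul_cancel_right]
  rw [h1, h2, hG _ (conj_T_pow_mem_Gamma0 N g)]

theorem continuous_translate {G : ℍ → ℂ} (hG : MDifferentiable 𝓘(ℂ) 𝓘(ℂ) G) (g : SL(2, ℤ)) :
    Continuous (fun τ : ℍ => G (g • τ)) := by
  have h : MDifferentiable 𝓘(ℂ) 𝓘(ℂ) (fun τ : ℍ => G (g • τ)) :=
    hG.comp (UpperHalfPlane.mdifferentiable_smul (g := (g : GL (Fin 2) ℝ)) (by simp))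
  exact h.continuous

/-! ### The main statement -/

section Main

variable {N : ℕ} [NeZero N] {ℓ : ℕ} [Fact ℓ.Prime]

/-- Growth of a single factor `τ ↦ G (heckeRep x • g • τ)`. -/
theorem expGrowth_factor {G : ℍ → ℂ} (hG : G ∈ goodRing N) (g : SL(2, ℤ))
    (x : OnePoint (ZMod ℓ)) : ExpGrowth (fun τ => G (_root_.P2MW.S_ModularForm_heckeT_slash_eq_self_of_mem_Gamma0.ModularForm.HeckeSlashInvariance.heckeRep ℓ x • (g • τ))) := by
  obtain ⟨hmd, hinv, hgr⟩ := hG
  have hℓ1 : ¬ ℓ ∣ 1 := (Fact.out : ℓ.Prime).one_lt.ne' ∘ Nat.dvd_one.mp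
  have hℓ : 0 < ℓ := (Fact.out : ℓ.Prime).pos
  obtain ⟨g', -, hg'⟩ := heckeRep_mul hℓ1 g (one_dvd _) x
  have hNpos : (0 : ℝ) < (N : ℝ) := by exact_mod_cast Nat.pos_of_ne_zero (NeZero.ne N)
  have key : ∀ τ : ℍ, G (_root_.P2MW.S_ModularForm_heckeT_slash_eq_self_of_mem_Gamma0.ModularForm.HeckeSlashInvariance.heckeRep ℓ x • (g • τ))
      = G (g' • (_root_.P2MW.S_ModularForm_heckeT_slash_eq_self_of_mem_Gamma0.ModularForm.HeckeSlashInvariance.heckeRep ℓ (redMatrix ℓ g • x) • τ)) := by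
    intro τ
    show G (_root_.P2MW.S_ModularForm_heckeT_slash_eq_self_of_mem_Gamma0.ModularForm.HeckeSlashInvariance.heckeRep ℓ x • (mapGL ℝ g • τ)) = G (mapGL ℝ g' • (_root_.P2MW.S_ModularForm_heckeT_slash_eq_self_of_mem_Gamma0.ModularForm.HeckeSlashInvariance.heckeRep ℓ (redMatrix ℓ g • x) • τ))
    rw [← mul_smul, ← mul_smul, hg']
  have hF := continuous_translate hmd g'
  have hper := translate_periodic hinv g'
  generalize redMatrix ℓ g • x = y at key
  induction y using OnePoint.rec with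
  | infty =>
    have := expGrowth_comp_infAff hF hNpos hper (hgr g') hℓ one_pos 0
    have e : (fun τ => G (_root_.P2MW.S_ModularForm_heckeT_slash_eq_self_of_mem_Gamma0.ModularForm.HeckeSlashInvariance.heckeRep ℓ x • (g • τ))) = fun τ => G (g' • infAff ℓ 0 1 τ) := by
      funext τ
      rw [key τ, heckeRep_infty_smul]
    rw [e]
    exact this
  | coe j =>
    have := expGrowth_comp_infAff hF hNpos hper (hgr g') one_pos hℓ (j.val : ℤ)
    have e : (fun τ => G (_root_.P2MW.S_ModularForm_heckeT_slash_eq_self_of_mem_Gamma0.ModularForm.HeckeSlashInvariance.heckeRep ℓ x • (g • τ)))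
        = fun τ => G (g' • infAff 1 (j.val : ℤ) ℓ τ) := by
      funext τ
      rw [key τ, heckeRep_coe_smul]
    rw [e]
    exact this

/-- **`heckeProd ℓ` preserves good functions** (`ℓ ∤ N` prime). -/
theorem heckeProd_mem_goodRing (hℓN : ¬ ℓ ∣ N) {G : ℍ → ℂ} (hG : G ∈ goodRing N) :
    heckeProd ℓ G ∈ goodRing N := by
  refine ⟨mdiff_heckeProd hG.1, fun γ hγ τ => ?_, fun g => ?_⟩
  · have h := heckeProd_smul hℓN (h := G) (c := fun _ => 1)
      (fun γ τ => by rw [one_mul]; exact hG.2.1 _ γ.2 τ) ⟨γ, hγ⟩ τ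
    simpa using h
  · exact expGrowth_finset_prod Finset.univ
      (fun x τ => G (_root_.P2MW.S_ModularForm_heckeT_slash_eq_self_of_mem_Gamma0.ModularForm.HeckeSlashInvariance.heckeRep ℓ x • (g • τ))) fun x _ => expGrowth_factor hG g x

end Main

end Fermat.Agent.S29.H395

end

end
-- ===== PACK-END S29/H395/GoodProd.lean

-- ===== PACK-BEGIN S41/H221/PDAsm2.lean
section




/-!
# S41, block PD — assembly, part 2 (helper221): β-formula, `c_δ`-isometry, PD and LIFT

From the leaves of `Spec/PD.lean` (taken as hypotheses):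
* `maninPairingBeta`      : `Spec.ManinPairingBetaStatement`      (A4);
* `maninPairingConjDelta` : `Spec.ManinPairingConjDeltaStatement` (A5);
* `pd_of_asm`             : `Spec.PDStatement` from A2, A3, A5, TR-4;
* `lift_of_leaves`        : `Spec.LiftStatement`.
-/

set_option autoImplicit false

namespace Fermat.Agent.S41.H221

open CongruenceSubgroup Matrix.SpecialLinearGroup ModularCurve.Period ModularGroup
open Fermat.Agent.S41.Spec
open scoped MatrixGroups

universe u

/-! ## A4 : the β-formula -/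

section Heis

variable {Γ : Subgroup SL(2, ℤ)} {R : Type*} [CommRing R]

theorem isHeisLift_map_one {φ ψ : Additive Γ →+ R} {ζ : Γ → R} (h : IsHeisLift Γ φ ψ ζ) :
    ζ 1 = 0 := h.2 1 IsOfFinOrder.one

theorem isHeisLift_conj {φ ψ : Additive Γ →+ R} {ζ : Γ → R} (h : IsHeisLift Γ φ ψ ζ)
    (g γ : Γ) (h1 : φ (Additive.ofMul γ) = 0) (h2 : ψ (Additive.ofMul γ) = 0) :
    ζ (g * γ * g⁻¹) = ζ γ := by
  have e1 := h.1 (g * γ) g⁻¹
  have e2 := h.1 g γ
  have e3 := h.1 g g⁻¹
  rw [mul_inv_cancel, isHeisLift_map_one h] at e3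
  have e4 : φ (Additive.ofMul (g * γ)) = φ (Additive.ofMul g) + φ (Additive.ofMul γ) :=
    φ.map_add _ _
  rw [e1, e2, e4, h1, h2]
  linear_combination -e3

/-- The difference of two Heisenberg lifts is a torsion-trivial homomorphism. -/
def heisDiff {φ ψ : Additive Γ →+ R} {ζ ζ₀ : Γ → R} (h : IsHeisLift Γ φ ψ ζ)
    (h₀ : IsHeisLift Γ φ ψ ζ₀) : Additive Γ →+ R where
  toFun g := ζ (Additive.toMul g) - ζ₀ (Additive.toMul g)
  map_zero' := by
    show ζ 1 - ζ₀ 1 = 0
    rw [isHeisLift_map_one h, isHeisLift_map_one h₀, sub_zero]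
  map_add' g g' := by
    show ζ (Additive.toMul g * Additive.toMul g') - ζ₀ (Additive.toMul g * Additive.toMul g') = _
    rw [h.1, h₀.1]
    ring

theorem heisDiff_apply {φ ψ : Additive Γ →+ R} {ζ ζ₀ : Γ → R} (h : IsHeisLift Γ φ ψ ζ)
    (h₀ : IsHeisLift Γ φ ψ ζ₀) (γ : Γ) : heisDiff h h₀ (Additive.ofMul γ) = ζ γ - ζ₀ γ := rfl

end Heis

theorem maninPairingBeta (hA1 : ManinPairingEqStatement.{u}) (hD1 : ManinRepExistsStatement.{u})
    (hD4 : ManinRepParabolicStatement.{u}) (hHeis : HeisLiftStatement.{u})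
    (hZero : CuspSumZeroStatement.{u}) (hEx : TOrbitSystemExistsStatement)
    (hTC : TOrbitCuspStatement) (hInd : CuspSumIndepStatement.{u}) :
    ManinPairingBetaStatement.{u} := by
  intro Γ _ hneg F _ φ ψ ζ hφ hψ hζ ι _ γ hγ
  obtain ⟨m, hm⟩ := hD1 Γ hneg F φ hφ.2
  obtain ⟨e, he⟩ := (hD4 Γ hneg F φ m hm).1 hφ.1
  obtain ⟨m', hm'⟩ := hD1 Γ hneg F ψ hψ.2
  obtain ⟨e', he'⟩ := (hD4 Γ hneg F ψ m' hm').1 hψ.1
  obtain ⟨ζ₀, hζ₀, hβ⟩ := hHeis Γ hneg F φ ψ m m' e e' hm hm' he he'
  obtain ⟨ι₀, inst₀, γ₀, h₀, w₀, hsys⟩ := hEx Γ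
  have hcusp₀ := hTC Γ hneg ι₀ γ₀ h₀ w₀ hsys
  have hclass : ∀ g γ : Γ, IsPosParabolic (γ : SL(2, ℤ)) → ζ (g * γ * g⁻¹) = ζ γ := by
    intro g γ hγ
    have htr : ((γ : SL(2, ℤ)) : Matrix (Fin 2) (Fin 2) ℤ).trace ^ 2 = 4 := by
      rw [hγ.2.1]; norm_num
    exact isHeisLift_conj hζ g γ (hφ.1 γ htr) (hψ.1 γ htr)
  rw [hInd Γ F ζ hclass ι ι₀ γ γ₀ hγ hcusp₀]
  have hχ : ∀ γ : Γ, IsOfFinOrder γ → heisDiff hζ hζ₀ (Additive.ofMul γ) = 0 := by
    intro γ hγ
    rw [heisDiff_apply, hζ.2 γ hγ, hζ₀.2 γ hγ, sub_zero]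
  have h1 := hZero Γ hneg F (heisDiff hζ hζ₀) hχ ι₀ γ₀ h₀ w₀ hsys
  have h2 := hβ ι₀ γ₀ h₀ w₀ hsys
  simp only [heisDiff_apply, Finset.sum_sub_distrib] at h1
  rw [sub_eq_zero.mp h1, h2, hA1 Γ hneg F φ ψ m m' e' hφ.1 hm hm' he']

/-! ## A5 : `c_δ` is an isometry -/

theorem isCuspidalOn_comp_conjDeltaR {N q : ℕ} {A : Type*} [AddCommGroup A]
    (φ : Additive (gamma0Delta N q) →+ A) (hφ : IsCuspidalOn (gamma0Delta N q) φ) :
    IsCuspidalOn (Gamma0 (N * q)) (φ.comp (MonoidHom.toAdditive (conjDeltaR N q))) := by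
  refine ⟨fun γ hγ => ?_, fun γ hγ => ?_⟩
  · refine hφ.1 (conjDeltaR N q γ) ?_
    rw [trace_conjDeltaR]; exact hγ
  · exact hφ.2 (conjDeltaR N q γ) ((conjDeltaR N q).isOfFinOrder hγ)

theorem isHeisLift_comp_conjDeltaR {N q : ℕ} {R : Type*} [CommRing R]
    (φ ψ : Additive (gamma0Delta N q) →+ R) (ζ : gamma0Delta N q → R)
    (hζ : IsHeisLift (gamma0Delta N q) φ ψ ζ) :
    IsHeisLift (Gamma0 (N * q)) (φ.comp (MonoidHom.toAdditive (conjDeltaR N q)))
      (ψ.comp (MonoidHom.toAdditive (conjDeltaR N q))) (fun γ => ζ (conjDeltaR N q γ)) := by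
  refine ⟨fun γ γ' => ?_, fun γ hγ => ?_⟩
  · show ζ (conjDeltaR N q (γ * γ')) = _
    rw [map_mul, hζ.1]
    rfl
  · exact hζ.2 _ ((conjDeltaR N q).isOfFinOrder hγ)

theorem maninPairingConjDelta (hA4 : ManinPairingBetaStatement.{u})
    (hD1 : ManinRepExistsStatement.{u}) (hD4 : ManinRepParabolicStatement.{u})
    (hHeis : HeisLiftStatement.{u}) (hEx : TOrbitSystemExistsStatement)
    (hTC : TOrbitCuspStatement) (hCD : CuspSystemConjDeltaStatement) :
    ManinPairingConjDeltaStatement.{u} := by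
  intro N q hN hq hqN F _ φ ψ hφ hψ
  have hq0 : q ≠ 0 := hq.ne_zero
  have hFI' : (gamma0Delta N q).FiniteIndex := finiteIndex_gamma0Delta hN hq0
  have hFI : (Gamma0 (N * q)).FiniteIndex := finiteIndex_gamma0 (Nat.mul_ne_zero hN hq0)
  have hneg' := neg_one_mem_gamma0Delta N q
  have hneg := neg_one_mem_gamma0 (N * q)
  -- a Heisenberg lift on `Γ'`
  obtain ⟨m, hm⟩ := hD1 _ hneg' F φ hφ.2
  obtain ⟨e, he⟩ := (hD4 _ hneg' F φ m hm).1 hφ.1
  obtain ⟨m', hm'⟩ := hD1 _ hneg' F ψ hψ.2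
  obtain ⟨e', he'⟩ := (hD4 _ hneg' F ψ m' hm').1 hψ.1
  obtain ⟨ζ, hζ, -⟩ := hHeis _ hneg' F φ ψ m m' e e' hm hm' he he'
  -- a cusp system on `Γ₀(N q)` and its image
  obtain ⟨ι, inst, γ, h, w, hsys⟩ := hEx (Gamma0 (N * q))
  have hcusp := hTC _ hneg ι γ h w hsys
  have hcusp' := hCD N q hN hq0 ι γ hcusp
  have h1 := hA4 _ hneg F _ _ _ (isCuspidalOn_comp_conjDeltaR φ hφ)
    (isCuspidalOn_comp_conjDeltaR ψ hψ) (isHeisLift_comp_conjDeltaR φ ψ ζ hζ) ι γ hcusp
  have h2 := hA4 _ hneg' F φ ψ ζ hφ hψ hζ ι (fun i => conjDeltaR N q (γ i)) hcusp'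
  exact neg_injective (h1.symm.trans h2)

/-! ## PD -/

theorem isCuspidalOn_comp_symm {N q : ℕ} (hq : q ≠ 0) {A : Type*} [AddCommGroup A]
    (y : Additive (Gamma0 (N * q)) →+ A) (hy : IsCuspidalOn (Gamma0 (N * q)) y) :
    IsCuspidalOn (gamma0Delta N q)
      (y.comp (MonoidHom.toAdditive (conjDeltaEquiv N q hq).symm.toMonoidHom)) := by
  refine ⟨fun γ hγ => ?_, fun γ hγ => ?_⟩
  · refine hy.1 ((conjDeltaEquiv N q hq).symm γ) ?_
    have := trace_conjDeltaR N q ((conjDeltaEquiv N q hq).symm γ)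
    rw [← conjDeltaEquiv_apply N q hq, MulEquiv.apply_symm_apply] at this
    rw [← this]; exact hγ
  · exact hy.2 _ ((conjDeltaEquiv N q hq).symm.toMonoidHom.isOfFinOrder hγ)

theorem pd_of_asm (hA2 : ManinPairingPDStatement.{u}) (hA3 : ManinPairingResCoresStatement.{u})
    (hA5 : ManinPairingConjDeltaStatement.{u}) (hTE : TransferAlongEquivStatement.{u}) :
    PDStatement.{u} := by
  intro F _
  refine ⟨fun n => maninPairing (Gamma0 n), ?_, ?_, ?_, ?_, ?_⟩
  · intro n hn x x' y hx hx' hy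
    have := finiteIndex_gamma0 hn
    exact (hA2 (Gamma0 n) (neg_one_mem_gamma0 n) F).1 x x' y hx hx' hy
  · intro n hn c x y hx hy
    have := finiteIndex_gamma0 hn
    exact (hA2 (Gamma0 n) (neg_one_mem_gamma0 n) F).2.1 c x y hx hy
  · intro n hn x y hx hy
    have := finiteIndex_gamma0 hn
    exact (hA2 (Gamma0 n) (neg_one_mem_gamma0 n) F).2.2.1 x y hx hy
  · intro n hn x hx hxy
    have := finiteIndex_gamma0 hn
    exact (hA2 (Gamma0 n) (neg_one_mem_gamma0 n) F).2.2.2 x hx hxy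
  · intro N q hN hq hqN x y hx hy
    have hq0 : q ≠ 0 := hq.ne_zero
    have hFI : (Gamma0 N).FiniteIndex := finiteIndex_gamma0 hN
    have hFI' : (Gamma0 (N * q)).FiniteIndex := finiteIndex_gamma0 (Nat.mul_ne_zero hN hq0)
    have hFI'' : (gamma0Delta N q).FiniteIndex := finiteIndex_gamma0Delta hN hq0
    beta_reduce
    constructor
    · exact hA3 (Gamma0 (N * q)) (Gamma0 N) (gamma0_mul_le N q) (neg_one_mem_gamma0 _) F x y hx hy
    · -- `r₂ x = (res x) ∘ c_δ`, `y = (y ∘ c_δ⁻¹) ∘ c_δ`, `t₂ y = cores (y ∘ c_δ⁻¹)`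
      set e := conjDeltaEquiv N q hq0 with he
      have hr₂ : r₂ N q x = (x.comp (MonoidHom.toAdditive
          (Subgroup.inclusion (gamma0Delta_le N q)))).comp
            (MonoidHom.toAdditive (conjDeltaR N q)) := by
        unfold r₂
        rw [← inclusion_comp_conjDeltaR]
        rfl
      have hy' : y = (y.comp (MonoidHom.toAdditive e.symm.toMonoidHom)).comp
          (MonoidHom.toAdditive (conjDeltaR N q)) := by
        ext γ
        show y (Additive.ofMul γ) = y (Additive.ofMul (e.symm (conjDeltaR N q γ)))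
        rw [← conjDeltaEquiv_apply N q hq0, ← he, MulEquiv.symm_apply_apply]
      have ht₂ : t₂ N q y = transferAlong (Subgroup.inclusion (gamma0Delta_le N q))
          (y.comp (MonoidHom.toAdditive e.symm.toMonoidHom)) := by
        unfold t₂
        rw [← hTE (Gamma0 (N * q)) (gamma0Delta N q) (Gamma0 N) e
          (Subgroup.inclusion (gamma0Delta_le N q)) F y]
        rfl
      rw [hr₂, ht₂]
      conv_lhs => rw [hy']
      rw [hA5 N q hN hq hqN F _ _ (isCuspidalOn_res (gamma0Delta_le N q) x hx)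
        (isCuspidalOn_comp_symm hq0 y hy)]
      exact hA3 (gamma0Delta N q) (Gamma0 N) (gamma0Delta_le N q) (neg_one_mem_gamma0Delta N q) F
        x _ hx (isCuspidalOn_comp_symm hq0 y hy)

/-! ## LIFT -/

theorem lift_of_leaves (hD1 : ManinRepExistsStatement.{0}) (hD2' : ManinRepInvariantStatement.{0})
    (hLin : ManinRepLinearStatement.{0}) (hD3 : ManinRepRealizeStatement.{0})
    (hD3' : ManinRepTorsionStatement.{0}) (hD4 : ManinRepParabolicStatement.{0})
    (hLift : ParDataLiftStatement) : LiftStatement := by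
  intro n p hn xbar hx
  have hFI : (Gamma0 n).FiniteIndex := finiteIndex_gamma0 hn
  have hneg := neg_one_mem_gamma0 n
  obtain ⟨mbar, hmbar⟩ := hD1 (Gamma0 n) hneg (ZMod p) xbar hx.2
  obtain ⟨ebar, hebar⟩ := (hD4 (Gamma0 n) hneg (ZMod p) xbar mbar hmbar).1 hx.1
  obtain ⟨m, e, hme, hm, -⟩ := hLift (Gamma0 n) p mbar ebar hebar
  obtain ⟨φ, hφ⟩ := hD3 (Gamma0 n) hneg ℤ m
  refine ⟨φ, ⟨(hD4 (Gamma0 n) hneg ℤ φ m hφ).2 ⟨e, hme⟩, hD3' (Gamma0 n) hneg ℤ φ m hφ⟩, ?_⟩
  have h1 := (hLin (Gamma0 n) ℤ (ZMod p) (Int.castAddHom (ZMod p)) φ φ m m hφ hφ).2.2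
  have h2 : (fun x => Int.castAddHom (ZMod p) (m x)) = mbar := by
    funext x
    exact hm x
  rw [h2] at h1
  have h3 := (hLin (Gamma0 n) (ZMod p) (ZMod p) (AddMonoidHom.id _) _ _ _ _ h1 hmbar).2.1
  rw [sub_self] at h3
  have h4 : IsInvariantSum (Gamma0 n) (0 : SL(2, ℤ) ⧸ Gamma0 n → ZMod p) :=
    ⟨0, 0, fun _ => rfl, fun _ => rfl, (add_zero 0).symm⟩
  exact sub_eq_zero.mp (hD2' (Gamma0 n) hneg (ZMod p) _ 0 h3 h4)

/-! ## Everything from the leaves -/

/-- **Block PD from the leaves of `Spec/PD.lean`.** -/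
theorem pd_of_leaves
    (hLA1 : ManinPerpStatement.{u}) (hLA2 : ManinSkewStatement.{u})
    (hLA3 : ManinParDataOfStatement.{u})
    (hD1 : ManinRepExistsStatement.{u}) (hD2 : ManinRepZeroStatement.{u})
    (hD2' : ManinRepInvariantStatement.{u}) (hLin : ManinRepLinearStatement.{u})
    (hD3 : ManinRepRealizeStatement.{u}) (hD3' : ManinRepTorsionStatement.{u})
    (hD4 : ManinRepParabolicStatement.{u})
    (hTR1 : ManinRepResStatement.{u}) (hTR2 : ManinRepCoresStatement.{u})
    (hTR3 : ManinFormAdjointStatement.{u}) (hTR4 : TransferAlongEquivStatement.{u})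
    (hHeis : HeisLiftStatement.{u}) (hZero : CuspSumZeroStatement.{u})
    (hC1 : TOrbitSystemExistsStatement) (hC2 : TOrbitCuspStatement)
    (hC3 : CuspSumIndepStatement.{u}) (hC4 : CuspSystemConjDeltaStatement) :
    PDStatement.{u} := by
  have hA1 := maninPairingEq hD2 hLin hD4 hLA2
  have hA2 := maninPairingPD hA1 hD1 hD2' hLin hD3 hD3' hD4 hLA1 hLA2 hLA3
  have hA3 := maninPairingResCores hA1 hD1 hD4 hTR1 hTR2 hTR3
  have hA4 := maninPairingBeta hA1 hD1 hD4 hHeis hZero hC1 hC2 hC3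
  have hA5 := maninPairingConjDelta hA4 hD1 hD4 hHeis hC1 hC2 hC4
  exact pd_of_asm hA2 hA3 hA5 hTR4

/-- **Block PD with Hecke operators from the leaves.** -/
theorem pdHecke_of_leaves (hPD : PDStatement.{u}) (hH : PDHeckeOfPDStatement.{u})
    (hRC : RestrictCuspStatement.{u}) (hTRH : TransferRestrictHeckeStatement.{u}) :
    PDHeckeStatement.{u} := by
  intro F _
  obtain ⟨B, hB⟩ := hPD F
  exact ⟨B, hB, hH hRC hTRH F B hB⟩

end Fermat.Agent.S41.H221

end
-- ===== PACK-END S41/H221/PDAsm2.lean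

-- ===== PACK-BEGIN S41/H585/PDLift.lean
section





/-!
# S41 / block LIFT (helper585): cuspidal classes mod `p` lift to `ℤ`

* `maninRepTorsionU : Spec.ManinRepTorsionStatement`  (D3', unconditional: TORS is on main);
* `lift_of` : LIFT from the leaves D1, D2', D2'', D3, D3', D4, LA-4 (all as hypotheses);
* `lift : Spec.LiftStatement`  (unconditional).
-/

set_option autoImplicit false

namespace Fermat.Agent.S41.H585

open CongruenceSubgroup Matrix.SpecialLinearGroup ModularCurve.Period ModularGroup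
open Fermat.Agent.S41.Spec
open scoped MatrixGroups

universe u

/-- (D3') unconditional. -/
theorem maninRepTorsionU : ManinRepTorsionStatement.{u} :=
  maninRepTorsion H768.torsionClass

lemma neg_one_mem_Gamma0 (n : ℕ) : (-1 : SL(2, ℤ)) ∈ Gamma0 n := by
  rw [Gamma0_mem]; simp

/-- LIFT from the leaves. -/
theorem lift_of (d1 : ManinRepExistsStatement.{0}) (d2' : ManinRepInvariantStatement.{0})
    (d2'' : ManinRepLinearStatement.{0}) (d3 : ManinRepRealizeStatement.{0})
    (d3' : ManinRepTorsionStatement.{0}) (d4 : ManinRepParabolicStatement.{0})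
    (la4 : ParDataLiftStatement) : LiftStatement := by
  intro n p hn xbar hxbar
  have : NeZero n := ⟨hn⟩
  have hneg := neg_one_mem_Gamma0 n
  -- Manin representative and parabolic data mod `p`
  obtain ⟨mbar, hmbar⟩ := d1 (Gamma0 n) hneg (ZMod p) xbar hxbar.2
  obtain ⟨ebar, hebar⟩ := (d4 (Gamma0 n) hneg (ZMod p) xbar mbar hmbar).mp hxbar.1
  -- lift to `ℤ`
  obtain ⟨m, e, hme, hm, -⟩ := la4 (Gamma0 n) p mbar ebar hebar
  obtain ⟨x, hx⟩ := d3 (Gamma0 n) hneg ℤ m
  have hxc : IsCuspidal x :=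
    ⟨(d4 (Gamma0 n) hneg ℤ x m hx).mpr ⟨e, hme⟩, d3' (Gamma0 n) hneg ℤ x m hx⟩
  refine ⟨x, hxc, ?_⟩
  -- the reduction of `x` is represented by `mbar`
  have hred : IsManinRep (Gamma0 n) ((Int.castAddHom (ZMod p)).comp x)
      (fun y => (Int.castAddHom (ZMod p)) (m y)) :=
    (d2'' (Gamma0 n) ℤ (ZMod p) (Int.castAddHom (ZMod p)) x x m m hx hx).2.2
  have hmb : (fun y => (Int.castAddHom (ZMod p)) (m y)) = mbar := by
    funext y
    exact hm y
  rw [hmb] at hred
  -- the difference is represented by `0`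
  have hdiff := (d2'' (Gamma0 n) (ZMod p) (ZMod p) (AddMonoidHom.id _)
    ((Int.castAddHom (ZMod p)).comp x) xbar mbar mbar hred hmbar).2.1
  rw [sub_self] at hdiff
  have hzero : IsInvariantSum (Gamma0 n) (0 : SL(2, ℤ) ⧸ Gamma0 n → ZMod p) :=
    ⟨0, 0, fun _ => rfl, fun _ => rfl, by simp⟩
  have := d2' (Gamma0 n) hneg (ZMod p) _ 0 hdiff hzero
  exact sub_eq_zero.mp this

/-- **Block LIFT (a)**, unconditional. -/
theorem lift : LiftStatement :=
  lift_of H460.maninRepExists H460.maninRepInvariant H460.maninRepLinear maninRepRealize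
    maninRepTorsionU maninRepParabolic H281.parDataLift

end Fermat.Agent.S41.H585

end
-- ===== PACK-END S41/H585/PDLift.lean

-- ===== PACK-BEGIN S41/H761/TRH.lean
section







/-!
# Row S41, block HK, leaf TRH: `t₁ r₂ = T_q = t₂ r₁` (helper761)

`transferRestrictHecke : Spec.TransferRestrictHeckeStatement`.
-/

set_option autoImplicit false

namespace Fermat.Agent.S41.H761

open CongruenceSubgroup Matrix.SpecialLinearGroup ModularForm
open Fermat.Agent.S29.H642 Fermat.Agent.S41.Spec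
open P2MW.S_ModularForm_heckeT_slash_eq_self_of_mem_Gamma0.ModularForm.HeckeSlashInvariance
open scoped MatrixGroups

section TRH

variable {N q : ℕ} [Fact q.Prime]

omit [Fact (Nat.Prime q)] in
theorem conjDelta_apply_entries (γ : Gamma0 (N * q)) :
    ((conjDelta N q γ : Gamma0 N) : SL(2, ℤ)) 0 0 = (γ : SL(2, ℤ)) 0 0 ∧
    ((conjDelta N q γ : Gamma0 N) : SL(2, ℤ)) 0 1 = q * (γ : SL(2, ℤ)) 0 1 ∧
    ((conjDelta N q γ : Gamma0 N) : SL(2, ℤ)) 1 0 * q = (γ : SL(2, ℤ)) 1 0 ∧
    ((conjDelta N q γ : Gamma0 N) : SL(2, ℤ)) 1 1 = (γ : SL(2, ℤ)) 1 1 := by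
  have h := H105.conjDelta_coe_apply N q γ
  have e : ∀ i j, ((conjDelta N q γ : Gamma0 N) : SL(2, ℤ)) i j =
      conjDeltaMatrix q (γ : SL(2, ℤ)) i j := fun i j => by
    have := congrFun (congrFun h i) j
    exact this
  refine ⟨by rw [e]; simp [conjDeltaMatrix], by rw [e]; simp [conjDeltaMatrix], ?_,
    by rw [e]; simp [conjDeltaMatrix]⟩
  rw [e]
  simp only [conjDeltaMatrix, Matrix.of_apply, Matrix.cons_val', Matrix.cons_val_zero,
    Matrix.cons_val_one, Matrix.cons_val_fin_one]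
  exact Int.ediv_mul_cancel (dvd_of_mem_gamma0_mul γ).1

/-- `δ γ = c_δ(γ) δ` for `δ = heckeRep q ∞ = diag(q, 1)`. -/
theorem r2_rel (g' : Gamma0 (N * q)) :
    heckeRep q OnePoint.infty * ((ιN N).comp (incl N q)) g' =
      ιN N (conjDelta N q g') * heckeRep q OnePoint.infty := by
  obtain ⟨c00, c01, c10, c11⟩ := conjDelta_apply_entries g'
  have c10' : ((((conjDelta N q g' : Gamma0 N) : SL(2, ℤ)) 1 0 : ℤ) : ℝ) * (q : ℝ) =
      (((g' : SL(2, ℤ)) 1 0 : ℤ) : ℝ) := by exact_mod_cast c10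
  have hi : ∀ i j, ((((ιN N).comp (incl N q)) g' : GL (Fin 2) ℝ) : Matrix (Fin 2) (Fin 2) ℝ) i j
      = (((g' : SL(2, ℤ)) i j : ℤ) : ℝ) := fun i j => coe_mapGL_apply _ i j
  apply gl_ext <;>
    simp only [coe_mul_apply, coe_ιN_apply, hi, coe_heckeRep_infty, Matrix.of_apply,
      Matrix.cons_val', Matrix.cons_val_zero, Matrix.cons_val_one, Matrix.cons_val_fin_one,
      c00, c01, c11] <;>
    push_cast
  · ring
  · ring
  · linear_combination (-1 : ℝ) * c10'
  · ring

/-- `D c_δ(γ) = γ D` for `D = heckeRep q 0 = [[1, 0], [0, q]]`. -/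
theorem r1_rel (g' : Gamma0 (N * q)) :
    heckeRep q ((0 : ZMod q) : OnePoint (ZMod q)) * ((ιN N).comp (conjDelta N q)) g' =
      ιN N (incl N q g') * heckeRep q ((0 : ZMod q) : OnePoint (ZMod q)) := by
  obtain ⟨c00, c01, c10, c11⟩ := conjDelta_apply_entries g'
  have c10' : ((((conjDelta N q g' : Gamma0 N) : SL(2, ℤ)) 1 0 : ℤ) : ℝ) * (q : ℝ) =
      (((g' : SL(2, ℤ)) 1 0 : ℤ) : ℝ) := by exact_mod_cast c10
  have hi : ∀ i j, ((((ιN N).comp (conjDelta N q)) g' : GL (Fin 2) ℝ) :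
      Matrix (Fin 2) (Fin 2) ℝ) i j
      = ((((conjDelta N q g' : Gamma0 N) : SL(2, ℤ)) i j : ℤ) : ℝ) := fun i j =>
    coe_mapGL_apply _ i j
  have hi' : ∀ i j, ((ιN N (incl N q g') : GL (Fin 2) ℝ) : Matrix (Fin 2) (Fin 2) ℝ) i j
      = (((g' : SL(2, ℤ)) i j : ℤ) : ℝ) := fun i j => coe_mapGL_apply _ i j
  apply gl_ext <;>
    simp only [coe_mul_apply, hi, hi', coe_heckeRep_coe, ZMod.val_zero, Matrix.of_apply,
      Matrix.cons_val', Matrix.cons_val_zero, Matrix.cons_val_one, Matrix.cons_val_fin_one,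
      c00, c01, c11] <;>
    push_cast
  · ring
  · ring
  · linear_combination c10'
  · ring

omit [Fact (Nat.Prime q)] in
theorem rel_mul_inv {D : GL (Fin 2) ℝ} {a b g : Gamma0 N}
    (e : D * ιN N a = ιN N g * (D * ιN N b)) : D * ιN N (a * b⁻¹) = ιN N g * D := by
  rw [map_mul, map_inv, ← mul_assoc, e, mul_assoc, mul_assoc, mul_inv_cancel, mul_one]

/-- Distinctness of the cosets of the product system of `t₁ r₂`. -/
theorem prod_S2_t1r2 (hq : ¬ q ∣ N) (x y : Gamma0 N ⧸ (incl N q).range) (g : Gamma0 N)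
    (e : heckeRep q OnePoint.infty * ιN N (x.out)⁻¹ =
      ιN N g * (heckeRep q OnePoint.infty * ιN N (y.out)⁻¹)) : x = y := by
  have e2 := rel_mul_inv e
  have e10 := congrArg (fun M : GL (Fin 2) ℝ => (M : Matrix (Fin 2) (Fin 2) ℝ) 1 0) e2
  simp only [coe_mul_apply, coe_ιN_apply, coe_heckeRep_infty, Matrix.of_apply,
    Matrix.cons_val', Matrix.cons_val_zero, Matrix.cons_val_one, Matrix.cons_val_fin_one,
    zero_mul, one_mul, zero_add, mul_zero, add_zero] at e10
  have e10' : (((x.out)⁻¹ * ((y.out)⁻¹)⁻¹ : Gamma0 N) : SL(2, ℤ)) 1 0 =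
      (g : SL(2, ℤ)) 1 0 * q := by exact_mod_cast e10
  have hmem : (x.out)⁻¹ * ((y.out)⁻¹)⁻¹ ∈ (incl N q).range :=
    (H105.mem_range_incl_iff (Fact.out : q.Prime) hq _).mpr ⟨(g : SL(2, ℤ)) 1 0, by
      rw [e10', mul_comm]⟩
  rw [inv_inv] at hmem
  have h3 := QuotientGroup.eq.mpr hmem
  rwa [QuotientGroup.out_eq', QuotientGroup.out_eq'] at h3

/-- Distinctness of the cosets of the product system of `t₂ r₁`. -/
theorem prod_S2_t2r1 (x y : Gamma0 N ⧸ (conjDelta N q).range) (g : Gamma0 N)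
    (e : heckeRep q ((0 : ZMod q) : OnePoint (ZMod q)) * ιN N (x.out)⁻¹ =
      ιN N g * (heckeRep q ((0 : ZMod q) : OnePoint (ZMod q)) * ιN N (y.out)⁻¹)) : x = y := by
  have e2 := rel_mul_inv e
  have e01 := congrArg (fun M : GL (Fin 2) ℝ => (M : Matrix (Fin 2) (Fin 2) ℝ) 0 1) e2
  simp only [coe_mul_apply, coe_ιN_apply, coe_heckeRep_coe, ZMod.val_zero, Matrix.of_apply,
    Matrix.cons_val', Matrix.cons_val_zero, Matrix.cons_val_one, Matrix.cons_val_fin_one,
    zero_mul, one_mul, zero_add, mul_zero, add_zero, Nat.cast_zero] at e01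
  have e01' : (((x.out)⁻¹ * ((y.out)⁻¹)⁻¹ : Gamma0 N) : SL(2, ℤ)) 0 1 =
      (g : SL(2, ℤ)) 0 1 * q := by exact_mod_cast e01
  have hmem : (x.out)⁻¹ * ((y.out)⁻¹)⁻¹ ∈ (conjDelta N q).range :=
    (H105.mem_range_conjDelta_iff N (Fact.out : q.Prime).ne_zero _).mpr ⟨(g : SL(2, ℤ)) 0 1, by
      rw [e01', mul_comm]⟩
  rw [inv_inv] at hmem
  have h3 := QuotientGroup.eq.mpr hmem
  rwa [QuotientGroup.out_eq', QuotientGroup.out_eq'] at h3

variable {A : Type*} [AddCommGroup A]

/-- `t₁ r₂ = T_q`. -/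
theorem t1_r2 (hq : ¬ q ∣ N) (φ : Additive (Gamma0 N) →+ A) :
    t₁ N q (r₂ N q φ) = heckeTransfer hq φ := by
  have hqp : q.Prime := Fact.out
  have hN : N ≠ 0 := by rintro rfl; exact hq (dvd_zero q)
  have : (incl N q).range.FiniteIndex := ⟨by rw [H105.index_range_incl hN hqp hq]; omega⟩
  let _ : Fintype (Gamma0 N ⧸ (incl N q).range) := (incl N q).range.fintypeQuotientOfFiniteIndex
  have hs1 := IsCosetSystem.single (ι' := (ιN N).comp (incl N q)) (ιN_injective N)
    (conjDelta N q) (heckeRep q OnePoint.infty) r2_rel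
  have hs2 := IsCosetSystem.ofTransfer (incl N q) (H105.incl_injective N q) (ιN N)
    (ιN_injective N)
  have hprod := hs1.prod hs2 (fun _ _ x y g e => ⟨rfl, prod_S2_t1r2 hq x y g e⟩)
  show transferAlong (incl N q) (r₂ N q φ) = _
  rw [transferAlong_eq (incl N q) (H105.incl_injective N q) (ιN N) (ιN_injective N)]
  have hr2 : r₂ N q φ = hs1.transfer φ :=
    (IsCosetSystem.single_transfer (ι' := (ιN N).comp (incl N q)) (ιN_injective N)
      (conjDelta N q) (heckeRep q OnePoint.infty) r2_rel φ).symm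
  rw [hr2, IsCosetSystem.transfer_comp hs1 hs2 hprod, heckeTransfer_eq_transfer]
  have : Nonempty (Unit × (Gamma0 N ⧸ (incl N q).range)) := ⟨((), ((1 : Gamma0 N) : _))⟩
  refine IsCosetSystem.transfer_eq_of_le hprod (heckeSystem hq) (fun z => ?_)
    (heckeSystem_transitive hq) φ
  exact ⟨_, _, heckeSystem_spec hq OnePoint.infty (z.2.out)⁻¹⟩

/-- `t₂ r₁ = T_q`. -/
theorem t2_r1 (hq : ¬ q ∣ N) (φ : Additive (Gamma0 N) →+ A) :
    t₂ N q (r₁ N q φ) = heckeTransfer hq φ := by
  have hqp : q.Prime := Fact.out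
  have hN : N ≠ 0 := by rintro rfl; exact hq (dvd_zero q)
  have : (conjDelta N q).range.FiniteIndex :=
    ⟨by rw [H105.index_range_conjDelta hN hqp hq]; omega⟩
  let _ : Fintype (Gamma0 N ⧸ (conjDelta N q).range) :=
    (conjDelta N q).range.fintypeQuotientOfFiniteIndex
  have hinj := H105.conjDelta_injective N hqp.ne_zero
  have hs1 := IsCosetSystem.single (ι' := (ιN N).comp (conjDelta N q)) (ιN_injective N)
    (incl N q) (heckeRep q ((0 : ZMod q) : OnePoint (ZMod q))) r1_rel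
  have hs2 := IsCosetSystem.ofTransfer (conjDelta N q) hinj (ιN N) (ιN_injective N)
  have hprod := hs1.prod hs2 (fun _ _ x y g e => ⟨rfl, prod_S2_t2r1 x y g e⟩)
  show transferAlong (conjDelta N q) (r₁ N q φ) = _
  rw [transferAlong_eq (conjDelta N q) hinj (ιN N) (ιN_injective N)]
  have hr1 : r₁ N q φ = hs1.transfer φ :=
    (IsCosetSystem.single_transfer (ι' := (ιN N).comp (conjDelta N q)) (ιN_injective N)
      (incl N q) (heckeRep q ((0 : ZMod q) : OnePoint (ZMod q))) r1_rel φ).symm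
  rw [hr1, IsCosetSystem.transfer_comp hs1 hs2 hprod, heckeTransfer_eq_transfer]
  have : Nonempty (Unit × (Gamma0 N ⧸ (conjDelta N q).range)) := ⟨((), ((1 : Gamma0 N) : _))⟩
  refine IsCosetSystem.transfer_eq_of_le hprod (heckeSystem hq) (fun z => ?_)
    (heckeSystem_transitive hq) φ
  exact ⟨_, _, heckeSystem_spec hq ((0 : ZMod q) : OnePoint (ZMod q)) (z.2.out)⁻¹⟩

end TRH

universe u

/-- **Leaf TRH of block HK**: `t₁ r₂ = T_q = t₂ r₁`. -/
theorem transferRestrictHecke : Spec.TransferRestrictHeckeStatement.{u} := by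
  intro N q _ hq _ A _ φ
  exact ⟨t1_r2 hq φ, t2_r1 hq φ⟩

/-- **Leaf HC of block HK**: `T_l` preserves cuspidal classes
(from `T_l = t₁ r₂` at level `(N, l)` and the leaves RC, TC). -/
theorem heckeCusp_of (hRC : Spec.RestrictCuspStatement.{u}) (hTC : Spec.TransferCuspStatement.{u}) :
    Spec.HeckeCuspStatement.{u} := by
  intro N l _ hl A _ φ hφ
  rw [← t1_r2 hl φ]
  exact (hTC N l A _ (hRC N l A φ hφ).2).1

/-- **Leaf HC of block HK**, unconditional (RC and TC by helper581). -/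
theorem heckeCusp : Spec.HeckeCuspStatement.{u} :=
  heckeCusp_of H581.restrictCusp H581.transferCusp

end Fermat.Agent.S41.H761

end
-- ===== PACK-END S41/H761/TRH.lean

-- ===== PACK-BEGIN S41/H585/PDFree.lean
section



/-!
# S41 / PD, leaf FREE (helper585)

* `pdHeckeOfPD : Spec.PDHeckeOfPDStatement`  (Hecke operators are self-adjoint for a PD family);
* `pdHecke_of_pd : Spec.PDStatement → Spec.PDHeckeStatement`;
* `cuspFree : Spec.CuspFreeStatement`  (`C_n(ℤ)` is a finite free `ℤ`-module);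
* `mem_gamma0Delta_iff`, `gamma0Delta_finiteIndex`, `neg_one_mem_gamma0Delta`
  (`Γ' = δ Γ₀(N q) δ⁻¹ = Γ₀(N) ∩ Γ⁰(q)` has finite index and contains `-1`).
-/

set_option autoImplicit false

namespace Fermat.Agent.S41.H585

open CongruenceSubgroup Matrix.SpecialLinearGroup ModularCurve.Period ModularGroup
open Fermat.Agent.S29.H642 Fermat.Agent.S41.Spec
open scoped MatrixGroups

universe u

/-! ## Hecke operators are self-adjoint -/

/-- (PD-HECKE) `B(T_l x, y) = B(x, T_l y)` for a Poincaré-duality family. -/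
theorem pdHeckeOfPD : PDHeckeOfPDStatement.{u} := by
  intro hRC hTRH F _ B hB n l _ hl hn x y hx hy
  obtain ⟨-, -, hskew, -, hadj⟩ := hB
  have hlp : l.Prime := Fact.out
  have hnl : n * l ≠ 0 := Nat.mul_ne_zero hn hlp.ne_zero
  have hTx : IsCuspidal (heckeTransfer hl x) := H761.heckeCusp.{u} n l hl F x hx
  obtain ⟨h1x, h2x⟩ := hRC n l F x hx
  obtain ⟨h1y, h2y⟩ := hRC n l F y hy
  obtain ⟨e1x, -⟩ := hTRH n l hl hn F x
  obtain ⟨-, e2y⟩ := hTRH n l hl hn F y
  have a1 := (hadj n l hn hlp hl y (r₂ n l x) hy h2x).1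
  have a2 := (hadj n l hn hlp hl x (r₁ n l y) hx h1y).2
  calc B n (heckeTransfer hl x) y = - B n y (heckeTransfer hl x) := hskew n hn y _ hy hTx
    _ = - B n y (t₁ n l (r₂ n l x)) := by rw [e1x]
    _ = - B (n * l) (r₁ n l y) (r₂ n l x) := by rw [a1]
    _ = B (n * l) (r₂ n l x) (r₁ n l y) := by
        rw [hskew (n * l) hnl (r₂ n l x) (r₁ n l y) h2x h1y, neg_neg]
    _ = B n x (t₂ n l (r₁ n l y)) := a2
    _ = B n x (heckeTransfer hl y) := by rw [e2y]

/-- `PD ⇒ PD with Hecke operators`. -/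
theorem pdHecke_of_pd (hRC : RestrictCuspStatement.{u})
    (hTRH : TransferRestrictHeckeStatement.{u}) (hPD : PDStatement.{u}) :
    PDHeckeStatement.{u} := by
  intro F _
  obtain ⟨B, hB⟩ := hPD F
  exact ⟨B, hB, pdHeckeOfPD hRC hTRH F B hB⟩

/-! ## `C_n(ℤ)` is finite free -/

/-- evaluation of homomorphisms on a set -/
def evalOn (H : Type*) [Group H] (s : Finset H) : (Additive H →+ ℤ) →ₗ[ℤ] (s → ℤ) where
  toFun φ x := φ (Additive.ofMul (x : H))
  map_add' _ _ := rfl
  map_smul' _ _ := rfl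

lemma evalOn_injective (H : Type*) [Group H] (s : Finset H)
    (hs : Subgroup.closure (s : Set H) = ⊤) :
    Function.Injective (evalOn H s) := by
  rw [← LinearMap.ker_eq_bot, LinearMap.ker_eq_bot']
  intro φ hφ
  have h0 : ∀ x ∈ s, φ (Additive.ofMul x) = 0 := fun x hx => congrFun hφ ⟨x, hx⟩
  have key : ∀ h : H, φ (Additive.ofMul h) = 0 := by
    intro h
    have hg : h ∈ Subgroup.closure (s : Set H) := by rw [hs]; trivial
    induction hg using Subgroup.closure_induction with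
    | mem x hx => exact h0 x hx
    | one => exact map_zero φ
    | mul x y _ _ hx hy => rw [ofMul_mul, map_add, hx, hy, add_zero]
    | inv x _ hx => rw [ofMul_inv, map_neg, hx, neg_zero]
  exact AddMonoidHom.ext fun g => key (Additive.toMul g)

/-- Submodules of `Hom(H, ℤ)` are finite free for finitely generated `H`. -/
theorem finite_free_of_fg (H : Type*) [Group H] [Group.FG H]
    (M : Submodule ℤ (Additive H →+ ℤ)) : Module.Finite ℤ M ∧ Module.Free ℤ M := by
  obtain ⟨s, hs⟩ := Group.fg_def.mp (inferInstance : Group.FG H)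
  let L : M →ₗ[ℤ] (s → ℤ) := (evalOn H s).comp M.subtype
  have hL : Function.Injective L := (evalOn_injective H s hs).comp Subtype.val_injective
  have hfin : Module.Finite ℤ M := Module.Finite.of_injective L hL
  have htf : Module.IsTorsionFree ℤ M :=
    Function.Injective.moduleIsTorsionFree L hL (fun n x => map_smul L n x)
  exact ⟨hfin, inferInstance⟩

/-- **(LIFT b)** `C_n(ℤ)` is a finite free `ℤ`-module. -/
theorem cuspFree : CuspFreeStatement := by
  intro n hn
  have : NeZero n := ⟨hn⟩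
  have : Group.FG SL(2, ℤ) :=
    Group.fg_iff.mpr ⟨{S, T}, _root_.SpecialLinearGroup.SL2Z_generators, Set.toFinite _⟩
  have : Group.FG (Gamma0 n) := Subgroup.fg_of_index_ne_zero (Gamma0 n)
  exact finite_free_of_fg (Gamma0 n) (cuspidalSubmodule ℤ n ℤ)

/-! ## `Γ' = Γ₀(N) ∩ Γ⁰(q)` -/

lemma conjDeltaSL_apply (N q : ℕ) (γ : Gamma0 (N * q)) :
    ((conjDeltaSL N q γ : SL(2, ℤ)) : Matrix (Fin 2) (Fin 2) ℤ) =
      conjDeltaMatrix q (γ : SL(2, ℤ)) := rfl

/-- `Γ'` consists of the elements of `Γ₀(N)` with upper right entry divisible by `q`. -/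
theorem mem_gamma0Delta_iff {N q : ℕ} (hq : q ≠ 0) (g : SL(2, ℤ)) :
    g ∈ gamma0Delta N q ↔ g ∈ Gamma0 N ∧ (q : ℤ) ∣ g 0 1 := by
  have hq' : (q : ℤ) ≠ 0 := by exact_mod_cast hq
  constructor
  · rintro ⟨γ, rfl⟩
    refine ⟨(conjDelta N q γ).2, ?_⟩
    show (q : ℤ) ∣ (conjDeltaMatrix q (γ : SL(2, ℤ))) 0 1
    simp [conjDeltaMatrix]
  · rintro ⟨hg, k, hk⟩
    have hN : (N : ℤ) ∣ g 1 0 :=
      (ZMod.intCast_zmod_eq_zero_iff_dvd _ _).mp (Gamma0_mem.mp hg)
    have hdet := g.det_coe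
    rw [Matrix.det_fin_two] at hdet
    -- `γ = [[a, b / q], [q c, d]]`
    let γ : SL(2, ℤ) := ⟨!![g 0 0, k; q * g 1 0, g 1 1], by
      rw [Matrix.det_fin_two_of]; rw [hk] at hdet; linear_combination hdet⟩
    have hγ : γ ∈ Gamma0 (N * q) := by
      rw [Gamma0_mem, ZMod.intCast_zmod_eq_zero_iff_dvd]
      show ((N * q : ℕ) : ℤ) ∣ (q : ℤ) * g 1 0
      obtain ⟨j, hj⟩ := hN
      exact ⟨j, by rw [hj]; push_cast; ring⟩
    refine ⟨⟨γ, hγ⟩, ?_⟩
    apply Subtype.ext
    rw [conjDeltaSL_apply]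
    show conjDeltaMatrix q γ = (g : Matrix (Fin 2) (Fin 2) ℤ)
    ext i j
    fin_cases i <;> fin_cases j
    · rfl
    · show (q : ℤ) * k = g 0 1
      rw [hk]
    · show (q : ℤ) * g 1 0 / q = g 1 0
      exact Int.mul_ediv_cancel_left _ hq'
    · rfl

theorem neg_one_mem_gamma0Delta (N q : ℕ) : (-1 : SL(2, ℤ)) ∈ gamma0Delta N q := by
  rcases eq_or_ne q 0 with rfl | hq
  · -- `q = 0`
    have h : (-1 : SL(2, ℤ)) ∈ Gamma0 (N * 0) := by
      rw [Gamma0_mem]; simp
    refine ⟨⟨-1, h⟩, ?_⟩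
    apply Subtype.ext
    rw [conjDeltaSL_apply]
    ext i j
    fin_cases i <;> fin_cases j <;> simp [conjDeltaMatrix]
  · rw [mem_gamma0Delta_iff hq]
    refine ⟨?_, ?_⟩
    · rw [Gamma0_mem]; simp
    · simp

theorem gamma_le_gamma0Delta {N q : ℕ} (hq : q ≠ 0) : Gamma (N * q) ≤ gamma0Delta N q := by
  intro g hg
  rw [Gamma_mem] at hg
  obtain ⟨-, h01, h10, -⟩ := hg
  rw [mem_gamma0Delta_iff hq]
  have d01 : ((N * q : ℕ) : ℤ) ∣ g 0 1 := (ZMod.intCast_zmod_eq_zero_iff_dvd _ _).mp h01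
  have d10 : ((N * q : ℕ) : ℤ) ∣ g 1 0 := (ZMod.intCast_zmod_eq_zero_iff_dvd _ _).mp h10
  refine ⟨?_, ?_⟩
  · rw [Gamma0_mem, ZMod.intCast_zmod_eq_zero_iff_dvd]
    exact dvd_trans ⟨(q : ℤ), by push_cast; ring⟩ d10
  · exact dvd_trans ⟨(N : ℤ), by push_cast; ring⟩ d01

theorem gamma0Delta_finiteIndex {N q : ℕ} (hN : N ≠ 0) (hq : q ≠ 0) :
    (gamma0Delta N q).FiniteIndex := by
  have : NeZero (N * q) := ⟨Nat.mul_ne_zero hN hq⟩
  exact Subgroup.finiteIndex_of_le (gamma_le_gamma0Delta hq)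

end Fermat.Agent.S41.H585

end
-- ===== PACK-END S41/H585/PDFree.lean

-- ===== PACK-BEGIN S41/H863/TransferNatural.lean
section





/-!
# Row S41, block NEW, leaf NEW-3a (helper863): the involution `ι` commutes with `t₁`, `t₂`

* `transferAlong_eq_sum_reps` : universe-polymorphic form of NEW-2a;
* `exists_reps` : existence of a finite system of right coset representatives together with the
  data `σ`, `k` of a given element;
* `transferAlong_natural` : naturality of `Spec.transferAlong f` with respect to a pair of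
  compatible automorphisms of source and target;
* `newInvolution : Spec.NewInvolutionStatement`.
-/

set_option autoImplicit false

namespace Fermat.Agent.S41.H863

open Subgroup
open Fermat.Agent.S41.Spec CongruenceSubgroup ModularCurve.Period
open scoped MatrixGroups

section General

variable {H G : Type*} [Group H] [Group G] {A : Type*} [AddCommGroup A]

/-- NEW-2a, universe-polymorphic. -/
theorem transferAlong_eq_sum_reps (f : H →* G) (hf : Function.Injective f)
    {ι : Type*} [Fintype ι] (s : ι → G)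
    (hinj : ∀ x y : ι, s x * (s y)⁻¹ ∈ f.range → x = y)
    (hsurj : ∀ g : G, ∃ x : ι, g * (s x)⁻¹ ∈ f.range)
    (ψ : Additive H →+ A) (g : G) (σ : ι → ι) (k : ι → H)
    (hk : ∀ x : ι, s x * g = f (k x) * s (σ x)) :
    transferAlong f ψ (Additive.ofMul g) = ∑ x : ι, ψ (Additive.ofMul (k x)) := by
  have hfin : f.range.FiniteIndex := finiteIndex_of_reps f.range s hinj hsurj
  rw [Fermat.Agent.S41.H581.transferAlong_apply_of f ⟨hf, hfin⟩ ψ g]
  haveI := hfin
  have key := transfer_eq_prod_reps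
    ((AddMonoidHom.toMultiplicativeRight ψ).comp (MonoidHom.ofInjective hf).symm.toMonoidHom)
    s hinj hsurj g σ (fun x => ⟨f (k x), ⟨k x, rfl⟩⟩) (fun x => hk x)
  rw [key, toAdd_prod]
  refine Finset.sum_congr rfl fun x _ => ?_
  have h1 : (MonoidHom.ofInjective hf).symm ⟨f (k x), ⟨k x, rfl⟩⟩ = k x := by
    apply (MonoidHom.ofInjective hf).injective
    rw [MulEquiv.apply_symm_apply]
    rfl
  simp only [MonoidHom.comp_apply, MulEquiv.coe_toMonoidHom, h1]
  rfl

/-- A finite system of representatives of the right cosets of a subgroup of finite index. -/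
theorem exists_reps (K : Subgroup G) [K.FiniteIndex] :
    ∃ s : G ⧸ K → G, (∀ x y : G ⧸ K, s x * (s y)⁻¹ ∈ K → x = y) ∧
      ∀ g : G, ∃ x : G ⧸ K, g * (s x)⁻¹ ∈ K := by
  refine ⟨fun q => (q.out)⁻¹, ?_, ?_⟩
  · intro x y h
    have h1 : ((x.out : G) : G ⧸ K) = ((y.out : G) : G ⧸ K) := by
      rw [QuotientGroup.eq]
      simpa using h
    rwa [QuotientGroup.out_eq', QuotientGroup.out_eq'] at h1
  · intro g
    refine ⟨((g⁻¹ : G) : G ⧸ K), ?_⟩
    have h1 : ((((g⁻¹ : G) : G ⧸ K).out : G) : G ⧸ K) = ((g⁻¹ : G) : G ⧸ K) :=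
      QuotientGroup.out_eq' _
    rw [eq_comm, QuotientGroup.eq, inv_inv] at h1
    simpa using h1

/-- Naturality of the transfer along `f` for compatible automorphisms. -/
theorem transferAlong_natural (f : H →* G) (αH : H →* H) (αG : G ≃* G)
    (hcomm : ∀ h : H, f (αH h) = αG (f h))
    (hrange : ∀ g : G, αG g ∈ f.range → g ∈ f.range)
    (ψ : Additive H →+ A) (g : G) :
    transferAlong f (ψ.comp (MonoidHom.toAdditive αH)) (Additive.ofMul g) =
      transferAlong f ψ (Additive.ofMul (αG g)) := by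
  classical
  by_cases h : Function.Injective f ∧ f.range.FiniteIndex
  · obtain ⟨hf, hfin⟩ := h
    haveI := hfin
    haveI : Fintype (G ⧸ f.range) := f.range.fintypeQuotientOfFiniteIndex
    obtain ⟨s, hinj, hsurj⟩ := exists_reps f.range
    -- the data of `g`
    choose σ hσ using fun x : G ⧸ f.range => hsurj (s x * g)
    choose k hk using hσ
    have hk' : ∀ x, s x * g = f (k x) * s (σ x) := by
      intro x
      rw [hk x, inv_mul_cancel_right]
    rw [transferAlong_eq_sum_reps f hf s hinj hsurj _ g σ k hk']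
    -- the transported system
    have hinj' : ∀ x y : G ⧸ f.range, αG (s x) * (αG (s y))⁻¹ ∈ f.range → x = y := by
      intro x y hxy
      apply hinj x y
      apply hrange
      rwa [map_mul, map_inv]
    have hsurj' : ∀ g' : G, ∃ x : G ⧸ f.range, g' * (αG (s x))⁻¹ ∈ f.range := by
      intro g'
      obtain ⟨x, h0, hx⟩ := hsurj (αG.symm g')
      refine ⟨x, αH h0, ?_⟩
      rw [hcomm, hx, map_mul, map_inv, MulEquiv.apply_symm_apply]
    have hk'' : ∀ x, αG (s x) * αG g = f (αH (k x)) * αG (s (σ x)) := by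
      intro x
      rw [← map_mul, hk' x, map_mul, hcomm]
    rw [transferAlong_eq_sum_reps f hf (fun x => αG (s x)) hinj' hsurj' ψ (αG g) σ
      (fun x => αH (k x)) hk'']
    rfl
  · rw [Fermat.Agent.S41.H581.transferAlong_of_not f h,
      Fermat.Agent.S41.H581.transferAlong_of_not f h]
    rfl

end General

/-! ## The involution `ι` -/

/-- `jConjGamma0` as a multiplicative equivalence. -/
def jConjEquiv (N : ℕ) : Gamma0 N ≃* Gamma0 N :=
  MonoidHom.toMulEquiv (jConjGamma0 N) (jConjGamma0 N)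
    (MonoidHom.ext fun γ => jConjGamma0_jConjGamma0 N γ)
    (MonoidHom.ext fun γ => jConjGamma0_jConjGamma0 N γ)

@[simp] theorem jConjEquiv_apply (N : ℕ) (γ : Gamma0 N) : jConjEquiv N γ = jConjGamma0 N γ := rfl

theorem incl_jConj (N q : ℕ) (γ : Gamma0 (N * q)) :
    incl N q (jConjGamma0 (N * q) γ) = jConjGamma0 N (incl N q γ) := by
  apply Subtype.ext
  rfl

theorem conjDelta_jConj (N q : ℕ) (γ : Gamma0 (N * q)) :
    conjDelta N q (jConjGamma0 (N * q) γ) = jConjGamma0 N (conjDelta N q γ) := by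
  apply Subtype.ext
  apply Subtype.ext
  show conjDeltaMatrix q (jConjSL (γ : SL(2, ℤ))) = jConjMat (conjDeltaMatrix q (γ : SL(2, ℤ)))
  obtain ⟨c, hc⟩ := (dvd_of_mem_gamma0_mul γ).1
  ext i j
  fin_cases i <;> fin_cases j
  · simp [conjDeltaMatrix, jConjMat]
  · simp [conjDeltaMatrix, jConjMat]
  · simp only [conjDeltaMatrix, jConjMat, jConjSL_coe, Fin.mk_one, Fin.isValue, Fin.zero_eta,
      Matrix.of_apply, Matrix.cons_val', Matrix.cons_val_zero, Matrix.cons_val_one,
      Matrix.cons_val_fin_one]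
    rw [Int.neg_ediv_of_dvd ⟨c, hc⟩]
  · simp [conjDeltaMatrix, jConjMat]

theorem charInvolution_eq_comp (N : ℕ) (ψ : Additive (Gamma0 N) →+ ℂ) :
    charInvolution N ℂ ℂ ψ = ψ.comp (MonoidHom.toAdditive (jConjGamma0 N)) := rfl

/-- **NEW-3a**: `ι` commutes with the two transfers. -/
theorem newInvolution : Spec.NewInvolutionStatement := by
  intro N q _ _ _ ψ
  have hr : ∀ (f : Gamma0 (N * q) →* Gamma0 N),
      (∀ h, f (jConjGamma0 (N * q) h) = jConjEquiv N (f h)) →
      transferAlong f (charInvolution (N * q) ℂ ℂ ψ) = charInvolution N ℂ ℂ (transferAlong f ψ) := by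
    intro f hcomm
    refine AddMonoidHom.ext fun γ => ?_
    obtain ⟨γ, rfl⟩ := Additive.ofMul.surjective γ
    rw [charInvolution_eq_comp (N * q),
      transferAlong_natural f (jConjGamma0 (N * q)) (jConjEquiv N) hcomm ?_ ψ γ]
    · rfl
    · rintro g ⟨h, hh⟩
      refine ⟨jConjGamma0 (N * q) h, ?_⟩
      rw [hcomm, hh, jConjEquiv_apply, jConjEquiv_apply, jConjGamma0_jConjGamma0]
  exact ⟨hr (incl N q) (incl_jConj N q), hr (conjDelta N q) (conjDelta_jConj N q)⟩

end Fermat.Agent.S41.H863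

end
-- ===== PACK-END S41/H863/TransferNatural.lean

-- ===== PACK-BEGIN S41/H232/PDTransfer.lean
section





/-!
# Row S41, block PD, leaf TR (helper232): restriction / corestriction in the Manin model

Exact shapes of `Fermat/Agent/S41/Spec/PD.lean` (sub-architect helper221):

* `maninRepCores : Spec.ManinRepCoresStatement` (TR-2): Mathlib's transfer is the push-forward of
  Manin symbols along `π : SL(2,ℤ) ⧸ Γ' → SL(2,ℤ) ⧸ Γ`;
* `maninFormAdjoint : Spec.ManinFormAdjointStatement` (TR-3);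
* `maninRepRes : Spec.ManinRepResStatement` (TR-1);
* `transferAlongEquiv : Spec.TransferAlongEquivStatement` (TR-4).

Reusable: `quotMap_smul` (equivariance of `π`), `pushQ` (push-forward of functions),
`pushQ_smul`, `pushQ_add`, `pushQ_sub`, `isCocycle_pushQ`.
-/

set_option autoImplicit false

namespace Fermat.Agent.S41.H232

open CongruenceSubgroup Matrix.SpecialLinearGroup ModularCurve.Period ModularGroup
open Fermat.Agent.S41.Spec Fermat.Agent.S21.H585
open scoped MatrixGroups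

universe u

section Push

variable {Γ' Γ : Subgroup SL(2, ℤ)} (hle : Γ' ≤ Γ) {A : Type*} [AddCommGroup A]

/-- `π : SL(2,ℤ) ⧸ Γ' → SL(2,ℤ) ⧸ Γ` is equivariant. -/
theorem quotMap_smul (g : SL(2, ℤ)) (x' : SL(2, ℤ) ⧸ Γ') :
    Subgroup.quotientMapOfLE hle (g • x') = g • Subgroup.quotientMapOfLE hle x' := by
  induction x' using QuotientGroup.induction_on with
  | H a => rfl

/-- Push-forward of functions along `π`. -/
noncomputable def pushQ (F : SL(2, ℤ) ⧸ Γ' → A) (x : SL(2, ℤ) ⧸ Γ) : A :=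
  ∑ᶠ (x' : SL(2, ℤ) ⧸ Γ') (_ : Subgroup.quotientMapOfLE hle x' = x), F x'

theorem pushQ_eq (F : SL(2, ℤ) ⧸ Γ' → A) (x : SL(2, ℤ) ⧸ Γ) :
    pushQ hle F x = ∑ᶠ x' ∈ {x' : SL(2, ℤ) ⧸ Γ' | Subgroup.quotientMapOfLE hle x' = x}, F x' :=
  rfl

theorem pushQ_smul (g : SL(2, ℤ)) (F : SL(2, ℤ) ⧸ Γ' → A) (x : SL(2, ℤ) ⧸ Γ) :
    pushQ hle (fun x' => F (g • x')) x = pushQ hle F (g • x) := by
  rw [pushQ_eq, pushQ_eq]
  refine finsum_mem_eq_of_bijOn (fun x' => g • x') ⟨?_, ?_, ?_⟩ (fun _ _ => rfl)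
  · intro x' hx'
    show Subgroup.quotientMapOfLE hle (g • x') = g • x
    rw [quotMap_smul, hx']
  · intro a _ b _ hab
    exact MulAction.injective g hab
  · intro y hy
    refine ⟨g⁻¹ • y, ?_, smul_inv_smul g y⟩
    show Subgroup.quotientMapOfLE hle (g⁻¹ • y) = x
    rw [quotMap_smul, hy, inv_smul_smul]

variable [Γ'.FiniteIndex]

theorem pushQ_add (F F' : SL(2, ℤ) ⧸ Γ' → A) (x : SL(2, ℤ) ⧸ Γ) :
    pushQ hle (fun x' => F x' + F' x') x = pushQ hle F x + pushQ hle F' x := by
  rw [pushQ_eq, pushQ_eq, pushQ_eq]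
  exact finsum_mem_add_distrib (Set.toFinite _)

theorem pushQ_sub (F F' : SL(2, ℤ) ⧸ Γ' → A) (x : SL(2, ℤ) ⧸ Γ) :
    pushQ hle (fun x' => F x' - F' x') x = pushQ hle F x - pushQ hle F' x := by
  rw [pushQ_eq, pushQ_eq, pushQ_eq]
  exact finsum_mem_sub_distrib F F' (Set.toFinite _)

omit [Γ'.FiniteIndex] in
theorem pushQ_zero (x : SL(2, ℤ) ⧸ Γ) :
    pushQ hle (fun _ => (0 : A)) x = 0 := by
  rw [pushQ_eq]
  exact finsum_mem_zero _

/-- The push-forward of a cocycle is a cocycle. -/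
theorem isCocycle_pushQ {f' : SL(2, ℤ) → SL(2, ℤ) ⧸ Γ' → A}
    (hf' : ∀ (g h : SL(2, ℤ)) (x : SL(2, ℤ) ⧸ Γ'), f' (g * h) x = f' h x + f' g (h • x))
    (g h : SL(2, ℤ)) (x : SL(2, ℤ) ⧸ Γ) :
    pushQ hle (f' (g * h)) x = pushQ hle (f' h) x + pushQ hle (f' g) (h • x) := by
  have h1 : f' (g * h) = fun x' => f' h x' + f' g (h • x') := funext fun x' => hf' g h x'
  rw [h1, pushQ_add, pushQ_smul hle h (f' g)]

end Push

section Cores

variable {Γ' Γ : Subgroup SL(2, ℤ)} (hle : Γ' ≤ Γ) {A : Type*} [AddCommGroup A]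

/-- The fibre of `π` over the base point, i.e. `Γ ⧸ Γ'`. -/
abbrev Fib : Type := {x' : SL(2, ℤ) ⧸ Γ' // Subgroup.quotientMapOfLE hle x' = basePt Γ}

theorem out_mem_of_fib (y : Fib hle) : (Quotient.out y.1 : SL(2, ℤ)) ∈ Γ := by
  have h1 : Subgroup.quotientMapOfLE hle ((Quotient.out y.1 : SL(2, ℤ)) : SL(2, ℤ) ⧸ Γ') =
      basePt Γ := by
    rw [QuotientGroup.out_eq']; exact y.2
  rw [Subgroup.quotientMapOfLE_apply_mk] at h1
  have h2 : (((1 : SL(2, ℤ)) : SL(2, ℤ) ⧸ Γ)) = ((Quotient.out y.1 : SL(2, ℤ)) : SL(2, ℤ) ⧸ Γ) :=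
    h1.symm
  rw [QuotientGroup.eq, inv_one, one_mul] at h2
  exact h2

theorem smul_mem_fib (γ : Γ) (y : Fib hle) :
    Subgroup.quotientMapOfLE hle ((γ : SL(2, ℤ)) • y.1) = basePt Γ := by
  rw [quotMap_smul, y.2, smul_basePt_of_mem Γ γ.2]

/-- `γ ∈ Γ` permutes the fibre over the base point. -/
def fibPerm (γ : Γ) : Equiv.Perm (Fib hle) where
  toFun y := ⟨(γ : SL(2, ℤ)) • y.1, smul_mem_fib hle γ y⟩
  invFun y := ⟨((γ⁻¹ : Γ) : SL(2, ℤ)) • y.1, smul_mem_fib hle γ⁻¹ y⟩
  left_inv y := by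
    apply Subtype.ext
    show ((γ⁻¹ : Γ) : SL(2, ℤ)) • (γ : SL(2, ℤ)) • y.1 = y.1
    rw [Subgroup.coe_inv, inv_smul_smul]
  right_inv y := by
    apply Subtype.ext
    show (γ : SL(2, ℤ)) • ((γ⁻¹ : Γ) : SL(2, ℤ)) • y.1 = y.1
    rw [Subgroup.coe_inv, smul_inv_smul]

variable [Γ'.FiniteIndex]

omit [Γ'.FiniteIndex] in
theorem pushQ_basePt_eq_sum [Fintype (Fib hle)] (F : SL(2, ℤ) ⧸ Γ' → A) :
    pushQ hle F (basePt Γ) = ∑ y : Fib hle, F y.1 := by
  rw [pushQ_eq, ← finsum_set_coe_eq_finsum_mem, ← finsum_eq_sum_of_fintype]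
  rfl

/-- **Transfer = push-forward**, cocycle form: for a cocycle `f'` on `SL(2,ℤ) ⧸ Γ'`, the transfer of
the class `γ' ↦ f' γ' x₀'` is `γ ↦ (π_* f') γ x₀`. -/
theorem transferAlong_eq_pushQ {f' : SL(2, ℤ) → SL(2, ℤ) ⧸ Γ' → A} (hf' : IsCocycle f')
    (ψ : Additive Γ' →+ A)
    (hψ : ∀ γ' : Γ', ψ (Additive.ofMul γ') = f' (γ' : SL(2, ℤ)) (basePt Γ')) (γ : Γ) :
    transferAlong (Subgroup.inclusion hle) ψ (Additive.ofMul γ) =
      pushQ hle (f' (γ : SL(2, ℤ))) (basePt Γ) := by
  classical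
  let _ : Fintype (Fib hle) := Fintype.ofFinite _
  have hψ' : ψ = homOfCocycle Γ' f' hf' := by
    refine AddMonoidHom.ext fun a => ?_
    obtain ⟨γ', rfl⟩ := Additive.ofMul.surjective a
    rw [hψ, homOfCocycle_apply]
  -- the data of the transfer
  let s : Fib hle → Γ := fun y => ⟨(Quotient.out y.1 : SL(2, ℤ))⁻¹, inv_mem (out_mem_of_fib hle y)⟩
  let σ : Fib hle → Fib hle := (fibPerm hle γ).symm
  let k : Fib hle → Γ' := fun y =>
    ⟨(Quotient.out ((γ : SL(2, ℤ)) • (σ y).1) : SL(2, ℤ))⁻¹ * γ * Quotient.out (σ y).1,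
      sec_mem Γ' γ (σ y).1⟩
  have hσ : ∀ y : Fib hle, (γ : SL(2, ℤ)) • (σ y).1 = y.1 := fun y =>
    congrArg Subtype.val ((fibPerm hle γ).apply_symm_apply y)
  have hinj : ∀ x y : Fib hle, s x * (s y)⁻¹ ∈ (Subgroup.inclusion hle).range → x = y := by
    rintro x y ⟨δ, hδ⟩
    apply Subtype.ext
    have h1 : ((Quotient.out x.1 : SL(2, ℤ)) : SL(2, ℤ) ⧸ Γ') = (Quotient.out y.1 : SL(2, ℤ)) := by
      rw [QuotientGroup.eq]
      have h2 := congrArg (Subtype.val : Γ → SL(2, ℤ)) hδ
      have h3 : (Quotient.out x.1 : SL(2, ℤ))⁻¹ * Quotient.out y.1 = (δ : SL(2, ℤ)) := by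
        rw [← Subgroup.coe_inclusion hle δ, h2]
        simp [s]
      rw [h3]
      exact δ.2
    rwa [QuotientGroup.out_eq', QuotientGroup.out_eq'] at h1
  have hsurj : ∀ g : Γ, ∃ x : Fib hle, g * (s x)⁻¹ ∈ (Subgroup.inclusion hle).range := by
    intro g
    have hx : Subgroup.quotientMapOfLE hle (((g⁻¹ : Γ) : SL(2, ℤ)) : SL(2, ℤ) ⧸ Γ') = basePt Γ := by
      rw [Subgroup.quotientMapOfLE_apply_mk, ← smul_basePt_eq, smul_basePt_of_mem Γ (g⁻¹).2]
    refine ⟨⟨_, hx⟩, ?_⟩
    have h1 : (((g⁻¹ : Γ) : SL(2, ℤ)) : SL(2, ℤ) ⧸ Γ') =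
        ((Quotient.out ((((g⁻¹ : Γ) : SL(2, ℤ)) : SL(2, ℤ) ⧸ Γ')) : SL(2, ℤ)) : SL(2, ℤ) ⧸ Γ') :=
      (QuotientGroup.out_eq' _).symm
    rw [QuotientGroup.eq] at h1
    refine ⟨⟨_, h1⟩, ?_⟩
    apply Subtype.ext
    simp [s]
  have hk : ∀ y : Fib hle, s y * γ = Subgroup.inclusion hle (k y) * s (σ y) := by
    intro y
    apply Subtype.ext
    show (Quotient.out y.1 : SL(2, ℤ))⁻¹ * γ =
      ((Quotient.out ((γ : SL(2, ℤ)) • (σ y).1) : SL(2, ℤ))⁻¹ * γ * Quotient.out (σ y).1) *
        (Quotient.out (σ y).1 : SL(2, ℤ))⁻¹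
    rw [hσ y, mul_assoc, mul_assoc, mul_inv_cancel, mul_one]
  rw [Fermat.Agent.S41.H863.transferAlong_eq_sum_reps (Subgroup.inclusion hle)
    (Subgroup.inclusion_injective hle) s hinj hsurj ψ γ σ k hk, pushQ_basePt_eq_sum]
  -- telescoping
  have h1 : ∀ y : Fib hle, ψ (Additive.ofMul (k y)) =
      f' γ (σ y).1 - f' (Quotient.out y.1) (basePt Γ') + f' (Quotient.out (σ y).1) (basePt Γ') := by
    intro y
    have h2 := hf'.eq_indc_add (γ : SL(2, ℤ)) (σ y).1
    rw [← hψ'] at h2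
    have h3 : indc Γ' ψ (γ : SL(2, ℤ)) (σ y).1 = ψ (Additive.ofMul (k y)) := rfl
    rw [h3, hσ y] at h2
    rw [h2]
    abel
  rw [Finset.sum_congr rfl fun y _ => h1 y, Finset.sum_add_distrib, Finset.sum_sub_distrib]
  have h4 : ∑ y : Fib hle, f' (Quotient.out (σ y).1) (basePt Γ') =
      ∑ y : Fib hle, f' (Quotient.out y.1) (basePt Γ') :=
    Equiv.sum_comp (fibPerm hle γ).symm (fun y : Fib hle => f' (Quotient.out y.1) (basePt Γ'))
  have h5 : ∑ y : Fib hle, f' (γ : SL(2, ℤ)) (σ y).1 = ∑ y : Fib hle, f' (γ : SL(2, ℤ)) y.1 :=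
    Equiv.sum_comp (fibPerm hle γ).symm (fun y : Fib hle => f' (γ : SL(2, ℤ)) y.1)
  rw [h4, h5]
  abel

/-- **TR-2** (exact shape of `Spec.ManinRepCoresStatement`). -/
theorem maninRepCores : Spec.ManinRepCoresStatement.{u} := by
  intro Γ' Γ _ hle A _ ψ m' hrep
  obtain ⟨f', ⟨hcoc, hS, hU⟩, hψ⟩ := hrep
  have hf' : IsCocycle f' := hcoc
  refine ⟨fun g => pushQ hle (f' g), ⟨?_, ?_, ?_⟩, ?_⟩
  · intro g h x
    exact isCocycle_pushQ hle hcoc g h x
  · intro x
    have h1 : f' S = fun _ => (0 : A) := funext hS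
    show pushQ hle (f' S) x = 0
    rw [h1, pushQ_zero]
  · intro x
    have h1 : f' (S * T) = fun x' => m' ((S * T) • x') - m' x' := funext hU
    show pushQ hle (f' (S * T)) x = pushQ hle m' ((S * T) • x) - pushQ hle m' x
    rw [h1, pushQ_sub, pushQ_smul hle (S * T) m']
  · intro γ
    exact transferAlong_eq_pushQ hle hf' ψ hψ γ

end Cores

/-! ## TR-1: restriction -/

/-- **TR-1** (exact shape of `Spec.ManinRepResStatement`). -/
theorem maninRepRes : Spec.ManinRepResStatement.{u} := by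
  intro Γ' Γ hle A _ φ m hrep
  obtain ⟨f, ⟨hcoc, hS, hU⟩, hφ⟩ := hrep
  refine ⟨fun g x' => f g (Subgroup.quotientMapOfLE hle x'), ⟨?_, ?_, ?_⟩, ?_⟩
  · intro g h x'
    show f (g * h) (Subgroup.quotientMapOfLE hle x') =
      f h (Subgroup.quotientMapOfLE hle x') + f g (Subgroup.quotientMapOfLE hle (h • x'))
    rw [quotMap_smul, hcoc]
  · intro x'
    exact hS _
  · intro x'
    show f (S * T) (Subgroup.quotientMapOfLE hle x') =
      m (Subgroup.quotientMapOfLE hle ((S * T) • x')) - m (Subgroup.quotientMapOfLE hle x')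
    rw [quotMap_smul, hU]
  · intro γ
    show φ (Additive.ofMul (Subgroup.inclusion hle γ)) = _
    rw [hφ]
    rfl

/-! ## TR-3: push-forward of parabolic data, adjunction for the Manin form -/

section Adjoint

variable {Γ' Γ : Subgroup SL(2, ℤ)} (hle : Γ' ≤ Γ) {R : Type*} [CommRing R]

theorem pushQ_eq_sum_filter [Fintype (SL(2, ℤ) ⧸ Γ')] [DecidableEq (SL(2, ℤ) ⧸ Γ)]
    (F : SL(2, ℤ) ⧸ Γ' → R) (x : SL(2, ℤ) ⧸ Γ) :
    pushQ hle F x = ∑ x' with Subgroup.quotientMapOfLE hle x' = x, F x' := by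
  rw [pushQ_eq, finsum_mem_eq_finite_toFinset_sum _ (Set.toFinite _)]
  refine Finset.sum_congr ?_ fun _ _ => rfl
  ext x'
  simp

theorem isParData_pushQ [Γ'.FiniteIndex] {m' e' : SL(2, ℤ) ⧸ Γ' → R}
    (h : IsParData Γ' m' e') : IsParData Γ (pushQ hle m') (pushQ hle e') := by
  intro x
  rw [← pushQ_smul hle T e', ← pushQ_smul hle (S * T) m', ← pushQ_sub, ← pushQ_sub]
  congr 1
  exact funext h

theorem maninForm_pushQ [Γ'.FiniteIndex] (m : SL(2, ℤ) ⧸ Γ → R) (e' : SL(2, ℤ) ⧸ Γ' → R) :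
    maninForm Γ' (fun x' => m (Subgroup.quotientMapOfLE hle x')) e' =
      maninForm Γ m (pushQ hle e') := by
  classical
  have : Γ.FiniteIndex := Subgroup.finiteIndex_of_le hle
  let _ : Fintype (SL(2, ℤ) ⧸ Γ') := Subgroup.fintypeQuotientOfFiniteIndex
  let _ : Fintype (SL(2, ℤ) ⧸ Γ) := Subgroup.fintypeQuotientOfFiniteIndex
  rw [maninForm_eq_sum, maninForm_eq_sum]
  have h1 : ∀ x : SL(2, ℤ) ⧸ Γ, m x * (pushQ hle e' x - pushQ hle e' (S • x)) =
      ∑ x' with Subgroup.quotientMapOfLE hle x' = x,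
        m (Subgroup.quotientMapOfLE hle x') * (e' x' - e' (S • x')) := by
    intro x
    rw [← pushQ_smul hle S e', ← pushQ_sub, pushQ_eq_sum_filter, Finset.mul_sum]
    refine Finset.sum_congr rfl fun x' hx' => ?_
    rw [(Finset.mem_filter.mp hx').2]
  rw [Finset.sum_congr rfl fun x _ => h1 x]
  exact (Finset.sum_fiberwise Finset.univ (Subgroup.quotientMapOfLE hle)
    (fun x' => m (Subgroup.quotientMapOfLE hle x') * (e' x' - e' (S • x')))).symm

end Adjoint

/-- **TR-3** (exact shape of `Spec.ManinFormAdjointStatement`). -/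
theorem maninFormAdjoint : Spec.ManinFormAdjointStatement.{u} := by
  intro Γ' Γ _ hle R _ m m' e' hpar
  exact ⟨isParData_pushQ hle hpar, maninForm_pushQ hle m e'⟩

/-! ## TR-4: transfer along `f' ∘ e` -/

/-- **TR-4** (exact shape of `Spec.TransferAlongEquivStatement`). -/
theorem transferAlongEquiv : Spec.TransferAlongEquivStatement.{u} := by
  intro H H' G _ _ _ e f' A _ ψ
  classical
  have hrange : (f'.comp e.toMonoidHom).range = f'.range := by
    ext g
    constructor
    · rintro ⟨h, rfl⟩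
      exact ⟨e h, rfl⟩
    · rintro ⟨h', rfl⟩
      exact ⟨e.symm h', by simp⟩
  by_cases h : Function.Injective f' ∧ f'.range.FiniteIndex
  · obtain ⟨hf, hfin⟩ := h
    have hf2 : Function.Injective (f'.comp e.toMonoidHom) := hf.comp e.injective
    have := hfin
    let _ : Fintype (G ⧸ f'.range) := f'.range.fintypeQuotientOfFiniteIndex
    obtain ⟨s, hinj, hsurj⟩ := Fermat.Agent.S41.H863.exists_reps f'.range
    refine AddMonoidHom.ext fun g => ?_
    obtain ⟨g, rfl⟩ := Additive.ofMul.surjective g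
    choose σ hσ using fun x : G ⧸ f'.range => hsurj (s x * g)
    choose k hk using hσ
    have hk' : ∀ x, s x * g = f' (k x) * s (σ x) := by
      intro x
      rw [hk x, inv_mul_cancel_right]
    rw [Fermat.Agent.S41.H863.transferAlong_eq_sum_reps f' hf s hinj hsurj _ g σ k hk']
    have hinj2 : ∀ x y, s x * (s y)⁻¹ ∈ (f'.comp e.toMonoidHom).range → x = y := by
      intro x y hxy
      rw [hrange] at hxy
      exact hinj x y hxy
    have hsurj2 : ∀ g, ∃ x, g * (s x)⁻¹ ∈ (f'.comp e.toMonoidHom).range := by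
      intro g
      obtain ⟨x, hx⟩ := hsurj g
      exact ⟨x, hrange ▸ hx⟩
    have hk2 : ∀ x, s x * g = (f'.comp e.toMonoidHom) (e.symm (k x)) * s (σ x) := by
      intro x
      rw [hk' x]
      simp
    rw [Fermat.Agent.S41.H863.transferAlong_eq_sum_reps _ hf2 s hinj2 hsurj2 ψ g σ
      (fun x => e.symm (k x)) hk2]
    rfl
  · have h2 : ¬ (Function.Injective (f'.comp e.toMonoidHom) ∧
        (f'.comp e.toMonoidHom).range.FiniteIndex) := by
      rintro ⟨h1, h3⟩
      apply h
      refine ⟨?_, hrange ▸ h3⟩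
      intro a b hab
      have h4 := @h1 (e.symm a) (e.symm b) (by simpa using hab)
      exact e.symm.injective h4
    rw [Fermat.Agent.S41.H581.transferAlong_of_not _ h,
      Fermat.Agent.S41.H581.transferAlong_of_not _ h2]

end Fermat.Agent.S41.H232

end
-- ===== PACK-END S41/H232/PDTransfer.lean

-- ===== PACK-BEGIN S41/H945/Heis.lean
section



/-!
# S41 / block PD / leaf HEIS — `heisLift : Spec.HeisLiftStatement` (unconditional)

`heisLift_of` (this directory) applied to leaf TORS (`Fermat.Agent.S41.H768.torsionClass`, on main).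
-/

set_option autoImplicit false

namespace Fermat.Agent.S41.H945

universe u

/-- **Leaf HEIS** of `Spec/PD.lean`, unconditional. -/
theorem heisLift : Fermat.Agent.S41.Spec.HeisLiftStatement.{u} :=
  heisLift_of Fermat.Agent.S41.H768.torsionClass

end Fermat.Agent.S41.H945

end
-- ===== PACK-END S41/H945/Heis.lean

-- ===== PACK-BEGIN S41/H874/PDCuspSumMain.lean
section



/-!
# Row S41, block PD: leaves HEIS-U and D1, unconditional (helper874)

* `maninRepExists_h874 : Spec.ManinRepExistsStatement`   (D1, in `PDManinRep.lean`)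
* `cuspSumZero_h874    : Spec.CuspSumZeroStatement`      (HEIS-U)
-/

set_option autoImplicit false

namespace Fermat.Agent.S41.H874

universe u

/-- **(HEIS-U)** a torsion-trivial homomorphism sums to `0` over a `T`-orbit system. -/
theorem cuspSumZero_h874 : Spec.CuspSumZeroStatement.{u} :=
  cuspSumZero_of maninRepExists_h874

end Fermat.Agent.S41.H874

end
-- ===== PACK-END S41/H874/PDCuspSumMain.lean

-- ===== PACK-BEGIN S41/H761/HT.lean
section






/-!
# Row S41, block HK, leaf HT: `T_l t_i = t_i T_l` (helper761)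

`heckeTransferComm : Spec.HeckeTransferStatement`.
-/

set_option autoImplicit false

namespace Fermat.Agent.S41.H761

open CongruenceSubgroup Matrix.SpecialLinearGroup ModularForm
open Fermat.Agent.S29.H642 Fermat.Agent.S41.Spec
open P2MW.S_ModularForm_heckeT_slash_eq_self_of_mem_Gamma0.ModularForm.HeckeSlashInvariance
open scoped MatrixGroups

section General

variable {N M l : ℕ} [Fact l.Prime] {A : Type*} [AddCommGroup A]

/-- **General commutation lemma.**  `f : Γ₀(M) →* Γ₀(N)` injective with finite index range, realized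
by conjugation by `d`; the conjugated Hecke representatives `d α_y d⁻¹` are Hecke representatives
up to `Γ₀(N)`, and the cosets of the family `d α_y d⁻¹ x⁻¹` are distinct.  Then the Hecke operator
commutes with the transfer along `f`. -/
theorem heckeTransfer_transferAlong (hl : ¬ l ∣ N) (hl' : ¬ l ∣ M) (f : Gamma0 M →* Gamma0 N)
    (hf : Function.Injective f) [f.range.FiniteIndex] (d : GL (Fin 2) ℝ)
    (hd : ∀ g : Gamma0 M, d * ιN M g = ((ιN N).comp f) g * d)
    (H1 : ∀ y : OnePoint (ZMod l), ∃ (u : Gamma0 N) (y' : OnePoint (ZMod l)),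
      d * heckeRep l y * d⁻¹ = ιN N u * heckeRep l y')
    (H2 : ∀ (y y' : OnePoint (ZMod l)) (m : Gamma0 N) (g : Gamma0 M) (Q : GL (Fin 2) ℝ),
      d * Q = ιN N m * d → heckeRep l y * Q = ιN M g * heckeRep l y' → m ∈ f.range)
    (ψ : Additive (Gamma0 M) →+ A) :
    heckeTransfer hl (transferAlong f ψ) = transferAlong f (heckeTransfer hl' ψ) := by
  classical
  let _ : Fintype (Gamma0 N ⧸ f.range) := f.range.fintypeQuotientOfFiniteIndex
  have sysT' := (heckeSystem hl').conj d hd hd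
  have sysTr := IsCosetSystem.ofTransfer f hf (ιN N) (ιN_injective N)
  have sysT := heckeSystem (N := N) hl
  -- family A
  have famA := sysTr.prod sysT (by
    intro x x' y y' g e
    have e2 : heckeRep l y = ιN N (x.out * f g * (x'.out)⁻¹) * heckeRep l y' := by
      have h1 : heckeRep l y = ιN N x.out * (ιN N (x.out)⁻¹ * heckeRep l y) := by
        rw [map_inv, mul_inv_cancel_left]
      rw [h1, e]
      simp only [MonoidHom.comp_apply, map_mul, mul_assoc]
    have hy := sysT.eq_of_mul _ _ _ e2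
    subst hy
    have e3 : ιN N (x.out * f g * (x'.out)⁻¹) = 1 := by
      have h2 : ιN N (x.out * f g * (x'.out)⁻¹) * heckeRep l y = 1 * heckeRep l y := by
        rw [one_mul]; exact e2.symm
      exact mul_right_cancel h2
    have e4 : x.out * f g * (x'.out)⁻¹ = 1 := ιN_injective N (e3.trans (map_one _).symm)
    have e5 : f g = (x.out)⁻¹ * x'.out := by
      have := congrArg (fun t => (x.out)⁻¹ * t * x'.out) e4
      simpa [mul_assoc] using this
    have hmem : (x.out)⁻¹ * x'.out ∈ f.range := ⟨g, e5⟩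
    have h3 := QuotientGroup.eq.mpr hmem
    rw [QuotientGroup.out_eq', QuotientGroup.out_eq'] at h3
    exact ⟨h3, rfl⟩)
  -- family B
  have famB := sysT'.prod sysTr (by
    intro y y' x x' g e
    have hfg : ((ιN N).comp f) g = d * ιN M g * d⁻¹ := by
      rw [hd g, mul_inv_cancel_right]
    have hQ : heckeRep l y * (d⁻¹ * ιN N ((x.out)⁻¹ * x'.out) * d) = ιN M g * heckeRep l y' := by
      have e' := congrArg (fun t => d⁻¹ * t * (ιN N (x'.out)⁻¹)⁻¹ * d) e
      simp only [hfg, mul_assoc, inv_mul_cancel_left, inv_mul_cancel, mul_one, map_inv,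
        inv_inv] at e'
      simp only [map_mul, map_inv, mul_assoc]
      exact e'
    have hmem := H2 y y' ((x.out)⁻¹ * x'.out) g (d⁻¹ * ιN N ((x.out)⁻¹ * x'.out) * d)
      (by simp only [mul_assoc, mul_inv_cancel_left]) hQ
    have hx : x = x' := by
      have h3 := QuotientGroup.eq.mpr hmem
      rwa [QuotientGroup.out_eq', QuotientGroup.out_eq'] at h3
    subst hx
    refine ⟨?_, rfl⟩
    have e2 := mul_right_cancel (e.trans (mul_assoc _ _ _).symm)
    exact sysT'.eq_of_mul _ _ _ e2)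
  rw [transferAlong_eq f hf (ιN N) (ιN_injective N),
    transferAlong_eq f hf (ιN N) (ιN_injective N), heckeTransfer_eq_transfer,
    heckeTransfer_eq_transfer, ← IsCosetSystem.conj_transfer (heckeSystem hl') d hd hd]
  rw [IsCosetSystem.transfer_comp sysTr sysT famA, IsCosetSystem.transfer_comp sysT' sysTr famB]
  symm
  refine IsCosetSystem.transfer_eq_of_le_of_card famB famA ?_ ?_ ψ
  · rw [Fintype.card_prod, Fintype.card_prod, mul_comm]
  · rintro ⟨y, x⟩
    obtain ⟨u, y₁, hu⟩ := H1 y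
    set w : Gamma0 N := u * hElt hl (x.out)⁻¹ y₁ with hw
    have hmem : (w⁻¹)⁻¹ * ((w⁻¹ : Gamma0 N) : Gamma0 N ⧸ f.range).out ∈ f.range :=
      QuotientGroup.eq.mp (QuotientGroup.out_eq' _).symm
    obtain ⟨g, hg⟩ := hmem
    rw [inv_inv] at hg
    refine ⟨(((w⁻¹ : Gamma0 N) : Gamma0 N ⧸ f.range), hPerm l ((x.out)⁻¹ : Gamma0 N) y₁), g, ?_⟩
    rw [hu, mul_assoc, heckeSystem_spec hl y₁ (x.out)⁻¹, MonoidHom.comp_apply, hg]
    simp only [map_mul, map_inv, mul_assoc, hw]
    rw [mul_inv_cancel_left]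

/-- The shape of the Hecke representatives. -/
theorem heckeRep_form (y : OnePoint (ZMod l)) : ∃ a b d : ℤ,
    ((heckeRep l y : GL (Fin 2) ℝ) : Matrix (Fin 2) (Fin 2) ℝ) = !![(a : ℝ), (b : ℝ); 0, (d : ℝ)] ∧
    a * d = l := by
  induction y using OnePoint.rec with
  | infty => exact ⟨l, 0, 1, by rw [coe_heckeRep_infty]; simp, by simp⟩
  | coe j => exact ⟨1, j.val, l, by rw [coe_heckeRep_coe]; simp, by simp⟩

theorem heckeTransfer_zero (hl : ¬ l ∣ N) :
    heckeTransfer hl (0 : Additive (Gamma0 N) →+ A) = 0 := by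
  have h := heckeTransfer_add hl (0 : Additive (Gamma0 N) →+ A) 0
  rw [add_zero] at h
  exact left_eq_add.mp h

end General

section Level

variable {N q l : ℕ} [Fact l.Prime] {A : Type*} [AddCommGroup A]

/-- `T_l t₁ = t₁ T_l`. -/
theorem heckeTransfer_t1 (hl : ¬ l ∣ N) (hl' : ¬ l ∣ N * q)
    (ψ : Additive (Gamma0 (N * q)) →+ A) :
    heckeTransfer hl (t₁ N q ψ) = t₁ N q (heckeTransfer hl' ψ) := by
  by_cases hfin : (incl N q).range.FiniteIndex
  · refine heckeTransfer_transferAlong hl hl' (incl N q) (H105.incl_injective N q) 1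
      (fun g => by rw [one_mul, mul_one]; rfl)
      (fun y => ⟨1, y, by simp⟩) ?_ ψ
    intro y y' m g Q hQ e
    rw [one_mul, mul_one] at hQ
    subst hQ
    obtain ⟨a, b, d, hα, had⟩ := heckeRep_form (l := l) y
    obtain ⟨a', b', d', hα', had'⟩ := heckeRep_form (l := l) y'
    have e10 := congrArg (fun M : GL (Fin 2) ℝ => (M : Matrix (Fin 2) (Fin 2) ℝ) 1 0) e
    simp only [coe_mul_apply, coe_ιN_apply, hα, hα', Matrix.of_apply, Matrix.cons_val',
      Matrix.cons_val_zero, Matrix.cons_val_one, Matrix.cons_val_fin_one, zero_mul, zero_add,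
      mul_zero, add_zero] at e10
    have e10' : d * (m : SL(2, ℤ)) 1 0 = (g : SL(2, ℤ)) 1 0 * a' := by exact_mod_cast e10
    have hg : ((N * q : ℕ) : ℤ) ∣ (g : SL(2, ℤ)) 1 0 := dvd_of_mem_Gamma0 g.2
    have hcop : IsCoprime (d : ℤ) ((N * q : ℕ) : ℤ) := by
      have hl1 : IsCoprime (l : ℤ) ((N * q : ℕ) : ℤ) := by
        rw [Int.isCoprime_iff_gcd_eq_one, Int.gcd_natCast_natCast]
        exact (Fact.out : l.Prime).coprime_iff_not_dvd.mpr hl'
      exact IsCoprime.of_mul_left_right (by rw [had]; exact hl1)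
    have hdvd : ((N * q : ℕ) : ℤ) ∣ (m : SL(2, ℤ)) 1 0 := by
      have h1 : ((N * q : ℕ) : ℤ) ∣ d * (m : SL(2, ℤ)) 1 0 := by
        rw [e10']; exact dvd_mul_of_dvd_left hg _
      exact hcop.symm.dvd_of_dvd_mul_left h1
    rw [H105.range_incl, Subgroup.mem_subgroupOf]
    exact mem_Gamma0_of_dvd hdvd
  · have h0 : ∀ χ : Additive (Gamma0 (N * q)) →+ A, t₁ N q χ = 0 := by
      intro χ
      unfold t₁ transferAlong
      rw [dif_neg (fun h => hfin h.2)]
    rw [h0, h0, heckeTransfer_zero]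

/-- `δ γ = c_δ(γ) δ` for `δ = heckeDiagMatrix q = diag(q, 1)`, any `q ≠ 0`. -/
theorem diag_rel (hq : q ≠ 0) (g' : Gamma0 (N * q)) :
    heckeDiagMatrix q * ιN (N * q) g' =
      ((ιN N).comp (conjDelta N q)) g' * heckeDiagMatrix q := by
  have hentries := H105.conjDelta_coe_apply N q g'
  have e : ∀ i j, ((conjDelta N q g' : Gamma0 N) : SL(2, ℤ)) i j =
      conjDeltaMatrix q (g' : SL(2, ℤ)) i j := fun i j => congrFun (congrFun hentries i) j
  have c00 : ((conjDelta N q g' : Gamma0 N) : SL(2, ℤ)) 0 0 = (g' : SL(2, ℤ)) 0 0 := by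
    rw [e]; simp [conjDeltaMatrix]
  have c01 : ((conjDelta N q g' : Gamma0 N) : SL(2, ℤ)) 0 1 = q * (g' : SL(2, ℤ)) 0 1 := by
    rw [e]; simp [conjDeltaMatrix]
  have c11 : ((conjDelta N q g' : Gamma0 N) : SL(2, ℤ)) 1 1 = (g' : SL(2, ℤ)) 1 1 := by
    rw [e]; simp [conjDeltaMatrix]
  have c10 : ((conjDelta N q g' : Gamma0 N) : SL(2, ℤ)) 1 0 * q = (g' : SL(2, ℤ)) 1 0 := by
    rw [e]
    simp only [conjDeltaMatrix, Matrix.of_apply, Matrix.cons_val', Matrix.cons_val_zero,
      Matrix.cons_val_one, Matrix.cons_val_fin_one]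
    exact Int.ediv_mul_cancel (dvd_of_mem_gamma0_mul g').1
  have c10' : ((((conjDelta N q g' : Gamma0 N) : SL(2, ℤ)) 1 0 : ℤ) : ℝ) * (q : ℝ) =
      (((g' : SL(2, ℤ)) 1 0 : ℤ) : ℝ) := by exact_mod_cast c10
  have hi : ∀ i j, ((((ιN N).comp (conjDelta N q)) g' : GL (Fin 2) ℝ) :
      Matrix (Fin 2) (Fin 2) ℝ) i j
      = ((((conjDelta N q g' : Gamma0 N) : SL(2, ℤ)) i j : ℤ) : ℝ) := fun i j =>
    coe_mapGL_apply _ i j
  apply gl_ext <;>
    simp only [coe_mul_apply, coe_ιN_apply, hi, val_heckeDiagMatrix hq, Matrix.of_apply,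
      Matrix.cons_val', Matrix.cons_val_zero, Matrix.cons_val_one, Matrix.cons_val_fin_one,
      c00, c01, c11] <;>
    push_cast
  · ring
  · ring
  · linear_combination (-1 : ℝ) * c10'
  · ring

/-- Conjugation of the Hecke representatives by `diag(q, 1)`. -/
theorem diag_conj_heckeRep (hq : q ≠ 0) (y : OnePoint (ZMod l)) :
    ∃ (u : Gamma0 N) (y' : OnePoint (ZMod l)),
      heckeDiagMatrix q * heckeRep l y * (heckeDiagMatrix q)⁻¹ = ιN N u * heckeRep l y' := by
  induction y using OnePoint.rec with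
  | infty =>
    refine ⟨1, OnePoint.infty, ?_⟩
    rw [map_one, one_mul, mul_inv_eq_iff_eq_mul]
    apply gl_ext <;>
      simp only [coe_mul_apply, coe_heckeRep_infty, val_heckeDiagMatrix hq, Matrix.of_apply,
        Matrix.cons_val', Matrix.cons_val_zero, Matrix.cons_val_one, Matrix.cons_val_fin_one] <;>
      ring
  | coe j =>
    obtain ⟨T, Y, hmod⟩ : ∃ (T : ℕ) (Y : ZMod l),
        ((Y.val : ℕ) : ℝ) + (T : ℝ) * l = (q : ℝ) * j.val := by
      refine ⟨q * j.val / l, ((q * j.val : ℕ) : ZMod l), ?_⟩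
      rw [ZMod.val_natCast]
      have := Nat.mod_add_div (q * j.val) l
      have h2 : (((q * j.val) % l + l * (q * j.val / l) : ℕ) : ℝ) = ((q * j.val : ℕ) : ℝ) := by
        rw [this]
      push_cast at h2
      linarith
    obtain ⟨u00, u01, u10, u11⟩ := mkGamma0_apply N 1 (T : ℤ) 0 1 (by ring) (dvd_zero _)
    refine ⟨mkGamma0 N 1 (T : ℤ) 0 1 (by ring) (dvd_zero _), (Y : OnePoint (ZMod l)), ?_⟩
    rw [mul_inv_eq_iff_eq_mul]
    apply gl_ext <;>
      simp only [coe_mul_apply, coe_ιN_apply, coe_heckeRep_coe, val_heckeDiagMatrix hq,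
        Matrix.of_apply, Matrix.cons_val', Matrix.cons_val_zero, Matrix.cons_val_one,
        Matrix.cons_val_fin_one, u00, u01, u10, u11] <;>
      push_cast
    · ring
    · linear_combination (-1 : ℝ) * hmod
    · ring
    · ring

/-- `T_l t₂ = t₂ T_l`. -/
theorem heckeTransfer_t2 (hl : ¬ l ∣ N) (hl' : ¬ l ∣ N * q) (hq : q ≠ 0)
    (ψ : Additive (Gamma0 (N * q)) →+ A) :
    heckeTransfer hl (t₂ N q ψ) = t₂ N q (heckeTransfer hl' ψ) := by
  by_cases hfin : (conjDelta N q).range.FiniteIndex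
  · refine heckeTransfer_transferAlong hl hl' (conjDelta N q) (H105.conjDelta_injective N hq)
      (heckeDiagMatrix q) (diag_rel hq) (diag_conj_heckeRep hq) ?_ ψ
    intro y y' m g Q hQ e
    obtain ⟨a, b, d, hα, had⟩ := heckeRep_form (l := l) y
    obtain ⟨a', b', d', hα', had'⟩ := heckeRep_form (l := l) y'
    have q01 := congrArg (fun M : GL (Fin 2) ℝ => (M : Matrix (Fin 2) (Fin 2) ℝ) 0 1) hQ
    have q11 := congrArg (fun M : GL (Fin 2) ℝ => (M : Matrix (Fin 2) (Fin 2) ℝ) 1 1) hQ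
    have e01 := congrArg (fun M : GL (Fin 2) ℝ => (M : Matrix (Fin 2) (Fin 2) ℝ) 0 1) e
    simp only [coe_mul_apply, coe_ιN_apply, val_heckeDiagMatrix hq, Matrix.of_apply,
      Matrix.cons_val', Matrix.cons_val_zero, Matrix.cons_val_one, Matrix.cons_val_fin_one,
      zero_mul, zero_add, mul_zero, add_zero, one_mul, mul_one] at q01 q11
    simp only [coe_mul_apply, coe_ιN_apply, hα, hα', Matrix.of_apply, Matrix.cons_val',
      Matrix.cons_val_zero, Matrix.cons_val_one, Matrix.cons_val_fin_one] at e01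
    rw [q11] at e01
    -- `a * m01 = q * (g00 * b' + g01 * d' - b * m11)`
    have key : (a : ℝ) * (((m : SL(2, ℤ)) 0 1 : ℤ) : ℝ) =
        (q : ℝ) * ((((g : SL(2, ℤ)) 0 0 : ℤ) : ℝ) * b' + (((g : SL(2, ℤ)) 0 1 : ℤ) : ℝ) * d'
          - b * (((m : SL(2, ℤ)) 1 1 : ℤ) : ℝ)) := by
      rw [← q01]
      linear_combination (q : ℝ) * e01
    have key' : a * (m : SL(2, ℤ)) 0 1 =
        q * ((g : SL(2, ℤ)) 0 0 * b' + (g : SL(2, ℤ)) 0 1 * d' - b * (m : SL(2, ℤ)) 1 1) := by
      exact_mod_cast key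
    have hcop : IsCoprime (a : ℤ) (q : ℤ) := by
      have hlq : ¬ l ∣ q := fun h => hl' (dvd_mul_of_dvd_right h N)
      have hl1 : IsCoprime (l : ℤ) (q : ℤ) := by
        rw [Int.isCoprime_iff_gcd_eq_one, Int.gcd_natCast_natCast]
        exact (Fact.out : l.Prime).coprime_iff_not_dvd.mpr hlq
      exact IsCoprime.of_mul_left_left (by rw [had]; exact hl1)
    have hdvd : (q : ℤ) ∣ (m : SL(2, ℤ)) 0 1 :=
      hcop.symm.dvd_of_dvd_mul_left ⟨_, key'⟩
    exact (H105.mem_range_conjDelta_iff N hq m).mpr hdvd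
  · have h0 : ∀ χ : Additive (Gamma0 (N * q)) →+ A, t₂ N q χ = 0 := by
      intro χ
      unfold t₂ transferAlong
      rw [dif_neg (fun h => hfin h.2)]
    rw [h0, h0, heckeTransfer_zero]

end Level

universe u

/-- **Leaf HT of block HK**: `T_l` commutes with `t₁` and `t₂`. -/
theorem heckeTransferComm : Spec.HeckeTransferStatement.{u} := by
  intro N q l _ hl hl' hNq A _ ψ
  have hq : q ≠ 0 := fun h => hNq (by rw [h, mul_zero])
  exact ⟨heckeTransfer_t1 hl hl' ψ, heckeTransfer_t2 hl hl' hq ψ⟩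

end Fermat.Agent.S41.H761

end
-- ===== PACK-END S41/H761/HT.lean

-- ===== PACK-BEGIN S41/H281/HeckeComm.lean
section





/-!
# S41 / block HK, leaf COMM (helper281): the Hecke transfers commute — reduction to HT

`T_l T_l' = t₁ r₂ T_l'` (TRH at `(N, l)`) `= t₁ T_l' r₂` (HR at `(N, q := l)`, `l' ∤ N l`)
`= T_l' t₁ r₂` (HT at `(N, q := l)`) `= T_l' T_l` (TRH).  For `l = l'` there is nothing to prove.

* `heckeComm_of_HT : Spec.HeckeTransferStatement → Spec.HeckeCommStatement`.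
-/

set_option autoImplicit false

namespace Fermat.Agent.S41.H281

open CongruenceSubgroup Matrix.SpecialLinearGroup
open Fermat.Agent.S29.H642 Fermat.Agent.S41.Spec
open scoped MatrixGroups

universe u

/-- **Leaf COMM** of block HK, modulo leaf HT: the Hecke transfers `T_l`, `T_l'` commute. -/
theorem heckeComm_of_HT (hHT : HeckeTransferStatement.{u}) : HeckeCommStatement.{u} := by
  intro N l l' _ _ hl hl' A _ φ
  by_cases hll : l = l'
  · subst hll
    rfl
  · have hN : N ≠ 0 := by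
      rintro rfl
      exact hl (dvd_zero _)
    have hlp : l.Prime := Fact.out
    have hlp' : l'.Prime := Fact.out
    have hl'' : ¬ l' ∣ N * l := by
      intro h
      rcases (Nat.Prime.dvd_mul hlp').mp h with h1 | h1
      · exact hl' h1
      · exact hll ((Nat.prime_dvd_prime_iff_eq hlp' hlp).mp h1).symm
    have hNl : N * l ≠ 0 := Nat.mul_ne_zero hN hlp.ne_zero
    have hTRH := H761.transferRestrictHecke.{u} N l hl hN A
    calc heckeTransfer hl (heckeTransfer hl' φ)
        = t₁ N l (r₂ N l (heckeTransfer hl' φ)) := ((hTRH (heckeTransfer hl' φ)).1).symm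
      _ = t₁ N l (heckeTransfer hl'' (r₂ N l φ)) := by
          rw [(heckeRestrict.{u} N l l' hl' hl'' A φ).2]
      _ = heckeTransfer hl' (t₁ N l (r₂ N l φ)) := ((hHT N l l' hl' hl'' hNl A (r₂ N l φ)).1).symm
      _ = heckeTransfer hl' (heckeTransfer hl φ) := by rw [(hTRH φ).1]

end Fermat.Agent.S41.H281

end
-- ===== PACK-END S41/H281/HeckeComm.lean

-- ===== PACK-BEGIN S41/H281/HK.lean
section







/-!
# S41 / block HK closed (helper281): leaf COMM and the bundled `Spec.HKStatement`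

* `heckeComm : Spec.HeckeCommStatement` (leaf COMM) `= heckeComm_of_HT H761.heckeTransferComm`;
* `hkStatement : Spec.HKStatement` : all nine Props of block HK, from the landed leaves
  FUN, RC, TC (helper581), HC, HT, TRH (helper761), HR (helper281), TR (helper105), COMM.
-/

set_option autoImplicit false

namespace Fermat.Agent.S41.H281

open Fermat.Agent.S41.Spec

universe u

/-- **Leaf COMM** of block HK: the Hecke transfers `T_l`, `T_l'` commute. -/
theorem heckeComm : HeckeCommStatement.{u} :=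
  heckeComm_of_HT H761.heckeTransferComm.{u}

/-- **Block HK**: all nine Betti relations. -/
theorem hkStatement : HKStatement.{u} :=
  ⟨H581.functoriality, H581.restrictCusp, H581.transferCusp, H761.heckeCusp, heckeRestrict,
    H761.heckeTransferComm, H105.transferRestrict, H761.transferRestrictHecke, heckeComm⟩

end Fermat.Agent.S41.H281

end
-- ===== PACK-END S41/H281/HK.lean

-- ===== PACK-BEGIN S41/H585/PDMain.lean
section












/-!
# S41, block PD — unconditional assembly (helper585)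

All leaves of `Spec/PD.lean` are on main; this file plugs them into helper221's assembly
`H221.pd_of_leaves`:

* `pd       : Spec.PDStatement`
* `pdHecke  : Spec.PDHeckeStatement`
* (`lift : Spec.LiftStatement`, `cuspFree : Spec.CuspFreeStatement` are in `PDLift`, `PDFree`).
-/

set_option autoImplicit false

namespace Fermat.Agent.S41.H585

open Fermat.Agent.S41.Spec

universe u

/-- **Block PD**, unconditional. -/
theorem pd : PDStatement.{u} :=
  H221.pd_of_leaves H281.maninPerp H281.maninSkew H281.maninParDataOf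
    H460.maninRepExists H460.maninRepZero H460.maninRepInvariant H460.maninRepLinear
    maninRepRealize maninRepTorsionU maninRepParabolic
    H232.maninRepRes H232.maninRepCores H232.maninFormAdjoint H232.transferAlongEquiv
    H945.heisLift H874.cuspSumZero_h874
    H769.tOrbitSystemExists H769.tOrbitCusp H769.cuspSumIndep H769.cuspSystemConjDelta

/-- **Block PD with Hecke operators**, unconditional. -/
theorem pdHecke : PDHeckeStatement.{u} :=
  pdHecke_of_pd H281.hkStatement.2.1 H281.hkStatement.2.2.2.2.2.2.2.1 pd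

end Fermat.Agent.S41.H585

end
-- ===== PACK-END S41/H585/PDMain.lean

-- ===== PACK-BEGIN S41/H221/PDHeis.lean
section




/-!
# S41, block PD, leaf HEIS (helper221): Heisenberg lifts and the β-formula

`heisLift : Spec.TorsionClassStatement → Spec.HeisLiftStatement`.

For Manin representatives `m, m'` of `φ, ψ` with parabolic data `e, e'` the Heisenberg cocycle
`C = (a, b, c)` with `C S = 1`, `C (S T) = (m|U - m, m'|U - m', z)`, `z x = m x * (m' x - m' (U⁻¹ x))`,
gives `ζ γ = c γ x₀`, and along every `T`-orbit system `∑ᵢ ζ (γᵢ) = ∑ₓ (z x + (e (T x) - e x) * e' x)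
= - maninForm m e'`.
-/

set_option autoImplicit false

namespace Fermat.Agent.S41.H221

open CongruenceSubgroup Matrix.SpecialLinearGroup ModularCurve.Period ModularGroup
open Fermat.Agent.S41.Spec
open scoped MatrixGroups

universe u

section Abstract

variable {X : Type*} [MulAction SL(2, ℤ) X] {R : Type*} [CommRing R]
variable {a b c : SL(2, ℤ) → X → R}

lemma IsHeisCocycle.a_one (h : IsHeisCocycle a b c) (x : X) : a 1 x = 0 :=
  addCocycle_one h.a_mul x

lemma IsHeisCocycle.b_one (h : IsHeisCocycle a b c) (x : X) : b 1 x = 0 :=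
  addCocycle_one h.b_mul x

lemma IsHeisCocycle.c_one (h : IsHeisCocycle a b c) (x : X) : c 1 x = 0 := by
  have := h.c_mul 1 1 x
  rw [one_mul, one_smul, h.a_one, zero_mul, add_zero] at this
  exact left_eq_add.mp this

lemma IsHeisCocycle.c_inv (h : IsHeisCocycle a b c) (g : SL(2, ℤ)) (x : X) :
    c g⁻¹ (g • x) = - c g x - a g⁻¹ (g • x) * b g x := by
  have := h.c_mul g⁻¹ g x
  rw [inv_mul_cancel, h.c_one] at this
  linear_combination -this

/-- The value of `c` on a conjugate `h⁻¹ t h` fixing `x₀`, when `C t (h x₀)` is central. -/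
lemma IsHeisCocycle.c_conj (h : IsHeisCocycle a b c) (g t : SL(2, ℤ)) (x₀ : X)
    (ha : a t (g • x₀) = 0) (hb : b t (g • x₀) = 0) (hfix : t • g • x₀ = g • x₀) :
    c (g⁻¹ * t * g) x₀ = c t (g • x₀) := by
  rw [mul_assoc, h.c_mul, h.c_mul t g, h.b_mul t g, mul_smul, hfix, ha, hb, h.c_inv]
  ring

lemma IsHeisCocycle.a_conj (h : IsHeisCocycle a b c) (g t : SL(2, ℤ)) (x₀ : X)
    (hfix : t • g • x₀ = g • x₀) : a (g⁻¹ * t * g) x₀ = a t (g • x₀) := by
  rw [mul_assoc, h.a_mul, h.a_mul t g, mul_smul, hfix, addCocycle_inv h.a_mul, inv_smul_smul]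
  abel

lemma addCocycle_pow {A : Type*} [AddCommGroup A] {f : SL(2, ℤ) → X → A}
    (hf : ∀ g h x, f (g * h) x = f h x + f g (h • x)) (t : SL(2, ℤ)) (e : X → A)
    (he : ∀ x, f t x = e (t • x) - e x) (k : ℕ) (y : X) :
    f (t ^ k) y = e (t ^ k • y) - e y := by
  induction k with
  | zero => simp [addCocycle_one hf]
  | succ k ih =>
    rw [pow_succ', hf, ih, he, mul_smul]
    abel

lemma IsHeisCocycle.c_pow (h : IsHeisCocycle a b c) (t : SL(2, ℤ)) (e e' : X → R)
    (ha : ∀ x, a t x = e (t • x) - e x) (hb : ∀ x, b t x = e' (t • x) - e' x) (k : ℕ) (y : X) :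
    c (t ^ k) y = ∑ j ∈ Finset.range k,
      (c t (t ^ j • y) + (e (t ^ (j + 1) • y) - e (t ^ j • y)) * (e' (t ^ j • y) - e' y)) := by
  induction k with
  | zero => simp [h.c_one]
  | succ k ih =>
    rw [pow_succ', h.c_mul, ih, Finset.sum_range_succ, ha, addCocycle_pow h.b_mul t e' hb,
      ← mul_smul, ← pow_succ']
    exact add_assoc _ _ _

/-- The monodromy of a Heisenberg cocycle along a closed `t`-orbit. -/
lemma IsHeisCocycle.c_pow_of_fixed (h : IsHeisCocycle a b c) (t : SL(2, ℤ)) (e e' : X → R)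
    (ha : ∀ x, a t x = e (t • x) - e x) (hb : ∀ x, b t x = e' (t • x) - e' x) (k : ℕ) (y : X)
    (hy : t ^ k • y = y) :
    c (t ^ k) y = ∑ j ∈ Finset.range k,
      (c t (t ^ j • y) + (e (t • t ^ j • y) - e (t ^ j • y)) * e' (t ^ j • y)) := by
  rw [h.c_pow t e e' ha hb]
  have htel : ∑ j ∈ Finset.range k, (e (t ^ (j + 1) • y) - e (t ^ j • y)) = 0 := by
    rw [Finset.sum_range_sub (fun j => e (t ^ j • y)), hy, pow_zero, one_smul, sub_self]
  have : ∀ j, e (t • t ^ j • y) = e (t ^ (j + 1) • y) := by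
    intro j
    rw [← mul_smul, ← pow_succ']
  simp only [this]
  have e1 : ∀ j, (c t (t ^ j • y) + (e (t ^ (j + 1) • y) - e (t ^ j • y)) * (e' (t ^ j • y) - e' y))
      = (c t (t ^ j • y) + (e (t ^ (j + 1) • y) - e (t ^ j • y)) * e' (t ^ j • y))
        - (e (t ^ (j + 1) • y) - e (t ^ j • y)) * e' y := by
    intro j; ring
  simp only [e1, Finset.sum_sub_distrib, ← Finset.sum_mul, htel, zero_mul, sub_zero]

end Abstract

section Quot

variable {Γ : Subgroup SL(2, ℤ)}

lemma smul_one_coset_of_mem {γ : SL(2, ℤ)} (hγ : γ ∈ Γ) :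
    γ • ((1 : SL(2, ℤ)) : SL(2, ℤ) ⧸ Γ) = ((1 : SL(2, ℤ)) : SL(2, ℤ) ⧸ Γ) := by
  rw [MulAction.Quotient.smul_mk, smul_eq_mul, mul_one, QuotientGroup.eq, mul_one]
  exact inv_mem hγ

lemma smul_one_coset (g : SL(2, ℤ)) :
    g • ((1 : SL(2, ℤ)) : SL(2, ℤ) ⧸ Γ) = ((g : SL(2, ℤ)) : SL(2, ℤ) ⧸ Γ) := by
  rw [MulAction.Quotient.smul_mk, smul_eq_mul, mul_one]

lemma neg_one_smul_coset (hneg : (-1 : SL(2, ℤ)) ∈ Γ) (x : SL(2, ℤ) ⧸ Γ) :
    (-1 : SL(2, ℤ)) • x = x := by
  rw [← S_mul_S_eq_neg_one', mul_smul]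
  exact S_smul_S_smul hneg x

lemma ST_cube_smul (hneg : (-1 : SL(2, ℤ)) ∈ Γ) (x : SL(2, ℤ) ⧸ Γ) :
    (S * T) • (S * T) • (S * T) • x = x := by
  rw [smul_smul, smul_smul, ST_cube_eq_neg_one', neg_one_smul_coset hneg]

lemma ST_inv_smul (hneg : (-1 : SL(2, ℤ)) ∈ Γ) (x : SL(2, ℤ) ⧸ Γ) :
    (S * T)⁻¹ • x = (S * T) • (S * T) • x := by
  conv_lhs => rw [← ST_cube_smul hneg x]
  rw [inv_smul_smul]

end Quot

/-- **Leaf HEIS.** -/
theorem heisLift (tors : TorsionClassStatement) : HeisLiftStatement.{u} := by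
  intro Γ _ hneg R _ φ ψ m m' e e' hm hm' he he'
  obtain ⟨f, ⟨hf, hfS, hfU⟩, hφ⟩ := hm
  obtain ⟨f', ⟨hf', hf'S, hf'U⟩, hψ⟩ := hm'
  have : Fintype (SL(2, ℤ) ⧸ Γ) := Fintype.ofFinite _
  have hnegX : ∀ x : SL(2, ℤ) ⧸ Γ, (-1 : SL(2, ℤ)) • x = x := neg_one_smul_coset hneg
  have hU3 := ST_cube_smul (Γ := Γ) hneg
  have hUi := ST_inv_smul (Γ := Γ) hneg
  -- the Heisenberg cocycle
  obtain ⟨a, b, c, hC, haS, hbS, hcS, haU, hbU, hcU⟩ := exists_heisCocycle hnegX
    (fun x => m ((S * T) • x) - m x) (fun x => m' ((S * T) • x) - m' x)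
    (fun x => m x * (m' x - m' ((S * T)⁻¹ • x)))
    (fun x => by simp only [hU3]; ring) (fun x => by simp only [hU3]; ring)
    (fun x => by
      simp only [hUi, hU3]
      ring)
  have haf : a = f := addCocycle_ext hC.a_mul hf (by rw [haS]; funext x; exact (hfS x).symm)
    (by rw [haU]; funext x; exact (hfU x).symm)
  have hbf : b = f' := addCocycle_ext hC.b_mul hf' (by rw [hbS]; funext x; exact (hf'S x).symm)
    (by rw [hbU]; funext x; exact (hf'U x).symm)
  set x₀ : SL(2, ℤ) ⧸ Γ := ((1 : SL(2, ℤ)) : SL(2, ℤ) ⧸ Γ) with hx₀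
  have hφa : ∀ γ : Γ, φ (Additive.ofMul γ) = a (γ : SL(2, ℤ)) x₀ := by
    intro γ; rw [haf]; exact hφ γ
  have hψb : ∀ γ : Γ, ψ (Additive.ofMul γ) = b (γ : SL(2, ℤ)) x₀ := by
    intro γ; rw [hbf]; exact hψ γ
  -- values at `S⁻¹`, `T`, `-1`
  have haSi : ∀ y, a S⁻¹ y = 0 := fun y => by
    rw [addCocycle_inv hC.a_mul, haS]; simp
  have hbSi : ∀ y, b S⁻¹ y = 0 := fun y => by
    rw [addCocycle_inv hC.b_mul, hbS]; simp
  have hcSi : ∀ y, c S⁻¹ y = 0 := fun y => by
    have := hC.c_inv S (S⁻¹ • y)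
    rw [smul_inv_smul, hcS, haSi] at this
    simpa using this
  have hT : (T : SL(2, ℤ)) = S⁻¹ * (S * T) := by rw [inv_mul_cancel_left]
  have haT : ∀ x, a T x = e (T • x) - e x := fun x => by
    rw [hT, hC.a_mul, haSi, add_zero, haU, ← hT]
    exact (he x).symm
  have hbT : ∀ x, b T x = e' (T • x) - e' x := fun x => by
    rw [hT, hC.b_mul, hbSi, add_zero, hbU, ← hT]
    exact (he' x).symm
  have hcT : ∀ x, c T x = m x * (m' x - m' ((S * T)⁻¹ • x)) := fun x => by
    conv_lhs => rw [hT]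
    rw [hC.c_mul, hcSi, haSi, hcU]
    ring
  have haN : ∀ y, a (-1) y = 0 := fun y => by
    rw [← S_mul_S_eq_neg_one', hC.a_mul, haS]; simp
  have hbN : ∀ y, b (-1) y = 0 := fun y => by
    rw [← S_mul_S_eq_neg_one', hC.b_mul, hbS]; simp
  have hcN : ∀ y, c (-1) y = 0 := fun y => by
    rw [← S_mul_S_eq_neg_one', hC.c_mul, hcS, haS]; simp
  -- `C (-t) = C t`
  have hneg_mul : ∀ (t : SL(2, ℤ)) (y : SL(2, ℤ) ⧸ Γ),
      a (-t) y = a t y ∧ b (-t) y = b t y ∧ c (-t) y = c t y := by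
    intro t y
    have e1 : -t = (-1) * t := by simp
    rw [e1, hC.a_mul, hC.b_mul, hC.c_mul, haN, hbN, hcN]
    simp
  -- `C (U²) = 1` at fixed points of `U`
  have hUfix : ∀ y : SL(2, ℤ) ⧸ Γ, (S * T) • y = y →
      a (S * T) y = 0 ∧ b (S * T) y = 0 ∧ c (S * T) y = 0 := by
    intro y hy
    have hy' : (S * T)⁻¹ • y = y := by
      conv_lhs => rw [← hy]
      rw [inv_smul_smul]
    rw [haU, hbU, hcU]
    simp only [hy, hy', sub_self, mul_zero, and_self]
  have hU2fix : ∀ y : SL(2, ℤ) ⧸ Γ, (S * T) ^ 2 • y = y →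
      a ((S * T) ^ 2) y = 0 ∧ b ((S * T) ^ 2) y = 0 ∧ c ((S * T) ^ 2) y = 0 := by
    intro y hy
    have hy1 : (S * T) • y = y := by
      have := hU3 y
      rw [pow_two, mul_smul] at hy
      rw [hy] at this
      exact this
    obtain ⟨h1, h2, h3⟩ := hUfix y hy1
    rw [pow_two, hC.a_mul, hC.b_mul, hC.c_mul, hy1, h1, h2, h3]
    simp
  refine ⟨fun γ => c (γ : SL(2, ℤ)) x₀, ⟨fun γ γ' => ?_, fun γ hγ => ?_⟩, ?_⟩
  · -- the Heisenberg relation
    show c ((γ : SL(2, ℤ)) * (γ' : SL(2, ℤ))) x₀ = _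
    rw [hC.c_mul, smul_one_coset_of_mem γ'.2, hφa, hψb]
    ring
  · -- torsion
    have hγ' : IsOfFinOrder (γ : SL(2, ℤ)) := Γ.subtype.isOfFinOrder hγ
    obtain ⟨g, hg⟩ := tors (γ : SL(2, ℤ)) hγ'
    set t := g * (γ : SL(2, ℤ)) * g⁻¹ with ht
    have hγt : (γ : SL(2, ℤ)) = g⁻¹ * t * g := by
      rw [ht]; group
    have hfix : t • g • x₀ = g • x₀ := by
      rw [ht, ← mul_smul, inv_mul_cancel_right, mul_smul, smul_one_coset_of_mem γ.2]
    -- `C t (g x₀) = 1`
    have hCt : a t (g • x₀) = 0 ∧ b t (g • x₀) = 0 ∧ c t (g • x₀) = 0 := by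
      have hfixn : ∀ s : SL(2, ℤ), (-s) • g • x₀ = g • x₀ → s • g • x₀ = g • x₀ := by
        intro s hs
        have e1 : -s = (-1) * s := by simp
        rw [e1, mul_smul, hnegX] at hs
        exact hs
      rcases hg with h1 | h1 | h1 | h1 | h1 | h1 | h1 | h1
      · rw [h1]; exact ⟨hC.a_one _, hC.b_one _, hC.c_one _⟩
      · rw [h1]; exact ⟨haN _, hbN _, hcN _⟩
      · rw [h1, haS, hbS, hcS]; simp
      · rw [h1]
        obtain ⟨e1, e2, e3⟩ := hneg_mul S (g • x₀)
        rw [e1, e2, e3, haS, hbS, hcS]; simp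
      · rw [h1]; rw [h1] at hfix; exact hUfix _ hfix
      · rw [h1]; rw [h1] at hfix
        obtain ⟨e1, e2, e3⟩ := hneg_mul (S * T) (g • x₀)
        rw [e1, e2, e3]
        exact hUfix _ (hfixn _ hfix)
      · rw [h1]; rw [h1] at hfix; exact hU2fix _ hfix
      · rw [h1]; rw [h1] at hfix
        obtain ⟨e1, e2, e3⟩ := hneg_mul ((S * T) ^ 2) (g • x₀)
        rw [e1, e2, e3]
        exact hU2fix _ (hfixn _ hfix)
    show c (γ : SL(2, ℤ)) x₀ = 0
    rw [hγt, hC.c_conj g t x₀ hCt.1 hCt.2.1 hfix, hCt.2.2]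
  · -- the β-formula
    intro ι _ γ h w hsys
    obtain ⟨hw, hγ, hbij⟩ := hsys
    -- the summand
    set G : SL(2, ℤ) ⧸ Γ → R := fun x =>
      m x * (m' x - m' ((S * T)⁻¹ • x)) + (e (T • x) - e x) * e' x with hG
    have hone : ∀ i, c ((γ i : Γ) : SL(2, ℤ)) x₀ =
        ∑ j ∈ Finset.range (w i), G (T ^ j • h i • x₀) := by
      intro i
      have hfix : T ^ (w i) • h i • x₀ = h i • x₀ := by
        have := smul_one_coset_of_mem (γ i).2
        rw [hγ i, mul_smul, mul_smul] at this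
        have h2 := congrArg (fun y => h i • y) this
        simp only [smul_inv_smul] at h2
        exact h2
      have ha0 : a (T ^ (w i)) (h i • x₀) = 0 := by
        rw [addCocycle_pow hC.a_mul T e haT, hfix, sub_self]
      have hb0 : b (T ^ (w i)) (h i • x₀) = 0 := by
        rw [addCocycle_pow hC.b_mul T e' hbT, hfix, sub_self]
      rw [hγ i, hC.c_conj (h i) (T ^ (w i)) x₀ ha0 hb0 hfix,
        hC.c_pow_of_fixed T e e' haT hbT (w i) (h i • x₀) hfix]
      refine Finset.sum_congr rfl fun j _ => ?_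
      rw [hcT]
    -- reindexing by the `T`-orbit system
    let Φ : (Σ i, Fin (w i)) → SL(2, ℤ) ⧸ Γ := fun p =>
      ((T ^ (p.2 : ℕ) * h p.1 : SL(2, ℤ)) : SL(2, ℤ) ⧸ Γ)
    have hΦ : Function.Bijective Φ := by
      constructor
      · intro p p' hpp
        obtain ⟨p₀, -, hp₀⟩ := hbij (Φ p)
        rw [hp₀ p rfl, hp₀ p' hpp]
      · intro x
        obtain ⟨p, hp, -⟩ := hbij x
        exact ⟨p, hp.symm⟩
    have hsum : ∑ i, c ((γ i : Γ) : SL(2, ℤ)) x₀ = ∑ x : SL(2, ℤ) ⧸ Γ, G x := by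
      rw [← Fintype.sum_bijective Φ hΦ (fun p => G (Φ p)) G (fun p => rfl), Fintype.sum_sigma]
      refine Finset.sum_congr rfl fun i _ => ?_
      rw [hone i, ← Fin.sum_univ_eq_sum_range (fun j => G (T ^ j • h i • x₀)) (w i)]
      refine Finset.sum_congr rfl fun j _ => ?_
      show G (T ^ (j : ℕ) • h i • x₀) = G (((T ^ (j : ℕ) * h i : SL(2, ℤ)) : SL(2, ℤ) ⧸ Γ))
      rw [← mul_smul, smul_one_coset]
    show ∑ i, c ((γ i : Γ) : SL(2, ℤ)) x₀ = - maninForm Γ m e'
    rw [hsum, maninForm_eq_sum, eq_neg_iff_add_eq_zero, ← Finset.sum_add_distrib]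
    -- the final computation
    have r1 : ∑ x : SL(2, ℤ) ⧸ Γ, m ((S * T) • x) * m' x =
        ∑ x : SL(2, ℤ) ⧸ Γ, m x * m' ((S * T)⁻¹ • x) := by
      rw [← Equiv.sum_comp (MulAction.toPerm (S * T : SL(2, ℤ)))
        (fun x => m x * m' ((S * T)⁻¹ • x))]
      refine Finset.sum_congr rfl fun x _ => ?_
      simp only [MulAction.toPerm_apply, inv_smul_smul]
    have r2 : ∑ x : SL(2, ℤ) ⧸ Γ, m ((S * T) • x) * (m' x - e' x) =
        ∑ x : SL(2, ℤ) ⧸ Γ, m x * (m' x - e' (S • x)) := by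
      rw [← Equiv.sum_comp (MulAction.toPerm (S * T : SL(2, ℤ)))
        (fun x => m x * (m' x - e' (S • x)))]
      refine Finset.sum_congr rfl fun x _ => ?_
      simp only [MulAction.toPerm_apply]
      rw [S_smul_ST_smul hneg]
      have := he' x
      congr 1
      linear_combination this
    have key : ∀ x : SL(2, ℤ) ⧸ Γ, G x + m x * (e' x - e' (S • x)) =
        (m ((S * T) • x) * m' x - m x * m' ((S * T)⁻¹ • x)) +
          (m x * (m' x - e' (S • x)) - m ((S * T) • x) * (m' x - e' x)) := by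
      intro x
      have := he x
      simp only [hG]
      linear_combination e' x * this
    simp only [key, Finset.sum_add_distrib, Finset.sum_sub_distrib, r1, r2, sub_self, add_zero]

end Fermat.Agent.S41.H221

end
-- ===== PACK-END S41/H221/PDHeis.lean

-- ===== PACK-BEGIN S41/H221/PD.lean
section













/-!
# S41 — blocks PD and LIFT, CLOSED (helper221, final plug)

* `pd      : Spec.PDStatement`       — Poincaré duality family on the cuspidal classes of `Γ₀(n)`, any field;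
* `pdHecke : Spec.PDHeckeStatement`  — the same with `T_l` self-adjoint (what Glue consumes);
* `lift    : Spec.LiftStatement`     — cuspidal classes mod `p` lift to `ℤ`.

Leaves: LA `H281`, TORS `H768`, DICT-a `H460`, DICT-b `H581`, TR `H683`, HEIS `H221`, HEIS-U `H236`,
CUSP `H769`, PD-HECKE `H585`, HK-1a `H581`, HK-4 `H761`; assembly `H221/PDAsm1, PDAsm2`.
-/

set_option autoImplicit false

namespace Fermat.Agent.S41.H221

open Fermat.Agent.S41.Spec

universe u

/-- **Block PD.** -/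
theorem pd : PDStatement.{u} :=
  pd_of_leaves H281.maninPerp H281.maninSkew H281.maninParDataOf
    H460.maninRepExists H460.maninRepZero H460.maninRepInvariant H460.maninRepLinear
    H581.maninRepRealize (H581.maninRepTorsion_of H768.torsionClass) H581.maninRepParabolic
    H683.maninRepRes H683.maninRepCores H683.maninFormAdjoint H683.transferAlongEquiv
    (heisLift H768.torsionClass) (H236.cuspSumZero H460.maninRepExists)
    H769.tOrbitSystemExists H769.tOrbitCusp H769.cuspSumIndep H769.cuspSystemConjDelta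

/-- **Block PD with self-adjoint Hecke operators.** -/
theorem pdHecke : PDHeckeStatement.{u} :=
  pdHecke_of_leaves pd H585.pdHeckeOfPD H581.restrictCusp H761.transferRestrictHecke

/-- **Block LIFT.** -/
theorem lift : LiftStatement :=
  lift_of_leaves H460.maninRepExists H460.maninRepInvariant H460.maninRepLinear
    H581.maninRepRealize (H581.maninRepTorsion_of H768.torsionClass) H581.maninRepParabolic
    H281.parDataLift

end Fermat.Agent.S41.H221

end
-- ===== PACK-END S41/H221/PD.lean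

-- ===== PACK-BEGIN S15/H221/Eps.lean
section


/-!
# The Manin pairing is anti-invariant under `ε = diag(-1, 1)`  (helper221)

Leaf EPS (= (P4) of `coord/S15-COUNT2-helper111.md`, route P of helper337) of row S15, node DESC, tower COUNT.

`Ad ε : g = [[a, b], [c, d]] ↦ ε g ε⁻¹ = [[a, -b], [-c, d]]`.  SHAPE-INDEPENDENT statement: for ANY subgroup
`Γ ≤ SL(2,ℤ)` of finite index with `-1 ∈ Γ`, ANY commutative ring `R` and ANY map `σ : Γ →* Γ` which is `Ad ε`
entrywise (`IsEpsConj γ (σ γ)`),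

  `maninPairing Γ (x ∘ σ) (y ∘ σ) = - maninPairing Γ x y`      (`x, y` cuspidal).

* `maninPairing_beta`      : the β-formula (S41 A4) over any commutative ring;
* `exists_isHeisLift`      : Heisenberg lifts exist over any commutative ring;
* `maninPairing_comp_eps`  : the theorem above;
* `gamma0Eps n : Gamma0 n ≃* Gamma0 n`, `maninPairing_gamma0Eps`, `isCuspidal_comp_gamma0Eps` : the case `Γ₀(n)`.

Proof: `ζ ∘ σ` is a Heisenberg lift of `(x ∘ σ, y ∘ σ)`; `γ ↦ (σ γ)⁻¹` maps cusp systems to cusp systems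
(`Ad ε` maps positive parabolic elements to negative ones); `ζ (δ⁻¹) = - ζ δ` for parabolic `δ`.
-/

set_option autoImplicit false

namespace Fermat.Agent.S15.H221

open CongruenceSubgroup Matrix.SpecialLinearGroup ModularCurve.Period ModularGroup
open Fermat.Agent.S41 Fermat.Agent.S41.Spec
open scoped MatrixGroups

universe u

/-! ## The β-formula over a commutative ring -/

section Beta

variable {Γ : Subgroup SL(2, ℤ)} [Γ.FiniteIndex]

/-- Heisenberg lifts exist (any commutative ring). -/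
theorem exists_isHeisLift (hneg : (-1 : SL(2, ℤ)) ∈ Γ) {R : Type u} [CommRing R]
    {φ ψ : Additive Γ →+ R} (hφ : IsCuspidalOn Γ φ) (hψ : IsCuspidalOn Γ ψ) :
    ∃ ζ : Γ → R, IsHeisLift Γ φ ψ ζ := by
  obtain ⟨m, hm⟩ := S41.H460.maninRepExists Γ hneg R φ hφ.2
  obtain ⟨e, he⟩ := (S41.H581.maninRepParabolic Γ hneg R φ m hm).1 hφ.1
  obtain ⟨m', hm'⟩ := S41.H460.maninRepExists Γ hneg R ψ hψ.2
  obtain ⟨e', he'⟩ := (S41.H581.maninRepParabolic Γ hneg R ψ m' hm').1 hψ.1
  obtain ⟨ζ, hζ, -⟩ := S41.H221.heisLift S41.H768.torsionClass Γ hneg R φ ψ m m' e e' hm hm' he he'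
  exact ⟨ζ, hζ⟩

/-- **β-formula** (S41 A4) over any commutative ring: for ANY Heisenberg lift and ANY cusp system. -/
theorem maninPairing_beta (hneg : (-1 : SL(2, ℤ)) ∈ Γ) {R : Type u} [CommRing R]
    {φ ψ : Additive Γ →+ R} {ζ : Γ → R} (hφ : IsCuspidalOn Γ φ) (hψ : IsCuspidalOn Γ ψ)
    (hζ : IsHeisLift Γ φ ψ ζ) {ι : Type} [Fintype ι] {γ : ι → Γ} (hγ : IsCuspSystem Γ γ) :
    ∑ i, ζ (γ i) = - maninPairing Γ φ ψ := by
  have hA1 : ManinPairingEqStatement.{u} :=
    S41.H221.maninPairingEq S41.H460.maninRepZero S41.H460.maninRepLinear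
      S41.H581.maninRepParabolic S41.H281.maninSkew
  obtain ⟨m, hm⟩ := S41.H460.maninRepExists Γ hneg R φ hφ.2
  obtain ⟨e, he⟩ := (S41.H581.maninRepParabolic Γ hneg R φ m hm).1 hφ.1
  obtain ⟨m', hm'⟩ := S41.H460.maninRepExists Γ hneg R ψ hψ.2
  obtain ⟨e', he'⟩ := (S41.H581.maninRepParabolic Γ hneg R ψ m' hm').1 hψ.1
  obtain ⟨ζ₀, hζ₀, hβ⟩ :=
    S41.H221.heisLift S41.H768.torsionClass Γ hneg R φ ψ m m' e e' hm hm' he he'
  obtain ⟨ι₀, inst₀, γ₀, h₀, w₀, hsys⟩ := S41.H769.tOrbitSystemExists Γ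
  have hcusp₀ := S41.H769.tOrbitCusp Γ hneg ι₀ γ₀ h₀ w₀ hsys
  have hclass : ∀ g γ : Γ, IsPosParabolic (γ : SL(2, ℤ)) → ζ (g * γ * g⁻¹) = ζ γ := by
    intro g γ hγ
    have htr : ((γ : SL(2, ℤ)) : Matrix (Fin 2) (Fin 2) ℤ).trace ^ 2 = 4 := by
      rw [hγ.2.1]; norm_num
    exact S41.H221.isHeisLift_conj hζ g γ (hφ.1 γ htr) (hψ.1 γ htr)
  rw [S41.H769.cuspSumIndep Γ R ζ hclass ι ι₀ γ γ₀ hγ hcusp₀]
  have hχ : ∀ γ : Γ, IsOfFinOrder γ → S41.H221.heisDiff hζ hζ₀ (Additive.ofMul γ) = 0 := by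
    intro γ hγ
    rw [S41.H221.heisDiff_apply, hζ.2 γ hγ, hζ₀.2 γ hγ, sub_zero]
  have h1 := S41.H236.cuspSumZero S41.H460.maninRepExists Γ hneg R (S41.H221.heisDiff hζ hζ₀) hχ
    ι₀ γ₀ h₀ w₀ hsys
  have h2 := hβ ι₀ γ₀ h₀ w₀ hsys
  simp only [S41.H221.heisDiff_apply, Finset.sum_sub_distrib] at h1
  rw [sub_eq_zero.mp h1, h2, hA1 Γ hneg R φ ψ m m' e' hφ.1 hm hm' he']

end Beta

/-! ## `Ad ε` on matrices -/

/-- `g' = ε g ε⁻¹` for `ε = diag(-1, 1)`: `[[a, b], [c, d]] ↦ [[a, -b], [-c, d]]`. -/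
def IsEpsConj (g g' : SL(2, ℤ)) : Prop :=
  g' 0 0 = g 0 0 ∧ g' 0 1 = - g 0 1 ∧ g' 1 0 = - g 1 0 ∧ g' 1 1 = g 1 1

theorem sl2_ext {g g' : SL(2, ℤ)} (h00 : g 0 0 = g' 0 0) (h01 : g 0 1 = g' 0 1)
    (h10 : g 1 0 = g' 1 0) (h11 : g 1 1 = g' 1 1) : g = g' := by
  apply Matrix.SpecialLinearGroup.ext
  intro i j
  fin_cases i <;> fin_cases j
  · exact h00
  · exact h01
  · exact h10
  · exact h11

theorem sl2_inv_00 (g : SL(2, ℤ)) : (g⁻¹) 0 0 = g 1 1 := by
  rw [Matrix.SpecialLinearGroup.coe_inv, Matrix.adjugate_fin_two]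
  rfl

theorem sl2_inv_01 (g : SL(2, ℤ)) : (g⁻¹) 0 1 = - g 0 1 := by
  rw [Matrix.SpecialLinearGroup.coe_inv, Matrix.adjugate_fin_two]
  rfl

theorem sl2_inv_10 (g : SL(2, ℤ)) : (g⁻¹) 1 0 = - g 1 0 := by
  rw [Matrix.SpecialLinearGroup.coe_inv, Matrix.adjugate_fin_two]
  rfl

theorem sl2_inv_11 (g : SL(2, ℤ)) : (g⁻¹) 1 1 = g 0 0 := by
  rw [Matrix.SpecialLinearGroup.coe_inv, Matrix.adjugate_fin_two]
  rfl

theorem sl2_one_entries : ((1 : SL(2, ℤ)) 0 0 = 1) ∧ ((1 : SL(2, ℤ)) 0 1 = 0) ∧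
    ((1 : SL(2, ℤ)) 1 0 = 0) ∧ ((1 : SL(2, ℤ)) 1 1 = 1) := by
  refine ⟨?_, ?_, ?_, ?_⟩ <;> simp

theorem IsEpsConj.symm {g g' : SL(2, ℤ)} (h : IsEpsConj g g') : IsEpsConj g' g := by
  obtain ⟨h00, h01, h10, h11⟩ := h
  exact ⟨h00.symm, by rw [h01, neg_neg], by rw [h10, neg_neg], h11.symm⟩

theorem IsEpsConj.trace_eq {g g' : SL(2, ℤ)} (h : IsEpsConj g g') :
    (g' : Matrix (Fin 2) (Fin 2) ℤ).trace = (g : Matrix (Fin 2) (Fin 2) ℤ).trace := by
  rw [Matrix.trace_fin_two, Matrix.trace_fin_two, h.1, h.2.2.2]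

theorem IsEpsConj.eq_one_iff {g g' : SL(2, ℤ)} (h : IsEpsConj g g') : g' = 1 ↔ g = 1 := by
  obtain ⟨o00, o01, o10, o11⟩ := sl2_one_entries
  obtain ⟨h00, h01, h10, h11⟩ := h
  constructor
  · intro h1
    subst h1
    refine sl2_ext ?_ ?_ ?_ ?_
    · rw [← h00]
    · rw [o01, ← neg_eq_zero, ← h01, o01]
    · rw [o10, ← neg_eq_zero, ← h10, o10]
    · rw [← h11]
  · intro h1
    subst h1
    refine sl2_ext ?_ ?_ ?_ ?_
    · rw [h00]
    · rw [h01, o01, neg_zero]
    · rw [h10, o10, neg_zero]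
    · rw [h11]

/-- `Ad ε` followed by inversion preserves positive parabolic elements. -/
theorem IsEpsConj.isPosParabolic_inv {g g' : SL(2, ℤ)} (h : IsEpsConj g g')
    (hg : IsPosParabolic g) : IsPosParabolic g'⁻¹ := by
  obtain ⟨hne, htr, hb, hc⟩ := hg
  refine ⟨?_, ?_, ?_, ?_⟩
  · intro h1
    exact hne (h.eq_one_iff.mp (inv_eq_one.mp h1))
  · rw [Matrix.trace_fin_two, sl2_inv_00, sl2_inv_11, h.1, h.2.2.2, add_comm, ← htr,
      Matrix.trace_fin_two]
  · rw [sl2_inv_01, h.2.1, neg_neg]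
    exact hb
  · rw [sl2_inv_10, h.2.2.1, neg_neg]
    exact hc

/-! ## `Ad ε` on a subgroup -/

section Eps

variable {Γ : Subgroup SL(2, ℤ)} (σ : Γ →* Γ)

/-- `σ` is an involution. -/
theorem eps_invol (hσ : ∀ γ : Γ, IsEpsConj (γ : SL(2, ℤ)) (σ γ : SL(2, ℤ))) (γ : Γ) :
    σ (σ γ) = γ := by
  apply Subtype.ext
  obtain ⟨h00, h01, h10, h11⟩ := hσ γ
  obtain ⟨k00, k01, k10, k11⟩ := hσ (σ γ)
  refine sl2_ext ?_ ?_ ?_ ?_
  · rw [k00, h00]
  · rw [k01, h01, neg_neg]
  · rw [k10, h10, neg_neg]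
  · rw [k11, h11]

variable {σ}

theorem isPosParabolic_eps_inv (hσ : ∀ γ : Γ, IsEpsConj (γ : SL(2, ℤ)) (σ γ : SL(2, ℤ)))
    {γ : Γ} (hγ : IsPosParabolic (γ : SL(2, ℤ))) :
    IsPosParabolic (((σ γ)⁻¹ : Γ) : SL(2, ℤ)) := by
  have := (hσ γ).isPosParabolic_inv hγ
  simpa using this

theorem isPrimPosParabolic_eps_inv (hσ : ∀ γ : Γ, IsEpsConj (γ : SL(2, ℤ)) (σ γ : SL(2, ℤ)))
    {γ : Γ} (hγ : IsPrimPosParabolic Γ γ) : IsPrimPosParabolic Γ (σ γ)⁻¹ := by
  refine ⟨isPosParabolic_eps_inv hσ hγ.1, fun γ' k hγ' hk => ?_⟩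
  refine hγ.2 (σ γ')⁻¹ k (isPosParabolic_eps_inv hσ hγ') ?_
  rw [inv_pow, ← map_pow, hk, map_inv, inv_inv, eps_invol σ hσ]

/-- `γ ↦ (σ γ)⁻¹` maps cusp systems to cusp systems. -/
theorem isCuspSystem_eps_inv (hσ : ∀ γ : Γ, IsEpsConj (γ : SL(2, ℤ)) (σ γ : SL(2, ℤ)))
    {ι : Type} {γ : ι → Γ} (hγ : IsCuspSystem Γ γ) :
    IsCuspSystem Γ (fun i => (σ (γ i))⁻¹) := by
  refine ⟨fun i => isPrimPosParabolic_eps_inv hσ (hγ.1 i), fun γ' hγ' => ?_⟩
  obtain ⟨i, ⟨g, hg⟩, huniq⟩ := hγ.2 (σ γ')⁻¹ (isPrimPosParabolic_eps_inv hσ hγ')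
  refine ⟨i, ⟨σ g, ?_⟩, fun j hj => ?_⟩
  · show σ g * (σ (γ i))⁻¹ * (σ g)⁻¹ = γ'
    have h1 : σ (g * γ i * g⁻¹) = (γ')⁻¹ := by
      rw [hg, map_inv, eps_invol σ hσ]
    rw [map_mul, map_mul, map_inv] at h1
    rw [← inv_inj, ← h1]
    group
  · obtain ⟨g', hg'⟩ := hj
    apply huniq
    refine ⟨σ g', ?_⟩
    have h1 : σ (g' * (σ (γ j))⁻¹ * g'⁻¹) = σ γ' := by
      rw [hg']
    rw [map_mul, map_mul, map_inv, map_inv, eps_invol σ hσ] at h1
    rw [← h1]
    group

theorem isCuspidalOn_comp_eps (hσ : ∀ γ : Γ, IsEpsConj (γ : SL(2, ℤ)) (σ γ : SL(2, ℤ)))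
    {A : Type*} [AddCommGroup A] {x : Additive Γ →+ A} (hx : IsCuspidalOn Γ x) :
    IsCuspidalOn Γ (x.comp (MonoidHom.toAdditive σ)) := by
  refine ⟨fun γ hγ => ?_, fun γ hγ => ?_⟩
  · refine hx.1 (σ γ) ?_
    rw [(hσ γ).trace_eq]
    exact hγ
  · exact hx.2 (σ γ) (σ.isOfFinOrder hγ)

theorem isHeisLift_comp_eps {R : Type*} [CommRing R] {φ ψ : Additive Γ →+ R} {ζ : Γ → R}
    (hζ : IsHeisLift Γ φ ψ ζ) :
    IsHeisLift Γ (φ.comp (MonoidHom.toAdditive σ)) (ψ.comp (MonoidHom.toAdditive σ))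
      (fun γ => ζ (σ γ)) := by
  refine ⟨fun γ γ' => ?_, fun γ hγ => ?_⟩
  · show ζ (σ (γ * γ')) = _
    rw [map_mul, hζ.1]
    rfl
  · exact hζ.2 _ (σ.isOfFinOrder hγ)

theorem isHeisLift_inv {R : Type*} [CommRing R] {φ ψ : Additive Γ →+ R} {ζ : Γ → R}
    (hζ : IsHeisLift Γ φ ψ ζ) (δ : Γ) (hδ : φ (Additive.ofMul δ) = 0) : ζ δ⁻¹ = - ζ δ := by
  have e1 := hζ.1 δ δ⁻¹
  rw [mul_inv_cancel, S41.H221.isHeisLift_map_one hζ, hδ, zero_mul, add_zero] at e1
  linear_combination -e1

/-- **EPS.**  The Manin pairing is anti-invariant under `Ad ε`, `ε = diag(-1, 1)`: any commutative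
ring, any subgroup of finite index containing `-1`, any realisation `σ` of `Ad ε` on `Γ`. -/
theorem maninPairing_comp_eps [Γ.FiniteIndex] (hneg : (-1 : SL(2, ℤ)) ∈ Γ)
    (hσ : ∀ γ : Γ, IsEpsConj (γ : SL(2, ℤ)) (σ γ : SL(2, ℤ)))
    {R : Type u} [CommRing R] {x y : Additive Γ →+ R} (hx : IsCuspidalOn Γ x)
    (hy : IsCuspidalOn Γ y) :
    maninPairing Γ (x.comp (MonoidHom.toAdditive σ)) (y.comp (MonoidHom.toAdditive σ)) =
      - maninPairing Γ x y := by
  obtain ⟨ζ, hζ⟩ := exists_isHeisLift hneg hx hy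
  obtain ⟨ι, inst, γ, h, w, hsys⟩ := S41.H769.tOrbitSystemExists Γ
  have hcusp := S41.H769.tOrbitCusp Γ hneg ι γ h w hsys
  have h1 := maninPairing_beta hneg (isCuspidalOn_comp_eps hσ hx) (isCuspidalOn_comp_eps hσ hy)
    (isHeisLift_comp_eps (σ := σ) hζ) hcusp
  have h2 := maninPairing_beta hneg hx hy hζ (isCuspSystem_eps_inv hσ hcusp)
  have h3 : ∀ i, ζ (σ (γ i))⁻¹ = - ζ (σ (γ i)) := by
    intro i
    refine isHeisLift_inv hζ _ (hx.1 _ ?_)
    rw [(hσ (γ i)).trace_eq, (hcusp.1 i).1.2.1]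
    norm_num
  simp only [h3, Finset.sum_neg_distrib, neg_inj] at h2
  rw [← h2, ← neg_eq_iff_eq_neg, ← h1]

end Eps

/-! ## The case `Γ₀(n)` -/

/-- `ε g ε⁻¹` as a matrix of determinant `1`. -/
def epsSL (g : SL(2, ℤ)) : SL(2, ℤ) :=
  ⟨!![g 0 0, - g 0 1; - g 1 0, g 1 1], by
    rw [Matrix.det_fin_two_of]
    have := g.det_coe
    rw [Matrix.det_fin_two] at this
    linear_combination this⟩

theorem isEpsConj_epsSL (g : SL(2, ℤ)) : IsEpsConj g (epsSL g) :=
  ⟨rfl, rfl, rfl, rfl⟩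

theorem coe_epsSL (g : SL(2, ℤ)) :
    (epsSL g : Matrix (Fin 2) (Fin 2) ℤ) = !![g 0 0, - g 0 1; - g 1 0, g 1 1] := rfl

theorem epsSL_mul (g h : SL(2, ℤ)) : epsSL (g * h) = epsSL g * epsSL h := by
  apply Subtype.ext
  rw [Matrix.SpecialLinearGroup.coe_mul, coe_epsSL, coe_epsSL, coe_epsSL,
    Matrix.SpecialLinearGroup.coe_mul]
  ext i j
  fin_cases i <;> fin_cases j <;>
    simp [Matrix.mul_apply, Fin.sum_univ_two] <;> ring

theorem epsSL_one : epsSL 1 = 1 := by
  apply Matrix.SpecialLinearGroup.ext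
  intro i j
  fin_cases i <;> fin_cases j <;> simp [epsSL]

theorem epsSL_epsSL (g : SL(2, ℤ)) : epsSL (epsSL g) = g := by
  apply Matrix.SpecialLinearGroup.ext
  intro i j
  fin_cases i <;> fin_cases j <;> simp [epsSL]

theorem epsSL_mem_gamma0 {n : ℕ} {g : SL(2, ℤ)} (hg : g ∈ Gamma0 n) : epsSL g ∈ Gamma0 n := by
  rw [Gamma0_mem] at hg ⊢
  show ((- g 1 0 : ℤ) : ZMod n) = 0
  rw [Int.cast_neg, hg, neg_zero]

/-- `Ad ε` on `Γ₀(n)`. -/
def gamma0Eps (n : ℕ) : Gamma0 n ≃* Gamma0 n where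
  toFun γ := ⟨epsSL γ, epsSL_mem_gamma0 γ.2⟩
  invFun γ := ⟨epsSL γ, epsSL_mem_gamma0 γ.2⟩
  left_inv _ := Subtype.ext (epsSL_epsSL _)
  right_inv _ := Subtype.ext (epsSL_epsSL _)
  map_mul' _ _ := Subtype.ext (epsSL_mul _ _)

theorem coe_gamma0Eps (n : ℕ) (γ : Gamma0 n) :
    ((gamma0Eps n γ : Gamma0 n) : SL(2, ℤ)) = epsSL γ := rfl

theorem gamma0Eps_entries (n : ℕ) (γ : Gamma0 n) :
    IsEpsConj (γ : SL(2, ℤ)) ((gamma0Eps n γ : Gamma0 n) : SL(2, ℤ)) :=
  isEpsConj_epsSL _

theorem gamma0Eps_gamma0Eps (n : ℕ) (γ : Gamma0 n) : gamma0Eps n (gamma0Eps n γ) = γ :=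
  Subtype.ext (epsSL_epsSL _)

/-- `x ↦ x ∘ Ad ε` preserves the cuspidal classes of `Γ₀(n)`. -/
theorem isCuspidal_comp_gamma0Eps {n : ℕ} {A : Type*} [AddCommGroup A]
    {x : Additive (Gamma0 n) →+ A} (hx : IsCuspidal x) :
    IsCuspidal (x.comp (MonoidHom.toAdditive (gamma0Eps n).toMonoidHom)) :=
  isCuspidalOn_comp_eps (σ := (gamma0Eps n).toMonoidHom) (gamma0Eps_entries n) hx

/-- **EPS for `Γ₀(n)`**, any commutative ring (`ℤ`, `ℚ`, `ZMod m`, …). -/
theorem maninPairing_gamma0Eps {n : ℕ} (hn : n ≠ 0) {R : Type u} [CommRing R]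
    {x y : Additive (Gamma0 n) →+ R} (hx : IsCuspidal x) (hy : IsCuspidal y) :
    maninPairing (Gamma0 n) (x.comp (MonoidHom.toAdditive (gamma0Eps n).toMonoidHom))
        (y.comp (MonoidHom.toAdditive (gamma0Eps n).toMonoidHom)) =
      - maninPairing (Gamma0 n) x y := by
  have := S41.H221.finiteIndex_gamma0 hn
  exact maninPairing_comp_eps (σ := (gamma0Eps n).toMonoidHom) (S41.H221.neg_one_mem_gamma0 n)
    (gamma0Eps_entries n) hx hy

end Fermat.Agent.S15.H221

end
-- ===== PACK-END S15/H221/Eps.lean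

-- ===== PACK-BEGIN S28/H386/RootList.lean
section
/-
S28 [L] (helper386): the root list of `Φ_p(X, j_p)` over a field containing a primitive
`p`-th root of unity:
`Φ_p(X, j(q^p)) = (X - j(q^{p²})) · ∏_{b < p} (X - j(ζ^b q))`.
-/



set_option autoImplicit false

noncomputable section

open ModularCurve HahnSeries Polynomial

namespace Fermat.Agent.S28.H386

section RootList

variable {p : ℕ} [NeZero p] (D : ModPolyData p) (k : Type*) [Field k]

/-- The twisted conjugates `j(ζ^b q)`, `b < p`. -/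
def twRoots (p : ℕ) (k : Type*) [Field k] (ζ : kˣ) : Multiset (LaurentSeries k) :=
  (Multiset.range p).map fun b => _root_.Fermat.Agent.S28.H386.twist (ζ ^ b) (jqModC k)

variable {k}

theorem card_twRoots (ζ : kˣ) : Multiset.card (twRoots p k ζ) = p := by
  simp [twRoots]

theorem order_of_mem_twRoots {ζ : kˣ} {r : LaurentSeries k} (hr : r ∈ twRoots p k ζ) :
    r.order = -1 := by
  obtain ⟨b, -, rfl⟩ := Multiset.mem_map.mp hr
  rw [order_twist, order_jqModC]

theorem twRoots_nodup {ζ : kˣ} (hζ : IsPrimitiveRoot ζ p) : (twRoots p k ζ).Nodup := by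
  refine Multiset.Nodup.map_on ?_ (Multiset.nodup_range p)
  intro a ha b hb hab
  have h := congrArg (fun f => f.coeff (-1)) hab
  simp only [coeff_twist_jqModC_neg_one] at h
  have h2 : (ζ ^ a)⁻¹ = (ζ ^ b)⁻¹ := Units.ext h
  exact hζ.pow_inj (Multiset.mem_range.mp ha) (Multiset.mem_range.mp hb) (inv_injective h2)

theorem twist_comp_qExpand (ξ : kˣ) (hξ : ξ ^ p = 1) :
    (_root_.Fermat.Agent.S28.H386.twist ξ).comp (qExpand k p) = qExpand k p :=
  RingHom.ext fun f => twist_qExpand ξ p hξ f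

theorem eval_cofB_map_twist (hp : 1 < p) (ξ : kˣ) (hξ : ξ ^ p = 1) :
    ((cofB D k).map (qExpand k p)).eval (_root_.Fermat.Agent.S28.H386.twist ξ (jqModC k)) = 0 := by
  have h := congrArg (_root_.Fermat.Agent.S28.H386.twist ξ) (eval_j_cofB_map D k hp)
  rw [map_zero, ← Polynomial.eval₂_at_apply, ← Polynomial.eval_map, Polynomial.map_map,
    twist_comp_qExpand ξ hξ] at h
  exact h

/-- `V_p(B') = ∏_{b < p} (X - j(ζ^b q))`. -/
theorem cofB_map_eq_prod (hp : 1 < p) {ζ : kˣ} (hζ : IsPrimitiveRoot ζ p) :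
    (cofB D k).map (qExpand k p)
      = ((twRoots p k ζ).map fun a => X - Polynomial.C a).prod := by
  set A' := (cofB D k).map (qExpand k p) with hA'
  have hmonic : A'.Monic := (cofB_monic D k).map _
  have hdeg : A'.natDegree = p := by
    rw [hA', (cofB_monic D k).natDegree_map, natDegree_cofB]
  have hle : twRoots p k ζ ≤ A'.roots := by
    rw [Multiset.le_iff_subset (twRoots_nodup hζ)]
    intro r hr
    obtain ⟨b, -, rfl⟩ := Multiset.mem_map.mp hr
    rw [Polynomial.mem_roots hmonic.ne_zero]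
    refine eval_cofB_map_twist D hp (ζ ^ b) ?_
    rw [← pow_mul, mul_comm, pow_mul, hζ.pow_eq_one, one_pow]
  have hcard : Multiset.card A'.roots ≤ Multiset.card (twRoots p k ζ) := by
    rw [card_twRoots, ← hdeg]
    exact Polynomial.card_roots' A'
  have heq : twRoots p k ζ = A'.roots := Multiset.eq_of_le_of_card_le hle hcard
  rw [heq]
  refine (Polynomial.prod_multiset_X_sub_C_of_monic_of_roots_card_eq hmonic ?_).symm
  rw [← heq, card_twRoots, hdeg]

/-- All roots of `Φ_p(X, j_p)`. -/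
def allRoots (p : ℕ) [NeZero p] (k : Type*) [Field k] (ζ : kˣ) : Multiset (LaurentSeries k) :=
  qExpand k p (jd k p) ::ₘ twRoots p k ζ

/-- The root list: `Φ_p(X, j_p) = (X - j_{p²}) ∏_{b<p} (X - j(ζ^b q))`. -/
theorem phiAt_jp_eq_prod (hp : 1 < p) {ζ : kˣ} (hζ : IsPrimitiveRoot ζ p) :
    phiAt D.Φ (jd k p) = ((allRoots p k ζ).map fun a => X - Polynomial.C a).prod := by
  rw [phiAt_jp_eq, cofB_map_eq_prod D hp hζ, allRoots, Multiset.map_cons, Multiset.prod_cons]

theorem order_of_mem_allRoots {ζ : kˣ} {r : LaurentSeries k} (hr : r ∈ allRoots p k ζ) :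
    r = qExpand k p (jd k p) ∨ r.order = -1 := by
  rcases Multiset.mem_cons.mp hr with h | h
  · exact Or.inl h
  · exact Or.inr (order_of_mem_twRoots h)

theorem order_qExpand_jd : (qExpand k p (jd k p)).order = -((p : ℤ) * p) := by
  rw [order_qExpand, order_jd]; ring

theorem allRoots_nodup (hp : 1 < p) {ζ : kˣ} (hζ : IsPrimitiveRoot ζ p) :
    (allRoots p k ζ).Nodup := by
  rw [allRoots, Multiset.nodup_cons]
  refine ⟨fun h => ?_, twRoots_nodup hζ⟩
  have h1 := order_of_mem_twRoots h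
  rw [order_qExpand_jd] at h1
  have hp' : (1 : ℤ) < p := by exact_mod_cast hp
  nlinarith

end RootList

end Fermat.Agent.S28.H386

end
end
-- ===== PACK-END S28/H386/RootList.lean

-- ===== PACK-BEGIN S15/H386/ModShape.lean
section
/-
Row S15, node GEO (helper386): the classical modular polynomial `Φ_p` has "modular shape".

For every `D : S28.ModPolyData p` (the modular polynomial of level `p`: monic of degree `p + 1`
with `Φ(j, j_p) = 0 = Φ(j_p, j)`; it exists for every prime `p`, see the `nonempty_modPolyData`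
of row S28) the polynomial `D.Φ` satisfies helper962's `IsModularShape p`:
`Φ = Y^{p+1} + c_p(X) Y^p + … + c_0(X)` with `c_0 = ± X^{p+1} + …`, `c_p = - X^p + …` and
`deg c_k ≤ p` for `0 < k < p`.

Proof: over `ℂ`, `Φ(j_p, Y) = (Y - j_{p²}) ∏_{b < p} (Y - j(ζ^b q))` (S28/H386/RootList); compare the
leading terms of the `q`-expansions of the coefficients.
-/





set_option autoImplicit false

noncomputable section

open ModularCurve HahnSeries Polynomial
open Fermat.Agent.S28 Fermat.Agent.S28.H386 Fermat.Agent.S15.H962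

namespace Fermat.Agent.S15.H386

variable {k : Type*} [Field k]

/-! ### Leading terms of the basic series -/

theorem isLead_jqModC : IsLead (jqModC k) (-1) 1 :=
  ⟨coeff_jqModC_neg_one k, fun _ hm => coeff_jqModC_of_lt k hm⟩

theorem isLead_qExpand (p : ℕ) [NeZero p] {f : LaurentSeries k} {n : ℤ} {a : k}
    (h : IsLead f n a) : IsLead (qExpand k p f) (p * n) a := by
  refine ⟨by rw [qExpand_coeff_mul]; exact h.1, fun m hm => ?_⟩
  by_cases hd : (p : ℤ) ∣ m
  · obtain ⟨c, rfl⟩ := hd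
    rw [qExpand_coeff_mul]
    have hp : (0 : ℤ) < p := by exact_mod_cast Nat.pos_of_ne_zero (NeZero.ne p)
    exact h.2 c (lt_of_mul_lt_mul_left hm hp.le)
  · exact qExpand_coeff_of_not_dvd p f hd

theorem isLead_twist (ξ : kˣ) {f : LaurentSeries k} {n : ℤ} {a : k} (h : IsLead f n a) :
    IsLead (_root_.Fermat.Agent.S28.H386.twist ξ f) n (((ξ ^ n : kˣ) : k) * a) :=
  ⟨by rw [_root_.Fermat.Agent.S28.H386.twist_coeff, h.1], fun m hm => by rw [_root_.Fermat.Agent.S28.H386.twist_coeff, h.2 m hm, mul_zero]⟩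

theorem isLead_jd (p : ℕ) [NeZero p] : IsLead (jd k p) (-(p : ℤ)) 1 := by
  have := isLead_qExpand p (isLead_jqModC (k := k))
  rwa [mul_neg, mul_one] at this

theorem isLead_qExpand_jd (p : ℕ) [NeZero p] :
    IsLead (qExpand k p (jd k p)) (-((p : ℤ) * p)) 1 := by
  have := isLead_qExpand p (isLead_jd (k := k) p)
  rwa [mul_neg] at this

theorem isLead_twist_jqModC (ξ : kˣ) : IsLead (_root_.Fermat.Agent.S28.H386.twist ξ (jqModC k)) (-1) ((ξ⁻¹ : kˣ) : k) := by
  have := isLead_twist ξ (isLead_jqModC (k := k))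
  rwa [mul_one, zpow_neg_one] at this

/-! ### Leading term of an integer polynomial in a series with a pole -/

theorem isLead_intEval {y : LaurentSeries k} {m : ℤ} (hm : 0 < m) (hy : IsLead y (-m) 1)
    (c : ℤ[X]) (d : ℕ) (hd : c.natDegree ≤ d) :
    IsLead (intEval y c) (-(m * d)) ((c.coeff d : ℤ) : k) := by
  have h1 : intEval y c =
      ∑ i ∈ Finset.range (d + 1), ((c.coeff i : ℤ) : LaurentSeries k) * y ^ i := by
    unfold intEval
    rw [Polynomial.coe_eval₂RingHom, Polynomial.eval₂_eq_sum_range' _ (Nat.lt_succ_of_le hd)]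
    simp
  have hterm : ∀ i : ℕ, IsLead (((c.coeff i : ℤ) : LaurentSeries k) * y ^ i) (-(m * i))
      ((c.coeff i : ℤ) : k) := by
    intro i
    have h2 := (isLead_intCast (k := k) (c.coeff i)).mul (hy.pow i)
    rw [one_pow, mul_one, zero_add] at h2
    have h3 : (i : ℤ) * -m = -(m * i) := by ring
    rwa [h3] at h2
  have hlow : IsLead (∑ i ∈ Finset.range d, ((c.coeff i : ℤ) : LaurentSeries k) * y ^ i)
      (-(m * d)) 0 := by
    have h2 := isLead_sum (Finset.range d)
      (fun i => ((c.coeff i : ℤ) : LaurentSeries k) * y ^ i) (-(m * d)) (fun _ => (0 : k))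
      (fun i hi => (hterm i).of_lt (by
        have hi' : (i : ℤ) < d := by exact_mod_cast Finset.mem_range.mp hi
        nlinarith))
    simpa using h2
  rw [h1, Finset.sum_range_succ]
  have h4 := hlow.add (hterm d)
  rwa [zero_add] at h4

/-! ### Coefficients of a product of linear factors with simple poles -/

theorem isLead_coeff_prod_X_sub_C (s : Multiset (LaurentSeries k))
    (hs : ∀ r ∈ s, ∃ a, IsLead r (-1) a) (i : ℕ) :
    ∃ a, IsLead (((s.map fun r => X - Polynomial.C r).prod).coeff i)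
      ((i : ℤ) - Multiset.card s) a := by
  induction s using Multiset.induction_on generalizing i with
  | empty =>
    rw [Multiset.map_zero, Multiset.prod_zero, Multiset.card_zero, Nat.cast_zero, sub_zero,
      Polynomial.coeff_one]
    rcases Nat.eq_zero_or_pos i with rfl | hi
    · rw [if_pos rfl, Nat.cast_zero]
      exact ⟨1, isLead_one⟩
    · rw [if_neg hi.ne']
      exact ⟨0, isLead_zero _⟩
  | cons r s ih =>
    obtain ⟨a, ha⟩ := hs r (Multiset.mem_cons_self r s)
    have ih' := ih fun t ht => hs t (Multiset.mem_cons_of_mem ht)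
    rw [Multiset.map_cons, Multiset.prod_cons, Multiset.card_cons]
    set Q := (s.map fun r => X - Polynomial.C r).prod with hQ
    rcases Nat.eq_zero_or_pos i with rfl | hi
    · obtain ⟨a₂, h₂⟩ := ih' 0
      have h0 : ((X - Polynomial.C r) * Q).coeff 0 = -r * Q.coeff 0 := by
        rw [Polynomial.mul_coeff_zero, Polynomial.coeff_sub, Polynomial.coeff_X_zero,
          Polynomial.coeff_C_zero, zero_sub]
      rw [h0]
      refine ⟨-a * a₂, ?_⟩
      have h3 := ha.neg.mul h₂
      have h4 : (-1 : ℤ) + (((0 : ℕ) : ℤ) - (Multiset.card s : ℤ)) =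
          ((0 : ℕ) : ℤ) - ((Multiset.card s + 1 : ℕ) : ℤ) := by
        push_cast; ring
      rwa [h4] at h3
    · obtain ⟨j, rfl⟩ : ∃ j, i = j + 1 := ⟨i - 1, by omega⟩
      obtain ⟨a₁, h₁⟩ := ih' j
      obtain ⟨a₂, h₂⟩ := ih' (j + 1)
      have h0 : ((X - Polynomial.C r) * Q).coeff (j + 1) = Q.coeff j - r * Q.coeff (j + 1) := by
        rw [sub_mul, Polynomial.coeff_sub, Polynomial.coeff_X_mul, Polynomial.coeff_C_mul]
      rw [h0]
      refine ⟨a₁ - a * a₂, ?_⟩
      have h3 := ha.mul h₂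
      have h4 : (-1 : ℤ) + (((j + 1 : ℕ) : ℤ) - (Multiset.card s : ℤ)) =
          (j : ℤ) - (Multiset.card s : ℤ) := by
        push_cast; ring
      rw [h4] at h3
      have h5 := h₁.sub h3
      have h6 : (j : ℤ) - (Multiset.card s : ℤ) =
          ((j + 1 : ℕ) : ℤ) - ((Multiset.card s + 1 : ℕ) : ℤ) := by
        push_cast; ring
      rwa [h6] at h5

/-! ### The coefficients of `Φ_p(j_p, Y)` -/

section Main

variable {p : ℕ} [NeZero p] (D : ModPolyData p)

theorem coeff_phiAt (y : LaurentSeries k) (i : ℕ) :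
    (phiAt D.Φ y).coeff i = intEval y (D.Φ.coeff i) :=
  Polynomial.coeff_map _ _

/-- `Q = ∏_{b < p} (Y - j(ζ^b q))`. -/
def twPoly (p : ℕ) (k : Type*) [Field k] (ζ : kˣ) : (LaurentSeries k)[X] :=
  ((twRoots p k ζ).map fun a => X - Polynomial.C a).prod

theorem phiAt_jp_eq_mul (hp : 1 < p) {ζ : kˣ} (hζ : IsPrimitiveRoot ζ p) :
    phiAt D.Φ (jd k p) = (X - Polynomial.C (qExpand k p (jd k p))) * twPoly p k ζ := by
  rw [phiAt_jp_eq_prod D hp hζ, allRoots, Multiset.map_cons, Multiset.prod_cons, twPoly]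

theorem twPoly_monic (ζ : kˣ) : (twPoly p k ζ).Monic :=
  Polynomial.monic_multiset_prod_of_monic _ _ fun a _ => Polynomial.monic_X_sub_C a

theorem natDegree_twPoly (ζ : kˣ) : (twPoly p k ζ).natDegree = p := by
  rw [twPoly, Polynomial.natDegree_multiset_prod_of_monic _
    (by
      intro f hf
      obtain ⟨a, -, rfl⟩ := Multiset.mem_map.mp hf
      exact Polynomial.monic_X_sub_C a)]
  rw [Multiset.map_map]
  have : (Polynomial.natDegree ∘ fun a : LaurentSeries k => X - Polynomial.C a) = fun _ => 1 := by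
    funext a
    exact Polynomial.natDegree_X_sub_C a
  rw [this, Multiset.map_const', Multiset.sum_replicate, card_twRoots, smul_eq_mul, mul_one]

theorem coeff_twPoly_self (ζ : kˣ) : (twPoly p k ζ).coeff p = 1 := by
  have h := twPoly_monic (p := p) (k := k) ζ
  rwa [Polynomial.Monic, Polynomial.leadingCoeff, natDegree_twPoly] at h

theorem isLead_coeff_twPoly (ζ : kˣ) (i : ℕ) :
    ∃ a, IsLead ((twPoly p k ζ).coeff i) ((i : ℤ) - p) a := by
  have h := isLead_coeff_prod_X_sub_C (twRoots p k ζ) (fun r hr => by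
    obtain ⟨b, -, rfl⟩ := Multiset.mem_map.mp hr
    exact ⟨_, isLead_twist_jqModC (ζ ^ b)⟩) i
  rwa [card_twRoots] at h

/-- The constant coefficient of `Q`. -/
theorem isLead_coeff_zero_twPoly {ζ : kˣ} (hζ : ζ ^ p = 1) :
    ∃ u : k, u ^ (2 * p) = 1 ∧ IsLead ((twPoly p k ζ).coeff 0) (-(p : ℤ)) u := by
  have h0 : (twPoly p k ζ).coeff 0 =
      ((Multiset.range p).map fun b => -_root_.Fermat.Agent.S28.H386.twist (ζ ^ b) (jqModC k)).prod := by
    rw [twPoly, Polynomial.coeff_zero_multiset_prod, twRoots, Multiset.map_map, Multiset.map_map]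
    congr 1
    refine Multiset.map_congr rfl fun b _ => ?_
    simp
  have h1 := isLead_multiset_prod (Multiset.range p) (fun b => -_root_.Fermat.Agent.S28.H386.twist (ζ ^ b) (jqModC k))
    (fun _ => (-1 : ℤ)) (fun b => -(((ζ ^ b)⁻¹ : kˣ) : k))
    (fun b _ => (isLead_twist_jqModC (ζ ^ b)).neg)
  have h2 : ((Multiset.range p).map fun _ : ℕ => (-1 : ℤ)).sum = -(p : ℤ) := by
    rw [Multiset.map_const', Multiset.sum_replicate, Multiset.card_range]
    simp
  rw [h2, ← h0] at h1
  refine ⟨_, ?_, h1⟩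
  rw [← Multiset.prod_map_pow]
  refine Multiset.prod_eq_one fun x hx => ?_
  obtain ⟨b, -, rfl⟩ := Multiset.mem_map.mp hx
  have h3 : (ζ ^ b)⁻¹ ^ (2 * p) = 1 := by
    rw [inv_pow, ← pow_mul, show b * (2 * p) = p * (b * 2) by ring, pow_mul, hζ, one_pow,
      inv_one]
  rw [neg_pow, pow_mul, neg_one_sq, one_pow, one_mul, ← Units.val_pow_eq_pow_val, h3,
    Units.val_one]

/-- The coefficients of `Φ_p(j_p, Y)`: coefficient of `Y^{j+1}`. -/
theorem isLead_coeff_phiAt_succ (hp : 1 < p) {ζ : kˣ} (hζ : IsPrimitiveRoot ζ p) (j : ℕ) :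
    ∃ a₂, IsLead ((twPoly p k ζ).coeff (j + 1)) (((j + 1 : ℕ) : ℤ) - p) a₂ ∧
      IsLead ((phiAt D.Φ (jd k p)).coeff (j + 1)) (((j + 1 : ℕ) : ℤ) - p - (p : ℤ) * p) (-a₂) := by
  obtain ⟨a₁, h₁⟩ := isLead_coeff_twPoly (p := p) (k := k) ζ j
  obtain ⟨a₂, h₂⟩ := isLead_coeff_twPoly (p := p) (k := k) ζ (j + 1)
  refine ⟨a₂, h₂, ?_⟩
  have h0 : (phiAt D.Φ (jd k p)).coeff (j + 1) =
      (twPoly p k ζ).coeff j - qExpand k p (jd k p) * (twPoly p k ζ).coeff (j + 1) := by
    rw [phiAt_jp_eq_mul D hp hζ, sub_mul, Polynomial.coeff_sub, Polynomial.coeff_X_mul,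
      Polynomial.coeff_C_mul]
  rw [h0]
  have hp' : (1 : ℤ) < p := by exact_mod_cast hp
  have h3 : IsLead ((twPoly p k ζ).coeff j) (((j + 1 : ℕ) : ℤ) - p - (p : ℤ) * p) 0 :=
    h₁.of_lt (by push_cast; nlinarith)
  have h4 := (isLead_qExpand_jd (k := k) p).mul h₂
  have h5 : -((p : ℤ) * p) + (((j + 1 : ℕ) : ℤ) - p) = ((j + 1 : ℕ) : ℤ) - p - (p : ℤ) * p := by
    ring
  rw [h5, one_mul] at h4
  have h6 := h3.sub h4
  rwa [zero_sub] at h6

/-- The coefficient of `Y^p` of `Φ_p(j_p, Y)` is `-q^{-p²} + …`. -/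
theorem isLead_coeff_phiAt_top (hp : 1 < p) {ζ : kˣ} (hζ : IsPrimitiveRoot ζ p) :
    IsLead ((phiAt D.Φ (jd k p)).coeff p) (-((p : ℤ) * p)) (-1) := by
  obtain ⟨j, hj⟩ : ∃ j, p = j + 1 := ⟨p - 1, by omega⟩
  obtain ⟨a₂, h₂, h⟩ := isLead_coeff_phiAt_succ (k := k) D hp hζ j
  rw [← hj] at h h₂
  rw [sub_self] at h₂
  rw [sub_self, zero_sub] at h
  have h1 : a₂ = 1 := by
    rw [← h₂.coeff_eq, coeff_twPoly_self]
    exact isLead_one.coeff_eq
  rwa [h1] at h

/-- The constant coefficient of `Φ_p(j_p, Y)` is `u q^{-p²-p} + …` with `u` a root of unity. -/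
theorem isLead_coeff_phiAt_zero (hp : 1 < p) {ζ : kˣ} (hζ : IsPrimitiveRoot ζ p) :
    ∃ u : k, u ^ (2 * p) = 1 ∧
      IsLead ((phiAt D.Φ (jd k p)).coeff 0) (-((p : ℤ) * p) - p) u := by
  obtain ⟨u, hu, h⟩ := isLead_coeff_zero_twPoly (p := p) (k := k) hζ.pow_eq_one
  have h0 : (phiAt D.Φ (jd k p)).coeff 0 =
      -qExpand k p (jd k p) * (twPoly p k ζ).coeff 0 := by
    rw [phiAt_jp_eq_mul D hp hζ, Polynomial.mul_coeff_zero, Polynomial.coeff_sub,
      Polynomial.coeff_X_zero, Polynomial.coeff_C_zero, zero_sub]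
  rw [h0]
  refine ⟨-1 * u, ?_, ?_⟩
  · rw [mul_pow, hu, mul_one, pow_mul, neg_one_sq, one_pow]
  · have h1 := (isLead_qExpand_jd (k := k) p).neg.mul h
    have h2 : -((p : ℤ) * p) + -(p : ℤ) = -((p : ℤ) * p) - p := by ring
    rwa [h2] at h1

end Main

/-! ### Modular shape -/

section Shape

variable {p : ℕ} [NeZero p] (D : ModPolyData p)

/-- Comparison: the degree and the leading coefficient of an integer polynomial `c` from the
leading term of `c(j_p)`. -/
theorem natDegree_eq_of_isLead [CharZero k] {c : ℤ[X]} {n : ℕ} {u : k} (hu : u ≠ 0)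
    (h : IsLead (intEval (jd k p) c) (-((p : ℤ) * n)) u) :
    c.natDegree = n ∧ ((c.leadingCoeff : ℤ) : k) = u := by
  have hp : (0 : ℤ) < p := by exact_mod_cast Nat.pos_of_ne_zero (NeZero.ne p)
  have hc : c ≠ 0 := by
    rintro rfl
    rw [map_zero] at h
    exact hu (h.coeff_eq.symm.trans rfl)
  have h1 := isLead_intEval (k := k) hp (isLead_jd p) c c.natDegree le_rfl
  have hlc : ((c.coeff c.natDegree : ℤ) : k) ≠ 0 := by
    rw [Polynomial.coeff_natDegree]
    exact Int.cast_ne_zero.mpr (Polynomial.leadingCoeff_ne_zero.mpr hc)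
  obtain ⟨h2, h3⟩ := h1.unique h hlc hu
  refine ⟨?_, ?_⟩
  · have h4 : (p : ℤ) * c.natDegree = (p : ℤ) * n := neg_injective h2
    exact_mod_cast mul_left_cancel₀ hp.ne' h4
  · rw [← Polynomial.coeff_natDegree]
    exact h3

/-- Comparison: a bound for the degree of an integer polynomial `c` from the order of
`c(j_p)`. -/
theorem natDegree_le_of_isLead [CharZero k] {c : ℤ[X]} {n : ℕ} {m : ℤ} {a : k}
    (h : IsLead (intEval (jd k p) c) m a) (hm : -((p : ℤ) * (n + 1)) < m) :
    c.natDegree ≤ n := by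
  have hp : (0 : ℤ) < p := by exact_mod_cast Nat.pos_of_ne_zero (NeZero.ne p)
  by_contra hcon
  have hd : n + 1 ≤ c.natDegree := by omega
  have hc : c ≠ 0 := by
    rintro rfl
    simp at hd
  have h1 := isLead_intEval (k := k) hp (isLead_jd p) c c.natDegree le_rfl
  have hlc : ((c.coeff c.natDegree : ℤ) : k) ≠ 0 := by
    rw [Polynomial.coeff_natDegree]
    exact Int.cast_ne_zero.mpr (Polynomial.leadingCoeff_ne_zero.mpr hc)
  have h2 := h1.le_of_ne_zero hlc h
  have hd' : ((n : ℤ) + 1) ≤ c.natDegree := by exact_mod_cast hd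
  nlinarith

/-- **The modular polynomial has modular shape** (version over a field of characteristic zero
containing a primitive `p`-th root of unity). -/
theorem isModularShape_of_primitiveRoot [CharZero k] (hp : 1 < p) {ζ : kˣ}
    (hζ : IsPrimitiveRoot ζ p) : IsModularShape p D.Φ := by
  have hp0 : (0 : ℤ) < p := by exact_mod_cast Nat.pos_of_ne_zero (NeZero.ne p)
  -- constant coefficient
  obtain ⟨u, hu, h0⟩ := isLead_coeff_phiAt_zero (k := k) D hp hζ
  have hu0 : u ≠ 0 := by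
    rintro rfl
    rw [zero_pow (by omega)] at hu
    exact zero_ne_one hu
  rw [coeff_phiAt] at h0
  have h0' : IsLead (intEval (jd k p) (D.Φ.coeff 0)) (-((p : ℤ) * ((p + 1 : ℕ) : ℤ))) u := by
    have : -((p : ℤ) * ((p + 1 : ℕ) : ℤ)) = -((p : ℤ) * p) - p := by push_cast; ring
    rwa [this]
  obtain ⟨hd0, hl0⟩ := natDegree_eq_of_isLead hu0 h0'
  -- top coefficient
  have ht := isLead_coeff_phiAt_top (k := k) D hp hζ
  rw [coeff_phiAt] at ht
  obtain ⟨hdt, hlt⟩ := natDegree_eq_of_isLead (neg_ne_zero.mpr one_ne_zero) ht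
  refine ⟨D.natDegree_eq, D.monic, hd0, ?_, hdt, ?_, ?_⟩
  · have h1 : ((D.Φ.coeff 0).leadingCoeff) ^ (2 * p) = 1 := by
      have : ((((D.Φ.coeff 0).leadingCoeff) ^ (2 * p) : ℤ) : k) = ((1 : ℤ) : k) := by
        rw [Int.cast_pow, hl0, hu, Int.cast_one]
      exact Int.cast_injective this
    exact IsUnit.of_pow_eq_one h1 (by omega)
  · have h1 : (D.Φ.coeff p).leadingCoeff = -1 := by
      have : (((D.Φ.coeff p).leadingCoeff : ℤ) : k) = ((-1 : ℤ) : k) := by
        rw [hlt, Int.cast_neg, Int.cast_one]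
      exact Int.cast_injective this
    rw [h1]
    exact isUnit_one.neg
  · intro i hi0 hip
    obtain ⟨j, rfl⟩ : ∃ j, i = j + 1 := ⟨i - 1, by omega⟩
    obtain ⟨a₂, -, h⟩ := isLead_coeff_phiAt_succ (k := k) D hp hζ j
    rw [coeff_phiAt] at h
    refine natDegree_le_of_isLead h ?_
    push_cast
    nlinarith

/-- **The modular polynomial of level `p` has modular shape.** -/
theorem isModularShape_of_modPolyData (hp : 1 < p) : IsModularShape p D.Φ := by
  have hp0 : p ≠ 0 := NeZero.ne p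
  have hζ := Complex.isPrimitiveRoot_exp p hp0
  have hu : IsUnit (Complex.exp (2 * Real.pi * Complex.I / p)) := hζ.isUnit hp0
  obtain ⟨ζ, hζ'⟩ := hu
  have hζ'' : IsPrimitiveRoot ζ p := by
    rw [← IsPrimitiveRoot.coe_units_iff, hζ']
    exact hζ
  exact isModularShape_of_primitiveRoot (k := ℂ) D hp hζ''

end Shape

end Fermat.Agent.S15.H386

end
end
-- ===== PACK-END S15/H386/ModShape.lean

-- ===== PACK-BEGIN S15/H215/LatticeModular.lean
section





/-!
# S15, piece MOD-B5 (helper215): lattices of index `p` give points of the plane model of `X₀(p)`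

`latticeModularPair : LatticeModularPairStatement` (exact type of `H542/ModBSpec.lean`).

* `exists_tau_h215` : if `Λ' = Λ + ℤ z₀` has index `p` over `Λ`, then `Λ = c (ℤ + ℤ τ)` and
  `Λ' = (c/p) (ℤ + ℤ p τ)` for some `τ ∈ ℍ`, `c ≠ 0`;
* `isModularPair_jFun_h215` : `(j(τ), j(p τ))` satisfies every polynomial relation over `ℚ` between
  the `q`-series `j(q)`, `j(q^p)` (S28 `HasTExp` calculus).
-/

set_option autoImplicit false

noncomputable section

open UpperHalfPlane ModularForm EisensteinSeries ModularCurve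

namespace Fermat.Agent.S15.H215

open Fermat.Agent.S15.H542
open Fermat.Agent.S20.T2h423 (pairOf scalePair)
open Fermat.Agent.S28.H565 (HasTExp hasTExp_jFun)
open Fermat.Agent.S28.H589 (scaleH hasTExp_comp_scaleH)

/-! ## Evaluation of polynomial relations -/

/-- Naturality of `MvPolynomial.aeval` at a pair, for ring homomorphisms of `ℚ`-algebras. -/
theorem aeval_pair_map_h215 {A B : Type*} [CommRing A] [CommRing B] [Algebra ℚ A] [Algebra ℚ B]
    (f : A →+* B) (a a' : A) (G : MvPolynomial (Fin 2) ℚ) :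
    MvPolynomial.aeval ![f a, f a'] G = f (MvPolynomial.aeval ![a, a'] G) := by
  induction G using MvPolynomial.induction_on with
  | C r => simp
  | add p q hp hq => simp only [map_add, hp, hq]
  | mul_X p i hp =>
    simp only [map_mul, hp, MvPolynomial.aeval_X]
    congr 1
    fin_cases i <;> simp

theorem coeffEmb_jq_h215 : coeffEmb ℂ jq = jqModC ℂ := by
  rw [← jqModC_rat]
  exact map_jqModC (algebraMap ℚ ℂ)

theorem coeffEmb_qExpand_h215 (n : ℕ) [NeZero n] (x : LaurentSeries ℚ) :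
    coeffEmb ℂ (qExpand ℚ n x) = qExpand ℂ n (coeffEmb ℂ x) := by
  ext k
  by_cases hk : (n : ℤ) ∣ k
  · obtain ⟨m, rfl⟩ := hk
    rw [coeffEmb_coeff, qExpand_coeff_mul, qExpand_coeff_mul, coeffEmb_coeff]
  · rw [coeffEmb_coeff, qExpand_coeff_of_not_dvd n _ hk, qExpand_coeff_of_not_dvd n _ hk,
      map_zero]

/-- `HasTExp` is compatible with polynomial expressions in two functions. -/
theorem hasTExp_aeval_pair_h215 {a b : ℍ → ℂ} {α β : LaurentSeries ℂ}
    (ha : HasTExp 1 a α) (hb : HasTExp 1 b β) (G : MvPolynomial (Fin 2) ℚ) :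
    HasTExp 1 (fun τ => MvPolynomial.aeval ![a τ, b τ] G) (MvPolynomial.aeval ![α, β] G) := by
  induction G using MvPolynomial.induction_on with
  | C r =>
    have h1 := HasTExp.const (h := 1) (algebraMap ℚ ℂ r)
    have h2 : (MvPolynomial.aeval ![α, β]) (MvPolynomial.C r) = HahnSeries.C (algebraMap ℚ ℂ r) := by
      rw [MvPolynomial.aeval_C, eq_ratCast (algebraMap ℚ (LaurentSeries ℂ)) r,
        eq_ratCast (algebraMap ℚ ℂ) r, map_ratCast]
    rw [h2]
    exact h1.congr fun τ => by simp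
  | add p q hp hq =>
    rw [map_add]
    exact (hp.add hq).congr fun τ => by simp
  | mul_X p i hp =>
    rw [map_mul, MvPolynomial.aeval_X]
    fin_cases i
    · exact (hp.mul ha).congr fun τ => by simp
    · exact (hp.mul hb).congr fun τ => by simp

/-- `(j(τ), j(p τ))` is a point of the plane model of `X₀(p)`. -/
theorem isModularPair_jFun_h215 (p : ℕ) [NeZero p] (hp : 0 < p) (τ : ℍ) :
    IsModularPair p (Fermat.Agent.S28.H565.jFun τ)
      (Fermat.Agent.S28.H565.jFun (scaleH p hp τ)) := by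
  intro G hG
  have h1 : MvPolynomial.aeval ![jqModC ℂ, qExpand ℂ p (jqModC ℂ)] G = 0 := by
    have := aeval_pair_map_h215 (coeffEmb ℂ) jq (qExpand ℚ p jq) G
    rw [hG, map_zero, coeffEmb_qExpand_h215, coeffEmb_jq_h215] at this
    exact this
  have h2 := hasTExp_aeval_pair_h215 hasTExp_jFun
    (hasTExp_comp_scaleH p hp hasTExp_jFun) G
  rw [h1] at h2
  have h3 := h2 τ
  have h4 : HasSum (fun n : ℤ => (0 : LaurentSeries ℂ).coeff n * Function.Periodic.qParam 1 τ ^ n) 0 := by
    simpa using (hasSum_zero : HasSum (fun _ : ℤ => (0 : ℂ)) 0)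
  exact h3.unique h4

/-! ## Aligning the bases -/

/-- Abstract basis alignment: if `p z₀ = a ω₁ + b ω₂` with `(b, p) = 1`, there is `e` with
`ℤω₁ + ℤω₂ = ℤω₁ + ℤe` and `ℤω₁ + ℤω₂ + ℤz₀ = ℤω₁ + ℤ(e/p)`. -/
theorem exists_aligned_basis_h215 (ω₁ ω₂ z₀ : ℂ) (indep : LinearIndependent ℝ ![ω₁, ω₂]) (p : ℕ)
    (hp0 : p ≠ 0) (a b : ℤ) (h : (p : ℂ) * z₀ = a * ω₁ + b * ω₂) (hb : IsCoprime b (p : ℤ)) :
    ∃ e : ℂ, LinearIndependent ℝ ![ω₁, e] ∧
      (∀ z : ℂ, z ∈ Submodule.span ℤ {ω₁, ω₂} ↔ z ∈ Submodule.span ℤ {ω₁, e}) ∧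
      ∀ z : ℂ, (∃ k : ℤ, z - k * z₀ ∈ Submodule.span ℤ {ω₁, ω₂}) ↔
        z ∈ Submodule.span ℤ {ω₁, e / p} := by
  obtain ⟨u, v, huv⟩ := hb
  have huvC : (u : ℂ) * b + v * p = 1 := by exact_mod_cast congrArg (Int.cast : ℤ → ℂ) huv
  have hpC : (p : ℂ) ≠ 0 := by exact_mod_cast hp0
  set e : ℂ := u * a * ω₁ + ω₂ with he
  have hw : e / p = u * z₀ + v * ω₂ := by
    rw [he]
    field_simp
    linear_combination (-(u : ℂ)) * h - ω₂ * huvC
  have hz₀ : z₀ = b * (e / p) + v * a * ω₁ := by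
    rw [hw]
    linear_combination (-z₀) * huvC + (v : ℂ) * h
  refine ⟨e, ?_, ?_, ?_⟩
  · rw [LinearIndependent.pair_iff] at indep ⊢
    intro s t hst
    have h1 : (s + t * (u * a) : ℝ) • ω₁ + t • ω₂ = 0 := by
      simp only [Complex.real_smul] at hst ⊢
      rw [he] at hst
      push_cast
      linear_combination hst
    obtain ⟨h2, h3⟩ := indep _ _ h1
    refine ⟨?_, h3⟩
    rw [h3] at h2
    simpa using h2
  · intro z
    simp only [Submodule.mem_span_pair, zsmul_eq_mul]
    constructor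
    · rintro ⟨m, n, rfl⟩
      exact ⟨m - n * u * a, n, by rw [he]; push_cast; ring⟩
    · rintro ⟨m, n, rfl⟩
      exact ⟨m + n * u * a, n, by rw [he]; push_cast; ring⟩
  · intro z
    simp only [Submodule.mem_span_pair, zsmul_eq_mul]
    constructor
    · rintro ⟨k, m, n, hmn⟩
      refine ⟨k * v * a + m - n * u * a, k * b + n * p, ?_⟩
      have hz : z = k * z₀ + (m * ω₁ + n * ω₂) := by linear_combination -hmn
      have hω₂ : ω₂ = p * (e / p) - u * a * ω₁ := by
        rw [mul_div_cancel₀ _ hpC, he]; ring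
      rw [hz]
      push_cast
      calc (↑k * ↑v * ↑a + ↑m - ↑n * ↑u * ↑a) * ω₁ + (↑k * ↑b + ↑n * ↑p) * (e / p)
          = k * (b * (e / p) + v * a * ω₁) + (m * ω₁ + n * (p * (e / p) - u * a * ω₁)) := by
            ring
        _ = k * z₀ + (m * ω₁ + n * ω₂) := by rw [← hz₀, ← hω₂]
    · rintro ⟨m, n, rfl⟩
      refine ⟨n * u, m, n * v, ?_⟩
      rw [hw]; push_cast; ring

/-- From an aligned basis to `τ`. -/
theorem exists_tau_of_span_h215 (ω e : ℂ) (hind : LinearIndependent ℝ ![ω, e]) (p : ℕ)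
    (hp : 0 < p) :
    ∃ (τ : ℍ) (c : ℂ) (hc : c ≠ 0) (hc' : c / p ≠ 0),
      Submodule.span ℤ {ω, e} = (scalePair c hc (pairOf τ)).lattice ∧
      Submodule.span ℤ {ω, e / p} =
        (scalePair (c / p) hc' (pairOf (scaleH p hp τ))).lattice := by
  have hpC : (p : ℂ) ≠ 0 := by exact_mod_cast hp.ne'
  rw [LinearIndependent.pair_iff] at hind
  have he : e ≠ 0 := by
    intro h
    have := hind 0 1 (by simp [h])
    exact one_ne_zero this.2
  have hep : e / p ≠ 0 := div_ne_zero he hpC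
  have him : (ω / e).im ≠ 0 := by
    intro h
    have ht : ω / e = (((ω / e).re : ℝ) : ℂ) := by
      apply Complex.ext <;> simp [h]
    have h2 : (1 : ℝ) • ω + (-(ω / e).re) • e = 0 := by
      simp only [Complex.real_smul]
      push_cast
      rw [← ht]
      field_simp
      ring
    exact one_ne_zero (hind _ _ h2).1
  have key : ∀ t : ℂ, (t = ω / e ∨ t = -(ω / e)) → ∀ ht : 0 < t.im,
      Submodule.span ℤ {ω, e} = (scalePair e he (pairOf (UpperHalfPlane.mk t ht))).lattice ∧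
      Submodule.span ℤ {ω, e / p} =
        (scalePair (e / p) hep (pairOf (scaleH p hp (UpperHalfPlane.mk t ht)))).lattice := by
    intro t htω ht
    constructor
    · show Submodule.span ℤ {ω, e} = Submodule.span ℤ {e * 1, e * t}
      rw [mul_one]
      ext z
      simp only [Submodule.mem_span_pair, zsmul_eq_mul]
      rcases htω with rfl | rfl
      · have e2 : e * (ω / e) = ω := by field_simp
        rw [e2]
        constructor
        · rintro ⟨a, b, rfl⟩; exact ⟨b, a, by ring⟩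
        · rintro ⟨a, b, rfl⟩; exact ⟨b, a, by ring⟩
      · have e2 : e * (-(ω / e)) = -ω := by field_simp
        rw [e2]
        constructor
        · rintro ⟨a, b, rfl⟩; exact ⟨b, -a, by push_cast; ring⟩
        · rintro ⟨a, b, rfl⟩; exact ⟨-b, a, by push_cast; ring⟩
    · show Submodule.span ℤ {ω, e / p} = Submodule.span ℤ {e / p * 1, e / p * ((p : ℂ) * t)}
      rw [mul_one]
      ext z
      simp only [Submodule.mem_span_pair, zsmul_eq_mul]
      rcases htω with rfl | rfl
      · have e2 : e / p * ((p : ℂ) * (ω / e)) = ω := by field_simp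
        rw [e2]
        constructor
        · rintro ⟨a, b, rfl⟩; exact ⟨b, a, by ring⟩
        · rintro ⟨a, b, rfl⟩; exact ⟨b, a, by ring⟩
      · have e2 : e / p * ((p : ℂ) * (-(ω / e))) = -ω := by field_simp
        rw [e2]
        constructor
        · rintro ⟨a, b, rfl⟩; exact ⟨b, -a, by push_cast; ring⟩
        · rintro ⟨a, b, rfl⟩; exact ⟨-b, a, by push_cast; ring⟩
  rcases lt_or_gt_of_ne him with hneg | hpos
  · have hpos' : 0 < (-(ω / e)).im := by simpa using hneg
    exact ⟨UpperHalfPlane.mk _ hpos', e, he, hep, key _ (Or.inr rfl) hpos'⟩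
  · exact ⟨UpperHalfPlane.mk _ hpos, e, he, hep, key _ (Or.inl rfl) hpos⟩

/-- If `Λ' = Λ + ℤ z₀` has index `p` over `Λ`, then `Λ = c (ℤ + ℤ τ)`, `Λ' = (c/p) (ℤ + ℤ p τ)`. -/
theorem exists_tau_h215 {L L' : PeriodPair} {z₀ : ℂ} {p : ℕ} (hp : p.Prime)
    (h0 : z₀ ∉ L.lattice) (hpz : (p : ℂ) * z₀ ∈ L.lattice) (hL' : IsSuperLattice L L' z₀) :
    ∃ (τ : ℍ) (c : ℂ) (hc : c ≠ 0) (hc' : c / p ≠ 0),
      L.lattice = (scalePair c hc (pairOf τ)).lattice ∧
      L'.lattice = (scalePair (c / p) hc' (pairOf (scaleH p hp.pos τ))).lattice := by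
  obtain ⟨a, b, hab⟩ := PeriodPair.mem_lattice.mp hpz
  have hLspan : L.lattice = Submodule.span ℤ {L.ω₁, L.ω₂} := rfl
  by_cases hb : (p : ℤ) ∣ b
  · have ha : ¬ (p : ℤ) ∣ a := by
      rintro ⟨a', rfl⟩
      obtain ⟨b', rfl⟩ := hb
      apply h0
      rw [PeriodPair.mem_lattice]
      refine ⟨a', b', ?_⟩
      have hpC : (p : ℂ) ≠ 0 := by exact_mod_cast hp.ne_zero
      apply mul_left_cancel₀ hpC
      rw [← hab]; push_cast; ring
    have hcop : IsCoprime a (p : ℤ) :=
      ((Nat.prime_iff_prime_int.mp hp).coprime_iff_not_dvd.mpr ha).symm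
    have hindep : LinearIndependent ℝ ![L.ω₂, L.ω₁] := by
      have h := L.indep
      rw [LinearIndependent.pair_iff] at h ⊢
      intro s t hst
      have := h t s (by rw [← hst]; ring)
      exact ⟨this.2, this.1⟩
    obtain ⟨e, hind, hspan1, hspan2⟩ := exists_aligned_basis_h215 L.ω₂ L.ω₁ z₀ hindep p
      hp.ne_zero b a (by rw [← hab]; ring) hcop
    obtain ⟨τ, c, hc, hc', h1, h2⟩ := exists_tau_of_span_h215 L.ω₂ e hind p hp.pos
    refine ⟨τ, c, hc, hc', ?_, ?_⟩
    · rw [← h1]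
      ext z
      rw [hLspan, Set.pair_comm L.ω₁ L.ω₂]
      exact hspan1 z
    · rw [← h2]
      ext z
      rw [hL' z, ← hspan2 z, hLspan, Set.pair_comm L.ω₁ L.ω₂]
  · have hcop : IsCoprime b (p : ℤ) :=
      ((Nat.prime_iff_prime_int.mp hp).coprime_iff_not_dvd.mpr hb).symm
    obtain ⟨e, hind, hspan1, hspan2⟩ := exists_aligned_basis_h215 L.ω₁ L.ω₂ z₀ L.indep p
      hp.ne_zero a b hab.symm hcop
    obtain ⟨τ, c, hc, hc', h1, h2⟩ := exists_tau_of_span_h215 L.ω₁ e hind p hp.pos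
    refine ⟨τ, c, hc, hc', ?_, ?_⟩
    · rw [← h1]
      ext z
      rw [hLspan]
      exact hspan1 z
    · rw [← h2]
      ext z
      rw [hL' z, ← hspan2 z, hLspan]

/-! ## B5 -/

/-- **B5.**  Lattices of index `p` give points of the plane model of `X₀(p)`. -/
theorem latticeModularPair : LatticeModularPairStatement := by
  intro p _ hp L L' z₀ h0 hpz hL'
  refine ⟨disc_ne_zero_h215 L, disc_ne_zero_h215 L', ?_⟩
  obtain ⟨τ, c, hc, hc', h1, h2⟩ := exists_tau_h215 hp h0 hpz hL'
  have hj1 : latticeJ L = Fermat.Agent.S28.H565.jFun τ := by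
    rw [latticeJ_congr_h215 h1, latticeJ_scalePair_h215, latticeJ_pairOf_h215]
    rfl
  have hj2 : latticeJ L' = Fermat.Agent.S28.H565.jFun (scaleH p hp.pos τ) := by
    rw [latticeJ_congr_h215 h2, latticeJ_scalePair_h215, latticeJ_pairOf_h215]
    rfl
  rw [hj1, hj2]
  exact isModularPair_jFun_h215 p hp.pos τ

end Fermat.Agent.S15.H215

end
end
-- ===== PACK-END S15/H215/LatticeModular.lean

-- ===== PACK-BEGIN S13/H365/NodeXY.lean
section



/-!
# The component map on coordinates (any residue characteristic)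

We reuse the component group `Comp.CompGroup v a = Γ₀ˣ ⧸ ⟨v(a)²⟩` of the landed `S05` files.
-/

set_option autoImplicit false

namespace Fermat.Agent.S13.H365

open Fermat.Agent.S05 (Comp.CompGroup Comp.cls Comp.toU)
open Fermat.Agent.S05.Comp (cls cls_mul cls_alpha_sq cls_alpha_mul_self cls_alpha_inv CompGroup)

variable {K : Type*} [Field K] {Γ₀ : Type*} [LinearOrderedCommGroupWithZero Γ₀]

variable (v : Valuation K Γ₀)

/-- The component of a point with coordinates `(x, y)` on `(y - γ₁ x)(y - γ₂ x) = x³ + a x`,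
relative to the branch `y ≡ γ₁ x`. -/
noncomputable def compN (a γ₁ : K) (x y : K) : CompGroup v a :=
  if 1 ≤ v x then 1
  else if v x ≤ v a then cls v a (v a)
  else if v (y - γ₁ * x) < v x then cls v a (v x)
  else (cls v a (v x))⁻¹

variable {v}
variable {a γ₁ γ₂ x₁ y₁ x₂ y₂ x₃ y₃ l n : K}

lemma compN_of_Z {x y : K} (h : 1 ≤ v x) : compN v a γ₁ x y = 1 := by
  simp [compN, h]

lemma compN_of_M {x y : K} (ha : v a < 1) (h : v x ≤ v a) :
    compN v a γ₁ x y = cls v a (v a) := by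
  have : ¬ 1 ≤ v x := not_le.mpr (h.trans_lt ha)
  simp [compN, this, h]

lemma compN_of_P {x y : K} (hlo : v a < v x) (hhi : v x < 1)
    (hP : v (y - γ₁ * x) < v x) : compN v a γ₁ x y = cls v a (v x) := by
  simp [compN, not_le.mpr hhi, not_le.mpr hlo, hP]

lemma compN_of_N {x y : K} (hδ : v (γ₁ - γ₂) = 1)
    (hlo : v a < v x) (hhi : v x < 1)
    (hN : v (y - γ₂ * x) < v x) : compN v a γ₁ x y = (cls v a (v x))⁻¹ := by
  have hP : ¬ v (y - γ₁ * x) < v x := fun hP => _root_.Fermat.Agent.S13.H365.sign_exclusive hδ ⟨hP, hN⟩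
  simp [compN, not_le.mpr hhi, not_le.mpr hlo, hP]

/-- The four types of points. -/
lemma compN_cases {x y : K} (hδ : v (γ₁ - γ₂) = 1) (ha : v a < 1)
    (hE : (y - γ₁ * x) * (y - γ₂ * x) = x ^ 3 + a * x) :
    (1 ≤ v x ∧ compN v a γ₁ x y = 1) ∨
    (v x ≤ v a ∧ compN v a γ₁ x y = cls v a (v a)) ∨
    (v a < v x ∧ v x < 1 ∧ v (y - γ₁ * x) < v x ∧ compN v a γ₁ x y = cls v a (v x)) ∨
    (v a < v x ∧ v x < 1 ∧ v (y - γ₂ * x) < v x ∧
      compN v a γ₁ x y = (cls v a (v x))⁻¹) := by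
  rcases le_or_gt 1 (v x) with hZ | hhi
  · exact Or.inl ⟨hZ, compN_of_Z hZ⟩
  rcases le_or_gt (v x) (v a) with hM | hlo
  · exact Or.inr (Or.inl ⟨hM, compN_of_M ha hM⟩)
  rcases _root_.Fermat.Agent.S13.H365.sign_exists hE hlo hhi with hP | hN
  · exact Or.inr (Or.inr (Or.inl ⟨hlo, hhi, hP, compN_of_P hlo hhi hP⟩))
  · exact Or.inr (Or.inr (Or.inr ⟨hlo, hhi, hN, compN_of_N hδ hlo hhi hN⟩))

lemma hδ_symm (hδ : v (γ₁ - γ₂) = 1) : v (γ₂ - γ₁) = 1 := by
  rw [Valuation.map_sub_swap]; exact hδ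

/-- Two points at the node, third away: the components cancel. -/
lemma core_two (h : _root_.Fermat.Agent.S13.H365.Coll a γ₁ γ₂ x₁ y₁ x₂ y₂ x₃ y₃ l n) (hδ : v (γ₁ - γ₂) = 1) (ha : v a < 1)
    (ha0 : a ≠ 0)
    (h1 : v x₁ < 1) (h2' : v x₂ < 1) (h3 : 1 ≤ v x₃) :
    compN v a γ₁ x₁ y₁ * compN v a γ₁ x₂ y₂ = 1 := by
  have hμ : 0 < v a := by rw [Valuation.pos_iff]; exact ha0
  rcases compN_cases hδ ha h.E1 with ⟨hZ, -⟩ | ⟨hM1, e1⟩ | ⟨hlo1, hhi1, hP1, e1⟩ |
    ⟨hlo1, hhi1, hN1, e1⟩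
  · exact absurd hZ (not_le.mpr h1)
  · rcases compN_cases hδ ha h.E2 with ⟨hZ, -⟩ | ⟨hM2, e2⟩ | ⟨hlo2, hhi2, hP2, e2⟩ |
      ⟨hlo2, hhi2, hN2, e2⟩
    · exact absurd hZ (not_le.mpr h2')
    · rw [e1, e2]; exact cls_alpha_mul_self v a ha0
    · exact (_root_.Fermat.Agent.S13.H365.factD h hδ (hM1.trans_lt hlo2) (h1.trans_le h3) (hhi2.le.trans h3) h3
        (hlo2.trans_le (le_mul_of_one_le_right (hμ.trans hlo2).le h3))).elim
    · exact (_root_.Fermat.Agent.S13.H365.factD h hδ (hM1.trans_lt hlo2) (h1.trans_le h3) (hhi2.le.trans h3) h3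
        (hlo2.trans_le (le_mul_of_one_le_right (hμ.trans hlo2).le h3))).elim
  all_goals
    rcases compN_cases hδ ha h.E2 with ⟨hZ, -⟩ | ⟨hM2, e2⟩ | ⟨hlo2, hhi2, hP2, e2⟩ |
      ⟨hlo2, hhi2, hN2, e2⟩
    · exact absurd hZ (not_le.mpr h2')
    · exact (_root_.Fermat.Agent.S13.H365.factD h.swap12 hδ (hM2.trans_lt hlo1) (h2'.trans_le h3) (hhi1.le.trans h3) h3
        (hlo1.trans_le (le_mul_of_one_le_right (hμ.trans hlo1).le h3))).elim
  all_goals
    have h12 : v x₁ = v x₂ := by
      rcases lt_trichotomy (v x₁) (v x₂) with hlt | heq | hgt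
      · exact (_root_.Fermat.Agent.S13.H365.factD h hδ hlt (h1.trans_le h3) (hhi2.le.trans h3) h3
          (hlo2.trans_le (le_mul_of_one_le_right (hμ.trans hlo2).le h3))).elim
      · exact heq
      · exact (_root_.Fermat.Agent.S13.H365.factD h.swap12 hδ hgt (h2'.trans_le h3) (hhi1.le.trans h3) h3
          (hlo1.trans_le (le_mul_of_one_le_right (hμ.trans hlo1).le h3))).elim
    have hx1 : x₁ ≠ 0 := (Valuation.ne_zero_iff v).mp (hμ.trans hlo1).ne'
  · exact (_root_.Fermat.Agent.S13.H365.factBsign h hδ h12 h1 hx1 h3 hP1 hP2).elim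
  · rw [e1, e2, h12]; exact mul_inv_cancel _
  · rw [e1, e2, h12]; exact inv_mul_cancel _
  · exact (_root_.Fermat.Agent.S13.H365.factBsign h.swapγ (hδ_symm hδ) h12 h1 hx1 h3 hN1 hN2).elim

/-- All three points at the node, the first one in the `M`-range. -/
lemma core_three_M (h : _root_.Fermat.Agent.S13.H365.Coll a γ₁ γ₂ x₁ y₁ x₂ y₂ x₃ y₃ l n) (hδ : v (γ₁ - γ₂) = 1)
    (ha : v a < 1) (ha0 : a ≠ 0)
    (h1 : v x₁ ≤ v a) (h2' : v x₂ < 1) (h3 : v x₃ < 1) :
    compN v a γ₁ x₁ y₁ * compN v a γ₁ x₂ y₂ * compN v a γ₁ x₃ y₃ = 1 := by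
  have hμ : 0 < v a := by rw [Valuation.pos_iff]; exact ha0
  have e1 : compN v a γ₁ x₁ y₁ = cls v a (v a) := compN_of_M ha h1
  rcases compN_cases hδ ha h.E2 with ⟨hZ, -⟩ | ⟨hM2, e2⟩ | ⟨hlo2, hhi2, hP2, e2⟩ |
    ⟨hlo2, hhi2, hN2, e2⟩
  · exact absurd hZ (not_le.mpr h2')
  · exact (_root_.Fermat.Agent.S13.H365.factMMmid h hδ ha ha0 h1 hM2 h3).elim
  all_goals
    rcases compN_cases hδ ha h.E3 with ⟨hZ, -⟩ | ⟨hM3, e3⟩ | ⟨hlo3, hhi3, hP3, e3⟩ |
      ⟨hlo3, hhi3, hN3, e3⟩
    · exact absurd hZ (not_le.mpr h3)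
    · exact (_root_.Fermat.Agent.S13.H365.factMMmid h.swap23 hδ ha ha0 h1 hM3 h2').elim
  all_goals
    have hval := _root_.Fermat.Agent.S13.H365.factA'_val h hδ ha ha0 h1 hlo2 hhi2 hlo3 hhi3
    have hne2 : v x₂ ≠ 0 := (hμ.trans hlo2).ne'
    have hne3 : v x₃ ≠ 0 := (hμ.trans hlo3).ne'
  · rw [e1, e2, e3, mul_assoc, ← cls_mul v a hne2 hne3, hval]
    exact cls_alpha_mul_self v a ha0
  · exact (_root_.Fermat.Agent.S13.H365.factA'_sign h hδ ha ha0 h1 hlo2 hhi2 hlo3 hhi3 hP2 hN3).elim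
  · exact (_root_.Fermat.Agent.S13.H365.factA'_sign h.swapγ (hδ_symm hδ) ha ha0 h1 hlo2 hhi2 hlo3 hhi3 hN2 hP3).elim
  · rw [e1, e2, e3, mul_assoc, ← mul_inv, ← cls_mul v a hne2 hne3, hval]
    exact mul_inv_cancel _

/-- All three points in the middle range. -/
lemma core_three_mid (h : _root_.Fermat.Agent.S13.H365.Coll a γ₁ γ₂ x₁ y₁ x₂ y₂ x₃ y₃ l n) (hδ : v (γ₁ - γ₂) = 1)
    (ha0 : a ≠ 0)
    (h1lo : v a < v x₁) (h1hi : v x₁ < 1)
    (h2lo : v a < v x₂) (h2hi : v x₂ < 1) (h3lo : v a < v x₃) (h3hi : v x₃ < 1) :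
    compN v a γ₁ x₁ y₁ * compN v a γ₁ x₂ y₂ * compN v a γ₁ x₃ y₃ = 1 := by
  have hμ : 0 < v a := by rw [Valuation.pos_iff]; exact ha0
  have hne1 : v x₁ ≠ 0 := (hμ.trans h1lo).ne'
  have hne2 : v x₂ ≠ 0 := (hμ.trans h2lo).ne'
  have hne3 : v x₃ ≠ 0 := (hμ.trans h3lo).ne'
  have hδ' := hδ_symm hδ
  rcases _root_.Fermat.Agent.S13.H365.sign_exists h.E1 h1lo h1hi with hP1 | hN1 <;>
  rcases _root_.Fermat.Agent.S13.H365.sign_exists h.E2 h2lo h2hi with hP2 | hN2 <;>
  rcases _root_.Fermat.Agent.S13.H365.sign_exists h.E3 h3lo h3hi with hP3 | hN3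
  · -- PPP
    rw [compN_of_P h1lo h1hi hP1, compN_of_P h2lo h2hi hP2, compN_of_P h3lo h3hi hP3,
      ← cls_mul v a hne1 hne2, ← cls_mul v a (mul_ne_zero hne1 hne2) hne3,
      _root_.Fermat.Agent.S13.H365.factA_same h hδ h1lo h1hi h2lo h2hi h3lo h3hi hP1 hP2 hP3]
    exact cls_alpha_sq v a ha0
  · -- PPN
    rw [compN_of_P h1lo h1hi hP1, compN_of_P h2lo h2hi hP2,
      compN_of_N hδ h3lo h3hi hN3,
      _root_.Fermat.Agent.S13.H365.factA_mixed h hδ h1lo h1hi h2lo h2hi h3lo h3hi hP1 hP2 hN3,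
      ← cls_mul v a hne1 hne2]
    exact mul_inv_cancel _
  · -- PNP
    rw [compN_of_P h1lo h1hi hP1, compN_of_N hδ h2lo h2hi hN2,
      compN_of_P h3lo h3hi hP3,
      _root_.Fermat.Agent.S13.H365.factA_mixed h.swap23 hδ h1lo h1hi h3lo h3hi h2lo h2hi hP1 hP3 hN2,
      cls_mul v a hne1 hne3, mul_right_comm]
    exact mul_inv_cancel _
  · -- PNN
    have := _root_.Fermat.Agent.S13.H365.factA_mixed h.rot.swapγ hδ' h2lo h2hi h3lo h3hi h1lo h1hi hN2 hN3 hP1
    rw [compN_of_P h1lo h1hi hP1, compN_of_N hδ h2lo h2hi hN2,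
      compN_of_N hδ h3lo h3hi hN3, this, cls_mul v a hne2 hne3, mul_assoc, ← mul_inv]
    exact mul_inv_cancel _
  · -- NPP
    have := _root_.Fermat.Agent.S13.H365.factA_mixed h.rot hδ h2lo h2hi h3lo h3hi h1lo h1hi hP2 hP3 hN1
    rw [compN_of_N hδ h1lo h1hi hN1, compN_of_P h2lo h2hi hP2,
      compN_of_P h3lo h3hi hP3, this, cls_mul v a hne2 hne3, mul_assoc]
    exact inv_mul_cancel _
  · -- NPN
    have := _root_.Fermat.Agent.S13.H365.factA_mixed h.swap23.swapγ hδ' h1lo h1hi h3lo h3hi h2lo h2hi hN1 hN3 hP2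
    rw [compN_of_N hδ h1lo h1hi hN1, compN_of_P h2lo h2hi hP2,
      compN_of_N hδ h3lo h3hi hN3, this, cls_mul v a hne1 hne3, mul_right_comm,
      ← mul_inv]
    exact inv_mul_cancel _
  · -- NNP
    have := _root_.Fermat.Agent.S13.H365.factA_mixed h.swapγ hδ' h1lo h1hi h2lo h2hi h3lo h3hi hN1 hN2 hP3
    rw [compN_of_N hδ h1lo h1hi hN1, compN_of_N hδ h2lo h2hi hN2,
      compN_of_P h3lo h3hi hP3, this, cls_mul v a hne1 hne2, ← mul_inv]
    exact inv_mul_cancel _
  · -- NNN
    have := _root_.Fermat.Agent.S13.H365.factA_same h.swapγ hδ' h1lo h1hi h2lo h2hi h3lo h3hi hN1 hN2 hN3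
    rw [compN_of_N hδ h1lo h1hi hN1, compN_of_N hδ h2lo h2hi hN2,
      compN_of_N hδ h3lo h3hi hN3, ← mul_inv, ← mul_inv,
      ← cls_mul v a hne1 hne2, ← cls_mul v a (mul_ne_zero hne1 hne2) hne3, this,
      cls_alpha_sq v a ha0, inv_one]

/-- **Core theorem**: the components of three collinear points multiply to `1`. -/
theorem compN_mul (h : _root_.Fermat.Agent.S13.H365.Coll a γ₁ γ₂ x₁ y₁ x₂ y₂ x₃ y₃ l n) (hδ : v (γ₁ - γ₂) = 1)
    (ha : v a < 1) (ha0 : a ≠ 0) :
    compN v a γ₁ x₁ y₁ * compN v a γ₁ x₂ y₂ * compN v a γ₁ x₃ y₃ = 1 := by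
  rcases le_or_gt 1 (v x₁) with hZ1 | h1 <;>
  rcases le_or_gt 1 (v x₂) with hZ2 | h2' <;>
  rcases le_or_gt 1 (v x₃) with hZ3 | h3
  · rw [compN_of_Z hZ1, compN_of_Z hZ2, compN_of_Z hZ3]; simp
  · exact (_root_.Fermat.Agent.S13.H365.factC h.swap13 hδ ha h3 hZ2 hZ1).elim
  · exact (_root_.Fermat.Agent.S13.H365.factC h.swap12 hδ ha h2' hZ1 hZ3).elim
  · rw [compN_of_Z hZ1, one_mul]
    exact _root_.Fermat.Agent.S13.H365.core_two h.rot hδ ha ha0 h2' h3 hZ1
  · exact (_root_.Fermat.Agent.S13.H365.factC h hδ ha h1 hZ2 hZ3).elim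
  · rw [compN_of_Z hZ2, mul_one]
    exact _root_.Fermat.Agent.S13.H365.core_two h.swap23 hδ ha ha0 h1 h3 hZ2
  · rw [compN_of_Z hZ3, mul_one]
    exact _root_.Fermat.Agent.S13.H365.core_two h hδ ha ha0 h1 h2' hZ3
  · rcases le_or_gt (v x₁) (v a) with hM1 | hlo1
    · exact _root_.Fermat.Agent.S13.H365.core_three_M h hδ ha ha0 hM1 h2' h3
    rcases le_or_gt (v x₂) (v a) with hM2 | hlo2
    · have := _root_.Fermat.Agent.S13.H365.core_three_M h.swap12 hδ ha ha0 hM2 h1 h3
      rw [mul_comm (compN v a γ₁ x₁ y₁)]; exact this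
    rcases le_or_gt (v x₃) (v a) with hM3 | hlo3
    · have := _root_.Fermat.Agent.S13.H365.core_three_M h.rot' hδ ha ha0 hM3 h1 h2'
      rw [mul_comm, ← mul_assoc]; exact this
    exact _root_.Fermat.Agent.S13.H365.core_three_mid h hδ ha0 hlo1 h1 hlo2 h2' hlo3 h3

end Fermat.Agent.S13.H365

end
-- ===== PACK-END S13/H365/NodeXY.lean

-- ===== PACK-BEGIN S13/H365/NodePoint.lean
section



/-!
# The component homomorphism at a node, valid in every residue characteristic

`W` is a Weierstrass curve over a valued field `K`, `(e, f)` is a point of `W` fixed by the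
negation (`2 f + a₁ e + a₃ = 0`), and in the coordinates `ξ = x - e`, `υ = y - f` the equation
of `W` reads `(υ - γ₁ ξ) (υ - γ₂ ξ) = ξ³ + a ξ` with `v a < 1`, `a ≠ 0`, `v (γ₁ - γ₂) = 1`:
the reduction of `W` has a node at `(e, f)` with tangent slopes `γ₁ ≢ γ₂`.
No hypothesis on `v 2` is made.
-/

set_option autoImplicit false

namespace Fermat.Agent.S13.H365

open WeierstrassCurve WeierstrassCurve.Affine
open Fermat.Agent.S05.Comp (cls cls_mul cls_alpha_sq cls_alpha_mul_self cls_alpha_inv CompGroup)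

variable {K : Type*} [Field K] {Γ₀ : Type*} [LinearOrderedCommGroupWithZero Γ₀]

/-- A Weierstrass curve over a valued field together with a `2`-torsion point `(e, f)` at which
the reduction has a node with distinct tangent slopes `γ₁`, `γ₂`. -/
structure NodeModel (v : Valuation K Γ₀) (W : Affine K) where
  /-- `x`-coordinate of the point reducing to the node -/
  e : K
  /-- `y`-coordinate of the point reducing to the node -/
  f : K
  /-- first tangent slope -/
  γ₁ : K
  /-- second tangent slope -/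
  γ₂ : K
  /-- the smoothing parameter -/
  a : K
  h2tors : 2 * f + W.a₁ * e + W.a₃ = 0
  hon : f ^ 2 + W.a₁ * e * f + W.a₃ * f = e ^ 3 + W.a₂ * e ^ 2 + W.a₄ * e + W.a₆
  hsum : γ₁ + γ₂ = -W.a₁
  hprod : γ₁ * γ₂ = -(W.a₂ + 3 * e)
  ha_def : a = 3 * e ^ 2 + 2 * W.a₂ * e + W.a₄ - W.a₁ * f
  hδ : v (γ₁ - γ₂) = 1
  ha : v a < 1
  ha0 : a ≠ 0

namespace NodeModel

variable {v : Valuation K Γ₀} {W : Affine K}

lemma a₁_eq (M : NodeModel v W) : W.a₁ = -(M.γ₁ + M.γ₂) := by
  linear_combination M.hsum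

lemma a₂_eq (M : NodeModel v W) : W.a₂ = -(M.γ₁ * M.γ₂) - 3 * M.e := by
  linear_combination M.hprod

lemma a₃_eq (M : NodeModel v W) : W.a₃ = -2 * M.f + (M.γ₁ + M.γ₂) * M.e := by
  linear_combination M.h2tors - M.e * M.hsum

lemma a₄_eq (M : NodeModel v W) :
    W.a₄ = M.a + 3 * M.e ^ 2 + 2 * (M.γ₁ * M.γ₂) * M.e - (M.γ₁ + M.γ₂) * M.f := by
  linear_combination -M.ha_def - 2 * M.e * M.hprod + M.f * M.hsum

lemma a₆_eq (M : NodeModel v W) :
    W.a₆ = M.f ^ 2 + W.a₁ * M.e * M.f + W.a₃ * M.f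
      - (M.e ^ 3 + W.a₂ * M.e ^ 2 + W.a₄ * M.e) := by
  linear_combination -M.hon

/-- The Weierstrass equation in the coordinates centred at the node. -/
lemma key_id (M : NodeModel v W) (x y : K) :
    (y - M.f - M.γ₁ * (x - M.e)) * (y - M.f - M.γ₂ * (x - M.e))
        - ((x - M.e) ^ 3 + M.a * (x - M.e)) =
      (y ^ 2 + W.a₁ * x * y + W.a₃ * y) - (x ^ 3 + W.a₂ * x ^ 2 + W.a₄ * x + W.a₆) := by
  rw [M.a₆_eq, M.a₄_eq, M.a₃_eq, M.a₂_eq, M.a₁_eq]
  ring

lemma equation_iff (M : NodeModel v W) (x y : K) :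
    W.Equation x y ↔
      (y - M.f - M.γ₁ * (x - M.e)) * (y - M.f - M.γ₂ * (x - M.e))
        = (x - M.e) ^ 3 + M.a * (x - M.e) := by
  rw [Affine.equation_iff, ← sub_eq_zero, ← M.key_id x y, sub_eq_zero]

lemma up_negY (M : NodeModel v W) (x y : K) :
    W.negY x y - M.f = -(y - M.f) + (M.γ₁ + M.γ₂) * (x - M.e) := by
  simp only [Affine.negY]
  rw [M.a₃_eq, M.a₁_eq]
  ring

end NodeModel

variable {v : Valuation K Γ₀}

lemma compN_neg {a γ₁ γ₂ x y : K} (hδ : v (γ₁ - γ₂) = 1) (ha : v a < 1) (ha0 : a ≠ 0)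
    (hE : (y - γ₁ * x) * (y - γ₂ * x) = x ^ 3 + a * x) :
    compN v a γ₁ x (-y + (γ₁ + γ₂) * x) = (compN v a γ₁ x y)⁻¹ := by
  rcases compN_cases hδ ha hE with ⟨hZ, e⟩ | ⟨hM, e⟩ | ⟨hlo, hhi, hP, e⟩ |
    ⟨hlo, hhi, hN, e⟩
  · rw [e, compN_of_Z hZ, inv_one]
  · rw [e, compN_of_M ha hM, cls_alpha_inv v a ha0]
  · rw [e]
    apply compN_of_N hδ hlo hhi
    have : -y + (γ₁ + γ₂) * x - γ₂ * x = -(y - γ₁ * x) := by ring
    rw [this, Valuation.map_neg]; exact hP
  · rw [e, inv_inv]
    apply compN_of_P hlo hhi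
    have : -y + (γ₁ + γ₂) * x - γ₁ * x = -(y - γ₂ * x) := by ring
    rw [this, Valuation.map_neg]; exact hN

namespace NodeModel

variable {W : Affine K}

/-- The component of a point. -/
noncomputable def comp (M : NodeModel v W) : W.Point → CompGroup v M.a
  | .zero => 1
  | .some x y _ => compN v M.a M.γ₁ (x - M.e) (y - M.f)

@[simp] lemma comp_zero (M : NodeModel v W) : M.comp 0 = 1 := rfl

lemma comp_some (M : NodeModel v W) {x y : K} (h : W.Nonsingular x y) :
    M.comp (.some x y h) = compN v M.a M.γ₁ (x - M.e) (y - M.f) := rfl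

lemma comp_neg (M : NodeModel v W) (P : W.Point) : M.comp (-P) = (M.comp P)⁻¹ := by
  rcases P with _ | ⟨x, y, h⟩
  · change M.comp 0 = (M.comp 0)⁻¹
    simp
  · rw [Point.neg_some, comp_some, comp_some, M.up_negY]
    exact compN_neg M.hδ M.ha M.ha0 ((M.equation_iff x y).mp h.1)

variable [DecidableEq K]

/-- The collinearity data attached to a sum of two affine points. -/
lemma coll_of_add (M : NodeModel v W) {x₁ y₁ x₂ y₂ : K} (h₁ : W.Equation x₁ y₁)
    (h₂ : W.Equation x₂ y₂) (hxy : ¬(x₁ = x₂ ∧ y₁ = W.negY x₂ y₂)) :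
    _root_.Fermat.Agent.S13.H365.Coll M.a M.γ₁ M.γ₂ (x₁ - M.e) (y₁ - M.f) (x₂ - M.e) (y₂ - M.f)
      (W.addX x₁ x₂ (W.slope x₁ x₂ y₁ y₂) - M.e)
      (W.negAddY x₁ x₂ y₁ (W.slope x₁ x₂ y₁ y₂) - M.f)
      (W.slope x₁ x₂ y₁ y₂)
      (y₁ - M.f - W.slope x₁ x₂ y₁ y₂ * (x₁ - M.e)) := by
  set ℓ := W.slope x₁ x₂ y₁ y₂ with hℓ
  -- the line passes through the second point
  have hline : y₂ = ℓ * (x₂ - x₁) + y₁ := by
    by_cases hx : x₁ = x₂
    · have hy : y₁ ≠ W.negY x₂ y₂ := fun h => hxy ⟨hx, h⟩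
      have := Y_eq_of_Y_ne h₁ h₂ hx hy
      rw [hx, this]; ring
    · rw [hℓ, slope_of_X_ne hx]
      have : x₁ - x₂ ≠ 0 := sub_ne_zero.mpr hx
      field_simp
      ring
  -- Vieta
  have hV := addPolynomial_slope h₁ h₂ hxy
  rw [addPolynomial_eq, neg_inj, Cubic.prod_X_sub_C_eq, Cubic.toPoly_injective] at hV
  have hVc := congrArg Cubic.c hV
  have hVd := congrArg Cubic.d hV
  simp only at hVc hVd
  rw [← hℓ] at hVc hVd
  have hE3 : W.Equation (W.addX x₁ x₂ ℓ) (W.negAddY x₁ x₂ y₁ ℓ) := equation_negAdd h₁ h₂ hxy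
  refine ⟨?_, ?_, ?_, (M.equation_iff _ _).mp h₁, (M.equation_iff _ _).mp h₂,
    (M.equation_iff _ _).mp hE3, ?_, ?_, ?_⟩
  · ring
  · rw [hline]; ring
  · simp only [negAddY]
    ring
  · simp only [addX]
    rw [M.a₂_eq, M.a₁_eq]
    ring
  · have e1 : (x₁ - M.e) * (x₂ - M.e) + (x₁ - M.e) * (W.addX x₁ x₂ ℓ - M.e) +
        (x₂ - M.e) * (W.addX x₁ x₂ ℓ - M.e) =
        (x₁ * x₂ + x₁ * W.addX x₁ x₂ ℓ + x₂ * W.addX x₁ x₂ ℓ)
          - 2 * M.e * (x₁ + x₂ + W.addX x₁ x₂ ℓ) + 3 * M.e ^ 2 := by ring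
    rw [e1, ← hVc]
    simp only [addX]
    rw [M.a₄_eq, M.a₃_eq, M.a₂_eq, M.a₁_eq]
    ring
  · have e1 : (x₁ - M.e) * (x₂ - M.e) * (W.addX x₁ x₂ ℓ - M.e) =
        -(-(x₁ * x₂ * W.addX x₁ x₂ ℓ))
          - M.e * (x₁ * x₂ + x₁ * W.addX x₁ x₂ ℓ + x₂ * W.addX x₁ x₂ ℓ)
          + M.e ^ 2 * (x₁ + x₂ + W.addX x₁ x₂ ℓ) - M.e ^ 3 := by ring
    rw [e1, ← hVc, ← hVd]
    simp only [addX]
    rw [M.a₆_eq, M.a₄_eq, M.a₃_eq, M.a₂_eq, M.a₁_eq]
    ring

/-- **The component map is additive.** -/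
theorem comp_add (M : NodeModel v W) (P Q : W.Point) :
    M.comp (P + Q) = M.comp P * M.comp Q := by
  rcases P with _ | ⟨x₁, y₁, h₁⟩
  · change M.comp (0 + Q) = M.comp 0 * M.comp Q
    rw [zero_add, comp_zero, one_mul]
  rcases Q with _ | ⟨x₂, y₂, h₂⟩
  · change M.comp (_ + 0) = M.comp _ * M.comp 0
    rw [add_zero, comp_zero, mul_one]
  by_cases hxy : x₁ = x₂ ∧ y₁ = W.negY x₂ y₂
  · rw [Point.add_of_Y_eq hxy.1 hxy.2, comp_zero]
    have : Point.some x₁ y₁ h₁ = -Point.some x₂ y₂ h₂ := by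
      rw [Point.neg_some]
      obtain ⟨rfl, rfl⟩ := hxy
      rfl
    rw [this, comp_neg, inv_mul_cancel]
  · rw [Point.add_some hxy, comp_some, comp_some, comp_some]
    have hc := M.coll_of_add h₁.1 h₂.1 hxy
    have h3 := compN_mul hc M.hδ M.ha M.ha0
    rw [addY, M.up_negY, compN_neg M.hδ M.ha M.ha0 hc.E3]
    exact (mul_eq_one_iff_eq_inv.mp h3).symm

/-- The component map as a homomorphism. -/
noncomputable def compHom (M : NodeModel v W) : W.Point →+ Additive (CompGroup v M.a) where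
  toFun P := Additive.ofMul (M.comp P)
  map_zero' := rfl
  map_add' P Q := by
    rw [M.comp_add P Q]; rfl

lemma comp_nsmul (M : NodeModel v W) (k : ℕ) (P : W.Point) :
    M.comp (k • P) = M.comp P ^ k := by
  induction k with
  | zero => simp
  | succ k ih =>
    rw [succ_nsmul, comp_add, ih]
    exact (pow_succ _ _).symm

lemma comp_sub (M : NodeModel v W) (P Q : W.Point) :
    M.comp (P - Q) = M.comp P * (M.comp Q)⁻¹ := by
  rw [sub_eq_add_neg, comp_add, comp_neg]

end NodeModel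

end Fermat.Agent.S13.H365

end
-- ===== PACK-END S13/H365/NodePoint.lean

-- ===== PACK-BEGIN S13/H365/NodeKer.lean
section



/-!
# Kernel of the component map, torsion near the node, nonsingularity away from the node

Everything is valid in every residue characteristic (no hypothesis on `v 2`).
-/

set_option autoImplicit false
set_option linter.unusedSectionVars false

namespace Fermat.Agent.S13.H365

open WeierstrassCurve WeierstrassCurve.Affine
open Fermat.Agent.S05.Comp (cls cls_mul cls_alpha_sq cls_alpha_mul_self cls_alpha_inv CompGroup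
  cls_alpha_ne_one exists_zpow_of_cls_eq_one exists_pow_of_zpow toU_pow toU)
open Fermat.Agent.S05.SameRed

variable {K : Type*} [Field K] {Γ₀ : Type*} [LinearOrderedCommGroupWithZero Γ₀]
  {v : Valuation K Γ₀}

/-- The class of an element strictly between `v a` and `1` is nontrivial. -/
lemma cls_ne_one_of_mid {a : K} (ha0 : a ≠ 0) (ha : v a < 1) {g : Γ₀} (hlo : v a < g)
    (hhi : g < 1) : cls v a g ≠ 1 := by
  intro h
  have h0 : v a ≠ 0 := (Valuation.ne_zero_iff v).mpr ha0
  have hpos : 0 < v a := zero_lt_iff.mpr h0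
  have hg0 : g ≠ 0 := (hpos.trans hlo).ne'
  have hsq0 : v a ^ 2 ≠ 0 := pow_ne_zero 2 h0
  have hsq1 : v a ^ 2 < 1 := pow_lt_one₀ zero_le ha (by norm_num)
  obtain ⟨k, hk⟩ := exists_zpow_of_cls_eq_one ha0 hg0 h
  obtain ⟨j, hj⟩ := exists_pow_of_zpow hsq0 hsq1 hhi hk
  rcases Nat.eq_zero_or_pos j with h0j | hjpos
  · rw [h0j, pow_zero] at hj
    exact hhi.ne hj
  · have h1 : (v a ^ 2) ^ j ≤ v a ^ 2 := pow_le_of_le_one zero_le hsq1.le hjpos.ne'
    have h2 : v a ^ 2 < v a := by
      calc v a ^ 2 = v a * v a := pow_two _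
        _ < v a * 1 := mul_lt_mul_of_pos_left ha hpos
        _ = v a := mul_one _
    rw [← hj] at h1
    exact absurd (h1.trans_lt h2) (not_lt.mpr hlo.le)

lemma cls_pow {a : K} {g : Γ₀} (hg : g ≠ 0) (n : ℕ) : cls v a (g ^ n) = cls v a g ^ n := by
  rw [cls, cls, toU_pow hg]; rfl

namespace NodeModel

variable {W : Affine K}

/-- The points with nonsingular reduction (relative to the node `(e, f)`). -/
def InE0 (M : NodeModel v W) : W.Point → Prop
  | .zero => True
  | .some x _ _ => 1 ≤ v (x - M.e)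

@[simp] lemma inE0_zero (M : NodeModel v W) : M.InE0 0 := trivial

@[simp] lemma inE0_some (M : NodeModel v W) {x y : K} (h : W.Nonsingular x y) :
    M.InE0 (Point.some x y h) ↔ 1 ≤ v (x - M.e) := Iff.rfl

lemma comp_some_eq_one_iff (M : NodeModel v W) {x y : K} (h : W.Nonsingular x y) :
    M.comp (Point.some x y h) = 1 ↔ 1 ≤ v (x - M.e) := by
  rw [M.comp_some]
  constructor
  · intro hc
    by_contra hlt
    rw [not_le] at hlt
    rcases compN_cases M.hδ M.ha ((M.equation_iff x y).mp h.1) with ⟨hZ, -⟩ | ⟨hM, e⟩ |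
      ⟨hlo, hhi, -, e⟩ | ⟨hlo, hhi, -, e⟩
    · exact absurd hZ (not_le.mpr hlt)
    · rw [e] at hc; exact cls_alpha_ne_one M.ha0 M.ha hc
    · rw [e] at hc; exact cls_ne_one_of_mid M.ha0 M.ha hlo hhi hc
    · rw [e, inv_eq_one] at hc; exact cls_ne_one_of_mid M.ha0 M.ha hlo hhi hc
  · intro hZ; exact compN_of_Z hZ

/-- **The kernel of the component map is `E₀`.** -/
theorem comp_eq_one_iff (M : NodeModel v W) (P : W.Point) : M.comp P = 1 ↔ M.InE0 P := by
  rcases P with _ | ⟨x, y, h⟩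
  · exact ⟨fun _ => trivial, fun _ => rfl⟩
  · exact M.comp_some_eq_one_iff h

variable [DecidableEq K]

/-- `E₀` is a subgroup: closed under addition. -/
theorem inE0_add (M : NodeModel v W) {P Q : W.Point} (hP : M.InE0 P) (hQ : M.InE0 Q) :
    M.InE0 (P + Q) := by
  rw [← comp_eq_one_iff] at *
  rw [M.comp_add, hP, hQ, one_mul]

theorem inE0_neg (M : NodeModel v W) {P : W.Point} (hP : M.InE0 P) : M.InE0 (-P) := by
  rw [← comp_eq_one_iff] at *
  rw [M.comp_neg, hP, inv_one]

theorem inE0_sub (M : NodeModel v W) {P Q : W.Point} (hP : M.InE0 P) (hQ : M.InE0 Q) :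
    M.InE0 (P - Q) := by
  rw [← comp_eq_one_iff] at *
  rw [M.comp_sub, hP, hQ, inv_one, one_mul]

/-- If two points have the same component, their difference lies in `E₀`. -/
theorem inE0_sub_of_comp_eq (M : NodeModel v W) {P Q : W.Point} (h : M.comp P = M.comp Q) :
    M.InE0 (P - Q) := by
  rw [← comp_eq_one_iff, M.comp_sub, h, mul_inv_cancel]

/-- **(C3c) without `v 2 = 1`.** An odd-torsion point reducing to the node has `v (x - e)`
strictly between `v a` and `1`, and `v (x - e) ^ n` is an even power of `v a`. -/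
theorem torsion_near_node (M : NodeModel v W) {n : ℕ} (hn : Odd n) {x y : K}
    (h : W.Nonsingular x y) (hP : n • Point.some x y h = 0) (hx : v (x - M.e) < 1) :
    v M.a < v (x - M.e) ∧ ∃ j : ℕ, v (x - M.e) ^ n = v M.a ^ (2 * j) := by
  have h0 : v M.a ≠ 0 := (Valuation.ne_zero_iff v).mpr M.ha0
  have hμ : 0 < v M.a := zero_lt_iff.mpr h0
  have hc : M.comp (Point.some x y h) ^ n = 1 := by
    rw [← M.comp_nsmul, hP, comp_zero]
  rw [comp_some] at hc
  have hE := (M.equation_iff x y).mp h.1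
  have hsq0 : v M.a ^ 2 ≠ 0 := pow_ne_zero 2 h0
  have hsq1 : v M.a ^ 2 < 1 := pow_lt_one₀ zero_le M.ha (by norm_num)
  have hnpos : 0 < n := hn.pos
  -- the main computation for a middle-range point
  have main : v M.a < v (x - M.e) → cls v M.a (v (x - M.e)) ^ n = 1 →
      ∃ j : ℕ, v (x - M.e) ^ n = v M.a ^ (2 * j) := by
    intro hlo hcls
    have hr0 : v (x - M.e) ≠ 0 := (hμ.trans hlo).ne'
    have hrn0 : v (x - M.e) ^ n ≠ 0 := pow_ne_zero n hr0
    have hcls' : cls v M.a (v (x - M.e) ^ n) = 1 := by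
      rw [cls_pow hr0, hcls]
    obtain ⟨k, hk⟩ := exists_zpow_of_cls_eq_one M.ha0 hrn0 hcls'
    have hlt : v (x - M.e) ^ n < 1 := pow_lt_one₀ zero_le hx hnpos.ne'
    obtain ⟨j, hj⟩ := exists_pow_of_zpow hsq0 hsq1 hlt hk
    exact ⟨j, by rw [hj, ← pow_mul]⟩
  rcases compN_cases M.hδ M.ha hE with ⟨hZ, -⟩ | ⟨hM, e⟩ | ⟨hlo, hhi, -, e⟩ |
    ⟨hlo, hhi, -, e⟩
  · exact absurd hZ (not_le.mpr hx)
  · exfalso
    rw [e] at hc
    obtain ⟨m, rfl⟩ := hn
    have hsq : cls v M.a (v M.a) ^ 2 = 1 :=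
      (pow_two _).trans (cls_alpha_mul_self v M.a M.ha0)
    rw [pow_succ, pow_mul, hsq, one_pow, one_mul] at hc
    exact cls_alpha_ne_one M.ha0 M.ha hc
  · rw [e] at hc
    exact ⟨hlo, main hlo hc⟩
  · rw [e, inv_pow, inv_eq_one] at hc
    exact ⟨hlo, main hlo hc⟩

/-- The tangent slopes of an integral model are integral. -/
lemma val_γ₁_le_one (M : NodeModel v W) (hW : IntegralCoeffs W v) (he : v M.e ≤ 1) :
    v M.γ₁ ≤ 1 := by
  by_contra hcon
  rw [not_le] at hcon
  have h0 : (0 : Γ₀) < v M.γ₁ := lt_trans zero_lt_one hcon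
  have hsq : M.γ₁ ^ 2 = -(W.a₁ * M.γ₁) + (W.a₂ + 3 * M.e) := by
    linear_combination M.γ₁ * M.hsum - M.hprod
  have h3 : v (3 : K) ≤ 1 := by
    have : (3 : K) = 2 + 1 := by norm_num
    rw [this]; exact val_add_le_one val_two_le_one (by rw [map_one])
  have hlt : v M.γ₁ < v (M.γ₁ ^ 2) := by
    rw [map_pow, pow_two]; exact lt_mul_of_one_lt_left h0 hcon
  have hle : v (-(W.a₁ * M.γ₁) + (W.a₂ + 3 * M.e)) ≤ v M.γ₁ := by
    refine (v.map_add _ _).trans (max_le ?_ ?_)
    · rw [Valuation.map_neg, map_mul]; exact mul_le_of_le_one_left' hW.a₁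
    · exact (val_add_le_one hW.a₂ (val_mul_le_one h3 he)).trans hcon.le
  rw [← hsq] at hle
  exact absurd hle (not_le.mpr hlt)

/-- The model with the two branches exchanged. -/
def swap (M : NodeModel v W) : NodeModel v W where
  e := M.e
  f := M.f
  γ₁ := M.γ₂
  γ₂ := M.γ₁
  a := M.a
  h2tors := M.h2tors
  hon := M.hon
  hsum := by rw [add_comm]; exact M.hsum
  hprod := by rw [mul_comm]; exact M.hprod
  ha_def := M.ha_def
  hδ := by rw [Valuation.map_sub_swap]; exact M.hδ
  ha := M.ha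
  ha0 := M.ha0

lemma val_γ₂_le_one (M : NodeModel v W) (hW : IntegralCoeffs W v) (he : v M.e ≤ 1) :
    v M.γ₂ ≤ 1 :=
  M.swap.val_γ₁_le_one hW he

omit [DecidableEq K] in
/-- First identity behind the nonsingularity lemma. -/
lemma ns_id₁ (M : NodeModel v W) (x y : K) :
    (x - M.e) * ((M.γ₁ - M.γ₂) ^ 2 + 6 * (x - M.e)) =
      W.a₁ * (2 * y + W.a₁ * x + W.a₃)
        - 2 * (W.a₁ * y - (3 * x ^ 2 + 2 * W.a₂ * x + W.a₄)) - 2 * M.a := by
  rw [M.a₄_eq, M.a₃_eq, M.a₂_eq, M.a₁_eq]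
  ring

omit [DecidableEq K] in
/-- Second identity behind the nonsingularity lemma. -/
lemma ns_id₂ (M : NodeModel v W) {x y : K} (h : W.Equation x y) :
    (x - M.e) ^ 2 * ((M.γ₁ - M.γ₂) ^ 2 + 4 * (x - M.e)) =
      (2 * y + W.a₁ * x + W.a₃) ^ 2 - 4 * M.a * (x - M.e) := by
  have hE := (M.equation_iff x y).mp h
  rw [M.a₃_eq, M.a₁_eq]
  linear_combination (-4) * hE

/-- **Nonsingular reduction away from the node**: at an integral point whose `x`-coordinate
is not congruent to `e`, one of the two partial derivatives is a unit. -/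
theorem nonsingular_red (M : NodeModel v W) (hW : IntegralCoeffs W v) {x y : K}
    (h : W.Equation x y) (hx : v x ≤ 1) (hy : v y ≤ 1) (hξ : v (x - M.e) = 1) :
    v (W.a₁ * y - (3 * x ^ 2 + 2 * W.a₂ * x + W.a₄)) = 1 ∨
      v (2 * y + W.a₁ * x + W.a₃) = 1 := by
  have h2 : v (2 : K) ≤ 1 := val_two_le_one
  have h3 : v (3 : K) ≤ 1 := by
    have : (3 : K) = 2 + 1 := by norm_num
    rw [this]; exact val_add_le_one h2 (by rw [map_one])
  have h4 : v (4 : K) ≤ 1 := val_four_le_one
  have h6 : v (6 : K) ≤ 1 := by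
    have : (6 : K) = 2 * 3 := by norm_num
    rw [this]; exact val_mul_le_one h2 h3
  have hX : v (W.a₁ * y - (3 * x ^ 2 + 2 * W.a₂ * x + W.a₄)) ≤ 1 := by
    apply val_sub_le_one (val_mul_le_one hW.a₁ hy)
    apply val_add_le_one (val_add_le_one _ _) hW.a₄
    · exact val_mul_le_one h3 (by rw [map_pow]; exact pow_le_one' hx 2)
    · exact val_mul_le_one (val_mul_le_one h2 hW.a₂) hx
  have hY : v (2 * y + W.a₁ * x + W.a₃) ≤ 1 :=
    val_add_le_one (val_add_le_one (val_mul_le_one h2 hy) (val_mul_le_one hW.a₁ hx)) hW.a₃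
  by_contra hcon
  rw [not_or] at hcon
  have hX' : v (W.a₁ * y - (3 * x ^ 2 + 2 * W.a₂ * x + W.a₄)) < 1 := lt_of_le_of_ne hX hcon.1
  have hY' : v (2 * y + W.a₁ * x + W.a₃) < 1 := lt_of_le_of_ne hY hcon.2
  have hδ2 : v ((M.γ₁ - M.γ₂) ^ 2) = 1 := by rw [map_pow, M.hδ, one_pow]
  -- from the second identity: `δ² + 4 ξ` is small
  have s2 : v ((M.γ₁ - M.γ₂) ^ 2 + 4 * (x - M.e)) < 1 := by
    have hR : v ((2 * y + W.a₁ * x + W.a₃) ^ 2 - 4 * M.a * (x - M.e)) < 1 := by
      rw [sub_eq_add_neg]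
      apply val_add_lt_one
      · rw [pow_two]; exact val_mul_lt_one_left hY' hY
      · rw [Valuation.map_neg]
        exact val_mul_lt_one_left (val_mul_lt_one_right h4 M.ha) hξ.le
    rw [← M.ns_id₂ h, map_mul, map_pow, hξ, one_pow, one_mul] at hR
    exact hR
  -- from the first identity: `δ² + 6 ξ` is small
  have s1 : v ((M.γ₁ - M.γ₂) ^ 2 + 6 * (x - M.e)) < 1 := by
    have hR : v (W.a₁ * (2 * y + W.a₁ * x + W.a₃)
        - 2 * (W.a₁ * y - (3 * x ^ 2 + 2 * W.a₂ * x + W.a₄)) - 2 * M.a) < 1 := by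
      rw [sub_eq_add_neg, sub_eq_add_neg]
      apply val_add_lt_one (val_add_lt_one _ _) _
      · exact val_mul_lt_one_right hW.a₁ hY'
      · rw [Valuation.map_neg]; exact val_mul_lt_one_right h2 hX'
      · rw [Valuation.map_neg]; exact val_mul_lt_one_right h2 M.ha
    rw [← M.ns_id₁ x y, map_mul, hξ, one_mul] at hR
    exact hR
  -- hence `2 ξ` is small, so `2` is small, so `δ²` is small
  have s3 : v (2 * (x - M.e)) < 1 := by
    have : 2 * (x - M.e) = ((M.γ₁ - M.γ₂) ^ 2 + 6 * (x - M.e))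
        + -((M.γ₁ - M.γ₂) ^ 2 + 4 * (x - M.e)) := by ring
    rw [this]
    exact val_add_lt_one s1 (by rwa [Valuation.map_neg])
  have s4 : v (4 * (x - M.e)) < 1 := by
    have : 4 * (x - M.e) = 2 * (2 * (x - M.e)) := by ring
    rw [this]; exact val_mul_lt_one_right h2 s3
  have s5 : v ((M.γ₁ - M.γ₂) ^ 2) < 1 := by
    have : (M.γ₁ - M.γ₂) ^ 2 = ((M.γ₁ - M.γ₂) ^ 2 + 4 * (x - M.e)) + -(4 * (x - M.e)) := by
      ring
    rw [this]
    exact val_add_lt_one s2 (by rwa [Valuation.map_neg])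
  rw [hδ2] at s5
  exact lt_irrefl _ s5

end NodeModel

end Fermat.Agent.S13.H365

end
-- ===== PACK-END S13/H365/NodeKer.lean

-- ===== PACK-BEGIN S37/Core/Geo.lean
section


/-!
# S37 row (helper37): the Layer-2 interface `GeoRed` (definitions only)

Notation: `A` a valuation subring of `ℚ̄` over `ℓ`, `k = A/𝔪`, `F = ℚ̄(X₀(N))`
(`modularFunctionFieldBar N ⊆ ℚ̄((q))`), `F_k = modularFunctionFieldFullC k N ⊆ k((q))`.

* `HasValue P f b` : the function `f` is regular at the place `P` with value `b`.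
* `IntElt A N` : a q-series `y ∈ A((q))` lying in `F` whose reduction lies in `F_k`.
* `IntElt.IsFin` / `IsInf` : `y` is integral over `A[j]` / over `A[j⁻¹]` (inside `A((q))`).
* `GeoRed A N` : a place reduction map `r` with the Prelude spec (`isRed`, `gen`) and
  - `vc_fin`/`vc_inf` (value compatibility): for `f` integral over `A[j]` and `P` with `j(P) ∈ A`,
    `f(P) = b` implies `f̄(r P) = b̄`; same at infinity;
  - `sep_fin`/`sep_inf` (separation, = normality of the special fibre of the model): two places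
    of `F_k` at which all reductions `f̄` take the same values are equal.
-/

set_option autoImplicit false
set_option synthInstance.maxHeartbeats 400000

noncomputable section

namespace Fermat.Agent.S37.Core

open ModularCurve ValuationSubring AlgebraicCurve HahnSeries

/-- `f` is regular at `P` with value `b` -/
def HasValue {K F : Type*} [Field K] [Field F] [Algebra K F] (P : Place K F) (f : F) (b : K) :
    Prop :=
  f - algebraMap K F b ∈ P.toValuationSubring.nonunits

section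

variable (A : ValuationSubring (AlgebraicClosure ℚ)) (N : ℕ)

/-- an `A`-integral q-series lying in `F = ℚ̄(X₀(N))` with reduction in `F_k` -/
structure IntElt where
  /-- the q-series -/
  y : LaurentSeries A
  mem : coeffMap A.subtype y ∈ modularFunctionFieldBar N
  memk : coeffMap (IsLocalRing.residue A) y ∈
    modularFunctionFieldFullC (IsLocalRing.ResidueField A) N

variable {A N}

/-- the function in characteristic `0` -/
def IntElt.gen (c : IntElt A N) : modularFunctionFieldBar N := ⟨coeffMap A.subtype c.y, c.mem⟩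

/-- the reduced function -/
def IntElt.sp (c : IntElt A N) : modularFunctionFieldFullC (IsLocalRing.ResidueField A) N :=
  ⟨coeffMap (IsLocalRing.residue A) c.y, c.memk⟩

variable (A) in
/-- evaluation `A[X] → A((q))`, `X ↦ u` -/
def evalSeries (u : LaurentSeries A) : Polynomial A →+* LaurentSeries A :=
  Polynomial.eval₂RingHom (HahnSeries.C : A →+* LaurentSeries A) u

/-- `y` is integral over `A[j]` -/
def IntElt.IsFin (c : IntElt A N) : Prop :=
  ∃ p : Polynomial (Polynomial A), p.Monic ∧ p.eval₂ (evalSeries A (jqModC A)) c.y = 0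

/-- `y` is integral over `A[j⁻¹]` -/
def IntElt.IsInf (c : IntElt A N) : Prop :=
  ∃ u : LaurentSeries A, u * jqModC A = 1 ∧
    ∃ p : Polynomial (Polynomial A), p.Monic ∧ p.eval₂ (evalSeries A u) c.y = 0

variable (A N) in
/-- **Layer-2 interface**: a geometric place reduction map. -/
structure GeoRed [NeZero N] : Type where
  /-- the reduction map on places -/
  r : Place (AlgebraicClosure ℚ) (modularFunctionFieldBar N) →
    Place (IsLocalRing.ResidueField A) (modularFunctionFieldFullC (IsLocalRing.ResidueField A) N)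
  isRed : IsPlaceReductionModL A N r
  gen : PrincipalGeneratedByIntegral A (IsLocalRing.residue A) N
  vc_fin : ∀ j : IntElt A N, j.y = jqModC A → ∀ c : IntElt A N, c.IsFin →
    ∀ (P : Place (AlgebraicClosure ℚ) (modularFunctionFieldBar N)) (a b : A),
      HasValue P j.gen a → HasValue P c.gen b → HasValue (r P) c.sp (IsLocalRing.residue A b)
  vc_inf : ∀ j : IntElt A N, j.y * jqModC A = 1 → ∀ c : IntElt A N, c.IsInf →
    ∀ (P : Place (AlgebraicClosure ℚ) (modularFunctionFieldBar N)) (a b : A),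
      HasValue P j.gen a → HasValue P c.gen b → HasValue (r P) c.sp (IsLocalRing.residue A b)
  sep_fin : ∀ j : IntElt A N, j.y = jqModC A →
    ∀ (Q Q' : Place (IsLocalRing.ResidueField A)
      (modularFunctionFieldFullC (IsLocalRing.ResidueField A) N)) (a : IsLocalRing.ResidueField A),
      HasValue Q j.sp a →
      (∀ c : IntElt A N, c.IsFin → ∀ b : IsLocalRing.ResidueField A,
        HasValue Q c.sp b → HasValue Q' c.sp b) → Q = Q'
  sep_inf : ∀ j : IntElt A N, j.y * jqModC A = 1 →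
    ∀ (Q Q' : Place (IsLocalRing.ResidueField A)
      (modularFunctionFieldFullC (IsLocalRing.ResidueField A) N)) (a : IsLocalRing.ResidueField A),
      HasValue Q j.sp a →
      (∀ c : IntElt A N, c.IsInf → ∀ b : IsLocalRing.ResidueField A,
        HasValue Q c.sp b → HasValue Q' c.sp b) → Q = Q'

end

end Fermat.Agent.S37.Core

end
end
-- ===== PACK-END S37/Core/Geo.lean

-- ===== PACK-BEGIN S37/H448/AscentMod.lean
section




/-!
# S37 / RED-E4(c) (helper448): (H3) over `A` from (H3) over `𝔽_ℓ` — modular instance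

`A ⊆ ℚ̄` a valuation subring, `k = A/𝔪` (algebraically closed, algebraic over `𝔽_ℓ`),
`F₀ = modularFunctionFieldFullC (ZMod ℓ) N ⊆ 𝔽_ℓ((q))`, `F_k = modularFunctionFieldFullC k N`.

* `mem_fullC_decomp` : every `z ∈ F_k` is `∑ C (e i) * ι (w i)` with `w i ∈ F₀`
  (`F_k = k · ι(F₀)`, because `k / 𝔽_ℓ` is algebraic).
* `lift_of_base` : for ANY coordinate `X₀ ∈ 𝔽_ℓ((q))`: if every `w ∈ F₀` integral over `𝔽_ℓ[X₀]`
  lifts to an `A`-integral series `y` (in `F̄_N`, integral over `A[X]`, where `X̄ = ι X₀`), then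
  every `z ∈ F_k` integral over `k[ι X₀]` lifts as well.
* `lift_fin_of_base`, `lift_inf_of_base` : the two charts, in the language of `Core.IntElt`
  (`IsFin`, `IsInf`), i.e. `(H3)` = `Red.Datum.Good.lift_fin / lift_inf` over `A` from the same
  statement for `w` defined over `𝔽_ℓ` — normality of the special fibre is needed only for the
  model over `ℤ_(ℓ)`.
* `isAlgebraic_residueField`, `lift_fin_of_base_liesOver`, `lift_inf_of_base_liesOver` :
  the instances for `A` over `ℓ`.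
-/

set_option autoImplicit false
set_option linter.style.haveILetI false
set_option linter.unusedSimpArgs false
set_option synthInstance.maxHeartbeats 400000

noncomputable section

namespace Fermat.Agent.S37.H448

open HahnSeries ModularCurve Polynomial AlgebraicCurve Fermat.Agent.S37.Core

section Decomp

variable {k₀ k : Type*} [Field k₀] [Field k] [Algebra k₀ k]

theorem algebraMap_laurent_eq_C (c : k₀) :
    algebraMap k₀ (LaurentSeries k) c = HahnSeries.C (algebraMap k₀ k c) := by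
  rw [HahnSeries.algebraMap_apply']
  have h1 : algebraMap k₀ (PowerSeries k) c = PowerSeries.C (algebraMap k₀ k c) := by
    simp [PowerSeries.algebraMap_apply]
  rw [h1, HahnSeries.ofPowerSeries_C]

theorem isScalarTower_laurent :
    @IsScalarTower k₀ k (LaurentSeries k) Algebra.toSMul Algebra.toSMul Algebra.toSMul := by
  refine IsScalarTower.of_algebraMap_eq (R := k₀) (S := k) (A := LaurentSeries k) fun c => ?_
  rw [algebraMap_laurent_eq_C (k₀ := k₀) (k := k), algebraMap_laurent_eq_C (k₀ := k) (k := k)]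
  rfl

/-- the coefficientwise embedding as a `k₀`-algebra homomorphism -/
def iotaAlg (k₀ k : Type*) [Field k₀] [Field k] [Algebra k₀ k] :
    LaurentSeries k₀ →ₐ[k₀] LaurentSeries k where
  __ := coeffMap (algebraMap k₀ k)
  commutes' c := by
    show coeffMap (algebraMap k₀ k) (algebraMap k₀ (LaurentSeries k₀) c) =
      algebraMap k₀ (LaurentSeries k) c
    rw [algebraMap_laurent_eq_C (k₀ := k₀) (k := k₀), algebraMap_laurent_eq_C (k₀ := k₀) (k := k),
      coeffMap_C']
    rfl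

@[simp]
theorem iotaAlg_apply (x : LaurentSeries k₀) : iotaAlg k₀ k x = coeffMap (algebraMap k₀ k) x :=
  rfl

/-- `F_k = k · ι(F₀)` for `k / k₀` algebraic. -/
theorem mem_fullC_decomp [Algebra.IsAlgebraic k₀ k] (N : ℕ) [NeZero N]
    {z : LaurentSeries k} (hz : z ∈ modularFunctionFieldFullC k N) :
    ∃ (m : ℕ) (e : Fin m → k) (w : Fin m → LaurentSeries k₀),
      (∀ i, w i ∈ modularFunctionFieldFullC k₀ N) ∧
      z = ∑ i, HahnSeries.C (e i) * coeffMap (algebraMap k₀ k) (w i) := by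
  classical
  set L : IntermediateField k₀ (LaurentSeries k) :=
    (modularFunctionFieldFullC k₀ N).map (iotaAlg k₀ k) with hL
  have hle : modularFunctionFieldFullC k N ≤ IntermediateField.adjoin k (L : Set (LaurentSeries k)) := by
    rw [modularFunctionFieldFullC, IntermediateField.adjoin_le_iff]
    rintro x ⟨d, hne, hd, rfl⟩
    haveI := hne
    refine IntermediateField.subset_adjoin k _ ?_
    refine ⟨qExpand k₀ d (jqModC k₀), jqModCd_mem_full k₀ N hd, ?_⟩
    show coeffMap (algebraMap k₀ k) (qExpand k₀ d (jqModC k₀)) = qExpand k d (jqModC k)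
    rw [coeffMap_qExpand, coeffMap_jqModC]
  have hz1 : z ∈ (IntermediateField.adjoin k (L : Set (LaurentSeries k))).toSubalgebra := hle hz
  haveI := isScalarTower_laurent (k₀ := k₀) (k := k)
  rw [IntermediateField.adjoin_intermediateField_toSubalgebra_of_isAlgebraic_left] at hz1
  have hz2 := hz1
  rw [← Subalgebra.mem_toSubmodule, Algebra.adjoin_eq_span] at hz2
  have hcl : (Submonoid.closure (L : Set (LaurentSeries k)) : Set (LaurentSeries k)) =
      (L : Set (LaurentSeries k)) := by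
    have : Submonoid.closure (L : Set (LaurentSeries k)) = L.toSubalgebra.toSubmonoid :=
      Submonoid.closure_eq L.toSubalgebra.toSubmonoid
    rw [this]
    rfl
  rw [hcl] at hz2
  obtain ⟨m, f, g, hfg⟩ :=
    (@Submodule.mem_span_set' k (LaurentSeries k) _ _ Algebra.toModule z
      (L : Set (LaurentSeries k))).mp hz2
  have hg : ∀ i, ∃ w ∈ modularFunctionFieldFullC k₀ N,
      coeffMap (algebraMap k₀ k) w = (g i : LaurentSeries k) := by
    intro i
    obtain ⟨w, hw, hwg⟩ := (g i).2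
    exact ⟨w, hw, hwg⟩
  choose w hw hwg using hg
  refine ⟨m, f, w, hw, ?_⟩
  rw [← hfg]
  refine Finset.sum_congr rfl fun i _ => ?_
  rw [hwg i, Algebra.smul_def, algebraMap_laurent_eq_C (k₀ := k) (k := k)]
  rfl

end Decomp

section Lift

variable {N : ℕ} [NeZero N] {ℓ : ℕ} [Fact ℓ.Prime] (A : ValuationSubring (AlgebraicClosure ℚ))

/-- **Generic lifting statement** (any coordinate): if every `w ∈ F₀` integral over `𝔽_ℓ[X₀]`
is the reduction of an `A`-integral series in `F̄_N` integral over `A[X]` (`X̄ = ι X₀`), then so is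
every `z ∈ F_k` integral over `k[ι X₀]`. -/
theorem lift_of_base [IsAlgClosed (IsLocalRing.ResidueField A)]
    (φ : ZMod ℓ →+* IsLocalRing.ResidueField A) (hφ : φ.IsIntegral)
    (X₀ : LaurentSeries (ZMod ℓ)) (X : LaurentSeries A)
    (hbase : ∀ w : LaurentSeries (ZMod ℓ), w ∈ modularFunctionFieldFullC (ZMod ℓ) N →
      (evalSer (ZMod ℓ) X₀).IsIntegralElem w →
      ∃ y : LaurentSeries A, coeffMap A.subtype y ∈ modularFunctionFieldBar N ∧
        (evalSer A X).IsIntegralElem y ∧ coeffMap (IsLocalRing.residue A) y = coeffMap φ w)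
    {z : LaurentSeries (IsLocalRing.ResidueField A)}
    (hz : z ∈ modularFunctionFieldFullC (IsLocalRing.ResidueField A) N)
    (hint : (evalSer (IsLocalRing.ResidueField A) (coeffMap φ X₀)).IsIntegralElem z) :
    ∃ y : LaurentSeries A, coeffMap A.subtype y ∈ modularFunctionFieldBar N ∧
      (evalSer A X).IsIntegralElem y ∧ coeffMap (IsLocalRing.residue A) y = z := by
  classical
  letI : Algebra (ZMod ℓ) (IsLocalRing.ResidueField A) := φ.toAlgebra
  haveI : Algebra.IsIntegral (ZMod ℓ) (IsLocalRing.ResidueField A) := ⟨hφ⟩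
  haveI : Algebra.IsAlgebraic (ZMod ℓ) (IsLocalRing.ResidueField A) :=
    Algebra.IsIntegral.isAlgebraic
  have hφa : algebraMap (ZMod ℓ) (IsLocalRing.ResidueField A) = φ := rfl
  obtain ⟨m, e, w, hw, rfl⟩ := mem_fullC_decomp (k₀ := ZMod ℓ) N hz
  have hCmem : ∀ (c : ZMod ℓ) (x : LaurentSeries (ZMod ℓ)),
      x ∈ (modularFunctionFieldFullC (ZMod ℓ) N : Set (LaurentSeries (ZMod ℓ))) →
      HahnSeries.C c * x ∈ (modularFunctionFieldFullC (ZMod ℓ) N : Set (LaurentSeries (ZMod ℓ))) := by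
    intro c x hx
    refine mul_mem ?_ hx
    have h1 : (HahnSeries.C c : LaurentSeries (ZMod ℓ)) =
        algebraMap (ZMod ℓ) (LaurentSeries (ZMod ℓ)) c := by
      rw [algebraMap_laurentSeries_eq_single]
      rfl
    rw [h1]
    exact (modularFunctionFieldFullC (ZMod ℓ) N).algebraMap_mem _
  obtain ⟨n, e', w', hw', hint', hzz⟩ := exists_integral_decomp
    (modularFunctionFieldFullC (ZMod ℓ) N : Set (LaurentSeries (ZMod ℓ))) (zero_mem _)
    (fun x y hx hy => add_mem hx hy) hCmem X₀ e w hw hint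
  have hy : ∀ j, ∃ y : LaurentSeries A, coeffMap A.subtype y ∈ modularFunctionFieldBar N ∧
      (evalSer A X).IsIntegralElem y ∧ coeffMap (IsLocalRing.residue A) y = coeffMap φ (w' j) :=
    fun j => hbase (w' j) (hw' j) (hint' j)
  choose y hy1 hy2 hy3 using hy
  have ha : ∀ j, ∃ a : A, IsLocalRing.residue A a = e' j := fun j =>
    IsLocalRing.residue_surjective (e' j)
  choose a ha using ha
  refine ⟨∑ j, HahnSeries.C (a j) * y j, ?_, ?_, ?_⟩
  · rw [map_sum]
    refine sum_mem fun j _ => ?_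
    rw [map_mul, coeffMap_C']
    refine mul_mem ?_ (hy1 j)
    have h1 : (HahnSeries.C (A.subtype (a j)) : LaurentSeries (AlgebraicClosure ℚ)) =
        algebraMap (AlgebraicClosure ℚ) (LaurentSeries (AlgebraicClosure ℚ)) (a j : AlgebraicClosure ℚ) := by
      rw [algebraMap_laurentSeries_eq_single]
      rfl
    rw [h1]
    exact (modularFunctionFieldBar N).algebraMap_mem _
  · exact isIntegralElem_sum _ _ _ fun j _ =>
      RingHom.IsIntegralElem.mul _ (isIntegralElem_C _ _) (hy2 j)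
  · rw [hzz, map_sum]
    refine Finset.sum_congr rfl fun j _ => ?_
    rw [map_mul, coeffMap_C', ha j, hy3 j, hφa]

/-- **(H3), finite chart**: lifting of elements of `F_k` integral over `k[j̄]` to
`Core.IntElt A N` with `IsFin`, from the same statement for the elements defined over `𝔽_ℓ`. -/
theorem lift_fin_of_base [IsAlgClosed (IsLocalRing.ResidueField A)]
    (φ : ZMod ℓ →+* IsLocalRing.ResidueField A) (hφ : φ.IsIntegral)
    (hbase : ∀ w : LaurentSeries (ZMod ℓ), w ∈ modularFunctionFieldFullC (ZMod ℓ) N →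
      (evalSer (ZMod ℓ) (jqModC (ZMod ℓ))).IsIntegralElem w →
      ∃ c : IntElt A N, c.IsFin ∧ coeffMap (IsLocalRing.residue A) c.y = coeffMap φ w)
    {z : LaurentSeries (IsLocalRing.ResidueField A)}
    (hz : z ∈ modularFunctionFieldFullC (IsLocalRing.ResidueField A) N)
    (hint : (evalSer (IsLocalRing.ResidueField A)
      (jqModC (IsLocalRing.ResidueField A))).IsIntegralElem z) :
    ∃ c : IntElt A N, c.IsFin ∧ coeffMap (IsLocalRing.residue A) c.y = z := by
  have hint' : (evalSer (IsLocalRing.ResidueField A)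
      (coeffMap φ (jqModC (ZMod ℓ)))).IsIntegralElem z := by
    rwa [coeffMap_jqModC]
  obtain ⟨y, hy1, hy2, hy3⟩ := lift_of_base A φ hφ (jqModC (ZMod ℓ)) (jqModC A)
    (fun w hw hwi => by
      obtain ⟨c, hc, hcw⟩ := hbase w hw hwi
      exact ⟨c.y, c.mem, hc, hcw⟩) hz hint'
  exact ⟨⟨y, hy1, by rw [hy3]; exact hz⟩, hy2, hy3⟩

/-- **(H3), chart at infinity**: the same with `j⁻¹`. -/
theorem lift_inf_of_base [IsAlgClosed (IsLocalRing.ResidueField A)]
    (φ : ZMod ℓ →+* IsLocalRing.ResidueField A) (hφ : φ.IsIntegral)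
    (hbase : ∀ w : LaurentSeries (ZMod ℓ), w ∈ modularFunctionFieldFullC (ZMod ℓ) N →
      (evalSer (ZMod ℓ) (jqModC (ZMod ℓ))⁻¹).IsIntegralElem w →
      ∃ c : IntElt A N, c.IsInf ∧ coeffMap (IsLocalRing.residue A) c.y = coeffMap φ w)
    {z : LaurentSeries (IsLocalRing.ResidueField A)}
    (hz : z ∈ modularFunctionFieldFullC (IsLocalRing.ResidueField A) N)
    (hint : (evalSer (IsLocalRing.ResidueField A)
      (jqModC (IsLocalRing.ResidueField A))⁻¹).IsIntegralElem z) :
    ∃ c : IntElt A N, c.IsInf ∧ coeffMap (IsLocalRing.residue A) c.y = z := by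
  -- the inverse of `j` over `A`
  obtain ⟨c₀, ⟨u, hu, -⟩, -⟩ := hbase 0 (zero_mem _) (RingHom.isIntegralElem_zero _)
  have huniq : ∀ u' : LaurentSeries A, u' * jqModC A = 1 → u' = u := by
    intro u' hu'
    calc u' = u' * (u * jqModC A) := by rw [hu, mul_one]
      _ = (u' * jqModC A) * u := by ring
      _ = u := by rw [hu', one_mul]
  have hint' : (evalSer (IsLocalRing.ResidueField A)
      (coeffMap φ (jqModC (ZMod ℓ))⁻¹)).IsIntegralElem z := by
    rwa [map_inv₀, coeffMap_jqModC]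
  obtain ⟨y, hy1, hy2, hy3⟩ := lift_of_base A φ hφ (jqModC (ZMod ℓ))⁻¹ u
    (fun w hw hwi => by
      obtain ⟨c, ⟨u', hu', hc⟩, hcw⟩ := hbase w hw hwi
      rw [huniq u' hu'] at hc
      exact ⟨c.y, c.mem, hc, hcw⟩) hz hint'
  exact ⟨⟨y, hy1, by rw [hy3]; exact hz⟩, ⟨u, hu, hy2⟩, hy3⟩

end Lift

section Instances

variable {ℓ : ℕ} [Fact ℓ.Prime] (A : ValuationSubring (AlgebraicClosure ℚ))

/-- the residue field of a valuation subring of `ℚ̄` is algebraic over `𝔽_ℓ` (for any ring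
homomorphism `𝔽_ℓ → k`) -/
theorem isIntegral_residueField (φ : ZMod ℓ →+* IsLocalRing.ResidueField A) : φ.IsIntegral := by
  intro x
  obtain ⟨a, rfl⟩ := IsLocalRing.residue_surjective x
  -- an integer polynomial killing `a`
  have halg : IsAlgebraic ℤ (a : AlgebraicClosure ℚ) :=
    (IsFractionRing.isAlgebraic_iff ℤ ℚ (AlgebraicClosure ℚ)).mpr
      ((AlgebraicClosure.isAlgebraic ℚ).isAlgebraic (a : AlgebraicClosure ℚ))
  obtain ⟨P, hP0, hPa⟩ := halg
  -- its primitive part
  have hc0 : (P.content : AlgebraicClosure ℚ) ≠ 0 := by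
    have : P.content ≠ 0 := fun h => hP0 (Polynomial.content_eq_zero_iff.mp h)
    exact_mod_cast this
  have hPa1 : Polynomial.aeval (a : AlgebraicClosure ℚ) P.primPart = 0 := by
    have h1 := hPa
    rw [P.eq_C_content_mul_primPart, map_mul, Polynomial.aeval_C] at h1
    rcases mul_eq_zero.mp h1 with h2 | h2
    · exact absurd (by simpa using h2) hc0
    · exact h2
  have hprim : P.primPart.IsPrimitive := P.isPrimitive_primPart
  have hℓ : (ℓ : ℕ).Prime := Fact.out
  have hred : P.primPart.map (Int.castRingHom (ZMod ℓ)) ≠ 0 := by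
    intro h0
    have hdvd : Polynomial.C ((ℓ : ℕ) : ℤ) ∣ P.primPart := by
      rw [Polynomial.C_dvd_iff_dvd_coeff]
      intro n
      have := congrArg (fun q => q.coeff n) h0
      simp only [Polynomial.coeff_map, Polynomial.coeff_zero, eq_intCast] at this
      exact (ZMod.intCast_zmod_eq_zero_iff_dvd _ _).mp this
    have hu := hprim _ hdvd
    rw [Int.isUnit_iff] at hu
    rcases hu with h | h
    · have : (ℓ : ℤ) = 1 := h
      have : ℓ = 1 := by exact_mod_cast this
      exact hℓ.one_lt.ne' this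
    · have : (ℓ : ℤ) = -1 := h
      have h2 : (0 : ℤ) ≤ (ℓ : ℤ) := Int.natCast_nonneg ℓ
      omega
  -- evaluation in `A`
  have hA0 : Polynomial.eval₂ (Int.castRingHom A) a P.primPart = 0 := by
    apply Subtype.ext
    have h1 : ((Polynomial.eval₂ (Int.castRingHom A) a P.primPart : A) : AlgebraicClosure ℚ) =
        Polynomial.eval₂ (A.subtype.comp (Int.castRingHom A)) (A.subtype a) P.primPart :=
      Polynomial.hom_eval₂ P.primPart (Int.castRingHom A) A.subtype a
    rw [h1, ZeroMemClass.coe_zero, ← hPa1, Polynomial.aeval_def]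
    congr 1
  letI : Algebra (ZMod ℓ) (IsLocalRing.ResidueField A) := φ.toAlgebra
  have halg' : IsAlgebraic (ZMod ℓ) (IsLocalRing.residue A a) := by
    refine ⟨P.primPart.map (Int.castRingHom (ZMod ℓ)), hred, ?_⟩
    rw [Polynomial.aeval_def, Polynomial.eval₂_map]
    have h2 : (algebraMap (ZMod ℓ) (IsLocalRing.ResidueField A)).comp (Int.castRingHom (ZMod ℓ)) =
        (IsLocalRing.residue A).comp (Int.castRingHom A) := RingHom.ext_int _ _
    rw [h2, ← Polynomial.hom_eval₂, hA0, map_zero]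
  exact halg'.isIntegral

/-- the residue field of a valuation subring of `ℚ̄` over `ℓ` has characteristic `ℓ`
(copy of `charP_residueField_of_liesOverPrime`, to keep this file light) -/
theorem charP_resField (hA : A.LiesOverPrime ℓ) : CharP (IsLocalRing.ResidueField A) ℓ := by
  refine (CharP.charP_iff_prime_eq_zero (Fact.out : ℓ.Prime)).mpr ?_
  have h1 : ((ℓ : A) : AlgebraicClosure ℚ) ∈ A.nonunits := by
    have : ((ℓ : A) : AlgebraicClosure ℚ) = (ℓ : AlgebraicClosure ℚ) := by push_cast; rfl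
    rw [this]; exact hA
  have h2 : (ℓ : A) ∈ IsLocalRing.maximalIdeal A := ValuationSubring.coe_mem_nonunits_iff.mp h1
  have h3 := (IsLocalRing.residue_eq_zero_iff (ℓ : A)).mpr h2
  rwa [map_natCast] at h3

/-- there is a ring homomorphism `𝔽_ℓ → k` -/
theorem exists_zmod_hom (hA : A.LiesOverPrime ℓ) :
    Nonempty (ZMod ℓ →+* IsLocalRing.ResidueField A) := by
  haveI := charP_resField A hA
  exact ⟨ZMod.castHom (dvd_refl ℓ) (IsLocalRing.ResidueField A)⟩

variable {N : ℕ} [NeZero N]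

/-- **(H3) over `A` from (H3) over `𝔽_ℓ`, finite chart**, `A` over `ℓ`.  (`c.sp` form.) -/
theorem lift_fin_of_base_liesOver (hA : A.LiesOverPrime ℓ)
    (hbase : ∀ (φ : ZMod ℓ →+* IsLocalRing.ResidueField A) (w : LaurentSeries (ZMod ℓ)),
      w ∈ modularFunctionFieldFullC (ZMod ℓ) N →
      (evalSer (ZMod ℓ) (jqModC (ZMod ℓ))).IsIntegralElem w →
      ∃ c : IntElt A N, c.IsFin ∧ coeffMap (IsLocalRing.residue A) c.y = coeffMap φ w)
    (z : modularFunctionFieldFullC (IsLocalRing.ResidueField A) N)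
    (hint : (evalSer (IsLocalRing.ResidueField A)
      (jqModC (IsLocalRing.ResidueField A))).IsIntegralElem (z : LaurentSeries _)) :
    ∃ c : IntElt A N, c.IsFin ∧ c.sp = z := by
  haveI := Fermat.Agent.S18.H9.resAlgClosed (AlgebraicClosure ℚ) A
  obtain ⟨φ⟩ := exists_zmod_hom A hA
  obtain ⟨c, hc, hcz⟩ := lift_fin_of_base A φ (isIntegral_residueField A φ) (hbase φ) z.2 hint
  exact ⟨c, hc, Subtype.ext hcz⟩

/-- **(H3) over `A` from (H3) over `𝔽_ℓ`, chart at infinity**, `A` over `ℓ`. -/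
theorem lift_inf_of_base_liesOver (hA : A.LiesOverPrime ℓ)
    (hbase : ∀ (φ : ZMod ℓ →+* IsLocalRing.ResidueField A) (w : LaurentSeries (ZMod ℓ)),
      w ∈ modularFunctionFieldFullC (ZMod ℓ) N →
      (evalSer (ZMod ℓ) (jqModC (ZMod ℓ))⁻¹).IsIntegralElem w →
      ∃ c : IntElt A N, c.IsInf ∧ coeffMap (IsLocalRing.residue A) c.y = coeffMap φ w)
    (z : modularFunctionFieldFullC (IsLocalRing.ResidueField A) N)
    (hint : (evalSer (IsLocalRing.ResidueField A)
      (jqModC (IsLocalRing.ResidueField A))⁻¹).IsIntegralElem (z : LaurentSeries _)) :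
    ∃ c : IntElt A N, c.IsInf ∧ c.sp = z := by
  haveI := Fermat.Agent.S18.H9.resAlgClosed (AlgebraicClosure ℚ) A
  obtain ⟨φ⟩ := exists_zmod_hom A hA
  obtain ⟨c, hc, hcz⟩ := lift_inf_of_base A φ (isIntegral_residueField A φ) (hbase φ) z.2 hint
  exact ⟨c, hc, Subtype.ext hcz⟩

end Instances

section BaseRing

variable {N : ℕ} {ℓ : ℕ} [Fact ℓ.Prime] (A : ValuationSubring (AlgebraicClosure ℚ))

/-- **Adapter for the producer of (H3) over a base ring `R₀`** (e.g. `R₀ = ℤ_(ℓ)`): if every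
`w ∈ F₀` integral over `𝔽_ℓ[j̄]` is the reduction (along `ρ₀ : R₀ → 𝔽_ℓ`) of a series
`y₀ ∈ R₀((q))`, integral over `R₀[j]`, whose image in `ℚ̄((q))` lies in `F̄_N`, then the hypothesis
`hbase` of `lift_fin_of_base` holds for every `φ` with `residue ∘ ψ = φ ∘ ρ₀`. -/
theorem base_fin_of_ring {R₀ : Type*} [CommRing R₀] (ψ : R₀ →+* A) (ρ₀ : R₀ →+* ZMod ℓ)
    (φ : ZMod ℓ →+* IsLocalRing.ResidueField A)
    (hcomp : (IsLocalRing.residue A).comp ψ = φ.comp ρ₀)
    (hmemk : ∀ y : LaurentSeries A, coeffMap A.subtype y ∈ modularFunctionFieldBar N →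
      coeffMap (IsLocalRing.residue A) y ∈ modularFunctionFieldFullC (IsLocalRing.ResidueField A) N)
    (h0 : ∀ w : LaurentSeries (ZMod ℓ), w ∈ modularFunctionFieldFullC (ZMod ℓ) N →
      (evalSer (ZMod ℓ) (jqModC (ZMod ℓ))).IsIntegralElem w →
      ∃ y₀ : LaurentSeries R₀,
        coeffMap (A.subtype.comp ψ) y₀ ∈ modularFunctionFieldBar N ∧
        (evalSer R₀ (jqModC R₀)).IsIntegralElem y₀ ∧ coeffMap ρ₀ y₀ = w)
    (w : LaurentSeries (ZMod ℓ)) (hw : w ∈ modularFunctionFieldFullC (ZMod ℓ) N)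
    (hwi : (evalSer (ZMod ℓ) (jqModC (ZMod ℓ))).IsIntegralElem w) :
    ∃ c : IntElt A N, c.IsFin ∧ coeffMap (IsLocalRing.residue A) c.y = coeffMap φ w := by
  obtain ⟨y₀, hy1, hy2, hy3⟩ := h0 w hw hwi
  have hmem : coeffMap A.subtype (coeffMap ψ y₀) ∈ modularFunctionFieldBar N := by
    rw [coeffMap_coeffMap]
    exact hy1
  refine ⟨⟨coeffMap ψ y₀, hmem, hmemk _ hmem⟩, ?_, ?_⟩
  · have h1 := isIntegralElem_coeffMap ψ hy2
    rw [coeffMap_jqModC] at h1
    exact h1
  · show coeffMap (IsLocalRing.residue A) (coeffMap ψ y₀) = coeffMap φ w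
    rw [coeffMap_coeffMap, hcomp, ← coeffMap_coeffMap, hy3]

end BaseRing

end Fermat.Agent.S37.H448

end
end
-- ===== PACK-END S37/H448/AscentMod.lean

-- ===== PACK-BEGIN S14/H937/Ram.lean
section


/-!
# S14, LOCAL-I / LOCAL-D (helper937): ramification at finite level
-/

set_option autoImplicit false
set_option linter.style.haveILetI false
set_option linter.unusedSectionVars false

open NumberField IsDedekindDomain
open scoped Pointwise

namespace Fermat.Agent.S14.H937

section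

variable (K : IntermediateField ℚ Qb) [FiniteDimensional ℚ K]
variable (M : IntermediateField K Qb) [FiniteDimensional K M] [IsGalois K M]
variable (A : ValuationSubring Qb)

theorem numberField_K : NumberField K := ⟨⟩

theorem numberField_M : NumberField M :=
  haveI : FiniteDimensional ℚ M := Module.Finite.trans K M
  ⟨⟩

omit [FiniteDimensional ℚ K] [FiniteDimensional K M] [IsGalois K M] in
theorem toZbar_algebraMap (x : 𝓞 K) : toZbar M (algebraMap (𝓞 K) (𝓞 M) x) = toZbar K x := by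
  apply Subtype.ext
  rw [toZbar_coe, toZbar_coe]
  exact (IsScalarTower.algebraMap_apply K M Qb (x : K)).symm

omit [FiniteDimensional ℚ K] [FiniteDimensional K M] [IsGalois K M] in
theorem primeOf_liesOver : (primeOf M A).LiesOver (primeOf K A) := by
  constructor
  ext x
  rw [Ideal.under_def, Ideal.mem_comap, mem_primeOf, mem_primeOf]
  have := congrArg Subtype.val (toZbar_algebraMap K M x)
  rw [toZbar_coe, toZbar_coe] at this
  rw [this]


/-- If the inertia group of `P | 𝔮` in `Gal(M/K)` is trivial then `e(P | 𝔮) = 1`. -/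
theorem ramificationIdx'_eq_one_of_inertia (ℓ : ℕ) (hℓ : ℓ.Prime) (hA : A.LiesOverPrime ℓ)
    (hI : ∀ τ : M ≃ₐ[K] M, (∀ x : 𝓞 M, τ • x - x ∈ primeOf M A) → τ = 1) :
    (primeOf K A).ramificationIdx' (primeOf M A) = 1 := by
  haveI := numberField_K K
  haveI := numberField_M K M
  haveI := primeOf_liesOver K M A
  have hne : primeOf K A ≠ ⊥ := primeOf_ne_bot K A ℓ hℓ hA
  haveI : (primeOf K A).IsMaximal := Ring.DimensionLEOne.maximalOfPrime hne inferInstance
  haveI : IsGaloisGroup (M ≃ₐ[K] M) (𝓞 K) (𝓞 M) :=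
    IsGaloisGroup.of_isFractionRing (M ≃ₐ[K] M) (𝓞 K) (𝓞 M) K M
  have hcard : Nat.card ((primeOf M A).inertia (M ≃ₐ[K] M)) = 1 := by
    rw [Nat.card_eq_one_iff_unique]
    refine ⟨⟨?_⟩, ⟨1⟩⟩
    rintro ⟨τ, hτ⟩ ⟨τ', hτ'⟩
    apply Subtype.ext
    show τ = τ'
    rw [hI τ (fun x => hτ x), hI τ' (fun x => hτ' x)]
  rw [Ideal.ramificationIdx'_eq_ramificationIdx (primeOf K A) (primeOf M A) hne,
    ← Ideal.ramificationIdxIn_eq_ramificationIdx (primeOf K A) (primeOf M A) (M ≃ₐ[K] M),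
    ← Ideal.card_inertia_eq_ramificationIdxIn (G := M ≃ₐ[K] M) (primeOf K A) (primeOf M A)]
  exact hcard


/-- If the decomposition group of `P | 𝔮` in `Gal(M/K)` is trivial then `e(P | 𝔮) = 1` and
`f(P | 𝔮) = 1`. -/
theorem ramificationIdx'_inertiaDeg_eq_one_of_stabilizer (ℓ : ℕ) (hℓ : ℓ.Prime)
    (hA : A.LiesOverPrime ℓ)
    (hD : ∀ τ : M ≃ₐ[K] M, (∀ x : 𝓞 M, τ • x ∈ primeOf M A ↔ x ∈ primeOf M A) → τ = 1) :
    (primeOf K A).ramificationIdx' (primeOf M A) = 1 ∧
      (primeOf M A).inertiaDeg (𝓞 K) = 1 := by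
  haveI := numberField_K K
  haveI := numberField_M K M
  haveI := primeOf_liesOver K M A
  have hne : primeOf K A ≠ ⊥ := primeOf_ne_bot K A ℓ hℓ hA
  haveI : (primeOf K A).IsMaximal := Ring.DimensionLEOne.maximalOfPrime hne inferInstance
  haveI : IsGaloisGroup (M ≃ₐ[K] M) (𝓞 K) (𝓞 M) :=
    IsGaloisGroup.of_isFractionRing (M ≃ₐ[K] M) (𝓞 K) (𝓞 M) K M
  have hcard : Nat.card (MulAction.stabilizer (M ≃ₐ[K] M) (primeOf M A)) = 1 := by
    rw [Nat.card_eq_one_iff_unique]
    refine ⟨⟨?_⟩, ⟨1⟩⟩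
    have key : ∀ τ : M ≃ₐ[K] M, τ ∈ MulAction.stabilizer (M ≃ₐ[K] M) (primeOf M A) → τ = 1 := by
      intro τ hτ
      apply hD
      intro x
      have hτ' : τ • primeOf M A = primeOf M A := hτ
      conv_lhs => rw [← hτ']
      exact Ideal.smul_mem_pointwise_smul_iff
    rintro ⟨τ, hτ⟩ ⟨τ', hτ'⟩
    apply Subtype.ext
    show τ = τ'
    rw [key τ hτ, key τ' hτ']
  have h1 := Ideal.card_stabilizer_eq (G := M ≃ₐ[K] M) (primeOf K A) (primeOf M A)
  rw [hcard, Ideal.ramificationIdxIn_eq_ramificationIdx (primeOf K A) (primeOf M A) (M ≃ₐ[K] M),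
    Ideal.inertiaDegIn_eq_inertiaDeg (primeOf K A) (primeOf M A) (M ≃ₐ[K] M),
    ← Ideal.ramificationIdx'_eq_ramificationIdx (primeOf K A) (primeOf M A) hne] at h1
  have h2 := Nat.eq_one_of_mul_eq_one_right h1.symm
  have h3 := Nat.eq_one_of_mul_eq_one_left h1.symm
  exact ⟨h2, h3⟩


/-- The height-one prime of `𝓞 F` below `A`. -/
noncomputable def hos (F : Type*) [Field F] [NumberField F] [Algebra F Qb]
    (A : ValuationSubring Qb) (h : primeOf F A ≠ ⊥) : HeightOneSpectrum (𝓞 F) :=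
  ⟨primeOf F A, inferInstance, h⟩

theorem hos_asIdeal (F : Type*) [Field F] [NumberField F] [Algebra F Qb]
    (A : ValuationSubring Qb) (h : primeOf F A ≠ ⊥) : (hos F A h).asIdeal = primeOf F A := rfl

/-- If `e(P | 𝔮) = 1`, every value of `M` is a value of `K`. -/
theorem exists_valuation_eq_of_ramificationIdx' (ℓ : ℕ) (hℓ : ℓ.Prime) (hA : A.LiesOverPrime ℓ)
    (he : (primeOf K A).ramificationIdx' (primeOf M A) = 1) (y : M) (hy : y ≠ 0) :
    ∃ c : K, c ≠ 0 ∧ A.valuation (y : Qb) = A.valuation (c : Qb) := by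
  haveI := numberField_K K
  haveI := numberField_M K M
  haveI := primeOf_liesOver K M A
  have hneK : primeOf K A ≠ ⊥ := primeOf_ne_bot K A ℓ hℓ hA
  have hneM : primeOf M A ≠ ⊥ := primeOf_ne_bot M A ℓ hℓ hA
  set v := hos K A hneK with hv
  set w := hos M A hneM with hw
  haveI : w.asIdeal.LiesOver v.asIdeal := primeOf_liesOver K M A
  obtain ⟨c, hc⟩ := v.valuation_surjective K (w.valuation M y)
  have hwy : w.valuation M y ≠ 0 := (Valuation.ne_zero_iff _).mpr hy
  have hc0 : c ≠ 0 := by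
    rintro rfl
    rw [map_zero] at hc
    exact hwy hc.symm
  refine ⟨c, hc0, ?_⟩
  have h1 := HeightOneSpectrum.valuation_liesOver M v w c
  have he' : v.asIdeal.ramificationIdx' w.asIdeal = 1 := he
  rw [he', pow_one, hc] at h1
  have hcM : algebraMap K M c ≠ 0 := by simpa using hc0
  have h2 : w.valuation M (y / algebraMap K M c) = 1 := by
    rw [map_div₀, ← h1]
    exact div_self hwy
  have h3 := valuation_eq_one_of M A w (hos_asIdeal M A hneM) _ h2
  rw [map_div₀, map_div₀] at h3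
  have h4 : algebraMap M Qb (algebraMap K M c) = (c : Qb) :=
    (IsScalarTower.algebraMap_apply K M Qb c).symm
  rw [h4] at h3
  have hcv : A.valuation (c : Qb) ≠ 0 := by
    rw [Valuation.ne_zero_iff]
    simpa using hc0
  exact (div_eq_one_iff_eq hcv).mp h3

end

end Fermat.Agent.S14.H937

end
-- ===== PACK-END S14/H937/Ram.lean

-- ===== PACK-BEGIN S56/H66/VG0.lean
section




/-!
# S56 / FLAT-O, leaf FO-VG (helper66): valuation inputs, part 0

`vg0` : an element of `ℚ̄` fixed by the inertia group of `A | p` has `A`-valuation in `v(p)^ℤ`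
("the inertia field is unramified").
-/

set_option autoImplicit false
set_option linter.style.haveILetI false

open NumberField IsDedekindDomain
open scoped Pointwise

namespace Fermat.Agent.S56.H66

local notation "Qb" => AlgebraicClosure ℚ
local notation "GQ" => (AlgebraicClosure ℚ ≃ₐ[ℚ] AlgebraicClosure ℚ)

/-- A finite Galois extension of `ℚ` inside `ℚ̄` containing a given element. -/
theorem exists_finite_galois_mem (a : Qb) :
    ∃ F : IntermediateField ℚ Qb, FiniteDimensional ℚ F ∧ IsGalois ℚ F ∧ a ∈ F := by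
  have halg : IsAlgebraic ℚ a := (AlgebraicClosure.isAlgebraic ℚ).isAlgebraic a
  haveI : FiniteDimensional ℚ (IntermediateField.adjoin ℚ {a}) :=
    IntermediateField.adjoin.finiteDimensional halg.isIntegral
  haveI : Algebra.IsAlgebraic ℚ Qb := AlgebraicClosure.isAlgebraic ℚ
  haveI : IsAlgClosure ℚ Qb := ⟨inferInstance, inferInstance⟩
  haveI : Normal ℚ Qb := IsAlgClosure.normal ℚ Qb
  refine ⟨IntermediateField.normalClosure ℚ (IntermediateField.adjoin ℚ {a}) Qb,
    inferInstance, ?_, ?_⟩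
  · haveI : Normal ℚ (IntermediateField.normalClosure ℚ (IntermediateField.adjoin ℚ {a}) Qb) :=
      normalClosure.normal ℚ (IntermediateField.adjoin ℚ {a}) Qb
    exact ⟨⟩
  · exact (IntermediateField.le_normalClosure _) (IntermediateField.mem_adjoin_simple_self ℚ a)

/-- Finite-level core of `vg0`: `F/ℚ` finite Galois inside `ℚ̄`, `x ∈ F` fixed by the inertia
group (in `Gal(F/ℚ)`) of the prime of `𝓞 F` below `A`.  Then `v_A(x) ∈ v_A(p)^ℤ`. -/
theorem vg0_finite (p : ℕ) (hp : p.Prime) (A : ValuationSubring Qb) (hA : A.LiesOverPrime p)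
    (F : IntermediateField ℚ Qb) [FiniteDimensional ℚ F] [IsGalois ℚ F]
    (x : F) (hx0 : x ≠ 0)
    (hfix : ∀ τ ∈ (Fermat.Agent.S55.Bridge.H594.primeBelowF F A).inertia (F ≃ₐ[ℚ] F), τ x = x) :
    ∃ n : ℤ, A.valuation (x : Qb) = A.valuation (p : Qb) ^ n := by
  classical
  haveI : NumberField F := Fermat.Agent.S55.Bridge.H594.numberField_of_finite F
  set P : Ideal (𝓞 F) := Fermat.Agent.S55.Bridge.H594.primeBelowF F A with hP
  haveI hPprime : P.IsPrime := Fermat.Agent.S55.Bridge.H594.primeBelowF_isPrime F A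
  have hpP : ((p : ℕ) : 𝓞 F) ∈ P := Fermat.Agent.S55.Bridge.H594.natCast_mem_primeBelowF F A hA
  have hPne : P ≠ ⊥ := by
    intro h
    rw [h, Ideal.mem_bot] at hpP
    exact (by exact_mod_cast hp.ne_zero : ((p : ℕ) : 𝓞 F) ≠ 0) hpP
  haveI hPmax : P.IsMaximal := Ring.DimensionLEOne.maximalOfPrime hPne hPprime
  -- the inertia field
  let K : IntermediateField ℚ F := IntermediateField.fixedField (P.inertia (F ≃ₐ[ℚ] F))
  have hxK : x ∈ K := by
    rw [IntermediateField.mem_fixedField_iff]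
    intro τ hτ
    exact hfix τ hτ
  have he : (P.under (𝓞 K)).ramificationIdx ℤ = 1 := by
    apply Fermat.Agent.S17.H140.ramificationIdx_under_eq_one F K P
    intro σ hσ a ha
    exact (IntermediateField.mem_fixedField_iff _ a).mp ha σ hσ
  -- `K` as a number field with an algebra map to `ℚ̄`
  letI algK : Algebra K Qb := ((algebraMap F Qb).comp (algebraMap K F)).toAlgebra
  have halgK : ∀ y : K, algebraMap K Qb y = (((y : F)) : Qb) := fun y => rfl
  set Q : Ideal (𝓞 K) := P.under (𝓞 K) with hQ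
  haveI hQprime : Q.IsPrime := Ideal.IsPrime.under (𝓞 K) P
  have hmemQ : ∀ y : 𝓞 K, y ∈ Q ↔ (((y : K) : F) : Qb) ∈ A.nonunits := by
    intro y
    rw [hQ, Ideal.under_def, Ideal.mem_comap, hP, Fermat.Agent.S55.Bridge.H594.mem_primeBelowF]
    rfl
  have hpQ : ((p : ℕ) : 𝓞 K) ∈ Q := by
    rw [hmemQ]
    have hA' : (p : Qb) ∈ A.nonunits := hA
    simpa using hA'
  have hQne : Q ≠ ⊥ := by
    intro h
    rw [h, Ideal.mem_bot] at hpQ
    exact (by exact_mod_cast hp.ne_zero : ((p : ℕ) : 𝓞 K) ≠ 0) hpQ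
  let w : HeightOneSpectrum (𝓞 K) := ⟨Q, hQprime, hQne⟩
  have hw : w.asIdeal = Fermat.Agent.S14.H937.primeOf K A := by
    ext y
    rw [Fermat.Agent.S14.H937.mem_primeOf]
    exact hmemQ y
  -- the prime of `ℤ` below
  set q : Ideal ℤ := Q.under ℤ with hq
  haveI hqprime : q.IsPrime := Ideal.IsPrime.under ℤ Q
  have hpq : (p : ℤ) ∈ q := by
    rw [hq, Ideal.under_def, Ideal.mem_comap]
    simpa using hpQ
  have hqspan : q = Ideal.span {(p : ℤ)} := by
    have hmax : (Ideal.span {(p : ℤ)}).IsMaximal :=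
      PrincipalIdealRing.isMaximal_of_irreducible
        (Nat.prime_iff_prime_int.mp hp).irreducible
    have hle : Ideal.span {(p : ℤ)} ≤ q := (Ideal.span_singleton_le_iff_mem q).mpr hpq
    exact (hmax.eq_of_le hqprime.ne_top hle).symm
  have hqne : q ≠ ⊥ := by
    rw [hqspan]
    simp [hp.ne_zero]
  let v : HeightOneSpectrum ℤ := ⟨q, hqprime, hqne⟩
  haveI hlies : w.asIdeal.LiesOver v.asIdeal := ⟨rfl⟩
  have he' : v.asIdeal.ramificationIdx' w.asIdeal = 1 := by
    rw [Ideal.ramificationIdx'_eq_ramificationIdx v.asIdeal w.asIdeal hqne]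
    exact he
  have hvp : v.valuation ℚ (algebraMap ℤ ℚ (p : ℤ)) = WithZero.exp (-1 : ℤ) := by
    rw [HeightOneSpectrum.valuation_of_algebraMap]
    exact v.intValuation_singleton (by exact_mod_cast hp.ne_zero) hqspan
  have hwp : w.valuation K ((p : ℕ) : K) = WithZero.exp (-1 : ℤ) := by
    have h1 := HeightOneSpectrum.valuation_liesOver K v w (algebraMap ℤ ℚ (p : ℤ))
    rw [he', pow_one, hvp] at h1
    rw [h1]
    congr 1
  -- the element
  let xK : K := ⟨x, hxK⟩
  have hxK0 : xK ≠ 0 := by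
    intro h
    apply hx0
    have := congrArg (fun y : K => (y : F)) h
    simpa [xK] using this
  have hwx : w.valuation K xK ≠ 0 := (Valuation.ne_zero_iff _).mpr hxK0
  obtain ⟨m, hm⟩ : ∃ m : ℤ, w.valuation K xK = WithZero.exp m :=
    ⟨WithZero.log _, (WithZero.exp_log hwx).symm⟩
  refine ⟨-m, ?_⟩
  have hpK0 : ((p : ℕ) : K) ≠ 0 := by exact_mod_cast hp.ne_zero
  have h2 : w.valuation K (xK / ((p : ℕ) : K) ^ (-m)) = 1 := by
    rw [map_div₀, map_zpow₀, hwp, hm, ← WithZero.exp_zsmul]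
    simp
  have h3 := Fermat.Agent.S14.H937.valuation_eq_one_of K A w hw _ h2
  have h4 : algebraMap K Qb (xK / ((p : ℕ) : K) ^ (-m)) = (x : Qb) / (p : Qb) ^ (-m) := by
    rw [map_div₀, map_zpow₀, map_natCast]
    rfl
  rw [h4, map_div₀, map_zpow₀] at h3
  have hpv : A.valuation (p : Qb) ^ (-m) ≠ 0 := by
    apply zpow_ne_zero
    rw [Valuation.ne_zero_iff]
    exact_mod_cast hp.ne_zero
  exact (div_eq_one_iff_eq hpv).mp h3

/-- **(VG0)** An element of `ℚ̄` fixed by the inertia group of `A | p` has `A`-valuation in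
`v(p)^ℤ` (the inertia field is unramified). -/
theorem vg0 (p : ℕ) (hp : p.Prime) (A : ValuationSubring Qb) (hA : A.LiesOverPrime p)
    (a : Qb) (ha : a ≠ 0) (hfix : ∀ σ ∈ A.inertiaSubgroupIn ℚ, σ a = a) :
    ∃ n : ℤ, A.valuation a = A.valuation (p : Qb) ^ n := by
  obtain ⟨F, hFfin, hFgal, haF⟩ := exists_finite_galois_mem a
  haveI := hFfin
  haveI := hFgal
  have h := vg0_finite p hp A hA F ⟨a, haF⟩ (fun h0 => ha (congrArg Subtype.val h0)) ?_
  · exact h
  · intro τ hτ
    rw [← Fermat.Agent.S55.Bridge.H594.map_inertiaSubgroupIn_eq F A hp hA] at hτ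
    obtain ⟨σ, hσ, rfl⟩ := hτ
    apply Subtype.ext
    rw [Fermat.Agent.S55.Bridge.H594.restrictNormalHom_apply]
    exact hfix σ hσ

/-- (VG0), integral form: a non-unit of `A` fixed by inertia is divisible by `p` in `A`:
`v(a) ≤ v(p)`. -/
theorem vg0_le (p : ℕ) (hp : p.Prime) (A : ValuationSubring Qb) (hA : A.LiesOverPrime p)
    (a : Qb) (ha : a ∈ A.nonunits) (hfix : ∀ σ ∈ A.inertiaSubgroupIn ℚ, σ a = a) :
    A.valuation a ≤ A.valuation (p : Qb) := by
  rcases eq_or_ne a 0 with rfl | ha0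
  · simp
  obtain ⟨n, hn⟩ := vg0 p hp A hA a ha0 hfix
  have hpv : A.valuation (p : Qb) < 1 := (A.mem_nonunits_iff).mp hA
  have hp0 : A.valuation (p : Qb) ≠ 0 := by
    rw [Valuation.ne_zero_iff]
    exact_mod_cast hp.ne_zero
  have hav : A.valuation a < 1 := (A.mem_nonunits_iff).mp ha
  rw [hn] at hav ⊢
  -- `v(p)^n < 1` with `v(p) < 1` forces `n ≥ 1`
  have hn1 : 1 ≤ n := by
    by_contra hcon
    push Not at hcon
    have hn0 : n ≤ 0 := by omega
    have : 1 ≤ A.valuation (p : Qb) ^ n := by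
      obtain ⟨k, rfl⟩ : ∃ k : ℕ, n = -(k : ℤ) := ⟨(-n).toNat, by omega⟩
      rw [zpow_neg, zpow_natCast]
      exact (one_le_inv₀ (pow_pos (zero_lt_iff.mpr hp0) k)).mpr (pow_le_one₀ zero_le hpv.le)
    exact absurd hav (not_lt.mpr this)
  obtain ⟨k, rfl⟩ : ∃ k : ℕ, n = (k : ℤ) + 1 := ⟨(n - 1).toNat, by omega⟩
  rw [zpow_add_one₀ hp0, zpow_natCast]
  calc A.valuation (p : Qb) ^ k * A.valuation (p : Qb)
      ≤ 1 * A.valuation (p : Qb) := by
        gcongr
        exact pow_le_one₀ zero_le hpv.le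
    _ = A.valuation (p : Qb) := one_mul _

end Fermat.Agent.S56.H66

end
-- ===== PACK-END S56/H66/VG0.lean

-- ===== PACK-BEGIN S14/H894/Cyclo.lean
section


/-!
# S14 / H894 : the valuation of `ℚ̄` over `p` restricted to `ℚ` and to `ℚ(ζ_p)`

For a valuation subring `A` of `ℚ̄` over the prime `p`, a primitive `p`-th root of unity `ζ`
and `π = ζ - 1`:
* `exists_zpow_valuation_rat`: `v(c) ∈ v(p)^ℤ` for `c ∈ ℚˣ`;
* `valuation_natCast_eq_pow`: `v(p) = v(π)^(p-1)`;
* `exists_zpow_valuation_cyclo`: `v(x) ∈ v(π)^ℤ` for `x ∈ ℚ(ζ)ˣ`;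
* `exists_int_valuation_sub_lt_one`: every `x ∈ ℚ(ζ) ∩ A` is congruent to a rational integer
  modulo the maximal ideal of `A`.
-/

set_option autoImplicit false
set_option linter.style.haveILetI false

open scoped Pointwise

namespace Fermat.Agent.S14.H894

open Polynomial Fermat.Agent.S54

local notation "Qb" => AlgebraicClosure ℚ
local notation "GQ" => (AlgebraicClosure ℚ ≃ₐ[ℚ] AlgebraicClosure ℚ)

section rat

variable (A : ValuationSubring Qb) (p : ℕ) (hp : p.Prime) (hA : A.LiesOverPrime p)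

include hA in
theorem valuation_natCast_prime_lt_one : A.valuation (p : Qb) < 1 :=
  (ValuationSubring.mem_nonunits_iff (A := A)).mp hA

include hp in
theorem natCast_prime_ne_zero : (p : Qb) ≠ 0 := by
  exact_mod_cast hp.ne_zero

include hp in
theorem valuation_natCast_prime_ne_zero : A.valuation (p : Qb) ≠ 0 :=
  (Valuation.ne_zero_iff _).mpr (natCast_prime_ne_zero p hp)

theorem valuation_intCast_le_one (a : ℤ) : A.valuation (a : Qb) ≤ 1 :=
  (A.valuation_le_one_iff _).mpr (intCast_mem A a)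

include hp hA in
/-- Integers prime to `p` are units of `A`. -/
theorem valuation_intCast_eq_one (a : ℤ) (ha : ¬ (p : ℤ) ∣ a) : A.valuation (a : Qb) = 1 := by
  refine le_antisymm (valuation_intCast_le_one A a) ?_
  by_contra hlt
  rw [not_le] at hlt
  exact ha (dvd_of_intCast_mem_nonunits A p hp hA a
    ((ValuationSubring.mem_nonunits_iff (A := A)).mpr hlt))

include hp hA in
theorem exists_pow_valuation_nat (n : ℕ) (hn : n ≠ 0) :
    ∃ e : ℕ, A.valuation (n : Qb) = A.valuation (p : Qb) ^ e := by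
  obtain ⟨e, n', hn', rfl⟩ := Nat.exists_eq_pow_mul_and_not_dvd hn p hp.ne_one
  refine ⟨e, ?_⟩
  have h1 : A.valuation ((n' : ℤ) : Qb) = 1 :=
    valuation_intCast_eq_one A p hp hA n' (by exact_mod_cast hn')
  push_cast
  rw [map_mul, map_pow]
  have h2 : A.valuation (n' : Qb) = 1 := by exact_mod_cast h1
  rw [h2, mul_one]

include hp hA in
/-- The value group of `ℚ` is generated by the valuation of `p`. -/
theorem exists_zpow_valuation_rat (c : ℚ) (hc : c ≠ 0) :
    ∃ n : ℤ, A.valuation (c : Qb) = A.valuation (p : Qb) ^ n := by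
  have hnum : c.num.natAbs ≠ 0 := by
    rw [Int.natAbs_ne_zero]; exact Rat.num_ne_zero.mpr hc
  obtain ⟨e₁, h₁⟩ := exists_pow_valuation_nat A p hp hA c.num.natAbs hnum
  obtain ⟨e₂, h₂⟩ := exists_pow_valuation_nat A p hp hA c.den c.den_ne_zero
  refine ⟨(e₁ : ℤ) - e₂, ?_⟩
  have hv0 := valuation_natCast_prime_ne_zero A p hp
  have h3 : A.valuation ((c.num : ℤ) : Qb) = A.valuation (p : Qb) ^ e₁ := by
    rw [← h₁]
    rcases Int.natAbs_eq c.num with h | h
    · conv_lhs => rw [h]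
      simp
    · conv_lhs => rw [h]
      simp
  have h4 : (c : Qb) = (c.num : Qb) / (c.den : Qb) := by
    rw [Rat.cast_def]
  rw [h4, map_div₀, h3, h₂, zpow_sub₀ hv0, zpow_natCast, zpow_natCast]

include hA in
theorem valuation_intCast_lt_one_of_dvd (a : ℤ) (ha : (p : ℤ) ∣ a) :
    A.valuation (a : Qb) < 1 := by
  obtain ⟨t, rfl⟩ := ha
  push_cast
  rw [map_mul]
  have h1 := valuation_natCast_prime_lt_one A p hA
  have h2 := valuation_intCast_le_one A t
  exact lt_of_le_of_lt (mul_le_of_le_one_right zero_le h2) h1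

include hp hA in
/-- A rational number which is integral at `A` is congruent to an integer modulo the maximal
ideal. -/
theorem exists_int_valuation_rat_sub_lt_one (q : ℚ) (hq : A.valuation (q : Qb) ≤ 1) :
    ∃ m : ℤ, A.valuation ((q : Qb) - (m : Qb)) < 1 := by
  haveI : Fact p.Prime := ⟨hp⟩
  have hden : ¬ (p : ℤ) ∣ (q.den : ℤ) := by
    intro hdvd
    have hnum : ¬ (p : ℤ) ∣ q.num := by
      intro hdvd'
      have h1 : p ∣ q.num.natAbs := Int.natCast_dvd.mp hdvd'
      have h2 : p ∣ q.den := Int.natCast_dvd_natCast.mp hdvd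
      have h3 : p ∣ 1 := by
        have := Nat.dvd_gcd h1 h2
        rwa [Nat.Coprime.gcd_eq_one q.reduced] at this
      exact hp.one_lt.ne' (Nat.dvd_one.mp h3)
    have h1 := valuation_intCast_eq_one A p hp hA q.num hnum
    have h2 := valuation_intCast_lt_one_of_dvd A p hA (q.den : ℤ) hdvd
    have h4 : (q : Qb) = ((q.num : ℤ) : Qb) / (((q.den : ℕ) : ℤ) : Qb) := by
      rw [Rat.cast_def]; push_cast; rfl
    rw [h4, map_div₀, h1] at hq
    have hd0 : A.valuation (((q.den : ℕ) : ℤ) : Qb) ≠ 0 := by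
      rw [Valuation.ne_zero_iff]
      exact_mod_cast q.den_ne_zero
    rw [div_le_iff₀ (zero_lt_iff.mpr hd0), one_mul] at hq
    exact absurd hq (not_le.mpr h2)
  have hden' : ((q.den : ℕ) : ZMod p) ≠ 0 := by
    have : ((q.den : ℤ) : ZMod p) ≠ 0 := by
      rwa [Ne, ZMod.intCast_zmod_eq_zero_iff_dvd]
    exact_mod_cast this
  obtain ⟨m, hm⟩ := ZMod.intCast_surjective ((q.num : ZMod p) * ((q.den : ℕ) : ZMod p)⁻¹)
  refine ⟨m, ?_⟩
  have hdvd : (p : ℤ) ∣ q.num - m * q.den := by
    rw [← ZMod.intCast_zmod_eq_zero_iff_dvd]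
    push_cast
    rw [hm, mul_assoc, inv_mul_cancel₀ hden', mul_one, sub_self]
  have h1 := valuation_intCast_lt_one_of_dvd A p hA _ hdvd
  have h2 := valuation_intCast_eq_one A p hp hA (q.den : ℤ) hden
  have hd0 : ((q.den : ℕ) : Qb) ≠ 0 := by exact_mod_cast q.den_ne_zero
  have h4 : (q : Qb) - (m : Qb) = ((q.num - m * q.den : ℤ) : Qb) / (((q.den : ℕ) : ℤ) : Qb) := by
    rw [Rat.cast_def]
    push_cast
    field_simp
  rw [h4, map_div₀, h2, div_one]
  exact h1

end rat

section cyclo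

variable (A : ValuationSubring Qb) (p : ℕ) (hp : p.Prime) (hA : A.LiesOverPrime p)
  (ζ : Qb) (hζ : IsPrimitiveRoot ζ p)

theorem valuation_le_one_of_pow_eq_one {μ : Qb} {n : ℕ} (hn : n ≠ 0) (hμ : μ ^ n = 1) :
    A.valuation μ ≤ 1 := by
  have : A.valuation μ ^ n = 1 := by rw [← map_pow, hμ, map_one]
  exact ((pow_eq_one_iff_left hn).mp this).le

theorem valuation_pow_sub_one_le {μ : Qb} {n : ℕ} (hn : n ≠ 0) (hμ : μ ^ n = 1) (k : ℕ) :
    A.valuation (μ ^ k - 1) ≤ A.valuation (μ - 1) := by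
  rw [← geom_sum_mul μ k, map_mul]
  have h1 : A.valuation (∑ i ∈ Finset.range k, μ ^ i) ≤ 1 := by
    refine Valuation.map_sum_le _ fun i _ => ?_
    rw [map_pow]
    exact pow_le_one₀ zero_le (valuation_le_one_of_pow_eq_one A hn hμ)
  exact mul_le_of_le_one_left zero_le h1

include hp hζ in
theorem valuation_sub_one_eq_of_mem_primitiveRoots {μ : Qb} (hμ : μ ∈ primitiveRoots p Qb) :
    A.valuation (μ - 1) = A.valuation (ζ - 1) := by
  haveI : NeZero p := ⟨hp.ne_zero⟩
  have hμ' : IsPrimitiveRoot μ p := (mem_primitiveRoots hp.pos).mp hμ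
  obtain ⟨i, -, hi⟩ := hζ.eq_pow_of_pow_eq_one hμ'.pow_eq_one
  obtain ⟨j, -, hj⟩ := hμ'.eq_pow_of_pow_eq_one hζ.pow_eq_one
  refine le_antisymm ?_ ?_
  · rw [← hi]
    exact valuation_pow_sub_one_le A hp.ne_zero hζ.pow_eq_one i
  · rw [← hj]
    exact valuation_pow_sub_one_le A hp.ne_zero hμ'.pow_eq_one j

include hp hζ in
/-- `v(p) = v(ζ - 1)^(p-1)`. -/
theorem valuation_natCast_eq_pow :
    A.valuation (p : Qb) = A.valuation (ζ - 1) ^ (p - 1) := by
  haveI : Fact p.Prime := ⟨hp⟩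
  have h1 : (p : Qb) = ∏ μ ∈ primitiveRoots p Qb, (1 - μ) := by
    have := eval_one_cyclotomic_prime (R := Qb) (p := p)
    rw [cyclotomic_eq_prod_X_sub_primitiveRoots hζ, eval_prod] at this
    rw [← this]
    refine Finset.prod_congr rfl fun μ _ => ?_
    simp
  rw [h1, map_prod]
  have h2 : ∀ μ ∈ primitiveRoots p Qb, A.valuation (1 - μ) = A.valuation (ζ - 1) := by
    intro μ hμ
    rw [← valuation_sub_one_eq_of_mem_primitiveRoots A p hp ζ hζ hμ, Valuation.map_sub_swap]
  rw [Finset.prod_congr rfl h2, Finset.prod_const, hζ.card_primitiveRoots,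
    Nat.totient_prime hp]

include hp hA hζ in
theorem valuation_zeta_sub_one_lt_one : A.valuation (ζ - 1) < 1 := by
  by_contra h
  rw [not_lt] at h
  have h1 := valuation_natCast_prime_lt_one A p hA
  rw [valuation_natCast_eq_pow A p hp ζ hζ] at h1
  exact absurd (one_le_pow₀ h) (not_le.mpr h1)

include hp hζ in
theorem valuation_zeta_sub_one_ne_zero : A.valuation (ζ - 1) ≠ 0 := by
  rw [Valuation.ne_zero_iff, sub_ne_zero]
  exact hζ.ne_one hp.one_lt

end cyclo

section terms

variable (A : ValuationSubring Qb) (K : IntermediateField ℚ Qb) (γ : Qb) (n : ℕ)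

/-- In an integral `K`-linear combination of powers of `γ`, every term is integral and the
terms of positive degree lie in the maximal ideal. -/
theorem terms_of_mem
    (hindep : ∀ k : ℕ, 0 < k → k < n → ∀ c ∈ K, A.valuation γ ^ k ≠ A.valuation c)
    (c : ℕ → Qb) (hc : ∀ i, c i ∈ K)
    (hy : A.valuation (∑ i ∈ Finset.range n, c i * γ ^ i) ≤ 1) :
    (∀ i ∈ Finset.range n, A.valuation (c i * γ ^ i) ≤ 1) ∧
      ∀ i ∈ Finset.range n, 0 < i → A.valuation (c i * γ ^ i) < 1 := by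
  have hdist := distinct_terms A K γ n hindep c hc γ rfl
  have hle : ∀ i ∈ Finset.range n, A.valuation (c i * γ ^ i) ≤ 1 :=
    (valuation_sum_le_one_iff _ _ _ hdist).mp hy
  refine ⟨hle, ?_⟩
  intro i hi hi0
  refine lt_of_le_of_ne (hle i hi) ?_
  intro h1
  by_cases hci : c i = 0
  · rw [hci, zero_mul, map_zero] at h1; exact zero_ne_one h1
  · refine hindep i hi0 (Finset.mem_range.mp hi) (c i)⁻¹ (K.inv_mem (hc i)) ?_
    rw [map_inv₀]
    refine eq_inv_of_mul_eq_one_left ?_
    rw [mul_comm, ← map_pow, ← map_mul]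
    exact h1

end terms

section cycloField

variable (A : ValuationSubring Qb) (p : ℕ) (hp : p.Prime) (hA : A.LiesOverPrime p)
  (ζ : Qb) (hζ : IsPrimitiveRoot ζ p)

/-- The monic polynomial of degree `p - 1` over `ℚ` killing `ζ - 1`. -/
noncomputable def cycloShift : (⊥ : IntermediateField ℚ Qb)[X] :=
  (cyclotomic p (⊥ : IntermediateField ℚ Qb)).comp (X + C 1)

theorem cycloShift_monic : (cycloShift p).Monic :=
  (cyclotomic.monic p _).comp_X_add_C 1

include hp in
theorem cycloShift_natDegree : (cycloShift p).natDegree = p - 1 := by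
  unfold cycloShift
  rw [natDegree_comp, natDegree_X_add_C, mul_one, natDegree_cyclotomic, Nat.totient_prime hp]

include hp hζ in
theorem cycloShift_aeval : aeval (ζ - 1) (cycloShift p) = 0 := by
  unfold cycloShift
  rw [aeval_comp]
  simp only [map_add, aeval_X, map_one, sub_add_cancel]
  rw [aeval_def, ← eval_map, map_cyclotomic]
  exact hζ.isRoot_cyclotomic hp.pos

theorem mem_adjoinField_bot_of_mem (x : Qb) (hx : x ∈ IntermediateField.adjoin ℚ {ζ}) :
    x ∈ adjoinField ⊥ (ζ - 1) := by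
  have hle : IntermediateField.adjoin ℚ {ζ} ≤ adjoinField ⊥ (ζ - 1) := by
    rw [IntermediateField.adjoin_le_iff, Set.singleton_subset_iff]
    have h1 : ζ - 1 ∈ adjoinField ⊥ (ζ - 1) :=
      IntermediateField.subset_adjoin ℚ _ (Set.mem_union_right _ rfl)
    have h2 : (ζ - 1) + 1 ∈ adjoinField ⊥ (ζ - 1) :=
      (adjoinField ⊥ (ζ - 1)).add_mem h1 (adjoinField ⊥ (ζ - 1)).one_mem
    simpa using h2
  exact hle hx

include hp hA hζ in
theorem cyclo_indep : ∀ k : ℕ, 0 < k → k < (cycloShift p).natDegree →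
    ∀ c ∈ (⊥ : IntermediateField ℚ Qb), A.valuation (ζ - 1) ^ k ≠ A.valuation c := by
  intro k hk0 hk c hc heq
  rw [cycloShift_natDegree p hp] at hk
  have hπ0 := valuation_zeta_sub_one_ne_zero A p hp ζ hζ
  have hπ1 := valuation_zeta_sub_one_lt_one A p hp hA ζ hζ
  rw [IntermediateField.mem_bot] at hc
  obtain ⟨q, rfl⟩ := hc
  by_cases hq : q = 0
  · subst hq
    rw [map_zero, map_zero] at heq
    exact pow_ne_zero k hπ0 heq
  · obtain ⟨m, hm⟩ := exists_zpow_valuation_rat A p hp hA q hq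
    rw [eq_ratCast, hm, valuation_natCast_eq_pow A p hp ζ hζ, ← zpow_natCast, ← zpow_natCast,
      ← zpow_mul] at heq
    have h1 := (zpow_right_strictAnti₀ (zero_lt_iff.mpr hπ0) hπ1).injective heq
    have h2 : ((p - 1 : ℕ) : ℤ) ∣ (k : ℤ) := ⟨m, h1⟩
    have h3 : (p - 1) ∣ k := by exact_mod_cast h2
    exact absurd (Nat.le_of_dvd hk0 h3) (not_le.mpr hk)

include hp hA hζ in
/-- The value group of `ℚ(ζ)` is generated by the valuation of `ζ - 1`. -/
theorem exists_zpow_valuation_cyclo (x : Qb) (hx : x ∈ IntermediateField.adjoin ℚ {ζ})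
    (hx0 : x ≠ 0) : ∃ n : ℤ, A.valuation x = A.valuation (ζ - 1) ^ n := by
  obtain ⟨c, hc, rfl⟩ := exists_coeffs_of_mem_adjoinField ⊥ (ζ - 1) (cycloShift p)
    (cycloShift_monic p) (cycloShift_aeval p hp ζ hζ) x (mem_adjoinField_bot_of_mem ζ x hx)
  have hindep := cyclo_indep A p hp hA ζ hζ
  have hdist := distinct_terms A ⊥ (ζ - 1) _ hindep c hc (ζ - 1) rfl
  have hv := valuation_sum_eq_sup A.valuation _ _ hdist
  have hne : (Finset.range (cycloShift p).natDegree).Nonempty := by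
    rw [cycloShift_natDegree p hp, Finset.nonempty_range_iff]
    have := hp.two_le
    omega
  obtain ⟨i, hi, his⟩ := Finset.exists_mem_eq_sup _ hne
    (fun i => A.valuation (c i * (ζ - 1) ^ i))
  rw [his] at hv
  rw [hv]
  have hci : c i ≠ 0 := by
    intro h0
    rw [h0, zero_mul, map_zero] at hv
    exact hx0 ((map_eq_zero _).mp hv)
  have hci' := hc i
  rw [IntermediateField.mem_bot] at hci'
  obtain ⟨q, hq⟩ := hci'
  have hq0 : q ≠ 0 := by
    rintro rfl
    rw [map_zero] at hq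
    exact hci hq.symm
  obtain ⟨m, hm⟩ := exists_zpow_valuation_rat A p hp hA q hq0
  refine ⟨((p - 1 : ℕ) : ℤ) * m + i, ?_⟩
  have hπ0 := valuation_zeta_sub_one_ne_zero A p hp ζ hζ
  rw [map_mul, map_pow, ← hq, eq_ratCast, hm, valuation_natCast_eq_pow A p hp ζ hζ,
    zpow_add₀ hπ0, zpow_mul, zpow_natCast, zpow_natCast]

include hp hA hζ in
/-- Every element of `ℚ(ζ)` which is integral at `A` is congruent to a rational integer modulo
the maximal ideal of `A` (the residue field of `ℚ(ζ)` at `p` is `𝔽_p`). -/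
theorem exists_int_valuation_sub_lt_one (x : Qb) (hx : x ∈ IntermediateField.adjoin ℚ {ζ})
    (hxA : A.valuation x ≤ 1) : ∃ m : ℤ, A.valuation (x - (m : Qb)) < 1 := by
  obtain ⟨c, hc, rfl⟩ := exists_coeffs_of_mem_adjoinField ⊥ (ζ - 1) (cycloShift p)
    (cycloShift_monic p) (cycloShift_aeval p hp ζ hζ) x (mem_adjoinField_bot_of_mem ζ x hx)
  have hindep := cyclo_indep A p hp hA ζ hζ
  obtain ⟨hle, hlt⟩ := terms_of_mem A ⊥ (ζ - 1) _ hindep c hc hxA
  have h0mem : 0 ∈ Finset.range (cycloShift p).natDegree := by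
    rw [cycloShift_natDegree p hp, Finset.mem_range]
    have := hp.two_le
    omega
  have hc0 := hc 0
  rw [IntermediateField.mem_bot] at hc0
  obtain ⟨q, hq⟩ := hc0
  have hq1 : A.valuation (q : Qb) ≤ 1 := by
    have := hle 0 h0mem
    rwa [pow_zero, mul_one, ← hq, eq_ratCast] at this
  obtain ⟨m, hm⟩ := exists_int_valuation_rat_sub_lt_one A p hp hA q hq1
  refine ⟨m, ?_⟩
  rw [← Finset.add_sum_erase _ _ h0mem, pow_zero, mul_one, ← hq, eq_ratCast, add_sub_right_comm]
  refine lt_of_le_of_lt (Valuation.map_add _ _ _) (max_lt hm ?_)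
  refine Valuation.map_sum_lt _ one_ne_zero fun i hi => ?_
  rw [Finset.mem_erase] at hi
  exact hlt i hi.2 (Nat.pos_of_ne_zero hi.1)

end cycloField

end Fermat.Agent.S14.H894

end
-- ===== PACK-END S14/H894/Cyclo.lean

-- ===== PACK-BEGIN S56/H66/VG1.lean
section




/-!
# S56 / FLAT-O, leaf FO-VG (helper66): valuation inputs, part 1

`A` a valuation subring of `ℚ̄` over the prime `p`, `I` its inertia group, `ζ` a primitive
`p`-th root of unity, `π = ζ - 1`, `I₁ = {σ ∈ I : σ ζ = ζ}`.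

* `vg1` : an element of `ℚ̄` fixed by `I₁` has `A`-valuation in `v(π)^ℤ`;
* `vg1_le` : a non-unit of `A` fixed by `I₁` has valuation `≤ v(π)`.
-/

set_option autoImplicit false
set_option linter.style.haveILetI false

open scoped Pointwise

namespace Fermat.Agent.S56.H66

open Polynomial Fermat.Agent.S14.H894

local notation "Qb" => AlgebraicClosure ℚ
local notation "GQ" => (AlgebraicClosure ℚ ≃ₐ[ℚ] AlgebraicClosure ℚ)

/-- The inertia field `ℚ̄^{I_A}`. -/
noncomputable def inertiaField (A : ValuationSubring Qb) : IntermediateField ℚ Qb :=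
  IntermediateField.fixedField (A.inertiaSubgroupIn ℚ)

theorem mem_inertiaField_iff (A : ValuationSubring Qb) (x : Qb) :
    x ∈ inertiaField A ↔ ∀ σ ∈ A.inertiaSubgroupIn ℚ, σ x = x :=
  IntermediateField.mem_fixedField_iff _ x

section

variable (A : ValuationSubring Qb) (p : ℕ) (hp : p.Prime) (hA : A.LiesOverPrime p)
  (ζ : Qb) (hζ : IsPrimitiveRoot ζ p)

include hp hA in
/-- (VG0) for the inertia field. -/
theorem exists_zpow_valuation_inertiaField (c : Qb) (hc : c ∈ inertiaField A) (hc0 : c ≠ 0) :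
    ∃ m : ℤ, A.valuation c = A.valuation (p : Qb) ^ m :=
  vg0 p hp A hA c hc0 ((mem_inertiaField_iff A c).mp hc)

/-- The monic polynomial of degree `p - 1` over the inertia field killing `ζ - 1`. -/
noncomputable def cycloShiftI : (inertiaField A)[X] :=
  (cyclotomic p (inertiaField A)).comp (X + C 1)

theorem cycloShiftI_monic : (cycloShiftI A p).Monic :=
  (cyclotomic.monic p _).comp_X_add_C 1

include hp in
theorem cycloShiftI_natDegree : (cycloShiftI A p).natDegree = p - 1 := by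
  unfold cycloShiftI
  rw [natDegree_comp, natDegree_X_add_C, mul_one, natDegree_cyclotomic, Nat.totient_prime hp]

include hp hζ in
theorem cycloShiftI_aeval : aeval (ζ - 1) (cycloShiftI A p) = 0 := by
  unfold cycloShiftI
  rw [aeval_comp]
  simp only [map_add, aeval_X, map_one, sub_add_cancel]
  rw [aeval_def, ← eval_map, map_cyclotomic]
  exact hζ.isRoot_cyclotomic hp.pos

/-- An element fixed by `I₁` lies in `ℚ̄^I(ζ - 1)`. -/
theorem mem_adjoinField_inertiaField (a : Qb)
    (hfix : ∀ σ ∈ A.inertiaSubgroupIn ℚ, σ ζ = ζ → σ a = a) :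
    a ∈ adjoinField (inertiaField A) (ζ - 1) := by
  haveI : Algebra.IsAlgebraic ℚ Qb := AlgebraicClosure.isAlgebraic ℚ
  haveI : IsAlgClosure ℚ Qb := ⟨inferInstance, inferInstance⟩
  haveI : Normal ℚ Qb := IsAlgClosure.normal ℚ Qb
  haveI : IsGalois ℚ Qb := isGalois_iff.mpr ⟨inferInstance, inferInstance⟩
  rw [← InfiniteGalois.fixedField_fixingSubgroup (adjoinField (inertiaField A) (ζ - 1)),
    IntermediateField.mem_fixedField_iff]
  intro σ hσ
  rw [mem_fixingSubgroup_adjoinField_iff] at hσ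
  obtain ⟨hK, hπ⟩ := hσ
  have hI : σ ∈ A.inertiaSubgroupIn ℚ :=
    Fermat.Agent.A2.IF.H9.mem_inertiaSubgroupIn_of_fixes_fixedField A σ hK
  refine hfix σ hI ?_
  have := congrArg (· + 1) hπ
  simpa using this

include hp hA hζ in
theorem cycloI_indep : ∀ k : ℕ, 0 < k → k < (cycloShiftI A p).natDegree →
    ∀ c ∈ inertiaField A, A.valuation (ζ - 1) ^ k ≠ A.valuation c := by
  intro k hk0 hk c hc heq
  rw [cycloShiftI_natDegree A p hp] at hk
  have hπ0 := valuation_zeta_sub_one_ne_zero A p hp ζ hζ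
  have hπ1 := valuation_zeta_sub_one_lt_one A p hp hA ζ hζ
  by_cases hq : c = 0
  · subst hq
    rw [map_zero] at heq
    exact pow_ne_zero k hπ0 heq
  · obtain ⟨m, hm⟩ := exists_zpow_valuation_inertiaField A p hp hA c hc hq
    rw [hm, valuation_natCast_eq_pow A p hp ζ hζ, ← zpow_natCast, ← zpow_natCast,
      ← zpow_mul] at heq
    have h1 := (zpow_right_strictAnti₀ (zero_lt_iff.mpr hπ0) hπ1).injective heq
    have h2 : ((p - 1 : ℕ) : ℤ) ∣ (k : ℤ) := ⟨m, h1⟩
    have h3 : (p - 1) ∣ k := by exact_mod_cast h2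
    exact absurd (Nat.le_of_dvd hk0 h3) (not_le.mpr hk)

include hp hA hζ in
/-- **(VG1)** An element of `ℚ̄` fixed by `I₁ = {σ ∈ I : σ ζ = ζ}` has valuation in
`v(ζ - 1)^ℤ`. -/
theorem vg1 (a : Qb) (ha : a ≠ 0)
    (hfix : ∀ σ ∈ A.inertiaSubgroupIn ℚ, σ ζ = ζ → σ a = a) :
    ∃ n : ℤ, A.valuation a = A.valuation (ζ - 1) ^ n := by
  obtain ⟨c, hc, rfl⟩ := exists_coeffs_of_mem_adjoinField (inertiaField A) (ζ - 1)
    (cycloShiftI A p) (cycloShiftI_monic A p) (cycloShiftI_aeval A p hp ζ hζ) a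
    (mem_adjoinField_inertiaField A ζ a hfix)
  have hindep := cycloI_indep A p hp hA ζ hζ
  have hdist := distinct_terms A (inertiaField A) (ζ - 1) _ hindep c hc (ζ - 1) rfl
  have hv := valuation_sum_eq_sup A.valuation _ _ hdist
  have hne : (Finset.range (cycloShiftI A p).natDegree).Nonempty := by
    rw [cycloShiftI_natDegree A p hp, Finset.nonempty_range_iff]
    have := hp.two_le
    omega
  obtain ⟨i, hi, his⟩ := Finset.exists_mem_eq_sup _ hne
    (fun i => A.valuation (c i * (ζ - 1) ^ i))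
  rw [his] at hv
  rw [hv]
  have hci : c i ≠ 0 := by
    intro h0
    rw [h0, zero_mul, map_zero] at hv
    exact ha ((map_eq_zero _).mp hv)
  obtain ⟨m, hm⟩ := exists_zpow_valuation_inertiaField A p hp hA (c i) (hc i) hci
  refine ⟨((p - 1 : ℕ) : ℤ) * m + i, ?_⟩
  have hπ0 := valuation_zeta_sub_one_ne_zero A p hp ζ hζ
  rw [map_mul, map_pow, hm, valuation_natCast_eq_pow A p hp ζ hζ,
    zpow_add₀ hπ0, zpow_mul, zpow_natCast, zpow_natCast]

end

end Fermat.Agent.S56.H66

end
-- ===== PACK-END S56/H66/VG1.lean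

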