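import Mathlib
import Mathlib.RingTheory.MvPolynomial.EulerIdentity
import Mathlib.LinearAlgebra.Dual.Lemmas
import Fermat.Prelude.Def_AlgebraicCurve_CanonicalDivisor
import Fermat.Prelude.Def_ModularCurve_ArithmeticGalois
import Fermat.Prelude.Def_AlgebraicCurve_BaseChangeGalois
import Fermat.Agent.Pack.S15.AE3L1
import Fermat.Agent.Pack.S15.AE1L3
import Fermat.Agent.Pack.S15.AE3L3
import Fermat.Agent.Pack.S15.AE3L2
import Fermat.Agent.Pack.S15.AE1L0
import Fermat.Agent.Pack.S15.AE2L3
import Fermat.Agent.Pack.S15.AE2L2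
import Fermat.Agent.Pack.S15.AE1L2
import Fermat.Agent.Pack.S15.AE2L1
import Fermat.Agent.Pack.S15.AE1L1
import Fermat.Agent.Pack.S15.AE3L0
import Fermat.Agent.Pack.S15.AE0L0
import Fermat.Agent.Pack.S15.AE0L2

-- ===== PACK-BEGIN Lib/RR/H80/Res/Bridge.lean
section



/-!
# The divisor of a Kähler differential is a canonical divisor

`K` algebraically closed of characteristic `0`, `F/K` a function field (`FF1 K F`).
For `ω ∈ Ω[F/K]`, `ω ≠ 0`, the function `v ↦ v.ordDifferential ω` is a divisor `W` (finite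
support) and `dim_K H¹(D) = ℓ(W - D)` for all `D` (`exists_canonical_kaehler`).  Hence
`deg W = 2 g - 2` with `g = genusFF K F`, `HasCanonicalDivisor`, and
`AlgebraicCurve.genus K F = genusFF K F`.

Method: Tate's residues.  `rho : F → Hom_K(𝔸, K)` is a `K`-derivation into the `F`-module
`Hom_K(𝔸, K)`, hence factors through `Ω[F/K]` (`rhoK`).
-/

set_option autoImplicit false

noncomputable section

open AlgebraicCurve KaehlerDifferential

namespace Fermat.Agent.Lib.RR.H80

open Fermat.Agent.Lib.RR LinearMap Module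

variable {K F : Type*} [Field K] [Field F] [Algebra K F]

variable (K F) in
/-- `Hom_K(𝔸, K)` with its `F`-module structure `(x ω)(α) = ω (x α)`. -/
def DualF : Type _ := Module.Dual K ↥(repartitions K F)

instance : AddCommGroup (DualF K F) :=
  inferInstanceAs (AddCommGroup (Module.Dual K ↥(repartitions K F)))

instance : Module K (DualF K F) :=
  inferInstanceAs (Module K (Module.Dual K ↥(repartitions K F)))

/-- The underlying functional. -/
def DualF.fn (ω : DualF K F) : Module.Dual K ↥(repartitions K F) := ω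

/-- Constructor. -/
def DualF.mk (ω : Module.Dual K ↥(repartitions K F)) : DualF K F := ω

@[simp] theorem DualF.fn_mk (ω : Module.Dual K ↥(repartitions K F)) : (DualF.mk ω).fn = ω := rfl

@[simp] theorem DualF.fn_add (ω ω' : DualF K F) : (ω + ω').fn = ω.fn + ω'.fn := rfl

@[simp] theorem DualF.fn_zero : (0 : DualF K F).fn = 0 := rfl

@[simp] theorem DualF.fn_smulK (c : K) (ω : DualF K F) : (c • ω).fn = c • ω.fn := rfl

theorem DualF.ext {ω ω' : DualF K F} (h : ∀ α, ω.fn α = ω'.fn α) : ω = ω' :=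
  LinearMap.ext h

instance : Module F (DualF K F) where
  smul x ω := DualF.mk (smulD x ω.fn)
  one_smul ω := smulD_one ω.fn
  mul_smul x y ω := (smulD_smulD x y ω.fn).symm
  smul_zero x := smulD_zero_right x
  smul_add x ω ω' := by
    apply DualF.ext
    intro α
    rfl
  add_smul x y ω := by
    apply DualF.ext
    intro α
    show ω.fn ((x + y) • α) = ω.fn (x • α) + ω.fn (y • α)
    rw [add_smul, map_add]
  zero_smul ω := smulD_zero_left ω.fn

@[simp] theorem DualF.fn_smul (x : F) (ω : DualF K F) : (x • ω).fn = smulD x ω.fn := rfl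

theorem DualF.smul_apply (x : F) (ω : DualF K F) (α : ↥(repartitions K F)) :
    (x • ω).fn α = ω.fn (x • α) := rfl

instance : IsScalarTower K F (DualF K F) where
  smul_assoc c x ω := by
    apply DualF.ext
    intro α
    show ω.fn ((c • x) • α) = c • ω.fn (x • α)
    rw [smul_assoc, map_smul]

variable [hFF : FF1 K F]

/-- `t ↦ rho t` as a derivation. -/
def rhoDer : Derivation K F (DualF K F) where
  toFun t := DualF.mk (rho t)
  map_add' t s := rho_add t s
  map_smul' c t := rho_smul c t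
  map_one_eq_zero' := rho_one
  leibniz' t s := by
    apply DualF.ext
    intro α
    show rho (t * s) α = rho s (t • α) + rho t (s • α)
    rw [rho_mul, add_comm]

@[simp] theorem rhoDer_apply (t : F) : (rhoDer (K := K) t).fn = rho t := rfl

/-- The Weil differential attached to a Kähler differential. -/
def rhoK : Ω[F⁄K] →ₗ[F] DualF K F := (rhoDer (K := K) (F := F)).liftKaehlerDifferential

theorem rhoK_D (t : F) : (rhoK (D K F t)).fn = rho t := by
  unfold rhoK
  rw [Derivation.liftKaehlerDifferential_comp_D]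
  rfl

theorem rhoK_smul_D (c t : F) (α : ↥(repartitions K F)) :
    (rhoK (c • D K F t)).fn α = rho t (c • α) := by
  rw [map_smul, DualF.smul_apply, rhoK_D]

/-! ### Local behaviour -/

theorem rhoK_singleA_eq_zero (v : Place K F) {π c a : F} (hπ : 0 ≤ v.ord π)
    (hca : 0 ≤ v.ord (c * a)) :
    (rhoK (c • D K F π)).fn (singleA v a) = 0 := by
  rw [rhoK_smul_D, smul_singleA]
  exact rho_singleA_eq_zero v hπ hca

theorem rhoK_singleA_eq_one (v : Place K F) {π c : F} (hπ : v.ord π = 1) (hc : c ≠ 0) :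
    (rhoK (c • D K F π)).fn (singleA v (c * π)⁻¹) = 1 := by
  have hπ0 : π ≠ 0 := ne_zero_of_ord_ne_zero v (by rw [hπ]; exact one_ne_zero)
  rw [rhoK_smul_D, smul_singleA]
  have : c * (c * π)⁻¹ = π⁻¹ := by
    field_simp
  rw [this]
  exact rho_unif v hπ

omit hFF in
theorem mul_mem_A0 {E : Divisor K F} {η α : ↥(repartitions K F)} (hη : η ∈ repartitionsOf E)
    (hα : α ∈ repartitionsOf (-E)) : η * α ∈ repartitionsOf (0 : Divisor K F) := by
  intro v
  have h1 := hη v
  have h2 := hα v
  show v.adicValuation ((η : Place K F → F) v * (α : Place K F → F) v) ≤ _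
  rw [map_mul]
  calc v.adicValuation ((η : Place K F → F) v) * v.adicValuation ((α : Place K F → F) v)
      ≤ WithZero.exp (E v) * WithZero.exp ((-E) v) := mul_le_mul' h1 h2
    _ = WithZero.exp ((0 : Divisor K F) v) := by
      rw [← WithZero.exp_add, Finsupp.neg_apply, add_neg_cancel, Finsupp.coe_zero, Pi.zero_apply]

/-- `rhoK ω` is a Weil differential: it vanishes on `𝔸(A₀) + F` for some divisor `A₀`. -/
theorem exists_rhoK_mem_Om [CharZero K] (ω : Ω[F⁄K]) :
    ∃ A₀ : Divisor K F, (rhoK ω).fn ∈ Om A₀ := by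
  classical
  obtain ⟨j, hjtr, hjfin⟩ := FF1.exists_finite (K := K) (F := F)
  have := hjfin
  have hA : Algebra.IsAlgebraic ↥(IntermediateField.adjoin K {j}) F :=
    Algebra.IsAlgebraic.of_finite _ _
  have hω : ω ∈ Submodule.span F {D K F j} := by
    rw [Fermat.Agent.S24.H84.span_D_eq_top j]
    trivial
  obtain ⟨h, rfl⟩ := Submodule.mem_span_singleton.1 hω
  have hj0 : j ≠ 0 := by
    rintro rfl
    exact hjtr (isAlgebraic_zero)
  set S : Set (Place K F) := {v | v.ord j < 0} with hS
  set η : ↥(repartitions K F) :=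
    indA S * H980.diag (j ^ 2 * h) + indA Sᶜ * H980.diag h with hη
  obtain ⟨E, hE⟩ := H742.exists_mem_repartitionsOf η
  have hηin : ∀ v ∈ S, (η : Place K F → F) v = j ^ 2 * h := by
    intro v hv
    rw [hη, H980.val_apply_add, coe_mul_apply, coe_mul_apply, indA_apply_of_mem hv,
      indA_apply_of_not_mem (show v ∉ Sᶜ from fun hc => hc hv), H980.diag_apply,
      H980.diag_apply, one_mul, zero_mul, add_zero]
  have hηout : ∀ v ∉ S, (η : Place K F → F) v = h := by
    intro v hv
    rw [hη, H980.val_apply_add, coe_mul_apply, coe_mul_apply, indA_apply_of_not_mem hv,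
      indA_apply_of_mem (show v ∈ Sᶜ from hv), H980.diag_apply, H980.diag_apply, one_mul,
      zero_mul, zero_add]
  refine ⟨-E, mem_Om_iff.mpr ⟨fun α hα => ?_, fun α hα => ?_⟩⟩
  · have hint := mem_A0_iff.mp (mul_mem_A0 hE hα)
    rw [rhoK_smul_D]
    have hsplit : h • α = indA S * (h • α) + indA Sᶜ * (h • α) := by
      apply Subtype.ext
      funext v
      rw [H980.val_apply_add, coe_mul_apply, coe_mul_apply]
      by_cases hv : v ∈ S
      · rw [indA_apply_of_mem hv, indA_apply_of_not_mem (show v ∉ Sᶜ from fun hc => hc hv), one_mul, zero_mul,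
          add_zero]
      · rw [indA_apply_of_not_mem hv, indA_apply_of_mem (show v ∈ Sᶜ from hv), one_mul, zero_mul,
          zero_add]
    rw [hsplit, map_add]
    have h2 : rho j (indA Sᶜ * (h • α)) = 0 := by
      refine rho_eq_zero_of_integral j _ fun v => ?_
      by_cases hv : v ∈ S
      · left
        rw [coe_mul_apply, indA_apply_of_not_mem (show v ∉ Sᶜ from fun hc => hc hv), zero_mul]
      · right
        refine ⟨?_, not_lt.mp hv⟩
        have := hint v
        rw [coe_mul_apply, hηout v hv] at this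
        rw [coe_mul_apply, indA_apply_of_mem (show v ∈ Sᶜ from hv), one_mul, coe_smul_apply]
        exact this
    have h1 : rho j (indA S * (h • α)) = 0 := by
      have hD : D K F j = (-j ^ 2) • D K F j⁻¹ :=
        (D K F).leibniz_of_mul_eq_one (mul_inv_cancel₀ hj0)
      have e1 : rho j (indA S * (h • α)) = (rhoK (D K F j)).fn (indA S * (h • α)) := by
        rw [rhoK_D]
      rw [e1, hD, rhoK_smul_D]
      refine rho_eq_zero_of_integral j⁻¹ _ fun v => ?_
      by_cases hv : v ∈ S
      · right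
        refine ⟨?_, ?_⟩
        · have := hint v
          rw [coe_mul_apply, hηin v hv] at this
          rw [coe_smul_apply, coe_mul_apply, indA_apply_of_mem hv, one_mul, coe_smul_apply,
            neg_mul, ord_neg, ← mul_assoc]
          exact this
        · rw [Place.ord_inv]
          have : v.ord j < 0 := hv
          omega
      · left
        rw [coe_smul_apply, coe_mul_apply, indA_apply_of_not_mem hv, zero_mul, mul_zero]
    rw [h1, h2, add_zero]
  · rw [rhoK_smul_D]
    exact rho_principal j (smul_mem_principal h hα)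

omit hFF in
theorem singleA_mem_repartitionsOf (W : Divisor K F) (v : Place K F) {a : F}
    (ha : a = 0 ∨ -W v ≤ v.ord a) : singleA v a ∈ repartitionsOf W := by
  rw [mem_repartitionsOf_iff]
  intro w
  by_cases hw : w = v
  · subst hw
    rw [singleA_apply_self]
    exact ha
  · left
    exact singleA_apply_of_ne _ _ hw

/-! ### The main theorem -/

/-- **Bridge**: the divisor of a nonzero Kähler differential exists and is a canonical divisor in
the sense of Riemann–Roch. -/
theorem exists_canonical_kaehler [IsAlgClosed K] [CharZero K] (ω : Ω[F⁄K]) (hω : ω ≠ 0) :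
    ∃ W : Divisor K F, (∀ v : Place K F, W v = v.ordDifferential ω) ∧
      ∀ D : Divisor K F, Module.finrank K (H1 D) = ell (W - D) := by
  obtain ⟨j, -, hjfin⟩ := FF1.exists_finite (K := K) (F := F)
  have := hjfin
  have hloc : ∀ v : Place K F, ∃ π c : F, v.ord π = 1 ∧ c ≠ 0 ∧ ω = c • D K F π ∧
      v.ordDifferential ω = v.ord c := by
    intro v
    have hgen : v.DCoordGenerates := Fermat.Agent.S24.H84.place_dCoordGenerates j v
    obtain ⟨π, hπ, hd⟩ := Fermat.Agent.S24.H84.place_exists_uniformizer v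
    refine ⟨π, v.differentialCoeff ω, hπ, ?_, ?_, rfl⟩
    · intro h0
      apply hω
      rw [← v.differentialCoeff_smul_dCoord ω, h0, zero_smul]
    · rw [← hd, v.differentialCoeff_smul_dCoord]
  have hR0 : (rhoK ω).fn ≠ 0 := by
    obtain ⟨v⟩ := FF1.nonempty_place (K := K) (F := F)
    obtain ⟨π, c, hπ, hc, hω', -⟩ := hloc v
    intro h0
    have h1 := rhoK_singleA_eq_one v hπ hc
    rw [← hω', h0, LinearMap.zero_apply] at h1
    exact zero_ne_one h1
  obtain ⟨A₀, hA₀⟩ := exists_rhoK_mem_Om ω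
  obtain ⟨W, hW⟩ := exists_divisor_of_ne_zero (g := (genusR K F : ℤ)) finite_H1
    ell_sub_finrank_H1 exists_degree_bound hA₀ hR0
  have hWW : (rhoK ω).fn ∈ Om W := (hW W).mpr le_rfl
  have hWv : ∀ v : Place K F, W v = v.ordDifferential ω := by
    intro v
    obtain ⟨π, c, hπ, hc, hω', hord⟩ := hloc v
    have hπ0 : π ≠ 0 := ne_zero_of_ord_ne_zero v (by rw [hπ]; exact one_ne_zero)
    rw [hord]
    apply le_antisymm
    · by_contra hlt
      rw [not_le] at hlt
      have hmem : singleA v (c * π)⁻¹ ∈ repartitionsOf W := by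
        apply singleA_mem_repartitionsOf
        right
        rw [Place.ord_inv, v.ord_mul hc hπ0, hπ]
        omega
      have h0 := (mem_Om_iff.mp hWW).1 _ hmem
      have h1 := rhoK_singleA_eq_one v hπ hc
      rw [← hω', h0] at h1
      exact zero_ne_one h1
    · by_contra hlt
      rw [not_le] at hlt
      have hmem : (rhoK ω).fn ∈ Om (W + prim v) := by
        refine mem_Om_iff.mpr ⟨fun α hα => ?_, (mem_Om_iff.mp hWW).2⟩
        rw [mem_repartitionsOf_iff] at hα
        obtain ⟨a, ha⟩ : ∃ a : F, a = (α : Place K F → F) v := ⟨_, rfl⟩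
        have hβ : α - singleA v a ∈ repartitionsOf W := by
          rw [mem_repartitionsOf_iff]
          intro w
          by_cases hw : w = v
          · left
            subst hw
            show (α : Place K F → F) w - ((singleA w a : ↥(repartitions K F)) : Place K F → F) w
              = 0
            rw [singleA_apply_self, ha, sub_self]
          · have e : ((α - singleA v a : ↥(repartitions K F)) : Place K F → F) w
                = (α : Place K F → F) w := by
              show (α : Place K F → F) w -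
                ((singleA v a : ↥(repartitions K F)) : Place K F → F) w = _
              rw [singleA_apply_of_ne _ _ hw, sub_zero]
            rw [e]
            have := hα w
            rwa [Finsupp.add_apply, prim_apply_of_ne hw, add_zero] at this
        have h1 : (rhoK ω).fn (α - singleA v a) = 0 := (mem_Om_iff.mp hWW).1 _ hβ
        have h2 : (rhoK ω).fn (singleA v a) = 0 := by
          rw [hω']
          apply rhoK_singleA_eq_zero v (by rw [hπ]; exact zero_le_one)
          rcases eq_or_ne a 0 with h0 | h0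
          · rw [h0, mul_zero, Place.ord_zero]
          · have := hα v
            rw [Finsupp.add_apply, prim_apply_self, ← ha] at this
            rcases this with h | h
            · exact absurd h h0
            · rw [v.ord_mul hc h0]
              omega
        have : α = (α - singleA v a) + singleA v a := by abel
        rw [this, map_add, h1, h2, add_zero]
      have hle := (hW _).mp hmem
      have := Finsupp.le_def.mp hle v
      rw [Finsupp.add_apply, prim_apply_self] at this
      omega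
  refine ⟨W, hWv, fun D => ?_⟩
  rw [← finrank_Om, ← map_muMap_eq_Om finite_H1 ell_sub_finrank_H1 hR0 hW D,
    finrank_map_muMap hR0]

/-- A canonical divisor has degree `2g - 2`. -/
theorem degree_eq_of_canonical {W : Divisor K F}
    (hW : ∀ D : Divisor K F, Module.finrank K (H1 D) = ell (W - D)) :
    Divisor.degree W = 2 * (genusFF K F : ℤ) - 2 := by
  have h0 : ell W = genusFF K F := by
    have := hW 0
    rw [sub_zero] at this
    rw [← this]
    rfl
  have h1 := riemann_roch_H1 W
  rw [hW W, sub_self, ell_zero, h0] at h1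
  push_cast at h1
  omega

variable [IsAlgClosed K] [CharZero K]

/-- `deg div(ω) = 2g - 2` for a nonzero Kähler differential. -/
theorem degree_kaehler {ω : Ω[F⁄K]} (hω : ω ≠ 0) {W : Divisor K F}
    (hW : ∀ v : Place K F, W v = v.ordDifferential ω) :
    Divisor.degree W = 2 * (genusFF K F : ℤ) - 2 := by
  obtain ⟨W', hW', hcan⟩ := exists_canonical_kaehler ω hω
  have : W = W' := Finsupp.ext fun v => by rw [hW, hW']
  rw [this]
  exact degree_eq_of_canonical hcan

/-- the divisor of a Kähler differential is canonical -/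
theorem finrank_H1_eq_ell_kaehler {ω : Ω[F⁄K]} (hω : ω ≠ 0) {W : Divisor K F}
    (hW : ∀ v : Place K F, W v = v.ordDifferential ω) (D : Divisor K F) :
    Module.finrank K (H1 D) = ell (W - D) := by
  obtain ⟨W', hW', hcan⟩ := exists_canonical_kaehler ω hω
  have : W = W' := Finsupp.ext fun v => by rw [hW, hW']
  rw [this]
  exact hcan D

variable (K F) in
theorem hasCanonicalDivisor_of_FF1 : HasCanonicalDivisor (K := K) (F := F) :=
  ⟨fun ω hω => by
    obtain ⟨W, hW, -⟩ := exists_canonical_kaehler ω hω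
    exact ⟨W, hW⟩⟩

omit [IsAlgClosed K] [CharZero K] in
variable (K F) in
theorem exists_kaehler_ne_zero : ∃ ω : Ω[F⁄K], ω ≠ 0 := by
  obtain ⟨v⟩ := FF1.nonempty_place (K := K) (F := F)
  obtain ⟨π, hπ⟩ := exists_ord_eq_one v
  refine ⟨D K F π, fun h0 => ?_⟩
  have h1 := rho_unif v hπ
  rw [← rhoK_D, h0, map_zero] at h1
  exact zero_ne_one h1

theorem degree_canonicalDivisorOf [HasCanonicalDivisor (K := K) (F := F)] {ω : Ω[F⁄K]}
    (hω : ω ≠ 0) :
    Divisor.degree (canonicalDivisorOf hω) = 2 * (genusFF K F : ℤ) - 2 :=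
  degree_kaehler hω (canonicalDivisorOf_apply hω)

variable (K F) in
/-- **The Kähler genus is the adelic genus.** -/
theorem genus_eq_genusFF [HasCanonicalDivisor (K := K) (F := F)] :
    AlgebraicCurve.genus K F = genusFF K F := by
  have hex := exists_kaehler_ne_zero K F
  unfold AlgebraicCurve.genus
  rw [dif_pos hex, degree_canonicalDivisorOf hex.choose_spec]
  have : (2 * (genusFF K F : ℤ) - 2 + 2).toNat = 2 * genusFF K F := by omega
  rw [this, Nat.mul_div_cancel_left _ (by norm_num : 0 < 2)]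

end Fermat.Agent.Lib.RR.H80

end
end
-- ===== PACK-END Lib/RR/H80/Res/Bridge.lean

-- ===== PACK-BEGIN A2/Alg/H754/PuritySmoothLeaf.lean
section



/-!
# A2 / ALG leaf P-S (helper754): `puritySmoothLeaf : H34.PuritySmoothLeaf`

The leaf `Prop` of `Fermat/Agent/A2/Alg/H34/Asm.lean` (universe level `0`), from the
universe-polymorphic `H754.purity_smooth` (VERBATIM statement of `Alg/Skel.lean`).
-/

set_option autoImplicit false

namespace Fermat.Agent.A2.Alg.H754

/-- **Leaf P-S**, in the exact shape consumed by `H34.algSS_of_leaves`. -/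
theorem puritySmoothLeaf : Fermat.Agent.A2.Alg.H34.PuritySmoothLeaf :=
  fun q m hq hqR hm hqm w x B hB c hc u hu hdiv hs n hn hwn h1 =>
    purity_smooth q m hq hqR hm hqm w x B hB c hc u hu hdiv hs n hn hwn h1

end Fermat.Agent.A2.Alg.H754

end
-- ===== PACK-END A2/Alg/H754/PuritySmoothLeaf.lean

-- ===== PACK-BEGIN S18/B12/H638/NormalFinal.lean
section











/-!
# S18 b2 (helper638): FULL NORMALITY of the special fibre, UNCONDITIONAL

Assembly of the landed b2.5 pieces (A0, A2, A2' helper93; A3, A4, A5', A1 helper203; A5 helper444;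
A8 helper84 with Theorem L of helper278; heart A6' helper33):

* `b2CoreAbs : B2CoreAbsStatement` (the heart, unconditional);
* `b2IntClosed : B2IntClosedStatement` — `R` DVR of char 0, `B` normal, finite, torsion-free over
  `R[X]`, `w` prime in `B`, `hsep`, branch values `S` distinct mod `w`, unramified outside `S`
  ⟹ `B/wB` is integrally closed;
* `b2NormalDom : B2NormalDomStatement` — the shape requested by row S37
  (`origin/helper37:coord/S37-b2-request.md`, with `hdom`);
* `b2Regular : B2RegularStatement` (output O1 of `B12/Spec3.lean`).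
-/

set_option autoImplicit false

namespace Fermat.Agent.S18.B12.H638

universe u v

/-- The heart A6' of b2, unconditional. -/
theorem b2CoreAbs : B2CoreAbsStatement.{u, v} :=
  H33.b2CoreAbs_of_pieces H93.regSeqAbs H93.localBasis H93.localBasisRank H203.discrRed
    H203.ufdStep H444.genericDiscr H203.redBasisAbs

/-- **b2, integrally closed form, unconditional.** -/
theorem b2IntClosed : B2IntClosedStatement.{u, v} :=
  b2IntClosed_of_pieces b2CoreAbs H93.regSeqAbs H84.a8 H203.polyInst

/-- **b2, full normality form (domain case), unconditional.** -/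
theorem b2NormalDom : B2NormalDomStatement.{u, v} :=
  b2NormalDom_of_intClosed b2IntClosed

/-- **b2, regular form (output O1), unconditional.** -/
theorem b2Regular : B2RegularStatement.{u, v} :=
  H33.b2Regular_of_pieces b2CoreAbs H93.regSeqAbs H84.a8 H84.a9 H203.polyInst

end Fermat.Agent.S18.B12.H638

end
-- ===== PACK-END S18/B12/H638/NormalFinal.lean

-- ===== PACK-BEGIN S37/Rim/H383/NormalLift.lean
section




/-!
# S37 / RIM-NORMAL (helper383), part 1: the normality lift over a DVR, inside a field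

Typed, Mathlib-only consumer of b2 (`Fermat.Agent.S18.B12.H638.b2NormalDom`) and HSEP
(`Fermat.Agent.S18.H425.hsep_poly`).

Setting: `F` a field of characteristic `0`, `R : Subring F` a discrete valuation ring with
uniformiser `w`, `z : F` transcendental over `R`, `B := integralClosure R[z] F` (the chart),
finite over `R[z]` with fraction field `F`; `V : ValuationSubring F` the Gauss valuation ring:
`R ⊆ V`, `z ∈ V`, `𝔪_V = w V`, and

* `qep`  : `b ∈ B`, `b / w ∈ V` ⟹ `b / w ∈ B`                      (`q`-expansion principle),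
* `sepB` : every `f ∈ B` is a simple root mod `w` of a polynomial over `R[z]`,
* `S`, `hS` : branch values, pairwise distinct mod `w`,
* `hNC`  : for a prime `π ∈ R[X]` not associated to `w`, `X - c` (`c ∈ S`): `π(z) B` is radical
           (elementwise form).

**Theorem `exists_chart_lift`**: every `v ∈ V` which is integral over `B` modulo `w`
(`Q(v) ∈ w V` for a monic `Q` with coefficients in `B`) is congruent modulo `w V` to an element
of `B`.  (Normality of the special fibre `B / w B`.)
-/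

set_option autoImplicit false
set_option linter.style.haveILetI false
set_option linter.unusedSectionVars false

noncomputable section

namespace Fermat.Agent.S37.Rim.H383

open Polynomial

variable {F : Type*} [Field F] (R : Subring F) (z : F)

/-- The chart `B`: the integral closure of `R[z]` in `F`. -/
abbrev chartB : Subalgebra (Algebra.adjoin R ({z} : Set F)) F :=
  integralClosure (Algebra.adjoin R ({z} : Set F)) F

/-- The structure map `R[X] → B`, `X ↦ z`. -/
def polyToChart : Polynomial R →+* chartB R z :=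
  (algebraMap (Algebra.adjoin R ({z} : Set F)) (chartB R z)).comp
    ((aeval (⟨z, Algebra.self_mem_adjoin_singleton R z⟩ : Algebra.adjoin R ({z} : Set F)) :
      Polynomial R →ₐ[R] Algebra.adjoin R ({z} : Set F)) : Polynomial R →+*
        Algebra.adjoin R ({z} : Set F))

theorem coe_aeval_adjoin (p : Polynomial R) :
    ((aeval (⟨z, Algebra.self_mem_adjoin_singleton R z⟩ : Algebra.adjoin R ({z} : Set F)) p :
      Algebra.adjoin R ({z} : Set F)) : F) = aeval z p := by
  have : (aeval (⟨z, Algebra.self_mem_adjoin_singleton R z⟩ :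
      Algebra.adjoin R ({z} : Set F)) p : F) =
      (Algebra.adjoin R ({z} : Set F)).val (aeval (⟨z, Algebra.self_mem_adjoin_singleton R z⟩ :
        Algebra.adjoin R ({z} : Set F)) p) := rfl
  rw [this, ← aeval_algHom_apply]
  rfl

@[simp] theorem coe_polyToChart (p : Polynomial R) :
    ((polyToChart R z p : chartB R z) : F) = aeval z p :=
  coe_aeval_adjoin R z p

theorem aeval_surjective_adjoin :
    Function.Surjective (aeval (⟨z, Algebra.self_mem_adjoin_singleton R z⟩ :
      Algebra.adjoin R ({z} : Set F)) : Polynomial R → Algebra.adjoin R ({z} : Set F)) := by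
  rintro ⟨a, ha⟩
  obtain ⟨p, hp⟩ := Algebra.adjoin_mem_exists_aeval R z ha
  exact ⟨p, Subtype.ext (by rw [coe_aeval_adjoin, hp])⟩

theorem polyToChart_injective (hz : Transcendental R z) :
    Function.Injective (polyToChart R z) := by
  intro p q hpq
  have h : aeval z p = aeval z q := by
    rw [← coe_polyToChart, ← coe_polyToChart, hpq]
  exact (transcendental_iff_injective.mp hz) h


/-! ### The Gauss valuation ring and the chart -/

section Gauss

variable {R z}
variable (V : ValuationSubring F) {w : F} (hwR : w ∈ R)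

/-- `R[z] ⊆ V`. -/
theorem adjoin_le_V (hRV : ∀ r ∈ R, r ∈ V) (hzV : z ∈ V) {f : F}
    (hf : f ∈ Algebra.adjoin R ({z} : Set F)) : f ∈ V := by
  obtain ⟨P, rfl⟩ := Algebra.adjoin_mem_exists_aeval R z hf
  rw [aeval_eq_sum_range]
  refine V.toSubring.sum_mem fun i _ => ?_
  rw [Algebra.smul_def]
  exact mul_mem (hRV _ (P.coeff i).2) (pow_mem hzV i)

/-- `B ⊆ V`: valuation rings are integrally closed. -/
theorem chart_le_V (hRV : ∀ r ∈ R, r ∈ V) (hzV : z ∈ V) {f : F} (hf : f ∈ chartB R z) :
    f ∈ V := by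
  let i : Algebra.adjoin R ({z} : Set F) →+* V :=
    (algebraMap (Algebra.adjoin R ({z} : Set F)) F).codRestrict V.toSubring
      (fun a => adjoin_le_V V hRV hzV a.2)
  have hi : (algebraMap V F).comp i = algebraMap (Algebra.adjoin R ({z} : Set F)) F := by
    ext a; rfl
  have hint : IsIntegral V f := by
    obtain ⟨p, hp, hpf⟩ := hf
    refine ⟨p.map i, hp.map i, ?_⟩
    rw [eval₂_map, hi]
    exact hpf
  obtain ⟨y, hy⟩ := (IsIntegrallyClosed.isIntegral_iff (R := V) (K := F)).1 hint
  rw [← hy]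
  exact y.2

/-- the uniformiser as an element of the chart -/
def wB : chartB R z := polyToChart R z (C ⟨w, hwR⟩)

@[simp] theorem coe_wB : ((wB (z := z) hwR : chartB R z) : F) = w := by
  unfold wB
  rw [coe_polyToChart, aeval_C]
  rfl

/-- divisibility by `w` in the chart, elementwise -/
theorem wB_dvd_iff (hw0 : w ≠ 0) (b : chartB R z) :
    wB (z := z) hwR ∣ b ↔ (b : F) * w⁻¹ ∈ chartB R z := by
  constructor
  · rintro ⟨c, rfl⟩
    have : ((wB (z := z) hwR * c : chartB R z) : F) * w⁻¹ = (c : F) := by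
      rw [MulMemClass.coe_mul, coe_wB]
      field_simp
    rw [this]
    exact c.2
  · intro h
    refine ⟨⟨(b : F) * w⁻¹, h⟩, Subtype.ext ?_⟩
    rw [MulMemClass.coe_mul, coe_wB]
    field_simp

/-- divisibility by `π(z)` in the chart, elementwise -/
theorem polyToChart_dvd_iff (π : Polynomial R) (hπ : aeval z π ≠ 0) (b : chartB R z) :
    polyToChart R z π ∣ b ↔ (b : F) * (aeval z π)⁻¹ ∈ chartB R z := by
  constructor
  · rintro ⟨c, rfl⟩
    have : ((polyToChart R z π * c : chartB R z) : F) * (aeval z π)⁻¹ = (c : F) := by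
      rw [MulMemClass.coe_mul, coe_polyToChart]
      field_simp
    rw [this]
    exact c.2
  · intro h
    refine ⟨⟨(b : F) * (aeval z π)⁻¹, h⟩, Subtype.ext ?_⟩
    rw [MulMemClass.coe_mul, coe_polyToChart]
    field_simp

section Prime

variable (hw0 : w ≠ 0) (hRV : ∀ r ∈ R, r ∈ V) (hzV : z ∈ V)
  (hwV : w⁻¹ ∉ V) (hVgen : ∀ f ∈ V, f⁻¹ ∉ V → f * w⁻¹ ∈ V)
  (qep : ∀ b ∈ chartB R z, b * w⁻¹ ∈ V → b * w⁻¹ ∈ chartB R z)

include hVgen in
/-- In `V`, if `a * b ∈ w V` then `a ∈ w V` or `b ∈ w V`. -/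
theorem mem_wV_of_mul_mem {a b : F} (hab : a * b * w⁻¹ ∈ V) (ha : a ∈ V) :
    a * w⁻¹ ∈ V ∨ b * w⁻¹ ∈ V := by
  by_cases ha0 : a = 0
  · left; rw [ha0, zero_mul]; exact V.zero_mem
  by_cases hau : a⁻¹ ∈ V
  · right
    have : b * w⁻¹ = a⁻¹ * (a * b * w⁻¹) := by field_simp
    rw [this]
    exact mul_mem hau hab
  · left
    exact hVgen a ha hau

include hw0 hRV hzV hwV hVgen qep in
/-- **`w` is a prime element of the chart.** -/
theorem prime_wB : Prime (wB (z := z) hwR) := by
  refine ⟨?_, ?_, ?_⟩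
  · intro h
    apply hw0
    have := congrArg (Subtype.val : chartB R z → F) h
    simpa using this
  · rintro ⟨⟨u, v, huv, hvu⟩, hu⟩
    have hv : (v : F) = w⁻¹ := by
      have h1 : (u : F) * (v : F) = 1 := congrArg Subtype.val huv
      have h2 : (u : F) = w := by
        have h3 : u = wB (z := z) hwR := hu
        rw [h3]; exact coe_wB hwR
      rw [h2] at h1
      exact eq_inv_of_mul_eq_one_right h1
    exact hwV (hv ▸ chart_le_V V hRV hzV v.2)
  · intro a b hab
    rw [wB_dvd_iff hwR hw0] at hab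
    have haV := chart_le_V V hRV hzV a.2
    have habV : (a : F) * (b : F) * w⁻¹ ∈ V := by
      have := chart_le_V V hRV hzV hab
      simpa using this
    rcases mem_wV_of_mul_mem V hVgen habV haV with h | h
    · left
      rw [wB_dvd_iff hwR hw0]
      exact qep _ a.2 h
    · right
      rw [wB_dvd_iff hwR hw0]
      exact qep _ b.2 h

include hwR hw0 hRV qep in
/-- stripping powers of `w`: if `w ^ n * y ∈ B` and `y ∈ V` then `y ∈ B`. -/
theorem mem_chart_of_pow_mul_mem {y : F} (hy : y ∈ V) (n : ℕ)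
    (h : w ^ n * y ∈ chartB R z) : y ∈ chartB R z := by
  induction n with
  | zero => simpa using h
  | succ n ih =>
    apply ih
    have h1 : w ^ (n + 1) * y * w⁻¹ = w ^ n * y := by
      rw [pow_succ]; field_simp
    have hwV' : w ∈ V := hRV w hwR
    have h2 : w ^ (n + 1) * y * w⁻¹ ∈ V := by
      rw [h1]
      exact mul_mem (pow_mem hwV' n) hy
    have := qep _ h h2
    rwa [h1] at this

end Prime

end Gauss

/-! ### The chart as an `R[X]`-algebra -/

section Typed

variable {R z}

/-- the `R[X]`-algebra structure of the chart (`X ↦ z`) -/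
@[reducible] def polyAlgebra (R : Subring F) (z : F) : Algebra (Polynomial R) (chartB R z) :=
  (polyToChart R z).toAlgebra

theorem coe_eval₂_chart (b : chartB R z) (P : Polynomial (Polynomial R)) :
    ((eval₂ (polyToChart R z) b P : chartB R z) : F) =
      (P.map ((aeval z : Polynomial R →ₐ[R] F) : Polynomial R →+* F)).eval (b : F) := by
  have h1 : ((eval₂ (polyToChart R z) b P : chartB R z) : F) =
      (chartB R z).val.toRingHom (eval₂ (polyToChart R z) b P) := rfl
  rw [h1, hom_eval₂, eval_map]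
  congr 1
  ext p
  · simp
  · simp

theorem finite_poly [Module.Finite (Algebra.adjoin R ({z} : Set F)) (chartB R z)] :
    @Module.Finite (Polynomial R) (chartB R z) _ _ (polyAlgebra R z).toModule := by
  letI : Algebra (Polynomial R) (chartB R z) := polyAlgebra R z
  letI : Algebra (Polynomial R) (Algebra.adjoin R ({z} : Set F)) :=
    ((aeval (⟨z, Algebra.self_mem_adjoin_singleton R z⟩ : Algebra.adjoin R ({z} : Set F)) :
      Polynomial R →ₐ[R] Algebra.adjoin R ({z} : Set F)) : Polynomial R →+*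
        Algebra.adjoin R ({z} : Set F)).toAlgebra
  haveI : IsScalarTower (Polynomial R) (Algebra.adjoin R ({z} : Set F)) (chartB R z) :=
    IsScalarTower.of_algebraMap_eq (fun _ => rfl)
  haveI : Module.Finite (Polynomial R) (Algebra.adjoin R ({z} : Set F)) :=
    Module.Finite.of_surjective (Algebra.linearMap (Polynomial R) (Algebra.adjoin R ({z} : Set F)))
      (aeval_surjective_adjoin R z)
  exact Module.Finite.trans (Algebra.adjoin R ({z} : Set F)) (chartB R z)

theorem torsionFree_poly (hz : Transcendental R z) :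
    @Module.IsTorsionFree (Polynomial R) (chartB R z) _ _ (polyAlgebra R z).toModule := by
  letI : Algebra (Polynomial R) (chartB R z) := polyAlgebra R z
  rw [Module.isTorsionFree_iff_algebraMap_injective (R := Polynomial R) (A := chartB R z)]
  exact polyToChart_injective R z hz

end Typed

/-! ### The hypotheses of b2 -/

section Hyps

variable {R z}
variable (V : ValuationSubring F) {w : F} (hwR : w ∈ R)

/-- lifting a polynomial with coefficients in `R[z]` to `R[X][X]` -/
theorem exists_lift_poly (P : Polynomial F)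
    (hP : ∀ i, P.coeff i ∈ Algebra.adjoin R ({z} : Set F)) :
    ∃ P' : Polynomial (Polynomial R),
      P'.map ((aeval z : Polynomial R →ₐ[R] F) : Polynomial R →+* F) = P := by
  have : P ∈ Polynomial.lifts ((aeval z : Polynomial R →ₐ[R] F) : Polynomial R →+* F) := by
    rw [Polynomial.lifts_iff_coeff_lifts]
    intro n
    obtain ⟨p, hp⟩ := Algebra.adjoin_mem_exists_aeval R z (hP n)
    exact ⟨p, hp⟩
  exact (Polynomial.mem_lifts _).mp this

variable (hw0 : w ≠ 0) (hRV : ∀ r ∈ R, r ∈ V) (hzV : z ∈ V) (hwV : w⁻¹ ∉ V)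
  (qep : ∀ b ∈ chartB R z, b * w⁻¹ ∈ V → b * w⁻¹ ∈ chartB R z)

include hw0 hRV hzV hwV qep in
/-- the elementwise separability hypothesis of HSEP, from `sepB` -/
theorem hel_of_sepB
    (sepB : ∀ f ∈ chartB R z, ∃ P : Polynomial F,
      (∀ i, P.coeff i ∈ Algebra.adjoin R ({z} : Set F)) ∧
      P.eval f * w⁻¹ ∈ V ∧ (derivative P).eval f ≠ 0 ∧ ((derivative P).eval f)⁻¹ ∈ V)
    (b : chartB R z) :
    ∃ P : Polynomial (Polynomial R), wB (z := z) hwR ∣ eval₂ (polyToChart R z) b P ∧
      ¬ wB (z := z) hwR ∣ eval₂ (polyToChart R z) b (derivative P) := by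
  obtain ⟨P₀, hP₀c, hP₀v, hP₀d, hP₀u⟩ := sepB b b.2
  obtain ⟨P, hP⟩ := exists_lift_poly P₀ hP₀c
  refine ⟨P, ?_, ?_⟩
  · rw [wB_dvd_iff hwR hw0]
    have h1 : ((eval₂ (polyToChart R z) b P : chartB R z) : F) = P₀.eval (b : F) := by
      rw [coe_eval₂_chart, hP]
    apply qep _ (Subtype.mem _)
    rw [h1]
    exact hP₀v
  · rw [wB_dvd_iff hwR hw0]
    have h1 : ((eval₂ (polyToChart R z) b (derivative P) : chartB R z) : F) =
        (derivative P₀).eval (b : F) := by
      rw [coe_eval₂_chart, ← hP, derivative_map]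
    rw [h1]
    intro hmem
    apply hwV
    have hV := chart_le_V V hRV hzV hmem
    have : w⁻¹ = ((derivative P₀).eval (b : F))⁻¹ * ((derivative P₀).eval (b : F) * w⁻¹) := by
      field_simp
    rw [this]
    exact mul_mem hP₀u hV

/-- the radical hypothesis `hNC` of b2 from its elementwise form -/
theorem isRadical_of_elementwise (hz : Transcendental R z) (π : Polynomial R) (hπ0 : π ≠ 0)
    (h : ∀ f ∈ chartB R z, ∀ n : ℕ, f ^ n * (aeval z π)⁻¹ ∈ chartB R z →
        f * (aeval z π)⁻¹ ∈ chartB R z) :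
    (Ideal.span {polyToChart R z π}).IsRadical := by
  have hπz : aeval z π ≠ 0 := by
    intro h0
    apply hπ0
    apply transcendental_iff_injective.mp hz
    rw [h0, map_zero]
  intro f hf
  obtain ⟨n, hn⟩ := hf
  rw [Ideal.mem_span_singleton] at hn ⊢
  rw [polyToChart_dvd_iff π hπz] at hn ⊢
  have := h f f.2 n (by simpa using hn)
  exact this

end Hyps

/-! ### The normality lift -/

section Main

variable {R z}
variable [CharZero F] [IsDiscreteValuationRing R]
variable [IsIntegrallyClosed (chartB R z)]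
  [Module.Finite (Algebra.adjoin R ({z} : Set F)) (chartB R z)]

/-- **Normality of the special fibre, elementwise (RIM-NORMAL over a DVR).**
Every `v ∈ V` which is integral over the chart `B` modulo `w` is congruent modulo `w V` to an
element of `B`. -/
theorem exists_chart_lift (hz : Transcendental R z)
    (halg : ∀ f : F, IsAlgebraic (Algebra.adjoin R ({z} : Set F)) f)
    (V : ValuationSubring F) {w : F} (hwR : w ∈ R) (hirr : Irreducible (⟨w, hwR⟩ : R))
    (hRV : ∀ r ∈ R, r ∈ V) (hzV : z ∈ V) (hwV : w⁻¹ ∉ V)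
    (hVgen : ∀ f ∈ V, f⁻¹ ∉ V → f * w⁻¹ ∈ V)
    (qep : ∀ b ∈ chartB R z, b * w⁻¹ ∈ V → b * w⁻¹ ∈ chartB R z)
    (sepB : ∀ f ∈ chartB R z, ∃ P : Polynomial F,
      (∀ i, P.coeff i ∈ Algebra.adjoin R ({z} : Set F)) ∧
      P.eval f * w⁻¹ ∈ V ∧ (derivative P).eval f ≠ 0 ∧ ((derivative P).eval f)⁻¹ ∈ V)
    (S : Finset R) (hS : ∀ c ∈ S, ∀ c' ∈ S, c ≠ c' → IsUnit (c - c'))
    (hNC : ∀ π : Polynomial R, Prime π → ¬ Associated π (C ⟨w, hwR⟩) →
      (∀ c ∈ S, ¬ Associated π (X - C c)) →
      ∀ f ∈ chartB R z, ∀ n : ℕ, f ^ n * (aeval z π)⁻¹ ∈ chartB R z →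
        f * (aeval z π)⁻¹ ∈ chartB R z)
    {v : F} (hv : v ∈ V) (Q : Polynomial F) (hQ : Q.Monic)
    (hQc : ∀ i, Q.coeff i ∈ chartB R z) (hQv : Q.eval v * w⁻¹ ∈ V) :
    ∃ b ∈ chartB R z, (v - b) * w⁻¹ ∈ V := by
  classical
  have hw0 : w ≠ 0 := fun h => hirr.ne_zero (Subtype.ext h)
  have hwVmem : w ∈ V := hRV w hwR
  letI : Algebra (Polynomial R) (chartB R z) := polyAlgebra R z
  haveI : Module.Finite (Polynomial R) (chartB R z) := finite_poly
  haveI : Module.IsTorsionFree (Polynomial R) (chartB R z) := torsionFree_poly hz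
  haveI : CharZero R := RingHom.charZero R.subtype
  have hdom : Prime (algebraMap (Polynomial R) (chartB R z) (C ⟨w, hwR⟩)) :=
    prime_wB V hwR hw0 hRV hzV hwV hVgen qep
  have hel : ∀ b : chartB R z, ∃ P : Polynomial (Polynomial R),
      algebraMap (Polynomial R) (chartB R z) (C ⟨w, hwR⟩) ∣ aeval b P ∧
      ¬ algebraMap (Polynomial R) (chartB R z) (C ⟨w, hwR⟩) ∣ aeval b (derivative P) :=
    fun b => hel_of_sepB V hwR hw0 hRV hzV hwV qep sepB b
  have hsep := Fermat.Agent.S18.H425.hsep_poly R ⟨w, hwR⟩ hirr (chartB R z) hdom hel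
  have hNC' : ∀ π : Polynomial R, Prime π → ¬ Associated π (C ⟨w, hwR⟩) →
      (∀ c ∈ S, ¬ Associated π (X - C c)) →
      (Ideal.span {algebraMap (Polynomial R) (chartB R z) π}).IsRadical :=
    fun π hπ h1 h2 => isRadical_of_elementwise hz π hπ.ne_zero (hNC π hπ h1 h2)
  -- a denominator `g ∈ R[X]`, `w ∤ g`, with `g(z) v ∈ B`
  obtain ⟨g₀, hg₀, hint⟩ := (halg v).exists_integral_multiple
  obtain ⟨G, hG⟩ := aeval_surjective_adjoin R z g₀
  have hG0 : G ≠ 0 := by
    rintro rfl
    apply hg₀
    rw [← hG, map_zero]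
  have hCw : Prime (C (⟨w, hwR⟩ : R) : Polynomial R) := Polynomial.prime_C_iff.mpr hirr.prime
  obtain ⟨n, g, hng, hGeq⟩ := WfDvdMonoid.max_power_factor hG0 hCw.irreducible
  have hgz : aeval z G = w ^ n * aeval z g := by
    rw [hGeq, map_mul, map_pow, aeval_C]
    rfl
  have hgV : aeval z g ∈ V :=
    adjoin_le_V V hRV hzV (by
      rw [← coe_aeval_adjoin]; exact Subtype.mem _)
  have hgvV : aeval z g * v ∈ V := mul_mem hgV hv
  have hbB : aeval z g * v ∈ chartB R z := by
    apply mem_chart_of_pow_mul_mem V hwR hw0 hRV qep hgvV n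
    have : w ^ n * (aeval z g * v) = g₀ • v := by
      rw [← mul_assoc, ← hgz, ← coe_aeval_adjoin, hG]
      rfl
    rw [this]
    exact hint
  -- `g(z)` is a unit of `V`
  have hgunit : (aeval z g)⁻¹ ∈ V := by
    by_contra hcon
    have h1 : aeval z g * w⁻¹ ∈ V := hVgen _ hgV hcon
    have h2 : aeval z g * w⁻¹ ∈ chartB R z := by
      have hmem : aeval z g ∈ chartB R z := by
        rw [← coe_polyToChart]; exact Subtype.mem _
      exact qep _ hmem h1
    have h3 : algebraMap (Polynomial R) (chartB R z) (C ⟨w, hwR⟩) ∣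
        algebraMap (Polynomial R) (chartB R z) g := by
      have := (wB_dvd_iff (z := z) hwR hw0 (polyToChart R z g)).mpr (by simpa using h2)
      exact this
    haveI : Algebra.IsIntegral (Polynomial R) (chartB R z) := Algebra.IsIntegral.of_finite _ _
    haveI hic : IsIntegrallyClosed (Polynomial R) := inferInstance
    have h7 : (C (⟨w, hwR⟩ : R) : Polynomial R) ∣ g :=
      Fermat.Agent.S18.B12.H638.dvd_of_algebraMap_dvd (P := Polynomial R) (B := chartB R z)
        (C ⟨w, hwR⟩) g hCw.ne_zero h3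
    exact hng h7
  -- the integrality relation
  set d := Q.natDegree with hd
  let a : Fin d → chartB R z := fun i => ⟨Q.coeff i, hQc i⟩
  let b : chartB R z := ⟨aeval z g * v, hbB⟩
  have hrel : b ^ d + ∑ i : Fin d, a i * b ^ (i : ℕ) *
      algebraMap (Polynomial R) (chartB R z) g ^ (d - (i : ℕ)) ∈
        Ideal.span {algebraMap (Polynomial R) (chartB R z) (C ⟨w, hwR⟩)} := by
    rw [Ideal.mem_span_singleton]
    have hval : ((b ^ d + ∑ i : Fin d, a i * b ^ (i : ℕ) *
        algebraMap (Polynomial R) (chartB R z) g ^ (d - (i : ℕ)) : chartB R z) : F) =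
        aeval z g ^ d * Q.eval v := by
      have hQsum : Q.eval v = v ^ d + ∑ i : Fin d, Q.coeff i * v ^ (i : ℕ) := by
        conv_lhs => rw [hQ.as_sum]
        rw [eval_add, eval_pow, eval_X, eval_finsetSum, Finset.sum_range]
        congr 1
        refine Finset.sum_congr rfl fun i _ => ?_
        rw [eval_mul, eval_C, eval_pow, eval_X]
      rw [hQsum, mul_add, Finset.mul_sum]
      push_cast
      congr 1
      · show (aeval z g * v) ^ d = _
        rw [mul_pow]
      · refine Finset.sum_congr rfl fun i _ => ?_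
        show Q.coeff i * (aeval z g * v) ^ (i : ℕ) *
          ((polyToChart R z g : chartB R z) : F) ^ (d - (i : ℕ)) = _
        rw [coe_polyToChart, mul_pow]
        have hi : (i : ℕ) + (d - (i : ℕ)) = d := by
          have := i.2
          omega
        calc Q.coeff i * (aeval z g ^ (i : ℕ) * v ^ (i : ℕ)) * aeval z g ^ (d - (i : ℕ))
            = aeval z g ^ ((i : ℕ) + (d - (i : ℕ))) * (Q.coeff i * v ^ (i : ℕ)) := by
              rw [pow_add]; ring
          _ = aeval z g ^ d * (Q.coeff i * v ^ (i : ℕ)) := by rw [hi]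
    apply (wB_dvd_iff (z := z) hwR hw0 _).mpr
    apply qep _ (Subtype.mem _)
    rw [hval, mul_assoc]
    exact mul_mem (pow_mem hgV d) hQv
  obtain ⟨b₀, hb₀⟩ := Fermat.Agent.S18.B12.H638.b2NormalDom R ⟨w, hwR⟩ hirr (chartB R z) hdom
    hsep S hS hNC' b g hng ⟨d, a, hrel⟩
  refine ⟨b₀, b₀.2, ?_⟩
  rw [Ideal.mem_span_singleton] at hb₀
  have h4 := (wB_dvd_iff (z := z) hwR hw0 _).mp hb₀
  have h5 : ((b - algebraMap (Polynomial R) (chartB R z) g * b₀ : chartB R z) : F) =
      aeval z g * (v - b₀) := by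
    push_cast
    show aeval z g * v - ((polyToChart R z g : chartB R z) : F) * (b₀ : F) = _
    rw [coe_polyToChart]
    ring
  rw [h5] at h4
  have h6 := chart_le_V V hRV hzV h4
  have hg0 : aeval z g ≠ 0 := by
    intro h0
    apply hng
    have : g = 0 := by
      apply transcendental_iff_injective.mp hz
      rw [h0, map_zero]
    rw [this]
    exact dvd_zero _
  have : (v - b₀) * w⁻¹ = (aeval z g)⁻¹ * (aeval z g * (v - b₀) * w⁻¹) := by
    field_simp
  rw [this]
  exact mul_mem hgunit h6

end Main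

end Fermat.Agent.S37.Rim.H383

end
end
-- ===== PACK-END S37/Rim/H383/NormalLift.lean

-- ===== PACK-BEGIN S37/Rim/H383/NormalAbs.lean
section






/-!
# S37 board v3, leaf D2 (helper383): normality of the special fibre of a good model

`normalAbs` : for `G : Alg.GoodModel Lc Ec Fc R V w x S` (frozen interface of row S18), an element
`f ∈ V` which is a root modulo `w` of a monic polynomial over `R[x]` is congruent modulo `w` to an
element of the chart `B = {b ∈ Fc integral over R[x]}`:

    ∀ f ∈ V, ∀ P : Polynomial Ω, P.Monic → (∀ i, P.coeff i ∈ Alg.polyRing R x) →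
      P.eval f * w⁻¹ ∈ V → ∃ b ∈ Alg.chart Fc R x, (f - b) * w⁻¹ ∈ V

This is `NormalAbsStatement` of helper37's `Core/Skeleton4.lean` (board v3), universe-polymorphic.
Proof: `exists_chart_lift` (`NormalLift.lean`) applied inside the field `Fc`, with the hypotheses
supplied by helper438's front (`S18/H438/Front`), helper754's `hNC_typed` and the field
`separable` of `GoodModel`.  `normalAbs_inv` is the same statement on the chart at infinity.
-/

set_option autoImplicit false
set_option linter.style.haveILetI false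
set_option linter.unusedSectionVars false

noncomputable section

namespace Fermat.Agent.S37.Rim.H383

open Polynomial Fermat.Agent.S18 Fermat.Agent.S18.Alg Fermat.Agent.S18.H438
open Fermat.Agent.S18.H438.GoodModelFront

variable {Ω : Type*} [Field Ω] {Lc Ec Fc : Subfield Ω} {R V : Subring Ω} {w x : Ω}
  {S : Finset Ω}

/-! ### Polynomials over `Ω` with coefficients in `R[z]` come from `Fc` -/

/-- A polynomial over `Ω` with coefficients in `polyRing R z` is the image of a polynomial over
`Fc` with coefficients in `R[z]`. -/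
theorem exists_poly_Fc (hR : ∀ r ∈ R, r ∈ Fc) (z : Fc) (P : Polynomial Ω)
    (hP : ∀ i, P.coeff i ∈ polyRing R (z : Ω)) :
    ∃ Q : Polynomial Fc, Q.map Fc.subtype = P ∧
      ∀ i, Q.coeff i ∈ Algebra.adjoin (Rf Fc R) ({z} : Set Fc) := by
  have hl : P ∈ Polynomial.lifts Fc.subtype := by
    rw [Polynomial.lifts_iff_coeff_lifts]
    intro i
    obtain ⟨a, -, ha⟩ := exists_mem_baseRing_of_mem_polyRing Fc R z hR (hP i)
    exact ⟨a, ha⟩
  obtain ⟨Q, hQ⟩ := (Polynomial.mem_lifts P).1 hl
  refine ⟨Q, hQ, fun i => ?_⟩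
  have h1 : ((Q.coeff i : Fc) : Ω) = P.coeff i := by
    rw [← hQ, coeff_map]
    rfl
  have h2 : Q.coeff i ∈ baseRing (Rf Fc R) z := by
    rw [mem_baseRing_iff Fc R z hR, h1]
    exact hP i
  exact h2

theorem coe_eval_Fc (Q : Polynomial Fc) (f : Fc) :
    ((Q.eval f : Fc) : Ω) = (Q.map Fc.subtype).eval (f : Ω) := by
  rw [eval_map]
  exact (Polynomial.hom_eval₂ Q (RingHom.id Fc) Fc.subtype f)

/-! ### Generic lemmas (abstract field `F`, no good model) -/

section Generic

attribute [local instance] FractionRing.liftAlgebra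

/-- elements of a finite extension of the fraction field of `A` are algebraic over `A` -/
theorem isAlgebraic_of_finite_fractionRing {A F : Type*} [CommRing A] [IsDomain A] [Field F]
    [Algebra A F] [FaithfulSMul A F] [FiniteDimensional (FractionRing A) F] (f : F) :
    IsAlgebraic A f := by
  have h : IsAlgebraic (FractionRing A) f := IsAlgebraic.of_finite _ f
  exact (IsFractionRing.isAlgebraic_iff A (FractionRing A) F).2 h

variable {F : Type*} [Field F] {R : Subring F} {z : F}

/-- the elementwise form of `hNC` from the radical form -/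
theorem elementwise_of_isRadical (hz : Transcendental R z) (π : Polynomial R) (hπ0 : π ≠ 0)
    (h : (Ideal.span {polyToChart R z π}).IsRadical) :
    ∀ f ∈ chartB R z, ∀ n : ℕ, f ^ n * (aeval z π)⁻¹ ∈ chartB R z →
        f * (aeval z π)⁻¹ ∈ chartB R z := by
  have hπz : aeval z π ≠ 0 := by
    intro h0
    apply hπ0
    apply transcendental_iff_injective.mp hz
    rw [h0, map_zero]
  intro f hf n hn
  have h1 : polyToChart R z π ∣ (⟨f, hf⟩ : chartB R z) ^ n := by
    rw [polyToChart_dvd_iff π hπz]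
    simpa using hn
  have h2 : (⟨f, hf⟩ : chartB R z) ∈ (Ideal.span {polyToChart R z π}).radical :=
    ⟨n, Ideal.mem_span_singleton.2 h1⟩
  have h3 := Ideal.mem_span_singleton.1 (h h2)
  rw [polyToChart_dvd_iff π hπz] at h3
  exact h3

/-- an element algebraic over a field `K` is a root of a nonzero polynomial over any valuation
subring of `K` -/
theorem exists_poly_valuationSubring {K L : Type*} [Field K] [Field L] [Algebra K L]
    (A : ValuationSubring K) {a : L} (ha : IsAlgebraic K a) :
    ∃ p : Polynomial A, p ≠ 0 ∧ eval₂ ((algebraMap K L).comp A.subtype) a p = 0 := by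
  letI : Algebra A L := ((algebraMap K L).comp A.subtype).toAlgebra
  haveI : IsScalarTower A K L := IsScalarTower.of_algebraMap_eq (fun _ => rfl)
  obtain ⟨p, hp0, hp⟩ := (IsFractionRing.isAlgebraic_iff A K L).2 ha
  exact ⟨p, hp0, hp⟩

variable {Ω : Type*} [Field Ω]

/-- **`hNC` from "unramified outside `S`"** (helper754's `hNC_typed` on the chart `B ⊆ F`,
`F` embedded in `Ω`), elementwise form. -/
theorem hNC_of_unramified [CharZero F] [IsDiscreteValuationRing R]
    [IsIntegrallyClosed (chartB R z)]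
    [Module.Finite (Algebra.adjoin R ({z} : Set F)) (chartB R z)]
    (hz : Transcendental R z) (ι : F →+* Ω)
    {w : F} (hwR : w ∈ R) (hirr : Irreducible (⟨w, hwR⟩ : R))
    (hwB : Prime (wB (z := z) hwR))
    (Lc : Subfield Ω) (hLcl : IsAlgClosed Lc)
    (hRL : ∀ r : R, ι (r : F) ∈ Lc)
    (hLalg : ∀ a ∈ Lc, ∃ p : Polynomial R, p ≠ 0 ∧ eval₂ (ι.comp R.subtype) a p = 0)
    (S : Finset R) (SΩ : Finset Ω) (hS : ∀ c ∈ SΩ, ∃ s ∈ S, ι (s : F) = c)
    (hunr : ∀ O : ValuationSubring Ω, (∀ a ∈ Lc, a ∈ O) → ∀ c ∈ Lc, c ∉ SΩ →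
        ι z - c ∈ O → (ι z - c)⁻¹ ∉ O → ∀ t ∈ O, t⁻¹ ∉ O → t * (ι z - c)⁻¹ ∈ O) :
    ∀ π : Polynomial R, Prime π → ¬ Associated π (C ⟨w, hwR⟩) →
      (∀ c ∈ S, ¬ Associated π (X - C c)) →
      ∀ f ∈ chartB R z, ∀ n : ℕ, f ^ n * (aeval z π)⁻¹ ∈ chartB R z →
        f * (aeval z π)⁻¹ ∈ chartB R z := by
  letI : Algebra (Polynomial R) (chartB R z) := polyAlgebra R z
  haveI : Module.Finite (Polynomial R) (chartB R z) := finite_poly
  haveI : Module.IsTorsionFree (Polynomial R) (chartB R z) := torsionFree_poly hz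
  haveI : CharZero R := RingHom.charZero R.subtype
  letI : Algebra (chartB R z) Ω := (ι.comp (algebraMap (chartB R z) F)).toAlgebra
  haveI : FaithfulSMul (chartB R z) Ω :=
    (faithfulSMul_iff_algebraMap_injective (chartB R z) Ω).2
      (ι.injective.comp Subtype.val_injective)
  have hC : ∀ r : R, algebraMap (chartB R z) Ω (algebraMap (Polynomial R) (chartB R z) (C r)) =
      ι (r : F) := by
    intro r
    show ι ((polyToChart R z (C r) : chartB R z) : F) = _
    rw [coe_polyToChart, aeval_C]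
    rfl
  have hX : algebraMap (chartB R z) Ω (algebraMap (Polynomial R) (chartB R z) X) = ι z := by
    show ι ((polyToChart R z X : chartB R z) : F) = _
    rw [coe_polyToChart, aeval_X]
  have hcomp : (algebraMap (chartB R z) Ω).comp
      ((algebraMap (Polynomial R) (chartB R z)).comp C) = ι.comp R.subtype := by
    ext r
    exact hC r
  intro π hπ hπw hπS
  have hrad := Fermat.Agent.S18.H754.hNC_typed R (chartB R z) ⟨w, hwR⟩ hirr hwB Lc hLcl
    (fun r => by rw [hC]; exact hRL r)
    (fun a ha => by rw [hcomp]; exact hLalg a ha) S SΩ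
    (fun c hc => by
      obtain ⟨s, hs, hsc⟩ := hS c hc
      exact ⟨s, hs, by rw [hC]; exact hsc⟩)
    (by rw [hX]; exact hunr) π hπ hπw hπS
  exact elementwise_of_isRadical hz π hπ.ne_zero hrad

end Generic

/-! ### The hypotheses of `exists_chart_lift` from a good model -/

section Hyp

variable (G : GoodModel Lc Ec Fc R V w x S)

/-- the branch values as elements of `R ⊆ Fc` -/
def Sf : Finset (Rf Fc R) :=
  S.attach.map
    ⟨fun s => (⟨⟨s.1, R_le_Fc G (G.S_mem s.1 s.2)⟩, G.S_mem s.1 s.2⟩ : Rf Fc R),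
      fun _ _ h => Subtype.ext (congrArg (fun c : Rf Fc R => ((c : Fc) : Ω)) h)⟩

theorem coe_mem_of_mem_Sf {c : Rf Fc R} (hc : c ∈ Sf G) : ((c : Fc) : Ω) ∈ S := by
  unfold Sf at hc
  obtain ⟨s, -, rfl⟩ := Finset.mem_map.1 hc
  exact s.2

theorem exists_mem_Sf {c : Ω} (hc : c ∈ S) : ∃ s ∈ Sf G, (((s : Rf Fc R) : Fc) : Ω) = c := by
  refine ⟨⟨⟨c, R_le_Fc G (G.S_mem c hc)⟩, G.S_mem c hc⟩, ?_, rfl⟩
  unfold Sf
  exact Finset.mem_map.2 ⟨⟨c, hc⟩, Finset.mem_attach _ _, rfl⟩

include G in
theorem isUnit_sub_Sf : ∀ c ∈ Sf G, ∀ c' ∈ Sf G, c ≠ c' → IsUnit (c - c') := by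
  intro c hc c' hc' hne
  rw [isUnit_subring_iff]
  have hne' : ((c : Fc) : Ω) ≠ ((c' : Fc) : Ω) := fun h => hne (Subtype.ext (Subtype.ext h))
  refine ⟨fun h => hne (sub_eq_zero.1 (Subtype.ext h)), ?_⟩
  have := G.S_distinct _ (coe_mem_of_mem_Sf G hc) _ (coe_mem_of_mem_Sf G hc') hne'
  exact this

section Alg

attribute [local instance] FractionRing.liftAlgebra

include G in
/-- every element of `Fc` is algebraic over `R[x]` -/
theorem isAlgebraic_adjoin_of_goodModel (f : Fc) :
    IsAlgebraic (Algebra.adjoin (Rf Fc R) ({xf G} : Set Fc)) f := by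
  haveI := finiteDimensional_fractionRing G
  exact isAlgebraic_of_finite_fractionRing (A := baseRing (Rf Fc R) (xf G)) f

end Alg

include G in
/-- elementwise separability of the special fibre, inside `Fc` -/
theorem sepB_of_goodModel : ∀ f ∈ chartB (Rf Fc R) (xf G), ∃ P : Polynomial Fc,
    (∀ i, P.coeff i ∈ Algebra.adjoin (Rf Fc R) ({xf G} : Set Fc)) ∧
    P.eval f * (wf G)⁻¹ ∈ Vf G ∧ (derivative P).eval f ≠ 0 ∧
    ((derivative P).eval f)⁻¹ ∈ Vf G := by
  intro f hf
  have hfV : f ∈ Vf G := chart_le_V (Vf G) (Rf_le_Vf G) (xf_mem_Vf G) hf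
  obtain ⟨P, hPc, hP1, hP2, hP3⟩ := G.separable (f : Ω) hfV
  obtain ⟨Q, hQ, hQc⟩ := exists_poly_Fc (fun r hr => R_le_Fc G hr) (xf G) P hPc
  have e1 : ((Q.eval f : Fc) : Ω) = P.eval (f : Ω) := by rw [_root_.Fermat.Agent.S37.Rim.H383.coe_eval_Fc, hQ]
  have e2 : (((derivative Q).eval f : Fc) : Ω) = (derivative P).eval (f : Ω) := by
    rw [_root_.Fermat.Agent.S37.Rim.H383.coe_eval_Fc, ← derivative_map, hQ]
  refine ⟨Q, hQc, ?_, ?_, ?_⟩
  · show ((Q.eval f * (wf G)⁻¹ : Fc) : Ω) ∈ V
    rw [Subfield.coe_mul, Subfield.coe_inv, e1]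
    exact hP1
  · intro h0
    apply hP2
    rw [← e2, h0]
    rfl
  · show ((((derivative Q).eval f)⁻¹ : Fc) : Ω) ∈ V
    rw [Subfield.coe_inv, e2]
    exact hP3

/-- the comparison `R ⊆ Ec` to `R ⊆ Fc` -/
def reToRf : Re G →+* Rf Fc R where
  toFun e := ⟨⟨((e : Ec) : Ω), G.E_le_F (e : Ec).2⟩, e.2⟩
  map_one' := rfl
  map_mul' _ _ := rfl
  map_zero' := rfl
  map_add' _ _ := rfl

theorem reToRf_injective : Function.Injective (reToRf G) := by
  intro a b h
  apply Subtype.ext
  apply Subtype.ext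
  exact congrArg (fun c : Rf Fc R => ((c : Fc) : Ω)) h

include G in
/-- the constants are algebraic over `R` -/
theorem hLalg_of_goodModel : ∀ a ∈ Lc, ∃ p : Polynomial (Rf Fc R), p ≠ 0 ∧
    eval₂ (Fc.subtype.comp (Rf Fc R).subtype) a p = 0 := by
  intro a ha
  obtain ⟨p, hp0, hp⟩ := exists_poly_valuationSubring (Re G) (G.L_algebraic a ha)
  refine ⟨p.map (reToRf G), (Polynomial.map_ne_zero_iff (reToRf_injective G)).2 hp0, ?_⟩
  rw [eval₂_map]
  exact hp

section Inst

attribute [local instance] FractionRing.liftAlgebra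

include G in
theorem isIntegrallyClosed_chartB : IsIntegrallyClosed (chartB (Rf Fc R) (xf G)) := by
  haveI := finiteDimensional_fractionRing G
  haveI := charZero_Fc G
  exact chartRing_isIntegrallyClosed (Rf Fc R) (xf G)

include G in
theorem finite_chartB :
    Module.Finite (Algebra.adjoin (Rf Fc R) ({xf G} : Set Fc)) (chartB (Rf Fc R) (xf G)) := by
  haveI := finiteDimensional_fractionRing G
  haveI := charZero_Fc G
  haveI := isDiscreteValuationRing_Rf G
  exact chartRing_finite (Rf Fc R) (xf G) (transcendental_xf G)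

end Inst

include G in
/-- `w` is a prime element of the chart -/
theorem prime_wB_of_goodModel : Prime (wB (z := xf G) (wf_mem_Rf G)) :=
  prime_wB (Vf G) (wf_mem_Rf G) (wf_ne_zero G) (Rf_le_Vf G) (xf_mem_Vf G)
    (wf_inv_not_mem_Vf G) (Vf_gen G) (qep_fin' G)

include G in
/-- `hNC` for the chart of a good model, elementwise form -/
theorem hNC_of_goodModel :
    ∀ π : Polynomial (Rf Fc R), Prime π → ¬ Associated π (C ⟨wf G, wf_mem_Rf G⟩) →
      (∀ c ∈ Sf G, ¬ Associated π (X - C c)) →
      ∀ f ∈ chartB (Rf Fc R) (xf G), ∀ n : ℕ,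
        f ^ n * (aeval (xf G) π)⁻¹ ∈ chartB (Rf Fc R) (xf G) →
        f * (aeval (xf G) π)⁻¹ ∈ chartB (Rf Fc R) (xf G) := by
  haveI := charZero_Fc G
  haveI := isDiscreteValuationRing_Rf G
  haveI := isIntegrallyClosed_chartB G
  haveI := finite_chartB G
  exact hNC_of_unramified (transcendental_xf G) Fc.subtype (wf_mem_Rf G) (irreducible_wf G)
    (prime_wB_of_goodModel G) Lc G.L_algClosed (fun r => G.E_le_L (G.R_le r.2))
    (hLalg_of_goodModel G) (Sf G) S (fun c hc => exists_mem_Sf G hc) G.unramified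

end Hyp

/-! ### D2 -/

/-- **Leaf D2 (board v3): normality of the special fibre of a good model.**  An element `f ∈ V`
which is a root modulo `w` of a monic polynomial over `R[x]` is congruent modulo `w` to an
element of the chart. -/
theorem normalAbs (G : GoodModel Lc Ec Fc R V w x S) :
    ∀ f ∈ V, ∀ P : Polynomial Ω, P.Monic → (∀ i, P.coeff i ∈ polyRing R x) →
      P.eval f * w⁻¹ ∈ V → ∃ b ∈ chart Fc R x, (f - b) * w⁻¹ ∈ V := by
  intro f hf P hPm hPc hPv
  haveI := charZero_Fc G
  haveI := isDiscreteValuationRing_Rf G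
  haveI := isIntegrallyClosed_chartB G
  haveI := finite_chartB G
  have hR : ∀ r ∈ R, r ∈ Fc := fun r hr => R_le_Fc G hr
  obtain ⟨Q, hQ, hQc⟩ := exists_poly_Fc hR (xf G) P hPc
  have hQm : Q.Monic := by
    rw [← hQ] at hPm
    exact Polynomial.monic_of_injective Fc.subtype_injective hPm
  have hv : (⟨f, G.V_le hf⟩ : Fc) ∈ Vf G := hf
  have hQv : Q.eval (⟨f, G.V_le hf⟩ : Fc) * (wf G)⁻¹ ∈ Vf G := by
    show ((Q.eval (⟨f, G.V_le hf⟩ : Fc) * (wf G)⁻¹ : Fc) : Ω) ∈ V
    rw [Subfield.coe_mul, Subfield.coe_inv, _root_.Fermat.Agent.S37.Rim.H383.coe_eval_Fc, hQ]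
    exact hPv
  obtain ⟨b, hb, hbv⟩ := exists_chart_lift (transcendental_xf G)
    (isAlgebraic_adjoin_of_goodModel G) (Vf G) (wf_mem_Rf G) (irreducible_wf G) (Rf_le_Vf G)
    (xf_mem_Vf G) (wf_inv_not_mem_Vf G) (Vf_gen G) (qep_fin' G) (sepB_of_goodModel G) (Sf G)
    (isUnit_sub_Sf G) (hNC_of_goodModel G) hv Q hQm
    (fun i => (chartB (Rf Fc R) (xf G)).algebraMap_mem ⟨Q.coeff i, hQc i⟩) hQv
  exact ⟨(b : Ω), (mem_chartRing_iff Fc R (xf G) hR).1 hb, hbv⟩

/-- The same on the chart at infinity. -/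
theorem normalAbs_inv (G : GoodModel Lc Ec Fc R V w x S) :
    ∀ f ∈ V, ∀ P : Polynomial Ω, P.Monic → (∀ i, P.coeff i ∈ polyRing R x⁻¹) →
      P.eval f * w⁻¹ ∈ V → ∃ b ∈ chart Fc R x⁻¹, (f - b) * w⁻¹ ∈ V := by
  classical
  exact normalAbs (Fermat.Agent.S18.H425.goodModel_inv G)

/-- `NormalAbsStatement` of board v3 (`Core/Skeleton4.lean`), verbatim. -/
theorem normalAbsStatement :
    ∀ (Ω : Type) [Field Ω] (Lc Ec Fc : Subfield Ω) (R V : Subring Ω) (w x : Ω) (S : Finset Ω),
      Alg.GoodModel Lc Ec Fc R V w x S →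
      ∀ f ∈ V, ∀ P : Polynomial Ω, P.Monic → (∀ i, P.coeff i ∈ Alg.polyRing R x) →
        P.eval f * w⁻¹ ∈ V →
        ∃ b ∈ Alg.chart Fc R x, (f - b) * w⁻¹ ∈ V :=
  fun _ _ _ _ _ _ _ _ _ _ G => normalAbs G

end Fermat.Agent.S37.Rim.H383

end
end
-- ===== PACK-END S37/Rim/H383/NormalAbs.lean

-- ===== PACK-BEGIN S18/Mod/H216/IntegJ.lean
section


/-!
# S18 / MOD (helper216): integrality of the S28 monomials over `Rc[j]`, and G-V, G-QEP for `x = j`

* `isIntegral_jd` : `j(q^d)` is integral over `Rc[j]` (from `CoreData.integral`).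
* `isIntegral_toOm_yInt` : the monomials `yᵢ ∈ ℤ[j_d : d ∣ M]` are integral over `Rc[j]`.
* `partV_j`, `partQep_j` : `PartV`, `PartQep` for `(Fc M E, Rc M A E, Vc M A E, w, jOm M)` from
  `CoreData M κ`, `κ` the residue field of `A`.
-/

set_option autoImplicit false
set_option linter.unusedSectionVars false

noncomputable section

namespace Fermat.Agent.S18.Mod.H216

open ModularCurve AlgebraicCurve HahnSeries Polynomial Fermat.Agent.S18 Fermat.Agent.S18.Mod
open Fermat.Agent.S28 Fermat.Agent.S18.Alg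

variable {M : ℕ} [NeZero M] (A : ValuationSubring Qb) (E : IntermediateField ℚ Qb)

/-- `ℤ((q)) → Q̄((q))`. -/
abbrev phiZ : LaurentSeries ℤ →+* LaurentSeries Qb := coeffMap (Int.castRingHom Qb)

theorem coe_jd_eq_phiZ (d : ℕ) [NeZero d] (hd : d ∣ M) :
    ((jd M d hd : Om M) : LaurentSeries Qb) = phiZ (qExpand ℤ d (jqModC ℤ)) := by
  rw [coe_jd, coeffEmb, coeffMap_qExpand, coeffMap_qExpand, ← jqModC_rat, coeffMap_jqModC,
    coeffMap_jqModC]

theorem intCast_mem_Rc (k : ℤ) : (k : Om M) ∈ Rc M A E := intCast_mem _ k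

theorem aeval_jOm_mem_polyRing (g : Polynomial ℤ) :
    Polynomial.aeval (jOm M) g ∈ polyRing (Rc M A E) (jOm M) := by
  rw [Polynomial.aeval_eq_sum_range]
  refine sum_mem fun i _ => ?_
  rw [zsmul_eq_mul]
  exact mul_mem (le_polyRing _ _ (intCast_mem_Rc A E _)) (pow_mem (self_mem_polyRing _ _) i)

/-- `ℤ[X] → Rc[j]`. -/
def psiZ : Polynomial ℤ →+* ↥(polyRing (Rc M A E) (jOm M)) :=
  (Polynomial.aeval (R := ℤ) (jOm M)).toRingHom.codRestrict (polyRing (Rc M A E) (jOm M))
    (aeval_jOm_mem_polyRing A E)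

theorem omVal_comp_aeval :
    (omVal M).comp (Polynomial.aeval (R := ℤ) (jOm M)).toRingHom =
      phiZ.comp (evalAt (jqModC ℤ)) := by
  apply Polynomial.ringHom_ext
  · intro k
    simp
  · simp only [RingHom.comp_apply, AlgHom.toRingHom_eq_coe, RingHom.coe_coe, Polynomial.aeval_X,
      omVal_apply]
    rw [coe_jOm, coeffMap_jqModC]

theorem isIntegral_jd
    (hint : ∀ (d : ℕ) [NeZero d], d ∣ M → ∃ P : Polynomial (Polynomial ℤ), P.Monic ∧
      P.eval₂ (evalAt (jqModC ℤ)) (qExpand ℤ d (jqModC ℤ)) = 0)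
    (d : ℕ) [NeZero d] (hd : d ∣ M) :
    IsIntegral (polyRing (Rc M A E) (jOm M)) (jd M d hd) := by
  obtain ⟨P, hmonic, hroot⟩ := hint d hd
  refine ⟨P.map (psiZ A E), hmonic.map _, ?_⟩
  rw [Polynomial.eval₂_map]
  have hcomp : (algebraMap ↥(polyRing (Rc M A E) (jOm M)) (Om M)).comp (psiZ A E) =
      (Polynomial.aeval (R := ℤ) (jOm M)).toRingHom := rfl
  rw [hcomp]
  apply omVal_injective M
  rw [map_zero, Polynomial.hom_eval₂, omVal_comp_aeval, omVal_apply, coe_jd_eq_phiZ,
    ← Polynomial.hom_eval₂, hroot, map_zero]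

variable {n : ℕ} {y : Fin n → LaurentSeries ℤ}

theorem isIntegral_toOm_yInt (hS : H516.SpansQ M y)
    (hint : ∀ (d : ℕ) [NeZero d], d ∣ M → ∃ P : Polynomial (Polynomial ℤ), P.Monic ∧
      P.eval₂ (evalAt (jqModC ℤ)) (qExpand ℤ d (jqModC ℤ)) = 0)
    (i : Fin n) :
    IsIntegral (polyRing (Rc M A E) (jOm M)) (toOm M A E (yInt A E hS i)) := by
  have hle : Subring.closure (intDivisorExpansions M) ≤
      Subring.comap phiZ
        ((integralClosure ↥(polyRing (Rc M A E) (jOm M)) (Om M)).toSubring.map (omVal M)) := by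
    rw [Subring.closure_le]
    rintro z ⟨d, hd, hdM, rfl⟩
    haveI := hd
    exact ⟨jd M d hdM, isIntegral_jd A E hint d hdM, coe_jd_eq_phiZ d hdM⟩
  obtain ⟨f, hf, hfy⟩ := hle (hS.1 i)
  have : f = toOm M A E (yInt A E hS i) := by
    apply Subtype.ext
    rw [coe_toOm_yInt]
    exact hfy
  rw [← this]
  exact hf

/-! ### G-V and G-QEP for `x = j` -/

/-- **G-V** for the coordinate `j`. -/
theorem partV_j (core : CoreData M (IsLocalRing.ResidueField ↥A)) {w : Om M}
    (hR : PartR (Ec M E) (Rc M A E) w) :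
    PartV (Fc M E) (Rc M A E) (Vc M A E) w (jOm M) := by
  obtain ⟨n, y, hy, hspan, hli⟩ := core.exists_basis
  have hS : H516.SpansQ M y := ⟨hy, hspan⟩
  exact
    { V_le := Vc_le_Fc M A E
      V_total := V_total_j A E hS hli
      R_le_V := R_le_V M A E
      w_inv_not_mem_V := w_inv_not_mem_V M A E hR
      V_gen := V_gen M A E hR
      x_mem_V := jOm_mem_Vc M A E
      gauss := gauss_j M A E }

/-- **G-QEP** for the coordinate `j`. -/
theorem partQep_j (core : CoreData M (IsLocalRing.ResidueField ↥A)) {w : Om M}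
    (hR : PartR (Ec M E) (Rc M A E) w) :
    PartQep (Fc M E) (Rc M A E) (Vc M A E) w (jOm M) := by
  obtain ⟨n, y, hy, hspan, hli⟩ := core.exists_basis
  have hS : H516.SpansQ M y := ⟨hy, hspan⟩
  exact partQep_of_den hR (partV_j A E core hR) (Ec_le_Fc M E) (jOm_mem_Vc M A E)
    (injective_evR_j A E)
    (denAt_j A E hR hS hli (isIntegral_toOm_yInt A E hS (fun d _ hd => core.integral d hd)))

end Fermat.Agent.S18.Mod.H216

end
end
-- ===== PACK-END S18/Mod/H216/IntegJ.lean

-- ===== PACK-BEGIN S18/Mod/H216/NodeJ.lean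
section






/-!
# S18 / MOD (helper216): G-V and G-QEP for the coordinate `j` — UNCONDITIONAL

For `ℓ ∤ M` and `A` over `ℓ`:
* `coreData_residue` : S28 `CoreData M κ` for the residue field `κ` of `A`;
* `partVStatement_j`   : `PartVStatement M A (jOm M)`;
* `partQepStatement_j` : `PartQepStatement M A (jOm M)`.
-/

set_option autoImplicit false
set_option linter.unusedSectionVars false

noncomputable section

namespace Fermat.Agent.S18.Mod.H216

open ModularCurve AlgebraicCurve HahnSeries Polynomial Fermat.Agent.S18 Fermat.Agent.S18.Mod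
open Fermat.Agent.S28 Fermat.Agent.S18.Alg

variable {M : ℕ} [NeZero M] {ℓ : ℕ} [Fact ℓ.Prime] (A : ValuationSubring Qb)

theorem charP_residue (hA : A.LiesOverPrime ℓ) : CharP (IsLocalRing.ResidueField ↥A) ℓ := by
  have hp : ℓ.Prime := Fact.out
  rw [CharP.charP_iff_prime_eq_zero hp]
  obtain ⟨ha, hmem⟩ := (ValuationSubring.mem_nonunits_iff_exists_mem_maximalIdeal).mp hA
  have h1 : IsLocalRing.residue ↥A ⟨(ℓ : Qb), ha⟩ = 0 :=
    (IsLocalRing.residue_eq_zero_iff _).mpr hmem
  have h2 : (⟨(ℓ : Qb), ha⟩ : ↥A) = ((ℓ : ℕ) : ↥A) := Subtype.ext (by simp)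
  rw [h2, map_natCast] at h1
  exact h1

/-- S28 `CoreData` over the residue field of `A`. -/
theorem coreData_residue (hℓM : ¬ ℓ ∣ M) (hA : A.LiesOverPrime ℓ) :
    CoreData M (IsLocalRing.ResidueField ↥A) := by
  haveI := charP_residue A hA
  exact H867.coreData_of_inputs M ℓ hℓM (IsLocalRing.ResidueField ↥A)
    (fun p hp _ _ => H807.nonempty_modPolyData p hp)
    (fun p hp _ _ => H807.nonempty_unitPolyData p hp)
    H25.theta_identity

/-- **G-V for `x = j`** (exact target `PartVStatement M A (jOm M)`). -/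
theorem partVStatement_j (hℓM : ¬ ℓ ∣ M) (hA : A.LiesOverPrime ℓ) :
    PartVStatement M A (jOm M) :=
  fun E _ _ hR => partV_j A E (coreData_residue A hℓM hA) hR

/-- **G-QEP for `x = j`** (exact target `PartQepStatement M A (jOm M)`). -/
theorem partQepStatement_j (hℓM : ¬ ℓ ∣ M) (hA : A.LiesOverPrime ℓ) :
    PartQepStatement M A (jOm M) :=
  fun E _ _ hR => partQep_j A E (coreData_residue A hℓM hA) hR

end Fermat.Agent.S18.Mod.H216

end
end
-- ===== PACK-END S18/Mod/H216/NodeJ.lean

-- ===== PACK-BEGIN S17/H17/HGauss.lean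
section




/-!
# S17 / tower H — the GAUSS interface between the GAUSS sub-project and TOP (row-lead helper17)

TOP needs (GAUSS) at a GALOIS-INVARIANT canonical divisor (`K₀ = div(dt)`, `t` a rational
function with poles at `∞` only), so `GAUSSStatement` (`∃ K₀`) is not enough.  FROZEN output of
the GAUSS sub-project:

* `GAUSSCanStatement E` : `|κ(P) − (W . P)| ≤ C_W` off `W`, for EVERY divisor `W = div ω` of a
  nonzero Kähler differential.

Proved here (formal):

* `GAUSSAtStatement.of_off_finset` : finitely many exceptional places are absorbed by the constant;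
* `GAUSSAtStatement.add_principal` : (GAUSS) at `K₀` + (PRINC) ⟹ (GAUSS) at `K₀ + div f`;
* `gaussCan_of_one` : (GAUSS) at ONE Kähler canonical divisor + (PRINC) ⟹ `GAUSSCanStatement`;
* `gaussStatement_of_can` : `GAUSSCanStatement` ⟹ `GAUSSStatement` (degree `2g − 2` by the
  bridge `Lib/RR/H80/Res/Bridge.degree_kaehler`), the input of the wall assembly.

`PRINCStatement E` : `|(div f . P)| ≤ C_f` off `div f` (Weil's machine for ONE form of degree `k`
gives `(Z_G . P) = k h(P) + O(1)`; write `f = G₁(x) / G₂(x)`).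
-/

set_option autoImplicit false

noncomputable section

open AlgebraicCurve KaehlerDifferential

namespace Fermat.Agent.S17.HContract

open Fermat.Agent.Lib.RR Fermat.Agent.S17.HWall

variable {K F : Type*} [Field K] [CharZero K] [Field F] [Algebra K F] [FF1 K F]

/-- **(GAUSS) at the divisor `K₀`**: `|κ(P) − (K₀ . P)| ≤ C` for all places `P ∉ K₀`. -/
def GAUSSAtStatement (E : EmbData K F) (K₀ : Divisor K F) : Prop :=
  ∃ C : ℝ, ∀ P : Place K F, K₀ P = 0 → |kap E P - pairPt E K₀ P| ≤ C

/-- **(GAUSS), final form**: (GAUSS) at the divisor of every nonzero Kähler differential. -/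
def GAUSSCanStatement (E : EmbData K F) : Prop :=
  ∀ (ω : Ω[F⁄K]) (W : Divisor K F), ω ≠ 0 → (∀ v : Place K F, W v = v.ordDifferential ω) →
    GAUSSAtStatement E W

/-- **(PRINC)**: the pairing with a principal divisor is bounded off its support. -/
def PRINCStatement (E : EmbData K F) : Prop :=
  ∀ (f : F) (Df : Divisor K F), f ≠ 0 → (∀ v : Place K F, Df v = v.ord f) →
    ∃ C : ℝ, ∀ P : Place K F, Df P = 0 → |pairPt E Df P| ≤ C

theorem pairPt_add' (E : EmbData K F) (D D' : Divisor K F) (P : Place K F) :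
    pairPt E (D + D') P = pairPt E D P + pairPt E D' P := by
  unfold pairPt
  rw [Finsupp.sum_add_index']
  · intro A
    rw [Int.cast_zero, zero_mul]
  · intro A n n'
    push_cast
    ring

/-- Finitely many exceptional places are absorbed by the constant. -/
theorem GAUSSAtStatement.of_off_finset {E : EmbData K F} {K₀ : Divisor K F}
    (S : Finset (Place K F))
    (h : ∃ C : ℝ, ∀ P : Place K F, P ∉ S → K₀ P = 0 → |kap E P - pairPt E K₀ P| ≤ C) :
    GAUSSAtStatement E K₀ := by
  classical
  obtain ⟨C, hC⟩ := h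
  refine ⟨|C| + ∑ P ∈ S, |kap E P - pairPt E K₀ P|, fun P hP => ?_⟩
  have hsum : 0 ≤ ∑ Q ∈ S, |kap E Q - pairPt E K₀ Q| :=
    Finset.sum_nonneg fun _ _ => abs_nonneg _
  by_cases hPS : P ∈ S
  · have := Finset.single_le_sum (f := fun Q => |kap E Q - pairPt E K₀ Q|)
      (fun _ _ => abs_nonneg _) hPS
    have h2 := abs_nonneg C
    linarith
  · have := hC P hPS hP
    have h2 := le_abs_self C
    linarith

/-- (GAUSS) is invariant under linear equivalence, given (PRINC). -/
theorem GAUSSAtStatement.add_principal {E : EmbData K F} {K₀ : Divisor K F}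
    (h : GAUSSAtStatement E K₀) (hP : PRINCStatement E) (f : F) (hf : f ≠ 0)
    (K₁ : Divisor K F) (hK₁ : ∀ v : Place K F, K₁ v = K₀ v + v.ord f) :
    GAUSSAtStatement E K₁ := by
  classical
  obtain ⟨C₀, hC₀⟩ := h
  have hDf : ∀ v : Place K F, (K₁ - K₀) v = v.ord f := fun v => by
    rw [Finsupp.sub_apply, hK₁ v]; ring
  obtain ⟨C₁, hC₁⟩ := hP f (K₁ - K₀) hf hDf
  refine GAUSSAtStatement.of_off_finset (K₀.support ∪ (K₁ - K₀).support) ⟨C₀ + C₁, ?_⟩
  intro P hPS _
  rw [Finset.mem_union, not_or, Finsupp.notMem_support_iff, Finsupp.notMem_support_iff] at hPS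
  have e : pairPt E K₁ P = pairPt E K₀ P + pairPt E (K₁ - K₀) P := by
    rw [← pairPt_add']
    congr 1
    abel
  have h0 := hC₀ P hPS.1
  have h1 := hC₁ P hPS.2
  rw [e]
  calc |kap E P - (pairPt E K₀ P + pairPt E (K₁ - K₀) P)|
      = |(kap E P - pairPt E K₀ P) - pairPt E (K₁ - K₀) P| := by ring_nf
    _ ≤ |kap E P - pairPt E K₀ P| + |pairPt E (K₁ - K₀) P| := abs_sub _ _
    _ ≤ C₀ + C₁ := add_le_add h0 h1

/-- (GAUSS) at ONE Kähler canonical divisor and (PRINC) give (GAUSS) at all of them. -/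
theorem gaussCan_of_one [IsAlgClosed K] {E : EmbData K F} (hP : PRINCStatement E)
    (ω₀ : Ω[F⁄K]) (hω₀ : ω₀ ≠ 0) (W₀ : Divisor K F)
    (hW₀ : ∀ v : Place K F, W₀ v = v.ordDifferential ω₀) (h : GAUSSAtStatement E W₀) :
    GAUSSCanStatement E := by
  intro ω W hω hW
  obtain ⟨j, -, hjfin⟩ := FF1.exists_finite (K := K) (F := F)
  have := hjfin
  obtain ⟨f₀, hf₀⟩ := Fermat.Agent.S24.H84.kd_exists_smul_D j ω₀
  obtain ⟨f, hf⟩ := Fermat.Agent.S24.H84.kd_exists_smul_D j ω
  have hf₀0 : f₀ ≠ 0 := by rintro rfl; exact hω₀ (by rw [hf₀, zero_smul])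
  have hf0 : f ≠ 0 := by rintro rfl; exact hω (by rw [hf, zero_smul])
  have hrel : ω = (f * f₀⁻¹) • ω₀ := by
    rw [hf₀, smul_smul, mul_assoc, inv_mul_cancel₀ hf₀0, mul_one, ← hf]
  have hg : f * f₀⁻¹ ≠ 0 := mul_ne_zero hf0 (inv_ne_zero hf₀0)
  refine h.add_principal hP (f * f₀⁻¹) hg W fun v => ?_
  rw [hW v, hW₀ v, hrel, Fermat.Agent.S24.H84.kd_ordDifferential_smul j v _ hg ω₀ hω₀]
  ring

/-- `GAUSSCanStatement` gives the `GAUSSStatement` of the contract (degree `2g − 2` by the
bridge of helper80). -/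
theorem gaussStatement_of_can [IsAlgClosed K] {E : EmbData K F} (h : GAUSSCanStatement E) :
    GAUSSStatement E := by
  obtain ⟨ω, hω⟩ := Fermat.Agent.Lib.RR.H80.exists_kaehler_ne_zero K F
  obtain ⟨W, hW, -⟩ := Fermat.Agent.Lib.RR.H80.exists_canonical_kaehler ω hω
  obtain ⟨C, hC⟩ := h ω W hω hW
  refine ⟨W, C, ?_, hC⟩
  rw [Fermat.Agent.Lib.RR.H80.degree_kaehler hω hW, genusFF_eq_genusR]

end Fermat.Agent.S17.HContract

end
end
-- ===== PACK-END S17/H17/HGauss.lean

-- ===== PACK-BEGIN S17/H710/Wall/Defs.lean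
section



/-!
# S17 / tower H — the WALL (global route, architect helper710): definitions + FROZEN leaves

Sorry-free (definitions only).  Target of the wall: `HContract.Contract E E d₀` for ONE embedding
`E` with `4 g + 1 ≤ E.m` (`NC` is then trivial), `K` algebraically closed and algebraic over `ℚ`.
Blueprint: `coord/S17-WALL-helper710.md` (branch `origin/helper710`).

All `def … : Prop` below are FROZEN leaf statements: the owner proves
`theorem xxx : XxxStatement …` in his own file; the assembly takes them as hypotheses.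

Everything is phrased with explicit matrices of VALUES

* `betaMat u y s j = ∏ᵢ (uᵢ ∧ y_j)_{sᵢ}`  (value at `y_j` of `β_s = ∏ᵢ secForm (uᵢ) (sᵢ)`),
* `wMat W y (ρ, α) j = ⟨W ρ, y_j⟩ · ∏ₖ (y_j)_{αₖ}`  (value at `y_j` of `w_ρ · X^α`),

and the corresponding single columns `betaCol`, `wCol` (value at one more point) and `betaJet`,
`wJet` (first order jet at a point `z` in the direction `z'`).
-/

set_option autoImplicit false

noncomputable section

namespace Fermat.Agent.S17.Wall

open AlgebraicCurve MvPolynomial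
open Fermat.Agent.Lib.RR Fermat.Agent.S17.HWall Fermat.Agent.S17.H710
open Fermat.Agent.S17.HContract

variable {K F : Type*} [Field K] [Field F] [Algebra K F]

/-! ## Polynomial dictionary -/

/-- the linear form `Σ aᵢ Xᵢ` -/
def linForm {n : ℕ} (a : Fin n → K) : MvPolynomial (Fin n) K := ∑ i, C (a i) * X i

/-- the secant form `z ↦ (y ∧ z)_p = y_{p.1} z_{p.2} - y_{p.2} z_{p.1}`; it vanishes at `y` -/
def secForm {n : ℕ} (y : Fin n → K) (p : Fin n × Fin n) : MvPolynomial (Fin n) K :=
  C (y p.1) * X p.2 - C (y p.2) * X p.1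

/-- a product of secant forms, one for each of the points `y 0, …, y (d-1)` -/
def secProd {n d : ℕ} (y : Fin d → Fin n → K) (s : Fin d → Fin n × Fin n) :
    MvPolynomial (Fin n) K :=
  ∏ i, secForm (y i) (s i)

/-- the ordered monomial `∏ₖ X_{αₖ}` -/
def monoOrd {n e : ℕ} (α : Fin e → Fin n) : MvPolynomial (Fin n) K := ∏ k, X (α k)

theorem eval_linForm {n : ℕ} (a z : Fin n → K) : eval z (linForm a) = dot a z := by
  simp [linForm, dot, dotProduct]

theorem eval_secForm {n : ℕ} (y z : Fin n → K) (p : Fin n × Fin n) :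
    eval z (secForm y p) = wedge y z p := by
  simp [secForm, wedge]

theorem eval_secProd {n d : ℕ} (y : Fin d → Fin n → K) (s : Fin d → Fin n × Fin n)
    (z : Fin n → K) : eval z (secProd y s) = ∏ i, wedge (y i) z (s i) := by
  simp [secProd, eval_secForm]

theorem eval_monoOrd {n e : ℕ} (α : Fin e → Fin n) (z : Fin n → K) :
    eval z (monoOrd α) = ∏ k, z (α k) := by
  simp [monoOrd]

theorem linForm_isHomogeneous {n : ℕ} (a : Fin n → K) : (linForm a).IsHomogeneous 1 := by
  unfold linForm
  refine IsHomogeneous.sum _ _ _ fun i _ => ?_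
  simpa using (isHomogeneous_C (Fin n) (a i)).mul (isHomogeneous_X K i)

theorem secForm_isHomogeneous {n : ℕ} (y : Fin n → K) (p : Fin n × Fin n) :
    (secForm y p).IsHomogeneous 1 := by
  unfold secForm
  refine IsHomogeneous.sub ?_ ?_
  · simpa using (isHomogeneous_C (Fin n) (y p.1)).mul (isHomogeneous_X K p.2)
  · simpa using (isHomogeneous_C (Fin n) (y p.2)).mul (isHomogeneous_X K p.1)

theorem secProd_isHomogeneous {n d : ℕ} (y : Fin d → Fin n → K) (s : Fin d → Fin n × Fin n) :
    (secProd y s).IsHomogeneous d := by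
  unfold secProd
  have := IsHomogeneous.prod (Finset.univ : Finset (Fin d)) (fun i => secForm (y i) (s i))
    (fun _ => 1) (fun i _ => secForm_isHomogeneous (y i) (s i))
  simpa using this

theorem monoOrd_isHomogeneous {n e : ℕ} (α : Fin e → Fin n) :
    (monoOrd (K := K) α).IsHomogeneous e := by
  unfold monoOrd
  have := IsHomogeneous.prod (Finset.univ : Finset (Fin e))
    (fun k => (X (α k) : MvPolynomial (Fin n) K)) (fun _ => 1) (fun k _ => isHomogeneous_X K (α k))
  simpa using this

/-! ## The matrices of values -/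

/-- `betaMat u y s j = ∏ᵢ (uᵢ ∧ y_j)_{sᵢ}` : the value at `y_j` of `β_s = secProd u s`. -/
def betaMat {n d : ℕ} {c : Type*} (u : Fin d → Fin n → K) (y : c → Fin n → K) :
    (Fin d → Fin n × Fin n) → c → K :=
  fun s j => ∏ i, wedge (u i) (y j) (s i)

/-- `betaCol u z s = ∏ᵢ (uᵢ ∧ zᵢ)_{sᵢ}` (one point `zᵢ` per slot; value of `β_s` at `z` if
`zᵢ = z` for all `i`). -/
def betaCol {n d : ℕ} (u z : Fin d → Fin n → K) : (Fin d → Fin n × Fin n) → K :=
  fun s => ∏ i, wedge (u i) (z i) (s i)

/-- first order jet of `β_s` at `z` in the direction `z'` -/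
def betaJet {n d : ℕ} (u : Fin d → Fin n → K) (z z' : Fin n → K) :
    (Fin d → Fin n × Fin n) → K :=
  fun s => ∑ l, wedge (u l) z' (s l) * ∏ i ∈ Finset.univ.erase l, wedge (u i) z (s i)

/-- `wMat W y (ρ, α) j = ⟨W ρ, y_j⟩ ∏ₖ (y_j)_{αₖ}` : the value at `y_j` of `w_ρ · X^α`. -/
def wMat {n e : ℕ} {ρ c : Type*} (W : ρ → Fin n → K) (y : c → Fin n → K) :
    ρ × (Fin e → Fin n) → c → K :=
  fun t j => dot (W t.1) (y j) * ∏ k, y j (t.2 k)

/-- value of `w_ρ · X^α` at `z` -/
def wCol {n e : ℕ} {ρ : Type*} (W : ρ → Fin n → K) (z : Fin n → K) :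
    ρ × (Fin e → Fin n) → K :=
  fun t => dot (W t.1) z * ∏ k, z (t.2 k)

/-- first order jet of `w_ρ · X^α` at `z` in the direction `z'` -/
def wJet {n e : ℕ} {ρ : Type*} (W : ρ → Fin n → K) (z z' : Fin n → K) :
    ρ × (Fin e → Fin n) → K :=
  fun t => dot (W t.1) z' * ∏ k, z (t.2 k) +
    dot (W t.1) z * ∑ l, z' (t.2 l) * ∏ k ∈ Finset.univ.erase l, z (t.2 k)

/-- the stacked matrix `[U | ψu ; W | ψw]` (columns `c ⊕ Unit`) -/
def stack {σ τ c : Type*} (U : σ → c → K) (ψu : σ → K) (W : τ → c → K) (ψw : τ → K) :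
    σ ⊕ τ → c ⊕ Unit → K :=
  Sum.elim (fun s => Sum.elim (U s) fun _ => ψu s) (fun t => Sum.elim (W t) fun _ => ψw t)

/-- the vector of all `κ × κ` minors -/
def minors {σ c : Type*} (κ : ℕ) (U : σ → c → K) : (Fin κ → σ) × (Fin κ → c) → K :=
  fun p => (Matrix.of fun i j => U (p.1 i) (p.2 j)).det

theorem betaMat_eq_eval {n d : ℕ} {c : Type*} (u : Fin d → Fin n → K) (y : c → Fin n → K)
    (s : Fin d → Fin n × Fin n) (j : c) : betaMat u y s j = eval (y j) (secProd u s) :=
  (eval_secProd u s (y j)).symm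

theorem wMat_eq_eval {n e : ℕ} {ρ c : Type*} (W : ρ → Fin n → K) (y : c → Fin n → K)
    (t : ρ × (Fin e → Fin n)) (j : c) :
    wMat W y t j = eval (y j) (linForm (W t.1) * monoOrd t.2) := by
  simp [wMat, eval_linForm, eval_monoOrd]

/-- functional multihomogeneity of multidegree `(N, …, N)` in `d` blocks of `n` variables -/
def MultiHom {n d : ℕ} (p : MvPolynomial (Fin d × Fin n) K) (N : ℕ) : Prop :=
  ∀ (y : Fin d → Fin n → K) (c : Fin d → K),
    eval (fun q : Fin d × Fin n => c q.1 * y q.1 q.2) p =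
      (∏ l, c l ^ N) * eval (fun q : Fin d × Fin n => y q.1 q.2) p

/-! ## A leaves: linear algebra + absolute heights (Mathlib + S17/H380 + S17/H917 only) -/

section A

variable (K) [CharZero K]

/-- **A1 (CRAMER + HEIGHTS).**  If all rows of `[U | ψu ; W | ψw]` lie in a space of dimension
`≤ κ`, some `κ`-minor of `U` is nonzero and `ψw ≠ 0`, then
`h(κ-minors of U) + h(ψw) ≤ (κ-1) h(U) + h(W) + h(ψu) + C`, `C = C(κ, σ, τ, c)`.
Proof: `H917.cramer_identity_matrix` gives
`det U_{S,T} · ψw t = Σᵢ det (U_{S,T}[row i ← W t ∘ T]) · ψu (S i)`; the LHS vector is a Segre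
product (`H380.absLogHeight_fun_mul_eq`), the RHS a fixed multilinear map with integer
coefficients in `(U, …, U, W, ψu)` (`H380.absLogHeight_multilinear_apply_le`). -/
def CramerHeightStatement : Prop :=
  ∀ (κ : ℕ) (σ τ c : Type) [Fintype σ] [Fintype τ] [Fintype c],
    ∃ C : ℝ, ∀ (U : σ → c → K) (ψu : σ → K) (W : τ → c → K) (ψw : τ → K),
      Module.finrank K (Submodule.span K (Set.range (stack U ψu W ψw))) ≤ κ →
      minors κ U ≠ 0 → ψw ≠ 0 →
      ht (minors κ U) + ht ψw
        ≤ ((κ - 1 : ℕ) : ℝ) * ht (fun q : σ × c => U q.1 q.2)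
          + ht (fun q : τ × c => W q.1 q.2) + ht ψu + C

/-- **A2 (MINOR).**  A matrix whose rows span a space of dimension `κ` has a nonzero
`κ × κ` minor. -/
def MinorStatement : Prop :=
  ∀ (σ c : Type) [Finite c] (κ : ℕ) (B : σ → c → K),
    Module.finrank K (Submodule.span K (Set.range B)) = κ → minors κ B ≠ 0

/-- **A3 (MULTI-SLOT NULLSTELLENSATZ LOWER BOUND, absolute heights).**  `rel` = homogeneous
equations of a cone in `K^n`; `p j` multihomogeneous of multidegree `(N, …, N)` in `d` slots,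
without common zero on `(cone ∖ 0)^d`.  Then `N Σ_l h(y_l) ≤ h(p(y)) + C` on `(cone ∖ 0)^d`.
Proof: Nullstellensatz certificate `Σ_j q_{k,j} p_j ≡ ∏_l Y_{l,k_l}^{M+N}` modulo the equations
(multihomogeneous components), all coefficients in ONE number field; Segre
(`H380.absLogHeight_fun_prod_eq`) + `H380.absLogHeight_eval_ge` at the tensor `⊗ y_l`.
`d = 1`, `rel = ∅` is the plain projective case. -/
def MultislotStatement : Prop :=
  ∀ (n d : ℕ) (ι' : Type) [Fintype ι'] (rel : Set (MvPolynomial (Fin n) K)),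
    (∀ G ∈ rel, ∃ e : ℕ, G.IsHomogeneous e) →
    ∀ (p : ι' → MvPolynomial (Fin d × Fin n) K) (N : ℕ), (∀ j, MultiHom (p j) N) →
    (∀ y : Fin d → Fin n → K, (∀ l, y l ≠ 0) → (∀ l, ∀ G ∈ rel, eval (y l) G = 0) →
      ∃ j, eval (fun q : Fin d × Fin n => y q.1 q.2) (p j) ≠ 0) →
    ∃ C : ℝ, ∀ y : Fin d → Fin n → K, (∀ l, y l ≠ 0) → (∀ l, ∀ G ∈ rel, eval (y l) G = 0) →
      (N : ℝ) * ∑ l, ht (y l) ≤
        ht (fun j => eval (fun q : Fin d × Fin n => y q.1 q.2) (p j)) + C

/-- **A4 (upper bound for `betaMat`).**  `betaMat u y` is multilinear in `u` with coefficients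
depending on the FIXED points `y` only (`H380.absLogHeight_multilinear_apply_le`). -/
def HtBetaMatStatement : Prop :=
  ∀ (n d : ℕ) (c : Type) [Fintype c] (y : c → Fin n → K),
    ∃ C : ℝ, ∀ u : Fin d → Fin n → K,
      ht (fun q : (Fin d → Fin n × Fin n) × c => betaMat u y q.1 q.2) ≤ ∑ i, ht (u i) + C

/-- **A5 (upper bound for `wMat`).**  `wMat W y` is linear in `W`. -/
def HtWMatStatement : Prop :=
  ∀ (n e : ℕ) (ρ c : Type) [Fintype ρ] [Fintype c] (y : c → Fin n → K),
    ∃ C : ℝ, ∀ W : ρ → Fin n → K,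
      ht (fun q : (ρ × (Fin e → Fin n)) × c => wMat W y q.1 q.2)
        ≤ ht (fun q : ρ × Fin n => W q.1 q.2) + C

/-- **A6 (Segre, exact).** -/
def HtBetaColStatement : Prop :=
  ∀ (n d : ℕ) (u z : Fin d → Fin n → K), (∀ i, wedge (u i) (z i) ≠ 0) →
    ht (betaCol u z) = ∑ i, ht (wedge (u i) (z i))

/-- **A7 (Segre, exact).**  `h(v ⊗ z^{⊗e}) = h(v) + e h(z)`. -/
def HtWColStatement : Prop :=
  ∀ (n e : ℕ) (ρ : Type) [Fintype ρ] (v : ρ → K) (z : Fin n → K), v ≠ 0 → z ≠ 0 →
    ht (fun t : ρ × (Fin e → Fin n) => v t.1 * ∏ k, z (t.2 k)) = ht v + (e : ℝ) * ht z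

/-- **A8.**  The `κ`-minors of `betaMat · y` as multihomogeneous polynomials in the `d` slots. -/
def MinorPolyBetaStatement : Prop :=
  ∀ (n d : ℕ) (c : Type) [Fintype c] (y : c → Fin n → K) (κ : ℕ),
    ∃ p : (Fin κ → (Fin d → Fin n × Fin n)) × (Fin κ → c) → MvPolynomial (Fin d × Fin n) K,
      (∀ j, MultiHom (p j) κ) ∧
      ∀ (u : Fin d → Fin n → K) j,
        eval (fun q : Fin d × Fin n => u q.1 q.2) (p j) = minors κ (betaMat u y) j

/-- **A9.**  The `κ`-minors of `wMat (fun _ : Unit => a) y` as homogeneous polynomials in `a`. -/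
def MinorPolyAStatement : Prop :=
  ∀ (n e : ℕ) (c : Type) [Fintype c] (y : c → Fin n → K) (κ : ℕ),
    ∃ p : (Fin κ → (Unit × (Fin e → Fin n))) × (Fin κ → c) → MvPolynomial (Fin 1 × Fin n) K,
      (∀ j, MultiHom (p j) κ) ∧
      ∀ (a : Fin n → K) j,
        eval (fun q : Fin 1 × Fin n => a q.2) (p j) =
          minors κ (wMat (e := e) (fun _ : Unit => a) y) j

/-- **A10 (PLUCKER / LAPLACE).**  `ω = y₀ ∧ … ∧ y_{d-1}`; the coordinates of `ω ∧ z` are linear
forms `W e` in `z`, which vanish at the `yᵢ` and are fixed integer combinations of the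
coordinates of `ω` (Laplace expansion along the last row; `h(W) ≤ h(ω) + C` by
`H380.absLogHeight_linearMap_apply_le`). -/
def PluckerStepStatement : Prop :=
  ∀ (n d : ℕ), ∃ C : ℝ, ∀ (y : Fin d → Fin n → K),
    ∃ W : (Fin (d + 1) ↪ Fin n) → Fin n → K,
      (∀ e i, dot (W e) (y i) = 0) ∧
      (∀ (z : Fin n → K) e, dot (W e) z = plucker (Fin.snoc y z : Fin (d + 1) → Fin n → K) e) ∧
      ht (fun q : (Fin (d + 1) ↪ Fin n) × Fin n => W q.1 q.2) ≤ ht (plucker y) + C

end A

/-! ## G leaves: geometry of the embedded curve (`FF1`, Lib/RR; no heights) -/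

section G

variable [FF1 K F]

/-- `κ_k = dim L(k m ∞ - D)` for an effective divisor `D` of degree `k` -/
def kapN (E : EmbData K F) (k : ℕ) : ℕ := k * E.m - k + 1 - genusR K F

/-- the standing hypothesis of the wall -/
def Big (E : EmbData K F) : Prop := 4 * genusR K F + 1 ≤ E.m

/-- the zero divisor of the section `aeval E.x G` of `O(d m ∞)` (junk `0` if the section is `0`) -/
def zdiv (E : EmbData K F) (d : ℕ) (G : MvPolynomial (Fin (E.r + 1)) K) : Divisor K F :=
  haveI := Classical.propDecidable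
  if h : aeval E.x G = 0 then 0 else divOf (aeval E.x G) h + (d * E.m) • prim E.vinf

/-- **G-PT.**  (1) `pt P ≠ 0`; (2) `pt P` lies on the cone of the relations of `E.x`;
(3) distinct places have non-proportional coordinate vectors; (4) `pt P ∧ tn P ≠ 0`. -/
def PtStatement (E : EmbData K F) : Prop :=
  (∀ P : Place K F, E.pt P ≠ 0) ∧ (∀ P : Place K F, OnCone E.x (E.pt P)) ∧
  (∀ P Q : Place K F, P ≠ Q → wedge (E.pt P) (E.pt Q) ≠ 0) ∧
  (∀ P : Place K F, wedge (E.pt P) (E.tn P) ≠ 0)

/-- **G-CONE (= G1 + glue; core `exists_place_of_onCone` in `S17/H710/ConePoints.lean`).**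
Points of the cone are places. -/
def ConeStatement (E : EmbData K F) : Prop :=
  ∀ y : Fin (E.r + 1) → K, y ≠ 0 → OnCone E.x y →
    ∃ (P : Place K F) (c : K), c ≠ 0 ∧ y = c • E.pt P

/-- **G-ENUM.**  Enumeration of an effective divisor with multiplicities. -/
def EnumStatement (K F : Type*) [Field K] [Field F] [Algebra K F] [FF1 K F] : Prop :=
  ∀ D : Divisor K F, 0 ≤ D → ∀ k : ℕ, Divisor.degree D = k →
    ∃ A : Fin k → Place K F, D = ∑ i, prim (A i)

/-- **G-INF.**  There are infinitely many places. -/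
def InfStatement (K F : Type*) [Field K] [Field F] [Algebra K F] [FF1 K F] : Prop :=
  ∀ L : ℕ, ∃ Q : Fin L → Place K F, Function.Injective Q

/-- **G-INDEP.**  At most `m - 2g + 1` distinct places have linearly independent coordinate
vectors (Riemann–Roch). -/
def IndepStatement (E : EmbData K F) : Prop :=
  ∀ (d : ℕ) (P : Fin d → Place K F), d + 2 * genusR K F ≤ E.m + 1 → Function.Injective P →
    plucker (fun i => E.pt (P i)) ≠ 0

/-- **G-RANK.**  `A : Fin k → Place` arbitrary, `W ρ` linear forms vanishing on `ΣAᵢ`.  For ANY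
finite family `y` of points of the cone and one more point `z` of the cone, the rows `β_s` and
`w_ρ X^α` (`|α| = k - 1`) of the evaluation matrix span a space of dimension `≤ κ_k`
(they are the values of elements of `L(km∞ - ΣAᵢ)`, of dimension `κ_k`, and evaluation at a
point of the cone factors through `F`). -/
def RankStatement (E : EmbData K F) : Prop :=
  ∀ (k : ℕ) (A : Fin k → Place K F) (ρ : Type) [Fintype ρ] (W : ρ → Fin (E.r + 1) → K),
    1 ≤ k → (∀ r, W r ≠ 0 → ∑ l, prim (A l) ≤ E.Z (W r)) →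
    ∀ (c : Type) [Fintype c] (y : c → Fin (E.r + 1) → K) (z : Fin (E.r + 1) → K),
      (∀ j, OnCone E.x (y j)) → OnCone E.x z →
      Module.finrank K (Submodule.span K (Set.range
        (stack (betaMat (fun i => E.pt (A i)) y) (betaCol (fun i => E.pt (A i)) fun _ => z)
          (wMat (e := k - 1) W y) (wCol W z)))) ≤ kapN E k

/-- **G-RANK-JET.**  The same with the extra column replaced by the first order jet at a place
`P` (`jets kill the homogeneous relations of E.x`: the tangent line of the embedded curve). -/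
def RankJetStatement (E : EmbData K F) : Prop :=
  ∀ (k : ℕ) (A : Fin k → Place K F) (ρ : Type) [Fintype ρ] (W : ρ → Fin (E.r + 1) → K),
    1 ≤ k → (∀ r, W r ≠ 0 → ∑ l, prim (A l) ≤ E.Z (W r)) →
    ∀ (c : Type) [Fintype c] (y : c → Fin (E.r + 1) → K) (P : Place K F),
      (∀ j, OnCone E.x (y j)) →
      Module.finrank K (Submodule.span K (Set.range
        (stack (betaMat (fun i => E.pt (A i)) y) (betaJet (fun i => E.pt (A i)) (E.pt P) (E.tn P))
          (wMat (e := k - 1) W y) (wJet W (E.pt P) (E.tn P))))) ≤ kapN E k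

/-- **G-MINOR-β.**  For ANY `L > k m` distinct places `Q_t` and EVERY `k`-tuple `A` of places
(coincidences allowed) the matrix `betaMat (pt ∘ A) (pt ∘ Q)` has rank `κ_k`
(products of secant forms span `L(km∞ - ΣAᵢ)` [bpf pencil trick, `Lib/RR/H259.L_mul_L`];
evaluation at `> km` places is injective on `L(km∞)`). -/
def MinorBetaStatement (E : EmbData K F) : Prop :=
  ∀ (k L : ℕ) (Q : Fin L → Place K F), 1 ≤ k → Function.Injective Q → k * E.m < L →
    ∀ A : Fin k → Place K F,
      Module.finrank K (Submodule.span K (Set.range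
        (betaMat (fun i => E.pt (A i)) fun t => E.pt (Q t)))) = kapN E k

/-- **G-MINOR-a.**  For ANY `L > m²` distinct places `Q_t` and every `a ≠ 0` the matrix of the
rows `a X^α`, `|α| = m - 1`, has rank `κ_m` (projective normality `(V_m)^{m-1} = V_{m(m-1)}` and
`F` is a domain). -/
def MinorAStatement (E : EmbData K F) : Prop :=
  ∀ (L : ℕ) (Q : Fin L → Place K F), Function.Injective Q → E.m * E.m < L →
    ∀ a : Fin (E.r + 1) → K, a ≠ 0 →
      Module.finrank K (Submodule.span K (Set.range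
        (wMat (e := E.m - 1) (fun _ : Unit => a) fun t => E.pt (Q t)))) = kapN E E.m

end G

end Fermat.Agent.S17.Wall

end
end
-- ===== PACK-END S17/H710/Wall/Defs.lean

-- ===== PACK-BEGIN S17/H230/EmbCons.lean
section



/-!
# S17 / tower H (helper230): construction of `HWall.EmbData`

* `d1At v f` : the first order coefficient `((f - f(v)) / π)(v)` of a function regular at `v`
  (`π = unif v`), with `two_le_ord_iff` : `2 ≤ ord_v f ↔ f(v) = 0 ∧ d1At v f = 0`, and linearity;
* `tnD D x v` : the tangent vector at the point `ptD D x v`;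
* `dot_tnD`, `tn_spec_ptD` : hyperplanes containing the tangent line are the sections vanishing
  to order `≥ 2`;
* `embOfBasis` : the `EmbData` of a basis `x` of `L(m∞)`, with `pt = ptD`, `tn = tnD`;
* `exists_embData` : existence for every place `∞` and every `m ≥ 2g + 1`.
-/

set_option autoImplicit false

noncomputable section

open AlgebraicCurve

namespace Fermat.Agent.S17.H230

open Fermat.Agent.Lib.RR Fermat.Agent.S17.HWall

variable {K F : Type*} [Field K] [Field F] [Algebra K F] [FF1 K F] {ι : Type*}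

/-! ### First order coefficient -/

/-- `(f - f(v)) / π` for a function `f`. -/
def quot1 (v : Place K F) (f : F) : F := (f - algebraMap K F (valAt v f)) * (unif v)⁻¹

/-- The first order coefficient of `f` at `v` with respect to the uniformizer `unif v`. -/
def d1At (v : Place K F) (f : F) : K := valAt v (quot1 v f)

theorem regAt_quot1 {v : Place K F} {f : F} (hf : RegAt v f) : RegAt v (quot1 v f) := by
  unfold quot1
  set h := f - algebraMap K F (valAt v f) with hh
  have hreg : RegAt v h := by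
    rw [hh, sub_eq_add_neg]
    exact hf.add (by simpa using (regAt_algebraMap v (-(valAt v f))))
  have hval : valAt v h = 0 := by
    have : h + algebraMap K F (valAt v f) = f := by rw [hh]; ring
    have h2 := valAt_add hreg (regAt_algebraMap v (valAt v f))
    rw [this, valAt_algebraMap] at h2
    linear_combination -h2
  rcases (valAt_eq_zero_iff hreg).mp hval with h0 | h0
  · rw [h0, zero_mul]; exact regAt_zero v
  · have hne : h ≠ 0 := by
      intro h1
      rw [h1] at h0
      simp at h0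
    rw [regAt_iff, v.ord_mul hne (inv_ne_zero (unif_ne_zero v)), v.ord_inv, ord_unif]
    omega

theorem quot1_smul_sum [Fintype ι] {v : Place K F} {f : ι → F} (hf : ∀ i, RegAt v (f i))
    (a : ι → K) : quot1 v (∑ i, a i • f i) = ∑ i, a i • quot1 v (f i) := by
  unfold quot1
  rw [valAt_sum _ (fun i _ ↦ RegAt.smul (a i) (hf i)), map_sum, ← Finset.sum_sub_distrib,
    Finset.sum_mul]
  refine Finset.sum_congr rfl fun i _ ↦ ?_
  rw [valAt_smul _ (hf i), map_mul, Algebra.smul_def, Algebra.smul_def]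
  ring

theorem d1At_smul_sum [Fintype ι] {v : Place K F} {f : ι → F} (hf : ∀ i, RegAt v (f i))
    (a : ι → K) : d1At v (∑ i, a i • f i) = ∑ i, a i * d1At v (f i) := by
  unfold d1At
  rw [quot1_smul_sum hf, valAt_sum _ (fun i _ ↦ RegAt.smul (a i) (regAt_quot1 (hf i)))]
  exact Finset.sum_congr rfl fun i _ ↦ valAt_smul _ (regAt_quot1 (hf i))

/-- **Order `≥ 2`** means: value and first order coefficient vanish. -/
theorem two_le_ord_iff {v : Place K F} {f : F} (hf : RegAt v f) (hf0 : f ≠ 0) :
    2 ≤ v.ord f ↔ valAt v f = 0 ∧ d1At v f = 0 := by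
  have hq : valAt v f = 0 → quot1 v f = f * (unif v)⁻¹ := by
    intro h
    unfold quot1
    rw [h, map_zero, sub_zero]
  have hne : f * (unif v)⁻¹ ≠ 0 := mul_ne_zero hf0 (inv_ne_zero (unif_ne_zero v))
  have hord : v.ord (f * (unif v)⁻¹) = v.ord f - 1 := by
    rw [v.ord_mul hf0 (inv_ne_zero (unif_ne_zero v)), v.ord_inv, ord_unif]
    ring
  constructor
  · intro h
    have h1 : valAt v f = 0 := (valAt_eq_zero_iff hf).mpr (Or.inr (by omega))
    refine ⟨h1, ?_⟩
    unfold d1At
    rw [hq h1]
    have hreg : RegAt v (f * (unif v)⁻¹) := by rw [regAt_iff, hord]; omega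
    rw [valAt_eq_zero_iff hreg]
    right
    rw [hord]
    omega
  · rintro ⟨h1, h2⟩
    have h3 : 0 < v.ord f := ((valAt_eq_zero_iff hf).mp h1).resolve_left hf0
    unfold d1At at h2
    rw [hq h1] at h2
    have hreg : RegAt v (f * (unif v)⁻¹) := by rw [regAt_iff, hord]; omega
    have h4 := ((valAt_eq_zero_iff hreg).mp h2).resolve_left hne
    rw [hord] at h4
    omega

/-! ### The tangent vector -/

/-- The tangent vector at the point `ptD D x v`: first order coefficients of the normalised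
coordinates `x i * π ^ (D v)`. -/
def tnD (D : Divisor K F) (x : ι → F) (v : Place K F) : ι → K :=
  fun i ↦ d1At v (x i * unif v ^ (D v))

theorem regAt_normD {D : Divisor K F} {x : ι → F} (hx : ∀ i, x i ∈ riemannRochSpace D)
    (v : Place K F) (i : ι) : RegAt v (x i * unif v ^ (D v)) := by
  have := regAt_normAt (ordGE_of_mem_L hx v) i
  rwa [neg_neg] at this

theorem dot_tnD [Fintype ι] {D : Divisor K F} {x : ι → F}
    (hx : ∀ i, x i ∈ riemannRochSpace D) (v : Place K F) (a : ι → K) :
    ∑ i, a i * tnD D x v i = d1At v ((∑ i, a i • x i) * unif v ^ (D v)) := by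
  unfold tnD
  rw [← d1At_smul_sum (regAt_normD hx v), Finset.sum_mul]
  congr 1
  exact Finset.sum_congr rfl fun i _ ↦ by rw [smul_mul_assoc]

/-- **Hyperplanes containing the tangent line at the point of `v`** are the sections vanishing
to order `≥ 2` at `v`. -/
theorem tn_spec_ptD [Fintype ι] {D : Divisor K F} {x : ι → F}
    (hx : ∀ i, x i ∈ riemannRochSpace D) (v : Place K F) (a : ι → K)
    (h0 : (∑ i, a i • x i) ≠ 0) :
    (∑ i, a i * ptD D x v i = 0 ∧ ∑ i, a i * tnD D x v i = 0) ↔
      2 ≤ v.ord (∑ i, a i • x i) + D v := by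
  rw [dot_ptD hx, dot_tnD hx]
  have hreg : RegAt v ((∑ i, a i • x i) * unif v ^ (D v)) := by
    rw [Finset.sum_mul]
    refine RegAt.sum _ fun i _ ↦ ?_
    rw [smul_mul_assoc]
    exact RegAt.smul _ (regAt_normD hx v i)
  have hne : (∑ i, a i • x i) * unif v ^ (D v) ≠ 0 :=
    mul_ne_zero h0 (zpow_ne_zero _ (unif_ne_zero v))
  rw [← two_le_ord_iff hreg hne, ord_mul_unif_zpow v h0]

theorem pt_spec_ptD [Fintype ι] {D : Divisor K F} {x : ι → F}
    (hx : ∀ i, x i ∈ riemannRochSpace D) (v : Place K F) (a : ι → K)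
    (h0 : (∑ i, a i • x i) ≠ 0) :
    ∑ i, a i * ptD D x v i = 0 ↔ 0 < v.ord (∑ i, a i • x i) + D v := by
  rw [ptD, dot_ptAt_eq_zero_iff (ordGE_of_mem_L hx v)]
  constructor
  · rintro (h | h)
    · exact absurd h h0
    · omega
  · intro h
    right
    omega

/-! ### The embedding datum of a basis of `L(m∞)` -/

omit [FF1 K F] in
theorem lin_ne_zero_of_li {n : ℕ} {x : Fin n → F} (hli : LinearIndependent K x)
    {a : Fin n → K} (ha : a ≠ 0) : lin x a ≠ 0 := by
  intro h
  apply ha
  exact funext (Fintype.linearIndependent_iff.mp hli a h)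

theorem hypDiv_apply_of_ne {n : ℕ} (vinf : Place K F) (m : ℕ) {x : Fin n → F} {a : Fin n → K}
    (h : lin x a ≠ 0) (P : Place K F) :
    hypDiv vinf m x a P = P.ord (lin x a) + (m • prim vinf : Divisor K F) P := by
  unfold hypDiv
  rw [dif_neg h, Finsupp.add_apply, divOf_apply]

/-- The embedding datum of a basis `x` of `L(m∞)`: `pt = ptD`, `tn = tnD`. -/
def embOfBasis (vinf : Place K F) (m : ℕ) (hm : 2 * genusR K F + 1 ≤ m) {r : ℕ}
    (x : Fin (r + 1) → F) (x_li : LinearIndependent K x)
    (x_span : Submodule.span K (Set.range x) = riemannRochSpace (m • prim vinf)) :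
    EmbData K F where
  vinf := vinf
  m := m
  r := r
  x := x
  pt := ptD (m • prim vinf) x
  tn := tnD (m • prim vinf) x
  hm := hm
  x_li := x_li
  x_span := x_span
  pt_spec := by
    intro P a ha
    have hx : ∀ i, x i ∈ riemannRochSpace (m • prim vinf) := fun i ↦ by
      rw [← x_span]; exact Submodule.subset_span ⟨i, rfl⟩
    have h0 : lin x a ≠ 0 := lin_ne_zero_of_li x_li ha
    rw [hypDiv_apply_of_ne vinf m h0 P]
    exact pt_spec_ptD hx P a h0
  tn_spec := by
    intro P a ha
    have hx : ∀ i, x i ∈ riemannRochSpace (m • prim vinf) := fun i ↦ by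
      rw [← x_span]; exact Submodule.subset_span ⟨i, rfl⟩
    have h0 : lin x a ≠ 0 := lin_ne_zero_of_li x_li ha
    rw [hypDiv_apply_of_ne vinf m h0 P]
    exact tn_spec_ptD hx P a h0

@[simp] theorem embOfBasis_pt (vinf : Place K F) (m : ℕ) (hm : 2 * genusR K F + 1 ≤ m) {r : ℕ}
    (x : Fin (r + 1) → F) (x_li : LinearIndependent K x)
    (x_span : Submodule.span K (Set.range x) = riemannRochSpace (m • prim vinf)) :
    (embOfBasis vinf m hm x x_li x_span).pt = ptD (m • prim vinf) x := rfl

@[simp] theorem embOfBasis_tn (vinf : Place K F) (m : ℕ) (hm : 2 * genusR K F + 1 ≤ m) {r : ℕ}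
    (x : Fin (r + 1) → F) (x_li : LinearIndependent K x)
    (x_span : Submodule.span K (Set.range x) = riemannRochSpace (m • prim vinf)) :
    (embOfBasis vinf m hm x x_li x_span).tn = tnD (m • prim vinf) x := rfl

/-- Existence of an embedding datum for every place and every degree `m ≥ 2g + 1`. -/
theorem exists_embData (vinf : Place K F) (m : ℕ) (hm : 2 * genusR K F + 1 ≤ m) :
    ∃ E : EmbData K F, E.vinf = vinf ∧ E.m = m ∧ E.pt = ptD (m • prim vinf) E.x ∧
      E.tn = tnD (m • prim vinf) E.x := by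
  classical
  set L := riemannRochSpace (K := K) (F := F) (m • prim vinf) with hL
  have hone : (1 : F) ∈ L := by
    rw [hL, mem_L_iff]
    intro w
    right
    rw [Place.ord_one]
    have : (0 : ℤ) ≤ (m • prim vinf : Divisor K F) w := by
      simp only [Finsupp.coe_smul, Pi.smul_apply, prim]
      by_cases hw : vinf = w
      · subst hw; simp
      · simp [hw]
    omega
  have hpos : 0 < Module.finrank K L := by
    have : Nontrivial L := ⟨⟨⟨1, hone⟩, 0, fun h ↦ one_ne_zero (congrArg Subtype.val h)⟩⟩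
    exact Module.finrank_pos
  obtain ⟨r, hr⟩ : ∃ r, Module.finrank K L = r + 1 := ⟨Module.finrank K L - 1, by omega⟩
  let b : Module.Basis (Fin (r + 1)) K L := (Module.finBasis K L).reindex (finCongr hr)
  let x : Fin (r + 1) → F := fun i ↦ (b i : F)
  have x_li : LinearIndependent K x := by
    have := b.linearIndependent.map' L.subtype (Submodule.ker_subtype L)
    exact this
  have x_span : Submodule.span K (Set.range x) = L := by
    have h1 : Set.range x = L.subtype '' Set.range b := by
      rw [← Set.range_comp]; rfl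
    rw [h1, Submodule.span_image, b.span_eq, Submodule.map_top, Submodule.range_subtype]
  exact ⟨embOfBasis vinf m hm x x_li x_span, rfl, rfl, rfl, rfl⟩

end Fermat.Agent.S17.H230

end
end
-- ===== PACK-END S17/H230/EmbCons.lean

-- ===== PACK-BEGIN S17/H77/PtCoord.lean
section




/-!
# S17 / tower H / leaf G-PT (helper77): points and coordinates — abstract part

`FF1 K F`, a place `∞`, and a basis `x₀ = 1, x₁, …, x_r` of `L(m∞)` ADAPTED to the pole order at `∞`
(`x_i ∈ L((m-1)∞)` for `i < r`, `x_r ∉ L((m-1)∞)`).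

* `PtData.coord P` : the coordinate vector of a place: the values `(x_i(P))_i` for `P ≠ ∞`
  (so `coord P 0 = 1`), and `e_r` for `P = ∞`;
* `PtData.isVal_lin` : `Σ a_i x_i` has the value `⟨a, coord P⟩` at `P ≠ ∞`;
* `PtData.hyp_pos_iff` : `P ∈ Z_a ↔ ⟨a, coord P⟩ = 0` (all `P`, including `∞`);
* `PtData.mult`, `mult_sum`, `mult_ne_zero_iff` : the hyperplane section as a finitely supported
  `ℕ`-valued function.
-/

set_option autoImplicit false

noncomputable section

namespace Fermat.Agent.S17.H77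

open AlgebraicCurve Fermat.Agent.Lib.RR Fermat.Agent.S17.H890 Fermat.Agent.S17.HWall

/-- A basis of `L(m∞)` adapted to the pole order filtration at `∞`, starting with `1`. -/
structure PtData (K F : Type*) [Field K] [Field F] [Algebra K F] [FF1 K F] where
  /-- the point at infinity -/
  vinf : Place K F
  /-- the degree -/
  m : ℕ
  /-- the dimension of the ambient projective space -/
  r : ℕ
  /-- the basis -/
  x : Fin (r + 1) → F
  r_pos : 0 < r
  m_pos : 0 < m
  x_zero : x 0 = 1
  x_li : LinearIndependent K x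
  x_span : Submodule.span K (Set.range x) = riemannRochSpace (m • prim vinf)
  x_low : ∀ i, i ≠ Fin.last r → x i ∈ riemannRochSpace ((m - 1) • prim vinf)
  x_top : x (Fin.last r) ∉ riemannRochSpace ((m - 1) • prim vinf)

variable {K F : Type*} [Field K] [Field F] [Algebra K F] [FF1 K F]

namespace PtData

variable (E : PtData K F)

theorem zero_ne_last : (0 : Fin (E.r + 1)) ≠ Fin.last E.r := by
  intro h
  have := congrArg Fin.val h
  simp at this
  have := E.r_pos
  omega

theorem x_mem (i : Fin (E.r + 1)) : E.x i ∈ riemannRochSpace (E.m • prim E.vinf) := by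
  rw [← E.x_span]
  exact Submodule.subset_span ⟨i, rfl⟩

theorem lin_mem' (a : Fin (E.r + 1) → K) :
    lin E.x a ∈ riemannRochSpace (E.m • prim E.vinf) := by
  unfold lin
  exact Submodule.sum_mem _ fun i _ => Submodule.smul_mem _ _ (E.x_mem i)

theorem lin_ne_zero' {a : Fin (E.r + 1) → K} (ha : a ≠ 0) : lin E.x a ≠ 0 := by
  intro h
  apply ha
  exact funext (Fintype.linearIndependent_iff.mp E.x_li a h)

theorem nsmul_prim_apply_of_ne (n : ℕ) {P : Place K F} (hP : P ≠ E.vinf) :
    (n • prim E.vinf : Divisor K F) P = 0 := by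
  rw [Finsupp.smul_apply, prim_apply_of_ne hP, smul_zero]

theorem nsmul_prim_apply_self (n : ℕ) :
    (n • prim E.vinf : Divisor K F) E.vinf = n := by
  rw [Finsupp.smul_apply]
  unfold prim
  rw [Finsupp.single_eq_same]
  simp

/-- functions of `L(m∞)` are regular away from `∞` -/
theorem regular_of_mem {f : F} {n : ℕ} (hf : f ∈ riemannRochSpace (n • prim E.vinf))
    {P : Place K F} (hP : P ≠ E.vinf) : f = 0 ∨ 0 ≤ P.ord f := by
  rcases (mem_L_iff.mp hf) P with h | h
  · exact Or.inl h
  · right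
    rw [E.nsmul_prim_apply_of_ne n hP] at h
    simpa using h

open Classical in
/-- The coordinate vector of a place. -/
def coord (P : Place K F) : Fin (E.r + 1) → K :=
  if P = E.vinf then Pi.single (Fin.last E.r) 1 else fun i => pval P (E.x i)

theorem coord_inf : E.coord E.vinf = Pi.single (Fin.last E.r) 1 := by
  unfold coord
  rw [if_pos rfl]

theorem coord_of_ne {P : Place K F} (hP : P ≠ E.vinf) (i : Fin (E.r + 1)) :
    E.coord P i = pval P (E.x i) := by
  unfold coord
  rw [if_neg hP]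

theorem coord_zero {P : Place K F} (hP : P ≠ E.vinf) : E.coord P 0 = 1 := by
  rw [E.coord_of_ne hP, E.x_zero]
  have := pval_const P (1 : K)
  rwa [map_one] at this

theorem isVal_x {P : Place K F} (hP : P ≠ E.vinf) (i : Fin (E.r + 1)) :
    IsVal P (E.x i) (E.coord P i) := by
  rw [E.coord_of_ne hP]
  exact isVal_pval_of_ord_nonneg P (deg_eq_one P) (E.regular_of_mem (E.x_mem i) hP)

omit [FF1 K F] in
theorem isVal_sum {ι : Type*} (P : Place K F) (s : Finset ι) (f : ι → F) (b : ι → K)
    (h : ∀ i ∈ s, IsVal P (f i) (b i)) : IsVal P (∑ i ∈ s, f i) (∑ i ∈ s, b i) := by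
  classical
  induction s using Finset.induction_on with
  | empty => simpa using isVal_zero P
  | insert j s hj ih =>
    rw [Finset.sum_insert hj, Finset.sum_insert hj]
    exact (h j (Finset.mem_insert_self j s)).add
      (ih fun i hi => h i (Finset.mem_insert_of_mem hi))

/-- `Σ a_i x_i` has the value `⟨a, coord P⟩` at a finite place. -/
theorem isVal_lin {P : Place K F} (hP : P ≠ E.vinf) (a : Fin (E.r + 1) → K) :
    IsVal P (lin E.x a) (dot a (E.coord P)) := by
  unfold lin dot dotProduct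
  refine isVal_sum P _ _ _ fun i _ => ?_
  rw [Algebra.smul_def]
  exact (isVal_const P (a i)).mul (E.isVal_x hP i)

theorem hypDiv_eq {a : Fin (E.r + 1) → K} (ha : a ≠ 0) :
    hypDiv E.vinf E.m E.x a = divOf (lin E.x a) (E.lin_ne_zero' ha) + E.m • prim E.vinf := by
  unfold hypDiv
  rw [dif_neg (E.lin_ne_zero' ha)]

theorem hypDiv_zero : hypDiv E.vinf E.m E.x (0 : Fin (E.r + 1) → K) = 0 := by
  unfold hypDiv
  rw [dif_pos (by simp [lin])]

theorem hypDiv_apply {a : Fin (E.r + 1) → K} (ha : a ≠ 0) (P : Place K F) :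
    hypDiv E.vinf E.m E.x a P = P.ord (lin E.x a) + (E.m • prim E.vinf : Divisor K F) P := by
  rw [E.hypDiv_eq ha, Finsupp.add_apply, divOf_apply]

theorem hypDiv_nonneg (a : Fin (E.r + 1) → K) : 0 ≤ hypDiv E.vinf E.m E.x a := by
  by_cases ha : a = 0
  · subst ha
    rw [E.hypDiv_zero]
  · rw [Finsupp.le_def]
    intro P
    rw [E.hypDiv_apply ha P, Finsupp.coe_zero, Pi.zero_apply]
    rcases (mem_L_iff.mp (E.lin_mem' a)) P with h | h
    · exact absurd h (E.lin_ne_zero' ha)
    · linarith

theorem degree_hypDiv {a : Fin (E.r + 1) → K} (ha : a ≠ 0) :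
    Divisor.degree (hypDiv E.vinf E.m E.x a) = E.m := by
  rw [E.hypDiv_eq ha, map_add, degree_divOf, zero_add, map_nsmul,
    degree_prim _ (deg_eq_one _)]
  simp

/-- the part of `Σ a_i x_i` of pole order `< m` -/
theorem lin_sub_top_mem (a : Fin (E.r + 1) → K) :
    lin E.x a - a (Fin.last E.r) • E.x (Fin.last E.r)
      ∈ riemannRochSpace ((E.m - 1) • prim E.vinf) := by
  classical
  unfold lin
  rw [← Finset.sum_erase_add _ _ (Finset.mem_univ (Fin.last E.r)), add_sub_cancel_right]
  refine Submodule.sum_mem _ fun i hi => Submodule.smul_mem _ _ (E.x_low i ?_)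
  exact (Finset.mem_erase.mp hi).1

/-- `Σ a_i x_i ∈ L((m-1)∞)` iff `a_r = 0`. -/
theorem lin_mem_low_iff (a : Fin (E.r + 1) → K) :
    lin E.x a ∈ riemannRochSpace ((E.m - 1) • prim E.vinf) ↔ a (Fin.last E.r) = 0 := by
  constructor
  · intro h
    by_contra h0
    have h1 := Submodule.sub_mem _ h (E.lin_sub_top_mem a)
    rw [sub_sub_cancel] at h1
    have h2 := Submodule.smul_mem _ (a (Fin.last E.r))⁻¹ h1
    rw [smul_smul, inv_mul_cancel₀ h0, one_smul] at h2
    exact E.x_top h2
  · intro h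
    have h1 := E.lin_sub_top_mem a
    rwa [h, zero_smul, sub_zero] at h1

/-- **the points of the hyperplane section**: `P ∈ Z_a ↔ ⟨a, coord P⟩ = 0`. -/
theorem hyp_pos_iff {a : Fin (E.r + 1) → K} (ha : a ≠ 0) (P : Place K F) :
    0 < hypDiv E.vinf E.m E.x a P ↔ dot a (E.coord P) = 0 := by
  have hne := E.lin_ne_zero' ha
  rw [E.hypDiv_apply ha P]
  by_cases hP : P = E.vinf
  · subst hP
    rw [E.nsmul_prim_apply_self, E.coord_inf]
    have hdot : dot a (Pi.single (Fin.last E.r) (1 : K)) = a (Fin.last E.r) := by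
      unfold dot
      rw [dotProduct_single, mul_one]
    rw [hdot, ← E.lin_mem_low_iff a, mem_L_iff]
    constructor
    · intro h v
      right
      by_cases hv : v = E.vinf
      · subst hv
        rw [E.nsmul_prim_apply_self]
        have hm := E.m_pos
        push_cast [Nat.cast_sub hm]
        omega
      · rw [E.nsmul_prim_apply_of_ne _ hv]
        rcases E.regular_of_mem (E.lin_mem' a) hv with h1 | h1
        · exact absurd h1 hne
        · simpa using h1
    · intro h
      rcases h E.vinf with h1 | h1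
      · exact absurd h1 hne
      · rw [E.nsmul_prim_apply_self] at h1
        have hm := E.m_pos
        push_cast [Nat.cast_sub hm] at h1
        omega
  · rw [E.nsmul_prim_apply_of_ne _ hP, add_zero]
    have hval := E.isVal_lin hP a
    constructor
    · intro h
      exact hval.unique (isVal_of_ord_pos P h)
    · intro h
      rw [h, isVal_zero_iff] at hval
      rcases hval with h1 | h1
      · exact absurd h1 hne
      · exact h1

open Classical in
/-- The hyperplane section `Z_a` as a finitely supported `ℕ`-valued function. -/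
def mult (a : Fin (E.r + 1) → K) : Place K F →₀ ℕ :=
  (hypDiv E.vinf E.m E.x a).mapRange Int.toNat (by simp)

theorem mult_apply (a : Fin (E.r + 1) → K) (P : Place K F) :
    E.mult a P = (hypDiv E.vinf E.m E.x a P).toNat := by
  unfold mult
  rw [Finsupp.mapRange_apply]

theorem coe_mult_apply (a : Fin (E.r + 1) → K) (P : Place K F) :
    ((E.mult a P : ℕ) : ℤ) = hypDiv E.vinf E.m E.x a P := by
  rw [E.mult_apply]
  exact Int.toNat_of_nonneg (Finsupp.le_def.mp (E.hypDiv_nonneg a) P)

theorem mult_zero : E.mult (0 : Fin (E.r + 1) → K) = 0 := by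
  ext P
  rw [E.mult_apply, E.hypDiv_zero]
  simp

theorem mult_ne_zero_iff {a : Fin (E.r + 1) → K} (ha : a ≠ 0) (P : Place K F) :
    E.mult a P ≠ 0 ↔ dot a (E.coord P) = 0 := by
  rw [← E.hyp_pos_iff ha P, ← E.coe_mult_apply a P]
  constructor
  · intro h
    have : 0 < E.mult a P := Nat.pos_of_ne_zero h
    exact_mod_cast this
  · intro h h0
    rw [h0] at h
    simp at h

theorem mult_sum {a : Fin (E.r + 1) → K} (ha : a ≠ 0) :
    ((E.mult a).sum fun _ n => n) = E.m := by
  have h1 := E.degree_hypDiv ha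
  rw [degree_eq_sum] at h1
  have hsupp : (E.mult a).support = (hypDiv E.vinf E.m E.x a).support := by
    ext P
    rw [Finsupp.mem_support_iff, Finsupp.mem_support_iff, ← E.coe_mult_apply a P]
    simp
  have h2 : (((E.mult a).sum fun _ n => n : ℕ) : ℤ) = E.m := by
    rw [← h1, Finsupp.sum, Nat.cast_sum, hsupp]
    refine Finset.sum_congr rfl fun P _ => ?_
    rw [E.coe_mult_apply a P, deg_eq_one P]
    simp
  exact_mod_cast h2

end PtData

end Fermat.Agent.S17.H77

end
end
-- ===== PACK-END S17/H77/PtCoord.lean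

-- ===== PACK-BEGIN S17/H77/PtBasis.lean
section



/-!
# S17 / tower H / leaf G-PT (helper77): an adapted basis of Galois-fixed functions

`F = ℚ̄ · F₀ ⊆ ℚ̄((q))`, `∞` a Galois-fixed place, `2g ≤ m`, `1 ≤ m`.  Then `L(m∞)` has a basis
`x₀ = 1, x₁, …, x_r` of Galois-fixed functions adapted to the pole order filtration at `∞`:
`exists_ptData` produces a `PtData` with these properties.
-/

set_option autoImplicit false

noncomputable section

open AlgebraicCurve ModularCurve

namespace Fermat.Agent.S17.H77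

open Fermat.Agent.Lib.RR Fermat.Agent.S17.H680

/-- A finite-dimensional vector space has a basis starting with a given nonzero vector. -/
theorem exists_basis_cons {k W : Type*} [Field k] [AddCommGroup W] [Module k W]
    [Module.Finite k W] (y : W) (hy : y ≠ 0) :
    ∃ (n : ℕ) (b : Module.Basis (Fin (n + 1)) k W), b 0 = y := by
  obtain ⟨C, hC⟩ := Submodule.exists_isCompl (Submodule.span k {y})
  let c := Module.finBasis k C
  have hli : ∀ (a : k), ∀ x ∈ C, a • y + x = 0 → a = 0 := by
    intro a x hx h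
    have h1 : a • y ∈ C := by
      have : a • y = -x := eq_neg_of_add_eq_zero_left h
      rw [this]
      exact C.neg_mem hx
    have h2 : a • y ∈ Submodule.span k {y} :=
      Submodule.smul_mem _ _ (Submodule.mem_span_singleton_self y)
    have h3 : a • y ∈ Submodule.span k {y} ⊓ C := ⟨h2, h1⟩
    rw [hC.inf_eq_bot, Submodule.mem_bot] at h3
    rcases smul_eq_zero.mp h3 with h4 | h4
    · exact h4
    · exact absurd h4 hy
  have hsp : ∀ z : W, ∃ a : k, z + a • y ∈ C := by
    intro z
    have hz : z ∈ Submodule.span k {y} ⊔ C := by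
      rw [hC.sup_eq_top]
      exact Submodule.mem_top
    obtain ⟨u, hu, w, hw, rfl⟩ := Submodule.mem_sup.mp hz
    obtain ⟨a, rfl⟩ := Submodule.mem_span_singleton.mp hu
    refine ⟨-a, ?_⟩
    rw [neg_smul, add_comm (a • y) w, add_neg_cancel_right]
    exact hw
  refine ⟨_, Module.Basis.mkFinCons y c hli hsp, ?_⟩
  rw [Module.Basis.coe_mkFinCons, Fin.cons_zero]

variable (F₀ : IntermediateField ℚ (LaurentSeries ℚ)) [FF1 Qb (laurentBaseChange Qb F₀)]

omit [FF1 Qb (laurentBaseChange Qb F₀)] in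
theorem isInvariant_nsmul_prim {vinf : Place Qb (laurentBaseChange Qb F₀)}
    (hinv : ∀ σ : GQ, arithmeticGalois F₀ σ • vinf = vinf) (k : ℕ) :
    IsInvariant F₀ (k • prim vinf) := by
  intro σ
  rw [smul_comm, smul_prim, hinv]

omit [FF1 Qb (laurentBaseChange Qb F₀)] in
theorem prim_nonneg' (vinf v : Place Qb (laurentBaseChange Qb F₀)) :
    (0 : ℤ) ≤ prim vinf v := by
  by_cases hv : v = vinf
  · subst hv
    unfold prim
    rw [Finsupp.single_eq_same]
    exact zero_le_one
  · rw [prim_apply_of_ne hv]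

omit [FF1 Qb (laurentBaseChange Qb F₀)] in
theorem one_mem_L_nsmul_prim (vinf : Place Qb (laurentBaseChange Qb F₀)) (k : ℕ) :
    (1 : laurentBaseChange Qb F₀) ∈ riemannRochSpace (k • prim vinf) := by
  rw [mem_L_iff]
  intro v
  right
  rw [Place.ord_one, Finsupp.smul_apply]
  have := prim_nonneg' F₀ vinf v
  have h2 : (0 : ℤ) ≤ k • prim vinf v := by
    rw [nsmul_eq_mul]
    positivity
  omega

omit [FF1 Qb (laurentBaseChange Qb F₀)] in
theorem isFixed_one : IsFixed F₀ (1 : laurentBaseChange Qb F₀) := fun _ => smul_one _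

/-- For an invariant divisor `D` with `1 ∈ L(D)`, the space `L(D)` has a `ℚ̄`-basis of
Galois-fixed functions starting with `1`. -/
theorem exists_fixed_basis_one {D : Divisor Qb (laurentBaseChange Qb F₀)}
    (hI : IsInvariant F₀ D) (h1 : (1 : laurentBaseChange Qb F₀) ∈ riemannRochSpace D) :
    ∃ (n : ℕ) (x : Fin (n + 1) → laurentBaseChange Qb F₀), x 0 = 1 ∧
      (∀ i, IsFixed F₀ (x i)) ∧ (∀ i, x i ∈ riemannRochSpace D) ∧
      LinearIndependent Qb x ∧ Submodule.span Qb (Set.range x) = riemannRochSpace D := by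
  classical
  have hfinW : Module.Finite ℚ (fixedPart F₀ (riemannRochSpace D)) := by
    obtain ⟨b, -, -, -, -, hspanQ⟩ := exists_fixed_basis_L F₀ hI
    rw [← hspanQ]
    exact FiniteDimensional.span_of_finite ℚ (Set.finite_range b)
  have hy : (⟨1, h1, isFixed_one F₀⟩ : fixedPart F₀ (riemannRochSpace D)) ≠ 0 := by
    intro h
    have := congrArg Subtype.val h
    exact one_ne_zero this
  obtain ⟨n, b, hb0⟩ := exists_basis_cons (k := ℚ) _ hy
  have hx'fix : ∀ i, IsFixed F₀ ((b i : fixedPart F₀ (riemannRochSpace D)) :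
      laurentBaseChange Qb F₀) := fun i => (b i).2.2
  have hx'L : ∀ i, ((b i : fixedPart F₀ (riemannRochSpace D)) :
      laurentBaseChange Qb F₀) ∈ riemannRochSpace D := fun i => (b i).2.1
  have hliQ : LinearIndependent ℚ (fun i => ((b i : fixedPart F₀ (riemannRochSpace D)) :
      laurentBaseChange Qb F₀)) :=
    b.linearIndependent.map' (Submodule.subtype _) (Submodule.ker_subtype _)
  have hli' := linearIndependent_of_isFixed F₀ _ hx'fix hliQ
  have hspanQ : Submodule.span ℚ (Set.range (fun i =>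
      ((b i : fixedPart F₀ (riemannRochSpace D)) : laurentBaseChange Qb F₀))) =
      fixedPart F₀ (riemannRochSpace D) := by
    have h1 := b.span_eq
    have h2 := congrArg (Submodule.map (Submodule.subtype _)) h1
    rw [Submodule.map_span, Submodule.map_top, Submodule.range_subtype, ← Set.range_comp] at h2
    exact h2
  refine ⟨n, fun i => ((b i : fixedPart F₀ (riemannRochSpace D)) : laurentBaseChange Qb F₀),
    ?_, hx'fix, hx'L, hli', ?_⟩
  · show ((b 0 : fixedPart F₀ (riemannRochSpace D)) : laurentBaseChange Qb F₀) = 1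
    rw [hb0]
  · apply le_antisymm
    · rw [Submodule.span_le]
      rintro _ ⟨i, rfl⟩
      exact hx'L i
    · refine le_trans (le_of_eq (span_fixed_eq F₀ (riemannRochSpace D)
        (fun σ _ hf => smul_mem_L_of_isInvariant F₀ hI σ hf)).symm) ?_
      rw [Submodule.span_le]
      intro f hf
      have hfW : f ∈ fixedPart F₀ (riemannRochSpace D) := hf
      rw [← hspanQ] at hfW
      exact Submodule.span_le_restrictScalars ℚ Qb _ hfW

/-- If `ℓ(D₁) < ℓ(D₂)` with `D₂` invariant, some Galois-fixed function of `L(D₂)` is not in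
`L(D₁)`. -/
theorem exists_fixed_not_mem {D₁ D₂ : Divisor Qb (laurentBaseChange Qb F₀)}
    (hI₂ : IsInvariant F₀ D₂) (hlt : ell D₁ < ell D₂) :
    ∃ t : laurentBaseChange Qb F₀, t ∈ riemannRochSpace D₂ ∧ IsFixed F₀ t ∧
      t ∉ riemannRochSpace D₁ := by
  by_contra hcon
  have hsub : riemannRochSpace D₂ ≤ riemannRochSpace D₁ := by
    rw [← span_fixed_eq F₀ (riemannRochSpace D₂)
      (fun σ _ hf => smul_mem_L_of_isInvariant F₀ hI₂ σ hf), Submodule.span_le]
    intro f hf
    by_contra hf1
    exact hcon ⟨f, hf.1, hf.2, hf1⟩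
  have h1 : ell D₂ ≤ ell D₁ := Submodule.finrank_mono hsub
  omega

omit [FF1 Qb (laurentBaseChange Qb F₀)] in
theorem nsmul_prim_le {vinf : Place Qb (laurentBaseChange Qb F₀)} {a b : ℕ} (h : a ≤ b) :
    a • prim vinf ≤ b • prim vinf := by
  rw [Finsupp.le_def]
  intro v
  rw [Finsupp.smul_apply, Finsupp.smul_apply, nsmul_eq_mul, nsmul_eq_mul]
  have h1 : (a : ℤ) ≤ (b : ℤ) := by exact_mod_cast h
  exact mul_le_mul_of_nonneg_right h1 (prim_nonneg' F₀ vinf v)

theorem ell_nsmul_prim (vinf : Place Qb (laurentBaseChange Qb F₀)) (k : ℕ)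
    (hk : 2 * (genusFF Qb (laurentBaseChange Qb F₀) : ℤ) - 2 < k) :
    (ell (k • prim vinf) : ℤ) = (k : ℤ) + 1 - genusFF Qb (laurentBaseChange Qb F₀) := by
  have hdeg : Divisor.degree (k • prim vinf) = (k : ℤ) := by
    rw [map_nsmul, degree_prim _ (deg_eq_one _)]
    simp
  have := ell_eq_of_degree_gt (D := k • prim vinf) (by rw [hdeg]; exact hk)
  rw [this, hdeg]

/-- **Adapted basis.**  For a Galois-fixed place `∞` and `m ≥ max (2g) 1`, the space `L(m∞)` has a
basis of Galois-fixed functions `x₀ = 1, …, x_r` with `x_i ∈ L((m-1)∞)` for `i < r` and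
`x_r ∉ L((m-1)∞)`. -/
theorem exists_ptData (vinf : Place Qb (laurentBaseChange Qb F₀))
    (hinv : ∀ σ : GQ, arithmeticGalois F₀ σ • vinf = vinf) (m : ℕ) (hm1 : 1 ≤ m)
    (hm : 2 * genusFF Qb (laurentBaseChange Qb F₀) ≤ m) :
    ∃ E : PtData Qb (laurentBaseChange Qb F₀), E.vinf = vinf ∧ E.m = m ∧
      ∀ i, IsFixed F₀ (E.x i) := by
  classical
  have hI₁ : IsInvariant F₀ ((m - 1) • prim vinf) := isInvariant_nsmul_prim F₀ hinv _
  have hI₂ : IsInvariant F₀ (m • prim vinf) := isInvariant_nsmul_prim F₀ hinv _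
  have hcast : ((m - 1 : ℕ) : ℤ) = (m : ℤ) - 1 := by
    push_cast [Nat.cast_sub hm1]
    rfl
  have hell₁ := ell_nsmul_prim F₀ vinf (m - 1) (by rw [hcast]; omega)
  have hell₂ := ell_nsmul_prim F₀ vinf m (by omega)
  rw [hcast] at hell₁
  have hle : (m - 1) • prim vinf ≤ m • prim vinf := nsmul_prim_le F₀ (Nat.sub_le m 1)
  obtain ⟨n, x', hx'0, hx'fix, hx'L, hli', hspan'⟩ :=
    exists_fixed_basis_one F₀ hI₁ (one_mem_L_nsmul_prim F₀ vinf _)
  have hn : ell ((m - 1) • prim vinf) = n + 1 := by
    unfold ell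
    rw [← hspan', finrank_span_eq_card hli', Fintype.card_fin]
  obtain ⟨t, htL, htfix, htn⟩ :=
    exists_fixed_not_mem F₀ (D₁ := (m - 1) • prim vinf) hI₂ (by omega)
  have hxli : LinearIndependent Qb (Fin.snoc x' t : Fin (n + 1 + 1) → laurentBaseChange Qb F₀) := by
    refine linearIndependent_finSnoc.mpr ⟨hli', ?_⟩
    rw [hspan']
    exact htn
  have hxL : ∀ i, (Fin.snoc x' t : Fin (n + 1 + 1) → laurentBaseChange Qb F₀) i ∈
      riemannRochSpace (m • prim vinf) := by
    intro i
    rcases Fin.eq_castSucc_or_eq_last i with ⟨j, rfl⟩ | rfl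
    · rw [Fin.snoc_castSucc]
      exact L_mono hle (hx'L j)
    · rw [Fin.snoc_last]
      exact htL
  have hxspan : Submodule.span Qb
      (Set.range (Fin.snoc x' t : Fin (n + 1 + 1) → laurentBaseChange Qb F₀)) =
      riemannRochSpace (m • prim vinf) := by
    have hle' : Submodule.span Qb
        (Set.range (Fin.snoc x' t : Fin (n + 1 + 1) → laurentBaseChange Qb F₀)) ≤
        riemannRochSpace (m • prim vinf) := by
      rw [Submodule.span_le]
      rintro _ ⟨i, rfl⟩
      exact hxL i
    refine Submodule.eq_of_le_of_finrank_eq hle' ?_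
    rw [finrank_span_eq_card hxli, Fintype.card_fin]
    have h3 : ell (m • prim vinf) = n + 1 + 1 := by omega
    exact h3.symm
  have hx0 : (Fin.snoc x' t : Fin (n + 1 + 1) → laurentBaseChange Qb F₀) 0 = 1 := by
    have h0 : (0 : Fin (n + 1 + 1)) = Fin.castSucc (0 : Fin (n + 1)) := rfl
    rw [h0, Fin.snoc_castSucc]
    exact hx'0
  have hxlow : ∀ i : Fin (n + 1 + 1), i ≠ Fin.last (n + 1) →
      (Fin.snoc x' t : Fin (n + 1 + 1) → laurentBaseChange Qb F₀) i ∈
        riemannRochSpace ((m - 1) • prim vinf) := by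
    intro i hi
    rcases Fin.eq_castSucc_or_eq_last i with ⟨j, rfl⟩ | rfl
    · rw [Fin.snoc_castSucc]
      exact hx'L j
    · exact absurd rfl hi
  have hxtop : (Fin.snoc x' t : Fin (n + 1 + 1) → laurentBaseChange Qb F₀) (Fin.last (n + 1)) ∉
      riemannRochSpace ((m - 1) • prim vinf) := by
    rw [Fin.snoc_last]
    exact htn
  have hxfix : ∀ i, IsFixed F₀
      ((Fin.snoc x' t : Fin (n + 1 + 1) → laurentBaseChange Qb F₀) i) := by
    intro i
    rcases Fin.eq_castSucc_or_eq_last i with ⟨j, rfl⟩ | rfl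
    · rw [Fin.snoc_castSucc]
      exact hx'fix j
    · rw [Fin.snoc_last]
      exact htfix
  exact ⟨PtData.mk vinf m (n + 1) (Fin.snoc x' t) (Nat.succ_pos n) hm1 hx0 hxli hxspan hxlow
    hxtop, rfl, rfl, hxfix⟩

end Fermat.Agent.S17.H77

end
end
-- ===== PACK-END S17/H77/PtBasis.lean

-- ===== PACK-BEGIN S17/H710/Wall/Core.lean
section



/-!
# S17 / tower H — the WALL: the two core inequalities (helper710)

`core_up`, `core_low` : assembly of the Cramer/Nullstellensatz argument from the frozen leaves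
of `Wall/Defs.lean` (hypotheses).  Sorry-free.
-/

set_option autoImplicit false

noncomputable section

namespace Fermat.Agent.S17.Wall

open AlgebraicCurve MvPolynomial
open Fermat.Agent.Lib.RR Fermat.Agent.S17.HWall Fermat.Agent.S17.H710
open Fermat.Agent.S17.HContract

variable {K F : Type*} [Field K] [Field F] [Algebra K F]

/-! ## small glue -/

theorem span_range_stack_swap {σ τ c : Type*} (U : σ → c → K) (ψu : σ → K) (W : τ → c → K)
    (ψw : τ → K) :
    Submodule.span K (Set.range (stack U ψu W ψw)) =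
      Submodule.span K (Set.range (stack W ψw U ψu)) := by
  unfold stack
  rw [Set.Sum.elim_range, Set.Sum.elim_range, Set.union_comm]

theorem minors_ne_zero_iff {σ c : Type*} (κ : ℕ) (U : σ → c → K) :
    minors κ U ≠ 0 ↔ ∃ j, minors κ U j ≠ 0 := Function.ne_iff

variable [FF1 K F]

theorem kapN_pos (E : EmbData K F) (hE : Big E) {k : ℕ} (hk : 1 ≤ k) : 1 ≤ kapN E k := by
  unfold kapN
  unfold Big at hE
  have h1 : k * 1 ≤ k * E.m := Nat.mul_le_mul_left k (by omega)
  have h2 : 1 * (E.m - 1) ≤ k * (E.m - 1) := Nat.mul_le_mul_right _ hk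
  have h3 : k * (E.m - 1) = k * E.m - k := by
    rw [Nat.mul_sub, mul_one]
  omega

/-- the cone of the relations of `E.x`, as a set of homogeneous equations -/
def relSet (E : EmbData K F) : Set (MvPolynomial (Fin (E.r + 1)) K) :=
  {G | ∃ e : ℕ, G.IsHomogeneous e ∧ aeval E.x G = 0}

theorem onCone_iff_relSet (E : EmbData K F) (y : Fin (E.r + 1) → K) :
    OnCone E.x y ↔ ∀ G ∈ relSet E, eval y G = 0 := by
  constructor
  · rintro h G ⟨e, hG, h0⟩
    exact h e G hG h0
  · intro h d G hG h0
    exact h G ⟨d, hG, h0⟩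

variable [CharZero K]

/-- all leaves used by the assembly of `(E3)`, `(ADJ)`, `(VDM)` -/
structure Leaves (E : EmbData K F) : Prop where
  a1 : CramerHeightStatement K
  a2 : MinorStatement K
  a3 : MultislotStatement K
  a4 : HtBetaMatStatement K
  a5 : HtWMatStatement K
  a6 : HtBetaColStatement K
  a7 : HtWColStatement K
  a8 : MinorPolyBetaStatement K
  a9 : MinorPolyAStatement K
  a10 : PluckerStepStatement K
  pt : PtStatement E
  cone : ConeStatement E
  enum : EnumStatement K F
  inf : InfStatement K F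
  indep : IndepStatement E
  rank : RankStatement E
  rankJet : RankJetStatement E
  minorBeta : MinorBetaStatement E
  minorA : MinorAStatement E

/-- **CORE-UP** (`k` slots, a family `W` of forms).  Rows `β_s`, extra rows `w_ρ X^α`:
`Σ h(Aᵢ) + h(ψw) ≤ h(W) + h(ψu) + C` for ANY extra column `(ψu, ψw)` satisfying the rank
condition. -/
theorem core_up (E : EmbData K F) (hE : Big E)
    (hL : Leaves E) (k : ℕ) (hk : 1 ≤ k) (ρ : Type) [Fintype ρ] :
    ∃ (C : ℝ) (L : ℕ) (Q : Fin L → Place K F), Function.Injective Q ∧ E.m * E.m < L ∧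
      ∀ (A : Fin k → Place K F) (W : ρ → Fin (E.r + 1) → K)
        (ψu : (Fin k → Fin (E.r + 1) × Fin (E.r + 1)) → K)
        (ψw : ρ × (Fin (k - 1) → Fin (E.r + 1)) → K),
        Module.finrank K (Submodule.span K (Set.range
          (stack (betaMat (fun i => E.pt (A i)) fun t => E.pt (Q t)) ψu
            (wMat W fun t => E.pt (Q t)) ψw))) ≤ kapN E k →
        ψw ≠ 0 →
        ∑ i, ht (E.pt (A i)) + ht ψw ≤
          ht (fun q : ρ × Fin (E.r + 1) => W q.1 q.2) + ht ψu + C := by
  classical
  obtain ⟨L, hLdef⟩ : ∃ L, L = k * E.m + E.m * E.m + 1 := ⟨_, rfl⟩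
  obtain ⟨Q, hQ⟩ := hL.inf L
  set y : Fin L → Fin (E.r + 1) → K := fun t => E.pt (Q t) with hy
  set κ := kapN E k with hκ
  have hκ1 : 1 ≤ κ := kapN_pos E hE hk
  obtain ⟨p, hpM, hpE⟩ := hL.a8 (E.r + 1) k (Fin L) y κ
  -- minors nonzero at places
  have hmin : ∀ A : Fin k → Place K F, minors κ (betaMat (fun i => E.pt (A i)) y) ≠ 0 := by
    intro A
    exact hL.a2 _ _ κ _ (hL.minorBeta k L Q hk hQ (by omega) A)
  -- no common zero
  have h0 : ∀ u : Fin k → Fin (E.r + 1) → K, (∀ l, u l ≠ 0) →
      (∀ l, ∀ G ∈ relSet E, eval (u l) G = 0) →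
      ∃ j, eval (fun q : Fin k × Fin (E.r + 1) => u q.1 q.2) (p j) ≠ 0 := by
    intro u hu0 hurel
    have hc : ∀ l, ∃ (P : Place K F) (c : K), c ≠ 0 ∧ u l = c • E.pt P := fun l =>
      hL.cone (u l) (hu0 l) ((onCone_iff_relSet E (u l)).mpr (hurel l))
    choose A c hc0 huA using hc
    obtain ⟨j, hj⟩ := (minors_ne_zero_iff κ _).mp (hmin A)
    refine ⟨j, ?_⟩
    have : (fun q : Fin k × Fin (E.r + 1) => u q.1 q.2) =
        fun q => c q.1 * E.pt (A q.1) q.2 := by
      funext q; rw [huA q.1]; rfl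
    have h2 : eval (fun q : Fin k × Fin (E.r + 1) => E.pt (A q.1) q.2) (p j) =
        minors κ (betaMat (fun i => E.pt (A i)) y) j := hpE (fun i => E.pt (A i)) j
    rw [this, hpM j (fun i => E.pt (A i)) c, h2]
    exact mul_ne_zero (Finset.prod_ne_zero_iff.mpr fun l _ => pow_ne_zero _ (hc0 l)) hj
  obtain ⟨C₃, hC₃⟩ := hL.a3 (E.r + 1) k _ (relSet E)
    (fun G hG => ⟨hG.choose, hG.choose_spec.1⟩) p κ hpM h0
  obtain ⟨C₁, hC₁⟩ := hL.a1 κ (Fin k → Fin (E.r + 1) × Fin (E.r + 1))
    (ρ × (Fin (k - 1) → Fin (E.r + 1))) (Fin L)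
  obtain ⟨C₄, hC₄⟩ := hL.a4 (E.r + 1) k (Fin L) y
  obtain ⟨C₅, hC₅⟩ := hL.a5 (E.r + 1) (k - 1) ρ (Fin L) y
  refine ⟨C₁ + C₃ + C₅ + ((κ - 1 : ℕ) : ℝ) * C₄, L, Q, hQ, by omega, ?_⟩
  intro A W ψu ψw hrank hψw
  have e1 := hC₁ _ ψu _ ψw hrank (hmin A) hψw
  have e3 := hC₃ (fun i => E.pt (A i)) (fun l => hL.pt.1 (A l))
    (fun l => (onCone_iff_relSet E _).mp (hL.pt.2.1 (A l)))
  have e3' : (fun j => eval (fun q : Fin k × Fin (E.r + 1) => E.pt (A q.1) q.2) (p j)) =
      minors κ (betaMat (fun i => E.pt (A i)) y) :=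
    funext fun j => hpE (fun i => E.pt (A i)) j
  rw [e3'] at e3
  have e4 := hC₄ (fun i => E.pt (A i))
  have e5 := hC₅ W
  have e4' := mul_le_mul_of_nonneg_left e4 (Nat.cast_nonneg (α := ℝ) (κ - 1))
  have hc : ((κ - 1 : ℕ) : ℝ) = (κ : ℝ) - 1 := by
    rw [Nat.cast_sub hκ1]; simp
  rw [hc] at e4' e1 ⊢
  nlinarith [e1, e3, e4', e5]

/-- **CORE-LOW** (`k = m`, one form `a`).  Rows `a X^α`, extra rows `β_s`:
`h(a) + h(ψu) ≤ Σ h(Aᵢ) + h(ψw) + C`. -/
theorem core_low (E : EmbData K F) (hE : Big E) (hL : Leaves E) :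
    ∃ (C : ℝ) (L : ℕ) (Q : Fin L → Place K F), Function.Injective Q ∧ E.m * E.m < L ∧
      ∀ (a : Fin (E.r + 1) → K) (A : Fin E.m → Place K F)
        (ψu : (Fin E.m → Fin (E.r + 1) × Fin (E.r + 1)) → K)
        (ψw : Unit × (Fin (E.m - 1) → Fin (E.r + 1)) → K),
        a ≠ 0 →
        Module.finrank K (Submodule.span K (Set.range
          (stack (betaMat (fun i => E.pt (A i)) fun t => E.pt (Q t)) ψu
            (wMat (fun _ : Unit => a) fun t => E.pt (Q t)) ψw))) ≤ kapN E E.m →
        ψu ≠ 0 →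
        ht a + ht ψu ≤ ∑ i, ht (E.pt (A i)) + ht ψw + C := by
  classical
  have hm1 : 1 ≤ E.m := by unfold Big at hE; omega
  obtain ⟨L, hLdef⟩ : ∃ L, L = E.m * E.m + 1 := ⟨_, rfl⟩
  obtain ⟨Q, hQ⟩ := hL.inf L
  set y : Fin L → Fin (E.r + 1) → K := fun t => E.pt (Q t) with hy
  set κ := kapN E E.m with hκ
  have hκ1 : 1 ≤ κ := kapN_pos E hE hm1
  obtain ⟨p, hpM, hpE⟩ := hL.a9 (E.r + 1) (E.m - 1) (Fin L) y κ
  have hmin : ∀ a : Fin (E.r + 1) → K, a ≠ 0 →
      minors κ (wMat (e := E.m - 1) (fun _ : Unit => a) y) ≠ 0 := by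
    intro a ha
    exact hL.a2 _ _ κ _ (hL.minorA L Q hQ (by omega) a ha)
  have hev : ∀ u : Fin 1 → Fin (E.r + 1) → K,
      (fun q : Fin 1 × Fin (E.r + 1) => u q.1 q.2) = fun q => u 0 q.2 := by
    intro u; funext q; rw [Subsingleton.elim q.1 0]
  have h0 : ∀ u : Fin 1 → Fin (E.r + 1) → K, (∀ l, u l ≠ 0) →
      (∀ l, ∀ G ∈ (∅ : Set (MvPolynomial (Fin (E.r + 1)) K)), eval (u l) G = 0) →
      ∃ j, eval (fun q : Fin 1 × Fin (E.r + 1) => u q.1 q.2) (p j) ≠ 0 := by
    intro u hu0 _
    obtain ⟨j, hj⟩ := (minors_ne_zero_iff κ _).mp (hmin (u 0) (hu0 0))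
    refine ⟨j, ?_⟩
    rw [hev u, hpE]
    exact hj
  obtain ⟨C₃, hC₃⟩ := hL.a3 (E.r + 1) 1 _ (∅ : Set (MvPolynomial (Fin (E.r + 1)) K))
    (fun G hG => absurd hG (Set.notMem_empty G)) p κ hpM h0
  obtain ⟨C₁, hC₁⟩ := hL.a1 κ (Unit × (Fin (E.m - 1) → Fin (E.r + 1)))
    (Fin E.m → Fin (E.r + 1) × Fin (E.r + 1)) (Fin L)
  obtain ⟨C₄, hC₄⟩ := hL.a4 (E.r + 1) E.m (Fin L) y
  obtain ⟨C₅, hC₅⟩ := hL.a5 (E.r + 1) (E.m - 1) Unit (Fin L) y
  refine ⟨C₁ + C₃ + C₄ + ((κ - 1 : ℕ) : ℝ) * C₅, L, Q, hQ, by omega, ?_⟩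
  intro a A ψu ψw ha hrank hψu
  rw [span_range_stack_swap] at hrank
  have e1 := hC₁ _ ψw _ ψu hrank (hmin a ha) hψu
  have e3 := hC₃ (fun _ => a) (fun _ => ha) (fun _ G hG => absurd hG (Set.notMem_empty G))
  have e3' : (fun j => eval (fun q : Fin 1 × Fin (E.r + 1) => a q.2) (p j)) =
      minors κ (wMat (e := E.m - 1) (fun _ : Unit => a) y) :=
    funext fun j => hpE a j
  rw [e3'] at e3
  simp only [Finset.univ_unique, Finset.sum_const, Finset.card_singleton, one_smul] at e3
  have e4 := hC₄ (fun i => E.pt (A i))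
  have e5 := hC₅ (fun _ : Unit => a)
  have e5a : ht (fun q : Unit × Fin (E.r + 1) => a q.2) = ht a := by
    have := Fermat.Agent.S17.H380.absLogHeight_comp_equiv (Equiv.punitProd (Fin (E.r + 1))) a
    simpa [Function.comp_def] using this
  rw [e5a] at e5
  have e5' := mul_le_mul_of_nonneg_left e5 (Nat.cast_nonneg (α := ℝ) (κ - 1))
  have hc : ((κ - 1 : ℕ) : ℝ) = (κ : ℝ) - 1 := by
    rw [Nat.cast_sub hκ1]; simp
  rw [hc] at e5' e1 ⊢
  nlinarith [e1, e3, e4, e5']

end Fermat.Agent.S17.Wall

end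
end
-- ===== PACK-END S17/H710/Wall/Core.lean

-- ===== PACK-BEGIN S17/H380/WallHt.lean
section




/-!
# S17 / tower H — wall leaves A4, A5, A6, A7 (helper380)

Heights of the matrices / columns of values of the wall (`S17/H710/Wall/Defs.lean`):

* `htBetaMat : HtBetaMatStatement K`  (A4, multilinear upper bound),
* `htWMat    : HtWMatStatement K`     (A5, linear upper bound),
* `htBetaCol : HtBetaColStatement K`  (A6, exact Segre),
* `htWCol    : HtWColStatement K`     (A7, exact Segre),

for a field `K` of characteristic `0` which is algebraic over `ℚ`.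
-/

set_option linter.unusedSectionVars false
set_option linter.style.haveILetI false
set_option autoImplicit false

noncomputable section

namespace Fermat.Agent.S17.H380

open Fermat.Agent.S17.HWall Fermat.Agent.S17.HContract Fermat.Agent.S17.Wall

section WallHt

variable (K : Type*) [Field K] [CharZero K] [Algebra.IsAlgebraic ℚ K]

theorem isIntegral_all (a : K) : IsIntegral ℚ a := Algebra.IsIntegral.isIntegral a

/-- **A6** (exact Segre). -/
theorem htBetaCol : HtBetaColStatement K := by
  intro n d u z h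
  exact absLogHeight_fun_prod_eq (x := fun i => wedge (u i) (z i))
    (fun _ _ => isIntegral_all K _) h

/-- **A7** (exact Segre): `h(v ⊗ z^{⊗e}) = h(v) + e h(z)`. -/
theorem htWCol : HtWColStatement K := by
  intro n e ρ _ v z hv hz
  have hpow : (fun α : Fin e → Fin n => ∏ k, z (α k)) ≠ 0 := by
    obtain ⟨i, hi⟩ := Function.ne_iff.mp hz
    refine Function.ne_iff.mpr ⟨fun _ => i, ?_⟩
    simpa using pow_ne_zero e hi
  have h1 := absLogHeight_fun_mul_eq (x := v) (y := fun α : Fin e → Fin n => ∏ k, z (α k))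
    (fun _ => isIntegral_all K _) (fun _ => isIntegral_all K _) hv hpow
  have h2 := absLogHeight_fun_prod_eq (x := fun _ : Fin e => z)
    (fun _ _ => isIntegral_all K _) (fun _ => hz)
  rw [Finset.sum_const, Finset.card_univ, Fintype.card_fin, nsmul_eq_mul] at h2
  show absLogHeight _ = absLogHeight v + (e : ℝ) * absLogHeight z
  rw [← h2]
  exact h1

/-- **A5** (upper bound for `wMat`, linear in `W`). -/
theorem htWMat : HtWMatStatement K := by
  classical
  intro n e ρ c _ _ y
  let M : ((ρ × (Fin e → Fin n)) × c) × (ρ × Fin n) → K := fun a =>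
    if a.2.1 = a.1.1.1 then y a.1.2 a.2.2 * ∏ k, y a.1.2 (a.1.1.2 k) else 0
  refine ⟨Real.log (Nat.card (ρ × Fin n)) + absLogHeight M, fun W => ?_⟩
  have key := absLogHeight_linearMap_apply_le M (fun q : ρ × Fin n => W q.1 q.2)
    (fun _ => isIntegral_all K _) (fun _ => isIntegral_all K _)
  have heq : (fun q : (ρ × (Fin e → Fin n)) × c => wMat W y q.1 q.2) =
      fun j => ∑ i, M (j, i) * (fun q : ρ × Fin n => W q.1 q.2) i := by
    funext q
    obtain ⟨⟨r, α⟩, j⟩ := q
    simp only [wMat, M, dot, dotProduct]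
    rw [Fintype.sum_prod_type]
    rw [Finset.sum_eq_single r]
    · simp only [if_true]
      rw [Finset.sum_mul]
      refine Finset.sum_congr rfl fun i _ => ?_
      ring
    · intro r' _ hr'
      refine Finset.sum_eq_zero fun i _ => ?_
      rw [if_neg hr', zero_mul]
    · intro h
      exact absurd (Finset.mem_univ r) h
  show absLogHeight _ ≤ absLogHeight _ + _
  rw [heq]
  linarith

/-- **A4** (upper bound for `betaMat`, multilinear in `u`). -/
theorem htBetaMat : HtBetaMatStatement K := by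
  classical
  intro n d c _ y
  let cf : ((Fin d → Fin n × Fin n) × c) → Fin d → Fin n → K := fun q i k =>
    (if k = (q.1 i).1 then y q.2 (q.1 i).2 else 0) - (if k = (q.1 i).2 then y q.2 (q.1 i).1 else 0)
  let M : ((Fin d → Fin n × Fin n) × c) × (Fin d → Fin n) → K := fun a =>
    ∏ i, cf a.1 i (a.2 i)
  refine ⟨Real.log (Nat.card (Fin d → Fin n)) + absLogHeight M, fun u => ?_⟩
  have key := absLogHeight_multilinear_apply_le (α := Fin d) (ι := fun _ => Fin n) M u
    (fun _ => isIntegral_all K _) (fun _ _ => isIntegral_all K _)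
  have heq : (fun q : (Fin d → Fin n × Fin n) × c => betaMat u y q.1 q.2) =
      fun j => ∑ I : Fin d → Fin n, M (j, I) * ∏ a, u a (I a) := by
    funext q
    obtain ⟨s, j⟩ := q
    simp only [betaMat, M]
    have h1 : ∀ i, wedge (u i) (y j) (s i) = ∑ k, cf (s, j) i k * u i k := by
      intro i
      simp only [cf, wedge, sub_mul, Finset.sum_sub_distrib, ite_mul, zero_mul,
        Finset.sum_ite_eq', Finset.mem_univ, if_true]
      ring
    rw [Finset.prod_congr rfl fun i _ => h1 i, Finset.prod_univ_sum]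
    rw [Fintype.piFinset_univ]
    refine Finset.sum_congr rfl fun I _ => ?_
    rw [Finset.prod_mul_distrib]
  show absLogHeight _ ≤ _ + _
  rw [heq]
  linarith

end WallHt

end Fermat.Agent.S17.H380

end
end
-- ===== PACK-END S17/H380/WallHt.lean

-- ===== PACK-BEGIN S17/H410/MinorPoly.lean
section
/-
S17 / tower H / WALL (global route, architect helper710): leaves A8 and A9 (helper410).

* `minorPolyBeta : Wall.MinorPolyBetaStatement K` — the `κ`-minors of `betaMat · y` are values of
  polynomials in the `d` slots `u`, multihomogeneous of multidegree `(κ, …, κ)`;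
* `minorPolyA : Wall.MinorPolyAStatement K` — the `κ`-minors of `wMat (fun _ => a) y` are values
  of polynomials in `a`, homogeneous of degree `κ`.

Both are determinants of matrices of polynomials; `eval` commutes with `det`
(`RingHom.map_det`) and scaling the slots scales every entry by `∏ c_l` (`Matrix.det_smul`).
-/


set_option autoImplicit false

noncomputable section

namespace Fermat.Agent.S17.H410

open MvPolynomial
open Fermat.Agent.S17.HWall Fermat.Agent.S17.Wall

variable {K : Type*} [Field K]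

/-- The polynomial (in the slots `u`) whose value is the entry `betaMat u y s j`. -/
def betaEntryPoly410 {n d : ℕ} {c : Type*} (y : c → Fin n → K)
    (s : Fin d → Fin n × Fin n) (j : c) : MvPolynomial (Fin d × Fin n) K :=
  ∏ i : Fin d, (X (i, (s i).1) * C (y j (s i).2) - X (i, (s i).2) * C (y j (s i).1))

theorem eval_betaEntryPoly410 {n d : ℕ} {c : Type*} (y : c → Fin n → K)
    (s : Fin d → Fin n × Fin n) (j : c) (u : Fin d → Fin n → K) (t : Fin d → K) :
    eval (fun q : Fin d × Fin n => t q.1 * u q.1 q.2) (betaEntryPoly410 y s j)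
      = (∏ l, t l) * betaMat u y s j := by
  unfold betaEntryPoly410 betaMat wedge
  rw [map_prod, ← Finset.prod_mul_distrib]
  refine Finset.prod_congr rfl fun i _ => ?_
  simp only [map_sub, map_mul, eval_X, eval_C]
  ring

theorem eval_betaEntryPoly410' {n d : ℕ} {c : Type*} (y : c → Fin n → K)
    (s : Fin d → Fin n × Fin n) (j : c) (u : Fin d → Fin n → K) :
    eval (fun q : Fin d × Fin n => u q.1 q.2) (betaEntryPoly410 y s j) = betaMat u y s j := by
  have h := eval_betaEntryPoly410 y s j u (fun _ => 1)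
  simpa using h

/-- The polynomial (in `a`) whose value is the entry `wMat (fun _ => a) y (ρ, α) j`. -/
def wEntryPoly410 {n e : ℕ} {c : Type*} (y : c → Fin n → K)
    (α : Fin e → Fin n) (j : c) : MvPolynomial (Fin 1 × Fin n) K :=
  (∑ i : Fin n, X ((0 : Fin 1), i) * C (y j i)) * C (∏ k, y j (α k))

theorem eval_wEntryPoly410 {n e : ℕ} {c : Type*} (y : c → Fin n → K)
    (α : Fin e → Fin n) (j : c) (a : Fin 1 → Fin n → K) (t : Fin 1 → K) (ρ : Unit) :
    eval (fun q : Fin 1 × Fin n => t q.1 * a q.1 q.2) (wEntryPoly410 y α j)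
      = (∏ l, t l) * wMat (e := e) (fun _ : Unit => a 0) y (ρ, α) j := by
  unfold wEntryPoly410 wMat dot
  simp only [map_mul, map_sum, eval_X, eval_C, Fin.prod_univ_one, dotProduct]
  have h : ∑ x, t 0 * a 0 x * y j x = t 0 * ∑ x, a 0 x * y j x := by
    rw [Finset.mul_sum]
    exact Finset.sum_congr rfl fun i _ => by ring
  rw [h]
  ring

/-- The determinant of a matrix of polynomials all of whose entries scale by `∏ t_l` scales by
`∏ t_l ^ κ`. -/
theorem eval_det_scale410 {ι : Type*} {κ : ℕ} (M : Matrix (Fin κ) (Fin κ) (MvPolynomial ι K))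
    (A : Matrix (Fin κ) (Fin κ) K) (f : ι → K) (r : K)
    (h : ∀ a b, eval f (M a b) = r * A a b) :
    eval f M.det = r ^ κ * A.det := by
  have h1 : eval f M.det = ((eval f).mapMatrix M).det := RingHom.map_det (eval f) M
  have h2 : (eval f).mapMatrix M = r • A := by
    ext a b
    simp [h a b]
  rw [h1, h2, Matrix.det_smul, Fintype.card_fin]

section Leaves

variable (K)

/-- **Wall leaf A8.** -/
theorem minorPolyBeta : MinorPolyBetaStatement K := by
  intro n d c _ y κ
  refine ⟨fun j => (Matrix.of fun a b => betaEntryPoly410 y (j.1 a) (j.2 b)).det, ?_, ?_⟩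
  · intro j u t
    have h0 := eval_det_scale410
      (Matrix.of fun a b => betaEntryPoly410 y (j.1 a) (j.2 b))
      (Matrix.of fun a b => betaMat u y (j.1 a) (j.2 b))
      (fun q : Fin d × Fin n => t q.1 * u q.1 q.2) (∏ l, t l)
      (fun a b => by simpa using eval_betaEntryPoly410 y (j.1 a) (j.2 b) u t)
    have h1 := eval_det_scale410
      (Matrix.of fun a b => betaEntryPoly410 y (j.1 a) (j.2 b))
      (Matrix.of fun a b => betaMat u y (j.1 a) (j.2 b))
      (fun q : Fin d × Fin n => u q.1 q.2) 1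
      (fun a b => by simpa using eval_betaEntryPoly410' y (j.1 a) (j.2 b) u)
    rw [h0, h1, one_pow, one_mul, Finset.prod_pow]
  · intro u j
    have h1 := eval_det_scale410
      (Matrix.of fun a b => betaEntryPoly410 y (j.1 a) (j.2 b))
      (Matrix.of fun a b => betaMat u y (j.1 a) (j.2 b))
      (fun q : Fin d × Fin n => u q.1 q.2) 1
      (fun a b => by simpa using eval_betaEntryPoly410' y (j.1 a) (j.2 b) u)
    rw [h1, one_pow, one_mul]
    rfl

/-- **Wall leaf A9.** -/
theorem minorPolyA : MinorPolyAStatement K := by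
  intro n e c _ y κ
  refine ⟨fun j => (Matrix.of fun a b => wEntryPoly410 y (j.1 a).2 (j.2 b)).det, ?_, ?_⟩
  · intro j u t
    have h0 := eval_det_scale410
      (Matrix.of fun a b => wEntryPoly410 y (j.1 a).2 (j.2 b))
      (Matrix.of fun a b => wMat (e := e) (fun _ : Unit => u 0) y (j.1 a) (j.2 b))
      (fun q : Fin 1 × Fin n => t q.1 * u q.1 q.2) (∏ l, t l)
      (fun a b => by simpa using eval_wEntryPoly410 y (j.1 a).2 (j.2 b) u t (j.1 a).1)
    have h1 := eval_det_scale410
      (Matrix.of fun a b => wEntryPoly410 y (j.1 a).2 (j.2 b))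
      (Matrix.of fun a b => wMat (e := e) (fun _ : Unit => u 0) y (j.1 a) (j.2 b))
      (fun q : Fin 1 × Fin n => u q.1 q.2) 1
      (fun a b => by
        simpa using eval_wEntryPoly410 y (j.1 a).2 (j.2 b) u (fun _ => 1) (j.1 a).1)
    rw [h0, h1, one_pow, one_mul, Finset.prod_pow]
  · intro a j
    have h1 := eval_det_scale410
      (Matrix.of fun a' b => wEntryPoly410 y (j.1 a').2 (j.2 b))
      (Matrix.of fun a' b => wMat (e := e) (fun _ : Unit => a) y (j.1 a') (j.2 b))
      (fun q : Fin 1 × Fin n => a q.2) 1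
      (fun a' b => by
        simpa using eval_wEntryPoly410 y (j.1 a').2 (j.2 b) (fun _ => a) (fun _ => 1) (j.1 a').1)
    rw [h1, one_pow, one_mul]
    rfl

end Leaves

end Fermat.Agent.S17.H410


end
end
-- ===== PACK-END S17/H410/MinorPoly.lean

-- ===== PACK-BEGIN S17/H860/WallA1.lean
section
/-
helper860 — S17 / tower H — WALL leaf A1 (CRAMER + HEIGHTS), exact frozen statement
`Fermat.Agent.S17.Wall.CramerHeightStatement K` of `S17/H710/Wall/Defs.lean`.
-/



set_option autoImplicit false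
set_option linter.unusedSectionVars false

namespace Fermat.Agent.S17.H860

open Matrix Fermat.Agent.S17.Wall Fermat.Agent.S17.HContract Fermat.Agent.S17.H380

variable (K : Type*) [Field K] [CharZero K] [Algebra.IsAlgebraic ℚ K]

/-- **WALL leaf A1.** -/
theorem cramerHeightStatement : CramerHeightStatement K := by
  intro κ σ τ c _ _ _
  classical
  refine ⟨cramerConst (κ := Fin κ) (ρ := σ) (γ := c) (I := (Fin κ → σ) × (Fin κ → c))
    (fun i => i.1) (fun i => i.2) τ, ?_⟩
  intro U ψu W ψw hrk hmin hψw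
  have hint : ∀ a : K, IsIntegral ℚ a := fun a => (Algebra.IsAlgebraic.isAlgebraic a).isIntegral
  set V : Submodule K (c ⊕ Unit → K) := Submodule.span K (Set.range (stack U ψu W ψw)) with hV
  have hcard : Module.finrank K V ≤ Fintype.card (Fin κ) := by
    rw [Fintype.card_fin]; exact hrk
  have hmem : ∀ r, stack U ψu W ψw r ∈ V := fun r => Submodule.subset_span ⟨r, rfl⟩
  have hcr : ∀ (i : (Fin κ → σ) × (Fin κ → c)) (j : τ),
      ((Matrix.of U).submatrix i.1 i.2).det * ψw j =
        ∑ s, ∑ j', W j (i.2 j') * (((Matrix.of U).submatrix i.1 i.2).adjugate j' s *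
          ψu (i.1 s)) := by
    intro i j
    have h := cramer_adjugate_of_mem_submodule V hcard
      (fun s => stack U ψu W ψw (Sum.inl (i.1 s))) (fun s => hmem _)
      (stack U ψu W ψw (Sum.inr j)) (hmem _) (fun j' => Sum.inl (i.2 j')) (Sum.inr ())
    have e1 : (Matrix.of fun s j' => stack U ψu W ψw (Sum.inl (i.1 s)) (Sum.inl (i.2 j'))) =
        (Matrix.of U).submatrix i.1 i.2 := rfl
    rw [e1] at h
    have e2 : stack U ψu W ψw (Sum.inr j) (Sum.inr ()) = ψw j := rfl
    rw [e2] at h
    rw [h]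
    refine Finset.sum_congr rfl fun s _ => Finset.sum_congr rfl fun j' _ => ?_
    have e3 : stack U ψu W ψw (Sum.inr j) (Sum.inl (i.2 j')) = W j (i.2 j') := rfl
    have e4 : stack U ψu W ψw (Sum.inl (i.1 s)) (Sum.inr ()) = ψu (i.1 s) := rfl
    rw [e3, e4, mul_assoc]
  have hΔ : ∃ i : (Fin κ → σ) × (Fin κ → c), ((Matrix.of U).submatrix i.1 i.2).det ≠ 0 := by
    obtain ⟨i, hi⟩ := Function.ne_iff.mp hmin
    exact ⟨i, hi⟩
  have hu : ∃ j, ψw j ≠ 0 := Function.ne_iff.mp hψw
  have key := absLogHeight_cramer_core (κ := Fin κ) (I := (Fin κ → σ) × (Fin κ → c))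
    (fun i => i.1) (fun i => i.2) (Matrix.of U) (fun _ _ => hint _) W (fun _ _ => hint _)
    ψu (fun _ => hint _) ψw (fun _ => hint _) hcr hΔ hu
  rw [Fintype.card_fin] at key
  have e5 : (fun i : (Fin κ → σ) × (Fin κ → c) => ((Matrix.of U).submatrix i.1 i.2).det) =
      minors κ U := rfl
  rw [e5] at key
  have e6 : (fun p : σ × c => (Matrix.of U) p.1 p.2) = fun q : σ × c => U q.1 q.2 := rfl
  rw [e6] at key
  unfold ht
  linarith

end Fermat.Agent.S17.H860

end
-- ===== PACK-END S17/H860/WallA1.lean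

-- ===== PACK-BEGIN S17/H230/Jet.lean
section





/-!
# S17 / tower H (helper230): first order jets at a place

* `d1At_mul` : `d1At v` is a point derivation at `v` (Leibniz rule with respect to `valAt v`);
* `valAt_aeval`, `d1At_aeval` : chain rule for polynomial expressions in regular functions;
* `jetP z z' G = Σᵢ ∂ᵢG(z) z'ᵢ` with its calculus (`jetP_mul`, `jetP_prod`, …);
* `jet_ptD_eq_zero` : the jet `(ptD, tnD)` kills the homogeneous relations of `x`;
* `mem_span_of_forall_dot` : double annihilator in `K^n`;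
* `jetP_eq_zero_of_span` : the same for every pair `(λ c, μ t + ν c)` (Euler's identity).
-/

set_option autoImplicit false

noncomputable section

open AlgebraicCurve MvPolynomial

namespace Fermat.Agent.S17.H230

open Fermat.Agent.Lib.RR Fermat.Agent.S17.HWall

variable {K F : Type*} [Field K] [Field F] [Algebra K F] [FF1 K F] {ι : Type*}

/-! ### `d1At` is a point derivation -/

theorem eq_add_unif_mul_quot1 (v : Place K F) (f : F) :
    f = algebraMap K F (valAt v f) + unif v * quot1 v f := by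
  unfold quot1
  field_simp [unif_ne_zero v]
  ring

theorem valAt_unif (v : Place K F) : valAt v (unif v) = 0 := by
  have hreg : RegAt v (unif v) := by rw [regAt_iff, ord_unif]; omega
  rw [valAt_eq_zero_iff hreg]
  right
  rw [ord_unif]
  omega

theorem regAt_unif (v : Place K F) : RegAt v (unif v) := by
  rw [regAt_iff, ord_unif]; omega

/-- uniqueness of the first order expansion -/
theorem quot1_eq_of_eq {v : Place K F} {f g : F} {a : K}
    (h : f = algebraMap K F a + unif v * g) (hg : RegAt v g) : valAt v f = a ∧ quot1 v f = g := by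
  have h1 : valAt v f = a := by
    rw [h, valAt_add (regAt_algebraMap v a) ((regAt_unif v).mul hg), valAt_algebraMap,
      valAt_mul (regAt_unif v) hg, valAt_unif, zero_mul, add_zero]
  refine ⟨h1, ?_⟩
  unfold quot1
  rw [h1, h]
  field_simp [unif_ne_zero v]
  ring

theorem d1At_algebraMap (v : Place K F) (a : K) : d1At v (algebraMap K F a) = 0 := by
  unfold d1At
  have := (quot1_eq_of_eq (v := v) (f := algebraMap K F a) (g := 0) (a := a) (by simp)
    (regAt_zero v)).2
  rw [this, valAt_zero]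

theorem d1At_add {v : Place K F} {f g : F} (hf : RegAt v f) (hg : RegAt v g) :
    d1At v (f + g) = d1At v f + d1At v g := by
  unfold d1At
  have h : f + g = algebraMap K F (valAt v f + valAt v g) + unif v * (quot1 v f + quot1 v g) := by
    conv_lhs => rw [eq_add_unif_mul_quot1 v f, eq_add_unif_mul_quot1 v g]
    rw [map_add]
    ring
  rw [(quot1_eq_of_eq h ((regAt_quot1 hf).add (regAt_quot1 hg))).2,
    valAt_add (regAt_quot1 hf) (regAt_quot1 hg)]

/-- **Leibniz rule**. -/
theorem d1At_mul {v : Place K F} {f g : F} (hf : RegAt v f) (hg : RegAt v g) :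
    d1At v (f * g) = valAt v f * d1At v g + valAt v g * d1At v f := by
  unfold d1At
  have hq : RegAt v (algebraMap K F (valAt v f) * quot1 v g +
      algebraMap K F (valAt v g) * quot1 v f + unif v * (quot1 v f * quot1 v g)) :=
    (((regAt_algebraMap v _).mul (regAt_quot1 hg)).add
      ((regAt_algebraMap v _).mul (regAt_quot1 hf))).add
      ((regAt_unif v).mul ((regAt_quot1 hf).mul (regAt_quot1 hg)))
  have h : f * g = algebraMap K F (valAt v f * valAt v g) +
      unif v * (algebraMap K F (valAt v f) * quot1 v g +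
        algebraMap K F (valAt v g) * quot1 v f + unif v * (quot1 v f * quot1 v g)) := by
    conv_lhs => rw [eq_add_unif_mul_quot1 v f, eq_add_unif_mul_quot1 v g]
    rw [map_mul]
    ring
  rw [(quot1_eq_of_eq h hq).2,
    valAt_add (((regAt_algebraMap v _).mul (regAt_quot1 hg)).add
      ((regAt_algebraMap v _).mul (regAt_quot1 hf)))
      ((regAt_unif v).mul ((regAt_quot1 hf).mul (regAt_quot1 hg))),
    valAt_add ((regAt_algebraMap v _).mul (regAt_quot1 hg))
      ((regAt_algebraMap v _).mul (regAt_quot1 hf)),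
    valAt_mul (regAt_algebraMap v _) (regAt_quot1 hg),
    valAt_mul (regAt_algebraMap v _) (regAt_quot1 hf),
    valAt_mul (regAt_unif v) ((regAt_quot1 hf).mul (regAt_quot1 hg)),
    valAt_unif, valAt_algebraMap, valAt_algebraMap, zero_mul, add_zero]

/-! ### Jets of polynomials -/

/-- the first order jet `Σᵢ ∂ᵢG(z) z'ᵢ` of `G` at `z` in the direction `z'` -/
def jetP [Fintype ι] (z z' : ι → K) (G : MvPolynomial ι K) : K :=
  ∑ i, eval z (pderiv i G) * z' i

section jet

variable [Fintype ι] [DecidableEq ι]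

omit [DecidableEq ι] in
theorem jetP_add (z z' : ι → K) (G H : MvPolynomial ι K) :
    jetP z z' (G + H) = jetP z z' G + jetP z z' H := by
  unfold jetP
  simp only [map_add, add_mul, Finset.sum_add_distrib]

omit [DecidableEq ι] in
theorem jetP_sub (z z' : ι → K) (G H : MvPolynomial ι K) :
    jetP z z' (G - H) = jetP z z' G - jetP z z' H := by
  unfold jetP
  simp only [map_sub, sub_mul, Finset.sum_sub_distrib]

omit [DecidableEq ι] in
theorem jetP_smul (z z' : ι → K) (a : K) (G : MvPolynomial ι K) :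
    jetP z z' (a • G) = a * jetP z z' G := by
  unfold jetP
  rw [Finset.mul_sum]
  refine Finset.sum_congr rfl fun i _ ↦ ?_
  rw [Derivation.map_smul, smul_eval, mul_assoc]

omit [DecidableEq ι] in
theorem jetP_C (z z' : ι → K) (a : K) : jetP z z' (C a : MvPolynomial ι K) = 0 := by
  unfold jetP
  simp

theorem jetP_X (z z' : ι → K) (j : ι) : jetP z z' (X j : MvPolynomial ι K) = z' j := by
  unfold jetP
  simp [pderiv_X, Pi.single_apply, Finset.sum_ite_eq]

omit [DecidableEq ι] in
theorem jetP_mul (z z' : ι → K) (G H : MvPolynomial ι K) :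
    jetP z z' (G * H) = eval z G * jetP z z' H + eval z H * jetP z z' G := by
  unfold jetP
  simp only [Derivation.leibniz, map_add, Finset.mul_sum, ← Finset.sum_add_distrib]
  refine Finset.sum_congr rfl fun i _ ↦ ?_
  simp only [smul_eq_mul, map_mul]
  ring

omit [DecidableEq ι] in
theorem jetP_sum {κ : Type*} (s : Finset κ) (z z' : ι → K) (G : κ → MvPolynomial ι K) :
    jetP z z' (∑ k ∈ s, G k) = ∑ k ∈ s, jetP z z' (G k) := by
  classical
  induction s using Finset.induction_on with
  | empty => simpa using jetP_C z z' (0 : K)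
  | insert a s ha ih => rw [Finset.sum_insert ha, Finset.sum_insert ha, jetP_add, ih]

omit [DecidableEq ι] in
theorem jetP_prod {κ : Type*} [DecidableEq κ] (s : Finset κ) (z z' : ι → K)
    (G : κ → MvPolynomial ι K) :
    jetP z z' (∏ k ∈ s, G k) = ∑ l ∈ s, jetP z z' (G l) * ∏ k ∈ s.erase l, eval z (G k) := by
  induction s using Finset.induction_on with
  | empty => simpa using jetP_C z z' (1 : K)
  | insert a s ha ih =>
    rw [Finset.prod_insert ha, jetP_mul, ih, Finset.sum_insert ha, Finset.erase_insert ha,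
      map_prod, Finset.mul_sum, add_comm]
    congr 1
    · ring
    · refine Finset.sum_congr rfl fun l hl ↦ ?_
      have hne : l ≠ a := fun h ↦ ha (h ▸ hl)
      rw [Finset.erase_insert_of_ne hne.symm, Finset.prod_insert (by simp [ha])]
      ring

end jet

/-! ### Chain rule at a place -/

theorem regAt_aeval {v : Place K F} {x : ι → F} (hx : ∀ i, RegAt v (x i))
    (G : MvPolynomial ι K) : RegAt v (aeval x G) := by
  induction G using MvPolynomial.induction_on with
  | C a => simpa using regAt_algebraMap v a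
  | add p q hp hq => rw [map_add]; exact hp.add hq
  | mul_X p i hp => rw [map_mul, aeval_X]; exact hp.mul (hx i)

theorem valAt_aeval {v : Place K F} {x : ι → F} (hx : ∀ i, RegAt v (x i))
    (G : MvPolynomial ι K) : valAt v (aeval x G) = eval (fun i ↦ valAt v (x i)) G := by
  induction G using MvPolynomial.induction_on with
  | C a => simp
  | add p q hp hq =>
    rw [map_add, valAt_add (regAt_aeval hx p) (regAt_aeval hx q), hp, hq, map_add]
  | mul_X p i hp =>
    rw [map_mul, aeval_X, valAt_mul (regAt_aeval hx p) (hx i), hp, map_mul, eval_X]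

/-- **Chain rule** for the point derivation `d1At v`. -/
theorem d1At_aeval [Fintype ι] {v : Place K F} {x : ι → F} (hx : ∀ i, RegAt v (x i))
    (G : MvPolynomial ι K) :
    d1At v (aeval x G) = jetP (fun i ↦ valAt v (x i)) (fun i ↦ d1At v (x i)) G := by
  classical
  induction G using MvPolynomial.induction_on with
  | C a =>
    rw [jetP_C]
    simpa using d1At_algebraMap v a
  | add p q hp hq =>
    rw [map_add, d1At_add (regAt_aeval hx p) (regAt_aeval hx q), hp, hq, jetP_add]
  | mul_X p i hp =>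
    rw [map_mul, aeval_X, d1At_mul (regAt_aeval hx p) (hx i), hp, jetP_mul, jetP_X, eval_X,
      valAt_aeval hx]

/-! ### Jets kill the homogeneous relations -/

/-- The point `ptD D x v` satisfies the homogeneous relations of `x`, and the jet
`(ptD D x v, tnD D x v)` kills them. -/
theorem jet_ptD_eq_zero [Fintype ι] {D : Divisor K F} {x : ι → F}
    (hx : ∀ i, x i ∈ riemannRochSpace D) (v : Place K F) {k : ℕ} {G : MvPolynomial ι K}
    (hG : G.IsHomogeneous k) (h0 : aeval x G = 0) :
    eval (ptD D x v) G = 0 ∧ jetP (ptD D x v) (tnD D x v) G = 0 := by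
  have hreg : ∀ i, RegAt v (unif v ^ (D v) * x i) := fun i ↦ by
    rw [mul_comm]; exact regAt_normD hx v i
  have h1 : aeval (fun i ↦ unif v ^ (D v) * x i) G = 0 := by
    rw [Fermat.Agent.S17.H710.aeval_mul_of_isHomogeneous hG, h0, mul_zero]
  have hpt : (fun i ↦ valAt v (unif v ^ (D v) * x i)) = ptD D x v := by
    funext i
    rw [ptD_apply, mul_comm]
  have htn : (fun i ↦ d1At v (unif v ^ (D v) * x i)) = tnD D x v := by
    funext i
    unfold tnD
    rw [mul_comm]
  constructor
  · rw [← hpt, ← valAt_aeval hreg, h1, valAt_zero]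
  · rw [← hpt, ← htn, ← d1At_aeval hreg, h1]
    simpa using d1At_algebraMap v (0 : K)

/-! ### Double annihilator in `K^n` -/

omit [FF1 K F] [Algebra K F] [Field F] in
/-- If every linear form killing all `w j` kills `u`, then `u` lies in the span of the `w j`. -/
theorem mem_span_of_forall_dot {n : ℕ} {κ : Type*} (w : κ → Fin n → K) (u : Fin n → K)
    (h : ∀ a : Fin n → K, (∀ j, dot a (w j) = 0) → dot a u = 0) :
    u ∈ Submodule.span K (Set.range w) := by
  rw [← Subspace.forall_mem_dualAnnihilator_apply_eq_zero_iff]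
  intro φ hφ
  have hrep : ∀ y : Fin n → K, φ y = dot (fun i ↦ φ (Pi.single i 1)) y := by
    intro y
    have hy : y = ∑ i, y i • (Pi.single i (1 : K) : Fin n → K) := by
      funext j
      simp [Finset.sum_apply, Pi.single_apply]
    conv_lhs => rw [hy]
    rw [map_sum]
    simp only [map_smul, smul_eq_mul, dot, dotProduct]
    exact Finset.sum_congr rfl fun i _ ↦ mul_comm _ _
  rw [hrep]
  apply h
  intro j
  rw [← hrep]
  exact (Submodule.mem_dualAnnihilator φ).mp hφ (w j) (Submodule.subset_span ⟨j, rfl⟩)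

/-! ### Jets along proportional data (Euler) -/

omit [FF1 K F] [Algebra K F] [Field F] in
theorem eval_smul_of_isHomogeneous {n : ℕ} {G : MvPolynomial (Fin n) K} {k : ℕ}
    (hG : G.IsHomogeneous k) (l : K) (c : Fin n → K) :
    eval (l • c) G = l ^ k * eval c G := by
  have := Fermat.Agent.S17.H710.aeval_mul_of_isHomogeneous (S := K) hG l c
  simpa [aeval_eq_eval, Pi.smul_def] using this

omit [FF1 K F] [Algebra K F] [Field F] in
/-- If `G` (homogeneous) vanishes at `c` and the jet `(c, t)` kills `G`, then so does every jet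
`(l c, μ t + ν c)`. -/
theorem jetP_eq_zero_of_span {n : ℕ} {G : MvPolynomial (Fin n) K} {k : ℕ}
    (hG : G.IsHomogeneous k) {c t : Fin n → K} (h0 : eval c G = 0) (h1 : jetP c t G = 0)
    (l μ ν : K) : jetP (l • c) (μ • t + ν • c) G = 0 := by
  have hE : ∑ i, eval c (pderiv i G) * c i = (k : K) * eval c G := by
    have := congrArg (eval c) hG.sum_X_mul_pderiv
    simp only [map_sum, map_mul, eval_X, nsmul_eq_mul, map_natCast] at this
    rw [← this]
    exact Finset.sum_congr rfl fun i _ ↦ mul_comm _ _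
  unfold jetP at h1 ⊢
  have hd : ∀ i, eval (l • c) (pderiv i G) = l ^ (k - 1) * eval c (pderiv i G) := fun i ↦
    eval_smul_of_isHomogeneous hG.pderiv l c
  simp only [hd, Pi.add_apply, Pi.smul_apply, smul_eq_mul]
  have : ∑ i, l ^ (k - 1) * eval c (pderiv i G) * (μ * t i + ν * c i) =
      l ^ (k - 1) * (μ * ∑ i, eval c (pderiv i G) * t i +
        ν * ∑ i, eval c (pderiv i G) * c i) := by
    rw [Finset.mul_sum, Finset.mul_sum, ← Finset.sum_add_distrib, Finset.mul_sum]
    exact Finset.sum_congr rfl fun i _ ↦ by ring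
  rw [this, h1, hE, h0]
  ring

end Fermat.Agent.S17.H230

end
end
-- ===== PACK-END S17/H230/Jet.lean

-- ===== PACK-BEGIN S17/H740/Multislot.lean
section




/-!
# Wall leaf A3: the multi-slot Nullstellensatz lower bound (absolute heights)

`multislot : Wall.MultislotStatement K` for `K` algebraically closed and algebraic over `ℚ`.

Proof.  (1) functional multihomogeneity gives formal multihomogeneity (`K` infinite), hence a
Segre lift `P j` (homogeneous of degree `N` in the Segre variables); (2) the ideal generated by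
the homogeneous relations is closed under homogeneous components, so the Segre certificate
`∑ j, Q (f, j) (z) * P j (z) = z f ^ (M + N)`, `z = segrePt y`, holds on the product of the cones
(`exists_segre_certificate_aeval`, over `K` itself); (3) the finitely many coefficients of the
`Q (f, j)` and `P j` lie in ONE number field `K₀ ⊆ K`; (4) `H380.absLogHeight_eval_ge` at the
tensor `segrePt y` and the exact Segre formula `H380.absLogHeight_fun_prod_eq`.
-/

set_option autoImplicit false
set_option linter.unusedSectionVars false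

noncomputable section

namespace Fermat.Agent.S17.H740

open MvPolynomial
open Fermat.Agent.S17.H500 (HomIdeal)
open Fermat.Agent.S17.H380 (absLogHeight)

theorem aeval_self_eq_eval {K σ : Type*} [CommSemiring K] (x : σ → K) (G : MvPolynomial σ K) :
    aeval x G = eval x G := rfl

section Descent

variable {K : Type*} [Field K] [CharZero K] [Algebra.IsAlgebraic ℚ K]

/-- Finitely many polynomials over a field `K` algebraic over `ℚ` are defined over ONE number
field `K₀ ⊆ K`. -/
theorem exists_numberField_descent {τ J : Type*} [Finite J] (Q : J → MvPolynomial τ K) :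
    ∃ K₀ : IntermediateField ℚ K, NumberField K₀ ∧
      ∀ j, ∃ Q₀ : MvPolynomial τ K₀, map (algebraMap K₀ K) Q₀ = Q j := by
  classical
  set S : Set K := ⋃ j, ((Q j).coeffs : Set K) with hS
  have hfin : Finite S := by
    have : S.Finite := Set.finite_iUnion fun j => (Q j).coeffs.finite_toSet
    exact this.to_subtype
  set K₀ : IntermediateField ℚ K := IntermediateField.adjoin ℚ S with hK₀
  have hfd : FiniteDimensional ℚ K₀ :=
    IntermediateField.finiteDimensional_adjoin
      (fun x _ => (Algebra.IsAlgebraic.isAlgebraic (R := ℚ) x).isIntegral)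
  refine ⟨K₀, { }, fun j => ?_⟩
  have h1 : ((Q j).coeffs : Set K) ⊆ Set.range (algebraMap K₀ K) := by
    intro c hc
    have hcS : c ∈ S := Set.mem_iUnion.mpr ⟨j, hc⟩
    exact ⟨⟨c, IntermediateField.subset_adjoin ℚ S hcS⟩, rfl⟩
  obtain ⟨Q₀, hQ₀⟩ := mem_range_map_iff_coeffs_subset.mpr h1
  exact ⟨Q₀, hQ₀⟩

end Descent

section Core

universe u v

variable {K : Type*} [Field K] [CharZero K] [IsAlgClosed K] [Algebra.IsAlgebraic ℚ K]
variable {α : Type u} [Fintype α] {ι : α → Type v} {ι' : Type*}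

/-- **Multi-slot Nullstellensatz lower bound over `K = ℚ̄`** (polynomials and relations with
coefficients in `K`). -/
theorem absLogHeight_multi_eval_ge_closed [Nonempty α] [∀ a, Finite (ι a)] [Fintype ι']
    (I : ∀ a, Ideal (MvPolynomial (ι a) K)) (hI : ∀ a, HomIdeal (I a)) {N : ℕ}
    (p : ι' → MvPolynomial (Σ a, ι a) K)
    (hp : ∀ j, ∃ P : MvPolynomial ((a : α) → ι a) K, P.IsHomogeneous N ∧ segreSubst K P = p j)
    (h0 : ∀ u : (a : α) → ι a → K, InCones K I u → (∀ j, aeval (sigmaPt u) (p j) = 0) →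
      ∃ a, u a = 0) :
    ∃ C : ℝ, ∀ u : (a : α) → ι a → K, InCones K I u → (∀ a, u a ≠ 0) →
      C + N * ∑ a, absLogHeight (u a) ≤ absLogHeight (fun j => eval (sigmaPt u) (p j)) := by
  classical
  obtain ⟨M, Q, P, hQ, hP, -, hPeval, hcert⟩ := exists_segre_certificate_aeval K I hI p hp h0
  obtain ⟨K₀, hNF, hdesc⟩ := exists_numberField_descent (Sum.elim Q P)
  have hQd : ∀ c, ∃ Q₀ : MvPolynomial ((a : α) → ι a) K₀, map (algebraMap K₀ K) Q₀ = Q c :=
    fun c => hdesc (Sum.inl c)
  have hPd : ∀ j, ∃ P₀ : MvPolynomial ((a : α) → ι a) K₀, map (algebraMap K₀ K) P₀ = P j :=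
    fun j => hdesc (Sum.inr j)
  choose Q₀ hQ₀ using hQd
  choose P₀ hP₀ using hPd
  have hinj : Function.Injective (algebraMap K₀ K) := (algebraMap K₀ K).injective
  have hQ₀hom : ∀ c, (Q₀ c).IsHomogeneous M := fun c =>
    IsHomogeneous.of_map hinj (by rw [hQ₀]; exact hQ c)
  have hint : ∀ x : K, IsIntegral ℚ x := fun x =>
    (Algebra.IsAlgebraic.isAlgebraic (R := ℚ) x).isIntegral
  have haev : ∀ (x : ((a : α) → ι a) → K) (G₀ : MvPolynomial ((a : α) → ι a) K₀),
      aeval x G₀ = eval x (map (algebraMap K₀ K) G₀) := by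
    intro x G₀
    rw [eval_map, aeval_def]
  refine ⟨-(Real.log (Nat.card ι') +
    (Module.finrank ℚ K₀ : ℝ)⁻¹ * Real.log (max (Height.mulHeightBound Q₀) 1)),
    fun u hu hu0 => ?_⟩
  have h1 := H380.absLogHeight_eval_ge (K₀ := K₀) (A := K) (N := N) hQ₀hom P₀
    (x := segrePt u) (fun f => hint _) (fun f => by
      have := hcert u hu f
      simp only [haev, hQ₀, hP₀]
      simpa only [aeval_self_eq_eval] using this)
  have h2 : absLogHeight (segrePt u) = ∑ a, absLogHeight (u a) :=
    H380.absLogHeight_fun_prod_eq (fun a i => hint _) hu0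
  rw [h2] at h1
  have h3 : (fun j => aeval (segrePt u) (P₀ j)) = fun j => eval (sigmaPt u) (p j) := by
    funext j
    rw [haev, hP₀]
    have := hPeval u j
    simpa only [aeval_self_eq_eval] using this
  rwa [h3] at h1

end Core

section Wall

variable (K : Type*) [Field K] [CharZero K] [IsAlgClosed K] [Algebra.IsAlgebraic ℚ K]

/-- the reindexing `Fin d × Fin n ≃ Σ _ : Fin d, Fin n` of the variables -/
def prodToSigma (d n : ℕ) : Fin d × Fin n → (Σ _ : Fin d, Fin n) := fun q => ⟨q.1, q.2⟩

theorem eval_rename_prodToSigma {d n : ℕ} (p : MvPolynomial (Fin d × Fin n) K)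
    (y : Fin d → Fin n → K) :
    eval (sigmaPt y) (rename (prodToSigma d n) p) = eval (fun q : Fin d × Fin n => y q.1 q.2) p := by
  rw [eval_rename]
  rfl

/-- **Wall leaf A3.** -/
theorem multislot : Wall.MultislotStatement K := by
  classical
  intro n d ι' _ rel hrel p N hp h0
  rcases Nat.eq_zero_or_pos d with hd | hd
  · subst hd
    refine ⟨0, fun y _ _ => ?_⟩
    simp only [Finset.univ_eq_empty, Finset.sum_empty, mul_zero, add_zero]
    exact H380.absLogHeight_nonneg _
  have : Nonempty (Fin d) := ⟨⟨0, hd⟩⟩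
  have : Infinite K := IsAlgClosed.instInfinite
  -- the renamed polynomials
  set p' : ι' → MvPolynomial (Σ _ : Fin d, Fin n) K := fun j => rename (prodToSigma d n) (p j)
    with hp'
  have hp'hom : ∀ j, IsMultiHom (p' j) (fun _ => N) := by
    intro j
    refine isMultiHom_of_forall_eval (p' j) fun y c => ?_
    have h1 := hp j y c
    have h2 : eval (fun s : (Σ _ : Fin d, Fin n) => c s.1 * y s.1 s.2) (p' j) =
        eval (fun q : Fin d × Fin n => c q.1 * y q.1 q.2) (p j) := by
      rw [hp', eval_rename]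
      rfl
    rw [h2, h1, hp', eval_rename_prodToSigma]
  have hlift : ∀ j, ∃ P : MvPolynomial ((_ : Fin d) → Fin n) K,
      P.IsHomogeneous N ∧ segreSubst K P = p' j := fun j => exists_segre_lift (hp'hom j)
  -- the ideal of the relations
  set I : ∀ _ : Fin d, Ideal (MvPolynomial (Fin n) K) := fun _ => Ideal.span rel with hIdef
  have hI : ∀ a, HomIdeal (I a) := fun a f hf m => homogeneousComponent_mem_span hrel hf m
  have hcone : ∀ y : Fin n → K, (∀ G ∈ rel, eval y G = 0) ↔
      ∀ f ∈ Ideal.span rel, aeval y f = 0 := by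
    intro y
    constructor
    · intro h f hf
      have hle : Ideal.span rel ≤ RingHom.ker (aeval y : MvPolynomial (Fin n) K →ₐ[K] K) := by
        rw [Ideal.span_le]
        intro G hG
        have := h G hG
        rw [SetLike.mem_coe, RingHom.mem_ker]
        exact this
      exact hle hf
    · intro h G hG
      exact h G (Ideal.subset_span hG)
  have hInC : ∀ y : Fin d → Fin n → K, InCones K I y ↔ ∀ l, ∀ G ∈ rel, eval (y l) G = 0 := by
    intro y
    constructor
    · intro h l
      exact (hcone (y l)).mpr (h l)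
    · intro h l
      exact (hcone (y l)).mp (h l)
  obtain ⟨C, hC⟩ := absLogHeight_multi_eval_ge_closed (K := K) I hI p' hlift (by
    intro u hu hz
    by_contra hne
    obtain ⟨j, hj⟩ := h0 u (fun a h => hne ⟨a, h⟩) ((hInC u).mp hu)
    apply hj
    have := hz j
    rw [aeval_self_eq_eval, hp', eval_rename_prodToSigma] at this
    exact this)
  refine ⟨-C, fun y hy0 hy => ?_⟩
  have h1 := hC y ((hInC y).mpr hy) hy0
  have h2 : (fun j => eval (sigmaPt y) (p' j)) =
      fun j => eval (fun q : Fin d × Fin n => y q.1 q.2) (p j) := by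
    funext j
    rw [hp', eval_rename_prodToSigma]
  rw [h2] at h1
  show (N : ℝ) * ∑ l, absLogHeight (y l) ≤
    absLogHeight (fun j => eval (fun q : Fin d × Fin n => y q.1 q.2) (p j)) + -C
  linarith

end Wall

end Fermat.Agent.S17.H740

end
end
-- ===== PACK-END S17/H740/Multislot.lean

-- ===== PACK-BEGIN S17/H290/GaussDefs.lean
section



/-!
# S17 / tower H — sub-project GAUSS (lead helper290): definitions + FROZEN leaf statements

Target: `HContract.GAUSSStatement E` (`|κ(P) − (K₀ . P)| ≤ C`, `deg K₀ = 2g − 2`,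
`κ(P) = h(pt P ∧ tn P) − 2 h(pt P)`), for the ONE embedding `E` of the wall
(`S17/H710/Wall/Defs.lean`), `K` algebraically closed and algebraic over `ℚ`.

Sorry-free (definitions only).  All `def … : Prop` are FROZEN leaf statements; the assembly
`GaussAsm.gauss_of_leaves` takes them as hypotheses.

* `ExactZero E e G Z`        : `Z` is the exact common zero divisor of the sections
                               `aeval E.x (G p)` of `O(e m ∞)`;
* `TangentFormsStatement E`  : (GG-1) forms `G_{jk}` of some degree `e ≥ 3` with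
                               `G(pt P) = c_P · (pt P ∧ tn P)`, `c_P ≠ 0`, off their exact common zero
                               divisor `Z`, and `deg Z = (e − 2) m − (2g − 2)`
                               [`ρ (x_j ∂x_k − x_k ∂x_j) = G_{jk}(x)`, local expansion, KW bridge];
* `WeilStatement E`          : (GG-2) Weil's height machine for a FIXED family of forms:
                               `h(G(pt P)) = e h(pt P) − (Z . P) + O(1)` off `Z`;
* `AvoidStatement E`         : a hyperplane section avoiding a given finite set of places;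
* `ProjNormalStatement E`    : projective normality: `L(e m ∞)` = values of forms of degree `e`;
* `CanonicalStatement K F`   : every nonzero Kähler differential has a divisor, of degree `2g − 2`
                               (= `Lib/KW` `hasCanonicalDivisor` + `degree_canonical`).

Assembly: `GaussAsm.gauss_of_leaves` (TangentForms + Weil + Avoid + E3 ⟹ GAUSS);
`TangentForms` itself is assembled by helper290 from `ProjNormal`, `Canonical`, `Wall.PtStatement`
and the local expansion (`ExpHom.lean`, `GaussLocal.lean`).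
-/

set_option autoImplicit false

noncomputable section

namespace Fermat.Agent.S17.H290

open AlgebraicCurve MvPolynomial
open Fermat.Agent.Lib.RR Fermat.Agent.S17.HWall Fermat.Agent.S17.HContract Fermat.Agent.S17.Wall

variable {K F : Type*} [Field K] [CharZero K] [Field F] [Algebra K F] [FF1 K F]

/-- `Z` is the exact common zero divisor of the sections `aeval E.x (G p)` of `O(e m ∞)`:
every nonzero section vanishes on `Z`, and at every place some section vanishes exactly to the
order `Z P`. -/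
def ExactZero (E : EmbData K F) (e : ℕ) {ι : Type*} (G : ι → MvPolynomial (Fin (E.r + 1)) K)
    (Z : Divisor K F) : Prop :=
  (∀ p, aeval E.x (G p) ≠ 0 → Z ≤ zdiv E e (G p)) ∧
  ∀ P : Place K F, ∃ p, aeval E.x (G p) ≠ 0 ∧ zdiv E e (G p) P = Z P

/-- **GG-1 (TANGENT FORMS).**  There are forms `G_p`, `p` a pair of indices, of one degree
`e ≥ 3`, with exact common zero divisor `Z ≥ 0` of degree `(e − 2) m − (2g − 2)`, such that at
every place `P ∉ Z` the vector `(G_p (pt P))_p` is a nonzero multiple of the Plücker vector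
`pt P ∧ tn P` of the tangent line.
(`G_{jk}(x) = ρ · (x_j ∂x_k − x_k ∂x_j)` for a derivation `∂ ≠ 0` of `F / K` and a suitable
`ρ ∈ Fˣ`; `Z = (e − 2) m ∞ − div(∂-differential) + div ρ`.) -/
def TangentFormsStatement (E : EmbData K F) : Prop :=
  ∃ (e : ℕ) (G : Fin (E.r + 1) × Fin (E.r + 1) → MvPolynomial (Fin (E.r + 1)) K)
    (Z : Divisor K F),
    3 ≤ e ∧ (∀ p, (G p).IsHomogeneous e) ∧ 0 ≤ Z ∧ ExactZero E e G Z ∧
    Divisor.degree Z = ((e : ℤ) - 2) * E.m - (2 * (genusR K F : ℤ) - 2) ∧
    ∀ P : Place K F, Z P = 0 →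
      ∃ c : K, c ≠ 0 ∧ ∀ p, eval (E.pt P) (G p) = c * wedge (E.pt P) (E.tn P) p

/-- **GG-2 (WEIL'S HEIGHT MACHINE for a fixed family).**  For a finite family `G` of forms of
degree `e` with exact common zero divisor `Z ≥ 0`:
`| h(G(pt P)) − e h(pt P) + (Z . P) | ≤ C` for all places `P ∉ Z`. -/
def WeilStatement (E : EmbData K F) : Prop :=
  ∀ (ι : Type) [Fintype ι] (e : ℕ) (G : ι → MvPolynomial (Fin (E.r + 1)) K) (Z : Divisor K F),
    (∀ p, (G p).IsHomogeneous e) → 0 ≤ Z → ExactZero E e G Z →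
    ∃ C : ℝ, ∀ P : Place K F, Z P = 0 →
      |ht (fun p => eval (E.pt P) (G p)) - (e : ℝ) * ht (E.pt P) + pairPt E Z P| ≤ C

/-- **AVOID.**  Some hyperplane section avoids a given finite set of places. -/
def AvoidStatement (E : EmbData K F) : Prop :=
  ∀ S : Finset (Place K F), ∃ a : Fin (E.r + 1) → K, a ≠ 0 ∧ ∀ P ∈ S, E.Z a P = 0

/-- **PN (projective normality).**  Every element of `L(e m ∞)` is the value at `E.x` of a form
of degree `e` (`L(m∞)^e = L(e m ∞)`, `Lib/RR` `L_mul_L`, `m ≥ 2g + 1`). -/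
def ProjNormalStatement (E : EmbData K F) : Prop :=
  ∀ (e : ℕ) (f : F), f ∈ riemannRochSpace ((e * E.m) • prim E.vinf) →
    ∃ G : MvPolynomial (Fin (E.r + 1)) K, G.IsHomogeneous e ∧ aeval E.x G = f

open KaehlerDifferential in
/-- **CAN (canonical divisors; = KW bridge).**  Every nonzero Kähler differential has a divisor,
and its degree is `2g − 2`. -/
def CanonicalStatement (K F : Type*) [Field K] [Field F] [Algebra K F] [FF1 K F] : Prop :=
  ∀ ω : Ω[F⁄K], ω ≠ 0 → ∃ W : Divisor K F,
    (∀ v : Place K F, W v = v.ordDifferential ω) ∧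
    Divisor.degree W = 2 * (genusR K F : ℤ) - 2

end Fermat.Agent.S17.H290

end
end
-- ===== PACK-END S17/H290/GaussDefs.lean

-- ===== PACK-BEGIN S17/H320/WHMDefs.lean
section



/-!
# S17 / tower H — GAUSS sub-project: the WEIL HEIGHT MACHINE for fixed divisors (helper320)

Definitions only (FROZEN interface).

* `ExactPole f B` : the finite family `f : ι → F` lies in `L(B)` and generates `O(B)`:
  at every place `P` all `f i` have order `≥ -B P` and some `f i` has order exactly `-B P`.
* `WHMStatement E` : for every FIXED family `f` with `ExactPole f B`, the absolute height of the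
  vector of values `(f i (P))_i` is `(B . P) + O(1)`, uniformly in all places `P` outside the
  support of `B`; here `(B . P) = pairPt E B P = Σ_A B(A) hD(A, P)` is the distance pairing of
  the contract (`S17/H17/HContract.lean`).

Route (file `WHM.lean`): no `(E3)` is needed.  Two families generating the same `O(B')` have
heights differing by `O(1)` (Nullstellensatz on the cone of the joint family, whose points are
places: `H710.exists_place_of_onCone`); compare `f ⊗ (secant products of B⁺) ⊗ (monomials)` with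
`(secant products of B⁻) ⊗ (monomials)` and use Segre + the definition of `hD`.
-/

set_option autoImplicit false

noncomputable section

open AlgebraicCurve

namespace Fermat.Agent.S17.H320

open Fermat.Agent.Lib.RR Fermat.Agent.S17.HWall Fermat.Agent.S17.HContract

variable {K F : Type*} [Field K] [CharZero K] [Field F] [Algebra K F] [FF1 K F]

/-- The family `f` lies in `L(B)` and generates `O(B)` at every place. -/
def ExactPole {ι : Type*} (f : ι → F) (B : Divisor K F) : Prop :=
  ∀ P : Place K F, (∀ i, f i = 0 ∨ -B P ≤ P.ord (f i)) ∧ ∃ i, f i ≠ 0 ∧ P.ord (f i) = -B P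

/-- **(WHM)** the Weil height machine for fixed divisors, in terms of the distance pairing. -/
def WHMStatement (E : EmbData K F) : Prop :=
  ∀ (ι : Type) [Fintype ι] (f : ι → F) (B : Divisor K F), ExactPole f B →
    ∃ C : ℝ, ∀ P : Place K F, B P = 0 →
      |ht (fun i => Fermat.Agent.S17.H230.valAt P (f i)) - pairPt E B P| ≤ C

/-- **(TAN)** input of (GAUSS): a family `w` (think `w_jk = x_j ∂x_k - x_k ∂x_j`, `∂ = d/dt`)
generating `O(2 m ∞ + W)` (`W = div (dt)`), whose values at `P` are the Plücker coordinates of the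
tangent line at `P`, for all `P ≠ ∞` outside the support of `W`. -/
def TanStatement (E : EmbData K F) (W : Divisor K F) : Prop :=
  ∃ w : Fin (E.r + 1) × Fin (E.r + 1) → F,
    ExactPole w ((2 * E.m) • prim E.vinf + W) ∧
    ∀ P : Place K F, P ≠ E.vinf → W P = 0 →
      ∃ c : K, c ≠ 0 ∧ wedge (E.pt P) (E.tn P) = fun p => c * Fermat.Agent.S17.H230.valAt P (w p)

end Fermat.Agent.S17.H320

end
end
-- ===== PACK-END S17/H320/WHMDefs.lean

-- ===== PACK-BEGIN S17/H320/WHM.lean
section





/-!
# S17 / tower H — GAUSS / WHM (helper320): the Weil height machine for fixed divisors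

`whm : MultislotStatement K → PtStatement E → WHMStatement E`.

For a FIXED finite family `f` generating `O(B)` (`ExactPole f B`) the height of the vector of
values of `f` at a place `P` outside the support of `B` is `(B . P) + O(1)`, where
`(B . P) = pairPt E B P = Σ_A B(A) hD(A, P)` is the distance pairing of the contract.
No `(E3)`, no projective normality, no Riemann–Roch.

Steps:
1. `ht_ptD_le_of_exact` (comparison of generating families): if `v : κ → F` lies in `L(B)` and
   the subfamily `v ∘ j` generates `O(B)` then `ht (ptD B v P) ≤ ht ((ptD B v P) ∘ j) + C`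
   uniformly in ALL places `P`.  [The point `ptD B v P` lies on the cone of the homogeneous
   relations of `v` (`onCone_ptD`); the coordinates `Y_{j i}` have no common zero on that cone,
   whose points are places (`H710.exists_place_of_onCone`); Nullstellensatz lower bound = wall
   leaf A3 (`Wall.MultislotStatement`, one slot, degree one).]
2. Products of generating families generate the sum of the divisors (`ExactPole.mul`,
   `ExactPole.pi`), the point of a product family is the Segre product of the points (`ptD_pi`),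
   heights add up (`ht_ptD_mul`, `ht_ptD_pi`).
3. Reference families: `E.x` generates `O(m ∞)` (`exactPole_x`), the secant forms through `A`
   generate `O(m ∞ - A)` (`exactPole_sec`), `ptD (m ∞) E.x P` is proportional to `E.pt P`
   (`ptD_x_prop`), and the point of the secant family at `P ≠ A` has height `ht (pt A ∧ pt P)`
   (`ht_ptD_sec`).
4. `whm_core`: write `B = Σ A₁ - Σ A₂`; the families
   `f ⊗ (secant products of the A₁) ⊗ (monomials of degree #α₂)` and
   `(secant products of the A₂) ⊗ (monomials of degree #α₁)` generate the same `O(B')`;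
   compare both with the joint family (step 1) and unfold `hD`.
-/

set_option autoImplicit false
set_option linter.unusedSectionVars false

noncomputable section

open AlgebraicCurve MvPolynomial

namespace Fermat.Agent.S17.H320

open Fermat.Agent.Lib.RR Fermat.Agent.S17.HWall Fermat.Agent.S17.HContract
open Fermat.Agent.S17.H230 Fermat.Agent.S17.H710 Fermat.Agent.S17.Wall

variable {K F : Type*} [Field K] [CharZero K] [Field F] [Algebra K F] [FF1 K F]

/-! ## Step 1: comparison of generating families -/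

section Cmp

theorem ExactPole.mem_L {ι : Type*} {f : ι → F} {B : Divisor K F} (h : ExactPole f B) (i : ι) :
    f i ∈ riemannRochSpace B :=
  mem_L_iff.mpr fun P => (h P).1 i

/-- The point `ptD B v P` satisfies the homogeneous relations of `v`. -/
theorem onCone_ptD {κ : Type*} (v : κ → F) (B : Divisor K F)
    (hv : ∀ k, v k ∈ riemannRochSpace B) (P : Place K F) : OnCone v (ptD B v P) := by
  intro d R hR h0
  -- the normalised family, in the valuation ring
  have hreg : ∀ k, RegAt P (v k * unif P ^ (B P)) := fun k => by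
    have := regAt_normAt (ordGE_of_mem_L hv P) k
    simpa using this
  let w : κ → P.toValuationSubring := fun k => ⟨v k * unif P ^ (B P), hreg k⟩
  have h1 : ptD B v P = fun k => valO P (w k) := by
    funext k
    rw [ptD_apply, valAt_of_mem P (hreg k)]
  rw [h1]
  have h2 : eval (fun k => valO P (w k)) R = valO P (aeval w R) := by
    rw [← MvPolynomial.aeval_eq_eval]
    have := MvPolynomial.comp_aeval (R := K) (f := w) (valO P)
    have h3 := congrArg (fun φ : MvPolynomial κ K →ₐ[K] K => φ R) this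
    simp only [AlgHom.comp_apply] at h3
    rw [h3]
  rw [h2]
  have h4 : aeval w R = 0 := by
    apply Subtype.ext
    have h5 : ((aeval w R : P.toValuationSubring) : F)
        = aeval (fun k => unif P ^ (B P) * v k) R := by
      have := MvPolynomial.map_aeval (R := K) w P.toValuationSubring.subtype R
      rw [ValuationSubring.subtype_apply] at this
      rw [this, MvPolynomial.aeval_def]
      have hc : (P.toValuationSubring.subtype.comp (algebraMap K ↥P.toValuationSubring))
          = algebraMap K F := by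
        ext c
        rfl
      have hw : (fun i => P.toValuationSubring.subtype (w i))
          = fun k => unif P ^ (B P) * v k := by
        funext k
        show v k * unif P ^ (B P) = _
        ring
      rw [hc, hw]
      rfl
    rw [h5, aeval_mul_of_isHomogeneous hR, h0, mul_zero]
    rfl
  rw [h4, map_zero]

/-- nonunits of the valuation ring of a place -/
theorem mem_nonunits_place_iff (P : Place K F) (a : F) :
    a ∈ P.toValuationSubring.nonunits ↔ a = 0 ∨ 0 < P.ord a := by
  constructor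
  · intro h
    have hmem : a ∈ P.toValuationSubring := ValuationSubring.nonunits_subset h
    have h2 : (⟨a, hmem⟩ : P.toValuationSubring) ∈ IsLocalRing.maximalIdeal P.toValuationSubring := by
      rw [IsLocalRing.mem_maximalIdeal]
      exact ValuationSubring.coe_mem_nonunits_iff.mp h
    exact (mem_maximalIdeal_iff P ⟨a, hmem⟩).mp h2
  · intro h
    have hmem : a ∈ P.toValuationSubring := by
      rcases h with h | h
      · rw [h]; exact zero_mem _
      · exact mem_of_ord_nonneg P h.le
    have h2 : (⟨a, hmem⟩ : P.toValuationSubring) ∈ IsLocalRing.maximalIdeal P.toValuationSubring :=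
      (mem_maximalIdeal_iff P ⟨a, hmem⟩).mpr h
    rw [IsLocalRing.mem_maximalIdeal] at h2
    exact ValuationSubring.coe_mem_nonunits_iff.mpr h2

/-- **Comparison of generating families.** -/
theorem ht_ptD_le_of_exact [IsAlgClosed K] [Algebra.IsAlgebraic ℚ K]
    (hA3 : MultislotStatement K)
    {κ ι : Type} [Fintype κ] [Fintype ι] (v : κ → F) (j : ι → κ) (B : Divisor K F)
    (hv : ∀ k, v k ∈ riemannRochSpace B) (hex : ExactPole (fun i => v (j i)) B) :
    ∃ C : ℝ, ∀ P : Place K F, ht (ptD B v P) ≤ ht (fun i => ptD B v P (j i)) + C := by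
  classical
  obtain ⟨t, htr, hfin⟩ := FF1.exists_finite (K := K) (F := F)
  let n := Fintype.card κ
  let e : κ ≃ Fin n := Fintype.equivFin κ
  let v' : Fin n → F := fun k => v (e.symm k)
  let rel : Set (MvPolynomial (Fin n) K) := {G | ∃ d, G.IsHomogeneous d ∧ aeval v' G = 0}
  let p : ι → MvPolynomial (Fin 1 × Fin n) K := fun i => X (0, e (j i))
  have hrel : ∀ G ∈ rel, ∃ d : ℕ, G.IsHomogeneous d := fun G hG => by
    obtain ⟨d, hd, _⟩ := hG
    exact ⟨d, hd⟩
  have hp : ∀ i, MultiHom (p i) 1 := by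
    intro i y c
    simp [p]
  have hnz : ∀ y : Fin 1 → Fin n → K, (∀ l, y l ≠ 0) →
      (∀ l, ∀ G ∈ rel, eval (y l) G = 0) →
      ∃ i, eval (fun q : Fin 1 × Fin n => y q.1 q.2) (p i) ≠ 0 := by
    intro y hy0 hyrel
    by_contra hcon
    simp only [not_exists, ne_eq, not_not] at hcon
    have hzero : ∀ i, y 0 (e (j i)) = 0 := fun i => by
      have := hcon i
      simpa [p] using this
    obtain ⟨k₀, hk₀⟩ := Function.ne_iff.mp (hy0 0)
    have hcone : OnCone v' (y 0) := fun d G hG hG0 => hyrel 0 G ⟨d, hG, hG0⟩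
    obtain ⟨hv0, P, hP⟩ := exists_place_of_onCone htr v' (y 0) hcone k₀ hk₀
    obtain ⟨i, hi0, hiord⟩ := (hex P).2
    have h1 := hP (e (j i))
    rw [hzero i, zero_div, map_zero, sub_zero] at h1
    rw [mem_nonunits_place_iff] at h1
    have hvi : v' (e (j i)) = v (j i) := by simp [v']
    rw [hvi] at h1
    rcases h1 with h1 | h1
    · rcases div_eq_zero_iff.mp h1 with h | h
      · exact hi0 h
      · exact hv0 h
    · rw [div_eq_mul_inv, P.ord_mul hi0 (inv_ne_zero hv0), P.ord_inv, hiord] at h1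
      have h2 := (mem_L_iff.mp (hv (e.symm k₀)) P).resolve_left hv0
      have h3 : v' k₀ = v (e.symm k₀) := rfl
      rw [h3] at h1
      omega
  obtain ⟨C, hC⟩ := hA3 n 1 ι rel hrel p 1 hp hnz
  refine ⟨C, fun P => ?_⟩
  have hne : ptD B v P ≠ 0 := by
    obtain ⟨i, hi0, hiord⟩ := (hex P).2
    exact ptD_ne_zero ⟨j i, hi0, hiord⟩
  have hne' : (fun k : Fin n => ptD B v P (e.symm k)) ≠ 0 := by
    intro h0
    apply hne
    funext k
    have := congrFun h0 (e k)
    simpa using this
  have hcone' : OnCone v' (fun k : Fin n => ptD B v P (e.symm k)) :=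
    onCone_ptD v' B (fun k => hv (e.symm k)) P
  have h := hC (fun _ => fun k : Fin n => ptD B v P (e.symm k)) (fun _ => hne')
    (fun _ G hG => by
      obtain ⟨d, hd, hd0⟩ := hG
      exact hcone' d G hd hd0)
  simp only [Nat.cast_one, one_mul, Finset.univ_unique, Finset.sum_singleton] at h
  have h5 : ht (fun k : Fin n => ptD B v P (e.symm k)) = ht (ptD B v P) :=
    H380.absLogHeight_comp_equiv e.symm (ptD B v P)
  have h6 : (fun i => eval (fun q : Fin 1 × Fin n => ptD B v P (e.symm q.2)) (p i))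
      = fun i => ptD B v P (j i) := by
    funext i
    simp [p]
  rw [h5, h6] at h
  exact h

end Cmp

/-! ## Step 2: products of generating families -/

section Fam

theorem isIntegral_all [Algebra.IsAlgebraic ℚ K] (c : K) : IsIntegral ℚ c :=
  (Algebra.IsAlgebraic.isAlgebraic c).isIntegral

theorem ord_prod_ne_zero (P : Place K F) {α : Type*} (s : Finset α) (f : α → F)
    (h : ∀ a ∈ s, f a ≠ 0) : P.ord (∏ a ∈ s, f a) = ∑ a ∈ s, P.ord (f a) := by
  classical
  induction s using Finset.induction_on with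
  | empty => simp [P.ord_one]
  | insert a s ha ih =>
    have h1 : ∀ b ∈ s, f b ≠ 0 := fun b hb => h b (Finset.mem_insert_of_mem hb)
    have h2 : ∏ b ∈ s, f b ≠ 0 := Finset.prod_ne_zero_iff.mpr h1
    rw [Finset.prod_insert ha, Finset.sum_insert ha,
      P.ord_mul (h a (Finset.mem_insert_self a s)) h2, ih h1]

theorem ExactPole.mul {ι ι' : Type*} {f : ι → F} {g : ι' → F} {B B' : Divisor K F}
    (hf : ExactPole f B) (hg : ExactPole g B') :
    ExactPole (fun p : ι × ι' => f p.1 * g p.2) (B + B') := by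
  intro P
  refine ⟨fun p => ?_, ?_⟩
  · rcases eq_or_ne (f p.1) 0 with h1 | h1
    · left; simp [h1]
    rcases eq_or_ne (g p.2) 0 with h2 | h2
    · left; simp [h2]
    right
    have h3 := ((hf P).1 p.1).resolve_left h1
    have h4 := ((hg P).1 p.2).resolve_left h2
    rw [P.ord_mul h1 h2, Finsupp.add_apply]
    omega
  · obtain ⟨i, hi0, hi⟩ := (hf P).2
    obtain ⟨j, hj0, hj⟩ := (hg P).2
    refine ⟨(i, j), mul_ne_zero hi0 hj0, ?_⟩
    show P.ord (f i * g j) = _
    rw [P.ord_mul hi0 hj0, Finsupp.add_apply]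
    omega

theorem ExactPole.pi {α : Type*} [Fintype α] {ι : α → Type*} {f : (a : α) → ι a → F}
    {D : α → Divisor K F} (h : ∀ a, ExactPole (f a) (D a)) :
    ExactPole (fun s : (a : α) → ι a => ∏ a, f a (s a)) (∑ a, D a) := by
  classical
  intro P
  have hD : (∑ a, D a) P = ∑ a, D a P := by
    rw [Finsupp.finsetSum_apply]
  refine ⟨fun s => ?_, ?_⟩
  · by_cases h0 : ∀ a, f a (s a) ≠ 0
    · right
      rw [ord_prod_ne_zero P _ _ (fun a _ => h0 a), hD, ← Finset.sum_neg_distrib]
      exact Finset.sum_le_sum fun a _ => ((h a P).1 (s a)).resolve_left (h0 a)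
    · left
      simp only [not_forall, not_not] at h0
      obtain ⟨a, ha⟩ := h0
      exact Finset.prod_eq_zero (Finset.mem_univ a) ha
  · choose s hs0 hs using fun a => (h a P).2
    refine ⟨s, Finset.prod_ne_zero_iff.mpr fun a _ => hs0 a, ?_⟩
    show P.ord (∏ a, f a (s a)) = _
    rw [ord_prod_ne_zero P _ _ (fun a _ => hs0 a), hD, ← Finset.sum_neg_distrib]
    exact Finset.sum_congr rfl fun a _ => hs a

/-- the point of a product family is the Segre product of the points -/
theorem ptD_pi {α : Type*} [Fintype α] {ι : α → Type*} {f : (a : α) → ι a → F}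
    {D : α → Divisor K F} (h : ∀ a i, f a i ∈ riemannRochSpace (D a)) (P : Place K F)
    (s : (a : α) → ι a) :
    ptD (∑ a, D a) (fun s : (a : α) → ι a => ∏ a, f a (s a)) P s
      = ∏ a, ptD (D a) (f a) P (s a) := by
  classical
  have hD : (∑ a, D a) P = ∑ a, D a P := by
    rw [Finsupp.finsetSum_apply]
  have hreg : ∀ a, RegAt P (f a (s a) * unif P ^ (D a P)) := fun a => by
    have := regAt_normAt (ordGE_of_mem_L (h a) P) (s a)
    simpa using this
  rw [ptD_apply]
  simp only [ptD_apply]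
  rw [← valAt_prod Finset.univ (fun a _ => hreg a)]
  congr 1
  rw [Finset.prod_mul_distrib, hD]
  congr 1
  have hu := unif_ne_zero P
  induction (Finset.univ : Finset α) using Finset.induction_on with
  | empty => simp
  | insert a t ha ih =>
    rw [Finset.sum_insert ha, Finset.prod_insert ha, zpow_add₀ hu, ih]

theorem ptD_mul' {ι ι' : Type*} {f : ι → F} {g : ι' → F} {B B' : Divisor K F}
    (hf : ∀ i, f i ∈ riemannRochSpace B) (hg : ∀ j, g j ∈ riemannRochSpace B') (P : Place K F) :
    ptD (B + B') (fun p : ι × ι' => f p.1 * g p.2) P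
      = fun p : ι × ι' => ptD B f P p.1 * ptD B' g P p.2 := by
  funext p
  exact ptD_mul hf hg P p.1 p.2

variable [Algebra.IsAlgebraic ℚ K]

theorem ht_ptD_mul {ι ι' : Type*} [Finite ι] [Finite ι'] {f : ι → F} {g : ι' → F}
    {B B' : Divisor K F} (hf : ExactPole f B) (hg : ExactPole g B') (P : Place K F) :
    ht (ptD (B + B') (fun p : ι × ι' => f p.1 * g p.2) P)
      = ht (ptD B f P) + ht (ptD B' g P) := by
  rw [ptD_mul' hf.mem_L hg.mem_L]
  exact H380.absLogHeight_fun_mul_eq (fun _ => isIntegral_all _) (fun _ => isIntegral_all _)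
    (ptD_ne_zero (hf P).2) (ptD_ne_zero (hg P).2)

theorem ht_ptD_pi {α : Type*} [Fintype α] {ι : α → Type*} [∀ a, Finite (ι a)]
    {f : (a : α) → ι a → F} {D : α → Divisor K F} (h : ∀ a, ExactPole (f a) (D a))
    (P : Place K F) :
    ht (ptD (∑ a, D a) (fun s : (a : α) → ι a => ∏ a, f a (s a)) P)
      = ∑ a, ht (ptD (D a) (f a) P) := by
  have h1 : ptD (∑ a, D a) (fun s : (a : α) → ι a => ∏ a, f a (s a)) P
      = fun s : (a : α) → ι a => ∏ a, ptD (D a) (f a) P (s a) := by
    funext s
    exact ptD_pi (fun a => (h a).mem_L) P s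
  rw [h1]
  exact H380.absLogHeight_fun_prod_eq (fun _ _ => isIntegral_all _)
    (fun a => ptD_ne_zero (h a P).2)

end Fam

/-! ## Step 3: the reference families -/

section Loc

/-- coefficient vector of the secant form `z ↦ (y ∧ z)_p` -/
def secVec {n : ℕ} (y : Fin n → K) (p : Fin n × Fin n) : Fin n → K :=
  Pi.single p.2 (y p.1) - Pi.single p.1 (y p.2)

theorem dot_secVec {n : ℕ} (y z : Fin n → K) (p : Fin n × Fin n) :
    dot (secVec y p) z = wedge y z p := by
  simp [secVec, wedge, dot, sub_dotProduct, single_dotProduct]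

/-- the secant forms through `A`, as functions -/
def secFam (E : EmbData K F) (A : Place K F) : Fin (E.r + 1) × Fin (E.r + 1) → F :=
  fun p => lin E.x (secVec (E.pt A) p)

theorem lin_single (E : EmbData K F) (i : Fin (E.r + 1)) :
    lin E.x (Pi.single i (1 : K)) = E.x i := by
  classical
  unfold lin
  rw [Finset.sum_eq_single i]
  · simp
  · intro j _ hj
    simp [hj]
  · intro h
    exact absurd (Finset.mem_univ i) h

theorem x_mem_L (E : EmbData K F) (i : Fin (E.r + 1)) :
    E.x i ∈ riemannRochSpace (E.m • prim E.vinf) := by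
  rw [← E.x_span]
  exact Submodule.subset_span ⟨i, rfl⟩

theorem Z_eq_zero_of_dot_ne (E : EmbData K F) {a : Fin (E.r + 1) → K} {P : Place K F}
    (h : dot a (E.pt P) ≠ 0) : a ≠ 0 ∧ E.Z a P = 0 := by
  have ha : a ≠ 0 := by
    rintro rfl
    exact h (by simp [dot])
  refine ⟨ha, ?_⟩
  have h1 := (E.pt_spec P a ha).not.mp h
  have h2 : 0 ≤ E.Z a P := by
    have := E.Z_nonneg a
    rw [Finsupp.le_def] at this
    simpa using this P
  have h3 : E.Z a P = hypDiv E.vinf E.m E.x a P := rfl
  omega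

theorem exactPole_x (E : EmbData K F) (hpt : ∀ P : Place K F, E.pt P ≠ 0) :
    ExactPole E.x (E.m • prim E.vinf) := by
  classical
  intro P
  refine ⟨fun i => (mem_L_iff.mp (x_mem_L E i)) P, ?_⟩
  obtain ⟨i, hi⟩ := Function.ne_iff.mp (hpt P)
  have hdot : dot (Pi.single i (1 : K)) (E.pt P) ≠ 0 := by
    simpa [dot, single_dotProduct] using hi
  obtain ⟨ha, hZ⟩ := Z_eq_zero_of_dot_ne E hdot
  rw [E.Z_apply ha P, lin_single] at hZ
  have hx0 : E.x i ≠ 0 := by
    have := E.lin_ne_zero ha
    rwa [lin_single] at this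
  exact ⟨i, hx0, by omega⟩

theorem exactPole_sec (E : EmbData K F) (hPt : PtStatement E) (A : Place K F) :
    ExactPole (secFam E A) (E.m • prim E.vinf - prim A) := by
  classical
  intro P
  have hsub : (E.m • prim E.vinf - prim A : Divisor K F) P
      = (E.m • prim E.vinf : Divisor K F) P - (if P = A then 1 else 0) := by
    rw [Finsupp.sub_apply]
    congr 1
    by_cases h : P = A
    · subst h; simp [prim]
    · simp [prim, h]
  refine ⟨fun p => ?_, ?_⟩
  · by_cases ha : secVec (E.pt A) p = 0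
    · left
      show lin E.x (secVec (E.pt A) p) = 0
      rw [ha]; simp [lin]
    · right
      have hZ := E.Z_apply ha P
      have hZ0 : 0 ≤ E.Z (secVec (E.pt A) p) P := by
        have := E.Z_nonneg (secVec (E.pt A) p)
        rw [Finsupp.le_def] at this
        simpa using this P
      show -(E.m • prim E.vinf - prim A : Divisor K F) P ≤ P.ord (lin E.x (secVec (E.pt A) p))
      rw [hsub]
      by_cases hPA : P = A
      · subst hPA
        have h1 : dot (secVec (E.pt P) p) (E.pt P) = 0 := by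
          rw [dot_secVec]; simp [wedge, mul_comm]
        have h2 : 0 < E.Z (secVec (E.pt P) p) P := (E.pt_spec P _ ha).mp h1
        simp only [if_true]
        omega
      · simp only [hPA, if_false]
        omega
  · by_cases hPA : P = A
    · subst hPA
      obtain ⟨p, hp⟩ := Function.ne_iff.mp (hPt.2.2.2 P)
      have hp' : wedge (E.pt P) (E.tn P) p ≠ 0 := by simpa using hp
      have hdot : dot (secVec (E.pt P) p) (E.tn P) ≠ 0 := by rwa [dot_secVec]
      have ha : secVec (E.pt P) p ≠ 0 := by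
        intro h0
        apply hdot
        rw [h0]; simp [dot]
      have h1 : dot (secVec (E.pt P) p) (E.pt P) = 0 := by
        rw [dot_secVec]; simp [wedge, mul_comm]
      have h2 : 0 < E.Z (secVec (E.pt P) p) P := (E.pt_spec P _ ha).mp h1
      have h3 : ¬ 2 ≤ E.Z (secVec (E.pt P) p) P := fun h =>
        hdot ((E.tn_spec P _ ha).mpr h).2
      have hZ := E.Z_apply ha P
      refine ⟨p, E.lin_ne_zero ha, ?_⟩
      show P.ord (lin E.x (secVec (E.pt P) p)) = _
      rw [hsub]
      simp only [if_true]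
      omega
    · obtain ⟨p, hp⟩ := Function.ne_iff.mp (hPt.2.2.1 A P (Ne.symm hPA))
      have hp' : wedge (E.pt A) (E.pt P) p ≠ 0 := by simpa using hp
      have hdot : dot (secVec (E.pt A) p) (E.pt P) ≠ 0 := by rwa [dot_secVec]
      obtain ⟨ha, hZ0⟩ := Z_eq_zero_of_dot_ne E hdot
      have hZ := E.Z_apply ha P
      refine ⟨p, E.lin_ne_zero ha, ?_⟩
      show P.ord (lin E.x (secVec (E.pt A) p)) = _
      rw [hsub]
      simp only [hPA, if_false]
      omega

/-- two nonzero vectors with the same orthogonal linear forms are proportional -/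
theorem exists_smul_of_same_ann {n : ℕ} (y z : Fin n → K) (hy : y ≠ 0) (hz : z ≠ 0)
    (h : ∀ a : Fin n → K, a ≠ 0 → (dot a y = 0 ↔ dot a z = 0)) :
    ∃ c : K, c ≠ 0 ∧ y = c • z := by
  classical
  obtain ⟨k, hk⟩ := Function.ne_iff.mp hz
  have hk' : z k ≠ 0 := by simpa using hk
  have key : ∀ i, z k * y i = z i * y k := by
    intro i
    by_cases hik : i = k
    · subst hik; ring
    have ha : secVec z (k, i) ≠ 0 := by
      intro h0
      have := congrFun h0 i
      simp [secVec, hik] at this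
      exact hk' this
    have h1 : dot (secVec z (k, i)) z = 0 := by
      rw [dot_secVec]; simp [wedge, mul_comm]
    have h2 := (h _ ha).mpr h1
    rw [dot_secVec] at h2
    simp only [wedge] at h2
    linear_combination h2
  have hyk : y k ≠ 0 := by
    intro h0
    apply hy
    funext i
    have := key i
    rw [h0, mul_zero] at this
    rcases mul_eq_zero.mp this with h | h
    · exact absurd h hk'
    · simpa using h
  refine ⟨y k / z k, div_ne_zero hyk hk', ?_⟩
  funext i
  have := key i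
  simp only [Pi.smul_apply, smul_eq_mul]
  field_simp
  linear_combination this

theorem ptD_x_prop (E : EmbData K F) (hpt : ∀ P : Place K F, E.pt P ≠ 0) (P : Place K F) :
    ∃ c : K, c ≠ 0 ∧ ptD (E.m • prim E.vinf) E.x P = c • E.pt P := by
  refine exists_smul_of_same_ann _ _ (ptD_ne_zero ((exactPole_x E hpt) P).2) (hpt P)
    fun a ha => ?_
  have h1 := dot_ptD_eq_zero_iff (x_mem_L E) P a
  have hf : (∑ i, a i • E.x i) ∈ riemannRochSpace (E.m • prim E.vinf) :=
    Submodule.sum_mem _ fun i _ => Submodule.smul_mem _ _ (x_mem_L E i)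
  have h2 := mem_L_sub_prim_iff hf P
  have h3 := E.pt_spec P a ha
  have h4 := E.Z_apply ha P
  have h5 : E.Z a P = hypDiv E.vinf E.m E.x a P := rfl
  have h6 : lin E.x a = ∑ i, a i • E.x i := rfl
  have h7 := E.lin_ne_zero ha
  show (∑ i, a i * ptD (E.m • prim E.vinf) E.x P i = 0) ↔ _
  rw [h1, h2, h3, ← h5, h4, ← h6]
  constructor
  · rintro (h | h)
    · exact absurd h h7
    · omega
  · intro h
    right
    omega

theorem ptD_sec (E : EmbData K F) (A P : Place K F) (hPA : P ≠ A) :
    ptD (E.m • prim E.vinf - prim A) (secFam E A) P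
      = wedge (E.pt A) (ptD (E.m • prim E.vinf) E.x P) := by
  classical
  funext p
  have hsub : (E.m • prim E.vinf - prim A : Divisor K F) P
      = (E.m • prim E.vinf : Divisor K F) P := by
    rw [Finsupp.sub_apply]
    simp [prim, hPA]
  rw [ptD_apply, hsub, ← dot_secVec]
  have := dot_ptD (x_mem_L E) P (secVec (E.pt A) p)
  show _ = ∑ i, secVec (E.pt A) p i * ptD (E.m • prim E.vinf) E.x P i
  rw [this]
  rfl

variable [Algebra.IsAlgebraic ℚ K]

theorem ht_ptD_x (E : EmbData K F) (hpt : ∀ P : Place K F, E.pt P ≠ 0) (P : Place K F) :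
    ht (ptD (E.m • prim E.vinf) E.x P) = ht (E.pt P) := by
  obtain ⟨c, hc, h⟩ := ptD_x_prop E hpt P
  rw [h]
  exact H380.absLogHeight_smul _ (fun _ => isIntegral_all _) hc (isIntegral_all _)

theorem ht_ptD_sec (E : EmbData K F) (hpt : ∀ P : Place K F, E.pt P ≠ 0) (A P : Place K F)
    (hPA : P ≠ A) :
    ht (ptD (E.m • prim E.vinf - prim A) (secFam E A) P) = ht (wedge (E.pt A) (E.pt P)) := by
  obtain ⟨c, hc, h⟩ := ptD_x_prop E hpt P
  rw [ptD_sec E A P hPA, h]
  have h1 : wedge (E.pt A) (c • E.pt P) = c • wedge (E.pt A) (E.pt P) := by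
    funext p
    simp only [wedge, Pi.smul_apply, smul_eq_mul]
    ring
  rw [h1]
  exact H380.absLogHeight_smul _ (fun _ => isIntegral_all _) hc (isIntegral_all _)

end Loc

/-! ## Step 4: the machine -/

section Main

/-! ### The pairing is additive -/

/-- the pairing with a fixed point as an additive map -/
def pairPtHom (E : EmbData K F) (P : Place K F) : Divisor K F →+ ℝ :=
  Finsupp.liftAddHom fun A => (AddMonoidHom.mulRight (hD E A P)).comp (Int.castAddHom ℝ)

theorem pairPtHom_apply (E : EmbData K F) (P : Place K F) (D : Divisor K F) :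
    pairPtHom E P D = pairPt E D P := by
  unfold pairPtHom pairPt
  rw [Finsupp.liftAddHom_apply]
  rfl

theorem pairPt_prim (E : EmbData K F) (A P : Place K F) : pairPt E (prim A) P = hD E A P := by
  unfold pairPt prim
  rw [Finsupp.sum_single_index] <;> simp

theorem pairPt_decomp (E : EmbData K F) {α₁ α₂ : Type*} [Fintype α₁] [Fintype α₂]
    (A₁ : α₁ → Place K F) (A₂ : α₂ → Place K F) (P : Place K F) :
    pairPt E (∑ a, prim (A₁ a) - ∑ a, prim (A₂ a)) P
      = ∑ a, hD E (A₁ a) P - ∑ a, hD E (A₂ a) P := by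
  rw [← pairPtHom_apply, map_sub, map_sum, map_sum]
  simp only [pairPtHom_apply, pairPt_prim]

/-! ### Decomposition of a divisor -/

theorem exists_decomp (B : Divisor K F) :
    ∃ (z₁ z₂ : ℕ) (A₁ : Fin z₁ → Place K F) (A₂ : Fin z₂ → Place K F),
      B = ∑ a, prim (A₁ a) - ∑ a, prim (A₂ a) := by
  classical
  induction B using Finsupp.induction_linear with
  | zero => exact ⟨0, 0, Fin.elim0, Fin.elim0, by simp⟩
  | add B B' hB hB' =>
    obtain ⟨z₁, z₂, A₁, A₂, h⟩ := hB
    obtain ⟨z₁', z₂', A₁', A₂', h'⟩ := hB'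
    refine ⟨z₁ + z₁', z₂ + z₂', Fin.append A₁ A₁', Fin.append A₂ A₂', ?_⟩
    rw [Fin.sum_univ_add, Fin.sum_univ_add]
    simp only [Fin.append_left, Fin.append_right]
    rw [h, h']
    abel
  | single A n =>
    rcases le_total 0 n with hn | hn
    · refine ⟨n.toNat, 0, fun _ => A, Fin.elim0, ?_⟩
      simp only [Finset.sum_const, Finset.card_univ, Fintype.card_fin, Finset.univ_eq_empty,
        Finset.sum_empty, sub_zero]
      unfold prim
      rw [Finsupp.smul_single, nsmul_eq_mul, mul_one]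
      congr 1
      exact (Int.toNat_of_nonneg hn).symm
    · refine ⟨0, (-n).toNat, Fin.elim0, fun _ => A, ?_⟩
      simp only [Finset.sum_const, Finset.card_univ, Fintype.card_fin, Finset.univ_eq_empty,
        Finset.sum_empty, zero_sub]
      unfold prim
      rw [Finsupp.smul_single, nsmul_eq_mul, mul_one, ← Finsupp.single_neg]
      congr 1
      have := Int.toNat_of_nonneg (neg_nonneg.mpr hn)
      omega

/-! ### The core comparison -/

variable [IsAlgClosed K] [Algebra.IsAlgebraic ℚ K]

theorem whm_core (E : EmbData K F) (hA3 : MultislotStatement K) (hPt : PtStatement E)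
    {ι α₁ α₂ : Type} [Fintype ι] [Fintype α₁] [Fintype α₂]
    (f : ι → F) (B : Divisor K F) (hf : ExactPole f B)
    (A₁ : α₁ → Place K F) (A₂ : α₂ → Place K F)
    (hB : B = ∑ a, prim (A₁ a) - ∑ a, prim (A₂ a)) :
    ∃ C : ℝ, ∀ P : Place K F, (∀ a, P ≠ A₁ a) → (∀ a, P ≠ A₂ a) →
      |ht (ptD B f P) - (∑ a, hD E (A₁ a) P - ∑ a, hD E (A₂ a) P)| ≤ C := by
  classical
  have hpt := hPt.1
  set M : Divisor K F := E.m • prim E.vinf with hM
  -- the families
  let s₁ : (α₁ → Fin (E.r + 1) × Fin (E.r + 1)) → F := fun s => ∏ a, secFam E (A₁ a) (s a)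
  let s₂ : (α₂ → Fin (E.r + 1) × Fin (E.r + 1)) → F := fun s => ∏ a, secFam E (A₂ a) (s a)
  let m₁ : (α₁ → Fin (E.r + 1)) → F := fun c => ∏ a, E.x (c a)
  let m₂ : (α₂ → Fin (E.r + 1)) → F := fun c => ∏ a, E.x (c a)
  have hs₁ : ExactPole s₁ (∑ a, (M - prim (A₁ a))) :=
    ExactPole.pi fun a => exactPole_sec E hPt (A₁ a)
  have hs₂ : ExactPole s₂ (∑ a, (M - prim (A₂ a))) :=
    ExactPole.pi fun a => exactPole_sec E hPt (A₂ a)
  have hm₁ : ExactPole m₁ (∑ _a : α₁, M) := ExactPole.pi fun _ => exactPole_x E hpt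
  have hm₂ : ExactPole m₂ (∑ _a : α₂, M) := ExactPole.pi fun _ => exactPole_x E hpt
  let g₁ : (α₁ → Fin (E.r + 1) × Fin (E.r + 1)) × (α₂ → Fin (E.r + 1)) → F :=
    fun p => s₁ p.1 * m₂ p.2
  have hg₁ : ExactPole g₁ (∑ a, (M - prim (A₁ a)) + ∑ _a : α₂, M) := hs₁.mul hm₂
  let v₁ : ι × ((α₁ → Fin (E.r + 1) × Fin (E.r + 1)) × (α₂ → Fin (E.r + 1))) → F :=
    fun q => f q.1 * g₁ q.2
  have hv₁₀ : ExactPole v₁ (B + (∑ a, (M - prim (A₁ a)) + ∑ _a : α₂, M)) := hf.mul hg₁
  let v₂ : (α₂ → Fin (E.r + 1) × Fin (E.r + 1)) × (α₁ → Fin (E.r + 1)) → F :=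
    fun p => s₂ p.1 * m₁ p.2
  have hv₂ : ExactPole v₂ (∑ a, (M - prim (A₂ a)) + ∑ _a : α₁, M) := hs₂.mul hm₁
  have hBB : B + (∑ a, (M - prim (A₁ a)) + ∑ _a : α₂, M)
      = ∑ a, (M - prim (A₂ a)) + ∑ _a : α₁, M := by
    rw [hB]
    simp only [Finset.sum_sub_distrib]
    abel
  -- heights of the two blocks
  have H₁ : ∀ P : Place K F, (∀ a, P ≠ A₁ a) →
      ht (ptD (∑ a, (M - prim (A₂ a)) + ∑ _a : α₁, M) v₁ P)
        = ht (ptD B f P) + (∑ a, ht (wedge (E.pt (A₁ a)) (E.pt P))
          + (Fintype.card α₂ : ℝ) * ht (E.pt P)) := by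
    intro P hP
    rw [← hBB, ht_ptD_mul hf hg₁ P, ht_ptD_mul hs₁ hm₂ P,
      ht_ptD_pi (fun a => exactPole_sec E hPt (A₁ a)) P,
      ht_ptD_pi (fun _ : α₂ => exactPole_x E hpt) P]
    congr 2
    · exact Finset.sum_congr rfl fun a _ => ht_ptD_sec E hpt (A₁ a) P (hP a)
    · rw [Finset.sum_const, ht_ptD_x E hpt P, Finset.card_univ, nsmul_eq_mul]
  have H₂ : ∀ P : Place K F, (∀ a, P ≠ A₂ a) →
      ht (ptD (∑ a, (M - prim (A₂ a)) + ∑ _a : α₁, M) v₂ P)
        = ∑ a, ht (wedge (E.pt (A₂ a)) (E.pt P)) + (Fintype.card α₁ : ℝ) * ht (E.pt P) := by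
    intro P hP
    rw [ht_ptD_mul hs₂ hm₁ P,
      ht_ptD_pi (fun a => exactPole_sec E hPt (A₂ a)) P,
      ht_ptD_pi (fun _ : α₁ => exactPole_x E hpt) P]
    congr 1
    · exact Finset.sum_congr rfl fun a _ => ht_ptD_sec E hpt (A₂ a) P (hP a)
    · rw [Finset.sum_const, ht_ptD_x E hpt P, Finset.card_univ, nsmul_eq_mul]
  have hv₁ : ExactPole v₁ (∑ a, (M - prim (A₂ a)) + ∑ _a : α₁, M) := hBB ▸ hv₁₀
  -- the joint family
  set B' : Divisor K F := ∑ a, (M - prim (A₂ a)) + ∑ _a : α₁, M with hB'
  let v : (ι × ((α₁ → Fin (E.r + 1) × Fin (E.r + 1)) × (α₂ → Fin (E.r + 1)))) ⊕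
      ((α₂ → Fin (E.r + 1) × Fin (E.r + 1)) × (α₁ → Fin (E.r + 1))) → F := Sum.elim v₁ v₂
  have hvL : ∀ k, v k ∈ riemannRochSpace B' := by
    rintro (k | k)
    · exact hv₁.mem_L k
    · exact hv₂.mem_L k
  obtain ⟨C₁, hC₁⟩ := ht_ptD_le_of_exact hA3 v Sum.inl B' hvL hv₁
  obtain ⟨C₂, hC₂⟩ := ht_ptD_le_of_exact hA3 v Sum.inr B' hvL hv₂
  refine ⟨max C₁ C₂ + |∑ a, ht (E.pt (A₂ a)) - ∑ a, ht (E.pt (A₁ a))|, fun P hP₁ hP₂ => ?_⟩
  have h1 : ht (ptD B' v P) ≤ ht (ptD B' v₁ P) + C₁ := hC₁ P
  have h2 : ht (ptD B' v P) ≤ ht (ptD B' v₂ P) + C₂ := hC₂ P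
  have h3 : ht (ptD B' v₁ P) ≤ ht (ptD B' v P) :=
    H380.absLogHeight_comp_le Sum.inl (ptD B' v P) (fun _ => isIntegral_all _)
  have h4 : ht (ptD B' v₂ P) ≤ ht (ptD B' v P) :=
    H380.absLogHeight_comp_le Sum.inr (ptD B' v P) (fun _ => isIntegral_all _)
  have e1 := H₁ P hP₁
  have e2 := H₂ P hP₂
  have hD₁ : ∑ a, hD E (A₁ a) P = ∑ a, ht (E.pt (A₁ a)) + (Fintype.card α₁ : ℝ) * ht (E.pt P)
      - ∑ a, ht (wedge (E.pt (A₁ a)) (E.pt P)) := by
    simp only [hD, Finset.sum_sub_distrib, Finset.sum_add_distrib, Finset.sum_const,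
      Finset.card_univ, nsmul_eq_mul]
  have hD₂ : ∑ a, hD E (A₂ a) P = ∑ a, ht (E.pt (A₂ a)) + (Fintype.card α₂ : ℝ) * ht (E.pt P)
      - ∑ a, ht (wedge (E.pt (A₂ a)) (E.pt P)) := by
    simp only [hD, Finset.sum_sub_distrib, Finset.sum_add_distrib, Finset.sum_const,
      Finset.card_univ, nsmul_eq_mul]
  rw [hD₁, hD₂]
  have hmax₁ := le_max_left C₁ C₂
  have hmax₂ := le_max_right C₁ C₂
  have habs := abs_le.mp (le_refl |∑ a, ht (E.pt (A₂ a)) - ∑ a, ht (E.pt (A₁ a))|)
  rw [abs_le]
  constructor <;> linarith [habs.1, habs.2]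

/-- **(WHM)** the Weil height machine for fixed divisors. -/
theorem whm (E : EmbData K F) (hA3 : MultislotStatement K) (hPt : PtStatement E) :
    WHMStatement E := by
  classical
  intro ι _ f B hf
  obtain ⟨z₁, z₂, A₁, A₂, hB⟩ := exists_decomp B
  obtain ⟨C, hC⟩ := whm_core E hA3 hPt f B hf A₁ A₂ hB
  -- the finitely many exceptional places
  let S : Finset (Place K F) := Finset.univ.image A₁ ∪ Finset.univ.image A₂
  let g : Place K F → ℝ := fun P => |ht (fun i => valAt P (f i)) - pairPt E B P|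
  refine ⟨max C 0 + ∑ P ∈ S, g P, fun P hP => ?_⟩
  have hsum : 0 ≤ ∑ Q ∈ S, g Q := Finset.sum_nonneg fun Q _ => abs_nonneg _
  by_cases hPS : P ∈ S
  · have h1 : g P ≤ ∑ Q ∈ S, g Q := Finset.single_le_sum (fun Q _ => abs_nonneg _) hPS
    have h2 := le_max_right C 0
    show g P ≤ _
    linarith
  · have hP₁ : ∀ a, P ≠ A₁ a := fun a h =>
      hPS (Finset.mem_union_left _ (Finset.mem_image.mpr ⟨a, Finset.mem_univ a, h.symm⟩))
    have hP₂ : ∀ a, P ≠ A₂ a := fun a h =>
      hPS (Finset.mem_union_right _ (Finset.mem_image.mpr ⟨a, Finset.mem_univ a, h.symm⟩))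
    have h := hC P hP₁ hP₂
    have hval : (fun i => valAt P (f i)) = ptD B f P := by
      funext i
      rw [ptD_apply, hP, zpow_zero, mul_one]
    have hpair : pairPt E B P = ∑ a, hD E (A₁ a) P - ∑ a, hD E (A₂ a) P := by
      rw [hB]
      exact pairPt_decomp E A₁ A₂ P
    rw [hval, hpair]
    have h2 := le_max_left C 0
    linarith

end Main

/-! ## (GAUSS) from the machine

`gaussFor_of_whm` : `WHMStatement E → TanStatement E W → ∃ C, ∀ P, W P = 0 → |κ(P) - (W . P)| ≤ C`
for EVERY divisor `W` for which the tangent family exists (think `W = div (dt)`);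
`gauss_of_whm` : the contract statement `HContract.GAUSSStatement E` once `deg W = 2 g - 2`.
Proof: (WHM) for the tangent family (`B = 2 m ∞ + W`) and for the basis `E.x` (`B = m ∞`); the
single place `∞` is absorbed in the constant. -/

section Gauss

variable [Algebra.IsAlgebraic ℚ K]

theorem gaussFor_of_whm (E : EmbData K F) (hpt : ∀ P : Place K F, E.pt P ≠ 0)
    (hW : WHMStatement E) (W : Divisor K F) (hT : TanStatement E W) :
    ∃ C : ℝ, ∀ P : Place K F, W P = 0 → |kap E P - pairPt E W P| ≤ C := by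
  classical
  obtain ⟨w, hw, htan⟩ := hT
  obtain ⟨C₁, hC₁⟩ := hW _ w _ hw
  obtain ⟨C₂, hC₂⟩ := hW _ E.x _ (exactPole_x E hpt)
  refine ⟨max (C₁ + 2 * C₂) 0 + |kap E E.vinf - pairPt E W E.vinf|, fun P hP => ?_⟩
  have habs0 := abs_nonneg (kap E E.vinf - pairPt E W E.vinf)
  by_cases hPinf : P = E.vinf
  · subst hPinf
    have := le_max_right (C₁ + 2 * C₂) 0
    linarith
  have hm0 : (E.m • prim E.vinf : Divisor K F) P = 0 := by
    simp [prim, Ne.symm hPinf]
  have h2m0 : ((2 * E.m) • prim E.vinf + W : Divisor K F) P = 0 := by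
    rw [Finsupp.add_apply, hP]
    simp [prim, Ne.symm hPinf]
  have h1 := hC₁ P h2m0
  have h2 := hC₂ P hm0
  -- the tangent vector
  obtain ⟨c, hc, hwed⟩ := htan P hPinf hP
  have e1 : ht (wedge (E.pt P) (E.tn P)) = ht (fun p => valAt P (w p)) := by
    rw [hwed]
    exact H380.absLogHeight_smul (fun p => valAt P (w p)) (fun _ => isIntegral_all _) hc
      (isIntegral_all _)
  -- the point
  have e2 : ht (fun i => valAt P (E.x i)) = ht (E.pt P) := by
    rw [← ht_ptD_x E hpt P]
    congr 1
    funext i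
    rw [ptD_apply, hm0, zpow_zero, mul_one]
  -- the pairing
  have e3 : pairPt E ((2 * E.m) • prim E.vinf + W) P
      = 2 * pairPt E (E.m • prim E.vinf) P + pairPt E W P := by
    rw [← pairPtHom_apply, ← pairPtHom_apply, ← pairPtHom_apply, map_add, mul_nsmul, map_nsmul]
    simp
    ring
  rw [e2] at h2
  rw [← e1, e3] at h1
  have hk : kap E P = ht (wedge (E.pt P) (E.tn P)) - 2 * ht (E.pt P) := rfl
  rw [hk]
  have := le_max_left (C₁ + 2 * C₂) 0
  rw [abs_le] at h1 h2 ⊢
  constructor <;> linarith [h1.1, h1.2, h2.1, h2.2]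

/-- **(GAUSS)** of the contract, from (WHM), the tangent family and the degree of `W`. -/
theorem gauss_of_whm (E : EmbData K F) (hpt : ∀ P : Place K F, E.pt P ≠ 0)
    (hW : WHMStatement E) (W : Divisor K F) (hT : TanStatement E W)
    (hdeg : Divisor.degree W = 2 * (genusR K F : ℤ) - 2) : GAUSSStatement E := by
  obtain ⟨C, hC⟩ := gaussFor_of_whm E hpt hW W hT
  exact ⟨W, C, hdeg, hC⟩

end Gauss

end Fermat.Agent.S17.H320

end
end
-- ===== PACK-END S17/H320/WHM.lean

-- ===== PACK-BEGIN S29/H332/KummerFun.lean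
section




/-!
# S29 / M4b / K1 — the Kummer function `h = E^χ₁₂ / (2Δ)`

For a character `χ : Γ₀(N) →* ℂˣ`, unitary and trivial on all elements of trace `±2`, the function
`kummerFun N χ = E^χ₁₂ / (2Δ)` is holomorphic on `ℍ`, satisfies `h(γτ) = χ(γ) h(τ)`, belongs to the
S24 ring `holN N` (expansions in `exp(2πiτ/N)` at all cusps) and has a simple pole with leading
coefficient `1` at `i∞` (in `q = exp(2πiτ)`).

The first part is abstract: any holomorphic function with a parabolic character and moderate growth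
belongs to `holN N`.
-/

set_option autoImplicit false

noncomputable section

open UpperHalfPlane EisensteinSeries ModularForm Filter Topology HahnSeries ModularCurve
open scoped Matrix MatrixGroups Manifold

namespace Fermat.Agent.S29.H332

open Fermat.Agent.S24 Fermat.Agent.S24.H997 Fermat.Agent.S24.H624

local notation "Δ" => ModularForm.discriminant

/-! ### Conjugates of translations -/

/-- `g T^w g⁻¹` has trace `2`. -/
theorem trace_conj_T_zpow (g : SL(2, ℤ)) (w : ℤ) :
    (g * ModularGroup.T ^ w * g⁻¹ : SL(2, ℤ)).1.trace = 2 := by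
  rw [Matrix.SpecialLinearGroup.coe_mul, Matrix.SpecialLinearGroup.coe_mul, Matrix.trace_mul_comm,
    ← Matrix.mul_assoc, ← Matrix.SpecialLinearGroup.coe_mul, inv_mul_cancel,
    Matrix.SpecialLinearGroup.coe_one, Matrix.one_mul, ModularGroup.coe_T_zpow]
  simp [Matrix.trace_fin_two]

/-- `g T^N g⁻¹ ∈ Γ₀(N)` for every `g ∈ SL(2,ℤ)`. -/
theorem conj_T_zpow_mem_Gamma0 (N : ℕ) (g : SL(2, ℤ)) (m : ℤ) :
    g * ModularGroup.T ^ ((N : ℤ) * m) * g⁻¹ ∈ CongruenceSubgroup.Gamma0 N := by
  rw [CongruenceSubgroup.Gamma0_mem]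
  have h : (g * ModularGroup.T ^ ((N : ℤ) * m) * g⁻¹ : SL(2, ℤ)).1 1 0
      = -((N : ℤ) * m * (g.1 1 0) ^ 2) := by
    rw [Matrix.SpecialLinearGroup.coe_mul, Matrix.SpecialLinearGroup.coe_mul,
      ModularGroup.coe_T_zpow, Matrix.SpecialLinearGroup.coe_inv, Matrix.adjugate_fin_two]
    simp [Matrix.mul_apply, Fin.sum_univ_two]
    ring
  rw [h]
  push_cast
  simp

/-! ### The discriminant -/

theorem mdiff_delta : MDiff Δ := CuspForm.discriminant.holo'

theorem mdiff_delta_pow (m : ℕ) : MDiff (fun τ : ℍ => Δ τ ^ m) := by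
  induction m with
  | zero => simpa using (mdifferentiable_const : MDiff (fun _ : ℍ => (1 : ℂ)))
  | succ m ih =>
    have := ih.mul mdiff_delta
    have e : (fun τ : ℍ => Δ τ ^ (m + 1)) = (fun τ => Δ τ ^ m) * Δ := by
      funext τ
      simp [pow_succ]
    rw [e]
    exact this

theorem delta_slash (γ : SL(2, ℤ)) : Δ ∣[(12 : ℤ)] γ = Δ := by
  have := SlashInvariantFormClass.slash_action_eq CuspForm.discriminant
    (Matrix.SpecialLinearGroup.mapGL ℝ γ) ⟨γ, rfl⟩
  rw [CuspForm.coe_discriminant] at this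
  rw [ModularForm.SL_slash]
  exact this

theorem delta_smul (γ : SL(2, ℤ)) (τ : ℍ) : Δ (γ • τ) = denom γ τ ^ (12 : ℤ) * Δ τ := by
  have h := congrFun (delta_slash γ) τ
  rw [SL_slash_apply] at h
  have hd : denom γ τ ≠ 0 := denom_ne_zero γ τ
  rw [← h, mul_comm, mul_assoc, ← zpow_add₀ hd]
  simp

theorem delta_vadd (n : ℤ) (τ : ℍ) : Δ ((n : ℝ) +ᵥ τ) = Δ τ := by
  have h := delta_smul (ModularGroup.T ^ n) τ
  rw [denom_T_zpow, one_zpow, one_mul, UpperHalfPlane.modular_T_zpow_smul] at h
  exact h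

/-- A function on `ℍ` invariant under `τ ↦ τ + N` gives an `N`-periodic function on `ℂ`. -/
theorem periodic_comp_ofComplex_of_vadd {f : ℍ → ℂ} {N : ℕ}
    (h : ∀ τ : ℍ, f (((N : ℤ) : ℝ) +ᵥ τ) = f τ) :
    Function.Periodic (f ∘ ofComplex) (N : ℝ) := by
  intro z
  simp only [Function.comp_apply]
  by_cases hz : 0 < z.im
  · have hz' : 0 < (z + (N : ℝ)).im := by simpa using hz
    rw [ofComplex_apply_of_im_pos hz, ofComplex_apply_of_im_pos hz']
    rw [← h ⟨z, hz⟩]
    congr 1
    apply UpperHalfPlane.ext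
    simp [add_comm]
  · have hz' : ¬ 0 < (z + (N : ℝ)).im := by simpa using hz
    rw [ofComplex_apply_eq_of_im_nonpos (not_lt.mp hz') (not_lt.mp hz)]

theorem infExp_deltaInv (N : ℕ) [NeZero N] :
    InfExp N (fun τ : ℍ => (Δ τ)⁻¹) (qExpand ℂ N Fermat.Agent.S28.H568.dInvS) := by
  have hN : 0 < N := Nat.pos_of_ne_zero (NeZero.ne N)
  have h := Fermat.Agent.S28.H568.infExp_delta_inv_aff (N := N) (e := N) 0 one_pos one_pos hN
    (by ring)
  rw [infRoot_zero, infTwist_one] at h
  exact h.congr fun τ => by rw [infAff_one_zero_one]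

/-! ### Functions with a parabolic character -/

section Character

variable {N : ℕ} [NeZero N]

/-- `χ` is trivial on all elements of `Γ₀(N)` of trace `±2` (cusp stabilisers and `-1`). -/
def ParTrivial (χ : CongruenceSubgroup.Gamma0 N →* ℂˣ) : Prop :=
  ∀ γ : CongruenceSubgroup.Gamma0 N,
    ((γ : SL(2, ℤ)).1.trace = 2 ∨ (γ : SL(2, ℤ)).1.trace = -2) → χ γ = 1

/-- `h(γ τ) = χ(γ) h(τ)` for all `γ ∈ Γ₀(N)`. -/
def HasCharacter (χ : CongruenceSubgroup.Gamma0 N →* ℂˣ) (h : ℍ → ℂ) : Prop :=
  ∀ (γ : CongruenceSubgroup.Gamma0 N) (τ : ℍ), h ((γ : SL(2, ℤ)) • τ) = (χ γ : ℂ) * h τ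

variable {χ : CongruenceSubgroup.Gamma0 N →* ℂˣ} {h : ℍ → ℂ}

omit [NeZero N] in
/-- If `g T^w g⁻¹ ∈ Γ₀(N)`, then `h ∘ g` is invariant under `τ ↦ τ + w` (local parameter of width
`w` at the cusp `g∞`). -/
theorem HasCharacter.compSL_T_zpow (hh : HasCharacter χ h) (hχ : ParTrivial χ) (g : SL(2, ℤ))
    (w : ℤ) (hw : g * ModularGroup.T ^ w * g⁻¹ ∈ CongruenceSubgroup.Gamma0 N) (τ : ℍ) :
    compSL g h (ModularGroup.T ^ w • τ) = compSL g h τ := by
  have h1 : g • (ModularGroup.T ^ w • τ) = (g * ModularGroup.T ^ w * g⁻¹) • (g • τ) := by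
    rw [← mul_smul, ← mul_smul, mul_assoc, mul_assoc, inv_mul_cancel, mul_one]
  have h2 := hh ⟨_, hw⟩ (g • τ)
  rw [hχ ⟨_, hw⟩ (Or.inl (trace_conj_T_zpow g w))] at h2
  simp only [compSL_apply]
  rw [h1, h2, Units.val_one, one_mul]

omit [NeZero N] in
/-- `h ∘ g` is `w`-periodic if `g T^w g⁻¹ ∈ Γ₀(N)`. -/
theorem HasCharacter.compSL_vadd (hh : HasCharacter χ h) (hχ : ParTrivial χ) (g : SL(2, ℤ))
    (w : ℕ) (hw : g * ModularGroup.T ^ (w : ℤ) * g⁻¹ ∈ CongruenceSubgroup.Gamma0 N)
    (τ : ℍ) : compSL g h (((w : ℤ) : ℝ) +ᵥ τ) = compSL g h τ := by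
  have := hh.compSL_T_zpow hχ g (w : ℤ) hw τ
  rwa [UpperHalfPlane.modular_T_zpow_smul] at this

omit [NeZero N] in
theorem HasCharacter.periodic (hh : HasCharacter χ h) (hχ : ParTrivial χ) (g : SL(2, ℤ))
    (w : ℕ) (hw : g * ModularGroup.T ^ (w : ℤ) * g⁻¹ ∈ CongruenceSubgroup.Gamma0 N) :
    Function.Periodic (compSL g h ∘ ofComplex) (w : ℝ) :=
  periodic_comp_ofComplex_of_vadd (hh.compSL_vadd hχ g w hw)

/-- The expansion of `h ∘ g` in the local parameter of width `w`, as an explicit Laurent series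
(`m` = a bound for the pole order in units of `Δ⁻¹`). -/
def cuspExp (h : ℍ → ℂ) (m : ℕ) (g : SL(2, ℤ)) (w : ℕ) [NeZero w] : LaurentSeries ℂ :=
  qExpand ℂ w Fermat.Agent.S28.H568.dInvS ^ m *
    HahnSeries.ofPowerSeries ℤ ℂ
      (UpperHalfPlane.qExpansion (w : ℝ) (fun τ => Δ τ ^ m * compSL g h τ))

omit [NeZero N] in
/-- Expansion at the cusp `g∞` in the local parameter of width `w` (any `w` with
`g T^w g⁻¹ ∈ Γ₀(N)`): a holomorphic function with a parabolic character such that
`Δ^m · (h ∘ g)` is bounded at `i∞` has a Laurent expansion in `exp(2πiτ/w)`. -/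
theorem HasCharacter.infExp_cuspExp (hh : HasCharacter χ h) (hχ : ParTrivial χ)
    (hhol : MDiff h) (m : ℕ) (g : SL(2, ℤ)) (w : ℕ) [NeZero w]
    (hw : g * ModularGroup.T ^ (w : ℤ) * g⁻¹ ∈ CongruenceSubgroup.Gamma0 N)
    (hbd : IsBoundedAtImInfty (fun τ => Δ τ ^ m * compSL g h τ)) :
    InfExp w (compSL g h) (cuspExp h m g w) := by
  have hN : (0 : ℝ) < w := by exact_mod_cast Nat.pos_of_ne_zero (NeZero.ne w)
  set F : ℍ → ℂ := fun τ => Δ τ ^ m * compSL g h τ with hF
  have hcomp : MDiff (compSL g h) := (precompSL g ⟨h, hhol⟩).2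
  have hFhol : MDiff F := (mdiff_delta_pow m).mul hcomp
  have hFper : Function.Periodic (F ∘ ofComplex) (w : ℝ) := by
    intro z
    have h1 := hh.periodic hχ g w hw z
    have h2 := periodic_comp_ofComplex_of_vadd (f := Δ) (N := w) (fun τ => delta_vadd w τ) z
    simp only [Function.comp_apply, hF] at h1 h2 ⊢
    rw [h1, h2]
  have hsum := fun τ => UpperHalfPlane.hasSum_qExpansion hN hFper hFhol hbd τ
  have hP : InfPExp w F (UpperHalfPlane.qExpansion (w : ℝ) F) := by
    intro τ
    simpa [infZ, smul_eq_mul] using hsum τ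
  have hE : InfExp w F (HahnSeries.ofPowerSeries ℤ ℂ (UpperHalfPlane.qExpansion (w : ℝ) F)) := by
    have := hP.infExp 0
    simp only [zpow_zero, one_mul] at this
    have e : (HahnSeries.single (0 : ℤ) (1 : ℂ)) = 1 := rfl
    rwa [e, one_mul] at this
  have hDinv : InfExp w (fun τ => (Δ τ)⁻¹ ^ m)
      (qExpand ℂ w Fermat.Agent.S28.H568.dInvS ^ m) :=
    Fermat.Agent.S28.H568.InfExp.pow' (infExp_deltaInv w) m
  have : compSL g h = fun τ => (Δ τ)⁻¹ ^ m * F τ := by
    funext τ
    simp only [hF]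
    have hΔ : Δ τ ≠ 0 := ModularForm.discriminant_ne_zero τ
    rw [← mul_assoc, ← mul_pow, inv_mul_cancel₀ hΔ, one_pow, one_mul]
  rw [this]
  exact hDinv.mul hE

/-- Abstract membership criterion at one cusp. -/
theorem HasCharacter.compSL_mem_expRing (hh : HasCharacter χ h) (hχ : ParTrivial χ)
    (hhol : MDiff h) (m : ℕ) (g : SL(2, ℤ))
    (hbd : IsBoundedAtImInfty (fun τ => Δ τ ^ m * compSL g h τ)) :
    compSL g h ∈ expRing N :=
  (hh.infExp_cuspExp hχ hhol m g N (by simpa using conj_T_zpow_mem_Gamma0 N g 1) hbd).mem_expRing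

/-- Abstract membership criterion: a holomorphic function with a parabolic character such that
`Δ^m · (h ∘ g)` is bounded at `i∞` for every `g ∈ SL(2,ℤ)` lies in the S24 ring `holN N`. -/
theorem HasCharacter.mem_holN (hh : HasCharacter χ h) (hχ : ParTrivial χ)
    (hhol : MDiff h) (m : ℕ)
    (hbd : ∀ g : SL(2, ℤ), IsBoundedAtImInfty (fun τ => Δ τ ^ m * compSL g h τ)) :
    h ∈ holN N :=
  ⟨hhol, fun g => hh.compSL_mem_expRing hχ hhol m g (hbd g)⟩

omit [NeZero N] in
/-- Powers: `h ^ p` has character `χ ^ p`; in particular it is `Γ₀(N)`-invariant if `χ ^ p = 1`. -/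
theorem HasCharacter.pow_invariant (hh : HasCharacter χ h) {p : ℕ}
    (hp : ∀ γ, χ γ ^ p = 1) (γ : CongruenceSubgroup.Gamma0 N) (τ : ℍ) :
    h ((γ : SL(2, ℤ)) • τ) ^ p = h τ ^ p := by
  rw [hh γ τ, mul_pow, ← Units.val_pow_eq_pow_val, hp γ, Units.val_one, one_mul]

end Character

/-! ### The Kummer function -/

section Kummer

variable (N : ℕ) [NeZero N] (χ : CongruenceSubgroup.Gamma0 N →* ℂˣ)

/-- The Kummer function `E^χ₁₂ / (2Δ)`. -/
def kummerFun : ℍ → ℂ :=
  fun τ => twistedEis (CongruenceSubgroup.Gamma0 N) χ 12 τ / (2 * Δ τ)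

variable {N χ}

omit [NeZero N] in
theorem ParTrivial.trivialOnUnipotent (hχ : ParTrivial χ) : TrivialOnUnipotent χ := by
  intro γ hγ
  apply hχ γ
  left
  have h10 : (γ : SL(2, ℤ)).1 1 0 = 0 := by
    have := congrFun hγ 0
    simpa [botRow] using this
  have h11 : (γ : SL(2, ℤ)).1 1 1 = 1 := by
    have := congrFun hγ 1
    simpa [botRow] using this
  have hdet := (γ : SL(2, ℤ)).det_coe
  rw [Matrix.det_fin_two, h10, h11, mul_zero, sub_zero, mul_one] at hdet
  rw [Matrix.trace_fin_two, hdet, h11]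
  rfl

omit [NeZero N] in
theorem ParTrivial.neg_one (hχ : ParTrivial χ)
    (hneg : (-1 : SL(2, ℤ)) ∈ CongruenceSubgroup.Gamma0 N) : χ ⟨-1, hneg⟩ = 1 := by
  apply hχ
  right
  simp [Matrix.trace_fin_two]

omit [NeZero N] in
theorem neg_one_mem_Gamma0 : (-1 : SL(2, ℤ)) ∈ CongruenceSubgroup.Gamma0 N := by
  rw [CongruenceSubgroup.Gamma0_mem]
  simp

omit [NeZero N] in
theorem compSL_kummerFun (g : SL(2, ℤ)) :
    compSL g (kummerFun N χ)
      = fun τ => (twistedEis (CongruenceSubgroup.Gamma0 N) χ 12 ∣[(12 : ℤ)] g) τ / (2 * Δ τ) := by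
  funext τ
  have hd : denom g τ ≠ 0 := denom_ne_zero g τ
  have hΔ : Δ τ ≠ 0 := ModularForm.discriminant_ne_zero τ
  simp only [compSL_apply, kummerFun]
  rw [SL_slash_apply, delta_smul, zpow_neg]
  field_simp

omit [NeZero N] in
theorem hasCharacter_kummerFun (hχ : ParTrivial χ) : HasCharacter χ (kummerFun N χ) := by
  intro γ τ
  have h := congrFun (compSL_kummerFun (N := N) (χ := χ) (γ : SL(2, ℤ))) τ
  rw [compSL_apply] at h
  rw [h, twistedEis_slash hχ.trivialOnUnipotent]
  simp only [Pi.smul_apply, smul_eq_mul, kummerFun]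
  ring

omit [NeZero N] in
theorem mdiff_kummerFun (hχ : ParTrivial χ) (hnorm : ∀ γ, ‖(χ γ : ℂ)‖ = 1) :
    MDiff (kummerFun N χ) := by
  have hE : MDiff (twistedEis (CongruenceSubgroup.Gamma0 N) χ 12) :=
    twistedEis_mdifferentiable hχ.trivialOnUnipotent hnorm (by norm_num)
  rw [UpperHalfPlane.mdifferentiable_iff] at hE ⊢
  have hΔ := UpperHalfPlane.mdifferentiable_iff.mp mdiff_delta
  have h2 : DifferentiableOn ℂ (fun z => 2 * (Δ ∘ ofComplex) z) {z : ℂ | 0 < z.im} :=
    hΔ.const_mul 2
  refine (hE.div h2 ?_).congr ?_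
  · intro z hz
    exact mul_ne_zero two_ne_zero (ModularForm.discriminant_ne_zero _)
  · intro z hz
    simp [kummerFun]

omit [NeZero N] in
theorem isBoundedAtImInfty_delta_mul_kummerFun (hχ : ParTrivial χ)
    (hnorm : ∀ γ, ‖(χ γ : ℂ)‖ = 1) (g : SL(2, ℤ)) :
    IsBoundedAtImInfty (fun τ => Δ τ ^ 1 * compSL g (kummerFun N χ) τ) := by
  have hE := twistedEis_slash_isBoundedAtImInfty hχ.trivialOnUnipotent hnorm
    (k := 12) (by norm_num) g
  have : (fun τ => Δ τ ^ 1 * compSL g (kummerFun N χ) τ)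
      = (fun _ : ℍ => (1 / 2 : ℂ)) * (twistedEis (CongruenceSubgroup.Gamma0 N) χ 12 ∣[(12 : ℤ)] g) := by
    funext τ
    have hΔ : Δ τ ≠ 0 := ModularForm.discriminant_ne_zero τ
    rw [compSL_kummerFun]
    simp only [Pi.mul_apply, pow_one]
    field_simp
  rw [this]
  exact (Filter.const_boundedAtFilter _ _).mul hE

/-- **K1**: the Kummer function lies in the S24 ring `holN N`. -/
theorem kummerFun_mem_holN (hχ : ParTrivial χ) (hnorm : ∀ γ, ‖(χ γ : ℂ)‖ = 1) :
    kummerFun N χ ∈ holN N :=
  (hasCharacter_kummerFun hχ).mem_holN hχ (mdiff_kummerFun hχ hnorm) 1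
    (isBoundedAtImInfty_delta_mul_kummerFun hχ hnorm)

/-! ### The expansion of the Kummer function at `i∞` -/

omit [NeZero N] in
theorem T_mem_Gamma0 :
    (1 : SL(2, ℤ)) * ModularGroup.T ^ ((1 : ℕ) : ℤ) * (1 : SL(2, ℤ))⁻¹
      ∈ CongruenceSubgroup.Gamma0 N := by
  rw [CongruenceSubgroup.Gamma0_mem]
  simp [ModularGroup.T]

omit [NeZero N] in
theorem delta_mul_kummerFun (τ : ℍ) :
    Δ τ ^ 1 * compSL 1 (kummerFun N χ) τ
      = twistedEis (CongruenceSubgroup.Gamma0 N) χ 12 τ / 2 := by
  have hΔ : Δ τ ≠ 0 := ModularForm.discriminant_ne_zero τ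
  rw [compSL_one]
  simp only [kummerFun, pow_one]
  field_simp

omit [NeZero N] in
theorem tendsto_delta_mul_kummerFun (hχ : ParTrivial χ) (hnorm : ∀ γ, ‖(χ γ : ℂ)‖ = 1) :
    Tendsto (fun τ => Δ τ ^ 1 * compSL 1 (kummerFun N χ) τ) atImInfty (𝓝 1) := by
  have h := tendsto_twistedEis_two hχ.trivialOnUnipotent hnorm (k := 12) (by norm_num)
    (by decide) neg_one_mem_Gamma0 (hχ.neg_one _)
  have h2 := h.div_const 2
  rw [div_self (two_ne_zero)] at h2
  refine h2.congr fun τ => ?_
  rw [delta_mul_kummerFun]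

variable (N χ) in
/-- The expansion of the Kummer function at `i∞` in `q = exp(2πiτ)`. -/
def kummerExp : LaurentSeries ℂ := cuspExp (kummerFun N χ) 1 1 1

omit [NeZero N] in
theorem infExp_kummerFun (hχ : ParTrivial χ) (hnorm : ∀ γ, ‖(χ γ : ℂ)‖ = 1) :
    InfExp 1 (kummerFun N χ) (kummerExp N χ) := by
  have h := (hasCharacter_kummerFun hχ).infExp_cuspExp hχ (mdiff_kummerFun hχ hnorm) 1 1 1
    T_mem_Gamma0 (isBoundedAtImInfty_delta_mul_kummerFun hχ hnorm 1)
  rwa [compSL_one] at h

omit [NeZero N] in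
theorem coeff_zero_qExpansion_kummer (hχ : ParTrivial χ) (hnorm : ∀ γ, ‖(χ γ : ℂ)‖ = 1) :
    (UpperHalfPlane.qExpansion ((1 : ℕ) : ℝ)
      (fun τ => Δ τ ^ 1 * compSL 1 (kummerFun N χ) τ)).coeff 0 = 1 := by
  have hper : Function.Periodic ((fun τ => Δ τ ^ 1 * compSL 1 (kummerFun N χ) τ) ∘ ofComplex)
      ((1 : ℕ) : ℝ) := by
    intro z
    have h1 := (hasCharacter_kummerFun hχ).periodic hχ 1 1 T_mem_Gamma0 z
    have h2 := periodic_comp_ofComplex_of_vadd (f := Δ) (N := 1) (fun τ => delta_vadd (1 : ℕ) τ) z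
    simp only [Function.comp_apply] at h1 h2 ⊢
    rw [h1, h2]
  have hhol : MDiff (fun τ => Δ τ ^ 1 * compSL 1 (kummerFun N χ) τ) :=
    (mdiff_delta_pow 1).mul (precompSL 1 ⟨_, mdiff_kummerFun hχ hnorm⟩).2
  have han := UpperHalfPlane.analyticAt_cuspFunction_zero (h := ((1 : ℕ) : ℝ)) (by norm_num)
    hper hhol (isBoundedAtImInfty_delta_mul_kummerFun hχ hnorm 1)
  rw [UpperHalfPlane.qExpansion_coeff_zero (by norm_num) han hper]
  exact (tendsto_delta_mul_kummerFun hχ hnorm).limUnder_eq

omit [NeZero N] in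
theorem kummerExp_eq (hχ : ParTrivial χ) (hnorm : ∀ γ, ‖(χ γ : ℂ)‖ = 1) :
    (kummerExp N χ).order = -1 ∧ (kummerExp N χ).leadingCoeff = 1 := by
  set ψ := UpperHalfPlane.qExpansion ((1 : ℕ) : ℝ)
      (fun τ => Δ τ ^ 1 * compSL 1 (kummerFun N χ) τ) with hψ
  have hc : PowerSeries.coeff 0 ψ = 1 := coeff_zero_qExpansion_kummer hχ hnorm
  have hord : ψ.order = ((0 : ℕ) : ℕ∞) := by
    rw [PowerSeries.order_eq_nat]
    exact ⟨by rw [hc]; exact one_ne_zero, fun i hi => absurd hi (Nat.not_lt_zero i)⟩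
  have h1 : (HahnSeries.ofPowerSeries ℤ ℂ ψ).order = 0 := by
    simpa using order_ofPowerSeries hord
  have h2 : (HahnSeries.ofPowerSeries ℤ ℂ ψ).leadingCoeff = 1 := by
    rw [leadingCoeff_ofPowerSeries hord, hc]
  have h3 : (qExpand ℂ 1 Fermat.Agent.S28.H568.dInvS ^ 1).order = -1 := by
    rw [pow_one, inf_qExpand_order, Fermat.Agent.S28.H568.dInvS_order]
    simp
  have h4 : (qExpand ℂ 1 Fermat.Agent.S28.H568.dInvS ^ 1).leadingCoeff = 1 := by
    rw [pow_one, inf_qExpand_leadingCoeff, Fermat.Agent.S28.H568.dInvS_leadingCoeff]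
  have hx : (qExpand ℂ 1 Fermat.Agent.S28.H568.dInvS ^ 1) ≠ 0 := by
    intro h0
    rw [h0] at h4
    simp at h4
  have hy : (HahnSeries.ofPowerSeries ℤ ℂ ψ) ≠ 0 := by
    intro h0
    rw [h0] at h2
    simp at h2
  refine ⟨?_, ?_⟩
  · show (_ * _ : LaurentSeries ℂ).order = -1
    rw [HahnSeries.order_mul hx hy, h3, h1, add_zero]
  · show (_ * _ : LaurentSeries ℂ).leadingCoeff = 1
    rw [HahnSeries.leadingCoeff_mul, h4, h2, one_mul]

omit [NeZero N] in
theorem kummerExp_ne_zero (hχ : ParTrivial χ) (hnorm : ∀ γ, ‖(χ γ : ℂ)‖ = 1) :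
    kummerExp N χ ≠ 0 := by
  intro h0
  have := (kummerExp_eq hχ hnorm).2
  rw [h0] at this
  simp at this

omit [NeZero N] in
theorem kummerFun_ne_zero (hχ : ParTrivial χ) (hnorm : ∀ γ, ‖(χ γ : ℂ)‖ = 1) :
    kummerFun N χ ≠ 0 := by
  intro h0
  have h := infExp_kummerFun hχ hnorm
  rw [h0] at h
  exact kummerExp_ne_zero hχ hnorm (InfExp.eq_zero h)

/-- The expansion in `exp(2πiτ/N)` (the S24 `qexp`). -/
theorem infExp_kummerFun_level (hχ : ParTrivial χ) (hnorm : ∀ γ, ‖(χ γ : ℂ)‖ = 1) :
    InfExp N (kummerFun N χ) (qExpand ℂ N (kummerExp N χ)) := by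
  have hN : (N : ℂ) ≠ 0 := by exact_mod_cast NeZero.ne N
  have h := (infExp_kummerFun hχ hnorm).subst (N := N) (fun τ => τ) 1 N (fun τ => by
    rw [infZ_def, infZ_def, Units.val_one, one_mul, ← Complex.exp_nat_mul]
    congr 1
    push_cast
    field_simp)
  rwa [infTwist_one] at h

theorem expInf_kummerFun (hχ : ParTrivial χ) (hnorm : ∀ γ, ‖(χ γ : ℂ)‖ = 1) :
    expInf N (holToExp N ⟨kummerFun N χ, kummerFun_mem_holN hχ hnorm⟩)
      = qExpand ℂ N (kummerExp N χ) :=
  (infExp_kummerFun_level hχ hnorm).expInf_eq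

end Kummer


end Fermat.Agent.S29.H332

end
end
-- ===== PACK-END S29/H332/KummerFun.lean

-- ===== PACK-BEGIN S15/H602/PlaceGalois.lean
section



/-!
# Galois-fixed places of `ℚ̄(X₀(N))` over rational simple points
(helper602, row S15, piece FFu)

Specialisation of `PlaceOfPoint.lean` to `F = laurentBaseChange L F₀` (`L/ℚ` any field, e.g.
`ℚ̄`; `F₀ ⊆ ℚ((q))`; in particular `F = modularFunctionFieldBar N`) with the coefficientwise
Galois action `arithmeticGalois F₀ σ`:

* `arithmeticGalois_smul_eq_self` : elements of `F` with rational `q`-expansion are fixed;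
* `galois_smul_eq_of_isCentredAt` : the place centred at a simple point `(a, b)`, `a b ∈ ℚ`, of
  the plane model with coordinates `x, y` having rational `q`-expansions is Galois-fixed.
-/

set_option autoImplicit false

noncomputable section

namespace Fermat.Agent.S15.H602

open Polynomial AlgebraicCurve ModularCurve HahnSeries

variable {L : Type*} [Field L] [Algebra ℚ L] (F₀ : IntermediateField ℚ (LaurentSeries ℚ))

/-- An element of `F` whose `q`-expansion has rational coefficients is fixed by the arithmetic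
Galois action. -/
theorem arithmeticGalois_smul_eq_self (σ : L ≃ₐ[ℚ] L) (x : laurentBaseChange L F₀)
    (x₀ : LaurentSeries ℚ) (hx : (x : LaurentSeries L) = coeffMap (algebraMap ℚ L) x₀) :
    arithmeticGalois F₀ σ • x = x := by
  apply Subtype.ext
  rw [coe_arithmeticGalois_smul, hx, coeffMap_coeffMap]
  exact coeffMap_congr (RingHom.ext fun c => by simp) x₀

/-- **Galois-fixedness of the moduli place.**  Let `x, y ∈ F` have rational `q`-expansions,
`F = L(x, y)`, and let `(a, b) ∈ ℚ²` be a simple point of a relation `Ψ(x, y) = 0`.  Then the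
place of `F` centred at `(a, b)` is fixed by `arithmeticGalois F₀ σ` for every `σ`. -/
theorem galois_smul_eq_of_isCentredAt {x y : laurentBaseChange L F₀}
    {x₀ y₀ : LaurentSeries ℚ}
    (hx : (x : LaurentSeries L) = coeffMap (algebraMap ℚ L) x₀)
    (hy : (y : LaurentSeries L) = coeffMap (algebraMap ℚ L) y₀)
    {a b : ℚ} {Ψ : L[X][X]}
    (hΨ : IsSimplePoint x y (algebraMap ℚ L a) (algebraMap ℚ L b) Ψ)
    (hgen : ∀ f : laurentBaseChange L F₀,
      ∃ G H : L[X][X], ev x y H ≠ 0 ∧ f * ev x y H = ev x y G)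
    {P : Place L (laurentBaseChange L F₀)}
    (h : IsCentredAt P x y (algebraMap ℚ L a) (algebraMap ℚ L b)) (σ : L ≃ₐ[ℚ] L) :
    arithmeticGalois F₀ σ • P = P :=
  h.smul_eq hΨ hgen (arithmeticGalois F₀ σ)
    (arithmeticGalois_smul_eq_self F₀ σ x x₀ hx)
    (arithmeticGalois_smul_eq_self F₀ σ y y₀ hy)
    (by simp) (by simp)

/-! ## The class of a difference of two places -/

section PtClass

variable {K F : Type*} [Field K] [Field F] [Algebra K F]

/-- the divisor `P - P'` has degree `0` when `deg P = deg P'` -/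
theorem single_sub_single_mem_degZero {P P' : Place K F} (hdeg : P.deg = P'.deg) :
    (Finsupp.single P 1 - Finsupp.single P' 1 : Divisor K F) ∈
      Divisor.degZero (K := K) (F := F) := by
  rw [Divisor.mem_degZero, map_sub, Divisor.degree_single, Divisor.degree_single, hdeg, sub_self]

/-- the class `cl(P - P') ∈ Pic⁰` of two places of the same degree -/
def ptClass (P P' : Place K F) (hdeg : P.deg = P'.deg) : Pic0 K F :=
  Pic0.mk ⟨Finsupp.single P 1 - Finsupp.single P' 1, single_sub_single_mem_degZero hdeg⟩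

theorem smul_ptClass (g : SemilinearAut K F) (P P' : Place K F) (hdeg : P.deg = P'.deg) :
    g • ptClass P P' hdeg = ptClass (g • P) (g • P')
      (by rw [SemilinearAut.deg_smul, SemilinearAut.deg_smul, hdeg]) := by
  unfold ptClass
  rw [SemilinearAut.pic0_smul_mk]
  refine congrArg Pic0.mk (Subtype.ext ?_)
  rw [SemilinearAut.coe_degZeroSMulHom]
  show g • (Finsupp.single P 1 - Finsupp.single P' 1 : Divisor K F) = _
  rw [smul_sub, SemilinearAut.smul_single, SemilinearAut.smul_single]

theorem smul_ptClass_eq_self (g : SemilinearAut K F) {P P' : Place K F} (hdeg : P.deg = P'.deg)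
    (hP : g • P = P) (hP' : g • P' = P') : g • ptClass P P' hdeg = ptClass P P' hdeg := by
  rw [smul_ptClass]
  congr 1

end PtClass

/-- the class `cl(P - P')` of two Galois-fixed places is Galois-fixed -/
theorem galois_smul_ptClass_eq_self (σ : L ≃ₐ[ℚ] L) {P P' : Place L (laurentBaseChange L F₀)}
    (hdeg : P.deg = P'.deg) (hP : arithmeticGalois F₀ σ • P = P)
    (hP' : arithmeticGalois F₀ σ • P' = P') :
    σ • ptClass P P' hdeg = ptClass P P' hdeg := by
  rw [galois_smul_pic0_def]
  exact smul_ptClass_eq_self _ hdeg hP hP'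

end Fermat.Agent.S15.H602

end
end
-- ===== PACK-END S15/H602/PlaceGalois.lean

-- ===== PACK-BEGIN A3/H799/GoodRed.lean
section




/-!
# A3 / LOCAL — the FROZEN input interface `GoodRed`  (architect helper799)

`GoodRed K F k Fk` = abstract good reduction of a function field `F / K` at a valuation ring `V` of
the (algebraically closed) constant field `K`, with special fibre `Fk / k`.  It is helper979's
`RedDatum` (origin/helper979:Fermat/Agent/S19/H979/Spec.lean) VERBATIM; only the name is changed to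
the one used on the A3 board.

Instance wanted (block GOODRED-INST): `K = ℚ̄`, `F = modularFunctionFieldBar M`,
`Fk = modularFunctionFieldFullC k M`, `O` = functions with `V`-integral `q`-expansion, `red` =
reduction of `q`-expansions, `r` = the place map of `ReductionInputsModL`, `I` = image of the
inertia group of `V` under `arithmeticGalois`; level `M = N` (`ℓ ≥ 5`), `lcm(N,2)` (`ℓ = 3`),
`lcm(N,3)` (`ℓ = 2`).

Output of block LOCAL: `LocalStatement` below (= helper979's `disc_localCoords`).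
-/

set_option autoImplicit false

noncomputable section

open AlgebraicCurve

namespace Fermat.Agent.A3.H799

/-- Abstract good reduction of a function field `F/K` at a valuation ring `V` of `K`. -/
structure GoodRed (K F k Fk : Type*) [Field K] [Field F] [Algebra K F]
    [Field k] [Field Fk] [Algebra k Fk] where
  /-- the valuation ring of the constants -/
  V : ValuationSubring K
  /-- the Gauss valuation ring of `F` -/
  O : ValuationSubring F
  /-- the residue map of `V` -/
  res : V →+* k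
  /-- reduction of functions -/
  red : O →+* Fk
  /-- reduction of places -/
  r : Place K F → Place k Fk
  /-- the inertia group, acting semilinearly -/
  I : Subgroup (SemilinearAut K F)
  res_surjective : Function.Surjective res
  res_eq_zero : ∀ a : V, res a = 0 ↔ (a : K) ∈ V.nonunits
  algebraMap_mem : ∀ a : K, algebraMap K F a ∈ O ↔ a ∈ V
  red_algebraMap : ∀ (a : V) (h : algebraMap K F (a : K) ∈ O),
    red ⟨algebraMap K F (a : K), h⟩ = algebraMap k Fk (res a)
  red_surjective : Function.Surjective red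
  /-- Gauss: every nonzero function is a constant times a function of norm one. -/
  gauss : ∀ f : F, f ≠ 0 → ∃ a : K, a ≠ 0 ∧ ∃ h : algebraMap K F a * f ∈ O,
    red ⟨algebraMap K F a * f, h⟩ ≠ 0
  /-- the reduction of the divisor of a function of norm one is the divisor of its reduction -/
  div_red : ∀ f : O, red f ≠ 0 → ∀ D : Divisor K F, (∀ P, D P = P.ord (f : F)) →
    ∀ Q : Place k Fk, Finsupp.mapDomain r D Q = Q.ord (red f)
  /-- Riemann-Roch on both fibres, equal genus -/
  ff1 : Lib.RR.FF1 K F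
  ff1k : Lib.RR.FF1 k Fk
  genus_eq : genusFF K F = genusFF k Fk
  /-- every Riemann-Roch space has an orthonormal basis; for an inertia-invariant divisor the
  basis can be chosen inertia-invariant -/
  orthonormal : ∀ D : Divisor K F, ∃ (n : ℕ) (b : Fin n → O),
    LinearIndependent k (fun i => red (b i)) ∧
    (∀ i, ((b i : O) : F) ∈ riemannRochSpace D) ∧
    Submodule.span K (Set.range fun i => ((b i : O) : F)) = riemannRochSpace D ∧
    ((∀ g ∈ I, g • D = D) → ∀ i, ∀ g ∈ I, g • ((b i : O) : F) = ((b i : O) : F))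
  /-- inertia acts trivially on everything residual -/
  I_base : ∀ g ∈ I, ∀ a : V, ∃ h : SemilinearAut.baseAut g (a : K) ∈ V,
    res ⟨SemilinearAut.baseAut g (a : K), h⟩ = res a
  I_red : ∀ g ∈ I, ∀ f : O, ∃ h : g • (f : F) ∈ O, red ⟨g • (f : F), h⟩ = red f
  I_place : ∀ g ∈ I, ∀ P : Place K F, r (g • P) = r P
  /-- every residue constant has an inertia-invariant lift -/
  I_lift_const : ∀ c : k, ∃ a : V, res a = c ∧ ∀ g ∈ I, SemilinearAut.baseAut g (a : K) = (a : K)
  /-- there is an inertia-invariant place (the cusp `∞`) -/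
  I_fixed_place : ∃ P : Place K F, ∀ g ∈ I, g • P = P

/-- **Output of block LOCAL** (frozen; = helper979's `disc_localCoords`).  For a finite
inertia-stable subgroup `T` of `Pic0` there are `V`-integral, inertia-equivariant, injective
coordinates on `T` whose addition is polynomial with `V`-coefficients. -/
def LocalStatement (K F k Fk : Type*) [Field K] [Field F] [Algebra K F]
    [Field k] [Field Fk] [Algebra k Fk] [IsAlgClosed K] [IsAlgClosed k] [CharZero K] : Prop :=
  ∀ (𝓡 : GoodRed K F k Fk),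
    (∀ a b : K, a ∈ 𝓡.V.nonunits → b ≠ 0 → ∃ n : ℕ, a ^ n / b ∈ 𝓡.V) →
    ∀ (T : AddSubgroup (Pic0 K F)) [Finite T]
      (hT : ∀ g ∈ 𝓡.I, ∀ x ∈ T, g • x ∈ T),
      ∃ (ι : Type) (_ : Finite ι) (Ψ : T → ι → K),
        Function.Injective Ψ ∧ (∀ x i, Ψ x i ∈ 𝓡.V) ∧
        (∀ (g : SemilinearAut K F) (hg : g ∈ 𝓡.I) (x : T) (i : ι),
          Ψ ⟨g • (x : Pic0 K F), hT g hg x x.2⟩ i = SemilinearAut.baseAut g (Ψ x i)) ∧
        ∀ i, (fun p : T × T => Ψ (p.1 + p.2) i) ∈
          Algebra.adjoin 𝓡.V ({f | ∃ j, f = fun p : T × T => Ψ p.1 j} ∪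
            {f | ∃ j, f = fun p : T × T => Ψ p.2 j})

end Fermat.Agent.A3.H799

end
end
-- ===== PACK-END A3/H799/GoodRed.lean

-- ===== PACK-BEGIN A3/H799/LocalSpec.lean
section



/-!
# A3 / LOCAL — FROZEN leaf statements  (architect helper799)

`LocalStatement K F k Fk` (GoodRed.lean) is cut into five leaves, each a `Prop` below:

    DISC   `DiscStatement`   residue-disc calculus: a `DiscData` at every point of the special fibre
    NSP    `NspStatement`    special fibre: `g` distinct points with `ℓ(ΣQ_i) = 1`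
    COORD  `CoordStatement`  the kernel of reduction is the polydisc `(𝔪_V)^g`
    ZADD   `ZaddStatement`   addition is algebraic: divisor form, for families on a finite set
    LIFTI  `LiftiStatement`  inertia-invariant lifts of classes of the special fibre

Everything is about HONEST functions/divisors of `F/K`; the only "families" are functions on a
finite set `T` with values in `V`, and `Λ` is any `V`-algebra of such functions
(`Fermat.Agent.A3.H799.local_mem` is the algebra behind ZADD).
-/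

set_option autoImplicit false

noncomputable section

open AlgebraicCurve

namespace Fermat.Agent.A3.H799

variable {K F k Fk : Type*} [Field K] [Field F] [Algebra K F] [Field k] [Field Fk] [Algebra k Fk]

/-- The kernel of reduction `J¹ ⊆ Pic0`: classes of degree-zero divisors whose reduction is
principal. -/
def GoodRed.kerRed (𝓡 : GoodRed K F k Fk) : AddSubgroup (Pic0 K F) where
  carrier := {x | ∃ D : Divisor.degZero (K := K) (F := F), Pic0.mk D = x ∧
    Finsupp.mapDomain 𝓡.r (D : Divisor K F) ∈ Divisor.principal (K := k) (F := Fk)}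
  zero_mem' := ⟨0, rfl, by simp [Finsupp.mapDomain_zero]⟩
  add_mem' := by
    rintro _ _ ⟨D, rfl, hD⟩ ⟨D', rfl, hD'⟩
    refine ⟨D + D', rfl, ?_⟩
    rw [AddSubgroup.coe_add, Finsupp.mapDomain_add]
    exact AddSubgroup.add_mem _ hD hD'
  neg_mem' := by
    rintro _ ⟨D, rfl, hD⟩
    refine ⟨-D, rfl, ?_⟩
    have h : Finsupp.mapDomain 𝓡.r ((-D : Divisor.degZero (K := K) (F := F)) : Divisor K F) =
        -Finsupp.mapDomain 𝓡.r (D : Divisor K F) := by
      rw [AddSubgroup.coe_neg, ← Finsupp.mapDomain.addMonoidHom_apply, map_neg,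
        Finsupp.mapDomain.addMonoidHom_apply]
    rw [h]
    exact AddSubgroup.neg_mem _ hD

/-- **Residue-disc data** at a point `Q` of the special fibre: the ring of integral functions
without poles in the disc `r⁻¹ Q`, as a disc algebra (`Disc.lean`), with the dictionary
"evaluation `ev a` = value at the point `pt a` of the disc". -/
structure DiscData (𝓡 : GoodRed K F k Fk) (Q : Place k Fk) where
  /-- integral functions without poles in the disc -/
  ring : Subalgebra 𝓡.V F
  ring_le : ∀ f ∈ ring, f ∈ 𝓡.O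
  ring_reg : ∀ f ∈ ring, ∀ P : Place K F, 𝓡.r P = Q → f ∈ P.toValuationSubring
  mem_ring : ∀ f ∈ 𝓡.O, (∀ P : Place K F, 𝓡.r P = Q → f ∈ P.toValuationSubring) → f ∈ ring
  /-- the disc algebra structure: parameter `t`, evaluations, Taylor -/
  D : DiscAlg 𝓡.V ring
  /-- the point of the disc with parameter value `a` -/
  pt : IsLocalRing.maximalIdeal 𝓡.V → Place K F
  r_pt : ∀ a, 𝓡.r (pt a) = Q
  pt_surj : ∀ P : Place K F, 𝓡.r P = Q → ∃ a, pt a = P
  /-- the reduction of the parameter is a uniformiser at `Q` -/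
  ord_t : Q.ord (𝓡.red ⟨(D.t : F), ring_le _ D.t.2⟩) = 1
  /-- `ev a f` is the value of `f` at `pt a` -/
  ev_spec : ∀ (a : IsLocalRing.maximalIdeal 𝓡.V) (f : ring),
    (f : F) = algebraMap K F ((D.ev a f : 𝓡.V) : K) ∨
      1 ≤ (pt a).ord ((f : F) - algebraMap K F ((D.ev a f : 𝓡.V) : K))
  /-- the reduction of `ev a f` is the value of `red f` at `Q` -/
  red_ev : ∀ (a : IsLocalRing.maximalIdeal 𝓡.V) (f : ring),
    𝓡.red ⟨(f : F), ring_le _ f.2⟩ = algebraMap k Fk (𝓡.res (D.ev a f)) ∨
      1 ≤ Q.ord (𝓡.red ⟨(f : F), ring_le _ f.2⟩ - algebraMap k Fk (𝓡.res (D.ev a f)))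

/-- The effective divisor `Σ_i [pt_i (z i)]` of the polydisc point `z`. -/
def polyDiv {𝓡 : GoodRed K F k Fk} {ι : Type*} [Fintype ι] {Qs : ι → Place k Fk}
    (d : ∀ i, DiscData 𝓡 (Qs i)) (z : ι → IsLocalRing.maximalIdeal 𝓡.V) : Divisor K F :=
  ∑ i, Finsupp.single ((d i).pt (z i)) 1

section Statements

variable (K F k Fk)

/-- **DISC.**  Every point of the special fibre has residue-disc data, with an
inertia-invariant parameter. -/
def DiscStatement : Prop :=
  ∀ (𝓡 : GoodRed K F k Fk) (Q : Place k Fk),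
    ∃ d : DiscData 𝓡 Q, ∀ g ∈ 𝓡.I, g • ((d.D.t : d.ring) : F) = ((d.D.t : d.ring) : F)

/-- **DISC-I.**  For an inertia-invariant parameter the points of the disc are permuted by
inertia through their parameter values. -/
def DiscEquivStatement : Prop :=
  ∀ (𝓡 : GoodRed K F k Fk) (Q : Place k Fk) (d : DiscData 𝓡 Q),
    (∀ g ∈ 𝓡.I, g • ((d.D.t : d.ring) : F) = ((d.D.t : d.ring) : F)) →
    ∀ g ∈ 𝓡.I, ∀ a : IsLocalRing.maximalIdeal 𝓡.V,
      ∃ h : SemilinearAut.baseAut g ((a : 𝓡.V) : K) ∈ 𝓡.V,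
        ∃ h' : (⟨SemilinearAut.baseAut g ((a : 𝓡.V) : K), h⟩ : 𝓡.V) ∈
            IsLocalRing.maximalIdeal 𝓡.V,
          g • d.pt a = d.pt ⟨⟨SemilinearAut.baseAut g ((a : 𝓡.V) : K), h⟩, h'⟩

/-- **NSP.**  On the special fibre there are `g` distinct points `Q_i` with `ℓ(Σ Q_i) = 1`. -/
def NspStatement : Prop :=
  ∀ [IsAlgClosed k] [Lib.RR.FF1 k Fk], ∃ Qs : Fin (genusFF k Fk) → Place k Fk, Function.Injective Qs ∧
    Lib.RR.ell (∑ i, Finsupp.single (Qs i) (1 : ℤ)) = 1

/-- **COORD.**  With `E = polyDiv d 0`: every class of the kernel of reduction is `[D_z - E]` for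
a unique polydisc point `z`, and conversely. -/
def CoordStatement : Prop :=
  ∀ (𝓡 : GoodRed K F k Fk) (Qs : Fin (genusFF k Fk) → Place k Fk), Function.Injective Qs →
    @Lib.RR.ell k Fk _ _ _ (∑ i, Finsupp.single (Qs i) (1 : ℤ)) = 1 →
    ∀ d : ∀ i, DiscData 𝓡 (Qs i),
      (∀ x ∈ 𝓡.kerRed, ∃! z : Fin (genusFF k Fk) → IsLocalRing.maximalIdeal 𝓡.V,
        ∃ D : Divisor.degZero (K := K) (F := F),
          (D : Divisor K F) = polyDiv d z - polyDiv d 0 ∧ Pic0.mk D = x) ∧
      ∀ z : Fin (genusFF k Fk) → IsLocalRing.maximalIdeal 𝓡.V,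
        ∀ D : Divisor.degZero (K := K) (F := F),
          (D : Divisor K F) = polyDiv d z - polyDiv d 0 → Pic0.mk D ∈ 𝓡.kerRed

/-- **ZADD** (divisor form).  If `D_x + D_y ∼ D_s + E` for every parameter value `τ` of a finite
set `T`, and the coordinates of `x`, `y` lie in the `V`-algebra `Λ` of functions on `T`, then so do
the coordinates of `s`. -/
def ZaddStatement.{w} : Prop :=
  ∀ (𝓡 : GoodRed K F k Fk) (Qs : Fin (genusFF k Fk) → Place k Fk), Function.Injective Qs →
    @Lib.RR.ell k Fk _ _ _ (∑ i, Finsupp.single (Qs i) (1 : ℤ)) = 1 →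
    ∀ (d : ∀ i, DiscData 𝓡 (Qs i)) (T : Type w) [Finite T] (Λ : Subalgebra 𝓡.V (T → 𝓡.V))
      (zx zy zs : T → Fin (genusFF k Fk) → IsLocalRing.maximalIdeal 𝓡.V),
      (∀ j, (fun τ => ((zx τ j : IsLocalRing.maximalIdeal 𝓡.V) : 𝓡.V)) ∈ Λ) →
      (∀ j, (fun τ => ((zy τ j : IsLocalRing.maximalIdeal 𝓡.V) : 𝓡.V)) ∈ Λ) →
      (∀ τ, polyDiv d (zx τ) + polyDiv d (zy τ) - polyDiv d (zs τ) - polyDiv d 0 ∈
        Divisor.principal (K := K) (F := F)) →
      ∀ i, (fun τ => ((zs τ i : IsLocalRing.maximalIdeal 𝓡.V) : 𝓡.V)) ∈ Λ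

/-- **ZTRI** (sub-leaf of ZADD, one application of `local_mem` with `L(3E)`):
`D_x + D_y + D_w ∼ 3E`. -/
def ZtriStatement.{w} : Prop :=
  ∀ (𝓡 : GoodRed K F k Fk) (Qs : Fin (genusFF k Fk) → Place k Fk), Function.Injective Qs →
    @Lib.RR.ell k Fk _ _ _ (∑ i, Finsupp.single (Qs i) (1 : ℤ)) = 1 →
    ∀ (d : ∀ i, DiscData 𝓡 (Qs i)) (T : Type w) [Finite T] (Λ : Subalgebra 𝓡.V (T → 𝓡.V))
      (zx zy zw : T → Fin (genusFF k Fk) → IsLocalRing.maximalIdeal 𝓡.V),
      (∀ j, (fun τ => ((zx τ j : IsLocalRing.maximalIdeal 𝓡.V) : 𝓡.V)) ∈ Λ) →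
      (∀ j, (fun τ => ((zy τ j : IsLocalRing.maximalIdeal 𝓡.V) : 𝓡.V)) ∈ Λ) →
      (∀ τ, polyDiv d (zx τ) + polyDiv d (zy τ) + polyDiv d (zw τ) - (3 : ℤ) • polyDiv d 0 ∈
        Divisor.principal (K := K) (F := F)) →
      ∀ i, (fun τ => ((zw τ i : IsLocalRing.maximalIdeal 𝓡.V) : 𝓡.V)) ∈ Λ

/-- **ZNEG** (sub-leaf of ZADD, one application of `local_mem` with `L(2E)`):
`D_x + D_n ∼ 2E`. -/
def ZnegStatement.{w} : Prop :=
  ∀ (𝓡 : GoodRed K F k Fk) (Qs : Fin (genusFF k Fk) → Place k Fk), Function.Injective Qs →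
    @Lib.RR.ell k Fk _ _ _ (∑ i, Finsupp.single (Qs i) (1 : ℤ)) = 1 →
    ∀ (d : ∀ i, DiscData 𝓡 (Qs i)) (T : Type w) [Finite T] (Λ : Subalgebra 𝓡.V (T → 𝓡.V))
      (zx zn : T → Fin (genusFF k Fk) → IsLocalRing.maximalIdeal 𝓡.V),
      (∀ j, (fun τ => ((zx τ j : IsLocalRing.maximalIdeal 𝓡.V) : 𝓡.V)) ∈ Λ) →
      (∀ τ, polyDiv d (zx τ) + polyDiv d (zn τ) - (2 : ℤ) • polyDiv d 0 ∈
        Divisor.principal (K := K) (F := F)) →
      ∀ i, (fun τ => ((zn τ i : IsLocalRing.maximalIdeal 𝓡.V) : 𝓡.V)) ∈ Λ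

/-- **LIFTI.**  Every class is congruent modulo the kernel of reduction to an
inertia-invariant class. -/
def LiftiStatement : Prop :=
  ∀ (𝓡 : GoodRed K F k Fk) (x : Pic0 K F),
    ∃ y : Pic0 K F, (∀ g ∈ 𝓡.I, g • y = y) ∧ x - y ∈ 𝓡.kerRed

end Statements

end Fermat.Agent.A3.H799

end
end
-- ===== PACK-END A3/H799/LocalSpec.lean

-- ===== PACK-BEGIN Lib/RR/H439/StrongApprox.lean
section



/-!
# Strong approximation inside Riemann–Roch spaces (vanishing of `H¹` in large degree)

(helper439, cell A3 / pieces D5, D8(b): "the jet matrix has full rank".)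

* `sup_eq_top_of_degree_gt` : `deg D > 2g - 2` ⟹ `𝔸 = 𝔸(D) + F`.
* `exists_approx`           : `deg D > 2g - 2`, `S` finite, targets `φ v` (`v ∈ S`) ⟹ there is
                              `f ∈ F` with `ord_v (f - φ v) ≥ -D(v)` on `S` and `ord_v f ≥ -D(v)`
                              off `S`.
* `exists_mem_L_approx`     : interpolation of jets inside `L(B)`: if `D ≥ 0` on `S`,
                              `D = 0` off `S`, `deg (B - D) > 2g - 2` and the targets satisfy
                              `ord_v (φ v) ≥ -B(v)`, then some `f ∈ L(B)` has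
                              `ord_v (f - φ v) ≥ D(v) - B(v)` for all `v ∈ S`.
-/

set_option autoImplicit false

noncomputable section

open AlgebraicCurve

namespace Fermat.Agent.Lib.RR.H439

open Fermat.Agent.Lib.RR

variable {K F : Type*} [Field K] [Field F] [Algebra K F] [FF1 K F]

/-- **Vanishing of `H¹`**: if `deg D > 2g - 2` then `𝔸 = 𝔸(D) + F`. -/
theorem sup_eq_top_of_degree_gt {D : Divisor K F}
    (hD : 2 * (genusFF K F : ℤ) - 2 < Divisor.degree D) :
    repartitionsOf D ⊔ principalRepartitions K F = ⊤ :=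
  sup_eq_top_of_attains (genusFF K F : ℤ) (fun D' => riemann_inequality_genusFF D') D
    (ell_eq_of_degree_gt hD)

open Classical in
/-- **Strong approximation**: if `deg D > 2g - 2`, then for every finite set `S` of places and
arbitrary targets `φ v ∈ F` there is `f ∈ F` with `ord_v (f - φ v) ≥ -D(v)` for `v ∈ S` and
`ord_v f ≥ -D(v)` for `v ∉ S`. -/
theorem exists_approx {D : Divisor K F}
    (hD : 2 * (genusFF K F : ℤ) - 2 < Divisor.degree D) (S : Finset (Place K F))
    (φ : Place K F → F) :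
    ∃ f : F, (∀ v ∈ S, f - φ v = 0 ∨ -D v ≤ v.ord (f - φ v)) ∧
      ∀ v ∉ S, f = 0 ∨ -D v ≤ v.ord f := by
  -- the repartition `α = φ` on `S`, `0` elsewhere
  let α₀ : Place K F → F := fun v => if v ∈ S then φ v else 0
  have hα₀ : α₀ ∈ repartitions K F := by
    apply mem_repartitions_of_finite_ord
    refine (Finset.finite_toSet S).subset fun v hv => ?_
    by_contra hvS
    have hv' : v.ord (α₀ v) < 0 := hv
    have : α₀ v = 0 := if_neg hvS
    rw [this, v.ord_zero] at hv'
    exact lt_irrefl _ hv'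
  let α : ↥(repartitions K F) := ⟨α₀, hα₀⟩
  have hmem : α ∈ repartitionsOf D ⊔ principalRepartitions K F := by
    rw [sup_eq_top_of_degree_gt hD]; trivial
  obtain ⟨β, hβ, γ, hγ, hsum⟩ := Submodule.mem_sup.mp hmem
  obtain ⟨f, hf⟩ := mem_principalRepartitions_iff.mp hγ
  rw [mem_repartitionsOf_iff] at hβ
  have hval : ∀ v, (β : Place K F → F) v = α₀ v - f := by
    intro v
    have h1 := congrArg (fun x : ↥(repartitions K F) => (x : Place K F → F) v) hsum
    simp only [coe_add_apply] at h1
    have h2 : (γ : Place K F → F) v = f := by rw [hf]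
    rw [h2] at h1
    have h3 : (α : Place K F → F) v = α₀ v := rfl
    rw [h3] at h1
    rw [← h1]; ring
  refine ⟨f, fun v hv => ?_, fun v hv => ?_⟩
  · have h := hβ v
    rw [hval v] at h
    have hα : α₀ v = φ v := if_pos hv
    rw [hα] at h
    rcases h with h | h
    · left
      rw [← neg_sub, h, neg_zero]
    · right
      rw [← neg_sub, ord_neg]
      exact h
  · have h := hβ v
    rw [hval v] at h
    have hα : α₀ v = 0 := if_neg hv
    rw [hα, zero_sub] at h
    rcases h with h | h
    · left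
      exact neg_eq_zero.mp h
    · right
      rwa [ord_neg] at h

/-- **Interpolation of jets in `L(B)`**.  Let `D` be a divisor with `D ≥ 0` on the finite set `S`
and `D = 0` off `S`, and assume `deg (B - D) > 2g - 2`.  For arbitrary targets `φ v ∈ F`
(`v ∈ S`) with `ord_v (φ v) ≥ -B(v)` there is `f ∈ L(B)` with
`ord_v (f - φ v) ≥ D(v) - B(v)` for all `v ∈ S`. -/
theorem exists_mem_L_approx {B D : Divisor K F} (S : Finset (Place K F))
    (hDS : ∀ v ∈ S, 0 ≤ D v) (hD0 : ∀ v ∉ S, D v = 0)
    (hdeg : 2 * (genusFF K F : ℤ) - 2 < Divisor.degree (B - D))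
    (φ : Place K F → F) (hφ : ∀ v ∈ S, φ v = 0 ∨ -B v ≤ v.ord (φ v)) :
    ∃ f ∈ riemannRochSpace B, ∀ v ∈ S, f - φ v = 0 ∨ D v - B v ≤ v.ord (f - φ v) := by
  obtain ⟨f, h1, h2⟩ := exists_approx hdeg S φ
  simp only [Finsupp.coe_sub, Pi.sub_apply, neg_sub] at h1 h2
  refine ⟨f, ?_, h1⟩
  rw [mem_L_iff]
  intro v
  by_cases hv : v ∈ S
  · -- `f = (f - φ v) + φ v`
    have hdec : f = (f - φ v) + φ v := by ring
    have hD := hDS v hv
    have ha : f - φ v = 0 ∨ -B v ≤ v.ord (f - φ v) := by
      rcases h1 v hv with h | h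
      · exact Or.inl h
      · right; omega
    have := ord_add_of_le v ha (hφ v hv)
    rwa [← hdec] at this
  · have := h2 v hv
    rw [hD0 v hv] at this
    rcases this with h | h
    · exact Or.inl h
    · right; omega

end Fermat.Agent.Lib.RR.H439

end
end
-- ===== PACK-END Lib/RR/H439/StrongApprox.lean

-- ===== PACK-BEGIN S19/H979/LocalGlue.lean
section



/-!
# Cell A3 (S19) — LOCAL = DISC + GR : the frozen split and its glue  (deputy helper979)

    S19.LocalStatement   <==   AbsLocalStatement  +  GrStatement  +  RankOneStatement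

* `AbsLocalStatement` (block DISC, architect helper799): the abstract LOCAL theorem
  `Fermat.Agent.A3.H799.LocalStatement K F k Fk` (for the frozen interface
  `Fermat.Agent.A3.H799.GoodRed`), used at `K = Q̄` only.
* `GrStatement` (block GR / GOODRED-INST): at a good level `N` there is a `GoodRed` datum for
  `F = Q̄(X₀(N))` (`modularFunctionFieldBar N`) over a valuation ring `V` of `Q̄` above `ℓ`, whose
  group `I` contains the image of the inertia group of `V` under `arithmeticGalois`.
  The residue field `k` and the special fibre `Fk` are chosen by the GR block (any `Type`).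
* `RankOneStatement` (pure algebra): valuation rings of `Q̄` above `ℓ` have rank one.

The glue `localStatement_of_abs_gr` is proved here without holes.
-/

set_option autoImplicit false

noncomputable section

open AlgebraicCurve ModularCurve

namespace Fermat.Agent.S19.H979

open Fermat.Agent.S19

/-- **DISC** (abstract LOCAL theorem, constants `Q̄`): `A3.H799.LocalStatement` for every function
field over `Q̄` and every special fibre. -/
def AbsLocalStatement : Prop :=
  ∀ (F : Type) [Field F] [Algebra Qb F] (k : Type) [Field k] [IsAlgClosed k]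
    (Fk : Type) [Field Fk] [Algebra k Fk], A3.H799.LocalStatement Qb F k Fk

/-- **GR** (good reduction of `X₀(N)` at a good level, in the form of the frozen `GoodRed`). -/
def GrStatement : Prop :=
  ∀ (N : ℕ) [NeZero N] (ℓ : ℕ) [Fact ℓ.Prime], ¬ ℓ ∣ N → GoodLevel N ℓ →
    ∃ (k : Type) (_ : Field k) (_ : IsAlgClosed k) (Fk : Type) (_ : Field Fk) (_ : Algebra k Fk)
      (𝓡 : A3.H799.GoodRed Qb (modularFunctionFieldBar N) k Fk),
      (ℓ : Qb) ∈ 𝓡.V.nonunits ∧
      ∀ σ : GalQ, IsInertiaAt 𝓡.V σ → arithmeticGalois (modularFunctionFieldFull N) σ ∈ 𝓡.I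

/-- **RANK ONE** (pure algebra): a valuation ring of `Q̄` above `ℓ` has rank one. -/
def RankOneStatement : Prop :=
  ∀ (ℓ : ℕ) [Fact ℓ.Prime] (V : ValuationSubring Qb), (ℓ : Qb) ∈ V.nonunits →
    ∀ a b : Qb, a ∈ V.nonunits → b ≠ 0 → ∃ n : ℕ, a ^ n / b ∈ V

/-- The torsion of `J₀(N)` as an additive subgroup of `Pic0`. -/
def torsSubgroup (N ℓ e : ℕ) : AddSubgroup (Pic0 Qb (modularFunctionFieldBar N)) :=
  (Submodule.torsionBy ℤ (ModularCurve.JZero N) ((ℓ : ℤ) ^ e)).toAddSubgroup

/-- The identification `Tors N ℓ e ≃+ torsSubgroup N ℓ e` (identity on the carrier). -/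
def torsEquiv (N ℓ e : ℕ) : Tors N ℓ e ≃+ torsSubgroup N ℓ e where
  toFun x := ⟨(x : ModularCurve.JZero N), x.2⟩
  invFun x := ⟨(x : Pic0 Qb (modularFunctionFieldBar N)), x.2⟩
  left_inv _ := rfl
  right_inv _ := rfl
  map_add' _ _ := rfl

theorem smul_mem_torsSubgroup (N ℓ e : ℕ)
    (g : SemilinearAut Qb (modularFunctionFieldBar N))
    (x : Pic0 Qb (modularFunctionFieldBar N)) (hx : x ∈ torsSubgroup N ℓ e) :
    g • x ∈ torsSubgroup N ℓ e := by
  have h : ((ℓ : ℤ) ^ e) • x = 0 := (Submodule.mem_torsionBy_iff _ _).1 hx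
  refine (Submodule.mem_torsionBy_iff _ _).2 ?_
  have h2 := (DistribSMul.toAddMonoidHom (Pic0 Qb (modularFunctionFieldBar N)) g).map_zsmul
    ((ℓ : ℤ) ^ e) x
  rw [h, map_zero] at h2
  exact h2.symm

/-- **Glue**: LOCAL from the abstract LOCAL theorem, the good-reduction instance, and rank one. -/
theorem localStatement_of_abs_gr (hD : AbsLocalStatement) (hG : GrStatement)
    (hR : RankOneStatement) : LocalStatement := by
  intro N _ ℓ _ hℓN hgood e hfin
  obtain ⟨k, _, _, Fk, _, _, 𝓡, hℓ, hI⟩ := hG N ℓ hℓN hgood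
  have hrank := hR ℓ 𝓡.V hℓ
  have : Finite (torsSubgroup N ℓ e) := Finite.of_equiv _ (torsEquiv N ℓ e).toEquiv
  have hT : ∀ g ∈ 𝓡.I, ∀ x ∈ torsSubgroup N ℓ e, g • x ∈ torsSubgroup N ℓ e :=
    fun g _ x hx => smul_mem_torsSubgroup N ℓ e g x hx
  obtain ⟨ι, hι, Ψ, hinj, hint, heq, hadd⟩ :=
    hD (modularFunctionFieldBar N) k Fk 𝓡 hrank (torsSubgroup N ℓ e) hT
  refine ⟨{ V := 𝓡.V
            ell_mem := hℓ
            ι := ι
            fin := hι
            Ψ := fun m => Ψ (torsEquiv N ℓ e m)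
            inj := fun m m' h => (torsEquiv N ℓ e).injective (hinj h)
            integral := fun m i => hint _ i
            equivariant := ?_
            add_mem := ?_ }⟩
  · intro σ hσ m i
    exact heq (arithmeticGalois (modularFunctionFieldFull N) σ) (hI σ hσ) (torsEquiv N ℓ e m) i
  · intro i
    -- pull back along `torsEquiv × torsEquiv`
    let φ : (torsSubgroup N ℓ e × torsSubgroup N ℓ e → Qb) →ₐ[𝓡.V]
        (Tors N ℓ e × Tors N ℓ e → Qb) :=
      { toFun := fun G p => G (torsEquiv N ℓ e p.1, torsEquiv N ℓ e p.2)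
        map_one' := rfl
        map_mul' := fun _ _ => rfl
        map_zero' := rfl
        map_add' := fun _ _ => rfl
        commutes' := fun _ => rfl }
    have h1 := Subalgebra.mem_map.2 ⟨_, hadd i, (rfl : φ _ = φ _)⟩
    rw [AlgHom.map_adjoin] at h1
    have h2 : (fun p : Tors N ℓ e × Tors N ℓ e => Ψ (torsEquiv N ℓ e (p.1 + p.2)) i) =
        φ (fun p : torsSubgroup N ℓ e × torsSubgroup N ℓ e => Ψ (p.1 + p.2) i) := by
      funext p
      show Ψ (torsEquiv N ℓ e (p.1 + p.2)) i = Ψ (torsEquiv N ℓ e p.1 + torsEquiv N ℓ e p.2) i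
      rw [map_add]
    rw [h2]
    refine Algebra.adjoin_mono ?_ h1
    rintro _ ⟨g, (⟨j, rfl⟩ | ⟨j, rfl⟩), rfl⟩
    · exact Or.inl ⟨j, rfl⟩
    · exact Or.inr ⟨j, rfl⟩

end Fermat.Agent.S19.H979

end

end
-- ===== PACK-END S19/H979/LocalGlue.lean

-- ===== PACK-BEGIN A3/H499/OrthDatum.lean
section




/-!
# A3 / GR-ORTH, route D (helper499): `GoodRed.orthonormal` from `S37.Red.Datum.Good`

* `exists_orthBasis_of_finrank_eq` : in an abstract Gauss reduction context (`S37.H217.RedCtx`)
  with a coordinate `x ∈ O`, `x̄` transcendental, `[F : K(x)] = [F_k : k(x̄)] < ∞`, and a group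
  `I` of semilinear automorphisms fixing `x` such that every element of `F_k` has an `I`-fixed
  lift in `O`: every finitely generated `K`-subspace `M ⊆ F` has an orthonormal basis, `I`-fixed
  if `M` is `I`-stable.
* `orthonormal_of_good` : the field `orthonormal` of `A3.H799.GoodRed`, verbatim, for a
  `S37.Red.Datum` with good charts (only the degree fields (H1) of `Good` are used).
-/

set_option autoImplicit false
set_option linter.unusedSectionVars false
set_option linter.style.longLine false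

noncomputable section

open AlgebraicCurve Polynomial IntermediateField

namespace Fermat.Agent.A3.H499

open Fermat.Agent.S37.H217

section Powers

/-- the powers of a transcendental element are linearly independent -/
theorem linearIndependent_pow_of_transcendental {R S : Type*} [CommRing R] [Ring S]
    [Algebra R S] {y : S} (hy : Transcendental R y) :
    LinearIndependent R (fun j : ℕ => y ^ j) := by
  have h1 : LinearIndependent R (Polynomial.basisMonomials R) :=
    (Polynomial.basisMonomials R).linearIndependent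
  have h2 := h1.map' (aeval y).toLinearMap
    (LinearMap.ker_eq_bot.mpr (transcendental_iff_injective.mp hy))
  have h3 : (fun j : ℕ => y ^ j) = (aeval y).toLinearMap ∘ (Polynomial.basisMonomials R) := by
    funext j
    simp
  rw [h3]
  exact h2

variable {k Fk : Type*} [Field k] [Field Fk] [Algebra k Fk]

/-- if `y` is transcendental over `k` and the `c i` are `k(y)`-independent, the `y ^ j * c i`
are `k`-independent -/
theorem linearIndependent_pow_mul {y : Fk} (hy : Transcendental k y) {n : ℕ} (c : Fin n → Fk)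
    (hc : LinearIndependent k⟮y⟯ c) :
    LinearIndependent k (fun p : ℕ × Fin n => y ^ p.1 * c p.2) := by
  have hb : LinearIndependent k (fun j : ℕ => (AdjoinSimple.gen k y) ^ j) := by
    apply LinearIndependent.of_comp (IntermediateField.val k⟮y⟯).toLinearMap
    convert linearIndependent_pow_of_transcendental hy using 1
    funext j
    simp
  have h1 := linearIndependent_smul hb hc
  have h2 : (fun p : ℕ × Fin n => y ^ p.1 * c p.2) =
      fun p : ℕ × Fin n => (AdjoinSimple.gen k y) ^ p.1 • c p.2 := by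
    funext p
    rw [Algebra.smul_def, IntermediateField.algebraMap_apply]
    simp
  rw [h2]
  exact h1

end Powers

variable {K F : Type*} [Field K] [Field F] [Algebra K F]
variable {k : Type*} {Fk : Type*} [Field k] [Field Fk] [Algebra k Fk]
variable {A : ValuationSubring K} {π : A →+* k}

section Resid

variable (G : RedCtx A π F Fk) {t : F} (ht : t ∈ G.O) (htr : Transcendental k (G.ρ ⟨t, ht⟩))

include htr in
/-- lifts of a `k(t̄)`-independent family are residually independent over `O ∩ K(t)` -/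
theorem residIndep_of_lifts {ι : Type*} [Fintype ι] (e : ι → G.O)
    (hind : LinearIndependent k⟮G.ρ ⟨t, ht⟩⟯ (fun i => G.ρ (e i))) :
    ResidIndep (G.V₀ t) G.O (fun i => ((e i : G.O) : F)) := by
  classical
  intro c hc hsum
  set s : G.O := ∑ i, G.incl t ⟨c i, hc i⟩ * e i with hs
  have hsF : (s : F) = ∑ i, c i • ((e i : G.O) : F) := by
    rw [hs, ← ValuationSubring.subtype_apply, map_sum]
    refine Finset.sum_congr rfl fun i _ => ?_
    rw [map_mul, Algebra.smul_def]
    rfl
  have hρs : G.ρ s = 0 := by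
    rw [G.ρ_eq_zero_iff, hsF]
    exact hsum
  have hρs' : ∑ i, G.ρ₀ ht htr ⟨c i, hc i⟩ • G.ρ (e i) = 0 := by
    rw [← hρs, hs, map_sum]
    refine Finset.sum_congr rfl fun i _ => ?_
    rw [map_mul, Algebra.smul_def]
    rfl
  have hzero := Fintype.linearIndependent_iff.mp hind _ hρs'
  intro i
  have h1 : G.ρ (G.incl t ⟨c i, hc i⟩) = 0 := by
    have := congrArg (fun z : k⟮G.ρ ⟨t, ht⟩⟯ => (z : Fk)) (hzero i)
    simpa [RedCtx.coe_ρ₀] using this
  rw [G.ρ_eq_zero_iff, RedCtx.coe_incl] at h1
  exact ((G.valExtends t).mem_nonunits_iff (c i)).mp h1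

end Resid

section Ctx

variable (G : RedCtx A π F Fk) {x : F} (hx : x ∈ G.O) (hxtr : Transcendental k (G.ρ ⟨x, hx⟩))

/-- elements of `K(x)` are quotients of polynomials (denominator form) -/
theorem exists_den_adjoin_simple (x : F) (c : K⟮x⟯) :
    ∃ r s : K[X], s ≠ 0 ∧ aeval x s * ((c : K⟮x⟯) : F) = aeval x r := by
  obtain ⟨r, s, hrs⟩ := (mem_adjoin_simple_iff K ((c : K⟮x⟯) : F)).mp c.2
  by_cases hs : aeval x s = 0
  · refine ⟨0, 1, one_ne_zero, ?_⟩
    rw [hrs, hs, div_zero, mul_zero, map_zero]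
  · refine ⟨r, s, fun h0 => hs (by rw [h0, map_zero]), ?_⟩
    rw [hrs, mul_div_cancel₀ _ hs]

include hxtr in
/-- **Route D.**  Orthonormal bases of all finitely generated subspaces from the degree
equality `[F : K(x)] = [F_k : k(x̄)]` and `I`-fixed lifts. -/
theorem exists_orthBasis_of_finrank_eq
    [FiniteDimensional K⟮x⟯ F] [FiniteDimensional k⟮G.ρ ⟨x, hx⟩⟯ Fk]
    (hfr : Module.finrank K⟮x⟯ F = Module.finrank k⟮G.ρ ⟨x, hx⟩⟯ Fk)
    (I : Subgroup (SemilinearAut K F)) (hIx : ∀ g ∈ I, g • x = x)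
    (hIlift : ∀ c : Fk, ∃ f : G.O, G.ρ f = c ∧ ∀ g ∈ I, g • ((f : G.O) : F) = f)
    (M : Submodule K F) (hMfg : M.FG) (hMI : ∀ g ∈ I, ∀ f ∈ M, g • f ∈ M) :
    ∃ (d : ℕ) (u : Fin d → G.O), IsOrthBasis k G.O G.ρ M u ∧
      ∀ g ∈ I, ∀ a, g • ((u a : G.O) : F) = u a := by
  classical
  set b₁ := Module.finBasis k⟮G.ρ ⟨x, hx⟩⟯ Fk with hb₁
  choose w hw hwI using fun i => hIlift (b₁ i)
  have hind : LinearIndependent k⟮G.ρ ⟨x, hx⟩⟯ (fun i => G.ρ (w i)) := by
    have h1 : (fun i => G.ρ (w i)) = b₁ := funext hw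
    rw [h1]
    exact b₁.linearIndependent
  have horth : LinearIndependent k
      (fun p : ℕ × Fin (Module.finrank k⟮G.ρ ⟨x, hx⟩⟯ Fk) =>
        G.ρ ((⟨x, hx⟩ : G.O) ^ p.1 * w p.2)) := by
    have h1 := linearIndependent_pow_mul hxtr _ hind
    have h2 : (fun p : ℕ × Fin (Module.finrank k⟮G.ρ ⟨x, hx⟩⟯ Fk) =>
        G.ρ ((⟨x, hx⟩ : G.O) ^ p.1 * w p.2)) =
        fun p => G.ρ ⟨x, hx⟩ ^ p.1 * G.ρ (w p.2) := by
      funext p
      rw [map_mul, map_pow]
    rw [h2]
    exact h1
  have hR : ResidIndep (G.V₀ x) G.O (fun i => ((w i : G.O) : F)) :=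
    residIndep_of_lifts G hx hxtr w hind
  have : Nonempty (Fin (Module.finrank k⟮G.ρ ⟨x, hx⟩⟯ Fk)) := ⟨⟨0, Module.finrank_pos⟩⟩
  obtain ⟨b, hb⟩ := exists_basis_of_residIndep hR (by rw [Fintype.card_fin, hfr])
  have hbi : ∀ i, b i = ((w i : G.O) : F) := fun i => congrFun hb i
  have hspan : ∀ f : F, ∃ h : K[X], h ≠ 0 ∧
      aeval (((⟨x, hx⟩ : G.O) : G.O) : F) h * f ∈ polySpan (K := K) (⟨x, hx⟩ : G.O) w := by
    intro f
    choose r s hs hrs using fun i => exists_den_adjoin_simple x (b.repr f i)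
    refine ⟨∏ i, s i, Finset.prod_ne_zero_iff.mpr (fun i _ => hs i), ?_⟩
    have hf : f = ∑ i, ((b.repr f i : K⟮x⟯) : F) * ((w i : G.O) : F) := by
      conv_lhs => rw [← b.sum_repr f]
      refine Finset.sum_congr rfl fun i _ => ?_
      rw [hbi, Algebra.smul_def]
      rfl
    show aeval x (∏ i, s i) * f ∈ _
    rw [hf, Finset.mul_sum]
    refine Submodule.sum_mem _ fun i _ => ?_
    have h1 : aeval x (∏ l, s l) * (((b.repr f i : K⟮x⟯) : F) * ((w i : G.O) : F)) =
        aeval x ((∏ l ∈ Finset.univ.erase i, s l) * r i) * ((w i : G.O) : F) := by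
      rw [← Finset.mul_prod_erase Finset.univ s (Finset.mem_univ i), map_mul, map_mul, ← hrs i]
      ring
    rw [h1]
    refine aeval_mul_mem_polySpan (⟨x, hx⟩ : G.O) w _ (Submodule.subset_span ⟨(0, i), ?_⟩)
    show x ^ 0 * ((w i : G.O) : F) = _
    rw [pow_zero, one_mul]
  exact exists_orthBasis_of_span A G.O π G.ρ (fun a ha => G.const_mem ⟨a, ha⟩)
    (fun a _ => G.ρ_const a) G.ρ_surj (⟨x, hx⟩ : G.O) hxtr w horth hspan I hIx
    (fun g hg i => hwI i g hg) M hMfg hMI

end Ctx

section Datum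

universe u

variable {K k F Fk : Type u} [Field K] [Field k] [Field F] [Field Fk]
  [Algebra K F] [Algebra k Fk] {A : ValuationSubring K} {π : A →+* k}

/-- the Gauss reduction context underlying a reduction datum of row S37 -/
def ctxOfDatum (G : Fermat.Agent.S37.Red.Datum A π F Fk) : RedCtx A π F Fk where
  π_surj := G.π_surj
  O := G.O
  ρ := G.ρ
  ρ_surj := G.ρ_surj
  const_mem := G.const_mem
  ρ_const := G.ρ_const

/-- **GR-ORTH, route D.**  The field `orthonormal` of `A3.H799.GoodRed` (with `O := G.O`,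
`red := G.ρ`), verbatim, for a reduction datum `G` of row S37 with the degree equality (H1) of
`G.Good`, a group `I` fixing the coordinate `G.x`, and `I`-fixed lifts of the elements of
`F_k`. -/
theorem orthonormal_of_good (G : Fermat.Agent.S37.Red.Datum A π F Fk)
    (hfin : FiniteDimensional K⟮G.x⟯ F) (hfink : FiniteDimensional k⟮G.xk⟯ Fk)
    (hfr : Module.finrank K⟮G.x⟯ F = Module.finrank k⟮G.xk⟯ Fk)
    (hff : Fermat.Agent.Lib.RR.FF1 K F)
    (I : Subgroup (SemilinearAut K F)) (hIx : ∀ g ∈ I, g • G.x = G.x)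
    (hIlift : ∀ c : Fk, ∃ f : G.O, G.ρ f = c ∧ ∀ g ∈ I, g • ((f : G.O) : F) = f) :
    ∀ D : Divisor K F, ∃ (n : ℕ) (b : Fin n → G.O),
      LinearIndependent k (fun i => G.ρ (b i)) ∧
      (∀ i, ((b i : G.O) : F) ∈ riemannRochSpace D) ∧
      Submodule.span K (Set.range fun i => ((b i : G.O) : F)) = riemannRochSpace D ∧
      ((∀ g ∈ I, g • D = D) → ∀ i, ∀ g ∈ I, g • ((b i : G.O) : F) = ((b i : G.O) : F)) := by
  intro D
  have := hff
  have := hfin
  have : FiniteDimensional k⟮(ctxOfDatum G).ρ ⟨G.x, G.x_mem⟩⟯ Fk := hfink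
  have hfg : (riemannRochSpace D : Submodule K F).FG := Module.Finite.iff_fg.mp inferInstance
  by_cases hD : ∀ g ∈ I, g • D = D
  · obtain ⟨n, b, ⟨h1, h2, h3⟩, h4⟩ :=
      exists_orthBasis_of_finrank_eq (ctxOfDatum G) G.x_mem G.xk_transc hfr I hIx hIlift
        (riemannRochSpace D) hfg (fun g hg f hf => by
          have := smul_mem_L g hf
          rwa [hD g hg] at this)
    exact ⟨n, b, h1, h2, h3, fun _ i g hg => h4 g hg i⟩
  · obtain ⟨n, b, ⟨h1, h2, h3⟩, -⟩ :=
      exists_orthBasis_of_finrank_eq (ctxOfDatum G) G.x_mem G.xk_transc hfr ⊥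
        (fun g hg => by rw [Subgroup.mem_bot.mp hg, one_smul])
        (fun c => by
          obtain ⟨f, hf, -⟩ := hIlift c
          exact ⟨f, hf, fun g hg => by rw [Subgroup.mem_bot.mp hg, one_smul]⟩)
        (riemannRochSpace D) hfg (fun g hg f hf => by rwa [Subgroup.mem_bot.mp hg, one_smul])
    exact ⟨n, b, h1, h2, h3, fun h => absurd h hD⟩

/-- `orthonormal_of_good` with the hypothesis `G.Good`. -/
theorem orthonormal_of_good' (G : Fermat.Agent.S37.Red.Datum A π F Fk) (hgood : G.Good)
    (hff : Fermat.Agent.Lib.RR.FF1 K F)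
    (I : Subgroup (SemilinearAut K F)) (hIx : ∀ g ∈ I, g • G.x = G.x)
    (hIlift : ∀ c : Fk, ∃ f : G.O, G.ρ f = c ∧ ∀ g ∈ I, g • ((f : G.O) : F) = f) :
    ∀ D : Divisor K F, ∃ (n : ℕ) (b : Fin n → G.O),
      LinearIndependent k (fun i => G.ρ (b i)) ∧
      (∀ i, ((b i : G.O) : F) ∈ riemannRochSpace D) ∧
      Submodule.span K (Set.range fun i => ((b i : G.O) : F)) = riemannRochSpace D ∧
      ((∀ g ∈ I, g • D = D) → ∀ i, ∀ g ∈ I, g • ((b i : G.O) : F) = ((b i : G.O) : F)) :=
  orthonormal_of_good G hgood.finite hgood.finite_k hgood.finrank_eq hff I hIx hIlift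

end Datum

end Fermat.Agent.A3.H499

end

end
-- ===== PACK-END A3/H499/OrthDatum.lean

-- ===== PACK-BEGIN S19/H679/Descent.lean
section


/-!
# Cell A3 (S19), block UNR (helper679) — the key descent

`Hloc = V · (Hloc ∩ {Galois-invariant functions})`.

For a good function `f` (inertia-invariant, `E`-valued, in `Hloc`) the orbit traces
`∑_{p ∈ orbit of (c, f)} c_p • f_p` with coefficients `c_j = U · c⁰_j` (`U` the CRT element,
`c⁰_j` the Lagrange monomials) are Galois-invariant elements of `Hloc`, and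
`∑_j a_j • trace_j ≡ f` modulo `𝔪_V • Hloc`.  Nakayama finishes.
-/

set_option autoImplicit false

namespace Fermat.Agent.S19.H679

open Fermat.Agent.S54 Fermat.Agent.S55.Bridge Fermat.Agent.S55.Bridge.H594

attribute [local instance] isAlgebraic_Qbar isGalois_Qbar

variable {ℓ : ℕ} {M : Type} [AddCommGroup M] {act : GalQ → M → M}

/-- The Galois-invariant elements of `Hloc`. -/
def invSetH679 (L : LocalCoordDatum ℓ M act) : Set (M → Qb) :=
  {h | h ∈ Subalgebra.toSubmodule (HlocH679 L) ∧ ∀ σ : GalQ, starH679 act σ h = h}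

section

variable [Finite M] (hℓ : ℓ.Prime) (hact : IsContAddAction act) (L : LocalCoordDatum ℓ M act)

include hℓ in
/-- Uniform bound for the denominators of the conjugates of the values of a function. -/
theorem exists_denomH679 (f : M → Qb) :
    ∃ a : ℕ, ∀ (σ : GalQ) (m : M), (ℓ : Qb) ^ a * σ (f m) ∈ L.V := by
  classical
  haveI := Fintype.ofFinite M
  choose am ham using fun m => exists_pow_mul_conj_memH679 L.V hℓ L.ell_mem (f m)
  refine ⟨∑ m, am m, fun σ m => ?_⟩
  have hle : am m ≤ ∑ m, am m :=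
    Finset.single_le_sum (fun _ _ => Nat.zero_le _) (Finset.mem_univ m)
  have : (ℓ : Qb) ^ (∑ m, am m) * σ (f m)
      = (ℓ : Qb) ^ ((∑ m, am m) - am m) * ((ℓ : Qb) ^ am m * σ (f m)) := by
    rw [← mul_assoc, ← pow_add, Nat.sub_add_cancel hle]
  rw [this]
  exact L.V.mul_mem _ _ (pow_mem (mem_of_mem_nonunitsH679 L.V L.ell_mem) _) (ham m σ)

include hℓ hact in
/-- One good function is, modulo `𝔪 • Hloc`, a combination of invariants. -/
theorem good_mem_supH679 (Λ : LevelDataH679 L) (e : ℕ)
    (he : ∀ F : M → Qb, (∀ m, ∃ z ∈ L.V, F m = (ℓ : Qb) ^ (e + 1) * z) →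
      F ∈ IsLocalRing.maximalIdeal L.V • Subalgebra.toSubmodule (HlocH679 L))
    {f : M → Qb} (hf : IsGoodFunH679 L Λ f) :
    f ∈ Submodule.span L.V (invSetH679 L) ⊔
      IsLocalRing.maximalIdeal L.V • Subalgebra.toSubmodule (HlocH679 L) := by
  classical
  haveI := Λ.normal
  haveI := Λ.fin
  have hA := isActH679_of_cont hact
  obtain ⟨a, ha⟩ := exists_denomH679 hℓ L f
  obtain ⟨U, hUgood, hU1, hUbad⟩ := exists_crtH679 L.V Λ.E hℓ L.ell_mem (e + 1 + a)
  obtain ⟨J, hJ, c, w, hcgood, hw1, hw0⟩ := exists_weightsH679 L.V Λ.E hℓ L.ell_mem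
  obtain ⟨reps, hreps⟩ := exists_repsH679 Λ.E
  have hc'good : ∀ j, IsGoodEltH679 L.V Λ.E (U * c j) := fun j => hUgood.mul L.V Λ.E (hcgood j)
  -- agreement on `E` gives the same action on the base point
  have hagree : ∀ σ ρ : GalQ, (∀ x ∈ Λ.E, σ x = ρ x) →
      actPairH679 act σ ((fun j => U * c j), f) = actPairH679 act ρ ((fun j => U * c j), f) := by
    intro σ ρ h
    unfold actPairH679
    refine Prod.ext ?_ ?_
    · funext j
      exact h _ (hc'good j).1
    · exact star_eq_of_agreeH679 hact Λ.level h hf.1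
  have hfix : ∀ ι ∈ L.V.inertiaSubgroupIn ℚ,
      actPairH679 act ι ((fun j => U * c j), f) = ((fun j => U * c j), f) := by
    intro ι hι
    unfold actPairH679
    refine Prod.ext ?_ ?_
    · funext j
      exact (hc'good j).2.2 ι hι
    · exact hf.2.1 ι hι
  refine orbitTrace_mem hA (IsLocalRing.maximalIdeal L.V) (Subalgebra.toSubmodule (HlocH679 L))
    (fun j => U * c j) w f (L.V.decompositionSubgroup ℚ : Set GalQ)
    (L.V.decompositionSubgroup ℚ).one_mem ?_ ?_ ?_ ?_ ?_ ?_
  · -- finiteness of the orbit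
    refine Set.Finite.subset
      (reps.image fun ρ => actPairH679 act ρ ((fun j => U * c j), f)).finite_toSet ?_
    rintro p ⟨σ, rfl⟩
    obtain ⟨ρ, hρ, hσρ⟩ := hreps σ
    rw [Finset.mem_coe, Finset.mem_image]
    exact ⟨ρ, hρ, (hagree σ ρ hσρ).symm⟩
  · intro δ hδ
    exact Hloc_stableH679 hact L hδ hf.2.2
  · intro δ _ j
    exact ⟨⟨δ (U * c j), (hc'good j).apply_mem_V L.V Λ.E δ⟩, rfl⟩
  · -- the base term
    refine ⟨⟨U - 1, mem_of_mem_nonunitsH679 L.V hU1⟩,
      (ValuationSubring.coe_mem_nonunits_iff).1 hU1, ?_⟩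
    have h1 := hw1 1 (L.V.decompositionSubgroup ℚ).one_mem
      ⟨1, (L.V.inertiaSubgroupIn ℚ).one_mem, fun _ _ => rfl⟩
    have h2 : ∑ j, algebraMap L.V Qb (w j) * (U * c j)
        = U * ∑ j, (w j : Qb) * (1 : GalQ) (c j) := by
      rw [Finset.mul_sum]
      refine Finset.sum_congr rfl fun j _ => ?_
      show (w j : Qb) * (U * c j) = U * ((w j : Qb) * c j)
      ring
    rw [h2, h1, mul_one]
    show U = 1 + (U - 1)
    ring
  · -- decomposition elements moving the base point
    intro δ hδ hne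
    have hδI : ¬ ∃ ι ∈ L.V.inertiaSubgroupIn ℚ, ∀ x ∈ Λ.E, δ x = ι x := by
      rintro ⟨ι, hι, hδι⟩
      apply hne
      rw [hagree δ ι hδι]
      exact hfix ι hι
    refine ⟨0, zero_mem _, ?_⟩
    have h1 := hw0 δ hδ hδI
    have h2 : ∑ j, algebraMap L.V Qb (w j) * δ • (U * c j)
        = δ U * ∑ j, (w j : Qb) * δ (c j) := by
      rw [Finset.mul_sum]
      refine Finset.sum_congr rfl fun j _ => ?_
      show (w j : Qb) * δ (U * c j) = δ U * ((w j : Qb) * δ (c j))
      rw [map_mul]
      ring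
    rw [h2, h1, mul_zero, map_zero]
  · -- bad automorphisms
    intro σ hσ j
    have hσD : ¬ ∃ δ ∈ L.V.decompositionSubgroup ℚ, ∀ x ∈ Λ.E, δ x = σ x := by
      rintro ⟨δ, hδ, hδσ⟩
      exact hσ δ hδ (hagree δ σ hδσ).symm
    obtain ⟨z, hz, hσU⟩ := hUbad σ hσD
    apply he
    intro m
    refine ⟨z * σ (c j) * ((ℓ : Qb) ^ a * σ (f (act σ⁻¹ m))),
      L.V.mul_mem _ _ (L.V.mul_mem _ _ hz ((hcgood j).apply_mem_V L.V Λ.E σ)) (ha σ _), ?_⟩
    show σ (U * c j) * σ (f (act σ⁻¹ m)) = _
    rw [map_mul, hσU, pow_add, pow_add]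
    ring

include hℓ hact in
/-- **Key descent**: `Hloc` is spanned over `V` by its Galois-invariant elements. -/
theorem Hloc_le_span_invH679 :
    Subalgebra.toSubmodule (HlocH679 L) ≤ Submodule.span L.V (invSetH679 L) := by
  obtain ⟨Λ⟩ := exists_levelDataH679 hact L
  obtain ⟨e, he⟩ := exists_conductorH679 hℓ hact L
  refine Submodule.le_of_le_smul_of_le_jacobson_bot (Hloc_fgH679 hact L Λ)
    (le_of_eq (IsLocalRing.jacobson_eq_maximalIdeal ⊥ bot_ne_top).symm) ?_
  refine (Hloc_le_span_goodH679 hact L Λ).trans (Submodule.span_le.2 ?_)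
  intro f hf
  exact good_mem_supH679 hℓ hact L Λ e he hf

end

end Fermat.Agent.S19.H679

end
-- ===== PACK-END S19/H679/Descent.lean

-- ===== PACK-BEGIN S19/H679/Delta.lean
section


/-!
# Cell A3 (S19), block UNR (helper679) — `Hloc` is closed under the comultiplication

For `h ∈ Hloc` the function `(x, y) ↦ h (x + y)` lies in the image of `Hloc ⊗ Hloc`, i.e. in
`Submodule.map₂ T Hloc Hloc` with `T g g' = fun p => g p.1 * g' p.2`.
-/

set_option autoImplicit false

namespace Fermat.Agent.S19.H679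

open Fermat.Agent.S54 Fermat.Agent.S55.Bridge

variable {ℓ : ℕ} {M : Type} [AddCommGroup M] {act : GalQ → M → M}

/-- The diagonal action on pairs. -/
def act2H679 (act : GalQ → M → M) (σ : GalQ) (p : M × M) : M × M := (act σ p.1, act σ p.2)

/-- Pull-back of functions along the addition. -/
def addPullH679 (f : M → Qb) : M × M → Qb := fun p => f (p.1 + p.2)

/-- `T g g' = (x, y) ↦ g x * g' y`, as a bilinear map over `V`. -/
noncomputable def tensH679 (V : ValuationSubring Qb) (N : Type*) :
    (N → Qb) →ₗ[V] (N → Qb) →ₗ[V] (N × N → Qb) :=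
  LinearMap.mk₂ V (fun g g' p => g p.1 * g' p.2)
    (fun g₁ g₂ g' => by funext p; simp [add_mul])
    (fun c g g' => by funext p; simp)
    (fun g g₁ g₂ => by funext p; simp [mul_add])
    (fun c g g' => by funext p; simp)

@[simp] theorem tensH679_apply (V : ValuationSubring Qb) {N : Type*} (g g' : N → Qb)
    (p : N × N) : tensH679 V N g g' p = g p.1 * g' p.2 := rfl

theorem tensH679_mul (V : ValuationSubring Qb) {N : Type*} (g₁ g₁' g₂ g₂' : N → Qb) :
    tensH679 V N g₁ g₁' * tensH679 V N g₂ g₂' = tensH679 V N (g₁ * g₂) (g₁' * g₂') := by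
  funext p
  simp only [Pi.mul_apply, tensH679_apply]
  ring

section

variable (hact : IsContAddAction act) (L : LocalCoordDatum ℓ M act)

include hact in
/-- (Δ1) the generators. -/
theorem addPull_conjFamH679 {φ : M → Qb} (hφ : φ ∈ conjFamH679 L) :
    addPullH679 φ ∈ Algebra.adjoin L.V (coordFunctions (conjFamH679 L)) := by
  obtain ⟨δ, hδ, i, rfl⟩ := hφ
  have h1 := L.add_mem i
  have h2 := star_mem_adjoinH679 (act2H679 act) hδ _ (coordFunctions (conjFamH679 L)) ?_ h1
  · have h3 : starH679 (act2H679 act) δ (fun p : M × M => L.Ψ (p.1 + p.2) i)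
        = addPullH679 (starH679 act δ (psiH679 L i)) := by
      funext p
      show δ (L.Ψ (act δ⁻¹ p.1 + act δ⁻¹ p.2) i) = δ (L.Ψ (act δ⁻¹ (p.1 + p.2)) i)
      rw [hact.act_add]
    rw [h3] at h2
    exact h2
  · rintro g (⟨j, rfl⟩ | ⟨j, rfl⟩)
    · refine Algebra.subset_adjoin (Or.inl ⟨starH679 act δ (psiH679 L j), ⟨δ, hδ, j, rfl⟩, ?_⟩)
      funext p
      rfl
    · refine Algebra.subset_adjoin (Or.inr ⟨starH679 act δ (psiH679 L j), ⟨δ, hδ, j, rfl⟩, ?_⟩)
      funext p
      rfl

include hact in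
/-- (Δ2) all of `Hloc`. -/
theorem addPull_HlocH679 {h : M → Qb} (hh : h ∈ HlocH679 L) :
    addPullH679 h ∈ Algebra.adjoin L.V (coordFunctions (conjFamH679 L)) := by
  unfold HlocH679 at hh
  induction hh using Algebra.adjoin_induction with
  | mem x hx => exact addPull_conjFamH679 hact L hx
  | algebraMap r =>
    have : addPullH679 (algebraMap L.V (M → Qb) r) = algebraMap L.V (M × M → Qb) r := by
      funext p
      rfl
    rw [this]
    exact Subalgebra.algebraMap_mem _ _
  | add x y _ _ hx hy =>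
    have : addPullH679 (x + y) = addPullH679 x + addPullH679 y := by
      funext p
      rfl
    rw [this]
    exact add_mem hx hy
  | mul x y _ _ hx hy =>
    have : addPullH679 (x * y) = addPullH679 x * addPullH679 y := by
      funext p
      rfl
    rw [this]
    exact mul_mem hx hy

/-- The image of `Hloc ⊗ Hloc`. -/
noncomputable def tensImageH679 : Submodule L.V (M × M → Qb) :=
  Submodule.map₂ (tensH679 L.V M) (Subalgebra.toSubmodule (HlocH679 L))
    (Subalgebra.toSubmodule (HlocH679 L))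

theorem tens_mem_tensImageH679 {g g' : M → Qb} (hg : g ∈ HlocH679 L) (hg' : g' ∈ HlocH679 L) :
    tensH679 L.V M g g' ∈ tensImageH679 L :=
  Submodule.apply_mem_map₂ _ hg hg'

theorem tensImage_eq_spanH679 :
    tensImageH679 L = Submodule.span L.V
      (Set.image2 (fun g g' => tensH679 L.V M g g')
        (Subalgebra.toSubmodule (HlocH679 L) : Set (M → Qb))
        (Subalgebra.toSubmodule (HlocH679 L) : Set (M → Qb))) :=
  Submodule.map₂_eq_span_image2 _ _ _

theorem tensImage_mulH679 {x y : M × M → Qb} (hx : x ∈ tensImageH679 L)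
    (hy : y ∈ tensImageH679 L) : x * y ∈ tensImageH679 L := by
  rw [tensImage_eq_spanH679] at hx hy ⊢
  have h1 := Submodule.mul_mem_mul hx hy
  rw [Submodule.span_mul_span] at h1
  refine Submodule.span_mono ?_ h1
  rintro z ⟨a, ⟨g₁, hg₁, g₁', hg₁', rfl⟩, b, ⟨g₂, hg₂, g₂', hg₂', rfl⟩, rfl⟩
  refine ⟨g₁ * g₂, ?_, g₁' * g₂', ?_, (tensH679_mul L.V g₁ g₁' g₂ g₂').symm⟩
  · exact (HlocH679 L).mul_mem hg₁ hg₂
  · exact (HlocH679 L).mul_mem hg₁' hg₂'

/-- (Δ3) the adjoin of the coordinate functions lies in the image of `Hloc ⊗ Hloc`. -/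
theorem adjoin_le_tensImageH679 {G : M × M → Qb}
    (hG : G ∈ Algebra.adjoin L.V (coordFunctions (conjFamH679 L))) : G ∈ tensImageH679 L := by
  induction hG using Algebra.adjoin_induction with
  | mem x hx =>
    rcases hx with ⟨h, hh, rfl⟩ | ⟨h, hh, rfl⟩
    · have : (fun p : M × M => h p.1) = tensH679 L.V M h 1 := by
        funext p
        simp
      rw [this]
      exact tens_mem_tensImageH679 L (Algebra.subset_adjoin hh) (one_mem _)
    · have : (fun p : M × M => h p.2) = tensH679 L.V M 1 h := by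
        funext p
        simp
      rw [this]
      exact tens_mem_tensImageH679 L (one_mem _) (Algebra.subset_adjoin hh)
  | algebraMap r =>
    have : algebraMap L.V (M × M → Qb) r = r • tensH679 L.V M 1 1 := by
      funext p
      simp [Algebra.algebraMap_eq_smul_one]
    rw [this]
    exact Submodule.smul_mem _ _ (tens_mem_tensImageH679 L (one_mem _) (one_mem _))
  | add x y _ _ hx hy => exact add_mem hx hy
  | mul x y _ _ hx hy => exact tensImage_mulH679 L hx hy

include hact in
/-- (Δ) `Hloc` is closed under the comultiplication. -/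
theorem addPull_mem_tensImageH679 {h : M → Qb} (hh : h ∈ HlocH679 L) :
    addPullH679 h ∈ tensImageH679 L :=
  adjoin_le_tensImageH679 L (addPull_HlocH679 hact L hh)

/-- (Δ4) in terms of a spanning set of `Hloc`. -/
theorem tensImage_eq_span_of_spanH679 (F : Set (M → Qb))
    (hF : Submodule.span L.V F = Subalgebra.toSubmodule (HlocH679 L)) :
    tensImageH679 L = Submodule.span L.V
      (Set.image2 (fun g g' => tensH679 L.V M g g') F F) := by
  unfold tensImageH679
  rw [← hF, Submodule.map₂_span_span]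

end

end Fermat.Agent.S19.H679

end
-- ===== PACK-END S19/H679/Delta.lean

-- ===== PACK-BEGIN S19/H679/Main.lean
section




/-!
# Cell A3 (S19), block UNR (helper679) — `UnrStatement`

Local coordinates at one place, equivariant under inertia only, give global Galois-equivariant
integral coordinates with `Z̄_(ℓ)`-polynomial addition.

    theorem unrStatementH679 : Fermat.Agent.S19.UnrStatement
-/

set_option autoImplicit false

namespace Fermat.Agent.S19.H679

open Fermat.Agent.S54 Fermat.Agent.S55.Bridge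

attribute [local instance] isAlgebraic_Qbar isGalois_Qbar

/-- Independence over a finset, transported to the subtype. -/
theorem indep_subtypeH679 {N : Type*} (F : Finset (N → Qb))
    (hind : ∀ g : (N → Qb) → Qb, ∑ f ∈ F, g f • f = 0 → ∀ f ∈ F, g f = 0)
    (g : ↥F → Qb) (hg : ∑ k : ↥F, g k • (k : N → Qb) = 0) : ∀ k, g k = 0 := by
  classical
  intro k
  have h1 := hind (fun f => if h : f ∈ F then g ⟨f, h⟩ else 0) ?_ k.1 k.2
  · simpa using h1
  · rw [← Finset.sum_coe_sort F]
    rw [← hg]
    refine Finset.sum_congr rfl fun k _ => ?_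
    simp

/-- Independence of products, for a family indexed by a finite type. -/
theorem tensor_indep_subtypeH679 {N : Type*} (F : Finset (N → Qb))
    (hind : ∀ g : (N → Qb) → Qb, ∑ f ∈ F, g f • f = 0 → ∀ f ∈ F, g f = 0)
    (c : ↥F × ↥F → Qb)
    (hc : ∀ x y : N, ∑ p : ↥F × ↥F, c p * ((p.1 : N → Qb) x * (p.2 : N → Qb) y) = 0) :
    ∀ p, c p = 0 := by
  classical
  have hind' := indep_subtypeH679 F hind
  have h1 : ∀ (y : N) (k : ↥F), ∑ k' : ↥F, c (k, k') * (k' : N → Qb) y = 0 := by
    intro y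
    apply hind' (fun k => ∑ k' : ↥F, c (k, k') * (k' : N → Qb) y)
    funext x
    rw [Finset.sum_apply, Pi.zero_apply, ← hc x y, Fintype.sum_prod_type]
    refine Finset.sum_congr rfl fun k _ => ?_
    rw [Pi.smul_apply, smul_eq_mul, Finset.sum_mul]
    refine Finset.sum_congr rfl fun k' _ => ?_
    ring
  rintro ⟨k, k'⟩
  refine hind' (fun k' => c (k, k')) ?_ k'
  funext y
  rw [Finset.sum_apply, Pi.zero_apply, ← h1 y k]
  refine Finset.sum_congr rfl fun k' _ => ?_
  rw [Pi.smul_apply, smul_eq_mul]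

variable {ℓ : ℕ} {M : Type} [AddCommGroup M] {act : GalQ → M → M}

/-- The diagonal action is an action. -/
theorem isAct2H679 (hact : IsContAddAction act) : IsActH679 (act2H679 act) :=
  ⟨fun p => Prod.ext (hact.act_one _) (hact.act_one _),
    fun σ τ p => Prod.ext (hact.act_mul _ _ _) (hact.act_mul _ _ _)⟩

theorem star2_tensH679 (V : ValuationSubring Qb) (σ : GalQ) (g g' : M → Qb) :
    starH679 (act2H679 act) σ (tensH679 V M g g')
      = tensH679 V M (starH679 act σ g) (starH679 act σ g') := by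
  funext p
  show σ (g (act σ⁻¹ p.1) * g' (act σ⁻¹ p.2)) = _
  rw [map_mul]
  rfl

theorem star2_addPullH679 (hact : IsContAddAction act) (σ : GalQ) (f : M → Qb) :
    starH679 (act2H679 act) σ (addPullH679 f) = addPullH679 (starH679 act σ f) := by
  funext p
  show σ (f (act σ⁻¹ p.1 + act σ⁻¹ p.2)) = σ (f (act σ⁻¹ (p.1 + p.2)))
  rw [hact.act_add]

/-- **UNR**: unramified descent of local coordinates. -/
theorem unrStatementH679 : UnrStatement := by
  classical
  intro ℓ hℓfact M _ _ act hact L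
  have hℓ : ℓ.Prime := hℓfact.out
  have hA := isActH679_of_cont hact
  have hspan : Submodule.span L.V (invSetH679 L) = Subalgebra.toSubmodule (HlocH679 L) :=
    le_antisymm (Submodule.span_le.2 fun h hh => hh.1) (Hloc_le_span_invH679 hℓ hact L)
  obtain ⟨Λ⟩ := exists_levelDataH679 hact L
  obtain ⟨F, hF1, hF2, hF3⟩ :=
    exists_minimal_spanningH679 (invSetH679 L) _ (Hloc_fgH679 hact L Λ) hspan
  have hind := indep_of_minimalH679 L.V F hF3
  have hFinv : ∀ k : ↥F, ∀ σ : GalQ, starH679 act σ (k : M → Qb) = k := fun k σ =>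
    (hF1 k.2).2 σ
  have hFH : ∀ k : ↥F, (k : M → Qb) ∈ HlocH679 L := fun k => (hF1 k.2).1
  have hFV : ∀ (k : ↥F) (m : M), (k : M → Qb) m ∈ L.V := fun k m =>
    Hloc_le_valuedH679 L (hFH k) m
  have hFeq : ∀ (k : ↥F) (σ : GalQ) (m : M), (k : M → Qb) (act σ m) = σ ((k : M → Qb) m) :=
    fun k σ m => (starH679_eq_self_iff hA σ _).1 (hFinv k σ) m
  refine ⟨{ ι := ↥F
            fin := inferInstance
            Φ := fun m k => (k : M → Qb) m
            inj := ?_
            equivariant := fun σ m k => hFeq k σ m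
            integral := ?_
            add_mem := ?_ }⟩
  · -- injectivity
    intro m m' h
    apply L.inj
    funext i
    have hsub : Submodule.span L.V (F : Set (M → Qb)) ≤
        LinearMap.ker ((LinearMap.proj m : (M → Qb) →ₗ[L.V] Qb) - LinearMap.proj m') := by
      rw [Submodule.span_le]
      intro f hf
      rw [SetLike.mem_coe, LinearMap.mem_ker, LinearMap.sub_apply, sub_eq_zero]
      exact congrFun h ⟨f, hf⟩
    have h1 : psiH679 L i ∈ Submodule.span L.V (F : Set (M → Qb)) := by
      rw [hF2]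
      exact psi_mem_HlocH679 hact L i
    have h2 := hsub h1
    rw [LinearMap.mem_ker, LinearMap.sub_apply, sub_eq_zero] at h2
    exact h2
  · -- integrality
    intro m k
    apply isIntegral_of_conj_memH679 L.V hℓ L.ell_mem
    intro σ
    rw [← hFeq k σ m]
    exact hFV k _
  · -- addition
    intro k
    have h1 : addPullH679 (k : M → Qb) ∈ tensImageH679 L :=
      addPull_mem_tensImageH679 hact L (hFH k)
    rw [tensImage_eq_span_of_spanH679 L (F : Set (M → Qb)) hF2] at h1
    have hrange : Set.image2 (fun g g' => tensH679 L.V M g g') (F : Set (M → Qb))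
        (F : Set (M → Qb)) = Set.range fun p : ↥F × ↥F =>
          tensH679 L.V M (p.1 : M → Qb) (p.2 : M → Qb) := by
      ext G
      constructor
      · rintro ⟨g, hg, g', hg', rfl⟩
        exact ⟨(⟨g, hg⟩, ⟨g', hg'⟩), rfl⟩
      · rintro ⟨p, rfl⟩
        exact ⟨p.1, p.1.2, p.2, p.2.2, rfl⟩
    rw [hrange, Submodule.mem_span_range_iff_exists_fun] at h1
    obtain ⟨c, hc⟩ := h1
    -- pointwise form
    have hcpt : ∀ x y : M, ∑ p : ↥F × ↥F, (c p : Qb) * ((p.1 : M → Qb) x * (p.2 : M → Qb) y)
        = (k : M → Qb) (x + y) := by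
      intro x y
      have := congrFun hc (x, y)
      rw [Finset.sum_apply] at this
      exact this
    -- the coefficients are Galois-invariant
    have hcinv : ∀ (σ : GalQ) (p : ↥F × ↥F), σ (c p : Qb) = (c p : Qb) := by
      intro σ p
      have h2 : ∀ x y : M, ∑ p : ↥F × ↥F,
          (σ (c p : Qb) - (c p : Qb)) * ((p.1 : M → Qb) x * (p.2 : M → Qb) y) = 0 := by
        intro x y
        have h3 := congrArg σ (hcpt (act σ⁻¹ x) (act σ⁻¹ y))
        rw [map_sum, ← hact.act_add, ← hFeq k σ, hA.act_inv, ← hcpt x y] at h3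
        rw [← sub_eq_zero, ← Finset.sum_sub_distrib] at h3
        rw [← h3]
        refine Finset.sum_congr rfl fun p _ => ?_
        rw [map_mul, map_mul, ← hFeq p.1 σ, ← hFeq p.2 σ, hA.act_inv, hA.act_inv]
        ring
      have h4 := tensor_indep_subtypeH679 F hind (fun p => σ (c p : Qb) - (c p : Qb)) h2 p
      exact sub_eq_zero.1 h4
    -- hence they lie in `ℤ_(ℓ)`, in particular in `Zb`
    have hcint : ∀ p : ↥F × ↥F, IsIntegral (Rl ℓ) (c p : Qb) := by
      intro p
      obtain ⟨q, hq⟩ := mem_range_of_fixedH679 (c p : Qb) fun σ => hcinv σ p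
      have hqR : q ∈ Rl ℓ := mem_ratLocalizedAtH679 L.V hℓ L.ell_mem q (hq ▸ (c p).2)
      have : (c p : Qb) = algebraMap (Rl ℓ) Qb ⟨q, hqR⟩ := hq.symm
      rw [this]
      exact isIntegral_algebraMap
    have hfinal : (fun p : M × M => (k : M → Qb) (p.1 + p.2))
        = ∑ p : ↥F × ↥F, (⟨(c p : Qb), hcint p⟩ : Zb ℓ) •
            ((fun x : M × M => (p.1 : M → Qb) x.1) * fun x : M × M => (p.2 : M → Qb) x.2) := by
      funext x
      rw [Finset.sum_apply, ← hcpt x.1 x.2]
      rfl
    rw [hfinal]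
    refine Subalgebra.sum_mem _ fun p _ => Subalgebra.smul_mem _ (mul_mem ?_ ?_) _
    · exact Algebra.subset_adjoin (Or.inl ⟨p.1, rfl⟩)
    · exact Algebra.subset_adjoin (Or.inr ⟨p.2, rfl⟩)

end Fermat.Agent.S19.H679

end
-- ===== PACK-END S19/H679/Main.lean

-- ===== PACK-BEGIN S56/H664/FlatUnit.lean
section



/-!
# S56 / FLAT-O, piece (FU): unit resolvent = "peu ramifié" (helper664)

`flatUnit : Fermat.Agent.S56.H906.FlatUnitStatement` (verbatim, unconditional).

Route (no convolution ring, no Galois descent, no discreteness; inertia is not used):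
* `span_Qb_eq_top`, `exists_Qb_basis`: a `ℤ_(p)`-basis of the Hopf lattice is a `ℚ̄`-basis of all
  functions `M → ℚ̄` (separation).
* `isIntegral_coord_of_mul`: the coordinates `c_i` of a character `χ` of `M` in that basis span a
  `ℤ_(p)`-module closed under multiplication (structure constants of the comultiplication), so
  they are integral over `ℤ_(p)`, hence lie in `P`.
* `mem_span_fixedInt` (saturation, first section) applied to the space `W` of coordinate
  vectors of functions `F` with `F(y + t) = χ(t) F(y)` (`t ∈ L`): `χ = ∑ a_j F_j` with `a_j ∈ P` and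
  `F_j ∈ W` integral with `H`-fixed coordinates; since `χ(x)` is a unit some `F_j(x)` is a unit.
-/

set_option autoImplicit false
set_option linter.unusedSectionVars false
set_option linter.style.haveILetI false

noncomputable section

namespace Fermat.Agent.S56.H664

open Fermat.Agent.S56 Fermat.Agent.S56.H906

/-! ## Saturation

`K` a field, `P` a valuation subring, `T` a set of ring endomorphisms of `K`, `W ⊆ K^ι` a
`K`-subspace stable under the coordinatewise action of `T`.  Then every vector of `W` with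
coordinates in `P` is a `P`-linear combination of vectors of `W` with coordinates in `P` which are
fixed by `T`.  Proof: one induction on `dim W`; a nonzero vector of `W` with minimal support,
normalised at a coordinate of maximal valuation, is fixed by `T` and has coordinates in `P`;
subtract a multiple of it and pass to the subspace of `W` where that coordinate vanishes. -/

section Sat

variable {K : Type*} [Field K] (P : ValuationSubring K) (T : Set (K →+* K))
  {ι : Type*} [Fintype ι]

/-- The vectors of `W` with coordinates in `P` which are fixed by `T`. -/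
def fixedInt (W : Submodule K (ι → K)) : Set (ι → K) :=
  {c | c ∈ W ∧ (∀ i, c i ∈ P) ∧ ∀ σ ∈ T, ∀ i, σ (c i) = c i}

omit [Fintype ι] in
theorem fixedInt_mono {W W' : Submodule K (ι → K)} (h : W' ≤ W) :
    fixedInt P T W' ⊆ fixedInt P T W :=
  fun _ hc => ⟨h hc.1, hc.2.1, hc.2.2⟩

theorem mem_span_fixedInt_aux (d : ℕ) :
    ∀ (W : Submodule K (ι → K)), Module.finrank K W = d →
      (∀ σ ∈ T, ∀ c ∈ W, (fun i => σ (c i)) ∈ W) →
      ∀ z ∈ W, (∀ i, z i ∈ P) → z ∈ Submodule.span P (fixedInt P T W) := by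
  classical
  induction d using Nat.strong_induction_on with
  | _ d ih =>
    intro W hd hW z hz hzP
    by_cases hz0 : z = 0
    · rw [hz0]; exact Submodule.zero_mem _
    -- a nonzero vector of minimal support
    let supp : (ι → K) → Finset ι := fun c => Finset.univ.filter (fun i => c i ≠ 0)
    have hex : ∃ k : ℕ, ∃ w ∈ W, w ≠ 0 ∧ (supp w).card = k := ⟨_, z, hz, hz0, rfl⟩
    obtain ⟨w, hwW, hw0, hwk⟩ := Nat.find_spec hex
    have hmin : ∀ w' ∈ W, w' ≠ 0 → (supp w).card ≤ (supp w').card := by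
      intro w' hw' hw'0
      rw [hwk]
      exact Nat.find_min' hex ⟨w', hw', hw'0, rfl⟩
    have hne : (supp w).Nonempty := by
      by_contra hcon
      rw [Finset.not_nonempty_iff_eq_empty] at hcon
      apply hw0
      funext i
      by_contra hi
      have : i ∈ supp w := Finset.mem_filter.mpr ⟨Finset.mem_univ _, hi⟩
      rw [hcon] at this
      exact absurd this (Finset.notMem_empty _)
    obtain ⟨i₁, hi₁, hmax⟩ := Finset.exists_max_image (supp w) (fun i => P.valuation (w i)) hne
    have hwi₁ : w i₁ ≠ 0 := (Finset.mem_filter.mp hi₁).2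
    -- the normalised vector
    set w₂ : ι → K := (w i₁)⁻¹ • w with hw₂
    have hw₂W : w₂ ∈ W := W.smul_mem _ hwW
    have hw₂i : ∀ i, w₂ i = (w i₁)⁻¹ * w i := fun i => rfl
    have hw₂1 : w₂ i₁ = 1 := by rw [hw₂i, inv_mul_cancel₀ hwi₁]
    have hw₂P : ∀ i, w₂ i ∈ P := by
      intro i
      by_cases hi : w i = 0
      · rw [hw₂i, hi, mul_zero]; exact P.zero_mem
      · have hmem : i ∈ supp w := Finset.mem_filter.mpr ⟨Finset.mem_univ _, hi⟩
        have hle := hmax i hmem
        rw [← ValuationSubring.valuation_le_one_iff, hw₂i, map_mul, map_inv₀]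
        have hpos : (0 : _) < P.valuation (w i₁) := by
          rw [Valuation.pos_iff]; exact hwi₁
        rw [inv_mul_le_iff₀ hpos, mul_one]
        exact hle
    have hw₂0 : ∀ i, w i = 0 → w₂ i = 0 := fun i hi => by rw [hw₂i, hi, mul_zero]
    have hw₂fix : ∀ σ ∈ T, ∀ i, σ (w₂ i) = w₂ i := by
      intro σ hσ
      set u : ι → K := (fun i => σ (w₂ i)) - w₂ with hu
      have huW : u ∈ W := W.sub_mem (hW σ hσ w₂ hw₂W) hw₂W
      have hu0 : u = 0 := by
        by_contra hune
        have h1 := hmin u huW hune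
        have h2 : supp u ⊂ supp w := by
          rw [Finset.ssubset_iff_of_subset]
          · refine ⟨i₁, hi₁, ?_⟩
            intro hmem
            have := (Finset.mem_filter.mp hmem).2
            apply this
            show σ (w₂ i₁) - w₂ i₁ = 0
            rw [hw₂1, map_one, sub_self]
          · intro i hi
            have hui := (Finset.mem_filter.mp hi).2
            refine Finset.mem_filter.mpr ⟨Finset.mem_univ _, ?_⟩
            intro hwi
            apply hui
            show σ (w₂ i) - w₂ i = 0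
            rw [hw₂0 i hwi, map_zero, sub_self]
        exact absurd (Finset.card_lt_card h2) (not_lt.mpr h1)
      intro i
      have := congrFun hu0 i
      exact sub_eq_zero.mp this
    have hw₂mem : w₂ ∈ fixedInt P T W := ⟨hw₂W, hw₂P, hw₂fix⟩
    -- the smaller subspace
    set W' : Submodule K (ι → K) :=
      W ⊓ LinearMap.ker (LinearMap.proj i₁ : (ι → K) →ₗ[K] K) with hW'
    have hW'le : W' ≤ W := inf_le_left
    have hW'lt : W' < W := by
      refine lt_of_le_of_ne hW'le ?_
      intro heq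
      have : w₂ ∈ W' := by rw [heq]; exact hw₂W
      have h0 : w₂ i₁ = 0 := (Submodule.mem_inf.mp this).2
      rw [hw₂1] at h0
      exact one_ne_zero h0
    have hfin : Module.finrank K W' < d := by
      rw [← hd]
      exact Submodule.finrank_lt_finrank_of_lt hW'lt
    have hW'stab : ∀ σ ∈ T, ∀ c ∈ W', (fun i => σ (c i)) ∈ W' := by
      intro σ hσ c hc
      refine Submodule.mem_inf.mpr ⟨hW σ hσ c (Submodule.mem_inf.mp hc).1, ?_⟩
      have h0 : c i₁ = 0 := (Submodule.mem_inf.mp hc).2
      show σ (c i₁) = 0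
      rw [h0, map_zero]
    set z' : ι → K := z - (z i₁) • w₂ with hz'
    have hz'W : z' ∈ W' := by
      refine Submodule.mem_inf.mpr ⟨W.sub_mem hz (W.smul_mem _ hw₂W), ?_⟩
      show z i₁ - z i₁ * w₂ i₁ = 0
      rw [hw₂1, mul_one, sub_self]
    have hz'P : ∀ i, z' i ∈ P := by
      intro i
      show z i - z i₁ * w₂ i ∈ P
      exact sub_mem (hzP i) (mul_mem (hzP i₁) (hw₂P i))
    have h1 : z' ∈ Submodule.span P (fixedInt P T W) :=
      Submodule.span_mono (fixedInt_mono P T hW'le)
        (ih _ hfin W' rfl hW'stab z' hz'W hz'P)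
    have h2 : (⟨z i₁, hzP i₁⟩ : P) • w₂ ∈ Submodule.span P (fixedInt P T W) :=
      Submodule.smul_mem _ _ (Submodule.subset_span hw₂mem)
    have h3 : z = z' + (⟨z i₁, hzP i₁⟩ : P) • w₂ := by
      funext i
      show z i = z i - z i₁ * w₂ i + z i₁ * w₂ i
      ring
    rw [h3]
    exact Submodule.add_mem _ h1 h2

/-- **Saturation.**  Every vector of a `T`-stable subspace `W` with coordinates in `P` is a
`P`-linear combination of `T`-fixed vectors of `W` with coordinates in `P`. -/
theorem mem_span_fixedInt (W : Submodule K (ι → K))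
    (hW : ∀ σ ∈ T, ∀ c ∈ W, (fun i => σ (c i)) ∈ W)
    {z : ι → K} (hz : z ∈ W) (hzP : ∀ i, z i ∈ P) :
    z ∈ Submodule.span P (fixedInt P T W) :=
  mem_span_fixedInt_aux P T _ W rfl hW z hz hzP

end Sat

section Span

variable {p : ℕ} [Fact p.Prime] {M : Type} [AddCommGroup M] [Finite M] {act : GQ → M → M}
  {Λ : Subalgebra (Zp p) (M → Qb)}

/-- The `ℚ̄`-span of a Hopf lattice is the space of all functions. -/
theorem span_Qb_eq_top (hΛ : IsHL p act Λ) :
    Submodule.span Qb (Λ : Set (M → Qb)) = ⊤ := by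
  classical
  letI : Fintype M := Fintype.ofFinite M
  have hadj : Submodule.span Qb (Λ : Set (M → Qb)) =
      Subalgebra.toSubmodule (Algebra.adjoin Qb (Λ : Set (M → Qb))) := by
    rw [Algebra.adjoin_eq_span]
    congr 1
    have : (Λ : Set (M → Qb)) = ((Λ.toSubmonoid : Submonoid (M → Qb)) : Set (M → Qb)) := rfl
    rw [this, Submonoid.closure_eq]
  rw [hadj]
  set A := Algebra.adjoin Qb (Λ : Set (M → Qb)) with hA
  have hind : ∀ m : M, (Pi.single m (1 : Qb) : M → Qb) ∈ A := by
    intro m
    have hsep : ∀ n : M, ∃ g ∈ A, g m = 1 ∧ (n ≠ m → g n = 0) := by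
      intro n
      by_cases hn : n = m
      · exact ⟨1, A.one_mem, rfl, fun h => absurd hn h⟩
      · obtain ⟨f, hf, hfne⟩ := hΛ.separates m n (Ne.symm hn)
        have hfA : f ∈ A := Algebra.subset_adjoin hf
        have hne : f m - f n ≠ 0 := sub_ne_zero.mpr hfne
        refine ⟨(f m - f n)⁻¹ • (f - algebraMap Qb (M → Qb) (f n)),
          A.smul_mem (A.sub_mem hfA (A.algebraMap_mem _)) _, ?_, fun _ => ?_⟩
        · show (f m - f n)⁻¹ * (f m - f n) = 1
          exact inv_mul_cancel₀ hne
        · show (f m - f n)⁻¹ * (f n - f n) = 0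
          rw [sub_self, mul_zero]
    choose g hgA hgm hgn using hsep
    have hprod : (Pi.single m (1 : Qb) : M → Qb) = ∏ n, g n := by
      funext y
      rw [Finset.prod_apply]
      by_cases hy : y = m
      · subst hy
        rw [Pi.single_eq_same]
        exact (Finset.prod_eq_one fun n _ => hgm n).symm
      · rw [Pi.single_eq_of_ne hy]
        exact (Finset.prod_eq_zero (f := fun c => g c y) (Finset.mem_univ y) (hgn y hy)).symm
    rw [hprod]
    exact A.prod_mem fun n _ => hgA n
  rw [eq_top_iff]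
  intro F _
  have hF : F = ∑ m, F m • (Pi.single m (1 : Qb) : M → Qb) := by
    funext y
    rw [Finset.sum_apply]
    simp [Pi.single_apply]
  rw [hF]
  exact Submodule.sum_mem _ fun m _ => Submodule.smul_mem _ _ (hind m)

/-- A `ℚ̄`-basis of the space of functions made of lattice elements, in which the lattice has
coordinates in `ℤ_(p)`. -/
theorem exists_Qb_basis (hΛ : IsHL p act Λ) :
    ∃ (n : ℕ) (B : Module.Basis (Fin n) Qb (M → Qb)), (∀ i, B i ∈ Λ) ∧
      ∀ f ∈ Λ, ∀ i, ∃ r : Zp p, B.coord i f = algebraMap (Zp p) Qb r := by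
  obtain ⟨n, e, he, -, hli, hexp⟩ := Fermat.Agent.S19.H435.IsHopfLattice.exists_basis hΛ
  have hsmul : ∀ (r : Zp p) (f : M → Qb), r • f = (algebraMap (Zp p) Qb r) • f := by
    intro r f
    funext y
    show r • f y = algebraMap (Zp p) Qb r * f y
    rw [Algebra.smul_def]
  have hsp : ⊤ ≤ Submodule.span Qb (Set.range e) := by
    rw [← span_Qb_eq_top hΛ]
    refine Submodule.span_le.mpr ?_
    intro f hf
    obtain ⟨c, rfl⟩ := hexp f hf
    refine Submodule.sum_mem _ fun i _ => ?_
    rw [hsmul]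
    exact Submodule.smul_mem _ _ (Submodule.subset_span ⟨i, rfl⟩)
  refine ⟨n, Module.Basis.mk hli hsp, fun i => by rw [Module.Basis.coe_mk]; exact he i, ?_⟩
  intro f hf i
  obtain ⟨c, rfl⟩ := hexp f hf
  refine ⟨c i, ?_⟩
  rw [map_sum]
  have hterm : ∀ j, (Module.Basis.mk hli hsp).coord i (c j • e j) =
      if j = i then algebraMap (Zp p) Qb (c j) else 0 := by
    intro j
    have hej : e j = (Module.Basis.mk hli hsp) j := by rw [Module.Basis.coe_mk]
    rw [hsmul, map_smul, hej, Module.Basis.coord_apply, Module.Basis.repr_self,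
      Finsupp.single_apply, smul_eq_mul]
    split_ifs <;> simp
  simp_rw [hterm]
  rw [Finset.sum_ite_eq' Finset.univ i]
  simp

end Span

section Theta

variable {M : Type} [AddCommGroup M] {n : ℕ} (B : Module.Basis (Fin n) Qb (M → Qb))

/-- `Θ_{jk} f = coord_j (x ↦ coord_k (y ↦ f (x + y)))`. -/
def theta (j k : Fin n) : (M → Qb) →ₗ[Qb] Qb :=
  (B.coord j).comp
    (LinearMap.pi fun x : M => (B.coord k).comp (LinearMap.funLeft Qb Qb (fun y : M => x + y)))

theorem theta_apply (j k : Fin n) (f : M → Qb) :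
    theta B j k f = B.coord j (fun x => B.coord k (fun y => f (x + y))) := rfl

/-- `Θ_{jk}` of a function with a decomposition `f (x + y) = ∑ a_l x * b_l y`. -/
theorem theta_of_comul (j k : Fin n) (f : M → Qb) {m : ℕ} (a b : Fin m → M → Qb)
    (hab : ∀ x y, f (x + y) = ∑ l, a l x * b l y) :
    theta B j k f = ∑ l, B.coord k (b l) * B.coord j (a l) := by
  rw [theta_apply]
  have h1 : ∀ x : M, (fun y => f (x + y)) = ∑ l, a l x • b l := by
    intro x
    funext y
    rw [hab, Finset.sum_apply]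
    rfl
  have h2 : (fun x => B.coord k (fun y => f (x + y))) = ∑ l, B.coord k (b l) • a l := by
    funext x
    rw [h1, map_sum, Finset.sum_apply]
    refine Finset.sum_congr rfl fun l _ => ?_
    rw [map_smul, smul_eq_mul, Pi.smul_apply, smul_eq_mul, mul_comm]
  rw [h2, map_sum]
  refine Finset.sum_congr rfl fun l _ => ?_
  rw [map_smul, smul_eq_mul]

/-- `Θ_{jk}` of a multiplicative function. -/
theorem theta_of_mul (j k : Fin n) (χ : M → Qb) (hχ : ∀ x y, χ (x + y) = χ x * χ y) :
    theta B j k χ = B.coord k χ * B.coord j χ := by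
  have := theta_of_comul B j k χ (m := 1) (fun _ => χ) (fun _ => χ)
    (fun x y => by rw [hχ]; simp)
  rw [this]
  simp

end Theta

section Char

variable {p : ℕ} [Fact p.Prime] {M : Type} [AddCommGroup M] [Finite M] {act : GQ → M → M}
  {Λ : Subalgebra (Zp p) (M → Qb)}

omit [Fact (Nat.Prime p)] [Finite M] in
/-- `Θ_{jk}` maps the lattice to `ℤ_(p)`. -/
theorem theta_mem (hΛ : IsHL p act Λ) {n : ℕ} (B : Module.Basis (Fin n) Qb (M → Qb))
    (hcoord : ∀ f ∈ Λ, ∀ i, ∃ r : Zp p, B.coord i f = algebraMap (Zp p) Qb r)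
    (j k : Fin n) {f : M → Qb} (hf : f ∈ Λ) :
    ∃ r : Zp p, theta B j k f = algebraMap (Zp p) Qb r := by
  obtain ⟨m, a, b, ha, hb, hab⟩ := hΛ.comul_mem f hf
  choose α hα using fun l => hcoord (a l) (ha l) j
  choose β hβ using fun l => hcoord (b l) (hb l) k
  refine ⟨∑ l, β l * α l, ?_⟩
  rw [theta_of_comul B j k f a b hab, map_sum]
  refine Finset.sum_congr rfl fun l _ => ?_
  rw [hα, hβ, map_mul]

/-- The coordinates of a nonzero multiplicative function in a lattice basis are integral over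
`ℤ_(p)`. -/
theorem isIntegral_coord_of_mul (hΛ : IsHL p act Λ) {n : ℕ}
    (B : Module.Basis (Fin n) Qb (M → Qb)) (hB : ∀ i, B i ∈ Λ)
    (hcoord : ∀ f ∈ Λ, ∀ i, ∃ r : Zp p, B.coord i f = algebraMap (Zp p) Qb r)
    (χ : M → Qb) (hχ : ∀ x y, χ (x + y) = χ x * χ y) (hχ0 : χ ≠ 0) (j : Fin n) :
    IsIntegral (Zp p) (B.coord j χ) := by
  classical
  set c : Fin n → Qb := fun i => B.coord i χ with hc
  have hsum : χ = ∑ i, c i • B i := (B.sum_repr χ).symm
  set C : Submodule (Zp p) Qb := Submodule.span (Zp p) (Set.range c) with hC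
  have hne : C ≠ ⊥ := by
    intro hbot
    apply hχ0
    rw [hsum]
    refine Finset.sum_eq_zero fun i _ => ?_
    have : c i ∈ C := Submodule.subset_span ⟨i, rfl⟩
    rw [hbot, Submodule.mem_bot] at this
    rw [this, zero_smul]
  have hfg : C.FG := Submodule.fg_span (Set.finite_range c)
  have hmul : ∀ k, c j * c k ∈ C := by
    intro k
    have h1 : c j * c k = theta B k j χ := by
      rw [theta_of_mul B k j χ hχ]
    have h2 : theta B k j χ = ∑ i, c i * theta B k j (B i) := by
      refine (congrArg (theta B k j) hsum).trans ?_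
      rw [map_sum]
      refine Finset.sum_congr rfl fun i _ => ?_
      rw [map_smul, smul_eq_mul]
    rw [h1, h2]
    refine Submodule.sum_mem _ fun i _ => ?_
    obtain ⟨r, hr⟩ := theta_mem hΛ B hcoord k j (hB i)
    rw [hr, mul_comm, ← Algebra.smul_def]
    exact Submodule.smul_mem _ _ (Submodule.subset_span ⟨i, rfl⟩)
  refine isIntegral_of_smul_mem_submodule C hne hfg (c j) ?_
  intro y hy
  induction hy using Submodule.span_induction with
  | mem y hy =>
    obtain ⟨k, rfl⟩ := hy
    exact hmul k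
  | zero => rw [smul_zero]; exact Submodule.zero_mem _
  | add a b _ _ ha hb => rw [smul_add]; exact Submodule.add_mem _ ha hb
  | smul r a _ ha =>
    rw [smul_comm]
    exact Submodule.smul_mem _ _ ha

end Char


/-- **(FU)** unit resolvent: the Kummer characters attached to a flat module are Kummer
characters of `P`-units. -/
theorem flatUnit : FlatUnitStatement := by
  intro p _ M _ _ act Λ hΛ _ P hP ζ hζ L hL1 hL2 ξ x
  classical
  have hp : p.Prime := Fact.out
  obtain ⟨n, B, hB, hcoord⟩ := exists_Qb_basis hΛ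
  -- the character `χ = ζ ^ ξ`
  set χ : M → Qb := fun y => ζ ^ (ξ y).val with hχdef
  have hζp : ζ ^ p = 1 := hζ.pow_eq_one
  haveI : NeZero p := ⟨hp.ne_zero⟩
  have hχadd : ∀ y t, χ (y + t) = χ y * χ t := by
    intro y t
    show ζ ^ (ξ (y + t)).val = ζ ^ (ξ y).val * ζ ^ (ξ t).val
    rw [map_add, ZMod.val_add, ← pow_add, ← pow_eq_pow_mod _ hζp]
  have hχ0 : χ 0 = 1 := by
    show ζ ^ (ξ 0).val = 1
    rw [map_zero, ZMod.val_zero, pow_zero]
  have hχne : χ ≠ 0 := by
    intro h
    have := congrFun h 0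
    rw [hχ0] at this
    exact one_ne_zero this
  have hvζ : P.valuation ζ = 1 := by
    have h1 : P.valuation ζ ^ p = 1 := by rw [← map_pow, hζp, map_one]
    rcases lt_trichotomy (P.valuation ζ) 1 with h | h | h
    · exact absurd h1 (ne_of_lt (pow_lt_one₀ zero_le h hp.ne_zero))
    · exact h
    · exact absurd h1 (ne_of_gt (one_lt_pow₀ h hp.ne_zero))
  have hvχ : ∀ y, P.valuation (χ y) = 1 := by
    intro y
    show P.valuation (ζ ^ (ξ y).val) = 1
    rw [map_pow, hvζ, one_pow]
  -- coordinates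
  set comb : (Fin n → Qb) →ₗ[Qb] (M → Qb) := Fintype.linearCombination Qb B with hcomb
  have hcomb_apply : ∀ (d : Fin n → Qb) (y : M), comb d y = ∑ i, d i * B i y := by
    intro d y
    rw [hcomb, Fintype.linearCombination_apply, Finset.sum_apply]
    rfl
  set c : Fin n → Qb := fun i => B.coord i χ with hc
  have hcχ : comb c = χ := by
    rw [hcomb, Fintype.linearCombination_apply]
    exact B.sum_repr χ
  have hcP : ∀ i, c i ∈ P := fun i =>
    mem_of_isIntegral_zp P hp hP (isIntegral_coord_of_mul hΛ B hB hcoord χ hχadd hχne i)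
  -- the subspace `W`
  let W : Submodule Qb (Fin n → Qb) :=
    { carrier := {d | ∀ y : M, ∀ t ∈ L, comb d (y + t) = χ t * comb d y}
      add_mem' := by
        intro a b ha hb y t ht
        rw [map_add, Pi.add_apply, Pi.add_apply, ha y t ht, hb y t ht, mul_add]
      zero_mem' := by
        intro y t _
        rw [map_zero, Pi.zero_apply, Pi.zero_apply, mul_zero]
      smul_mem' := by
        intro r a ha y t ht
        rw [map_smul, Pi.smul_apply, Pi.smul_apply, ha y t ht, smul_eq_mul, smul_eq_mul]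
        ring }
  have hWmem : ∀ d, d ∈ W ↔ ∀ y : M, ∀ t ∈ L, comb d (y + t) = χ t * comb d y :=
    fun d => Iff.rfl
  -- the acting maps
  let T : Set (Qb →+* Qb) :=
    {f | ∃ σ : GQ, σ ∈ P.inertiaSubgroupIn ℚ ∧ σ ζ = ζ ∧ ∀ a, f a = σ a}
  have hσχ : ∀ σ : GQ, σ ζ = ζ → ∀ t, σ (χ t) = χ t := by
    intro σ hσ t
    show σ (ζ ^ (ξ t).val) = ζ ^ (ξ t).val
    rw [map_pow, hσ]
  have hcombσ : ∀ (σ : GQ) (d : Fin n → Qb) (y : M),
      comb (fun i => σ (d i)) y = σ (comb d (act σ⁻¹ y)) := by
    intro σ d y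
    rw [hcomb_apply, hcomb_apply, map_sum]
    refine Finset.sum_congr rfl fun i _ => ?_
    rw [map_mul, ← hΛ.equivariant _ (hB i) σ,
      Fermat.Agent.S19.H435.IsHopfLattice.act_act_inv hΛ]
  have hWstab : ∀ f ∈ T, ∀ d ∈ W, (fun i => f (d i)) ∈ W := by
    rintro f ⟨σ, hσI, hσζ, hfσ⟩ d hd
    have hfd : (fun i => f (d i)) = fun i => σ (d i) := funext fun i => hfσ (d i)
    rw [hfd, hWmem]
    intro y t ht
    have hinvI : σ⁻¹ ∈ P.inertiaSubgroupIn ℚ := inv_mem hσI
    have hinvζ : σ⁻¹ ζ = ζ := by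
      have := congrArg (σ⁻¹ : GQ) hσζ
      rw [← this]
      exact (AlgEquiv.symm_apply_apply σ ζ)
    rw [hcombσ, hcombσ, Fermat.Agent.S19.H435.IsHopfLattice.act_add hΛ,
      hL1 σ⁻¹ hinvI hinvζ t ht, hd _ t ht, map_mul, hσχ σ hσζ]
  have hcW : c ∈ W := by
    rw [hWmem]
    intro y t _
    rw [hcχ, hχadd, mul_comm]
  -- saturation
  have hsat := mem_span_fixedInt P T W hWstab hcW hcP
  -- values at `x` of integral vectors
  have hvalP : ∀ d : Fin n → Qb, (∀ i, d i ∈ P) → comb d x ∈ P := by
    intro d hd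
    rw [hcomb_apply]
    exact sum_mem fun i _ => mul_mem (hd i) (apply_mem P hΛ hP (hB i) x)
  -- some `T`-fixed integral vector of `W` has a unit value at `x`
  have hex : ∃ d ∈ fixedInt P T W, P.valuation (comb d x) = 1 := by
    by_contra hcon
    push Not at hcon
    have hlt : ∀ d ∈ fixedInt P T W, P.valuation (comb d x) < 1 := by
      intro d hd
      refine lt_of_le_of_ne ?_ (hcon d hd)
      rw [ValuationSubring.valuation_le_one_iff]
      exact hvalP d hd.2.1
    have hall : ∀ z ∈ Submodule.span P (fixedInt P T W), P.valuation (comb z x) < 1 := by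
      intro z hz
      induction hz using Submodule.span_induction with
      | mem d hd => exact hlt d hd
      | zero => rw [map_zero, Pi.zero_apply, map_zero]; exact zero_lt_one
      | add a b _ _ ha hb =>
        rw [map_add, Pi.add_apply]
        exact Valuation.map_add_lt _ ha hb
      | smul a z _ hz =>
        have h1 : (a • z : Fin n → Qb) = (a : Qb) • z := rfl
        rw [h1, map_smul, Pi.smul_apply, smul_eq_mul, map_mul]
        have ha : P.valuation (a : Qb) ≤ 1 := by
          rw [ValuationSubring.valuation_le_one_iff]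
          exact a.2
        exact mul_lt_of_le_one_of_lt ha hz
    have := hall c hsat
    rw [hcχ, hvχ] at this
    exact lt_irrefl _ this
  obtain ⟨d, hd, hdval⟩ := hex
  refine ⟨comb d x, hdval, ?_⟩
  intro σ hσI hσζ
  have hdfix : ∀ i, σ (d i) = d i := by
    intro i
    let f : Qb →+* Qb := (σ : Qb ≃ₐ[ℚ] Qb).toAlgHom.toRingHom
    have hf : f ∈ T := ⟨σ, hσI, hσζ, fun _ => rfl⟩
    exact hd.2.2 f hf i
  have h1 : σ (comb d x) = comb d (act σ x) := by
    rw [hcomb_apply, hcomb_apply, map_sum]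
    refine Finset.sum_congr rfl fun i _ => ?_
    rw [map_mul, hdfix, hΛ.equivariant _ (hB i) σ]
  have h2 : act σ x = x + (act σ x - x) := by abel
  rw [h1, h2, hd.1 x _ (hL2 σ hσI hσζ x)]
  congr 2
  abel_nf

end Fermat.Agent.S56.H664

end

end
-- ===== PACK-END S56/H664/FlatUnit.lean

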