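import Mathlib
import Fermat.Agent.Pack.S15.AE3L2
import Fermat.Agent.Pack.S15.AE3L3
import Fermat.Agent.Pack.S15.AE0L2
import Fermat.Agent.Pack.S15.AE2L0
import Fermat.Agent.Pack.S15.AE0L1
import Fermat.Agent.Pack.S15.AE3L1
import Fermat.Agent.Pack.S15.AE3L0
import Fermat.Agent.Pack.S15.AE2L1
import Fermat.Agent.Pack.S15.AE1L3
import Fermat.Agent.Pack.S15.AE2L2
import Fermat.Agent.Pack.S15.AE2L3

-- ===== PACK-BEGIN Lib/FF398/HeckeDiv.lean
section


/-!
# Lib/FF398 — the Hecke correspondence on a single place (helper398)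

* `correspondence_single` : for a correspondence `ψ_* φ^*` between function fields,
  `ψ_* φ^* [P] = ∑_{W ∈ φ-fibre of P} e_φ(W) · f_ψ(W) · [W|_ψ]`;
* `heckeDivBar_single` : for `T_ℓ = α_* β^*` on `ℚ̄(X₀(N))` (all residue degrees are one),
  `T_ℓ [P] = ∑_{W : W|_β = P} e_β(W) · [W|_α]`;
* `sum_ramificationIndexAlong` : `∑_{W : W|_φ = P} e_φ(W) = [F' : φ F]`.
-/

set_option autoImplicit false
set_option linter.style.haveILetI false
set_option linter.unusedSectionVars false

open AlgebraicCurve ModularCurve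

namespace Fermat.Agent.Lib.FF398

section General

variable {K F F' : Type*} [Field K] [Field F] [Field F'] [Algebra K F] [Algebra K F']
  [HasPrincipalDivisors K F']

/-- `ψ_* φ^* (n[P]) = ∑_{W ∈ φ-fibre of P} n e_φ(W) f_ψ(W) [W|_ψ]`. -/
theorem correspondence_single (φ ψ : F →ₐ[K] F') (hφ : φ.toRingHom.IsIntegral)
    (hψ : ψ.toRingHom.IsIntegral) (P : Place K F) (n : ℤ) :
    Divisor.correspondence φ ψ hφ hψ (Finsupp.single P n) =
      ∑ W ∈ Place.fiberAlong φ hφ P,
        Finsupp.single (W.restrictAlong ψ hψ)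
          (n * W.ramificationIndexAlong φ * W.inertiaDegAlong ψ hψ) := by
  rw [Divisor.correspondence_apply, Divisor.pullbackAlong_single, map_sum]
  refine Finset.sum_congr rfl fun W _ => ?_
  rw [Divisor.pushforwardAlong_single]

/-- residue degrees along `ψ` are one if all places of `F'` have degree one -/
theorem inertiaDegAlong_eq_one (ψ : F →ₐ[K] F') (hψ : ψ.toRingHom.IsIntegral)
    (hdeg' : ∀ w : Place K F', w.deg = 1) (W : Place K F') : W.inertiaDegAlong ψ hψ = 1 := by
  letI := algebraAlong ψ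
  haveI := isScalarTower_along ψ
  haveI := isIntegral_along ψ hψ
  exact inertiaDeg_eq_one hdeg' W

/-- `ψ_* φ^* (n[P]) = ∑_{W ∈ φ-fibre of P} n e_φ(W) [W|_ψ]` when all places of `F'` have
degree one. -/
theorem correspondence_single_of_deg (φ ψ : F →ₐ[K] F') (hφ : φ.toRingHom.IsIntegral)
    (hψ : ψ.toRingHom.IsIntegral) (hdeg' : ∀ w : Place K F', w.deg = 1) (P : Place K F) (n : ℤ) :
    Divisor.correspondence φ ψ hφ hψ (Finsupp.single P n) =
      ∑ W ∈ Place.fiberAlong φ hφ P,
        Finsupp.single (W.restrictAlong ψ hψ) (n * W.ramificationIndexAlong φ) := by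
  rw [correspondence_single]
  refine Finset.sum_congr rfl fun W _ => ?_
  rw [inertiaDegAlong_eq_one ψ hψ hdeg' W, Nat.cast_one, mul_one]

/-- push-forward of the previous formula along any map `r` of places -/
theorem mapDomain_correspondence_single_of_deg {X : Type*} (r : Place K F → X)
    (φ ψ : F →ₐ[K] F') (hφ : φ.toRingHom.IsIntegral)
    (hψ : ψ.toRingHom.IsIntegral) (hdeg' : ∀ w : Place K F', w.deg = 1) (P : Place K F) (n : ℤ) :
    Finsupp.mapDomain r (Divisor.correspondence φ ψ hφ hψ (Finsupp.single P n)) =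
      ∑ W ∈ Place.fiberAlong φ hφ P,
        Finsupp.single (r (W.restrictAlong ψ hψ)) (n * W.ramificationIndexAlong φ) := by
  rw [correspondence_single_of_deg φ ψ hφ hψ hdeg', Finsupp.mapDomain_finsetSum]
  refine Finset.sum_congr rfl fun W _ => ?_
  rw [Finsupp.mapDomain_single]

/-- `∑_{W : W|_φ = P} e_φ(W) = [F' : φ F]` -/
theorem sum_ramificationIndexAlong [CharZero F] (φ : F →ₐ[K] F')
    (hφ : φ.toRingHom.IsIntegral) (hfin : FiniteAlong K φ)
    (hdeg' : ∀ w : Place K F', w.deg = 1) (P : Place K F) :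
    ∑ W ∈ Place.fiberAlong φ hφ P, (W.ramificationIndexAlong φ : ℤ) = (finrankAlong K φ : ℤ) := by
  letI := algebraAlong φ
  haveI := isScalarTower_along φ
  haveI := isIntegral_along φ hφ
  haveI : FiniteDimensional F F' := hfin
  exact sum_ramificationIndex P hdeg' (Place.fiberAlong φ hφ P) fun W => Place.mem_fiberAlong

end General

section Modular

variable (N ℓ : ℕ) [NeZero N] [NeZero ℓ]

/-- **`T_ℓ` on a point**: `T_ℓ [P] = ∑_{W : W|_β = P} e_β(W) · [W|_α]`. -/
theorem heckeDivBar_single (hα : HeckeAlphaBarIntegral (AlgebraicClosure ℚ) N ℓ)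
    (hβ : HeckeBetaBarIntegral (AlgebraicClosure ℚ) N ℓ)
    [HasPrincipalDivisors (AlgebraicClosure ℚ) (modularFunctionFieldBar (N * ℓ))]
    (P : Place (AlgebraicClosure ℚ) (modularFunctionFieldBar N)) (n : ℤ) :
    heckeDivBar hα hβ (Finsupp.single P n) =
      ∑ W ∈ Place.fiberAlong (heckeBetaBar (AlgebraicClosure ℚ) N ℓ) hβ P,
        Finsupp.single (W.restrictAlong (heckeAlphaBar (AlgebraicClosure ℚ) N ℓ) hα)
          (n * W.ramificationIndexAlong (heckeBetaBar (AlgebraicClosure ℚ) N ℓ)) :=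
  correspondence_single_of_deg _ _ hβ hα (deg_eq_one_FF (N * ℓ)) P n

/-- push-forward of `T_ℓ [P]` along a map `r` of places -/
theorem mapDomain_heckeDivBar_single {X : Type*}
    (r : Place (AlgebraicClosure ℚ) (modularFunctionFieldBar N) → X)
    (hα : HeckeAlphaBarIntegral (AlgebraicClosure ℚ) N ℓ)
    (hβ : HeckeBetaBarIntegral (AlgebraicClosure ℚ) N ℓ)
    [HasPrincipalDivisors (AlgebraicClosure ℚ) (modularFunctionFieldBar (N * ℓ))]
    (P : Place (AlgebraicClosure ℚ) (modularFunctionFieldBar N)) (n : ℤ) :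
    Finsupp.mapDomain r (heckeDivBar hα hβ (Finsupp.single P n)) =
      ∑ W ∈ Place.fiberAlong (heckeBetaBar (AlgebraicClosure ℚ) N ℓ) hβ P,
        Finsupp.single (r (W.restrictAlong (heckeAlphaBar (AlgebraicClosure ℚ) N ℓ) hα))
          (n * W.ramificationIndexAlong (heckeBetaBar (AlgebraicClosure ℚ) N ℓ)) :=
  mapDomain_correspondence_single_of_deg r _ _ hβ hα (deg_eq_one_FF (N * ℓ)) P n

/-- `∑_{W : W|_β = P} e_β(W) = [F_{Nℓ} : β F_N]` -/
theorem sum_ramificationIndexAlong_beta
    (hβ : HeckeBetaBarIntegral (AlgebraicClosure ℚ) N ℓ)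
    [HasPrincipalDivisors (AlgebraicClosure ℚ) (modularFunctionFieldBar (N * ℓ))]
    (P : Place (AlgebraicClosure ℚ) (modularFunctionFieldBar N)) :
    ∑ W ∈ Place.fiberAlong (heckeBetaBar (AlgebraicClosure ℚ) N ℓ) hβ P,
        (W.ramificationIndexAlong (heckeBetaBar (AlgebraicClosure ℚ) N ℓ) : ℤ) =
      (finrankAlong (AlgebraicClosure ℚ) (heckeBetaBar (AlgebraicClosure ℚ) N ℓ) : ℤ) :=
  sum_ramificationIndexAlong _ hβ (finiteAlong_beta N ℓ) (deg_eq_one_FF (N * ℓ)) P

end Modular

end Fermat.Agent.Lib.FF398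

end
-- ===== PACK-END Lib/FF398/HeckeDiv.lean

-- ===== PACK-BEGIN A2/IF/H429/Level.lean
section


/-!
# A2 / IF (helper429): levels `E ⊇ ℚ̄^{I_P}`

For an intermediate field `E` containing the inertia field of `P`, the valuation ring
`R_E = P ∩ E = P.comap (algebraMap E ℚ̄)` is henselian with algebraically closed residue field.
-/

set_option autoImplicit false
set_option linter.style.haveILetI false
set_option linter.unusedSectionVars false

open scoped Pointwise
open Polynomial

namespace Fermat.Agent.A2.IF.H429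

open Fermat.Agent.S55.Bridge Fermat.Agent.S55.Bridge.H594

attribute [local instance] isAlgebraic_Qbar isGalois_Qbar

local notation "Qb" => AlgebraicClosure ℚ

variable (P : ValuationSubring Qb) (E : IntermediateField ℚ Qb)

/-- The inclusion `R_E → P`. -/
noncomputable def inclRE : (P.comap (algebraMap E Qb)) →+* P where
  toFun x := ⟨algebraMap E Qb (x : E), x.2⟩
  map_one' := Subtype.ext (by simp)
  map_mul' x y := Subtype.ext (by simp)
  map_zero' := Subtype.ext (by simp)
  map_add' x y := Subtype.ext (by simp)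

theorem inclRE_coe (x : P.comap (algebraMap E Qb)) :
    ((inclRE P E x : P) : Qb) = ((x : E) : Qb) := rfl

theorem mem_maximalIdeal_RE_iff (x : P.comap (algebraMap E Qb)) :
    x ∈ IsLocalRing.maximalIdeal (P.comap (algebraMap E Qb)) ↔ ((x : E) : Qb) ∈ P.nonunits := by
  rw [← ValuationSubring.coe_mem_nonunits_iff, mem_nonunits_comap_iff]
  rfl

/-- An element of `ℚ̄` fixed by every automorphism fixing `E` lies in `E`. -/
theorem mem_of_fixed (x : Qb) (hx : ∀ σ : Qb ≃ₐ[ℚ] Qb, (∀ e ∈ E, σ e = e) → σ x = x) :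
    x ∈ E := by
  have h1 : x ∈ IntermediateField.fixedField E.fixingSubgroup := by
    rw [IntermediateField.mem_fixedField_iff]
    intro σ hσ
    exact hx σ (fun e he => (IntermediateField.mem_fixingSubgroup_iff E σ).mp hσ e he)
  rwa [InfiniteGalois.fixedField_fixingSubgroup] at h1

/-- An automorphism fixing `E ⊇ E_I` pointwise preserves the non-units of `P`. -/
theorem map_mem_nonunits_of_fixes (hE : inertiaField P ≤ E) (σ : Qb ≃ₐ[ℚ] Qb)
    (hσ : ∀ e ∈ E, σ e = e) {x : Qb} (hx : x ∈ P.nonunits) : σ x ∈ P.nonunits := by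
  obtain ⟨τ, hτ, h⟩ := exists_inertia_apply_eq P σ (fun e he => hσ e (hE he)) x
  rw [h]
  exact mem_nonunits_of_mem_decomp P (decomp_of_inertia P hτ) hx

/-- An automorphism fixing `E ⊇ E_I` pointwise preserves the valuation of `P`. -/
theorem valuation_map_eq_of_fixes (hE : inertiaField P ≤ E) (σ : Qb ≃ₐ[ℚ] Qb)
    (hσ : ∀ e ∈ E, σ e = e) (x : Qb) : P.valuation (σ x) = P.valuation x := by
  obtain ⟨τ, hτ, h⟩ := exists_inertia_apply_eq P σ (fun e he => hσ e (hE he)) x
  rw [h]
  exact valuation_map_eq P (decomp_of_inertia P hτ) x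

/-- **Galois-fixed simple roots.**  Let `f` be a monic polynomial over `R_E`, `E ⊇ E_I`, and
`a₀ ∈ R_E` with `f(a₀) ≡ 0` and `f'(a₀)` a unit.  Then `f` has a root `≡ a₀` in `R_E`. -/
theorem exists_root_RE (hE : inertiaField P ≤ E) (f : (P.comap (algebraMap E Qb) : Type)[X])
    (hf : f.Monic) (a₀ : P.comap (algebraMap E Qb))
    (h₁ : f.eval a₀ ∈ IsLocalRing.maximalIdeal (P.comap (algebraMap E Qb)))
    (h₂ : IsUnit (f.derivative.eval a₀)) :
    ∃ a : P.comap (algebraMap E Qb), f.IsRoot a ∧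
      a - a₀ ∈ IsLocalRing.maximalIdeal (P.comap (algebraMap E Qb)) := by
  let ι := inclRE P E
  let g : (P : Type)[X] := f.map ι
  have hg : g.Monic := hf.map ι
  let φ : (P.comap (algebraMap E Qb)) →+* Qb := P.subtype.comp ι
  have hFg : g.map P.subtype = f.map φ := by
    rw [Polynomial.map_map]
  have hroots : ∀ r ∈ (f.map φ).roots, r ∈ P := fun r hr =>
    mem_of_isRoot_map P g hg r (by rw [hFg]; exact isRoot_of_mem_roots hr)
  have ha₀P : ((a₀ : E) : Qb) ∈ P := a₀.2
  have heval : (f.map φ).eval ((a₀ : E) : Qb) ∈ P.nonunits := by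
    have h3 : (f.map φ).eval (φ a₀) = φ (f.eval a₀) := eval_map_apply φ a₀
    have h4 : φ a₀ = ((a₀ : E) : Qb) := rfl
    rw [h4] at h3
    rw [h3]
    exact (mem_maximalIdeal_RE_iff P E _).mp h₁
  obtain ⟨α, hα, hαa⟩ := exists_root_sub_mem_nonunits P _ (hf.map φ) hroots _ ha₀P heval
  have hαP : α ∈ P := hroots α hα
  have hαroot : (f.map φ).eval α = 0 := isRoot_of_mem_roots hα
  have hgα : g.IsRoot (⟨α, hαP⟩ : P) := by
    show g.eval _ = 0
    apply Subtype.ext
    have h3 : (g.map P.subtype).eval (P.subtype ⟨α, hαP⟩) = P.subtype (g.eval ⟨α, hαP⟩) :=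
      eval_map_apply P.subtype _
    rw [hFg] at h3
    have h4 : P.subtype ⟨α, hαP⟩ = α := rfl
    rw [h4, hαroot] at h3
    exact h3.symm
  have hder : g.derivative.eval (ι a₀) ∉ IsLocalRing.maximalIdeal P := by
    have h3 : g.derivative.eval (ι a₀) = ι (f.derivative.eval a₀) := by
      show (f.map ι).derivative.eval (ι a₀) = _
      rw [derivative_map, eval_map_apply]
    rw [h3]
    intro hmem
    exact (IsLocalRing.mem_maximalIdeal _).mp hmem (h₂.map ι)
  have hαa' : (⟨α, hαP⟩ : P) - ι a₀ ∈ IsLocalRing.maximalIdeal P := by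
    rw [← ValuationSubring.coe_mem_nonunits_iff]
    have h3 : (((⟨α, hαP⟩ : P) - ι a₀ : P) : Qb) = -(((a₀ : E) : Qb) - α) := by
      show α - ((a₀ : E) : Qb) = _
      ring
    rw [h3]
    exact neg_mem hαa
  -- `α` is fixed by every automorphism fixing `E`
  have hfix : ∀ σ : Qb ≃ₐ[ℚ] Qb, (∀ e ∈ E, σ e = e) → σ α = α := by
    intro σ hσ
    have hσφ : (σ : Qb →+* Qb).comp φ = φ := by
      ext x
      exact hσ _ (x : E).2
    have hσroot : (f.map φ).eval (σ α) = 0 := by
      have h3 : ((f.map φ).map (σ : Qb →+* Qb)).eval ((σ : Qb →+* Qb) α) =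
          (σ : Qb →+* Qb) ((f.map φ).eval α) := eval_map_apply (σ : Qb →+* Qb) α
      rw [Polynomial.map_map, hσφ, hαroot, map_zero] at h3
      exact h3
    have hσαP : σ α ∈ P := by
      apply hroots
      rw [mem_roots (hf.map φ).ne_zero]
      exact hσroot
    have hgσ : g.IsRoot (⟨σ α, hσαP⟩ : P) := by
      show g.eval _ = 0
      apply Subtype.ext
      have h3 : (g.map P.subtype).eval (P.subtype ⟨σ α, hσαP⟩) =
          P.subtype (g.eval ⟨σ α, hσαP⟩) := eval_map_apply P.subtype _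
      rw [hFg] at h3
      have h4 : P.subtype ⟨σ α, hσαP⟩ = σ α := rfl
      rw [h4, hσroot] at h3
      exact h3.symm
    have hσa : (⟨σ α, hσαP⟩ : P) - ι a₀ ∈ IsLocalRing.maximalIdeal P := by
      rw [← ValuationSubring.coe_mem_nonunits_iff]
      have h3 : (((⟨σ α, hσαP⟩ : P) - ι a₀ : P) : Qb) = σ (-(((a₀ : E) : Qb) - α)) := by
        show σ α - ((a₀ : E) : Qb) = _
        rw [map_neg, map_sub, hσ _ (a₀ : E).2]
        ring
      rw [h3]
      exact map_mem_nonunits_of_fixes P E hE σ hσ (neg_mem hαa)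
    have key := root_unique_of_derivative_notMem (IsLocalRing.maximalIdeal P) g (ι a₀)
      ⟨α, hαP⟩ ⟨σ α, hσαP⟩ hgα hgσ hder hαa' hσa
    exact (congrArg Subtype.val key).symm
  have hαE : α ∈ E := mem_of_fixed E α hfix
  refine ⟨⟨⟨α, hαE⟩, hαP⟩, ?_, ?_⟩
  · show f.eval _ = 0
    have hφinj : Function.Injective φ := by
      intro x y hxy
      apply Subtype.ext
      apply Subtype.ext
      exact hxy
    apply hφinj
    rw [map_zero, ← eval_map_apply φ]
    exact hαroot
  · rw [mem_maximalIdeal_RE_iff]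
    have h3 : ((((⟨⟨α, hαE⟩, hαP⟩ : P.comap (algebraMap E Qb)) - a₀ :
        P.comap (algebraMap E Qb)) : E) : Qb) = -(((a₀ : E) : Qb) - α) := by
      show α - ((a₀ : E) : Qb) = _
      ring
    rw [h3]
    exact neg_mem hαa

/-- `R_E` is henselian for `E ⊇ E_I`. -/
theorem henselian_RE (hE : inertiaField P ≤ E) :
    HenselianLocalRing (P.comap (algebraMap E Qb)) where
  is_henselian f hf a₀ h₁ h₂ := exists_root_RE P E hE f hf a₀ h₁ h₂

/-- The residue field of `R_E` is algebraically closed for `E ⊇ E_I`. -/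
theorem isAlgClosed_residueField_RE (q : ℕ) (hq : q.Prime) (hP : P.LiesOverPrime q)
    (hE : inertiaField P ≤ E) :
    IsAlgClosed (IsLocalRing.ResidueField (P.comap (algebraMap E Qb))) := by
  apply IsAlgClosed.of_exists_root
  intro p hpm hpi
  obtain ⟨f, hfp, hfdeg, hfm⟩ := Polynomial.lifts_and_natDegree_eq_and_monic
    ((Polynomial.mem_lifts p).mpr
      (Polynomial.map_surjective _ IsLocalRing.residue_surjective p)) hpm
  let ι := inclRE P E
  let g : (P : Type)[X] := f.map ι
  have hg : g.Monic := hfm.map ι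
  have hgdeg : (g.map P.subtype).degree ≠ 0 := by
    have h1 : (g.map P.subtype).Monic := hg.map _
    have h2 : (g.map P.subtype).natDegree = p.natDegree := by
      rw [hg.natDegree_map P.subtype, hfm.natDegree_map ι, hfdeg]
    have h3 : 0 < p.natDegree := hpi.natDegree_pos
    intro h0
    have := natDegree_eq_zero_iff_degree_le_zero.mpr h0.le
    omega
  obtain ⟨α, hα⟩ := IsAlgClosed.exists_root (g.map P.subtype) hgdeg
  have hαP : α ∈ P := mem_of_isRoot_map P g hg α hα
  obtain ⟨z, hzP, hzI, hαz⟩ := exists_teichmuller P q hq hP α hαP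
  have hzE : z ∈ E := hE hzI
  let zR : P.comap (algebraMap E Qb) := ⟨⟨z, hzE⟩, hzP⟩
  refine ⟨IsLocalRing.residue _ zR, ?_⟩
  rw [← hfp, eval_map_apply, IsLocalRing.residue_eq_zero_iff, mem_maximalIdeal_RE_iff]
  have hgα : g.eval (⟨α, hαP⟩ : P) = 0 := by
    apply Subtype.ext
    have h3 : (g.map P.subtype).eval (P.subtype ⟨α, hαP⟩) = P.subtype (g.eval ⟨α, hαP⟩) :=
      eval_map_apply P.subtype _
    have h4 : (g.map P.subtype).eval α = 0 := hα
    have h5 : P.subtype ⟨α, hαP⟩ = α := rfl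
    rw [h5, h4] at h3
    exact h3.symm
  have h6 : (⟨z, hzP⟩ : P) - ⟨α, hαP⟩ ∣ g.eval (⟨z, hzP⟩ : P) - g.eval (⟨α, hαP⟩ : P) :=
    sub_dvd_eval_sub _ _ g
  rw [hgα, sub_zero] at h6
  obtain ⟨c, hc⟩ := h6
  have h7 : g.eval (⟨z, hzP⟩ : P) ∈ IsLocalRing.maximalIdeal P := by
    rw [hc]
    apply Ideal.mul_mem_right
    rw [← ValuationSubring.coe_mem_nonunits_iff]
    have h8 : (((⟨z, hzP⟩ : P) - ⟨α, hαP⟩ : P) : Qb) = -(α - z) := by
      show z - α = _
      ring
    rw [h8]
    exact neg_mem hαz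
  rw [← ValuationSubring.coe_mem_nonunits_iff] at h7
  have h9 : ((g.eval (⟨z, hzP⟩ : P) : P) : Qb) = (((f.eval zR : P.comap (algebraMap E Qb)) : E) : Qb) := by
    have h10 : g.eval (ι zR) = ι (f.eval zR) := eval_map_apply ι zR
    have h11 : ι zR = ⟨z, hzP⟩ := rfl
    rw [h11] at h10
    rw [h10]
    rfl
  rw [← h9]
  exact h7


end Fermat.Agent.A2.IF.H429

end
-- ===== PACK-END A2/IF/H429/Level.lean

-- ===== PACK-BEGIN A2/IF/H429/Good.lean
section



/-!
# A2 / IF (helper429): finite levels over the inertia field are discretely valued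

`E₁` a finite extension of the inertia field `E_I = ℚ̄^{I_P}` inside `ℚ̄`.  Then
`P ∩ E₁` is a discrete valuation ring.  The level `level P S = E_I(conjugates of S)` is stable
under the inertia group.
-/

set_option autoImplicit false
set_option linter.style.haveILetI false
set_option linter.unusedSectionVars false

open scoped Pointwise
open Polynomial

namespace Fermat.Agent.A2.IF.H429

open Fermat.Agent.S55.Bridge Fermat.Agent.S55.Bridge.H594

attribute [local instance] isAlgebraic_Qbar isGalois_Qbar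

local notation "Qb" => AlgebraicClosure ℚ

variable (P : ValuationSubring Qb)

theorem valuation_natCast_lt_one (q : ℕ) (hP : P.LiesOverPrime q) :
    P.valuation (q : Qb) < 1 := by
  have h : (q : Qb) ∈ P.nonunits := hP
  rwa [ValuationSubring.mem_nonunits_iff] at h

theorem valuation_natCast_ne_zero (q : ℕ) (hq : q.Prime) : P.valuation (q : Qb) ≠ 0 := by
  rw [Valuation.ne_zero_iff]
  exact_mod_cast hq.ne_zero

/-- Conjugates over the inertia field have the same valuation. -/
theorem valuation_eq_of_root_minpoly (x r : Qb)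
    (hr : aeval r (minpoly (inertiaField P) x) = 0) : P.valuation r = P.valuation x := by
  haveI : IsGalois (inertiaField P) Qb := IsGalois.tower_top_of_isGalois ℚ (inertiaField P) Qb
  haveI : Normal (inertiaField P) Qb := IsGalois.to_normal
  have hx : IsAlgebraic (inertiaField P) x := Algebra.IsAlgebraic.isAlgebraic x
  obtain ⟨σ, hσ⟩ := minpoly.exists_algEquiv_of_root hx hr
  have h1 := valuation_map_eq_of_fixes P (inertiaField P) le_rfl (σ.restrictScalars ℚ)
    (fun e he => σ.commutes ⟨e, he⟩) r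
  rw [← hσ]
  exact h1.symm

/-- For `x` in a finite extension `E₁` of the inertia field, `x ^ [E₁ : E_I]!` has the value of a
power of `q`. -/
theorem exists_pow_valuation_eq (q : ℕ) (hq : q.Prime) (hP : P.LiesOverPrime q)
    (E₁ : IntermediateField (inertiaField P) Qb) [FiniteDimensional (inertiaField P) E₁]
    (x : Qb) (hx : x ∈ E₁) (hx0 : x ≠ 0) :
    ∃ k : ℤ, P.valuation (x ^ (Module.finrank (inertiaField P) E₁).factorial) =
      P.valuation (q : Qb) ^ k := by
  have hxint : IsIntegral (inertiaField P) x := Algebra.IsIntegral.isIntegral x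
  set p := minpoly (inertiaField P) x with hp
  have hd0 : 0 < p.natDegree := minpoly.natDegree_pos hxint
  have hd : p.natDegree ≤ Module.finrank (inertiaField P) E₁ := by
    have h1 := minpoly.natDegree_le (A := inertiaField P) (⟨x, hx⟩ : E₁)
    rw [IntermediateField.minpoly_eq] at h1
    exact h1
  have hpm : p.Monic := minpoly.monic hxint
  have hc0 : p.coeff 0 ≠ 0 := minpoly.coeff_zero_ne_zero hxint hx0
  -- the value of the constant coefficient
  have hval : P.valuation ((p.coeff 0 : inertiaField P) : Qb) = P.valuation x ^ p.natDegree := by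
    have hsplit : (p.map (algebraMap (inertiaField P) Qb)).Splits := IsAlgClosed.splits _
    have h1 := hsplit.coeff_zero_eq_prod_roots_of_monic (hpm.map _)
    rw [coeff_map] at h1
    have h2 : algebraMap (inertiaField P) Qb (p.coeff 0) = ((p.coeff 0 : inertiaField P) : Qb) :=
      rfl
    rw [h2] at h1
    rw [h1, map_mul, map_pow, Valuation.map_neg, map_one, one_pow, one_mul, map_multiset_prod]
    have h3 : (p.map (algebraMap (inertiaField P) Qb)).roots.map P.valuation =
        Multiset.replicate (p.map (algebraMap (inertiaField P) Qb)).roots.card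
          (P.valuation x) := by
      rw [Multiset.eq_replicate]
      refine ⟨Multiset.card_map _ _, fun b hb => ?_⟩
      obtain ⟨r, hr, rfl⟩ := Multiset.mem_map.mp hb
      apply valuation_eq_of_root_minpoly P x r
      have h4 := isRoot_of_mem_roots hr
      rw [IsRoot, eval_map, ← aeval_def] at h4
      exact h4
    rw [h3, Multiset.prod_replicate, ← hsplit.natDegree_eq_card_roots, hpm.natDegree_map]
  obtain ⟨k, hk⟩ := exists_zpow_of_mem_inertiaField P q hq hP
    ((p.coeff 0 : inertiaField P) : Qb) (p.coeff 0).2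
    (fun h => hc0 (Subtype.ext h))
  rw [map_div₀, map_zpow₀] at hk
  have hqv : P.valuation (q : Qb) ^ k ≠ 0 :=
    zpow_ne_zero k (valuation_natCast_ne_zero P q hq)
  have hk' : P.valuation ((p.coeff 0 : inertiaField P) : Qb) = P.valuation (q : Qb) ^ k :=
    (div_eq_one_iff_eq hqv).mp hk
  obtain ⟨e, he⟩ := Nat.dvd_factorial hd0 hd
  refine ⟨k * e, ?_⟩
  rw [he, map_pow, pow_mul, ← hval, hk', zpow_mul, zpow_natCast]

/-- `P ∩ E` is a discrete valuation ring when every element of `E` has, after raising to a fixed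
power `N`, the value of a power of `q`. -/
theorem isDiscreteValuationRing_RE_of_pow (q : ℕ) (hq : q.Prime) (hP : P.LiesOverPrime q)
    (E : IntermediateField ℚ Qb) (N : ℕ) (hN : 0 < N)
    (h : ∀ x : Qb, x ∈ E → x ≠ 0 → ∃ k : ℤ, P.valuation (x ^ N) = P.valuation (q : Qb) ^ k) :
    IsDiscreteValuationRing (P.comap (algebraMap E Qb)) := by
  have hqlt := valuation_natCast_lt_one P q hP
  have hq0 := valuation_natCast_ne_zero P q hq
  have hqpos : 0 < P.valuation (q : Qb) := zero_lt_iff.mpr hq0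
  have hcoe : ∀ n : ℕ, ((((n : ℕ) : P.comap (algebraMap E Qb)) : E) : Qb) = (n : Qb) := by
    intro n
    simp
  refine isDiscreteValuationRing_of_pow_associated
    ((q : ℕ) : P.comap (algebraMap E Qb)) ?_ ?_ N hN ?_
  · intro h0
    have h1 := hcoe q
    rw [h0] at h1
    have h2 : (q : Qb) = 0 := by
      rw [← h1]; rfl
    exact hq.ne_zero (by exact_mod_cast h2)
  · intro hu
    have h1 : ((q : ℕ) : P.comap (algebraMap E Qb)) ∈
        IsLocalRing.maximalIdeal (P.comap (algebraMap E Qb)) := by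
      rw [mem_maximalIdeal_RE_iff, hcoe]
      exact hP
    exact (IsLocalRing.mem_maximalIdeal _).mp h1 hu
  · intro x hx
    have hxE : ((x : E) : Qb) ∈ E := (x : E).2
    have hx0 : ((x : E) : Qb) ≠ 0 := by
      intro h0
      apply hx
      apply Subtype.ext
      apply Subtype.ext
      exact h0
    have hxP : ((x : E) : Qb) ∈ P := x.2
    obtain ⟨k, hk⟩ := h _ hxE hx0
    -- `k ≥ 0`
    have hle : P.valuation (((x : E) : Qb) ^ N) ≤ 1 :=
      (P.valuation_le_one_iff _).mpr (pow_mem hxP N)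
    have hk0 : 0 ≤ k := by
      by_contra hneg
      rw [not_le] at hneg
      have h1 : 1 < P.valuation (q : Qb) ^ k := by
        obtain ⟨m, hm⟩ : ∃ m : ℕ, k = -((m : ℤ) + 1) := ⟨(-k - 1).toNat, by omega⟩
        rw [hm, zpow_neg]
        have h2 : P.valuation (q : Qb) ^ ((m : ℤ) + 1) < 1 := by
          have : P.valuation (q : Qb) ^ ((m : ℤ) + 1) = P.valuation (q : Qb) ^ (m + 1) := by
            exact_mod_cast zpow_natCast (P.valuation (q : Qb)) (m + 1)
          rw [this]
          exact pow_lt_one₀ zero_le hqlt (Nat.succ_ne_zero m)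
        have h3 : 0 < P.valuation (q : Qb) ^ ((m : ℤ) + 1) := zpow_pos hqpos _
        exact (one_lt_inv₀ h3).mpr h2
      rw [← hk] at h1
      exact absurd hle (not_le.mpr h1)
    obtain ⟨n, rfl⟩ := Int.eq_ofNat_of_zero_le hk0
    rw [zpow_natCast] at hk
    refine ⟨n, ?_⟩
    -- the unit
    let u : Qb := ((x : E) : Qb) ^ N / (q : Qb) ^ n
    have huv : P.valuation u = 1 := by
      show P.valuation (((x : E) : Qb) ^ N / (q : Qb) ^ n) = 1
      rw [map_div₀, hk, map_pow]
      exact div_self (pow_ne_zero n hq0)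
    have huE : u ∈ E := div_mem (pow_mem hxE N) (pow_mem (natCast_mem E q) n)
    have huP : u ∈ P := (P.valuation_le_one_iff _).mp huv.le
    let uR : P.comap (algebraMap E Qb) := ⟨⟨u, huE⟩, huP⟩
    have huR : IsUnit uR := by
      rw [← IsLocalRing.notMem_maximalIdeal, mem_maximalIdeal_RE_iff,
        ValuationSubring.mem_nonunits_iff]
      show ¬ P.valuation u < 1
      rw [huv]
      exact lt_irrefl _
    have heq : x ^ N = ((q : ℕ) : P.comap (algebraMap E Qb)) ^ n * uR := by
      apply Subtype.ext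
      apply Subtype.ext
      show ((x : E) : Qb) ^ N = ((((q : ℕ) : P.comap (algebraMap E Qb)) : E) : Qb) ^ n * u
      rw [hcoe]
      have hqn : (q : Qb) ^ n ≠ 0 := pow_ne_zero n (by exact_mod_cast hq.ne_zero)
      show ((x : E) : Qb) ^ N = (q : Qb) ^ n * (((x : E) : Qb) ^ N / (q : Qb) ^ n)
      field_simp
    rw [heq]
    exact associated_mul_unit_left _ uR huR


/-- All conjugates over `ℚ` of the elements of a finite set. -/
noncomputable def conjSet (S : Finset Qb) : Set Qb := (∏ s ∈ S, minpoly ℚ s).rootSet Qb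

theorem conjSet_prod_ne_zero (S : Finset Qb) : (∏ s ∈ S, minpoly ℚ s) ≠ 0 :=
  Finset.prod_ne_zero_iff.mpr fun s _ => minpoly.ne_zero (Algebra.IsIntegral.isIntegral s)

theorem conjSet_finite (S : Finset Qb) : (conjSet S).Finite := Polynomial.rootSet_finite _ _

theorem mem_conjSet_iff (S : Finset Qb) (x : Qb) :
    x ∈ conjSet S ↔ aeval x (∏ s ∈ S, minpoly ℚ s) = 0 := by
  unfold conjSet
  rw [Polynomial.mem_rootSet]
  exact ⟨fun h => h.2, fun h => ⟨conjSet_prod_ne_zero S, h⟩⟩

theorem mem_conjSet (S : Finset Qb) {s : Qb} (hs : s ∈ S) : s ∈ conjSet S := by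
  rw [mem_conjSet_iff, map_prod]
  exact Finset.prod_eq_zero hs (minpoly.aeval ℚ s)

theorem map_mem_conjSet (S : Finset Qb) (σ : Qb ≃ₐ[ℚ] Qb) {x : Qb} (hx : x ∈ conjSet S) :
    σ x ∈ conjSet S := by
  rw [mem_conjSet_iff] at hx ⊢
  have := Polynomial.aeval_algHom_apply (σ : Qb →ₐ[ℚ] Qb) x (∏ s ∈ S, minpoly ℚ s)
  rw [hx, map_zero] at this
  exact this

/-- The level: the inertia field with all conjugates of `S` adjoined, over the inertia field. -/
noncomputable def level₁ (S : Finset Qb) : IntermediateField (inertiaField P) Qb :=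
  IntermediateField.adjoin (inertiaField P) (conjSet S)

instance level₁_finiteDimensional (S : Finset Qb) :
    FiniteDimensional (inertiaField P) (level₁ P S) := by
  haveI : Finite (conjSet S) := (conjSet_finite S).to_subtype
  exact IntermediateField.finiteDimensional_adjoin
    (fun x _ => Algebra.IsIntegral.isIntegral x)

/-- The level as an intermediate field of `ℚ̄/ℚ`. -/
noncomputable def level (S : Finset Qb) : IntermediateField ℚ Qb :=
  (level₁ P S).restrictScalars ℚ

theorem mem_level_iff (S : Finset Qb) (x : Qb) : x ∈ level P S ↔ x ∈ level₁ P S := Iff.rfl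

theorem inertiaField_le_level (S : Finset Qb) : inertiaField P ≤ level P S := by
  intro x hx
  rw [mem_level_iff]
  exact (level₁ P S).algebraMap_mem ⟨x, hx⟩

theorem mem_level_of_mem (S : Finset Qb) {s : Qb} (hs : s ∈ S) : s ∈ level P S := by
  rw [mem_level_iff]
  exact IntermediateField.subset_adjoin _ _ (mem_conjSet S hs)

/-- The level is stable under every automorphism fixing the inertia field pointwise. -/
theorem level_stable (S : Finset Qb) (τ : Qb ≃ₐ[ℚ] Qb)
    (hτ : ∀ e ∈ inertiaField P, τ e = e) {x : Qb} (hx : x ∈ level P S) : τ x ∈ level P S := by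
  let τK : Qb ≃ₐ[inertiaField P] Qb :=
    { τ.toRingEquiv with commutes' := fun e => hτ (e : Qb) e.2 }
  have hτK : ∀ y : Qb, τK y = τ y := fun _ => rfl
  have h1 : (level₁ P S).map (τK : Qb →ₐ[inertiaField P] Qb) ≤ level₁ P S := by
    unfold level₁
    rw [IntermediateField.adjoin_map]
    apply IntermediateField.adjoin.mono
    rintro _ ⟨y, hy, rfl⟩
    exact map_mem_conjSet S τ hy
  rw [mem_level_iff] at hx ⊢
  apply h1
  rw [IntermediateField.mem_map]
  exact ⟨x, hx, rfl⟩

theorem level_stable_inertia (S : Finset Qb) {τ : Qb ≃ₐ[ℚ] Qb}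
    (hτ : τ ∈ P.inertiaSubgroupIn ℚ) {x : Qb} (hx : x ∈ level P S) : τ x ∈ level P S :=
  level_stable P S τ (fun e he => (mem_inertiaField_iff P).mp he τ hτ) hx

/-- The level is discretely valued. -/
theorem isDiscreteValuationRing_level (q : ℕ) (hq : q.Prime) (hP : P.LiesOverPrime q)
    (S : Finset Qb) : IsDiscreteValuationRing (P.comap (algebraMap (level P S) Qb)) :=
  isDiscreteValuationRing_RE_of_pow P q hq hP (level P S)
    (Module.finrank (inertiaField P) (level₁ P S)).factorial (Nat.factorial_pos _)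
    (fun x hx hx0 => exists_pow_valuation_eq P q hq hP (level₁ P S) x hx hx0)


theorem iterate_eq_pow_apply (σ : Qb ≃ₐ[ℚ] Qb) (r : ℕ) (x : Qb) : (⇑σ)^[r] x = (σ ^ r) x := by
  induction r with
  | zero => rfl
  | succ n ih =>
    rw [Function.iterate_succ_apply', ih, pow_succ']
    rfl

theorem pow_mul_apply_eq (σ : Qb ≃ₐ[ℚ] Qb) (a b : ℕ) (x : Qb) (h : (σ ^ a) x = x) :
    (σ ^ (a * b)) x = x := by
  induction b with
  | zero => simp
  | succ n ih =>
    rw [Nat.mul_succ, pow_add]
    show (σ ^ (a * n)) ((σ ^ a) x) = x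
    rw [h, ih]

/-- Some positive power of `σ` fixes every element of a finite set. -/
theorem exists_pow_fixes_finset (σ : Qb ≃ₐ[ℚ] Qb) (T : Finset Qb) :
    ∃ r : ℕ, 0 < r ∧ ∀ x ∈ T, (σ ^ r) x = x := by
  classical
  induction T using Finset.induction_on with
  | empty => exact ⟨1, one_pos, fun x hx => absurd hx (Finset.notMem_empty x)⟩
  | insert a T _ ih =>
    obtain ⟨r, hr, hT⟩ := ih
    obtain ⟨k, hk⟩ := exists_pow_apply_eq σ a
    refine ⟨(k + 1) * r, Nat.mul_pos (Nat.succ_pos k) hr, fun x hx => ?_⟩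
    rcases Finset.mem_insert.mp hx with rfl | hx
    · exact pow_mul_apply_eq σ (k + 1) r x hk
    · rw [mul_comm]
      exact pow_mul_apply_eq σ r (k + 1) x (hT x hx)

/-- An automorphism fixing the inertia field and the conjugates of `S` fixes the level. -/
theorem level_fixed (S : Finset Qb) (ρ : Qb ≃ₐ[ℚ] Qb)
    (hρ : ∀ e ∈ inertiaField P, ρ e = e) (hS : ∀ x ∈ conjSet S, ρ x = x)
    {x : Qb} (hx : x ∈ level P S) : ρ x = x := by
  rw [mem_level_iff] at hx
  unfold level₁ at hx
  induction hx using IntermediateField.adjoin_induction with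
  | mem x hx => exact hS x hx
  | algebraMap x => exact hρ _ x.2
  | add x y _ _ hx hy => rw [map_add, hx, hy]
  | inv x _ hx => rw [map_inv₀, hx]
  | mul x y _ _ hx hy => rw [map_mul, hx, hy]

/-- Every element of the inertia group has finite order on the level. -/
theorem level_finite_order (S : Finset Qb) {τ : Qb ≃ₐ[ℚ] Qb}
    (hτ : τ ∈ P.inertiaSubgroupIn ℚ) :
    ∃ r : ℕ, 0 < r ∧ ∀ e : Qb, e ∈ level P S → (⇑τ)^[r] e = e := by
  obtain ⟨r, hr, hT⟩ := exists_pow_fixes_finset τ (conjSet_finite S).toFinset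
  refine ⟨r, hr, fun e he => ?_⟩
  rw [iterate_eq_pow_apply]
  apply level_fixed P S (τ ^ r) _ _ he
  · intro e he
    exact (mem_inertiaField_iff P).mp he (τ ^ r) (Subgroup.pow_mem _ hτ r)
  · intro x hx
    exact hT x ((conjSet_finite S).mem_toFinset.mpr hx)


end Fermat.Agent.A2.IF.H429

end
-- ===== PACK-END A2/IF/H429/Good.lean

-- ===== PACK-BEGIN A2/Mod/H753/IndInf.lean
section






/-!
# A2 / MOD leaf L9 `IndInf` (helper753): residue independence on `C∞`

Level `N = M q`, `q ∤ M`, `R = R_E` a DVR with uniformiser `w`, `k = R / w` (characteristic `q`).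

* `exists_monomials` : `ψ(M)` integral monomials `Y i ∈ ℤ[j_d : d ∣ M]` whose reductions are
  polynomially independent over `k[j̄]` (row S28: `Good.exists_linearIndependent`);
* `red_eq_zero_of_inW` : an `R`-integral series lying in `w V∞` has zero reduction;
* `indInf_strong` : the family `g (a, i) = Y i · j^a ∈ F_M` (`0 ≤ a ≤ q`) consists of integral
  series (so it lies in EVERY Gauss ring of level `M`), and `b = α ∘ g` is `IndepMod` for the
  coordinate `x = j j_q`  (`x̄ = j̄^(q+1)`, Frobenius congruence + base-`(q+1)` digits);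
* `indInf : IndInfStatement P E M q w`;
* `eq_zero_of_sum_expand_mul_X_pow` : `∑_{a<n} p_a(X^n) X^a = 0 ⟹ p_a = 0` (Mathlib-only).
-/

set_option autoImplicit false
set_option synthInstance.maxHeartbeats 400000
set_option maxHeartbeats 1600000

noncomputable section

namespace Fermat.Agent.A2.Mod.H753

open ModularCurve HahnSeries Polynomial
open Fermat.Agent.S28 (intDivisorExpansions jField)
open Fermat.Agent.S28.H325 (castL PolyIndep)

/-! ## 0. base-`n` digits of polynomials (Mathlib-only) -/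


/-- coefficient of `∑_{a<n} p_a(X^n) X^a` at `n m + a₀` is the `m`-th coefficient of `p_{a₀}`. -/
theorem coeff_sum_expand_mul_X_pow {k : Type*} [CommSemiring k] {n : ℕ} (hn : 0 < n)
    (p : Fin n → k[X]) (a₀ : Fin n) (m : ℕ) :
    (∑ a : Fin n, expand k n (p a) * X ^ (a : ℕ)).coeff (n * m + a₀) = (p a₀).coeff m := by
  rw [Polynomial.finsetSum_coeff]
  rw [Finset.sum_eq_single a₀]
  · rw [coeff_mul_X_pow, coeff_expand_mul' hn]
  · intro a _ hne
    rw [coeff_mul_X_pow']
    split_ifs with hle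
    · rw [coeff_expand hn, if_neg]
      intro hdvd
      apply hne
      have h1 : (n : ℤ) ∣ ((a₀ : ℕ) : ℤ) - ((a : ℕ) : ℤ) := by
        have h2 : (n : ℤ) ∣ ((n * m + a₀ - a : ℕ) : ℤ) := by exact_mod_cast hdvd
        rw [Nat.cast_sub hle] at h2
        push_cast at h2
        have h3 : ((n : ℤ) * m + a₀ - a) = (a₀ - a) + n * m := by ring
        rw [h3] at h2
        exact (Int.dvd_add_left (Dvd.intro _ rfl)).mp h2
      have ha : ((a : ℕ) : ℤ) < n := by exact_mod_cast a.2
      have ha₀ : ((a₀ : ℕ) : ℤ) < n := by exact_mod_cast a₀.2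
      have h0a : (0 : ℤ) ≤ ((a : ℕ) : ℤ) := by positivity
      have h0a₀ : (0 : ℤ) ≤ ((a₀ : ℕ) : ℤ) := by positivity
      have h4 : ((a₀ : ℕ) : ℤ) - ((a : ℕ) : ℤ) = 0 := by
        apply Int.eq_zero_of_abs_lt_dvd h1
        rw [abs_lt]
        constructor <;> linarith
      apply Fin.ext
      have : ((a : ℕ) : ℤ) = ((a₀ : ℕ) : ℤ) := by linarith
      exact_mod_cast this
    · rfl
  · intro h
    exact absurd (Finset.mem_univ a₀) h

/-- **Digits.**  `∑_{a<n} p_a(X^n) X^a = 0 ⟹ p_a = 0`. -/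
theorem eq_zero_of_sum_expand_mul_X_pow {k : Type*} [CommSemiring k] {n : ℕ} (hn : 0 < n)
    (p : Fin n → k[X]) (h : ∑ a : Fin n, expand k n (p a) * X ^ (a : ℕ) = 0) (a₀ : Fin n) :
    p a₀ = 0 := by
  ext m
  rw [← coeff_sum_expand_mul_X_pow hn p a₀ m, h, Polynomial.coeff_zero, Polynomial.coeff_zero]

/-! ## 1. the residue field has characteristic `q` -/

section Char

variable (P : ValuationSubring _root_.Fermat.Agent.A2.Mod.Qb) (E : IntermediateField ℚ _root_.Fermat.Agent.A2.Mod.Qb)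

theorem natCast_mem_maximalIdeal {q : ℕ} (hP : P.LiesOverPrime q) :
    (q : _root_.Fermat.Agent.A2.Mod.RE P E) ∈ IsLocalRing.maximalIdeal (_root_.Fermat.Agent.A2.Mod.RE P E) := by
  rw [IsLocalRing.mem_maximalIdeal, mem_nonunits_iff]
  intro hu
  obtain ⟨u, hu⟩ := hu.exists_right_inv
  have h1 : ((q : _root_.Fermat.Agent.A2.Mod.RE P E) : E) * (u : E) = 1 := by
    have := congrArg (fun z : _root_.Fermat.Agent.A2.Mod.RE P E => (z : E)) hu
    simpa using this
  have h2 : (q : _root_.Fermat.Agent.A2.Mod.Qb) * algebraMap E _root_.Fermat.Agent.A2.Mod.Qb (u : E) = 1 := by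
    have := congrArg (algebraMap E _root_.Fermat.Agent.A2.Mod.Qb) h1
    simpa using this
  have hmem : algebraMap E _root_.Fermat.Agent.A2.Mod.Qb (u : E) ∈ P := u.2
  have hq : (q : _root_.Fermat.Agent.A2.Mod.Qb) ∈ P := natCast_mem P q
  have hunit : IsUnit (⟨(q : _root_.Fermat.Agent.A2.Mod.Qb), hq⟩ : P) := by
    refine IsUnit.of_mul_eq_one (⟨algebraMap E _root_.Fermat.Agent.A2.Mod.Qb (u : E), hmem⟩ : P) ?_
    exact Subtype.ext h2
  have h3 : ((⟨(q : _root_.Fermat.Agent.A2.Mod.Qb), hq⟩ : P) : _root_.Fermat.Agent.A2.Mod.Qb) ∈ P.nonunits := hP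
  rw [ValuationSubring.coe_mem_nonunits_iff, IsLocalRing.mem_maximalIdeal, mem_nonunits_iff] at h3
  exact h3 hunit

theorem charP_residueField {q : ℕ} (hq : q.Prime) (hP : P.LiesOverPrime q) :
    CharP (IsLocalRing.ResidueField (_root_.Fermat.Agent.A2.Mod.RE P E)) q := by
  refine (CharP.charP_iff_prime_eq_zero hq).mpr ?_
  have h3 := (IsLocalRing.residue_eq_zero_iff (q : _root_.Fermat.Agent.A2.Mod.RE P E)).mpr (natCast_mem_maximalIdeal P E hP)
  rwa [map_natCast] at h3

end Char

/-! ## 2. the monomials -/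

/-- `ψ(M)` integral monomials with polynomially independent reductions. -/
theorem exists_monomials (M q : ℕ) [NeZero M] (hq : q.Prime) (hqM : ¬ q ∣ M)
    (k : Type*) [Field k] [CharP k q] :
    ∃ Y : Fin (dedekindPsi M) → LaurentSeries ℤ,
      (∀ i, Y i ∈ Submonoid.closure (intDivisorExpansions M)) ∧
      PolyIndep (jqModC k) (fun i => castL k (Y i)) := by
  have hchar : ∀ p : ℕ, p.Prime → p ∣ M → (p : k) ≠ 0 := by
    intro p hp hpM h0
    have hdvd : q ∣ p := (CharP.cast_eq_zero_iff k q p).mp h0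
    have : q = p := (Nat.prime_dvd_prime_iff_eq hq hp).mp hdvd
    exact hqM (this ▸ hpM)
  have hΦ : ∀ p : ℕ, p.Prime → p ∣ M → ∀ [NeZero p], Nonempty (Fermat.Agent.S28.ModPolyData p) :=
    fun p hp _ _ => Fermat.Agent.S28.H807.nonempty_modPolyData p hp
  have hW : ∀ p : ℕ, p.Prime → p ∣ M → ∀ [NeZero p], Nonempty (Fermat.Agent.S28.UnitPolyData p) :=
    fun p hp _ _ => Fermat.Agent.S28.H807.nonempty_unitPolyData p hp
  have hgood : Fermat.Agent.S28.H867.Good k M :=
    Fermat.Agent.S28.H867.good_of_inputs k M (NeZero.ne M) hΦ hW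
      Fermat.Agent.S28.H25.theta_identity hchar
  obtain ⟨Y, hY, hli⟩ := Fermat.Agent.S28.H325.exists_monomials_linearIndependent k M
    (Fermat.Agent.S28.H867.coreData_integral M hΦ) (dedekindPsi M) hgood.exists_linearIndependent
  refine ⟨Y, hY, ?_⟩
  exact Fermat.Agent.S28.H325.polyIndep_of_linearIndependent
    (fun Q hQ => (Fermat.Agent.S28.H325.aeval_jqModC_eq_zero_iff k Q).mp hQ) hli

/-! ## 3. integral series in `w V∞` have zero reduction -/

section Red

variable (P : ValuationSubring _root_.Fermat.Agent.A2.Mod.Qb) (E : IntermediateField ℚ _root_.Fermat.Agent.A2.Mod.Qb) (N : ℕ)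

theorem coe_cE (r : _root_.Fermat.Agent.A2.Mod.RE P E) :
    ((cE P E N r : _root_.Fermat.Agent.A2.Mod.FE E N) : LaurentSeries E) = H708.cst ((r : E)) := rfl

variable {P E N}

theorem red_eq_zero_of_inW {V : ValuationSubring (_root_.Fermat.Agent.A2.Mod.FE E N)} (hV : IsVinf P E N V) {w : _root_.Fermat.Agent.A2.Mod.RE P E}
    (hw0 : w ≠ 0) (hw : w ∈ IsLocalRing.maximalIdeal (_root_.Fermat.Agent.A2.Mod.RE P E)) {f : _root_.Fermat.Agent.A2.Mod.FE E N}
    {S : LaurentSeries (_root_.Fermat.Agent.A2.Mod.RE P E)} (hS : (f : LaurentSeries E) = H708.incl (_root_.Fermat.Agent.A2.Mod.RE P E) S)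
    (h : InW P E N V w f) : H708.red (_root_.Fermat.Agent.A2.Mod.RE P E) S = 0 := by
  obtain ⟨U₁, U₂, hU₂, -, he⟩ := (hV _).mp h
  have hwE : ((w : E)) ≠ 0 := fun h0 => hw0 (Subtype.ext h0)
  have hc : H708.cst (w : E) ≠ 0 := H708.cst_ne_zero hwE
  have hcoe : (((f * (cE P E N w)⁻¹ : _root_.Fermat.Agent.A2.Mod.FE E N)) : LaurentSeries E)
      = (f : LaurentSeries E) * (H708.cst (w : E))⁻¹ := by
    rw [IntermediateField.coe_mul, IntermediateField.coe_inv]
    rfl
  have he' : (f : LaurentSeries E) * H708.incl (_root_.Fermat.Agent.A2.Mod.RE P E) U₂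
      = H708.cst (w : E) * H708.incl (_root_.Fermat.Agent.A2.Mod.RE P E) U₁ := by
    rw [← he, hcoe]
    field_simp
  have h2 : S * U₂ = H708.cstA (_root_.Fermat.Agent.A2.Mod.RE P E) w * U₁ := by
    apply H708.incl_injective (_root_.Fermat.Agent.A2.Mod.RE P E)
    rw [map_mul, map_mul, H708.incl_cstA, ← hS, he']
  have h3 := congrArg (H708.red (_root_.Fermat.Agent.A2.Mod.RE P E)) h2
  rw [map_mul, map_mul, H708.red_cstA, (IsLocalRing.residue_eq_zero_iff w).mpr hw,
    HahnSeries.single_eq_zero, zero_mul] at h3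
  rcases mul_eq_zero.mp h3 with h4 | h4
  · exact h4
  · exact absurd h4 hU₂

end Red

/-! ## 4. the family `Y i · j^a` -/

section Family

variable (M q : ℕ)

/-- the integral series `Y_i · j^a`, indexed by `Fin ((q+1) ψ(M)) ≃ Fin (q+1) × Fin ψ(M)`. -/
def monoZ (Y : Fin (dedekindPsi M) → LaurentSeries ℤ) (i : Fin ((q + 1) * dedekindPsi M)) :
    LaurentSeries ℤ :=
  Y (finProdFinEquiv.symm i).2 * jqModC ℤ ^ ((finProdFinEquiv.symm i).1 : ℕ)

/-- the integral series of the coordinate `x = j · j_q`. -/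
def xZ [NeZero q] : LaurentSeries ℤ := jqModC ℤ * qExpand ℤ q (jqModC ℤ)

theorem castQ_jqModC : H708.castQ (jqModC ℤ) = jq := by
  rw [H708.castQ, coeffMap_jqModC, jqModC_rat]

theorem castQ_mem_full_of_mem_closure [NeZero M] {y : LaurentSeries ℤ}
    (hy : y ∈ Submonoid.closure (intDivisorExpansions M)) :
    H708.castQ y ∈ modularFunctionFieldFull M := by
  have h1 : castL ℚ y ∈ castL ℚ ''
      ((Submonoid.closure (intDivisorExpansions M) : Submonoid (LaurentSeries ℤ)) :
        Set (LaurentSeries ℤ)) := ⟨y, hy, rfl⟩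
  rw [Fermat.Agent.S28.H325.castL_image_closure] at h1
  exact Fermat.Agent.S28.H325.monomials_subset_full ℚ M h1

theorem castQ_monoZ_mem [NeZero M] {Y : Fin (dedekindPsi M) → LaurentSeries ℤ}
    (hY : ∀ i, Y i ∈ Submonoid.closure (intDivisorExpansions M))
    (i : Fin ((q + 1) * dedekindPsi M)) :
    H708.castQ (monoZ M q Y i) ∈ modularFunctionFieldFull M := by
  rw [monoZ, map_mul, map_pow, castQ_jqModC]
  refine mul_mem (castQ_mem_full_of_mem_closure M (hY _)) (pow_mem ?_ _)
  have := jqd_mem_full M (one_dvd M)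
  rwa [qExpand_one_apply] at this

end Family

section Main

variable (P : ValuationSubring _root_.Fermat.Agent.A2.Mod.Qb) (E : IntermediateField ℚ _root_.Fermat.Agent.A2.Mod.Qb) (M q : ℕ) [NeZero M] [NeZero q]

/-- the elements `g i = Y i · j^a` of `F_M`. -/
def gFam {Y : Fin (dedekindPsi M) → LaurentSeries ℤ}
    (hY : ∀ i, Y i ∈ Submonoid.closure (intDivisorExpansions M))
    (i : Fin ((q + 1) * dedekindPsi M)) : _root_.Fermat.Agent.A2.Mod.FE E M :=
  ⟨coeffEmb E (H708.castQ (monoZ M q Y i)),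
    coeffEmb_mem_laurentBaseChange E (castQ_monoZ_mem M q hY i)⟩

omit [NeZero q] in
theorem coe_gFam {Y : Fin (dedekindPsi M) → LaurentSeries ℤ}
    (hY : ∀ i, Y i ∈ Submonoid.closure (intDivisorExpansions M))
    (i : Fin ((q + 1) * dedekindPsi M)) :
    ((gFam E M q hY i : _root_.Fermat.Agent.A2.Mod.FE E M) : LaurentSeries E)
      = H708.incl (_root_.Fermat.Agent.A2.Mod.RE P E) (H708.castA (_root_.Fermat.Agent.A2.Mod.RE P E) (monoZ M q Y i)) := by
  rw [H708.incl_castA]
  rfl

omit [NeZero q] in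
theorem gFam_mem {Y : Fin (dedekindPsi M) → LaurentSeries ℤ}
    (hY : ∀ i, Y i ∈ Submonoid.closure (intDivisorExpansions M))
    {VM : ValuationSubring (_root_.Fermat.Agent.A2.Mod.FE E M)} (hVM : IsVinf P E M VM)
    (i : Fin ((q + 1) * dedekindPsi M)) : gFam E M q hY i ∈ VM := by
  rw [hVM, coe_gFam P]
  exact H708.IsGaussInt.of_incl _

theorem alpha_gFam_mem {Y : Fin (dedekindPsi M) → LaurentSeries ℤ}
    (hY : ∀ i, Y i ∈ Submonoid.closure (intDivisorExpansions M))
    {V : ValuationSubring (_root_.Fermat.Agent.A2.Mod.FE E (M * q))} (hV : IsVinf P E (M * q) V)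
    (i : Fin ((q + 1) * dedekindPsi M)) : αE E M q (gFam E M q hY i) ∈ V := by
  rw [hV, coe_heckeAlphaBar, coe_gFam P]
  exact H708.IsGaussInt.of_incl _

omit [NeZero M] in
theorem coe_xE :
    ((xE E M q : _root_.Fermat.Agent.A2.Mod.FE E (M * q)) : LaurentSeries E)
      = H708.incl (_root_.Fermat.Agent.A2.Mod.RE P E) (H708.castA (_root_.Fermat.Agent.A2.Mod.RE P E) (xZ q)) := by
  rw [H708.incl_castA, xZ, map_mul, H708.castQ, coeffMap_qExpand, ← H708.castQ, castQ_jqModC,
    map_mul, xE, IntermediateField.coe_mul]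
  show coeffEmb E (qExpand ℚ 1 jq) * coeffEmb E (qExpand ℚ q jq) = _
  rw [qExpand_one_apply]

/-- the coercion of `ev x p` is the inclusion of the integral series `p(X)`. -/
theorem coe_ev {N : ℕ} (x : _root_.Fermat.Agent.A2.Mod.FE E N) (X : LaurentSeries (_root_.Fermat.Agent.A2.Mod.RE P E))
    (hx : (x : LaurentSeries E) = H708.incl (_root_.Fermat.Agent.A2.Mod.RE P E) X) (p : Polynomial (_root_.Fermat.Agent.A2.Mod.RE P E)) :
    ((ev P E N x p : _root_.Fermat.Agent.A2.Mod.FE E N) : LaurentSeries E) = H708.incl (_root_.Fermat.Agent.A2.Mod.RE P E) (aeval X p) := by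
  rw [H708.incl, Fermat.Agent.S28.H325.coeffMap_aeval, ← H708.incl, ← hx, aeval_def,
    Polynomial.eval₂_map, ev]
  exact Polynomial.hom_eval₂ p ((algebraMap E (_root_.Fermat.Agent.A2.Mod.FE E N)).comp (_root_.Fermat.Agent.A2.Mod.RE P E).subtype)
    (algebraMap (_root_.Fermat.Agent.A2.Mod.FE E N) (LaurentSeries E)) x

/-! ## 5. reductions -/

theorem red_castA (Z : LaurentSeries ℤ) :
    H708.red (_root_.Fermat.Agent.A2.Mod.RE P E) (H708.castA (_root_.Fermat.Agent.A2.Mod.RE P E) Z)
      = castL (IsLocalRing.ResidueField (_root_.Fermat.Agent.A2.Mod.RE P E)) Z := by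
  rw [H708.red, H708.castA, coeffMap_coeffMap]
  exact coeffMap_congr (RingHom.ext_int _ _) Z

/-- Frobenius: `j̄_q = j̄^q` in characteristic `q`. -/
theorem castL_qExpand_jqModC (hq : q.Prime) (k : Type*) [Field k] [CharP k q] :
    castL k (qExpand ℤ q (jqModC ℤ)) = jqModC k ^ q := by
  have : Fact q.Prime := ⟨hq⟩
  obtain ⟨g, hg⟩ := H528.exists_frobCong q (jqModC ℤ)
  have h1 : qExpand ℤ q (jqModC ℤ) = jqModC ℤ ^ q + HahnSeries.C (q : ℤ) * g := by
    rw [← hg]; ring
  have h2 : castL k (HahnSeries.C (q : ℤ)) = 0 := by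
    ext n
    rw [castL, coeffMap_coeff, HahnSeries.coeff_zero, HahnSeries.C_apply,
      HahnSeries.coeff_single]
    split_ifs
    · rw [eq_intCast, Int.cast_natCast, CharP.cast_eq_zero k q]
    · rw [map_zero]
  rw [h1, map_add, map_mul, h2, zero_mul, add_zero, map_pow,
    Fermat.Agent.S28.H325.castL_jqModC]

theorem castL_xZ (hq : q.Prime) (k : Type*) [Field k] [CharP k q] :
    castL k (xZ q) = jqModC k ^ (q + 1) := by
  rw [xZ, map_mul, castL_qExpand_jqModC q hq k, Fermat.Agent.S28.H325.castL_jqModC, pow_succ']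

omit [NeZero M] [NeZero q] in
theorem castL_monoZ (k : Type*) [Field k] (Y : Fin (dedekindPsi M) → LaurentSeries ℤ)
    (i : Fin ((q + 1) * dedekindPsi M)) :
    castL k (monoZ M q Y i)
      = castL k (Y (finProdFinEquiv.symm i).2) * jqModC k ^ ((finProdFinEquiv.symm i).1 : ℕ) := by
  rw [monoZ, map_mul, map_pow, Fermat.Agent.S28.H325.castL_jqModC]

/-- polynomial independence of the family `v i · J^a` over `k[J^(q+1)]`. -/
theorem polyIndep_tower {k : Type*} [Field k] {n : ℕ} (m : ℕ) (hm : 0 < m)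
    (J : LaurentSeries k) (v : Fin n → LaurentSeries k) (hv : PolyIndep J v)
    (p : Fin (m * n) → Polynomial k)
    (h : ∑ i, aeval (J ^ m) (p i) *
      (v (finProdFinEquiv.symm i).2 * J ^ ((finProdFinEquiv.symm i).1 : ℕ)) = 0)
    (i : Fin (m * n)) : p i = 0 := by
  have h1 : ∑ i' : Fin n, aeval J (∑ a : Fin m,
      expand k m (p (finProdFinEquiv (a, i'))) * X ^ (a : ℕ)) * v i' = 0 := by
    rw [← h]
    rw [Fintype.sum_equiv finProdFinEquiv.symm
      (fun i => aeval (J ^ m) (p i) *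
        (v (finProdFinEquiv.symm i).2 * J ^ ((finProdFinEquiv.symm i).1 : ℕ)))
      (fun z : Fin m × Fin n => aeval (J ^ m) (p (finProdFinEquiv z)) * (v z.2 * J ^ (z.1 : ℕ)))
      (fun i => by simp only [Equiv.apply_symm_apply])]
    rw [Fintype.sum_prod_type, Finset.sum_comm]
    refine Finset.sum_congr rfl fun i' _ => ?_
    rw [map_sum, Finset.sum_mul]
    refine Finset.sum_congr rfl fun a _ => ?_
    rw [map_mul, expand_aeval, map_pow, aeval_X]
    ring
  have h2 := hv _ h1 (finProdFinEquiv.symm i).2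
  have h3 : p (finProdFinEquiv ((finProdFinEquiv.symm i).1, (finProdFinEquiv.symm i).2)) = 0 :=
    eq_zero_of_sum_expand_mul_X_pow hm
      (fun a => p (finProdFinEquiv (a, (finProdFinEquiv.symm i).2))) h2 (finProdFinEquiv.symm i).1
  rwa [Prod.mk.eta, Equiv.apply_symm_apply] at h3

/-- `p̄ = 0 ⟹ w ∣ p`. -/
theorem C_dvd_of_map_residue_eq_zero {w : _root_.Fermat.Agent.A2.Mod.RE P E} (hdvr : IsDiscreteValuationRing (_root_.Fermat.Agent.A2.Mod.RE P E))
    (hw : Irreducible w) {p : Polynomial (_root_.Fermat.Agent.A2.Mod.RE P E)}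
    (hp : p.map (IsLocalRing.residue (_root_.Fermat.Agent.A2.Mod.RE P E)) = 0) : Polynomial.C w ∣ p := by
  rw [Polynomial.C_dvd_iff_dvd_coeff]
  intro n
  have h1 : IsLocalRing.residue (_root_.Fermat.Agent.A2.Mod.RE P E) (p.coeff n) = 0 := by
    have := congrArg (fun z => z.coeff n) hp
    simpa using this
  rw [IsLocalRing.residue_eq_zero_iff, hw.maximalIdeal_eq, Ideal.mem_span_singleton] at h1
  exact h1

/-! ## 6. the leaf -/

/-- **L9, strong form.**  There is a family `g` of `(q+1) ψ(M)` elements of `F_M`, integral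
series (hence in every Gauss ring of level `M`), such that `α ∘ g` lies in `V∞` (level `M q`) and
is independent modulo `w` over `R[x]`, `x = j j_q`. -/
theorem indInf_strong (w : _root_.Fermat.Agent.A2.Mod.RE P E) (hS : Setting P E M q w) :
    ∃ g : Fin ((q + 1) * dedekindPsi M) → _root_.Fermat.Agent.A2.Mod.FE E M,
      (∀ VM : ValuationSubring (_root_.Fermat.Agent.A2.Mod.FE E M), IsVinf P E M VM → ∀ i, g i ∈ VM) ∧
      ∀ V : ValuationSubring (_root_.Fermat.Agent.A2.Mod.FE E (M * q)), IsVinf P E (M * q) V →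
        (∀ i, αE E M q (g i) ∈ V) ∧
        IndepMod P E (M * q) V w (xE E M q) (fun i => αE E M q (g i)) := by
  have hdvr := hS.dvr
  have : CharP (IsLocalRing.ResidueField (_root_.Fermat.Agent.A2.Mod.RE P E)) q :=
    charP_residueField P E hS.q_prime hS.lies_over
  obtain ⟨Y, hY, hYi⟩ := exists_monomials M q hS.q_prime hS.q_not_dvd
    (IsLocalRing.ResidueField (_root_.Fermat.Agent.A2.Mod.RE P E))
  refine ⟨gFam E M q hY, fun VM hVM i => gFam_mem P E M q hY hVM i, fun V hV => ⟨fun i =>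
    alpha_gFam_mem P E M q hY hV i, ?_⟩⟩
  intro a ha i
  -- the integral series of the relation
  set S : LaurentSeries (_root_.Fermat.Agent.A2.Mod.RE P E) :=
    ∑ i, aeval (H708.castA (_root_.Fermat.Agent.A2.Mod.RE P E) (xZ q)) (a i) * H708.castA (_root_.Fermat.Agent.A2.Mod.RE P E) (monoZ M q Y i) with hSdef
  have hcoe : ((∑ i, ev P E (M * q) (xE E M q) (a i) * αE E M q (gFam E M q hY i) :
      _root_.Fermat.Agent.A2.Mod.FE E (M * q)) : LaurentSeries E) = H708.incl (_root_.Fermat.Agent.A2.Mod.RE P E) S := by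
    rw [hSdef, map_sum, IntermediateField.coe_sum]
    refine Finset.sum_congr rfl fun i _ => ?_
    rw [IntermediateField.coe_mul, coe_ev P E (xE E M q) _ (coe_xE P E M q) (a i),
      coe_heckeAlphaBar, coe_gFam P, map_mul]
  have hw0 : w ≠ 0 := hS.unif.ne_zero
  have hwm : w ∈ IsLocalRing.maximalIdeal (_root_.Fermat.Agent.A2.Mod.RE P E) := by
    rw [IsLocalRing.mem_maximalIdeal, mem_nonunits_iff]
    exact hS.unif.not_isUnit
  have hred := red_eq_zero_of_inW hV hw0 hwm hcoe ha
  rw [hSdef, map_sum] at hred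
  have hred' : ∑ i, aeval (jqModC (IsLocalRing.ResidueField (_root_.Fermat.Agent.A2.Mod.RE P E)) ^ (q + 1))
      ((a i).map (IsLocalRing.residue (_root_.Fermat.Agent.A2.Mod.RE P E))) *
      (castL (IsLocalRing.ResidueField (_root_.Fermat.Agent.A2.Mod.RE P E)) (Y (finProdFinEquiv.symm i).2) *
        jqModC (IsLocalRing.ResidueField (_root_.Fermat.Agent.A2.Mod.RE P E)) ^ ((finProdFinEquiv.symm i).1 : ℕ)) = 0 := by
    rw [← hred]
    refine Finset.sum_congr rfl fun i _ => ?_
    rw [map_mul, H708.red, Fermat.Agent.S28.H325.coeffMap_aeval, ← H708.red, red_castA, red_castA,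
      castL_xZ q hS.q_prime, castL_monoZ]
  have hzero := polyIndep_tower (q + 1) (Nat.succ_pos q) _ _ hYi
    (fun i => (a i).map (IsLocalRing.residue (_root_.Fermat.Agent.A2.Mod.RE P E))) hred' i
  exact C_dvd_of_map_residue_eq_zero P E hdvr hS.unif hzero

end Main

/-- **L9** `IndInf` (exact shape of `Spec.IndInfStatement`). -/
theorem indInf (P : ValuationSubring _root_.Fermat.Agent.A2.Mod.Qb) (E : IntermediateField ℚ _root_.Fermat.Agent.A2.Mod.Qb) (M q : ℕ) [NeZero q]
    (w : _root_.Fermat.Agent.A2.Mod.RE P E) : IndInfStatement P E M q w := by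
  intro hS V hV
  have : NeZero M := ⟨hS.M_ne_zero⟩
  obtain ⟨g, -, hg⟩ := indInf_strong P E M q w hS
  exact ⟨fun i => αE E M q (g i), (hg V hV).1, (hg V hV).2⟩

end Fermat.Agent.A2.Mod.H753

end

end
-- ===== PACK-END A2/Mod/H753/IndInf.lean

-- ===== PACK-BEGIN A2/Mod/H873/L13.lean
section



/-!
# A2 / MOD — leaf L13 `ChartCompatStatement` (helper873)

`x = j · j_q`.  Then `j, j_q` are integral over `R_E[x]` and `1/j, 1/j_q` are integral over
`R_E[1/x]`.

Proof (valuative criterion, `iInf_valuationSubring_superset`): let `V` be a valuation subring of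
`F_N` containing `x`.  If `j ∉ V` then `1/j ∈ V`, so `j_q = x / j ∈ V`; but `j` is integral over
`ℤ[j_q]` (`Φ_q(j, j_q) = 0`, `Φ_q` monic), hence `j ∈ V`.  Chart at infinity: if `1/x ∈ V` and
`1/j ∉ V` then `j ∈ V`, so `j_q ∈ V` (integral over `ℤ[j]`), and `1/j = j_q · (1/x) ∈ V`.
Only the monicity of `Φ_q` in the outer variable and the two vanishing properties of
`S28.ModPolyData` are used.

Main results:
* `chartCompat_of_modPolyData (D : S28.ModPolyData q) : ChartCompatStatement P E M q`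
* `chartCompat : ChartCompatStatement P E M q`   (exact frozen leaf of `Mod/Spec.lean`)
-/

set_option autoImplicit false
set_option synthInstance.maxHeartbeats 400000
set_option maxHeartbeats 1600000

noncomputable section

namespace Fermat.Agent.A2.Mod.H873

open ModularCurve HahnSeries Polynomial

/-! ## Abstract part (Mathlib only) -/

section Abstract

variable {K : Type*} [Field K]

/-- valuative criterion, one element: `a` lies in every valuation subring containing `x`
implies `a` is integral over `ℤ[x]`. -/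
theorem isIntegral_closure_of_forall_valuationSubring {x a : K}
    (h : ∀ V : ValuationSubring K, x ∈ V → a ∈ V) :
    IsIntegral (Subring.closure ({x} : Set K)) a := by
  have key := iInf_valuationSubring_superset (K := K) (s := ({x} : Set K))
  have hmem : a ∈ (integralClosure (Subring.closure ({x} : Set K)) K).toSubring := by
    rw [← key]
    rw [Subring.mem_iInf]
    rintro ⟨V, hV⟩
    exact h V (hV (Set.mem_singleton x))
  exact hmem

/-- an element integral over `ℤ[b]` lies in every valuation subring containing `b` -/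
theorem mem_valuationSubring_of_monic_eval {a b : K} (Φ : Polynomial (Polynomial ℤ))
    (hΦ : Φ.Monic) (h : Φ.eval₂ (Polynomial.aeval (R := ℤ) b).toRingHom a = 0)
    (V : ValuationSubring K) (hb : b ∈ V) : a ∈ V := by
  have hint : IsIntegral V a := by
    refine ⟨Φ.map (Polynomial.aeval (R := ℤ) (⟨b, hb⟩ : V)).toRingHom, hΦ.map _, ?_⟩
    rw [Polynomial.eval₂_map]
    rw [← h]
    congr 1
    apply Polynomial.ringHom_ext
    · intro n
      simp
    · simp
  have := IsIntegrallyClosed.isIntegral_iff (R := V) (K := K) |>.mp hint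
  obtain ⟨y, hy⟩ := this
  rw [← hy]
  exact y.2

/-- **core of L13, finite chart**: `Φ(X = a; Y = b) = 0`, `Φ` monic in `X` ⟹ `a` integral over
`ℤ[a b]`. -/
theorem isIntegral_closure_mul {a b : K} (Φ : Polynomial (Polynomial ℤ))
    (hΦ : Φ.Monic) (h : Φ.eval₂ (Polynomial.aeval (R := ℤ) b).toRingHom a = 0) :
    IsIntegral (Subring.closure ({a * b} : Set K)) a := by
  refine isIntegral_closure_of_forall_valuationSubring fun V hx => ?_
  by_contra ha
  have ha0 : a ≠ 0 := fun h0 => ha (h0 ▸ V.zero_mem)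
  have hinv : a⁻¹ ∈ V := (V.mem_or_inv_mem a).resolve_left ha
  have hb : b ∈ V := by
    have : b = a * b * a⁻¹ := by field_simp
    rw [this]
    exact V.mul_mem _ _ hx hinv
  exact ha (mem_valuationSubring_of_monic_eval Φ hΦ h V hb)

/-- **core of L13, chart at infinity**: `Φ(X = b; Y = a) = 0`, `Φ` monic in `X`, `b ≠ 0`
⟹ `a⁻¹` integral over `ℤ[(a b)⁻¹]`. -/
theorem isIntegral_closure_inv_mul {a b : K} (hb0 : b ≠ 0) (Φ : Polynomial (Polynomial ℤ))
    (hΦ : Φ.Monic) (h : Φ.eval₂ (Polynomial.aeval (R := ℤ) a).toRingHom b = 0) :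
    IsIntegral (Subring.closure ({(a * b)⁻¹} : Set K)) a⁻¹ := by
  refine isIntegral_closure_of_forall_valuationSubring fun V hx => ?_
  by_contra ha
  have ha0 : a ≠ 0 := fun h0 => ha (by rw [h0, inv_zero]; exact V.zero_mem)
  have haV : a ∈ V := by
    have := (V.mem_or_inv_mem a⁻¹).resolve_left ha
    rwa [inv_inv] at this
  have hb : b ∈ V := mem_valuationSubring_of_monic_eval Φ hΦ h V haV
  have : a⁻¹ = b * (a * b)⁻¹ := by field_simp
  exact ha (this ▸ V.mul_mem _ _ hb hx)

/-- from integrality over `ℤ[x]` to integrality along `R[X] → K`, `X ↦ x`. -/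
theorem isIntegralElem_of_isIntegral_closure {R : Type*} [CommRing R] (φ : R →+* K) {x a : K}
    (h : IsIntegral (Subring.closure ({x} : Set K)) a) :
    ∃ p : Polynomial (Polynomial R), p.Monic ∧ p.eval₂ (Polynomial.eval₂RingHom φ x) a = 0 := by
  obtain ⟨p, hp, hpa⟩ := h
  set ψ : Polynomial R →+* K := Polynomial.eval₂RingHom φ x with hψ
  have hle : Subring.closure ({x} : Set K) ≤ ψ.range := by
    rw [Subring.closure_le]
    rintro y hy
    rw [Set.mem_singleton_iff] at hy
    subst hy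
    exact ⟨Polynomial.X, by simp [hψ]⟩
  set incl : Subring.closure ({x} : Set K) →+* ψ.range := Subring.inclusion hle with hincl
  have hlift : p.map incl ∈ Polynomial.lifts ψ.rangeRestrict := by
    rw [Polynomial.lifts_iff_coeff_lifts]
    intro n
    exact ψ.rangeRestrict_surjective _
  obtain ⟨q, hq, -, hqm⟩ := Polynomial.lifts_and_natDegree_eq_and_monic hlift (hp.map incl)
  refine ⟨q, hqm, ?_⟩
  have h1 : q.eval₂ ψ a = (q.map ψ.rangeRestrict).eval₂ ψ.range.subtype a := by
    rw [Polynomial.eval₂_map]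
    rfl
  rw [h1, hq, Polynomial.eval₂_map]
  exact hpa

end Abstract

/-! ## Concrete part -/

section Concrete

variable (P : ValuationSubring _root_.Fermat.Agent.A2.Mod.Qb) (E : IntermediateField ℚ _root_.Fermat.Agent.A2.Mod.Qb) (M q : ℕ) [NeZero M] [NeZero q]

/-- the underlying series of `j_d` is `j(t^d)` over `E` -/
theorem coe_jE (N d : ℕ) [NeZero d] (hd : d ∣ N) :
    ((jE E N d hd : _root_.Fermat.Agent.A2.Mod.FE E N) : LaurentSeries E) = qExpand E d (jqModC E) := by
  show coeffEmb E (qExpand ℚ d jq) = _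
  rw [coeffEmb, coeffMap_qExpand, ← jqModC_rat, coeffMap_jqModC]

/-- the underlying series of `j_d` is the image of the integral series `j(t^d)` -/
theorem coe_jE_int (N d : ℕ) [NeZero d] (hd : d ∣ N) :
    ((jE E N d hd : _root_.Fermat.Agent.A2.Mod.FE E N) : LaurentSeries E) =
      coeffMap (Int.castRingHom E) (qExpand ℤ d (jqModC ℤ)) := by
  rw [coe_jE, coeffMap_qExpand, coeffMap_jqModC]

theorem coe_jE_one (N : ℕ) :
    ((jE E N 1 (one_dvd N) : _root_.Fermat.Agent.A2.Mod.FE E N) : LaurentSeries E) =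
      coeffMap (Int.castRingHom E) (jqModC ℤ) := by
  rw [coe_jE_int, qExpand_one_apply]

/-- evaluation of a two-variable integral polynomial commutes with the coercion
`F_N → E((t))` -/
theorem coe_eval₂_aeval (N : ℕ) (Φ : Polynomial (Polynomial ℤ)) (a b : _root_.Fermat.Agent.A2.Mod.FE E N) :
    ((Φ.eval₂ (Polynomial.aeval (R := ℤ) b).toRingHom a : _root_.Fermat.Agent.A2.Mod.FE E N) : LaurentSeries E) =
      Φ.eval₂ (Polynomial.aeval (R := ℤ) (b : LaurentSeries E)).toRingHom
        (a : LaurentSeries E) := by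
  have h := Polynomial.hom_eval₂ Φ (Polynomial.aeval (R := ℤ) b).toRingHom
    (_root_.Fermat.Agent.A2.Mod.FE E N).val.toRingHom a
  have hcomp : ((_root_.Fermat.Agent.A2.Mod.FE E N).val.toRingHom).comp (Polynomial.aeval (R := ℤ) b).toRingHom =
      (Polynomial.aeval (R := ℤ) (b : LaurentSeries E)).toRingHom := by
    apply Polynomial.ringHom_ext
    · intro n
      simp
    · simp
  rw [hcomp] at h
  exact h

/-- transfer of a vanishing statement from `ℤ((t))` to `F_N` -/
theorem eval₂_eq_zero_of_int (N : ℕ) (Φ : Polynomial (Polynomial ℤ)) (a b : _root_.Fermat.Agent.A2.Mod.FE E N)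
    (A B : LaurentSeries ℤ) (ha : (a : LaurentSeries E) = coeffMap (Int.castRingHom E) A)
    (hb : (b : LaurentSeries E) = coeffMap (Int.castRingHom E) B)
    (h : Φ.eval₂ (S28.evalAt B) A = 0) :
    Φ.eval₂ (Polynomial.aeval (R := ℤ) b).toRingHom a = 0 := by
  apply Subtype.ext
  rw [coe_eval₂_aeval, ha, hb]
  have h2 := Polynomial.hom_eval₂ Φ (S28.evalAt B) (coeffMap (Int.castRingHom E)) A
  have hcomp : (coeffMap (Int.castRingHom E)).comp (S28.evalAt B) =
      (Polynomial.aeval (R := ℤ) (coeffMap (Int.castRingHom E) B)).toRingHom := by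
    apply Polynomial.ringHom_ext
    · intro n
      simp [S28.evalAt]
    · simp [S28.evalAt]
  rw [hcomp, h, map_zero] at h2
  rw [← h2]
  rfl

theorem jE_ne_zero (N d : ℕ) [NeZero d] (hd : d ∣ N) : jE E N d hd ≠ 0 := by
  intro h
  have h1 : ((jE E N d hd : _root_.Fermat.Agent.A2.Mod.FE E N) : LaurentSeries E) = 0 := by rw [h]; rfl
  rw [coe_jE] at h1
  have h2 : jqModC E = 0 := by
    have hinj : Function.Injective (qExpand E d) := by
      intro x y hxy
      ext n
      have := congrArg (fun z => z.coeff ((d : ℤ) * n)) hxy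
      simpa [qExpand_coeff_mul] using this
    exact hinj (by rw [h1, map_zero])
  exact jqModC_ne_zero_of_nontrivial E h2

/-- **L13 from the modular polynomial.** -/
theorem chartCompat_of_modPolyData (D : S28.ModPolyData q) : ChartCompatStatement P E M q := by
  intro _
  -- the two vanishing statements in `F_N`
  have hj : D.Φ.eval₂ (Polynomial.aeval (R := ℤ)
      (jE E (M * q) q (dvd_mul_left q M))).toRingHom (jE E (M * q) 1 (one_dvd _)) = 0 :=
    eval₂_eq_zero_of_int E (M * q) D.Φ _ _ _ _ (coe_jE_one E (M * q))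
      (coe_jE_int E (M * q) q (dvd_mul_left q M)) D.eval_j
  have hjq : D.Φ.eval₂ (Polynomial.aeval (R := ℤ)
      (jE E (M * q) 1 (one_dvd _))).toRingHom (jE E (M * q) q (dvd_mul_left q M)) = 0 :=
    eval₂_eq_zero_of_int E (M * q) D.Φ _ _ _ _ (coe_jE_int E (M * q) q (dvd_mul_left q M))
      (coe_jE_one E (M * q)) D.eval_jp
  refine ⟨?_, ?_, ?_, ?_⟩
  · exact isIntegralElem_of_isIntegral_closure _ (isIntegral_closure_mul D.Φ D.monic hj)
  · have h := isIntegral_closure_mul D.Φ D.monic hjq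
    rw [mul_comm (jE E (M * q) q (dvd_mul_left q M)) (jE E (M * q) 1 (one_dvd _))] at h
    exact isIntegralElem_of_isIntegral_closure _ h
  · exact isIntegralElem_of_isIntegral_closure _
      (isIntegral_closure_inv_mul (jE_ne_zero E (M * q) q (dvd_mul_left q M)) D.Φ D.monic hjq)
  · have h := isIntegral_closure_inv_mul (jE_ne_zero E (M * q) 1 (one_dvd _)) D.Φ D.monic hj
    rw [mul_comm (jE E (M * q) q (dvd_mul_left q M)) (jE E (M * q) 1 (one_dvd _))] at h
    exact isIntegralElem_of_isIntegral_closure _ h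

/-- **L13** (exact frozen leaf of `Mod/Spec.lean`). -/
theorem chartCompat : ChartCompatStatement P E M q := fun hq =>
  chartCompat_of_modPolyData P E M q (S28.H807.nonempty_modPolyData q hq).some hq

end Concrete

end Fermat.Agent.A2.Mod.H873

end

end
-- ===== PACK-END A2/Mod/H873/L13.lean

-- ===== PACK-BEGIN A2/Mod/H372/S3Base.lean
section







/-!
# A2 / MODASM S3, concrete base (helper372)

Mod/Spec language (`FE E N`, `IsVinf`, `InW`, `chartAlg`, `αE`, `βE`).

* `alpha_mem`, `alpha_jE`, `beta_jE`, `alpha_cE`, `beta_cE` : the degeneracy maps on generators,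
  constants and the Gauss valuation rings;
* `inW_jE_sub_pow` : **Kronecker congruence for the generators** `j_{dq} ≡ j_d ^ q mod w V∞`
  (`H528.exists_frobCong`);
* `mem_chartAlg_iff` : `chartAlg` (helper13 `Asm.lean`) = `chart` (helper994 `Spec.lean`)
  = integrality along `R_E[X] → F`, `X ↦ y`;
* `isIntegralElem_trans`, `mem_of_alpha_mem`, `isUnif_comap`, ...
-/

set_option autoImplicit false
set_option synthInstance.maxHeartbeats 400000
set_option maxHeartbeats 1600000
set_option linter.unusedSectionVars false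
set_option linter.style.haveILetI false

noncomputable section

namespace Fermat.Agent.A2.Mod.H372

open ModularCurve HahnSeries Polynomial

/-! ## Generalities -/

section General

variable {F : Type*} [Field F]

/-- elements integral over `R[y]`, `R, y ⊆ V`, lie in the valuation ring `V`. -/
theorem mem_of_isIntegralElem (V : ValuationSubring F) {R : Type*} [CommRing R] (c : R →+* F)
    (y : F) (hcV : ∀ r, c r ∈ V) (hyV : y ∈ V) {b : F}
    (hb : (Polynomial.eval₂RingHom c y).IsIntegralElem b) : b ∈ V := by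
  set cV : R →+* V := c.codRestrict V hcV with hcV'
  set yV : V := ⟨y, hyV⟩ with hyV'
  have hcomp : (V.subtype).comp (Polynomial.eval₂RingHom cV yV) = Polynomial.eval₂RingHom c y := by
    apply Polynomial.ringHom_ext
    · intro r
      simp [cV]
    · simp [yV]
  have hint : IsIntegral V b := by
    obtain ⟨p, hp, hpb⟩ := hb
    refine ⟨p.map (Polynomial.eval₂RingHom cV yV), hp.map _, ?_⟩
    rw [Polynomial.eval₂_map]
    have : (algebraMap V F).comp (Polynomial.eval₂RingHom cV yV) =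
        Polynomial.eval₂RingHom c y := hcomp
    rw [this]
    exact hpb
  obtain ⟨v, hv⟩ := (IsIntegrallyClosed.isIntegral_iff (R := V) (K := F)).mp hint
  rw [← hv]
  exact v.2

/-- transitivity of integrality over `R[y]`. -/
theorem isIntegralElem_trans {R : Type*} [CommRing R] (c : R →+* F) {y z b : F}
    (hz : (Polynomial.eval₂RingHom c y).IsIntegralElem z)
    (hb : (Polynomial.eval₂RingHom c z).IsIntegralElem b) :
    (Polynomial.eval₂RingHom c y).IsIntegralElem b := by
  letI : Algebra (Polynomial R) F := (Polynomial.eval₂RingHom c y).toAlgebra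
  have hzT : z ∈ integralClosure (Polynomial R) F := hz
  have hcT : ∀ r, c r ∈ integralClosure (Polynomial R) F := by
    intro r
    have : c r = algebraMap (Polynomial R) F (Polynomial.C r) := by
      show c r = Polynomial.eval₂RingHom c y (Polynomial.C r)
      simp
    rw [this]
    exact Subalgebra.algebraMap_mem _ _
  have h1 : IsIntegral (integralClosure (Polynomial R) F) b := by
    refine isIntegralElem_of_forall_exists (Polynomial.eval₂RingHom c z) _ (fun p => ?_) hb
    refine ⟨⟨Polynomial.eval₂ c z p, ?_⟩, rfl⟩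
    rw [Polynomial.eval₂_eq_sum_range]
    refine Subalgebra.sum_mem _ (fun i _ => ?_)
    exact Subalgebra.mul_mem _ (hcT _) (Subalgebra.pow_mem _ hzT _)
  exact isIntegral_trans (R := Polynomial R) (A := integralClosure (Polynomial R) F) b h1

/-- `a - b ∈ ϖ V` with `a, b` units of `V` ⟹ `a⁻¹ - b⁻¹ ∈ ϖ V`. -/
theorem inv_sub_inv_mul_mem (V : ValuationSubring F) {ϖ a b : F} (ha0 : a ≠ 0) (hb0 : b ≠ 0)
    (ha : a⁻¹ ∈ V) (hb : b⁻¹ ∈ V) (h : (a - b) * ϖ⁻¹ ∈ V) : (a⁻¹ - b⁻¹) * ϖ⁻¹ ∈ V := by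
  have : (a⁻¹ - b⁻¹) * ϖ⁻¹ = -((a - b) * ϖ⁻¹ * a⁻¹ * b⁻¹) := by
    field_simp
    ring
  rw [this]
  exact V.neg_mem _ (V.mul_mem _ _ (V.mul_mem _ _ h ha) hb)

/-- transport of a uniformiser along an automorphism fixing it. -/
theorem isUnif_comap {V : ValuationSubring F} {ϖ : F} (hu : H48.IsUnif V ϖ) (W : F →+* F)
    (hW : W ϖ = ϖ) : H48.IsUnif (V.comap W) ϖ where
  mem := by
    rw [ValuationSubring.mem_comap, hW]
    exact hu.mem
  inv_not_mem := by
    rw [ValuationSubring.mem_comap, map_inv₀, hW]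
    exact hu.inv_not_mem
  gen := by
    intro f hf hfinv
    rw [ValuationSubring.mem_comap] at hf hfinv ⊢
    rw [map_mul, map_inv₀, hW]
    rw [map_inv₀] at hfinv
    exact hu.gen _ hf hfinv

end General

/-! ## Levels -/

section Levels

variable (P : ValuationSubring _root_.Fermat.Agent.A2.Mod.Qb) (E : IntermediateField ℚ _root_.Fermat.Agent.A2.Mod.Qb) (M q : ℕ) [NeZero M] [NeZero q]
  (w : _root_.Fermat.Agent.A2.Mod.RE P E)

theorem alpha_cE (r : _root_.Fermat.Agent.A2.Mod.RE P E) : αE E M q (cE P E M r) = cE P E (M * q) r :=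
  (αE E M q).commutes (r : E)

theorem beta_cE (r : _root_.Fermat.Agent.A2.Mod.RE P E) : βE E M q (cE P E M r) = cE P E (M * q) r :=
  (βE E M q).commutes (r : E)

variable {P E M q}

/-- `α` maps `V∞_M` into `V∞_{Mq}`. -/
theorem alpha_mem {VM : ValuationSubring (_root_.Fermat.Agent.A2.Mod.FE E M)} {V : ValuationSubring (_root_.Fermat.Agent.A2.Mod.FE E (M * q))}
    (hVM : IsVinf P E M VM) (hV : IsVinf P E (M * q) V) {f : _root_.Fermat.Agent.A2.Mod.FE E M} (hf : f ∈ VM) :
    αE E M q f ∈ V := by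
  rw [hV, coe_heckeAlphaBar]
  obtain ⟨U₁, U₂, hred, hmem, he⟩ := (hVM f).mp hf
  refine ⟨U₁, U₂, hred, ?_, he⟩
  have h := (αE E M q ⟨_, hmem⟩).2
  rwa [coe_heckeAlphaBar] at h

theorem alpha_jE (d : ℕ) [NeZero d] (hd : d ∣ M) :
    αE E M q (jE E M d hd) = jE E (M * q) d (hd.mul_right q) := by
  apply Subtype.ext
  rw [coe_heckeAlphaBar]
  rfl

theorem beta_jE (d : ℕ) [NeZero d] (hd : d ∣ M) :
    βE E M q (jE E M d hd) = jE E (M * q) (d * q) (mul_dvd_mul_right hd q) := by
  apply Subtype.ext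
  rw [coe_heckeBetaBar]
  show qExpand E q (coeffEmb E (qExpand ℚ d jq)) = coeffEmb E (qExpand ℚ (d * q) jq)
  rw [coeffEmb, ← coeffMap_qExpand, qExpand_qExpand, qExpand_congr (mul_comm q d)]

/-- `q = w r` in `R_E`. -/
theorem exists_q_eq (hS : Setting P E M q w) : ∃ r : _root_.Fermat.Agent.A2.Mod.RE P E, (q : _root_.Fermat.Agent.A2.Mod.RE P E) = w * r := by
  have hnu : ¬ IsUnit ((q : ℕ) : _root_.Fermat.Agent.A2.Mod.RE P E) := by
    intro hu
    obtain ⟨s, hs⟩ := isUnit_iff_exists_inv.mp hu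
    have h1 : ((q : ℕ) : _root_.Fermat.Agent.A2.Mod.Qb) * ((s : E) : _root_.Fermat.Agent.A2.Mod.Qb) = 1 := by
      have := congrArg (fun t : _root_.Fermat.Agent.A2.Mod.RE P E => ((t : E) : _root_.Fermat.Agent.A2.Mod.Qb)) hs
      simpa using this
    have hq : ((q : ℕ) : _root_.Fermat.Agent.A2.Mod.Qb) ∈ P.nonunits := hS.lies_over
    rw [ValuationSubring.mem_nonunits_iff] at hq
    have hs' : ((s : E) : _root_.Fermat.Agent.A2.Mod.Qb) ∈ P := s.2
    have hv : P.valuation ((s : E) : _root_.Fermat.Agent.A2.Mod.Qb) ≤ 1 := (P.valuation_le_one_iff _).mpr hs'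
    have h2 := congrArg P.valuation h1
    rw [map_mul, map_one] at h2
    have h3 : P.valuation ((q : ℕ) : _root_.Fermat.Agent.A2.Mod.Qb) * P.valuation ((s : E) : _root_.Fermat.Agent.A2.Mod.Qb) < 1 :=
      lt_of_le_of_lt (mul_le_of_le_one_right' hv) hq
    exact absurd h2 (ne_of_lt h3)
  have := hS.dvr
  have hmem : ((q : ℕ) : _root_.Fermat.Agent.A2.Mod.RE P E) ∈ IsLocalRing.maximalIdeal (_root_.Fermat.Agent.A2.Mod.RE P E) :=
    (IsLocalRing.mem_maximalIdeal _).mpr hnu
  rw [hS.unif.maximalIdeal_eq, Ideal.mem_span_singleton'] at hmem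
  obtain ⟨r, hr⟩ := hmem
  exact ⟨r, by rw [← hr, mul_comm]⟩

theorem cE_mem (hS : Setting P E M q w) {N : ℕ} {V : ValuationSubring (_root_.Fermat.Agent.A2.Mod.FE E N)}
    (hV : IsVinf P E N V) (r : _root_.Fermat.Agent.A2.Mod.RE P E) : cE P E N r ∈ V := by
  have := hS.dvr
  exact (H553.algebraMap_mem_iff P E hV _).mpr r.2

theorem cE_ne_zero (hS : Setting P E M q w) (N : ℕ) : cE P E N w ≠ 0 := by
  have hw0 : (w : E) ≠ 0 := fun h0 => hS.unif.ne_zero (Subtype.ext h0)
  exact (map_ne_zero_iff _ (algebraMap E (_root_.Fermat.Agent.A2.Mod.FE E N)).injective).mpr hw0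

/-- **Kronecker congruence for the generators**: `j_{dq} ≡ j_d ^ q mod w V∞`. -/
theorem inW_jE_sub_pow (hS : Setting P E M q w) {V : ValuationSubring (_root_.Fermat.Agent.A2.Mod.FE E (M * q))}
    (hV : IsVinf P E (M * q) V) (d : ℕ) [NeZero d] (hd : d ∣ M) :
    InW P E (M * q) V w (jE E (M * q) (d * q) (mul_dvd_mul_right hd q) -
      (jE E (M * q) d (hd.mul_right q)) ^ q) := by
  haveI : Fact q.Prime := ⟨hS.q_prime⟩
  obtain ⟨g, hg⟩ := H528.exists_frobCong q (H708.jInt d)
  have hj : H708.jInt (d * q) = qExpand ℤ q (H708.jInt d) := by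
    unfold H708.jInt jqNModC
    rw [qExpand_qExpand, qExpand_congr (mul_comm q d)]
  obtain ⟨r, hr⟩ := exists_q_eq w hS
  set D : _root_.Fermat.Agent.A2.Mod.FE E (M * q) := jE E (M * q) (d * q) (mul_dvd_mul_right hd q) -
      (jE E (M * q) d (hd.mul_right q)) ^ q with hD
  have hqC : HahnSeries.C ((q : ℕ) : ℤ) = ((q : ℕ) : LaurentSeries ℤ) := map_natCast _ q
  have hcoe : (D : LaurentSeries E) = ((q : ℕ) : LaurentSeries E) * coeffEmb E (H708.castQ g) := by
    have h1 : (D : LaurentSeries E) = coeffEmb E (H708.castQ (H708.jInt (d * q))) -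
        (coeffEmb E (H708.castQ (H708.jInt d))) ^ q := by
      rw [← H553.coe_jE (E := E) (M * q) (d * q) (mul_dvd_mul_right hd q),
        ← H553.coe_jE (E := E) (M * q) d (hd.mul_right q)]
      rfl
    rw [h1, hj, ← map_pow, ← map_pow, ← map_sub, ← map_sub, hg, hqC, map_mul, map_mul,
      map_natCast, map_natCast]
  have hq0 : ((q : ℕ) : _root_.Fermat.Agent.A2.Mod.FE E (M * q)) ≠ 0 := by
    exact_mod_cast hS.q_prime.ne_zero
  set G : _root_.Fermat.Agent.A2.Mod.FE E (M * q) := D * ((q : ℕ) : _root_.Fermat.Agent.A2.Mod.FE E (M * q))⁻¹ with hG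
  have hGcoe : (G : LaurentSeries E) = coeffEmb E (H708.castQ g) := by
    have hqcoe : (((q : ℕ) : _root_.Fermat.Agent.A2.Mod.FE E (M * q)) : LaurentSeries E) = ((q : ℕ) : LaurentSeries E) :=
      rfl
    have hq0' : ((q : ℕ) : LaurentSeries E) ≠ 0 := by
      rw [← hqcoe]
      exact fun h => hq0 (Subtype.ext h)
    have h2 : (G : LaurentSeries E) = (D : LaurentSeries E) * ((q : ℕ) : LaurentSeries E)⁻¹ := by
      rw [hG, IntermediateField.coe_mul, IntermediateField.coe_inv, hqcoe]
    rw [h2, hcoe, mul_comm, ← mul_assoc, inv_mul_cancel₀ hq0', one_mul]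
  have hGV : G ∈ V := H553.mem_of_int hV hGcoe
  have hqF : ((q : ℕ) : _root_.Fermat.Agent.A2.Mod.FE E (M * q)) = cE P E (M * q) w * cE P E (M * q) r := by
    have := congrArg (algebraMap (_root_.Fermat.Agent.A2.Mod.RE P E) (_root_.Fermat.Agent.A2.Mod.FE E (M * q))) hr
    rw [map_natCast, map_mul] at this
    exact this
  have hfin : D * (cE P E (M * q) w)⁻¹ = G * cE P E (M * q) r := by
    have hw0 := cE_ne_zero w hS (M * q)
    have hDG : D = G * ((q : ℕ) : _root_.Fermat.Agent.A2.Mod.FE E (M * q)) := by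
      rw [hG, mul_assoc, inv_mul_cancel₀ hq0, mul_one]
    rw [hDG, hqF]
    field_simp
  show D * (cE P E (M * q) w)⁻¹ ∈ V
  rw [hfin]
  exact V.mul_mem _ _ hGV (cE_mem w hS hV r)


/-- `w` is a uniformiser of `V∞` (leaf L2, `H553.vinfBasic`). -/
theorem unifE (hS : Setting P E M q w) {N : ℕ} (hN : N ≠ 0) {V : ValuationSubring (_root_.Fermat.Agent.A2.Mod.FE E N)}
    (hV : IsVinf P E N V) : H48.IsUnif V (cE P E N w) :=
  (H553.vinfBasic P E w N hN hS.dvr hS.unif V hV).1

theorem jE_mem (hS : Setting P E M q w) {N : ℕ} (hN : N ≠ 0) {V : ValuationSubring (_root_.Fermat.Agent.A2.Mod.FE E N)}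
    (hV : IsVinf P E N V) (d : ℕ) [NeZero d] (hd : d ∣ N) : jE E N d hd ∈ V :=
  ((H553.vinfBasic P E w N hN hS.dvr hS.unif V hV).2.2 d hd).1

theorem jE_inv_mem (hS : Setting P E M q w) {N : ℕ} (hN : N ≠ 0) {V : ValuationSubring (_root_.Fermat.Agent.A2.Mod.FE E N)}
    (hV : IsVinf P E N V) (d : ℕ) [NeZero d] (hd : d ∣ N) : (jE E N d hd)⁻¹ ∈ V :=
  ((H553.vinfBasic P E w N hN hS.dvr hS.unif V hV).2.2 d hd).2

theorem jE_congr {N d d' : ℕ} [NeZero d] [NeZero d'] (h : d = d') (hd : d ∣ N) (hd' : d' ∣ N) :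
    jE E N d hd = jE E N d' hd' := by
  subst h
  rfl

theorem level_ne_zero (hS : Setting P E M q w) : M * q ≠ 0 :=
  mul_ne_zero hS.M_ne_zero hS.q_prime.ne_zero

/-- `q ∈ w V∞`. -/
theorem q_mul_inv_mem (hS : Setting P E M q w) {V : ValuationSubring (_root_.Fermat.Agent.A2.Mod.FE E (M * q))}
    (hV : IsVinf P E (M * q) V) :
    ((q : ℕ) : _root_.Fermat.Agent.A2.Mod.FE E (M * q)) * (cE P E (M * q) w)⁻¹ ∈ V := by
  obtain ⟨r, hr⟩ := exists_q_eq w hS
  have hqF : ((q : ℕ) : _root_.Fermat.Agent.A2.Mod.FE E (M * q)) = cE P E (M * q) w * cE P E (M * q) r := by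
    have := congrArg (algebraMap (_root_.Fermat.Agent.A2.Mod.RE P E) (_root_.Fermat.Agent.A2.Mod.FE E (M * q))) hr
    rw [map_natCast, map_mul] at this
    exact this
  have hw0 := cE_ne_zero w hS (M * q)
  have : ((q : ℕ) : _root_.Fermat.Agent.A2.Mod.FE E (M * q)) * (cE P E (M * q) w)⁻¹ = cE P E (M * q) r := by
    rw [hqF]
    field_simp
  rw [this]
  exact cE_mem w hS hV r

/-- `α` reflects membership in the Gauss valuation rings: `V∞_{Mq} ∩ F_M = V∞_M`. -/
theorem mem_of_alpha_mem (hS : Setting P E M q w) {VM : ValuationSubring (_root_.Fermat.Agent.A2.Mod.FE E M)}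
    {V : ValuationSubring (_root_.Fermat.Agent.A2.Mod.FE E (M * q))} (hVM : IsVinf P E M VM) (hV : IsVinf P E (M * q) V)
    {x : _root_.Fermat.Agent.A2.Mod.FE E M} (hx : αE E M q x ∈ V) : x ∈ VM := by
  by_contra hxV
  have hx0 : x ≠ 0 := fun h0 => hxV (h0 ▸ VM.zero_mem)
  have hinv : x⁻¹ ∈ VM := (VM.mem_or_inv_mem x).resolve_left hxV
  have huM := unifE w hS hS.M_ne_zero hVM
  have huN := unifE w hS (level_ne_zero w hS) hV
  have h1 : x⁻¹ * (cE P E M w)⁻¹ ∈ VM := huM.gen _ hinv (by rwa [inv_inv])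
  have h2 := alpha_mem hVM hV h1
  rw [map_mul, map_inv₀, map_inv₀, alpha_cE] at h2
  apply huN.inv_not_mem
  have hαx0 : αE E M q x ≠ 0 := (map_ne_zero_iff _ (αE E M q).toRingHom.injective).mpr hx0
  have : (cE P E (M * q) w)⁻¹ = αE E M q x * ((αE E M q x)⁻¹ * (cE P E (M * q) w)⁻¹) := by
    rw [← mul_assoc, mul_inv_cancel₀ hαx0, one_mul]
  rw [this]
  exact V.mul_mem _ _ hx h2

/-- `chartAlg` in terms of integrality along `R_E[X] → F`, `X ↦ y` (= `chart` of `Spec.lean`). -/
theorem mem_chartAlg_iff {N : ℕ} {y f : _root_.Fermat.Agent.A2.Mod.FE E N} :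
    f ∈ chartAlg P E N y ↔
      (Polynomial.eval₂RingHom (algebraMap (_root_.Fermat.Agent.A2.Mod.RE P E) (_root_.Fermat.Agent.A2.Mod.FE E N)) y).IsIntegralElem f := by
  rw [mem_chartAlg]
  constructor
  · intro h
    refine isIntegralElem_of_forall_exists
      (algebraMap (Algebra.adjoin (_root_.Fermat.Agent.A2.Mod.RE P E) ({y} : Set (_root_.Fermat.Agent.A2.Mod.FE E N))) (_root_.Fermat.Agent.A2.Mod.FE E N)) _ (fun c => ?_) h
    obtain ⟨p, hp⟩ := Algebra.adjoin_mem_exists_aeval (_root_.Fermat.Agent.A2.Mod.RE P E) y c.2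
    exact ⟨p, hp⟩
  · intro h
    refine isIntegralElem_of_forall_exists _
      (algebraMap (Algebra.adjoin (_root_.Fermat.Agent.A2.Mod.RE P E) ({y} : Set (_root_.Fermat.Agent.A2.Mod.FE E N))) (_root_.Fermat.Agent.A2.Mod.FE E N)) (fun p => ?_) h
    exact ⟨⟨Polynomial.aeval y p, Polynomial.aeval_mem_adjoin_singleton (_root_.Fermat.Agent.A2.Mod.RE P E) y⟩, rfl⟩

theorem mem_chart_iff {N : ℕ} {y f : _root_.Fermat.Agent.A2.Mod.FE E N} : f ∈ chart P E N y ↔ f ∈ chartAlg P E N y :=
  mem_chartAlg_iff.symm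

end Levels

end Fermat.Agent.A2.Mod.H372

end
end
-- ===== PACK-END A2/Mod/H372/S3Base.lean

-- ===== PACK-BEGIN A2/Mod/H189/GoodRedT.lean
section






/-!
# Cell A2 / MOD, GOODRED part G3 (helper189): `GoodRedAt` for `j`, `1/j` from the Hauptmodul charts

The level-`M` hypothesis `Mod.GoodRedAt P E M w VM y` of MODASM (`A2/Mod/Spec.lean`) is needed for
`y = j` and `y = j⁻¹`.  Row S18 proves good reduction in the coordinate `j` only for residue
characteristic `≥ 5`; for `q = 3` (`2 ∣ M`) and `q = 2` (`3 ∣ M`) it works with the Hauptmodul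
`t = t₂` (`j t² = (t + 256)³`) resp. `t = t₃` (`j t³ = (t + 27)(t + 243)³`).  Here:

* `mem_chart_iff`       : the frozen `Mod.chart` is the integral closure of `R_E[y]`;
* `goodRedAt_iff_goodOn`: `Mod.GoodRedAt` is `H189.GoodOn` (the Mathlib-only form);
* `goodRedAt_j_of_t2`, `goodRedAt_j_of_t3` : `GoodRedAt` at `t`, `t⁻¹` ⟹ `GoodRedAt` at `j`, `j⁻¹`
  (unit conditions as hypotheses);
* `goodRedAt_j_of_t2_polar`, `goodRedAt_j_of_t3_polar` : the same, with the unit conditions
  discharged by L3 (`H816.vinfGauss`) and L2 (`H708.vinfBasic`) for a polar `t = t⁻¹·(unit + …)`.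
-/

set_option autoImplicit false
set_option synthInstance.maxHeartbeats 400000
set_option maxHeartbeats 1600000

noncomputable section

namespace Fermat.Agent.A2.Mod.H189

open ModularCurve HahnSeries Polynomial Fermat.Agent.A2 Fermat.Agent.A2.Mod

section Chart

variable (P : ValuationSubring _root_.Fermat.Agent.A2.Mod.Qb) (E : IntermediateField ℚ _root_.Fermat.Agent.A2.Mod.Qb) (N : ℕ)

/-- `R_E[X] → R_E[y] ⊆ F`. -/
def evAdjoin (y : _root_.Fermat.Agent.A2.Mod.FE E N) :
    Polynomial (_root_.Fermat.Agent.A2.Mod.RE P E) →+* Algebra.adjoin (_root_.Fermat.Agent.A2.Mod.RE P E) ({y} : Set (_root_.Fermat.Agent.A2.Mod.FE E N)) :=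
  ((Polynomial.aeval (R := _root_.Fermat.Agent.A2.Mod.RE P E) y).codRestrict (Algebra.adjoin (_root_.Fermat.Agent.A2.Mod.RE P E) ({y} : Set (_root_.Fermat.Agent.A2.Mod.FE E N)))
    (fun p => by
      rw [Algebra.adjoin_singleton_eq_range_aeval]
      exact ⟨p, rfl⟩)).toRingHom

theorem evAdjoin_surjective (y : _root_.Fermat.Agent.A2.Mod.FE E N) : Function.Surjective (evAdjoin P E N y) := by
  rintro ⟨a, ha⟩
  rw [Algebra.adjoin_singleton_eq_range_aeval] at ha
  obtain ⟨p, hp⟩ := ha
  exact ⟨p, Subtype.ext hp⟩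

theorem algebraMap_comp_evAdjoin (y : _root_.Fermat.Agent.A2.Mod.FE E N) :
    (algebraMap (Algebra.adjoin (_root_.Fermat.Agent.A2.Mod.RE P E) ({y} : Set (_root_.Fermat.Agent.A2.Mod.FE E N))) (_root_.Fermat.Agent.A2.Mod.FE E N)).comp (evAdjoin P E N y)
      = Polynomial.eval₂RingHom ((algebraMap E (_root_.Fermat.Agent.A2.Mod.FE E N)).comp (_root_.Fermat.Agent.A2.Mod.RE P E).subtype) y := by
  refine Polynomial.ringHom_ext (fun a => ?_) ?_
  · show (Polynomial.aeval (R := _root_.Fermat.Agent.A2.Mod.RE P E) y) (C a) = _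
    rw [Polynomial.aeval_C, Polynomial.coe_eval₂RingHom, Polynomial.eval₂_C]
    rfl
  · show (Polynomial.aeval (R := _root_.Fermat.Agent.A2.Mod.RE P E) y) X = _
    rw [Polynomial.aeval_X, Polynomial.coe_eval₂RingHom, Polynomial.eval₂_X]

/-- The frozen chart of `Mod/Spec.lean` is the integral closure of `R_E[y]`. -/
theorem mem_chart_iff {y f : _root_.Fermat.Agent.A2.Mod.FE E N} :
    f ∈ chart P E N y ↔ IsIntegral (Algebra.adjoin (_root_.Fermat.Agent.A2.Mod.RE P E) ({y} : Set (_root_.Fermat.Agent.A2.Mod.FE E N))) f := by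
  constructor
  · rintro ⟨p, hp, hpf⟩
    refine ⟨p.map (evAdjoin P E N y), hp.map _, ?_⟩
    rw [eval₂_map, algebraMap_comp_evAdjoin]
    exact hpf
  · rintro ⟨q, hq, hqf⟩
    have hl : q ∈ lifts (evAdjoin P E N y) := by
      rw [lifts_iff_coeff_lifts]
      intro n
      exact evAdjoin_surjective P E N y _
    obtain ⟨p, hpq, -, hp⟩ := lifts_and_degree_eq_and_monic hl hq
    refine ⟨p, hp, ?_⟩
    rw [← algebraMap_comp_evAdjoin, ← eval₂_map, hpq]
    exact hqf

variable {N} in
/-- `Mod.GoodRedAt` in Mathlib-only form. -/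
theorem goodRedAt_iff_goodOn (w : _root_.Fermat.Agent.A2.Mod.RE P E) (VM : ValuationSubring (_root_.Fermat.Agent.A2.Mod.FE E N)) (y : _root_.Fermat.Agent.A2.Mod.FE E N) :
    GoodRedAt P E N w VM y ↔
      GoodOn VM.toSubring (cE P E N w) (Algebra.adjoin (_root_.Fermat.Agent.A2.Mod.RE P E) ({y} : Set (_root_.Fermat.Agent.A2.Mod.FE E N))) := by
  constructor
  · intro h
    refine ⟨fun b hb hbw => ?_, fun f hf hint => ?_⟩
    · exact (mem_chart_iff P E N).1 (h.qep b ((mem_chart_iff P E N).2 hb) hbw)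
    · obtain ⟨n, c, hc, hcw⟩ := hint
      obtain ⟨b, hb, hbw⟩ := h.normal f hf ⟨n, c, fun i => (mem_chart_iff P E N).2 (hc i), hcw⟩
      exact ⟨b, (mem_chart_iff P E N).1 hb, hbw⟩
  · rintro ⟨hq, hn⟩
    refine ⟨fun b hb hbw => ?_, fun f hf hint => ?_⟩
    · exact (mem_chart_iff P E N).2 (hq b ((mem_chart_iff P E N).1 hb) hbw)
    · obtain ⟨n, c, hc, hcw⟩ := hint
      obtain ⟨b, hb, hbw⟩ := hn f hf ⟨n, c, fun i => (mem_chart_iff P E N).1 (hc i), hcw⟩
      exact ⟨b, (mem_chart_iff P E N).2 hb, hbw⟩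

end Chart

section Main

variable (P : ValuationSubring _root_.Fermat.Agent.A2.Mod.Qb) (E : IntermediateField ℚ _root_.Fermat.Agent.A2.Mod.Qb) (M : ℕ) (w : _root_.Fermat.Agent.A2.Mod.RE P E)

/-- `n ≡ 1 mod q` is a unit of `R_E` when `P` lies over `q`. -/
theorem exists_inv_of_liesOver {q : ℕ} (hP : P.LiesOverPrime q) (n k : ℕ) (hn : n = q * k + 1) :
    ∃ i : _root_.Fermat.Agent.A2.Mod.RE P E, (n : _root_.Fermat.Agent.A2.Mod.RE P E) * i = 1 := by
  have hq : P.valuation (q : _root_.Fermat.Agent.A2.Mod.Qb) < 1 := by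
    have h : (q : _root_.Fermat.Agent.A2.Mod.Qb) ∈ P.nonunits := hP
    exact (P.mem_nonunits_iff).1 h
  have hk : P.valuation ((q : _root_.Fermat.Agent.A2.Mod.Qb) * (k : _root_.Fermat.Agent.A2.Mod.Qb)) < 1 := by
    calc P.valuation ((q : _root_.Fermat.Agent.A2.Mod.Qb) * (k : _root_.Fermat.Agent.A2.Mod.Qb)) = P.valuation (q : _root_.Fermat.Agent.A2.Mod.Qb) * P.valuation (k : _root_.Fermat.Agent.A2.Mod.Qb) :=
          map_mul _ _ _
      _ ≤ P.valuation (q : _root_.Fermat.Agent.A2.Mod.Qb) * 1 := by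
          gcongr
          exact (P.valuation_le_one_iff _).2 (natCast_mem P k)
      _ = P.valuation (q : _root_.Fermat.Agent.A2.Mod.Qb) := mul_one _
      _ < 1 := hq
  have hval : P.valuation (n : _root_.Fermat.Agent.A2.Mod.Qb) = 1 := by
    have e : (n : _root_.Fermat.Agent.A2.Mod.Qb) = 1 + (q : _root_.Fermat.Agent.A2.Mod.Qb) * (k : _root_.Fermat.Agent.A2.Mod.Qb) := by
      rw [hn]
      push_cast
      ring
    rw [e, ← map_one P.valuation]
    exact Valuation.map_add_eq_of_lt_left _ (by rw [map_one]; exact hk)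
  have hinv : ((n : _root_.Fermat.Agent.A2.Mod.Qb))⁻¹ ∈ P := by
    refine (P.valuation_le_one_iff _).1 ?_
    rw [map_inv₀, hval, inv_one]
  have hn0 : (n : E) ≠ 0 := by
    have : n ≠ 0 := by omega
    exact_mod_cast this
  refine ⟨⟨((n : E))⁻¹, ?_⟩, Subtype.ext ?_⟩
  · show algebraMap E _root_.Fermat.Agent.A2.Mod.Qb ((n : E))⁻¹ ∈ P
    rw [map_inv₀, map_natCast]
    exact hinv
  · show ((n : _root_.Fermat.Agent.A2.Mod.RE P E) : E) * ((n : E))⁻¹ = 1
    have : ((n : _root_.Fermat.Agent.A2.Mod.RE P E) : E) = (n : E) := by simp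
    rw [this, mul_inv_cancel₀ hn0]

/-- **`t₂ → j`** (`q = 3`, `2 ∣ M`): good reduction in the charts of the Hauptmodul `t` of `X₀(2)`
gives good reduction in the charts of `j`. -/
theorem goodRedAt_j_of_t2 (i : _root_.Fermat.Agent.A2.Mod.RE P E) (hi : (256 : _root_.Fermat.Agent.A2.Mod.RE P E) * i = 1)
    (VM : ValuationSubring (_root_.Fermat.Agent.A2.Mod.FE E M))
    (hRV : ∀ r : _root_.Fermat.Agent.A2.Mod.RE P E, algebraMap (_root_.Fermat.Agent.A2.Mod.RE P E) (_root_.Fermat.Agent.A2.Mod.FE E M) r ∈ VM)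
    (t : _root_.Fermat.Agent.A2.Mod.FE E M) (hrel : jE E M 1 (one_dvd _) * t ^ 2 = (t + 256) ^ 3)
    (htV : t ∈ VM) (htV' : t⁻¹ ∈ VM) (huV : (t + 256)⁻¹ ∈ VM)
    (hg : GoodRedAt P E M w VM t) (hg' : GoodRedAt P E M w VM t⁻¹) :
    GoodRedAt P E M w VM (jE E M 1 (one_dvd _)) ∧
      GoodRedAt P E M w VM (jE E M 1 (one_dvd _))⁻¹ := by
  rw [goodRedAt_iff_goodOn] at hg hg' ⊢
  rw [goodRedAt_iff_goodOn]
  have hj := H873.jE_ne_zero E M 1 (one_dvd _)
  exact ⟨goodOn_j_of_t2 i hi hj hrel htV htV' hg,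
    goodOn_jinv_of_t2 i hi hj hrel hRV htV htV' huV hg hg'⟩

/-- **`t₃ → j`** (`q = 2`, `3 ∣ M`): good reduction in the charts of the Hauptmodul `t` of `X₀(3)`
gives good reduction in the charts of `j`. -/
theorem goodRedAt_j_of_t3 (i : _root_.Fermat.Agent.A2.Mod.RE P E) (hi : (3 : _root_.Fermat.Agent.A2.Mod.RE P E) * i = 1)
    (VM : ValuationSubring (_root_.Fermat.Agent.A2.Mod.FE E M))
    (hRV : ∀ r : _root_.Fermat.Agent.A2.Mod.RE P E, algebraMap (_root_.Fermat.Agent.A2.Mod.RE P E) (_root_.Fermat.Agent.A2.Mod.FE E M) r ∈ VM)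
    (t : _root_.Fermat.Agent.A2.Mod.FE E M) (hrel : jE E M 1 (one_dvd _) * t ^ 3 = (t + 27) * (t + 243) ^ 3)
    (htV : t ∈ VM) (htV' : t⁻¹ ∈ VM) (hu₁V : (t + 27)⁻¹ ∈ VM) (hu₂V : (t + 243)⁻¹ ∈ VM)
    (hg : GoodRedAt P E M w VM t) (hg' : GoodRedAt P E M w VM t⁻¹) :
    GoodRedAt P E M w VM (jE E M 1 (one_dvd _)) ∧
      GoodRedAt P E M w VM (jE E M 1 (one_dvd _))⁻¹ := by
  rw [goodRedAt_iff_goodOn] at hg hg' ⊢
  rw [goodRedAt_iff_goodOn]
  have hj := H873.jE_ne_zero E M 1 (one_dvd _)
  exact ⟨goodOn_j_of_t3 i hi hj hrel htV htV' hg,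
    goodOn_jinv_of_t3 i hi hj hrel hRV htV htV' hu₁V hu₂V hg hg'⟩

/-! ### Unit conditions from L2 and L3 -/

theorem not_C_dvd_X_add_C {w : _root_.Fermat.Agent.A2.Mod.RE P E} (hw : Irreducible w) (c : _root_.Fermat.Agent.A2.Mod.RE P E) :
    ¬ (Polynomial.C w : Polynomial (_root_.Fermat.Agent.A2.Mod.RE P E)) ∣ Polynomial.X + Polynomial.C c := by
  intro h
  rw [Polynomial.C_dvd_iff_dvd_coeff] at h
  have h1 := h 1
  rw [Polynomial.coeff_add, Polynomial.coeff_X_one, Polynomial.coeff_C] at h1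
  simp only [one_ne_zero, if_false, add_zero] at h1
  exact hw.not_isUnit (isUnit_of_dvd_one h1)

theorem ev_X_add_C (t : _root_.Fermat.Agent.A2.Mod.FE E M) (c : _root_.Fermat.Agent.A2.Mod.RE P E) :
    ev P E M t (Polynomial.X + Polynomial.C c) = t + algebraMap (_root_.Fermat.Agent.A2.Mod.RE P E) (_root_.Fermat.Agent.A2.Mod.FE E M) c := by
  unfold ev
  rw [Polynomial.eval₂_add, Polynomial.eval₂_X, Polynomial.eval₂_C]
  rfl

/-- For a polar `t = t⁻¹ · (unit + …)` all `t + c`, `c ∈ R_E`, are units of `V∞` (L3). -/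
theorem add_const_unit_of_polar (hM : M ≠ 0) (hdvr : IsDiscreteValuationRing (_root_.Fermat.Agent.A2.Mod.RE P E))
    (hw : Irreducible w) (VM : ValuationSubring (_root_.Fermat.Agent.A2.Mod.FE E M)) (hVM : IsVinf P E M VM)
    (t : _root_.Fermat.Agent.A2.Mod.FE E M) (U : LaurentSeries (_root_.Fermat.Agent.A2.Mod.RE P E))
    (hU : (t : LaurentSeries E) = H708.incl (_root_.Fermat.Agent.A2.Mod.RE P E) U)
    (hlow : ∀ n : ℤ, n < -1 → U.coeff n = 0) (htop : IsUnit (U.coeff (-1))) (c : _root_.Fermat.Agent.A2.Mod.RE P E) :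
    t + algebraMap (_root_.Fermat.Agent.A2.Mod.RE P E) (_root_.Fermat.Agent.A2.Mod.FE E M) c ∈ VM ∧ (t + algebraMap (_root_.Fermat.Agent.A2.Mod.RE P E) (_root_.Fermat.Agent.A2.Mod.FE E M) c)⁻¹ ∈ VM := by
  have h := H816.vinfGauss P E w M hM hdvr hw VM hVM t U 1 one_pos hU
    (by simpa using hlow) (by simpa using htop) (Polynomial.X + Polynomial.C c)
    (not_C_dvd_X_add_C P E hw c)
  rwa [ev_X_add_C] at h

theorem const_mem_of_isVinf (hM : M ≠ 0) (hdvr : IsDiscreteValuationRing (_root_.Fermat.Agent.A2.Mod.RE P E))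
    (hw : Irreducible w) (VM : ValuationSubring (_root_.Fermat.Agent.A2.Mod.FE E M)) (hVM : IsVinf P E M VM)
    (r : _root_.Fermat.Agent.A2.Mod.RE P E) : algebraMap (_root_.Fermat.Agent.A2.Mod.RE P E) (_root_.Fermat.Agent.A2.Mod.FE E M) r ∈ VM :=
  ((H708.vinfBasic P E w M hM hdvr hw VM hVM).2.1 (r : E)).2 r.2

/-- **`t₂ → j`**, polar form: `P` over `3`, `t` the image of an integral series `t⁻¹(unit + …)`
with `j t² = (t + 256)³`. -/
theorem goodRedAt_j_of_t2_polar (hP : P.LiesOverPrime 3) (hM : M ≠ 0)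
    (hdvr : IsDiscreteValuationRing (_root_.Fermat.Agent.A2.Mod.RE P E)) (hw : Irreducible w)
    (VM : ValuationSubring (_root_.Fermat.Agent.A2.Mod.FE E M)) (hVM : IsVinf P E M VM)
    (t : _root_.Fermat.Agent.A2.Mod.FE E M) (U : LaurentSeries (_root_.Fermat.Agent.A2.Mod.RE P E))
    (hU : (t : LaurentSeries E) = H708.incl (_root_.Fermat.Agent.A2.Mod.RE P E) U)
    (hlow : ∀ n : ℤ, n < -1 → U.coeff n = 0) (htop : IsUnit (U.coeff (-1)))
    (hrel : jE E M 1 (one_dvd _) * t ^ 2 = (t + 256) ^ 3)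
    (hg : GoodRedAt P E M w VM t) (hg' : GoodRedAt P E M w VM t⁻¹) :
    GoodRedAt P E M w VM (jE E M 1 (one_dvd _)) ∧
      GoodRedAt P E M w VM (jE E M 1 (one_dvd _))⁻¹ := by
  obtain ⟨i, hi⟩ := exists_inv_of_liesOver P E hP 256 85 (by norm_num)
  have hi' : (256 : _root_.Fermat.Agent.A2.Mod.RE P E) * i = 1 := by
    rw [← hi]
    norm_num
  have h0 := add_const_unit_of_polar P E M w hM hdvr hw VM hVM t U hU hlow htop 0
  rw [map_zero, add_zero] at h0
  have h256 := add_const_unit_of_polar P E M w hM hdvr hw VM hVM t U hU hlow htop 256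
  rw [map_ofNat] at h256
  exact goodRedAt_j_of_t2 P E M w i hi' VM
    (const_mem_of_isVinf P E M w hM hdvr hw VM hVM) t hrel h0.1 h0.2 h256.2 hg hg'

/-- **`t₃ → j`**, polar form: `P` over `2`, `t` the image of an integral series `t⁻¹(unit + …)`
with `j t³ = (t + 27)(t + 243)³`. -/
theorem goodRedAt_j_of_t3_polar (hP : P.LiesOverPrime 2) (hM : M ≠ 0)
    (hdvr : IsDiscreteValuationRing (_root_.Fermat.Agent.A2.Mod.RE P E)) (hw : Irreducible w)
    (VM : ValuationSubring (_root_.Fermat.Agent.A2.Mod.FE E M)) (hVM : IsVinf P E M VM)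
    (t : _root_.Fermat.Agent.A2.Mod.FE E M) (U : LaurentSeries (_root_.Fermat.Agent.A2.Mod.RE P E))
    (hU : (t : LaurentSeries E) = H708.incl (_root_.Fermat.Agent.A2.Mod.RE P E) U)
    (hlow : ∀ n : ℤ, n < -1 → U.coeff n = 0) (htop : IsUnit (U.coeff (-1)))
    (hrel : jE E M 1 (one_dvd _) * t ^ 3 = (t + 27) * (t + 243) ^ 3)
    (hg : GoodRedAt P E M w VM t) (hg' : GoodRedAt P E M w VM t⁻¹) :
    GoodRedAt P E M w VM (jE E M 1 (one_dvd _)) ∧
      GoodRedAt P E M w VM (jE E M 1 (one_dvd _))⁻¹ := by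
  obtain ⟨i, hi⟩ := exists_inv_of_liesOver P E hP 3 1 (by norm_num)
  have hi' : (3 : _root_.Fermat.Agent.A2.Mod.RE P E) * i = 1 := by
    rw [← hi]
    norm_num
  have h0 := add_const_unit_of_polar P E M w hM hdvr hw VM hVM t U hU hlow htop 0
  rw [map_zero, add_zero] at h0
  have h27 := add_const_unit_of_polar P E M w hM hdvr hw VM hVM t U hU hlow htop 27
  rw [map_ofNat] at h27
  have h243 := add_const_unit_of_polar P E M w hM hdvr hw VM hVM t U hU hlow htop 243
  rw [map_ofNat] at h243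
  exact goodRedAt_j_of_t3 P E M w i hi' VM
    (const_mem_of_isVinf P E M w hM hdvr hw VM hVM) t hrel h0.1 h0.2 h27.2 h243.2 hg hg'

end Main

end Fermat.Agent.A2.Mod.H189

end
end
-- ===== PACK-END A2/Mod/H189/GoodRedT.lean

-- ===== PACK-BEGIN Lib/RR/H439/Pencil.lean
section



/-!
# Riemann–Roch corollaries: base points, generic members, the base-point-free pencil trick

(helper439, cell A3 / piece D5 of `coord/A3-helper979.md`; route independent.)

Setting: `[FF1 K F]` (function field of one variable, all places of degree one), `g = genusFF K F`.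

* `ell_sub_prim_add_one`       : `deg E ≥ 2g` ⟹ `ℓ(E - P) + 1 = ℓ(E)`.
* `exists_mem_L_ord_eq`        : `deg E ≥ 2g` ⟹ `P` is not a base point of `|E|`.
* `exists_mem_L_forall_ord_eq` : (`K` infinite) a member of `|E|` avoiding a finite set of places.
* `exists_two_members`         : (`K` infinite) two members of `|E|` without common zero, both
                                 avoiding a given finite set.
* `pencil_trick`               : `β₁ α₂ = β₂ α₁`, `α₁, α₂` without common zero ⟹
                                 `(β₁, β₂) = γ (α₁, α₂)` with `γ ∈ L(B - E)`.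
* `exists_eq_mul_add_mul`      : `L(B) α₁ + L(B) α₂ = L(B + E)` if `deg (B - E) > 2g - 2`.
* `exists_effective`           : `deg D ≥ g` ⟹ the class of `D` is effective.
* `eq_of_effective_of_ell_eq_one` : uniqueness of the effective representative when `ℓ = 1`.
* `ell_eq_ell_sub_add_degree`  : `ℓ(B) = ℓ(B - D) + deg D` if `deg (B - D) > 2g - 2`.
-/

set_option autoImplicit false

noncomputable section

open AlgebraicCurve

namespace Fermat.Agent.Lib.RR.H439

open Fermat.Agent.Lib.RR

variable {K F : Type*} [Field K] [Field F] [Algebra K F]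

section Basic

/-- An element of `L(E) ∖ L(E - P)` has order exactly `-E(P)` at `P`. -/
theorem ord_eq_of_mem_of_not_mem_sub (E : Divisor K F) (v : Place K F) {f : F}
    (hf : f ∈ riemannRochSpace E) (hf' : f ∉ riemannRochSpace (E - prim v)) :
    v.ord f = -E v := by
  have h1 : f ∈ riemannRochSpace ((E - prim v) + prim v) := by rwa [sub_add_cancel]
  have := H638.ord_eq_of_mem_of_not_mem (E - prim v) v h1 hf'
  rw [this]
  simp only [Finsupp.coe_sub, Pi.sub_apply, prim_apply_self]
  ring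

/-- Conversely, an element of order `-E(P)` at `P` is not in `L(E - P)`. -/
theorem not_mem_sub_of_ord_eq (E : Divisor K F) (v : Place K F) {f : F} (hf0 : f ≠ 0)
    (h : v.ord f = -E v) : f ∉ riemannRochSpace (E - prim v) := by
  intro hmem
  have := (mem_L_iff.mp hmem v).resolve_left hf0
  simp only [Finsupp.coe_sub, Pi.sub_apply, prim_apply_self] at this
  omega

theorem sub_prim_le (E : Divisor K F) (v : Place K F) : E - prim v ≤ E := by
  rw [Finsupp.le_def]
  intro w
  simp only [Finsupp.coe_sub, Pi.sub_apply]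
  by_cases hw : w = v
  · subst hw; rw [prim_apply_self]; omega
  · rw [prim_apply_of_ne hw]; omega

end Basic

section RR

variable [FF1 K F]

/-- `deg E ≥ 2g` ⟹ `ℓ(E - P) + 1 = ℓ(E)`. -/
theorem ell_sub_prim_add_one {E : Divisor K F}
    (hE : 2 * (genusFF K F : ℤ) ≤ Divisor.degree E) (v : Place K F) :
    ell (E - prim v) + 1 = ell E := by
  have h1 : (ell E : ℤ) = Divisor.degree E + 1 - (genusFF K F : ℤ) :=
    ell_eq_of_degree_gt (by omega)
  have h2 : (ell (E - prim v) : ℤ) = Divisor.degree (E - prim v) + 1 - (genusFF K F : ℤ) :=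
    ell_eq_of_degree_gt (by rw [map_sub, degree_prim']; omega)
  rw [map_sub, degree_prim'] at h2
  omega

/-- `deg E ≥ 2g` ⟹ `L(E - P)` is a proper subspace of `L(E)`. -/
theorem exists_mem_not_mem_sub {E : Divisor K F}
    (hE : 2 * (genusFF K F : ℤ) ≤ Divisor.degree E) (v : Place K F) :
    ∃ f ∈ riemannRochSpace E, f ∉ riemannRochSpace (E - prim v) := by
  by_contra hcon
  push Not at hcon
  have hle : riemannRochSpace E ≤ riemannRochSpace (E - prim v) := fun f hf => hcon f hf
  have := Submodule.finrank_mono hle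
  have h2 := ell_sub_prim_add_one hE v
  unfold ell at h2
  omega

/-- **No base points**: if `deg E ≥ 2g` then for every place `P` some member of `L(E)` has order
exactly `-E(P)` at `P`. -/
theorem exists_mem_L_ord_eq {E : Divisor K F}
    (hE : 2 * (genusFF K F : ℤ) ≤ Divisor.degree E) (v : Place K F) :
    ∃ f ∈ riemannRochSpace E, f ≠ 0 ∧ v.ord f = -E v := by
  obtain ⟨f, hf, hf'⟩ := exists_mem_not_mem_sub hE v
  refine ⟨f, hf, ?_, ord_eq_of_mem_of_not_mem_sub E v hf hf'⟩
  rintro rfl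
  exact hf' (Submodule.zero_mem _)

/-- **Generic members**: over an infinite constant field, if `deg E ≥ 2g` then for every finite
set `S` of places some member of `L(E)` has order exactly `-E(P)` at all `P ∈ S`. -/
theorem exists_mem_L_forall_ord_eq [Infinite K] {E : Divisor K F}
    (hE : 2 * (genusFF K F : ℤ) ≤ Divisor.degree E) (S : Finset (Place K F)) :
    ∃ f ∈ riemannRochSpace E, f ≠ 0 ∧ ∀ v ∈ S, v.ord f = -E v := by
  classical
  -- the proper subspaces `L(E - P) ∩ L(E)` of `L(E)`, together with `⊥`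
  let p : Place K F → Subspace K (riemannRochSpace E) := fun v =>
    Submodule.comap (riemannRochSpace E).subtype (riemannRochSpace (E - prim v))
  let s : Finset (Subspace K (riemannRochSpace E)) := insert ⊥ (S.image p)
  have hne : ∀ v, p v ≠ ⊤ := by
    intro v htop
    obtain ⟨f, hf, hf'⟩ := exists_mem_not_mem_sub hE v
    have : (⟨f, hf⟩ : riemannRochSpace E) ∈ p v := by rw [htop]; trivial
    exact hf' this
  have hbot : (⊥ : Subspace K (riemannRochSpace E)) ≠ ⊤ := by
    intro h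
    obtain ⟨v⟩ := (inferInstance : FF1 K F).nonempty_place
    obtain ⟨f, hf, hf0, -⟩ := exists_mem_L_ord_eq hE v
    have : (⟨f, hf⟩ : riemannRochSpace E) ∈ (⊥ : Subspace K (riemannRochSpace E)) := by
      rw [h]; trivial
    rw [Submodule.mem_bot] at this
    exact hf0 (congrArg Subtype.val this)
  have hs : (⊤ : Subspace K (riemannRochSpace E)) ∉ s := by
    intro h
    rcases Finset.mem_insert.mp h with h | h
    · exact hbot h.symm
    · obtain ⟨v, -, hv⟩ := Finset.mem_image.mp h
      exact hne v hv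
  have hcov := Subspace.biUnion_ne_univ_of_top_notMem hs
  obtain ⟨x, hx⟩ := (Set.ne_univ_iff_exists_notMem _).mp hcov
  simp only [Set.mem_iUnion, not_exists] at hx
  have hx0 : x ≠ 0 := by
    intro h0
    refine hx ⊥ (Finset.mem_insert_self _ _) ?_
    rw [h0]; exact Submodule.zero_mem _
  refine ⟨x, x.2, fun h => hx0 (Subtype.ext h), fun v hv => ?_⟩
  apply ord_eq_of_mem_of_not_mem_sub E v x.2
  intro hmem
  exact hx (p v) (Finset.mem_insert_of_mem (Finset.mem_image_of_mem p hv)) hmem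

/-- The zeros of a member `f` of `|E|` (the support of the residual divisor `E + div f`) form a
finite set. -/
theorem finite_setOf_ord_ne {E : Divisor K F} {f : F} (hf0 : f ≠ 0) :
    {v : Place K F | v.ord f ≠ -E v}.Finite := by
  classical
  refine (Finset.finite_toSet (E + divOf f hf0).support).subset ?_
  intro v hv
  rw [Finset.mem_coe, Finsupp.mem_support_iff]
  simp only [Finsupp.coe_add, Pi.add_apply, divOf_apply]
  intro h
  exact hv (by omega)

/-- **Two members without common zero**: over an infinite constant field, if `deg E ≥ 2g` then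
there are `f₁, f₂ ∈ L(E)` such that at every place one of them has order exactly `-E(P)`, and
both have order exactly `-E(P)` at every place of a given finite set `S`. -/
theorem exists_two_members [Infinite K] {E : Divisor K F}
    (hE : 2 * (genusFF K F : ℤ) ≤ Divisor.degree E) (S : Finset (Place K F)) :
    ∃ f₁ ∈ riemannRochSpace E, ∃ f₂ ∈ riemannRochSpace E, f₁ ≠ 0 ∧ f₂ ≠ 0 ∧
      (∀ v ∈ S, v.ord f₁ = -E v ∧ v.ord f₂ = -E v) ∧
      ∀ v : Place K F, v.ord f₁ = -E v ∨ v.ord f₂ = -E v := by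
  classical
  obtain ⟨f₁, hf₁, hf₁0, h₁⟩ := exists_mem_L_forall_ord_eq hE S
  have hfin := finite_setOf_ord_ne (E := E) hf₁0
  obtain ⟨f₂, hf₂, hf₂0, h₂⟩ := exists_mem_L_forall_ord_eq hE (S ∪ hfin.toFinset)
  refine ⟨f₁, hf₁, f₂, hf₂, hf₁0, hf₂0, fun v hv => ⟨h₁ v hv, h₂ v (Finset.mem_union_left _ hv)⟩,
    fun v => ?_⟩
  by_cases hv : v.ord f₁ = -E v
  · exact Or.inl hv
  · right
    apply h₂ v
    apply Finset.mem_union_right
    rw [Set.Finite.mem_toFinset]
    exact hv

end RR

section Pencil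

/-- **Base-point-free pencil trick** (pointwise form).  If `α₁, α₂` have no common zero as
sections of `O(E)` and `β₁ α₂ = β₂ α₁` with `β₁, β₂ ∈ L(B)`, then `(β₁, β₂) = γ (α₁, α₂)` with
`γ ∈ L(B - E)`. -/
theorem pencil_trick {E B : Divisor K F} {α₁ α₂ β₁ β₂ : F} (hα₁ : α₁ ≠ 0) (hα₂ : α₂ ≠ 0)
    (hα : ∀ v : Place K F, v.ord α₁ = -E v ∨ v.ord α₂ = -E v)
    (hβ₁ : β₁ ∈ riemannRochSpace B) (hβ₂ : β₂ ∈ riemannRochSpace B)
    (h : β₁ * α₂ = β₂ * α₁) :
    ∃ γ ∈ riemannRochSpace (B - E), β₁ = γ * α₁ ∧ β₂ = γ * α₂ := by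
  have e1 : β₁ = β₁ / α₁ * α₁ := by field_simp
  have e2 : β₂ = β₁ / α₁ * α₂ := by
    field_simp
    rw [h]
  refine ⟨β₁ / α₁, ?_, e1, e2⟩
  rw [mem_L_iff]
  intro v
  by_cases hγ : β₁ / α₁ = 0
  · exact Or.inl hγ
  right
  have hβ₁0 : β₁ ≠ 0 := by
    rintro rfl
    exact hγ (by simp)
  have hβ₂0 : β₂ ≠ 0 := by
    rw [e2]
    exact mul_ne_zero hγ hα₂
  simp only [Finsupp.coe_sub, Pi.sub_apply]
  rcases hα v with hv | hv
  · have h1 := (mem_L_iff.mp hβ₁ v).resolve_left hβ₁0
    have h2 : v.ord β₁ = v.ord (β₁ / α₁) + v.ord α₁ := by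
      conv_lhs => rw [e1]
      exact v.ord_mul hγ hα₁
    omega
  · have h1 := (mem_L_iff.mp hβ₂ v).resolve_left hβ₂0
    have h2 : v.ord β₂ = v.ord (β₁ / α₁) + v.ord α₂ := by
      conv_lhs => rw [e2]
      exact v.ord_mul hγ hα₂
    omega

/-- Multiplication `L(B - E) × L(E) → L(B)`. -/
theorem mul_mem_L {B E : Divisor K F} {γ α : F} (hγ : γ ∈ riemannRochSpace (B - E))
    (hα : α ∈ riemannRochSpace E) : γ * α ∈ riemannRochSpace B := by
  rw [mem_L_iff]
  intro v
  by_cases h0 : γ * α = 0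
  · exact Or.inl h0
  right
  have hγ0 : γ ≠ 0 := left_ne_zero_of_mul h0
  have hα0 : α ≠ 0 := right_ne_zero_of_mul h0
  have h1 := (mem_L_iff.mp hγ v).resolve_left hγ0
  have h2 := (mem_L_iff.mp hα v).resolve_left hα0
  simp only [Finsupp.coe_sub, Pi.sub_apply] at h1
  rw [v.ord_mul hγ0 hα0]
  omega

end Pencil

end Fermat.Agent.Lib.RR.H439

end
end
-- ===== PACK-END Lib/RR/H439/Pencil.lean

-- ===== PACK-BEGIN S17/H440/EmbGlue.lean
section






/-!
# S17 / tower H (helper440): glue between `EmbData` and the graded evaluation maps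

`E : EmbData K F` is the projective embedding datum of `HWallDefs` (a basis `x` of `L(m ∞)`,
`m ≥ 2g + 1`, and projectively characterised representatives `E.pt P`).  Here the abstract
representative `E.pt P` is identified with the honest graded values.

* `gpt E P i = gev ∞ P m (x i)`: the graded coordinate vector of the place `P`;
* `dot_gpt`                 : `⟨a, gpt P⟩ = gev (Σ aᵢ xᵢ)`;
* `dot_gpt_eq_zero_iff`     : `⟨a, gpt P⟩ = 0 ↔ 0 < Z_a(P)`;
* `exists_Z_eq_zero`        : no base points, some hyperplane section misses `P`;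
* `gpt_ne_zero`, `pt_ne_zero`;
* `ptScale`, `pt_eq_smul_gpt`: `E.pt P = ptScale E P • gpt E P`, `ptScale E P ≠ 0`;
* `eval_pt`                 : `eval (E.pt P) p = ptScale ^ k * gev (k m) (aeval x p)` for `p`
                              homogeneous of degree `k`;
* `onCone_gpt`, `onCone_pt` : the points of the curve lie on the cone of `x`;
* `exists_pt_of_onCone`     : (G1 for `EmbData`) every nonzero point of the cone is `c • E.pt P`;
* `pt_injective`            : `E.pt P = c • E.pt Q` implies `P = Q`;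
* `sub_mem_nonunits_of_pt`  : `x i / x j ≡ pt P i / pt P j mod 𝔪_P` if `pt P j ≠ 0`.
-/

set_option autoImplicit false

noncomputable section

open AlgebraicCurve MvPolynomial

namespace Fermat.Agent.S17.H440

open Fermat.Agent.Lib.RR Fermat.Agent.S37.H100 Fermat.Agent.S17.HWall

variable {K F : Type*} [Field K] [Field F] [Algebra K F] [FF1 K F]

/-- The basis functions lie in `L(m ∞)`. -/
theorem x_mem (E : EmbData K F) (i : Fin (E.r + 1)) :
    E.x i ∈ riemannRochSpace (E.m • prim E.vinf) := by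
  rw [← E.x_span]
  exact Submodule.subset_span ⟨i, rfl⟩

/-- Every element of `L(m ∞)` is a linear form in the basis. -/
theorem exists_lin_eq (E : EmbData K F) {f : F}
    (hf : f ∈ riemannRochSpace (E.m • prim E.vinf)) :
    ∃ a : Fin (E.r + 1) → K, lin E.x a = f := by
  rw [← E.x_span] at hf
  obtain ⟨a, ha⟩ := (Submodule.mem_span_range_iff_exists_fun K).mp hf
  exact ⟨a, ha⟩

omit [FF1 K F] in
theorem smul_prim_apply (vinf P : Place K F) (m : ℕ) :
    (m • prim vinf : Divisor K F) P = (m : ℤ) * prim vinf P := by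
  rw [Finsupp.smul_apply, nsmul_eq_mul]

/-- The graded coordinate vector of a place. -/
def gpt (E : EmbData K F) (P : Place K F) : Fin (E.r + 1) → K :=
  fun i => gev E.vinf P E.m (E.x i)

theorem dot_gpt (E : EmbData K F) (P : Place K F) (a : Fin (E.r + 1) → K) :
    dot a (gpt E P) = gev E.vinf P E.m (lin E.x a) := by
  unfold lin
  rw [gev_sum E.vinf P Finset.univ _ fun i _ => Submodule.smul_mem _ _ (x_mem E i)]
  show ∑ i, a i * gpt E P i = _
  refine Finset.sum_congr rfl fun i _ => ?_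
  rw [gev_smul E.vinf P _ (x_mem E i)]
  rfl

/-- The hyperplanes through the graded point of `P` are the hyperplane sections through `P`. -/
theorem dot_gpt_eq_zero_iff (E : EmbData K F) (P : Place K F) {a : Fin (E.r + 1) → K}
    (ha : a ≠ 0) : dot a (gpt E P) = 0 ↔ 0 < E.Z a P := by
  rw [dot_gpt, gev_eq_zero_iff E.vinf P (E.lin_mem a) (E.lin_ne_zero ha), E.Z_apply ha P,
    smul_prim_apply]
  constructor <;> intro h <;> linarith

theorem two_genusFF_le (E : EmbData K F) :
    2 * (genusFF K F : ℤ) ≤ Divisor.degree (E.m • prim E.vinf) := by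
  rw [genusFF_eq_genusR, map_nsmul]
  unfold prim
  rw [Divisor.degree_single, FF1.deg_eq_one]
  have := E.hm
  simp only [Nat.cast_one, mul_one, nsmul_eq_mul]
  omega

/-- **No base points**: for every place `P` some hyperplane section does not contain `P`. -/
theorem exists_Z_eq_zero (E : EmbData K F) (P : Place K F) :
    ∃ a : Fin (E.r + 1) → K, a ≠ 0 ∧ E.Z a P = 0 := by
  obtain ⟨f, hf, hf0, hord⟩ := H439.exists_mem_L_ord_eq (two_genusFF_le E) P
  obtain ⟨a, ha⟩ := exists_lin_eq E hf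
  have ha0 : a ≠ 0 := by
    rintro rfl
    apply hf0
    rw [← ha]
    simp [lin]
  refine ⟨a, ha0, ?_⟩
  rw [E.Z_apply ha0 P, ha, hord]
  ring

theorem gpt_ne_zero (E : EmbData K F) (P : Place K F) : gpt E P ≠ 0 := by
  obtain ⟨a, ha0, ha⟩ := exists_Z_eq_zero E P
  intro h
  have h1 : dot a (gpt E P) = 0 := by rw [h]; simp [dot]
  have := (dot_gpt_eq_zero_iff E P ha0).mp h1
  omega

theorem pt_ne_zero (E : EmbData K F) (P : Place K F) : E.pt P ≠ 0 := by
  obtain ⟨a, ha0, ha⟩ := exists_Z_eq_zero E P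
  intro h
  have h1 : dot a (E.pt P) = 0 := by rw [h]; simp [dot]
  have h2 : 0 < E.Z a P := (E.pt_spec P a ha0).mp h1
  omega

/-- Two vectors with the same orthogonal hyperplanes are proportional. -/
theorem exists_smul_eq_of_dot_iff {n : ℕ} {u w : Fin n → K} (hu : u ≠ 0) (hw : w ≠ 0)
    (h : ∀ a : Fin n → K, a ≠ 0 → (dot a u = 0 ↔ dot a w = 0)) :
    ∃ c : K, c ≠ 0 ∧ u = c • w := by
  classical
  obtain ⟨j, hj⟩ : ∃ j, w j ≠ 0 := by
    by_contra hcon
    push Not at hcon
    exact hw (funext hcon)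
  have key : ∀ i, w j * u i = w i * u j := by
    intro i
    by_cases hij : i = j
    · subst hij; rfl
    set a : Fin n → K := fun l => if l = i then w j else if l = j then -w i else 0 with ha
    have ha0 : a ≠ 0 := by
      intro h0
      have := congrFun h0 i
      simp only [ha, if_true, Pi.zero_apply] at this
      exact hj this
    have hdot : ∀ z : Fin n → K, dot a z = w j * z i - w i * z j := by
      intro z
      show ∑ l, a l * z l = _
      rw [Finset.sum_eq_add_of_mem i j (Finset.mem_univ _) (Finset.mem_univ _) hij]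
      · simp only [ha, if_true]
        rw [if_neg (Ne.symm hij)]
        ring
      · intro l _ hl
        simp only [ha]
        rw [if_neg hl.1, if_neg hl.2, zero_mul]
    have h1 : dot a w = 0 := by rw [hdot]; ring
    have h2 := (h a ha0).mpr h1
    rw [hdot] at h2
    linear_combination h2
  have huj : u j ≠ 0 := by
    intro h0
    apply hu
    funext i
    have := key i
    rw [h0, mul_zero] at this
    rcases mul_eq_zero.mp this with h' | h'
    · exact absurd h' hj
    · exact h'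
  refine ⟨u j / w j, div_ne_zero huj hj, funext fun i => ?_⟩
  rw [Pi.smul_apply, smul_eq_mul]
  field_simp
  linear_combination key i

theorem exists_pt_eq_smul_gpt (E : EmbData K F) (P : Place K F) :
    ∃ c : K, c ≠ 0 ∧ E.pt P = c • gpt E P :=
  exists_smul_eq_of_dot_iff (pt_ne_zero E P) (gpt_ne_zero E P) fun a ha =>
    (E.pt_spec P a ha).trans (dot_gpt_eq_zero_iff E P ha).symm

/-- The scalar with `E.pt P = ptScale E P • gpt E P`. -/
def ptScale (E : EmbData K F) (P : Place K F) : K := (exists_pt_eq_smul_gpt E P).choose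

theorem ptScale_ne_zero (E : EmbData K F) (P : Place K F) : ptScale E P ≠ 0 :=
  (exists_pt_eq_smul_gpt E P).choose_spec.1

theorem pt_eq_smul_gpt (E : EmbData K F) (P : Place K F) :
    E.pt P = ptScale E P • gpt E P :=
  (exists_pt_eq_smul_gpt E P).choose_spec.2

theorem pt_apply (E : EmbData K F) (P : Place K F) (i : Fin (E.r + 1)) :
    E.pt P i = ptScale E P * gev E.vinf P E.m (E.x i) := by
  rw [pt_eq_smul_gpt]
  rfl

/-- Homogeneous polynomials at a scaled point. -/
theorem eval_smul_of_isHomogeneous {ι : Type*} {p : MvPolynomial ι K} {k : ℕ}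
    (hp : p.IsHomogeneous k) (c : K) (z : ι → K) :
    eval (c • z) p = c ^ k * eval z p := by
  have := aeval_mul_of_isHomogeneous hp z c
  rw [aeval_eq_eval, aeval_eq_eval] at this
  exact this

/-- **Polynomials at the point of a place**: for `p` homogeneous of degree `k`,
`p (E.pt P) = ptScale ^ k * gev (k m) (p (x))`. -/
theorem eval_pt (E : EmbData K F) (P : Place K F) {p : MvPolynomial (Fin (E.r + 1)) K} {k : ℕ}
    (hp : p.IsHomogeneous k) :
    eval (E.pt P) p = ptScale E P ^ k * gev E.vinf P (k * E.m) (aeval E.x p) := by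
  rw [pt_eq_smul_gpt, eval_smul_of_isHomogeneous hp, ← eval_gev E.vinf P (x_mem E) hp]
  rfl

theorem eval_gpt (E : EmbData K F) (P : Place K F) {p : MvPolynomial (Fin (E.r + 1)) K} {k : ℕ}
    (hp : p.IsHomogeneous k) :
    eval (gpt E P) p = gev E.vinf P (k * E.m) (aeval E.x p) :=
  eval_gev E.vinf P (x_mem E) hp

/-- The graded point of a place lies on the cone. -/
theorem onCone_gpt (E : EmbData K F) (P : Place K F) : OnCone E.x (gpt E P) := by
  intro n p hp hpx
  rw [eval_gpt E P hp, hpx, gev_zero]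

/-- The point of a place lies on the cone. -/
theorem onCone_pt (E : EmbData K F) (P : Place K F) : OnCone E.x (E.pt P) := by
  intro n p hp hpx
  rw [eval_pt E P hp, hpx, gev_zero, mul_zero]

/-- The coordinate functions are congruent to the coordinates of the point:
`x i / x j ≡ pt P i / pt P j  mod 𝔪_P` whenever `pt P j ≠ 0`. -/
theorem sub_mem_nonunits_of_pt (E : EmbData K F) (P : Place K F) {j : Fin (E.r + 1)}
    (hj : E.pt P j ≠ 0) (i : Fin (E.r + 1)) :
    E.x i / E.x j - algebraMap K F (E.pt P i / E.pt P j) ∈ P.toValuationSubring.nonunits := by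
  have hc := ptScale_ne_zero E P
  have hgj : gev E.vinf P E.m (E.x j) ≠ 0 := by
    intro h0
    apply hj
    rw [pt_apply, h0, mul_zero]
  have h := div_sub_mem_nonunits E.vinf P (x_mem E i) (x_mem E j) hgj
  have e : E.pt P i / E.pt P j = gev E.vinf P E.m (E.x i) / gev E.vinf P E.m (E.x j) := by
    rw [pt_apply, pt_apply, mul_div_mul_left _ _ hc]
  rw [e]
  exact h

/-- **G1 for `EmbData`**: every nonzero point of the cone of `x` is the point of a place. -/
theorem exists_pt_of_onCone (E : EmbData K F) {y : Fin (E.r + 1) → K} (hy : OnCone E.x y)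
    (hy0 : y ≠ 0) : ∃ (P : Place K F) (c : K), c ≠ 0 ∧ y = c • E.pt P := by
  obtain ⟨j, hj⟩ : ∃ j, y j ≠ 0 := by
    by_contra hcon
    push Not at hcon
    exact hy0 (funext hcon)
  have hxj : E.x j ≠ 0 := hy.ne_zero hj
  obtain ⟨P, hP⟩ := exists_place_of_onCone hy hj
  have hmem : ∀ i, E.x i / E.x j ∈ P.toValuationSubring := fun i => by
    have := P.toValuationSubring.add_mem _ _ (ValuationSubring.nonunits_le (hP i))
      (P.algebraMap_mem' (y i / y j))
    simpa using this
  have hev : ∀ i, evPlace P (FF1.deg_eq_one P) ⟨_, hmem i⟩ = y i / y j := by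
    intro i
    have h1 : (⟨_, hmem i⟩ : P.toValuationSubring) - algebraMap K P.toValuationSubring (y i / y j)
        ∈ IsLocalRing.maximalIdeal P.toValuationSubring :=
      ValuationSubring.coe_mem_nonunits_iff.mp (hP i)
    rw [← evPlace_eq_zero_iff P (FF1.deg_eq_one P), map_sub, evPlace_algebraMap,
      sub_eq_zero] at h1
    exact h1
  have hg : ∀ i, gpt E P i = y i / y j * gpt E P j := by
    intro i
    show gev E.vinf P E.m (E.x i) = _
    rw [gev_eq_mul_of_div_mem E.vinf P (x_mem E j) hxj (hmem i), hev i]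
    rfl
  have hgj : gpt E P j ≠ 0 := by
    intro h0
    apply gpt_ne_zero E P
    funext i
    rw [hg i, h0, mul_zero]
    rfl
  have hc := ptScale_ne_zero E P
  refine ⟨P, y j / gpt E P j / ptScale E P, div_ne_zero (div_ne_zero hj hgj) hc, ?_⟩
  funext i
  rw [Pi.smul_apply, smul_eq_mul, pt_eq_smul_gpt, Pi.smul_apply, smul_eq_mul, hg i]
  field_simp

/-- **The embedding is injective**: proportional points come from the same place. -/
theorem pt_injective (E : EmbData K F) {P Q : Place K F} {c : K}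
    (h : E.pt P = c • E.pt Q) : P = Q := by
  by_contra hPQ
  -- a hyperplane section through `Q` missing `P`
  have hdeg : 2 * (genusFF K F : ℤ) ≤ Divisor.degree (E.m • prim E.vinf - prim Q) := by
    have h1 := two_genusFF_le E
    rw [genusFF_eq_genusR] at h1 ⊢
    have h2 : Divisor.degree (E.m • prim E.vinf) = E.m := by
      rw [map_nsmul]
      unfold prim
      rw [Divisor.degree_single, FF1.deg_eq_one]
      simp
    rw [map_sub, h2]
    have h3 : Divisor.degree (prim Q) = 1 := by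
      unfold prim
      rw [Divisor.degree_single, FF1.deg_eq_one]
      simp
    rw [h3]
    have := E.hm
    omega
  obtain ⟨f, hf, hf0, hord⟩ := H439.exists_mem_L_ord_eq hdeg P
  have hf' : f ∈ riemannRochSpace (E.m • prim E.vinf) :=
    L_mono (H439.sub_prim_le _ Q) hf
  obtain ⟨a, ha⟩ := exists_lin_eq E hf'
  have ha0 : a ≠ 0 := by
    rintro rfl
    apply hf0
    rw [← ha]
    simp [lin]
  have hZP : E.Z a P = 0 := by
    rw [E.Z_apply ha0 P, ha, hord]
    simp only [Finsupp.coe_sub, Pi.sub_apply]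
    rw [prim_apply_of_ne hPQ]
    ring
  have hZQ : 0 < E.Z a Q := by
    rw [E.Z_apply ha0 Q, ha]
    have := (mem_riemannRochSpace_iff.mp hf Q).resolve_left hf0
    simp only [Finsupp.coe_sub, Pi.sub_apply, prim_apply_self] at this
    omega
  have h1 : dot a (E.pt Q) = 0 := (E.pt_spec Q a ha0).mpr hZQ
  have h2 : dot a (E.pt P) = 0 := by
    rw [h]
    show dotProduct a (c • E.pt Q) = 0
    rw [dotProduct_smul]
    show c • dot a (E.pt Q) = 0
    rw [h1, smul_zero]
  have h3 : 0 < E.Z a P := (E.pt_spec P a ha0).mp h2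
  omega

end Fermat.Agent.S17.H440

end
end
-- ===== PACK-END S17/H440/EmbGlue.lean

-- ===== PACK-BEGIN S17/H917/Mov.lean
section



/-!
# S17 / tower H, geometric layer: rational avoidance and the common residual (G-MOV2)

Setting of BASE-2 (helper680, `H680/DescentRR.lean`): `F = ℚ̄ · F₀ ⊆ ℚ̄((q))` with the coefficientwise
action of `G_ℚ`; `IsFixed f` (Galois-fixed = rational function), `IsInvariant D` (Galois-invariant
divisor).

* `isInvariant_add/sub/neg/zero`, `isInvariant_divOf` : calculus of invariant divisors;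
* `exists_fixed_mem_L_forall_ord_eq` (**RAT-AVOID**): if `D` is invariant of degree `≥ 2g` and `S` is
  a finite set of places, some FIXED `f ∈ L(D)`, `f ≠ 0`, has `ord_v f = - D v` for all `v ∈ S`
  (the member `div f + D` of `|D|` is rational and avoids `S`);
* `exists_fixed_of_divOf_add_eq_zero`: an invariant principal divisor is the divisor of a fixed
  function (Hilbert 90, in the form "a one-dimensional invariant `L(E)` has a fixed generator");
* `exists_common_residual` (**G-MOV2**, abstract form): if `D₁ ~ D₂` are invariant effective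
  divisors with `deg D₁ + 2g ≤ m`, and `T` is a finite set of places, there are an invariant
  effective `R` avoiding `T` and fixed functions `a₁, a₂` with `div aᵢ + m ∞ = Dᵢ + R`;
* `exists_fixed_family_disjoint` (**G-MOV3**, abstract form): `k` fixed functions in `L(D)`
  (`D` invariant, `deg D ≥ 2g`) whose members `div b + D` have pairwise disjoint supports.
-/

set_option autoImplicit false

noncomputable section

open AlgebraicCurve ModularCurve

namespace Fermat.Agent.S17.H917

open Fermat.Agent.Lib.RR Fermat.Agent.S17.H680 Fermat.Agent.S17.H77 Fermat.Agent.Lib.RR.H439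

variable (F₀ : IntermediateField ℚ (LaurentSeries ℚ)) [FF1 Qb (laurentBaseChange Qb F₀)]

/-! ### Invariant divisors -/

omit [FF1 Qb (laurentBaseChange Qb F₀)] in
theorem isInvariant_zero : IsInvariant F₀ (0 : Divisor Qb (laurentBaseChange Qb F₀)) :=
  fun _ => smul_zero _

variable {F₀} in
omit [FF1 Qb (laurentBaseChange Qb F₀)] in
theorem isInvariant_add {D E : Divisor Qb (laurentBaseChange Qb F₀)} (hD : IsInvariant F₀ D)
    (hE : IsInvariant F₀ E) : IsInvariant F₀ (D + E) := fun σ => by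
  rw [smul_add, hD σ, hE σ]

variable {F₀} in
omit [FF1 Qb (laurentBaseChange Qb F₀)] in
theorem isInvariant_neg {D : Divisor Qb (laurentBaseChange Qb F₀)} (hD : IsInvariant F₀ D) :
    IsInvariant F₀ (-D) := fun σ => by
  rw [smul_neg, hD σ]

variable {F₀} in
omit [FF1 Qb (laurentBaseChange Qb F₀)] in
theorem isInvariant_sub {D E : Divisor Qb (laurentBaseChange Qb F₀)} (hD : IsInvariant F₀ D)
    (hE : IsInvariant F₀ E) : IsInvariant F₀ (D - E) := fun σ => by
  rw [smul_sub, hD σ, hE σ]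

variable {F₀} in
/-- The divisor of a fixed function is invariant. -/
theorem isInvariant_divOf {f : laurentBaseChange Qb F₀} (hf : f ≠ 0) (hfix : IsFixed F₀ f) :
    IsInvariant F₀ (divOf (K := Qb) f hf) := fun σ => by
  rw [smul_divOf]
  exact divOf_congr _ (hfix σ)

/-! ### Rational avoidance -/

omit F₀ in
omit [FF1 Qb (laurentBaseChange Qb F₀)] in
/-- Over an infinite field, a subspace `V₀` which is contained in none of finitely many subspaces
`p i` has an element outside all of them. -/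
theorem exists_mem_forall_notMem {k V ι : Type*} [Field k] [Infinite k] [AddCommGroup V]
    [Module k V] (V₀ : Submodule k V) (S : Finset ι) (p : ι → Submodule k V)
    (h : ∀ i ∈ S, ¬ V₀ ≤ p i) : ∃ x ∈ V₀, ∀ i ∈ S, x ∉ p i := by
  classical
  let q : ι → Subspace k V₀ := fun i => Submodule.comap V₀.subtype (p i)
  let s : Finset (Subspace k V₀) := S.image q
  have hs : (⊤ : Subspace k V₀) ∉ s := by
    intro hmem
    obtain ⟨i, hi, hq⟩ := Finset.mem_image.mp hmem
    apply h i hi
    intro x hx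
    have : (⟨x, hx⟩ : V₀) ∈ q i := by rw [hq]; trivial
    exact this
  have hcov := Subspace.biUnion_ne_univ_of_top_notMem hs
  obtain ⟨x, hx⟩ := (Set.ne_univ_iff_exists_notMem _).mp hcov
  simp only [Set.mem_iUnion, not_exists] at hx
  refine ⟨x, x.2, fun i hi hxi => ?_⟩
  exact hx (q i) (Finset.mem_image_of_mem q hi) hxi

omit [FF1 Qb (laurentBaseChange Qb F₀)] in
/-- A `ℚ̄`-subspace of `F`, as a `ℚ`-subspace. -/
def ratPart (W : Submodule Qb (laurentBaseChange Qb F₀)) :
    Submodule ℚ (laurentBaseChange Qb F₀) where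
  carrier := {f | f ∈ W}
  zero_mem' := W.zero_mem
  add_mem' := fun hf hg => W.add_mem hf hg
  smul_mem' := fun c f hf => by
    show c • f ∈ W
    rw [← algebraMap_smul Qb c f]
    exact W.smul_mem _ hf

omit [FF1 Qb (laurentBaseChange Qb F₀)] in
theorem mem_ratPart {W : Submodule Qb (laurentBaseChange Qb F₀)}
    {f : laurentBaseChange Qb F₀} : f ∈ ratPart F₀ W ↔ f ∈ W := Iff.rfl

variable {F₀} in
/-- **RAT-AVOID.**  If `D` is a Galois-invariant divisor of degree `≥ 2g` and `S` is a finite set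
of places, then some Galois-fixed `f ∈ L(D)`, `f ≠ 0`, has order exactly `-D v` at every `v ∈ S`. -/
theorem exists_fixed_mem_L_forall_ord_eq {D : Divisor Qb (laurentBaseChange Qb F₀)}
    (hD : IsInvariant F₀ D)
    (hdeg : 2 * (genusFF Qb (laurentBaseChange Qb F₀) : ℤ) ≤ Divisor.degree D)
    (S : Finset (Place Qb (laurentBaseChange Qb F₀))) :
    ∃ f ∈ riemannRochSpace D, IsFixed F₀ f ∧ f ≠ 0 ∧ ∀ v ∈ S, v.ord f = -D v := by
  classical
  have hspan : Submodule.span Qb {f | f ∈ riemannRochSpace D ∧ IsFixed F₀ f}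
      = riemannRochSpace D :=
    span_fixed_eq F₀ (riemannRochSpace D) fun σ _ hf => smul_mem_L_of_isInvariant F₀ hD σ hf
  -- a `ℚ̄`-subspace containing all fixed elements of `L(D)` contains `L(D)`
  have key : ∀ W : Submodule Qb (laurentBaseChange Qb F₀),
      fixedPart F₀ (riemannRochSpace D) ≤ ratPart F₀ W → riemannRochSpace D ≤ W := by
    intro W hW
    rw [← hspan, Submodule.span_le]
    intro f hf
    exact hW hf
  -- the subspaces to avoid: `0` and the `L(D - v)`, `v ∈ S`
  have hav := exists_mem_forall_notMem (fixedPart F₀ (riemannRochSpace D))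
    (insert none (S.image some))
    (fun o : Option (Place Qb (laurentBaseChange Qb F₀)) =>
      match o with
      | none => ratPart F₀ ⊥
      | some v => ratPart F₀ (riemannRochSpace (D - prim v)))
    (by
      intro o ho hle
      cases o with
      | none =>
        obtain ⟨v⟩ := (inferInstance : FF1 Qb (laurentBaseChange Qb F₀)).nonempty_place
        obtain ⟨f, hf, hf0, -⟩ := exists_mem_L_ord_eq hdeg v
        exact hf0 (by simpa using key ⊥ hle hf)
      | some v =>
        obtain ⟨f, hf, hf'⟩ := exists_mem_not_mem_sub hdeg v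
        exact hf' (key _ hle hf))
  obtain ⟨x, hx, hxav⟩ := hav
  refine ⟨x, hx.1, hx.2, ?_, fun v hv => ?_⟩
  · intro h0
    refine hxav none (Finset.mem_insert_self _ _) ?_
    show x ∈ (⊥ : Submodule Qb (laurentBaseChange Qb F₀))
    rw [h0]
    exact Submodule.zero_mem _
  · apply ord_eq_of_mem_of_not_mem_sub D v hx.1
    intro hmem
    exact hxav (some v) (Finset.mem_insert_of_mem (Finset.mem_image_of_mem some hv)) hmem

/-! ### Invariant principal divisors -/

variable {F₀} in
/-- If `E` is invariant and `E + div h = 0` for some `h ≠ 0`, then `E + div a = 0` for a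
Galois-fixed function `a` (Hilbert 90 for the function field, via BASE-2). -/
theorem exists_fixed_of_divOf_add_eq_zero {E : Divisor Qb (laurentBaseChange Qb F₀)}
    (hE : IsInvariant F₀ E) {h : laurentBaseChange Qb F₀} (hh : h ≠ 0)
    (hEh : E + divOf h hh = 0) :
    ∃ (a : laurentBaseChange Qb F₀) (ha : a ≠ 0), IsFixed F₀ a ∧ E + divOf a ha = 0 := by
  classical
  have hdegE : Divisor.degree E = 0 := by
    have := congrArg Divisor.degree hEh
    rw [map_add, degree_divOf, add_zero, map_zero] at this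
    exact this
  obtain ⟨b, hbL, hbfix, hli, -, -⟩ := exists_fixed_basis_L F₀ hE
  have hpos : 0 < ell E := by
    have hEq : E = 0 + divOf h⁻¹ (inv_ne_zero hh) := by
      rw [divOf_inv h hh, zero_add, eq_neg_iff_add_eq_zero]
      exact hEh
    rw [hEq, ell_add_divOf, ell_zero]
    exact Nat.one_pos
  set a := b ⟨0, hpos⟩ with ha
  have ha0 : a ≠ 0 := hli.ne_zero _
  refine ⟨a, ha0, hbfix _, ?_⟩
  apply eq_zero_of_nonneg_of_degree_eq_zero
  · exact (mem_L_iff_nonneg ha0).mp (hbL _)
  · rw [map_add, degree_divOf, hdegE, add_zero]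

/-! ### The common residual -/

variable {F₀} in
/-- **G-MOV2** (abstract form).  Let `D₁ ~ D₂` be linearly equivalent Galois-invariant effective
divisors with `deg D₁ + 2g ≤ m`, `m ∞` invariant, and let `T` be a finite set of places.  Then there
are a Galois-invariant effective divisor `R` avoiding `T` and Galois-fixed functions `a₁, a₂` with
`div aᵢ + m ∞ = Dᵢ + R`. -/
theorem exists_common_residual {m : ℕ} {vinf : Place Qb (laurentBaseChange Qb F₀)}
    (hminv : IsInvariant F₀ (m • prim vinf))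
    {D₁ D₂ : Divisor Qb (laurentBaseChange Qb F₀)}
    (hi₁ : IsInvariant F₀ D₁) (hi₂ : IsInvariant F₀ D₂)
    (hdeg : Divisor.degree D₁ + 2 * (genusFF Qb (laurentBaseChange Qb F₀) : ℤ) ≤ m)
    (hlin : ∃ (h : laurentBaseChange Qb F₀) (hh : h ≠ 0), D₂ = D₁ + divOf h hh)
    (T : Finset (Place Qb (laurentBaseChange Qb F₀))) :
    ∃ (R : Divisor Qb (laurentBaseChange Qb F₀)) (a₁ a₂ : laurentBaseChange Qb F₀)
      (ha₁ : a₁ ≠ 0) (ha₂ : a₂ ≠ 0),
      0 ≤ R ∧ IsInvariant F₀ R ∧ IsFixed F₀ a₁ ∧ IsFixed F₀ a₂ ∧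
      divOf a₁ ha₁ + m • prim vinf = D₁ + R ∧ divOf a₂ ha₂ + m • prim vinf = D₂ + R ∧
      ∀ v ∈ T, R v = 0 := by
  classical
  obtain ⟨h, hh, hD₂⟩ := hlin
  -- a rational member of `|m ∞ - D₁|` avoiding `T`
  have hE : IsInvariant F₀ (m • prim vinf - D₁) := isInvariant_sub hminv hi₁
  have hEdeg : 2 * (genusFF Qb (laurentBaseChange Qb F₀) : ℤ)
      ≤ Divisor.degree (m • prim vinf - D₁) := by
    rw [map_sub, map_nsmul, degree_prim vinf (deg_eq_one vinf)]
    simp only [nsmul_eq_mul, mul_one]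
    linarith
  obtain ⟨a₁, ha₁L, ha₁fix, ha₁0, ha₁T⟩ := exists_fixed_mem_L_forall_ord_eq hE hEdeg T
  set R : Divisor Qb (laurentBaseChange Qb F₀) := (m • prim vinf - D₁) + divOf a₁ ha₁0 with hR
  have hR0 : 0 ≤ R := (mem_L_iff_nonneg ha₁0).mp ha₁L
  have hRinv : IsInvariant F₀ R := isInvariant_add hE (isInvariant_divOf ha₁0 ha₁fix)
  have hRT : ∀ v ∈ T, R v = 0 := by
    intro v hv
    rw [hR, Finsupp.add_apply, divOf_apply, ha₁T v hv]
    ring
  have e₁ : divOf a₁ ha₁0 + m • prim vinf = D₁ + R := by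
    rw [hR]; abel
  -- the second function
  have hE₂ : IsInvariant F₀ (m • prim vinf - D₂ - R) :=
    isInvariant_sub (isInvariant_sub hminv hi₂) hRinv
  have hprinc : (m • prim vinf - D₂ - R) + divOf (a₁ * h) (mul_ne_zero ha₁0 hh) = 0 := by
    rw [divOf_mul a₁ h ha₁0 hh, hD₂, hR]
    abel
  obtain ⟨a₂, ha₂0, ha₂fix, e⟩ := exists_fixed_of_divOf_add_eq_zero hE₂ _ hprinc
  refine ⟨R, a₁, a₂, ha₁0, ha₂0, hR0, hRinv, ha₁fix, ha₂fix, e₁, ?_, hRT⟩
  have : divOf a₂ ha₂0 = -(m • prim vinf - D₂ - R) := by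
    rw [eq_neg_iff_add_eq_zero, add_comm]
    exact e
  rw [this]
  abel

/-! ### Rational hyperplane sections with pairwise disjoint supports -/

variable {F₀} in
/-- **G-MOV3** (abstract form).  If `D` is invariant of degree `≥ 2g`, there are, for every `k`,
Galois-fixed nonzero functions `b 0, …, b (k-1) ∈ L(D)` such that the members `div (b j) + D` of
`|D|` have pairwise disjoint supports: at every place `v` and for `j ≠ j'`, one of `b j`, `b j'` has
order exactly `-D v`. -/
theorem exists_fixed_family_disjoint {D : Divisor Qb (laurentBaseChange Qb F₀)}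
    (hD : IsInvariant F₀ D)
    (hdeg : 2 * (genusFF Qb (laurentBaseChange Qb F₀) : ℤ) ≤ Divisor.degree D) (k : ℕ) :
    ∃ b : Fin k → laurentBaseChange Qb F₀,
      (∀ j, b j ≠ 0 ∧ b j ∈ riemannRochSpace D ∧ IsFixed F₀ (b j)) ∧
      ∀ j j', j ≠ j' → ∀ v : Place Qb (laurentBaseChange Qb F₀),
        v.ord (b j) = -D v ∨ v.ord (b j') = -D v := by
  classical
  induction k with
  | zero => exact ⟨Fin.elim0, fun j => j.elim0, fun j => j.elim0⟩
  | succ k ih =>
    obtain ⟨b, hb, hdis⟩ := ih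
    -- the finite set of zeros of the previous members
    let S : Finset (Place Qb (laurentBaseChange Qb F₀)) :=
      Finset.univ.biUnion fun j : Fin k => (divOf (b j) (hb j).1 + D).support
    obtain ⟨f, hfL, hffix, hf0, hfS⟩ := exists_fixed_mem_L_forall_ord_eq hD hdeg S
    have hkey : ∀ (j : Fin k) (v : Place Qb (laurentBaseChange Qb F₀)),
        v.ord (b j) = -D v ∨ v.ord f = -D v := by
      intro j v
      by_cases hv : v ∈ (divOf (b j) (hb j).1 + D).support
      · right
        exact hfS v (Finset.mem_biUnion.mpr ⟨j, Finset.mem_univ _, hv⟩)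
      · left
        rw [Finsupp.mem_support_iff, not_not, Finsupp.add_apply, divOf_apply] at hv
        omega
    refine ⟨Fin.snoc b f, fun j => ?_, fun j j' hjj' v => ?_⟩
    · refine Fin.lastCases ?_ (fun i => ?_) j
      · simpa using ⟨hf0, hfL, hffix⟩
      · simpa using hb i
    · induction j using Fin.lastCases with
      | last =>
        induction j' using Fin.lastCases with
        | last => exact absurd rfl hjj'
        | cast i' =>
          rw [Fin.snoc_last, Fin.snoc_castSucc]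
          exact (hkey i' v).symm
      | cast i =>
        induction j' using Fin.lastCases with
        | last =>
          rw [Fin.snoc_last, Fin.snoc_castSucc]
          exact hkey i v
        | cast i' =>
          rw [Fin.snoc_castSucc, Fin.snoc_castSucc]
          exact hdis i i' (fun h => hjj' (by rw [h])) v

end Fermat.Agent.S17.H917

end
end
-- ===== PACK-END S17/H917/Mov.lean

-- ===== PACK-BEGIN Lib/RR/H439/PencilMul.lean
section


/-!
# Riemann–Roch corollaries, part 2: surjectivity of multiplication, effective representatives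

(helper439, cell A3 / piece D5.)

* `exists_eq_mul_add_mul`         : `L(B) α₁ + L(B) α₂ = L(B + E)` for a base-point-free pencil
                                    `α₁, α₂ ∈ L(E)` and `deg (B - E) > 2g - 2`.
* `exists_effective`              : `deg D ≥ g` ⟹ `D + div f ≥ 0` for some `f ≠ 0`.
* `eq_of_effective_of_ell_eq_one` : two linearly equivalent effective divisors, one of them with
                                    `ℓ = 1`, are equal.
* `ell_eq_ell_sub_add_degree`     : `ℓ(B) = ℓ(B - D) + deg D` if `deg (B - D) > 2g - 2`.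
-/

set_option autoImplicit false

noncomputable section

open AlgebraicCurve

namespace Fermat.Agent.Lib.RR.H439

open Fermat.Agent.Lib.RR

variable {K F : Type*} [Field K] [Field F] [Algebra K F]

section Maps

variable (B E : Divisor K F) (α₁ α₂ : F)

/-- `(β₁, β₂) ↦ β₁ α₁ + β₂ α₂ : L(B) × L(B) → F`. -/
def pencilMul : (riemannRochSpace B × riemannRochSpace B) →ₗ[K] F :=
  ((LinearMap.mulRight K α₁).comp (riemannRochSpace B).subtype).coprod
    ((LinearMap.mulRight K α₂).comp (riemannRochSpace B).subtype)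

@[simp] theorem pencilMul_apply (x : riemannRochSpace B × riemannRochSpace B) :
    pencilMul B α₁ α₂ x = (x.1 : F) * α₁ + (x.2 : F) * α₂ := by
  simp [pencilMul]

theorem pencilMul_mem {α₁ α₂ : F} (hα₁ : α₁ ∈ riemannRochSpace E) (hα₂ : α₂ ∈ riemannRochSpace E)
    (x : riemannRochSpace B × riemannRochSpace B) :
    pencilMul B α₁ α₂ x ∈ riemannRochSpace (B + E) := by
  rw [pencilMul_apply]
  have hB : ∀ β ∈ riemannRochSpace B, β ∈ riemannRochSpace ((B + E) - E) := by
    intro β hβ
    rwa [add_sub_cancel_right]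
  exact Submodule.add_mem _ (mul_mem_L (hB _ x.1.2) hα₁) (mul_mem_L (hB _ x.2.2) hα₂)

/-- `γ ↦ (γ α₂, -γ α₁) : L(B - E) → L(B) × L(B)` (the Koszul map). -/
def pencilKoszul {α₁ α₂ : F} (hα₁ : α₁ ∈ riemannRochSpace E) (hα₂ : α₂ ∈ riemannRochSpace E) :
    riemannRochSpace (B - E) →ₗ[K] (riemannRochSpace B × riemannRochSpace B) where
  toFun γ := (⟨(γ : F) * α₂, mul_mem_L γ.2 hα₂⟩, ⟨-((γ : F) * α₁),
    Submodule.neg_mem _ (mul_mem_L γ.2 hα₁)⟩)
  map_add' γ γ' := by
    apply Prod.ext <;> apply Subtype.ext <;> simp <;> ring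
  map_smul' c γ := by
    apply Prod.ext <;> apply Subtype.ext <;> simp

theorem pencilKoszul_injective {α₁ α₂ : F} (hα₁ : α₁ ∈ riemannRochSpace E)
    (hα₂ : α₂ ∈ riemannRochSpace E) (hα₂0 : α₂ ≠ 0) :
    Function.Injective (pencilKoszul B E hα₁ hα₂) := by
  intro γ γ' h
  have h1 := congrArg (fun x : riemannRochSpace B × riemannRochSpace B => (x.1 : F)) h
  simp only [pencilKoszul, LinearMap.coe_mk, AddHom.coe_mk] at h1
  exact Subtype.ext (mul_right_cancel₀ hα₂0 h1)

theorem range_pencilKoszul {α₁ α₂ : F} (hα₁ : α₁ ∈ riemannRochSpace E)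
    (hα₂ : α₂ ∈ riemannRochSpace E) (hα₁0 : α₁ ≠ 0) (hα₂0 : α₂ ≠ 0)
    (hα : ∀ v : Place K F, v.ord α₁ = -E v ∨ v.ord α₂ = -E v) :
    LinearMap.range (pencilKoszul B E hα₁ hα₂) = LinearMap.ker (pencilMul B α₁ α₂) := by
  apply le_antisymm
  · rintro _ ⟨γ, rfl⟩
    rw [LinearMap.mem_ker, pencilMul_apply]
    simp only [pencilKoszul, LinearMap.coe_mk, AddHom.coe_mk]
    ring
  · intro x hx
    rw [LinearMap.mem_ker, pencilMul_apply] at hx
    have h : (x.1 : F) * α₁ = (-(x.2 : F)) * α₂ := by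
      rw [neg_mul]; exact eq_neg_of_add_eq_zero_left hx
    obtain ⟨γ, hγ, h1, h2⟩ := pencil_trick (E := E) (B := B) hα₂0 hα₁0 (fun v => (hα v).symm)
      x.1.2 (Submodule.neg_mem _ x.2.2) h
    refine ⟨⟨γ, hγ⟩, ?_⟩
    apply Prod.ext <;> apply Subtype.ext
    · simp only [pencilKoszul, LinearMap.coe_mk, AddHom.coe_mk]
      exact h1.symm
    · simp only [pencilKoszul, LinearMap.coe_mk, AddHom.coe_mk]
      rw [← h2, neg_neg]

end Maps

section RR

variable [FF1 K F]

/-- **Surjectivity of multiplication** (base-point-free pencil trick + Riemann–Roch).  If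
`α₁, α₂ ∈ L(E)` have no common zero and `deg (B - E) > 2g - 2`, then every element of `L(B + E)`
is `β₁ α₁ + β₂ α₂` with `β₁, β₂ ∈ L(B)`. -/
theorem exists_eq_mul_add_mul {E B : Divisor K F} {α₁ α₂ : F}
    (hα₁ : α₁ ∈ riemannRochSpace E) (hα₂ : α₂ ∈ riemannRochSpace E) (hα₁0 : α₁ ≠ 0)
    (hα₂0 : α₂ ≠ 0) (hα : ∀ v : Place K F, v.ord α₁ = -E v ∨ v.ord α₂ = -E v)
    (hdeg : 2 * (genusFF K F : ℤ) - 2 < Divisor.degree (B - E)) {h : F}
    (hh : h ∈ riemannRochSpace (B + E)) :
    ∃ β₁ ∈ riemannRochSpace B, ∃ β₂ ∈ riemannRochSpace B, h = β₁ * α₁ + β₂ * α₂ := by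
  have hE0 : 0 ≤ Divisor.degree E := degree_nonneg_of_mem_L hα₁ hα₁0
  rw [map_sub] at hdeg
  have e1 : (ell (B - E) : ℤ) = Divisor.degree (B - E) + 1 - (genusFF K F : ℤ) :=
    ell_eq_of_degree_gt (by rw [map_sub]; omega)
  have e2 : (ell B : ℤ) = Divisor.degree B + 1 - (genusFF K F : ℤ) :=
    ell_eq_of_degree_gt (by omega)
  have e3 : (ell (B + E) : ℤ) = Divisor.degree (B + E) + 1 - (genusFF K F : ℤ) :=
    ell_eq_of_degree_gt (by rw [map_add]; omega)
  rw [map_sub] at e1
  rw [map_add] at e3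
  -- the map into `L(B + E)`
  let Φ : (riemannRochSpace B × riemannRochSpace B) →ₗ[K] riemannRochSpace (B + E) :=
    (pencilMul B α₁ α₂).codRestrict _ (pencilMul_mem B E hα₁ hα₂)
  have hker : LinearMap.ker Φ = LinearMap.ker (pencilMul B α₁ α₂) :=
    LinearMap.ker_codRestrict _ _ _
  have hrk := LinearMap.finrank_range_add_finrank_ker Φ
  rw [hker, ← range_pencilKoszul B E hα₁ hα₂ hα₁0 hα₂0 hα,
    LinearMap.finrank_range_of_inj (pencilKoszul_injective B E hα₁ hα₂ hα₂0),
    Module.finrank_prod] at hrk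
  have hfr : Module.finrank K (LinearMap.range Φ) = Module.finrank K (riemannRochSpace (B + E)) := by
    unfold ell at e1 e2 e3
    omega
  have htop : LinearMap.range Φ = ⊤ := Submodule.eq_top_of_finrank_eq hfr
  have hmem : (⟨h, hh⟩ : riemannRochSpace (B + E)) ∈ LinearMap.range Φ := by
    rw [htop]; trivial
  obtain ⟨x, hx⟩ := hmem
  refine ⟨x.1, x.1.2, x.2, x.2.2, ?_⟩
  have := congrArg Subtype.val hx
  simp only [Φ, LinearMap.codRestrict_apply, pencilMul_apply] at this
  exact this.symm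

/-- **Effective representatives**: if `deg D ≥ g` there is `f ≠ 0` with `D + div f ≥ 0`. -/
theorem exists_effective {D : Divisor K F} (hD : (genusFF K F : ℤ) ≤ Divisor.degree D) :
    ∃ f : F, f ≠ 0 ∧ ∀ v : Place K F, 0 ≤ D v + v.ord f := by
  have h1 := riemann_inequality_genusFF D
  have hpos : 0 < ell D := by
    have : (0 : ℤ) < ell D := by omega
    exact_mod_cast this
  unfold ell at hpos
  obtain ⟨x, hx⟩ := (Module.finrank_pos_iff_exists_ne_zero (R := K)).mp hpos
  have hx0 : (x : F) ≠ 0 := fun h => hx (Subtype.ext h)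
  refine ⟨x, hx0, fun v => ?_⟩
  have := (mem_L_iff.mp x.2 v).resolve_left hx0
  omega

/-- **Uniqueness of the effective representative of a non-special class**: if `D₁, D₂ ≥ 0`,
`D₁ - D₂ = div h` and `ℓ(D₁) = 1`, then `D₁ = D₂`. -/
theorem eq_of_effective_of_ell_eq_one {D₁ D₂ : Divisor K F} (h₁ : 0 ≤ D₁) (h₂ : 0 ≤ D₂)
    (hl : ell D₁ = 1) {h : F} (hdiv : ∀ v : Place K F, D₁ v - D₂ v = v.ord h) :
    D₁ = D₂ := by
  have hmem : h⁻¹ ∈ riemannRochSpace D₁ := by
    rw [mem_L_iff]
    intro v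
    right
    rw [v.ord_inv, ← hdiv v]
    have := Finsupp.le_def.mp h₂ v
    simp only [Finsupp.coe_zero, Pi.zero_apply] at this
    omega
  rw [H638.L_eq_range_of_ell_eq_one h₁ hl] at hmem
  obtain ⟨c, hc⟩ := hmem
  rw [Algebra.linearMap_apply] at hc
  ext v
  have h0 : v.ord h⁻¹ = 0 := by rw [← hc]; exact ord_algebraMap v c
  rw [v.ord_inv] at h0
  have := hdiv v
  omega

/-- `ℓ(B) = ℓ(B - D) + deg D` as soon as `deg (B - D) > 2g - 2` and `deg D ≥ 0`. -/
theorem ell_eq_ell_sub_add_degree {B D : Divisor K F} (hD : 0 ≤ Divisor.degree D)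
    (hdeg : 2 * (genusFF K F : ℤ) - 2 < Divisor.degree (B - D)) :
    (ell B : ℤ) = ell (B - D) + Divisor.degree D := by
  have e1 : (ell (B - D) : ℤ) = Divisor.degree (B - D) + 1 - (genusFF K F : ℤ) :=
    ell_eq_of_degree_gt hdeg
  rw [map_sub] at hdeg e1
  have e2 : (ell B : ℤ) = Divisor.degree B + 1 - (genusFF K F : ℤ) :=
    ell_eq_of_degree_gt (by omega)
  omega

end RR

end Fermat.Agent.Lib.RR.H439

end
end
-- ===== PACK-END Lib/RR/H439/PencilMul.lean

-- ===== PACK-BEGIN Lib/RR/H259/Mult.lean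
section


/-!
# RR library, add-on (helper259): multiplication maps of Riemann–Roch spaces

For a function field `F/K` satisfying `FF1` with `K` infinite and genus `g = genusFF K F`:

* `mul_le_L`            : `L(A) * L(B) ≤ L(A + B)`;
* `IsBpfPencil D s₁ s₂` : `s₁, s₂ ∈ L(D)`, `s₁ ≠ 0`, at every place one of them has order exactly
  `-D v` (a base-point-free pencil);
* `exists_bpfPencil`    : `2g ≤ deg D` ⇒ a base-point-free pencil exists in `L(D)`;
* `pencil_trick`        : (base-point-free pencil trick) if `deg D + 2g - 1 ≤ deg E` then every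
  `h ∈ L(E + D)` is `s₁ * a + s₂ * b` with `a, b ∈ L(E)`;
* `L_mul_L_of_le`       : `2g ≤ deg D`, `deg D + 2g - 1 ≤ deg E` ⇒ `L(E) * L(D) = L(E + D)`;
* `L_mul_L`             : `4g ≤ deg A`, `4g ≤ deg B` ⇒ `L(A) * L(B) = L(A + B)`.

(Castelnuovo–Mumford type surjectivity of `L(A) ⊗ L(B) → L(A + B)`; the bound `4g` is not sharp,
but it is all that Khuri-Makdisi style linear algebra on divisors needs.)
-/

set_option autoImplicit false

noncomputable section

open AlgebraicCurve

namespace Fermat.Agent.Lib.RR.H259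

open Fermat.Agent.Lib.RR

variable {K F : Type*} [Field K] [Field F] [Algebra K F]

/-- `L(A) * L(B) ≤ L(A + B)`. -/
theorem mul_le_L (A B : Divisor K F) :
    riemannRochSpace A * riemannRochSpace B ≤ riemannRochSpace (A + B) := by
  rw [Submodule.mul_le]
  intro f hf g hg
  rw [mem_L_iff] at hf hg ⊢
  intro v
  rcases eq_or_ne f 0 with rfl | hf0
  · left; simp
  rcases eq_or_ne g 0 with rfl | hg0
  · left; simp
  right
  rw [v.ord_mul hf0 hg0]
  have h1 := (hf v).resolve_left hf0
  have h2 := (hg v).resolve_left hg0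
  simp only [Finsupp.coe_add, Pi.add_apply]
  omega

/-- A base-point-free pencil in `L(D)`. -/
structure IsBpfPencil (D : Divisor K F) (s₁ s₂ : F) : Prop where
  mem₁ : s₁ ∈ riemannRochSpace D
  mem₂ : s₂ ∈ riemannRochSpace D
  ne_zero : s₁ ≠ 0
  bpf : ∀ v : Place K F, v.ord s₁ = -D v ∨ (s₂ ≠ 0 ∧ v.ord s₂ = -D v)

theorem IsBpfPencil.degree_nonneg [HasPrincipalDivisors K F] {D : Divisor K F} {s₁ s₂ : F}
    (h : IsBpfPencil D s₁ s₂) : 0 ≤ Divisor.degree D :=
  degree_nonneg_of_mem_L h.mem₁ h.ne_zero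


/-- the map `(a, b) ↦ s₁ a + s₂ b` on `L(E) × L(E)` -/
def pencilMap (E : Divisor K F) (s₁ s₂ : F) :
    (riemannRochSpace E × riemannRochSpace E) →ₗ[K] F :=
  ((LinearMap.mulLeft K s₁).comp (riemannRochSpace E).subtype).coprod
    ((LinearMap.mulLeft K s₂).comp (riemannRochSpace E).subtype)

@[simp] theorem pencilMap_apply (E : Divisor K F) (s₁ s₂ : F)
    (p : riemannRochSpace E × riemannRochSpace E) :
    pencilMap E s₁ s₂ p = s₁ * (p.1 : F) + s₂ * (p.2 : F) := by
  simp [pencilMap]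

theorem range_pencilMap_le {D E : Divisor K F} {s₁ s₂ : F} (h : IsBpfPencil D s₁ s₂) :
    LinearMap.range (pencilMap E s₁ s₂) ≤ riemannRochSpace (E + D) := by
  rintro _ ⟨p, rfl⟩
  rw [pencilMap_apply]
  have h1 : s₁ * (p.1 : F) ∈ riemannRochSpace (E + D) := by
    rw [add_comm E D]
    exact mul_le_L D E (Submodule.mul_mem_mul h.mem₁ p.1.2)
  have h2 : s₂ * (p.2 : F) ∈ riemannRochSpace (E + D) := by
    rw [add_comm E D]
    exact mul_le_L D E (Submodule.mul_mem_mul h.mem₂ p.2.2)
  exact Submodule.add_mem _ h1 h2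

/-- the kernel of the pencil map embeds into `L(E - D)` by `(a, b) ↦ -b / s₁` -/
theorem finrank_ker_pencilMap_le [FF1 K F] {D E : Divisor K F} {s₁ s₂ : F}
    (h : IsBpfPencil D s₁ s₂) :
    Module.finrank K (LinearMap.ker (pencilMap E s₁ s₂)) ≤ ell (E - D) := by
  classical
  have hs₁ := h.ne_zero
  -- the map
  let ψ₀ : LinearMap.ker (pencilMap E s₁ s₂) →ₗ[K] F :=
    (LinearMap.mulLeft K (-s₁⁻¹)).comp ((riemannRochSpace E).subtype.comp
      ((LinearMap.snd K _ _).comp (LinearMap.ker (pencilMap E s₁ s₂)).subtype))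
  have hψ₀ : ∀ p : LinearMap.ker (pencilMap E s₁ s₂), ψ₀ p = -s₁⁻¹ * (p.1.2 : F) := by
    intro p; rfl
  have hmem : ∀ p : LinearMap.ker (pencilMap E s₁ s₂), ψ₀ p ∈ riemannRochSpace (E - D) := by
    intro p
    rw [hψ₀, mem_L_iff]
    intro v
    set a : F := (p.1.1 : F) with ha
    set b : F := (p.1.2 : F) with hb
    have hker : s₁ * a + s₂ * b = 0 := by
      have := p.2
      rw [LinearMap.mem_ker, pencilMap_apply] at this
      exact this
    have haL : a ∈ riemannRochSpace E := p.1.1.2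
    have hbL : b ∈ riemannRochSpace E := p.1.2.2
    rw [mem_L_iff] at haL hbL
    rcases eq_or_ne b 0 with hb0 | hb0
    · left; rw [hb0]; simp
    right
    have hc0 : -s₁⁻¹ * b ≠ 0 := mul_ne_zero (neg_ne_zero.mpr (inv_ne_zero hs₁)) hb0
    simp only [Finsupp.coe_sub, Pi.sub_apply]
    rcases h.bpf v with h1 | ⟨hs₂, h2⟩
    · have : v.ord (-s₁⁻¹ * b) = -v.ord s₁ + v.ord b := by
        rw [v.ord_mul (neg_ne_zero.mpr (inv_ne_zero hs₁)) hb0, ord_neg, v.ord_inv]
      rw [this, h1]
      have := (hbL v).resolve_left hb0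
      omega
    · -- `-b / s₁ = a / s₂`
      have ha0 : a ≠ 0 := by
        intro ha0
        rw [ha0, mul_zero, zero_add] at hker
        exact hb0 ((mul_eq_zero.mp hker).resolve_left hs₂)
      have hc : -s₁⁻¹ * b = s₂⁻¹ * a := by
        have e1 : s₁ * a = -(s₂ * b) := by linear_combination hker
        calc -s₁⁻¹ * b = s₂⁻¹ * s₁⁻¹ * (-(s₂ * b)) := by field_simp
          _ = s₂⁻¹ * s₁⁻¹ * (s₁ * a) := by rw [e1]
          _ = s₂⁻¹ * a := by field_simp
      have : v.ord (s₂⁻¹ * a) = -v.ord s₂ + v.ord a := by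
        rw [v.ord_mul (inv_ne_zero hs₂) ha0, v.ord_inv]
      rw [hc, this, h2]
      have := (haL v).resolve_left ha0
      omega
  let ψ : LinearMap.ker (pencilMap E s₁ s₂) →ₗ[K] riemannRochSpace (E - D) :=
    LinearMap.codRestrict _ ψ₀ hmem
  have hker : ∀ p : LinearMap.ker (pencilMap E s₁ s₂),
      s₁ * (p.1.1 : F) + s₂ * (p.1.2 : F) = 0 := by
    intro p
    have := p.2
    rw [LinearMap.mem_ker, pencilMap_apply] at this
    exact this
  have hinj0 : Function.Injective ψ₀ := by
    intro p q hpq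
    rw [hψ₀, hψ₀] at hpq
    have hb : (p.1.2 : F) = (q.1.2 : F) :=
      mul_left_cancel₀ (neg_ne_zero.mpr (inv_ne_zero hs₁)) hpq
    have hkp := hker p
    have hkq := hker q
    have ha : (p.1.1 : F) = (q.1.1 : F) := by
      have : s₁ * (p.1.1 : F) = s₁ * (q.1.1 : F) := by
        rw [hb] at hkp
        linear_combination hkp - hkq
      exact mul_left_cancel₀ hs₁ this
    exact Subtype.ext (Prod.ext (Subtype.ext ha) (Subtype.ext hb))
  have hinj : Function.Injective ψ := by
    intro p q hpq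
    apply hinj0
    have := congrArg (fun x : riemannRochSpace (E - D) => (x : F)) hpq
    simpa [ψ] using this
  exact LinearMap.finrank_le_finrank_of_injective hinj


/-- **Base-point-free pencil trick.** -/
theorem range_pencilMap_eq [FF1 K F] {D E : Divisor K F} {s₁ s₂ : F} (h : IsBpfPencil D s₁ s₂)
    (hdeg : Divisor.degree D + 2 * (genusFF K F : ℤ) - 1 ≤ Divisor.degree E) :
    LinearMap.range (pencilMap E s₁ s₂) = riemannRochSpace (E + D) := by
  have hD0 := h.degree_nonneg
  have hE : (ell E : ℤ) = Divisor.degree E + 1 - (genusFF K F : ℤ) :=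
    ell_eq_of_degree_gt (by omega)
  have hED : (ell (E - D) : ℤ) = Divisor.degree E - Divisor.degree D + 1 - (genusFF K F : ℤ) := by
    have := ell_eq_of_degree_gt (D := E - D) (by rw [map_sub]; omega)
    rwa [map_sub] at this
  have hEpD : (ell (E + D) : ℤ)
      = Divisor.degree E + Divisor.degree D + 1 - (genusFF K F : ℤ) := by
    have := ell_eq_of_degree_gt (D := E + D) (by rw [map_add]; omega)
    rwa [map_add] at this
  have hrn := LinearMap.finrank_range_add_finrank_ker (pencilMap E s₁ s₂)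
  have hprod : Module.finrank K (riemannRochSpace E × riemannRochSpace E) = ell E + ell E :=
    Module.finrank_prod
  have hk := finrank_ker_pencilMap_le (E := E) h
  apply Submodule.eq_of_le_of_finrank_le (range_pencilMap_le h)
  have : Module.finrank K (riemannRochSpace (E + D)) = ell (E + D) := rfl
  omega

/-- every `h ∈ L(E + D)` is `s₁ a + s₂ b` with `a, b ∈ L(E)` -/
theorem pencil_trick [FF1 K F] {D E : Divisor K F} {s₁ s₂ : F} (h : IsBpfPencil D s₁ s₂)
    (hdeg : Divisor.degree D + 2 * (genusFF K F : ℤ) - 1 ≤ Divisor.degree E) {f : F}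
    (hf : f ∈ riemannRochSpace (E + D)) :
    ∃ a ∈ riemannRochSpace E, ∃ b ∈ riemannRochSpace E, f = s₁ * a + s₂ * b := by
  rw [← range_pencilMap_eq h hdeg] at hf
  obtain ⟨p, rfl⟩ := hf
  exact ⟨p.1, p.1.2, p.2, p.2.2, pencilMap_apply E s₁ s₂ p⟩

/-- `L(D)` contains a base-point-free pencil as soon as `deg D ≥ 2g` (`K` infinite). -/
theorem exists_bpfPencil [FF1 K F] [Infinite K] {D : Divisor K F}
    (hD : 2 * (genusFF K F : ℤ) ≤ Divisor.degree D) : ∃ s₁ s₂ : F, IsBpfPencil D s₁ s₂ := by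
  classical
  have hell : (ell D : ℤ) = Divisor.degree D + 1 - (genusFF K F : ℤ) :=
    ell_eq_of_degree_gt (by omega)
  have hpos : 0 < Module.finrank K (riemannRochSpace D) := by
    have : Module.finrank K (riemannRochSpace D) = ell D := rfl
    omega
  obtain ⟨s₁', hs₁'⟩ : ∃ x : riemannRochSpace D, x ≠ 0 :=
    Module.finrank_pos_iff_exists_ne_zero.mp hpos
  have hs₁ : (s₁' : F) ≠ 0 := fun h => hs₁' (Subtype.ext h)
  let S : Finset (Place K F) := (divOf (K := K) (s₁' : F) hs₁ + D).support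
  have hS : ∀ v ∉ S, v.ord (s₁' : F) = - D v := by
    intro v hv
    rw [Finsupp.notMem_support_iff] at hv
    simp only [Finsupp.coe_add, Pi.add_apply, divOf_apply] at hv
    omega
  let p : Place K F → Subspace K (riemannRochSpace D) := fun v =>
    (riemannRochSpace (D - prim v)).comap (riemannRochSpace D).subtype
  have hp : ∀ v, p v ≠ ⊤ := by
    intro v htop
    have hle : riemannRochSpace D ≤ riemannRochSpace (D - prim v) := by
      intro f hf
      have : (⟨f, hf⟩ : riemannRochSpace D) ∈ p v := by rw [htop]; trivial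
      exact this
    have h1 : ell D ≤ ell (D - prim v) := Submodule.finrank_mono hle
    have h2 : (ell (D - prim v) : ℤ) = Divisor.degree D - 1 + 1 - (genusFF K F : ℤ) := by
      have := ell_eq_of_degree_gt (D := D - prim v)
        (by rw [map_sub, degree_prim v (deg_eq_one v)]; omega)
      rw [map_sub, degree_prim v (deg_eq_one v)] at this
      exact this
    omega
  have hnot : (⊤ : Subspace K (riemannRochSpace D)) ∉ S.image p := by
    intro hmem
    obtain ⟨v, -, hv⟩ := Finset.mem_image.mp hmem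
    exact hp v hv
  have hne := Subspace.biUnion_ne_univ_of_top_notMem hnot
  obtain ⟨s₂', hs₂'⟩ : ∃ x : riemannRochSpace D,
      x ∉ ⋃ q ∈ S.image p, (q : Set (riemannRochSpace D)) := by
    by_contra hcon
    simp only [not_exists, not_not] at hcon
    exact hne (Set.eq_univ_of_forall hcon)
  refine ⟨s₁', s₂', ⟨s₁'.2, s₂'.2, hs₁, fun v => ?_⟩⟩
  by_cases hv : v ∈ S
  · right
    have hnm : s₂' ∉ p v := fun hm =>
      hs₂' (Set.mem_biUnion (Finset.mem_image_of_mem p hv) hm)
    have hmem := s₂'.2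
    rw [mem_L_iff] at hmem
    have hnm' : ¬ ((s₂' : F) ∈ riemannRochSpace (D - prim v)) := hnm
    rw [mem_L_iff] at hnm'
    simp only [not_forall, not_or, not_le] at hnm'
    obtain ⟨w, hw0, hw⟩ := hnm'
    have hwv : w = v := by
      by_contra hne'
      have h3 := (hmem w).resolve_left hw0
      simp only [Finsupp.coe_sub, Pi.sub_apply, prim_apply_of_ne hne'] at hw
      omega
    subst hwv
    refine ⟨hw0, ?_⟩
    have h3 := (hmem w).resolve_left hw0
    simp only [Finsupp.coe_sub, Pi.sub_apply, prim_apply_self] at hw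
    omega
  · left
    exact hS v hv

/-- `L(E) * L(D) = L(E + D)` if `deg D ≥ 2g` and `deg E ≥ deg D + 2g - 1`. -/
theorem L_mul_L_of_le [FF1 K F] [Infinite K] {D E : Divisor K F}
    (hD : 2 * (genusFF K F : ℤ) ≤ Divisor.degree D)
    (hE : Divisor.degree D + 2 * (genusFF K F : ℤ) - 1 ≤ Divisor.degree E) :
    riemannRochSpace E * riemannRochSpace D = riemannRochSpace (E + D) := by
  apply le_antisymm (mul_le_L E D)
  obtain ⟨s₁, s₂, h⟩ := exists_bpfPencil hD
  intro f hf
  obtain ⟨a, ha, b, hb, rfl⟩ := pencil_trick h hE hf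
  refine Submodule.add_mem _ ?_ ?_
  · exact (mul_comm a s₁) ▸ Submodule.mul_mem_mul ha h.mem₁
  · exact (mul_comm b s₂) ▸ Submodule.mul_mem_mul hb h.mem₂

theorem L_mul_L_aux [FF1 K F] [Infinite K] {A B : Divisor K F}
    (hA : 4 * (genusFF K F : ℤ) ≤ Divisor.degree A)
    (hB : 4 * (genusFF K F : ℤ) ≤ Divisor.degree B)
    (hAB : Divisor.degree B ≤ Divisor.degree A) :
    riemannRochSpace A * riemannRochSpace B = riemannRochSpace (A + B) := by
  obtain ⟨v₀⟩ := FF1.nonempty_place (K := K) (F := F)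
  have hg : (0 : ℤ) ≤ (genusFF K F : ℤ) := Int.natCast_nonneg _
  obtain ⟨n, hn1, hn2⟩ : ∃ n : ℤ, 2 * n ≤ Divisor.degree B ∧ Divisor.degree B ≤ 2 * n + 1 :=
    ⟨Divisor.degree B / 2, by omega, by omega⟩
  set B₂ : Divisor K F := n • prim v₀ with hB₂def
  set B₁ : Divisor K F := B - B₂ with hB₁def
  have hB₂ : Divisor.degree B₂ = n := by
    rw [hB₂def, map_zsmul, degree_prim v₀ (deg_eq_one v₀)]; simp
  have hB₁ : Divisor.degree B₁ = Divisor.degree B - n := by
    rw [hB₁def, map_sub, hB₂]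
  have e3 : B₂ + B₁ = B := by rw [hB₁def]; abel
  have e1 : riemannRochSpace (A + B₂) * riemannRochSpace B₁
      = riemannRochSpace (A + B₂ + B₁) :=
    L_mul_L_of_le (D := B₁) (E := A + B₂) (by omega) (by rw [map_add]; omega)
  have e2 : riemannRochSpace A * riemannRochSpace B₂ = riemannRochSpace (A + B₂) :=
    L_mul_L_of_le (D := B₂) (E := A) (by omega) (by omega)
  apply le_antisymm (mul_le_L A B)
  have e4 : A + B₂ + B₁ = A + B := by rw [add_assoc, e3]
  rw [← e4, ← e1, ← e2, mul_assoc]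
  have h5 : riemannRochSpace B₂ * riemannRochSpace B₁ ≤ riemannRochSpace B := by
    have := mul_le_L B₂ B₁
    rwa [e3] at this
  exact mul_le_mul' le_rfl h5

/-- **Multiplication of Riemann–Roch spaces**: `L(A) * L(B) = L(A + B)` as soon as both degrees
are at least `4g`. -/
theorem L_mul_L [FF1 K F] [Infinite K] {A B : Divisor K F}
    (hA : 4 * (genusFF K F : ℤ) ≤ Divisor.degree A)
    (hB : 4 * (genusFF K F : ℤ) ≤ Divisor.degree B) :
    riemannRochSpace A * riemannRochSpace B = riemannRochSpace (A + B) := by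
  rcases le_total (Divisor.degree B) (Divisor.degree A) with h | h
  · exact L_mul_L_aux hA hB h
  · rw [mul_comm, add_comm]
    exact L_mul_L_aux hB hA h

/-- element form: every `f ∈ L(A + B)` is a finite sum `∑ aᵢ bᵢ`, `aᵢ ∈ L(A)`, `bᵢ ∈ L(B)` -/
theorem exists_sum_mul_eq [FF1 K F] [Infinite K] {A B : Divisor K F}
    (hA : 4 * (genusFF K F : ℤ) ≤ Divisor.degree A)
    (hB : 4 * (genusFF K F : ℤ) ≤ Divisor.degree B) {f : F}
    (hf : f ∈ riemannRochSpace (A + B)) :
    ∃ (n : ℕ) (a b : Fin n → F), (∀ i, a i ∈ riemannRochSpace A) ∧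
      (∀ i, b i ∈ riemannRochSpace B) ∧ f = ∑ i, a i * b i := by
  rw [← L_mul_L hA hB] at hf
  refine Submodule.mul_induction_on hf ?_ ?_
  · intro a ha b hb
    exact ⟨1, fun _ => a, fun _ => b, fun _ => ha, fun _ => hb, by simp⟩
  · intro x y hx hy
    obtain ⟨n, a, b, ha, hb, rfl⟩ := hx
    obtain ⟨m, a', b', ha', hb', rfl⟩ := hy
    refine ⟨n + m, Fin.append a a', Fin.append b b', ?_, ?_, ?_⟩
    · intro i
      refine Fin.addCases (fun j => ?_) (fun j => ?_) i
      · simpa using ha j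
      · simpa using ha' j
    · intro i
      refine Fin.addCases (fun j => ?_) (fun j => ?_) i
      · simpa using hb j
      · simpa using hb' j
    · rw [Fin.sum_univ_add]
      simp

end Fermat.Agent.Lib.RR.H259

end
end
-- ===== PACK-END Lib/RR/H259/Mult.lean

-- ===== PACK-BEGIN S17/H380/E3OfL1.lean
section







set_option linter.unusedSectionVars false
set_option linter.style.haveILetI false
set_option autoImplicit false

noncomputable section

open AlgebraicCurve

namespace Fermat.Agent.S17.H380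

open Fermat.Agent.Lib.RR Fermat.Agent.S17.HWall Fermat.Agent.S17.HContract
open Fermat.Agent.S17.H830

section Geometry

variable {K F : Type*} [Field K] [Field F] [Algebra K F] [FF1 K F]

/-- The representative `pt A` of a point of the embedded curve is nonzero (base point freeness
of `|m∞|`). -/
theorem pt_ne_zero (E : EmbData K F) (A : Place K F) : E.pt A ≠ 0 := by
  have hdeg : Divisor.degree (E.m • prim E.vinf : Divisor K F) = E.m := by
    rw [map_nsmul]
    unfold prim
    rw [Divisor.degree_single, FF1.deg_eq_one]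
    simp
  have hE : 2 * (genusFF K F : ℤ) ≤ Divisor.degree (E.m • prim E.vinf : Divisor K F) := by
    rw [hdeg, genusFF_eq_genusR]
    have := E.hm
    omega
  obtain ⟨f, hf, hf0, hord⟩ := H439.exists_mem_L_ord_eq hE A
  rw [← E.x_span] at hf
  obtain ⟨b, hb⟩ := (Submodule.mem_span_range_iff_exists_fun K).mp hf
  have hlin : lin E.x b = f := hb
  have hb0 : b ≠ 0 := by
    rintro rfl
    apply hf0
    rw [← hlin]
    simp [lin]
  have hZ : E.Z b A = 0 := by
    rw [E.Z_apply hb0, hlin, hord]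
    ring
  intro hpt
  have h1 := (E.pt_spec A b hb0).mp (by rw [hpt]; simp [dot])
  have h2 : E.Z b A = hypDiv E.vinf E.m E.x b A := rfl
  rw [← h2, hZ] at h1
  exact lt_irrefl _ h1

omit [Algebra K F] in
/-- If a linear form vanishes at `y ≠ 0` but not at `z`, then `y ∧ z ≠ 0`. -/
theorem wedge_ne_zero_of_dot {n : ℕ} {y z a : Fin n → K} (hy : y ≠ 0) (hay : dot a y = 0)
    (haz : dot a z ≠ 0) : wedge y z ≠ 0 := by
  intro hw
  obtain ⟨j₀, hj₀⟩ := Function.ne_iff.mp hy
  have hz : ∀ i, z i = (z j₀ / y j₀) * y i := by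
    intro i
    have h := congrFun hw (j₀, i)
    simp only [wedge, Pi.zero_apply] at h
    have hj : y j₀ ≠ 0 := hj₀
    rw [div_mul_eq_mul_div, eq_div_iff hj]
    linear_combination h
  apply haz
  have : dot a z = (z j₀ / y j₀) * dot a y := by
    simp only [dot, dotProduct, Finset.mul_sum]
    refine Finset.sum_congr rfl fun i _ => ?_
    rw [hz i]
    ring
  rw [this, hay, mul_zero]

end Geometry


section Tools

variable {A : Type*} [Field A] [CharZero A]

/-- Absolute heights are invariant under reindexing along a surjection (repetition of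
entries). -/
theorem absLogHeight_comp_surjective {ι ι' : Type*} [Finite ι] [Finite ι'] (f : ι → ι')
    (hf : Function.Surjective f) (y : ι' → A) (hy : ∀ j, IsIntegral ℚ (y j)) :
    absLogHeight (y ∘ f) = absLogHeight y := by
  refine le_antisymm (absLogHeight_comp_le f y hy) ?_
  obtain ⟨g, hg⟩ := hf.hasRightInverse
  have h := absLogHeight_comp_le g (y ∘ f) (fun i => hy (f i))
  have heq : (y ∘ f) ∘ g = y := by
    funext j
    simp [Function.comp, hg j]
  rw [heq] at h
  exact h

/-- The absolute height of a `1`-tuple vanishes. -/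
theorem absLogHeight_const {ι : Type*} [Finite ι] (z : A) (hz : IsIntegral ℚ z) :
    absLogHeight (fun _ : ι => z) = 0 := by
  rcases isEmpty_or_nonempty ι with h | h
  · exact absLogHeight_empty _
  have h1 : absLogHeight (fun _ : Unit => z) = 0 := by
    haveI := tupleField_numberField (fun _ : Unit => z) (fun _ => hz)
    rw [absLogHeight_def _ (fun _ => hz)]
    rw [Height.logHeight_eq_zero_of_subsingleton, mul_zero]
  have h2 := absLogHeight_comp_surjective (fun _ : ι => ()) (fun u => ⟨Classical.arbitrary ι, rfl⟩)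
    (fun _ : Unit => z) (fun _ => hz)
  rw [← h1, ← h2]
  rfl

omit [CharZero A] in
theorem supn_pos (v : AbsoluteValue A ℝ) {ι : Type*} [Finite ι] {y : ι → A} (hy : y ≠ 0) :
    0 < supn v y := by
  obtain ⟨i₀, hi₀⟩ := Function.ne_iff.mp hy
  exact lt_of_lt_of_le (v.pos hi₀) (Finite.le_ciSup_of_le i₀ le_rfl)

omit [CharZero A] in
theorem supn_comp_surjective (v : AbsoluteValue A ℝ) {ι ι' : Type*} (f : ι → ι')
    (hf : Function.Surjective f) (y : ι' → A) : supn v (y ∘ f) = supn v y := by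
  unfold supn
  exact hf.iSup_comp (fun j => v (y j))

omit [CharZero A] in
theorem supn_const (v : AbsoluteValue A ℝ) {ι : Type*} [Nonempty ι] (z : A) :
    supn v (fun _ : ι => z) = v z := by
  unfold supn
  exact ciSup_const

end Tools


section E3

variable {Ω : Type*} [Field Ω] [CharZero Ω] [IsAlgClosed Ω] [Algebra.IsAlgebraic ℚ Ω]
variable {F : Type*} [Field F] [Algebra Ω F] [FF1 Ω F]

theorem sum_identity_e3 {s : Type*} [Fintype s] (z Wd Pt : s → ℝ) (p d aa : ℝ) :
    ((∑ A, (-z A) * Wd A) + (∑ A, z A * Pt A)) + (((∑ A, z A) - 1) * p + (1 * d + (-1) * aa))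
      = (∑ A, z A * (Pt A + p - Wd A)) + (d - aa - p) := by
  simp only [mul_add, mul_sub, Finset.sum_add_distrib, Finset.sum_sub_distrib, ← Finset.sum_mul,
    neg_mul, Finset.sum_neg_distrib]
  ring

/-- **Local to global: (L1) ⟹ (E3)** for `E₁ = E₂ = E`, over `Ω = ℚ̄` with a system of
absolute values `S` (e.g. `H830.absSystemQbar`). -/
theorem e3_of_l1 (S : AbsSystem Ω) (E : EmbData Ω F) (h : L1Statement E) : E3Statement E E := by
  classical
  obtain ⟨T, N, hT, hL1⟩ := h
  refine ⟨max N 0 + ∑ t ∈ T, (absLogHeight (![t, 1] : Fin 2 → Ω) +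
    absLogHeight (![t⁻¹, 1] : Fin 2 → Ω)), fun a P ha hP => ?_⟩
  have hint : ∀ z : Ω, IsIntegral ℚ z := fun z => Algebra.IsIntegral.isIntegral z
  set Z := E.Z a with hZ
  have hZnn : 0 ≤ Z := E.Z_nonneg a
  have hptP : E.pt P ≠ 0 := by
    intro h0
    apply hP
    rw [h0]
    simp [dot]
  have hzero : ∀ A ∈ Z.support, dot a (E.pt A) = 0 := by
    intro A hA
    rw [Finsupp.mem_support_iff] at hA
    have h1 : (0 : ℤ) ≤ Z A := hZnn A
    exact (E.pt_spec A a ha).mpr (lt_of_le_of_ne h1 (Ne.symm hA))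
  have hwedge : ∀ A ∈ Z.support, wedge (E.pt A) (E.pt P) ≠ 0 := fun A hA =>
    wedge_ne_zero_of_dot (pt_ne_zero E A) (hzero A hA) hP
  -- the family of tuples, all indexed by `J`
  let J := Fin (E.r + 1) × Fin (E.r + 1)
  have hfst : Function.Surjective (Prod.fst : J → Fin (E.r + 1)) := Prod.fst_surjective
  let y : ((Z.support ⊕ Z.support) ⊕ (Unit ⊕ (Unit ⊕ Unit))) → J → Ω :=
    Sum.elim (Sum.elim (fun A => wedge (E.pt A.1) (E.pt P)) (fun A => E.pt A.1 ∘ Prod.fst))
      (Sum.elim (fun _ => E.pt P ∘ Prod.fst)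
        (Sum.elim (fun _ _ => dot a (E.pt P)) (fun _ => a ∘ Prod.fst)))
  let c : ((Z.support ⊕ Z.support) ⊕ (Unit ⊕ (Unit ⊕ Unit))) → ℝ :=
    Sum.elim (Sum.elim (fun A => -(Z A.1 : ℝ)) (fun A => (Z A.1 : ℝ)))
      (Sum.elim (fun _ => (∑ A : Z.support, (Z A.1 : ℝ)) - 1)
        (Sum.elim (fun _ => 1) (fun _ => -1)))
  have hcomp_ne : ∀ {w : Fin (E.r + 1) → Ω}, w ≠ 0 → w ∘ (Prod.fst : J → Fin (E.r + 1)) ≠ 0 := by
    intro w hw h0
    obtain ⟨i, hi⟩ := Function.ne_iff.mp hw
    exact hi (congrFun h0 (i, i))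
  have hy : ∀ k, y k ≠ 0 := by
    rintro ((A | A) | (_ | (_ | _)))
    · exact hwedge A.1 A.2
    · exact hcomp_ne (pt_ne_zero E A.1)
    · exact hcomp_ne hptP
    · intro h0
      exact hP (congrFun h0 (0, 0))
    · exact hcomp_ne ha
  -- local bound
  have hloc : ∀ v : AbsoluteValue Ω ℝ, IsGoodAbsV v →
      |∑ k, c k * Real.log (⨆ i, v (y k i))| ≤ bndV v T N := by
    intro v hv
    have hL := hL1 v hv a P ha hP
    have hexpr : ∑ k, c k * Real.log (⨆ i, v (y k i)) =
        (E.Z a).sum (fun A n => (n : ℝ) * lam v (E.pt A) (E.pt P)) +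
          Real.log (v (dot a (E.pt P)) / (supn v a * supn v (E.pt P))) := by
      have e1 : ∀ w : Fin (E.r + 1) → Ω,
          (⨆ i : J, v ((w ∘ Prod.fst) i)) = supn v w := fun w =>
        supn_comp_surjective v Prod.fst hfst w
      have e2 : (⨆ _i : J, v (dot a (E.pt P))) = v (dot a (E.pt P)) := ciSup_const
      simp only [Fintype.sum_sum_type, y, c, Sum.elim_inl, Sum.elim_inr, Finset.univ_unique,
        Finset.sum_singleton, e1, e2]
      rw [sum_identity_e3 (fun A : Z.support => (Z A.1 : ℝ))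
        (fun A => Real.log (⨆ i, v (wedge (E.pt A.1) (E.pt P) i)))
        (fun A => Real.log (supn v (E.pt A.1)))]
      congr 1
      · rw [Finsupp.sum, ← Finset.sum_coe_sort Z.support]
        refine Finset.sum_congr rfl fun A _ => ?_
        congr 1
        unfold lam
        have h1 := supn_pos v (hwedge A.1 A.2)
        have h2 := supn_pos v (pt_ne_zero E A.1)
        have h3 := supn_pos v hptP
        rw [Real.log_div h1.ne' (mul_pos h2 h3).ne', Real.log_mul h2.ne' h3.ne']
        unfold supn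
        ring
      · have h1 : v (dot a (E.pt P)) ≠ 0 := (v.pos hP).ne'
        have h2 := supn_pos v ha
        have h3 := supn_pos v hptP
        rw [Real.log_div h1 (mul_pos h2 h3).ne', Real.log_mul h2.ne' h3.ne']
        ring
    rw [hexpr]
    exact hL
  have key := abs_sum_absLogHeight_le S (ι := fun _ => J) y hy c T hT N hloc
  -- global expression
  have hglob : ∑ k, c k * absLogHeight (y k) =
      pairPt E (E.Z a) P - ht a - ht (E.pt P) := by
    have e1 : ∀ w : Fin (E.r + 1) → Ω,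
        absLogHeight (w ∘ (Prod.fst : J → Fin (E.r + 1))) = absLogHeight w := fun w =>
      absLogHeight_comp_surjective Prod.fst hfst w (fun i => hint _)
    have e2 : absLogHeight (fun _ : J => dot a (E.pt P)) = 0 :=
      absLogHeight_const _ (hint _)
    simp only [Fintype.sum_sum_type, y, c, Sum.elim_inl, Sum.elim_inr, Finset.univ_unique,
      Finset.sum_singleton, e1, e2]
    rw [sum_identity_e3 (fun A : Z.support => (Z A.1 : ℝ))
      (fun A => absLogHeight (wedge (E.pt A.1) (E.pt P)))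
      (fun A => absLogHeight (E.pt A.1))]
    unfold pairPt hD ht
    rw [Finsupp.sum, ← Finset.sum_coe_sort Z.support]
    ring
  rw [← hglob]
  exact key

end E3

end Fermat.Agent.S17.H380

end
end
-- ===== PACK-END S17/H380/E3OfL1.lean

-- ===== PACK-BEGIN S15/H215/ModBFinal.lean
section



/-!
# S15, piece MOD-B (helper215): MOD-B from the uniformisation statement alone

B0, B0', B2, B4, B5 and the glue are proved in this directory, so the bridge MOD-B is reduced to
the single statement B3 (`UniformizationStatement`).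

* `veluModularPairComplex_of_uniformization :
    UniformizationStatement → VeluModularPairComplexStatement`
* `veluModularPair_of_uniformization : UniformizationStatement → VeluModularPairStatement`
-/

set_option autoImplicit false

namespace Fermat.Agent.S15.H215

open Fermat.Agent.S15.H542

/-- **B-ℂ from B3.** -/
theorem veluModularPairComplex_of_uniformization (h3 : UniformizationStatement) :
    VeluModularPairComplexStatement :=
  veluModularPairComplex_of h3 latticeModularPair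

/-- **MOD-B from B3.** -/
theorem veluModularPair_of_uniformization (h3 : UniformizationStatement) :
    VeluModularPairStatement :=
  veluModularPair_of_pieces h3 latticeModularPair

end Fermat.Agent.S15.H215

end
-- ===== PACK-END S15/H215/ModBFinal.lean

-- ===== PACK-BEGIN S15/H215/ModBDone.lean
section



/-!
# S15, piece MOD-B (helper215): the bridge MOD-B, unconditional

* `veluModularPairComplex : VeluModularPairComplexStatement`
* `veluModularPair : VeluModularPairStatement`

Assembly of B0, B0', B2, B4, B5 + glue (helper215, this directory) with B3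
(`Fermat.Agent.S15.H902.uniformization`, helper902, using helper226's addition theorem).
-/

set_option autoImplicit false

namespace Fermat.Agent.S15.H215

open Fermat.Agent.S15.H542

/-- **B-ℂ.**  The bridge over `ℂ`. -/
theorem veluModularPairComplex : VeluModularPairComplexStatement :=
  veluModularPairComplex_of_uniformization Fermat.Agent.S15.H902.uniformization

/-- **MOD-B.**  If `Q` has exact odd prime order `p` on the elliptic curve `E` over `ℚ̄`, then
Vélu's curve is nonsingular and `(j(E), j(E/⟨Q⟩))` lies on the plane model of `X₀(p)`. -/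
theorem veluModularPair : VeluModularPairStatement :=
  veluModularPair_of_uniformization Fermat.Agent.S15.H902.uniformization

end Fermat.Agent.S15.H215

end
-- ===== PACK-END S15/H215/ModBDone.lean

-- ===== PACK-BEGIN S15/H542/VeluDisc.lean
section







/-!
# S15, node GEO, piece DISC (helper542): the discriminant of Vélu's curve

`velu_disc : Δ(E/⟨Q⟩) · (∏_{0<k<p} ψ₂(kQ))⁴ = Δ(E)^p`

for an elliptic curve `E` over `ℚ̄` (Weierstrass model), a point `Q` of odd prime order `p`,
`E/⟨Q⟩ = veluCurve E Q p` (Vélu's model) and `ψ₂(P) = 2y + a₁x + a₃`.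

Route: complex uniformisation (helper902) + lattice form of Vélu's formulas (helper215) +
`latDisc_divPair` (helper662) + a re-indexing of the product, then descent from `ℂ` to `ℚ̄`.
-/

set_option autoImplicit false

noncomputable section

open WeierstrassCurve
open scoped WeierstrassCurve.Affine PeriodPair

namespace Fermat.Agent.S15.H542

open Fermat.Agent.S15.H215 Fermat.Agent.S15.H662

/-! ## (A) the lattice identity -/

section Lattice

/-- `℘'` only depends on the lattice. -/
theorem derivWeierstrassP_congr {L L' : PeriodPair} (h : L.lattice = L'.lattice) (z : ℂ) :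
    ℘'[L] z = ℘'[L'] z := by
  unfold PeriodPair.derivWeierstrassP
  have h' : (L.lattice : Set ℂ) = (L'.lattice : Set ℂ) := by rw [h]
  exact congrArg Neg.neg (tsum_congr_set_coe (fun l : ℂ => 2 / (z - l) ^ 3) h')

/-- Re-indexing a product over the nonzero multiples of a `p`-division point. -/
theorem prod_Ioo_mul_eq (Λ : Submodule ℤ ℂ) (f : ℂ → ℂ)
    (hf : ∀ z : ℂ, ∀ l ∈ Λ, f (z + l) = f z) {p : ℕ} (hp : p.Prime) {z₀ w : ℂ}
    (hpz : (p : ℂ) * z₀ ∈ Λ) (m : ℤ) (hm : ¬ (p : ℤ) ∣ m) (hw : w - m * z₀ ∈ Λ) :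
    ∏ k ∈ Finset.Ioo 0 p, f ((k : ℂ) * w) = ∏ k ∈ Finset.Ioo 0 p, f ((k : ℂ) * z₀) := by
  have hp0 : (0 : ℤ) < p := by exact_mod_cast hp.pos
  have hpne : (p : ℤ) ≠ 0 := hp0.ne'
  have hpP : Prime (p : ℤ) := Nat.prime_iff_prime_int.mp hp
  set σ : ℕ → ℕ := fun k => (((k : ℤ) * m) % (p : ℤ)).toNat with hσ
  have hσcast : ∀ k : ℕ, ((σ k : ℕ) : ℤ) = ((k : ℤ) * m) % (p : ℤ) := fun k =>
    Int.toNat_of_nonneg (Int.emod_nonneg _ hpne)
  have hnd : ∀ k ∈ Finset.Ioo 0 p, ¬ (p : ℤ) ∣ (k : ℤ) * m := by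
    intro k hk hd
    rw [Finset.mem_Ioo] at hk
    rcases hpP.dvd_or_dvd hd with h | h
    · have h1 : p ∣ k := by exact_mod_cast h
      have := Nat.le_of_dvd hk.1 h1
      omega
    · exact hm h
  have hmaps : ∀ k ∈ Finset.Ioo 0 p, σ k ∈ Finset.Ioo 0 p := by
    intro k hk
    rw [Finset.mem_Ioo]
    have h1 : ((σ k : ℕ) : ℤ) < p := by rw [hσcast]; exact Int.emod_lt_of_pos _ hp0
    have h2 : ((σ k : ℕ) : ℤ) ≠ 0 := by
      rw [hσcast]
      intro h0
      exact hnd k hk (Int.dvd_of_emod_eq_zero h0)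
    constructor
    · have : σ k ≠ 0 := fun h => h2 (by rw [h]; rfl)
      omega
    · exact_mod_cast h1
  have hinj : Set.InjOn σ (Finset.Ioo 0 p : Set ℕ) := by
    intro k hk k' hk' hkk
    have hk1 := Finset.mem_Ioo.mp (Finset.mem_coe.mp hk)
    have hk2 := Finset.mem_Ioo.mp (Finset.mem_coe.mp hk')
    have h1 : ((k : ℤ) * m) % (p : ℤ) = ((k' : ℤ) * m) % (p : ℤ) := by
      rw [← hσcast, ← hσcast]
      exact congrArg _ hkk
    have h2 : (p : ℤ) ∣ ((k : ℤ) - k') * m := by
      have := Int.emod_emod_of_dvd ((k : ℤ) * m) (dvd_refl (p : ℤ))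
      have h3 : ((k : ℤ) * m - (k' : ℤ) * m) % (p : ℤ) = 0 := by
        rw [Int.sub_emod, h1, sub_self, Int.zero_emod]
      have := Int.dvd_of_emod_eq_zero h3
      rwa [← sub_mul] at this
    have h3 : (p : ℤ) ∣ (k : ℤ) - k' := (hpP.dvd_or_dvd h2).resolve_right hm
    obtain ⟨t, ht⟩ := h3
    have ht0 : t = 0 := by
      by_contra hne
      have h4 : (1 : ℤ) ≤ |t| := Int.one_le_abs hne
      have h5 : |(k : ℤ) - k'| = (p : ℤ) * |t| := by rw [ht, abs_mul, abs_of_pos hp0]
      have h6 : |(k : ℤ) - k'| < p := by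
        rw [abs_lt]
        constructor <;> omega
      nlinarith
    rw [ht0, mul_zero] at ht
    omega
  have hsurj : Set.SurjOn σ (Finset.Ioo 0 p : Set ℕ) (Finset.Ioo 0 p : Set ℕ) :=
    Finset.surjOn_of_injOn_of_card_le σ (fun k hk => hmaps k hk) hinj le_rfl
  refine Finset.prod_nbij σ hmaps hinj hsurj fun k hk => ?_
  -- `k w = σ k z₀ + (lattice element)`
  have hdiv : ((k : ℤ) * m) = (σ k : ℤ) + (p : ℤ) * (((k : ℤ) * m) / (p : ℤ)) := by
    rw [hσcast]
    exact (Int.emod_add_mul_ediv _ _).symm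
  set t : ℤ := ((k : ℤ) * m) / (p : ℤ) with ht
  have hmem : (t : ℂ) * ((p : ℂ) * z₀) + (k : ℂ) * (w - m * z₀) ∈ Λ := by
    refine Λ.add_mem ?_ ?_
    · have := Λ.smul_mem t hpz
      rwa [zsmul_eq_mul] at this
    · have := Λ.smul_mem (k : ℤ) hw
      rw [zsmul_eq_mul] at this
      simpa using this
  have hC : ((k : ℂ) * (m : ℂ)) = (σ k : ℂ) + (p : ℂ) * (t : ℂ) := by
    have := congrArg (Int.cast : ℤ → ℂ) hdiv
    push_cast at this
    exact this
  have heq : (k : ℂ) * w =
      (σ k : ℂ) * z₀ + ((t : ℂ) * ((p : ℂ) * z₀) + (k : ℂ) * (w - m * z₀)) := by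
    linear_combination z₀ * hC
  rw [heq, hf _ _ hmem]

variable {L L' : PeriodPair} {z₀ : ℂ} {p : ℕ}

/-- An aligned period pair: `L₀` with the lattice of `L` such that `divPair L₀ p` has the lattice
of `L' = L + ℤ z₀`. -/
theorem exists_aligned_pair (hp : p.Prime) (h0 : z₀ ∉ L.lattice)
    (hpz : (p : ℂ) * z₀ ∈ L.lattice) (hL' : IsSuperLattice L L' z₀) :
    ∃ L₀ : PeriodPair, L₀.lattice = L.lattice ∧
      (divPair L₀ p hp.ne_zero).lattice = L'.lattice := by
  obtain ⟨a, b, hab⟩ := PeriodPair.mem_lattice.mp hpz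
  have hLspan : L.lattice = Submodule.span ℤ {L.ω₁, L.ω₂} := rfl
  have swap : ∀ {u v : ℂ}, LinearIndependent ℝ ![u, v] → LinearIndependent ℝ ![v, u] := by
    intro u v h
    rw [LinearIndependent.pair_iff] at h ⊢
    intro s t hst
    have := h t s (by rw [← hst]; ring)
    exact ⟨this.2, this.1⟩
  -- common end of the two cases
  have key : ∀ (ω e : ℂ), LinearIndependent ℝ ![ω, e] →
      (∀ z : ℂ, z ∈ L.lattice ↔ z ∈ Submodule.span ℤ {ω, e}) →
      (∀ z : ℂ, z ∈ L'.lattice ↔ z ∈ Submodule.span ℤ {ω, e / p}) →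
      ∃ L₀ : PeriodPair, L₀.lattice = L.lattice ∧
        (divPair L₀ p hp.ne_zero).lattice = L'.lattice := by
    intro ω e hind h1 h2
    refine ⟨⟨e, ω, swap hind⟩, ?_, ?_⟩
    · ext z
      rw [h1 z]
      show z ∈ Submodule.span ℤ {e, ω} ↔ _
      rw [Set.pair_comm]
    · ext z
      rw [h2 z]
      show z ∈ Submodule.span ℤ {e / (p : ℂ), ω} ↔ _
      rw [Set.pair_comm]
  by_cases hb : (p : ℤ) ∣ b
  · have ha : ¬ (p : ℤ) ∣ a := by
      rintro ⟨a', rfl⟩
      obtain ⟨b', rfl⟩ := hb
      apply h0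
      rw [PeriodPair.mem_lattice]
      refine ⟨a', b', ?_⟩
      have hpC : (p : ℂ) ≠ 0 := by exact_mod_cast hp.ne_zero
      apply mul_left_cancel₀ hpC
      rw [← hab]; push_cast; ring
    have hcop : IsCoprime a (p : ℤ) :=
      ((Nat.prime_iff_prime_int.mp hp).coprime_iff_not_dvd.mpr ha).symm
    obtain ⟨e, hind, hspan1, hspan2⟩ := exists_aligned_basis_h215 L.ω₂ L.ω₁ z₀ (swap L.indep) p
      hp.ne_zero b a (by rw [← hab]; ring) hcop
    refine key L.ω₂ e hind (fun z => ?_) (fun z => ?_)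
    · rw [hLspan, Set.pair_comm L.ω₁ L.ω₂]
      exact hspan1 z
    · rw [hL' z, ← hspan2 z, hLspan, Set.pair_comm L.ω₁ L.ω₂]
  · have hcop : IsCoprime b (p : ℤ) :=
      ((Nat.prime_iff_prime_int.mp hp).coprime_iff_not_dvd.mpr hb).symm
    obtain ⟨e, hind, hspan1, hspan2⟩ := exists_aligned_basis_h215 L.ω₁ L.ω₂ z₀ L.indep p
      hp.ne_zero a b hab.symm hcop
    refine key L.ω₁ e hind (fun z => ?_) (fun z => ?_)
    · rw [hLspan]
      exact hspan1 z
    · rw [hL' z, ← hspan2 z, hLspan]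

/-- **The discriminant of `L + ℤ z₀`.** -/
theorem latDisc_superLattice (hp : p.Prime) (hp2 : p ≠ 2) (h0 : z₀ ∉ L.lattice)
    (hpz : (p : ℂ) * z₀ ∈ L.lattice) (hL' : IsSuperLattice L L' z₀) :
    (L'.g₂ ^ 3 - 27 * L'.g₃ ^ 2) * (∏ k ∈ Finset.Ioo 0 p, ℘'[L] ((k : ℂ) * z₀)) ^ 4 =
      (L.g₂ ^ 3 - 27 * L.g₃ ^ 2) ^ p := by
  obtain ⟨L₀, hL₀, hL₀'⟩ := exists_aligned_pair hp h0 hpz hL'
  have hodd : Odd p := hp.odd_of_ne_two hp2
  have hmain := latDisc_divPair L₀ p hodd hp.ne_zero
  unfold latDisc at hmain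
  rw [g₂_congr_h215 hL₀', g₃_congr_h215 hL₀', g₂_congr_h215 hL₀, g₃_congr_h215 hL₀] at hmain
  rw [← hmain]
  congr 2
  -- the two products agree
  rw [derivProd_eq_prod_Ico]
  have hIco : Finset.Ico 1 p = Finset.Ioo 0 p := by
    ext k; simp [Finset.mem_Ico, Finset.mem_Ioo]; omega
  rw [hIco]
  -- `ω₁(L₀)/p ∈ L'`, so it is `m z₀` modulo `L`
  have hmem : L₀.ω₁ / p ∈ L'.lattice := by
    rw [← hL₀']
    exact div_mem_divPair L₀ p hp.ne_zero
  obtain ⟨m, hm⟩ := (hL' _).mp hmem
  have hnm : ¬ (p : ℤ) ∣ m := by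
    intro hd
    have h1 : (m : ℂ) * z₀ ∈ L.lattice := (mul_mem_lattice_iff_h215 hp h0 hpz m).mpr hd
    have h2 : L₀.ω₁ / p ∈ L.lattice := by
      have := L.lattice.add_mem hm h1
      simpa using this
    rw [← hL₀] at h2
    have h3 := natMul_div_notMem L₀ p (k := 1) (by omega) hp.one_lt
    apply h3
    simpa using h2
  have := prod_Ioo_mul_eq L.lattice (fun z => ℘'[L] z)
    (fun z l hl => L.derivWeierstrassP_add_coe z ⟨l, hl⟩) hp hpz m hnm hm
  beta_reduce at this
  rw [← this]
  refine Finset.prod_congr rfl fun k _ => ?_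
  exact (derivWeierstrassP_congr hL₀ _).symm

end Lattice

/-! ## (B) over `ℂ` -/

section Defs

variable {K : Type*} [Field K]

/-- `ψ₂(P) = 2 y + a₁ x + a₃` (junk value `a₃` at the origin). -/
def psiOf (W : WeierstrassCurve K) (P : W.toAffine.Point) : K :=
  2 * yOf P + W.a₁ * xOf P + W.a₃

/-- `∏_{0 < k < p} ψ₂(k Q)`. -/
def psiProdOf [DecidableEq K] (W : WeierstrassCurve K) (Q : W.toAffine.Point) (p : ℕ) : K :=
  ∏ k ∈ Finset.Ioo 0 p, psiOf W (k • Q)

end Defs

section Complex

/-- **The discriminant of Vélu's curve**, over `ℂ`. -/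
theorem velu_disc_complex [DecidableEq ℂ] {p : ℕ} (hp : p.Prime) (hp2 : p ≠ 2)
    (E : WeierstrassCurve ℂ) (hΔ : E.Δ ≠ 0) (Q : E.toAffine.Point) (hQord : addOrderOf Q = p) :
    (veluCurve E Q p).Δ * psiProdOf E Q p ^ 4 = E.Δ ^ p := by
  obtain ⟨U⟩ := Fermat.Agent.S15.H902.uniformization E hΔ
  obtain ⟨z₀, rfl⟩ := U.φ_surjective Q
  have h0 : z₀ ∉ U.L.lattice := by
    intro hz
    have : U.φ z₀ = 0 := (U.φ_eq_zero_iff z₀).mpr hz
    rw [this, addOrderOf_zero] at hQord
    exact hp.one_lt.ne hQord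
  have hpz : (p : ℂ) * z₀ ∈ U.L.lattice := by
    rw [← U.φ_eq_zero_iff]
    have h1 : U.φ ((p : ℂ) * z₀) = p • U.φ z₀ := by
      rw [← nsmul_eq_mul, map_nsmul]
    rw [h1, ← hQord]
    exact addOrderOf_nsmul_eq_zero _
  obtain ⟨L', hL'⟩ := exists_superLattice_h215 U.L hp h0 hpz
  have hg2 := g₂_superLattice_h215 hp h0 hpz hL'
  have hg3 := g₃_superLattice_h215 hp h0 hpz hL'
  obtain ⟨m, hm⟩ : ∃ m, p = 2 * m + 1 := by
    rcases hp.eq_two_or_odd' with h | h
    · exact absurd h hp2
    · exact h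
  have hm2 : (p - 1) / 2 = m := by omega
  have hm1 : p - 1 = 2 * m := by omega
  have hx : ∀ k ∈ Finset.Icc 1 m,
      xOf (k • U.φ z₀) = U.L.weierstrassP ((k : ℂ) * z₀) - E.b₂ / 12 := by
    intro k hk
    have hk' : k ∈ Finset.Icc 1 (p - 1) := by
      rw [Finset.mem_Icc] at hk ⊢; omega
    have hnot := natCast_mul_notMem_h215 hp h0 hpz hk'
    have h1 : k • U.φ z₀ = U.φ ((k : ℂ) * z₀) := by
      rw [← nsmul_eq_mul, map_nsmul]
    rw [h1, U.xOf_φ _ hnot]
  have hfold2 : ∑ k ∈ Finset.Icc 1 (p - 1),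
      (6 * U.L.weierstrassP (k * z₀) ^ 2 - U.L.g₂ / 2) =
      2 * ∑ k ∈ Finset.Icc 1 m, (6 * U.L.weierstrassP (k * z₀) ^ 2 - U.L.g₂ / 2) := by
    rw [hm1]
    refine sum_Icc_fold_h215 m
      (fun k => 6 * U.L.weierstrassP ((k : ℂ) * z₀) ^ 2 - U.L.g₂ / 2) fun k hk => ?_
    have hkp : k ≤ p := by rw [Finset.mem_Icc] at hk; omega
    have := weierstrassP_reflect_h215 U.L hpz hkp
    rw [hm] at this
    simp only [this]
  have hfold3 : ∑ k ∈ Finset.Icc 1 (p - 1),
      (120 * U.L.weierstrassP (k * z₀) ^ 3 - 18 * U.L.g₂ * U.L.weierstrassP (k * z₀) -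
        12 * U.L.g₃) =
      2 * ∑ k ∈ Finset.Icc 1 m,
        (120 * U.L.weierstrassP (k * z₀) ^ 3 - 18 * U.L.g₂ * U.L.weierstrassP (k * z₀) -
          12 * U.L.g₃) := by
    rw [hm1]
    refine sum_Icc_fold_h215 m
      (fun k => 120 * U.L.weierstrassP ((k : ℂ) * z₀) ^ 3 -
        18 * U.L.g₂ * U.L.weierstrassP ((k : ℂ) * z₀) - 12 * U.L.g₃) fun k hk => ?_
    have hkp : k ≤ p := by rw [Finset.mem_Icc] at hk; omega
    have := weierstrassP_reflect_h215 U.L hpz hkp
    rw [hm] at this
    simp only [this]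
  have hT : veluT E (U.φ z₀) p =
      ∑ k ∈ Finset.Icc 1 m, (6 * U.L.weierstrassP (k * z₀) ^ 2 - U.L.g₂ / 2) := by
    unfold veluT
    rw [hm2]
    refine Finset.sum_congr rfl fun k hk => ?_
    rw [hx k hk, U.g₂_eq]
    simp only [veluT1, WeierstrassCurve.c₄]
    ring
  have hW : E.b₂ * veluT E (U.φ z₀) p + 12 * veluW E (U.φ z₀) p =
      ∑ k ∈ Finset.Icc 1 m,
        (120 * U.L.weierstrassP (k * z₀) ^ 3 - 18 * U.L.g₂ * U.L.weierstrassP (k * z₀) -
          12 * U.L.g₃) := by
    unfold veluT veluW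
    rw [hm2, Finset.mul_sum, Finset.mul_sum, ← Finset.sum_add_distrib]
    refine Finset.sum_congr rfl fun k hk => ?_
    rw [hx k hk, U.g₂_eq, U.g₃_eq]
    simp only [veluT1, veluU1, WeierstrassCurve.c₄, WeierstrassCurve.c₆]
    ring
  have hc4 : (veluCurve E (U.φ z₀) p).c₄ = 12 * L'.g₂ := by
    rw [hg2, hfold2, ← hT, U.g₂_eq]
    simp only [veluCurve, WeierstrassCurve.c₄, WeierstrassCurve.b₂, WeierstrassCurve.b₄]
    ring
  have hc6 : (veluCurve E (U.φ z₀) p).c₆ = 216 * L'.g₃ := by
    rw [hg3, hfold3, ← hW, U.g₃_eq]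
    simp only [veluCurve, WeierstrassCurve.c₆, WeierstrassCurve.b₂, WeierstrassCurve.b₄,
      WeierstrassCurve.b₆]
    ring
  have hΔ' : (veluCurve E (U.φ z₀) p).Δ = L'.g₂ ^ 3 - 27 * L'.g₃ ^ 2 := by
    have := (veluCurve E (U.φ z₀) p).c_relation
    rw [hc4, hc6] at this
    linear_combination (1 / 1728 : ℂ) * this
  have hΔE : E.Δ = U.L.g₂ ^ 3 - 27 * U.L.g₃ ^ 2 := by
    have := E.c_relation
    rw [U.g₂_eq, U.g₃_eq]
    linear_combination (1 / 1728 : ℂ) * this
  -- the product of the `ψ₂`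
  have hψ : psiProdOf E (U.φ z₀) p = ∏ k ∈ Finset.Ioo 0 p, ℘'[U.L] ((k : ℂ) * z₀) := by
    unfold psiProdOf
    refine Finset.prod_congr rfl fun k hk => ?_
    have hk' : k ∈ Finset.Icc 1 (p - 1) := by
      rw [Finset.mem_Ioo] at hk; rw [Finset.mem_Icc]; omega
    have hnot := natCast_mul_notMem_h215 hp h0 hpz hk'
    have h1 : k • U.φ z₀ = U.φ ((k : ℂ) * z₀) := by
      rw [← nsmul_eq_mul, map_nsmul]
    rw [h1, psiOf, U.yOf_φ _ hnot]
  rw [hΔ', hΔE, hψ]
  exact latDisc_superLattice hp hp2 h0 hpz hL'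

end Complex

/-! ## (C) descent to `ℚ̄` -/

section Descent

variable {K L : Type} [Field K] [Field L] [DecidableEq K] [DecidableEq L] [Algebra K L]

theorem psiOf_map (W : WeierstrassCurve K) (P : W.toAffine.Point) :
    psiOf (W⁄L) (WeierstrassCurve.Affine.Point.map (W' := W) (Algebra.ofId K L) P) =
      algebraMap K L (psiOf W P) := by
  unfold psiOf
  rw [xOf_map_h215, yOf_map_h215]
  simp [WeierstrassCurve.baseChange, map_ofNat]

theorem psiProdOf_map (W : WeierstrassCurve K) (Q : W.toAffine.Point) (p : ℕ) :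
    psiProdOf (W⁄L) (WeierstrassCurve.Affine.Point.map (W' := W) (Algebra.ofId K L) Q) p =
      algebraMap K L (psiProdOf W Q p) := by
  unfold psiProdOf
  rw [map_prod]
  refine Finset.prod_congr rfl fun k _ => ?_
  rw [nsmul_map_h215, psiOf_map]

/-- **The discriminant of Vélu's curve**, over `ℚ̄`. -/
theorem velu_disc [DecidableEq (AlgebraicClosure ℚ)] {p : ℕ} (hp : p.Prime) (hp2 : p ≠ 2)
    (E : WeierstrassCurve (AlgebraicClosure ℚ)) (hΔ : E.Δ ≠ 0) (Q : E.toAffine.Point)
    (hQord : addOrderOf Q = p) :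
    (veluCurve E Q p).Δ * psiProdOf E Q p ^ 4 = E.Δ ^ p := by
  classical
  haveI : Algebra.IsAlgebraic ℚ (AlgebraicClosure ℚ) := AlgebraicClosure.isAlgebraic ℚ
  let ι : AlgebraicClosure ℚ →ₐ[ℚ] ℂ := IsAlgClosed.lift
  letI : Algebra (AlgebraicClosure ℚ) ℂ := ι.toRingHom.toAlgebra
  have hmap := veluMap (K := AlgebraicClosure ℚ) (L := ℂ) E Q p
  have hord : addOrderOf
      (WeierstrassCurve.Affine.Point.map (W' := E) (Algebra.ofId (AlgebraicClosure ℚ) ℂ) Q) = p := by
    rw [← hQord]
    exact addOrderOf_injective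
      (WeierstrassCurve.Affine.Point.map (W' := E) (Algebra.ofId (AlgebraicClosure ℚ) ℂ))
      (WeierstrassCurve.Affine.Point.map_injective _) Q
  have hinj : Function.Injective (algebraMap (AlgebraicClosure ℚ) ℂ) :=
    (algebraMap (AlgebraicClosure ℚ) ℂ).injective
  have hΔ' : (E⁄ℂ).Δ ≠ 0 := by
    show (E.map (algebraMap (AlgebraicClosure ℚ) ℂ)).Δ ≠ 0
    rw [WeierstrassCurve.map_Δ]
    exact (map_ne_zero_iff _ hinj).mpr hΔ
  have h := velu_disc_complex hp hp2 (E⁄ℂ) hΔ' _ hord
  rw [hmap, psiProdOf_map, WeierstrassCurve.map_Δ] at h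
  have hE : (E⁄ℂ).Δ = algebraMap (AlgebraicClosure ℚ) ℂ E.Δ := by
    show (E.map (algebraMap (AlgebraicClosure ℚ) ℂ)).Δ = _
    rw [WeierstrassCurve.map_Δ]
  rw [hE, ← map_pow, ← map_pow, ← map_mul] at h
  exact hinj h

end Descent

end Fermat.Agent.S15.H542

end
end
-- ===== PACK-END S15/H542/VeluDisc.lean

-- ===== PACK-BEGIN S19/H255/NSP.lean
section



/-!
# Cell A3 / S19, piece D5 = NSP (helper255): the special fibre — corollaries of Riemann–Roch

All statements are for a function field `F/K` with `[FF1 K F]` (shared library `Lib/RR`), genus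
`g = genusFF K F`; `K` infinite where generic choices are made (e.g. `K` algebraically closed).
In cell A3 they are applied to the special fibre `Fk / kbar` (and to `F / Qbar`).

* `isRiemannGenus_genusFF`      : `genusFF` is the genus of Riemann's theorem.
* `exists_reduced_nonspecial`   : **D5(a)** for every finite set `S` of places there are `g` DISTINCT
                                  places `Q₁, …, Q_g ∉ S` with `ℓ(Q₁ + ⋯ + Q_g) = 1`.
* `exists_ne_zero_mem_L`        : **D5(b)** `deg D ≥ g ⇒ L(D) ≠ 0` (every class of degree `≥ g` is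
                                  effective); `exists_effective`: the effective divisor.
* `eq_smul_of_ell_eq_one`, `ord_eq_of_ell_eq_one` : if `ℓ(D) = 1` the effective divisor of the
                                  class of `D` is unique.
* `ell_sub_eq_degree`           : `E ≥ 0`, `deg (B - E) > 2g - 2 ⇒ ℓ(B) - ℓ(B - E) = deg E`
                                  (jets at `E` are independent conditions on `L(B)`).
* `exists_bpfPencil_avoiding`   : **D5(c)** `deg D ≥ 2g ⇒` there are `s₁, s₂ ∈ L(D)` whose residual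
                                  divisors `div sᵢ + D` are disjoint and avoid a given finite set.
* `exists_of_cross_eq`          : **D5(d)** for such a pencil, `b₁ s₂ = b₂ s₁` with `bᵢ ∈ L(E)`
                                  forces `(b₁, b₂) = h • (s₁, s₂)` with `h ∈ L(E - D)`.
* `cross_ker_line`              : hence, if `ℓ(E - D) = 1` (non-special), the solutions of the
                                  cross system form a line spanned by `(h₀ s₁, h₀ s₂)`.

All proofs complete.
-/

set_option autoImplicit false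
set_option linter.style.haveILetI false

noncomputable section

open AlgebraicCurve

namespace Fermat.Agent.S19.H255

open Fermat.Agent.Lib.RR

variable {K F : Type*} [Field K] [Field F] [Algebra K F]

/-- `genusFF` is the genus of Riemann's theorem. -/
theorem isRiemannGenus_genusFF [FF1 K F] : H638.IsRiemannGenus K F (genusFF K F) := by
  rw [genusFF_eq_genusR]
  exact exists_degree_bound (K := K) (F := F)

/-- **D5(a)**: reduced non-special effective divisors of degree `g` avoiding a finite set. -/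
theorem exists_reduced_nonspecial [FF1 K F] [Infinite K] (S : Finset (Place K F)) :
    ∃ T : Finset (Place K F), T.card = genusFF K F ∧ Disjoint T S ∧ ell (H638.divT T) = 1 := by
  haveI : Infinite (Place K F) := H638.infinite_place
  exact H638.exists_nonspecial isRiemannGenus_genusFF S (genusFF K F) le_rfl

/-- **D5(b)**: `L(D) ≠ 0` as soon as `deg D ≥ g`. -/
theorem exists_ne_zero_mem_L [FF1 K F] {D : Divisor K F}
    (hD : (genusFF K F : ℤ) ≤ Divisor.degree D) :
    ∃ f : F, f ≠ 0 ∧ f ∈ riemannRochSpace D := by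
  have h1 := riemann_inequality_genusFF (K := K) (F := F) D
  have hpos : 0 < Module.finrank K (riemannRochSpace D) := by
    have h2 : Module.finrank K (riemannRochSpace D) = ell D := rfl
    have : (0 : ℤ) < (ell D : ℤ) := by omega
    rw [h2]
    exact_mod_cast this
  obtain ⟨x, hx⟩ := Module.finrank_pos_iff_exists_ne_zero.mp hpos
  exact ⟨x, fun h => hx (Subtype.ext h), x.2⟩

/-- **D5(b)**, divisor form: every divisor of degree `≥ g` is linearly equivalent to an
effective one. -/
theorem exists_effective [FF1 K F] {D : Divisor K F}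
    (hD : (genusFF K F : ℤ) ≤ Divisor.degree D) :
    ∃ (f : F) (hf : f ≠ 0), 0 ≤ D + divOf (K := K) f hf := by
  obtain ⟨f, hf, hfD⟩ := exists_ne_zero_mem_L hD
  refine ⟨f, hf, ?_⟩
  rw [Finsupp.le_def]
  intro v
  have := (mem_L_iff.mp hfD v).resolve_left hf
  simp only [Finsupp.coe_zero, Pi.zero_apply, Finsupp.coe_add, Pi.add_apply, divOf_apply]
  omega

/-- If `ℓ(D) = 1`, any two nonzero elements of `L(D)` are proportional. -/
theorem eq_smul_of_ell_eq_one [FF1 K F] {D : Divisor K F} (hD : ell D = 1) {f g : F}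
    (hf : f ≠ 0) (hfD : f ∈ riemannRochSpace D) (hgD : g ∈ riemannRochSpace D) :
    ∃ c : K, g = algebraMap K F c * f := by
  have h1 : Module.finrank K (riemannRochSpace D) = 1 := hD
  have hf' : (⟨f, hfD⟩ : riemannRochSpace D) ≠ 0 := fun h => hf (congrArg Subtype.val h)
  obtain ⟨c, hc⟩ := (finrank_eq_one_iff_of_nonzero' (⟨f, hfD⟩ : riemannRochSpace D) hf').mp h1
    ⟨g, hgD⟩
  refine ⟨c, ?_⟩
  have := congrArg Subtype.val hc
  simp only [Submodule.coe_smul] at this
  rw [← this, Algebra.smul_def]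

/-- If `ℓ(D) = 1`, the effective divisor in the class of `D` is unique: any two nonzero elements
of `L(D)` have the same divisor. -/
theorem ord_eq_of_ell_eq_one [FF1 K F] {D : Divisor K F} (hD : ell D = 1) {f g : F}
    (hf : f ≠ 0) (hg : g ≠ 0) (hfD : f ∈ riemannRochSpace D) (hgD : g ∈ riemannRochSpace D)
    (v : Place K F) : v.ord g = v.ord f := by
  obtain ⟨c, rfl⟩ := eq_smul_of_ell_eq_one hD hf hfD hgD
  have hc : algebraMap K F c ≠ 0 := fun h => hg (by rw [h, zero_mul])
  rw [v.ord_mul hc hf, ord_algebraMap, zero_add]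

/-- Independence of conditions: for `E ≥ 0` and `deg (B - E) > 2g - 2`,
`ℓ(B) - ℓ(B - E) = deg E`. -/
theorem ell_sub_eq_degree [FF1 K F] {B E : Divisor K F} (hE : 0 ≤ E)
    (h : 2 * (genusFF K F : ℤ) - 2 < Divisor.degree (B - E)) :
    (ell B : ℤ) - ell (B - E) = Divisor.degree E := by
  have h1 := ell_eq_of_degree_gt h
  have hE' : 0 ≤ Divisor.degree E := degree_nonneg hE
  have h2 : 2 * (genusFF K F : ℤ) - 2 < Divisor.degree B := by
    rw [map_sub] at h
    omega
  have h3 := ell_eq_of_degree_gt h2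
  rw [map_sub] at h1
  omega

/-- **D5(c)**: for `deg D ≥ 2g` there is a base-point-free pencil `s₁, s₂ ∈ L(D)` (residual
divisors `div sᵢ + D` disjoint), both of whose members avoid a given finite set `S` of places
(their residual divisors do not meet `S`). -/
theorem exists_bpfPencil_avoiding [FF1 K F] [Infinite K] {D : Divisor K F}
    (hD : 2 * (genusFF K F : ℤ) ≤ Divisor.degree D) (S : Finset (Place K F)) :
    ∃ s₁ s₂ : F, H259.IsBpfPencil D s₁ s₂ ∧ s₂ ≠ 0 ∧
      (∀ v ∈ S, v.ord s₁ = - D v) ∧ (∀ v ∈ S, v.ord s₂ = - D v) := by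
  classical
  have hell : (ell D : ℤ) = Divisor.degree D + 1 - (genusFF K F : ℤ) :=
    ell_eq_of_degree_gt (by omega)
  have hpos : 0 < Module.finrank K (riemannRochSpace D) := by
    have : Module.finrank K (riemannRochSpace D) = ell D := rfl
    omega
  haveI : Nontrivial (riemannRochSpace D) := Module.finrank_pos_iff.mp hpos
  let p : Place K F → Subspace K (riemannRochSpace D) := fun v =>
    (riemannRochSpace (D - prim v)).comap (riemannRochSpace D).subtype
  have hp : ∀ v, p v ≠ ⊤ := by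
    intro v htop
    have hle : riemannRochSpace D ≤ riemannRochSpace (D - prim v) := by
      intro f hf
      have : (⟨f, hf⟩ : riemannRochSpace D) ∈ p v := by rw [htop]; trivial
      exact this
    have h1 : ell D ≤ ell (D - prim v) := Submodule.finrank_mono hle
    have h2 : (ell (D - prim v) : ℤ) = Divisor.degree D - 1 + 1 - (genusFF K F : ℤ) := by
      have := ell_eq_of_degree_gt (D := D - prim v)
        (by rw [map_sub, degree_prim v (deg_eq_one v)]; omega)
      rw [map_sub, degree_prim v (deg_eq_one v)] at this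
      exact this
    omega
  -- an element outside finitely many of the hyperplanes `p v` and nonzero
  have key : ∀ S' : Finset (Place K F), ∃ x : riemannRochSpace D, x ≠ 0 ∧ ∀ v ∈ S', x ∉ p v := by
    intro S'
    have hnot : (⊤ : Subspace K (riemannRochSpace D)) ∉ insert ⊥ (S'.image p) := by
      intro hmem
      rcases Finset.mem_insert.mp hmem with h | h
      · exact top_ne_bot h
      · obtain ⟨v, -, hv⟩ := Finset.mem_image.mp h
        exact hp v hv
    have hne := Subspace.biUnion_ne_univ_of_top_notMem hnot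
    obtain ⟨x, hx⟩ : ∃ x : riemannRochSpace D,
        x ∉ ⋃ q ∈ insert ⊥ (S'.image p), (q : Set (riemannRochSpace D)) := by
      by_contra hcon
      simp only [not_exists, not_not] at hcon
      exact hne (Set.eq_univ_of_forall hcon)
    refine ⟨x, ?_, fun v hv hm => ?_⟩
    · intro h0
      apply hx
      refine Set.mem_biUnion (Finset.mem_insert_self _ _) ?_
      rw [h0]
      exact Submodule.zero_mem _
    · exact hx (Set.mem_biUnion (Finset.mem_insert_of_mem (Finset.mem_image_of_mem p hv)) hm)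
  -- an element of `L(D)` outside `p v` has order exactly `-D v` at `v`
  have hord : ∀ (x : riemannRochSpace D) (v : Place K F), x ≠ 0 → x ∉ p v →
      v.ord (x : F) = - D v := by
    intro x v hx0 hnm
    have hx0' : (x : F) ≠ 0 := fun h => hx0 (Subtype.ext h)
    have hmem := x.2
    rw [mem_L_iff] at hmem
    have hnm' : ¬ ((x : F) ∈ riemannRochSpace (D - prim v)) := hnm
    rw [mem_L_iff] at hnm'
    simp only [not_forall, not_or, not_le] at hnm'
    obtain ⟨w, hw0, hw⟩ := hnm'
    have hwv : w = v := by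
      by_contra hne'
      have h3 := (hmem w).resolve_left hw0
      simp only [Finsupp.coe_sub, Pi.sub_apply, prim_apply_of_ne hne'] at hw
      omega
    subst hwv
    have h3 := (hmem w).resolve_left hw0
    simp only [Finsupp.coe_sub, Pi.sub_apply, prim_apply_self] at hw
    omega
  obtain ⟨s₁, hs₁0, hs₁⟩ := key S
  have hs₁F : (s₁ : F) ≠ 0 := fun h => hs₁0 (Subtype.ext h)
  let S₁ : Finset (Place K F) := (divOf (K := K) (s₁ : F) hs₁F + D).support
  have hS₁ : ∀ v ∉ S₁, v.ord (s₁ : F) = - D v := by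
    intro v hv
    rw [Finsupp.notMem_support_iff] at hv
    simp only [Finsupp.coe_add, Pi.add_apply, divOf_apply] at hv
    omega
  obtain ⟨s₂, hs₂0, hs₂⟩ := key (S ∪ S₁)
  have hs₂F : (s₂ : F) ≠ 0 := fun h => hs₂0 (Subtype.ext h)
  refine ⟨s₁, s₂, ⟨s₁.2, s₂.2, hs₁F, fun v => ?_⟩, hs₂F, ?_, ?_⟩
  · by_cases hv : v ∈ S₁
    · right
      exact ⟨hs₂F, hord s₂ v hs₂0 (hs₂ v (Finset.mem_union_right _ hv))⟩
    · left
      exact hS₁ v hv
  · intro v hv
    exact hord s₁ v hs₁0 (hs₁ v hv)
  · intro v hv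
    exact hord s₂ v hs₂0 (hs₂ v (Finset.mem_union_left _ hv))

/-- **D5(d)**: the cross system of a base-point-free pencil.  If `s₁, s₂` is a base-point-free
pencil of `L(D)` and `b₁, b₂ ∈ L(E)` satisfy `b₁ s₂ = b₂ s₁`, then `(b₁, b₂) = h • (s₁, s₂)` with
`h ∈ L(E - D)`. -/
theorem exists_of_cross_eq {D E : Divisor K F} {s₁ s₂ b₁ b₂ : F} (h : H259.IsBpfPencil D s₁ s₂)
    (hb₁ : b₁ ∈ riemannRochSpace E) (hb₂ : b₂ ∈ riemannRochSpace E)
    (hcross : b₁ * s₂ = b₂ * s₁) :
    ∃ c ∈ riemannRochSpace (E - D), b₁ = c * s₁ ∧ b₂ = c * s₂ := by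
  have hs₁ := h.ne_zero
  have e1 : b₁ = b₁ / s₁ * s₁ := by field_simp
  have e2 : b₂ = b₁ / s₁ * s₂ := by
    have : b₂ * s₁ = b₁ / s₁ * s₂ * s₁ := by
      rw [← hcross]
      field_simp
    exact mul_right_cancel₀ hs₁ this
  refine ⟨b₁ / s₁, ?_, e1, e2⟩
  rw [mem_L_iff]
  intro v
  rcases eq_or_ne (b₁ / s₁) 0 with h0 | h0
  · exact Or.inl h0
  right
  rw [mem_L_iff] at hb₁ hb₂
  simp only [Finsupp.coe_sub, Pi.sub_apply]
  rcases h.bpf v with hv | ⟨hs₂, hv⟩
  · have hb₁0 : b₁ ≠ 0 := by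
      intro hb
      apply h0
      rw [hb, zero_div]
    have h3 := (hb₁ v).resolve_left hb₁0
    rw [e1, v.ord_mul h0 hs₁, hv] at h3
    omega
  · have hb₂0 : b₂ ≠ 0 := by
      rw [e2]
      exact mul_ne_zero h0 hs₂
    have h3 := (hb₂ v).resolve_left hb₂0
    rw [e2, v.ord_mul h0 hs₂, hv] at h3
    omega

/-- Converse of `exists_of_cross_eq`: multiples of the pencil by `L(E - D)` solve the cross
system and lie in `L(E)`. -/
theorem cross_of_mem {D E : Divisor K F} {s₁ s₂ c : F} (h : H259.IsBpfPencil D s₁ s₂)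
    (hc : c ∈ riemannRochSpace (E - D)) :
    c * s₁ ∈ riemannRochSpace E ∧ c * s₂ ∈ riemannRochSpace E ∧
      (c * s₁) * s₂ = (c * s₂) * s₁ := by
  have hsub : E - D + D = E := sub_add_cancel E D
  refine ⟨?_, ?_, by ring⟩
  · have := H259.mul_le_L (E - D) D (Submodule.mul_mem_mul hc h.mem₁)
    rwa [hsub] at this
  · have := H259.mul_le_L (E - D) D (Submodule.mul_mem_mul hc h.mem₂)
    rwa [hsub] at this

/-- **D5(d), line form**: if moreover `ℓ(E - D) = 1` and `h₀ ≠ 0` spans `L(E - D)`, every solution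
of the cross system is a `K`-multiple of `(h₀ s₁, h₀ s₂)`. -/
theorem cross_ker_line [FF1 K F] {D E : Divisor K F} {s₁ s₂ b₁ b₂ h₀ : F}
    (h : H259.IsBpfPencil D s₁ s₂) (hell : ell (E - D) = 1)
    (hh₀ : h₀ ≠ 0) (hh₀E : h₀ ∈ riemannRochSpace (E - D))
    (hb₁ : b₁ ∈ riemannRochSpace E) (hb₂ : b₂ ∈ riemannRochSpace E)
    (hcross : b₁ * s₂ = b₂ * s₁) :
    ∃ a : K, b₁ = algebraMap K F a * (h₀ * s₁) ∧ b₂ = algebraMap K F a * (h₀ * s₂) := by
  obtain ⟨c, hc, e1, e2⟩ := exists_of_cross_eq h hb₁ hb₂ hcross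
  obtain ⟨a, ha⟩ := eq_smul_of_ell_eq_one hell hh₀ hh₀E hc
  refine ⟨a, ?_, ?_⟩
  · rw [e1, ha]; ring
  · rw [e2, ha]; ring

end Fermat.Agent.S19.H255

end
end
-- ===== PACK-END S19/H255/NSP.lean

-- ===== PACK-BEGIN S37/H159/MAdapt.lean
section



/-!
# THEOREM M, concrete form: coordinate `t ∈ F`, `K(t) = K⟮t⟯ ⊆ F`
(row S37, piece R-b / RED-E4 (H3); seat helper159)

`lift_integral_adjoin`: `K` algebraically closed of characteristic `0`, `A ⊆ K` a valuation ring,
`π : A ↠ k`, `O ⊆ F` a valuation ring with `ρ : O ↠ F_k` extending `π`, `t ∈ O` with `ρ t`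
transcendental over `k`, `[F : K(t)] = [F_k : k(t̄)] < ∞`, `F_k / k(t̄)` separable, and

(NC) for `c ∈ A` outside a finite set `S` injective mod `𝔪_A`: for `f` integral over `K[t]`,
     `f² / (t - c)` integral over `K[t]` implies `f / (t - c)` integral over `K[t]`.

Then every `z ∈ F_k` integral over `k[t̄]` is `ρ b` for some `b ∈ O` integral over `A[t]`.
-/

set_option autoImplicit false
set_option linter.unusedSectionVars false
set_option linter.style.haveILetI false

namespace Fermat.Agent.S37.H159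

open Polynomial IntermediateField

/-- Integrality along a composite with a surjective first map. -/
theorem isIntegralElem_comp_of_surjective {R S T : Type*} [CommRing R] [CommRing S]
    [Nontrivial S] [Ring T]
    (f : R →+* S) (hf : Function.Surjective f) (g : S →+* T) {x : T}
    (h : g.IsIntegralElem x) : (g.comp f).IsIntegralElem x := by
  obtain ⟨p, hp, hpx⟩ := h
  have hl : p ∈ Polynomial.lifts f := by
    rw [Polynomial.lifts_iff_coeff_lifts]
    exact fun i => hf _
  obtain ⟨q, hq, -, hqm⟩ := Polynomial.lifts_and_degree_eq_and_monic hl hp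
  refine ⟨q, hqm, ?_⟩
  rw [← Polynomial.eval₂_map, hq]
  exact hpx

section Poly

variable (K : Type*) {F : Type*} [Field K] [Field F] [Algebra K F] (t : F)

/-- `K[X] → F`, `X ↦ t`, as an algebra structure -/
@[reducible] noncomputable def polyAlg : Algebra K[X] F := (aeval t).toRingHom.toAlgebra

/-- `K[X] → K(t)`, `X ↦ t`, as an algebra structure -/
@[reducible] noncomputable def polyAlgAdjoin : Algebra K[X] K⟮t⟯ :=
  (aeval (AdjoinSimple.gen K t)).toRingHom.toAlgebra

theorem coe_aeval_gen (p : K[X]) : ((aeval (AdjoinSimple.gen K t) p : K⟮t⟯) : F) = aeval t p := by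
  rw [← AdjoinSimple.algebraMap_gen K t, aeval_algebraMap_apply]
  rfl

theorem isScalarTower_polyAlg :
    letI := polyAlg K t
    letI := polyAlgAdjoin K t
    IsScalarTower K[X] K⟮t⟯ F := by
  letI := polyAlg K t
  letI := polyAlgAdjoin K t
  exact IsScalarTower.of_algebraMap_eq fun p => (coe_aeval_gen K t p).symm

theorem isFractionRing_polyAlg (ht : Transcendental K t) :
    letI := polyAlgAdjoin K t
    IsFractionRing K[X] K⟮t⟯ := by
  letI := polyAlgAdjoin K t
  have hinj : Function.Injective (algebraMap K[X] K⟮t⟯) := by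
    intro p q hpq
    have h1 : aeval t p = aeval t q := by
      have := congrArg (fun z : K⟮t⟯ => (z : F)) hpq
      exact (coe_aeval_gen K t p).symm.trans (this.trans (coe_aeval_gen K t q))
    exact transcendental_iff_injective.mp ht h1
  haveI : FaithfulSMul K[X] K⟮t⟯ := (faithfulSMul_iff_algebraMap_injective _ _).mpr hinj
  refine IsFractionRing.of_field (R := K[X]) K⟮t⟯ fun z => ?_
  obtain ⟨r, s, hrs⟩ := (mem_adjoin_simple_iff K (z : F)).mp z.2
  refine ⟨r, s, ?_⟩
  apply Subtype.ext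
  rw [hrs]
  show aeval t r / aeval t s = ((aeval (AdjoinSimple.gen K t) r / aeval (AdjoinSimple.gen K t) s :
    K⟮t⟯) : F)
  rw [IntermediateField.coe_div, coe_aeval_gen, coe_aeval_gen]

/-- integrality over `K[X]` (via `X ↦ t`) is integrality over `K[t]` -/
theorem isIntegral_polyAlg_iff (f : F) :
    letI := polyAlg K t
    IsIntegral K[X] f ↔ IsIntegral (Algebra.adjoin K {t}) f := by
  letI := polyAlg K t
  let φ : K[X] →+* Algebra.adjoin K {t} :=
    RingHom.codRestrict (aeval t).toRingHom (Algebra.adjoin K {t})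
      (fun p => by rw [Algebra.adjoin_singleton_eq_range_aeval]; exact ⟨p, rfl⟩)
  have hφ : Function.Surjective φ := by
    rintro ⟨y, hy⟩
    rw [Algebra.adjoin_singleton_eq_range_aeval] at hy
    obtain ⟨p, hp⟩ := hy
    exact ⟨p, Subtype.ext hp⟩
  have hcomp : (algebraMap (Algebra.adjoin K {t}) F).comp φ = algebraMap K[X] F := rfl
  constructor
  · intro h
    have h' : ((algebraMap (Algebra.adjoin K {t}) F).comp φ).IsIntegralElem f := h
    exact RingHom.IsIntegralElem.of_comp h'
  · intro h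
    exact isIntegralElem_comp_of_surjective φ hφ _ h

end Poly

section Main

variable {K k F Fk : Type*} [Field K] [Field k] [Field F] [Field Fk] [Algebra K F] [Algebra k Fk]

/-- the subring `A[t] ⊆ F` generated by the image of `A` and `t` -/
def polySubring (A : ValuationSubring K) (t : F) : Subring F :=
  A.toSubring.map (algebraMap K F) ⊔ Subring.closure {t}

theorem aeval_map_mem_polySubring (A : ValuationSubring K) (t : F) (p : A[X]) :
    aeval t (p.map A.subtype) ∈ polySubring A t := by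
  induction p using Polynomial.induction_on with
  | C a =>
    rw [Polynomial.map_C, aeval_C]
    exact (le_sup_left : _ ≤ polySubring A t) (Subring.mem_map.mpr ⟨a, a.2, rfl⟩)
  | add p q hp hq =>
    rw [Polynomial.map_add, map_add]
    exact Subring.add_mem _ hp hq
  | monomial n a _ =>
    rw [Polynomial.map_mul, Polynomial.map_C, Polynomial.map_pow, Polynomial.map_X, map_mul,
      aeval_C, map_pow, aeval_X]
    refine Subring.mul_mem _ ?_ (Subring.pow_mem _ ?_ _)
    · exact (le_sup_left : _ ≤ polySubring A t) (Subring.mem_map.mpr ⟨a, a.2, rfl⟩)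
    · exact (le_sup_right : _ ≤ polySubring A t) (Subring.subset_closure rfl)

variable [IsAlgClosed K] [CharZero K] [IsAlgClosed k]

/-- **THEOREM M**, concrete form (see the module docstring). -/
theorem lift_integral_adjoin (A : ValuationSubring K) (π : A →+* k)
    (hπ : Function.Surjective π) (O : ValuationSubring F) (ρ : O →+* Fk)
    (hρ : Function.Surjective ρ) (hc : ∀ a : A, algebraMap K F (a : K) ∈ O)
    (hρc : ∀ a : A, ρ ⟨algebraMap K F (a : K), hc a⟩ = algebraMap k Fk (π a))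
    (t : F) (ht : t ∈ O) (htr : Transcendental k (ρ ⟨t, ht⟩))
    [FiniteDimensional K⟮t⟯ F] [FiniteDimensional k⟮ρ ⟨t, ht⟩⟯ Fk]
    [Algebra.IsSeparable k⟮ρ ⟨t, ht⟩⟯ Fk]
    (hdeg : Module.finrank K⟮t⟯ F = Module.finrank k⟮ρ ⟨t, ht⟩⟯ Fk)
    (S : Finset A) (hS : Set.InjOn π (S : Set A))
    (hNC : ∀ c : A, c ∉ S → ∀ f : F, IsIntegral (Algebra.adjoin K {t}) f →
      IsIntegral (Algebra.adjoin K {t}) (f ^ 2 / (t - algebraMap K F (c : K))) →
      IsIntegral (Algebra.adjoin K {t}) (f / (t - algebraMap K F (c : K))))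
    (z : Fk) (hz : IsIntegral (Algebra.adjoin k {ρ ⟨t, ht⟩}) z) :
    ∃ (b : F) (hb : b ∈ O), IsIntegral (polySubring A t) b ∧ ρ ⟨b, hb⟩ = z := by
  classical
  letI algF : Algebra K[X] F := polyAlg K t
  letI algFk : Algebra k[X] Fk := polyAlg k (ρ ⟨t, ht⟩)
  letI algL : Algebra K[X] K⟮t⟯ := polyAlgAdjoin K t
  letI algLk : Algebra k[X] k⟮ρ ⟨t, ht⟩⟯ := polyAlgAdjoin k (ρ ⟨t, ht⟩)
  haveI : IsScalarTower K[X] K⟮t⟯ F := isScalarTower_polyAlg K t
  haveI : IsScalarTower k[X] k⟮ρ ⟨t, ht⟩⟯ Fk := isScalarTower_polyAlg k (ρ ⟨t, ht⟩)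
  haveI : IsFractionRing k[X] k⟮ρ ⟨t, ht⟩⟯ := isFractionRing_polyAlg k (ρ ⟨t, ht⟩) htr
  have hinjk : Function.Injective (algebraMap k[X] Fk) := transcendental_iff_injective.mp htr
  -- evaluation `A[X] → O`
  let constO : A →+* O := RingHom.codRestrict ((algebraMap K F).comp A.subtype) O hc
  let evalO : A[X] →+* O := Polynomial.eval₂RingHom constO ⟨t, ht⟩
  have hev1 : O.subtype.comp evalO = (aeval t).toRingHom.comp (mapRingHom A.subtype) := by
    refine Polynomial.ringHom_ext (fun a => ?_) ?_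
    · show ((Polynomial.eval₂ constO ⟨t, ht⟩ (C a) : O) : F) =
        aeval t ((C a : A[X]).map A.subtype)
      rw [Polynomial.eval₂_C, Polynomial.map_C, aeval_C]
      rfl
    · show ((Polynomial.eval₂ constO ⟨t, ht⟩ X : O) : F) = aeval t ((X : A[X]).map A.subtype)
      rw [Polynomial.eval₂_X, Polynomial.map_X, aeval_X]
  have hev2 : ρ.comp evalO = (aeval (ρ ⟨t, ht⟩)).toRingHom.comp (mapRingHom π) := by
    refine Polynomial.ringHom_ext (fun a => ?_) ?_
    · show ρ (Polynomial.eval₂ constO ⟨t, ht⟩ (C a)) = aeval (ρ ⟨t, ht⟩) ((C a : A[X]).map π)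
      rw [Polynomial.eval₂_C, Polynomial.map_C, aeval_C]
      exact hρc a
    · show ρ (Polynomial.eval₂ constO ⟨t, ht⟩ X) = aeval (ρ ⟨t, ht⟩) ((X : A[X]).map π)
      rw [Polynomial.eval₂_X, Polynomial.map_X, aeval_X]
  have hcoe : ∀ p : A[X], ((evalO p : O) : F) = algebraMap K[X] F (p.map A.subtype) := fun p =>
    congrArg (fun g : A[X] →+* F => g p) hev1
  let G : RedCtx A k F Fk :=
    { π := π
      π_surj := hπ
      O := O
      ρ := ρ
      ρ_surj := hρ
      mem := fun p => by rw [← hcoe p]; exact (evalO p).2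
      ρ_poly := fun p => by
        have h1 := congrArg (fun g : A[X] →+* Fk => g p) hev2
        have h2 : (⟨algebraMap K[X] F (p.map A.subtype), by rw [← hcoe p]; exact (evalO p).2⟩ : O)
            = evalO p := Subtype.ext (hcoe p).symm
        rw [h2]
        exact h1 }
  -- `t` is transcendental over `K`
  have httr : Transcendental K t := by
    rw [transcendental_iff]
    intro P hP
    by_contra hP0
    obtain ⟨lam, P₀, m, hlam, hm, hPeq⟩ := exists_primitive A P hP0
    have hne := G.map_π_ne_zero_of_coeff_eq_one P₀ m hm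
    have h1 := G.ne_zero_of_map_ne_zero hinjk P₀ hne
    apply h1
    have h2 : aeval t P = algebraMap K F lam * algebraMap K[X] F (P₀.map A.subtype) := by
      conv_lhs => rw [hPeq]
      rw [map_mul, aeval_C]
      rfl
    rw [hP] at h2
    rcases mul_eq_zero.mp h2.symm with h | h
    · exact absurd ((_root_.map_eq_zero _).mp h) hlam
    · exact h
  haveI : IsFractionRing K[X] K⟮t⟯ := isFractionRing_polyAlg K t httr
  -- (NC) in ring form
  have hNC' : ∀ c : A, c ∉ S → (Ideal.span
      {algebraMap K[X] (integralClosure K[X] F) (X - C (c : K))}).IsRadical := by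
    intro c hcS
    rw [Ideal.isRadical_iff_pow_one_lt 2 one_lt_two]
    intro r hr
    rw [Ideal.mem_span_singleton] at hr ⊢
    obtain ⟨h, hh⟩ := hr
    have ha : ((algebraMap K[X] (integralClosure K[X] F) (X - C (c : K)) :
        integralClosure K[X] F) : F) = t - algebraMap K F (c : K) := by
      show aeval t (X - C (c : K)) = _
      rw [map_sub, aeval_X, aeval_C]
    have ha0 : t - algebraMap K F (c : K) ≠ 0 := by
      intro h0
      have h1 : aeval t (X - C (c : K)) = 0 := by rw [map_sub, aeval_X, aeval_C, h0]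
      exact Polynomial.X_sub_C_ne_zero _ ((transcendental_iff.mp httr) _ h1)
    have h1 : IsIntegral (Algebra.adjoin K {t}) (r : F) := (isIntegral_polyAlg_iff K t _).mp r.2
    have hh' : (r : F) ^ 2 = (t - algebraMap K F (c : K)) * (h : F) := by
      have := congrArg (fun w : integralClosure K[X] F => (w : F)) hh
      simp only [SubmonoidClass.coe_pow, MulMemClass.coe_mul] at this
      rw [this, ha]
    have h2 : IsIntegral (Algebra.adjoin K {t}) ((r : F) ^ 2 / (t - algebraMap K F (c : K))) := by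
      have : (r : F) ^ 2 / (t - algebraMap K F (c : K)) = (h : F) := by
        rw [hh', mul_div_assoc, mul_comm, div_mul_cancel₀ _ ha0]
      rw [this]
      exact (isIntegral_polyAlg_iff K t _).mp h.2
    have h3 := hNC c hcS (r : F) h1 h2
    refine ⟨⟨(r : F) / (t - algebraMap K F (c : K)), (isIntegral_polyAlg_iff K t _).mpr h3⟩,
      Subtype.ext ?_⟩
    show (r : F) = ((algebraMap K[X] (integralClosure K[X] F) (X - C (c : K)) :
        integralClosure K[X] F) : F) * ((r : F) / (t - algebraMap K F (c : K)))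
    rw [ha, mul_div_cancel₀ _ ha0]
  have hz' : IsIntegral k[X] z := (isIntegral_polyAlg_iff k (ρ ⟨t, ht⟩) z).mpr hz
  obtain ⟨f, hf, hfz⟩ := G.lift_integral K⟮t⟯ k⟮ρ ⟨t, ht⟩⟯ hdeg S hS hNC' z hz'
  refine ⟨f, f.2, ?_, hfz⟩
  let ψ : A[X] →+* polySubring A t :=
    RingHom.codRestrict (RedCtx.polyF (A := A) (F := F)) (polySubring A t)
      (fun p => aeval_map_mem_polySubring A t p)
  have hψ : (polySubring A t).subtype.comp ψ = RedCtx.polyF (A := A) (F := F) := rfl
  have hf' : ((polySubring A t).subtype.comp ψ).IsIntegralElem (f : F) := hf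
  exact RingHom.IsIntegralElem.of_comp hf'

end Main

end Fermat.Agent.S37.H159

end
-- ===== PACK-END S37/H159/MAdapt.lean

-- ===== PACK-BEGIN S37/Red/H159/LiftNC.lean
section




/-!
# S37-RED, (H3) normality of the special fibre from (H1) + (NC)   (helper159, THEOREM M)

For a reduction datum `G : Red.Datum A π F Fk` (helper40's `Red/Spec.lean`) over algebraically
closed constants (`K` of characteristic `0`):

* `NoRamOutside G t S` : (NC) for the coordinate `t`: for every `c ∈ A \ S` the ideal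
  `(t - c)` of the integral closure `K·B_t` of `K[t]` is radical (no ramification over `t = c`),
  in elementwise form;
* `lift_of_NC` : (H1) for `t` + (NC) with `S` finite and injective mod `𝔪_A`  ⟹  (H3) for `t`;
* `lift_fin_of_NC`, `lift_inf_of_NC` : the fields `lift_fin`, `lift_inf` of `Datum.Good`;
* `good_of_NC` : `G.Good` from (H1) + (NC) on both charts.

No noetherian hypothesis, no descent to a DVR, no model over `ℤ_(ℓ)`.
-/

set_option autoImplicit false

namespace Fermat.Agent.S37.Red.H159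

open AlgebraicCurve IntermediateField

universe u

variable {K k : Type u} [Field K] [Field k] {A : ValuationSubring K} {π : A →+* k}
  {F Fk : Type u} [Field F] [Field Fk] [Algebra K F] [Algebra k Fk]

/-- **(NC)** for the coordinate `t`, outside `S`: if `f` and `f² / (t - c)` are integral over
`K[t]` then so is `f / (t - c)`  (`c ∈ A \ S`). -/
def NoRamOutside (G : Datum A π F Fk) (t : F) (S : Finset A) : Prop :=
  ∀ c : A, c ∉ S → ∀ f ∈ G.chartK t, f ^ 2 / (t - algebraMap K F (c : K)) ∈ G.chartK t →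
    f / (t - algebraMap K F (c : K)) ∈ G.chartK t

variable [IsAlgClosed K] [CharZero K] [IsAlgClosed k]

/-- **(H3) from (H1) + (NC)**, arbitrary coordinate. -/
theorem lift_of_NC (G : Datum A π F Fk) {t : F} (ht : t ∈ G.O)
    (htr : Transcendental k (G.ρ ⟨t, ht⟩))
    [FiniteDimensional K⟮t⟯ F] [FiniteDimensional k⟮G.ρ ⟨t, ht⟩⟯ Fk]
    [Algebra.IsSeparable k⟮G.ρ ⟨t, ht⟩⟯ Fk]
    (hfr : Module.finrank K⟮t⟯ F = Module.finrank k⟮G.ρ ⟨t, ht⟩⟯ Fk)
    (S : Finset A) (hS : Set.InjOn π (S : Set A)) (hNC : NoRamOutside G t S) :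
    ∀ z ∈ G.chartk (G.ρ ⟨t, ht⟩), ∃ b ∈ G.chart t, ∃ hb : b ∈ G.O, G.ρ ⟨b, hb⟩ = z := by
  intro z hz
  obtain ⟨b, hb, hbint, hbz⟩ :=
    Fermat.Agent.S37.H159.lift_integral_adjoin A π G.π_surj G.O G.ρ G.ρ_surj G.const_mem
      G.ρ_const t ht htr hfr S hS (fun c hc f hf hf2 => hNC c hc f hf hf2) z hz
  exact ⟨b, hbint, hb, hbz⟩

/-- **(H3) at the finite chart.** -/
theorem lift_fin_of_NC (G : Datum A π F Fk)
    [FiniteDimensional K⟮G.x⟯ F] [hk : FiniteDimensional k⟮G.xk⟯ Fk]
    [hs : Algebra.IsSeparable k⟮G.xk⟯ Fk]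
    (hfr : Module.finrank K⟮G.x⟯ F = Module.finrank k⟮G.xk⟯ Fk)
    (S : Finset A) (hS : Set.InjOn π (S : Set A)) (hNC : NoRamOutside G G.x S) :
    ∀ c ∈ G.chartk G.xk, ∃ b ∈ G.chart G.x, ∃ hb : b ∈ G.O, G.ρ ⟨b, hb⟩ = c := by
  have hk' : FiniteDimensional k⟮G.ρ ⟨G.x, G.x_mem⟩⟯ Fk := hk
  have hs' : Algebra.IsSeparable k⟮G.ρ ⟨G.x, G.x_mem⟩⟯ Fk := hs
  exact lift_of_NC G G.x_mem G.xk_transc hfr S hS hNC

/-- **(H3) at the chart at infinity.** -/
theorem lift_inf_of_NC (G : Datum A π F Fk)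
    [hfin : FiniteDimensional K⟮G.x⟯ F] [hfink : FiniteDimensional k⟮G.xk⟯ Fk]
    [hsep : Algebra.IsSeparable k⟮G.xk⟯ Fk]
    (hfr : Module.finrank K⟮G.x⟯ F = Module.finrank k⟮G.xk⟯ Fk)
    (S : Finset A) (hS : Set.InjOn π (S : Set A)) (hNC : NoRamOutside G G.x⁻¹ S) :
    ∀ c ∈ G.chartk G.xk⁻¹, ∃ b ∈ G.chart G.x⁻¹, ∃ hb : b ∈ G.O, G.ρ ⟨b, hb⟩ = c := by
  have hρ := Red.H217.ρ_x_inv G
  have htr : Transcendental k (G.ρ ⟨G.x⁻¹, Red.H217.x_inv_mem G⟩) := by
    rw [hρ]
    intro h
    apply G.xk_transc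
    have := h.inv
    rwa [inv_inv] at this
  have : FiniteDimensional K⟮G.x⁻¹⟯ F := by
    rw [Red.H217.adjoin_inv_eq']; exact hfin
  have : FiniteDimensional k⟮G.ρ ⟨G.x⁻¹, Red.H217.x_inv_mem G⟩⟯ Fk := by
    rw [hρ, Red.H217.adjoin_inv_eq']; exact hfink
  have : Algebra.IsSeparable k⟮G.ρ ⟨G.x⁻¹, Red.H217.x_inv_mem G⟩⟯ Fk := by
    rw [hρ, Red.H217.adjoin_inv_eq']; exact hsep
  have hfr' : Module.finrank K⟮G.x⁻¹⟯ F =
      Module.finrank k⟮G.ρ ⟨G.x⁻¹, Red.H217.x_inv_mem G⟩⟯ Fk := by
    rw [hρ, Red.H217.adjoin_inv_eq', Red.H217.adjoin_inv_eq']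
    exact hfr
  have key := lift_of_NC G (Red.H217.x_inv_mem G) htr hfr' S hS hNC
  rw [hρ] at key
  exact key

/-- **`G.Good` from (H1) + (NC) on both charts.** -/
theorem good_of_NC (G : Datum A π F Fk)
    (finite : FiniteDimensional K⟮G.x⟯ F) (finite_k : FiniteDimensional k⟮G.xk⟯ Fk)
    (sep_k : Algebra.IsSeparable k⟮G.xk⟯ Fk)
    (finrank_eq : Module.finrank K⟮G.x⟯ F = Module.finrank k⟮G.xk⟯ Fk)
    (S S' : Finset A) (hS : Set.InjOn π (S : Set A)) (hS' : Set.InjOn π (S' : Set A))
    (hNC : NoRamOutside G G.x S) (hNC' : NoRamOutside G G.x⁻¹ S') : G.Good :=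
  Red.H217.good_of G finite finite_k sep_k finrank_eq
    (lift_fin_of_NC G finrank_eq S hS hNC) (lift_inf_of_NC G finrank_eq S' hS' hNC')

end Fermat.Agent.S37.Red.H159

end
-- ===== PACK-END S37/Red/H159/LiftNC.lean

-- ===== PACK-BEGIN S19/H195/PencilLift.lean
section


/-!
# A3 / GR-GENUS (helper195), part 1: the pencil lifting lemma on the special fibre

Setting: a function field `Fk / k` with `[FF1 k Fk]`, a function `x ∈ Fk` and a divisor `D` of
positive degree such that `(1, x)` is a base-point-free pencil in `L(D)` (`D` = the polar divisor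
of `x`), and an increasing family of `k`-subspaces `U 0 ≤ U 1 ≤ ⋯` of `Fk` with `x • U m ≤ U (m+1)`.

`L_le_of_torsion`: if every `ψ ∈ L(m D)` lies in some `U j` ("`T₀`-torsion") and for every
`ψ ∈ L(m D)` some `x ^ (j - m) ψ` lies in `U j`, `j ≥ m` ("`T₁`-torsion"), then `L(M D) ≤ U M`
for all large `M`.

This is the graded Serre argument for `⊕ U m ⊆ ⊕ L(m D)` over `k[T₀, T₁]`, made elementary by the
base-point-free pencil trick `L((m+1) D) = L(m D) + x L(m D)` (`Lib.RR.H259.pencil_trick`).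

Application (`GenusGood.lean`): `U m = ρ (B_fin ∩ x ^ m B_inf)` for a reduction datum with normal
special fibre; the conclusion is integral Riemann–Roch surjectivity for the multiples of the polar
divisor of the coordinate, WITHOUT saturation or finiteness of the Čech `H¹` over the valuation
ring.
-/

set_option autoImplicit false

noncomputable section

open AlgebraicCurve

namespace Fermat.Agent.S19.H195

open Fermat.Agent.Lib.RR

variable {k Fk : Type*} [Field k] [Field Fk] [Algebra k Fk]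

/-- an increasing family -/
theorem filt_mono (U : ℕ → Submodule k Fk) (hmono : ∀ m, U m ≤ U (m + 1)) {a b : ℕ}
    (h : a ≤ b) : U a ≤ U b :=
  monotone_nat_of_le_succ hmono h

/-- `x ^ i • U a ≤ U (a + i)` -/
theorem filt_pow_mul_mem (x : Fk) (U : ℕ → Submodule k Fk)
    (hmul : ∀ m, ∀ f ∈ U m, x * f ∈ U (m + 1)) (i a : ℕ) {f : Fk} (hf : f ∈ U a) :
    x ^ i * f ∈ U (a + i) := by
  induction i with
  | zero => simpa using hf
  | succ i ih =>
    have h := hmul (a + i) _ ih
    rw [← mul_assoc, ← pow_succ'] at h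
    exact h

/-- `(m + 1) D = m D + D` -/
theorem natCast_succ_smul (D : Divisor k Fk) (m : ℕ) :
    ((m + 1 : ℕ) : ℤ) • D = (m : ℤ) • D + D := by
  rw [Nat.cast_succ, add_smul, one_smul]

/-- the span of `x ^ i L(m₀ D)`, `i ≤ j` -/
def pencilSpan (x : Fk) (D : Divisor k Fk) (m₀ j : ℕ) : Submodule k Fk :=
  Submodule.span k {f | ∃ i ≤ j, ∃ ψ ∈ riemannRochSpace ((m₀ : ℤ) • D), f = x ^ i * ψ}

theorem pencilSpan_mono (x : Fk) (D : Divisor k Fk) (m₀ : ℕ) {j j' : ℕ} (h : j ≤ j') :
    pencilSpan x D m₀ j ≤ pencilSpan x D m₀ j' := by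
  refine Submodule.span_mono ?_
  rintro f ⟨i, hi, ψ, hψ, rfl⟩
  exact ⟨i, hi.trans h, ψ, hψ, rfl⟩

theorem mul_mem_pencilSpan (x : Fk) (D : Divisor k Fk) (m₀ j : ℕ) {f : Fk}
    (hf : f ∈ pencilSpan x D m₀ j) : x * f ∈ pencilSpan x D m₀ (j + 1) := by
  unfold pencilSpan at hf
  induction hf using Submodule.span_induction with
  | mem f hf =>
    obtain ⟨i, hi, ψ, hψ, rfl⟩ := hf
    refine Submodule.subset_span ⟨i + 1, by omega, ψ, hψ, ?_⟩
    rw [pow_succ', mul_assoc]
  | zero => simp
  | add f g _ _ hf hg =>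
    rw [mul_add]
    exact Submodule.add_mem _ hf hg
  | smul c f _ hf =>
    rw [mul_smul_comm]
    exact Submodule.smul_mem _ c hf

/-- **Pencil decomposition**: `L((m₀ + j) D) ≤ ∑_{i ≤ j} x ^ i L(m₀ D)` as soon as the pencil trick
applies from `m₀` on. -/
theorem L_le_pencilSpan [FF1 k Fk] (x : Fk) (D : Divisor k Fk)
    (hpen : H259.IsBpfPencil D 1 x) (m₀ : ℕ)
    (hm₀ : Divisor.degree D + 2 * (genusFF k Fk : ℤ) - 1 ≤ (m₀ : ℤ) * Divisor.degree D)
    (j : ℕ) : riemannRochSpace (((m₀ + j : ℕ) : ℤ) • D) ≤ pencilSpan x D m₀ j := by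
  have hD0 : 0 ≤ Divisor.degree D := hpen.degree_nonneg
  induction j with
  | zero =>
    intro f hf
    refine Submodule.subset_span ⟨0, le_rfl, f, ?_, by simp⟩
    simpa using hf
  | succ j ih =>
    intro f hf
    have hf' : f ∈ riemannRochSpace (((m₀ + j : ℕ) : ℤ) • D + D) := by
      rw [← natCast_succ_smul]
      exact hf
    have hdeg : Divisor.degree D + 2 * (genusFF k Fk : ℤ) - 1 ≤
        Divisor.degree (((m₀ + j : ℕ) : ℤ) • D) := by
      rw [map_zsmul, smul_eq_mul]
      have h1 : (m₀ : ℤ) * Divisor.degree D ≤ ((m₀ + j : ℕ) : ℤ) * Divisor.degree D := by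
        apply mul_le_mul_of_nonneg_right _ hD0
        exact_mod_cast Nat.le_add_right m₀ j
      omega
    obtain ⟨a, ha, b, hb, hab⟩ := H259.pencil_trick hpen hdeg hf'
    rw [hab, one_mul]
    exact Submodule.add_mem _ (pencilSpan_mono x D m₀ (Nat.le_succ j) (ih ha))
      (mul_mem_pencilSpan x D m₀ j (ih hb))

/-- **The pencil lifting lemma.** -/
theorem L_le_of_torsion [FF1 k Fk] (x : Fk) (D : Divisor k Fk)
    (hpen : H259.IsBpfPencil D 1 x) (hdeg : 0 < Divisor.degree D)
    (U : ℕ → Submodule k Fk) (hmono : ∀ m, U m ≤ U (m + 1))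
    (hmul : ∀ m, ∀ f ∈ U m, x * f ∈ U (m + 1))
    (hT0 : ∀ m : ℕ, ∀ ψ ∈ riemannRochSpace ((m : ℤ) • D), ∃ j, ψ ∈ U j)
    (hT1 : ∀ m : ℕ, ∀ ψ ∈ riemannRochSpace ((m : ℤ) • D), ∃ j, m ≤ j ∧ x ^ (j - m) * ψ ∈ U j) :
    ∃ M₀ : ℕ, ∀ M : ℕ, M₀ ≤ M → riemannRochSpace ((M : ℤ) • D) ≤ U M := by
  classical
  -- the level from which the pencil trick applies
  set m₀ : ℕ := 2 * genusFF k Fk + 1 with hm₀def
  have hm₀ : Divisor.degree D + 2 * (genusFF k Fk : ℤ) - 1 ≤ (m₀ : ℤ) * Divisor.degree D := by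
    rw [hm₀def]
    push_cast
    nlinarith
  -- a basis of `L(m₀ D)`
  let bs := Module.finBasis k (riemannRochSpace ((m₀ : ℤ) • D))
  have h0 : ∀ l, ∃ j, ((bs l : riemannRochSpace ((m₀ : ℤ) • D)) : Fk) ∈ U j :=
    fun l => hT0 m₀ _ (bs l).2
  have h1 : ∀ l, ∃ j, m₀ ≤ j ∧
      x ^ (j - m₀) * ((bs l : riemannRochSpace ((m₀ : ℤ) • D)) : Fk) ∈ U j :=
    fun l => hT1 m₀ _ (bs l).2
  choose a ha using h0
  choose c hc hc' using h1
  -- a common bound
  obtain ⟨J, hJ⟩ : ∃ J : ℕ, ∀ l, a l ≤ J ∧ c l ≤ J := by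
    refine ⟨(Finset.univ.sup a) ⊔ (Finset.univ.sup c), fun l => ⟨?_, ?_⟩⟩
    · exact le_sup_of_le_left (Finset.le_sup (f := a) (Finset.mem_univ l))
    · exact le_sup_of_le_right (Finset.le_sup (f := c) (Finset.mem_univ l))
  -- every element of `L(m₀ D)` is a combination of the basis
  have hrepr : ∀ ψ ∈ riemannRochSpace ((m₀ : ℤ) • D),
      ψ ∈ Submodule.span k (Set.range fun l => ((bs l : riemannRochSpace ((m₀ : ℤ) • D)) : Fk)) := by
    intro ψ hψ
    have h2 : (⟨ψ, hψ⟩ : riemannRochSpace ((m₀ : ℤ) • D)) ∈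
        Submodule.span k (Set.range bs) := by
      rw [bs.span_eq]; exact Submodule.mem_top
    have h3 := Submodule.mem_map_of_mem (f := (riemannRochSpace ((m₀ : ℤ) • D)).subtype) h2
    rw [Submodule.map_span, ← Set.range_comp] at h3
    exact h3
  -- (α) `L(m₀ D) ≤ U J`
  have hα : ∀ ψ ∈ riemannRochSpace ((m₀ : ℤ) • D), ψ ∈ U J := by
    intro ψ hψ
    refine (Submodule.span_le (p := U J)).mpr ?_ (hrepr ψ hψ)
    rintro _ ⟨l, rfl⟩
    exact filt_mono U hmono (hJ l).1 (ha l)
  -- (β) `x ^ (j - m₀) L(m₀ D) ≤ U j` for `j ≥ J`, `j ≥ m₀`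
  have hβ : ∀ j, J ≤ j → ∀ ψ ∈ riemannRochSpace ((m₀ : ℤ) • D), x ^ (j - m₀) * ψ ∈ U j := by
    intro j hj ψ hψ
    have hsub : Submodule.span k
        (Set.range fun l => ((bs l : riemannRochSpace ((m₀ : ℤ) • D)) : Fk)) ≤
        (U j).comap (LinearMap.mulLeft k (x ^ (j - m₀))) := by
      rw [Submodule.span_le]
      rintro _ ⟨l, rfl⟩
      show x ^ (j - m₀) * ((bs l : riemannRochSpace ((m₀ : ℤ) • D)) : Fk) ∈ U j
      have hcl : c l ≤ j := (hJ l).2.trans hj
      have h4 := filt_pow_mul_mem x U hmul (j - c l) (c l) (hc' l)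
      rw [← mul_assoc, ← pow_add] at h4
      have e1 : j - c l + (c l - m₀) = j - m₀ := by have := hc l; omega
      have e2 : c l + (j - c l) = j := by omega
      rw [e1, e2] at h4
      exact h4
    exact hsub (hrepr ψ hψ)
  refine ⟨max (2 * J) m₀, fun M hM => ?_⟩
  have hM1 : 2 * J ≤ M := (le_max_left _ _).trans hM
  have hM2 : m₀ ≤ M := (le_max_right _ _).trans hM
  have hMeq : M = m₀ + (M - m₀) := by omega
  have hL := L_le_pencilSpan x D hpen m₀ hm₀ (M - m₀)
  rw [← hMeq] at hL
  refine hL.trans ?_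
  unfold pencilSpan
  rw [Submodule.span_le]
  rintro _ ⟨i, hi, ψ, hψ, rfl⟩
  by_cases hcase : i + J ≤ M
  · -- route `T₀`
    have h5 := filt_pow_mul_mem x U hmul i J (hα ψ hψ)
    exact filt_mono U hmono (by omega) h5
  · -- route `T₁`
    have hJi : J ≤ m₀ + i := by omega
    have h6 := hβ (m₀ + i) hJi ψ hψ
    rw [Nat.add_sub_cancel_left] at h6
    exact filt_mono U hmono (by omega) h6

end Fermat.Agent.S19.H195

end

end
-- ===== PACK-END S19/H195/PencilLift.lean

-- ===== PACK-BEGIN S56/H66/VGArch.lean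
section


/-!
# S56 / FLAT-O, leaf FO-VG (helper66): valuation inputs, part 2

* `arch` (ARCH): for `c ≠ 0` in `ℚ̄` there is `N` with `v(p)^N ≤ v(c)`;
* `vg1_le`: a non-unit of `A` fixed by `I₁` has valuation `≤ v(ζ - 1)`;
* `vg1_mem`: such an element is `(ζ - 1) · b` with `b ∈ A`;
* `vg0_mem`: a non-unit of `A` fixed by `I` is `p · b` with `b ∈ A`.
-/

set_option autoImplicit false
set_option linter.style.haveILetI false

open scoped Pointwise

namespace Fermat.Agent.S56.H66

open Polynomial Fermat.Agent.S14.H894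

local notation "Qb" => AlgebraicClosure ℚ
local notation "GQ" => (AlgebraicClosure ℚ ≃ₐ[ℚ] AlgebraicClosure ℚ)

section

variable (A : ValuationSubring Qb) (p : ℕ) (hp : p.Prime) (hA : A.LiesOverPrime p)
  (ζ : Qb) (hζ : IsPrimitiveRoot ζ p)

include hp hA in
/-- **(ARCH)** The valuation of a nonzero algebraic number is bounded below by a power of
`v(p)`. -/
theorem arch (c : Qb) (hc : c ≠ 0) : ∃ N : ℕ, A.valuation (p : Qb) ^ N ≤ A.valuation c := by
  have halg : IsAlgebraic ℤ c⁻¹ :=
    (IsFractionRing.isAlgebraic_iff ℤ ℚ Qb).mpr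
      ((AlgebraicClosure.isAlgebraic ℚ).isAlgebraic c⁻¹)
  obtain ⟨d, hd0, hd⟩ := halg.exists_integral_multiple
  have hmem : d • c⁻¹ ∈ A := Fermat.Agent.S54.isIntegral_mem_valuationSubring A hd
  have hle : A.valuation (d • c⁻¹) ≤ 1 := (A.valuation_le_one_iff _).mpr hmem
  have hdn : d.natAbs ≠ 0 := Int.natAbs_ne_zero.mpr hd0
  obtain ⟨N, hN⟩ := exists_pow_valuation_nat A p hp hA d.natAbs hdn
  have hvd : A.valuation ((d : ℤ) : Qb) = A.valuation (p : Qb) ^ N := by
    rw [← hN]
    rcases Int.natAbs_eq d with h | h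
    · conv_lhs => rw [h]
      simp
    · conv_lhs => rw [h]
      simp
  refine ⟨N, ?_⟩
  have hcv : A.valuation c ≠ 0 := (Valuation.ne_zero_iff _).mpr hc
  rw [zsmul_eq_mul, map_mul, map_inv₀, hvd] at hle
  have := (mul_inv_le_iff₀ (zero_lt_iff.mpr hcv)).mp hle
  simpa using this

include hp hA hζ in
/-- (VG1), integral form: a non-unit of `A` fixed by `I₁` has valuation `≤ v(ζ - 1)`. -/
theorem vg1_le (a : Qb) (ha : a ∈ A.nonunits)
    (hfix : ∀ σ ∈ A.inertiaSubgroupIn ℚ, σ ζ = ζ → σ a = a) :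
    A.valuation a ≤ A.valuation (ζ - 1) := by
  rcases eq_or_ne a 0 with rfl | ha0
  · simp
  obtain ⟨n, hn⟩ := vg1 A p hp hA ζ hζ a ha0 hfix
  have hπ0 := valuation_zeta_sub_one_ne_zero A p hp ζ hζ
  have hπ1 := valuation_zeta_sub_one_lt_one A p hp hA ζ hζ
  have hav : A.valuation a < 1 := (A.mem_nonunits_iff).mp ha
  rw [hn] at hav ⊢
  have hn1 : 1 ≤ n := by
    by_contra hcon
    push Not at hcon
    have hn0 : n ≤ 0 := by omega
    have : 1 ≤ A.valuation (ζ - 1) ^ n := by
      obtain ⟨k, rfl⟩ : ∃ k : ℕ, n = -(k : ℤ) := ⟨(-n).toNat, by omega⟩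
      rw [zpow_neg, zpow_natCast]
      exact (one_le_inv₀ (pow_pos (zero_lt_iff.mpr hπ0) k)).mpr (pow_le_one₀ zero_le hπ1.le)
    exact absurd hav (not_lt.mpr this)
  obtain ⟨k, rfl⟩ : ∃ k : ℕ, n = (k : ℤ) + 1 := ⟨(n - 1).toNat, by omega⟩
  rw [zpow_add_one₀ hπ0, zpow_natCast]
  calc A.valuation (ζ - 1) ^ k * A.valuation (ζ - 1)
      ≤ 1 * A.valuation (ζ - 1) := by
        gcongr
        exact pow_le_one₀ zero_le hπ1.le
    _ = A.valuation (ζ - 1) := one_mul _

/-- `v(a) ≤ v(b)`, `b ≠ 0` ⇒ `a = b * c` with `c ∈ A`. -/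
theorem exists_mul_of_valuation_le {a b : Qb} (hb : b ≠ 0)
    (h : A.valuation a ≤ A.valuation b) : ∃ c ∈ A, a = b * c := by
  refine ⟨a / b, ?_, by field_simp⟩
  rw [← A.valuation_le_one_iff, map_div₀]
  exact div_le_one_of_le₀ h zero_le

include hp hA hζ in
/-- (VG1), divisibility form. -/
theorem vg1_mem (a : Qb) (ha : a ∈ A.nonunits)
    (hfix : ∀ σ ∈ A.inertiaSubgroupIn ℚ, σ ζ = ζ → σ a = a) :
    ∃ c ∈ A, a = (ζ - 1) * c :=
  exists_mul_of_valuation_le A (sub_ne_zero.mpr (hζ.ne_one hp.one_lt))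
    (vg1_le A p hp hA ζ hζ a ha hfix)

include hp hA in
/-- (VG0), divisibility form. -/
theorem vg0_mem (a : Qb) (ha : a ∈ A.nonunits)
    (hfix : ∀ σ ∈ A.inertiaSubgroupIn ℚ, σ a = a) :
    ∃ c ∈ A, a = (p : Qb) * c :=
  exists_mul_of_valuation_le A (by exact_mod_cast hp.ne_zero) (vg0_le p hp A hA a ha hfix)

end

end Fermat.Agent.S56.H66

end
-- ===== PACK-END S56/H66/VGArch.lean

-- ===== PACK-BEGIN S56/H66/Unr.lean
section



/-!
# S56 / FLAT-O, leaf UNR (helper66)

`unrVal : Fermat.Agent.S56.H906.UnrValStatement` — the inertia field is unramified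
(verbatim statement of `H906/FlatOSpec.lean`), from `vg0`.
-/

set_option autoImplicit false

namespace Fermat.Agent.S56.H66

/-- **(UNR)** of `H906/FlatOSpec.lean`. -/
theorem unrVal : Fermat.Agent.S56.H906.UnrValStatement :=
  fun p hp P hP y hy hfix => vg0 p hp P hP y hy hfix

end Fermat.Agent.S56.H66

end
-- ===== PACK-END S56/H66/Unr.lean

-- ===== PACK-BEGIN S56/H460/UnrVal.lean
section



/-!
# Row S56 — FLAT-O leaf (UNR) (helper460)

`unrVal : Fermat.Agent.S56.H906.UnrValStatement`: an element `y ≠ 0` of `ℚ̄` fixed by the inertia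
subgroup of a valuation subring `P` over `p` has `v_P(y) = v_P(p) ^ n` for some `n : ℤ`.

This is the landed A2 lemma `Fermat.Agent.A2.IF.H429.exists_zpow_of_mem_inertiaField` (the inertia
field is unramified) restated in the vocabulary of `S56/H906/FlatOSpec.lean`.
-/

set_option autoImplicit false

namespace Fermat.Agent.S56.H460

/-- (UNR) the valuation of an inertia-fixed element is an integral power of the valuation of
`p`. -/
theorem unrVal : Fermat.Agent.S56.H906.UnrValStatement := by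
  intro p hp P hP y hy0 hfix
  have hy : y ∈ Fermat.Agent.A2.IF.H429.inertiaField P :=
    (Fermat.Agent.A2.IF.H429.mem_inertiaField_iff P).mpr hfix
  obtain ⟨k, hk⟩ :=
    Fermat.Agent.A2.IF.H429.exists_zpow_of_mem_inertiaField P p hp hP y hy hy0
  refine ⟨k, ?_⟩
  rw [map_div₀, map_zpow₀] at hk
  have hp0 : P.valuation ((p : ℕ) : AlgebraicClosure ℚ) ≠ 0 := by
    rw [Ne, map_eq_zero]
    exact_mod_cast hp.ne_zero
  have hne : P.valuation ((p : ℕ) : AlgebraicClosure ℚ) ^ k ≠ 0 := zpow_ne_zero k hp0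
  exact (div_eq_one_iff_eq hne).mp hk

end Fermat.Agent.S56.H460

end
-- ===== PACK-END S56/H460/UnrVal.lean

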