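import Mathlib
import Fermat.Prelude.Def_ModularCurve_ReductionModL
import Fermat.Prelude.Def_FLTPrelim_Ramification
import Mathlib.GroupTheory.CosetCover
import Fermat.Agent.Pack.S15.AE3L2
import Fermat.Agent.Pack.S15.AE3L3
import Fermat.Agent.Pack.S15.AE3L1
import Fermat.Agent.Pack.S15.AE2L1
import Fermat.Agent.Pack.S15.AE2L0
import Fermat.Agent.Pack.S15.AE1L0
import Fermat.Agent.Pack.S15.AE1L1
import Fermat.Agent.Pack.S15.AE1L2
import Fermat.Agent.Pack.S15.AE2L3
import Fermat.Agent.Pack.S15.AE0L1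
import Fermat.Agent.Pack.S15.AE0L0
import Fermat.Agent.Pack.S15.AE2L2
import Fermat.Agent.Pack.S15.AE0L2
import Fermat.Agent.Pack.S15.AE3L0

-- ===== PACK-BEGIN S29/H812/Norm.lean
section


/-!
# S29 / H812 — the norm formula `ord_v (N_{F'/F} f) = ∑_{w | v} ord_w f` for a finite extension
of function fields of one variable over an algebraically closed field of characteristic zero.
-/

set_option autoImplicit false

noncomputable section

open AlgebraicCurve IntermediateField

namespace Fermat.Agent.S29.H812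

open Fermat.Agent.S24

section Single

variable {K F : Type*} [Field K] [Field F] [Algebra K F]

theorem ord_prod (w : Place K F) {ι : Type*} (s : Finset ι) (g : ι → F)
    (hg : ∀ i ∈ s, g i ≠ 0) : w.ord (∏ i ∈ s, g i) = ∑ i ∈ s, w.ord (g i) := by
  classical
  induction s using Finset.induction_on with
  | empty => simp
  | insert a s ha ih =>
    rw [Finset.prod_insert ha, Finset.sum_insert ha,
      w.ord_mul (hg a (Finset.mem_insert_self _ _))
        (Finset.prod_ne_zero_iff.mpr fun i hi => hg i (Finset.mem_insert_of_mem hi)),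
      ih fun i hi => hg i (Finset.mem_insert_of_mem hi)]

theorem isUnit_of_ord_eq_zero (v : Place K F) (a : v.toValuationSubring) (ha : (a : F) ≠ 0)
    (h : v.ord (a : F) = 0) : IsUnit a := by
  rw [← v.adicValuation_coe_eq_one_iff, H504.adicValuation_eq_exp_neg_ord v ha, h]
  simp

end Single

variable {K F F' : Type*} [Field K] [Field F] [Field F']
  [Algebra K F] [Algebra K F'] [Algebra F F'] [IsScalarTower K F F']
  [Algebra.IsIntegral F F'] [HasPrincipalDivisors K F']
  [IsAlgClosed K] [CharZero K] [Module.Finite F F']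

/-- The matrix of multiplication by an integral element in a local integral basis, over the
valuation ring. -/
theorem exists_matrix (v : Place K F) [DecidableEq (FibIdx F' v)]
    (b : Module.Basis (FibIdx F' v) F F')
    (hb : ∀ i, InFib v (b i))
    (hrepr : ∀ x : F', InFib v x → ∀ i, b.repr x i ∈ v.toValuationSubring)
    {x : F'} (hx : InFib v x) :
    ∃ A : Matrix (FibIdx F' v) (FibIdx F' v) v.toValuationSubring,
      Algebra.leftMulMatrix b x = A.map v.toValuationSubring.subtype := by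
  refine ⟨fun i j => ⟨Algebra.leftMulMatrix b x i j, ?_⟩, ?_⟩
  · rw [Algebra.leftMulMatrix_eq_repr_mul]
    exact hrepr _ (hx.mul (hb j)) i
  · ext i j
    rfl

/-- The norm of an element integral above `v` is integral at `v`. -/
theorem norm_mem_of_inFib (hF : ∃ x : F, Transcendental K x ∧ FiniteDimensional K⟮x⟯ F)
    (v : Place K F) {x : F'} (hx : InFib v x) : Algebra.norm F x ∈ v.toValuationSubring := by
  classical
  obtain ⟨b, hb, hrepr⟩ := exists_integral_basis (F' := F') hF v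
  obtain ⟨A, hA⟩ := exists_matrix v b hb hrepr hx
  rw [Algebra.norm_eq_matrix_det b x, hA, ← RingHom.mapMatrix_apply, ← RingHom.map_det]
  exact (A.det).2

/-- If the norm of an integral element is a unit at `v`, the inverse is integral above `v`. -/
theorem inFib_inv_of_ord_norm_eq_zero
    (hF : ∃ x : F, Transcendental K x ∧ FiniteDimensional K⟮x⟯ F)
    (v : Place K F) {x : F'} (hx0 : x ≠ 0) (hx : InFib v x)
    (hN : v.ord (Algebra.norm F x) = 0) : InFib v x⁻¹ := by
  classical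
  obtain ⟨b, hb, hrepr⟩ := exists_integral_basis (F' := F') hF v
  obtain ⟨A, hA⟩ := exists_matrix v b hb hrepr hx
  have hdet : ((A.det : v.toValuationSubring) : F) = Algebra.norm F x := by
    rw [Algebra.norm_eq_matrix_det b x, hA, ← RingHom.mapMatrix_apply, ← RingHom.map_det]
    rfl
  have hNne : Algebra.norm F x ≠ 0 := Algebra.norm_ne_zero_iff.mpr hx0
  have hunit : IsUnit A.det :=
    isUnit_of_ord_eq_zero v A.det (by rw [hdet]; exact hNne) (by rw [hdet]; exact hN)
  -- the inverse matrix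
  have h1 : A⁻¹ * A = 1 := Matrix.nonsing_inv_mul A hunit
  have h2 : (A⁻¹).map v.toValuationSubring.subtype * Algebra.leftMulMatrix b x = 1 := by
    rw [hA, ← Matrix.map_mul, h1]
    exact Matrix.map_one _ (map_zero _) (map_one _)
  have h3 : Algebra.leftMulMatrix b x * Algebra.leftMulMatrix b x⁻¹ = 1 := by
    rw [← map_mul, mul_inv_cancel₀ hx0, map_one]
  have h4 : Algebra.leftMulMatrix b x⁻¹ = (A⁻¹).map v.toValuationSubring.subtype := by
    calc Algebra.leftMulMatrix b x⁻¹
        = ((A⁻¹).map v.toValuationSubring.subtype * Algebra.leftMulMatrix b x)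
            * Algebra.leftMulMatrix b x⁻¹ := by rw [h2, one_mul]
      _ = (A⁻¹).map v.toValuationSubring.subtype := by rw [mul_assoc, h3, mul_one]
  -- coordinates of `x⁻¹`
  have hcoord : ∀ i, b.repr x⁻¹ i ∈ v.toValuationSubring := by
    intro i
    have h5 := congrFun (Algebra.leftMulMatrix_mulVec_repr b x⁻¹ 1) i
    rw [mul_one] at h5
    rw [← h5, Matrix.mulVec, dotProduct]
    refine sum_mem fun j _ => mul_mem ?_ (hrepr 1 (inFib_one v) j)
    rw [h4]
    exact (A⁻¹ i j).2
  rw [← b.sum_repr x⁻¹]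
  exact inFib_sum _ _ fun i _ => (hb i).smul (hcoord i)

variable (hF : ∃ x : F, Transcendental K x ∧ FiniteDimensional K⟮x⟯ F)

include hF in
/-- Units above `v` have unit norm. -/
theorem ord_norm_eq_zero_of_unit (v : Place K F) {x : F'} (hx0 : x ≠ 0)
    (hx : ∀ w ∈ v.fiber F', w.ord x = 0) : v.ord (Algebra.norm F x) = 0 := by
  have h1 : InFib v x := inFib_iff_ord.mpr fun w hw => (hx w hw).ge
  have h2 : InFib v x⁻¹ := inFib_iff_ord.mpr fun w hw => by
    rw [w.ord_inv, hx w hw]; rfl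
  have h3 := H117.ord_nonneg_of_mem v (norm_mem_of_inFib hF v h1)
  have h4 := H117.ord_nonneg_of_mem v (norm_mem_of_inFib hF v h2)
  have h5 : Algebra.norm F x * Algebra.norm F x⁻¹ = 1 := by
    rw [← map_mul, mul_inv_cancel₀ hx0, map_one]
  have h6 : v.ord (Algebra.norm F x) + v.ord (Algebra.norm F x⁻¹) = 0 := by
    rw [← v.ord_mul (Algebra.norm_ne_zero_iff.mpr hx0)
      (Algebra.norm_ne_zero_iff.mpr (inv_ne_zero hx0)), h5, v.ord_one]
  omega

include hF in
/-- Non-units above `v` have non-unit norm. -/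
theorem ord_norm_pos_of_ord_pos (v : Place K F) {x : F'} (hx0 : x ≠ 0) (hx : InFib v x)
    {w₀ : Place K F'} (hw₀ : w₀ ∈ v.fiber F') (hpos : 0 < w₀.ord x) :
    0 < v.ord (Algebra.norm F x) := by
  have h3 := H117.ord_nonneg_of_mem v (norm_mem_of_inFib hF v hx)
  rcases eq_or_lt_of_le h3 with h0 | hlt
  · exfalso
    have h := inFib_inv_of_ord_norm_eq_zero hF v hx0 hx h0.symm
    have := H117.ord_nonneg_of_mem w₀ (h w₀ hw₀)
    rw [w₀.ord_inv] at this
    omega
  · exact hlt

include hF in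
/-- Elements with the same orders above `v` have norms of the same order at `v`. -/
theorem ord_norm_congr (v : Place K F) {g h : F'} (hg : g ≠ 0) (hh : h ≠ 0)
    (hgh : ∀ w ∈ v.fiber F', w.ord g = w.ord h) :
    v.ord (Algebra.norm F g) = v.ord (Algebra.norm F h) := by
  have hu0 : g * h⁻¹ ≠ 0 := mul_ne_zero hg (inv_ne_zero hh)
  have hu : v.ord (Algebra.norm F (g * h⁻¹)) = 0 :=
    ord_norm_eq_zero_of_unit hF v hu0 fun w hw => by
      rw [w.ord_mul hg (inv_ne_zero hh), w.ord_inv, hgh w hw]; ring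
  have h1 : g = (g * h⁻¹) * h := by field_simp
  have h2 : Algebra.norm F g = Algebra.norm F (g * h⁻¹) * Algebra.norm F h := by
    rw [← map_mul, ← h1]
  rw [h2, v.ord_mul (Algebra.norm_ne_zero_iff.mpr hu0) (Algebra.norm_ne_zero_iff.mpr hh), hu,
    zero_add]

end Fermat.Agent.S29.H812

end
end
-- ===== PACK-END S29/H812/Norm.lean

-- ===== PACK-BEGIN S29/H812/NormFormula.lean
section


/-!
# S29 / H812 — the norm formula and the Prelude classes `SumRamificationInertia`,
`FundamentalIdentity`, `PushforwardNormFormula` for finite extensions of function fields over an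
algebraically closed field of characteristic zero.
-/

set_option autoImplicit false

noncomputable section

open AlgebraicCurve IntermediateField

namespace Fermat.Agent.S29.H812

open Fermat.Agent.S24

variable {K F F' : Type*} [Field K] [Field F] [Field F']
  [Algebra K F] [Algebra K F'] [Algebra F F'] [IsScalarTower K F F']
  [Algebra.IsIntegral F F'] [HasPrincipalDivisors K F']
  [IsAlgClosed K] [CharZero K] [Module.Finite F F']

variable (hF : ∃ x : F, Transcendental K x ∧ FiniteDimensional K⟮x⟯ F)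

include hF in
omit [HasPrincipalDivisors K F'] [CharZero K] in
theorem inertiaDeg_eq_one (w : Place K F') : w.inertiaDeg F = 1 := by
  obtain ⟨x, hx, hxfin⟩ := hF
  haveI := finiteDimensional_adjoin_algebraMap (K := K) (F' := F') x
  have h := w.deg_restrict_mul_inertiaDeg (F := F)
  rw [FF.deg_eq_one (w.restrict F) hx,
    FF.deg_eq_one w (transcendental_algebraMap_of (F' := F') hx), one_mul] at h
  exact h

include hF in
/-- **Norm formula**: `ord_v (N f) = ∑_{w | v} ord_w f`. -/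
theorem ord_norm_eq_sum (v : Place K F) {f : F'} (hf : f ≠ 0) :
    v.ord (Algebra.norm F f) = ∑ w ∈ v.fiber F', w.ord f := by
  classical
  have hϖ : ∀ w : Place K F', ∃ ϖ : F', ϖ ≠ 0 ∧ w.ord ϖ = 1 ∧
      ∀ w' ∈ (v.fiber F').erase w, w'.ord ϖ = 0 := fun w =>
    exists_ord_eq_one_and_zero w _ (Finset.notMem_erase _ _)
  choose ϖ hϖ0 hϖ1 hϖ2 using hϖ
  set c : Place K F' → ℤ := fun w => v.ord (Algebra.norm F (ϖ w)) with hc
  have hpne : ∀ k : Place K F' → ℕ, ∏ w ∈ v.fiber F', ϖ w ^ k w ≠ 0 := fun k =>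
    Finset.prod_ne_zero_iff.mpr fun w _ => pow_ne_zero _ (hϖ0 w)
  have hprod : ∀ (k : Place K F' → ℕ), ∀ w' ∈ v.fiber F',
      w'.ord (∏ w ∈ v.fiber F', ϖ w ^ k w) = k w' := by
    intro k w' hw'
    rw [ord_prod w' _ _ fun w _ => pow_ne_zero _ (hϖ0 w)]
    simp_rw [H117.ord_pow]
    rw [Finset.sum_eq_single w']
    · rw [hϖ1 w']; ring
    · intro w _ hne
      rw [hϖ2 w w' (Finset.mem_erase.mpr ⟨fun h => hne h.symm, hw'⟩)]; ring
    · intro h; exact absurd hw' h
  have hnorm : ∀ k : Place K F' → ℕ,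
      v.ord (Algebra.norm F (∏ w ∈ v.fiber F', ϖ w ^ k w)) = ∑ w ∈ v.fiber F', (k w : ℤ) * c w := by
    intro k
    rw [map_prod, ord_prod v _ _ fun w _ =>
      Algebra.norm_ne_zero_iff.mpr (pow_ne_zero _ (hϖ0 w))]
    refine Finset.sum_congr rfl fun w _ => ?_
    rw [map_pow, H117.ord_pow]
  have hstar : ∀ f : F', f ≠ 0 →
      v.ord (Algebra.norm F f) = ∑ w ∈ v.fiber F', w.ord f * c w := by
    intro f hf
    set p : Place K F' → ℕ := fun w => (w.ord f).toNat with hp
    set n : Place K F' → ℕ := fun w => (-(w.ord f)).toNat with hn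
    have hpn : ∀ w : Place K F', w.ord f = (p w : ℤ) - (n w : ℤ) := by
      intro w
      simp only [hp, hn]
      omega
    have hcong := ord_norm_congr hF v (g := f * ∏ w ∈ v.fiber F', ϖ w ^ n w)
      (h := ∏ w ∈ v.fiber F', ϖ w ^ p w) (mul_ne_zero hf (hpne n)) (hpne p) (by
        intro w' hw'
        rw [w'.ord_mul hf (hpne n), hprod n w' hw', hprod p w' hw', hpn w']
        ring)
    rw [map_mul, v.ord_mul (Algebra.norm_ne_zero_iff.mpr hf)
      (Algebra.norm_ne_zero_iff.mpr (hpne n)), hnorm, hnorm] at hcong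
    have : ∑ w ∈ v.fiber F', w.ord f * c w
        = ∑ w ∈ v.fiber F', (p w : ℤ) * c w - ∑ w ∈ v.fiber F', (n w : ℤ) * c w := by
      rw [← Finset.sum_sub_distrib]
      refine Finset.sum_congr rfl fun w _ => ?_
      rw [hpn w]; ring
    rw [this]
    linarith
  -- the constants `c w` are all `1`
  obtain ⟨π, hπ0, hπ1⟩ := H117.exists_ord_eq_one v
  have hπ' : algebraMap F F' π ≠ 0 := by simpa using hπ0
  have h1 := hstar (algebraMap F F' π) hπ'
  rw [Algebra.norm_algebraMap, H117.ord_pow, hπ1, mul_one] at h1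
  have h2 : ∀ w ∈ v.fiber F', w.ord (algebraMap F F' π) = (w.ramificationIndex F : ℤ) := by
    intro w hw
    rw [w.ord_restrict, Place.mem_fiber.mp hw, hπ1, mul_one]
  have h3 : ((∑ w ∈ v.fiber F', w.ramificationIndex F : ℕ) : ℤ) = (Module.finrank F F' : ℤ) := by
    exact_mod_cast sum_ramificationIndex_eq_finrank hF v
  have hcpos : ∀ w ∈ v.fiber F', 1 ≤ c w := by
    intro w hw
    have hin : InFib v (ϖ w) := inFib_iff_ord.mpr fun w' hw' => by
      by_cases h : w' = w
      · rw [h, hϖ1]; norm_num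
      · rw [hϖ2 w w' (Finset.mem_erase.mpr ⟨h, hw'⟩)]
    have := ord_norm_pos_of_ord_pos hF v (hϖ0 w) hin hw (by rw [hϖ1]; norm_num)
    exact this
  have h4 : ∑ w ∈ v.fiber F', (w.ramificationIndex F : ℤ) * (c w - 1) = 0 := by
    have : ∑ w ∈ v.fiber F', (w.ramificationIndex F : ℤ) * (c w - 1)
        = ∑ w ∈ v.fiber F', w.ord (algebraMap F F' π) * c w
          - ∑ w ∈ v.fiber F', (w.ramificationIndex F : ℤ) := by
      rw [← Finset.sum_sub_distrib]
      refine Finset.sum_congr rfl fun w hw => ?_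
      rw [h2 w hw]; ring
    rw [this, ← h1]
    push_cast at h3
    rw [h3]; ring
  have h5 := (Finset.sum_eq_zero_iff_of_nonneg (fun w hw => by
    have he : (0 : ℤ) ≤ (w.ramificationIndex F : ℤ) := Int.natCast_nonneg _
    have := hcpos w hw
    exact mul_nonneg he (by omega))).mp h4
  have hc1 : ∀ w ∈ v.fiber F', c w = 1 := by
    intro w hw
    have h6 := h5 w hw
    have he : (0 : ℤ) < (w.ramificationIndex F : ℤ) := by
      exact_mod_cast w.ramificationIndex_pos (F := F)
    rcases mul_eq_zero.mp h6 with h7 | h7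
    · omega
    · omega
  rw [hstar f hf]
  refine Finset.sum_congr rfl fun w hw => ?_
  rw [hc1 w hw, mul_one]

include hF in
/-- The Prelude's `PushforwardNormFormula`. -/
theorem pushforwardNormFormula : Divisor.PushforwardNormFormula K F F' := by
  classical
  intro f hf D hD v
  rw [Divisor.pushforward_apply, ord_norm_eq_sum hF v hf]
  have h1 : ∀ w ∈ D.support,
      (if w.restrict F = v then D w * (w.inertiaDeg F : ℤ) else 0)
        = if w.restrict F = v then w.ord f else 0 := by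
    intro w _
    rw [inertiaDeg_eq_one hF w, hD w]
    simp
  rw [Finset.sum_congr rfl h1, ← Finset.sum_filter]
  refine Finset.sum_subset ?_ ?_
  · intro w hw
    exact Place.mem_fiber.mpr (Finset.mem_filter.mp hw).2
  · intro w hw hnot
    have : w ∉ D.support := fun h => hnot (Finset.mem_filter.mpr ⟨h, Place.mem_fiber.mp hw⟩)
    rw [Finsupp.notMem_support_iff] at this
    rw [← hD w, this]

include hF in
/-- The Prelude's `SumRamificationInertia`. -/
theorem sumRamificationInertia : SumRamificationInertia K F F' where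
  sum_ramificationIndex_mul_inertiaDeg v := by
    have h := sum_ramificationIndex_eq_finrank (F' := F') hF v
    rw [← h]
    push_cast
    refine Finset.sum_congr rfl fun w _ => ?_
    rw [inertiaDeg_eq_one hF w]
    simp

include hF in
/-- The Prelude's `FundamentalIdentity`. -/
theorem fundamentalIdentity : FundamentalIdentity K F F' :=
  haveI := sumRamificationInertia (F' := F') hF
  inferInstance

end Fermat.Agent.S29.H812

end
end
-- ===== PACK-END S29/H812/NormFormula.lean

-- ===== PACK-BEGIN Lib/X0Branch/H997Branch.lean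
section






/-!
# Branch data of `X₀(N) → X(1)` in the Prelude's place language (helper997)

`F = FF N = modularFunctionFieldBar N`, `K = Kbar = ℚ̄`, `j = jF N`.

* `ord_sub_eq_one`      : `F / K(j)` is unramified over every `a ∉ {0, 1728}`;
* `ord_dvd_three`       : ramification indices over `j = 0` divide `3`;
* `ord_sub_dvd_two`     : ramification indices over `j = 1728` divide `2`;
* `ord_inv_dvd_level`   : ramification indices over `j = ∞` divide `N`;
* `card_places_sub`, `card_places_zero`, `card_places_1728`, `card_places_inf` : the number of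
  places over each point (`ψ(N)`, resp. the number of cycles of `ST`, `S`, `T` on
  `SL₂(ℤ)/Γ₀(N)`), with the closed formulas of `Fermat.Agent.S24.Count`;
* `sum_ord_sub`, `sum_ord_inv` : `∑ e_v = ψ(N)`.
-/

set_option autoImplicit false
set_option linter.style.haveILetI false
set_option linter.unusedSectionVars false

noncomputable section

open AlgebraicCurve ModularCurve IntermediateField
open scoped MatrixGroups

namespace Fermat.Agent.Lib.X0Branch

open Fermat.Agent.S24

/-! ### Generalities on `LocalData` -/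

section General

variable {K F : Type*} [Field K] [Field F] [Algebra K F] [CharZero K]
variable {C : Type*} [Field C] {X : Type*} [Finite X]
variable {t : F} (L : LocalData K F C X t)

/-- If `perm ^ k = 1` then every ramification index over `t = 0` divides `k`. -/
theorem ord_dvd_of_perm_pow (E : IntermediateField K F) (hE : E ≤ K⟮t⟯) [FiniteDimensional E F]
    (hrank : Module.finrank E F = Nat.card X) (k : ℕ) (hk : L.perm ^ k = 1)
    (v : Place K F) (hv : 0 < v.ord t) : v.ord t ∣ (k : ℤ) := by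
  obtain ⟨x, rfl⟩ := H117.exists_placeOf_eq L E hE hrank v hv
  exact H117.ord_t_dvd_of_pow_apply_eq L x k (by rw [hk]; rfl)

end General

/-! ### The modular function field -/

variable (N : ℕ) [NeZero N]

instance finiteDimensional_FF : FiniteDimensional ↥Kbar⟮jF N⟯ (FF N) :=
  (Deg457.degree_fields N).1

theorem finrank_FF : Module.finrank ↥Kbar⟮jF N⟯ (FF N) = Nat.card (XX N) :=
  le_antisymm (Deg457.degree_fields N).2 (H997.analyticCore N).card_le_finrank

theorem finrank_FF_eq_psi : Module.finrank ↥Kbar⟮jF N⟯ (FF N) = dedekindPsi N := by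
  rw [finrank_FF, card_XX]

/-- the local data over a finite point -/
def dataFin (a : Kbar) : LocalData Kbar (FF N) ℂ (XX N) (jF N - algebraMap Kbar (FF N) a) :=
  (H997.analyticCore N).dataFin a

/-- the local data over `∞` -/
def dataInf : LocalData Kbar (FF N) ℂ (XX N) (jF N)⁻¹ :=
  (H997.analyticCore N).dataInf

theorem dataFin_perm_generic (a : Kbar) (h0 : a ≠ 0) (h1 : a ≠ 1728) :
    (dataFin N a).perm = 1 :=
  (H997.analyticCore N).dataFin_perm_generic a h0 h1

theorem dataFin_perm_zero :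
    (dataFin N 0).perm = permOf N (ModularGroup.S * ModularGroup.T)⁻¹ := by
  unfold dataFin H997.AnalyticCore.dataFin
  rw [dif_pos rfl]
  rfl

theorem dataFin_perm_1728 : (dataFin N 1728).perm = permOf N ModularGroup.S⁻¹ := by
  have h0 : (1728 : Kbar) ≠ 0 := by norm_num
  unfold dataFin H997.AnalyticCore.dataFin
  rw [dif_neg h0, dif_pos rfl]
  rfl

theorem dataInf_perm : (dataInf N).perm = permOf N ModularGroup.T⁻¹ := rfl

/-! ### Group theory in `SL₂(ℤ)` -/

theorem permOf_mul (g h : SL(2, ℤ)) : permOf N (g * h) = permOf N g * permOf N h := by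
  ext x
  simp [permOf, mul_smul]

theorem permOf_pow (g : SL(2, ℤ)) (k : ℕ) : permOf N (g ^ k) = permOf N g ^ k := by
  induction k with
  | zero => rw [pow_zero, pow_zero]; exact H997.permOf_one N
  | succ n ih => rw [pow_succ, pow_succ, permOf_mul, ih]

theorem permOf_eq_one_of_normal {g : SL(2, ℤ)}
    (hg : ∀ h : SL(2, ℤ), h⁻¹ * g * h ∈ CongruenceSubgroup.Gamma0 N) : permOf N g = 1 := by
  ext x
  obtain ⟨h, rfl⟩ := QuotientGroup.mk_surjective x
  show ((g * h : SL(2, ℤ)) : XX N) = (h : XX N)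
  rw [QuotientGroup.eq]
  have := (CongruenceSubgroup.Gamma0 N).inv_mem (hg h)
  simpa [mul_assoc] using this

theorem neg_one_mem_Gamma0 : (-1 : SL(2, ℤ)) ∈ CongruenceSubgroup.Gamma0 N := by
  rw [CongruenceSubgroup.Gamma0_mem]
  simp

theorem permOf_neg_one : permOf N (-1) = 1 := by
  apply permOf_eq_one_of_normal
  intro h
  have : h⁻¹ * (-1) * h = -1 := by
    rw [mul_neg, mul_one, neg_mul, inv_mul_cancel]
  rw [this]
  exact neg_one_mem_Gamma0 N

theorem S_sq : ModularGroup.S ^ 2 = (-1 : SL(2, ℤ)) := by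
  apply Subtype.ext
  rw [Matrix.SpecialLinearGroup.coe_pow, ModularGroup.coe_S, Matrix.SpecialLinearGroup.coe_neg,
    Matrix.SpecialLinearGroup.coe_one]
  ext i j
  fin_cases i <;> fin_cases j <;> simp [pow_two, Matrix.mul_apply, Fin.sum_univ_two]

theorem ST_cube : (ModularGroup.S * ModularGroup.T) ^ 3 = (-1 : SL(2, ℤ)) := by
  apply Subtype.ext
  rw [Matrix.SpecialLinearGroup.coe_pow, Matrix.SpecialLinearGroup.coe_mul, ModularGroup.coe_S,
    ModularGroup.coe_T, Matrix.SpecialLinearGroup.coe_neg, Matrix.SpecialLinearGroup.coe_one]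
  ext i j
  fin_cases i <;> fin_cases j <;> simp [pow_succ, Matrix.mul_apply, Fin.sum_univ_two]

theorem conj_T_pow_mem_Gamma0 (h : SL(2, ℤ)) :
    h⁻¹ * ModularGroup.T ^ N * h ∈ CongruenceSubgroup.Gamma0 N := by
  rw [CongruenceSubgroup.Gamma0_mem]
  have hT : ((ModularGroup.T ^ N : SL(2, ℤ)) : Matrix (Fin 2) (Fin 2) ℤ) = !![1, (N : ℤ); 0, 1] := by
    have := ModularGroup.coe_T_zpow (N : ℤ)
    rwa [zpow_natCast] at this
  have key : ((h⁻¹ * ModularGroup.T ^ N * h : SL(2, ℤ)) : Matrix (Fin 2) (Fin 2) ℤ) 1 0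
      = -(N : ℤ) * (h.1 1 0) ^ 2 := by
    rw [Matrix.SpecialLinearGroup.coe_mul, Matrix.SpecialLinearGroup.coe_mul, hT,
      Matrix.SpecialLinearGroup.coe_inv, Matrix.adjugate_fin_two]
    simp [Matrix.mul_apply, Fin.sum_univ_two]
    ring
  rw [key]
  push_cast
  simp

theorem permOf_T_pow : permOf N ModularGroup.T ^ N = 1 := by
  rw [← permOf_pow]
  exact permOf_eq_one_of_normal N (conj_T_pow_mem_Gamma0 N)

theorem permOf_S_sq : permOf N ModularGroup.S ^ 2 = 1 := by
  rw [← permOf_pow, S_sq, permOf_neg_one]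

theorem permOf_ST_cube : permOf N (ModularGroup.S * ModularGroup.T) ^ 3 = 1 := by
  rw [← permOf_pow, ST_cube, permOf_neg_one]

/-! ### Ramification indices -/

theorem le_adjoin_sub (a : Kbar) : Kbar⟮jF N⟯ ≤ Kbar⟮jF N - algebraMap Kbar (FF N) a⟯ :=
  (FF.adjoin_sub_const_eq (jF N) a).ge

theorem le_adjoin_inv : Kbar⟮jF N⟯ ≤ Kbar⟮(jF N)⁻¹⟯ :=
  (FF.adjoin_inv_eq (jF N)).ge

/-- **Unramified outside `{0, 1728, ∞}`.** -/
theorem ord_sub_eq_one (a : Kbar) (h0 : a ≠ 0) (h1 : a ≠ 1728) (v : Place Kbar (FF N))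
    (hv : 0 < v.ord (jF N - algebraMap Kbar (FF N) a)) :
    v.ord (jF N - algebraMap Kbar (FF N) a) = 1 := by
  have h := ord_dvd_of_perm_pow (dataFin N a) Kbar⟮jF N⟯ (le_adjoin_sub N a) (finrank_FF N) 1
    (by rw [dataFin_perm_generic N a h0 h1, one_pow]) v hv
  have h' : v.ord (jF N - algebraMap Kbar (FF N) a) ∣ 1 := by simpa using h
  exact Int.eq_one_of_dvd_one hv.le h'

/-- The ramification indices over `j = 0` divide `3`. -/
theorem ord_dvd_three (v : Place Kbar (FF N)) (hv : 0 < v.ord (jF N)) : v.ord (jF N) ∣ 3 := by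
  have hv' : 0 < v.ord (jF N - algebraMap Kbar (FF N) 0) := by rwa [map_zero, sub_zero]
  have h := ord_dvd_of_perm_pow (dataFin N 0) Kbar⟮jF N⟯ (le_adjoin_sub N 0) (finrank_FF N) 3
    (by rw [dataFin_perm_zero, H997.permOf_inv, inv_pow, permOf_ST_cube, inv_one]) v hv'
  rw [map_zero, sub_zero] at h
  exact_mod_cast h

/-- The ramification indices over `j = 1728` divide `2`. -/
theorem ord_sub_dvd_two (v : Place Kbar (FF N))
    (hv : 0 < v.ord (jF N - algebraMap Kbar (FF N) 1728)) :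
    v.ord (jF N - algebraMap Kbar (FF N) 1728) ∣ 2 := by
  have h := ord_dvd_of_perm_pow (dataFin N 1728) Kbar⟮jF N⟯ (le_adjoin_sub N 1728) (finrank_FF N) 2
    (by rw [dataFin_perm_1728, H997.permOf_inv, inv_pow, permOf_S_sq, inv_one]) v hv
  exact_mod_cast h

/-- The ramification indices over `j = ∞` divide the level `N`. -/
theorem ord_inv_dvd_level (v : Place Kbar (FF N)) (hv : 0 < v.ord (jF N)⁻¹) :
    v.ord (jF N)⁻¹ ∣ (N : ℤ) :=
  ord_dvd_of_perm_pow (dataInf N) Kbar⟮jF N⟯ (le_adjoin_inv N) (finrank_FF N) N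
    (by rw [dataInf_perm, H997.permOf_inv, inv_pow, permOf_T_pow, inv_one]) v hv

/-! ### Counting places -/

instance finiteDimensional_sub (a : Kbar) :
    FiniteDimensional ↥Kbar⟮jF N - algebraMap Kbar (FF N) a⟯ (FF N) :=
  FF.finiteDimensional_adjoin_sub_const (jF N) a

instance finiteDimensional_inv : FiniteDimensional ↥Kbar⟮(jF N)⁻¹⟯ (FF N) :=
  FF.finiteDimensional_adjoin_inv (jF N)

theorem finrank_sub (a : Kbar) :
    Module.finrank ↥Kbar⟮jF N - algebraMap Kbar (FF N) a⟯ (FF N) = Nat.card (XX N) := by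
  rw [FF.finrank_adjoin_sub_const, finrank_FF]

theorem finrank_inv : Module.finrank ↥Kbar⟮(jF N)⁻¹⟯ (FF N) = Nat.card (XX N) := by
  rw [FF.finrank_adjoin_inv, finrank_FF]

/-- The places over `j = a`: finitely many, as many as the cycles of the local monodromy, and
`∑ e_v = ψ(N)`. -/
theorem places_sub (a : Kbar) :
    {v : Place Kbar (FF N) | 0 < v.ord (jF N - algebraMap Kbar (FF N) a)}.Finite ∧
      Nat.card ↥{v : Place Kbar (FF N) | 0 < v.ord (jF N - algebraMap Kbar (FF N) a)}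
        = numOrbits (dataFin N a).perm ∧
      ∑ᶠ v ∈ {v : Place Kbar (FF N) | 0 < v.ord (jF N - algebraMap Kbar (FF N) a)},
        v.ord (jF N - algebraMap Kbar (FF N) a) = (dedekindPsi N : ℤ) := by
  have h := H324.local_count (dataFin N a) (finrank_sub N a)
  rw [card_XX] at h
  exact h

theorem places_inv :
    {v : Place Kbar (FF N) | 0 < v.ord (jF N)⁻¹}.Finite ∧
      Nat.card ↥{v : Place Kbar (FF N) | 0 < v.ord (jF N)⁻¹} = cuspCount N ∧
      ∑ᶠ v ∈ {v : Place Kbar (FF N) | 0 < v.ord (jF N)⁻¹}, v.ord (jF N)⁻¹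
        = (dedekindPsi N : ℤ) := by
  have h := H324.local_count (dataInf N) (finrank_inv N)
  have hp : numOrbits (dataInf N).perm = cuspCount N := by
    rw [← numOrbits_T]
    exact (H997.analyticCore N).dataInf_perm
  rw [card_XX, hp] at h
  exact h

/-- Over `a ∉ {0, 1728}` there are exactly `ψ(N) = [F : K(j)]` places. -/
theorem card_places_sub (a : Kbar) (h0 : a ≠ 0) (h1 : a ≠ 1728) :
    Nat.card ↥{v : Place Kbar (FF N) | 0 < v.ord (jF N - algebraMap Kbar (FF N) a)}
      = dedekindPsi N := by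
  classical
  obtain ⟨hfin, -, hsum⟩ := places_sub N a
  rw [finsum_mem_eq_finite_toFinset_sum _ hfin] at hsum
  have h1' : ∀ v ∈ hfin.toFinset, v.ord (jF N - algebraMap Kbar (FF N) a) = 1 := by
    intro v hv
    exact ord_sub_eq_one N a h0 h1 v ((Set.Finite.mem_toFinset hfin).mp hv)
  rw [Finset.sum_congr rfl h1', Finset.sum_const, nsmul_eq_mul, mul_one] at hsum
  rw [Nat.card_eq_card_finite_toFinset hfin]
  exact_mod_cast hsum

/-- `3 · #{places over j = 0} = ψ(N) + 2 ν₃(N)`. -/
theorem card_places_zero :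
    3 * Nat.card ↥{v : Place Kbar (FF N) | 0 < v.ord (jF N)} = dedekindPsi N + 2 * nuThree N := by
  have h := (places_sub N 0).2.1
  simp only [map_zero, sub_zero] at h
  rw [h]
  have := (H997.analyticCore N).dataFin_zero_perm
  rw [show (dataFin N 0).perm = ((H997.analyticCore N).dataFin 0).perm from rfl, this,
    three_mul_numOrbits_ST]

/-- `2 · #{places over j = 1728} = ψ(N) + ν₂(N)`. -/
theorem card_places_1728 :
    2 * Nat.card ↥{v : Place Kbar (FF N) | 0 < v.ord (jF N - algebraMap Kbar (FF N) 1728)}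
      = dedekindPsi N + nuTwo N := by
  rw [(places_sub N 1728).2.1,
    show (dataFin N 1728).perm = ((H997.analyticCore N).dataFin 1728).perm from rfl,
    (H997.analyticCore N).dataFin_1728_perm, two_mul_numOrbits_S]

end Fermat.Agent.Lib.X0Branch

end
end
-- ===== PACK-END Lib/X0Branch/H997Branch.lean

-- ===== PACK-BEGIN S28/H589/UnitPoly.lean
section



/-!
# S28 / [A-W] (helper589): `p¹² Δ(q^p)/Δ(q)` is integral over `ℤ[j]`

Same route as `[A-Φ]` (`ModPoly.lean`): helper648's conjugate product for the good function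
`u(τ) = p¹² Δ(pτ)/Δ(τ)` gives `W ∈ ℂ[Y][X]`, monic of degree `p + 1`, with
`W(u(τ), j(τ)) = 0` and `W(Δ(τ)/Δ(pτ), j(pτ)) = 0`; `descent` shows `W ∈ ℤ[Y][X]`.
-/

set_option autoImplicit false

noncomputable section

open UpperHalfPlane ModularCurve CongruenceSubgroup Function
open scoped MatrixGroups Manifold Real Modular

namespace Fermat.Agent.S28.H589

open Fermat.Agent.S28.H565 (HasTExp deltaSeriesC deltaInvSeriesC)
open Fermat.Agent.S24.H648 (goodRing ExpGrowth)

local notation "Δ" => ModularForm.discriminant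

/-! ### Formal identifications -/

theorem map_map_intCast (x : PowerSeries ℤ) :
    (x.map (Int.castRingHom ℤ)).map (Int.castRingHom ℂ) = x.map (Int.castRingHom ℂ) := by
  ext n
  simp

theorem iotaC_deltaL : iotaC (deltaL ℤ) = deltaSeriesC := by
  rw [deltaL, map_mul, iotaC, coeffMap_single, coeffMap_ofPowerSeries, map_map_intCast,
    Fermat.Agent.S28.H565.map_dedekindEtaUnit, deltaSeriesC]
  simp

theorem iotaC_deltaInvL : iotaC (deltaInvL ℤ) = deltaInvSeriesC := by
  rw [deltaInvL, map_mul, iotaC, coeffMap_single, coeffMap_ofPowerSeries, map_map_intCast,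
    deltaInvSeriesC, Fermat.Agent.S28.H565.etaInvC]
  simp

theorem iotaC_unit (p : ℕ) [NeZero p] :
    iotaC ((p : LaurentSeries ℤ) ^ 12 * unitL ℤ p) = unitSeriesC p := by
  rw [unitL, map_mul, map_mul, map_pow, map_natCast, iotaC, coeffMap_qExpand]
  change _ * (qExpand ℂ p (iotaC (deltaL ℤ)) * iotaC (deltaInvL ℤ)) = _
  rw [iotaC_deltaL, iotaC_deltaInvL, unitSeriesC, map_pow, map_natCast]
  ring

/-- The integral series `Δ(q)/Δ(q^p)`. -/
def unitL' (p : ℕ) [NeZero p] : LaurentSeries ℤ := deltaL ℤ * qExpand ℤ p (deltaInvL ℤ)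

theorem iotaC_unit' (p : ℕ) [NeZero p] : iotaC (unitL' p) = unitSeriesC' p := by
  rw [unitL', map_mul, iotaC, coeffMap_qExpand]
  change iotaC (deltaL ℤ) * qExpand ℂ p (iotaC (deltaInvL ℤ)) = _
  rw [iotaC_deltaL, iotaC_deltaInvL, unitSeriesC']

theorem deltaSeriesC_ne_zero : deltaSeriesC ≠ 0 := by
  intro h
  have := Fermat.Agent.S28.H565.deltaSeriesC_mul_inv
  rw [h, zero_mul] at this
  exact zero_ne_one this

theorem order_deltaSeriesC : deltaSeriesC.order = 1 := by
  have hc : ∀ n : ℤ, deltaSeriesC.coeff n =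
      (HahnSeries.ofPowerSeries ℤ ℂ (Fermat.Agent.S28.H565.etaProdC ^ 24)).coeff (n - 1) := by
    intro n
    rw [deltaSeriesC, HahnSeries.coeff_single_mul, one_mul]
  have h1 : deltaSeriesC.coeff 1 ≠ 0 := by
    rw [hc]
    have : ((1 : ℤ) - 1) = ((0 : ℕ) : ℤ) := by norm_num
    rw [this, HahnSeries.ofPowerSeries_apply_coeff]
    have h2 : PowerSeries.constantCoeff (Fermat.Agent.S28.H565.etaProdC ^ 24) = 1 := by
      rw [map_pow, Fermat.Agent.S28.H565.etaProdC]
      have : PowerSeries.constantCoeff (PowerSeries.map (Int.castRingHom ℂ) ModularCurve.etaProd)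
          = 1 := by
        rw [← PowerSeries.coeff_zero_eq_constantCoeff_apply, PowerSeries.coeff_map,
          PowerSeries.coeff_zero_eq_constantCoeff_apply, ModularCurve.constantCoeff_etaProd]
        simp
      rw [this, one_pow]
    rw [PowerSeries.coeff_zero_eq_constantCoeff_apply, h2]
    exact one_ne_zero
  refine le_antisymm (HahnSeries.order_le_of_coeff_ne_zero h1) ?_
  by_contra hlt
  rw [not_le] at hlt
  refine (HahnSeries.coeff_order_eq_zero.not.mpr deltaSeriesC_ne_zero) ?_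
  rw [hc]
  exact ModularCurve.ofPowerSeries_coeff_of_neg _ (by omega)

theorem unitSeriesC'_mul (p : ℕ) [NeZero p] :
    unitSeriesC' p * qExpand ℂ p deltaSeriesC = deltaSeriesC := by
  rw [unitSeriesC', mul_assoc, ← map_mul, mul_comm deltaInvSeriesC,
    Fermat.Agent.S28.H565.deltaSeriesC_mul_inv, map_one, mul_one]

theorem unitSeriesC'_ne_zero (p : ℕ) [NeZero p] : unitSeriesC' p ≠ 0 := by
  intro h
  have := unitSeriesC'_mul p
  rw [h, zero_mul] at this
  exact deltaSeriesC_ne_zero this.symm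

/-- `ord (Δ(q)/Δ(q^p)) ≡ 1 mod p`. -/
theorem exists_order_unitSeriesC' (p : ℕ) [NeZero p] :
    ∃ m : ℤ, (unitSeriesC' p).order = 1 - p * m := by
  have hV : qExpand ℂ p deltaSeriesC ≠ 0 := by
    intro h
    have := unitSeriesC'_mul p
    rw [h, mul_zero] at this
    exact deltaSeriesC_ne_zero this.symm
  have hdvd : (p : ℤ) ∣ (qExpand ℂ p deltaSeriesC).order :=
    Fermat.Agent.S28.H145.dvd_order_qExpand (k := ℂ) p deltaSeriesC
  obtain ⟨m, hm⟩ := hdvd
  have h1 : (unitSeriesC' p * qExpand ℂ p deltaSeriesC).order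
      = (unitSeriesC' p).order + (qExpand ℂ p deltaSeriesC).order :=
    HahnSeries.order_mul (unitSeriesC'_ne_zero p) hV
  have h2 : (unitSeriesC' p * qExpand ℂ p deltaSeriesC).order = 1 := by
    rw [unitSeriesC'_mul p]
    exact order_deltaSeriesC
  refine ⟨m, ?_⟩
  rw [h2, hm] at h1
  generalize (unitSeriesC' p).order = o at h1
  omega

/-- The complex polynomial of the unit with its two formal vanishing relations. -/
theorem exists_unitPoly_complex (p : ℕ) [NeZero p] (hp : p.Prime) :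
    ∃ W : Polynomial (Polynomial ℂ), W.Monic ∧ W.natDegree = p + 1 ∧
      W.eval₂ (evC (jqModC ℂ)) (unitSeriesC p) = 0 ∧
      W.eval₂ (evC (qExpand ℂ p (jqModC ℂ))) (unitSeriesC' p) = 0 := by
  letI := fintypeQuot p
  have hu := unitFun_mem_goodRing p hp.pos
  obtain ⟨P, hPm, hPd, hP⟩ := Fermat.Agent.S24.H648.exists_charPoly_jFun hu
  have hj : HasTExp 1 Fermat.Agent.S24.H648.jFun (jqModC ℂ) := by
    rw [jFun648_eq]; exact Fermat.Agent.S28.H565.hasTExp_jFun
  have hjp : HasTExp 1 (fun τ => Fermat.Agent.S24.H648.jFun (scaleH p hp.pos τ))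
      (qExpand ℂ p (jqModC ℂ)) := hasTExp_comp_scaleH p hp.pos hj
  refine ⟨P, hPm, ?_, ?_, ?_⟩
  · rw [hPd]; exact card_quot_prime p hp
  · refine eval₂_eq_zero_of_forall P hj (hasTExp_unitFun p hp.pos) fun τ => ?_
    rw [hP]
    exact Fermat.Agent.S24.H648.charPolyAt_eval_self hu.2.1 τ
  · refine eval₂_eq_zero_of_forall P hjp (hasTExp_unitFun' p hp.pos) fun w => ?_
    show (P.map (Polynomial.evalRingHom
      (Fermat.Agent.S24.H648.jFun (scaleH p hp.pos w)))).eval (unitFun' p hp.pos w) = 0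
    rw [hP]
    have hconj : Fermat.Agent.S24.H648.conj p (unitFun p hp.pos)
        (((ModularGroup.S)⁻¹ : SL(2, ℤ)) : SL(2, ℤ) ⧸ Gamma0 p) (scaleH p hp.pos w)
        = unitFun' p hp.pos w := by
      rw [Fermat.Agent.S24.H648.conj_mk hu.2.1, inv_inv]
      exact unitFun_S_scaleH p hp.pos w
    rw [← hconj]
    exact Fermat.Agent.S24.H648.charPolyAt_eval_conj (unitFun p hp.pos) _ _

/-- **[A-W]** -/
theorem nonempty_unitPolyData (p : ℕ) [NeZero p] (hp : p.Prime) :
    Nonempty (UnitPolyData p) := by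
  obtain ⟨W, hWm, hWd, h1, h2⟩ := exists_unitPoly_complex p hp
  obtain ⟨m, hm⟩ := exists_order_unitSeriesC' p
  have hord : (unitL' p).order = 1 - p * m := by
    rw [← order_iotaC, iotaC_unit', hm]
  have hf0 : unitL' p ≠ 0 := by
    intro h
    apply unitSeriesC'_ne_zero p
    rw [← iotaC_unit', h, map_zero]
  have hcop : IsCoprime (unitL' p).order (p : ℤ) := by
    rw [hord]
    exact ⟨1, m, by ring⟩
  have hne : unitL' p ≠ qExpand ℤ p ((p : LaurentSeries ℤ) ^ 12 * unitL ℤ p) := by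
    intro h
    have h3 := congrArg iotaC h
    rw [iotaC_unit', iotaC, coeffMap_qExpand] at h3
    obtain ⟨k, hk⟩ := Fermat.Agent.S28.H145.dvd_order_qExpand (k := ℂ) p
      (coeffMap (Int.castRingHom ℂ) ((p : LaurentSeries ℤ) ^ 12 * unitL ℤ p))
    rw [← h3, hm] at hk
    have hp2 : (2 : ℤ) ≤ p := by exact_mod_cast hp.two_le
    have hdvd : (p : ℤ) ∣ 1 := ⟨k + m, by linarith⟩
    have := Int.le_of_dvd one_pos hdvd
    omega
  obtain ⟨Ψ, hΨm, -, hΨ1, -⟩ := descent p W hWm (p + 1) hWd rfl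
    ((p : LaurentSeries ℤ) ^ 12 * unitL ℤ p) (unitL' p) hf0 hcop hne
    (by rw [iotaC_unit]; exact h1)
    (by rw [iotaC_unit']; exact h2)
  exact ⟨⟨Ψ, hΨm, hΨ1⟩⟩

end Fermat.Agent.S28.H589

end

end
-- ===== PACK-END S28/H589/UnitPoly.lean

-- ===== PACK-BEGIN A2/H729/Contract.lean
section


/-!
# A2 (helper729): contraction of closed points of the chart of `F` to the chart of `F₀`

`chartMap x₀ : chart_{F₀} {x₀} →+* chart_F {x}` is an integral ring homomorphism, so maximal ideals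
contract to maximal ideals.
-/

set_option autoImplicit false
set_option linter.unusedSectionVars false

namespace Fermat.Agent.A2.H729

open Polynomial Fermat.Agent.S18.H138

variable {R : Type*} [CommRing R] {F₀ : Type*} [Field F₀] [Algebra R F₀]
  {F : Type*} [Field F] [Algebra R F] [Algebra F₀ F] [IsScalarTower R F₀ F]

/-- `R[x₀] → R[x]`. -/
noncomputable def adjoinMapS (x₀ : F₀) :
    Algebra.adjoin R ({x₀} : Set F₀) →ₐ[R] Algebra.adjoin R ({algebraMap F₀ F x₀} : Set F) :=
  AlgHom.codRestrict ((IsScalarTower.toAlgHom R F₀ F).comp (Algebra.adjoin R ({x₀} : Set F₀)).val)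
    (Algebra.adjoin R ({algebraMap F₀ F x₀} : Set F)) (fun a => by
      have h := AlgHom.map_adjoin_singleton (IsScalarTower.toAlgHom R F₀ F) x₀
      have h2 : (IsScalarTower.toAlgHom R F₀ F) a ∈
          Subalgebra.map (IsScalarTower.toAlgHom R F₀ F) (Algebra.adjoin R ({x₀} : Set F₀)) :=
        Subalgebra.mem_map.2 ⟨a, a.2, rfl⟩
      rw [h] at h2
      exact h2)

theorem coe_adjoinMapS (x₀ : F₀) (a : Algebra.adjoin R ({x₀} : Set F₀)) :
    ((adjoinMapS (F := F) x₀ a : Algebra.adjoin R ({algebraMap F₀ F x₀} : Set F)) : F) =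
      algebraMap F₀ F a := rfl

theorem adjoinMapS_surjective (x₀ : F₀) :
    Function.Surjective (adjoinMapS (R := R) (F := F) x₀) := by
  rintro ⟨b, hb⟩
  have h := AlgHom.map_adjoin_singleton (IsScalarTower.toAlgHom R F₀ F) x₀
  have hb' : b ∈ Subalgebra.map (IsScalarTower.toAlgHom R F₀ F)
      (Algebra.adjoin R ({x₀} : Set F₀)) := by
    rw [h]; exact hb
  obtain ⟨a, ha, rfl⟩ := Subalgebra.mem_map.1 hb'
  exact ⟨⟨a, ha⟩, Subtype.ext rfl⟩

/-- `chart_{F₀} {x₀} → chart_F {x}`. -/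
noncomputable def chartMap (x₀ : F₀) :
    chart R ({x₀} : Set F₀) →+* chart R ({algebraMap F₀ F x₀} : Set F) where
  toFun z := ⟨algebraMap F₀ F z, algebraMap_mem_chart_singleton z.2⟩
  map_one' := Subtype.ext (map_one _)
  map_mul' _ _ := Subtype.ext (map_mul _ _ _)
  map_zero' := Subtype.ext (map_zero _)
  map_add' _ _ := Subtype.ext (map_add _ _ _)

theorem coe_chartMap (x₀ : F₀) (z : chart R ({x₀} : Set F₀)) :
    ((chartMap (F := F) x₀ z : chart R ({algebraMap F₀ F x₀} : Set F)) : F) =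
      algebraMap F₀ F z := rfl

theorem chartMap_algebraMap (x₀ : F₀) (r : R) :
    chartMap (R := R) (F := F) x₀ (algebraMap R (chart R ({x₀} : Set F₀)) r) =
      algebraMap R (chart R ({algebraMap F₀ F x₀} : Set F)) r := by
  apply Subtype.ext
  rw [coe_chartMap]
  exact (IsScalarTower.algebraMap_apply R F₀ F r).symm

theorem chartMap_isIntegral (x₀ : F₀) : (chartMap (R := R) (F := F) x₀).IsIntegral := by
  classical
  intro c
  obtain ⟨p, hpm, hp⟩ := (mem_chart.1 c.2 :
    IsIntegral (Algebra.adjoin R ({algebraMap F₀ F x₀} : Set F)) (c : F))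
  have hlift : p ∈ lifts (adjoinMapS (R := R) (F := F) x₀).toRingHom := by
    rw [lifts_iff_coeff_lifts]
    intro n
    exact adjoinMapS_surjective x₀ _
  obtain ⟨q, hq, -, hqm⟩ := lifts_and_degree_eq_and_monic hlift hpm
  -- inclusion `R[x₀] → chart`
  let incl : Algebra.adjoin R ({x₀} : Set F₀) →+* chart R ({x₀} : Set F₀) :=
    (Subalgebra.inclusion (adjoin_le_chart (R := R) ({x₀} : Set F₀))).toRingHom
  refine ⟨q.map incl, hqm.map incl, ?_⟩
  apply Subtype.ext
  have h1 : ((eval₂ (chartMap (R := R) (F := F) x₀) c (q.map incl) :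
      chart R ({algebraMap F₀ F x₀} : Set F)) : F) =
      eval₂ (((chart R ({algebraMap F₀ F x₀} : Set F)).val.toRingHom).comp
        (chartMap (R := R) (F := F) x₀)) (c : F) (q.map incl) :=
    hom_eval₂ (q.map incl) (chartMap (R := R) (F := F) x₀)
      ((chart R ({algebraMap F₀ F x₀} : Set F)).val.toRingHom) c
  rw [h1, eval₂_map]
  have h2 : ((((chart R ({algebraMap F₀ F x₀} : Set F)).val.toRingHom).comp
      (chartMap (R := R) (F := F) x₀)).comp incl) =
      (algebraMap (Algebra.adjoin R ({algebraMap F₀ F x₀} : Set F)) F).comp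
        (adjoinMapS (R := R) (F := F) x₀).toRingHom := by
    ext a
    rfl
  rw [h2, ← eval₂_map, hq]
  exact hp

/-- Maximal ideals of the chart of `F` contract to maximal ideals of the chart of `F₀`. -/
theorem isMaximal_comap_chartMap (x₀ : F₀)
    (𝔫 : Ideal (chart R ({algebraMap F₀ F x₀} : Set F))) [𝔫.IsMaximal] :
    (Ideal.comap (chartMap (R := R) (F := F) x₀) 𝔫).IsMaximal :=
  Ideal.isMaximal_comap_of_isIntegral_of_isMaximal' _ (chartMap_isIntegral x₀) 𝔫

end Fermat.Agent.A2.H729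

end
-- ===== PACK-END A2/H729/Contract.lean

-- ===== PACK-BEGIN A2/H729/LocalFact.lean
section



/-!
# A2 (helper729): from local factorisations on the base charts to local models of the Kummer root

`F₀ ⊆ F`, `y ∈ F`, `y ^ m = u ∈ F₀`.  A *local factorisation* of `u` at a closed point `𝔫₀ ∋ w`
of the chart of `F₀` is `u = ε * h ^ m` with `h ≡ 1 mod w O₀` and `ε` regular at `𝔫₀`
(`s * ε ∈ chart` for some `s ∉ 𝔫₀`).  Then `y₁ := y / h` satisfies `y₁ ≡ y mod w O` and
`s * y₁ ∈ chart_F`: this is the local hypothesis of `kummer_trivial_of_local`.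
-/

set_option autoImplicit false
set_option linter.unusedSectionVars false

namespace Fermat.Agent.A2.H729

open Polynomial Fermat.Agent.S18.H138

variable {R : Type*} [CommRing R] [IsDomain R] [IsIntegrallyClosed (Polynomial R)]
  {F₀ : Type*} [Field F₀] [Algebra R F₀]
  {F : Type*} [Field F] [Algebra R F] [Algebra F₀ F] [IsScalarTower R F₀ F]

theorem gaussO_inv_le {w : R} (hw : Prime w) {x : F} (hx0 : x ≠ 0) :
    gaussO hw x ≤ gaussO hw x⁻¹ := fun _ ht =>
  exists_denom_inv_of_mem_gaussO hw hx0 ht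

theorem gaussO_inv {w : R} (hw : Prime w) {x : F} (hx0 : x ≠ 0) :
    gaussO hw x⁻¹ = gaussO hw x := by
  apply le_antisymm
  · have := gaussO_inv_le hw (inv_ne_zero hx0)
    rwa [inv_inv] at this
  · exact gaussO_inv_le hw hx0

/-- The local hypothesis of `kummer_trivial_of_local` from local factorisations on the base. -/
theorem hloc_of_localFactorisation {w : R} (hw : Prime w) {x₀ : F₀}
    (hx : Transcendental R (algebraMap F₀ F x₀)) {m : ℕ} (hm : 0 < m) {u : F₀} {y : F}
    (hyu : y ^ m = algebraMap F₀ F u) (hyO : y ∈ gaussO hw (algebraMap F₀ F x₀))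
    (hLF : ∀ 𝔫₀ : Ideal (chart R ({x₀} : Set F₀)), 𝔫₀.IsMaximal →
      algebraMap R (chart R ({x₀} : Set F₀)) w ∈ 𝔫₀ →
      ∃ s : chart R ({x₀} : Set F₀), s ∉ 𝔫₀ ∧ ∃ h ε : F₀,
        InW (gaussO hw x₀) w (h - 1) ∧ u = ε * h ^ m ∧ (s : F₀) * ε ∈ chart R ({x₀} : Set F₀)) :
    ∀ 𝔫 : Ideal (chart R ({algebraMap F₀ F x₀} : Set F)), 𝔫.IsMaximal →
      algebraMap R (chart R ({algebraMap F₀ F x₀} : Set F)) w ∈ 𝔫 →
      ∃ s : chart R ({algebraMap F₀ F x₀} : Set F), s ∉ 𝔫 ∧
        ∃ y₁ : F, InW (gaussO hw (algebraMap F₀ F x₀)) w (y - y₁) ∧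
          (s : F) * y₁ ∈ chart R ({algebraMap F₀ F x₀} : Set F) := by
  intro 𝔫 h𝔫 hw𝔫
  have := h𝔫
  have hmax := isMaximal_comap_chartMap (R := R) (F := F) x₀ 𝔫
  have hw₀ : algebraMap R (chart R ({x₀} : Set F₀)) w ∈
      Ideal.comap (chartMap (R := R) (F := F) x₀) 𝔫 := by
    rw [Ideal.mem_comap, chartMap_algebraMap]
    exact hw𝔫
  obtain ⟨s₀, hs₀, h, ε, hh, huε, hsε⟩ := hLF _ hmax hw₀
  have hhF : InW (gaussO hw (algebraMap F₀ F x₀)) w (algebraMap F₀ F h - 1) := by
    have := InW.map (F := F) hw hh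
    rwa [map_sub, map_one] at this
  obtain ⟨hne, hinv, hinv1⟩ := inW_inv_sub_one hw hx hhF
  have hh0 : h ≠ 0 := fun h0 => hne (by rw [h0, map_zero])
  refine ⟨chartMap (R := R) (F := F) x₀ s₀, fun hs => hs₀ (Ideal.mem_comap.2 hs),
    y * (algebraMap F₀ F h)⁻¹, ?_, ?_⟩
  · have : y - y * (algebraMap F₀ F h)⁻¹ = -(y * ((algebraMap F₀ F h)⁻¹ - 1)) := by ring
    rw [this]
    exact (hinv1.mul_left hyO).neg
  · refine mem_chart_of_pow_mem hm ?_
    have hε : ε = u * (h ^ m)⁻¹ := by
      rw [huε, mul_assoc, mul_inv_cancel₀ (pow_ne_zero _ hh0), mul_one]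
    have : ((chartMap (R := R) (F := F) x₀ s₀ : chart R ({algebraMap F₀ F x₀} : Set F)) : F)
        = algebraMap F₀ F s₀ := rfl
    rw [this]
    have key : (algebraMap F₀ F s₀ * (y * (algebraMap F₀ F h)⁻¹)) ^ m =
        algebraMap F₀ F ((s₀ : F₀) ^ (m - 1) * ((s₀ : F₀) * ε)) := by
      rw [mul_pow, mul_pow, hyu, hε, inv_pow, ← map_pow, ← map_pow, ← map_inv₀, ← map_mul,
        ← map_mul]
      congr 1
      have : (s₀ : F₀) ^ m = (s₀ : F₀) ^ (m - 1) * s₀ := by
        rw [← pow_succ]; congr 1; omega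
      rw [this]
      ring
    rw [key]
    exact algebraMap_mem_chart_singleton
      (Subalgebra.mul_mem _ (Subalgebra.pow_mem _ s₀.2 _) hsε)

end Fermat.Agent.A2.H729

end
-- ===== PACK-END A2/H729/LocalFact.lean

-- ===== PACK-BEGIN A2/H729/H348Adapter.lean
section




/-!
# A2 (helper729): the canonical Gauss ring as input of `H348.exists_pow_eq_of_local_factorisation`

`V := gaussO hw x` satisfies all the fields of `H348.GaussData` and `H348.ChartData`
(for both charts) except the two which carry information: `u ≡ 1 mod w V` and the local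
factorisations.  Hence `exists_pow_eq_gaussO`: the route-S theorem with `V` eliminated.
-/

set_option autoImplicit false
set_option linter.unusedSectionVars false
set_option linter.style.haveILetI false

namespace Fermat.Agent.A2.H729

open Polynomial Fermat.Agent.S18.H138

variable {R : Type*} [CommRing R] [IsDomain R] [IsIntegrallyClosed (Polynomial R)]
  {F : Type*} [Field F] [Algebra R F]

theorem gaussData_gaussO (hinjR : Function.Injective (algebraMap R F)) {w : R} (hw : Prime w)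
    {x : F} (hx : Transcendental R x) {mi : R} {m : ℕ} (hmi : (m : R) * mi = 1) {u : F}
    (hu : InW (gaussO hw x) w (u - 1)) : H348.GaussData w m u (gaussO hw x) where
  closed := fun _ hf => mem_gaussO_of_isIntegral hw hf
  ϖ_inv_notMem := inv_not_mem_gaussO hinjR hw hx
  rad := fun _ ht => inv_one_add_mem_gaussO hw hx ht
  m_ne := by
    intro h0
    have h1 := congrArg (algebraMap R F) hmi
    rw [map_mul, map_natCast, h0, zero_mul, map_one] at h1
    exact zero_ne_one h1
  m_inv := by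
    have h1 := congrArg (algebraMap R F) hmi
    rw [map_mul, map_natCast, map_one] at h1
    have h2 : ((m : F))⁻¹ = algebraMap R F mi := inv_eq_of_mul_eq_one_right h1
    rw [h2]
    exact Subalgebra.algebraMap_mem _ mi
  u_one := by
    obtain ⟨t, ht, htt⟩ := hu
    exact ⟨t, ht, by rw [← htt]; ring⟩

theorem chartData_fin (hinjR : Function.Injective (algebraMap R F)) {w : R} (hw : Prime w)
    {x : F} (hx : Transcendental R x) {m : ℕ} {u : F}
    (hloc : ∀ 𝔪 : Ideal (chart R ({x} : Set F)), 𝔪.IsMaximal →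
      algebraMap R (chart R ({x} : Set F)) w ∈ 𝔪 →
      ∃ h : F, (∃ t ∈ gaussO hw x, h = 1 + algebraMap R F w * t) ∧
        ∃ s a : chart R ({x} : Set F), s ∉ 𝔪 ∧
          u * (s : F) = h ^ m * ((s : F) + algebraMap R F w * (a : F))) :
    H348.ChartData w m u (chart R ({x} : Set F)) (gaussO hw x) where
  le_V := chart_fin_le_gaussO hw x
  closed := fun _ hf => mem_chart_of_isIntegral_chart hf
  qep := by
    intro b hb t ht hbt
    have hw0 : algebraMap R F w ≠ 0 := fun h0 => hw.ne_zero (hinjR (by rw [h0, map_zero]))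
    obtain ⟨t', ht', hbt'⟩ := qep_fin hw hx b hb ⟨t, ht, hbt⟩
    have : t = t' := mul_left_cancel₀ hw0 (hbt.symm.trans hbt')
    rw [this]
    exact ht'
  loc := hloc

theorem chartData_inf (hinjR : Function.Injective (algebraMap R F)) {w : R} (hw : Prime w)
    {x : F} (hx : Transcendental R x) {m : ℕ} {u : F}
    (hloc : ∀ 𝔪 : Ideal (chart R ({x⁻¹} : Set F)), 𝔪.IsMaximal →
      algebraMap R (chart R ({x⁻¹} : Set F)) w ∈ 𝔪 →
      ∃ h : F, (∃ t ∈ gaussO hw x, h = 1 + algebraMap R F w * t) ∧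
        ∃ s a : chart R ({x⁻¹} : Set F), s ∉ 𝔪 ∧
          u * (s : F) = h ^ m * ((s : F) + algebraMap R F w * (a : F))) :
    H348.ChartData w m u (chart R ({x⁻¹} : Set F)) (gaussO hw x) where
  le_V := chart_inf_le_gaussO hw (ne_zero_of_transcendental hx)
  closed := fun _ hf => mem_chart_of_isIntegral_chart hf
  qep := by
    intro b hb t ht hbt
    have hw0 : algebraMap R F w ≠ 0 := fun h0 => hw.ne_zero (hinjR (by rw [h0, map_zero]))
    obtain ⟨t', ht', hbt'⟩ := qep_inf hw hx b hb ⟨t, ht, hbt⟩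
    have : t = t' := mul_left_cancel₀ hw0 (hbt.symm.trans hbt')
    rw [this]
    exact ht'
  loc := hloc

/-- **Route S with the canonical Gauss ring.** -/
theorem exists_pow_eq_gaussO [IsNoetherianRing R] [CharZero F]
    (hinjR : Function.Injective (algebraMap R F))
    {x : F} (hx : Transcendental R x) [FiniteDimensional (baseField R x) F]
    {w : R} (hw : Prime w) {mi : R} {m : ℕ} (hmi : (m : R) * mi = 1) {u : F}
    (hu : InW (gaussO hw x) w (u - 1))
    (hloc_fin : ∀ 𝔪 : Ideal (chart R ({x} : Set F)), 𝔪.IsMaximal →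
      algebraMap R (chart R ({x} : Set F)) w ∈ 𝔪 →
      ∃ h : F, (∃ t ∈ gaussO hw x, h = 1 + algebraMap R F w * t) ∧
        ∃ s a : chart R ({x} : Set F), s ∉ 𝔪 ∧
          u * (s : F) = h ^ m * ((s : F) + algebraMap R F w * (a : F)))
    (hloc_inf : ∀ 𝔪 : Ideal (chart R ({x⁻¹} : Set F)), 𝔪.IsMaximal →
      algebraMap R (chart R ({x⁻¹} : Set F)) w ∈ 𝔪 →
      ∃ h : F, (∃ t ∈ gaussO hw x, h = 1 + algebraMap R F w * t) ∧
        ∃ s a : chart R ({x⁻¹} : Set F), s ∉ 𝔪 ∧
          u * (s : F) = h ^ m * ((s : F) + algebraMap R F w * (a : F)))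
    (hconst : ∀ 𝔫 : Ideal (AdjoinRoot (X ^ m - C u)), 𝔫.IsMaximal →
      ∀ y : AdjoinRoot (X ^ m - C u) ⧸ 𝔫, IsIntegral R y →
        y ∈ Set.range (algebraMap R (AdjoinRoot (X ^ m - C u) ⧸ 𝔫))) :
    ∃ y : F, y ^ m = u ∧ InW (gaussO hw x) w (y - 1) := by
  obtain ⟨y, hy, t, ht, hyt⟩ := H348.exists_pow_eq_of_local_factorisation hinjR hx w hw
    (gaussData_gaussO hinjR hw hx hmi hu) (chartData_fin hinjR hw hx hloc_fin)
    (chartData_inf hinjR hw hx hloc_inf) hconst
  exact ⟨y, hy, t, ht, by rw [hyt]; ring⟩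

end Fermat.Agent.A2.H729

end
-- ===== PACK-END A2/H729/H348Adapter.lean

-- ===== PACK-BEGIN S18/H516/CoreRes.lean
section







/-!
# S18 / MOD (helper516): the S28 core data for the residue field of a place over `ℓ`

`coreData_residue` : for `A ⊆ L` a valuation subring with `(ℓ : L) ∈ 𝔪_A` (`A.LiesOverPrime ℓ`),
`ℓ ∤ N`: `CoreData N (IsLocalRing.ResidueField A)` (S28 H867 + H326 + H25, all on main).
`coreData_of_charP` : the same for any field `k : Type` of characteristic `ℓ`.
-/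

set_option autoImplicit false

noncomputable section

namespace Fermat.Agent.S18.H516

open ModularCurve Fermat.Agent.S28

/-- S28 core data for every field of characteristic `ℓ ∤ N`. -/
theorem coreData_of_charP (N : ℕ) [NeZero N] (ℓ : ℕ) [Fact ℓ.Prime] (hℓN : ¬ ℓ ∣ N)
    (k : Type) [Field k] [CharP k ℓ] : CoreData N k :=
  H867.coreData_of_inputs N ℓ hℓN k
    (fun p hp _ _ => H326.nonempty_modPolyData p hp)
    (fun p hp _ _ => H326.nonempty_unitPolyData p hp)
    H25.theta_identity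

theorem charP_residue {L : Type*} [Field L] (A : ValuationSubring L) {ℓ : ℕ} [Fact ℓ.Prime]
    (hA : A.LiesOverPrime ℓ) : CharP (IsLocalRing.ResidueField A) ℓ := by
  have hℓ : ℓ.Prime := Fact.out
  have h0 : ((ℓ : ℕ) : IsLocalRing.ResidueField A) = 0 := by
    have h1 : IsLocalRing.residue A ((ℓ : ℕ) : ↥A) = 0 := by
      rw [IsLocalRing.residue_eq_zero_iff, IsLocalRing.mem_maximalIdeal, mem_nonunits_iff]
      intro hu
      have h2 : (ℓ : L) ∈ A.nonunits := hA
      rw [ValuationSubring.mem_nonunits_iff] at h2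
      have h3 : A.valuation (ℓ : L) = 1 := by
        have := (A.valuation_eq_one_iff ((ℓ : ℕ) : ↥A)).mp hu
        simpa using this
      exact absurd h3 h2.ne
    simpa using h1
  exact (CharP.charP_iff_prime_eq_zero hℓ).mpr h0

/-- **S28 core data for the residue field of a place over `ℓ ∤ N`.** -/
theorem coreData_residue (N : ℕ) [NeZero N] {ℓ : ℕ} [Fact ℓ.Prime] (hℓN : ¬ ℓ ∣ N)
    (A : ValuationSubring (AlgebraicClosure ℚ)) (hA : A.LiesOverPrime ℓ) :
    CoreData N (IsLocalRing.ResidueField A) := by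
  have := charP_residue A hA
  exact coreData_of_charP N ℓ hℓN _

end Fermat.Agent.S18.H516

end
end
-- ===== PACK-END S18/H516/CoreRes.lean

-- ===== PACK-BEGIN A2/Mod/H900/L7.lean
section



/-!
# A2 / MOD leaf L7 (helper900): `FrickeStableStatement`, verbatim

At a level `M` prime to `q` the Fricke involution `W` of `F_{M,E}` preserves the Gauss valuation
ring `V∞` (no discreteness of `R_E` is used; only `P ∣ q`, `q ∤ M`, `V∞` = Gauss-integral
elements, `W j_d = j_{M/d}`).

Proof (`L7Core.lean`): by `S28.CoreData M k` every `f ∈ F_{M,E}` is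
`c · (∑ᵢ Hᵢ(j) yᵢ) / G(j)` with `G, Hᵢ ∈ R[X]` primitive and `yᵢ ∈ ℤ[j_d]`, and `f ∈ V∞ ↔ c ∈ R`
(independence of the residues `ȳᵢ` over `k(j̄)`); then
`W f = c · (∑ᵢ Hᵢ(j_M) W yᵢ) / G(j_M)` with `G(j_M)` an integral series of nonzero reduction.
-/

set_option autoImplicit false
set_option synthInstance.maxHeartbeats 400000
set_option maxHeartbeats 1600000

noncomputable section

namespace Fermat.Agent.A2.Mod.H900

open ModularCurve HahnSeries Polynomial IntermediateField Fermat.Agent.S28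

/-- `R_E = P ∩ E` lies over `q` when `P` does. -/
theorem liesOverPrime_RE {P : ValuationSubring _root_.Fermat.Agent.A2.Mod.Qb} (E : IntermediateField ℚ _root_.Fermat.Agent.A2.Mod.Qb) {q : ℕ}
    (hP : P.LiesOverPrime q) : (_root_.Fermat.Agent.A2.Mod.RE P E).LiesOverPrime q := by
  have h1 : (q : _root_.Fermat.Agent.A2.Mod.Qb) ∈ P.nonunits := hP
  show (q : E) ∈ (_root_.Fermat.Agent.A2.Mod.RE P E).nonunits
  rw [ValuationSubring.mem_nonunits_iff_or] at h1 ⊢
  rcases h1 with h1 | h1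
  · left
    have : algebraMap E _root_.Fermat.Agent.A2.Mod.Qb (q : E) = 0 := by rw [map_natCast]; exact h1
    exact (map_eq_zero _).mp this
  · right
    intro h2
    apply h1
    have h3 : algebraMap E _root_.Fermat.Agent.A2.Mod.Qb ((q : E)⁻¹) ∈ P := h2
    rwa [map_inv₀, map_natCast] at h3

/-- S28 core data for the residue field of `R_E`, `q ∤ M`. -/
theorem coreData_RE {P : ValuationSubring _root_.Fermat.Agent.A2.Mod.Qb} (E : IntermediateField ℚ _root_.Fermat.Agent.A2.Mod.Qb) (M : ℕ) [NeZero M]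
    {q : ℕ} (hq : q.Prime) (hqM : ¬ q ∣ M) (hP : P.LiesOverPrime q) :
    CoreData M (IsLocalRing.ResidueField (_root_.Fermat.Agent.A2.Mod.RE P E)) := by
  haveI : Fact q.Prime := ⟨hq⟩
  haveI := S18.H516.charP_residue (_root_.Fermat.Agent.A2.Mod.RE P E) (liesOverPrime_RE E hP)
  exact S18.H516.coreData_of_charP M q hqM _

/-- **Leaf L7 (FrickeStable), verbatim.** -/
theorem frickeStable (P : ValuationSubring _root_.Fermat.Agent.A2.Mod.Qb) (E : IntermediateField ℚ _root_.Fermat.Agent.A2.Mod.Qb) (M q : ℕ)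
    [NeZero M] [NeZero q] (w : _root_.Fermat.Agent.A2.Mod.RE P E) : FrickeStableStatement P E M q w := by
  intro hS V W hV hW f hf
  have core := coreData_RE E M hS.q_prime hS.q_not_dvd hS.lies_over
  have hW' : FrickeOnGens M W := fun d d' _ _ hd hd' h => hW.1 d d' hd hd' h
  exact (hV (W f)).mpr (frickeStable_core (_root_.Fermat.Agent.A2.Mod.RE P E) core hW' f ((hV f).mp hf))

end Fermat.Agent.A2.Mod.H900

end
end
-- ===== PACK-END A2/Mod/H900/L7.lean

-- ===== PACK-BEGIN A2/Mod/H96/L12.lean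
section




/-!
# A2 / MOD leaf L12 (helper96): the Kronecker congruence, semilinear form

`kron : KronStatement P E M q w` (`Mod/Spec.lean`, verbatim):
for `a ∈ V∞_M` there is `a' ∈ V∞_M` with `β a ≡ (α a')^q mod w V∞` at level `M q`.

Proof.  `a = U₁/U₂` with `U₁, U₂ ∈ R((t)) ∩ F_M`, `Ū₂ ≠ 0`.  By `S28.CoreData M k` (good reduction
at level `M`, via `S18.H516.red_mem_of_incl_mem`) the residues `Ū₁, Ū₂` lie in
`F_k = k(j̄_d : d ∣ M)`.  `F_k` is stable under the inverse Frobenius twist of the coefficients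
(`exists_frob_root_of_mem_fullC`: `k` is perfect, the generators have coefficients in `𝔽_q`): there
is `r' ∈ F_k` with `r'^q = (Ū₁/Ū₂)(t^q)`.  Lift `r' = W̄₁/W̄₂` (`exists_lift_of_mem_fullC`) and put
`a' := W₁/W₂`.  Then `β a − (α a')^q = (U₁(t^q) W₂^q − W₁^q U₂(t^q)) / (U₂(t^q) W₂^q)`, the
denominator is primitive and the numerator reduces to `0`, hence is divisible by `w`.
-/

set_option autoImplicit false
set_option linter.unusedSectionVars false
set_option linter.style.haveILetI false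
set_option synthInstance.maxHeartbeats 400000
set_option maxHeartbeats 1600000

noncomputable section

namespace Fermat.Agent.A2.Mod.H96

open ModularCurve HahnSeries Fermat.Agent.S28

section Residue

variable (P : ValuationSubring _root_.Fermat.Agent.A2.Mod.Qb) (E : IntermediateField ℚ _root_.Fermat.Agent.A2.Mod.Qb)

/-- `R_E` lies over `q` if `P` does. -/
theorem liesOver_RE {q : ℕ} (hP : P.LiesOverPrime q) : (_root_.Fermat.Agent.A2.Mod.RE P E).LiesOverPrime q := by
  have h1 : P.valuation ((q : ℕ) : _root_.Fermat.Agent.A2.Mod.Qb) < 1 := (ValuationSubring.mem_nonunits_iff _).mp hP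
  show ((q : ℕ) : E) ∈ (_root_.Fermat.Agent.A2.Mod.RE P E).nonunits
  rw [ValuationSubring.mem_nonunits_iff_exists_mem_maximalIdeal]
  have hmem : ((q : ℕ) : E) ∈ _root_.Fermat.Agent.A2.Mod.RE P E := by
    show algebraMap E _root_.Fermat.Agent.A2.Mod.Qb ((q : ℕ) : E) ∈ P
    rw [map_natCast]
    exact natCast_mem P q
  refine ⟨hmem, ?_⟩
  rw [IsLocalRing.mem_maximalIdeal, mem_nonunits_iff]
  intro hu
  obtain ⟨s, hs⟩ := isUnit_iff_exists_inv.mp hu
  have h2 : ((q : ℕ) : _root_.Fermat.Agent.A2.Mod.Qb) * algebraMap E _root_.Fermat.Agent.A2.Mod.Qb (s : E) = 1 := by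
    have := congrArg (fun z : _root_.Fermat.Agent.A2.Mod.RE P E => algebraMap E _root_.Fermat.Agent.A2.Mod.Qb (z : E)) hs
    simpa using this
  have h3 : P.valuation (algebraMap E _root_.Fermat.Agent.A2.Mod.Qb (s : E)) ≤ 1 :=
    (P.valuation_le_one_iff _).mpr s.2
  have h4 := congrArg P.valuation h2
  rw [map_mul, map_one] at h4
  have h5 : P.valuation ((q : ℕ) : _root_.Fermat.Agent.A2.Mod.Qb) * P.valuation (algebraMap E _root_.Fermat.Agent.A2.Mod.Qb (s : E)) < 1 :=
    calc P.valuation ((q : ℕ) : _root_.Fermat.Agent.A2.Mod.Qb) * P.valuation (algebraMap E _root_.Fermat.Agent.A2.Mod.Qb (s : E))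
        ≤ P.valuation ((q : ℕ) : _root_.Fermat.Agent.A2.Mod.Qb) * 1 := mul_le_mul_right h3 _
      _ = P.valuation ((q : ℕ) : _root_.Fermat.Agent.A2.Mod.Qb) := mul_one _
      _ < 1 := h1
  exact absurd h4 h5.ne

/-- Every element of `R_E` is a root of an integer polynomial which is nonzero modulo `q`. -/
theorem exists_intPoly_residue (r : _root_.Fermat.Agent.A2.Mod.RE P E) {q : ℕ} (hq : q.Prime) :
    ∃ G : Polynomial ℤ, G.map (Int.castRingHom (ZMod q)) ≠ 0 ∧
      Polynomial.eval₂ (Int.castRingHom (_root_.Fermat.Agent.A2.Mod.RE P E)) r G = 0 := by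
  haveI : Fact q.Prime := ⟨hq⟩
  have halgQ : IsAlgebraic ℚ ((r : E) : _root_.Fermat.Agent.A2.Mod.Qb) := (AlgebraicClosure.isAlgebraic ℚ).isAlgebraic _
  have halgZ : IsAlgebraic ℤ ((r : E) : _root_.Fermat.Agent.A2.Mod.Qb) := (IsFractionRing.isAlgebraic_iff ℤ ℚ _root_.Fermat.Agent.A2.Mod.Qb).mpr halgQ
  obtain ⟨G, hG0, hG⟩ := halgZ
  have hprim : G.primPart.IsPrimitive := Polynomial.isPrimitive_primPart G
  have hev : Polynomial.aeval ((r : E) : _root_.Fermat.Agent.A2.Mod.Qb) G.primPart = 0 := by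
    have h1 := G.eq_C_content_mul_primPart
    rw [h1, map_mul, Polynomial.aeval_C] at hG
    rcases mul_eq_zero.mp hG with h | h
    · exfalso
      have : (G.content : _root_.Fermat.Agent.A2.Mod.Qb) = 0 := by simpa using h
      have h2 : G.content = 0 := by exact_mod_cast this
      exact hG0 (Polynomial.content_eq_zero_iff.mp h2)
    · exact h
  refine ⟨G.primPart, ?_, ?_⟩
  · intro h0
    have hdvd : Polynomial.C (q : ℤ) ∣ G.primPart := by
      rw [Polynomial.C_dvd_iff_dvd_coeff]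
      intro i
      have := congrArg (fun Q : Polynomial (ZMod q) => Q.coeff i) h0
      simp only [Polynomial.coeff_map, Polynomial.coeff_zero, eq_intCast] at this
      exact (ZMod.intCast_zmod_eq_zero_iff_dvd _ _).mp this
    have hu := hprim _ hdvd
    have : IsUnit (q : ℤ) := hu
    rw [Int.isUnit_iff] at this
    have hq2 := hq.two_le
    omega
  · have hinj : Function.Injective ((algebraMap E _root_.Fermat.Agent.A2.Mod.Qb).comp (_root_.Fermat.Agent.A2.Mod.RE P E).subtype) := by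
      intro a b h
      exact Subtype.ext (Subtype.ext h)
    apply hinj
    rw [map_zero, Polynomial.hom_eval₂]
    have : (((algebraMap E _root_.Fermat.Agent.A2.Mod.Qb).comp (_root_.Fermat.Agent.A2.Mod.RE P E).subtype).comp (Int.castRingHom (_root_.Fermat.Agent.A2.Mod.RE P E))) =
        algebraMap ℤ _root_.Fermat.Agent.A2.Mod.Qb := RingHom.ext_int _ _
    rw [this]
    exact hev

/-- The residue field of `R_E` is perfect: Frobenius is surjective. -/
theorem exists_pow_eq_residue {q : ℕ} (hq : q.Prime) (hP : P.LiesOverPrime q)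
    (c : IsLocalRing.ResidueField (_root_.Fermat.Agent.A2.Mod.RE P E)) :
    ∃ c' : IsLocalRing.ResidueField (_root_.Fermat.Agent.A2.Mod.RE P E), c' ^ q = c := by
  haveI : Fact q.Prime := ⟨hq⟩
  haveI : CharP (IsLocalRing.ResidueField (_root_.Fermat.Agent.A2.Mod.RE P E)) q :=
    Fermat.Agent.S18.H516.charP_residue (_root_.Fermat.Agent.A2.Mod.RE P E) (liesOver_RE P E hP)
  letI : Algebra (ZMod q) (IsLocalRing.ResidueField (_root_.Fermat.Agent.A2.Mod.RE P E)) := ZMod.algebra _ q
  haveI : Algebra.IsAlgebraic (ZMod q) (IsLocalRing.ResidueField (_root_.Fermat.Agent.A2.Mod.RE P E)) := by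
    refine ⟨fun x => ?_⟩
    obtain ⟨r', rfl⟩ := IsLocalRing.residue_surjective x
    obtain ⟨G, hG0, hG⟩ := exists_intPoly_residue P E r' hq
    refine ⟨G.map (Int.castRingHom (ZMod q)), hG0, ?_⟩
    rw [Polynomial.aeval_def, Polynomial.eval₂_map]
    have h1 : (algebraMap (ZMod q) (IsLocalRing.ResidueField (_root_.Fermat.Agent.A2.Mod.RE P E))).comp
        (Int.castRingHom (ZMod q)) =
        (IsLocalRing.residue (_root_.Fermat.Agent.A2.Mod.RE P E)).comp (Int.castRingHom (_root_.Fermat.Agent.A2.Mod.RE P E)) := RingHom.ext_int _ _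
    rw [h1, ← Polynomial.hom_eval₂, hG, map_zero]
  haveI : PerfectField (IsLocalRing.ResidueField (_root_.Fermat.Agent.A2.Mod.RE P E)) :=
    Algebra.IsAlgebraic.perfectField (ZMod q)
  haveI : ExpChar (IsLocalRing.ResidueField (_root_.Fermat.Agent.A2.Mod.RE P E)) q := ExpChar.prime hq
  obtain ⟨y, hy⟩ := surjective_frobenius (IsLocalRing.ResidueField (_root_.Fermat.Agent.A2.Mod.RE P E)) q c
  exact ⟨y, hy⟩

end Residue

section Divide

variable {L : Type*} [Field L] (A : ValuationSubring L)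

/-- An integral series with zero reduction is divisible by a uniformiser. -/
theorem exists_incl_eq_inv_mul [IsDiscreteValuationRing A] {w : A} (hw : Irreducible w)
    {U : LaurentSeries A} (hU : H708.red A U = 0) :
    ∃ U' : LaurentSeries A, H708.incl A U' = H708.cst ((w : L))⁻¹ * H708.incl A U := by
  apply H708.exists_incl_eq
  intro n
  rw [H708.coeff_cst_mul, H708.coeff_incl]
  have h1 : A.valuation ((U.coeff n : A) : L) < 1 := (H708.red_eq_zero_iff A U).mp hU n
  have h2 : U.coeff n ∈ IsLocalRing.maximalIdeal A := (A.valuation_lt_one_iff _).mpr h1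
  rw [hw.maximalIdeal_eq, Ideal.mem_span_singleton'] at h2
  obtain ⟨y, hy⟩ := h2
  have hw0 : (w : L) ≠ 0 := by
    intro h
    exact hw.ne_zero (Subtype.ext h)
  have h3 : ((U.coeff n : A) : L) = (y : L) * (w : L) := by
    rw [← hy]; rfl
  rw [h3, mul_comm (y : L), ← mul_assoc, inv_mul_cancel₀ hw0, one_mul]
  exact y.2

end Divide

section Main

variable (P : ValuationSubring _root_.Fermat.Agent.A2.Mod.Qb) (E : IntermediateField ℚ _root_.Fermat.Agent.A2.Mod.Qb) (M q : ℕ) [NeZero M] [NeZero q]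
  (w : _root_.Fermat.Agent.A2.Mod.RE P E)

/-- **L12 (Kronecker, semilinear form).** -/
theorem kron : KronStatement P E M q w := by
  intro hS VM V hVM hV a ha
  have hq := hS.q_prime
  haveI : Fact q.Prime := ⟨hq⟩
  haveI := hS.dvr
  have hAq : (_root_.Fermat.Agent.A2.Mod.RE P E).LiesOverPrime q := liesOver_RE P E hS.lies_over
  haveI : CharP (IsLocalRing.ResidueField (_root_.Fermat.Agent.A2.Mod.RE P E)) q :=
    Fermat.Agent.S18.H516.charP_residue (_root_.Fermat.Agent.A2.Mod.RE P E) hAq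
  have core : CoreData M (IsLocalRing.ResidueField (_root_.Fermat.Agent.A2.Mod.RE P E)) :=
    Fermat.Agent.S18.H516.coreData_of_charP M q hS.q_not_dvd _
  -- a representation of `a`
  obtain ⟨U₁, U₂, hU₂, hU₂F, hU⟩ := (hVM a).mp ha
  have hU₁F : H708.incl (_root_.Fermat.Agent.A2.Mod.RE P E) U₁ ∈ _root_.Fermat.Agent.A2.Mod.FE E M := by
    rw [← hU]; exact mul_mem a.2 hU₂F
  -- the residues lie in `F_k`
  have hr₁ : H708.red (_root_.Fermat.Agent.A2.Mod.RE P E) U₁ ∈ modularFunctionFieldFullC _ M :=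
    Fermat.Agent.S18.H516.red_mem_of_incl_mem (_root_.Fermat.Agent.A2.Mod.RE P E) (IsLocalRing.residue _) M core hU₁F
  have hr₂ : H708.red (_root_.Fermat.Agent.A2.Mod.RE P E) U₂ ∈ modularFunctionFieldFullC _ M :=
    Fermat.Agent.S18.H516.red_mem_of_incl_mem (_root_.Fermat.Agent.A2.Mod.RE P E) (IsLocalRing.residue _) M core hU₂F
  -- the Frobenius twist of the residue of `a`
  obtain ⟨r', hr', hr'e⟩ := exists_frob_root_of_mem_fullC _ q M hq
    (exists_pow_eq_residue P E hq hS.lies_over) (mul_mem hr₁ (inv_mem hr₂))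
  -- lift it
  obtain ⟨W₁, W₂, hW₁F, hW₂F, hW₂, hW⟩ := exists_lift_of_mem_fullC (_root_.Fermat.Agent.A2.Mod.RE P E) M hr'
  have hW₂0 : H708.incl (_root_.Fermat.Agent.A2.Mod.RE P E) W₂ ≠ 0 :=
    H708.incl_ne_zero _ (H708.ne_zero_of_red_ne_zero _ hW₂)
  have hU₂0 : H708.incl (_root_.Fermat.Agent.A2.Mod.RE P E) U₂ ≠ 0 :=
    H708.incl_ne_zero _ (H708.ne_zero_of_red_ne_zero _ hU₂)
  set a' : _root_.Fermat.Agent.A2.Mod.FE E M := ⟨H708.incl (_root_.Fermat.Agent.A2.Mod.RE P E) W₁, hW₁F⟩ * (⟨H708.incl (_root_.Fermat.Agent.A2.Mod.RE P E) W₂, hW₂F⟩)⁻¹ with ha'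
  have ha'c : (a' : LaurentSeries E) = H708.incl (_root_.Fermat.Agent.A2.Mod.RE P E) W₁ * (H708.incl (_root_.Fermat.Agent.A2.Mod.RE P E) W₂)⁻¹ := by
    rw [ha', IntermediateField.coe_mul, IntermediateField.coe_inv]
  have ha'V : a' ∈ VM := by
    rw [hVM]
    refine ⟨W₁, W₂, hW₂, hW₂F, ?_⟩
    rw [ha'c, mul_assoc, inv_mul_cancel₀ hW₂0, mul_one]
  refine ⟨a', ha'V, ?_⟩
  -- the numerator
  set Wn : LaurentSeries (_root_.Fermat.Agent.A2.Mod.RE P E) :=
    qExpand _ q U₁ * W₂ ^ q - W₁ ^ q * qExpand _ q U₂ with hWn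
  have hρ₂ : qExpand _ q (H708.red (_root_.Fermat.Agent.A2.Mod.RE P E) U₂) ≠ 0 := by
    rw [Ne, map_eq_zero_iff _ (RingHom.injective _)]
    exact hU₂
  have hred : H708.red (_root_.Fermat.Agent.A2.Mod.RE P E) Wn = 0 := by
    rw [hWn, map_sub, map_mul, map_mul, map_pow, map_pow]
    show coeffMap _ (qExpand _ q U₁) * _ - _ * coeffMap _ (qExpand _ q U₂) = 0
    rw [coeffMap_qExpand, coeffMap_qExpand]
    show qExpand _ q (H708.red (_root_.Fermat.Agent.A2.Mod.RE P E) U₁) * _ - _ * qExpand _ q (H708.red (_root_.Fermat.Agent.A2.Mod.RE P E) U₂) = 0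
    rw [hW, mul_pow, hr'e, map_mul, map_inv₀]
    field_simp
    ring
  obtain ⟨W', hW'⟩ := exists_incl_eq_inv_mul (_root_.Fermat.Agent.A2.Mod.RE P E) hS.unif hred
  -- conclusion
  show (βE E M q a - (αE E M q a') ^ q) * (cE P E (M * q) w)⁻¹ ∈ V
  rw [hV]
  refine ⟨W', qExpand _ q U₂ * W₂ ^ q, ?_, ?_, ?_⟩
  · rw [map_mul, map_pow]
    show coeffMap _ (qExpand _ q U₂) * _ ≠ 0
    rw [coeffMap_qExpand]
    exact mul_ne_zero hρ₂ (pow_ne_zero _ hW₂)
  · rw [map_mul, map_pow]
    show coeffMap _ (qExpand _ q U₂) * _ ∈ _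
    rw [coeffMap_qExpand]
    exact mul_mem (βE E M q ⟨H708.incl (_root_.Fermat.Agent.A2.Mod.RE P E) U₂, hU₂F⟩).2
      (pow_mem (αE E M q ⟨H708.incl (_root_.Fermat.Agent.A2.Mod.RE P E) W₂, hW₂F⟩).2 _)
  · rw [hW']
    have hc : (((βE E M q a - (αE E M q a') ^ q) * (cE P E (M * q) w)⁻¹ : _root_.Fermat.Agent.A2.Mod.FE E (M * q)) :
        LaurentSeries E) =
        (qExpand E q (a : LaurentSeries E) - (a' : LaurentSeries E) ^ q) *
          (H708.cst ((w : E)))⁻¹ := rfl
    have hcst : H708.cst ((w : E))⁻¹ = (H708.cst ((w : E)))⁻¹ := map_inv₀ _ _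
    have hq1 : H708.incl (_root_.Fermat.Agent.A2.Mod.RE P E) (qExpand _ q U₁) = qExpand E q (H708.incl (_root_.Fermat.Agent.A2.Mod.RE P E) U₁) :=
      coeffMap_qExpand _ q U₁
    have hq2 : H708.incl (_root_.Fermat.Agent.A2.Mod.RE P E) (qExpand _ q U₂) = qExpand E q (H708.incl (_root_.Fermat.Agent.A2.Mod.RE P E) U₂) :=
      coeffMap_qExpand _ q U₂
    have hpow : (a' : LaurentSeries E) ^ q * (H708.incl (_root_.Fermat.Agent.A2.Mod.RE P E) W₂) ^ q =
        (H708.incl (_root_.Fermat.Agent.A2.Mod.RE P E) W₁) ^ q := by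
      rw [ha'c, ← mul_pow, mul_assoc, inv_mul_cancel₀ hW₂0, mul_one]
    rw [hc, hcst, hWn, map_sub, map_mul, map_mul, map_mul, map_pow, map_pow, hq1, hq2,
      ← hU, map_mul, ← hpow]
    ring

end Main

end Fermat.Agent.A2.Mod.H96

end
end
-- ===== PACK-END A2/Mod/H96/L12.lean

-- ===== PACK-BEGIN S18/H24/GaussFields.lean
section


/-!
# S18 / node_mod, part G-V (helper24) — HAND-IN

All `V`-fields of `Alg.GoodModel` (v4 on main) for the concrete objects of `S18/Mod/Defs.lean`:

`gv_fields` : for every subring `V` with underlying set `VcSet M A E`, every `w` satisfying the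
`w`-fields of G-R (`w_mem, w_ne_zero, w_inv_not_mem, w_gen, w_discrete` for `Rc M A E`), and every
coordinate `x` with an integral expansion `q⁻¹ + …` (`H456.HasIntExp`, e.g. from `IsCoordinate`):

    V_le ∧ V_total ∧ R_le_V ∧ x_mem_V ∧ w_inv_not_mem_V ∧ V_gen ∧ gauss

in exactly the field types of `Alg.GoodModel (Lc M) (Ec M E) (Fc M E) (Rc M A E) V w x S`.
No hypothesis on `ℓ`, `M`, or finiteness of `E` is needed here (they enter through G-R).
-/

set_option autoImplicit false

noncomputable section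

namespace Fermat.Agent.S18.H24

open ModularCurve AlgebraicCurve HahnSeries Fermat.Agent.S18 Fermat.Agent.S18.Mod
open Fermat.Agent.S18.H456

variable {M : ℕ} {A : ValuationSubring Qb} {E : IntermediateField ℚ Qb}

/-- The `w`-fields of G-R give a uniformiser in the sense of `IsUnif`. -/
theorem exists_isUnif {w : Om M} (hwR : w ∈ Rc M A E) (hw0 : w ≠ 0) (hwinv : w⁻¹ ∉ Rc M A E)
    (hgen : ∀ r ∈ Rc M A E, r⁻¹ ∉ Rc M A E → r * w⁻¹ ∈ Rc M A E)
    (hdisc : ∀ r ∈ Rc M A E, r ≠ 0 →
      ∃ n : ℕ, r * (w⁻¹) ^ n ∈ Rc M A E ∧ (r * (w⁻¹) ^ n)⁻¹ ∈ Rc M A E) :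
    ∃ w₀ : Qb, w = cst M w₀ ∧ _root_.Fermat.Agent.S18.H24.IsUnif A E w₀ := by
  obtain ⟨w₀, hw₀A, hw₀E, rfl⟩ := (mem_Rc_iff M A E).mp hwR
  have hw₀0 : w₀ ≠ 0 := by
    rintro rfl
    exact hw0 (map_zero _)
  have hninv : w₀⁻¹ ∉ A := by
    intro h
    apply hwinv
    rw [← map_inv₀]
    exact cst_mem_Rc M A E h (inv_mem hw₀E)
  refine ⟨w₀, rfl, hw₀A, hw₀E, hw₀0, hninv, ?_, ?_⟩
  · intro c hcA hcE hcinv
    have h1 : (cst M c)⁻¹ ∉ Rc M A E := by
      intro h
      rw [← map_inv₀] at h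
      exact hcinv ((cst_mem_Rc_iff M A E).mp h).1
    have h2 := hgen _ (cst_mem_Rc M A E hcA hcE) h1
    rw [← map_inv₀, ← map_mul] at h2
    exact ((cst_mem_Rc_iff M A E).mp h2).1
  · intro c hcA hcE hc0
    have h1 : cst M c ≠ 0 := fun h => hc0 (cst_injective M (by rw [h]; exact (map_zero _).symm))
    obtain ⟨n, hn1, hn2⟩ := hdisc _ (cst_mem_Rc M A E hcA hcE) h1
    refine ⟨n, ?_, ?_⟩
    · rw [← map_inv₀, ← map_pow, ← map_mul] at hn1
      exact ((cst_mem_Rc_iff M A E).mp hn1).1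
    · rw [← map_inv₀, ← map_pow, ← map_mul, ← map_inv₀] at hn2
      exact ((cst_mem_Rc_iff M A E).mp hn2).1

/-- **G-V hand-in**: all `V`-fields of `GoodModel` for the concrete Gauss valuation ring. -/
theorem gv_fields [NeZero M] (V : Subring (Om M)) (hV : (V : Set (Om M)) = VcSet M A E)
    {w : Om M} (hwR : w ∈ Rc M A E) (hw0 : w ≠ 0) (hwinv : w⁻¹ ∉ Rc M A E)
    (hgen : ∀ r ∈ Rc M A E, r⁻¹ ∉ Rc M A E → r * w⁻¹ ∈ Rc M A E)
    (hdisc : ∀ r ∈ Rc M A E, r ≠ 0 →
      ∃ n : ℕ, r * (w⁻¹) ^ n ∈ Rc M A E ∧ (r * (w⁻¹) ^ n)⁻¹ ∈ Rc M A E)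
    {x : Om M} (hx : HasIntExp M x) :
    ((V : Set (Om M)) ⊆ Fc M E) ∧
    (∀ f ∈ Fc M E, f ∈ V ∨ f⁻¹ ∈ V) ∧
    (Rc M A E ≤ V) ∧
    (x ∈ V) ∧
    (w⁻¹ ∉ V) ∧
    (∀ f ∈ V, f⁻¹ ∉ V → f * w⁻¹ ∈ V) ∧
    (∀ P : Polynomial (Om M), (∀ i, P.coeff i ∈ Rc M A E) →
      (∃ i, P.coeff i ≠ 0 ∧ (P.coeff i)⁻¹ ∈ Rc M A E) → (P.eval x)⁻¹ ∈ V) := by
  have hVeq : V = Vc M A E := SetLike.coe_injective (by rw [hV, coe_Vc])
  subst hVeq
  obtain ⟨w₀, rfl, hw⟩ := _root_.Fermat.Agent.S18.H24.exists_isUnif hwR hw0 hwinv hgen hdisc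
  exact ⟨field_V_le M A E, field_V_total M hw, field_R_le_V M A E, coord_mem_Vc hx,
    field_w_inv_not_mem_V hw.ne_zero hw.inv_not_mem, field_V_gen M hw, field_gauss hx⟩

/-- The same for a coordinate in the sense of `Mod.IsCoordinate`. -/
theorem gv_fields_of_isCoordinate [NeZero M] (V : Subring (Om M))
    (hV : (V : Set (Om M)) = VcSet M A E)
    {w : Om M} (hwR : w ∈ Rc M A E) (hw0 : w ≠ 0) (hwinv : w⁻¹ ∉ Rc M A E)
    (hgen : ∀ r ∈ Rc M A E, r⁻¹ ∉ Rc M A E → r * w⁻¹ ∈ Rc M A E)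
    (hdisc : ∀ r ∈ Rc M A E, r ≠ 0 →
      ∃ n : ℕ, r * (w⁻¹) ^ n ∈ Rc M A E ∧ (r * (w⁻¹) ^ n)⁻¹ ∈ Rc M A E)
    {ℓ : ℕ} {x : Om M} {S : Finset (Om M)} (hx : IsCoordinate M ℓ x S) :
    ((V : Set (Om M)) ⊆ Fc M E) ∧
    (∀ f ∈ Fc M E, f ∈ V ∨ f⁻¹ ∈ V) ∧
    (Rc M A E ≤ V) ∧
    (x ∈ V) ∧
    (w⁻¹ ∉ V) ∧
    (∀ f ∈ V, f⁻¹ ∉ V → f * w⁻¹ ∈ V) ∧
    (∀ P : Polynomial (Om M), (∀ i, P.coeff i ∈ Rc M A E) →
      (∃ i, P.coeff i ≠ 0 ∧ (P.coeff i)⁻¹ ∈ Rc M A E) → (P.eval x)⁻¹ ∈ V) :=
  gv_fields V hV hwR hw0 hwinv hgen hdisc (hasIntExp_of_isCoordinate M hx)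

end Fermat.Agent.S18.H24

end
end
-- ===== PACK-END S18/H24/GaussFields.lean

-- ===== PACK-BEGIN S18/H264/SepConcrete.lean
section






/-!
# S18 / G-SEP at the concrete objects (helper264)

The field `separable` of `Alg.GoodModel` for the concrete objects of `Mod/Defs.lean`
(`Rc M A E`, `VcSet M A E`, coordinate `jOm M`), for every subring `V` with underlying set
`VcSet M A E` and every uniformiser `w` of `Rc M A E`.
-/

set_option autoImplicit false

noncomputable section

namespace Fermat.Agent.S18.H264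

open ModularCurve AlgebraicCurve Polynomial Fermat.Agent.S18 Fermat.Agent.S18.Mod
open Fermat.Agent.S28

/-! ### (C1) the residue field of a valuation ring of `Q̄` over `ℓ` is algebraic over `𝔽_ℓ` -/

section ResAlg

variable (A : ValuationSubring Qb) (ℓ : ℕ) [hℓ : Fact ℓ.Prime]
  [Algebra (ZMod ℓ) (IsLocalRing.ResidueField A)]

theorem isAlgebraic_residue_zmod (c : IsLocalRing.ResidueField A) : IsAlgebraic (ZMod ℓ) c := by
  obtain ⟨a, rfl⟩ := IsLocalRing.residue_surjective c
  have halgQ : IsAlgebraic ℚ (a : Qb) := (AlgebraicClosure.isAlgebraic ℚ).isAlgebraic _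
  have halgZ : IsAlgebraic ℤ (a : Qb) := (IsFractionRing.isAlgebraic_iff ℤ ℚ Qb).mpr halgQ
  obtain ⟨p, hp0, hpa⟩ := halgZ
  have hq0 : p.primPart ≠ 0 := primPart_ne_zero p
  have hqa : aeval (a : Qb) p.primPart = 0 := aeval_primPart_eq_zero hp0 hpa
  have hqA : Polynomial.eval₂ (Int.castRingHom A) a p.primPart = 0 := by
    apply Subtype.ext
    have h := Polynomial.hom_eval₂ p.primPart (Int.castRingHom A) A.subtype a
    rw [ZeroMemClass.coe_zero, ← hqa, aeval_def]
    have hc : (A.subtype).comp (Int.castRingHom A) = algebraMap ℤ Qb := RingHom.ext_int _ _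
    rw [← hc]
    exact h
  refine ⟨p.primPart.map (Int.castRingHom (ZMod ℓ)), ?_, ?_⟩
  · intro h0
    have hdvd : Polynomial.C (ℓ : ℤ) ∣ p.primPart := by
      rw [C_dvd_iff_dvd_coeff]
      intro i
      have := congrArg (fun r => r.coeff i) h0
      simp only [coeff_map, coeff_zero, eq_intCast] at this
      exact (ZMod.intCast_zmod_eq_zero_iff_dvd _ _).mp this
    have hu := (isPrimitive_iff_isUnit_of_C_dvd.mp (isPrimitive_primPart p)) _ hdvd
    have := Int.isUnit_iff.mp hu
    have h2 := hℓ.out.two_le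
    omega
  · rw [aeval_def, Polynomial.eval₂_map]
    have hc : (algebraMap (ZMod ℓ) (IsLocalRing.ResidueField A)).comp (Int.castRingHom (ZMod ℓ)) =
        (IsLocalRing.residue A).comp (Int.castRingHom A) := RingHom.ext_int _ _
    rw [hc, ← Polynomial.hom_eval₂, hqA, map_zero]

instance algebra_isAlgebraic_residue_zmod :
    Algebra.IsAlgebraic (ZMod ℓ) (IsLocalRing.ResidueField A) :=
  ⟨isAlgebraic_residue_zmod A ℓ⟩

end ResAlg

/-! ### (C2), (C3) the function field `F_k` is algebraic over `𝔽_ℓ(j̄)` -/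

section FullAlg

variable {k : Type} [Field k] (ℓ : ℕ) [hℓ : Fact ℓ.Prime]

theorem evalAt_eq_eval₂RingHom {B : Type*} [CommRing B] (y : LaurentSeries B) :
    evalAt y = Polynomial.eval₂RingHom (Int.castRingHom (LaurentSeries B)) y := by
  refine Polynomial.ringHom_ext (fun n => ?_) ?_
  · simp [evalAt]
  · simp [evalAt]

/-- Base change of the integrality equation of `j(q^d)` to `k((q))`. -/
theorem evalZZ_jd_eq_zero {N : ℕ} [NeZero N] (core : CoreData N k) (d : ℕ) [NeZero d]
    (hd : d ∣ N) :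
    ∃ P : Polynomial (Polynomial ℤ), P.Monic ∧
      evalZZ (jqModC k) (qExpand k d (jqModC k)) P = 0 := by
  obtain ⟨P, hP, h0⟩ := core.integral d hd
  refine ⟨P, hP, ?_⟩
  rw [evalAt_eq_eval₂RingHom, ← evalZZ_apply] at h0
  have h := map_evalZZ (coeffMap (Int.castRingHom k)) (jqModC ℤ) (qExpand ℤ d (jqModC ℤ)) P
  rw [h0, map_zero, coeffMap_qExpand, coeffMap_jqModC] at h
  exact h.symm

/-- `j(q^d)` is integral over `𝔽_ℓ(j̄)`. -/
theorem isIntegral_jd [Algebra (ZMod ℓ) (LaurentSeries k)] {N : ℕ} [NeZero N]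
    (core : CoreData N k) (d : ℕ) [NeZero d] (hd : d ∣ N) :
    IsIntegral (IntermediateField.adjoin (ZMod ℓ) {jqModC k}) (qExpand k d (jqModC k)) := by
  obtain ⟨P, hP, h0⟩ := evalZZ_jd_eq_zero core d hd
  set J := IntermediateField.adjoin (ZMod ℓ) {jqModC k} with hJ
  set ψ : Polynomial ℤ →+* J := Polynomial.eval₂RingHom (Int.castRingHom J)
    ⟨jqModC k, IntermediateField.mem_adjoin_simple_self _ _⟩ with hψ
  have hcomp : (algebraMap J (LaurentSeries k)).comp ψ =
      Polynomial.eval₂RingHom (Int.castRingHom (LaurentSeries k)) (jqModC k) := by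
    refine Polynomial.ringHom_ext (fun n => ?_) ?_
    · simp [hψ]
    · simp [hψ]
  refine ⟨P.map ψ, hP.map _, ?_⟩
  rw [Polynomial.eval₂_map, hcomp, ← evalZZ_apply]
  exact h0

/-- Every element of `F_k = k(j(q^d) : d ∣ N)` is algebraic over `𝔽_ℓ(j̄)`. -/
theorem isAlgebraic_of_mem_fullC [Algebra (ZMod ℓ) k] [Algebra.IsAlgebraic (ZMod ℓ) k]
    {N : ℕ} [NeZero N] (core : CoreData N k)
    {a : LaurentSeries k} (ha : a ∈ modularFunctionFieldFullC k N) :
    IsAlgebraic (IntermediateField.adjoin (ZMod ℓ) {jqModC k}) a := by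
  set J := IntermediateField.adjoin (ZMod ℓ) {jqModC k} with hJ
  rw [← mem_algebraicClosure_iff]
  have hle : (modularFunctionFieldFullC k N).toSubfield ≤ (algebraicClosure J (LaurentSeries k)).toSubfield := by
    rw [modularFunctionFieldFullC, IntermediateField.adjoin_toSubfield, Subfield.closure_le]
    rintro y (⟨c, rfl⟩ | ⟨d, hd0, hd, rfl⟩)
    · show algebraMap k (LaurentSeries k) c ∈ algebraicClosure J (LaurentSeries k)
      rw [mem_algebraicClosure_iff]
      obtain ⟨p, hp0, hpc⟩ := (Algebra.IsAlgebraic.isAlgebraic c : IsAlgebraic (ZMod ℓ) c)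
      refine ⟨p.map (algebraMap (ZMod ℓ) J), (Polynomial.map_ne_zero_iff
        (algebraMap (ZMod ℓ) J).injective).mpr hp0, ?_⟩
      rw [aeval_def, Polynomial.eval₂_map]
      have hc : (algebraMap J (LaurentSeries k)).comp (algebraMap (ZMod ℓ) J) =
          (algebraMap k (LaurentSeries k)).comp (algebraMap (ZMod ℓ) k) := RingHom.ext_zmod _ _
      rw [hc, ← Polynomial.hom_eval₂, ← aeval_def, hpc, map_zero]
    · show qExpand k d (jqModC k) ∈ algebraicClosure J (LaurentSeries k)
      rw [mem_algebraicClosure_iff']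
      have := hd0
      exact isIntegral_jd ℓ core d hd
  exact hle ha

end FullAlg

/-! ### (C4) the reduction relation on the Gauss valuation ring -/

section RedRel

variable (M : ℕ) (A : ValuationSubring Qb) (E : IntermediateField ℚ Qb)

/-- Reduction of series modulo the maximal ideal of `A`. -/
abbrev redS : LaurentSeries A →+* LaurentSeries (IsLocalRing.ResidueField A) :=
  coeffMap (IsLocalRing.residue A)

/-- Inclusion `A((q)) → Q̄((q))`. -/
abbrev inclS : LaurentSeries A →+* LaurentSeries Qb := coeffMap A.subtype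

/-- The coercion `Ω = F_M → Q̄((q))` as a ring homomorphism. -/
def omValH : Om M →+* LaurentSeries Qb := (modularFunctionFieldBar M).val.toRingHom

@[simp] theorem omValH_apply (f : Om M) : omValH M f = (f : LaurentSeries Qb) := rfl

/-- Series over `Q̄` all of whose coefficients lie in `E`. -/
def coeffsInE : Subring (LaurentSeries Qb) where
  carrier := {U | ∀ n : ℤ, U.coeff n ∈ E}
  zero_mem' := fun n => by simp
  one_mem' := fun n => by
    rw [HahnSeries.coeff_one]
    split_ifs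
    · exact one_mem _
    · exact zero_mem _
  add_mem' := fun {a b} ha hb n => by
    rw [HahnSeries.coeff_add]
    exact add_mem (ha n) (hb n)
  neg_mem' := fun {a} ha n => by
    rw [HahnSeries.coeff_neg]
    exact neg_mem (ha n)
  mul_mem' := fun {a b} ha hb n => by
    rw [HahnSeries.coeff_mul]
    exact sum_mem fun ij _ => mul_mem (ha _) (hb _)

/-- The subring of `A((q))` cut out by `IsIntE`. -/
def intESub : Subring (LaurentSeries A) :=
  (coeffsInE E).comap (inclS A) ⊓ ((Fc M E).toSubring.map (omValH M)).comap (inclS A)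

theorem mem_intESub {U : LaurentSeries A} : U ∈ intESub M A E ↔ IsIntE M A E U := by
  constructor
  · rintro ⟨h1, f, hf, hfU⟩
    exact ⟨fun n => h1 n, f, hf, hfU⟩
  · rintro ⟨h1, f, hf, hfU⟩
    exact ⟨fun n => h1 n, f, hf, hfU⟩

/-- The reduction relation: `(g, ḡ) ∈ redRel` iff `g = U₁/U₂` and `ḡ = Ū₁/Ū₂` for `E`-rational
integral series `U₁, U₂` in `Fc` with `Ū₂ ≠ 0`. -/
def redRel : Subring (Om M × LaurentSeries (IsLocalRing.ResidueField A)) where
  carrier := {z | z.1 ∈ Fc M E ∧ ∃ U₁ U₂ : LaurentSeries A, U₁ ∈ intESub M A E ∧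
    U₂ ∈ intESub M A E ∧ redS A U₂ ≠ 0 ∧
    (z.1 : LaurentSeries Qb) * inclS A U₂ = inclS A U₁ ∧ z.2 * redS A U₂ = redS A U₁}
  zero_mem' := by
    refine ⟨zero_mem _, 0, 1, zero_mem _, one_mem _, ?_, ?_, ?_⟩
    · rw [map_one]; exact one_ne_zero
    · simp
    · simp
  one_mem' := by
    refine ⟨one_mem _, 1, 1, one_mem _, one_mem _, ?_, ?_, ?_⟩
    · rw [map_one]; exact one_ne_zero
    · simp
    · simp
  add_mem' := by
    rintro ⟨f, a⟩ ⟨g, b⟩ ⟨hf, U₁, U₂, h₁, h₂, hne, heq, hred⟩ ⟨hg, W₁, W₂, k₁, k₂, kne, keq, kred⟩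
    refine ⟨add_mem hf hg, U₁ * W₂ + W₁ * U₂, U₂ * W₂, add_mem (mul_mem h₁ k₂) (mul_mem k₁ h₂),
      mul_mem h₂ k₂, ?_, ?_, ?_⟩
    · rw [map_mul]; exact mul_ne_zero hne kne
    · simp only [Prod.fst_add] at heq keq ⊢
      push_cast
      rw [map_add, map_mul, map_mul, map_mul, ← heq, ← keq]
      ring
    · simp only [Prod.snd_add] at hred kred ⊢
      rw [map_add, map_mul, map_mul, map_mul, ← hred, ← kred]
      ring
  neg_mem' := by
    rintro ⟨f, a⟩ ⟨hf, U₁, U₂, h₁, h₂, hne, heq, hred⟩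
    refine ⟨neg_mem hf, -U₁, U₂, neg_mem h₁, h₂, hne, ?_, ?_⟩
    · simp only [Prod.fst_neg] at heq ⊢
      push_cast
      rw [map_neg, ← heq]
      ring
    · simp only [Prod.snd_neg] at hred ⊢
      rw [map_neg, ← hred]
      ring
  mul_mem' := by
    rintro ⟨f, a⟩ ⟨g, b⟩ ⟨hf, U₁, U₂, h₁, h₂, hne, heq, hred⟩ ⟨hg, W₁, W₂, k₁, k₂, kne, keq, kred⟩
    refine ⟨mul_mem hf hg, U₁ * W₁, U₂ * W₂, mul_mem h₁ k₁, mul_mem h₂ k₂, ?_, ?_, ?_⟩
    · rw [map_mul]; exact mul_ne_zero hne kne
    · simp only [Prod.fst_mul] at heq keq ⊢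
      push_cast
      rw [map_mul, map_mul, ← heq, ← keq]
      ring
    · simp only [Prod.snd_mul] at hred kred ⊢
      rw [map_mul, map_mul, ← hred, ← kred]
      ring

theorem mem_redRel {g : Om M} {a : LaurentSeries (IsLocalRing.ResidueField A)} :
    (g, a) ∈ redRel M A E ↔ g ∈ Fc M E ∧ ∃ U₁ U₂ : LaurentSeries A, U₁ ∈ intESub M A E ∧
      U₂ ∈ intESub M A E ∧ redS A U₂ ≠ 0 ∧
      (g : LaurentSeries Qb) * inclS A U₂ = inclS A U₁ ∧ a * redS A U₂ = redS A U₁ := Iff.rfl

/-- (R2) every element of the Gauss valuation ring has a reduction. -/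
theorem exists_red_of_mem_VcSet {f : Om M} (hf : f ∈ VcSet M A E) :
    ∃ a, (f, a) ∈ redRel M A E := by
  obtain ⟨hfF, U₁, U₂, h₁, h₂, hne, heq⟩ := hf
  refine ⟨redS A U₁ * (redS A U₂)⁻¹, hfF, U₁, U₂, (mem_intESub M A E).mpr h₁,
    (mem_intESub M A E).mpr h₂, hne, heq, ?_⟩
  rw [mul_assoc, inv_mul_cancel₀ hne, mul_one]

theorem mem_VcSet_of_mem_redRel {g : Om M} {a : LaurentSeries (IsLocalRing.ResidueField A)}
    (h : (g, a) ∈ redRel M A E) : g ∈ VcSet M A E := by
  obtain ⟨hgF, U₁, U₂, h₁, h₂, hne, heq, -⟩ := h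
  exact ⟨hgF, U₁, U₂, (mem_intESub M A E).mp h₁, (mem_intESub M A E).mp h₂, hne, heq⟩

/-- (R4) an element with nonzero reduction is a unit of the Gauss valuation ring. -/
theorem inv_mem_VcSet_of_red_ne_zero {g : Om M}
    {a : LaurentSeries (IsLocalRing.ResidueField A)} (h : (g, a) ∈ redRel M A E) (ha : a ≠ 0) :
    g ≠ 0 ∧ g⁻¹ ∈ VcSet M A E := by
  obtain ⟨hgF, U₁, U₂, h₁, h₂, hne, heq, hred⟩ := h
  have hne₁ : redS A U₁ ≠ 0 := by
    rw [← hred]
    exact mul_ne_zero ha hne
  have hg0 : g ≠ 0 := by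
    rintro rfl
    apply hne₁
    have h0 : inclS A U₁ = 0 := by
      rw [← heq]
      simp
    have hU : U₁ = 0 := H516.incl_injective A (by rw [h0, map_zero])
    rw [hU, map_zero]
  refine ⟨hg0, inv_mem hgF, U₂, U₁, (mem_intESub M A E).mp h₂, (mem_intESub M A E).mp h₁,
    hne₁, ?_⟩
  have hg0' : (g : LaurentSeries Qb) ≠ 0 := fun h => hg0 (Subtype.ext h)
  push_cast
  rw [← heq, ← mul_assoc, inv_mul_cancel₀ hg0', one_mul]

/-- (C5) reductions lie in the function field `F_k`. -/
theorem red_mem_fullC [NeZero M] (core : CoreData M (IsLocalRing.ResidueField A)) {g : Om M}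
    {a : LaurentSeries (IsLocalRing.ResidueField A)} (h : (g, a) ∈ redRel M A E) :
    a ∈ modularFunctionFieldFullC (IsLocalRing.ResidueField A) M := by
  obtain ⟨-, U₁, U₂, h₁, h₂, hne, -, hred⟩ := h
  have key : ∀ U : LaurentSeries A, U ∈ intESub M A E →
      redS A U ∈ modularFunctionFieldFullC (IsLocalRing.ResidueField A) M := by
    intro U hU
    obtain ⟨-, f, -, hfU⟩ := (mem_intESub M A E).mp hU
    refine H516.red_mem_of_incl_mem A (IsLocalRing.residue A) M core ?_
    rw [← hfU]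
    exact f.2
  have ha : a = redS A U₁ * (redS A U₂)⁻¹ := by
    rw [← hred, mul_assoc, mul_inv_cancel₀ hne, mul_one]
  rw [ha]
  exact mul_mem (key U₁ h₁) (inv_mem (key U₂ h₂))

/-- (R5) the reduction of `j` is `j̄`. -/
theorem jOm_mem_redRel : (jOm M, jqModC (IsLocalRing.ResidueField A)) ∈ redRel M A E := by
  have hjF : jOm M ∈ Fc M E :=
    Subfield.subset_closure (Set.mem_union_right _ ⟨1, inferInstance, one_dvd M, rfl⟩)
  have hjval : (jOm M : LaurentSeries Qb) = inclS A (jqModC A) := by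
    show coeffEmb Qb (qExpand ℚ 1 jq) = coeffMap A.subtype (jqModC A)
    rw [qExpand_one_apply, H516.coeffEmb_jq, coeffMap_jqModC]
  have hjint : jqModC A ∈ intESub M A E := by
    refine ⟨fun n => ?_, jOm M, hjF, hjval⟩
    show ((coeffMap A.subtype (jqModC A)).coeff n) ∈ E
    rw [coeffMap_jqModC, coeff_jqModC_eq_intCast]
    exact intCast_mem E _
  refine ⟨hjF, jqModC A, 1, hjint, one_mem _, ?_, ?_, ?_⟩
  · rw [map_one]; exact one_ne_zero
  · rw [map_one, mul_one, hjval]
  · rw [map_one, mul_one]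
    exact (coeffMap_jqModC (IsLocalRing.residue A)).symm

/-- (R3) an element with zero reduction is divisible by the uniformiser `w`. -/
theorem mul_inv_mem_VcSet_of_red_eq_zero {w : Om M} (hw : w ∈ Rc M A E) (hw0 : w ≠ 0)
    (hgen : ∀ r ∈ Rc M A E, r⁻¹ ∉ Rc M A E → r * w⁻¹ ∈ Rc M A E) {g : Om M}
    (h : (g, (0 : LaurentSeries (IsLocalRing.ResidueField A))) ∈ redRel M A E) :
    g * w⁻¹ ∈ VcSet M A E := by
  obtain ⟨hgF, U₁, U₂, h₁, h₂, hne, heq, hred⟩ := h
  simp only [zero_mul] at hred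
  obtain ⟨aw, ⟨hawA, hawE⟩, rfl⟩ := hw
  have haw0 : aw ≠ 0 := by
    rintro rfl
    exact hw0 (map_zero _)
  obtain ⟨hU₁E, f₁, hf₁F, hf₁U⟩ := (mem_intESub M A E).mp h₁
  have hinj : Function.Injective (algebraMap Qb (Om M)) := (algebraMap Qb (Om M)).injective
  -- every coefficient of `U₁` is divisible by `aw` in `A`
  have hdiv : ∀ n : ℤ, ((U₁.coeff n : A) : Qb) * aw⁻¹ ∈ A := by
    intro n
    by_cases hc0 : ((U₁.coeff n : A) : Qb) = 0
    · rw [hc0, zero_mul]
      exact zero_mem _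
    have hcres : IsLocalRing.residue A (U₁.coeff n) = 0 := by
      have := congrArg (fun S : LaurentSeries (IsLocalRing.ResidueField A) => S.coeff n) hred
      simpa using this.symm
    have hr : algebraMap Qb (Om M) ((U₁.coeff n : A) : Qb) ∈ Rc M A E :=
      ⟨_, ⟨(U₁.coeff n).2, hU₁E n⟩, rfl⟩
    have hrinv : (algebraMap Qb (Om M) ((U₁.coeff n : A) : Qb))⁻¹ ∉ Rc M A E := by
      rintro ⟨b, ⟨hbA, -⟩, hb⟩
      have hb' : b = ((U₁.coeff n : A) : Qb)⁻¹ := hinj (by rw [hb, map_inv₀])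
      have hunit : IsUnit (U₁.coeff n) := by
        refine isUnit_iff_exists_inv.mpr ⟨⟨b, hbA⟩, Subtype.ext ?_⟩
        show ((U₁.coeff n : A) : Qb) * b = 1
        rw [hb', mul_inv_cancel₀ hc0]
      have hmem : U₁.coeff n ∈ IsLocalRing.maximalIdeal A :=
        (IsLocalRing.residue_eq_zero_iff _).mp hcres
      exact (IsLocalRing.mem_maximalIdeal _).mp hmem hunit
    obtain ⟨b, ⟨hbA, -⟩, hb⟩ := hgen _ hr hrinv
    have hb' : b = ((U₁.coeff n : A) : Qb) * aw⁻¹ := hinj (by rw [hb, map_mul, map_inv₀])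
    rw [← hb']
    exact hbA
  -- the divided series
  let U₁' : LaurentSeries A :=
    ⟨fun n => ⟨((U₁.coeff n : A) : Qb) * aw⁻¹, hdiv n⟩,
      U₁.isPWO_support.mono (fun n hn => by
        intro h0
        apply hn
        apply Subtype.ext
        show ((U₁.coeff n : A) : Qb) * aw⁻¹ = 0
        rw [h0]
        simp)⟩
  have hwval : algebraMap Qb (LaurentSeries Qb) aw = HahnSeries.single 0 aw :=
    algebraMap_laurentSeries_eq_single Qb aw
  have hwcoe : ((algebraMap Qb (Om M) aw : Om M) : LaurentSeries Qb) =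
      algebraMap Qb (LaurentSeries Qb) aw := rfl
  have hwne : algebraMap Qb (LaurentSeries Qb) aw ≠ 0 := by
    rw [← hwcoe]
    exact fun h => hw0 (Subtype.ext h)
  have hU' : inclS A U₁' * algebraMap Qb (LaurentSeries Qb) aw = inclS A U₁ := by
    rw [hwval]
    ext n
    rw [HahnSeries.coeff_mul_single_zero]
    show ((U₁.coeff n : A) : Qb) * aw⁻¹ * aw = ((U₁.coeff n : A) : Qb)
    rw [mul_assoc, inv_mul_cancel₀ haw0, mul_one]
  have hU'' : inclS A U₁' = inclS A U₁ * (algebraMap Qb (LaurentSeries Qb) aw)⁻¹ := by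
    rw [← hU', mul_assoc, mul_inv_cancel₀ hwne, mul_one]
  have hwF : algebraMap Qb (Om M) aw ∈ Fc M E :=
    Subfield.subset_closure (Set.mem_union_left _ ⟨aw, hawE, rfl⟩)
  have hU₁' : IsIntE M A E U₁' := by
    refine ⟨fun n => ?_, f₁ * (algebraMap Qb (Om M) aw)⁻¹, mul_mem hf₁F (inv_mem hwF), ?_⟩
    · show ((U₁.coeff n : A) : Qb) * aw⁻¹ ∈ E
      exact mul_mem (hU₁E n) (inv_mem hawE)
    · show (f₁ : LaurentSeries Qb) *
        (((algebraMap Qb (Om M) aw : Om M) : LaurentSeries Qb))⁻¹ = inclS A U₁'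
      rw [hwcoe, hf₁U, hU'']
  refine ⟨mul_mem hgF (inv_mem hwF), U₁', U₂, hU₁', (mem_intESub M A E).mp h₂, hne, ?_⟩
  show (g : LaurentSeries Qb) * (((algebraMap Qb (Om M) aw : Om M) : LaurentSeries Qb))⁻¹ *
    inclS A U₂ = inclS A U₁'
  rw [hwcoe, hU'', ← heq]
  ring

end RedRel

/-! ### (C6) the field `separable` at the concrete objects -/

section Main

variable (M : ℕ) [NeZero M] {ℓ : ℕ} [hℓ : Fact ℓ.Prime]

/-- **G-SEP at the concrete objects, coordinate `j`.**  For every subring `V` with underlying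
set `VcSet M A E` and every `w ∈ Rc M A E`, `w ≠ 0`, generating the maximal ideal of `Rc M A E`
(fields `w_mem`, `w_ne_zero`, `w_gen` of `PartR`): the field `separable` of `Alg.GoodModel`.
No hypothesis on `E`.  The polynomial even has coefficients in `ℤ[j]`. -/
theorem separable_jOm (hℓM : ¬ ℓ ∣ M) (A : ValuationSubring Qb) (hA : A.LiesOverPrime ℓ)
    (E : IntermediateField ℚ Qb) (V : Subring (Om M)) (hV : (V : Set (Om M)) = VcSet M A E)
    (w : Om M) (hw : w ∈ Rc M A E) (hw0 : w ≠ 0)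
    (hgen : ∀ r ∈ Rc M A E, r⁻¹ ∉ Rc M A E → r * w⁻¹ ∈ Rc M A E) :
    ∀ f ∈ V, ∃ P : Polynomial (Om M), (∀ i, P.coeff i ∈ Alg.polyRing (Rc M A E) (jOm M)) ∧
      P.eval f * w⁻¹ ∈ V ∧ (Polynomial.derivative P).eval f ≠ 0 ∧
      ((Polynomial.derivative P).eval f)⁻¹ ∈ V := by
  intro f hf
  have hmemV : ∀ g : Om M, g ∈ V ↔ g ∈ VcSet M A E := fun g => by
    rw [← hV]
    rfl
  have hchar : CharP (IsLocalRing.ResidueField A) ℓ := H516.charP_residue A hA
  let _ : Algebra (ZMod ℓ) (IsLocalRing.ResidueField A) := ZMod.algebra _ ℓ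
  have core := H516.coreData_residue M hℓM A hA
  obtain ⟨a, ha⟩ := exists_red_of_mem_VcSet M A E ((hmemV f).mp hf)
  have halg := isAlgebraic_of_mem_fullC ℓ core (red_mem_fullC M A E core ha)
  have hv : HahnSeries.addVal ℤ (IsLocalRing.ResidueField A)
      (jqModC (IsLocalRing.ResidueField A)) = ((-1 : ℤ) : WithTop ℤ) := by
    rw [HahnSeries.addVal_apply_of_ne (jqModC_ne_zero_of_nontrivial _), order_jqModC]
  exact exists_poly_of_graph_sep ℓ (HahnSeries.addVal ℤ _) (redRel M A E) V (Rc M A E) w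
    (jOm M) f (jqModC _) a (jOm_mem_redRel M A E) ha
    (fun g hg => (hmemV _).mpr (mul_inv_mem_VcSet_of_red_eq_zero M A E hw hw0 hgen hg))
    (fun g b hg hb => ⟨(inv_mem_VcSet_of_red_ne_zero M A E hg hb).1,
      (hmemV _).mpr (inv_mem_VcSet_of_red_ne_zero M A E hg hb).2⟩)
    (-1) hv (not_prime_dvd_neg_one ℓ hℓ.out) halg

end Main

end Fermat.Agent.S18.H264

end
end
-- ===== PACK-END S18/H264/SepConcrete.lean

-- ===== PACK-BEGIN S18/H24/Branch.lean
section






/-!
# S18 / MOD (M2) — ramification of `F_N / ℚ̄(j)` in `Place` language  (helper24)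

`F_N = modularFunctionFieldBar N = ℚ̄(j(q^d) : d ∣ N)`, `j = jF N`.  For a place `v` of `F_N/ℚ̄`:

* `ord_sub_eq_one`     : `a ≠ 0, 1728`, `0 < v.ord (j - a)`  ⟹  `v.ord (j - a) = 1`   (unramified);
* `ord_zero_dvd`       : `0 < v.ord j`                      ⟹  `v.ord j ∣ 3`;
* `ord_1728_dvd`       : `0 < v.ord (j - 1728)`             ⟹  `v.ord (j - 1728) ∣ 2`;
* `ord_inv_dvd`        : `0 < v.ord j⁻¹`                    ⟹  `v.ord j⁻¹ ∣ N`;
* `finrank_eq_psi`     : `[F_N : ℚ̄(j)] = ψ(N)`.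

So `F_N/ℚ̄(j)` is tamely ramified, with branch values in `{0, 1728, ∞}` and ramification indices
dividing `3`, `2`, `N` respectively.  Source: the `LocalData` of the S24 modular package
(`H997.analyticCore`), helper117's local theorem and the relations `S² = (ST)³ = -1`,
`T^N ∈ Γ(N)`.
-/

set_option autoImplicit false

noncomputable section

open AlgebraicCurve ModularCurve IntermediateField
open scoped MatrixGroups

namespace Fermat.Agent.S18.H24

open Fermat.Agent.S24

variable (N : ℕ) [NeZero N]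

/-- `[F_N : ℚ̄(j)]` is finite. -/
instance finiteDimensional_FF :
    FiniteDimensional ↥(IntermediateField.adjoin Kbar {jF N}) (FF N) :=
  (Deg457.degree_fields N).1

theorem finrank_eq_card :
    Module.finrank ↥(IntermediateField.adjoin Kbar {jF N}) (FF N) = Nat.card (XX N) := by
  obtain ⟨hfd, hle⟩ := Deg457.degree_fields N
  obtain ⟨_, _, h1, -⟩ := (H997.analyticCore N).modularPackage_fields hfd hle
  exact h1

/-- `[F_N : ℚ̄(j)] = ψ(N)`. -/
theorem finrank_eq_psi :
    Module.finrank ↥(IntermediateField.adjoin Kbar {jF N}) (FF N) = dedekindPsi N := by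
  rw [finrank_eq_card, card_XX]

instance finite_XX : Finite (XX N) := by
  apply Nat.finite_of_card_ne_zero
  rw [← finrank_eq_card]
  exact Module.finrank_pos.ne'

section Generic

variable {N}
variable {t : FF N} (L : LocalData Kbar (FF N) ℂ (XX N) t)

/-- General principle: if `perm ^ k = 1` then every ramification index over `t = 0`
divides `k`. -/
theorem ord_dvd_of_perm_pow (hE : IntermediateField.adjoin Kbar {jF N} ≤ Kbar⟮t⟯) (k : ℕ)
    (hk : L.perm ^ k = 1) (v : Place Kbar (FF N)) (hv : 0 < v.ord t) : v.ord t ∣ (k : ℤ) := by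
  obtain ⟨x, rfl⟩ := H117.exists_placeOf_eq L (IntermediateField.adjoin Kbar {jF N}) hE
    (finrank_eq_card N) v hv
  exact H117.ord_t_dvd_of_pow_apply_eq L x k (by rw [hk]; rfl)

end Generic

theorem adjoin_le_sub (a : Kbar) :
    IntermediateField.adjoin Kbar {jF N} ≤ Kbar⟮jF N - algebraMap Kbar (FF N) a⟯ := by
  rw [IntermediateField.adjoin_simple_le_iff]
  have h1 : jF N - algebraMap Kbar (FF N) a ∈ Kbar⟮jF N - algebraMap Kbar (FF N) a⟯ :=
    IntermediateField.mem_adjoin_simple_self _ _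
  have h2 : algebraMap Kbar (FF N) a ∈ Kbar⟮jF N - algebraMap Kbar (FF N) a⟯ :=
    IntermediateField.algebraMap_mem _ a
  have := add_mem h1 h2
  rwa [sub_add_cancel] at this

theorem adjoin_le_inv : IntermediateField.adjoin Kbar {jF N} ≤ Kbar⟮(jF N)⁻¹⟯ := by
  rw [IntermediateField.adjoin_simple_le_iff]
  have h1 : (jF N)⁻¹ ∈ Kbar⟮(jF N)⁻¹⟯ := IntermediateField.mem_adjoin_simple_self _ _
  have := inv_mem h1
  rwa [inv_inv] at this

/-! ### the permutations of the concrete local data -/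

theorem permOf_pow (g : SL(2, ℤ)) (k : ℕ) : (permOf N g) ^ k = permOf N (g ^ k) :=
  (map_pow (MulAction.toPermHom SL(2, ℤ) (XX N)) g k).symm

theorem permOf_neg_one : permOf N (-1) = 1 := by
  ext x
  exact Fermat.Agent.S20.Comb.neg_one_smul_quotient N x

theorem permOf_one' : permOf N 1 = 1 := by
  ext x
  simp [permOf]

theorem dataFin_perm_zero :
    ((H997.analyticCore N).dataFin 0).perm = permOf N (ModularGroup.S * ModularGroup.T)⁻¹ := by
  unfold H997.AnalyticCore.dataFin
  rw [dif_pos rfl]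
  rfl

theorem dataFin_perm_1728 :
    ((H997.analyticCore N).dataFin 1728).perm = permOf N ModularGroup.S⁻¹ := by
  have h0 : (1728 : Kbar) ≠ 0 := by norm_num
  unfold H997.AnalyticCore.dataFin
  rw [dif_neg h0, dif_pos rfl]
  rfl

theorem dataInf_perm : (H997.analyticCore N).dataInf.perm = permOf N ModularGroup.T⁻¹ := rfl

theorem perm_zero_pow : ((H997.analyticCore N).dataFin 0).perm ^ 3 = 1 := by
  rw [dataFin_perm_zero, permOf_pow, inv_pow, Fermat.Agent.S20.Comb.ST_pow_three]
  have : ((-1 : SL(2, ℤ)))⁻¹ = -1 := by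
    rw [inv_eq_iff_eq_inv, eq_inv_iff_mul_eq_one]
    simp
  rw [this, permOf_neg_one]

theorem perm_1728_pow : ((H997.analyticCore N).dataFin 1728).perm ^ 2 = 1 := by
  rw [dataFin_perm_1728, permOf_pow, inv_pow, Fermat.Agent.S20.Comb.S_pow_two]
  have : ((-1 : SL(2, ℤ)))⁻¹ = -1 := by
    rw [inv_eq_iff_eq_inv, eq_inv_iff_mul_eq_one]
    simp
  rw [this, permOf_neg_one]

/-- `T ^ N` acts trivially on `SL₂(ℤ)/Γ₀(N)`. -/
theorem permOf_T_pow : permOf N (ModularGroup.T ^ N) = 1 := by
  ext x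
  obtain ⟨g, rfl⟩ := QuotientGroup.mk_surjective x
  show (ModularGroup.T ^ N) • (QuotientGroup.mk g : SL(2, ℤ) ⧸ CongruenceSubgroup.Gamma0 N) = _
  rw [Equiv.Perm.one_apply, Fermat.Agent.S20.Comb.smul_mk_eq_mk_iff]
  have hT : ((ModularGroup.T ^ N : SL(2, ℤ)) : Matrix (Fin 2) (Fin 2) ℤ) = !![1, (N : ℤ); 0, 1] := by
    have := ModularGroup.coe_T_zpow (N : ℤ)
    rw [zpow_natCast] at this
    exact this
  have h00 : ((ModularGroup.T ^ N * g : SL(2, ℤ)) 0 0 : ℤ) = g 0 0 + N * g 1 0 := by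
    rw [Matrix.SpecialLinearGroup.coe_mul, hT, Matrix.mul_apply, Fin.sum_univ_two]
    simp
  have h10 : ((ModularGroup.T ^ N * g : SL(2, ℤ)) 1 0 : ℤ) = g 1 0 := by
    rw [Matrix.SpecialLinearGroup.coe_mul, hT, Matrix.mul_apply, Fin.sum_univ_two]
    simp
  rw [h00, h10]
  push_cast
  simp
  ring

theorem perm_inf_pow : (H997.analyticCore N).dataInf.perm ^ N = 1 := by
  rw [dataInf_perm, permOf_pow, inv_pow, ← permOf_one' N]
  have h : permOf N ((ModularGroup.T ^ N)⁻¹) = (permOf N (ModularGroup.T ^ N))⁻¹ := by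
    ext x
    simp [permOf]
  rw [h, permOf_T_pow, inv_one, permOf_one']

/-! ### the ramification statements -/

/-- **Unramified outside `0, 1728, ∞`.** -/
theorem ord_sub_eq_one (a : Kbar) (h0 : a ≠ 0) (h1 : a ≠ 1728) (v : Place Kbar (FF N))
    (hv : 0 < v.ord (jF N - algebraMap Kbar (FF N) a)) :
    v.ord (jF N - algebraMap Kbar (FF N) a) = 1 := by
  have hperm : ((H997.analyticCore N).dataFin a).perm ^ 1 = 1 := by
    rw [pow_one]
    exact (H997.analyticCore N).dataFin_perm_generic a h0 h1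
  have h := ord_dvd_of_perm_pow ((H997.analyticCore N).dataFin a) (adjoin_le_sub N a) 1 hperm v hv
  have h2 : v.ord (jF N - algebraMap Kbar (FF N) a) ≤ 1 := Int.le_of_dvd one_pos (by simpa using h)
  omega

/-- Over `j = 0` the ramification indices divide `3`. -/
theorem ord_zero_dvd (v : Place Kbar (FF N)) (hv : 0 < v.ord (jF N)) : v.ord (jF N) ∣ 3 := by
  have hv' : 0 < v.ord (jF N - algebraMap Kbar (FF N) 0) := by rwa [map_zero, sub_zero]
  have h := ord_dvd_of_perm_pow ((H997.analyticCore N).dataFin 0) (adjoin_le_sub N 0) 3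
    (perm_zero_pow N) v hv'
  rw [map_zero, sub_zero] at h
  exact_mod_cast h

/-- Over `j = 1728` the ramification indices divide `2`. -/
theorem ord_1728_dvd (v : Place Kbar (FF N))
    (hv : 0 < v.ord (jF N - algebraMap Kbar (FF N) 1728)) :
    v.ord (jF N - algebraMap Kbar (FF N) 1728) ∣ 2 := by
  have h := ord_dvd_of_perm_pow ((H997.analyticCore N).dataFin 1728) (adjoin_le_sub N 1728) 2
    (perm_1728_pow N) v hv
  exact_mod_cast h

/-- Over `j = ∞` the ramification indices divide `N`. -/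
theorem ord_inv_dvd (v : Place Kbar (FF N)) (hv : 0 < v.ord (jF N)⁻¹) :
    v.ord (jF N)⁻¹ ∣ (N : ℤ) :=
  ord_dvd_of_perm_pow (H997.analyticCore N).dataInf (adjoin_le_inv N) N (perm_inf_pow N) v hv

end Fermat.Agent.S18.H24

end
end
-- ===== PACK-END S18/H24/Branch.lean

-- ===== PACK-BEGIN S18/H107/BranchConcrete.lean
section







/-!
# helper107 — S18 / node_mod, G-BR : the branch data of the `j`-line at the CONCRETE objects

`branchJ_concrete107 M : BranchJ107 (Mod.Lc M) (Mod.jOm M)` — in valuation-subring language over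
`Ω = Om M = F_M`:  `F_M / ℚ̄(j)` is unramified outside `0, 1728, ∞`, with `ord ≤ 3` over `0` and
`ord ≤ 2` over `1728`.

Adapter from the `Place`-language results on main (`H24.ord_sub_eq_one`, `ord_zero_dvd`,
`ord_1728_dvd`) via `H504.placeOfValuationSubring` (a valuation subring of `F_M` containing `ℚ̄`
with a nonzero non-unit is a `Place`).

Consequences: `unramified_j_concrete107` (= field `unramified` of `Alg.GoodModel` for `x = j`,
`S = {0, 1728}`), and, through `unramified_t2_107` / `unramified_t3_107`, the field `unramified`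
for the Hauptmodul coordinates.
-/

set_option autoImplicit false

noncomputable section

namespace Fermat.Agent.S18.H107

open AlgebraicCurve ModularCurve IntermediateField HahnSeries
open Fermat.Agent.S18 Fermat.Agent.S18.Mod Fermat.Agent.S24 Fermat.Agent.Lib.RR

variable (M : ℕ) [NeZero M]

theorem jOm_eq_jF107 : jOm M = jF M := by
  apply Subtype.ext
  show coeffEmb Qb (qExpand ℚ 1 jq) = coeffEmb Kbar jq
  rw [qExpand_one_apply]

variable {M}

omit [NeZero M] in
theorem algebraMap_mem_of_Lc107 {O : ValuationSubring (Om M)} (hL : ∀ a ∈ Lc M, a ∈ O)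
    (a : Qb) : algebraMap Qb (Om M) a ∈ O :=
  hL _ ⟨a, rfl⟩

omit [NeZero M] in
/-- A bound on `ord` at the place defined by `O` gives `OrdLe107`. -/
theorem ordLe_of_place107 (v : Place Qb (Om M)) {y : Om M} (hy0 : y ≠ 0) (k : ℕ)
    (hk : v.ord y ≤ k) : OrdLe107 v.toValuationSubring y k := by
  intro s hs hs'
  have hs0 : s ≠ 0 := by
    rintro rfl
    exact hs' (by rw [inv_zero]; exact v.toValuationSubring.zero_mem)
  have h1 : 0 ≤ v.ord s := ord_nonneg_of_mem v hs
  have h2 : ¬ 0 ≤ v.ord s⁻¹ := fun h => hs' (mem_of_ord_nonneg v h)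
  rw [v.ord_inv] at h2
  have h3 : 1 ≤ v.ord s := by omega
  apply mem_of_ord_nonneg v
  rw [v.ord_mul (pow_ne_zero _ hs0) (inv_ne_zero hy0), ord_pow, v.ord_inv]
  have h4 : (k : ℤ) * 1 ≤ (k : ℤ) * v.ord s := by
    apply mul_le_mul_of_nonneg_left h3
    exact_mod_cast Nat.zero_le k
  omega

omit [NeZero M] in
/-- positivity of `ord` at the place of a valuation ring, for a non-unit. -/
theorem ord_pos_of_nonunit107 (v : Place Qb (Om M)) {y : Om M} (hy : y ∈ v.toValuationSubring)
    (hy' : y⁻¹ ∉ v.toValuationSubring) : 0 < v.ord y := by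
  have h1 : 0 ≤ v.ord y := ord_nonneg_of_mem v hy
  have h2 : ¬ 0 ≤ v.ord y⁻¹ := fun h => hy' (mem_of_ord_nonneg v h)
  rw [v.ord_inv] at h2
  omega

omit [NeZero M] in
theorem ne_zero_of_inv_not_mem107 {O : ValuationSubring (Om M)} {y : Om M} (hy' : y⁻¹ ∉ O) :
    y ≠ 0 := by
  rintro rfl
  exact hy' (by rw [inv_zero]; exact O.zero_mem)

variable (M)

/-- **G-BR, branch data of the `j`-line** at the concrete objects. -/
theorem branchJ_concrete107 : BranchJ107 (Lc M) (jOm M) := by
  haveI : FiniteDimensional Kbar⟮jF M⟯ (FF M) := H24.finiteDimensional_FF M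
  refine ⟨?_, ?_, ?_⟩
  · rintro O hL _ ⟨a, rfl⟩ ha0 ha1728 hz hz'
    have ha0' : a ≠ 0 := fun h => ha0 (by rw [h, map_zero])
    have ha1728' : a ≠ 1728 := fun h => ha1728 (by rw [h, map_ofNat])
    rw [jOm_eq_jF107] at hz hz' ⊢
    haveI : FiniteDimensional Kbar⟮jF M - algebraMap Kbar (FF M) a⟯ (FF M) :=
      FF.finiteDimensional_adjoin_sub_const (jF M) a
    set v : Place Kbar (FF M) :=
      H504.placeOfValuationSubring O (algebraMap_mem_of_Lc107 hL) hz hz' with hv
    have hpos : 0 < v.ord (jF M - algebraMap Kbar (FF M) a) := ord_pos_of_nonunit107 v hz hz'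
    have h1 := H24.ord_sub_eq_one M a ha0' ha1728' v hpos
    exact ordLe_of_place107 v (ne_zero_of_inv_not_mem107 hz') 1 (by rw [h1]; norm_num)
  · intro O hL hz hz'
    rw [jOm_eq_jF107] at hz hz' ⊢
    set v : Place Kbar (FF M) :=
      H504.placeOfValuationSubring O (algebraMap_mem_of_Lc107 hL) hz hz' with hv
    have hpos : 0 < v.ord (jF M) := ord_pos_of_nonunit107 v hz hz'
    have h1 := H24.ord_zero_dvd M v hpos
    exact ordLe_of_place107 v (ne_zero_of_inv_not_mem107 hz') 3
      (Int.le_of_dvd (by norm_num) h1)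
  · intro O hL hz hz'
    rw [jOm_eq_jF107] at hz hz' ⊢
    have e : (1728 : FF M) = algebraMap Kbar (FF M) 1728 := by rw [map_ofNat]
    rw [e] at hz hz' ⊢
    haveI : FiniteDimensional Kbar⟮jF M - algebraMap Kbar (FF M) 1728⟯ (FF M) :=
      FF.finiteDimensional_adjoin_sub_const (jF M) 1728
    set v : Place Kbar (FF M) :=
      H504.placeOfValuationSubring O (algebraMap_mem_of_Lc107 hL) hz hz' with hv
    have hpos : 0 < v.ord (jF M - algebraMap Kbar (FF M) 1728) :=
      ord_pos_of_nonunit107 v hz hz'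
    have h1 := H24.ord_1728_dvd M v hpos
    exact ordLe_of_place107 v (ne_zero_of_inv_not_mem107 hz') 2
      (Int.le_of_dvd (by norm_num) h1)

/-- The field `unramified` of `Alg.GoodModel` for `x = j`, `S = {0, 1728}`. -/
theorem unramified_j_concrete107 (S : Finset (Om M)) (hS : ∀ s, s ∈ S ↔ s = 0 ∨ s = 1728) :
    ∀ O : ValuationSubring (Om M), (∀ a ∈ Lc M, a ∈ O) → ∀ c ∈ Lc M, c ∉ S →
      jOm M - c ∈ O → (jOm M - c)⁻¹ ∉ O → ∀ t ∈ O, t⁻¹ ∉ O → t * (jOm M - c)⁻¹ ∈ O := by
  intro O hL c hc hcS hz hz'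
  rw [← OrdLe107.one_iff]
  exact (branchJ_concrete107 M).generic O hL c hc (fun h => hcS ((hS c).2 (Or.inl h)))
    (fun h => hcS ((hS c).2 (Or.inr h))) hz hz'

end Fermat.Agent.S18.H107

end
end
-- ===== PACK-END S18/H107/BranchConcrete.lean

-- ===== PACK-BEGIN S18/H694/CoreMul.lean
section






/-!
# S18 / helper694 — the hub `CoreStatement N A m` is multiplicative in `m`

The S18 interfaces (v4) prove `CoreStatement N A p` only for PRIME `p ≠ ℓ`.  Row S29 (ES-KUM,
`S29/H222/ESKFamily.lean`, `CoreFamily`) consumes `CoreStatement N A (p ^ n)`.  This file is the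
bridge:

* `laurent_const_of_pow_eq_C` : in `k((q))`, `z ^ a = C γ`, `γ ≠ 0`, `(a : k) ≠ 0` ⟹ `z = C δ`.
* `gauss_unit`      : `incl W₁ = C γ * incl W₂` with `W̄₁ ≠ 0 ≠ W̄₂` ⟹ `γ` is a unit of `A`.
* `core_mul`        : `CoreStatement N A a → CoreStatement N A b → CoreStatement N A (a * b)`
                      (given `CoreData N k` for the residue field `k` and `(a : k) ≠ 0`).
* `coreStatement_one`, `coreStatement_of_prime`, `coreFamily_of_prime` (exact body of
  `S29.H222.CoreFamily`).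
-/

set_option autoImplicit false

noncomputable section

namespace Fermat.Agent.S18.H694

open ModularCurve AlgebraicCurve HahnSeries

/-! ## 1. Constants of `k((q))` -/

section Const

variable {k : Type*} [Field k]

/-- In a power series ring over a field: `p ^ a = C γ` with `(a : k) ≠ 0`, `γ ≠ 0` forces `p`
to be constant. -/
theorem powerSeries_const_of_pow_eq_C {a : ℕ} (ha : (a : k) ≠ 0) {p : PowerSeries k} {γ : k}
    (hγ : γ ≠ 0) (h : p ^ a = PowerSeries.C γ) :
    p = PowerSeries.C (PowerSeries.constantCoeff p) := by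
  set p₀ : k := PowerSeries.constantCoeff p with hp₀
  have h0 : p₀ ^ a = γ := by
    have := congrArg PowerSeries.constantCoeff h
    rwa [map_pow, PowerSeries.constantCoeff_C] at this
  have hp₀ne : p₀ ≠ 0 := by
    intro h'
    rw [h'] at h0
    have ha0 : a ≠ 0 := by
      rintro rfl
      exact ha (by simp)
    rw [zero_pow ha0] at h0
    exact hγ h0.symm
  have hgeom := geom_sum₂_mul p (PowerSeries.C p₀) a
  have hrhs : p ^ a - (PowerSeries.C p₀) ^ a = 0 := by
    rw [h, ← map_pow, h0, sub_self]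
  rw [hrhs] at hgeom
  have hsum : (∑ i ∈ Finset.range a, p ^ i * (PowerSeries.C p₀) ^ (a - 1 - i)) ≠ 0 := by
    intro hs
    have := congrArg PowerSeries.constantCoeff hs
    rw [map_sum, map_zero] at this
    have h2 : ∀ i ∈ Finset.range a,
        PowerSeries.constantCoeff (p ^ i * (PowerSeries.C p₀) ^ (a - 1 - i)) = p₀ ^ (a - 1) := by
      intro i hi
      rw [map_mul, map_pow, map_pow, PowerSeries.constantCoeff_C, ← hp₀, ← _root_.pow_add]
      congr 1
      have := Finset.mem_range.mp hi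
      omega
    rw [Finset.sum_congr rfl h2, Finset.sum_const, Finset.card_range, nsmul_eq_mul] at this
    rcases mul_eq_zero.mp this with h3 | h3
    · exact ha h3
    · exact hp₀ne (pow_eq_zero_iff (n := a - 1) (by
        intro h4
        rw [h4, pow_zero] at h3
        exact one_ne_zero h3) |>.mp h3)
  rcases mul_eq_zero.mp hgeom with h1 | h1
  · exact absurd h1 hsum
  · exact sub_eq_zero.mp h1

/-- In `k((q))`: `z ^ a = C γ` with `(a : k) ≠ 0`, `γ ≠ 0` forces `z` to be a nonzero constant. -/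
theorem laurent_const_of_pow_eq_C {a : ℕ} (ha : (a : k) ≠ 0) {z : LaurentSeries k} {γ : k}
    (hγ : γ ≠ 0) (h : z ^ a = HahnSeries.C γ) :
    ∃ δ : k, δ ≠ 0 ∧ z = HahnSeries.C δ := by
  have ha0 : a ≠ 0 := by
    rintro rfl
    exact ha (by simp)
  have hz : z ≠ 0 := by
    rintro rfl
    rw [zero_pow ha0] at h
    exact hγ (HahnSeries.C_injective (by rw [← h, map_zero]))
  have hord : z.order = 0 := by
    have h1 := congrArg HahnSeries.order h
    rw [HahnSeries.order_pow, HahnSeries.order_C, nsmul_eq_mul] at h1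
    rcases mul_eq_zero.mp h1 with h2 | h2
    · exact absurd (by exact_mod_cast h2) ha0
    · exact h2
  have hp : HahnSeries.ofPowerSeries ℤ k z.powerSeriesPart = z := by
    rw [LaurentSeries.ofPowerSeries_powerSeriesPart, hord, neg_zero]
    show (1 : LaurentSeries k) * z = z
    rw [one_mul]
  have hpa : z.powerSeriesPart ^ a = PowerSeries.C γ := by
    apply HahnSeries.ofPowerSeries_injective (Γ := ℤ)
    rw [map_pow, hp, h, HahnSeries.ofPowerSeries_C]
  have hconst := powerSeries_const_of_pow_eq_C ha hγ hpa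
  refine ⟨PowerSeries.constantCoeff z.powerSeriesPart, ?_, ?_⟩
  · intro h0
    rw [h0, map_zero] at hconst
    rw [hconst, map_zero] at hp
    exact hz hp.symm
  · rw [← HahnSeries.ofPowerSeries_C, ← hconst, hp]

end Const

/-! ## 2. The Gauss unit lemma -/

section Gauss

variable {L : Type*} [Field L] (A : ValuationSubring L)

/-- If two series over `A` with nonzero reductions differ by a constant `γ` of `L`, then `γ` is
(the image of) a unit of `A`. -/
theorem gauss_unit {W₁ W₂ : LaurentSeries A} {γ : L}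
    (h1 : coeffMap (IsLocalRing.residue A) W₁ ≠ 0)
    (h2 : coeffMap (IsLocalRing.residue A) W₂ ≠ 0)
    (h : coeffMap A.subtype W₁ = HahnSeries.C γ * coeffMap A.subtype W₂) :
    ∃ g : A, (g : L) = γ ∧ IsLocalRing.residue A g ≠ 0 ∧ W₁ = HahnSeries.C g * W₂ := by
  have key : ∀ hγ : γ ∈ A, ∃ g : A, (g : L) = γ ∧ IsLocalRing.residue A g ≠ 0 ∧
      W₁ = HahnSeries.C g * W₂ := by
    intro hγ
    have hW : W₁ = HahnSeries.C (⟨γ, hγ⟩ : A) * W₂ := by
      apply H516.incl_injective A
      rw [map_mul, H516.coeffMap_C, h]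
      rfl
    refine ⟨⟨γ, hγ⟩, rfl, ?_, hW⟩
    intro h0
    apply h1
    rw [hW, map_mul, H516.coeffMap_C, h0, map_zero, zero_mul]
  rcases A.mem_or_inv_mem γ with hγ | hγ
  · exact key hγ
  · have hγ0 : γ ≠ 0 := by
      rintro rfl
      apply h1
      have : W₁ = 0 := by
        apply H516.incl_injective A
        rw [h, map_zero, zero_mul, map_zero]
      rw [this, map_zero]
    have hW : HahnSeries.C (⟨γ⁻¹, hγ⟩ : A) * W₁ = W₂ := by
      apply H516.incl_injective A
      rw [map_mul, H516.coeffMap_C, h]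
      show HahnSeries.C γ⁻¹ * (HahnSeries.C γ * _) = _
      rw [← mul_assoc, ← map_mul, inv_mul_cancel₀ hγ0, map_one, one_mul]
    have hres : IsLocalRing.residue A (⟨γ⁻¹, hγ⟩ : A) ≠ 0 := by
      intro h0
      apply h2
      rw [← hW, map_mul, H516.coeffMap_C, h0, map_zero, zero_mul]
    have hu : IsUnit (⟨γ⁻¹, hγ⟩ : A) := by
      by_contra hnu
      exact hres ((IsLocalRing.residue_eq_zero_iff _).mpr
        ((IsLocalRing.mem_maximalIdeal _).mpr (mem_nonunits_iff.mpr hnu)))
    obtain ⟨u, hu⟩ := hu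
    have hmem : γ ∈ A := by
      have h3 : ((u⁻¹ : Aˣ) : A) * (⟨γ⁻¹, hγ⟩ : A) = 1 := by
        rw [← hu]
        exact u.inv_mul
      have h4 : (((u⁻¹ : Aˣ) : A) : L) * γ⁻¹ = 1 := by
        have := congrArg (Subtype.val) h3
        simpa using this
      have h5 : (((u⁻¹ : Aˣ) : A) : L) = γ := by
        field_simp at h4
        exact h4
      rw [← h5]
      exact ((u⁻¹ : Aˣ) : A).2
    exact key hmem

end Gauss

/-! ## 3. Multiplicativity of the hub -/

section Core

variable (N : ℕ) [NeZero N] (A : ValuationSubring Qb)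

omit [NeZero N] in
theorem coe_algebraMap_bar (c : Qb) :
    ((algebraMap Qb (modularFunctionFieldBar N) c : modularFunctionFieldBar N) :
      LaurentSeries Qb) = HahnSeries.C c := by
  show algebraMap Qb (LaurentSeries Qb) c = HahnSeries.C c
  rw [algebraMap_laurentSeries_eq_single, ← HahnSeries.C_apply]

variable {N A}

omit [NeZero N] in
theorem toF_ne_zero {U : LaurentSeries A} (h : IsInt A N U) : toF h ≠ 0 := by
  intro h0
  have h1 : coeffMap A.subtype U = 0 := congrArg Subtype.val h0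
  have h2 : U = 0 := H516.incl_injective A (by rw [h1, map_zero])
  exact h.2.2 (by rw [h2, map_zero])

theorem isInt_C_mul {U : LaurentSeries A} (h : IsInt A N U) {g : A}
    (hg : IsLocalRing.residue A g ≠ 0) : IsInt A N (HahnSeries.C g * U) := by
  refine ⟨?_, ?_, ?_⟩
  · rw [map_mul, H516.coeffMap_C]
    exact mul_mem (H516.C_mem_baseChange N _) h.1
  · rw [map_mul, H516.coeffMap_C]
    exact mul_mem (H516.C_mem_fullC N _ _) h.2.1
  · rw [map_mul, H516.coeffMap_C]
    refine mul_ne_zero ?_ h.2.2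
    intro h0
    exact hg (HahnSeries.C_injective (by rw [h0, map_zero]))

omit [NeZero N] in
theorem toF_C_mul {U : LaurentSeries A} (h : IsInt A N U) {g : A}
    (hg : IsInt A N (HahnSeries.C g * U)) :
    toF hg = algebraMap Qb (modularFunctionFieldBar N) (g : Qb) * toF h := by
  apply Subtype.ext
  show coeffMap A.subtype (HahnSeries.C g * U) = _
  rw [map_mul, H516.coeffMap_C]
  show _ = ((algebraMap Qb (modularFunctionFieldBar N) (g : Qb) : modularFunctionFieldBar N) :
      LaurentSeries Qb) * coeffMap A.subtype U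
  rw [coe_algebraMap_bar]
  rfl

/-- **Multiplicativity of the hub.**  `CORE(a)` and `CORE(b)` imply `CORE(a * b)`, provided `a` is
invertible in the residue field of `A` (and the S28 core data for the residue field). -/
theorem core_mul (core : Fermat.Agent.S28.CoreData N (IsLocalRing.ResidueField A)) {a b : ℕ}
    (ha : ((a : ℕ) : IsLocalRing.ResidueField A) ≠ 0)
    (hCa : CoreStatement N A a) (hCb : CoreStatement N A b) : CoreStatement N A (a * b) := by
  intro U₁ U₂ h₁ h₂ hred hdiv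
  have ha0 : a ≠ 0 := by
    rintro rfl
    exact ha (by simp)
  have hdiv_a : ∀ v : Place Qb (modularFunctionFieldBar N),
      (a : ℤ) ∣ v.ord (toF h₁) - v.ord (toF h₂) := by
    intro v
    refine dvd_trans ?_ (hdiv v)
    push_cast
    exact dvd_mul_right _ _
  obtain ⟨c, y, hc, hy, hcy⟩ := hCa U₁ U₂ h₁ h₂ hred hdiv_a
  have h₂ne := toF_ne_zero h₂
  have hcne : ∀ {c : Qb}, c ≠ 0 → algebraMap Qb (modularFunctionFieldBar N) c ≠ 0 := by
    intro c hc
    exact (map_ne_zero _).mpr hc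
  have hord : ∀ v : Place Qb (modularFunctionFieldBar N),
      v.ord (toF h₁) - v.ord (toF h₂) = a * v.ord y := by
    intro v
    rw [hcy, v.ord_mul (mul_ne_zero (hcne hc) (pow_ne_zero _ hy)) h₂ne,
      v.ord_mul (hcne hc) (pow_ne_zero _ hy), Lib.RR.ord_algebraMap, Lib.RR.ord_pow]
    ring
  have hb : ∀ v : Place Qb (modularFunctionFieldBar N), (b : ℤ) ∣ v.ord y := by
    intro v
    have := hdiv v
    rw [hord v] at this
    push_cast at this
    exact (mul_dvd_mul_iff_left (by exact_mod_cast ha0)).mp this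
  -- Gauss decomposition of `y`
  have hyL : (y : LaurentSeries Qb) ≠ 0 := fun h => hy (Subtype.ext h)
  obtain ⟨c', Y₁, Y₂, hc', hY₁, hY₂, hdec⟩ :=
    H516.exists_gauss_decomp A (IsLocalRing.residue A) N core y.2 hyL
  have hY₁' : IsInt A N Y₁ := hY₁
  have hY₂' : IsInt A N Y₂ := hY₂
  -- the identity of series
  have hcyL : coeffMap A.subtype U₁ =
      HahnSeries.C c * (y : LaurentSeries Qb) ^ a * coeffMap A.subtype U₂ := by
    have h := congrArg (Subtype.val) hcy
    rw [← coe_algebraMap_bar N c]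
    exact h
  have hW : coeffMap A.subtype (U₁ * Y₂ ^ a) =
      HahnSeries.C (c * c' ^ a) * coeffMap A.subtype (Y₁ ^ a * U₂) := by
    rw [map_mul, map_pow, map_mul, map_pow, hcyL, map_mul, map_pow]
    calc HahnSeries.C c * (y : LaurentSeries Qb) ^ a * coeffMap A.subtype U₂ *
          coeffMap A.subtype Y₂ ^ a
        = HahnSeries.C c * ((y : LaurentSeries Qb) * coeffMap A.subtype Y₂) ^ a *
          coeffMap A.subtype U₂ := by ring
      _ = HahnSeries.C c * (HahnSeries.C c' * coeffMap A.subtype Y₁) ^ a *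
          coeffMap A.subtype U₂ := by rw [hdec]
      _ = _ := by ring
  have hW₁ : coeffMap (IsLocalRing.residue A) (U₁ * Y₂ ^ a) ≠ 0 := by
    rw [map_mul, map_pow]
    exact mul_ne_zero h₁.2.2 (pow_ne_zero _ hY₂'.2.2)
  have hW₂ : coeffMap (IsLocalRing.residue A) (Y₁ ^ a * U₂) ≠ 0 := by
    rw [map_mul, map_pow]
    exact mul_ne_zero (pow_ne_zero _ hY₁'.2.2) h₂.2.2
  obtain ⟨g, -, hgres, hWA⟩ := gauss_unit A hW₁ hW₂ hW
  -- reduce mod the maximal ideal
  have hWk := congrArg (coeffMap (IsLocalRing.residue A)) hWA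
  rw [map_mul, map_pow, map_mul, map_mul, map_pow, H516.coeffMap_C, ← hred] at hWk
  have hY₁ne := hY₁'.2.2
  have hz : (coeffMap (IsLocalRing.residue A) Y₂ * (coeffMap (IsLocalRing.residue A) Y₁)⁻¹) ^ a =
      HahnSeries.C (IsLocalRing.residue A g) := by
    have h3 : coeffMap (IsLocalRing.residue A) Y₂ ^ a =
        HahnSeries.C (IsLocalRing.residue A g) * coeffMap (IsLocalRing.residue A) Y₁ ^ a := by
      apply mul_left_cancel₀ h₁.2.2
      rw [hWk]
      ring
    rw [mul_pow, h3, inv_pow, mul_assoc, mul_inv_cancel₀ (pow_ne_zero _ hY₁ne), mul_one]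
  obtain ⟨δ', hδ', hzδ⟩ := laurent_const_of_pow_eq_C ha hgres hz
  obtain ⟨δ, rfl⟩ := IsLocalRing.residue_surjective δ'
  have hY₁'' : IsInt A N (HahnSeries.C δ * Y₁) := isInt_C_mul hY₁' hδ'
  have hredY : coeffMap (IsLocalRing.residue A) (HahnSeries.C δ * Y₁) =
      coeffMap (IsLocalRing.residue A) Y₂ := by
    rw [map_mul, H516.coeffMap_C, ← hzδ, mul_assoc, inv_mul_cancel₀ hY₁ne, mul_one]
  have hδne : (δ : Qb) ≠ 0 := by
    intro h0
    apply hδ'
    have : δ = 0 := Subtype.ext h0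
    rw [this, map_zero]
  have hF1 := toF_C_mul hY₁' hY₁''
  have hF2 : y * toF hY₂' = algebraMap Qb (modularFunctionFieldBar N) c' * toF hY₁' := by
    apply Subtype.ext
    show (y : LaurentSeries Qb) * coeffMap A.subtype Y₂ =
      ((algebraMap Qb (modularFunctionFieldBar N) c' : modularFunctionFieldBar N) :
        LaurentSeries Qb) * coeffMap A.subtype Y₁
    rw [coe_algebraMap_bar, hdec]
  have hY₁F := toF_ne_zero hY₁'
  have hY₂F := toF_ne_zero hY₂'
  have hdivb : ∀ v : Place Qb (modularFunctionFieldBar N),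
      (b : ℤ) ∣ v.ord (toF hY₁'') - v.ord (toF hY₂') := by
    intro v
    have e1 : v.ord (toF hY₁'') = v.ord (toF hY₁') := by
      rw [hF1, v.ord_mul (hcne hδne) hY₁F, Lib.RR.ord_algebraMap, zero_add]
    have e2 : v.ord y + v.ord (toF hY₂') = v.ord (toF hY₁') := by
      have := congrArg v.ord hF2
      rw [v.ord_mul hy hY₂F, v.ord_mul (hcne hc') hY₁F, Lib.RR.ord_algebraMap, zero_add] at this
      exact this
    have e3 : v.ord (toF hY₁'') - v.ord (toF hY₂') = v.ord y := by
      rw [e1, ← e2]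
      ring
    rw [e3]
    exact hb v
  obtain ⟨c'', t, hc'', ht, hct⟩ := hCb (HahnSeries.C δ * Y₁) Y₂ hY₁'' hY₂' hredY hdivb
  have hyt : y = algebraMap Qb (modularFunctionFieldBar N) (c' * (δ : Qb)⁻¹ * c'') * t ^ b := by
    apply mul_right_cancel₀ hY₂F
    rw [hF2]
    have h4 : toF hY₁' = algebraMap Qb (modularFunctionFieldBar N) (δ : Qb)⁻¹ * toF hY₁'' := by
      rw [hF1, ← mul_assoc, ← map_mul, inv_mul_cancel₀ hδne, map_one, one_mul]
    rw [h4, hct]
    simp only [map_mul]
    ring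
  refine ⟨c * (c' * (δ : Qb)⁻¹ * c'') ^ a, t, ?_, ht, ?_⟩
  · exact mul_ne_zero hc
      (pow_ne_zero _ (mul_ne_zero (mul_ne_zero hc' (inv_ne_zero hδne)) hc''))
  · rw [hcy, hyt]
    simp only [map_mul, map_pow]
    rw [mul_comm a b, pow_mul]
    ring

omit [NeZero N] in
/-- `CORE(1)` is trivial. -/
theorem coreStatement_one : CoreStatement N A 1 := by
  intro U₁ U₂ h₁ h₂ _ _
  have h₁ne := toF_ne_zero h₁
  have h₂ne := toF_ne_zero h₂
  refine ⟨1, toF h₁ * (toF h₂)⁻¹, one_ne_zero, mul_ne_zero h₁ne (inv_ne_zero h₂ne), ?_⟩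
  rw [map_one, one_mul, pow_one, mul_assoc, inv_mul_cancel₀ h₂ne, mul_one]

/-- **From prime `m` to all `m`.**  If the hub holds for all primes `p ≠ ℓ`, it holds for all `m`
prime to `ℓ` (`A` over `ℓ ∤ N`). -/
theorem coreStatement_of_prime {ℓ : ℕ} [Fact ℓ.Prime] (hℓN : ¬ ℓ ∣ N)
    (hA : A.LiesOverPrime ℓ)
    (h : ∀ p : ℕ, p.Prime → ¬ ℓ ∣ p → CoreStatement N A p) :
    ∀ m : ℕ, ¬ ℓ ∣ m → CoreStatement N A m := by
  have core := H516.coreData_residue N hℓN A hA
  have := H516.charP_residue A hA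
  intro m
  induction m using Nat.recOnMul with
  | zero => intro h0; exact absurd (dvd_zero ℓ) h0
  | one => intro _; exact coreStatement_one
  | prime p hp => intro hp'; exact h p hp hp'
  | mul a b iha ihb =>
    intro hab
    have ha' : ¬ ℓ ∣ a := fun h' => hab (Dvd.dvd.mul_right h' b)
    have hb' : ¬ ℓ ∣ b := fun h' => hab (Dvd.dvd.mul_left h' a)
    refine core_mul core ?_ (iha ha') (ihb hb')
    rw [Ne, CharP.cast_eq_zero_iff (IsLocalRing.ResidueField A) ℓ]
    exact ha'

end Core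

/-- The bridge S18 → S29 in the exact shape of `Fermat.Agent.S29.H222.CoreFamily`: the hub for
all primes `p ≠ ℓ` gives the hub for all `m` prime to `ℓ`. -/
theorem coreFamily_of_prime
    (h : ∀ (N : ℕ) [NeZero N] (ℓ : ℕ), ℓ.Prime → ¬ ℓ ∣ N → ∀ p : ℕ, p.Prime → ¬ ℓ ∣ p →
      ∀ A : ValuationSubring Qb, A.LiesOverPrime ℓ → CoreStatement N A p) :
    ∀ (N : ℕ) [NeZero N] (ℓ : ℕ), ℓ.Prime → ¬ ℓ ∣ N → ∀ m : ℕ, ¬ ℓ ∣ m →
      ∀ A : ValuationSubring Qb, A.LiesOverPrime ℓ → CoreStatement N A m := by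
  intro N _ ℓ hℓ hℓN m hm A hA
  have : Fact ℓ.Prime := ⟨hℓ⟩
  exact coreStatement_of_prime hℓN hA (fun p hp hp' => h N ℓ hℓ hℓN p hp hp' A hA) m hm

end Fermat.Agent.S18.H694

end
end
-- ===== PACK-END S18/H694/CoreMul.lean

-- ===== PACK-BEGIN S17/H35/ContractSum.lean
section



/-!
# S17 / tower H, TOP-GLUE (helper35, subtask 606): the package axioms from the CONTRACT

Generic part (any `K`, `F` with `FF1 K F`, any embeddings `E₁`, `E₂`): calculus of the pairings
`pairPt`, `pair`, `naive` of `HContract` (additivity, symmetry) and the summed forms of the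
contract statements:

* `e3_sum`   : `E3Statement` summed over an effective divisor disjoint from `Z_a`;
* `bez_of`   : (BEZ) `|N (Z a) - m · ht a| ≤ C` from (E3) twice, symmetry of the pairing and a
               finite family of more than `m` hyperplane sections with pairwise disjoint supports.
-/

set_option autoImplicit false
set_option linter.unusedSectionVars false

noncomputable section

open AlgebraicCurve

namespace Fermat.Agent.S17.H35

open Fermat.Agent.Lib.RR Fermat.Agent.S17.HWall Fermat.Agent.S17.HContract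

variable {K F : Type*} [Field K] [CharZero K] [Field F] [Algebra K F] [FF1 K F]

/-! ## Heights -/

/-- The absolute height is even. -/
theorem ht_neg {ι : Type*} [Finite ι] (y : ι → K) : ht (fun i => - y i) = ht y := by
  have hfun : (fun i => - y i) = (-1 : K) • y := by
    funext i
    simp
  by_cases hy : ∀ i, IsIntegral ℚ (y i)
  · rw [hfun]
    exact H380.absLogHeight_smul y hy (by simp) (isIntegral_one (R := ℚ)).neg
  · rw [ht, ht, H380.absLogHeight_of_not_isIntegral y hy,
      H380.absLogHeight_of_not_isIntegral]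
    intro h
    apply hy
    intro i
    have := (h i).neg
    simpa using this

theorem wedge_swap {n : ℕ} (y z : Fin n → K) : wedge z y = fun p => - wedge y z p := by
  funext p
  simp only [wedge]
  ring

/-- The diagonal height is symmetric. -/
theorem hD_symm (E : EmbData K F) (A P : Place K F) : hD E A P = hD E P A := by
  unfold hD
  rw [wedge_swap (E.pt P) (E.pt A), ht_neg]
  ring

theorem ht_nonneg {ι : Type*} [Finite ι] (y : ι → K) : 0 ≤ ht y := H380.absLogHeight_nonneg y

/-! ## Degree -/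

/-- All places have degree one: the degree is the sum of the multiplicities. -/
theorem degree_eq_sum (D : Divisor K F) : Divisor.degree D = D.sum fun _ n => n := by
  induction D using Finsupp.induction_linear with
  | zero => simp
  | add D D' hD hD' =>
    rw [map_add, hD, hD', Finsupp.sum_add_index' (by simp) (by simp)]
  | single v n =>
    rw [Divisor.degree_single, FF1.deg_eq_one (K := K) (F := F) v]
    simp

theorem degree_cast_eq_sum (D : Divisor K F) :
    ((Divisor.degree D : ℤ) : ℝ) = D.sum fun _ n => (n : ℝ) := by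
  rw [_root_.Fermat.Agent.S17.H35.degree_eq_sum, Finsupp.sum, Finsupp.sum]
  push_cast
  rfl

theorem degree_nonneg {D : Divisor K F} (hD : 0 ≤ D) : 0 ≤ Divisor.degree D := by
  rw [_root_.Fermat.Agent.S17.H35.degree_eq_sum]
  exact Finset.sum_nonneg fun P _ => by
    have := (Finsupp.le_def.mp hD) P
    simpa using this

/-! ## The pairings -/

@[simp] theorem pairPt_zero (E : EmbData K F) (P : Place K F) : pairPt E 0 P = 0 := by
  simp [pairPt]

theorem pairPt_add (E : EmbData K F) (D D' : Divisor K F) (P : Place K F) :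
    pairPt E (D + D') P = pairPt E D P + pairPt E D' P := by
  unfold pairPt
  rw [Finsupp.sum_add_index' (by simp) (by intro a b₁ b₂; push_cast; ring)]

@[simp] theorem pairPt_single (E : EmbData K F) (A : Place K F) (n : ℤ) (P : Place K F) :
    pairPt E (Finsupp.single A n) P = n * hD E A P := by
  unfold pairPt
  rw [Finsupp.sum_single_index (by simp)]

theorem pairPt_nsmul (E : EmbData K F) (k : ℕ) (D : Divisor K F) (P : Place K F) :
    pairPt E (k • D) P = k * pairPt E D P := by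
  induction k with
  | zero => simp
  | succ k ih => rw [succ_nsmul, pairPt_add, ih]; push_cast; ring

@[simp] theorem pair_zero_right (E : EmbData K F) (D : Divisor K F) : pair E D 0 = 0 := by
  simp [pair]

@[simp] theorem pair_zero_left (E : EmbData K F) (D : Divisor K F) : pair E 0 D = 0 := by
  simp [pair, Finsupp.sum]

theorem pair_add_right (E : EmbData K F) (D D₁ D₂ : Divisor K F) :
    pair E D (D₁ + D₂) = pair E D D₁ + pair E D D₂ := by
  unfold pair
  rw [Finsupp.sum_add_index' (by simp) (by intro a b₁ b₂; push_cast; ring)]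

theorem pair_add_left (E : EmbData K F) (D₁ D₂ D : Divisor K F) :
    pair E (D₁ + D₂) D = pair E D₁ D + pair E D₂ D := by
  unfold pair
  simp only [pairPt_add, mul_add]
  rw [Finsupp.sum_add]

@[simp] theorem pair_single_right (E : EmbData K F) (D : Divisor K F) (P : Place K F) (n : ℤ) :
    pair E D (Finsupp.single P n) = n * pairPt E D P := by
  unfold pair
  rw [Finsupp.sum_single_index (by simp)]

/-- The pairing is symmetric. -/
theorem pair_symm (E : EmbData K F) (D D' : Divisor K F) : pair E D D' = pair E D' D := by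
  unfold pair pairPt
  simp only [Finsupp.sum, Finset.mul_sum]
  rw [Finset.sum_comm]
  refine Finset.sum_congr rfl fun A _ => Finset.sum_congr rfl fun P _ => ?_
  rw [hD_symm E A P]
  ring

@[simp] theorem naive_zero (E : EmbData K F) : naive E 0 = 0 := by
  simp [naive]

theorem naive_add (E : EmbData K F) (D D' : Divisor K F) :
    naive E (D + D') = naive E D + naive E D' := by
  unfold naive
  rw [Finsupp.sum_add_index' (by simp) (by intro a b₁ b₂; push_cast; ring)]

theorem naive_nonneg (E : EmbData K F) {D : Divisor K F} (hD : 0 ≤ D) : 0 ≤ naive E D := by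
  unfold naive
  refine Finset.sum_nonneg fun P _ => mul_nonneg ?_ (ht_nonneg _)
  have := (Finsupp.le_def.mp hD) P
  exact_mod_cast this

/-! ## (E3) summed over a divisor -/

/-- If `P` is not in the hyperplane section `Z_a`, the form `a` does not vanish at `pt P`. -/
theorem dot_ne_zero_of_Z_eq_zero (E : EmbData K F) {a : Fin (E.r + 1) → K} (ha : a ≠ 0)
    {P : Place K F} (hP : E.Z a P = 0) : dot a (E.pt P) ≠ 0 := by
  intro h
  have := (E.pt_spec P a ha).mp h
  rw [EmbData.Z] at hP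
  omega

/-- **(E3), summed.**  For an effective divisor `D` whose support is disjoint from `Z_a`:
`|(Z_a . D) − (deg D · h(a) + N(D))| ≤ C · deg D`. -/
theorem e3_sum {E₁ E₂ : EmbData K F} (h : E3Statement E₁ E₂) :
    ∃ C : ℝ, 0 ≤ C ∧ ∀ (a : Fin (E₂.r + 1) → K) (D : Divisor K F), a ≠ 0 → 0 ≤ D →
      (∀ P, D P ≠ 0 → E₂.Z a P = 0) →
      |pair E₁ (E₂.Z a) D - ((Divisor.degree D : ℤ) * ht a + naive E₂ D)| ≤
        C * (Divisor.degree D : ℤ) := by
  obtain ⟨C, hC⟩ := h
  refine ⟨max C 0, le_max_right _ _, fun a D ha hD hdisj => ?_⟩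
  have hsum : pair E₁ (E₂.Z a) D - ((Divisor.degree D : ℤ) * ht a + naive E₂ D) =
      D.sum fun P n => (n : ℝ) * (pairPt E₁ (E₂.Z a) P - ht a - ht (E₂.pt P)) := by
    rw [degree_cast_eq_sum]
    unfold pair naive
    simp only [Finsupp.sum, Finset.sum_mul, mul_sub, Finset.sum_sub_distrib]
    ring
  rw [hsum, degree_cast_eq_sum, Finsupp.sum, Finsupp.sum, Finset.mul_sum]
  refine (Finset.abs_sum_le_sum_abs _ _).trans (Finset.sum_le_sum fun P hP => ?_)
  have hP0 : D P ≠ 0 := Finsupp.mem_support_iff.mp hP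
  have hnn : (0 : ℝ) ≤ (D P : ℝ) := by
    have := (Finsupp.le_def.mp hD) P
    exact_mod_cast this
  rw [abs_mul, abs_of_nonneg hnn, mul_comm (max C 0)]
  refine mul_le_mul_of_nonneg_left ?_ hnn
  exact (hC a P ha (dot_ne_zero_of_Z_eq_zero E₂ ha (hdisj P hP0))).trans (le_max_left _ _)

/-! ## (BEZ) -/

/-- The support of an effective divisor has at most `deg` points. -/
theorem card_support_le_degree {D : Divisor K F} (hD : 0 ≤ D) :
    (D.support.card : ℤ) ≤ Divisor.degree D := by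
  rw [_root_.Fermat.Agent.S17.H35.degree_eq_sum, Finsupp.sum]
  have h1 : ∀ P ∈ D.support, (1 : ℤ) ≤ D P := by
    intro P hP
    have h0 : D P ≠ 0 := Finsupp.mem_support_iff.mp hP
    have h2 : (0 : ℤ) ≤ D P := by
      have := (Finsupp.le_def.mp hD) P
      simpa using this
    omega
  calc (D.support.card : ℤ) = ∑ _P ∈ D.support, (1 : ℤ) := by simp
    _ ≤ ∑ P ∈ D.support, D P := Finset.sum_le_sum h1

/-- Among more than `deg D` divisors with pairwise disjoint supports one is disjoint from the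
effective divisor `D`. -/
theorem exists_disjoint_of_card_lt {ι : Type*} (B : Finset ι) (Z : ι → Divisor K F)
    (hBd : ∀ b ∈ B, ∀ b' ∈ B, b ≠ b' → ∀ P, Z b P ≠ 0 → Z b' P = 0)
    {D : Divisor K F} (hD : 0 ≤ D) (hcard : Divisor.degree D < B.card) :
    ∃ b ∈ B, ∀ P, Z b P ≠ 0 → D P = 0 := by
  classical
  by_contra hcon
  simp only [not_exists, not_and, not_forall] at hcon
  -- every `b ∈ B` meets `D`
  have : Nonempty (Place K F) := FF1.nonempty_place (K := K) (F := F)
  have hcon' : ∀ b ∈ B, ∃ P, Z b P ≠ 0 ∧ D P ≠ 0 := fun b hb => by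
    obtain ⟨P, hP1, hP2⟩ := hcon b hb
    exact ⟨P, hP1, hP2⟩
  choose! f hf using hcon'
  have hmaps : ∀ b ∈ B, f b ∈ D.support := fun b hb =>
    Finsupp.mem_support_iff.mpr (hf b hb).2
  have hinj : Set.InjOn f (B : Set ι) := by
    intro b hb b' hb' hbb'
    by_contra hne
    have h1 := (hf b hb).1
    have h2 := (hf b' hb').1
    rw [← hbb'] at h2
    exact h2 (hBd b hb b' hb' hne (f b) h1)
  have hle : B.card ≤ D.support.card := Finset.card_le_card_of_injOn f hmaps hinj
  have := card_support_le_degree hD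
  omega

/-- **(BEZ)**: the naive height of a hyperplane section is `m · h(a) + O(1)`; from (E3) applied
twice, the symmetry of the pairing, and a family of more than `m` hyperplane sections with
pairwise disjoint supports. -/
theorem bez_of {E₁ E₂ : EmbData K F} (h : E3Statement E₁ E₂)
    (B : Finset (Fin (E₂.r + 1) → K)) (hB0 : ∀ b ∈ B, b ≠ 0)
    (hBd : ∀ b ∈ B, ∀ b' ∈ B, b ≠ b' → ∀ P, E₂.Z b P ≠ 0 → E₂.Z b' P = 0)
    (hcard : E₂.m < B.card) :
    ∃ C : ℝ, ∀ a : Fin (E₂.r + 1) → K, a ≠ 0 →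
      |naive E₂ (E₂.Z a) - E₂.m * ht a| ≤ C := by
  obtain ⟨C₀, hC₀, hC⟩ := e3_sum h
  refine ⟨2 * C₀ * E₂.m + ∑ b ∈ B, |naive E₂ (E₂.Z b) - E₂.m * ht b|, fun a ha => ?_⟩
  have hdeg : ∀ c : Fin (E₂.r + 1) → K, c ≠ 0 → ((Divisor.degree (E₂.Z c) : ℤ) : ℝ) = E₂.m := by
    intro c hc
    rw [E₂.degree_Z hc]
    simp
  obtain ⟨b, hb, hdisj⟩ := exists_disjoint_of_card_lt B (fun b => E₂.Z b) hBd (E₂.Z_nonneg a)
    (by rw [E₂.degree_Z ha]; exact_mod_cast hcard)
  have hb0 := hB0 b hb
  have h1 := hC a (E₂.Z b) ha (E₂.Z_nonneg b) hdisj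
  have h2 := hC b (E₂.Z a) hb0 (E₂.Z_nonneg a) (fun P hP => by
    by_contra hcon
    exact hP (hdisj P hcon))
  rw [hdeg b hb0] at h1
  rw [hdeg a ha, pair_symm] at h2
  have h3 : |naive E₂ (E₂.Z b) - E₂.m * ht b| ≤ ∑ b ∈ B, |naive E₂ (E₂.Z b) - E₂.m * ht b| :=
    Finset.single_le_sum (f := fun b => |naive E₂ (E₂.Z b) - E₂.m * ht b|)
      (fun _ _ => abs_nonneg _) hb
  have h4 : naive E₂ (E₂.Z a) - E₂.m * ht a =
      (naive E₂ (E₂.Z b) - E₂.m * ht b)
        + (pair E₁ (E₂.Z a) (E₂.Z b) - (E₂.m * ht a + naive E₂ (E₂.Z b)))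
        - (pair E₁ (E₂.Z a) (E₂.Z b) - (E₂.m * ht b + naive E₂ (E₂.Z a))) := by ring
  rw [h4]
  calc |(naive E₂ (E₂.Z b) - E₂.m * ht b)
        + (pair E₁ (E₂.Z a) (E₂.Z b) - (E₂.m * ht a + naive E₂ (E₂.Z b)))
        - (pair E₁ (E₂.Z a) (E₂.Z b) - (E₂.m * ht b + naive E₂ (E₂.Z a)))|
      ≤ |naive E₂ (E₂.Z b) - E₂.m * ht b|
        + |pair E₁ (E₂.Z a) (E₂.Z b) - (E₂.m * ht a + naive E₂ (E₂.Z b))|
        + |pair E₁ (E₂.Z a) (E₂.Z b) - (E₂.m * ht b + naive E₂ (E₂.Z a))| := by
        refine (abs_sub _ _).trans ?_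
        gcongr
        exact abs_add_le _ _
    _ ≤ (∑ b ∈ B, |naive E₂ (E₂.Z b) - E₂.m * ht b|) + C₀ * E₂.m + C₀ * E₂.m := by
        gcongr
    _ = 2 * C₀ * E₂.m + ∑ b ∈ B, |naive E₂ (E₂.Z b) - E₂.m * ht b| := by ring

end Fermat.Agent.S17.H35

end
end
-- ===== PACK-END S17/H35/ContractSum.lean

-- ===== PACK-BEGIN S17/H980/PosLin.lean
section





/-!
# S17 / tower H, leaf POS-LIN: Siegel's lemma on `L(D₀ - D)` (helper980)

`[FF1 K F]`, `x₀, …, x_r` a `K`-basis of `L(D₀)`, `P₁, …, P_d` distinct places with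
`deg D₀ - d > 2g - 2`, and `ξ i ∈ K^(r+1)` ANY representative of the point `φ(P_i) ∈ ℙ^r` of the
map `φ = (x₀ : … : x_r)`, characterised projectively:

  `⟨a, ξ i⟩ = 0 ↔ Σ aⱼ xⱼ ∈ L(D₀ - P_i)`.

* `linearIndependent_points` : the `ξ i` are linearly independent (Riemann–Roch: the points of
  a reduced divisor of small degree impose independent conditions on `L(D₀)`).
* `dot_eq_zero_of_mem_L` : a form in `L(D₀ - Σ P_i)` vanishes at every `ξ i`.

Rational structure (`F = ℚ̄ · F₀`, Galois descent of helper680, `S17/H680/DescentRR.lean`):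

* `finrank_rationalForms` : for a Galois-fixed basis `x` of `L(D₀)` and an invariant `E ≤ D₀`,
  `dim_ℚ {a ∈ ℚ^(r+1) : Σ aⱼ xⱼ ∈ L(E)} = ℓ(E)`.
* `exists_fixed_form_logHeight_le` / `exists_fixed_form_absLogHeight_le` : **(MINK) of route
  (H-D)**: for `D = Σ P_i` invariant, reduced, there is a non-zero integral form `a` with
  `Σ aⱼ xⱼ ∈ L(D₀ - D)` and `logHeight a ≤ h(ξ₁ ∧ … ∧ ξ_d) / k + log k`, `k = r + 1 - d`.
-/

set_option autoImplicit false

noncomputable section

open AlgebraicCurve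

namespace Fermat.Agent.S17.H980

open Fermat.Agent.Lib.RR

section Points

variable {K F : Type*} [Field K] [Field F] [Algebra K F]

/-- The reduced divisor `P₁ + … + P_d`. -/
def sumPrim {d : ℕ} (P : Fin d → Place K F) : Divisor K F := ∑ i, prim (P i)

theorem prim_nonneg (v : Place K F) : 0 ≤ prim v := by
  rw [Finsupp.le_def]
  intro w
  by_cases h : w = v
  · subst h; simp
  · rw [prim_apply_of_ne h]; simp

theorem sumPrim_eq_add {d : ℕ} (P : Fin d → Place K F) (i : Fin d) :
    sumPrim P = prim (P i) + ∑ j ∈ Finset.univ.erase i, prim (P j) := by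
  unfold sumPrim
  exact (Finset.add_sum_erase Finset.univ (fun j => prim (P j)) (Finset.mem_univ i)).symm

theorem prim_le_sumPrim {d : ℕ} (P : Fin d → Place K F) (i : Fin d) : prim (P i) ≤ sumPrim P := by
  rw [sumPrim_eq_add P i]
  exact le_add_of_nonneg_right (Finset.sum_nonneg fun j _ => prim_nonneg _)

theorem prim_le_sum_erase {d : ℕ} (P : Fin d → Place K F) {i j : Fin d} (h : j ≠ i) :
    prim (P j) ≤ ∑ l ∈ Finset.univ.erase i, prim (P l) :=
  Finset.single_le_sum (f := fun l => prim (P l)) (fun _ _ => prim_nonneg _)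
    (Finset.mem_erase.mpr ⟨h, Finset.mem_univ j⟩)

theorem sum_erase_apply_self {d : ℕ} (P : Fin d → Place K F) (hP : Function.Injective P)
    (i : Fin d) : (∑ l ∈ Finset.univ.erase i, prim (P l)) (P i) = 0 := by
  rw [Finsupp.finsetSum_apply]
  apply Finset.sum_eq_zero
  intro l hl
  have hne : l ≠ i := (Finset.mem_erase.mp hl).1
  exact prim_apply_of_ne (fun h => hne (hP h).symm)

/-- `L(D₀ - D') ∩ L(D₀ - P) = L(D₀ - D' - P)` if `P ∉ supp D'`. -/
theorem mem_L_sub_add_prim {D₀ D' : Divisor K F} {v : Place K F} (hv : D' v = 0) {f : F}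
    (h1 : f ∈ riemannRochSpace (D₀ - D')) (h2 : f ∈ riemannRochSpace (D₀ - prim v)) :
    f ∈ riemannRochSpace (D₀ - (prim v + D')) := by
  rw [mem_L_iff] at h1 h2 ⊢
  intro w
  rcases h1 w with h0 | h1w
  · exact Or.inl h0
  rcases h2 w with h0 | h2w
  · exact Or.inl h0
  right
  by_cases hw : w = v
  · subst hw
    simp only [Finsupp.coe_sub, Finsupp.coe_add, Pi.sub_apply, Pi.add_apply, hv,
      prim_apply_self] at h1w h2w ⊢
    omega
  · simp only [Finsupp.coe_sub, Finsupp.coe_add, Pi.sub_apply, Pi.add_apply,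
      prim_apply_of_ne hw] at h1w h2w ⊢
    omega

/-- A form in `L(D₀ - Σ P_i)` vanishes at all points `ξ i`. -/
theorem dot_eq_zero_of_mem_L {r d : ℕ} (D₀ : Divisor K F) (x : Fin (r + 1) → F)
    (P : Fin d → Place K F) (ξ : Fin d → Fin (r + 1) → K)
    (hξ : ∀ (i : Fin d) (a : Fin (r + 1) → K),
      (∑ j, a j * ξ i j = 0 ↔ ∑ j, a j • x j ∈ riemannRochSpace (D₀ - prim (P i))))
    (a : Fin (r + 1) → K) (ha : ∑ j, a j • x j ∈ riemannRochSpace (D₀ - sumPrim P))
    (i : Fin d) : ∑ j, a j * ξ i j = 0 := by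
  rw [hξ i a]
  exact L_mono (sub_le_sub_left (prim_le_sumPrim P i) D₀) ha

variable [FF1 K F]

theorem degree_sumPrim {d : ℕ} (P : Fin d → Place K F) : Divisor.degree (sumPrim P) = d := by
  unfold sumPrim
  rw [map_sum]
  simp [degree_prim _ (deg_eq_one _)]

theorem degree_sum_erase {d : ℕ} (P : Fin d → Place K F) (i : Fin d) :
    Divisor.degree (∑ l ∈ Finset.univ.erase i, prim (P l)) = d - 1 := by
  have h := congrArg Divisor.degree (sumPrim_eq_add P i)
  rw [degree_sumPrim, map_add, degree_prim _ (deg_eq_one _)] at h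
  omega

/-- **Independence of the points of a reduced divisor.** -/
theorem linearIndependent_points {r d : ℕ} (D₀ : Divisor K F) (x : Fin (r + 1) → F)
    (hxspan : Submodule.span K (Set.range x) = riemannRochSpace D₀)
    (P : Fin d → Place K F) (hP : Function.Injective P)
    (hdeg : 2 * (genusFF K F : ℤ) - 2 < Divisor.degree D₀ - d)
    (ξ : Fin d → Fin (r + 1) → K)
    (hξ : ∀ (i : Fin d) (a : Fin (r + 1) → K),
      (∑ j, a j * ξ i j = 0 ↔ ∑ j, a j • x j ∈ riemannRochSpace (D₀ - prim (P i)))) :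
    LinearIndependent K ξ := by
  classical
  -- for each `i` a form vanishing at the other points but not at `P i`
  have key : ∀ i : Fin d, ∃ a : Fin (r + 1) → K,
      (∀ j, j ≠ i → ∑ l, a l * ξ j l = 0) ∧ ∑ l, a l * ξ i l ≠ 0 := by
    intro i
    set D' : Divisor K F := ∑ l ∈ Finset.univ.erase i, prim (P l) with hD'
    have hell1 : (ell (D₀ - D') : ℤ) = Divisor.degree (D₀ - D') + 1 - (genusFF K F : ℤ) :=
      ell_eq_of_degree_gt (by rw [map_sub, degree_sum_erase]; omega)
    have hell2 : (ell (D₀ - (prim (P i) + D')) : ℤ) =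
        Divisor.degree (D₀ - (prim (P i) + D')) + 1 - (genusFF K F : ℤ) :=
      ell_eq_of_degree_gt (by
        rw [map_sub, map_add, degree_sum_erase, degree_prim _ (deg_eq_one _)]; omega)
    have hlt : ell (D₀ - (prim (P i) + D')) < ell (D₀ - D') := by
      have h1 : Divisor.degree (D₀ - (prim (P i) + D')) < Divisor.degree (D₀ - D') := by
        rw [map_sub, map_sub, map_add, degree_prim _ (deg_eq_one _)]; omega
      omega
    have hle : riemannRochSpace (D₀ - (prim (P i) + D')) ≤ riemannRochSpace (D₀ - D') :=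
      L_mono (sub_le_sub_left (le_add_of_nonneg_left (prim_nonneg _)) D₀)
    have hne : ∃ f ∈ riemannRochSpace (D₀ - D'), f ∉ riemannRochSpace (D₀ - (prim (P i) + D')) := by
      by_contra hcon
      have hle' : riemannRochSpace (D₀ - D') ≤ riemannRochSpace (D₀ - (prim (P i) + D')) := by
        intro f hf
        by_contra hf'
        exact hcon ⟨f, hf, hf'⟩
      have := le_antisymm hle hle'
      unfold ell at hlt
      rw [this] at hlt
      exact lt_irrefl _ hlt
    obtain ⟨f, hf1, hf2⟩ := hne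
    have hfD₀ : f ∈ Submodule.span K (Set.range x) := by
      rw [hxspan]
      exact L_mono (sub_le_self D₀ (Finset.sum_nonneg fun j _ => prim_nonneg _)) hf1
    obtain ⟨a, ha⟩ := (Submodule.mem_span_range_iff_exists_fun K).mp hfD₀
    refine ⟨a, ?_, ?_⟩
    · intro j hj
      rw [hξ j a, ha]
      exact L_mono (sub_le_sub_left (prim_le_sum_erase P hj) D₀) hf1
    · intro h0
      rw [hξ i a, ha] at h0
      exact hf2 (mem_L_sub_add_prim (sum_erase_apply_self P hP i) hf1 h0)
  choose A hA1 hA2 using key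
  rw [Fintype.linearIndependent_iff]
  intro c hc i
  have h1 : ∑ l, A i l * (∑ j, c j • ξ j) l = 0 := by rw [hc]; simp
  have h2 : ∑ l, A i l * (∑ j, c j • ξ j) l = ∑ j, c j * ∑ l, A i l * ξ j l := by
    simp only [Finset.sum_apply, Pi.smul_apply, smul_eq_mul, Finset.mul_sum]
    rw [Finset.sum_comm]
    refine Finset.sum_congr rfl fun j _ => Finset.sum_congr rfl fun l _ => ?_
    ring
  rw [h2, Finset.sum_eq_single i (fun j _ hj => by rw [hA1 i j hj, mul_zero])
    (fun h => absurd (Finset.mem_univ _) h)] at h1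
  rcases mul_eq_zero.mp h1 with h | h
  · exact h
  · exact absurd h (hA2 i)

end Points

/-! ## The rational structure -/

section Rational

open Fermat.Agent.S17.H77 Fermat.Agent.S17.H680 ModularCurve

variable (F₀ : IntermediateField ℚ (LaurentSeries ℚ))

/-- The `ℚ`-space of rational coefficient vectors `a` with `Σ aⱼ xⱼ ∈ L(E)`. -/
def rationalForms {r : ℕ} (x : Fin (r + 1) → laurentBaseChange Qb F₀)
    (E : Divisor Qb (laurentBaseChange Qb F₀)) : Submodule ℚ (Fin (r + 1) → ℚ) :=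
  ((riemannRochSpace E).restrictScalars ℚ).comap (Fintype.linearCombination ℚ x)

theorem mem_rationalForms {r : ℕ} (x : Fin (r + 1) → laurentBaseChange Qb F₀)
    (E : Divisor Qb (laurentBaseChange Qb F₀)) (a : Fin (r + 1) → ℚ) :
    a ∈ rationalForms F₀ x E ↔ ∑ j, a j • x j ∈ riemannRochSpace E := by
  unfold rationalForms
  rw [Submodule.mem_comap, Submodule.restrictScalars_mem, Fintype.linearCombination_apply]

variable [FF1 Qb (laurentBaseChange Qb F₀)]

/-- A fixed `ℚ̄`-basis of `L(D₀)` is a `ℚ`-basis of the fixed part. -/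
theorem span_rat_eq_fixedPart {r : ℕ} (x : Fin (r + 1) → laurentBaseChange Qb F₀)
    (hxfix : ∀ i, IsFixed F₀ (x i)) (hxli : LinearIndependent Qb x)
    (D₀ : Divisor Qb (laurentBaseChange Qb F₀)) (hD₀ : IsInvariant F₀ D₀)
    (hxspan : Submodule.span Qb (Set.range x) = riemannRochSpace D₀) :
    Submodule.span ℚ (Set.range x) = fixedPart F₀ (riemannRochSpace D₀) := by
  classical
  obtain ⟨b, -, -, hbli, hbspan, hbspanQ⟩ := exists_fixed_basis_L F₀ hD₀
  have : Module.Finite ℚ (fixedPart F₀ (riemannRochSpace D₀)) := by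
    rw [← hbspanQ]
    exact Module.Finite.span_of_finite ℚ (Set.finite_range b)
  apply Submodule.eq_of_le_of_finrank_eq
  · rw [Submodule.span_le]
    rintro _ ⟨i, rfl⟩
    refine ⟨?_, hxfix i⟩
    rw [← hxspan]
    exact Submodule.subset_span ⟨i, rfl⟩
  · rw [finrank_fixedPart_L F₀ hD₀, finrank_span_eq_card (hxli.restrict_scalars' ℚ)]
    unfold ell
    rw [← hxspan, finrank_span_eq_card hxli]

/-- **Dimension of the space of rational forms**: `dim_ℚ {a ∈ ℚ^(r+1) : Σ aⱼ xⱼ ∈ L(E)} = ℓ(E)`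
for a Galois-invariant divisor `E ≤ D₀`. -/
theorem finrank_rationalForms {r : ℕ} (x : Fin (r + 1) → laurentBaseChange Qb F₀)
    (hxfix : ∀ i, IsFixed F₀ (x i)) (hxli : LinearIndependent Qb x)
    (D₀ E : Divisor Qb (laurentBaseChange Qb F₀)) (hD₀ : IsInvariant F₀ D₀)
    (hE : IsInvariant F₀ E) (hle : E ≤ D₀)
    (hxspan : Submodule.span Qb (Set.range x) = riemannRochSpace D₀) :
    Module.finrank ℚ (rationalForms F₀ x E) = ell E := by
  classical
  set φ := Fintype.linearCombination ℚ x with hφ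
  have hinj : Function.Injective φ :=
    linearIndependent_iff_injective_fintypeLinearCombination.mp (hxli.restrict_scalars' ℚ)
  have hrange : LinearMap.range φ = fixedPart F₀ (riemannRochSpace D₀) := by
    rw [hφ, Fintype.range_linearCombination]
    exact span_rat_eq_fixedPart F₀ x hxfix hxli D₀ hD₀ hxspan
  have hW : fixedPart F₀ (riemannRochSpace E) ≤ LinearMap.range φ := by
    rw [hrange]
    intro f hf
    exact ⟨L_mono hle hf.1, hf.2⟩
  have hcomap : rationalForms F₀ x E = (fixedPart F₀ (riemannRochSpace E)).comap φ := by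
    ext a
    unfold rationalForms
    rw [Submodule.mem_comap, Submodule.mem_comap, Submodule.restrictScalars_mem, mem_fixedPart]
    constructor
    · intro h
      refine ⟨h, ?_⟩
      have : φ a ∈ LinearMap.range φ := LinearMap.mem_range_self φ a
      rw [hrange] at this
      exact this.2
    · exact fun h => h.1
  rw [hcomap, ← finrank_fixedPart_L F₀ hE]
  have hmap : ((fixedPart F₀ (riemannRochSpace E)).comap φ).map φ =
      fixedPart F₀ (riemannRochSpace E) := Submodule.map_comap_eq_of_le hW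
  have e := Submodule.equivMapOfInjective φ hinj ((fixedPart F₀ (riemannRochSpace E)).comap φ)
  rw [e.finrank_eq, hmap]

/-- **POS-LIN.**  `x` a Galois-fixed basis of `L(D₀)`, `D₀` invariant; `P₁, …, P_d` distinct places
whose sum is Galois-invariant, `deg D₀ - d > 2g - 2`, `d < r + 1`; `ξ i` any representative of
the point `φ(P_i)`.  Then there is a non-zero INTEGRAL form `a` with `Σ aⱼ xⱼ ∈ L(D₀ - Σ P_i)` and
`logHeight a ≤ absH (ξ₁ ∧ … ∧ ξ_d) / k + log k`, `k = r + 1 - d = ℓ(D₀ - Σ P_i)`. -/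
theorem exists_fixed_form_logHeight_le {r d : ℕ} (x : Fin (r + 1) → laurentBaseChange Qb F₀)
    (hxfix : ∀ i, IsFixed F₀ (x i)) (hxli : LinearIndependent Qb x)
    (D₀ : Divisor Qb (laurentBaseChange Qb F₀)) (hD₀ : IsInvariant F₀ D₀)
    (hxspan : Submodule.span Qb (Set.range x) = riemannRochSpace D₀)
    (P : Fin d → Place Qb (laurentBaseChange Qb F₀)) (hP : Function.Injective P)
    (hPinv : IsInvariant F₀ (sumPrim P))
    (hdeg : 2 * (genusFF Qb (laurentBaseChange Qb F₀) : ℤ) - 2 < Divisor.degree D₀ - d)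
    (hd : d < r + 1)
    (ξ : Fin d → Fin (r + 1) → Qb)
    (hξ : ∀ (i : Fin d) (a : Fin (r + 1) → Qb),
      (∑ j, a j * ξ i j = 0 ↔ ∑ j, a j • x j ∈ riemannRochSpace (D₀ - prim (P i))))
    (absH : ((Fin d ↪ Fin (r + 1)) → Qb) → ℝ)
    (habs_smul : ∀ (c : Qb) (w : (Fin d ↪ Fin (r + 1)) → Qb), c ≠ 0 → absH (c • w) = absH w)
    (habs_rat : ∀ w : (Fin d ↪ Fin (r + 1)) → ℚ,
      absH (fun e => algebraMap ℚ Qb (w e)) = Height.logHeight w) :
    ∃ a : Fin (r + 1) → ℤ, a ≠ 0 ∧
      ∑ j, ((a j : ℤ) : ℚ) • x j ∈ riemannRochSpace (D₀ - sumPrim P) ∧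
      Height.logHeight (fun j => ((a j : ℤ) : ℚ)) ≤
        (1 / ((r + 1 - d : ℕ) : ℝ)) * absH (fun e => ((Matrix.of ξ).submatrix id e).det) +
          Real.log ((r + 1 - d : ℕ) : ℝ) := by
  classical
  have hE : IsInvariant F₀ (D₀ - sumPrim P) := by
    intro σ
    rw [smul_sub, hD₀ σ, hPinv σ]
  have hle : D₀ - sumPrim P ≤ D₀ :=
    sub_le_self D₀ (Finset.sum_nonneg fun j _ => prim_nonneg _)
  have hfin := finrank_rationalForms F₀ x hxfix hxli D₀ (D₀ - sumPrim P) hD₀ hE hle hxspan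
  have hell : (ell (D₀ - sumPrim P) : ℤ) =
      Divisor.degree (D₀ - sumPrim P) + 1 - (genusFF Qb (laurentBaseChange Qb F₀) : ℤ) :=
    ell_eq_of_degree_gt (by rw [map_sub, degree_sumPrim]; exact hdeg)
  have hell0 : (ell D₀ : ℤ) =
      Divisor.degree D₀ + 1 - (genusFF Qb (laurentBaseChange Qb F₀) : ℤ) :=
    ell_eq_of_degree_gt (by omega)
  have hr : ell D₀ = r + 1 := by
    unfold ell
    rw [← hxspan, finrank_span_eq_card hxli, Fintype.card_fin]
  have hv : LinearIndependent Qb (Matrix.of ξ).row :=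
    linearIndependent_points D₀ x hxspan P hP hdeg ξ hξ
  have hΛ : ∀ a ∈ rationalForms F₀ x (D₀ - sumPrim P),
      (Matrix.of ξ).mulVec (fun j => algebraMap ℚ Qb (a j)) = 0 := by
    intro a ha
    rw [mem_rationalForms] at ha
    ext i
    have h1 := dot_eq_zero_of_mem_L D₀ x P ξ hξ (fun j => algebraMap ℚ Qb (a j))
      (by simpa only [algebraMap_smul] using ha) i
    simp only [Matrix.mulVec, dotProduct, Matrix.of_apply, Pi.zero_apply]
    rw [← h1]
    exact Finset.sum_congr rfl fun j _ => mul_comm _ _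
  have hdim : Fintype.card (Fin (r + 1)) ≤
      Module.finrank ℚ (rationalForms F₀ x (D₀ - sumPrim P)) + Fintype.card (Fin d) := by
    rw [hfin, Fintype.card_fin, Fintype.card_fin]
    rw [map_sub, degree_sumPrim] at hell
    have : ((ell (D₀ - sumPrim P) : ℕ) : ℤ) + d = ((r + 1 : ℕ) : ℤ) := by
      rw [← hr]; omega
    omega
  obtain ⟨a, ha0, haΛ, hle'⟩ := exists_mem_logHeight_le (Matrix.of ξ) hv
    (rationalForms F₀ x (D₀ - sumPrim P)) hΛ hdim
    (by rw [Fintype.card_fin, Fintype.card_fin]; exact hd) absH habs_smul habs_rat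
  refine ⟨a, ha0, (mem_rationalForms F₀ x _ _).mp haΛ, ?_⟩
  simpa only [Fintype.card_fin] using hle'

omit F₀ in
/-- Every element of `ℚ̄` is integral over `ℚ` (for the ambient `ℚ`-algebra structure). -/
theorem isIntegral_Qb (c : Qb) : IsIntegral ℚ c :=
  Normal.isIntegral normal_Qb c

/-- **POS-LIN** for the absolute logarithmic height `H380.absLogHeight` on `ℚ̄`. -/
theorem exists_fixed_form_absLogHeight_le {r d : ℕ} (x : Fin (r + 1) → laurentBaseChange Qb F₀)
    (hxfix : ∀ i, IsFixed F₀ (x i)) (hxli : LinearIndependent Qb x)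
    (D₀ : Divisor Qb (laurentBaseChange Qb F₀)) (hD₀ : IsInvariant F₀ D₀)
    (hxspan : Submodule.span Qb (Set.range x) = riemannRochSpace D₀)
    (P : Fin d → Place Qb (laurentBaseChange Qb F₀)) (hP : Function.Injective P)
    (hPinv : IsInvariant F₀ (sumPrim P))
    (hdeg : 2 * (genusFF Qb (laurentBaseChange Qb F₀) : ℤ) - 2 < Divisor.degree D₀ - d)
    (hd : d < r + 1)
    (ξ : Fin d → Fin (r + 1) → Qb)
    (hξ : ∀ (i : Fin d) (a : Fin (r + 1) → Qb),
      (∑ j, a j * ξ i j = 0 ↔ ∑ j, a j • x j ∈ riemannRochSpace (D₀ - prim (P i)))) :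
    ∃ a : Fin (r + 1) → ℤ, a ≠ 0 ∧
      ∑ j, ((a j : ℤ) : ℚ) • x j ∈ riemannRochSpace (D₀ - sumPrim P) ∧
      Height.logHeight (fun j => ((a j : ℤ) : ℚ)) ≤
        (1 / ((r + 1 - d : ℕ) : ℝ)) *
            H380.absLogHeight (fun e : Fin d ↪ Fin (r + 1) =>
              ((Matrix.of ξ).submatrix id e).det) +
          Real.log ((r + 1 - d : ℕ) : ℝ) := by
  refine exists_fixed_form_logHeight_le F₀ x hxfix hxli D₀ hD₀ hxspan P hP hPinv hdeg hd ξ hξ
    H380.absLogHeight ?_ ?_
  · intro c w hc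
    exact H380.absLogHeight_smul w (fun i => _root_.Fermat.Agent.S17.H980.isIntegral_Qb _) hc (_root_.Fermat.Agent.S17.H980.isIntegral_Qb _)
  · intro w
    have h := H380.absLogHeight_eq (algebraMap ℚ Qb) w
    rw [Module.finrank_self, Nat.cast_one, inv_one, one_mul] at h
    exact h

end Rational

end Fermat.Agent.S17.H980

end
end
-- ===== PACK-END S17/H980/PosLin.lean

-- ===== PACK-BEGIN S17/H980/PosLinEmb.lean
section



/-!
# S17 / tower H: (MINK) in the language of the TOP/WALL contract (helper980)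

`E : EmbData ℚ̄ F` an embedding datum whose basis `E.x` of `L(m∞)` consists of Galois-fixed
functions, `∞` Galois-invariant.  For distinct places `P₁, …, P_d` with Galois-invariant sum
`D = Σ P_i` and `d + 2g ≤ m`:

* `pt_spec_iff_mem_L` : `⟨a, pt P⟩ = 0 ↔ Σ aⱼ xⱼ ∈ L(m∞ - P)` (all `a`);
* `linearIndependent_pt` : the points `E.pt (P i)` are linearly independent;
* `le_Z_iff_mem_L` : `D ≤ Z_a ↔ Σ aⱼ xⱼ ∈ L(m∞ - D)` for `a ≠ 0`;
* `exists_form_through` : **(MINK)** there is a non-zero INTEGRAL form `a` with `D ≤ Z_a` and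
  `ht a ≤ ht (pt P₁ ∧ … ∧ pt P_d) / k + log k`, `k = r + 1 - d = m - d + 1 - g`,
  with `ht = HContract.ht = H380.absLogHeight` and `plucker = HContract.plucker`.
-/

set_option autoImplicit false

noncomputable section

open AlgebraicCurve

namespace Fermat.Agent.S17.H980

open Fermat.Agent.Lib.RR Fermat.Agent.S17.HWall

section Emb

variable {K F : Type*} [Field K] [Field F] [Algebra K F] [FF1 K F]

/-- `pt_spec` for all `a`, in terms of Riemann–Roch spaces. -/
theorem pt_spec_iff_mem_L (E : EmbData K F) (P : Place K F) (a : Fin (E.r + 1) → K) :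
    ∑ j, a j * E.pt P j = 0 ↔
      ∑ j, a j • E.x j ∈ riemannRochSpace (E.m • prim E.vinf - prim P) := by
  by_cases ha : a = 0
  · subst ha
    simp
  have h1 := E.pt_spec P a ha
  have hdot : dot a (E.pt P) = ∑ j, a j * E.pt P j := rfl
  have hlin : lin E.x a = ∑ j, a j • E.x j := rfl
  rw [← hdot, h1, ← hlin]
  have hZ : hypDiv E.vinf E.m E.x a P = P.ord (lin E.x a) + (E.m • prim E.vinf : Divisor K F) P :=
    E.Z_apply ha P
  rw [hZ]
  have hmem := mem_L_iff.mp (E.lin_mem a)
  have hne := E.lin_ne_zero ha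
  constructor
  · intro h
    rw [mem_L_iff]
    intro v
    right
    rcases hmem v with h0 | hv
    · exact absurd h0 hne
    by_cases hvP : v = P
    · subst hvP
      simp only [Finsupp.coe_sub, Pi.sub_apply, prim_apply_self]
      omega
    · simp only [Finsupp.coe_sub, Pi.sub_apply, prim_apply_of_ne hvP]
      omega
  · intro h
    rw [mem_L_iff] at h
    rcases h P with h0 | hP
    · exact absurd h0 hne
    simp only [Finsupp.coe_sub, Pi.sub_apply, prim_apply_self] at hP
    omega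

/-- `D ≤ Z_a ↔ Σ aⱼ xⱼ ∈ L(m∞ - D)` for `a ≠ 0`. -/
theorem le_Z_iff_mem_L (E : EmbData K F) (D : Divisor K F) {a : Fin (E.r + 1) → K}
    (ha : a ≠ 0) :
    D ≤ E.Z a ↔ ∑ j, a j • E.x j ∈ riemannRochSpace (E.m • prim E.vinf - D) := by
  have hlin : lin E.x a = ∑ j, a j • E.x j := rfl
  have hne := E.lin_ne_zero ha
  rw [← hlin, mem_L_iff, Finsupp.le_def]
  constructor
  · intro h v
    right
    have := h v
    rw [E.Z_apply ha v] at this
    simp only [Finsupp.coe_sub, Pi.sub_apply]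
    omega
  · intro h v
    rcases h v with h0 | hv
    · exact absurd h0 hne
    rw [E.Z_apply ha v]
    simp only [Finsupp.coe_sub, Pi.sub_apply] at hv
    omega

/-- `r + 1 = m + 1 - g`. -/
theorem r_add_one_eq (E : EmbData K F) : ((E.r + 1 : ℕ) : ℤ) = E.m + 1 - (genusFF K F : ℤ) := by
  have h1 : ell (E.m • prim E.vinf) = E.r + 1 := by
    unfold ell
    rw [← E.x_span, finrank_span_eq_card E.x_li, Fintype.card_fin]
  have h2 : (ell (E.m • prim E.vinf) : ℤ) =
      Divisor.degree (E.m • prim E.vinf) + 1 - (genusFF K F : ℤ) := by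
    apply ell_eq_of_degree_gt
    rw [map_nsmul, degree_prim _ (deg_eq_one _), genusFF_eq_genusR]
    have := E.hm
    simp only [nsmul_eq_mul, mul_one]
    omega
  rw [map_nsmul, degree_prim _ (deg_eq_one _)] at h2
  rw [← h1, h2]
  simp

/-- The points of a reduced divisor of degree `d ≤ m - 2g + 1` are linearly independent. -/
theorem linearIndependent_pt (E : EmbData K F) {d : ℕ} (P : Fin d → Place K F)
    (hP : Function.Injective P) (hdeg : d + 2 * genusFF K F ≤ E.m + 1) :
    LinearIndependent K fun i => E.pt (P i) := by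
  apply linearIndependent_points (E.m • prim E.vinf) E.x E.x_span P hP
  · rw [map_nsmul, degree_prim _ (deg_eq_one _)]
    simp only [nsmul_eq_mul, mul_one]
    omega
  · intro i a
    exact pt_spec_iff_mem_L E (P i) a

end Emb

section Rational

open Fermat.Agent.S17.H77 Fermat.Agent.S17.H680 ModularCurve Fermat.Agent.S17.HContract

variable (F₀ : IntermediateField ℚ (LaurentSeries ℚ)) [FF1 Qb (laurentBaseChange Qb F₀)]

/-- **(MINK) in contract form.** -/
theorem exists_form_through (E : EmbData Qb (laurentBaseChange Qb F₀))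
    (hxfix : ∀ i, IsFixed F₀ (E.x i)) (hinf : IsInvariant F₀ (prim E.vinf))
    {d : ℕ} (P : Fin d → Place Qb (laurentBaseChange Qb F₀)) (hP : Function.Injective P)
    (hPinv : IsInvariant F₀ (sumPrim P))
    (hdeg : d + 2 * genusFF Qb (laurentBaseChange Qb F₀) ≤ E.m) :
    ∃ a : Fin (E.r + 1) → ℤ, a ≠ 0 ∧
      sumPrim P ≤ E.Z (fun j => ((a j : ℤ) : Qb)) ∧
      ht (fun j => ((a j : ℤ) : Qb)) ≤
        (1 / ((E.r + 1 - d : ℕ) : ℝ)) * ht (plucker fun i => E.pt (P i)) +
          Real.log ((E.r + 1 - d : ℕ) : ℝ) := by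
  have hr := r_add_one_eq E
  have hD₀ : IsInvariant F₀ (E.m • prim E.vinf) := by
    intro σ
    rw [smul_comm, hinf σ]
  obtain ⟨a, ha0, hmem, hle⟩ := exists_fixed_form_absLogHeight_le F₀ E.x hxfix E.x_li
    (E.m • prim E.vinf) hD₀ E.x_span P hP hPinv
    (by
      rw [map_nsmul, degree_prim _ (deg_eq_one _)]
      simp only [nsmul_eq_mul, mul_one]
      omega)
    (by omega) (fun i => E.pt (P i)) (fun i a => pt_spec_iff_mem_L E (P i) a)
  have hcast : ∀ j, (((a j : ℤ) : ℚ) : Qb) = ((a j : ℤ) : Qb) := fun j => by push_cast; rfl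
  have ha0' : (fun j => ((a j : ℤ) : Qb)) ≠ 0 := by
    intro h
    apply ha0
    funext j
    have := congrFun h j
    simpa using this
  refine ⟨a, ha0, ?_, ?_⟩
  · rw [le_Z_iff_mem_L E _ ha0']
    have : ∑ j, ((a j : ℤ) : Qb) • E.x j = ∑ j, ((a j : ℤ) : ℚ) • E.x j := by
      refine Finset.sum_congr rfl fun j _ => ?_
      rw [← hcast j, ← algebraMap_smul Qb ((a j : ℤ) : ℚ) (E.x j), eq_ratCast]
    rw [this]
    exact hmem
  · have h1 : ht (fun j => ((a j : ℤ) : Qb)) = Height.logHeight (fun j => ((a j : ℤ) : ℚ)) := by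
      have h := H380.absLogHeight_eq (algebraMap ℚ Qb) (fun j => ((a j : ℤ) : ℚ))
      rw [Module.finrank_self, Nat.cast_one, inv_one, one_mul] at h
      rw [← h]
      have h2 : (fun j => ((a j : ℤ) : Qb)) = fun j => algebraMap ℚ Qb ((a j : ℤ) : ℚ) := by
        funext j
        rw [eq_ratCast, hcast j]
      rw [h2]
    rw [h1]
    exact hle

end Rational

end Fermat.Agent.S17.H980

end
end
-- ===== PACK-END S17/H980/PosLinEmb.lean

-- ===== PACK-BEGIN S17/H35/ContractPkg.lean
section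




/-!
# S17 / tower H, TOP-GLUE (helper35, subtask 606): (BEZ), (ADJ), (GAUSS), (VDM) in package form

Generic part (any `K`, `F` with `FF1 K F`, any embeddings `E₁`, `E₂`), on plain divisors.

Data (for the concrete `PairingPackage`):

* `kapSum E D = Σ_P D(P) κ(P)`                       (package field `K`);
* `selfPair E D = Σ_P D(P) (D − D(P) P . P)`, `delta E D = selfPair E D / 2`   (field `δ`);
* `plHt E D = h(pt P₁ ∧ … ∧ pt P_d)`, the points of the support of `D` in any enumeration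
  (field `Pl`).

Results (`C` always uniform):

* `exists_pencil_family` : `m + 1` nonzero forms with pairwise disjoint hyperplane sections;
* `bez`        : `|N (Z a) − m h(a)| ≤ C`                            from (E3);
* `adj_sum`    : (ADJ) summed over a reduced part `D` of `Z a = D + D'`;
* `vdm_enum`, `vdm_sum` : (VDM) for a reduced divisor, in terms of `naive` and `delta`;
* `gauss_sum`  : (GAUSS) for `K₀ = Rt − c ∞`, with `hD(∞, P) = N(P) / m + O(1)` from (E3).
-/

set_option autoImplicit false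
set_option linter.unusedSectionVars false

noncomputable section

open AlgebraicCurve

namespace Fermat.Agent.S17.H35

open Fermat.Agent.Lib.RR Fermat.Agent.S17.HWall Fermat.Agent.S17.HContract

variable {K F : Type*} [Field K] [CharZero K] [Field F] [Algebra K F] [FF1 K F]

/-! ## The remaining data -/

/-- the tangent term `K(D) = Σ_P D(P) κ(P)` -/
def kapSum (E : EmbData K F) (D : Divisor K F) : ℝ :=
  D.sum fun P n => (n : ℝ) * kap E P

/-- twice the off-diagonal self pairing: `Σ_P D(P) (D − D(P) P . P)` -/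
def selfPair (E : EmbData K F) (D : Divisor K F) : ℝ :=
  D.sum fun P n => (n : ℝ) * pairPt E (D.erase P) P

/-- the off-diagonal self pairing `δ(D) = Σ_{P < Q} D(P) D(Q) hD(P, Q)` -/
def delta (E : EmbData K F) (D : Divisor K F) : ℝ := selfPair E D / 2

/-- the Plücker height of the points of the support of `D` -/
def plHt (E : EmbData K F) (D : Divisor K F) : ℝ :=
  ht (plucker fun i : Fin D.support.card => E.pt (D.support.equivFin.symm i : Place K F))

/-! ## More calculus -/

theorem pairPt_neg (E : EmbData K F) (D : Divisor K F) (P : Place K F) :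
    pairPt E (-D) P = - pairPt E D P := by
  have h := pairPt_add E D (-D) P
  rw [add_neg_cancel, pairPt_zero] at h
  linarith

theorem pairPt_sub (E : EmbData K F) (D D' : Divisor K F) (P : Place K F) :
    pairPt E (D - D') P = pairPt E D P - pairPt E D' P := by
  rw [sub_eq_add_neg, pairPt_add, pairPt_neg]
  ring

theorem pairPt_zsmul (E : EmbData K F) (k : ℤ) (D : Divisor K F) (P : Place K F) :
    pairPt E (k • D) P = k * pairPt E D P := by
  induction k using Int.induction_on with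
  | zero => simp
  | succ k ih => rw [add_smul, one_smul, pairPt_add, ih]; push_cast; ring
  | pred k ih => rw [sub_smul, one_smul, pairPt_sub, ih]; push_cast; ring

@[simp] theorem pairPt_prim (E : EmbData K F) (A P : Place K F) :
    pairPt E (prim A) P = hD E A P := by
  unfold prim
  rw [pairPt_single]
  simp

theorem pairPt_erase_add (E : EmbData K F) {D D' : Divisor K F} {P : Place K F}
    (h : D' P = 0) :
    pairPt E ((D + D').erase P) P = pairPt E (D.erase P) P + pairPt E D' P := by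
  rw [Finsupp.erase_add, pairPt_add]
  congr 2
  exact Finsupp.erase_of_notMem_support (by simpa using h)

theorem pairPt_erase (E : EmbData K F) (D : Divisor K F) (P : Place K F) :
    pairPt E (D.erase P) P = pairPt E D P - D P * hD E P P := by
  have h := congrArg (fun D' => pairPt E D' P) (Finsupp.erase_add_single P D)
  simp only [pairPt_add, pairPt_single] at h
  linarith

theorem naive_sum {ι : Type*} (E : EmbData K F) (s : Finset ι) (D : ι → Divisor K F) :
    naive E (∑ i ∈ s, D i) = ∑ i ∈ s, naive E (D i) := by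
  classical
  induction s using Finset.induction_on with
  | empty => simp
  | insert a s ha ih => rw [Finset.sum_insert ha, Finset.sum_insert ha, naive_add, ih]

@[simp] theorem naive_prim (E : EmbData K F) (P : Place K F) : naive E (prim P) = ht (E.pt P) := by
  unfold naive prim
  rw [Finsupp.sum_single_index (by simp)]
  simp

theorem kapSum_add (E : EmbData K F) (D D' : Divisor K F) :
    kapSum E (D + D') = kapSum E D + kapSum E D' := by
  unfold kapSum
  rw [Finsupp.sum_add_index' (by simp) (by intro a b₁ b₂; push_cast; ring)]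

@[simp] theorem kapSum_zero (E : EmbData K F) : kapSum E 0 = 0 := by
  simp [kapSum]

/-- `2 δ(D) = (D . D) − Σ_P D(P)² hD(P, P)`. -/
theorem selfPair_eq (E : EmbData K F) (D : Divisor K F) :
    selfPair E D = pair E D D - D.sum fun P n => (n : ℝ) * n * hD E P P := by
  unfold selfPair pair
  simp only [Finsupp.sum, ← Finset.sum_sub_distrib]
  refine Finset.sum_congr rfl fun P _ => ?_
  rw [pairPt_erase]
  ring


/-! ## (ADJ) summed -/

/-- **(ADJ), summed.**  `Z_a = D + D'` with `D` reduced and disjoint from `D'`: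
`|2 δ(D) − K(D) + (D' . D) − (deg D · h(a) + N(D))| ≤ C · deg D`. -/
theorem adj_sum {E₁ E₂ : EmbData K F} (h : ADJStatement E₁ E₂) :
    ∃ C : ℝ, 0 ≤ C ∧ ∀ (a : Fin (E₂.r + 1) → K) (D D' : Divisor K F), a ≠ 0 →
      (∀ P, D P = 0 ∨ D P = 1) → E₂.Z a = D + D' → (∀ P, D P ≠ 0 → D' P = 0) →
      |2 * delta E₁ D - kapSum E₁ D + pair E₁ D' D
          - ((Divisor.degree D : ℤ) * ht a + naive E₂ D)| ≤ C * (Divisor.degree D : ℤ) := by
  obtain ⟨C, hC⟩ := h
  refine ⟨max C 0, le_max_right _ _, fun a D D' ha hred hZ hdisj => ?_⟩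
  have hsum : 2 * delta E₁ D - kapSum E₁ D + pair E₁ D' D
          - ((Divisor.degree D : ℤ) * ht a + naive E₂ D) =
      D.sum fun P n => (n : ℝ) *
        (pairPt E₁ ((E₂.Z a).erase P) P - kap E₁ P - ht a - ht (E₂.pt P)) := by
    have h2 : 2 * delta E₁ D = selfPair E₁ D := by unfold delta; ring
    have h3 : (D.sum fun P n => (n : ℝ) *
        (pairPt E₁ ((E₂.Z a).erase P) P - kap E₁ P - ht a - ht (E₂.pt P))) =
        D.sum fun P n => (n : ℝ) *
        (pairPt E₁ (D.erase P) P + pairPt E₁ D' P - kap E₁ P - ht a - ht (E₂.pt P)) := by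
      unfold Finsupp.sum
      refine Finset.sum_congr rfl fun P hP => ?_
      have hP0 : D P ≠ 0 := Finsupp.mem_support_iff.mp hP
      dsimp only
      rw [hZ, pairPt_erase_add E₁ (hdisj P hP0)]
    rw [h2, h3, degree_cast_eq_sum]
    unfold selfPair kapSum pair naive
    simp only [Finsupp.sum, Finset.sum_mul, mul_sub, mul_add, Finset.sum_sub_distrib,
      Finset.sum_add_distrib]
    ring
  rw [hsum, degree_cast_eq_sum, Finsupp.sum, Finsupp.sum, Finset.mul_sum]
  refine (Finset.abs_sum_le_sum_abs _ _).trans (Finset.sum_le_sum fun P hP => ?_)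
  have hP0 : D P ≠ 0 := Finsupp.mem_support_iff.mp hP
  have hP1 : D P = 1 := (hred P).resolve_left hP0
  have hZP : E₂.Z a P = 1 := by
    rw [hZ, Finsupp.add_apply, hP1, hdisj P hP0]
    rfl
  rw [hP1]
  simp only [Int.cast_one, one_mul, mul_one]
  exact (hC a P ha hZP).trans (le_max_left _ _)

/-! ## (VDM) in terms of `naive` and `delta` -/

theorem sum_lt_eq_half {d : ℕ} (f : Fin d → Fin d → ℝ) (hf : ∀ i j, f i j = f j i) :
    (∑ i, ∑ j, if i < j then f i j else 0) = ((∑ i, ∑ j, f i j) - ∑ i, f i i) / 2 := by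
  have h1 : ∀ i j, f i j = (if i < j then f i j else 0) + (if j < i then f i j else 0)
      + (if i = j then f i j else 0) := by
    intro i j
    rcases lt_trichotomy i j with h | h | h
    · simp [h, not_lt.mpr h.le, h.ne]
    · subst h
      simp
    · simp [h, not_lt.mpr h.le, h.ne']
  have h2 : (∑ i, ∑ j, f i j) = (∑ i, ∑ j, if i < j then f i j else 0)
      + (∑ i, ∑ j, if j < i then f i j else 0) + ∑ i, ∑ j, if i = j then f i j else 0 := by
    rw [← Finset.sum_add_distrib, ← Finset.sum_add_distrib]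
    refine Finset.sum_congr rfl fun i _ => ?_
    rw [← Finset.sum_add_distrib, ← Finset.sum_add_distrib]
    exact Finset.sum_congr rfl fun j _ => h1 i j
  have h3 : (∑ i, ∑ j, if j < i then f i j else 0) = ∑ i, ∑ j, if i < j then f i j else 0 := by
    rw [Finset.sum_comm]
    refine Finset.sum_congr rfl fun i _ => Finset.sum_congr rfl fun j _ => ?_
    rw [hf j i]
  have h4 : (∑ i, ∑ j, if i = j then f i j else 0) = ∑ i, f i i := by
    refine Finset.sum_congr rfl fun i _ => ?_
    simp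
  rw [h2, h3, h4]
  ring

theorem pairPt_sum {ι : Type*} (E : EmbData K F) (s : Finset ι) (D : ι → Divisor K F)
    (P : Place K F) : pairPt E (∑ i ∈ s, D i) P = ∑ i ∈ s, pairPt E (D i) P := by
  classical
  induction s using Finset.induction_on with
  | empty => simp
  | insert a s ha ih => rw [Finset.sum_insert ha, Finset.sum_insert ha, pairPt_add, ih]

theorem pair_sum_right {ι : Type*} (E : EmbData K F) (s : Finset ι) (D : Divisor K F)
    (D' : ι → Divisor K F) : pair E D (∑ i ∈ s, D' i) = ∑ i ∈ s, pair E D (D' i) := by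
  classical
  induction s using Finset.induction_on with
  | empty => simp
  | insert a s ha ih => rw [Finset.sum_insert ha, Finset.sum_insert ha, pair_add_right, ih]

theorem sumPrim_apply {d : ℕ} (P : Fin d → Place K F) (hP : Function.Injective P) (i : Fin d) :
    H980.sumPrim P (P i) = 1 := by
  rw [H980.sumPrim_eq_add P i, Finsupp.add_apply, H980.sum_erase_apply_self P hP i]
  simp

theorem sumPrim_apply_of_notMem {d : ℕ} (P : Fin d → Place K F) {Q : Place K F}
    (hQ : ∀ i, P i ≠ Q) : H980.sumPrim P Q = 0 := by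
  unfold H980.sumPrim
  rw [Finsupp.finsetSum_apply]
  exact Finset.sum_eq_zero fun i _ => prim_apply_of_ne (fun h => hQ i h.symm)

/-- `Σ_Q D(Q) g(Q) = Σ_i g(P_i)` for `D = P₁ + … + P_d`. -/
theorem sumPrim_sum {d : ℕ} (P : Fin d → Place K F) (g : Place K F → ℝ) :
    ((H980.sumPrim P).sum fun Q n => (n : ℝ) * g Q) = ∑ i, g (P i) := by
  unfold H980.sumPrim
  rw [← Finsupp.sum_finsetSum_index (by simp) (by intro a b₁ b₂; push_cast; ring)]
  refine Finset.sum_congr rfl fun i _ => ?_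
  unfold prim
  rw [Finsupp.sum_single_index (by simp)]
  simp

theorem naive_sumPrim (E : EmbData K F) {d : ℕ} (P : Fin d → Place K F) :
    naive E (H980.sumPrim P) = ∑ i, ht (E.pt (P i)) :=
  sumPrim_sum P fun Q => ht (E.pt Q)

theorem kapSum_sumPrim (E : EmbData K F) {d : ℕ} (P : Fin d → Place K F) :
    kapSum E (H980.sumPrim P) = ∑ i, kap E (P i) :=
  sumPrim_sum P fun Q => kap E Q

theorem delta_sumPrim (E : EmbData K F) {d : ℕ} (P : Fin d → Place K F)
    (hP : Function.Injective P) :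
    delta E (H980.sumPrim P) = ∑ i, ∑ j, if i < j then hD E (P i) (P j) else 0 := by
  rw [sum_lt_eq_half (fun i j => hD E (P i) (P j)) (fun i j => hD_symm E _ _)]
  unfold delta
  congr 1
  rw [selfPair_eq]
  congr 1
  · -- the full pairing
    unfold pair
    rw [sumPrim_sum P fun Q => pairPt E (H980.sumPrim P) Q]
    rw [Finset.sum_comm]
    refine Finset.sum_congr rfl fun j _ => ?_
    unfold H980.sumPrim
    rw [pairPt_sum]
    simp
  · -- the diagonal
    have h1 : ((H980.sumPrim P).sum fun Q n => (n : ℝ) * n * hD E Q Q) =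
        (H980.sumPrim P).sum fun Q n => (n : ℝ) * hD E Q Q := by
      unfold Finsupp.sum
      refine Finset.sum_congr rfl fun Q hQ => ?_
      have hQ0 : H980.sumPrim P Q ≠ 0 := Finsupp.mem_support_iff.mp hQ
      have : ∃ i, P i = Q := by
        by_contra hcon
        exact hQ0 (sumPrim_apply_of_notMem P fun i hi => hcon ⟨i, hi⟩)
      obtain ⟨i, rfl⟩ := this
      rw [sumPrim_apply P hP i]
      simp
    rw [h1, sumPrim_sum P fun Q => hD E Q Q]

/-- **(VDM)** for `D = P₁ + … + P_d` (distinct points, any enumeration):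
`h(pt P₁ ∧ … ∧ pt P_d) ≤ N(D) − δ(D) + C`. -/
theorem vdm_enum {E₁ E₂ : EmbData K F} {d₀ : ℕ} (h : VDMStatement E₁ E₂ d₀) :
    ∃ C : ℝ, ∀ (d : ℕ) (P : Fin d → Place K F), d ≤ d₀ → Function.Injective P →
      ht (plucker fun i => E₂.pt (P i)) ≤
        naive E₂ (H980.sumPrim P) - delta E₁ (H980.sumPrim P) + C := by
  obtain ⟨C, hC⟩ := h
  refine ⟨C, fun d P hd hP => ?_⟩
  rw [naive_sumPrim, delta_sumPrim E₁ P hP]
  exact hC d P hd hP

/-- A reduced effective divisor is the sum of the points of its support. -/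
theorem eq_sumPrim_of_reduced (D : Divisor K F) (hred : ∀ P, D P = 0 ∨ D P = 1) :
    D = H980.sumPrim fun i : Fin D.support.card => (D.support.equivFin.symm i : Place K F) := by
  ext Q
  by_cases hQ : D Q = 0
  · rw [hQ, sumPrim_apply_of_notMem]
    intro i h
    have := (D.support.equivFin.symm i).2
    rw [h] at this
    exact (Finsupp.mem_support_iff.mp this) hQ
  · have hQ1 : D Q = 1 := (hred Q).resolve_left hQ
    have hmem : Q ∈ D.support := Finsupp.mem_support_iff.mpr hQ
    have hinj : Function.Injective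
        fun i : Fin D.support.card => (D.support.equivFin.symm i : Place K F) :=
      fun i j hij => D.support.equivFin.symm.injective (Subtype.ext hij)
    have := sumPrim_apply _ hinj (D.support.equivFin ⟨Q, hmem⟩)
    simp only [Equiv.symm_apply_apply] at this
    rw [hQ1, this]

/-- **(VDM)** for a reduced divisor with at most `d₀` points. -/
theorem vdm_sum {E₁ E₂ : EmbData K F} {d₀ : ℕ} (h : VDMStatement E₁ E₂ d₀) :
    ∃ C : ℝ, ∀ D : Divisor K F, (∀ P, D P = 0 ∨ D P = 1) → D.support.card ≤ d₀ →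
      plHt E₂ D ≤ naive E₂ D - delta E₁ D + C := by
  obtain ⟨C, hC⟩ := vdm_enum h
  refine ⟨C, fun D hred hcard => ?_⟩
  have hinj : Function.Injective
      fun i : Fin D.support.card => (D.support.equivFin.symm i : Place K F) :=
    fun i j hij => D.support.equivFin.symm.injective (Subtype.ext hij)
  have := hC D.support.card _ hcard hinj
  rw [← eq_sumPrim_of_reduced D hred] at this
  exact this

/-- For a reduced effective divisor the support has `deg` points. -/
theorem card_support_of_reduced (D : Divisor K F) (hred : ∀ P, D P = 0 ∨ D P = 1) :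
    (D.support.card : ℤ) = Divisor.degree D := by
  rw [_root_.Fermat.Agent.S17.H35.degree_eq_sum, Finsupp.sum]
  have h1 : ∀ P ∈ D.support, D P = (1 : ℤ) := fun P hP =>
    (hred P).resolve_left (Finsupp.mem_support_iff.mp hP)
  rw [Finset.sum_congr rfl h1]
  simp


/-! ## (BEZ): a pencil of hyperplane sections -/

theorem pt_ne_zero (E : EmbData K F) (P : Place K F) : E.pt P ≠ 0 := by
  have hli := H980.linearIndependent_pt E (d := 1) (fun _ => P)
    (Function.injective_of_subsingleton _) (by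
      have := E.hm
      rw [genusFF_eq_genusR]
      omega)
  exact hli.ne_zero 0

theorem pos_of_Z_ne_zero (E : EmbData K F) {a : Fin (E.r + 1) → K} {P : Place K F}
    (h : E.Z a P ≠ 0) : 0 < hypDiv E.vinf E.m E.x a P := by
  have h1 := (Finsupp.le_def.mp (E.Z_nonneg a)) P
  have h2 : E.Z a P = hypDiv E.vinf E.m E.x a P := rfl
  rw [h2] at h h1
  simp only [Finsupp.coe_zero, Pi.zero_apply] at h1
  omega

theorem Z_ne_zero_of_dot (E : EmbData K F) {a : Fin (E.r + 1) → K} (ha : a ≠ 0)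
    {P : Place K F} (h : dot a (E.pt P) = 0) : E.Z a P ≠ 0 := by
  have h1 := (E.pt_spec P a ha).mp h
  have h2 : E.Z a P = hypDiv E.vinf E.m E.x a P := rfl
  rw [h2]
  omega

/-- A form which vanishes at none of finitely many given points. -/
theorem exists_dot_ne_zero (E : EmbData K F) (S : Finset (Place K F)) :
    ∃ b : Fin (E.r + 1) → K, ∀ P ∈ S, dot b (E.pt P) ≠ 0 := by
  classical
  let φ : Place K F → ((Fin (E.r + 1) → K) →ₗ[K] K) := fun P =>
    ∑ i, (E.pt P i) • (LinearMap.proj i : (Fin (E.r + 1) → K) →ₗ[K] K)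
  have hφ : ∀ P b, φ P b = dot b (E.pt P) := by
    intro P b
    simp [φ, dot, dotProduct, mul_comm]
  have htop : (⊤ : Subspace K (Fin (E.r + 1) → K)) ∉ S.image fun P => LinearMap.ker (φ P) := by
    intro hmem
    obtain ⟨P, _, hP⟩ := Finset.mem_image.mp hmem
    obtain ⟨i, hi⟩ := Function.ne_iff.mp (pt_ne_zero E P)
    have hmem' : (Pi.single i 1 : Fin (E.r + 1) → K) ∈ LinearMap.ker (φ P) := by
      rw [hP]
      trivial
    rw [LinearMap.mem_ker, hφ] at hmem'
    apply hi
    simpa [dot] using hmem'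
  have hne := Subspace.biUnion_ne_univ_of_top_notMem htop
  obtain ⟨b, hb⟩ := (Set.ne_univ_iff_exists_notMem _).mp hne
  refine ⟨b, fun P hP h0 => hb ?_⟩
  simp only [Set.mem_iUnion]
  refine ⟨LinearMap.ker (φ P), Finset.mem_image_of_mem _ hP, ?_⟩
  rw [SetLike.mem_coe, LinearMap.mem_ker, hφ]
  exact h0

/-- **A pencil of hyperplane sections**: more than `n` nonzero forms with pairwise disjoint
hyperplane sections. -/
theorem exists_pencil_family (E : EmbData K F) (n : ℕ) :
    ∃ B : Finset (Fin (E.r + 1) → K), n < B.card ∧ (∀ b ∈ B, b ≠ 0) ∧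
      ∀ b ∈ B, ∀ b' ∈ B, b ≠ b' → ∀ P, E.Z b P ≠ 0 → E.Z b' P = 0 := by
  classical
  set a : Fin (E.r + 1) → K := Pi.single 0 1 with ha_def
  have ha : a ≠ 0 := by
    intro h
    have := congrFun h 0
    simp [ha_def] at this
  obtain ⟨b, hb⟩ := exists_dot_ne_zero E (E.Z a).support
  have hkey : ∀ P, dot a (E.pt P) = 0 → dot b (E.pt P) ≠ 0 := by
    intro P hP
    apply hb
    rw [Finsupp.mem_support_iff]
    exact Z_ne_zero_of_dot E ha hP
  have hZne : (E.Z a).support.Nonempty := by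
    by_contra hcon
    rw [Finset.not_nonempty_iff_eq_empty, Finsupp.support_eq_empty] at hcon
    have hdeg := E.degree_Z ha
    rw [hcon, map_zero] at hdeg
    have := E.hm
    omega
  obtain ⟨P₀, hP₀⟩ := hZne
  have hP₀' : dot a (E.pt P₀) = 0 :=
    (E.pt_spec P₀ a ha).mpr (pos_of_Z_ne_zero E (Finsupp.mem_support_iff.mp hP₀))
  have hb0 : b ≠ 0 := by
    rintro rfl
    exact hb P₀ hP₀ (by simp [dot])
  let f : ℕ → (Fin (E.r + 1) → K) := fun c => a + (c : K) • b
  have hf_inj : Function.Injective f := by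
    intro c c' h
    have h0 : (c : K) • b = (c' : K) • b := add_left_cancel h
    have h1 : ((c : K) - c') • b = 0 := by
      rw [sub_smul, h0, sub_self]
    rcases smul_eq_zero.mp h1 with h2 | h2
    · exact_mod_cast sub_eq_zero.mp h2
    · exact absurd h2 hb0
  have hdot : ∀ (c : ℕ) P, dot (f c) (E.pt P) = dot a (E.pt P) + c * dot b (E.pt P) := by
    intro c P
    simp [f, dot, add_dotProduct, smul_dotProduct]
  have hf0 : ∀ c, f c ≠ 0 := by
    intro c h
    have h1 := hdot c P₀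
    rw [h, hP₀'] at h1
    have h2 : (c : K) * dot b (E.pt P₀) = 0 := by
      rw [zero_add] at h1
      rw [← h1]
      simp [dot]
    rcases mul_eq_zero.mp h2 with h3 | h3
    · have hc : c = 0 := by exact_mod_cast h3
      apply ha
      rw [← h]
      simp [f, hc]
    · exact hb P₀ hP₀ h3
  refine ⟨(Finset.range (n + 1)).image f, ?_, ?_, ?_⟩
  · rw [Finset.card_image_of_injective _ hf_inj, Finset.card_range]
    omega
  · intro b' hb'
    obtain ⟨c, _, rfl⟩ := Finset.mem_image.mp hb'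
    exact hf0 c
  · intro b₁ hb₁ b₂ hb₂ hne P hP
    obtain ⟨c₁, _, rfl⟩ := Finset.mem_image.mp hb₁
    obtain ⟨c₂, _, rfl⟩ := Finset.mem_image.mp hb₂
    by_contra hP2
    have h1 : dot (f c₁) (E.pt P) = 0 := (E.pt_spec P _ (hf0 c₁)).mpr (pos_of_Z_ne_zero E hP)
    have h2 : dot (f c₂) (E.pt P) = 0 := (E.pt_spec P _ (hf0 c₂)).mpr (pos_of_Z_ne_zero E hP2)
    rw [hdot] at h1 h2
    have hc : (c₁ : K) ≠ c₂ := fun h => hne (by
      have : c₁ = c₂ := by exact_mod_cast h
      rw [this])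
    have h3 : ((c₁ : K) - c₂) * dot b (E.pt P) = 0 := by linear_combination h1 - h2
    rcases mul_eq_zero.mp h3 with h4 | h4
    · exact hc (sub_eq_zero.mp h4)
    · have h5 : dot a (E.pt P) = 0 := by
        rw [h4] at h1
        simpa using h1
      exact hkey P h5 h4

/-- **(BEZ)**: `|N (Z a) − m · h(a)| ≤ C`, from (E3). -/
theorem bez {E₁ E₂ : EmbData K F} (h : E3Statement E₁ E₂) :
    ∃ C : ℝ, ∀ a : Fin (E₂.r + 1) → K, a ≠ 0 →
      |naive E₂ (E₂.Z a) - E₂.m * ht a| ≤ C := by
  obtain ⟨B, hcard, hB0, hBd⟩ := exists_pencil_family E₂ E₂.m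
  exact bez_of h B hB0 hBd hcard

/-! ## (GAUSS) -/

/-- **(GAUSS)** in the form used by TOP: the canonical divisor is `K₀ = Rt − c ∞`. -/
def GaussRtStatement (E₁ : EmbData K F) (Rt : Divisor K F) (c : ℤ) : Prop :=
  ∃ C : ℝ, ∀ P : Place K F, Rt P = 0 → P ≠ E₁.vinf →
    |kap E₁ P - (pairPt E₁ Rt P - c * hD E₁ E₁.vinf P)| ≤ C

/-- (GAUSS) for the divisor `K₀ = Rt − c ∞`, as in `GAUSSStatement`. -/
theorem gaussRt_of (E₁ : EmbData K F) (Rt : Divisor K F) (c : ℤ)
    (h : ∃ C : ℝ, ∀ P : Place K F, (Rt - c • prim E₁.vinf) P = 0 →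
      |kap E₁ P - pairPt E₁ (Rt - c • prim E₁.vinf) P| ≤ C) : GaussRtStatement E₁ Rt c := by
  obtain ⟨C, hC⟩ := h
  refine ⟨C, fun P hP hPinf => ?_⟩
  have h0 : (Rt - c • prim E₁.vinf) P = 0 := by
    rw [Finsupp.sub_apply, Finsupp.smul_apply, hP, prim_apply_of_ne hPinf]
    simp
  have := hC P h0
  rwa [pairPt_sub, pairPt_zsmul, pairPt_prim] at this

/-- The distance to `∞` is the naive height: `|m · hD(∞, P) − h(a₁) − h(pt P)| ≤ C` for
`P ≠ ∞`, where `Z a₁ = m ∞`. -/
theorem hD_vinf {E₁ E₂ : EmbData K F} (h3 : E3Statement E₁ E₂)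
    {a₁ : Fin (E₂.r + 1) → K} (ha₁ : a₁ ≠ 0) (hZ₁ : E₂.Z a₁ = E₂.m • prim E₂.vinf) :
    ∃ C : ℝ, ∀ P : Place K F, P ≠ E₂.vinf →
      |(E₂.m : ℝ) * hD E₁ E₂.vinf P - ht a₁ - ht (E₂.pt P)| ≤ C := by
  obtain ⟨C, hC⟩ := h3
  refine ⟨C, fun P hP => ?_⟩
  have hZP : E₂.Z a₁ P = 0 := by
    rw [hZ₁, Finsupp.smul_apply, prim_apply_of_ne hP]
    simp
  have := hC a₁ P ha₁ (dot_ne_zero_of_Z_eq_zero E₂ ha₁ hZP)
  rwa [hZ₁, pairPt_nsmul, pairPt_prim] at this

/-- **(GAUSS), summed**, in package form: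
`|K(D) − ((Rt . D) − (c / m) N(D))| ≤ C · deg D` for effective `D` avoiding `Rt` and `∞`. -/
theorem gauss_sum {E₁ E₂ : EmbData K F} (hv : E₁.vinf = E₂.vinf) (h3 : E3Statement E₁ E₂)
    {a₁ : Fin (E₂.r + 1) → K} (ha₁ : a₁ ≠ 0) (hZ₁ : E₂.Z a₁ = E₂.m • prim E₂.vinf)
    {Rt : Divisor K F} {c : ℤ} (hG : GaussRtStatement E₁ Rt c) :
    ∃ C : ℝ, 0 ≤ C ∧ ∀ D : Divisor K F, 0 ≤ D → (∀ P, D P ≠ 0 → Rt P = 0 ∧ P ≠ E₂.vinf) →
      |kapSum E₁ D - (pair E₁ Rt D - ((c : ℝ) / E₂.m) * naive E₂ D)| ≤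
        C * (Divisor.degree D : ℤ) := by
  obtain ⟨C₃, hC₃⟩ := hD_vinf h3 ha₁ hZ₁
  obtain ⟨CG, hCG⟩ := hG
  have hm : (0 : ℝ) < E₂.m := by
    have := E₂.hm
    have h1 : 0 < E₂.m := by omega
    exact_mod_cast h1
  set Cp : ℝ := max CG 0 + |(c : ℝ)| * ((max C₃ 0 + ht a₁) / E₂.m) with hCp
  have hCp0 : 0 ≤ Cp := by
    have h1 : 0 ≤ ht a₁ := ht_nonneg a₁
    positivity
  have hpt : ∀ P : Place K F, Rt P = 0 → P ≠ E₂.vinf →
      |kap E₁ P - (pairPt E₁ Rt P - ((c : ℝ) / E₂.m) * ht (E₂.pt P))| ≤ Cp := by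
    intro P hP hPinf
    have h1 := hC₃ P hPinf
    have h2 := hCG P hP (by rw [hv]; exact hPinf)
    rw [hv] at h2
    have h4 : |hD E₁ E₂.vinf P - ht (E₂.pt P) / E₂.m| ≤ (max C₃ 0 + ht a₁) / E₂.m := by
      have h5 : hD E₁ E₂.vinf P - ht (E₂.pt P) / E₂.m =
          ((E₂.m : ℝ) * hD E₁ E₂.vinf P - ht a₁ - ht (E₂.pt P) + ht a₁) / E₂.m := by
        field_simp
        ring
      rw [h5, abs_div, abs_of_pos hm]
      refine div_le_div_of_nonneg_right ?_ hm.le
      refine (abs_add_le _ _).trans ?_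
      rw [abs_of_nonneg (ht_nonneg a₁)]
      have := le_max_left C₃ 0
      linarith
    have h6 : kap E₁ P - (pairPt E₁ Rt P - ((c : ℝ) / E₂.m) * ht (E₂.pt P)) =
        (kap E₁ P - (pairPt E₁ Rt P - c * hD E₁ E₂.vinf P))
          - c * (hD E₁ E₂.vinf P - ht (E₂.pt P) / E₂.m) := by
      field_simp
      ring
    rw [h6]
    refine (abs_sub _ _).trans ?_
    rw [abs_mul]
    have := le_max_left CG 0
    have h7 : |(c : ℝ)| * |hD E₁ E₂.vinf P - ht (E₂.pt P) / E₂.m| ≤
        |(c : ℝ)| * ((max C₃ 0 + ht a₁) / E₂.m) :=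
      mul_le_mul_of_nonneg_left h4 (abs_nonneg _)
    rw [hCp]
    linarith
  refine ⟨Cp, hCp0, fun D hD hdisj => ?_⟩
  have hsum : kapSum E₁ D - (pair E₁ Rt D - ((c : ℝ) / E₂.m) * naive E₂ D) =
      D.sum fun P n => (n : ℝ) *
        (kap E₁ P - (pairPt E₁ Rt P - ((c : ℝ) / E₂.m) * ht (E₂.pt P))) := by
    have hterm : ∀ P : Place K F, ((D P : ℤ) : ℝ) *
        (kap E₁ P - (pairPt E₁ Rt P - ((c : ℝ) / E₂.m) * ht (E₂.pt P))) =
        (D P : ℝ) * kap E₁ P - ((D P : ℝ) * pairPt E₁ Rt P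
          - ((c : ℝ) / E₂.m) * ((D P : ℝ) * ht (E₂.pt P))) := fun P => by ring
    unfold kapSum pair naive
    simp only [Finsupp.sum, hterm, Finset.sum_sub_distrib, Finset.mul_sum]
  rw [hsum, degree_cast_eq_sum, Finsupp.sum, Finsupp.sum, Finset.mul_sum]
  refine (Finset.abs_sum_le_sum_abs _ _).trans (Finset.sum_le_sum fun P hP => ?_)
  have hP0 : D P ≠ 0 := Finsupp.mem_support_iff.mp hP
  have hnn : (0 : ℝ) ≤ (D P : ℝ) := by
    have := (Finsupp.le_def.mp hD) P
    exact_mod_cast this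
  rw [abs_mul, abs_of_nonneg hnn, mul_comm Cp]
  exact mul_le_mul_of_nonneg_left (hpt P (hdisj P hP0).1 (hdisj P hP0).2) hnn

end Fermat.Agent.S17.H35

end
end
-- ===== PACK-END S17/H35/ContractPkg.lean

-- ===== PACK-BEGIN S17/H980/Mov2.lean
section



/-!
# S17 / tower H, geometric leaf G-MOV2 (helper980)

`E : EmbData ℚ̄ F` with Galois-fixed basis, `∞` invariant.

* `exists_rat_coeff` : a Galois-fixed function in `L(m∞)` has RATIONAL coordinates in the
  basis `E.x`;
* `exists_fixed_of_divOf_eq` : a principal Galois-invariant divisor is the divisor of a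
  Galois-fixed function;
* `exists_form_avoiding` : for an invariant effective `D` with `deg D + 2g ≤ m` and a finite set
  `T` of places there is a non-zero rational form `a` with `Z_a = D + R`, `R ≥ 0` invariant and
  `R(P) = 0` for all `P ∈ T`;
* `exists_common_residual` : **(Mov2)** if moreover `D₁ ∼ D₂` (both effective invariant), there are
  rational forms `a₁, a₂` and ONE residual divisor `R` avoiding `T` with `Z_{a₁} = D₁ + R`,
  `Z_{a₂} = D₂ + R`.
-/

set_option autoImplicit false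

noncomputable section

open AlgebraicCurve

namespace Fermat.Agent.S17.H980

open Fermat.Agent.Lib.RR Fermat.Agent.S17.HWall
open Fermat.Agent.S17.H77 Fermat.Agent.S17.H680 ModularCurve

variable (F₀ : IntermediateField ℚ (LaurentSeries ℚ)) [FF1 Qb (laurentBaseChange Qb F₀)]

/-- the rational coefficient vector, viewed over `ℚ̄` -/
def castQ {n : ℕ} (a : Fin n → ℚ) : Fin n → Qb := fun j => ((a j : ℚ) : Qb)

omit F₀ in
theorem castQ_ne_zero {n : ℕ} {a : Fin n → ℚ} (ha : a ≠ 0) : castQ a ≠ 0 := by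
  intro h
  apply ha
  funext j
  have := congrFun h j
  simpa [castQ] using this

omit [FF1 Qb (laurentBaseChange Qb F₀)] in
theorem lin_castQ {n : ℕ} (x : Fin n → laurentBaseChange Qb F₀) (a : Fin n → ℚ) :
    ∑ j, castQ a j • x j = ∑ j, a j • x j := by
  refine Finset.sum_congr rfl fun j _ => ?_
  unfold castQ
  rw [← algebraMap_smul Qb (a j) (x j), eq_ratCast]

/-- A Galois-fixed function of `L(m∞)` has rational coordinates. -/
theorem exists_rat_coeff (E : EmbData Qb (laurentBaseChange Qb F₀))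
    (hxfix : ∀ i, IsFixed F₀ (E.x i)) (hinf : IsInvariant F₀ (prim E.vinf))
    {f : laurentBaseChange Qb F₀} (hf : f ∈ riemannRochSpace (E.m • prim E.vinf))
    (hfix : IsFixed F₀ f) : ∃ a : Fin (E.r + 1) → ℚ, ∑ j, a j • E.x j = f := by
  have hD₀ : IsInvariant F₀ (E.m • prim E.vinf) := by
    intro σ
    rw [smul_comm, hinf σ]
  have h := span_rat_eq_fixedPart F₀ E.x hxfix E.x_li (E.m • prim E.vinf) hD₀ E.x_span
  have hmem : f ∈ fixedPart F₀ (riemannRochSpace (E.m • prim E.vinf)) := ⟨hf, hfix⟩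
  rw [← h] at hmem
  exact (Submodule.mem_span_range_iff_exists_fun ℚ).mp hmem

/-- A principal invariant divisor is the divisor of a fixed function. -/
theorem exists_fixed_of_divOf_eq {D : Divisor Qb (laurentBaseChange Qb F₀)}
    (hD : IsInvariant F₀ D) (f : laurentBaseChange Qb F₀) (hf : f ≠ 0)
    (hdiv : divOf f hf = D) :
    ∃ (f₀ : laurentBaseChange Qb F₀) (hf₀ : f₀ ≠ 0), IsFixed F₀ f₀ ∧ divOf f₀ hf₀ = D := by
  have hinv : IsInvariant F₀ (-D) := by
    intro σ
    rw [smul_neg, hD σ]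
  have hell : ell (-D) = 1 := by
    have h := ell_add_divOf (-D) f hf
    rw [hdiv, neg_add_cancel, ell_zero] at h
    exact h.symm
  obtain ⟨b, hbL, hbfix, hbli, -, -⟩ := exists_fixed_basis_L F₀ hinv
  have i0 : Fin (ell (-D)) := ⟨0, by omega⟩
  have hb0 : b i0 ≠ 0 := hbli.ne_zero i0
  have hfL : f ∈ riemannRochSpace (-D) := by
    rw [mem_L_iff_nonneg hf, hdiv, neg_add_cancel]
  refine ⟨b i0, hb0, hbfix i0, ?_⟩
  rw [divOf_eq_of_ell_eq_one hell hb0 hf (hbL i0) hfL, hdiv]

/-- The hyperplane section of a rational form is Galois-invariant. -/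
theorem isInvariant_Z (E : EmbData Qb (laurentBaseChange Qb F₀))
    (hxfix : ∀ i, IsFixed F₀ (E.x i)) (hinf : IsInvariant F₀ (prim E.vinf))
    (a : Fin (E.r + 1) → ℚ) : IsInvariant F₀ (E.Z (castQ a)) := by
  intro σ
  by_cases ha : a = 0
  · subst ha
    have h0 : castQ (0 : Fin (E.r + 1) → ℚ) = 0 := by
      funext j; simp [castQ]
    have : E.Z (0 : Fin (E.r + 1) → Qb) = 0 := by
      unfold EmbData.Z hypDiv
      rw [dif_pos (by simp [lin])]
    rw [h0, this, smul_zero]
  · have ha' := castQ_ne_zero ha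
    have hfix : IsFixed F₀ (lin E.x (castQ a)) := by
      intro τ
      unfold lin
      rw [lin_castQ, Finset.smul_sum]
      refine Finset.sum_congr rfl fun j _ => ?_
      rw [← algebraMap_smul Qb (a j) (E.x j), arithmeticGalois_smul_smul, hxfix j τ,
        AlgEquiv.commutes]
    rw [E.Z_eq ha', smul_add, smul_divOf, smul_comm, hinf σ]
    congr 1
    exact (divOf_congr _ (hfix σ))

/-- **Generic rational hyperplane sections through `D`.** -/
theorem exists_form_avoiding (E : EmbData Qb (laurentBaseChange Qb F₀))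
    (hxfix : ∀ i, IsFixed F₀ (E.x i)) (hinf : IsInvariant F₀ (prim E.vinf))
    (D : Divisor Qb (laurentBaseChange Qb F₀)) (hD0 : 0 ≤ D) (hDinv : IsInvariant F₀ D)
    (hdeg : Divisor.degree D + 2 * (genusFF Qb (laurentBaseChange Qb F₀) : ℤ) ≤ E.m)
    (T : Finset (Place Qb (laurentBaseChange Qb F₀))) :
    ∃ (a : Fin (E.r + 1) → ℚ) (R : Divisor Qb (laurentBaseChange Qb F₀)), a ≠ 0 ∧ 0 ≤ R ∧
      IsInvariant F₀ R ∧ E.Z (castQ a) = D + R ∧ ∀ P ∈ T, R P = 0 := by
  classical
  set D₀ : Divisor Qb (laurentBaseChange Qb F₀) := E.m • prim E.vinf with hD₀def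
  have hD₀ : IsInvariant F₀ D₀ := by
    intro σ
    rw [hD₀def, smul_comm, hinf σ]
  have hdegD₀ : Divisor.degree D₀ = E.m := by
    rw [hD₀def, map_nsmul, degree_prim _ (deg_eq_one _)]
    simp
  have hEinv : IsInvariant F₀ (D₀ - D) := by
    intro σ
    rw [smul_sub, hD₀ σ, hDinv σ]
  have hdegD : 0 ≤ Divisor.degree D := degree_nonneg hD0
  -- the space of rational forms through `D`
  set Λ := rationalForms F₀ E.x (D₀ - D) with hΛ
  have hfin : Module.finrank ℚ Λ = ell (D₀ - D) :=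
    finrank_rationalForms F₀ E.x hxfix E.x_li D₀ (D₀ - D) hD₀ hEinv
      (sub_le_self D₀ hD0) E.x_span
  have hell : (ell (D₀ - D) : ℤ) =
      Divisor.degree (D₀ - D) + 1 - (genusFF Qb (laurentBaseChange Qb F₀) : ℤ) :=
    ell_eq_of_degree_gt (by rw [map_sub, hdegD₀]; omega)
  have hpos : 0 < Module.finrank ℚ Λ := by
    rw [hfin]
    rw [map_sub, hdegD₀] at hell
    omega
  -- the subspaces to avoid
  let sub : Place Qb (laurentBaseChange Qb F₀) → Subspace ℚ Λ := fun P =>
    (rationalForms F₀ E.x (D₀ - D - prim P)).comap Λ.subtype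
  have hproper : ∀ P, sub P ≠ ⊤ := by
    intro P htop
    -- then every fixed function of `L(D₀ - D)` lies in `L(D₀ - D - P)`
    obtain ⟨b, hbL, hbfix, -, hbspan, -⟩ := exists_fixed_basis_L F₀ hEinv
    have hb : ∀ i, b i ∈ riemannRochSpace (D₀ - D - prim P) := by
      intro i
      obtain ⟨a, ha⟩ := exists_rat_coeff F₀ E hxfix hinf
        (L_mono (sub_le_self D₀ hD0) (hbL i)) (hbfix i)
      have haΛ : a ∈ Λ := by
        rw [hΛ, mem_rationalForms, ha]
        exact hbL i
      have : (⟨a, haΛ⟩ : Λ) ∈ sub P := by rw [htop]; trivial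
      have h2 : a ∈ rationalForms F₀ E.x (D₀ - D - prim P) := this
      rw [mem_rationalForms, ha] at h2
      exact h2
    have hle : riemannRochSpace (D₀ - D) ≤ riemannRochSpace (D₀ - D - prim P) := by
      rw [← hbspan, Submodule.span_le]
      rintro _ ⟨i, rfl⟩
      exact hb i
    have h1 : ell (D₀ - D) ≤ ell (D₀ - D - prim P) := by
      unfold ell
      exact Submodule.finrank_mono hle
    have hell' : (ell (D₀ - D - prim P) : ℤ) =
        Divisor.degree (D₀ - D - prim P) + 1 - (genusFF Qb (laurentBaseChange Qb F₀) : ℤ) :=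
      ell_eq_of_degree_gt (by
        rw [map_sub, map_sub, hdegD₀, degree_prim _ (deg_eq_one _)]; omega)
    rw [map_sub, map_sub, hdegD₀, degree_prim _ (deg_eq_one _)] at hell'
    rw [map_sub, hdegD₀] at hell
    omega
  have hbot : (⊥ : Subspace ℚ Λ) ≠ ⊤ := by
    intro h
    have := congrArg (fun S : Subspace ℚ Λ => Module.finrank ℚ S) h
    simp only [finrank_bot, finrank_top] at this
    omega
  let s : Finset (Subspace ℚ Λ) := insert ⊥ (T.image sub)
  have hs : (⊤ : Subspace ℚ Λ) ∉ s := by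
    intro h
    rcases Finset.mem_insert.mp h with h | h
    · exact hbot h.symm
    · obtain ⟨P, -, hP⟩ := Finset.mem_image.mp h
      exact hproper P hP
  have hne := Subspace.biUnion_ne_univ_of_top_notMem hs
  obtain ⟨⟨a, haΛ⟩, hanot⟩ : ∃ a : Λ, a ∉ ⋃ p ∈ s, (p : Set Λ) := by
    by_contra hcon
    apply hne
    ext a
    simp only [Set.mem_univ, iff_true]
    by_contra ha
    exact hcon ⟨a, ha⟩
  simp only [Set.mem_iUnion, not_exists] at hanot
  have ha0 : a ≠ 0 := by
    intro h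
    apply hanot ⊥ (Finset.mem_insert_self _ _)
    rw [SetLike.mem_coe, Submodule.mem_bot]
    exact Subtype.ext h
  have haT : ∀ P ∈ T, a ∉ rationalForms F₀ E.x (D₀ - D - prim P) := by
    intro P hP h
    exact hanot (sub P) (Finset.mem_insert_of_mem (Finset.mem_image_of_mem _ hP)) h
  have ha' := castQ_ne_zero ha0
  have hmem : ∑ j, castQ a j • E.x j ∈ riemannRochSpace (D₀ - D) := by
    rw [lin_castQ]
    exact (mem_rationalForms F₀ E.x _ a).mp haΛ
  have hle : D ≤ E.Z (castQ a) := (le_Z_iff_mem_L E D ha').mpr hmem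
  refine ⟨a, E.Z (castQ a) - D, ha0, sub_nonneg.mpr hle, ?_, by abel, ?_⟩
  · intro σ
    rw [smul_sub, isInvariant_Z F₀ E hxfix hinf a σ, hDinv σ]
  · intro P hP
    by_contra hne0
    have hR : (0 : ℤ) ≤ (E.Z (castQ a) - D) P := by
      have := Finsupp.le_def.mp (sub_nonneg.mpr hle) P
      simpa using this
    have hR1 : (1 : ℤ) ≤ (E.Z (castQ a) - D) P := by omega
    apply haT P hP
    rw [mem_rationalForms, ← lin_castQ]
    have hle2 : D + prim P ≤ E.Z (castQ a) := by
      rw [Finsupp.le_def]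
      intro v
      have h1 := Finsupp.le_def.mp hle v
      by_cases hv : v = P
      · subst hv
        simp only [Finsupp.coe_add, Pi.add_apply, prim_apply_self]
        simp only [Finsupp.coe_sub, Pi.sub_apply] at hR1
        omega
      · simp only [Finsupp.coe_add, Pi.add_apply, prim_apply_of_ne hv]
        omega
    have := (le_Z_iff_mem_L E (D + prim P) ha').mp hle2
    rwa [← sub_sub] at this

/-- **(Mov2)**: two linearly equivalent invariant effective divisors are cut out by rational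
hyperplanes with a COMMON residual divisor `R`, which can be chosen to avoid any finite set. -/
theorem exists_common_residual (E : EmbData Qb (laurentBaseChange Qb F₀))
    (hxfix : ∀ i, IsFixed F₀ (E.x i)) (hinf : IsInvariant F₀ (prim E.vinf))
    (D₁ D₂ : Divisor Qb (laurentBaseChange Qb F₀)) (h₁ : 0 ≤ D₁) (h₂ : 0 ≤ D₂)
    (hinv₁ : IsInvariant F₀ D₁) (hinv₂ : IsInvariant F₀ D₂)
    (hdeg : Divisor.degree D₁ + 2 * (genusFF Qb (laurentBaseChange Qb F₀) : ℤ) ≤ E.m)
    (f : laurentBaseChange Qb F₀) (hf : f ≠ 0) (hdiv : divOf f hf = D₁ - D₂)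
    (T : Finset (Place Qb (laurentBaseChange Qb F₀))) :
    ∃ (a₁ a₂ : Fin (E.r + 1) → ℚ) (R : Divisor Qb (laurentBaseChange Qb F₀)),
      a₁ ≠ 0 ∧ a₂ ≠ 0 ∧ 0 ≤ R ∧ IsInvariant F₀ R ∧
      E.Z (castQ a₁) = D₁ + R ∧ E.Z (castQ a₂) = D₂ + R ∧ ∀ P ∈ T, R P = 0 := by
  classical
  obtain ⟨a₁, R, ha₁, hR0, hRinv, hZ₁, hT⟩ :=
    exists_form_avoiding F₀ E hxfix hinf D₁ h₁ hinv₁ hdeg T
  have hinv12 : IsInvariant F₀ (D₁ - D₂) := by
    intro σ
    rw [smul_sub, hinv₁ σ, hinv₂ σ]
  obtain ⟨f₀, hf₀, hf₀fix, hdiv₀⟩ := exists_fixed_of_divOf_eq F₀ hinv12 f hf hdiv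
  have ha₁' := castQ_ne_zero ha₁
  set f₁ := lin E.x (castQ a₁) with hf₁def
  have hf₁ : f₁ ≠ 0 := E.lin_ne_zero ha₁'
  have hf₁fix : IsFixed F₀ f₁ := by
    intro τ
    rw [hf₁def]
    unfold lin
    rw [lin_castQ, Finset.smul_sum]
    refine Finset.sum_congr rfl fun j _ => ?_
    rw [← algebraMap_smul Qb (a₁ j) (E.x j), arithmeticGalois_smul_smul, hxfix j τ,
      AlgEquiv.commutes]
  set f₂ := f₁ * f₀⁻¹ with hf₂def
  have hf₂ : f₂ ≠ 0 := mul_ne_zero hf₁ (inv_ne_zero hf₀)
  have hf₂fix : IsFixed F₀ f₂ := by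
    intro τ
    rw [hf₂def, smul_mul', smul_inv'', hf₁fix τ, hf₀fix τ]
  have hdiv₂ : divOf f₂ hf₂ + E.m • prim E.vinf = D₂ + R := by
    have h1 : divOf (K := Qb) f₂ hf₂ = divOf f₁ hf₁ - divOf f₀ hf₀ := by
      rw [divOf_congr hf₂ hf₂def, divOf_mul f₁ f₀⁻¹ hf₁ (inv_ne_zero hf₀), divOf_inv f₀ hf₀,
        sub_eq_add_neg]
    have h2 : divOf f₁ hf₁ + E.m • prim E.vinf = D₁ + R := by
      rw [← hZ₁, E.Z_eq ha₁']
    rw [h1, hdiv₀]
    have h3 : divOf (K := Qb) f₁ hf₁ = D₁ + R - E.m • prim E.vinf := by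
      rw [← h2]; abel
    rw [h3]
    abel
  have hf₂L : f₂ ∈ riemannRochSpace (E.m • prim E.vinf) := by
    rw [mem_L_iff_nonneg hf₂, add_comm, hdiv₂]
    exact add_nonneg h₂ hR0
  obtain ⟨a₂, ha₂⟩ := exists_rat_coeff F₀ E hxfix hinf hf₂L hf₂fix
  have ha₂0 : a₂ ≠ 0 := by
    rintro rfl
    apply hf₂
    rw [← ha₂]
    simp
  have ha₂' := castQ_ne_zero ha₂0
  have hlin₂ : lin E.x (castQ a₂) = f₂ := by
    unfold lin
    rw [lin_castQ, ha₂]
  refine ⟨a₁, a₂, R, ha₁, ha₂0, hR0, hRinv, hZ₁, ?_, hT⟩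
  rw [E.Z_eq ha₂', divOf_congr (E.lin_ne_zero ha₂') hlin₂]
  exact hdiv₂

end Fermat.Agent.S17.H980

end
end
-- ===== PACK-END S17/H980/Mov2.lean

-- ===== PACK-BEGIN S17/H920/BertiniLocal.lean
section


/-!
# S17 / tower H, leaf BERTINI (helper920), local part

`F'/F` a finite extension of function fields over an algebraically closed field `K`
(characteristic zero), all places of `F'` of degree one, `v` a place of `F` of degree one.
If `g ∈ F'` is regular at all places over `v` and its characteristic polynomial `χ` over `F`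
has a separability certificate `a χ + b χ' = 1` with `a, b ∈ O_v[X]`, then every place over `v`
is unramified.  (Reduction of the certificate modulo `𝔪_v` + the fibre formula
`χ mod 𝔪_v = ∏_{w | v} (X - g(w)) ^ e(w | v)` of helper100.)
-/

set_option autoImplicit false
set_option linter.unusedSectionVars false
set_option linter.style.haveILetI false

open AlgebraicCurve Polynomial
open Fermat.Agent.Lib.FF398 Fermat.Agent.S37.H100

namespace Fermat.Agent.S17.H920

variable {K F F' : Type*} [Field K] [Field F] [Field F'] [Algebra K F] [Algebra K F']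
  [Algebra F F'] [IsScalarTower K F F'] [FiniteDimensional F F'] [CharZero F]

/-- A polynomial over `F` with coefficients in `O_v` is the image of a polynomial over `O_v`. -/
theorem exists_map_eq_of_coeff_mem (v : Place K F) (a : F[X])
    (ha : ∀ i, a.coeff i ∈ v.toValuationSubring) :
    ∃ A : (v.toValuationSubring)[X], A.map (algebraMap v.toValuationSubring F) = a := by
  have h : a ∈ Polynomial.lifts (algebraMap v.toValuationSubring F) := by
    rw [Polynomial.lifts_iff_coeff_lifts]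
    intro n
    exact ⟨⟨a.coeff n, ha n⟩, rfl⟩
  obtain ⟨A, hA⟩ := (Polynomial.mem_lifts a).1 h
  exact ⟨A, hA⟩

/-- A separable polynomial is not divisible by the square of `X - C c`. -/
theorem not_sq_dvd_of_separable {k : Type*} [Field k] {p : k[X]} (hp : p.Separable) (c : k) :
    ¬ (X - C c) ^ 2 ∣ p := by
  intro h
  have h1 := hp.squarefree (X - C c) (by rwa [← pow_two])
  exact Polynomial.not_isUnit_X_sub_C c h1

/-- **Local Bertini.**  A separability certificate with coefficients in `O_v` for the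
characteristic polynomial of an element regular over `v` forces all places over `v` to be
unramified. -/
theorem ramificationIndex_eq_one_of_cert [IsAlgClosed K] (v : Place K F) (hv : v.deg = 1)
    (hdeg' : ∀ w : Place K F', w.deg = 1)
    (g : F') (hg : ∀ w : Place K F', w.restrict F = v → 0 ≤ w.ord g)
    (a b : F[X])
    (hab : a * (LinearMap.mulLeft F g).charpoly +
      b * derivative (LinearMap.mulLeft F g).charpoly = 1)
    (ha : ∀ i, a.coeff i ∈ v.toValuationSubring) (hb : ∀ i, b.coeff i ∈ v.toValuationSubring)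
    (w : Place K F') (hw : w.restrict F = v) : w.ramificationIndex F = 1 := by
  classical
  set s : Finset (Place K F') := (finite_fibre (F' := F') v).toFinset with hs_def
  have hs : ∀ w : Place K F', w ∈ s ↔ w.restrict F = v := by
    intro w
    rw [hs_def, Set.Finite.mem_toFinset]
    rfl
  -- the values of `g` at the places over `v`
  let aval : Place K F' → K := fun w =>
    if h : 0 ≤ w.ord g then
      evPlace w (hdeg' w) ⟨g, Fermat.Agent.Lib.RR.mem_of_ord_nonneg w h⟩
    else 0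
  have haval : ∀ w ∈ s, (g - algebraMap K F' (aval w) = 0 ∨
      0 < w.ord (g - algebraMap K F' (aval w))) := by
    intro w hw
    have h0 : 0 ≤ w.ord g := hg w ((hs w).1 hw)
    have h1 := sub_algebraMap_evPlace_mem w (hdeg' w)
      ⟨g, Fermat.Agent.Lib.RR.mem_of_ord_nonneg w h0⟩
    rw [Fermat.Agent.Lib.RR.mem_maximalIdeal_iff] at h1
    simp only [aval, dif_pos h0]
    exact h1
  obtain ⟨P, -, hP1, hP2⟩ := fibre_charpoly v hv hdeg' s hs g aval haval
  obtain ⟨A, hA⟩ := exists_map_eq_of_coeff_mem v a ha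
  obtain ⟨B, hB⟩ := exists_map_eq_of_coeff_mem v b hb
  have hinj : Function.Injective (algebraMap v.toValuationSubring F) :=
    fun x y h => Subtype.ext h
  have hcert : A * P + B * derivative P = 1 := by
    apply Polynomial.map_injective _ hinj
    rw [Polynomial.map_add, Polynomial.map_mul, Polynomial.map_mul, ← Polynomial.derivative_map,
      hA, hB, hP1, Polynomial.map_one]
    exact hab
  have hsep : (P.map (evPlace v hv)).Separable := by
    refine ⟨A.map (evPlace v hv), B.map (evPlace v hv), ?_⟩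
    rw [Polynomial.derivative_map, ← Polynomial.map_mul, ← Polynomial.map_mul,
      ← Polynomial.map_add, hcert, Polynomial.map_one]
  rw [hP2] at hsep
  have hpos : 0 < w.ramificationIndex F := w.ramificationIndex_pos (F := F)
  by_contra hne
  have h2 : 2 ≤ w.ramificationIndex F := by omega
  have hwmem : w ∈ s := (hs w).2 hw
  apply not_sq_dvd_of_separable hsep (aval w)
  refine Dvd.dvd.trans (pow_dvd_pow _ h2) ?_
  exact Finset.dvd_prod_of_mem (fun w => (X - C (aval w)) ^ w.ramificationIndex F) hwmem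

end Fermat.Agent.S17.H920

end
-- ===== PACK-END S17/H920/BertiniLocal.lean

-- ===== PACK-BEGIN S17/H920/Bertini.lean
section




/-!
# S17 / tower H, leaf BERTINI (helper920): finitely many branch values

`K` algebraically closed of characteristic zero, `F` a function field of one variable over `K`
(finite over `K(j)` for some transcendental `j`).  For every non-constant `φ ∈ F` the set of
branch values

  `{c : K | ∃ P, 2 ≤ ord_P (φ - c)}`

is finite (`finite_branch_values`).  Pencil form (`finite_pencil_nonreduced`): for `f₁ ≠ 0` and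
`f₂ / f₁` non-constant, only finitely many members `f₂ - c f₁` of the pencil vanish to order
`≥ 2` (relative to the base locus `min (ord f₁) (ord f₂)`) somewhere.

Proof: `F = K(φ)(g)` with `g` a primitive element, `χ` its minimal (= characteristic)
polynomial over `K(φ)`, separable: `a χ + b χ' = 1`.  Outside the finitely many values of `φ` at
the poles of `g` and of the coefficients of `a`, `b`, the certificate reduces modulo the place
`φ = c` of `K(φ)`, so the fibre is unramified (`BertiniLocal`), and `φ - c` is a uniformizer at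
the place `φ = c` of `K(φ)`.
-/

set_option autoImplicit false
set_option linter.unusedSectionVars false
set_option linter.style.haveILetI false

open AlgebraicCurve Polynomial IntermediateField

namespace Fermat.Agent.S17.H920

variable {K F : Type*} [Field K] [Field F] [Algebra K F]

/-- A place sees at most one value of a function. -/
theorem value_unique (w : Place K F) (t : F) {c c' : K}
    (h : 0 < w.ord (t - algebraMap K F c)) (h' : 0 < w.ord (t - algebraMap K F c')) :
    c = c' := by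
  by_contra hne
  have h1 : (t - algebraMap K F c') + -(t - algebraMap K F c) = algebraMap K F (c - c') := by
    rw [map_sub]; ring
  have h2 := Fermat.Agent.Lib.RR.ord_add_of_le w (n := 1) (f := t - algebraMap K F c')
    (g := -(t - algebraMap K F c)) (Or.inr (by omega))
    (Or.inr (by rw [Fermat.Agent.Lib.RR.ord_neg]; omega))
  rw [h1] at h2
  rcases h2 with h2 | h2
  · exact hne (sub_eq_zero.mp ((map_eq_zero (algebraMap K F)).mp h2))
  · rw [Fermat.Agent.Lib.RR.ord_algebraMap] at h2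
    omega

/-- **BERTINI, coordinate form.**  If `F` is finite over `K(t)`, then `t` has finitely many
branch values. -/
theorem finite_branch_values_gen [IsAlgClosed K] [CharZero K] {t : F}
    (ht : Transcendental K t) [FiniteDimensional K⟮t⟯ F] :
    {c : K | ∃ P : Place K F, 2 ≤ P.ord (t - algebraMap K F c)}.Finite := by
  classical
  haveI : CharZero K⟮t⟯ := charZero_of_injective_algebraMap (algebraMap K K⟮t⟯).injective
  haveI : Algebra.IsSeparable K⟮t⟯ F := inferInstance
  let pb := Field.powerBasisOfFiniteOfSeparable K⟮t⟯ F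
  set g : F := pb.gen with hg_def
  have hχ : (LinearMap.mulLeft K⟮t⟯ g).charpoly = minpoly K⟮t⟯ g := by
    rw [← charpoly_leftMulMatrix pb, Algebra.leftMulMatrix_apply, LinearMap.charpoly_toMatrix]
    rfl
  have hsep : (LinearMap.mulLeft K⟮t⟯ g).charpoly.Separable := by
    rw [hχ]
    exact Algebra.IsSeparable.isSeparable K⟮t⟯ g
  obtain ⟨a, b, hab⟩ := hsep
  -- the bad places
  have hfin : ∀ f : F, {w : Place K F | w.ord f ≠ 0}.Finite :=
    fun f => Fermat.Agent.Lib.FF.finite_setOf_ord_ne_zero' t ht f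
  set W : Set (Place K F) := ({w | w.ord g ≠ 0} ∪
      (⋃ i ∈ a.support, {w | w.ord (algebraMap K⟮t⟯ F (a.coeff i)) ≠ 0})) ∪
      (⋃ i ∈ b.support, {w | w.ord (algebraMap K⟮t⟯ F (b.coeff i)) ≠ 0}) with hW
  have hWfin : W.Finite := by
    refine Set.Finite.union (Set.Finite.union (hfin g) ?_) ?_
    · exact Set.Finite.biUnion a.support.finite_toSet (fun i _ => hfin _)
    · exact Set.Finite.biUnion b.support.finite_toSet (fun i _ => hfin _)
  have hBfin : (⋃ w ∈ W, {c : K | 0 < w.ord (t - algebraMap K F c)}).Finite := by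
    refine Set.Finite.biUnion hWfin (fun w _ => Set.Subsingleton.finite ?_)
    intro c hc c' hc'
    exact value_unique w t hc hc'
  refine hBfin.subset ?_
  rintro c ⟨w, hw⟩
  by_contra hcB
  have hnotW : ∀ w' : Place K F, 0 < w'.ord (t - algebraMap K F c) → w' ∉ W := by
    intro w' hw' hmem
    apply hcB
    simp only [Set.mem_iUnion, Set.mem_ofPred_eq]
    exact ⟨w', hmem, hw'⟩
  have hdeg : ∀ w : Place K F, w.deg = 1 := fun w => Fermat.Agent.S24.FF.deg_eq_one w ht
  set v := w.restrict K⟮t⟯ with hv_def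
  have hv : v.deg = 1 := Fermat.Agent.Lib.FF398.deg_restrict_eq_one hdeg w
  have hwpos : 0 < w.ord (t - algebraMap K F c) := by omega
  have hvpos : 0 < v.ord (AdjoinSimple.gen K t - algebraMap K K⟮t⟯ c) :=
    (Fermat.Agent.S37.Red.H160.ord_restrict_gen_sub_pos_iff w c).mpr hwpos
  have hfib : ∀ w' : Place K F, w'.restrict K⟮t⟯ = v → w' ∉ W := by
    intro w' hw'
    apply hnotW
    rw [← Fermat.Agent.S37.Red.H160.ord_restrict_gen_sub_pos_iff, hw']
    exact hvpos
  have hWg : ∀ w' : Place K F, w' ∉ W → w'.ord g = 0 := by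
    intro w' hw'
    by_contra h
    exact hw' (Or.inl (Or.inl h))
  have hWa : ∀ w' : Place K F, w' ∉ W → ∀ i, w'.ord (algebraMap K⟮t⟯ F (a.coeff i)) = 0 := by
    intro w' hw' i
    by_contra h
    apply hw'
    refine Or.inl (Or.inr ?_)
    simp only [Set.mem_iUnion, Set.mem_ofPred_eq]
    refine ⟨i, ?_, h⟩
    rw [Polynomial.mem_support_iff]
    intro h0
    rw [h0, map_zero, w'.ord_zero] at h
    exact h rfl
  have hWb : ∀ w' : Place K F, w' ∉ W → ∀ i, w'.ord (algebraMap K⟮t⟯ F (b.coeff i)) = 0 := by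
    intro w' hw' i
    by_contra h
    apply hw'
    refine Or.inr ?_
    simp only [Set.mem_iUnion, Set.mem_ofPred_eq]
    refine ⟨i, ?_, h⟩
    rw [Polynomial.mem_support_iff]
    intro h0
    rw [h0, map_zero, w'.ord_zero] at h
    exact h rfl
  have hwW : w ∉ W := hfib w rfl
  have he : w.ramificationIndex K⟮t⟯ = 1 := by
    refine ramificationIndex_eq_one_of_cert v hv hdeg g ?_ a b hab ?_ ?_ w rfl
    · intro w' hw'
      rw [hWg w' (hfib w' hw')]
    · intro i
      show a.coeff i ∈ (w.restrict K⟮t⟯).toValuationSubring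
      rw [Place.restrict, ValuationSubring.mem_comap]
      exact Fermat.Agent.Lib.RR.mem_of_ord_nonneg w (hWa w hwW i).ge
    · intro i
      show b.coeff i ∈ (w.restrict K⟮t⟯).toValuationSubring
      rw [Place.restrict, ValuationSubring.mem_comap]
      exact Fermat.Agent.Lib.RR.mem_of_ord_nonneg w (hWb w hwW i).ge
  have h1 := w.ord_restrict (F := K⟮t⟯) (AdjoinSimple.gen K t - algebraMap K K⟮t⟯ c)
  rw [Fermat.Agent.S37.Red.H160.coe_gen_sub, he,
    Fermat.Agent.S37.Red.H160.ord_gen_sub_eq_one v c ht hvpos] at h1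
  rw [h1] at hw
  norm_num at hw

/-- **BERTINI.**  A non-constant function on a curve over an algebraically closed field of
characteristic zero has only finitely many branch values. -/
theorem finite_branch_values [IsAlgClosed K] [CharZero K] (j : F) (hj : Transcendental K j)
    [FiniteDimensional K⟮j⟯ F] (φ : F) (hφ : Transcendental K φ) :
    {c : K | ∃ P : Place K F, 2 ≤ P.ord (φ - algebraMap K F c)}.Finite := by
  haveI : FiniteDimensional K⟮φ⟯ F :=
    Fermat.Agent.S24.FF.finiteDimensional_adjoin_of_transcendental hj hφ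
  exact finite_branch_values_gen hφ

end Fermat.Agent.S17.H920

end
-- ===== PACK-END S17/H920/Bertini.lean

-- ===== PACK-BEGIN S17/H980/PluckerStep.lean
section



/-!
# S17 / tower H, WALL leaf A10 (PLUCKER / LAPLACE) (helper980)

`ω = y₀ ∧ … ∧ y_{d-1}`.  The coordinates of `ω ∧ z` are linear forms `laplaceW y e` in `z`
(Laplace expansion along the last row), which vanish at the `yᵢ` and are fixed integer
combinations of the coordinates of `ω`; hence `ht W ≤ ht (plucker y) + C(n, d)`.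

* `dot_laplaceW` : `⟨laplaceW y e, z⟩ = plucker (Fin.snoc y z) e`;
* `dot_laplaceW_self` : `⟨laplaceW y e, y i⟩ = 0`;
* `pluckerStep` : the statement `Wall.PluckerStepStatement K` of `S17/H710/Wall/Defs.lean`
  (in unfolded form), for a field `K` of characteristic zero which is algebraic over `ℚ`.
-/

set_option autoImplicit false

noncomputable section

namespace Fermat.Agent.S17.H980

open Fermat.Agent.S17.HWall Fermat.Agent.S17.HContract

section Laplace

variable {K : Type*} [Field K] {n d : ℕ}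

/-- the embedding `e ∘ c.succAbove` (drop the column `c`) -/
def dropEmb (e : Fin (d + 1) ↪ Fin n) (c : Fin (d + 1)) : Fin d ↪ Fin n :=
  ⟨fun j => e (c.succAbove j), fun _ _ h => Fin.succAbove_right_injective (e.injective h)⟩

@[simp] theorem dropEmb_apply (e : Fin (d + 1) ↪ Fin n) (c : Fin (d + 1)) (j : Fin d) :
    dropEmb e c j = e (c.succAbove j) := rfl

/-- the integer matrix of the Laplace expansion -/
def laplaceM (K : Type*) [Field K] (n d : ℕ) :
    ((Fin (d + 1) ↪ Fin n) × Fin n) × (Fin d ↪ Fin n) → K :=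
  fun q => ∑ c : Fin (d + 1),
    if q.1.1 c = q.1.2 ∧ dropEmb q.1.1 c = q.2 then (-1 : K) ^ (d + (c : ℕ)) else 0

/-- the Laplace coefficient vector: `⟨laplaceW y e, z⟩ = (y₀ ∧ … ∧ y_{d-1} ∧ z)_e` -/
def laplaceW (y : Fin d → Fin n → K) (e : Fin (d + 1) ↪ Fin n) : Fin n → K :=
  fun j => ∑ c : Fin (d + 1),
    if e c = j then (-1 : K) ^ (d + (c : ℕ)) * plucker y (dropEmb e c) else 0

theorem laplaceW_eq_sum (y : Fin d → Fin n → K) (e : Fin (d + 1) ↪ Fin n) (j : Fin n) :
    laplaceW y e j = ∑ e' : Fin d ↪ Fin n, laplaceM K n d ((e, j), e') * plucker y e' := by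
  classical
  unfold laplaceW laplaceM
  simp only [Finset.sum_mul]
  rw [Finset.sum_comm]
  refine Finset.sum_congr rfl fun c _ => ?_
  by_cases h : e c = j
  · rw [if_pos h]
    rw [Finset.sum_eq_single (dropEmb e c)]
    · rw [if_pos ⟨h, rfl⟩]
    · intro e' _ hne
      rw [if_neg (fun hh => hne hh.2.symm), zero_mul]
    · intro hh
      exact absurd (Finset.mem_univ _) hh
  · rw [if_neg h]
    symm
    apply Finset.sum_eq_zero
    intro e' _
    rw [if_neg (fun hh => h hh.1), zero_mul]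

theorem dot_laplaceW (y : Fin d → Fin n → K) (z : Fin n → K) (e : Fin (d + 1) ↪ Fin n) :
    dot (laplaceW y e) z = plucker (Fin.snoc y z : Fin (d + 1) → Fin n → K) e := by
  classical
  have hL : dot (laplaceW y e) z =
      ∑ c : Fin (d + 1), (-1 : K) ^ (d + (c : ℕ)) * plucker y (dropEmb e c) * z (e c) := by
    unfold laplaceW
    show ∑ j, (∑ c : Fin (d + 1), if e c = j then _ else 0) * z j = _
    simp only [Finset.sum_mul]
    rw [Finset.sum_comm]
    refine Finset.sum_congr rfl fun c _ => ?_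
    rw [Finset.sum_eq_single (e c)]
    · rw [if_pos rfl]
    · intro j _ hne
      rw [if_neg (fun hh => hne hh.symm), zero_mul]
    · intro hh
      exact absurd (Finset.mem_univ _) hh
  rw [hL]
  unfold plucker
  rw [Matrix.det_succ_row _ (Fin.last d)]
  refine Finset.sum_congr rfl fun c _ => ?_
  have h1 : (Matrix.of fun i j => (Fin.snoc y z : Fin (d + 1) → Fin n → K) i (e j))
      (Fin.last d) c = z (e c) := by
    simp [Matrix.of_apply]
  have h2 : (Matrix.of fun i j => (Fin.snoc y z : Fin (d + 1) → Fin n → K) i (e j)).submatrix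
      (Fin.last d).succAbove c.succAbove = Matrix.of fun i j => y i (dropEmb e c j) := by
    ext i j
    simp [Matrix.submatrix_apply, Matrix.of_apply, Fin.succAbove_last]
  rw [h1, h2]
  simp only [Fin.val_last]
  ring

theorem dot_laplaceW_self (y : Fin d → Fin n → K) (e : Fin (d + 1) ↪ Fin n) (i : Fin d) :
    dot (laplaceW y e) (y i) = 0 := by
  rw [dot_laplaceW]
  unfold plucker
  apply Matrix.det_zero_of_row_eq (i := i.castSucc) (j := Fin.last d)
  · exact (Fin.castSucc_lt_last i).ne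
  · funext j
    simp [Matrix.of_apply]

end Laplace

section Height

variable (K : Type*) [Field K] [CharZero K]

/-- **A10** (`Wall.PluckerStepStatement K`, unfolded). -/
theorem pluckerStep (hK : ∀ a : K, IsIntegral ℚ a) (n d : ℕ) :
    ∃ C : ℝ, ∀ (y : Fin d → Fin n → K),
      ∃ W : (Fin (d + 1) ↪ Fin n) → Fin n → K,
        (∀ e i, dot (W e) (y i) = 0) ∧
        (∀ (z : Fin n → K) e,
          dot (W e) z = plucker (Fin.snoc y z : Fin (d + 1) → Fin n → K) e) ∧
        ht (fun q : (Fin (d + 1) ↪ Fin n) × Fin n => W q.1 q.2) ≤ ht (plucker y) + C := by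
  classical
  refine ⟨Real.log (Nat.card (Fin d ↪ Fin n)) + ht (laplaceM K n d), fun y => ?_⟩
  refine ⟨laplaceW y, fun e i => dot_laplaceW_self y e i, fun z e => dot_laplaceW y z e, ?_⟩
  have h := H380.absLogHeight_linearMap_apply_le (laplaceM K n d) (plucker y)
    (fun a => hK _) (fun i => hK _)
  have heq : (fun q : (Fin (d + 1) ↪ Fin n) × Fin n => laplaceW y q.1 q.2) =
      fun q => ∑ e' : Fin d ↪ Fin n, laplaceM K n d (q, e') * plucker y e' := by
    funext q
    exact laplaceW_eq_sum y q.1 q.2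
  unfold ht
  rw [heq]
  linarith

end Height

end Fermat.Agent.S17.H980

end
end
-- ===== PACK-END S17/H980/PluckerStep.lean

-- ===== PACK-BEGIN S29/H509/KummerFun.lean
section



/-!
# The Kummer function of a character (helper509, S29 piece K1-full)

For `Γ ≤ SL(2, ℤ)` and a unitary character `χ : Γ →* ℂˣ` trivial on the stabiliser of `∞`:
`kumH χ τ = twEis χ 12 τ / Δ τ` is holomorphic on `ℍ`, nonzero, satisfies
`kumH χ (γ • τ) = χ γ * kumH χ τ` for `γ ∈ Γ`, and all its `SL(2, ℤ)`-translates have at most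
exponential growth at `i∞`.  If `χ ^ p = 1` and `Γ = Γ₀(N)`, then `kumH χ ^ p` lies in helper648's
`goodRing N` (so, by helper882's MERO, its `q`-expansion lies in the function field over `ℂ`).
-/

set_option autoImplicit false

namespace Fermat.Agent.S29.H509

open ModularForm UpperHalfPlane Matrix CongruenceSubgroup EisensteinSeries Filter Topology
open scoped MatrixGroups Manifold Real

open Fermat.Agent.S24.H648 (goodRing ExpGrowth)

noncomputable section

local notation "Δ" => ModularForm.discriminant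

/-- A uniform bound for weighted Eisenstein sums on `im z ≥ 1`. -/
theorem exists_bound_wEis {k : ℤ} (hk : 3 ≤ k) :
    ∃ M : ℝ, ∀ (w : (Fin 2 → ℤ) → ℂ), (∀ v, ‖w v‖ ≤ 1) → ∀ z : ℍ, 1 ≤ z.im →
      ‖wEis w k z‖ ≤ M := by
  refine ⟨∑' x : Fin 2 → ℤ, r ⟨⟨1, 1⟩, one_pos⟩ ^ (-k) * ‖x‖ ^ (-k), fun w hw z hz => ?_⟩
  obtain ⟨n, hn⟩ := ModularGroup_T_zpow_mem_verticalStrip z (N := 1) one_pos
  refine (norm_wEis_le_eisMaj hw hk z).trans ?_
  rw [← eisMaj_T_zpow_smul k ((1 : ℕ) * n) z]
  refine eisMaj_le_of_mem_verticalStrip hk one_pos ?_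
  exact verticalStrip_anti_right _ hz (by simpa using hn)

variable {Γ : Subgroup SL(2, ℤ)}

/-- A uniform bound for all `SL(2, ℤ)`-translates of the twisted Eisenstein series on
`im z ≥ 1`. -/
theorem exists_bound_twEis_slash {χ : Γ →* ℂˣ} (hnorm : ∀ γ, ‖(χ γ : ℂ)‖ = 1) {k : ℤ}
    (hk : 3 ≤ k) : ∃ M : ℝ, ∀ (g : SL(2, ℤ)) (z : ℍ), 1 ≤ z.im →
      ‖(twEis χ k ∣[k] g) z‖ ≤ M := by
  obtain ⟨M, hM⟩ := exists_bound_wEis hk
  refine ⟨M, fun g z hz => ?_⟩
  unfold twEis
  rw [wEis_slash]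
  exact hM _ (fun v => norm_chiWeight_le hnorm _) z hz

/-- The Kummer function `E^χ₁₂ / Δ` of a character `χ`. -/
def kumH (χ : Γ →* ℂˣ) : ℍ → ℂ := fun τ => twEis χ 12 τ * (Δ τ)⁻¹

lemma kumH_apply (χ : Γ →* ℂˣ) (τ : ℍ) : kumH χ τ = twEis χ 12 τ * (Δ τ)⁻¹ := rfl

theorem kumH_mdifferentiable {χ : Γ →* ℂˣ} (hnorm : ∀ γ, ‖(χ γ : ℂ)‖ = 1) :
    MDiff (kumH χ) := by
  have h1 : MDiff (twEis χ 12) := twEis_mdifferentiable hnorm (by norm_num)
  have h2 := h1.div Fermat.Agent.S28.H565.mdifferentiable_discriminant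
    ModularForm.discriminant_ne_zero
  have h3 : kumH χ = twEis χ 12 / Δ := by
    funext τ
    simp only [kumH_apply, Pi.div_apply, div_eq_mul_inv]
  rw [h3]
  exact h2

lemma denom_SL_eq (g : SL(2, ℤ)) (τ : ℍ) :
    denom (g : SL(2, ℤ)) τ = ((g 1 0 : ℤ) : ℂ) * τ + ((g 1 1 : ℤ) : ℂ) := by
  simp [UpperHalfPlane.denom]

/-- Translates of the Kummer function by `SL(2, ℤ)`. -/
theorem kumH_smul_SL (χ : Γ →* ℂˣ) (g : SL(2, ℤ)) (τ : ℍ) :
    kumH χ (g • τ) = (twEis χ 12 ∣[(12 : ℤ)] g) τ * (Δ τ)⁻¹ := by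
  have hd : denom (g : SL(2, ℤ)) τ ≠ 0 := denom_ne_zero _ τ
  rw [kumH_apply, SL_slash_apply, Fermat.Agent.S28.H565.discriminant_smul, ← denom_SL_eq,
    mul_inv, _root_.zpow_neg]
  ring

/-- The Kummer function transforms under `Γ` by the character `χ`. -/
theorem kumH_smul {χ : Γ →* ℂˣ} (hχ : TrivOnUnip χ) (γ : Γ) (τ : ℍ) :
    kumH χ ((γ : SL(2, ℤ)) • τ) = (χ γ : ℂ) * kumH χ τ := by
  rw [kumH_smul_SL, twEis_slash hχ, Pi.smul_apply, smul_eq_mul, kumH_apply, mul_assoc]

/-- All translates of the Kummer function have at most exponential growth at `i∞`. -/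
theorem kumH_expGrowth {χ : Γ →* ℂˣ} (hnorm : ∀ γ, ‖(χ γ : ℂ)‖ = 1) (g : SL(2, ℤ)) :
    ExpGrowth (fun τ => kumH χ (g • τ)) := by
  obtain ⟨M, hM⟩ := exists_bound_twEis_slash (χ := χ) hnorm (k := 12) (by norm_num)
  obtain ⟨C, hC⟩ := Fermat.Agent.S28.H589.exists_inv_discriminant_bound
  have hM0 : 0 ≤ M := (norm_nonneg _).trans (hM 1 UpperHalfPlane.I (by simp))
  refine ⟨M * C, 1, fun τ hτ => ?_⟩
  show ‖kumH χ (g • τ)‖ ≤ _
  rw [kumH_smul_SL, norm_mul]
  calc ‖(twEis χ 12 ∣[(12 : ℤ)] g) τ‖ * ‖(Δ τ)⁻¹‖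
      ≤ M * (C * Real.exp (2 * π * τ.im)) :=
        mul_le_mul (hM g τ hτ) (hC τ hτ) (norm_nonneg _) hM0
    _ = M * C * Real.exp (2 * π * (1 : ℕ) * τ.im) := by
        simp only [Nat.cast_one, mul_one]
        ring

/-- The Kummer function is not identically zero. -/
theorem kumH_ne_zero {χ : Γ →* ℂˣ} (hnorm : ∀ γ, ‖(χ γ : ℂ)‖ = 1) (hχ : TrivOnStabInfty χ) :
    kumH χ ≠ 0 := by
  intro h0
  apply twEis_ne_zero hnorm hχ (k := 12) (by norm_num) (by decide)
  funext τ
  have h1 : kumH χ τ = 0 := by rw [h0]; rfl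
  rw [kumH_apply] at h1
  rcases mul_eq_zero.mp h1 with h | h
  · exact h
  · exact absurd (inv_eq_zero.mp h) (ModularForm.discriminant_ne_zero τ)

/-- The `p`-th power of the Kummer function of a character of order dividing `p` is a good
function for `Γ₀(N)`: holomorphic, `Γ₀(N)`-invariant, all translates of exponential growth. -/
theorem kumH_pow_mem_goodRing {N : ℕ} {χ : Gamma0 N →* ℂˣ} (hχ : TrivOnUnip χ) {p : ℕ}
    (hp : p ≠ 0) (hχp : ∀ γ, χ γ ^ p = 1) : kumH χ ^ p ∈ goodRing N := by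
  have hnorm : ∀ γ, ‖(χ γ : ℂ)‖ = 1 := fun γ => norm_eq_one_of_pow_eq_one' hp (hχp γ)
  refine ⟨(kumH_mdifferentiable hnorm).pow p, fun γ hγ τ => ?_, fun g => ?_⟩
  · have h := kumH_smul hχ ⟨γ, hγ⟩ τ
    simp only [Pi.pow_apply]
    change kumH χ (γ • τ) = _ at h
    rw [h, mul_pow]
    have h1 : (χ ⟨γ, hγ⟩ : ℂ) ^ p = 1 := by
      have := congrArg (fun x : ℂˣ => (x : ℂ)) (hχp ⟨γ, hγ⟩)
      simpa using this
    rw [h1, one_mul]
  · have h := kumH_expGrowth (χ := χ) hnorm g
    have hpow : ∀ n : ℕ, ExpGrowth (fun τ => kumH χ (g • τ) ^ n) := by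
      intro n
      induction n with
      | zero =>
        simp only [pow_zero]
        exact Fermat.Agent.S24.H648.expGrowth_const 1
      | succ n ih =>
        have h2 := ih.mul h
        have h3 : ((fun τ => kumH χ (g • τ) ^ n) * fun τ => kumH χ (g • τ))
            = fun τ => kumH χ (g • τ) ^ (n + 1) := by
          funext τ
          simp only [Pi.mul_apply, pow_succ]
        rwa [h3] at h2
    exact hpow p

end

end Fermat.Agent.S29.H509

end
-- ===== PACK-END S29/H509/KummerFun.lean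

-- ===== PACK-BEGIN S29/H509/KummerHom.lean
section


/-!
# The Kummer function of an additive character `Γ₀(N) → ℤ/p` (helper509, S29 piece K1-full)

`chiOfHom c γ = exp (2πi c(γ) / p)` turns `c : Additive Γ →+ ZMod p` into a character
`Γ →* ℂˣ`; `exists_kummerFun_of_hom` is the packaged statement for consumers (DICT / DESC / NORM).
-/

set_option autoImplicit false

namespace Fermat.Agent.S29.H509

open ModularForm UpperHalfPlane Matrix CongruenceSubgroup EisensteinSeries Filter Topology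
open scoped MatrixGroups Manifold Real

open Fermat.Agent.S24.H648 (goodRing ExpGrowth)

noncomputable section

variable {Γ : Subgroup SL(2, ℤ)} {p : ℕ} [NeZero p]

/-- The character `γ ↦ exp (2πi c(γ) / p)` attached to `c : Γ → ℤ/p`. -/
def chiOfHom (c : Additive Γ →+ ZMod p) : Γ →* ℂˣ :=
  MonoidHom.toHomUnits
    { toFun := fun γ => ZMod.stdAddChar (N := p) (c (Additive.ofMul γ))
      map_one' := by simp
      map_mul' := fun a b => by
        rw [ofMul_mul, map_add, AddChar.map_add_eq_mul] }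

@[simp] lemma chiOfHom_apply (c : Additive Γ →+ ZMod p) (γ : Γ) :
    ((chiOfHom c γ : ℂˣ) : ℂ) = ZMod.stdAddChar (N := p) (c (Additive.ofMul γ)) := rfl

lemma chiOfHom_eq_one_iff (c : Additive Γ →+ ZMod p) (γ : Γ) :
    chiOfHom c γ = 1 ↔ c (Additive.ofMul γ) = 0 := by
  rw [← Units.val_inj, chiOfHom_apply, Units.val_one,
    ← (ZMod.stdAddChar (N := p)).map_zero_eq_one, ZMod.injective_stdAddChar.eq_iff]

lemma chiOfHom_pow (c : Additive Γ →+ ZMod p) (γ : Γ) : chiOfHom c γ ^ p = 1 := by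
  rw [← Units.val_inj, Units.val_pow_eq_pow_val, chiOfHom_apply, Units.val_one,
    ← AddChar.map_nsmul_eq_pow]
  simp

lemma chiOfHom_add (c c' : Additive Γ →+ ZMod p) (γ : Γ) :
    chiOfHom (c + c') γ = chiOfHom c γ * chiOfHom c' γ := by
  rw [← Units.val_inj, Units.val_mul, chiOfHom_apply, chiOfHom_apply, chiOfHom_apply,
    AddMonoidHom.add_apply, AddChar.map_add_eq_mul]

lemma chiOfHom_zero : chiOfHom (0 : Additive Γ →+ ZMod p) = 1 := by
  ext γ
  simp

lemma trivOnStabInfty_chiOfHom {c : Additive Γ →+ ZMod p}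
    (hc : ∀ γ : Γ, (γ : SL(2, ℤ)) 1 0 = 0 → c (Additive.ofMul γ) = 0) :
    TrivOnStabInfty (chiOfHom c) :=
  fun γ hγ => (chiOfHom_eq_one_iff c γ).mpr (hc γ hγ)

/-- An element of `SL(2, ℤ)` with lower left entry `0` has trace `±2`. -/
lemma trace_sq_of_lower_left_eq_zero (γ : SL(2, ℤ)) (h : γ 1 0 = 0) :
    (γ : Matrix (Fin 2) (Fin 2) ℤ).trace ^ 2 = 4 := by
  have hdet := γ.det_coe
  rw [Matrix.det_fin_two] at hdet
  have h' : (γ : Matrix (Fin 2) (Fin 2) ℤ) 1 0 = 0 := h
  rw [h', mul_zero, sub_zero] at hdet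
  rw [Matrix.trace_fin_two]
  rcases Int.eq_one_or_neg_one_of_mul_eq_one' hdet with ⟨h1, h2⟩ | ⟨h1, h2⟩
  · rw [h1, h2]; norm_num
  · rw [h1, h2]; norm_num

/-- **K1 (packaged).**  For an additive character `c : Γ₀(N) → ℤ/p` vanishing on the elements
fixing `∞` (e.g. on all elements with `trace ^ 2 = 4`), the Kummer function
`h = kumH (chiOfHom c)` is holomorphic, nonzero, transforms by
`h (γ • τ) = exp (2πi c(γ)/p) * h τ` under `Γ₀(N)`, all its `SL(2, ℤ)`-translates have at most
exponential growth, and `h ^ p` is a good function for `Γ₀(N)`. -/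
theorem exists_kummerFun_of_hom (N : ℕ) (c : Additive (Gamma0 N) →+ ZMod p)
    (hc : ∀ γ : Gamma0 N, (γ : SL(2, ℤ)) 1 0 = 0 → c (Additive.ofMul γ) = 0) :
    ∃ h : ℍ → ℂ, MDiff h ∧ h ≠ 0 ∧
      (∀ (γ : Gamma0 N) (τ : ℍ),
        h ((γ : SL(2, ℤ)) • τ) = ZMod.stdAddChar (N := p) (c (Additive.ofMul γ)) * h τ) ∧
      (∀ g : SL(2, ℤ), ExpGrowth (fun τ => h (g • τ))) ∧
      h ^ p ∈ goodRing N := by
  have hp : p ≠ 0 := NeZero.ne p
  have hstab := trivOnStabInfty_chiOfHom hc
  have hnorm : ∀ γ, ‖((chiOfHom c γ : ℂˣ) : ℂ)‖ = 1 :=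
    fun γ => norm_eq_one_of_pow_eq_one' hp (chiOfHom_pow c γ)
  refine ⟨kumH (chiOfHom c), kumH_mdifferentiable hnorm, kumH_ne_zero hnorm hstab,
    fun γ τ => ?_, kumH_expGrowth hnorm, kumH_pow_mem_goodRing hstab.trivOnUnip hp
      (chiOfHom_pow c)⟩
  rw [kumH_smul hstab.trivOnUnip, chiOfHom_apply]

end

end Fermat.Agent.S29.H509

end
-- ===== PACK-END S29/H509/KummerHom.lean

-- ===== PACK-BEGIN S59/H585/IntPD.lean
section
/-
S59 / non-minimal engine (helper585): INTEGRAL POINCARÉ DUALITY for the cuspidal classes of a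
subgroup `Γ ≤ SL(2,ℤ)` of finite index with `-1 ∈ Γ`.

Built on the Manin pairing of row S41 (`Fermat.Agent.S41.Spec.maninPairing`, block PD).

* `cuspSub R Γ A`            : the cuspidal classes `Γ → A` as an `R`-submodule of `Hom(Γ, A)`;
* `maninPairing_add_left`, `maninPairing_smul_left`, `maninPairing_skew` (any commutative ring);
* `maninPairing_map`         : compatibility with base change along a ring homomorphism;
* `exists_lift`              : cuspidal classes mod `p` lift to `ℤ` (any `Γ`);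
* `exists_eq_smul_of_cast_eq_zero` : `C_Γ(ℤ)` is saturated in `Hom(Γ, ℤ)`;
* `intPairing`               : the `ℤ`-bilinear Manin pairing on `C_Γ(ℤ)`;
* `intPairing_bijective`     : it is PERFECT (unimodular): `C_Γ(ℤ) ≃ Hom_ℤ(C_Γ(ℤ), ℤ)`.
-/



set_option autoImplicit false

namespace Fermat.Agent.S59.H585

open CongruenceSubgroup Matrix.SpecialLinearGroup ModularCurve.Period ModularGroup
open Fermat.Agent.S41.Spec
open scoped MatrixGroups

/-! ## Unconditional assembly statements of block PD (general `Γ`) -/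

/-- (A1) the pairing is computed by any representatives. -/
theorem pairingEq : ManinPairingEqStatement.{0} :=
  Fermat.Agent.S41.H221.maninPairingEq Fermat.Agent.S41.H460.maninRepZero
    Fermat.Agent.S41.H460.maninRepLinear Fermat.Agent.S41.H585.maninRepParabolic
    Fermat.Agent.S41.H281.maninSkew

/-- (A2) bilinear, skew-symmetric, nondegenerate over fields. -/
theorem pairingPD : ManinPairingPDStatement.{0} :=
  Fermat.Agent.S41.H221.maninPairingPD pairingEq Fermat.Agent.S41.H460.maninRepExists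
    Fermat.Agent.S41.H460.maninRepInvariant Fermat.Agent.S41.H460.maninRepLinear
    Fermat.Agent.S41.H585.maninRepRealize Fermat.Agent.S41.H585.maninRepTorsionU
    Fermat.Agent.S41.H585.maninRepParabolic Fermat.Agent.S41.H281.maninPerp
    Fermat.Agent.S41.H281.maninSkew Fermat.Agent.S41.H281.maninParDataOf

/-! ## Cuspidal classes -/

section Cusp

variable {Γ : Subgroup SL(2, ℤ)}

/-- The cuspidal classes `Γ → A` as a submodule of `Hom(Γ, A)`. -/
def cuspSub (R : Type*) [Semiring R] (Γ : Subgroup SL(2, ℤ)) (A : Type*) [AddCommGroup A]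
    [Module R A] : Submodule R (Additive Γ →+ A) where
  carrier := {φ | IsCuspidalOn Γ φ}
  zero_mem' := ⟨fun _ _ => rfl, fun _ _ => rfl⟩
  add_mem' := by
    intro φ ψ hφ hψ
    refine ⟨fun γ hγ => ?_, fun γ hγ => ?_⟩
    · show φ (Additive.ofMul γ) + ψ (Additive.ofMul γ) = 0
      rw [hφ.1 γ hγ, hψ.1 γ hγ, add_zero]
    · show φ (Additive.ofMul γ) + ψ (Additive.ofMul γ) = 0
      rw [hφ.2 γ hγ, hψ.2 γ hγ, add_zero]
  smul_mem' := by
    intro c φ hφ
    refine ⟨fun γ hγ => ?_, fun γ hγ => ?_⟩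
    · show c • φ (Additive.ofMul γ) = 0
      rw [hφ.1 γ hγ, smul_zero]
    · show c • φ (Additive.ofMul γ) = 0
      rw [hφ.2 γ hγ, smul_zero]

theorem mem_cuspSub {R : Type*} [Semiring R] {A : Type*} [AddCommGroup A] [Module R A]
    {φ : Additive Γ →+ A} : φ ∈ cuspSub R Γ A ↔ IsCuspidalOn Γ φ := Iff.rfl

theorem isCuspidalOn_comp {A B : Type*} [AddCommGroup A] [AddCommGroup B] (π : A →+ B)
    {φ : Additive Γ →+ A} (hφ : IsCuspidalOn Γ φ) : IsCuspidalOn Γ (π.comp φ) := by
  refine ⟨fun γ hγ => ?_, fun γ hγ => ?_⟩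
  · show π (φ (Additive.ofMul γ)) = 0
    rw [hφ.1 γ hγ, map_zero]
  · show π (φ (Additive.ofMul γ)) = 0
    rw [hφ.2 γ hγ, map_zero]

theorem isCuspidalOn_add {A : Type*} [AddCommGroup A] {φ ψ : Additive Γ →+ A}
    (hφ : IsCuspidalOn Γ φ) (hψ : IsCuspidalOn Γ ψ) : IsCuspidalOn Γ (φ + ψ) :=
  (cuspSub ℤ Γ A).add_mem hφ hψ

theorem isParData_map {A B : Type*} [AddCommGroup A] [AddCommGroup B] (π : A →+ B)
    {m e : SL(2, ℤ) ⧸ Γ → A} (h : IsParData Γ m e) :
    IsParData Γ (fun x => π (m x)) (fun x => π (e x)) := by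
  intro x
  show π (e (T • x)) - π (e x) = π (m ((S * T) • x)) - π (m x)
  rw [← map_sub, ← map_sub, h x]

variable [Γ.FiniteIndex]

instance finite_quot : Finite (SL(2, ℤ) ⧸ Γ) := Subgroup.finite_quotient_of_finiteIndex

/-- Manin representative and parabolic data of a cuspidal class. -/
theorem exists_reps (hneg : (-1 : SL(2, ℤ)) ∈ Γ) {A : Type} [AddCommGroup A]
    {φ : Additive Γ →+ A} (hφ : IsCuspidalOn Γ φ) :
    ∃ m e : SL(2, ℤ) ⧸ Γ → A, IsManinRep Γ φ m ∧ IsParData Γ m e := by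
  obtain ⟨m, hm⟩ := Fermat.Agent.S41.H460.maninRepExists Γ hneg A φ hφ.2
  obtain ⟨e, he⟩ := (Fermat.Agent.S41.H585.maninRepParabolic Γ hneg A φ m hm).mp hφ.1
  exact ⟨m, e, hm, he⟩

/-- A class with a Manin representative admitting parabolic data is cuspidal. -/
theorem isCuspidalOn_of_reps (hneg : (-1 : SL(2, ℤ)) ∈ Γ) {A : Type} [AddCommGroup A]
    {φ : Additive Γ →+ A} {m e : SL(2, ℤ) ⧸ Γ → A} (hm : IsManinRep Γ φ m)
    (he : IsParData Γ m e) : IsCuspidalOn Γ φ :=
  ⟨(Fermat.Agent.S41.H585.maninRepParabolic Γ hneg A φ m hm).mpr ⟨e, he⟩,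
    Fermat.Agent.S41.H585.maninRepTorsionU Γ hneg A φ m hm⟩

end Cusp

/-! ## The pairing over a commutative ring -/

section Pairing

variable {Γ : Subgroup SL(2, ℤ)} [Γ.FiniteIndex] {R : Type} [CommRing R]

theorem maninPairing_eq_form (hneg : (-1 : SL(2, ℤ)) ∈ Γ) {φ ψ : Additive Γ →+ R}
    (hφ : IsCuspidalOn Γ φ) {m m' e' : SL(2, ℤ) ⧸ Γ → R} (hm : IsManinRep Γ φ m)
    (hm' : IsManinRep Γ ψ m') (he' : IsParData Γ m' e') :
    maninPairing Γ φ ψ = maninForm Γ m e' :=
  pairingEq Γ hneg R φ ψ m m' e' hφ.1 hm hm' he'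

theorem maninPairing_add_left (hneg : (-1 : SL(2, ℤ)) ∈ Γ) {φ φ' ψ : Additive Γ →+ R}
    (hφ : IsCuspidalOn Γ φ) (hφ' : IsCuspidalOn Γ φ') (hψ : IsCuspidalOn Γ ψ) :
    maninPairing Γ (φ + φ') ψ = maninPairing Γ φ ψ + maninPairing Γ φ' ψ := by
  obtain ⟨m, e, hm, -⟩ := exists_reps hneg hφ
  obtain ⟨m', e', hm', -⟩ := exists_reps hneg hφ'
  obtain ⟨n, f, hn, hf⟩ := exists_reps hneg hψ
  have hsum := (Fermat.Agent.S41.H460.maninRepLinear Γ R R (AddMonoidHom.id R) φ φ' m m' hm hm').1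
  rw [maninPairing_eq_form hneg (isCuspidalOn_add hφ hφ') hsum hn hf,
    maninPairing_eq_form hneg hφ hm hn hf, maninPairing_eq_form hneg hφ' hm' hn hf,
    Fermat.Agent.S41.H221.maninForm_add_left]

omit [Γ.FiniteIndex] in
theorem isManinRep_smul (c : R) {φ : Additive Γ →+ R} {m : SL(2, ℤ) ⧸ Γ → R}
    (hm : IsManinRep Γ φ m) : IsManinRep Γ (c • φ) (fun x => c * m x) := by
  have h := (Fermat.Agent.S41.H460.maninRepLinear Γ R R (AddMonoidHom.mulLeft c) φ φ m m hm hm).2.2
  have e1 : (AddMonoidHom.mulLeft c).comp φ = c • φ := by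
    ext γ
    simp
  rw [e1] at h
  exact h

theorem maninPairing_smul_left (hneg : (-1 : SL(2, ℤ)) ∈ Γ) (c : R) {φ ψ : Additive Γ →+ R}
    (hφ : IsCuspidalOn Γ φ) (hψ : IsCuspidalOn Γ ψ) :
    maninPairing Γ (c • φ) ψ = c * maninPairing Γ φ ψ := by
  obtain ⟨m, e, hm, -⟩ := exists_reps hneg hφ
  obtain ⟨n, f, hn, hf⟩ := exists_reps hneg hψ
  have hc : IsCuspidalOn Γ (c • φ) := (cuspSub R Γ R).smul_mem c hφ
  rw [maninPairing_eq_form hneg hc (isManinRep_smul c hm) hn hf,
    maninPairing_eq_form hneg hφ hm hn hf, Fermat.Agent.S41.H221.maninForm_mul_left]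

theorem maninPairing_skew (hneg : (-1 : SL(2, ℤ)) ∈ Γ) {φ ψ : Additive Γ →+ R}
    (hφ : IsCuspidalOn Γ φ) (hψ : IsCuspidalOn Γ ψ) :
    maninPairing Γ ψ φ = - maninPairing Γ φ ψ := by
  obtain ⟨m, e, hm, he⟩ := exists_reps hneg hφ
  obtain ⟨n, f, hn, hf⟩ := exists_reps hneg hψ
  rw [maninPairing_eq_form hneg hψ hn hm he, maninPairing_eq_form hneg hφ hm hn hf]
  exact Fermat.Agent.S41.H221.maninForm_skew Fermat.Agent.S41.H281.maninSkew hneg m e n f he hf

theorem maninPairing_add_right (hneg : (-1 : SL(2, ℤ)) ∈ Γ) {φ ψ ψ' : Additive Γ →+ R}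
    (hφ : IsCuspidalOn Γ φ) (hψ : IsCuspidalOn Γ ψ) (hψ' : IsCuspidalOn Γ ψ') :
    maninPairing Γ φ (ψ + ψ') = maninPairing Γ φ ψ + maninPairing Γ φ ψ' := by
  have h1 := maninPairing_skew hneg (isCuspidalOn_add hψ hψ') hφ
  have h2 := maninPairing_skew hneg hψ hφ
  have h3 := maninPairing_skew hneg hψ' hφ
  have h4 := maninPairing_add_left hneg hψ hψ' hφ
  rw [h1, h2, h3, h4]
  ring

theorem maninPairing_smul_right (hneg : (-1 : SL(2, ℤ)) ∈ Γ) (c : R) {φ ψ : Additive Γ →+ R}
    (hφ : IsCuspidalOn Γ φ) (hψ : IsCuspidalOn Γ ψ) :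
    maninPairing Γ φ (c • ψ) = c * maninPairing Γ φ ψ := by
  have hc : IsCuspidalOn Γ (c • ψ) := (cuspSub R Γ R).smul_mem c hψ
  have h1 := maninPairing_skew hneg hc hφ
  have h2 := maninPairing_skew hneg hψ hφ
  have h3 := maninPairing_smul_left hneg c hψ hφ
  rw [h1, h2, h3]
  ring

/-- The Manin form commutes with ring homomorphisms. -/
theorem maninForm_map {R' : Type} [CommRing R'] (π : R →+* R') (m e : SL(2, ℤ) ⧸ Γ → R) :
    maninForm Γ (fun x => π (m x)) (fun x => π (e x)) = π (maninForm Γ m e) := by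
  have : Fintype (SL(2, ℤ) ⧸ Γ) := Fintype.ofFinite _
  rw [maninForm_eq_sum, maninForm_eq_sum, map_sum]
  refine Finset.sum_congr rfl fun x _ => ?_
  rw [map_mul, map_sub]

/-- **Base change**: the pairing commutes with ring homomorphisms. -/
theorem maninPairing_map (hneg : (-1 : SL(2, ℤ)) ∈ Γ) {R' : Type} [CommRing R'] (π : R →+* R')
    {φ ψ : Additive Γ →+ R} (hφ : IsCuspidalOn Γ φ) (hψ : IsCuspidalOn Γ ψ) :
    maninPairing Γ (π.toAddMonoidHom.comp φ) (π.toAddMonoidHom.comp ψ) =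
      π (maninPairing Γ φ ψ) := by
  obtain ⟨m, e, hm, -⟩ := exists_reps hneg hφ
  obtain ⟨n, f, hn, hf⟩ := exists_reps hneg hψ
  have hm' := (Fermat.Agent.S41.H460.maninRepLinear Γ R R' π.toAddMonoidHom φ φ m m hm hm).2.2
  have hn' := (Fermat.Agent.S41.H460.maninRepLinear Γ R R' π.toAddMonoidHom ψ ψ n n hn hn).2.2
  have hf' := isParData_map (Γ := Γ) π.toAddMonoidHom hf
  rw [maninPairing_eq_form hneg (isCuspidalOn_comp π.toAddMonoidHom hφ) hm' hn' hf',
    maninPairing_eq_form hneg hφ hm hn hf]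
  exact maninForm_map π m f

end Pairing

/-! ## Lifting and saturation -/

section Lift

variable {Γ : Subgroup SL(2, ℤ)} [Γ.FiniteIndex]

/-- **LIFT** for any `Γ`: cuspidal classes mod `p` lift to cuspidal classes over `ℤ`. -/
theorem exists_lift (hneg : (-1 : SL(2, ℤ)) ∈ Γ) (p : ℕ) {xbar : Additive Γ →+ ZMod p}
    (hxbar : IsCuspidalOn Γ xbar) :
    ∃ x : Additive Γ →+ ℤ, IsCuspidalOn Γ x ∧ (Int.castAddHom (ZMod p)).comp x = xbar := by
  obtain ⟨mbar, ebar, hmbar, hebar⟩ := exists_reps hneg hxbar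
  obtain ⟨m, e, hme, hm, -⟩ := Fermat.Agent.S41.H281.parDataLift Γ p mbar ebar hebar
  obtain ⟨x, hx⟩ := Fermat.Agent.S41.H585.maninRepRealize Γ hneg ℤ m
  refine ⟨x, isCuspidalOn_of_reps hneg hx hme, ?_⟩
  have hred : IsManinRep Γ ((Int.castAddHom (ZMod p)).comp x)
      (fun y => (Int.castAddHom (ZMod p)) (m y)) :=
    (Fermat.Agent.S41.H460.maninRepLinear Γ ℤ (ZMod p) (Int.castAddHom (ZMod p)) x x m m hx hx).2.2
  have hmb : (fun y => (Int.castAddHom (ZMod p)) (m y)) = mbar := by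
    funext y
    exact hm y
  rw [hmb] at hred
  have hdiff := (Fermat.Agent.S41.H460.maninRepLinear Γ (ZMod p) (ZMod p) (AddMonoidHom.id _)
    ((Int.castAddHom (ZMod p)).comp x) xbar mbar mbar hred hmbar).2.1
  rw [sub_self] at hdiff
  have hzero : IsInvariantSum Γ (0 : SL(2, ℤ) ⧸ Γ → ZMod p) :=
    ⟨0, 0, fun _ => rfl, fun _ => rfl, by simp⟩
  have := Fermat.Agent.S41.H460.maninRepInvariant Γ hneg (ZMod p) _ 0 hdiff hzero
  exact sub_eq_zero.mp this

omit [Γ.FiniteIndex] in
/-- **Saturation**: a cuspidal class over `ℤ` which vanishes mod `p` is `p` times a cuspidal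
class. -/
theorem exists_eq_smul_of_cast_eq_zero {p : ℕ} (hp : p ≠ 0) {x : Additive Γ →+ ℤ}
    (hx : IsCuspidalOn Γ x) (h0 : (Int.castAddHom (ZMod p)).comp x = 0) :
    ∃ x' : Additive Γ →+ ℤ, IsCuspidalOn Γ x' ∧ x = (p : ℤ) • x' := by
  have hp' : (p : ℤ) ≠ 0 := by exact_mod_cast hp
  have hdvd : ∀ g : Additive Γ, (p : ℤ) ∣ x g := by
    intro g
    have := DFunLike.congr_fun h0 g
    exact (ZMod.intCast_zmod_eq_zero_iff_dvd _ _).mp this
  let x' : Additive Γ →+ ℤ :=
    { toFun := fun g => x g / p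
      map_zero' := by rw [map_zero]; exact Int.zero_ediv _
      map_add' := fun g g' => by
        rw [map_add]
        exact Int.add_ediv_of_dvd_left (hdvd g) }
  have hx' : ∀ g, x g = (p : ℤ) * x' g := fun g => (Int.mul_ediv_cancel' (hdvd g)).symm
  refine ⟨x', ⟨fun γ hγ => ?_, fun γ hγ => ?_⟩, ?_⟩
  · have := hx.1 γ hγ
    rw [hx'] at this
    exact (mul_eq_zero.mp this).resolve_left hp'
  · have := hx.2 γ hγ
    rw [hx'] at this
    exact (mul_eq_zero.mp this).resolve_left hp'
  · refine AddMonoidHom.ext fun g => ?_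
    show x g = (p : ℤ) • x' g
    rw [smul_eq_mul]
    exact hx' g

end Lift

/-! ## The integral pairing is perfect -/

section Perfect

variable (Γ : Subgroup SL(2, ℤ)) [Γ.FiniteIndex]

/-- `C_Γ(ℤ)` is a finite free `ℤ`-module. -/
theorem cuspSub_finite_free : Module.Finite ℤ (cuspSub ℤ Γ ℤ) ∧ Module.Free ℤ (cuspSub ℤ Γ ℤ) := by
  have : Group.FG SL(2, ℤ) :=
    Group.fg_iff.mpr ⟨{S, T}, _root_.SpecialLinearGroup.SL2Z_generators, Set.toFinite _⟩
  have : Group.FG Γ := Subgroup.fg_of_index_ne_zero Γ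
  exact Fermat.Agent.S41.H585.finite_free_of_fg Γ (cuspSub ℤ Γ ℤ)

instance cuspSub_finite : Module.Finite ℤ (cuspSub ℤ Γ ℤ) := (cuspSub_finite_free Γ).1

instance cuspSub_free : Module.Free ℤ (cuspSub ℤ Γ ℤ) := (cuspSub_finite_free Γ).2

variable {Γ}

/-- **The integral Manin pairing** on the cuspidal classes. -/
noncomputable def intPairing (hneg : (-1 : SL(2, ℤ)) ∈ Γ) :
    cuspSub ℤ Γ ℤ →ₗ[ℤ] cuspSub ℤ Γ ℤ →ₗ[ℤ] ℤ :=
  LinearMap.mk₂ ℤ (fun x y => maninPairing Γ (x : Additive Γ →+ ℤ) (y : Additive Γ →+ ℤ))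
    (fun x x' y => maninPairing_add_left hneg x.2 x'.2 y.2)
    (fun c x y => maninPairing_smul_left hneg c x.2 y.2)
    (fun x y y' => maninPairing_add_right hneg x.2 y.2 y'.2)
    (fun c x y => maninPairing_smul_right hneg c x.2 y.2)

@[simp] theorem intPairing_apply (hneg : (-1 : SL(2, ℤ)) ∈ Γ) (x y : cuspSub ℤ Γ ℤ) :
    intPairing hneg x y = maninPairing Γ (x : Additive Γ →+ ℤ) (y : Additive Γ →+ ℤ) := rfl

theorem intPairing_skew (hneg : (-1 : SL(2, ℤ)) ∈ Γ) (x y : cuspSub ℤ Γ ℤ) :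
    intPairing hneg y x = - intPairing hneg x y :=
  maninPairing_skew hneg x.2 y.2

/-- The radical of the integral pairing modulo `p` is `p · C_Γ(ℤ)`. -/
theorem radical_mod_prime (hneg : (-1 : SL(2, ℤ)) ∈ Γ) (p : ℕ) (hp : p.Prime)
    (x : cuspSub ℤ Γ ℤ) (h : ∀ y : cuspSub ℤ Γ ℤ, (p : ℤ) ∣ intPairing hneg y x) :
    ∃ x' : cuspSub ℤ Γ ℤ, x = (p : ℤ) • x' := by
  have : Fact p.Prime := ⟨hp⟩
  set π : ℤ →+* ZMod p := Int.castRingHom (ZMod p) with hπ
  have hxbar : IsCuspidalOn Γ (π.toAddMonoidHom.comp (x : Additive Γ →+ ℤ)) :=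
    isCuspidalOn_comp _ x.2
  -- the reduction of `x` is in the radical of the pairing mod `p`
  have hrad : ∀ ybar : Additive Γ →+ ZMod p, IsCuspidalOn Γ ybar →
      maninPairing Γ (π.toAddMonoidHom.comp (x : Additive Γ →+ ℤ)) ybar = 0 := by
    intro ybar hybar
    obtain ⟨y, hy, rfl⟩ := exists_lift hneg p hybar
    have h1 := maninPairing_map hneg π hy x.2
    have h2 := maninPairing_skew hneg (isCuspidalOn_comp π.toAddMonoidHom hy) hxbar
    have h3 : π (maninPairing Γ y (x : Additive Γ →+ ℤ)) = 0 :=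
      (ZMod.intCast_zmod_eq_zero_iff_dvd _ _).mpr (h ⟨y, hy⟩)
    show maninPairing Γ (π.toAddMonoidHom.comp (x : Additive Γ →+ ℤ))
      (π.toAddMonoidHom.comp y) = 0
    rw [h2, h1, h3, neg_zero]
  have hzero := (pairingPD Γ hneg (ZMod p)).2.2.2 _ hxbar hrad
  obtain ⟨x', hx', hxx'⟩ := exists_eq_smul_of_cast_eq_zero hp.ne_zero x.2 hzero
  exact ⟨⟨x', hx'⟩, Subtype.ext hxx'⟩

/-- **Integral Poincaré duality**: the Manin pairing on `C_Γ(ℤ)` is perfect. -/
theorem intPairing_bijective (hneg : (-1 : SL(2, ℤ)) ∈ Γ) :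
    Function.Bijective (intPairing hneg) :=
  bijective_of_radical_mod_primes (intPairing hneg) (radical_mod_prime hneg)

theorem intPairing_flip_bijective (hneg : (-1 : SL(2, ℤ)) ∈ Γ) :
    Function.Bijective (intPairing hneg).flip := by
  have h : (intPairing hneg).flip = - intPairing hneg := by
    ext x y
    exact intPairing_skew hneg x y
  rw [h]
  exact (Equiv.neg _).bijective.comp (intPairing_bijective hneg)

end Perfect

end Fermat.Agent.S59.H585

end
-- ===== PACK-END S59/H585/IntPD.lean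

-- ===== PACK-BEGIN S59/H585/IntPDHecke.lean
section
/-
S59 / non-minimal engine (helper585): the INTEGRAL Manin pairing on `Γ₀(n)` and the maps of row S41.

For the pairing `maninPairing (Gamma0 n)` on cuspidal classes with coefficients `ℤ`
(perfect by `IntPD.lean`):

* `pairing_adj_field`   : over a field, `B(r_i x, y) = B(x, t_i y)`  (explicit pairing; replay of
                          `S41.H221.pd_of_asm`);
* `pairing_adj_int`     : the same over `ℤ`;
* `pairing_hecke_int`   : `B(T_l x, y) = B(x, T_l y)` over `ℤ`;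
* `gamma0Pairing n`     : the bilinear pairing on `Spec.cuspidalSubmodule ℤ n ℤ`, with
  `gamma0Pairing_bijective`, `gamma0Pairing_skew`.
-/



set_option autoImplicit false

namespace Fermat.Agent.S59.H585

open CongruenceSubgroup Matrix.SpecialLinearGroup ModularCurve.Period ModularGroup
open Fermat.Agent.S29.H642 Fermat.Agent.S41.Spec
open scoped MatrixGroups

/-! ## Unconditional assembly statements A3, A4, A5 -/

theorem pairingResCores : ManinPairingResCoresStatement.{0} :=
  Fermat.Agent.S41.H221.maninPairingResCores pairingEq Fermat.Agent.S41.H460.maninRepExists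
    Fermat.Agent.S41.H585.maninRepParabolic Fermat.Agent.S41.H232.maninRepRes
    Fermat.Agent.S41.H232.maninRepCores Fermat.Agent.S41.H232.maninFormAdjoint

theorem pairingBeta : ManinPairingBetaStatement.{0} :=
  Fermat.Agent.S41.H221.maninPairingBeta pairingEq Fermat.Agent.S41.H460.maninRepExists
    Fermat.Agent.S41.H585.maninRepParabolic Fermat.Agent.S41.H945.heisLift
    Fermat.Agent.S41.H874.cuspSumZero_h874 Fermat.Agent.S41.H769.tOrbitSystemExists
    Fermat.Agent.S41.H769.tOrbitCusp Fermat.Agent.S41.H769.cuspSumIndep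

theorem pairingConjDelta : ManinPairingConjDeltaStatement.{0} :=
  Fermat.Agent.S41.H221.maninPairingConjDelta pairingBeta Fermat.Agent.S41.H460.maninRepExists
    Fermat.Agent.S41.H585.maninRepParabolic Fermat.Agent.S41.H945.heisLift
    Fermat.Agent.S41.H769.tOrbitSystemExists Fermat.Agent.S41.H769.tOrbitCusp
    Fermat.Agent.S41.H769.cuspSystemConjDelta

/-! ## Adjunction over a field, for the explicit pairing -/

open Fermat.Agent.S41.H221 in
/-- `r_i` is left adjoint to `t_i` for the Manin pairing (fields). -/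
theorem pairing_adj_field (F : Type) [Field F] {N q : ℕ} (hN : N ≠ 0) (hq : q.Prime)
    (hqN : ¬ q ∣ N) (x : Additive (Gamma0 N) →+ F) (y : Additive (Gamma0 (N * q)) →+ F)
    (hx : IsCuspidal x) (hy : IsCuspidal y) :
    maninPairing (Gamma0 (N * q)) (r₁ N q x) y = maninPairing (Gamma0 N) x (t₁ N q y) ∧
    maninPairing (Gamma0 (N * q)) (r₂ N q x) y = maninPairing (Gamma0 N) x (t₂ N q y) := by
  have hA3 := pairingResCores
  have hA5 := pairingConjDelta
  have hTE := Fermat.Agent.S41.H232.transferAlongEquiv.{0}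
  have hq0 : q ≠ 0 := hq.ne_zero
  have hFI : (Gamma0 N).FiniteIndex := finiteIndex_gamma0 hN
  have hFI' : (Gamma0 (N * q)).FiniteIndex := finiteIndex_gamma0 (Nat.mul_ne_zero hN hq0)
  have hFI'' : (gamma0Delta N q).FiniteIndex := finiteIndex_gamma0Delta hN hq0
  constructor
  · exact hA3 (Gamma0 (N * q)) (Gamma0 N) (gamma0_mul_le N q) (neg_one_mem_gamma0 _) F x y hx hy
  · set e := conjDeltaEquiv N q hq0 with he
    have hr₂ : r₂ N q x = (x.comp (MonoidHom.toAdditive
        (Subgroup.inclusion (gamma0Delta_le N q)))).comp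
          (MonoidHom.toAdditive (conjDeltaR N q)) := by
      unfold r₂
      rw [← inclusion_comp_conjDeltaR]
      rfl
    have hy' : y = (y.comp (MonoidHom.toAdditive e.symm.toMonoidHom)).comp
        (MonoidHom.toAdditive (conjDeltaR N q)) := by
      ext γ
      show y (Additive.ofMul γ) = y (Additive.ofMul (e.symm (conjDeltaR N q γ)))
      rw [← conjDeltaEquiv_apply N q hq0, ← he, MulEquiv.symm_apply_apply]
    have ht₂ : t₂ N q y = transferAlong (Subgroup.inclusion (gamma0Delta_le N q))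
        (y.comp (MonoidHom.toAdditive e.symm.toMonoidHom)) := by
      unfold t₂
      rw [← hTE (Gamma0 (N * q)) (gamma0Delta N q) (Gamma0 N) e
        (Subgroup.inclusion (gamma0Delta_le N q)) F y]
      rfl
    rw [hr₂, ht₂]
    conv_lhs => rw [hy']
    rw [hA5 N q hN hq hqN F _ _ (isCuspidalOn_res (gamma0Delta_le N q) x hx)
      (isCuspidalOn_comp_symm hq0 y hy)]
    exact hA3 (gamma0Delta N q) (Gamma0 N) (gamma0Delta_le N q) (neg_one_mem_gamma0Delta N q) F
      x _ hx (isCuspidalOn_comp_symm hq0 y hy)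

/-! ## Over `ℤ` -/

section Int

variable {N q : ℕ}

theorem finiteIndex_Gamma0' {n : ℕ} (hn : n ≠ 0) : (Gamma0 n).FiniteIndex :=
  Fermat.Agent.S41.H221.finiteIndex_gamma0 hn

theorem neg_one_mem_Gamma0' (n : ℕ) : (-1 : SL(2, ℤ)) ∈ Gamma0 n :=
  Fermat.Agent.S41.H221.neg_one_mem_gamma0 n

/-- The cast `ℤ → ℚ` of the pairing. -/
theorem cast_pairing {n : ℕ} (hn : n ≠ 0) {x y : Additive (Gamma0 n) →+ ℤ} (hx : IsCuspidal x)
    (hy : IsCuspidal y) :
    ((maninPairing (Gamma0 n) x y : ℤ) : ℚ) =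
      maninPairing (Gamma0 n) ((Int.castAddHom ℚ).comp x) ((Int.castAddHom ℚ).comp y) := by
  have := finiteIndex_Gamma0' hn
  exact (maninPairing_map (neg_one_mem_Gamma0' n) (Int.castRingHom ℚ) hx hy).symm

/-- **Adjunction over `ℤ`**: `B(r_i x, y) = B(x, t_i y)`. -/
theorem pairing_adj_int (hN : N ≠ 0) (hq : q.Prime) (hqN : ¬ q ∣ N)
    (x : Additive (Gamma0 N) →+ ℤ) (y : Additive (Gamma0 (N * q)) →+ ℤ)
    (hx : IsCuspidal x) (hy : IsCuspidal y) :
    maninPairing (Gamma0 (N * q)) (r₁ N q x) y = maninPairing (Gamma0 N) x (t₁ N q y) ∧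
    maninPairing (Gamma0 (N * q)) (r₂ N q x) y = maninPairing (Gamma0 N) x (t₂ N q y) := by
  have hNq : N * q ≠ 0 := Nat.mul_ne_zero hN hq.ne_zero
  obtain ⟨hFun, hRC, hTC, -⟩ := Fermat.Agent.S41.H281.hkStatement.{0}
  obtain ⟨hr1, hr2⟩ := hRC N q ℤ x hx
  obtain ⟨ht1, ht2⟩ := hTC N q ℤ y hy
  set ι : ℤ →+ ℚ := Int.castAddHom ℚ with hι
  have hxQ : IsCuspidal (ι.comp x) := Fermat.Agent.S41.H41.isCuspidal_comp ι hx
  have hyQ : IsCuspidal (ι.comp y) := Fermat.Agent.S41.H41.isCuspidal_comp ι hy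
  obtain ⟨a1, a2⟩ := pairing_adj_field ℚ hN hq hqN (ι.comp x) (ι.comp y) hxQ hyQ
  constructor
  · apply Int.cast_injective (α := ℚ)
    rw [cast_pairing hNq hr1 hy, cast_pairing hN hx ht1,
      ← Fermat.Agent.S41.H41.t₁_comp hFun, ← Fermat.Agent.S41.H41.r₁_comp]
    exact a1
  · apply Int.cast_injective (α := ℚ)
    rw [cast_pairing hNq hr2 hy, cast_pairing hN hx ht2,
      ← Fermat.Agent.S41.H41.t₂_comp hFun, ← Fermat.Agent.S41.H41.r₂_comp]
    exact a2

/-- **Hecke operators are self-adjoint over `ℤ`**. -/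
theorem pairing_hecke_int {n l : ℕ} [Fact l.Prime] (hl : ¬ l ∣ n) (hn : n ≠ 0)
    (x y : Additive (Gamma0 n) →+ ℤ) (hx : IsCuspidal x) (hy : IsCuspidal y) :
    maninPairing (Gamma0 n) (heckeTransfer hl x) y =
      maninPairing (Gamma0 n) x (heckeTransfer hl y) := by
  have hlp : l.Prime := Fact.out
  have hnl : n * l ≠ 0 := Nat.mul_ne_zero hn hlp.ne_zero
  have hFI := finiteIndex_Gamma0' hn
  have hFI' := finiteIndex_Gamma0' hnl
  obtain ⟨-, hRC, -, hHC, -, -, -, hTRH, -⟩ := Fermat.Agent.S41.H281.hkStatement.{0}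
  have hTx : IsCuspidal (heckeTransfer hl x) := hHC n l hl ℤ x hx
  obtain ⟨h1x, h2x⟩ := hRC n l ℤ x hx
  obtain ⟨h1y, h2y⟩ := hRC n l ℤ y hy
  obtain ⟨e1x, -⟩ := hTRH n l hl hn ℤ x
  obtain ⟨-, e2y⟩ := hTRH n l hl hn ℤ y
  have a1 := (pairing_adj_int hn hlp hl y (r₂ n l x) hy h2x).1
  have a2 := (pairing_adj_int hn hlp hl x (r₁ n l y) hx h1y).2
  calc maninPairing (Gamma0 n) (heckeTransfer hl x) y
      = - maninPairing (Gamma0 n) y (heckeTransfer hl x) :=
        maninPairing_skew (neg_one_mem_Gamma0' n) hy hTx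
    _ = - maninPairing (Gamma0 n) y (t₁ n l (r₂ n l x)) := by rw [e1x]
    _ = - maninPairing (Gamma0 (n * l)) (r₁ n l y) (r₂ n l x) := by rw [a1]
    _ = maninPairing (Gamma0 (n * l)) (r₂ n l x) (r₁ n l y) := by
        rw [maninPairing_skew (neg_one_mem_Gamma0' (n * l)) h2x h1y, neg_neg]
    _ = maninPairing (Gamma0 n) x (t₂ n l (r₁ n l y)) := a2
    _ = maninPairing (Gamma0 n) x (heckeTransfer hl y) := by rw [e2y]

/-- The integral pairing on `Spec.cuspidalSubmodule ℤ n ℤ` (`= cuspSub ℤ (Gamma0 n) ℤ`). -/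
noncomputable def gamma0Pairing {n : ℕ} (hn : n ≠ 0) :
    cuspidalSubmodule ℤ n ℤ →ₗ[ℤ] cuspidalSubmodule ℤ n ℤ →ₗ[ℤ] ℤ :=
  haveI := finiteIndex_Gamma0' hn
  intPairing (Γ := Gamma0 n) (neg_one_mem_Gamma0' n)

@[simp] theorem gamma0Pairing_apply {n : ℕ} (hn : n ≠ 0) (x y : cuspidalSubmodule ℤ n ℤ) :
    gamma0Pairing hn x y =
      maninPairing (Gamma0 n) (x : Additive (Gamma0 n) →+ ℤ) (y : Additive (Gamma0 n) →+ ℤ) :=
  rfl

theorem gamma0Pairing_skew {n : ℕ} (hn : n ≠ 0) (x y : cuspidalSubmodule ℤ n ℤ) :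
    gamma0Pairing hn y x = - gamma0Pairing hn x y :=
  haveI := finiteIndex_Gamma0' hn
  intPairing_skew (Γ := Gamma0 n) (neg_one_mem_Gamma0' n) x y

/-- **Integral Poincaré duality on `Γ₀(n)`**. -/
theorem gamma0Pairing_bijective {n : ℕ} (hn : n ≠ 0) :
    Function.Bijective (gamma0Pairing hn) :=
  haveI := finiteIndex_Gamma0' hn
  intPairing_bijective (Γ := Gamma0 n) (neg_one_mem_Gamma0' n)

theorem gamma0Pairing_flip_bijective {n : ℕ} (hn : n ≠ 0) :
    Function.Bijective (gamma0Pairing hn).flip :=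
  haveI := finiteIndex_Gamma0' hn
  intPairing_flip_bijective (Γ := Gamma0 n) (neg_one_mem_Gamma0' n)

end Int

end Fermat.Agent.S59.H585

end
-- ===== PACK-END S59/H585/IntPDHecke.lean

-- ===== PACK-BEGIN S15/H386/ModShapeExists.lean
section
/-
Row S15, node GEO (helper386): existence of a polynomial of modular shape vanishing at
`(j(q^d), j(q^{dp}))` — the classical modular polynomial `Φ_p` (row S28, `H807.nonempty_modPolyData`).
-/




set_option autoImplicit false

noncomputable section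

open ModularCurve HahnSeries Polynomial
open Fermat.Agent.S28 Fermat.Agent.S28.H386 Fermat.Agent.S15.H962

universe u

namespace Fermat.Agent.S15.H386

/-- `eval2` commutes with ring homomorphisms of fields. -/
theorem map_eval2 {K L : Type*} [Field K] [Field L] (φ : K →+* L) (Φ : ℤ[X][X]) (a b : K) :
    φ (eval2 Φ a b) = eval2 Φ (φ a) (φ b) := by
  unfold eval2
  rw [Polynomial.hom_eval₂]
  congr 1
  refine Polynomial.ringHom_ext (fun z => ?_) ?_
  · simp
  · simp

theorem eval2_eq_zero_iff_map {K L : Type*} [Field K] [Field L] (φ : K →+* L) (Φ : ℤ[X][X])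
    (a b : K) : eval2 Φ (φ a) (φ b) = 0 ↔ eval2 Φ a b = 0 := by
  rw [← map_eval2, map_eq_zero]

section

variable {p : ℕ} [NeZero p] (D : ModPolyData p)

theorem eval2_eq_eval_phiAt {K : Type*} [Field K] (Φ : ℤ[X][X]) (a b : K) :
    eval2 Φ a b = (phiAt Φ a).eval b := by
  rw [eval_phiAt]
  rfl

/-- `Φ_p(j(q^d), j(q^{dp})) = 0`. -/
theorem eval2_jd_jdp (k : Type*) [Field k] (d : ℕ) [NeZero d] :
    eval2 D.Φ (jd k d) (jd k (d * p)) = 0 := by
  rw [eval2_eq_eval_phiAt]
  exact eval_jdp D k d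

/-- `Φ_p(j(q^{dp}), j(q^d)) = 0`. -/
theorem eval2_jdp_jd (k : Type*) [Field k] (d : ℕ) [NeZero d] :
    eval2 D.Φ (jd k (d * p)) (jd k d) = 0 := by
  rw [eval2_eq_eval_phiAt]
  exact eval_jd D k d

end

/-- **Existence of the modular polynomial with its shape**: for `p` prime there is
`Φ ∈ ℤ[X][Y]` of modular shape with `Φ(j(q^d), j(q^{dp})) = 0 = Φ(j(q^{dp}), j(q^d))` in
`k((q))`, for every field `k` and every `d ≥ 1`. -/
theorem exists_isModularShape (p : ℕ) [NeZero p] (hp : p.Prime) :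
    ∃ Φ : ℤ[X][X], IsModularShape p Φ ∧
      ∀ (k : Type u) [Field k] (d : ℕ) [NeZero d],
        eval2 Φ (qExpand k d (jqModC k)) (qExpand k (d * p) (jqModC k)) = 0 ∧
        eval2 Φ (qExpand k (d * p) (jqModC k)) (qExpand k d (jqModC k)) = 0 := by
  obtain ⟨D⟩ := H807.nonempty_modPolyData p hp
  exact ⟨D.Φ, isModularShape_of_modPolyData D hp.one_lt, fun k _ d _ =>
    ⟨eval2_jd_jdp D k d, eval2_jdp_jd D k d⟩⟩

end Fermat.Agent.S15.H386

end
end
-- ===== PACK-END S15/H386/ModShapeExists.lean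

-- ===== PACK-BEGIN S15/H782/UValExact.lean
section



/-!
# S15, node GEO, piece UVAL (b)-EXACT (helper782)

For a point `Q ∉ E⁰` of odd prime order `p = 2 m + 1` on a curve with a node (`NodeModel`, any
residue characteristic):

  `v (∏_{0<k<p} ψ₂(k • Q)) ^ p = v(a) ^ (2 m (m + 1))`       (`v(a)² = v(Δ)`),

i.e. `ord (∏ ψ₂(kQ)⁴) = (p² - 1)/p · ord Δ`, hence `ord U(W, Q) = (p - 1)/p · ord Δ > 0`.

Proof: `v ψ₂(P) = v (x(P) - e)` near the node; the values `g_k = v (x(kQ) - e)`, `0 < k ≤ m`,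
satisfy `g_k ^ p = v(a) ^ (2 j_k)` with `1 ≤ j_k ≤ m` (`torsion_near_node`), and `k ↦ j_k` is
injective because the component map is injective on `⟨Q⟩`.  No Tate curve, no Newton polygon of
the modular equation.
-/

set_option autoImplicit false

namespace Fermat.Agent.S15.H782

open WeierstrassCurve WeierstrassCurve.Affine
open Fermat.Agent.S05.Comp (cls CompGroup)
open Fermat.Agent.S13.H365

section combinatorics

variable {Γ₀ : Type*} [LinearOrderedCommGroupWithZero Γ₀]

lemma sum_two_mul_succ (m : ℕ) : ∑ i ∈ Finset.range m, 2 * (i + 1) = m * (m + 1) := by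
  induction m with
  | zero => simp
  | succ n ih => rw [Finset.sum_range_succ, ih]; ring

/-- **Combinatorial core.**  If `g 0, …, g (m-1)` are pairwise distinct elements strictly between
`α` and `1` whose `(2m+1)`-st powers are even powers of `α`, then
`(∏ g i) ^ (2m+1) = α ^ (m (m+1))`. -/
theorem prod_pow_eq_of_injOn {α : Γ₀} (hα0 : 0 < α) (hα1 : α < 1) (m : ℕ) (g : ℕ → Γ₀)
    (hg : ∀ i < m, α < g i ∧ g i < 1 ∧ ∃ j : ℕ, g i ^ (2 * m + 1) = α ^ (2 * j))
    (hinj : ∀ i < m, ∀ i' < m, g i = g i' → i = i') :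
    (∏ i ∈ Finset.range m, g i) ^ (2 * m + 1) = α ^ (m * (m + 1)) := by
  classical
  choose! J hJ using fun i (hi : i < m) => (hg i hi).2.2
  have hJpos : ∀ i < m, 0 < J i := by
    intro i hi
    rcases Nat.eq_zero_or_pos (J i) with h0 | h0
    · exfalso
      have h1 : g i ^ (2 * m + 1) < 1 :=
        pow_lt_one₀ zero_le (hg i hi).2.1 (Nat.succ_ne_zero _)
      rw [hJ i hi, h0, mul_zero, pow_zero] at h1
      exact lt_irrefl _ h1
    · exact h0
  have hJle : ∀ i < m, J i ≤ m := by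
    intro i hi
    have h1 : α ^ (2 * m + 1) < g i ^ (2 * m + 1) :=
      pow_lt_pow_left₀ (hg i hi).1 hα0.le (Nat.succ_ne_zero _)
    rw [hJ i hi] at h1
    have := (pow_lt_pow_iff_right_of_lt_one₀ hα0 hα1).mp h1
    omega
  have hJinj : ∀ i < m, ∀ i' < m, J i = J i' → i = i' := by
    intro i hi i' hi' h
    refine hinj i hi i' hi' ?_
    have h1 : g i ^ (2 * m + 1) = g i' ^ (2 * m + 1) := by rw [hJ i hi, hJ i' hi', h]
    exact (pow_left_inj₀ zero_le zero_le (Nat.succ_ne_zero _)).mp h1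
  have himg : (Finset.range m).image (fun i => J i - 1) = Finset.range m := by
    refine Finset.eq_of_subset_of_card_le ?_ ?_
    · intro j hj
      obtain ⟨i, hi, rfl⟩ := Finset.mem_image.mp hj
      have hi' := Finset.mem_range.mp hi
      have := hJpos i hi'
      have := hJle i hi'
      exact Finset.mem_range.mpr (by omega)
    · rw [Finset.card_image_of_injOn]
      intro i hi i' hi' h
      have hi1 := Finset.mem_range.mp hi
      have hi1' := Finset.mem_range.mp hi'
      have := hJpos i hi1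
      have := hJpos i' hi1'
      exact hJinj i hi1 i' hi1' (by simp only at h; omega)
  rw [← Finset.prod_pow]
  calc ∏ i ∈ Finset.range m, g i ^ (2 * m + 1)
      = ∏ i ∈ Finset.range m, α ^ (2 * ((J i - 1) + 1)) := by
        refine Finset.prod_congr rfl fun i hi => ?_
        have hi' := Finset.mem_range.mp hi
        have := hJpos i hi'
        rw [hJ i hi', Nat.sub_add_cancel this]
    _ = ∏ j ∈ (Finset.range m).image (fun i => J i - 1), α ^ (2 * (j + 1)) := by
        rw [Finset.prod_image]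
        intro i hi i' hi' h
        have hi1 := Finset.mem_range.mp hi
        have hi1' := Finset.mem_range.mp hi'
        have := hJpos i hi1
        have := hJpos i' hi1'
        exact hJinj i hi1 i' hi1' (by simp only at h; omega)
    _ = ∏ j ∈ Finset.range m, α ^ (2 * (j + 1)) := by rw [himg]
    _ = α ^ (m * (m + 1)) := by rw [Finset.prod_pow_eq_pow_sum, sum_two_mul_succ]

end combinatorics

section node

variable {K : Type*} [Field K] {Γ₀ : Type*} [LinearOrderedCommGroupWithZero Γ₀]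
  {v : Valuation K Γ₀} {W : Affine K}

/-- `v (x(P) - e)`: the distance of `P` from the node (`1` for `P = O`). -/
def xiVal (M : NodeModel v W) : W.Point → Γ₀
  | .zero => 1
  | .some x _ _ => v (x - M.e)

@[simp] lemma xiVal_zero (M : NodeModel v W) : xiVal M (0 : W.Point) = 1 := rfl

@[simp] lemma xiVal_some (M : NodeModel v W) {x y : K} (h : W.Nonsingular x y) :
    xiVal M (Point.some x y h) = v (x - M.e) := rfl

lemma xiVal_neg (M : NodeModel v W) (P : W.Point) : xiVal M (-P) = xiVal M P := by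
  rcases P with _ | ⟨x, y, h⟩
  · rfl
  · rw [Point.neg_some]; rfl

lemma inE0_iff_xiVal (M : NodeModel v W) (P : W.Point) : M.InE0 P ↔ 1 ≤ xiVal M P := by
  rcases P with _ | ⟨x, y, h⟩
  · exact ⟨fun _ => le_refl _, fun _ => trivial⟩
  · exact Iff.rfl

/-- Near the node (but not too near), `v ψ₂(P) = v (x(P) - e)`. -/
lemma val_psiTwo_eq_xiVal (M : NodeModel v W) {P : W.Point} (hlo : v M.a < xiVal M P)
    (hhi : xiVal M P < 1) : v (psiTwo W P) = xiVal M P := by
  rcases P with _ | ⟨x, y, h⟩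
  · exact absurd hhi (lt_irrefl _)
  · rw [xiVal_some] at hlo hhi
    rw [psiTwo_some, xiVal_some]
    have hpos : 0 < v (x - M.e) := lt_of_le_of_lt zero_le hlo
    have h4 : v (4 : K) ≤ 1 := val_four_le_one
    have hδ2 : v ((M.γ₁ - M.γ₂) ^ 2) = 1 := by rw [map_pow, M.hδ, one_pow]
    have h4ξ : v (4 * (x - M.e)) < 1 := by
      rw [map_mul]
      calc v 4 * v (x - M.e) ≤ 1 * v (x - M.e) := mul_le_mul_left h4 _
        _ = v (x - M.e) := one_mul _
        _ < 1 := hhi
    have hunit : v ((M.γ₁ - M.γ₂) ^ 2 + 4 * (x - M.e)) = 1 := by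
      rw [Valuation.map_add_eq_of_lt_left _ (by rw [hδ2]; exact h4ξ), hδ2]
    have hsmall : v (4 * M.a * (x - M.e)) < v (x - M.e) ^ 2 := by
      rw [map_mul, map_mul, pow_two]
      calc v 4 * v M.a * v (x - M.e) ≤ 1 * v M.a * v (x - M.e) :=
            mul_le_mul_left (mul_le_mul_left h4 _) _
        _ = v M.a * v (x - M.e) := by rw [one_mul]
        _ < v (x - M.e) * v (x - M.e) := mul_lt_mul_of_pos_right hlo hpos
    have hid : (2 * y + W.a₁ * x + W.a₃) ^ 2 =
        (x - M.e) ^ 2 * ((M.γ₁ - M.γ₂) ^ 2 + 4 * (x - M.e)) + 4 * M.a * (x - M.e) := by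
      rw [M.ns_id₂ h.1]; ring
    have hbig : v ((x - M.e) ^ 2 * ((M.γ₁ - M.γ₂) ^ 2 + 4 * (x - M.e))) = v (x - M.e) ^ 2 := by
      rw [map_mul, map_pow, hunit, mul_one]
    have hsq : v (2 * y + W.a₁ * x + W.a₃) ^ 2 = v (x - M.e) ^ 2 := by
      rw [← map_pow, hid, Valuation.map_add_eq_of_lt_left _ (by rw [hbig]; exact hsmall), hbig]
    exact (pow_left_inj₀ zero_le zero_le two_ne_zero).mp hsq

/-- Near the node the component of `P` is `cls (v (x(P) - e))` or its inverse. -/
lemma comp_eq_cls_or (M : NodeModel v W) {P : W.Point} (hlo : v M.a < xiVal M P)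
    (hhi : xiVal M P < 1) :
    M.comp P = cls v M.a (xiVal M P) ∨ M.comp P = (cls v M.a (xiVal M P))⁻¹ := by
  rcases P with _ | ⟨x, y, h⟩
  · exact absurd hhi (lt_irrefl _)
  · rw [xiVal_some] at hlo hhi
    rw [xiVal_some, M.comp_some]
    rcases compN_cases M.hδ M.ha ((M.equation_iff x y).mp h.1) with ⟨hZ, -⟩ | ⟨hM, -⟩ |
      ⟨-, -, -, e⟩ | ⟨-, -, -, e⟩
    · exact absurd hZ (not_le.mpr hhi)
    · exact absurd hM (not_le.mpr hlo)
    · exact Or.inl e
    · exact Or.inr e

variable [DecidableEq K]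

/-- An odd-torsion point outside `E⁰` is near the node, strictly between `v a` and `1`, and the
`n`-th power of its distance is an even power of `v a`. -/
lemma xiVal_mid (M : NodeModel v W) {n : ℕ} (hn : Odd n) {P : W.Point} (hP : n • P = 0)
    (hE0 : ¬ M.InE0 P) :
    v M.a < xiVal M P ∧ xiVal M P < 1 ∧ ∃ j : ℕ, xiVal M P ^ n = v M.a ^ (2 * j) := by
  rcases P with _ | ⟨x, y, h⟩
  · exact absurd trivial hE0
  · have hhi : v (x - M.e) < 1 := not_le.mp hE0
    obtain ⟨hlo, j, hj⟩ := M.torsion_near_node hn h hP hhi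
    exact ⟨hlo, hhi, j, hj⟩

end node

section main

variable {K : Type*} [Field K] [DecidableEq K] {Γ₀ : Type*} [LinearOrderedCommGroupWithZero Γ₀]
  {v : Valuation K Γ₀} {W : Affine K}

lemma prod_Ioo_zero_succ {M : Type*} [CommMonoid M] (f : ℕ → M) (n : ℕ) :
    ∏ k ∈ Finset.Ioo 0 (n + 1), f k = ∏ i ∈ Finset.range n, f (i + 1) := by
  refine Finset.prod_nbij' (fun k => k - 1) (fun i => i + 1) ?_ ?_ ?_ ?_ ?_
  · intro k hk
    have := Finset.mem_Ioo.mp hk
    exact Finset.mem_range.mpr (by omega)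
  · intro i hi
    have := Finset.mem_range.mp hi
    exact Finset.mem_Ioo.mpr (by omega)
  · intro k hk
    have := Finset.mem_Ioo.mp hk
    show k - 1 + 1 = k
    omega
  · intro i _
    show i + 1 - 1 = i
    omega
  · intro k hk
    have := Finset.mem_Ioo.mp hk
    show f k = f (k - 1 + 1)
    rw [Nat.sub_add_cancel (by omega)]

/-- A product over `range (m + m)` of a function symmetric under `i ↦ 2m - 1 - i` is a square. -/
lemma prod_range_add_self_of_symm {M : Type*} [CommMonoid M] (g : ℕ → M) (m : ℕ)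
    (hsymm : ∀ i < m, g (m + (m - 1 - i)) = g i) :
    ∏ i ∈ Finset.range (m + m), g i = (∏ i ∈ Finset.range m, g i) ^ 2 := by
  rw [Finset.prod_range_add, pow_two]
  congr 1
  rw [← Finset.prod_range_reflect]
  exact Finset.prod_congr rfl fun i hi => hsymm i (Finset.mem_range.mp hi)

/-- **UVAL (b)-EXACT, abstract form.**  For `Q ∉ E⁰` of odd prime order `p = 2m + 1` on a curve
with a node: `v (∏_{0<k<p} ψ₂(kQ)) ^ p = v(a) ^ (2 m (m+1))`. -/
theorem val_psiProd_pow_of_not_inE0 (M : NodeModel v W) {m : ℕ} (hp : (2 * m + 1).Prime)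
    {Q : W.Point} (hord : addOrderOf Q = 2 * m + 1) (hQ : ¬ M.InE0 Q) :
    v (psiProd W Q (2 * m + 1)) ^ (2 * m + 1) = v M.a ^ (2 * (m * (m + 1))) := by
  have : Fact (2 * m + 1).Prime := ⟨hp⟩
  have hα0 : 0 < v M.a := (Valuation.pos_iff v).mpr M.ha0
  have hodd : Odd (2 * m + 1) := ⟨m, rfl⟩
  have hpQ : (2 * m + 1) • Q = 0 := by rw [← hord]; exact addOrderOf_nsmul_eq_zero Q
  -- the component of `Q` has order `p`
  have hc1 : M.comp Q ≠ 1 := fun h => hQ ((M.comp_eq_one_iff Q).mp h)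
  have hcp : M.comp Q ^ (2 * m + 1) = 1 := by rw [← M.comp_nsmul, hpQ, NodeModel.comp_zero]
  have hco : orderOf (M.comp Q) = 2 * m + 1 := orderOf_eq_prime hcp hc1
  have hdvd : ∀ k : ℕ, M.comp Q ^ k = 1 → (2 * m + 1) ∣ k := fun k hk => by
    rw [← hco]; exact orderOf_dvd_of_pow_eq_one hk
  -- the multiples of `Q`
  have hE0 : ∀ i < 2 * m, ¬ M.InE0 ((i + 1) • Q) := by
    intro i hi h
    have := hdvd (i + 1) (by rw [← M.comp_nsmul]; exact (M.comp_eq_one_iff _).mpr h)
    have := Nat.le_of_dvd (Nat.succ_pos i) this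
    omega
  have hmid : ∀ i < 2 * m, v M.a < xiVal M ((i + 1) • Q) ∧ xiVal M ((i + 1) • Q) < 1 ∧
      ∃ j : ℕ, xiVal M ((i + 1) • Q) ^ (2 * m + 1) = v M.a ^ (2 * j) := fun i hi =>
    xiVal_mid M hodd (by rw [smul_comm, hpQ, smul_zero]) (hE0 i hi)
  -- symmetry
  have hsymm : ∀ i < m, xiVal M ((m + (m - 1 - i) + 1) • Q) = xiVal M ((i + 1) • Q) := by
    intro i hi
    rw [← xiVal_neg M ((i + 1) • Q)]
    congr 1
    rw [eq_neg_iff_add_eq_zero, ← add_smul]
    have : m + (m - 1 - i) + 1 + (i + 1) = 2 * m + 1 := by omega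
    rw [this, hpQ]
  -- injectivity
  have hinj : ∀ i < m, ∀ i' < m,
      xiVal M ((i + 1) • Q) = xiVal M ((i' + 1) • Q) → i = i' := by
    intro i hi i' hi' h
    have h1 := comp_eq_cls_or M (hmid i (by omega)).1 (hmid i (by omega)).2.1
    have h2 := comp_eq_cls_or M (hmid i' (by omega)).1 (hmid i' (by omega)).2.1
    rw [M.comp_nsmul] at h1 h2
    rw [← h] at h2
    have key : M.comp Q ^ (i + 1) = M.comp Q ^ (i' + 1) ∨
        M.comp Q ^ (i + 1) * M.comp Q ^ (i' + 1) = 1 := by
      rcases h1 with h1 | h1 <;> rcases h2 with h2 | h2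
      · exact Or.inl (h1.trans h2.symm)
      · exact Or.inr (by rw [h1, h2, mul_inv_cancel])
      · exact Or.inr (by rw [h1, h2, inv_mul_cancel])
      · exact Or.inl (h1.trans h2.symm)
    rcases key with key | key
    · have hmod := (pow_eq_pow_iff_modEq).mp key
      rw [hco] at hmod
      have := Nat.ModEq.eq_of_lt_of_lt hmod (by omega) (by omega)
      omega
    · rw [← pow_add] at key
      have := Nat.le_of_dvd (by omega) (hdvd _ key)
      omega
  have core := prod_pow_eq_of_injOn hα0 M.ha m (fun i => xiVal M ((i + 1) • Q))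
    (fun i hi => hmid i (by omega)) hinj
  -- assemble
  have hval : v (psiProd W Q (2 * m + 1)) =
      (∏ i ∈ Finset.range m, xiVal M ((i + 1) • Q)) ^ 2 := by
    rw [psiProd, prod_Ioo_zero_succ, map_prod, two_mul,
      ← prod_range_add_self_of_symm (fun i => xiVal M ((i + 1) • Q)) m hsymm]
    refine Finset.prod_congr rfl fun i hi => ?_
    have hi' : i < 2 * m := by have := Finset.mem_range.mp hi; omega
    exact val_psiTwo_eq_xiVal M (hmid i hi').1 (hmid i hi').2.1
  rw [hval, ← pow_mul, mul_comm 2, pow_mul, core, ← pow_mul, mul_comm]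

end main

end Fermat.Agent.S15.H782

end
-- ===== PACK-END S15/H782/UValExact.lean

-- ===== PACK-BEGIN S15/H782/NodeExists.lean
section


/-!
# S15, piece UVAL (helper782): existence of a `NodeModel` at a multiplicative place

`K` algebraically closed of characteristic `≠ 2` with a valuation `v`, `W` a Weierstrass curve with
`v`-integral coefficients, `v c₄ = 1`, `v Δ < 1`, `Δ ≠ 0` (multiplicative reduction; ANY residue
characteristic, including `2` and `3`).  Then there is a `2`-torsion point `(e, f)` of `W`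
reducing to the node, i.e. a `Fermat.Agent.S13.H365.NodeModel v W` with `v e ≤ 1`
(`exists_nodeModel`), and `v Δ = v(a) ^ 2` (`NodeModel.val_Δ`).

The root `e` of the `2`-torsion cubic `4x³ + b₂x² + 2b₄x + b₆ = 4 ∏ (x - eᵢ)` is found by
valuation arguments: with `A(e) = (e - e')(e - e'')`,
* `∏ A(eᵢ) = -Δ/16` (residue characteristic `≠ 2`: all roots are integral);
* `Δ = A(e)² (c₄ - 16 A(e))` (residue characteristic `2`: there is an integral root).
-/

set_option autoImplicit false

namespace Fermat.Agent.S15.H782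

open WeierstrassCurve WeierstrassCurve.Affine
open Fermat.Agent.S05.SameRed (IntegralCoeffs)
open Fermat.Agent.S13.H365

section identities

variable {K : Type*} [Field K] {W : Affine K}

/-- `Δ` and `c₄` in terms of the data of a `2`-torsion point `(e, f)` and the tangent slopes. -/
lemma Δ_c₄_of_nodeData {e f γ₁ γ₂ a : K}
    (h2tors : 2 * f + W.a₁ * e + W.a₃ = 0)
    (hon : f ^ 2 + W.a₁ * e * f + W.a₃ * f = e ^ 3 + W.a₂ * e ^ 2 + W.a₄ * e + W.a₆)
    (hsum : γ₁ + γ₂ = -W.a₁) (hprod : γ₁ * γ₂ = -(W.a₂ + 3 * e))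
    (ha_def : a = 3 * e ^ 2 + 2 * W.a₂ * e + W.a₄ - W.a₁ * f) :
    W.Δ = a ^ 2 * ((γ₁ - γ₂) ^ 4 - 64 * a) ∧ W.c₄ = (γ₁ - γ₂) ^ 4 - 48 * a := by
  have e₁ : W.a₁ = -(γ₁ + γ₂) := by linear_combination hsum
  have e₂ : W.a₂ = -(γ₁ * γ₂) - 3 * e := by linear_combination hprod
  have e₃ : W.a₃ = -2 * f + (γ₁ + γ₂) * e := by linear_combination h2tors - e * hsum
  have e₄ : W.a₄ = a + 3 * e ^ 2 + 2 * (γ₁ * γ₂) * e - (γ₁ + γ₂) * f := by
    linear_combination -ha_def - 2 * e * hprod + f * hsum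
  have e₆ : W.a₆ = f ^ 2 + W.a₁ * e * f + W.a₃ * f - (e ^ 3 + W.a₂ * e ^ 2 + W.a₄ * e) := by
    linear_combination -hon
  rw [e₄, e₃, e₂, e₁] at e₆
  constructor
  · simp only [WeierstrassCurve.Δ, WeierstrassCurve.b₂, WeierstrassCurve.b₄,
      WeierstrassCurve.b₆, WeierstrassCurve.b₈]
    rw [e₆, e₄, e₃, e₂, e₁]
    ring
  · simp only [WeierstrassCurve.c₄, WeierstrassCurve.b₂, WeierstrassCurve.b₄]
    rw [e₄, e₃, e₂, e₁]
    ring

/-- The smoothing parameter attached to a root `e` of the `2`-torsion cubic: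
`a = 3e² + 2a₂e + a₄ - a₁ f` with `f = -(a₁e + a₃)/2`. -/
noncomputable def nodeA (W : Affine K) (e : K) : K :=
  3 * e ^ 2 + 2 * W.a₂ * e + W.a₄ - W.a₁ * (-(W.a₁ * e + W.a₃) / 2)

lemma two_mul_nodeA (h2 : (2 : K) ≠ 0) (e : K) :
    2 * nodeA W e = 6 * e ^ 2 + W.b₂ * e + W.b₄ := by
  simp only [nodeA, WeierstrassCurve.b₂, WeierstrassCurve.b₄]
  field_simp
  ring

/-- Vieta: `A(e₁) = (e₁ - e₂)(e₁ - e₃)`. -/
lemma nodeA_eq_of_vieta (h2 : (2 : K) ≠ 0) {e₁ e₂ e₃ : K}
    (hb₂ : W.b₂ = 4 * -(e₁ + e₂ + e₃)) (hb₄ : 2 * W.b₄ = 4 * (e₁ * e₂ + e₁ * e₃ + e₂ * e₃)) :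
    nodeA W e₁ = (e₁ - e₂) * (e₁ - e₃) := by
  have h := two_mul_nodeA (W := W) h2 e₁
  have h4 : (4 : K) ≠ 0 := by
    have : (4 : K) = 2 * 2 := by norm_num
    rw [this]; exact mul_ne_zero h2 h2
  apply mul_left_cancel₀ h4
  linear_combination 2 * h + 2 * e₁ * hb₂ + hb₄

/-- Vieta: a root of the factored cubic is a root of the `2`-torsion cubic. -/
lemma twoTorsion_root_of_vieta {e₁ e₂ e₃ : K}
    (hb₂ : W.b₂ = 4 * -(e₁ + e₂ + e₃)) (hb₄ : 2 * W.b₄ = 4 * (e₁ * e₂ + e₁ * e₃ + e₂ * e₃))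
    (hb₆ : W.b₆ = 4 * -(e₁ * e₂ * e₃)) :
    4 * e₁ ^ 3 + W.b₂ * e₁ ^ 2 + 2 * W.b₄ * e₁ + W.b₆ = 0 := by
  rw [hb₂, hb₄, hb₆]; ring

/-- Over an algebraically closed field the `2`-torsion cubic splits: Vieta's relations. -/
lemma exists_twoTorsion_roots [IsAlgClosed K] (h2 : (2 : K) ≠ 0) (W : Affine K) :
    ∃ e₁ e₂ e₃ : K, W.b₂ = 4 * -(e₁ + e₂ + e₃) ∧
      2 * W.b₄ = 4 * (e₁ * e₂ + e₁ * e₃ + e₂ * e₃) ∧ W.b₆ = 4 * -(e₁ * e₂ * e₃) ∧
      W.Δ = 16 * ((e₁ - e₂) * (e₁ - e₃) * (e₂ - e₃)) ^ 2 := by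
  have h4 : (4 : K) ≠ 0 := by
    have : (4 : K) = 2 * 2 := by norm_num
    rw [this]; exact mul_ne_zero h2 h2
  have ha : W.twoTorsionPolynomial.a ≠ 0 := h4
  have hsplit : (W.twoTorsionPolynomial.toPoly.map (RingHom.id K)).Splits :=
    IsAlgClosed.splits _
  obtain ⟨x, y, z, h3⟩ := (Cubic.splits_iff_roots_eq_three ha).mp hsplit
  have hb := Cubic.b_eq_three_roots ha h3
  have hc := Cubic.c_eq_three_roots ha h3
  have hd := Cubic.d_eq_three_roots ha h3
  have hD := Cubic.discr_eq_prod_three_roots ha h3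
  simp only [RingHom.id_apply, twoTorsionPolynomial_discr] at hb hc hd hD
  simp only [twoTorsionPolynomial] at hb hc hd hD
  refine ⟨x, y, z, hb, hc, hd, ?_⟩
  have h16 : (16 : K) ≠ 0 := by
    have : (16 : K) = 4 * 4 := by norm_num
    rw [this]; exact mul_ne_zero h4 h4
  apply mul_left_cancel₀ h16
  rw [hD]; ring

end identities

section valuation

variable {K : Type*} [Field K] {Γ₀ : Type*} [LinearOrderedCommGroupWithZero Γ₀]
  {v : Valuation K Γ₀} {W : Affine K}

lemma val_natCast_le_one' (v : Valuation K Γ₀) (n : ℕ) : v (n : K) ≤ 1 := by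
  induction n with
  | zero => simp
  | succ n ih =>
    rw [Nat.cast_succ]
    exact Valuation.map_add_le _ ih (le_of_eq (map_one v))

lemma val_ofNat_le_one (v : Valuation K Γ₀) (n : ℕ) [n.AtLeastTwo] :
    v (OfNat.ofNat n : K) ≤ 1 := by
  rw [← Nat.cast_ofNat]; exact val_natCast_le_one' v n

lemma val_mul_le_one' {x y : K} (hx : v x ≤ 1) (hy : v y ≤ 1) : v (x * y) ≤ 1 := by
  rw [map_mul]; exact mul_le_one' hx hy

lemma val_b₂_le_one (hW : IntegralCoeffs W v) : v W.b₂ ≤ 1 := by
  simp only [WeierstrassCurve.b₂]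
  exact Valuation.map_add_le _ (by rw [map_pow]; exact pow_le_one' hW.a₁ 2)
    (val_mul_le_one' (val_ofNat_le_one v 4) hW.a₂)

lemma val_b₄_le_one (hW : IntegralCoeffs W v) : v W.b₄ ≤ 1 := by
  simp only [WeierstrassCurve.b₄]
  exact Valuation.map_add_le _ (val_mul_le_one' (val_ofNat_le_one v 2) hW.a₄)
    (val_mul_le_one' hW.a₁ hW.a₃)

lemma val_b₆_le_one (hW : IntegralCoeffs W v) : v W.b₆ ≤ 1 := by
  simp only [WeierstrassCurve.b₆]
  exact Valuation.map_add_le _ (by rw [map_pow]; exact pow_le_one' hW.a₃ 2)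
    (val_mul_le_one' (val_ofNat_le_one v 4) hW.a₆)

/-- A non-integral root `e` of the `2`-torsion cubic has `v 4 * v e = v b₂`. -/
lemma val_four_mul_of_root_of_one_lt (hW : IntegralCoeffs W v) {e : K}
    (hroot : 4 * e ^ 3 + W.b₂ * e ^ 2 + 2 * W.b₄ * e + W.b₆ = 0) (he : 1 < v e) :
    v (4 : K) * v e ≤ 1 ∧ (v W.b₂ = 1 → v (4 : K) * v e = 1) := by
  have hpos : 0 < v e := lt_trans zero_lt_one he
  have he2 : 0 < v e ^ 2 := pow_pos hpos 2
  have hlow : v (2 * W.b₄ * e + W.b₆) < v e ^ 2 := by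
    apply Valuation.map_add_lt
    · rw [map_mul]
      calc v (2 * W.b₄) * v e ≤ 1 * v e :=
            mul_le_mul_left (val_mul_le_one' (val_ofNat_le_one v 2) (val_b₄_le_one hW)) _
        _ = v e := one_mul _
        _ = v e * 1 := (mul_one _).symm
        _ < v e * v e := mul_lt_mul_of_pos_left he hpos
        _ = v e ^ 2 := (pow_two _).symm
    · calc v W.b₆ ≤ 1 := val_b₆_le_one hW
        _ < v e ^ 2 := one_lt_pow₀ he two_ne_zero
  have hmid : v (W.b₂ * e ^ 2 + (2 * W.b₄ * e + W.b₆)) ≤ v e ^ 2 := by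
    apply Valuation.map_add_le _ _ hlow.le
    rw [map_mul, map_pow]
    calc v W.b₂ * v e ^ 2 ≤ 1 * v e ^ 2 := mul_le_mul_left (val_b₂_le_one hW) _
      _ = v e ^ 2 := one_mul _
  have h4e : 4 * e ^ 3 = -(W.b₂ * e ^ 2 + (2 * W.b₄ * e + W.b₆)) := by
    linear_combination hroot
  have hval : v (4 : K) * v e * v e ^ 2 = v (W.b₂ * e ^ 2 + (2 * W.b₄ * e + W.b₆)) := by
    rw [← Valuation.map_neg v (W.b₂ * e ^ 2 + _), ← h4e, map_mul, map_pow, mul_assoc,
      ← pow_succ']
  constructor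
  · have : v (4 : K) * v e * v e ^ 2 ≤ 1 * v e ^ 2 := by rw [hval, one_mul]; exact hmid
    exact le_of_mul_le_mul_right this he2
  · intro hb₂
    have heq : v (W.b₂ * e ^ 2 + (2 * W.b₄ * e + W.b₆)) = v e ^ 2 := by
      rw [Valuation.map_add_eq_of_lt_left _ (by rw [map_mul, map_pow, hb₂, one_mul]; exact hlow),
        map_mul, map_pow, hb₂, one_mul]
    rw [heq] at hval
    have : v (4 : K) * v e * v e ^ 2 = 1 * v e ^ 2 := by rw [hval, one_mul]
    exact mul_right_cancel₀ he2.ne' this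

/-- If `v 4 = 1`, every root of the `2`-torsion cubic is integral. -/
lemma val_root_le_one (hW : IntegralCoeffs W v) (h4 : v (4 : K) = 1) {e : K}
    (hroot : 4 * e ^ 3 + W.b₂ * e ^ 2 + 2 * W.b₄ * e + W.b₆ = 0) : v e ≤ 1 := by
  by_contra hcon
  rw [not_le] at hcon
  have := (val_four_mul_of_root_of_one_lt hW hroot hcon).1
  rw [h4, one_mul] at this
  exact absurd hcon (not_lt.mpr this)

/-- `f = -(a₁e + a₃)/2` is integral at an integral root `e` of the `2`-torsion cubic. -/
lemma val_nodeF_le_one (h2 : (2 : K) ≠ 0) (hW : IntegralCoeffs W v) {e : K}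
    (hroot : 4 * e ^ 3 + W.b₂ * e ^ 2 + 2 * W.b₄ * e + W.b₆ = 0) (he : v e ≤ 1) :
    v (-(W.a₁ * e + W.a₃) / 2) ≤ 1 := by
  have h2v : v (2 : K) ≠ 0 := (Valuation.ne_zero_iff v).mpr h2
  have hid : (W.a₁ * e + W.a₃) ^ 2 = -(4 * (e ^ 3 + W.a₂ * e ^ 2 + W.a₄ * e + W.a₆)) := by
    simp only [WeierstrassCurve.b₂, WeierstrassCurve.b₄, WeierstrassCurve.b₆] at hroot
    linear_combination hroot
  have hcub : v (e ^ 3 + W.a₂ * e ^ 2 + W.a₄ * e + W.a₆) ≤ 1 := by
    refine Valuation.map_add_le _ (Valuation.map_add_le _ (Valuation.map_add_le _ ?_ ?_) ?_) hW.a₆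
    · rw [map_pow]; exact pow_le_one' he 3
    · exact val_mul_le_one' hW.a₂ (by rw [map_pow]; exact pow_le_one' he 2)
    · exact val_mul_le_one' hW.a₄ he
  have hsq : v (W.a₁ * e + W.a₃) ^ 2 ≤ v (2 : K) ^ 2 := by
    rw [← map_pow, hid, Valuation.map_neg, map_mul]
    have : (4 : K) = 2 ^ 2 := by norm_num
    rw [this, map_pow]
    calc v (2 : K) ^ 2 * v (e ^ 3 + W.a₂ * e ^ 2 + W.a₄ * e + W.a₆) ≤ v (2 : K) ^ 2 * 1 :=
          mul_le_mul_right hcub _
      _ = v (2 : K) ^ 2 := mul_one _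
  have hle : v (W.a₁ * e + W.a₃) ≤ v (2 : K) :=
    (pow_le_pow_iff_left₀ zero_le zero_le two_ne_zero).mp hsq
  rw [map_div₀, Valuation.map_neg]
  exact (div_le_one₀ (zero_lt_iff.mpr h2v)).mpr hle

lemma val_nodeA_le_one (h2 : (2 : K) ≠ 0) (hW : IntegralCoeffs W v) {e : K}
    (hroot : 4 * e ^ 3 + W.b₂ * e ^ 2 + 2 * W.b₄ * e + W.b₆ = 0) (he : v e ≤ 1) :
    v (nodeA W e) ≤ 1 := by
  have hf := val_nodeF_le_one h2 hW hroot he
  simp only [nodeA]
  rw [sub_eq_add_neg]
  refine Valuation.map_add_le _ (Valuation.map_add_le _ (Valuation.map_add_le _ ?_ ?_) hW.a₄) ?_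
  · exact val_mul_le_one' (val_ofNat_le_one v 3) (by rw [map_pow]; exact pow_le_one' he 2)
  · exact val_mul_le_one' (val_mul_le_one' (val_ofNat_le_one v 2) hW.a₂) he
  · rw [Valuation.map_neg]; exact val_mul_le_one' hW.a₁ hf

/-- **The root near the node.**  There is a root `e` of the `2`-torsion cubic which is integral
and whose smoothing parameter `A(e)` is a non-unit. -/
theorem exists_root_near_node [IsAlgClosed K] (h2 : (2 : K) ≠ 0) (hW : IntegralCoeffs W v)
    (hc₄ : v W.c₄ = 1) (hΔ : v W.Δ < 1) :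
    ∃ e : K, 4 * e ^ 3 + W.b₂ * e ^ 2 + 2 * W.b₄ * e + W.b₆ = 0 ∧ v e ≤ 1 ∧
      v (nodeA W e) < 1 := by
  obtain ⟨e₁, e₂, e₃, hb₂, hb₄, hb₆, hD⟩ := exists_twoTorsion_roots h2 W
  -- the three roots, with the three cyclic forms of Vieta's relations
  have r₁ := twoTorsion_root_of_vieta hb₂ hb₄ hb₆
  have hb₂' : W.b₂ = 4 * -(e₂ + e₁ + e₃) := by rw [hb₂]; ring
  have hb₄' : 2 * W.b₄ = 4 * (e₂ * e₁ + e₂ * e₃ + e₁ * e₃) := by rw [hb₄]; ring
  have hb₆' : W.b₆ = 4 * -(e₂ * e₁ * e₃) := by rw [hb₆]; ring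
  have hb₂'' : W.b₂ = 4 * -(e₃ + e₁ + e₂) := by rw [hb₂]; ring
  have hb₄'' : 2 * W.b₄ = 4 * (e₃ * e₁ + e₃ * e₂ + e₁ * e₂) := by rw [hb₄]; ring
  have hb₆'' : W.b₆ = 4 * -(e₃ * e₁ * e₂) := by rw [hb₆]; ring
  have r₂ := twoTorsion_root_of_vieta hb₂' hb₄' hb₆'
  have r₃ := twoTorsion_root_of_vieta hb₂'' hb₄'' hb₆''
  have A₁ := nodeA_eq_of_vieta h2 hb₂ hb₄
  have A₂ := nodeA_eq_of_vieta h2 hb₂' hb₄'
  have A₃ := nodeA_eq_of_vieta h2 hb₂'' hb₄''
  have h4 : (4 : K) = 2 ^ 2 := by norm_num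
  have h16 : (16 : K) = 2 ^ 4 := by norm_num
  rcases (val_ofNat_le_one v 2).lt_or_eq with h2v | h2v
  · -- residue characteristic `2`
    have hv4 : v (4 : K) < 1 := by
      rw [h4, map_pow]; exact pow_lt_one₀ zero_le h2v two_ne_zero
    have hv16 : v (16 : K) < 1 := by
      rw [h16, map_pow]; exact pow_lt_one₀ zero_le h2v (by norm_num)
    have hvb₂ : v W.b₂ = 1 := by
      have hc : W.c₄ = W.b₂ ^ 2 + -(24 * W.b₄) := by simp only [WeierstrassCurve.c₄]; ring
      have h24 : v (-(24 * W.b₄)) < 1 := by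
        rw [Valuation.map_neg, map_mul]
        have : (24 : K) = 2 * 12 := by norm_num
        rw [this, map_mul]
        calc v (2 : K) * v (12 : K) * v W.b₄ ≤ v (2 : K) * 1 * 1 :=
              mul_le_mul' (mul_le_mul_right (val_ofNat_le_one v 12) _) (val_b₄_le_one hW)
          _ = v (2 : K) := by rw [mul_one, mul_one]
          _ < 1 := h2v
      have hsq : v (W.b₂ ^ 2) = 1 := by
        by_contra hne
        have hlt : v (W.b₂ ^ 2) < 1 :=
          lt_of_le_of_ne (by rw [map_pow]; exact pow_le_one' (val_b₂_le_one hW) 2) hne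
        have : v W.c₄ < 1 := by rw [hc]; exact Valuation.map_add_lt _ hlt h24
        rw [hc₄] at this
        exact lt_irrefl _ this
      rw [map_pow] at hsq
      exact (pow_eq_one_iff_of_nonneg zero_le two_ne_zero).mp hsq
    -- an integral root exists
    have hex : ∃ e : K, 4 * e ^ 3 + W.b₂ * e ^ 2 + 2 * W.b₄ * e + W.b₆ = 0 ∧ v e ≤ 1 ∧
        ∃ e' e'' : K, nodeA W e = (e - e') * (e - e'') ∧
          W.Δ = 16 * ((e - e') * (e - e'') * (e' - e'')) ^ 2 ∧
          W.b₂ = 4 * -(e + e' + e'') ∧ 2 * W.b₄ = 4 * (e * e' + e * e'' + e' * e'') := by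
      by_contra hcon
      push Not at hcon
      have n₁ : 1 < v e₁ := by
        by_contra h
        exact hcon e₁ r₁ (not_lt.mp h) e₂ e₃ A₁ hD hb₂ hb₄
      have n₂ : 1 < v e₂ := by
        by_contra h
        exact hcon e₂ r₂ (not_lt.mp h) e₁ e₃ A₂ (by rw [hD]; ring) hb₂' hb₄'
      have n₃ : 1 < v e₃ := by
        by_contra h
        exact hcon e₃ r₃ (not_lt.mp h) e₁ e₂ A₃ (by rw [hD]; ring) hb₂'' hb₄''
      have m₁ := (val_four_mul_of_root_of_one_lt hW r₁ n₁).2 hvb₂
      have m₂ := (val_four_mul_of_root_of_one_lt hW r₂ n₂).2 hvb₂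
      have m₃ := (val_four_mul_of_root_of_one_lt hW r₃ n₃).2 hvb₂
      have hb₆v : v W.b₆ * v (4 : K) ^ 2 = 1 := by
        rw [hb₆, map_mul, Valuation.map_neg, map_mul, map_mul]
        calc v (4 : K) * (v e₁ * v e₂ * v e₃) * v (4 : K) ^ 2
            = (v (4 : K) * v e₁) * (v (4 : K) * v e₂) * (v (4 : K) * v e₃) := by
              rw [pow_two]
              simp only [mul_comm, mul_left_comm]
          _ = 1 := by rw [m₁, m₂, m₃, one_mul, one_mul]
      have hlt : v W.b₆ * v (4 : K) ^ 2 < 1 := by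
        calc v W.b₆ * v (4 : K) ^ 2 ≤ 1 * v (4 : K) ^ 2 :=
              mul_le_mul_left (val_b₆_le_one hW) _
          _ = v (4 : K) ^ 2 := one_mul _
          _ < 1 := pow_lt_one₀ zero_le hv4 two_ne_zero
      rw [hb₆v] at hlt
      exact lt_irrefl _ hlt
    obtain ⟨e, hroot, he, e', e'', hA, hDe, hbe₂, hbe₄⟩ := hex
    refine ⟨e, hroot, he, ?_⟩
    have hAle := val_nodeA_le_one h2 hW hroot he
    by_contra hnot
    have hA1 : v (nodeA W e) = 1 := le_antisymm hAle (not_lt.mp hnot)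
    -- `Δ = A² (c₄ - 16 A)`
    have hid : W.Δ = nodeA W e ^ 2 * (W.c₄ + -(16 * nodeA W e)) := by
      have hc : W.c₄ = W.b₂ ^ 2 - 12 * (2 * W.b₄) := by
        simp only [WeierstrassCurve.c₄]; ring
      rw [hDe, hc, hA, hbe₂, hbe₄]; ring
    have h16A : v (-(16 * nodeA W e)) < 1 := by
      rw [Valuation.map_neg, map_mul, hA1, mul_one]; exact hv16
    have : v W.Δ = 1 := by
      rw [hid, map_mul, map_pow, hA1, one_pow, one_mul,
        Valuation.map_add_eq_of_lt_left _ (by rw [hc₄]; exact h16A), hc₄]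
    rw [this] at hΔ
    exact lt_irrefl _ hΔ
  · -- residue characteristic `≠ 2`: all roots are integral
    have hv4 : v (4 : K) = 1 := by rw [h4, map_pow, h2v, one_pow]
    have hv16 : v (16 : K) = 1 := by rw [h16, map_pow, h2v, one_pow]
    have hprod : v (nodeA W e₁) * v (nodeA W e₂) * v (nodeA W e₃) = v W.Δ := by
      have : W.Δ = -(16 * (nodeA W e₁ * nodeA W e₂ * nodeA W e₃)) := by
        rw [hD, A₁, A₂, A₃]; ring
      rw [this, Valuation.map_neg, map_mul, hv16, one_mul, map_mul, map_mul]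
    by_contra hcon
    push Not at hcon
    have k₁ : 1 ≤ v (nodeA W e₁) := by
      by_contra h
      exact absurd (not_le.mp h) (not_lt.mpr (hcon e₁ r₁ (val_root_le_one hW hv4 r₁)))
    have k₂ : 1 ≤ v (nodeA W e₂) := by
      by_contra h
      exact absurd (not_le.mp h) (not_lt.mpr (hcon e₂ r₂ (val_root_le_one hW hv4 r₂)))
    have k₃ : 1 ≤ v (nodeA W e₃) := by
      by_contra h
      exact absurd (not_le.mp h) (not_lt.mpr (hcon e₃ r₃ (val_root_le_one hW hv4 r₃)))
    have : 1 ≤ v W.Δ := by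
      rw [← hprod]
      exact one_le_mul_of_one_le_of_one_le (one_le_mul_of_one_le_of_one_le k₁ k₂) k₃
    exact absurd hΔ (not_lt.mpr this)

/-- **Existence of a node model** at a multiplicative place of an algebraically closed valued
field of characteristic `≠ 2` (any residue characteristic). -/
theorem exists_nodeModel [IsAlgClosed K] (h2 : (2 : K) ≠ 0) (hW : IntegralCoeffs W v)
    (hc₄ : v W.c₄ = 1) (hΔ : v W.Δ < 1) (hΔ0 : W.Δ ≠ 0) :
    ∃ M : NodeModel v W, v M.e ≤ 1 := by
  obtain ⟨e, hroot, he, hA⟩ := exists_root_near_node h2 hW hc₄ hΔ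
  obtain ⟨s, hs⟩ := IsAlgClosed.exists_eq_mul_self (W.b₂ + 12 * e)
  have h2tors : 2 * (-(W.a₁ * e + W.a₃) / 2) + W.a₁ * e + W.a₃ = 0 := by
    field_simp; ring
  have hon : (-(W.a₁ * e + W.a₃) / 2) ^ 2 + W.a₁ * e * (-(W.a₁ * e + W.a₃) / 2)
      + W.a₃ * (-(W.a₁ * e + W.a₃) / 2) = e ^ 3 + W.a₂ * e ^ 2 + W.a₄ * e + W.a₆ := by
    simp only [WeierstrassCurve.b₂, WeierstrassCurve.b₄, WeierstrassCurve.b₆] at hroot
    field_simp
    linear_combination -hroot
  have hsum : (-W.a₁ + s) / 2 + (-W.a₁ - s) / 2 = -W.a₁ := by field_simp; ring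
  have hprod : (-W.a₁ + s) / 2 * ((-W.a₁ - s) / 2) = -(W.a₂ + 3 * e) := by
    simp only [WeierstrassCurve.b₂] at hs
    field_simp
    linear_combination hs
  obtain ⟨hDid, hcid⟩ := Δ_c₄_of_nodeData (a := nodeA W e) h2tors hon hsum hprod rfl
  have hdiff : (-W.a₁ + s) / 2 - (-W.a₁ - s) / 2 = s := by field_simp; ring
  rw [hdiff] at hDid hcid
  have h48 : v (48 * nodeA W e) < 1 := by
    rw [map_mul]
    calc v (48 : K) * v (nodeA W e) ≤ 1 * v (nodeA W e) :=
          mul_le_mul_left (val_ofNat_le_one v 48) _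
      _ = v (nodeA W e) := one_mul _
      _ < 1 := hA
  have hs4 : v s ^ 4 = 1 := by
    have : s ^ 4 = W.c₄ + 48 * nodeA W e := by rw [hcid]; ring
    rw [← map_pow, this, Valuation.map_add_eq_of_lt_left _ (by rw [hc₄]; exact h48), hc₄]
  have hs1 : v s = 1 := (pow_eq_one_iff_of_nonneg zero_le (by norm_num)).mp hs4
  have hA0 : nodeA W e ≠ 0 := by
    intro h0
    rw [h0] at hDid
    exact hΔ0 (by rw [hDid]; ring)
  exact ⟨{ e := e
           f := -(W.a₁ * e + W.a₃) / 2
           γ₁ := (-W.a₁ + s) / 2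
           γ₂ := (-W.a₁ - s) / 2
           a := nodeA W e
           h2tors := h2tors
           hon := hon
           hsum := hsum
           hprod := hprod
           ha_def := rfl
           hδ := by rw [hdiff]; exact hs1
           ha := hA
           ha0 := hA0 }, he⟩

/-- `v Δ = v(a)²` for a node model. -/
theorem nodeModel_val_Δ (M : NodeModel v W) : v W.Δ = v M.a ^ 2 := by
  obtain ⟨hD, -⟩ := Δ_c₄_of_nodeData (W := W) M.h2tors M.hon M.hsum M.hprod M.ha_def
  have h64 : v (-(64 * M.a)) < 1 := by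
    rw [Valuation.map_neg, map_mul]
    calc v (64 : K) * v M.a ≤ 1 * v M.a := mul_le_mul_left (val_ofNat_le_one v 64) _
      _ = v M.a := one_mul _
      _ < 1 := M.ha
  have h1 : v ((M.γ₁ - M.γ₂) ^ 4) = 1 := by rw [map_pow, M.hδ, one_pow]
  rw [hD, map_mul, map_pow, sub_eq_add_neg,
    Valuation.map_add_eq_of_lt_left _ (by rw [h1]; exact h64), h1, mul_one]

end valuation

end Fermat.Agent.S15.H782

end
-- ===== PACK-END S15/H782/NodeExists.lean

-- ===== PACK-BEGIN S19/H195/RedDatum.lean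
section


/-!
# A3 / WP-W4 (helper195): integral Riemann–Roch lattices, abstract form

Language: Prelude `AlgebraicCurve` (`Place`, `Divisor`, `riemannRochSpace`, `genusFF`) + `Lib/RR`.

`RedDatum K F k Fk` : an abstract "good reduction datum" of the function field `F / K` with special
fibre `Fk / k`:

* `V ⊆ F` the Gauss valuation ring (only a subring is required), `red : V → Fk` its reduction;
* the constants `O = V ∩ K` form a valuation ring of `K` with residue field `k`
  (`const_total`, `red_const`, `red_const_surj`, `red_const_unit`);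
* `r : Place K F → Place k Fk` the reduction of points, with `r_* div u = div (red u)` for every
  `u ∈ V` with nonzero reduction (`ord_red`, same shape as the Prelude's `IsPlaceReductionAlong`).

`R.OrthOn W` : the finite-dimensional `K`-subspace `W ⊆ F` has a basis in `V` with `k`-linearly
independent reductions (an "orthonormal basis").

Main results (for `D` a divisor of `F / K`, `L(D) ∩ V` the integral lattice):

* `RedDatum.linearIndependent_of_red`  lifts of `k`-independent reductions are `K`-independent;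
* `RedDatum.coeff_mem_of_red`  lattice property: if `∑ cᵢ wᵢ ∈ V` with `red wᵢ` independent then all
  `cᵢ ∈ O`;
* `RedDatum.redL_le`   `red (L(D) ∩ V) ⊆ L(r_* D)`;
* `RedDatum.finrank_redL`  `dim_k red (L(D) ∩ V) = ℓ(D)`;
* `RedDatum.ell_le_ell_mapDomain`  upper semicontinuity `ℓ(D) ≤ ℓ(r_* D)`;
* `RedDatum.genusFF_le`  `g(Fk) ≤ g(F)`;
* `RedDatum.redL_eq`   **W4**: if `g(F) ≤ g(Fk)` and `deg D > 2 g(Fk) - 2` then
  `red (L(D) ∩ V) = L(r_* D)`;
* `RedDatum.exists_lattice_basis`  **W4, basis form**: a `K`-basis `w` of `L(D)` inside `V` whose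
  reductions form a `k`-basis of `L(r_* D)`, and `L(D) ∩ V = ⊕ O wᵢ`.
-/

set_option autoImplicit false

noncomputable section

open AlgebraicCurve Fermat.Agent.Lib.RR

namespace Fermat.Agent.S19.H195

universe u₁ u₂ u₃ u₄

/-- Abstract good-reduction datum for a function field `F / K` with special fibre `Fk / k`. -/
structure RedDatum (K : Type u₁) (F : Type u₂) (k : Type u₃) (Fk : Type u₄)
    [Field K] [Field F] [Algebra K F] [Field k] [Field Fk] [Algebra k Fk] where
  /-- the Gauss valuation ring -/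
  V : Subring F
  /-- reduction modulo the maximal ideal of `V` -/
  red : V →+* Fk
  /-- reduction of places -/
  r : Place K F → Place k Fk
  /-- the constants in `V` form a valuation ring of `K` -/
  const_total : ∀ a : K, algebraMap K F a ∈ V ∨ algebraMap K F a⁻¹ ∈ V
  /-- integral constants reduce to constants -/
  red_const : ∀ (a : K) (h : algebraMap K F a ∈ V), ∃ b : k, red ⟨_, h⟩ = algebraMap k Fk b
  /-- every constant of the special fibre is a reduction -/
  red_const_surj : ∀ b : k, ∃ (a : K) (h : algebraMap K F a ∈ V), red ⟨_, h⟩ = algebraMap k Fk b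
  /-- an integral constant with nonzero reduction is a unit -/
  red_const_unit : ∀ (a : K) (h : algebraMap K F a ∈ V), red ⟨_, h⟩ ≠ 0 →
    algebraMap K F a⁻¹ ∈ V
  /-- principal divisors specialise: `r_* div u = div (red u)` -/
  ord_red : ∀ (u : F) (hu : u ∈ V), red ⟨u, hu⟩ ≠ 0 → ∀ D : Divisor K F,
    (∀ P, D P = P.ord u) → ∀ Q, Finsupp.mapDomain r D Q = Q.ord (red ⟨u, hu⟩)

variable {K : Type u₁} {F : Type u₂} {k : Type u₃} {Fk : Type u₄}
  [Field K] [Field F] [Algebra K F] [Field k] [Field Fk] [Algebra k Fk]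

namespace RedDatum

variable (R : RedDatum K F k Fk)

/-- `W` has a basis in `V` with `k`-linearly independent reductions. -/
def OrthOn (W : Submodule K F) : Prop :=
  ∃ (n : ℕ) (w : Fin n → F) (hw : ∀ i, w i ∈ R.V), (∀ i, w i ∈ W) ∧
    W ≤ Submodule.span K (Set.range w) ∧
    LinearIndependent k (fun i => R.red ⟨w i, hw i⟩)

/-! ### Constants -/

theorem red_mk_eq {f g : F} (hf : f ∈ R.V) (hg : g ∈ R.V) (h : f = g) :
    R.red ⟨f, hf⟩ = R.red ⟨g, hg⟩ := by
  subst h; rfl

/-- Among finitely many constants, not all zero, one has maximal absolute value. -/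
theorem exists_max {ι : Type*} (s : Finset ι) (c : ι → K) (h : ∃ i ∈ s, c i ≠ 0) :
    ∃ j ∈ s, c j ≠ 0 ∧ ∀ i ∈ s, algebraMap K F (c i / c j) ∈ R.V := by
  classical
  induction s using Finset.induction_on with
  | empty => obtain ⟨i, hi, -⟩ := h; simp at hi
  | insert a s _ ih =>
    by_cases hs : ∃ i ∈ s, c i ≠ 0
    · obtain ⟨j, hj, hj0, hjs⟩ := ih hs
      by_cases hV : algebraMap K F (c a / c j) ∈ R.V
      · refine ⟨j, Finset.mem_insert_of_mem hj, hj0, fun i hi => ?_⟩
        rcases Finset.mem_insert.mp hi with rfl | hi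
        · exact hV
        · exact hjs i hi
      · have ha0 : c a ≠ 0 := by
          rintro h0
          apply hV
          rw [h0, zero_div, map_zero]
          exact R.V.zero_mem
        have hV' : algebraMap K F (c j / c a) ∈ R.V := by
          have := (R.const_total (c a / c j)).resolve_left hV
          rwa [inv_div] at this
        refine ⟨a, Finset.mem_insert_self a s, ha0, fun i hi => ?_⟩
        rcases Finset.mem_insert.mp hi with rfl | hi
        · rw [div_self ha0, map_one]; exact R.V.one_mem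
        · have h1 := R.V.mul_mem (hjs i hi) hV'
          rw [← map_mul] at h1
          have h2 : c i / c j * (c j / c a) = c i / c a := by
            field_simp
          rwa [h2] at h1
    · have ha0 : c a ≠ 0 := by
        obtain ⟨i, hi, hi0⟩ := h
        rcases Finset.mem_insert.mp hi with rfl | hi
        · exact hi0
        · exact absurd ⟨i, hi, hi0⟩ hs
      refine ⟨a, Finset.mem_insert_self a s, ha0, fun i hi => ?_⟩
      rcases Finset.mem_insert.mp hi with rfl | hi
      · rw [div_self ha0, map_one]; exact R.V.one_mem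
      · have : c i = 0 := by
          by_contra h0
          exact hs ⟨i, hi, h0⟩
        rw [this, zero_div, map_zero]
        exact R.V.zero_mem


/-! ### Orthogonality -/

/-- Core of all orthogonality arguments: a relation `∑ dᵢ wᵢ = t` with integral coefficients, one of
them equal to `1`, and `red t = 0` contradicts the independence of the `red wᵢ`. -/
theorem false_of_relation {ι : Type*} (w : ι → F) (hw : ∀ i, w i ∈ R.V)
    (hli : LinearIndependent k (fun i => R.red ⟨w i, hw i⟩))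
    (s : Finset ι) (d : ι → K) (hd : ∀ i ∈ s, algebraMap K F (d i) ∈ R.V)
    {j : ι} (hj : j ∈ s) (hdj : d j = 1) {t : F} (ht : t ∈ R.V) (hred : R.red ⟨t, ht⟩ = 0)
    (hsum : ∑ i ∈ s, d i • w i = t) : False := by
  classical
  -- the reductions of the coefficients
  have hb : ∀ i : s, ∃ b : k,
      R.red ⟨algebraMap K F (d i.1), hd i.1 i.2⟩ = algebraMap k Fk b :=
    fun i => R.red_const (d i.1) (hd i.1 i.2)
  choose b hb using hb
  let b' : ι → k := fun i => if h : i ∈ s then b ⟨i, h⟩ else 0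
  have hb' : ∀ i : s, b' i.1 = b i := fun i => by simp [b', i.2]
  let x : R.V := ∑ i ∈ s.attach,
    (⟨algebraMap K F (d i.1), hd i.1 i.2⟩ : R.V) * ⟨w i.1, hw i.1⟩
  have hx : (x : F) = t := by
    rw [← hsum, ← Finset.sum_attach s (fun i => d i • w i)]
    show (R.V.subtype x : F) = _
    rw [map_sum]
    exact Finset.sum_congr rfl fun i _ => (Algebra.smul_def _ _).symm
  have hx0 : R.red x = 0 := by
    have : x = ⟨t, ht⟩ := Subtype.ext hx
    rw [this, hred]
  have hsum' : ∑ i ∈ s, b' i • R.red ⟨w i, hw i⟩ = 0 := by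
    rw [← Finset.sum_attach s (fun i => b' i • R.red ⟨w i, hw i⟩), ← hx0]
    simp only [x, map_sum, map_mul]
    refine Finset.sum_congr rfl fun i _ => ?_
    rw [hb i, hb' i, Algebra.smul_def]
  have h0 := linearIndependent_iff'.mp hli s b' hsum' j hj
  have h1 : algebraMap k Fk (b' j) = 1 := by
    have := hb ⟨j, hj⟩
    rw [hb' ⟨j, hj⟩, ← this]
    have h1 : (⟨algebraMap K F (d j), hd j hj⟩ : R.V) = 1 := by
      apply Subtype.ext
      simp [hdj]
    rw [h1, map_one]
  rw [h0, map_zero] at h1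
  exact zero_ne_one h1

/-- Elements of `V` with `k`-linearly independent reductions are `K`-linearly independent. -/
theorem linearIndependent_of_red {ι : Type*} (w : ι → F) (hw : ∀ i, w i ∈ R.V)
    (hli : LinearIndependent k (fun i => R.red ⟨w i, hw i⟩)) : LinearIndependent K w := by
  classical
  rw [linearIndependent_iff']
  intro s g hg
  by_contra hne
  push Not at hne
  obtain ⟨j, hj, hj0, hjs⟩ := R.exists_max s g hne
  refine R.false_of_relation w hw hli s (fun i => g i / g j) hjs hj (div_self hj0)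
    R.V.zero_mem (map_zero _) ?_
  have : ∑ i ∈ s, (g i / g j) • w i = (g j)⁻¹ • ∑ i ∈ s, g i • w i := by
    rw [Finset.smul_sum]
    refine Finset.sum_congr rfl fun i _ => ?_
    rw [smul_smul, div_eq_inv_mul]
  rw [this, hg, smul_zero]

/-- **Lattice property**: if `∑ cᵢ wᵢ ∈ V` and the `red wᵢ` are `k`-independent, then all
coefficients are integral. -/
theorem coeff_mem_of_red {ι : Type*} (w : ι → F) (hw : ∀ i, w i ∈ R.V)
    (hli : LinearIndependent k (fun i => R.red ⟨w i, hw i⟩))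
    (s : Finset ι) (c : ι → K) (hf : ∑ i ∈ s, c i • w i ∈ R.V) :
    ∀ i ∈ s, algebraMap K F (c i) ∈ R.V := by
  classical
  by_contra hne
  push Not at hne
  obtain ⟨i₀, hi₀, hi₀V⟩ := hne
  have hi₀0 : c i₀ ≠ 0 := by
    rintro h0
    apply hi₀V
    rw [h0, map_zero]
    exact R.V.zero_mem
  obtain ⟨j, hj, hj0, hjs⟩ := R.exists_max s c ⟨i₀, hi₀, hi₀0⟩
  -- `c j` is not integral
  have hjV : algebraMap K F (c j) ∉ R.V := by
    intro h
    apply hi₀V
    have h1 := R.V.mul_mem (hjs i₀ hi₀) h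
    rw [← map_mul, div_mul_cancel₀ _ hj0] at h1
    exact h1
  have hjinv : algebraMap K F (c j)⁻¹ ∈ R.V := (R.const_total (c j)).resolve_left hjV
  have hjred : R.red ⟨_, hjinv⟩ = 0 := by
    by_contra h
    have := R.red_const_unit _ hjinv h
    rw [inv_inv] at this
    exact hjV this
  have ht : algebraMap K F (c j)⁻¹ * ∑ i ∈ s, c i • w i ∈ R.V := R.V.mul_mem hjinv hf
  refine R.false_of_relation w hw hli s (fun i => c i / c j) hjs hj (div_self hj0) ht ?_ ?_
  · have : (⟨_, ht⟩ : R.V) = ⟨_, hjinv⟩ * ⟨_, hf⟩ := Subtype.ext rfl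
    rw [this, map_mul, hjred, zero_mul]
  · rw [← Algebra.smul_def, Finset.smul_sum]
    refine Finset.sum_congr rfl fun i _ => ?_
    rw [smul_smul, div_eq_inv_mul]


/-! ### The reduction of `L(D) ∩ V` -/

/-- The reduction of the integral lattice `L(D) ∩ V`, a `k`-subspace of `Fk`. -/
def redL (D : Divisor K F) : Submodule k Fk where
  carrier := {g | ∃ (f : F) (hf : f ∈ R.V), f ∈ riemannRochSpace D ∧ R.red ⟨f, hf⟩ = g}
  zero_mem' := ⟨0, R.V.zero_mem, Submodule.zero_mem _, map_zero R.red⟩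
  add_mem' := by
    rintro g g' ⟨f, hf, hfD, rfl⟩ ⟨f', hf', hfD', rfl⟩
    exact ⟨f + f', R.V.add_mem hf hf', Submodule.add_mem _ hfD hfD',
      map_add R.red ⟨f, hf⟩ ⟨f', hf'⟩⟩
  smul_mem' := by
    rintro b g ⟨f, hf, hfD, rfl⟩
    obtain ⟨a, ha, hab⟩ := R.red_const_surj b
    refine ⟨algebraMap K F a * f, R.V.mul_mem ha hf, ?_, ?_⟩
    · rw [← Algebra.smul_def]; exact Submodule.smul_mem _ a hfD
    · have : (⟨algebraMap K F a * f, R.V.mul_mem ha hf⟩ : R.V) = ⟨_, ha⟩ * ⟨f, hf⟩ := rfl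
      rw [this, map_mul, hab, Algebra.smul_def]

theorem mem_redL {D : Divisor K F} {g : Fk} :
    g ∈ R.redL D ↔ ∃ (f : F) (hf : f ∈ R.V), f ∈ riemannRochSpace D ∧ R.red ⟨f, hf⟩ = g :=
  Iff.rfl

theorem red_mem_redL {D : Divisor K F} {f : F} (hf : f ∈ R.V) (hfD : f ∈ riemannRochSpace D) :
    R.red ⟨f, hf⟩ ∈ R.redL D :=
  ⟨f, hf, hfD, rfl⟩

theorem mapDomain_nonneg {α β : Type*} (f : α → β) {v : α →₀ ℤ} (hv : 0 ≤ v) :
    0 ≤ Finsupp.mapDomain f v := by
  classical
  rw [Finsupp.le_def]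
  intro b
  rw [Finsupp.mapDomain, Finsupp.sum_apply]
  refine Finset.sum_nonneg fun a _ => ?_
  show 0 ≤ (Finsupp.single (f a) (v a)) b
  rw [Finsupp.single_apply]
  split_ifs
  · exact Finsupp.le_def.mp hv a
  · exact le_rfl

/-- Reduction of divisors preserves the degree (all places have degree one). -/
theorem degree_mapDomain [FF1 K F] [FF1 k Fk] (D : Divisor K F) :
    Divisor.degree (Finsupp.mapDomain R.r D) = Divisor.degree D := by
  induction D using Finsupp.induction with
  | zero => simp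
  | single_add P n D _ _ ih =>
    rw [Finsupp.mapDomain_add, map_add, map_add, ih, Finsupp.mapDomain_single,
      Divisor.degree_single, Divisor.degree_single, deg_eq_one, deg_eq_one]

/-- `red (L(D) ∩ V) ⊆ L(r_* D)`. -/
theorem redL_le [FF1 K F] (D : Divisor K F) :
    R.redL D ≤ riemannRochSpace (Finsupp.mapDomain R.r D) := by
  rintro g ⟨f, hf, hfD, rfl⟩
  rw [mem_L_iff]
  intro Q
  by_cases hg : R.red ⟨f, hf⟩ = 0
  · exact Or.inl hg
  right
  have hf0 : f ≠ 0 := by
    rintro rfl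
    exact hg (map_zero R.red)
  have hE := R.ord_red f hf hg (divOf f hf0) (fun P => divOf_apply f hf0 P) Q
  rw [← hE]
  have hnn : 0 ≤ D + divOf f hf0 := by
    rw [Finsupp.le_def]
    intro P
    have := (mem_L_iff.mp hfD P).resolve_left hf0
    simp only [Finsupp.coe_zero, Pi.zero_apply, Finsupp.coe_add, Pi.add_apply, divOf_apply]
    omega
  have := Finsupp.le_def.mp (mapDomain_nonneg R.r hnn) Q
  rw [Finsupp.mapDomain_add] at this
  simp only [Finsupp.coe_zero, Pi.zero_apply, Finsupp.coe_add, Pi.add_apply] at this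
  omega

/-- Consequences of an orthonormal basis of `L(D)`. -/
theorem exists_basis_of_orthOn [FF1 K F] (D : Divisor K F)
    (horth : R.OrthOn (riemannRochSpace D)) :
    ∃ (w : Fin (ell D) → F) (hw : ∀ i, w i ∈ R.V), (∀ i, w i ∈ riemannRochSpace D) ∧
      LinearIndependent K w ∧ Submodule.span K (Set.range w) = riemannRochSpace D ∧
      LinearIndependent k (fun i => R.red ⟨w i, hw i⟩) ∧
      Submodule.span k (Set.range fun i => R.red ⟨w i, hw i⟩) = R.redL D ∧
      ∀ f ∈ riemannRochSpace D, f ∈ R.V →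
        ∃ c : Fin (ell D) → K, (∀ i, algebraMap K F (c i) ∈ R.V) ∧ f = ∑ i, c i • w i := by
  classical
  obtain ⟨n, w, hw, hwD, hspan, hli⟩ := horth
  have hliK : LinearIndependent K w := R.linearIndependent_of_red w hw hli
  have hspan' : Submodule.span K (Set.range w) = riemannRochSpace D :=
    le_antisymm (Submodule.span_le.mpr (by rintro _ ⟨i, rfl⟩; exact hwD i)) hspan
  have hn : n = ell D := by
    have := finrank_span_eq_card hliK
    rw [hspan', Fintype.card_fin] at this
    exact this.symm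
  subst hn
  have hlat : ∀ f ∈ riemannRochSpace D, f ∈ R.V →
      ∃ c : Fin (ell D) → K, (∀ i, algebraMap K F (c i) ∈ R.V) ∧ f = ∑ i, c i • w i := by
    intro f hfD hfV
    rw [← hspan'] at hfD
    obtain ⟨c, hc⟩ := (Submodule.mem_span_range_iff_exists_fun K).mp hfD
    refine ⟨c, fun i => ?_, hc.symm⟩
    exact R.coeff_mem_of_red w hw hli Finset.univ c (by rw [hc]; exact hfV) i (Finset.mem_univ i)
  refine ⟨w, hw, hwD, hliK, hspan', hli, ?_, hlat⟩
  apply le_antisymm
  · rw [Submodule.span_le]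
    rintro _ ⟨i, rfl⟩
    exact R.red_mem_redL (hw i) (hwD i)
  · rintro g ⟨f, hf, hfD, rfl⟩
    obtain ⟨c, hcV, hfc⟩ := hlat f hfD hf
    have hx : (⟨f, hf⟩ : R.V) = ∑ i, (⟨_, hcV i⟩ : R.V) * ⟨w i, hw i⟩ := by
      apply Subtype.ext
      show f = (R.V.subtype _ : F)
      rw [map_sum, hfc]
      exact Finset.sum_congr rfl fun i _ => Algebra.smul_def _ _
    rw [hx, map_sum]
    refine Submodule.sum_mem _ fun i _ => ?_
    rw [map_mul]
    obtain ⟨b, hb⟩ := R.red_const (c i) (hcV i)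
    rw [hb, ← Algebra.smul_def]
    exact Submodule.smul_mem _ _ (Submodule.subset_span ⟨i, rfl⟩)

/-- `dim_k red (L(D) ∩ V) = ℓ(D)`. -/
theorem finrank_redL [FF1 K F] (D : Divisor K F) (horth : R.OrthOn (riemannRochSpace D)) :
    Module.finrank k (R.redL D) = ell D := by
  obtain ⟨w, hw, -, -, -, hli, hspan, -⟩ := R.exists_basis_of_orthOn D horth
  rw [← hspan, finrank_span_eq_card hli, Fintype.card_fin]

/-- **Upper semicontinuity**: `ℓ(D) ≤ ℓ(r_* D)`. -/
theorem ell_le_ell_mapDomain [FF1 K F] [FF1 k Fk] (D : Divisor K F)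
    (horth : R.OrthOn (riemannRochSpace D)) :
    ell D ≤ ell (Finsupp.mapDomain R.r D) := by
  rw [← R.finrank_redL D horth]
  exact Submodule.finrank_mono (R.redL_le D)

/-- The genus cannot go up under reduction. -/
theorem genusFF_le [FF1 K F] [FF1 k Fk]
    (horth : ∀ D : Divisor K F, R.OrthOn (riemannRochSpace D)) :
    genusFF k Fk ≤ genusFF K F := by
  obtain ⟨v⟩ := FF1.nonempty_place (K := K) (F := F)
  -- a divisor of large degree
  set m : ℤ := 2 * (genusFF k Fk : ℤ) + 2 * (genusFF K F : ℤ) with hm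
  let D : Divisor K F := Finsupp.single v m
  have hdeg : Divisor.degree D = m := by
    simp [D, deg_eq_one]
  have h1 : (ell D : ℤ) = Divisor.degree D + 1 - (genusFF K F : ℤ) :=
    ell_eq_of_degree_gt (by rw [hdeg]; omega)
  have h2 : (ell (Finsupp.mapDomain R.r D) : ℤ)
      = Divisor.degree (Finsupp.mapDomain R.r D) + 1 - (genusFF k Fk : ℤ) :=
    ell_eq_of_degree_gt (by rw [R.degree_mapDomain, hdeg]; omega)
  have h3 := R.ell_le_ell_mapDomain D (horth D)
  rw [R.degree_mapDomain] at h2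
  omega

/-- **W4**: if the genus does not drop and `deg D > 2 g - 2`, the integral lattice `L(D) ∩ V`
reduces ONTO `L(r_* D)`. -/
theorem redL_eq [FF1 K F] [FF1 k Fk] (hg : genusFF K F ≤ genusFF k Fk) (D : Divisor K F)
    (hD : 2 * (genusFF k Fk : ℤ) - 2 < Divisor.degree D)
    (horth : R.OrthOn (riemannRochSpace D)) :
    R.redL D = riemannRochSpace (Finsupp.mapDomain R.r D) := by
  refine Submodule.eq_of_le_of_finrank_le (R.redL_le D) ?_
  rw [R.finrank_redL D horth]
  have h1 := riemann_inequality_genusFF D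
  have h2 : (ell (Finsupp.mapDomain R.r D) : ℤ)
      = Divisor.degree (Finsupp.mapDomain R.r D) + 1 - (genusFF k Fk : ℤ) :=
    ell_eq_of_degree_gt (by rw [R.degree_mapDomain]; exact hD)
  rw [R.degree_mapDomain] at h2
  have : (ell (Finsupp.mapDomain R.r D) : ℤ) ≤ ell D := by
    have : (genusFF K F : ℤ) ≤ genusFF k Fk := by exact_mod_cast hg
    omega
  exact_mod_cast this

/-- In the situation of W4, `ℓ(D) = ℓ(r_* D) = deg D + 1 - g`. -/
theorem ell_eq [FF1 K F] [FF1 k Fk] (hg : genusFF K F ≤ genusFF k Fk) (D : Divisor K F)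
    (hD : 2 * (genusFF k Fk : ℤ) - 2 < Divisor.degree D)
    (horth : R.OrthOn (riemannRochSpace D)) :
    ell D = ell (Finsupp.mapDomain R.r D) ∧
      (ell D : ℤ) = Divisor.degree D + 1 - (genusFF k Fk : ℤ) := by
  have h0 := R.finrank_redL D horth
  rw [R.redL_eq hg D hD horth] at h0
  have h2 : (ell (Finsupp.mapDomain R.r D) : ℤ)
      = Divisor.degree (Finsupp.mapDomain R.r D) + 1 - (genusFF k Fk : ℤ) :=
    ell_eq_of_degree_gt (by rw [R.degree_mapDomain]; exact hD)
  rw [R.degree_mapDomain] at h2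
  have h3 : ell (Finsupp.mapDomain R.r D) = ell D := h0
  exact ⟨h3.symm, by rw [← h3]; exact h2⟩

/-- **W4, basis form**: for `deg D > 2 g - 2` (equal genus) there is a `K`-basis `w` of `L(D)`
inside `V` whose reductions form a `k`-basis of `L(r_* D)`, and `L(D) ∩ V = ⊕ O wᵢ`. -/
theorem exists_lattice_basis [FF1 K F] [FF1 k Fk] (hg : genusFF K F ≤ genusFF k Fk)
    (D : Divisor K F) (hD : 2 * (genusFF k Fk : ℤ) - 2 < Divisor.degree D)
    (horth : R.OrthOn (riemannRochSpace D)) :
    ∃ (w : Fin (ell D) → F) (hw : ∀ i, w i ∈ R.V), (∀ i, w i ∈ riemannRochSpace D) ∧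
      LinearIndependent K w ∧ Submodule.span K (Set.range w) = riemannRochSpace D ∧
      LinearIndependent k (fun i => R.red ⟨w i, hw i⟩) ∧
      Submodule.span k (Set.range fun i => R.red ⟨w i, hw i⟩)
        = riemannRochSpace (Finsupp.mapDomain R.r D) ∧
      ∀ f ∈ riemannRochSpace D, f ∈ R.V →
        ∃ c : Fin (ell D) → K, (∀ i, algebraMap K F (c i) ∈ R.V) ∧ f = ∑ i, c i • w i := by
  obtain ⟨w, hw, h1, h2, h3, h4, h5, h6⟩ := R.exists_basis_of_orthOn D horth
  exact ⟨w, hw, h1, h2, h3, h4, by rw [h5, R.redL_eq hg D hD horth], h6⟩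

end RedDatum

end Fermat.Agent.S19.H195

end
end
-- ===== PACK-END S19/H195/RedDatum.lean

-- ===== PACK-BEGIN S19/H195/MaxPrinciple.lean
section


/-!
# A3 / LOCAL D1–D2 (helper195): maximum principle, surjectivity of `r`, specialisation of classes

For an abstract reduction datum `R : RedDatum K F k Fk` (see `RedDatum.lean`):

* `RedDatum.le_mapDomain_apply`  `D P ≤ (r_* D)(r P)` when `D ≥ 0` on the residue disc of `P`;
* `RedDatum.max_principle`  **D1**: if `f ∈ V` has no poles in the residue disc `r⁻¹(r P)` and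
  `f(P) = c`, then `c ∈ O = V ∩ K` and `(red f)(r P) = red c`;
* `RedDatum.r_surjective`   **D2a**: `r` is onto (if `red` is onto);
* `RedDatum.mapDomain_mem_principal`, `RedDatum.sp`  **D2b**: `r_*` maps principal divisors to
  principal divisors, hence induces `sp : Pic0 K F →+ Pic0 k Fk` (needs the scaling axiom);
* `RedDatum.eq_of_sp_of_ell_eq_one`-type uniqueness is in `Lib/RR/H439`.

(D2c, integral Riemann–Roch, is `RedDatum.redL_eq` / `exists_lattice_basis` in `RedDatum.lean`.)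
-/

set_option autoImplicit false

noncomputable section

open AlgebraicCurve Fermat.Agent.Lib.RR

namespace Fermat.Agent.S19.H195

universe u₁ u₂ u₃ u₄

variable {K : Type u₁} {F : Type u₂} {k : Type u₃} {Fk : Type u₄}
  [Field K] [Field F] [Algebra K F] [Field k] [Field Fk] [Algebra k Fk]

namespace RedDatum

variable (R : RedDatum K F k Fk)

/-- If `D` is non-negative on the fibre of `r` through `a`, then `D a ≤ (r_* D)(r a)`. -/
theorem le_mapDomain_apply {α β : Type*} (r : α → β) (D : α →₀ ℤ) (a : α)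
    (h : ∀ a', r a' = r a → 0 ≤ D a') : D a ≤ Finsupp.mapDomain r D (r a) := by
  classical
  rw [Finsupp.mapDomain, Finsupp.sum_apply]
  show D a ≤ ∑ a' ∈ D.support, (Finsupp.single (r a') (D a')) (r a)
  have hnn : ∀ a' ∈ D.support, 0 ≤ (Finsupp.single (r a') (D a')) (r a) := by
    intro a' _
    rw [Finsupp.single_apply]
    split_ifs with h1
    · exact h a' h1
    · exact le_rfl
  by_cases ha : a ∈ D.support
  · have := Finset.single_le_sum hnn ha
    rwa [Finsupp.single_eq_same] at this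
  · rw [Finsupp.notMem_support_iff.mp ha]
    exact Finset.sum_nonneg hnn

/-- A constant outside `V` has its inverse in
`V` with zero reduction. -/
theorem red_inv_eq_zero {c : K} (hc : algebraMap K F c ∉ R.V) :
    ∃ h : algebraMap K F c⁻¹ ∈ R.V, R.red ⟨_, h⟩ = 0 := by
  have hinv := (R.const_total c).resolve_left hc
  refine ⟨hinv, ?_⟩
  by_contra hne
  have := R.red_const_unit _ hinv hne
  rw [inv_inv] at this
  exact hc this

/-- **D1, maximum principle.**  Let `f ∈ V` have no poles in the residue disc of `P` and value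
`c` at `P`.  Then `c` is integral and `red f` has the value `red c` at `r P`. -/
theorem max_principle [FF1 K F] (P : Place K F) {f : F} (hf : f ∈ R.V)
    (hreg : ∀ Q, R.r Q = R.r P → 0 ≤ Q.ord f) {c : K}
    (hc : f - algebraMap K F c = 0 ∨ 0 < P.ord (f - algebraMap K F c)) :
    ∃ hcV : algebraMap K F c ∈ R.V,
      R.red ⟨f, hf⟩ - R.red ⟨_, hcV⟩ = 0 ∨
        0 < (R.r P).ord (R.red ⟨f, hf⟩ - R.red ⟨_, hcV⟩) := by
  -- regularity of `f - c'` and `c' f` on the disc
  have hmemQ : ∀ Q, R.r Q = R.r P → f ∈ Q.toValuationSubring := fun Q hQ =>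
    mem_of_ord_nonneg Q (hreg Q hQ)
  -- Step 1: `c` is integral
  have hcV : algebraMap K F c ∈ R.V := by
    by_contra hcV
    obtain ⟨hinv, hred0⟩ := R.red_inv_eq_zero hcV
    have hc0 : c ≠ 0 := by
      rintro rfl
      apply hcV
      rw [map_zero]
      exact R.V.zero_mem
    set g : F := algebraMap K F c⁻¹ * f - 1 with hg
    have hgV : g ∈ R.V := R.V.sub_mem (R.V.mul_mem hinv hf) R.V.one_mem
    have hgred : R.red ⟨g, hgV⟩ = -1 := by
      have : (⟨g, hgV⟩ : R.V) = ⟨_, hinv⟩ * ⟨f, hf⟩ - 1 := Subtype.ext rfl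
      rw [this, map_sub, map_mul, hred0, zero_mul, map_one, zero_sub]
    have hgred0 : R.red ⟨g, hgV⟩ ≠ 0 := by
      rw [hgred]; exact neg_ne_zero.mpr one_ne_zero
    have hg0 : g ≠ 0 := by
      rintro h0
      apply hgred0
      have : (⟨g, hgV⟩ : R.V) = 0 := Subtype.ext h0
      rw [this, map_zero]
    have hgeq : g = algebraMap K F c⁻¹ * (f - algebraMap K F c) := by
      rw [hg, mul_sub, ← map_mul, inv_mul_cancel₀ hc0, map_one]
    have hcinv0 : algebraMap K F c⁻¹ ≠ 0 := by
      rw [Ne, map_eq_zero]; exact inv_ne_zero hc0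
    have hordP : 0 < P.ord g := by
      rcases hc with h0 | hpos
      · exact absurd (by rw [hgeq, h0, mul_zero]) hg0
      · have hfc0 : f - algebraMap K F c ≠ 0 := by
          rintro h0
          exact hg0 (by rw [hgeq, h0, mul_zero])
        rw [hgeq, P.ord_mul hcinv0 hfc0, ord_algebraMap, zero_add]
        exact hpos
    have hE := R.ord_red g hgV hgred0 (divOf g hg0) (fun Q => divOf_apply g hg0 Q) (R.r P)
    have hle := le_mapDomain_apply R.r (divOf g hg0) P (fun Q hQ => by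
      rw [divOf_apply]
      apply ord_nonneg_of_mem
      exact sub_mem (mul_mem (Q.algebraMap_mem' _) (hmemQ Q hQ)) (one_mem _))
    rw [hE, divOf_apply, hgred, ord_neg, Place.ord_one] at hle
    omega
  refine ⟨hcV, ?_⟩
  -- Step 2: the value of the reduction
  set h : F := f - algebraMap K F c with hh
  have hhV : h ∈ R.V := R.V.sub_mem hf hcV
  have hhred : R.red ⟨h, hhV⟩ = R.red ⟨f, hf⟩ - R.red ⟨_, hcV⟩ := by
    have : (⟨h, hhV⟩ : R.V) = ⟨f, hf⟩ - ⟨_, hcV⟩ := Subtype.ext rfl
    rw [this, map_sub]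
  rw [← hhred]
  by_cases hred0 : R.red ⟨h, hhV⟩ = 0
  · exact Or.inl hred0
  right
  have hh0 : h ≠ 0 := by
    rintro h0
    apply hred0
    have : (⟨h, hhV⟩ : R.V) = 0 := Subtype.ext h0
    rw [this, map_zero]
  have hordP : 0 < P.ord h := hc.resolve_left hh0
  have hE := R.ord_red h hhV hred0 (divOf h hh0) (fun Q => divOf_apply h hh0 Q) (R.r P)
  have hle := le_mapDomain_apply R.r (divOf h hh0) P (fun Q hQ => by
    rw [divOf_apply]
    apply ord_nonneg_of_mem
    exact sub_mem (hmemQ Q hQ) (Q.algebraMap_mem' _))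
  rw [hE, divOf_apply] at hle
  omega

/-- **D2a**: the reduction of places is onto. -/
theorem r_surjective [FF1 K F] (hsurj : Function.Surjective R.red) :
    Function.Surjective R.r := by
  classical
  intro Q
  obtain ⟨t, ht⟩ := exists_ord_eq_one Q
  obtain ⟨⟨f, hf⟩, hft⟩ := hsurj t
  have ht0 : t ≠ 0 := ne_zero_of_ord_ne_zero Q (by rw [ht]; exact one_ne_zero)
  have hred0 : R.red ⟨f, hf⟩ ≠ 0 := by rw [hft]; exact ht0
  have hf0 : f ≠ 0 := by
    rintro rfl
    exact hred0 (map_zero R.red)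
  have hE := R.ord_red f hf hred0 (divOf f hf0) (fun P => divOf_apply f hf0 P) Q
  rw [hft, ht] at hE
  by_contra hne
  have hQ : Q ∉ Set.range R.r := fun ⟨P, hP⟩ => hne ⟨P, hP⟩
  rw [Finsupp.mapDomain_of_notMem_range _ _ hQ] at hE
  exact zero_ne_one hE

/-- **D2b**: principal divisors specialise to principal divisors. -/
theorem mapDomain_mem_principal
    (hscale : ∀ f : F, f ≠ 0 → ∃ c : K, c ≠ 0 ∧ ∃ h : algebraMap K F c * f ∈ R.V,
      R.red ⟨_, h⟩ ≠ 0)
    {D : Divisor K F} (hD : D ∈ Divisor.principal (K := K) (F := F)) :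
    Finsupp.mapDomain R.r D ∈ Divisor.principal (K := k) (F := Fk) := by
  obtain ⟨f, hf0, hDf⟩ := hD
  obtain ⟨c, hc0, hV, hred⟩ := hscale f hf0
  refine ⟨R.red ⟨_, hV⟩, hred, fun Q => ?_⟩
  refine R.ord_red _ hV hred D (fun P => ?_) Q
  have hc0' : algebraMap K F c ≠ 0 := by rwa [Ne, map_eq_zero]
  rw [hDf P, P.ord_mul hc0' hf0, ord_algebraMap, zero_add]

/-- Specialisation of divisors of degree zero. -/
def spDegZero [FF1 K F] [FF1 k Fk] :
    Divisor.degZero (K := K) (F := F) →+ Divisor.degZero (K := k) (F := Fk) :=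
  ((Finsupp.mapDomain.addMonoidHom R.r).domRestrict _).codRestrict _ fun D => by
    rw [Divisor.mem_degZero]
    show Divisor.degree (Finsupp.mapDomain R.r (D : Divisor K F)) = 0
    rw [R.degree_mapDomain]
    exact D.2

@[simp]
theorem coe_spDegZero [FF1 K F] [FF1 k Fk] (D : Divisor.degZero (K := K) (F := F)) :
    (R.spDegZero D : Divisor k Fk) = Finsupp.mapDomain R.r (D : Divisor K F) := rfl

/-- **D2b**: the specialisation homomorphism `sp : Pic0 K F →+ Pic0 k Fk`. -/
def sp [FF1 K F] [FF1 k Fk]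
    (hscale : ∀ f : F, f ≠ 0 → ∃ c : K, c ≠ 0 ∧ ∃ h : algebraMap K F c * f ∈ R.V,
      R.red ⟨_, h⟩ ≠ 0) :
    Pic0 K F →+ Pic0 k Fk :=
  QuotientAddGroup.map _ _ R.spDegZero (by
    rintro ⟨D, hD0⟩ hD
    simp only [AddSubgroup.mem_addSubgroupOf] at hD ⊢
    exact R.mapDomain_mem_principal hscale hD)

theorem sp_mk [FF1 K F] [FF1 k Fk]
    (hscale : ∀ f : F, f ≠ 0 → ∃ c : K, c ≠ 0 ∧ ∃ h : algebraMap K F c * f ∈ R.V,
      R.red ⟨_, h⟩ ≠ 0)
    (D : Divisor.degZero (K := K) (F := F)) :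
    R.sp hscale (Pic0.mk D) = Pic0.mk (R.spDegZero D) := rfl

end RedDatum

end Fermat.Agent.S19.H195

end
end
-- ===== PACK-END S19/H195/MaxPrinciple.lean

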